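/-
S47, package GAL, part G1e (helper3): the tower `E ⊂ B_i ⊂ B' ⊂ K` is a quaternion tower in the
sense of H89D2; the trace of the lift is `val8` on `Q8`.
-/
import Mathlib
import Fermat.Agent.H3G5
import Fermat.Agent.H89D2
import Fermat.Agent.H46ZMeet

set_option autoImplicit false
set_option maxSynthPendingDepth 3
set_option linter.style.haveILetI false

namespace Fermat.Agent.H3G

open Matrix Module NumberField FLT.ExplicitLift

local notation "Qb" => AlgebraicClosure ℚ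
local notation "GQ" => (AlgebraicClosure ℚ ≃ₐ[ℚ] AlgebraicClosure ℚ)

namespace RD

variable (D : RD) (i : QI)

theorem isQ8Tower : H89D.IsQ8Tower D.E (D.B i) D.B' D.K where
  isGalois_EK := inferInstance
  isGalois_EC := inferInstance
  finrank_EB := D.finrank_EB i
  finrank_BC := D.finrank_BB' i
  finrank_CK := D.finrank_B'K
  sq_eq_one := by
    intro σ
    obtain ⟨τ, hτ, rfl⟩ := autRel_surjective D.cont PM_le_Q8 (normal_subgroupOf Q8) σ
    have h1 : D.ρ (τ * τ) ∈ Q8 := by rw [map_mul]; exact Q8.mul_mem hτ hτ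
    refine Eq.trans (autRel_mul (ρ := D.ρ) PM_le_Q8 (normal_subgroupOf Q8) τ τ hτ hτ h1).symm ?_
    refine (autRel_eq_one_iff D.cont PM_le_Q8 (normal_subgroupOf Q8) _ h1).2 ?_
    rw [map_mul]
    by_cases h2 : D.ρ τ = 1
    · left; rw [h2, one_mul]
    by_cases h3 : D.ρ τ = -1
    · left; rw [h3]; simp
    · right
      rw [← sq]
      exact sq_of_mem_Q8 hτ h2 h3
  fix_of_sq := by
    intro σ hσ x
    obtain ⟨τ, hτ, rfl⟩ := autRel_surjective D.cont (bot_le : (⊥ : Subgroup GG) ≤ Q8)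
      (normal_subgroupOf Q8) σ
    have h1 : D.ρ (τ * τ) ∈ Q8 := by rw [map_mul]; exact Q8.mul_mem hτ hτ
    have h2 : D.ρ (τ * τ) ∈ (⊥ : Subgroup GG) :=
      (autRel_eq_one_iff D.cont (bot_le : (⊥ : Subgroup GG) ≤ Q8) (normal_subgroupOf Q8) _ h1).1
        (Eq.trans (autRel_mul (ρ := D.ρ) bot_le (normal_subgroupOf Q8) τ τ hτ hτ h1) hσ)
    rw [Subgroup.mem_bot, map_mul, ← sq] at h2
    have h3 : D.ρ τ ∈ PM := by
      by_contra hcon
      rw [mem_PM, not_or] at hcon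
      have h4 := sq_of_mem_Q8 hτ hcon.1 hcon.2
      exact one_ne_neg_one (h2.symm.trans h4)
    apply Subtype.ext
    exact mem_fld.1 x.2 τ h3

end RD

/-! ### `val8` -/

section val8

open H46Z

theorem val8_one : val8 1 = 2 := by simp [val8]

theorem val8_neg_one : val8 (-1) = -2 := by
  simp [val8, one_ne_neg_one.symm]

theorem val8_of_ne {g : GG} (h1 : g ≠ 1) (h2 : g ≠ -1) : val8 g = 0 := by
  simp [val8, h1, h2]

theorem val8_neg (g : GG) : val8 (-g) = -val8 g := by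
  by_cases h1 : g = 1
  · rw [h1, val8_one, val8_neg_one]
  by_cases h2 : g = -1
  · rw [h2, neg_neg, val8_one, val8_neg_one, neg_neg]
  · rw [val8_of_ne h1 h2, val8_of_ne (fun h => h2 (by rw [← h, neg_neg]))
      (fun h => h1 (neg_injective h)), neg_zero]

theorem val8_inv (g : GG) : val8 g⁻¹ = val8 g := by
  by_cases h1 : g = 1
  · rw [h1, inv_one]
  by_cases h2 : g = -1
  · rw [h2, inv_neg, inv_one]
  · rw [val8_of_ne h1 h2, val8_of_ne (fun h => h1 (inv_eq_one.1 h)) (fun h => h2 ?_)]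
    rw [← inv_inv g, h, inv_neg, inv_one]

theorem val8_conj (g h : GG) : val8 (h * g * h⁻¹) = val8 g := by
  by_cases h1 : g = 1
  · rw [h1, mul_one, mul_inv_cancel]
  by_cases h2 : g = -1
  · rw [h2]; simp
  · rw [val8_of_ne h1 h2, val8_of_ne (fun h3 => h1 ?_) (fun h3 => h2 ?_)]
    · exact conj_eq_one_iff.1 h3
    · have : g = h⁻¹ * (-1) * h := by rw [← h3]; group
      rw [this]; simp

variable {Ψ : GL (Fin 2) (ZMod 3) →* GL (Fin 2) (ℤ√(-2))}
  (hΨ : ∀ g, Matrix.GeneralLinearGroup.map red (Ψ g) = g)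

include hΨ in
/-- on `Q8` the trace of the lift is `val8` -/
theorem map_ptr_eq_val8 {R : Type*} [CommRing R] [Algebra ℝ R] (ι : ℤ√(-2) →+* R) {g : GG}
    (hg : g ∈ Q8) : ι (ptr Ψ g) = algebraMap ℝ R (val8 g) := by
  by_cases h1 : g = 1
  · rw [h1, ptr_one, val8_one, map_ofNat, map_ofNat]
  by_cases h2 : g = -1
  · rw [h2, ptr_neg_one hΨ, val8_neg_one, map_neg, map_neg, map_ofNat, map_ofNat]
  · rw [ptr_of_mem_Q8 hΨ hg h1 h2, val8_of_ne h1 h2, map_zero, map_zero]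

include hΨ in
/-- on `Q8` the trace of the lift is `val8` (complex numbers) -/
theorem map_ptr_eq_val8' (ι : ℤ√(-2) →+* ℂ) {g : GG} (hg : g ∈ Q8) :
    ι ((Ψ g : GL (Fin 2) (ℤ√(-2))) : Matrix (Fin 2) (Fin 2) (ℤ√(-2))).trace = (val8 g : ℂ) :=
  map_ptr_eq_val8 hΨ ι hg

include hΨ in
/-- outside of `SL`: `(tr Ψ(g)) ^ 2 = val8 (g ^ 2) - 2` -/
theorem map_ptr_sq_eq (ι : ℤ√(-2) →+* ℂ) {g : GG} (hg : g ∉ SL) :
    (ι ((Ψ g : GL (Fin 2) (ℤ√(-2))) : Matrix (Fin 2) (Fin 2) (ℤ√(-2))).trace) ^ 2 =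
      (val8 (g ^ 2) : ℂ) - 2 := by
  have h := ptr_sq_of_not_mem hΨ hg
  have h1 := congrArg ι h
  rw [map_pow, map_sub, map_ofNat, ← sq, map_ptr_eq_val8 hΨ ι (sq_mem_Q8_of_not_mem_SL hg)] at h1
  exact h1

/-- values of `val8` at the squares of elements of determinant `-1`: `2` or `0` -/
theorem val8_sq_of_not_mem {g : GG} (hg : g ∉ SL) :
    (g ^ 2 = 1 ∧ val8 (g ^ 2) = 2) ∨ (g ^ 2 ≠ 1 ∧ val8 (g ^ 2) = 0) := by
  by_cases h : g ^ 2 = 1
  · left
    exact ⟨h, by rw [h, val8_one]⟩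
  · right
    exact ⟨h, val8_of_ne h (sq_ne_neg_one_of_not_mem_SL hg)⟩

end val8

end Fermat.Agent.H3G
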