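import Mathlib
import Fermat.Agent.H47TClass

/-!
# Decomposition groups and Frobenius elements in the language of places of number fields
-/

set_option autoImplicit false
set_option linter.unusedSectionVars false

noncomputable section

namespace Fermat.Agent.H89D

open IsDedekindDomain NumberField
open scoped Pointwise

section basic

variable {F L : Type*} [Field F] [Field L] [NumberField L] [Algebra F L]

theorem smulPlace_one (w : HeightOneSpectrum (𝓞 L)) : H47.smulPlace (1 : L ≃ₐ[F] L) w = w :=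
  HeightOneSpectrum.ext (one_smul _ _)

theorem smulPlace_mul (σ τ : L ≃ₐ[F] L) (w : HeightOneSpectrum (𝓞 L)) :
    H47.smulPlace (σ * τ) w = H47.smulPlace σ (H47.smulPlace τ w) :=
  HeightOneSpectrum.ext (mul_smul _ _ _)

theorem smulPlace_injective (σ : L ≃ₐ[F] L) : Function.Injective (H47.smulPlace σ) := by
  intro w w' h
  have h2 := congrArg (H47.smulPlace σ⁻¹) h
  rwa [← smulPlace_mul, ← smulPlace_mul, inv_mul_cancel, smulPlace_one, smulPlace_one] at h2

/-- The decomposition group. -/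
def dec (F : Type*) {L : Type*} [Field F] [Field L] [NumberField L] [Algebra F L]
    (Q : HeightOneSpectrum (𝓞 L)) : Subgroup (L ≃ₐ[F] L) where
  carrier := {σ | H47.smulPlace σ Q = Q}
  one_mem' := smulPlace_one Q
  mul_mem' {σ τ} hσ hτ := by
    change H47.smulPlace (σ * τ) Q = Q
    rw [smulPlace_mul, show H47.smulPlace τ Q = Q from hτ, show H47.smulPlace σ Q = Q from hσ]
  inv_mem' {σ} hσ := by
    change H47.smulPlace σ⁻¹ Q = Q
    apply smulPlace_injective σ
    rw [← smulPlace_mul, mul_inv_cancel, smulPlace_one]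
    exact hσ.symm

theorem mem_dec {σ : L ≃ₐ[F] L} {Q : HeightOneSpectrum (𝓞 L)} :
    σ ∈ dec F Q ↔ H47.smulPlace σ Q = Q := Iff.rfl

theorem dec_eq_stabilizer (Q : HeightOneSpectrum (𝓞 L)) :
    dec F Q = MulAction.stabilizer (L ≃ₐ[F] L) Q.asIdeal := by
  ext σ
  rw [mem_dec, MulAction.mem_stabilizer_iff]
  exact ⟨fun h => congrArg HeightOneSpectrum.asIdeal h, fun h => HeightOneSpectrum.ext h⟩

end basic

section frob

variable {F L : Type*} [Field F] [NumberField F] [Field L] [NumberField L] [Algebra F L]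

/-- **Frobenius** at an unramified place: generates the decomposition group. -/
theorem exists_frob [IsGalois F L] {w : HeightOneSpectrum (𝓞 F)} {Q : HeightOneSpectrum (𝓞 L)}
    (hQ : Q ∈ H82.above L w) (he : w.asIdeal.ramificationIdx' Q.asIdeal = 1) :
    ∃ φ : L ≃ₐ[F] L, (∀ x : 𝓞 L, φ • x - x ^ Nat.card (𝓞 F ⧸ w.asIdeal) ∈ Q.asIdeal) ∧
      dec F Q = Subgroup.zpowers φ ∧ orderOf φ = w.asIdeal.inertiaDeg' Q.asIdeal := by
  have : Q.asIdeal.LiesOver w.asIdeal := ⟨hQ.symm⟩
  have hmax := w.isMaximal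
  have hmaxQ := Q.isMaximal
  let : Field (𝓞 F ⧸ w.asIdeal) := Ideal.Quotient.field _
  let : Field (𝓞 L ⧸ Q.asIdeal) := Ideal.Quotient.field _
  have hfin : Finite (𝓞 F ⧸ w.asIdeal) := Ideal.finiteQuotientOfFreeOfNeBot _ w.ne_bot
  have hfinQ : Finite (𝓞 L ⧸ Q.asIdeal) := Ideal.finiteQuotientOfFreeOfNeBot _ Q.ne_bot
  let := Fintype.ofFinite (𝓞 F ⧸ w.asIdeal)
  have h1 := Ideal.card_inertia_eq_ramificationIdxIn (G := L ≃ₐ[F] L) w.asIdeal Q.asIdeal
  rw [Ideal.ramificationIdxIn_eq_ramificationIdx w.asIdeal Q.asIdeal (L ≃ₐ[F] L),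
    ← Ideal.ramificationIdx'_eq_ramificationIdx _ _ w.ne_bot, he] at h1
  have hin : ∀ σ : L ≃ₐ[F] L, (∀ x : 𝓞 L, σ • x - x ∈ Q.asIdeal) → σ = 1 := by
    intro σ hσ
    have h2 : Subsingleton (Q.asIdeal.inertia (L ≃ₐ[F] L)) :=
      (Nat.card_eq_one_iff_unique.1 h1).1
    have h3 := h2.elim ⟨σ, hσ⟩ 1
    exact congrArg Subtype.val h3
  have hinj : Function.Injective (Ideal.Quotient.stabilizerHom Q.asIdeal w.asIdeal (L ≃ₐ[F] L)) := by
    rw [injective_iff_map_eq_one]
    intro σ hσ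
    apply Subtype.ext
    refine hin σ.1 fun x => ?_
    have h4 := AlgEquiv.congr_fun hσ (Ideal.Quotient.mk _ x)
    rw [Ideal.Quotient.stabilizerHom_apply, AlgEquiv.one_apply] at h4
    exact (Ideal.Quotient.mk_eq_mk_iff_sub_mem _ _).1 h4
  obtain ⟨φ, hφ⟩ := Ideal.Quotient.stabilizerHom_surjective (L ≃ₐ[F] L) w.asIdeal Q.asIdeal
    (FiniteField.frobeniusAlgEquivOfAlgebraic (𝓞 F ⧸ w.asIdeal) (𝓞 L ⧸ Q.asIdeal))
  refine ⟨φ.1, fun x => ?_, ?_, ?_⟩
  · have h4 := AlgEquiv.congr_fun hφ (Ideal.Quotient.mk _ x)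
    rw [Ideal.Quotient.stabilizerHom_apply, FiniteField.coe_frobeniusAlgEquivOfAlgebraic] at h4
    rw [← Ideal.Quotient.mk_eq_mk_iff_sub_mem, Nat.card_eq_fintype_card, map_pow]
    exact h4
  · apply le_antisymm
    · intro σ hσ
      rw [dec_eq_stabilizer] at hσ
      obtain ⟨n, hn⟩ := (FiniteField.bijective_frobeniusAlgEquivOfAlgebraic_pow
        (𝓞 F ⧸ w.asIdeal) (𝓞 L ⧸ Q.asIdeal)).2
        (Ideal.Quotient.stabilizerHom Q.asIdeal w.asIdeal (L ≃ₐ[F] L) ⟨σ, hσ⟩)
      have h5 : φ ^ n.1 = ⟨σ, hσ⟩ := by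
        apply hinj
        rw [map_pow, hφ]
        exact hn
      exact ⟨n.1, by
        have := congrArg Subtype.val h5
        simpa using this⟩
    · rw [Subgroup.zpowers_le, dec_eq_stabilizer]
      exact φ.2
  · rw [Subgroup.orderOf_coe, ← orderOf_injective _ hinj, hφ,
      FiniteField.orderOf_frobeniusAlgEquivOfAlgebraic, Ideal.inertiaDeg'_algebraMap]

theorem above_eq_range [IsGalois F L] {w : HeightOneSpectrum (𝓞 F)}
    {Q : HeightOneSpectrum (𝓞 L)} (hQ : Q ∈ H82.above L w) :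
    H82.above L w = Set.range (fun σ : L ≃ₐ[F] L => H47.smulPlace σ Q) := by
  ext Q'
  constructor
  · intro hQ'
    exact H47.exists_smulPlace_eq hQ hQ'
  · rintro ⟨σ, rfl⟩
    exact H47.smulPlace_mem_above σ hQ

/-- The orbit-stabiliser formula. -/
theorem ncard_above_mul_card_dec [IsGalois F L] {w : HeightOneSpectrum (𝓞 F)}
    {Q : HeightOneSpectrum (𝓞 L)} (hQ : Q ∈ H82.above L w) :
    (H82.above L w).ncard * Nat.card (dec F Q) = Module.finrank F L := by
  have : FiniteDimensional F L := Module.Finite.of_restrictScalars_finite ℚ F L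
  rw [← IsGalois.card_aut_eq_finrank, ← Subgroup.card_mul_index (dec F Q), mul_comm]
  congr 1
  rw [← Nat.card_coe_set_eq, above_eq_range hQ, Subgroup.index]
  apply Nat.card_congr
  symm
  refine Equiv.ofBijective (Quotient.lift (fun σ => (⟨H47.smulPlace σ Q, σ, rfl⟩ :
    Set.range (fun σ : L ≃ₐ[F] L => H47.smulPlace σ Q))) ?_) ⟨?_, ?_⟩
  · intro a b hab
    have h1 : a⁻¹ * b ∈ dec F Q := QuotientGroup.leftRel_apply.1 hab
    apply Subtype.ext
    change H47.smulPlace a Q = H47.smulPlace b Q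
    rw [mem_dec, smulPlace_mul] at h1
    have h2 := congrArg (H47.smulPlace a) h1
    rw [← smulPlace_mul, mul_inv_cancel, smulPlace_one] at h2
    exact h2.symm
  · intro a b hab
    induction a using Quotient.inductionOn with
    | _ a =>
    induction b using Quotient.inductionOn with
    | _ b =>
    have h1 : H47.smulPlace a Q = H47.smulPlace b Q := congrArg Subtype.val hab
    apply Quotient.sound
    apply QuotientGroup.leftRel_apply.2
    rw [mem_dec, smulPlace_mul, ← h1, ← smulPlace_mul, inv_mul_cancel, smulPlace_one]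
  · rintro ⟨_, σ, rfl⟩
    exact ⟨Quotient.mk _ σ, rfl⟩

theorem nonSplit_iff [IsGalois F L] {w : HeightOneSpectrum (𝓞 F)}
    {Q : HeightOneSpectrum (𝓞 L)} (hQ : Q ∈ H82.above L w) :
    H82.NonSplit L w ↔ ∀ σ : L ≃ₐ[F] L, H47.smulPlace σ Q = Q := by
  constructor
  · intro h σ
    obtain ⟨Q', hQ'⟩ := Set.ncard_eq_one.1 h
    have h1 : Q ∈ ({Q'} : Set _) := hQ' ▸ hQ
    have h2 : H47.smulPlace σ Q ∈ ({Q'} : Set _) := hQ' ▸ H47.smulPlace_mem_above σ hQ
    rw [Set.mem_singleton_iff] at h1 h2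
    rw [h1] at h2 ⊢
    exact h2
  · intro h
    refine Set.ncard_eq_one.2 ⟨Q, ?_⟩
    rw [above_eq_range hQ]
    ext Q'
    simp only [Set.mem_range, Set.mem_singleton_iff, h, exists_const]
    exact eq_comm

theorem finite_above (w : HeightOneSpectrum (𝓞 F)) : (H82.above L w).Finite := by
  have h : (HeightOneSpectrum.asIdeal '' (H82.above L w)).Finite := by
    refine (Algebra.QuasiFinite.finite_primesOver (S := 𝓞 L) w.asIdeal).subset ?_
    rintro _ ⟨Q, hQ, rfl⟩
    exact ⟨Q.isPrime, ⟨hQ.symm⟩⟩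
  exact Set.Finite.of_finite_image h (fun a _ b _ h => HeightOneSpectrum.ext h)

end frob

section tower

variable {E M L : Type*} [Field E] [NumberField E] [Field M] [NumberField M] [Field L]
  [NumberField L] [Algebra E M] [Algebra M L] [Algebra E L] [IsScalarTower E M L]

theorem mem_above_trans {w : HeightOneSpectrum (𝓞 E)} {P : HeightOneSpectrum (𝓞 M)}
    {Q : HeightOneSpectrum (𝓞 L)} (hP : P ∈ H82.above M w) (hQ : Q ∈ H82.above L P) :
    Q ∈ H82.above L w := by
  change Q.asIdeal.under (𝓞 E) = w.asIdeal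
  rw [← Ideal.under_under (B := 𝓞 M), show Q.asIdeal.under (𝓞 M) = P.asIdeal from hQ]
  exact hP

theorem below_mem_above {w : HeightOneSpectrum (𝓞 E)} {Q : HeightOneSpectrum (𝓞 L)}
    (hQ : Q ∈ H82.above L w) : H47.below M Q ∈ H82.above M w := by
  change (Q.asIdeal.under (𝓞 M)).under (𝓞 E) = w.asIdeal
  rw [Ideal.under_under]
  exact hQ

theorem smulPlace_restrictScalars (σ : L ≃ₐ[M] L) (Q : HeightOneSpectrum (𝓞 L)) :
    H47.smulPlace (σ.restrictScalars E) Q = H47.smulPlace σ Q := rfl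

theorem below_smulPlace (σ : L ≃ₐ[E] L) (σ' : M ≃ₐ[E] M)
    (h : ∀ x : M, σ (algebraMap M L x) = algebraMap M L (σ' x)) (Q : HeightOneSpectrum (𝓞 L)) :
    H47.below M (H47.smulPlace σ Q) = H47.smulPlace σ' (H47.below M Q) := by
  apply HeightOneSpectrum.ext
  ext a
  change algebraMap (𝓞 M) (𝓞 L) a ∈ σ • Q.asIdeal ↔ a ∈ σ' • (Q.asIdeal.under (𝓞 M))
  rw [Ideal.mem_pointwise_smul_iff_inv_smul_mem, Ideal.mem_pointwise_smul_iff_inv_smul_mem,
    Ideal.mem_comap]
  have : σ⁻¹ • (algebraMap (𝓞 M) (𝓞 L) a) = algebraMap (𝓞 M) (𝓞 L) (σ'⁻¹ • a) := by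
    apply RingOfIntegers.coe_injective
    change σ⁻¹ (algebraMap M L (a : M)) = algebraMap M L (σ'⁻¹ (a : M))
    apply σ.injective
    rw [h]
    change (σ * σ⁻¹) _ = algebraMap M L ((σ' * σ'⁻¹) (a : M))
    rw [mul_inv_cancel, mul_inv_cancel]
    rfl
  rw [this]

/-- The decomposition group at the place below is the restriction of the decomposition group. -/
theorem mem_dec_below_iff [IsGalois E L] [Normal E M] {Q : HeightOneSpectrum (𝓞 L)}
    {σ' : M ≃ₐ[E] M} :
    σ' ∈ dec E (H47.below M Q) ↔ ∃ σ ∈ dec E Q, AlgEquiv.restrictNormal σ M = σ' := by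
  constructor
  · intro h
    obtain ⟨σ, hσ⟩ := AlgEquiv.restrictNormalHom_surjective (F := E) (K₁ := M) L σ'
    have hσ' : ∀ x : M, σ (algebraMap M L x) = algebraMap M L (σ' x) := by
      intro x
      rw [← hσ]
      exact (AlgEquiv.restrictNormal_commutes σ M x).symm
    have h1 : H47.smulPlace σ Q ∈ H82.above L (H47.below M Q) := by
      change _ = _
      have := below_smulPlace σ σ' hσ' Q
      rw [show H47.smulPlace σ' (H47.below M Q) = H47.below M Q from h] at this
      exact congrArg HeightOneSpectrum.asIdeal this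
    have : IsGalois M L := IsGalois.tower_top_of_isGalois E M L
    obtain ⟨η, hη⟩ := H47.exists_smulPlace_eq h1 (H47.mem_above_below Q)
    refine ⟨η.restrictScalars E * σ, ?_, ?_⟩
    · rw [mem_dec, smulPlace_mul, smulPlace_restrictScalars, hη]
    · ext x
      apply (algebraMap M L).injective
      rw [AlgEquiv.restrictNormal_commutes]
      change η (σ (algebraMap M L x)) = _
      rw [hσ', η.commutes]
  · rintro ⟨σ, hσ, rfl⟩
    rw [mem_dec, ← below_smulPlace σ _ (fun x => (AlgEquiv.restrictNormal_commutes σ M x).symm)]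
    rw [show H47.smulPlace σ Q = Q from hσ]

end tower

end Fermat.Agent.H89D
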