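import Mathlib
import Fermat.Agent.H30G2
import Fermat.Agent.H3G6
import Fermat.Agent.H63Lift
import Fermat.Agent.H64KumRam
import Fermat.Agent.H89D1

/-!
# S47, block GAL: the dictionary between places of `M`, `E`, `K` and Frobenius elements

`D : RD` (helper3).  `Unr D p` : `p` is unramified in `K`.  `aw D w` : the eigenvalue at `w`.
* `exists_absNorm` : `absNorm P = p ^ f`, `f ∣ k ↔ ρ(φ) ^ k ∈ H` for a place `P` over `p` of the fixed
  field of a normal subgroup `H`;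
* `aw_eq_val8` : `aw D w = val8 (ρ(φ) ^ f)` if `absNorm w = p ^ f`;
* `dict_one`, `dict_two` : the form used in the assembly.
-/

set_option autoImplicit false
set_option linter.style.haveILetI false
set_option linter.unusedSectionVars false

open scoped Pointwise
open NumberField IsDedekindDomain

noncomputable section

namespace Fermat.Agent.H30G

local notation "Qb" => AlgebraicClosure ℚ
local notation "Zb" => integralClosure ℤ (AlgebraicClosure ℚ)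
local notation "Gq" => (AlgebraicClosure ℚ ≃ₐ[ℚ] AlgebraicClosure ℚ)

open H86 (centre)
open H3G (GG fld SL Q8 PM ptr algOf fld_anti RD)
open H46Z (val8)

/-! ### Counting places -/

section Count

variable {F L : Type*} [Field F] [NumberField F] [Field L] [NumberField L] [Algebra F L]

theorem absNorm_eq_pow_card_dec [IsGalois F L] {w : HeightOneSpectrum (𝓞 F)}
    {Q : HeightOneSpectrum (𝓞 L)} (hQ : Q ∈ H82.above L w)
    (hin : ∀ σ : L ≃ₐ[F] L, (∀ x : 𝓞 L, σ • x - x ∈ Q.asIdeal) → σ = 1) :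
    Ideal.absNorm Q.asIdeal = Ideal.absNorm w.asIdeal ^ Nat.card (H89D.dec F Q) := by
  haveI : Q.asIdeal.LiesOver w.asIdeal := ⟨hQ.symm⟩
  haveI := w.isMaximal
  haveI := Q.isMaximal
  haveI : w.asIdeal.IsPrime := w.isPrime
  haveI : Q.asIdeal.IsPrime := Q.isPrime
  haveI : Finite (𝓞 F ⧸ w.asIdeal) := Ideal.finiteQuotientOfFreeOfNeBot _ w.ne_bot
  have hbot : Q.asIdeal.inertia (L ≃ₐ[F] L) = ⊥ := by
    rw [Subgroup.eq_bot_iff_forall]
    intro σ hσ
    exact hin σ fun x => hσ x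
  have h1 := Ideal.card_inertia_eq_ramificationIdxIn (G := L ≃ₐ[F] L) w.asIdeal Q.asIdeal
  rw [Ideal.ramificationIdxIn_eq_ramificationIdx w.asIdeal Q.asIdeal (L ≃ₐ[F] L),
    ← Ideal.ramificationIdx'_eq_ramificationIdx _ _ w.ne_bot, hbot] at h1
  have he : w.asIdeal.ramificationIdx' Q.asIdeal = 1 := by
    rw [← h1]; simp
  obtain ⟨φ, -, h2, h3⟩ := H89D.exists_frob hQ he
  rw [h2, Nat.card_zpowers, h3]
  exact Ideal.absNorm_eq_pow_inertiaDeg'_of_liesOver Q.asIdeal w.asIdeal w.isPrime w.ne_bot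

theorem ncard_above_mul [IsGalois F L] {w : HeightOneSpectrum (𝓞 F)}
    {Q : HeightOneSpectrum (𝓞 L)} (hQ : Q ∈ H82.above L w)
    (hin : ∀ σ : L ≃ₐ[F] L, (∀ x : 𝓞 L, σ • x - x ∈ Q.asIdeal) → σ = 1) {g : ℕ}
    (hg : Ideal.absNorm Q.asIdeal = Ideal.absNorm w.asIdeal ^ g) :
    (H82.above L w).ncard * g = Module.finrank F L := by
  rw [absNorm_eq_pow_card_dec hQ hin] at hg
  rw [← Nat.pow_right_injective (one_lt_absNorm w) hg]
  exact H89D.ncard_above_mul_card_dec hQ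

end Count

/-! ### Unramified primes -/

section Unram

variable (D : RD)

/-- `p` is unramified in the field `K` cut out by `ρ`. -/
def Unr (p : ℕ) : Prop :=
  ∀ A : ValuationSubring Qb, A.LiesOverPrime p → ∀ σ ∈ A.inertiaSubgroupIn ℚ, D.ρ σ = 1

variable {D}

theorem Unr.unrK {p : ℕ} (h : Unr D p) (H : Subgroup GG) [H.Normal] : UnrK (fld D.ρ H) p := by
  haveI : Normal ℚ (fld D.ρ H) := H3G.normal_fld H
  haveI : IsGalois ℚ Qb := H3G.isGalois_Qb
  haveI : Algebra.IsAlgebraic ℚ Qb := AlgebraicClosure.isAlgebraic ℚ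
  haveI : IsGalois (fld D.ρ H) Qb := IsGalois.tower_top_of_isGalois ℚ _ Qb
  intro A hA τ₀ hτ₀
  obtain ⟨τ, hτ, rfl⟩ := H63.exists_mem_inertiaSubgroupIn_restrict (K := ℚ) (F := fld D.ρ H) A τ₀ (by
    intro x
    show algebraMap (𝓞 (fld D.ρ H)) (𝓞 Qb) (τ₀ • x - x) ∈ H63.center A
    have h1 := hτ₀ x
    rw [H86.mem_centre] at h1
    exact (H63.mem_center_iff _ _).2 h1)
  have h1 := h A hA τ hτ
  have h2 : ∀ x ∈ fld D.ρ H, τ x = x := fun x hx =>
    H3G.mem_fld.1 hx τ (by rw [h1]; exact H.one_mem)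
  ext x
  rw [AlgEquiv.one_apply]
  exact (AlgEquiv.restrictNormal_commutes τ (fld D.ρ H) x).trans (h2 x x.2)

/-- inertia is trivial for relative extensions -/
theorem Unr.rel {p : ℕ} (h : Unr D p) (hp : p.Prime) {H H' : Subgroup GG} [H.Normal] (hH : H ≤ H')
    (Q : HeightOneSpectrum (𝓞 (fld D.ρ H))) (hQ : ((p : ℕ) : 𝓞 (fld D.ρ H)) ∈ Q.asIdeal) :
    letI := algOf (fld_anti (ρ := D.ρ) hH)
    ∀ σ : fld D.ρ H ≃ₐ[fld D.ρ H'] fld D.ρ H,
      (∀ x : 𝓞 (fld D.ρ H), σ • x - x ∈ Q.asIdeal) → σ = 1 := by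
  letI := algOf (fld_anti (ρ := D.ρ) hH)
  haveI := H3G.tower_Q (fld_anti (ρ := D.ρ) hH)
  intro σ hσ
  haveI := Q.isPrime
  obtain ⟨A, hA, hAQ⟩ := exists_centre_eq (fld D.ρ H) hp Q.asIdeal hQ
  have h1 : σ.restrictScalars ℚ = 1 := by
    apply h.unrK H A hA
    intro x
    rw [hAQ]
    exact hσ x
  ext x
  have := DFunLike.congr_fun h1 x
  exact congrArg Subtype.val this

end Unram

/-! ### The dictionary -/

section Dict

variable {D : RD}

/-- the value at the places of `fld ρ H`, `H` normal -/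
theorem exists_absNorm {p : ℕ} (hp : p.Prime) (hunr : Unr D p) {A : ValuationSubring Qb}
    (hA : A.LiesOverPrime p) {φ : Gq} (hφ : A.IsFrobeniusAt φ p) (H : Subgroup GG) [H.Normal]
    (P : HeightOneSpectrum (𝓞 (fld D.ρ H))) (hP : ((p : ℕ) : 𝓞 (fld D.ρ H)) ∈ P.asIdeal) :
    ∃ f : ℕ, 0 < f ∧ Ideal.absNorm P.asIdeal = p ^ f ∧ ∀ k : ℕ, f ∣ k ↔ D.ρ φ ^ k ∈ H := by
  haveI := P.isPrime
  exact exists_absNorm_place D.cont hp (hunr.unrK ⊥) hA hφ H P.asIdeal hP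

variable (D) in
open Classical in
/-- The eigenvalue at a place `w` of `E`. -/
def aw (w : HeightOneSpectrum (𝓞 D.E)) : ℝ :=
  if (H82.above D.K w).ncard = 8 then 2 else if (H82.above D.B' w).ncard = 4 then -2 else 0

theorem mem_of_above {F L : Type*} [Field F] [NumberField F] [Field L] [NumberField L]
    [Algebra F L] {w : HeightOneSpectrum (𝓞 F)} {Q : HeightOneSpectrum (𝓞 L)}
    (hQ : Q ∈ H82.above L w) {p : ℕ} (h : ((p : ℕ) : 𝓞 F) ∈ w.asIdeal) :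
    ((p : ℕ) : 𝓞 L) ∈ Q.asIdeal := by
  have h1 : w.asIdeal = Q.asIdeal.under (𝓞 F) := Eq.symm hQ
  rw [h1] at h
  have h2 : algebraMap (𝓞 F) (𝓞 L) ((p : ℕ) : 𝓞 F) ∈ Q.asIdeal := h
  rwa [map_natCast] at h2

/-- **The dictionary**: the eigenvalue at a place of `E` over `p`, of norm `p ^ f`. -/
theorem aw_eq_val8 {p : ℕ} (hp : p.Prime) (hunr : Unr D p) {A : ValuationSubring Qb}
    (hA : A.LiesOverPrime p) {φ : Gq} (hφ : A.IsFrobeniusAt φ p)
    (w : HeightOneSpectrum (𝓞 D.E)) (hw : ((p : ℕ) : 𝓞 D.E) ∈ w.asIdeal) {f : ℕ}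
    (hf : Ideal.absNorm w.asIdeal = p ^ f) : aw D w = val8 (D.ρ φ ^ f) := by
  obtain ⟨f', hf'0, hf', hk⟩ := exists_absNorm hp hunr hA hφ Q8 w hw
  obtain rfl : f' = f := Nat.pow_right_injective hp.two_le (hf'.symm.trans hf)
  have hmem : D.ρ φ ^ f' ∈ Q8 := (hk f').1 dvd_rfl
  -- the number of places of the fixed field of `H` above `w` is full iff `ρ(φ)^f ∈ H`
  have key : ∀ (H : Subgroup GG) [H.Normal] (hH : H ≤ Q8),
      letI := algOf (fld_anti (ρ := D.ρ) hH)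
      IsGalois D.E (fld D.ρ H) → 0 < Module.finrank D.E (fld D.ρ H) →
      ((H82.above (fld D.ρ H) w).ncard = Module.finrank D.E (fld D.ρ H) ↔ D.ρ φ ^ f' ∈ H) := by
    intro H _ hH
    letI := algOf (fld_anti (ρ := D.ρ) hH)
    intro hgal hpos
    obtain ⟨Q, hQ⟩ := H47.above_nonempty (L := fld D.ρ H) w
    obtain ⟨m, hm0, hm, hmk⟩ := exists_absNorm hp hunr hA hφ H Q (mem_of_above hQ hw)
    have hfm : f' ∣ m := (hk m).2 (hH ((hmk m).1 dvd_rfl))
    obtain ⟨g, rfl⟩ := hfm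
    have h1 := ncard_above_mul hQ (hunr.rel hp hH Q (mem_of_above hQ hw)) (g := g)
      (by rw [hm, hf, pow_mul])
    have hg0 : 0 < g := Nat.pos_of_mul_pos_left hm0
    rw [← hmk f']
    constructor
    · intro h2
      rw [h2] at h1
      have : g = 1 := by
        have h3 := Nat.eq_of_mul_eq_mul_left hpos (h1.trans (mul_one _).symm)
        exact h3
      rw [this, mul_one]
    · intro h2
      have h3 : g = 1 := by
        have h4 : f' * g ∣ f' * 1 := by rwa [mul_one]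
        exact Nat.dvd_one.1 (Nat.dvd_of_mul_dvd_mul_left hf'0 h4)
      rw [h3, mul_one] at h1
      exact h1
  have k1 := key ⊥ bot_le inferInstance (by rw [D.finrank_EK]; norm_num)
  have k2 := key PM H3G.PM_le_Q8 inferInstance (by rw [D.finrank_EB']; norm_num)
  rw [D.finrank_EK] at k1
  rw [D.finrank_EB'] at k2
  rw [Subgroup.mem_bot] at k1
  unfold aw
  by_cases h1 : D.ρ φ ^ f' = 1
  · rw [if_pos (k1.2 h1), h1, H3G.val8_one]
  rw [if_neg (fun h => h1 (k1.1 h))]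
  by_cases h2 : D.ρ φ ^ f' = -1
  · rw [if_pos (k2.2 (Or.inr h2)), h2, H3G.val8_neg_one]
  · rw [if_neg (fun h => (k2.1 h).elim h1 h2), H3G.val8_of_ne h1 h2]

/-- The norms of the places of `M` and `E` over `p` and the eigenvalue, `ρ(φ) ∈ Q8`. -/
theorem dict_one {p : ℕ} (hp : p.Prime) (hunr : Unr D p) {A : ValuationSubring Qb}
    (hA : A.LiesOverPrime p) {φ : Gq} (hφ : A.IsFrobeniusAt φ p) (h8 : D.ρ φ ∈ Q8) :
    (∀ v : HeightOneSpectrum (𝓞 D.M), ((p : ℕ) : 𝓞 D.M) ∈ v.asIdeal →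
      Ideal.absNorm v.asIdeal = p) ∧
    ∀ w : HeightOneSpectrum (𝓞 D.E), ((p : ℕ) : 𝓞 D.E) ∈ w.asIdeal →
      Ideal.absNorm w.asIdeal = p ∧ aw D w = val8 (D.ρ φ) := by
  constructor
  · intro v hv
    obtain ⟨f, hf0, hf, hk⟩ := exists_absNorm hp hunr hA hφ SL v hv
    have h1 : f ∣ 1 := (hk 1).2 (by rw [pow_one]; exact H3G.Q8_le_SL h8)
    rw [hf, Nat.dvd_one.1 h1, pow_one]
  · intro w hw
    obtain ⟨f, hf0, hf, hk⟩ := exists_absNorm hp hunr hA hφ Q8 w hw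
    have h1 : f ∣ 1 := (hk 1).2 (by rw [pow_one]; exact h8)
    rw [Nat.dvd_one.1 h1] at hf
    exact ⟨by rw [hf, pow_one], by rw [aw_eq_val8 hp hunr hA hφ w hw hf, pow_one]⟩

/-- The norms of the places of `M` and `E` over `p` and the eigenvalue, `ρ(φ) ∉ SL`. -/
theorem dict_two {p : ℕ} (hp : p.Prime) (hunr : Unr D p) {A : ValuationSubring Qb}
    (hA : A.LiesOverPrime p) {φ : Gq} (hφ : A.IsFrobeniusAt φ p) (h8 : D.ρ φ ∉ SL) :
    (∀ v : HeightOneSpectrum (𝓞 D.M), ((p : ℕ) : 𝓞 D.M) ∈ v.asIdeal →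
      Ideal.absNorm v.asIdeal = p ^ 2) ∧
    ∀ w : HeightOneSpectrum (𝓞 D.E), ((p : ℕ) : 𝓞 D.E) ∈ w.asIdeal →
      Ideal.absNorm w.asIdeal = p ^ 2 ∧ aw D w = val8 (D.ρ φ ^ 2) := by
  have hsq : D.ρ φ ^ 2 ∈ Q8 := H3G.sq_mem_Q8_of_not_mem_SL h8
  have key : ∀ (H : Subgroup GG) (hH : H ≤ SL) (f : ℕ), 0 < f →
      (∀ k : ℕ, f ∣ k ↔ D.ρ φ ^ k ∈ H) → D.ρ φ ^ 2 ∈ H → f = 2 := by
    intro H hH f hf0 hk h2
    have h3 : f ∣ 2 := (hk 2).2 h2
    rcases (Nat.dvd_prime Nat.prime_two).1 h3 with h4 | h4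
    · exfalso
      apply h8
      apply hH
      have := (hk 1).1 (by rw [h4])
      rwa [pow_one] at this
    · exact h4
  constructor
  · intro v hv
    obtain ⟨f, hf0, hf, hk⟩ := exists_absNorm hp hunr hA hφ SL v hv
    rw [hf, key SL le_rfl f hf0 hk (H3G.Q8_le_SL hsq)]
  · intro w hw
    obtain ⟨f, hf0, hf, hk⟩ := exists_absNorm hp hunr hA hφ Q8 w hw
    rw [key Q8 H3G.Q8_le_SL f hf0 hk hsq] at hf
    exact ⟨hf, aw_eq_val8 hp hunr hA hφ w hw hf⟩

end Dict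

end Fermat.Agent.H30G
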