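import Fermat.Agent.H55Level
import Fermat.Agent.H91Level
import Fermat.Agent.H64KumRam

/-!
# Kummer theory with restricted ramification
-/

set_option autoImplicit false

open NumberField IsDedekindDomain Fermat.Agent.H63 Fermat.Agent.H55 ExtCitation groupCohomology

namespace Fermat.Agent.H64

local notation "Qb" => AlgebraicClosure ℚ
local notation "GQ" => (AlgebraicClosure ℚ ≃ₐ[ℚ] AlgebraicClosure ℚ)

/-! ### Level structures -/

/-- The level structure on `G_ℚ` given by number fields unramified outside `S`. -/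
def levelsS (S : Finset Nat.Primes) : Levels GQ where
  op V := ∃ F : IntermediateField ℚ Qb, F.IsUnramifiedOutside S ∧ F.fixingSubgroup ≤ V
  op_top := ⟨⊥, IntermediateField.isUnramifiedOutside_bot S, le_top⟩
  op_inf := by
    rintro U V ⟨F, hF, h⟩ ⟨F', hF', h'⟩
    refine ⟨F ⊔ F', hF.sup hF', ?_⟩
    rw [IntermediateField.fixingSubgroup_sup]
    exact inf_le_inf h h'
  op_mono := by
    rintro U V hle ⟨F, hF, h⟩
    exact ⟨F, hF, h.trans hle⟩
  exists_normal := by
    rintro U ⟨F, hF, h⟩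
    obtain ⟨E, hE, hle, hn, -⟩ := H91.exists_normal_levelS hF
    exact ⟨E.fixingSubgroup, ⟨E, hE, le_rfl⟩, hn,
      (IntermediateField.fixingSubgroup_antitone hle).trans h⟩
  finiteIndex := by
    rintro U ⟨F, hF, h⟩
    have := hF.1
    have := H91.finiteIndex_fixingSubgroup F
    exact Subgroup.finiteIndex_of_le h

/-- The full level structure on `G_ℚ`. -/
def levelsAll : Levels GQ where
  op V := ∃ F : IntermediateField ℚ Qb, FiniteDimensional ℚ F ∧ F.fixingSubgroup ≤ V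
  op_top := ⟨⊥, inferInstance, le_top⟩
  op_inf := by
    rintro U V ⟨F, hF, h⟩ ⟨F', hF', h'⟩
    refine ⟨F ⊔ F', inferInstance, ?_⟩
    rw [IntermediateField.fixingSubgroup_sup]
    exact inf_le_inf h h'
  op_mono := by
    rintro U V hle ⟨F, hF, h⟩
    exact ⟨F, hF, h.trans hle⟩
  exists_normal := by
    rintro U ⟨F, hF, h⟩
    obtain ⟨E, hE, hle, hn, -⟩ := H91.exists_normal_level F
    exact ⟨E.fixingSubgroup, ⟨E, hE, le_rfl⟩, hn,
      (IntermediateField.fixingSubgroup_antitone hle).trans h⟩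
  finiteIndex := by
    rintro U ⟨F, hF, h⟩
    have := H91.finiteIndex_fixingSubgroup F
    exact Subgroup.finiteIndex_of_le h

theorem levelsS_le_levelsAll {S : Finset Nat.Primes} {V : Subgroup GQ} (h : (levelsS S).op V) :
    levelsAll.op V := by
  obtain ⟨F, hF, h⟩ := h
  exact ⟨F, hF.1, h⟩

/-! ### The Kummer correspondence -/

section correspondence

variable {p : ℕ} {K : IntermediateField ℚ Qb}

/-- `f` is the Kummer character attached to `x` -/
def IsKummer (p : ℕ) {K : IntermediateField ℚ Qb} (ζ : Qb) (x : Kˣ)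
    (f : K.fixingSubgroup → ZMod p) : Prop :=
  ∃ y : Qb, y ^ p = ((x : K) : Qb) ∧ ∀ σ : K.fixingSubgroup, (σ : GQ) y = ζ ^ (f σ).val * y

theorem fixes (σ : K.fixingSubgroup) (x : K) : (σ : GQ) (x : Qb) = x :=
  (IntermediateField.mem_fixingSubgroup_iff K _).1 σ.2 x x.2

variable {ζ : Qb}

theorem pow_val_add [NeZero p] (hζ : IsPrimitiveRoot ζ p) (a b : ZMod p) :
    ζ ^ (a + b).val = ζ ^ a.val * ζ ^ b.val := by
  rw [← pow_add, ZMod.val_add]
  have h := pow_mod_orderOf ζ (a.val + b.val)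
  rwa [← hζ.eq_orderOf] at h

theorem pow_val_neg [NeZero p] (hζ : IsPrimitiveRoot ζ p) (a : ZMod p) :
    ζ ^ (-a).val * ζ ^ a.val = 1 := by
  rw [← pow_val_add hζ, neg_add_cancel, ZMod.val_zero, pow_zero]

theorem pow_val_injective [NeZero p] (hζ : IsPrimitiveRoot ζ p) {a b : ZMod p}
    (h : ζ ^ a.val = ζ ^ b.val) : a = b :=
  ZMod.val_injective p (hζ.pow_inj (ZMod.val_lt a) (ZMod.val_lt b) h)

theorem exists_pow_val [NeZero p] (hζ : IsPrimitiveRoot ζ p) {t : Qb} (ht : t ^ p = 1) :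
    ∃ a : ZMod p, t = ζ ^ a.val := by
  obtain ⟨i, hi, rfl⟩ := hζ.eq_pow_of_pow_eq_one ht
  exact ⟨(i : ZMod p), by rw [ZMod.val_natCast, Nat.mod_eq_of_lt hi]⟩

theorem unit_coe_ne_zero (x : Kˣ) : ((x : K) : Qb) ≠ 0 := by
  intro h
  exact x.ne_zero (Subtype.ext h)

theorem IsKummer.mul [NeZero p] (hζ : IsPrimitiveRoot ζ p) {x x' : Kˣ}
    {f f' : K.fixingSubgroup → ZMod p}
    (h : IsKummer p ζ x f) (h' : IsKummer p ζ x' f') : IsKummer p ζ (x * x') (f + f') := by
  obtain ⟨y, hy, hσ⟩ := h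
  obtain ⟨y', hy', hσ'⟩ := h'
  refine ⟨y * y', ?_, fun σ => ?_⟩
  · rw [mul_pow, hy, hy']; rfl
  · rw [map_mul, hσ, hσ', Pi.add_apply, pow_val_add hζ]; ring

theorem IsKummer.inv [NeZero p] (hζ : IsPrimitiveRoot ζ p) {x : Kˣ}
    {f : K.fixingSubgroup → ZMod p}
    (h : IsKummer p ζ x f) : IsKummer p ζ x⁻¹ (-f) := by
  obtain ⟨y, hy, hσ⟩ := h
  refine ⟨y⁻¹, ?_, fun σ => ?_⟩
  · rw [inv_pow, hy]
    rw [Units.val_inv_eq_inv_val]
    rfl
  · have h1 : ζ ^ (f σ).val ≠ 0 := pow_ne_zero _ (hζ.ne_zero (NeZero.ne p))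
    have h2 : (ζ ^ (f σ).val)⁻¹ = ζ ^ (-f σ).val := by
      rw [inv_eq_iff_eq_inv, eq_comm, inv_eq_iff_eq_inv]
      exact eq_inv_of_mul_eq_one_left (pow_val_neg hζ (f σ))
    rw [map_inv₀, hσ, Pi.neg_apply, mul_inv, h2]

theorem root_ne_zero [NeZero p] {x : Kˣ} {y : Qb} (hy : y ^ p = ((x : K) : Qb)) : y ≠ 0 := by
  rintro rfl
  rw [zero_pow (NeZero.ne p)] at hy
  exact unit_coe_ne_zero x hy.symm

theorem IsKummer.unique [NeZero p] (hζ : IsPrimitiveRoot ζ p) (hζK : ζ ∈ K) {x : Kˣ}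
    {f f' : K.fixingSubgroup → ZMod p}
    (h : IsKummer p ζ x f) (h' : IsKummer p ζ x f') : f = f' := by
  obtain ⟨y, hy, hσ⟩ := h
  obtain ⟨y', hy', hσ'⟩ := h'
  have hy0 : y ≠ 0 := root_ne_zero hy
  have hy0' : y' ≠ 0 := root_ne_zero hy'
  funext σ
  obtain ⟨a, ha⟩ := exists_pow_val hζ (t := y / y') (by
    rw [div_pow, hy, hy', div_self (unit_coe_ne_zero x)])
  have h1 : y = ζ ^ a.val * y' := by rw [← ha, div_mul_cancel₀ _ hy0']
  have hfix : (σ : GQ) ζ = ζ := fixes σ ⟨ζ, hζK⟩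
  have h2 := hσ σ
  rw [h1, map_mul, map_pow, hfix, hσ'] at h2
  have h3 : ζ ^ (f' σ).val = ζ ^ (f σ).val := by
    have h4 : ζ ^ a.val ≠ 0 := pow_ne_zero _ (hζ.ne_zero (NeZero.ne p))
    have h5 : ζ ^ a.val * y' ≠ 0 := mul_ne_zero h4 hy0'
    apply mul_right_cancel₀ h5
    rw [← h2]; ring
  exact (pow_val_injective hζ h3).symm

theorem IsKummer.exists [NeZero p] (hζ : IsPrimitiveRoot ζ p) (x : Kˣ) :
    ∃ f : K.fixingSubgroup → ZMod p, IsKummer p ζ x f := by
  obtain ⟨y, hy⟩ := IsAlgClosed.exists_pow_nat_eq ((x : K) : Qb) (NeZero.pos p)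
  have hy0 : y ≠ 0 := root_ne_zero hy
  have h : ∀ σ : K.fixingSubgroup, ∃ a : ZMod p, (σ : GQ) y = ζ ^ a.val * y := by
    intro σ
    obtain ⟨a, ha⟩ := exists_pow_val hζ (t := (σ : GQ) y / y) (by
      rw [div_pow, ← map_pow, hy, fixes, div_self (unit_coe_ne_zero x)])
    exact ⟨a, by rw [← ha, div_mul_cancel₀ _ hy0]⟩
  choose f hf using h
  exact ⟨f, y, hy, hf⟩

theorem IsKummer.map_mul' [NeZero p] (hζ : IsPrimitiveRoot ζ p) (hζK : ζ ∈ K) {x : Kˣ}
    {f : K.fixingSubgroup → ZMod p} (h : IsKummer p ζ x f) (σ τ : K.fixingSubgroup) :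
    f (σ * τ) = f σ + f τ := by
  obtain ⟨y, hy, hσ⟩ := h
  have hy0 : y ≠ 0 := root_ne_zero hy
  have hfix : (σ : GQ) ζ = ζ := fixes σ ⟨ζ, hζK⟩
  apply pow_val_injective hζ
  apply mul_right_cancel₀ hy0
  rw [← hσ, pow_val_add hζ]
  have : ((σ * τ : K.fixingSubgroup) : GQ) y = (σ : GQ) ((τ : GQ) y) := rfl
  rw [this, hσ τ, map_mul, map_pow, hfix, hσ σ]
  ring

/-- the character is trivial iff `x` is a `p`-th power -/
theorem IsKummer.zero_iff [NeZero p] {x : Kˣ} :
    IsKummer p ζ x (0 : K.fixingSubgroup → ZMod p) ↔ ∃ z : Kˣ, z ^ p = x := by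
  constructor
  · rintro ⟨y, hy, hσ⟩
    have hyK : y ∈ K := by
      have h1 : y ∈ IntermediateField.fixedField K.fixingSubgroup := by
        rw [IntermediateField.mem_fixedField_iff]
        intro σ hσ'
        have := hσ ⟨σ, hσ'⟩
        simpa using this
      rwa [InfiniteGalois.fixedField_fixingSubgroup] at h1
    have hy0 : (⟨y, hyK⟩ : K) ≠ 0 := by
      intro h
      exact root_ne_zero hy (congrArg Subtype.val h)
    refine ⟨Units.mk0 ⟨y, hyK⟩ hy0, ?_⟩
    apply Units.ext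
    apply Subtype.ext
    rw [Units.val_pow_eq_pow_val]
    exact hy
  · rintro ⟨z, rfl⟩
    refine ⟨((z : K) : Qb), ?_, fun σ => ?_⟩
    · rw [Units.val_pow_eq_pow_val]; rfl
    · rw [fixes]; simp

/-! ### the Selmer condition -/

/-- elements of `Kˣ` whose valuation is divisible by `p` at all places not above `S`. -/
def VS (S : Finset Nat.Primes) (K : Type*) [Field K] [NumberField K] (p : ℕ) : Subgroup Kˣ where
  carrier := {x | ∀ v : HeightOneSpectrum (𝓞 K), (∀ q ∈ S, ((q : ℕ) : 𝓞 K) ∉ v.asIdeal) →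
    (p : ℤ) ∣ Multiplicative.toAdd (v.valuationOfNeZero x)}
  mul_mem' := by
    intro x y hx hy v hv
    rw [map_mul, toAdd_mul]
    exact dvd_add (hx v hv) (hy v hv)
  one_mem' := by
    intro v _
    rw [map_one, toAdd_one]
    exact dvd_zero _
  inv_mem' := by
    intro x hx v hv
    rw [map_inv, toAdd_inv, dvd_neg]
    exact hx v hv

theorem mem_VS {S : Finset Nat.Primes} {K : Type*} [Field K] [NumberField K] {p : ℕ} {x : Kˣ} :
    x ∈ VS S K p ↔ ∀ v : HeightOneSpectrum (𝓞 K), (∀ q ∈ S, ((q : ℕ) : 𝓞 K) ∉ v.asIdeal) →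
      (p : ℤ) ∣ Multiplicative.toAdd (v.valuationOfNeZero x) := Iff.rfl

theorem valuation_eq_exp {K : Type*} [Field K] [NumberField K] (v : HeightOneSpectrum (𝓞 K))
    (x : Kˣ) : v.valuation K (x : K) = WithZero.exp (Multiplicative.toAdd (v.valuationOfNeZero x)) := by
  rw [← HeightOneSpectrum.valuationOfNeZero_eq]
  rfl

/-- finite subextensions of `ℚ̄` are number fields. -/
theorem numberField_of_finiteDimensional (K : IntermediateField ℚ Qb) [FiniteDimensional ℚ K] :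
    NumberField K := by
  have h : FiniteDimensional ℚ K := inferInstance
  have e : (K.algebra' : Algebra ℚ K) = DivisionRing.toRatAlgebra := Subsingleton.elim _ _
  refine @NumberField.mk K _ inferInstance ?_
  convert h

variable [NumberField K]

theorem notMem_placeBelow {q q' : ℕ} (hq : q.Prime) (hq' : q'.Prime) (hne : q ≠ q')
    {A : ValuationSubring Qb} (hA : A.LiesOverPrime q) :
    ((q' : ℕ) : 𝓞 K) ∉ (placeBelow K hq hA).asIdeal := by
  have : Fact q'.Prime := ⟨hq'⟩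
  rw [placeBelow_asIdeal, Ideal.mem_comap, map_natCast]
  exact natCast_notMem_center hq hne hA

theorem adjoin_unramified {S : Finset Nat.Primes} (hK : K.IsUnramifiedOutside S) {y : Qb}
    (hy : ∀ q : Nat.Primes, q ∉ S → ∀ A : ValuationSubring Qb, A.LiesOverPrime (q : ℕ) →
      ∀ σ ∈ A.inertiaSubgroupIn ℚ, σ y = y) :
    (K ⊔ IntermediateField.adjoin ℚ {y}).IsUnramifiedOutside S := by
  have hint : IsIntegral ℚ y := (Algebra.IsAlgebraic.isAlgebraic y).isIntegral
  have : FiniteDimensional ℚ (IntermediateField.adjoin ℚ {y}) :=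
    IntermediateField.adjoin.finiteDimensional hint
  refine ⟨inferInstance, fun q hq A hA σ hσ => ?_⟩
  rw [IntermediateField.fixingSubgroup_sup]
  refine ⟨hK.2 q hq A hA hσ, ?_⟩
  change σ ∈ (IntermediateField.adjoin ℚ {y}).fixingSubgroup
  rw [← Subgroup.zpowers_le, ← IntermediateField.le_iff_le, IntermediateField.adjoin_simple_le_iff,
    IntermediateField.mem_fixedField_iff]
  intro τ hτ
  have h1 : σ y = y := hy q hq A hA σ hσ
  have h2 : Subgroup.zpowers σ ≤ MulAction.stabilizer GQ y := by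
    rw [Subgroup.zpowers_le]
    exact h1
  exact h2 hτ

theorem IsKummer.fixes_root [Fact p.Prime] {S : Finset Nat.Primes}
    (hpS : ∀ q : Nat.Primes, (q : ℕ) = p → q ∈ S)
    (hK : K.IsUnramifiedOutside S) {x : Kˣ} (hx : x ∈ VS S K p) {y : Qb}
    (hy : y ^ p = ((x : K) : Qb)) (q : Nat.Primes) (hq : q ∉ S) (A : ValuationSubring Qb)
    (hA : A.LiesOverPrime (q : ℕ)) (σ : GQ) (hσ : σ ∈ A.inertiaSubgroupIn ℚ) : σ y = y := by
  have hp : p.Prime := Fact.out
  have hqp : (q : ℕ) ≠ p := fun h => hq (hpS q h)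
  have hpA : (p : 𝓞 Qb) ∉ center A := natCast_notMem_center q.2 hqp hA
  obtain ⟨n, hn⟩ := hx (placeBelow K q.2 hA) (fun q' hq' =>
    notMem_placeBelow q.2 q'.2 (fun h => hq (by rwa [Subtype.ext h])) hA)
  refine inertia_fixes_root hp (K := K) q.2 hA hpA hσ ?_ (x := (x : K)) n ?_ hy
  · intro z
    exact (IntermediateField.mem_fixingSubgroup_iff K _).1 (hK.2 q hq A hA hσ) z z.2
  · rw [valuation_eq_exp, hn]

theorem IsKummer.lc1 [Fact p.Prime] (hζ : IsPrimitiveRoot ζ p) (hζK : ζ ∈ K)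
    {S : Finset Nat.Primes} (hpS : ∀ q : Nat.Primes, (q : ℕ) = p → q ∈ S)
    (hK : K.IsUnramifiedOutside S) {x : Kˣ} (hx : x ∈ VS S K p)
    {f : K.fixingSubgroup → ZMod p} (h : IsKummer p ζ x f) :
    LC1 ((levelsS S).onSub K.fixingSubgroup) f := by
  have hmul := h.map_mul' hζ hζK
  obtain ⟨y, hy, hσ⟩ := h
  have hF := adjoin_unramified hK (IsKummer.fixes_root hpS hK hx hy)
  refine ⟨(K ⊔ IntermediateField.adjoin ℚ {y}).fixingSubgroup.subgroupOf K.fixingSubgroup,
    ⟨_, ⟨_, hF, le_rfl⟩, le_rfl⟩, ?_⟩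
  intro g s hs
  rw [hmul]
  have h1 : (s : GQ) ∈ (K ⊔ IntermediateField.adjoin ℚ {y}).fixingSubgroup := hs
  have h2 : (s : GQ) y = y := by
    rw [IntermediateField.mem_fixingSubgroup_iff] at h1
    exact h1 y (le_sup_right (a := K) (IntermediateField.mem_adjoin_simple_self ℚ y))
  have h3 : f s = 0 := by
    apply pow_val_injective hζ
    apply mul_right_cancel₀ (root_ne_zero hy)
    rw [← hσ, h2]
    simp
  rw [h3, add_zero]

/-- every place of `K` is below a place of `ℚ̄` -/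
theorem exists_placeBelow_eq (v : HeightOneSpectrum (𝓞 K)) :
    ∃ (ℓ : ℕ) (hℓ : ℓ.Prime) (A : ValuationSubring Qb) (hA : A.LiesOverPrime ℓ),
      placeBelow K hℓ hA = v ∧ (ℓ : 𝓞 K) ∈ v.asIdeal := by
  have hv : v.asIdeal.IsPrime := v.isPrime
  have hvm : v.asIdeal.IsMaximal := v.isMaximal
  obtain ⟨ℓ, hℓ, hover⟩ := exists_prime_liesOver v.asIdeal v.ne_bot
  have hmem : (ℓ : 𝓞 K) ∈ v.asIdeal := (natCast_mem_iff_of_liesOver v.asIdeal ℓ ℓ).2 dvd_rfl
  obtain ⟨P, hP, hPv⟩ := Ideal.exists_maximal_ideal_liesOver_of_isIntegral (S := 𝓞 Qb) v.asIdeal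
  have hPp : P.IsPrime := hP.isPrime
  obtain ⟨A, hA⟩ := exists_center_eq P
  have hcomap : (center A).comap (algebraMap (𝓞 K) (𝓞 Qb)) = v.asIdeal := by
    rw [hA]; exact hPv.over.symm
  have hAℓ : A.LiesOverPrime ℓ := by
    rw [liesOverPrime_iff]
    rw [← hcomap, Ideal.mem_comap, map_natCast] at hmem
    exact hmem
  exact ⟨ℓ, hℓ, A, hAℓ, HeightOneSpectrum.ext hcomap, hmem⟩

omit [NumberField K] in
/-- existence of eigenvectors (additive Hilbert 90 / Lagrange resolvents). -/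
theorem exists_eigenvector [NeZero p] (hζ : IsPrimitiveRoot ζ p) (U : Subgroup GQ)
    (hζU : ∀ σ ∈ U, σ ζ = ζ)
    (f : U → ZMod p) (hmul : ∀ σ τ, f (σ * τ) = f σ + f τ)
    (F : IntermediateField ℚ Qb) [FiniteDimensional ℚ F]
    (hF : ∀ s : U, (s : GQ) ∈ F.fixingSubgroup → f s = 0) :
    ∃ y : Qb, y ≠ 0 ∧ ∀ σ : U, (σ : GQ) y = ζ ^ (f σ).val * y := by
  classical
  set N : Subgroup U := F.fixingSubgroup.subgroupOf U with hN
  have hfi : F.fixingSubgroup.FiniteIndex := H91.finiteIndex_fixingSubgroup F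
  have hNfi : N.FiniteIndex := inferInstance
  have hfin : Finite (U ⧸ N) := N.finite_quotient_of_finiteIndex
  have : Fintype (U ⧸ N) := Fintype.ofFinite _
  -- for `z : F`, the function `σ ↦ ζ ^ (- f σ) * σ z`
  let h : F → U → Qb := fun z σ => ζ ^ (-f σ).val * (σ : GQ) (z : Qb)
  have hh : ∀ z : F, ∀ σ s : U, s ∈ N → h z (σ * s) = h z σ := by
    intro z σ s hs
    have h1 : (s : GQ) ∈ F.fixingSubgroup := hs
    have h2 : (s : GQ) (z : Qb) = z := (IntermediateField.mem_fixingSubgroup_iff F _).1 h1 z z.2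
    have h3 : ((σ * s : U) : GQ) (z : Qb) = (σ : GQ) ((s : GQ) (z : Qb)) := rfl
    simp only [h]
    rw [h3, h2, hmul, hF s h1, add_zero]
  let hbar : F → U ⧸ N → Qb := fun z => Quotient.lift (h z) (by
    intro a b hab
    have h1 : a⁻¹ * b ∈ N := QuotientGroup.leftRel_apply.1 hab
    have h2 : b = a * (a⁻¹ * b) := by group
    rw [h2, hh z a _ h1])
  have hbar_mk : ∀ z : F, ∀ σ : U, hbar z (σ : U ⧸ N) = h z σ := fun z σ => rfl
  -- linear independence
  obtain ⟨z, hz⟩ : ∃ z : F, ∑ c : U ⧸ N, hbar z c ≠ 0 := by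
    by_contra hcon
    push Not at hcon
    -- embeddings
    let e : U ⧸ N → (F →* Qb) := fun c =>
      ((((Quotient.out c : U) : GQ) : Qb →* Qb).comp (algebraMap F Qb : F →* Qb))
    have hinj : Function.Injective e := by
      intro c c' hcc
      have h1 : ∀ z : F, ((Quotient.out c : U) : GQ) (z : Qb) = ((Quotient.out c' : U) : GQ) (z : Qb) :=
        fun z => DFunLike.congr_fun hcc z
      have h2 : (Quotient.out c)⁻¹ * (Quotient.out c') ∈ N := by
        change ((((Quotient.out c)⁻¹ * (Quotient.out c') : U)) : GQ) ∈ F.fixingSubgroup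
        rw [IntermediateField.mem_fixingSubgroup_iff]
        intro x hx
        have h3 := h1 ⟨x, hx⟩
        have h4 : (((Quotient.out c)⁻¹ * (Quotient.out c') : U) : GQ) x =
          ((Quotient.out c : U) : GQ)⁻¹ (((Quotient.out c' : U) : GQ) x) := rfl
        rw [h4]
        change ((Quotient.out c : U) : GQ) x = ((Quotient.out c' : U) : GQ) x at h3
        rw [← h3]
        exact AlgEquiv.symm_apply_apply _ _
      have h5 : ((Quotient.out c : U) : U ⧸ N) = ((Quotient.out c' : U) : U ⧸ N) :=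
        QuotientGroup.eq.2 h2
      rwa [QuotientGroup.out_eq', QuotientGroup.out_eq'] at h5
    have hli := (linearIndependent_monoidHom F Qb).comp e hinj
    rw [Fintype.linearIndependent_iff] at hli
    have h6 := hli (fun c => ζ ^ (-f (Quotient.out c)).val) (by
      funext z
      rw [Finset.sum_apply]
      simp only [Function.comp, Pi.smul_apply, smul_eq_mul, Pi.zero_apply]
      rw [← hcon z]
      refine Finset.sum_congr rfl fun c _ => ?_
      conv_rhs => rw [← QuotientGroup.out_eq' c, hbar_mk]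
      rfl) (QuotientGroup.mk 1)
    exact pow_ne_zero _ (hζ.ne_zero (NeZero.ne p)) h6
  refine ⟨∑ c : U ⧸ N, hbar z c, hz, fun σ => ?_⟩
  rw [map_sum, Finset.mul_sum]
  have hbij : Function.Bijective (fun c : U ⧸ N => σ • c) := MulAction.bijective σ
  rw [← hbij.sum_comp (fun c => ζ ^ (f σ).val * hbar z c)]
  refine Finset.sum_congr rfl fun c _ => ?_
  induction c using QuotientGroup.induction_on with
  | H τ =>
    have h1 : σ • (τ : U ⧸ N) = ((σ * τ : U) : U ⧸ N) := rfl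
    simp only [h1]
    rw [hbar_mk, hbar_mk]
    simp only [h]
    have hfix : (σ : GQ) ζ = ζ := hζU σ σ.2
    have h3 : ((σ * τ : U) : GQ) (z : Qb) = (σ : GQ) ((τ : GQ) (z : Qb)) := rfl
    rw [map_mul, map_pow, hfix, h3, hmul, neg_add, pow_val_add hζ, ← mul_assoc, ← mul_assoc,
      mul_comm (ζ ^ (f σ).val) (ζ ^ (-f σ).val), pow_val_neg hζ, one_mul]

/-- every level constant homomorphism comes from an element of the Selmer group -/
theorem exists_isKummer [Fact p.Prime] (hζ : IsPrimitiveRoot ζ p) (hζK : ζ ∈ K)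
    {S : Finset Nat.Primes} (hK : K.IsUnramifiedOutside S)
    {f : K.fixingSubgroup → ZMod p} (hmul : ∀ σ τ, f (σ * τ) = f σ + f τ)
    (hf : LC1 ((levelsS S).onSub K.fixingSubgroup) f) :
    ∃ x ∈ VS S K p, IsKummer p ζ x f := by
  have hp : p.Prime := Fact.out
  have hf1 : f 1 = 0 := by
    have := hmul 1 1
    rw [mul_one] at this
    simpa using this
  obtain ⟨V, ⟨W, ⟨F₀, hF₀, hW⟩, hV⟩, hconst⟩ := hf
  set F := K ⊔ F₀ with hFdef
  have hFur : F.IsUnramifiedOutside S := hK.sup hF₀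
  have hFfd : FiniteDimensional ℚ F := hFur.1
  have hFf : ∀ s : K.fixingSubgroup, (s : GQ) ∈ F.fixingSubgroup → f s = 0 := by
    intro s hs
    have h1 : s ∈ V := by
      apply hV
      change (s : GQ) ∈ W
      exact hW (IntermediateField.fixingSubgroup_antitone le_sup_right hs)
    have := hconst 1 s h1
    rwa [one_mul, hf1] at this
  obtain ⟨y, hy0, hy⟩ := exists_eigenvector hζ K.fixingSubgroup
    (fun σ hσ => fixes ⟨σ, hσ⟩ ⟨ζ, hζK⟩) f hmul F hFf
  -- `y ^ p ∈ K`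
  have hyK : y ^ p ∈ K := by
    have h1 : y ^ p ∈ IntermediateField.fixedField K.fixingSubgroup := by
      rw [IntermediateField.mem_fixedField_iff]
      intro σ hσ'
      have := hy ⟨σ, hσ'⟩
      change σ y = _ at this
      rw [map_pow, this, mul_pow, ← pow_mul, mul_comm _ p, pow_mul, hζ.pow_eq_one, one_pow, one_mul]
    rwa [InfiniteGalois.fixedField_fixingSubgroup] at h1
  have hx0 : (⟨y ^ p, hyK⟩ : K) ≠ 0 := by
    intro h
    exact pow_ne_zero p hy0 (congrArg Subtype.val h)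
  refine ⟨Units.mk0 ⟨y ^ p, hyK⟩ hx0, ?_, y, rfl, hy⟩
  -- the Selmer condition
  have hFy : (K ⊔ IntermediateField.adjoin ℚ {y}).IsUnramifiedOutside S := by
    refine adjoin_unramified hK fun q hq A hA σ hσ => ?_
    have h1 : σ ∈ K.fixingSubgroup := hK.2 q hq A hA hσ
    have h2 : σ ∈ F.fixingSubgroup := hFur.2 q hq A hA hσ
    have h3 := hy ⟨σ, h1⟩
    rw [hFf ⟨σ, h1⟩ h2] at h3
    simpa using h3
  obtain ⟨E, hE, hle, hn, -⟩ := H91.exists_normal_levelS hFy
  have hEfd : FiniteDimensional ℚ E := hE.1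
  have hEnf : NumberField E := numberField_of_finiteDimensional E
  have hEgal' : IsGalois ℚ E := (InfiniteGalois.normal_iff_isGalois E).1 hn
  have hEgal : @IsGalois ℚ _ E _ DivisionRing.toRatAlgebra := by
    convert hEgal'
  have hKE : K ≤ E := le_sup_left.trans hle
  have hyE : y ∈ E := hle (le_sup_right (a := K) (IntermediateField.mem_adjoin_simple_self ℚ y))
  let _ : Algebra K E := (IntermediateField.inclusion hKE).toRingHom.toAlgebra
  have : IsScalarTower K E Qb := IsScalarTower.of_algebraMap_eq fun _ => rfl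
  intro v hv
  obtain ⟨ℓ, hℓ, A, hA, hAv, hmem⟩ := exists_placeBelow_eq v
  have hℓS : (⟨ℓ, hℓ⟩ : Nat.Primes) ∉ S := fun h => hv _ h hmem
  have hI : ∀ σ ∈ A.inertiaSubgroupIn ℚ, ∀ x : E, σ (algebraMap E Qb x) = algebraMap E Qb x := by
    intro σ hσ x
    exact (IntermediateField.mem_fixingSubgroup_iff E _).1 (hE.2 ⟨ℓ, hℓ⟩ hℓS A hA hσ) x x.2
  obtain ⟨n, hn⟩ := exists_valuation_eq_exp_mul p K E hℓ hA hI (x := (⟨y ^ p, hyK⟩ : K)) hx0
    (y := ⟨y, hyE⟩) (by apply Subtype.ext; rfl)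
  rw [hAv] at hn
  have h5 := valuation_eq_exp v (Units.mk0 ⟨y ^ p, hyK⟩ hx0)
  rw [Units.val_mk0, hn, WithZero.exp_inj] at h5
  exact ⟨n, h5.symm⟩

end correspondence

end Fermat.Agent.H64
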