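/-
S47, package GAL, part G2 (helper3): decomposition groups of places below a place of `Q̄`
with inertia in the kernel of `ρ`; splitting in terms of the Frobenius element.
-/
import Mathlib
import Fermat.Agent.H3G6
import Fermat.Agent.H64Kummer
import Fermat.Agent.H89D1

set_option autoImplicit false
set_option maxSynthPendingDepth 3
set_option linter.style.haveILetI false
set_option linter.unusedSectionVars false

namespace Fermat.Agent.H3G

open Matrix Module NumberField IsDedekindDomain Fermat.Agent.H63 Fermat.Agent.H64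
open scoped Pointwise

local notation "Qb" => AlgebraicClosure ℚ
local notation "GQ" => (AlgebraicClosure ℚ ≃ₐ[ℚ] AlgebraicClosure ℚ)

/-! ### general facts on places below a place of `Ω` -/

section General

variable {Ω : Type*} [Field Ω] [CharZero Ω] [IsGalois ℚ Ω]
  (F L : Type*) [Field F] [NumberField F] [Field L] [NumberField L] [Algebra F L]
  [Algebra F Ω] [Algebra L Ω] [IsScalarTower F L Ω]
  {p : ℕ} (hp : p.Prime) {A : ValuationSubring Ω} (hA : A.LiesOverPrime p)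

theorem placeBelow_mem_above : placeBelow L hp hA ∈ H82.above L (placeBelow F hp hA) := by
  show (placeBelow L hp hA).asIdeal.under (𝓞 F) = (placeBelow F hp hA).asIdeal
  have htower : (algebraMap (𝓞 L) (𝓞 Ω)).comp (algebraMap (𝓞 F) (𝓞 L)) =
      algebraMap (𝓞 F) (𝓞 Ω) := by
    ext a
    exact (IsScalarTower.algebraMap_apply F L Ω (a : F)).symm
  rw [Ideal.under_def, placeBelow_asIdeal, placeBelow_asIdeal, Ideal.comap_comap, htower]

theorem ramificationIdx'_eq_one [IsGalois ℚ L]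
    (hI : ∀ σ ∈ A.inertiaSubgroupIn ℚ, ∀ x : L, σ (algebraMap L Ω x) = algebraMap L Ω x) :
    (placeBelow F hp hA).asIdeal.ramificationIdx' (placeBelow L hp hA).asIdeal = 1 := by
  have hover : (placeBelow L hp hA).asIdeal.LiesOver (placeBelow F hp hA).asIdeal :=
    ⟨(placeBelow_mem_above F L hp hA).symm⟩
  have h2 := ramificationIdx_eq_one_of_inertia L A hI
  have h3 := Ideal.ramificationIdx_tower (R := ℤ) (placeBelow F hp hA).asIdeal
    (placeBelow L hp hA).asIdeal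
  rw [placeBelow_asIdeal L, h2] at h3
  have h4 := Nat.eq_one_of_mul_eq_one_left h3.symm
  rw [Ideal.ramificationIdx'_eq_ramificationIdx _ _ (placeBelow F hp hA).ne_bot,
    placeBelow_asIdeal L, h4]

end General

section FrobUnique

variable {F L : Type*} [Field F] [NumberField F] [Field L] [NumberField L] [Algebra F L]

theorem mem_dec_of_frob {Q : HeightOneSpectrum (𝓞 L)} {q : ℕ} (hq : q ≠ 0) {φ : L ≃ₐ[F] L}
    (h : ∀ x : 𝓞 L, φ • x - x ^ q ∈ Q.asIdeal) : φ ∈ H89D.dec F Q := by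
  have key : ∀ x, x ∈ Q.asIdeal ↔ φ • x ∈ Q.asIdeal := by
    intro x
    constructor
    · intro hx
      have := Q.asIdeal.add_mem (h x) (Ideal.pow_mem_of_mem _ hx q (Nat.pos_of_ne_zero hq))
      simpa using this
    · intro hx
      have := Q.asIdeal.sub_mem hx (h x)
      rw [sub_sub_cancel] at this
      exact Q.isPrime.mem_of_pow_mem q this
  rw [H89D.mem_dec]
  apply HeightOneSpectrum.ext
  rw [H47.smulPlace_asIdeal]
  ext x
  rw [Ideal.mem_pointwise_smul_iff_inv_smul_mem, key (φ⁻¹ • x), smul_inv_smul]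

theorem eq_one_of_inertia [IsGalois F L] {w : HeightOneSpectrum (𝓞 F)}
    {Q : HeightOneSpectrum (𝓞 L)}
    (hQ : Q ∈ H82.above L w) (he : w.asIdeal.ramificationIdx' Q.asIdeal = 1) {σ : L ≃ₐ[F] L}
    (hσ : ∀ x : 𝓞 L, σ • x - x ∈ Q.asIdeal) : σ = 1 := by
  have : Q.asIdeal.LiesOver w.asIdeal := ⟨hQ.symm⟩
  have hmax := w.isMaximal
  have hmaxQ := Q.isMaximal
  have h1 := Ideal.card_inertia_eq_ramificationIdxIn (G := L ≃ₐ[F] L) w.asIdeal Q.asIdeal
  rw [Ideal.ramificationIdxIn_eq_ramificationIdx w.asIdeal Q.asIdeal (L ≃ₐ[F] L),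
    ← Ideal.ramificationIdx'_eq_ramificationIdx _ _ w.ne_bot, he] at h1
  have h2 : Subsingleton (Q.asIdeal.inertia (L ≃ₐ[F] L)) :=
    (Nat.card_eq_one_iff_unique.1 h1).1
  have h3 := h2.elim ⟨σ, hσ⟩ 1
  exact congrArg Subtype.val h3

theorem frob_unique [IsGalois F L] {w : HeightOneSpectrum (𝓞 F)}
    {Q : HeightOneSpectrum (𝓞 L)}
    (hQ : Q ∈ H82.above L w) (he : w.asIdeal.ramificationIdx' Q.asIdeal = 1) {q : ℕ} (hq : q ≠ 0)
    {φ φ' : L ≃ₐ[F] L} (h : ∀ x : 𝓞 L, φ • x - x ^ q ∈ Q.asIdeal)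
    (h' : ∀ x : 𝓞 L, φ' • x - x ^ q ∈ Q.asIdeal) : φ = φ' := by
  have h1 : φ'⁻¹ * φ = 1 := by
    apply eq_one_of_inertia hQ he
    intro x
    have h2 : φ • x - φ' • x ∈ Q.asIdeal := by
      have := Q.asIdeal.sub_mem (h x) (h' x)
      simpa using this
    have h3 : (φ'⁻¹ * φ) • x - x = φ'⁻¹ • (φ • x - φ' • x) := by
      rw [smul_sub, inv_smul_smul, mul_smul]
    rw [h3, ← Ideal.mem_pointwise_smul_iff_inv_smul_mem]
    have h4 : H47.smulPlace φ' Q = Q := mem_dec_of_frob hq h'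
    have h5 : φ' • Q.asIdeal = Q.asIdeal := congrArg HeightOneSpectrum.asIdeal h4
    rw [h5]
    exact h2
  exact (inv_mul_eq_one.1 h1).symm

theorem dec_eq_zpowers [IsGalois F L] {w : HeightOneSpectrum (𝓞 F)}
    {Q : HeightOneSpectrum (𝓞 L)}
    (hQ : Q ∈ H82.above L w) (he : w.asIdeal.ramificationIdx' Q.asIdeal = 1)
    {φ : L ≃ₐ[F] L} (h : ∀ x : 𝓞 L, φ • x - x ^ Nat.card (𝓞 F ⧸ w.asIdeal) ∈ Q.asIdeal) :
    H89D.dec F Q = Subgroup.zpowers φ ∧ orderOf φ = w.asIdeal.inertiaDeg' Q.asIdeal := by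
  obtain ⟨φ', h1, h2, h3⟩ := H89D.exists_frob hQ he
  have hfin : Finite (𝓞 F ⧸ w.asIdeal) := Ideal.finiteQuotientOfFreeOfNeBot _ w.ne_bot
  have : φ = φ' := frob_unique hQ he (Nat.card_pos (α := 𝓞 F ⧸ w.asIdeal)).ne' h h1
  subst this
  exact ⟨h2, h3⟩

end FrobUnique

/-! ### automorphisms of `fld ρ H` over `ℚ` -/

section AutQ

variable {ρ : GQ →* GG} (H : Subgroup GG) [H.Normal]

theorem apply_mem_fld (σ : GQ) {x : Qb} (hx : x ∈ fld ρ H) : σ x ∈ fld ρ H :=
  map_mem_fld (fun h hh => by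
    have := Subgroup.Normal.conj_mem (inferInstance : H.Normal) h hh (ρ σ)⁻¹
    simpa using this) hx

/-- restriction of automorphisms of `Q̄` to `fld ρ H` -/
noncomputable def autQ (ρ : GQ →* GG) (H : Subgroup GG) [H.Normal] :
    GQ →* (fld ρ H ≃ₐ[ℚ] fld ρ H) where
  toFun σ :=
    { toFun := fun x => ⟨σ x, apply_mem_fld H σ x.2⟩
      invFun := fun x => ⟨σ⁻¹ x, apply_mem_fld H σ⁻¹ x.2⟩
      left_inv := fun x => Subtype.ext (σ.symm_apply_apply (x : Qb))
      right_inv := fun x => Subtype.ext (σ.apply_symm_apply (x : Qb))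
      map_mul' := fun x y => Subtype.ext (map_mul σ (x : Qb) y)
      map_add' := fun x y => Subtype.ext (map_add σ (x : Qb) y)
      commutes' := fun x => Subtype.ext (σ.commutes x) }
  map_one' := rfl
  map_mul' _ _ := rfl

theorem autQ_apply (σ : GQ) (x : fld ρ H) : ((autQ ρ H σ x : fld ρ H) : Qb) = σ (x : Qb) := rfl

theorem autQ_eq_one_iff (hρ : Continuous ρ) (σ : GQ) : autQ ρ H σ = 1 ↔ ρ σ ∈ H := by
  rw [← mem_fixingSubgroup_fld hρ, IntermediateField.mem_fixingSubgroup_iff]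
  constructor
  · intro he x hx
    exact congrArg (fun f : fld ρ H ≃ₐ[ℚ] fld ρ H => ((f ⟨x, hx⟩ : fld ρ H) : Qb)) he
  · intro he
    apply AlgEquiv.ext
    intro x
    exact Subtype.ext (he x x.2)

theorem autQ_eq_iff (hρ : Continuous ρ) (σ τ : GQ) : autQ ρ H σ = autQ ρ H τ ↔
    (ρ σ)⁻¹ * ρ τ ∈ H := by
  rw [← map_inv, ← map_mul, ← autQ_eq_one_iff H hρ, map_mul, map_inv, inv_mul_eq_one]

theorem autQ_surjective : Function.Surjective (autQ ρ H) := by
  intro g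
  haveI : IsGalois ℚ Qb := isGalois_Qb
  let τ : Qb ≃ₐ[ℚ] Qb := g.liftNormal Qb
  have hτ : ∀ y : fld ρ H, τ (y : Qb) = ((g y : fld ρ H) : Qb) := fun y =>
    g.liftNormal_commutes Qb y
  refine ⟨τ, ?_⟩
  apply AlgEquiv.ext
  intro y
  exact Subtype.ext (hτ y)

/-- a relative automorphism as absolute automorphism -/
theorem autRel_restrictScalars {H' : Subgroup GG} (h : H ≤ H') (hn : (H.subgroupOf H').Normal)
    (σ : GQ) (hσ : ρ σ ∈ H') :
    letI := algOf (fld_anti (ρ := ρ) h)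
    haveI := tower_Q (fld_anti (ρ := ρ) h)
    (autRel h hn σ hσ).restrictScalars ℚ = autQ ρ H σ := rfl

end AutQ

/-! ### the absolute decomposition group -/

section Dec

variable {ρ : GQ →* GG} (hρ : Continuous ρ) (H : Subgroup GG) [H.Normal]
  {p : ℕ} (hp : p.Prime) {A : ValuationSubring Qb} (hA : A.LiesOverPrime p)
  (hI : ∀ σ ∈ A.inertiaSubgroupIn ℚ, ρ σ = 1) {σ : GQ} (hσ : A.IsFrobeniusAt σ p)

theorem card_quot_rat : haveI : IsGalois ℚ Qb := isGalois_Qb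
    Nat.card (𝓞 ℚ ⧸ (placeBelow ℚ hp hA).asIdeal) = p := by
  haveI : IsGalois ℚ Qb := isGalois_Qb
  have hmem : ((p : ℕ) : 𝓞 ℚ) ∈ (placeBelow ℚ hp hA).asIdeal := by
    rw [placeBelow_asIdeal, Ideal.mem_comap, map_natCast]
    exact (liesOverPrime_iff A p).1 hA
  have h1 : Ideal.absNorm (placeBelow ℚ hp hA).asIdeal ∣ p := by
    have h2 : Ideal.absNorm (placeBelow ℚ hp hA).asIdeal ∣
        Ideal.absNorm (Ideal.span {((p : ℕ) : 𝓞 ℚ)}) :=
      Ideal.absNorm_dvd_absNorm_of_le ((Ideal.span_singleton_le_iff_mem _).2 hmem)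
    rw [Ideal.absNorm_span_singleton] at h2
    have h3 : ((p : ℕ) : 𝓞 ℚ) = algebraMap ℤ (𝓞 ℚ) (p : ℤ) := by simp
    rw [h3, Algebra.norm_algebraMap, RingOfIntegers.rank, Module.finrank_self, pow_one] at h2
    simpa using h2
  have h2 : Ideal.absNorm (placeBelow ℚ hp hA).asIdeal ≠ 1 := by
    rw [ne_eq, Ideal.absNorm_eq_one_iff]
    exact (placeBelow ℚ hp hA).isPrime.ne_top
  exact ((Nat.dvd_prime hp).1 h1).resolve_left h2

include hσ in
theorem autQ_frob (x : 𝓞 (fld ρ H)) : haveI := numberField_fld hρ H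
    haveI : IsGalois ℚ Qb := isGalois_Qb
    autQ ρ H σ • x - x ^ p ∈ (placeBelow (fld ρ H) hp hA).asIdeal := by
  haveI := numberField_fld hρ H
  haveI : IsGalois ℚ Qb := isGalois_Qb
  haveI : Algebra.IsAlgebraic ℚ Qb := AlgebraicClosure.isAlgebraic ℚ
  rw [placeBelow_asIdeal, Ideal.mem_comap]
  have h := (isFrobeniusAt_iff_center A σ hp.ne_zero).1 hσ (algebraMap (𝓞 (fld ρ H)) (𝓞 Qb) x)
  rw [map_sub, map_pow]
  exact h

include hI in
theorem inertia_fld : ∀ τ ∈ A.inertiaSubgroupIn ℚ, ∀ x : fld ρ H,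
    τ (algebraMap (fld ρ H) Qb x) = algebraMap (fld ρ H) Qb x := by
  intro τ hτ x
  exact mem_fld.1 x.2 τ (by rw [hI τ hτ]; exact H.one_mem)

include hI hσ in
theorem decQ_eq : haveI := numberField_fld hρ H
    haveI : IsGalois ℚ Qb := isGalois_Qb
    haveI := isGalois_fld (ρ := ρ) H
    H89D.dec ℚ (placeBelow (fld ρ H) hp hA) = Subgroup.zpowers (autQ ρ H σ) ∧
      orderOf (autQ ρ H σ) =
        (placeBelow ℚ hp hA).asIdeal.inertiaDeg' (placeBelow (fld ρ H) hp hA).asIdeal := by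
  haveI := numberField_fld hρ H
  haveI : IsGalois ℚ Qb := isGalois_Qb
  haveI := isGalois_fld (ρ := ρ) H
  apply dec_eq_zpowers (placeBelow_mem_above ℚ (fld ρ H) hp hA)
    (ramificationIdx'_eq_one ℚ (fld ρ H) hp hA (inertia_fld H hI))
  intro x
  rw [card_quot_rat hp hA]
  exact autQ_frob hρ H hp hA hσ x

include hI hσ in
/-- the norm of the place of `fld ρ H` below `A` -/
theorem absNorm_placeBelow_fld : haveI := numberField_fld hρ H
    haveI : IsGalois ℚ Qb := isGalois_Qb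
    Ideal.absNorm (placeBelow (fld ρ H) hp hA).asIdeal = p ^ orderOf (autQ ρ H σ) := by
  haveI := numberField_fld hρ H
  haveI : IsGalois ℚ Qb := isGalois_Qb
  haveI := isGalois_fld (ρ := ρ) H
  have h1 := (decQ_eq hρ H hp hA hI hσ).2
  rw [h1]
  set w := placeBelow ℚ hp hA with hw
  set Q := placeBelow (fld ρ H) hp hA with hQ
  have hover : Q.asIdeal.LiesOver w.asIdeal := ⟨(placeBelow_mem_above ℚ (fld ρ H) hp hA).symm⟩
  have hmax := w.isMaximal
  have hmaxQ := Q.isMaximal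
  let : Field (𝓞 ℚ ⧸ w.asIdeal) := Ideal.Quotient.field _
  let : Field (𝓞 (fld ρ H) ⧸ Q.asIdeal) := Ideal.Quotient.field _
  have hfin : Finite (𝓞 ℚ ⧸ w.asIdeal) := Ideal.finiteQuotientOfFreeOfNeBot _ w.ne_bot
  have hfinQ : Finite (𝓞 (fld ρ H) ⧸ Q.asIdeal) := Ideal.finiteQuotientOfFreeOfNeBot _ Q.ne_bot
  have h2 := card_quot_rat hp hA
  have h3 : Nat.card (𝓞 (fld ρ H) ⧸ Q.asIdeal) = Nat.card (𝓞 ℚ ⧸ w.asIdeal) ^
      finrank (𝓞 ℚ ⧸ w.asIdeal) (𝓞 (fld ρ H) ⧸ Q.asIdeal) :=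
    Module.natCard_eq_pow_finrank
  rw [h2] at h3
  rw [Ideal.inertiaDeg'_algebraMap, ← h3]
  rfl

include hI hσ in
theorem absNorm_placeBelow_fld' {k : ℕ} (hk : 0 < k) (h1 : ρ (σ ^ k) ∈ H)
    (h2 : ∀ j, 0 < j → j < k → ρ (σ ^ j) ∉ H) : haveI := numberField_fld hρ H
    haveI : IsGalois ℚ Qb := isGalois_Qb
    Ideal.absNorm (placeBelow (fld ρ H) hp hA).asIdeal = p ^ k := by
  rw [absNorm_placeBelow_fld hρ H hp hA hI hσ]
  congr 1
  rw [orderOf_eq_iff hk]
  refine ⟨?_, fun j hj hj0 => ?_⟩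
  · rw [← map_pow, autQ_eq_one_iff H hρ]
    exact h1
  · rw [← map_pow, ne_eq, autQ_eq_one_iff H hρ]
    exact h2 j hj0 hj

end Dec

/-! ### relative decomposition groups -/

section DecRel

variable {ρ : GQ →* GG} (hρ : Continuous ρ) {H H' : Subgroup GG} [H.Normal] (h : H ≤ H')
  {p : ℕ} (hp : p.Prime) {A : ValuationSubring Qb} (hA : A.LiesOverPrime p)
  (hI : ∀ σ ∈ A.inertiaSubgroupIn ℚ, ρ σ = 1) {σ : GQ} (hσ : A.IsFrobeniusAt σ p)

include hρ hI hσ in
/-- `w` splits completely in `fld ρ H` iff the powers of the Frobenius in `H'` are in `H`. -/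
theorem dec_eq_bot_iff : haveI := numberField_fld hρ H
    haveI : IsGalois ℚ Qb := isGalois_Qb
    letI := algOf (fld_anti (ρ := ρ) h)
    H89D.dec (fld ρ H') (placeBelow (fld ρ H) hp hA) = ⊥ ↔
      ∀ j : ℤ, (ρ σ) ^ j ∈ H' → (ρ σ) ^ j ∈ H := by
  haveI := numberField_fld hρ H
  haveI : IsGalois ℚ Qb := isGalois_Qb
  haveI := isGalois_fld (ρ := ρ) H
  letI := algOf (fld_anti (ρ := ρ) h)
  haveI := tower_Q (fld_anti (ρ := ρ) h)
  have hn : (H.subgroupOf H').Normal := inferInstance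
  have hdec := (decQ_eq hρ H hp hA hI hσ).1
  rw [Subgroup.eq_bot_iff_forall]
  constructor
  · intro hbot j hj
    have h1 : ρ (σ ^ j) ∈ H' := by rw [map_zpow]; exact hj
    have h2 : autRel h hn (σ ^ j) h1 ∈ H89D.dec (fld ρ H') (placeBelow (fld ρ H) hp hA) := by
      have h3 : autQ ρ H (σ ^ j) ∈ H89D.dec ℚ (placeBelow (fld ρ H) hp hA) := by
        rw [hdec, map_zpow]
        exact Subgroup.zpow_mem_zpowers _ _
      exact h3
    have h3 := (autRel_eq_one_iff hρ h hn _ h1).1 (hbot _ h2)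
    rw [map_zpow] at h3
    exact h3
  · intro hj g hg
    obtain ⟨τ, hτ, rfl⟩ := autRel_surjective hρ h hn g
    have h3 : autQ ρ H τ ∈ H89D.dec ℚ (placeBelow (fld ρ H) hp hA) := hg
    rw [hdec] at h3
    obtain ⟨j, hj'⟩ := h3
    have h4 : autQ ρ H (σ ^ j) = autQ ρ H τ := by rw [map_zpow]; exact hj'
    rw [autQ_eq_iff H hρ, map_zpow] at h4
    have h5 : (ρ σ) ^ j ∈ H' := by
      have h6 := H'.mul_mem hτ (H'.inv_mem (h h4))
      simpa [mul_assoc] using h6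
    have h6 : (ρ σ) ^ j ∈ H := hj j h5
    refine (autRel_eq_one_iff hρ h hn _ hτ).2 ?_
    have h7 := H.mul_mem h6 h4
    simpa using h7

end DecRel

end Fermat.Agent.H3G
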