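import Fermat.Agent.H89D2

/-!
# The compatibility (COMPAT) and the values of the quartic character, places in a `Q8`-tower
-/

set_option autoImplicit false
set_option linter.unusedSectionVars false

noncomputable section

namespace Fermat.Agent.H89D

open IsDedekindDomain NumberField
open scoped Pointwise

section general

variable {F L : Type*} [Field F] [NumberField F] [Field L] [NumberField L] [Algebra F L]

theorem sum_above_smul {A : Type*} [AddCommMonoid A] (σ : L ≃ₐ[F] L)
    (w : HeightOneSpectrum (𝓞 F)) (f : HeightOneSpectrum (𝓞 L) → A) :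
    ∑ P ∈ (finite_above (L := L) w).toFinset, f (H47.smulPlace σ P) =
      ∑ P ∈ (finite_above (L := L) w).toFinset, f P := by
  refine Finset.sum_bij' (fun P _ => H47.smulPlace σ P) (fun P _ => H47.smulPlace σ⁻¹ P)
    ?_ ?_ ?_ ?_ ?_
  · intro P hP
    rw [Set.Finite.mem_toFinset] at hP ⊢
    exact H47.smulPlace_mem_above σ hP
  · intro P hP
    rw [Set.Finite.mem_toFinset] at hP ⊢
    exact H47.smulPlace_mem_above σ⁻¹ hP
  · intro P _
    rw [← smulPlace_mul, inv_mul_cancel, smulPlace_one]
  · intro P _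
    rw [← smulPlace_mul, mul_inv_cancel, smulPlace_one]
  · intro P _
    rfl

theorem finsum_above_eq {A : Type*} [AddCommMonoid A] (w : HeightOneSpectrum (𝓞 F))
    (f : HeightOneSpectrum (𝓞 L) → A) :
    ∑ᶠ P ∈ H82.above L w, f P = ∑ P ∈ (finite_above (L := L) w).toFinset, f P :=
  finsum_mem_eq_finite_toFinset_sum _ _

theorem finprod_above_eq {A : Type*} [CommMonoid A] (w : HeightOneSpectrum (𝓞 F))
    (f : HeightOneSpectrum (𝓞 L) → A) :
    ∏ᶠ P ∈ H82.above L w, f P = ∏ P ∈ (finite_above (L := L) w).toFinset, f P :=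
  finprod_mem_eq_finite_toFinset_prod _ _

theorem card_toFinset_above (w : HeightOneSpectrum (𝓞 F)) :
    (finite_above (L := L) w).toFinset.card = (H82.above L w).ncard :=
  (Set.ncard_eq_toFinset_card _ _).symm

end general

section galois

variable {E M L : Type*} [Field E] [NumberField E] [Field M] [NumberField M] [Field L]
  [NumberField L] [Algebra E M] [Algebra M L] [Algebra E L] [IsScalarTower E M L]

/-- The number of places above is Galois invariant. -/
theorem ncard_above_smulPlace [IsGalois E L] [Normal E M] (σ : M ≃ₐ[E] M)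
    (P : HeightOneSpectrum (𝓞 M)) :
    (H82.above L (H47.smulPlace σ P)).ncard = (H82.above L P).ncard := by
  obtain ⟨ρ, hρ⟩ := AlgEquiv.restrictNormalHom_surjective (F := E) (K₁ := M) L σ
  have hρ' : ∀ x : M, ρ (algebraMap M L x) = algebraMap M L (σ x) := by
    intro x
    rw [← hρ]
    exact (AlgEquiv.restrictNormal_commutes ρ M x).symm
  have himg : H82.above L (H47.smulPlace σ P) = H47.smulPlace ρ '' H82.above L P := by
    ext Q
    constructor
    · intro hQ
      refine ⟨H47.smulPlace ρ⁻¹ Q, ?_, ?_⟩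
      · have h1 : H47.below M (H47.smulPlace ρ (H47.smulPlace ρ⁻¹ Q)) =
            H47.smulPlace σ (H47.below M (H47.smulPlace ρ⁻¹ Q)) :=
          below_smulPlace ρ σ hρ' _
        rw [← smulPlace_mul, mul_inv_cancel, smulPlace_one,
          ← H47.eq_below_of_mem_above hQ] at h1
        have h2 := smulPlace_injective σ h1
        rw [h2]
        exact H47.mem_above_below _
      · rw [← smulPlace_mul, mul_inv_cancel, smulPlace_one]
    · rintro ⟨Q', hQ', rfl⟩
      have h1 := below_smulPlace ρ σ hρ' Q'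
      rw [← H47.eq_below_of_mem_above hQ'] at h1
      rw [← h1]
      exact H47.mem_above_below _
  rw [himg, Set.ncard_image_of_injective _ (smulPlace_injective ρ)]

/-- (G2) -/
theorem nonSplit_smulPlace_iff [IsGalois E L] [Normal E M] (σ : M ≃ₐ[E] M)
    (P : HeightOneSpectrum (𝓞 M)) :
    H82.NonSplit L (H47.smulPlace σ P) ↔ H82.NonSplit L P := by
  unfold H82.NonSplit
  rw [ncard_above_smulPlace]

end galois

namespace IsQ8Tower

variable {E B C K : Type*} [Field E] [NumberField E] [Field B] [NumberField B] [Field C]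
  [NumberField C] [Field K] [NumberField K] [Algebra E B] [Algebra E C] [Algebra E K]
  [Algebra B C] [Algebra B K] [Algebra C K] [IsScalarTower E B C] [IsScalarTower E B K]
  [IsScalarTower E C K] [IsScalarTower B C K] (H : IsQ8Tower E B C K)

include H

/-- (G2) for the tower. -/
theorem nonSplit_smulPlace_iff (σ : C ≃ₐ[E] C) (P : HeightOneSpectrum (𝓞 C)) :
    H82.NonSplit K (H47.smulPlace σ P) ↔ H82.NonSplit K P := by
  have := H.isGalois_EK
  have := H.isGalois_EC
  exact H89D.nonSplit_smulPlace_iff σ P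

theorem sum_above_tau (τ : C ≃ₐ[B] C) {w : HeightOneSpectrum (𝓞 E)}
    (x : HeightOneSpectrum (𝓞 C) → ℤ) (n : ℤ)
    (hx : ∀ P ∈ H82.above C w, x P + x (H47.smulPlace τ P) = n) :
    2 * ∑ P ∈ (finite_above (L := C) w).toFinset, x P = (H82.above C w).ncard * n := by
  have h1 := sum_above_smul (τ.restrictScalars E) w x
  have h2 : ∑ P ∈ (finite_above (L := C) w).toFinset, (x P + x (H47.smulPlace τ P)) =
      ∑ P ∈ (finite_above (L := C) w).toFinset, n :=
    Finset.sum_congr rfl fun P hP => hx P ((Set.Finite.mem_toFinset _).1 hP)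
  rw [Finset.sum_const, card_toFinset_above, Finset.sum_add_distrib, nsmul_eq_mul] at h2
  have h3 : ∑ P ∈ (finite_above (L := C) w).toFinset, x (H47.smulPlace τ P) =
      ∑ P ∈ (finite_above (L := C) w).toFinset, x P := h1
  rw [h3] at h2
  linarith

/-- (G1) the compatibility, general form. -/
theorem compat' {τ : C ≃ₐ[B] C} (hτ : τ ≠ 1) {A : Type*} [AddCommGroup A] {h : A}
    (h2 : 2 • h = 0) {w : HeightOneSpectrum (𝓞 E)}
    (hunr : ∀ Q ∈ H82.above K w, w.asIdeal.ramificationIdx' Q.asIdeal = 1)
    {e : HeightOneSpectrum (𝓞 C) → A} {ω : A}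
    (he1 : ∀ P ∈ H82.above C w, H82.NonSplit K P → e P = h)
    (he0 : ∀ P ∈ H82.above C w, ¬ H82.NonSplit K P → e P = 0)
    (hω1 : H82.NonSplit B w → ω = h) (hω0 : ¬ H82.NonSplit B w → ω = 0)
    (x : HeightOneSpectrum (𝓞 C) → ℤ) (n : ℤ)
    (hx : ∀ P ∈ H82.above C w, x P + x (H47.smulPlace τ P) = n) :
    ∑ᶠ P ∈ H82.above C w, x P • e P = n • ω := by
  have h2' : (2 : ℤ) • h = 0 := by
    rw [← h2, ← natCast_zsmul]
    rfl
  have hsum := H.sum_above_tau τ x n hx
  rw [finsum_above_eq]
  by_cases hK : (H82.above K w).ncard = 8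
  · -- everything is split
    rw [hω0 (H.not_nonSplit_B (H.ncard_C_of_ncard_K hK)), smul_zero]
    apply Finset.sum_eq_zero
    intro P hP
    rw [Set.Finite.mem_toFinset] at hP
    rw [he0 P hP (by rw [H.nonSplit_K_iff hunr hP, not_not]; exact hK), smul_zero]
  · have hall : ∑ P ∈ (finite_above (L := C) w).toFinset, x P • e P =
        (∑ P ∈ (finite_above (L := C) w).toFinset, x P) • h := by
      rw [Finset.sum_smul]
      refine Finset.sum_congr rfl fun P hP => ?_
      rw [Set.Finite.mem_toFinset] at hP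
      rw [he1 P hP ((H.nonSplit_K_iff hunr hP).2 hK)]
    rw [hall]
    rcases H.ncard_C_eq hunr with hC | hC
    · -- four places: `Frob = -1`
      rw [hω0 (H.not_nonSplit_B hC), smul_zero]
      rw [hC] at hsum
      have : ∑ P ∈ (finite_above (L := C) w).toFinset, x P = n * 2 := by
        push_cast at hsum; linarith
      rw [this, mul_smul, h2', smul_zero]
    · rw [hC] at hsum
      have hn : ∑ P ∈ (finite_above (L := C) w).toFinset, x P = n := by
        push_cast at hsum; linarith
      rw [hn]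
      by_cases hB : H82.NonSplit B w
      · rw [hω1 hB]
      · rw [hω0 hB, smul_zero]
        obtain ⟨P, hP⟩ := H47.above_nonempty (L := C) w
        have h3 := hx P hP
        rw [(H.smulPlace_tau_iff hτ hunr hP).2 ⟨hC, hB⟩] at h3
        rw [← h3, ← mul_two, mul_smul, h2', smul_zero]

open scoped Classical in
/-- (G1) the compatibility. -/
theorem compat {τ : C ≃ₐ[B] C} (hτ : τ ≠ 1) {A : Type*} [AddCommGroup A] {h : A}
    (h2 : 2 • h = 0) {w : HeightOneSpectrum (𝓞 E)}
    (hunr : ∀ Q ∈ H82.above K w, w.asIdeal.ramificationIdx' Q.asIdeal = 1)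
    (x : HeightOneSpectrum (𝓞 C) → ℤ) (n : ℤ)
    (hx : ∀ P ∈ H82.above C w, x P + x (H47.smulPlace τ P) = n) :
    ∑ᶠ P ∈ H82.above C w, x P • (if H82.NonSplit K P then h else 0) =
      n • (if H82.NonSplit B w then h else 0) :=
  H.compat' hτ h2 hunr (fun _ _ hP => if_pos hP) (fun _ _ hP => if_neg hP) (fun hP => if_pos hP)
    (fun hP => if_neg hP) x n hx

end IsQ8Tower

end Fermat.Agent.H89D
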