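/-
S47, package GAL, part G3 (helper3): the dictionary `aw w = val8 (ρ (Frob))`.
-/
import Mathlib
import Fermat.Agent.H3G7
import Fermat.Agent.H89D3

set_option autoImplicit false
set_option maxSynthPendingDepth 3
set_option linter.style.haveILetI false
set_option linter.unusedSectionVars false

namespace Fermat.Agent.H3G

open Matrix Module NumberField IsDedekindDomain Fermat.Agent.H63 Fermat.Agent.H64
open scoped Pointwise

local notation "Qb" => AlgebraicClosure ℚ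
local notation "GQ" => (AlgebraicClosure ℚ ≃ₐ[ℚ] AlgebraicClosure ℚ)

instance instGalQb : IsGalois ℚ Qb := isGalois_Qb

theorem ncard_eq_finrank_iff {F L : Type*} [Field F] [NumberField F] [Field L] [NumberField L]
    [Algebra F L] [IsGalois F L] {w : HeightOneSpectrum (𝓞 F)} {Q : HeightOneSpectrum (𝓞 L)}
    (hQ : Q ∈ H82.above L w) : (H82.above L w).ncard = finrank F L ↔ H89D.dec F Q = ⊥ := by
  have h := H89D.ncard_above_mul_card_dec hQ
  have hpos : 0 < finrank F L := by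
    haveI : FiniteDimensional F L := Module.Finite.of_restrictScalars_finite ℚ F L
    exact finrank_pos
  have hfin : Finite (L ≃ₐ[F] L) := by
    haveI : FiniteDimensional F L := Module.Finite.of_restrictScalars_finite ℚ F L
    infer_instance
  rw [← Subgroup.card_eq_one]
  constructor
  · intro h1
    rw [h1] at h
    exact Nat.eq_of_mul_eq_mul_left hpos (by rw [h, mul_one])
  · intro h1
    rw [h1, mul_one] at h
    exact h

namespace RD

variable (D : RD)

open Classical in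
/-- the eigenvalue at `w`, defined by splitting -/
noncomputable def aw (w : HeightOneSpectrum (𝓞 D.E)) : ℝ :=
  if (H82.above D.K w).ncard = 8 then 2 else if (H82.above D.B' w).ncard = 4 then -2 else 0

variable {p : ℕ} (hp : p.Prime) {A : ValuationSubring Qb} (hA : A.LiesOverPrime p)
  (hI : ∀ σ ∈ A.inertiaSubgroupIn ℚ, D.ρ σ = 1) {σ : GQ} (hσ : A.IsFrobeniusAt σ p)

theorem exists_eq_mul_of_zpow_mem {G : Type*} [Group G] {H : Subgroup G} {g : G} {k : ℕ}
    (hk : 0 < k) (h1 : g ^ k ∈ H) (h2 : ∀ j, 0 < j → j < k → g ^ j ∉ H) {j : ℤ}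
    (hj : g ^ j ∈ H) : ∃ m : ℤ, j = k * m := by
  have hk' : (0 : ℤ) < k := by exact_mod_cast hk
  have h3 : g ^ (j % k) ∈ H := by
    have h4 : g ^ (j % k) = g ^ j * ((g ^ k) ^ (j / k))⁻¹ := by
      rw [← zpow_natCast, ← _root_.zpow_mul, ← _root_.zpow_neg, ← _root_.zpow_add]
      congr 1
      have := Int.emod_add_mul_ediv j k
      linarith
    rw [h4]
    exact H.mul_mem hj (H.inv_mem (H.zpow_mem h1 _))
  obtain ⟨r, hr⟩ := Int.eq_ofNat_of_zero_le (Int.emod_nonneg j hk'.ne')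
  have hlt : r < k := by
    have := Int.emod_lt_of_pos j hk'
    rw [hr] at this
    exact_mod_cast this
  rw [hr, zpow_natCast] at h3
  have hr0 : r = 0 := by
    by_contra hne
    exact h2 r (Nat.pos_of_ne_zero hne) hlt h3
  refine ⟨j / k, ?_⟩
  have := Int.emod_add_mul_ediv j k
  rw [hr, hr0] at this
  simpa using this.symm

include hI hσ in
theorem ncard_K_iff {k : ℕ} (hk : 0 < k) (h1 : D.ρ (σ ^ k) ∈ Q8)
    (h2 : ∀ j, 0 < j → j < k → D.ρ (σ ^ j) ∉ Q8) :
    (H82.above D.K (placeBelow D.E hp hA)).ncard = 8 ↔ D.ρ (σ ^ k) = 1 := by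
  have h3 := ncard_eq_finrank_iff (placeBelow_mem_above D.E D.K hp hA)
  rw [D.finrank_EK] at h3
  have h4 := dec_eq_bot_iff D.cont (bot_le : (⊥ : Subgroup GG) ≤ Q8) hp hA hI hσ
  rw [h3]
  refine Iff.trans h4 ?_
  simp only [map_pow] at h1 h2 ⊢
  constructor
  · intro h
    have := h k (by rw [zpow_natCast]; exact h1)
    rw [zpow_natCast] at this
    exact Subgroup.mem_bot.1 this
  · intro h j hj
    obtain ⟨m, rfl⟩ := exists_eq_mul_of_zpow_mem hk h1 h2 hj
    rw [Subgroup.mem_bot, _root_.zpow_mul, zpow_natCast, h, _root_.one_zpow]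

include hI hσ in
theorem ncard_B'_iff {k : ℕ} (hk : 0 < k) (h1 : D.ρ (σ ^ k) ∈ Q8)
    (h2 : ∀ j, 0 < j → j < k → D.ρ (σ ^ j) ∉ Q8) :
    (H82.above D.B' (placeBelow D.E hp hA)).ncard = 4 ↔ D.ρ (σ ^ k) ∈ PM := by
  have h3 := ncard_eq_finrank_iff (placeBelow_mem_above D.E D.B' hp hA)
  rw [D.finrank_EB'] at h3
  have h4 := dec_eq_bot_iff D.cont PM_le_Q8 hp hA hI hσ
  rw [h3]
  refine Iff.trans h4 ?_
  simp only [map_pow] at h1 h2 ⊢
  constructor
  · intro h
    have := h k (by rw [zpow_natCast]; exact h1)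
    rw [zpow_natCast] at this
    exact this
  · intro h j hj
    obtain ⟨m, rfl⟩ := exists_eq_mul_of_zpow_mem hk h1 h2 hj
    rw [_root_.zpow_mul, zpow_natCast]
    exact PM.zpow_mem h m

include hI hσ in
/-- **the dictionary**: `a_w = val8 (ρ (Frob_w))` -/
theorem aw_placeBelow {k : ℕ} (hk : 0 < k) (h1 : D.ρ (σ ^ k) ∈ Q8)
    (h2 : ∀ j, 0 < j → j < k → D.ρ (σ ^ j) ∉ Q8) :
    D.aw (placeBelow D.E hp hA) = H46Z.val8 (D.ρ (σ ^ k)) := by
  have h3 := D.ncard_K_iff hp hA hI hσ hk h1 h2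
  have h4 := D.ncard_B'_iff hp hA hI hσ hk h1 h2
  unfold aw
  by_cases h5 : D.ρ (σ ^ k) = 1
  · rw [if_pos (h3.2 h5), h5, val8_one]
  · rw [if_neg (fun h => h5 (h3.1 h))]
    by_cases h6 : D.ρ (σ ^ k) = -1
    · rw [if_pos (h4.2 (Or.inr h6)), h6, val8_neg_one]
    · rw [if_neg (fun h => (h4.1 h).elim h5 h6), val8_of_ne h5 h6]

include hI hσ in
theorem absNorm_E {k : ℕ} (hk : 0 < k) (h1 : D.ρ (σ ^ k) ∈ Q8)
    (h2 : ∀ j, 0 < j → j < k → D.ρ (σ ^ j) ∉ Q8) :
    Ideal.absNorm (placeBelow D.E hp hA).asIdeal = p ^ k :=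
  absNorm_placeBelow_fld' D.cont Q8 hp hA hI hσ hk h1 h2

include hI hσ in
theorem absNorm_M {k : ℕ} (hk : 0 < k) (h1 : D.ρ (σ ^ k) ∈ SL)
    (h2 : ∀ j, 0 < j → j < k → D.ρ (σ ^ j) ∉ SL) :
    Ideal.absNorm (placeBelow D.M hp hA).asIdeal = p ^ k :=
  absNorm_placeBelow_fld' D.cont SL hp hA hI hσ hk h1 h2

/-! ### the two cases: Frobenius in `Q8`, Frobenius outside of `SL` -/

include hI hσ in
theorem aw_of_mem_Q8 (h : D.ρ σ ∈ Q8) : D.aw (placeBelow D.E hp hA) = H46Z.val8 (D.ρ σ) := by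
  have := D.aw_placeBelow hp hA hI hσ one_pos (by rwa [pow_one]) (fun j h0 h1 => by omega)
  rwa [pow_one] at this

include hI hσ in
theorem aw_of_not_mem_SL (h : D.ρ σ ∉ SL) :
    D.aw (placeBelow D.E hp hA) = H46Z.val8 (D.ρ σ ^ 2) := by
  rw [← map_pow]
  refine D.aw_placeBelow hp hA hI hσ two_pos ?_ (fun j h0 h1 => ?_)
  · rw [map_pow]
    exact sq_mem_Q8_of_not_mem_SL h
  · obtain rfl : j = 1 := by omega
    rw [pow_one]
    exact fun h' => h (Q8_le_SL h')

include hI hσ in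
theorem absNorm_E_of_mem_Q8 (h : D.ρ σ ∈ Q8) :
    Ideal.absNorm (placeBelow D.E hp hA).asIdeal = p := by
  have := D.absNorm_E hp hA hI hσ one_pos (by rwa [pow_one]) (fun j h0 h1 => by omega)
  rwa [pow_one] at this

include hI hσ in
theorem absNorm_M_of_mem_SL (h : D.ρ σ ∈ SL) :
    Ideal.absNorm (placeBelow D.M hp hA).asIdeal = p := by
  have := D.absNorm_M hp hA hI hσ one_pos (by rwa [pow_one]) (fun j h0 h1 => by omega)
  rwa [pow_one] at this

include hI hσ in
theorem absNorm_E_of_not_mem_SL (h : D.ρ σ ∉ SL) :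
    Ideal.absNorm (placeBelow D.E hp hA).asIdeal = p ^ 2 := by
  refine D.absNorm_E hp hA hI hσ two_pos ?_ (fun j h0 h1 => ?_)
  · rw [map_pow]
    exact sq_mem_Q8_of_not_mem_SL h
  · obtain rfl : j = 1 := by omega
    rw [pow_one]
    exact fun h' => h (Q8_le_SL h')

include hI hσ in
theorem absNorm_M_of_not_mem_SL (h : D.ρ σ ∉ SL) :
    Ideal.absNorm (placeBelow D.M hp hA).asIdeal = p ^ 2 := by
  refine D.absNorm_M hp hA hI hσ two_pos ?_ (fun j h0 h1 => ?_)
  · rw [map_pow]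
    exact Q8_le_SL (sq_mem_Q8_of_not_mem_SL h)
  · obtain rfl : j = 1 := by omega
    rwa [pow_one]

end RD

end Fermat.Agent.H3G
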