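import Fermat.Agent.H82GlobIndex
import Fermat.Agent.H47TClass

/-!
# Kummer extensions of degree `p`: splitting and ramification
-/

set_option autoImplicit false

noncomputable section

open IsDedekindDomain NumberField WithZero

namespace Fermat.Agent.H82

variable {K : Type*} [Field K] [NumberField K] {M : Type*} [Field M] [NumberField M] [Algebra K M]

/-- `M = K(α)` with `α ^ p = y ∈ Kˣ`, in the form we use. -/
structure IsKummer (p : ℕ) (K : Type*) [Field K] (M : Type*) [Field M] [Algebra K M] (y : Kˣ)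
    (α : M) : Prop where
  pow_eq : α ^ p = algebraMap K M (y : K)
  eq_one : ∀ σ : M ≃ₐ[K] M, σ α = α → σ = 1

variable {p : ℕ} [hp : Fact p.Prime] {ζ : K} (hζ : IsPrimitiveRoot ζ p)

theorem IsKummer.ne_zero {y : Kˣ} {α : M} (h : IsKummer p K M y α) : α ≠ 0 := by
  rintro rfl
  have h1 := h.pow_eq
  rw [zero_pow hp.out.ne_zero, eq_comm, map_eq_zero] at h1
  exact y.ne_zero h1

include hζ in
/-- The `p`-th roots of unity of `M` lie in `K`. -/
theorem exists_root_of_pow_eq_one {μ : M} (hμ : μ ^ p = 1) :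
    ∃ ν : K, ν ^ p = 1 ∧ algebraMap K M ν = μ := by
  have h1 : IsPrimitiveRoot (algebraMap K M ζ) p :=
    hζ.map_of_injective (algebraMap K M).injective
  have : NeZero p := ⟨hp.out.ne_zero⟩
  obtain ⟨i, -, hi⟩ := h1.eq_pow_of_pow_eq_one hμ
  exact ⟨ζ ^ i, by rw [← pow_mul, mul_comm, pow_mul, hζ.pow_eq_one, one_pow], by
    rw [map_pow, hi]⟩

include hζ in
/-- `σ α = ν α` with `ν` a `p`-th root of unity in `K`. -/
theorem IsKummer.exists_root {y : Kˣ} {α : M} (h : IsKummer p K M y α) (σ : M ≃ₐ[K] M) :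
    ∃ ν : K, ν ^ p = 1 ∧ σ α = algebraMap K M ν * α := by
  have h0 := h.ne_zero
  have h1 : (σ α / α) ^ p = 1 := by
    rw [div_pow, ← map_pow, h.pow_eq, σ.commutes, div_self]
    rw [Ne, map_eq_zero]
    exact y.ne_zero
  obtain ⟨ν, hν, hν'⟩ := exists_root_of_pow_eq_one (M := M) hζ h1
  refine ⟨ν, hν, ?_⟩
  rw [hν']
  field_simp

/-- multiply `y` by the `p`-th power of an element of `K`. -/
theorem IsKummer.mul {y : Kˣ} {α : M} (h : IsKummer p K M y α) (z : Kˣ) :
    IsKummer p K M (z ^ p * y) (algebraMap K M z * α) where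
  pow_eq := by rw [mul_pow, h.pow_eq]; simp
  eq_one σ hσ := by
    refine h.eq_one σ ?_
    rw [map_mul, σ.commutes] at hσ
    have hz : algebraMap K M (z : K) ≠ 0 := by
      rw [Ne, map_eq_zero]; exact z.ne_zero
    exact mul_left_cancel₀ hz hσ

/-- Valuations above `v`. -/
theorem valuation_above {v : HeightOneSpectrum (𝓞 K)} {w : HeightOneSpectrum (𝓞 M)}
    (hw : w ∈ above M v) (x : K) :
    w.valuation M (algebraMap K M x) = v.valuation K x ^ v.asIdeal.ramificationIdx' w.asIdeal := by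
  have : w.asIdeal.LiesOver v.asIdeal := ⟨hw.symm⟩
  exact (HeightOneSpectrum.valuation_liesOver M v w x).symm

theorem ramificationIdx'_ne_zero {v : HeightOneSpectrum (𝓞 K)} {w : HeightOneSpectrum (𝓞 M)}
    (hw : w ∈ above M v) : v.asIdeal.ramificationIdx' w.asIdeal ≠ 0 := by
  have : w.asIdeal.LiesOver v.asIdeal := ⟨hw.symm⟩
  exact Ideal.IsDedekindDomain.ramificationIdx'_ne_zero_of_liesOver w.asIdeal v.ne_bot

include hζ in
/-- If `y` is a local `p`-th power at `v` then the decomposition groups above `v` are trivial. -/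
theorem smulPlace_ne_of_mem_locPow {y : Kˣ} {α : M} (h : IsKummer p K M y α)
    {v : HeightOneSpectrum (𝓞 K)} {m : ℕ} (hm : Deep ζ p v m) (hy : y ∈ locPow p v m)
    {w : HeightOneSpectrum (𝓞 M)} (hw : w ∈ above M v) (σ : M ≃ₐ[K] M)
    (hσ : H47.smulPlace σ w = w) : σ = 1 := by
  obtain ⟨z, hz⟩ := mem_locPow.1 hy
  -- replace `y` by `u = y / z ^ p`
  have h' := h.mul z⁻¹
  have hu : z⁻¹ ^ p * y = y / z ^ p := by rw [div_eq_mul_inv, mul_comm, inv_pow]
  rw [hu] at h'
  set u : Kˣ := y / z ^ p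
  set β : M := algebraMap K M (z⁻¹ : Kˣ) * α
  have he := ramificationIdx'_ne_zero hw
  set e := v.asIdeal.ramificationIdx' w.asIdeal
  have hζM : IsPrimitiveRoot (algebraMap K M ζ) p := hζ.map_of_injective (algebraMap K M).injective
  have hwζ : w.valuation M (algebraMap K M ζ - 1) = v.valuation K (ζ - 1) ^ e := by
    rw [← valuation_above hw, map_sub (algebraMap K M), map_one (algebraMap K M)]
  have h1 : w.valuation M (β ^ p - 1) < w.valuation M (algebraMap K M ζ - 1) ^ p := by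
    rw [h'.pow_eq, hwζ, ← map_one (algebraMap K M), ← map_sub, valuation_above hw, ← pow_mul,
      mul_comm e p, pow_mul]
    exact pow_lt_pow_left₀ (hz.2.trans_lt hm) zero_le he
  obtain ⟨μ, hμ, hμβ⟩ := exists_near_root (w.valuation M) hζM h1
  obtain ⟨ν, hν, hνβ⟩ := h'.exists_root hζ σ
  obtain ⟨μ₀, hμ₀, rfl⟩ := exists_root_of_pow_eq_one (M := M) hζ hμ
  have h2 : w.valuation M (σ β - algebraMap K M μ₀) < w.valuation M (algebraMap K M ζ - 1) := by
    have h3 : σ β - algebraMap K M μ₀ = σ (β - algebraMap K M μ₀) := by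
      rw [map_sub, σ.commutes]
    rw [h3]
    conv_lhs => rw [← hσ]
    rw [H47.valuation_smulPlace]
    exact hμβ
  have hνM : algebraMap K M ν ^ p = 1 := by rw [← map_pow, hν, map_one]
  have hν0 : algebraMap K M ν ≠ 0 := by
    intro h0
    rw [h0, zero_pow hp.out.ne_zero] at hνM
    exact zero_ne_one hνM
  have h4 : w.valuation M (β - algebraMap K M (μ₀ / ν)) < w.valuation M (algebraMap K M ζ - 1) := by
    have h5 : σ β - algebraMap K M μ₀ = algebraMap K M ν * (β - algebraMap K M (μ₀ / ν)) := by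
      rw [hνβ, map_div₀]
      field_simp
    rwa [h5, map_mul, val_eq_one_of_pow (w.valuation M) p hp.out.ne_zero hνM, one_mul] at h2
  have h6 := near_root_unique (w.valuation M) hζM hμ (by
    rw [map_div₀, div_pow, hνM, hμ, div_one]) hμβ h4
  rw [map_div₀, eq_div_iff hν0] at h6
  have hμ0 : algebraMap K M μ₀ ≠ 0 := by
    intro h0
    rw [h0, zero_pow hp.out.ne_zero] at hμ
    exact zero_ne_one hμ
  have h7 : algebraMap K M ν = 1 := by
    have : algebraMap K M μ₀ * algebraMap K M ν = algebraMap K M μ₀ * 1 := by rw [h6, mul_one]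
    exact mul_left_cancel₀ hμ0 this
  exact h'.eq_one σ (by rw [hνβ, h7, one_mul])

include hζ in
theorem IsKummer.not_nonSplit [IsGalois K M] (hdeg : Module.finrank K M = p) {y : Kˣ} {α : M}
    (h : IsKummer p K M y α) {v : HeightOneSpectrum (𝓞 K)} {m : ℕ} (hm : Deep ζ p v m)
    (hy : y ∈ locPow p v m) : ¬ NonSplit M v := by
  intro hns
  obtain ⟨w, hw⟩ := Set.ncard_eq_one.1 hns
  have hw' : w ∈ above M v := by rw [hw]; rfl
  have h1 : ∀ σ : M ≃ₐ[K] M, σ = 1 := fun σ => by
    refine smulPlace_ne_of_mem_locPow hζ h hm hy hw' σ ?_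
    have := H47.smulPlace_mem_above σ hw'
    rw [hw] at this
    exact this
  have h2 : Nat.card (M ≃ₐ[K] M) = 1 := by
    have : Subsingleton (M ≃ₐ[K] M) := ⟨fun a b => by rw [h1 a, h1 b]⟩
    exact Nat.card_unique
  have h3 : Nat.card (M ≃ₐ[K] M) = p := by rw [IsGalois.card_aut_eq_finrank, hdeg]
  exact hp.out.ne_one (h3.symm.trans h2)

/-- Elements of the inertia group act trivially on `w`-integral elements modulo `w`. -/
theorem inertia_integral {w : HeightOneSpectrum (𝓞 M)} {σ : M ≃ₐ[K] M}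
    (hσ : ∀ x : 𝓞 M, σ • x - x ∈ w.asIdeal) {x : M} (hx : w.valuation M x ≤ 1) :
    w.valuation M (σ x - x) < 1 := by
  obtain ⟨n, ⟨d, hd⟩, hnd⟩ := w.exists_primeCompl_mul_eq_of_integer x hx
  have hlt : ∀ r : 𝓞 M, w.valuation M (σ (algebraMap (𝓞 M) M r) - algebraMap (𝓞 M) M r) < 1 := by
    intro r
    exact (w.valuation_lt_one_iff_mem (K := M) (σ • r - r)).2 (hσ r)
  have hd1 : w.valuation M (algebraMap (𝓞 M) M d) = 1 := by
    rw [HeightOneSpectrum.valuation_of_algebraMap]
    exact (w.intValuation_eq_one_iff_mem_primeCompl d).2 hd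
  have hd2 : w.valuation M (σ (algebraMap (𝓞 M) M d)) = 1 := by
    have h1 : σ (algebraMap (𝓞 M) M d) =
        (σ (algebraMap (𝓞 M) M d) - algebraMap (𝓞 M) M d) + algebraMap (𝓞 M) M d := by ring
    rw [h1, Valuation.map_add_eq_of_lt_right _ (by rw [hd1]; exact hlt d), hd1]
  have hd0 : algebraMap (𝓞 M) M d ≠ 0 := by
    intro h0; rw [h0, map_zero] at hd1; exact zero_ne_one hd1
  have hx' : x = algebraMap (𝓞 M) M n / algebraMap (𝓞 M) M d := by
    rw [← hnd]; field_simp
  have hσd0 : σ (algebraMap (𝓞 M) M d) ≠ 0 := by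
    intro h0; rw [h0, map_zero] at hd2; exact zero_ne_one hd2
  have h2 : σ x - x = ((σ (algebraMap (𝓞 M) M n) - algebraMap (𝓞 M) M n) * algebraMap (𝓞 M) M d
      - algebraMap (𝓞 M) M n * (σ (algebraMap (𝓞 M) M d) - algebraMap (𝓞 M) M d)) /
      (σ (algebraMap (𝓞 M) M d) * algebraMap (𝓞 M) M d) := by
    rw [hx', map_div₀]
    field_simp
    ring
  rw [h2, map_div₀, map_mul, hd1, hd2, one_mul, div_one]
  refine (Valuation.map_sub _ _ _).trans_lt (max_lt ?_ ?_)
  · rw [map_mul, hd1, mul_one]; exact hlt n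
  · rw [map_mul]
    calc _ ≤ 1 * w.valuation M (σ (algebraMap (𝓞 M) M d) - algebraMap (𝓞 M) M d) :=
          mul_le_mul' (w.valuation_le_one n) le_rfl
      _ < 1 := by rw [one_mul]; exact hlt d

theorem ramificationIdx'_eq_one_of_inertia [IsGalois K M] {v : HeightOneSpectrum (𝓞 K)}
    {w : HeightOneSpectrum (𝓞 M)} (hw : w ∈ above M v)
    (h : ∀ σ : M ≃ₐ[K] M, (∀ x : 𝓞 M, σ • x - x ∈ w.asIdeal) → σ = 1) :
    v.asIdeal.ramificationIdx' w.asIdeal = 1 := by
  have : w.asIdeal.LiesOver v.asIdeal := ⟨hw.symm⟩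
  have h1 := Ideal.card_inertia_eq_ramificationIdxIn (G := M ≃ₐ[K] M) v.asIdeal w.asIdeal
  rw [Ideal.ramificationIdxIn_eq_ramificationIdx v.asIdeal w.asIdeal (M ≃ₐ[K] M),
    ← Ideal.ramificationIdx'_eq_ramificationIdx _ _ v.ne_bot] at h1
  rw [← h1]
  have : Subsingleton (w.asIdeal.inertia (M ≃ₐ[K] M)) := by
    refine ⟨fun a b => Subtype.ext ?_⟩
    rw [h a.1 a.2, h b.1 b.2]
  exact Nat.card_unique

include hζ in
/-- A Kummer extension is unramified at `v ∤ p` where `y` is a unit up to `p`-th powers. -/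
theorem IsKummer.ramificationIdx'_eq_one [IsGalois K M] {y : Kˣ} {α : M}
    (h : IsKummer p K M y α) {v : HeightOneSpectrum (𝓞 K)} (hvp : v.valuation K (p : K) = 1)
    (hy : y ∈ locPow p v 0) {w : HeightOneSpectrum (𝓞 M)} (hw : w ∈ above M v) :
    v.asIdeal.ramificationIdx' w.asIdeal = 1 := by
  obtain ⟨z, hz⟩ := mem_locPow.1 hy
  have h' := h.mul z⁻¹
  have hu : z⁻¹ ^ p * y = y / z ^ p := by rw [div_eq_mul_inv, mul_comm, inv_pow]
  rw [hu] at h'
  set u : Kˣ := y / z ^ p
  set β : M := algebraMap K M (z⁻¹ : Kˣ) * α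
  have hwβ : w.valuation M β = 1 := by
    have h1 : w.valuation M (β ^ p) = 1 := by
      rw [h'.pow_eq, valuation_above hw, hz.1, one_pow]
    rw [map_pow] at h1
    exact (pow_eq_one_iff_of_nonneg zero_le hp.out.ne_zero).1 h1
  refine ramificationIdx'_eq_one_of_inertia hw fun σ hσ => ?_
  obtain ⟨ν, hν, hνβ⟩ := h'.exists_root hζ σ
  have h2 := inertia_integral hσ hwβ.le
  by_cases hν1 : ν = 1
  · exact h'.eq_one σ (by rw [hνβ, hν1, map_one, one_mul])
  · exfalso
    have h3 : σ β - β = algebraMap K M (ν - 1) * β := by rw [hνβ, map_sub, map_one]; ring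
    have h4 : v.valuation K (ν - 1) = 1 := by
      rw [val_root_sub_one _ hζ hν hν1]
      have h5 := val_prime (v.valuation K) hζ
      rw [hvp] at h5
      have h6 : p - 1 ≠ 0 := by have := hp.out.two_le; omega
      exact (pow_eq_one_iff_of_nonneg zero_le h6).1 h5.symm
    rw [h3, map_mul, hwβ, mul_one, valuation_above hw, h4, one_pow] at h2
    exact lt_irrefl _ h2

end Fermat.Agent.H82
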