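import Fermat.Agent.H89D2
import Fermat.Agent.H82FrobDensity
import Fermat.Agent.H82Kummer

/-!
# Frobenius density for arbitrary Galois extensions of number fields (existence form)
-/

set_option autoImplicit false
set_option linter.unusedSectionVars false

noncomputable section

namespace Fermat.Agent.H89D

open IsDedekindDomain NumberField
open scoped Pointwise

section tower

variable {E M L : Type*} [Field E] [NumberField E] [Field M] [NumberField M] [Field L]
  [NumberField L] [Algebra E M] [Algebra M L] [Algebra E L] [IsScalarTower E M L]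

theorem ramificationIdx'_tower {w : HeightOneSpectrum (𝓞 E)} {P : HeightOneSpectrum (𝓞 M)}
    {Q : HeightOneSpectrum (𝓞 L)} (hP : P ∈ H82.above M w) (hQ : Q ∈ H82.above L P) :
    w.asIdeal.ramificationIdx' Q.asIdeal =
      w.asIdeal.ramificationIdx' P.asIdeal * P.asIdeal.ramificationIdx' Q.asIdeal := by
  have h1 : P.asIdeal.LiesOver w.asIdeal := ⟨hP.symm⟩
  have h2 : Q.asIdeal.LiesOver P.asIdeal := ⟨hQ.symm⟩
  exact Ideal.ramificationIdx'_algebra_tower' _ _ _

end tower

universe u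

/-- A number field is contained in a number field which is Galois over `ℚ`. -/
theorem exists_galois_over (L : Type u) [Field L] [NumberField L] :
    ∃ (N : Type u) (_ : Field N) (_ : NumberField N) (_ : Algebra L N), IsGalois ℚ N := by
  have halg : Algebra.IsAlgebraic ℚ (AlgebraicClosure L) := Algebra.IsAlgebraic.trans ℚ L _
  have hclos : IsAlgClosure ℚ (AlgebraicClosure L) := ⟨inferInstance, halg⟩
  have hnorm : Normal ℚ (AlgebraicClosure L) := IsAlgClosure.normal ℚ (AlgebraicClosure L)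
  let N := IntermediateField.normalClosure ℚ L (AlgebraicClosure L)
  have hNfd : FiniteDimensional ℚ N := inferInstance
  have hN : NumberField N := { to_charZero := inferInstance, to_finiteDimensional := hNfd }
  have hNn : Normal ℚ N := normalClosure.normal ℚ L (AlgebraicClosure L)
  exact ⟨N, inferInstance, hN, inferInstance, ⟨⟩⟩

theorem absNorm_natCast {K : Type*} [Field K] [NumberField K] (n : ℕ) :
    Ideal.absNorm (Ideal.span {(n : 𝓞 K)}) = n ^ Module.finrank ℚ K := by
  rw [Ideal.absNorm_span_singleton]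
  have h1 : (n : 𝓞 K) = algebraMap ℤ (𝓞 K) (n : ℤ) := by simp
  rw [h1, Algebra.norm_algebraMap, RingOfIntegers.rank, Int.natAbs_pow, Int.natAbs_natCast]

theorem absNorm_eq_pow {K : Type*} [Field K] [NumberField K] {ℓ : ℕ} (hℓ : ℓ.Prime)
    (v : HeightOneSpectrum (𝓞 K)) (hv : ((ℓ : ℕ) : 𝓞 K) ∈ v.asIdeal) :
    ∃ k, k ≠ 0 ∧ k ≤ Module.finrank ℚ K ∧ Ideal.absNorm v.asIdeal = ℓ ^ k := by
  have h1 : Ideal.absNorm v.asIdeal ∣ ℓ ^ Module.finrank ℚ K := by
    rw [← absNorm_natCast (K := K) ℓ]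
    exact Ideal.absNorm_dvd_absNorm_of_le ((Ideal.span_singleton_le_iff_mem _).2 hv)
  obtain ⟨k, hk', hk⟩ := (Nat.dvd_prime_pow hℓ).1 h1
  refine ⟨k, ?_, hk', hk⟩
  rintro rfl
  rw [pow_zero, Ideal.absNorm_eq_one_iff] at hk
  exact v.isPrime.ne_top hk

theorem card_quotient_eq_of_natCast_mem {ℓ : ℕ} (hℓ : ℓ.Prime) (v : HeightOneSpectrum (𝓞 ℚ))
    (hv : ((ℓ : ℕ) : 𝓞 ℚ) ∈ v.asIdeal) : Nat.card (𝓞 ℚ ⧸ v.asIdeal) = ℓ := by
  obtain ⟨k, hk0, hk1, hk⟩ := absNorm_eq_pow hℓ v hv
  rw [Module.finrank_self] at hk1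
  have : k = 1 := by omega
  rw [this, pow_one] at hk
  rw [← hk, Ideal.absNorm_apply]
  rfl

/-- **Frobenius density**, existence form, relative version: for `L/E` Galois and any
`σ ∈ Gal(L/E)` there is a place `Q` of `L`, unramified over `E`, above no place of a given finite
set, whose decomposition group is generated by `σ`. -/
theorem exists_place_dec_eq_zpowers {E : Type*} {L : Type*} [Field E] [NumberField E] [Field L]
    [NumberField L] [Algebra E L] [IsGalois E L] (σ : L ≃ₐ[E] L)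
    {S : Set (HeightOneSpectrum (𝓞 E))} (hS : S.Finite) :
    ∃ w ∉ S, ∃ Q ∈ H82.above L w, w.asIdeal.ramificationIdx' Q.asIdeal = 1 ∧
      (∀ Q' ∈ H82.above L w, w.asIdeal.ramificationIdx' Q'.asIdeal = 1) ∧
      dec E Q = Subgroup.zpowers σ := by
  classical
  obtain ⟨N, _, _, _, hNQ⟩ := exists_galois_over L
  let : Algebra E N := ((algebraMap L N).comp (algebraMap E L)).toAlgebra
  have : IsScalarTower E L N := IsScalarTower.of_algebraMap_eq' rfl
  have hEN : IsGalois E N := IsGalois.tower_top_of_isGalois ℚ E N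
  obtain ⟨σN, hσN⟩ := AlgEquiv.restrictNormalHom_surjective (F := E) (K₁ := L) N σ
  obtain ⟨ℓ, hℓ, hℓS, P, hP, hℓP, hin, φ, hφ, hφσ⟩ := H82.exists_frob_finite N
    (σN.restrictScalars ℚ) (hS.toFinset.biUnion fun v => (Ideal.absNorm v.asIdeal).primeFactors)
  have hPne : P ≠ ⊥ := by
    rintro rfl
    rw [Ideal.mem_bot] at hℓP
    exact hℓ.ne_zero (by exact_mod_cast hℓP)
  let R : HeightOneSpectrum (𝓞 N) := ⟨P, hP, hPne⟩
  -- the decomposition group over `ℚ`
  have hdecQ : dec ℚ R = Subgroup.zpowers φ := by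
    have hv : R ∈ H82.above N (H47.below ℚ R) := H47.mem_above_below R
    have he := H82.ramificationIdx'_eq_one_of_inertia hv hin
    obtain ⟨φ', hφ', hdec, -⟩ := exists_frob hv he
    rw [card_quotient_eq_of_natCast_mem hℓ (H47.below ℚ R) (by
      change ((ℓ : ℕ) : 𝓞 ℚ) ∈ P.under (𝓞 ℚ)
      rw [Ideal.mem_comap, map_natCast]
      exact hℓP)] at hφ'
    have h1 : φ * φ'⁻¹ = 1 := by
      apply hin
      intro x
      have h2 := hφ (φ'⁻¹ • x)
      have h3 := hφ' (φ'⁻¹ • x)
      rw [smul_inv_smul] at h3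
      have h4 := P.sub_mem h2 h3
      rw [mul_smul]
      convert h4 using 1
      ring
    rw [hdec, mul_inv_eq_one.1 h1]
  have hdecE : dec E R = Subgroup.zpowers σN := by
    ext g
    have h1 : g ∈ dec E R ↔ g.restrictScalars ℚ ∈ dec ℚ R := Iff.rfl
    rw [h1, hdecQ, hφσ, Subgroup.mem_zpowers_iff, Subgroup.mem_zpowers_iff]
    have h2 : ∀ k : ℤ, (σN.restrictScalars ℚ) ^ k = (σN ^ k).restrictScalars ℚ := fun k =>
      (map_zpow (AlgEquiv.restrictScalarsHom ℚ) σN k).symm
    constructor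
    · rintro ⟨k, hk⟩
      refine ⟨k, ?_⟩
      rw [h2] at hk
      ext x
      exact AlgEquiv.congr_fun hk x
    · rintro ⟨k, rfl⟩
      exact ⟨k, h2 k⟩
  let Q : HeightOneSpectrum (𝓞 L) := H47.below L R
  let w : HeightOneSpectrum (𝓞 E) := H47.below E Q
  have hQ : Q ∈ H82.above L w := H47.mem_above_below Q
  have hR : R ∈ H82.above N Q := H47.mem_above_below R
  have hRw : R ∈ H82.above N w := mem_above_trans hQ hR
  have hinE : ∀ g : N ≃ₐ[E] N, (∀ x : 𝓞 N, g • x - x ∈ R.asIdeal) → g = 1 := by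
    intro g hg
    have h1 := hin (g.restrictScalars ℚ) hg
    ext x
    exact AlgEquiv.congr_fun h1 x
  have heR := H82.ramificationIdx'_eq_one_of_inertia hRw hinE
  have heQ : w.asIdeal.ramificationIdx' Q.asIdeal = 1 := by
    rw [ramificationIdx'_tower hQ hR] at heR
    exact Nat.eq_one_of_mul_eq_one_right heR
  refine ⟨w, ?_, Q, hQ, heQ, ?_, ?_⟩
  · intro hw
    apply hℓS
    have hℓw : ((ℓ : ℕ) : 𝓞 E) ∈ w.asIdeal := by
      rw [show w.asIdeal = R.asIdeal.under (𝓞 E) from hRw.symm, Ideal.mem_comap, map_natCast]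
      exact hℓP
    obtain ⟨k, hk0, -, hk⟩ := absNorm_eq_pow hℓ w hℓw
    rw [Finset.mem_biUnion]
    refine ⟨w, hS.mem_toFinset.2 hw, ?_⟩
    rw [hk, Nat.primeFactors_pow _ hk0, hℓ.primeFactors]
    exact Finset.mem_singleton_self ℓ
  · intro Q' hQ'
    have h1 : Q.asIdeal.LiesOver w.asIdeal := ⟨hQ.symm⟩
    have h2 : Q'.asIdeal.LiesOver w.asIdeal := ⟨hQ'.symm⟩
    rw [Ideal.ramificationIdx'_eq_ramificationIdx _ _ w.ne_bot,
      ← Ideal.ramificationIdxIn_eq_ramificationIdx w.asIdeal Q'.asIdeal (L ≃ₐ[E] L),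
      Ideal.ramificationIdxIn_eq_ramificationIdx w.asIdeal Q.asIdeal (L ≃ₐ[E] L),
      ← Ideal.ramificationIdx'_eq_ramificationIdx _ _ w.ne_bot, heQ]
  · change dec E (H47.below L R) = _
    rw [dec_below_eq_map, hdecE, MonoidHom.map_zpowers, hσN]

end Fermat.Agent.H89D
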