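import Fermat.Agent.H89D3
import Fermat.Agent.H89D4

/-!
# Values of the quartic character at the places outside `S`, and `χ ≠ χᶜ`
-/

set_option autoImplicit false
set_option linter.unusedSectionVars false

noncomputable section

namespace Fermat.Agent.H89D

open IsDedekindDomain NumberField
open scoped Pointwise

section general

variable {F L : Type*} [Field F] [NumberField F] [Field L] [NumberField L] [Algebra F L]

/-- At an unramified place the decomposition group has order the inertia degree. -/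
theorem card_dec_eq_inertiaDeg' [IsGalois F L] {w : HeightOneSpectrum (𝓞 F)}
    {Q : HeightOneSpectrum (𝓞 L)} (hQ : Q ∈ H82.above L w)
    (he : w.asIdeal.ramificationIdx' Q.asIdeal = 1) :
    Nat.card (dec F Q) = w.asIdeal.inertiaDeg' Q.asIdeal := by
  obtain ⟨φ, -, h1, h2⟩ := exists_frob hQ he
  rw [h1, Nat.card_zpowers, h2]

end general

open scoped Classical in
/-- The coefficient `a_w`: `2`, `-2`, `0` when the Frobenius has order `1`, `2`, `4`. -/
def aw {E : Type*} (C K : Type*) [Field E] [Field C] [Field K] [NumberField E] [NumberField C]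
    [NumberField K] [Algebra E C] [Algebra E K] (w : HeightOneSpectrum (𝓞 E)) : ℤ :=
  if (H82.above K w).ncard = 8 then 2 else if (H82.above C w).ncard = 4 then -2 else 0

namespace IsQ8Tower

variable {E B C K : Type*} [Field E] [NumberField E] [Field B] [NumberField B] [Field C]
  [NumberField C] [Field K] [NumberField K] [Algebra E B] [Algebra E C] [Algebra E K]
  [Algebra B C] [Algebra B K] [Algebra C K] [IsScalarTower E B C] [IsScalarTower E B K]
  [IsScalarTower E C K] [IsScalarTower B C K] (H : IsQ8Tower E B C K)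

include H

theorem aw_eq_zero_of_nonSplit {w : HeightOneSpectrum (𝓞 E)} (h : H82.NonSplit B w) :
    aw C K w = 0 := by
  have h1 : (H82.above C w).ncard ≠ 4 := fun h1 => H.not_nonSplit_B h1 h
  have h2 : (H82.above K w).ncard ≠ 8 := fun h2 => h1 (H.ncard_C_of_ncard_K h2)
  rw [aw, if_neg h2, if_neg h1]

/-- The value of `a_w` in terms of a generator of a decomposition group. -/
theorem aw_eq {w : HeightOneSpectrum (𝓞 E)} {Q : HeightOneSpectrum (𝓞 K)}
    (hQ : Q ∈ H82.above K w) {φ : K ≃ₐ[E] K} (hφ : dec E Q = Subgroup.zpowers φ) :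
    (φ = 1 → aw C K w = 2) ∧ (φ ≠ 1 → φ * φ = 1 → aw C K w = -2) ∧
      (φ * φ ≠ 1 → aw C K w = 0) := by
  have := H.isGalois_EK
  have := H.isGalois_EC
  have h8 := H.ncard_K hQ
  rw [hφ, Nat.card_zpowers] at h8
  have hP := below_mem_above (M := C) hQ
  have h4 := H.ncard_C hP
  have hdecP : dec E (H47.below C Q) = Subgroup.zpowers (AlgEquiv.restrictNormalHom C φ) := by
    rw [dec_below_eq_map, hφ, MonoidHom.map_zpowers]
  rw [hdecP, Nat.card_zpowers] at h4
  refine ⟨?_, ?_, ?_⟩
  · rintro rfl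
    rw [orderOf_one, mul_one] at h8
    rw [aw, if_pos h8]
  · intro h1 h2
    have h3 : (H82.above K w).ncard ≠ 8 := by
      intro h3
      rw [h3] at h8
      apply h1
      rw [← orderOf_eq_one_iff]
      omega
    have h5 : AlgEquiv.restrictNormalHom C φ = 1 :=
      (restrictNormal_eq_one_iff φ).2 (H.fix_of_sq φ h2)
    rw [h5, orderOf_one, mul_one] at h4
    rw [aw, if_neg h3, if_pos h4]
  · intro h2
    have h3 : (H82.above K w).ncard ≠ 8 := by
      intro h3
      rw [h3] at h8
      apply h2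
      have h6 : φ = 1 := by rw [← orderOf_eq_one_iff]; omega
      rw [h6, mul_one]
    have h5 : (H82.above C w).ncard ≠ 4 := by
      intro h5
      rw [h5] at h4
      apply h2
      have h6 : AlgEquiv.restrictNormalHom C φ = 1 := by
        rw [← orderOf_eq_one_iff]; omega
      have h7 := (restrictNormal_eq_one_iff φ).1 h6
      by_contra h9
      -- `φ` is an automorphism over the quadratic subfield `C`
      have := H.isGalois_CK
      have h10 : liftFix φ h7 * liftFix φ h7 = 1 := by
        have h11 : Nat.card (K ≃ₐ[C] K) = 2 := by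
          have : FiniteDimensional C K := Module.Finite.of_restrictScalars_finite ℚ C K
          rw [IsGalois.card_aut_eq_finrank, H.finrank_CK]
        have h12 := pow_card_eq_one' (x := liftFix φ h7)
        rw [h11, sq] at h12
        exact h12
      apply h9
      have h13 := congrArg (fun g : K ≃ₐ[C] K => g.restrictScalars E) h10
      ext x
      exact AlgEquiv.congr_fun h13 x
    rw [aw, if_neg h3, if_neg h5]

/-- The inertia degree of `C/B`. -/
theorem inertiaDeg'_BC {τ : C ≃ₐ[B] C} (hτ : τ ≠ 1) {w : HeightOneSpectrum (𝓞 E)}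
    (hunr : ∀ Q ∈ H82.above K w, w.asIdeal.ramificationIdx' Q.asIdeal = 1)
    {P : HeightOneSpectrum (𝓞 C)} (hP : P ∈ H82.above C w) :
    ((H47.below B P).asIdeal.inertiaDeg' P.asIdeal = 2 ↔ H47.smulPlace τ P = P) ∧
      ((H47.below B P).asIdeal.inertiaDeg' P.asIdeal = 1 ↔ H47.smulPlace τ P ≠ P) := by
  have := H.isGalois_BC
  obtain ⟨Q, hQ⟩ := H47.above_nonempty (L := K) P
  have hPp := H47.mem_above_below (K := B) P
  have hpw := below_mem_above (M := B) hP
  have he : (H47.below B P).asIdeal.ramificationIdx' P.asIdeal = 1 := by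
    have h1 := hunr Q (mem_above_trans hP hQ)
    rw [ramificationIdx'_tower hP hQ] at h1
    have h2 := Nat.eq_one_of_mul_eq_one_right h1
    rw [ramificationIdx'_tower hpw hPp] at h2
    exact Nat.eq_one_of_mul_eq_one_left h2
  have hcard := card_dec_eq_inertiaDeg' hPp he
  have hsum := ncard_above_mul_card_dec hPp
  rw [H.finrank_BC, hcard] at hsum
  have hns : (H82.above C (H47.below B P)).ncard = 1 ↔ H47.smulPlace τ P = P := by
    rw [show ((H82.above C (H47.below B P)).ncard = 1) = H82.NonSplit C (H47.below B P) from rfl,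
      nonSplit_iff hPp]
    constructor
    · intro h; exact h τ
    · intro h σ
      rcases eq_one_or_eq H.finrank_BC hτ σ with rfl | rfl
      · exact smulPlace_one P
      · exact h
  have hdvd : (H82.above C (H47.below B P)).ncard ∣ 2 := Dvd.intro _ hsum
  rcases (Nat.dvd_prime Nat.prime_two).1 hdvd with h4 | h4
  · rw [h4] at hsum
    have h5 := hns.1 h4
    have h6 : (H47.below B P).asIdeal.inertiaDeg' P.asIdeal = 2 := by omega
    rw [h6]
    simp [h5]
  · rw [h4] at hsum
    have h5 : ¬ H47.smulPlace τ P = P := fun h => by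
      have := hns.2 h
      omega
    have h6 : (H47.below B P).asIdeal.inertiaDeg' P.asIdeal = 1 := by omega
    rw [h6]
    simp [h5]

theorem exists_tau : ∃ τ : C ≃ₐ[B] C, τ ≠ 1 := by
  have := H.isGalois_BC
  have : FiniteDimensional B C := Module.Finite.of_restrictScalars_finite ℚ B C
  have hc := IsGalois.card_aut_eq_finrank B C
  rw [H.finrank_BC] at hc
  have : Nontrivial (C ≃ₐ[B] C) := by
    apply Finite.one_lt_card_iff_nontrivial.1
    omega
  exact exists_ne 1

theorem exists_conj : ∃ c : B ≃ₐ[E] B, c ≠ 1 := by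
  have := H.isGalois_EB
  have : FiniteDimensional E B := Module.Finite.of_restrictScalars_finite ℚ E B
  have hc := IsGalois.card_aut_eq_finrank E B
  rw [H.finrank_EB] at hc
  have : Nontrivial (B ≃ₐ[E] B) := by
    apply Finite.one_lt_card_iff_nontrivial.1
    omega
  exact exists_ne 1

section values

variable {R : Type*} [CommRing R] {χ : HeightOneSpectrum (𝓞 B) → R}
  {w : HeightOneSpectrum (𝓞 E)}
  (hunr : ∀ Q ∈ H82.above K w, w.asIdeal.ramificationIdx' Q.asIdeal = 1)

include hunr

open scoped Classical in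
/-- (G3) the four possibilities for the value of `χ` at a place above `w`. -/
theorem value_cases
    (ha : ∀ P ∈ H82.above C w, χ (H47.below B P) ^
      ((H47.below B P).asIdeal.inertiaDeg' P.asIdeal) = if H82.NonSplit K P then -1 else 1)
    {p : HeightOneSpectrum (𝓞 B)} (hp : p ∈ H82.above B w) :
    ((H82.above K w).ncard = 8 ∧ ¬ H82.NonSplit B w ∧ χ p = 1) ∨
    ((H82.above K w).ncard ≠ 8 ∧ (H82.above C w).ncard = 4 ∧ ¬ H82.NonSplit B w ∧ χ p = -1) ∨
    ((H82.above K w).ncard ≠ 8 ∧ (H82.above C w).ncard = 2 ∧ ¬ H82.NonSplit B w ∧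
      χ p ^ 2 = -1) ∨
    ((H82.above K w).ncard ≠ 8 ∧ (H82.above C w).ncard = 2 ∧ H82.NonSplit B w ∧ χ p = -1) := by
  obtain ⟨P, hP⟩ := H47.above_nonempty (L := C) p
  have hPw := mem_above_trans hp hP
  obtain ⟨τ, hτ⟩ := H.exists_tau
  have h1 := ha P hPw
  have hf := H.inertiaDeg'_BC hτ hunr hPw
  rw [Ne, H.smulPlace_tau_iff hτ hunr hPw] at hf
  have hns := H.nonSplit_K_iff hunr hPw
  by_cases hK : (H82.above K w).ncard = 8
  · left
    have h2 := H.ncard_C_of_ncard_K hK
    rw [hf.2.2 (by rintro ⟨h4, -⟩; omega), pow_one, ← H47.eq_below_of_mem_above hP,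
      if_neg (by rw [hns, not_not]; exact hK)] at h1
    exact ⟨hK, H.not_nonSplit_B h2, h1⟩
  · right
    rw [if_pos (hns.2 hK)] at h1
    rcases H.ncard_C_eq hunr with hC | hC
    · left
      rw [hf.2.2 (by rintro ⟨h4, -⟩; omega), pow_one, ← H47.eq_below_of_mem_above hP] at h1
      exact ⟨hK, hC, H.not_nonSplit_B hC, h1⟩
    · right
      by_cases hB : H82.NonSplit B w
      · right
        rw [hf.2.2 (by rintro ⟨-, h4⟩; exact h4 hB), pow_one,
          ← H47.eq_below_of_mem_above hP] at h1
        exact ⟨hK, hC, hB, h1⟩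
      · left
        rw [hf.1.2 ⟨hC, hB⟩, ← H47.eq_below_of_mem_above hP] at h1
        exact ⟨hK, hC, hB, h1⟩

omit hunr in
/-- A place not nonsplit in `B` has exactly two places above it. -/
theorem exists_pair (hB : ¬ H82.NonSplit B w) :
    ∃ p p' : HeightOneSpectrum (𝓞 B), p ≠ p' ∧ H82.above B w = {p, p'} := by
  obtain ⟨p, hp⟩ := H47.above_nonempty (L := B) w
  have h1 := H.ncard_B hp
  have hdvd : (H82.above B w).ncard ∣ 2 := Dvd.intro _ h1
  rcases (Nat.dvd_prime Nat.prime_two).1 hdvd with h4 | h4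
  · exact absurd h4 hB
  · exact Set.ncard_eq_two.1 h4

open scoped Classical in
/-- (G3) `χ(p) + χ(p') = a_w` for `w` split in `B`. -/
theorem sum_chi
    (ha : ∀ P ∈ H82.above C w, χ (H47.below B P) ^
      ((H47.below B P).asIdeal.inertiaDeg' P.asIdeal) = if H82.NonSplit K P then -1 else 1)
    (hb : ∏ᶠ p ∈ H82.above B w, χ p = if H82.NonSplit B w then -1 else 1)
    (hB : ¬ H82.NonSplit B w) : ∑ᶠ p ∈ H82.above B w, χ p = aw C K w := by
  obtain ⟨p, p', hne, hpp⟩ := H.exists_pair hB
  have hp : p ∈ H82.above B w := by rw [hpp]; simp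
  have hp' : p' ∈ H82.above B w := by rw [hpp]; simp
  rw [if_neg hB, hpp, finprod_mem_pair hne] at hb
  rw [hpp, finsum_mem_pair hne]
  have h1 := H.value_cases hunr ha hp
  have h2 := H.value_cases hunr ha hp'
  rw [aw]
  rcases h1 with ⟨hK, -, h1⟩ | ⟨hK, hC, -, h1⟩ | ⟨hK, hC, -, h1⟩ | ⟨-, -, h, -⟩
  · rcases h2 with ⟨-, -, h2⟩ | ⟨h, -⟩ | ⟨h, -⟩ | ⟨h, -⟩
    · rw [h1, h2, if_pos hK]
      norm_num
    all_goals exact absurd hK h
  · rcases h2 with ⟨h, -⟩ | ⟨-, -, -, h2⟩ | ⟨-, h, -⟩ | ⟨-, h, -⟩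
    · exact absurd h hK
    · rw [h1, h2, if_neg hK, if_pos hC]
      norm_num
    all_goals omega
  · rw [if_neg hK, if_neg (by omega), Int.cast_zero]
    -- `χ(p)² = -1`, `χ(p) χ(p') = 1`
    linear_combination χ p' * h1 - χ p * hb
  · exact absurd h hB

open scoped Classical in
/-- (G3) `w` nonsplit in `B`. -/
theorem chi_nonSplit
    (ha : ∀ P ∈ H82.above C w, χ (H47.below B P) ^
      ((H47.below B P).asIdeal.inertiaDeg' P.asIdeal) = if H82.NonSplit K P then -1 else 1)
    (hB : H82.NonSplit B w) {p : HeightOneSpectrum (𝓞 B)} (hp : p ∈ H82.above B w) :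
    χ p = -1 := by
  rcases H.value_cases hunr ha hp with ⟨-, h, -⟩ | ⟨-, -, h, -⟩ | ⟨-, -, h, -⟩ | ⟨-, -, -, h⟩
  · exact absurd hB h
  · exact absurd hB h
  · exact absurd hB h
  · exact h

open scoped Classical in
/-- At a place of Frobenius order `4` split in `B`, `χ(p') = -χ(p)` is not `χ(p)`. -/
theorem chi_ne (h2 : (2 : R) ≠ 0) [IsDomain R]
    (ha : ∀ P ∈ H82.above C w, χ (H47.below B P) ^
      ((H47.below B P).asIdeal.inertiaDeg' P.asIdeal) = if H82.NonSplit K P then -1 else 1)
    (hb : ∏ᶠ p ∈ H82.above B w, χ p = if H82.NonSplit B w then -1 else 1)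
    (hB : ¬ H82.NonSplit B w) (hC : (H82.above C w).ncard = 2)
    {p p' : HeightOneSpectrum (𝓞 B)} (hp : p ∈ H82.above B w) (hp' : p' ∈ H82.above B w)
    (hne : p ≠ p') : χ p ^ 2 = -1 ∧ χ p' = - χ p ∧ χ p ≠ χ p' := by
  have h1 : χ p ^ 2 = -1 := by
    rcases H.value_cases hunr ha hp with ⟨h, -⟩ | ⟨-, h, -⟩ | ⟨-, -, -, h⟩ | ⟨-, -, h, -⟩
    · have := H.ncard_C_of_ncard_K h
      omega
    · omega
    · exact h
    · exact absurd h hB
  have hpp : H82.above B w = {p, p'} := by
    obtain ⟨q, q', hne', hqq⟩ := H.exists_pair hB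
    rw [hqq] at hp hp' ⊢
    rcases hp with rfl | rfl <;> rcases hp' with rfl | rfl
    · exact absurd rfl hne
    · rfl
    · exact Set.pair_comm _ _
    · exact absurd rfl hne
  rw [if_neg hB, hpp, finprod_mem_pair hne] at hb
  have h3 : χ p' = - χ p := by
    linear_combination χ p' * h1 - χ p * hb
  refine ⟨h1, h3, fun h4 => ?_⟩
  rw [h3] at h4
  have h5 : (2 : R) * χ p = 0 := by linear_combination h4
  rcases mul_eq_zero.1 h5 with h6 | h6
  · exact h2 h6
  · rw [h6] at h1
    norm_num at h1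

end values

/-- There are places with Frobenius of order `4` split in `B`, outside any finite set. -/
theorem exists_order_four_split {S : Set (HeightOneSpectrum (𝓞 E))} (hS : S.Finite) :
    ∃ w ∉ S, (∀ Q ∈ H82.above K w, w.asIdeal.ramificationIdx' Q.asIdeal = 1) ∧
      ¬ H82.NonSplit B w ∧ (H82.above C w).ncard = 2 := by
  have := H.isGalois_EK
  have := H.isGalois_EC
  have := H.isGalois_EB
  have := H.isGalois_BC
  have := H.isGalois_BK
  obtain ⟨τ, hτ⟩ := H.exists_tau
  obtain ⟨σ, hσ⟩ := AlgEquiv.restrictNormalHom_surjective (F := B) (K₁ := C) K τ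
  obtain ⟨w, hwS, Q, hQ, -, hunr, hdec⟩ := exists_place_dec_eq_zpowers (σ.restrictScalars E) hS
  refine ⟨w, hwS, hunr, ?_, ?_⟩
  · intro hB
    have hB' : (H82.above B w).ncard = 1 := hB
    have h1 := H.ncard_B (below_mem_above (M := B) hQ)
    rw [dec_below_eq_map, hdec, MonoidHom.map_zpowers] at h1
    have h2 : AlgEquiv.restrictNormalHom B (σ.restrictScalars E) = 1 :=
      (restrictNormal_eq_one_iff (σ.restrictScalars E)).2 σ.commutes
    rw [h2, Subgroup.zpowers_one_eq_bot, Subgroup.card_bot, hB'] at h1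
    omega
  · rcases H.ncard_C_eq hunr with hC | hC
    · exfalso
      have h1 := H.dec_C_eq_bot hC (below_mem_above (M := C) hQ)
      rw [dec_below_eq_map, hdec, MonoidHom.map_zpowers, Subgroup.zpowers_eq_bot] at h1
      have h2 := (restrictNormal_eq_one_iff (M := C) (σ.restrictScalars E)).1 h1
      apply hτ
      rw [← hσ]
      exact (restrictNormal_eq_one_iff σ).2 h2
    · exact hC

end IsQ8Tower

end Fermat.Agent.H89D
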