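/-
S47, package GAL, part G4 (helper3): invariance of the eigenvalue function `aw` under the
automorphisms of `E`; comparison with `H89D.aw`; every place is below a place of `Q̄`; Frobenius
elements; the bad primes.
-/
import Mathlib
import Fermat.Agent.H3G8
import Fermat.Agent.H89D5

set_option autoImplicit false
set_option maxSynthPendingDepth 3
set_option linter.style.haveILetI false
set_option linter.unusedSectionVars false

namespace Fermat.Agent.H3G

open Matrix Module NumberField IsDedekindDomain Fermat.Agent.H63 Fermat.Agent.H64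
open scoped Pointwise

local notation "Qb" => AlgebraicClosure ℚ
local notation "GQ" => (AlgebraicClosure ℚ ≃ₐ[ℚ] AlgebraicClosure ℚ)

namespace RD

variable (D : RD)

theorem aw_eq (w : HeightOneSpectrum (𝓞 D.E)) : D.aw w = (H89D.aw D.B' D.K w : ℝ) := by
  unfold aw H89D.aw
  split_ifs <;> simp

/-- `aw` is invariant under all automorphisms of `E`. -/
theorem aw_smulPlace (g : D.E ≃ₐ[ℚ] D.E) (w : HeightOneSpectrum (𝓞 D.E)) :
    D.aw (H47.smulPlace g w) = D.aw w := by
  haveI : Normal ℚ D.E := inferInstance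
  have h1 := H89D.ncard_above_smulPlace (E := ℚ) (M := D.E) (L := D.K) g w
  have h2 := H89D.ncard_above_smulPlace (E := ℚ) (M := D.E) (L := D.B') g w
  unfold aw
  rw [h1, h2]

theorem aw_smulPlace_rel (g : D.E ≃ₐ[D.M] D.E) (w : HeightOneSpectrum (𝓞 D.E)) :
    D.aw (H47.smulPlace g w) = D.aw w :=
  D.aw_smulPlace (g.restrictScalars ℚ) w

/-- ring automorphism version -/
theorem aw_of_map (g : D.E ≃+* D.E) {w w' : HeightOneSpectrum (𝓞 D.E)}
    (h : ∀ x : 𝓞 D.E, ∀ y : 𝓞 D.E, (y : D.E) = g x → (x ∈ w.asIdeal ↔ y ∈ w'.asIdeal)) :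
    D.aw w' = D.aw w := by
  have key : w' = H47.smulPlace (AlgEquiv.ofRingEquiv (f := g) (fun q => by simp) :
      D.E ≃ₐ[ℚ] D.E) w := by
    apply HeightOneSpectrum.ext
    rw [H47.smulPlace_asIdeal]
    ext y
    rw [Ideal.mem_pointwise_smul_iff_inv_smul_mem]
    refine (h _ y ?_).symm
    show (y : D.E) = g (g.symm (y : D.E))
    rw [RingEquiv.apply_symm_apply]
  rw [key, aw_smulPlace]

/-- version for valuations (as in `H59D.AutData`) -/
theorem aw_of_val (g : D.E ≃+* D.E) {w w' : HeightOneSpectrum (𝓞 D.E)}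
    (h : ∀ x : D.E, w'.valuation D.E (g x) = w.valuation D.E x) : D.aw w' = D.aw w := by
  refine D.aw_of_map g (fun x y hxy => ?_)
  have h1 := h (x : D.E)
  rw [← hxy] at h1
  rw [← w.intValuation_lt_one_iff_mem, ← w'.intValuation_lt_one_iff_mem]
  rw [show w'.valuation D.E (y : D.E) = w'.intValuation y from w'.valuation_of_algebraMap y,
    show w.valuation D.E (x : D.E) = w.intValuation x from w.valuation_of_algebraMap x] at h1
  rw [h1]

theorem aw_mem (w : HeightOneSpectrum (𝓞 D.E)) : D.aw w = 2 ∨ D.aw w = -2 ∨ D.aw w = 0 := by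
  unfold aw
  split_ifs <;> simp

theorem abs_aw_le (w : HeightOneSpectrum (𝓞 D.E)) : |D.aw w| ≤ 2 := by
  rcases D.aw_mem w with h | h | h <;> rw [h] <;> norm_num

end RD

end Fermat.Agent.H3G
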