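import Mathlib
import Fermat.Agent.H30G3
import Fermat.Agent.H3G9

/-!
# S47, block GAL: splitting of places in `E/M`, bad primes, the inert good place

* `inert_or_split` : an unramified place in a cyclic cubic extension is inert or splits completely;
* `exists_bad` : the bad set; `exists_inert_prime` : the good inert place.
-/

set_option autoImplicit false
set_option linter.style.haveILetI false
set_option linter.unusedSectionVars false

open scoped Pointwise
open NumberField IsDedekindDomain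

noncomputable section

namespace Fermat.Agent.H30G

local notation "Qb" => AlgebraicClosure ℚ
local notation "Gq" => (AlgebraicClosure ℚ ≃ₐ[ℚ] AlgebraicClosure ℚ)

open H86 (centre)
open H3G (GG fld SL Q8 PM ptr algOf fld_anti RD)
open H46Z (val8)

section Cubic

variable {F E : Type*} [Field F] [NumberField F] [Field E] [NumberField E] [Algebra F E]

/-- The place `w` of `E` has trivial inertia over `F`. -/
def TrivIn (F : Type*) {E : Type*} [Field F] [Field E] [NumberField E] [Algebra F E]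
    (w : HeightOneSpectrum (𝓞 E)) : Prop :=
  ∀ σ : E ≃ₐ[F] E, (∀ x : 𝓞 E, σ • x - x ∈ w.asIdeal) → σ = 1

theorem TrivIn.ramificationIdx' [IsGalois F E] {v : HeightOneSpectrum (𝓞 F)}
    {w : HeightOneSpectrum (𝓞 E)} (hw : w ∈ H82.above E v) (h : TrivIn F w) :
    v.asIdeal.ramificationIdx' w.asIdeal = 1 := by
  haveI : w.asIdeal.LiesOver v.asIdeal := ⟨hw.symm⟩
  haveI := v.isMaximal
  haveI := w.isMaximal
  haveI : v.asIdeal.IsPrime := v.isPrime
  haveI : w.asIdeal.IsPrime := w.isPrime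
  haveI : Finite (𝓞 F ⧸ v.asIdeal) := Ideal.finiteQuotientOfFreeOfNeBot _ v.ne_bot
  have hbot : w.asIdeal.inertia (E ≃ₐ[F] E) = ⊥ := by
    rw [Subgroup.eq_bot_iff_forall]
    intro σ hσ
    exact h σ fun x => hσ x
  have h1 := Ideal.card_inertia_eq_ramificationIdxIn (G := E ≃ₐ[F] E) v.asIdeal w.asIdeal
  rw [Ideal.ramificationIdxIn_eq_ramificationIdx v.asIdeal w.asIdeal (E ≃ₐ[F] E),
    ← Ideal.ramificationIdx'_eq_ramificationIdx _ _ v.ne_bot, hbot] at h1
  rw [← h1]; simp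

/-- At an unramified place the valuation of `E` restricts to the valuation of `F`. -/
theorem TrivIn.valuation [IsGalois F E] {v : HeightOneSpectrum (𝓞 F)}
    {w : HeightOneSpectrum (𝓞 E)} (hw : w ∈ H82.above E v) (h : TrivIn F w) (x : F) :
    w.valuation E (algebraMap F E x) = v.valuation F x := by
  haveI : w.asIdeal.LiesOver v.asIdeal := ⟨hw.symm⟩
  have h1 := HeightOneSpectrum.valuation_liesOver E v w x
  rw [h.ramificationIdx' hw, pow_one] at h1
  exact h1.symm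

theorem absNorm_smulPlace (s : E ≃ₐ[F] E) (w : HeightOneSpectrum (𝓞 E)) :
    Ideal.absNorm (H47.smulPlace s w).asIdeal = Ideal.absNorm w.asIdeal := by
  rw [H47.smulPlace_asIdeal, Ideal.absNorm_apply, Ideal.absNorm_apply, Submodule.cardQuot_apply,
    Submodule.cardQuot_apply]
  exact (Nat.card_congr (Ideal.quotientEquiv w.asIdeal (s • w.asIdeal)
    (MulSemiringAction.toRingEquiv _ (𝓞 E) s) rfl).toEquiv).symm

theorem eq_of_dvd_of_absNorm_eq {I J : Ideal (𝓞 E)} (h : I ∣ J)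
    (hN : Ideal.absNorm I = Ideal.absNorm J) (h0 : Ideal.absNorm J ≠ 0) : I = J := by
  obtain ⟨K, rfl⟩ := h
  rw [map_mul] at hN h0
  have h1 : Ideal.absNorm K = 1 := by
    have h2 : Ideal.absNorm I ≠ 0 := fun h => h0 (by rw [h, zero_mul])
    have h3 : Ideal.absNorm I * 1 = Ideal.absNorm I * Ideal.absNorm K := by rw [mul_one]; exact hN
    exact (Nat.eq_of_mul_eq_mul_left (Nat.pos_of_ne_zero h2) h3).symm
  rw [Ideal.absNorm_eq_one_iff] at h1
  rw [h1, Ideal.mul_top]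

theorem dvd_map_of_above {v : HeightOneSpectrum (𝓞 F)} {w : HeightOneSpectrum (𝓞 E)}
    (hw : w ∈ H82.above E v) : w.asIdeal ∣ v.asIdeal.map (algebraMap (𝓞 F) (𝓞 E)) := by
  rw [Ideal.dvd_iff_le, Ideal.map_le_iff_le_comap]
  exact (show w.asIdeal.under (𝓞 F) = v.asIdeal from hw).ge

theorem absNorm_ne_zero (w : HeightOneSpectrum (𝓞 E)) : Ideal.absNorm w.asIdeal ≠ 0 :=
  (one_lt_absNorm w).ne_bot

/-- **Splitting in a cyclic cubic extension.** -/
theorem inert_or_split [IsGalois F E] (h3 : Module.finrank F E = 3) {s : E ≃ₐ[F] E} (hs : s ≠ 1)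
    (v : HeightOneSpectrum (𝓞 F)) (hv : ∀ w ∈ H82.above E v, TrivIn F w) :
    (∃ w : HeightOneSpectrum (𝓞 E), H82.above E v = {w} ∧ H47.smulPlace s w = w ∧
      Ideal.absNorm w.asIdeal = Ideal.absNorm v.asIdeal ^ 3 ∧
      v.asIdeal.map (algebraMap (𝓞 F) (𝓞 E)) = w.asIdeal) ∨
    (∃ w : HeightOneSpectrum (𝓞 E),
      H82.above E v = {w, H47.smulPlace s w, H47.smulPlace s (H47.smulPlace s w)} ∧
      H47.smulPlace s w ≠ w ∧ H47.smulPlace s (H47.smulPlace s w) ≠ w ∧
      H47.smulPlace s (H47.smulPlace s w) ≠ H47.smulPlace s w ∧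
      H47.smulPlace s (H47.smulPlace s (H47.smulPlace s w)) = w ∧
      (∀ w' ∈ H82.above E v, Ideal.absNorm w'.asIdeal = Ideal.absNorm v.asIdeal) ∧
      v.asIdeal.map (algebraMap (𝓞 F) (𝓞 E)) =
        w.asIdeal * (H47.smulPlace s w).asIdeal *
          (H47.smulPlace s (H47.smulPlace s w)).asIdeal) := by
  haveI : FiniteDimensional F E := Module.Finite.of_restrictScalars_finite ℚ F E
  have hcard : Nat.card (E ≃ₐ[F] E) = 3 := by rw [IsGalois.card_aut_eq_finrank, h3]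
  haveI : Fact (Nat.Prime 3) := ⟨Nat.prime_three⟩
  have hord : orderOf s = 3 := by
    have h1 : orderOf s ∣ 3 := by rw [← hcard]; exact orderOf_dvd_natCard s
    rcases (Nat.dvd_prime Nat.prime_three).1 h1 with h2 | h2
    · exact absurd (orderOf_eq_one_iff.1 h2) hs
    · exact h2
  have htop : Subgroup.zpowers s = ⊤ := by
    apply Subgroup.eq_top_of_card_eq
    rw [Nat.card_zpowers, hord, hcard]
  have hpow : ∀ σ : E ≃ₐ[F] E, σ = 1 ∨ σ = s ∨ σ = s * s := by
    intro σ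
    have h1 : σ ∈ Subgroup.zpowers s := by rw [htop]; exact Subgroup.mem_top σ
    rw [← mem_powers_iff_mem_zpowers] at h1
    obtain ⟨n, rfl⟩ := h1
    have h2 : s ^ n = s ^ (n % 3) := by rw [← hord, pow_mod_orderOf]
    have h4 : n % 3 < 3 := Nat.mod_lt _ (by norm_num)
    simp only
    rw [h2]
    interval_cases n % 3
    · left; rw [pow_zero]
    · right; left; rw [pow_one]
    · right; right; rw [sq]
  have hs3 : s * s * s = 1 := by
    have h5 : s ^ 3 = 1 := by rw [← hord]; exact pow_orderOf_eq_one s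
    rw [← h5, pow_succ, sq]
  obtain ⟨w, hw⟩ := H47.above_nonempty (L := E) v
  have hn := H89D.ncard_above_mul_card_dec hw
  rw [h3] at hn
  have hN := absNorm_eq_pow_card_dec hw (hv w hw)
  have hd : Nat.card (H89D.dec F w) ∣ 3 := ⟨_, by rw [mul_comm]; exact hn.symm⟩
  have hmapN : Ideal.absNorm (v.asIdeal.map (algebraMap (𝓞 F) (𝓞 E))) =
      Ideal.absNorm v.asIdeal ^ 3 := by
    rw [Ideal.absNorm_algebraMap]
    congr 1
    rw [← h3]
    exact (IsFractionRing.finrank_eq (𝓞 F) F (𝓞 E) E).symm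
  have hmap0 : Ideal.absNorm (v.asIdeal.map (algebraMap (𝓞 F) (𝓞 E))) ≠ 0 := by
    rw [hmapN]; exact pow_ne_zero _ (absNorm_ne_zero v)
  rcases (Nat.dvd_prime Nat.prime_three).1 hd with h1 | h1
  · -- split
    right
    have hbot : H89D.dec F w = ⊥ := Subgroup.card_eq_one.1 h1
    have hne : ∀ σ : E ≃ₐ[F] E, σ ≠ 1 → H47.smulPlace σ w ≠ w := by
      intro σ hσ h
      apply hσ
      have : σ ∈ H89D.dec F w := H89D.mem_dec.2 h
      rwa [hbot, Subgroup.mem_bot] at this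
    have hss : s * s ≠ 1 := by
      intro h
      have : orderOf s ∣ 2 := orderOf_dvd_of_pow_eq_one (by rw [sq]; exact h)
      rw [hord] at this
      omega
    have e1 := hne s hs
    have e2 : H47.smulPlace s (H47.smulPlace s w) ≠ w := by
      rw [← H89D.smulPlace_mul]; exact hne _ hss
    have e3 : H47.smulPlace s (H47.smulPlace s w) ≠ H47.smulPlace s w := by
      intro h
      exact e1 (H89D.smulPlace_injective s h)
    have e4 : H47.smulPlace s (H47.smulPlace s (H47.smulPlace s w)) = w := by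
      rw [← H89D.smulPlace_mul, ← H89D.smulPlace_mul, hs3, H89D.smulPlace_one]
    have hab : H82.above E v = {w, H47.smulPlace s w, H47.smulPlace s (H47.smulPlace s w)} := by
      rw [H89D.above_eq_range hw]
      ext w'
      simp only [Set.mem_range, Set.mem_insert_iff, Set.mem_singleton_iff]
      constructor
      · rintro ⟨σ, rfl⟩
        rcases hpow σ with rfl | rfl | rfl
        · left; exact H89D.smulPlace_one w
        · right; left; rfl
        · right; right; rw [H89D.smulPlace_mul]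
      · rintro (rfl | rfl | rfl)
        · exact ⟨1, H89D.smulPlace_one _⟩
        · exact ⟨s, rfl⟩
        · exact ⟨s * s, H89D.smulPlace_mul _ _ _⟩
    rw [h1, pow_one] at hN
    have hNall : ∀ w' ∈ H82.above E v, Ideal.absNorm w'.asIdeal = Ideal.absNorm v.asIdeal := by
      intro w' hw'
      rw [hab] at hw'
      rcases hw' with rfl | rfl | rfl
      · exact hN
      · rw [absNorm_smulPlace]; exact hN
      · rw [absNorm_smulPlace, absNorm_smulPlace]; exact hN
    refine ⟨w, hab, e1, e2, e3, e4, hNall, ?_⟩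
    symm
    have hm : ∀ w' : HeightOneSpectrum (𝓞 E), w' ∈ H82.above E v →
        w'.asIdeal ∣ v.asIdeal.map (algebraMap (𝓞 F) (𝓞 E)) := fun w' h => dvd_map_of_above h
    have hcop : ∀ w₁ w₂ : HeightOneSpectrum (𝓞 E), w₁ ≠ w₂ → IsCoprime w₁.asIdeal w₂.asIdeal := by
      intro w₁ w₂ h
      rw [Ideal.isCoprime_iff_sup_eq]
      exact w₁.isMaximal.coprime_of_ne w₂.isMaximal
        (fun h' => h (HeightOneSpectrum.ext h'))
    apply eq_of_dvd_of_absNorm_eq
    · refine IsCoprime.mul_dvd (IsCoprime.mul_left (hcop _ _ e2.symm) (hcop _ _ e3.symm))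
        (IsCoprime.mul_dvd (hcop _ _ e1.symm) (hm _ hw) (hm _ ?_)) (hm _ ?_)
      · rw [hab]; right; left; rfl
      · rw [hab]; right; right; rfl
    · rw [map_mul, map_mul, absNorm_smulPlace, absNorm_smulPlace, absNorm_smulPlace, hmapN, hN]
      ring
    · exact hmap0
  · -- inert
    left
    rw [h1] at hn hN
    have hn1 : (H82.above E v).ncard = 1 := by omega
    have hns : H82.NonSplit E v := hn1
    obtain ⟨w', hw'⟩ := Set.ncard_eq_one.1 hn1
    have hww' : w = w' := by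
      have : w ∈ ({w'} : Set _) := hw' ▸ hw
      exact this
    subst hww'
    refine ⟨w, hw', (H89D.nonSplit_iff hw).1 hns s, hN, ?_⟩
    symm
    exact eq_of_dvd_of_absNorm_eq (dvd_map_of_above hw) (by rw [hmapN, hN]) hmap0

end Cubic

section Apply

variable {D : RD}

/-- a finite place contains a rational prime -/
theorem exists_prime_mem {E : Type*} [Field E] [NumberField E] (w : HeightOneSpectrum (𝓞 E)) :
    ∃ p : ℕ, p.Prime ∧ ((p : ℕ) : 𝓞 E) ∈ w.asIdeal := by
  haveI := w.isPrime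
  obtain ⟨p, n, hp, -, hpw, -, -⟩ := exists_absNorm_eq_pow w.asIdeal w.ne_bot
  exact ⟨p, hp, hpw⟩

theorem mem_below_of_mem {F E : Type*} [Field F] [NumberField F] [Field E] [NumberField E]
    [Algebra F E] {v : HeightOneSpectrum (𝓞 F)} {w : HeightOneSpectrum (𝓞 E)}
    (hw : w ∈ H82.above E v) {p : ℕ} (h : ((p : ℕ) : 𝓞 E) ∈ w.asIdeal) :
    ((p : ℕ) : 𝓞 F) ∈ v.asIdeal := by
  have h1 : w.asIdeal.under (𝓞 F) = v.asIdeal := hw
  rw [← h1]
  show algebraMap (𝓞 F) (𝓞 E) ((p : ℕ) : 𝓞 F) ∈ w.asIdeal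
  rwa [map_natCast]

theorem Unr.trivIn_ME {p : ℕ} (h : Unr D p) (hp : p.Prime) (w : HeightOneSpectrum (𝓞 D.E))
    (hw : ((p : ℕ) : 𝓞 D.E) ∈ w.asIdeal) : TrivIn D.M w :=
  h.rel hp H3G.Q8_le_SL w hw

theorem Unr.trivIn_EK {p : ℕ} (h : Unr D p) (hp : p.Prime) (w : HeightOneSpectrum (𝓞 D.K))
    (hw : ((p : ℕ) : 𝓞 D.K) ∈ w.asIdeal) : TrivIn D.E w :=
  h.rel hp (bot_le : (⊥ : Subgroup GG) ≤ Q8) w hw

theorem Unr.trivIn_EB' {p : ℕ} (h : Unr D p) (hp : p.Prime) (w : HeightOneSpectrum (𝓞 D.B'))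
    (hw : ((p : ℕ) : 𝓞 D.B') ∈ w.asIdeal) : TrivIn D.E w :=
  h.rel hp H3G.PM_le_Q8 w hw

/-- **The bad primes.** -/
theorem exists_bad (D : RD) : ∃ N₀ : ℕ, 0 < N₀ ∧ 6 ∣ N₀ ∧ ∀ p : ℕ, p.Prime → ¬ p ∣ N₀ → Unr D p := by
  haveI : Normal ℚ (fld D.ρ ⊥) := H3G.normal_fld ⊥
  obtain ⟨d, hd, h⟩ := exists_unrK (fld D.ρ ⊥)
  refine ⟨6 * d, by positivity, dvd_mul_right _ _, fun p hp hpd A hA σ hσ => ?_⟩
  exact rho_inertia D.cont (h p hp (fun h' => hpd (h'.mul_left 6))) hA hσ

/-- Splitting in `E/M` of a place over an unramified prime. -/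
theorem inert_or_split_ME {p : ℕ} (hp : p.Prime) (h : Unr D p) (v : HeightOneSpectrum (𝓞 D.M))
    (hv : ((p : ℕ) : 𝓞 D.M) ∈ v.asIdeal) :
    (∃ w : HeightOneSpectrum (𝓞 D.E), H82.above D.E v = {w} ∧ H47.smulPlace D.s w = w ∧
      Ideal.absNorm w.asIdeal = Ideal.absNorm v.asIdeal ^ 3 ∧
      v.asIdeal.map (algebraMap (𝓞 D.M) (𝓞 D.E)) = w.asIdeal) ∨
    (∃ w : HeightOneSpectrum (𝓞 D.E),
      H82.above D.E v = {w, H47.smulPlace D.s w, H47.smulPlace D.s (H47.smulPlace D.s w)} ∧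
      H47.smulPlace D.s w ≠ w ∧ H47.smulPlace D.s (H47.smulPlace D.s w) ≠ w ∧
      H47.smulPlace D.s (H47.smulPlace D.s w) ≠ H47.smulPlace D.s w ∧
      H47.smulPlace D.s (H47.smulPlace D.s (H47.smulPlace D.s w)) = w ∧
      (∀ w' ∈ H82.above D.E v, Ideal.absNorm w'.asIdeal = Ideal.absNorm v.asIdeal) ∧
      v.asIdeal.map (algebraMap (𝓞 D.M) (𝓞 D.E)) =
        w.asIdeal * (H47.smulPlace D.s w).asIdeal *
          (H47.smulPlace D.s (H47.smulPlace D.s w)).asIdeal) :=
  inert_or_split D.finrank_ME D.s_ne_one v fun w hw =>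
    h.trivIn_ME hp w (mem_of_above hw hv)

/-- At an unramified place the valuation of `E` restricts to the valuation of `M`. -/
theorem valuation_ME {p : ℕ} (hp : p.Prime) (h : Unr D p) {v : HeightOneSpectrum (𝓞 D.M)}
    (hv : ((p : ℕ) : 𝓞 D.M) ∈ v.asIdeal) {w : HeightOneSpectrum (𝓞 D.E)}
    (hw : w ∈ H82.above D.E v) (x : D.M) :
    w.valuation D.E (algebraMap D.M D.E x) = v.valuation D.M x :=
  (h.trivIn_ME hp w (mem_of_above hw hv)).valuation hw x

/-- `v` is nonsplit in `E` iff the Frobenius at `v` is not in `Q8`. -/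
theorem nonSplit_ME_iff {p : ℕ} (hp : p.Prime) (h : Unr D p) {A : ValuationSubring Qb}
    (hA : A.LiesOverPrime p) {φ : Gq} (hφ : A.IsFrobeniusAt φ p)
    (v : HeightOneSpectrum (𝓞 D.M)) (hv : ((p : ℕ) : 𝓞 D.M) ∈ v.asIdeal) {f : ℕ}
    (hf : Ideal.absNorm v.asIdeal = p ^ f) : H82.NonSplit D.E v ↔ D.ρ φ ^ f ∉ Q8 := by
  obtain ⟨w, hw⟩ := H47.above_nonempty (L := D.E) v
  obtain ⟨f', hf'0, hf', hk⟩ := exists_absNorm hp h hA hφ Q8 w (mem_of_above hw hv)
  rw [← hk f]
  have hf0 : 0 < f := by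
    rcases Nat.eq_zero_or_pos f with h0 | h0
    · rw [h0, pow_zero] at hf
      exact absurd hf (one_lt_absNorm v).ne'
    · exact h0
  rcases inert_or_split_ME hp h v hv with ⟨w', h1, -, h3, -⟩ | ⟨w', h1, h2, h3, h4, -, h5, -⟩
  · have e : w = w' := by
      have : w ∈ ({w'} : Set _) := h1 ▸ hw
      exact this
    subst e
    rw [hf, hf', ← pow_mul] at h3
    have h6 := Nat.pow_right_injective hp.two_le h3
    have hns : H82.NonSplit D.E v := by
      show (H82.above D.E v).ncard = 1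
      rw [h1, Set.ncard_singleton]
    simp only [hns, true_iff]
    intro hdvd
    have := Nat.le_of_dvd hf0 hdvd
    omega
  · have h6 := h5 w hw
    rw [hf, hf'] at h6
    have h7 := Nat.pow_right_injective hp.two_le h6
    have hns : ¬ H82.NonSplit D.E v := by
      intro hns
      have h8 : (H82.above D.E v).ncard = 1 := hns
      obtain ⟨w'', hw''⟩ := Set.ncard_eq_one.1 h8
      have e1 : w' ∈ H82.above D.E v := by rw [h1]; left; rfl
      have e2 : H47.smulPlace D.s w' ∈ H82.above D.E v := by rw [h1]; right; left; rfl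
      rw [hw''] at e1 e2
      exact h2 (e2.trans e1.symm)
    simp only [hns, h7, dvd_refl, not_true_eq_false]

/-- **Good inert places** of `M`. -/
theorem exists_inert_prime (D : RD) (S : Finset ℕ) :
    ∃ p : ℕ, p.Prime ∧ p ∉ S ∧ Unr D p ∧ ∀ v : HeightOneSpectrum (𝓞 D.M),
      ((p : ℕ) : 𝓞 D.M) ∈ v.asIdeal → Ideal.absNorm v.asIdeal = p ∧
        ∃ w : HeightOneSpectrum (𝓞 D.E), H82.above D.E v = {w} ∧ H47.smulPlace D.s w = w ∧
          Ideal.absNorm w.asIdeal = p ^ 3 ∧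
          v.asIdeal.map (algebraMap (𝓞 D.M) (𝓞 D.E)) = w.asIdeal := by
  haveI : Normal ℚ (fld D.ρ ⊥) := H3G.normal_fld ⊥
  obtain ⟨σ, hσ⟩ := D.surj H3G.ut
  obtain ⟨p, hp, hpS, hin, A, φ, hA, hφ, ⟨j, hj⟩, ⟨k, hk⟩, -⟩ :=
    H6.good_prime (fld D.ρ ⊥) σ S
  have hρ : ∀ τ τ' : Gq, (∀ x ∈ fld D.ρ ⊥, τ x = τ' x) → D.ρ τ = D.ρ τ' := by
    intro τ τ' h
    have h1 : τ⁻¹ * τ' ∈ (fld D.ρ ⊥).fixingSubgroup := by
      rw [IntermediateField.mem_fixingSubgroup_iff]
      intro x hx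
      show τ⁻¹ (τ' x) = x
      rw [← h x hx]
      exact τ.symm_apply_apply x
    rw [H3G.mem_fixingSubgroup_fld D.cont, Subgroup.mem_bot, map_mul, map_inv,
      inv_mul_eq_one] at h1
    exact h1
  have hunr : Unr D p := by
    intro P hP τ hτ
    have h1 := hρ τ 1 (fun x hx => by rw [hin P hP τ hτ x hx]; rfl)
    rw [h1, map_one]
  have e1 := hρ _ _ hj
  have e2 := hρ _ _ hk
  rw [map_pow, hσ] at e1 e2
  have hSL : D.ρ φ ∈ SL := by rw [e2]; exact SL.pow_mem H3G.ut_mem k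
  have hQ : D.ρ φ ∉ Q8 := by
    intro h
    apply H3G.ut_not_mem
    rw [e1]
    exact Q8.pow_mem h j
  refine ⟨p, hp, hpS, hunr, fun v hv => ?_⟩
  obtain ⟨f, hf0, hf, hfk⟩ := exists_absNorm hp hunr hA hφ SL v hv
  have hf1 : f = 1 := Nat.dvd_one.1 ((hfk 1).2 (by rw [pow_one]; exact hSL))
  rw [hf1] at hf
  have hns : H82.NonSplit D.E v := by
    rw [nonSplit_ME_iff hp hunr hA hφ v hv hf, pow_one]
    exact hQ
  rw [pow_one] at hf
  refine ⟨hf, ?_⟩
  rcases inert_or_split_ME hp hunr v hv with ⟨w, h1, h2, h3, h4⟩ | ⟨w, h1, h2, -⟩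
  · exact ⟨w, h1, h2, by rw [h3, hf], h4⟩
  · exfalso
    have h8 : (H82.above D.E v).ncard = 1 := hns
    obtain ⟨w'', hw''⟩ := Set.ncard_eq_one.1 h8
    have e1 : w ∈ H82.above D.E v := by rw [h1]; left; rfl
    have e2 : H47.smulPlace D.s w ∈ H82.above D.E v := by rw [h1]; right; left; rfl
    rw [hw''] at e1 e2
    exact h2 (e2.trans e1.symm)

end Apply

end Fermat.Agent.H30G
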