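import Fermat.Agent.H7ZWhit
import Fermat.Agent.H47TClass

/-!
# Duality for the local additive characters (helper36, S47, packages C19 / C13 / C21)

`psi w` is helper7's local additive character of a number field `K` at a finite place `w`.
`dexp w` is the exponent of `w` in the different of `K / ℚ`.

* `dual_iff` : `(∀ r, v_w r ≤ exp n → psi w (x * r) = 1) ↔ v_w x ≤ exp (dexp w - n)`;
* `unram_of_dexp` , `unram_iff` : `Unram w ↔ dexp w = 0`;
* `prod_psi_above` , `psi_single` : `∏_{w | v} psi w b = psi v (Tr b)` for an extension `E / F`;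
* `trace_le_of_forall` : trace duality for lattices over the integers at `v`.
-/

set_option autoImplicit false
set_option linter.unusedSectionVars false

open IsDedekindDomain HeightOneSpectrum WithZero NumberField
open scoped nonZeroDivisors

noncomputable section

namespace Fermat.Agent.H36.Psi

open Fermat.Agent.H7.Z

section dual

variable {K : Type*} [Field K] [NumberField K]

/-- The exponent of the place `w` in the different of `K / ℚ`. -/
def dexp (w : HeightOneSpectrum (𝓞 K)) : ℕ := multiplicity w.asIdeal (differentIdeal ℤ (𝓞 K))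

theorem differentIdeal_ne_bot' : differentIdeal ℤ (𝓞 K) ≠ ⊥ := differentIdeal_ne_bot

theorem finite_dexp : {w : HeightOneSpectrum (𝓞 K) | dexp w ≠ 0}.Finite := by
  refine (Ideal.finite_factors (differentIdeal_ne_bot' (K := K))).subset fun w hw => ?_
  by_contra h
  exact hw (multiplicity_eq_zero.mpr h)

theorem dexp_eq_zero_iff (w : HeightOneSpectrum (𝓞 K)) :
    dexp w = 0 ↔ ¬ w.asIdeal ∣ differentIdeal ℤ (𝓞 K) := multiplicity_eq_zero

theorem mem_dual_iff_trace (x : K) :
    x ∈ FractionalIdeal.dual ℤ ℚ (1 : FractionalIdeal (𝓞 K)⁰ K) ↔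
      ∀ y : 𝓞 K, ∃ n : ℤ, Algebra.trace ℚ K (x * (y : K)) = n := by
  have h10 : (1 : FractionalIdeal (𝓞 K)⁰ K) ≠ 0 := one_ne_zero
  rw [FractionalIdeal.mem_dual h10]
  constructor
  · intro h y
    obtain ⟨n, hn⟩ := h (y : K) (by
      rw [FractionalIdeal.mem_one_iff]; exact ⟨y, rfl⟩)
    refine ⟨n, ?_⟩
    rw [Algebra.traceForm_apply] at hn
    rw [← hn]; simp
  · intro h a ha
    rw [FractionalIdeal.mem_one_iff] at ha
    obtain ⟨y, rfl⟩ := ha
    obtain ⟨n, hn⟩ := h y
    refine ⟨n, ?_⟩
    rw [Algebra.traceForm_apply]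
    change _ = Algebra.trace ℚ K (x * (y : K))
    rw [hn]; simp

theorem mem_dual_iff_mul (x : K) :
    x ∈ FractionalIdeal.dual ℤ ℚ (1 : FractionalIdeal (𝓞 K)⁰ K) ↔
      ∀ d ∈ differentIdeal ℤ (𝓞 K), ∀ w : HeightOneSpectrum (𝓞 K),
        w.valuation K (x * (d : K)) ≤ 1 := by
  have h1 : FractionalIdeal.dual ℤ ℚ (1 : FractionalIdeal (𝓞 K)⁰ K) =
      ((differentIdeal ℤ (𝓞 K) : FractionalIdeal (𝓞 K)⁰ K))⁻¹ := by
    rw [coeIdeal_differentIdeal ℤ ℚ K (𝓞 K), inv_inv]
  have h2 : ((differentIdeal ℤ (𝓞 K) : FractionalIdeal (𝓞 K)⁰ K)) ≠ 0 := by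
    rw [Ne, FractionalIdeal.coeIdeal_eq_zero]; exact differentIdeal_ne_bot'
  rw [h1, FractionalIdeal.mem_inv_iff h2]
  constructor
  · intro h d hd w
    have h3 := h (d : K) ((FractionalIdeal.mem_coeIdeal _).mpr ⟨d, hd, rfl⟩)
    rw [FractionalIdeal.mem_one_iff] at h3
    obtain ⟨z, hz⟩ := h3
    rw [← hz]
    exact w.valuation_le_one z
  · intro h y hy
    obtain ⟨d, hd, rfl⟩ := (FractionalIdeal.mem_coeIdeal _).mp hy
    rw [FractionalIdeal.mem_one_iff]
    exact HeightOneSpectrum.mem_integers_of_valuation_le_one K _ (h d hd)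

theorem intValuation_le_of_mem {R : Type*} [CommRing R] [IsDedekindDomain R]
    (w : HeightOneSpectrum R) (I : Ideal R) {d : R} (hd : d ∈ I) :
    w.intValuation d ≤ exp (-((multiplicity w.asIdeal I : ℕ) : ℤ)) := by
  rw [w.intValuation_le_pow_iff_mem]
  exact Ideal.le_of_dvd (pow_multiplicity_dvd _ _) hd

theorem exists_intValuation_eq {R : Type*} [CommRing R] [IsDedekindDomain R]
    (w : HeightOneSpectrum R) {I : Ideal R} (hI : I ≠ ⊥) :
    ∃ d ∈ I, w.intValuation d = exp (-((multiplicity w.asIdeal I : ℕ) : ℤ)) := by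
  have hfin : FiniteMultiplicity w.asIdeal I := by
    refine FiniteMultiplicity.of_prime_left ?_ ?_
    · exact w.prime
    · rwa [Ideal.zero_eq_bot]
  have h1 : ¬ w.asIdeal ^ (multiplicity w.asIdeal I + 1) ∣ I :=
    hfin.not_pow_dvd_of_multiplicity_lt (Nat.lt_succ_self _)
  rw [Ideal.dvd_iff_le] at h1
  obtain ⟨d, hd, hd'⟩ := Set.not_subset.mp h1
  refine ⟨d, hd, le_antisymm (intValuation_le_of_mem w I hd) ?_⟩
  have h2 : ¬ w.intValuation d ≤ exp (-((multiplicity w.asIdeal I + 1 : ℕ) : ℤ)) := by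
    rw [w.intValuation_le_pow_iff_mem]; exact hd'
  have h0 : d ≠ 0 := by
    rintro rfl
    exact hd' (Submodule.zero_mem _)
  have h3 := w.intValuation_eq_exp_neg_multiplicity h0
  rw [h3] at h2 ⊢
  rw [exp_le_exp] at h2 ⊢
  push_cast at h2
  omega

theorem mem_dual_iff_val (x : K) :
    x ∈ FractionalIdeal.dual ℤ ℚ (1 : FractionalIdeal (𝓞 K)⁰ K) ↔
      ∀ w : HeightOneSpectrum (𝓞 K), w.valuation K x ≤ exp (dexp w : ℤ) := by
  rw [mem_dual_iff_mul]
  constructor
  · intro h w
    obtain ⟨d, hd, hd'⟩ := exists_intValuation_eq w (differentIdeal_ne_bot' (K := K))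
    have h1 := h d hd w
    have h2 : w.valuation K (d : K) = exp (-((dexp w : ℕ) : ℤ)) :=
      (w.valuation_of_algebraMap (K := K) d).trans hd'
    rw [map_mul, h2] at h1
    have h3 : w.valuation K x = w.valuation K x * exp (-((dexp w : ℕ) : ℤ)) *
        exp (dexp w : ℤ) := by
      rw [mul_assoc, ← exp_add, neg_add_cancel, exp_zero, mul_one]
    rw [h3]
    calc _ ≤ 1 * exp (dexp w : ℤ) := mul_le_mul_left h1 _
      _ = _ := one_mul _
  · intro h d hd w
    have h1 := intValuation_le_of_mem w _ hd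
    have h2 : w.valuation K (d : K) ≤ exp (-((dexp w : ℕ) : ℤ)) :=
      (w.valuation_of_algebraMap (K := K) d).le.trans h1
    rw [map_mul]
    calc _ ≤ exp (dexp w : ℤ) * exp (-((dexp w : ℕ) : ℤ)) := mul_le_mul' (h w) h2
      _ = 1 := by rw [← exp_add, add_neg_cancel, exp_zero]

/-- Approximation of a `w`-integral element by an algebraic integer. -/
theorem exists_int_approx (w : HeightOneSpectrum (𝓞 K)) (x r : K) (hr : w.valuation K r ≤ 1) :
    ∃ r₀ : 𝓞 K, w.valuation K (x * (r - (r₀ : K))) ≤ 1 := by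
  obtain ⟨m, hm⟩ := exists_le_exp w x
  obtain ⟨b, h1, h2⟩ := exists_approx (R := 𝓞 K) {w} (fun _ => r) (fun _ => m)
  have h3 : w.valuation K (b - r) ≤ exp (-(m : ℤ)) := h1 w (Finset.mem_singleton_self w)
  have h4 : ∀ w' : HeightOneSpectrum (𝓞 K), w'.valuation K b ≤ 1 := by
    intro w'
    by_cases hw : w' = w
    · subst hw
      have h5 : b = (b - r) + r := by ring
      rw [h5]
      refine (Valuation.map_add _ _ _).trans (max_le (h3.trans ?_) hr)
      rw [← exp_zero, exp_le_exp]; simp
    · exact h2 w' (by simpa using hw)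
  obtain ⟨r₀, hr₀⟩ := HeightOneSpectrum.mem_integers_of_valuation_le_one K b h4
  refine ⟨r₀, ?_⟩
  have h6 : (r₀ : K) = b := hr₀
  rw [h6, map_mul, Valuation.map_sub_swap]
  calc _ ≤ exp (m : ℤ) * exp (-(m : ℤ)) := mul_le_mul' hm h3
    _ = 1 := by rw [← exp_add, add_neg_cancel, exp_zero]

theorem ee_neg_eq_one_iff (a : ℚ) : ee (-a) = 1 ↔ ∃ n : ℤ, a = n := by
  rw [ee_neg, inv_eq_one, ee_eq_one_iff]

theorem dual_iff_zero (w : HeightOneSpectrum (𝓞 K)) (x : K) :
    (∀ r : K, w.valuation K r ≤ 1 → psi w (x * r) = 1) ↔ w.valuation K x ≤ exp (dexp w : ℤ) := by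
  obtain ⟨h1, h2⟩ := part_spec w x
  set c := part w x with hc
  have h1' : (1 : WithZero (Multiplicative ℤ)) ≤ exp (dexp w : ℤ) := by
    rw [← exp_zero, exp_le_exp]; simp
  have key : c ∈ FractionalIdeal.dual ℤ ℚ (1 : FractionalIdeal (𝓞 K)⁰ K) ↔
      w.valuation K x ≤ exp (dexp w : ℤ) := by
    rw [mem_dual_iff_val]
    constructor
    · intro h
      have h3 : x = (x - c) + c := by ring
      rw [h3]
      exact (Valuation.map_add _ _ _).trans (max_le (h1.trans h1') (h w))
    · intro h w'
      by_cases hw : w' = w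
      · subst hw
        have h3 : c = x - (x - c) := by ring
        rw [h3]
        exact (Valuation.map_sub _ _ _).trans (max_le h (h1.trans h1'))
      · refine (h2 w' hw).trans ?_
        rw [← exp_zero, exp_le_exp]; simp
  rw [← key, mem_dual_iff_trace]
  constructor
  · intro h y
    have h3 := h (y : K) (w.valuation_le_one y)
    rw [psi_eq w (β' := c * (y : K)) ?_ ?_] at h3
    · exact (ee_neg_eq_one_iff _).mp h3
    · rw [← sub_mul, map_mul]
      exact mul_le_one' h1 (w.valuation_le_one y)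
    · intro w' hw'
      rw [map_mul]
      exact mul_le_one' (h2 w' hw') (w'.valuation_le_one y)
  · intro h r hr
    obtain ⟨r₀, hr₀⟩ := exists_int_approx w c r hr
    rw [psi_eq w (β' := c * (r₀ : K)) ?_ ?_]
    · exact (ee_neg_eq_one_iff _).mpr (h r₀)
    · have h3 : x * r - c * (r₀ : K) = (x - c) * r + c * (r - (r₀ : K)) := by ring
      rw [h3]
      refine (Valuation.map_add _ _ _).trans (max_le ?_ hr₀)
      rw [map_mul]
      exact mul_le_one' h1 hr
    · intro w' hw'
      rw [map_mul]
      exact mul_le_one' (h2 w' hw') (w'.valuation_le_one r₀)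

theorem exists_val_eq_exp (w : HeightOneSpectrum (𝓞 K)) (n : ℤ) :
    ∃ t : Kˣ, w.valuation K (t : K) = exp n := by
  obtain ⟨p, hp⟩ := w.valuation_exists_uniformizer K
  have hp0 : p ≠ 0 := by
    rintro rfl
    rw [map_zero] at hp
    exact exp_ne_zero hp.symm
  refine ⟨(Units.mk0 p hp0) ^ (-n), ?_⟩
  rw [Units.val_zpow_eq_zpow_val, Units.val_mk0, map_zpow₀, hp, ← exp_zsmul]
  congr 1
  simp

/-- **Duality**: the dual of `{r : v_w r ≤ exp n}` with respect to `psi w`. -/
theorem dual_iff (w : HeightOneSpectrum (𝓞 K)) (x : K) (n : ℤ) :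
    (∀ r : K, w.valuation K r ≤ exp n → psi w (x * r) = 1) ↔
      w.valuation K x ≤ exp ((dexp w : ℤ) - n) := by
  obtain ⟨t, ht⟩ := exists_val_eq_exp w n
  have ht0 : w.valuation K (t : K) ≠ 0 := (Valuation.ne_zero_iff _).mpr t.ne_zero
  have h1 : (∀ r : K, w.valuation K r ≤ exp n → psi w (x * r) = 1) ↔
      (∀ r : K, w.valuation K r ≤ 1 → psi w ((x * (t : K)) * r) = 1) := by
    constructor
    · intro h r hr
      rw [mul_assoc]
      refine h _ ?_
      rw [map_mul, ht]
      calc _ ≤ exp n * 1 := mul_le_mul' le_rfl hr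
        _ = _ := mul_one _
    · intro h r hr
      have h2 := h ((t : K)⁻¹ * r) (by
        rw [map_mul, map_inv₀, ht]
        calc _ ≤ (exp n)⁻¹ * exp n := mul_le_mul' le_rfl hr
          _ = 1 := inv_mul_cancel₀ exp_ne_zero)
      have h3 : x * (t : K) * ((t : K)⁻¹ * r) = x * r := by
        field_simp
      rwa [h3] at h2
  rw [h1, dual_iff_zero, map_mul, ht]
  constructor
  · intro h
    calc w.valuation K x = w.valuation K x * exp n * exp (-n) := by
          rw [mul_assoc, ← exp_add, add_neg_cancel, exp_zero, mul_one]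
      _ ≤ exp (dexp w : ℤ) * exp (-n) := mul_le_mul' h le_rfl
      _ = _ := by rw [← exp_add]; congr 1
  · intro h
    calc _ ≤ exp ((dexp w : ℤ) - n) * exp n := mul_le_mul' h le_rfl
      _ = _ := by rw [← exp_add]; congr 1; ring

theorem unram_iff (w : HeightOneSpectrum (𝓞 K)) : Unram w ↔ dexp w = 0 := by
  constructor
  · intro h
    obtain ⟨t, ht⟩ := exists_val_eq_exp w (dexp w : ℤ)
    have h1 := h (t : K) ((dual_iff_zero w _).mpr ht.le)
    rw [ht, ← exp_zero, exp_le_exp] at h1
    omega
  · intro h x hx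
    have h1 := (dual_iff_zero w x).mp hx
    rwa [h, Nat.cast_zero, exp_zero] at h1

/-- `psi w` is trivial on the inverse different at `w`. -/
theorem psi_eq_one_of_le (w : HeightOneSpectrum (𝓞 K)) {x : K}
    (h : w.valuation K x ≤ exp (dexp w : ℤ)) : psi w x = 1 := by
  have := (dual_iff_zero w x).mpr h 1 (by rw [map_one])
  rwa [mul_one] at this

/-- `psi w` is not trivial on any larger fractional ideal. -/
theorem exists_psi_ne_one (w : HeightOneSpectrum (𝓞 K)) {n : ℤ} (hn : (dexp w : ℤ) < n) :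
    ∃ r : K, w.valuation K r ≤ exp n ∧ psi w r ≠ 1 := by
  by_contra hcon
  push Not at hcon
  have h1 := (dual_iff w (1 : K) n).mp (fun r hr => by rw [one_mul]; exact hcon r hr)
  rw [map_one, ← exp_zero, exp_le_exp] at h1
  omega

/-- Almost all places are unramified for `psi`. -/
theorem unram_of_not_dvd (w : HeightOneSpectrum (𝓞 K)) (h : ¬ w.asIdeal ∣ differentIdeal ℤ (𝓞 K)) :
    Unram w := (unram_iff w).mpr ((dexp_eq_zero_iff w).mpr h)

theorem finite_not_unram : {w : HeightOneSpectrum (𝓞 K) | ¬ Unram w}.Finite :=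
  finite_dexp.subset fun w hw h => hw ((unram_iff w).mpr h)

/-- Invariance of the exponent of the different under automorphisms (given invariance of `psi`). -/
theorem dexp_eq_of_psi {K' : Type*} [Field K'] [NumberField K'] (s : K ≃+* K')
    (w : HeightOneSpectrum (𝓞 K)) (w' : HeightOneSpectrum (𝓞 K'))
    (hval : ∀ x, w'.valuation K' (s x) = w.valuation K x)
    (hpsi : ∀ x, psi w' (s x) = psi w x) : dexp w' = dexp w := by
  have key : ∀ x : K, w.valuation K x ≤ exp (dexp w' : ℤ) ↔ w.valuation K x ≤ exp (dexp w : ℤ) := by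
    intro x
    rw [← dual_iff_zero w x, ← hval, ← dual_iff_zero w' (s x)]
    constructor
    · intro h r hr
      rw [← hpsi, map_mul]
      exact h _ (by rwa [hval])
    · intro h r hr
      obtain ⟨r, rfl⟩ := s.surjective r
      rw [← map_mul, hpsi]
      exact h r (by rwa [hval] at hr)
  obtain ⟨t, ht⟩ := exists_val_eq_exp w (dexp w' : ℤ)
  obtain ⟨t', ht'⟩ := exists_val_eq_exp w (dexp w : ℤ)
  have h1 := (key t).mp ht.le
  have h2 := (key t').mpr ht'.le
  rw [ht, exp_le_exp] at h1
  rw [ht', exp_le_exp] at h2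
  omega

end dual

/-! ## Extensions of number fields -/

section ext

variable {F E : Type*} [Field F] [NumberField F] [Field E] [NumberField E] [Algebra F E]

/-- Elements of `𝓞 F` divisible by a power of the place below are divisible by the same power. -/
theorem valuation_algebraMap_le (w : HeightOneSpectrum (𝓞 E)) (N : ℕ) (s : 𝓞 F)
    (hs : (H47.below F w).valuation F (s : F) ≤ exp (-(N : ℤ))) :
    w.valuation E (algebraMap F E (s : F)) ≤ exp (-(N : ℤ)) := by
  have h1 : (H47.below F w).intValuation s ≤ exp (-(N : ℤ)) :=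
    ((H47.below F w).valuation_of_algebraMap (K := F) s).symm.le.trans hs
  rw [HeightOneSpectrum.intValuation_le_pow_iff_mem] at h1
  have h2 : algebraMap (𝓞 F) (𝓞 E) s ∈ w.asIdeal ^ N := by
    have h3 : Ideal.map (algebraMap (𝓞 F) (𝓞 E)) ((H47.below F w).asIdeal ^ N) ≤ w.asIdeal ^ N := by
      rw [Ideal.map_pow]
      exact Ideal.pow_right_mono (Ideal.map_le_iff_le_comap.mpr le_rfl) N
    exact h3 (Ideal.mem_map_of_mem _ h1)
  have h4 : algebraMap F E (s : F) = ((algebraMap (𝓞 F) (𝓞 E) s : 𝓞 E) : E) := rfl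
  rw [h4]
  refine (w.valuation_of_algebraMap (K := E) _).le.trans ?_
  rwa [HeightOneSpectrum.intValuation_le_pow_iff_mem]

/-- The trace of an element which is integral at all places above `v` is integral at `v`. -/
theorem trace_le_one {v : HeightOneSpectrum (𝓞 F)} {x : E}
    (hx : ∀ w ∈ H82.above E v, w.valuation E x ≤ 1) :
    v.valuation F (Algebra.trace F E x) ≤ 1 := by
  classical
  choose m hm using fun w : HeightOneSpectrum (𝓞 E) => exists_le_exp w x
  let W := (finite_not_integral x).toFinset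
  let N : ℕ := ∑ w ∈ W, m w
  let T' : Finset (HeightOneSpectrum (𝓞 F)) := W.image (H47.below F)
  have hvT : v ∉ T' := by
    intro h
    obtain ⟨w, hw, rfl⟩ := Finset.mem_image.mp h
    exact ((finite_not_integral x).mem_toFinset.mp hw) (hx w (H47.mem_above_below w))
  obtain ⟨s₀, h1, h2⟩ := exists_approx (R := 𝓞 F) (insert v T')
    (fun v' => if v' = v then (1 : F) else 0) (fun v' => if v' = v then 1 else N)
  have hs1 : v.valuation F (s₀ - 1) ≤ exp (-((1 : ℕ) : ℤ)) := by
    have := h1 v (Finset.mem_insert_self v T')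
    simpa using this
  have hs2 : ∀ v' ∈ T', v'.valuation F s₀ ≤ exp (-(N : ℤ)) := by
    intro v' hv'
    have hne : v' ≠ v := fun h => hvT (h ▸ hv')
    have := h1 v' (Finset.mem_insert_of_mem hv')
    simpa [hne] using this
  have hlt : exp (-((1 : ℕ) : ℤ)) < (1 : WithZero (Multiplicative ℤ)) := by
    rw [← exp_zero, exp_lt_exp]; norm_num
  have hsv : v.valuation F s₀ = 1 :=
    H82.valuation_eq_one_of_sub_one_lt (hs1.trans_lt hlt)
  have hexp : ∀ n : ℕ, exp (-(n : ℤ)) ≤ (1 : WithZero (Multiplicative ℤ)) := fun n => by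
    rw [← exp_zero, exp_le_exp]; simp
  have hall : ∀ v' : HeightOneSpectrum (𝓞 F), v'.valuation F s₀ ≤ 1 := by
    intro v'
    by_cases h3 : v' ∈ insert v T'
    · rcases Finset.mem_insert.mp h3 with h4 | h4
      · rw [h4, hsv]
      · exact (hs2 v' h4).trans (hexp N)
    · exact h2 v' h3
  obtain ⟨s, hs⟩ := HeightOneSpectrum.mem_integers_of_valuation_le_one F s₀ hall
  have hs' : (s : F) = s₀ := hs
  have hz : ∀ w : HeightOneSpectrum (𝓞 E), w.valuation E (algebraMap F E s₀ * x) ≤ 1 := by
    intro w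
    rw [map_mul]
    by_cases hw : w ∈ W
    · have h4 : w.valuation E (algebraMap F E s₀) ≤ exp (-(N : ℤ)) := by
        rw [← hs']
        apply valuation_algebraMap_le
        rw [hs']
        exact hs2 _ (Finset.mem_image_of_mem _ hw)
      have h5 : m w ≤ N := Finset.single_le_sum (f := m) (fun _ _ => Nat.zero_le _) hw
      calc _ ≤ exp (-(N : ℤ)) * exp (m w : ℤ) := mul_le_mul' h4 (hm w)
        _ ≤ 1 := by rw [← exp_add, ← exp_zero, exp_le_exp]; omega
    · have h4 : w.valuation E (algebraMap F E s₀) ≤ 1 := by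
        have := valuation_algebraMap_le w 0 s (by
          simpa using (H47.below F w).valuation_le_one (K := F) s)
        rw [hs'] at this
        simpa using this
      have h5 : w.valuation E x ≤ 1 := by
        by_contra hcon
        exact hw ((finite_not_integral x).mem_toFinset.mpr hcon)
      exact mul_le_one' h4 h5
  obtain ⟨z, hz'⟩ := HeightOneSpectrum.mem_integers_of_valuation_le_one E _ hz
  have hz'' : (z : E) = algebraMap F E s₀ * x := hz'
  have h6 : IsIntegral ℤ (Algebra.trace F E (z : E)) :=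
    Algebra.isIntegral_trace (RingOfIntegers.isIntegral_coe z)
  have h7 : v.valuation F (Algebra.trace F E (z : E)) ≤ 1 :=
    v.valuation_le_one (K := F) (⟨_, h6⟩ : 𝓞 F)
  rw [hz'', ← Algebra.smul_def, map_smul, smul_eq_mul, map_mul, hsv, one_mul] at h7
  exact h7

/-- `∏_{w | v} psi w b = psi v (Tr_{E/F} b)`. -/
theorem prod_psi_above (v : HeightOneSpectrum (𝓞 F)) (b : E)
    (S : Finset (HeightOneSpectrum (𝓞 E))) (hS : ∀ w, w ∈ S ↔ w ∈ H82.above E v) :
    ∏ w ∈ S, psi w b = psi v (Algebra.trace F E b) := by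
  obtain ⟨c, h1, h2⟩ := exists_approx (R := 𝓞 E) S (fun _ => b) (fun _ => 0)
  have h1' : ∀ w ∈ S, w.valuation E (b - c) ≤ 1 := by
    intro w hw
    have := h1 w hw
    rw [Valuation.map_sub_swap]
    simpa using this
  rw [Finset.prod_congr rfl (fun w hw => psi_congr w (h1' w hw)), prod_psi S c h2,
    psi_eq v (β' := Algebra.trace F E c), Algebra.trace_trace]
  · rw [← map_sub]
    exact trace_le_one fun w hw => h1' w ((hS w).mpr hw)
  · intro v' hv'
    refine trace_le_one fun w hw => h2 w fun hwS => hv' ?_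
    rw [H47.eq_below_of_mem_above hw, H47.eq_below_of_mem_above ((hS w).mp hwS)]

/-- The case of a single place above `v`. -/
theorem psi_single {v : HeightOneSpectrum (𝓞 F)} {w : HeightOneSpectrum (𝓞 E)}
    (hw : H82.above E v = {w}) (b : E) : psi w b = psi v (Algebra.trace F E b) := by
  rw [← prod_psi_above v b {w} (fun w' => by rw [hw]; simp), Finset.prod_singleton]

/-- On the base field: `∏_{w | v} psi w b = psi v (n b)`, `n = [E : F]`. -/
theorem prod_psi_above_algebraMap (v : HeightOneSpectrum (𝓞 F)) (b : F)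
    (S : Finset (HeightOneSpectrum (𝓞 E))) (hS : ∀ w, w ∈ S ↔ w ∈ H82.above E v) :
    ∏ w ∈ S, psi w (algebraMap F E b) = psi v ((Module.finrank F E : F) * b) := by
  rw [prod_psi_above v _ S hS, Algebra.trace_algebraMap, nsmul_eq_mul]

/-- **Semilocal duality over `F`**: testing `z` against `β e`, `v β ≤ exp n`. -/
theorem semilocal_dual_iff (v : HeightOneSpectrum (𝓞 F))
    (S : Finset (HeightOneSpectrum (𝓞 E))) (hS : ∀ w, w ∈ S ↔ w ∈ H82.above E v)
    (z e : E) (n : ℤ) :
    (∀ β : F, v.valuation F β ≤ exp n → ∏ w ∈ S, psi w (z * (algebraMap F E β * e)) = 1) ↔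
      v.valuation F (Algebra.trace F E (z * e)) ≤ exp ((dexp v : ℤ) - n) := by
  rw [← dual_iff]
  have key : ∀ β : F, ∏ w ∈ S, psi w (z * (algebraMap F E β * e)) =
      psi v (Algebra.trace F E (z * e) * β) := by
    intro β
    rw [prod_psi_above v _ S hS]
    congr 1
    have h1 : z * (algebraMap F E β * e) = β • (z * e) := by
      rw [Algebra.smul_def]; ring
    rw [h1, map_smul, smul_eq_mul, mul_comm]
  simp only [key]

/-- **Local duality over `F`**, single place above `v`. -/
theorem single_dual_iff {v : HeightOneSpectrum (𝓞 F)} {w : HeightOneSpectrum (𝓞 E)}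
    (hw : H82.above E v = {w}) (z e : E) (n : ℤ) :
    (∀ β : F, v.valuation F β ≤ exp n → psi w (z * (algebraMap F E β * e)) = 1) ↔
      v.valuation F (Algebra.trace F E (z * e)) ≤ exp ((dexp v : ℤ) - n) := by
  rw [← semilocal_dual_iff v {w} (fun w' => by rw [hw]; simp) z e n]
  simp only [Finset.prod_singleton]

/-! ### Lattices with a self-dual basis -/

section selfdual

variable {ι : Type*} [Fintype ι] [DecidableEq ι]

/-- A self-dual basis for the trace form. -/
structure SelfDual (F : Type*) {E : Type*} [Field F] [Field E] [Algebra F E] {ι : Type*}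
    [Fintype ι] [DecidableEq ι] (e : ι → E) : Prop where
  orth : ∀ i j, Algebra.trace F E (e i * e j) = if i = j then 1 else 0
  expand : ∀ z : E, z = ∑ i, algebraMap F E (Algebra.trace F E (z * e i)) * e i

omit [NumberField F] [NumberField E] in
theorem SelfDual.trace_coord {e : ι → E} (he : SelfDual F e) (β : ι → F) (j : ι) :
    Algebra.trace F E ((∑ i, algebraMap F E (β i) * e i) * e j) = β j := by
  rw [Finset.sum_mul, map_sum]
  have h1 : ∀ i, Algebra.trace F E (algebraMap F E (β i) * e i * e j) =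
      if i = j then β i else 0 := by
    intro i
    rw [mul_assoc, ← Algebra.smul_def, map_smul, he.orth, smul_eq_mul]
    split_ifs <;> simp
  rw [Finset.sum_congr rfl (fun i _ => h1 i)]
  simp

omit [NumberField F] [NumberField E] in
/-- Orthogonality implies the expansion if there are enough vectors. -/
theorem SelfDual.of_orth [FiniteDimensional F E] {e : ι → E}
    (hcard : Fintype.card ι = Module.finrank F E)
    (h : ∀ i j, Algebra.trace F E (e i * e j) = if i = j then 1 else 0) : SelfDual F e := by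
  have key : ∀ (g : ι → F) (j : ι), Algebra.trace F E ((∑ i, g i • e i) * e j) = g j := by
    intro g j
    rw [Finset.sum_mul, map_sum]
    have h1 : ∀ i, Algebra.trace F E (g i • e i * e j) = if i = j then g i else 0 := by
      intro i
      rw [smul_mul_assoc, map_smul, h, smul_eq_mul]
      split_ifs <;> simp
    rw [Finset.sum_congr rfl (fun i _ => h1 i)]
    simp
  have hli : LinearIndependent F e := by
    rw [Fintype.linearIndependent_iff]
    intro g hg i
    have := key g i
    rw [hg, zero_mul, map_zero] at this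
    exact this.symm
  refine ⟨h, fun z => ?_⟩
  have hspan : Submodule.span F (Set.range e) = ⊤ :=
    hli.span_eq_top_of_card_eq_finrank' hcard
  have hz : z ∈ Submodule.span F (Set.range e) := by rw [hspan]; trivial
  obtain ⟨g, rfl⟩ := (Submodule.mem_span_range_iff_exists_fun F).mp hz
  refine Finset.sum_congr rfl fun i _ => ?_
  rw [key g i, Algebra.smul_def]

/-- The lattice `π^{-n} (⊕ O_v e_i)`, given by traces. -/
def latt (e : ι → E) (v : HeightOneSpectrum (𝓞 F)) (n : ℤ) : AddSubgroup E where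
  carrier := {z | ∀ i, v.valuation F (Algebra.trace F E (z * e i)) ≤ exp n}
  zero_mem' := fun i => by simp
  add_mem' := by
    intro a b ha hb i
    rw [add_mul, map_add]
    exact (Valuation.map_add _ _ _).trans (max_le (ha i) (hb i))
  neg_mem' := by
    intro a ha i
    rw [neg_mul, map_neg, Valuation.map_neg]
    exact ha i

theorem mem_latt {e : ι → E} {v : HeightOneSpectrum (𝓞 F)} {n : ℤ} {z : E} :
    z ∈ latt e v n ↔ ∀ i, v.valuation F (Algebra.trace F E (z * e i)) ≤ exp n := Iff.rfl

theorem SelfDual.mem_latt_iff {e : ι → E} (he : SelfDual F e) {v : HeightOneSpectrum (𝓞 F)}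
    {n : ℤ} {z : E} : z ∈ latt e v n ↔
      ∃ β : ι → F, (∀ i, v.valuation F (β i) ≤ exp n) ∧ z = ∑ i, algebraMap F E (β i) * e i := by
  constructor
  · intro h
    exact ⟨_, h, he.expand z⟩
  · rintro ⟨β, hβ, rfl⟩ j
    rw [he.trace_coord]
    exact hβ j

theorem SelfDual.smul_mem_latt {e : ι → E} (he : SelfDual F e) {v : HeightOneSpectrum (𝓞 F)}
    {n : ℤ} {β : F} (hβ : v.valuation F β ≤ exp n) (j : ι) :
    algebraMap F E β * e j ∈ latt e v n := by
  intro i
  rw [mul_assoc, ← Algebra.smul_def, map_smul, he.orth, smul_eq_mul]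
  split_ifs with h
  · rwa [mul_one]
  · simp

/-- **The dual of the lattice** `π^{-n} L` for `psi w` (semilocal form, any splitting of `v`). -/
theorem SelfDual.semilocal_dual {e : ι → E} (he : SelfDual F e) (v : HeightOneSpectrum (𝓞 F))
    (S : Finset (HeightOneSpectrum (𝓞 E))) (hS : ∀ w, w ∈ S ↔ w ∈ H82.above E v) (n : ℤ) (z : E) :
    (∀ b ∈ latt e v n, ∏ w ∈ S, psi w (z * b) = 1) ↔ z ∈ latt e v ((dexp v : ℤ) - n) := by
  constructor
  · intro h i
    rw [← semilocal_dual_iff v S hS z (e i) n]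
    intro β hβ
    exact h _ (he.smul_mem_latt hβ i)
  · intro h b hb
    obtain ⟨β, hβ, rfl⟩ := he.mem_latt_iff.mp hb
    rw [prod_psi_above v _ S hS]
    apply psi_eq_one_of_le
    rw [Finset.mul_sum, map_sum]
    refine Valuation.map_sum_le _ fun i _ => ?_
    have h1 : z * (algebraMap F E (β i) * e i) = β i • (z * e i) := by
      rw [Algebra.smul_def]; ring
    rw [h1, map_smul, smul_eq_mul, map_mul]
    calc _ ≤ exp n * exp ((dexp v : ℤ) - n) := mul_le_mul' (hβ i) (h i)
      _ = _ := by rw [← exp_add]; congr 1; ring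

/-- **The dual of the lattice** `π^{-n} L` for `psi w`, `w` the only place above `v`. -/
theorem SelfDual.single_dual {e : ι → E} (he : SelfDual F e) {v : HeightOneSpectrum (𝓞 F)}
    {w : HeightOneSpectrum (𝓞 E)} (hw : H82.above E v = {w}) (n : ℤ) (z : E) :
    (∀ b ∈ latt e v n, psi w (z * b) = 1) ↔ z ∈ latt e v ((dexp v : ℤ) - n) := by
  rw [← he.semilocal_dual v {w} (fun w' => by rw [hw]; simp) n z]
  simp only [Finset.prod_singleton]

end selfdual

end ext

end Fermat.Agent.H36.Psi
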