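import Fermat.Agent.H46ZMeet
import Fermat.Agent.H55DC
import Fermat.Agent.H83ZEis
import Fermat.Agent.H3G5
import Fermat.Agent.H89D5

/-!
# S47: cross-block interfaces, left half (helper46)

The closed propositions at the borders between the blocks (GAL), (D), (C) of S47.

* `divs K n` : the finite set of places of `K` dividing the integer `n`;
* `awR D` : the eigenvalues `a_w ∈ {2, -2, 0}` on the places of `E`;
* `BlockD` : output of block (D);
* `BlockC` : output of block (C);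
* `NE`, `InertEx`, `Dict` : what is needed from (GAL).
-/

set_option autoImplicit false

open IsDedekindDomain HeightOneSpectrum WithZero NumberField
open Fermat.Agent.S47T Fermat.Agent.H3G

noncomputable section

namespace Fermat.Agent.H46Z

local notation "Qb" => AlgebraicClosure ℚ
local notation "Γℚ" => (AlgebraicClosure ℚ ≃ₐ[ℚ] AlgebraicClosure ℚ)

open Classical in
/-- The (finite) set of the places of `K` dividing the integer `n ≠ 0`. -/
def divs (K : Type*) [Field K] [NumberField K] (n : ℕ) : Finset (HeightOneSpectrum (𝓞 K)) :=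
  if h : {v : HeightOneSpectrum (𝓞 K) | (n : 𝓞 K) ∈ v.asIdeal}.Finite then h.toFinset else ∅

theorem finite_divs (K : Type*) [Field K] [NumberField K] {n : ℕ} (hn : n ≠ 0) :
    {v : HeightOneSpectrum (𝓞 K) | (n : 𝓞 K) ∈ v.asIdeal}.Finite := by
  have h0 : (Ideal.span {(n : 𝓞 K)}) ≠ 0 := by
    rw [Ne, Ideal.zero_eq_bot, Ideal.span_singleton_eq_bot]
    exact_mod_cast hn
  have h := Ideal.finite_factors h0
  refine h.subset ?_
  intro v hv
  show v.asIdeal ∣ _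
  rw [Ideal.dvd_span_singleton]
  exact hv

theorem mem_divs {K : Type*} [Field K] [NumberField K] {n : ℕ} (hn : n ≠ 0)
    {v : HeightOneSpectrum (𝓞 K)} : v ∈ divs K n ↔ (n : 𝓞 K) ∈ v.asIdeal := by
  rw [divs, dif_pos (finite_divs K hn), Set.Finite.mem_toFinset]
  rfl

/-- The numbers `a_w ∈ {2, -2, 0}` on the places of `E`. -/
def awR (D : RD) (w : HeightOneSpectrum (𝓞 D.E)) : ℝ := ((H89D.aw D.B' D.K w : ℤ) : ℝ)

/-! ### The blocks -/

/-- **Output of block (D)**: the dihedral form over `E`. -/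
def BlockD : Prop :=
  ∀ D : RD, ∃ N₁ : ℕ, N₁ ≠ 0 ∧ ∀ N₀ : ℕ, N₀ ≠ 0 → N₁ ∣ N₀ →
    H55D.DOut D.E (divs D.E N₀) (awR D)

/-- The numbers `a_w` vanish at all places of `E` above suitable rational primes `p ≡ -1 mod n`,
inert in `M` and split in `E / M` (`p = w₁ w₂ w₃`). -/
def NE (E : Type*) [Field E] [NumberField E] (a : HeightOneSpectrum (𝓞 E) → ℝ) : Prop :=
  ∀ n : ℕ, 0 < n → ∃ p : ℕ, p.Prime ∧ ¬ p ∣ n ∧ (p : ZMod n) = -1 ∧ p % 3 = 2 ∧
    (divs E p).card = 3 ∧ ∀ w ∈ divs E p, a w = 0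

/-- There are places of `M`, inert in `E`, prime to any given integer. -/
def InertEx (M E : Type*) [Field M] [NumberField M] [Field E] [NumberField E] [Algebra M E] :
    Prop :=
  ∀ n : ℕ, 0 < n → ∃ v : HeightOneSpectrum (𝓞 M), (n : 𝓞 M) ∉ v.asIdeal ∧ H82.NonSplit E v ∧
    ∀ w ∈ H82.above E v, v.asIdeal.ramificationIdx' w.asIdeal = 1

/-- **Output of block (C)**: the cubic descent from `E` to `M = ℚ(ω)`. -/
def BlockC : Prop :=
  ∀ (M E : Type) [Field M] [NumberField M] [IsCyclotomicExtension {3} ℚ M] [Field E]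
    [NumberField E] [Algebra M E] [IsGalois M E] (_ : Module.finrank M E = 3)
    (e : E →+* ℂ) (a : HeightOneSpectrum (𝓞 E) → ℝ) (_ : ∀ w, |a w| ≤ 2)
    (_ : ∀ (s : E ≃ₐ[M] E) (w : HeightOneSpectrum (𝓞 E)), a (H47.smulPlace s w) = a w)
    (_ : NE E a) (_ : InertEx M E) (N₁ : ℕ) (_ : N₁ ≠ 0)
    (_ : ∀ N₀ : ℕ, N₀ ≠ 0 → N₁ ∣ N₀ → H55D.DOut E (divs E N₀) a),
    ∃ (N : ℕ) (c : Eis → ℝ) (F : H3 → ℂ), 3 ∣ N ∧ N₁ ∣ N ∧ ICT N c F ∧
      ∀ v : HeightOneSpectrum (𝓞 M), (N : 𝓞 M) ∉ v.asIdeal → ¬ H82.NonSplit E v →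
        ∀ w ∈ H82.above E v, ∀ ϖ : Eis,
          v.asIdeal = Ideal.span {(H83Z.eisO (e.comp (algebraMap M E))).symm ϖ} → c ϖ = a w

/-! ### The Galois dictionary -/

/-- What the assembly needs from the Galois dictionary: outside the primes dividing `D₀`, a place
`v` of `M` over `p`, of residue degree `f`, splits in `E` iff `ρ(Frob_p ^ f) ∈ Q₈`, and then
`a_w` is the trace of `ρ(Frob_p ^ f)` for all `w ∣ v`. -/
def Dict (D : RD) (D₀ : ℕ) : Prop :=
  ∀ p : ℕ, p.Prime → ¬ p ∣ D₀ → ∀ A : ValuationSubring Qb, A.LiesOverPrime p →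
    ∀ σ : Γℚ, A.IsFrobeniusAt σ p → ∀ (f : ℕ) (v : HeightOneSpectrum (𝓞 D.M)),
      Ideal.absNorm v.asIdeal = p ^ f → D.ρ (σ ^ f) ∈ Q8 →
        ¬ H82.NonSplit D.E v ∧ ∀ w ∈ H82.above D.E v, awR D w = val8 (D.ρ (σ ^ f))

end Fermat.Agent.H46Z
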