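import Mathlib
import Fermat.Agent.H83ZInst2
import Fermat.Agent.H79SDef

/-!
# S47, block (C): construction of the concrete models, part 3: the record `CSetup`

* `LevIn`, `lev` : the level attached to types at the places of `S` and the Iwahori subgroup at `w0`;
* `CIn` : the inputs of the setup;
* `CIn.csetup` : the setup.
-/

set_option autoImplicit false
set_option linter.unusedSectionVars false
set_option linter.unusedVariables false

noncomputable section

open IsDedekindDomain HeightOneSpectrum WithZero NumberField Matrix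
open scoped MatrixGroups

namespace Fermat.Agent.H83Z

open Fermat.Agent.H59D Fermat.Agent.H76U

/-! ## The level -/

section Lev

variable {K : Type*} [Field K] [NumberField K]

/-- Conditions on the types at the places of `S`. -/
structure LevIn (S : Finset (HeightOneSpectrum (𝓞 K))) (w0 : HeightOneSpectrum (𝓞 K))
    (T : HeightOneSpectrum (𝓞 K) → TD K) : Prop where
  w0S : w0 ∉ S
  opn : ∀ w ∈ S, ∃ n : ℕ, Gam w n ≤ (T w).U
  bdd : ∀ w ∈ S, ∃ c : PGL(2, K), ∀ g ∈ (T w).H, c⁻¹ * g * c ∈ U0 w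

variable {S : Finset (HeightOneSpectrum (𝓞 K))} {w0 : HeightOneSpectrum (𝓞 K)}
    {T : HeightOneSpectrum (𝓞 K) → TD K}

open Classical in
/-- The level: `ker ψ_w` at `w ∈ S`, Iwahori at `w0`, maximal elsewhere. -/
def lev (h : LevIn S w0 T) : Level (𝓞 K) K :=
  ofLocal (↑S ∪ {w0}) (S.finite_toSet.union (Set.finite_singleton w0))
    (fun w => if w = w0 then Iw w0 else (T w).U)
    (by
      intro w hw
      show ∃ n : ℕ, Gam w n ≤ if w = w0 then Iw w0 else (T w).U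
      by_cases h0 : w = w0
      · subst h0
        rw [if_pos rfl]
        exact ⟨1, Gam_one_le_Iw w⟩
      · rw [if_neg h0]
        rcases hw with hw | hw
        · exact h.opn w hw
        · exact absurd hw h0)
    (by
      intro w hw
      show ∃ c : PGL(2, K), ∀ g ∈ (if w = w0 then Iw w0 else (T w).U : Subgroup PGL(2, K)),
        c⁻¹ * g * c ∈ U0 w
      by_cases h0 : w = w0
      · subst h0
        rw [if_pos rfl]
        exact ⟨1, fun g hg => by simpa using Iw_le w hg⟩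
      · rw [if_neg h0]
        rcases hw with hw | hw
        · obtain ⟨c, hc⟩ := h.bdd w hw
          exact ⟨c, fun g hg => hc g hg.1⟩
        · exact absurd hw h0)

theorem lev_S (h : LevIn S w0 T) {w : HeightOneSpectrum (𝓞 K)} (hw : w ∈ S) :
    (lev h).U w = (T w).U := by
  have h0 : w ≠ w0 := fun h0 => h.w0S (h0 ▸ hw)
  rw [lev, ofLocal_mem (show w ∈ (↑S ∪ {w0} : Set _) from Or.inl hw)]
  exact if_neg h0

theorem lev_w0 (h : LevIn S w0 T) : (lev h).U w0 = Iw w0 := by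
  rw [lev, ofLocal_mem (show w0 ∈ (↑S ∪ {w0} : Set _) from Or.inr rfl)]
  exact if_pos rfl

theorem lev_good (h : LevIn S w0 T) {w : HeightOneSpectrum (𝓞 K)} (hw : w ∉ S) (h0 : w ≠ w0) :
    (lev h).U w = U0 w := by
  refine ofLocal_not_mem ?_
  rintro (h1 | h1)
  · exact hw h1
  · exact h0 h1

/-- Stability of the level under an automorphism. -/
theorem lev_stable (h : LevIn S w0 T) (s : K ≃+* K) (σ : Equiv.Perm (HeightOneSpectrum (𝓞 K)))
    (hσ : ∀ w x, (σ w).valuation K (s x) = w.valuation K x)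
    (hS : ∀ w, σ w ∈ S ↔ w ∈ S) (h0 : σ w0 = w0)
    (hT : ∀ w ∈ S, ∀ g : PGL(2, K), g ∈ (T w).U ↔
      (ProjGenLinGroup.map (s : K →+* K) g : PGL(2, K)) ∈ (T (σ w)).U)
    (w : HeightOneSpectrum (𝓞 K)) (g : PGL(2, K)) :
    g ∈ (lev h).U w ↔ (ProjGenLinGroup.map (s : K →+* K) g : PGL(2, K)) ∈ (lev h).U (σ w) := by
  by_cases hw : w ∈ S
  · rw [lev_S h hw, lev_S h ((hS w).2 hw)]
    exact hT w hw g
  · by_cases hw0 : w = w0
    · subst hw0
      rw [h0, lev_w0]
      refine Iw_map s ?_ g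
      intro x
      have := hσ w x
      rwa [h0] at this
    · have h1 : σ w ∉ S := fun h' => hw ((hS w).1 h')
      have h2 : σ w ≠ w0 := fun h' => hw0 (σ.injective (h'.trans h0.symm))
      rw [lev_good h hw hw0, lev_good h h1 h2]
      exact U0_map s (hσ w) g

end Lev

/-! ## The inputs -/

/-- The inputs of the setup of block (C). -/
structure CIn (F E : Type) [Field F] [NumberField F] [Field E] [NumberField E] [Algebra F E] where
  h2 : Module.finrank ℚ F = 2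
  h3 : Module.finrank F E = 3
  gal : IsGalois F E
  cF : IsTotallyComplex F
  cE : IsTotallyComplex E
  e₀ : E →+* ℂ
  s : E ≃ₐ[F] E
  hs : s ≠ 1
  SF : Finset (HeightOneSpectrum (𝓞 F))
  SE : Finset (HeightOneSpectrum (𝓞 E))
  mem_SE : ∀ w, w ∈ SE ↔ H47.below F w ∈ SF
  v0 : HeightOneSpectrum (𝓞 F)
  w0 : HeightOneSpectrum (𝓞 E)
  above_v0 : H82.above E v0 = {w0}
  unr : ∀ v ∉ SF, ∀ w ∈ H82.above E v, v.asIdeal.ramificationIdx' w.asIdeal = 1
  unramE : ∀ w ∉ SE, H7.Z.Unram w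
  unramF : ∀ v ∉ SF, H7.Z.Unram v
  TE : HeightOneSpectrum (𝓞 E) → TD E
  TF : HeightOneSpectrum (𝓞 F) → TD F
  psiE : ∀ w ∈ SE, ∀ x, (TE w).psi x = H7.Z.psi w x
  psiF : ∀ v ∈ SF, ∀ x, (TF v).psi x = H7.Z.psi v x
  /-- the types over `E` are stable under `s` -/
  TE_s : ∀ w ∈ SE, ∀ x, (s x ∈ (TE (placePerm s w)).A ↔ x ∈ (TE w).A) ∧
    (s x ∈ (TE (placePerm s w)).B ↔ x ∈ (TE w).B) ∧ (s x ∈ (TE (placePerm s w)).C ↔ x ∈ (TE w).C)
  TE_U : ∀ w ∈ SE, ∀ g : PGL(2, E), g ∈ (TE w).U ↔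
    (ProjGenLinGroup.map ((s : E ≃+* E) : E →+* E) g : PGL(2, E)) ∈ (TE (placePerm s w)).U
  levE : LevIn SE w0 TE
  levF : LevIn SF v0 TF
  indexE : ∀ w ∈ SE, ((TE w).U.subgroupOf (TE w).H).index ≠ 0
  indexF : ∀ v ∈ SF, ((TF v).U.subgroupOf (TF v).H).index ≠ 0
  dualE : ∀ w ∈ SE, ∀ t : E, (∀ b ∈ (TE w).B, H7.Z.psi w ((t - 1) * b) = 1) → t - 1 ∈ (TE w).A
  dualF : ∀ v ∈ SF, ∀ t : F, (∀ b ∈ (TF v).B, H7.Z.psi v ((t - 1) * b) = 1) → t - 1 ∈ (TF v).A
  lowF : ∀ v ∈ SF, (∀ b : F, (∀ r : F, v.valuation F r ≤ 1 → H7.Z.psi v (b * r) = 1) →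
    b ∈ (TF v).B) ∧ ∃ k : ℕ, ∀ c : F, v.valuation F c ≤ exp (-(k : ℤ)) → c ∈ (TF v).C

theorem bm_zero_eq_dM {K : Type*} [Field K] (t : Kˣ) : H51Z.bm t 0 = dM t := by
  ext i j
  fin_cases i <;> fin_cases j <;> rfl

theorem d_mem_U {K : Type*} [Field K] (T : TD K) {t : Kˣ} (ht : (t : K) - 1 ∈ T.A) :
    (H7.Z.borP K).d t ∈ T.U := by
  rw [H7.Z.borP_d, bm_zero_eq_dM]
  exact ⟨⟨_, T.dM_mem ht, rfl⟩, T.chi_dM⟩

namespace CIn

variable {F E : Type} [Field F] [NumberField F] [Field E] [NumberField E] [Algebra F E]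
  (C : CIn F E)

/-- the model of `E` -/
def mE : Model E (Fin 3) :=
  haveI := C.gal; haveI := C.cF; haveI := C.cE
  modelE C.h2 C.h3 C.e₀ C.s C.hs (lev C.levE)

/-- the model of `F` -/
def mF : Model F (Fin 1) :=
  haveI := C.cF; haveI := C.cE; haveI := C.gal
  modelF C.h2 C.e₀ (lev C.levF)

theorem sigma_w0 : placePerm C.s C.w0 = C.w0 := by
  haveI := C.gal
  have h : C.w0 ∈ H82.above E C.v0 := by rw [C.above_v0]; rfl
  have h1 := (placePerm_mem_above C.s).2 h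
  rw [C.above_v0] at h1
  exact h1

theorem sigma_mem (w : HeightOneSpectrum (𝓞 E)) : placePerm C.s w ∈ C.SE ↔ w ∈ C.SE := by
  rw [C.mem_SE, C.mem_SE, below_placePerm]

/-- the automorphism of the model of `E` -/
def aE : AutData C.mE :=
  haveI := C.gal; haveI := C.cF; haveI := C.cE
  autE C.h2 C.h3 C.e₀ C.s C.hs (lev C.levE)
    (lev_stable C.levE (C.s : E ≃+* E) (placePerm C.s) (placePerm_val C.s) C.sigma_mem
      C.sigma_w0 C.TE_U)

/-- The setup, given the local kernels. -/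
def csetup (kE : H79S.KerData C.mE C.SE C.w0 C.TE) (kF : H79S.KerData C.mF C.SF C.v0 C.TF) :
    H79S.CSetup F E where
  h2 := C.h2
  h3 := C.h3
  gal := C.gal
  s := C.s
  hs := C.hs
  mE := C.mE
  aE := C.aE
  mF := C.mF
  s_eq _ := rfl
  c_eq := rfl
  e_alg j x := embE_algebraMap C.e₀ C.s j x
  SF := C.SF
  SE := C.SE
  mem_SE := C.mem_SE
  v0 := C.v0
  w0 := C.w0
  v0S := C.levF.w0S
  above_v0 := C.above_v0
  unr := C.unr
  unramE := C.unramE
  unramF := C.unramF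
  TE := C.TE
  TF := C.TF
  psiE := C.psiE
  psiF := C.psiF
  TE_s := C.TE_s
  dualE w hw a ha := by
    show (H7.Z.borP E).d a ∈ (lev C.levE).U w
    rw [lev_S C.levE hw]
    exact d_mem_U _ (C.dualE w hw a ha)
  dualF v hv a ha := by
    show (H7.Z.borP F).d a ∈ (lev C.levF).U v
    rw [lev_S C.levF hv]
    exact d_mem_U _ (C.dualF v hv a ha)
  lowF := C.lowF
  kE := kE
  kF := kF

end CIn

end Fermat.Agent.H83Z
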