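import Mathlib
import Fermat.Agent.H83ZInst3
import Fermat.Agent.H36Psi
import Fermat.Agent.H46ZBlocks
import Fermat.Agent.H30G4

/-!
# S47, block (C): construction of the concrete models, part 4: the places

* `exists_N2` : an integer divisible by all bad places;
* `exists_v0` : the auxiliary places;
* number fields `M` with `IsCyclotomicExtension {3} ℚ M`.
-/

set_option autoImplicit false
set_option linter.unusedSectionVars false
set_option linter.unusedVariables false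

noncomputable section

open IsDedekindDomain HeightOneSpectrum WithZero NumberField Matrix
open scoped MatrixGroups Pointwise

namespace Fermat.Agent.H83Z

open Fermat.Agent.H59D Fermat.Agent.H76U
open Fermat.Agent.H46Z (divs mem_divs InertEx)

section General

variable {K : Type*} [Field K] [NumberField K]

theorem finite_dvd_of_ne_zero {a : 𝓞 K} (ha : a ≠ 0) :
    {w : HeightOneSpectrum (𝓞 K) | a ∈ w.asIdeal}.Finite := by
  have h0 : (Ideal.span {a}) ≠ 0 := by
    rwa [Ne, Ideal.zero_eq_bot, Ideal.span_singleton_eq_bot]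
  refine (Ideal.finite_factors h0).subset ?_
  intro v hv
  show v.asIdeal ∣ _
  rw [Ideal.dvd_span_singleton]
  exact hv

/-- An integer lying in finitely many given places. -/
theorem exists_nat_mem {P : Set (HeightOneSpectrum (𝓞 K))} (hP : P.Finite) :
    ∃ N : ℕ, N ≠ 0 ∧ ∀ w ∈ P, (N : 𝓞 K) ∈ w.asIdeal := by
  classical
  refine ⟨∏ w ∈ hP.toFinset, Ideal.absNorm w.asIdeal, ?_, ?_⟩
  · rw [Finset.prod_ne_zero_iff]
    intro w _ h
    exact w.ne_bot (Ideal.absNorm_eq_zero_iff.1 h)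
  · intro w hw
    have hw' : w ∈ hP.toFinset := hP.mem_toFinset.2 hw
    rw [← Finset.mul_prod_erase _ _ hw', Nat.cast_mul]
    exact Ideal.mul_mem_right _ _ (Ideal.absNorm_mem _)

theorem natCast_mem_of_dvd {w : HeightOneSpectrum (𝓞 K)} {a b : ℕ} (h : a ∣ b)
    (ha : (a : 𝓞 K) ∈ w.asIdeal) : (b : 𝓞 K) ∈ w.asIdeal := by
  obtain ⟨c, rfl⟩ := h
  rw [Nat.cast_mul]
  exact Ideal.mul_mem_right _ _ ha

/-- `v(n) = 1` iff `n ∉ v`. -/
theorem val_natCast_eq_one {w : HeightOneSpectrum (𝓞 K)} {n : ℕ} (h : (n : 𝓞 K) ∉ w.asIdeal) :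
    w.valuation K (n : K) = 1 := by
  have h0 : w.valuation K (((n : 𝓞 K) : K)) = w.intValuation (n : 𝓞 K) :=
    HeightOneSpectrum.valuation_of_algebraMap _ _
  have h1 : (((n : 𝓞 K) : K)) = (n : K) := by simp
  rw [h1] at h0
  rw [h0]
  refine le_antisymm (w.intValuation_le_one _) ?_
  rw [← not_lt, HeightOneSpectrum.intValuation_lt_one_iff_mem]
  exact h

end General

section Rel

variable {F E : Type*} [Field F] [NumberField F] [Field E] [NumberField E] [Algebra F E]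

theorem natCast_mem_below {w : HeightOneSpectrum (𝓞 E)} {n : ℕ} :
    (n : 𝓞 F) ∈ (H47.below F w).asIdeal ↔ (n : 𝓞 E) ∈ w.asIdeal := by
  change algebraMap (𝓞 F) (𝓞 E) (n : 𝓞 F) ∈ w.asIdeal ↔ _
  rw [map_natCast]

theorem mem_divs_below {n : ℕ} (hn : n ≠ 0) (w : HeightOneSpectrum (𝓞 E)) :
    w ∈ divs E n ↔ H47.below F w ∈ divs F n := by
  rw [mem_divs hn, mem_divs hn, natCast_mem_below]

/-- Almost all places have trivial inertia. -/
theorem finite_not_trivIn [IsGalois F E] :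
    {w : HeightOneSpectrum (𝓞 E) | ¬ H30G.TrivIn F w}.Finite := by
  classical
  have hfd : FiniteDimensional F E := Module.Finite.of_restrictScalars_finite ℚ F E
  have : Finite (E ≃ₐ[F] E) := inferInstance
  -- an element moved by `σ`
  have hmove : ∀ σ : E ≃ₐ[F] E, σ ≠ 1 → ∃ x : 𝓞 E, σ • x - x ≠ 0 := by
    intro σ hσ
    by_contra hcon
    push Not at hcon
    apply hσ
    ext y
    obtain ⟨a, b, hb, rfl⟩ := IsFractionRing.div_surjective (A := 𝓞 E) y
    have h1 : ∀ a : 𝓞 E, σ (algebraMap (𝓞 E) E a) = algebraMap (𝓞 E) E a := by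
      intro a
      have := hcon a
      rw [sub_eq_zero] at this
      show algebraMap (𝓞 E) E (σ • a) = _
      rw [this]
    rw [map_div₀, h1, h1]
    rfl
  choose f hf using fun σ : {σ : E ≃ₐ[F] E // σ ≠ 1} => hmove σ.1 σ.2
  have hfin : (⋃ σ : {σ : E ≃ₐ[F] E // σ ≠ 1},
      {w : HeightOneSpectrum (𝓞 E) | σ.1 • f σ - f σ ∈ w.asIdeal}).Finite :=
    Set.finite_iUnion fun σ => finite_dvd_of_ne_zero (hf σ)
  refine hfin.subset ?_
  intro w hw
  have hw' : ¬ ∀ σ : E ≃ₐ[F] E, (∀ x : 𝓞 E, σ • x - x ∈ w.asIdeal) → σ = 1 := hw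
  push Not at hw'
  obtain ⟨σ, h1, h2⟩ := hw'
  exact Set.mem_iUnion.2 ⟨⟨σ, h2⟩, h1 _⟩

/-- **The bad integer.** -/
theorem exists_N2 [IsGalois F E] : ∃ N₂ : ℕ, N₂ ≠ 0 ∧ 6 ∣ N₂ ∧ ∀ N₀ : ℕ, N₀ ≠ 0 → N₂ ∣ N₀ →
    (∀ v ∉ divs F N₀, ∀ w ∈ H82.above E v, v.asIdeal.ramificationIdx' w.asIdeal = 1) ∧
    (∀ w ∉ divs E N₀, H7.Z.Unram w) ∧ (∀ v ∉ divs F N₀, H7.Z.Unram v) ∧
    (∀ v ∉ divs F N₀, v.valuation F (3 : F) = 1) := by
  obtain ⟨n1, hn1, h1⟩ := exists_nat_mem (finite_not_trivIn (F := F) (E := E))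
  obtain ⟨n2, hn2, h2⟩ := exists_nat_mem (H36.Psi.finite_not_unram (K := E))
  obtain ⟨n3, hn3, h3⟩ := exists_nat_mem (H36.Psi.finite_not_unram (K := F))
  refine ⟨6 * (n1 * (n2 * n3)), by positivity, Dvd.intro _ rfl, fun N₀ hN hd => ⟨?_, ?_, ?_, ?_⟩⟩
  · intro v hv w hw
    refine H30G.TrivIn.ramificationIdx' hw ?_
    by_contra hcon
    have h4 : (N₀ : 𝓞 E) ∈ w.asIdeal :=
      natCast_mem_of_dvd (dvd_trans ⟨6 * (n2 * n3), by ring⟩ hd) (h1 w hcon)
    apply hv
    rw [mem_divs hN, H47.eq_below_of_mem_above hw, natCast_mem_below]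
    exact h4
  · intro w hw
    by_contra hcon
    apply hw
    rw [mem_divs hN]
    exact natCast_mem_of_dvd (dvd_trans ⟨6 * (n1 * n3), by ring⟩ hd) (h2 w hcon)
  · intro w hw
    by_contra hcon
    apply hw
    rw [mem_divs hN]
    exact natCast_mem_of_dvd (dvd_trans ⟨6 * (n1 * n2), by ring⟩ hd) (h3 w hcon)
  · intro v hv
    have h5 : ((3 : ℕ) : 𝓞 F) ∉ v.asIdeal := by
      intro h
      apply hv
      rw [mem_divs hN]
      exact natCast_mem_of_dvd (dvd_trans ⟨2 * (n1 * (n2 * n3)), by ring⟩ hd) h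
    have := val_natCast_eq_one h5
    simpa using this

/-- The auxiliary places. -/
theorem exists_v0 (hI : InertEx F E) {N₀ : ℕ} (hN : N₀ ≠ 0) :
    ∃ (v0 : HeightOneSpectrum (𝓞 F)) (w0 : HeightOneSpectrum (𝓞 E)),
      v0 ∉ divs F N₀ ∧ w0 ∉ divs E N₀ ∧ H82.above E v0 = {w0} := by
  obtain ⟨v0, h1, h2, -⟩ := hI N₀ (Nat.pos_of_ne_zero hN)
  obtain ⟨w0, hw0⟩ := Set.ncard_eq_one.1 h2
  have hv : v0 ∉ divs F N₀ := by rw [mem_divs hN]; exact h1
  refine ⟨v0, w0, hv, ?_, hw0⟩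
  have hw : w0 ∈ H82.above E v0 := by rw [hw0]; rfl
  rw [mem_divs_below (F := F) hN, ← H47.eq_below_of_mem_above hw]
  exact hv

end Rel

/-! ## `M = ℚ(√-3)` -/

section Cyclo

variable {M : Type*} [Field M] [NumberField M] [IsCyclotomicExtension {3} ℚ M]

theorem finrank_two : Module.finrank ℚ M = 2 := by
  rw [IsCyclotomicExtension.Rat.finrank 3 M]
  rfl

theorem totallyComplex_M : IsTotallyComplex M where
  isComplex w := by
    rw [← InfinitePlace.not_isReal_iff_isComplex]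
    intro hr
    obtain ⟨z, -, hz, -⟩ := exists_om (F := M) w.embedding
    have h1 : ComplexEmbedding.IsReal w.embedding := InfinitePlace.isReal_iff.1 hr
    have h2 := congrArg (fun f : M →+* ℂ => f z) h1
    simp only [ComplexEmbedding.conjugate_coe_eq] at h2
    rw [hz] at h2
    have h3 : S47T.om.im = 0 := Complex.conj_eq_iff_im.1 h2
    exact S47T.om_im_ne h3

end Cyclo

end Fermat.Agent.H83Z
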