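import Fermat.Agent.H59K4
import Fermat.Agent.H83ZInst4
import Fermat.Agent.H83ZEis2
import Fermat.Agent.H82GlobIndex

/-!
# The aleph operator, part 5: the auxiliary prime `p ≡ -1` (helper59)

* `PW C a` : a prime `p`, the place `v` of `F` and the three places `w j` of `E` above it;
* `exists_pw` : existence, from `H46Z.NE`.
-/

set_option autoImplicit false
set_option linter.unusedSectionVars false

noncomputable section

open IsDedekindDomain HeightOneSpectrum WithZero NumberField Matrix MeasureTheory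
open scoped MatrixGroups

namespace Fermat.Agent.H59K

open Fermat.Agent.H59XF Fermat.Agent.H51Z Fermat.Agent.H59D Fermat.Agent.H79S Fermat.Agent.H76U

section General

variable {K : Type*} [Field K] [NumberField K]

theorem natCast_not_mem_of {u : HeightOneSpectrum (𝓞 K)} {p n : ℕ} (hp : p.Prime)
    (hpn : ¬ p ∣ n) (hn : (n : 𝓞 K) ∈ u.asIdeal) : (p : 𝓞 K) ∉ u.asIdeal := by
  intro h
  have hcop : IsCoprime (p : ℤ) (n : ℤ) :=
    Nat.isCoprime_iff_coprime.2 ((Nat.Prime.coprime_iff_not_dvd hp).2 hpn)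
  obtain ⟨a, b, hab⟩ := hcop
  have h1 : ((a * p + b * n : ℤ) : 𝓞 K) ∈ u.asIdeal := by
    push_cast
    exact Ideal.add_mem _ (Ideal.mul_mem_left _ _ h) (Ideal.mul_mem_left _ _ hn)
  rw [hab, Int.cast_one] at h1
  exact u.isPrime.ne_top ((Ideal.eq_top_iff_one _).2 h1)

theorem val_coe_le {u : HeightOneSpectrum (𝓞 K)} {x : 𝓞 K} {k : ℕ} (h : x ∈ u.asIdeal ^ k) :
    u.valuation K (x : K) ≤ exp (-(k : ℤ)) := by
  rw [HeightOneSpectrum.valuation_of_algebraMap, HeightOneSpectrum.intValuation_le_pow_iff_mem]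
  exact h

/-- `-p` is a unit close to `1` at the places not above `p`. -/
theorem far_aux {J : Type*} [Fintype J] {m : Model K J} {P : Set (HeightOneSpectrum (𝓞 K))}
    (hP : ∀ u ∉ P, m.L.U u = H59D.U0 u) {N k p : ℕ} (hN : ∀ u ∈ P, (N : 𝓞 K) ∈ u.asIdeal)
    (hk : ∀ u ∈ P, Gam u k ≤ m.L.U u) (hp : N ^ k ∣ p + 1) {a : K} (ha : a = -(p : K))
    {u : HeightOneSpectrum (𝓞 K)} (hu : (p : 𝓞 K) ∉ u.asIdeal) :
    u.valuation K a = 1 ∧ ∃ n : ℕ, Gam u n ≤ m.L.U u ∧
      u.valuation K (a - 1) ≤ exp (-(n : ℤ)) := by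
  subst ha
  have e1 : u.valuation K (-(p : K)) = 1 := by
    rw [Valuation.map_neg]
    exact H83Z.val_natCast_eq_one hu
  have e2 : u.valuation K (-(p : K) - 1) = u.valuation K (((p + 1 : ℕ) : 𝓞 K) : K) := by
    have : -(p : K) - 1 = -(((p + 1 : ℕ) : 𝓞 K) : K) := by
      push_cast
      ring
    rw [this, Valuation.map_neg]
  refine ⟨e1, ?_⟩
  by_cases h : u ∈ P
  · refine ⟨k, hk u h, ?_⟩
    rw [e2]
    apply val_coe_le
    obtain ⟨c, hc⟩ := hp
    rw [hc]
    push_cast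
    exact Ideal.mul_mem_right _ _ (Ideal.pow_mem_pow (hN u h) k)
  · refine ⟨0, ?_, ?_⟩
    · rw [hP u h]
      exact Gam_le u 0
    · rw [e2]
      exact val_coe_le (by simp)

theorem exists_depth {J : Type*} [Fintype J] (m : Model K J)
    {P : Set (HeightOneSpectrum (𝓞 K))} (hP : P.Finite) :
    ∃ k₀ : ℕ, ∀ k ≥ k₀, ∀ u ∈ P, Gam u k ≤ m.L.U u := by
  choose f hf using m.L.isOpen
  refine ⟨hP.toFinset.sup f, fun k hk u hu => ?_⟩
  refine (Gam_antitone u ((Finset.le_sup (f := f) (hP.mem_toFinset.2 hu)).trans hk)).trans (hf u)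

end General

variable {F E : Type} [Field F] [NumberField F] [Field E] [NumberField E] [Algebra F E]

/-- The auxiliary prime `p ≡ -1` and the places above it. -/
structure PW (C : CSetup F E) (a : HeightOneSpectrum (𝓞 E) → ℝ) where
  p : ℕ
  prime : p.Prime
  w : Fin 3 → HeightOneSpectrum (𝓞 E)
  v : HeightOneSpectrum (𝓞 F)
  w_inj : Function.Injective w
  w_σ : ∀ j, w (j + 1) = C.aE.σ (w j)
  w_below : ∀ j, H47.below F (w j) = v
  w_SE : ∀ j, w j ∉ C.SE
  w_ne : ∀ j, w j ≠ C.w0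
  v_SF : v ∉ C.SF
  v_ne : v ≠ C.v0
  ok : ∀ j, C.Ok (w j)
  nE : ∀ j, Ideal.absNorm (w j).asIdeal = p ^ 2
  nF : Ideal.absNorm v.asIdeal = p ^ 2
  uE : Eˣ
  uE_eq : (uE : E) = -(p : E)
  uF : Fˣ
  uF_eq : (uF : F) = -(p : F)
  valE : ∀ j, (w j).valuation E (uE : E) = exp (-(1 : ℤ))
  valF : v.valuation F (uF : F) = exp (-(1 : ℤ))
  farE : ∀ u, (∀ j, w j ≠ u) → u.valuation E (uE : E) = 1 ∧ ∃ n : ℕ,
    Gam u n ≤ C.mE.L.U u ∧ u.valuation E ((uE : E) - 1) ≤ exp (-(n : ℤ))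
  farF : ∀ u, v ≠ u → u.valuation F (uF : F) = 1 ∧ ∃ n : ℕ,
    Gam u n ≤ C.mF.L.U u ∧ u.valuation F ((uF : F) - 1) ≤ exp (-(n : ℤ))
  az : ∀ j, a (w j) = 0

/-- **Existence of the auxiliary prime.** -/
theorem exists_pw [IsCyclotomicExtension {3} ℚ F] (C : CSetup F E)
    {a : HeightOneSpectrum (𝓞 E) → ℝ} (hNE : H46Z.NE E a) : Nonempty (PW C a) := by
  classical
  have := C.gal
  -- the bad sets
  set PE : Set (HeightOneSpectrum (𝓞 E)) := insert C.w0 (C.SE : Set _) with hPE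
  set PF : Set (HeightOneSpectrum (𝓞 F)) := insert C.v0 (C.SF : Set _) with hPF
  have hfE : PE.Finite := C.SE.finite_toSet.insert _
  have hfF : PF.Finite := C.SF.finite_toSet.insert _
  have hUE : ∀ u ∉ PE, C.mE.L.U u = H59D.U0 u := fun u hu =>
    C.kE.lev_good u (fun h => hu (Set.mem_insert_of_mem _ h)) fun h => hu (h ▸ Set.mem_insert _ _)
  have hUF : ∀ u ∉ PF, C.mF.L.U u = H59D.U0 u := fun u hu =>
    C.kF.lev_good u (fun h => hu (Set.mem_insert_of_mem _ h)) fun h => hu (h ▸ Set.mem_insert _ _)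
  obtain ⟨nE, hnE, hE⟩ := H83Z.exists_nat_mem hfE
  obtain ⟨nF, hnF, hF⟩ := H83Z.exists_nat_mem hfF
  obtain ⟨kE, hkE⟩ := exists_depth C.mE hfE
  obtain ⟨kF, hkF⟩ := exists_depth C.mF hfF
  set N : ℕ := nE * nF with hN
  set k : ℕ := max kE kF + 1 with hk
  have hNE' : ∀ u ∈ PE, (N : 𝓞 E) ∈ u.asIdeal := fun u hu =>
    H83Z.natCast_mem_of_dvd (Dvd.intro _ rfl) (hE u hu)
  have hNF' : ∀ u ∈ PF, (N : 𝓞 F) ∈ u.asIdeal := fun u hu =>
    H83Z.natCast_mem_of_dvd (Dvd.intro_left _ rfl) (hF u hu)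
  have hN0 : N ≠ 0 := mul_ne_zero hnE hnF
  obtain ⟨p, hp, hpn, hp1, hp3, hcard, haz⟩ := hNE (N ^ k) (pow_pos (Nat.pos_of_ne_zero hN0) k)
  have hp0 : p ≠ 0 := hp.ne_zero
  have hpN : ¬ p ∣ N := fun h => hpn (dvd_pow h (by omega))
  have hdvd : N ^ k ∣ p + 1 := by
    rw [← ZMod.natCast_eq_zero_iff]
    push_cast
    rw [hp1, neg_add_cancel]
  -- the place of `F`
  have hpr : Prime (p : S47T.Eis) := H83Z.prime_of_inert hp hp3
  set v : HeightOneSpectrum (𝓞 F) := H83Z.placeOf (C.mF.e 0) (p : S47T.Eis) hpr with hv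
  have hvI' : v.asIdeal = Ideal.span {(H83Z.eisO (C.mF.e 0)).symm (p : S47T.Eis)} := rfl
  have hvI : v.asIdeal = Ideal.span {(p : 𝓞 F)} := by rw [hvI', map_natCast]
  have hmemv : ∀ u : HeightOneSpectrum (𝓞 F), (p : 𝓞 F) ∈ u.asIdeal ↔ u = v := by
    intro u
    constructor
    · intro h
      apply HeightOneSpectrum.ext
      have h1 : v.asIdeal ≤ u.asIdeal := by
        rw [hvI, Ideal.span_singleton_le_iff_mem]
        exact h
      exact (v.isMaximal.eq_of_le u.isPrime.ne_top h1).symm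
    · rintro rfl
      rw [hvI]
      exact Ideal.mem_span_singleton_self _
  have hpv : (p : 𝓞 F) ∈ v.asIdeal := (hmemv v).2 rfl
  have hvP : v ∉ PF := fun h => natCast_not_mem_of hp hpN (hNF' v h) hpv
  have hvSF : v ∉ C.SF := fun h => hvP (Set.mem_insert_of_mem _ h)
  have hvv0 : v ≠ C.v0 := fun h => hvP (h ▸ Set.mem_insert _ _)
  have hvalv : v.valuation F (p : F) = exp (-(1 : ℤ)) := by
    have h1 := H83Z.val_gen hpr hvI'
    rw [map_natCast] at h1
    simpa using h1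
  have hnv : Ideal.absNorm v.asIdeal = p ^ 2 := by
    rw [hvI, H82.absNorm_natCast, C.h2]
  -- the places of `E`
  have habove : ∀ u : HeightOneSpectrum (𝓞 E), (p : 𝓞 E) ∈ u.asIdeal ↔ u ∈ H82.above E v := by
    intro u
    rw [← H83Z.natCast_mem_below (F := F), hmemv, H25V.cs_mem_above]
  have hdiv : (H82.above E v) = (H46Z.divs E p : Set _) := by
    ext u
    rw [← habove, Finset.mem_coe, H46Z.mem_divs hp0]
  have hns : ¬ H82.NonSplit E v := by
    unfold H82.NonSplit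
    rw [hdiv, Set.ncard_coe_finset, hcard]
    norm_num
  obtain ⟨w₀, hw₀⟩ := H47.above_nonempty (L := E) v
  obtain ⟨n1, n2, n3⟩ := H83Z.ne_of_split C.h3 C.s C.hs hw₀ hns
  have hthree := H83Z.placePerm_three C.h3 C.s w₀
  simp only [← H25V.cs_sigma] at n1 n2 n3 hthree
  set w : Fin 3 → HeightOneSpectrum (𝓞 E) :=
    ![w₀, C.aE.σ w₀, C.aE.σ (C.aE.σ w₀)] with hw
  have hw0 : w 0 = w₀ := rfl
  have hw1 : w 1 = C.aE.σ w₀ := rfl
  have hw2 : w 2 = C.aE.σ (C.aE.σ w₀) := rfl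
  have hσ : ∀ j, w (j + 1) = C.aE.σ (w j) := by
    intro j
    fin_cases j
    · rfl
    · rfl
    · exact hthree.symm
  have hinj : Function.Injective w := by
    intro i j hij
    fin_cases i <;> fin_cases j
    · rfl
    · exact absurd hij.symm n1
    · exact absurd hij.symm n2
    · exact absurd hij n1
    · rfl
    · exact absurd hij.symm n3
    · exact absurd hij n2
    · exact absurd hij n3
    · rfl
  have hmem : ∀ u, u ∈ H82.above E v ↔ ∃ j, w j = u := by
    intro u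
    rw [H83Z.mem_above_iff_exists C.h3 C.s C.hs hw₀, ← H25V.cs_sigma, ← H25V.cs_sigma]
    constructor
    · rintro (rfl | rfl | rfl)
      · exact ⟨0, rfl⟩
      · exact ⟨1, rfl⟩
      · exact ⟨2, rfl⟩
    · rintro ⟨j, rfl⟩
      fin_cases j
      · left; rfl
      · right; left; rfl
      · right; right; rfl
  have hab : ∀ j, w j ∈ H82.above E v := fun j => (hmem _).2 ⟨j, rfl⟩
  have hbel : ∀ j, H47.below F (w j) = v := fun j => (H25V.cs_mem_above).1 (hab j)
  have hpw : ∀ j, (p : 𝓞 E) ∈ (w j).asIdeal := fun j => (habove _).2 (hab j)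
  have hwP : ∀ j, w j ∉ PE := fun j h => natCast_not_mem_of hp hpN (hNE' _ h) (hpw j)
  have hwSE : ∀ j, w j ∉ C.SE := fun j h => hwP j (Set.mem_insert_of_mem _ h)
  have hww0 : ∀ j, w j ≠ C.w0 := fun j h => hwP j (h ▸ Set.mem_insert _ _)
  have hvalw : ∀ j, (w j).valuation E (p : E) = exp (-(1 : ℤ)) := by
    intro j
    have h1 := H25V.cs_val C hvSF (hbel j) (p : F)
    rw [map_natCast, hvalv] at h1
    exact h1
  have hfarE : ∀ u, (∀ j, w j ≠ u) → (p : 𝓞 E) ∉ u.asIdeal := by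
    intro u hu h
    obtain ⟨j, hj⟩ := (hmem u).1 ((habove u).1 h)
    exact hu j hj
  -- the norms
  have hq : ∀ j, Ideal.absNorm (w j).asIdeal = Ideal.absNorm w₀.asIdeal := by
    have h1 : ∀ u, Ideal.absNorm (C.aE.σ u).asIdeal = Ideal.absNorm u.asIdeal := by
      intro u
      rw [H25V.cs_sigma]
      exact H30G.absNorm_smulPlace C.s u
    intro j
    fin_cases j
    · rfl
    · exact h1 _
    · exact (h1 _).trans (h1 _)
  have h6 : Module.finrank ℚ E = 6 := by
    have h1 := Module.finrank_mul_finrank ℚ F E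
    rw [C.h2, C.h3] at h1
    exact h1.symm
  have hnw : Ideal.absNorm w₀.asIdeal = p ^ 2 := by
    have h1 := H82.prod_absNorm (Finset.univ.image w) (r := (p : 𝓞 E)) (by exact_mod_cast hp0)
      (fun _ => 1) (fun u hu => ?_) fun u hu => ?_
    · rw [Finset.prod_image fun i _ j _ h => hinj h, H82.absNorm_natCast, h6] at h1
      simp only [pow_one, hq, Finset.prod_const, Finset.card_univ, Fintype.card_fin] at h1
      have h2 : Ideal.absNorm w₀.asIdeal ^ 3 = (p ^ 2) ^ 3 := by rw [h1, ← pow_mul]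
      exact Nat.pow_left_injective (by norm_num : (3 : ℕ) ≠ 0) h2
    · obtain ⟨j, -, rfl⟩ := Finset.mem_image.1 hu
      rw [map_natCast]
      exact hvalw j
    · rw [map_natCast]
      exact H83Z.val_natCast_eq_one (hfarE u fun j h => hu (Finset.mem_image.2 ⟨j,
        Finset.mem_univ _, h⟩))
  exact ⟨{
    p := p
    prime := hp
    w := w
    v := v
    w_inj := hinj
    w_σ := hσ
    w_below := hbel
    w_SE := hwSE
    w_ne := hww0
    v_SF := hvSF
    v_ne := hvv0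
    ok := fun j => ⟨hwSE j, by rw [hbel]; exact hns⟩
    nE := fun j => (hq j).trans hnw
    nF := hnv
    uE := Units.mk0 (-(p : E)) (neg_ne_zero.2 (by exact_mod_cast hp0))
    uE_eq := rfl
    uF := Units.mk0 (-(p : F)) (neg_ne_zero.2 (by exact_mod_cast hp0))
    uF_eq := rfl
    valE := fun j => by
      rw [Units.val_mk0, Valuation.map_neg]
      exact hvalw j
    valF := by
      rw [Units.val_mk0, Valuation.map_neg]
      exact hvalv
    farE := fun u hu => by
      rw [Units.val_mk0]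
      exact far_aux hUE hNE' (hkE k (by omega)) hdvd rfl (hfarE u hu)
    farF := fun u hu => by
      rw [Units.val_mk0]
      exact far_aux hUF hNF' (hkF k (by omega)) hdvd rfl fun h => hu ((hmemv u).1 h).symm
    az := fun j => haz _ ((H46Z.mem_divs hp0).2 (hpw j)) }⟩

end Fermat.Agent.H59K
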