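import Fermat.Agent.H79SDef

/-!
# S47, block (C): the output with the embedding (helper79)

`COutE K e' S v0 a` : as `COut`, with the embedding `m.e 0 = e'` fixed.
-/

set_option autoImplicit false

open IsDedekindDomain HeightOneSpectrum WithZero NumberField Matrix
open scoped MatrixGroups

namespace Fermat.Agent.H79S

open Fermat.Agent.H59XF Fermat.Agent.H59D Fermat.Agent.H76U

/-- The output of block (C), the input of C21, with the embedding fixed. -/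
def COutE (K : Type) [Field K] [NumberField K] (e' : K →+* ℂ)
    (S : Finset (HeightOneSpectrum (𝓞 K))) (v0 : HeightOneSpectrum (𝓞 K))
    (a : HeightOneSpectrum (𝓞 K) → ℝ) : Prop :=
  ∃ (m : Model K (Fin 1)) (T : HeightOneSpectrum (𝓞 K) → TD K) (Φ : m.X → ℂ),
    m.e 0 = e' ∧ v0 ∉ S ∧ (∀ v ∈ S, m.L.U v = (T v).U) ∧ m.L.U v0 = H83Z.Iw v0 ∧
    (∀ v ∉ S, v ≠ v0 → m.L.U v = H59D.U0 v) ∧ (∀ v ∉ S, H7.Z.Unram v) ∧
    (∀ v ∈ S, ∀ x, (T v).psi x = H7.Z.psi v x) ∧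
    (∀ v ∈ S, H7.Z.DualAt (H7.Z.borP K) m.L.fam v (T v).B) ∧
    (∀ v ∈ S, (∀ b : K, (∀ r : K, v.valuation K r ≤ 1 → H7.Z.psi v (b * r) = 1) →
      b ∈ (T v).B) ∧ ∃ k : ℕ, ∀ c : K, v.valuation K c ≤ exp (-(k : ℤ)) → c ∈ (T v).C) ∧
    IsMForm m S v0 T a Φ

theorem COutE.cOut {K : Type} [Field K] [NumberField K] {e' : K →+* ℂ}
    {S : Finset (HeightOneSpectrum (𝓞 K))} {v0 : HeightOneSpectrum (𝓞 K)}
    {a : HeightOneSpectrum (𝓞 K) → ℝ} (h : COutE K e' S v0 a) : COut K S v0 a := by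
  obtain ⟨m, T, Φ, -, h⟩ := h
  exact ⟨m, T, Φ, h⟩

end Fermat.Agent.H79S
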