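import Fermat.Agent.H79SFam
import Fermat.Agent.H79SOut
import Fermat.Agent.H46ZBlocks

/-!
# S47: block (C) from its parts (helper79)
-/

set_option autoImplicit false
set_option linter.unusedSectionVars false

noncomputable section

open IsDedekindDomain HeightOneSpectrum WithZero NumberField Matrix MeasureTheory
open scoped MatrixGroups

namespace Fermat.Agent.H79S

open Fermat.Agent.H59XF Fermat.Agent.H59D Fermat.Agent.H76U Fermat.Agent.S47T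
open Fermat.Agent.H46Z

/-- The setup exists. -/
def SetupEx : Prop :=
  ∀ (M E : Type) [Field M] [NumberField M] [IsCyclotomicExtension {3} ℚ M] [Field E]
    [NumberField E] [Algebra M E] [IsGalois M E] (_ : Module.finrank M E = 3)
    (e : E →+* ℂ) (_ : InertEx M E) (N₁ : ℕ) (_ : N₁ ≠ 0),
    ∃ N₀ : ℕ, N₀ ≠ 0 ∧ N₁ ∣ N₀ ∧ 6 ∣ N₀ ∧ ∀ k c₀ : ℕ, ∃ C : CSetup M E,
      C.mF.e 0 = e.comp (algebraMap M E) ∧ C.SF = divs M N₀ ∧ C.SE = divs E N₀ ∧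
      (∀ w ∈ C.SE, H55D.Adm w (C.TE w) k c₀) ∧ C.Geom

/-- The body of `DOut`, for given depths. -/
def DBody (E : Type) [Field E] [NumberField E] (S : Finset (HeightOneSpectrum (𝓞 E)))
    (a : HeightOneSpectrum (𝓞 E) → ℝ) (k c₀ : ℕ) : Prop :=
  ∀ (J : Type) [Fintype J] (m : Model E J)
    (T : HeightOneSpectrum (𝓞 E) → TD E) (Ty : ∀ w, Typ (m.L.fam.U w)),
    (∀ w ∈ S, H55D.Adm w (T w) k c₀) → (∀ w ∈ S, (Ty w).H = (T w).H) →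
    (∀ w ∈ S, ∀ g ∈ (T w).H, (Ty w).chi g = (T w).chi g) → (∀ w ∉ S, m.L.U w = U0 w) →
    ∃ Φ : m.X → ℂ, H55D.IsDForm m S Ty a Φ

theorem exists_dBody {E : Type} [Field E] [NumberField E]
    {S : Finset (HeightOneSpectrum (𝓞 E))} {a : HeightOneSpectrum (𝓞 E) → ℝ}
    (h : H55D.DOut E S a) : ∃ k c₀ : ℕ, DBody E S a k c₀ := h

/-- [TGT-A] -/
def TgtA : Prop :=
  ∀ (F E : Type) [Field F] [NumberField F] [Field E] [NumberField E] [Algebra F E]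
    (C : CSetup F E) (a : HeightOneSpectrum (𝓞 E) → ℝ) (k c₀ : ℕ),
    (∀ w ∈ C.SE, H55D.Adm w (C.TE w) k c₀) → DBody E C.SE a k c₀ → ∃ Φ : C.mE.X → ℂ, IsEForm C a Φ

/-- [CFAM] -/
def CFamEx : Prop :=
  ∀ (F E : Type) [Field F] [NumberField F] [IsCyclotomicExtension {3} ℚ F] [Field E]
    [NumberField E] [Algebra F E] (C : CSetup F E) (a : HeightOneSpectrum (𝓞 E) → ℝ),
    (∀ (s : E ≃ₐ[F] E) (w : HeightOneSpectrum (𝓞 E)), a (H47.smulPlace s w) = a w) →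
    NE E a → Nonempty (CFam C a)

/-- the comparison -/
def Compar : Prop :=
  ∀ (F E : Type) [Field F] [NumberField F] [Field E] [NumberField E] [Algebra F E]
    (C : CSetup F E) (a : HeightOneSpectrum (𝓞 E) → ℝ),
    (∀ (s : E ≃ₐ[F] E) (w : HeightOneSpectrum (𝓞 E)), a (H47.smulPlace s w) = a w) →
    |a C.w0| ≤ 2 → C.Geom → CFam C a → (∃ Φ : C.mE.X → ℂ, IsEForm C a Φ) →
    ∃ μ : HeightOneSpectrum (𝓞 F) → ℝ,
      (∀ v ∉ C.SF, ¬ H82.NonSplit E v → ∀ w ∈ H82.above E v, μ v = a w) ∧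
      COutE F (C.mF.e 0) C.SF C.v0 μ

/-- C21 -/
def IctOut : Prop :=
  ∀ (K : Type) [Field K] [NumberField K] [IsCyclotomicExtension {3} ℚ K] (e' : K →+* ℂ)
    (S : Finset (HeightOneSpectrum (𝓞 K))) (v0 : HeightOneSpectrum (𝓞 K))
    (a : HeightOneSpectrum (𝓞 K) → ℝ) (q : ℕ), q ≠ 0 → COutE K e' S v0 a →
    ∃ (N : ℕ) (c : Eis → ℝ) (F : H3 → ℂ), 3 ∣ N ∧ q ∣ N ∧ ICT N c F ∧
      (∀ v ∈ S, (N : 𝓞 K) ∈ v.asIdeal) ∧ (N : 𝓞 K) ∈ v0.asIdeal ∧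
      ∀ v : HeightOneSpectrum (𝓞 K), (N : 𝓞 K) ∉ v.asIdeal → ∀ ϖ : Eis,
        v.asIdeal = Ideal.span {(H83Z.eisO e').symm ϖ} → c ϖ = a v

theorem blockC_of (h1 : SetupEx) (h2 : TgtA) (h3 : CFamEx) (h4 : Compar) (h5 : IctOut) :
    BlockC := by
  intro M E _ _ _ _ _ _ _ hdeg e a ha2 ha hNE hI N₁ hN₁ hD
  obtain ⟨N₀, hN₀, hdvd, -, hC⟩ := h1 M E hdeg e hI N₁ hN₁
  obtain ⟨k, c₀, hB⟩ := exists_dBody (hD N₀ hN₀ hdvd)
  obtain ⟨C, he, hSF, hSE, hadm, hG⟩ := hC k c₀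
  rw [← hSE] at hB
  obtain ⟨Φ, hΦ⟩ := h2 M E C a k c₀ hadm hB
  obtain ⟨Fm⟩ := h3 M E C a ha hNE
  obtain ⟨μ, hμ, hout⟩ := h4 M E C a ha (ha2 _) hG Fm ⟨Φ, hΦ⟩
  rw [he] at hout
  obtain ⟨N, c, Fu, h3N, hqN, hict, hS, -, hc⟩ := h5 M _ _ _ _ N₀ hN₀ hout
  refine ⟨N, c, Fu, h3N, hdvd.trans hqN, hict, fun v hv hns w hw ϖ hϖ => ?_⟩
  rw [hc v hv ϖ hϖ]
  exact hμ v (fun hvS => hv (hS v hvS)) hns w hw

end Fermat.Agent.H79S
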