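import Fermat.Agent.H39ZInd
import Fermat.Agent.H5ZModel

/-!
# Constant terms of automorphic functions are killed by the aleph operator (helper39, S47 C5)

`AF m Φ`: `Φ : XF m.L.fam → (J → H3) → ℂ` invariant under the Borel subgroup, measurable and
locally bounded.  `ct0_C1`: the constant term of `C_1 Φ` vanishes.
-/

set_option autoImplicit false
set_option linter.unusedSectionVars false
set_option linter.style.haveILetI false

open IsDedekindDomain HeightOneSpectrum WithZero NumberField MeasureTheory Module Matrix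
open scoped MatrixGroups

noncomputable section

open scoped Classical

namespace Fermat.Agent.H39Z

open Fermat.Agent.H59XF Fermat.Agent.H59D Fermat.Agent.H12TW
open Fermat.Agent.H7.Z (borP Bor)
open Fermat.Agent.H51Z (lop gop gs gmul single gone mem_gs gop_def gop_gmul gop_single gop_gone)
open Fermat.Agent.H56Z (IsRC abel continuous_abel hasCompactSupport_abel hpt lh lh_hpt
  continuous_hpt Rk_height)
open Fermat.Agent.H5Z (Rk tr tr_tr emb emb_add)
open Fermat.Agent.H80Al (IsAleph)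

variable {K : Type*} [Field K] [NumberField K] {J : Type*} [Fintype J]

/-- Functions on the model invariant under the Borel subgroup. -/
structure AF (m : Model K J) (Φ : XF m.L.fam → (J → H3) → ℂ) : Prop where
  lb : ∀ y, LB (Φ y)
  n : ∀ (b : K) y x, Φ ((borP K).n b • y) (tr (emb m b) x) = Φ y x
  d : ∀ (a : Kˣ) y x, Φ ((borP K).d a • y) (H19W.dil m.e a x) = Φ y x

theorem AF.of_inv {m : Model K J} {Φ : m.X → ℂ} (h : ∀ (g : PGL(2, K)) p, Φ (g • p) = Φ p)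
    (hlb : ∀ y, LB fun x => Φ (x, y)) : AF m (fun y x => Φ (x, y)) where
  lb := hlb
  n b y x := H5Z.comp_n_smul m Φ h b x y
  d a y x := H5Z.comp_d_smul m Φ h a x y

variable {m : Model K J} {Φ : XF m.L.fam → (J → H3) → ℂ}

/-- periodicity -/
theorem AF.nper (h : AF m Φ) {ι : Type*} {b : Basis ι ℝ (J → ℂ)}
    (hb : ∀ v : J → ℂ, v ∈ Submodule.span ℤ (Set.range b) → ∃ x : 𝓞 K, v = emb m (x : K))
    {N : ℕ} {y : XF m.L.fam} (hN : ∀ x : 𝓞 K, (borP K).n (N * (x : K)) • y = y) (x : J → H3) :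
    NPer b N (fun z => Φ y (tr z x)) := by
  intro z v hv
  obtain ⟨t, rfl⟩ := hb v hv
  have h1 : (N : ℝ) • emb m (t : K) = emb m (N * (t : K)) := by
    funext j
    rw [Pi.smul_apply, H5Z.emb_apply, H5Z.emb_apply, map_mul, map_natCast, Complex.real_smul]
    simp
  have h2 := h.n (N * (t : K)) y (tr z x)
  rw [hN t, tr_tr] at h2
  simp only
  rw [h1, h2]

theorem AF.exists_hp (h : AF m Φ) {ι : Type*} {b : Basis ι ℝ (J → ℂ)}
    (hb : ∀ v : J → ℂ, v ∈ Submodule.span ℤ (Set.range b) → ∃ x : 𝓞 K, v = emb m (x : K))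
    (y : XF m.L.fam) : HP b (Φ y) := by
  obtain ⟨N, hN, h1⟩ := H5Z.exists_fix m y
  exact ⟨N, hN, fun x => h.nper hb h1 x⟩

/-- the constant term as a function of the log-heights -/
def ph (Φ : XF m.L.fam → (J → H3) → ℂ) (y : XF m.L.fam) (u : J → ℝ) : ℂ := ct0 (Φ y) (hpt u)

theorem AF.ct0_eq_ph (h : AF m Φ) {ι : Type*} [Fintype ι] {b : Basis ι ℝ (J → ℂ)}
    (hb : ∀ v : J → ℂ, v ∈ Submodule.span ℤ (Set.range b) → ∃ x : 𝓞 K, v = emb m (x : K))
    (y : XF m.L.fam) (x : J → H3) : ct0 (Φ y) x = ph Φ y (lh x) := by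
  have h1 : x = tr (fun j => (x j).z) (hpt (lh x)) := by
    funext j
    ext
    · simp [hpt, H5Z.tr_z]
    · simp only [H5Z.tr_y, hpt, lh]
      rw [Real.exp_log (x j).pos]
  conv_lhs => rw [h1]
  rw [ct0_tr (h.lb y) (h.exists_hp hb y)]
  rfl

/-- `n(b)`-invariance of the constant term -/
theorem AF.ph_n (h : AF m Φ) {ι : Type*} [Fintype ι] {b : Basis ι ℝ (J → ℂ)}
    (hb : ∀ v : J → ℂ, v ∈ Submodule.span ℤ (Set.range b) → ∃ x : 𝓞 K, v = emb m (x : K))
    (t : K) (y : XF m.L.fam) : ph Φ ((borP K).n t • y) = ph Φ y := by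
  funext u
  have h1 : Φ y = fun x => Φ ((borP K).n t • y) (tr (emb m t) x) := funext fun x => (h.n t y x).symm
  rw [ph, ph, h1, ct0_comp_tr (h.lb _) (h.exists_hp hb _)]

/-- the embedding of units -/
def embU (m : Model K J) (a : Kˣ) (j : J) : ℂˣ :=
  Units.map ((m.e j : K →+* ℂ) : K →* ℂ) a

@[simp] theorem embU_coe (m : Model K J) (a : Kˣ) (j : J) : (embU m a j : ℂ) = m.e j (a : K) := rfl

theorem dil_embU (m : Model K J) (a : Kˣ) (x : J → H3) :
    dil (embU m a) x = H19W.dil m.e a x := rfl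

/-- `d(a)`-invariance of the constant term -/
theorem AF.ph_d (h : AF m Φ) {ι : Type*} [Fintype ι] {b : Basis ι ℝ (J → ℂ)}
    (hb : ∀ v : J → ℂ, v ∈ Submodule.span ℤ (Set.range b) → ∃ x : 𝓞 K, v = emb m (x : K))
    (a : Kˣ) (y : XF m.L.fam) (u : J → ℝ) :
    ph Φ ((borP K).d a • y) (u + fun j => Real.log ‖m.e j (a : K)‖) = ph Φ y u := by
  have h1 : Φ y = fun x => Φ ((borP K).d a • y) (dil (embU m a) x) :=
    funext fun x => (h.d a y x).symm
  rw [ph, ph, h1, ct0_comp_dil (h.lb _) (h.exists_hp hb _)]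
  congr 1
  funext j
  have ha : 0 < ‖m.e j (a : K)‖ := norm_pos_iff.2 (by
    rw [Ne, map_eq_zero]; exact a.ne_zero)
  ext
  · simp [hpt, dil]
  · show Real.exp (u j + Real.log ‖m.e j (a : K)‖) = ‖m.e j (a : K)‖ * Real.exp (u j)
    rw [Real.exp_add, Real.exp_log ha, mul_comm]

theorem LB.mul_cont {X : Type*} [TopologicalSpace X] [MeasurableSpace X] [OpensMeasurableSpace X]
    {f g : X → ℂ} (hf : LB f) (hg : Continuous g) : LB fun x => g x * f x := by
  refine ⟨hg.measurable.mul hf.1, fun K hK => ?_⟩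
  obtain ⟨C, hC⟩ := hf.2 K hK
  obtain ⟨C', hC'⟩ := hK.exists_bound_of_continuousOn hg.continuousOn
  refine ⟨C' * C, fun x hx => ?_⟩
  rw [norm_mul]
  exact mul_le_mul (hC' x hx) (hC x hx) (norm_nonneg _) ((norm_nonneg _).trans (hC' x hx))

/-- the normalised constant term -/
def fh (Φ : XF m.L.fam → (J → H3) → ℂ) (y : XF m.L.fam) (u : J → ℝ) : ℂ :=
  (Real.exp (-∑ j, u j) : ℂ) * ph Φ y u

theorem AF.good (h : AF m Φ) {ι : Type*} [Fintype ι] {b : Basis ι ℝ (J → ℂ)}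
    (hb : ∀ v : J → ℂ, v ∈ Submodule.span ℤ (Set.range b) → ∃ x : 𝓞 K, v = emb m (x : K)) :
    Good (fh Φ) where
  ninv t y := by
    funext u
    show (Real.exp (-∑ j, u j) : ℂ) * ph Φ ((borP K).n t • y) u = _
    rw [h.ph_n hb t y]
    rfl
  lb y := by
    have h1 : LB (ph Φ y) := ((h.lb y).ct0 (h.exists_hp hb y)).comp continuous_hpt
    exact h1.mul_cont (by fun_prop)

/-! ### The fixed point relation -/

section fix

variable {ι κ : Type} [Fintype ι] [DecidableEq ι] [Fintype κ] [DecidableEq κ]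

theorem prod_xx (a : Kˣ) (sq : ι → ℂˣ) (Lv : κ → J → ℝ) :
    ∏ s, xx a sq Lv s = ((Multiplicative.ofAdd (∑ k, Lv k), fun _ : ι => a), ∏ i, sq i) := by
  rw [Fintype.prod_sum_type]
  simp only [xx, Sum.elim_inl, Sum.elim_inr]
  refine Prod.ext (Prod.ext ?_ ?_) ?_
  · rw [Prod.fst_mul, Prod.fst_mul, Prod.fst_prod, Prod.fst_prod, Prod.fst_prod, Prod.fst_prod]
    simp only [Finset.prod_const_one, one_mul]
    exact (ofAdd_sum _ _).symm
  · rw [Prod.fst_mul, Prod.snd_mul, Prod.fst_prod, Prod.fst_prod, Prod.snd_prod, Prod.snd_prod]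
    simp only [Finset.prod_const_one, mul_one]
    funext i
    rw [Finset.prod_apply, Finset.prod_eq_single i]
    · simp
    · intro j _ hj
      rw [Pi.mulSingle_eq_of_ne hj.symm]
    · intro h; exact absurd (Finset.mem_univ i) h
  · rw [Prod.snd_mul, Prod.snd_prod, Prod.snd_prod]
    simp

/-- all coordinates equal -/
theorem dW_const {L : Level (𝓞 K) K} (w : ι → HeightOneSpectrum (𝓞 K)) (a : Kˣ) {r : ℕ}
    (hr : ∀ i, (Finset.univ.filter fun i' => w i' = w i).card = r) (y : XF L.fam) :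
    dW w (fun _ => a) y = updW y (Finset.univ.image w) ((borP K).d (a ^ r)) := by
  apply XF.ext
  intro v
  rw [dW_apply, updW_apply]
  by_cases hv : v ∈ Finset.univ.image w
  · rw [if_pos hv]
    obtain ⟨i, -, rfl⟩ := Finset.mem_image.1 hv
    congr 2
    rw [dv, Finset.prod_ite, Finset.prod_const, Finset.prod_const_one, mul_one, hr i]
  · rw [if_neg hv, dv_of_notMem w _ fun i hi => hv (Finset.mem_image.2 ⟨i, Finset.mem_univ _, hi⟩),
      (borP K).d_one, one_smul]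

theorem val_pow_sub_one {v : HeightOneSpectrum (𝓞 K)} {a : K} (h1 : v.valuation K a = 1)
    {n : ℕ} (h2 : v.valuation K (a - 1) ≤ exp (-(n : ℤ))) (r : ℕ) :
    v.valuation K (a ^ r - 1) ≤ exp (-(n : ℤ)) := by
  induction r with
  | zero => simp
  | succ r ih =>
    have e : a ^ (r + 1) - 1 = (a ^ r - 1) * a + (a - 1) := by ring
    rw [e]
    refine (Valuation.map_add _ _ _).trans (max_le ?_ h2)
    rw [map_mul, h1, mul_one]
    exact ih

/-- **The fixed point relation.** -/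
theorem AF.fix (h : AF m Φ) {ι' : Type*} [Fintype ι'] {b : Basis ι' ℝ (J → ℂ)}
    (hb : ∀ v : J → ℂ, v ∈ Submodule.span ℤ (Set.range b) → ∃ x : 𝓞 K, v = emb m (x : K))
    {w : ι → HeightOneSpectrum (𝓞 K)} {a : Kˣ} {r : ℕ}
    (hr : ∀ i, (Finset.univ.filter fun i' => w i' = w i).card = r)
    (ha : ∀ v, (∀ i, w i ≠ v) → v.valuation K (a : K) = 1 ∧ ∃ n : ℕ, Gam v n ≤ m.L.U v ∧
      v.valuation K ((a : K) - 1) ≤ exp (-(n : ℤ)))
    (sq : ι → ℂˣ) {Lv : κ → J → ℝ}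
    (hL : ∀ j, ∑ k, Lv k j = Real.log ‖m.e j ((a ^ r : Kˣ) : K)‖)
    (hq : ∏ i, (sq i : ℂ) = ((∏ j, ‖m.e j ((a ^ r : Kˣ) : K)‖ : ℝ) : ℂ)) :
    trop (∏ s, xx a sq Lv s) (uc w (fh Φ)) = uc w (fh Φ) := by
  funext ω
  obtain ⟨u, y⟩ := ω
  rw [prod_xx]
  show ((∏ i, sq i : ℂˣ) : ℂ) * fh Φ (dW w (fun _ => a) y) (u + ∑ k, Lv k) = fh Φ y u
  have hg := h.good hb
  rw [dW_const w a hr, ← hg.ninv.d_smul y (Finset.univ.image w) (a ^ r) (fun v hv => ?_)]
  · have e1 : (u + ∑ k, Lv k) = u + fun j => Real.log ‖m.e j ((a ^ r : Kˣ) : K)‖ := by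
      funext j
      rw [Pi.add_apply, Pi.add_apply, Finset.sum_apply, hL]
    have e2 : Real.exp (-∑ j, (u + fun j => Real.log ‖m.e j ((a ^ r : Kˣ) : K)‖) j) =
        Real.exp (-∑ j, u j) * (∏ j, ‖m.e j ((a ^ r : Kˣ) : K)‖)⁻¹ := by
      simp only [Pi.add_apply, Finset.sum_add_distrib, neg_add, Real.exp_add]
      congr 1
      rw [Real.exp_neg, Real.exp_sum]
      congr 1
      refine Finset.prod_congr rfl fun j _ => ?_
      rw [Real.exp_log]
      exact norm_pos_iff.2 (by rw [Ne, map_eq_zero]; exact (a ^ r).ne_zero)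
    have hne : (∏ j, ‖m.e j ((a ^ r : Kˣ) : K)‖ : ℝ) ≠ 0 := Finset.prod_ne_zero_iff.2 fun j _ =>
      (norm_pos_iff.2 (by rw [Ne, map_eq_zero]; exact (a ^ r).ne_zero)).ne'
    rw [fh, e1, h.ph_d hb, e2, Units.coe_prod, hq, fh]
    push_cast
    rw [← mul_assoc]
    congr 1
    have hne' : (∏ j, (‖m.e j ((a ^ r : Kˣ) : K)‖ : ℂ)) ≠ 0 := by exact_mod_cast hne
    push_cast at hne'
    field_simp
  · have hv' : ∀ i, w i ≠ v := fun i hi => hv (Finset.mem_image.2 ⟨i, Finset.mem_univ _, hi⟩)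
    obtain ⟨h1, n, h2, h3⟩ := ha v hv'
    refine ⟨by rw [Units.val_pow_eq_pow_val, map_pow, h1, one_pow], n, h2, ?_⟩
    rw [Units.val_pow_eq_pow_val]
    exact val_pow_sub_one h1 h3 r

/-! ### The operator `C_1` -/

/-- The operator `C_1`. -/
def C1 (P : MvPolynomial (ι ⊕ κ) ℤ) (q : ι → ℕ) (hq : ∀ i, 0 < q i)
    (f : (ι → ℕ) → GlobKer m.L.fam) (kk : (κ → ℕ) → (J → ℝ) → ℂ)
    (Φ : XF m.L.fam → (J → H3) → ℂ) (y : XF m.L.fam) (x : J → H3) : ℂ :=
  ∑ n ∈ P.support, ((MvPolynomial.coeff n P : ℤ) : ℂ) * (nf q hq (fun i => n (Sum.inl i)) *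
    ∑ y' ∈ gs (f fun i => n (Sum.inl i)) y, (f fun i => n (Sum.inl i)).k y y' *
      Rk (kk fun k => n (Sum.inr k)) (Φ y') x)

theorem AF.hp_Rk (h : AF m Φ) {ι' : Type*} [Fintype ι'] {b : Basis ι' ℝ (J → ℂ)}
    (hb : ∀ v : J → ℂ, v ∈ Submodule.span ℤ (Set.range b) → ∃ x : 𝓞 K, v = emb m (x : K))
    {κ' : (J → ℝ) → ℂ} (y : XF m.L.fam) : HP b (Rk κ' (Φ y)) := (h.exists_hp hb y).Rk κ'

/-- the constant term of `R(κ) Φ` -/
theorem AF.ct0_Rk' (h : AF m Φ) {ι' : Type*} [Fintype ι'] {b : Basis ι' ℝ (J → ℂ)}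
    (hb : ∀ v : J → ℂ, v ∈ Submodule.span ℤ (Set.range b) → ∃ x : 𝓞 K, v = emb m (x : K))
    {κ' : (J → ℝ) → ℂ} (hκ : IsRC κ') (y : XF m.L.fam) (x : J → H3) :
    ct0 (Rk κ' (Φ y)) x = (Real.exp (∑ j, lh x j) : ℂ) * JJ (abel κ') (fh Φ) y (lh x) := by
  have hlb : LB (ph Φ y) := ((h.lb y).ct0 (h.exists_hp hb y)).comp continuous_hpt
  have e : ct0 (Φ y) = fun x => ph Φ y (lh x) := funext fun x => h.ct0_eq_ph hb y x
  rw [ct0_Rk (h.lb y) (h.exists_hp hb y) hκ, e, Rk_height hκ hlb.locallyIntegrable, JJ,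
    ← integral_const_mul]
  refine integral_congr_ae (Filter.Eventually.of_forall fun u => ?_)
  simp only [fh, Pi.add_apply, Finset.sum_add_distrib, neg_add, Real.exp_add]
  have e3 : Real.exp (∑ j, lh x j) * Real.exp (-∑ j, lh x j) = 1 := by
    rw [← Real.exp_add, add_neg_cancel, Real.exp_zero]
  have e4 : (Real.exp (∑ j, lh x j) : ℂ) * (Real.exp (-∑ j, lh x j) : ℂ) = 1 := by
    exact_mod_cast e3
  push_cast at e4 ⊢
  linear_combination (-(ph Φ y (lh x + u)) * Complex.exp (-∑ j, (u j : ℂ)) * abel κ' u) * e4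

/-- **The constant term of `C_1 Φ` vanishes.** -/
theorem AF.ct0_C1 (h : AF m Φ) {ι' : Type*} [Fintype ι'] {b : Basis ι' ℝ (J → ℂ)}
    (hb : ∀ v : J → ℂ, v ∈ Submodule.span ℤ (Set.range b) → ∃ x : 𝓞 K, v = emb m (x : K))
    {P : MvPolynomial (ι ⊕ κ) ℤ} (hP : IsAleph P)
    {w : ι → HeightOneSpectrum (𝓞 K)} {a : Kˣ} {q : ι → ℕ} {T : ∀ i, LocKer (m.L.fam.U (w i))}
    {f : (ι → ℕ) → GlobKer m.L.fam} (hD : FinData (J := J) w a q T f) {Lv : κ → J → ℝ}
    {kk : (κ → ℕ) → (J → ℝ) → ℂ} (hR : RadData Lv kk) {r : ℕ}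
    (hr : ∀ i, (Finset.univ.filter fun i' => w i' = w i).card = r)
    (ha : ∀ v, (∀ i, w i ≠ v) → v.valuation K (a : K) = 1 ∧ ∃ n : ℕ, Gam v n ≤ m.L.U v ∧
      v.valuation K ((a : K) - 1) ≤ exp (-(n : ℤ)))
    (hL : ∀ j, ∑ k, Lv k j = Real.log ‖m.e j ((a ^ r : Kˣ) : K)‖)
    (hq : ∏ i, (sqU q hD.qpos i : ℂ) = ((∏ j, ‖m.e j ((a ^ r : Kˣ) : K)‖ : ℝ) : ℂ))
    (y : XF m.L.fam) (x : J → H3) : ct0 (C1 P q hD.qpos f kk Φ y) x = 0 := by
  have hlbR : ∀ n y', LB (Rk (kk n) (Φ y')) := fun n y' => (h.lb y').Rk (hR.rc n)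
  have hpR : ∀ n y', HP b (Rk (kk n) (Φ y')) := fun n y' => (h.exists_hp hb y').Rk _
  unfold C1
  rw [ct0_sum P.support (fun n _ => ((LB.sum _ fun y' _ => (hlbR _ y').const_mul _).const_mul
    _).const_mul _) (fun n _ => ((HP.sum _ fun y' _ => (hpR _ y').const_mul _).const_mul
    _).const_mul _)]
  have h1 : ∀ n : ι ⊕ κ →₀ ℕ, ct0 (fun x => ((MvPolynomial.coeff n P : ℤ) : ℂ) *
      (nf q hD.qpos (fun i => n (Sum.inl i)) *
    ∑ y' ∈ gs (f fun i => n (Sum.inl i)) y, (f fun i => n (Sum.inl i)).k y y' *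
      Rk (kk fun k => n (Sum.inr k)) (Φ y') x)) x = (Real.exp (∑ j, lh x j) : ℂ) *
      (((MvPolynomial.coeff n P : ℤ) : ℂ) * (nf q hD.qpos (fun i => n (Sum.inl i)) *
        gop (f (fun i => n (Sum.inl i)))
        (JJ (abel (kk (fun k => n (Sum.inr k)))) (cu (uc w (fh Φ)))) y (lh x))) := by
    intro n
    rw [ct0_const_mul (b := b) ((LB.sum _ fun y' _ => (hlbR _ y').const_mul _).const_mul _)
      ((HP.sum _ fun y' _ => (hpR _ y').const_mul _).const_mul _),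
      ct0_const_mul (b := b) (LB.sum _ fun y' _ => (hlbR _ y').const_mul _)
      (HP.sum _ fun y' _ => (hpR _ y').const_mul _),
      ct0_sum (b := b) _ (fun y' _ => (hlbR _ y').const_mul _)
      (fun y' _ => (hpR _ y').const_mul _)]
    have h2 : ∀ y' : XF m.L.fam, ct0 (fun x => (f fun i => n (Sum.inl i)).k y y' *
        Rk (kk fun k => n (Sum.inr k)) (Φ y') x) x = (Real.exp (∑ j, lh x j) : ℂ) *
        ((f fun i => n (Sum.inl i)).k y y' *
          JJ (abel (kk (fun k => n (Sum.inr k)))) (fh Φ) y' (lh x)) := by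
      intro y'
      rw [ct0_const_mul (b := b) (hlbR _ y') (hpR _ y'), h.ct0_Rk' hb (hR.rc _)]
      ring
    simp only [h2]
    rw [gop_def, Finset.sum_apply, ← Finset.mul_sum]
    simp only [Pi.smul_apply, smul_eq_mul, cu_uc]
    ring
  rw [Finset.sum_congr rfl fun n _ => h1 n, ← Finset.mul_sum,
    sum_eq_zero hP hD hR (uc w (fh Φ)) (h.good hb) (h.fix hb hr ha _ hL hq) y (lh x), mul_zero]

end fix

end Fermat.Agent.H39Z
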