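import Fermat.Agent.H86B2
import Fermat.Agent.H17B1
import Fermat.Agent.H39ZFin

/-!
# From vanishing constant terms to bounded kernels on the model (helper86)

* `exists_fd`: a fundamental domain which computes the constant terms of invariant functions;
* `cuspAll_fk`: `H17S.C5 m s κ f` implies that all constant terms of the automorphic kernel of
  `R(a) C₁` vanish, `C₁ = fk m s κ f`;
* `bd_fk`: the automorphic kernel of `R(a)^k C₁` is bounded, `8 * card J ≤ k`;
* `ker_tn`, `ker_k1`: the class `H95S.Ker` for tensor products of Lipschitz functions.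
-/

set_option autoImplicit false
set_option linter.unusedSectionVars false

noncomputable section

open MeasureTheory NumberField Matrix
open scoped ComplexConjugate Real MatrixGroups

namespace Fermat.Agent.H86B

open Fermat.Agent.H3 Fermat.Agent.H95S Fermat.Agent.H59D Fermat.Agent.H59XF

variable {K : Type*} [Field K] [NumberField K] {J : Type*} [Fintype J] {m : Model K J}

/-! ### Constant terms -/

variable (m) in
/-- A fundamental domain which computes the constant terms at `η` of all invariant functions. -/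
theorem exists_fd (η : XF m.L.fam) : ∃ (P : Set (J → ℂ)) (δ : ℝ), MeasurableSet P ∧
    0 < volume P ∧ (∀ u ∈ P, ∀ j, ‖u j‖ ≤ δ) ∧ ∀ Φ : m.X → ℂ,
    (∀ (g : PGL(2, K)) x, Φ (g • x) = Φ x) → (∀ y, H39Z.LB fun v => Φ (v, y)) →
    (∀ x, H39Z.ct0 (fun v => Φ (v, η)) x = 0) → ∀ w : J → H3, ∫ u in P, Φ (tr u w, η) = 0 := by
  obtain ⟨N, hN, hfix⟩ := H5Z.exists_fix m η
  obtain ⟨n, b, hb⟩ := H5Z.exists_basis m
  have hb' : ∀ v : J → ℂ, v ∈ Submodule.span ℤ (Set.range b) →
      ∃ x : 𝓞 K, v = H5Z.emb m (x : K) := fun v hv => (hb v).1 hv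
  have hbd := ZSpan.fundamentalDomain_isBounded (H39Z.sb b hN)
  obtain ⟨δ, hδ⟩ := hbd.exists_norm_le
  refine ⟨ZSpan.fundamentalDomain (H39Z.sb b hN), δ,
    ZSpan.fundamentalDomain_measurableSet (H39Z.sb b hN),
    pos_iff_ne_zero.2 (ZSpan.measure_fundamentalDomain_ne_zero _),
    fun u hu j => (norm_le_pi_norm u j).trans (hδ u hu), fun Φ hΦ hlb h0 w => ?_⟩
  have hAF := H39Z.AF.of_inv hΦ hlb
  have h1 : H39Z.NPer b N (fun z => Φ (H5Z.tr z w, η)) := hAF.nper hb' hfix w
  have h2 := H39Z.ct0_eq (hlb η) hN h1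
  rw [h0 w] at h2
  exact (H39Z.lm_eq_zero_iff volume _ _).1 h2.symm

/-! ### Finite families -/

open Fermat.Agent.H59K (fk it IsReal)
open Fermat.Agent.H56Z (IsRC)

variable {I : Type*} {s : Finset I} {κ : I → (J → ℝ) → ℂ} {f : I → GlobKer m.L.fam}

theorem fk_eq_PK : fk m s κ f = PK m s (fun _ => 1) κ fun i => (f i).k := by
  funext x y
  simp only [fk, PK, one_mul]

theorem gmul_gone_k (a : GlobKer m.L.fam) (x z : XF m.L.fam) :
    (H51Z.gmul a H51Z.gone).k x z = a.k x z := by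
  rw [H51Z.gmul_k, finsum_eq_single _ z]
  · rw [H51Z.gone_k, if_pos rfl, mul_one]
  · intro y hy
    rw [H51Z.gone_k, if_neg hy, mul_zero]

/-- `C₁ * (a ⊗ 1) = R(a) C₁` -/
theorem comp_fk (hκ : ∀ i ∈ s, IsRC (κ i)) {a : (J → ℝ) → ℂ} (ha : IsRC a) :
    H17S.comp m.μ (fk m s κ f) (m.ker a (H51Z.gone : GlobKer m.L.fam).k) =
      fk m s (fun i => it a 1 (κ i)) f := by
  funext p r
  have h1 : H17S.comp m.μ (fk m s κ f) (m.ker a (H51Z.gone : GlobKer m.L.fam).k) p r =
      H17S.act m.μ (fun p q => ∑ i ∈ s, m.ker (κ i) (f i).k p q)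
        (fun q => m.ker a (H51Z.gone : GlobKer m.L.fam).k q r) p := rfl
  rw [h1, H17S.act_sum_left s (fun i hi => H17S.ck_ker (hκ i hi) (f i))
    ((H17S.ck_ker ha H51Z.gone).lb_left r)]
  refine Finset.sum_congr rfl fun i hi => ?_
  have h2 := congrFun (congrFun (H17S.comp_ker (m := m) (κ i) a (f i) H51Z.gone) p) r
  rw [H56Z.conv_comm] at h2
  refine h2.trans ?_
  unfold Model.ker
  rw [gmul_gone_k]
  rfl

/-- **Constant terms of the automorphic kernel.** -/
theorem cuspAll_fk (hκ : ∀ i ∈ s, IsRC (κ i)) {a : (J → ℝ) → ℂ} (ha : IsRC a)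
    (hC5 : H17S.C5 m s κ f) : CuspAll m (fk m s (fun i => it a 1 (κ i)) f) := by
  intro η
  obtain ⟨P, δ, hPm, hP0, hPδ, hP⟩ := exists_fd m η
  refine ⟨δ, fun x' => ⟨P, hPm, hP0, hPδ, ?_⟩⟩
  have hck : H17S.CK (H17S.coarse m) (fk m s (fun i => it a 1 (κ i)) f) :=
    H17S.ck_fk fun i hi => H59K.isRC_it ha (hκ i hi) 1
  have hl := H17S.ck_ker (m := m) ha (H51Z.gone : GlobKer m.L.fam)
  refine hP (fun x => H32Z.CutOff.autK PGL(2, K) (fk m s (fun i => it a 1 (κ i)) f) x x')
    (fun g x => H32Z.CutOff.autK_smul_left hck.inv x x' g) (hck.lb_autK x').flb ?_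
  intro x
  have hlb := hl.lb_autK x'
  have h1 := hC5 (fun q => H32Z.CutOff.autK PGL(2, K)
    (m.ker a (H51Z.gone : GlobKer m.L.fam).k) q x')
    (fun g q => H32Z.CutOff.autK_smul_left hl.inv q x' g) hlb.flb η x
  rw [← h1, ← H17S.act_fk hκ hlb]
  congr 1
  funext v
  rw [← comp_fk hκ ha]
  exact H17S.autK_comp_right (H17S.ck_fk hκ) hl _ _

/-- **Bounded kernel theorem** for the finite families of pure kernels, from `CuspAll`. -/
theorem bd_fk_of_cuspAll {a : (J → ℝ) → ℂ} {T L M : ℝ} (h : Ker a T L M) (ha : IsReal a)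
    (hκ : ∀ i ∈ s, IsRC (κ i)) (hκr : ∀ i ∈ s, IsReal (κ i))
    (hf : ∀ i ∈ s, ∀ x y, conj ((f i).k x y) = (f i).k y x)
    (h1 : CuspAll m (fk m s (fun i => it a 1 (κ i)) f)) {k : ℕ} (hk : 8 * Fintype.card J ≤ k) :
    H17S.Bd PGL(2, K) (fk m s (fun i => it a k (κ i)) f) := by
  rw [fk_eq_PK] at h1 ⊢
  exact bd_PK h ha hκ hκr (fun i _ => map_one _) (fun i _ g η ξ => (f i).k_smul g η ξ)
    (fun i _ η => H51Z.supp_finite (f i) η)
    (fun i _ => (H17S.exists_norm_k_le (f i)).imp fun B hB => hB.2)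
    (fun i hi η ξ => (hf i hi η ξ).symm) h1 hk

/-- **Bounded kernel theorem** for the finite families of pure kernels. -/
theorem bd_fk {a : (J → ℝ) → ℂ} {T L M : ℝ} (h : Ker a T L M) (ha : IsReal a)
    (hκ : ∀ i ∈ s, IsRC (κ i)) (hκr : ∀ i ∈ s, IsReal (κ i))
    (hf : ∀ i ∈ s, ∀ x y, conj ((f i).k x y) = (f i).k y x)
    (hC5 : H17S.C5 m s κ f) {k : ℕ} (hk : 8 * Fintype.card J ≤ k) :
    H17S.Bd PGL(2, K) (fk m s (fun i => it a k (κ i)) f) :=
  bd_fk_of_cuspAll h ha hκ hκr hf (cuspAll_fk hκ (isRC_of_ker h) hC5) hk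

/-! ### Lipschitz kernels -/

/-- One variable Lipschitz kernels. -/
structure Lip1 (a : ℝ → ℝ) (T L M : ℝ) : Prop where
  one_le : 1 ≤ T
  nonneg : 0 ≤ L
  zero : ∀ t, T < t → a t = 0
  lip : ∀ t t', |a t - a t'| ≤ L * |t - t'|
  bdd : ∀ t, |a t| ≤ M

theorem Lip1.isK1 {a : ℝ → ℝ} {T L M : ℝ} (h : Lip1 a T L M) : H59K.IsK1 a where
  cont := by
    have : LipschitzWith (Real.toNNReal L) a := LipschitzWith.of_dist_le_mul fun t t' => by
      rw [Real.dist_eq, Real.dist_eq, Real.coe_toNNReal _ h.nonneg]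
      exact h.lip t t'
    exact this.continuous
  bdd := ⟨M, h.bdd⟩
  supp := ⟨T, fun u hu => h.zero u hu⟩

theorem Lip1.of_lipschitz {a : ℝ → ℝ} (ha : H59K.IsK1 a) {C : NNReal} (hC : LipschitzWith C a) :
    ∃ T M : ℝ, Lip1 a T C M := by
  obtain ⟨M, hM⟩ := ha.bdd
  obtain ⟨T, hT⟩ := ha.supp
  refine ⟨max T 1, M, le_max_right _ _, C.2, fun t ht => hT t ((le_max_left _ _).trans_lt ht),
    fun t t' => ?_, hM⟩
  have h := hC.dist_le_mul t t'
  rwa [Real.dist_eq, Real.dist_eq] at h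

theorem abs_prod_sub_prod_le {ι : Type*} [DecidableEq ι] (s : Finset ι) (u v : ι → ℝ) {M : ℝ}
    (hM : 1 ≤ M) (hu : ∀ i, |u i| ≤ M) (hv : ∀ i, |v i| ≤ M) :
    |∏ i ∈ s, u i - ∏ i ∈ s, v i| ≤ M ^ s.card * ∑ i ∈ s, |u i - v i| := by
  induction s using Finset.induction_on with
  | empty => simp
  | insert i s hi ih =>
    rw [Finset.prod_insert hi, Finset.prod_insert hi, Finset.sum_insert hi,
      Finset.card_insert_of_notMem hi]
    have e : u i * ∏ i ∈ s, u i - v i * ∏ i ∈ s, v i =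
        (u i - v i) * ∏ i ∈ s, u i + v i * (∏ i ∈ s, u i - ∏ i ∈ s, v i) := by ring
    have h1 : |∏ i ∈ s, u i| ≤ M ^ s.card := by
      rw [Finset.abs_prod]
      exact (Finset.prod_le_prod (fun _ _ => abs_nonneg _) fun i _ => hu i).trans
        (by rw [Finset.prod_const])
    have hM0 : 0 ≤ M := by linarith
    have hMc : 0 ≤ M ^ s.card := by positivity
    have hS : 0 ≤ ∑ i ∈ s, |u i - v i| := Finset.sum_nonneg fun _ _ => abs_nonneg _
    rw [e]
    calc |(u i - v i) * ∏ i ∈ s, u i + v i * (∏ i ∈ s, u i - ∏ i ∈ s, v i)|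
        ≤ |u i - v i| * |∏ i ∈ s, u i| + |v i| * |∏ i ∈ s, u i - ∏ i ∈ s, v i| := by
          rw [← abs_mul, ← abs_mul]
          exact abs_add_le _ _
      _ ≤ |u i - v i| * M ^ s.card + M * (M ^ s.card * ∑ i ∈ s, |u i - v i|) :=
          add_le_add (mul_le_mul_of_nonneg_left h1 (abs_nonneg _))
            (mul_le_mul (hv i) ih (abs_nonneg _) hM0)
      _ ≤ M ^ (s.card + 1) * (|u i - v i| + ∑ i ∈ s, |u i - v i|) := by
          have h2 : |u i - v i| * M ^ s.card ≤ |u i - v i| * (M ^ s.card * M) := by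
            refine mul_le_mul_of_nonneg_left ?_ (abs_nonneg _)
            exact le_mul_of_one_le_right hMc hM
          rw [pow_succ]
          nlinarith

/-- Tensor products of Lipschitz kernels. -/
theorem ker_tn {a : ℝ → ℝ} {T L M : ℝ} (h : Lip1 a T L M) :
    ∃ M', Ker (H59K.tn fun _ : J => a) T
      ((max M 1) ^ Fintype.card J * L) M' := by
  classical
  have hM : 1 ≤ max M 1 := le_max_right _ _
  refine ⟨(max M 1) ^ Fintype.card J, h.one_le, mul_nonneg (by positivity) h.nonneg, ?_, ?_, ?_⟩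
  · rintro t ⟨j, hj⟩
    unfold H59K.tn
    rw [Finset.prod_eq_zero (Finset.mem_univ j) (h.zero _ hj), Complex.ofReal_zero]
  · intro t t'
    unfold H59K.tn
    rw [← Complex.ofReal_sub, Complex.norm_real, Real.norm_eq_abs]
    refine (abs_prod_sub_prod_le Finset.univ (fun j => a (t j)) (fun j => a (t' j)) hM
      (fun j => (h.bdd _).trans (le_max_left _ _)) fun j => (h.bdd _).trans (le_max_left _ _)).trans ?_
    rw [Finset.card_univ, mul_assoc]
    refine mul_le_mul_of_nonneg_left ?_ (pow_nonneg (zero_le_one.trans hM) _)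
    rw [Finset.mul_sum]
    exact Finset.sum_le_sum fun j _ => h.lip _ _
  · intro t
    unfold H59K.tn
    rw [Complex.norm_real, Real.norm_eq_abs, Finset.abs_prod]
    refine (Finset.prod_le_prod (g := fun _ => max M 1) (fun _ _ => abs_nonneg _)
      fun j _ => (h.bdd _).trans (le_max_left _ _)).trans ?_
    rw [Finset.prod_const, Finset.card_univ]

/-- One variable kernels. -/
theorem ker_k1 {a : ℝ → ℝ} {T L M : ℝ} (h : Lip1 a T L M) : Ker (H59K.k1 a) T L M where
  one_le := h.one_le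
  nonneg := h.nonneg
  zero t ht := by
    obtain ⟨j, hj⟩ := ht
    rw [Subsingleton.elim j 0] at hj
    unfold H59K.k1
    rw [h.zero _ hj, Complex.ofReal_zero]
  lip t t' := by
    unfold H59K.k1
    rw [← Complex.ofReal_sub, Complex.norm_real, Real.norm_eq_abs, Fin.sum_univ_one]
    exact h.lip _ _
  bdd t := by
    unfold H59K.k1
    rw [Complex.norm_real, Real.norm_eq_abs]
    exact h.bdd _

/-- The standard Lipschitz bump: `a t = max 0 (min 1 (R + 1 - t))`. -/
def bump (R : ℝ) (t : ℝ) : ℝ := max 0 (min 1 (R + 1 - t))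

theorem bump_nonneg (R t : ℝ) : 0 ≤ bump R t := le_max_left _ _

theorem bump_le_one (R t : ℝ) : bump R t ≤ 1 := max_le zero_le_one (min_le_left _ _)

theorem bump_eq_one {R t : ℝ} (h : t ≤ R) : bump R t = 1 := by
  unfold bump
  rw [min_eq_left (by linarith), max_eq_right zero_le_one]

theorem lip1_bump {R : ℝ} (hR : 0 ≤ R) : Lip1 (bump R) (R + 1) 1 1 where
  one_le := by linarith
  nonneg := zero_le_one
  zero t ht := by
    unfold bump
    rw [min_eq_right (by linarith), max_eq_left (by linarith)]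
  lip t t' := by
    unfold bump
    rw [one_mul]
    refine (abs_max_sub_max_le_max _ _ _ _).trans (max_le (by simp) ?_)
    refine (abs_min_sub_min_le_max _ _ _ _).trans (max_le (by simp) ?_)
    have e : R + 1 - t - (R + 1 - t') = -(t - t') := by ring
    rw [e, abs_neg]
  bdd t := by
    rw [abs_of_nonneg (bump_nonneg R t)]
    exact bump_le_one R t

end Fermat.Agent.H86B
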