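import Fermat.Agent.H17CFam
import Fermat.Agent.H17KK
import Fermat.Agent.H39ZC5
import Fermat.Agent.H59K5
import Fermat.Agent.H79SBlk
import Fermat.Agent.H86B3

/-!
# S47, block (C): `CFamEx` (helper17, CFAM-ASM)

The operator `C` exists: assembly of the auxiliary prime (helper59), the kernels (helper80), the
vanishing of the constant terms (helper39, 5, 75), the bounded kernel theorem (helper86, 95, 31) and
the boundedness of the form on `E`.
-/

set_option autoImplicit false
set_option linter.unusedSectionVars false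

noncomputable section

open MeasureTheory Set Filter WithZero
open scoped ENNReal ComplexConjugate MatrixGroups

namespace Fermat.Agent.H17S

open Fermat.Agent.H32Z Fermat.Agent.H59XF Fermat.Agent.H59D Fermat.Agent.H51Z Fermat.Agent.H56Z
  Fermat.Agent.H5Z Fermat.Agent.H59K Fermat.Agent.H67M
open IsDedekindDomain HeightOneSpectrum NumberField Fermat.Agent.H79S

section PD

variable {F E : Type} [Field F] [NumberField F] [Field E] [NumberField E] [Algebra F E]
  {C : CSetup F E} {a : HeightOneSpectrum (𝓞 E) → ℝ}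

theorem pdataE (P : PW C a) : H39Z.PData C.mE C.SE C.w0 P.w P.p where
  pos := P.prime.pos
  good i := ⟨P.w_SE i, P.w_ne i⟩
  nrm := P.nE
  val i := by
    have h := P.valE i
    rwa [P.uE_eq, Valuation.map_neg] at h
  out u hu := by
    obtain ⟨h1, n, h2, h3⟩ := P.farE u hu
    refine ⟨by rwa [P.uE_eq, Valuation.map_neg] at h1, n, h2, ?_⟩
    rw [P.uE_eq] at h3
    have e : -(P.p : E) - 1 = -((P.p : E) + 1) := by ring
    rwa [e, Valuation.map_neg] at h3

theorem pdataF (P : PW C a) : H39Z.PData C.mF C.SF C.v0 (fun _ => P.v) P.p where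
  pos := P.prime.pos
  good _ := ⟨P.v_SF, P.v_ne⟩
  nrm _ := P.nF
  val _ := by
    have h := P.valF
    rwa [P.uF_eq, Valuation.map_neg] at h
  out u hu := by
    obtain ⟨h1, n, h2, h3⟩ := P.farF u (hu 0)
    refine ⟨by rwa [P.uF_eq, Valuation.map_neg] at h1, n, h2, ?_⟩
    rw [P.uF_eq] at h3
    have e : -(P.p : F) - 1 = -((P.p : F) + 1) := by ring
    rwa [e, Valuation.map_neg] at h3

end PD

/-- **The operator `C` exists.** -/
theorem cfamEx : H79S.CFamEx := by
  intro F E _ _ _ _ _ _ C a _ hNE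
  obtain ⟨P⟩ := exists_pw C hNE
  have hp : 0 < Real.log P.p := Real.log_pos (by exact_mod_cast P.prime.one_lt)
  obtain ⟨k, h, hh, hk, hL, hs, hv⟩ := exists_kk hp
  set q : ℝ := (P.p : ℝ) ^ 2 with hq
  have hh' : (h : ℂ) ≠ 0 := Complex.ofReal_ne_zero.2 hh.ne'
  obtain ⟨h5E, hcE⟩ := H39Z.final_E C.kE P.w_inj (pdataE P) hq hk hs
  obtain ⟨-, hcF⟩ := H39Z.final_F C.kF (pdataF P) hq hk hs
  obtain ⟨L, hL0⟩ := hL 0
  obtain ⟨T, M, hlip⟩ := H86B.Lip1.of_lipschitz (hk 0) hL0
  obtain ⟨M', hKE⟩ := H86B.ker_tn (J := Fin 3) hlip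
  have hKF := H86B.ker_k1 hlip
  have hRC : IsRC (tn fun _ : Fin 3 => k 0) := isRC_tn fun _ => hk 0
  have hσ : ∀ j, C.aE.σ (P.w j) = P.w (j + 1) := fun j => (P.w_σ j).symm
  have hbE : Bd PGL(2, E) fun x y : C.mE.X =>
      ∑ i : IxS, C.tkE (fKE q k 24 i) (nE P.w i) 0 x y := by
    rw [sumE C q k 24 P.w]
    refine H86B.bd_fk_of_cuspAll hKE (isReal_tn _) (fun i _ => isRC_kE q hk i)
      (fun i _ => isReal_kE q k i) (fun i _ x y => ?_) (hcE _ hRC) (by simp)
    exact mono_herm C.kE (fun w hw x => by rw [C.psiE w hw]; exact H7.Z.norm_psi w x) x y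
  have hbF : Bd PGL(2, F) fun x y : C.mF.X =>
      ∑ i : IxS, C.tkB (fKE q k 24 i) (nE P.w i) 0 x y := by
    rw [sumB C q hk 24 P.w_below]
    refine H86B.bd_fk_of_cuspAll hKF (isReal_k1 _) (fun i _ => isRC_kF q hk i)
      (fun i _ => isReal_kF q k i) (fun i _ x y => ?_) (hcF _ (isRC_k1 (hk 0))) (by simp)
    exact mono_herm C.kF (fun w hw x => by rw [C.psiF w hw]; exact H7.Z.norm_psi w x) x y
  have hb0 : H9Z.hat (tn fun _ : Fin 3 => k 0) ≠ 0 := by
    rw [hat_eq_khat0 hRC, hv fun _ => 0]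
    exact Finset.prod_ne_zero_iff.2 fun j _ => mul_ne_zero (pow_ne_zero _ two_ne_zero) hh'
  exact ⟨{
    ι := IxS
    fin := inferInstance
    κ := fun i => fKE q k 24 i
    n := fun i => nE P.w i
    rc := fun i => isRC_fKE q hk 24 i
    real := fun i t => isReal_fKE q k 24 i t
    ok := fun i => okN_nE P.ok i
    s_inv := s_invE C hσ q k 24
    bdE := hbE
    bdF := hbF
    val_ne := by
      have h1 := sum_evP_ne (w := P.w) (a := a) q hk hh' hv P.az 24
      rwa [← Finset.sum_coe_sort ixs fun i => evP a (fKE q k 24 i) (nE P.w i)] at h1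
    bddE := fun Φ hΦ => by
      have h1 := sum_evP_ne (w := P.w) (a := a) q hk hh' hv P.az 0
      exact bounded_eform hΦ (fun i _ => isRC_kE q hk i) (fun i _ => okN_nE P.ok i) h5E h1 hKE
        hb0 }⟩

end Fermat.Agent.H17S
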