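import Fermat.Agent.H42S1

/-!
H42S2 (project S47, C20): the abstract end of the comparison of two trace formulas. Two families
of finite dimensional spaces with commuting operators, the trace identity for all products of
members of the family and all large powers of `U`; conclusion: the joint eigenvalues of a stable
block of the first side (with `|z₀| ≥ 1`) occur on the second side.
-/

set_option autoImplicit false

open Module Module.End

namespace Fermat.Agent.H42S

/-- Separation (C10, C11). -/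
def SepStatement : Prop :=
  ∀ (I J : Type) (a : I → ℂ) (_ : Summable fun i => ‖a i‖) (x : I → J → ℝ) (B : J → ℝ)
    (_ : ∀ i j, |x i j| ≤ B j) (z : I → ℂ) (R : ℝ) (_ : ∀ i, ‖z i‖ ≤ R)
    (_ : ∀ i, ‖z i‖ = 1 ∨ (z i).im = 0)
    (_ : ∀ L : List J, ∃ m₀ : ℕ, ∀ m ≥ m₀,
      ∑' i, a i * (((L.map (x i)).prod : ℝ) : ℂ) * z i ^ m = 0)
    (x₀ : J → ℝ) (z₀ : ℂ) (_ : 1 ≤ ‖z₀‖),
    ∑' i, Set.indicator {i | x i = x₀ ∧ z i = z₀} a i = 0

/-- One side of the comparison. `E i` = eigenspace of the Hilbert-Schmidt operator, `a i` = weight,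
`Y i` = a commuting family containing the operators `j l` to be separated and the operator `u`. -/
structure Side (J : Type) where
  ι : Type
  a : ι → ℝ
  a_nonneg : ∀ i, 0 ≤ a i
  E : ι → Type
  [instE : ∀ i, AddCommGroup (E i)]
  [instM : ∀ i, Module ℂ (E i)]
  [instF : ∀ i, FiniteDimensional ℂ (E i)]
  K : Type
  Y : ∀ i, K → Module.End ℂ (E i)
  comm : ∀ i k l, Commute (Y i k) (Y i l)
  σ : K ≃ K
  s : ∀ i, Module.End ℂ (E i)
  s_comm : ∀ i k, s i * Y i k = Y i (σ k) * s i
  pos : ∀ i (χ : K → ℂ), χ ∘ σ = χ → ∀ v ∈ blk (Y i) χ, s i v = v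
  summable : Summable fun i => a i * finrank ℂ (E i)
  j : J → K
  u : K
  B : J → ℝ
  R : ℝ
  real : ∀ i (χ : K → ℂ), χ ∘ σ = χ → blk (Y i) χ ≠ ⊥ →
    ∀ l, (χ (j l)).im = 0 ∧ |(χ (j l)).re| ≤ B l
  bound : ∀ i (χ : K → ℂ), χ ∘ σ = χ → blk (Y i) χ ≠ ⊥ →
    ‖χ u‖ ≤ R ∧ (‖χ u‖ = 1 ∨ (χ u).im = 0)

namespace Side

variable {J : Type} (S : Side J)

attribute [instance] Side.instE Side.instM Side.instF

/-- the trace of `X_L U^m s`, weighted over all eigenspaces -/
noncomputable def tr (L : List J) (m : ℕ) : ℂ :=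
  ∑' i, (S.a i : ℂ) * LinearMap.trace ℂ (S.E i)
    (lprod (S.Y i) (L.map S.j ++ List.replicate m S.u) * S.s i)

open Classical in
/-- the stable blocks of `E i` -/
noncomputable def supp (i : S.ι) : Finset (S.K → ℂ) :=
  (finite_supp (S.Y i) (S.comm i)).toFinset.filter fun χ => χ ∘ S.σ = χ

theorem mem_supp {i : S.ι} {χ : S.K → ℂ} :
    χ ∈ S.supp i ↔ blk (S.Y i) χ ≠ ⊥ ∧ χ ∘ S.σ = χ := by
  classical
  simp [supp]

/-- the index set -/
def I : Type := Σ i : S.ι, {χ : S.K → ℂ // χ ∈ S.supp i}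

/-- weight of a block -/
noncomputable def w (p : S.I) : ℝ := S.a p.1 * finrank ℂ (blk (S.Y p.1) p.2.1)

/-- eigenvalues -/
def x (p : S.I) (l : J) : ℝ := (p.2.1 (S.j l)).re

/-- eigenvalue of `U` -/
def z (p : S.I) : ℂ := p.2.1 S.u

theorem w_nonneg (p : S.I) : 0 ≤ S.w p := mul_nonneg (S.a_nonneg _) (Nat.cast_nonneg _)

theorem finrank_pos (p : S.I) : 0 < finrank ℂ (blk (S.Y p.1) p.2.1) := by
  have h := (S.mem_supp.mp p.2.2).1
  have := Submodule.nontrivial_iff_ne_bot.mpr h
  exact Module.finrank_pos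

theorem x_eq (p : S.I) (l : J) : (S.x p l : ℂ) = p.2.1 (S.j l) := by
  obtain ⟨h1, h2⟩ := S.mem_supp.mp p.2.2
  exact Complex.ext rfl (by simpa [x] using (S.real p.1 p.2.1 h2 h1 l).1.symm)

theorem x_le (p : S.I) (l : J) : |S.x p l| ≤ S.B l := by
  obtain ⟨h1, h2⟩ := S.mem_supp.mp p.2.2
  exact (S.real p.1 p.2.1 h2 h1 l).2

theorem z_le (p : S.I) : ‖S.z p‖ ≤ S.R := by
  obtain ⟨h1, h2⟩ := S.mem_supp.mp p.2.2
  exact (S.bound p.1 p.2.1 h2 h1).1

theorem z_cases (p : S.I) : ‖S.z p‖ = 1 ∨ (S.z p).im = 0 := by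
  obtain ⟨h1, h2⟩ := S.mem_supp.mp p.2.2
  exact (S.bound p.1 p.2.1 h2 h1).2

theorem sum_finrank_le (i : S.ι) :
    ∑ χ ∈ S.supp i, (finrank ℂ (blk (S.Y i) χ) : ℝ) ≤ finrank ℂ (S.E i) := by
  classical
  have hint := internal_blk (S.Y i) (S.comm i)
  have h1 := trace_mul_perm (S.comm i) (σ := Equiv.refl _) (s := 1) (fun k => by simp)
    (fun χ _ v _ => rfl) []
  simp only [lprod, List.map_nil, List.prod_nil, mul_one, LinearMap.trace_one, one_mul,
    Equiv.coe_refl, Function.comp_id, Finset.filter_true] at h1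
  have h2 : (finrank ℂ (S.E i) : ℝ) =
      ∑ χ ∈ (finite_supp (S.Y i) (S.comm i)).toFinset, (finrank ℂ (blk (S.Y i) χ) : ℝ) := by
    exact_mod_cast h1
  rw [h2]
  exact Finset.sum_le_sum_of_subset_of_nonneg (Finset.filter_subset _ _)
    fun _ _ _ => Nat.cast_nonneg _

theorem summable_w : Summable S.w := by
  refine (summable_sigma_of_nonneg S.w_nonneg).mpr ⟨fun i => ?_, ?_⟩
  · exact (hasSum_fintype _).summable
  · refine Summable.of_nonneg_of_le (fun i => tsum_nonneg fun _ => S.w_nonneg _) (fun i => ?_)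
      S.summable
    rw [tsum_fintype]
    have h1 : ∑ b : {χ : S.K → ℂ // χ ∈ S.supp i}, S.w ⟨i, b⟩ =
        S.a i * ∑ χ ∈ S.supp i, (finrank ℂ (blk (S.Y i) χ) : ℝ) := by
      rw [Finset.mul_sum]
      exact Finset.sum_coe_sort (S.supp i)
        fun χ => S.a i * (finrank ℂ (blk (S.Y i) χ) : ℝ)
    rw [h1]
    exact mul_le_mul_of_nonneg_left (S.sum_finrank_le i) (S.a_nonneg i)

theorem summable_term (L : List J) (m : ℕ) :
    Summable fun p : S.I => (S.w p : ℂ) * (((L.map (S.x p)).prod : ℝ) : ℂ) * S.z p ^ m := by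
  have h1 : ∀ p : S.I, |(L.map (S.x p)).prod| ≤ (L.map S.B).prod := by
    intro p
    induction L with
    | nil => simp
    | cons l L ih =>
      rw [List.map_cons, List.prod_cons, List.map_cons, List.prod_cons, abs_mul]
      exact mul_le_mul (S.x_le p l) ih (abs_nonneg _) ((abs_nonneg _).trans (S.x_le p l))
  refine Summable.of_norm_bounded (g := fun p => S.w p * ((L.map S.B).prod * S.R ^ m))
    (S.summable_w.mul_right _) fun p => ?_
  rw [norm_mul, norm_mul, Complex.norm_real, Complex.norm_real, norm_pow, Real.norm_eq_abs,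
    Real.norm_eq_abs, abs_of_nonneg (S.w_nonneg p), mul_assoc]
  refine mul_le_mul_of_nonneg_left ?_ (S.w_nonneg p)
  exact mul_le_mul (h1 p) (pow_le_pow_left₀ (norm_nonneg _) (S.z_le p) m)
    (pow_nonneg (norm_nonneg _) _) ((abs_nonneg _).trans (h1 p))

theorem tr_eq (L : List J) (m : ℕ) :
    S.tr L m = ∑' p : S.I, (S.w p : ℂ) * (((L.map (S.x p)).prod : ℝ) : ℂ) * S.z p ^ m := by
  classical
  have h1 := S.summable_term L m
  have h2 : ∑' p : S.I, (S.w p : ℂ) * (((L.map (S.x p)).prod : ℝ) : ℂ) * S.z p ^ m =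
      ∑' i, ∑' b : {χ : S.K → ℂ // χ ∈ S.supp i},
        (S.w ⟨i, b⟩ : ℂ) * (((L.map (S.x ⟨i, b⟩)).prod : ℝ) : ℂ) * S.z ⟨i, b⟩ ^ m :=
    h1.tsum_sigma' fun i => (hasSum_fintype _).summable
  rw [h2, tr]
  refine tsum_congr fun i => ?_
  rw [tsum_fintype, trace_mul_perm (S.comm i) (S.s_comm i) (S.pos i), Finset.mul_sum]
  change ∑ χ ∈ S.supp i, _ = _
  rw [← Finset.sum_coe_sort (S.supp i)]
  refine Finset.sum_congr rfl fun b _ => ?_
  have e1 : ((L.map S.j ++ List.replicate m S.u).map b.1).prod =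
      (((L.map (S.x ⟨i, b⟩)).prod : ℝ) : ℂ) * S.z ⟨i, b⟩ ^ m := by
    rw [List.map_append, List.prod_append, List.map_replicate, List.prod_replicate]
    congr 1
    clear h1 h2
    induction L with
    | nil => simp
    | cons l L ih =>
      rw [List.map_cons, List.map_cons, List.prod_cons, List.map_cons, List.prod_cons, ih,
        Complex.ofReal_mul, S.x_eq ⟨i, b⟩ l]
  rw [e1]
  simp only [w]
  push_cast
  ring

end Side

/-- **C20 (abstract)**: the joint eigenvalues of a stable block with `|z₀| ≥ 1` occur on the other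
side. -/
theorem exists_block (hsep : SepStatement) {J : Type} (S S' : Side J) (κ : ℝ)
    (TI : ∀ L : List J, ∃ m₀ : ℕ, ∀ m ≥ m₀, S.tr L m = κ * S'.tr L m)
    (p₀ : S.I) (hw : 0 < S.w p₀) (hz : 1 ≤ ‖S.z p₀‖) :
    ∃ p : S'.I, (∀ l, S'.x p l = S.x p₀ l) ∧ S'.z p = S.z p₀ ∧ 0 < S'.w p := by
  classical
  by_contra hcon
  push Not at hcon
  let I : Type := S.I ⊕ S'.I
  let a : I → ℂ := Sum.elim (fun p => (S.w p : ℂ)) fun p => -(κ : ℂ) * (S'.w p : ℂ)
  let x : I → J → ℝ := Sum.elim S.x S'.x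
  let z : I → ℂ := Sum.elim S.z S'.z
  have hsum : Summable fun i => ‖a i‖ := by
    apply Summable.sum
    · have : (fun i => ‖a i‖) ∘ Sum.inl = S.w := by
        ext p
        simp [a, abs_of_nonneg (S.w_nonneg p)]
      rw [this]; exact S.summable_w
    · have : (fun i => ‖a i‖) ∘ Sum.inr = fun p => |κ| * S'.w p := by
        ext p
        simp [a, abs_of_nonneg (S'.w_nonneg p)]
      rw [this]; exact S'.summable_w.mul_left _
  have hzero := hsep I J a hsum x (fun l => max (S.B l) (S'.B l))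
    (by rintro (p | p) l
        · exact (S.x_le p l).trans (le_max_left _ _)
        · exact (S'.x_le p l).trans (le_max_right _ _)) z (max S.R S'.R)
    (by rintro (p | p)
        · exact (S.z_le p).trans (le_max_left _ _)
        · exact (S'.z_le p).trans (le_max_right _ _))
    (by rintro (p | p)
        · exact S.z_cases p
        · exact S'.z_cases p)
    (by
      intro L
      obtain ⟨m₀, hm₀⟩ := TI L
      refine ⟨m₀, fun m hm => ?_⟩
      have h1 := (S.summable_term L m).hasSum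
      have h2 := ((S'.summable_term L m).hasSum.mul_left (-(κ : ℂ)))
      have h3 : HasSum (fun i => a i * (((L.map (x i)).prod : ℝ) : ℂ) * z i ^ m)
          (S.tr L m + -(κ : ℂ) * S'.tr L m) := by
        rw [S.tr_eq, S'.tr_eq]
        refine HasSum.sum h1 ?_
        have h4 : (fun i => a i * (((L.map (x i)).prod : ℝ) : ℂ) * z i ^ m) ∘ Sum.inr =
            fun p => -(κ : ℂ) *
              ((S'.w p : ℂ) * (((L.map (S'.x p)).prod : ℝ) : ℂ) * S'.z p ^ m) := by
          funext p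
          change (-(κ : ℂ) * (S'.w p : ℂ)) * (((L.map (S'.x p)).prod : ℝ) : ℂ) * S'.z p ^ m = _
          ring
        rw [h4]
        exact h2
      rw [h3.tsum_eq, hm₀ m hm]
      ring)
    (S.x p₀) (S.z p₀) hz
  -- compute the sum
  have hind : ∀ i, Set.indicator {i | x i = S.x p₀ ∧ z i = S.z p₀} a i =
      ((Set.indicator {p : S.I | S.x p = S.x p₀ ∧ S.z p = S.z p₀} S.w
        (i.elim id fun _ => p₀) * (i.elim (fun _ => 1) fun _ => 0) : ℝ) : ℂ) := by
    rintro (p | p)
    · simp only [Set.indicator, Set.mem_setOf_eq, x, z, a, Sum.elim_inl, id, mul_one]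
      split_ifs <;> simp
    · simp only [Set.indicator, Set.mem_setOf_eq, x, z, a, Sum.elim_inr, mul_zero]
      split_ifs with h
      · have h0 : S'.w p = 0 := by
          refine le_antisymm ?_ (S'.w_nonneg p)
          exact hcon p (fun l => congrFun h.1 l) h.2
        simp [h0]
      · simp
  have h4 : HasSum (fun i : I => Set.indicator {i | x i = S.x p₀ ∧ z i = S.z p₀} a i)
      (((∑' p, Set.indicator {p : S.I | S.x p = S.x p₀ ∧ S.z p = S.z p₀} S.w p : ℝ) : ℂ) + 0) := by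
    refine HasSum.sum ?_ ?_
    · have h5 : (fun i : I => Set.indicator {i | x i = S.x p₀ ∧ z i = S.z p₀} a i) ∘ Sum.inl =
          fun p => ((Set.indicator {p : S.I | S.x p = S.x p₀ ∧ S.z p = S.z p₀} S.w p : ℝ) : ℂ) := by
        ext p
        rw [Function.comp_apply, hind]
        simp
      rw [h5]
      exact (Complex.hasSum_ofReal).mpr (S.summable_w.indicator _).hasSum
    · have h5 : (fun i : I => Set.indicator {i | x i = S.x p₀ ∧ z i = S.z p₀} a i) ∘ Sum.inr =
          fun _ => 0 := by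
        ext p
        rw [Function.comp_apply, hind]
        simp
      rw [h5]
      exact hasSum_zero
  have h6 : ∑' p, Set.indicator {p : S.I | S.x p = S.x p₀ ∧ S.z p = S.z p₀} S.w p = 0 := by
    have := h4.tsum_eq.symm.trans hzero
    rw [add_zero] at this
    exact_mod_cast this
  have h7 : 0 < ∑' p, Set.indicator {p : S.I | S.x p = S.x p₀ ∧ S.z p = S.z p₀} S.w p := by
    refine (S.summable_w.indicator _).tsum_pos (fun p => Set.indicator_nonneg
      (fun p _ => S.w_nonneg p) p) p₀ ?_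
    rw [Set.indicator_of_mem]
    · exact hw
    · exact ⟨rfl, rfl⟩
  exact h7.ne' h6

end Fermat.Agent.H42S
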