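import Mathlib

/-!
# Eigenvalues of the operator `U` on the edges of a regular tree (S47)

Let `W` (reversal of the edges) and `P` (sum over the edges with the same origin) be symmetric
operators with `W² = 1`, `P² = (q + 1) P`, and `U = W (P - 1)`. Every eigenvalue `u` of `U` is real
with `|u| ≤ q`, or `|u|² = q`.
-/

set_option autoImplicit false
set_option linter.unusedSectionVars false

noncomputable section

open scoped InnerProductSpace ComplexConjugate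

namespace Fermat.Agent.H8U

variable {V : Type*} [NormedAddCommGroup V] [InnerProductSpace ℂ V]

variable {q : ℝ} {W P U : V →ₗ[ℂ] V}

theorem norm_sq_apply (hP : P.IsSymmetric) (hP2 : ∀ v, P (P v) = ((q + 1 : ℝ) : ℂ) • P v) (v : V) :
    ‖P v - v‖ ^ 2 = (q - 1) * (⟪P v - v, v⟫_ℂ).re + q * ‖v‖ ^ 2 := by
  have h1 : ⟪P v - v, P v - v⟫_ℂ = ⟪P (P v - v) - (P v - v), v⟫_ℂ := by
    rw [inner_sub_right, inner_sub_left (P (P v - v)), hP]
  have h2 : P (P v - v) - (P v - v) = ((q - 1 : ℝ) : ℂ) • (P v - v) + ((q : ℝ) : ℂ) • v := by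
    rw [map_sub, hP2]
    push_cast
    module
  have h3 := @inner_self_eq_norm_sq ℂ V _ _ _ (P v - v)
  rw [← h3, h1, h2, inner_add_left, inner_smul_left, inner_smul_left]
  simp only [Complex.conj_ofReal, RCLike.re_to_complex, Complex.add_re, Complex.re_ofReal_mul]
  have h4 := @inner_self_eq_norm_sq ℂ V _ _ _ v
  rw [← h4, RCLike.re_to_complex]

/-- **Eigenvalues of `U`.** -/
theorem eigenvalue (hq : 1 ≤ q) (hW : W.IsSymmetric) (hW2 : ∀ v, W (W v) = v)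
    (hP : P.IsSymmetric) (hP2 : ∀ v, P (P v) = ((q + 1 : ℝ) : ℂ) • P v)
    (hU : ∀ v, U v = W (P v - v)) {u : ℂ} {v : V} (hv : v ≠ 0) (huv : U v = u • v) :
    (u.im = 0 ∧ ‖u‖ ≤ q) ∨ ‖u‖ ^ 2 = q := by
  have hA : P v - v = u • W v := by
    rw [← hW2 (P v - v), ← hU, huv, map_smul]
  have hWn : ‖W v‖ = ‖v‖ := by
    have h1 : ⟪W v, W v⟫_ℂ = ⟪v, v⟫_ℂ := by rw [hW, hW2]
    have h2 := @inner_self_eq_norm_sq ℂ V _ _ _ (W v)
    have h3 := @inner_self_eq_norm_sq ℂ V _ _ _ v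
    rw [h1, h3] at h2
    have h4 : ‖v‖ ^ 2 = ‖W v‖ ^ 2 := h2
    exact ((sq_eq_sq₀ (norm_nonneg _) (norm_nonneg _)).mp h4).symm
  have hvn : 0 < ‖v‖ := norm_pos_iff.mpr hv
  have hn : ‖P v - v‖ ^ 2 = ‖u‖ ^ 2 * ‖v‖ ^ 2 := by rw [hA, norm_smul, hWn, mul_pow]
  have hkey := norm_sq_apply hP hP2 v
  rw [hn] at hkey
  have hAsym : (⟪P v - v, v⟫_ℂ).im = 0 := by
    have h1 : ⟪P v - v, v⟫_ℂ = conj ⟪P v - v, v⟫_ℂ := by
      rw [inner_conj_symm, inner_sub_left, inner_sub_right, hP]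
    have h2 := congrArg Complex.im h1
    simp only [Complex.conj_im] at h2
    linarith
  have hWsym : (⟪W v, v⟫_ℂ).im = 0 := by
    have h1 : ⟪W v, v⟫_ℂ = conj ⟪W v, v⟫_ℂ := by
      rw [inner_conj_symm, hW]
    have h2 := congrArg Complex.im h1
    simp only [Complex.conj_im] at h2
    linarith
  have hrel : ⟪P v - v, v⟫_ℂ = conj u * ⟪W v, v⟫_ℂ := by rw [hA, inner_smul_left]
  by_cases him : u.im = 0
  · left
    refine ⟨him, ?_⟩
    -- `|⟨Av, v⟩| ≤ |Av| |v| = |u| |v|²`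
    have h1 : (⟪P v - v, v⟫_ℂ).re ≤ ‖u‖ * ‖v‖ ^ 2 := by
      have h2 : ‖⟪P v - v, v⟫_ℂ‖ ≤ ‖P v - v‖ * ‖v‖ := norm_inner_le_norm _ _
      have h3 : ‖P v - v‖ = ‖u‖ * ‖v‖ := by rw [hA, norm_smul, hWn]
      rw [h3] at h2
      calc (⟪P v - v, v⟫_ℂ).re ≤ ‖⟪P v - v, v⟫_ℂ‖ := Complex.re_le_norm _
        _ ≤ ‖u‖ * ‖v‖ * ‖v‖ := h2
        _ = _ := by ring
    have h4 : ‖u‖ ^ 2 * ‖v‖ ^ 2 ≤ ((q - 1) * ‖u‖ + q) * ‖v‖ ^ 2 := by
      rw [hkey]
      have := mul_le_mul_of_nonneg_left h1 (by linarith : (0 : ℝ) ≤ q - 1)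
      linarith
    have h5 : ‖u‖ ^ 2 ≤ (q - 1) * ‖u‖ + q := le_of_mul_le_mul_right h4 (by positivity)
    have h6 : (‖u‖ - q) * (‖u‖ + 1) ≤ 0 := by nlinarith
    by_contra hcon
    push Not at hcon
    have : 0 < (‖u‖ - q) * (‖u‖ + 1) := mul_pos (by linarith) (by positivity)
    linarith
  · right
    have hW0 : (⟪W v, v⟫_ℂ).re = 0 := by
      have h1 := congrArg Complex.im hrel
      rw [hAsym, Complex.mul_im, Complex.conj_re, Complex.conj_im, hWsym] at h1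
      have h2 : u.im * (⟪W v, v⟫_ℂ).re = 0 := by linarith
      exact (mul_eq_zero.mp h2).resolve_left him
    have hA0 : (⟪P v - v, v⟫_ℂ).re = 0 := by
      rw [hrel, Complex.mul_re, hW0, hWsym]
      simp
    rw [hA0, mul_zero, zero_add] at hkey
    exact mul_right_cancel₀ (by positivity) hkey

end Fermat.Agent.H8U
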