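import Fermat.Agent.H32ZEig
import Fermat.Agent.H42S2
import Fermat.Agent.H8U

/-!
# Operators on bounded invariant functions and on the eigenspaces of a kernel (helper21, S47, C-OPS)

`X` a measurable space with an action of a group `G`, `ν` a finite measure, `K` a bounded measurable
kernel which is `G`-invariant in the first variable. `BInv G X` = bounded measurable `G`-invariant
functions; `kop` = the operator of `K` on `BInv G X`. Operators commuting with `kop` act on the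
eigenspaces `Eig hK ν c`, `c ≠ 0`.
-/

set_option autoImplicit false
set_option linter.unusedSectionVars false

noncomputable section

open MeasureTheory Complex Filter
open scoped ENNReal InnerProductSpace ComplexConjugate Topology
open Fermat.Agent.H32Z

namespace Fermat.Agent.H21Z

/-- Bounded measurable `G`-invariant functions. -/
def BInv (G X : Type*) [Group G] [MulAction G X] [MeasurableSpace X] : Submodule ℂ (X → ℂ) where
  carrier := {f | Measurable f ∧ (∃ C : ℝ, ∀ x, ‖f x‖ ≤ C) ∧ ∀ (g : G) x, f (g • x) = f x}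
  add_mem' := by
    rintro f g ⟨hf, ⟨C, hC⟩, hf'⟩ ⟨hg, ⟨D, hD⟩, hg'⟩
    exact ⟨hf.add hg, ⟨C + D, fun x => (norm_add_le _ _).trans (add_le_add (hC x) (hD x))⟩,
      fun a x => by simp only [Pi.add_apply]; rw [hf', hg']⟩
  zero_mem' := ⟨measurable_const, ⟨0, fun x => by simp⟩, fun _ _ => rfl⟩
  smul_mem' := by
    rintro a f ⟨hf, ⟨C, hC⟩, hf'⟩
    refine ⟨hf.const_smul a, ⟨‖a‖ * C, fun x => ?_⟩, fun g x => ?_⟩
    · rw [Pi.smul_apply, norm_smul]
      exact mul_le_mul_of_nonneg_left (hC x) (norm_nonneg _)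
    · simp only [Pi.smul_apply]; rw [hf']

variable {G X : Type*} [Group G] [MulAction G X] [MeasurableSpace X]

theorem BInv.measurable (f : BInv G X) : Measurable (f : X → ℂ) := f.2.1

theorem BInv.bounded (f : BInv G X) : ∃ C : ℝ, ∀ x, ‖(f : X → ℂ) x‖ ≤ C := f.2.2.1

theorem BInv.inv (f : BInv G X) (g : G) (x : X) : (f : X → ℂ) (g • x) = (f : X → ℂ) x :=
  f.2.2.2 g x

variable {ν : Measure X} [IsFiniteMeasure ν] {K : X → X → ℂ}

/-- The operator of the kernel on bounded invariant functions. -/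
def kop (hK : BK K) (ν : Measure X) [IsFiniteMeasure ν]
    (hG : ∀ (g : G) x y, K (g • x) y = K x y) : BInv G X →ₗ[ℂ] BInv G X where
  toFun f := ⟨fun x => ∫ y, K x y * (f : X → ℂ) y ∂ν, by
    refine ⟨(hK.stronglyMeasurable_apply (BInv.measurable f).stronglyMeasurable).measurable, ?_, ?_⟩
    · obtain ⟨C, hC⟩ := BInv.bounded f
      refine ⟨hK.B * C * (ν Set.univ).toReal, fun x => ?_⟩
      refine norm_integral_le_of_norm_le_const (Eventually.of_forall fun y => ?_)
      rw [norm_mul]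
      exact mul_le_mul (hK.le_B x y) (hC y) (norm_nonneg _) hK.B_nonneg
    · intro g x
      simp only [hG]⟩
  map_add' f g := by
    apply Subtype.ext
    funext x
    change ∫ y, K x y * ((f : X → ℂ) y + (g : X → ℂ) y) ∂ν = _
    simp only [mul_add]
    exact integral_add (hK.integrable_mul x (BInv.measurable f) (BInv.bounded f))
      (hK.integrable_mul x (BInv.measurable g) (BInv.bounded g))
  map_smul' a f := by
    apply Subtype.ext
    funext x
    change ∫ y, K x y * (a * (f : X → ℂ) y) ∂ν = a * ∫ y, K x y * (f : X → ℂ) y ∂ν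
    rw [← integral_const_mul]
    refine integral_congr_ae (Eventually.of_forall fun y => ?_)
    simp only; ring

theorem kop_apply (hK : BK K) (hG : ∀ (g : G) x y, K (g • x) y = K x y) (f : BInv G X) (x : X) :
    (kop hK ν hG f : X → ℂ) x = ∫ y, K x y * (f : X → ℂ) y ∂ν := rfl

section Eig

variable {hK : BK K} (hG : ∀ (g : G) x y, K (g • x) y = K x y)

include hG in
/-- eigenfunctions are invariant -/
theorem eig_inv {c : ℝ} (hc : c ≠ 0) (f : Eig hK ν c) (g : G) (x : X) :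
    (f : X → ℂ) (g • x) = (f : X → ℂ) x := by
  have hc' : (c : ℂ) ≠ 0 := by exact_mod_cast hc
  have h1 := Eig.eq f (g • x)
  have h2 := Eig.eq f x
  simp only [hG] at h1
  exact mul_left_cancel₀ hc' (h1.trans h2.symm)

/-- eigenfunctions as invariant functions -/
def toInv {c : ℝ} (hc : c ≠ 0) : Eig hK ν c →ₗ[ℂ] BInv G X where
  toFun f := ⟨f, Eig.measurable f, Eig.bounded f, fun g x => eig_inv hG hc f g x⟩
  map_add' _ _ := rfl
  map_smul' _ _ := rfl

@[simp] theorem toInv_coe {c : ℝ} (hc : c ≠ 0) (f : Eig hK ν c) :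
    (toInv hG hc f : X → ℂ) = (f : X → ℂ) := rfl

theorem kop_toInv {c : ℝ} (hc : c ≠ 0) (f : Eig hK ν c) :
    kop hK ν hG (toInv hG hc f) = (c : ℂ) • toInv hG hc f := by
  apply Subtype.ext
  funext x
  rw [kop_apply]
  exact (Eig.eq f x).symm

/-- an invariant function with `kop f = c f` is an eigenfunction -/
theorem mem_eig_of_kop {c : ℝ} {f : BInv G X} (h : kop hK ν hG f = (c : ℂ) • f) :
    (f : X → ℂ) ∈ Eig hK ν c := by
  refine ⟨BInv.measurable f, BInv.bounded f, fun x => ?_⟩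
  have h1 := congrArg (fun F : BInv G X => (F : X → ℂ) x) h
  simp only [kop_apply] at h1
  rw [h1]; rfl

/-- The restriction of an operator commuting with `kop` to an eigenspace. -/
def res {A : BInv G X →ₗ[ℂ] BInv G X}
    (hA : ∀ f, kop hK ν hG (A f) = A (kop hK ν hG f)) {c : ℝ} (hc : c ≠ 0) :
    Eig hK ν c →ₗ[ℂ] Eig hK ν c where
  toFun f := ⟨A (toInv hG hc f), mem_eig_of_kop hG (by rw [hA, kop_toInv, map_smul])⟩
  map_add' f g := by
    apply Subtype.ext
    change ((A (toInv hG hc (f + g)) : BInv G X) : X → ℂ) = _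
    rw [map_add, map_add]; rfl
  map_smul' a f := by
    apply Subtype.ext
    change ((A (toInv hG hc (a • f)) : BInv G X) : X → ℂ) = _
    rw [map_smul, map_smul]; rfl

theorem res_coe {A : BInv G X →ₗ[ℂ] BInv G X}
    (hA : ∀ f, kop hK ν hG (A f) = A (kop hK ν hG f)) {c : ℝ} (hc : c ≠ 0) (f : Eig hK ν c) :
    (res hG hA hc f : X → ℂ) = (A (toInv hG hc f) : X → ℂ) := rfl

theorem toInv_res {A : BInv G X →ₗ[ℂ] BInv G X}
    (hA : ∀ f, kop hK ν hG (A f) = A (kop hK ν hG f)) {c : ℝ} (hc : c ≠ 0) (f : Eig hK ν c) :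
    toInv hG hc (res hG hA hc f) = A (toInv hG hc f) := rfl

theorem toInv_injective {c : ℝ} (hc : c ≠ 0) : Function.Injective (toInv hG (hK := hK) (ν := ν) hc) := by
  intro f g h
  apply Subtype.ext
  exact congrArg (fun F : BInv G X => (F : X → ℂ)) h

end Eig

/-! ### The pairing -/

/-- the pairing of two invariant functions -/
def pair (ν : Measure X) (f g : X → ℂ) : ℂ := ∫ x, conj (f x) * g x ∂ν

theorem pair_toL2 {hK : BK K} {c d : ℝ} (f : Eig hK ν c) (g : Eig hK ν d) :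
    ⟪Eig.toL2 hK ν c f, Eig.toL2 hK ν d g⟫_ℂ = pair ν f g := by
  rw [L2.inner_def, pair]
  refine integral_congr_ae ?_
  filter_upwards [Eig.coeFn_toL2 f, Eig.coeFn_toL2 g] with x h1 h2
  rw [h1, h2, RCLike.inner_apply, mul_comm]

/-- `A'` is an adjoint of `A` for the pairing -/
def IsAdj (ν : Measure X) (A A' : BInv G X →ₗ[ℂ] BInv G X) : Prop :=
  ∀ f g : BInv G X, pair ν (A f) g = pair ν f (A' g)

section Adj

variable {hK : BK K} (hG : ∀ (g : G) x y, K (g • x) y = K x y)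

/-- the operator on the eigenspace of `L²` -/
def resL2 {A : BInv G X →ₗ[ℂ] BInv G X}
    (hA : ∀ f, kop hK ν hG (A f) = A (kop hK ν hG f)) {c : ℝ} (hc : c ≠ 0) :
    Module.End.eigenspace (hK.op ν : Module.End ℂ (Lp ℂ 2 ν)) (c : ℂ) →ₗ[ℂ]
      Module.End.eigenspace (hK.op ν : Module.End ℂ (Lp ℂ 2 ν)) (c : ℂ) :=
  (eigEquiv hK ν hc).conj (res hG hA hc)

theorem resL2_eigEquiv {A : BInv G X →ₗ[ℂ] BInv G X}
    (hA : ∀ f, kop hK ν hG (A f) = A (kop hK ν hG f)) {c : ℝ} (hc : c ≠ 0) (f : Eig hK ν c) :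
    resL2 hG hA hc (eigEquiv hK ν hc f) = eigEquiv hK ν hc (res hG hA hc f) := by
  simp [resL2, LinearEquiv.conj_apply]

theorem inner_resL2 {A A' : BInv G X →ₗ[ℂ] BInv G X} (h : IsAdj ν A A')
    (hA : ∀ f, kop hK ν hG (A f) = A (kop hK ν hG f))
    (hA' : ∀ f, kop hK ν hG (A' f) = A' (kop hK ν hG f)) {c : ℝ} (hc : c ≠ 0)
    (u v : Module.End.eigenspace (hK.op ν : Module.End ℂ (Lp ℂ 2 ν)) (c : ℂ)) :
    ⟪resL2 hG hA hc u, v⟫_ℂ = ⟪u, resL2 hG hA' hc v⟫_ℂ := by
  obtain ⟨f, rfl⟩ := (eigEquiv hK ν hc).surjective u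
  obtain ⟨g, rfl⟩ := (eigEquiv hK ν hc).surjective v
  rw [resL2_eigEquiv, resL2_eigEquiv, Submodule.coe_inner, Submodule.coe_inner, coe_eigEquiv,
    coe_eigEquiv, coe_eigEquiv, coe_eigEquiv, pair_toL2, pair_toL2]
  exact h (toInv hG hc f) (toInv hG hc g)

theorem isSymmetric_resL2 {A : BInv G X →ₗ[ℂ] BInv G X} (h : IsAdj ν A A)
    (hA : ∀ f, kop hK ν hG (A f) = A (kop hK ν hG f)) {c : ℝ} (hc : c ≠ 0) :
    (resL2 hG hA hc).IsSymmetric := fun u v => inner_resL2 hG h hA hA hc u v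

/-- eigenvalues of symmetric operators are real -/
theorem im_eq_zero_of_isAdj {A : BInv G X →ₗ[ℂ] BInv G X} (h : IsAdj ν A A)
    (hA : ∀ f, kop hK ν hG (A f) = A (kop hK ν hG f)) {c : ℝ} (hc : c ≠ 0) {lam : ℂ}
    (hev : Module.End.HasEigenvalue (res hG hA hc) lam) : lam.im = 0 := by
  obtain ⟨f, hf, hf0⟩ := hev.exists_hasEigenvector
  rw [Module.End.mem_eigenspace_iff] at hf
  have h1 : resL2 hG hA hc (eigEquiv hK ν hc f) = lam • eigEquiv hK ν hc f := by
    rw [resL2_eigEquiv, hf, map_smul]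
  have h2 : Module.End.HasEigenvalue (resL2 hG hA hc) lam :=
    Module.End.hasEigenvalue_of_hasEigenvector (x := eigEquiv hK ν hc f)
      ⟨Module.End.mem_eigenspace_iff.mpr h1, fun h0 => hf0 ((eigEquiv hK ν hc).injective
        (by rw [h0, map_zero]))⟩
  have h3 := (isSymmetric_resL2 hG h hA hc).conj_eigenvalue_eq_self h2
  exact Complex.conj_eq_iff_im.mp h3

/-- a sup norm bound of an operator bounds its eigenvalues -/
theorem norm_eigenvalue_le {A : BInv G X →ₗ[ℂ] BInv G X} {b : ℝ}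
    (hb : ∀ (f : BInv G X) (C : ℝ), (∀ x, ‖(f : X → ℂ) x‖ ≤ C) → ∀ x, ‖(A f : X → ℂ) x‖ ≤ b * C)
    (hA : ∀ f, kop hK ν hG (A f) = A (kop hK ν hG f)) {c : ℝ} (hc : c ≠ 0) {lam : ℂ}
    (hev : Module.End.HasEigenvalue (res hG hA hc) lam) : ‖lam‖ ≤ b := by
  obtain ⟨f, hf, hf0⟩ := hev.exists_hasEigenvector
  rw [Module.End.mem_eigenspace_iff] at hf
  obtain ⟨x₀, hx₀⟩ : ∃ x, (f : X → ℂ) x ≠ 0 := by
    by_contra hcon
    push Not at hcon
    exact hf0 (Subtype.ext (funext hcon))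
  obtain ⟨C, hC⟩ := Eig.bounded f
  have hbdd : BddAbove (Set.range fun x => ‖(f : X → ℂ) x‖) := ⟨C, by rintro _ ⟨x, rfl⟩; exact hC x⟩
  have : Nonempty X := ⟨x₀⟩
  set S := ⨆ x, ‖(f : X → ℂ) x‖ with hS
  have hle : ∀ x, ‖(f : X → ℂ) x‖ ≤ S := fun x => le_ciSup hbdd x
  have hSpos : 0 < S := (norm_pos_iff.mpr hx₀).trans_le (hle x₀)
  have h1 : ∀ x, ‖lam‖ * ‖(f : X → ℂ) x‖ ≤ b * S := by
    intro x
    have h2 := hb (toInv hG hc f) S hle x
    have h3 : (A (toInv hG hc f) : X → ℂ) x = lam * (f : X → ℂ) x := by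
      rw [← res_coe hG hA hc, hf]; rfl
    rwa [h3, norm_mul] at h2
  have h4 : ‖lam‖ * S ≤ b * S := by
    rw [hS, Real.mul_iSup_of_nonneg (norm_nonneg _), ← hS]
    exact ciSup_le h1
  exact le_of_mul_le_mul_right h4 hSpos

end Adj

/-! ### Powers, products -/

section Alg

variable {hK : BK K} (hG : ∀ (g : G) x y, K (g • x) y = K x y)

/-- operators commuting with `kop` -/
def Cm (hK : BK K) (ν : Measure X) [IsFiniteMeasure ν]
    (hG : ∀ (g : G) x y, K (g • x) y = K x y) : Subalgebra ℂ (Module.End ℂ (BInv G X)) :=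
  Subalgebra.centralizer ℂ {kop hK ν hG}

theorem mem_Cm {A : Module.End ℂ (BInv G X)} :
    A ∈ Cm hK ν hG ↔ ∀ f, kop hK ν hG (A f) = A (kop hK ν hG f) := by
  rw [Cm, Subalgebra.mem_centralizer_iff]
  constructor
  · intro h f
    exact congrArg (fun F : Module.End ℂ (BInv G X) => F f) (h _ rfl)
  · intro h g hg
    rw [Set.mem_singleton_iff] at hg
    subst hg
    exact LinearMap.ext h

/-- the restriction as an algebra homomorphism -/
def resAlg {c : ℝ} (hc : c ≠ 0) : Cm hK ν hG →ₐ[ℂ] Module.End ℂ (Eig hK ν c) where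
  toFun A := res hG ((mem_Cm hG).mp A.2) hc
  map_one' := by ext f; rfl
  map_mul' A B := by ext f; rfl
  map_zero' := by ext f; rfl
  map_add' A B := by ext f; rfl
  commutes' a := by ext f; rfl

theorem resAlg_coe {c : ℝ} (hc : c ≠ 0) (A : Cm hK ν hG) (f : Eig hK ν c) :
    (resAlg hG hc A f : X → ℂ) = ((A : Module.End ℂ (BInv G X)) (toInv hG hc f) : X → ℂ) := rfl

theorem toInv_resAlg {c : ℝ} (hc : c ≠ 0) (A : Cm hK ν hG) (f : Eig hK ν c) :
    toInv hG hc (resAlg hG hc A f) = (A : Module.End ℂ (BInv G X)) (toInv hG hc f) := rfl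

end Alg

end Fermat.Agent.H21Z
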