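import Fermat.Agent.H32ZHS

/-!
# Eigenfunctions of kernels on finite measure spaces, trace identity (helper32, S47 block C-ABS)
-/

set_option autoImplicit false

noncomputable section

open MeasureTheory Complex Filter
open scoped ENNReal InnerProductSpace ComplexConjugate Topology

namespace Fermat.Agent.H32Z

variable {X : Type*} [MeasurableSpace X] {ν : Measure X} [IsFiniteMeasure ν]

section eig

variable {K M : X → X → ℂ}

theorem BK.integrable_mul (hK : BK K) (x : X) {f : X → ℂ} (hf : Measurable f) (hb : ∃ C : ℝ, ∀ x, ‖f x‖ ≤ C) :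
    Integrable (fun y => K x y * f y) ν := by
  obtain ⟨C, hC⟩ := hb
  refine Integrable.mono' (integrable_const (hK.B * C))
    ((hK.meas_right x).mul hf).aestronglyMeasurable (Eventually.of_forall fun y => ?_)
  rw [norm_mul]
  exact mul_le_mul (hK.le_B x y) (hC y) (norm_nonneg _) hK.B_nonneg

/-- Bounded measurable eigenfunctions of the kernel `K`, as honest functions. -/
def Eig (hK : BK K) (ν : Measure X) [IsFiniteMeasure ν] (c : ℝ) : Submodule ℂ (X → ℂ) where
  carrier := {f | Measurable f ∧ (∃ C : ℝ, ∀ x, ‖f x‖ ≤ C) ∧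
    ∀ x, (c : ℂ) * f x = ∫ y, K x y * f y ∂ν}
  add_mem' := by
    rintro f g ⟨hf, ⟨C, hC⟩, hf'⟩ ⟨hg, ⟨D, hD⟩, hg'⟩
    refine ⟨hf.add hg, ⟨C + D, fun x => (norm_add_le _ _).trans (add_le_add (hC x) (hD x))⟩,
      fun x => ?_⟩
    simp only [Pi.add_apply, mul_add]
    rw [hf' x, hg' x, ← integral_add (hK.integrable_mul x hf ⟨C, hC⟩)
      (hK.integrable_mul x hg ⟨D, hD⟩)]
  zero_mem' := ⟨measurable_const, ⟨0, fun x => by simp⟩, fun x => by simp⟩
  smul_mem' := by
    rintro a f ⟨hf, ⟨C, hC⟩, hf'⟩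
    refine ⟨hf.const_smul a, ⟨‖a‖ * C, fun x => ?_⟩, fun x => ?_⟩
    · rw [Pi.smul_apply, norm_smul]
      exact mul_le_mul_of_nonneg_left (hC x) (norm_nonneg _)
    · simp only [Pi.smul_apply, smul_eq_mul]
      rw [mul_left_comm, hf' x, ← integral_const_mul]
      refine integral_congr_ae (Eventually.of_forall fun y => ?_)
      simp only; ring

variable {hK : BK K}

theorem Eig.measurable {c : ℝ} (f : Eig hK ν c) : Measurable (f : X → ℂ) := f.2.1

theorem Eig.bounded {c : ℝ} (f : Eig hK ν c) : ∃ C : ℝ, ∀ x, ‖(f : X → ℂ) x‖ ≤ C := f.2.2.1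

theorem Eig.eq {c : ℝ} (f : Eig hK ν c) (x : X) :
    (c : ℂ) * (f : X → ℂ) x = ∫ y, K x y * (f : X → ℂ) y ∂ν := f.2.2.2 x

theorem memLp_of_bdd {f : X → ℂ} (hf : Measurable f) (hb : ∃ C : ℝ, ∀ x, ‖f x‖ ≤ C)
    (p : ℝ≥0∞) : MemLp f p ν := by
  obtain ⟨C, hC⟩ := hb
  exact MemLp.of_bound hf.aestronglyMeasurable C (Eventually.of_forall hC)

/-- the class in `L²` -/
def Eig.toL2 (hK : BK K) (ν : Measure X) [IsFiniteMeasure ν] (c : ℝ) :
    Eig hK ν c →ₗ[ℂ] Lp ℂ 2 ν where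
  toFun f := (memLp_of_bdd (Eig.measurable f) (Eig.bounded f) 2).toLp
  map_add' f g := by
    rw [← MemLp.toLp_add]; rfl
  map_smul' a f := by
    rw [RingHom.id_apply, ← MemLp.toLp_const_smul]; rfl

theorem Eig.coeFn_toL2 {c : ℝ} (f : Eig hK ν c) : Eig.toL2 hK ν c f =ᵐ[ν] (f : X → ℂ) :=
  (memLp_of_bdd (Eig.measurable f) (Eig.bounded f) 2).coeFn_toLp

theorem Eig.op_toL2 {c : ℝ} (f : Eig hK ν c) :
    hK.op ν (Eig.toL2 hK ν c f) = (c : ℂ) • Eig.toL2 hK ν c f := by
  refine Lp.ext ?_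
  filter_upwards [hK.coeFn_op' (Eig.toL2 hK ν c f), Lp.coeFn_smul (c : ℂ) (Eig.toL2 hK ν c f),
    Eig.coeFn_toL2 f] with x h1 h2 h3
  rw [h1, h2, Pi.smul_apply, h3, smul_eq_mul, Eig.eq f x]
  refine integral_congr_ae ?_
  filter_upwards [Eig.coeFn_toL2 f] with y hy
  rw [hy]

/-- eigenfunctions are the eigenspace of the operator on `L²` -/
def eigEquiv (hK : BK K) (ν : Measure X) [IsFiniteMeasure ν] {c : ℝ} (hc : c ≠ 0) :
    Eig hK ν c ≃ₗ[ℂ] Module.End.eigenspace (hK.op ν : Module.End ℂ (Lp ℂ 2 ν)) (c : ℂ) :=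
  LinearEquiv.ofBijective
    ((Eig.toL2 hK ν c).codRestrict _ fun f => by
      rw [Module.End.mem_eigenspace_iff]; exact Eig.op_toL2 f) (by
    have hc' : (c : ℂ) ≠ 0 := by exact_mod_cast hc
    constructor
    · rw [← LinearMap.ker_eq_bot, LinearMap.ker_eq_bot']
      intro f hf
      have h0 : Eig.toL2 hK ν c f = 0 := by simpa using congrArg Subtype.val hf
      have h1 : (f : X → ℂ) =ᵐ[ν] 0 := by
        have := Eig.coeFn_toL2 f
        rw [h0] at this
        exact this.symm.trans (Lp.coeFn_zero _ _ _)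
      ext x
      have h2 := Eig.eq f x
      have h3 : ∫ y, K x y * (f : X → ℂ) y ∂ν = 0 := by
        rw [← integral_zero X ℂ (μ := ν)]
        refine integral_congr_ae ?_
        filter_upwards [h1] with y hy
        rw [hy]; simp
      rw [h3] at h2
      simpa [hc'] using h2
    · rintro ⟨φ, hφ⟩
      rw [Module.End.mem_eigenspace_iff] at hφ
      have hφ' : hK.op ν φ = (c : ℂ) • φ := hφ
      set f : X → ℂ := fun x => (c : ℂ)⁻¹ * ⟪hK.row ν x, φ⟫_ℂ with hf
      have hae : f =ᵐ[ν] φ := by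
        filter_upwards [hK.coeFn_op φ, Lp.coeFn_smul (c : ℂ) φ] with x h1 h2
        rw [hφ', h2, Pi.smul_apply, smul_eq_mul] at h1
        rw [hf]; simp only
        rw [← h1, inv_mul_cancel_left₀ hc']
      have hmem : f ∈ Eig hK ν c := by
        refine ⟨(hK.stronglyMeasurable_inner_row φ).measurable.const_mul _,
          ⟨‖(c : ℂ)⁻¹‖ * (hK.C ν * ‖φ‖), fun x => ?_⟩, fun x => ?_⟩
        · rw [hf]; simp only
          rw [norm_mul]
          exact mul_le_mul_of_nonneg_left (hK.norm_inner_row_le x φ) (norm_nonneg _)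
        · rw [hf]; simp only
          rw [mul_inv_cancel_left₀ hc', hK.inner_row]
          refine integral_congr_ae ?_
          filter_upwards [hae] with y hy
          rw [← hy]
      refine ⟨⟨f, hmem⟩, ?_⟩
      apply Subtype.ext
      refine Lp.ext ?_
      exact (Eig.coeFn_toL2 (⟨f, hmem⟩ : Eig hK ν c)).trans hae)

theorem coe_eigEquiv (hK : BK K) {c : ℝ} (hc : c ≠ 0) (f : Eig hK ν c) :
    (eigEquiv hK ν hc f : Lp ℂ 2 ν) = Eig.toL2 hK ν c f := rfl

theorem finite_eigenspace [MeasurableSpace.CountablyGenerated X] (hK : BK K) {c : ℝ} (hc : c ≠ 0) :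
    FiniteDimensional ℂ (Module.End.eigenspace (hK.op ν : Module.End ℂ (Lp ℂ 2 ν)) (c : ℂ)) :=
  ContinuousLinearMap.finite_dimensional_eigenspace hK.isCompactOperator _ (by exact_mod_cast hc)

/-- finite dimension of the spaces of eigenfunctions -/
theorem finite_Eig [MeasurableSpace.CountablyGenerated X] (hK : BK K) {c : ℝ} (hc : c ≠ 0) :
    FiniteDimensional ℂ (Eig hK ν c) := by
  have := finite_eigenspace (ν := ν) hK hc
  exact Module.Finite.equiv (eigEquiv hK ν hc).symm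

end eig

section main

variable [MeasurableSpace.CountablyGenerated X] {K M : X → X → ℂ}

/-- index set of an orthonormal basis of the sum of the eigenspaces with nonzero eigenvalues -/
abbrev Jdx (hK : BK K) (ν : Measure X) [IsFiniteMeasure ν] : Type :=
  Σ c : {c : ℝ // c ≠ 0}, Fin (Module.finrank ℂ
    (Module.End.eigenspace (hK.op ν : Module.End ℂ (Lp ℂ 2 ν)) ((c : ℝ) : ℂ)))

/-- an orthonormal basis of the eigenspace -/
def eigBasis (hK : BK K) (ν : Measure X) [IsFiniteMeasure ν] (c : {c : ℝ // c ≠ 0}) :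
    OrthonormalBasis (Fin (Module.finrank ℂ
      (Module.End.eigenspace (hK.op ν : Module.End ℂ (Lp ℂ 2 ν)) ((c : ℝ) : ℂ)))) ℂ
      (Module.End.eigenspace (hK.op ν : Module.End ℂ (Lp ℂ 2 ν)) ((c : ℝ) : ℂ)) :=
  haveI := finite_eigenspace (ν := ν) hK c.2
  stdOrthonormalBasis ℂ _

/-- the orthonormal family of eigenvectors -/
def phi (hK : BK K) (ν : Measure X) [IsFiniteMeasure ν] (j : Jdx hK ν) : Lp ℂ 2 ν :=
  (eigBasis hK ν j.1 j.2 : Lp ℂ 2 ν)

theorem op_phi (hK : BK K) (j : Jdx hK ν) : hK.op ν (phi hK ν j) = ((j.1 : ℝ) : ℂ) • phi hK ν j := by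
  have := (eigBasis hK ν j.1 j.2).2
  rw [Module.End.mem_eigenspace_iff] at this
  exact this

theorem orthonormal_phi (hK : BK K) (hsym : ∀ x y, K y x = conj (K x y)) :
    Orthonormal ℂ (phi hK ν) := by
  have h := (hK.isSymmetric (ν := ν) hsym).orthogonalFamily_eigenspaces
  constructor
  · intro j
    exact (eigBasis hK ν j.1).orthonormal.1 j.2
  · rintro ⟨c, i⟩ ⟨d, j⟩ hij
    by_cases hcd : c = d
    · subst hcd
      have hij' : i ≠ j := by rintro rfl; exact hij rfl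
      exact (eigBasis hK ν c).orthonormal.2 hij'
    · have hne : ((c : ℝ) : ℂ) ≠ ((d : ℝ) : ℂ) := fun e =>
        hcd (Subtype.ext (Complex.ofReal_injective e))
      exact h hne (eigBasis hK ν c i) (eigBasis hK ν d j)

theorem op_eq_zero_of_orthogonal (hK : BK K) (hsym : ∀ x y, K y x = conj (K x y)) {v : Lp ℂ 2 ν}
    (hv : ∀ j, ⟪phi hK ν j, v⟫_ℂ = 0) : hK.op ν v = 0 := by
  have hS := hK.isSymmetric (ν := ν) hsym
  have h := ContinuousLinearMap.orthogonalComplement_iSup_eigenspaces_eq_bot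
    (hK.isCompactOperator (ν := ν)) hS
  have hmem : hK.op ν v ∈ (⨆ μ, Module.End.eigenspace (hK.op ν : Module.End ℂ (Lp ℂ 2 ν)) μ)ᗮ := by
    rw [← Submodule.iInf_orthogonal, Submodule.mem_iInf]
    intro μ
    rw [Submodule.mem_orthogonal]
    intro u hu
    have hu' := hu
    rw [Module.End.mem_eigenspace_iff] at hu'
    have h1 : ⟪u, hK.op ν v⟫_ℂ = conj μ * ⟪u, v⟫_ℂ := by
      have h2 : ⟪(hK.op ν : Module.End ℂ (Lp ℂ 2 ν)) u, v⟫_ℂ =
        ⟪u, (hK.op ν : Module.End ℂ (Lp ℂ 2 ν)) v⟫_ℂ := hS u v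
      rw [hu', inner_smul_left] at h2
      exact h2.symm
    rw [h1]
    by_cases hμ : μ = 0
    · simp [hμ]
    by_cases hu0 : u = 0
    · simp [hu0]
    have hreal : conj μ = μ := by
      apply hS.conj_eigenvalue_eq_self
      exact Module.End.hasEigenvalue_of_hasEigenvector ⟨hu, hu0⟩
    obtain ⟨c, rfl⟩ := Complex.conj_eq_iff_real.mp hreal
    have hc : c ≠ 0 := by rintro rfl; simp at hμ
    have h3 : ⟪u, v⟫_ℂ = 0 := by
      have h4 := (eigBasis hK ν ⟨c, hc⟩).sum_repr' ⟨u, hu⟩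
      have h5 : u = ∑ i, ⟪eigBasis hK ν ⟨c, hc⟩ i, (⟨u, hu⟩ : Module.End.eigenspace
          (hK.op ν : Module.End ℂ (Lp ℂ 2 ν)) (c : ℂ))⟫_ℂ • phi hK ν ⟨⟨c, hc⟩, i⟩ := by
        have h6 := congrArg Subtype.val h4
        refine h6.symm.trans ?_
        rw [Submodule.coe_sum]
        rfl
      rw [h5, sum_inner]
      refine Finset.sum_eq_zero fun i _ => ?_
      rw [inner_smul_left, hv, mul_zero]
    rw [h3, mul_zero]
  rw [h] at hmem
  simpa using hmem

end main


section final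

variable [MeasurableSpace.CountablyGenerated X] {K M : X → X → ℂ}

omit [MeasurableSpace.CountablyGenerated X] in
theorem op_of_Eig {hK : BK K} (hM : BK M) {c : ℝ} {f g : Eig hK ν c}
    (h : ∀ x, ∫ y, M x y * (f : X → ℂ) y ∂ν = (c : ℂ) * (g : X → ℂ) x) :
    hM.op ν (Eig.toL2 hK ν c f) = (c : ℂ) • Eig.toL2 hK ν c g := by
  refine Lp.ext ?_
  filter_upwards [hM.coeFn_op' (Eig.toL2 hK ν c f), Lp.coeFn_smul (c : ℂ) (Eig.toL2 hK ν c g),
    Eig.coeFn_toL2 g] with x h1 h2 h3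
  rw [h1, h2, Pi.smul_apply, h3, smul_eq_mul, ← h x]
  refine integral_congr_ae ?_
  filter_upwards [Eig.coeFn_toL2 f] with y hy
  rw [hy]

/-- **Abstract trace identity.** `K` a bounded measurable hermitian kernel on a finite measure
space, `M` a bounded measurable kernel which acts on every eigenspace `Eig hK ν c` as `c * B c`:
then `∫∫ K(x,y) M(y,x) = ∑_c c² tr (B c)`. -/
theorem hasSum_trace_Eig (hK : BK K) (hsym : ∀ x y, K y x = conj (K x y)) (hM : BK M)
    (B : ∀ c : ℝ, Eig hK ν c →ₗ[ℂ] Eig hK ν c)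
    (hB : ∀ c : ℝ, c ≠ 0 → ∀ (f : Eig hK ν c) (x : X),
      ∫ y, M x y * (f : X → ℂ) y ∂ν = (c : ℂ) * (B c f : X → ℂ) x) :
    HasSum (fun c : ℝ => (c : ℂ) ^ 2 * LinearMap.trace ℂ _ (B c))
      (∫ x, ∫ y, K x y * M y x ∂ν ∂ν) := by
  have hphi := orthonormal_phi (ν := ν) hK hsym
  obtain ⟨w, b, hs, hb⟩ := hphi.toSubtypeRange.exists_hilbertBasis_extension
  have : Fact ((2 : ℝ≥0∞) ≠ ∞) := ⟨by norm_num⟩
  have : Countable w := countable_of_orthonormal b.orthonormal
  have H := hK.hasSum_trace b hM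
  set g : Jdx hK ν → w := fun j => ⟨phi hK ν j, hs ⟨j, rfl⟩⟩ with hg
  have hginj : Function.Injective g := fun i j hij =>
    hphi.linearIndependent.injective (congrArg Subtype.val hij)
  have hout : ∀ x ∉ Set.range g, ⟪b x, hM.op ν (hK.op ν (b x))⟫_ℂ = 0 := by
    intro x hx
    have h0 : hK.op ν (b x) = 0 := by
      refine op_eq_zero_of_orthogonal hK hsym fun j => ?_
      have h1 : phi hK ν j = b (g j) := by rw [hb]
      rw [h1]
      exact b.orthonormal.2 fun e => hx ⟨j, e⟩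
    rw [h0]; simp
  have H2 := (hginj.hasSum_iff hout).mpr H
  have hfib : ∀ c : {c : ℝ // c ≠ 0}, HasSum (fun i => ((fun i : w =>
      ⟪b i, hM.op ν (hK.op ν (b i))⟫_ℂ) ∘ g) ⟨c, i⟩)
      (((c : ℝ) : ℂ) ^ 2 * LinearMap.trace ℂ _ (B c)) := by
    intro c
    have hfd := finite_eigenspace (ν := ν) hK c.2
    have e1 : LinearMap.trace ℂ _ (B c) = ∑ i, ⟪eigBasis hK ν c i,
        ((eigEquiv hK ν c.2).conj (B c)) (eigBasis hK ν c i)⟫_ℂ := by
      rw [← LinearMap.trace_eq_sum_inner, LinearMap.trace_conj']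
    rw [e1, Finset.mul_sum]
    convert hasSum_fintype _ using 1
    refine Finset.sum_congr rfl fun i _ => ?_
    set f := (eigEquiv hK ν c.2).symm (eigBasis hK ν c i) with hf
    have h1 : b (g ⟨c, i⟩) = Eig.toL2 hK ν c f := by
      rw [hb, ← coe_eigEquiv hK c.2, hf, LinearEquiv.apply_symm_apply]
      rfl
    have h2 : (eigBasis hK ν c i : Lp ℂ 2 ν) = Eig.toL2 hK ν c f := by
      rw [← coe_eigEquiv hK c.2, hf, LinearEquiv.apply_symm_apply]
    have h3 : ((((eigEquiv hK ν c.2).conj (B c)) (eigBasis hK ν c i) :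
        Module.End.eigenspace (hK.op ν : Module.End ℂ (Lp ℂ 2 ν)) ((c : ℝ) : ℂ)) : Lp ℂ 2 ν) =
        Eig.toL2 hK ν c (B c f) := rfl
    simp only [Function.comp_apply]
    rw [h1, Eig.op_toL2, map_smul, op_of_Eig hM (hB c c.2 f), inner_smul_right, inner_smul_right,
      Submodule.coe_inner, h2, h3]
    ring
  have H3 := H2.sigma hfib
  have hinj : Function.Injective (Subtype.val : {c : ℝ // c ≠ 0} → ℝ) := Subtype.val_injective
  refine (hinj.hasSum_iff (f := fun c : ℝ => (c : ℂ) ^ 2 * LinearMap.trace ℂ _ (B c)) ?_).mp H3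
  intro x hx
  have : x = 0 := by
    by_contra h
    exact hx ⟨⟨x, h⟩, rfl⟩
  subst this
  simp

end final

end Fermat.Agent.H32Z
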