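import Fermat.Agent.H17S3
import Fermat.Agent.H32ZEig
import Fermat.Agent.H21Z1

/-!
# S47, block (C): eigenfunctions of controlled kernels, twist of the model (helper17, C-OPS)

* `kop_eq_act`: `kop` of the automorphic kernel is `act`;
* `bounded_of_integrable` (O6): integrable eigenfunctions of a kernel with bounded automorphic kernel
  are bounded; `mem_Eig_of_act`;
* `twOf a : Tw PGL(2, K) m.μ` for `a : AutData m`.
-/

set_option autoImplicit false
set_option linter.unusedSectionVars false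

noncomputable section

open MeasureTheory Set Filter
open scoped ENNReal ComplexConjugate MatrixGroups

namespace Fermat.Agent.H17S

open Fermat.Agent.H32Z Fermat.Agent.H32Z.CutOff Fermat.Agent.H59XF Fermat.Agent.H59D

section Abs

variable {G X : Type*} [Group G] [MulAction G X] [MeasurableSpace X] {μ : Measure X}
  {𝒞 : Coarse G μ} {k l : X → X → ℂ}

variable [Countable G] [MeasurableConstSMul G X] [SMulInvariantMeasure G X μ] (c : CutOff G X)

theorem BInv.lb (f : H21Z.BInv G X) : LB 𝒞 (f : X → ℂ) := by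
  obtain ⟨C, hC⟩ := H21Z.BInv.bounded f
  exact LB.of_bounded (H21Z.BInv.measurable f) hC

/-- `kop` of the automorphic kernel is `act`. -/
theorem kop_eq_act [IsFiniteMeasure (c.ν μ)] (hk : CK 𝒞 k) (h : Bd G k)
    (hG : ∀ (g : G) x y, autK G k (g • x) y = autK G k x y) (f : H21Z.BInv G X) (x : X) :
    (H21Z.kop (h.BK hk) (c.ν μ) hG f : X → ℂ) x = act μ k (f : X → ℂ) x := by
  rw [H21Z.kop_apply]
  exact hk.integral_autK c (BInv.lb f) (H21Z.BInv.inv f) x

/-- Eigenfunctions of `act k` are eigenfunctions of the automorphic kernel. -/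
theorem mem_Eig_of_act [IsFiniteMeasure (c.ν μ)] (hk : CK 𝒞 k) (h : Bd G k) {Φ : X → ℂ}
    (hm : Measurable Φ) (hb : ∃ C : ℝ, ∀ x, ‖Φ x‖ ≤ C) (hinv : ∀ (g : G) x, Φ (g • x) = Φ x)
    {c₀ : ℝ} (hc : ∀ x, act μ k Φ x = (c₀ : ℂ) * Φ x) : Φ ∈ Eig (h.BK hk) (c.ν μ) c₀ := by
  obtain ⟨C, hC⟩ := hb
  refine ⟨hm, ⟨C, hC⟩, fun x => ?_⟩
  rw [← hc x]
  exact (hk.integral_autK c (LB.of_bounded hm hC) hinv x).symm

/-- Conversely, eigenfunctions of the automorphic kernel are eigenfunctions of `act k`. -/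
theorem act_of_mem_Eig [IsFiniteMeasure (c.ν μ)] (hk : CK 𝒞 k) (h : Bd G k) {Φ : X → ℂ}
    {c₀ : ℝ} (hc : c₀ ≠ 0) (hΦ : Φ ∈ Eig (h.BK hk) (c.ν μ) c₀) (x : X) :
    act μ k Φ x = (c₀ : ℂ) * Φ x := by
  have hinv : ∀ (g : G) x, Φ (g • x) = Φ x := fun g x =>
    H21Z.eig_inv (hK := h.BK hk) (fun g x y => autK_smul_left hk.inv x y g) hc ⟨Φ, hΦ⟩ g x
  obtain ⟨C, hC⟩ := hΦ.2.1
  rw [hΦ.2.2 x]
  exact (hk.integral_autK c (LB.of_bounded hΦ.1 hC) hinv x).symm

/-- **(O6)** An integrable, locally bounded invariant eigenfunction of a kernel whose automorphic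
kernel is bounded is bounded. -/
theorem bounded_of_integrable (hk : CK 𝒞 k) (h : Bd G k) {Φ : X → ℂ} (hlb : LB 𝒞 Φ)
    (hinv : ∀ (g : G) x, Φ (g • x) = Φ x) (hint : Integrable Φ (c.ν μ)) {c₀ : ℂ} (hc₀ : c₀ ≠ 0)
    (hc : ∀ x, act μ k Φ x = c₀ * Φ x) : ∃ C : ℝ, ∀ x, ‖Φ x‖ ≤ C := by
  obtain ⟨B, hB, hB'⟩ := h
  refine ⟨‖c₀‖⁻¹ * (B * ∫ y, ‖Φ y‖ ∂(c.ν μ)), fun x => ?_⟩
  have h1 : ‖c₀ * Φ x‖ ≤ B * ∫ y, ‖Φ y‖ ∂(c.ν μ) := by
    rw [← hc x, ← hk.integral_autK c hlb hinv x, ← integral_const_mul]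
    refine norm_integral_le_of_norm_le (hint.norm.const_mul B)
      (Filter.Eventually.of_forall fun y => ?_)
    rw [norm_mul]
    exact mul_le_mul_of_nonneg_right (hB' x y) (norm_nonneg _)
  rw [norm_mul] at h1
  have h2 : 0 < ‖c₀‖ := norm_pos_iff.2 hc₀
  calc ‖Φ x‖ = ‖c₀‖⁻¹ * (‖c₀‖ * ‖Φ x‖) := by field_simp
    _ ≤ _ := mul_le_mul_of_nonneg_left h1 (by positivity)

end Abs

/-! ### The twist of the model -/

section Model

variable {K : Type*} [Field K] [NumberField K] {J : Type*} [Fintype J] {m : Model K J}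
  (a : AutData m)

theorem measurable_actEquiv_symm : Measurable a.actEquiv.symm := by
  have hinv : ∀ x : m.X, a.actEquiv.symm x =
      ((fun j => x.1 (a.c j), Function.surjInv a.twist.act_surjective x.2) : (J → H3) × XF m.L.fam) := by
    intro x
    rw [Equiv.symm_apply_eq]
    show x = a.act _
    refine Prod.ext (funext fun j => ?_) ?_
    · obtain ⟨i, rfl⟩ := a.c.surjective j
      show _ = a.actInf (fun j => x.1 (a.c j)) (a.c i)
      rw [a.actInf_apply_c]
    · exact (Function.surjInv_eq a.twist.act_surjective x.2).symm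
  have h1 : Measurable fun x : (J → H3) × XF m.L.fam =>
      ((fun j => x.1 (a.c j), Function.surjInv a.twist.act_surjective x.2) :
        (J → H3) × XF m.L.fam) := by
    refine Measurable.prodMk ?_ ?_
    · exact measurable_pi_lambda _ fun j => (measurable_pi_apply (a.c j)).comp measurable_fst
    · exact (measurable_of_countable (Function.surjInv a.twist.act_surjective)).comp measurable_snd
  have h2 : (a.actEquiv.symm : m.X → m.X) = fun x : (J → H3) × XF m.L.fam =>
      ((fun j => x.1 (a.c j), Function.surjInv a.twist.act_surjective x.2) :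
        (J → H3) × XF m.L.fam) := funext hinv
  rw [h2]
  exact h1

/-- **The twist of the model.** -/
def twOf : Tw PGL(2, K) m.μ where
  s :=
    { toEquiv := a.actEquiv
      measurable_toFun := a.measurePreserving_act.measurable
      measurable_invFun := measurable_actEquiv_symm a }
  σ := AutData.pmap a.s
  smul g x := a.act_smul g x
  mp := a.measurePreserving_act

@[simp] theorem twOf_s_apply (x : m.X) : (twOf a).s x = a.act x := rfl

@[simp] theorem twOf_s_symm_apply (x : m.X) : (twOf a).s.symm x = a.actEquiv.symm x := rfl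

end Model

end Fermat.Agent.H17S
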