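import Fermat.Agent.H26ZSieg
import Fermat.Agent.H58RMink
import Fermat.Agent.H58RLines

/-!
# High points: only upper triangular elements (helper26, S47, package C7)
-/

set_option autoImplicit false
set_option linter.unusedSectionVars false

noncomputable section

open scoped nonZeroDivisors MatrixGroups NumberField
open Matrix NumberField

namespace Fermat.Agent.H26Z

/-- comparison of the norm forms of two points at bounded distance -/
theorem hh_le_ch (x x' : H3) (v : Fin 2 → ℂ) : hh x v ≤ 2 * H3.ch x x' * hh x' v := by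
  -- reduce to the base point
  have key : ∀ (x : H3) (v : Fin 2 → ℂ), hh x v ≤ 2 * H3.ch x H3.base * hh H3.base v := by
    intro x v
    have hy := x.pos
    have h1 : hh H3.base v = Complex.normSq (v 0) + Complex.normSq (v 1) := by
      simp [hh]
    have h2 : H3.ch x H3.base = (Complex.normSq x.z + x.y ^ 2 + 1) / (2 * x.y) := by
      simp [H3.ch]
    have h3 : Complex.normSq (v 0 - x.z * v 1) ≤
        (1 + Complex.normSq x.z) * (Complex.normSq (v 0) + Complex.normSq (v 1)) := by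
      simp only [Complex.normSq_eq_norm_sq]
      have h4 : ‖v 0 - x.z * v 1‖ ≤ ‖v 0‖ + ‖x.z‖ * ‖v 1‖ := by
        refine (norm_sub_le _ _).trans ?_
        rw [norm_mul]
      have h5 : ‖v 0 - x.z * v 1‖ ^ 2 ≤ (‖v 0‖ + ‖x.z‖ * ‖v 1‖) ^ 2 :=
        pow_le_pow_left₀ (norm_nonneg _) h4 2
      nlinarith [sq_nonneg (‖x.z‖ * ‖v 0‖ - ‖v 1‖)]
    rw [h1, h2, hh, div_le_iff₀ hy]
    have h6 : 2 * ((Complex.normSq x.z + x.y ^ 2 + 1) / (2 * x.y)) *
        (Complex.normSq (v 0) + Complex.normSq (v 1)) * x.y =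
        (Complex.normSq x.z + x.y ^ 2 + 1) * (Complex.normSq (v 0) + Complex.normSq (v 1)) := by
      field_simp
    rw [h6]
    nlinarith [Complex.normSq_nonneg (v 0), Complex.normSq_nonneg (v 1), sq_nonneg x.y,
      mul_nonneg (Complex.normSq_nonneg (v 0)) (sq_nonneg x.y)]
  obtain ⟨g, hg⟩ := H3.exists_smul_eq x' H3.base
  have h1 := key (g • x) (g • v)
  rw [← hg, hh_smul, hh_smul, H3.ch_smul] at h1
  have hpos : 0 < ‖g.1.det‖ := norm_pos_iff.mpr g.det.ne_zero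
  have h2 : ‖g.1.det‖ * hh x v ≤ ‖g.1.det‖ * (2 * H3.ch x x' * hh x' v) := by
    calc ‖g.1.det‖ * hh x v ≤ 2 * H3.ch x x' * (‖g.1.det‖ * hh x' v) := h1
      _ = _ := by ring
  exact le_of_mul_le_mul_left h2 hpos

variable {K : Type*} [Field K] [NumberField K] [IsTotallyComplex K] {J : Type*} [Fintype J]

/-- elements of a finitely generated module have norm bounded below -/
theorem exists_lower (e : J → K →+* ℂ)
    (he : Function.Bijective fun j => InfinitePlace.mk (e j)) {M : Submodule (𝓞 K) K}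
    (hM : M.FG) : ∃ ε : ℝ, 0 < ε ∧ ∀ x ∈ M, x ≠ 0 → ε ≤ ∏ j, ‖e j x‖ ^ 2 := by
  obtain ⟨S, rfl⟩ := hM
  obtain ⟨d, hd⟩ := IsLocalization.exist_integer_multiples_of_finset (𝓞 K)⁰ S
  have hd0 : (algebraMap (𝓞 K) K d) ≠ 0 := by
    intro h
    exact nonZeroDivisors.ne_zero d.2 ((FaithfulSMul.algebraMap_injective (𝓞 K) K)
      (h.trans (map_zero _).symm))
  have hden : ∀ x ∈ Submodule.span (𝓞 K) (S : Set K), ∃ r : 𝓞 K,
      algebraMap (𝓞 K) K r = algebraMap (𝓞 K) K d * x := by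
    intro x hx
    induction hx using Submodule.span_induction with
    | mem x hx =>
      obtain ⟨r, hr⟩ := hd x hx
      exact ⟨r, by rw [hr, Algebra.smul_def]⟩
    | zero => exact ⟨0, by simp⟩
    | add x y _ _ hx hy =>
      obtain ⟨r, hr⟩ := hx
      obtain ⟨s, hs⟩ := hy
      exact ⟨r + s, by rw [map_add, hr, hs, mul_add]⟩
    | smul a x _ hx =>
      obtain ⟨r, hr⟩ := hx
      exact ⟨a * r, by rw [map_mul, hr, Algebra.smul_def]; ring⟩
  have hpos : 0 < ∏ j, ‖e j (algebraMap (𝓞 K) K d)‖ ^ 2 :=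
    Finset.prod_pos fun j _ => pow_pos (norm_e_pos _ hd0) 2
  refine ⟨(∏ j, ‖e j (algebraMap (𝓞 K) K d)‖ ^ 2)⁻¹, inv_pos.mpr hpos, fun x hx hx0 => ?_⟩
  obtain ⟨r, hr⟩ := hden x hx
  have hr0 : algebraMap (𝓞 K) K r ≠ 0 := by rw [hr]; exact mul_ne_zero hd0 hx0
  have h1 : (1 : ℝ) ≤ ∏ j, ‖e j (algebraMap (𝓞 K) K r)‖ ^ 2 := by
    rw [← H58R.abs_norm_eq_prod_sq K e he]
    have h2 : (Algebra.norm ℚ (algebraMap (𝓞 K) K r) : ℚ) = ((Algebra.norm ℤ r : ℤ) : ℚ) :=
      (Algebra.coe_norm_int r).symm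
    rw [h2]
    have h3 : Algebra.norm ℤ r ≠ 0 := by
      rw [Algebra.norm_ne_zero_iff]
      intro h
      exact hr0 (by rw [h, map_zero])
    have h4 := Int.one_le_abs h3
    exact_mod_cast h4
  rw [hr] at h1
  have h5 : ∏ j, ‖e j (algebraMap (𝓞 K) K d * x)‖ ^ 2 =
      (∏ j, ‖e j (algebraMap (𝓞 K) K d)‖ ^ 2) * ∏ j, ‖e j x‖ ^ 2 := by
    rw [← Finset.prod_mul_distrib]
    exact Finset.prod_congr rfl fun j _ => by rw [map_mul, norm_mul, mul_pow]
  rw [h5] at h1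
  rw [inv_le_iff_one_le_mul₀ hpos, mul_comm]
  exact h1

theorem det2_e1 (v : Fin 2 → K) (b : K) : det2 v ![b, 0] = -(v 1 * b) := by
  simp [det2]

/-- the high part, fixed lattices and determinant -/
theorem high_one (e : J → K →+* ℂ) (he : Function.Bijective fun j => InfinitePlace.mk (e j))
    (Λ Λ' : Lat (𝓞 K) K) (δ : Kˣ) (R : ℝ) :
    ∃ T : ℝ, 0 ≤ T ∧ ∀ (g : GL (Fin 2) K) (w w' : J → H3), g • Λ' = Λ →
      GeneralLinearGroup.det g = δ → (∀ j, H3.ch (w j) (actJ e g w' j) ≤ R) →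
      T < (∏ j, (w j).y) * ∏ j, (w' j).y → g.1 1 0 = 0 := by
  obtain ⟨a, ha, ha'⟩ := Λ'.exists_e1
  obtain ⟨b, hb, hb'⟩ := Λ.exists_e1
  obtain ⟨ε, hε, hlow⟩ := exists_lower e he Λ.detM_fg
  set T1 : ℝ := ∏ j, (2 * |R| * (‖e j (δ : K)‖ * Complex.normSq (e j a)) *
    Complex.normSq (e j b)) with hT1
  have hT1' : 0 ≤ T1 := Finset.prod_nonneg fun j _ => by
    have h1 := Complex.normSq_nonneg (e j a)
    have h2 := Complex.normSq_nonneg (e j b)
    positivity
  refine ⟨T1 / ε, by positivity, fun g w w' hg hdet hch hT => ?_⟩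
  have hdet' : g.1.det = (δ : K) := congrArg Units.val hdet
  set v : Fin 2 → K := g • ![a, 0] with hv
  have hvmem : v ∈ Λ.M := by
    rw [← hg]
    exact Lat.smul_mem_smul.mpr ha'
  have hv1 : v 1 = g.1 1 0 * a := by
    rw [hv, Lat.gl_smul_one]
    simp
  by_contra hne
  have hd0 : det2 v ![b, 0] ≠ 0 := by
    rw [det2_e1, hv1]
    exact neg_ne_zero.mpr (mul_ne_zero (mul_ne_zero hne ha) hb)
  have h1 := hlow _ (Lat.det2_mem hvmem hb') hd0
  -- local bounds
  have h2 : ∀ j, ‖e j (det2 v ![b, 0])‖ ^ 2 ≤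
      (2 * |R| * (‖e j (δ : K)‖ * Complex.normSq (e j a)) * Complex.normSq (e j b)) /
        ((w j).y * (w' j).y) := by
    intro j
    have hy := (w j).pos
    have hy' := (w' j).pos
    have h3 : hh (actJ e g w' j) (ev (e j) v) =
        ‖e j (δ : K)‖ * (Complex.normSq (e j a) / (w' j).y) := by
      rw [hv, hh_actJ, hdet', ev_e1, hh_e1]
    have h4 : hh (w j) (ev (e j) v) ≤
        2 * |R| * (‖e j (δ : K)‖ * (Complex.normSq (e j a) / (w' j).y)) := by
      refine (hh_le_ch (w j) (actJ e g w' j) _).trans ?_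
      rw [h3]
      have h5 : 0 ≤ ‖e j (δ : K)‖ * (Complex.normSq (e j a) / (w' j).y) := by
        have := Complex.normSq_nonneg (e j a)
        positivity
      exact mul_le_mul_of_nonneg_right
        (mul_le_mul_of_nonneg_left ((hch j).trans (le_abs_self R)) (by norm_num)) h5
    have h6 : hh (w j) (ev (e j) ![b, 0]) = Complex.normSq (e j b) / (w j).y := by
      rw [ev_e1, hh_e1]
    have h7 := normSq_det_le (w j) (ev (e j) v) (ev (e j) ![b, 0])
    have h8 : (ev (e j) v 0 * ev (e j) ![b, 0] 1 - ev (e j) v 1 * ev (e j) ![b, 0] 0) =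
        e j (det2 v ![b, 0]) := by
      simp only [ev_apply, det2, map_sub, map_mul]
    rw [h8, Complex.normSq_eq_norm_sq, h6] at h7
    refine h7.trans ?_
    have h9 : 0 ≤ Complex.normSq (e j b) / (w j).y := by
      have := Complex.normSq_nonneg (e j b)
      positivity
    refine (mul_le_mul_of_nonneg_right h4 h9).trans (le_of_eq ?_)
    field_simp
  have h10 : ∏ j, ‖e j (det2 v ![b, 0])‖ ^ 2 ≤ T1 / ((∏ j, (w j).y) * ∏ j, (w' j).y) := by
    refine (Finset.prod_le_prod (fun j _ => by positivity) fun j _ => h2 j).trans (le_of_eq ?_)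
    rw [Finset.prod_div_distrib, Finset.prod_mul_distrib (f := fun j => (w j).y)]
  have hprod : 0 < (∏ j, (w j).y) * ∏ j, (w' j).y :=
    mul_pos (Finset.prod_pos fun j _ => (w j).pos) (Finset.prod_pos fun j _ => (w' j).pos)
  have h11 : ε ≤ T1 / ((∏ j, (w j).y) * ∏ j, (w' j).y) := h1.trans h10
  rw [le_div_iff₀ hprod] at h11
  rw [div_lt_iff₀ hε] at hT
  linarith [mul_comm ε ((∏ j, (w j).y) * ∏ j, (w' j).y)]

/-- [HIGH] if `w` and `g w'` are at bounded distance, `g l' = l` and the product of the heights is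
large then `g` is upper triangular -/
theorem high_latC (e : J → K →+* ℂ) (he : Function.Bijective fun j => InfinitePlace.mk (e j))
    (l l' : LatC (𝓞 K) K) (R : ℝ) :
    ∃ T : ℝ, 0 ≤ T ∧ ∀ (g : GL (Fin 2) K) (w w' : J → H3), ProjGenLinGroup.mk g • l' = l →
      (∀ j, H3.ch (w j) (actJ e g w' j) ≤ R) →
      T < (∏ j, (w j).y) * ∏ j, (w' j).y → g.1 1 0 = 0 := by
  obtain ⟨Λ, rfl⟩ := LatC.mk_surjective l
  obtain ⟨Λ', rfl⟩ := LatC.mk_surjective l'
  obtain ⟨P, hP, hlift⟩ := exists_lifts Λ' Λ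
  choose T hT hT' using fun p : (FractionalIdeal (𝓞 K)⁰ K)ˣ × Kˣ =>
    high_one e he (p.1 • Λ) Λ' p.2 R
  obtain ⟨T0, hT0⟩ := (hP.image T).bddAbove
  refine ⟨max T0 0, le_max_right _ _, fun g w w' h1 h2 h3 => ?_⟩
  obtain ⟨a, p, hp, h4, h5⟩ := hlift g h1
  have h6 := hT' p (GeneralLinearGroup.scalar (Fin 2) a * g) w w' h4 h5
    (fun j => by rw [actJ_scalar_mul]; exact h2 j)
    (((hT0 ⟨p, hp, rfl⟩).trans (le_max_left _ _)).trans_lt h3)
  have h7 : (GeneralLinearGroup.scalar (Fin 2) a * g).1 1 0 = (a : K) * g.1 1 0 := by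
    rw [Units.val_mul]
    simp [GeneralLinearGroup.scalar]
  rw [h7] at h6
  exact (mul_eq_zero.mp h6).resolve_left a.ne_zero

/-- [HIGH] for a `PGL₂(K)`-set with a map to the lattice classes and finite subsets -/
theorem high (e : J → K →+* ℂ) (he : Function.Bijective fun j => InfinitePlace.mk (e j))
    {Y : Type*} [MulAction PGL(2, K) Y] (π : Y → LatC (𝓞 K) K)
    (hπ : ∀ (g : PGL(2, K)) y, π (g • y) = g • π y) {Y0 Y1 : Set Y} (hY0 : Y0.Finite)
    (hY1 : Y1.Finite) (R : ℝ) :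
    ∃ T : ℝ, 0 ≤ T ∧ ∀ (g : GL (Fin 2) K) (w w' : J → H3) (y' : Y), y' ∈ Y1 →
      ProjGenLinGroup.mk g • y' ∈ Y0 →
      (∀ j, H3.ch (w j) (hAct e (ProjGenLinGroup.mk g) w' j) ≤ R) →
      T < (∏ j, (w j).y) * ∏ j, (w' j).y → g.1 1 0 = 0 := by
  choose T hT hT' using fun p : LatC (𝓞 K) K × LatC (𝓞 K) K => high_latC e he p.1 p.2 R
  obtain ⟨T0, hT0⟩ := (((hY0.image π).prod (hY1.image π)).image T).bddAbove
  refine ⟨max T0 0, le_max_right _ _, fun g w w' y' hy' h1 h2 h3 => ?_⟩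
  refine hT' (π (ProjGenLinGroup.mk g • y'), π y') g w w' (hπ _ _).symm h2
    (((hT0 ⟨_, ⟨⟨_, h1, rfl⟩, ⟨_, hy', rfl⟩⟩, rfl⟩).trans (le_max_left _ _)).trans_lt h3)

end Fermat.Agent.H26Z
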