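import Fermat.Agent.H64L3

/-!
# The fibres of `lat : XF L → LatC K` are finite (helper64, S47, C1-LAT)
-/

set_option autoImplicit false
set_option linter.unusedSectionVars false

noncomputable section

open scoped nonZeroDivisors MatrixGroups
open Matrix IsDedekindDomain HeightOneSpectrum WithZero

namespace Fermat.Agent.H64L

open Fermat.Agent.H26Z Fermat.Agent.H59D Fermat.Agent.H59XF

variable {R K : Type*} [CommRing R] [IsDedekindDomain R] [Field K] [Algebra R K]
  [IsFractionRing R K]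

theorem exists_le_exp (x : WithZero (Multiplicative ℤ)) : ∃ N : ℕ, x ≤ exp (N : ℤ) := by
  by_cases hx : x = 0
  · exact ⟨0, by rw [hx]; exact zero_le⟩
  · refine ⟨(log x).toNat, ?_⟩
    rw [← exp_log hx, exp_le_exp, exp_log hx]
    exact Int.self_le_toNat _

/-- `GL₂(O_w)` modulo the principal congruence subgroup of level `w ^ m` is finite -/
theorem exists_finite_reps (w : HeightOneSpectrum R) (m : ℕ) [Finite (R ⧸ w.asIdeal ^ m)] :
    ∃ T : Set (GL (Fin 2) K), T.Finite ∧ ∀ u ∈ GLw (K := K) w, ∃ t ∈ T, t ∈ GLw w ∧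
      t⁻¹ * u ∈ GLcong w m := by
  classical
  have happ : ∀ x : K, ∃ r : R, w.valuation K x ≤ 1 →
      w.valuation K (algebraMap R K r - x) ≤ exp (-(m : ℤ)) := fun x => by
    by_cases hx : w.valuation K x ≤ 1
    · obtain ⟨r, hr⟩ := exists_valuation_sub_lt_of_integer w hx
        (Units.mk0 (exp (-(m : ℤ))) exp_ne_zero)
      exact ⟨r, fun _ => hr.le⟩
    · exact ⟨0, fun h => absurd h hx⟩
  choose r hr using happ
  let φ : GL (Fin 2) K → Fin 2 → Fin 2 → R ⧸ w.asIdeal ^ m :=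
    fun u i j => Ideal.Quotient.mk _ (r (u.1 i j))
  let T : Set (GL (Fin 2) K) := Set.range fun y : (Fin 2 → Fin 2 → R ⧸ w.asIdeal ^ m) =>
    if h : ∃ u ∈ GLw (K := K) w, φ u = y then h.choose else 1
  refine ⟨T, Set.finite_range _, fun u hu => ?_⟩
  have hex : ∃ u' ∈ GLw (K := K) w, φ u' = φ u := ⟨u, hu, rfl⟩
  refine ⟨hex.choose, ⟨φ u, dif_pos hex⟩, hex.choose_spec.1, ?_⟩
  set t := hex.choose with ht
  have htw : t ∈ GLw w := hex.choose_spec.1
  have htφ : φ t = φ u := hex.choose_spec.2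
  refine ⟨mul_mem (inv_mem htw) hu, fun i j => ?_⟩
  have hsub : ∀ i j, w.valuation K (u.1 i j - t.1 i j) ≤ exp (-(m : ℤ)) := by
    intro i j
    have h1 : φ t i j = φ u i j := by rw [htφ]
    have h2 : r (u.1 i j) - r (t.1 i j) ∈ w.asIdeal ^ m := (Ideal.Quotient.eq).1 h1.symm
    rw [← intValuation_le_pow_iff_mem, ← valuation_of_algebraMap (K := K)] at h2
    have h3 : u.1 i j - t.1 i j = algebraMap R K (r (u.1 i j) - r (t.1 i j)) -
        (algebraMap R K (r (u.1 i j)) - u.1 i j) + (algebraMap R K (r (t.1 i j)) - t.1 i j) := by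
      rw [map_sub]; ring
    rw [h3]
    refine Valuation.map_add_le _ ((Valuation.map_sub _ _ _).trans (max_le h2 ?_)) ?_
    · exact hr _ (hu.1 i j)
    · exact hr _ (htw.1 i j)
  have h4 : ((t⁻¹ * u : GL (Fin 2) K) : Matrix (Fin 2) (Fin 2) K) - 1 =
      ((t⁻¹ : GL (Fin 2) K) : Matrix (Fin 2) (Fin 2) K) *
        ((u : Matrix (Fin 2) (Fin 2) K) - (t : Matrix (Fin 2) (Fin 2) K)) := by
    rw [mul_sub, ← Units.val_mul, ← Units.val_mul, inv_mul_cancel, Units.val_one]
  have h5 := congrFun (congrFun h4 i) j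
  rw [Matrix.sub_apply, Matrix.mul_apply] at h5
  rw [h5]
  refine Valuation.map_sum_le _ fun k _ => ?_
  rw [map_mul, Matrix.sub_apply]
  exact (mul_le_mul' ((inv_mem htw).1 i k) (hsub k j)).trans (by rw [one_mul])

/-- conjugates of small congruence subgroups are small -/
theorem exists_conj_le (w : HeightOneSpectrum R) (c : GL (Fin 2) K) (n : ℕ) :
    ∃ m : ℕ, ∀ γ ∈ GLcong (K := K) w m, c * γ * c⁻¹ ∈ GLcong w n := by
  have hbd : ∀ x : Fin 2 → Fin 2 → K, ∃ N : ℕ, ∀ i j, w.valuation K (x i j) ≤ exp (N : ℤ) := by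
    intro x
    choose A hA using fun i j => exists_le_exp (w.valuation K (x i j))
    refine ⟨∑ i, ∑ j, A i j, fun i j => (hA i j).trans ?_⟩
    rw [exp_le_exp]
    have h1 : A i j ≤ ∑ i, ∑ j, A i j :=
      (Finset.single_le_sum (f := fun j => A i j) (fun _ _ => Nat.zero_le _)
        (Finset.mem_univ j)).trans
      (Finset.single_le_sum (f := fun i => ∑ j, A i j) (fun _ _ => Nat.zero_le _)
        (Finset.mem_univ i))
    exact_mod_cast h1
  obtain ⟨A, hA⟩ := hbd c.1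
  obtain ⟨B, hB⟩ := hbd c⁻¹.1
  refine ⟨n + A + B, fun γ hγ => ?_⟩
  have key : ∀ i j, w.valuation K (((c * γ * c⁻¹ : GL (Fin 2) K) : Matrix (Fin 2) (Fin 2) K) i j -
      (1 : Matrix (Fin 2) (Fin 2) K) i j) ≤ exp (-(n : ℤ)) := by
    intro i j
    have h1 : ((c * γ * c⁻¹ : GL (Fin 2) K) : Matrix (Fin 2) (Fin 2) K) - 1 =
        (c : Matrix (Fin 2) (Fin 2) K) * ((γ : Matrix (Fin 2) (Fin 2) K) - 1) *
          ((c⁻¹ : GL (Fin 2) K) : Matrix (Fin 2) (Fin 2) K) := by
      rw [mul_sub, sub_mul, mul_one, ← Units.val_mul, ← Units.val_mul, ← Units.val_mul,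
        mul_inv_cancel, Units.val_one]
    have h2 := congrFun (congrFun h1 i) j
    rw [Matrix.sub_apply, Matrix.mul_apply] at h2
    rw [h2]
    refine Valuation.map_sum_le _ fun k _ => ?_
    rw [Matrix.mul_apply, Finset.sum_mul]
    refine Valuation.map_sum_le _ fun l _ => ?_
    rw [map_mul, map_mul, Matrix.sub_apply]
    calc _ ≤ exp (A : ℤ) * exp (-((n + A + B : ℕ) : ℤ)) *
          exp (B : ℤ) := mul_le_mul' (mul_le_mul' (hA i l) (hγ.2 l k)) (hB k j)
      _ ≤ _ := by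
        rw [← exp_add, ← exp_add, exp_le_exp]
        push_cast
        omega
  refine ⟨⟨fun i j => ?_, ?_⟩, key⟩
  · have h3 : ((c * γ * c⁻¹ : GL (Fin 2) K) : Matrix (Fin 2) (Fin 2) K) i j =
        (((c * γ * c⁻¹ : GL (Fin 2) K) : Matrix (Fin 2) (Fin 2) K) i j -
          (1 : Matrix (Fin 2) (Fin 2) K) i j) + (1 : Matrix (Fin 2) (Fin 2) K) i j := by ring
    rw [h3]
    refine Valuation.map_add_le _ ((key i j).trans ?_) ?_
    · rw [← exp_zero, exp_le_exp]; omega
    · rw [Matrix.one_apply]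
      split_ifs <;> simp
  · rw [Units.val_mul, Units.val_mul, Matrix.det_mul, Matrix.det_mul, mul_right_comm,
      ← Matrix.det_mul, ← Units.val_mul, mul_inv_cancel, Units.val_one, Matrix.det_one, one_mul]
    exact hγ.1.2

/-- the possible values at `w` of a point in a fibre of `lat` -/
def fib (L : Level R K) (w : HeightOneSpectrum R) : Set (PGL(2, K) ⧸ L.fam.U w) :=
  {y | ∃ k : GL (Fin 2) K, y = ((ProjGenLinGroup.mk k : PGL(2, K)) : PGL(2, K) ⧸ L.fam.U w) ∧
    ∃ u ∈ GLw w, k = cc L w * u * (cc L w)⁻¹}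

theorem finite_fib (L : Level R K) (w : HeightOneSpectrum R)
    (hfin : ∀ m : ℕ, Finite (R ⧸ w.asIdeal ^ m)) : (fib L w).Finite := by
  obtain ⟨n, hn⟩ := L.isOpen w
  obtain ⟨m, hm⟩ := exists_conj_le w (cc L w) n
  have := hfin m
  obtain ⟨T, hT, hT'⟩ := exists_finite_reps (K := K) w m
  refine (hT.image fun t => ((ProjGenLinGroup.mk (cc L w * t * (cc L w)⁻¹) : PGL(2, K)) :
    PGL(2, K) ⧸ L.fam.U w)).subset ?_
  rintro y ⟨k, rfl, u, hu, rfl⟩
  obtain ⟨t, ht, _, htu⟩ := hT' u hu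
  refine ⟨t, ht, ?_⟩
  rw [QuotientGroup.eq, ← map_inv, ← map_mul]
  refine hn ⟨(cc L w * t * (cc L w)⁻¹)⁻¹ * (cc L w * u * (cc L w)⁻¹), ?_, rfl⟩
  have h1 : (cc L w * t * (cc L w)⁻¹)⁻¹ * (cc L w * u * (cc L w)⁻¹) =
      cc L w * (t⁻¹ * u) * (cc L w)⁻¹ := by group
  rw [h1]
  exact hm _ htu

theorem mem_fib_of_isLat {L : Level R K} {x x' : XF L.fam} {Λ : Lat R K} (h : IsLat L x Λ)
    (h' : IsLat L x' Λ) (w : HeightOneSpectrum R) {g : GL (Fin 2) K}
    (hg : x w = ((ProjGenLinGroup.mk g : PGL(2, K)) : PGL(2, K) ⧸ L.fam.U w)) :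
    ∃ y ∈ fib L w, x' w = (ProjGenLinGroup.mk g : PGL(2, K)) • y := by
  obtain ⟨g0, hg0, hΛ⟩ := h w
  obtain ⟨g1, hg1, hΛ'⟩ := h' w
  obtain ⟨z, hz⟩ := std_of_mk_eq L w (hg0.symm.trans hg)
  -- `std (g1 c) = std (g0 c)`
  have h1 : std w (g * cc L w * GeneralLinearGroup.scalar (Fin 2) z⁻¹) = std w (g1 * cc L w) := by
    rw [← hΛ', hΛ]
    ext v
    rw [mem_std_scalar, hz, mem_std_scalar, smul_smul, inv_inv, Units.inv_mul, one_smul]
  have h2 := mem_GLw_of_std_eq h1
  refine ⟨((ProjGenLinGroup.mk (g⁻¹ * g1) : PGL(2, K)) : PGL(2, K) ⧸ L.fam.U w),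
    ⟨cc L w * ((g * cc L w * GeneralLinearGroup.scalar (Fin 2) z⁻¹)⁻¹ * (g1 * cc L w)) *
      (cc L w)⁻¹, ?_, _, h2, rfl⟩, ?_⟩
  · congr 1
    have h3 : cc L w * ((g * cc L w * GeneralLinearGroup.scalar (Fin 2) z⁻¹)⁻¹ * (g1 * cc L w)) *
      (cc L w)⁻¹ = g⁻¹ * g1 * GeneralLinearGroup.scalar (Fin 2) z := by
      rw [_root_.mul_inv_rev, ← map_inv, inv_inv, scalar_comm]
      have h4 : (g * cc L w)⁻¹ * GeneralLinearGroup.scalar (Fin 2) z * (g1 * cc L w) =
          (g * cc L w)⁻¹ * (g1 * cc L w) * GeneralLinearGroup.scalar (Fin 2) z := by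
        rw [mul_assoc, scalar_comm, ← mul_assoc]
      rw [h4]
      have h5 : cc L w * ((g * cc L w)⁻¹ * (g1 * cc L w) * GeneralLinearGroup.scalar (Fin 2) z) *
          (cc L w)⁻¹ = g⁻¹ * g1 * (cc L w * (GeneralLinearGroup.scalar (Fin 2) z * (cc L w)⁻¹)) := by
        group
      rw [h5, scalar_comm, ← mul_assoc (cc L w), mul_inv_cancel, one_mul]
    rw [h3, map_mul _ (g⁻¹ * g1), ProjGenLinGroup.mk_scalar, mul_one]
  · rw [hg1]
    show _ = (((ProjGenLinGroup.mk g : PGL(2, K)) * (ProjGenLinGroup.mk (g⁻¹ * g1)) : PGL(2, K)) :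
      PGL(2, K) ⧸ L.fam.U w)
    rw [← map_mul, mul_inv_cancel_left]

theorem fib_subsingleton {L : Level R K} {w : HeightOneSpectrum R} (h : L.U w = U0 w) :
    fib L w ⊆ {((1 : PGL(2, K)) : PGL(2, K) ⧸ L.fam.U w)} := by
  rintro y ⟨k, rfl, u, hu, rfl⟩
  rw [Set.mem_singleton_iff, cc_eq_one h, one_mul, inv_one, mul_one]
  refine (QuotientGroup.eq.2 ?_).symm
  rw [inv_one, one_mul]
  show _ ∈ L.U w
  rw [h]
  exact ⟨u, hu, rfl⟩

/-- the fibres of `lat` are finite -/
theorem finite_fiber (L : Level R K) (hfin : ∀ (w : HeightOneSpectrum R) (m : ℕ),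
    Finite (R ⧸ w.asIdeal ^ m)) (z : LatC R K) : {x | lat L x = z}.Finite := by
  classical
  obtain ⟨Λ, rfl⟩ := LatC.mk_surjective z
  by_cases hne : ∃ x, lat L x = LatC.mk Λ
  swap
  · push Not at hne
    convert Set.finite_empty
    ext x
    simpa using hne x
  obtain ⟨x0, hx0⟩ := hne
  rw [lat_eq_mk_iff] at hx0
  choose g hg using fun w => (QuotientGroup.mk_surjective (x0 w))
  choose g' hg' using fun w => (ProjGenLinGroup.mk_surjective (g w))
  have hx0g : ∀ w, x0 w = ((ProjGenLinGroup.mk (g' w) : PGL(2, K)) : PGL(2, K) ⧸ L.fam.U w) :=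
    fun w => by rw [hg' w]; exact (hg w).symm
  let S := L.fin.toFinset
  let F : {x | lat L x = LatC.mk Λ} → ((w : S) → {y // y ∈ (fun y => (g w.1) • y) '' fib L w.1}) :=
    fun x w => ⟨x.1 w.1, by
      obtain ⟨y, hy, hxy⟩ := mem_fib_of_isLat hx0 (lat_eq_mk_iff.1 x.2) w.1 (hx0g w.1)
      exact ⟨y, hy, by rw [← hg' w.1]; exact hxy.symm⟩⟩
  have hF : Function.Injective F := by
    intro x y hxy
    apply Subtype.ext
    apply XF.ext
    intro w
    by_cases hw : w ∈ S
    · have h1 := congrFun hxy ⟨w, hw⟩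
      exact congrArg Subtype.val h1
    · have hU : L.U w = U0 w := by simpa [S] using hw
      obtain ⟨a, ha, hxa⟩ := mem_fib_of_isLat hx0 (lat_eq_mk_iff.1 x.2) w (hx0g w)
      obtain ⟨b, hb, hyb⟩ := mem_fib_of_isLat hx0 (lat_eq_mk_iff.1 y.2) w (hx0g w)
      rw [hxa, hyb, Set.mem_singleton_iff.1 (fib_subsingleton hU ha),
        Set.mem_singleton_iff.1 (fib_subsingleton hU hb)]
  have : ∀ w : S, Finite {y // y ∈ (fun y => (g w.1) • y) '' fib L w.1} := fun w =>
    ((finite_fib L w.1 (hfin w.1)).image _).to_subtype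
  have h2 : Finite {x | lat L x = LatC.mk Λ} := Finite.of_injective F hF
  exact Set.toFinite _

/-- over a number field the fibres of `lat` are finite -/
theorem finite_fiber_numberField {K : Type*} [Field K] [NumberField K]
    (L : Level (NumberField.RingOfIntegers K) K)
    (z : LatC (NumberField.RingOfIntegers K) K) : {x | lat L x = z}.Finite :=
  finite_fiber L (fun w m => Ideal.finiteQuotientOfFreeOfNeBot _ (pow_ne_zero m w.ne_bot)) z

/-! ### Consequences for orbits and stabilisers (abstract) -/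

/-- if `π : Y → Z` is equivariant with finite fibres and `Z` is covered by finitely many orbits,
so is `Y` -/
theorem exists_finite_orbits {G Y Z : Type*} [Group G] [MulAction G Y] [MulAction G Z] {π : Y → Z}
    (hπ : ∀ (g : G) y, π (g • y) = g • π y) (hfib : ∀ z, {y | π y = z}.Finite)
    {Z0 : Set Z} (hZ0 : Z0.Finite) (hZ : ∀ z : Z, ∃ g : G, g • z ∈ Z0) :
    ∃ Y0 : Set Y, Y0.Finite ∧ (∀ y : Y, ∃ g : G, g • y ∈ Y0) ∧ Y0 = π ⁻¹' Z0 := by
  refine ⟨π ⁻¹' Z0, ?_, fun y => ?_, rfl⟩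
  · have h1 : π ⁻¹' Z0 = ⋃ z ∈ Z0, {y | π y = z} := by
      ext y; simp
    rw [h1]
    exact hZ0.biUnion fun z _ => hfib z
  · obtain ⟨g, hg⟩ := hZ (π y)
    exact ⟨g, by rw [Set.mem_preimage, hπ]; exact hg⟩

/-- the stabiliser of `y` has finite index in the stabiliser of `π y` -/
theorem relIndex_stabilizer_ne_zero {G Y Z : Type*} [Group G] [MulAction G Y] [MulAction G Z]
    {π : Y → Z} (hπ : ∀ (g : G) y, π (g • y) = g • π y) (y : Y)
    (hfib : {y' | π y' = π y}.Finite) :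
    (MulAction.stabilizer G y).relIndex (MulAction.stabilizer G (π y)) ≠ 0 := by
  have hfin : Finite {y' | π y' = π y} := hfib
  let H := MulAction.stabilizer G (π y)
  let f : H ⧸ (MulAction.stabilizer G y).subgroupOf H → {y' | π y' = π y} :=
    Quotient.lift (fun h : H => (⟨(h : G) • y, by
      show π ((h : G) • y) = π y
      rw [hπ]; exact h.2⟩ : {y' | π y' = π y})) (by
      intro a b hab
      have hab' := QuotientGroup.leftRel_apply.1 hab
      apply Subtype.ext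
      show (a : G) • y = (b : G) • y
      have h1 : ((a⁻¹ * b : H) : G) • y = y := hab'
      rw [Subgroup.coe_mul, mul_smul, Subgroup.coe_inv, inv_smul_eq_iff] at h1
      exact h1.symm)
  have hf : Function.Injective f := by
    intro a b
    induction a using QuotientGroup.induction_on with
    | H a =>
      induction b using QuotientGroup.induction_on with
      | H b =>
        intro h
        have h1 : (a : G) • y = (b : G) • y := congrArg Subtype.val h
        rw [QuotientGroup.eq]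
        show ((a⁻¹ * b : H) : G) • y = y
        rw [Subgroup.coe_mul, mul_smul, Subgroup.coe_inv, ← h1, inv_smul_smul]
  have h3 : Finite (H ⧸ (MulAction.stabilizer G y).subgroupOf H) := Finite.of_injective f hf
  exact Nat.card_ne_zero.2 ⟨inferInstance, h3⟩

end Fermat.Agent.H64L
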