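import Fermat.Agent.H26ZSieg
import Fermat.Agent.H32ZCut
import Fermat.Agent.H59Def2
import Fermat.Agent.H64L4
import Fermat.Agent.H2ZCov
import Fermat.Agent.H35BK1
import Fermat.Agent.H26ZHigh

/-!
# The Siegel set and the cut-off of the model (helper26, S47, package C7)
-/

set_option autoImplicit false
set_option linter.unusedSectionVars false

noncomputable section

open scoped nonZeroDivisors MatrixGroups NumberField ENNReal
open Matrix NumberField MeasureTheory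

namespace Fermat.Agent.H26Z

open Fermat.Agent.H59XF Fermat.Agent.H59D

variable {K : Type*} [Field K] [NumberField K] {J : Type*} [Fintype J] (m : Model K J)

/-- the Siegel set of the model -/
def sset (c C R : ℝ) (Y0 : Set (XF m.L.fam)) : Set m.X :=
  {x : m.X | x.1 ∈ siegel J c C R ∧ x.2 ∈ Y0}

theorem mem_sset {c C R : ℝ} {Y0 : Set (XF m.L.fam)} {x : m.X} :
    x ∈ sset m c C R Y0 ↔ x.1 ∈ siegel J c C R ∧ x.2 ∈ Y0 := Iff.rfl

theorem sset_eq (c C R : ℝ) (Y0 : Set (XF m.L.fam)) :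
    sset m c C R Y0 = (siegel J c C R ×ˢ Y0 : Set ((J → H3) × XF m.L.fam)) := rfl

theorem measurableSet_sset (c C R : ℝ) (Y0 : Set (XF m.L.fam)) :
    MeasurableSet (sset m c C R Y0) :=
  (measurableSet_siegel c C R).prod (MeasurableSet.of_discrete (s := Y0))

theorem μ_sset_lt_top {c : ℝ} (hc : 0 < c) (C R : ℝ) {Y0 : Set (XF m.L.fam)}
    (hY0 : Y0.Finite) : m.μ (sset m c C R Y0) < ⊤ := by
  have h1 : m.μ (sset m c C R Y0) = volume (siegel J c C R) * Measure.count Y0 :=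
    Measure.prod_prod _ _
  rw [h1]
  exact ENNReal.mul_lt_top (volume_siegel_lt_top hc C R) (Measure.count_apply_lt_top.mpr hY0)

/-- [FIN] for the model -/
theorem finite_sset {c : ℝ} (hc : 0 < c) (C R : ℝ) {Y0 : Set (XF m.L.fam)} (hY0 : Y0.Finite)
    (x : m.X) : {g : PGL(2, K) | g • x ∈ sset m c C R Y0}.Finite :=
  finite_siegel (full_of_bij m.e_bij) (H64L.lat m.L) (H64L.lat_smul m.L) hY0 x.1 x.2 hc C R

/-- the covering property -/
def Covers (c C R : ℝ) (Y0 : Set (XF m.L.fam)) : Prop :=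
  ∀ x : m.X, ∃ g : PGL(2, K), g • x ∈ sset m c C R Y0

instance : MeasurableConstSMul PGL(2, K) m.X := ⟨fun g => m.measurable_smul g⟩

instance : SMulInvariantMeasure PGL(2, K) m.X m.μ :=
  ⟨fun g _ hs => (m.measurePreserving_smul' g).measure_preimage hs.nullMeasurableSet⟩

/-- the cut-off attached to a Siegel set -/
def cutOff {c : ℝ} (hc : 0 < c) (C R : ℝ) {Y0 : Set (XF m.L.fam)} (hY0 : Y0.Finite)
    (hcov : Covers m c C R Y0) : H32Z.CutOff PGL(2, K) m.X :=
  H32Z.CutOff.ofSet (sset m c C R Y0) (measurableSet_sset m c C R Y0) hcov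
    (finite_sset m hc C R hY0)

theorem cutOff_χ_eq_zero {c : ℝ} (hc : 0 < c) (C R : ℝ) {Y0 : Set (XF m.L.fam)}
    (hY0 : Y0.Finite) (hcov : Covers m c C R Y0) {x : m.X} (hx : x ∉ sset m c C R Y0) :
    (cutOff m hc C R hY0 hcov).χ x = 0 := H32Z.CutOff.ofSet_χ_eq_zero hx

theorem isFiniteMeasure_cutOff {c : ℝ} (hc : 0 < c) (C R : ℝ) {Y0 : Set (XF m.L.fam)}
    (hY0 : Y0.Finite) (hcov : Covers m c C R Y0) :
    IsFiniteMeasure ((cutOff m hc C R hY0 hcov).ν m.μ) :=
  ⟨(H32Z.CutOff.ofSet_ν_univ_le m.μ).trans_lt (μ_sset_lt_top m hc C R hY0)⟩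

/-! ### The covering theorem for the model -/

/-- [COV] for the model, simultaneously with arbitrary finite additions to `Y0`. -/
theorem exists_covers : ∃ (Y0 : Set (XF m.L.fam)) (c C R : ℝ), Y0.Finite ∧ 0 < c ∧ 0 < C ∧ 0 < R ∧
    Covers m c C R Y0 := by
  have : IsTotallyComplex K := H35BK.isTotallyComplex m
  obtain ⟨Y0, c, C, R, hY0, hc, hC, hR, H⟩ := H2Z.exists_cover m.e m.e_bij (H64L.lat m.L)
    (H64L.lat_smul m.L) (H64L.finite_fiber_numberField m.L)
  exact ⟨Y0, c, C, R, hY0, hc, hC, hR, fun x => H x.1 x.2⟩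

/-- enlarging the Siegel set -/
theorem Covers.mono {c C R : ℝ} {Y0 : Set (XF m.L.fam)} (h : Covers m c C R Y0)
    {c' C' R' : ℝ} {Y0' : Set (XF m.L.fam)} (hc : c' ≤ c) (hC : C ≤ C') (hR : R ≤ R')
    (hY : Y0 ⊆ Y0') : Covers m c' C' R' Y0' := by
  intro x
  obtain ⟨g, h1, h2⟩ := h x
  refine ⟨g, ⟨fun j => hc.trans (h1.1 j), fun j k => (h1.2.1 j k).trans ?_,
    fun j => (h1.2.2 j).trans hR⟩, hY h2⟩
  exact mul_le_mul_of_nonneg_right hC ((g • x).1 k).pos.le

/-- A measurable set `S` which meets every orbit, in finitely many points, of finite measure. -/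
theorem exists_siegel_set : ∃ S : Set m.X, MeasurableSet S ∧ (∀ x, ∃ g : PGL(2, K), g • x ∈ S) ∧
    (∀ x, {g : PGL(2, K) | g • x ∈ S}.Finite) ∧ m.μ S < ⊤ := by
  obtain ⟨Y0, c, C, R, hY0, hc, hC, hR, H⟩ := exists_covers m
  exact ⟨sset m c C R Y0, measurableSet_sset m c C R Y0, H, finite_sset m hc C R hY0,
    μ_sset_lt_top m hc C R hY0⟩

/-- A cut-off of finite total mass. -/
theorem exists_cutOff : ∃ χ : H32Z.CutOff PGL(2, K) m.X, IsFiniteMeasure (χ.ν m.μ) := by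
  obtain ⟨Y0, c, C, R, hY0, hc, hC, hR, H⟩ := exists_covers m
  exact ⟨cutOff m hc C R hY0 H, isFiniteMeasure_cutOff m hc C R hY0 H⟩

/-- every cut-off has finite total mass -/
theorem isFiniteMeasure_ν (χ : H32Z.CutOff PGL(2, K) m.X) : IsFiniteMeasure (χ.ν m.μ) := by
  obtain ⟨χ', h⟩ := exists_cutOff m
  refine ⟨?_⟩
  have h1 := χ.lintegral_indep χ' (μ := m.μ) (F := fun _ => 1) aemeasurable_const
    (fun _ _ => rfl)
  rw [lintegral_one, lintegral_one] at h1
  rw [h1]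
  exact h.measure_univ_lt_top

end Fermat.Agent.H26Z
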