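import Fermat.Agent.H59XF

/-!
# The finite part of the kernel calculus on `XF L` (helper51, C-HECKE / C-OPS of S47)

On top of `H59XF` (restricted coset space `XF L`, local kernels `LocKer H`, global kernels
`GlobKer L`).

* `lop i κ f x = ∑ y, κ.k (x i) y • f (upd x i y)` : the operator of a local kernel at the place `i`;
* `gop a f x = ∑ y, a.k x y • f y` : the operator of a global kernel (finite sum);
* `gone`, `single`, `gmul`, `gtr`, `ltr` : unit, one-place kernel, product, transposes;
* `gop_gmul : gop (gmul a b) f = gop a (gop b f)`, `gmul_k`, `gop_single`, `lop_mul`, `lop_comm`,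
  `gop_smul` (equivariance), `gmul_single_comm`.
-/

set_option autoImplicit false

noncomputable section

open scoped Classical

namespace Fermat.Agent.H51Z

open Fermat.Agent.H59XF

variable {G : Type*} [Group G] {ι : Type*}

/-! ### Local kernels -/

section Loc

variable {H : Subgroup G}

/-- Finite support of a local kernel in the second variable. -/
def ls (κ : LocKer H) (x : G ⧸ H) : Finset (G ⧸ H) := (κ.fin_right x).toFinset

@[simp] theorem mem_ls {κ : LocKer H} {x y : G ⧸ H} : y ∈ ls κ x ↔ κ.k x y ≠ 0 := by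
  simp [ls]

/-- The transposed kernel. -/
def ltr (κ : LocKer H) : LocKer H where
  k x y := κ.k y x
  inv g x y := κ.inv g y x
  fin_right x := κ.fin_left x
  fin_left y := κ.fin_right y

@[simp] theorem ltr_k (κ : LocKer H) (x y : G ⧸ H) : (ltr κ).k x y = κ.k y x := rfl

@[simp] theorem ltr_ltr (κ : LocKer H) : ltr (ltr κ) = κ := rfl

@[simp] theorem ltr_one : ltr (LocKer.one : LocKer H) = LocKer.one := by
  ext x y
  simp only [ltr_k, LocKer.one_k, eq_comm]

/-- Sum of local kernels. -/
def ladd (κ κ' : LocKer H) : LocKer H where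
  k x y := κ.k x y + κ'.k x y
  inv g x y := by rw [κ.inv, κ'.inv]
  fin_right x := ((κ.fin_right x).union (κ'.fin_right x)).subset (by
    intro y hy
    by_contra h
    simp only [Set.mem_union, Set.mem_ofPred_eq, not_or, not_not] at h
    apply hy
    rw [h.1, h.2, add_zero])
  fin_left y := ((κ.fin_left y).union (κ'.fin_left y)).subset (by
    intro x hx
    by_contra h
    simp only [Set.mem_union, Set.mem_ofPred_eq, not_or, not_not] at h
    apply hx
    rw [h.1, h.2, add_zero])

@[simp] theorem ladd_k (κ κ' : LocKer H) (x y : G ⧸ H) :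
    (ladd κ κ').k x y = κ.k x y + κ'.k x y := rfl

/-- Scalar multiple of a local kernel. -/
def lsmul (c : ℂ) (κ : LocKer H) : LocKer H where
  k x y := c * κ.k x y
  inv g x y := by rw [κ.inv]
  fin_right x := (κ.fin_right x).subset (by
    intro y hy h
    exact hy (by rw [h, mul_zero]))
  fin_left y := (κ.fin_left y).subset (by
    intro y hy h
    exact hy (by rw [h, mul_zero]))

@[simp] theorem lsmul_k (c : ℂ) (κ : LocKer H) (x y : G ⧸ H) :
    (lsmul c κ).k x y = c * κ.k x y := rfl

/-- A local kernel is a constant times a sum over a finite set: `mul` as a `Finset` sum. -/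
theorem mul_k_eq_sum (κ κ' : LocKer H) (x z : G ⧸ H) :
    (LocKer.mul κ κ').k x z = ∑ y ∈ ls κ x, κ.k x y * κ'.k y z := by
  rw [LocKer.mul_k]
  apply finsum_eq_sum_of_support_subset
  intro y hy
  rw [Function.mem_support] at hy
  have : κ.k x y ≠ 0 := fun h => hy (by rw [h, zero_mul])
  simpa using this

@[simp] theorem one_lmul (κ : LocKer H) : LocKer.mul LocKer.one κ = κ := by
  ext x z
  rw [mul_k_eq_sum]
  have : ls (LocKer.one : LocKer H) x = {x} := by
    ext y
    simp [LocKer.one_k, eq_comm]
  rw [this, Finset.sum_singleton, LocKer.one_k, if_pos rfl, one_mul]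

@[simp] theorem lmul_one (κ : LocKer H) : LocKer.mul κ LocKer.one = κ := by
  ext x z
  rw [mul_k_eq_sum]
  simp only [LocKer.one_k, mul_ite, mul_one, mul_zero]
  rw [Finset.sum_ite_eq']
  split_ifs with h
  · rfl
  · simpa using (not_not.1 (fun h' => h (mem_ls.2 h'))).symm

theorem ltr_mul (κ κ' : LocKer H) :
    ltr (LocKer.mul κ κ') = LocKer.mul (ltr κ') (ltr κ) := by
  ext x z
  rw [ltr_k, LocKer.mul_k, LocKer.mul_k]
  apply finsum_congr
  intro y
  rw [ltr_k, ltr_k, mul_comm]

end Loc

variable {L : LevelFam G ι} {E : Type*} [AddCommGroup E] [Module ℂ E]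

/-! ### Operators of local kernels -/

/-- The operator of a local kernel at the place `i`. -/
def lop (i : ι) (κ : LocKer (L.U i)) (f : XF L → E) (x : XF L) : E :=
  ∑ y ∈ ls κ (x i), κ.k (x i) y • f (XF.upd x i y)

theorem lop_def (i : ι) (κ : LocKer (L.U i)) (f : XF L → E) (x : XF L) :
    lop i κ f x = ∑ y ∈ ls κ (x i), κ.k (x i) y • f (XF.upd x i y) := rfl

/-- The sum may be extended to any finite set containing the support. -/
theorem lop_eq_sum (i : ι) (κ : LocKer (L.U i)) (f : XF L → E) (x : XF L)
    {s : Finset (G ⧸ L.U i)} (hs : ∀ y, κ.k (x i) y ≠ 0 → y ∈ s) :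
    lop i κ f x = ∑ y ∈ s, κ.k (x i) y • f (XF.upd x i y) := by
  rw [lop_def]
  apply Finset.sum_subset
  · intro y hy
    exact hs y (mem_ls.1 hy)
  · intro y _ hy
    rw [mem_ls, not_not] at hy
    rw [hy, zero_smul]

@[simp] theorem lop_one (i : ι) (f : XF L → E) : lop i (LocKer.one : LocKer (L.U i)) f = f := by
  funext x
  have : ls (LocKer.one : LocKer (L.U i)) (x i) = {x i} := by
    ext y
    simp [LocKer.one_k, eq_comm]
  rw [lop_def, this, Finset.sum_singleton, LocKer.one_k, if_pos rfl, one_smul, XF.upd_self]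

theorem lop_mul (i : ι) (κ κ' : LocKer (L.U i)) (f : XF L → E) :
    lop i (LocKer.mul κ κ') f = lop i κ (lop i κ' f) := by
  funext x
  -- a finite set containing all relevant points
  have h1 : lop i (LocKer.mul κ κ') f x =
      ∑ z ∈ (ls κ (x i)).biUnion (fun y => ls κ' y),
        (LocKer.mul κ κ').k (x i) z • f (XF.upd x i z) := by
    apply lop_eq_sum
    intro z hz
    rw [mul_k_eq_sum] at hz
    obtain ⟨y, hy, hyz⟩ := Finset.exists_ne_zero_of_sum_ne_zero hz
    rw [Finset.mem_biUnion]
    exact ⟨y, hy, mem_ls.2 (fun h => hyz (by rw [h, mul_zero]))⟩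
  rw [h1, lop_def]
  have h2 : ∀ y ∈ ls κ (x i), κ.k (x i) y • lop i κ' f (XF.upd x i y) =
      ∑ z ∈ (ls κ (x i)).biUnion (fun y => ls κ' y),
        (κ.k (x i) y * κ'.k y z) • f (XF.upd x i z) := by
    intro y hy
    rw [lop_eq_sum (s := (ls κ (x i)).biUnion (fun y => ls κ' y)), Finset.smul_sum]
    · apply Finset.sum_congr rfl
      intro z _
      rw [XF.upd_same, XF.upd_upd, smul_smul]
    · intro z hz
      rw [XF.upd_same] at hz
      exact Finset.mem_biUnion.2 ⟨y, hy, mem_ls.2 hz⟩
  rw [Finset.sum_congr rfl h2, Finset.sum_comm]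
  apply Finset.sum_congr rfl
  intro z _
  rw [mul_k_eq_sum, Finset.sum_smul]

/-- Operators at different places commute. -/
theorem lop_comm {i j : ι} (hij : i ≠ j) (κ : LocKer (L.U i)) (κ' : LocKer (L.U j))
    (f : XF L → E) : lop i κ (lop j κ' f) = lop j κ' (lop i κ f) := by
  funext x
  simp only [lop_def, Finset.smul_sum]
  have h1 : ∀ y, (XF.upd x i y) j = x j := fun y => XF.upd_ne x (Ne.symm hij) y
  have h2 : ∀ y, (XF.upd x j y) i = x i := fun y => XF.upd_ne x hij y
  simp only [h1, h2]
  rw [Finset.sum_comm]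
  apply Finset.sum_congr rfl
  intro z _
  apply Finset.sum_congr rfl
  intro y _
  rw [smul_comm, XF.upd_comm x hij]

theorem lop_add (i : ι) (κ : LocKer (L.U i)) (f g : XF L → E) :
    lop i κ (f + g) = lop i κ f + lop i κ g := by
  funext x
  simp only [lop_def, Pi.add_apply, smul_add, Finset.sum_add_distrib]

theorem lop_smul_const (i : ι) (κ : LocKer (L.U i)) (c : ℂ) (f : XF L → E) :
    lop i κ (c • f) = c • lop i κ f := by
  funext x
  simp only [lop_def, Pi.smul_apply, Finset.smul_sum]
  apply Finset.sum_congr rfl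
  intro y _
  rw [smul_comm]

theorem lop_ladd (i : ι) (κ κ' : LocKer (L.U i)) (f : XF L → E) :
    lop i (ladd κ κ') f = lop i κ f + lop i κ' f := by
  funext x
  rw [Pi.add_apply,
    lop_eq_sum i (ladd κ κ') f x (s := ls κ (x i) ∪ ls κ' (x i)),
    lop_eq_sum i κ f x (s := ls κ (x i) ∪ ls κ' (x i)),
    lop_eq_sum i κ' f x (s := ls κ (x i) ∪ ls κ' (x i)), ← Finset.sum_add_distrib]
  · apply Finset.sum_congr rfl
    intro y _
    rw [ladd_k, add_smul]
  · intro y hy; exact Finset.mem_union_right _ (mem_ls.2 hy)
  · intro y hy; exact Finset.mem_union_left _ (mem_ls.2 hy)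
  · intro y hy
    by_contra h
    simp only [Finset.mem_union, mem_ls, not_or, not_not] at h
    exact hy (by rw [ladd_k, h.1, h.2, add_zero])

theorem lop_lsmul (i : ι) (c : ℂ) (κ : LocKer (L.U i)) (f : XF L → E) :
    lop i (lsmul c κ) f = c • lop i κ f := by
  funext x
  rw [Pi.smul_apply, lop_eq_sum i (lsmul c κ) f x (s := ls κ (x i)), lop_def, Finset.smul_sum]
  · apply Finset.sum_congr rfl
    intro y _
    rw [lsmul_k, smul_smul]
  · intro y hy
    rw [mem_ls]
    intro h
    exact hy (by rw [lsmul_k, h, mul_zero])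

theorem ls_smul (i : ι) (κ : LocKer (L.U i)) (g : G) (x : G ⧸ L.U i) :
    ls κ (g • x) = (ls κ x).image (fun y => g • y) := by
  ext y
  rw [mem_ls, Finset.mem_image]
  constructor
  · intro h
    refine ⟨g⁻¹ • y, ?_, by simp⟩
    rw [mem_ls, ← κ.inv g, smul_inv_smul]
    exact h
  · rintro ⟨z, hz, rfl⟩
    rw [κ.inv]
    exact mem_ls.1 hz

/-- Equivariance: left translations commute with the operators. `ρ g` is any family of maps. -/
theorem lop_smul (i : ι) (κ : LocKer (L.U i)) (f : XF L → E) (g : G) (x : XF L) :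
    lop i κ f (g • x) = lop i κ (fun y => f (g • y)) x := by
  rw [lop_def, lop_def, XF.smul_apply, ls_smul, Finset.sum_image]
  · apply Finset.sum_congr rfl
    intro y _
    rw [κ.inv, XF.smul_upd]
  · intro y _ y' _ h
    exact MulAction.injective g h

/-! ### Global kernels -/

/-- The unit global kernel. -/
def gone : GlobKer L := ⟨fun _ => LocKer.one, by simp⟩

@[simp] theorem gone_loc (i : ι) : (gone : GlobKer L).loc i = LocKer.one := rfl

/-- Product of global kernels. -/
def gmul (a b : GlobKer L) : GlobKer L :=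
  ⟨fun i => LocKer.mul (a.loc i) (b.loc i), (a.fin.union b.fin).subset (by
    intro i hi
    by_contra h
    simp only [Set.mem_union, Set.mem_ofPred_eq, not_or, not_not] at h
    apply hi
    rw [h.1, h.2, one_lmul])⟩

@[simp] theorem gmul_loc (a b : GlobKer L) (i : ι) :
    (gmul a b).loc i = LocKer.mul (a.loc i) (b.loc i) := rfl

/-- Transposed global kernel. -/
def gtr (a : GlobKer L) : GlobKer L :=
  ⟨fun i => ltr (a.loc i), a.fin.subset (by
    intro i hi h
    exact hi (by rw [h, ltr_one]))⟩

@[simp] theorem gtr_loc (a : GlobKer L) (i : ι) : (gtr a).loc i = ltr (a.loc i) := rfl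

theorem gtr_k (a : GlobKer L) (x y : XF L) : (gtr a).k x y = a.k y x := rfl

/-- Replace the local kernel at the place `i`. -/
def gset (a : GlobKer L) (i : ι) (κ : LocKer (L.U i)) : GlobKer L :=
  ⟨Function.update a.loc i κ, (a.fin.union (Set.finite_singleton i)).subset (by
    intro j hj
    by_cases h : j = i
    · right; exact h
    · left
      simpa [Function.update_of_ne h] using hj)⟩

@[simp] theorem gset_same (a : GlobKer L) (i : ι) (κ : LocKer (L.U i)) :
    (gset a i κ).loc i = κ := by simp [gset]

@[simp] theorem gset_ne (a : GlobKer L) {i j : ι} (h : j ≠ i) (κ : LocKer (L.U i)) :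
    (gset a i κ).loc j = a.loc j := by simp [gset, h]

/-- The kernel with `κ` at the place `i` and the unit everywhere else. -/
def single (i : ι) (κ : LocKer (L.U i)) : GlobKer L := gset gone i κ

@[simp] theorem single_same (i : ι) (κ : LocKer (L.U i)) : (single i κ : GlobKer L).loc i = κ :=
  gset_same _ _ _

@[simp] theorem single_ne {i j : ι} (h : j ≠ i) (κ : LocKer (L.U i)) :
    (single i κ : GlobKer L).loc j = LocKer.one := by
  rw [single, gset_ne _ h, gone_loc]

theorem gext {a b : GlobKer L} (h : ∀ i, a.loc i = b.loc i) : a = b := by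
  cases a; cases b
  congr
  exact funext h

theorem gset_gset (a : GlobKer L) (i : ι) (κ κ' : LocKer (L.U i)) :
    gset (gset a i κ) i κ' = gset a i κ' := by
  apply gext; intro j
  by_cases h : j = i
  · subst h; simp
  · simp [h]

@[simp] theorem gset_self (a : GlobKer L) (i : ι) : gset a i (a.loc i) = a := by
  apply gext; intro j
  by_cases h : j = i
  · subst h; simp
  · simp [h]

theorem gmul_gset (a b : GlobKer L) (i : ι) (κ κ' : LocKer (L.U i)) :
    gmul (gset a i κ) (gset b i κ') = gset (gmul a b) i (LocKer.mul κ κ') := by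
  apply gext; intro j
  by_cases h : j = i
  · subst h; simp
  · simp [h]

/-- If the kernel is nonzero then the points agree at all places with unit local kernel. -/
theorem eq_of_k_ne_zero {a : GlobKer L} {x y : XF L} (h : a.k x y ≠ 0) {i : ι}
    (hi : a.loc i = LocKer.one) : x i = y i := by
  have := (a.k_ne_zero_iff x y).1 h i
  rw [hi, LocKer.one_k] at this
  by_contra hne
  exact this (if_neg hne)

theorem supp_finite (a : GlobKer L) (x : XF L) : {y | a.k x y ≠ 0}.Finite := by
  have hinj : Set.InjOn (fun (y : XF L) (i : a.fin.toFinset) => y i.1) {y | a.k x y ≠ 0} := by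
    intro y hy y' hy' hyy
    apply XF.ext
    intro i
    by_cases hi : a.loc i = LocKer.one
    · rw [← eq_of_k_ne_zero hy hi, ← eq_of_k_ne_zero hy' hi]
    · exact congrFun hyy ⟨i, by simpa using hi⟩
  apply Set.Finite.of_finite_image ?_ hinj
  have hfin : (Set.univ.pi (fun i : a.fin.toFinset => {y : G ⧸ L.U i.1 |
      (a.loc i.1).k (x i.1) y ≠ 0})).Finite :=
    Set.Finite.pi (fun i => (a.loc i.1).fin_right (x i.1))
  refine hfin.subset ?_
  rintro _ ⟨y, hy, rfl⟩ i _
  exact (a.k_ne_zero_iff x y).1 hy i.1

/-- The support of a global kernel in the second variable. -/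
def gs (a : GlobKer L) (x : XF L) : Finset (XF L) := (supp_finite a x).toFinset

@[simp] theorem mem_gs {a : GlobKer L} {x y : XF L} : y ∈ gs a x ↔ a.k x y ≠ 0 := by
  simp [gs]

/-- The operator of a global kernel. -/
def gop (a : GlobKer L) (f : XF L → E) (x : XF L) : E := ∑ y ∈ gs a x, a.k x y • f y

theorem gop_def (a : GlobKer L) (f : XF L → E) (x : XF L) :
    gop a f x = ∑ y ∈ gs a x, a.k x y • f y := rfl

theorem gop_eq_sum (a : GlobKer L) (f : XF L → E) (x : XF L) {s : Finset (XF L)}
    (hs : ∀ y, a.k x y ≠ 0 → y ∈ s) : gop a f x = ∑ y ∈ s, a.k x y • f y := by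
  rw [gop_def]
  apply Finset.sum_subset
  · intro y hy
    exact hs y (mem_gs.1 hy)
  · intro y _ hy
    rw [mem_gs, not_not] at hy
    rw [hy, zero_smul]

theorem gop_eq_finsum (a : GlobKer L) (f : XF L → E) (x : XF L) :
    gop a f x = ∑ᶠ y, a.k x y • f y := by
  rw [gop_def]
  symm
  apply finsum_eq_sum_of_support_subset
  intro y hy
  rw [Function.mem_support] at hy
  have : a.k x y ≠ 0 := fun h => hy (by rw [h, zero_smul])
  simpa using this

theorem gone_k (x y : XF L) : (gone : GlobKer L).k x y = if x = y then 1 else 0 := by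
  by_cases h : x = y
  · subst h
    rw [if_pos rfl]
    unfold GlobKer.k
    rw [← finprod_one (α := ι)]
    apply finprod_congr
    intro i
    rw [gone_loc, LocKer.one_k, if_pos rfl]
  · rw [if_neg h]
    by_contra hne
    apply h
    apply XF.ext
    intro i
    exact eq_of_k_ne_zero hne (gone_loc i)

@[simp] theorem gop_gone (f : XF L → E) : gop (gone : GlobKer L) f = f := by
  funext x
  rw [gop_eq_sum _ _ _ (s := {x}), Finset.sum_singleton, gone_k, if_pos rfl, one_smul]
  intro y hy
  rw [gone_k] at hy
  by_contra h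
  apply hy
  rw [if_neg]
  intro h'
  exact h (by rw [h']; exact Finset.mem_singleton_self _)

/-- Splitting off one place. -/
theorem k_split (a : GlobKer L) (i : ι) (x y : XF L) :
    a.k x y = (a.loc i).k (x i) (y i) * (gset a i LocKer.one).k (XF.upd x i (y i)) y := by
  unfold GlobKer.k
  have hfin := a.mulSupport_finite x y
  have hfin' := (gset a i LocKer.one).mulSupport_finite (XF.upd x i (y i)) y
  set S := insert i (hfin.toFinset ∪ hfin'.toFinset) with hS
  rw [finprod_eq_prod_of_mulSupport_subset (s := S) _ (by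
      intro j hj
      simp only [hS, Finset.coe_insert, Finset.coe_union, Set.Finite.coe_toFinset]
      right; left; exact hj),
    finprod_eq_prod_of_mulSupport_subset (s := S) _ (by
      intro j hj
      simp only [hS, Finset.coe_insert, Finset.coe_union, Set.Finite.coe_toFinset]
      right; right; exact hj)]
  have hi : i ∈ S := Finset.mem_insert_self _ _
  rw [← Finset.mul_prod_erase S _ hi, ← Finset.mul_prod_erase S
    (fun j => ((gset a i LocKer.one).loc j).k ((XF.upd x i (y i)) j) (y j)) hi]
  rw [gset_same, XF.upd_same, LocKer.one_k, if_pos rfl, one_mul]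
  congr 1
  apply Finset.prod_congr rfl
  intro j hj
  have hji : j ≠ i := Finset.ne_of_mem_erase hj
  rw [gset_ne _ hji, XF.upd_ne _ hji]

/-- Lemma A: splitting off one place, operators. -/
theorem gop_split (a : GlobKer L) (i : ι) (f : XF L → E) :
    gop a f = lop i (a.loc i) (gop (gset a i LocKer.one) f) := by
  funext x
  rw [lop_def, gop_def]
  simp only [gop_def, Finset.smul_sum]
  rw [Finset.sum_sigma']
  symm
  apply Finset.sum_bij' (fun (p : Σ _ : G ⧸ L.U i, XF L) _ => p.2)
    (fun y _ => (⟨y i, y⟩ : Σ _ : G ⧸ L.U i, XF L))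
  · rintro ⟨u, y⟩ hp
    simp only [Finset.mem_sigma, mem_ls, mem_gs] at hp
    have hu : u = y i := by
      have := eq_of_k_ne_zero hp.2 (gset_same a i _)
      rwa [XF.upd_same] at this
    subst hu
    rw [mem_gs, k_split a i]
    exact mul_ne_zero hp.1 hp.2
  · intro y hy
    rw [mem_gs, k_split a i] at hy
    simp only [Finset.mem_sigma, mem_ls, mem_gs]
    exact ⟨left_ne_zero_of_mul hy, right_ne_zero_of_mul hy⟩
  · rintro ⟨u, y⟩ hp
    simp only [Finset.mem_sigma, mem_ls, mem_gs] at hp
    have hu : u = y i := by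
      have := eq_of_k_ne_zero hp.2 (gset_same a i _)
      rwa [XF.upd_same] at this
    simp [hu]
  · intro y _
    rfl
  · rintro ⟨u, y⟩ hp
    simp only [Finset.mem_sigma, mem_ls, mem_gs] at hp
    have hu : u = y i := by
      have := eq_of_k_ne_zero hp.2 (gset_same a i _)
      rwa [XF.upd_same] at this
    subst hu
    simp only [smul_smul]
    rw [← k_split a i]

theorem k_upd_upd (a : GlobKer L) {i : ι} (hi : a.loc i = LocKer.one) (x y : XF L)
    (h : x i = y i) (u : G ⧸ L.U i) : a.k (XF.upd x i u) (XF.upd y i u) = a.k x y := by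
  unfold GlobKer.k
  apply finprod_congr
  intro j
  by_cases hj : j = i
  · subst hj
    rw [hi, XF.upd_same, XF.upd_same, LocKer.one_k, if_pos rfl, LocKer.one_k, if_pos h]
  · rw [XF.upd_ne _ hj, XF.upd_ne _ hj]

/-- Lemma B: a local operator commutes with a global kernel which is the unit there. -/
theorem lop_gop_comm (a : GlobKer L) {i : ι} (hi : a.loc i = LocKer.one) (κ : LocKer (L.U i))
    (f : XF L → E) : lop i κ (gop a f) = gop a (lop i κ f) := by
  funext x
  simp only [lop_def, gop_def, Finset.smul_sum]
  rw [Finset.sum_sigma', Finset.sum_sigma']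
  apply Finset.sum_bij' (fun (p : Σ _ : G ⧸ L.U i, XF L) _ =>
      (⟨XF.upd p.2 i (x i), p.1⟩ : Σ _ : XF L, G ⧸ L.U i))
    (fun (p : Σ _ : XF L, G ⧸ L.U i) _ => (⟨p.2, XF.upd p.1 i p.2⟩ : Σ _ : G ⧸ L.U i, XF L))
  · rintro ⟨u, y⟩ hp
    simp only [Finset.mem_sigma, mem_ls, mem_gs] at hp ⊢
    have hu : u = y i := by
      have := eq_of_k_ne_zero hp.2 hi
      rwa [XF.upd_same] at this
    subst hu
    refine ⟨?_, ?_⟩
    · have := k_upd_upd a hi (XF.upd x i (y i)) y (by rw [XF.upd_same]) (x i)
      rw [XF.upd_upd, XF.upd_self] at this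
      rw [this]
      exact hp.2
    · rw [XF.upd_same]
      exact hp.1
  · rintro ⟨y, u⟩ hp
    simp only [Finset.mem_sigma, mem_ls, mem_gs] at hp ⊢
    have hxy : x i = y i := eq_of_k_ne_zero hp.1 hi
    refine ⟨?_, ?_⟩
    · rw [hxy]; exact hp.2
    · rw [k_upd_upd a hi x y hxy]
      exact hp.1
  · rintro ⟨u, y⟩ hp
    simp only [Finset.mem_sigma, mem_ls, mem_gs] at hp
    have hu : u = y i := by
      have := eq_of_k_ne_zero hp.2 hi
      rwa [XF.upd_same] at this
    subst hu
    simp only [XF.upd_upd, XF.upd_self]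
  · rintro ⟨y, u⟩ hp
    simp only [Finset.mem_sigma, mem_ls, mem_gs] at hp
    have hxy : x i = y i := eq_of_k_ne_zero hp.1 hi
    simp only [XF.upd_upd]
    rw [hxy, XF.upd_self]
  · rintro ⟨u, y⟩ hp
    simp only [Finset.mem_sigma, mem_ls, mem_gs] at hp
    have hu : u = y i := by
      have := eq_of_k_ne_zero hp.2 hi
      rwa [XF.upd_same] at this
    subst hu
    have h1 := k_upd_upd a hi (XF.upd x i (y i)) y (by rw [XF.upd_same]) (x i)
    rw [XF.upd_upd, XF.upd_self] at h1
    rw [h1, XF.upd_same, XF.upd_upd, XF.upd_self, smul_smul, smul_smul, mul_comm]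

/-- The operators of global kernels are multiplicative. -/
theorem gop_gmul (a b : GlobKer L) (f : XF L → E) : gop (gmul a b) f = gop a (gop b f) := by
  -- induction over a finite set of places outside which both kernels are the unit
  have main : ∀ (T : Finset ι) (a b : GlobKer L), (∀ i ∉ T, a.loc i = LocKer.one) →
      (∀ i ∉ T, b.loc i = LocKer.one) → gop (gmul a b) f = gop a (gop b f) := by
    intro T
    induction T using Finset.induction_on with
    | empty =>
      intro a b ha hb
      have ha' : a = gone := gext (fun i => ha i (by simp))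
      have hb' : b = gone := gext (fun i => hb i (by simp))
      subst ha'; subst hb'
      have : gmul (gone : GlobKer L) gone = gone := gext (fun i => by simp)
      rw [this, gop_gone, gop_gone]
    | insert i T hiT ih =>
      intro a b ha hb
      have h1 : gop (gmul (gset a i LocKer.one) (gset b i LocKer.one)) f =
          gop (gset a i LocKer.one) (gop (gset b i LocKer.one) f) := by
        apply ih
        · intro j hj
          by_cases hji : j = i
          · subst hji; simp
          · rw [gset_ne _ hji]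
            exact ha j (by simp [hji, hj])
        · intro j hj
          by_cases hji : j = i
          · subst hji; simp
          · rw [gset_ne _ hji]
            exact hb j (by simp [hji, hj])
      rw [gop_split (gmul a b) i, gmul_loc, lop_mul]
      have h2 : gset (gmul a b) i LocKer.one =
          gmul (gset a i LocKer.one) (gset b i LocKer.one) := by
        rw [gmul_gset, one_lmul]
      rw [h2, h1, lop_gop_comm _ (gset_same a i _), ← gop_split b i, ← gop_split a i]
  refine main (a.fin.toFinset ∪ b.fin.toFinset) a b ?_ ?_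
  · intro i hi
    by_contra h
    exact hi (by simp [h])
  · intro i hi
    by_contra h
    exact hi (by simp [h])

/-- The kernel of a product. -/
theorem gmul_k (a b : GlobKer L) (x z : XF L) :
    (gmul a b).k x z = ∑ᶠ y, a.k x y * b.k y z := by
  have h := congrFun (gop_gmul a b (fun y : XF L => if y = z then (1 : ℂ) else 0)) x
  have h1 : ∀ (c : GlobKer L) (x : XF L),
      gop c (fun y : XF L => if y = z then (1 : ℂ) else 0) x = c.k x z := by
    intro c x
    rw [gop_eq_finsum, finsum_eq_single _ z]
    · simp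
    · intro y hy
      simp [hy]
  rw [h1, gop_eq_finsum] at h
  rw [h]
  apply finsum_congr
  intro y
  rw [h1, smul_eq_mul]

@[simp] theorem gop_single (i : ι) (κ : LocKer (L.U i)) (f : XF L → E) :
    gop (single i κ) f = lop i κ f := by
  rw [gop_split _ i, single_same]
  have : gset (single i κ : GlobKer L) i LocKer.one = gone := by
    apply gext; intro j
    by_cases h : j = i
    · subst h; simp
    · simp [h]
  rw [this, gop_gone]

theorem gmul_single_single (i : ι) (κ κ' : LocKer (L.U i)) :
    gmul (single i κ : GlobKer L) (single i κ') = single i (LocKer.mul κ κ') := by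
  apply gext; intro j
  by_cases h : j = i
  · subst h; simp
  · simp [h]

theorem gmul_comm_of {a b : GlobKer L}
    (h : ∀ i, LocKer.mul (a.loc i) (b.loc i) = LocKer.mul (b.loc i) (a.loc i)) :
    gmul a b = gmul b a := gext h

/-- One-place kernels at different places commute. -/
theorem gmul_single_comm {i j : ι} (hij : i ≠ j) (κ : LocKer (L.U i)) (κ' : LocKer (L.U j)) :
    gmul (single i κ : GlobKer L) (single j κ') = gmul (single j κ') (single i κ) := by
  apply gmul_comm_of
  intro k
  by_cases h : k = i
  · subst h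
    rw [single_ne (Ne.symm hij.symm) κ']
    simp
  · rw [single_ne h κ]
    simp

/-- A one-place kernel commutes with every kernel whose local component there commutes. -/
theorem gmul_single_comm' {i : ι} (a : GlobKer L) (κ : LocKer (L.U i))
    (h : LocKer.mul (a.loc i) κ = LocKer.mul κ (a.loc i)) :
    gmul a (single i κ) = gmul (single i κ) a := by
  apply gmul_comm_of
  intro k
  by_cases hk : k = i
  · subst hk
    rw [single_same, h]
  · rw [single_ne hk κ]
    simp

theorem gop_add (a : GlobKer L) (f g : XF L → E) : gop a (f + g) = gop a f + gop a g := by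
  funext x
  simp only [gop_def, Pi.add_apply, smul_add, Finset.sum_add_distrib]

theorem gop_smul_const (a : GlobKer L) (c : ℂ) (f : XF L → E) : gop a (c • f) = c • gop a f := by
  funext x
  simp only [gop_def, Pi.smul_apply, Finset.smul_sum]
  apply Finset.sum_congr rfl
  intro y _
  rw [smul_comm]

theorem gs_smul (a : GlobKer L) (g : G) (x : XF L) :
    gs a (g • x) = (gs a x).image (fun y => g • y) := by
  ext y
  rw [mem_gs, Finset.mem_image]
  constructor
  · intro h
    refine ⟨g⁻¹ • y, ?_, by simp⟩
    rw [mem_gs, ← a.k_smul g, smul_inv_smul]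
    exact h
  · rintro ⟨z, hz, rfl⟩
    rw [a.k_smul]
    exact mem_gs.1 hz

/-- Equivariance under left translations. -/
theorem gop_smul (a : GlobKer L) (f : XF L → E) (g : G) (x : XF L) :
    gop a f (g • x) = gop a (fun y => f (g • y)) x := by
  rw [gop_def, gop_def, gs_smul, Finset.sum_image]
  · apply Finset.sum_congr rfl
    intro y _
    rw [a.k_smul]
  · intro y _ y' _ h
    exact MulAction.injective g h

/-! ### Twists -/

/-- `b` is the transport of `a` under the automorphism `t`. -/
def IsTw (t : Twist L) (a b : GlobKer L) : Prop :=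
  ∀ (i : ι) (x y : G ⧸ L.U i), (b.loc (t.σ i)).k (t.cmap i x) (t.cmap i y) = (a.loc i).k x y

theorem IsTw.k_act {t : Twist L} {a b : GlobKer L} (h : IsTw t a b) (x y : XF L) :
    b.k (t.act x) (t.act y) = a.k x y := by
  unfold GlobKer.k
  rw [← finprod_comp_equiv t.σ]
  apply finprod_congr
  intro i
  rw [Twist.act_apply_σ, Twist.act_apply_σ, h i]

theorem IsTw.gop_act {t : Twist L} {a b : GlobKer L} (h : IsTw t a b) (f : XF L → E)
    (x : XF L) : gop b f (t.act x) = gop a (fun y => f (t.act y)) x := by
  have h1 : gs b (t.act x) = (gs a x).image t.act := by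
    ext y
    rw [mem_gs, Finset.mem_image]
    constructor
    · intro hy
      obtain ⟨z, rfl⟩ := t.act_surjective y
      exact ⟨z, mem_gs.2 (by rwa [h.k_act] at hy), rfl⟩
    · rintro ⟨z, hz, rfl⟩
      rw [h.k_act]
      exact mem_gs.1 hz
  rw [gop_def, gop_def, h1, Finset.sum_image]
  · apply Finset.sum_congr rfl
    intro y _
    rw [h.k_act]
  · intro y _ y' _ hyy
    exact t.act_injective hyy

end Fermat.Agent.H51Z
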