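import Mathlib
import Fermat.Agent.H31Hyp2

/-!
# Size of a matrix moving a point of hyperbolic 3-space by a bounded distance (H58, PD0)
-/

open Matrix
open scoped MatrixGroups

noncomputable section

namespace Fermat.Agent.H58PD

/-- the sum of the squares of the absolute values of the entries -/
def fr (M : Matrix (Fin 2) (Fin 2) ℂ) : ℝ :=
  ‖M 0 0‖ ^ 2 + ‖M 0 1‖ ^ 2 + ‖M 1 0‖ ^ 2 + ‖M 1 1‖ ^ 2

theorem fr_nonneg (M : Matrix (Fin 2) (Fin 2) ℂ) : 0 ≤ fr M := by unfold fr; positivity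

theorem norm_sq_le_fr (M : Matrix (Fin 2) (Fin 2) ℂ) (i j : Fin 2) : ‖M i j‖ ^ 2 ≤ fr M := by
  unfold fr
  fin_cases i <;> fin_cases j <;> simp <;> nlinarith [sq_nonneg ‖M 0 0‖, sq_nonneg ‖M 0 1‖,
    sq_nonneg ‖M 1 0‖, sq_nonneg ‖M 1 1‖]

theorem cs_aux (a b c d : ℂ) :
    ‖a * b + c * d‖ ^ 2 ≤ (‖a‖ ^ 2 + ‖c‖ ^ 2) * (‖b‖ ^ 2 + ‖d‖ ^ 2) := by
  have h1 : ‖a * b + c * d‖ ≤ ‖a‖ * ‖b‖ + ‖c‖ * ‖d‖ := by
    refine (norm_add_le _ _).trans_eq ?_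
    rw [norm_mul, norm_mul]
  have h2 := pow_le_pow_left₀ (norm_nonneg _) h1 2
  nlinarith [sq_nonneg (‖a‖ * ‖d‖ - ‖c‖ * ‖b‖)]

theorem fr_mul_le (M N : Matrix (Fin 2) (Fin 2) ℂ) : fr (M * N) ≤ fr M * fr N := by
  have e : ∀ i j, (M * N) i j = M i 0 * N 0 j + M i 1 * N 1 j := fun i j => by
    rw [Matrix.mul_apply, Fin.sum_univ_two]
  have h00 := cs_aux (M 0 0) (N 0 0) (M 0 1) (N 1 0)
  have h01 := cs_aux (M 0 0) (N 0 1) (M 0 1) (N 1 1)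
  have h10 := cs_aux (M 1 0) (N 0 0) (M 1 1) (N 1 0)
  have h11 := cs_aux (M 1 0) (N 0 1) (M 1 1) (N 1 1)
  unfold fr
  rw [e, e, e, e]
  calc _ ≤ (‖M 0 0‖ ^ 2 + ‖M 0 1‖ ^ 2) * (‖N 0 0‖ ^ 2 + ‖N 1 0‖ ^ 2) +
      (‖M 0 0‖ ^ 2 + ‖M 0 1‖ ^ 2) * (‖N 0 1‖ ^ 2 + ‖N 1 1‖ ^ 2) +
      (‖M 1 0‖ ^ 2 + ‖M 1 1‖ ^ 2) * (‖N 0 0‖ ^ 2 + ‖N 1 0‖ ^ 2) +
      (‖M 1 0‖ ^ 2 + ‖M 1 1‖ ^ 2) * (‖N 0 1‖ ^ 2 + ‖N 1 1‖ ^ 2) := by
        gcongr
    _ = _ := by ring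

/-- distance from the base point: `2 |det h| ch(h • base, base) = Σ |h_ij|²` -/
theorem fr_eq (h : GL (Fin 2) ℂ) :
    fr h.1 = 2 * H3.ch (h • H3.base) H3.base * ‖(h : Matrix (Fin 2) (Fin 2) ℂ).det‖ := by
  have h1 := H3.posDef_trace (h • H3.base)
  have hd : (h : Matrix (Fin 2) (Fin 2) ℂ).det ≠ 0 := h.det.ne_zero
  have hd' : (0 : ℝ) < ‖(h : Matrix (Fin 2) (Fin 2) ℂ).det‖ := norm_pos_iff.2 hd
  rw [H3.herm_smul, H3.herm_base, Matrix.mul_one, Matrix.trace_smul, Matrix.trace_fin_two] at h1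
  have h2 : ∀ i, ((h : Matrix (Fin 2) (Fin 2) ℂ) * (h : Matrix (Fin 2) (Fin 2) ℂ)ᴴ) i i
      = ((‖(h : Matrix (Fin 2) (Fin 2) ℂ) i 0‖ ^ 2 + ‖(h : Matrix (Fin 2) (Fin 2) ℂ) i 1‖ ^ 2 : ℝ)
        : ℂ) := by
    intro i
    rw [Matrix.mul_apply, Fin.sum_univ_two, Matrix.conjTranspose_apply, Matrix.conjTranspose_apply,
      Complex.star_def, Complex.mul_conj, Complex.mul_conj,
      Complex.normSq_eq_norm_sq, Complex.normSq_eq_norm_sq]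
    push_cast
    rfl
  rw [h2, h2, smul_eq_mul] at h1
  have h3 : ‖(h : Matrix (Fin 2) (Fin 2) ℂ).det‖⁻¹ * fr h.1 = 2 * H3.ch (h • H3.base) H3.base := by
    have : ((‖(h : Matrix (Fin 2) (Fin 2) ℂ).det‖⁻¹ * fr h.1 : ℝ) : ℂ)
        = ((2 * H3.ch (h • H3.base) H3.base : ℝ) : ℂ) := by
      rw [← h1]
      unfold fr
      push_cast
      ring
    exact_mod_cast this
  rw [← h3]
  field_simp

theorem toPt_inv_smul (w : H3) : (H3.toPt w)⁻¹ • w = H3.base := by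
  rw [inv_smul_eq_iff, H3.toPt_smul]

theorem fr_inv (h : GL (Fin 2) ℂ) :
    fr (h⁻¹).1 = fr h.1 / ‖(h : Matrix (Fin 2) (Fin 2) ℂ).det‖ ^ 2 := by
  have hd : (h : Matrix (Fin 2) (Fin 2) ℂ).det ≠ 0 := h.det.ne_zero
  have hinv : ((h⁻¹ : GL (Fin 2) ℂ) : Matrix (Fin 2) (Fin 2) ℂ) =
      (h : Matrix (Fin 2) (Fin 2) ℂ).det⁻¹ • (h : Matrix (Fin 2) (Fin 2) ℂ).adjugate := by
    rw [Matrix.coe_units_inv, Matrix.inv_def, Ring.inverse_eq_inv']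
  have e : ∀ i j, (h⁻¹).1 i j = (h : Matrix (Fin 2) (Fin 2) ℂ).det⁻¹ *
      (h : Matrix (Fin 2) (Fin 2) ℂ).adjugate i j := fun i j => by
    rw [hinv]; rfl
  unfold fr
  rw [e, e, e, e, Matrix.adjugate_fin_two]
  simp only [Matrix.of_apply, Matrix.cons_val', Matrix.cons_val_zero, Matrix.cons_val_one,
    Matrix.cons_val_fin_one, norm_mul, norm_inv, norm_neg]
  field_simp
  ring

/-- **PD0**: the entries of a matrix `g` with `ch w (g w') ≤ R` are bounded by `|det g|`. -/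
theorem fr_le (g : GL (Fin 2) ℂ) (w w' : H3) :
    fr g.1 ≤ 2 * H3.ch w (g • w') * ‖(g : Matrix (Fin 2) (Fin 2) ℂ).det‖ *
      (2 * H3.ch w H3.base) * (2 * H3.ch w' H3.base) := by
  set t := H3.toPt w with ht
  set t' := H3.toPt w' with ht'
  set h : GL (Fin 2) ℂ := t⁻¹ * g * t' with hh
  have hg : g = t * h * t'⁻¹ := by rw [hh]; group
  have hch : H3.ch (h • H3.base) H3.base = H3.ch w (g • w') := by
    rw [hh, mul_smul, mul_smul, ht', H3.toPt_smul, H3.ch_comm, ← H3.ch_smul t, ht, H3.toPt_smul,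
      smul_inv_smul]
  have h1 := fr_eq h
  rw [hch] at h1
  have h2 := fr_eq t
  rw [ht, H3.toPt_smul, ← ht] at h2
  have h3 := fr_eq t'
  rw [ht', H3.toPt_smul, ← ht'] at h3
  have h4 := fr_inv t'
  have hdt : (0 : ℝ) < ‖(t : Matrix (Fin 2) (Fin 2) ℂ).det‖ := norm_pos_iff.2 t.det.ne_zero
  have hdt' : (0 : ℝ) < ‖(t' : Matrix (Fin 2) (Fin 2) ℂ).det‖ := norm_pos_iff.2 t'.det.ne_zero
  have hdet : ‖(h : Matrix (Fin 2) (Fin 2) ℂ).det‖ =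
      ‖(g : Matrix (Fin 2) (Fin 2) ℂ).det‖ * ‖(t' : Matrix (Fin 2) (Fin 2) ℂ).det‖ /
        ‖(t : Matrix (Fin 2) (Fin 2) ℂ).det‖ := by
    have h5 : (g : Matrix (Fin 2) (Fin 2) ℂ) * t' = t * h := by
      rw [← Units.val_mul, ← Units.val_mul, hh]
      congr 1
      group
    have h6 := congrArg (fun M : Matrix (Fin 2) (Fin 2) ℂ => ‖M.det‖) h5
    simp only [Matrix.det_mul, norm_mul] at h6
    rw [h6]
    field_simp
  calc fr g.1 = fr ((t.1 * h.1) * (t'⁻¹).1) := by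
        conv_lhs => rw [hg]
        rfl
    _ ≤ fr t.1 * fr h.1 * fr (t'⁻¹).1 := by
        refine (fr_mul_le _ _).trans ?_
        exact mul_le_mul_of_nonneg_right (fr_mul_le _ _) (fr_nonneg _)
    _ = _ := by
        rw [h4, h1, h2, h3, hdet]
        field_simp

end Fermat.Agent.H58PD

end
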