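import Mathlib
import Fermat.Agent.H26ZLat
import Fermat.Agent.H58RStein

/-!
# Matrices moving one lattice class to another one are bounded (H58, PD1)

For a finite set `Y0` of lattice classes there are `d ≠ 0` and a finite set `D` of nonzero elements
such that every `g ∈ GL₂(K)` with `g y' = y`, `y, y' ∈ Y0`, has a scalar multiple with entries in
`d⁻¹ 𝓞 K` and determinant in `D`.
-/

open NumberField Module Matrix
open scoped nonZeroDivisors MatrixGroups

set_option linter.unusedSectionVars false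
set_option linter.overlappingInstances false

noncomputable section

namespace Fermat.Agent.H58PD

open Fermat.Agent.H26Z

section Dedekind

variable {R K : Type*} [CommRing R] [IsDedekindDomain R] [Field K] [Algebra R K]
  [IsFractionRing R K]

/-- common denominator of a finitely generated submodule of `K²` -/
theorem exists_denom {M : Submodule R (Fin 2 → K)} (hM : M.FG) :
    ∃ d : R, d ≠ 0 ∧ ∀ v ∈ M, ∀ i, ∃ a : R, algebraMap R K d * v i = algebraMap R K a := by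
  classical
  obtain ⟨S, hS⟩ := hM
  obtain ⟨b, hb⟩ := IsLocalization.exist_integer_multiples_of_finset R⁰
    (S.image (fun v : Fin 2 → K => v 0) ∪ S.image (fun v : Fin 2 → K => v 1))
  refine ⟨b, nonZeroDivisors.ne_zero b.2, fun v hv => ?_⟩
  rw [← hS] at hv
  induction hv using Submodule.span_induction with
  | mem v hv =>
    intro i
    have h1 : IsLocalization.IsInteger R ((b : R) • (v i)) := by
      apply hb
      fin_cases i
      · exact Finset.mem_union_left _ (Finset.mem_image_of_mem _ hv)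
      · exact Finset.mem_union_right _ (Finset.mem_image_of_mem _ hv)
    obtain ⟨a, ha⟩ := h1
    exact ⟨a, by rw [ha, Algebra.smul_def]⟩
  | zero => exact fun i => ⟨0, by simp⟩
  | add v w _ _ hv hw =>
    intro i
    obtain ⟨a, ha⟩ := hv i
    obtain ⟨a', ha'⟩ := hw i
    exact ⟨a + a', by rw [Pi.add_apply, mul_add, ha, ha', map_add]⟩
  | smul r v _ hv =>
    intro i
    obtain ⟨a, ha⟩ := hv i
    refine ⟨r * a, ?_⟩
    rw [Pi.smul_apply, Algebra.smul_def, map_mul, ← ha]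
    ring

/-- **Lemma A**: the entries of the matrices with `g Λ' = Λ` have a common denominator. -/
theorem exists_denom_gl (Λ Λ' : Lat R K) :
    ∃ d : R, d ≠ 0 ∧ ∀ g : GL (Fin 2) K, g • Λ' = Λ →
      ∀ i j, ∃ a : R, algebraMap R K d * g.1 i j = algebraMap R K a := by
  obtain ⟨d'', hd'', H⟩ := exists_denom Λ.fg
  obtain ⟨d0, hd0, h0⟩ := Fermat.Agent.H58R.exists_smul_mem (K := K) Λ'.M
    (v := Pi.single 0 (1 : K)) (by rw [Λ'.span_eq]; trivial)
  obtain ⟨d1, hd1, h1⟩ := Fermat.Agent.H58R.exists_smul_mem (K := K) Λ'.M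
    (v := Pi.single 1 (1 : K)) (by rw [Λ'.span_eq]; trivial)
  refine ⟨d'' * (d0 * d1), mul_ne_zero hd'' (mul_ne_zero hd0 hd1), fun g hg i j => ?_⟩
  have h2 : ∀ j : Fin 2, (d0 * d1) • (Pi.single j (1 : K) : Fin 2 → K) ∈ Λ'.M := by
    intro j
    fin_cases j
    · rw [mul_comm, mul_smul]
      exact Λ'.M.smul_mem _ h0
    · rw [mul_smul]
      exact Λ'.M.smul_mem _ h1
  have h3 : g • ((d0 * d1) • (Pi.single j (1 : K) : Fin 2 → K)) ∈ Λ.M := by
    rw [← hg]
    exact Lat.smul_mem_smul.2 (h2 j)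
  obtain ⟨a, ha⟩ := H _ h3 i
  refine ⟨a, ?_⟩
  rw [← ha, map_mul, mul_assoc]
  congr 1
  rw [smul_comm, Pi.smul_apply, Algebra.smul_def]
  congr 1
  rw [Lat.gl_smul_eq, Matrix.mulVec_single_one]
  rfl

/-- **Lemma D**: representatives of fractional ideals modulo principal ones. -/
theorem exists_reps_mul [Finite (ClassGroup R)] :
    ∃ S : Finset (FractionalIdeal R⁰ K)ˣ, ∀ I : (FractionalIdeal R⁰ K)ˣ, ∃ J ∈ S, ∃ c : Kˣ,
      I = toPrincipalIdeal R K c * J := by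
  classical
  let Q := (FractionalIdeal R⁰ K)ˣ ⧸ (toPrincipalIdeal R K).range
  have hQ : Finite Q := Finite.of_equiv _ (ClassGroup.equiv (R := R) K).toEquiv
  have : Fintype Q := Fintype.ofFinite Q
  refine ⟨Finset.univ.image (fun q : Q => q.out), fun I => ?_⟩
  refine ⟨(QuotientGroup.mk I : Q).out, Finset.mem_image_of_mem _ (Finset.mem_univ _), ?_⟩
  obtain ⟨⟨_, c, rfl⟩, hc⟩ := QuotientGroup.mk_out_eq_mul (toPrincipalIdeal R K).range I
  refine ⟨c⁻¹, ?_⟩
  have hc' : (QuotientGroup.mk I : Q).out = I * toPrincipalIdeal R K c := hc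
  rw [hc', map_inv, mul_comm I, ← mul_assoc, inv_mul_cancel, one_mul]

/-- **Lemma C**: divisors of `m` modulo squares of units. -/
theorem exists_divisors [Group.FG Rˣ] {m : R} (hm : m ≠ 0) :
    ∃ D : Set R, D.Finite ∧ ∀ α, α ∣ m → ∃ u : Rˣ, (u : R) ^ 2 * α ∈ D := by
  classical
  -- units modulo squares
  let H : Subgroup Rˣ := (powMonoidHom 2 : Rˣ →* Rˣ).range
  have hfin : Finite (Rˣ ⧸ H) := by
    refine CommGroup.finite_of_fg_isMulTorsion _ fun q => ?_
    induction q using QuotientGroup.induction_on with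
    | H u =>
      rw [isOfFinOrder_iff_pow_eq_one]
      refine ⟨2, by norm_num, ?_⟩
      rw [← QuotientGroup.mk_pow, QuotientGroup.eq_one_iff]
      exact ⟨u, rfl⟩
  have hm' : Ideal.span {m} ≠ 0 := by simpa using hm
  have hfin2 : Finite {I : Ideal R // I ∣ Ideal.span {m}} :=
    @Finite.of_fintype _ (UniqueFactorizationMonoid.fintypeSubtypeDvd _ hm')
  let gen : {I : Ideal R // I ∣ Ideal.span {m}} → R := fun I =>
    if h : ∃ a, I.1 = Ideal.span {a} then h.choose else 0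
  refine ⟨Set.range (fun p : {I : Ideal R // I ∣ Ideal.span {m}} × (Rˣ ⧸ H) =>
    gen p.1 * ((p.2.out : Rˣ) : R)), Set.finite_range _, fun α hα => ?_⟩
  have hα' : Ideal.span {α} ∣ Ideal.span {m} := by
    rw [Ideal.dvd_iff_le, Ideal.span_singleton_le_span_singleton]
    exact hα
  set I : {I : Ideal R // I ∣ Ideal.span {m}} := ⟨Ideal.span {α}, hα'⟩ with hI
  have hex : ∃ a, I.1 = Ideal.span {a} := ⟨α, rfl⟩
  have hgen : I.1 = Ideal.span {gen I} := by
    simp only [gen]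
    rw [dif_pos hex]
    exact hex.choose_spec
  have hass : Associated (gen I) α := by
    rw [← Ideal.span_singleton_eq_span_singleton, ← hgen]
  obtain ⟨ε, hε⟩ := hass
  obtain ⟨⟨_, u, rfl⟩, hu⟩ := QuotientGroup.mk_out_eq_mul H ε
  refine ⟨u, ⟨(I, (QuotientGroup.mk ε : Rˣ ⧸ H)), ?_⟩⟩
  show gen I * (((QuotientGroup.mk ε : Rˣ ⧸ H).out : Rˣ) : R) = _
  rw [hu, ← hε]
  show gen I * ((ε * u ^ 2 : Rˣ) : R) = _
  push_cast
  ring

/-- **Lemma B**: determinants modulo squares of units. -/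
theorem exists_det_gl [Group.FG Rˣ] (Λ Λ' : Lat R K) :
    ∃ D : Set K, D.Finite ∧ ∀ g : GL (Fin 2) K, g • Λ' = Λ →
      ∃ u : Rˣ, (algebraMap R K u) ^ 2 * g.1.det ∈ D := by
  obtain ⟨d, hd, H⟩ := exists_denom_gl Λ Λ'
  obtain ⟨e, he, H'⟩ := exists_denom_gl Λ' Λ
  obtain ⟨D, hD, HD⟩ := exists_divisors (R := R) (m := d ^ 2 * e ^ 2)
    (mul_ne_zero (pow_ne_zero 2 hd) (pow_ne_zero 2 he))
  have hdK : algebraMap R K d ≠ 0 := by
    rwa [ne_eq, map_eq_zero_iff _ (IsFractionRing.injective R K)]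
  have heK : algebraMap R K e ≠ 0 := by
    rwa [ne_eq, map_eq_zero_iff _ (IsFractionRing.injective R K)]
  have key : ∀ (t : R) (A : Matrix (Fin 2) (Fin 2) K),
      (∀ i j, ∃ a : R, algebraMap R K t * A i j = algebraMap R K a) →
        ∃ α : R, (algebraMap R K t) ^ 2 * A.det = algebraMap R K α := by
    intro t A h
    obtain ⟨a, ha⟩ := h 0 0
    obtain ⟨b, hb⟩ := h 0 1
    obtain ⟨c, hc⟩ := h 1 0
    obtain ⟨f, hf⟩ := h 1 1
    refine ⟨a * f - b * c, ?_⟩
    rw [Matrix.det_fin_two, map_sub, map_mul, map_mul, ← ha, ← hb, ← hc, ← hf]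
    ring
  refine ⟨(fun a : R => algebraMap R K a / (algebraMap R K d) ^ 2) '' D, hD.image _,
    fun g hg => ?_⟩
  obtain ⟨α, hα⟩ := key d g.1 (H g hg)
  have hg' : g⁻¹ • Λ = Λ' := by rw [← hg, inv_smul_smul]
  obtain ⟨β, hβ⟩ := key e g⁻¹.1 (H' g⁻¹ hg')
  have hdet : g.1.det * g⁻¹.1.det = 1 := by
    rw [← Matrix.det_mul, ← Units.val_mul, mul_inv_cancel, Units.val_one, Matrix.det_one]
  have hαβ : α * β = d ^ 2 * e ^ 2 := by
    apply IsFractionRing.injective R K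
    rw [map_mul, ← hα, ← hβ, map_mul, map_pow, map_pow]
    calc _ = (algebraMap R K d) ^ 2 * (algebraMap R K e) ^ 2 * (g.1.det * g⁻¹.1.det) := by ring
      _ = _ := by rw [hdet, mul_one]
  obtain ⟨u, hu⟩ := HD α ⟨β, hαβ.symm⟩
  refine ⟨u, ⟨_, hu, ?_⟩⟩
  show algebraMap R K ((u : R) ^ 2 * α) / _ = _
  rw [map_mul, map_pow, ← hα]
  field_simp

/-- **PD1** for two lattices. -/
theorem exists_bound_pair [Group.FG Rˣ] [Finite (ClassGroup R)] (Λ Λ' : Lat R K) :
    ∃ (d : R) (D : Set K), d ≠ 0 ∧ D.Finite ∧ ∀ g : GL (Fin 2) K,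
      g • LatC.mk Λ' = LatC.mk Λ → ∃ c : Kˣ,
        (∀ i j, ∃ a : R, algebraMap R K d * (c * g.1 i j) = algebraMap R K a) ∧
        (c : K) ^ 2 * g.1.det ∈ D := by
  classical
  obtain ⟨S, hS⟩ := exists_reps_mul (R := R) (K := K)
  choose dd hdd Hdd using fun J : (FractionalIdeal R⁰ K)ˣ => exists_denom_gl (J • Λ) Λ'
  choose DD hDD HDD using fun J : (FractionalIdeal R⁰ K)ˣ => exists_det_gl (J • Λ) Λ'
  refine ⟨∏ J ∈ S, dd J, ⋃ J ∈ S, DD J, Finset.prod_ne_zero_iff.2 fun J _ => hdd J,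
    S.finite_toSet.biUnion fun J _ => hDD J, fun g hg => ?_⟩
  rw [LatC.smul_mk, LatC.mk_eq_mk] at hg
  obtain ⟨I, hI⟩ := hg
  -- `I • Λ = g • Λ'`
  obtain ⟨J, hJS, c0, hc0⟩ := hS I
  set g' : GL (Fin 2) K := (GeneralLinearGroup.scalar (Fin 2) c0)⁻¹ * g with hg'
  have hg'Λ : g' • Λ' = J • Λ := by
    rw [hg', mul_smul, inv_smul_eq_iff, ← hI, hc0, mul_smul, Lat.scalar_smul]
  have hg'ij : ∀ i j, g'.1 i j = (c0 : K)⁻¹ * g.1 i j := by
    intro i j
    have h1 : g = GeneralLinearGroup.scalar (Fin 2) c0 * g' := by rw [hg', mul_inv_cancel_left]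
    have h2 : g.1 i j = (c0 : K) * g'.1 i j := by
      conv_lhs => rw [h1]
      rw [Units.val_mul, GeneralLinearGroup.coe_scalar, Matrix.scalar_apply,
        Matrix.diagonal_mul]
    rw [h2, inv_mul_cancel_left₀ c0.ne_zero]
  have hdet' : g'.1.det = ((c0 : K)⁻¹) ^ 2 * g.1.det := by
    rw [Matrix.det_fin_two, Matrix.det_fin_two, hg'ij, hg'ij, hg'ij, hg'ij]
    ring
  obtain ⟨u, hu⟩ := HDD J g' hg'Λ
  have hu0 : algebraMap R K (u : R) ≠ 0 := by
    rw [ne_eq, map_eq_zero_iff _ (IsFractionRing.injective R K)]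
    exact u.ne_zero
  refine ⟨Units.map (algebraMap R K).toMonoidHom u * c0⁻¹, fun i j => ?_, ?_⟩
  · obtain ⟨a, ha⟩ := Hdd J g' hg'Λ i j
    refine ⟨(∏ J ∈ S.erase J, dd J) * (u : R) * a, ?_⟩
    rw [← Finset.prod_erase_mul S dd hJS, map_mul, map_mul, map_mul, ← ha, hg'ij]
    push_cast
    show _ * _ * (algebraMap R K u * _ * _) = _
    ring
  · refine Set.mem_biUnion (x := J) (by exact_mod_cast hJS) ?_
    have h3 : ((Units.map (algebraMap R K).toMonoidHom u * c0⁻¹ : Kˣ) : K) ^ 2 * g.1.det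
        = (algebraMap R K u) ^ 2 * g'.1.det := by
      rw [hdet']
      push_cast
      show (algebraMap R K u * _) ^ 2 * _ = _
      ring
    rw [h3]
    exact hu

/-- **PD1** for a finite set of lattice classes. -/
theorem exists_bound [Group.FG Rˣ] [Finite (ClassGroup R)] {Y0 : Set (LatC R K)}
    (hY0 : Y0.Finite) :
    ∃ (d : R) (D : Set K), d ≠ 0 ∧ D.Finite ∧ 0 ∉ D ∧ ∀ y ∈ Y0, ∀ y' ∈ Y0,
      ∀ g : GL (Fin 2) K, g • y' = y → ∃ c : Kˣ,
        (∀ i j, ∃ a : R, algebraMap R K d * (c * g.1 i j) = algebraMap R K a) ∧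
        (c : K) ^ 2 * g.1.det ∈ D := by
  classical
  have h : ∀ p : LatC R K × LatC R K, ∃ (d : R) (D : Set K), d ≠ 0 ∧ D.Finite ∧
      ∀ g : GL (Fin 2) K, g • p.2 = p.1 → ∃ c : Kˣ,
        (∀ i j, ∃ a : R, algebraMap R K d * (c * g.1 i j) = algebraMap R K a) ∧
        (c : K) ^ 2 * g.1.det ∈ D := by
    rintro ⟨y, y'⟩
    obtain ⟨Λ, rfl⟩ := LatC.mk_surjective y
    obtain ⟨Λ', rfl⟩ := LatC.mk_surjective y'
    exact exists_bound_pair Λ Λ'
  choose dd DD hdd hDD H using h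
  have hfin : (Y0 ×ˢ Y0).Finite := hY0.prod hY0
  refine ⟨∏ p ∈ hfin.toFinset, dd p, (⋃ p ∈ hfin.toFinset, DD p) \ {0},
    Finset.prod_ne_zero_iff.2 fun p _ => hdd p,
    (hfin.toFinset.finite_toSet.biUnion fun p _ => hDD p).subset Set.sdiff_subset,
    fun h => h.2 rfl, fun y hy y' hy' g hg => ?_⟩
  have hmem : (y, y') ∈ hfin.toFinset := by
    rw [Set.Finite.mem_toFinset]
    exact ⟨hy, hy'⟩
  obtain ⟨c, hc1, hc2⟩ := H (y, y') g hg
  refine ⟨c, fun i j => ?_, ?_, ?_⟩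
  · obtain ⟨a, ha⟩ := hc1 i j
    refine ⟨(∏ p ∈ hfin.toFinset.erase (y, y'), dd p) * a, ?_⟩
    rw [← Finset.prod_erase_mul _ dd hmem, map_mul, map_mul, ← ha]
    ring
  · exact Set.mem_biUnion (x := (y, y')) (by exact_mod_cast hmem) hc2
  · exact mul_ne_zero (pow_ne_zero 2 c.ne_zero) g.det.ne_zero

end Dedekind

end Fermat.Agent.H58PD

end
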