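import Mathlib
import Fermat.Agent.H59Def
import Fermat.Agent.H58PD0
import Fermat.Agent.H58PD1

/-!
# Proper discontinuity of `PGL₂(K)` on `(J → ℍ³) × Y` (H58, PD2)
-/

open NumberField Module Matrix
open scoped nonZeroDivisors MatrixGroups

set_option linter.unusedSectionVars false
set_option linter.overlappingInstances false

noncomputable section

namespace Fermat.Agent.H58PD

open Fermat.Agent.H26Z Fermat.Agent.H59D

variable {K : Type*} [Field K] [NumberField K] {J : Type*} [Fintype J] (e : J → K →+* ℂ)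
  (he : Function.Bijective fun j => InfinitePlace.mk (e j))

instance unitsFG : Group.FG (𝓞 K)ˣ := Group.fg_iff_monoid_fg.2 inferInstance

include he in
theorem norm_embedding_of (φ : K →+* ℂ) : ∃ j, ∀ x, ‖φ x‖ = ‖e j x‖ := by
  obtain ⟨j, hj⟩ := he.2 (InfinitePlace.mk φ)
  refine ⟨j, fun x => ?_⟩
  have h := congrArg (fun w : InfinitePlace K => w x) hj
  exact h.symm

include he in
/-- elements with bounded denominator and bounded absolute values are finite in number -/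
theorem finite_box (d : 𝓞 K) (hd : d ≠ 0) (B : ℝ) :
    {x : K | (∃ a : 𝓞 K, algebraMap (𝓞 K) K d * x = algebraMap (𝓞 K) K a) ∧
      ∀ j, ‖e j x‖ ≤ B}.Finite := by
  have hdK : algebraMap (𝓞 K) K d ≠ 0 := by
    rwa [ne_eq, map_eq_zero_iff _ (IsFractionRing.injective (𝓞 K) K)]
  have h1 := NumberField.Embeddings.finite_of_norm_le K ℂ
    (∑ j, ‖e j (algebraMap (𝓞 K) K d)‖ * |B|)
  refine Set.Finite.subset (h1.image fun x => (algebraMap (𝓞 K) K d)⁻¹ * x) ?_
  rintro x ⟨⟨a, ha⟩, hx⟩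
  refine ⟨algebraMap (𝓞 K) K d * x, ⟨?_, fun φ => ?_⟩, ?_⟩
  · rw [ha]
    exact a.2
  · obtain ⟨j, hj⟩ := norm_embedding_of e he φ
    rw [hj, map_mul, norm_mul]
    calc ‖e j (algebraMap (𝓞 K) K d)‖ * ‖e j x‖ ≤ ‖e j (algebraMap (𝓞 K) K d)‖ * |B| := by
          gcongr
          exact (hx j).trans (le_abs_self B)
      _ ≤ ∑ j, ‖e j (algebraMap (𝓞 K) K d)‖ * |B| :=
          Finset.single_le_sum (f := fun j => ‖e j (algebraMap (𝓞 K) K d)‖ * |B|)
            (fun i _ => by positivity) (Finset.mem_univ j)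
  · show (algebraMap (𝓞 K) K d)⁻¹ * (algebraMap (𝓞 K) K d * x) = x
    rw [inv_mul_cancel_left₀ hdK]

/-- the entries of a matrix of `GL₂(K)` representing an element of `PGL₂(K)`, at the place `j` -/
theorem fr_le_map (g : GL (Fin 2) K) (w w' : H3) (φ : K →+* ℂ) (c : Kˣ) :
    ∀ i k, ‖φ (c * g.1 i k)‖ ^ 2 ≤
      2 * H3.ch w ((ProjGenLinGroup.map φ (ProjGenLinGroup.mk g) : PGL(2, ℂ)) • w') *
        ‖φ ((c : K) ^ 2 * g.1.det)‖ * (2 * H3.ch w H3.base) * (2 * H3.ch w' H3.base) := by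
  intro i k
  have h1 := fr_le (GeneralLinearGroup.map φ g) w w'
  have h2 := norm_sq_le_fr (GeneralLinearGroup.map φ g).1 i k
  have h3 : (GeneralLinearGroup.map φ g).1 i k = φ (g.1 i k) := rfl
  have h4 : ((GeneralLinearGroup.map φ g : GL (Fin 2) ℂ) : Matrix (Fin 2) (Fin 2) ℂ).det
      = φ g.1.det := by
    rw [RingHom.map_det]
    rfl
  have h5 : (ProjGenLinGroup.map φ (ProjGenLinGroup.mk g) : PGL(2, ℂ)) • w'
      = (GeneralLinearGroup.map φ g) • w' := rfl
  rw [h5]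
  rw [h3] at h2
  rw [h4] at h1
  have h6 := h2.trans h1
  rw [map_mul, norm_mul, mul_pow, map_mul, map_pow, norm_mul, norm_pow]
  calc ‖φ (c : K)‖ ^ 2 * ‖φ (g.1 i k)‖ ^ 2 ≤ ‖φ (c : K)‖ ^ 2 * (2 * H3.ch w
        ((GeneralLinearGroup.map φ g) • w') * ‖φ g.1.det‖ * (2 * H3.ch w H3.base) *
          (2 * H3.ch w' H3.base)) := mul_le_mul_of_nonneg_left h6 (by positivity)
    _ = _ := by ring

include he in
/-- **PD2**: proper discontinuity, for lattice classes. -/
theorem finite_latC (y y' : LatC (𝓞 K) K) (w w' : J → H3) (R : ℝ) :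
    {g : PGL(2, K) | g • y' = y ∧
      ∀ j, H3.ch (w j) ((ProjGenLinGroup.map (e j) g : PGL(2, ℂ)) • w' j) ≤ R}.Finite := by
  classical
  obtain ⟨d, D, hd, hD, hD0, H⟩ := exists_bound (R := 𝓞 K) (K := K)
    (Y0 := {y, y'}) (Set.toFinite _)
  set B : ℝ := 1 + ∑ j, ∑ δ ∈ hD.toFinset, |2 * R * ‖e j δ‖ * (2 * H3.ch (w j) H3.base) *
    (2 * H3.ch (w' j) H3.base)| with hB
  have hB1 : 1 ≤ B := by
    rw [hB]
    have : 0 ≤ ∑ j, ∑ δ ∈ hD.toFinset, |2 * R * ‖e j δ‖ * (2 * H3.ch (w j) H3.base) *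
      (2 * H3.ch (w' j) H3.base)| :=
      Finset.sum_nonneg fun j _ => Finset.sum_nonneg fun δ _ => abs_nonneg _
    linarith
  have hF := finite_box e he d hd B
  have hT : {A : GL (Fin 2) K | ∀ i k, A.1 i k ∈ {x : K | (∃ a : 𝓞 K,
      algebraMap (𝓞 K) K d * x = algebraMap (𝓞 K) K a) ∧ ∀ j, ‖e j x‖ ≤ B}}.Finite := by
    have h1 : {A : Matrix (Fin 2) (Fin 2) K | ∀ i k, A i k ∈ {x : K | (∃ a : 𝓞 K,
      algebraMap (𝓞 K) K d * x = algebraMap (𝓞 K) K a) ∧ ∀ j, ‖e j x‖ ≤ B}}.Finite := by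
      have := Set.Finite.pi' (ι := Fin 2) (κ := fun _ => Fin 2 → K) (t := fun _ =>
        {v : Fin 2 → K | ∀ k, v k ∈ {x : K | (∃ a : 𝓞 K,
          algebraMap (𝓞 K) K d * x = algebraMap (𝓞 K) K a) ∧ ∀ j, ‖e j x‖ ≤ B}})
        fun i => Set.Finite.pi' (ι := Fin 2) (κ := fun _ => K) fun k => hF
      exact this
    refine Set.Finite.preimage ?_ h1
    intro A _ A' _ h
    exact Units.ext h
  refine (hT.image fun A => (ProjGenLinGroup.mk A : PGL(2, K))).subset ?_
  rintro g ⟨hg, hgR⟩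
  induction g using ProjGenLinGroup.induction_on with
  | mk g =>
    obtain ⟨c, hc1, hc2⟩ := H y (Set.mem_insert _ _) y'
      (Set.mem_insert_of_mem _ (Set.mem_singleton _)) g hg
    refine ⟨GeneralLinearGroup.scalar (Fin 2) c * g, fun i k => ?_, ?_⟩
    · have h1 : (GeneralLinearGroup.scalar (Fin 2) c * g).1 i k = c * g.1 i k := by
        rw [Units.val_mul, GeneralLinearGroup.coe_scalar, Matrix.scalar_apply,
          Matrix.diagonal_mul]
      rw [h1]
      refine ⟨hc1 i k, fun j => ?_⟩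
      have h2 := fr_le_map g (w j) (w' j) (e j) c i k
      have h3 : ‖e j (c * g.1 i k)‖ ^ 2 ≤ B := by
        have hch := hgR j
        have hpos : 0 ≤ ‖e j ((c : K) ^ 2 * g.1.det)‖ * (2 * H3.ch (w j) H3.base) *
            (2 * H3.ch (w' j) H3.base) := by
          have a1 := H3.one_le_ch (w j) H3.base
          have a2 := H3.one_le_ch (w' j) H3.base
          positivity
        calc ‖e j (c * g.1 i k)‖ ^ 2 ≤ 2 * R * ‖e j ((c : K) ^ 2 * g.1.det)‖ *
              (2 * H3.ch (w j) H3.base) * (2 * H3.ch (w' j) H3.base) := by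
              refine h2.trans ?_
              nlinarith [mul_le_mul_of_nonneg_right hch hpos]
          _ ≤ |2 * R * ‖e j ((c : K) ^ 2 * g.1.det)‖ * (2 * H3.ch (w j) H3.base) *
              (2 * H3.ch (w' j) H3.base)| := le_abs_self _
          _ ≤ ∑ δ ∈ hD.toFinset, |2 * R * ‖e j δ‖ * (2 * H3.ch (w j) H3.base) *
              (2 * H3.ch (w' j) H3.base)| :=
              Finset.single_le_sum (f := fun δ => |2 * R * ‖e j δ‖ * (2 * H3.ch (w j) H3.base) *
                (2 * H3.ch (w' j) H3.base)|) (fun δ _ => abs_nonneg _)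
                ((Set.Finite.mem_toFinset hD).2 hc2)
          _ ≤ ∑ j, ∑ δ ∈ hD.toFinset, |2 * R * ‖e j δ‖ * (2 * H3.ch (w j) H3.base) *
              (2 * H3.ch (w' j) H3.base)| :=
              Finset.single_le_sum (f := fun j => ∑ δ ∈ hD.toFinset,
                |2 * R * ‖e j δ‖ * (2 * H3.ch (w j) H3.base) * (2 * H3.ch (w' j) H3.base)|)
                (fun i _ => Finset.sum_nonneg fun δ _ => abs_nonneg _) (Finset.mem_univ j)
          _ ≤ B := by rw [hB]; linarith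
      nlinarith [norm_nonneg (e j (c * g.1 i k))]
    · show (ProjGenLinGroup.mk (GeneralLinearGroup.scalar (Fin 2) c * g) : PGL(2, K)) = _
      rw [map_mul]
      rw [ProjGenLinGroup.mk_scalar, one_mul]

include he in
/-- **PD2**, for any `PGL₂(K)`-set with an equivariant map to the lattice classes. -/
theorem finite_of_map {Y : Type*} [MulAction PGL(2, K) Y] (π : Y → LatC (𝓞 K) K)
    (hπ : ∀ (g : PGL(2, K)) (y : Y), π (g • y) = g • π y) (y y' : Y) (w w' : J → H3) (R : ℝ) :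
    {g : PGL(2, K) | g • y' = y ∧
      ∀ j, H3.ch (w j) ((ProjGenLinGroup.map (e j) g : PGL(2, ℂ)) • w' j) ≤ R}.Finite := by
  refine (finite_latC e he (π y) (π y') w w' R).subset ?_
  rintro g ⟨hg, h⟩
  exact ⟨by rw [← hπ, hg], h⟩

end Fermat.Agent.H58PD

end
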