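import Fermat.Agent.H17S2
import Fermat.Agent.H59Def2
import Fermat.Agent.H56ZRad4
import Fermat.Agent.H51ZOp
import Fermat.Agent.H58PD2
import Fermat.Agent.H64L4

/-!
# S47, block (C): test kernels on the model (helper17, C-OPS)

* `coarse m`: the coarse structure of `m.X`;
* `ck_ker`: `m.ker κ a.k` is a controlled kernel for `IsRC κ`, `a : GlobKer`;
* `comp_ker`: composition; `RI κ`, `gX a`: radial and finite operators; `act_ker`.
-/

set_option autoImplicit false
set_option linter.unusedSectionVars false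

noncomputable section

open MeasureTheory Set Filter
open scoped ENNReal ComplexConjugate MatrixGroups

namespace Fermat.Agent.H17S

open Fermat.Agent.H32Z Fermat.Agent.H32Z.CutOff Fermat.Agent.H59XF Fermat.Agent.H59D
  Fermat.Agent.H51Z Fermat.Agent.H56Z Fermat.Agent.H5Z

/-! ### Finite kernels on `XF L` -/

section Fin

variable {G : Type*} [Group G] {ι : Type*} {L : LevelFam G ι}

theorem exists_card_ls (i : ι) (κ : LocKer (L.U i)) : ∃ n : ℕ, ∀ x, (ls κ x).card ≤ n := by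
  classical
  refine ⟨(ls κ ((1 : G) : G ⧸ L.U i)).card, fun x => ?_⟩
  induction x using QuotientGroup.induction_on with
  | H g =>
    have h1 : ((g : G) : G ⧸ L.U i) = g • ((1 : G) : G ⧸ L.U i) := by
      show _ = (((g * 1 : G)) : G ⧸ L.U i)
      rw [mul_one]
    rw [h1, ls_smul]
    exact Finset.card_image_le

theorem exists_norm_loc_le (i : ι) (κ : LocKer (L.U i)) : ∃ B : ℝ, 0 ≤ B ∧ ∀ x y, ‖κ.k x y‖ ≤ B := by
  classical
  set b := ((1 : G) : G ⧸ L.U i) with hb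
  refine ⟨∑ y ∈ ls κ b, ‖κ.k b y‖, Finset.sum_nonneg fun _ _ => norm_nonneg _, fun x y => ?_⟩
  induction x using QuotientGroup.induction_on with
  | H g =>
    have h1 : ((g : G) : G ⧸ L.U i) = g • b := by
      show _ = (((g * 1 : G)) : G ⧸ L.U i)
      rw [mul_one]
    have h2 : κ.k ((g : G) : G ⧸ L.U i) y = κ.k b (g⁻¹ • y) := by
      rw [h1, ← κ.inv g b (g⁻¹ • y), smul_inv_smul]
    rw [h2]
    by_cases h3 : κ.k b (g⁻¹ • y) = 0
    · rw [h3, norm_zero]
      exact Finset.sum_nonneg fun _ _ => norm_nonneg _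
    · exact Finset.single_le_sum (f := fun y => ‖κ.k b y‖) (fun _ _ => norm_nonneg _)
        (mem_ls.2 h3)

theorem exists_row_card (a : GlobKer L) : ∃ n : ℕ, ∀ x, {y | a.k x y ≠ 0}.encard ≤ n := by
  classical
  choose n hn using fun i => exists_card_ls (L := L) i (a.loc i)
  refine ⟨∏ i : a.fin.toFinset, n i, fun x => ?_⟩
  have hinj : Set.InjOn (fun (y : XF L) (i : a.fin.toFinset) => y i.1) {y | a.k x y ≠ 0} := by
    intro y hy y' hy' hyy
    apply XF.ext
    intro i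
    by_cases hi : a.loc i = LocKer.one
    · rw [← eq_of_k_ne_zero hy hi, ← eq_of_k_ne_zero hy' hi]
    · exact congrFun hyy ⟨i, by simpa using hi⟩
  rw [← hinj.encard_image]
  have hsub : (fun (y : XF L) (i : a.fin.toFinset) => y i.1) '' {y | a.k x y ≠ 0} ⊆
      ((Fintype.piFinset fun i : a.fin.toFinset => ls (a.loc i.1) (x i.1) : Finset _) : Set _) := by
    rintro _ ⟨y, hy, rfl⟩
    rw [Finset.mem_coe, Fintype.mem_piFinset]
    intro i
    rw [mem_ls]
    exact (a.k_ne_zero_iff x y).1 hy i.1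
  refine (Set.encard_le_encard hsub).trans ?_
  rw [Set.encard_coe_eq_coe_finsetCard, Fintype.card_piFinset]
  have h3 : ∏ i : a.fin.toFinset, (ls (a.loc i.1) (x i.1)).card ≤ ∏ i : a.fin.toFinset, n i.1 :=
    Finset.prod_le_prod' fun i _ => hn i.1 (x i.1)
  exact_mod_cast h3

theorem exists_col_card (a : GlobKer L) : ∃ n : ℕ, ∀ y, {x | a.k x y ≠ 0}.encard ≤ n := by
  obtain ⟨n, hn⟩ := exists_row_card (gtr a)
  exact ⟨n, fun y => hn y⟩

theorem k_eq_prod_of_ne {a : GlobKer L} {x y : XF L} (h : a.k x y ≠ 0) :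
    a.k x y = ∏ i ∈ a.fin.toFinset, (a.loc i).k (x i) (y i) := by
  unfold GlobKer.k
  refine finprod_eq_prod_of_mulSupport_subset _ ?_
  intro i hi
  by_contra hcon
  apply hi
  have h1 : a.loc i = LocKer.one := by simpa using hcon
  show (a.loc i).k (x i) (y i) = 1
  rw [h1, LocKer.one_k, if_pos (eq_of_k_ne_zero h h1)]

theorem exists_norm_k_le (a : GlobKer L) : ∃ B : ℝ, 0 ≤ B ∧ ∀ x y, ‖a.k x y‖ ≤ B := by
  choose B hB hB' using fun i => exists_norm_loc_le (L := L) i (a.loc i)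
  refine ⟨∏ i ∈ a.fin.toFinset, B i, Finset.prod_nonneg fun i _ => hB i, fun x y => ?_⟩
  by_cases h : a.k x y = 0
  · rw [h, norm_zero]
    exact Finset.prod_nonneg fun i _ => hB i
  · rw [k_eq_prod_of_ne h, norm_prod]
    exact Finset.prod_le_prod (fun _ _ => norm_nonneg _) fun i _ => hB' i _ _

/-- `ℓ¹`-bound for the rows. -/
theorem exists_row_sum (a : GlobKer L) : ∃ C : ℝ, 0 ≤ C ∧ ∀ x, ∑ y ∈ gs a x, ‖a.k x y‖ ≤ C := by
  obtain ⟨n, hn⟩ := exists_row_card a
  obtain ⟨B, hB, hB'⟩ := exists_norm_k_le a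
  refine ⟨n * B, by positivity, fun x => ?_⟩
  refine (Finset.sum_le_sum fun y _ => hB' x y).trans ?_
  rw [Finset.sum_const, nsmul_eq_mul]
  refine mul_le_mul_of_nonneg_right ?_ hB
  have h1 := hn x
  have h2 : {y | a.k x y ≠ 0} = ((gs a x : Finset (XF L)) : Set (XF L)) := by
    ext y; simp
  rw [h2, Set.encard_coe_eq_coe_finsetCard] at h1
  exact_mod_cast h1

end Fin

/-! ### The coarse structure -/

/-- Relations with uniformly finite rows and columns. -/
structure FR {Y : Type*} (A : Y → Y → Prop) : Prop where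
  row : ∃ n : ℕ, ∀ x, {y | A x y}.encard ≤ n
  col : ∃ n : ℕ, ∀ y, {x | A x y}.encard ≤ n

theorem encard_biUnion_le {A B : Type*} {s : Set A} {t : A → Set B} {m n : ℕ}
    (hs : s.encard ≤ m) (ht : ∀ a, (t a).encard ≤ n) : (⋃ a ∈ s, t a).encard ≤ (m * n : ℕ) := by
  classical
  have hsf : s.Finite := Set.finite_of_encard_le_coe hs
  have htf : ∀ a, (t a).Finite := fun a => Set.finite_of_encard_le_coe (ht a)
  have h1 : (⋃ a ∈ s, t a) = ((hsf.toFinset.biUnion fun a => (htf a).toFinset : Finset B) : Set B) := by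
    ext b
    simp
  rw [h1, Set.encard_coe_eq_coe_finsetCard]
  norm_cast
  have h2 : hsf.toFinset.card ≤ m := by
    have := hsf.encard_eq_coe_toFinset_card
    rw [this] at hs
    exact_mod_cast hs
  refine (Finset.card_biUnion_le_card_mul _ _ n fun a _ => ?_).trans (Nat.mul_le_mul_right n h2)
  have h3 := ht a
  rw [(htf a).encard_eq_coe_toFinset_card] at h3
  exact_mod_cast h3

namespace FR

variable {Y : Type*} {A B : Y → Y → Prop}

theorem symm (h : FR A) : FR (fun x y => A y x) := ⟨h.col, h.row⟩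

theorem sup (h : FR A) (h' : FR B) : FR (fun x y => A x y ∨ B x y) := by
  obtain ⟨n, hn⟩ := h.row
  obtain ⟨n', hn'⟩ := h'.row
  obtain ⟨m, hm⟩ := h.col
  obtain ⟨m', hm'⟩ := h'.col
  refine ⟨⟨n + n', fun x => ?_⟩, ⟨m + m', fun y => ?_⟩⟩
  · have h1 : {y | A x y ∨ B x y} = {y | A x y} ∪ {y | B x y} := rfl
    rw [h1]
    refine (Set.encard_union_le _ _).trans ?_
    push_cast
    exact add_le_add (hn x) (hn' x)
  · have h1 : {x | A x y ∨ B x y} = {x | A x y} ∪ {x | B x y} := rfl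
    rw [h1]
    refine (Set.encard_union_le _ _).trans ?_
    push_cast
    exact add_le_add (hm y) (hm' y)

theorem comp (h : FR A) (h' : FR B) : FR (fun x z => ∃ y, A x y ∧ B y z) := by
  obtain ⟨n, hn⟩ := h.row
  obtain ⟨n', hn'⟩ := h'.row
  obtain ⟨m, hm⟩ := h.col
  obtain ⟨m', hm'⟩ := h'.col
  refine ⟨⟨n * n', fun x => ?_⟩, ⟨m' * m, fun z => ?_⟩⟩
  · have h1 : {z | ∃ y, A x y ∧ B y z} = ⋃ y ∈ {y | A x y}, {z | B y z} := by ext; simp
    rw [h1]
    exact encard_biUnion_le (hn x) hn'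
  · have h1 : {x | ∃ y, A x y ∧ B y z} = ⋃ y ∈ {y | B y z}, {x | A x y} := by
      ext; simp [and_comm]
    rw [h1]
    exact encard_biUnion_le (hm' z) hm

end FR

theorem measurable_chv {J : Type*} [Fintype J] :
    Measurable fun z : (J → H3) × (J → H3) => chv z.1 z.2 := by
  have h := (continuous_chv (J := J))
  have h2 := h.measurable
  exact h2

theorem measurable_chv' {J : Type*} [Fintype J] {Y : Type*} [MeasurableSpace Y] :
    Measurable fun z : ((J → H3) × Y) × ((J → H3) × Y) => chv z.1.1 z.2.1 := by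
  have h1 : Measurable fun z : ((J → H3) × Y) × ((J → H3) × Y) => (z.1.1, z.2.1) :=
    (measurable_fst.comp measurable_fst).prodMk (measurable_fst.comp measurable_snd)
  have h2 := (measurable_chv (J := J)).comp h1
  exact h2

section Model

variable {K : Type*} [Field K] [NumberField K] {J : Type*} [Fintype J] (m : Model K J)

instance : MeasurableConstSMul PGL(2, K) m.X := ⟨fun g => m.measurable_smul g⟩

instance : SMulInvariantMeasure PGL(2, K) m.X m.μ :=
  ⟨fun g _ hs => (m.measurePreserving_smul' g).measure_preimage hs.nullMeasurableSet⟩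

/-- The bands. -/
def band (R : ℝ) (A : XF m.L.fam → XF m.L.fam → Prop) : Set (m.X × m.X) :=
  {z | (∀ j, H3.ch (z.1.1 j) (z.2.1 j) ≤ R) ∧ A z.1.2 z.2.2}

theorem measurableSet_band (R : ℝ) (A : XF m.L.fam → XF m.L.fam → Prop) :
    MeasurableSet (band m R A) := by
  have h1 : Measurable fun z : ((J → H3) × XF m.L.fam) × ((J → H3) × XF m.L.fam) =>
      chv z.1.1 z.2.1 := measurable_chv'
  have h2 : Measurable fun z : ((J → H3) × XF m.L.fam) × ((J → H3) × XF m.L.fam) =>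
      (z.1.2, z.2.2) := (measurable_snd.comp measurable_fst).prodMk (measurable_snd.comp measurable_snd)
  have h3 : MeasurableSet {z : ((J → H3) × XF m.L.fam) × ((J → H3) × XF m.L.fam) |
      ∀ j, chv z.1.1 z.2.1 j ≤ R} := by
    rw [Set.ofPred_forall]
    exact MeasurableSet.iInter fun j => measurableSet_le ((measurable_pi_apply j).comp h1)
      measurable_const
  have h4 : MeasurableSet {z : ((J → H3) × XF m.L.fam) × ((J → H3) × XF m.L.fam) |
      A z.1.2 z.2.2} :=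
    h2 (Set.to_countable {z : XF m.L.fam × XF m.L.fam | A z.1 z.2}).measurableSet
  exact h3.inter h4

/-- **The coarse structure of the model.** -/
def coarse : Coarse PGL(2, K) m.μ where
  C S := ∃ (R : ℝ) (A : XF m.L.fam → XF m.L.fam → Prop), FR A ∧ S = band m R A
  meas := by
    rintro _ ⟨R, A, -, rfl⟩
    exact measurableSet_band m R A
  vol := by
    rintro _ ⟨R, A, hA, rfl⟩
    obtain ⟨V, hV, h⟩ := exists_volume_Bl_le J R
    obtain ⟨n, hn⟩ := hA.row
    refine ⟨V * n, by positivity, fun p => ?_⟩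
    have h1 : {q : m.X | (p, q) ∈ band m R A} = (Bl R p.1 ×ˢ {y | A p.2 y} :
      Set ((J → H3) × XF m.L.fam)) := rfl
    rw [h1]
    show ((volume : Measure (J → H3)).prod (Measure.count : Measure (XF m.L.fam)))
      (Bl R p.1 ×ˢ {y | A p.2 y}) ≤ _
    rw [Measure.prod_prod, ENNReal.ofReal_mul hV, Measure.count_apply (Set.to_countable _).measurableSet,
      ENNReal.ofReal_natCast]
    refine mul_le_mul' (h p.1) ?_
    exact_mod_cast ENat.toENNReal_le.mpr (hn p.2)
  union := by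
    rintro _ _ ⟨R, A, hA, rfl⟩ ⟨R', A', hA', rfl⟩
    refine ⟨_, ⟨max R R', _, hA.sup hA', rfl⟩, ?_, ?_⟩
    · rintro z ⟨h1, h2⟩
      exact ⟨fun j => (h1 j).trans (le_max_left _ _), Or.inl h2⟩
    · rintro z ⟨h1, h2⟩
      exact ⟨fun j => (h1 j).trans (le_max_right _ _), Or.inr h2⟩
  comp := by
    rintro _ _ ⟨R, A, hA, rfl⟩ ⟨R', A', hA', rfl⟩
    refine ⟨_, ⟨2 * R * R', _, hA.comp hA', rfl⟩, ?_⟩
    rintro p q r ⟨h1, h2⟩ ⟨h1', h2'⟩
    refine ⟨fun j => ?_, ⟨q.2, h2, h2'⟩⟩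
    have h3 := H3.one_le_ch (p.1 j) (q.1 j)
    have h4 := H3.one_le_ch (q.1 j) (r.1 j)
    have h5 : H3.ch (p.1 j) (q.1 j) ≤ R := h1 j
    have h6 : H3.ch (q.1 j) (r.1 j) ≤ R' := h1' j
    refine (ch_triangle (p.1 j) (q.1 j) (r.1 j)).trans ?_
    exact mul_le_mul (by linarith) h6 (by linarith) (by linarith)
  symm := by
    rintro _ ⟨R, A, hA, rfl⟩
    refine ⟨_, ⟨R, _, hA.symm, rfl⟩, ?_⟩
    rintro p q ⟨h1, h2⟩
    exact ⟨fun j => by
      have := h1 j
      show H3.ch (q.1 j) (p.1 j) ≤ R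
      rw [H3.ch_comm]
      exact this, h2⟩
  nonempty := ⟨_, 0, fun _ _ => False, ⟨⟨0, fun x => by simp⟩, ⟨0, fun x => by simp⟩⟩, rfl⟩
  fin := by
    rintro _ ⟨R, A, hA, rfl⟩ p q
    obtain ⟨n, hn⟩ := hA.row
    have h1 : {y | A p.2 y}.Finite := Set.finite_of_encard_le_coe (hn p.2)
    refine (h1.biUnion fun y _ => H58PD.finite_of_map m.e m.e_bij (H64L.lat m.L)
      (H64L.lat_smul m.L) y q.2 p.1 q.1 R).subset ?_
    rintro g ⟨h2, h3⟩
    exact Set.mem_biUnion (show g • q.2 ∈ {y | A p.2 y} from h3) ⟨rfl, fun j => h2 j⟩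

variable {m}

theorem coarse_band (R : ℝ) {A : XF m.L.fam → XF m.L.fam → Prop} (hA : FR A) :
    (coarse m).C (band m R A) := ⟨R, A, hA, rfl⟩

theorem FR.of_globKer (a : GlobKer m.L.fam) : FR (fun x y => a.k x y ≠ 0) :=
  ⟨exists_row_card a, exists_col_card a⟩

/-! ### Product kernels -/

variable {κ κ' : (J → ℝ) → ℂ}

theorem measurable_ker (hκ : Measurable κ) (f : XF m.L.fam → XF m.L.fam → ℂ) :
    Measurable (Function.uncurry (m.ker κ f)) := by
  have h1 : Measurable fun z : ((J → H3) × XF m.L.fam) × ((J → H3) × XF m.L.fam) =>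
      chv z.1.1 z.2.1 := measurable_chv'
  have h2 : Measurable fun z : ((J → H3) × XF m.L.fam) × ((J → H3) × XF m.L.fam) =>
      (z.1.2, z.2.2) := (measurable_snd.comp measurable_fst).prodMk (measurable_snd.comp measurable_snd)
  have h3 : Measurable fun z : XF m.L.fam × XF m.L.fam => f z.1 z.2 := measurable_of_countable _
  exact (hκ.comp h1).mul (h3.comp h2)

/-- **Product kernels are controlled.** -/
theorem ck_ker (hκ : IsRC κ) (a : GlobKer m.L.fam) : CK (coarse m) (m.ker κ a.k) where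
  meas := measurable_ker hκ.cont.measurable a.k
  inv g p q := m.ker_smul κ a.k (fun g x y => a.k_smul g x y) g p q
  bdd := by
    obtain ⟨M, hM⟩ := hκ.bdd
    obtain ⟨B, hB, hB'⟩ := exists_norm_k_le a
    have hM0 : 0 ≤ M := (norm_nonneg _).trans (hM 0)
    refine ⟨M * B, by positivity, fun p q => ?_⟩
    unfold Model.ker
    rw [norm_mul]
    exact mul_le_mul (hM _) (hB' _ _) (norm_nonneg _) hM0
  ctl := by
    obtain ⟨R, hR⟩ := hκ.supp
    refine ⟨_, coarse_band R (FR.of_globKer a), fun p q hne => ?_⟩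
    unfold Model.ker at hne
    refine ⟨fun j => ?_, right_ne_zero_of_mul hne⟩
    by_contra hcon
    exact left_ne_zero_of_mul hne (hR _ ⟨j, not_le.1 hcon⟩)

/-- Integrals for the counting measure of finitely supported functions. -/
theorem integral_count_eq_sum {Y : Type*} [MeasurableSpace Y] [DiscreteMeasurableSpace Y]
    [Countable Y] {f : Y → ℂ} (s : Finset Y) (hs : ∀ y, f y ≠ 0 → y ∈ s) :
    ∫ y, f y ∂(Measure.count : Measure Y) = ∑ y ∈ s, f y := by
  have h0 : ∀ y ∉ s, f y = 0 := fun y hy => by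
    by_contra h
    exact hy (hs y h)
  have h1 : Summable f := summable_of_hasFiniteSupport (s.finite_toSet.subset fun y hy => hs y hy)
  have h2 : Integrable f (Measure.count : Measure Y) := by
    rw [integrable_count_iff]
    exact h1.norm
  rw [integral_countable h2]
  rw [tsum_eq_sum (s := s)]
  · refine Finset.sum_congr rfl fun y _ => ?_
    simp [Measure.real]
  · intro y hy
    rw [h0 y hy, smul_zero]

/-- **Composition of product kernels.** -/
theorem comp_ker (κ κ' : (J → ℝ) → ℂ) (a b : GlobKer m.L.fam) :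
    comp m.μ (m.ker κ a.k) (m.ker κ' b.k) = m.ker (conv κ κ') (gmul a b).k := by
  funext p r
  have h1 : ∀ q : (J → H3) × XF m.L.fam, m.ker κ a.k p q * m.ker κ' b.k q r =
      (κ (chv p.1 q.1) * κ' (chv q.1 r.1)) * (a.k p.2 q.2 * b.k q.2 r.2) := by
    intro q
    show (κ (chv p.1 q.1) * a.k p.2 q.2) * (κ' (chv q.1 r.1) * b.k q.2 r.2) = _
    ring
  show ∫ q : (J → H3) × XF m.L.fam, m.ker κ a.k p q * m.ker κ' b.k q r
    ∂((volume : Measure (J → H3)).prod (Measure.count : Measure (XF m.L.fam))) = _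
  simp_rw [h1]
  rw [integral_prod_mul (f := fun v : J → H3 => κ (chv p.1 v) * κ' (chv v r.1))
    (g := fun y : XF m.L.fam => a.k p.2 y * b.k y r.2)]
  show _ = conv κ κ' (chv p.1 r.1) * (gmul a b).k p.2 r.2
  rw [conv_apply, gmul_k, integral_count_eq_sum (gs a p.2) (fun y hy => by
    rw [mem_gs]; exact left_ne_zero_of_mul hy), finsum_eq_sum_of_support_subset]
  intro y hy
  rw [Finset.mem_coe, mem_gs]
  exact left_ne_zero_of_mul hy

/-! ### Operators -/

/-- The radial operator `R(κ)` on functions on `m.X`. -/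
def RI (κ : (J → ℝ) → ℂ) (φ : m.X → ℂ) (x : m.X) : ℂ := Rk κ (fun v => φ (v, x.2)) x.1

/-- The operator of a finite kernel on functions on `m.X`. -/
def gX (a : GlobKer m.L.fam) (φ : m.X → ℂ) (x : m.X) : ℂ :=
  ∑ y ∈ gs a x.2, a.k x.2 y * φ (x.1, y)

theorem gX_eq_gop (a : GlobKer m.L.fam) (φ : m.X → ℂ) (x : m.X) :
    gX a φ x = gop a (fun y => φ (x.1, y)) x.2 := rfl

theorem gX_eq_sum (a : GlobKer m.L.fam) (φ : m.X → ℂ) (x : m.X) {s : Finset (XF m.L.fam)}
    (hs : ∀ y, a.k x.2 y ≠ 0 → y ∈ s) : gX a φ x = ∑ y ∈ s, a.k x.2 y * φ (x.1, y) :=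
  gop_eq_sum a (fun y => φ (x.1, y)) x.2 hs

theorem gX_gmul (a b : GlobKer m.L.fam) (φ : m.X → ℂ) : gX (gmul a b) φ = gX a (gX b φ) := by
  funext x
  rw [gX_eq_gop, gop_gmul]
  rfl

theorem gX_gone (φ : m.X → ℂ) : gX gone φ = φ := by
  funext x
  rw [gX_eq_gop, gop_gone]
  rfl

theorem gX_comm {a b : GlobKer m.L.fam} (h : gmul a b = gmul b a) (φ : m.X → ℂ) :
    gX a (gX b φ) = gX b (gX a φ) := by
  rw [← gX_gmul, h, gX_gmul]

theorem LB.isLB {φ : m.X → ℂ} (hφ : LB (coarse m) φ) (y : XF m.L.fam) :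
    IsLB (fun v : J → H3 => φ (v, y)) where
  meas := (hφ.meas.comp (measurable_id.prodMk measurable_const)).aestronglyMeasurable
  bdd R x := by
    have hA : FR (fun a b : XF m.L.fam => a = b) :=
      ⟨⟨1, fun x => by
        have h1 : {y | x = y} = {x} := by ext; simp [eq_comm]
        rw [h1]; simp⟩, ⟨1, fun y => by
        have h1 : {x | x = y} = {y} := by ext; simp
        rw [h1]; simp⟩⟩
    obtain ⟨B, hB, h⟩ := hφ.lb _ (coarse_band R hA) ((x, y) : (J → H3) × XF m.L.fam)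
    exact ⟨B, hB, fun w hw => h (w, y) ⟨hw, rfl⟩⟩

/-- The action of a product kernel. -/
theorem act_ker (hκ : IsRC κ) (a : GlobKer m.L.fam) {φ : m.X → ℂ} (hφ : LB (coarse m) φ) :
    act m.μ (m.ker κ a.k) φ = gX a (RI κ φ) := by
  funext p
  have hint : Integrable (fun q : (J → H3) × XF m.L.fam => m.ker κ a.k p q * φ q)
      ((volume : Measure (J → H3)).prod (Measure.count : Measure (XF m.L.fam))) :=
    (ck_ker hκ a).integrable_mul p hφ
  show ∫ q : (J → H3) × XF m.L.fam, m.ker κ a.k p q * φ q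
    ∂((volume : Measure (J → H3)).prod (Measure.count : Measure (XF m.L.fam))) = _
  rw [integral_prod_symm _ hint]
  have h1 : ∀ y : XF m.L.fam, ∫ v : J → H3, m.ker κ a.k p (v, y) * φ (v, y) =
      a.k p.2 y * Rk κ (fun v => φ (v, y)) p.1 := by
    intro y
    unfold Rk
    rw [← integral_const_mul]
    refine integral_congr_ae (Filter.Eventually.of_forall fun v => ?_)
    show (κ (chv p.1 v) * a.k p.2 y) * φ (v, y) = a.k p.2 y * (κ (chv p.1 v) * φ (v, y))
    ring
  simp_rw [h1]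
  exact integral_count_eq_sum (gs a p.2) (fun y hy => by
    rw [mem_gs]; exact left_ne_zero_of_mul hy)

theorem RI_sum {ι : Type*} (hκ : IsRC κ) (s : Finset ι) (c : ι → ℂ) (φ : ι → m.X → ℂ)
    (hφ : ∀ i ∈ s, LB (coarse m) (φ i)) :
    RI κ (fun x => ∑ i ∈ s, c i * φ i x) = fun x => ∑ i ∈ s, c i * RI κ (φ i) x := by
  funext x
  unfold RI Rk
  have h1 : ∀ v : J → H3, κ (chv x.1 v) * ∑ i ∈ s, c i * φ i (v, x.2) =
      ∑ i ∈ s, c i * (κ (chv x.1 v) * φ i (v, x.2)) := by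
    intro v
    rw [Finset.mul_sum]
    exact Finset.sum_congr rfl fun i _ => by ring
  simp_rw [h1]
  rw [integral_finsetSum]
  · exact Finset.sum_congr rfl fun i _ => integral_const_mul _ _
  · intro i hi
    exact (((hφ i hi).isLB x.2).integrable_Rk hκ x.1).const_mul _

/-- Radial and finite operators commute. -/
theorem RI_gX (hκ : IsRC κ) (a : GlobKer m.L.fam) {φ : m.X → ℂ} (hφ : LB (coarse m) φ) :
    RI κ (gX a φ) = gX a (RI κ φ) := by
  funext x
  show ∫ v, κ (chv x.1 v) * ∑ y ∈ gs a x.2, a.k x.2 y * φ (v, y) =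
    ∑ y ∈ gs a x.2, a.k x.2 y * ∫ v, κ (chv x.1 v) * φ (v, y)
  have h1 : ∀ v : J → H3, κ (chv x.1 v) * ∑ y ∈ gs a x.2, a.k x.2 y * φ (v, y) =
      ∑ y ∈ gs a x.2, a.k x.2 y * (κ (chv x.1 v) * φ (v, y)) := by
    intro v
    rw [Finset.mul_sum]
    exact Finset.sum_congr rfl fun i _ => by ring
  simp_rw [h1]
  rw [integral_finsetSum]
  · exact Finset.sum_congr rfl fun i _ => integral_const_mul _ _
  · intro y _
    exact ((hφ.isLB y).integrable_Rk hκ x.1).const_mul _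

theorem act_ker' (hκ : IsRC κ) (a : GlobKer m.L.fam) {φ : m.X → ℂ} (hφ : LB (coarse m) φ) :
    act m.μ (m.ker κ a.k) φ = RI κ (gX a φ) := by
  rw [act_ker hκ a hφ, RI_gX hκ a hφ]

theorem RI_conv (hκ : IsRC κ) (hκ' : IsRC κ') {φ : m.X → ℂ} (hφ : LB (coarse m) φ) :
    RI (conv κ κ') φ = RI κ (RI κ' φ) := by
  funext x
  exact congrFun (Rk_conv hκ hκ' (hφ.isLB x.2)) x.1

theorem RI_comm (hκ : IsRC κ) (hκ' : IsRC κ') {φ : m.X → ℂ} (hφ : LB (coarse m) φ) :
    RI κ (RI κ' φ) = RI κ' (RI κ φ) := by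
  rw [← RI_conv hκ hκ' hφ, ← RI_conv hκ' hκ hφ, conv_comm]

/-! ### Stability of locally bounded functions -/

theorem LB.gX (a : GlobKer m.L.fam) {φ : m.X → ℂ} (hφ : LB (coarse m) φ) :
    LB (coarse m) (gX a φ) where
  meas := by
    refine (m.measurable_iff _).2 fun y => ?_
    show Measurable fun v : J → H3 => ∑ y' ∈ gs a y, a.k y y' * φ (v, y')
    exact Finset.measurable_fun_sum _ fun y' _ =>
      ((hφ.meas.comp (measurable_id.prodMk measurable_const)).const_mul _)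
  lb := by
    rintro _ ⟨R, A, hA, rfl⟩ p
    obtain ⟨C, hC, hC'⟩ := exists_row_sum a
    obtain ⟨B, hB, h⟩ := hφ.lb _ (coarse_band R (hA.comp (FR.of_globKer a))) p
    refine ⟨C * B, by positivity, fun q hq => ?_⟩
    unfold H17S.gX
    refine (norm_sum_le _ _).trans ?_
    calc ∑ y ∈ gs a q.2, ‖a.k q.2 y * φ (q.1, y)‖ ≤ ∑ y ∈ gs a q.2, ‖a.k q.2 y‖ * B := by
          refine Finset.sum_le_sum fun y hy => ?_
          rw [norm_mul]
          refine mul_le_mul_of_nonneg_left ?_ (norm_nonneg _)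
          exact h (q.1, y) ⟨hq.1, q.2, hq.2, mem_gs.1 hy⟩
      _ = (∑ y ∈ gs a q.2, ‖a.k q.2 y‖) * B := by rw [Finset.sum_mul]
      _ ≤ C * B := mul_le_mul_of_nonneg_right (hC' q.2) hB

theorem RI_eq_act (hκ : IsRC κ) {φ : m.X → ℂ} (hφ : LB (coarse m) φ) :
    RI κ φ = act m.μ (m.ker κ (gone : GlobKer m.L.fam).k) φ := by
  rw [act_ker hκ _ hφ, gX_gone]

theorem LB.RI (hκ : IsRC κ) {φ : m.X → ℂ} (hφ : LB (coarse m) φ) : LB (coarse m) (RI κ φ) := by
  rw [RI_eq_act hκ hφ]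
  exact (ck_ker hκ gone).lb_act hφ

theorem norm_gX_le {a : GlobKer m.L.fam} {C : ℝ} (hC : ∀ x, ∑ y ∈ gs a x, ‖a.k x y‖ ≤ C)
    {φ : m.X → ℂ} {B : ℝ} (hB : 0 ≤ B) (h : ∀ x, ‖φ x‖ ≤ B) (x : m.X) : ‖gX a φ x‖ ≤ C * B := by
  unfold gX
  refine (norm_sum_le _ _).trans ?_
  calc ∑ y ∈ gs a x.2, ‖a.k x.2 y * φ (x.1, y)‖ ≤ ∑ y ∈ gs a x.2, ‖a.k x.2 y‖ * B := by
        refine Finset.sum_le_sum fun y _ => ?_
        rw [norm_mul]
        exact mul_le_mul_of_nonneg_left (h _) (norm_nonneg _)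
    _ = (∑ y ∈ gs a x.2, ‖a.k x.2 y‖) * B := by rw [Finset.sum_mul]
    _ ≤ C * B := mul_le_mul_of_nonneg_right (hC x.2) hB

theorem gX_smul (a : GlobKer m.L.fam) {φ : m.X → ℂ} (hφ : ∀ (g : PGL(2, K)) x, φ (g • x) = φ x)
    (g : PGL(2, K)) (x : m.X) : gX a φ (g • x) = gX a φ x := by
  rw [gX_eq_gop, gX_eq_gop]
  show gop a (fun y => φ ((g • x).1, y)) (g • x.2) = _
  rw [gop_smul]
  congr 1
  funext y
  exact hφ g (x.1, y)

theorem RI_smul (hκ : IsRC κ) {φ : m.X → ℂ} (hlb : LB (coarse m) φ)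
    (hφ : ∀ (g : PGL(2, K)) x, φ (g • x) = φ x) (g : PGL(2, K)) (x : m.X) :
    RI κ φ (g • x) = RI κ φ x := by
  rw [RI_eq_act hκ hlb]
  exact (ck_ker hκ gone).act_smul hφ g x

end Model

end Fermat.Agent.H17S
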