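import Fermat.Agent.H79SDef
import Fermat.Agent.H17S3

/-!
# S47, block (C): the form on `E` and the operator `C` (interfaces, helper79)

* `IsEForm C a Φ` : the form on `X(E)` (level `ker ψ_w` at `SE`, right invariant under `U0` at `w0`)
  from which the target vector is built;
* `CFam C a` : the operator `C` on both sides, as a finite family of pure test kernels.
-/

set_option autoImplicit false
set_option linter.unusedSectionVars false

noncomputable section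

open IsDedekindDomain HeightOneSpectrum WithZero NumberField Matrix MeasureTheory
open scoped MatrixGroups

namespace Fermat.Agent.H79S

open Fermat.Agent.H59XF Fermat.Agent.H51Z Fermat.Agent.H59D Fermat.Agent.H76U
open Fermat.Agent.H17S (gX RI act Bd)

variable {F E : Type} [Field F] [NumberField F] [Field E] [NumberField E] [Algebra F E]

/-- The eigenvalue of `T_w`. -/
def evT {K : Type*} [Field K] [NumberField K] (a : HeightOneSpectrum (𝓞 K) → ℝ)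
    (w : HeightOneSpectrum (𝓞 K)) : ℝ := Real.sqrt (Ideal.absNorm w.asIdeal) * a w

open Classical in
/-- The form on `X(E)` obtained from block (D), at Iwahori level in `w0`. -/
structure IsEForm (C : CSetup F E) (a : HeightOneSpectrum (𝓞 E) → ℝ) (Φ : C.mE.X → ℂ) : Prop where
  inv : ∀ (g : PGL(2, E)) (x : C.mE.X), Φ (g • x) = Φ x
  cont : ∀ y : XF C.mE.L.fam, Continuous fun τ : Fin 3 → H3 => Φ (τ, y)
  growth : ∀ y : XF C.mE.L.fam, ∃ A : ℝ, ∀ c : ℝ, 0 < c → ∃ M : ℝ, ∀ τ : Fin 3 → H3,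
    (∀ j, c ≤ (τ j).y) → ‖Φ (τ, y)‖ ≤ M * (∏ j, (τ j).y) ^ A
  rad : ∀ κ : (Fin 3 → ℝ) → ℂ, H9Z.Ker κ → ∀ (y : XF C.mE.L.fam) (τ : Fin 3 → H3),
    H5Z.Rk κ (fun v => Φ (v, y)) τ = H9Z.hat κ * Φ (τ, y)
  /-- Hecke operators outside `SE` and `w0` -/
  hecke : ∀ w ∉ C.SE, w ≠ C.w0 → ∀ x,
    gX (single w (C.kE.D.T w)) Φ x = (evT a w : ℂ) * Φ x
  /-- types -/
  eS : ∀ x, gX C.kE.D.eS Φ x = Φ x
  /-- right invariance at `w0` -/
  inv0 : ∀ (τ : Fin 3 → H3) (y : XF C.mE.L.fam) (g u : PGL(2, E)), u ∈ H59D.U0 C.w0 →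
    Φ (τ, XF.upd y C.w0 ((g * u : PGL(2, E)) : PGL(2, E) ⧸ C.mE.L.fam.U C.w0)) =
      Φ (τ, XF.upd y C.w0 ((g : PGL(2, E)) : PGL(2, E) ⧸ C.mE.L.fam.U C.w0))
  /-- the Hecke operator `T` at `w0` -/
  hecke0 : ∀ (ϖ : Eˣ), C.w0.valuation E (ϖ : E) = exp (-(1 : ℤ)) →
    ∀ R : Finset E, H51Z.IsReps (C.w0.valuation E) 1 R → H7.Z.HeckeX C.mE Φ C.w0 ϖ R (evT a C.w0 : ℂ)
  ne : ∃ x, Φ x ≠ 0

/-- The eigenvalue of the pure kernel `(κ, n)` on an eigenform. -/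
def evP (a : HeightOneSpectrum (𝓞 E) → ℝ) (κ : (Fin 3 → ℝ) → ℂ)
    (n : HeightOneSpectrum (𝓞 E) →₀ ℕ) : ℂ :=
  H9Z.hat κ * n.prod fun w k => (evT a w : ℂ) ^ k

/-- **The operator `C`** on both sides, as a finite family of pure test kernels. -/
structure CFam (C : CSetup F E) (a : HeightOneSpectrum (𝓞 E) → ℝ) where
  ι : Type
  fin : Fintype ι
  κ : ι → (Fin 3 → ℝ) → ℂ
  n : ι → HeightOneSpectrum (𝓞 E) →₀ ℕ
  rc : ∀ i, H56Z.IsRC (κ i)
  real : ∀ i t, (starRingEnd ℂ) (κ i t) = κ i t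
  ok : ∀ i, C.OkN (n i)
  /-- invariance under `s` -/
  s_inv : ∀ x y : C.mE.X, ∑ i, C.tkE (κ i) (n i) 0 (C.aE.act x) (C.aE.act y) =
    ∑ i, C.tkE (κ i) (n i) 0 x y
  /-- the automorphic kernels are bounded -/
  bdE : Bd PGL(2, E) fun x y : C.mE.X => ∑ i, C.tkE (κ i) (n i) 0 x y
  bdF : Bd PGL(2, F) fun x y : C.mF.X => ∑ i, C.tkB (κ i) (n i) 0 x y
  /-- the eigenvalue on the target is not zero -/
  val_ne : ∑ i, evP a (κ i) (n i) ≠ 0
  /-- the target is bounded -/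
  bddE : ∀ Φ : C.mE.X → ℂ, IsEForm C a Φ → ∃ M : ℝ, ∀ x, ‖Φ x‖ ≤ M

end Fermat.Agent.H79S
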