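import Fermat.Agent.H42T5
import Fermat.Agent.H79SFam
import Fermat.Agent.H17S4
import Fermat.Agent.H26ZCut

/-!
H42T6 (project S47, (m2)): the trace identity for the setup of block (C), from the comparison of the
geometric sides.
-/

set_option autoImplicit false
set_option linter.unusedSectionVars false

noncomputable section

open MeasureTheory Set IsDedekindDomain HeightOneSpectrum NumberField
open scoped ENNReal ComplexConjugate MatrixGroups

namespace Fermat.Agent.H42T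

open Fermat.Agent.H17S Fermat.Agent.H21Z Fermat.Agent.H42S Fermat.Agent.H32Z
open Fermat.Agent.H32Z.CutOff Fermat.Agent.H59XF Fermat.Agent.H51Z Fermat.Agent.H59D
open Fermat.Agent.H79S Fermat.Agent.H56Z Fermat.Agent.H67M

variable {F E : Type} [Field F] [NumberField F] [Field E] [NumberField E] [Algebra F E]
  (C : CSetup F E)

/-- The one-sided trace formula, without coefficients. -/
theorem side_tr_one {G X : Type} [Group G] [MulAction G X] [MeasurableSpace X] {μ : Measure X}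
    [SFinite μ] [Countable G] [MeasurableConstSMul G X] [SMulInvariantMeasure G X μ]
    {𝒞 : Coarse G μ} {Λ : Type} (S : KSys 𝒞 Λ) {ι : Type} [Fintype ι] (t : ι → S.P)
    (hBd : Bd G (fun x y => ∑ i, S.ker (t i) x y))
    [MeasurableSpace.CountablyGenerated X] (c : CutOff G X) [IsFiniteMeasure (c.ν μ)] (tw : Tw G μ)
    {K : X → X → ℂ} (hKe : K = autK G (fun x y => ∑ i, S.ker (t i) x y))
    {hK : BK K} {hG : ∀ (g : G) x y, K (g • x) y = K x y}
    (hsym : ∀ x y, K y x = conj (K x y))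
    {J : Type} (D : OpData J hK (c.ν μ) hG) (lab : J → Λ)
    (hlab : ∀ l, D.Y (D.j l) = S.Y (lab l)) (ul : Λ) (ρ : ℂ) (hu : D.Y D.u = ρ • S.Y ul)
    (hs : ∀ (f : BInv G X) x, (D.s f : X → ℂ) x = (f : X → ℂ) (tw.s.symm x))
    (L : List J) (m : ℕ) :
    (D.side hsym).tr L m = ρ ^ m * ∫ x, ∑ i, ∑ j, (1 : ℂ) * 1 *
      autK G (S.ker (S.apps (S.mul (t i) (S.apps (t j) (L.map lab))) (List.replicate m ul)))
        x (tw.s x) ∂(c.ν μ) := by
  have e1 : (fun x y : X => ∑ i, S.ker (t i) x y) =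
      fun x y => ∑ i, (fun _ : ι => (1 : ℂ)) i * S.ker (t i) x y := by
    funext x y
    simp only [one_mul]
  rw [e1] at hBd hKe
  subst hKe
  exact S.side_tr (fun _ => 1) t hBd c tw hsym D lab hlab ul ρ hu hs L m

/-! ### Labels -/

theorem below_eq_iff (v : HeightOneSpectrum (𝓞 F)) (w : HeightOneSpectrum (𝓞 E)) :
    H47.below F w = v ↔ w ∈ H82.above E v := by
  constructor
  · rintro rfl
    rfl
  · intro h
    exact HeightOneSpectrum.ext h

theorem nonSplit_v0 : H82.NonSplit E C.v0 := by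
  rw [H82.NonSplit, C.above_v0, Set.ncard_singleton]

theorem below_w0 : H47.below F C.w0 = C.v0 := by
  rw [below_eq_iff, C.above_v0]
  exact Set.mem_singleton _

theorem Ok_ne_w0 {w : HeightOneSpectrum (𝓞 E)} (h : C.Ok w) : w ≠ C.w0 := by
  rintro rfl
  apply h.2
  rw [below_w0]
  exact nonSplit_v0 C

theorem Ok_below_ne {w : HeightOneSpectrum (𝓞 E)} (h : C.Ok w) : H47.below F w ≠ C.v0 := by
  intro h0
  apply h.2
  rw [h0]
  exact nonSplit_v0 C

theorem Ok_below_notMem {w : HeightOneSpectrum (𝓞 E)} (h : C.Ok w) : H47.below F w ∉ C.SF :=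
  fun h0 => h.1 ((C.mem_SE w).mpr h0)

theorem Ok_E {w : HeightOneSpectrum (𝓞 E)} (h : C.Ok w) :
    w ∉ C.kE.D.S ∧ w ≠ C.kE.D.w0 := by
  rw [C.kE.D_S, C.kE.D_w0]
  exact ⟨h.1, Ok_ne_w0 C h⟩

theorem Ok_F {w : HeightOneSpectrum (𝓞 E)} (h : C.Ok w) :
    H47.below F w ∉ C.kF.D.S ∧ H47.below F w ≠ C.kF.D.w0 := by
  rw [C.kF.D_S, C.kF.D_w0]
  exact ⟨Ok_below_notMem C h, Ok_below_ne C h⟩

/-- The common labels: Hecke operators at places over split places, real radial kernels. -/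
abbrev JL : Type :=
  {w : HeightOneSpectrum (𝓞 E) // C.Ok w} ⊕
    {κ : (Fin 3 → ℝ) → ℂ // IsRC κ ∧ ∀ t, conj (κ t) = κ t}

/-- the labels on the side of `E` -/
def labE : JL C → Lab C.kE.D
  | Sum.inl w => Sum.inl (Sum.inl ⟨w.1, Ok_E C w.2⟩)
  | Sum.inr κ => Sum.inl (Sum.inr ⟨κ.1, κ.2.1⟩)

/-- the labels on the side of `F` -/
def labF : JL C → Lab C.kF.D
  | Sum.inl w => Sum.inl (Sum.inl ⟨H47.below F w.1, Ok_F C w.2⟩)
  | Sum.inr κ => Sum.inl (Sum.inr ⟨bF κ.1, isRC_bF κ.2.1⟩)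

/-! ### Matching -/

/-- matching of pure monomial kernels -/
def RM (p : PK C.kE.D) (p' : PK C.kF.D) : Prop :=
  p'.κ = bF p.κ ∧ C.OkN p.n ∧ p'.n = p.n.mapDomain (H47.below F) ∧ p'.k = 3 * p.k

theorem OkN_add {n n' : HeightOneSpectrum (𝓞 E) →₀ ℕ} (h : C.OkN n) (h' : C.OkN n') :
    C.OkN (n + n') := by
  classical
  intro w hw
  rcases Finset.mem_union.mp (Finsupp.support_add hw) with h1 | h1
  · exact h w h1
  · exact h' w h1

theorem OkN_single {w : HeightOneSpectrum (𝓞 E)} (h : C.Ok w) (k : ℕ) :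
    C.OkN (Finsupp.single w k) := by
  classical
  intro w' hw'
  have h1 := Finsupp.support_single_subset hw'
  rw [Finset.mem_singleton] at h1
  rw [h1]
  exact h

theorem RM_mul {p q : PK C.kE.D} {p' q' : PK C.kF.D} (h : RM C p p') (h' : RM C q q') :
    RM C (p.mul q) (p'.mul q') := by
  obtain ⟨h1, h2, h3, h4⟩ := h
  obtain ⟨h1', h2', h3', h4'⟩ := h'
  refine ⟨?_, OkN_add C h2 h2', ?_, ?_⟩
  · change conv p'.κ q'.κ = bF (conv p.κ q.κ)
    rw [h1, h1', bF_conv p.rc q.rc]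
  · change p'.n + q'.n = (p.n + q.n).mapDomain _
    rw [h3, h3', Finsupp.mapDomain_add]
  · change p'.k + q'.k = 3 * (p.k + q.k)
    rw [h4, h4']
    ring

theorem RM_app {p : PK C.kE.D} {p' : PK C.kF.D} (h : RM C p p') (l : JL C) :
    RM C (p.app 1 (labE C l)) (p'.app 3 (labF C l)) := by
  obtain ⟨h1, h2, h3, h4⟩ := h
  rcases l with w | κ
  · refine ⟨h1, OkN_add C h2 (OkN_single C w.2 1), ?_, h4⟩
    change p'.n + Finsupp.single (H47.below F w.1) 1 = (p.n + Finsupp.single w.1 1).mapDomain _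
    rw [h3, Finsupp.mapDomain_add, Finsupp.mapDomain_single]
  · refine ⟨?_, h2, h3, h4⟩
    change conv p'.κ (bF κ.1) = bF (conv p.κ κ.1)
    rw [h1, bF_conv p.rc κ.2.1]

variable (BE : BOps C.mE) (BF : BOps C.mF)

/-- the matching of the two pure systems -/
def matching (sE : C.mE.X → C.mE.X) (sF : C.mF.X → C.mF.X) :
    Matching ((kSys C.kE.D BE 1).toPure (labE C) (Sum.inr ()) sE)
      ((kSys C.kF.D BF 3).toPure (labF C) (Sum.inr ()) sF) where
  R := RM C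
  mul h h' := RM_mul C h h'
  app l h := RM_app C h l

/-- **The trace identity of block (C).** -/
theorem TI_C (hgeom : C.Geom) (cE : CutOff PGL(2, E) C.mE.X) (cF : CutOff PGL(2, F) C.mF.X)
    [IsFiniteMeasure (cE.ν C.mE.μ)] [IsFiniteMeasure (cF.ν C.mF.μ)]
    [MeasurableSpace.CountablyGenerated C.mE.X] [MeasurableSpace.CountablyGenerated C.mF.X]
    {ι : Type} [Fintype ι] (κ : ι → (Fin 3 → ℝ) → ℂ) (hκ : ∀ i, IsRC (κ i))
    (n : ι → HeightOneSpectrum (𝓞 E) →₀ ℕ) (hn : ∀ i, C.OkN (n i))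
    (bdE : Bd PGL(2, E) fun x y : C.mE.X => ∑ i, C.tkE (κ i) (n i) 0 x y)
    (bdF : Bd PGL(2, F) fun x y : C.mF.X => ∑ i, C.tkB (κ i) (n i) 0 x y)
    (tE : Tw PGL(2, E) C.mE.μ) (htE : ∀ x, tE.s x = C.aE.act x)
    (tF : Tw PGL(2, F) C.mF.μ) (htF : ∀ x, tF.s x = x)
    {hKE : BK (autK PGL(2, E) fun x y : C.mE.X => ∑ i, C.tkE (κ i) (n i) 0 x y)}
    {hGE : ∀ (g : PGL(2, E)) x y,
      autK PGL(2, E) (fun x y : C.mE.X => ∑ i, C.tkE (κ i) (n i) 0 x y) (g • x) y =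
      autK PGL(2, E) (fun x y : C.mE.X => ∑ i, C.tkE (κ i) (n i) 0 x y) x y}
    (hsE : ∀ x y, autK PGL(2, E) (fun x y : C.mE.X => ∑ i, C.tkE (κ i) (n i) 0 x y) y x =
      conj (autK PGL(2, E) (fun x y : C.mE.X => ∑ i, C.tkE (κ i) (n i) 0 x y) x y))
    {hKF : BK (autK PGL(2, F) fun x y : C.mF.X => ∑ i, C.tkB (κ i) (n i) 0 x y)}
    {hGF : ∀ (g : PGL(2, F)) x y,
      autK PGL(2, F) (fun x y : C.mF.X => ∑ i, C.tkB (κ i) (n i) 0 x y) (g • x) y =
      autK PGL(2, F) (fun x y : C.mF.X => ∑ i, C.tkB (κ i) (n i) 0 x y) x y}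
    (hsF : ∀ x y, autK PGL(2, F) (fun x y : C.mF.X => ∑ i, C.tkB (κ i) (n i) 0 x y) y x =
      conj (autK PGL(2, F) (fun x y : C.mF.X => ∑ i, C.tkB (κ i) (n i) 0 x y) x y))
    (D : OpData (JL C) hKE (cE.ν C.mE.μ) hGE) (D' : OpData (JL C) hKF (cF.ν C.mF.μ) hGF)
    (hD : ∀ l, D.Y (D.j l) = (kSys C.kE.D BE 1).Y (labE C l))
    (hD' : ∀ l, D'.Y (D'.j l) = (kSys C.kF.D BF 3).Y (labF C l))
    (ρ : ℂ) (hu : D.Y D.u = ρ • (kSys C.kE.D BE 1).Y (Sum.inr ()))
    (hu' : D'.Y D'.u = ρ • (kSys C.kF.D BF 3).Y (Sum.inr ()))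
    (hs : ∀ (f : BInv PGL(2, E) C.mE.X) x, (D.s f : C.mE.X → ℂ) x =
      (f : C.mE.X → ℂ) (tE.s.symm x))
    (hs' : ∀ (f : BInv PGL(2, F) C.mF.X) x, (D'.s f : C.mF.X → ℂ) x =
      (f : C.mF.X → ℂ) (tF.s.symm x)) :
    ∀ L : List (JL C), ∃ m₀ : ℕ, ∀ m ≥ m₀, (D.side hsE).tr L m = 1 * (D'.side hsF).tr L m := by
  let t : ι → PK C.kE.D := fun i => ⟨κ i, hκ i, n i, 0⟩
  let t' : ι → PK C.kF.D := fun i => ⟨bF (κ i), isRC_bF (hκ i), (n i).mapDomain (H47.below F), 0⟩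
  refine TI (matching C BE BF tE.s tF.s) (cE.ν C.mE.μ) (cF.ν C.mF.μ) ?_ t t' ?_
    (fun _ => 1) (fun m => ρ ^ m) (D.side hsE) (D'.side hsF) (fun L m => ?_) (fun L m => ?_)
  · rintro p p' ⟨h1, h2, h3, h4⟩
    obtain ⟨k0, hk0⟩ := hgeom cE cF p.κ p.rc p.n h2
    refine ⟨k0, fun m hm => ?_⟩
    have hv : (fun x => ((kSys C.kE.D BE 1).toPure (labE C) (Sum.inr ()) tE.s).val p m x) =
        fun x => autK PGL(2, E) (C.tkE p.κ p.n (p.k + m)) x (C.aE.act x) := by
      funext x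
      change autK PGL(2, E) ((kSys C.kE.D BE 1).ker ((kSys C.kE.D BE 1).apps p
        (List.replicate m (Sum.inr ())))) x (tE.s x) = _
      rw [kSys_apps_u, one_mul, htE]
      rfl
    have hv' : (fun x => ((kSys C.kF.D BF 3).toPure (labF C) (Sum.inr ()) tF.s).val p' m x) =
        fun x => autK PGL(2, F) (C.tkB p.κ p.n (p.k + m)) x x := by
      funext x
      change autK PGL(2, F) ((kSys C.kF.D BF 3).ker ((kSys C.kF.D BF 3).apps p'
        (List.replicate m (Sum.inr ())))) x (tF.s x) = _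
      rw [kSys_apps_u, htF]
      change autK PGL(2, F) (C.mF.ker p'.κ (C.kF.D.mono p'.n (p'.k + 3 * m)).k) x x = _
      rw [h1, h3, h4, ← mul_add]
      rfl
    obtain ⟨i1, i2, i3⟩ := hk0 (p.k + m) (le_trans hm (Nat.le_add_left _ _))
    refine ⟨?_, ?_, ?_⟩
    · change Integrable (fun x =>
        ((kSys C.kE.D BE 1).toPure (labE C) (Sum.inr ()) tE.s).val p m x) _
      rw [hv]; exact i1
    · change Integrable (fun x =>
        ((kSys C.kF.D BF 3).toPure (labF C) (Sum.inr ()) tF.s).val p' m x) _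
      rw [hv']; exact i2
    · rw [hv, hv']; exact i3
  · intro i
    exact ⟨rfl, hn i, rfl, rfl⟩
  · refine (side_tr_one (kSys C.kE.D BE 1) t bdE cE tE rfl hsE D (labE C) hD (Sum.inr ()) ρ hu
      hs L m).trans ?_
    refine congrArg (fun z => ρ ^ m * z) ?_
    refine integral_congr_ae (Filter.Eventually.of_forall fun x => ?_)
    refine Finset.sum_congr rfl fun i _ => Finset.sum_congr rfl fun j _ => ?_
    have h2 := KSys.toPure_apps (kSys C.kE.D BE 1) (labE C) (Sum.inr ()) tE.s (t j) L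
    exact (congrArg (fun q : (kSys C.kE.D BE 1).P => (1 : ℂ) * 1 * autK PGL(2, E)
      ((kSys C.kE.D BE 1).ker ((kSys C.kE.D BE 1).apps ((kSys C.kE.D BE 1).mul (t i) q)
        (List.replicate m (Sum.inr ())))) x (tE.s x)) h2).symm
  · refine (side_tr_one (kSys C.kF.D BF 3) t' bdF cF tF rfl hsF D' (labF C) hD' (Sum.inr ()) ρ hu'
      hs' L m).trans ?_
    refine congrArg (fun z => ρ ^ m * z) ?_
    refine integral_congr_ae (Filter.Eventually.of_forall fun x => ?_)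
    refine Finset.sum_congr rfl fun i _ => Finset.sum_congr rfl fun j _ => ?_
    have h2 := KSys.toPure_apps (kSys C.kF.D BF 3) (labF C) (Sum.inr ()) tF.s (t' j) L
    exact (congrArg (fun q : (kSys C.kF.D BF 3).P => (1 : ℂ) * 1 * autK PGL(2, F)
      ((kSys C.kF.D BF 3).ker ((kSys C.kF.D BF 3).apps ((kSys C.kF.D BF 3).mul (t' i) q)
        (List.replicate m (Sum.inr ())))) x (tF.s x)) h2).symm

end Fermat.Agent.H42T
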