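import Fermat.Agent.H51ZKD2

/-!
# Dictionary for the local kernels of block (C) (helper51, S47)

For `k : KerData m S w0 T`: the kernels `T w`, `e w`, `U w0` are the ones of `H51ZKer`, `H51ZKD`,
`H51ZIw`; hermitian symmetry of the monomials; eigenfunctions of `T w`, `U w0`, functions fixed by
`e w` in terms of representatives.
-/

set_option autoImplicit false
set_option linter.unusedSectionVars false
set_option linter.unusedVariables false

noncomputable section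

open scoped Classical MatrixGroups WithZero ComplexConjugate
open IsDedekindDomain HeightOneSpectrum NumberField

namespace Fermat.Agent.H51Z

open Fermat.Agent.H59XF Fermat.Agent.H59D Fermat.Agent.H79S Fermat.Agent.H76U Matrix
open Fermat.Agent.H7.Z (HeckeEq UEq borP HeckeX UX TypedAt TyOK mk_bm_eq mk_dm_eq mk_bm_inj bm_ne_dm
  upd_inst)

namespace KD

variable {K : Type*} [Field K] [NumberField K] {J : Type*} [Fintype J] {m : Model K J}
  {S : Finset (HeightOneSpectrum (𝓞 K))} {w0 : HeightOneSpectrum (𝓞 K)}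
  {T : HeightOneSpectrum (𝓞 K) → TD K} (k : KerData m S w0 T)

include k

theorem w0_notMem : w0 ∉ S := by
  have h := k.D.w0S
  rwa [k.D_S, k.D_w0] at h

theorem U_good {w : HeightOneSpectrum (𝓞 K)} (hw : w ∉ S) (h0 : w ≠ w0) :
    m.L.fam.U w = U0 (w.valuation K) := (k.lev_good w hw h0).trans (U0_eq w)

theorem U_w0 : m.L.fam.U w0 = Iw (w0.valuation K) := k.lev_w0.trans (Iw_eq w0)

theorem dcT {w : HeightOneSpectrum (𝓞 K)} (hw : w ∉ S) (h0 : w ≠ w0) :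
    DC (m.L.fam.U w) (cellT (w.valuation K)) := (k.T_ind w hw h0).dc

theorem T_eq {w : HeightOneSpectrum (𝓞 K)} (hw : w ∉ S) (h0 : w ≠ w0) :
    k.D.T w = lind (cellT (w.valuation K)) (dcT k hw h0) := (k.T_ind w hw h0).eq_lind

theorem T_eq' {w : HeightOneSpectrum (𝓞 K)} (hw : w ∉ S) (h0 : w ≠ w0) :
    k.D.T w = lcast (U_good k hw h0) (Tker (disc_nf w).dcT) := by
  rw [T_eq k hw h0, Tker, lcast_lind]

theorem ltr_T {w : HeightOneSpectrum (𝓞 K)} (hw : w ∉ S) (h0 : w ≠ w0) :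
    ltr (k.D.T w) = k.D.T w := (k.T_ind w hw h0).ltr fun g => cellT_inv_iff _

theorem herm_T {w : HeightOneSpectrum (𝓞 K)} (hw : w ∉ S) (h0 : w ≠ w0) : Herm (k.D.T w) := by
  intro x y
  rw [(k.T_ind w hw h0).conj_k x y]
  conv_lhs => rw [← ltr_T k hw h0]
  rfl

theorem isTy {w : HeightOneSpectrum (𝓞 K)} (hw : w ∈ S) :
    IsTy (m.L.fam.U w) (T w).H (T w).chi :=
  (isTy_TD (T w) (k.e_index w hw)).of_eq (k.lev_S w hw)

theorem index_eq {w : HeightOneSpectrum (𝓞 K)} (hw : w ∈ S) :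
    ((m.L.fam.U w).subgroupOf (T w).H).index = ((T w).U.subgroupOf (T w).H).index := by
  rw [show m.L.fam.U w = (T w).U from k.lev_S w hw]

theorem e_eq {w : HeightOneSpectrum (𝓞 K)} (hw : w ∈ S) : k.D.e w = tker (isTy k hw) :=
  (k.e_typ w hw).eq_tker (isTy k hw)

theorem herm_e {w : HeightOneSpectrum (𝓞 K)} (hw : w ∈ S) (hpsi : ∀ x, ‖(T w).psi x‖ = 1) :
    Herm (k.D.e w) := by
  intro x y
  rw [e_eq k hw]
  exact tker_symm _ (fun g _ => norm_chi_TD (T w) hpsi g) x y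

/-- The monomial kernels without `U` are hermitian symmetric. -/
theorem mono_symm (hpsi : ∀ w ∈ S, ∀ x, ‖(T w).psi x‖ = 1)
    (n : HeightOneSpectrum (𝓞 K) →₀ ℕ) (x y : XF m.L.fam) :
    (k.D.mono n 0).k y x = conj ((k.D.mono n 0).k x y) := by
  refine H51Z.mono_symm k.D (fun i hS h0 => ?_) (fun i hS => ?_) n x y
  · exact herm_T k (k.D_S ▸ hS) (k.D_w0 ▸ h0)
  · exact herm_e k (k.D_S ▸ hS) (hpsi i (k.D_S ▸ hS))

/-! ### Hecke operators -/

/-- Eigenfunctions of `T_w`. -/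
theorem heckeEq_iff [DecidableEq (HeightOneSpectrum (𝓞 K))] {w : HeightOneSpectrum (𝓞 K)}
    (hw : w ∉ S) (h0 : w ≠ w0) {φ : XF m.L.fam → ℂ} {lam : ℂ} {ϖ : Kˣ}
    (hϖ : w.valuation K (ϖ : K) = WithZero.exp (-(1 : ℤ))) {R : Finset K}
    (hR : IsReps (w.valuation K) 1 R) :
    HeckeEq (borP K) m.L.fam φ w ϖ R lam ↔ lop w (k.D.T w) φ = lam • φ := by
  rw [T_eq k hw h0]
  constructor
  · intro h
    funext y
    obtain ⟨g, hg⟩ := QuotientGroup.mk_surjective (y w)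
    rw [lop_lind w (dcT k hw h0) ((isCosetReps_repsT hϖ hR).of_eq (U_good k hw h0)) φ y g hg.symm,
      Pi.smul_apply, smul_eq_mul, h y g hg.symm, repsT, Finset.sum_insert, Finset.sum_image,
      add_comm]
    · congr 1
      · refine Finset.sum_congr rfl fun b _ => ?_
        rw [mk_bm_eq, mul_assoc, upd_inst]
      · rw [mk_dm_eq, upd_inst]
    · intro b hb b' hb' hbb
      exact mk_bm_inj hbb
    · intro hmem
      obtain ⟨b, hb, hbb⟩ := Finset.mem_image.1 hmem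
      exact bm_ne_dm hϖ hbb
  · intro h
    exact H7.Z.heckeEq_of_lop (dcT k hw h0) (U_good k hw h0) h hϖ hR

/-- Eigenfunctions of `T_w` on `X`. -/
theorem heckeX_iff [DecidableEq (HeightOneSpectrum (𝓞 K))] {w : HeightOneSpectrum (𝓞 K)}
    (hw : w ∉ S) (h0 : w ≠ w0) {Φ : m.X → ℂ} {lam : ℂ} {ϖ : Kˣ}
    (hϖ : w.valuation K (ϖ : K) = WithZero.exp (-(1 : ℤ))) {R : Finset K}
    (hR : IsReps (w.valuation K) 1 R) :
    HeckeX m Φ w ϖ R lam ↔ ∀ τ : J → H3, lop w (k.D.T w) (fun y => Φ (τ, y)) =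
      lam • fun y => Φ (τ, y) := by
  have h1 : HeckeX m Φ w ϖ R lam ↔
      ∀ τ : J → H3, HeckeEq (borP K) m.L.fam (fun y => Φ (τ, y)) w ϖ R lam := Iff.rfl
  rw [h1]
  exact forall_congr' fun τ => heckeEq_iff k hw h0 hϖ hR

/-! ### The operator `U` -/

theorem U_eq : k.D.U w0 = lcast (U_w0 k) (Uker (disc_nf w0) 1) := by
  refine lext_mk fun g g' => ?_
  rw [lcast_k, Uker_k]
  split_ifs with hg
  · exact (k.U_ind g g').1 (by simpa using hg)
  · exact (k.U_ind g g').2 (by simpa using hg)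

/-- Eigenfunctions of `U`. -/
theorem uEq_iff [DecidableEq (HeightOneSpectrum (𝓞 K))] {φ : XF m.L.fam → ℂ} {u : ℂ} {ϖ : Kˣ}
    (hϖ : w0.valuation K (ϖ : K) = WithZero.exp (-(1 : ℤ))) {R : Finset K}
    (hR : IsReps (w0.valuation K) 1 R) :
    UEq (borP K) m.L.fam φ w0 ϖ R u ↔ lop w0 (k.D.U w0) φ = u • φ := by
  rw [U_eq k]
  constructor
  · intro h
    funext y
    obtain ⟨g, hg⟩ := QuotientGroup.mk_surjective (y w0)
    rw [lop_Uker (U_w0 k) (disc_nf w0) 1 (by rw [hϖ]; simp) hR φ y g hg.symm, Pi.smul_apply,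
      smul_eq_mul, h y g hg.symm]
    refine Finset.sum_congr rfl fun b _ => ?_
    rw [mk_bm_eq, mul_assoc, upd_inst]
  · intro h
    exact H7.Z.uEq_of_lop (U_w0 k) h hϖ hR

/-- Eigenfunctions of `U` on `X`. -/
theorem uX_iff [DecidableEq (HeightOneSpectrum (𝓞 K))] {Φ : m.X → ℂ} {u : ℂ} {ϖ : Kˣ}
    (hϖ : w0.valuation K (ϖ : K) = WithZero.exp (-(1 : ℤ))) {R : Finset K}
    (hR : IsReps (w0.valuation K) 1 R) :
    UX m Φ w0 ϖ R u ↔ ∀ τ : J → H3, lop w0 (k.D.U w0) (fun y => Φ (τ, y)) =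
      u • fun y => Φ (τ, y) := by
  have h1 : UX m Φ w0 ϖ R u ↔
      ∀ τ : J → H3, UEq (borP K) m.L.fam (fun y => Φ (τ, y)) w0 ϖ R u := Iff.rfl
  rw [h1]
  exact forall_congr' fun τ => uEq_iff k hϖ hR

/-- The kernel of `W` at `w0`. -/
def Wk : LocKer (m.L.fam.U w0) := lcast (U_w0 k) (Wker (disc_nf w0).v_pi)

/-- The kernel of `P` at `w0`. -/
def Pk : LocKer (m.L.fam.U w0) := lcast (U_w0 k) (Pker (disc_nf w0))

theorem Wk_sq : LocKer.mul (Wk k) (Wk k) = LocKer.one := by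
  rw [Wk, ← lcast_mul, Wker_sq, lcast_one]

theorem ltr_Wk : ltr (Wk k) = Wk k := by rw [Wk, ← lcast_ltr, ltr_Wker]

theorem ltr_Pk : ltr (Pk k) = Pk k := by rw [Pk, ← lcast_ltr, ltr_Pker]

theorem Pk_sq : LocKer.mul (Pk k) (Pk k) = lsmul ((Ideal.absNorm w0.asIdeal : ℂ) + 1) (Pk k) := by
  rw [Pk, ← lcast_mul, Pker_sq, ← lcast_lsmul]
  congr 2
  rw [card_reps_nf w0 1 ((disc_nf w0).isReps 1), pow_one]

/-- `U = (P - 1) W`. -/
theorem lop_U_eq {E : Type*} [AddCommGroup E] [Module ℂ E] (φ : XF m.L.fam → E) :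
    lop w0 (k.D.U w0) φ = lop w0 (Pk k) (lop w0 (Wk k) φ) - lop w0 (Wk k) φ := by
  rw [U_eq k]
  exact lop_Uker_eq (U_w0 k) (disc_nf w0) φ

/-! ### Types -/

/-- Functions fixed by the idempotent at `w`. -/
theorem typ_iff [DecidableEq (HeightOneSpectrum (𝓞 K))] {w : HeightOneSpectrum (𝓞 K)}
    (hw : w ∈ S) (φ : XF m.L.fam → ℂ) :
    lop w (k.D.e w) φ = φ ↔ ∀ h ∈ (T w).H, ∀ (y : XF m.L.fam) (g : PGL(2, K)),
      φ (XF.upd y w ((g * h : PGL(2, K)) : PGL(2, K) ⧸ m.L.fam.U w)) =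
        (T w).chi h * φ (XF.upd y w ((g : PGL(2, K)) : PGL(2, K) ⧸ m.L.fam.U w)) := by
  rw [e_eq k hw, lop_tker_eq_iff]
  constructor
  · intro h1 h hh y g
    have h2 := h1 y g h hh
    rw [smul_eq_mul] at h2
    rw [upd_inst _ (Classical.decEq _) y w, upd_inst _ (Classical.decEq _) y w]
    convert h2
  · intro h1 y g h hh
    have h2 := h1 h hh y g
    rw [smul_eq_mul]
    convert h2

/-- Functions fixed by all idempotents. -/
theorem gop_eS_iff [DecidableEq (HeightOneSpectrum (𝓞 K))] (φ : XF m.L.fam → ℂ) :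
    gop k.D.eS φ = φ ↔ ∀ w ∈ S, ∀ h ∈ (T w).H, ∀ (y : XF m.L.fam) (g : PGL(2, K)),
      φ (XF.upd y w ((g * h : PGL(2, K)) : PGL(2, K) ⧸ m.L.fam.U w)) =
        (T w).chi h * φ (XF.upd y w ((g : PGL(2, K)) : PGL(2, K) ⧸ m.L.fam.U w)) := by
  rw [H51Z.gop_eS_iff, k.D_S]
  exact forall₂_congr fun w hw => typ_iff k hw φ

/-- Functions fixed by the idempotent at `w`, with a type in the sense of helper76. -/
theorem typedAt_iff [DecidableEq (HeightOneSpectrum (𝓞 K))] {w : HeightOneSpectrum (𝓞 K)}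
    (hw : w ∈ S) {Ty : Typ (m.L.fam.U w)} (hTy : TyOK (L := m.L) (T w) Ty)
    (φ : XF m.L.fam → ℂ) :
    lop w (k.D.e w) φ = φ ↔ TypedAt m.L Ty φ := by
  rw [typ_iff k hw]
  constructor
  · intro h1 h y
    obtain ⟨g, hg⟩ := QuotientGroup.mk_surjective (y w)
    have hh : (h : PGL(2, K)) ∈ (T w).H := hTy.H_eq ▸ h.2
    have h2 := h1 h hh y g
    rw [← hg, Typ.rt_mk, h2, hg, XF.upd_self, hTy.chi_eq _ hh]
  · intro h1 h hh y g
    have hh' : h ∈ Ty.H := hTy.H_eq ▸ hh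
    have h2 := h1 ⟨h, hh'⟩ (XF.upd y w ((g : PGL(2, K)) : PGL(2, K) ⧸ m.L.fam.U w))
    rw [XF.upd_same, XF.upd_upd, Typ.rt_mk] at h2
    rw [h2, hTy.chi_eq _ hh]

end KD

end Fermat.Agent.H51Z
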