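import Fermat.Agent.H25ZV0d
import Fermat.Agent.H79SFam
import Fermat.Agent.H59K3

/-!
# The aleph operator as a finite family of pure kernels, part 4: automorphisms, symmetry (helper59)

* `TwL` : transport of local kernels by the automorphism; `isTw_mono` : the monomial kernels of a
  `CSetup` are transported to the monomial kernels;
* `mono_herm` : hermitian symmetry of the monomial kernels without `U`.
-/

set_option autoImplicit false
set_option linter.unusedSectionVars false

noncomputable section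

open IsDedekindDomain HeightOneSpectrum WithZero NumberField Matrix MeasureTheory
open scoped MatrixGroups

namespace Fermat.Agent.H59K

open Fermat.Agent.H59XF Fermat.Agent.H51Z Fermat.Agent.H59D Fermat.Agent.H79S Fermat.Agent.H76U

/-! ### Transport of local kernels -/

section Tw

variable {G : Type*} [Group G] {ι : Type*} {L : LevelFam G ι} {t : Twist L} {i : ι}

variable (t) in
/-- `b` at the place `σ i` is the transport of `a` at the place `i`. -/
def TwL (i : ι) (a : LocKer (L.U i)) (b : LocKer (L.U (t.σ i))) : Prop :=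
  ∀ x y : G ⧸ L.U i, b.k (t.cmap i x) (t.cmap i y) = a.k x y

theorem TwL.one : TwL t i LocKer.one LocKer.one := by
  intro x y
  rw [LocKer.one_k, LocKer.one_k]
  by_cases h : x = y
  · rw [if_pos h, if_pos (by rw [h])]
  · rw [if_neg h, if_neg fun h' => h (t.cmap_injective i h')]

theorem TwL.mul {a a' : LocKer (L.U i)} {b b' : LocKer (L.U (t.σ i))} (h : TwL t i a b)
    (h' : TwL t i a' b') : TwL t i (LocKer.mul a a') (LocKer.mul b b') := by
  classical
  intro x z
  rw [mul_k_eq_sum, mul_k_eq_sum]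
  have h1 : ls b (t.cmap i x) = (ls a x).image (t.cmap i) := by
    ext y
    obtain ⟨y, rfl⟩ := t.cmap_surjective i y
    rw [mem_ls, h, Finset.mem_image]
    constructor
    · intro hy
      exact ⟨y, mem_ls.2 hy, rfl⟩
    · rintro ⟨y', hy', e⟩
      rw [← t.cmap_injective i e]
      exact mem_ls.1 hy'
  rw [h1, Finset.sum_image fun _ _ _ _ e => t.cmap_injective i e]
  exact Finset.sum_congr rfl fun y _ => by rw [h, h']

theorem TwL.lpow {a : LocKer (L.U i)} {b : LocKer (L.U (t.σ i))} (h : TwL t i a b) (n : ℕ) :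
    TwL t i (lpow a n) (lpow b n) := by
  induction n with
  | zero => exact TwL.one
  | succ n ih =>
    rw [lpow_succ, lpow_succ]
    exact h.mul ih

theorem twL_of_isInd {a : LocKer (L.U i)} {b : LocKer (L.U (t.σ i))} {D D' : Set G}
    (ha : IsInd a D) (hb : IsInd b D') (h : ∀ g, t.s g ∈ D' ↔ g ∈ D) : TwL t i a b := by
  intro x y
  induction x using QuotientGroup.induction_on with
  | H g =>
    induction y using QuotientGroup.induction_on with
    | H g' =>
      rw [Twist.cmap_mk, Twist.cmap_mk]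
      by_cases hg : g⁻¹ * g' ∈ D
      · rw [(ha g g').1 hg]
        refine (hb _ _).1 ?_
        rw [← map_inv, ← map_mul]
        exact (h _).2 hg
      · rw [(ha g g').2 hg]
        refine (hb _ _).2 ?_
        rw [← map_inv, ← map_mul]
        exact fun hg' => hg ((h _).1 hg')

/-- The indices agree. -/
theorem index_twist {H H' : Subgroup G} (h : ∀ g, t.s g ∈ H' ↔ g ∈ H) :
    ((L.U (t.σ i)).subgroupOf H').index = ((L.U i).subgroupOf H).index := by
  have e1 : L.U i = (L.U (t.σ i)).comap (t.s : G →* G) := by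
    ext g
    exact t.map_U i g
  have e2 : H = H'.comap (t.s : G →* G) := by
    ext g
    exact (h g).symm
  have h3 : (H'.comap (t.s : G →* G)).map (t.s : G →* G) = H' :=
    Subgroup.map_comap_eq_self_of_surjective t.s.surjective H'
  have h4 := Subgroup.relIndex_comap (L.U (t.σ i)) (t.s : G →* G) (H'.comap (t.s : G →* G))
  rw [h3, ← e1, ← e2] at h4
  exact h4.symm

theorem twL_of_isTyp {a : LocKer (L.U i)} {b : LocKer (L.U (t.σ i))} {H H' : Subgroup G}
    {χ χ' : G → ℂ} (ha : IsTyp a H χ) (hb : IsTyp b H' χ') (h : ∀ g, t.s g ∈ H' ↔ g ∈ H)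
    (hχ : ∀ g, χ' (t.s g) = χ g) : TwL t i a b := by
  intro x y
  induction x using QuotientGroup.induction_on with
  | H g =>
    induction y using QuotientGroup.induction_on with
    | H g' =>
      rw [Twist.cmap_mk, Twist.cmap_mk]
      by_cases hg : g⁻¹ * g' ∈ H
      · rw [(ha g g').1 hg]
        have h1 : (t.s g)⁻¹ * t.s g' ∈ H' := by
          rw [← map_inv, ← map_mul]
          exact (h _).2 hg
        rw [(hb _ _).1 h1, index_twist h, ← map_inv, ← map_mul, hχ]
      · rw [(ha g g').2 hg]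
        refine (hb _ _).2 ?_
        rw [← map_inv, ← map_mul]
        exact fun hg' => hg ((h _).1 hg')

end Tw

/-! ### Automorphisms and cells -/

section Cells

variable {K : Type*} [Field K]

theorem gl_map_apply (s : K ≃+* K) (g : GL (Fin 2) K) (i j : Fin 2) :
    (GeneralLinearGroup.map (s : K →+* K) g) i j = s (g i j) := rfl

theorem gl_map_det (s : K ≃+* K) (g : GL (Fin 2) K) :
    (GeneralLinearGroup.det (GeneralLinearGroup.map (s : K →+* K) g) : K) =
      s (GeneralLinearGroup.det g : K) := by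
  rw [det_two, det_two, gl_map_apply, gl_map_apply, gl_map_apply, gl_map_apply, map_sub, map_mul,
    map_mul]

theorem gl_map_symm (s : K ≃+* K) (x : PGL(2, K)) :
    ProjGenLinGroup.map (s.symm : K →+* K) (ProjGenLinGroup.map (s : K →+* K) x) = x := by
  rw [← MonoidHom.comp_apply, ← ProjGenLinGroup.map_comp]
  have : (s.symm : K →+* K).comp (s : K →+* K) = RingHom.id K := by ext; simp
  rw [this, ProjGenLinGroup.map_id]; rfl

theorem cellT_map_aux {v v' : Valuation K ℤᵐ⁰} {s : K ≃+* K} (h : ∀ x, v' (s x) = v x)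
    {x : PGL(2, K)} (hx : x ∈ cellT v) : ProjGenLinGroup.map (s : K →+* K) x ∈ cellT v' := by
  obtain ⟨g, rfl, hg, hd⟩ := hx
  refine ⟨GeneralLinearGroup.map (s : K →+* K) g, rfl, fun i j => ?_, ?_⟩
  · rw [gl_map_apply, h]
    exact hg i j
  · rw [gl_map_det, h]
    exact hd

theorem cellT_map {v v' : Valuation K ℤᵐ⁰} {s : K ≃+* K} (h : ∀ x, v' (s x) = v x)
    (x : PGL(2, K)) : ProjGenLinGroup.map (s : K →+* K) x ∈ cellT v' ↔ x ∈ cellT v := by
  refine ⟨fun hx => ?_, cellT_map_aux h⟩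
  have h' : ∀ y, v (s.symm y) = v' y := fun y => by rw [← h, s.apply_symm_apply]
  have := cellT_map_aux h' hx
  rwa [gl_map_symm] at this

theorem cellU_map_aux {v v' : Valuation K ℤᵐ⁰} {s : K ≃+* K} (h : ∀ x, v' (s x) = v x)
    {c : ℤᵐ⁰} {x : PGL(2, K)} (hx : x ∈ cellU v c) :
    ProjGenLinGroup.map (s : K →+* K) x ∈ cellU v' c := by
  obtain ⟨g, rfl, h1, h2, h3, h4⟩ := hx
  refine ⟨GeneralLinearGroup.map (s : K →+* K) g, rfl, ?_, ?_, ?_, ?_⟩
  · rw [gl_map_apply, gl_map_apply, h, h]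
    exact h1
  · rw [gl_map_apply, gl_map_apply, h, h]
    exact h2
  · rw [gl_map_apply, gl_map_apply, h, h]
    exact h3
  · rw [gl_map_det, gl_map_apply, h, h]
    exact h4

theorem cellU_map {v v' : Valuation K ℤᵐ⁰} {s : K ≃+* K} (h : ∀ x, v' (s x) = v x)
    {c : ℤᵐ⁰} (x : PGL(2, K)) :
    ProjGenLinGroup.map (s : K →+* K) x ∈ cellU v' c ↔ x ∈ cellU v c := by
  refine ⟨fun hx => ?_, cellU_map_aux h⟩
  have h' : ∀ y, v (s.symm y) = v' y := fun y => by rw [← h, s.apply_symm_apply]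
  have := cellU_map_aux h' hx
  rwa [gl_map_symm] at this

theorem tdH_map_aux {T T' : TD K} {s : K ≃+* K} (hA : ∀ x, x ∈ T.A → s x ∈ T'.A)
    (hB : ∀ x, x ∈ T.B → s x ∈ T'.B) (hC : ∀ x, x ∈ T.C → s x ∈ T'.C) {x : PGL(2, K)}
    (hx : x ∈ T.H) : ProjGenLinGroup.map (s : K →+* K) x ∈ T'.H := by
  obtain ⟨g, hg, rfl⟩ := hx
  obtain ⟨h1, h2, h3, h4⟩ := T.mem_GH.1 hg
  refine ⟨GeneralLinearGroup.map (s : K →+* K) g, T'.mem_GH.2 ⟨?_, hB _ h2, hC _ h3, ?_⟩, rfl⟩
  · have := hA _ h1
    rw [map_sub, map_one] at this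
    exact this
  · have := hA _ h4
    rw [map_sub, map_one] at this
    exact this

theorem tdH_map {T T' : TD K} {s : K ≃+* K} (hA : ∀ x, s x ∈ T'.A ↔ x ∈ T.A)
    (hB : ∀ x, s x ∈ T'.B ↔ x ∈ T.B) (hC : ∀ x, s x ∈ T'.C ↔ x ∈ T.C) (x : PGL(2, K)) :
    ProjGenLinGroup.map (s : K →+* K) x ∈ T'.H ↔ x ∈ T.H := by
  refine ⟨fun hx => ?_, tdH_map_aux (fun x => (hA x).2) (fun x => (hB x).2) fun x => (hC x).2⟩
  have hA' : ∀ y, y ∈ T'.A → s.symm y ∈ T.A := fun y hy => by
    rw [← hA, s.apply_symm_apply]; exact hy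
  have hB' : ∀ y, y ∈ T'.B → s.symm y ∈ T.B := fun y hy => by
    rw [← hB, s.apply_symm_apply]; exact hy
  have hC' : ∀ y, y ∈ T'.C → s.symm y ∈ T.C := fun y hy => by
    rw [← hC, s.apply_symm_apply]; exact hy
  have := tdH_map_aux hA' hB' hC' hx
  rwa [gl_map_symm] at this

theorem tdchi_map {T T' : TD K} {s : K ≃+* K} (h : ∀ x, T'.psi (s x) = T.psi x) (x : PGL(2, K)) :
    T'.chi (ProjGenLinGroup.map (s : K →+* K) x) = T.chi x := by
  obtain ⟨g, rfl⟩ := ProjGenLinGroup.mk_surjective x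
  have h1 : ProjGenLinGroup.map (s : K →+* K) (ProjGenLinGroup.mk g) =
      ProjGenLinGroup.mk (GeneralLinearGroup.map (s : K →+* K) g) := rfl
  rw [h1, TD.chi_mk, TD.chi_mk, gl_map_apply, gl_map_apply, ← map_div₀, h]

end Cells

/-! ### The monomial kernels of a `CSetup` -/

section Setup

variable {F E : Type} [Field F] [NumberField F] [Field E] [NumberField E] [Algebra F E]
  (C : CSetup F E)

theorem cs_sigma_mem (w : HeightOneSpectrum (𝓞 E)) : C.aE.σ w ∈ C.SE ↔ w ∈ C.SE := by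
  rw [C.mem_SE, C.mem_SE, H25V.cs_below_sigma]

theorem cs_sigma_w0 : C.aE.σ C.w0 = C.w0 :=
  H25V.cs_uniq_w0 C (by rw [H25V.cs_below_sigma, H25V.cs_below_w0])

theorem cs_sigma_eq_w0 {w : HeightOneSpectrum (𝓞 E)} : C.aE.σ w = C.w0 ↔ w = C.w0 := by
  constructor
  · intro h
    apply C.aE.σ.injective
    rw [h, cs_sigma_w0]
  · rintro rfl
    exact cs_sigma_w0 C

/-- **The monomial kernels are transported to the monomial kernels.** -/
theorem isTw_mono (n : HeightOneSpectrum (𝓞 E) →₀ ℕ) (k : ℕ) :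
    IsTw C.aE.twist (C.kE.D.mono n k) (C.kE.D.mono (n.mapDomain C.aE.σ) k) := by
  intro i
  change TwL C.aE.twist i (C.kE.D.loc n k i) (C.kE.D.loc (n.mapDomain C.aE.σ) k (C.aE.σ i))
  by_cases hS : i ∈ C.SE
  · have hS' : C.aE.σ i ∈ C.SE := (cs_sigma_mem C i).2 hS
    rw [C.kE.D.loc_S (by rwa [C.kE.D_S]), C.kE.D.loc_S (by rwa [C.kE.D_S])]
    refine twL_of_isTyp (C.kE.e_typ i hS) (C.kE.e_typ _ hS') (fun g => ?_) fun g => ?_
    · show ProjGenLinGroup.map (C.aE.s : E →+* E) g ∈ _ ↔ _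
      refine tdH_map (fun x => ?_) (fun x => ?_) (fun x => ?_) g
      · rw [C.s_eq]; exact (C.TE_s i hS x).1
      · rw [C.s_eq]; exact (C.TE_s i hS x).2.1
      · rw [C.s_eq]; exact (C.TE_s i hS x).2.2
    · show (C.TE (C.aE.σ i)).chi (ProjGenLinGroup.map (C.aE.s : E →+* E) g) = _
      refine tdchi_map (fun x => ?_) g
      rw [C.psiE _ hS', C.psiE _ hS]
      exact H7.Z.psi_aut C.aE.s C.aE.σ C.aE.val i x
  · have hS' : C.aE.σ i ∉ C.SE := fun h => hS ((cs_sigma_mem C i).1 h)
    have hD : i ∉ C.kE.D.S := by rwa [C.kE.D_S]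
    have hD' : C.aE.σ i ∉ C.kE.D.S := by rwa [C.kE.D_S]
    by_cases h0 : i = C.w0
    · have h0' : C.aE.σ i = C.w0 := (cs_sigma_eq_w0 C).2 h0
      rw [HData.loc, if_neg hD, if_pos (by rw [C.kE.D_w0]; exact h0), HData.loc, if_neg hD',
        if_pos (by rw [C.kE.D_w0]; exact h0')]
      refine TwL.lpow (t := C.aE.twist) ?_ k
      have hi : IsInd (C.kE.D.U i) (cellU (i.valuation E) (exp (-(1 : ℤ)))) := by
        subst h0; exact C.kE.U_ind
      have hi' : IsInd (C.kE.D.U (C.aE.σ i))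
          (cellU ((C.aE.σ i).valuation E) (exp (-(1 : ℤ)))) := by
        rw [h0']; exact C.kE.U_ind
      refine twL_of_isInd (t := C.aE.twist) hi hi' fun g => ?_
      exact cellU_map (C.aE.val i) g
    · have h0' : C.aE.σ i ≠ C.w0 := fun h => h0 ((cs_sigma_eq_w0 C).1 h)
      rw [C.kE.D.loc_good hD (by rwa [C.kE.D_w0]), C.kE.D.loc_good hD' (by rwa [C.kE.D_w0]),
        Finsupp.mapDomain_apply C.aE.σ.injective]
      refine TwL.lpow (t := C.aE.twist) ?_ (n i)
      refine twL_of_isInd (t := C.aE.twist) (C.kE.T_ind i hS h0) (C.kE.T_ind _ hS' h0') fun g => ?_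
      exact cellT_map (C.aE.val i) g

end Setup

/-! ### Hermitian symmetry -/

section Herm

variable {G : Type*} [Group G] {U : Subgroup G}

/-- Hermitian local kernels. -/
def LHerm (a : LocKer U) : Prop := ∀ x y, (starRingEnd ℂ) (a.k x y) = a.k y x

theorem lHerm_one : LHerm (LocKer.one : LocKer U) := by
  intro x y
  rw [LocKer.one_k, LocKer.one_k]
  by_cases h : x = y
  · rw [if_pos h, if_pos h.symm, map_one]
  · rw [if_neg h, if_neg fun h' => h h'.symm, map_zero]

theorem lHerm_mul {a b : LocKer U} (ha : LHerm a) (hb : LHerm b)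
    (hc : LocKer.mul a b = LocKer.mul b a) : LHerm (LocKer.mul a b) := by
  classical
  intro x z
  have h2 : (LocKer.mul a b).k z x = (LocKer.mul b a).k z x := by rw [hc]
  have e1 : (LocKer.mul a b).k x z = ∑ y ∈ ls a x ∪ ls b z, a.k x y * b.k y z := by
    rw [mul_k_eq_sum]
    refine Finset.sum_subset Finset.subset_union_left fun y _ hy => ?_
    rw [mem_ls, not_not] at hy
    rw [hy, zero_mul]
  have e2 : (LocKer.mul b a).k z x = ∑ y ∈ ls a x ∪ ls b z, b.k z y * a.k y x := by
    rw [mul_k_eq_sum]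
    refine Finset.sum_subset Finset.subset_union_right fun y _ hy => ?_
    rw [mem_ls, not_not] at hy
    rw [hy, zero_mul]
  rw [h2, e1, e2, map_sum]
  refine Finset.sum_congr rfl fun y _ => ?_
  rw [map_mul, ha, hb, mul_comm]

theorem lpow_comm (a : LocKer U) (n : ℕ) :
    LocKer.mul a (lpow a n) = LocKer.mul (lpow a n) a := by
  have h1 := lpow_add a 1 n
  have h2 := lpow_add a n 1
  rw [lpow_one] at h1 h2
  rw [← h1, ← h2, add_comm]

theorem lHerm_lpow {a : LocKer U} (ha : LHerm a) (n : ℕ) : LHerm (lpow a n) := by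
  induction n with
  | zero => exact lHerm_one
  | succ n ih =>
    rw [lpow_succ]
    exact lHerm_mul ha ih (lpow_comm a n)

theorem lHerm_of_isInd {a : LocKer U} {D : Set G} (h : IsInd a D) (hD : ∀ g ∈ D, g⁻¹ ∈ D) :
    LHerm a := by
  intro x y
  induction x using QuotientGroup.induction_on with
  | H g =>
    induction y using QuotientGroup.induction_on with
    | H g' =>
      by_cases hg : g⁻¹ * g' ∈ D
      · have hg' : g'⁻¹ * g ∈ D := by
          have := hD _ hg
          rwa [_root_.mul_inv_rev, inv_inv] at this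
        rw [(h g g').1 hg, (h g' g).1 hg', map_one]
      · have hg' : g'⁻¹ * g ∉ D := fun h' => hg (by
          have := hD _ h'
          rwa [_root_.mul_inv_rev, inv_inv] at this)
        rw [(h g g').2 hg, (h g' g).2 hg', map_zero]

theorem lHerm_of_isTyp {a : LocKer U} {H : Subgroup G} {χ : G → ℂ} (h : IsTyp a H χ)
    (hmul : ∀ g ∈ H, ∀ h ∈ H, χ (g * h) = χ g * χ h) (hone : χ 1 = 1)
    (hnorm : ∀ g ∈ H, ‖χ g‖ = 1) : LHerm a := by
  intro x y
  induction x using QuotientGroup.induction_on with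
  | H g =>
    induction y using QuotientGroup.induction_on with
    | H g' =>
      by_cases hg : g⁻¹ * g' ∈ H
      · have e : g'⁻¹ * g = (g⁻¹ * g')⁻¹ := by rw [_root_.mul_inv_rev, inv_inv]
        have hg' : g'⁻¹ * g ∈ H := by
          rw [e]
          exact H.inv_mem hg
        rw [(h g g').1 hg, (h g' g).1 hg', map_div₀, map_natCast, map_inv₀]
        have h1 : χ (g⁻¹ * g') * χ (g'⁻¹ * g) = 1 := by
          rw [← hmul _ hg _ hg', e, mul_inv_cancel, hone]
        have h2 : (starRingEnd ℂ) (χ (g⁻¹ * g')) = (χ (g⁻¹ * g'))⁻¹ := by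
          have h3 := Complex.inv_def (χ (g⁻¹ * g'))
          rw [Complex.normSq_eq_norm_sq, hnorm _ hg] at h3
          rw [h3]
          simp
        have h4 : (χ (g⁻¹ * g'))⁻¹ = χ (g'⁻¹ * g) := inv_eq_of_mul_eq_one_right h1
        rw [h2, h4]
      · have hg' : g'⁻¹ * g ∉ H := fun h' => hg (by
          have := H.inv_mem h'
          rwa [_root_.mul_inv_rev, inv_inv] at this)
        rw [(h g g').2 hg, (h g' g).2 hg', map_zero]

/-- Hermitian global kernels. -/
theorem gHerm_of_loc {ι : Type*} {L : LevelFam G ι} {a : GlobKer L} (h : ∀ i, LHerm (a.loc i))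
    (x y : XF L) : (starRingEnd ℂ) (a.k x y) = a.k y x := by
  unfold GlobKer.k
  have h1 := MonoidHom.map_finprod ((starRingEnd ℂ : ℂ →+* ℂ) : ℂ →* ℂ) (a.mulSupport_finite x y)
  refine h1.trans (finprod_congr fun i => ?_)
  exact h i (x i) (y i)

end Herm

section KD

variable {K : Type*} [Field K] [NumberField K] {J : Type*} [Fintype J]
  {m : Model K J} {S : Finset (HeightOneSpectrum (𝓞 K))} {w0 : HeightOneSpectrum (𝓞 K)}
  {T : HeightOneSpectrum (𝓞 K) → TD K}

/-- **The monomial kernels without `U` are hermitian.** -/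
theorem mono_herm (k : KerData m S w0 T) (hpsi : ∀ w ∈ S, ∀ x, ‖(T w).psi x‖ = 1)
    {n : HeightOneSpectrum (𝓞 K) →₀ ℕ} (x y : XF m.L.fam) :
    (starRingEnd ℂ) ((k.D.mono n 0).k x y) = (k.D.mono n 0).k y x := by
  refine gHerm_of_loc (fun i => ?_) x y
  rw [HData.mono_loc]
  by_cases hS : i ∈ S
  · rw [k.D.loc_S (by rwa [k.D_S])]
    refine lHerm_of_isTyp (k.e_typ i hS) (fun g hg h hh => (T i).chi_mul hg hh) (T i).chi_one
      fun g _ => ?_
    obtain ⟨x, rfl⟩ := ProjGenLinGroup.mk_surjective g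
    rw [TD.chi_mk]
    exact hpsi i hS _
  · by_cases h0 : i = w0
    · rw [HData.loc, if_neg (by rwa [k.D_S]), if_pos (by rw [k.D_w0]; exact h0), lpow_zero]
      exact lHerm_one
    · rw [k.D.loc_good (by rwa [k.D_S]) (by rwa [k.D_w0])]
      exact lHerm_lpow (lHerm_of_isInd (k.T_ind i hS h0) fun g hg => cellT_inv _ hg) _

end KD

end Fermat.Agent.H59K
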