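import Fermat.Agent.H21Z5
import Fermat.Agent.H51ZKD3
import Fermat.Agent.H59K4
import Fermat.Agent.H42T6

/-!
# `OpData` for the kernel data of block (C) (helper21, S47)

* `lopB m w κ` : the operator of a local kernel on bounded invariant functions;
* `bops m : BOps m`;
* `opd` : `OpData` for a `KerData`, labels `Lab kd.D` (helper42).
-/

set_option autoImplicit false
set_option linter.unusedSectionVars false

noncomputable section

open MeasureTheory Complex Filter IsDedekindDomain HeightOneSpectrum NumberField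
open scoped ENNReal ComplexConjugate Topology MatrixGroups
open Fermat.Agent.H32Z Fermat.Agent.H59XF Fermat.Agent.H51Z Fermat.Agent.H59D Fermat.Agent.H5Z
open Fermat.Agent.H79S Fermat.Agent.H76U
open Fermat.Agent.H56Z (IsRC IsLB)
open Fermat.Agent.H42T (BOps Lab kSys)

namespace Fermat.Agent.H21Z

/-! ### Adjoints -/

section adj

variable {G X : Type*} [Group G] [MulAction G X] [MeasurableSpace X] {ν : Measure X}

theorem IsAdj.mul {A A' B B' : Module.End ℂ (BInv G X)} (h : IsAdj ν A A') (h' : IsAdj ν B B') :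
    IsAdj ν (A * B) (B' * A') := by
  intro f g
  show pair ν (A (B f)) g = pair ν f (B' (A' g))
  rw [h, h']

theorem IsAdj.one : IsAdj ν (1 : Module.End ℂ (BInv G X)) 1 := fun _ _ => rfl

end adj

section local_ops

variable {K : Type} [Field K] [NumberField K] {J : Type} [Fintype J] (m : Model K J)
  (w : HeightOneSpectrum (𝓞 K))

/-- the operator of a local kernel on bounded invariant functions -/
def lopB (κ : LocKer (m.L.fam.U w)) : Module.End ℂ (BInv PGL(2, K) m.X) := gopB m (single w κ)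

theorem lopB_apply (κ : LocKer (m.L.fam.U w)) (f : BInv PGL(2, K) m.X) (x : m.X) :
    (lopB m w κ f : m.X → ℂ) x = lop w κ (fun y => (f : m.X → ℂ) (x.1, y)) x.2 := by
  unfold lopB
  rw [gopB_apply, gop_single]

theorem lopB_mul (κ κ' : LocKer (m.L.fam.U w)) :
    lopB m w (LocKer.mul κ κ') = lopB m w κ * lopB m w κ' := by
  unfold lopB
  rw [← gopB_gmul, gmul_single_single]

theorem lopB_one : lopB m w LocKer.one = 1 := by
  apply LinearMap.ext
  intro f
  apply Subtype.ext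
  funext x
  rw [lopB_apply, lop_one]
  rfl

theorem lopB_lsmul (c : ℂ) (κ : LocKer (m.L.fam.U w)) :
    lopB m w (lsmul c κ) = c • lopB m w κ := by
  apply LinearMap.ext
  intro f
  apply Subtype.ext
  funext x
  rw [lopB_apply, lop_lsmul]
  show c • lop w κ (fun y => (f : m.X → ℂ) (x.1, y)) x.2 = c * (lopB m w κ f : m.X → ℂ) x
  rw [lopB_apply]
  rfl

theorem lopB_lpow (κ : LocKer (m.L.fam.U w)) (n : ℕ) : lopB m w (lpow κ n) = lopB m w κ ^ n := by
  induction n with
  | zero => rw [lpow_zero, lopB_one, pow_zero]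
  | succ n ih => rw [lpow_succ, lopB_mul, ih, pow_succ']

theorem gadj_single {κ : LocKer (m.L.fam.U w)} (h : Herm κ) :
    gadj (single w κ : GlobKer m.L.fam) = single w κ := by
  classical
  apply gadj_eq_self
  intro i x y
  by_cases hi : i = w
  · subst hi
    rw [single_same]
    exact h x y
  · rw [single_ne hi]
    exact Herm.one x y

theorem isAdj_lopB (c : CutOff PGL(2, K) m.X) [IsFiniteMeasure (c.ν m.μ)]
    {κ : LocKer (m.L.fam.U w)} (h : Herm κ) : IsAdj (c.ν m.μ) (lopB m w κ) (lopB m w κ) :=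
  isAdj_gopB_self m c (gadj_single m w h)

/-- the operators in the form used by helper42 -/
def bops (m : Model K J) : BOps m where
  gB a := gopB m a
  gB_apply _ _ _ := rfl
  rB κ := rkB m κ.2
  rB_apply _ _ _ := rfl

end local_ops

/-! ### The operators at the special place -/

section WP

variable {K : Type} [Field K] [NumberField K] {J : Type} [Fintype J] {m : Model K J}
  {S : Finset (HeightOneSpectrum (𝓞 K))} {w0 : HeightOneSpectrum (𝓞 K)}
  {T : HeightOneSpectrum (𝓞 K) → TD K} (k : KerData m S w0 T)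

/-- `W` on bounded invariant functions -/
def WB : Module.End ℂ (BInv PGL(2, K) m.X) := lopB m w0 (KD.Wk k)

/-- `P` on bounded invariant functions -/
def PB : Module.End ℂ (BInv PGL(2, K) m.X) := lopB m w0 (KD.Pk k)

/-- `U` on bounded invariant functions -/
def UB : Module.End ℂ (BInv PGL(2, K) m.X) := lopB m w0 (k.D.U w0)

theorem WB_sq : WB k * WB k = 1 := by
  unfold WB
  rw [← lopB_mul, KD.Wk_sq, lopB_one]

theorem PB_sq : PB k * PB k = ((((Ideal.absNorm w0.asIdeal : ℕ) : ℝ) + 1 : ℝ) : ℂ) • PB k := by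
  unfold PB
  rw [← lopB_mul, KD.Pk_sq, lopB_lsmul]
  push_cast
  rfl

theorem UB_eq : UB k = PB k * WB k - WB k := by
  apply LinearMap.ext
  intro f
  apply Subtype.ext
  funext x
  have h1 := congrFun (KD.lop_U_eq k (fun y => (f : m.X → ℂ) (x.1, y))) x.2
  show (lopB m w0 (k.D.U w0) f : m.X → ℂ) x =
    (lopB m w0 (KD.Pk k) (lopB m w0 (KD.Wk k) f) : m.X → ℂ) x -
      (lopB m w0 (KD.Wk k) f : m.X → ℂ) x
  rw [lopB_apply, lopB_apply, lopB_apply, h1]
  have h2 : (fun y => (lopB m w0 (KD.Wk k) f : m.X → ℂ) (x.1, y)) =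
      lop w0 (KD.Wk k) (fun y => (f : m.X → ℂ) (x.1, y)) := by
    funext y
    exact lopB_apply m w0 (KD.Wk k) f (x.1, y)
  rw [h2]
  rfl

/-- the conjugate of `P` by `W` -/
def PB' : Module.End ℂ (BInv PGL(2, K) m.X) := WB k * PB k * WB k

theorem PB'_sq : PB' k * PB' k = ((((Ideal.absNorm w0.asIdeal : ℕ) : ℝ) + 1 : ℝ) : ℂ) • PB' k := by
  unfold PB'
  have h1 : WB k * PB k * WB k * (WB k * PB k * WB k) =
      WB k * (PB k * ((WB k * WB k) * PB k)) * WB k := by noncomm_ring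
  rw [h1, WB_sq, one_mul, PB_sq, mul_smul_comm, smul_mul_assoc]

/-- `U = W (P' - 1)`. -/
theorem UB_eq' : UB k = WB k * (PB' k - 1) := by
  unfold PB'
  have h1 : WB k * (WB k * PB k * WB k - 1) = (WB k * WB k) * PB k * WB k - WB k := by
    refine (mul_sub (WB k) (WB k * PB k * WB k) 1).trans ?_
    rw [mul_one]
    simp only [mul_assoc]
  rw [h1, WB_sq, one_mul, UB_eq]

theorem herm_Wk : Herm (KD.Wk k) := by
  intro x y
  induction x using QuotientGroup.induction_on with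
  | H x =>
    induction y using QuotientGroup.induction_on with
    | H y =>
      have h1 : (KD.Wk k).k (y : PGL(2, K) ⧸ m.L.fam.U w0) (x : PGL(2, K) ⧸ m.L.fam.U w0) =
          (KD.Wk k).k (x : PGL(2, K) ⧸ m.L.fam.U w0) (y : PGL(2, K) ⧸ m.L.fam.U w0) := by
        conv_rhs => rw [← KD.ltr_Wk k]
        rfl
      rw [h1]
      unfold KD.Wk
      rw [lcast_k, Wker_k]
      split_ifs <;> simp

theorem herm_Pk : Herm (KD.Pk k) := by
  intro x y
  induction x using QuotientGroup.induction_on with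
  | H x =>
    induction y using QuotientGroup.induction_on with
    | H y =>
      have h1 : (KD.Pk k).k (y : PGL(2, K) ⧸ m.L.fam.U w0) (x : PGL(2, K) ⧸ m.L.fam.U w0) =
          (KD.Pk k).k (x : PGL(2, K) ⧸ m.L.fam.U w0) (y : PGL(2, K) ⧸ m.L.fam.U w0) := by
        conv_rhs => rw [← KD.ltr_Pk k]
        rfl
      rw [h1]
      unfold KD.Pk
      rw [lcast_k, Pker_k]
      split_ifs <;> simp

variable (c : CutOff PGL(2, K) m.X) [IsFiniteMeasure (c.ν m.μ)]

theorem isAdj_WB : IsAdj (c.ν m.μ) (WB k) (WB k) := isAdj_lopB m w0 c (herm_Wk k)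

theorem isAdj_PB : IsAdj (c.ν m.μ) (PB k) (PB k) := isAdj_lopB m w0 c (herm_Pk k)

theorem isAdj_PB' : IsAdj (c.ν m.μ) (PB' k) (PB' k) := by
  have h := ((isAdj_WB k c).mul (isAdj_PB k c)).mul (isAdj_WB k c)
  unfold PB'
  rwa [← mul_assoc] at h

end WP

/-! ### The commuting family -/

section family

variable {K : Type} [Field K] [NumberField K] {J : Type} [Fintype J] {m : Model K J}

/-- monomial kernels commute with one-place kernels at the special place when the exponent of `U`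
is zero -/
theorem mono_single_w0_comm (D : HData m.L.fam) (n : HeightOneSpectrum (𝓞 K) →₀ ℕ)
    (κ : LocKer (m.L.fam.U D.w0)) :
    gmul (D.mono n 0) (single D.w0 κ) = gmul (single D.w0 κ) (D.mono n 0) := by
  apply gmul_single_comm'
  rw [HData.mono_loc, D.loc_w0, lpow_zero, one_lmul, lmul_one]

theorem mono_single_w0_comm' (D : HData m.L.fam) (n : HeightOneSpectrum (𝓞 K) →₀ ℕ)
    {w0 : HeightOneSpectrum (𝓞 K)} (h : D.w0 = w0) (κ : LocKer (m.L.fam.U w0)) :
    gmul (D.mono n 0) (single w0 κ) = gmul (single w0 κ) (D.mono n 0) := by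
  subst h
  exact mono_single_w0_comm D n κ

theorem gopB_single_w0 (D : HData m.L.fam) {w0 : HeightOneSpectrum (𝓞 K)} (h : D.w0 = w0) (e : ℕ) :
    gopB m (single D.w0 (lpow (D.U D.w0) e)) = lopB m w0 (lpow (D.U w0) e) := by
  subst h
  rfl

theorem mono_single_T_comm (D : HData m.L.fam) (n : HeightOneSpectrum (𝓞 K) →₀ ℕ) (k : ℕ)
    {w : HeightOneSpectrum (𝓞 K)} (hw : w ∉ D.S) (h0 : w ≠ D.w0) :
    gmul (D.mono n k) (single w (D.T w)) = gmul (single w (D.T w)) (D.mono n k) := by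
  apply gmul_single_comm'
  rw [HData.mono_loc, D.loc_good hw h0]
  have h1 := lpow_add (D.T w) 1 (n w)
  have h2 := lpow_add (D.T w) (n w) 1
  rw [lpow_one] at h1 h2
  rw [← h1, ← h2, add_comm]

/-- the operators of the labels -/
def labY (D : HData m.L.fam) (e : ℕ) (ρ : ℂ) : Lab D → Module.End ℂ (BInv PGL(2, K) m.X)
  | Sum.inl (Sum.inl w) => gopB m (single w.1 (D.T w.1))
  | Sum.inl (Sum.inr κ) => rkB m κ.2
  | Sum.inr _ => ρ • gopB m (single D.w0 (lpow (D.U D.w0) e))

theorem labY_comm (D : HData m.L.fam) (e : ℕ) (ρ : ℂ) (l l' : Lab D) :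
    Commute (labY D e ρ l) (labY D e ρ l') := by
  have hTT : ∀ (w w' : HeightOneSpectrum (𝓞 K)),
      Commute (gopB m (single w (D.T w))) (gopB m (single w' (D.T w'))) := by
    intro w w'
    by_cases h : w = w'
    · subst h; exact Commute.refl _
    · exact gopB_commute m (gmul_single_comm h _ _)
  have hTU : ∀ (w : HeightOneSpectrum (𝓞 K)) (_ : w ≠ D.w0),
      Commute (gopB m (single w (D.T w))) (ρ • gopB m (single D.w0 (lpow (D.U D.w0) e))) :=
    fun w h0 => (gopB_commute m (gmul_single_comm h0 _ _)).smul_right ρ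
  match l, l' with
  | Sum.inl (Sum.inl w), Sum.inl (Sum.inl w') => exact hTT w.1 w'.1
  | Sum.inl (Sum.inl w), Sum.inl (Sum.inr κ) => exact (rkB_gopB_commute m κ.2 _).symm
  | Sum.inl (Sum.inl w), Sum.inr _ => exact hTU w.1 w.2.2
  | Sum.inl (Sum.inr κ), Sum.inl (Sum.inl w') => exact rkB_gopB_commute m κ.2 _
  | Sum.inl (Sum.inr κ), Sum.inl (Sum.inr κ') => exact rkB_commute m κ.2 κ'.2
  | Sum.inl (Sum.inr κ), Sum.inr _ => exact (rkB_gopB_commute m κ.2 _).smul_right ρ
  | Sum.inr _, Sum.inl (Sum.inl w') => exact (hTU w'.1 w'.2.2).symm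
  | Sum.inr _, Sum.inl (Sum.inr κ') => exact ((rkB_gopB_commute m κ'.2 _).smul_right ρ).symm
  | Sum.inr _, Sum.inr _ => exact Commute.refl _

/-- relation with helper42's kernel system -/
theorem labY_inl (D : HData m.L.fam) (e : ℕ) (ρ : ℂ)
    (l : {w // w ∉ D.S ∧ w ≠ D.w0} ⊕ {κ : (J → ℝ) → ℂ // IsRC κ}) (ρ' : ℂ) :
    labY D e ρ (Sum.inl l) = labY D e ρ' (Sum.inl l) := by
  rcases l with w | κ <;> rfl

end family

section kb

variable {K : Type} [Field K] [NumberField K] {J : Type} [Fintype J] {m : Model K J}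

theorem labY_eq_kSys (D : HData m.L.fam) (e : ℕ) (ρ : ℂ)
    (l : {w // w ∉ D.S ∧ w ≠ D.w0} ⊕ {κ : (J → ℝ) → ℂ // IsRC κ}) :
    labY D e ρ (Sum.inl l) = (kSys D (bops m) e).Y (Sum.inl l) := by
  rcases l with w | κ <;> rfl

theorem labY_u_eq_kSys (D : HData m.L.fam) (e : ℕ) (ρ : ℂ) (u : Unit) :
    labY D e ρ (Sum.inr u) = ρ • (kSys D (bops m) e).Y (Sum.inr ()) := rfl

end kb

/-! ### The operator data -/

section opd

variable {K : Type} [Field K] [NumberField K] {J : Type} [Fintype J] {m : Model K J}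
  {S : Finset (HeightOneSpectrum (𝓞 K))} {w0 : HeightOneSpectrum (𝓞 K)}
  {T : HeightOneSpectrum (𝓞 K) → TD K}

theorem good_of_lab (k : KerData m S w0 T) {w : HeightOneSpectrum (𝓞 K)}
    (h : w ∉ k.D.S ∧ w ≠ k.D.w0) : w ∉ S ∧ w ≠ w0 :=
  ⟨fun h' => h.1 (by rw [k.D_S]; exact h'), fun h' => h.2 (by rw [k.D_w0]; exact h')⟩

/-- the bound of a label -/
def labB (D : HData m.L.fam) :
    {w // w ∉ D.S ∧ w ≠ D.w0} ⊕ {κ : (J → ℝ) → ℂ // IsRC κ} → ℝ
  | Sum.inl w => gbd (single w.1 (D.T w.1))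
  | Sum.inr κ => rbd κ.2

/-- labels with hermitian operators -/
def labReal (D : HData m.L.fam) :
    {w // w ∉ D.S ∧ w ≠ D.w0} ⊕ {κ : (J → ℝ) → ℂ // IsRC κ} → Prop
  | Sum.inl _ => True
  | Sum.inr κ => ∀ t, conj (κ.1 t) = κ.1 t

/-- the exponent factor -/
def rhoU (w0 : HeightOneSpectrum (𝓞 K)) (e : ℕ) : ℂ :=
  ((((Real.sqrt ((Ideal.absNorm w0.asIdeal : ℕ) : ℝ))⁻¹ : ℝ) : ℂ)) ^ e

/-- **The operator data of a `KerData`.** -/
def opd (k : KerData m S w0 T) (c : CutOff PGL(2, K) m.X) [IsFiniteMeasure (c.ν m.μ)]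
    {I : Type} (si : Finset I) {κ : I → (J → ℝ) → ℂ} (hκ : ∀ i, IsRC (κ i))
    (n : I → HeightOneSpectrum (𝓞 K) →₀ ℕ)
    {hK : BK (CutOff.autK PGL(2, K) (fks m si κ fun i => k.D.mono (n i) 0))}
    {hG : ∀ (g : PGL(2, K)) x y,
      CutOff.autK PGL(2, K) (fks m si κ fun i => k.D.mono (n i) 0) (g • x) y =
      CutOff.autK PGL(2, K) (fks m si κ fun i => k.D.mono (n i) 0) x y}
    (e : ℕ) (he : 0 < e) {Jl : Type}
    (j : Jl → {w // w ∉ k.D.S ∧ w ≠ k.D.w0} ⊕ {κ : (J → ℝ) → ℂ // IsRC κ})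
    (hj : ∀ l, labReal k.D (j l))
    (σ : Lab k.D ≃ Lab k.D) (σ3 : ∀ l, σ (σ (σ l)) = l)
    (s : Module.End ℂ (BInv PGL(2, K) m.X)) (s_mem : s ∈ Cm hK (c.ν m.μ) hG) (s3 : s ^ 3 = 1)
    (s_comm : ∀ l, s * labY k.D e (rhoU w0 e) l = labY k.D e (rhoU w0 e) (σ l) * s) :
    OpData Jl hK (c.ν m.μ) hG where
  N := Lab k.D
  Y := labY k.D e (rhoU w0 e)
  Y_mem l := by
    match l with
    | Sum.inl (Sum.inl w) =>
      exact gopB_mem_Cm si hκ _ c fun i _ => mono_single_T_comm k.D (n i) 0 w.2.1 w.2.2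
    | Sum.inl (Sum.inr κ') => exact rkB_mem_Cm si hκ _ c κ'.2
    | Sum.inr _ =>
      exact Subalgebra.smul_mem _ (gopB_mem_Cm si hκ _ c fun i _ =>
        mono_single_w0_comm k.D (n i) _) _
  Y_comm := labY_comm k.D e _
  σ := σ
  σ3 := σ3
  s := s
  s_mem := s_mem
  s3 := s3
  s_comm := s_comm
  j l := Sum.inl (j l)
  B l := labB k.D (j l)
  adj l := by
    have h := hj l
    rcases hl : j l with w | κ'
    · have hw := good_of_lab k w.2
      exact isAdj_gopB_self m c (gadj_single m w.1 (KD.herm_T k hw.1 hw.2))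
    · rw [hl] at h
      exact isAdj_rkB_self m c κ'.2 h
  bnd l := by
    rcases hl : j l with w | κ'
    · exact gopB_bound m _
    · exact rkB_bound m κ'.2
  u := Sum.inr ()
  q := ((Ideal.absNorm w0.asIdeal : ℕ) : ℝ)
  one_le_q := by
    exact_mod_cast Nat.one_le_iff_ne_zero.mpr (by
      rw [Ne, Ideal.absNorm_eq_zero_iff]
      exact w0.ne_bot)
  W := WB k
  P := PB' k
  W_mem := gopB_mem_Cm si hκ _ c fun i _ => mono_single_w0_comm' k.D (n i) k.D_w0 _
  P_mem := by
    have h1 : WB k ∈ Cm hK (c.ν m.μ) hG :=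
      gopB_mem_Cm si hκ _ c fun i _ => mono_single_w0_comm' k.D (n i) k.D_w0 _
    have h2 : PB k ∈ Cm hK (c.ν m.μ) hG :=
      gopB_mem_Cm si hκ _ c fun i _ => mono_single_w0_comm' k.D (n i) k.D_w0 _
    exact (Cm hK (c.ν m.μ) hG).mul_mem ((Cm hK (c.ν m.μ) hG).mul_mem h1 h2) h1
  W_adj := isAdj_WB k c
  P_adj := isAdj_PB' k c
  W_sq := WB_sq k
  P_sq := PB'_sq k
  e := e
  e_pos := he
  Y_u := by
    show rhoU w0 e • gopB m (single k.D.w0 (lpow (k.D.U k.D.w0) e)) = _
    rw [gopB_single_w0 k.D k.D_w0, lopB_lpow, ← UB_eq', smul_pow]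
    rfl

end opd

end Fermat.Agent.H21Z
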