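import Fermat.Agent.H21Z4

/-!
# Operators on the bounded invariant functions of a model, part 3 (helper21, S47, C-OPS)

* `sB a` : the operator of an automorphism of the model, commutation with `gopB`, `rkB`;
* `kop_fks` : the operator of the automorphic kernel of a finite sum of pure kernels is
  `∑ rkB κ_i * gopB a_i`; membership in `Cm`.
-/

set_option autoImplicit false
set_option linter.unusedSectionVars false

noncomputable section

open MeasureTheory Complex Filter
open scoped ENNReal ComplexConjugate Topology MatrixGroups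
open Fermat.Agent.H32Z Fermat.Agent.H59XF Fermat.Agent.H51Z Fermat.Agent.H59D Fermat.Agent.H5Z
open Fermat.Agent.H56Z (IsRC IsLB)

namespace Fermat.Agent.H21Z

variable {K : Type*} [Field K] [NumberField K] {J : Type*} [Fintype J] {m : Model K J}

/-! ### Automorphisms -/

section aut

variable (a : AutData m)

/-- the inverse of the automorphism of `X_f` -/
def tsymm (y : XF m.L.fam) : XF m.L.fam :=
  (Equiv.ofBijective a.twist.act ⟨a.twist.act_injective, a.twist.act_surjective⟩).symm y

theorem act_tsymm (y : XF m.L.fam) : a.twist.act (tsymm a y) = y :=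
  (Equiv.ofBijective a.twist.act ⟨a.twist.act_injective, a.twist.act_surjective⟩).apply_symm_apply y

theorem tsymm_act (y : XF m.L.fam) : tsymm a (a.twist.act y) = y :=
  (Equiv.ofBijective a.twist.act ⟨a.twist.act_injective, a.twist.act_surjective⟩).symm_apply_apply y

/-- the inverse of the automorphism of `X` -/
def asymm (x : m.X) : m.X := (fun j => x.1 (a.c j), tsymm a x.2)

theorem act_asymm (x : m.X) : a.act (asymm a x) = x := by
  refine Prod.ext (funext fun j => ?_) (act_tsymm a x.2)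
  obtain ⟨i, rfl⟩ := a.c.surjective j
  show a.actInf (fun j => x.1 (a.c j)) (a.c i) = x.1 (a.c i)
  rw [AutData.actInf_apply_c]

theorem asymm_act (x : m.X) : asymm a (a.act x) = x := by
  refine Prod.ext (funext fun j => ?_) (tsymm_act a x.2)
  show a.actInf x.1 (a.c j) = x.1 j
  rw [AutData.actInf_apply_c]

theorem measurable_asymm : Measurable (asymm a) := by
  rw [m.measurable_iff]
  intro y
  have h1 : Measurable fun x : J → H3 => ((fun j => x (a.c j), tsymm a y) : (J → H3) × XF m.L.fam) :=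
    (measurable_pi_lambda _ fun j => measurable_pi_apply _).prodMk measurable_const
  exact h1

theorem asymm_smul (g : PGL(2, K)) (x : m.X) :
    asymm a (g • x) = (AutData.pmap a.s).symm g • asymm a x := by
  apply a.act_injective
  rw [act_asymm, a.act_smul, act_asymm]
  have h1 : (Matrix.ProjGenLinGroup.map (a.s : K →+* K) ((AutData.pmap a.s).symm g) : PGL(2, K)) =
      g := (AutData.pmap a.s).apply_symm_apply g
  rw [h1]

/-- `s` as a measurable equivalence -/
def actME : m.X ≃ᵐ m.X where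
  toFun := a.act
  invFun := asymm a
  left_inv := asymm_act a
  right_inv := act_asymm a
  measurable_toFun := a.measurePreserving_act.measurable
  measurable_invFun := measurable_asymm a

theorem integral_act {E : Type*} [NormedAddCommGroup E] [NormedSpace ℝ E] (F : m.X → E) :
    ∫ x, F (a.act x) ∂m.μ = ∫ x, F x ∂m.μ :=
  MeasurePreserving.integral_comp' (f := actME a) a.measurePreserving_act F

theorem integral_actInf {E : Type*} [NormedAddCommGroup E] [NormedSpace ℝ E]
    (F : (J → H3) → E) : ∫ x, F (a.actInf x) = ∫ x, F x := by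
  have he : (MeasurableEquiv.piCongrLeft (fun _ : J => H3) a.c : (J → H3) → (J → H3)) =
      a.actInf := by
    funext x
    funext j
    obtain ⟨i, rfl⟩ := a.c.surjective j
    rw [AutData.actInf_apply_c, MeasurableEquiv.piCongrLeft_apply_apply]
  have h1 := a.measurePreserving_actInf
  rw [← he] at h1 ⊢
  exact MeasurePreserving.integral_comp' h1 F

/-- **The operator of an automorphism**: `(sB a f) (s x) = f x`. -/
def sB : Module.End ℂ (BInv PGL(2, K) m.X) where
  toFun f := ⟨fun x => (f : m.X → ℂ) (asymm a x), (BInv.measurable f).comp (measurable_asymm a), by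
    obtain ⟨C, hC⟩ := BInv.bounded f
    exact ⟨C, fun x => hC _⟩, fun g x => by
      show (f : m.X → ℂ) (asymm a (g • x)) = (f : m.X → ℂ) (asymm a x)
      rw [asymm_smul, BInv.inv]⟩
  map_add' _ _ := rfl
  map_smul' _ _ := rfl

theorem sB_apply (f : BInv PGL(2, K) m.X) (x : m.X) :
    (sB a f : m.X → ℂ) x = (f : m.X → ℂ) (asymm a x) := rfl

@[simp] theorem sB_act (f : BInv PGL(2, K) m.X) (x : m.X) :
    (sB a f : m.X → ℂ) (a.act x) = (f : m.X → ℂ) x := by
  rw [sB_apply, asymm_act]

theorem ext_act {f g : BInv PGL(2, K) m.X}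
    (h : ∀ x, (f : m.X → ℂ) (a.act x) = (g : m.X → ℂ) (a.act x)) : f = g := by
  apply Subtype.ext
  funext x
  rw [← act_asymm a x]
  exact h _

theorem sB_eq_self_iff (f : BInv PGL(2, K) m.X) :
    sB a f = f ↔ ∀ x, (f : m.X → ℂ) (a.act x) = (f : m.X → ℂ) x := by
  constructor
  · intro h x
    conv_rhs => rw [← sB_act a f x, h]
  · intro h
    apply ext_act a
    intro x
    rw [sB_act, h]

theorem sB_pow_three (h3 : ∀ x, a.act (a.act (a.act x)) = x) : sB a ^ 3 = 1 := by
  apply LinearMap.ext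
  intro f
  apply Subtype.ext
  funext x
  have h1 : asymm a (asymm a (asymm a x)) = x := by
    apply a.act_injective
    rw [act_asymm]
    apply a.act_injective
    rw [act_asymm]
    apply a.act_injective
    rw [act_asymm, h3]
  exact congrArg (f : m.X → ℂ) h1

/-- the cube of the automorphism -/
theorem act_three (hs : ∀ x, a.s (a.s (a.s x)) = x) (hσ : ∀ w, a.σ (a.σ (a.σ w)) = w)
    (hc : ∀ j, a.c (a.c (a.c j)) = j) (x : m.X) : a.act (a.act (a.act x)) = x := by
  have hpm : ∀ g : PGL(2, K), AutData.pmap a.s (AutData.pmap a.s (AutData.pmap a.s g)) = g := by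
    intro g
    induction g using Matrix.ProjGenLinGroup.induction_on with
    | mk g =>
      show Matrix.ProjGenLinGroup.map (a.s : K →+* K) (Matrix.ProjGenLinGroup.map (a.s : K →+* K)
        (Matrix.ProjGenLinGroup.map (a.s : K →+* K) (Matrix.ProjGenLinGroup.mk g))) = _
      have h1 : ∀ g : GL (Fin 2) K, (Matrix.ProjGenLinGroup.map (a.s : K →+* K)
          (Matrix.ProjGenLinGroup.mk g) : PGL(2, K)) =
          Matrix.ProjGenLinGroup.mk (Matrix.GeneralLinearGroup.map (a.s : K →+* K) g) :=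
        fun g => rfl
      rw [h1, h1, h1]
      congr 1
      ext i j
      exact hs (g i j)
  refine Prod.ext (funext fun j => ?_) (XF.ext fun j => ?_)
  · have h1 : j = a.c (a.c (a.c j)) := (hc j).symm
    rw [h1]
    show a.actInf (a.actInf (a.actInf x.1)) (a.c (a.c (a.c j))) = _
    rw [AutData.actInf_apply_c, AutData.actInf_apply_c, AutData.actInf_apply_c, hc]
  · have h1 : a.σ (a.σ (a.σ j)) = j := hσ j
    obtain ⟨g, hg⟩ := QuotientGroup.mk_surjective (x.2 j)
    have h2 : ∀ i, i = j → x.2 i = ((g : PGL(2, K)) : PGL(2, K) ⧸ m.L.fam.U i) := by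
      rintro _ rfl
      exact hg.symm
    have h3 : (a.act (a.act (a.act x))).2 (a.σ (a.σ (a.σ j))) = x.2 (a.σ (a.σ (a.σ j))) := by
      rw [h2 _ h1]
      show a.twist.act (a.twist.act (a.twist.act x.2)) (a.twist.σ (a.twist.σ (a.twist.σ j))) = _
      rw [Twist.act_apply_σ, Twist.act_apply_σ, Twist.act_apply_σ, h2 j rfl, Twist.cmap_mk,
        Twist.cmap_mk, Twist.cmap_mk]
      have h4 : a.twist.s (a.twist.s (a.twist.s g)) = g := hpm g
      rw [h4]
      rfl
    rw [h1] at h3
    exact h3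

/-- discrete operators and automorphisms -/
theorem sB_gopB {b b' : GlobKer m.L.fam} (h : IsTw a.twist b b') :
    sB a * gopB m b = gopB m b' * sB a := by
  apply LinearMap.ext
  intro f
  apply ext_act a
  intro x
  show (sB a (gopB m b f) : m.X → ℂ) (a.act x) =
    gop b' (fun y => (sB a f : m.X → ℂ) (a.actInf x.1, y)) (a.twist.act x.2)
  rw [h.gop_act, sB_act]
  show gop b (fun y => (f : m.X → ℂ) (x.1, y)) x.2 = _
  congr 1
  funext y
  exact (sB_act a f (x.1, y)).symm

theorem isRC_perm {κ : (J → ℝ) → ℂ} (hκ : IsRC κ) (c : Equiv.Perm J) :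
    IsRC fun t => κ fun j => t (c j) where
  cont := hκ.cont.comp (continuous_pi fun j => continuous_apply _)
  bdd := by
    obtain ⟨M, hM⟩ := hκ.bdd
    exact ⟨M, fun u => hM _⟩
  supp := by
    obtain ⟨R, hR⟩ := hκ.supp
    refine ⟨R, fun u ⟨j, hj⟩ => hR _ ⟨c.symm j, ?_⟩⟩
    rwa [Equiv.apply_symm_apply]

/-- radial operators and automorphisms -/
theorem sB_rkB {κ : (J → ℝ) → ℂ} (hκ : IsRC κ) :
    sB a * rkB m hκ = rkB m (isRC_perm hκ a.c) * sB a := by
  apply LinearMap.ext
  intro f
  apply ext_act a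
  intro x
  show (sB a (rkB m hκ f) : m.X → ℂ) (a.act x) =
    ∫ w, κ (fun j => chv (a.actInf x.1) w (a.c j)) *
      (sB a f : m.X → ℂ) (w, a.twist.act x.2)
  rw [sB_act, ← integral_actInf a]
  show ∫ w, κ (chv x.1 w) * (f : m.X → ℂ) (w, x.2) = _
  refine integral_congr_ae (Eventually.of_forall fun w => ?_)
  simp only
  congr 1
  · congr 1
    funext j
    show H3.ch (x.1 j) (w j) = H3.ch (a.actInf x.1 (a.c j)) (a.actInf w (a.c j))
    rw [AutData.actInf_apply_c, AutData.actInf_apply_c]
  · exact (sB_act a f (w, x.2)).symm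

end aut

/-! ### The operator of a finite sum of pure kernels -/

section kops

/-- the integral of a pure kernel against a bounded function -/
theorem integrable_ker_mul {κ : (J → ℝ) → ℂ} (hκ : IsRC κ) (a : GlobKer m.L.fam) (x : m.X)
    {f : m.X → ℂ} (hf : Measurable f) {C : ℝ} (hC : ∀ x, ‖f x‖ ≤ C) :
    Integrable (fun y => m.ker κ a.k x y * f y) m.μ := by
  have hm : Measurable fun y : m.X => m.ker κ a.k x y * f y := by
    refine Measurable.mul ?_ hf
    rw [m.measurable_iff]
    intro y0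
    have h1 : Measurable fun w : J → H3 => κ (chv x.1 w) :=
      (hκ.cont.comp (continuous_chv_right x.1)).measurable
    exact h1.mul_const (a.k x.2 y0)
  refine ⟨hm.aestronglyMeasurable, ?_⟩
  unfold HasFiniteIntegral
  have h1 : ∫⁻ y, ‖m.ker κ a.k x y * f y‖ₑ ∂m.μ = ∫⁻ w : J → H3, ∫⁻ y : XF m.L.fam,
      ‖κ (chv x.1 w) * a.k x.2 y * f (w, y)‖ₑ ∂Measure.count :=
    lintegral_prod _ hm.enorm.aemeasurable
  rw [h1]
  have hle : ∀ w : J → H3, ∫⁻ y : XF m.L.fam, ‖κ (chv x.1 w) * a.k x.2 y * f (w, y)‖ₑ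
      ∂Measure.count ≤ ‖κ (chv x.1 w)‖ₑ * (ENNReal.ofReal (gbd a) * ENNReal.ofReal C) := by
    intro w
    rw [lintegral_count]
    refine le_trans (ENNReal.tsum_le_tsum (g := fun y =>
      ‖κ (chv x.1 w)‖ₑ * (‖a.k x.2 y‖ₑ * ENNReal.ofReal C)) fun y => ?_) ?_
    · rw [enorm_mul, enorm_mul, mul_assoc]
      refine mul_le_mul_right (mul_le_mul_right ?_ _) _
      rw [← ofReal_norm]; exact ENNReal.ofReal_le_ofReal (hC _)
    · rw [ENNReal.tsum_mul_left, ENNReal.tsum_mul_right]
      exact mul_le_mul_right (mul_le_mul_left (tsum_enorm_le a x.2) _) _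
  refine (lintegral_mono hle).trans_lt ?_
  rw [lintegral_mul_const' _ _ (ENNReal.mul_lt_top ENNReal.ofReal_lt_top
    ENNReal.ofReal_lt_top).ne]
  exact ENNReal.mul_lt_top ((lintegral_le_rbd hκ x.1).trans_lt ENNReal.ofReal_lt_top)
    (ENNReal.mul_lt_top ENNReal.ofReal_lt_top ENNReal.ofReal_lt_top)

theorem integral_ker_mul {κ : (J → ℝ) → ℂ} (hκ : IsRC κ) (a : GlobKer m.L.fam) (x : m.X)
    {f : m.X → ℂ} (hf : Measurable f) {C : ℝ} (hC : ∀ x, ‖f x‖ ≤ C) :
    ∫ y, m.ker κ a.k x y * f y ∂m.μ = rkX m κ (gopX m a f) x := by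
  have h1 : ∫ y, m.ker κ a.k x y * f y ∂m.μ = ∫ w : J → H3, ∫ y : XF m.L.fam,
      κ (chv x.1 w) * a.k x.2 y * f (w, y) ∂Measure.count :=
    integral_prod _ (integrable_ker_mul hκ a x hf hC)
  rw [h1, rkX_apply]
  refine integral_congr_ae (Eventually.of_forall fun w => ?_)
  have h2 : gopX m a f (w, x.2) = ∫ y, a.k x.2 y * f (w, y)
      ∂(Measure.count : Measure (XF m.L.fam)) := by
    rw [integral_count_gop]; rfl
  simp only
  rw [h2, ← integral_const_mul]
  refine integral_congr_ae (Eventually.of_forall fun y => ?_)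
  simp only; ring

variable {I : Type*} (s : Finset I) {κ : I → (J → ℝ) → ℂ} (hκ : ∀ i, IsRC (κ i))
  (f : I → GlobKer m.L.fam)

/-- the finite sum of pure kernels (the same expression as `H59K.fk`) -/
def fks (m : Model K J) (s : Finset I) (κ : I → (J → ℝ) → ℂ) (f : I → GlobKer m.L.fam)
    (x y : m.X) : ℂ := ∑ i ∈ s, m.ker (κ i) (f i).k x y

theorem fks_smul (g : PGL(2, K)) (x y : m.X) :
    fks m s κ f (g • x) (g • y) = fks m s κ f x y := by
  unfold fks
  refine Finset.sum_congr rfl fun i _ => ?_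
  exact m.ker_smul (κ i) (f i).k (fun g x y => (f i).k_smul g x y) g x y

/-- the operator of a finite sum of pure kernels -/
def fkB : Module.End ℂ (BInv PGL(2, K) m.X) := ∑ i ∈ s, rkB m (hκ i) * gopB m (f i)

include hκ in
theorem integrable_fks_mul (x : m.X) (φ : BInv PGL(2, K) m.X) :
    Integrable (fun y => fks m s κ f x y * (φ : m.X → ℂ) y) m.μ := by
  obtain ⟨C, hC⟩ := BInv.bounded φ
  have h1 : (fun y => fks m s κ f x y * (φ : m.X → ℂ) y) =
      fun y => ∑ i ∈ s, m.ker (κ i) (f i).k x y * (φ : m.X → ℂ) y := by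
    funext y
    unfold fks
    rw [Finset.sum_mul]
  rw [h1]
  exact integrable_finsetSum _ fun i _ => integrable_ker_mul (hκ i) (f i) x (BInv.measurable φ) hC

theorem integral_fks_mul (x : m.X) (φ : BInv PGL(2, K) m.X) :
    ∫ y, fks m s κ f x y * (φ : m.X → ℂ) y ∂m.μ = (fkB s hκ f φ : m.X → ℂ) x := by
  obtain ⟨C, hC⟩ := BInv.bounded φ
  have h1 : (fun y => fks m s κ f x y * (φ : m.X → ℂ) y) =
      fun y => ∑ i ∈ s, m.ker (κ i) (f i).k x y * (φ : m.X → ℂ) y := by
    funext y
    unfold fks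
    rw [Finset.sum_mul]
  rw [h1, integral_finsetSum _ fun i _ =>
    integrable_ker_mul (hκ i) (f i) x (BInv.measurable φ) hC]
  have h2 : ∀ t : Finset I, ((∑ i ∈ t, rkB m (hκ i) * gopB m (f i)) φ : m.X → ℂ) x =
      ∑ i ∈ t, ((rkB m (hκ i) * gopB m (f i)) φ : m.X → ℂ) x := by
    classical
    intro t
    induction t using Finset.induction_on with
    | empty => rfl
    | insert i t hi ih =>
      rw [Finset.sum_insert hi, Finset.sum_insert hi, LinearMap.add_apply, Submodule.coe_add,
        Pi.add_apply, ih]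
  unfold fkB
  rw [h2]
  exact Finset.sum_congr rfl fun i _ => integral_ker_mul (hκ i) (f i) x (BInv.measurable φ) hC

/-- **The operator of the automorphic kernel** of a finite sum of pure kernels. -/
theorem kop_fks (c : CutOff PGL(2, K) m.X) [IsFiniteMeasure (c.ν m.μ)]
    (hK : BK (CutOff.autK PGL(2, K) (fks m s κ f)))
    (hG : ∀ (g : PGL(2, K)) x y, CutOff.autK PGL(2, K) (fks m s κ f) (g • x) y =
      CutOff.autK PGL(2, K) (fks m s κ f) x y) :
    kop hK (c.ν m.μ) hG = fkB s hκ f := by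
  apply LinearMap.ext
  intro φ
  apply Subtype.ext
  funext x
  rw [kop_apply, ← c.integral_autK (fun g y => BInv.inv φ g y)
    (integrable_fks_mul s hκ f x φ), integral_fks_mul s hκ f]

theorem autK_fks_smul (g : PGL(2, K)) (x y : m.X) :
    CutOff.autK PGL(2, K) (fks m s κ f) (g • x) y = CutOff.autK PGL(2, K) (fks m s κ f) x y :=
  CutOff.autK_smul_left (fun g x y => fks_smul s f g x y) x y g

variable (c : CutOff PGL(2, K) m.X) [IsFiniteMeasure (c.ν m.μ)]
  {hK : BK (CutOff.autK PGL(2, K) (fks m s κ f))}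
  {hG : ∀ (g : PGL(2, K)) x y, CutOff.autK PGL(2, K) (fks m s κ f) (g • x) y =
      CutOff.autK PGL(2, K) (fks m s κ f) x y}

include hκ in
theorem mem_Cm_iff (A : Module.End ℂ (BInv PGL(2, K) m.X)) :
    A ∈ Cm hK (c.ν m.μ) hG ↔ Commute (fkB s hκ f) A := by
  rw [mem_Cm, kop_fks s hκ f c hK hG]
  exact ⟨fun h => LinearMap.ext h, fun h φ => LinearMap.congr_fun h φ⟩

include hκ in
theorem gopB_mem_Cm {b : GlobKer m.L.fam} (h : ∀ i ∈ s, gmul (f i) b = gmul b (f i)) :
    gopB m b ∈ Cm hK (c.ν m.μ) hG := by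
  rw [mem_Cm_iff s hκ f c]
  unfold fkB
  refine Commute.sum_left _ _ _ fun i hi => ?_
  exact Commute.mul_left (rkB_gopB_commute m (hκ i) b) (gopB_commute m (h i hi))

include hκ in
theorem rkB_mem_Cm {κ' : (J → ℝ) → ℂ} (hκ' : IsRC κ') :
    rkB m hκ' ∈ Cm hK (c.ν m.μ) hG := by
  rw [mem_Cm_iff s hκ f c]
  unfold fkB
  refine Commute.sum_left _ _ _ fun i hi => ?_
  exact Commute.mul_left (rkB_commute m (hκ i) hκ') (rkB_gopB_commute m hκ' (f i)).symm

include hκ in
theorem sB_mem_Cm (a : AutData m)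
    (hk : ∀ x y, fks m s κ f (a.act x) (a.act y) = fks m s κ f x y) :
    sB a ∈ Cm hK (c.ν m.μ) hG := by
  rw [mem_Cm_iff s hκ f c]
  apply LinearMap.ext
  intro φ
  apply ext_act a
  intro x
  show (fkB s hκ f (sB a φ) : m.X → ℂ) (a.act x) = (sB a (fkB s hκ f φ) : m.X → ℂ) (a.act x)
  rw [sB_act, ← integral_fks_mul s hκ f, ← integral_fks_mul s hκ f, ← integral_act a]
  refine integral_congr_ae (Eventually.of_forall fun y => ?_)
  simp only
  rw [hk, sB_act]

end kops

end Fermat.Agent.H21Z
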