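import Fermat.Agent.H42T6
import Fermat.Agent.H21Z5
import Fermat.Agent.H65FirstB

/-!
H42T7 (project S47, (m2)): complements for block (C): the measurable space of a model is countably
generated, the operators on bounded invariant functions, the norm of the auxiliary place, and the
trace identity with arbitrary common labels.
-/

set_option autoImplicit false
set_option linter.unusedSectionVars false

noncomputable section

open MeasureTheory Set IsDedekindDomain HeightOneSpectrum NumberField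
open scoped ENNReal ComplexConjugate MatrixGroups

namespace Fermat.Agent.H42T

open Fermat.Agent.H17S Fermat.Agent.H21Z Fermat.Agent.H42S Fermat.Agent.H32Z
open Fermat.Agent.H32Z.CutOff Fermat.Agent.H59XF Fermat.Agent.H51Z Fermat.Agent.H59D
open Fermat.Agent.H79S Fermat.Agent.H56Z Fermat.Agent.H67M

/-! ### Countably generated -/

theorem cg_discrete {α : Type*} [Countable α] [MeasurableSpace α] [DiscreteMeasurableSpace α] :
    MeasurableSpace.CountablyGenerated α := by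
  refine ⟨⟨Set.range (fun a : α => ({a} : Set α)), Set.countable_range _, ?_⟩⟩
  apply le_antisymm
  · intro s _
    have hs : s = ⋃ a ∈ s, {a} := by simp
    rw [hs]
    exact MeasurableSet.biUnion s.to_countable fun a _ =>
      MeasurableSpace.measurableSet_generateFrom ⟨a, rfl⟩
  · rw [MeasurableSpace.generateFrom_le_iff]
    rintro _ ⟨a, rfl⟩
    exact MeasurableSet.of_discrete

instance instCGX {K : Type*} [Field K] [NumberField K] {J : Type*} [Fintype J] (m : Model K J) :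
    MeasurableSpace.CountablyGenerated m.X := by
  have : MeasurableSpace.CountablyGenerated (XF m.L.fam) := cg_discrete
  exact inferInstanceAs (MeasurableSpace.CountablyGenerated ((J → H3) × XF m.L.fam))

/-! ### The operators -/

/-- the operators `gopB`, `rkB` of helper21 -/
def bOps {K : Type} [Field K] [NumberField K] {J : Type} [Fintype J] (m : Model K J) : BOps m where
  gB := gopB m
  gB_apply _ _ _ := rfl
  rB κ := rkB m κ.2
  rB_apply _ _ _ := rfl

theorem sB_eq {K : Type} [Field K] [NumberField K] {J : Type} [Fintype J] {m : Model K J}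
    (a : AutData m) (f : BInv PGL(2, K) m.X) (x : m.X) :
    (sB a f : m.X → ℂ) x = (f : m.X → ℂ) ((twOf a).s.symm x) := by
  obtain ⟨y, rfl⟩ : ∃ y, (twOf a).s y = x := (twOf a).s.surjective x
  rw [MeasurableEquiv.symm_apply_apply]
  exact sB_act a f y

/-! ### The norm of `w0` -/

variable {F E : Type} [Field F] [NumberField F] [Field E] [NumberField E] [Algebra F E]
  (C : CSetup F E)

theorem absNorm_w0 : Ideal.absNorm C.w0.asIdeal = Ideal.absNorm C.v0.asIdeal ^ 3 := by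
  have hgal := C.gal
  have h1 := Ideal.ncard_primesOver_mul_ramificationIdxIn_mul_inertiaDegIn C.v0.asIdeal (𝓞 E)
    Gal(E/F)
  have hab : C.w0 ∈ H82.above E C.v0 := by
    rw [C.above_v0]
    exact Set.mem_singleton _
  have hlo : C.w0.asIdeal.LiesOver C.v0.asIdeal := ⟨Eq.symm hab⟩
  have he := C.unr C.v0 C.v0S C.w0 hab
  rw [← Fermat.Agent.H65.ncard_above, C.above_v0, Set.ncard_singleton,
    Ideal.ramificationIdxIn_eq_ramificationIdx C.v0.asIdeal C.w0.asIdeal Gal(E/F),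
    Ideal.inertiaDegIn_eq_inertiaDeg C.v0.asIdeal C.w0.asIdeal Gal(E/F),
    ← Ideal.ramificationIdx'_eq_ramificationIdx C.v0.asIdeal C.w0.asIdeal C.v0.ne_bot, he,
    one_mul, one_mul, IsGalois.card_aut_eq_finrank, C.h3] at h1
  have h2 := Ideal.absNorm_eq_pow_inertiaDeg'_of_liesOver C.w0.asIdeal C.v0.asIdeal C.v0.isPrime
    C.v0.ne_bot
  rw [Ideal.inertiaDeg'_eq_inertiaDeg C.v0.asIdeal C.w0.asIdeal, h1] at h2
  exact h2

/-- `(√q)⁻¹` at `w0` is the third power of `(√q)⁻¹` at `v0`. -/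
theorem sqrt_w0 : (Real.sqrt (Ideal.absNorm C.w0.asIdeal))⁻¹ =
    ((Real.sqrt (Ideal.absNorm C.v0.asIdeal))⁻¹) ^ 3 := by
  rw [absNorm_w0, Nat.cast_pow, inv_pow]
  congr 1
  have h : (0 : ℝ) ≤ (Ideal.absNorm C.v0.asIdeal : ℝ) := Nat.cast_nonneg _
  rw [show ((Ideal.absNorm C.v0.asIdeal : ℝ)) ^ 3 =
    (Real.sqrt (Ideal.absNorm C.v0.asIdeal) ^ 3) ^ 2 by
      rw [← pow_mul, mul_comm 3 2, pow_mul, Real.sq_sqrt h]]
  exact Real.sqrt_sq (pow_nonneg (Real.sqrt_nonneg _) _)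

/-! ### Common labels with real kernels -/

/-- The common labels: Hecke operators at places over split places, real radial kernels. -/
abbrev JR : Type :=
  {w : HeightOneSpectrum (𝓞 E) // C.Ok w} ⊕ {κ : (Fin 3 → ℝ) → ℝ // IsRC fun t => (κ t : ℂ)}

/-- the corresponding complex labels -/
def jr : JR C → JL C
  | Sum.inl w => Sum.inl w
  | Sum.inr κ => Sum.inr ⟨fun t => (κ.1 t : ℂ), κ.2, fun _ => Complex.conj_ofReal _⟩

/-- the labels on the side of `E` -/
def lE (l : JR C) : Lab C.kE.D := labE C (jr C l)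

/-- the labels on the side of `F` -/
def lF (l : JR C) : Lab C.kF.D := labF C (jr C l)

/-- matching of the pure systems, for the labels `JR` -/
def matchingR (BE : BOps C.mE) (BF : BOps C.mF) (sE : C.mE.X → C.mE.X) (sF : C.mF.X → C.mF.X) :
    Matching ((kSys C.kE.D BE 1).toPure (lE C) (Sum.inr ()) sE)
      ((kSys C.kF.D BF 3).toPure (lF C) (Sum.inr ()) sF) where
  R := RM C
  mul h h' := RM_mul C h h'
  app l h := RM_app C h (jr C l)

/-- **The trace identity of block (C)**, with the operators of helper21 and real labels. -/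
theorem TI_R (hgeom : C.Geom) (cE : CutOff PGL(2, E) C.mE.X) (cF : CutOff PGL(2, F) C.mF.X)
    [IsFiniteMeasure (cE.ν C.mE.μ)] [IsFiniteMeasure (cF.ν C.mF.μ)]
    {ι : Type} [Fintype ι] (κ : ι → (Fin 3 → ℝ) → ℂ) (hκ : ∀ i, IsRC (κ i))
    (n : ι → HeightOneSpectrum (𝓞 E) →₀ ℕ) (hn : ∀ i, C.OkN (n i))
    (bdE : Bd PGL(2, E) fun x y : C.mE.X => ∑ i, C.tkE (κ i) (n i) 0 x y)
    (bdF : Bd PGL(2, F) fun x y : C.mF.X => ∑ i, C.tkB (κ i) (n i) 0 x y)
    {hKE : BK (autK PGL(2, E) fun x y : C.mE.X => ∑ i, C.tkE (κ i) (n i) 0 x y)}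
    {hGE : ∀ (g : PGL(2, E)) x y,
      autK PGL(2, E) (fun x y : C.mE.X => ∑ i, C.tkE (κ i) (n i) 0 x y) (g • x) y =
      autK PGL(2, E) (fun x y : C.mE.X => ∑ i, C.tkE (κ i) (n i) 0 x y) x y}
    (hsE : ∀ x y, autK PGL(2, E) (fun x y : C.mE.X => ∑ i, C.tkE (κ i) (n i) 0 x y) y x =
      conj (autK PGL(2, E) (fun x y : C.mE.X => ∑ i, C.tkE (κ i) (n i) 0 x y) x y))
    {hKF : BK (autK PGL(2, F) fun x y : C.mF.X => ∑ i, C.tkB (κ i) (n i) 0 x y)}
    {hGF : ∀ (g : PGL(2, F)) x y,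
      autK PGL(2, F) (fun x y : C.mF.X => ∑ i, C.tkB (κ i) (n i) 0 x y) (g • x) y =
      autK PGL(2, F) (fun x y : C.mF.X => ∑ i, C.tkB (κ i) (n i) 0 x y) x y}
    (hsF : ∀ x y, autK PGL(2, F) (fun x y : C.mF.X => ∑ i, C.tkB (κ i) (n i) 0 x y) y x =
      conj (autK PGL(2, F) (fun x y : C.mF.X => ∑ i, C.tkB (κ i) (n i) 0 x y) x y))
    (D : OpData (JR C) hKE (cE.ν C.mE.μ) hGE) (D' : OpData (JR C) hKF (cF.ν C.mF.μ) hGF)
    (hD : ∀ l, D.Y (D.j l) = (kSys C.kE.D (bOps C.mE) 1).Y (lE C l))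
    (hD' : ∀ l, D'.Y (D'.j l) = (kSys C.kF.D (bOps C.mF) 3).Y (lF C l))
    (ρ : ℂ) (hu : D.Y D.u = ρ • gopB C.mE (single C.kE.D.w0 (lpow (C.kE.D.U C.kE.D.w0) 1)))
    (hu' : D'.Y D'.u = ρ • gopB C.mF (single C.kF.D.w0 (lpow (C.kF.D.U C.kF.D.w0) 3)))
    (hs : D.s = sB C.aE) (hs' : D'.s = 1) :
    ∀ L : List (JR C), ∃ m₀ : ℕ, ∀ m ≥ m₀, (D.side hsE).tr L m = 1 * (D'.side hsF).tr L m := by
  let t : ι → PK C.kE.D := fun i => ⟨κ i, hκ i, n i, 0⟩
  let t' : ι → PK C.kF.D := fun i => ⟨bF (κ i), isRC_bF (hκ i), (n i).mapDomain (H47.below F), 0⟩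
  have hsx : ∀ (f : BInv PGL(2, E) C.mE.X) x, (D.s f : C.mE.X → ℂ) x =
      (f : C.mE.X → ℂ) ((twOf C.aE).s.symm x) := by
    intro f x
    rw [hs, sB_eq]
  have hsx' : ∀ (f : BInv PGL(2, F) C.mF.X) x, (D'.s f : C.mF.X → ℂ) x =
      (f : C.mF.X → ℂ) ((Tw.refl PGL(2, F) C.mF.μ).s.symm x) := by
    intro f x
    rw [hs']
    rfl
  refine TI (matchingR C (bOps C.mE) (bOps C.mF) (twOf C.aE).s (Tw.refl PGL(2, F) C.mF.μ).s)
    (cE.ν C.mE.μ) (cF.ν C.mF.μ) ?_ t t' ?_
    (fun _ => 1) (fun m => ρ ^ m) (D.side hsE) (D'.side hsF) (fun L m => ?_) (fun L m => ?_)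
  · rintro p p' ⟨h1, h2, h3, h4⟩
    obtain ⟨k0, hk0⟩ := hgeom cE cF p.κ p.rc p.n h2
    refine ⟨k0, fun m hm => ?_⟩
    have hv : (fun x => ((kSys C.kE.D (bOps C.mE) 1).toPure (lE C) (Sum.inr ())
        (twOf C.aE).s).val p m x) =
        fun x => autK PGL(2, E) (C.tkE p.κ p.n (p.k + m)) x (C.aE.act x) := by
      funext x
      change autK PGL(2, E) ((kSys C.kE.D (bOps C.mE) 1).ker ((kSys C.kE.D (bOps C.mE) 1).apps p
        (List.replicate m (Sum.inr ())))) x ((twOf C.aE).s x) = _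
      rw [kSys_apps_u, one_mul]
      rfl
    have hv' : (fun x => ((kSys C.kF.D (bOps C.mF) 3).toPure (lF C) (Sum.inr ())
        (Tw.refl PGL(2, F) C.mF.μ).s).val p' m x) =
        fun x => autK PGL(2, F) (C.tkB p.κ p.n (p.k + m)) x x := by
      funext x
      change autK PGL(2, F) ((kSys C.kF.D (bOps C.mF) 3).ker ((kSys C.kF.D (bOps C.mF) 3).apps p'
        (List.replicate m (Sum.inr ())))) x x = _
      rw [kSys_apps_u]
      change autK PGL(2, F) (C.mF.ker p'.κ (C.kF.D.mono p'.n (p'.k + 3 * m)).k) x x = _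
      rw [h1, h3, h4, ← mul_add]
      rfl
    obtain ⟨i1, i2, i3⟩ := hk0 (p.k + m) (le_trans hm (Nat.le_add_left _ _))
    refine ⟨?_, ?_, ?_⟩
    · change Integrable (fun x => ((kSys C.kE.D (bOps C.mE) 1).toPure (lE C) (Sum.inr ())
        (twOf C.aE).s).val p m x) _
      rw [hv]; exact i1
    · change Integrable (fun x => ((kSys C.kF.D (bOps C.mF) 3).toPure (lF C) (Sum.inr ())
        (Tw.refl PGL(2, F) C.mF.μ).s).val p' m x) _
      rw [hv']; exact i2
    · rw [hv, hv']; exact i3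
  · intro i
    exact ⟨rfl, hn i, rfl, rfl⟩
  · refine (side_tr_one (kSys C.kE.D (bOps C.mE) 1) t bdE cE (twOf C.aE) rfl hsE D (lE C) hD
      (Sum.inr ()) ρ hu hsx L m).trans ?_
    refine congrArg (fun z => ρ ^ m * z) ?_
    refine integral_congr_ae (Filter.Eventually.of_forall fun x => ?_)
    refine Finset.sum_congr rfl fun i _ => Finset.sum_congr rfl fun j _ => ?_
    have h2 := KSys.toPure_apps (kSys C.kE.D (bOps C.mE) 1) (lE C) (Sum.inr ()) (twOf C.aE).s
      (t j) L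
    exact (congrArg (fun q : (kSys C.kE.D (bOps C.mE) 1).P => (1 : ℂ) * 1 * autK PGL(2, E)
      ((kSys C.kE.D (bOps C.mE) 1).ker ((kSys C.kE.D (bOps C.mE) 1).apps
        ((kSys C.kE.D (bOps C.mE) 1).mul (t i) q)
        (List.replicate m (Sum.inr ())))) x ((twOf C.aE).s x)) h2).symm
  · refine (side_tr_one (kSys C.kF.D (bOps C.mF) 3) t' bdF cF (Tw.refl PGL(2, F) C.mF.μ) rfl hsF
      D' (lF C) hD' (Sum.inr ()) ρ hu' hsx' L m).trans ?_
    refine congrArg (fun z => ρ ^ m * z) ?_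
    refine integral_congr_ae (Filter.Eventually.of_forall fun x => ?_)
    refine Finset.sum_congr rfl fun i _ => Finset.sum_congr rfl fun j _ => ?_
    have h2 := KSys.toPure_apps (kSys C.kF.D (bOps C.mF) 3) (lF C) (Sum.inr ())
      (Tw.refl PGL(2, F) C.mF.μ).s (t' j) L
    exact (congrArg (fun q : (kSys C.kF.D (bOps C.mF) 3).P => (1 : ℂ) * 1 * autK PGL(2, F)
      ((kSys C.kF.D (bOps C.mF) 3).ker ((kSys C.kF.D (bOps C.mF) 3).apps
        ((kSys C.kF.D (bOps C.mF) 3).mul (t' i) q)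
        (List.replicate m (Sum.inr ())))) x ((Tw.refl PGL(2, F) C.mF.μ).s x)) h2).symm

end Fermat.Agent.H42T
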