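import Fermat.Agent.H42S5

/-!
H42S6 (project S47, C20): extension of a joint eigenspace by one more commuting operator (used for
`u = A ^ 3` on the side of the smaller field).
-/

set_option autoImplicit false

open Module Module.End

namespace Fermat.Agent.H42S

variable {K E : Type*} [AddCommGroup E] [Module ℂ E] [FiniteDimensional ℂ E]
  {Y : K → Module.End ℂ E} {χ : K → ℂ}

/-- A nonzero joint generalised eigenspace contains a joint eigenvector of the family and of any
further commuting operator. -/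
theorem exists_joint_ext (hY : ∀ i j, Commute (Y i) (Y j)) {A : Module.End ℂ E}
    (hA : ∀ k, Commute A (Y k)) (hb : blk Y χ ≠ ⊥) :
    ∃ (μ : ℂ) (v : E), v ≠ 0 ∧ A v = μ • v ∧ ∀ k, Y k v = χ k • v := by
  classical
  have hm : Set.MapsTo A (blk Y χ) (blk Y χ) := fun v hv => mapsTo_of_commute hA χ hv
  have := Submodule.nontrivial_iff_ne_bot.mpr hb
  obtain ⟨μ, hμ⟩ := Module.End.exists_eigenvalue (A.restrict hm)
  obtain ⟨v, hv⟩ := hμ.exists_hasEigenvector
  have hv1 : A (v : E) = μ • (v : E) := congrArg Subtype.val hv.apply_eq_smul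
  let Y' : Option K → Module.End ℂ E := fun o => o.elim A Y
  let χ' : Option K → ℂ := fun o => o.elim μ χ
  have hY' : ∀ i j, Commute (Y' i) (Y' j) := by
    rintro (_ | i) (_ | j)
    · exact Commute.refl _
    · exact hA j
    · exact (hA i).symm
    · exact hY i j
  have hb' : blk Y' χ' ≠ ⊥ := by
    intro h0
    apply hv.2
    apply Subtype.ext
    rw [Submodule.coe_zero, ← Submodule.mem_bot ℂ, ← h0, mem_blk]
    rintro (_ | k)
    · refine ⟨1, ?_⟩
      change ((A - μ • (1 : Module.End ℂ E)) ^ 1) (v : E) = 0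
      rw [pow_one, LinearMap.sub_apply, hv1, LinearMap.smul_apply, Module.End.one_apply, sub_self]
    · exact mem_blk.mp v.2 k
  obtain ⟨w, hw0, -, hw⟩ := exists_joint hY' hb'
  exact ⟨μ, w, hw0, hw none, fun k => hw (some k)⟩

/-- The case `Y u = A ^ n`. -/
theorem exists_joint_pow (hY : ∀ i j, Commute (Y i) (Y j)) {A : Module.End ℂ E}
    (hA : ∀ k, Commute A (Y k)) (hb : blk Y χ ≠ ⊥) {u : K} {n : ℕ} (hu : Y u = A ^ n) :
    ∃ (μ : ℂ) (v : E), v ≠ 0 ∧ A v = μ • v ∧ μ ^ n = χ u ∧ ∀ k, Y k v = χ k • v := by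
  obtain ⟨μ, v, hv0, hv, h⟩ := exists_joint_ext hY hA hb
  refine ⟨μ, v, hv0, hv, ?_, h⟩
  have h1 : (A ^ n) v = μ ^ n • v := by
    clear hu
    induction n with
    | zero => simp
    | succ n ih => rw [pow_succ', Module.End.mul_apply, ih, map_smul, hv, smul_smul, ← pow_succ]
  have h2 := h u
  rw [hu, h1] at h2
  have h3 : (μ ^ n - χ u) • v = 0 := by rw [sub_smul, h2, sub_self]
  exact sub_eq_zero.mp ((smul_eq_zero.mp h3).resolve_right hv0)

/-- modulus one or real passes to powers -/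
theorem pow_cases {μ : ℂ} (h : ‖μ‖ = 1 ∨ μ.im = 0) (n : ℕ) : ‖μ ^ n‖ = 1 ∨ (μ ^ n).im = 0 := by
  rcases h with h | h
  · left; rw [norm_pow, h, one_pow]
  · right
    obtain ⟨x, rfl⟩ := Complex.conj_eq_iff_real.mp (Complex.conj_eq_iff_im.mpr h)
    rw [← Complex.ofReal_pow]
    exact Complex.ofReal_im _

/-- two real numbers with the same cube -/
theorem eq_of_cube {a b : ℝ} (h : a ^ 3 = b ^ 3) : a = b :=
  (Odd.strictMono_pow (by decide : Odd 3)).injective h

/-- extraction of the eigenvalue of `A` from the one of `A ^ 3` for a symmetric operator -/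
theorem eigen_of_cube {E H : Type*} [AddCommGroup E] [Module ℂ E] [NormedAddCommGroup H]
    [InnerProductSpace ℂ H] {ι : E →ₗ[ℂ] H} (hι : Function.Injective ι) {A : Module.End ℂ E}
    (hA : SymmOn ι A) {v : E} (hv : v ≠ 0) {μ : ℂ} (h : A v = μ • v) {r : ℝ}
    (h3 : A (A (A v)) = ((r ^ 3 : ℝ) : ℂ) • v) : μ = r := by
  have h1 : A (A (A v)) = (μ ^ 3) • v := by
    rw [h, map_smul, h, map_smul, map_smul, h, smul_smul, smul_smul]
    ring_nf
  have h2 : (μ ^ 3 - ((r ^ 3 : ℝ) : ℂ)) • v = 0 := by rw [sub_smul, ← h1, h3, sub_self]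
  have h4 : μ ^ 3 = ((r ^ 3 : ℝ) : ℂ) := sub_eq_zero.mp ((smul_eq_zero.mp h2).resolve_right hv)
  have h5 := hA.eigenvalue_im hι hv h
  obtain ⟨x, rfl⟩ := Complex.conj_eq_iff_real.mp (Complex.conj_eq_iff_im.mpr h5)
  have h6 : x ^ 3 = r ^ 3 := by exact_mod_cast h4
  rw [eq_of_cube h6]

end Fermat.Agent.H42S
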