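import Fermat.Agent.H21Z2
import Fermat.Agent.H42S6

/-!
# S47, block (C), (m8): extraction of a joint eigenfunction (helper44)

* `exists_fun` : an index of a side gives a nonzero bounded invariant function which is an
  eigenfunction of the kernel, of all the operators of the family and of the normalised `U`;
* `extract` : together with the end of the comparison (`exists_block_c`).
-/

set_option autoImplicit false
set_option linter.unusedSectionVars false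

noncomputable section

open MeasureTheory Complex
open scoped ComplexConjugate
open Fermat.Agent.H32Z Fermat.Agent.H42S Fermat.Agent.H21Z

namespace Fermat.Agent.H44Z

variable {G X : Type} [Group G] [MulAction G X] [MeasurableSpace X]
  [MeasurableSpace.CountablyGenerated X] {ν : Measure X} [IsFiniteMeasure ν] {K : X → X → ℂ}
  {J : Type} {hK : BK K} {hG : ∀ (g : G) x y, K (g • x) y = K x y}

/-- **Extraction.** An index of the side of `D` gives a nonzero bounded invariant function, joint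
eigenfunction of the kernel, of all `Y k` and of the normalised operator `U`. -/
theorem exists_fun (D : OpData J hK ν hG) (hsym : ∀ x y, K y x = conj (K x y))
    (hT : ∀ k, Commute D.T (D.Y k)) (p : (D.side hsym).I) :
    ∃ (c : ℝ) (μ : ℂ) (Ψ : BInv G X), c ≠ 0 ∧ Ψ ≠ 0 ∧ kop hK ν hG Ψ = (c : ℂ) • Ψ ∧
      D.T Ψ = μ • Ψ ∧ μ ^ D.e = (D.side hsym).z p ∧
      (∀ k : D.N, D.Y k Ψ = (p.2.1 : D.N → ℂ) k • Ψ) ∧
      ∀ l, D.Y (D.j l) Ψ = ((D.side hsym).x p l : ℂ) • Ψ := by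
  obtain ⟨⟨c, hc⟩, χ, hχ⟩ := p
  have hb : blk (D.YE hc) χ ≠ ⊥ := (((D.side hsym).mem_supp).mp hχ).1
  have hfin : FiniteDimensional ℂ (Eig hK ν c) := finite_Eig hK hc
  have hA : ∀ k, Commute (resAlg hG hc ⟨D.T, D.T_mem⟩) (D.YE hc k) := by
    intro k
    have h1 : Commute (⟨D.T, D.T_mem⟩ : Cm hK ν hG) ⟨D.Y k, D.Y_mem k⟩ := Subtype.ext (hT k)
    exact h1.map (resAlg hG hc)
  have hu : D.YE hc D.u = (resAlg hG hc ⟨D.T, D.T_mem⟩) ^ D.e := by
    unfold OpData.YE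
    rw [← map_pow]
    congr 1
    exact Subtype.ext D.Y_u
  obtain ⟨μ, v, hv0, hv, hμ, h⟩ := exists_joint_pow (D.YE_comm hc) hA hb hu
  have hY : ∀ k : D.N, D.Y k (toInv hG hc v) = χ k • toInv hG hc v := by
    intro k
    have h1 := congrArg (toInv hG hc) (h k)
    rw [map_smul] at h1
    rw [← h1]
    rfl
  refine ⟨c, μ, toInv hG hc v, hc, ?_, kop_toInv hG hc v, ?_, ?_, hY, ?_⟩
  · intro h0
    apply hv0
    apply toInv_injective hG hc
    rw [h0, map_zero]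
  · have h1 := congrArg (toInv hG hc) hv
    rw [map_smul] at h1
    rw [← h1]
    rfl
  · rw [hμ]; rfl
  · intro l
    rw [hY]
    congr 1
    exact ((D.side hsym).x_eq ⟨⟨c, hc⟩, χ, hχ⟩ l).symm

/-- **End of the comparison, in terms of functions.** -/
theorem extract (S : SideC J) (D : OpData J hK ν hG) (hsym : ∀ x y, K y x = conj (K x y))
    (hT : ∀ k, Commute D.T (D.Y k)) (κ : ℂ)
    (TI : ∀ L : List J, ∃ m₀ : ℕ, ∀ m ≥ m₀, S.tr L m = κ * (D.side hsym).tr L m)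
    (p₀ : S.I) (ha : 0 < S.a p₀.1)
    (hpos : ∀ p : S.I, S.x p = S.x p₀ → S.z p = S.z p₀ →
      ∀ v ∈ blk (S.Y p.1) p.2.1, S.s p.1 v = v)
    (hz : 1 ≤ ‖S.z p₀‖) :
    ∃ (c : ℝ) (μ : ℂ) (χ : D.N → ℂ) (Ψ : BInv G X), c ≠ 0 ∧ Ψ ≠ 0 ∧
      kop hK ν hG Ψ = (c : ℂ) • Ψ ∧ D.T Ψ = μ • Ψ ∧ μ ^ D.e = S.z p₀ ∧ μ ≠ 0 ∧
      (∀ k : D.N, D.Y k Ψ = χ k • Ψ) ∧
      ∀ l, D.Y (D.j l) Ψ = (S.x p₀ l : ℂ) • Ψ := by
  obtain ⟨p, hx, hz'⟩ := exists_block_c S (D.side hsym) κ TI p₀ ha hpos hz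
  obtain ⟨c, μ, Ψ, hc, hΨ, hk, hTΨ, hμ, hY, hl⟩ := exists_fun D hsym hT p
  refine ⟨c, μ, p.2.1, Ψ, hc, hΨ, hk, hTΨ, by rw [hμ, hz'], ?_, hY, fun l => by rw [hl, hx]⟩
  rintro rfl
  rw [zero_pow D.e_pos.ne', hz'] at hμ
  rw [← hμ, norm_zero] at hz
  exact absurd hz (by norm_num)

/-- a member of the family which is symmetric has a real eigenvalue on any nonzero eigenvector -/
theorem eigenvalue_real {A : Module.End ℂ (BInv G X)} (hA : A ∈ Cm hK ν hG)
    (hadj : IsAdj ν A A) {c : ℝ} (hc : c ≠ 0) {Ψ : BInv G X} (hΨ : Ψ ≠ 0)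
    (hk : kop hK ν hG Ψ = (c : ℂ) • Ψ) {μ : ℂ} (h : A Ψ = μ • Ψ) : μ.im = 0 := by
  let f : Eig hK ν c := ⟨(Ψ : X → ℂ), mem_eig_of_kop hG hk⟩
  have hf : toInv hG hc f = Ψ := Subtype.ext rfl
  have hf0 : f ≠ 0 := by
    intro h0
    apply hΨ
    rw [← hf, h0, map_zero]
  refine im_eq_zero_of_isAdj hG hadj ((mem_Cm hG).mp hA) hc (lam := μ) ?_
  refine Module.End.hasEigenvalue_of_hasEigenvector (x := f) ⟨?_, hf0⟩
  rw [Module.End.mem_eigenspace_iff]
  apply toInv_injective hG hc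
  rw [toInv_res, hf, h, map_smul, hf]

end Fermat.Agent.H44Z
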