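import Fermat.Agent.H44ZOut
import Fermat.Agent.H44ZExt2
import Fermat.Agent.H21Z5
import Fermat.Agent.H51ZKD3

/-!
# S47, block (C): the output of the comparison, part 2 (helper44)

* `eS_of_kop` : eigenfunctions of the automorphic kernel are fixed by `eS`;
* `out_of_kop` : `COutE` from an eigenfunction of the automorphic kernel which is an eigenfunction
  of the Hecke operators, of the radial operators and of `U`.
-/

set_option autoImplicit false
set_option linter.unusedSectionVars false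
set_option linter.unusedVariables false

noncomputable section

open IsDedekindDomain HeightOneSpectrum WithZero NumberField Matrix MeasureTheory
open scoped MatrixGroups Classical ComplexConjugate

namespace Fermat.Agent.H44Z

open Fermat.Agent.H59XF Fermat.Agent.H51Z Fermat.Agent.H59D Fermat.Agent.H76U Fermat.Agent.H79S
open Fermat.Agent.H21Z
open Fermat.Agent.H17S (RI gX)
open Fermat.Agent.H32Z (CutOff BK)
open Fermat.Agent.H56Z (IsRC)
open Fermat.Agent.H67M (bkr bF isRC_bF)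

section Loc

variable {G : Type*} [Group G] {ι : Type*} {L : LevelFam G ι} (D : HData L)

theorem lpow_lmul {H : Subgroup G} (κ : LocKer H) (n : ℕ) :
    LocKer.mul (lpow κ n) κ = LocKer.mul κ (lpow κ n) := by
  have h1 : LocKer.mul (lpow κ n) (lpow κ 1) = LocKer.mul (lpow κ 1) (lpow κ n) := by
    rw [← lpow_add, ← lpow_add, add_comm]
  rwa [lpow_one] at h1

/-- `T i` commutes with the monomials. -/
theorem mono_T_comm {i : ι} (hi : i ∉ D.S) (h0 : i ≠ D.w0) (n : ι →₀ ℕ) (k : ℕ) :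
    gmul (D.mono n k) (single i (D.T i)) = gmul (single i (D.T i)) (D.mono n k) := by
  apply gext
  intro j
  rw [gmul_loc, gmul_loc, HData.mono_loc]
  by_cases h : j = i
  · subst h
    rw [single_same, D.loc_good hi h0, lpow_lmul]
  · rw [single_ne h, lmul_one, one_lmul]

/-- `U` commutes with the monomials. -/
theorem mono_U_comm (n : ι →₀ ℕ) (k : ℕ) :
    gmul (D.mono n k) (single D.w0 (D.U D.w0)) = gmul (single D.w0 (D.U D.w0)) (D.mono n k) := by
  apply gext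
  intro j
  rw [gmul_loc, gmul_loc, HData.mono_loc]
  by_cases h : j = D.w0
  · subst h
    rw [single_same, D.loc_w0, lpow_lmul]
  · rw [single_ne h, lmul_one, one_lmul]

end Loc

section Adj

variable {K : Type*} [Field K] [NumberField K] {J : Type*} [Fintype J] {m : Model K J}
  {S : Finset (HeightOneSpectrum (𝓞 K))} {w0 : HeightOneSpectrum (𝓞 K)}
  {T : HeightOneSpectrum (𝓞 K) → TD K} (kd : KerData m S w0 T)

include kd in
/-- The kernel of `T_w` is selfadjoint. -/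
theorem gadj_single_T {w : HeightOneSpectrum (𝓞 K)} (hw : w ∉ S) (h0 : w ≠ w0) :
    gadj (single w (kd.D.T w) : GlobKer m.L.fam) = single w (kd.D.T w) := by
  apply gadj_eq_self
  intro i x y
  by_cases h : i = w
  · subst h
    rw [single_same]
    exact H51Z.KD.herm_T kd hw h0 x y
  · rw [single_ne h]
    exact H51Z.Herm.one x y

end Adj

variable {F E : Type} [Field F] [NumberField F] [Field E] [NumberField E] [Algebra F E]

section Kop

variable (C : CSetup F E) {ι : Type} [Fintype ι] (κ : ι → (Fin 3 → ℝ) → ℂ)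
  (n : ι → HeightOneSpectrum (𝓞 E) →₀ ℕ) (cF : CutOff PGL(2, F) C.mF.X)
  [IsFiniteMeasure (cF.ν C.mF.μ)]
  {hK : BK (CutOff.autK PGL(2, F) fun x y : C.mF.X => ∑ i, C.tkB (κ i) (n i) 0 x y)}
  {hG : ∀ (g : PGL(2, F)) x y,
      CutOff.autK PGL(2, F) (fun x y : C.mF.X => ∑ i, C.tkB (κ i) (n i) 0 x y) (g • x) y =
      CutOff.autK PGL(2, F) (fun x y : C.mF.X => ∑ i, C.tkB (κ i) (n i) 0 x y) x y}

/-- The operator of the automorphic kernel. -/
theorem kop_eq (hκ : ∀ i, IsRC (κ i)) :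
    kop hK (cF.ν C.mF.μ) hG = ∑ i, rkB C.mF (isRC_bF (hκ i)) *
      gopB C.mF (C.kF.D.mono ((n i).mapDomain (H47.below F)) (3 * 0)) :=
  kop_fks (m := C.mF) Finset.univ (κ := fun i => bF (κ i)) (fun i => isRC_bF (hκ i))
    (fun i => C.kF.D.mono ((n i).mapDomain (H47.below F)) (3 * 0)) cF hK hG

/-- Eigenfunctions of the automorphic kernel are fixed by `eS`. -/
theorem eS_of_kop (hκ : ∀ i, IsRC (κ i)) {c : ℝ} (hc : c ≠ 0) {Ψ : BInv PGL(2, F) C.mF.X}
    (h : kop hK (cF.ν C.mF.μ) hG Ψ = (c : ℂ) • Ψ) : gopB C.mF (C.kF.D.mono 0 0) Ψ = Ψ := by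
  have h1 : gopB C.mF (C.kF.D.mono 0 0) * kop hK (cF.ν C.mF.μ) hG =
      kop hK (cF.ν C.mF.μ) hG := by
    rw [kop_eq C κ n cF hκ, Finset.mul_sum]
    refine Finset.sum_congr rfl fun i _ => ?_
    rw [← mul_assoc, (rkB_gopB_commute C.mF (isRC_bF (hκ i)) (C.kF.D.mono 0 0)).symm.eq,
      mul_assoc, ← gopB_gmul, HData.mono_mul, zero_add, zero_add]
  have h2 : (gopB C.mF (C.kF.D.mono 0 0)) (kop hK (cF.ν C.mF.μ) hG Ψ) =
      kop hK (cF.ν C.mF.μ) hG Ψ := LinearMap.congr_fun h1 Ψ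
  rw [h, map_smul] at h2
  have h3 : (c : ℂ) ≠ 0 := by exact_mod_cast hc
  have h4 := congrArg (fun f => (c : ℂ)⁻¹ • f) h2
  simp only [smul_smul, inv_mul_cancel₀ h3, one_smul] at h4
  exact h4

/-- `T_v` commutes with the automorphic kernel. -/
theorem gopB_T_mem (hκ : ∀ i, IsRC (κ i)) {v : HeightOneSpectrum (𝓞 F)} (hv : v ∉ C.SF)
    (h0 : v ≠ C.v0) :
    gopB C.mF (single v (C.kF.D.T v)) ∈ Cm hK (cF.ν C.mF.μ) hG :=
  gopB_mem_Cm (m := C.mF) Finset.univ (κ := fun i => bF (κ i)) (fun i => isRC_bF (hκ i))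
    (fun i => C.kF.D.mono ((n i).mapDomain (H47.below F)) (3 * 0)) cF fun i _ =>
      mono_T_comm C.kF.D (by rw [C.kF.D_S]; exact hv) (by rw [C.kF.D_w0]; exact h0) _ _

/-- Radial operators commute with the automorphic kernel. -/
theorem rkB_mem (hκ : ∀ i, IsRC (κ i)) {k : (Fin 1 → ℝ) → ℂ} (hk : IsRC k) :
    rkB C.mF hk ∈ Cm hK (cF.ν C.mF.μ) hG :=
  rkB_mem_Cm (m := C.mF) Finset.univ (κ := fun i => bF (κ i)) (fun i => isRC_bF (hκ i))
    (fun i => C.kF.D.mono ((n i).mapDomain (H47.below F)) (3 * 0)) cF hk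

/-- **The output of block (C)**, from an eigenfunction of the automorphic kernel. -/
theorem out_of_kop [MeasurableSpace.CountablyGenerated C.mF.X]
    (a : HeightOneSpectrum (𝓞 E) → ℝ) (hκ : ∀ i, IsRC (κ i)) {c : ℝ} (hc : c ≠ 0)
    {Ψ : BInv PGL(2, F) C.mF.X} (hΨ : Ψ ≠ 0) (h : kop hK (cF.ν C.mF.μ) hG Ψ = (c : ℂ) • Ψ)
    (hT : ∀ v ∉ C.SF, v ≠ C.v0 → ∃ μ : ℂ, gopB C.mF (single v (C.kF.D.T v)) Ψ = μ • Ψ)
    (hsplit : ∀ w : HeightOneSpectrum (𝓞 E), C.Ok w →
      gopB C.mF (single (H47.below F w) (C.kF.D.T (H47.below F w))) Ψ = (evT a w : ℂ) • Ψ)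
    {u : ℂ} (hu : u ≠ 0) (hU : gopB C.mF (single C.v0 (C.kF.D.U C.v0)) Ψ = u • Ψ)
    (hk : ∀ (k : (Fin 1 → ℝ) → ℝ) (hk : IsRC (fun t => (k t : ℂ))), ∃ μ : ℂ,
      rkB C.mF hk Ψ = μ • Ψ)
    (h3 : ∀ (k : (Fin 3 → ℝ) → ℝ) (hk : IsRC (fun t => (k t : ℂ))),
      rkB C.mF (isRC_bF hk) Ψ = H9Z.hat (fun t : Fin 3 → ℝ => (k t : ℂ)) • Ψ) :
    ∃ mu : HeightOneSpectrum (𝓞 F) → ℝ,
      (∀ v ∉ C.SF, ¬ H82.NonSplit E v → ∀ w ∈ H82.above E v, mu v = a w) ∧
        COutE F (C.mF.e 0) C.SF C.v0 mu := by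
  have he := eS_of_kop C κ n cF hκ hc h
  have hmono : ∀ v ∉ C.SF, v ≠ C.v0 → gopB C.mF (C.kF.D.mono (Finsupp.single v 1) 0) Ψ =
      gopB C.mF (single v (C.kF.D.T v)) Ψ := by
    intro v hv h0
    have e1 : C.kF.D.mono (Finsupp.single v 1) 0 =
        gmul (single v (C.kF.D.T v)) (C.kF.D.mono 0 0) :=
      mono_single C.kF.D v (by rw [C.kF.D_S]; exact hv) (by rw [C.kF.D_w0]; exact h0)
    rw [e1, gopB_gmul, Module.End.mul_apply, he]
  refine out_of_eigen C a hΨ he ?_ ?_ hu ?_ ?_ ?_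
  · intro v hv h0
    obtain ⟨μ, hμ⟩ := hT v hv h0
    refine ⟨μ, ?_, by rw [hmono v hv h0, hμ]⟩
    exact eigenvalue_real (gopB_T_mem C κ n cF hκ hv h0)
      (isAdj_gopB_self C.mF cF (gadj_single_T C.kF hv h0)) hc hΨ h hμ
  · intro w hw
    have h1 : H47.below F w ∉ C.SF := fun h0 => hw.1 ((C.mem_SE w).mpr h0)
    have h2 : H47.below F w ≠ C.v0 := by
      intro h0
      apply hw.2
      rw [h0, H82.NonSplit, C.above_v0, Set.ncard_singleton]
    rw [hmono _ h1 h2]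
    exact hsplit w hw
  · have e1 := mono_one C.kF.D
    rw [C.kF.D_w0] at e1
    rw [e1, gopB_gmul, Module.End.mul_apply, he]
    exact hU
  · intro k hk'
    obtain ⟨μ, hμ⟩ := hk k hk'
    have h1 : μ.im = 0 := eigenvalue_real (rkB_mem C κ n cF hκ hk')
      (isAdj_rkB_self C.mF cF hk' fun t => Complex.conj_ofReal _) hc hΨ h hμ
    refine ⟨μ.re, ?_⟩
    have h2 : ((μ.re : ℝ) : ℂ) = μ := Complex.ext rfl (by simp [h1])
    rw [h2]
    exact congrArg Subtype.val hμ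
  · intro k hk'
    exact congrArg Subtype.val (h3 k hk')

end Kop

end Fermat.Agent.H44Z
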