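import Fermat.Agent.H9ZDen
import Fermat.Agent.H74C3c
import Fermat.Agent.H75Y4

/-!
# Radial eigenfunctions on `(H3)^J` (helper9): the equivalences and closure properties

`IsEig Φ`: `Φ` is locally integrable and `Rk κ Φ = hat κ • Φ` for every kernel `κ`.

* `isEig_of_lap`: class `C^2`, `Lap = -1` in every variable ⟹ `IsEig`;
* `IsEig.contDiffOn`, `IsEig.lap`: the converse (`C^∞`);
* `isEig_of_countable`, `IsEig.continuous`, `IsEig.eig1`;
* closure: sums, scalars, isometries, permutations of the variables, limits, series, integrals,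
  products of functions of one variable.
-/

set_option autoImplicit false
set_option linter.unusedSectionVars false

noncomputable section

open MeasureTheory Set Filter Topology
open scoped Real ContDiff

namespace Fermat.Agent.H9Z

open Fermat.Agent.H5Z (chv Rk continuous_chv)
open Fermat.Agent.H74.C3 (pt ptv Lap UpJ ptv_self mem_UpJ)

variable {J : Type*} [Fintype J]

/-- Every kernel acts by `hat`. -/
def IsEig (Φ : (J → H3) → ℂ) : Prop :=
  LocallyIntegrable Φ ∧ ∀ κ, Ker κ → ∀ w, Rk κ Φ w = hat κ * Φ w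

theorem hatv_eq_hat (κ : (J → ℝ) → ℂ) : H74.C3.hatv κ = hat κ := rfl

theorem hatK_eq_hat1 (k : ℝ → ℂ) : H75Y.hatK k = hat1 k := rfl

lemma continuous_of_contDiffOn {Φ : (J → H3) → ℂ} {n : ℕ∞}
    (h : ContDiffOn ℝ n (fun p => Φ (ptv p)) (UpJ J)) : Continuous Φ := by
  have hc : Continuous fun w : J → H3 => (fun j => ((w j).z, (w j).y) : J → ℂ × ℝ) :=
    continuous_pi fun j => ((H3.continuous_z.comp (continuous_apply j)).prodMk
      (H3.continuous_y.comp (continuous_apply j)))
  have h1 := h.continuousOn.comp_continuous hc mem_UpJ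
  have e : ((fun p => Φ (ptv p)) ∘ fun (w : J → H3) (j : J) => ((w j).z, (w j).y)) = Φ := by
    funext w
    simp only [Function.comp, ptv_self]
  rwa [e] at h1

lemma IsEig.continuous {Φ : (J → H3) → ℂ} (h : IsEig Φ) : Continuous Φ := by
  have hK : Ker (tens fun _ : J => apC 0) := ker_tens fun _ => ker1_apC 0
  have h2 : Rk (tens fun _ : J => apC 0) Φ = Φ := by
    funext w
    rw [h.2 _ hK w, hat_tens]
    simp [hat1_apC]
  exact h2 ▸ hK.continuous_Rk h.1

theorem isEig_of_continuous {Φ : (J → H3) → ℂ} (hc : Continuous Φ)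
    (h : ∀ κ, Ker κ → ∀ w, Rk κ Φ w = hat κ * Φ w) : IsEig Φ := ⟨hc.locallyIntegrable, h⟩

section

variable [DecidableEq J]

theorem isEig_of_eig1 {Φ : (J → H3) → ℂ} (hc : Continuous Φ)
    (h : ∀ (j : J) (w : J → H3), Eig1 (fun u => Φ (Function.update w j u))) : IsEig Φ :=
  ⟨hc.locallyIntegrable, fun _ hκ w => R_eq_hat_mul hc h hκ w⟩

theorem isEig_of_countable {Φ : (J → H3) → ℂ} (hΦ : LocallyIntegrable Φ)
    (h : ∀ n m w, Rk (P n m) Φ w = hat (P n m) * Φ w) : IsEig Φ :=
  ⟨hΦ, (eig_of_countable hΦ h).2.1⟩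

theorem IsEig.eig1 {Φ : (J → H3) → ℂ} (h : IsEig Φ) (j : J) (w : J → H3) :
    Eig1 (fun u => Φ (Function.update w j u)) :=
  (eig_of_countable h.1 fun n m w => h.2 _ (ker_P n m) w).2.2 j w

end

/-- One variable: the forward theorem in the form `Eig1`. -/
theorem eig1_of_lap {F : H3 → ℂ} (hF : H75Y.CC 2 F) (hL : ∀ w, Lap F w = -F w) : Eig1 F := by
  intro k hk x
  obtain ⟨T, hT⟩ := hk.supp
  exact H75Y.forward' (R := max (T + 1) 1) hk.cont
    (fun t ht => hT t ((le_max_right _ _).trans ht)
      (lt_of_lt_of_le (lt_add_one T) ((le_max_left _ _).trans ht))) hF hL x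

section

open Classical

/-- **Forward**: `C^2` and `Lap = -1` in every variable imply `IsEig`. -/
theorem isEig_of_lap {Φ : (J → H3) → ℂ} (h2 : ContDiffOn ℝ 2 (fun p => Φ (ptv p)) (UpJ J))
    (hL : ∀ (j : J) (w : J → H3), Lap (fun v => Φ (Function.update w j v)) (w j) = -Φ w) :
    IsEig Φ := by
  refine isEig_of_eig1 (continuous_of_contDiffOn (n := 2) (by exact_mod_cast h2)) fun j w => ?_
  refine eig1_of_lap ?_ fun u => ?_
  · set c : J → ℂ × ℝ := fun i => ((w i).z, (w i).y) with hc
    have e : (fun p : ℂ × ℝ => Φ (Function.update w j (pt p.1 p.2))) =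
        (fun p => Φ (ptv p)) ∘ fun p : ℂ × ℝ => Function.update c j p := by
      funext p
      simp only [Function.comp]
      congr 1
      funext i
      by_cases hi : i = j
      · subst hi; simp [ptv]
      · rw [Function.update_of_ne hi]
        simp [ptv, hi, hc]
    show ContDiffOn ℝ 2 (fun p : ℂ × ℝ => Φ (Function.update w j (pt p.1 p.2))) {p | 0 < p.2}
    rw [e]
    refine h2.comp ?_ ?_
    · have : ContDiff ℝ 2 fun p : ℂ × ℝ => Function.update c j p := by
        rw [contDiff_pi]
        intro i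
        by_cases hi : i = j
        · subst hi; simp only [Function.update_self]; exact contDiff_id
        · simp only [Function.update_of_ne hi]; exact contDiff_const
      exact this.contDiffOn
    · intro p hp i
      show Function.update c j p i ∈ H74.C3.Up
      by_cases hi : i = j
      · subst hi; rw [Function.update_self]; exact hp
      · rw [Function.update_of_ne hi]; exact (w i).pos
  · have := hL j (Function.update w j u)
    simpa only [Function.update_idem, Function.update_self] using this

/-- **Backward** -/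
theorem IsEig.lap_and {Φ : (J → H3) → ℂ} (h : IsEig Φ) :
    ContDiffOn ℝ ∞ (fun p => Φ (ptv p)) (UpJ J) ∧
      ∀ (j : J) (w : J → H3), Lap (fun v => Φ (Function.update w j v)) (w j) = -Φ w := by
  refine H74.C3.backward_real (H74.C3.locInt_of_continuous h.continuous) fun κs h1 h2 w => ?_
  have e : (fun u : J → ℝ => ((∏ j, κs j (u j) : ℝ) : ℂ)) = tens fun j u => ((κs j u : ℝ) : ℂ) := by
    funext u; simp [tens]
  rw [e, hatv_eq_hat]
  refine h.2 _ (ker_tens fun j => ?_) w
  obtain ⟨R, hR⟩ := h2 j
  exact ⟨(Complex.continuous_ofReal.comp (h1 j).continuous).continuousOn,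
    R, fun t _ ht => by rw [hR t ht, Complex.ofReal_zero]⟩

end

theorem IsEig.contDiffOn {Φ : (J → H3) → ℂ} (h : IsEig Φ) :
    ContDiffOn ℝ ∞ (fun p => Φ (ptv p)) (UpJ J) := h.lap_and.1

theorem IsEig.lap [DecidableEq J] {Φ : (J → H3) → ℂ} (h : IsEig Φ) (j : J) (w : J → H3) :
    Lap (fun v => Φ (Function.update w j v)) (w j) = -Φ w := by
  have := h.lap_and.2 j w
  convert this

/-! ### Closure properties -/

lemma IsEig.zero : IsEig (fun _ : J → H3 => (0 : ℂ)) :=
  ⟨continuous_const.locallyIntegrable, fun κ _ w => by simp [Rk]⟩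

lemma IsEig.add {Φ Ψ : (J → H3) → ℂ} (h : IsEig Φ) (h' : IsEig Ψ) :
    IsEig (fun w => Φ w + Ψ w) := by
  refine ⟨h.1.add h'.1, fun κ hκ w => ?_⟩
  have : Rk κ (fun w => Φ w + Ψ w) w = Rk κ Φ w + Rk κ Ψ w := by
    simp only [Rk, mul_add]
    exact integral_add (hκ.integrable w h.1) (hκ.integrable w h'.1)
  rw [this, h.2 κ hκ w, h'.2 κ hκ w, mul_add]

lemma IsEig.const_mul {Φ : (J → H3) → ℂ} (h : IsEig Φ) (c : ℂ) : IsEig (fun w => c * Φ w) := by
  refine isEig_of_continuous (continuous_const.mul h.continuous) fun κ hκ w => ?_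
  have : Rk κ (fun w => c * Φ w) w = c * Rk κ Φ w := by
    simp only [Rk, mul_left_comm _ c]
    exact integral_const_mul _ _
  rw [this, h.2 κ hκ w]
  ring

lemma IsEig.sum {α : Type*} (s : Finset α) {Φ : α → (J → H3) → ℂ} (h : ∀ a ∈ s, IsEig (Φ a)) :
    IsEig (fun w => ∑ a ∈ s, Φ a w) := by
  classical
  induction s using Finset.induction_on with
  | empty => simpa using IsEig.zero
  | insert a s ha ih =>
    simp only [Finset.sum_insert ha]
    exact (h a (Finset.mem_insert_self _ _)).add
      (ih fun b hb => h b (Finset.mem_insert_of_mem hb))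

/-- Isometries. -/
lemma IsEig.comp_smul {Φ : (J → H3) → ℂ} (h : IsEig Φ) (g : J → GL (Fin 2) ℂ) :
    IsEig (fun w => Φ (fun j => g j • w j)) := by
  have hcont : Continuous fun w : J → H3 => (fun j => g j • w j) :=
    continuous_pi fun j => (H3.continuous_smul_const (g j)).comp (continuous_apply j)
  refine isEig_of_continuous (h.continuous.comp hcont) fun κ hκ w => ?_
  rw [← h.2 κ hκ]
  have hmp := H3.measurePreserving_smul_pi g
  have hme : MeasurableEmbedding (fun x : J → H3 => fun j => g j • x j) :=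
    (Homeomorph.piCongrRight fun j => Homeomorph.smul (g j)).measurableEmbedding
  rw [Rk, Rk, ← hmp.integral_comp hme (fun x => κ (chv (fun j => g j • w j) x) * Φ x)]
  congr 1
  funext x
  congr 2
  funext j
  exact (H3.ch_smul (g j) (w j) (x j)).symm

/-- Permutations of the variables. -/
lemma IsEig.perm {Φ : (J → H3) → ℂ} (h : IsEig Φ) (σ : Equiv.Perm J) :
    IsEig (fun w => Φ (fun j => w (σ j))) := by
  have hfun : (fun x : J → H3 => fun j => x (σ j)) =
      (MeasurableEquiv.piCongrLeft (fun _ => H3) σ.symm) := by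
    funext x j
    have := Equiv.piCongrLeft_apply_apply (P := fun _ : J => H3) σ.symm x (σ j)
    rw [Equiv.symm_apply_apply] at this
    exact this.symm
  have hmp : MeasurePreserving (fun x : J → H3 => fun j => x (σ j)) volume volume := by
    rw [hfun]
    exact volume_measurePreserving_piCongrLeft (fun _ => H3) σ.symm
  have hme : MeasurableEmbedding (fun x : J → H3 => fun j => x (σ j)) := by
    rw [hfun]
    exact (MeasurableEquiv.piCongrLeft (fun _ => H3) σ.symm).measurableEmbedding
  have hcont : Continuous fun w : J → H3 => (fun j => w (σ j)) :=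
    continuous_pi fun j => continuous_apply (σ j)
  have hcR : Continuous fun t : J → ℝ => (fun j => t (σ.symm j)) :=
    continuous_pi fun j => continuous_apply (σ.symm j)
  have key : ∀ (κ : (J → ℝ) → ℂ) (Ψ : (J → H3) → ℂ) (w : J → H3),
      Rk κ (fun w => Ψ (fun j => w (σ j))) w =
        Rk (fun t => κ fun j => t (σ.symm j)) Ψ (fun j => w (σ j)) := by
    intro κ Ψ w
    rw [Rk, Rk, ← hmp.integral_comp hme
      (fun y => κ (fun j => chv (fun j => w (σ j)) y (σ.symm j)) * Ψ y)]
    congr 1
    funext x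
    simp only [H5Z.chv, Equiv.apply_symm_apply]
    rfl
  refine isEig_of_continuous (h.continuous.comp hcont) fun κ hκ w => ?_
  have hκ' : Ker (fun t : J → ℝ => κ fun j => t (σ.symm j)) := by
    refine ⟨hκ.cont.comp hcR.continuousOn fun t ht j => ht _, ?_⟩
    obtain ⟨T, hT⟩ := hκ.supp
    refine ⟨T, fun t ht ⟨j, hj⟩ => hT _ (fun i => ht _) ⟨σ j, ?_⟩⟩
    simpa using hj
  rw [key, h.2 _ hκ']
  congr 1
  have h1 := key κ (fun w => ∏ j, ((w j).y : ℂ)) (fun _ => H3.base)
  simp only [hat]
  rw [← h1]
  congr 1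
  funext w
  exact Fintype.prod_equiv σ _ _ fun j => rfl

/-- **Series**: a series of eigenfunctions which converges normally on compact sets. -/
theorem IsEig.hasSum {α : Type*} [Countable α] {Φ : α → (J → H3) → ℂ} {Ψ : (J → H3) → ℂ}
    (h : ∀ a, IsEig (Φ a)) (hs : ∀ w, HasSum (fun a => Φ a w) (Ψ w))
    (hb : ∀ K : Set (J → H3), IsCompact K → ∃ u : α → ℝ, Summable u ∧ ∀ a, ∀ w ∈ K, ‖Φ a w‖ ≤ u a) :
    IsEig Ψ := by
  have hΨ : Ψ = fun w => ∑' a, Φ a w := funext fun w => (hs w).tsum_eq.symm
  have hc : Continuous Ψ := by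
    rw [continuous_iff_continuousAt]
    intro w
    obtain ⟨K, hK, hwK⟩ := exists_compact_mem_nhds w
    obtain ⟨u, hu, hb⟩ := hb K hK
    have h1 : ContinuousOn Ψ K := by
      rw [hΨ]
      exact continuousOn_tsum (fun a => (h a).continuous.continuousOn) hu hb
    exact h1.continuousAt hwK
  refine isEig_of_continuous hc fun κ hκ w => ?_
  obtain ⟨T, hT⟩ := hκ.supp
  obtain ⟨M, hM0, hM⟩ := hκ.exists_bound
  have hK := isCompact_pball w T
  obtain ⟨u, hu, hb⟩ := hb _ hK
  set F : α → (J → H3) → ℂ := fun a w' => κ (chv w w') * Φ a w' with hF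
  have hFi : ∀ a, Integrable (F a) := fun a => hκ.integrable w (h a).1
  have hzero : ∀ a, ∀ w', w' ∉ pball w T → F a w' = 0 := by
    intro a w' hw'
    simp only [pball, mem_ofPred_eq, not_forall, not_le] at hw'
    simp only [hF, hT _ (one_le_chv _ _) hw', zero_mul]
  have hFb : ∀ a w', ‖F a w'‖ ≤ (pball w T).indicator (fun _ => M * |u a|) w' := by
    intro a w'
    by_cases hw' : w' ∈ pball w T
    · rw [indicator_of_mem hw', norm_mul]
      exact mul_le_mul (hM _ (one_le_chv _ _)) ((hb a w' hw').trans (le_abs_self _))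
        (norm_nonneg _) hM0
    · rw [indicator_of_notMem hw', hzero a w' hw', norm_zero]
  have hsum : Summable fun a => ∫ w', ‖F a w'‖ := by
    refine Summable.of_nonneg_of_le (fun a => integral_nonneg fun _ => norm_nonneg _)
      (f := fun a => (M * |u a|) * (volume : Measure (J → H3)).real (pball w T)) (fun a => ?_) ?_
    · calc ∫ w', ‖F a w'‖ ≤ ∫ w', (pball w T).indicator (fun _ => M * |u a|) w' := by
            refine integral_mono (hFi a).norm ?_ (hFb a)
            rw [integrable_indicator_iff hK.measurableSet]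
            exact integrableOn_const hK.measure_ne_top
        _ = (M * |u a|) * (volume : Measure (J → H3)).real (pball w T) := by
            rw [integral_indicator hK.measurableSet, setIntegral_const, smul_eq_mul, mul_comm]
    · exact (hu.abs.mul_left M).mul_right _
  have e1 : Rk κ Ψ w = ∑' a, ∫ w', F a w' := by
    rw [integral_tsum_of_summable_integral_norm hFi hsum, Rk]
    congr 1
    funext w'
    rw [hF]
    simp only
    rw [tsum_mul_left, (hs w').tsum_eq]
  have e2 : ∀ a, ∫ w', F a w' = hat κ * Φ a w := fun a => (h a).2 κ hκ w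
  rw [e1]
  simp only [e2]
  rw [tsum_mul_left, (hs w).tsum_eq]

/-- **Integrals** of eigenfunctions depending on a parameter. -/
theorem IsEig.integral {S : Type*} [MeasurableSpace S] {μ : Measure S} [SFinite μ]
    {Φ : S → (J → H3) → ℂ} (h : ∀ s, IsEig (Φ s))
    (hm : AEStronglyMeasurable (fun p : S × (J → H3) => Φ p.1 p.2) (μ.prod volume))
    (hms : ∀ w, AEStronglyMeasurable (fun s => Φ s w) μ)
    (hb : ∀ K : Set (J → H3), IsCompact K → ∃ u : S → ℝ, Integrable u μ ∧
      ∀ s, ∀ w ∈ K, ‖Φ s w‖ ≤ u s) :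
    IsEig (fun w => ∫ s, Φ s w ∂μ) := by
  have hc : Continuous fun w => ∫ s, Φ s w ∂μ := by
    rw [continuous_iff_continuousAt]
    intro w
    obtain ⟨K, hK, hwK⟩ := exists_compact_mem_nhds w
    obtain ⟨u, hu, hb⟩ := hb K hK
    refine continuousAt_of_dominated (bound := u) (Eventually.of_forall hms) ?_ hu
      (Eventually.of_forall fun s => (h s).continuous.continuousAt)
    filter_upwards [hwK] with w' hw'
    exact Eventually.of_forall fun s => hb s w' hw'
  refine isEig_of_continuous hc fun κ hκ w => ?_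
  obtain ⟨T, hT⟩ := hκ.supp
  obtain ⟨M, hM0, hM⟩ := hκ.exists_bound
  have hK := isCompact_pball w T
  obtain ⟨u, hu, hb⟩ := hb _ hK
  have hint : Integrable (Function.uncurry fun (w' : J → H3) (s : S) => κ (chv w w') * Φ s w')
      ((volume : Measure (J → H3)).prod μ) := by
    have hKi : Integrable ((pball w T).indicator fun _ : J → H3 => M) volume := by
      rw [integrable_indicator_iff hK.measurableSet]
      exact integrableOn_const hK.measure_ne_top
    refine (hKi.mul_prod hu.norm).mono ?_ (Eventually.of_forall fun p => ?_)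
    · refine AEStronglyMeasurable.mul ?_ ?_
      · exact ((hκ.continuous_right w).aestronglyMeasurable).comp_fst
      · exact hm.prod_swap
    · rcases p with ⟨w', s⟩
      simp only [Function.uncurry]
      by_cases hw' : w' ∈ pball w T
      · rw [indicator_of_mem hw', norm_mul, norm_mul, norm_norm, Real.norm_of_nonneg hM0]
        exact mul_le_mul (hM _ (one_le_chv _ _)) ((hb s w' hw').trans (le_abs_self _))
          (norm_nonneg _) hM0
      · rw [indicator_of_notMem hw', zero_mul, norm_zero]
        simp only [pball, mem_ofPred_eq, not_forall, not_le] at hw'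
        rw [hT _ (one_le_chv _ _) hw', zero_mul, norm_zero]
  calc Rk κ (fun w => ∫ s, Φ s w ∂μ) w = ∫ w' : J → H3, (∫ s, κ (chv w w') * Φ s w' ∂μ) := by
        simp only [Rk, integral_const_mul]
    _ = ∫ s, (∫ w' : J → H3, κ (chv w w') * Φ s w') ∂μ := integral_integral_swap hint
    _ = ∫ s, hat κ * Φ s w ∂μ := by
        congr 1
        funext s
        exact (h s).2 κ hκ w
    _ = hat κ * ∫ s, Φ s w ∂μ := integral_const_mul _ _

/-! ### Products of functions of one variable -/

lemma Eig1.const_mul {f : H3 → ℂ} (h : Eig1 f) (c : ℂ) : Eig1 (fun u => c * f u) := by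
  intro k hk x
  have : R1 k (fun u => c * f u) x = c * R1 k f x := by
    simp only [R1, mul_left_comm _ c]
    exact integral_const_mul _ _
  rw [this, h k hk x]
  ring

/-- **Products**: `∏ f_j(w_j)` with `f_j` continuous radial eigenfunctions. -/
theorem isEig_prod {f : J → H3 → ℂ} (hc : ∀ j, Continuous (f j)) (h : ∀ j, Eig1 (f j)) :
    IsEig (fun w => ∏ j, f j (w j)) := by
  classical
  refine isEig_of_eig1 (continuous_finsetProd _ fun j _ => (hc j).comp (continuous_apply j))
    fun j w => ?_
  have e : (fun u => ∏ i, f i (Function.update w j u i)) =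
      fun u => (∏ i ∈ ({j}ᶜ : Finset J), f i (w i)) * f j u := by
    funext u
    rw [Fintype.prod_eq_mul_prod_compl j, Function.update_self, mul_comm]
    congr 1
    refine Finset.prod_congr rfl fun i hi => ?_
    have hij : i ≠ j := by simpa using hi
    rw [Function.update_of_ne hij]
  rw [e]
  exact (h j).const_mul _

/-- Products, with the Laplace equation as hypothesis. -/
theorem isEig_prod_of_lap {f : J → H3 → ℂ} (hc : ∀ j, H75Y.CC 2 (f j))
    (h : ∀ j w, Lap (f j) w = -f j w) : IsEig (fun w => ∏ j, f j (w j)) :=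
  isEig_prod (fun j => H75Y.continuous_of_CC (hc j)) fun j => eig1_of_lap (hc j) (h j)

end Fermat.Agent.H9Z
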