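import Fermat.Agent.H7ZTyp
import Fermat.Agent.H9ZEig
import Fermat.Agent.H22ZFEf
import Fermat.Agent.H51ZDisc

/-!
# Bounded eigenforms on `X(K)`: Whittaker function, positivity lemma, nonvanishing (helper7, C19)

`IsCForm m S w₀ Ty lam f`: a bounded `PGL₂(K)`-invariant function, eigenfunction of all radial
kernels with the trivial spectral parameter, typed at `S`, Hecke eigenfunction outside `S ∪ {w₀}`.

* `IsCForm.exists_kappa` : the Whittaker function;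
* `IsCForm.act_eq` : **positivity lemma** `f (s x) = f x` if the eigenvalues are `s`-invariant;
* `IsCForm.base_ne_zero` : the coefficient at the base point is not zero;
* `heckeEq_of_lop`, `uEq_of_lop` : from the operators of helper51.
-/

set_option autoImplicit false
set_option linter.unusedSectionVars false

open IsDedekindDomain HeightOneSpectrum WithZero NumberField Matrix MeasureTheory
open scoped MatrixGroups

noncomputable section

namespace Fermat.Agent.H7.Z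

open Fermat.Agent.H59XF Fermat.Agent.H59D Fermat.Agent.H76U
open Fermat.Agent.H51Z (bm)

section Ops

variable {K : Type*} [Field K] [NumberField K] {L : LevelFam PGL(2, K) (HeightOneSpectrum (𝓞 K))}
  {w : HeightOneSpectrum (𝓞 K)}

theorem mk_bm_eq (a : Kˣ) (b : K) :
    (ProjGenLinGroup.mk (bm a b) : PGL(2, K)) = (borP K).n b * (borP K).d a := by
  rw [borP_n, borP_d, ← map_mul, H51Z.bm_mul, one_mul]
  congr 2
  simp

theorem mk_dm_eq (a : Kˣ) :
    (ProjGenLinGroup.mk (H51Z.dm a) : PGL(2, K)) = ((borP K).d a)⁻¹ := by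
  rw [H51Z.mk_dm, ← (borP K).d_inv, borP_d]

theorem bm_ne_dm {ϖ : Kˣ} (hϖ : w.valuation K (ϖ : K) = exp (-(1 : ℤ))) {b : K} :
    (ProjGenLinGroup.mk (bm ϖ b) : PGL(2, K)) ≠ ProjGenLinGroup.mk (H51Z.dm ϖ) := by
  intro h
  rw [ProjGenLinGroup.mk_eq_mk_iff] at h
  obtain ⟨u, hu⟩ := h
  have h1 := congrArg (fun g : GL (Fin 2) K => g 0 0) hu
  have h2 := congrArg (fun g : GL (Fin 2) K => g 1 1) hu
  simp only [H51Z.scalar_mul_apply, H51Z.bm_00, H51Z.bm_11, H51Z.dm_00, H51Z.dm_11] at h1 h2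
  rw [one_mul] at h2
  rw [h2] at h1
  have h3 := congrArg (w.valuation K) h1
  rw [map_mul, hϖ, map_one, ← exp_add, ← exp_zero, exp_inj] at h3
  omega

theorem mk_bm_inj {ϖ : Kˣ} {b b' : K}
    (h : (ProjGenLinGroup.mk (bm ϖ b) : PGL(2, K)) = ProjGenLinGroup.mk (bm ϖ b')) : b = b' := by
  rw [ProjGenLinGroup.mk_eq_mk_iff] at h
  obtain ⟨u, hu⟩ := h
  have h1 := congrArg (fun g : GL (Fin 2) K => g 0 1) hu
  have h2 := congrArg (fun g : GL (Fin 2) K => g 1 1) hu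
  simp only [H51Z.scalar_mul_apply, H51Z.bm_01, H51Z.bm_11] at h1 h2
  rw [one_mul] at h2
  rw [h2, mul_one] at h1
  exact h1

theorem upd_inst {G ι : Type*} [Group G] {L : LevelFam G ι} (d d' : DecidableEq ι) (x : XF L)
    (i : ι) (a : G ⧸ L.U i) : @XF.upd _ _ _ _ d x i a = @XF.upd _ _ _ _ d' x i a := by
  congr 1
  exact Subsingleton.elim _ _

/-- The Hecke equation from the operator `T_w` of helper51. -/
theorem heckeEq_of_lop [DecidableEq (HeightOneSpectrum (𝓞 K))] {φ : XF L → ℂ} {lam : ℂ}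
    (hDC : H51Z.DC (L.U w) (H51Z.cellT (w.valuation K)))
    (hL : L.U w = H51Z.U0 (w.valuation K))
    (h : H51Z.lop w (H51Z.lind (H51Z.cellT (w.valuation K)) hDC) φ = lam • φ)
    {ϖ : Kˣ} (hϖ : w.valuation K (ϖ : K) = exp (-(1 : ℤ))) {R : Finset K}
    (hR : H51Z.IsReps (w.valuation K) 1 R) :
    HeckeEq (borP K) L φ w ϖ R lam := by
  classical
  intro y g hg
  have h1 := congrFun h y
  rw [H51Z.lop_lind w hDC ((H51Z.isCosetReps_repsT hϖ hR).of_eq hL) φ y g hg, Pi.smul_apply,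
    smul_eq_mul] at h1
  rw [← h1, H51Z.repsT, Finset.sum_insert, Finset.sum_image, add_comm]
  · congr 1
    · refine Finset.sum_congr rfl fun b _ => ?_
      rw [mk_bm_eq, mul_assoc, upd_inst]
    · rw [mk_dm_eq, upd_inst]
  · intro b hb b' hb' hbb
    exact mk_bm_inj hbb
  · intro hmem
    obtain ⟨b, hb, hbb⟩ := Finset.mem_image.1 hmem
    exact bm_ne_dm hϖ hbb

/-- The `U`-equation from the operator `U_w` of helper51. -/
theorem uEq_of_lop [DecidableEq (HeightOneSpectrum (𝓞 K))] {φ : XF L → ℂ} {u : ℂ}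
    (hL : L.U w = H51Z.Iw (w.valuation K))
    (h : H51Z.lop w (H51Z.lcast hL (H51Z.Uker (H51Z.disc_nf w) 1)) φ = u • φ)
    {ϖ : Kˣ} (hϖ : w.valuation K (ϖ : K) = exp (-(1 : ℤ))) {R : Finset K}
    (hR : H51Z.IsReps (w.valuation K) 1 R) :
    UEq (borP K) L φ w ϖ R u := by
  classical
  intro y g hg
  have h1 := congrFun h y
  rw [H51Z.lop_Uker hL (H51Z.disc_nf w) 1 (by rw [hϖ]; simp) hR φ y g hg, Pi.smul_apply,
    smul_eq_mul] at h1
  rw [← h1]
  refine Finset.sum_congr rfl fun b _ => ?_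
  rw [mk_bm_eq, mul_assoc, upd_inst]

theorem isReps_map {s : K ≃+* K} {w w' : HeightOneSpectrum (𝓞 K)}
    (h : ∀ x, w'.valuation K (s x) = w.valuation K x) {R : Finset K}
    (hR : H51Z.IsReps (w.valuation K) 1 R) :
    H51Z.IsReps (w'.valuation K) 1 (R.map s.toEquiv.toEmbedding) where
  le_one b hb := by
    obtain ⟨c, hc, rfl⟩ := Finset.mem_map.1 hb
    exact (h c).le.trans (hR.le_one c hc)
  exists_mem x hx := by
    obtain ⟨z, rfl⟩ := s.surjective x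
    rw [h] at hx
    obtain ⟨b, hb, hb'⟩ := hR.exists_mem z hx
    refine ⟨s b, Finset.mem_map.2 ⟨b, hb, rfl⟩, ?_⟩
    rw [← map_sub, h]
    exact hb'
  inj b hb b' hb' hbb := by
    obtain ⟨c, hc, rfl⟩ := Finset.mem_map.1 hb
    obtain ⟨c', hc', rfl⟩ := Finset.mem_map.1 hb'
    have h1 : s.toEquiv.toEmbedding c - s.toEquiv.toEmbedding c' = s (c - c') := by
      rw [map_sub]; rfl
    rw [h1, h] at hbb
    rw [hR.inj c hc c' hc' hbb]

end Ops

section Form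

variable {K : Type*} [Field K] [NumberField K] [DecidableEq (HeightOneSpectrum (𝓞 K))]
  {J : Type*} [Fintype J]

/-- Bounded eigenforms on `X(K)`. -/
structure IsCForm (m : Model K J) (S : Set (HeightOneSpectrum (𝓞 K)))
    (w₀ : HeightOneSpectrum (𝓞 K)) (Ty : ∀ w : HeightOneSpectrum (𝓞 K), Typ (m.L.fam.U w))
    (lam : HeightOneSpectrum (𝓞 K) → ℂ) (f : m.X → ℂ) : Prop where
  /-- invariance -/
  inv : ∀ (g : PGL(2, K)) (x : m.X), f (g • x) = f x
  /-- boundedness -/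
  bdd : ∃ M : ℝ, ∀ x, ‖f x‖ ≤ M
  /-- measurability -/
  meas : ∀ y : XF m.L.fam, Measurable fun τ : J → H3 => f (τ, y)
  /-- radial kernels -/
  rad : ∀ κ : (J → ℝ) → ℂ, H9Z.Ker κ → ∀ (y : XF m.L.fam) (τ : J → H3),
    H5Z.Rk κ (fun v => f (v, y)) τ = H9Z.hat κ * f (τ, y)
  /-- Hecke operators -/
  hecke : ∀ w ∉ S, w ≠ w₀ → ∀ (ϖ : Kˣ), w.valuation K (ϖ : K) = exp (-(1 : ℤ)) →
    ∀ R : Finset K, H51Z.IsReps (w.valuation K) 1 R → ∀ τ : J → H3,
      HeckeEq (borP K) m.L.fam (fun y => f (τ, y)) w ϖ R (lam w)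
  /-- types -/
  typ : ∀ w ∈ S, ∀ τ : J → H3, TypedAt m.L (Ty w) (fun y => f (τ, y))

namespace IsCForm

variable {m : Model K J} {S : Set (HeightOneSpectrum (𝓞 K))} {w₀ : HeightOneSpectrum (𝓞 K)}
  {Ty : ∀ w : HeightOneSpectrum (𝓞 K), Typ (m.L.fam.U w)}
  {lam : HeightOneSpectrum (𝓞 K) → ℂ} {f : m.X → ℂ}

theorem isEig (h : IsCForm m S w₀ Ty lam f) (y : XF m.L.fam) :
    H9Z.IsEig fun τ : J → H3 => f (τ, y) := by
  refine ⟨?_, fun κ hκ w => h.rad κ hκ y w⟩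
  obtain ⟨M, hM⟩ := h.bdd
  refine ((locallyIntegrable_const (M : ℝ) : LocallyIntegrable (fun _ : J → H3 => M))).mono
    (h.meas y).aestronglyMeasurable (Filter.Eventually.of_forall fun τ => ?_)
  exact (hM (τ, y)).trans (le_abs_self M)

variable [Nonempty J]

/-- The Whittaker function of a bounded eigenform. -/
theorem exists_kappa (h : IsCForm m S w₀ Ty lam f) :
    ∃ κ : XF m.L.fam → ℂ, H19W.IsWM m (fun u => H22Z.K0 (4 * Real.pi * u)) f κ := by
  classical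
  refine H19W.exists_kappa m (fun u hu => H22Z.k0_ne hu) (H22Z.feThm J) f h.inv fun y => ?_
  obtain ⟨M, hM⟩ := h.bdd
  refine ⟨M, ⟨?_, ?_, fun τ => hM (τ, y)⟩⟩
  · exact (h.isEig y).contDiffOn.of_le (WithTop.coe_le_coe.2 (le_top : (2 : ℕ∞) ≤ ⊤))
  · exact fun j w => (h.isEig y).lap j w

theorem heckeEq (h : IsCForm m S w₀ Ty lam f) {κ : XF m.L.fam → ℂ}
    (hW : H19W.IsWM m (fun u => H22Z.K0 (4 * Real.pi * u)) f κ) {w : HeightOneSpectrum (𝓞 K)}
    (hw : w ∉ S) (hw' : w ≠ w₀) {ϖ : Kˣ} (hϖ : w.valuation K (ϖ : K) = exp (-(1 : ℤ)))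
    {R : Finset K} (hR : H51Z.IsReps (w.valuation K) 1 R) :
    HeckeEq (borP K) m.L.fam κ w ϖ R (lam w) :=
  heckeEq_of (ω := fun u => u * H22Z.K0 (4 * Real.pi * u))
    (fun _ hu => mul_ne_zero hu.ne' (H22Z.k0_ne hu)) (isW_of hW)
    fun τ => h.hecke w hw hw' ϖ hϖ R hR τ

theorem typedAt (h : IsCForm m S w₀ Ty lam f) {κ : XF m.L.fam → ℂ}
    (hW : H19W.IsWM m (fun u => H22Z.K0 (4 * Real.pi * u)) f κ) {w : HeightOneSpectrum (𝓞 K)}
    (hw : w ∈ S) : TypedAt m.L (Ty w) κ := by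
  intro g y
  have h1 := H19W.IsW.operator (T := Unit) (ω := fun u => u * H22Z.K0 (4 * Real.pi * u))
    (fun u hu => mul_ne_zero hu.ne' (H22Z.k0_ne hu)) (dY_one (borP K) m.L.fam)
    (isW_of hW) (isW_of hW) {()} (fun _ => (Ty w).chi g) (fun _ => y)
    (XF.upd y w ((Ty w).rt g (y w)))
    (fun x => by rw [Finset.sum_singleton]; exact h.typ w hw x g y)
  rwa [Finset.sum_singleton] at h1

theorem whit (h : IsCForm m S w₀ Ty lam f) {κ : XF m.L.fam → ℂ}
    (hW : H19W.IsWM m (fun u => H22Z.K0 (4 * Real.pi * u)) f κ) : Whit (borP K) m.L.fam κ :=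
  whit_of (fun _ hu => H22Z.k0_ne hu) hW h.inv

/-- **POSITIVITY LEMMA.** -/
theorem act_eq (h : IsCForm m S w₀ Ty lam f) (a : AutData m) (hw₀ : a.σ w₀ = w₀)
    (hgood : ∀ u : Kˣ, w₀.valuation K (u : K) = 1 → (borP K).d u ∈ m.L.U w₀)
    (hmax : ∀ w ∉ S, w ≠ w₀ → m.L.U w = U0 w) (hur : ∀ w ∉ S, w ≠ w₀ → Unram w) (hS : ∀ w, w ∈ S ↔ a.σ w ∈ S)
    (hlam : ∀ w, lam (a.σ w) = lam w)
    (T : HeightOneSpectrum (𝓞 K) → TD K) (hT : ∀ w ∈ S, StdTD w (T w))
    (hTy : ∀ w ∈ S, TyOK (L := m.L) (T w) (Ty w))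
    (hTB : ∀ w ∈ S, ∀ b ∈ (T w).B, a.s b ∈ (T (a.σ w)).B)
    (hTA : ∀ w ∈ S, ∀ b ∈ (T w).A, a.s b ∈ (T (a.σ w)).A)
    (x : m.X) : f (a.act x) = f x := by
  obtain ⟨κ, hW⟩ := h.exists_kappa
  have hκ := h.whit hW
  have hL := bLevel m.L
  have hκ' : Whit (borP K) m.L.fam (fun y => κ (a.twist.act y)) := hκ.twist (bTwist a)
  refine posXG a h.inv hW w₀ hw₀ hgood (fun w hw => ?_) x
  by_cases hwS : w ∈ S
  · have hσS : a.σ w ∈ S := (hS w).1 hwS
    have h1 := h.typedAt hW hwS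
    have h2 := h.typedAt hW hσS
    refine (hκ.sub hκ').zeroAt_badT hL
      ((h1.typeAt (hT w hwS) (hTy w hwS)).sub
        ((h2.typeAt (hT _ hσS) (hTy _ hσS)).twist (bTwist a) fun b hb => hTB w hwS b hb))
      ((h1.torAt (hTy w hwS)).sub
        ((h2.torAt (hTy _ hσS)).twist (bTwist a) fun u hu => ?_)) (hT w hwS).dualT
    have := hTA w hwS _ hu
    rw [map_sub, map_one] at this
    exact this
  · have hσS : a.σ w ∉ S := fun hh => hwS ((hS w).2 hh)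
    have hσ0 : a.σ w ≠ w₀ := fun hh => hw (a.σ.injective (hh.trans hw₀.symm))
    obtain ⟨ϖ, hϖ⟩ := H51Z.exists_unif (K := K) w
    obtain ⟨R, hR, hcard, -⟩ := H51Z.exists_isReps_card (K := K) w 1
    have hR0 : R.Nonempty := by
      obtain ⟨b, hb, -⟩ := hR.exists_mem 0 (by simp)
      exact ⟨b, hb⟩
    have h1 := h.heckeEq hW hwS hw hϖ hR
    have hR' := isReps_map (s := a.s) (w := w) (w' := a.σ w) (fun x => (bTwist a).val w x) hR
    have hϖ' : (a.σ w).valuation K ((Units.map (a.s : K →* K) ϖ : Kˣ) : K) = exp (-(1 : ℤ)) := by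
      rw [← hϖ]
      exact (bTwist a).val w ϖ
    have h2 := h.heckeEq hW hσS hσ0 hϖ' hR'
    rw [hlam] at h2
    exact (hκ.sub hκ').zeroAt_good hL (goodAt_of_max (hmax w hwS hw)
      (hur w hwS hw)) hϖ hR0 hR.le_one (h1.sub (h2.twist (bTwist a)))

/-- **Nonvanishing at the base point.** `f` is an eigenfunction of `U` at `w₀`, which is a place
of the second kind (Iwahori level). -/
theorem base_ne_zero (h : IsCForm m S w₀ Ty lam f) {κ : XF m.L.fam → ℂ}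
    (hW : H19W.IsWM m (fun u => H22Z.K0 (4 * Real.pi * u)) f κ)
    (hmax : ∀ w ∉ S, w ≠ w₀ → m.L.U w = U0 w) (hur : ∀ w ∉ S, Unram w)
    (hn₀ : ∀ b : K, w₀.valuation K b ≤ 1 → (borP K).n b ∈ m.L.U w₀)
    (hd₀ : ∀ u : Kˣ, w₀.valuation K (u : K) = 1 → (borP K).d u ∈ m.L.U w₀)
    (hw₀ : w₀ ∉ S) {u : ℂ}
    (hu : ∀ (ϖ : Kˣ), w₀.valuation K (ϖ : K) = exp (-(1 : ℤ)) →
      ∀ R : Finset K, H51Z.IsReps (w₀.valuation K) 1 R → ∀ τ : J → H3,
        UEq (borP K) m.L.fam (fun y => f (τ, y)) w₀ ϖ R u)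
    (T : HeightOneSpectrum (𝓞 K) → TD K) (hT : ∀ w ∈ S, StdTD w (T w))
    (hTy : ∀ w ∈ S, TyOK (L := m.L) (T w) (Ty w))
    (hf : ∃ x, f x ≠ 0) : κ (XF.base m.L.fam) ≠ 0 := by
  intro h0
  have hκ := h.whit hW
  have hL := bLevel m.L
  have hrep : ∀ w : HeightOneSpectrum (𝓞 K), ∃ (ϖ : Kˣ) (R : Finset K),
      w.valuation K (ϖ : K) = exp (-(1 : ℤ)) ∧ H51Z.IsReps (w.valuation K) 1 R ∧ R.Nonempty := by
    intro w
    obtain ⟨ϖ, hϖ⟩ := H51Z.exists_unif (K := K) w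
    obtain ⟨R, hR, -, -⟩ := H51Z.exists_isReps_card (K := K) w 1
    refine ⟨ϖ, R, hϖ, hR, ?_⟩
    obtain ⟨b, hb, -⟩ := hR.exists_mem 0 (by simp)
    exact ⟨b, hb⟩
  have hzero : ∀ y, IsBor (borP K) m.L.fam y → κ y = 0 := by
    refine zero_of_zeroAt (B := borP K) (∅ : Set _) (fun w _ => ?_) (fun y hy h => ?_)
    · by_cases hwS : w ∈ S
      · exact (h.typedAt hW hwS).zeroAt (hT w hwS) (hTy w hwS) hκ
      · obtain ⟨ϖ, R, hϖ, hR, hR0⟩ := hrep w
        by_cases hw : w = w₀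
        · subst hw
          exact hκ.zeroAt_U hL ⟨hn₀, hd₀, hur _ hwS⟩ hϖ hR0 hR.le_one
            (uEq_of (ω := fun u => u * H22Z.K0 (4 * Real.pi * u))
              (fun _ hu => mul_ne_zero hu.ne' (H22Z.k0_ne hu)) (isW_of hW)
              fun τ => hu ϖ hϖ R hR τ)
        · exact hκ.zeroAt_good hL (goodAt_of_max (hmax w hwS hw) (hur w hwS)) hϖ hR0 hR.le_one
            (h.heckeEq hW hwS hw hϖ hR)
    · have : y = XF.base m.L.fam := by
        apply XF.ext; intro w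
        rw [h w (Set.notMem_empty w), XF.base_apply]
      rw [this, h0]
  obtain ⟨x, hx⟩ := hf
  apply hx
  obtain ⟨g, hg, -⟩ := dense m.L ∅ x.2
  rw [← h.inv g x]
  have hW0 : H19W.IsW m.e (dY (borP K) m.L.fam) (fun u => u * H22Z.K0 (4 * Real.pi * u))
      (fun x y => (0 : ℂ) * f (x, y)) ((0 : ℂ) • κ) := (isW_of hW).smul 0
  have := eq_of_borel (isW_of hW) hW0 (fun y hy => by rw [hzero y hy, Pi.smul_apply, zero_smul])
    (m.actInf g x.1) (g • x.2) hg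
  rw [zero_mul] at this
  exact this

end IsCForm

end Form

end Fermat.Agent.H7.Z
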