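import Fermat.Agent.H51ZKD
import Fermat.Agent.H7ZForm

/-!
# The local kernels of block (C): existence and dictionary (helper51, S47)

* `isTy`, `norm_chi` : the types given by lattice data;
* `exists_kerData`;
* `mono_add_single`, `mono_succ`, `gop_eS_iff`, `gop_mono_eig`, `mono_symm`;
* `heckeEq_iff`, `uEq_iff`, `typ_iff` : dictionary with helper7's conditions.
-/

set_option autoImplicit false
set_option linter.unusedSectionVars false
set_option linter.unusedVariables false

noncomputable section

open scoped Classical MatrixGroups WithZero ComplexConjugate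
open IsDedekindDomain HeightOneSpectrum NumberField

namespace Fermat.Agent.H51Z

open Fermat.Agent.H59XF Fermat.Agent.H59D Fermat.Agent.H79S Fermat.Agent.H76U Matrix

/-! ### Types given by lattice data -/

section TDs

variable {K : Type*} [Field K]

theorem TD_U_le_H (T : TD K) : T.U ≤ T.H := fun _ h => h.1

theorem isTy_TD (T : TD K) (h : (T.U.subgroupOf T.H).index ≠ 0) : IsTy T.U T.H T.chi where
  le := TD_U_le_H T
  mul g hg k hk := T.chi_mul hg hk
  one u hu := hu.2
  index := h

theorem norm_chi_TD (T : TD K) (h : ∀ x, ‖T.psi x‖ = 1) (g : PGL(2, K)) : ‖T.chi g‖ = 1 := by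
  unfold TD.chi
  exact h _

/-- Transport of `IsTy` along an equality of levels. -/
theorem IsTy.of_eq {G : Type*} [Group G] {U U' H : Subgroup G} {χ : G → ℂ} (e : U' = U)
    (h : IsTy U H χ) : IsTy U' H χ := e ▸ h

theorem isTyp_of_eq {G : Type*} [Group G] {U U' H : Subgroup G} {χ : G → ℂ} (e : U' = U)
    (h : IsTy U H χ) : IsTyp (tker (h.of_eq e)) H χ := isTyp_tker _

end TDs

/-! ### Monomials -/

section Mono

variable {G : Type*} [Group G] {ι : Type*} {L : LevelFam G ι} (D : HData L)
  {E : Type*} [AddCommGroup E] [Module ℂ E]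

theorem mono_add_single {i : ι} (hS : i ∉ D.S) (h0 : i ≠ D.w0) (n : ι →₀ ℕ) (m : ℕ) :
    D.mono (n + Finsupp.single i 1) m = gmul (single i (D.T i)) (D.mono n m) := by
  refine gext fun j => ?_
  rw [HData.mono_loc, gmul_loc, HData.mono_loc]
  by_cases hj : j = i
  · subst hj
    rw [single_same, D.loc_good hS h0, D.loc_good hS h0, Finsupp.add_apply,
      Finsupp.single_eq_same, lpow_succ]
  · rw [single_ne hj, one_lmul]
    have h1 : (n + (Finsupp.single i 1 : ι →₀ ℕ)) j = n j := by
      rw [Finsupp.add_apply, Finsupp.single_eq_of_ne hj, add_zero]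
    unfold HData.loc
    rw [h1]

theorem mono_succ (n : ι →₀ ℕ) (m : ℕ) :
    D.mono n (m + 1) = gmul (single D.w0 (D.U D.w0)) (D.mono n m) := by
  refine gext fun j => ?_
  rw [HData.mono_loc, gmul_loc, HData.mono_loc]
  by_cases hj : j = D.w0
  · subst hj
    rw [single_same, D.loc_w0, D.loc_w0, lpow_succ]
  · rw [single_ne hj, one_lmul]
    by_cases hS : j ∈ D.S
    · rw [D.loc_S hS, D.loc_S hS]
    · rw [D.loc_good hS hj, D.loc_good hS hj]

/-- The global kernel with components `e i`, `i ∈ s`. -/
def eSub (s : Finset ι) : GlobKer L where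
  loc i := if i ∈ s then D.e i else LocKer.one
  fin := by
    refine s.finite_toSet.subset ?_
    intro i hi
    by_contra hcon
    exact hi (if_neg hcon)

theorem eSub_S : eSub D D.S = D.eS := by
  refine gext fun i => ?_
  rw [HData.eS, HData.mono_loc]
  by_cases hS : i ∈ D.S
  · rw [D.loc_S hS]
    exact if_pos hS
  · have h1 : (eSub D D.S).loc i = LocKer.one := if_neg hS
    rw [h1]
    by_cases h0 : i = D.w0
    · subst h0; rw [D.loc_w0, lpow_zero]
    · rw [D.loc_good hS h0]; simp

theorem eSub_insert {s : Finset ι} {i : ι} (hi : i ∉ s) :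
    eSub D (insert i s) = gmul (single i (D.e i)) (eSub D s) := by
  refine gext fun j => ?_
  rw [gmul_loc]
  by_cases hj : j = i
  · subst hj
    have h1 : (eSub D s).loc j = LocKer.one := if_neg hi
    have h2 : (eSub D (insert j s)).loc j = D.e j := if_pos (Finset.mem_insert_self _ _)
    rw [single_same, h1, h2, lmul_one]
  · rw [single_ne hj, one_lmul]
    show (if j ∈ insert i s then D.e j else LocKer.one) = if j ∈ s then D.e j else LocKer.one
    simp only [Finset.mem_insert, hj, false_or]

theorem gop_eSub {s : Finset ι} {φ : XF L → E} (h : ∀ i ∈ s, lop i (D.e i) φ = φ) :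
    gop (eSub D s) φ = φ := by
  induction s using Finset.induction_on with
  | empty =>
    have h1 : eSub D ∅ = gone := gext fun i => by
      show (if i ∈ (∅ : Finset ι) then D.e i else LocKer.one) = _
      rw [if_neg (Finset.notMem_empty i), gone_loc]
    rw [h1, gop_gone]
  | insert i s hi ih =>
    rw [eSub_insert D hi, gop_gmul, ih fun j hj => h j (Finset.mem_insert_of_mem hj), gop_single,
      h i (Finset.mem_insert_self _ _)]

/-- A function is fixed by the product of the idempotents if and only if it is fixed by each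
of them. -/
theorem gop_eS_iff {φ : XF L → E} :
    gop D.eS φ = φ ↔ ∀ i ∈ D.S, lop i (D.e i) φ = φ := by
  constructor
  · intro h i hi
    have h1 : gmul (single i (D.e i)) D.eS = D.eS := by
      refine gext fun j => ?_
      rw [gmul_loc]
      by_cases hj : j = i
      · subst hj
        rw [single_same, HData.eS, HData.mono_loc, D.loc_S hi, D.e_mul j hi]
      · rw [single_ne hj, one_lmul]
    calc lop i (D.e i) φ = gop (single i (D.e i)) φ := (gop_single _ _ _).symm
      _ = gop (single i (D.e i)) (gop D.eS φ) := by rw [h]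
      _ = gop D.eS φ := by rw [← gop_gmul, h1]
      _ = φ := h
  · intro h
    rw [← eSub_S]
    exact gop_eSub D h

/-- Monomials on joint eigenfunctions. -/
theorem gop_mono_eig {φ : XF L → E} {n : ι →₀ ℕ} {m : ℕ}
    (hn : ∀ i ∈ n.support, i ∉ D.S ∧ i ≠ D.w0) (lam : ι → ℂ) (u : ℂ)
    (hT : ∀ i ∈ n.support, lop i (D.T i) φ = lam i • φ)
    (hU : m ≠ 0 → lop D.w0 (D.U D.w0) φ = u • φ) (he : gop D.eS φ = φ) :
    gop (D.mono n m) φ = (u ^ m * n.prod fun i k => lam i ^ k) • φ := by
  -- first the power of `U`
  have hbase : gop (D.mono 0 m) φ = u ^ m • φ := by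
    induction m with
    | zero => rw [pow_zero, one_smul]; exact he
    | succ m ih =>
      have h1 : gop (D.mono 0 m) φ = u ^ m • φ := by
        rcases Nat.eq_zero_or_pos m with rfl | hm
        · rw [pow_zero, one_smul]; exact he
        · exact ih fun _ => hU (Nat.succ_ne_zero m)
      rw [mono_succ, gop_gmul, h1, gop_smul_const, gop_single, hU (Nat.succ_ne_zero m),
        smul_smul, pow_succ]
  induction n using Finsupp.induction with
  | zero => rw [Finsupp.prod_zero_index, mul_one]; exact hbase
  | single_add i k n hi hk ih =>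
    have hsupp : ∀ j ∈ n.support, j ∈ (Finsupp.single i k + n).support := by
      intro j hj
      have hji : j ≠ i := fun h => hi (h ▸ hj)
      rw [Finsupp.mem_support_iff, Finsupp.add_apply, Finsupp.single_eq_of_ne hji, zero_add]
      exact Finsupp.mem_support_iff.1 hj
    have hii : i ∈ (Finsupp.single i k + n).support := by
      rw [Finsupp.mem_support_iff, Finsupp.add_apply, Finsupp.single_eq_same]
      omega
    have ih' := ih (fun j hj => hn j (hsupp j hj)) (fun j hj => hT j (hsupp j hj))
    have hS := hn i hii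
    have hTi := hT i hii
    have hstep : ∀ r : ℕ, gop (D.mono (Finsupp.single i r + n) m) φ =
        (u ^ m * (lam i ^ r * n.prod fun i k => lam i ^ k)) • φ := by
      intro r
      induction r with
      | zero => rw [Finsupp.single_zero, zero_add, ih', pow_zero, one_mul]
      | succ r ihr =>
        have e1 : Finsupp.single i (r + 1) + n = Finsupp.single i r + n + Finsupp.single i 1 := by
          rw [Finsupp.single_add]; abel
        rw [e1, mono_add_single D hS.1 hS.2, gop_gmul, ihr, gop_smul_const, gop_single, hTi,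
          smul_smul, pow_succ]
        congr 1
        ring
    rw [hstep k, Finsupp.prod_add_index_of_disjoint, Finsupp.prod_single_index (by rw [pow_zero])]
    rw [Finset.disjoint_left]
    intro j hj hj'
    rw [Finsupp.support_single _ hk, Finset.mem_singleton] at hj
    exact hi (hj ▸ hj')

/-- Hermitian symmetric local kernels. -/
def Herm {H : Subgroup G} (κ : LocKer H) : Prop := ∀ x y, κ.k y x = conj (κ.k x y)

theorem Herm.one {H : Subgroup G} : Herm (LocKer.one : LocKer H) := fun x y => by
  rw [LocKer.one_k, LocKer.one_k]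
  by_cases h : x = y
  · subst h; simp
  · rw [if_neg h, if_neg (Ne.symm h), map_zero]

theorem Herm.mul {H : Subgroup G} {κ κ' : LocKer H} (h : Herm κ) (h' : Herm κ')
    (hc : LocKer.mul κ κ' = LocKer.mul κ' κ) : Herm (LocKer.mul κ κ') := fun x y => by
  rw [hc, LocKer.mul_k, ← hc, LocKer.mul_k]
  have hs : (Function.support fun z => κ.k x z * κ'.k z y).Finite := by
    refine (κ.fin_right x).subset ?_
    intro z hz
    exact left_ne_zero_of_mul hz
  rw [finsum_eq_sum _ hs, map_sum, finsum_eq_sum_of_support_subset (s := hs.toFinset)]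
  · refine Finset.sum_congr rfl fun z _ => ?_
    rw [map_mul, h z x, h' y z, Complex.conj_conj, Complex.conj_conj, mul_comm]
  · intro z hz
    rw [Set.Finite.coe_toFinset]
    have h1 : κ'.k y z ≠ 0 := left_ne_zero_of_mul hz
    have h2 : κ.k z x ≠ 0 := right_ne_zero_of_mul hz
    rw [h' z y] at h1
    rw [h x z] at h2
    refine mul_ne_zero ?_ ?_
    · intro h0; rw [h0, map_zero] at h2; exact h2 rfl
    · intro h0; rw [h0, map_zero] at h1; exact h1 rfl

theorem Herm.lpow {H : Subgroup G} {κ : LocKer H} (h : Herm κ) (n : ℕ) : Herm (lpow κ n) := by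
  induction n with
  | zero => exact Herm.one
  | succ n ih =>
    rw [lpow_succ]
    refine h.mul ih ?_
    have h1 := lpow_add κ 1 n
    have h2 := lpow_add κ n 1
    rw [lpow_one] at h1 h2
    rw [← h1, ← h2, add_comm]

/-- The monomial kernels without `U` are hermitian symmetric. -/
theorem mono_symm (hT : ∀ i ∉ D.S, i ≠ D.w0 → Herm (D.T i)) (he : ∀ i ∈ D.S, Herm (D.e i))
    (n : ι →₀ ℕ) (x y : XF L) : (D.mono n 0).k y x = conj ((D.mono n 0).k x y) := by
  unfold GlobKer.k
  have h1 : ∀ i, ((D.mono n 0).loc i).k (y i) (x i) =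
      (starRingEnd ℂ) (((D.mono n 0).loc i).k (x i) (y i)) := by
    intro i
    rw [HData.mono_loc]
    by_cases hS : i ∈ D.S
    · rw [D.loc_S hS]; exact he i hS _ _
    · by_cases h0 : i = D.w0
      · subst h0
        rw [D.loc_w0, lpow_zero]; exact Herm.one _ _
      · rw [D.loc_good hS h0]
        exact (hT i hS h0).lpow (n i) _ _
  rw [finprod_congr h1]
  exact (MonoidHom.map_finprod_of_preimage_one ((starRingEnd ℂ : ℂ →+* ℂ) : ℂ →* ℂ)
    (fun x hx => by
      have : (starRingEnd ℂ) x = 1 := hx
      have h2 := congrArg (starRingEnd ℂ) this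
      rwa [Complex.conj_conj, map_one] at h2) _).symm

end Mono

/-! ### Existence -/

section Ex

variable {K : Type*} [Field K] [NumberField K] {J : Type*} [Fintype J]

theorem exists_kerData (m : Model K J) (S : Finset (HeightOneSpectrum (𝓞 K)))
    (w0 : HeightOneSpectrum (𝓞 K)) (T : HeightOneSpectrum (𝓞 K) → TD K) (hw0 : w0 ∉ S)
    (lev_S : ∀ w ∈ S, m.L.U w = (T w).U)
    (lev_good : ∀ w ∉ S, w ≠ w0 → m.L.U w = H59D.U0 w)
    (lev_w0 : m.L.U w0 = H83Z.Iw w0)
    (hidx : ∀ w ∈ S, ((T w).U.subgroupOf (T w).H).index ≠ 0) :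
    Nonempty (KerData m S w0 T) := by
  have hTy : ∀ w ∈ S, IsTy (m.L.fam.U w) (T w).H (T w).chi := fun w hw =>
    (isTy_TD (T w) (hidx w hw)).of_eq (lev_S w hw)
  have hU0 : ∀ w ∉ S, w ≠ w0 → m.L.fam.U w = U0 (w.valuation K) := fun w hw h0 =>
    (lev_good w hw h0).trans (U0_eq w)
  have hIw : ∀ w, w = w0 → m.L.fam.U w = Iw (w.valuation K) := fun w hw => by
    subst hw
    exact lev_w0.trans (Iw_eq w)
  refine ⟨{
    D := {
      S := S
      w0 := w0
      w0S := hw0
      e := fun w => if hw : w ∈ S then tker (hTy w hw) else LocKer.one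
      e_mul := ?_
      T := fun w => if hw : w ∉ S ∧ w ≠ w0 then
        lind (cellT (w.valuation K)) ((disc_nf w).dcT.of_eq (hU0 w hw.1 hw.2)) else LocKer.one
      U := fun w => if hw : w = w0 then
        lind (cellU (w.valuation K) (WithZero.exp (-((1 : ℕ) : ℤ)))) (((disc_nf w).dcU 1).of_eq (hIw w hw))
        else LocKer.one }
    D_S := rfl
    D_w0 := rfl
    lev_S := lev_S
    lev_good := lev_good
    lev_w0 := lev_w0
    T_ind := ?_
    U_ind := ?_
    e_typ := ?_
    e_index := hidx }⟩
  · intro w hw
    simp only [dif_pos hw]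
    exact tker_mul_self _
  · intro w hw h0
    simp only [dif_pos (show w ∉ S ∧ w ≠ w0 from ⟨hw, h0⟩)]
    exact isInd_lind _
  · simp only [dite_true]
    exact isInd_lind _
  · intro w hw
    simp only [dif_pos hw]
    exact isTyp_tker _

end Ex

end Fermat.Agent.H51Z
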