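import Fermat.Agent.H7ZHook2

/-!
# The Whittaker function of the output of block (C) (helper7)

* `pos_setup'` : the positivity lemma with the monomial kernels `mono (single w 1) 0`;
* `mform_exists_kappa`, `mform_base_ne_zero` : for `IsMForm`.
-/

set_option autoImplicit false
set_option linter.unusedSectionVars false

open IsDedekindDomain HeightOneSpectrum WithZero NumberField Matrix MeasureTheory
open scoped MatrixGroups Classical

noncomputable section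

namespace Fermat.Agent.H7.Z

open Fermat.Agent.H59XF Fermat.Agent.H59D Fermat.Agent.H76U Fermat.Agent.H51Z
open Fermat.Agent.H79S (IsInd IsTyp HData KerData CSetup IsMForm)

section Setup

variable {F E : Type} [Field F] [NumberField F] [Field E] [NumberField E] [Algebra F E]
  (C : CSetup F E)

/-- **POSITIVITY LEMMA for block (C)**, with the monomial kernels. -/
theorem pos_setup' {f : C.mE.X → ℂ}
    (hinv : ∀ (g : PGL(2, E)) (x : C.mE.X), f (g • x) = f x) (hbdd : ∃ M : ℝ, ∀ x, ‖f x‖ ≤ M)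
    (hmeas : ∀ y : XF C.mE.L.fam, Measurable fun τ : Fin 3 → H3 => f (τ, y))
    (hrad : ∀ κ : (Fin 3 → ℝ) → ℝ, H56Z.IsRC (fun u => (κ u : ℂ)) →
      ∀ (y : XF C.mE.L.fam) (τ : Fin 3 → H3), H5Z.Rk (fun u => (κ u : ℂ)) (fun v => f (v, y)) τ =
        H9Z.hat (fun u => (κ u : ℂ)) * f (τ, y))
    (he : ∀ τ : Fin 3 → H3, gop C.kE.D.eS (fun y => f (τ, y)) = fun y => f (τ, y))
    {lam : HeightOneSpectrum (𝓞 E) → ℂ} (hlam : ∀ w, lam (C.aE.σ w) = lam w)
    (hT : ∀ w ∉ C.SE, w ≠ C.w0 → ∀ τ : Fin 3 → H3,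
      gop (C.kE.D.mono (Finsupp.single w 1) 0) (fun y => f (τ, y)) = lam w • fun y => f (τ, y))
    (x : C.mE.X) : f (C.aE.act x) = f x := by
  refine pos_setup C hinv hbdd hmeas hrad he hlam (fun w hw hw' τ => ?_) x
  rw [← hT w hw hw' τ, gop_mono_single _ (he τ) (by rw [C.kE.D_S]; exact hw)
    (by rw [C.kE.D_w0]; exact hw')]

end Setup

section MForm

variable {K : Type*} [Field K] [NumberField K] {J : Type*} [Fintype J] [Nonempty J]
  {m : Model K J} {S : Finset (HeightOneSpectrum (𝓞 K))} {v0 : HeightOneSpectrum (𝓞 K)}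
  {T : HeightOneSpectrum (𝓞 K) → TD K} {a : HeightOneSpectrum (𝓞 K) → ℝ} {Φ : m.X → ℂ}

theorem mform_exists_kappa (h : IsMForm m S v0 T a Φ) :
    ∃ κ : XF m.L.fam → ℂ, H19W.IsWM m (fun u => H22Z.K0 (4 * Real.pi * u)) Φ κ :=
  exists_kappa_of h.inv h.bdd fun y => ⟨(h.cont y).locallyIntegrable, fun κ hκ w => h.rad κ hκ y w⟩

theorem n_mem_Iw {w : HeightOneSpectrum (𝓞 K)} {b : K} (hb : w.valuation K b ≤ 1) :
    (borP K).n b ∈ H83Z.Iw w :=
  ⟨bm 1 b, ⟨bm_mem_GLw (by simp) hb, by rw [bm_10, map_zero]; exact zero_le⟩, rfl⟩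

theorem d_mem_Iw {w : HeightOneSpectrum (𝓞 K)} {u : Kˣ} (hu : w.valuation K (u : K) = 1) :
    (borP K).d u ∈ H83Z.Iw w :=
  ⟨bm u 0, ⟨bm_mem_GLw hu (by simp), by rw [bm_10, map_zero]; exact zero_le⟩, rfl⟩

theorem mform_typeX (h : IsMForm m S v0 T a Φ)
    (hpsi : ∀ v ∈ S, ∀ x, (T v).psi x = Fermat.Agent.H7.Z.psi v x)
    {w : HeightOneSpectrum (𝓞 K)} (hw : w ∈ S) : TypeX m Φ w ((T w).B : Set K) := by
  intro τ y g b hb
  have hmem : (borP K).n b ∈ (T w).H := by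
    rw [← mk_nM]; exact ⟨_, (T w).nM_mem hb, rfl⟩
  have h2 := h.typ w hw _ hmem τ y g
  rw [← mk_nM, (T w).chi_nM, hpsi w hw, mk_nM] at h2
  exact h2

/-- **Nonvanishing at the base point** for the output of block (C). -/
theorem mform_base_ne_zero (h : IsMForm m S v0 T a Φ) (hv0 : v0 ∉ S)
    (hU0 : m.L.U v0 = H83Z.Iw v0) (hmax : ∀ v ∉ S, v ≠ v0 → m.L.U v = H59D.U0 v)
    (hur : ∀ v ∉ S, Unram v) (hpsi : ∀ v ∈ S, ∀ x, (T v).psi x = Fermat.Agent.H7.Z.psi v x)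
    (hdual : ∀ v ∈ S, DualAt (borP K) m.L.fam v (T v).B)
    {κ : XF m.L.fam → ℂ} (hW : H19W.IsWM m (fun u => H22Z.K0 (4 * Real.pi * u)) Φ κ) :
    κ (XF.base m.L.fam) ≠ 0 := by
  refine base_ne_zeroX (fun u hu => H22Z.k0_ne hu) h.inv hW (fun w => ?_) h.ne
  by_cases hw : w ∈ S
  · exact Or.inr ⟨_, hdual w hw, mform_typeX h hpsi hw⟩
  · left
    obtain ⟨ϖ, hϖ⟩ := exists_unif (K := K) w
    obtain ⟨R, hR, -, -⟩ := exists_isReps_card (K := K) w 1
    have hR0 : R.Nonempty := by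
      obtain ⟨b, hb, -⟩ := hR.exists_mem 0 (by simp)
      exact ⟨b, hb⟩
    by_cases hw' : w = v0
    · subst hw'
      obtain ⟨u, -, hu⟩ := h.U
      refine ⟨⟨fun b hb => ?_, fun u hu => ?_, hur _ hw⟩, ϖ, hϖ, R, u, hR0, hR.le_one,
        Or.inr (hu ϖ hϖ R hR)⟩
      · rw [Level.fam_U, hU0]; exact n_mem_Iw hb
      · rw [Level.fam_U, hU0]; exact d_mem_Iw hu
    · exact ⟨goodAt_of_max (hmax w hw hw') (hur w hw), ϖ, hϖ, R, _, hR0, hR.le_one,
        Or.inl (h.hecke w hw hw' ϖ hϖ R hR)⟩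

end MForm

end Fermat.Agent.H7.Z
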