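import Fermat.Agent.H50ZEF
import Fermat.Agent.H42T6
import Fermat.Agent.H7ZOut
import Fermat.Agent.H51ZKD2

/-!
# The hypothesis `hpos` of the comparison (helper50, S47 block (C))

* `eS_of_kop` : eigenfunctions of the kernel of `C` with a nonzero eigenvalue are fixed by `e_S`;
* `isAdj_T` : the operators `T_w` are symmetric;
* `hpos_E` : `hpos` of `exists_block_c` / `extract` on the side of `E`.
-/

set_option autoImplicit false
set_option linter.unusedSectionVars false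

noncomputable section

open IsDedekindDomain HeightOneSpectrum WithZero NumberField Matrix MeasureTheory
open scoped MatrixGroups Classical ComplexConjugate

namespace Fermat.Agent.H50Z

open Fermat.Agent.H59XF Fermat.Agent.H59D Fermat.Agent.H51Z Fermat.Agent.H79S
open Fermat.Agent.H32Z Fermat.Agent.H32Z.CutOff Fermat.Agent.H42S Fermat.Agent.H21Z
open Fermat.Agent.H56Z Fermat.Agent.H42T

section Gen

variable {K : Type} [Field K] [NumberField K] {J : Type} [Fintype J] {m : Model K J}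
  {S : Finset (HeightOneSpectrum (𝓞 K))} {w0 : HeightOneSpectrum (𝓞 K)}
  {T : HeightOneSpectrum (𝓞 K) → H76U.TD K} (kd : KerData m S w0 T)

/-- The kernel of `T_w` is symmetric. -/
theorem herm_T {w : HeightOneSpectrum (𝓞 K)} (hw : w ∉ S) (h0 : w ≠ w0) :
    Herm (kd.D.T w) := by
  intro x y
  have h := kd.T_ind w hw h0
  have hinv : ∀ g : PGL(2, K), g⁻¹ ∈ cellT (w.valuation K) ↔ g ∈ cellT (w.valuation K) :=
    fun g => cellT_inv_iff _
  rw [h.conj_k]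
  exact congrFun (congrFun (congrArg LocKer.k (h.ltr hinv)) x) y

theorem isAdj_T (c : CutOff PGL(2, K) m.X) [IsFiniteMeasure (c.ν m.μ)]
    {w : HeightOneSpectrum (𝓞 K)} (hw : w ∉ S) (h0 : w ≠ w0) :
    IsAdj (c.ν m.μ) (gopB m (single w (kd.D.T w))) (gopB m (single w (kd.D.T w))) := by
  refine isAdj_gopB_self m c (gadj_eq_self fun i x y => ?_)
  by_cases hi : i = w
  · subst hi
    rw [single_same]
    exact herm_T kd hw h0 x y
  · rw [single_ne hi]
    exact Herm.one x y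

/-- Eigenfunctions of the operator of a family of monomial kernels with a nonzero eigenvalue are
fixed by `e_S`. -/
theorem eS_of_eig (D : HData m.L.fam) {ι : Type} (s : Finset ι) {κ : ι → (J → ℝ) → ℂ}
    (hκ : ∀ i, IsRC (κ i)) (n : ι → HeightOneSpectrum (𝓞 K) →₀ ℕ) (k : ι → ℕ) {c : ℂ}
    (hc : c ≠ 0) {Ψ : BInv PGL(2, K) m.X}
    (h : fkB s hκ (fun i => D.mono (n i) (k i)) Ψ = c • Ψ) : gopB m D.eS Ψ = Ψ := by
  have h1 : gopB m D.eS * fkB s hκ (fun i => D.mono (n i) (k i)) =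
      fkB s hκ (fun i => D.mono (n i) (k i)) := by
    unfold fkB
    rw [Finset.mul_sum]
    refine Finset.sum_congr rfl fun i _ => ?_
    rw [← mul_assoc, ← (rkB_gopB_commute m (hκ i) D.eS).eq, mul_assoc, ← gopB_gmul,
      D.eS_mul_mono]
  have h2 : gopB m D.eS (fkB s hκ (fun i => D.mono (n i) (k i)) Ψ) =
      fkB s hκ (fun i => D.mono (n i) (k i)) Ψ :=
    congrArg (fun A : Module.End ℂ (BInv PGL(2, K) m.X) => A Ψ) h1
  rw [h, map_smul] at h2
  exact smul_right_injective _ hc h2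

end Gen

/-! ### The side of `E` -/

section E

variable {F E : Type} [Field F] [NumberField F] [Field E] [NumberField E] [Algebra F E]
  {C : CSetup F E}

/-- `hpos` of the comparison, on the side of `E`. -/
theorem hpos_E {ι : Type} [Fintype ι] {κ : ι → (Fin 3 → ℝ) → ℂ} (hκ : ∀ i, IsRC (κ i))
    (n : ι → HeightOneSpectrum (𝓞 E) →₀ ℕ)
    (cE : CutOff PGL(2, E) C.mE.X) [IsFiniteMeasure (cE.ν C.mE.μ)]
    [MeasurableSpace.CountablyGenerated C.mE.X] {J : Type}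
    {hKE : BK (autK PGL(2, E) fun x y : C.mE.X => ∑ i, C.tkE (κ i) (n i) 0 x y)}
    {hGE : ∀ (g : PGL(2, E)) x y,
      autK PGL(2, E) (fun x y : C.mE.X => ∑ i, C.tkE (κ i) (n i) 0 x y) (g • x) y =
      autK PGL(2, E) (fun x y : C.mE.X => ∑ i, C.tkE (κ i) (n i) 0 x y) x y}
    (hsE : ∀ x y, autK PGL(2, E) (fun x y : C.mE.X => ∑ i, C.tkE (κ i) (n i) 0 x y) y x =
      conj (autK PGL(2, E) (fun x y : C.mE.X => ∑ i, C.tkE (κ i) (n i) 0 x y) x y))
    (D : OpData J hKE (cE.ν C.mE.μ) hGE)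
    (lT : {w // w ∉ C.SE ∧ w ≠ C.w0} → D.N)
    (hT : ∀ w, D.Y (lT w) = gopB C.mE (single w.1 (C.kE.D.T w.1)))
    (hσ : ∀ w w', w'.1 = C.aE.σ w.1 → D.σ (lT w) = lT w')
    (lk : {κ : (Fin 3 → ℝ) → ℝ // IsRC fun t => (κ t : ℂ)} → J)
    (hk : ∀ κ, D.Y (D.j (lk κ)) = rkB C.mE κ.2)
    (hs : D.s = sB C.aE) (p₀ : (D.side hsE).I)
    (hx : ∀ κ, ((D.side hsE).x p₀ (lk κ) : ℂ) = H9Z.hat fun t => (κ.1 t : ℂ)) :
    ∀ p : (D.side hsE).I, (D.side hsE).x p = (D.side hsE).x p₀ →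
      (D.side hsE).z p = (D.side hsE).z p₀ →
      ∀ v ∈ blk ((D.side hsE).Y p.1) p.2.1, (D.side hsE).s p.1 v = v := by
  rintro ⟨⟨c, hc⟩, χ, hχ⟩ hxp - v hv
  have hχσ : χ ∘ D.σ = χ := ((D.side hsE).mem_supp.1 hχ).2
  -- the function
  set f : BInv PGL(2, E) C.mE.X := toInv hGE hc v with hf
  have hYT : ∀ w, gopB C.mE (single w.1 (C.kE.D.T w.1)) f = χ (lT w) • f := by
    intro w
    have h1 := D.apply_of_blk hc hv (k := lT w)
      (by rw [hT]; exact isAdj_T C.kE cE w.2.1 w.2.2)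
    rwa [hT] at h1
  have hYk : ∀ κ : {κ : (Fin 3 → ℝ) → ℝ // IsRC fun t => (κ t : ℂ)},
      rkB C.mE κ.2 f = (H9Z.hat fun t => (κ.1 t : ℂ)) • f := by
    intro κ
    have h1 := D.apply_of_blk hc hv (k := D.j (lk κ))
      (by rw [hk]; exact isAdj_rkB_self C.mE cE κ.2 fun t => Complex.conj_ofReal _)
    rw [hk] at h1
    rw [h1]
    congr 1
    have h2 : ((D.side hsE).x ⟨⟨c, hc⟩, χ, hχ⟩ (lk κ) : ℂ) = χ (D.j (lk κ)) :=
      (D.side hsE).x_eq ⟨⟨c, hc⟩, χ, hχ⟩ (lk κ)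
    refine h2.symm.trans ?_
    rw [hxp, hx]
  -- the kernel
  have hker : kop hKE (cE.ν C.mE.μ) hGE f = (c : ℂ) • f := kop_toInv hGE hc v
  have hkop : kop hKE (cE.ν C.mE.μ) hGE =
      fkB Finset.univ hκ (fun i => C.kE.D.mono (n i) 0) :=
    kop_fks Finset.univ hκ (fun i => C.kE.D.mono (n i) 0) cE hKE hGE
  have heS : gopB C.mE C.kE.D.eS f = f := by
    rw [hkop] at hker
    exact eS_of_eig C.kE.D Finset.univ hκ n (fun _ => 0) (by exact_mod_cast hc) hker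
  -- the eigenvalues
  let lam : HeightOneSpectrum (𝓞 E) → ℂ := fun w =>
    if h : w ∉ C.SE ∧ w ≠ C.w0 then χ (lT ⟨w, h⟩) else 0
  have hcond : ∀ w, (w ∉ C.SE ∧ w ≠ C.w0) ↔ (C.aE.σ w ∉ C.SE ∧ C.aE.σ w ≠ C.w0) := by
    intro w
    rw [← H7.Z.mem_SE_σ]
    constructor
    · rintro ⟨h1, h2⟩
      exact ⟨h1, fun h3 => h2 (C.aE.σ.injective (by rw [h3, H7.Z.σ_w0]))⟩
    · rintro ⟨h1, h2⟩
      refine ⟨h1, fun h3 => h2 ?_⟩
      rw [h3, H7.Z.σ_w0]
  have hlam : ∀ w, lam (C.aE.σ w) = lam w := by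
    intro w
    by_cases h : w ∉ C.SE ∧ w ≠ C.w0
    · have h' := (hcond w).1 h
      have e1 : lam (C.aE.σ w) = χ (lT ⟨C.aE.σ w, h'⟩) := dif_pos h'
      have e2 : lam w = χ (lT ⟨w, h⟩) := dif_pos h
      rw [e1, e2, ← hσ ⟨w, h⟩ ⟨C.aE.σ w, h'⟩ rfl]
      exact congrFun hχσ (lT ⟨w, h⟩)
    · have h' : ¬ (C.aE.σ w ∉ C.SE ∧ C.aE.σ w ≠ C.w0) := fun h0 => h ((hcond w).2 h0)
      have e1 : lam (C.aE.σ w) = 0 := dif_neg h'
      have e2 : lam w = 0 := dif_neg h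
      rw [e1, e2]
  have hpos := H7.Z.pos_setup C (f := (f : C.mE.X → ℂ)) (BInv.inv f) (BInv.bounded f)
    (fun y => (BInv.measurable f).comp (measurable_id.prodMk measurable_const))
    (fun k hkk y τ => by
      have h1 := hYk ⟨k, hkk⟩
      exact congrArg (fun F : BInv PGL(2, E) C.mE.X => (F : C.mE.X → ℂ) (τ, y)) h1)
    (fun τ => by
      funext y
      exact congrArg (fun F : BInv PGL(2, E) C.mE.X => (F : C.mE.X → ℂ) (τ, y)) heS)
    hlam
    (fun w hw hw' τ => by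
      funext y
      have h1 := congrArg (fun F : BInv PGL(2, E) C.mE.X => (F : C.mE.X → ℂ) (τ, y))
        (hYT ⟨w, hw, hw'⟩)
      have e1 : lam w = χ (lT ⟨w, hw, hw'⟩) := dif_pos ⟨hw, hw'⟩
      rw [e1, ← gop_single]
      exact h1)
  have hsf : D.s f = f := by
    rw [hs]
    apply ext_act C.aE
    intro x
    rw [sB_act]
    exact (hpos x).symm
  exact D.sE_apply hc hsf

end E

end Fermat.Agent.H50Z

end
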