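import Fermat.Agent.H56ZTgt2
import Fermat.Agent.H21Z5

/-!
# S47, block (C): the form `Φ` on `X(E)` as an element of `BInv` (helper56)

Consequences of `IsEForm C a Φ`: operators on `Φ` (`RI`, `gX`, `gopB`, `rkB`), the operator of a
finite family of pure kernels, the kernel operator `kop`; the eigenvalue is real.
-/

set_option autoImplicit false
set_option linter.unusedSectionVars false

open IsDedekindDomain HeightOneSpectrum WithZero NumberField Matrix MeasureTheory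
open scoped MatrixGroups Classical ComplexConjugate

noncomputable section

namespace Fermat.Agent.H56Z

open Fermat.Agent.H59XF Fermat.Agent.H59D Fermat.Agent.H76U Fermat.Agent.H51Z Fermat.Agent.H79S
open Fermat.Agent.H21Z (BInv gopB rkB fkB)
open Fermat.Agent.H32Z (CutOff BK)
open Fermat.Agent.H5Z (Rk)

/-! ### Radial kernels -/

section Rad

variable {J : Type*} [Fintype J]

theorem IsRC.ker9 {κ : (J → ℝ) → ℂ} (hκ : IsRC κ) : H9Z.Ker κ where
  cont := hκ.cont.continuousOn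
  supp := by
    obtain ⟨R, hR⟩ := hκ.supp
    exact ⟨R, fun t _ ht => hR t ht⟩

theorem hat_eq_khat0 {κ : (J → ℝ) → ℂ} (hκ : IsRC κ) : H9Z.hat κ = khat0 κ := by
  rw [khat0_eq hκ, H9Z.hat]
  refine integral_congr_ae (Filter.Eventually.of_forall fun w => ?_)
  simp only [prodY, Complex.ofReal_prod]
  rfl

/-- The value of a real kernel is real. -/
theorem conj_hat {κ : (J → ℝ) → ℂ} (hκ : ∀ t, conj (κ t) = κ t) :
    conj (H9Z.hat κ) = H9Z.hat κ := by
  unfold H9Z.hat H5Z.Rk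
  rw [← integral_conj]
  refine integral_congr_ae (Filter.Eventually.of_forall fun w => ?_)
  simp only [map_mul, hκ, map_prod, Complex.conj_ofReal]

end Rad

/-! ### Places -/

section Places

variable {F E : Type} [Field F] [NumberField F] [Field E] [NumberField E] [Algebra F E]
  (C : CSetup F E)

theorem ok_ne_w0 {w : HeightOneSpectrum (𝓞 E)} (h : C.Ok w) : w ≠ C.w0 := by
  rintro rfl
  apply h.2
  have h1 : C.w0 ∈ H82.above E C.v0 := by rw [C.above_v0]; exact Set.mem_singleton _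
  rw [← H47.eq_below_of_mem_above h1, H82.NonSplit, C.above_v0, Set.ncard_singleton]

theorem okN_support {n : HeightOneSpectrum (𝓞 E) →₀ ℕ} (h : C.OkN n) :
    ∀ w ∈ n.support, w ∉ C.kE.D.S ∧ w ≠ C.kE.D.w0 := by
  intro w hw
  rw [C.kE.D_S, C.kE.D_w0]
  exact ⟨(h w hw).1, ok_ne_w0 C (h w hw)⟩

/-- The eigenvalue of a pure real kernel is real. -/
theorem conj_evP (a : HeightOneSpectrum (𝓞 E) → ℝ) {κ : (Fin 3 → ℝ) → ℂ}
    (hκ : ∀ t, conj (κ t) = κ t) (n : HeightOneSpectrum (𝓞 E) →₀ ℕ) :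
    conj (evP a κ n) = evP a κ n := by
  unfold evP
  rw [map_mul, conj_hat hκ, Finsupp.prod, map_prod]
  simp only [map_pow, Complex.conj_ofReal]

/-- The eigenvalue of a finite family of real pure kernels is real. -/
theorem exists_real_val (a : HeightOneSpectrum (𝓞 E) → ℝ) {ι : Type*} (s : Finset ι)
    {κ : ι → (Fin 3 → ℝ) → ℂ} (hκ : ∀ i ∈ s, ∀ t, conj (κ i t) = κ i t)
    (n : ι → HeightOneSpectrum (𝓞 E) →₀ ℕ) :
    ∃ c : ℝ, (c : ℂ) = ∑ i ∈ s, evP a (κ i) (n i) := by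
  have h : conj (∑ i ∈ s, evP a (κ i) (n i)) = ∑ i ∈ s, evP a (κ i) (n i) := by
    rw [map_sum]
    exact Finset.sum_congr rfl fun i hi => conj_evP a (hκ i hi) (n i)
  exact ⟨_, Complex.conj_eq_iff_re.1 h⟩

end Places

end Fermat.Agent.H56Z

/-! ### The form -/

namespace Fermat.Agent.H79S.IsEForm

open Fermat.Agent.H59XF Fermat.Agent.H59D Fermat.Agent.H76U Fermat.Agent.H51Z Fermat.Agent.H79S
open Fermat.Agent.H56Z
open Fermat.Agent.H21Z (BInv gopB rkB fkB)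
open Fermat.Agent.H32Z (CutOff BK)
open Fermat.Agent.H5Z (Rk)

variable {F E : Type} [Field F] [NumberField F] [Field E] [NumberField E] [Algebra F E]
  {C : CSetup F E} {a : HeightOneSpectrum (𝓞 E) → ℝ} {Φ : C.mE.X → ℂ}

theorem measurable (h : IsEForm C a Φ) : Measurable Φ :=
  measurable_from_prod_countable_left fun y => (h.cont y).measurable

/-- The form as a bounded invariant function. -/
def toB (h : IsEForm C a Φ) (hb : ∃ M : ℝ, ∀ x, ‖Φ x‖ ≤ M) : BInv PGL(2, E) C.mE.X :=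
  ⟨Φ, h.measurable, hb, h.inv⟩

variable (h : IsEForm C a Φ) (hb : ∃ M : ℝ, ∀ x, ‖Φ x‖ ≤ M)

@[simp] theorem coe_toB : (h.toB hb : C.mE.X → ℂ) = Φ := rfl

theorem toB_ne : h.toB hb ≠ 0 := by
  obtain ⟨x, hx⟩ := h.ne
  intro h0
  exact hx (congrFun (congrArg Subtype.val h0) x)

include h

theorem Rk_eq {κ : (Fin 3 → ℝ) → ℂ} (hκ : IsRC κ) (y : XF C.mE.L.fam) (τ : Fin 3 → H3) :
    Rk κ (fun v => Φ (v, y)) τ = H9Z.hat κ * Φ (τ, y) := h.rad κ hκ.ker9 y τ

theorem RI_eq {κ : (Fin 3 → ℝ) → ℂ} (hκ : IsRC κ) :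
    H17S.RI κ Φ = fun x => H9Z.hat κ * Φ x :=
  funext fun x => h.Rk_eq hκ x.2 x.1

theorem gop_eS (τ : Fin 3 → H3) :
    gop C.kE.D.eS (fun y : XF C.mE.L.fam => Φ (τ, y)) = fun y => Φ (τ, y) :=
  funext fun y => h.eS (τ, y)

theorem lop_T {w : HeightOneSpectrum (𝓞 E)} (hw : w ∉ C.SE) (h0 : w ≠ C.w0) (τ : Fin 3 → H3) :
    lop w (C.kE.D.T w) (fun y : XF C.mE.L.fam => Φ (τ, y)) =
      (evT a w : ℂ) • fun y => Φ (τ, y) := by
  funext y
  have h1 : gop (single w (C.kE.D.T w)) (fun y : XF C.mE.L.fam => Φ (τ, y)) y =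
      (evT a w : ℂ) * Φ (τ, y) := h.hecke w hw h0 (τ, y)
  rw [gop_single] at h1
  exact h1

theorem gop_mono {n : HeightOneSpectrum (𝓞 E) →₀ ℕ} (hn : C.OkN n) (τ : Fin 3 → H3) :
    gop (C.kE.D.mono n 0) (fun y : XF C.mE.L.fam => Φ (τ, y)) =
      (n.prod fun w k => (evT a w : ℂ) ^ k) • fun y => Φ (τ, y) := by
  refine H56Z.gop_mono C.kE.D (h.gop_eS τ) (fun w hw h0 => ?_) n (okN_support C hn)
  rw [C.kE.D_S] at hw
  rw [C.kE.D_w0] at h0
  exact h.lop_T hw h0 τ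

/-! ### Operators on `BInv` -/

theorem rkB_toB {κ : (Fin 3 → ℝ) → ℂ} (hκ : IsRC κ) :
    rkB C.mE hκ (h.toB hb) = H9Z.hat κ • h.toB hb := by
  apply Subtype.ext
  funext x
  exact h.Rk_eq hκ x.2 x.1

theorem gopB_eS : gopB C.mE C.kE.D.eS (h.toB hb) = h.toB hb := by
  apply Subtype.ext
  funext x
  exact congrFun (h.gop_eS x.1) x.2

theorem gopB_T {w : HeightOneSpectrum (𝓞 E)} (hw : w ∉ C.SE) (h0 : w ≠ C.w0) :
    gopB C.mE (single w (C.kE.D.T w)) (h.toB hb) = (evT a w : ℂ) • h.toB hb := by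
  apply Subtype.ext
  funext x
  rw [H21Z.gopB_apply, gop_single]
  exact congrFun (h.lop_T hw h0 x.1) x.2

theorem gopB_mono {n : HeightOneSpectrum (𝓞 E) →₀ ℕ} (hn : C.OkN n) :
    gopB C.mE (C.kE.D.mono n 0) (h.toB hb) =
      (n.prod fun w k => (evT a w : ℂ) ^ k) • h.toB hb := by
  apply Subtype.ext
  funext x
  exact congrFun (h.gop_mono hn x.1) x.2

theorem pure_toB {κ : (Fin 3 → ℝ) → ℂ} (hκ : IsRC κ) {n : HeightOneSpectrum (𝓞 E) →₀ ℕ}
    (hn : C.OkN n) : (rkB C.mE hκ * gopB C.mE (C.kE.D.mono n 0)) (h.toB hb) =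
      evP a κ n • h.toB hb := by
  rw [Module.End.mul_apply, h.gopB_mono hb hn, map_smul, h.rkB_toB hb hκ, smul_smul, evP, mul_comm]

/-- The operator of a finite family of pure kernels on the form. -/
theorem fkB_toB {ι : Type*} (s : Finset ι) {κ : ι → (Fin 3 → ℝ) → ℂ} (hκ : ∀ i, IsRC (κ i))
    {n : ι → HeightOneSpectrum (𝓞 E) →₀ ℕ} (hn : ∀ i ∈ s, C.OkN (n i)) :
    fkB s hκ (fun i => C.kE.D.mono (n i) 0) (h.toB hb) =
      (∑ i ∈ s, evP a (κ i) (n i)) • h.toB hb := by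
  unfold H21Z.fkB
  rw [LinearMap.sum_apply, Finset.sum_smul]
  exact Finset.sum_congr rfl fun i hi => h.pure_toB hb (hκ i) (hn i hi)

/-- **The kernel operator on the form.** -/
theorem kop_toB {ι : Type*} (s : Finset ι) {κ : ι → (Fin 3 → ℝ) → ℂ} (hκ : ∀ i, IsRC (κ i))
    {n : ι → HeightOneSpectrum (𝓞 E) →₀ ℕ} (hn : ∀ i ∈ s, C.OkN (n i))
    (c : CutOff PGL(2, E) C.mE.X) [IsFiniteMeasure (c.ν C.mE.μ)]
    (hK : BK (CutOff.autK PGL(2, E) (H21Z.fks C.mE s κ fun i => C.kE.D.mono (n i) 0)))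
    (hG : ∀ (g : PGL(2, E)) x y,
      CutOff.autK PGL(2, E) (H21Z.fks C.mE s κ fun i => C.kE.D.mono (n i) 0) (g • x) y =
      CutOff.autK PGL(2, E) (H21Z.fks C.mE s κ fun i => C.kE.D.mono (n i) 0) x y) :
    H21Z.kop hK (c.ν C.mE.μ) hG (h.toB hb) = (∑ i ∈ s, evP a (κ i) (n i)) • h.toB hb := by
  rw [H21Z.kop_fks s hκ _ c hK hG]
  exact h.fkB_toB hb s hκ hn

end Fermat.Agent.H79S.IsEForm
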