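import Fermat.Agent.H79SPos
import Fermat.Agent.H79SBlk
import Fermat.Agent.H21Z6
import Fermat.Agent.H42T7
import Fermat.Agent.H50ZPos
import Fermat.Agent.H56ZTgt3
import Fermat.Agent.H44ZOut2
import Fermat.Agent.H26ZCut

/-!
# S47, block (C): the comparison (helper79)

* `opE`, `opF` : the operator data of both sides;
* `compar : Compar`.
-/

set_option autoImplicit false
set_option linter.unusedSectionVars false

noncomputable section

open IsDedekindDomain HeightOneSpectrum WithZero NumberField Matrix MeasureTheory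
open scoped MatrixGroups ComplexConjugate

namespace Fermat.Agent.H79S

open Fermat.Agent.H59XF Fermat.Agent.H51Z Fermat.Agent.H59D Fermat.Agent.H76U
open Fermat.Agent.H17S (gX RI act Bd)
open Fermat.Agent.H32Z Fermat.Agent.H32Z.CutOff Fermat.Agent.H42S Fermat.Agent.H21Z
open Fermat.Agent.H56Z (IsRC)
open Fermat.Agent.H67M (bF isRC_bF)
open Fermat.Agent.H42T (JR Lab kSys Ok_E Ok_F)

section

variable {F E : Type} [Field F] [NumberField F] [Field E] [NumberField E] [Algebra F E]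
  (C : CSetup F E)

/-! ### Labels -/

/-- the labels on the side of `E` -/
def jE : JR C → {w // w ∉ C.kE.D.S ∧ w ≠ C.kE.D.w0} ⊕ {κ : (Fin 3 → ℝ) → ℂ // IsRC κ}
  | Sum.inl w => Sum.inl ⟨w.1, Ok_E C w.2⟩
  | Sum.inr κ => Sum.inr ⟨fun t => (κ.1 t : ℂ), κ.2⟩

/-- the labels on the side of `F` -/
def jF : JR C → {v // v ∉ C.kF.D.S ∧ v ≠ C.kF.D.w0} ⊕ {κ : (Fin 1 → ℝ) → ℂ // IsRC κ}
  | Sum.inl w => Sum.inl ⟨H47.below F w.1, Ok_F C w.2⟩
  | Sum.inr κ => Sum.inr ⟨bF fun t => (κ.1 t : ℂ), isRC_bF κ.2⟩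

theorem jE_real (l : JR C) : labReal C.kE.D (jE C l) := by
  rcases l with w | κ
  · trivial
  · intro t
    exact Complex.conj_ofReal _

theorem jF_real (l : JR C) : labReal C.kF.D (jF C l) := by
  rcases l with w | κ
  · trivial
  · intro t
    show conj (bF (fun t => (κ.1 t : ℂ)) t) = bF (fun t => (κ.1 t : ℂ)) t
    rw [H67M.bF_ofReal]
    exact Complex.conj_ofReal _

theorem good_σ {w : HeightOneSpectrum (𝓞 E)} (h : w ∉ C.kE.D.S ∧ w ≠ C.kE.D.w0) :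
    C.aE.σ w ∉ C.kE.D.S ∧ C.aE.σ w ≠ C.kE.D.w0 := by
  rw [C.kE.D_S, C.kE.D_w0] at h ⊢
  exact ⟨fun h' => h.1 ((H7.Z.mem_SE_σ C w).2 h'),
    fun h' => h.2 (C.aE.σ.injective (h'.trans (H7.Z.σ_w0 C).symm))⟩

theorem σσσ (w : HeightOneSpectrum (𝓞 E)) : C.aE.σ (C.aE.σ (C.aE.σ w)) = w := by
  have := C.gal
  rw [H7.Z.aut_σ_eq, H7.Z.aut_σ_eq, H7.Z.aut_σ_eq]
  exact H83Z.placePerm_three C.h3 C.s w

theorem ccc (j : Fin 3) : C.aE.c (C.aE.c (C.aE.c j)) = j := by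
  rw [C.c_eq]
  fin_cases j <;> rfl

theorem sss (x : E) : C.aE.s (C.aE.s (C.aE.s x)) = x := by
  have := C.gal
  rw [C.s_eq, C.s_eq, C.s_eq]
  have h := H83Z.s_pow_three C.h3 C.s
  exact congrArg (fun t : E ≃ₐ[F] E => t x) h

/-- the permutation of the labels -/
def sgF : Lab C.kE.D → Lab C.kE.D
  | Sum.inl (Sum.inl w) => Sum.inl (Sum.inl ⟨C.aE.σ w.1, good_σ C w.2⟩)
  | Sum.inl (Sum.inr κ) => Sum.inl (Sum.inr ⟨fun t => κ.1 fun j => t (C.aE.c j),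
      isRC_perm κ.2 C.aE.c⟩)
  | Sum.inr u => Sum.inr u

theorem sgF3 (l : Lab C.kE.D) : sgF C (sgF C (sgF C l)) = l := by
  match l with
  | Sum.inl (Sum.inl w) =>
    show Sum.inl (Sum.inl _) = _
    congr 2
    exact Subtype.ext (σσσ C w.1)
  | Sum.inl (Sum.inr κ) =>
    show Sum.inl (Sum.inr _) = _
    congr 2
    apply Subtype.ext
    funext t
    show κ.1 (fun j => t (C.aE.c (C.aE.c (C.aE.c j)))) = κ.1 t
    simp only [ccc]
  | Sum.inr u => rfl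

/-- the permutation of the labels -/
def sg : Lab C.kE.D ≃ Lab C.kE.D where
  toFun := sgF C
  invFun l := sgF C (sgF C l)
  left_inv l := sgF3 C l
  right_inv l := sgF3 C l

theorem isTw_single {t : Twist C.mE.L.fam} (i : HeightOneSpectrum (𝓞 E))
    {κ : LocKer (C.mE.L.fam.U i)} {κ' : LocKer (C.mE.L.fam.U (t.σ i))}
    (h : H59K.TwL t i κ κ') :
    IsTw t (single i κ) (single (t.σ i) κ') := by
  intro j
  change H59K.TwL t j ((single i κ : GlobKer C.mE.L.fam).loc j)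
    ((single (t.σ i) κ' : GlobKer C.mE.L.fam).loc (t.σ j))
  by_cases hj : j = i
  · subst hj
    rw [single_same, single_same]
    exact h
  · rw [single_ne hj, single_ne fun h' => hj (t.σ.injective h')]
    exact H59K.TwL.one

theorem isTw_T {w : HeightOneSpectrum (𝓞 E)} (h : w ∉ C.kE.D.S ∧ w ≠ C.kE.D.w0) :
    IsTw C.aE.twist (single w (C.kE.D.T w))
      (single (C.aE.σ w) (C.kE.D.T (C.aE.σ w)) : GlobKer C.mE.L.fam) := by
  have h1 := good_of_lab C.kE h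
  have h2 := good_of_lab C.kE (good_σ C h)
  refine isTw_single C (t := C.aE.twist) w ?_
  refine H59K.twL_of_isInd (t := C.aE.twist) (C.kE.T_ind w h1.1 h1.2)
    (C.kE.T_ind _ h2.1 h2.2) fun g => ?_
  exact H59K.cellT_map (C.aE.val w) g

theorem isTw_U (e : ℕ) :
    IsTw C.aE.twist (single C.kE.D.w0 (lpow (C.kE.D.U C.kE.D.w0) e))
      (single C.kE.D.w0 (lpow (C.kE.D.U C.kE.D.w0) e) : GlobKer C.mE.L.fam) := by
  have hσ : C.aE.twist.σ C.kE.D.w0 = C.kE.D.w0 := by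
    rw [C.kE.D_w0]
    exact H7.Z.σ_w0 C
  have key : IsTw C.aE.twist (single C.kE.D.w0 (lpow (C.kE.D.U C.kE.D.w0) e))
      (single (C.aE.twist.σ C.kE.D.w0) (lpow (C.kE.D.U (C.aE.twist.σ C.kE.D.w0)) e) :
        GlobKer C.mE.L.fam) := by
    refine isTw_single C (t := C.aE.twist) _ ?_
    refine H59K.TwL.lpow (t := C.aE.twist) ?_ e
    have hi : ∀ i, i = C.w0 → IsInd (C.kE.D.U i) (cellU (i.valuation E) (exp (-(1 : ℤ)))) := by
      rintro i rfl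
      exact C.kE.U_ind
    refine H59K.twL_of_isInd (t := C.aE.twist) (hi _ C.kE.D_w0)
      (hi _ (hσ.trans C.kE.D_w0)) fun g => ?_
    exact H59K.cellU_map (C.aE.val _) g
  rwa [hσ] at key

/-! ### The operator data -/

theorem s_comm_E (l : Lab C.kE.D) :
    sB C.aE * labY C.kE.D 1 (rhoU C.w0 1) l = labY C.kE.D 1 (rhoU C.w0 1) (sg C l) * sB C.aE := by
  match l with
  | Sum.inl (Sum.inl w) => exact sB_gopB C.aE (isTw_T C w.2)
  | Sum.inl (Sum.inr κ) => exact sB_rkB C.aE κ.2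
  | Sum.inr u =>
    show sB C.aE * (rhoU C.w0 1 • gopB C.mE (single C.kE.D.w0 (lpow (C.kE.D.U C.kE.D.w0) 1))) =
      (rhoU C.w0 1 • gopB C.mE (single C.kE.D.w0 (lpow (C.kE.D.U C.kE.D.w0) 1))) * sB C.aE
    rw [mul_smul_comm, smul_mul_assoc, sB_gopB C.aE (isTw_U C 1)]

/-! ### The kernels -/

theorem herm_tkE {κ : (Fin 3 → ℝ) → ℂ} (hκ : ∀ t, conj (κ t) = κ t)
    (n : HeightOneSpectrum (𝓞 E) →₀ ℕ) (x y : C.mE.X) :
    C.tkE κ n 0 y x = conj (C.tkE κ n 0 x y) := by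
  show κ (H5Z.chv y.1 x.1) * (C.kE.D.mono n 0).k y.2 x.2 =
    conj (κ (H5Z.chv x.1 y.1) * (C.kE.D.mono n 0).k x.2 y.2)
  rw [map_mul, hκ, H56Z.chv_comm, KD.mono_symm C.kE
    (fun w hw x => by rw [C.psiE w hw, H7.Z.norm_psi])]

theorem herm_tkF {κ : (Fin 1 → ℝ) → ℂ} (hκ : ∀ t, conj (κ t) = κ t)
    (n : HeightOneSpectrum (𝓞 F) →₀ ℕ) (x y : C.mF.X) :
    C.tkF κ n 0 y x = conj (C.tkF κ n 0 x y) := by
  show κ (H5Z.chv y.1 x.1) * (C.kF.D.mono n 0).k y.2 x.2 =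
    conj (κ (H5Z.chv x.1 y.1) * (C.kF.D.mono n 0).k x.2 y.2)
  rw [map_mul, hκ, H56Z.chv_comm, KD.mono_symm C.kF
    (fun w hw x => by rw [C.psiF w hw, H7.Z.norm_psi])]

theorem conj_bF {κ : (Fin 3 → ℝ) → ℂ} (hκ : ∀ t, conj (κ t) = κ t) (t : Fin 1 → ℝ) :
    conj (bF κ t) = bF κ t := by
  have h : κ = fun t => (((κ t).re : ℝ) : ℂ) := by
    funext t
    exact (Complex.conj_eq_iff_re.1 (hκ t)).symm
  rw [h, H67M.bF_ofReal]
  exact Complex.conj_ofReal _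

/-! ### The comparison -/

theorem compar_core {a : HeightOneSpectrum (𝓞 E) → ℝ}
    (ha : ∀ (s : E ≃ₐ[F] E) (w : HeightOneSpectrum (𝓞 E)), a (H47.smulPlace s w) = a w)
    (ha0 : |a C.w0| ≤ 2) (hgeom : C.Geom) (Fm : CFam C a) {Φ : C.mE.X → ℂ}
    (hΦ : IsEForm C a Φ) :
    ∃ μ : HeightOneSpectrum (𝓞 F) → ℝ,
      (∀ v ∉ C.SF, ¬ H82.NonSplit E v → ∀ w ∈ H82.above E v, μ v = a w) ∧
      COutE F (C.mF.e 0) C.SF C.v0 μ := by
  let := Fm.fin
  obtain ⟨cE, hcE⟩ := H26Z.exists_cutOff C.mE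
  obtain ⟨cF, hcF⟩ := H26Z.exists_cutOff C.mF
  have ckE : H17S.CK (H17S.coarse C.mE) (fun x y => ∑ i, C.tkE (Fm.κ i) (Fm.n i) 0 x y) :=
    H17S.CK.sum Finset.univ fun i _ => H17S.ck_ker (Fm.rc i) _
  have ckF : H17S.CK (H17S.coarse C.mF) (fun x y => ∑ i, C.tkB (Fm.κ i) (Fm.n i) 0 x y) :=
    H17S.CK.sum Finset.univ fun i _ => H17S.ck_ker (isRC_bF (Fm.rc i)) _
  have hKE := Fm.bdE.BK ckE
  have hKF := Fm.bdF.BK ckF
  have hGE : ∀ (g : PGL(2, E)) x y,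
      autK PGL(2, E) (fun x y : C.mE.X => ∑ i, C.tkE (Fm.κ i) (Fm.n i) 0 x y) (g • x) y =
      autK PGL(2, E) (fun x y : C.mE.X => ∑ i, C.tkE (Fm.κ i) (Fm.n i) 0 x y) x y :=
    fun g x y => autK_smul_left ckE.inv x y g
  have hGF : ∀ (g : PGL(2, F)) x y,
      autK PGL(2, F) (fun x y : C.mF.X => ∑ i, C.tkB (Fm.κ i) (Fm.n i) 0 x y) (g • x) y =
      autK PGL(2, F) (fun x y : C.mF.X => ∑ i, C.tkB (Fm.κ i) (Fm.n i) 0 x y) x y :=
    fun g x y => autK_smul_left ckF.inv x y g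
  have hsE : ∀ x y,
      autK PGL(2, E) (fun x y : C.mE.X => ∑ i, C.tkE (Fm.κ i) (Fm.n i) 0 x y) y x =
      conj (autK PGL(2, E) (fun x y : C.mE.X => ∑ i, C.tkE (Fm.κ i) (Fm.n i) 0 x y) x y) := by
    refine autK_symm ckE.inv fun x y => ?_
    rw [map_sum]
    exact Finset.sum_congr rfl fun i _ => herm_tkE C (Fm.real i) (Fm.n i) x y
  have hsF : ∀ x y,
      autK PGL(2, F) (fun x y : C.mF.X => ∑ i, C.tkB (Fm.κ i) (Fm.n i) 0 x y) y x =
      conj (autK PGL(2, F) (fun x y : C.mF.X => ∑ i, C.tkB (Fm.κ i) (Fm.n i) 0 x y) x y) := by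
    refine autK_symm ckF.inv fun x y => ?_
    rw [map_sum]
    exact Finset.sum_congr rfl fun i _ => herm_tkF C (conj_bF (Fm.real i)) _ x y
  -- the operator data
  let D : OpData (JR C) hKE (cE.ν C.mE.μ) hGE :=
    opd C.kE cE Finset.univ Fm.rc Fm.n 1 one_pos (jE C) (jE_real C) (sg C) (sgF3 C) (sB C.aE)
      (sB_mem_Cm Finset.univ Fm.rc (fun i => C.kE.D.mono (Fm.n i) 0) cE C.aE Fm.s_inv)
      (sB_pow_three C.aE (act_three C.aE (sss C) (σσσ C) (ccc C))) (s_comm_E C)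
  let D' : OpData (JR C) hKF (cF.ν C.mF.μ) hGF :=
    opd C.kF cF Finset.univ (κ := fun i => bF (Fm.κ i)) (fun i => isRC_bF (Fm.rc i))
      (fun i => (Fm.n i).mapDomain (H47.below F)) 3 (by norm_num) (jF C) (jF_real C)
      (Equiv.refl _) (fun _ => rfl) 1 (Subalgebra.one_mem _) (one_pow 3)
      (fun l => by rw [one_mul, mul_one]; rfl)
  -- the trace identity
  have hρ : rhoU C.w0 1 = rhoU C.v0 3 := by
    unfold rhoU
    rw [pow_one, H42T.sqrt_w0 C]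
    push_cast
    rfl
  have TI := H42T.TI_R C hgeom cE cF Fm.κ Fm.rc Fm.n Fm.ok Fm.bdE Fm.bdF hsE hsF D D'
    (fun l => by rcases l with w | κ <;> rfl) (fun l => by rcases l with w | κ <;> rfl)
    (rhoU C.w0 1) rfl (by rw [hρ]; rfl) rfl rfl
  -- the target
  have hb := Fm.bddE Φ hΦ
  obtain ⟨c, hc⟩ := H56Z.exists_real_val a Finset.univ (fun i _ => Fm.real i) Fm.n
  have hc0 : c ≠ 0 := by
    intro h0
    apply Fm.val_ne
    rw [← hc, h0, Complex.ofReal_zero]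
  have hker : kop hKE (cE.ν C.mE.μ) hGE (hΦ.toB hb) = (c : ℂ) • hΦ.toB hb := by
    rw [hc]
    exact hΦ.kop_toB hb Finset.univ Fm.rc (fun i _ => Fm.ok i) cE hKE hGE
  let χ : Lab C.kE.D → ℂ
    | Sum.inl (Sum.inl w) => (evT a w.1 : ℂ)
    | Sum.inl (Sum.inr κ) => H9Z.hat κ.1
    | Sum.inr _ => 0
  have hΦb : IsEForm C a (hΦ.toB hb : C.mE.X → ℂ) := hΦ
  obtain ⟨y, p₀, hy, -, hp1, hpa, hpz, hz1, hpχ, hpx⟩ := hΦb.exists_p0 D hsE ha0 rfl rfl rfl hc0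
    hker (χ := χ) (fun k hk => by
      match k with
      | Sum.inl (Sum.inl w) => exact hΦ.gopB_T hb (good_of_lab C.kE w.2).1 (good_of_lab C.kE w.2).2
      | Sum.inl (Sum.inr κ) => exact hΦ.rkB_toB hb κ.2
      | Sum.inr _ => exact absurd rfl hk)
    (fun k hk => by
      match k with
      | Sum.inl (Sum.inl w) =>
        exact commute_single (good_of_lab C.kE w.2).2 (C.kE.D.T w.1) (KD.Wk C.kE)
      | Sum.inl (Sum.inr κ) => exact rkB_gopB_commute C.mE κ.2 _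
      | Sum.inr _ => exact absurd rfl hk) rfl
    (fun k hk => by
      match k with
      | Sum.inl (Sum.inl w) =>
        show (evT a (C.aE.σ w.1) : ℂ) = (evT a w.1 : ℂ)
        rw [evT_σ C ha]
      | Sum.inl (Sum.inr κ) => exact hat_perm C.aE κ.1
      | Sum.inr _ => exact absurd rfl hk)
  -- positivity
  have hpos := H50Z.hpos_E Fm.rc Fm.n cE hsE D
    (fun w => Sum.inl (Sum.inl ⟨w.1, by rw [C.kE.D_S, C.kE.D_w0]; exact w.2⟩))
    (fun w => rfl) (fun w w' h => by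
      show Sum.inl (Sum.inl _) = Sum.inl (Sum.inl _)
      congr 2
      exact Subtype.ext h.symm) Sum.inr (fun κ => rfl) rfl p₀
    (fun κ => hpx (Sum.inr κ) (by intro h; cases h))
  -- the operator `U` on the side of `F`
  have hDT : D'.T = (((Real.sqrt ((Ideal.absNorm C.v0.asIdeal : ℕ) : ℝ))⁻¹ : ℝ) : ℂ) •
      gopB C.mF (single C.v0 (C.kF.D.U C.v0)) := by
    show (((Real.sqrt ((Ideal.absNorm C.v0.asIdeal : ℕ) : ℝ))⁻¹ : ℝ) : ℂ) •
      (WB C.kF * (PB' C.kF - 1)) = _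
    rw [← UB_eq']
    rfl
  have hcomm : ∀ k, Commute D'.T (D'.Y k) := by
    intro k
    rw [hDT]
    refine Commute.smul_left ?_ _
    match k with
    | Sum.inl (Sum.inl v) =>
      exact (commute_single (good_of_lab C.kF v.2).2 (C.kF.D.T v.1) (C.kF.D.U C.v0)).symm
    | Sum.inl (Sum.inr κ) => exact (rkB_gopB_commute C.mF κ.2 _).symm
    | Sum.inr _ =>
      show Commute _ (rhoU C.v0 3 •
        gopB C.mF (single C.kF.D.w0 (lpow (C.kF.D.U C.kF.D.w0) 3)))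
      refine Commute.smul_right ?_ _
      rw [gopB_single_w0 C.kF.D C.kF.D_w0, lopB_lpow]
      exact (Commute.refl (lopB C.mF C.v0 (C.kF.D.U C.v0))).pow_right 3
  -- extraction
  obtain ⟨c', μ, χ', Ψ, hc', hΨ, hk', hT, -, hμ0, hY, hx⟩ :=
    H44Z.extract (D.side hsE) D' hsF hcomm 1 TI p₀ hpa hpos hz1
  have hsq : ((Real.sqrt ((Ideal.absNorm C.v0.asIdeal : ℕ) : ℝ) : ℝ) : ℂ) ≠ 0 := by
    have h1 : Ideal.absNorm C.v0.asIdeal ≠ 0 := by
      rw [Ne, Ideal.absNorm_eq_zero_iff]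
      exact C.v0.ne_bot
    have h2 : (0 : ℝ) < ((Ideal.absNorm C.v0.asIdeal : ℕ) : ℝ) := by
      exact_mod_cast Nat.pos_of_ne_zero h1
    exact_mod_cast (Real.sqrt_pos.mpr h2).ne'
  refine H44Z.out_of_kop C Fm.κ Fm.n cF a Fm.rc hc' hΨ hk' (fun v hv h0 => ?_) (fun w hw => ?_)
    (u := ((Real.sqrt ((Ideal.absNorm C.v0.asIdeal : ℕ) : ℝ) : ℝ) : ℂ) * μ)
    (mul_ne_zero hsq hμ0) ?_ (fun k hk => ?_) (fun k hk => ?_)
  · exact ⟨_, hY (Sum.inl (Sum.inl ⟨v, by rw [C.kF.D_S, C.kF.D_w0]; exact ⟨hv, h0⟩⟩))⟩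
  · have h1 := hx (Sum.inl ⟨w, hw⟩)
    have h2 := hpx (Sum.inl ⟨w, hw⟩) (by intro h; cases h)
    rw [h2] at h1
    exact h1
  · rw [hDT, LinearMap.smul_apply] at hT
    rw [mul_smul, ← hT, smul_smul, Complex.ofReal_inv, mul_inv_cancel₀ hsq, one_smul]
  · exact ⟨_, hY (Sum.inl (Sum.inr ⟨fun t => (k t : ℂ), hk⟩))⟩
  · have h1 := hx (Sum.inr ⟨k, hk⟩)
    have h2 := hpx (Sum.inr ⟨k, hk⟩) (by intro h; cases h)
    rw [h2] at h1
    exact h1

/-- **The comparison.** -/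
theorem compar : Compar := by
  intro F E _ _ _ _ _ C a ha ha0 hgeom Fm ⟨Φ, hΦ⟩
  exact compar_core C ha ha0 hgeom Fm hΦ

end

end Fermat.Agent.H79S
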