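import Fermat.Agent.H15S47Three
import Fermat.Agent.H17CF
import Fermat.Agent.H79SCmp

/-!
# Guide, block (C) of S47: cubic descent from the sextic field `E` to `M = ℚ(ω)`

This file proves nothing new. It lists, in logical order and with all hypotheses written out, the
main theorems of block (C) of the proof of S47 (the octahedral case of the theorem of Langlands and
Tunnell); every proof is a citation. All theorems cited here are used in the proof of `S47`.
Notes: [415], 6.1 to 6.6 (overview), [448] (interfaces and assembly); setup [429], [459]; operator `C`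
[443], [420], [470], [434], [431], [486], [407]; trace identity [393], [449], [435]; spectral side
[438], [412], [482], [450], [480]; output [421], [451], [471].

**What the block does.** `F = ℚ(ω)`, `ω` a primitive third root of unity (written `M` in NOTES.md),
`E / F` is cyclic of degree three with generator `s`, both fields are totally complex. Given is a
function `Φ` on the arithmetic space of `PGL₂` over `E` (block (D)) which is an eigenfunction of all
Hecke operators `T_w` with eigenvalues `√(N w) a_w`, `a_w = a_{s w}`, and of all radial kernels at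
infinity with the eigenvalues of spectral parameter `0`. Wanted is such a function over `F` whose
eigenvalues at the places `v` which split in `E` are the `√(N v) a_w`, `w ∣ v`. At the other places
nothing is claimed. This is (a weak form of) the cubic base change of Langlands, in the direction
from `E` down to `F`, for forms of spectral parameter `0`.

**How it is done.** The trace of an operator on the space of functions over `E`, multiplied by `s`,
is compared with the trace of the matching operator over `F`. There is no continuous spectrum in the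
argument, because one only works with operators divisible by an operator `C` which kills all constant
terms and has a bounded kernel. The geometric sides only contain elliptic classes, because the
operators contain a high power of the operator `U` at an auxiliary place. A positivity argument
(`s` acts as the identity on the relevant eigenspaces) shows that the trace over `E` is not zero at
the eigenvalues of `Φ`, hence they occur over `F`.

**Order of this file.** 1. the language; 2. the five parts of the block and their composition;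
3. the operator `C`; 4. the geometric side (explained in the second file `GuideOctCGeom`); 5. the
spectral side; 6. from the form over `F` to a function on `H3`; 7. the final statement of the block.

**Companion files.** Setup and geometric side: `GuideOctCSetup` (the concrete setup), `GuideLatticeTypes`
(the lattices and types), `GuideOctCGeom` (the geometric comparison; steps: `GuideOctCSteps`,
`GuideOctCOrbital`, `GuideOctCInfinity`), `GuideOctCLocal` (the local computations behind it; steps:
`GuideStableLines`, `GuideOctCInert`), `GuideOctCSplit` (the places over split primes), `GuideOctCBad`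
(bad places with one place above them), `GuideOctCLevel` (operators on coset spaces, change of level).
Spectral side: `GuideOctCSpec` (operators, traces, the operator `C`, extraction of the form over `F`;
steps: `GuideOctCSpecSteps`, `GuideOctCSteps`), `GuideOctCKernels` (kernels on the model, the family of
`C`), `GuideOctCOperator` (the kernel of `C`, step by step), `GuideConstantTerms`,
`GuideOctCSeparation` (separation of eigenvalues and trace identity, step by step), `GuideOctCTarget`
(the form over `E`, the target index), `GuideOctCForms` (Fourier coefficients and positivity; steps: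
`GuideWhittaker`). Output: `GuideOctCOutput` (the function on `H3` and its coefficients),
`GuideOctCTwists` (`ℤ[ω]`, additive twists, multiplicativity). General tools: `GuideHyperbolic` (steps:
`GuideRadial`), `GuideEigenfunctions` (steps: `GuideBessel`), `GuideSiegel` (reduction theory; steps:
`GuideSiegelSets`, `GuideLocalLattices`), `GuideTrace` (cut-offs, trace identity; steps:
`GuideTraceSteps`, `GuideBoundedKernels`). Before this block: `GuideOctD`, `GuideOctDTheta`,
`GuideOctDForm`; after it: `GuideOctT`; composition of the blocks of S47: `GuideOctahedral`.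
-/

set_option autoImplicit false

open IsDedekindDomain HeightOneSpectrum WithZero NumberField Matrix MeasureTheory
open scoped MatrixGroups ComplexConjugate ENNReal

noncomputable section

namespace Fermat.Agent.Guide.OctC

open Fermat.Agent.H59XF Fermat.Agent.H59D Fermat.Agent.H79S

/-! ## 1. The language

`K` is a totally complex number field. A `Model K J` is an enumeration `e : J → (K →+* ℂ)` of its
infinite places and a level `L`: a family of subgroups `L.U w` of `PGL₂(K)`, one for every finite place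
`w`, each of them open and bounded for the `w`-adic topology, almost all of them equal to `U0 w`. Its
space is `X = (H3)^J × X_f`, where `H3` is hyperbolic three space and `X_f` (`XF m.L.fam`) the
restricted product of the discrete sets `PGL₂(K) / L.U w`. There are no completions and no adeles. An
automorphic form is a function on `X` which is invariant under the countable discrete group `PGL₂(K)`. -/

/-- The maximal compact subgroup `U0 w` of `PGL₂(K)` at the finite place `w`: the classes of the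
matrices with `w`-integral entries whose determinant is a `w`-adic unit. -/
theorem mem_U0_iff {K : Type*} [Field K] [NumberField K] (w : HeightOneSpectrum (𝓞 K))
    (h : PGL(2, K)) :
    h ∈ (U0 w : Subgroup PGL(2, K)) ↔ ∃ g : GL (Fin 2) K,
      ((∀ i j, w.valuation K (g i j) ≤ 1) ∧
        w.valuation K (g : Matrix (Fin 2) (Fin 2) K).det = 1) ∧ ProjGenLinGroup.mk g = h :=
  Iff.rfl

/-- The action of `PGL₂(K)` on the space `X` of a model is diagonal: through the complex embedding
`e j` on the `j`-th copy of hyperbolic space, and by left translations on the cosets at the finite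
places. -/
theorem smul_eq {K : Type*} [Field K] [NumberField K] {J : Type*} [Fintype J] (m : Model K J)
    (g : PGL(2, K)) (x : m.X) (j : J) (w : HeightOneSpectrum (𝓞 K)) :
    (g • x).1 j = (ProjGenLinGroup.map (m.e j) g : PGL(2, ℂ)) • x.1 j ∧
      (g • x).2 w = g • x.2 w :=
  ⟨rfl, rfl⟩

/-- Test kernels and automorphic kernels. `κ` is a radial kernel at infinity, a function of the numbers
`cosh d(x_j, y_j)`; `b : GlobKer m.L.fam` is a family of invariant kernels `b.loc w` of finite range on
the sets `PGL₂(K) / L.U w`, almost all of them the unit kernel (a Hecke operator; see `GuideOctCLevel`).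
The test kernel is the product `m.ker κ b.k`, and its automorphic kernel is the sum over the group
`PGL₂(K)`. -/
theorem autK_ker_eq {K : Type*} [Field K] [NumberField K] {J : Type*} [Fintype J] (m : Model K J)
    (κ : (J → ℝ) → ℂ) (b : GlobKer m.L.fam) (x y : m.X) :
    H32Z.CutOff.autK PGL(2, K) (m.ker κ b.k) x y = ∑' g : PGL(2, K),
      κ (fun j => H3.ch (x.1 j) ((g • y).1 j)) *
        ∏ᶠ w : HeightOneSpectrum (𝓞 K), (b.loc w).k (x.2 w) ((g • y).2 w) :=
  rfl

/-- **Radial kernels.** `IsRC κ` (`H56Z`): `κ` is continuous, bounded, and zero as soon as one variable is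
large. `Rk κ g` is the integral operator of `κ` on functions on `(H3)^J` (`ch` = `cosh` of the hyperbolic
distance), and `hat κ` its eigenvalue on the function `∏ y_j`: this is the eigenvalue "at spectral
parameter `0`", the boundary of the tempered spectrum (`Δ = -1` in every variable). -/
theorem radial_kernels {J : Type*} [Fintype J] (κ : (J → ℝ) → ℂ) (g : (J → H3) → ℂ)
    (x : J → H3) :
    (H56Z.IsRC κ ↔ Continuous κ ∧ (∃ M : ℝ, ∀ u, ‖κ u‖ ≤ M) ∧
      ∃ R : ℝ, ∀ u, (∃ j, R < u j) → κ u = 0) ∧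
    H5Z.Rk κ g x = ∫ w : J → H3, κ (fun j => H3.ch (x j) (w j)) * g w ∧
    H9Z.hat κ = H5Z.Rk κ (fun w => ∏ j, ((w j).y : ℂ)) fun _ => H3.base :=
  ⟨⟨fun h => ⟨h.1, h.2, h.3⟩, fun h => ⟨h.1, h.2.1, h.2.2⟩⟩, rfl, rfl⟩

/-- **Types** (`H76U2`). A datum `T : TD K` consists of three lattices (additive groups) `A`, `B`, `C` in
`K` with `A A, B C ⊆ A`, `A B ⊆ B`, `A C ⊆ C`, and `1 + A` stable under inverses, and an additive
character `psi` trivial on `A B`. It defines the group `T.H` of the classes of the matrices `1 + x`,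
`x` in `(A B; C A)`, its character `T.chi`, and the level `T.U`, the kernel of this character. At the
bad places the test kernels are the idempotents of types. -/
theorem types {K : Type*} [Field K] (T : H76U.TD K) (g : PGL(2, K)) :
    (g ∈ T.H ↔ ∃ x : GL (Fin 2) K, (x 0 0 - 1 ∈ T.A ∧ x 0 1 ∈ T.B ∧ x 1 0 ∈ T.C ∧
      x 1 1 - 1 ∈ T.A) ∧ ProjGenLinGroup.mk x = g) ∧
    (g ∈ T.U ↔ g ∈ T.H ∧ T.chi g = 1) ∧
    ∀ x : GL (Fin 2) K, T.chi (ProjGenLinGroup.mk x) = T.psi (x 0 1 / x 1 1) :=
  ⟨Iff.rfl, Iff.rfl, T.chi_mk⟩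

/-- There are cut-off functions `χ ≥ 0` on `X` with `Σ_g χ(g x) = 1` for which the measure `χ μ` is
finite (`μ` = hyperbolic volume times counting measure): the quotient of `X` by `PGL₂(K)` has finite
volume. Integrals over the quotient are integrals against `χ μ`. This is reduction theory
(`H26ZCut`, from `H26Z*`, `H58R*`, `H64L*`): a Siegel set over a finite subset of `X_f` meets every
orbit. -/
theorem exists_cutOff {K : Type*} [Field K] [NumberField K] {J : Type*} [Fintype J]
    (m : Model K J) :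
    ∃ χ : m.X → ℝ≥0∞, Measurable χ ∧ (∀ x, ∑' g : PGL(2, K), χ (g • x) = 1) ∧
      IsFiniteMeasure (m.μ.withDensity χ) :=
  (H26Z.exists_cutOff m).elim fun c h => ⟨c.χ, c.meas, c.sum_eq, h⟩

/-! ## 2. The parts of the block and their composition

The composition is `H79S.blockC_of` (file `H79SBlk`), the five parts are the next theorems. The border
objects between the parts are structures: `CSetup F E` (the models over `E` and `F`, the bad places
`SE`, `SF`, the types at the bad places, the auxiliary place `v0` of `F`, inert in `E`, with the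
place `w0` above it), `IsEForm C a Φ` (the given form on `X(E)`), `CFam C a` (the operator `C`),
`COutE` (the output over `F`). `C.kE`, `C.kF : KerData` are the local kernels on the two models
(`GuideOctCTarget`), `C.kE.D.mono n k` is the global kernel
`∏ T_w^{n(w)} · U^k · (idempotents of the types)`, `C.tkE κ n k` its product with a radial kernel `κ`
(a test kernel over `E`), and `C.tkB κ n k` the matching test kernel over `F` (see `geom_iff`).
`H82.NonSplit E v` means that there is exactly one place of `E` above `v`, `H47.below F w` is the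
place of `F` below `w`, and `C.Ok w` means that `w` is not bad and that the place below it splits
in `E`. -/

/-- **The geometric comparison**, as a property of a setup. For all cut-off functions, all radial
kernels `κ` and all monomials `∏ T_w^{n(w)}` in the Hecke operators at the allowed places there is a
`k₀` such that for all `k ≥ k₀` the integral `∫ K_E(x, s x)` over `PGL₂(E) \ X(E)` is equal to
`∫ K_F(y, y)` over `PGL₂(F) \ X(F)`. Here `K_E` is the automorphic kernel of `κ`, `∏ T_w^{n(w)}`, `U^k`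
and the idempotents of the types, and `K_F` the one of `bF κ` (`κ₁ ⊗ κ₂ ⊗ κ₃ ↦ κ₁ * κ₂ * κ₃`, see
`matching_infinity` in `GuideOctCGeom`), `∏ T_v^{n(w)}` (`w ∣ v`), `U^{3k}` and the idempotents. -/
theorem geom_iff {F E : Type} [Field F] [NumberField F] [Field E] [NumberField E] [Algebra F E]
    (C : CSetup F E) :
    C.Geom ↔ ∀ (cE : H32Z.CutOff PGL(2, E) C.mE.X) (cF : H32Z.CutOff PGL(2, F) C.mF.X)
      (κ : (Fin 3 → ℝ) → ℂ), H56Z.IsRC κ → ∀ n : HeightOneSpectrum (𝓞 E) →₀ ℕ,
      (∀ w ∈ n.support, w ∉ C.SE ∧ ¬ H82.NonSplit E (H47.below F w)) → ∃ k0 : ℕ, ∀ k ≥ k0,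
        Integrable (fun x => H32Z.CutOff.autK PGL(2, E)
          (C.mE.ker κ (C.kE.D.mono n k).k) x (C.aE.act x)) (cE.ν C.mE.μ) ∧
        Integrable (fun y => H32Z.CutOff.autK PGL(2, F) (C.mF.ker (H67M.bF κ)
          (C.kF.D.mono (n.mapDomain (H47.below F)) (3 * k)).k) y y) (cF.ν C.mF.μ) ∧
        ∫ x, H32Z.CutOff.autK PGL(2, E)
            (C.mE.ker κ (C.kE.D.mono n k).k) x (C.aE.act x) ∂(cE.ν C.mE.μ) =
          ∫ y, H32Z.CutOff.autK PGL(2, F) (C.mF.ker (H67M.bF κ)
            (C.kF.D.mono (n.mapDomain (H47.below F)) (3 * k)).k) y y ∂(cF.ν C.mF.μ) :=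
  Iff.rfl

/-- **Part 1: the setup exists** (`H43ZFin`, from `H76V*`, `H83ZInst*`, `H22CFin`). `F = ℚ(ω)`,
`E / F` is Galois of degree three, `e` an embedding of `E`, and there are places of `F` inert in `E`
prime to every given integer (`InertEx`). Then for every `N₁` there is a multiple `N₀` such that for
all `k`, `c₀` there is a setup `C` whose bad places are the divisors of `N₀`, whose types are
admissible of depth `(k, c₀)` (so that block (D) applies), and for which the geometric comparison
`C.Geom` holds. How the record is constructed: `GuideOctCSetup`; proof of `C.Geom`: `GuideOctCGeom`. -/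
theorem setup (F E : Type) [Field F] [NumberField F] [IsCyclotomicExtension {3} ℚ F] [Field E]
    [NumberField E] [Algebra F E] [IsGalois F E] (h3 : Module.finrank F E = 3) (e : E →+* ℂ)
    (hI : ∀ n : ℕ, 0 < n → ∃ v : HeightOneSpectrum (𝓞 F), (n : 𝓞 F) ∉ v.asIdeal ∧
      H82.NonSplit E v ∧ ∀ w ∈ H82.above E v, v.asIdeal.ramificationIdx' w.asIdeal = 1)
    (N₁ : ℕ) (hN₁ : N₁ ≠ 0) :
    ∃ N₀ : ℕ, N₀ ≠ 0 ∧ N₁ ∣ N₀ ∧ 6 ∣ N₀ ∧ ∀ k c₀ : ℕ, ∃ C : CSetup F E,
      C.mF.e 0 = e.comp (algebraMap F E) ∧ C.SF = H46Z.divs F N₀ ∧ C.SE = H46Z.divs E N₀ ∧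
      (∀ w ∈ C.SE, H55D.Adm w (C.TE w) k c₀) ∧ C.Geom :=
  H43Z.setupEx F E h3 e hI N₁ hN₁

/-- **Part 2: the form over `E`** (`H56ZTgt1`, `H56ZTgt2`, `H56ZTgtA`, with `H50Z*`). The output of
block (D) is a form `Φ ≠ 0` on every model of `E` with admissible types and maximal level elsewhere.
(`Typ (U w)`: a group `H` containing `U w` and normalising it, with a character trivial on `U w`.
Admissible of depth `(k, c₀)`, `H55D.Adm`: the additive character is the standard one, `A` is contained
in the `k`-th power of the maximal ideal, and for some `n` it contains the `n`-th power and `C`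
is contained in the `(2n + c₀)`-th power.) It gives a form on the model of the setup, of Iwahori level at
`w0` but still right invariant under the maximal compact subgroup there. Its eigenvalues are
`√(N w) a_w` for all `w` which are not bad. -/
theorem target (F E : Type) [Field F] [NumberField F] [Field E] [NumberField E] [Algebra F E]
    (C : CSetup F E) (a : HeightOneSpectrum (𝓞 E) → ℝ) (k c₀ : ℕ)
    (hadm : ∀ w ∈ C.SE, H55D.Adm w (C.TE w) k c₀)
    (hD : ∀ (J : Type) [Fintype J] (m : Model E J) (T : HeightOneSpectrum (𝓞 E) → H76U.TD E)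
      (Ty : ∀ w, H76U.Typ (m.L.fam.U w)), (∀ w ∈ C.SE, H55D.Adm w (T w) k c₀) →
      (∀ w ∈ C.SE, (Ty w).H = (T w).H) →
      (∀ w ∈ C.SE, ∀ g ∈ (T w).H, (Ty w).chi g = (T w).chi g) → (∀ w ∉ C.SE, m.L.U w = U0 w) →
      ∃ Φ : m.X → ℂ, H55D.IsDForm m C.SE Ty a Φ) :
    ∃ Φ : C.mE.X → ℂ, IsEForm C a Φ :=
  H56Z.tgtA F E C a k c₀ hadm hD

/-- **Part 3: the operator `C`** (`H17CF`, from `H17CFam`, `H17B1`, `H17B2`, `H39Z*`, `H80*`, `H59K*`,
`H95S*`, `H86B*`, `H31I*`).
If the `a_w` are invariant under `Gal(E/F)` and vanish at the three places of `E` above suitable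
primes `p ≡ -1` modulo any given `n`, there is a finite family of test kernels `κ_i ⊗ ∏ T_w^{n_i(w)}`
whose sum `C` is invariant under `s` and has the following properties: its automorphic kernels over
`E` and over `F` are bounded, it acts on the given form by a number `≠ 0` (the sum of the
`κ_i^(0) ∏ (√(N w) a_w)^{n_i(w)}`), and the given form is bounded. (The hypothesis `ha` is part of the
interface and not used in this part.) -/
theorem operator_C (F E : Type) [Field F] [NumberField F] [IsCyclotomicExtension {3} ℚ F]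
    [Field E] [NumberField E] [Algebra F E] (C : CSetup F E) (a : HeightOneSpectrum (𝓞 E) → ℝ)
    (ha : ∀ (s : E ≃ₐ[F] E) (w : HeightOneSpectrum (𝓞 E)), a (H47.smulPlace s w) = a w)
    (hp : ∀ n : ℕ, 0 < n → ∃ p : ℕ, p.Prime ∧ ¬ p ∣ n ∧ (p : ZMod n) = -1 ∧ p % 3 = 2 ∧
      (H46Z.divs E p).card = 3 ∧ ∀ w ∈ H46Z.divs E p, a w = 0) :
    ∃ (ι : Type) (_ : Fintype ι) (κ : ι → (Fin 3 → ℝ) → ℂ)
      (n : ι → HeightOneSpectrum (𝓞 E) →₀ ℕ), (∀ i, H56Z.IsRC (κ i)) ∧
      (∀ i t, conj (κ i t) = κ i t) ∧ (∀ i, ∀ w ∈ (n i).support, C.Ok w) ∧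
      (∀ x y, ∑ i, C.tkE (κ i) (n i) 0 (C.aE.act x) (C.aE.act y) =
        ∑ i, C.tkE (κ i) (n i) 0 x y) ∧
      (∃ B : ℝ, 0 ≤ B ∧ ∀ x y : C.mE.X,
        ‖H32Z.CutOff.autK PGL(2, E) (fun x y => ∑ i, C.tkE (κ i) (n i) 0 x y) x y‖ ≤ B) ∧
      (∃ B : ℝ, 0 ≤ B ∧ ∀ x y : C.mF.X,
        ‖H32Z.CutOff.autK PGL(2, F) (fun x y => ∑ i, C.tkB (κ i) (n i) 0 x y) x y‖ ≤ B) ∧
      ∑ i, H9Z.hat (κ i) * (n i).prod (fun w k =>
        ((Real.sqrt (Ideal.absNorm w.asIdeal) * a w : ℝ) : ℂ) ^ k) ≠ 0 ∧
      ∀ Φ : C.mE.X → ℂ, IsEForm C a Φ → ∃ M : ℝ, ∀ x, ‖Φ x‖ ≤ M :=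
  (H17S.cfamEx F E C a ha hp).elim fun c => ⟨c.ι, c.fin, c.κ, c.n, c.rc, c.real, c.ok, c.s_inv,
    c.bdE, c.bdF, c.val_ne, c.bddE⟩

/-- **Part 4: the comparison** (`H79SCmp`, see section 5; how it is composed: `GuideOctCSeparation`,
section 5; second composition, outside the closure: `H21Z9`). From the geometric comparison, the operator
`C` and the form over `E` one gets real numbers `μ_v` with `μ_v = a_w` if `v` splits in `E` and
`w ∣ v`, and a form over `F` with the Hecke eigenvalues `√(N v) μ_v`, the types of the setup, and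
spectral parameter `0` (`COutE`). -/
theorem comparison (F E : Type) [Field F] [NumberField F] [Field E] [NumberField E]
    [Algebra F E] (C : CSetup F E) (a : HeightOneSpectrum (𝓞 E) → ℝ)
    (ha : ∀ (s : E ≃ₐ[F] E) (w : HeightOneSpectrum (𝓞 E)), a (H47.smulPlace s w) = a w)
    (ha0 : |a C.w0| ≤ 2) (hgeom : C.Geom) (hC : CFam C a) (Φ : C.mE.X → ℂ)
    (hΦ : IsEForm C a Φ) :
    ∃ μ : HeightOneSpectrum (𝓞 F) → ℝ,
      (∀ v ∉ C.SF, ¬ H82.NonSplit E v → ∀ w ∈ H82.above E v, μ v = a w) ∧
      COutE F (C.mF.e 0) C.SF C.v0 μ :=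
  H79S.compar F E C a ha ha0 hgeom hC ⟨Φ, hΦ⟩

/-- **Part 5: the output on `H3`** (`H40K1`-`H40K7`, `H85I1`-`H85I4`, `H72R*`, `H69I1`). From the form over
`K = ℚ(ω)`, of any types at `S` and Iwahori level at `v0`, one gets `(I-CT)`: a level `N`,
multiplicative real coefficients `c` on `ℤ[ω]`, supported in the elements prime to `N`, and a bounded
function on `H3`, invariant under `Γ₀(N)`, of spectral parameter `0`, with the Fourier expansion
`F(z, y) = Σ c(α) y K₀(4π|α|y/√3) e(2 Re(αz/√-3))`; moreover `c(ϖ) = a_v` if `ϖ` generates `v`,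
`v ∤ N`. -/
theorem output (K : Type) [Field K] [NumberField K] [IsCyclotomicExtension {3} ℚ K]
    (e' : K →+* ℂ) (S : Finset (HeightOneSpectrum (𝓞 K))) (v0 : HeightOneSpectrum (𝓞 K))
    (a : HeightOneSpectrum (𝓞 K) → ℝ) (q : ℕ) (hq : q ≠ 0) (h : COutE K e' S v0 a) :
    ∃ (N : ℕ) (c : S47T.Eis → ℝ) (F : H3 → ℂ), 3 ∣ N ∧ q ∣ N ∧ S47T.ICT N c F ∧
      (∀ v ∈ S, (N : 𝓞 K) ∈ v.asIdeal) ∧ (N : 𝓞 K) ∈ v0.asIdeal ∧
      ∀ v : HeightOneSpectrum (𝓞 K), (N : 𝓞 K) ∉ v.asIdeal → ∀ ϖ : S47T.Eis,
        v.asIdeal = Ideal.span {(H83Z.eisO e').symm ϖ} → c ϖ = a v :=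
  H15S47.ictOut K e' S v0 a q hq h

/-! ## 3. The operator `C`

Let `p` be a prime with `p ≡ -1` modulo a high power of all bad places, inert in `F`, with three places
`w_1, w_2, w_3` in `E`. The number `-p` is `≡ 1` at the bad places and `(p) = w_1 w_2 w_3`. On the
constant term of an automorphic function along a cusp, divided by the product of the `y_j`, the
normalised Hecke operator at `w_i` acts by `S_i + S_i⁻¹`, where `S_i` is `√(N w_i)` times the translation
by `diag(-p, 1)` at `w_i`, and the radial kernel `k_n` at the `j`-th infinite place by `(t_j + t_j⁻¹)^n`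
times the operator of `k_0`, `(t_j f)(log y_j) = f(log y_j - log p)`; invariance under `diag(-p, 1)` gives
the relation `S_1 S_2 S_3 = t_1 t_2 t_3` (the constants agree: the product of the `√(N w_i)` and the
product of the absolute values of `p` at infinity are both `p³`). So a polynomial in these six operators
which vanishes under this relation kills all constant terms. (The idea is due to Lindenstrauss and
Venkatesh; here only constant terms, not the spectral decomposition, are used.) All steps are in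
`GuideOctCOperator` (the operator) and `GuideConstantTerms` (its constant terms). -/

/-- **The aleph polynomial** (`H39ZPoly`, `H80Al`). There is an integral polynomial `P` in the variables
`ι ⊕ J` such that for all units `v_a` of a commutative ring `P(v_a + 1/v_a)` is the product over all
choices of signs (`-` for `a` in `T`) of `1 - ∏ v_a^{±1}`. In particular it is `0` if `∏ v_a = 1`: this
is applied with `v = S_i` and `v = 1/t_j` and kills all vectors fixed by `∏ S_i / ∏ t_j`. If `ι` has an
odd number of elements then `P(0, …, 0; 2, …, 2) ≠ 0`; here `0` and `2` are the eigenvalues of the given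
form (`a_w = 0` at the places `w_i`, spectral parameter `0`). -/
theorem exists_aleph (ι J : Type) [Fintype ι] [DecidableEq ι] [Fintype J] [DecidableEq J]
    (hodd : Odd (Fintype.card ι)) : ∃ P : MvPolynomial (ι ⊕ J) ℤ,
      (∀ (R : Type) [CommRing R] (v : ι ⊕ J → Rˣ),
        MvPolynomial.aeval (fun a => (v a : R) + ((v a)⁻¹ : Rˣ)) P =
          ∏ T : Finset (ι ⊕ J), (1 - ∏ a, (((if a ∈ T then (v a)⁻¹ else v a : Rˣ)) : R))) ∧
      MvPolynomial.aeval (Sum.elim (fun _ : ι => (0 : ℂ)) (fun _ : J => (2 : ℂ))) P ≠ 0 :=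
  (H80Al.exists_isAleph (ι ⊕ J)).elim fun P hP => ⟨P, hP, hP.value_ne_zero hodd⟩

/-- **The auxiliary prime** on a setup (`H59K5`, from `H83ZPrime`): `p ≡ -1` modulo the level, with one
place `v` in `F` and the places `w_j` in `E`, permuted cyclically by `s` (because `p` is inert in `F`
and has three divisors in `E`, so `v` splits in the cyclic extension `E / F`), `N(w_j) = p² = N(v)`,
`a_{w_j} = 0`; outside the `w_j` the number `-p` is a unit and so close to `1` that `diag(-p, 1)` lies
in the level subgroup. (In the application `hp` holds by density: `p` with `ρ(Frob_p)` of order `8`.) -/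
theorem auxiliary_prime (F E : Type) [Field F] [NumberField F] [IsCyclotomicExtension {3} ℚ F]
    [Field E] [NumberField E] [Algebra F E] (C : CSetup F E) (a : HeightOneSpectrum (𝓞 E) → ℝ)
    (hp : ∀ n : ℕ, 0 < n → ∃ p : ℕ, p.Prime ∧ ¬ p ∣ n ∧ (p : ZMod n) = -1 ∧ p % 3 = 2 ∧
      (H46Z.divs E p).card = 3 ∧ ∀ w ∈ H46Z.divs E p, a w = 0) :
    ∃ (p : ℕ) (w : Fin 3 → HeightOneSpectrum (𝓞 E)) (v : HeightOneSpectrum (𝓞 F)), p.Prime ∧
      Function.Injective w ∧ (∀ j, w (j + 1) = C.aE.σ (w j)) ∧ (∀ j, H47.below F (w j) = v) ∧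
      (∀ j, C.Ok (w j)) ∧ (∀ j, w j ≠ C.w0) ∧ (∀ j, Ideal.absNorm (w j).asIdeal = p ^ 2) ∧
      Ideal.absNorm v.asIdeal = p ^ 2 ∧
      (∀ j, (w j).valuation E (-(p : E)) = exp (-(1 : ℤ))) ∧
      (∀ u, (∀ j, w j ≠ u) → u.valuation E (-(p : E)) = 1 ∧ ∃ n : ℕ,
        Gam u n ≤ C.mE.L.U u ∧ u.valuation E (-(p : E) - 1) ≤ exp (-(n : ℤ))) ∧
      ∀ j, a (w j) = 0 :=
  (H59K.exists_pw C hp).elim fun P => ⟨P.p, P.w, P.v, P.prime, P.w_inj, P.w_σ, P.w_below, P.ok,
    P.w_ne, P.nE, P.nF, P.uE_eq ▸ P.valE, P.uE_eq ▸ P.farE, P.az⟩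

/-- **The constant terms vanish** (`H39ZC5`, from `H39ZPoly`, `H39ZMean2`, `H39ZCT`, `H39ZInd`,
`H39ZFin`, `H39ZCusp`, `H39ZFD`, `H75XRad`). `w_i`, `p` are as in `auxiliary_prime`, `q = p²`, `k_n`
are one variable kernels (`IsK1`: continuous, bounded, zero for large argument) whose Abel transforms
(`abel`; `H59K.k1 k` is `k` as a kernel on `H3`) satisfy
`A_{n+1}(u) = A_n(u + log p) + A_n(u - log p)`, and `al` is the aleph polynomial in `3 + 3` variables.
The test kernel is the sum over the monomials of `al`, of exponents `n_i`, `m_j`, of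
`coeff · q^{-Σ n_i / 2}` times `k_{m_1} ⊗ k_{m_2} ⊗ k_{m_3} ⊗ ∏ T_{w_i}^{n_i}` (`D.D.mono`: Hecke
monomials), smoothed by `a₀`. All constant terms of its automorphic kernel are zero: at every point
`η` of `X_f` and for every `x'` there is a period parallelepiped `P` of bounded size over which the
integral of the kernel along the horospheres is zero (`tr u` is the translation by `u`). -/
theorem constant_terms_vanish {K : Type*} [Field K] [NumberField K] {m : Model K (Fin 3)}
    {S : Finset (HeightOneSpectrum (𝓞 K))} {w0 : HeightOneSpectrum (𝓞 K)}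
    {Ty : HeightOneSpectrum (𝓞 K) → H76U.TD K} (D : KerData m S w0 Ty)
    {w : Fin 3 → HeightOneSpectrum (𝓞 K)} (hw : Function.Injective w) {p : ℕ} (hp : 0 < p)
    (good : ∀ i, w i ∉ S ∧ w i ≠ w0) (nrm : ∀ i, Ideal.absNorm (w i).asIdeal = p ^ 2)
    (val : ∀ i, (w i).valuation K (p : K) = exp (-(1 : ℤ)))
    (out : ∀ v, (∀ i, w i ≠ v) → v.valuation K (p : K) = 1 ∧ ∃ n : ℕ, Gam v n ≤ m.L.U v ∧
      v.valuation K ((p : K) + 1) ≤ exp (-(n : ℤ)))
    {q : ℝ} (hq : q = (p : ℝ) ^ 2) {k : ℕ → ℝ → ℝ} (hk : ∀ i, H59K.IsK1 (k i))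
    (hs : ∀ n (u : Fin 1 → ℝ), H56Z.abel (H59K.k1 (k (n + 1))) u =
      H56Z.abel (H59K.k1 (k n)) (u + fun _ => Real.log p) +
        H56Z.abel (H59K.k1 (k n)) (u - fun _ => Real.log p))
    {a0 : (Fin 3 → ℝ) → ℂ} (ha0 : H56Z.IsRC a0) (η : XF m.L.fam) :
    ∃ δ : ℝ, ∀ x' : m.X, ∃ P : Set (Fin 3 → ℂ), MeasurableSet P ∧ 0 < volume P ∧
      (∀ u ∈ P, ∀ j, ‖u j‖ ≤ δ) ∧ ∀ τ : Fin 3 → H3,
        ∫ u in P, H32Z.CutOff.autK PGL(2, K) (fun x y => ∑ n ∈ H59K.al.support,
          m.ker (H56Z.conv a0 fun t =>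
              (((MvPolynomial.coeff n H59K.al : ℤ) : ℝ) * ((√q)⁻¹) ^ (∑ i, n (Sum.inl i)) : ℝ) *
                ((∏ j, k (n (Sum.inr j)) (t j) : ℝ) : ℂ))
            (D.D.mono (∑ i, Finsupp.single (w i) (n (Sum.inl i))) 0).k x y)
          ((H95S.tr u τ, η) : m.X) x' = 0 :=
  (H39Z.final_E D hw ⟨hp, good, nrm, val, out⟩ hq hk hs).2 a0 ha0 η

/-- **The bounded kernel theorem** (`H86B1`-`H86B3`, from `H95S*`, `H31I*`, `H5Z*`, `H35BK1`). Let `b`
be a real Lipschitz radial kernel with support in `t_j ≤ T`, and let `Σ_i κ_i ⊗ f_i` be a hermitian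
test kernel such that all constant terms of the automorphic kernel of `Σ_i (b * κ_i) ⊗ f_i` vanish.
Then the automorphic kernel of `Σ_i (b * … * b * κ_i) ⊗ f_i` is bounded, if the number `k` of factors
`b` is at least `8 #J`. Idea: `|K(x, y)|` is at most a power of the height (lattice points); in a
cuspidal direction every factor `b` gains a power of the height by the mean value inequality. -/
theorem bounded_kernel {K : Type*} [Field K] [NumberField K] {J : Type*} [Fintype J]
    {m : Model K J} {I : Type*} {s : Finset I} {κ : I → (J → ℝ) → ℂ}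
    {f : I → GlobKer m.L.fam} {b : (J → ℝ) → ℂ} {T L M : ℝ} (hT : 1 ≤ T) (hL : 0 ≤ L)
    (hb0 : ∀ t, (∃ j, T < t j) → b t = 0)
    (hblip : ∀ t t', ‖b t - b t'‖ ≤ L * ∑ j, |t j - t' j|) (hbM : ∀ t, ‖b t‖ ≤ M)
    (hb : ∀ t, conj (b t) = b t) (hκ : ∀ i ∈ s, H56Z.IsRC (κ i))
    (hκr : ∀ i ∈ s, ∀ t, conj (κ i t) = κ i t)
    (hf : ∀ i ∈ s, ∀ x y, conj ((f i).k x y) = (f i).k y x)
    (hc : ∀ η : XF m.L.fam, ∃ δ : ℝ, ∀ x' : m.X, ∃ P : Set (J → ℂ), MeasurableSet P ∧
      0 < volume P ∧ (∀ u ∈ P, ∀ j, ‖u j‖ ≤ δ) ∧ ∀ τ : J → H3,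
        ∫ u in P, H32Z.CutOff.autK PGL(2, K)
          (fun x y => ∑ i ∈ s, m.ker (H56Z.conv b (κ i)) (f i).k x y)
          ((H95S.tr u τ, η) : m.X) x' = 0)
    {k : ℕ} (hk : 8 * Fintype.card J ≤ k) :
    ∃ B : ℝ, 0 ≤ B ∧ ∀ x y : m.X, ‖H32Z.CutOff.autK PGL(2, K)
      (fun x y => ∑ i ∈ s, m.ker ((fun κ' => H56Z.conv b κ')^[k] (κ i)) (f i).k x y) x y‖ ≤ B :=
  H86B.bd_fk_of_cuspAll ⟨hT, hL, hb0, hblip, hbM⟩ hb hκ hκr hf hc hk

/-! ## 4. The geometric side

The proof of `C.Geom` (conjugacy classes and norms, unfolding, local comparisons at all places, the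
types) is explained in the second file, `GuideOctCGeom`; the result is in its section 6.

## 5. The spectral side

One takes the bounded kernel `K` of the operator `C` on both sides. The operators in question (Hecke
operators, radial operators, the normalised operator `U`, the automorphism `s`) commute with the one of
`K` and therefore act on its eigenspaces; the trace of (word in the operators) `· U^m · s`, weighted by
`c²` on the eigenspace of `c`, is an integral of the product of two kernels, and the geometric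
comparison gives the same number over `F`. Varying the word and `m` one separates the systems of
eigenvalues. -/

/-- **Traces as integrals of kernels** (`H32ZEig`). `ν` is a finite measure on `X`, `K` a bounded
measurable hermitian kernel, `M` a bounded measurable kernel (`BK` = bounded and measurable).
`Eig hK ν c` is the space of the bounded measurable `f` with `∫ K(x, y) f(y) = c f(x)` for all `x`;
for `c ≠ 0` it is of finite dimension. If the operator of `M` acts on it as `c B(c)` then
`Σ_c c² tr B(c) = ∬ K(x, y) M(y, x)` (absolutely convergent; `M = K`, `B(c) = 1` shows that the sum of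
the `c² dim Eig(c)` converges). From the spectral theorem for the compact self-adjoint operator of
`K`; nothing is assumed about the rest of the spectrum. -/
theorem trace_eq_integral {X : Type*} [MeasurableSpace X] {ν : Measure X} [IsFiniteMeasure ν]
    [MeasurableSpace.CountablyGenerated X] {K M : X → X → ℂ} (hK : H32Z.BK K)
    (hsym : ∀ x y, K y x = conj (K x y)) (hM : H32Z.BK M)
    (B : (c : ℝ) → H32Z.Eig hK ν c →ₗ[ℂ] H32Z.Eig hK ν c)
    (hB : ∀ c, c ≠ 0 → ∀ (f : H32Z.Eig hK ν c) (x : X),
      ∫ y, M x y * (f : X → ℂ) y ∂ν = c * (B c f : X → ℂ) x) :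
    HasSum (fun c : ℝ => (c : ℂ) ^ 2 * LinearMap.trace ℂ (H32Z.Eig hK ν c) (B c))
      (∫ x, ∫ y, K x y * M y x ∂ν ∂ν) :=
  H32Z.hasSum_trace_Eig hK hsym hM B hB

/-- **The trace functional of one side** (`H21Z2`). `D : OpData` consists of commuting operators `D.Y` on
the space `BInv` of bounded measurable invariant functions on `X`, which commute with the operator of
`K`, among them those with labels `D.j l`, `l` in `J`, and the power `U^e` of the normalised
operator `U = W (P - 1) / √q` with label `D.u` (`e = 1` over `E`, `e = 3` over `F`); and of an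
operator `D.s` with `s³ = 1` which permutes the `Y_k`. The trace functional assigns to a word `L` in
the labels and to `m` the number `Σ_c c² tr(∏ Y_l · Y_u^m · s | E_c)`, `c ≠ 0`, where
`E_c = Eig hK ν c` is the eigenspace and `D.YE`, `D.sE` are the operators induced on it. -/
theorem trace_functional {G X : Type} [Group G] [MulAction G X] [MeasurableSpace X]
    {ν : Measure X} [IsFiniteMeasure ν] {K : X → X → ℂ} {hK : H32Z.BK K}
    {hG : ∀ (g : G) x y, K (g • x) y = K x y} [MeasurableSpace.CountablyGenerated X] {J : Type}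
    (D : H21Z.OpData J hK ν hG) (hsym : ∀ x y, K y x = conj (K x y)) (L : List J) (m : ℕ) :
    (D.side hsym).tr L m = ∑' c : {c : ℝ // c ≠ 0}, (((c : ℝ) ^ 2 : ℝ) : ℂ) *
      LinearMap.trace ℂ (H32Z.Eig hK ν (c : ℝ))
        (((L.map D.j ++ List.replicate m D.u).map (D.YE c.2)).prod * D.sE c.2) :=
  rfl

/-- **The common labels** of the two sides (`H42T6`, `H42T7`) are the allowed places `w` of `E`
(`C.Ok w`) and the real radial kernels `κ` in three variables. The operators with label `w` are `T_w`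
over `E` and `T_v`, `w ∣ v`, over `F`; the operators with label `κ` are the integral operator of
`κ` on `X(E)` and the one of `bF κ` on `X(F)`. (`gopB`, `rkB`: the operators on `BInv` given by a Hecke
operator and by a radial kernel; `single w T`: the Hecke operator with component `T` at `w`; `kSys`:
the kernel system of the test kernels, `GuideOctCSeparation.kernel_system_of_block`, whose operators
`Y` belong to its own labels; `lE`, `lF` give the labels of the systems over `E` and `F` which
belong to a common one.) -/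
theorem common_labels {F E : Type} [Field F] [NumberField F] [Field E] [NumberField E]
    [Algebra F E] (C : CSetup F E) :
    (∀ w : {w : HeightOneSpectrum (𝓞 E) // C.Ok w},
      (H42T.kSys C.kE.D (H42T.bOps C.mE) 1).Y (H42T.lE C (Sum.inl w)) =
        H21Z.gopB C.mE (H51Z.single w.1 (C.kE.D.T w.1)) ∧
      (H42T.kSys C.kF.D (H42T.bOps C.mF) 3).Y (H42T.lF C (Sum.inl w)) =
        H21Z.gopB C.mF (H51Z.single (H47.below F w.1) (C.kF.D.T (H47.below F w.1)))) ∧
    ∀ κ : {κ : (Fin 3 → ℝ) → ℝ // H56Z.IsRC fun t => (κ t : ℂ)},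
      (H42T.kSys C.kE.D (H42T.bOps C.mE) 1).Y (H42T.lE C (Sum.inr κ)) = H21Z.rkB C.mE κ.2 ∧
      (H42T.kSys C.kF.D (H42T.bOps C.mF) 3).Y (H42T.lF C (Sum.inr κ)) =
        H21Z.rkB C.mF (H67M.isRC_bF (κ := fun t => (κ.1 t : ℂ)) κ.2) :=
  ⟨fun _ => ⟨rfl, rfl⟩, fun _ => ⟨rfl, rfl⟩⟩

/-- **The trace identity** (`H42T7`, from `H42T1`, `H42T3`-`H42T6`, `H21Z*`, `H17S*`). `κ i`, `n i` is a
family as in `operator_C`; its automorphic kernels are bounded (`bdE`, `bdF`, in the sense of `H17S.Bd`),
hermitian (`hsE`, `hsF`; `H59K4`) and invariant (`hGE`, `hGF`). `D`, `D'` are operator data on the two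
sides for these kernels with the operators of `common_labels` (`H42T.JR C` is the set of the common
labels), the operators `U`, `U³` with the same normalising factor, `s` = the automorphism over `E` and
`s = 1` over `F`. Then the trace functionals agree for every word and all large `m`. Proof:
`trace_eq_integral` on both sides, and `C.Geom` for the products of test kernels (step by step:
`GuideOctCSeparation`, section 4). -/
theorem trace_identity {F E : Type} [Field F] [NumberField F] [Field E] [NumberField E]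
    [Algebra F E] (C : CSetup F E) (hgeom : C.Geom) (cE : H32Z.CutOff PGL(2, E) C.mE.X)
    (cF : H32Z.CutOff PGL(2, F) C.mF.X) [IsFiniteMeasure (cE.ν C.mE.μ)]
    [IsFiniteMeasure (cF.ν C.mF.μ)] {ι : Type} [Fintype ι] (κ : ι → (Fin 3 → ℝ) → ℂ)
    (hκ : ∀ i, H56Z.IsRC (κ i)) (n : ι → HeightOneSpectrum (𝓞 E) →₀ ℕ)
    (hn : ∀ i, ∀ w ∈ (n i).support, C.Ok w)
    (bdE : H17S.Bd PGL(2, E) fun x y : C.mE.X => ∑ i, C.tkE (κ i) (n i) 0 x y)
    (bdF : H17S.Bd PGL(2, F) fun x y : C.mF.X => ∑ i, C.tkB (κ i) (n i) 0 x y)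
    {hKE : H32Z.BK (H32Z.CutOff.autK PGL(2, E)
      fun x y : C.mE.X => ∑ i, C.tkE (κ i) (n i) 0 x y)}
    {hGE : ∀ (g : PGL(2, E)) x y,
      H32Z.CutOff.autK PGL(2, E) (fun x y : C.mE.X => ∑ i, C.tkE (κ i) (n i) 0 x y) (g • x) y =
      H32Z.CutOff.autK PGL(2, E) (fun x y : C.mE.X => ∑ i, C.tkE (κ i) (n i) 0 x y) x y}
    (hsE : ∀ x y,
      H32Z.CutOff.autK PGL(2, E) (fun x y : C.mE.X => ∑ i, C.tkE (κ i) (n i) 0 x y) y x =
      conj (H32Z.CutOff.autK PGL(2, E)
        (fun x y : C.mE.X => ∑ i, C.tkE (κ i) (n i) 0 x y) x y))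
    {hKF : H32Z.BK (H32Z.CutOff.autK PGL(2, F)
      fun x y : C.mF.X => ∑ i, C.tkB (κ i) (n i) 0 x y)}
    {hGF : ∀ (g : PGL(2, F)) x y,
      H32Z.CutOff.autK PGL(2, F) (fun x y : C.mF.X => ∑ i, C.tkB (κ i) (n i) 0 x y) (g • x) y =
      H32Z.CutOff.autK PGL(2, F) (fun x y : C.mF.X => ∑ i, C.tkB (κ i) (n i) 0 x y) x y}
    (hsF : ∀ x y,
      H32Z.CutOff.autK PGL(2, F) (fun x y : C.mF.X => ∑ i, C.tkB (κ i) (n i) 0 x y) y x =
      conj (H32Z.CutOff.autK PGL(2, F)
        (fun x y : C.mF.X => ∑ i, C.tkB (κ i) (n i) 0 x y) x y))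
    (D : H21Z.OpData (H42T.JR C) hKE (cE.ν C.mE.μ) hGE)
    (D' : H21Z.OpData (H42T.JR C) hKF (cF.ν C.mF.μ) hGF)
    (hD : ∀ l, D.Y (D.j l) = (H42T.kSys C.kE.D (H42T.bOps C.mE) 1).Y (H42T.lE C l))
    (hD' : ∀ l, D'.Y (D'.j l) = (H42T.kSys C.kF.D (H42T.bOps C.mF) 3).Y (H42T.lF C l)) (ρ : ℂ)
    (hu : D.Y D.u = ρ • H21Z.gopB C.mE (H51Z.single C.kE.D.w0 (lpow (C.kE.D.U C.kE.D.w0) 1)))
    (hu' : D'.Y D'.u = ρ • H21Z.gopB C.mF (H51Z.single C.kF.D.w0 (lpow (C.kF.D.U C.kF.D.w0) 3)))
    (hs : D.s = H21Z.sB C.aE) (hs' : D'.s = 1) (L : List (H42T.JR C)) :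
    ∃ m₀ : ℕ, ∀ m ≥ m₀, (D.side hsE).tr L m = (D'.side hsF).tr L m := by
  simpa only [one_mul] using
    H42T.TI_R C hgeom cE cF κ hκ n hn bdE bdF hsE hsF D D' hD hD' ρ hu hu' hs hs' L

/-- **Separation of eigenvalues** (`H42S3`, from `H69S1`, `H69S2`). The numbers `a i` are absolutely
summable; to `i` belong real coordinates `x i j`, bounded for every `j`, and a number `z i` in a fixed
disc, real or of absolute value one. If for every word `L` the sum of the `a i ∏_{j ∈ L} (x i j) (z i)^m`
vanishes for all LARGE `m`, then the sum of the `a i` over all `i` with `x i = x₀`, `z i = z₀` vanishes,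
if `|z₀| ≥ 1`. Only large `m` are allowed because the geometric comparison needs large powers of `U`. -/
theorem separation (I J : Type) (a : I → ℂ) (ha : Summable fun i => ‖a i‖) (x : I → J → ℝ)
    (B : J → ℝ) (hx : ∀ i j, |x i j| ≤ B j) (z : I → ℂ) (R : ℝ) (hz : ∀ i, ‖z i‖ ≤ R)
    (hz' : ∀ i, ‖z i‖ = 1 ∨ (z i).im = 0)
    (h0 : ∀ L : List J, ∃ m₀ : ℕ, ∀ m ≥ m₀,
      ∑' i, a i * (((L.map (x i)).prod : ℝ) : ℂ) * z i ^ m = 0)
    (x₀ : J → ℝ) (z₀ : ℂ) (hz₀ : 1 ≤ ‖z₀‖) :
    ∑' i, Set.indicator {i | x i = x₀ ∧ z i = z₀} a i = 0 :=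
  H42S.sepStatement I J a ha x B hx z R hz hz' h0 x₀ z₀ hz₀

/-- **The eigenvalues of `U`** (`H8U`). `W`, `P` are symmetric operators on a hermitian space with
`W² = 1`, `P² = (q + 1) P` (the Iwahori-Hecke algebra of `PGL₂`). An eigenvalue of `U = W (P - 1)` is
either real of absolute value at most `q` or of absolute value `√q`. This is the property of the `z i`
in `separation`, after division by `√q`; `q = N(w0)`. -/
theorem eigenvalue_U {V : Type*} [NormedAddCommGroup V] [InnerProductSpace ℂ V] {q : ℝ}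
    {W P U : V →ₗ[ℂ] V} (hq : 1 ≤ q) (hW : W.IsSymmetric) (hW2 : ∀ v, W (W v) = v)
    (hP : P.IsSymmetric) (hP2 : ∀ v, P (P v) = ((q + 1 : ℝ) : ℂ) • P v)
    (hU : ∀ v, U v = W (P v - v)) {u : ℂ} {v : V} (hv : v ≠ 0) (h : U v = u • v) :
    (u.im = 0 ∧ ‖u‖ ≤ q) ∨ ‖u‖ ^ 2 = q :=
  H8U.eigenvalue hq hW hW2 hP hP2 hU hv h

/-- **Abstract comparison theorem** (`H42S4`, from `H42S2`, `H42S3`, `H69S3`). `S`, `S'` are two sides
(`SideC`): families of finite dimensional spaces `E i` with weights `a i ≥ 0`, commuting operators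
`Y i k` on them and an operator `s` with `s³ = 1` which permutes the `Y i k`. An element `p` of `S.I`
is a space together with a system of eigenvalues (a joint generalised eigenspace `blk`) fixed by `s`;
`S.x p l` are its eigenvalues for the common labels, `S.z p` the one of `U`. If the trace functionals
are proportional for large `m`, and if `p₀` has positive weight, `|S.z p₀| ≥ 1`, and `s` is the
IDENTITY on all blocks with the coordinates of `p₀` (positivity), then the system of eigenvalues of
`p₀` occurs in `S'`. -/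
theorem abstract_comparison {J : Type} (S S' : H42S.SideC J) (κ : ℂ)
    (hTI : ∀ L : List J, ∃ m₀ : ℕ, ∀ m ≥ m₀, S.tr L m = κ * S'.tr L m) (p₀ : S.I)
    (ha : 0 < S.a p₀.1)
    (hpos : ∀ p : S.I, S.x p = S.x p₀ → S.z p = S.z p₀ →
      ∀ v ∈ ⨅ k, (S.Y p.1 k).maxGenEigenspace (p.2.1 k), S.s p.1 v = v)
    (hz : 1 ≤ ‖S.z p₀‖) : ∃ p : S'.I, S'.x p = S.x p₀ ∧ S'.z p = S.z p₀ :=
  H42S.exists_block_c S S' κ hTI p₀ ha hpos hz

/-- **Positivity** (`H7ZHook2`, from `H7Z*`, `H19W*`, `H22Z*`; as the hypothesis `hpos` of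
`abstract_comparison`: `H79SPos`). On a setup, let `f` be a bounded invariant function with eigenvalues of
spectral parameter `0` for the real radial kernels, of the types of the setup (`eS`), and an eigenfunction
of all `T_w`, `w` not bad, `w ≠ w0`, with eigenvalues invariant under `s`. Then `f(s x) = f(x)`. Proof:
the first Fourier coefficients (Whittaker function) of `f` are determined by the Hecke eigenvalues, the
types, and their values at points supported at `w0`, which are fixed by `s`. So `s` is the identity, not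
only a third root of unity, on these spaces. -/
theorem positivity {F E : Type} [Field F] [NumberField F] [Field E] [NumberField E]
    [Algebra F E] (C : CSetup F E) {f : C.mE.X → ℂ} (hinv : ∀ (g : PGL(2, E)) x, f (g • x) = f x)
    (hbdd : ∃ M : ℝ, ∀ x, ‖f x‖ ≤ M) (hmeas : ∀ y, Measurable fun τ : Fin 3 → H3 => f (τ, y))
    (hrad : ∀ κ : (Fin 3 → ℝ) → ℝ, H56Z.IsRC (fun u => (κ u : ℂ)) → ∀ y τ,
      H5Z.Rk (fun u => (κ u : ℂ)) (fun v => f (v, y)) τ =
        H9Z.hat (fun u => (κ u : ℂ)) * f (τ, y))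
    (htyp : ∀ τ, H51Z.gop C.kE.D.eS (fun y => f (τ, y)) = fun y => f (τ, y))
    {lam : HeightOneSpectrum (𝓞 E) → ℂ} (hlam : ∀ w, lam (C.aE.σ w) = lam w)
    (hT : ∀ w ∉ C.SE, w ≠ C.w0 → ∀ τ,
      H51Z.lop w (C.kE.D.T w) (fun y => f (τ, y)) = lam w • fun y => f (τ, y)) (x : C.mE.X) :
    f (C.aE.act x) = f x :=
  H7.Z.pos_setup C hinv hbdd hmeas hrad htyp hlam hT x

/-- **The target vector** (`H50ZFin`). `Φ` comes from the maximal level at `w0` (`P Φ = (q + 1) Φ`) with
Hecke eigenvalue `a` (`P W Φ = a Φ`), `z` is a root of `z² - a z + q` with `|z| > 1`. Then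
`Φ - z W Φ ≠ 0` is an eigenvector of `U = W (P - 1)` with eigenvalue `z`. For `a = √q a_{w0}` with
`|a_{w0}| ≤ 2` one has `|z| = √q`: after normalisation this is the `p₀` of `abstract_comparison`. (The
operator `U` of the kernels is `(P - 1) W = W (W P W - 1)`; for it the theorem is used with `W Φ` in
place of `Φ` and `W P W` in place of `P`, so the vector is `W Φ - z Φ`.) -/
theorem target_vector {E : Type*} [AddCommGroup E] [Module ℂ E] {W P : E →ₗ[ℂ] E} {q : ℂ}
    (hW : ∀ v, W (W v) = v) {Φ : E} (hΦ : Φ ≠ 0) {a : ℂ} (h1 : P Φ = (q + 1) • Φ)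
    (h2 : P (W Φ) = a • Φ) {z : ℂ} (hz : z ^ 2 - a * z + q = 0) (hz1 : 1 < ‖z‖) :
    Φ - z • W Φ ≠ 0 ∧ W (P (Φ - z • W Φ) - (Φ - z • W Φ)) = z • (Φ - z • W Φ) :=
  H50Z.target_of_root hW hΦ h1 h2 hz hz1

/-- **The eigenvalues at infinity over `F`** (`H44ZExt1`). `Ψ ≠ 0` on `H3 × Y` is locally bounded and
measurable, every real radial kernel `k` acts on it by some real number, and the kernels `bF κ`
(`κ` real, in three variables) act by `hat κ`, the eigenvalue of `κ` at spectral parameter `0`. Then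
every real `k` acts by `hat k`. Proof: take `κ = k ⊗ k ⊗ k`, then `bF κ = k * k * k`, and real third
roots are unique. -/
theorem eigenvalue_at_infinity {Y : Type*} {Ψ : (Fin 1 → H3) → Y → ℂ}
    (hΨ : ∀ y, H56Z.IsLB fun x => Ψ x y) (hne : ∃ x y, Ψ x y ≠ 0)
    (hlam : ∀ k : ℝ → ℝ, H56Z.IsRC (fun t : Fin 1 → ℝ => ((k (t 0) : ℝ) : ℂ)) →
      ∃ lam : ℝ, ∀ y x, H5Z.Rk (fun t : Fin 1 → ℝ => ((k (t 0) : ℝ) : ℂ)) (fun x => Ψ x y) x =
        lam * Ψ x y)
    (h3 : ∀ κ : (Fin 3 → ℝ) → ℝ, H56Z.IsRC (fun u => (κ u : ℂ)) → ∀ y x,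
      H5Z.Rk (H67M.bF fun u => (κ u : ℂ)) (fun x => Ψ x y) x =
        H9Z.hat (fun u : Fin 3 → ℝ => (κ u : ℂ)) * Ψ x y)
    (k : ℝ → ℝ) (hk : H56Z.IsRC (fun t : Fin 1 → ℝ => ((k (t 0) : ℝ) : ℂ))) (y : Y)
    (x : Fin 1 → H3) :
    H5Z.Rk (fun t : Fin 1 → ℝ => ((k (t 0) : ℝ) : ℂ)) (fun x => Ψ x y) x =
      H9Z.hat (fun t : Fin 1 → ℝ => ((k (t 0) : ℝ) : ℂ)) * Ψ x y :=
  H44Z.hat_of_cube hΨ hne hlam h3 k hk y x

/-! ## 6. From the form over `F` to a function on `H3`

(See also `GuideOctCOutput` and `GuideOctCTwists`.) -/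

open Classical in
/-- **The output of the comparison**: `IsMForm m S v0 T a Φ` (`H79SDef`), unfolded. `Φ` is a function
on `X(F)`, invariant under `PGL₂(F)`, bounded, continuous at infinity, an eigenfunction of all radial
kernels (`H9Z.Ker`: continuous for arguments `≥ 1` and zero for large ones) with the eigenvalue at
spectral parameter `0` (`hat`), of the Hecke operators at `w ∉ S`, `w ≠ v0`, with eigenvalue
`√(N w) a_w`, of the operator `U` at `v0` with an eigenvalue `≠ 0`, of type `(H, chi)` at the places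
of `S`, and not zero. `HeckeX` and `UX`, in the component at the place:
`λ Φ(g) = Σ_b Φ(g n(b) d(ϖ)) + Φ(g d(ϖ)⁻¹)` and `u Φ(g) = Σ_b Φ(g n(b) d(ϖ))`, where `n(b) = (1 b; 0 1)`,
`d(ϖ) = diag(ϖ, 1)`, and `b` runs through representatives `R` of the integers modulo `ϖ`
(`IsReps`). -/
theorem isMForm_iff {K : Type*} [Field K] [NumberField K] {J : Type*} [Fintype J] (m : Model K J)
    (S : Finset (HeightOneSpectrum (𝓞 K))) (v0 : HeightOneSpectrum (𝓞 K))
    (T : HeightOneSpectrum (𝓞 K) → H76U.TD K) (a : HeightOneSpectrum (𝓞 K) → ℝ) (Φ : m.X → ℂ) :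
    IsMForm m S v0 T a Φ ↔
      (∀ (g : PGL(2, K)) (x : m.X), Φ (g • x) = Φ x) ∧ (∃ M : ℝ, ∀ x, ‖Φ x‖ ≤ M) ∧
      (∀ y : XF m.L.fam, Continuous fun τ : J → H3 => Φ (τ, y)) ∧
      (∀ κ : (J → ℝ) → ℂ, H9Z.Ker κ → ∀ (y : XF m.L.fam) (τ : J → H3),
        H5Z.Rk κ (fun v => Φ (v, y)) τ = H9Z.hat κ * Φ (τ, y)) ∧
      (∀ w ∉ S, w ≠ v0 → ∀ (ϖ : Kˣ), w.valuation K (ϖ : K) = exp (-(1 : ℤ)) →
        ∀ R : Finset K, H51Z.IsReps (w.valuation K) 1 R →
          H7.Z.HeckeX m Φ w ϖ R ((Real.sqrt (Ideal.absNorm w.asIdeal) * a w : ℝ) : ℂ)) ∧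
      (∃ u : ℂ, u ≠ 0 ∧ ∀ (ϖ : Kˣ), v0.valuation K (ϖ : K) = exp (-(1 : ℤ)) →
        ∀ R : Finset K, H51Z.IsReps (v0.valuation K) 1 R → H7.Z.UX m Φ v0 ϖ R u) ∧
      (∀ w ∈ S, ∀ h ∈ (T w).H, ∀ (τ : J → H3) (y : XF m.L.fam) (g : PGL(2, K)),
        Φ (τ, XF.upd y w ((g * h : PGL(2, K)) : PGL(2, K) ⧸ m.L.fam.U w)) =
          (T w).chi h * Φ (τ, XF.upd y w ((g : PGL(2, K)) : PGL(2, K) ⧸ m.L.fam.U w))) ∧
      (∃ x, Φ x ≠ 0) :=
  ⟨fun h => ⟨h.inv, h.bdd, h.cont, h.rad, h.hecke, h.U, h.typ, h.ne⟩,
    fun ⟨h1, h2, h3, h4, h5, h6, h7, h8⟩ => ⟨h1, h2, h3, h4, h5, h6, h7, h8⟩⟩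

/-- **The function on `H3`** attached to `Φ` (`H85I2`): the sum of `Φ(dl w, y)`,
`dl = diag(1/√-3, 1)`, over the unit-diagonal points `y` of `X_f` (`H85I.UD`, file `H85I1`): the `y`
whose component at every `v` is the class of `diag(t, 1)` with a unit `t`. These are finitely many
points (under the condition on the level of the next theorem); no strong approximation is used. -/
theorem classical_function {K : Type*} [Field K] [NumberField K] {J : Type*} [Fintype J]
    (m : Model K J) (Φ : m.X → ℂ) (w : H3) :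
    H85I.f1 m Φ w = ∑ᶠ y : {y : XF m.L.fam // ∀ v, ∃ t : Kˣ, v.valuation K (t : K) = 1 ∧
      y v = (((H7.Z.borP K).d t : PGL(2, K)) : PGL(2, K) ⧸ m.L.fam.U v)},
        Φ (fun _ => H85I.dl • w, y.1) :=
  rfl

/-- **Its invariance under `Γ₀(N₀)`** (`H85I2`). Let `K = ℚ(ω)`; at every place `w` let the level be
the maximal compact subgroup and `√-3` (`sqO`) a unit, or let the level satisfy `H85I.LOW` (it contains
the matrices `(1 b; c 1)` with `b` in the dual of the local ring and `c` small), as for the kernels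
of the types of the block. For every `q > 0` there is `N₀ > 0` divisible by `q` such that for every
invariant `Φ` the function of the previous theorem is invariant under the group `Γ₀(N₀)` of
`SL₂(ℤ[ω])`. Proof: `diag(1/√-3, 1)` moves `γ` to a matrix with upper right entry in the inverse
different, on which the local characters are trivial; at every `v` this matrix permutes the
unit-diagonal classes. -/
theorem classical_function_invariant {K : Type*} [Field K] [NumberField K]
    [IsCyclotomicExtension {3} ℚ K] {J : Type*} [Fintype J] [Unique J] (m : Model K J)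
    (hL : ∀ w, (m.L.U w = U0 w ∧
      w.valuation K ((H85I.sqO (m.e default) : 𝓞 K) : K) = 1) ∨ H85I.LOW m.L w)
    (q : ℕ) (hq : 0 < q) :
    ∃ N₀ : ℕ, 0 < N₀ ∧ q ∣ N₀ ∧ ∀ Φ : m.X → ℂ,
      (∀ (g : PGL(2, K)) (x : m.X), Φ (g • x) = Φ x) →
        ∀ γ ∈ S47T.Gam N₀, ∀ w : H3, H85I.f1 m Φ (γ • w) = H85I.f1 m Φ w :=
  H85I.exists_Gam_inv m hL q hq

/-! ## 7. The final statement -/

/-- **Block (C)** (`H15S47Three`, `H79SBlk`, with `H17CF`, `H79SCmp`). `M = ℚ(ω)`, `E / M` is Galois of
degree three, `e` an embedding of `E`; `a` is a function on the finite places of `E` with `|a_w| ≤ 2`,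
invariant under `Gal(E/M)`, which vanishes at the three places above suitable primes `p` (`hp`);
there are inert places of `M` prime to every `n` (`hI`). Assume that for all multiples `N₀ ≠ 0` of
`N₁` there are forms over `E` with eigenvalues `a` outside `N₀` and admissible types at the places
dividing `N₀` (`H55D.DOut`, the output of block (D)). Then there are a multiple `N` of `N₁` and `3` and
a function `F` on `H3` with multiplicative coefficients `c` as in block (T) (`S47T.ICT`, see `output`),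
such that `c(ϖ) = a_w` for every place `v` of `M` prime to `N` which splits in `E`, `w ∣ v`, and every
generator `ϖ` of `v` (`ℤ[ω]` is identified with the ring of integers of `M` by `e`). -/
theorem block_C (M E : Type) [Field M] [NumberField M] [IsCyclotomicExtension {3} ℚ M] [Field E]
    [NumberField E] [Algebra M E] [IsGalois M E] (h3 : Module.finrank M E = 3) (e : E →+* ℂ)
    (a : HeightOneSpectrum (𝓞 E) → ℝ) (ha2 : ∀ w, |a w| ≤ 2)
    (ha : ∀ (s : E ≃ₐ[M] E) (w : HeightOneSpectrum (𝓞 E)), a (H47.smulPlace s w) = a w)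
    (hp : ∀ n : ℕ, 0 < n → ∃ p : ℕ, p.Prime ∧ ¬ p ∣ n ∧ (p : ZMod n) = -1 ∧ p % 3 = 2 ∧
      (H46Z.divs E p).card = 3 ∧ ∀ w ∈ H46Z.divs E p, a w = 0)
    (hI : ∀ n : ℕ, 0 < n → ∃ v : HeightOneSpectrum (𝓞 M), (n : 𝓞 M) ∉ v.asIdeal ∧
      H82.NonSplit E v ∧ ∀ w ∈ H82.above E v, v.asIdeal.ramificationIdx' w.asIdeal = 1)
    (N₁ : ℕ) (hN₁ : N₁ ≠ 0)
    (hD : ∀ N₀ : ℕ, N₀ ≠ 0 → N₁ ∣ N₀ → H55D.DOut E (H46Z.divs E N₀) a) :
    ∃ (N : ℕ) (c : S47T.Eis → ℝ) (F : H3 → ℂ), 3 ∣ N ∧ N₁ ∣ N ∧ S47T.ICT N c F ∧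
      ∀ v : HeightOneSpectrum (𝓞 M), (N : 𝓞 M) ∉ v.asIdeal → ¬ H82.NonSplit E v →
        ∀ w ∈ H82.above E v, ∀ ϖ : S47T.Eis,
          v.asIdeal = Ideal.span {(H83Z.eisO (e.comp (algebraMap M E))).symm ϖ} → c ϖ = a w :=
  H15S47.blockC_of_two H17S.cfamEx H79S.compar M E h3 e a ha2 ha hp hI N₁ hN₁ hD

end Fermat.Agent.Guide.OctC
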