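import Fermat.Agent.H43ZFin

/-!
# Guide, block (C) of S47: the bad places with one place above them, step by step

Companion of `GuideOctCGeom` (section 4, `matching_bad_nonsplit`) and `GuideOctCLocal`. All theorems
are in the closure of `S47`.

**The problem.** `E / F` is a cyclic cubic extension of number fields, `s` a generator of its group,
`v` a place of `F` with ONE place `w` above it: inert or ramified, also wildly ramified. The function
of the type over `E` is `χ⁻¹` on a small group `H_E` of `PGL₂(E_w)` and zero outside, the one over `F` is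
the same for a small group `H_F`. It has to be shown that for `γ = δ s(δ) s²(δ)`, elliptic regular
(irreducible characteristic polynomial and trace `≠ 0`), the weight `g ↦ f_E(g⁻¹ δ s(g))` and the weight
`y ↦ f_F(y⁻¹ γ y)` are both matched with one weight on `PGL₂(F) / H_F`. This takes the place of the
matching of functions at the ramified places (germ expansions, counting of fixed points on
buildings). Here it is an identity of finite sums which follows from the algebra of the self-dual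
normal basis, in every residue characteristic, three included.

**Order of this file.**
1. The lattices: the expansion in the self-dual basis, multiplication of lattices, the rings of
   matrices with entries in the lattices.
2. Hilbert 90 for the field and for the algebra generated by `γ`; centralisers in `PGL₂`.
3. Norm roots in `PGL₂(L)` over a complete field `L`, and the local theorem.
4. Characters; the bijection of cosets; the matching over a complete field, on both sides.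
5. The completion: data, types, restriction of types, transfer to the number field; the result.

Throughout `L` is a field with a valuation `v` with values in `ℤᵐ⁰` (`exp n`, `n` an integer, and `0`),
`σ` an automorphism of order three, and `σ` also denotes its action on matrices, `GL₂(L)` and
`PGL₂(L)`.

Such types exist for every depth (`selfDual_type` and `types_exist` of `GuideLatticeTypes`; section 3
there is the algebra of the self-dual basis over a number field). Some texts are due to helper92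
(section 5) and helper65 (`matching_of_cosetBij`, `matching_F`).

Notes: [422] (this part), [452] (self-dual basis, second proof), [425], [469] (types), [472]
(matchings). Library, in this order: H76U4, H43Z1, H43Z2, H43Z3, H43Z4, H43Z5, H65S8, H65S9, H43ZDef,
H43Z6, H92T1-H92T5, H10T1-H10T3, H92Psi, H43Z7, H43Z8, H43Z9.
-/

set_option autoImplicit false

open Matrix WithZero IsDedekindDomain NumberField
open scoped MatrixGroups

noncomputable section

namespace Fermat.Agent.Guide.OctCBad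

/-! ## 1. The lattices -/

/-- **Expansion in the self-dual basis** (`H43Z2`). `B` is a ring with an automorphism `s` of order
three, `e` a central element of trace `1` with `e · s e` of trace `0` and `e²` of trace `1`. Every `x` is
`e Tr(e x) + s(e) Tr(s(e) x) + s²(e) Tr(s²(e) x)`, where `Tr y = y + s y + s² y` (`H43Z2.tr3 s y`). -/
theorem expansion {B : Type*} [Ring B] (s : B ≃+* B) (e : B)
    (s3 : ∀ x, s (s (s x)) = x) (central : ∀ x, Commute e x)
    (h0 : e * e + s e * s e + s (s e) * s (s e) = 1)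
    (h1 : e * s e + s e * s (s e) + s (s e) * e = 0) (h2 : e + s e + s (s e) = 1) (x : B) :
    e * (e * x + s (e * x) + s (s (e * x))) + s e * (s e * x + s (s e * x) + s (s (s e * x))) +
      s (s e) * (s (s e) * x + s (s (s e) * x) + s (s (s (s e) * x))) = x :=
  H43Z2.Nb.decomp ⟨s3, central, h0, h1, h2⟩ x

/-- **Contraction principle** (`H43Z2`). `M` is complete and separated for the powers of `π`
(`H43Z2.Compl π M`, written out in `norm_roots` of `GuideOctCGeom`). A map `f` of `M` to itself which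
improves congruences, `x ≡ y` modulo `π^n M` implies `f x ≡ f y` modulo `π^(n+1) M`, has a fixed point.
It is used three times: inverses, norm roots and the normal form; no power series occur. -/
theorem contraction {B : Type*} [Ring B] {π : B} {M : AddSubgroup B} (hM : H43Z2.Compl π M)
    (f : B → B) (hf : ∀ x ∈ M, f x ∈ M)
    (hc : ∀ n, ∀ x ∈ M, ∀ y ∈ M, (∃ z ∈ M, x - y = π ^ n * z) →
      ∃ z ∈ M, f x - f y = π ^ (n + 1) * z) :
    ∃ x ∈ M, f x = x :=
  hM.fix f hf hc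

/-- **The datum over the complete field** `L` (`H43Z3.VD v σ e π κ a b c`, `H43Z3`), written out: `σ` has
order three and preserves `v`, `e` is self-dual, `L` is complete, `π` is fixed by `σ` with `0 < v π < 1`,
`κ ≥ 1` bounds the structure constants `Tr(e_i e_j e_k)` of the basis, and the radii `a`, `b`, `c` are
not `0` and satisfy `κ a ≤ v π` and `b c ≤ a²`. -/
theorem vd_iff {L : Type*} [Field L] (v : Valuation L ℤᵐ⁰) (σ : L ≃+* L) (e π : L)
    (κ a b c : ℤᵐ⁰) :
    H43Z3.VD v σ e π κ a b c ↔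
      ((∀ x, σ (σ (σ x)) = x) ∧ (∀ x, Commute e x) ∧
        e * e + σ e * σ e + σ (σ e) * σ (σ e) = 1 ∧
        e * σ e + σ e * σ (σ e) + σ (σ e) * e = 0 ∧ e + σ e + σ (σ e) = 1) ∧
      (∀ x, v (σ x) = v x) ∧
      (∀ f : ℕ → L, (∀ n : ℕ, v (f (n + 1) - f n) ≤ exp (-(n : ℤ))) →
        ∃ l, ∀ n : ℕ, v (l - f n) ≤ exp (-(n : ℤ))) ∧
      (σ π = π ∧ π ≠ 0 ∧ v π < 1) ∧ 1 ≤ κ ∧
      (∀ i j k : ℕ, v (H43Z2.tr3 σ ((σ^[i] e) * (σ^[j] e) * (σ^[k] e))) ≤ κ) ∧
      (a ≠ 0 ∧ b ≠ 0 ∧ c ≠ 0) ∧ κ * a ≤ v π ∧ b * c ≤ a * a :=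
  ⟨fun D => ⟨⟨D.s3, D.eC, D.t0, D.t1, D.tr⟩, D.vσ, D.complete, ⟨D.sπ, D.π0, D.π1⟩, D.κ1, D.str,
      ⟨D.a0, D.b0, D.c0⟩, D.κa, D.bc⟩,
    fun ⟨⟨a1, a2, a3, a4, a5⟩, h1, h2, ⟨h3, h4, h5⟩, h6, h7, ⟨h8, h9, h10⟩, h11, h12⟩ =>
      ⟨⟨a1, a2, a3, a4, a5⟩, h1, h2, h3, h4, h5, h6, h7, h8, h9, h10, h11, h12⟩⟩

/-- **The lattices** (`H43Z3`). `Lat r` (`H43Z3.Lat v σ e r`) is the set of the `x` for which the traces
of `e x`, `σ(e) x`, `σ²(e) x` have absolute value at most `r`. It contains the `x` fixed by `σ` with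
`v x ≤ r` (and no other fixed elements, see `selfDual_lattices` in `GuideOctCLocal`), and
`Lat r · Lat r'` is contained in `Lat (κ r r')`. So the lattices of small radius are closed under
multiplication, whatever the ramification is. -/
theorem lattices {L : Type*} [Field L] {v : Valuation L ℤᵐ⁰} {σ : L ≃+* L} {e π : L}
    {κ a b c : ℤᵐ⁰} (D : H43Z3.VD v σ e π κ a b c) :
    (∀ (r : ℤᵐ⁰) (x : L), x ∈ H43Z3.Lat v σ e r ↔ v (H43Z2.tr3 σ (e * x)) ≤ r ∧
      v (H43Z2.tr3 σ (σ e * x)) ≤ r ∧ v (H43Z2.tr3 σ (σ (σ e) * x)) ≤ r) ∧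
    (∀ (r : ℤᵐ⁰) (x : L), σ x = x → v x ≤ r → x ∈ H43Z3.Lat v σ e r) ∧
    ∀ (r r' : ℤᵐ⁰) (x y : L), x ∈ H43Z3.Lat v σ e r → y ∈ H43Z3.Lat v σ e r' →
      x * y ∈ H43Z3.Lat v σ e (κ * (r * r')) :=
  ⟨fun _ _ => Iff.rfl, fun _ _ hx h => D.fixed_mem_Lat hx h, fun _ _ _ _ hx hy => D.Lat_mul hx hy⟩

/-- **The matrices satisfy the hypotheses of the norm root theorem** (`H43Z3`). `Q` is the group of the
matrices fixed by `σ` with entries in the balls of radii `a, b; c, a` (`H43Z3.QM v σ a b c`). Then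
`H43Z2.Dat` holds for the ring of two by two matrices, the scalar matrices `e` and `π`, and `Q` (this
is the hypothesis of `norm_roots` in `GuideOctCGeom`, including completeness and `P P ⊆ π P`), and the
group `P` consists of the matrices with entries in `(Lat a, Lat b; Lat c, Lat a)`. -/
theorem matrices_satisfy {L : Type*} [Field L] {v : Valuation L ℤᵐ⁰} {σ : L ≃+* L} {e π : L}
    {κ a b c : ℤᵐ⁰} (D : H43Z3.VD v σ e π κ a b c) :
    H43Z2.Dat (σ.mapMatrix : Matrix (Fin 2) (Fin 2) L ≃+* _) (algebraMap L _ e)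
      (algebraMap L _ π) (H43Z3.QM v σ a b c) ∧
    (∀ q : Matrix (Fin 2) (Fin 2) L, q ∈ H43Z3.QM v σ a b c ↔
      (σ (q 0 0) = q 0 0 ∧ v (q 0 0) ≤ a) ∧ (σ (q 0 1) = q 0 1 ∧ v (q 0 1) ≤ b) ∧
      (σ (q 1 0) = q 1 0 ∧ v (q 1 0) ≤ c) ∧ (σ (q 1 1) = q 1 1 ∧ v (q 1 1) ≤ a)) ∧
    ∀ x : Matrix (Fin 2) (Fin 2) L,
      x ∈ H43Z2.PP (σ.mapMatrix : Matrix (Fin 2) (Fin 2) L ≃+* _) (algebraMap L _ e)
        (H43Z3.QM v σ a b c) ↔
      x 0 0 ∈ H43Z3.Lat v σ e a ∧ x 0 1 ∈ H43Z3.Lat v σ e b ∧ x 1 0 ∈ H43Z3.Lat v σ e c ∧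
        x 1 1 ∈ H43Z3.Lat v σ e a :=
  ⟨D.datM, fun _ => Iff.rfl, fun _ => D.mem_PP_QM⟩

/-- **`1 + P` is a group** (`H43Z2`): every `1 + x`, `x` in `P`, has the inverse `1 + z` with `z` in `P`
(fixed point of `z ↦ -x - x z`). -/
theorem exists_inv {B : Type*} [Ring B] {s : B ≃+* B} {e π : B} {Q : AddSubgroup B}
    (D : H43Z2.Dat s e π Q) {x : B} (hx : x ∈ H43Z2.PP s e Q) :
    ∃ z ∈ H43Z2.PP s e Q, (1 + x) * (1 + z) = 1 ∧ (1 + z) * (1 + x) = 1 :=
  D.exists_inv hx

/-- **Norm roots are compatible with conjugation** (`H43Z2`). `a`, `a'` are in `Q`, `y' = y⁻¹`, and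
conjugation by `y` has bounded denominators on `Q`. If the norms `1 + a + ν a³` and `1 + a' + ν a'³` are
conjugate under `y`, so are `a` and `a'` (uniqueness of the norm root). This gives property (iv) of
`fixed_points` in `GuideOctCGeom`. -/
theorem root_conj {B : Type*} [Ring B] {s : B ≃+* B} {e π : B} {Q : AddSubgroup B}
    (D : H43Z2.Dat s e π Q) {a a' y y' : B} (ha : a ∈ Q) (ha' : a' ∈ Q) (h : y' * y = 1)
    (h' : y * y' = 1) (hy : ∃ m : ℕ, ∀ q ∈ Q, π ^ m * (y' * q * y) ∈ Q)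
    (heq : a' + e * s e * s (s e) * (a' * a' * a') =
      y' * (a + e * s e * s (s e) * (a * a * a)) * y) : a' = y' * a * y :=
  D.root_conj ha ha' h h' hy heq

/-! ## 2. Hilbert 90 and centralisers -/

/-- **Hilbert 90 for the field and for matrices commuting with `γ`** (`H43Z4`). Both follow from the
resolvents `t(c) = c + z σ(c) + z σ(z) σ²(c)`: since `Σ e_i t(e_i)` is `1` in the self-dual basis, some
`t(e_i)` is not `0`, and for matrices some `t(e_i)` or `t(e_i) + t(e_j)` is invertible (the determinant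
is a quadratic form). The matrix `γ` is fixed by `σ`; the solution again commutes with `γ`. -/
theorem hilbert90 {L : Type*} [Field L] {v : Valuation L ℤᵐ⁰} {σ : L ≃+* L} {e π : L}
    {κ a b c : ℤᵐ⁰} (D : H43Z3.VD v σ e π κ a b c) :
    (∀ z : L, z * σ z * σ (σ z) = 1 → ∃ u : L, u ≠ 0 ∧ z * σ u = u) ∧
    ∀ (γ : Matrix (Fin 2) (Fin 2) L), σ.mapMatrix γ = γ → ∀ u : GL (Fin 2) L,
      Commute (u : Matrix (Fin 2) (Fin 2) L) γ →
      u * GeneralLinearGroup.map (σ : L →+* L) u *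
        GeneralLinearGroup.map (σ : L →+* L) (GeneralLinearGroup.map (σ : L →+* L) u) = 1 →
      ∃ t : GL (Fin 2) L, Commute (t : Matrix (Fin 2) (Fin 2) L) γ ∧
        u * GeneralLinearGroup.map (σ : L →+* L) t = t :=
  ⟨fun _ hz => H43Z4.h90 D.toNb hz, fun _ hγ _ hu hN => H43Z4.h90M D.nbM hγ hu hN⟩

/-- **Centralisers in `PGL₂`** (`H43Z4`). `γ` in `GL₂(L)` is fixed by `σ`, not scalar, of trace `≠ 0`.
The centraliser of its class in `PGL₂(L)` is commutative, and every `u` in it with `u σ(u) σ²(u) = 1` is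
of the form `t σ(t)⁻¹`, `t` in the centraliser. (If the trace is not `0`, elements commuting with the
class of `γ` in `PGL₂` commute with `γ` in `GL₂`.) These are the hypotheses of `fixed_points` in
`GuideOctCGeom`. -/
theorem centralisers {L : Type*} [Field L] {v : Valuation L ℤᵐ⁰} {σ : L ≃+* L} {e π : L}
    {κ a b c : ℤᵐ⁰} (D : H43Z3.VD v σ e π κ a b c) (γ : GL (Fin 2) L)
    (hns : ∀ x : L, (γ : Matrix (Fin 2) (Fin 2) L) ≠ x • 1)
    (htr : (γ : Matrix (Fin 2) (Fin 2) L).trace ≠ 0)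
    (hγ : GeneralLinearGroup.map (σ : L →+* L) γ = γ) :
    (∀ x y : PGL(2, L), Commute x (ProjGenLinGroup.mk γ) → Commute y (ProjGenLinGroup.mk γ) →
      Commute x y) ∧
    ∀ u : PGL(2, L), Commute u (ProjGenLinGroup.mk γ) →
      u * ProjGenLinGroup.map (σ : L →+* L) u *
        ProjGenLinGroup.map (σ : L →+* L) (ProjGenLinGroup.map (σ : L →+* L) u) = 1 →
      ∃ t, Commute t (ProjGenLinGroup.mk γ) ∧ u = t * (ProjGenLinGroup.map (σ : L →+* L) t)⁻¹ :=
  ⟨H43Z4.good_comm ⟨hns, htr⟩, H43Z4.good_H1 D.toNb D.nbM ⟨hns, htr⟩ hγ⟩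

/-- **Descent**: a fixed element of `PGL₂(L)` is the class of a fixed matrix (`H43Z4`), and comes from
`PGL₂` of the fixed field (`H10T2`; `H92T.fixF σ` is the fixed field of `σ`). -/
theorem descent {L : Type*} [Field L] {v : Valuation L ℤᵐ⁰} {σ : L ≃+* L} {e π : L}
    {κ a b c : ℤᵐ⁰} (D : H43Z3.VD v σ e π κ a b c) (hσ : ∃ x, σ x ≠ x) (g : PGL(2, L))
    (hg : ProjGenLinGroup.map (σ : L →+* L) g = g) :
    (∃ x : GL (Fin 2) L, ProjGenLinGroup.mk x = g ∧
      GeneralLinearGroup.map (σ : L →+* L) x = x) ∧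
    ∃ h : PGL(2, H92T.fixF σ), ProjGenLinGroup.map (H92T.fixF σ).subtype h = g :=
  ⟨H43Z4.fixed_lift D.toNb g hg, H10T.descend_PGL D.s3 hσ g hg⟩

/-! ## 3. Norm roots in `PGL₂(L)` and the local theorem -/

/-- **The groups** (`H43Z5`): `GH D` is the group of the matrices `g` in `GL₂(L)` with `g - 1` in
`(Lat a, Lat b; Lat c, Lat a)`, `HP D` its image in `PGL₂(L)`. -/
theorem mem_groups {L : Type*} [Field L] {v : Valuation L ℤᵐ⁰} {σ : L ≃+* L} {e π : L}
    {κ a b c : ℤᵐ⁰} (D : H43Z3.VD v σ e π κ a b c) :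
    (∀ g : GL (Fin 2) L, g ∈ H43Z5.GH D ↔ g 0 0 - 1 ∈ H43Z3.Lat v σ e a ∧
      g 0 1 ∈ H43Z3.Lat v σ e b ∧ g 1 0 ∈ H43Z3.Lat v σ e c ∧
      g 1 1 - 1 ∈ H43Z3.Lat v σ e a) ∧
    ∀ x : PGL(2, L), x ∈ H43Z5.HP D ↔ ∃ g ∈ H43Z5.GH D, ProjGenLinGroup.mk g = x :=
  ⟨fun _ => H43Z5.mem_GH_iff, fun _ => Iff.rfl⟩

/-- **Norm roots, the relation** (`H43Z5`). `RP x y` says that `x`, `y` are the classes of
`1 + q + ν q³` and `1 + e q` with the same `q` in `Q` (fixed, entries in the balls); here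
`ν = e σ(e) σ²(e)`, as a scalar matrix `H43Z5.nu σ e`. -/
theorem normRoot_iff {L : Type*} [Field L] (v : Valuation L ℤᵐ⁰) (σ : L ≃+* L) (e : L)
    (a b c : ℤᵐ⁰) (x y : PGL(2, L)) :
    H43Z5.RP v σ e a b c x y ↔
      ∃ x' y' : GL (Fin 2) L, ProjGenLinGroup.mk x' = x ∧ ProjGenLinGroup.mk y' = y ∧
        ∃ q ∈ H43Z3.QM v σ a b c,
          (x' : Matrix (Fin 2) (Fin 2) L) = 1 + (q + H43Z5.nu σ e * (q * q * q)) ∧
          (y' : Matrix (Fin 2) (Fin 2) L) = 1 + algebraMap L _ e * q :=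
  Iff.rfl

/-- **Norm roots in `GL₂(L)`** (`H43Z5`). Let `q` be in `Q`, `x = 1 + q + ν q³` and `y = 1 + e q` (as
elements of `GL₂(L)`). Then `x - 1` is in `Q`, so `x` is fixed by `σ`; `x` and `y` are in `1 + P`,
`y σ(y) σ²(y) = x`, and `x`, `y` commute. -/
theorem normRoot_facts {L : Type*} [Field L] {v : Valuation L ℤᵐ⁰} {σ : L ≃+* L} {e π : L}
    {κ a b c : ℤᵐ⁰} (D : H43Z3.VD v σ e π κ a b c) {x y : GL (Fin 2) L}
    {q : Matrix (Fin 2) (Fin 2) L} (hq : q ∈ H43Z3.QM v σ a b c)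
    (hx : (x : Matrix (Fin 2) (Fin 2) L) = 1 + (q + H43Z5.nu σ e * (q * q * q)))
    (hy : (y : Matrix (Fin 2) (Fin 2) L) = 1 + algebraMap L _ e * q) :
    (x : Matrix (Fin 2) (Fin 2) L) - 1 ∈ H43Z3.QM v σ a b c ∧
    GeneralLinearGroup.map (σ : L →+* L) x = x ∧ (x ∈ H43Z5.GH D ∧ y ∈ H43Z5.GH D) ∧
    y * GeneralLinearGroup.map (σ : L →+* L) y *
      GeneralLinearGroup.map (σ : L →+* L) (GeneralLinearGroup.map (σ : L →+* L) y) = x ∧
    Commute (y : Matrix (Fin 2) (Fin 2) L) x :=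
  have h : H43Z5.RG v σ e a b c x y := ⟨q, hq, hx, hy⟩
  ⟨H43Z5.RG_mem1 D h, H43Z5.fixed_of_mem (H43Z5.RG_mem1 D h),
    ⟨H43Z5.RG_memL D h, H43Z5.RG_memR D h⟩, H43Z5.RG_norm D h,
    hx ▸ hy ▸ H43Z5.poly_comm D q⟩

/-- **Scalar cocycles have norm one** (`H43Z5`): if `σ(x) = x z` with a scalar `z`, then
`z σ(z) σ²(z) = 1`. Such a `z` occurs if the class of `x` in `PGL₂(L)` is fixed by `σ`. -/
theorem scalar_norm_one {L : Type*} [Field L] {σ : L ≃+* L} (h3 : ∀ x, σ (σ (σ x)) = x)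
    {x : GL (Fin 2) L} {z : Lˣ}
    (hz : x * GeneralLinearGroup.scalar (Fin 2) z = GeneralLinearGroup.map (σ : L →+* L) x) :
    (z : L) * σ z * σ (σ z) = 1 :=
  H43Z5.scalar_norm_one h3 hz

/-- **Scalars, first point** (`H43Z5`): a scalar `u` of norm one near to `1` is the coboundary of a
scalar near to `1` (Hilbert 90 inside the lattice: normal form and uniqueness of the norm root, for
the ring `L` itself). -/
theorem scalar_cocycle {L : Type*} [Field L] {v : Valuation L ℤᵐ⁰} {σ : L ≃+* L} {e π : L}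
    {κ a b c : ℤᵐ⁰} (D : H43Z3.VD v σ e π κ a b c) {u : L} (hu : u - 1 ∈ H43Z3.Lat v σ e a)
    (hN : u * σ u * σ (σ u) = 1) : ∃ w : L, w ≠ 0 ∧ w - 1 ∈ H43Z3.Lat v σ e a ∧ u * σ w = w :=
  H43Z5.scalar_cocycle D hu hN

/-- **Scalars, second point** (`H43Z5`): if `x₂ u` (`u` a scalar) is conjugate to `x₁` and `x₁ - 1`,
`x₂ - 1` are in `Q`, then `v (u - 1) ≤ a`: compare `det (u x₂ - 1) = det (x₁ - 1)`. So conjugate
classes in `PGL₂(L)` of elements near to `1` have conjugate representatives near to `1`. -/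
theorem scalar_bound {L : Type*} [Field L] {v : Valuation L ℤᵐ⁰} {σ : L ≃+* L} {e π : L}
    {κ a b c : ℤᵐ⁰} (D : H43Z3.VD v σ e π κ a b c) {x₁ x₂ Y : GL (Fin 2) L} {u : Lˣ}
    (h1 : (x₁ : Matrix (Fin 2) (Fin 2) L) - 1 ∈ H43Z3.QM v σ a b c)
    (h2 : (x₂ : Matrix (Fin 2) (Fin 2) L) - 1 ∈ H43Z3.QM v σ a b c)
    (h : x₂ * GeneralLinearGroup.scalar (Fin 2) u = Y⁻¹ * x₁ * Y) : v ((u : L) - 1) ≤ a :=
  H43Z5.scalar_bound D h1 h2 h

/-- **Bounded denominators** (`H43Z5`): conjugation by a matrix `Y` fixed by `σ` maps `π^m Q` into `Q` for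
some `m`, as `root_conj` requires. -/
theorem bounded_denominators {L : Type*} [Field L] {v : Valuation L ℤᵐ⁰} {σ : L ≃+* L} {e π : L}
    {κ a b c : ℤᵐ⁰} (D : H43Z3.VD v σ e π κ a b c) {Y : GL (Fin 2) L}
    (hY : GeneralLinearGroup.map (σ : L →+* L) Y = Y) :
    ∃ m : ℕ, ∀ q ∈ H43Z3.QM v σ a b c, algebraMap L (Matrix (Fin 2) (Fin 2) L) π ^ m *
      ((↑Y⁻¹ : Matrix (Fin 2) (Fin 2) L) * q * (Y : Matrix (Fin 2) (Fin 2) L)) ∈
        H43Z3.QM v σ a b c :=
  H43Z5.comm_bound D hY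

/-- **The norm roots satisfy the four properties** (`H43Z5`) of `fixed_points` in `GuideOctCGeom`
(`H43Z1.NormRoots`, there written out). (i) is `normRoot_facts`. (ii) Let `g` be in `1 + P` and its class
in `PGL₂(L)` fixed: `σ(g) = g z` with a scalar `z`, which is near to `1` and of norm one
(`scalar_norm_one`). By `scalar_cocycle` some `g w`, `w` a scalar near to `1`, is fixed, and it has a norm
root by `norm_roots` of `GuideOctCGeom`. (iii) is the normal form of the same theorem. (iv) Let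
`x₂ u = Y⁻¹ x₁ Y` with norm roots `y₁`, `y₂` of `x₁`, `x₂`, a scalar `u` and `Y` fixed (`descent`). Then `u`
is fixed and near to `1` (`scalar_bound`), hence the norm of a scalar `w` near to `1`. By the normal form
in the centraliser of `x₂` the element `y₂ w` is `σ`-conjugate, under an element of `1 + P` commuting
with `x₂`, to some `1 + e q`; this has the norm `Y⁻¹ x₁ Y`, so it is `Y⁻¹ y₁ Y` by `root_conj` and
`bounded_denominators`. -/
theorem norm_roots_PGL {L : Type*} [Field L] {v : Valuation L ℤᵐ⁰} {σ : L ≃+* L} {e π : L}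
    {κ a b c : ℤᵐ⁰} (D : H43Z3.VD v σ e π κ a b c) :
    H43Z1.NormRoots (ProjGenLinGroup.map (σ : L →+* L)) (H43Z5.HP D)
      (H43Z5.RP v σ e a b c) :=
  H43Z5.normRoots D

/-- **The local theorem** (`H43Z5`), from `norm_roots_PGL`, `centralisers` and `fixed_points` of
`GuideOctCGeom`. Let `γ` in `GL₂(L)` be fixed by `σ`, not scalar, of trace `≠ 0`, and let `δ` in `PGL₂(L)`
commute with the class of `γ` and have norm the class of `γ`. For one `t` in the centraliser of `γ`,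
the `g` with `g⁻¹ δ σ(g)` in `H` are the `t y h` with `y` fixed, `y⁻¹ γ y` in `H`, `h` in `H`; and
`(t y)⁻¹ δ σ(t y)` is `σ`-conjugate under `H` to the norm roots of `y⁻¹ γ y`. -/
theorem local_theorem {L : Type*} [Field L] {v : Valuation L ℤᵐ⁰} {σ : L ≃+* L} {e π : L}
    {κ a b c : ℤᵐ⁰} (D : H43Z3.VD v σ e π κ a b c) (γ : GL (Fin 2) L)
    (hns : ∀ x : L, (γ : Matrix (Fin 2) (Fin 2) L) ≠ x • 1)
    (htr : (γ : Matrix (Fin 2) (Fin 2) L).trace ≠ 0)
    (hγ : GeneralLinearGroup.map (σ : L →+* L) γ = γ) (δ : PGL(2, L))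
    (hδ : Commute δ (ProjGenLinGroup.mk γ))
    (hnorm : δ * ProjGenLinGroup.map (σ : L →+* L) δ *
      ProjGenLinGroup.map (σ : L →+* L) (ProjGenLinGroup.map (σ : L →+* L) δ) =
        ProjGenLinGroup.mk γ) :
    ∃ t, Commute t (ProjGenLinGroup.mk γ) ∧
      (∀ y, ProjGenLinGroup.map (σ : L →+* L) y = y →
        y⁻¹ * ProjGenLinGroup.mk γ * y ∈ H43Z5.HP D →
        ∀ η, H43Z5.RP v σ e a b c (y⁻¹ * ProjGenLinGroup.mk γ * y) η →
        ∃ h ∈ H43Z5.HP D, (t * y)⁻¹ * δ * ProjGenLinGroup.map (σ : L →+* L) (t * y) =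
          h * η * (ProjGenLinGroup.map (σ : L →+* L) h)⁻¹) ∧
      (∀ g, g⁻¹ * δ * ProjGenLinGroup.map (σ : L →+* L) g ∈ H43Z5.HP D →
        ∃ y, ProjGenLinGroup.map (σ : L →+* L) y = y ∧
          y⁻¹ * ProjGenLinGroup.mk γ * y ∈ H43Z5.HP D ∧ ∃ h ∈ H43Z5.HP D, g = t * y * h) :=
  H43Z5.local_fixed D ⟨hns, htr⟩ hγ hδ hnorm

/-! ## 4. Characters, the bijection of cosets, the matching over a complete field

A type over a field `K` (`T : H76U.TD K`) consists of three additive groups `A, B, C` and an additive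
character `psi` of `K`, trivial on `A B`, such that the matrices `g` with `g - 1` in `(A, B; C, A)` form
a group. `T.H` is its image in `PGL₂(K)`, `T.chi` the character `g ↦ psi(g₀₁)` of `T.H`. -/

/-- **The function of a type** (`H65S9`): `χ⁻¹` on `H`, zero outside. -/
theorem type_function {K : Type*} [Field K] (T : H76U.TD K) :
    (∀ x ∈ T.H, H65.S47.Tf T x = (T.chi x)⁻¹) ∧ (∀ x ∉ T.H, H65.S47.Tf T x = 0) ∧
      ∀ g ∈ T.GH, T.chi (ProjGenLinGroup.mk g) = T.psi (g 0 1) :=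
  ⟨fun _ hx => H65.S47.Tf_of_mem T hx, fun _ hx => H65.S47.Tf_of_notMem T hx,
    fun _ hg => T.chi_of_mem hg⟩

/-- **Invariance of the function of a type** (`H65S9`): if `s` preserves `H` and `χ`, then
`f(h⁻¹ x s(h)) = f(x)` for `h` in `H`; for `s = 1` this is invariance under conjugation. -/
theorem type_function_invariant {K : Type*} [Field K] (T : H76U.TD K) {s : PGL(2, K) → PGL(2, K)}
    (hs : ∀ h ∈ T.H, s h ∈ T.H) (hchi : ∀ h ∈ T.H, T.chi (s h) = T.chi h)
    (x h : PGL(2, K)) (hh : h ∈ T.H) : H65.S47.Tf T (h⁻¹ * x * s h) = H65.S47.Tf T x :=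
  H65.S47.Tf_twist T hs hchi x h hh

/-- **The types over the complete field** (`H43Z6.TT`), written out. The lattices of `TE` are
`Lat a, Lat b, Lat c`, those of `TF` (over the fixed field) the balls of radii `a, b, c`, the character
of `TE` is the character of `TF` of the trace, the latter is trivial on the ball of radius `a b`, and
`|ν| a ≤ 1` for `ν = e σ(e) σ²(e)`. -/
theorem types_iff {L : Type*} [Field L] (v : Valuation L ℤᵐ⁰) (σ : L ≃+* L) (e : L)
    (a b c : ℤᵐ⁰) (TE : H76U.TD L) (TF : H76U.TD (H92T.fixF σ)) :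
    H43Z6.TT v σ e a b c TE TF ↔
      (∀ x, x ∈ TE.A ↔ x ∈ H43Z3.Lat v σ e a) ∧ (∀ x, x ∈ TE.B ↔ x ∈ H43Z3.Lat v σ e b) ∧
      (∀ x, x ∈ TE.C ↔ x ∈ H43Z3.Lat v σ e c) ∧
      (∀ x : H92T.fixF σ, x ∈ TF.A ↔ v (x : L) ≤ a) ∧
      (∀ x : H92T.fixF σ, x ∈ TF.B ↔ v (x : L) ≤ b) ∧
      (∀ x : H92T.fixF σ, x ∈ TF.C ↔ v (x : L) ≤ c) ∧
      (∀ (x : L) (y : H92T.fixF σ), (y : L) = H43Z2.tr3 σ x → TE.psi x = TF.psi y) ∧
      (∀ x : H92T.fixF σ, v (x : L) ≤ a * b → TF.psi x = 1) ∧ v (e * σ e * σ (σ e)) * a ≤ 1 :=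
  ⟨fun h => ⟨h.A, h.B, h.C, h.A', h.B', h.C', h.psi_tr, h.psi1, h.nu1⟩,
    fun ⟨a, b, c, d, e, f, g, h, i⟩ => ⟨a, b, c, d, e, f, g, h, i⟩⟩

/-- **The groups of the two types** (`H43Z6`). The group of `TE` is the group `HP D`; it contains the image
of the group of `TF`; it is stable under `σ`, and `χ_E(σ(x)) = χ_E(x)` (a trace is invariant). -/
theorem groups_of_types {L : Type*} [Field L] {v : Valuation L ℤᵐ⁰} {σ : L ≃+* L} {e π : L}
    {κ a b c : ℤᵐ⁰} (D : H43Z3.VD v σ e π κ a b c) {TE : H76U.TD L}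
    {TF : H76U.TD (H92T.fixF σ)} (h : H43Z6.TT v σ e a b c TE TF) :
    TE.H = H43Z5.HP D ∧
    (∀ y ∈ TF.H, ProjGenLinGroup.map (H92T.fixF σ).subtype y ∈ TE.H) ∧
    ∀ x ∈ TE.H, ProjGenLinGroup.map (σ : L →+* L) x ∈ TE.H ∧
      TE.chi (ProjGenLinGroup.map (σ : L →+* L) x) = TE.chi x :=
  ⟨h.H_eq D, fun _ hy => h.le D hy, fun _ hx => h.chi_sP D hx⟩

/-- **The characters agree on norm roots** (`H43Z6`). If `y` in `PGL₂` of the fixed field is in the group
over `L`, it is in the group over the fixed field, and it has a norm root `η` with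
`χ_E(η) = χ_F(y)`: for `η` the class of `1 + e q` and `y` the class of `1 + q + ν q³` the first is
`psi_F(Tr(e) q₀₁) = psi_F(q₀₁)`, and the cubic term has `|ν (q³)₀₁| ≤ |ν| a² b ≤ a b`, where `psi_F` is
trivial. This is the only place where the characters are compared. -/
theorem characters_agree {L : Type*} [Field L] {v : Valuation L ℤᵐ⁰} {σ : L ≃+* L} {e π : L}
    {κ a b c : ℤᵐ⁰} (D : H43Z3.VD v σ e π κ a b c) {TE : H76U.TD L}
    {TF : H76U.TD (H92T.fixF σ)} (h : H43Z6.TT v σ e a b c TE TF) {y : PGL(2, H92T.fixF σ)}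
    (hy : ProjGenLinGroup.map (H92T.fixF σ).subtype y ∈ TE.H) :
    y ∈ TF.H ∧ ∃ η, H43Z5.RP v σ e a b c (ProjGenLinGroup.map (H92T.fixF σ).subtype y) η ∧
      TE.chi η = TF.chi y :=
  h.root D hy

/-- **Bijections of cosets** (`H65S8.CosetBij`, written out). `ι : G' → G` a homomorphism, `s` an
endomorphism of `G`, `V` and `V'` subgroups. The function `F` is zero outside `V` and invariant under
`x ↦ h⁻¹ x s(h)`, `h ∈ V`; `F'` is nonzero exactly on `V'` and invariant under conjugation by `V'`. `τ` is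
such that `y V' ↦ τ ι(y) V` is a bijection of the `y V'` with `y⁻¹ γ y` in `V'` and the `g V` with
`g⁻¹ d s(g)` in `V`, preserving the values. -/
theorem cosetBij_iff {G G' : Type*} [Group G] [Group G'] (ι : G' →* G) (s : G →* G)
    (V : Subgroup G) (V' : Subgroup G') (F : G → ℂ) (F' : G' → ℂ) (d : G) (γ : G') (τ : G) :
    H65.S47.CosetBij ι s V V' F F' d γ τ ↔
      (∀ y : G', y⁻¹ * γ * y ∈ V' →
        F ((τ * ι y)⁻¹ * d * s (τ * ι y)) = F' (y⁻¹ * γ * y)) ∧
      (∀ g : G, g⁻¹ * d * s g ∈ V → ∃ y : G', y⁻¹ * γ * y ∈ V' ∧ g⁻¹ * (τ * ι y) ∈ V) ∧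
      ((∀ y : G', ι y ∈ V → y ∈ V') ∧ ∀ y ∈ V', ι y ∈ V) ∧
      ((∀ x h, h ∈ V → F (h⁻¹ * x * s h) = F x) ∧
        ∀ x h, h ∈ V' → F' (h⁻¹ * x * h) = F' x) ∧
      (∀ x, F x ≠ 0 → x ∈ V) ∧ ∀ x, F' x ≠ 0 ↔ x ∈ V' :=
  ⟨fun h => ⟨h.val, h.surj, ⟨h.inj, h.le⟩, ⟨h.inv, h.inv'⟩, h.supp, h.supp'⟩,
    fun ⟨a, b, ⟨c, d⟩, ⟨e, f⟩, g, i⟩ => ⟨a, b, c, d, e, f, g, i⟩⟩

/-- **The bijection of cosets over the complete field** (`H43Z6`): `local_theorem` and
`characters_agree`, together (with `descent`, `groups_of_types`, `type_function_invariant`). `δ` of norm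
`γ`, `γ` in `GL₂` of the fixed field not scalar and of trace `≠ 0` (in `L`); the functions are those of
the types. -/
theorem cosetBij {L : Type*} [Field L] {v : Valuation L ℤᵐ⁰} {σ : L ≃+* L} {e π : L}
    {κ a b c : ℤᵐ⁰} (D : H43Z3.VD v σ e π κ a b c) (hσ : ∃ x, σ x ≠ x) {TE : H76U.TD L}
    {TF : H76U.TD (H92T.fixF σ)} (h : H43Z6.TT v σ e a b c TE TF)
    (γ : GL (Fin 2) (H92T.fixF σ))
    (hns : ∀ x : L, (GeneralLinearGroup.map (H92T.fixF σ).subtype γ :
      Matrix (Fin 2) (Fin 2) L) ≠ x • 1)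
    (htr : (GeneralLinearGroup.map (H92T.fixF σ).subtype γ :
      Matrix (Fin 2) (Fin 2) L).trace ≠ 0) (δ : PGL(2, L))
    (hnorm : δ * ProjGenLinGroup.map (σ : L →+* L) δ *
      ProjGenLinGroup.map (σ : L →+* L) (ProjGenLinGroup.map (σ : L →+* L) δ) =
        ProjGenLinGroup.map (H92T.fixF σ).subtype (ProjGenLinGroup.mk γ)) :
    ∃ τ : PGL(2, L),
      Commute τ (ProjGenLinGroup.map (H92T.fixF σ).subtype (ProjGenLinGroup.mk γ)) ∧
      H65.S47.CosetBij (ProjGenLinGroup.map (H92T.fixF σ).subtype)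
        (ProjGenLinGroup.map (σ : L →+* L)) TE.H TF.H (H65.S47.Tf TE) (H65.S47.Tf TF) δ
        (ProjGenLinGroup.mk γ) τ :=
  h.cosetBij D hσ ⟨hns, htr⟩ hnorm

/-- **From cosets to weights** (`H65S8`), over `E`. In the situation of `cosetBij_iff` let `U` be a
subgroup of finite index in `V`. The weight `g U ↦ [V : U]⁻¹ F(g⁻¹ d s(g))` on `G / U` and the weight
`y V' ↦ F'(y⁻¹ γ y)` on `G' / V'` are matched (`H57C.LocMatch`, see `locMatch_iff` in
`GuideOctCGeom`). `T` is a group or a set of parameters with elements `a t` of `G'` which commute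
with `τ`. The third set of `GuideOctCGeom` is `G' / V'`. -/
theorem matching_of_cosetBij {G G' : Type*} [Group G] [Group G'] {ι : G' →* G} {s : G →* G}
    {V : Subgroup G} {V' : Subgroup G'} {F : G → ℂ} {F' : G' → ℂ} {d : G} {γ : G'} {τ : G}
    (h : H65.S47.CosetBij ι s V V' F F' d γ τ) {U : Subgroup G} (hU : U ≤ V)
    (hfin : (U.subgroupOf V).FiniteIndex) {T : Type*} {a : T → G'}
    (ha : ∀ t, ι (a t) * τ = τ * ι (a t)) {φ : G ⧸ U → ℂ}
    (hφ : ∀ g : G, φ (g : G ⧸ U) = ((U.relIndex V : ℕ) : ℂ)⁻¹ * F (g⁻¹ * d * s g))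
    {ζ : G' ⧸ V' → ℂ} (hζ : ∀ y : G', ζ (y : G' ⧸ V') = F' (y⁻¹ * γ * y)) :
    ∃ β : G ⧸ U → G' ⧸ V',
      H57C.LocMatch (fun t x => ι (a t) • x) (fun t y => a t • y) φ ζ β :=
  ⟨_, h.locMatch hU hfin ha hφ hζ⟩

/-- **From cosets to weights, over `F`** (`H65S9`). `κ` is the idempotent of the type `T` (`IsTyp`: the
value at `(g, g')` is `χ(g⁻¹ g')⁻¹ / [H : U]` if `g⁻¹ g'` is in `H`, and zero otherwise). The weight
`y ↦ κ(y, γ y)` on `PGL₂(K) / U` is matched with the weight `y ↦ f(y⁻¹ γ y)` on `PGL₂(K) / H`, `f` the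
function of the type. -/
theorem matching_F {K : Type*} [Field K] (T : H76U.TD K) {U : Subgroup PGL(2, K)}
    (hU : U ≤ T.H) (hfin : (U.subgroupOf T.H).index ≠ 0) {κ : H59XF.LocKer U}
    (h : H79S.IsTyp κ T.H T.chi) (γ : PGL(2, K)) {A : Type*} (a : A → PGL(2, K)) :
    (∀ y : PGL(2, K), H65.S47.Tpsi T γ (y : PGL(2, K) ⧸ T.H) = H65.S47.Tf T (y⁻¹ * γ * y)) ∧
    ∃ β : PGL(2, K) ⧸ U → PGL(2, K) ⧸ T.H,
      H57C.LocMatch (fun c x => a c • x) (fun c y => a c • y) (fun y => κ.k y (γ • y))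
        (H65.S47.Tpsi T γ) β :=
  ⟨fun _ => rfl, H65.S47.typ_locMatch T hU hfin h γ a⟩

/-! ## 5. From the completion to the number field; the result -/

/-- **The data of the completion** (`H92T4`; `H92T.Hat j v s σ i`, written out). `j : E → L` has dense
image, `L` is complete, `v` is surjective, `σ` extends `s`, preserves `v` and `σ³ = 1`, `s³ = 1` and
`s ≠ 1`, `i : F → E` is the fixed field of `s`, `3 ≠ 0`. By `completion` and
`automorphism_completion` of `GuideOctCLocal` the completion of `E` at `w` is an example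
(`exists_hat`). -/
theorem hat_iff {E L F : Type*} [Field E] [Field L] [Field F] (j : E →+* L)
    (v : Valuation L ℤᵐ⁰) (s : E ≃+* E) (σ : L ≃+* L) (i : F →+* E) :
    H92T.Hat j v s σ i ↔
      (∀ (x : L) (n : ℕ), ∃ k : E, v (x - j k) ≤ exp (-(n : ℤ))) ∧
      (∀ x : ℕ → L, (∀ n, v (x (n + 1) - x n) ≤ exp (-(n : ℤ))) →
        ∃ y, ∀ n, v (y - x n) ≤ exp (-(n : ℤ))) ∧
      Function.Surjective v ∧ (∀ x, σ (j x) = j (s x)) ∧ (∀ x, v (σ x) = v x) ∧
      (∀ x, σ (σ (σ x)) = x) ∧ (∀ x, s (s (s x)) = x) ∧ (∃ x, s x ≠ x) ∧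
      (∀ f, s (i f) = i f) ∧ (∀ x, s x = x → ∃ f, i f = x) ∧ (3 : E) ≠ 0 :=
  ⟨fun h => ⟨h.dense, h.compl, h.surj, h.sh_j, h.sh_v, h.sh3, h.s3, h.ne, h.fix, h.ex, h.three⟩,
    fun ⟨a, b, c, d, e, f, g, h, i, j, k⟩ => ⟨a, b, c, d, e, f, g, h, i, j, k⟩⟩

/-- **The data exist** (`H92T4`) for the fraction field `E` of a Dedekind domain (for example a number
field) with `3 ≠ 0` in `E`, an automorphism `s ≠ 1` with `s³ = 1` and the completion at a place `w` whose
valuation is invariant under `s`. -/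
theorem exists_hat {R E F : Type*} [CommRing R] [IsDedekindDomain R] [Field E] [Algebra R E]
    [IsFractionRing R E] [Field F] (w : HeightOneSpectrum R) (s : E ≃+* E) (i : F →+* E)
    (hs : ∀ x, w.valuation E (s x) = w.valuation E x) (hs3 : ∀ x, s (s (s x)) = x)
    (hne : ∃ x, s x ≠ x) (hfix : ∀ f, s (i f) = i f) (hex : ∀ x, s x = x → ∃ f, i f = x)
    (h3 : (3 : E) ≠ 0) :
    ∃ σ : w.adicCompletion E ≃+* w.adicCompletion E,
      H92T.Hat (algebraMap E (w.adicCompletion E))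
        (Valued.v : Valuation (w.adicCompletion E) ℤᵐ⁰) s σ i :=
  H92T.exists_Hat w s i hs hs3 hne hfix hex h3

/-- **The maps** (`H92T4`). `H.jF` is the map from `F` to the fixed field of `σ` in `L` induced by `j`; the
two ways from `PGL₂(F)` to `PGL₂(L)`, through `PGL₂` of the fixed field and through `PGL₂(E)`, agree; if
the norm of `d` is `γ`, then the norm of the image of `d` in `PGL₂(L)` is the image of `γ`. -/
theorem hat_maps {E L F : Type*} [Field E] [Field L] [Field F] {j : E →+* L}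
    {v : Valuation L ℤᵐ⁰} {s : E ≃+* E} {σ : L ≃+* L} {i : F →+* E} (H : H92T.Hat j v s σ i) :
    (∀ f : F, ((H.jF f : H92T.fixF σ) : L) = j (i f)) ∧
    (∀ x : PGL(2, F), ProjGenLinGroup.map (H92T.fixF σ).subtype (ProjGenLinGroup.map H.jF x) =
      ProjGenLinGroup.map j (ProjGenLinGroup.map i x)) ∧
    ∀ (d : PGL(2, E)) (γ : PGL(2, F)), d * ProjGenLinGroup.map (s : E →+* E) d *
        ProjGenLinGroup.map (s : E →+* E) (ProjGenLinGroup.map (s : E →+* E) d) =
          ProjGenLinGroup.map i γ →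
      ProjGenLinGroup.map j d * ProjGenLinGroup.map (σ : L →+* L) (ProjGenLinGroup.map j d) *
        ProjGenLinGroup.map (σ : L →+* L)
          (ProjGenLinGroup.map (σ : L →+* L) (ProjGenLinGroup.map j d)) =
        ProjGenLinGroup.map (H92T.fixF σ).subtype (ProjGenLinGroup.map H.jF γ) :=
  ⟨fun _ => rfl, H.square, fun _ _ h => H.norm_hat h⟩

/-- **`F` is dense in the fixed field** (`H10T1`; `H92T.fixF σ` is the fixed field of `σ` in `L`):
approximate an element of the fixed field by elements of `E` and take the average over `s`; division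
by `3` is allowed after enlarging the precision. -/
theorem dense_fixed_field {E L F : Type*} [Field E] [Field L] [Field F] {j : E →+* L}
    {v : Valuation L ℤᵐ⁰} {s : E ≃+* E} {σ : L ≃+* L} {i : F →+* E} (H : H92T.Hat j v s σ i)
    (hfix : ∀ f, σ (j (i f)) = j (i f)) (x : H92T.fixF σ) (n : ℕ) :
    ∃ k : F, v ((x : L) - j (i k)) ≤ exp (-(n : ℤ)) :=
  H10T.dense_toFix H.dense H.sh_v H.sh_j H.s3 H.three H.ex hfix x n

/-- **Groups of types are open** (`H43Z7`): if the `x` with `v x ≤ exp(-n)` are in the three lattices and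
in the kernel of `psi`, the congruence subgroup of level `n` is contained in the group of the type, and
its image in `PGL₂(L)` in the kernel `U` of `χ` (`H92T.Gam v n` and `H92T.PGam v n`). -/
theorem open_groups {L : Type*} [Field L] {v : Valuation L ℤᵐ⁰} {T : H76U.TD L} {n : ℕ}
    (h : ∀ x, v x ≤ exp (-(n : ℤ)) → x ∈ T.A ∧ x ∈ T.B ∧ x ∈ T.C ∧ T.psi x = 1) :
    H92T.Gam v n ≤ T.GH ∧ H92T.PGam v n ≤ T.U :=
  H43Z7.gam_le_hat h

/-- **Types and completions** (`H43Z7`). Let `j : K → L` have dense image, let `T` be a type over `K`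
and `Th` a type over `L`, such that the lattices of `T` are the inverse images of those of `Th` and
`psi` is the restriction (the first four hypotheses: `H43Z7.CompT j T Th`). If the group of `Th`
contains a congruence subgroup, then the groups `H` and `U` (the kernel of `χ`) of `T` are the inverse
images of those of `Th`, and the function of `T` is the restriction of the function of `Th`. -/
theorem types_and_completions {K L : Type*} [Field K] [Field L] {j : K →+* L}
    {v : Valuation L ℤᵐ⁰} {T : H76U.TD K} {Th : H76U.TD L}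
    (hA : ∀ x, x ∈ T.A ↔ j x ∈ Th.A) (hB : ∀ x, x ∈ T.B ↔ j x ∈ Th.B)
    (hC : ∀ x, x ∈ T.C ↔ j x ∈ Th.C) (hpsi : ∀ x, T.psi x = Th.psi (j x))
    (hD : ∀ (x : L) (n : ℕ), ∃ k : K, v (x - j k) ≤ exp (-(n : ℤ))) {n : ℕ}
    (hG : H92T.Gam v (n + 1) ≤ Th.GH) :
    T.H = Th.H.comap (ProjGenLinGroup.map (n := Fin 2) j) ∧
    T.U = Th.U.comap (ProjGenLinGroup.map (n := Fin 2) j) ∧
    ∀ x : PGL(2, K), H65.S47.Tf T x = H65.S47.Tf Th (ProjGenLinGroup.map j x) :=
  have h : H43Z7.CompT j T Th := ⟨hA, hB, hC, hpsi⟩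
  ⟨h.H_eq hD hG, h.U_eq hD hG, h.Tf_eq hD hG⟩

/-- **Indices of dense subgroups** (`H43Z7`): if every element of `Gh` is `j x` modulo `Uh`, the index of
`j⁻¹(Uh)` in `j⁻¹(Hh)` is the index of `Uh` in `Hh`. So the constants `[H : U]` are the same over the
number field and over its completion. -/
theorem index_of_dense {G Gh : Type*} [Group G] [Group Gh] {j : G →* Gh} {Uh Hh : Subgroup Gh}
    (hUH : Uh ≤ Hh) (hA : ∀ g : Gh, ∃ x : G, g⁻¹ * j x ∈ Uh) :
    (Uh.comap j).relIndex (Hh.comap j) = Uh.relIndex Hh :=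
  H43Z7.relIndex_hat hUH hA

/-- **Additive characters extend to the completion** (`H92T5`): an additive character of `K` trivial on
`{x : v (j x) ≤ exp n}` is the restriction of a character of `L` trivial on `{x : v x ≤ exp n}`. -/
theorem character_extends {K L : Type*} [Field K] [Field L] {j : K →+* L} {v : Valuation L ℤᵐ⁰}
    (hD : ∀ (x : L) (n : ℕ), ∃ k : K, v (x - j k) ≤ exp (-(n : ℤ))) {M : Type*} [CommMonoid M]
    (ψ : AddChar K M) (n : ℤ) (hψ : ∀ x, v (j x) ≤ exp n → ψ x = 1) :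
    ∃ ψh : AddChar L M, (∀ x, ψh (j x) = ψ x) ∧ ∀ x, v x ≤ exp n → ψh x = 1 :=
  H92T.exists_char_hat hD ψ n hψ

/-- **The standard characters** (`H92Psi`). If `w` is the only place above `v`, then
`ψ_w = ψ_v ∘ Tr`. On `F` this is `ψ_v³`, which in residue characteristic three is trivial on a larger
lattice than `ψ_v`: this is the reason for the third set, without which the two levels `ker χ_E`
and `ker χ_F` would have to correspond to each other. -/
theorem psi_trace {F E : Type*} [Field F] [NumberField F] [Field E] [NumberField E] [Algebra F E]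
    [IsGalois F E] {v : HeightOneSpectrum (𝓞 F)} {w : HeightOneSpectrum (𝓞 E)}
    (h : ∀ u, u ∈ H82.above E v ↔ u = w) (x : E) :
    H7.Z.psi w x = H7.Z.psi v (Algebra.trace F E x) :=
  H92P.psi_nonsplit h x

/-- **The datum over the completion** (`H43Z8`). Let the types `TE` at `w` and `TF` at `v` be as in
`matching_bad_nonsplit` of `GuideOctCGeom` (`H43Z.NS`: there the hypotheses from `hs` to `hC'`), `L` the
completion (`hat_iff`), `vh` the extension of the `w`-adic valuation. Then the image of the self-dual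
basis (`D : H76U.SD E`, see `GuideLatticeTypes`) satisfies the conditions of `vd_iff`, with the radii
`w(al)`, `w(be)`, `w(ga)`. -/
theorem datum_of_completion {F E : Type*} [Field F] [NumberField F] [Field E] [NumberField E]
    [Algebra F E] {s : E ≃ₐ[F] E} {w : HeightOneSpectrum (𝓞 E)} {v : HeightOneSpectrum (𝓞 F)}
    {TE : H76U.TD E} {TF : H76U.TD F} {D : H76U.SD E} {κ : ℤᵐ⁰} {π al be ga : F}
    {L : Type*} [Field L] {j : E →+* L} {vh : Valuation L ℤᵐ⁰} {σ : L ≃+* L}
    (H : H92T.Hat j vh s.toRingEquiv σ (algebraMap F E))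
    (h : H43Z.NS s w v TE TF D κ π al be ga) (hv : ∀ x, vh (j x) = w.valuation E x) :
    H43Z3.VD vh σ (j D.e) (j (algebraMap F E π)) κ (w.valuation E (algebraMap F E al))
      (w.valuation E (algebraMap F E be)) (w.valuation E (algebraMap F E ga)) :=
  H43Z8.hatVD H h hv

/-- **The types over the completion** (`H43Z8`). In the same situation, let the character of `TE` be the
character of `TF` of the trace. There are types `Te` over `L` and `Tf` over the fixed field of `σ` as in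
`types_iff`, whose restrictions to `E` and `F` are `TE` and `TF` (`H43Z7.CompT`: the hypotheses of
`types_and_completions`), and whose groups contain congruence subgroups (`open_groups`). The lattices
of `Te` are given by the image of the self-dual basis, those of `Tf` are balls, and the character of
`Tf` is an extension of the one of `TF` (`character_extends`, for `F` in the fixed field); since `ν` is
in `Lat (κ²)`, the condition `|ν| a ≤ 1` of `types_iff` follows from `κ² a ≤ 1`. -/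
theorem types_over_completion {F E : Type*} [Field F] [NumberField F] [Field E] [NumberField E]
    [Algebra F E] [IsGalois F E] {s : E ≃ₐ[F] E} {w : HeightOneSpectrum (𝓞 E)}
    {v : HeightOneSpectrum (𝓞 F)} {TE : H76U.TD E} {TF : H76U.TD F} {D : H76U.SD E}
    {κ : ℤᵐ⁰} {π al be ga : F} (h3 : Module.finrank F E = 3) (hs : s ≠ 1)
    {L : Type*} [Field L] {j : E →+* L} {vh : Valuation L ℤᵐ⁰} {σ : L ≃+* L}
    (H : H92T.Hat j vh s.toRingEquiv σ (algebraMap F E))
    (h : H43Z.NS s w v TE TF D κ π al be ga) (hwv : w ∈ H82.above E v)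
    (psi_tr : ∀ x, TE.psi x = TF.psi (Algebra.trace F E x))
    (hv : ∀ x, vh (j x) = w.valuation E x) :
    ∃ (Te : H76U.TD L) (Tf : H76U.TD (H92T.fixF σ)),
      H43Z6.TT vh σ (j D.e) (w.valuation E (algebraMap F E al))
        (w.valuation E (algebraMap F E be)) (w.valuation E (algebraMap F E ga)) Te Tf ∧
      H43Z7.CompT j TE Te ∧ H43Z7.CompT H.jF TF Tf ∧
      (∃ n : ℕ, H92T.Gam vh (n + 1) ≤ Te.GH ∧ H92T.PGam vh (n + 1) ≤ Te.U) ∧
      ∃ n : ℕ, H92T.Gam (vh.comap (H92T.fixF σ).subtype) (n + 1) ≤ Tf.GH ∧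
        H92T.PGam (vh.comap (H92T.fixF σ).subtype) (n + 1) ≤ Tf.U :=
  let ⟨_, hψ, hψj⟩ := H43Z8.exists_psi H h hv hwv
  ⟨_, _, H43Z8.hatTT H h hv _ hψ,
    H43Z8.compE H h hv _ hψ hψj psi_tr (H92P.trace_cubic h3 s hs),
    H43Z8.compF H h hv hwv _ hψ hψj, H43Z8.open_E H h hv _ hψ, H43Z8.open_F h _ hψ⟩

/-- **The weight at the place** (`H92T3`). `L` is a family of level groups, `a` a finite kernel
(`H59XF.LevelFam`, `GlobKer`: `GuideOctCLevel`), `t` (`Twist`) the action of `s`; `p` is the map of places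
and `w` the only place above `v`. The weight over `v`, a product over the places above `v` for a family
`x` of cosets over these places (`H57C.Xv`, with the action `H57C.actv` of `s`), has the only factor
`a_w(g, d s(g))`, where `g` represents the component of `x` at `w`. -/
theorem weight_single {G : Type*} [Group G] {I K : Type*} {L : H59XF.LevelFam G I}
    (t : H59XF.Twist L) (p : I → K) {v : K} {w : I} (hp : ∀ i, p (t.σ i) = p i)
    (hv : ∀ i, p i = v ↔ i = w) (hw : t.σ w = w) (a : H59XF.GlobKer L) (d : G)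
    (x : H57C.Xv L p v) (g : G) (hg : x ⟨w, (hv w).2 rfl⟩ = (g : G ⧸ L.U w)) :
    ∏ᶠ i : {i // p i = v}, (a.loc i.1).k (x i) (d • H57C.actv t p hp v x i) =
      (a.loc w).k (g : G ⧸ L.U w) ((d * t.s g : G) : G ⧸ L.U w) :=
  (H92T.phiv_single t p hp hv hw a d x).trans (by
    show (a.loc w).k (x ⟨w, (hv w).2 rfl⟩) (d • H92T.cmap1 t hw (x ⟨w, (hv w).2 rfl⟩)) = _
    rw [hg, H92T.cmap1_mk]; rfl)

/-- **From the completion to the number field** (`H92T4`). `w` is the only place above `v₀`; `Uh`, `Hh`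
are open subgroups of `PGL₂(L)` and of `PGL₂` of the fixed field, `U_w` and `Hv` their inverse images;
the kernel at `w` and `ζ` are given by the restrictions of `φh` and `ζh`. A matching of `φh` and `ζh`,
equivariant for the centraliser of the image of `γ`, gives one of the weight over `v₀` (`H57C.phiv`,
the product in `weight_single`) and `ζ`, equivariant for the centraliser of `γ`. This is
`matching_transfer` of `GuideOctCGeom` with `weight_single`; density: `dense_fixed_field`. -/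
theorem transfer {E L F : Type*} [Field E] [Field L] [Field F] {j : E →+* L}
    {v : Valuation L ℤᵐ⁰} {s : E ≃+* E} {σ : L ≃+* L} {i : F →+* E} (H : H92T.Hat j v s σ i)
    {I K : Type*} {Lv : H59XF.LevelFam PGL(2, E) I} (t : H59XF.Twist Lv) (p : I → K) {v₀ : K}
    {w : I} (hp : ∀ i, p (t.σ i) = p i) (hv : ∀ i, p i = v₀ ↔ i = w) (hw : t.σ w = w)
    (a : H59XF.GlobKer Lv) (d : PGL(2, E)) (γ : PGL(2, F)) {n : ℕ} {Uh : Subgroup PGL(2, L)}
    (hUn : H92T.PGam v (n + 1) ≤ Uh) (hU : Lv.U w = Uh.comap (ProjGenLinGroup.map j)) {m : ℕ}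
    {Hh : Subgroup PGL(2, H92T.fixF σ)}
    (hHm : H92T.PGam (v.comap (H92T.fixF σ).subtype) (m + 1) ≤ Hh) {Hv : Subgroup PGL(2, F)}
    (hH : Hv = Hh.comap (ProjGenLinGroup.map H.jF)) {φh : PGL(2, L) ⧸ Uh → ℂ}
    {ζh : PGL(2, H92T.fixF σ) ⧸ Hh → ℂ} {βh : PGL(2, L) ⧸ Uh → PGL(2, H92T.fixF σ) ⧸ Hh}
    (h : H57C.LocMatch
      (fun (c : Subgroup.centralizer {ProjGenLinGroup.map (n := Fin 2) H.jF γ}) x =>
        ProjGenLinGroup.map (H92T.fixF σ).subtype c.1 • x) (fun c y => c.1 • y) φh ζh βh)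
    (hφ : ∀ g : PGL(2, E), (a.loc w).k (g : PGL(2, E) ⧸ Lv.U w)
      ((d * t.s g : PGL(2, E)) : PGL(2, E) ⧸ Lv.U w) =
        φh (ProjGenLinGroup.map j g : PGL(2, L) ⧸ Uh)) {ζ : PGL(2, F) ⧸ Hv → ℂ}
    (hζ : ∀ g : PGL(2, F), ζ (g : PGL(2, F) ⧸ Hv) =
      ζh (ProjGenLinGroup.map H.jF g : PGL(2, H92T.fixF σ) ⧸ Hh)) :
    ∃ β : H57C.Xv Lv p v₀ → PGL(2, F) ⧸ Hv, H57C.LocMatch
      (fun (c : Subgroup.centralizer {γ}) x => fun k => ProjGenLinGroup.map i c.1 • x k)
      (fun c y => c.1 • y) (H57C.phiv t p hp a d v₀) ζ β :=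
  H.locMatch t p hp hv hw a d γ hUn hU hHm hH h hφ hζ

/-- **The result, before the setup of block (C)** (`H43Z8`). `E / F` is Galois of degree three, `w` the
only place above `v`, `TE`, `TF` types as in `matching_bad_nonsplit` of `GuideOctCGeom` (`H43Z.NS`),
`LE`, `LF` level families with `LE.U w = TE.U`, `LF.U v = TF.U`, `a`, `b` finite kernels which at `w`
and `v` are the idempotents of the types, the indices `[H : U]` finite. Then the local matching
(`H57C.PM`) holds, with the third set `PGL₂(F) / TF.H`. Proof for the side of `E`: take the completion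
(`exists_hat`, `hat_maps`) and the types `Te`, `Tf` of `types_over_completion`. By `cosetBij` and
`matching_of_cosetBij` (`V = Te.H`, `U = Te.U`; `centralisers` gives the equivariance) the weight
`g ↦ [V : U]⁻¹ f(g⁻¹ δ σ(g))`, `f` the function of `Te`, is matched with `y ↦ f'(y⁻¹ γ y)`, `f'` the one of
`Tf`. By `types_and_completions` and `index_of_dense` their restrictions are the weights over `E` and
`F`, so `transfer` applies. The side of `F` is `matching_F`. -/
theorem matching {F E : Type*} [Field F] [NumberField F] [Field E] [NumberField E] [Algebra F E]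
    {s : E ≃ₐ[F] E} {w : HeightOneSpectrum (𝓞 E)} {v : HeightOneSpectrum (𝓞 F)}
    {TE : H76U.TD E} {TF : H76U.TD F} {D : H76U.SD E} {κ : ℤᵐ⁰} {π al be ga : F}
    [IsGalois F E] (h3 : Module.finrank F E = 3) (hs : s ≠ 1)
    {LE : H59XF.LevelFam PGL(2, E) (HeightOneSpectrum (𝓞 E))}
    {LF : H59XF.LevelFam PGL(2, F) (HeightOneSpectrum (𝓞 F))} (t : H59XF.Twist LE)
    (hts : ∀ g, t.s g = H20.S47.sP s g)
    (p : HeightOneSpectrum (𝓞 E) → HeightOneSpectrum (𝓞 F)) (hp : ∀ i, p (t.σ i) = p i)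
    (hpw : ∀ i, p i = v ↔ i = w) (hσw : t.σ w = w) (hwv : w ∈ H82.above E v)
    (hsw : ∀ x, w.valuation E (s x) = w.valuation E x)
    (a : H59XF.GlobKer LE) (b : H59XF.GlobKer LF) (hUE : LE.U w = TE.U) (hUF : LF.U v = TF.U)
    (h : H43Z.NS s w v TE TF D κ π al be ga)
    (psi_tr : ∀ x, TE.psi x = TF.psi (Algebra.trace F E x))
    (hE : H79S.IsTyp (a.loc w) TE.H TE.chi) (hiE : (TE.U.subgroupOf TE.H).index ≠ 0)
    (hF : H79S.IsTyp (b.loc v) TF.H TF.chi) (hiF : (TF.U.subgroupOf TF.H).index ≠ 0) :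
    H57C.PM s t p hp a b TF.H v :=
  H43Z8.pm_ns h3 hs t hts p hp hpw hσw hwv hsw a b hUE hUF h psi_tr hE hiE hF hiF

end Fermat.Agent.Guide.OctCBad
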