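import Fermat.Agent.H79SCmp

/-!
# Guide, block (C) of S47: Fourier coefficients and positivity

Fifth file on block (C) of S47, after `GuideOctC` (overview), `GuideOctCGeom`, `GuideOctCLocal` and
`GuideOctCSpec`. It explains the theorem `positivity` of `GuideOctC` (the automorphism `s` acts as the
identity on the relevant eigenspaces) and the non-vanishing of the first Fourier coefficient, which is
used for the output: Fourier expansions over a number field, the Whittaker function, its local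
properties, the argument "Hecke eigenvalues determine the Fourier coefficients" (multiplicity one).
All theorems are in the closure of `S47`. Library: `H19W2` to `H19W7` (helper19), `H22Z*` (helper22),
`H7Z*` (helper7). Notes: [397] (`K₀`, Fourier expansions), [482] (expansions over a number field, Whittaker
function on `X`), [412] (density, local properties, positivity), [451] (use for the output). The steps of
sections 1 and 2: `GuideWhittaker`; the Bessel function and the Fourier expansion: `GuideBessel`; functions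
on `X_f` invariant under the unipotent group: `GuideUnipotent`.

**Notation.** `K` is a totally complex number field, `m : Model K J` the space `X = (H3)^J × X_f` with
its complex embeddings `m.e j` and level `m.L` (`Level`, `LevelFam`: `GuideOctCLevel`); `L.fam.U w` is
the level group at `w`, `XF L.fam` the space `X_f`, `XF.upd y w c` the point `y` with the component
at `w` replaced by `c`; `AutData m` are the automorphisms of the model (`GuideOctCSetup`).
`(borP K).n b` and `(borP K).d a` are the classes of the matrices `(1 b; 0 1)` and `diag(a, 1)` in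
`PGL₂(K)`, `psi w` is the local additive character (`psi_formula` in `GuideOctCGeom`),
`ee q = exp(2πiq)`; `K0` is the Bessel function `K₀(x) = ∫_0^∞ exp(-x cosh t) dt`.
-/

set_option autoImplicit false

open IsDedekindDomain HeightOneSpectrum WithZero NumberField Matrix MeasureTheory
open scoped MatrixGroups

noncomputable section

namespace Fermat.Agent.Guide.OctCForms

open Fermat.Agent.H59XF Fermat.Agent.H59D Fermat.Agent.H7.Z

/-! ## 1. Fourier expansions over a number field -/

/-- **Fourier expansions** (`H19W3`), the definition. A function `Φ` on `(H3)^J` has the coefficients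
`c(α)`, `α` in `K`, if `c(0) = 0`, the support of `c` is contained in the dual of a lattice of `K` with
respect to the trace (`B` spans `K` over `ℚ`; `Σ_j 2 Re e_j(x)` is the trace of `x`), and
`Φ(x) = Σ_α c(α) ∏_j ω(|α_j| y_j) exp(2πi Tr(αz))`. In the application `ω(u) = u K₀(4πu)`, and the `e j`
are the complex embeddings up to conjugation, one of every pair. -/
theorem expands_iff {K : Type*} [Field K] [CharZero K] {ι : Type*} [Fintype ι] (e : ι → K →+* ℂ)
    (ω : ℝ → ℝ) (Φ : (ι → H3) → ℂ) (c : K → ℂ) :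
    H19W.Expands e ω Φ c ↔ c 0 = 0 ∧
      (∃ B : Finset K, Submodule.span ℚ (B : Set K) = ⊤ ∧
        ∀ α, c α ≠ 0 → ∀ b ∈ B, ∃ n : ℤ, ∑ j, 2 * (e j (α * b)).re = n) ∧
      ∀ x : ι → H3, HasSum (fun α => c α * ((∏ j, ω (‖e j α‖ * (x j).y) : ℝ) : ℂ) *
        Complex.exp (2 * Real.pi * Complex.I *
          ((∑ j, 2 * (e j α * (x j).z).re : ℝ) : ℂ))) (Φ x) :=
  ⟨fun h => ⟨h.1, h.2, h.3⟩, fun h => ⟨h.1, h.2.1, h.2.2⟩⟩

/-- **Uniqueness of the coefficients** (`H19W3`, from `H19W2`): the characters of a compact torus are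
linearly independent, also in absolutely convergent infinite sums (multiple Fourier series). The weight is
divided out (`ω` has no zeros on `u > 0`), and an `α` in `K` is determined by the `Tr(αb)`, `b` in `B`. -/
theorem expansion_unique {K : Type*} [Field K] [CharZero K] {ι : Type*} [Fintype ι] [Nonempty ι]
    (e : ι → K →+* ℂ) {ω : ℝ → ℝ} (hω : ∀ u, 0 < u → ω u ≠ 0) {Φ : (ι → H3) → ℂ} {c c' : K → ℂ}
    (h : H19W.Expands e ω Φ c) (h' : H19W.Expands e ω Φ c') : c = c' :=
  h.unique e hω h'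

/-- **Existence of expansions** (`H22ZFEf`, from `H22ZFE*`, `H22ZK0*`; see `GuideEigenfunctions`). `F` is a
bounded function on `(H3)^J`, twice differentiable with `Δ_j F = -F` for every `j` (`IsEigH`), periodic
under the lattice with basis `b`. Then it is the sum of `c(ν) ∏_j y_j K₀(4π|ν_j|y_j) exp(2πi Σ 2 Re(ν z))`
over the `ν` in the dual lattice with all `ν_j ≠ 0` (in the statement the other terms are `0` because
`K₀(0) = 0` by convention). Reason: if `ν_j = 0` the coefficient would be, as a function of `y_j`, a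
combination of `y` and `y log y`, which is unbounded; so there is no constant term. If `b` is the image of a
`ℚ`-basis of `K`, the dual lattice consists of images of elements `α` of `K` (dual basis for the trace
form), and one gets `Expands` with `c(α) = c(ν) / ∏_j |e_j α|` (`H19W6`). -/
theorem exists_expansion {J : Type*} [Fintype J] [DecidableEq J] [Nonempty J] {κ : Type} [Fintype κ]
    (b : Module.Basis κ ℝ (J → ℂ)) (F : (J → H3) → ℂ) (hF : ∃ M : ℝ, H22Z.IsEigH F M)
    (hp : ∀ i x, F (fun j => ⟨(x j).z + b i j, (x j).y, (x j).pos⟩) = F x) :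
    ∃ c : (J → ℂ) → ℂ, c 0 = 0 ∧
      (∀ ν, c ν ≠ 0 → ∀ i, ∃ n : ℤ, ∑ j, 2 * (ν j * b i j).re = n) ∧
      ∀ x : J → H3, HasSum (fun ν => c ν *
        ((∏ j, ((x j).y * H22Z.K0 (4 * Real.pi * (‖ν j‖ * (x j).y))) : ℝ) : ℂ) *
        Complex.exp (2 * Real.pi * Complex.I * ((∑ j, 2 * (ν j * (x j).z).re : ℝ) : ℂ))) (F x) :=
  H22Z.feThm J κ b F hF hp

/-! ## 2. The Whittaker function

Let `Φ` be a bounded function on `X`, invariant under `PGL₂(K)`, of spectral parameter `0`. For every `y` in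
`X_f` the function `Φ(·, y)` has an expansion with coefficients `c_y(α)`. Invariance under `diag(α, 1)` gives
`c_y(α) = c_{d(α) y}(1)`: all coefficients are values of the function `κ(y) = c_y(1)` on `X_f`. -/

open Classical in
/-- **The Whittaker function** (`H19W7`), the definition of `IsWM m k₀ f κ` (for `k₀(u) = K₀(4πu)`):
for every `y` the coefficients of `f(·, y)` are `κ(d(α) y)`, `α ≠ 0`. -/
theorem whittaker_iff {K : Type*} [Field K] [NumberField K] {J : Type*} [Fintype J] [Nonempty J]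
    (m : Model K J) (f : m.X → ℂ) (κ : XF m.L.fam → ℂ) :
    H19W.IsWM m (fun u => H22Z.K0 (4 * Real.pi * u)) f κ ↔ ∀ y : XF m.L.fam,
      H19W.Expands m.e (fun u => u * H22Z.K0 (4 * Real.pi * u)) (fun x => f (x, y))
        (fun α => if h : α = 0 then 0 else κ ((H19W.dP (Units.mk0 α h) : PGL(2, K)) • y)) :=
  Iff.rfl

/-- **Existence** (`H7ZHook2`, from `H19W7`, `H22ZFEf`, `H9ZEig`): a bounded invariant function, locally
integrable in the archimedean variables, which is an eigenfunction of all radial kernels (`H9Z.Ker`: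
continuous for arguments `≥ 1` and zero for large ones) with the eigenvalue at spectral parameter `0`
has a Whittaker function. (It is smooth, because it is equal to its convolution with a smooth kernel up
to a factor, and `Δ_j f = -f`; the function `f(·, y)` is periodic under a lattice because the level
groups are open: the stabiliser of `y` in the group of the `n(b)` contains a `ℚ`-basis of `K`.
Steps: `GuideWhittaker`.) -/
theorem exists_whittaker {K : Type*} [Field K] [NumberField K] {J : Type*} [Fintype J] [Nonempty J]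
    {m : Model K J} {f : m.X → ℂ} (hinv : ∀ (g : PGL(2, K)) (x : m.X), f (g • x) = f x)
    (hbdd : ∃ M : ℝ, ∀ x, ‖f x‖ ≤ M)
    (hloc : ∀ y : XF m.L.fam, LocallyIntegrable fun τ : J → H3 => f (τ, y))
    (hrad : ∀ κ : (J → ℝ) → ℂ, H9Z.Ker κ → ∀ (y : XF m.L.fam) (τ : J → H3),
      H5Z.Rk κ (fun v => f (v, y)) τ = H9Z.hat κ * f (τ, y)) :
    ∃ κ : XF m.L.fam → ℂ, H19W.IsWM m (fun u => H22Z.K0 (4 * Real.pi * u)) f κ :=
  exists_kappa_of hinv hbdd fun y => ⟨hloc y, fun κ hκ τ => hrad κ hκ y τ⟩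

/-- **Global equivariance** (`H7ZX`): invariance of `f` under `(1 b; 0 1)` gives
`κ(n(b) y) = exp(-2πi Tr b) κ(y)` for `b` in `K`. -/
theorem whittaker_equivariant {K : Type*} [Field K] [NumberField K] {J : Type*} [Fintype J]
    [Nonempty J] {m : Model K J} {f : m.X → ℂ} {κ : XF m.L.fam → ℂ}
    (hW : H19W.IsWM m (fun u => H22Z.K0 (4 * Real.pi * u)) f κ)
    (hinv : ∀ (g : PGL(2, K)) (x : m.X), f (g • x) = f x) (b : K) (y : XF m.L.fam) :
    κ ((borP K).n b • y) = ee (-Algebra.trace ℚ K b) * κ y := by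
  classical exact (whit_of (fun _ hu => H22Z.k0_ne hu) hW hinv).eqv b y

/-- **Operators pass to the Whittaker function** (`H7ZFun`). `f` satisfies a Hecke equation at `w` (the
value `λ f` is the sum over the `N w + 1` neighbours, see `hecke_equation` in `GuideOctCSpec`); then `κ`
satisfies it. The same holds for the equation of the operator `U` and for the types: this follows from the
uniqueness of the coefficients. -/
theorem whittaker_hecke {K : Type*} [Field K] [NumberField K] {J : Type*} [Fintype J] [Nonempty J]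
    [DecidableEq (HeightOneSpectrum (𝓞 K))] {m : Model K J} {f : m.X → ℂ} {κ : XF m.L.fam → ℂ}
    (hW : H19W.IsWM m (fun u => H22Z.K0 (4 * Real.pi * u)) f κ) {w : HeightOneSpectrum (𝓞 K)}
    {ϖ : Kˣ} {R : Finset K} {lam : ℂ}
    (h : ∀ (x : J → H3) (y : XF m.L.fam) (g : PGL(2, K)),
      y w = (g : PGL(2, K) ⧸ m.L.fam.U w) → lam * f (x, y) =
        ∑ b ∈ R, f (x, XF.upd y w
          ((g * (borP K).n b * (borP K).d ϖ : PGL(2, K)) : PGL(2, K) ⧸ m.L.fam.U w)) +
        f (x, XF.upd y w ((g * ((borP K).d ϖ)⁻¹ : PGL(2, K)) : PGL(2, K) ⧸ m.L.fam.U w)))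
    (y : XF m.L.fam) (g : PGL(2, K)) (hg : y w = (g : PGL(2, K) ⧸ m.L.fam.U w)) :
    lam * κ y = ∑ b ∈ R, κ (XF.upd y w
        ((g * (borP K).n b * (borP K).d ϖ : PGL(2, K)) : PGL(2, K) ⧸ m.L.fam.U w)) +
      κ (XF.upd y w ((g * ((borP K).d ϖ)⁻¹ : PGL(2, K)) : PGL(2, K) ⧸ m.L.fam.U w)) :=
  heckeEq_of (Φ := fun x y => f (x, y)) (fun _ hu => mul_ne_zero hu.ne' (H22Z.k0_ne hu))
    (isW_of hW) h y g hg

/-! ## 3. Local properties of a Whittaker function

From now on `κ` is a function on `X_f = XF L.fam` with `κ(n(b) y) = exp(-2πi Tr b) κ(y)`. A unit at `w` is an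
`a` with `w.valuation K a = 1`. -/

/-- **Local equivariance** (`H7ZWhit`): `κ(n(x) at the place w) = psi_w(x) κ`. The character
`exp(-2πi Tr b)` of `K` is the product of the local characters, and `n(b)` can be concentrated in one place:
take `b` in `K` near `x` at `w`, near `0` at the finitely many other relevant places, integral elsewhere. -/
theorem whittaker_local {K : Type*} [Field K] [NumberField K]
    [DecidableEq (HeightOneSpectrum (𝓞 K))] {L : Level (𝓞 K) K} {κ : XF L.fam → ℂ}
    (hκ : ∀ (b : K) (y : XF L.fam), κ ((borP K).n b • y) = ee (-Algebra.trace ℚ K b) * κ y)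
    (y : XF L.fam) (w : HeightOneSpectrum (𝓞 K)) (x : K) :
    κ (XF.upd y w ((borP K).n x • y w)) = psi w x * κ y :=
  Whit.loc (bLevel L) ⟨hκ⟩ y w x

/-- **Good places** (`H7ZWhit`, `H7ZMod`). The definition: the level contains the matrices `(1 b; 0 1)`,
`b` integral at `w`, and `diag(a, 1)`, `a` a unit at `w`, and the dual of the local ring for `psi_w` is the
local ring (`w` unramified over `ℚ`). This holds for the maximal and for the Iwahori level. -/
theorem goodAt_iff {K : Type*} [Field K] [NumberField K] (L : Level (𝓞 K) K)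
    (w : HeightOneSpectrum (𝓞 K)) :
    GoodAt (borP K) L.fam w ↔
      (∀ b : K, w.valuation K b ≤ 1 → (borP K).n b ∈ L.fam.U w) ∧
      (∀ a : Kˣ, w.valuation K (a : K) = 1 → (borP K).d a ∈ L.fam.U w) ∧
      ∀ x : K, (∀ r : K, w.valuation K r ≤ 1 → psi w (x * r) = 1) → w.valuation K x ≤ 1 :=
  ⟨fun h => ⟨h.1, h.2, h.3⟩, fun h => ⟨h.1, h.2.1, h.2.2⟩⟩

/-- **Vanishing** at a good place `w` (`H7ZWhit`): `κ = 0` at `diag(a, 1)` if `a` is not integral at `w`
(compare `n(a r) d(a) = d(a) n(r)`, `r` integral, with the local equivariance). -/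
theorem whittaker_vanish {K : Type*} [Field K] [NumberField K]
    [DecidableEq (HeightOneSpectrum (𝓞 K))] {L : Level (𝓞 K) K} {κ : XF L.fam → ℂ}
    (hκ : ∀ (b : K) (y : XF L.fam), κ ((borP K).n b • y) = ee (-Algebra.trace ℚ K b) * κ y)
    {w : HeightOneSpectrum (𝓞 K)} (hw : GoodAt (borP K) L.fam w) (y : XF L.fam) (a : Kˣ)
    (ha : ¬ w.valuation K (a : K) ≤ 1) :
    κ (XF.upd y w (((borP K).d a : PGL(2, K)) : PGL(2, K) ⧸ L.fam.U w)) = 0 :=
  Whit.vanish (bLevel L) ⟨hκ⟩ hw y a ha

/-- **The recursion** at a good place `w` (`H7ZWhit`), from the Hecke equation: for `a` integral at `w`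
`λ κ(a) = N(w) κ(a ϖ) + κ(a / ϖ)` (`R` is a set of representatives modulo `w`). So `κ(ϖ^k)` is determined by
`κ(1)` and `λ`: this is the usual recursion for the Fourier coefficients of a Hecke eigenform. -/
theorem whittaker_recursion {K : Type*} [Field K] [NumberField K]
    [DecidableEq (HeightOneSpectrum (𝓞 K))] {L : Level (𝓞 K) K} {κ : XF L.fam → ℂ}
    (hκ : ∀ (b : K) (y : XF L.fam), κ ((borP K).n b • y) = ee (-Algebra.trace ℚ K b) * κ y)
    {w : HeightOneSpectrum (𝓞 K)} {ϖ : Kˣ} {R : Finset K} {lam : ℂ}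
    (hR : ∀ b ∈ R, w.valuation K b ≤ 1)
    (hH : ∀ (y : XF L.fam) (g : PGL(2, K)), y w = (g : PGL(2, K) ⧸ L.fam.U w) →
      lam * κ y = ∑ b ∈ R, κ (XF.upd y w
          ((g * (borP K).n b * (borP K).d ϖ : PGL(2, K)) : PGL(2, K) ⧸ L.fam.U w)) +
        κ (XF.upd y w ((g * ((borP K).d ϖ)⁻¹ : PGL(2, K)) : PGL(2, K) ⧸ L.fam.U w)))
    (y : XF L.fam) (a : Kˣ) (ha : w.valuation K (a : K) ≤ 1) :
    lam * κ (XF.upd y w (((borP K).d a : PGL(2, K)) : PGL(2, K) ⧸ L.fam.U w)) =
      (R.card : ℂ) *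
        κ (XF.upd y w (((borP K).d (a * ϖ) : PGL(2, K)) : PGL(2, K) ⧸ L.fam.U w)) +
      κ (XF.upd y w (((borP K).d (a * ϖ⁻¹) : PGL(2, K)) : PGL(2, K) ⧸ L.fam.U w)) :=
  Whit.rec_good (bLevel L) ⟨hκ⟩ hR hH y a ha

/-- **The recursion for `U`** (`H7ZFun`): for an eigenfunction of `U` at an Iwahori place, with
eigenvalue `u`, `u κ(a) = N(w) κ(a ϖ)` for `a` integral at `w`. -/
theorem whittaker_recursion_U {K : Type*} [Field K] [NumberField K]
    [DecidableEq (HeightOneSpectrum (𝓞 K))] {L : Level (𝓞 K) K} {κ : XF L.fam → ℂ}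
    (hκ : ∀ (b : K) (y : XF L.fam), κ ((borP K).n b • y) = ee (-Algebra.trace ℚ K b) * κ y)
    {w : HeightOneSpectrum (𝓞 K)} {ϖ : Kˣ} {R : Finset K} {u : ℂ}
    (hR : ∀ b ∈ R, w.valuation K b ≤ 1)
    (hU : ∀ (y : XF L.fam) (g : PGL(2, K)), y w = (g : PGL(2, K) ⧸ L.fam.U w) →
      u * κ y = ∑ b ∈ R, κ (XF.upd y w
        ((g * (borP K).n b * (borP K).d ϖ : PGL(2, K)) : PGL(2, K) ⧸ L.fam.U w)))
    (y : XF L.fam) (a : Kˣ) (ha : w.valuation K (a : K) ≤ 1) :
    u * κ (XF.upd y w (((borP K).d a : PGL(2, K)) : PGL(2, K) ⧸ L.fam.U w)) =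
      (R.card : ℂ) *
        κ (XF.upd y w (((borP K).d (a * ϖ) : PGL(2, K)) : PGL(2, K) ⧸ L.fam.U w)) :=
  Whit.rec_U (bLevel L) ⟨hκ⟩ hR hU y a ha

/-- **Bad places** (`H7ZWhit`). At `w` the function `κ` is of a type: `κ(g n(b)) = psi_w(b) κ(g)` for `b` in
the lattice `Bw`, and the level is so large that it contains every `diag(a, 1)` for which `psi_w = 1` on
`(a - 1) Bw` (this is the duality of the lattices `A` and `B` of the type). If `κ = 0` at `1` then `κ = 0` at
every `diag(a, 1)`: comparing the two sides of `n(ab) d(a) = d(a) n(b)` one sees that `κ ≠ 0` at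
`diag(a, 1)` only if this matrix is in the level. -/
theorem whittaker_bad {K : Type*} [Field K] [NumberField K]
    [DecidableEq (HeightOneSpectrum (𝓞 K))] {L : Level (𝓞 K) K} {κ : XF L.fam → ℂ}
    (hκ : ∀ (b : K) (y : XF L.fam), κ ((borP K).n b • y) = ee (-Algebra.trace ℚ K b) * κ y)
    {w : HeightOneSpectrum (𝓞 K)} {Bw : Set K}
    (hB : ∀ (y : XF L.fam) (g : PGL(2, K)) (b : K), b ∈ Bw →
      κ (XF.upd y w ((g * (borP K).n b : PGL(2, K)) : PGL(2, K) ⧸ L.fam.U w)) =
        psi w b * κ (XF.upd y w ((g : PGL(2, K)) : PGL(2, K) ⧸ L.fam.U w)))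
    (hd : ∀ a : Kˣ, (∀ b ∈ Bw, psi w (((a : K) - 1) * b) = 1) → (borP K).d a ∈ L.fam.U w)
    (y : XF L.fam)
    (h0 : κ (XF.upd y w ((1 : PGL(2, K)) : PGL(2, K) ⧸ L.fam.U w)) = 0) (a : Kˣ) :
    κ (XF.upd y w (((borP K).d a : PGL(2, K)) : PGL(2, K) ⧸ L.fam.U w)) = 0 :=
  Whit.zeroAt_bad (bLevel L) ⟨hκ⟩ hB hd y h0 a

/-! ## 4. The Fourier coefficients determine the form -/

/-- **Density** (`H7ZMod`). Every point of `X_f` is equivalent under `PGL₂(K)` to a point all of whose
components are classes of matrices `diag(a, 1)`, and are the class of `1` at the places of a given finite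
set and where the level is not maximal. (Approximation of the matrices at the given places,
`exists_approx_GL`; Iwasawa decomposition at the other places; strong approximation in `K` removes the
unipotent parts.) -/
theorem borel_points_dense {K : Type*} [Field K] [NumberField K] (L : Level (𝓞 K) K)
    (S : Finset (HeightOneSpectrum (𝓞 K))) (x : XF L.fam) :
    ∃ g : PGL(2, K),
      (∀ w, ∃ a : Kˣ, (g • x) w = (((borP K).d a : PGL(2, K)) : PGL(2, K) ⧸ L.fam.U w)) ∧
      ∀ w, w ∈ S ∨ L.U w ≠ U0 w → (g • x) w = ((1 : PGL(2, K)) : PGL(2, K) ⧸ L.fam.U w) :=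
  dense L S x

/-- **Uniqueness** (`H7ZPos`). `κ`, `κ'` are Whittaker functions. Suppose that at every place outside `W`
either the place is good and both satisfy the Hecke equation (`HeckeEq`: the hypothesis `hH` of
`whittaker_recursion`) with the same eigenvalue, or both are of the same type (`TypeAt`, `DualAt`: the
hypotheses `hB`, `hd` of `whittaker_bad`). If they agree on the diagonal
points supported in `W` then they agree on all diagonal points. By `borel_points_dense` the two
automorphic functions are then equal. -/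
theorem whittaker_unique {K : Type*} [Field K] [NumberField K]
    [DecidableEq (HeightOneSpectrum (𝓞 K))] {L : Level (𝓞 K) K} {κ κ' : XF L.fam → ℂ}
    (hκ : ∀ (b : K) (y : XF L.fam), κ ((borP K).n b • y) = ee (-Algebra.trace ℚ K b) * κ y)
    (hκ' : ∀ (b : K) (y : XF L.fam), κ' ((borP K).n b • y) = ee (-Algebra.trace ℚ K b) * κ' y)
    (W : Set (HeightOneSpectrum (𝓞 K)))
    (h : ∀ w ∉ W, (GoodAt (borP K) L.fam w ∧
        ∃ ϖ : Kˣ, w.valuation K (ϖ : K) = exp (-(1 : ℤ)) ∧ ∃ (R : Finset K) (lam : ℂ),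
          R.Nonempty ∧ (∀ b ∈ R, w.valuation K b ≤ 1) ∧
            HeckeEq (borP K) L.fam κ w ϖ R lam ∧ HeckeEq (borP K) L.fam κ' w ϖ R lam) ∨
      (∃ Bw : Set K, DualAt (borP K) L.fam w Bw ∧
        TypeAt (borP K) L.fam κ w Bw ∧ TypeAt (borP K) L.fam κ' w Bw))
    (h0 : ∀ y : XF L.fam,
      (∀ w, ∃ a : Kˣ, y w = (((borP K).d a : PGL(2, K)) : PGL(2, K) ⧸ L.fam.U w)) →
      (∀ w ∉ W, y w = ((1 : PGL(2, K)) : PGL(2, K) ⧸ L.fam.U w)) → κ y = κ' y)
    (y : XF L.fam)
    (hy : ∀ w, ∃ a : Kˣ, y w = (((borP K).d a : PGL(2, K)) : PGL(2, K) ⧸ L.fam.U w)) :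
    κ y = κ' y :=
  eq_on_borel (bLevel L) ⟨hκ⟩ ⟨hκ'⟩ W h h0 y hy

/-- **Positivity on `X`** (`H7ZX`, from `H7ZPos`, `H7ZFun`). `a` is the action of an automorphism
`a.s` of `K` on the model, `w₀` a place fixed by it whose level contains the `diag(u, 1)`, `u` a
unit; `f` is invariant with Whittaker function `κ`; outside `S` and `w₀` the places are good and
`f` satisfies Hecke equations (`HeckeX`: the hypothesis of `whittaker_hecke`) with eigenvalues `lam w`
invariant under `a.s`, and at the places of `S` it is of types (`TypeX`: the hypothesis `hB` of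
`whittaker_bad`, for `f` in place of `κ`) which are permuted by `a.s`. Then `f(s x) = f(x)`. Proof:
by `whittaker_unique` for `κ` and `κ ∘ s`, `W = {w₀}`; a diagonal point supported at `w₀` is fixed by
`s`, because `s` preserves the valuation of `w₀` and the level at `w₀` contains the `diag(u, 1)`,
`u` a unit. -/
theorem positivity_on_X {K : Type*} [Field K] [NumberField K] {J : Type*} [Fintype J] [Nonempty J]
    [DecidableEq (HeightOneSpectrum (𝓞 K))] {m : Model K J} {f : m.X → ℂ} {κ : XF m.L.fam → ℂ}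
    (a : AutData m) (hinv : ∀ (g : PGL(2, K)) (x : m.X), f (g • x) = f x)
    (hW : H19W.IsWM m (fun u => H22Z.K0 (4 * Real.pi * u)) f κ) (w₀ : HeightOneSpectrum (𝓞 K))
    (hw₀ : a.σ w₀ = w₀)
    (hgood : ∀ u : Kˣ, w₀.valuation K (u : K) = 1 → (borP K).d u ∈ m.L.U w₀)
    (S : Set (HeightOneSpectrum (𝓞 K))) (lam : HeightOneSpectrum (𝓞 K) → ℂ)
    (hlam : ∀ w, lam (a.σ w) = lam w)
    (hU : ∀ w ∉ S, w ≠ w₀ → GoodAt (borP K) m.L.fam w)
    (hϖ : ∀ w ∉ S, w ≠ w₀ → ∃ ϖ : Kˣ, w.valuation K (ϖ : K) = exp (-(1 : ℤ)) ∧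
      ∃ R : Finset K, R.Nonempty ∧ (∀ b ∈ R, w.valuation K b ≤ 1) ∧
        HeckeX m f w ϖ R (lam w) ∧ HeckeX m f (a.σ w) (Units.map (a.s : K →* K) ϖ)
          (R.map a.s.toEquiv.toEmbedding) (lam (a.σ w)))
    (Bw : HeightOneSpectrum (𝓞 K) → Set K)
    (hS : ∀ w ∈ S, DualAt (borP K) m.L.fam w (Bw w) ∧ TypeX m f w (Bw w) ∧
      TypeX m f (a.σ w) (Bw (a.σ w)) ∧ ∀ b ∈ Bw w, a.s b ∈ Bw (a.σ w))
    (x : m.X) : f (a.act x) = f x :=
  posX a (fun _ hu => H22Z.k0_ne hu) hinv hW w₀ hw₀ hgood S lam hlam hU hϖ Bw hS x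

/-- **The first coefficient is not zero** (`H7ZX`). If `f ≠ 0` is as before, but at every place either the
place is good and `f` is an eigenfunction of `T_w` or of `U` (`UX`), or `f` is of a type, then the value of
`κ` at the base point of `X_f` is not zero. Used for the form over `F`: one can normalise the coefficients
by `c(1) = 1`. -/
theorem base_coefficient_ne_zero {K : Type*} [Field K] [NumberField K] {J : Type*} [Fintype J]
    [Nonempty J] [DecidableEq (HeightOneSpectrum (𝓞 K))] {m : Model K J} {f : m.X → ℂ}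
    {κ : XF m.L.fam → ℂ} (hinv : ∀ (g : PGL(2, K)) (x : m.X), f (g • x) = f x)
    (hW : H19W.IsWM m (fun u => H22Z.K0 (4 * Real.pi * u)) f κ)
    (hloc : ∀ w : HeightOneSpectrum (𝓞 K),
      (GoodAt (borP K) m.L.fam w ∧ ∃ ϖ : Kˣ, w.valuation K (ϖ : K) = exp (-(1 : ℤ)) ∧
        ∃ R : Finset K, ∃ lam : ℂ, R.Nonempty ∧ (∀ b ∈ R, w.valuation K b ≤ 1) ∧
          (HeckeX m f w ϖ R lam ∨ UX m f w ϖ R lam)) ∨
      (∃ Bw : Set K, DualAt (borP K) m.L.fam w Bw ∧ TypeX m f w Bw))
    (hf : ∃ x, f x ≠ 0) : κ (XF.base m.L.fam) ≠ 0 :=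
  base_ne_zeroX (fun _ hu => H22Z.k0_ne hu) hinv hW hloc hf

/-! ## 5. Application to a setup

The given form over `E` (`IsEForm`, unfolded in `GuideOctCTarget`) and the functions in the eigenspaces of
the operator `C` satisfy the hypotheses of `positivity_on_X`: -/

/-- **Real kernels suffice** (`H7ZHook2`). If a locally integrable `Φ` on `(H3)^J` is an eigenfunction of
the real radial kernels of class `IsRC` with the eigenvalue `hat κ`, it is an eigenfunction of all radial
kernels, hence smooth with `Δ_j Φ = -Φ`. -/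
theorem real_kernels_suffice {J : Type*} [Fintype J] {Φ : (J → H3) → ℂ} (hΦ : LocallyIntegrable Φ)
    (h : ∀ κ : (J → ℝ) → ℝ, H56Z.IsRC (fun u => (κ u : ℂ)) → ∀ w,
      H5Z.Rk (fun u => (κ u : ℂ)) Φ w = H9Z.hat (fun u => (κ u : ℂ)) * Φ w) :
    H9Z.IsEig Φ :=
  rad_of_real hΦ h

open Classical in
/-- **Idempotents of types** (`H7ZHook`). The kernel `κ` of a type `(H, χ)` of level `U` at `w` has the
values `χ(g⁻¹ g')⁻¹ / [H : U]` for `g⁻¹ g'` in `H` and `0` otherwise. If a function `φ` on `X_f` is fixed by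
its operator, then `φ(g h) = χ(h) φ(g)` at the place `w` for `h` in `H`. -/
theorem typed_of_idempotent {G : Type*} [Group G] {ι : Type*} {L : LevelFam G ι} {w : ι}
    {κ : LocKer (L.U w)} {H : Subgroup G} {χ : G → ℂ}
    (hκ : ∀ g g' : G,
      (g⁻¹ * g' ∈ H → κ.k (g : G ⧸ L.U w) (g' : G ⧸ L.U w) =
        (χ (g⁻¹ * g'))⁻¹ / (((L.U w).subgroupOf H).index : ℂ)) ∧
      (g⁻¹ * g' ∉ H → κ.k (g : G ⧸ L.U w) (g' : G ⧸ L.U w) = 0))
    (hmul : ∀ g ∈ H, ∀ h ∈ H, χ (g * h) = χ g * χ h) (hone : χ 1 = 1) {φ : XF L → ℂ}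
    (hφ : H51Z.lop w κ φ = φ) {h : G} (hh : h ∈ H) (y : XF L) (g : G) :
    φ (XF.upd y w ((g * h : G) : G ⧸ L.U w)) = χ h • φ (XF.upd y w ((g : G) : G ⧸ L.U w)) :=
  typed_of_lop hκ hmul hone hφ hh y g

end Fermat.Agent.Guide.OctCForms
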