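import Fermat.Agent.H43ZFin

/-!
# Guide, block (C) of S47: the geometric side of the comparison of traces

Second file on block (C) of S47; the overview, the language (models `X`, automorphic kernels,
cut-offs) and the spectral side are in `GuideOctC`. This file explains the proof of `C.Geom`, the
equality of two integrals over `PGL₂(E) \ X(E)` and `PGL₂(F) \ X(F)`. As there, it only contains
citations of theorems in the closure of `S47`. (The records: `CSetup` and `TD` are described in `GuideOctC`,
`AutData` in `GuideOctCSetup`, `GlobKer` in `GuideOctCLevel`, the self-dual bases `SD` in `GuideOctCLocal`.)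

**The situation.** `F` is an imaginary quadratic field containing the third roots of unity, `E / F` is
cyclic of degree three, `s` a generator of the Galois group. The first integral is the one of
`Σ_d k_E(x, d s(x))`, `d` in `PGL₂(E)`, the second of `Σ_γ k_F(y, γ y)`, `γ` in `PGL₂(F)`.

**Order of this file.**
1. Conjugacy classes: the norm `δ ↦ δ s(δ) s²(δ)` identifies the twisted classes of elliptic regular
   norm with the classes of `PGL₂(F)` which are norms, and identifies the centralisers; `γ` is a norm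
   if and only if it is one locally (theorem of Hasse).
2. Unfolding: the two integrals are sums over these classes; only elliptic regular elements
   contribute and the sums converge absolutely, because of the power of `U` at the auxiliary place.
3. For one class, the equality of the two integrals follows from comparisons of weights at the finite
   places ("matchings" with one and the same weight on a third set) and from an identity at infinity.
   No Haar measures on centralisers and no orbital integrals are needed.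
4. The matchings: good places, the auxiliary place, bad places which split, bad places with one place
   above them (ramified, also wildly).
5. The local characters and the types at the bad places.
6. The result.

In place of the characteristic functions of maximal compact groups at the places dividing `6` and the
ramified places one uses TYPES: small groups with a character, given by lattices stable under `s`.
Therefore no fundamental lemma for ramified extensions and no germ expansions are necessary.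

Details: `GuideOctCSteps` (sections 1 and 2, the auxiliary place), `GuideOctCOrbital` (from local
matchings to the equality of the integrals), `GuideOctCInfinity` (the infinite places), `GuideOctCLocal`
(local comparisons), `GuideOctCSplit` (split places), `GuideOctCBad` (bad places with one place above
them), `GuideLatticeTypes` (lattices, types and characters), `GuideOctCSetup`.

Notes: [415], 6.4 and 6.5 (overview); [445] (norms, twisted classes, Hasse), [456] (unfolding,
convergence, norm condition), [467], [433] (which elements contribute), [472] (matchings, products),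
[430], [432], [418], [458] (local comparisons), [422], [452], [463], [476] (bad places with one place
above them, self-dual basis), [428] (infinite places), [429], [459], [469] (setup, types).
-/

set_option autoImplicit false

open IsDedekindDomain HeightOneSpectrum WithZero NumberField Matrix MeasureTheory
open scoped MatrixGroups ENNReal

noncomputable section

namespace Fermat.Agent.Guide.OctCGeom

open Fermat.Agent.H59XF Fermat.Agent.H59D Fermat.Agent.H79S

/-! ## 1. Conjugacy classes and norms

`s` generates the cyclic group `Gal(E/F)` of order three, `sP s` is its action on `PGL₂(E)`,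
`nP s δ = δ · s(δ) · s²(δ)` the norm, `incP E` the inclusion of `PGL₂(F)` in `PGL₂(E)`. (Namespace
`H20.S47`, files `H20S1`-`H20S8`.) -/

/-- Elliptic regular elements of `PGL₂(K)`: the classes of the matrices without eigenvalue in `K`
whose trace is not zero. Their centraliser in `PGL₂(K)` is commutative. -/
theorem ellReg_iff {K : Type*} [Field K] (γ : PGL(2, K)) :
    H20.S47.EllReg γ ↔ ∃ g : GL (Fin 2) K, ProjGenLinGroup.mk g = γ ∧
      (∀ x : K, x ^ 2 - (g : Matrix (Fin 2) (Fin 2) K).trace * x +
        (g : Matrix (Fin 2) (Fin 2) K).det ≠ 0) ∧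
      (g : Matrix (Fin 2) (Fin 2) K).trace ≠ 0 :=
  Iff.rfl

/-- **Twisted conjugacy classes** (`H20S5`). Two elements of `PGL₂(E)` with elliptic regular norms are
`s`-conjugate if and only if their norms are conjugate. If the norm of `δ` is `γ` in `PGL₂(F)`, the
`s`-centraliser of `δ` is the centraliser of `γ` in `PGL₂(F)`. Both follow from the vanishing of
`H¹(⟨s⟩, T(E)/E^×)` for the torus `T` of an elliptic regular element and from Hilbert 90. Hence the
sum over all `δ` in the trace over `E` is a sum over the conjugacy classes of `PGL₂(F)` which are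
norms, with the same centralisers as over `F`. -/
theorem twisted_classes {F E : Type*} [Field F] [Field E] [Algebra F E] {s : E ≃ₐ[F] E}
    (h3 : ∀ x, s (s (s x)) = x) (hs : s ≠ AlgEquiv.refl)
    (hfix : ∀ x, s x = x → x ∈ Set.range (algebraMap F E)) :
    (∀ δ₁ δ₂ : PGL(2, E), H20.S47.EllReg (H20.S47.nP s δ₁) →
      ((∃ x : PGL(2, E), δ₂ = x * δ₁ * (H20.S47.sP s x)⁻¹) ↔
        ∃ x : PGL(2, E), H20.S47.nP s δ₂ = x * H20.S47.nP s δ₁ * x⁻¹)) ∧
    ∀ (δ : PGL(2, E)) (γ : PGL(2, F)), H20.S47.EllReg γ →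
      H20.S47.nP s δ = H20.S47.incP E γ → ∀ x : PGL(2, E),
        (x * δ = δ * H20.S47.sP s x ↔ ∃ y : PGL(2, F), y * γ = γ * y ∧ x = H20.S47.incP E y) :=
  ⟨fun _ _ h => H20.S47.twisted_conj_iff h3 hs hfix h,
    fun _ _ hγ h x => H20.S47.twisted_centralizer_iff h3 hfix hγ h x⟩

/-- **Which classes are norms** (`H20S8`). `F` is totally complex and contains a primitive third root
of unity `ζ`. An elliptic regular `γ` of `PGL₂(F)` is the norm of an element commuting with the
centraliser of `γ`, if at every place `v` of `F` with one place of `E` above it a conjugate of `γ` has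
a representative `g`, `τ = tr g`, `Δ = det g`, such that one of the following holds: (i) `v` is prime to
`3` and unramified in `E`, and `|τ|² ≤ |Δ|` (`γ` is compact) or the valuation of `Δ / τ²` is a multiple
of three (`γ` is hyperbolic, its translation length is a multiple of three); (ii) the characteristic
polynomial of `g / z`, `z` a scalar, is very near to `(X - 1)²`. This is the norm theorem of Hasse in
degree three (`H54T.hasse_norm`) for `E[γ] / F[γ]`. The hypothesis at `v` is `H20.S47.LocOKP E ζ v γ`. -/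
theorem exists_norm {F E : Type} [Field F] [NumberField F] [Field E] [NumberField E]
    [Algebra F E] {s : E ≃ₐ[F] E} {ζ : F} (hζ : IsPrimitiveRoot ζ 3) [IsTotallyComplex F]
    (h3 : ∀ x, s (s (s x)) = x) (hs : s ≠ AlgEquiv.refl)
    (hfix : ∀ x, s x = x → x ∈ Set.range (algebraMap F E)) {γ : PGL(2, F)}
    (hγ : H20.S47.EllReg γ)
    (hloc : ∀ v : HeightOneSpectrum (𝓞 F), H82.NonSplit E v →
      ∃ (y : PGL(2, F)) (g : GL (Fin 2) F), ProjGenLinGroup.mk g = y⁻¹ * γ * y ∧
        ∀ τ Δ : F, τ = (g : Matrix (Fin 2) (Fin 2) F).trace →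
          Δ = (g : Matrix (Fin 2) (Fin 2) F).det →
          ((v.valuation F 3 = 1 ∧ (∀ w ∈ H82.above E v,
              v.asIdeal.ramificationIdx' w.asIdeal = 1) ∧
            (v.valuation F τ ^ 2 ≤ v.valuation F Δ ∨
              ∃ k : ℤ, v.valuation F Δ = exp (3 * k) * v.valuation F τ ^ 2)) ∨
          ∃ M : ℕ, exp (-(M : ℤ)) < v.valuation F (ζ - 1) ^ 3 ∧ ∃ z : F, z ≠ 0 ∧
            v.valuation F (τ / z - 2) ≤ exp (-(M : ℤ)) ∧
            v.valuation F (Δ / z ^ 2 - τ / z + 1) ≤ exp (-(M : ℤ)) ^ 2)) :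
    ∃ δ : PGL(2, E), H20.S47.nP s δ = H20.S47.incP E γ ∧ ∀ t : PGL(2, F), t * γ = γ * t →
      δ * H20.S47.incP E t = H20.S47.incP E t * δ :=
  H20.S47.exists_norm hζ h3 hs hfix hγ fun v hv => (hloc v hv).elim fun y h => h.elim fun g h =>
    ⟨y, g, h.1, h.2 _ _ rfl rfl⟩

/-! ## 2. Unfolding; which elements contribute -/

/-- **Comparison of the two sums over classes** (`H94UCls`, used in `H57CGeom`). `XE`, `XF` are spaces
with invariant measures, `sX` an `s`-equivariant map, `tE`, `tF` invariant kernels, `χE`, `χF`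
cut-offs (integration against `χ μ` is integration over the quotient). (`H94U.IsCutoff G χ`: `χ` is
measurable and `Σ_g χ(g x) = 1` for all `x`.) Only elements of elliptic regular norm contribute over
`E`, only elliptic regular norms over `F`, and both sides converge absolutely. If for every pair
`(δ, γ)` with norm of `δ` equal to `γ` the integrals over the quotients by the centraliser of `γ`
agree (cut-offs `wE`, `wF`), then the integrals over the whole quotients agree. -/
theorem unfolding {F E : Type*} [Field F] [Field E] [Algebra F E] {s : E ≃ₐ[F] E}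
    {XE XF : Type*} [MeasurableSpace XE] [MeasurableSpace XF] [MulAction PGL(2, E) XE]
    [MulAction PGL(2, F) XF] [MeasurableConstSMul PGL(2, E) XE] [MeasurableConstSMul PGL(2, F) XF]
    (μE : Measure XE) (μF : Measure XF) [SMulInvariantMeasure PGL(2, E) XE μE]
    [SMulInvariantMeasure PGL(2, F) XF μF] [Countable PGL(2, E)] [Countable PGL(2, F)]
    (h3 : ∀ x, s (s (s x)) = x) (hs : s ≠ AlgEquiv.refl)
    (hfix : ∀ x, s x = x → x ∈ Set.range (algebraMap F E))
    {sX : XE → XE} (hsX : ∀ (g : PGL(2, E)) x, sX (g • x) = H20.S47.sP s g • sX x)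
    {tE : XE → XE → ℂ} (htE : ∀ (g : PGL(2, E)) x y, tE (g • x) (g • y) = tE x y)
    (hmE : ∀ δ : PGL(2, E), Measurable fun x => tE x (δ • sX x))
    {tF : XF → XF → ℂ} (htF : ∀ (g : PGL(2, F)) x y, tF (g • x) (g • y) = tF x y)
    (hmF : ∀ γ : PGL(2, F), Measurable fun y => tF y (γ • y))
    {χE : XE → ℝ≥0∞} (hE : Measurable χE) (hE' : ∀ x, ∑' g : PGL(2, E), χE (g • x) = 1)
    {χF : XF → ℝ≥0∞} (hF : Measurable χF) (hF' : ∀ x, ∑' g : PGL(2, F), χF (g • x) = 1)
    (hE1 : ∀ (δ : PGL(2, E)) x, tE x (δ • sX x) ≠ 0 → H20.S47.EllReg (H20.S47.nP s δ))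
    (hE2 : ∑' δ : PGL(2, E), ∫⁻ x, ‖tE x (δ • sX x)‖ₑ ∂(μE.withDensity χE) ≠ ⊤)
    (hF1 : ∀ (γ : PGL(2, F)) y, tF y (γ • y) ≠ 0 →
      H20.S47.EllReg γ ∧ ∃ δ, H20.S47.nP s δ = H20.S47.incP E γ)
    (hF2 : ∑' γ : PGL(2, F), ∫⁻ y, ‖tF y (γ • y)‖ₑ ∂(μF.withDensity χF) ≠ ⊤)
    (hcmp : ∀ (δ : PGL(2, E)) (γ : PGL(2, F)), H20.S47.EllReg γ →
      H20.S47.nP s δ = H20.S47.incP E γ →
      (∀ y : PGL(2, F), y * γ = γ * y → H20.S47.incP E y * δ = δ * H20.S47.incP E y) →
      ((∃ x, tE x (δ • sX x) ≠ 0) ∨ ∃ y, tF y (γ • y) ≠ 0) →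
      ∀ (wE : XE → ℝ≥0∞) (wF : XF → ℝ≥0∞), Measurable wE →
      (∀ x, ∑' τ : Subgroup.centralizer {γ}, wE (H20.S47.incP E (τ : PGL(2, F)) • x) = 1) →
      H94U.IsCutoff (Subgroup.centralizer {γ}) wF →
      Integrable (fun x => tE x (δ • sX x)) (μE.withDensity wE) →
      Integrable (fun y => tF y (γ • y)) (μF.withDensity wF) →
      ∫ x, tE x (δ • sX x) ∂(μE.withDensity wE) = ∫ y, tF y (γ • y) ∂(μF.withDensity wF)) :
    Integrable (fun x => ∑' δ : PGL(2, E), tE x (δ • sX x)) (μE.withDensity χE) ∧
    Integrable (fun y => ∑' γ : PGL(2, F), tF y (γ • y)) (μF.withDensity χF) ∧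
    ∫ x, ∑' δ : PGL(2, E), tE x (δ • sX x) ∂(μE.withDensity χE) =
      ∫ y, ∑' γ : PGL(2, F), tF y (γ • y) ∂(μF.withDensity χF) :=
  H94U.geom_compare_sym μE μF h3 hs hfix hsX htE hmE htF hmF ⟨hE, hE'⟩ ⟨hF, hF'⟩ hE1 hE2 hF1 hF2
    hcmp

/-- **No contribution from elements with a stable line** (`H6ZExcl`-`H6ZExcl3`). `m` is a model over
`K`, `a` the data of the automorphism `s` (`a.act` its action on `X`), `w₀` a place fixed by `s` with
Iwahori level, `A` a Hecke operator. For all large `n`: if `B` is a Hecke operator whose support is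
contained in the support of `A` at all `w ≠ w₀` and in the double coset of `diag(ϖ^n, 1)` at `w₀`,
and `κ(t) = 0` as soon as one `t_j > R`, then for every `δ` with `k(x, δ s(x)) ≠ 0` for some `x`
there is no line of `K²` stable under `δ s`. Proof: product formula for the height of such a line; the
contribution of `w₀` is `q^n`, the one of the other places is bounded. -/
theorem no_stable_line {K : Type*} [Field K] [NumberField K] {J : Type*} [Fintype J]
    {m : Model K J} (a : AutData m) {w₀ : HeightOneSpectrum (𝓞 K)} (h₀ : a.σ w₀ = w₀)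
    (hI : ∀ g ∈ m.L.U w₀, g ∈ H51Z.Iw (w₀.valuation K)) (A : GlobKer m.L.fam) (R : ℝ) :
    ∃ M₀ : ℕ, ∀ n : ℕ, M₀ ≤ n → ∀ B : GlobKer m.L.fam,
      (∀ w ≠ w₀, ∀ y y', (B.loc w).k y y' ≠ 0 → (A.loc w).k y y' ≠ 0) →
      (∀ g g' : PGL(2, K), (B.loc w₀).k (g : PGL(2, K) ⧸ m.L.fam.U w₀) g' ≠ 0 →
        g⁻¹ * g' ∈ H51Z.cellU (w₀.valuation K) (exp (-(n : ℤ)))) →
      ∀ κ : (J → ℝ) → ℂ, (∀ t, κ t ≠ 0 → ∀ j, t j ≤ R) → ∀ (x : m.X) (δ : PGL(2, K)),
        m.ker κ B.k x (δ • a.act x) ≠ 0 → ∀ D : GL (Fin 2) K, ProjGenLinGroup.mk D = δ →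
          ∀ u : Fin 2 → K, u ≠ 0 → ∀ c : K,
            (D : Matrix (Fin 2) (Fin 2) K) *ᵥ (fun i => a.s (u i)) ≠ c • u :=
  H6.Z.excl_ker a h₀ hI A R

/-- **The norm of an element without stable line is elliptic** (`H56ZReg`). `A` is an invertible matrix
over a field `K` with an endomorphism `s`, `s³ = 1`, whose norm `N = A s(A) s²(A)` has distinct
eigenvalues. If `N` had an eigenvalue `x` in `K`, then `s x = x` (trace and determinant of `N` are fixed
by `s`) and the line of `x` would be stable under `u ↦ A s(u)`, because `A s(N) = N A`. -/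
theorem norm_elliptic {K : Type*} [Field K] {s : K →+* K} (h3 : ∀ x, s (s (s x)) = x)
    {A : Matrix (Fin 2) (Fin 2) K} (hA : A.det ≠ 0)
    (hd : (A * A.map s * (A.map s).map s).trace ^ 2 - 4 * (A * A.map s * (A.map s).map s).det ≠ 0)
    (hl : ∀ u : Fin 2 → K, u ≠ 0 → ∀ c : K, A *ᵥ (fun i => s (u i)) ≠ c • u) (x : K) :
    x ^ 2 - (A * A.map s * (A.map s).map s).trace * x + (A * A.map s * (A.map s).map s).det ≠ 0 :=
  H56Z.ell_Nm h3 hA hd hl x

/-- **Contributing elements and convergence, on a setup** (`H94YSetup`, from the last two theorems,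
`H56ZReg2`, `H94VConv`, `H94WNorm`, `H94XFin`, `H94ZDeep`). For every radial kernel `κ` and every monomial
`n` in the Hecke operators at allowed places, for all large `k`: over `E` only the `d` with elliptic
regular norm contribute, over `F` only elliptic regular norms, and both sides converge absolutely for
every cut-off (on a Siegel set only finitely many elements without stable line contribute). The norm of a
contributing `d` has trace and discriminant `≠ 0` since it lies in the double coset of `diag(ϖ^{3k}, 1)`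
at `w0`. Hypothesis `hsupp`: the idempotent of the type at a bad place with one place above it vanishes
unless the local norm condition (`LocOKP`, see `exists_norm`) holds. -/
theorem contributing {F E : Type} [Field F] [NumberField F] [Field E] [NumberField E]
    [Algebra F E] (C : CSetup F E) {ζ : F} (hζ : IsPrimitiveRoot ζ 3)
    (hsupp : ∀ v ∈ C.SF, H82.NonSplit E v → ∀ (γ : PGL(2, F)) (y : PGL(2, F) ⧸ C.mF.L.fam.U v),
      (C.kF.D.e v).k y (γ • y) ≠ 0 → H20.S47.LocOKP E ζ v γ)
    (h3v : ∀ v ∉ C.SF, v.valuation F (3 : F) = 1) {κ : (Fin 3 → ℝ) → ℂ} (hκ : H56Z.IsRC κ)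
    {n : HeightOneSpectrum (𝓞 E) →₀ ℕ}
    (hn : ∀ w ∈ n.support, w ∉ C.SE ∧ ¬ H82.NonSplit E (H47.below F w)) :
    ∃ k0 : ℕ, ∀ k ≥ k0,
      (∀ (d : PGL(2, E)) x, C.tkE κ n k x (d • C.aE.act x) ≠ 0 →
        H20.S47.EllReg (H20.S47.nP C.s d)) ∧
      (∀ χ : C.mE.X → ℝ≥0∞, H94U.IsCutoff PGL(2, E) χ → ∑' d : PGL(2, E),
        ∫⁻ x, ‖C.tkE κ n k x (d • C.aE.act x)‖ₑ ∂(C.mE.μ.withDensity χ) ≠ ⊤) ∧
      (∀ (γ : PGL(2, F)) y, C.tkB κ n k y (γ • y) ≠ 0 →
        H20.S47.EllReg γ ∧ ∃ d, H20.S47.nP C.s d = H20.S47.incP E γ) ∧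
      (∀ χ : C.mF.X → ℝ≥0∞, H94U.IsCutoff PGL(2, F) χ → ∑' γ : PGL(2, F),
        ∫⁻ y, ‖C.tkB κ n k y (γ • y)‖ₑ ∂(C.mF.μ.withDensity χ) ≠ ⊤) :=
  H94Y.inputs C hζ hsupp h3v hκ hn

/-! ## 3. One class: from matchings to the equality of integrals -/

/-- **Matched weights.** `T` acts on `X` by `aX` and on `Y` by `aY`, `φ` and `ψ` are weights on `X` and
`Y`. They are matched by `β : X → Y` if `β` is compatible with the actions at the points where `φ` is
not zero, has finite fibres there, and `ψ` is the push-forward of `φ`. (`H57CLoc`.) -/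
theorem locMatch_iff {T X Y : Type*} (aX : T → X → X) (aY : T → Y → Y) (φ : X → ℂ) (ψ : Y → ℂ)
    (β : X → Y) :
    H57C.LocMatch aX aY φ ψ β ↔
      (∀ t x, φ x ≠ 0 → β (aX t x) = aY t (β x)) ∧ (∀ y, {x | φ x ≠ 0 ∧ β x = y}.Finite) ∧
      ∀ y, ∑ᶠ x ∈ {x | φ x ≠ 0 ∧ β x = y}, φ x = ψ y :=
  ⟨fun h => ⟨h.equiv, h.fin, h.sum⟩, fun h => ⟨h.1, h.2.1, h.2.2⟩⟩

/-- **Products of matchings** (`H57CLoc`, `H57CProd2`). Matchings at all places `v`, which at almost all
places respect the base points (the weights are `1` there, and among the `x` with weight `≠ 0` only the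
base point is mapped to the base point), give a matching of the restricted products (`RP`: families of
points which are the base point at almost all places), with the product weights `∏ φ_v(x_v)`. -/
theorem locMatch_product {V : Type*} {XE XF : V → Type*} {bE : ∀ v, XE v} {bF : ∀ v, XF v}
    {T : Type*} {aE : ∀ v, T → XE v → XE v} {aF : ∀ v, T → XF v → XF v}
    {φ : ∀ v, XE v → ℂ} {ψ : ∀ v, XF v → ℂ} {β : ∀ v, XE v → XF v}
    (h : ∀ v, H57C.LocMatch (aE v) (aF v) (φ v) (ψ v) (β v))
    (h0 : ∀ᶠ v in Filter.cofinite, φ v (bE v) = 1 ∧ ψ v (bF v) = 1 ∧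
      ∀ x, φ v x ≠ 0 → (β v x = bF v ↔ x = bE v))
    {aEf : T → H57C.RP XE bE → H57C.RP XE bE} {aFf : T → H57C.RP XF bF → H57C.RP XF bF}
    (hE : ∀ t x v, (aEf t x).1 v = aE v t (x.1 v))
    (hF : ∀ t x v, (aFf t x).1 v = aF v t (x.1 v)) :
    ∃ β' : H57C.RP XE bE → H57C.RP XF bF, (∀ x v, (β' x).1 v = β v (x.1 v)) ∧
      H57C.LocMatch aEf aFf (fun x => ∏ᶠ v, φ v (x.1 v)) (fun y => ∏ᶠ v, ψ v (y.1 v)) β' :=
  ⟨_, fun _ _ => rfl, H57C.LocMatch.rprod h (h0.mono fun _ h => ⟨h.1, h.2.1, h.2.2⟩) hE hF⟩

/-- **The infinite places** (`H67M1` to `H67M5`, `H67M7`; used in the form `H67M8`). `ch x y` is the `cosh`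
of the hyperbolic distance. The integral of `κ` over the chains `x, g₁ x₂, g₁ g₂ x₃, g₁ g₂ g₃ x` is the
value of the radial kernel `bF κ` on `H3` at the pair `x, g₁ g₂ g₃ x`; `bF` is multiplicative
(convolution), and for `κ = k₁ ⊗ k₂ ⊗ k₃` it is the convolution `k₁ * k₂ * k₃`. Steps:
`GuideOctCInfinity`. -/
theorem matching_infinity (κ κ' : (Fin 3 → ℝ) → ℂ) (hκ : H56Z.IsRC κ) (hκ' : H56Z.IsRC κ')
    (g₁ g₂ g₃ : GL (Fin 2) ℂ) (x : H3) (k₁ k₂ k₃ : (Fin 1 → ℝ) → ℂ) :
    ∫ x₂ : H3, ∫ x₃ : H3, κ ![H3.ch x (g₁ • x₂), H3.ch x₂ (g₂ • x₃), H3.ch x₃ (g₃ • x)] =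
        H67M.bF κ (fun _ => H3.ch x ((g₁ * g₂ * g₃) • x)) ∧
      H67M.bF (H56Z.conv κ κ') = H56Z.conv (H67M.bF κ) (H67M.bF κ') ∧
      H67M.bF (fun t => k₁ (fun _ => t 0) * k₂ (fun _ => t 1) * k₃ (fun _ => t 2)) =
        H56Z.conv k₁ (H56Z.conv k₂ k₃) :=
  ⟨(H67M.bk_cyclic κ g₁ g₂ g₃ x).trans (H67M.bk_eq_bkr κ x _), H67M.bF_conv hκ hκ',
    H67M.bF_tens3 k₁ k₂ k₃⟩

/-- **Equality of the integrals for one class** (`H57COrb`, `H57COrb2`). `T` is the centraliser of `γ`. The
integrands on `HE × YE` (infinite part times finite part over `E`) and on `HF × YF` are products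
`kE φ` and `kF ψ`. The weights `φ`, `ψ` are matched by `β`, and integration of `kE` along the fibres
of `p : HE → HF` gives `kF` (`hint`, `hnorm`). Then the integrals modulo `T` agree (cut-offs `χE`,
`χF`). Applied twice, with `ψ` the weight on the third set: once over `E`, once over `F`. -/
theorem integral_of_matching {HE HF YE YF T : Type*} [MeasurableSpace HE] [MeasurableSpace HF]
    [MeasurableSpace YE] [MeasurableSpace YF] [DiscreteMeasurableSpace YE]
    [DiscreteMeasurableSpace YF] [Countable YE] [Countable YF] {μE : Measure HE}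
    {μF : Measure HF} [SigmaFinite μE] [SigmaFinite μF] [Group T] [Countable T]
    [MulAction T (HE × YE)] [MeasurableConstSMul T (HE × YE)]
    [SMulInvariantMeasure T (HE × YE) (μE.prod Measure.count)] [MulAction T (HF × YF)]
    {aE : T → YE → YE} {aF : T → YF → YF} {φ : YE → ℂ} {ψ : YF → ℂ} {β : YE → YF}
    (hm : H57C.LocMatch aE aF φ ψ β) {p : HE → HF} {kE : HE → ℂ} {kF : HF → ℂ}
    (hp : Measurable p) (hkE : Measurable kE) (hkF : Measurable kF)
    (hint : ∀ h : HF → ℝ, Measurable h → (∀ x, 0 ≤ h x) → (∀ x, h x ≤ 1) →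
      Integrable (fun x => (h (p x) : ℂ) * kE x) μE →
      ∫ x, (h (p x) : ℂ) * kE x ∂μE = ∫ x, (h x : ℂ) * kF x ∂μF)
    (hnorm : ∀ h : HF → ℝ, Measurable h → (∀ x, 0 ≤ h x) → (∀ x, h x ≤ 1) →
      ∫⁻ x, ‖(h x : ℂ) * kF x‖ₑ ∂μF ≤ ∫⁻ x, ‖(h (p x) : ℂ) * kE x‖ₑ ∂μE)
    (hP : ∀ (t : T) (z : HE × YE), φ z.2 ≠ 0 → (p (t • z).1, β (t • z).2) = t • (p z.1, β z.2))
    (hinv : ∀ (t : T) (z : HE × YE), kE (t • z).1 * φ (t • z).2 = kE z.1 * φ z.2)
    {χE : HE × YE → ℝ≥0∞} (hχE : H94U.IsCutoff T χE)
    {χF : HF × YF → ℝ≥0∞} (hχF : H94U.IsCutoff T χF)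
    (hfin : ∫⁻ z, ‖kE z.1 * φ z.2‖ₑ ∂((μE.prod Measure.count).withDensity χE) ≠ ⊤) :
    Integrable (fun z : HF × YF => kF z.1 * ψ z.2) ((μF.prod Measure.count).withDensity χF) ∧
    ∫ z : HE × YE, kE z.1 * φ z.2 ∂((μE.prod Measure.count).withDensity χE) =
      ∫ z : HF × YF, kF z.1 * ψ z.2 ∂((μF.prod Measure.count).withDensity χF) :=
  H57C.orbital_eq hm ⟨hp, hint, hnorm, hkF⟩ hkE hP hinv hχE hχF hfin

/-! ## 4. The local comparisons

Let `nP s d = γ` with `γ` elliptic regular. At every place `v` of `F` the products of the values of the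
local kernels at the places above `v` (over `E`) and the value of the kernel at `v` (over `F`) are
weights on sets on which the centraliser of `γ` acts, and both are matched with one weight on a third
set `PGL₂(F) / HT C v`. -/

/-- **The local comparison at `v`** (`PMat C n k v`, `H57CSet`, `H57CDict`), unfolded. For every
elliptic regular `γ` there is ONE weight `ψ` on `PGL₂(F) / HT C v` such that for all `d` of norm `γ`
which commute with the centraliser of `γ` the following two weights are matched with `ψ`: the weight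
`x ↦ ∏_{w ∣ v} e_w(x_w, (d s(x))_w)` on the product of the sets `PGL₂(E) / L.U w` (`H57C.Xv`;
`H57C.actv` is the action of `s`), and the weight `y ↦ e_v(y, γ y)` on `PGL₂(F) / L.U v`. Here `e_w`,
`e_v` are the components at `w`, `v` of the test kernels of exponent `n`, `k` over `E` and of exponent
`n`, `3 k` over `F`; `HT C v` is the group of the type at the bad places with one place above them,
and `L.U v` otherwise. -/
theorem pmat_iff {F E : Type} [Field F] [NumberField F] [Field E] [NumberField E] [Algebra F E]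
    (C : CSetup F E) (n : HeightOneSpectrum (𝓞 E) →₀ ℕ) (k : ℕ)
    (v : HeightOneSpectrum (𝓞 F)) :
    H57C.PMat C n k v ↔ ∀ γ : PGL(2, F), H20.S47.EllReg γ →
      ∃ ψ : PGL(2, F) ⧸ H57C.HT C v → ℂ, ∀ d : PGL(2, E),
        H20.S47.nP C.s d = H20.S47.incP E γ →
        (∀ y : PGL(2, F), y * γ = γ * y → H20.S47.incP E y * d = d * H20.S47.incP E y) →
        (∃ β : H57C.Xv C.mE.L.fam (H47.below F) v → PGL(2, F) ⧸ H57C.HT C v, H57C.LocMatch
          (fun (c : Subgroup.centralizer ({γ} : Set PGL(2, F))) x =>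
            fun i => H20.S47.incP E (c : PGL(2, F)) • x i)
          (fun c y => (c : PGL(2, F)) • y)
          (fun x => ∏ᶠ i : {w : HeightOneSpectrum (𝓞 E) // H47.below F w = v},
            ((C.kE.D.mono n k).loc i.1).k (x i)
              (d • H57C.actv C.aE.twist (H47.below F) (H57C.below_σ C) v x i)) ψ β) ∧
        (∃ β : PGL(2, F) ⧸ C.mF.L.fam.U v → PGL(2, F) ⧸ H57C.HT C v, H57C.LocMatch
          (fun (c : Subgroup.centralizer ({γ} : Set PGL(2, F))) x => (c : PGL(2, F)) • x)
          (fun c y => (c : PGL(2, F)) • y)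
          (fun y => ((C.kF.D.mono (n.mapDomain (H47.below F)) (3 * k)).loc v).k y (γ • y)) ψ β) := by
  refine forall₂_congr fun γ hγ => exists_congr fun ψ => forall_congr' fun d =>
    ⟨fun h h1 h2 => ?_, fun h hd => ?_⟩
  · exact ⟨(h ⟨hγ, h1, h2⟩).E.imp fun _ h => h.1, (h ⟨hγ, h1, h2⟩).F.imp fun _ h => h.1⟩
  · exact ⟨(h hd.norm hd.comm).1.imp fun _ h => ⟨h, False.elim⟩,
      (h hd.norm hd.comm).2.imp fun _ h => ⟨h, False.elim⟩⟩

/-- **Good places** (`H57CGood`, from `H61K1`-`H61K11` and `H68G1`). The local comparison holds at all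
`v ≠ v0` which are not bad, if `n` only contains places above split places. If `v` splits, the
three factors at the places above `v` are contracted to one (`d = (d₁, d₂, d₃)`, `γ = d₁ d₂ d₃`), and
`∏_{w ∣ v} T_w^{n(w)}` becomes `T_v` to the power `Σ n(w)`. If `v` is inert both kernels are the unit;
this is the fundamental lemma for the unit: the vertices fixed by `x ↦ d s(x)` are the translates by one
`t` in the centraliser of `γ` of the vertices over `F` fixed by `γ`. It is proved by surjectivity of
the norm on the units of the orders of the quadratic algebra `E[γ]`. (`GuideOctCLocal`, section 5.) -/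
theorem matching_good {F E : Type} [Field F] [NumberField F] [Field E] [NumberField E]
    [Algebra F E] (C : CSetup F E) {n : HeightOneSpectrum (𝓞 E) →₀ ℕ}
    (hn : ∀ w ∈ n.support, w ∉ C.SE ∧ ¬ H82.NonSplit E (H47.below F w)) (k : ℕ)
    {v : HeightOneSpectrum (𝓞 F)} (hv : v ∉ C.SF) (hv0 : v ≠ C.v0) : H57C.PMat C n k v :=
  (H57C.PM0at_good C hn k hv hv0).pm

/-- **The auxiliary place** (`H57CFin`, from `H25ZV0`, `H25ZV0b`-`H25ZV0d`). At the inert place `v0` with
Iwahori level the local comparison holds for `U^k` over `E` and `U^{3k}` over `F`, `k ≥ 1`; the kernel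
of `U^k` is the indicator function of the double coset of `diag(ϖ^k, 1)`. Proof: over the completion a
contributing norm `γ` has two eigenvalues of different absolute value, so `γ` and `d` are diagonal in
one basis over the completion of `F`; by the Iwasawa decomposition every `x` with `x⁻¹ d s(x)` in the double
coset comes from `PGL₂(F)`, and there `y⁻¹ d y` is in the double coset of `diag(ϖ^k, 1)` if and only if
`y⁻¹ γ y` is in the one of `diag(ϖ^{3k}, 1)`. So both weights are the same function. -/
theorem matching_v0 {F E : Type} [Field F] [NumberField F] [Field E] [NumberField E]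
    [Algebra F E] (C : CSetup F E) (n : HeightOneSpectrum (𝓞 E) →₀ ℕ) {k : ℕ} (hk : 1 ≤ k) :
    H57C.PMat C n k C.v0 :=
  H57C.PMat_v0 C n hk

/-- **Bad places which split** (`H84ZBad`, `H84ZBadP`). The local comparison holds if the three
lattices of the type over `F` are the inverse images of those of the type over `E`. (The comparison at
the split places, good and bad, is explained step by step in `GuideOctCSplit`.) -/
theorem matching_bad_split {F E : Type} [Field F] [NumberField F] [Field E] [NumberField E]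
    [Algebra F E] (C : CSetup F E) {v : HeightOneSpectrum (𝓞 F)} (hv : v ∈ C.SF)
    (hns : ¬ H82.NonSplit E v) {w : HeightOneSpectrum (𝓞 E)} (hw : H47.below F w = v)
    (hT : ∀ x : F, (x ∈ (C.TF v).A ↔ algebraMap F E x ∈ (C.TE w).A) ∧
      (x ∈ (C.TF v).B ↔ algebraMap F E x ∈ (C.TE w).B) ∧
      (x ∈ (C.TF v).C ↔ algebraMap F E x ∈ (C.TE w).C))
    (n : HeightOneSpectrum (𝓞 E) →₀ ℕ) (k : ℕ) : H57C.PMat C n k v :=
  H84Z.pmat_badsplit C hv hns hw hT n k

/-- **Transfer of matchings from completions** (`H92T1`, `H92T3`, used in the form `H92T.Hat.locMatch` of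
`H92T4`). The computations at a place with one place above it need a complete field, but the points of
a model are cosets of `PGL₂(E)`, `PGL₂(F)`. Let `Gh = j(G) Uh`, `Gh' = j'(G') Hh` (this holds for open
subgroups of the groups over the completions). Then the cosets of `Uh` in `Gh` are the same as the
cosets of its inverse image in `G`, and a matching of weights on `Gh / Uh` and `Gh' / Hh` gives one over
`G` and `G'`. No topology is used here. -/
theorem matching_transfer {G G' Gh Gh' : Type*} [Group G] [Group G'] [Group Gh] [Group Gh']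
    {j : G →* Gh} {j' : G' →* Gh'} {Uh : Subgroup Gh} (hA : ∀ g : Gh, ∃ x : G, g⁻¹ * j x ∈ Uh)
    {Hh : Subgroup Gh'} (hA' : ∀ g : Gh', ∃ x : G', g⁻¹ * j' x ∈ Hh) {T Th : Type*} (i : T → Th)
    {τ : T → G} {τ' : T → G'} {τh : Th → Gh} {τh' : Th → Gh'} (h1 : ∀ c, τh (i c) = j (τ c))
    (h2 : ∀ c, τh' (i c) = j' (τ' c)) {φh : Gh ⧸ Uh → ℂ} {ψh : Gh' ⧸ Hh → ℂ}
    {βh : Gh ⧸ Uh → Gh' ⧸ Hh}
    (h : H57C.LocMatch (fun c x => τh c • x) (fun c y => τh' c • y) φh ψh βh)
    {φ : G ⧸ Uh.comap j → ℂ} {ψ : G' ⧸ Hh.comap j' → ℂ}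
    (hφ : ∀ g : G, φ (g : G ⧸ Uh.comap j) = φh (j g : Gh ⧸ Uh))
    (hψ : ∀ g : G', ψ (g : G' ⧸ Hh.comap j') = ψh (j' g : Gh' ⧸ Hh)) :
    ∃ β : G ⧸ Uh.comap j → G' ⧸ Hh.comap j',
      H57C.LocMatch (fun c x => τ c • x) (fun c y => τ' c • y) φ ψ β :=
  ⟨_, H92T.locMatch_transfer hA hA' i h1 h2 h hφ hψ⟩

/-- **The self-dual normal basis** of a cubic Kummer extension (`H76U4`). `s` has order three, `om` is
a primitive third root of unity fixed by `s`, `s th = om th`. Then `e = (1 + th + th⁻¹) / 3` has trace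
`1`, and `e · s e` has trace `0`: so `e, s e, s² e` is a basis over the fixed field and its own dual
basis for the trace form. The types over `E` at the place above a bad place `v` with only one place
above it are defined by lattices with respect to this basis; this works for all ramification
(`GuideLatticeTypes`). -/
theorem selfDual_kummer {K : Type*} [Field K] (s : K ≃+* K) (om th : K) (h3 : (3 : K) ≠ 0)
    (hom : om ^ 2 + om + 1 = 0) (hsom : s om = om) (hth : th ≠ 0) (hsth : s th = om * th)
    (s3 : ∀ x, s (s (s x)) = x) (e : K) (he : e = (1 + th + th⁻¹) * (3 : K)⁻¹) :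
    e + s e + s (s e) = 1 ∧ e * s e + s e * s (s e) + s (s e) * e = 0 :=
  he ▸ ⟨(H76U.SD.kummer s om th h3 hom hsom hth hsth s3).e_one,
    (H76U.SD.kummer s om th h3 hom hsom hth hsth s3).e_zero⟩

/-- **The norm of `1 + e q`** (`H43Z2`). `B` is a ring (below: two by two matrices) with an automorphism
`s` of order three and a central `e` with the equations of the previous theorem. For `q` fixed by `s`
the norm of `1 + e q` is `1 + q + ν q³`, `ν = e · s e · s² e`. Hence the norm map from a small group
over `E` to a small group over `F` can be computed, with no hypothesis on the ramification. -/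
theorem norm_one_add_mul {B : Type*} [Ring B] (s : B ≃+* B) (e : B)
    (s3 : ∀ x, s (s (s x)) = x) (central : ∀ x, Commute e x)
    (h0 : e * e + s e * s e + s (s e) * s (s e) = 1)
    (h1 : e * s e + s e * s (s e) + s (s e) * e = 0) (h2 : e + s e + s (s e) = 1)
    (q : B) (hq : s q = q) :
    (1 + e * q) * s (1 + e * q) * s (s (1 + e * q)) =
      1 + (q + e * s e * s (s e) * (q * q * q)) :=
  H43Z2.Nb.norm_one_add ⟨s3, central, h0, h1, h2⟩ hq

/-- **Norm roots and normal form** (`H43Z2`). In the situation of the previous theorem let `Q` be an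
additive group of fixed elements, complete and separated for the powers of a central element `π`
fixed by `s`, and `P = PP s e Q` the group of the `x` for which the traces of `e x`, `s(e) x`,
`s²(e) x` are in `Q`; assume `P P ⊆ π P`. Then every `1 + b`, `b` in `Q`, is the norm of some `1 + e a`,
`a` in `Q` (contraction principle for `a ↦ b - ν a³`; this `a` is unique, `root_unique`), and every
`1 + x`, `x` in `P`, is `s`-conjugate under `1 + P` to some `1 + e a` (successive approximation). -/
theorem norm_roots {B : Type*} [Ring B] (s : B ≃+* B) (e π : B) (Q : AddSubgroup B)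
    (s3 : ∀ x, s (s (s x)) = x) (central : ∀ x, Commute e x)
    (h0 : e * e + s e * s e + s (s e) * s (s e) = 1)
    (h1 : e * s e + s e * s (s e) + s (s e) * e = 0) (h2 : e + s e + s (s e) = 1)
    (hπ : s π = π) (hQ : ∀ q ∈ Q, s q = q) (πC : ∀ x : B, Commute π x)
    (πreg : ∀ x : B, π * x = 0 → x = 0) (πQ : ∀ x ∈ Q, π * x ∈ Q)
    (lim : ∀ f : ℕ → B, (∀ n, f n ∈ Q) → (∀ n, ∃ z ∈ Q, f (n + 1) - f n = π ^ n * z) →
      ∃ l ∈ Q, ∀ n, ∃ z ∈ Q, l - f n = π ^ n * z)
    (sep : ∀ x ∈ Q, (∀ n : ℕ, ∃ z ∈ Q, x = π ^ n * z) → x = 0)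
    (hP : ∀ x ∈ H43Z2.PP s e Q, ∀ y ∈ H43Z2.PP s e Q, ∃ z ∈ H43Z2.PP s e Q, x * y = π * z) :
    (∀ b ∈ Q, ∃ a ∈ Q, (1 + e * a) * s (1 + e * a) * s (s (1 + e * a)) = 1 + b) ∧
    ∀ x ∈ H43Z2.PP s e Q, ∃ h ∈ H43Z2.PP s e Q, ∃ a ∈ Q,
      (1 + x) * (1 + s h) = (1 + h) * (1 + e * a) :=
  have D : H43Z2.Dat s e π Q := ⟨⟨s3, central, h0, h1, h2⟩, hπ, hQ, ⟨πC, πreg, πQ, lim, sep⟩, hP⟩
  ⟨fun _ hb => let ⟨a, ha, h⟩ := D.exists_root hb
    ⟨a, ha, (D.toNb.norm_one_add (hQ a ha)).trans (congrArg (1 + ·) h)⟩, fun _ hx => D.normal_form hx⟩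

/-- **Comparison of fixed points, abstract form** (`H43Z1`). `H` is a subgroup of `G` stable under `s`.
`R b η` is a relation ("`η` is the norm root of `b`") with the properties (i)-(iv): `η s(η) s²(η) = b`;
existence for all fixed `b` in `H`; every `η` in `H` is `s`-conjugate under `H` to a norm root;
compatibility with conjugation. Let `δ s(δ) s²(δ) = γ`, `γ` fixed by `s` with commutative centraliser
in which elements of norm one are of the form `t s(t)⁻¹`. Then for one `t` in this centraliser the `g`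
with `g⁻¹ δ s(g)` in `H` are the `t y h` with `y` fixed, `y⁻¹ γ y` in `H`, `h` in `H`. This replaces
the comparison of fixed points on buildings. -/
theorem fixed_points {G : Type*} [Group G] {s : G →* G} {H : Subgroup G} {R : G → G → Prop}
    (s3 : ∀ x, s (s (s x)) = x) (stab : ∀ h ∈ H, s h ∈ H)
    (i : ∀ b η, R b η → b ∈ H ∧ η ∈ H ∧ s b = b ∧ η * s η * s (s η) = b ∧ Commute η b)
    (ii : ∀ b ∈ H, s b = b → ∃ η, R b η) (iii : ∀ η ∈ H, ∃ h ∈ H, ∃ b, R b (h⁻¹ * η * s h))
    (iv : ∀ b η b' η' y, R b η → R b' η' → s y = y → b' = y⁻¹ * b * y →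
      ∃ h ∈ H, Commute h b' ∧ η' = h⁻¹ * (y⁻¹ * η * y) * s h)
    (γ δ : G) (hγ : s γ = γ) (hcomm : ∀ x y, Commute x γ → Commute y γ → Commute x y)
    (hilbert90 : ∀ u, Commute u γ → u * s u * s (s u) = 1 → ∃ t, Commute t γ ∧ u = t * (s t)⁻¹)
    (hδ : Commute δ γ) (hnorm : δ * s δ * s (s δ) = γ) :
    ∃ t, Commute t γ ∧
      (∀ y, s y = y → y⁻¹ * γ * y ∈ H → ∀ η, R (y⁻¹ * γ * y) η →
        ∃ h ∈ H, (t * y)⁻¹ * δ * s (t * y) = h * η * (s h)⁻¹) ∧
      (∀ g, g⁻¹ * δ * s g ∈ H → ∃ y, s y = y ∧ y⁻¹ * γ * y ∈ H ∧ ∃ h ∈ H, g = t * y * h) :=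
  H43Z1.fixed_points ⟨s3, stab, fun b η h => (i b η h).1, fun b η h => (i b η h).2.1,
    fun b η h => (i b η h).2.2.1, fun b η h => (i b η h).2.2.2.1,
    fun b η h => (i b η h).2.2.2.2, ii, iii, iv⟩ hγ hcomm hilbert90 hδ hnorm

/-- **Bad places with one place above them** (`H43Z9`, from `H43Z1`-`H43Z8`, `H92T5`). The local
comparison holds if the type of `E` at `w` is given by the lattices of radii `w(al)`, `w(be)`,
`w(ga)` (`D.Lat`: the `x` for which the traces of `e x`, `s(e) x`, `s²(e) x` have at most this absolute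
value, `D` = self-dual basis), and the type of `F` at `v` by the balls (`H76U.ball`) of radii
`v(al)`, `v(be)`, `v(ga)`; `κ` bounds the structure constants of the basis. Such types exist (`H76V3`).
Proof: `norm_roots` for the matrices over the completion gives the `R` of `fixed_points`, whose result
descends by density (passage from the bijection of cosets to the matching: `H65S8`, `H65S9`). -/
theorem matching_bad_nonsplit {F E : Type} [Field F] [NumberField F] [Field E] [NumberField E]
    [Algebra F E] (C : CSetup F E) (v : HeightOneSpectrum (𝓞 F)) (hv : v ∈ C.SF)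
    (hns : H82.NonSplit E v) (w : HeightOneSpectrum (𝓞 E)) (hw : H47.below F w = v)
    (D : H76U.SD E) (κ : ℤᵐ⁰) (π al be ga : F) (hs : ∀ x, D.s x = C.s x) (hκ : 1 ≤ κ)
    (str : ∀ i j, D.b i * D.b j ∈ D.Lat (w.valuation E) κ)
    (π0 : π ≠ 0) (al0 : al ≠ 0) (be0 : be ≠ 0) (ga0 : ga ≠ 0)
    (π1 : w.valuation E (algebraMap F E π) < 1)
    (κa : κ * w.valuation E (algebraMap F E al) ≤ w.valuation E (algebraMap F E π))
    (κκ : κ * κ * w.valuation E (algebraMap F E al) ≤ 1)
    (bc : w.valuation E (algebraMap F E be) * w.valuation E (algebraMap F E ga) ≤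
      w.valuation E (algebraMap F E al) * w.valuation E (algebraMap F E al))
    (hA : (C.TE w).A = D.Lat (w.valuation E) (w.valuation E (algebraMap F E al)))
    (hB : (C.TE w).B = D.Lat (w.valuation E) (w.valuation E (algebraMap F E be)))
    (hC : (C.TE w).C = D.Lat (w.valuation E) (w.valuation E (algebraMap F E ga)))
    (hA' : (C.TF v).A = H76U.ball (v.valuation F) (v.valuation F al))
    (hB' : (C.TF v).B = H76U.ball (v.valuation F) (v.valuation F be))
    (hC' : (C.TF v).C = H76U.ball (v.valuation F) (v.valuation F ga)) :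
    H57C.PMat C 0 0 v :=
  H43Z.pmat C hv hns hw (D := D) (κ := κ) (π := π)
    ⟨hs, hκ, str, π0, π1, al0, be0, ga0, κa, κκ, bc, hA, hB, hC, hA', hB', hC'⟩

/-! ## 5. The characters and the types at the bad places

The character of a type is `ψ_v(x 0 1 / x 1 1)` with the local additive character `ψ_v = H7.Z.psi v`. What
is needed about the types is collected in the structure `H76V.TInst` (data `TF`, `TE` of types at all
places of `F` and `E`); the last two theorems of this section say that they exist. -/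

/-- **The local additive characters** (`H7ZPsi`) are defined without completions: `x` in `K` is the sum
of an element integral at `w` and of some `y` integral at all other finite places, and
`ψ_w(x) = exp(-2πi Tr y)`. -/
theorem psi_formula {K : Type*} [Field K] [NumberField K] (w : HeightOneSpectrum (𝓞 K)) {x y : K}
    (h : w.valuation K (x - y) ≤ 1)
    (h' : ∀ w' : HeightOneSpectrum (𝓞 K), w' ≠ w → w'.valuation K y ≤ 1) :
    H7.Z.psi w x = Complex.exp (2 * Real.pi * Complex.I * ((-Algebra.trace ℚ K y : ℚ) : ℂ)) :=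
  H7.Z.psi_eq w h h'

/-- **Local characters over `E` and over `F`** (`H92Psi`). The product of the `ψ_w`, `w ∣ v`, is `ψ_v`
composed with the trace. So on `F` the character `ψ_w` is `ψ_v` if `v` splits (apply the formula to an
element near to `x` at `w` and integral at the conjugates of `w`), and `ψ_v³` if `w` is the only place
above `v`. In the second case, for `v ∣ 3`, the kernels of the characters of the types over `E` and over
`F` do not correspond to each other, only the groups `T.H` do: this is the reason for the third set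
`PGL₂(F) / HT C v` in `pmat_iff`. -/
theorem psi_trace {F E : Type*} [Field F] [NumberField F] [Field E] [NumberField E] [Algebra F E]
    [IsGalois F E] {v : HeightOneSpectrum (𝓞 F)} (S : Finset (HeightOneSpectrum (𝓞 E)))
    (hS : ∀ w, w ∈ S ↔ w ∈ H82.above E v) (x : E) :
    ∏ w ∈ S, H7.Z.psi w x = H7.Z.psi v (Algebra.trace F E x) :=
  H92P.prod_psi_above S hS x

/-- **A Kummer generator** (`H22Kum`). If the automorphism `s` of order three of the field `E` fixes the
primitive third root of unity `ω`, then `s θ = ω θ` for some `θ ≠ 0` (Lagrange resolvents). So the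
theorem `selfDual_kummer` can be applied. -/
theorem kummer_generator {E : Type*} [Field E] (s : E ≃+* E) (hs : ∃ x, s x ≠ x)
    (s3 : ∀ x, s (s (s x)) = x) {ω : E} (hω : ω ^ 2 + ω + 1 = 0) (hsω : s ω = ω) :
    ∃ θ : E, θ ≠ 0 ∧ s θ = ω * θ :=
  H22C.exists_kummer s hs s3 hω hsω

/-- **Types at all places** (`H43ZFin`, from `H76V1`-`H76V3`). For all depths `k`, `c₀` there are types
`TF v`, `TE w` at all places of `F` and `E` such that: every type is `Nice` of depth `(k, c₀)` (admissible
as in block (D), open, bounded, the kernel of the character has finite index in the group, conjugate to a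
subgroup of the `k`-th congruence group, `1 + A` is the stabiliser of the additive character on `B`) and
its character is the standard one; the types over `E` are permuted by `s`; at a split place the type over
`F` is the restriction of the one at any `w ∣ v` (hypothesis of `matching_bad_split`); at a place with one
place above it they are as in `matching_bad_nonsplit` (`H43Z.NS` = its hypotheses). -/
theorem types_everywhere (F E : Type) [Field F] [NumberField F] [Field E] [NumberField E]
    [Algebra F E] [IsGalois F E] (h3 : Module.finrank F E = 3) (s : E ≃ₐ[F] E) (hs : s ≠ 1)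
    (ω : F) (hω : ω ^ 2 + ω + 1 = 0) (θ : E) (hθ : θ ≠ 0) (hsθ : s θ = algebraMap F E ω * θ)
    (k c₀ : ℕ) :
    ∃ (TF : HeightOneSpectrum (𝓞 F) → H76U.TD F) (TE : HeightOneSpectrum (𝓞 E) → H76U.TD E),
      (∀ v, H76V.Nice v (TF v) k c₀) ∧ (∀ w, H76V.Nice w (TE w) k c₀) ∧
      (∀ v x, (TF v).psi x = H7.Z.psi v x) ∧ (∀ w x, (TE w).psi x = H7.Z.psi w x) ∧
      (∀ w w' : HeightOneSpectrum (𝓞 E), (∀ x, w'.valuation E (s x) = w.valuation E x) →
        ∀ x, (s x ∈ (TE w').A ↔ x ∈ (TE w).A) ∧ (s x ∈ (TE w').B ↔ x ∈ (TE w).B) ∧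
          (s x ∈ (TE w').C ↔ x ∈ (TE w).C)) ∧
      (∀ v, ¬ H82.NonSplit E v → ∀ w ∈ H82.above E v, ∀ x : F,
        (algebraMap F E x ∈ (TE w).A ↔ x ∈ (TF v).A) ∧
        (algebraMap F E x ∈ (TE w).B ↔ x ∈ (TF v).B) ∧
        (algebraMap F E x ∈ (TE w).C ↔ x ∈ (TF v).C)) ∧
      (∀ v, H82.NonSplit E v → ∀ w ∈ H82.above E v, ∃ (D : H76U.SD E) (κ : ℤᵐ⁰)
        (π al be ga : F), H43Z.NS s w v (TE w) (TF v) D κ π al be ga) :=
  let ⟨T⟩ := H43Z.tinstEx F E h3 s hs ω hω θ hθ hsθ k c₀
  ⟨T.TF, T.TE, T.niceF, T.niceE, T.psiF, T.psiE, T.stab, fun v hv w hw x =>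
    ⟨(T.split v hv w hw x).1, (T.split v hv w hw x).2.1, (T.split v hv w hw x).2.2.1⟩, T.ns⟩

/-! ## 6. The result -/

/-- **The geometric comparison from the bad places** (`H57CGood`, from `H57CSet`, `H57CGeom`,
`H57CDict` and all theorems above). `C` is a setup. Assume that all places dividing `3` are bad, that
the groups of the types over `F` are conjugate to subgroups of the maximal compact subgroup, that the
idempotents of the types at the bad places with one place above them vanish unless the local norm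
condition holds, and that the local comparison holds at all bad places. Then `C.Geom`: the trace of
`s` times a test operator over `E` and the trace of the matching operator over `F` have equal
geometric sides. -/
theorem geometric_comparison {F E : Type} [Field F] [NumberField F] [Field E] [NumberField E]
    [Algebra F E] (C : CSetup F E) {ζ : F} (hζ : IsPrimitiveRoot ζ 3)
    (h3v : ∀ v ∉ C.SF, v.valuation F (3 : F) = 1)
    (hb : ∀ v ∈ C.SF, ∃ c : PGL(2, F), ∀ g ∈ (C.TF v).H, c⁻¹ * g * c ∈ U0 v)
    (hsupp : ∀ v ∈ C.SF, H82.NonSplit E v → ∀ (γ : PGL(2, F)) (y : PGL(2, F) ⧸ C.mF.L.fam.U v),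
      (C.kF.D.e v).k y (γ • y) ≠ 0 → H20.S47.LocOKP E ζ v γ)
    (hbad : ∀ v ∈ C.SF, H57C.PMat C 0 0 v)
    (cE : H32Z.CutOff PGL(2, E) C.mE.X) (cF : H32Z.CutOff PGL(2, F) C.mF.X)
    (κ : (Fin 3 → ℝ) → ℂ) (hκ : H56Z.IsRC κ) (n : HeightOneSpectrum (𝓞 E) →₀ ℕ)
    (hn : ∀ w ∈ n.support, w ∉ C.SE ∧ ¬ H82.NonSplit E (H47.below F w)) :
    ∃ k0 : ℕ, ∀ k ≥ k0,
      Integrable (fun x => H32Z.CutOff.autK PGL(2, E)
        (C.mE.ker κ (C.kE.D.mono n k).k) x (C.aE.act x)) (cE.ν C.mE.μ) ∧
      Integrable (fun y => H32Z.CutOff.autK PGL(2, F) (C.mF.ker (H67M.bF κ)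
        (C.kF.D.mono (n.mapDomain (H47.below F)) (3 * k)).k) y y) (cF.ν C.mF.μ) ∧
      ∫ x, H32Z.CutOff.autK PGL(2, E)
          (C.mE.ker κ (C.kE.D.mono n k).k) x (C.aE.act x) ∂(cE.ν C.mE.μ) =
        ∫ y, H32Z.CutOff.autK PGL(2, F) (C.mF.ker (H67M.bF κ)
          (C.kF.D.mono (n.mapDomain (H47.below F)) (3 * k)).k) y y ∂(cF.ν C.mF.μ) :=
  H57C.geom_of_bad C hζ h3v hb hsupp hbad cE cF κ hκ n hn

/-- **The geometric comparison for these types** (`H22CFin`, `H43ZFin`). If all places of `F` dividing
`3` are bad, and the types of the setup `C` are those of a `T : TInst` of depth `k`, with `k` so large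
that `exp(-k) < |ζ - 1|³` at the bad places (then the elements near to `1` are cubes, which gives the
norm condition `hsupp`), then `C.Geom` holds. This is used for `setup` in `GuideOctC`. -/
theorem geometric_comparison_types {F E : Type} [Field F] [NumberField F] [Field E]
    [NumberField E] [Algebra F E] (C : CSetup F E) {ζ : F} (hζ : IsPrimitiveRoot ζ 3)
    (h3v : ∀ v ∉ C.SF, v.valuation F (3 : F) = 1) {k c₀ : ℕ} (T : H76V.TInst F E C.s k c₀)
    (hTE : C.TE = T.TE) (hTF : C.TF = T.TF)
    (hk : ∀ v ∈ C.SF, exp (-(k : ℤ)) < v.valuation F (ζ - 1) ^ 3) : C.Geom :=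
  H22C.geom_of H43Z.nspm C hζ h3v T hTE hTF hk

end Fermat.Agent.Guide.OctCGeom
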