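import Fermat.Agent.H61K11

/-!
# Reader's guide: block (C) of S47, the good places with one place above them, step by step

Companion of `GuideOctCLocal`, section 5, and of `GuideOctCGeom.matching_good`. `E / F` is a cyclic extension
of number fields of degree three with generator `s`, `v` a place of `F` with exactly one place `w` above it,
unramified in `E`; `U_w`, `U_v` are the images of the matrices with integral entries and unit determinant in
`PGL₂(E)`, `PGL₂(F)`; `N(δ) = δ s(δ) s²(δ)`. Let `N(δ) = γ` be elliptic regular. The result is a bijection of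
the cosets `g U_w` fixed by `g ↦ δ s(g)` with the cosets `y U_v` fixed by `γ`, equivariant under the
centraliser of `γ` (the fundamental lemma for the unit element in base change of degree three, in the form of
a matching of weights). Everything is done in the field `E` with its valuation; completions, Hensel's lemma
and buildings are not used; the residue characteristics two and three are included.

* Section 1: the valuation ring `D` with the automorphism `s`; fixed units are norms up to `π^k`.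
* Section 2: quadratic orders `D[ω]`, `ω² = a + bω`, with `s(a) = a`, `s(b) = b`.
* Section 3: matrices. If `d ∈ E[c]` and `N(d) = c`, then `d t = s(t) e` with `t ∈ E[c]` invertible and `e` a
  unit of `D[c]`. This is the heart of the proof.
* Section 4: the points of `PGL₂(E)/U_w` fixed by `g ↦ δ s(g)` are the translates by `t⁻¹` of the points
  fixed by `s` and `γ`.
* Section 5: points fixed by `s` are rational; the matching.
* Section 6: number fields and the form used in block (C).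

Author: helper61 (`H61K1`-`H61K11`), with the algebra of helper20 (`H20S1`-`H20S4`). NOTES: [430] S47-C12. All
cited constants are in the term closure of S47 (S47 is not used in the proof of S01).

**Notation.** `H20.S47.sM s`, `sP s` apply `s` to the entries of matrices, of elements of `PGL₂(E)`;
`nm s d = d s(d) s²(d)`, `nP s δ` the same in `PGL₂(E)`; `incP E` the inclusion of `PGL₂(F)`;
`lin c x y = x + y c`; `EllReg γ`: elliptic regular (`GuideOctCGeom.ellReg_iff`); `H61K.U0v v` is `U_v`.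
-/

set_option autoImplicit false

noncomputable section

open IsDedekindDomain HeightOneSpectrum WithZero NumberField Matrix
open scoped MatrixGroups

namespace Fermat.Agent.Guide.OctCInert

open Fermat.Agent.H20.S47 (sM sP nm nP incP lin EllReg)
open Fermat.Agent.H61K (Inert InertV U0v GLv)

/-! ## 1. The valuation ring -/

/-- **The situation** `Inert s π`: `s` is an automorphism of `D` of order three, `π` a prime element fixed
by `s`; elements not divisible by `π` are units, nonzero elements are divisible by only finitely many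
powers of `π`; `D/π` is finite, and `s` acts nontrivially on it. File `H61K2`. -/
theorem inert_iff {D : Type*} [CommRing D] {s : D ≃+* D} {π : D} :
    Inert s π ↔ (∀ x, s (s (s x)) = x) ∧ s π = π ∧ Prime π ∧ (∀ x, ¬ π ∣ x → IsUnit x) ∧
      (∃ θ, ¬ π ∣ s θ - θ) ∧ Finite (D ⧸ Ideal.span {π}) ∧ ∀ x, x ≠ 0 → ∃ n : ℕ, ¬ π ^ n ∣ x :=
  ⟨fun h => ⟨h.s3, h.sπ, h.prime, h.unit, h.sep, h.fin, h.mult⟩,
    fun ⟨a, b, c, d, e, f, g⟩ => ⟨a, b, c, d, e, f, g⟩⟩

/-- **Independence of `1`, `s`, `s²` modulo `π`**: if `α` is a unit, `α z + β s(z) + γ s²(z)` is a unit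
for some `z`; hence there is an element of trace one. File `H61K2`. -/
theorem independence {D : Type*} [CommRing D] [IsDomain D] {s : D ≃+* D} {π : D} (H : Inert s π)
    {α : D} (β γ : D) (hα : ¬ π ∣ α) :
    (∃ z, ¬ π ∣ z * α + s z * β + s (s z) * γ) ∧ ∃ θ, θ + s θ + s (s θ) = 1 :=
  ⟨H.indep β γ hα, H.tr⟩

/-- **Elements fixed modulo `π` lift to fixed elements** (with the element of trace one). File `H61K2`. -/
theorem fixed_elements_lift {D : Type*} [CommRing D] [IsDomain D] {s : D ≃+* D} {π : D}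
    (H : Inert s π) {x : D} (h : π ∣ s x - x) : ∃ x₀, s x₀ = x₀ ∧ π ∣ x₀ - x :=
  H.lift_fixed h

/-- **Fixed units are norms up to `π^k`**: Hilbert 90 holds for the finite group of units modulo `π`, by
`independence`; counting (`GuideOctCLocal.norm_surjective_of_hilbert90`) gives the case `k = 1`, and one
continues by successive approximation with an element of trace one. Files `H61K1`, `H61K2`. -/
theorem fixed_units_are_norms {D : Type*} [CommRing D] [IsDomain D] {s : D ≃+* D} {π : D}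
    (H : Inert s π) {g : D} (hg : IsUnit g) (hs : s g = g) (k : ℕ) :
    (∃ h, IsUnit h ∧ π ∣ h * s h * s (s h) - g) ∧
      ∃ h, IsUnit h ∧ π ^ k ∣ h * s h * s (s h) - g :=
  ⟨H.unr.base hg hs, H.unr.approx hg hs H.regular k⟩

/-! ## 2. Quadratic orders

`QuadraticAlgebra D a b` is `D[ω]` with `ω² = a + bω`; its elements are `⟨x, y⟩ = x + yω`. -/

/-- **The automorphism** `eqQ s` of `D[ω]` is `x + yω ↦ s(x) + s(y)ω`; it is compatible with norms.
File `H61K2`. -/
theorem automorphism_of_order {D : Type*} [CommRing D] (s : D ≃+* D) {a b : D} (ha : s a = a)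
    (hb : s b = b) (y : QuadraticAlgebra D a b) :
    (H61K.eqQ s ha hb y).re = s y.re ∧ (H61K.eqQ s ha hb y).im = s y.im ∧
      (H61K.eqQ s ha hb y).norm = s y.norm :=
  ⟨rfl, rfl, H61K.eqQ_norm s ha hb y⟩

/-- **Units are detected by the norm** modulo `π`. File `H61K2`. -/
theorem isUnit_iff_norm {D : Type*} [CommRing D] [IsDomain D] {s : D ≃+* D} {π : D}
    (H : Inert s π) {a b : D} {y : QuadraticAlgebra D a b} : IsUnit y ↔ ¬ π ∣ y.norm :=
  H.isUnitQ_iff

/-- **Two cases.** If `X² - bX - a` has no root modulo `π`, the norm form is anisotropic modulo `π`. In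
general, `norm(x + yω) = (x + ry)(x + (b - r)y) + (r² - br - a)y²`, so modulo `π` it is a product of two
linear forms if `r` is a root. The split, inert and ramified orders are treated together. File `H61K2`. -/
theorem norm_form {D : Type*} [CommRing D] [IsDomain D] {s : D ≃+* D} {π : D} (H : Inert s π)
    {a b : D} (y : QuadraticAlgebra D a b) :
    ((∀ r : D, ¬ π ∣ r * r - b * r - a) → π ∣ y.norm → π ∣ y.re ∧ π ∣ y.im) ∧
      ∀ r : D, y.norm = (y.re + r * y.im) * (y.re + (b - r) * y.im) +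
        (r * r - b * r - a) * y.im * y.im :=
  ⟨fun hno hy => H.anis hno y hy, fun _ => H61K.Inert.norm_root y⟩

/-- **Averages**: for `y₁`, `y₂` in `D[ω]` some `z + y₁ s(z) + y₂ s²(z)`, `z ∈ D`, is a unit of `D[ω]` (the
substitute for Hilbert 90). File `H61K2`. -/
theorem unit_average {D : Type*} [CommRing D] [IsDomain D] {s : D ≃+* D} {π : D} (H : Inert s π)
    {a b : D} (y₁ y₂ : QuadraticAlgebra D a b) :
    ∃ z : D, IsUnit (algebraMap D (QuadraticAlgebra D a b) z +
      y₁ * algebraMap D (QuadraticAlgebra D a b) (s z) +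
      y₂ * algebraMap D (QuadraticAlgebra D a b) (s (s z))) :=
  H.two y₁ y₂

/-- **Step A, integrality.** Let `D[ω]` be maximal in the following sense: a fixed `r` which is a double
root of `X² - bX - a` modulo `π` is not a root modulo `π²`. If `π²` divides the norm of `y` and `π`
divides `N(y) = y s(y) s²(y)`, then `π` divides `y`. (At a root modulo `π`, which may be taken fixed, the
evaluation of `N(y)` is a product of three conjugates.) File `H61K2`. -/
theorem stepA {D : Type*} [CommRing D] [IsDomain D] {s : D ≃+* D} {π : D} (H : Inert s π)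
    {a b : D} (ha : s a = a) (hb : s b = b)
    (hmax : ∀ r, s r = r → π ∣ b - 2 * r → ¬ π ^ 2 ∣ r * r - b * r - a)
    (y : QuadraticAlgebra D a b) (hn : π ^ 2 ∣ y.norm)
    (hN : algebraMap D (QuadraticAlgebra D a b) π ∣
      y * H61K.eqQ s ha hb y * H61K.eqQ s ha hb (H61K.eqQ s ha hb y)) : π ∣ y.re ∧ π ∣ y.im :=
  H.stepA ha hb hmax y hn hN

/-- **Step B, the conductor.** If `y` is a unit of `D[ω]` with `N(y) = c + π^k ω`, `s(c) = c`, then
`y t = s(t) e` with units `t`, `e`, and `e` is in the smaller order `D[π^k ω]`. Proof for `k ≥ 1`: `c` is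
a unit, `c ≡ N(h)` modulo `π^k` with `h ∈ D`; for `x' = h y⁻¹` let `t = z + x' s(z) + x' s(x') s²(z)` be a
unit (`unit_average`); since `N(x') ≡ 1` modulo `π^k`, `y t ≡ h s(t)`, so `e ≡ h` modulo `π^k`. File
`H61K2`. -/
theorem stepB {D : Type*} [CommRing D] [IsDomain D] {s : D ≃+* D} {π : D} (H : Inert s π)
    {a b : D} (ha : s a = a) (hb : s b = b) {c : D} (hc : s c = c) {k : ℕ}
    {y : QuadraticAlgebra D a b} (hy : IsUnit y)
    (hN : y * H61K.eqQ s ha hb y * H61K.eqQ s ha hb (H61K.eqQ s ha hb y) = ⟨c, π ^ k⟩) :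
    ∃ t e : QuadraticAlgebra D a b, IsUnit t ∧ IsUnit e ∧ π ^ k ∣ e.im ∧
      y * t = H61K.eqQ s ha hb t * e :=
  H.stepB ha hb hc hy hN

/-! ## 3. Matrices -/

/-- **The maximal order**: `τ`, `ν` fixed by `s` with `τ² - 4ν ≠ 0` (trace and determinant of a matrix `c`).
There are `k` and fixed `c₀`, `a`, `b` such that `X² - τX + ν` is the characteristic polynomial of
`c₀ + π^k ω`, and `D[ω]` is maximal as in step A: take `k` largest with `π^k ∣ τ - 2c₀` and
`π^(2k) ∣ c₀² - τc₀ + ν` for some fixed `c₀`. File `H61K3`. -/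
theorem maximal_order {D : Type*} [CommRing D] [IsDomain D] {s : D ≃+* D} {π : D}
    (H : Inert s π) {τ ν : D} (hτ : s τ = τ) (hν : s ν = ν) (hdisc : τ * τ - 4 * ν ≠ 0) :
    ∃ (k : ℕ) (c₀ a b : D), s c₀ = c₀ ∧ s a = a ∧ s b = b ∧ τ = 2 * c₀ + π ^ k * b ∧
      ν = c₀ * c₀ + b * c₀ * π ^ k - a * π ^ k * π ^ k ∧
      ∀ r, s r = r → π ∣ b - 2 * r → ¬ π ^ 2 ∣ r * r - b * r - a :=
  H.exists_max hτ hν hdisc

/-- **The situation for fields** `InertV v s π`: `s³ = 1`, the valuation `v` of `E` (with values in any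
group) is invariant under `s` and discrete with uniformiser `π` fixed by `s`, the residue field is finite,
and `s` acts nontrivially on it. Then the valuation ring satisfies `Inert`. File `H61K3`. -/
theorem inertV_iff {F E : Type*} [Field F] [Field E] [Algebra F E] {Γ₀ : Type*}
    [LinearOrderedCommGroupWithZero Γ₀] {v : Valuation E Γ₀} {s : E ≃ₐ[F] E} {π : E} :
    (InertV v s π ↔ (∀ x, s (s (s x)) = x) ∧ (∀ x, v (s x) = v x) ∧ s π = π ∧ π ≠ 0 ∧ v π < 1 ∧
      (∀ x, x ≠ 0 → ∃ n : ℤ, v x = v π ^ n) ∧ (∃ θ, v θ ≤ 1 ∧ v (s θ - θ) = 1) ∧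
      ∃ S : Set E, S.Finite ∧ ∀ x, v x ≤ 1 → ∃ r ∈ S, v (x - r) < 1) ∧
      ∀ H : InertV v s π, Inert H.sD H.pD ∧ (H.pD : E) = π ∧
        ∀ x : v.integer, ((H.sD x : v.integer) : E) = s x :=
  ⟨⟨fun h => ⟨h.s3, h.vs, h.sπ, h.π0, h.πlt, h.disc, h.sep, h.fin⟩,
    fun ⟨a, b, c, d, e, f, g, h⟩ => ⟨a, b, c, d, e, f, g, h⟩⟩, fun H => ⟨H.inert, rfl, fun _ => rfl⟩⟩

/-- **Quadratic algebras and matrices**: a matrix `W` with `W² = a + bW`, trace `b` and determinant `-a`
defines a homomorphism `x + yω ↦ x + yW` which maps the norm to the determinant. File `H61K3`. -/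
theorem algebra_of_matrix {E : Type*} [Field E] {a b : E} (W : Matrix (Fin 2) (Fin 2) E)
    (hW : W * W = a • 1 + b • W) (htr : W.trace = b) (hdet : W.det = -a)
    (y : QuadraticAlgebra E a b) :
    InertV.matHom W hW y = y.re • (1 : Matrix (Fin 2) (Fin 2) E) + y.im • W ∧
      (InertV.matHom W hW y).det = y.norm :=
  ⟨rfl, InertV.det_matHom W hW htr hdet y⟩

/-- **The main step.** Let `c` be a matrix over `E` fixed by `s`, with integral trace, unit determinant and
nonzero discriminant, and let `d = d₀ + d₁c` have the norm `N(d) = c`. Then `d t = s(t) e` with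
`t = x + yc` invertible and `e = p + qc`, `p`, `q` integral, `det e` a unit. Proof: `c = c₀ + π^k W` with
`D[W]` maximal; by step A, applied to `π^m d`, `d` is in `D[W]`, and a unit there; then step B.
File `H61K3`. -/
theorem main_step {F E : Type*} [Field F] [Field E] [Algebra F E] {Γ₀ : Type*}
    [LinearOrderedCommGroupWithZero Γ₀] {v : Valuation E Γ₀} {s : E ≃ₐ[F] E} {π : E}
    (H : InertV v s π) {c : Matrix (Fin 2) (Fin 2) E} (hc : sM s c = c) (htr : v c.trace ≤ 1)
    (hdet : v c.det = 1) (hdisc : c.trace * c.trace - 4 * c.det ≠ 0) {d₀ d₁ : E}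
    (hN : nm s (lin c d₀ d₁) = c) :
    ∃ x y p q : E, v p ≤ 1 ∧ v q ≤ 1 ∧ (lin c x y).det ≠ 0 ∧ v (lin c p q).det = 1 ∧
      lin c d₀ d₁ * lin c x y = sM s (lin c x y) * lin c p q :=
  H.exists_te hc htr hdet hdisc hN

/-! ## 4. The fixed points of `g ↦ δ s(g)` -/

/-- **The group `U_v`**: the class of `g ∈ GL₂(K)` is in `U0v v` if and only if `g = z k` with a scalar
`z` and `k` integral with unit determinant (`k ∈ GLv v`). File `H61K5`. -/
theorem mem_U0v_iff {K : Type*} [Field K] {Γ₀ : Type*} [LinearOrderedCommGroupWithZero Γ₀]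
    {v : Valuation K Γ₀} {g : GL (Fin 2) K} :
    (g ∈ GLv v ↔ (∀ i j, v (g i j) ≤ 1) ∧ v (g : Matrix (Fin 2) (Fin 2) K).det = 1) ∧
      (Matrix.ProjGenLinGroup.mk g ∈ U0v v ↔ ∃ z : K, z ≠ 0 ∧ ∃ k : GL (Fin 2) K, k ∈ GLv v ∧
        (g : Matrix (Fin 2) (Fin 2) K) = z • (k : Matrix (Fin 2) (Fin 2) K)) :=
  ⟨Iff.rfl, H61K.mem_U0v⟩

/-- **A unit of `D[C]` fixes what `C` fixes**: if a multiple `C = z C_g` has unit determinant and
`e = p + qC` has unit determinant, `p`, `q` integral, then `e` fixes every coset `g U_w` fixed by `C_g`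
(conjugation by `g` maps `lin` to `lin`). File `H61K6`. -/
theorem unit_fixes {F E : Type*} [Field F] [Field E] [Algebra F E] {Γ₀ : Type*}
    [LinearOrderedCommGroupWithZero Γ₀] {v : Valuation E Γ₀} {C : Matrix (Fin 2) (Fin 2) E}
    (hdet : v C.det = 1) {Cg : GL (Fin 2) E} {z : E} (hz : z ≠ 0)
    (hC : C = z • (Cg : Matrix (Fin 2) (Fin 2) E)) {p q : E} (hp : v p ≤ 1) (hq : v q ≤ 1)
    {e : GL (Fin 2) E} (he : (e : Matrix (Fin 2) (Fin 2) E) = lin C p q)
    (hed : v (lin C p q).det = 1) {g : PGL(2, E)}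
    (hg : g⁻¹ * Matrix.ProjGenLinGroup.mk Cg * g ∈ U0v v) :
    g⁻¹ * Matrix.ProjGenLinGroup.mk e * g ∈ U0v v :=
  H61K.fix_of_lin hdet hz hC hp hq he hed hg

/-- **The equivalence.** Let `δ t = s(t) ε` in `PGL₂(E)`, with `t` and `ε` commuting with `δ`, and suppose
that `ε` fixes every point fixed by `N(δ)`. Then `g U_w` is fixed by `g ↦ δ s(g)` if and only if `t g U_w`
is fixed by `s` and `g U_w` by `N(δ)`. (If `g` is fixed by `δ s`, then by `(δ s)³ = N(δ)`.) File `H61K6`.
-/
theorem fixed_points_equivalence {F E : Type*} [Field F] [Field E] [Algebra F E] {Γ₀ : Type*}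
    [LinearOrderedCommGroupWithZero Γ₀] {v : Valuation E Γ₀} {s : E ≃ₐ[F] E} {π : E}
    (H : InertV v s π) {δ t ε : PGL(2, E)} (h1 : δ * t = sP s t * ε) (h2 : δ * t = t * δ)
    (h3 : δ * ε = ε * δ)
    (hε : ∀ g : PGL(2, E), g⁻¹ * nP s δ * g ∈ U0v v → g⁻¹ * ε * g ∈ U0v v) (g : PGL(2, E)) :
    (g⁻¹ * δ * sP s g ∈ U0v v → g⁻¹ * nP s δ * g ∈ U0v v) ∧
      (g⁻¹ * δ * sP s g ∈ U0v v ↔
        (t * g)⁻¹ * sP s (t * g) ∈ U0v v ∧ g⁻¹ * nP s δ * g ∈ U0v v) :=
  ⟨H61K.norm_fix H, H61K.equiv_of H rfl h1 h2 h3 hε g⟩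

/-! The first part of `GuideOctCLocal.inert_fixed_points` (`H61K.exists_t`, file `H61K6`) is the combination.
If no point is fixed by `γ`, then none is fixed by `g ↦ δ s(g)` (first part of `fixed_points_equivalence`),
and `t = 1` will do. Otherwise: `δ` is the class of some `d ∈ E[C]`, `C` a representative of `γ`; since `γ`
fixes a point, the determinants show that `C` and `d` may be scaled such that `N(d) = C` and `det C` is a
unit, and `main_step` gives `t`, `e`, which commute with the centraliser of `γ`. -/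

/-- **Two facts on `E[C]`** used there: elements of the algebra generated by `C` commute in `PGL₂`, and
`N(a + bC)` is fixed by `s` if `C` is. File `H61K6`. -/
theorem algebra_facts {F E : Type*} [Field F] [Field E] [Algebra F E] {Γ₀ : Type*}
    [LinearOrderedCommGroupWithZero Γ₀] {v : Valuation E Γ₀} {s : E ≃ₐ[F] E} {π : E}
    (H : InertV v s π) {C : Matrix (Fin 2) (Fin 2) E} :
    (∀ (A B : GL (Fin 2) E) (a b a' b' : E), (A : Matrix (Fin 2) (Fin 2) E) = lin C a b →
      (B : Matrix (Fin 2) (Fin 2) E) = lin C a' b' →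
      (Matrix.ProjGenLinGroup.mk A : PGL(2, E)) * Matrix.ProjGenLinGroup.mk B =
        Matrix.ProjGenLinGroup.mk B * Matrix.ProjGenLinGroup.mk A) ∧
      (sM s C = C → ∀ a b : E, sM s (nm s (lin C a b)) = nm s (lin C a b)) :=
  ⟨fun _ _ _ _ _ _ hA hB => H61K.comm_of_lin hA hB, fun hC a b => H61K.sM_nm H hC a b⟩

/-! ## 5. Descent and the matching -/

/-- **Rational cosets**: `y ∈ PGL₂(F)` is in `U_w` if and only if it is in `U_v` (the uniformiser `π` is in
`F`, so the scalar may be taken in `F`). File `H61K5`. -/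
theorem rational_cosets {F E : Type*} [Field F] [Field E] [Algebra F E] {Γ₀ : Type*}
    [LinearOrderedCommGroupWithZero Γ₀] {v : Valuation E Γ₀} {s : E ≃ₐ[F] E} {π : E}
    (H : InertV v s π) {ΓF : Type*} [LinearOrderedCommGroupWithZero ΓF] {vF : Valuation F ΓF}
    (hcomp : ∀ x : F, vF x ≤ 1 ↔ v (algebraMap F E x) ≤ 1)
    (hfix : ∀ x, s x = x → x ∈ Set.range (algebraMap F E)) (y : PGL(2, F)) :
    incP E y ∈ U0v v ↔ y ∈ U0v vF :=
  H.comap_mem hcomp hfix y

/-- **The abstract matching.** `GE`, `GF` are groups, `ι : GF → GE`, `s` an endomorphism of `GE` which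
fixes `ι(GF)`; `UF = ι⁻¹(UE)`, and every coset `g UE` fixed by `s` contains some `ι(y)` (descent; the
second part of `GuideOctCLocal.inert_fixed_points`, `H61K5`). Let `t` be as in the first part of
`inert_fixed_points`, and `φ`, `ψ` the indicator functions of the cosets fixed by `δ s` and of those fixed
by `γ`. Then the map `g UE ↦ y UF`, `t g UE = ι(y) UE` (`H61K.bet`), is a matching of `φ` and `ψ`
(`H57C.LocMatch`, see `GuideOctCGeom`): a bijection of the two sets of fixed cosets, equivariant for all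
elements `τ a` commuting with `t`. File `H61K4`. -/
theorem abstract_matching {GE GF T : Type*} [Group GE] [Group GF] (τ : T → GF) {ι : GF →* GE}
    {s : GE →* GE} {UE : Subgroup GE} {UF : Subgroup GF} (hsι : ∀ y, s (ι y) = ι y)
    (h2a : ∀ y, ι y ∈ UE ↔ y ∈ UF) (h2b : ∀ g, g⁻¹ * s g ∈ UE → ∃ y, g⁻¹ * ι y ∈ UE)
    {δ t : GE} {γ : GF} (hτ : ∀ a, t * ι (τ a) = ι (τ a) * t) (hγ : t * ι γ = ι γ * t)
    (h1 : ∀ g, g⁻¹ * δ * s g ∈ UE ↔ (t * g)⁻¹ * s (t * g) ∈ UE ∧ g⁻¹ * ι γ * g ∈ UE)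
    (φ : GE ⧸ UE → ℂ) (ψ : GF ⧸ UF → ℂ)
    (hφ : ∀ g : GE, g⁻¹ * δ * s g ∈ UE → φ (g : GE ⧸ UE) = 1)
    (hφ0 : ∀ g : GE, g⁻¹ * δ * s g ∉ UE → φ (g : GE ⧸ UE) = 0)
    (hψ : ∀ y : GF, y⁻¹ * γ * y ∈ UF → ψ (y : GF ⧸ UF) = 1)
    (hψ0 : ∀ y : GF, y⁻¹ * γ * y ∉ UF → ψ (y : GF ⧸ UF) = 0) :
    H57C.LocMatch (fun a x => ι (τ a) • x) (fun a y => τ a • y) φ ψ (H61K.bet ι UE UF t) ∧
      ∀ (g : GE) (y : GF), ((t * g : GE) : GE ⧸ UE) = ((ι y : GE) : GE ⧸ UE) →
        H61K.bet ι UE UF t (g : GE ⧸ UE) = ((y : GF) : GF ⧸ UF) :=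
  ⟨H61K.locMatch_of τ hsι h2a h2b hτ hγ h1 φ ψ hφ hφ0 hψ hψ0, fun _ _ h => H61K.bet_eq h2a h⟩

/-- **The matching at an inert good place**: `H57C.LocMatch` for the indicator functions of the cosets
fixed by `g ↦ δ s(g)` and by `γ`, equivariant under every family `τ a` of elements commuting with `γ`.
File `H61K7`. -/
theorem matching {F E : Type*} [Field F] [Field E] [Algebra F E] {Γ₀ : Type*}
    [LinearOrderedCommGroupWithZero Γ₀] {v : Valuation E Γ₀} {s : E ≃ₐ[F] E} {π : E}
    {ΓF : Type*} [LinearOrderedCommGroupWithZero ΓF] {vF : Valuation F ΓF} (H : InertV v s π)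
    (hfix : ∀ x, s x = x → x ∈ Set.range (algebraMap F E))
    (hcomp : ∀ x : F, vF x ≤ 1 ↔ v (algebraMap F E x) ≤ 1) (h2 : (2 : F) ≠ 0) {δ : PGL(2, E)}
    {γ : PGL(2, F)} (hγ : EllReg γ) (hN : nP s δ = incP E γ) {T : Type*} (τ : T → PGL(2, F))
    (hτ : ∀ a, τ a * γ = γ * τ a) (φ : PGL(2, E) ⧸ U0v v → ℂ) (ψ : PGL(2, F) ⧸ U0v vF → ℂ)
    (hφ : ∀ g : PGL(2, E), g⁻¹ * δ * sP s g ∈ U0v v → φ (g : PGL(2, E) ⧸ U0v v) = 1)
    (hφ0 : ∀ g : PGL(2, E), g⁻¹ * δ * sP s g ∉ U0v v → φ (g : PGL(2, E) ⧸ U0v v) = 0)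
    (hψ : ∀ y : PGL(2, F), y⁻¹ * γ * y ∈ U0v vF → ψ (y : PGL(2, F) ⧸ U0v vF) = 1)
    (hψ0 : ∀ y : PGL(2, F), y⁻¹ * γ * y ∉ U0v vF → ψ (y : PGL(2, F) ⧸ U0v vF) = 0) :
    ∃ β : PGL(2, E) ⧸ U0v v → PGL(2, F) ⧸ U0v vF,
      H57C.LocMatch (fun a x => incP E (τ a) • x) (fun a y => τ a • y) φ ψ β :=
  H61K.locMatch H hfix hcomp h2 hγ hN τ hτ φ ψ hφ hφ0 hψ hψ0

/-- **Base points.** If `δ ∈ U_w`, and `γ` has an integral representative `g₀` with unit determinant and
unit discriminant, then `δ` is the class of an integral `a + b g₀`, `a` and `b` are integral, and one may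
take `t = 1`; so the matching maps the base coset to the base coset (`H57C.Base`, written out). This is
the situation at almost all places, and is needed for the product over all places. Files `H61K7`, `H61K4`.
-/
theorem base_points {F E : Type*} [Field F] [Field E] [Algebra F E] {Γ₀ : Type*}
    [LinearOrderedCommGroupWithZero Γ₀] {v : Valuation E Γ₀} {s : E ≃ₐ[F] E} {π : E}
    {ΓF : Type*} [LinearOrderedCommGroupWithZero ΓF] {vF : Valuation F ΓF} (H : InertV v s π)
    (hfix : ∀ x, s x = x → x ∈ Set.range (algebraMap F E))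
    (hcomp : ∀ x : F, vF x ≤ 1 ↔ v (algebraMap F E x) ≤ 1) {δ : PGL(2, E)} {g₀ : GL (Fin 2) F}
    (hγ : EllReg (Matrix.ProjGenLinGroup.mk g₀ : PGL(2, F)))
    (hN : nP s δ = incP E (Matrix.ProjGenLinGroup.mk g₀)) (hδ : δ ∈ U0v v) (hg₀ : g₀ ∈ GLv vF)
    (hdisc : v (algebraMap F E ((g₀ : Matrix (Fin 2) (Fin 2) F).trace *
      (g₀ : Matrix (Fin 2) (Fin 2) F).trace - 4 * (g₀ : Matrix (Fin 2) (Fin 2) F).det)) = 1)
    {T : Type*} (τ : T → PGL(2, F))
    (hτ : ∀ a, τ a * Matrix.ProjGenLinGroup.mk g₀ = Matrix.ProjGenLinGroup.mk g₀ * τ a)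
    (φ : PGL(2, E) ⧸ U0v v → ℂ) (ψ : PGL(2, F) ⧸ U0v vF → ℂ)
    (hφ : ∀ g : PGL(2, E), g⁻¹ * δ * sP s g ∈ U0v v → φ (g : PGL(2, E) ⧸ U0v v) = 1)
    (hφ0 : ∀ g : PGL(2, E), g⁻¹ * δ * sP s g ∉ U0v v → φ (g : PGL(2, E) ⧸ U0v v) = 0)
    (hψ : ∀ y : PGL(2, F), y⁻¹ * Matrix.ProjGenLinGroup.mk g₀ * y ∈ U0v vF →
      ψ (y : PGL(2, F) ⧸ U0v vF) = 1)
    (hψ0 : ∀ y : PGL(2, F), y⁻¹ * Matrix.ProjGenLinGroup.mk g₀ * y ∉ U0v vF →
      ψ (y : PGL(2, F) ⧸ U0v vF) = 0) :
    ∃ β : PGL(2, E) ⧸ U0v v → PGL(2, F) ⧸ U0v vF,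
      H57C.LocMatch (fun a x => incP E (τ a) • x) (fun a y => τ a • y) φ ψ β ∧
      φ ((1 : PGL(2, E)) : PGL(2, E) ⧸ U0v v) = 1 ∧ ψ ((1 : PGL(2, F)) : PGL(2, F) ⧸ U0v vF) = 1 ∧
      ∀ x, φ x ≠ 0 → (β x = ((1 : PGL(2, F)) : PGL(2, F) ⧸ U0v vF) ↔
        x = ((1 : PGL(2, E)) : PGL(2, E) ⧸ U0v v)) := by
  obtain ⟨β, h1, h2⟩ := H61K.locMatch_base H hfix hcomp hγ hN hδ hg₀ hdisc τ hτ φ ψ hφ hφ0 hψ hψ0
  exact ⟨β, h1, h2.one, h2.one', h2.iff⟩

/-! ## 6. Number fields -/

/-- **The residue field** at a place `w` of a number field is finite, and if `3` is in the maximal ideal,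
then `x ↦ x^(3^(f+1))` is the identity modulo `w` for some `f`. File `H61K8`. -/
theorem residue_field {E : Type*} [Field E] [NumberField E] (w : HeightOneSpectrum (𝓞 E)) :
    (∃ S : Set E, S.Finite ∧ ∀ x, w.valuation E x ≤ 1 → ∃ r ∈ S, w.valuation E (x - r) < 1) ∧
      (w.valuation E 3 < 1 → ∃ f : ℕ, ∀ x, w.valuation E x ≤ 1 →
        w.valuation E (x ^ (3 ^ (f + 1)) - x) < 1) :=
  ⟨H61K.residue w, H61K.pow_card w⟩

/-- **An automorphism of order three which fixes an unramified place acts nontrivially on the residue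
field** (`π ∈ F` is a uniformiser of `w`). Otherwise every integral `x` is congruent to an element of `F`:
to `(x + s(x) + s²(x))/3`, or in residue characteristic three to a power of `x s(x) s²(x)` (second part of
`residue_field`). Since `π` is in `F`, this holds modulo all powers of `π`, and `s = 1`. File `H61K8`. -/
theorem residue_action {F E : Type*} [Field F] [NumberField F] [Field E] [NumberField E]
    [Algebra F E] {s : E ≃ₐ[F] E} {w : HeightOneSpectrum (𝓞 E)} (h3 : ∀ x, s (s (s x)) = x)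
    (hs : s ≠ AlgEquiv.refl) (hfix : ∀ x, s x = x → x ∈ Set.range (algebraMap F E))
    (hsw : ∀ x, w.valuation E (s x) = w.valuation E x) {π : F}
    (hπ : w.valuation E (algebraMap F E π) = exp (-1)) :
    ∃ θ, w.valuation E θ ≤ 1 ∧ w.valuation E (s θ - θ) = 1 :=
  H61K.sep_of h3 hs hfix hsw hπ

/-- **In the model**: the local condition `H57C.PM0` (a matching which respects the base points; for the
kernels of the setup it implies `H57C.PMat`, unfolded in `GuideOctCGeom.pmat_iff`) holds at every place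
`v ∉ SF`, `v ≠ v0` of the setup `C` (`H79S.CSetup`, see `GuideOctC`) with one place above it, for the test
kernels of exponent `n`, `n` supported at places outside `SE` above split places (`C.OkN n`): their
components at `w` and `v` are the unit kernels. Files `H61K9`, `H61K10`, `H61K11`. -/
theorem matching_in_model {F E : Type} [Field F] [NumberField F] [Field E] [NumberField E]
    [Algebra F E] (C : H79S.CSetup F E) {n : HeightOneSpectrum (𝓞 E) →₀ ℕ} (hn : C.OkN n)
    (j j' : ℕ) (hπ : ∀ w, H47.below F (C.aE.twist.σ w) = H47.below F w)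
    {v : HeightOneSpectrum (𝓞 F)} (hv : v ∉ C.SF) (hv0 : v ≠ C.v0) (hns : H82.NonSplit E v) :
    H57C.PM0 C.s C.aE.twist (H47.below F) hπ (C.kE.D.mono n j)
      (C.kF.D.mono (n.mapDomain (H47.below F)) j') (C.mF.L.fam.U v) v :=
  H61K.cs_pm0_inert C hn j j' hπ hv hv0 hns rfl

end Fermat.Agent.Guide.OctCInert
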