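import Fermat.Agent.H67M8

/-!
# Reader's guide, block (C) of S47: the infinite places in the comparison of traces

Every theorem of this file is proved by citing a theorem of the library; nothing here is used by any other
file. Editor: helper45; the modules `H67M1`-`H67M5`, `H67M7` and `H67M8` are by helper67. Companion of
`GuideOctCGeom`, section 3 (`matching_infinity`). Notes: [428]. All theorems are in the closure of S47.

**The situation.** `F` is an imaginary quadratic field, `E/F` cyclic of degree three. `PGL₂(F)` acts on the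
hyperbolic space `H3` through an embedding of `F` in `ℂ`, and `PGL₂(E)` on `H3³ = (Fin 3 → H3)` through the
three embeddings of `E` which extend it; a generator `s` of the Galois group permutes the three factors. The
two traces which are compared contain the kernels `κ(ch(x_j, d_j x_(j+2)))` on `H3³`, `d_j` the images of an
element `d` of `PGL₂(E)`, and `k(ch(y, γ y))` on `H3`, where `γ = d s(d) s²(d)` is the norm of `d` and `ch` is
`cosh` of the distance.

**What is proved.** Let `κ` be a *radial kernel* on `H3³`: a continuous bounded function of three real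
variables which vanishes if one variable is large. Integrate a cyclic kernel over two of the three variables:

`∫∫ κ(ch(x₁, g₁ x₂), ch(x₂, g₂ x₃), ch(x₃, g₃ x₁)) dx₂ dx₃ = (bκ)(ch(x₁, g₁ g₂ g₃ x₁))`:

the result is a radial kernel `bκ` on `H3` at the norm `g₁ g₂ g₃`, and `bκ` does not depend on the `g_j`
(`cyclic_integral`). The map `κ ↦ bκ` is multiplicative for the convolution of kernels (`multiplicative`),
does not change if the last two variables of `κ` are exchanged, and takes `k₁ ⊗ k₂ ⊗ k₃` to `k₁ * k₂ * k₃`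
(this property is in `GuideOctCGeom`). Nothing else is needed at infinity on the geometric side; no orbital
integrals and no spherical functions occur.

**Proof.** (1) Substitute `u = g₁ x₂` and `v = g₁ g₂ x₃`; the measure and `ch` are invariant. One obtains
`∫∫ κ(ch(x, u), ch(u, v), ch(v, y)) du dv` with `x = x₁`, `y = g₁ g₂ g₃ x₁`. It depends only on `ch(x, y)`,
because the isometries act transitively on the pairs of points with given distance.

(2) *Multiplicativity.* `b(κ₁ * κ₂)(x, y)` is an integral over five points `m₀, …, m₄`, and the six edges of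
the chain `x, m₀, …, m₄, y` belong to `κ₁, κ₂, κ₁, κ₂, κ₁, κ₂` in this order. *Swap lemma*: in an integral
over `m` of a function of the two edges `a m`, `m b` the two edges may be exchanged, because an isometry
exchanges `a` and `b`. Three exchanges sort the edges into `κ₁, κ₁, κ₁, κ₂, κ₂, κ₂`, and this is the integral
for `(bκ₁) * (bκ₂)`.

(3) *Absolute convergence.* The set of the chains of `n` points which start at `x` and all of whose edges have
`ch ≤ T` has volume at most `Vol(T)ⁿ`, `Vol(T)` a bound for the volume of a ball.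

Notation. `bk κ x y` is the double integral in (1), `bkr κ c` its value for `ch x y = c`, `bF κ` the function
`t ↦ bkr κ (t 0)` on `Fin 1 → ℝ`; `Model.chJ x y` is the vector of the `ch (x j) (y j)`; `Adm κ C T`: `κ` is
measurable, at most `C` and zero if a variable is greater than `T`; `IsRC κ`: `κ` is a radial kernel.
-/

set_option autoImplicit false

noncomputable section

open MeasureTheory Set Matrix NumberField
open scoped MatrixGroups ENNReal

namespace Fermat.Agent.Guide.OctCInfinity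

open Fermat.Agent Fermat.Agent.H3 Fermat.Agent.H5Z Fermat.Agent.H56Z Fermat.Agent.H59D
open Fermat.Agent.H67M
open Fermat.Agent.H20.S47 (incP sP nP)

/-! ## 1. Chains with two inner points -/

/-- **The distance.** For points `(z, y)`, `(z', y')` of `H3` the number
`ch = (|z - z'|² + y² + y'²) / (2 y y')` is `cosh` of the distance: it is symmetric, at least `1`, invariant
under `GL₂(ℂ)`, and the group acts transitively on the pairs of points with a given value. Files `H31Hyp1`,
`H31Hyp2`. -/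
theorem distance (x y x' y' : H3) (g : GL (Fin 2) ℂ) :
    ch x y = (Complex.normSq (x.z - y.z) + x.y ^ 2 + y.y ^ 2) / (2 * x.y * y.y) ∧
      ch x y = ch y x ∧ 1 ≤ ch x y ∧ ch (g • x) (g • y) = ch x y ∧
      (ch x y = ch x' y' → ∃ h : GL (Fin 2) ℂ, h • x = x' ∧ h • y = y') :=
  ⟨rfl, ch_comm x y, one_le_ch x y, ch_smul g x y, fun h => exists_smul_eq₂ h⟩

/-- **Triangle inequality** in multiplicative form. File `H67M1`. -/
theorem triangle_inequality (x u y : H3) : ch x y ≤ 2 * ch x u * ch u y :=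
  ch_le_two_mul x u y

/-- **Invariance of the measure** of `H3`, for integrals of arbitrary functions and for integrals with values
in `[0, ∞]`. File `H67M1`. -/
theorem invariance {E : Type*} [NormedAddCommGroup E] [NormedSpace ℝ E] (g : GL (Fin 2) ℂ)
    (f : H3 → E) (f' : H3 → ENNReal) :
    ∫ w : H3, f (g • w) = ∫ w, f w ∧ ∫⁻ w : H3, f' (g • w) = ∫⁻ w, f' w :=
  ⟨integral_smul_eq g f, lintegral_smul_eq g f'⟩

/-- **The integral over two inner points** and its invariance. File `H67M1`. -/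
theorem two_inner_points {E : Type*} [NormedAddCommGroup E] [NormedSpace ℝ E]
    (κ : (Fin 3 → ℝ) → E) (g : GL (Fin 2) ℂ) (x y x' y' : H3) :
    bk κ x y = ∫ u : H3, ∫ v : H3, κ ![ch x u, ch u v, ch v y] ∧
      bk κ (g • x) (g • y) = bk κ x y ∧ (ch x y = ch x' y' → bk κ x y = bk κ x' y') :=
  ⟨rfl, bk_smul κ g x y, fun h => bk_congr κ h⟩

/-- **It is radial**: `bk κ x y` is a function `bkr κ` of `ch x y`, and `bkr κ c = bkr κ (max c 1)`. File
`H67M1`. -/
theorem radial {E : Type*} [NormedAddCommGroup E] [NormedSpace ℝ E] (κ : (Fin 3 → ℝ) → E)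
    (x y : H3) (c : ℝ) : bk κ x y = bkr κ (ch x y) ∧ bkr κ (max c 1) = bkr κ c :=
  ⟨bk_eq_bkr κ x y, bkr_max κ c⟩

/-- **Cyclic integrals.** No hypothesis on `κ` and on the `g_j` is needed. File `H67M1`. -/
theorem cyclic_integral {E : Type*} [NormedAddCommGroup E] [NormedSpace ℝ E]
    (κ : (Fin 3 → ℝ) → E) (g₁ g₂ g₃ : GL (Fin 2) ℂ) (x₁ : H3) :
    ∫ x₂ : H3, ∫ x₃ : H3, κ ![ch x₁ (g₁ • x₂), ch x₂ (g₂ • x₃), ch x₃ (g₃ • x₁)] =
      bk κ x₁ ((g₁ * g₂ * g₃) • x₁) :=
  bk_cyclic κ g₁ g₂ g₃ x₁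

/-- **Support.** If `κ` is zero as soon as one variable is greater than `T`, then `bk κ x y` is zero for
`ch x y > 4 T³` (triangle inequality). File `H67M1`. -/
theorem support {E : Type*} [NormedAddCommGroup E] [NormedSpace ℝ E] {T : ℝ}
    {κ : (Fin 3 → ℝ) → E} (hT : ∀ t, (∃ j, T < t j) → κ t = 0) {x y : H3}
    (h : 4 * T ^ 3 < ch x y) : bk κ x y = 0 :=
  bk_eq_zero hT h

/-! ## 2. Bounds -/

/-- **Fubini on `H3³`** for integrable functions and for functions with values in `[0, ∞]`. File `H67M2`. -/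
theorem fubini_three {E : Type*} [NormedAddCommGroup E] [NormedSpace ℝ E] :
    (∀ f : (Fin 3 → H3) → E, Integrable f →
      ∫ x : Fin 3 → H3, f x = ∫ a : H3, ∫ b : H3, ∫ c : H3, f ![a, b, c]) ∧
    ∀ f : (Fin 3 → H3) → ENNReal, Measurable f →
      ∫⁻ x : Fin 3 → H3, f x = ∫⁻ a : H3, ∫⁻ b : H3, ∫⁻ c : H3, f ![a, b, c] :=
  ⟨fun f hf => integral_pi3 f hf, fun f hf => lintegral_pi3 f hf⟩

/-- **Balls.** `Vol T` is a bound for the volume of the balls `ch a w ≤ T`, uniformly in `a`; `Bt T a` is the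
characteristic function of this ball, and its integral, also after a substitution, is at most `Vol T`.
File `H67M2`; the bound for the volume is in `H5ZH3`. -/
theorem balls (T : ℝ) (a b : H3) (h : GL (Fin 2) ℂ) :
    0 ≤ Vol T ∧ volume {w : H3 | ch a w ≤ T} ≤ ENNReal.ofReal (Vol T) ∧
      Bt T a b = ({w : H3 | ch a w ≤ T}).indicator (fun _ => 1) b ∧
      ∫⁻ b : H3, Bt T a (h • b) ≤ ENNReal.ofReal (Vol T) :=
  ⟨Vol_nonneg T, volume_ball_le T a, rfl, lintegral_Bt_le T a h⟩

/-- **Pointwise bound**: if `κ` is at most `M` and zero for a variable greater than `T`, and if the first two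
variables are `ch a b` and `ch c d`, then `κ` is at most `M` times the product of the characteristic functions
of `ch a b ≤ T` and `ch c d ≤ T`. File `H67M2`. -/
theorem pointwise_bound {κ : (Fin 3 → ℝ) → ℂ} {M T : ℝ} (hM : ∀ t, ‖κ t‖ ≤ M)
    (hT : ∀ t, (∃ j, T < t j) → κ t = 0) (t : Fin 3 → ℝ) (a b c d : H3)
    (h0 : t 0 = ch a b) (h1 : t 1 = ch c d) :
    ‖κ t‖ₑ ≤ ENNReal.ofReal M * (Bt T a b * Bt T c d) :=
  enorm_le_of_supp hM hT t a b c d h0 h1

/-- **Admissible functions**, and radial kernels are admissible. Files `H67M4`, `H67M5`. -/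
theorem admissible {J : Type*} [Fintype J] (κ : (J → ℝ) → ℂ) (C T : ℝ) :
    (Adm κ C T ↔ Measurable κ ∧ (∀ t, ‖κ t‖ ≤ C) ∧ ∀ t, (∃ j, T < t j) → κ t = 0) ∧
      (IsRC κ → ∃ C T : ℝ, 1 ≤ T ∧ 0 ≤ C ∧ Adm κ C T) :=
  ⟨⟨fun h => ⟨h.meas, h.bdd, h.supp⟩, fun h => ⟨h.1, h.2.1, h.2.2⟩⟩, fun h => adm_of_isRC h⟩

/-- **Absolute convergence** of the integral over two inner points: it is a double integral over `H3 × H3`,
and at most `C Vol(T)²`. File `H67M5`. -/
theorem two_points_convergence {κ : (Fin 3 → ℝ) → ℂ} {C T : ℝ} (h : Adm κ C T) (x y : H3) :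
    Integrable (fun p : H3 × H3 => κ ![ch x p.1, ch p.1 p.2, ch p.2 y]) ∧
      bk κ x y = ∫ p : H3 × H3, κ ![ch x p.1, ch p.1 p.2, ch p.2 y] ∧
      ‖bk κ x y‖ ≤ C * (Vol T * Vol T) :=
  ⟨integrable_bkI h x y, bk_eq_integral h x y, norm_bk_le h x y⟩

/-- **Continuity** in the second point, by dominated convergence; so `bkr κ` is continuous. File `H67M5`. -/
theorem continuity {κ : (Fin 3 → ℝ) → ℂ} (hκ : IsRC κ) (x : H3) {X : Type*} [TopologicalSpace X]
    [FirstCountableTopology X] {Y : X → H3} (hY : Continuous Y) :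
    (Continuous fun c => bk κ x (Y c)) ∧ Continuous (bkr κ) :=
  ⟨continuous_bk hκ x hY, continuous_bkr hκ⟩

/-! ## 3. Chains and the swap lemma -/

/-- **The swap lemma**: in an integral over `m` the two edges `a m` and `m b` can be exchanged.
File `H67M3`. -/
theorem swap_lemma {E : Type*} [NormedAddCommGroup E] [NormedSpace ℝ E] (Φ : ℝ → ℝ → E) (a b : H3) :
    ∫ m : H3, Φ (ch a m) (ch m b) = ∫ m : H3, Φ (ch m b) (ch a m) :=
  integral_swap Φ a b

/-- **Permutations** of the coordinates preserve integrals and integrability on `H3ⁿ`. File `H67M3`. -/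
theorem permutations {E : Type*} [NormedAddCommGroup E] [NormedSpace ℝ E] {n : ℕ}
    (σ : Fin n ≃ Fin n) (F : (Fin n → H3) → E) :
    ∫ m : Fin n → H3, F (fun i => m (σ i)) = ∫ m, F m ∧
      (Integrable F → Integrable fun m : Fin n → H3 => F (fun i => m (σ i))) :=
  ⟨integral_perm σ F, fun hF => integrable_perm σ hF⟩

/-- **One coordinate first**: an integral over `H3ⁿ⁺¹` is an iterated integral, first over the coordinate `i`;
so an identity between the integrals over the coordinate `i` gives an identity of integrals. File `H67M3`. -/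
theorem one_coordinate {E : Type*} [NormedAddCommGroup E] [NormedSpace ℝ E] {n : ℕ}
    (i : Fin (n + 1)) {F F' : (Fin (n + 1) → H3) → E} (hF : Integrable F) (hF' : Integrable F') :
    ∫ m, F m = ∫ m' : Fin n → H3, ∫ t : H3, F (i.insertNth t m') ∧
      ((∀ m' : Fin n → H3, ∫ t : H3, F (i.insertNth t m') = ∫ t : H3, F' (i.insertNth t m')) →
        ∫ m, F m = ∫ m, F' m) :=
  ⟨integral_slice i hF, fun h => integral_congr_slice i hF hF' h⟩

/-- **Five points**: the iterated integral. File `H67M3`. -/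
theorem five_points {E : Type*} [NormedAddCommGroup E] [NormedSpace ℝ E] [CompleteSpace E]
    {F : (Fin 5 → H3) → E} (hF : Integrable F) :
    ∫ m, F m = ∫ a : H3, ∫ b : H3, ∫ c : H3, ∫ d : H3, ∫ e : H3, F ![a, b, c, d, e] :=
  integral_pi5 hF

/-- **Chains.** `chainSet T n x` is the set of the `(m₀, …, mₙ₋₁)` with `ch x m₀ ≤ T` and
`ch m_i m_(i+1) ≤ T` for all `i`; its volume is at most `Vol(T)ⁿ`. File `H67M3`. -/
theorem chains (T : ℝ) (n : ℕ) (x : H3) (m : Fin (n + 1) → H3) :
    (m ∈ chainSet T (n + 1) x ↔ ch x (m 0) ≤ T ∧ Fin.tail m ∈ chainSet T n (m 0)) ∧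
      chainSet T 0 x = univ ∧ volume (chainSet T n x) ≤ ENNReal.ofReal (Vol T) ^ n :=
  ⟨Iff.rfl, rfl, volume_chainSet_le T n x⟩

/-- **Integrability**: a bounded measurable function on `H3ⁿ` which is zero outside of the set of chains is
integrable. File `H67M3`. -/
theorem integrable_on_chains {E : Type*} [NormedAddCommGroup E] [NormedSpace ℝ E] {T C : ℝ}
    {n : ℕ} {x : H3} {F : (Fin n → H3) → E} (hm : AEStronglyMeasurable F) (hC : ∀ m, ‖F m‖ ≤ C)
    (hF : ∀ m, F m ≠ 0 → m ∈ chainSet T n x) : Integrable F :=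
  integrable_chain hm hC hF

/-- **Six edges**: an admissible function of the six edges of the chain `x, m₀, …, m₄, y` is integrable over
the five inner points. File `H67M4`. -/
theorem six_edges {W : (Fin 6 → ℝ) → ℂ} {C T : ℝ} (h : Adm W C T) (x y : H3) :
    (∀ m : Fin 5 → H3, ed x y m = ![ch x (m 0), ch (m 0) (m 1), ch (m 1) (m 2), ch (m 2) (m 3),
      ch (m 3) (m 4), ch (m 4) y]) ∧ Integrable fun m : Fin 5 → H3 => W (ed x y m) :=
  ⟨fun _ => rfl, h.integrable_ed x y⟩

/-- **Exchange of adjacent edges** of the chain: edges 1 and 2, 2 and 3, or 3 and 4 (numbered from 0). By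
`one_coordinate` and `swap_lemma`. File `H67M4`. -/
theorem exchange_of_edges {W : (Fin 6 → ℝ) → ℂ} {C T : ℝ} (h : Adm W C T) (x y : H3) :
    (∫ m : Fin 5 → H3, W (ed x y m) =
      ∫ m : Fin 5 → H3, W (fun j => ed x y m (Equiv.swap 1 2 j))) ∧
    (∫ m : Fin 5 → H3, W (ed x y m) =
      ∫ m : Fin 5 → H3, W (fun j => ed x y m (Equiv.swap 2 3 j))) ∧
    ∫ m : Fin 5 → H3, W (ed x y m) =
      ∫ m : Fin 5 → H3, W (fun j => ed x y m (Equiv.swap 3 4 j)) :=
  ⟨chain_swap_one h x y, chain_swap_two h x y, chain_swap_three h x y⟩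

/-- **Sorting**: the edges `κ₁ κ₂ κ₁ κ₂ κ₁ κ₂` can be sorted into `κ₁ κ₁ κ₁ κ₂ κ₂ κ₂`. File `H67M4`. -/
theorem sorting {κ₁ κ₂ : (Fin 3 → ℝ) → ℂ} {C₁ C₂ T₁ T₂ : ℝ} (h₁ : Adm κ₁ C₁ T₁)
    (h₂ : Adm κ₂ C₂ T₂) (x y : H3) :
    ∫ m : Fin 5 → H3, κ₁ ![ch x (m 0), ch (m 1) (m 2), ch (m 3) (m 4)] *
        κ₂ ![ch (m 0) (m 1), ch (m 2) (m 3), ch (m 4) y] =
      ∫ m : Fin 5 → H3, κ₁ ![ch x (m 0), ch (m 0) (m 1), ch (m 1) (m 2)] *
        κ₂ ![ch (m 2) (m 3), ch (m 3) (m 4), ch (m 4) y] :=
  chain_sort h₁ h₂ x y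

/-- **Products of admissible functions**: `κ₁(t₀, t₁, t₂) κ₂(t₃, t₄, t₅)` is admissible, and the integrand of
the convolution of two kernels on `H3³` is integrable. File `H67M4`. -/
theorem products {κ₁ κ₂ : (Fin 3 → ℝ) → ℂ} {C₁ C₂ T₁ T₂ : ℝ} (h₁ : Adm κ₁ C₁ T₁)
    (h₂ : Adm κ₂ C₂ T₂) (X Y : Fin 3 → H3) :
    Adm (fun t : Fin 6 → ℝ => κ₁ ![t 0, t 1, t 2] * κ₂ ![t 3, t 4, t 5]) (C₁ * C₂) (max T₁ T₂) ∧
      Integrable fun v : Fin 3 → H3 => κ₁ (fun j => ch (X j) (v j)) *
        κ₂ (fun j => ch (v j) (Y j)) :=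
  ⟨h₁.mul6 h₂, integrable_pair h₁ h₂ X Y⟩

/-- **Multiplicativity**, first form: if `κ₃` is the convolution of `κ₁` and `κ₂` on `H3³`, then the integral
over `v` of `bk κ₁ x v · bk κ₂ v y` is `bk κ₃ x y`. Write `bk κ₃ x y` with inner points `u`, `w` and the three
variables `a`, `b`, `c` of the convolution; the chain is `x, a, u, b, w, c, y`. Then `sorting`. File
`H67M4`. -/
theorem multiplicative {κ₁ κ₂ κ₃ : (Fin 3 → ℝ) → ℂ} {C₁ C₂ T₁ T₂ : ℝ} (h₁ : Adm κ₁ C₁ T₁)
    (h₂ : Adm κ₂ C₂ T₂)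
    (hconv : ∀ X Y : Fin 3 → H3, ∫ v : Fin 3 → H3, κ₁ (fun j => ch (X j) (v j)) *
      κ₂ (fun j => ch (v j) (Y j)) = κ₃ (fun j => ch (X j) (Y j))) (x y : H3) :
    ∫ v : H3, bk κ₁ x v * bk κ₂ v y = bk κ₃ x y :=
  bk_conv h₁ h₂ hconv x y

/-! ## 4. The base change of radial kernels -/

/-- **Convolution** of two radial kernels on `H3^J`: the kernel of the composed operator. It is again a
function of the distances (`H56ZRad3`). -/
theorem convolution {J : Type*} [Fintype J] (κ κ' : (J → ℝ) → ℂ) (w w' : J → H3) :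
    conv κ κ' (fun j => ch (w j) (w' j)) =
      ∫ v : J → H3, κ (fun j => ch (w j) (v j)) * κ' (fun j => ch (v j) (w' j)) :=
  conv_apply κ κ' w w'

/-- **The base change** `bF κ` of a radial kernel `κ` on `H3³` is a radial kernel on `H3`: its value at the
distance of `w` and `w'` is `bk κ w w'`. File `H67M5`. -/
theorem base_change {κ : (Fin 3 → ℝ) → ℂ} (hκ : IsRC κ) (w w' : Fin 1 → H3) (t : Fin 1 → ℝ) :
    bF κ t = bkr κ (t 0) ∧ bF κ (fun j => ch (w j) (w' j)) = bk κ (w 0) (w' 0) ∧ IsRC (bF κ) :=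
  ⟨rfl, bF_chv κ w w', isRC_bF hκ⟩

/-- **Scalars and real kernels**: `bF` commutes with the multiplication by a constant, and the base change of
a real kernel is real. File `H67M5`. -/
theorem base_change_scalars (κ : (Fin 3 → ℝ) → ℂ) (c : ℂ) (k : (Fin 3 → ℝ) → ℝ) :
    (bF (fun t => c * κ t) = fun t => c * bF κ t) ∧
      bF (fun t => (k t : ℂ)) = fun t => ((bkr k (t 0) : ℝ) : ℂ) :=
  ⟨bF_const_mul κ c, bF_ofReal k⟩

/-- **Symmetry**: the exchange of the last two variables of `κ` does not change `bk κ` and `bF κ` (swap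
lemma). File `H67M8`. -/
theorem symmetric (κ : (Fin 3 → ℝ) → ℂ) (x y : H3) :
    bk (fun t => κ fun j => t (Equiv.swap 1 2 j)) x y = bk κ x y ∧
      bF (fun t => κ fun j => t (Equiv.swap 1 2 j)) = bF κ :=
  ⟨bk_swap12 κ x y, bF_swap12 κ⟩

/-! ## 5. The matching at infinity -/

/-- **Archimedean matching** `InfMatch μE μF p kE kF` (`H57COrb`): integration along the fibres of `p` takes
`kE` to `kF`, tested with the measurable functions `h` with `0 ≤ h ≤ 1`, together with the corresponding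
inequality for absolute values. (Also `GuideOctCOrbital.infMatch_iff`.) -/
theorem matching_iff {HE HF : Type*} [MeasurableSpace HE] [MeasurableSpace HF] (μE : Measure HE)
    (μF : Measure HF) (p : HE → HF) (kE : HE → ℂ) (kF : HF → ℂ) :
    H57C.InfMatch μE μF p kE kF ↔ Measurable p ∧
      (∀ h : HF → ℝ, Measurable h → (∀ x, 0 ≤ h x) → (∀ x, h x ≤ 1) →
        Integrable (fun x => (h (p x) : ℂ) * kE x) μE →
        ∫ x, (h (p x) : ℂ) * kE x ∂μE = ∫ x, (h x : ℂ) * kF x ∂μF) ∧
      (∀ h : HF → ℝ, Measurable h → (∀ x, 0 ≤ h x) → (∀ x, h x ≤ 1) →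
        ∫⁻ x, ‖(h x : ℂ) * kF x‖ₑ ∂μF ≤ ∫⁻ x, ‖(h (p x) : ℂ) * kE x‖ₑ ∂μE) ∧ Measurable kF :=
  ⟨fun h => ⟨h.meas, h.int, h.norm, h.measF⟩, fun h => ⟨h.1, h.2.1, h.2.2.1, h.2.2.2⟩⟩

/-- **Change of variables** on the side of `E`. File `H67M8`. -/
theorem change_of_variables {HE HE' HF : Type*} [MeasurableSpace HE] [MeasurableSpace HE']
    [MeasurableSpace HF] {μE : Measure HE} {μE' : Measure HE'} {μF : Measure HF} {p : HE → HF}
    {p' : HE' → HF} {kE : HE → ℂ} {kE' : HE' → ℂ} {kF : HF → ℂ} (e : HE' ≃ᵐ HE)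
    (he : MeasurePreserving e μE' μE) (hp : ∀ x, p (e x) = p' x) (hk : ∀ x, kE (e x) = kE' x)
    (h : H57C.InfMatch μE μF p kE kF) : H57C.InfMatch μE' μF p' kE' kF :=
  infMatch_comp e he hp hk h

/-- **Matching of a cyclic kernel**: for `G_j` in `PGL₂(ℂ)` and `γ = G₀ G₁ G₂` the kernel
`κ(ch(x_j, G_j x_(j+1)))` on `H3³` is matched with `bF κ (ch(y, γ y))` on `H3`, `p` the first coordinate. From
`cyclic_integral`; the function `h` depends on `x₀` only. File `H67M7`. -/
theorem cyclic_matching {κ : (Fin 3 → ℝ) → ℂ} (hκ : IsRC κ) (G : Fin 3 → PGL(2, ℂ)) (γ : PGL(2, ℂ))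
    (hγ : γ = G 0 * G 1 * G 2) :
    H57C.InfMatch (volume : Measure (Fin 3 → H3)) (volume : Measure (Fin 1 → H3))
      (fun x => fun _ => x 0) (fun x => κ fun j => ch (x j) (G j • x (j + 1)))
      (fun y => bF κ fun j => ch (y j) (γ • y j)) :=
  infMatch_cyc hκ G γ hγ

/-- **The other direction of the rotation**: with `x_(j+2)` in place of `x_(j+1)` and `γ = G₀ G₂ G₁`. Exchange
the coordinates `1` and `2` and use `symmetric`. File `H67M8`. -/
theorem cyclic_matching_other_direction {κ : (Fin 3 → ℝ) → ℂ} (hκ : IsRC κ)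
    (G : Fin 3 → PGL(2, ℂ)) (γ : PGL(2, ℂ)) (hγ : γ = G 0 * G 2 * G 1) :
    H57C.InfMatch (volume : Measure (Fin 3 → H3)) (volume : Measure (Fin 1 → H3)) p0
      (fun x => κ fun j => ch (x j) (G j • x (j + 2)))
      (fun y => bF κ fun j => ch (y j) (γ • y j)) :=
  infMatch_cyc' hκ G γ hγ

/-- **The norm at the infinite place `0`.** `sP s` is the action of `s` on `PGL₂(E)`,
`nP s d = d s(d) s²(d)`; the embeddings are numbered such that `e_j = e_(j+1) ∘ s`. Then `e₀` takes the norm
of `d` to `e₀(d) e₂(d) e₁(d)`. File `H67M8`. -/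
theorem norm_at_infinity {F E : Type*} [Field F] [NumberField F] [Field E] [NumberField E]
    [Algebra F E] (s : E ≃ₐ[F] E) (e : Fin 3 → E →+* ℂ) (hes : ∀ j x, e j x = e (j + 1) (s x))
    (d : PGL(2, E)) :
    nP s d = d * sP s d * sP s (sP s d) ∧
      ProjGenLinGroup.map (e 0) (nP s d) = ProjGenLinGroup.map (e 0) d *
        ProjGenLinGroup.map (e 2) d * ProjGenLinGroup.map (e 1) d :=
  ⟨rfl, map_nP' s e hes d⟩

/-- **Projection and action**: the first coordinate `p0 : H3³ → H3` is compatible with the actions of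
`PGL₂(F)`, if the embedding of `F` is the restriction of `e₀`. File `H67M7`. -/
theorem projection_equivariant {F E : Type*} [Field F] [NumberField F] [Field E] [NumberField E]
    [Algebra F E] (mE : Model E (Fin 3)) (mF : Model F (Fin 1))
    (he0 : mF.e 0 = (mE.e 0).comp (algebraMap F E)) (τ : PGL(2, F)) (x : Fin 3 → H3) :
    p0 (mE.actInf (incP E τ) x) = mF.actInf τ (p0 x) ∧ p0 x = fun _ => x 0 :=
  ⟨p0_actInf mE mF he0 τ x, rfl⟩

/-- **The result, as it is used on the geometric side** (hypothesis `hinf` of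
`GuideOctCOrbital.comparison_on_models`). Here `mE`, `mF` are the models of `GuideOctC` (embeddings and
levels), `mE.actInf d x` is `(e_j(d) x_j)_j`, and `aE.actInf x` is the action of `s`, `(s x)_(j+1) = x_j`. If
the norm of `d` is `γ ∈ PGL₂(F)`, then the kernel `κ(ch(x_j, e_j(d) (s x)_j))` is matched with
`bF κ (ch(y, γ y))` on `H3`. File `H67M8`. -/
theorem matching_on_models {F E : Type*} [Field F] [NumberField F] [Field E] [NumberField E]
    [Algebra F E] (s : E ≃ₐ[F] E) (mE : Model E (Fin 3)) (aE : AutData mE)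
    (hsE : ∀ x, aE.s x = s x) (hc : ∀ j, aE.c j = j + 1) (mF : Model F (Fin 1))
    (he0 : mF.e 0 = (mE.e 0).comp (algebraMap F E)) {κ : (Fin 3 → ℝ) → ℂ} (hκ : IsRC κ)
    (d : PGL(2, E)) (γ : PGL(2, F)) (hN : nP s d = incP E γ) :
    H57C.InfMatch (volume : Measure (Fin 3 → H3)) (volume : Measure (Fin 1 → H3)) p0
      (fun x => κ (Model.chJ x (mE.actInf d (aE.actInf x))))
      (fun x => bF κ (Model.chJ x (mF.actInf γ x))) :=
  infMatch' s mE aE hsE hc mF he0 hκ d γ hN

end Fermat.Agent.Guide.OctCInfinity
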