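import Fermat.Agent.H17CF
import Fermat.Agent.H79SCmp

/-!
# Guide, block (C) of S47: controlled kernels, twists, boundedness of the form, the family of `C`

Every theorem of this file is proved by citing a theorem of the library; nothing here is used by any
other file. Editor: helper17. Companion of `GuideOctC` (overview of block (C)) and `GuideOctCSpec`
(operators and the operator `C`). Related: `GuideTraceSteps` (cut-offs, automorphic kernels),
`GuideBoundedKernels` (mean value argument of section 3), `GuideOctCOperator` (the kernels of section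
4 step by step). All theorems are in the proof term of S47 and of no other statement.

1. Kernels `k(x, y)` on a space `X` with an action of a group `G`, which vanish outside a "band" around
   the diagonal: their automorphic kernels `K_k(x, y) = Σ_g k(x, g y)`, composition, boundedness,
   twists by an automorphism, and the trace integral, which is the passage from
   `spectral_side` (`GuideOctCSpec`, a double integral of two automorphic kernels) to
   `C.Geom` (`geom_iff` in `GuideOctC`, a single integral).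
2. The test kernels `κ ⊗ a` on the space `X = (H3)^J × X_f` of the model are controlled.
3. Why the form over `E` is bounded.
4. The family of test kernels of which the operator `C` consists: invariance under the automorphism,
   the matching family over `F`, the value on the given form.

Notes: NOTES.md [442] (sections 1, 2) and [443] (sections 3, 4).
-/

set_option autoImplicit false

open IsDedekindDomain HeightOneSpectrum WithZero NumberField Matrix MeasureTheory Set
open scoped MatrixGroups ComplexConjugate ENNReal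

noncomputable section

namespace Fermat.Agent.Guide.OctCKernels

open Fermat.Agent.H59XF Fermat.Agent.H59D Fermat.Agent.H51Z
open Fermat.Agent.H32Z (CutOff)
open Fermat.Agent.H17S (Coarse CK)

/-! ## 1. Controlled kernels

`G` is a countable group which acts on a measurable space `X` and preserves the measure `μ`; a cut-off
`c` is a function `c.χ ≥ 0` on `X` with `Σ_g c.χ(g x) = 1`, and integrals over `G \ X` are integrals
against `c.ν μ = c.χ μ`. `CutOff.autK G k x y` is `Σ_g k(x, g y)`. -/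

section Abstract

variable {G X : Type*} [Group G] [MulAction G X] [MeasurableSpace X] {μ : Measure X}
  {𝒞 : Coarse G μ} {k l : X → X → ℂ}

/-- **Bands.** A coarse structure `𝒞 : Coarse G μ` on `X` is a family of measurable subsets of `X × X`,
the bands. Their rows have bounded measure, they are closed under union, composition and transposition
(up to enlarging), and for given `p`, `q` only finitely many `(p, g q)`, `g` in `G`, are in a given
band. File `H17S1`. -/
theorem bands (𝒞 : Coarse G μ) :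
    (∀ S, 𝒞.C S → MeasurableSet S) ∧
    (∀ S, 𝒞.C S → ∃ V : ℝ, 0 ≤ V ∧ ∀ p, μ {q | (p, q) ∈ S} ≤ ENNReal.ofReal V) ∧
    (∀ S T, 𝒞.C S → 𝒞.C T → ∃ U, 𝒞.C U ∧ S ⊆ U ∧ T ⊆ U) ∧
    (∀ S T, 𝒞.C S → 𝒞.C T →
      ∃ U, 𝒞.C U ∧ ∀ p q r, (p, q) ∈ S → (q, r) ∈ T → (p, r) ∈ U) ∧
    (∀ S, 𝒞.C S → ∃ U, 𝒞.C U ∧ ∀ p q, (p, q) ∈ S → (q, p) ∈ U) ∧
    ∀ S, 𝒞.C S → ∀ p q, {g : G | (p, g • q) ∈ S}.Finite :=
  ⟨fun _ h => 𝒞.meas h, fun _ h => 𝒞.vol h, fun _ _ h h' => 𝒞.union h h',
    fun _ _ h h' => 𝒞.comp h h', fun _ h => 𝒞.symm h, fun _ h => 𝒞.fin h⟩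

/-- **Controlled kernels**: measurable, invariant under `G`, bounded, and zero outside a band. File
`H17S1`. -/
theorem controlled_iff : CK 𝒞 k ↔ Measurable (Function.uncurry k) ∧
    (∀ (g : G) p q, k (g • p) (g • q) = k p q) ∧ (∃ B : ℝ, 0 ≤ B ∧ ∀ p q, ‖k p q‖ ≤ B) ∧
    ∃ S, 𝒞.C S ∧ ∀ p q, k p q ≠ 0 → (p, q) ∈ S :=
  ⟨fun h => ⟨h.meas, h.inv, h.bdd, h.ctl⟩, fun h => ⟨h.1, h.2.1, h.2.2.1, h.2.2.2⟩⟩

/-- **The automorphic kernel** of a controlled kernel is a finite sum, and measurable. File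
`H17S2`. -/
theorem automorphic_kernel [Countable G] [MeasurableConstSMul G X] (hk : CK 𝒞 k) :
    (∀ p q, {g : G | k p (g • q) ≠ 0}.Finite) ∧
      Measurable (Function.uncurry (CutOff.autK G k)) :=
  ⟨hk.finite_supp, hk.measurable_autK⟩

variable [Countable G] [MeasurableConstSMul G X] [SMulInvariantMeasure G X μ] (c : CutOff G X)

/-- **Unfolding.** On invariant functions `f`, bounded on the rows of every band, the operator of the
automorphic kernel on `G \ X` is the operator of `k` on `X`. File `H17S2`. -/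
theorem unfolding (hk : CK 𝒞 k) {f : X → ℂ} (hf : Measurable f)
    (hb : ∀ S, 𝒞.C S → ∀ p, ∃ B : ℝ, 0 ≤ B ∧ ∀ q, (p, q) ∈ S → ‖f q‖ ≤ B)
    (hinv : ∀ (g : G) x, f (g • x) = f x) (x : X) :
    ∫ y, CutOff.autK G k x y * f y ∂(c.ν μ) = ∫ y, k x y * f y ∂μ :=
  hk.integral_autK c ⟨hf, hb⟩ hinv x

/-- **Composition.** The composition over `G \ X` of the automorphic kernels of `k` and `l` is the
automorphic kernel of the composition of `k` and `l` over `X`. File `H17S2`. -/
theorem composition (hk : CK 𝒞 k) (hl : CK 𝒞 l) (p r : X) :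
    CutOff.autK G (fun p r => ∫ q, k p q * l q r ∂μ) p r =
      ∫ q, CutOff.autK G k p q * CutOff.autK G l q r ∂(c.ν μ) :=
  H17S.autK_comp' c hk hl p r

omit [Countable G] in
/-- **Boundedness of a composition.** If the automorphic kernel of `k` is bounded, so is that of the
composition of `k` with a controlled kernel. So it is enough to make the automorphic kernel of the
operator `C` bounded: then the automorphic kernel of `C` times any Hecke operators, idempotents and
radial operators is bounded. File `H17S2`. -/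
theorem bounded_composition (hk : CK 𝒞 k) (hl : CK 𝒞 l)
    (h : ∃ B : ℝ, 0 ≤ B ∧ ∀ p q, ‖CutOff.autK G k p q‖ ≤ B) :
    ∃ B : ℝ, 0 ≤ B ∧ ∀ p q, ‖CutOff.autK G (fun p r => ∫ q, k p q * l q r ∂μ) p q‖ ≤ B :=
  H17S.Bd.comp_left hk hl h

/-- **Twists.** A twist `t : H17S.Tw G μ` is a measure preserving bijection `t.s` of `X` which is
semilinear for an automorphism `t.σ` of `G`. Integrals of invariant functions over `G \ X` do not
change. (Two cut-offs, here `χ` and `χ ∘ s⁻¹`, give the same integrals of invariant functions: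
`H94UCut`.) File `H17S2`. -/
theorem twist (t : H17S.Tw G μ) :
    (∀ (g : G) (x : X), t.s (g • x) = t.σ g • t.s x) ∧
      ∀ F : X → ℂ, Measurable F → (∀ (g : G) x, F (g • x) = F x) →
        ∫ x, F (t.s x) ∂(c.ν μ) = ∫ x, F x ∂(c.ν μ) :=
  ⟨t.smul, fun _ hF h => t.integral_comp c hF h⟩

/-- **The twisted operator.** The operator `f ↦ k (f ∘ s⁻¹)` on invariant functions has on `G \ X` the
kernel `K_k(x, s y)`. File `H17S2`. -/
theorem twisted_operator (t : H17S.Tw G μ) (hk : CK 𝒞 k) {f : X → ℂ} (hf : Measurable f)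
    (hinv : ∀ (g : G) x, f (g • x) = f x)
    (hb : ∀ S, 𝒞.C S → ∀ p, ∃ B : ℝ, 0 ≤ B ∧ ∀ q, (p, q) ∈ S → ‖f (t.s.symm q)‖ ≤ B) (x : X) :
    ∫ y, CutOff.autK G k x (t.s y) * f y ∂(c.ν μ) = ∫ y, k x y * f (t.s.symm y) ∂μ :=
  t.integral_autK c hk hf hinv ⟨hf.comp t.s.symm.measurable, hb⟩ x

/-- **The trace integral.** The trace of the composition of the operator of `k` with the operator of
`l` and the twist is `∬ K_k(x, y) K_l(y, s x)`; it is the integral of `K_{kl}(x, s x)`. File
`H17S2`. -/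
theorem trace_integral (t : H17S.Tw G μ) (hk : CK 𝒞 k) (hl : CK 𝒞 l) :
    ∫ x, ∫ y, CutOff.autK G k x y * CutOff.autK G l y (t.s x) ∂(c.ν μ) ∂(c.ν μ) =
      ∫ x, CutOff.autK G (fun p r => ∫ q, k p q * l q r ∂μ) x (t.s x) ∂(c.ν μ) :=
  t.trace_integral c hk hl

end Abstract

/-! ## 2. The model

`X = (H3)^J × X_f` with the group `PGL₂(K)`, that is `m.X` for a model `m : Model K J` (see `GuideOctC`);
`X_f` is `XF m.L.fam` for the family of levels `m.L.fam : LevelFam`, and `a : GlobKer m.L.fam` is a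
kernel `a.k` on it, the product of local kernels (`GuideOctCLevel`); `gs a x` is the finite set of the
`y` with `a.k x y ≠ 0`. `H5Z.chv v w` is the vector of the hyperbolic cosines of the distances of the
components of `v` and `w`. -/

section Model

variable {K : Type*} [Field K] [NumberField K] {J : Type*} [Fintype J] {m : Model K J}

/-- **The bands of the model**: the components at infinity have distance at most `arcosh R`, and the
finite components satisfy a relation `A` for which every `x` has at most `n` partners and conversely.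
(That only finitely many `g` in `PGL₂(K)` move a point into a given row is the discreteness of the
action, `H58PD*`.) File `H17S3`. -/
theorem bands_of_model (S : Set (m.X × m.X)) :
    (H17S.coarse m).C S ↔ ∃ (R : ℝ) (A : XF m.L.fam → XF m.L.fam → Prop),
      (∃ n : ℕ, ∀ x, {y | A x y}.encard ≤ n) ∧ (∃ n : ℕ, ∀ y, {x | A x y}.encard ≤ n) ∧
        S = {z | (∀ j, H3.ch (z.1.1 j) (z.2.1 j) ≤ R) ∧ A z.1.2 z.2.2} :=
  ⟨fun ⟨R, A, hA, h⟩ => ⟨R, A, hA.row, hA.col, h⟩, fun ⟨R, A, h1, h2, h⟩ => ⟨R, A, ⟨h1, h2⟩, h⟩⟩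

/-- **Global kernels are bounded**: the number of the `y` with `a(x, y) ≠ 0`, the values `|a(x, y)|` and
their sum over `y` are bounded independently of `x`. File `H17S3`. -/
theorem global_kernels {G : Type*} [Group G] {ι : Type*} {L : LevelFam G ι} (a : GlobKer L) :
    (∃ n : ℕ, ∀ x, {y | a.k x y ≠ 0}.encard ≤ n) ∧ (∃ B : ℝ, 0 ≤ B ∧ ∀ x y, ‖a.k x y‖ ≤ B) ∧
      ∃ C : ℝ, 0 ≤ C ∧ ∀ x, ∑ y ∈ gs a x, ‖a.k x y‖ ≤ C :=
  ⟨H17S.exists_row_card a, H17S.exists_norm_k_le a, H17S.exists_row_sum a⟩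

/-- **Product kernels.** The kernel of a radial kernel `κ` (continuous, bounded, of bounded support:
`IsRC`) and a global kernel `a` is `κ(chv) a`, and it is controlled. File `H17S3`. -/
theorem product_kernels {κ : (J → ℝ) → ℂ} (hκ : H56Z.IsRC κ) (a : GlobKer m.L.fam) :
    (∀ p q : m.X, m.ker κ a.k p q = κ (H5Z.chv p.1 q.1) * a.k p.2 q.2) ∧
      CK (H17S.coarse m) (m.ker κ a.k) :=
  ⟨fun _ _ => rfl, H17S.ck_ker hκ a⟩

/-- **Composition of product kernels**: convolution of the radial kernels, product of the global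
kernels. File `H17S3`. -/
theorem composition_of_product_kernels (κ κ' : (J → ℝ) → ℂ) (a b : GlobKer m.L.fam)
    (p r : m.X) :
    ∫ q, m.ker κ a.k p q * m.ker κ' b.k q r ∂m.μ = m.ker (H56Z.conv κ κ') (gmul a b).k p r :=
  congrFun (congrFun (H17S.comp_ker κ κ' a b) p) r

/-- **Action of a product kernel** on functions which are measurable and bounded on the rows of the
bands: first the radial operator, then the finite one; and the two operators commute. File
`H17S3`. -/
theorem action_of_product_kernel {κ : (J → ℝ) → ℂ} (hκ : H56Z.IsRC κ) (a : GlobKer m.L.fam)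
    {φ : m.X → ℂ} (hφ : H17S.LB (H17S.coarse m) φ) (p : m.X) :
    ∫ q, m.ker κ a.k p q * φ q ∂m.μ =
        ∑ y ∈ gs a p.2, a.k p.2 y * ∫ v, κ (H5Z.chv p.1 v) * φ (v, y) ∧
      ∫ v, κ (H5Z.chv p.1 v) * ∑ y ∈ gs a p.2, a.k p.2 y * φ (v, y) =
        ∑ y ∈ gs a p.2, a.k p.2 y * ∫ v, κ (H5Z.chv p.1 v) * φ (v, y) :=
  ⟨congrFun (H17S.act_ker hκ a hφ) p, congrFun (H17S.RI_gX hκ a hφ) p⟩

/-- **The automorphism of the model** (`a : AutData m`, see `GuideOctCSetup`) is a twist `twOf a`: its
action `a.act` on `X` preserves the measure and is semilinear for the automorphism `AutData.pmap a.s` of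
`PGL₂(K)` induced by the automorphism `a.s` of `K`. File `H17S4`. -/
theorem automorphism_is_twist (a : AutData m) : (∀ x : m.X, (H17S.twOf a).s x = a.act x) ∧
    (∀ (g : PGL(2, K)) (x : m.X), a.act (g • x) = AutData.pmap a.s g • a.act x) ∧
      MeasurePreserving a.act m.μ m.μ :=
  ⟨fun _ => rfl, (H17S.twOf a).smul, (H17S.twOf a).mp⟩

/-! ## 3. The form over `E` is bounded

`ct0 f x` is the constant term of the function `f` on `(H3)^J` at `x` (mean over the horosphere, see
`mean_eq_mean` in `GuideOctCSpec`); `H39Z.LB` means measurable and bounded on compact sets. That the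
operator `C` kills constant terms is proved step by step in `GuideConstantTerms`. -/

/-- **Constant terms and periods.** For a finite subset `Y` of `X_f` there is a bound `δ` such that for
every invariant `F`, locally bounded, without constant terms above `Y`, and every point of `Y` there
is a set `P` of translations (a period parallelepiped) of positive measure in the ball of radius `δ`
with vanishing integral of `F` over the translates by `P` of any point. In this form (`H95S.Cusp`) the
vanishing is used in the mean value argument of `GuideTrace`. File `H17B1`. -/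
theorem periods_of_constant_terms (m : Model K J) (Y : Finset (XF m.L.fam)) :
    ∃ δ : ℝ, ∀ F : m.X → ℂ, (∀ (g : PGL(2, K)) x, F (g • x) = F x) →
      (∀ y : XF m.L.fam, H39Z.LB fun x : J → H3 => F (x, y)) →
      (∀ y ∈ Y, ∀ x, H39Z.ct0 (fun x => F (x, y)) x = 0) →
        ∀ η ∈ (Y : Set (XF m.L.fam)), ∃ P : Set (J → ℂ), MeasurableSet P ∧ 0 < volume P ∧
          (∀ u ∈ P, ∀ j, ‖u j‖ ≤ δ) ∧ ∀ w, ∫ u in P, F (H95S.tr u w, η) = 0 :=
  H17S.cusp_of_ct0 m Y

/-- **Eigenfunctions of `C` have no constant terms.** If the operator `Σ_i f_i κ_i` of a finite family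
kills the constant terms of all invariant functions (`constantTerms_E` in `GuideOctCSpec`) and `Φ` is
an eigenfunction of it with eigenvalue `c ≠ 0`, then `Φ` has no constant terms. File `H17B2`. -/
theorem no_constant_terms {I : Type*} {s : Finset I} {κ : I → (J → ℝ) → ℂ}
    {f : I → GlobKer m.L.fam}
    (h5 : ∀ Φ : m.X → ℂ, (∀ (g : PGL(2, K)) x, Φ (g • x) = Φ x) →
      (∀ y : XF m.L.fam, H39Z.LB fun x : J → H3 => Φ (x, y)) → ∀ (y : XF m.L.fam) (x : J → H3),
        H39Z.ct0 (fun x => H17S.opF s κ f Φ (x, y)) x = 0)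
    {Φ : m.X → ℂ} (hlb : ∀ y : XF m.L.fam, H39Z.LB fun x : J → H3 => Φ (x, y))
    (hinv : ∀ (g : PGL(2, K)) x, Φ (g • x) = Φ x) {c : ℂ} (hc : c ≠ 0)
    (heig : ∀ x : m.X, ∑ i ∈ s, ∑ y ∈ gs (f i) x.2,
      (f i).k x.2 y * ∫ v, κ i (H5Z.chv x.1 v) * Φ (v, y) = c * Φ x)
    (y : XF m.L.fam) (x : J → H3) : H39Z.ct0 (fun x => Φ (x, y)) x = 0 :=
  H17S.zct_of_eig h5 hlb hinv hc heig y x

/-- **Cuspidal eigenfunctions are bounded.** An invariant function of moderate growth without constant
terms which is an eigenfunction, with eigenvalue `c ≠ 0`, of ONE radial kernel with the Lipschitz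
property is bounded. (Every application of the kernel lowers the exponent of growth by `1/#J`, then
reduction theory: `bounded_of_eigenfunction` in `GuideTrace`.) File `H17B2`. -/
theorem bounded_of_one_radial_kernel {a : (J → ℝ) → ℂ} {T L M : ℝ} (hT : 1 ≤ T) (hL : 0 ≤ L)
    (ha0 : ∀ t, (∃ j, T < t j) → a t = 0)
    (halip : ∀ t t', ‖a t - a t'‖ ≤ L * ∑ j, |t j - t' j|) (haM : ∀ t, ‖a t‖ ≤ M)
    {Φ : m.X → ℂ} (hlb : ∀ y : XF m.L.fam, H39Z.LB fun x : J → H3 => Φ (x, y))
    (hinv : ∀ (g : PGL(2, K)) x, Φ (g • x) = Φ x)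
    (hgrow : ∀ y : XF m.L.fam, ∃ A : ℝ, ∀ c > 0, ∃ M : ℝ, ∀ w : J → H3, (∀ j, c ≤ (w j).y) →
      ‖Φ (w, y)‖ ≤ M * (∏ j, (w j).y) ^ A)
    {c : ℂ} (hc : c ≠ 0)
    (heig : ∀ x : m.X, ∫ v, a (H5Z.chv x.1 v) * Φ (v, x.2) = c * Φ x)
    (hz : ∀ (y : XF m.L.fam) (x : J → H3), H39Z.ct0 (fun x => Φ (x, y)) x = 0) :
    ∃ B : ℝ, ∀ x, ‖Φ x‖ ≤ B :=
  H17S.bounded_of_radial ⟨hT, hL, ha0, halip, haM⟩ hlb hinv hgrow hc heig hz

end Model

/-! `C : CSetup F E` is a cubic setup with the models `C.mF` and `C.mE` (`GuideOctCSetup`).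
`C.kE.D.mono n 0` is the global kernel of the Hecke monomial `∏ T_w^{n(w)}`, with the idempotents of
the types at the bad places (`monomials` in `GuideOctCLevel`), `C.tkE κ n 0` its product with the radial
kernel `κ`, and `C.tkB κ n 0` the matching kernel over `F` (see `geom_iff` in `GuideOctC`). -/

section Form

open Fermat.Agent.H79S

variable {F E : Type} [Field F] [NumberField F] [Field E] [NumberField E] [Algebra F E]

/-- **Eigenvalues of the form over `E`.** The given form (`isEForm_iff` in `GuideOctCTarget`) is an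
eigenfunction of the radial kernels, with eigenvalue `hat κ`, and of the Hecke monomials at the
allowed places, with eigenvalue `∏ (√(N w) a_w)^{n(w)}`. File `H17B2`. -/
theorem eigenvalues_of_form {C : CSetup F E} {a : HeightOneSpectrum (𝓞 E) → ℝ}
    {Φ : C.mE.X → ℂ} (h : IsEForm C a Φ) {κ : (Fin 3 → ℝ) → ℂ} (hκ : H56Z.IsRC κ)
    {n : HeightOneSpectrum (𝓞 E) →₀ ℕ} (hn : ∀ w ∈ n.support, C.Ok w) (x : C.mE.X) :
    ∫ v, κ (H5Z.chv x.1 v) * Φ (v, x.2) = H9Z.hat κ * Φ x ∧
      ∑ y ∈ gs (C.kE.D.mono n 0) x.2, (C.kE.D.mono n 0).k x.2 y * Φ (x.1, y) =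
        (n.prod fun w k => ((Real.sqrt (Ideal.absNorm w.asIdeal) * a w : ℝ) : ℂ) ^ k) * Φ x :=
  ⟨H17S.eform_RI h hκ x, H17S.eform_gX h hn x⟩

/-- **The form over `E` is bounded** (needed to see it in the spectrum of an integral operator with
bounded kernel on a space of finite measure). If the operator of a family kills constant terms and
acts on `Φ` by a number `≠ 0`, then `Φ` has no constant terms, and it is an eigenfunction of every
radial kernel `b`, so `bounded_of_one_radial_kernel` applies. File `H17B2`. -/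
theorem form_is_bounded {C : CSetup F E} {a : HeightOneSpectrum (𝓞 E) → ℝ} {Φ : C.mE.X → ℂ}
    (h : IsEForm C a Φ) {I : Type*} {s : Finset I} {κ : I → (Fin 3 → ℝ) → ℂ}
    {n : I → HeightOneSpectrum (𝓞 E) →₀ ℕ} (hκ : ∀ i ∈ s, H56Z.IsRC (κ i))
    (hn : ∀ i ∈ s, ∀ w ∈ (n i).support, C.Ok w)
    (h5 : ∀ Φ : C.mE.X → ℂ, (∀ (g : PGL(2, E)) x, Φ (g • x) = Φ x) →
      (∀ y : XF C.mE.L.fam, H39Z.LB fun x : Fin 3 → H3 => Φ (x, y)) →
        ∀ (y : XF C.mE.L.fam) (x : Fin 3 → H3),
          H39Z.ct0 (fun x => H17S.opF s κ (fun i => C.kE.D.mono (n i) 0) Φ (x, y)) x = 0)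
    (hv : ∑ i ∈ s, H9Z.hat (κ i) * (n i).prod (fun w k =>
      ((Real.sqrt (Ideal.absNorm w.asIdeal) * a w : ℝ) : ℂ) ^ k) ≠ 0)
    {b : (Fin 3 → ℝ) → ℂ} {T L M : ℝ} (hT : 1 ≤ T) (hL : 0 ≤ L)
    (hb0 : ∀ t, (∃ j, T < t j) → b t = 0)
    (hblip : ∀ t t', ‖b t - b t'‖ ≤ L * ∑ j, |t j - t' j|) (hbM : ∀ t, ‖b t‖ ≤ M)
    (hb : H9Z.hat b ≠ 0) : ∃ B : ℝ, ∀ x, ‖Φ x‖ ≤ B :=
  H17S.bounded_eform h hκ hn h5 hv ⟨hT, hL, hb0, hblip, hbM⟩ hb

/-! ## 4. The family of the operator `C`

`w_0, w_1, w_2` are three allowed places of `E` over one place `v` of `F`, permuted cyclically by the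
automorphism (`auxiliary_prime` in `GuideOctC`), `k_n` kernels in one variable (`exists_kernels` in
`GuideOctCSpec`). For a monomial `i` of the aleph polynomial, with exponents `i(inl j)` of the first
and `i(inr j)` of the last three variables, `fKE q k N i` is the radial kernel
`cf q i · k_{i(inr 0)} ⊗ k_{i(inr 1)} ⊗ k_{i(inr 2)}`, convolved `N` times with `k_0 ⊗ k_0 ⊗ k_0`, where
`cf q i` is the coefficient of `i` in the aleph polynomial `H59K.al` times `q^{-Σ_j i(inl j)/2}`, and
`nE w i` is the multi-index `Σ_j i(inl j) w_j`. -/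

omit [NumberField E] in
/-- **The family**, written out: the index set, the radial kernels and the multi-indices. File
`H17CFam`. -/
theorem family (q : ℝ) (k : ℕ → ℝ → ℝ) (N : ℕ) (i : H59K.Ix)
    (w : Fin 3 → HeightOneSpectrum (𝓞 E)) :
    (i ∈ H59K.ixs ↔ MvPolynomial.coeff i H59K.al ≠ 0) ∧
    H17S.fKE q k N i = (fun κ' => H56Z.conv (fun t => ((∏ j, k 0 (t j) : ℝ) : ℂ)) κ')^[N]
      (fun t => ((((MvPolynomial.coeff i H59K.al : ℤ) : ℝ) *
        ((Real.sqrt q)⁻¹) ^ (∑ j, i (Sum.inl j)) : ℝ) : ℂ) *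
          ((∏ j, k (i (Sum.inr j)) (t j) : ℝ) : ℂ)) ∧
    H59K.nE w i = ∑ j, Finsupp.single (w j) (i (Sum.inl j)) :=
  ⟨MvPolynomial.mem_support_iff, rfl, rfl⟩

/-- **The matching family over `F`**: the sum of the matching kernels is the sum over the same
monomials `i` of the kernels `H59K.kF q k i`, convolved `3 N` times with `k_0` (`H59K.k1 k` is `k` as a
kernel on `Fin 1 → ℝ`), times the Hecke monomial at the single place `v` with the total exponent. Here
`kF q k i` is `bF` of the radial kernel before smoothing, that is `cf q i` times the convolution of the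
three `k_{i(inr j)}` (`bF` maps `κ₁ ⊗ κ₂ ⊗ κ₃` to `κ₁ * κ₂ * κ₃`, see `matching_infinity` in
`GuideOctCGeom`). File `H17CFam`. -/
theorem family_over_F (C : CSetup F E) {w : Fin 3 → HeightOneSpectrum (𝓞 E)}
    {v : HeightOneSpectrum (𝓞 F)} (q : ℝ) {k : ℕ → ℝ → ℝ} (hk : ∀ i, H59K.IsK1 (k i)) (N : ℕ)
    (hwv : ∀ j, H47.below F (w j) = v) (x y : C.mF.X) :
    ∑ i : H17S.IxS, C.tkB (H17S.fKE q k N i) (H59K.nE w i) 0 x y =
      ∑ i ∈ H59K.ixs, C.mF.ker ((fun κ' => H56Z.conv (H59K.k1 (k 0)) κ')^[3 * N] (H59K.kF q k i))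
        (C.kF.D.mono (H59K.nE (fun _ => v) i) 0).k x y :=
  congrFun (congrFun (H17S.sumB C q hk N hwv) x) y

/-- **Invariance.** The sum of the test kernels over `E` is invariant under the automorphism of
`X(E)`: the automorphism permutes the places `w_j` and the infinite places, and the aleph polynomial
is symmetric in the first three and in the last three variables. File `H17CFam`; the steps are in
`GuideOctCOperator`: transport of the Hecke monomials (section 2, file `H59K4`), symmetry of the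
polynomial and of the radial kernels (section 5, files `H80Al`, `H59K1`). -/
theorem family_invariant (C : CSetup F E) {w : Fin 3 → HeightOneSpectrum (𝓞 E)}
    (hσ : ∀ j, C.aE.σ (w j) = w (j + 1)) (q : ℝ) (k : ℕ → ℝ → ℝ) (N : ℕ) (x y : C.mE.X) :
    ∑ i : H17S.IxS, C.tkE (H17S.fKE q k N i) (H59K.nE w i) 0 (C.aE.act x) (C.aE.act y) =
      ∑ i : H17S.IxS, C.tkE (H17S.fKE q k N i) (H59K.nE w i) 0 x y :=
  H17S.s_invE C hσ q k N x y

/-- **The value on the given form is not zero**: `hat` is multiplicative for convolutions, the value of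
`k_n` at spectral parameter `0` is `2^n h`, and the eigenvalues at the `w_j` are `0`; so the sum is
`h^{3(N + 1)}` times the value `P(0, 0, 0; 2, 2, 2)` of the aleph polynomial (`value_ne_zero` in
`GuideOctCSpec`). File `H17CFam`. -/
theorem family_value {w : Fin 3 → HeightOneSpectrum (𝓞 E)} {a : HeightOneSpectrum (𝓞 E) → ℝ}
    (q : ℝ) {k : ℕ → ℝ → ℝ} (hk : ∀ i, H59K.IsK1 (k i)) {h : ℂ} (hh : h ≠ 0)
    (hv : ∀ i : Fin 3 → ℕ, H9Z.hat (fun t : Fin 3 → ℝ => ((∏ j, k (i j) (t j) : ℝ) : ℂ)) =
      ∏ j, (2 ^ i j * h))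
    (ha : ∀ j, a (w j) = 0) (N : ℕ) :
    ∑ i ∈ H59K.ixs, H9Z.hat (H17S.fKE q k N i) * (H59K.nE w i).prod (fun w k =>
      ((Real.sqrt (Ideal.absNorm w.asIdeal) * a w : ℝ) : ℂ) ^ k) ≠ 0 :=
  H17S.sum_evP_ne q hk hh (fun i =>
    (H56Z.hat_eq_khat0 (H59K.isRC_tn fun j => hk (i j))).symm.trans (hv i)) ha N

end Form

end Fermat.Agent.Guide.OctCKernels
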