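import Fermat.Agent.H51ZDisc
import Fermat.Agent.H83ZInst2

/-!
# The Iwahori subgroups of `H83ZInst2` and `H51ZIw` agree (helper51, C-HECKE of S47)
-/

set_option autoImplicit false

noncomputable section

open scoped Classical MatrixGroups WithZero
open IsDedekindDomain HeightOneSpectrum

namespace Fermat.Agent.H51Z

open Fermat.Agent.H59XF Matrix

variable {R : Type*} [CommRing R] [IsDedekindDomain R] {K : Type*} [Field K] [Algebra R K]
  [IsFractionRing R K]

theorem Iw_eq (w : HeightOneSpectrum R) : H83Z.Iw (K := K) w = Iw (w.valuation K) := by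
  ext x
  constructor
  · rintro ⟨g, ⟨hg, h10⟩, rfl⟩
    have hg1 := hg.1
    have hg2 := hg.2
    rw [mk_mem_Iw]
    have h10' : w.valuation K (g 1 0) < 1 := lt_one_iff.2 h10
    have hdet : w.valuation K (GeneralLinearGroup.det g : K) = 1 := by
      rw [GeneralLinearGroup.val_det_apply]; exact hg2
    have h1 : w.valuation K (g 0 0 * g 1 1) = 1 := by
      have e : g 0 0 * g 1 1 = (GeneralLinearGroup.det g : K) + g 0 1 * g 1 0 := by
        rw [det_two]; ring
      rw [e, Valuation.map_add_eq_of_lt_left, hdet]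
      rw [hdet, map_mul]
      calc w.valuation K (g 0 1) * w.valuation K (g 1 0) ≤ 1 * w.valuation K (g 1 0) := by
            gcongr; exact hg1 0 1
        _ < 1 := by rwa [one_mul]
    have h11 : w.valuation K (g 1 1) = 1 := by
      refine le_antisymm (hg1 1 1) ?_
      rw [← h1, map_mul]
      calc w.valuation K (g 0 0) * w.valuation K (g 1 1) ≤ 1 * w.valuation K (g 1 1) := by
            gcongr; exact hg1 0 0
        _ = w.valuation K (g 1 1) := one_mul _
    refine ⟨?_, ?_, ?_, ?_⟩
    · rw [h11]; exact hg1 0 0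
    · rw [h11]; exact hg1 0 1
    · rw [h11]; exact h10'
    · rw [h11, hdet]; simp
  · rintro ⟨g, rfl, g1, g2, g3, g4⟩
    have hp : 0 < w.valuation K (g 1 1) := lt_of_le_of_lt zero_le g3
    have hne : g 1 1 ≠ 0 := (Valuation.ne_zero_iff _).1 hp.ne'
    refine ⟨g * GeneralLinearGroup.scalar (Fin 2) (Units.mk0 _ hne)⁻¹, ⟨⟨fun i j => ?_, ?_⟩, ?_⟩,
      mk_mul_scalar' _ _⟩
    · rw [scalar_mul_apply, map_mul, Units.val_inv_eq_inv_val, map_inv₀, Units.val_mk0,
        ← div_eq_mul_inv]
      refine (div_le_one₀ hp).2 ?_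
      fin_cases i <;> fin_cases j
      · exact g1
      · exact g2
      · exact g3.le
      · exact le_rfl
    · rw [← GeneralLinearGroup.val_det_apply, det_mul_scalar, map_mul, g4,
        Units.val_inv_eq_inv_val, map_pow, map_inv₀, Units.val_mk0, one_mul, inv_pow,
        mul_inv_cancel₀ (pow_ne_zero 2 hp.ne')]
    · rw [scalar_mul_apply, map_mul, Units.val_inv_eq_inv_val, map_inv₀, Units.val_mk0,
        ← div_eq_mul_inv, ← lt_one_iff]
      exact (div_lt_one₀ hp).2 g3

end Fermat.Agent.H51Z
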