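import Fermat.Agent.H51ZIw

/-!
# `U0`-invariant functions at Iwahori level (helper51, C-HECKE of S47)

* `lop_Pker_inv` : `P φ = (q + 1) φ` for right `U0`-invariant `φ`;
* `lop_Pker_Wker_inv` : `P W φ = T φ` for right `U0`-invariant `φ` (sum over `repsT`);
* `lop_Uker`, `lop_Wker` : explicit formulas.

Everything for an arbitrary level family `L` with `L.U i = Iw v` (hypothesis `hL`).
-/

set_option autoImplicit false

noncomputable section

open scoped Classical MatrixGroups WithZero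

namespace Fermat.Agent.H51Z

open Fermat.Agent.H59XF Matrix

variable {K : Type*} [Field K] {v : Valuation K ℤᵐ⁰}

section Sub

variable {G : Type*} [Group G]

/-- Transport of `DC` along an equality of subgroups. -/
theorem DC.of_eq {H H' : Subgroup G} (e : H = H') {D : Set G} (h : DC H' D) : DC H D := e ▸ h

/-- Transport of `IsCosetReps` along an equality of subgroups. -/
theorem IsCosetReps.of_eq {H H' : Subgroup G} (e : H = H') {D : Set G} {R : Finset G}
    (h : IsCosetReps H' D R) : IsCosetReps H D R := e ▸ h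

/-- Transport of local kernels along an equality of subgroups. -/
def lcast {H H' : Subgroup G} (e : H = H') (κ : LocKer H') : LocKer H := e ▸ κ

@[simp] theorem lcast_rfl {H : Subgroup G} (κ : LocKer H) : lcast rfl κ = κ := rfl

theorem lcast_one {H H' : Subgroup G} (e : H = H') :
    lcast e (LocKer.one : LocKer H') = LocKer.one := by subst e; rfl

theorem lcast_mul {H H' : Subgroup G} (e : H = H') (κ κ' : LocKer H') :
    lcast e (LocKer.mul κ κ') = LocKer.mul (lcast e κ) (lcast e κ') := by subst e; rfl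

theorem lcast_ltr {H H' : Subgroup G} (e : H = H') (κ : LocKer H') :
    lcast e (ltr κ) = ltr (lcast e κ) := by subst e; rfl

theorem lcast_ladd {H H' : Subgroup G} (e : H = H') (κ κ' : LocKer H') :
    lcast e (ladd κ κ') = ladd (lcast e κ) (lcast e κ') := by subst e; rfl

theorem lcast_lsmul {H H' : Subgroup G} (e : H = H') (c : ℂ) (κ : LocKer H') :
    lcast e (lsmul c κ) = lsmul c (lcast e κ) := by subst e; rfl

theorem lcast_lind {H H' : Subgroup G} (e : H = H') {D : Set G} (h : DC H' D) :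
    lcast e (lind D h) = lind D (h.of_eq e) := by subst e; rfl

theorem lcast_k {H H' : Subgroup G} (e : H = H') (κ : LocKer H') (g g' : G) :
    (lcast e κ).k (g : G ⧸ H) (g' : G ⧸ H) = κ.k (g : G ⧸ H') (g' : G ⧸ H') := by
  subst e; rfl

end Sub

variable {ι : Type*} {L : LevelFam PGL(2, K) ι} {E : Type*} [AddCommGroup E] [Module ℂ E]

/-- `φ` is invariant under right translation by `U0 v` at the place `i`. -/
def RInv (v : Valuation K ℤᵐ⁰) (L : LevelFam PGL(2, K) ι) (i : ι) (φ : XF L → E) : Prop :=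
  ∀ (x : XF L) (g u : PGL(2, K)), u ∈ U0 v →
    φ (XF.upd x i ((g * u : PGL(2, K)) : PGL(2, K) ⧸ L.U i)) =
      φ (XF.upd x i ((g : PGL(2, K)) : PGL(2, K) ⧸ L.U i))

variable {i : ι} (hL : L.U i = Iw v)

theorem lop_lcast_lind {D : Set PGL(2, K)} (h : DC (Iw v) D) {R : Finset PGL(2, K)}
    (hR : IsCosetReps (Iw v) D R) (φ : XF L → E) (x : XF L) (g : PGL(2, K))
    (hg : x i = (g : PGL(2, K) ⧸ L.U i)) :
    lop i (lcast hL (lind D h)) φ x =
      ∑ r ∈ R, φ (XF.upd x i ((g * r : PGL(2, K)) : PGL(2, K) ⧸ L.U i)) := by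
  rw [lcast_lind]
  exact lop_lind i _ (hR.of_eq hL) φ x g hg

/-- The operator `W`. -/
theorem lop_Wker {π : Kˣ} (hπ : v (π : K) = WithZero.exp (-1 : ℤ)) (φ : XF L → E) (x : XF L)
    (g : PGL(2, K)) (hg : x i = (g : PGL(2, K) ⧸ L.U i)) :
    lop i (lcast hL (Wker hπ)) φ x =
      φ (XF.upd x i ((g * W π : PGL(2, K)) : PGL(2, K) ⧸ L.U i)) := by
  rw [Wker, lop_lcast_lind hL _ isCosetReps_W φ x g hg, Finset.sum_singleton]

/-- The operator `U ^ m`. -/
theorem lop_Uker (h : Disc v) (m : ℕ) {a : Kˣ} (ha : v (a : K) = WithZero.exp (-(m : ℤ)))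
    {B : Finset K} (hB : IsReps v m B) (φ : XF L → E) (x : XF L)
    (g : PGL(2, K)) (hg : x i = (g : PGL(2, K) ⧸ L.U i)) :
    lop i (lcast hL (Uker h m)) φ x =
      ∑ b ∈ B, φ (XF.upd x i ((g * ProjGenLinGroup.mk (bm a b) : PGL(2, K)) :
        PGL(2, K) ⧸ L.U i)) := by
  rw [Uker, lop_lcast_lind hL _ (isCosetReps_cellU ha hB) φ x g hg, repsU, Finset.sum_image]
  intro b hb b' hb' hbb
  have h2 : (ProjGenLinGroup.mk (bm a b))⁻¹ * ProjGenLinGroup.mk (bm a b') ∈ Iw v := by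
    rw [show ProjGenLinGroup.mk (bm a b) = ProjGenLinGroup.mk (bm a b') from hbb]
    simp
  rw [← map_inv, ← map_mul, mk_mem_Iw, bm_inv_mul_cell_iff, ha] at h2
  exact (hB.inj b' hb' b hb h2).symm

/-- `P φ = (q + 1) φ` for `U0`-invariant functions. -/
theorem lop_Pker_inv (h : Disc v) {φ : XF L → E} (hφ : RInv v L i φ) :
    lop i (lcast hL (Pker h)) φ = ((h.reps 1).card + 1 : ℂ) • φ := by
  have hR := isCosetReps_P h.v_pi (h.isReps 1)
  funext x
  obtain ⟨g, hg⟩ := QuotientGroup.mk_surjective (x i)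
  rw [Pker, lop_lcast_lind hL _ hR φ x g hg.symm, Pi.smul_apply]
  have h1 : ∀ r ∈ repsP h.pi (h.reps 1),
      φ (XF.upd x i ((g * r : PGL(2, K)) : PGL(2, K) ⧸ L.U i)) = φ x := by
    intro r hr
    rw [hφ x g r (hR.mem r hr), hg, XF.upd_self]
  rw [Finset.sum_congr rfl h1, Finset.sum_const, card_repsP h.v_pi (h.isReps 1),
    ← Nat.cast_smul_eq_nsmul ℂ]
  push_cast
  rfl

theorem Wdm_mem {π : Kˣ} : (ProjGenLinGroup.mk (dm π))⁻¹ * W π ∈ U0 v := by
  rw [W, ← map_inv, ← map_mul]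
  apply mk_mem_U0_of_mem
  have e00 : ((dm π)⁻¹ * wm π) 0 0 = 0 := by rw [dm_inv, mul_00]; simp
  have e01 : ((dm π)⁻¹ * wm π) 0 1 = 1 := by rw [dm_inv, mul_01]; simp
  have e10 : ((dm π)⁻¹ * wm π) 1 0 = 1 := by rw [dm_inv, mul_10]; simp
  have e11 : ((dm π)⁻¹ * wm π) 1 1 = 0 := by rw [dm_inv, mul_11]; simp
  have hd : (GeneralLinearGroup.det ((dm π)⁻¹ * wm π) : K) = -1 := by
    rw [det_two, e00, e01, e10, e11]; ring
  rw [mem_GU]
  generalize (dm π)⁻¹ * wm π = h at e00 e01 e10 e11 hd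
  refine ⟨fun i j => ?_, by rw [hd, Valuation.map_neg, map_one]⟩
  fin_cases i <;> fin_cases j
  · change v (h 0 0) ≤ 1; rw [e00]; simp
  · change v (h 0 1) ≤ 1; rw [e01]; simp
  · change v (h 1 0) ≤ 1; rw [e10]; simp
  · change v (h 1 1) ≤ 1; rw [e11]; simp

/-- `P W φ = T φ` for `U0`-invariant functions. -/
theorem lop_Pker_Wker_inv (h : Disc v) {φ : XF L → E} (hφ : RInv v L i φ) (x : XF L)
    (g : PGL(2, K)) (hg : x i = (g : PGL(2, K) ⧸ L.U i)) :
    lop i (lcast hL (Pker h)) (lop i (lcast hL (Wker h.v_pi)) φ) x =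
      ∑ r ∈ repsT h.pi (h.reps 1),
        φ (XF.upd x i ((g * r : PGL(2, K)) : PGL(2, K) ⧸ L.U i)) := by
  have hR := isCosetReps_P h.v_pi (h.isReps 1)
  have hR1 := isCosetReps_cellU (m := 1) (by rw [h.v_pi]; simp) (h.isReps 1)
  have hRT := isCosetReps_repsT h.v_pi (h.isReps 1)
  rw [Pker, lop_lcast_lind hL _ hR _ x g hg]
  have h1 : ∀ r ∈ repsP h.pi (h.reps 1),
      lop i (lcast hL (Wker h.v_pi)) φ (XF.upd x i ((g * r : PGL(2, K)) : PGL(2, K) ⧸ L.U i)) =
        φ (XF.upd x i ((g * r * W h.pi : PGL(2, K)) : PGL(2, K) ⧸ L.U i)) := by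
    intro r _
    rw [lop_Wker hL h.v_pi φ _ (g * r) (XF.upd_same _ _ _), XF.upd_upd]
  rw [Finset.sum_congr rfl h1]
  have hn1 : (1 : PGL(2, K)) ∉ (repsU h.pi (h.reps 1)).image (fun r => r * W h.pi) := by
    intro hmem
    obtain ⟨r, hr, hr1⟩ := Finset.mem_image.1 hmem
    have e1 : (WithZero.exp (-((1 : ℕ) : ℤ)) : ℤᵐ⁰) = WithZero.exp (-1 : ℤ) := by simp
    rw [e1] at hR1
    refine not_mem_both h.v_pi (Iw v).one_mem ?_
    rw [← hr1, W_mul_cancel_right]
    exact hR1.mem r hr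
  have hn2 : ProjGenLinGroup.mk (dm h.pi) ∉
      (h.reps 1).image (fun b => ProjGenLinGroup.mk (bm h.pi b)) := by
    intro hmem
    have hc := card_repsT h.v_pi (h.isReps 1)
    rw [repsT, Finset.insert_eq_of_mem hmem] at hc
    have := Finset.card_image_le (s := h.reps 1) (f := fun b => ProjGenLinGroup.mk (bm h.pi b))
    omega
  rw [repsP, Finset.sum_insert hn1, Finset.sum_image
    (by intro r _ r' _ hrr; exact mul_right_cancel hrr), repsT, Finset.sum_insert hn2]
  congr 1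
  · have e : g * 1 * W h.pi = g * ProjGenLinGroup.mk (dm h.pi) *
        ((ProjGenLinGroup.mk (dm h.pi))⁻¹ * W h.pi) := by group
    rw [e, hφ x _ _ Wdm_mem]
  · rw [repsU]
    apply Finset.sum_congr rfl
    intro r _
    have e : g * (r * W h.pi) * W h.pi = g * r := by
      rw [← mul_assoc, W_mul_cancel_right]
    rw [e]

theorem lop_Wker_sq {π : Kˣ} (hπ : v (π : K) = WithZero.exp (-1 : ℤ)) (φ : XF L → E) :
    lop i (lcast hL (Wker hπ)) (lop i (lcast hL (Wker hπ)) φ) = φ := by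
  rw [← lop_mul, ← lcast_mul, Wker_sq, lcast_one, lop_one]

/-- `U` in terms of `P` and `W` as operators: `U = P W - W`. -/
theorem lop_Uker_eq (h : Disc v) (φ : XF L → E) :
    lop i (lcast hL (Uker h 1)) φ =
      lop i (lcast hL (Pker h)) (lop i (lcast hL (Wker h.v_pi)) φ) -
        lop i (lcast hL (Wker h.v_pi)) φ := by
  have h1 : ∀ f : XF L → E, lop i (lcast hL (Pker h)) f =
      f + lop i (lcast hL (Uker h 1)) (lop i (lcast hL (Wker h.v_pi)) f) := by
    intro f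
    rw [Pker_eq, lcast_ladd, lcast_one, lcast_mul, lop_ladd, lop_one, lop_mul]
  rw [h1, lop_Wker_sq, add_sub_cancel_left]

/-- The stabilised function `φ₁ = φ - z⁻¹ W φ`: if `φ` is right `U0`-invariant, `P W φ = t φ` and
`z ^ 2 - t z + q = 0`, `z ≠ 0`, then `U φ₁ = z φ₁`. -/
theorem lop_Uker_stab (h : Disc v) {φ : XF L → E} (hφ : RInv v L i φ) {t z : ℂ} (hz : z ≠ 0)
    (ht : lop i (lcast hL (Pker h)) (lop i (lcast hL (Wker h.v_pi)) φ) = t • φ)
    (hq : z ^ 2 - t * z + (h.reps 1).card = 0) :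
    lop i (lcast hL (Uker h 1)) (φ - z⁻¹ • lop i (lcast hL (Wker h.v_pi)) φ) =
      z • (φ - z⁻¹ • lop i (lcast hL (Wker h.v_pi)) φ) := by
  have hU : ∀ f g : XF L → E, lop i (lcast hL (Uker h 1)) (f - g) =
      lop i (lcast hL (Uker h 1)) f - lop i (lcast hL (Uker h 1)) g := by
    intro f g
    rw [sub_eq_add_neg, lop_add, ← neg_one_smul ℂ g, lop_smul_const, neg_one_smul,
      ← sub_eq_add_neg]
  have h1 : lop i (lcast hL (Uker h 1)) φ = t • φ - lop i (lcast hL (Wker h.v_pi)) φ := by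
    rw [lop_Uker_eq, ht]
  have h2 : lop i (lcast hL (Uker h 1)) (lop i (lcast hL (Wker h.v_pi)) φ) =
      ((h.reps 1).card : ℂ) • φ := by
    rw [lop_Uker_eq, lop_Wker_sq, lop_Pker_inv hL h hφ, add_smul, one_smul, add_sub_cancel_right]
  rw [hU, lop_smul_const, h1, h2, smul_sub, smul_smul, smul_smul, mul_inv_cancel₀ hz, one_smul]
  have h3 : z = t - z⁻¹ * ((h.reps 1).card : ℂ) := by
    field_simp
    linear_combination hq
  have h4 : t • φ = (z + z⁻¹ * ((h.reps 1).card : ℂ)) • φ := by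
    congr 1
    linear_combination -h3
  rw [h4, add_smul]
  abel

end Fermat.Agent.H51Z
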