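import Fermat.Agent.H79SDef
import Fermat.Agent.H51ZPull
import Fermat.Agent.H51ZIwEq

/-!
# Local kernels given by their values; existence of the local kernels of block (C) (helper51, S47)

* `IsInd.dc`, `IsInd.eq_lind` : a local kernel whose values are those of an indicator function;
* `tker` : idempotent of a type; `IsTyp.eq_tker`, `IsTyp.mul_self`, `IsTyp.lop_eq_iff`;
* `exists_kerData`.
-/

set_option autoImplicit false
set_option linter.unusedSectionVars false

noncomputable section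

open scoped Classical MatrixGroups WithZero ComplexConjugate

namespace Fermat.Agent.H51Z

open Fermat.Agent.H59XF Fermat.Agent.H79S Matrix

/-! ### Kernels by their values -/

section Val

variable {G : Type*} [Group G] {H : Subgroup G}

theorem lext_mk {a b : LocKer H}
    (h : ∀ g g' : G, a.k (g : G ⧸ H) (g' : G ⧸ H) = b.k (g : G ⧸ H) (g' : G ⧸ H)) : a = b := by
  refine LocKer.ext' fun x y => ?_
  induction x using QuotientGroup.induction_on with
  | H x =>
    induction y using QuotientGroup.induction_on with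
    | H y => exact h x y

theorem isInd_lind {D : Set G} (h : DC H D) : IsInd (lind D h) D := fun g g' =>
  ⟨fun hg => by rw [lind_k, if_pos hg], fun hg => by rw [lind_k, if_neg hg]⟩

theorem _root_.Fermat.Agent.H79S.IsInd.ne_zero_iff {κ : LocKer H} {D : Set G} (h : IsInd κ D)
    (g g' : G) : κ.k (g : G ⧸ H) (g' : G ⧸ H) ≠ 0 ↔ g⁻¹ * g' ∈ D := by
  constructor
  · intro h1
    by_contra h2
    exact h1 ((h g g').2 h2)
  · intro h1
    rw [(h g g').1 h1]
    exact one_ne_zero

theorem _root_.Fermat.Agent.H79S.IsInd.dc {κ : LocKer H} {D : Set G} (h : IsInd κ D) :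
    DC H D where
  left u hu g hg := by
    have h1 : ((u⁻¹ : G) : G ⧸ H) = ((1 : G) : G ⧸ H) := by
      rw [QuotientGroup.eq]; simpa using hu
    have h2 := (h.ne_zero_iff 1 g).2 (by simpa using hg)
    rw [← h1] at h2
    simpa using (h.ne_zero_iff u⁻¹ g).1 h2
  right u hu g hg := by
    have h1 : ((g * u : G) : G ⧸ H) = ((g : G) : G ⧸ H) := by
      rw [eq_comm, QuotientGroup.eq]; simpa using hu
    have h2 := (h.ne_zero_iff 1 g).2 (by simpa using hg)
    rw [← h1] at h2
    simpa using (h.ne_zero_iff 1 (g * u)).1 h2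
  finR := by
    refine ⟨(κ.fin_right ((1 : G) : G ⧸ H)).toFinset.image Quotient.out, fun g hg => ?_⟩
    have h2 := (h.ne_zero_iff 1 g).2 (by simpa using hg)
    refine ⟨Quotient.out ((g : G) : G ⧸ H), Finset.mem_image_of_mem _
      ((Set.Finite.mem_toFinset _).2 h2), ?_⟩
    rw [← QuotientGroup.eq]
    exact Quotient.out_eq' ((g : G) : G ⧸ H)
  finL := by
    refine ⟨(κ.fin_left ((1 : G) : G ⧸ H)).toFinset.image Quotient.out, fun g hg => ?_⟩
    have h2 := (h.ne_zero_iff g⁻¹ 1).2 (by simpa using hg)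
    refine ⟨Quotient.out ((g⁻¹ : G) : G ⧸ H), Finset.mem_image_of_mem _
      ((Set.Finite.mem_toFinset _).2 h2), ?_⟩
    rw [← QuotientGroup.eq]
    exact Quotient.out_eq' ((g⁻¹ : G) : G ⧸ H)

theorem _root_.Fermat.Agent.H79S.IsInd.eq_lind {κ : LocKer H} {D : Set G} (h : IsInd κ D) :
    κ = lind D h.dc := lext_mk fun g g' => by
  rw [lind_k]
  split_ifs with hg
  · exact (h g g').1 hg
  · exact (h g g').2 hg

theorem _root_.Fermat.Agent.H79S.IsInd.unique {κ κ' : LocKer H} {D : Set G} (h : IsInd κ D)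
    (h' : IsInd κ' D) : κ = κ' := by rw [h.eq_lind, h'.eq_lind]

theorem _root_.Fermat.Agent.H79S.IsInd.ltr {κ : LocKer H} {D : Set G} (h : IsInd κ D)
    (hD : ∀ g, g⁻¹ ∈ D ↔ g ∈ D) : ltr κ = κ := by
  rw [h.eq_lind, ltr_lind]
  exact lind_congr _ _ (Set.ext fun g => hD g)

theorem _root_.Fermat.Agent.H79S.IsInd.conj_k {κ : LocKer H} {D : Set G} (h : IsInd κ D)
    (x y : G ⧸ H) : conj (κ.k x y) = κ.k x y := by
  induction x using QuotientGroup.induction_on with
  | H x =>
    induction y using QuotientGroup.induction_on with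
    | H y =>
      by_cases hxy : x⁻¹ * y ∈ D
      · rw [(h x y).1 hxy, map_one]
      · rw [(h x y).2 hxy, map_zero]

end Val

/-! ### The idempotent of a type -/

section Typ

variable {G : Type*} [Group G] {U H : Subgroup G}

/-- Representatives of `H / U`. -/
theorem exists_repsH (hle : U ≤ H) (hidx : (U.subgroupOf H).index ≠ 0) :
    ∃ R : Finset G, IsCosetReps U (H : Set G) R ∧ R.card = (U.subgroupOf H).index := by
  have hfi : (U.subgroupOf H).FiniteIndex := ⟨hidx⟩
  have hfin : Finite (H ⧸ U.subgroupOf H) := Subgroup.finite_quotient_of_finiteIndex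
  have := Fintype.ofFinite (H ⧸ U.subgroupOf H)
  have hinj : Function.Injective (fun q : H ⧸ U.subgroupOf H => ((Quotient.out q : H) : G)) := by
    intro q q' hq
    have h1 : (Quotient.out q : H) = Quotient.out q' := Subtype.ext hq
    rw [← Quotient.out_eq' q, ← Quotient.out_eq' q', h1]
  refine ⟨(Finset.univ : Finset (H ⧸ U.subgroupOf H)).image
    (fun q => ((Quotient.out q : H) : G)), ⟨?_, ?_, ?_⟩, ?_⟩
  · intro r hr
    obtain ⟨q, -, rfl⟩ := Finset.mem_image.1 hr
    exact (Quotient.out q : H).2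
  · intro g hg
    refine ⟨_, Finset.mem_image_of_mem _
      (Finset.mem_univ (((⟨g, hg⟩ : H) : H ⧸ U.subgroupOf H))), ?_⟩
    have h1 : ((Quotient.out (((⟨g, hg⟩ : H) : H ⧸ U.subgroupOf H)) : H) : H ⧸ U.subgroupOf H) =
        ((⟨g, hg⟩ : H) : H ⧸ U.subgroupOf H) := Quotient.out_eq' _
    rw [QuotientGroup.eq, Subgroup.mem_subgroupOf] at h1
    exact h1
  · intro r hr r' hr' h1
    obtain ⟨q, -, rfl⟩ := Finset.mem_image.1 hr
    obtain ⟨q', -, rfl⟩ := Finset.mem_image.1 hr'
    have h2 : ((Quotient.out q : H) : H ⧸ U.subgroupOf H) =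
        ((Quotient.out q' : H) : H ⧸ U.subgroupOf H) := by
      rw [QuotientGroup.eq, Subgroup.mem_subgroupOf]
      exact h1
    have h3 : q = q' := by
      rw [← Quotient.out_eq' q, ← Quotient.out_eq' q']
      exact h2
    rw [h3]
  · refine (Finset.card_image_of_injective Finset.univ hinj).trans ?_
    rw [Finset.card_univ, Subgroup.index, Nat.card_eq_fintype_card]

theorem dc_H (hle : U ≤ H) (hidx : (U.subgroupOf H).index ≠ 0) : DC U (H : Set G) where
  left u hu g hg := H.mul_mem (hle hu) hg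
  right u hu g hg := H.mul_mem hg (hle hu)
  finR := by
    obtain ⟨R, hR, -⟩ := exists_repsH hle hidx
    exact ⟨R, fun g hg => hR.ex g hg⟩
  finL := by
    obtain ⟨R, hR, -⟩ := exists_repsH hle hidx
    exact ⟨R, fun g hg => hR.ex g⁻¹ (H.inv_mem hg)⟩

/-- Hypotheses on a type. -/
structure IsTy (U H : Subgroup G) (χ : G → ℂ) : Prop where
  le : U ≤ H
  mul : ∀ g ∈ H, ∀ h ∈ H, χ (g * h) = χ g * χ h
  one : ∀ u ∈ U, χ u = 1
  index : (U.subgroupOf H).index ≠ 0

namespace IsTy

variable {χ : G → ℂ} (h : IsTy U H χ)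

include h

theorem map_one' : χ 1 = 1 := h.one 1 U.one_mem

theorem ne_zero {g : G} (hg : g ∈ H) : χ g ≠ 0 := by
  intro h0
  have h1 := h.mul g hg g⁻¹ (H.inv_mem hg)
  rw [mul_inv_cancel, h.map_one', h0, zero_mul] at h1
  exact one_ne_zero h1

theorem map_inv {g : G} (hg : g ∈ H) : χ g⁻¹ = (χ g)⁻¹ := by
  have h1 := h.mul g hg g⁻¹ (H.inv_mem hg)
  rw [mul_inv_cancel, h.map_one'] at h1
  exact (eq_inv_of_mul_eq_one_right h1.symm)

theorem biinv {u w g : G} (hu : u ∈ U) (hw : w ∈ U) (hg : g ∈ H) : χ (u * g * w) = χ g := by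
  rw [h.mul _ (H.mul_mem (h.le hu) hg) _ (h.le hw), h.mul _ (h.le hu) _ hg, h.one u hu, h.one w hw,
    one_mul, mul_one]

end IsTy

/-- The idempotent of a type. -/
def tker {χ : G → ℂ} (h : IsTy U H χ) : LocKer U :=
  LocKer.ofFun (fun g => if g ∈ H then (χ g)⁻¹ / ((U.subgroupOf H).index : ℂ) else 0)
    (by
      intro u w g hu hw
      have h1 : u * g * w ∈ H ↔ g ∈ H := (dc_H h.le h.index).iff hu hw
      by_cases hg : g ∈ H
      · simp only [if_pos hg, if_pos (h1.2 hg), h.biinv hu hw hg]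
      · simp only [if_neg hg, if_neg (fun hh => hg (h1.1 hh))])
    (by
      obtain ⟨R, hR⟩ := (dc_H h.le h.index).finR
      refine (R.finite_toSet.image (fun r : G => (r : G ⧸ U))).subset ?_
      rintro y ⟨g, rfl, hg⟩
      have hg' : g ∈ H := by
        by_contra hne
        exact hg (if_neg hne)
      obtain ⟨r, hr, hrg⟩ := hR g hg'
      exact ⟨r, hr, (QuotientGroup.eq.2 hrg)⟩)
    (by
      obtain ⟨R, hR⟩ := (dc_H h.le h.index).finL
      refine (R.finite_toSet.image (fun r : G => (r : G ⧸ U))).subset ?_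
      rintro y ⟨g, rfl, hg⟩
      have hg' : g⁻¹ ∈ H := by
        by_contra hne
        exact hg (if_neg hne)
      obtain ⟨r, hr, hrg⟩ := hR _ hg'
      rw [inv_inv] at hrg
      exact ⟨r, hr, (QuotientGroup.eq.2 hrg)⟩)

theorem tker_k {χ : G → ℂ} (h : IsTy U H χ) (g g' : G) :
    (tker h).k (g : G ⧸ U) (g' : G ⧸ U) =
      if g⁻¹ * g' ∈ H then (χ (g⁻¹ * g'))⁻¹ / ((U.subgroupOf H).index : ℂ) else 0 := rfl

theorem isTyp_tker {χ : G → ℂ} (h : IsTy U H χ) : IsTyp (tker h) H χ := fun g g' =>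
  ⟨fun hg => by rw [tker_k, if_pos hg], fun hg => by rw [tker_k, if_neg hg]⟩

theorem _root_.Fermat.Agent.H79S.IsTyp.eq_tker {χ : G → ℂ} (h : IsTy U H χ) {κ : LocKer U}
    (hκ : IsTyp κ H χ) : κ = tker h := lext_mk fun g g' => by
  rw [tker_k]
  split_ifs with hg
  · exact (hκ g g').1 hg
  · exact (hκ g g').2 hg

theorem ls_tker {χ : G → ℂ} (h : IsTy U H χ) (x : G ⧸ U) :
    ls (tker h) x = ls (lind (H : Set G) (dc_H h.le h.index)) x := by
  ext y
  induction x using QuotientGroup.induction_on with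
  | H x =>
    induction y using QuotientGroup.induction_on with
    | H y =>
      rw [mem_ls, mem_ls, tker_k, lind_k]
      have hidx : (((U.subgroupOf H).index : ℕ) : ℂ) ≠ 0 := Nat.cast_ne_zero.2 h.index
      by_cases hxy : x⁻¹ * y ∈ H
      · have hne := h.ne_zero hxy
        rw [if_pos hxy, if_pos (show x⁻¹ * y ∈ (H : Set G) from hxy)]
        simp [hne, h.index]
      · rw [if_neg hxy, if_neg (show x⁻¹ * y ∉ (H : Set G) from hxy)]

variable {ι : Type*} {L : LevelFam G ι} {E : Type*} [AddCommGroup E] [Module ℂ E]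

/-- The operator of the idempotent in terms of representatives. -/
theorem lop_tker (i : ι) {χ : G → ℂ} (h : IsTy (L.U i) H χ) {R : Finset G}
    (hR : IsCosetReps (L.U i) (H : Set G) R) (f : XF L → E) (x : XF L) (g : G)
    (hg : x i = (g : G ⧸ L.U i)) :
    lop i (tker h) f x = ∑ r ∈ R, ((χ r)⁻¹ / (((L.U i).subgroupOf H).index : ℂ)) •
      f (XF.upd x i ((g * r : G) : G ⧸ L.U i)) := by
  rw [lop_def, ls_tker, hg,
    sum_ls_lind (dc_H h.le h.index) hR g (fun y => (tker h).k (g : G ⧸ L.U i) y •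
      f (XF.upd x i y))]
  refine Finset.sum_congr rfl fun r hr => ?_
  rw [tker_k, inv_mul_cancel_left, if_pos (show r ∈ H from hR.mem r hr)]

/-- A function is fixed by the idempotent if and only if it is typed. -/
theorem lop_tker_eq_iff (i : ι) {χ : G → ℂ} (h : IsTy (L.U i) H χ) (f : XF L → E) :
    lop i (tker h) f = f ↔ ∀ (x : XF L) (g k : G), k ∈ H →
      f (XF.upd x i ((g * k : G) : G ⧸ L.U i)) =
        χ k • f (XF.upd x i ((g : G) : G ⧸ L.U i)) := by
  obtain ⟨R, hR, hcard⟩ := exists_repsH h.le h.index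
  have hidx : (((((L.U i).subgroupOf H).index : ℕ)) : ℂ) ≠ 0 := Nat.cast_ne_zero.2 h.index
  constructor
  · intro hf x g k hk
    have h1 : ∀ (x : XF L) (g : G), x i = (g : G ⧸ L.U i) → f x =
        ∑ r ∈ R, ((χ r)⁻¹ / (((L.U i).subgroupOf H).index : ℂ)) •
          f (XF.upd x i ((g * r : G) : G ⧸ L.U i)) := by
      intro x g hg
      rw [← lop_tker i h hR f x g hg, hf]
    -- the coset representatives `k * r`
    have hR' : IsCosetReps (L.U i) (H : Set G) (R.image fun r => k * r) := by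
      refine ⟨?_, ?_, ?_⟩
      · intro r0 hr0
        obtain ⟨r, hr, rfl⟩ := Finset.mem_image.1 hr0
        exact H.mul_mem hk (hR.mem r hr)
      · intro g hg
        obtain ⟨r, hr, hrg⟩ := hR.ex (k⁻¹ * g) (H.mul_mem (H.inv_mem hk) hg)
        refine ⟨k * r, Finset.mem_image_of_mem _ hr, ?_⟩
        have : (k * r)⁻¹ * g = r⁻¹ * (k⁻¹ * g) := by group
        rw [this]; exact hrg
      · intro r0 hr0 r0' hr0' h2
        obtain ⟨r, hr, rfl⟩ := Finset.mem_image.1 hr0
        obtain ⟨r', hr', rfl⟩ := Finset.mem_image.1 hr0'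
        have : (k * r)⁻¹ * (k * r') = r⁻¹ * r' := by group
        rw [this] at h2
        rw [hR.inj r hr r' hr' h2]
    have h3 := lop_tker i h hR' f (XF.upd x i ((g : G) : G ⧸ L.U i)) g (XF.upd_same _ _ _)
    rw [hf, Finset.sum_image (fun r _ r' _ h => mul_left_cancel h)] at h3
    have h4 := h1 (XF.upd x i ((g * k : G) : G ⧸ L.U i)) (g * k) (XF.upd_same _ _ _)
    rw [h3, h4, Finset.smul_sum]
    refine Finset.sum_congr rfl fun r hr => ?_
    rw [XF.upd_upd, XF.upd_upd, smul_smul, mul_assoc, h.mul k hk r (hR.mem r hr)]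
    congr 1
    have := h.ne_zero hk
    have := h.ne_zero (hR.mem r hr)
    field_simp
  · intro hf
    funext x
    obtain ⟨g, hg⟩ := QuotientGroup.mk_surjective (x i)
    rw [lop_tker i h hR f x g hg.symm]
    have h1 : ∀ r ∈ R, ((χ r)⁻¹ / (((L.U i).subgroupOf H).index : ℂ)) •
        f (XF.upd x i ((g * r : G) : G ⧸ L.U i)) =
        (((((L.U i).subgroupOf H).index : ℕ)) : ℂ)⁻¹ • f x := by
      intro r hr
      rw [hf x g r (hR.mem r hr), hg, XF.upd_self, smul_smul]
      congr 1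
      have := h.ne_zero (hR.mem r hr)
      field_simp
    rw [Finset.sum_congr rfl h1, Finset.sum_const, hcard, ← Nat.cast_smul_eq_nsmul ℂ, smul_smul,
      mul_inv_cancel₀ hidx, one_smul]

/-- The values of the idempotent. -/
theorem tker_mul_self {χ : G → ℂ} (h : IsTy U H χ) :
    LocKer.mul (tker h) (tker h) = tker h := by
  obtain ⟨R, hR, hcard⟩ := exists_repsH h.le h.index
  have hidx : ((((U.subgroupOf H).index : ℕ)) : ℂ) ≠ 0 := Nat.cast_ne_zero.2 h.index
  refine lext_mk fun g g' => ?_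
  rw [mul_k_eq_sum, ls_tker,
    sum_ls_lind (dc_H h.le h.index) hR g (fun y => (tker h).k (g : G ⧸ U) y *
      (tker h).k y (g' : G ⧸ U))]
  by_cases hg : g⁻¹ * g' ∈ H
  · have h1 : ∀ r ∈ R, (tker h).k (g : G ⧸ U) ((g * r : G) : G ⧸ U) *
        (tker h).k ((g * r : G) : G ⧸ U) (g' : G ⧸ U) =
        (((U.subgroupOf H).index : ℂ))⁻¹ * (tker h).k (g : G ⧸ U) (g' : G ⧸ U) := by
      intro r hr
      have hr' : r ∈ H := hR.mem r hr
      have e1 : (g * r)⁻¹ * g' = r⁻¹ * (g⁻¹ * g') := by group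
      rw [tker_k, tker_k, tker_k, inv_mul_cancel_left, if_pos hr', e1,
        if_pos (H.mul_mem (H.inv_mem hr') hg), if_pos hg,
        h.mul _ (H.inv_mem hr') _ hg, h.map_inv hr']
      have := h.ne_zero hr'
      have := h.ne_zero hg
      field_simp
    rw [Finset.sum_congr rfl h1, Finset.sum_const, hcard, nsmul_eq_mul, ← mul_assoc,
      mul_inv_cancel₀ hidx, one_mul]
  · rw [tker_k, if_neg hg]
    refine Finset.sum_eq_zero fun r hr => ?_
    have hr' : r ∈ H := hR.mem r hr
    have e1 : (g * r)⁻¹ * g' = r⁻¹ * (g⁻¹ * g') := by group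
    rw [tker_k ((h)) (g * r) g', e1, if_neg, mul_zero]
    intro h2
    exact hg ((Subgroup.mul_mem_cancel_left _ (H.inv_mem hr')).1 h2)

theorem tker_symm {χ : G → ℂ} (h : IsTy U H χ) (hχ : ∀ g ∈ H, ‖χ g‖ = 1) (x y : G ⧸ U) :
    (tker h).k y x = conj ((tker h).k x y) := by
  induction x using QuotientGroup.induction_on with
  | H x =>
    induction y using QuotientGroup.induction_on with
    | H y =>
      rw [tker_k, tker_k]
      have e : (x⁻¹ * y)⁻¹ = y⁻¹ * x := by group
      have e2 : y⁻¹ * x ∈ H ↔ x⁻¹ * y ∈ H := by rw [← e, H.inv_mem_iff]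
      by_cases hxy : x⁻¹ * y ∈ H
      · rw [if_pos hxy, if_pos (e2.2 hxy), ← e, h.map_inv hxy, map_div₀, map_inv₀,
          Complex.conj_natCast]
        congr 1
        rw [inv_inv, ← map_inv₀]
        rw [Complex.inv_def, Complex.normSq_eq_norm_sq, hχ _ hxy]
        simp
      · rw [if_neg hxy, if_neg (fun hh => hxy (e2.1 hh)), map_zero]

end Typ

end Fermat.Agent.H51Z
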