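import Fermat.Agent.H50ZTgt
import Fermat.Agent.H51ZPull

/-!
# From level `U0` to Iwahori level (helper50, [PULL] part 3, S47 block (C))

`L'.U i = Iw v`, `L.U i = U0 v`, `L'.U j ≤ L.U j` for all `j`: for the pull back `φ ∘ pull`

* `lop_P_pull` : `P (φ ∘ pull) = (q + 1) (φ ∘ pull)`;
* `lop_PW_pull` : `P W (φ ∘ pull) = (T φ) ∘ pull`;
* the same for functions on the model (`gopX_P_pull`, `gopX_PW_pull`).
-/

set_option autoImplicit false

noncomputable section

open scoped Classical MatrixGroups WithZero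

namespace Fermat.Agent.H50Z

open Fermat.Agent.H59XF Fermat.Agent.H51Z Matrix

section Cast

variable {G : Type*} [Group G] {H' H : Subgroup G}

/-- The two transports of local kernels agree. -/
theorem lcast_eq (e : H' = H) (κ : LocKer H) : H51Z.lcast e κ = H50Z.lcast e κ := by
  subst e
  simp

theorem Compat.cast' (h : H' ≤ H) (e : H' = H) (κ : LocKer H) :
    Compat h (H51Z.lcast e κ) κ := by
  rw [lcast_eq]
  exact Compat.cast h e κ

/-- Compatibility for kernels transported from a common subgroup. -/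
theorem Compat.cast₂ (h : H' ≤ H) {H₀ : Subgroup G} (e' : H' = H₀) (e : H = H₀) (κ : LocKer H₀) :
    Compat h (H51Z.lcast e' κ) (H51Z.lcast e κ) := by
  subst e
  exact Compat.cast' h e' κ

end Cast

variable {K : Type*} [Field K] {v : Valuation K ℤᵐ⁰} {ι : Type*}
  {L' L : LevelFam PGL(2, K) ι} {E : Type*} [AddCommGroup E] [Module ℂ E]
  (h : ∀ i, L'.U i ≤ L.U i) {i : ι} (hL' : L'.U i = Iw v) (hL : L.U i = U0 v)

omit [AddCommGroup E] [Module ℂ E] in
include hL in
/-- Pulled back functions are right invariant under `U0`. -/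
theorem rInv_pull (φ : XF L → E) : RInv v L' i (fun x => φ (pull h x)) := by
  intro x g u hu
  show φ (pull h _) = φ (pull h _)
  rw [pull_upd, pull_upd]
  congr 2
  show ((g * u : PGL(2, K)) : PGL(2, K) ⧸ L.U i) = ((g : PGL(2, K)) : PGL(2, K) ⧸ L.U i)
  rw [QuotientGroup.eq, hL]
  have e : (g * u)⁻¹ * g = u⁻¹ := by group
  rw [e]
  exact (U0 v).inv_mem hu

include hL in
theorem lop_P_pull (hd : Disc v) (φ : XF L → E) :
    lop i (H51Z.lcast hL' (Pker hd)) (fun x => φ (pull h x)) =
      ((hd.reps 1).card + 1 : ℂ) • (fun x => φ (pull h x)) :=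
  lop_Pker_inv hL' hd (rInv_pull h hL φ)

theorem lop_PW_pull (hd : Disc v) (φ : XF L → E) :
    lop i (H51Z.lcast hL' (Pker hd))
        (lop i (H51Z.lcast hL' (Wker hd.v_pi)) (fun x => φ (pull h x))) =
      fun x => lop i (H51Z.lcast hL (Tker hd.dcT)) φ (pull h x) := by
  funext x
  obtain ⟨g, hg⟩ := QuotientGroup.mk_surjective (x i)
  rw [lop_Pker_Wker_inv hL' hd (rInv_pull h hL φ) x g hg.symm]
  have hR := isCosetReps_repsT hd.v_pi (hd.isReps 1)
  have hg' : pull h x i = ((g : PGL(2, K)) : PGL(2, K) ⧸ L.U i) := by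
    rw [pull_apply, ← hg, cproj_mk]
  rw [Tker, lcast_lind, lop_lind i _ (hR.of_eq hL) φ (pull h x) g hg']
  apply Finset.sum_congr rfl
  intro r _
  rw [pull_upd, cproj_mk]

/-! ### The model -/

section Model

open Fermat.Agent.H59D IsDedekindDomain

variable {K : Type*} [Field K] [NumberField K] {J : Type*} [Fintype J] {m' m : Model K J}
  {E : Type*} [AddCommGroup E] [Module ℂ E] (h : ∀ w, m'.L.U w ≤ m.L.U w)
  {w₀ : HeightOneSpectrum (NumberField.RingOfIntegers K)}

theorem gopX_single (m : Model K J) (κ : LocKer (m.L.fam.U w₀)) (f : m.X → E) (x : m.X) :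
    gopX m (single w₀ κ) f x = lop w₀ κ (fun y => f (x.1, y)) x.2 := by
  unfold gopX
  rw [gop_single]

/-- `P` on pulled back functions. -/
theorem gopX_P_pull (hL' : m'.L.fam.U w₀ = Iw (w₀.valuation K))
    (hL : m.L.fam.U w₀ = H51Z.U0 (w₀.valuation K)) (hd : Disc (w₀.valuation K)) (f : m.X → E)
    (x : m'.X) :
    gopX m' (single w₀ (H51Z.lcast hL' (Pker hd))) (fun x => f (pullX h x)) x =
      ((hd.reps 1).card + 1 : ℂ) • f (pullX h x) := by
  rw [gopX_single]
  exact congrFun (lop_P_pull (L' := m'.L.fam) (L := m.L.fam) h hL' hL hd (fun y => f (x.1, y))) x.2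

/-- `P W` on pulled back functions is the pull back of `T`. -/
theorem gopX_PW_pull (hL' : m'.L.fam.U w₀ = Iw (w₀.valuation K))
    (hL : m.L.fam.U w₀ = H51Z.U0 (w₀.valuation K)) (hd : Disc (w₀.valuation K)) (f : m.X → E)
    (x : m'.X) :
    gopX m' (single w₀ (H51Z.lcast hL' (Pker hd)))
        (fun x => gopX m' (single w₀ (H51Z.lcast hL' (Wker hd.v_pi)))
          (fun x => f (pullX h x)) x) x =
      gopX m (single w₀ (H51Z.lcast hL (Tker hd.dcT))) f (pullX h x) := by
  rw [gopX_single, gopX_single]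
  have h1 : ∀ y : XF m'.L.fam, gopX m' (single w₀ (H51Z.lcast hL' (Wker hd.v_pi)))
      (fun x => f (pullX h x)) (x.1, y) =
      lop w₀ (H51Z.lcast hL' (Wker hd.v_pi))
        (fun y => f (x.1, pull (L' := m'.L.fam) (L := m.L.fam) h y)) y := fun y => gopX_single _ _ _ _
  simp only [h1]
  exact congrFun (lop_PW_pull (L' := m'.L.fam) (L := m.L.fam) h hL' hL hd (fun y => f (x.1, y))) x.2

/-- At all other places the kernels are transported along the equality of the levels. -/
theorem compat_away (heq : ∀ w, w ≠ w₀ → m'.L.U w = m.L.U w) (a' : GlobKer m'.L.fam)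
    (a : GlobKer m.L.fam) (ha' : a'.loc w₀ = LocKer.one) (ha : a.loc w₀ = LocKer.one)
    (hloc : ∀ w (hw : w ≠ w₀), a'.loc w =
      H51Z.lcast (H := m'.L.fam.U w) (H' := m.L.fam.U w) (heq w hw) (a.loc w))
    (w : HeightOneSpectrum (NumberField.RingOfIntegers K)) :
    Compat (H' := m'.L.fam.U w) (H := m.L.fam.U w) (h w) (a'.loc w) (a.loc w) := by
  by_cases hw : w = w₀
  · subst hw
    rw [ha', ha]
    exact Compat.one _
  · rw [hloc w hw]
    exact Compat.cast' _ _ _

end Model

end Fermat.Agent.H50Z
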