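import Fermat.Agent.H51ZOp
import Fermat.Agent.H51ZLoc

/-!
# Concrete local kernels on `PGL₂(K) / U` (helper51, C-HECKE of S47)

* `lind` : the indicator kernel of a union of double cosets with explicit representatives;
  `lop_lind` : its operator as a sum over the representatives;
* `Tker v` : Hecke operator at a good place (`q + 1` neighbours);
* `Uker v m`, `Wker v π`, `Pker v` at Iwahori level.
-/

set_option autoImplicit false

noncomputable section

open scoped Classical MatrixGroups WithZero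

namespace Fermat.Agent.H51Z

open Fermat.Agent.H59XF Matrix

/-! ### Indicator kernels -/

section Lind

variable {G : Type*} [Group G] {H : Subgroup G}

/-- `D` is a union of double cosets of `H` with finitely many left and right cosets. -/
structure DC (H : Subgroup G) (D : Set G) : Prop where
  left : ∀ u ∈ H, ∀ g ∈ D, u * g ∈ D
  right : ∀ u ∈ H, ∀ g ∈ D, g * u ∈ D
  finR : ∃ R : Finset G, ∀ g ∈ D, ∃ r ∈ R, r⁻¹ * g ∈ H
  finL : ∃ R : Finset G, ∀ g ∈ D, ∃ r ∈ R, r⁻¹ * g⁻¹ ∈ H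

theorem DC.iff {D : Set G} (h : DC H D) {u w g : G} (hu : u ∈ H) (hw : w ∈ H) :
    u * g * w ∈ D ↔ g ∈ D := by
  constructor
  · intro hg
    have := h.right w⁻¹ (H.inv_mem hw) _ (h.left u⁻¹ (H.inv_mem hu) _ hg)
    have e : u⁻¹ * (u * g * w) * w⁻¹ = g := by group
    rwa [e] at this
  · intro hg
    exact h.right w hw _ (h.left u hu _ hg)

/-- The indicator kernel of a union of double cosets. -/
def lind (D : Set G) (h : DC H D) : LocKer H :=
  LocKer.ofFun (fun g => if g ∈ D then 1 else 0)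
    (by
      intro u w g hu hw
      simp only [h.iff hu hw])
    (by
      obtain ⟨R, hR⟩ := h.finR
      refine (R.finite_toSet.image (fun r : G => (r : G ⧸ H))).subset ?_
      rintro y ⟨g, rfl, hg⟩
      have hg' : g ∈ D := by
        by_contra hne
        exact hg (if_neg hne)
      obtain ⟨r, hr, hrg⟩ := hR g hg'
      exact ⟨r, hr, (QuotientGroup.eq.2 hrg)⟩)
    (by
      obtain ⟨R, hR⟩ := h.finL
      refine (R.finite_toSet.image (fun r : G => (r : G ⧸ H))).subset ?_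
      rintro y ⟨g, rfl, hg⟩
      have hg' : g⁻¹ ∈ D := by
        by_contra hne
        exact hg (if_neg hne)
      obtain ⟨r, hr, hrg⟩ := hR _ hg'
      rw [inv_inv] at hrg
      exact ⟨r, hr, (QuotientGroup.eq.2 hrg)⟩)

theorem lind_k (D : Set G) (h : DC H D) (g g' : G) :
    (lind D h).k (g : G ⧸ H) (g' : G ⧸ H) = if g⁻¹ * g' ∈ D then 1 else 0 := rfl

theorem lind_k_ne_zero_iff (D : Set G) (h : DC H D) (g g' : G) :
    (lind D h).k (g : G ⧸ H) (g' : G ⧸ H) ≠ 0 ↔ g⁻¹ * g' ∈ D := by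
  rw [lind_k]
  split_ifs with hh <;> simp [hh]

/-- `R` is a set of representatives of the right cosets `r H` in `D`. -/
structure IsCosetReps (H : Subgroup G) (D : Set G) (R : Finset G) : Prop where
  mem : ∀ r ∈ R, r ∈ D
  ex : ∀ g ∈ D, ∃ r ∈ R, r⁻¹ * g ∈ H
  inj : ∀ r ∈ R, ∀ r' ∈ R, r⁻¹ * r' ∈ H → r = r'

theorem ls_lind {D : Set G} (h : DC H D) {R : Finset G} (hR : IsCosetReps H D R) (g : G) :
    ls (lind D h) (g : G ⧸ H) = R.image (fun r => ((g * r : G) : G ⧸ H)) := by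
  ext y
  induction y using QuotientGroup.induction_on with
  | H y =>
    rw [mem_ls, lind_k_ne_zero_iff, Finset.mem_image]
    constructor
    · intro hy
      obtain ⟨r, hr, hry⟩ := hR.ex _ hy
      refine ⟨r, hr, QuotientGroup.eq.2 ?_⟩
      have : (g * r)⁻¹ * y = r⁻¹ * (g⁻¹ * y) := by group
      rw [this]; exact hry
    · rintro ⟨r, hr, hry⟩
      rw [QuotientGroup.eq] at hry
      have : g⁻¹ * y = r * ((g * r)⁻¹ * y) := by group
      rw [this]
      exact h.right _ hry _ (hR.mem r hr)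

theorem sum_ls_lind {M : Type*} [AddCommMonoid M] {D : Set G} (h : DC H D) {R : Finset G}
    (hR : IsCosetReps H D R) (g : G) (F : G ⧸ H → M) :
    ∑ y ∈ ls (lind D h) (g : G ⧸ H), F y = ∑ r ∈ R, F ((g * r : G) : G ⧸ H) := by
  rw [ls_lind h hR, Finset.sum_image]
  intro r hr r' hr' hrr
  apply hR.inj r hr r' hr'
  have := QuotientGroup.eq.1 hrr
  have e : (g * r)⁻¹ * (g * r') = r⁻¹ * r' := by group
  rwa [e] at this

theorem card_ls_lind {D : Set G} (h : DC H D) {R : Finset G}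
    (hR : IsCosetReps H D R) (g : G) :
    (ls (lind D h) (g : G ⧸ H)).card = R.card := by
  have := sum_ls_lind h hR g (fun _ => 1)
  simpa using this

variable {ι : Type*} {L : LevelFam G ι} {E : Type*} [AddCommGroup E] [Module ℂ E]

theorem lop_lind (i : ι) {D : Set G} (h : DC (L.U i) D) {R : Finset G}
    (hR : IsCosetReps (L.U i) D R) (f : XF L → E) (x : XF L) (g : G)
    (hg : x i = (g : G ⧸ L.U i)) :
    lop i (lind D h) f x = ∑ r ∈ R, f (XF.upd x i ((g * r : G) : G ⧸ L.U i)) := by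
  have h1 : lop i (lind D h) f x = ∑ y ∈ ls (lind D h) (x i), f (XF.upd x i y) := by
    rw [lop_def]
    apply Finset.sum_congr rfl
    intro y hy
    rw [mem_ls] at hy
    have : (lind D h).k (x i) y = 1 := by
      rw [hg] at hy ⊢
      induction y using QuotientGroup.induction_on with
      | H y =>
        rw [lind_k_ne_zero_iff] at hy
        rw [lind_k, if_pos hy]
    rw [this, one_smul]
  rw [h1, hg, sum_ls_lind h hR g (fun y => f (XF.upd x i y))]

/-- The inverse double coset. -/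
theorem DC.inv {D : Set G} (h : DC H D) : DC H {g | g⁻¹ ∈ D} where
  left u hu g hg := by
    show (u * g)⁻¹ ∈ D
    rw [_root_.mul_inv_rev]
    exact h.right _ (H.inv_mem hu) _ hg
  right u hu g hg := by
    show (g * u)⁻¹ ∈ D
    rw [_root_.mul_inv_rev]
    exact h.left _ (H.inv_mem hu) _ hg
  finR := by
    obtain ⟨R, hR⟩ := h.finL
    refine ⟨R, fun g hg => ?_⟩
    obtain ⟨r, hr, hrg⟩ := hR _ hg
    exact ⟨r, hr, by rwa [inv_inv] at hrg⟩
  finL := by
    obtain ⟨R, hR⟩ := h.finR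
    exact ⟨R, fun g hg => hR _ hg⟩

theorem ltr_lind {D : Set G} (h : DC H D) : ltr (lind D h) = lind {g | g⁻¹ ∈ D} h.inv := by
  ext x y
  induction x using QuotientGroup.induction_on with
  | H x =>
    induction y using QuotientGroup.induction_on with
    | H y =>
      rw [ltr_k, lind_k, lind_k]
      have : (x⁻¹ * y)⁻¹ = y⁻¹ * x := by group
      simp only [Set.mem_ofPred_eq, this]

theorem lind_congr {D D' : Set G} (h : DC H D) (h' : DC H D') (e : D = D') :
    lind D h = lind D' h' := by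
  subst e; rfl

/-- The kernel of a product evaluated at the base point. -/
theorem lmul_lind_k {D : Set G} (h : DC H D) {R : Finset G} (hR : IsCosetReps H D R)
    (κ : LocKer H) (g g' : G) :
    (LocKer.mul (lind D h) κ).k (g : G ⧸ H) (g' : G ⧸ H) =
      ∑ r ∈ R, κ.k ((g * r : G) : G ⧸ H) (g' : G ⧸ H) := by
  rw [mul_k_eq_sum]
  have h1 : ∀ y ∈ ls (lind D h) (g : G ⧸ H), (lind D h).k (g : G ⧸ H) y * κ.k y (g' : G ⧸ H) =
      κ.k y (g' : G ⧸ H) := by
    intro y hy
    rw [mem_ls] at hy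
    have : (lind D h).k (g : G ⧸ H) y = 1 := by
      induction y using QuotientGroup.induction_on with
      | H y =>
        rw [lind_k_ne_zero_iff] at hy
        rw [lind_k, if_pos hy]
    rw [this, one_mul]
  rw [Finset.sum_congr rfl h1]
  exact sum_ls_lind h hR g (fun y => κ.k y (g' : G ⧸ H))

theorem lind_one_eq (h : DC H (H : Set G)) : lind (H : Set G) h = LocKer.one := by
  ext x y
  induction x using QuotientGroup.induction_on with
  | H x =>
    induction y using QuotientGroup.induction_on with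
    | H y =>
      rw [lind_k, LocKer.one_k]
      simp only [SetLike.mem_coe, QuotientGroup.eq]

end Lind

/-! ### The Hecke operator at a good place -/

section Tker

variable {K : Type*} [Field K] (v : Valuation K ℤᵐ⁰)

/-- The double coset `U0 diag(π,1) U0` in `PGL₂(K)`. -/
def cellT : Set PGL(2, K) :=
  {x | ∃ g : GL (Fin 2) K, ProjGenLinGroup.mk g = x ∧ (∀ i j, v (g i j) ≤ 1) ∧
    v (GeneralLinearGroup.det g : K) = WithZero.exp (-1 : ℤ)}

theorem integral_mul {g h : GL (Fin 2) K} (hg : ∀ i j, v (g i j) ≤ 1) (hh : ∀ i j, v (h i j) ≤ 1)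
    (i j : Fin 2) : v ((g * h) i j) ≤ 1 := by
  rw [GeneralLinearGroup.coe_mul, Matrix.mul_apply, Fin.sum_univ_two]
  exact v_add_le_one v (v_mul_le_one v (hg i 0) (hh 0 j)) (v_mul_le_one v (hg i 1) (hh 1 j))

theorem cellT_left : ∀ u ∈ U0 v, ∀ g ∈ cellT v, u * g ∈ cellT v := by
  rintro _ ⟨u, ⟨hu, hu'⟩, rfl⟩ _ ⟨g, rfl, hg, hg'⟩
  refine ⟨u * g, map_mul _ _ _, integral_mul v hu hg, ?_⟩
  rw [map_mul, Units.val_mul, map_mul, hu', hg', one_mul]

theorem cellT_right : ∀ u ∈ U0 v, ∀ g ∈ cellT v, g * u ∈ cellT v := by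
  rintro _ ⟨u, ⟨hu, hu'⟩, rfl⟩ _ ⟨g, rfl, hg, hg'⟩
  refine ⟨g * u, map_mul _ _ _, integral_mul v hg hu, ?_⟩
  rw [map_mul, Units.val_mul, map_mul, hu', hg', mul_one]

/-- The adjugate as an element of `GL₂`. -/
def adjGL (g : GL (Fin 2) K) : GL (Fin 2) K :=
  g⁻¹ * GeneralLinearGroup.scalar (Fin 2) (GeneralLinearGroup.det g)

theorem adjGL_coe (g : GL (Fin 2) K) : (adjGL g : Matrix (Fin 2) (Fin 2) K) =
    !![g 1 1, -g 0 1; -g 1 0, g 0 0] := by
  have h1 : ∀ i j, (adjGL g) i j = (g⁻¹ : GL (Fin 2) K) i j * (GeneralLinearGroup.det g : K) :=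
    fun i j => scalar_mul_apply _ _ _ _
  have h2 : ((g⁻¹ : GL (Fin 2) K) : Matrix (Fin 2) (Fin 2) K) =
      (GeneralLinearGroup.det g : K)⁻¹ • !![g 1 1, -g 0 1; -g 1 0, g 0 0] := by
    rw [Matrix.coe_units_inv, Matrix.inv_def, Ring.inverse_eq_inv',
      ← GeneralLinearGroup.val_det_apply, Matrix.adjugate_fin_two]
  have hd : (GeneralLinearGroup.det g : K) ≠ 0 := Units.ne_zero _
  ext i j
  rw [h1 i j, h2, Matrix.smul_apply, smul_eq_mul]
  field_simp

@[simp] theorem mk_adjGL (g : GL (Fin 2) K) :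
    ProjGenLinGroup.mk (adjGL g) = (ProjGenLinGroup.mk g)⁻¹ := by
  rw [adjGL, map_mul, ProjGenLinGroup.mk_scalar, mul_one, map_inv]

theorem det_adjGL (g : GL (Fin 2) K) :
    (GeneralLinearGroup.det (adjGL g) : K) = (GeneralLinearGroup.det g : K) := by
  rw [GeneralLinearGroup.val_det_apply, adjGL_coe, Matrix.det_fin_two, det_two]
  simp
  ring

theorem cellT_inv {x : PGL(2, K)} (hx : x ∈ cellT v) : x⁻¹ ∈ cellT v := by
  obtain ⟨g, rfl, hg, hg'⟩ := hx
  refine ⟨adjGL g, mk_adjGL g, fun i j => ?_, by rw [det_adjGL, hg']⟩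
  rw [adjGL_coe]
  fin_cases i <;> fin_cases j
  · simpa using hg 1 1
  · simpa using hg 0 1
  · simpa using hg 1 0
  · simpa using hg 0 0

theorem cellT_inv_iff {x : PGL(2, K)} : x⁻¹ ∈ cellT v ↔ x ∈ cellT v :=
  ⟨fun h => by simpa using cellT_inv v h, cellT_inv v⟩

/-- The explicit representatives. -/
def repsT (π : Kˣ) (B : Finset K) : Finset PGL(2, K) :=
  insert (ProjGenLinGroup.mk (dm π)) (B.image (fun b => ProjGenLinGroup.mk (bm π b)))

theorem mem_repsT {π : Kˣ} {B : Finset K} {x : PGL(2, K)} :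
    x ∈ repsT π B ↔ x = ProjGenLinGroup.mk (dm π) ∨
      ∃ b ∈ B, ProjGenLinGroup.mk (bm π b) = x := by
  simp [repsT]

variable {v}

theorem mk_bm_mem_cellT {π : Kˣ} (hπ : v (π : K) = WithZero.exp (-1 : ℤ)) {b : K}
    (hb : v b ≤ 1) : ProjGenLinGroup.mk (bm π b) ∈ cellT v := by
  refine ⟨bm π b, rfl, fun i j => ?_, by rw [det_bm, hπ]⟩
  fin_cases i <;> fin_cases j
  · change v (π : K) ≤ 1
    rw [hπ, ← WithZero.exp_zero, WithZero.exp_le_exp]; norm_num
  · exact hb
  · change v (0 : K) ≤ 1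
    simp
  · change v (1 : K) ≤ 1
    simp

theorem mk_dm_mem_cellT {π : Kˣ} (hπ : v (π : K) = WithZero.exp (-1 : ℤ)) :
    ProjGenLinGroup.mk (dm π) ∈ cellT v := by
  refine ⟨dm π, rfl, fun i j => ?_, by rw [det_dm, hπ]⟩
  fin_cases i <;> fin_cases j
  · change v (1 : K) ≤ 1
    simp
  · change v (0 : K) ≤ 1
    simp
  · change v (0 : K) ≤ 1
    simp
  · change v (π : K) ≤ 1
    rw [hπ, ← WithZero.exp_zero, WithZero.exp_le_exp]; norm_num

theorem isCosetReps_repsT {π : Kˣ} (hπ : v (π : K) = WithZero.exp (-1 : ℤ)) {B : Finset K}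
    (hB : IsReps v 1 B) : IsCosetReps (U0 v) (cellT v) (repsT π B) := by
  have hd1 : ∀ g h : GL (Fin 2) K, v (GeneralLinearGroup.det g : K) = WithZero.exp (-1 : ℤ) →
      v (GeneralLinearGroup.det h : K) = WithZero.exp (-1 : ℤ) →
      v (GeneralLinearGroup.det (g⁻¹ * h) : K) = 1 := by
    intro g h hg hh
    rw [map_mul, map_inv, Units.val_mul, Units.val_inv_eq_inv_val, map_mul, map_inv₀, hg, hh]
    rw [← WithZero.exp_neg, ← WithZero.exp_add]; simp
  have hlt : v (π : K) < 1 := by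
    rw [hπ, ← WithZero.exp_zero, WithZero.exp_lt_exp]; norm_num
  refine ⟨?_, ?_, ?_⟩
  · intro r hr
    rcases mem_repsT.1 hr with rfl | ⟨b, hb, rfl⟩
    · exact mk_dm_mem_cellT hπ
    · exact mk_bm_mem_cellT hπ (hB.le_one b hb)
  · rintro _ ⟨g, rfl, hg, hg'⟩
    rcases exists_coset v hπ hB hg hg' with ⟨b, hb, h⟩ | h
    · refine ⟨_, mem_repsT.2 (Or.inr ⟨b, hb, rfl⟩), ?_⟩
      rw [← map_inv, ← map_mul]
      exact mk_mem_U0_of_mem v h
    · refine ⟨_, mem_repsT.2 (Or.inl rfl), ?_⟩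
      rw [← map_inv, ← map_mul]
      exact mk_mem_U0_of_mem v h
  · intro r hr r' hr' hrr
    rcases mem_repsT.1 hr with rfl | ⟨b, hb, rfl⟩ <;>
      rcases mem_repsT.1 hr' with rfl | ⟨b', hb', rfl⟩
    · rfl
    · exfalso
      rw [← map_inv, ← map_mul, mk_mem_U0_iff_of_det v
        (hd1 _ _ (by rw [det_dm, hπ]) (by rw [det_bm, hπ]))] at hrr
      exact dm_inv_mul_bm_not_mem v hlt b' hrr
    · exfalso
      rw [← map_inv, ← map_mul, mk_mem_U0_iff_of_det v
        (hd1 _ _ (by rw [det_bm, hπ]) (by rw [det_dm, hπ]))] at hrr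
      have := (GU v).inv_mem hrr
      rw [_root_.mul_inv_rev, inv_inv] at this
      exact dm_inv_mul_bm_not_mem v hlt b this
    · rw [← map_inv, ← map_mul, mk_mem_U0_iff_of_det v
        (hd1 _ _ (by rw [det_bm, hπ]) (by rw [det_bm, hπ])), bm_inv_mul_mem_iff, hπ] at hrr
      have := hB.inj b' hb' b hb (by simpa using hrr)
      rw [this]

theorem card_repsT {π : Kˣ} (hπ : v (π : K) = WithZero.exp (-1 : ℤ)) {B : Finset K}
    (hB : IsReps v 1 B) : (repsT π B).card = B.card + 1 := by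
  have hlt : v (π : K) < 1 := by
    rw [hπ, ← WithZero.exp_zero, WithZero.exp_lt_exp]; norm_num
  have hd1 : ∀ g h : GL (Fin 2) K, v (GeneralLinearGroup.det g : K) = WithZero.exp (-1 : ℤ) →
      v (GeneralLinearGroup.det h : K) = WithZero.exp (-1 : ℤ) →
      v (GeneralLinearGroup.det (g⁻¹ * h) : K) = 1 := by
    intro g h hg hh
    rw [map_mul, map_inv, Units.val_mul, Units.val_inv_eq_inv_val, map_mul, map_inv₀, hg, hh]
    rw [← WithZero.exp_neg, ← WithZero.exp_add]; simp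
  rw [repsT, Finset.card_insert_of_notMem, Finset.card_image_of_injOn]
  · intro b hb b' hb' h
    have h2 : (ProjGenLinGroup.mk (bm π b))⁻¹ * ProjGenLinGroup.mk (bm π b') ∈ U0 v := by
      rw [show ProjGenLinGroup.mk (bm π b) = ProjGenLinGroup.mk (bm π b') from h]
      simp
    rw [← map_inv, ← map_mul, mk_mem_U0_iff_of_det v
      (hd1 _ _ (by rw [det_bm, hπ]) (by rw [det_bm, hπ])), bm_inv_mul_mem_iff, hπ] at h2
    exact (hB.inj b' hb' b hb (by simpa using h2)).symm
  · intro h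
    obtain ⟨b, hb, hbe⟩ := Finset.mem_image.1 h
    have h2 : (ProjGenLinGroup.mk (dm π))⁻¹ * ProjGenLinGroup.mk (bm π b) ∈ U0 v := by
      rw [hbe]
      simp
    rw [← map_inv, ← map_mul, mk_mem_U0_iff_of_det v
      (hd1 _ _ (by rw [det_dm, hπ]) (by rw [det_bm, hπ]))] at h2
    exact dm_inv_mul_bm_not_mem v hlt b h2

/-- The data needed: a uniformiser and representatives of the residue field. -/
theorem dc_cellT (h : ∃ (π : Kˣ) (B : Finset K), v (π : K) = WithZero.exp (-1 : ℤ) ∧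
    IsReps v 1 B) : DC (U0 v) (cellT v) := by
  obtain ⟨π, B, hπ, hB⟩ := h
  have hR := isCosetReps_repsT hπ hB
  exact ⟨cellT_left v, cellT_right v, ⟨_, hR.ex⟩, ⟨_, fun g hg => hR.ex _ (cellT_inv v hg)⟩⟩

/-- The Hecke kernel at a good place. -/
def Tker (h : DC (U0 v) (cellT v)) : LocKer (U0 v) := lind (cellT v) h

theorem ltr_Tker (h : DC (U0 v) (cellT v)) : ltr (Tker h) = Tker h := by
  rw [Tker, ltr_lind]
  apply lind_congr
  ext x
  exact cellT_inv_iff v

end Tker

end Fermat.Agent.H51Z
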