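import Fermat.Agent.H76U1

/-!
# S47: types given by lattices (helper76)

`TD K`: additive subgroups `A, B, C` of a field `K` and an additive character `psi` such that
`{g : g - 1 ∈ (A, B; C, A)}` is a group and `g ↦ psi (g 0 1)` a character.  Elements of `PGL(2, K)`
which lie in finitely many such groups are `n(b) diag(t, 1) n⁻(c)`, with `b`, `t - 1`, `c` in the
intersections.
-/

set_option autoImplicit false

namespace Fermat.Agent.H76U

open Matrix MatrixGroups Fermat.Agent.H59XF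

/-- Lattice data of a type. -/
structure TD (K : Type*) [Field K] where
  A : AddSubgroup K
  B : AddSubgroup K
  C : AddSubgroup K
  psi : AddChar K ℂ
  AA : ∀ a ∈ A, ∀ b ∈ A, a * b ∈ A
  AB : ∀ a ∈ A, ∀ b ∈ B, a * b ∈ B
  AC : ∀ a ∈ A, ∀ c ∈ C, a * c ∈ C
  BC : ∀ b ∈ B, ∀ c ∈ C, b * c ∈ A
  ne : ∀ a ∈ A, 1 + a ≠ 0
  inv : ∀ a ∈ A, (1 + a)⁻¹ - 1 ∈ A
  psi_AB : ∀ a ∈ A, ∀ b ∈ B, psi (a * b) = 1

variable {K : Type*} [Field K]

/-! ### Matrices -/

/-- The upper unipotent matrix. -/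
def nM (b : K) : GL (Fin 2) K :=
  GeneralLinearGroup.mkOfDetNeZero !![1, b; 0, 1] (by simp [Matrix.det_fin_two_of])

/-- The lower unipotent matrix. -/
def lM (c : K) : GL (Fin 2) K :=
  GeneralLinearGroup.mkOfDetNeZero !![1, 0; c, 1] (by simp [Matrix.det_fin_two_of])

/-- The matrix `diag(t, 1)`. -/
def dM (t : Kˣ) : GL (Fin 2) K :=
  GeneralLinearGroup.mkOfDetNeZero !![(t : K), 0; 0, 1] (by simp [Matrix.det_fin_two_of])

@[simp] theorem coe_nM (b : K) : (nM b : Matrix (Fin 2) (Fin 2) K) = !![1, b; 0, 1] := rfl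
@[simp] theorem coe_lM (c : K) : (lM c : Matrix (Fin 2) (Fin 2) K) = !![1, 0; c, 1] := rfl
@[simp] theorem coe_dM (t : Kˣ) : (dM t : Matrix (Fin 2) (Fin 2) K) = !![(t : K), 0; 0, 1] := rfl

theorem nM_mul_nM (a b : K) : nM a * nM b = nM (a + b) := by
  ext i j
  fin_cases i <;> fin_cases j <;>
    simp [Matrix.mul_apply, Fin.sum_univ_two, add_comm]

theorem lM_mul_lM (a b : K) : lM a * lM b = lM (a + b) := by
  ext i j
  fin_cases i <;> fin_cases j <;>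
    simp [Matrix.mul_apply, Fin.sum_univ_two]

theorem dM_mul_dM (a b : Kˣ) : dM a * dM b = dM (a * b) := by
  ext i j
  fin_cases i <;> fin_cases j <;>
    simp [Matrix.mul_apply, Fin.sum_univ_two]

theorem inv_coe (g : GL (Fin 2) K) :
    ((g⁻¹ : GL (Fin 2) K) : Matrix (Fin 2) (Fin 2) K)
      = (g.det : K)⁻¹ • !![g 1 1, -g 0 1; -g 1 0, g 0 0] := by
  have h : (g : Matrix (Fin 2) (Fin 2) K).det ≠ 0 := g.det.ne_zero
  rw [Matrix.coe_units_inv, Matrix.inv_def, Matrix.adjugate_fin_two, Ring.inverse_eq_inv']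
  rfl

/-- Multiplying by a scalar. -/
theorem mul_scalar_apply (g : GL (Fin 2) K) (u : Kˣ) (i j : Fin 2) :
    (g * GeneralLinearGroup.scalar (Fin 2) u) i j = (u : K) * g i j := by
  show ((g * GeneralLinearGroup.scalar (Fin 2) u : GL (Fin 2) K) : Matrix (Fin 2) (Fin 2) K) i j = _
  rw [Units.val_mul, GeneralLinearGroup.coe_scalar, Matrix.scalar_apply,
    Matrix.mul_diagonal, mul_comm]

namespace TD

variable (T : TD K)

theorem det_mem {a b c d : K} (ha : a - 1 ∈ T.A) (hb : b ∈ T.B) (hc : c ∈ T.C)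
    (hd : d - 1 ∈ T.A) : a * d - b * c - 1 ∈ T.A := by
  have h : a * d - b * c - 1 = (a - 1) * (d - 1) + (a - 1) + (d - 1) - b * c := by ring
  rw [h]
  exact T.A.sub_mem (T.A.add_mem (T.A.add_mem (T.AA _ ha _ hd) ha) hd) (T.BC _ hb _ hc)

theorem ne' {a : K} (ha : a - 1 ∈ T.A) : a ≠ 0 := by
  have h := T.ne _ ha
  rwa [add_sub_cancel] at h

theorem inv' {a : K} (ha : a - 1 ∈ T.A) : a⁻¹ - 1 ∈ T.A := by
  have h := T.inv _ ha
  rwa [add_sub_cancel] at h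

theorem mulA {a d : K} (ha : a - 1 ∈ T.A) (hd : d - 1 ∈ T.A) : a * d - 1 ∈ T.A := by
  have h : a * d - 1 = (a - 1) * (d - 1) + (a - 1) + (d - 1) := by ring
  rw [h]
  exact T.A.add_mem (T.A.add_mem (T.AA _ ha _ hd) ha) hd

theorem mulB {a b : K} (ha : a - 1 ∈ T.A) (hb : b ∈ T.B) : a * b ∈ T.B := by
  have h : a * b = (a - 1) * b + b := by ring
  rw [h]
  exact T.B.add_mem (T.AB _ ha _ hb) hb

theorem mulC {a c : K} (ha : a - 1 ∈ T.A) (hc : c ∈ T.C) : a * c ∈ T.C := by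
  have h : a * c = (a - 1) * c + c := by ring
  rw [h]
  exact T.C.add_mem (T.AC _ ha _ hc) hc

/-- `psi` is invariant on `B` under multiplication by `1 + A`. -/
theorem psi_mul {a b : K} (ha : a - 1 ∈ T.A) (hb : b ∈ T.B) : T.psi (a * b) = T.psi b := by
  have h : a * b = (a - 1) * b + b := by ring
  rw [h, AddChar.map_add_eq_mul, T.psi_AB _ ha _ hb, one_mul]

/-- The group in `GL₂`. -/
def GH : Subgroup (GL (Fin 2) K) where
  carrier := {g | g 0 0 - 1 ∈ T.A ∧ g 0 1 ∈ T.B ∧ g 1 0 ∈ T.C ∧ g 1 1 - 1 ∈ T.A}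
  mul_mem' := by
    rintro g h ⟨ga, gb, gc, gd⟩ ⟨ha, hb, hc, hd⟩
    have e : ∀ i j, (g * h) i j = g i 0 * h 0 j + g i 1 * h 1 j := fun i j => by
      show ((g * h : GL (Fin 2) K) : Matrix (Fin 2) (Fin 2) K) i j = _
      rw [Units.val_mul, Matrix.mul_apply, Fin.sum_univ_two]
    refine ⟨?_, ?_, ?_, ?_⟩
    · rw [e]
      have h1 : g 0 0 * h 0 0 + g 0 1 * h 1 0 - 1
          = (g 0 0 * h 0 0 - 1) + g 0 1 * h 1 0 := by ring
      rw [h1]
      exact T.A.add_mem (T.mulA ga ha) (T.BC _ gb _ hc)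
    · rw [e, mul_comm (g 0 1)]
      exact T.B.add_mem (T.mulB ga hb) (T.mulB hd gb)
    · rw [e, mul_comm (g 1 0)]
      exact T.C.add_mem (T.mulC ha gc) (T.mulC gd hc)
    · rw [e]
      have h1 : g 1 0 * h 0 1 + g 1 1 * h 1 1 - 1
          = h 0 1 * g 1 0 + (g 1 1 * h 1 1 - 1) := by ring
      rw [h1]
      exact T.A.add_mem (T.BC _ hb _ gc) (T.mulA gd hd)
  one_mem' := by
    refine ⟨?_, ?_, ?_, ?_⟩
    · show (1 : Matrix (Fin 2) (Fin 2) K) 0 0 - 1 ∈ T.A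
      simp [T.A.zero_mem]
    · show (1 : Matrix (Fin 2) (Fin 2) K) 0 1 ∈ T.B
      simp [T.B.zero_mem]
    · show (1 : Matrix (Fin 2) (Fin 2) K) 1 0 ∈ T.C
      simp [T.C.zero_mem]
    · show (1 : Matrix (Fin 2) (Fin 2) K) 1 1 - 1 ∈ T.A
      simp [T.A.zero_mem]
  inv_mem' := by
    rintro g ⟨ga, gb, gc, gd⟩
    have hdet : (g.det : K) - 1 ∈ T.A := by
      have : (g.det : K) = g 0 0 * g 1 1 - g 0 1 * g 1 0 := by
        show (g : Matrix (Fin 2) (Fin 2) K).det = _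
        rw [Matrix.det_fin_two]
      rw [this]
      exact T.det_mem ga gb gc gd
    have hdet' := T.inv' hdet
    have e : ∀ i j, (g⁻¹ : GL (Fin 2) K) i j
        = (g.det : K)⁻¹ * (!![g 1 1, -g 0 1; -g 1 0, g 0 0] : Matrix (Fin 2) (Fin 2) K) i j := by
      intro i j
      show ((g⁻¹ : GL (Fin 2) K) : Matrix (Fin 2) (Fin 2) K) i j = _
      rw [inv_coe]; rfl
    refine ⟨?_, ?_, ?_, ?_⟩
    · rw [e]
      exact T.mulA hdet' gd
    · rw [e]
      exact T.mulB hdet' (T.B.neg_mem gb)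
    · rw [e]
      exact T.mulC hdet' (T.C.neg_mem gc)
    · rw [e]
      exact T.mulA hdet' ga

theorem mem_GH {g : GL (Fin 2) K} :
    g ∈ T.GH ↔ g 0 0 - 1 ∈ T.A ∧ g 0 1 ∈ T.B ∧ g 1 0 ∈ T.C ∧ g 1 1 - 1 ∈ T.A := Iff.rfl

/-- The group in `PGL₂`. -/
def H : Subgroup PGL(2, K) := T.GH.map ProjGenLinGroup.mk

theorem mem_H {g : PGL(2, K)} : g ∈ T.H ↔ ∃ x ∈ T.GH, ProjGenLinGroup.mk x = g := Iff.rfl

/-- The character, as a function on `PGL₂`. -/
noncomputable def chi (g : PGL(2, K)) : ℂ :=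
  T.psi ((ProjGenLinGroup.mk_surjective g).choose 0 1 /
    (ProjGenLinGroup.mk_surjective g).choose 1 1)

theorem chi_mk (x : GL (Fin 2) K) : T.chi (ProjGenLinGroup.mk x) = T.psi (x 0 1 / x 1 1) := by
  have h := (ProjGenLinGroup.mk_surjective (ProjGenLinGroup.mk x)).choose_spec
  rw [ProjGenLinGroup.mk_eq_mk_iff] at h
  obtain ⟨u, hu⟩ := h
  have h0 : (x 0 1 : K) / x 1 1 = (ProjGenLinGroup.mk_surjective (ProjGenLinGroup.mk x)).choose 0 1 /
      (ProjGenLinGroup.mk_surjective (ProjGenLinGroup.mk x)).choose 1 1 := by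
    conv_lhs => rw [← hu]
    rw [mul_scalar_apply, mul_scalar_apply, mul_div_mul_left _ _ u.ne_zero]
  rw [h0]
  rfl

theorem chi_of_mem {x : GL (Fin 2) K} (hx : x ∈ T.GH) :
    T.chi (ProjGenLinGroup.mk x) = T.psi (x 0 1) := by
  rw [chi_mk, div_eq_inv_mul]
  exact T.psi_mul (T.inv' hx.2.2.2) hx.2.1

theorem chi_mul {g h : PGL(2, K)} (hg : g ∈ T.H) (hh : h ∈ T.H) :
    T.chi (g * h) = T.chi g * T.chi h := by
  obtain ⟨x, hx, rfl⟩ := hg
  obtain ⟨y, hy, rfl⟩ := hh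
  show T.chi (ProjGenLinGroup.mk x * ProjGenLinGroup.mk y)
    = T.chi (ProjGenLinGroup.mk x) * T.chi (ProjGenLinGroup.mk y)
  rw [← map_mul, T.chi_of_mem (T.GH.mul_mem hx hy), T.chi_of_mem hx, T.chi_of_mem hy]
  have e : (x * y) 0 1 = x 0 0 * y 0 1 + y 1 1 * x 0 1 := by
    show ((x * y : GL (Fin 2) K) : Matrix (Fin 2) (Fin 2) K) 0 1 = _
    rw [Units.val_mul, Matrix.mul_apply, Fin.sum_univ_two, mul_comm (y 1 1)]
  rw [e, AddChar.map_add_eq_mul, T.psi_mul hx.1 hy.2.1, T.psi_mul hy.2.2.2 hx.2.1, mul_comm]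

theorem chi_one : T.chi 1 = 1 := by
  have h := T.chi_of_mem T.GH.one_mem
  rw [map_one] at h
  rw [h]
  show T.psi ((1 : Matrix (Fin 2) (Fin 2) K) 0 1) = 1
  simp

/-- The level: kernel of the character. -/
def U : Subgroup PGL(2, K) where
  carrier := {g | g ∈ T.H ∧ T.chi g = 1}
  mul_mem' := fun {a b} ha hb => ⟨T.H.mul_mem ha.1 hb.1, by
    rw [T.chi_mul ha.1 hb.1, ha.2, hb.2, one_mul]⟩
  one_mem' := ⟨T.H.one_mem, T.chi_one⟩
  inv_mem' := fun {a} ha => ⟨T.H.inv_mem ha.1, by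
    have h := T.chi_mul ha.1 (T.H.inv_mem ha.1)
    rw [mul_inv_cancel, T.chi_one, ha.2, one_mul] at h
    exact h.symm⟩

theorem mem_U {g : PGL(2, K)} : g ∈ T.U ↔ g ∈ T.H ∧ T.chi g = 1 := Iff.rfl

/-- The type attached to lattice data. -/
noncomputable def typ : Typ T.U where
  H := T.H
  chi := T.chi
  le := fun _ h => h.1
  mul := fun _ hg _ hh => T.chi_mul hg hh
  one := fun _ h => h.2
  norm := fun h hh u hu => by
    refine ⟨T.H.mul_mem (T.H.mul_mem (T.H.inv_mem hh) hu.1) hh, ?_⟩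
    rw [T.chi_mul (T.H.mul_mem (T.H.inv_mem hh) hu.1) hh,
      T.chi_mul (T.H.inv_mem hh) hu.1, hu.2, mul_one, ← T.chi_mul (T.H.inv_mem hh) hh,
      inv_mul_cancel, T.chi_one]

theorem nM_mem {b : K} (hb : b ∈ T.B) : nM b ∈ T.GH := by
  refine ⟨?_, ?_, ?_, ?_⟩
  · show (1 : K) - 1 ∈ T.A
    simp [T.A.zero_mem]
  · exact hb
  · exact T.C.zero_mem
  · show (1 : K) - 1 ∈ T.A
    simp [T.A.zero_mem]

theorem lM_mem {c : K} (hc : c ∈ T.C) : lM c ∈ T.GH := by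
  refine ⟨?_, ?_, ?_, ?_⟩
  · show (1 : K) - 1 ∈ T.A
    simp [T.A.zero_mem]
  · exact T.B.zero_mem
  · exact hc
  · show (1 : K) - 1 ∈ T.A
    simp [T.A.zero_mem]

theorem dM_mem {t : Kˣ} (ht : (t : K) - 1 ∈ T.A) : dM t ∈ T.GH := by
  refine ⟨ht, T.B.zero_mem, T.C.zero_mem, ?_⟩
  show (1 : K) - 1 ∈ T.A
  simp [T.A.zero_mem]

theorem chi_nM {b : K} : T.chi (ProjGenLinGroup.mk (nM b)) = T.psi b := by
  rw [chi_mk]
  show T.psi (b / 1) = _
  rw [div_one]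

theorem chi_lM {c : K} : T.chi (ProjGenLinGroup.mk (lM c)) = 1 := by
  rw [chi_mk]
  show T.psi (0 / 1) = _
  rw [zero_div, AddChar.map_zero_eq_one]

theorem chi_dM {t : Kˣ} : T.chi (ProjGenLinGroup.mk (dM t)) = 1 := by
  rw [chi_mk]
  show T.psi (0 / 1) = _
  rw [zero_div, AddChar.map_zero_eq_one]

/-- An element of `H` has a representative with lower right entry one. -/
theorem exists_normalised {g : PGL(2, K)} (hg : g ∈ T.H) :
    ∃ x : GL (Fin 2) K, x ∈ T.GH ∧ ProjGenLinGroup.mk x = g ∧ x 1 1 = 1 := by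
  obtain ⟨y, hy, rfl⟩ := hg
  have hne : y 1 1 ≠ 0 := T.ne' hy.2.2.2
  refine ⟨y * GeneralLinearGroup.scalar (Fin 2) (Units.mk0 _ hne)⁻¹, ?_, ?_, ?_⟩
  · have h := T.inv' hy.2.2.2
    refine ⟨?_, ?_, ?_, ?_⟩
    · rw [mul_scalar_apply]; simpa using T.mulA h hy.1
    · rw [mul_scalar_apply]; simpa using T.mulB h hy.2.1
    · rw [mul_scalar_apply]; simpa using T.mulC h hy.2.2.1
    · rw [mul_scalar_apply]; simp [inv_mul_cancel₀ hne, T.A.zero_mem]
  · show ProjGenLinGroup.mk (y * _) = _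
    rw [map_mul, ProjGenLinGroup.mk_scalar, mul_one]
  · rw [mul_scalar_apply]; simp [inv_mul_cancel₀ hne]

end TD

/-- **Generation of the semilocal group.** -/
theorem exists_ndl {ι : Type*} {S : Finset ι} (hS : S.Nonempty) (T : ι → TD K) {g : PGL(2, K)}
    (hg : ∀ i ∈ S, g ∈ (T i).H) :
    ∃ (b : K) (t : Kˣ) (c : K), (∀ i ∈ S, b ∈ (T i).B) ∧ (∀ i ∈ S, (t : K) - 1 ∈ (T i).A) ∧
      (∀ i ∈ S, c ∈ (T i).C) ∧
      g = ProjGenLinGroup.mk (nM b) * ProjGenLinGroup.mk (dM t) * ProjGenLinGroup.mk (lM c) := by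
  obtain ⟨i₀, hi₀⟩ := hS
  obtain ⟨x, hx, hxg, hx1⟩ := (T i₀).exists_normalised (hg i₀ hi₀)
  -- the same representative works at all places of `S`
  have hall : ∀ i ∈ S, x ∈ (T i).GH := by
    intro i hi
    obtain ⟨y, hy, hyg, hy1⟩ := (T i).exists_normalised (hg i hi)
    have h : ProjGenLinGroup.mk x = ProjGenLinGroup.mk y := hxg.trans hyg.symm
    rw [ProjGenLinGroup.mk_eq_mk_iff] at h
    obtain ⟨u, hu⟩ := h
    have h1 : (u : K) = 1 := by
      have h2 : (x * GeneralLinearGroup.scalar (Fin 2) u) 1 1 = y 1 1 := by rw [hu]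
      rw [mul_scalar_apply, hx1, hy1, mul_one] at h2
      exact h2
    have h3 : u = 1 := Units.ext h1
    subst h3
    rw [map_one, mul_one] at hu
    rw [hu]; exact hy
  have hdet : (x.det : K) = x 0 0 * x 1 1 - x 0 1 * x 1 0 := by
    show (x : Matrix (Fin 2) (Fin 2) K).det = _
    rw [Matrix.det_fin_two]
  have ht : x 0 0 - x 0 1 * x 1 0 ≠ 0 := by
    have h := x.det.ne_zero
    rw [hdet, hx1, mul_one] at h
    exact h
  refine ⟨x 0 1, Units.mk0 _ ht, x 1 0, fun i hi => (hall i hi).2.1, fun i hi => ?_,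
    fun i hi => (hall i hi).2.2.1, ?_⟩
  · have h := (T i).det_mem (hall i hi).1 (hall i hi).2.1 (hall i hi).2.2.1 (hall i hi).2.2.2
    rw [hx1, mul_one] at h
    exact h
  · rw [← map_mul, ← map_mul, ← hxg]
    congr 1
    ext i j
    show (x : Matrix (Fin 2) (Fin 2) K) i j
      = ((nM (x 0 1) * dM (Units.mk0 _ ht) * lM (x 1 0) : GL (Fin 2) K) :
        Matrix (Fin 2) (Fin 2) K) i j
    rw [Units.val_mul, Units.val_mul, coe_nM, coe_dM, coe_lM]
    have hx1' : (x : Matrix (Fin 2) (Fin 2) K) 1 1 = 1 := hx1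
    fin_cases i <;> fin_cases j
    · simp
    · simp
    · simp
    · simpa using hx1'

/-- The transformation law of a function on the outer space from three explicit invariances. -/
theorem outTyped_of_three {ι : Type*} {L : LevelFam PGL(2, K) ι} {S : Finset ι}
    {Z : Type*} [MulAction PGL(2, K) Z] (hS : S.Nonempty) (T : ι → TD K)
    (Ty : ∀ i : ι, Typ (L.U i)) (hH : ∀ i ∈ S, (Ty i).H = (T i).H)
    (hchi : ∀ i ∈ S, ∀ g ∈ (T i).H, (Ty i).chi g = (T i).chi g)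
    {F : Z → XF (restr L S) → ℂ}
    (hn : ∀ b : K, (∀ i ∈ S, b ∈ (T i).B) → ∀ z y,
      (∏ i ∈ S, (T i).psi b) *
        F (ProjGenLinGroup.mk (nM b) • z) (ProjGenLinGroup.mk (nM b) • y) = F z y)
    (hd : ∀ t : Kˣ, (∀ i ∈ S, (t : K) - 1 ∈ (T i).A) → ∀ z y,
      F (ProjGenLinGroup.mk (dM t) • z) (ProjGenLinGroup.mk (dM t) • y) = F z y)
    (hl : ∀ c : K, (∀ i ∈ S, c ∈ (T i).C) → ∀ z y,
      F (ProjGenLinGroup.mk (lM c) • z) (ProjGenLinGroup.mk (lM c) • y) = F z y) :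
    OutTyped Ty S F := by
  intro g hg z y
  obtain ⟨b, t, c, hb, ht, hc, rfl⟩ := exists_ndl hS T (g := g) (fun i hi => hH i hi ▸ hg i hi)
  have e : ∀ i ∈ S, (Ty i).chi (ProjGenLinGroup.mk (nM b) * ProjGenLinGroup.mk (dM t)
      * ProjGenLinGroup.mk (lM c)) = (T i).psi b := by
    intro i hi
    have h1 : ProjGenLinGroup.mk (nM b) ∈ (T i).H := ⟨_, (T i).nM_mem (hb i hi), rfl⟩
    have h2 : ProjGenLinGroup.mk (dM t) ∈ (T i).H := ⟨_, (T i).dM_mem (ht i hi), rfl⟩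
    have h3 : ProjGenLinGroup.mk (lM c) ∈ (T i).H := ⟨_, (T i).lM_mem (hc i hi), rfl⟩
    rw [hchi i hi _ (Subgroup.mul_mem _ (Subgroup.mul_mem _ h1 h2) h3),
      (T i).chi_mul (Subgroup.mul_mem _ h1 h2) h3, (T i).chi_mul h1 h2,
      (T i).chi_nM, (T i).chi_dM, (T i).chi_lM, mul_one, mul_one]
  rw [Finset.prod_congr rfl e, mul_smul, mul_smul, mul_smul, mul_smul, hn b hb, hd t ht, hl c hc]

end Fermat.Agent.H76U
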