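import Fermat.Agent.H84ZAlg
import Fermat.Agent.H51ZKer
import Fermat.Agent.H76U2

/-!
# S47, block (C), package C15 (m3): the type idempotent

For a type `t : H76U.Typ U` with `[H : U]` finite, `eker t hf : LocKer U` is the kernel
`(g U, h U) ↦ [H : U]⁻¹ χ(g⁻¹ h)⁻¹` if `g⁻¹ h ∈ H` and `0` otherwise.

* `eker_mul_self` : it is idempotent;
* `lop_eker_eq_iff` : `e f = f` iff `f` is typed; `lop_eker_typed` : `e f` is typed;
* `pull_eker`, `res_eker`, `convAt_eker` : behaviour under transport, restriction and convolution at a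
  split place.
-/

set_option autoImplicit false

noncomputable section

open scoped Classical

namespace Fermat.Agent.H84Z

open Fermat.Agent.H59XF Fermat.Agent.H51Z Fermat.Agent.H76U Function

section Basic

variable {G : Type*} [Group G] {U : Subgroup G} (t : Typ U)

/-- Representatives of the cosets of `U` in `H`. -/
theorem exists_reps (hf : U.relIndex t.H ≠ 0) :
    ∃ R : Finset G, IsCosetReps U (t.H : Set G) R := by
  have h1 : (U.subgroupOf t.H).index ≠ 0 := hf
  have h0 : (U.subgroupOf t.H).FiniteIndex := Subgroup.finiteIndex_iff.2 h1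
  have h2 : Finite (t.H ⧸ U.subgroupOf t.H) := inferInstance
  have h3 : Fintype (t.H ⧸ U.subgroupOf t.H) := Fintype.ofFinite _
  refine ⟨Finset.univ.image fun q : t.H ⧸ U.subgroupOf t.H => (q.out : G), ?_, ?_, ?_⟩
  · intro r hr
    obtain ⟨q, _, rfl⟩ := Finset.mem_image.1 hr
    exact q.out.2
  · intro g hg
    refine ⟨((⟦(⟨g, hg⟩ : t.H)⟧ : t.H ⧸ U.subgroupOf t.H).out : G),
      Finset.mem_image_of_mem _ (Finset.mem_univ _), ?_⟩
    have h4 := QuotientGroup.out_eq' (⟦(⟨g, hg⟩ : t.H)⟧ : t.H ⧸ U.subgroupOf t.H)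
    have h5 : (((⟦(⟨g, hg⟩ : t.H)⟧ : t.H ⧸ U.subgroupOf t.H).out : t.H) : t.H ⧸ U.subgroupOf t.H)
      = ((⟨g, hg⟩ : t.H) : t.H ⧸ U.subgroupOf t.H) := h4
    rw [QuotientGroup.eq, Subgroup.mem_subgroupOf] at h5
    exact h5
  · intro r hr r' hr' hrr
    obtain ⟨q, _, rfl⟩ := Finset.mem_image.1 hr
    obtain ⟨q', _, rfl⟩ := Finset.mem_image.1 hr'
    have h4 : q = q' := by
      rw [← QuotientGroup.out_eq' q, ← QuotientGroup.out_eq' q', QuotientGroup.eq,
        Subgroup.mem_subgroupOf]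
      exact hrr
    rw [h4]

theorem dc_H (hf : U.relIndex t.H ≠ 0) : DC U (t.H : Set G) where
  left u hu g hg := t.H.mul_mem (t.le hu) hg
  right u hu g hg := t.H.mul_mem hg (t.le hu)
  finR := by
    obtain ⟨R, hR⟩ := exists_reps t hf
    exact ⟨R, hR.ex⟩
  finL := by
    obtain ⟨R, hR⟩ := exists_reps t hf
    exact ⟨R, fun g hg => hR.ex _ (t.H.inv_mem hg)⟩

/-- The number of representatives. -/
theorem card_reps {R : Finset G} (hR : IsCosetReps U (t.H : Set G) R) :
    R.card = U.relIndex t.H := by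
  have e : {r // r ∈ R} ≃ (t.H ⧸ U.subgroupOf t.H) := by
    refine Equiv.ofBijective (fun r => ((⟨r.1, hR.mem r.1 r.2⟩ : t.H) : t.H ⧸ U.subgroupOf t.H))
      ⟨?_, ?_⟩
    · rintro ⟨r, hr⟩ ⟨r', hr'⟩ h
      have h1 : ((⟨r, hR.mem r hr⟩ : t.H) : t.H ⧸ U.subgroupOf t.H)
        = ((⟨r', hR.mem r' hr'⟩ : t.H) : t.H ⧸ U.subgroupOf t.H) := h
      rw [QuotientGroup.eq, Subgroup.mem_subgroupOf] at h1
      exact Subtype.ext (hR.inj r hr r' hr' h1)
    · intro q
      induction q using QuotientGroup.induction_on with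
      | H g =>
        obtain ⟨r, hr, hrg⟩ := hR.ex g.1 g.2
        refine ⟨⟨r, hr⟩, ?_⟩
        show ((⟨r, hR.mem r hr⟩ : t.H) : t.H ⧸ U.subgroupOf t.H) = (g : t.H ⧸ U.subgroupOf t.H)
        rw [QuotientGroup.eq, Subgroup.mem_subgroupOf]
        exact hrg
  have h1 := Nat.card_congr e
  rw [Nat.card_eq_fintype_card, Fintype.card_coe] at h1
  exact h1

theorem chi_mul' {g h : G} (hg : g ∈ t.H) (hh : h ∈ t.H) : t.chi (g * h) = t.chi g * t.chi h :=
  t.mul g hg h hh

/-- The function of the idempotent. -/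
def efun (g : G) : ℂ := if g ∈ t.H then ((U.relIndex t.H : ℂ))⁻¹ * (t.chi g)⁻¹ else 0

theorem efun_of_mem {g : G} (hg : g ∈ t.H) :
    efun t g = ((U.relIndex t.H : ℂ))⁻¹ * (t.chi g)⁻¹ := if_pos hg

theorem efun_of_notMem {g : G} (hg : g ∉ t.H) : efun t g = 0 := if_neg hg

theorem mem_of_efun {g : G} (hg : efun t g ≠ 0) : g ∈ t.H := by
  by_contra h
  exact hg (efun_of_notMem t h)

theorem efun_biinv (u v g : G) (hu : u ∈ U) (hv : v ∈ U) : efun t (u * g * v) = efun t g := by
  by_cases hg : g ∈ t.H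
  · have h1 : u * g ∈ t.H := t.H.mul_mem (t.le hu) hg
    rw [efun_of_mem t (t.H.mul_mem h1 (t.le hv)), efun_of_mem t hg, chi_mul' t h1 (t.le hv),
      chi_mul' t (t.le hu) hg, t.one u hu, t.one v hv, one_mul, mul_one]
  · have h1 : u * g * v ∉ t.H := by
      intro h
      apply hg
      have : g = u⁻¹ * (u * g * v) * v⁻¹ := by group
      rw [this]
      exact t.H.mul_mem (t.H.mul_mem (t.H.inv_mem (t.le hu)) h) (t.H.inv_mem (t.le hv))
    rw [efun_of_notMem t hg, efun_of_notMem t h1]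

/-- **The type idempotent.** -/
def eker (hf : U.relIndex t.H ≠ 0) : LocKer U :=
  LocKer.ofFun (efun t) (efun_biinv t)
    (by
      obtain ⟨R, hR⟩ := (dc_H t hf).finR
      refine (R.finite_toSet.image (fun r : G => (r : G ⧸ U))).subset ?_
      rintro y ⟨g, rfl, hg⟩
      obtain ⟨r, hr, hrg⟩ := hR g (mem_of_efun t hg)
      exact ⟨r, hr, (QuotientGroup.eq.2 hrg)⟩)
    (by
      obtain ⟨R, hR⟩ := (dc_H t hf).finR
      refine (R.finite_toSet.image (fun r : G => (r : G ⧸ U))).subset ?_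
      rintro y ⟨g, rfl, hg⟩
      obtain ⟨r, hr, hrg⟩ := hR g (by
        have := t.H.inv_mem (mem_of_efun t hg)
        rwa [inv_inv] at this)
      exact ⟨r, hr, (QuotientGroup.eq.2 hrg)⟩)

variable {t} {hf : U.relIndex t.H ≠ 0}

theorem eker_k (g h : G) : (eker t hf).k (g : G ⧸ U) (h : G ⧸ U) = efun t (g⁻¹ * h) := rfl

theorem card_ne_zero (hf : U.relIndex t.H ≠ 0) : ((U.relIndex t.H : ℂ)) ≠ 0 :=
  Nat.cast_ne_zero.2 hf

theorem eker_ne_zero_iff (g h : G) :
    (eker t hf).k (g : G ⧸ U) (h : G ⧸ U) ≠ 0 ↔ g⁻¹ * h ∈ t.H := by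
  rw [eker_k]
  refine ⟨mem_of_efun t, fun hh => ?_⟩
  rw [efun_of_mem t hh]
  exact mul_ne_zero (inv_ne_zero (card_ne_zero hf)) (inv_ne_zero (t.chi_ne_zero hh))

/-- The points in the support are the right translates by `H`. -/
theorem exists_rt {x y : G ⧸ U} (h : (eker t hf).k x y ≠ 0) : ∃ a : t.H, y = t.rt a x := by
  induction x using QuotientGroup.induction_on with
  | H x =>
    induction y using QuotientGroup.induction_on with
    | H y =>
      have h1 := (eker_ne_zero_iff (t := t) (hf := hf) x y).1 h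
      refine ⟨⟨x⁻¹ * y, h1⟩, ?_⟩
      rw [Typ.rt_mk]
      congr 1
      group

/-- Value at a right translate. -/
theorem eker_rt_self (x : G ⧸ U) (a : t.H) :
    (eker t hf).k x (t.rt a x) = ((U.relIndex t.H : ℂ))⁻¹ * (t.chi a)⁻¹ := by
  induction x using QuotientGroup.induction_on with
  | H x =>
    rw [Typ.rt_mk, eker_k]
    have : x⁻¹ * (x * (a : G)) = a := by group
    rw [this, efun_of_mem t a.2]

theorem eker_rt_right (x y : G ⧸ U) (a : t.H) :
    (eker t hf).k x (t.rt a y) = (t.chi a)⁻¹ * (eker t hf).k x y := by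
  induction x using QuotientGroup.induction_on with
  | H x =>
    induction y using QuotientGroup.induction_on with
    | H y =>
      rw [Typ.rt_mk, eker_k, eker_k]
      have e : x⁻¹ * (y * (a : G)) = x⁻¹ * y * a := by group
      rw [e]
      by_cases h : x⁻¹ * y ∈ t.H
      · rw [efun_of_mem t h, efun_of_mem t (t.H.mul_mem h a.2), chi_mul' t h a.2, mul_inv]
        ring
      · rw [efun_of_notMem t h, efun_of_notMem t, mul_zero]
        intro h'
        apply h
        have : x⁻¹ * y = x⁻¹ * y * (a : G) * (a : G)⁻¹ := by group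
        rw [this]
        exact t.H.mul_mem h' (t.H.inv_mem a.2)

theorem eker_rt_left (x y : G ⧸ U) (a : t.H) :
    (eker t hf).k (t.rt a x) y = t.chi a * (eker t hf).k x y := by
  induction x using QuotientGroup.induction_on with
  | H x =>
    induction y using QuotientGroup.induction_on with
    | H y =>
      rw [Typ.rt_mk, eker_k, eker_k]
      have e : (x * (a : G))⁻¹ * y = (a : G)⁻¹ * (x⁻¹ * y) := by group
      rw [e]
      by_cases h : x⁻¹ * y ∈ t.H
      · rw [efun_of_mem t h, efun_of_mem t (t.H.mul_mem (t.H.inv_mem a.2) h),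
          chi_mul' t (t.H.inv_mem a.2) h, t.chi_inv a.2, mul_inv, inv_inv]
        ring
      · rw [efun_of_notMem t h, efun_of_notMem t, mul_zero]
        intro h'
        apply h
        have : x⁻¹ * y = (a : G) * ((a : G)⁻¹ * (x⁻¹ * y)) := by group
        rw [this]
        exact t.H.mul_mem a.2 h'

theorem ls_eker {R : Finset G} (hR : IsCosetReps U (t.H : Set G) R) (g : G) :
    ls (eker t hf) (g : G ⧸ U) = R.image (fun r => ((g * r : G) : G ⧸ U)) := by
  ext y
  induction y using QuotientGroup.induction_on with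
  | H y =>
    rw [mem_ls, eker_ne_zero_iff, Finset.mem_image]
    constructor
    · intro hy
      obtain ⟨r, hr, hry⟩ := hR.ex _ hy
      refine ⟨r, hr, QuotientGroup.eq.2 ?_⟩
      have : (g * r)⁻¹ * y = r⁻¹ * (g⁻¹ * y) := by group
      rw [this]; exact hry
    · rintro ⟨r, hr, hry⟩
      rw [QuotientGroup.eq] at hry
      have : g⁻¹ * y = r * ((g * r)⁻¹ * y) := by group
      rw [this]
      exact t.H.mul_mem (hR.mem r hr) (t.le hry)

theorem sum_ls_eker {M : Type*} [AddCommMonoid M] {R : Finset G}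
    (hR : IsCosetReps U (t.H : Set G) R) (g : G) (F : G ⧸ U → M) :
    ∑ y ∈ ls (eker t hf) (g : G ⧸ U), F y = ∑ r ∈ R, F ((g * r : G) : G ⧸ U) := by
  rw [ls_eker hR, Finset.sum_image]
  intro r hr r' hr' hrr
  apply hR.inj r hr r' hr'
  have := QuotientGroup.eq.1 hrr
  have e : (g * r)⁻¹ * (g * r') = r⁻¹ * r' := by group
  rwa [e] at this

/-- The support has `[H : U]` elements. -/
theorem card_ls_eker (x : G ⧸ U) : (ls (eker t hf) x).card = U.relIndex t.H := by
  obtain ⟨R, hR⟩ := exists_reps t hf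
  induction x using QuotientGroup.induction_on with
  | H x =>
    have h1 := sum_ls_eker (hf := hf) hR x (fun _ => (1 : ℕ))
    rw [← card_reps t hR]
    simpa using h1

/-- The kernel does not depend on the proof. -/
theorem eker_congr {t' : Typ U} (hf' : U.relIndex t'.H ≠ 0) (hH : t'.H = t.H)
    (hchi : ∀ g ∈ t.H, t'.chi g = t.chi g) : eker t' hf' = eker t hf := by
  apply LocKer.ext'
  intro x y
  induction x using QuotientGroup.induction_on with
  | H x =>
    induction y using QuotientGroup.induction_on with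
    | H y =>
      rw [eker_k, eker_k]
      by_cases h : x⁻¹ * y ∈ t.H
      · rw [efun_of_mem t h, efun_of_mem t' (by rw [hH]; exact h), hchi _ h, hH]
      · rw [efun_of_notMem t h, efun_of_notMem t' (by rw [hH]; exact h)]

/-- **Idempotency.** -/
theorem eker_mul_self : LocKer.mul (eker t hf) (eker t hf) = eker t hf := by
  apply LocKer.ext'
  intro x z
  rw [mul_k_eq_sum]
  have h1 : ∀ y ∈ ls (eker t hf) x, (eker t hf).k x y * (eker t hf).k y z
      = ((U.relIndex t.H : ℂ))⁻¹ * (eker t hf).k x z := by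
    intro y hy
    obtain ⟨a, rfl⟩ := exists_rt (mem_ls.1 hy)
    rw [eker_rt_self, eker_rt_left]
    have := t.chi_ne_zero a.2
    field_simp
  rw [Finset.sum_congr rfl h1, Finset.sum_const, card_ls_eker, nsmul_eq_mul, ← mul_assoc,
    mul_inv_cancel₀ (card_ne_zero hf), one_mul]

/-- The idempotent of a unitary type is hermitian. -/
theorem star_eker (hu : ∀ g ∈ t.H, ‖t.chi g‖ = 1) (x y : G ⧸ U) :
    (starRingEnd ℂ) ((eker t hf).k y x) = (eker t hf).k x y := by
  induction x using QuotientGroup.induction_on with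
  | H x =>
    induction y using QuotientGroup.induction_on with
    | H y =>
      rw [eker_k, eker_k]
      have e : y⁻¹ * x = (x⁻¹ * y)⁻¹ := by group
      rw [e]
      by_cases h : x⁻¹ * y ∈ t.H
      · have h1 : (starRingEnd ℂ) (t.chi (x⁻¹ * y)) = (t.chi (x⁻¹ * y))⁻¹ := by
          rw [Complex.inv_def, Complex.normSq_eq_norm_sq, hu _ h]
          simp
        rw [efun_of_mem t h, efun_of_mem t (t.H.inv_mem h), t.chi_inv h, inv_inv, map_mul, h1,
          map_inv₀, Complex.conj_natCast]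
      · rw [efun_of_notMem t h, efun_of_notMem t (fun h' => h (by
          have := t.H.inv_mem h'
          rwa [inv_inv] at this)), map_zero]

end Basic

/-! ### Operators -/

section Op

variable {G : Type*} [Group G] {ι : Type*} {L : LevelFam G ι} {E : Type*} [AddCommGroup E]
  [Module ℂ E] {i : ι} {t : Typ (L.U i)} {hf : (L.U i).relIndex t.H ≠ 0}

/-- `f` is typed at the place `i`. -/
def IsTypedAt (t : Typ (L.U i)) (f : XF L → E) : Prop :=
  ∀ (h : t.H) (x : XF L), f (XF.upd x i (t.rt h (x i))) = t.chi h • f x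

theorem lop_eker_of_reps {R : Finset G} (hR : IsCosetReps (L.U i) (t.H : Set G) R) (f : XF L → E)
    (x : XF L) (g : G) (hg : x i = (g : G ⧸ L.U i)) :
    lop i (eker t hf) f x = ∑ r ∈ R, (((L.U i).relIndex t.H : ℂ)⁻¹ * (t.chi r)⁻¹) •
      f (XF.upd x i ((g * r : G) : G ⧸ L.U i)) := by
  rw [lop_def, hg, sum_ls_eker hR g (fun y => (eker t hf).k (g : G ⧸ L.U i) y • f (XF.upd x i y))]
  apply Finset.sum_congr rfl
  intro r hr
  rw [eker_k]
  have : g⁻¹ * (g * r) = r := by group
  rw [this, efun_of_mem t (hR.mem r hr)]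

/-- A typed function is fixed. -/
theorem IsTypedAt.lop_eker {f : XF L → E} (h : IsTypedAt t f) : lop i (eker t hf) f = f := by
  funext x
  rw [lop_def]
  have h1 : ∀ y ∈ ls (eker t hf) (x i), (eker t hf).k (x i) y • f (XF.upd x i y)
      = ((L.U i).relIndex t.H : ℂ)⁻¹ • f x := by
    intro y hy
    obtain ⟨a, rfl⟩ := exists_rt (mem_ls.1 hy)
    rw [eker_rt_self, h a x, smul_smul, mul_assoc, inv_mul_cancel₀ (t.chi_ne_zero a.2), mul_one]
  rw [Finset.sum_congr rfl h1, Finset.sum_const, card_ls_eker, ← Nat.cast_smul_eq_nsmul ℂ, smul_smul,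
    mul_inv_cancel₀ (card_ne_zero hf), one_smul]

/-- The image consists of typed functions. -/
theorem lop_eker_typed (f : XF L → E) : IsTypedAt t (lop i (eker t hf) f) := by
  intro a x
  have h1 : lop i (eker t hf) f (XF.upd x i (t.rt a (x i)))
      = ∑ y ∈ ls (eker t hf) (x i), (eker t hf).k (t.rt a (x i)) y • f (XF.upd x i y) := by
    rw [lop_eq_sum (s := ls (eker t hf) (x i))]
    · apply Finset.sum_congr rfl
      intro y _
      rw [XF.upd_same, XF.upd_upd]
    · intro y hy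
      rw [XF.upd_same, eker_rt_left] at hy
      exact mem_ls.2 (right_ne_zero_of_mul hy)
  rw [h1, lop_def, Finset.smul_sum]
  apply Finset.sum_congr rfl
  intro y _
  rw [eker_rt_left, smul_smul]

/-- **Typed functions are the fixed functions of the idempotent.** -/
theorem lop_eker_eq_iff {f : XF L → E} : lop i (eker t hf) f = f ↔ IsTypedAt t f :=
  ⟨fun h => h ▸ lop_eker_typed f, fun h => h.lop_eker⟩

end Op

/-! ### Transport and restriction -/

section Trans

variable {G : Type*} [Group G] (s : G ≃* G) {U U' : Subgroup G} (h : ∀ g, g ∈ U ↔ s g ∈ U')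
  {t : Typ U} {t' : Typ U'}

include h in
theorem relIndex_pull (hH : ∀ g, g ∈ t.H ↔ s g ∈ t'.H) :
    U.relIndex t.H = U'.relIndex t'.H := by
  have h1 : U = U'.comap (s : G →* G) := by
    ext g
    rw [Subgroup.mem_comap]
    exact h g
  have h2 : t'.H = t.H.map (s : G →* G) := by
    ext g
    rw [Subgroup.mem_map]
    constructor
    · intro hg
      obtain ⟨g, rfl⟩ := s.surjective g
      exact ⟨g, (hH g).2 hg, rfl⟩
    · rintro ⟨g, hg, rfl⟩
      exact (hH g).1 hg
  have h3 : U.relIndex t.H = (U'.comap (s : G →* G)).relIndex t.H := by rw [← h1]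
  rw [h3, h2, Subgroup.relIndex_comap]

/-- Transport of the idempotent by an automorphism. -/
theorem pull_eker (hH : ∀ g, g ∈ t.H ↔ s g ∈ t'.H) (hchi : ∀ g ∈ t.H, t'.chi (s g) = t.chi g)
    (hf : U.relIndex t.H ≠ 0) (hf' : U'.relIndex t'.H ≠ 0) :
    pull s h (eker t' hf') = eker t hf := by
  apply LocKer.ext'
  intro x y
  induction x using QuotientGroup.induction_on with
  | H x =>
    induction y using QuotientGroup.induction_on with
    | H y =>
      rw [pull_k, smap_mk, smap_mk, eker_k, eker_k, ← map_inv, ← map_mul]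
      by_cases hg : x⁻¹ * y ∈ t.H
      · rw [efun_of_mem t hg, efun_of_mem t' ((hH _).1 hg), hchi _ hg, relIndex_pull s h hH]
      · rw [efun_of_notMem t hg, efun_of_notMem t' (fun h' => hg ((hH _).2 h'))]

end Trans

section Res

variable {G GF : Type*} [Group G] [Group GF] (ι : GF →* G) {U : Subgroup G} {V : Subgroup GF}
  (hV : ∀ g, g ∈ V ↔ ι g ∈ U) {t : Typ U} {tF : Typ V}

include hV in
theorem isCosetReps_map (hd : ∀ g : G, ∃ f : GF, g⁻¹ * ι f ∈ U)
    (hH : ∀ g, g ∈ tF.H ↔ ι g ∈ t.H) {R : Finset GF}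
    (hR : IsCosetReps V (tF.H : Set GF) R) : IsCosetReps U (t.H : Set G) (R.image ι) := by
  refine ⟨?_, ?_, ?_⟩
  · intro r hr
    obtain ⟨r0, hr0, rfl⟩ := Finset.mem_image.1 hr
    exact (hH r0).1 (hR.mem r0 hr0)
  · intro g hg
    obtain ⟨f, hf⟩ := hd g
    have h1 : f ∈ tF.H := by
      rw [hH]
      have : ι f = g * (g⁻¹ * ι f) := by group
      rw [this]
      exact t.H.mul_mem hg (t.le hf)
    obtain ⟨r, hr, hrf⟩ := hR.ex f h1
    refine ⟨ι r, Finset.mem_image_of_mem _ hr, ?_⟩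
    have h2 : (ι r)⁻¹ * ι f ∈ U := by
      have := (hV _).1 hrf
      rwa [map_mul, map_inv] at this
    have : (ι r)⁻¹ * g = ((ι r)⁻¹ * ι f) * (g⁻¹ * ι f)⁻¹ := by group
    rw [this]
    exact U.mul_mem h2 (U.inv_mem hf)
  · intro r hr r' hr' hrr
    obtain ⟨r0, hr0, rfl⟩ := Finset.mem_image.1 hr
    obtain ⟨r1, hr1, rfl⟩ := Finset.mem_image.1 hr'
    rw [hR.inj r0 hr0 r1 hr1 ((hV _).2 (by rwa [map_mul, map_inv]))]

include hV in
theorem relIndex_res (hd : ∀ g : G, ∃ f : GF, g⁻¹ * ι f ∈ U)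
    (hH : ∀ g, g ∈ tF.H ↔ ι g ∈ t.H) (hfF : V.relIndex tF.H ≠ 0) :
    V.relIndex tF.H = U.relIndex t.H := by
  obtain ⟨R, hR⟩ := exists_reps tF hfF
  have hR' := isCosetReps_map ι hV hd hH hR
  rw [← card_reps tF hR, ← card_reps t hR', Finset.card_image_of_injOn]
  intro r hr r' hr' hrr
  apply hR.inj r hr r' hr'
  rw [hV, map_mul, map_inv, hrr, inv_mul_cancel]
  exact U.one_mem

include hV in
theorem relIndex_res' (hH : ∀ g, g ∈ tF.H ↔ ι g ∈ t.H) (hf : U.relIndex t.H ≠ 0) :
    V.relIndex tF.H ≠ 0 := by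
  have h1 : V = U.comap ι := by
    ext g
    rw [Subgroup.mem_comap]
    exact hV g
  have h2 : tF.H.map ι ≤ t.H := by
    rintro _ ⟨g, hg, rfl⟩
    exact (hH g).1 hg
  have h3 : V.relIndex tF.H = U.relIndex (tF.H.map ι) := by
    rw [← Subgroup.relIndex_comap, ← h1]
  rw [h3]
  exact mt (Subgroup.relIndex_eq_zero_of_le_right h2) hf

/-- Restriction of the idempotent to a dense subgroup. -/
theorem res_eker (hd : ∀ g : G, ∃ f : GF, g⁻¹ * ι f ∈ U)
    (hH : ∀ g, g ∈ tF.H ↔ ι g ∈ t.H) (hchi : ∀ g ∈ tF.H, t.chi (ι g) = tF.chi g)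
    (hf : U.relIndex t.H ≠ 0) (hfF : V.relIndex tF.H ≠ 0) :
    res ι hV (eker t hf) = eker tF hfF := by
  rw [res_eq_iff]
  intro x y
  rw [eker_k, eker_k, ← map_inv, ← map_mul]
  by_cases hg : x⁻¹ * y ∈ tF.H
  · rw [efun_of_mem tF hg, efun_of_mem t ((hH _).1 hg), hchi _ hg, relIndex_res ι hV hd hH hfF]
  · rw [efun_of_notMem tF hg, efun_of_notMem t (fun h' => hg ((hH _).2 h'))]

end Res

section Conv

variable {G : Type*} [Group G] {ι : Type*} {L : LevelFam G ι} (T : Twist L)

/-- The convolution at a split place of the type idempotents of a stable family of types is the type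
idempotent. -/
theorem convAt_eker (Ty : ∀ i, Typ (L.U i)) (a : GlobKer L) (i : ι)
    (hf : ∀ i, (L.U i).relIndex (Ty i).H ≠ 0)
    (hH : ∀ j g, g ∈ (Ty j).H ↔ T.s g ∈ (Ty (T.σ j)).H)
    (hchi : ∀ j, ∀ g ∈ (Ty j).H, (Ty (T.σ j)).chi (T.s g) = (Ty j).chi g)
    (h0 : a.loc i = eker (Ty i) (hf i)) (h1 : a.loc (T.σ i) = eker (Ty (T.σ i)) (hf _))
    (h2 : a.loc (T.σ (T.σ i)) = eker (Ty (T.σ (T.σ i))) (hf _)) :
    convAt T a i = eker (Ty i) (hf i) := by
  rw [convAt, h0, h1, h2,
    pull_eker T.s (T.map_U (T.σ i)) (hH (T.σ i)) (hchi (T.σ i)) (hf _) (hf _),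
    pull_eker T.s (T.map_U i) (hH i) (hchi i) (hf _) (hf _), eker_mul_self, eker_mul_self]

end Conv

end Fermat.Agent.H84Z
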