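import Fermat.Agent.H7ZHook
import Fermat.Agent.H84ZTyp
import Fermat.Agent.H50ZLvl
import Fermat.Agent.H55DC

/-!
# S47, block (C), target vector, part 1 (helper56)

* `tyOf` : the types attached to lattice data on a model;
* `lop_T_of_heckeEq`, `lop_e_of_typed`, `gop_mono` : from the Hecke equations and the types of a
  function to the operators of `HData`.
-/

set_option autoImplicit false
set_option linter.unusedSectionVars false

open IsDedekindDomain HeightOneSpectrum WithZero NumberField Matrix
open scoped MatrixGroups Classical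

noncomputable section

namespace Fermat.Agent.H56Z

open Fermat.Agent.H59XF Fermat.Agent.H59D Fermat.Agent.H76U Fermat.Agent.H51Z
open Fermat.Agent.H79S (IsInd IsTyp HData KerData)
open Fermat.Agent.H7.Z (HeckeEq borP)

/-! ### Types -/

section Types

variable {K : Type*} [Field K] [NumberField K]

/-- The types attached to lattice data at the places of `S`, trivial elsewhere. -/
def tyOf (L : Level (𝓞 K) K) (S : Finset (HeightOneSpectrum (𝓞 K)))
    (T : HeightOneSpectrum (𝓞 K) → TD K) (h : ∀ w ∈ S, L.U w = (T w).U)
    (w : HeightOneSpectrum (𝓞 K)) : Typ (L.fam.U w) :=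
  if hw : w ∈ S then
    { H := (T w).H
      chi := (T w).chi
      le := fun g hg => by
        have h1 : g ∈ (T w).U := by rw [← h w hw]; exact hg
        exact h1.1
      mul := fun _ hg _ hh => (T w).chi_mul hg hh
      one := fun g hg => by
        have h1 : g ∈ (T w).U := by rw [← h w hw]; exact hg
        exact h1.2
      norm := fun g hg u hu => by
        have h1 : u ∈ (T w).U := by rw [← h w hw]; exact hu
        have h2 := (T w).typ.norm g hg u h1
        show _ ∈ L.U w
        rw [h w hw]
        exact h2 }
  else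
    { H := L.fam.U w
      chi := fun _ => 1
      le := le_rfl
      mul := fun _ _ _ _ => (one_mul 1).symm
      one := fun _ _ => rfl
      norm := fun _ hh _ hu => mul_mem (mul_mem (inv_mem hh) hu) hh }

variable {L : Level (𝓞 K) K} {S : Finset (HeightOneSpectrum (𝓞 K))}
  {T : HeightOneSpectrum (𝓞 K) → TD K} (h : ∀ w ∈ S, L.U w = (T w).U)

theorem tyOf_H {w : HeightOneSpectrum (𝓞 K)} (hw : w ∈ S) : (tyOf L S T h w).H = (T w).H := by
  unfold tyOf
  rw [dif_pos hw]

theorem tyOf_chi {w : HeightOneSpectrum (𝓞 K)} (hw : w ∈ S) :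
    (tyOf L S T h w).chi = (T w).chi := by
  unfold tyOf
  rw [dif_pos hw]

end Types

/-! ### Operators on functions: Hecke operators -/

section Hecke

variable {K : Type*} [Field K] [NumberField K] {L : LevelFam PGL(2, K) (HeightOneSpectrum (𝓞 K))}
  {w : HeightOneSpectrum (𝓞 K)} {κ : LocKer (L.U w)} {φ : XF L → ℂ}

/-- The operator `T_w` from the Hecke equation. -/
theorem lop_of_heckeEq (hL : L.U w = H59D.U0 w) (hκ : IsInd κ (cellT (w.valuation K)))
    {lam : ℂ} {ϖ : Kˣ} (hϖ : w.valuation K (ϖ : K) = exp (-(1 : ℤ))) {R : Finset K}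
    (hR : IsReps (w.valuation K) 1 R) (h : HeckeEq (borP K) L φ w ϖ R lam) :
    lop w κ φ = lam • φ := by
  have hL' : L.U w = H51Z.U0 (w.valuation K) := hL.trans (U0_eq w)
  have hDC : DC (L.U w) (cellT (w.valuation K)) := (disc_nf w).dcT.of_eq hL'
  rw [H7.Z.isInd_eq_lind hκ hDC]
  funext y
  obtain ⟨g, hg⟩ := QuotientGroup.mk_surjective (y w)
  rw [lop_lind w hDC ((isCosetReps_repsT hϖ hR).of_eq hL') φ y g hg.symm, Pi.smul_apply,
    smul_eq_mul, h y g hg.symm, repsT, Finset.sum_insert, Finset.sum_image, add_comm]
  · congr 1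
    · refine Finset.sum_congr rfl fun b _ => ?_
      rw [H7.Z.mk_bm_eq, mul_assoc]
    · rw [H7.Z.mk_dm_eq]
  · intro b hb b' hb' hbb
    exact H7.Z.mk_bm_inj hbb
  · intro hmem
    obtain ⟨b, hb, hbb⟩ := Finset.mem_image.1 hmem
    exact H7.Z.bm_ne_dm hϖ hbb

end Hecke

/-! ### Operators on functions: types -/

section TypOp

variable {G : Type*} [Group G] {ι : Type*} {L : LevelFam G ι} {i : ι} {κ : LocKer (L.U i)}

/-- The idempotent of a type by its values. -/
theorem isTyp_eq_eker {t : Typ (L.U i)} (hκ : IsTyp κ t.H t.chi) (hf : (L.U i).relIndex t.H ≠ 0) :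
    κ = H84Z.eker t hf := by
  apply LocKer.ext'
  intro x y
  induction x using QuotientGroup.induction_on with
  | H g =>
    induction y using QuotientGroup.induction_on with
    | H g' =>
      rw [H84Z.eker_k, H84Z.efun]
      split_ifs with hh
      · rw [(hκ g g').1 hh, div_eq_inv_mul]
        rfl
      · exact (hκ g g').2 hh

end TypOp

/-! ### Global monomials -/

section Mono

variable {G : Type*} [Group G] {ι : Type*} {L : LevelFam G ι} (D : HData L)
  {A : Type*} [AddCommGroup A] [Module ℂ A] {φ : XF L → A}

theorem gop_const_smul (a : GlobKer L) (c : ℂ) (f : XF L → A) : gop a (c • f) = c • gop a f := by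
  funext x
  simp only [gop_def, Pi.smul_apply, Finset.smul_sum]
  refine Finset.sum_congr rfl fun y _ => ?_
  rw [smul_comm]

/-- A function fixed by all local components is fixed. -/
theorem gop_eq_self (s : Finset ι) : ∀ a : GlobKer L, (∀ i ∉ s, a.loc i = LocKer.one) →
    (∀ i ∈ s, lop i (a.loc i) φ = φ) → gop a φ = φ := by
  induction s using Finset.induction_on with
  | empty =>
    intro a h1 _
    have : a = gone := gext fun i => by rw [h1 i (Finset.notMem_empty i), gone_loc]
    rw [this, gop_gone]
  | insert i s _ ih =>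
    intro a h1 h2
    rw [gop_split a i, ih (gset a i LocKer.one), h2 i (Finset.mem_insert_self i s)]
    · intro j hj
      by_cases hji : j = i
      · subst hji; rw [gset_same]
      · rw [gset_ne _ hji]
        exact h1 j fun h => (Finset.mem_insert.1 h).elim hji hj
    · intro j hj
      by_cases hji : j = i
      · subst hji; rw [gset_same, lop_one]
      · rw [gset_ne _ hji]
        exact h2 j (Finset.mem_insert_of_mem hj)

theorem gop_eS_of (h : ∀ i ∈ D.S, lop i (D.e i) φ = φ) : gop D.eS φ = φ := by
  refine gop_eq_self D.S D.eS ?_ ?_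
  · intro i hi
    rw [HData.eS, HData.mono_loc]
    by_cases h0 : i = D.w0
    · subst h0
      rw [D.loc_w0, H79S.lpow_zero]
    · rw [D.loc_good hi h0, Finsupp.zero_apply, H79S.lpow_zero]
  · intro i hi
    rw [HData.eS, HData.mono_loc, D.loc_S hi]
    exact h i hi

theorem gmul_single_mono {i : ι} (hi : i ∉ D.S) (h0 : i ≠ D.w0) (n : ι →₀ ℕ) (m : ℕ) :
    gmul (single i (D.T i)) (D.mono n m) = D.mono (Finsupp.single i 1 + n) m := by
  apply gext; intro j
  rw [gmul_loc]
  by_cases hj : j = i
  · subst hj
    rw [single_same, HData.mono_loc, HData.mono_loc, D.loc_good hi h0, D.loc_good hi h0,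
      Finsupp.add_apply, Finsupp.single_eq_same, add_comm, H79S.lpow_succ]
  · rw [single_ne hj, one_lmul, HData.mono_loc, HData.mono_loc, HData.loc, HData.loc,
      Finsupp.add_apply, Finsupp.single_eq_of_ne hj, zero_add]

/-- A joint eigenfunction of the Hecke operators which is fixed by the idempotents is an
eigenfunction of the monomials. -/
theorem gop_mono (he : gop D.eS φ = φ) {lam : ι → ℂ}
    (hT : ∀ i ∉ D.S, i ≠ D.w0 → lop i (D.T i) φ = lam i • φ) (n : ι →₀ ℕ)
    (hn : ∀ i ∈ n.support, i ∉ D.S ∧ i ≠ D.w0) :
    gop (D.mono n 0) φ = (n.prod fun i k => lam i ^ k) • φ := by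
  induction n using Finsupp.induction_linear with
  | zero => 
    rw [Finsupp.prod_zero_index, one_smul]
    exact he
  | add f g ihf ihg => 
    have hf : ∀ i ∈ f.support, i ∉ D.S ∧ i ≠ D.w0 := by
      intro i hi
      refine hn i ?_
      rw [Finsupp.mem_support_iff] at hi ⊢
      rw [Finsupp.add_apply]
      omega
    have hg : ∀ i ∈ g.support, i ∉ D.S ∧ i ≠ D.w0 := by
      intro i hi
      refine hn i ?_
      rw [Finsupp.mem_support_iff] at hi ⊢
      rw [Finsupp.add_apply]
      omega
    have h1 : D.mono (f + g) 0 = gmul (D.mono f 0) (D.mono g 0) := by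
      rw [D.mono_mul, add_zero]
    rw [h1, gop_gmul, ihg hg, gop_const_smul, ihf hf, smul_smul, mul_comm, 
      ← Finsupp.prod_add_index']
    · intro i
      exact pow_zero _
    · intro i a b
      exact pow_add _ _ _
  | single i k =>
    by_cases hk : k = 0
    · subst hk
      rw [Finsupp.single_zero, Finsupp.prod_zero_index, one_smul]
      exact he
    · have hi := hn i (by rw [Finsupp.mem_support_iff, Finsupp.single_eq_same]; exact hk)
      rw [Finsupp.prod_single_index (h := fun i k => lam i ^ k) (pow_zero _)]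
      clear hn hk
      induction k with
      | zero => 
        rw [Finsupp.single_zero, pow_zero, one_smul]
        exact he
      | succ k ih =>
        have h1 : Finsupp.single i (k + 1) = Finsupp.single i 1 + Finsupp.single i k := by
          rw [← Finsupp.single_add, add_comm]
        rw [h1, ← gmul_single_mono D hi.1 hi.2, gop_gmul, ih, gop_const_smul, gop_single, 
          hT i hi.1 hi.2, smul_smul, pow_succ]

end Mono

end Fermat.Agent.H56Z
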