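import Fermat.Agent.H50ZPull
import Fermat.Agent.H51ZKD
import Fermat.Agent.H51ZPull
import Fermat.Agent.H56ZTgt1

/-!
# Reader's guide: operators on coset spaces and the Iwahori algebra (block (C) of S47)

Nothing is proved in this file. Every theorem is the exact statement of a theorem of the library,
with all hypotheses written out, followed by a citation. Only `Guide` imports it. It is a companion
of `Fermat.Agent.GuideOctC` (read sections 1 and 2 there first); it is continued in
`Fermat.Agent.GuideOctCTarget`.

## What it is about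

In block (C) automorphic forms on `PGL₂` over a number field `K` are functions on
`X = (H3)^J × X_f`, invariant under `PGL₂(K)`; `X_f` is the restricted product of the discrete sets
`PGL₂(K) / U_w` over the finite places `w`, with subgroups `U_w` of `PGL₂(K)` itself. No completion, no
adele ring and no topological group occurs. Hecke operators are kernels of finite range on these
sets.

1. *Operators on `X_f`* (`points` to `operator_automorphism`): invariant kernels on `G / H`, their
   products and transposes; finite products of local kernels; the operators, their multiplicativity,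
   their behaviour under left translations and under automorphisms.
2. *The algebra at one place* (`maximal_compact` to `maximal_level_T`): the Hecke operator `T`; the
   Iwahori subgroup, the kernels `P`, `W`, `U ^ m`, with the relations `P² = (q + 1) P`, `W² = 1`,
   `P = 1 + U W`; their action on functions invariant under the maximal compact subgroup.
3. *Types, Hecke equations, monomials, change of level* (`kernel_of_a_type` to `change_of_level`).

## References

NOTES.md, section A.13: [475] (the space `XF`, levels, kernels), [402] (operators, local kernels,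
Iwahori algebra), [448] (monomials), [433] (Hecke equations), [450] (change of level); for the operators
on bounded invariant functions see [449] and `GuideOctCSpec`. Files `H59XF` (helper59), `H51Z*`
(helper51), `H79SMono` (helper79), `H50ZPull` (helper50), `H56ZTgt1` (helper56). All theorems are in the
closure of S47 only. Several of the texts of sections 1 and 2 are by helper51.

## Notation

`PGL(2, K)` is `GL₂(K)` modulo scalars, `ProjGenLinGroup.mk g` the class of the matrix `g`. The
valuation `w.valuation K` of a finite place `w` is written multiplicatively, with values in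
`ℤᵐ⁰ = {0} ∪ {exp n}`, so `v(π) = exp (-1)` for a uniformiser `π`, and `v(x) ≤ 1` means that `x` is
integral at `w`. `bm a b` is the matrix `(a b; 0 1)`, `dm d` is `diag(1, d)`, `W π` is the class of
`(0 1; π 0)`.
-/

set_option autoImplicit false

open IsDedekindDomain HeightOneSpectrum WithZero NumberField Matrix
open scoped MatrixGroups ComplexConjugate
open Fermat.Agent.H59XF Fermat.Agent.H59D Fermat.Agent.H51Z Fermat.Agent.H79S

namespace Fermat.Agent.Guide.OctCLevel

/-! ## 1. Operators on `X_f` -/

/-- **Points.** `L : LevelFam G ι` is a family of subgroups `L.U i` of a group `G` such that every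
element of `G` lies in almost all of them. `XF L` is the set of the families `x` of cosets
`x i ∈ G / L.U i`, almost all of them trivial; `G` acts diagonally, and `XF.upd x i a` is `x` with the
component at `i` replaced by `a`. File `H59XF`. -/
theorem points {G : Type*} [Group G] {ι : Type*} (L : LevelFam G ι) (x : XF L) (g : G) (i : ι)
    [DecidableEq ι] (a : G ⧸ L.U i) :
    {i | g ∉ L.U i}.Finite ∧ {i | x i ≠ ((1 : G) : G ⧸ L.U i)}.Finite ∧ (g • x) i = g • x i ∧
      XF.upd x i a i = a ∧ (∀ j, j ≠ i → XF.upd x i a j = x j) ∧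
      g • XF.upd x i a = XF.upd (g • x) i (g • a) :=
  ⟨L.adm g, x.finite, rfl, XF.upd_same x i a, fun _ h => XF.upd_ne x h a, XF.smul_upd g x i a⟩

open Classical in
/-- **Local kernels.** `κ : LocKer H` is a function `κ.k` on `G / H × G / H`, invariant under the diagonal
action of `G`, and of finite range in both variables. `LocKer.mul` is the convolution, `LocKer.one` the
unit, `ltr` the transpose. The convolution reverses under the transpose. Files `H59XF`, `H51ZOp`. -/
theorem local_kernels {G : Type*} [Group G] {H : Subgroup G} (κ κ' : LocKer H) (g : G)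
    (x y : G ⧸ H) :
    κ.k (g • x) (g • y) = κ.k x y ∧ {z | κ.k x z ≠ 0}.Finite ∧ {z | κ.k z y ≠ 0}.Finite ∧
      (LocKer.mul κ κ').k x y = ∑ᶠ z, κ.k x z * κ'.k z y ∧
      (LocKer.one : LocKer H).k x y = (if x = y then 1 else 0) ∧ (ltr κ).k x y = κ.k y x ∧
      ltr (LocKer.mul κ κ') = LocKer.mul (ltr κ') (ltr κ) :=
  ⟨κ.inv g x y, κ.fin_right x, κ.fin_left y, rfl, rfl, rfl, ltr_mul κ κ'⟩

open Classical in
/-- **Double cosets.** `DC H D`: `D` is a union of double cosets of `H` which consists of finitely many
left and of finitely many right cosets. Its indicator function defines the kernel `lind D h`.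
`IsCosetReps H D R`: the finite set `R` contains exactly one element of every coset `r H` in `D`. Then
the operator of `lind D h` at `i` replaces the component `g H` by the `g r H`, `r ∈ R`, and adds up.
File `H51ZKer`. -/
theorem double_cosets {G : Type*} [Group G] {ι : Type*} {L : LevelFam G ι} {i : ι} {D : Set G}
    (h : DC (L.U i) D) (g g' : G) {E : Type*} [AddCommGroup E] [Module ℂ E] {R : Finset G}
    (hR : IsCosetReps (L.U i) D R) (f : XF L → E) (x : XF L) (hg : x i = (g : G ⧸ L.U i)) :
    (g⁻¹ * g' ∈ D → (lind D h).k (g : G ⧸ L.U i) (g' : G ⧸ L.U i) = 1) ∧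
    (g⁻¹ * g' ∉ D → (lind D h).k (g : G ⧸ L.U i) (g' : G ⧸ L.U i) = 0) ∧
    lop i (lind D h) f x = ∑ r ∈ R, f (XF.upd x i ((g * r : G) : G ⧸ L.U i)) :=
  ⟨fun hD => (lind_k D h g g').trans (if_pos hD), fun hD => (lind_k D h g g').trans (if_neg hD),
    lop_lind i h hR f x g hg⟩

/-- **Global kernels.** `a : GlobKer L` is a family of local kernels `a.loc i`, almost all of them the
unit kernel; the kernel on `XF L` is their product. It is invariant under the action of `G`.
Files `H59XF`, `H51ZOp`. -/
theorem global_kernels {G : Type*} [Group G] {ι : Type*} {L : LevelFam G ι} (a : GlobKer L) (g : G)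
    (x y : XF L) :
    {i | a.loc i ≠ LocKer.one}.Finite ∧ a.k x y = ∏ᶠ i, (a.loc i).k (x i) (y i) ∧
      a.k (g • x) (g • y) = a.k x y :=
  ⟨a.fin, rfl, a.k_smul g x y⟩

open Classical in
/-- **The operator** `gop a` of a global kernel on functions with values in a complex vector space, and
the operator `lop i κ` of a kernel at the place `i`. All sums are finite; `ls κ z` is the set of the `y`
with `κ(z, y) ≠ 0`. `single i κ` is the global kernel with component `κ` at `i` and trivial components
elsewhere. File `H51ZOp`. -/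
theorem operators {G : Type*} [Group G] {ι : Type*} {L : LevelFam G ι} {E : Type*} [AddCommGroup E]
    [Module ℂ E] (a : GlobKer L) {i : ι} (κ : LocKer (L.U i)) (f : XF L → E) (x : XF L) :
    gop a f x = ∑ᶠ y, a.k x y • f y ∧
      lop i κ f x = ∑ y ∈ ls κ (x i), κ.k (x i) y • f (XF.upd x i y) ∧
      gop (single i κ) f = lop i κ f :=
  ⟨gop_eq_finsum a f x, lop_def i κ f x, gop_single i κ f⟩

/-- **Multiplicativity.** Products of kernels (`gmul` is the product component by component) act by the
products of the operators, and an operator at `i` commutes with all kernels which are trivial at `i`.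
File `H51ZOp`. -/
theorem operator_mul {G : Type*} [Group G] {ι : Type*} {L : LevelFam G ι} {E : Type*}
    [AddCommGroup E] [Module ℂ E] (a b : GlobKer L) {i : ι} (κ κ' : LocKer (L.U i))
    (f : XF L → E) :
    gop (gmul a b) f = gop a (gop b f) ∧ lop i (LocKer.mul κ κ') f = lop i κ (lop i κ' f) ∧
      (a.loc i = LocKer.one → lop i κ (gop a f) = gop a (lop i κ f)) :=
  ⟨gop_gmul a b f, lop_mul i κ κ' f, fun h => lop_gop_comm a h κ f⟩

/-- **Splitting off one place.** The operator of `a` is the operator of its component at `i`, applied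
after the operator of the remaining components (`gset a i κ` is `a` with the component at `i` replaced
by `κ`). This is how statements about `X_f` are reduced to one place. File `H51ZOp`. -/
theorem operator_split {G : Type*} [Group G] {ι : Type*} {L : LevelFam G ι} {E : Type*}
    [AddCommGroup E] [Module ℂ E] (a : GlobKer L) (i : ι) (f : XF L → E) :
    gop a f = lop i (a.loc i) (gop (gset a i LocKer.one) f) :=
  gop_split a i f

/-- **Left translations.** Operators commute with left translations, so they preserve invariant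
functions. File `H51ZOp`. -/
theorem operator_translate {G : Type*} [Group G] {ι : Type*} {L : LevelFam G ι} {E : Type*}
    [AddCommGroup E] [Module ℂ E] (a : GlobKer L) (f : XF L → E) (g : G) (x : XF L) :
    gop a f (g • x) = gop a (fun y => f (g • y)) x :=
  gop_smul a f g x

/-- **Automorphisms.** `t : Twist L` consists of an automorphism `t.s` of `G` and a permutation `t.σ` of
the places with `t.s (L.U i) = L.U (t.σ i)`; it induces maps `t.cmap i : G / L.U i → G / L.U (t.σ i)` of
cosets and the map `t.act` of `XF L`. If `b` is the transport of `a` by `t` (`IsTw t a b`), composition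
with `t.act` exchanges the operators. In block (C) `t` comes from a generator of `Gal(E/F)`. Files
`H59XF`, `H51ZOp`. -/
theorem operator_automorphism {G : Type*} [Group G] {ι : Type*} {L : LevelFam G ι} {E : Type*}
    [AddCommGroup E] [Module ℂ E] (t : Twist L) (a b : GlobKer L)
    (h : ∀ (i : ι) (x y : G ⧸ L.U i),
      (b.loc (t.σ i)).k (t.cmap i x) (t.cmap i y) = (a.loc i).k x y)
    (f : XF L → E) (x : XF L) (g : G) :
    t.act (g • x) = t.s g • t.act x ∧ (∀ i, t.act x (t.σ i) = t.cmap i (x i)) ∧
      gop b f (t.act x) = gop a (fun y => f (t.act y)) x :=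
  ⟨t.act_smul g x, fun i => t.act_apply_σ x i, IsTw.gop_act h f x⟩

/-! ## 2. The algebra at one place

`K` is a field with a discrete valuation `v`; in the applications a number field with the valuation of
a finite place. -/

/-- **The maximal compact subgroup and the Hecke operator.** The class of a matrix is in `H51Z.U0 v` if it
contains an integral matrix of unit determinant, and in the double coset `cellT v` if it contains an
integral matrix whose determinant is a uniformiser. If `B` represents the integers modulo `π`, the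
cosets of `U0 v` in `cellT v` are those of `diag(1, π)` and `(π b; 0 1)`, `b ∈ B`; their set is
`repsT π B`. So the kernel of `cellT v` is the usual Hecke operator, a sum over `q + 1` neighbours. Files
`H51ZLoc`, `H51ZKer`. -/
theorem maximal_compact {K : Type*} [Field K] {v : Valuation K ℤᵐ⁰} (x : PGL(2, K)) {π : Kˣ}
    (hπ : v (π : K) = exp (-1 : ℤ)) {B : Finset K} (hB : IsReps v 1 B) :
    (x ∈ H51Z.U0 v ↔ ∃ g : GL (Fin 2) K, ((∀ i j, v (g i j) ≤ 1) ∧
      v (GeneralLinearGroup.det g : K) = 1) ∧ ProjGenLinGroup.mk g = x) ∧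
    (x ∈ cellT v ↔ ∃ g : GL (Fin 2) K, ProjGenLinGroup.mk g = x ∧ (∀ i j, v (g i j) ≤ 1) ∧
      v (GeneralLinearGroup.det g : K) = exp (-1 : ℤ)) ∧
    IsCosetReps (H51Z.U0 v) (cellT v) (repsT π B) ∧ (repsT π B).card = B.card + 1 ∧
    (x ∈ repsT π B ↔ x = ProjGenLinGroup.mk (dm π) ∨
      ∃ b ∈ B, ProjGenLinGroup.mk (bm π b) = x) :=
  ⟨Iff.rfl, Iff.rfl, isCosetReps_repsT hπ hB, card_repsT hπ hB, mem_repsT⟩

/-- **The Iwahori subgroup and the double cosets of `U ^ m`**, for a valuation `v` of a field `K`. The
class of `g` is in `Iw v` if, after multiplication by a scalar, `g` is integral with unit determinant and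
lower left entry of valuation `< 1`; `cellU v c` is the double coset `Iw · diag(a, 1) · Iw`,
`v(a) = c ≤ 1`. File `H51ZIw`. -/
theorem iwahori_iff {K : Type*} [Field K] (v : Valuation K ℤᵐ⁰) (g : GL (Fin 2) K) (c : ℤᵐ⁰) :
    (ProjGenLinGroup.mk g ∈ Iw v ↔ v (g 0 0) ≤ v (g 1 1) ∧ v (g 0 1) ≤ v (g 1 1) ∧
      v (g 1 0) < v (g 1 1) ∧ v (GeneralLinearGroup.det g : K) = v (g 1 1) ^ 2) ∧
    (ProjGenLinGroup.mk g ∈ cellU v c ↔ v (g 0 0) ≤ v (g 1 1) ∧ v (g 0 1) ≤ v (g 1 1) ∧
      v (g 1 0) < v (g 1 1) ∧ v (GeneralLinearGroup.det g : K) = c * v (g 1 1) ^ 2) :=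
  ⟨by rw [mk_mem_Iw, Cell, one_mul], mk_mem_cellU v⟩

/-- **Representatives.** `IsReps v m B`: the finite set `B` of `v`-integral elements represents the
integers modulo elements of valuation `≤ exp (-m)`. For a finite place of a number field there are
such sets (`Disc v`, with a uniformiser `h.pi` and representatives `h.reps m`), and they have
`N(w)^m` elements. File `H51ZDisc`. -/
theorem representatives {K : Type*} [Field K] [NumberField K] (w : HeightOneSpectrum (𝓞 K)) (m : ℕ)
    {B : Finset K} (hB : IsReps (w.valuation K) m B) :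
    (∀ x, w.valuation K x ≤ 1 → ∃ b ∈ B, w.valuation K (x - b) ≤ exp (-(m : ℤ))) ∧
      B.card = Ideal.absNorm w.asIdeal ^ m ∧
      w.valuation K ((disc_nf w).pi : K) = exp (-1 : ℤ) ∧
      IsReps (w.valuation K) m ((disc_nf w).reps m) :=
  ⟨hB.exists_mem, by rw [card_reps_nf w m hB], (disc_nf w).v_pi, (disc_nf w).isReps m⟩

open Classical in
/-- **The kernels `P`, `W`, `U ^ m`** on `PGL₂(K) / Iw`: the indicators of the maximal compact subgroup
`U0 v`, of the coset of `(0 1; π 0)` and of the double coset of `diag(π ^ m, 1)`. File `H51ZIw`. -/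
theorem kernels_at_w0 {K : Type*} [Field K] {v : Valuation K ℤᵐ⁰} (h : Disc v) (m : ℕ)
    (g g' : PGL(2, K)) :
    (Pker h).k (g : PGL(2, K) ⧸ Iw v) (g' : PGL(2, K) ⧸ Iw v) =
      (if g⁻¹ * g' ∈ H51Z.U0 v then 1 else 0) ∧
    (Wker h.v_pi).k (g : PGL(2, K) ⧸ Iw v) (g' : PGL(2, K) ⧸ Iw v) =
      (if W h.pi * (g⁻¹ * g') ∈ Iw v then 1 else 0) ∧
    (Uker h m).k (g : PGL(2, K) ⧸ Iw v) (g' : PGL(2, K) ⧸ Iw v) =
      (if g⁻¹ * g' ∈ cellU v (exp (-(m : ℤ))) then 1 else 0) :=
  ⟨Pker_k h g g', Wker_k h.v_pi g g', Uker_k h m g g'⟩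

/-- **The Iwahori-Hecke algebra.** `P² = (q + 1) P`, `W² = 1`, `P = 1 + U W`, `U^m U^n = U^(m+n)`; `P` and
`W` are symmetric. Here `q` is the number of representatives modulo `π`; `ladd` is the sum of kernels,
`lsmul` the multiplication by a number. In particular `U = P W - W`, which is not symmetric: its
eigenvalues are the subject of `GuideOctC.eigenvalue_U`. File `H51ZIw`. -/
theorem iwahori_hecke_algebra {K : Type*} [Field K] {v : Valuation K ℤᵐ⁰} (h : Disc v) (m n : ℕ) :
    LocKer.mul (Pker h) (Pker h) = lsmul ((h.reps 1).card + 1) (Pker h) ∧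
      LocKer.mul (Wker h.v_pi) (Wker h.v_pi) = LocKer.one ∧
      Pker h = ladd LocKer.one (LocKer.mul (Uker h 1) (Wker h.v_pi)) ∧
      LocKer.mul (Uker h m) (Uker h n) = Uker h (m + n) ∧
      ltr (Pker h) = Pker h ∧ ltr (Wker h.v_pi) = Wker h.v_pi :=
  ⟨Pker_sq h, Wker_sq h.v_pi, Pker_eq h, Uker_mul h m n, ltr_Pker h, ltr_Wker h.v_pi⟩

open Classical in
/-- **The operators `W` and `U ^ m` in coordinates**, if the level at the place `i` is the Iwahori subgroup
(`hL`; `lcast` transports a kernel along this equality): `W` replaces the coset of `g` by that of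
`g (0 1; π 0)`, and `U ^ m` sums over the cosets of `g (a b; 0 1)`, `v(a) = exp (-m)`, `b` in a set of
representatives. File `H51ZPull`. -/
theorem operators_at_w0 {K : Type*} [Field K] {v : Valuation K ℤᵐ⁰} {ι : Type*}
    {L : LevelFam PGL(2, K) ι} {E : Type*} [AddCommGroup E] [Module ℂ E] {i : ι}
    (hL : L.U i = Iw v) (h : Disc v) (m : ℕ) {a : Kˣ} (ha : v (a : K) = exp (-(m : ℤ)))
    {B : Finset K} (hB : IsReps v m B) (φ : XF L → E) (x : XF L) (g : PGL(2, K))
    (hg : x i = (g : PGL(2, K) ⧸ L.U i)) :
    lop i (H51Z.lcast hL (Wker h.v_pi)) φ x =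
      φ (XF.upd x i ((g * W h.pi : PGL(2, K)) : PGL(2, K) ⧸ L.U i)) ∧
    lop i (H51Z.lcast hL (Uker h m)) φ x = ∑ b ∈ B,
      φ (XF.upd x i ((g * ProjGenLinGroup.mk (bm a b) : PGL(2, K)) : PGL(2, K) ⧸ L.U i)) ∧
    lop i (H51Z.lcast hL (Uker h 1)) φ =
      lop i (H51Z.lcast hL (Pker h)) (lop i (H51Z.lcast hL (Wker h.v_pi)) φ) -
        lop i (H51Z.lcast hL (Wker h.v_pi)) φ :=
  ⟨lop_Wker hL h.v_pi φ x g hg, lop_Uker hL h m ha hB φ x g hg, lop_Uker_eq hL h φ⟩

open Classical in
/-- **Functions of maximal level, seen at Iwahori level.** If `φ` is invariant under right translation by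
the maximal compact subgroup at `i` (`RInv`), then `P φ = (q + 1) φ`, and `P W φ` is the sum of `φ` over
the `q + 1` neighbours of the coset, i.e. the Hecke operator `T`. This is the only thing which is
needed to pass from maximal level to Iwahori level. File `H51ZPull`. -/
theorem maximal_level_T {K : Type*} [Field K] {v : Valuation K ℤᵐ⁰} {ι : Type*}
    {L : LevelFam PGL(2, K) ι} {E : Type*} [AddCommGroup E] [Module ℂ E] {i : ι}
    (hL : L.U i = Iw v) (h : Disc v) {φ : XF L → E}
    (hφ : ∀ (x : XF L) (g u : PGL(2, K)), u ∈ H51Z.U0 v →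
      φ (XF.upd x i ((g * u : PGL(2, K)) : PGL(2, K) ⧸ L.U i)) =
        φ (XF.upd x i ((g : PGL(2, K)) : PGL(2, K) ⧸ L.U i)))
    (x : XF L) (g : PGL(2, K)) (hg : x i = (g : PGL(2, K) ⧸ L.U i)) :
    lop i (H51Z.lcast hL (Pker h)) φ = ((h.reps 1).card + 1 : ℂ) • φ ∧
    lop i (H51Z.lcast hL (Pker h)) (lop i (H51Z.lcast hL (Wker h.v_pi)) φ) x =
      ∑ r ∈ repsT h.pi (h.reps 1),
        φ (XF.upd x i ((g * r : PGL(2, K)) : PGL(2, K) ⧸ L.U i)) :=
  ⟨lop_Pker_inv hL h hφ, lop_Pker_Wker_inv hL h hφ x g hg⟩

/-! ## 3. Types, Hecke equations, monomials, change of level -/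

/-- **The kernel of a type.** `χ` is a character of a group `H`, of absolute value one, trivial on the
subgroup `U` of finite index. The kernel with the values `χ(g⁻¹ g')⁻¹ / [H : U]` if `g⁻¹ g'` is in `H`,
and `0` otherwise, is idempotent and hermitian; its operator projects onto the functions with
`f(.., g h, ..) = χ(h) f(.., g, ..)`, `h` in `H`. File `H51ZKD`. -/
theorem kernel_of_a_type {G : Type*} [Group G] {U H : Subgroup G} {χ : G → ℂ} (hle : U ≤ H)
    (hmul : ∀ g ∈ H, ∀ h ∈ H, χ (g * h) = χ g * χ h) (hone : ∀ u ∈ U, χ u = 1)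
    (hidx : (U.subgroupOf H).index ≠ 0) (hn : ∀ g ∈ H, ‖χ g‖ = 1) :
    ∃ κ : LocKer U, (∀ g g' : G,
      (g⁻¹ * g' ∈ H → κ.k (g : G ⧸ U) (g' : G ⧸ U) =
        (χ (g⁻¹ * g'))⁻¹ / ((U.subgroupOf H).index : ℂ)) ∧
      (g⁻¹ * g' ∉ H → κ.k (g : G ⧸ U) (g' : G ⧸ U) = 0)) ∧
      LocKer.mul κ κ = κ ∧ ∀ x y, κ.k y x = conj (κ.k x y) :=
  ⟨tker ⟨hle, hmul, hone, hidx⟩, isTyp_tker _, tker_mul_self _, tker_symm _ hn⟩

open Classical in
/-- **Hecke equations.** At a place of maximal level, let the kernel `κ` have the values of the indicator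
of `cellT`. The equation `λ φ(y) = ∑_b φ(.., g (ϖ b; 0 1), ..) + φ(.., g (1 0; 0 ϖ), ..)`, where `g` is a
representative of the coset of `y`, for one uniformiser and one set of representatives, says that
`φ` is an eigenfunction of the operator of `κ`. (Converse: `GuideOctCSpec.hecke_equation`.) File
`H56ZTgt1`. -/
theorem hecke_equation {K : Type*} [Field K] [NumberField K]
    {L : LevelFam PGL(2, K) (HeightOneSpectrum (𝓞 K))} {w : HeightOneSpectrum (𝓞 K)}
    {κ : LocKer (L.U w)} {φ : XF L → ℂ} (hL : L.U w = H59D.U0 w)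
    (hκ : ∀ g g' : PGL(2, K), (g⁻¹ * g' ∈ cellT (w.valuation K) → κ.k g g' = 1) ∧
      (g⁻¹ * g' ∉ cellT (w.valuation K) → κ.k g g' = 0)) {lam : ℂ} {ϖ : Kˣ}
    (hϖ : w.valuation K (ϖ : K) = exp (-(1 : ℤ))) {R : Finset K}
    (hR : IsReps (w.valuation K) 1 R)
    (h : ∀ (y : XF L) (g : PGL(2, K)), y w = (g : PGL(2, K) ⧸ L.U w) → lam * φ y =
      ∑ b ∈ R, φ (XF.upd y w ((g * ProjGenLinGroup.mk (bm 1 b) *
        ProjGenLinGroup.mk (bm ϖ 0) : PGL(2, K)) : PGL(2, K) ⧸ L.U w)) +
      φ (XF.upd y w ((g * (ProjGenLinGroup.mk (bm ϖ 0))⁻¹ : PGL(2, K)) :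
        PGL(2, K) ⧸ L.U w))) :
    lop w κ φ = lam • φ :=
  H56Z.lop_of_heckeEq hL hκ hϖ hR h

/-- **Monomials.** `D : HData L` consists of a finite set `D.S` of places, a place `D.w0` outside `D.S`, and
local kernels: `D.e i`, idempotent for `i` in `D.S`, `D.U i` (used at `w0` only) and `D.T i`. `D.mono n m`
is the global kernel with the idempotents `D.e i` at `S`, the power `U ^ m` at `w0` and the powers
`T_i ^ (n i)` at the other places (`lpow` is the power of a local kernel). Monomials multiply by adding
the exponents; in particular they commute, and `D.mono 0 0`, the product of the idempotents, is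
idempotent. File `H79SMono`. -/
theorem monomials {G : Type*} [Group G] {ι : Type*} {L : LevelFam G ι} (D : HData L)
    (n n' : ι →₀ ℕ) (m m' : ℕ) :
    (∀ i ∈ D.S, (D.mono n m).loc i = D.e i) ∧
    (D.mono n m).loc D.w0 = lpow (D.U D.w0) m ∧
    (∀ i ∉ D.S, i ≠ D.w0 → (D.mono n m).loc i = lpow (D.T i) (n i)) ∧
    gmul (D.mono n m) (D.mono n' m') = D.mono (n + n') (m + m') :=
  ⟨fun _ h => D.loc_S h, D.loc_w0, fun _ h h0 => D.loc_good h h0, D.mono_mul n n' m m'⟩

/-- **Monomials on eigenfunctions.** A function fixed by the idempotents, with eigenvalues `λ_i` for the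
`T_i`, is an eigenfunction of the monomials without `U`, with the product of the powers of the `λ_i`.
File `H56ZTgt1`. -/
theorem monomial_on_eigenfunction {G : Type*} [Group G] {ι : Type*} {L : LevelFam G ι}
    (D : HData L) {A : Type*} [AddCommGroup A] [Module ℂ A] {φ : XF L → A}
    (he : gop (D.mono 0 0) φ = φ) {lam : ι → ℂ}
    (hT : ∀ i ∉ D.S, i ≠ D.w0 → lop i (D.T i) φ = lam i • φ) (n : ι →₀ ℕ)
    (hn : ∀ i ∈ n.support, i ∉ D.S ∧ i ≠ D.w0) :
    gop (D.mono n 0) φ = (n.prod fun i k => lam i ^ k) • φ :=
  H56Z.gop_mono D he hT n hn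

open Classical in
/-- **Change of level.** For levels `L'.U i ≤ L.U i` the map `pull h : XF L' → XF L` replaces cosets of
`L'.U i` by cosets of `L.U i`. It commutes with the action of `G`, is surjective and compatible with
`XF.upd`. Composition with it turns functions of level `L` into functions of level `L'`.
File `H50ZPull`. -/
theorem change_of_level {G : Type*} [Group G] {ι : Type*} {L' L : LevelFam G ι}
    (h : ∀ i, L'.U i ≤ L.U i) (g g' : G) (x : XF L') (i : ι) :
    (x i = (g : G ⧸ L'.U i) → H50Z.pull h x i = (g : G ⧸ L.U i)) ∧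
      H50Z.pull h (g • x) = g • H50Z.pull h x ∧
      H50Z.pull h (XF.upd x i (g' : G ⧸ L'.U i)) =
        XF.upd (H50Z.pull h x) i (g' : G ⧸ L.U i) ∧
      Function.Surjective (H50Z.pull h) :=
  ⟨fun e => by rw [H50Z.pull_apply, e, H50Z.cproj_mk], H50Z.pull_smul h g x,
    by rw [H50Z.pull_upd, H50Z.cproj_mk], H50Z.pull_surjective h⟩

end Fermat.Agent.Guide.OctCLevel
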