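import Fermat.Agent.H43ZFin

/-!
# Guide, block (C) of S47: local computations behind the geometric comparison

Third file on block (C) of S47, after `GuideOctC` (overview, spectral side) and `GuideOctCGeom` (the
comparison of the geometric sides). It contains the local theorems from which the comparison is built:
algebra of the norm `δ s(δ) s²(δ)`; the argument by the product formula which excludes the elements
with a stable line; passage to completions; the computations at the split places, the good inert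
places, the auxiliary place `v0`; the properties of the types. Everything is elementary: matrices over
a field with a valuation, no buildings, no Haar measures. All theorems are in the closure of `S47`. (The
records: `TD`: `types` in `GuideOctC`; `AutData`: `GuideOctCSetup`; `LocKer`, `GlobKer`: `GuideOctCLevel`.)

**Notation.** `E / F` is cyclic of degree three with generator `s`; `H20.S47.sP s` is the action of `s`
on `PGL₂(E)`, `H20.S47.nP s δ = δ s(δ) s²(δ)`, `H20.S47.incP E` the inclusion of `PGL₂(F)`;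
`H20.S47.EllReg γ`: a representative `g` of `γ` has no eigenvalue in the field (`X² - tr(g) X + det(g)`
has no root) and its trace is not zero (both do not depend on `g`, see `ellReg_iff` in `GuideOctCGeom`).
For a valuation `v` of a field `K` the group `H61K.U0v v` is the image in `PGL₂(K)` of the matrices with
integral entries and unit determinant.

The steps of section 2: `GuideStableLines`; of section 5: `GuideOctCInert`; of section 6:
`GuideOctCSteps`. The texts are by helper6 (section 2), helper92 (section 3), helper25 (section 6),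
helper76 and helper22 (section 7), helper56 (`norm_elliptic_of_cell`) and helper79.

Notes: [445] (norms), [467] (stable lines), [476], [425] (completions), [458] (auxiliary place), [430]
(good inert places), [432] (good split places), [418] (bad split places), [429], [459], [469] (types
and setup).
-/

set_option autoImplicit false

open IsDedekindDomain HeightOneSpectrum WithZero NumberField Matrix
open scoped MatrixGroups NNReal

noncomputable section

namespace Fermat.Agent.Guide.OctCLocal

open Fermat.Agent.H59XF Fermat.Agent.H59D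

/-! ## 1. The algebra generated by an elliptic matrix -/

/-- **Hilbert 90 for a torus** (`H20S2`). `c` is a matrix over `F` without eigenvalue in `E`. A
matrix `t = t₀ + t₁ c` over `E` of norm `t s(t) s²(t) = 1` is of the form `x s(x)⁻¹` with an invertible
`x = x₀ + x₁ c`. (`lin c x y` is the matrix `x + y c`, `inc` the inclusion of the matrices over `F`,
`sM s` the action of `s` on matrices, `nm s d = d s(d) s²(d)`.) -/
theorem hilbert90 {F E : Type*} [Field F] [Field E] [Algebra F E] {s : E ≃ₐ[F] E}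
    (h3 : ∀ x, s (s (s x)) = x) (hs : s ≠ AlgEquiv.refl) {c : Matrix (Fin 2) (Fin 2) F}
    (hc : ∀ x : E, x ^ 2 - algebraMap F E c.trace * x + algebraMap F E c.det ≠ 0) {t0 t1 : E}
    (ht : H20.S47.nm s (H20.S47.lin (H20.S47.inc c) t0 t1) = 1) :
    ∃ x y : E, (H20.S47.lin (H20.S47.inc c) x y).det ≠ 0 ∧
      H20.S47.lin (H20.S47.inc c) t0 t1 * H20.S47.sM s (H20.S47.lin (H20.S47.inc c) x y) =
        H20.S47.lin (H20.S47.inc c) x y :=
  H20.S47.hilbert90 h3 hs
    (fun x => (H20.S47.trace_inc (E := E) c).symm ▸ (H20.S47.det_inc (E := E) c).symm ▸ hc x) ht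

/-- **The `H¹` of the torus modulo scalars vanishes** (`H20S3`): if the norm of `t = t₀ + t₁ c` is a
scalar `e`, then `t` is `z x s(x)⁻¹` with a scalar `z`. This is the form in `PGL₂`; it uses the degree
three: the determinants give `e² = N(det t)`, so `e = N(e / det t)`, and `t` multiplied by `det t / e` has
norm one. -/
theorem h1_torus {F E : Type*} [Field F] [Field E] [Algebra F E] {s : E ≃ₐ[F] E}
    (h3 : ∀ x, s (s (s x)) = x) (hs : s ≠ AlgEquiv.refl) {c : Matrix (Fin 2) (Fin 2) F}
    (hc : ∀ x : E, x ^ 2 - algebraMap F E c.trace * x + algebraMap F E c.det ≠ 0) {t0 t1 e : E}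
    (ht0 : (H20.S47.lin (H20.S47.inc c) t0 t1).det ≠ 0)
    (he : H20.S47.nm s (H20.S47.lin (H20.S47.inc c) t0 t1) = e • 1) :
    ∃ z : E, z ≠ 0 ∧ ∃ x y : E, (H20.S47.lin (H20.S47.inc c) x y).det ≠ 0 ∧
      H20.S47.lin (H20.S47.inc c) t0 t1 * H20.S47.sM s (H20.S47.lin (H20.S47.inc c) x y) =
        z • H20.S47.lin (H20.S47.inc c) x y :=
  H20.S47.h1_torus h3 hs
    (fun x => (H20.S47.trace_inc (E := E) c).symm ▸ (H20.S47.det_inc (E := E) c).symm ▸ hc x) ht0 he

/-- **Rational norms** (`H20S4`). An element of `PGL₂(E)` with elliptic regular norm is `s`-conjugate to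
one whose norm is in `PGL₂(F)`: the norm `N = d s(d) s²(d)` of a representative `d` in `GL₂(E)` satisfies
`s(N) = d⁻¹ N d`, so its characteristic polynomial has coefficients in `F` (no scalars needed), and one
takes the companion matrix. -/
theorem exists_rational_norm {F E : Type*} [Field F] [Field E] [Algebra F E] {s : E ≃ₐ[F] E}
    (h3 : ∀ x, s (s (s x)) = x) (hfix : ∀ x, s x = x → x ∈ Set.range (algebraMap F E))
    {δ : PGL(2, E)} (h : H20.S47.EllReg (H20.S47.nP s δ)) :
    ∃ (x : PGL(2, E)) (γ : PGL(2, F)), H20.S47.EllReg γ ∧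
      H20.S47.nP s (x * δ * (H20.S47.sP s x)⁻¹) = H20.S47.incP E γ :=
  H20.S47.exists_rational_norm h3 hfix h

/-- **When the local norm condition holds** (`H20S8`). `LocOK E ζ v τ Δ` is the condition at `v` on the
trace and the determinant which is written out in `exists_norm` of `GuideOctCGeom`. It holds at an
unramified `v` prime to `3` for integral matrices with unit determinant, and at every `v` for scalar
multiples of matrices `1 + x`, `x` deep (`exp(-M)` smaller than `|ζ - 1|³`, so that the elements near to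
`1` are cubes in the completion). -/
theorem local_norm_condition {F E : Type} [Field F] [NumberField F] [Field E] [NumberField E]
    [Algebra F E] {ζ : F} (v : HeightOneSpectrum (𝓞 F)) :
    (v.valuation F (3 : F) = 1 →
      (∀ w ∈ H82.above E v, v.asIdeal.ramificationIdx' w.asIdeal = 1) →
      ∀ g : Matrix (Fin 2) (Fin 2) F, (∀ i j, v.valuation F (g i j) ≤ 1) →
        v.valuation F g.det = 1 → H20.S47.LocOK E ζ v g.trace g.det) ∧
    ∀ M : ℕ, exp (-(M : ℤ)) < v.valuation F (ζ - 1) ^ 3 → ∀ z : F, z ≠ 0 →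
      ∀ x : Matrix (Fin 2) (Fin 2) F, (∀ i j, v.valuation F (x i j) ≤ exp (-(M : ℤ))) →
        H20.S47.LocOK E ζ v (z • (1 + x)).trace (z • (1 + x)).det :=
  ⟨fun h3 hu _ hg hd => H20.S47.locOK_of_integral h3 hu hg hd,
    fun _ hM _ hz _ hx => H20.S47.locOK_of_deep hM hz hx⟩

/-! ## 2. Elements with a stable line do not contribute

`bus` and `dis` are functions on `PGL₂(K)`: the multiplicative Busemann function of the end `∞` of the
tree, and the exponential of the distance of `g o` and `o`. A line stable under `u ↦ D s(u)` is moved to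
`∞`; the product formula (`H6.Z.prod_nv`, `H6ZNv`) compares the displacements at all places. (Texts:
helper6.) -/

/-- **Busemann function and displacement at one place** (`H6ZBus`). For a valuation `v` and
`g = (a b; c d)`: `bus g = max(v c, v d)² / v(det g)` and `dis g = (max of v on the four entries)² /
v(det g)`. Both depend only on the class of `g` in `PGL₂(K)`. -/
theorem busemann_and_displacement {K : Type*} [Field K] {Γ₀ : Type*}
    [LinearOrderedCommGroupWithZero Γ₀] (v : Valuation K Γ₀) (g : GL (Fin 2) K) :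
    H6.Z.bus v g = max (v (g 1 0)) (v (g 1 1)) ^ 2 * (v g.val.det)⁻¹ ∧
      H6.Z.dis v g = max (max (v (g 0 0)) (v (g 0 1))) (max (v (g 1 0)) (v (g 1 1))) ^ 2 *
        (v g.val.det)⁻¹ :=
  ⟨rfl, rfl⟩

/-- **The Busemann function is Lipschitz and scaled by upper triangular matrices** (`H6ZBus`):
`bus(g h) ≤ bus(g) dis(h)`, `bus(g) ≤ bus(g h) dis(h)`, and for `b = (b₀₀ *; 0 b₁₁)` one has
`bus(b g) = v(b₁₁ / b₀₀) bus(g)`. -/
theorem busemann_properties {K : Type*} [Field K] {Γ₀ : Type*}
    [LinearOrderedCommGroupWithZero Γ₀] (v : Valuation K Γ₀) (g h : GL (Fin 2) K) :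
    H6.Z.bus v (g * h) ≤ H6.Z.bus v g * H6.Z.dis v h ∧
      H6.Z.bus v g ≤ H6.Z.bus v (g * h) * H6.Z.dis v h ∧
      ∀ b : GL (Fin 2) K, b 1 0 = 0 →
        H6.Z.bus v (b * g) = v (b 1 1) * (v (b 0 0))⁻¹ * H6.Z.bus v g :=
  ⟨H6.Z.bus_mul_le v g h, H6.Z.le_bus_mul v g h, fun _ hb => H6.Z.bus_upper_mul v hb g⟩

/-- **The displacement forced at `w₀`** (`H80Tree`). Let `v(A₀₀) < 1`, `v(A₀₁) ≤ 1`, `v(A₁₀) < 1`,
`v(A₁₁) = 1` (a matrix in the double coset of `diag(ϖⁿ, 1)` for the Iwahori subgroup, `n ≥ 1`), and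
let `s` be an endomorphism of the field preserving `v`. If `A s(u) = c u` with `u ≠ 0`, then `v(c)` is
`1` or `v(det A)`: a stable line is moved by the full distance `n`. -/
theorem semilinear_eigenvalue {K : Type*} [Field K] {Γ₀ : Type*}
    [LinearOrderedCommGroupWithZero Γ₀] {v : Valuation K Γ₀} {A : Matrix (Fin 2) (Fin 2) K}
    (h00 : v (A 0 0) < 1) (h01 : v (A 0 1) ≤ 1) (h10 : v (A 1 0) < 1) (h11 : v (A 1 1) = 1)
    {s : K →+* K} (hs : ∀ x, v (s x) = v x) {u : Fin 2 → K} (hu : u ≠ 0) {c : K}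
    (hc : A *ᵥ (fun i => s (u i)) = c • u) : v c = 1 ∨ v c = v A.det :=
  H80T.UMat.eig ⟨h00, h01, h10, h11⟩ hs hu hc

/-- **The archimedean places** (`H6ZExcl2`): an upper triangular `g` multiplies the height `y` on `H3`
by `|g₀₀ / g₁₁|`, and the heights of two points differ at most by the factor `2 ch(w, w')` (`ch` is
`cosh` of the distance). -/
theorem height_upper_triangular (g : GL (Fin 2) ℂ) (hg : g 1 0 = 0) (w w' : H3) :
    (g • w).y = ‖g 0 0 / g 1 1‖ * w.y ∧ w.y ≤ 2 * H3.ch w w' * w'.y :=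
  ⟨H6.Z.y_upper g hg w, H6.Z.y_le_ch w w'⟩

/-- **Bounded displacement of stable lines** (`H6ZExcl2`). There is a constant `C` such that for all
`x ∈ m.X` and `δ ∈ PGL₂(K)`: if `x_j` and `(δ s(x))_j` have `cosh` distance `≤ R` at the infinite
places, the local kernels of `A` do not vanish at `(x_w, (δ s(x))_w)` for `w ≠ w₀`, and
`D s(u) = c u` for a representative `D` of `δ` and some `u ≠ 0`, then `C⁻¹ ≤ |c² / det D|_{w₀} ≤ C`
(`H6.Z.nv w₀` is the normalised absolute value of `w₀`, Mathlib's `FinitePlace.mk w₀`). Proof: translate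
`u` to the first basis vector; at every `w ≠ w₀` the factor `|b₁₁ / b₀₀|_w` is bounded by the Busemann
functions of `x_w` and `s(x)_w`, which cancel in the product over all `w ≠ w₀`, because `s` permutes these
places (`s w₀ = w₀`, hypothesis `h₀`); product formula. -/
theorem line_bound {K : Type*} [Field K] [NumberField K] {J : Type*} [Fintype J] {m : Model K J}
    (a : AutData m) {w₀ : HeightOneSpectrum (𝓞 K)} (h₀ : a.σ w₀ = w₀) (A : GlobKer m.L.fam)
    (R : ℝ) : ∃ C : ℝ≥0, ∀ (x : m.X) (δ : PGL(2, K)),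
      (∀ j, H3.ch (x.1 j) ((δ • a.act x).1 j) ≤ R) →
      (∀ w ≠ w₀, (A.loc w).k (x.2 w) ((δ • a.act x).2 w) ≠ 0) →
      ∀ (D : GL (Fin 2) K), ProjGenLinGroup.mk D = δ → ∀ (u : Fin 2 → K), u ≠ 0 → ∀ c : K,
        D.val *ᵥ (fun i => a.s (u i)) = c • u →
        H6.Z.nv w₀ (c ^ 2 / D.val.det) ≤ C ∧ 1 ≤ C * H6.Z.nv w₀ (c ^ 2 / D.val.det) :=
  H6.Z.line_bound a h₀ A R

/-- **Regularity at the auxiliary place** (`H56ZReg`, text of helper56). Suppose that `δ` is
`s`-conjugate to an element `b` of the double coset of `diag(π^m, 1)`, `m ≥ 1`, of the Iwahori group,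
for a valuation `v` invariant under `s`. If `δ` has no stable line, its norm `δ s(δ) s²(δ)` is elliptic
regular: at `v` its two eigenvalues have different absolute values, so it is regular of trace `≠ 0`; an
eigenvalue in `E` would be fixed by `s` (trace and determinant are, and `s` has order three), and its
eigenline would be stable. -/
theorem norm_elliptic_of_cell {F E : Type*} [Field F] [Field E] [Algebra F E] {s : E ≃ₐ[F] E}
    (h3 : ∀ x, s (s (s x)) = x) {v : Valuation E ℤᵐ⁰} (hv : ∀ x, v (s x) = v x)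
    {m : ℕ} (hm : 1 ≤ m) {δ g : PGL(2, E)}
    (hc : ∃ b : GL (Fin 2) E, ProjGenLinGroup.mk b = g⁻¹ * δ * H20.S47.sP s g ∧
      v (b 0 0) ≤ v (b 1 1) ∧ v (b 0 1) ≤ v (b 1 1) ∧ v (b 1 0) < v (b 1 1) ∧
      v (GeneralLinearGroup.det b : E) = exp (-(m : ℤ)) * v (b 1 1) ^ 2)
    (hl : ∀ d : GL (Fin 2) E, ProjGenLinGroup.mk d = δ → ∀ u : Fin 2 → E, u ≠ 0 → ∀ c : E,
      (d : Matrix (Fin 2) (Fin 2) E) *ᵥ (fun i => s (u i)) ≠ c • u) :
    ∃ N : GL (Fin 2) E, ProjGenLinGroup.mk N = H20.S47.nP s δ ∧
      (∀ x : E, x ^ 2 - (N : Matrix (Fin 2) (Fin 2) E).trace * x +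
        (N : Matrix (Fin 2) (Fin 2) E).det ≠ 0) ∧
      (N : Matrix (Fin 2) (Fin 2) E).trace ≠ 0 :=
  H56Z.ellReg_nP h3 hv hm hc hl

/-! ## 3. From the models to completions and back

The points of a model are cosets of the group `PGL₂(K)` of the number field. The comparisons at `v0` and
at the bad places with one place above them need a complete field. The transfer of a whole matching
(`H92T.Hat.locMatch`, file `H92T4`) is `matching_transfer` of `GuideOctCGeom` applied to `E ⊂ L`, the
completion of `E` at `w`, and `F ⊂` the fixed field of `σ`, which is dense because `3 ≠ 0` (average over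
`σ`). (Texts: helper92.) -/

/-- **Cosets of a dense subgroup** (`H92T1`). Let `j : G → Gh` be a homomorphism and `Uh` a subgroup of
`Gh` such that every element of `Gh` is of the form `j x` modulo `Uh`. Then `G ⧸ j⁻¹(Uh)` and `Gh ⧸ Uh`
are the same `G`-set. So a statement about cosets of an open subgroup of `PGL₂(E_w)` is a statement
about cosets of its inverse image in `PGL₂(E)`. No topology is needed. -/
theorem cosets_of_dense {G Gh : Type*} [Group G] [Group Gh] (j : G →* Gh) (Uh : Subgroup Gh)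
    (hA : ∀ g : Gh, ∃ x : G, g⁻¹ * j x ∈ Uh) :
    ∃ e : G ⧸ Uh.comap j ≃ Gh ⧸ Uh, (∀ g : G, e (g : G ⧸ Uh.comap j) = (j g : Gh ⧸ Uh)) ∧
      ∀ (g : G) (x : G ⧸ Uh.comap j), e (g • x) = j g • e x :=
  ⟨H92T.cosetEquiv hA, fun _ => rfl, H92T.cosetEquiv_smul hA⟩

/-- **The completion at a finite place** (`H92T2`), from Mathlib: `K` is dense, sequences whose
consecutive terms differ by at most `exp(-n)` have a limit, the valuation is surjective and extends
the one of `K`. Only these four properties are used. -/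
theorem completion {R : Type*} [CommRing R] [IsDedekindDomain R] {K : Type*} [Field K] [Algebra R K]
    [IsFractionRing R K] (w : HeightOneSpectrum R) :
    (∀ (x : w.adicCompletion K) (n : ℕ), ∃ k : K,
      (Valued.v (x - algebraMap K (w.adicCompletion K) k) : ℤᵐ⁰) ≤ exp (-(n : ℤ))) ∧
    (∀ x : ℕ → w.adicCompletion K, (∀ n, (Valued.v (x (n + 1) - x n) : ℤᵐ⁰) ≤ exp (-(n : ℤ))) →
      ∃ y, ∀ n, (Valued.v (y - x n) : ℤᵐ⁰) ≤ exp (-(n : ℤ))) ∧
    Function.Surjective (Valued.v : w.adicCompletion K → ℤᵐ⁰) ∧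
    ∀ x : K, (Valued.v (algebraMap K (w.adicCompletion K) x) : ℤᵐ⁰) = w.valuation K x :=
  ⟨H92T.denseHom_adic w, H92T.compl3_adic w, H92T.adic_surj w, H92T.adic_val w⟩

/-- **Extension of an automorphism to the completion** (`H92T2`). An automorphism `s` of `K` with
`s³ = 1` which preserves the `w`-adic valuation extends to an isometric automorphism `σ` of the
completion, again with `σ³ = 1`. -/
theorem automorphism_completion {R : Type*} [CommRing R] [IsDedekindDomain R] {K : Type*} [Field K]
    [Algebra R K] [IsFractionRing R K] (w : HeightOneSpectrum R) (s : K ≃+* K)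
    (hs : ∀ x, w.valuation K (s x) = w.valuation K x) (hs3 : ∀ x, s (s (s x)) = x) :
    ∃ σ : w.adicCompletion K ≃+* w.adicCompletion K,
      (∀ x : K, σ (algebraMap K _ x) = algebraMap K _ (s x)) ∧
      (∀ x, Valued.v (σ x) = Valued.v x) ∧ ∀ x, σ (σ (σ x)) = x :=
  H92T.exists_hat3 w s hs hs3

/-- **Level groups are inverse images** (`H92T5`). Let `j : K → L` have dense image and let `Hh` be a
subgroup of `GL₂(L)` containing a congruence subgroup (`H92T.Gam v n`: `g - 1` and `g⁻¹ - 1` have
entries of absolute value at most `exp(-n)`). If `H` is given by the same conditions over `K`, the image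
of `H` in `PGL₂(K)` is the inverse image of the image of `Hh` in `PGL₂(L)`. The point is that a scalar of
`L` can be replaced by a scalar of `K`. -/
theorem level_group_trace {K L : Type*} [Field K] [Field L] {j : K →+* L} {v : Valuation L ℤᵐ⁰}
    (hD : ∀ (x : L) (n : ℕ), ∃ k : K, v (x - j k) ≤ exp (-(n : ℤ))) {n : ℕ}
    {Hh : Subgroup (GL (Fin 2) L)} (hH : H92T.Gam v (n + 1) ≤ Hh)
    {H : Subgroup (GL (Fin 2) K)} (h : ∀ g, g ∈ H ↔ GeneralLinearGroup.map j g ∈ Hh) :
    H.map ProjGenLinGroup.mk =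
      (Hh.map ProjGenLinGroup.mk).comap (ProjGenLinGroup.map (n := Fin 2) j) :=
  H92T.map_mk_eq_comap hD hH h

/-! ## 4. The split places

(Step by step, with the types and the Hecke operators: `GuideOctCSplit`.) -/

/-- **Density at a split place** (`H84ZDen`). `s` has order three on `K`, its fixed elements come from `F`
(`j : F → K`), and `σ` is the permutation of the places. If `σ w ≠ w`, then every element of `PGL₂(K)` is
modulo an open subgroup at `w` the image of an element of `PGL₂(F)`: `F` is dense in `K` for `w`, by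
approximation at `w`, `σ w`, `σ² w` and a trace. -/
theorem dense_split {R K F : Type*} [CommRing R] [IsDedekindDomain R] [Field K] [Algebra R K]
    [IsFractionRing R K] [Field F] (j : F →+* K) (s : K ≃+* K)
    (σ : Equiv.Perm (HeightOneSpectrum R))
    (val : ∀ (w : HeightOneSpectrum R) (x : K), (σ w).valuation K (s x) = w.valuation K x)
    (hs3 : ∀ x, s (s (s x)) = x) (hfix : ∀ x, s x = x → ∃ y, j y = x)
    (w : HeightOneSpectrum R) (hw : σ w ≠ w) {U : Subgroup PGL(2, K)}
    (hU : ∃ n : ℕ, Gam w n ≤ U) (g : PGL(2, K)) :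
    ∃ f : PGL(2, F), g⁻¹ * ProjGenLinGroup.map j f ∈ U :=
  H84Z.dense_split_PGL j s σ val hs3 hfix w hw hU g

/-- **Matching at a split place, abstract form** (`H84ZMatch`). `s` is an automorphism of order three of
the group `G`, `σ` a cyclic permutation of the three indices `i₀`, `σ i₀`, `σ² i₀`, compatible with the
groups `U i`; `ι : GF → G`, `V = ι⁻¹(U i₀)`, and `GF` is dense modulo `U i₀`. If `ι γ = d s(d) s²(d)`,
then the weight `x ↦ ∏ a_i(x_i, (d s(x))_i)` on the product of the three `G / U i` is matched with the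
weight `y ↦ (a_0 * s^*s^* a_2 * s^* a_1)(y, γ y)` on `GF / V` (convolution of the three kernels,
transported to `i₀`); the map is the one to the component `i₀`. `T`, `τ`: the elements for which the
matching is equivariant (in the application the centraliser of `γ` and its inclusion). There is no
condition on the kernels: twisted orbital integrals at a split place are orbital integrals of
convolutions. -/
theorem matching_split_abstract {G GF T : Type*} [Group G] [Group GF] (ι : GF →* G) (s : G ≃* G)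
    {I : Type*} [Fintype I] [DecidableEq I] {U : I → Subgroup G} (σ : Equiv.Perm I)
    (hU : ∀ i g, g ∈ U i ↔ s g ∈ U (σ i)) (i₀ : I) {V : Subgroup GF}
    (hV : ∀ g, g ∈ V ↔ ι g ∈ U i₀) (hd : ∀ g : G, ∃ f : GF, g⁻¹ * ι f ∈ U i₀)
    (hcov : ∀ i, i = i₀ ∨ i = σ i₀ ∨ i = σ (σ i₀)) (h01 : σ i₀ ≠ i₀) (h3 : σ (σ (σ i₀)) = i₀)
    (hs3 : ∀ g, s (s (s g)) = g) (a : (i : I) → LocKer (U i)) (d : G) (γ : GF)
    (hγ : ι γ = d * s d * s (s d)) (τ : T → GF) :
    ∃ β : ((i : I) → G ⧸ U i) → GF ⧸ V, H57C.LocMatch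
      (fun t x => fun i => ι (τ t) • x i) (fun t y => τ t • y)
      (fun x => ∏ i, (a i).k (x i) (d • H84Z.sact s σ hU x i))
      (fun y => (H84Z.res ι hV (LocKer.mul (LocKer.mul (a i₀)
        (H84Z.pull s (hU i₀) (H84Z.pull s (hU (σ i₀)) (a (σ (σ i₀))))))
          (H84Z.pull s (hU i₀) (a (σ i₀))))).k y (γ • y)) β :=
  ⟨_, H84Z.locMatch ι s σ hU i₀ hV hd hcov h01 h3 hs3 a d γ hγ τ⟩

/-! ## 5. The good places with one place above them

Here the kernels are the unit kernels: one compares the `x` in `PGL₂(E) / U0v` with `x = d s(x)` and the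
`y` in `PGL₂(F) / U0v` with `y = γ y` (the fundamental lemma for the unit element in base change of
degree three). All steps: `GuideOctCInert`. -/

/-- **Counting** (`H61K1`). In a finite commutative group with an endomorphism `s`, `s³ = 1`: if every
element of norm one is of the form `s(t) / t`, then every element fixed by `s` is a norm. -/
theorem norm_surjective_of_hilbert90 {G : Type*} [CommGroup G] [Finite G] (s : G →* G)
    (h3 : ∀ x, s (s (s x)) = x) (h90 : ∀ x, x * s x * s (s x) = 1 → ∃ t, s t = x * t)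
    (y : G) (hy : s y = y) : ∃ h, h * s h * s (s h) = y :=
  H61K.norm_surj_of_h90 s h3 h90 y hy

/-- **Fixed units are norms up to `π^k`** (`H61K1`). `R` is a commutative ring with an automorphism `s`
of order three and a regular element `π` fixed by `s`, `R / π` is finite, units can be recognised modulo
`π`, some element has trace `1`, and for all `y₁`, `y₂` some `z + y₁ s(z) + y₂ s²(z)` is a unit (this
gives Hilbert 90 modulo `π`). Used for the valuation ring of `E`; of the orders `D[ω]` of the quadratic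
algebra of a matrix only the last property is used. -/
theorem fixed_units_are_norms {R : Type*} [CommRing R] (s : R ≃+* R) (π : R)
    (s3 : ∀ x, s (s (s x)) = x) (sπ : s π = π) (fin : Finite (R ⧸ Ideal.span {π}))
    (rad : ∀ x y : R, π ∣ x * y - 1 → IsUnit x) (tr : ∃ θ, θ + s θ + s (s θ) = 1)
    (two : ∀ y₁ y₂ : R, ∃ z, IsUnit (z + y₁ * s z + y₂ * s (s z))) {g : R} (hg : IsUnit g)
    (hs : s g = g) (hπ : IsLeftRegular π) (k : ℕ) :
    ∃ h, IsUnit h ∧ π ^ k ∣ h * s h * s (s h) - g :=
  H61K.Unr.approx ⟨s3, sπ, fin, rad, tr, two⟩ hg hs hπ k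

/-- **The twisted fixed points** (`H61K6`, `H61K5`). The valuation `v` of `E` is invariant under `s`,
discrete with uniformiser `π` fixed by `s` and finite residue field, and `s` is not trivial on the
residue field; `F` is of characteristic `≠ 2`. Let `nP s δ = γ` be elliptic regular. Then there is `t` in
`PGL₂(E)`, commuting with the centraliser of `γ`, such that for all `g` the point `g` is fixed by
`x ↦ δ s(x)` if and only if `t g` is fixed by `s` and `g` is fixed by `γ`; and the points fixed by `s` come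
from `PGL₂(F)`. Proof: if `γ` fixes no point take `t = 1`; otherwise `δ` is the class of some
`d = δ₀ + δ₁ c`, `c` its norm, of unit determinant; with `fixed_units_are_norms` one finds `t` in `E[c]`
such that `d t = s(t) e`, `e` a unit of the order generated by `c`. -/
theorem inert_fixed_points {F E : Type*} [Field F] [Field E] [Algebra F E] {Γ₀ : Type*}
    [LinearOrderedCommGroupWithZero Γ₀] {v : Valuation E Γ₀} {s : E ≃ₐ[F] E} {π : E}
    (s3 : ∀ x, s (s (s x)) = x) (vs : ∀ x, v (s x) = v x) (sπ : s π = π) (π0 : π ≠ 0)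
    (πlt : v π < 1) (disc : ∀ x, x ≠ 0 → ∃ n : ℤ, v x = v π ^ n)
    (sep : ∃ θ, v θ ≤ 1 ∧ v (s θ - θ) = 1)
    (fin : ∃ S : Set E, S.Finite ∧ ∀ x, v x ≤ 1 → ∃ r ∈ S, v (x - r) < 1)
    (hfix : ∀ x, s x = x → x ∈ Set.range (algebraMap F E)) (h2 : (2 : F) ≠ 0) {δ : PGL(2, E)}
    {γ : PGL(2, F)} (hγ : H20.S47.EllReg γ) (hN : H20.S47.nP s δ = H20.S47.incP E γ) :
    (∃ t : PGL(2, E),
      (∀ y : PGL(2, F), y * γ = γ * y → t * H20.S47.incP E y = H20.S47.incP E y * t) ∧
      ∀ g : PGL(2, E), g⁻¹ * δ * H20.S47.sP s g ∈ H61K.U0v v ↔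
        (t * g)⁻¹ * H20.S47.sP s (t * g) ∈ H61K.U0v v ∧
          g⁻¹ * H20.S47.incP E γ * g ∈ H61K.U0v v) ∧
    ∀ g : PGL(2, E), g⁻¹ * H20.S47.sP s g ∈ H61K.U0v v →
      ∃ y : PGL(2, F), g⁻¹ * H20.S47.incP E y ∈ H61K.U0v v :=
  have H : H61K.InertV v s π := ⟨s3, vs, sπ, π0, πlt, disc, sep, fin⟩
  ⟨H61K.exists_t H hfix h2 hγ hN, fun _ hg => H.descent hfix hg⟩

/-- **The hypotheses at a place of a number field** (`H61K8`). If the place `w` of `E` is fixed by `s` and
its valuation extends the one of `v` without ramification, the hypotheses of the previous theorem hold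
for a suitable `π`. (That `s` acts non-trivially on the residue field is proved also for residue
characteristic three.) -/
theorem inert_hypotheses {F E : Type*} [Field F] [NumberField F] [Field E] [NumberField E]
    [Algebra F E] {s : E ≃ₐ[F] E} {v : HeightOneSpectrum (𝓞 F)} {w : HeightOneSpectrum (𝓞 E)}
    (h3 : ∀ x, s (s (s x)) = x) (hs : s ≠ AlgEquiv.refl)
    (hfix : ∀ x, s x = x → x ∈ Set.range (algebraMap F E))
    (hsw : ∀ x, w.valuation E (s x) = w.valuation E x)
    (hval : ∀ x : F, w.valuation E (algebraMap F E x) = v.valuation F x) :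
    ∃ π : E, s π = π ∧ π ≠ 0 ∧ w.valuation E π < 1 ∧
      (∀ x, x ≠ 0 → ∃ n : ℤ, w.valuation E x = w.valuation E π ^ n) ∧
      (∃ θ, w.valuation E θ ≤ 1 ∧ w.valuation E (s θ - θ) = 1) ∧
      ∃ S : Set E, S.Finite ∧ ∀ x, w.valuation E x ≤ 1 → ∃ r ∈ S, w.valuation E (x - r) < 1 :=
  (H61K.inertV_of h3 hs hfix hsw hval).imp fun _ H => ⟨H.sπ, H.π0, H.πlt, H.disc, H.sep, H.fin⟩

/-! ## 6. The auxiliary place `v0` (`H25ZV0` to `H25ZV0d`)

`v0` is a place of `F` with exactly one place `w0` above it, unramified; at `v0` and `w0` the level is the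
Iwahori group `I`. The test kernels are the indicator functions of `I diag(ϖ^m, 1) I` over `E` and of
`I diag(ϖ^{3m}, 1) I` over `F`, `m ≥ 1`. `ϖ` can be taken in `F`, its norm is `ϖ³`. (Texts: helper25.) -/

/-- **The double coset** `K^× I diag(a, 1) I` with `v a = c ≤ 1` is given by inequalities between the
valuations of the entries (`H25V.Cell v c g`); for `c = 1` it is `K^× I` (`H25V.IwGL v`), whose image in
`PGL₂(K)` is the Iwahori group, and the product of the double cosets of `a` and `a'` is contained in the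
one of `a a'`. -/
theorem v0_cell {K : Type*} [Field K] {Γ₀ : Type*} [LinearOrderedCommGroupWithZero Γ₀]
    (v : Valuation K Γ₀) (c c' : Γ₀) (g g' : Matrix (Fin 2) (Fin 2) K) :
    (H25V.Cell v c g ↔ v (g 0 0) ≤ v (g 1 1) ∧ v (g 0 1) ≤ v (g 1 1) ∧ v (g 1 0) < v (g 1 1) ∧
      v g.det = c * v (g 1 1) ^ 2) ∧
    (H25V.Cell v c g → H25V.Cell v c' g' → H25V.Cell v (c * c') (g * g')) :=
  ⟨Iff.rfl, fun h h' => h.mul h'⟩

/-- **Powers of `U`** (`H25ZV0d`). If the kernel `κ` is the indicator of the double coset of `ϖ`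
(`IsInd`), its `m`-th power for the convolution (`lpow`) is the indicator of the double coset of `ϖ^m`
(no multiplicities). `Disc v`: there are a uniformiser and finite sets of representatives modulo its
powers; `cellU v c` is the image of the double coset in `PGL₂(K)`. -/
theorem v0_powers_of_U {K : Type*} [Field K] {v : Valuation K ℤᵐ⁰} (h : H51Z.Disc v)
    {U : Subgroup PGL(2, K)} (hU : U = H51Z.Iw v) {κ : LocKer U}
    (hκ : H79S.IsInd κ (H51Z.cellU v (exp (-(1 : ℤ))))) (m : ℕ) :
    H79S.IsInd (H79S.lpow κ m) (H51Z.cellU v (exp (-(m : ℤ)))) :=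
  H25V.isInd_lpow h hU hκ m

/-- **Eigenvalues** (`H25ZV0`). If Hensel's lemma holds for `X² - X + n` and `A` is in the double coset of
`a`, `v a = c < 1`, then `A` has two eigenvalues `b₁`, `b₂` with `v b₁ = c * v b₂ < v b₂`. Applied over the
completion of `E` to the norm `γ` in the form `A = g⁻¹ γ g`: the eigenvalues are fixed by `s`, because
`s` permutes them and preserves the valuation; so `γ` is diagonal over the completion of `F`, and also
`d`, which commutes with it. -/
theorem v0_eigenvalues {K : Type*} [Field K] {Γ₀ : Type*} [LinearOrderedCommGroupWithZero Γ₀]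
    {v : Valuation K Γ₀} (hens : ∀ n : K, v n < 1 → ∃ b, b ^ 2 - b + n = 0 ∧ v b < 1)
    {c : Γ₀} (hc : c < 1) {A : Matrix (Fin 2) (Fin 2) K} (hA : H25V.Cell v c A) :
    ∃ b1 b2 : K, b1 + b2 = A.trace ∧ b1 * b2 = A.det ∧ v b1 < v b2 ∧ v b1 = c * v b2 ∧
      A.trace ≠ 0 :=
  H25V.eigen_of_cell hens hc hA

/-- **Iwasawa decomposition** for the Iwahori group (`H25ZV0`): `GL₂(K)` is the union of `B I` and
`B w I`, `B` the upper triangular matrices, `w` the Weyl element `ww = (0 1; 1 0)`; `dg a d` is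
`diag(a, d)`, `nn x` is `(1 x; 0 1)`. -/
theorem v0_iwasawa {K : Type*} [Field K] {Γ₀ : Type*} [LinearOrderedCommGroupWithZero Γ₀]
    (v : Valuation K Γ₀) (g : GL (Fin 2) K) :
    (∃ (a d : Kˣ) (x : K) (i : GL (Fin 2) K), i ∈ H25V.IwGL v ∧
      g = H25V.dg a d * H25V.nn x * i) ∨
    ∃ (a d : Kˣ) (x : K) (i : GL (Fin 2) K), i ∈ H25V.IwGL v ∧
      g = H25V.dg a d * H25V.nn x * H25V.ww * i :=
  H25V.iwasawa v g

/-- **Comparison at `v0`** (`H25ZV0b`). `w` is fixed by `s` and extends `v` without ramification, and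
`d s(d) s²(d) = γ`, `d γ = γ d` in `PGL₂(E)` (`H25V.NormPair`). (1) If `g⁻¹ d s(g)` is in the double coset
of `a`, `0 < w(a) < 1`, then `g` is in `GL₂(F) E^× I`. (2) For `y` in `GL₂(F)` the matrix `y⁻¹ d y` is
in the double coset of `a` at `w` if and only if `y⁻¹ γ y` is in the one of `a³` at `v`. -/
theorem v0_comparison {E F : Type*} [Field E] [NumberField E] [Field F] [NumberField F]
    [Algebra F E] (s : E ≃+* E) (w : HeightOneSpectrum (𝓞 E)) (v : HeightOneSpectrum (𝓞 F))
    (hsw : ∀ x, w.valuation E (s x) = w.valuation E x) (hs3 : ∀ x, s (s (s x)) = x)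
    (hfix : ∀ y : F, s (algebraMap F E y) = algebraMap F E y)
    (hdesc : ∀ x : E, s x = x → ∃ y : F, algebraMap F E y = x)
    (hval : ∀ x : F, w.valuation E (algebraMap F E x) = v.valuation F x)
    {c : ℤᵐ⁰} (hc : c < 1) (hc0 : c ≠ 0) {d : GL (Fin 2) E} {γ : GL (Fin 2) F}
    (P : H25V.NormPair (s : E →+* E) d γ) :
    (∀ g : GL (Fin 2) E, H25V.Cell (w.valuation E) c
        ((g⁻¹ * d * GeneralLinearGroup.map (s : E →+* E) g : GL (Fin 2) E) :
          Matrix (Fin 2) (Fin 2) E) →
      ∃ y : GL (Fin 2) F,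
        g⁻¹ * GeneralLinearGroup.map (algebraMap F E) y ∈ H25V.IwGL (w.valuation E)) ∧
    ∀ y : GL (Fin 2) F, H25V.Cell (w.valuation E) c
        ((((GeneralLinearGroup.map (algebraMap F E) y)⁻¹ * d *
          GeneralLinearGroup.map (algebraMap F E) y : GL (Fin 2) E)) :
            Matrix (Fin 2) (Fin 2) E) ↔
      H25V.Cell (v.valuation F) (c ^ 3)
        ((y⁻¹ * γ * y : GL (Fin 2) F) : Matrix (Fin 2) (Fin 2) F) := by
  obtain ⟨_, D⟩ := H25V.denseData_adic s w v hsw hs3 hfix hdesc hval
  exact ⟨fun g h => D.exists_of_cell hc hc0 P h, D.cell_iff hc hc0 hval P⟩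

/-! ## 7. The types at the bad places (texts: helper76, helper22; details: `GuideLatticeTypes`) -/

/-- **The trace form in a self-dual normal basis** (`H76U4`). `D : H76U.SD K` is an automorphism `s` of
order three and an `e` as in `selfDual_kummer` of `GuideOctCGeom`, `D.b = (e, s e, s² e)`, `D.T x` the
trace. Then `Tr(x y) = Σ Tr(x b_i) Tr(y b_i)`. For a valuation `v` the lattice `D.Lat v r` consists of the
`x` with `v(Tr(x b_i)) ≤ r`, `i = 0, 1, 2`; an element fixed by `s` is in it if and only if `v x ≤ r`: the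
intersection with the fixed field is the ball of radius `r`, for every ramification. -/
theorem selfDual_lattices {K : Type*} [Field K] (D : H76U.SD K) {Γ₀ : Type*}
    [LinearOrderedCommGroupWithZero Γ₀] (v : Valuation K Γ₀) (r : Γ₀) :
    (∀ x y : K, D.T (x * y) = D.T (x * D.b 0) * D.T (y * D.b 0) +
      D.T (x * D.b 1) * D.T (y * D.b 1) + D.T (x * D.b 2) * D.T (y * D.b 2)) ∧
    (∀ x : K, x ∈ D.Lat v r ↔ ∀ i, v (D.T (x * D.b i)) ≤ r) ∧
    ∀ x : K, D.s x = x → (x ∈ D.Lat v r ↔ v x ≤ r) :=
  ⟨D.T_mul, fun _ => D.mem_Lat v, fun _ hx => D.mem_Lat_fixed v hx⟩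

/-- **The properties of the types** at a place `w` (`H76V1`), written out: `psi` is the standard
additive character; `A ⊆ w^k`; for some `n`, `w^n ⊆ A` and `C ⊆ w^(2n + c₀)`; `A` contains every `x`
with `psi = 1` on `x B` (duality); the level `T.U` contains a principal congruence subgroup; `T.H` is
conjugate into the maximal compact subgroup; `T.U` has finite index in `T.H`; `T.H` is conjugate even
into the `k`-th congruence subgroup; `C` contains a ball. -/
theorem nice_iff {K : Type*} [Field K] [NumberField K] (w : HeightOneSpectrum (𝓞 K))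
    (T : H76U.TD K) (k c₀ : ℕ) :
    H76V.Nice w T k c₀ ↔
      ((∀ x, T.psi x = H7.Z.psi w x) ∧ (∀ a ∈ T.A, w.valuation K a ≤ exp (-(k : ℤ))) ∧
        ∃ n : ℕ, (∀ a : K, w.valuation K a ≤ exp (-(n : ℤ)) → a ∈ T.A) ∧
          ∀ c ∈ T.C, w.valuation K c ≤ exp (-((2 * n + c₀ : ℕ) : ℤ))) ∧
      (∀ x : K, (∀ b ∈ T.B, H7.Z.psi w (x * b) = 1) → x ∈ T.A) ∧
      (∃ n : ℕ, Gam w n ≤ T.U) ∧
      (∃ c : PGL(2, K), ∀ g ∈ T.H, c⁻¹ * g * c ∈ U0 w) ∧
      ((T.U.subgroupOf T.H).index ≠ 0) ∧
      (∃ c : PGL(2, K), ∀ h ∈ T.H, ∃ g : GL (Fin 2) K, ProjGenLinGroup.mk g = c⁻¹ * h * c ∧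
        ∀ i j, w.valuation K (g i j - (1 : Matrix (Fin 2) (Fin 2) K) i j) ≤ exp (-(k : ℤ))) ∧
      (∃ n : ℕ, ∀ c : K, w.valuation K c ≤ exp (-(n : ℤ)) → c ∈ T.C) :=
  ⟨fun h => ⟨⟨h.adm.psi, h.adm.deep, h.adm.lev⟩, h.dual, h.gam, h.bdd, h.idx, h.conj, h.lowC⟩,
    fun ⟨⟨h1, h2, h3⟩, h4, h5, h6, h7, h8, h9⟩ => ⟨⟨h1, h2, h3⟩, h4, h5, h6, h7, h8, h9⟩⟩

/-- **The standard type** (`H76V1`). Let `d` be the exponent of the different at `w`, `n ≥ k + 1` and
`M ≥ 3 n + d + c₀`. The balls `A = w^n`, `B = w^(-n-d)`, `C = w^M` and the standard character form a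
type with all these properties. -/
theorem standard_type {K : Type*} [Field K] [NumberField K] (w : HeightOneSpectrum (𝓞 K))
    {d n M k c₀ : ℕ} (hd : multiplicity w.asIdeal (differentIdeal ℤ (𝓞 K)) = d)
    (hn : k + 1 ≤ n) (hM : 3 * n + d + c₀ ≤ M) :
    ∃ T : H76U.TD K, T.psi = H7.Z.psi w ∧
      (∀ x, x ∈ T.A ↔ w.valuation K x ≤ exp (-(n : ℤ))) ∧
      (∀ x, x ∈ T.B ↔ w.valuation K x ≤ exp ((n : ℤ) + d)) ∧
      (∀ x, x ∈ T.C ↔ w.valuation K x ≤ exp (-(M : ℤ))) ∧ H76V.Nice w T k c₀ :=
  H76V.exists_std w hd hn hM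

/-- **Types and automorphisms** (`H22Stab`). If an automorphism `s` of the field carries the lattices
`A`, `B`, `C` and the character `psi` of `T` to those of `T'`, it carries the group `T.H` to `T'.H`, the
character `T.chi` to `T'.chi` and the level `T.U` to `T'.U`. -/
theorem type_automorphism {K : Type*} [Field K] [NumberField K] (s : K ≃+* K) {T T' : H76U.TD K}
    (hA : ∀ x, s x ∈ T'.A ↔ x ∈ T.A) (hB : ∀ x, s x ∈ T'.B ↔ x ∈ T.B)
    (hC : ∀ x, s x ∈ T'.C ↔ x ∈ T.C) (hpsi : ∀ x, T'.psi (s x) = T.psi x) (g : PGL(2, K)) :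
    (g ∈ T.H ↔ (ProjGenLinGroup.map (s : K →+* K) g : PGL(2, K)) ∈ T'.H) ∧
    T'.chi (ProjGenLinGroup.map (s : K →+* K) g) = T.chi g ∧
    (g ∈ T.U ↔ (ProjGenLinGroup.map (s : K →+* K) g : PGL(2, K)) ∈ T'.U) :=
  ⟨H22C.mem_H_map s hA hB hC g, H22C.chi_map s hpsi g, H22C.mem_U_map s hA hB hC hpsi g⟩

end Fermat.Agent.Guide.OctCLocal
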