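import Fermat.Agent.H17CF

/-!
# Reader's guide: the kernel of the operator `C`, step by step (block (C) of S47)

Nothing is proved in this file. Every theorem is the exact statement of a theorem of the library,
with all hypotheses written out, followed by a citation. No file imports this one. It is a companion
of `GuideOctC` (read its sections 1 to 3 first) and of `GuideOctCKernels`, section 4 (the family).

## What it is about

Block (C) of S47 compares automorphic functions on `PGL₂` over a cyclic cubic extension `E / F`, with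
generator `s`, by means of integral operators on the spaces `X = (H3)^J × X_f` over `E` and over `F`.
An operator `C` of this kind must be found which (a) has real radial kernels and is hermitian, (b)
commutes with `s`, (c) has a matching operator over `F`, (d) kills the constant terms of all automorphic
functions, so that its automorphic kernel is bounded, and (e) acts on the given form over `E` by a
number `≠ 0`. It is a sum, over the monomials of one symmetric polynomial with integral coefficients
in `3 + 3` variables (the aleph polynomial, `exists_aleph` in `GuideOctC`), of products of a radial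
kernel in three variables and of powers of the Hecke operators at three places `w_0`, `w_1`, `w_2`
above an auxiliary prime `p ≡ -1`. Parts (d) and the boundedness are the subject of
`constant_terms_vanish` and `bounded_kernel` in `GuideOctC`; this file contains the elementary steps.

1. *The space* `X`, the action of `PGL₂(K)`, the measure, the automorphism (`points` to
   `automorphism_on_X`).
2. *Transport by the automorphism*: local kernels, double cosets, types, the monomial kernels
   (`transport_products` to `monomials_transport`). This gives (b) for the finite part.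
3. *Symmetry*: hermitian local and global kernels (`hermitian_products` to `hermitian_monomials`).
   This gives (a) for the finite part.
4. *Radial kernels*: tensor products, iterated convolutions, reality, permutations, the one variable
   kernels with given Abel transform (`tensor_kernels` to `lipschitz_kernels`).
5. *The family*: coefficients, radial parts, exponents, the matching family over `F`, the value on
   the form (`aleph_step` to `eigenvalues_of_summands`): (b), (c), (e).
6. *The auxiliary prime* (`not_dividing` to `auxiliary_prime_data`): how the number `-p` comes to be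
   close to `1` at the bad places.

## References

NOTES.md, section A.13: [475] (the space, levels, kernels, transport, the auxiliary prime), [448]
(monomial kernels), [443] (the family and the assembly), [420] (aleph polynomial, inverse Abel
transform), [470] (constant terms), [486] (bounded kernels). Files `H59XF`, `H59Def`, `H59Def2`,
`H59K1` to `H59K5` (helper59), `H17CFam`, `H17KK`, `H17CF` (helper17), `H39ZPoly` (helper39),
`H80Al`, `H80Inv` (helper80), `H75XRad` (helper75), `H86B3` (helper86). All cited theorems are in the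
closure of S47, and of no other statement except two facts on norms of ideals (`norms_of_places`), which
are also used for S01 and others.

## Notation

`PGL(2, K)` is `GL₂(K)` modulo scalars, `ProjGenLinGroup.mk g` the class of `g`, `ProjGenLinGroup.map f`
the homomorphism given by a homomorphism `f` of fields. Valuations are written multiplicatively, with
values in `ℤᵐ⁰ = {0} ∪ {exp n}`. `chv x y` is the vector of the hyperbolic cosines of the distances
`d(x_j, y_j)` of two points of `(H3)^J` (`H3.ch` for one component). A radial kernel is a function `κ`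
on `J → ℝ`, applied to `chv x y`; `IsRC κ`: continuous, bounded, and zero as soon as one variable is
large; `conv` is the convolution of radial kernels, `khat0 κ` the eigenvalue at spectral parameter
`0`, and `bF` the map from radial kernels in three variables (over `E`) to radial kernels in one
variable (over `F`), which corresponds to base change (`matching_infinity` in `GuideOctCGeom`).

Levels and finite kernels (`GuideOctCLevel`): `L : LevelFam G ι` is a family of subgroups `L.U i` of
`G` such that every element of `G` lies in almost all of them. A `LocKer U` is a kernel `k` on the cosets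
modulo `U`, invariant under `G`, with finite support in each variable; `LocKer.one`, `LocKer.mul` and
`lpow` are the unit kernel, products and powers. A `GlobKer L` is a family `loc i` of such kernels,
almost all of them the unit kernel; its kernel `k` on `XF L` is the product.

Models (`GuideOctCSetup`): `m : Model K J` consists of non-real embeddings `m.e j` of `K` into `ℂ`, one
for each infinite place, and of a level `m.L : Level (𝓞 K) K`: open bounded subgroups `m.L.U w` of
`PGL₂(K)`, almost all of them equal to `U0 w`; `m.L.fam` is the same family as a `LevelFam`. The space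
is `m.X`, its measure `m.μ`, the finite part `XF m.L.fam`. `C : CSetup F E` is the setup of block (C):
models `C.mF`, `C.mE`, the automorphism `C.aE` of `C.mE`, bad places `C.SF`, `C.SE`, auxiliary places
`C.v0`, `C.w0`, types `C.TF`, `C.TE` (`TD K`: the lattices and the additive character of a type) and the
local kernels `C.kF`, `C.kE`. `H47.below F w` is the place of `F` below the place `w` of `E`.
-/

set_option autoImplicit false

open IsDedekindDomain HeightOneSpectrum WithZero NumberField Matrix MeasureTheory
open scoped MatrixGroups ComplexConjugate ContDiff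
open Fermat.Agent.H59XF Fermat.Agent.H59D Fermat.Agent.H51Z Fermat.Agent.H79S Fermat.Agent.H76U
open Fermat.Agent.H56Z (IsRC)

noncomputable section

namespace Fermat.Agent.Guide.OctCOperator

/-! ## 1. The space `X` -/

/-- **Points of the restricted product.** `XF L` is the set of the families of cosets
`x i ∈ G / L.U i`, almost all of them trivial (`points` in `GuideOctCLevel`). Two points with the same
components are equal; replacing the component at `i` (`XF.upd`) twice is replacing it once, and
replacing it by itself changes nothing; all components of the base point `XF.base L` are trivial.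
File `H59XF`. -/
theorem points {G : Type*} [Group G] {ι : Type*} {L : LevelFam G ι} [DecidableEq ι] (x y : XF L)
    (i : ι) (a b : G ⧸ L.U i) :
    ((∀ j, x j = y j) → x = y) ∧ XF.upd (XF.upd x i a) i b = XF.upd x i b ∧
      XF.upd x i (x i) = x ∧ ∀ j, XF.base L j = ((1 : G) : G ⧸ L.U j) :=
  ⟨XF.ext, XF.upd_upd x i a b, XF.upd_self x i, fun _ => rfl⟩

/-- **Countability.** A number field, its ring of integers, the set of its finite places and the
group `PGL₂` are countable, hence `X_f` is countable (a point is given by finitely many places and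
one element of the group for each of them). This is why the discrete measure on `X_f` causes no
problem, and why sums over `PGL₂(K)` make sense. File `H59Def2`. -/
theorem countable (K : Type*) [Field K] [NumberField K] {J : Type*} [Fintype J] (m : Model K J) :
    Countable K ∧ Countable (𝓞 K) ∧ Countable (HeightOneSpectrum (𝓞 K)) ∧ Countable PGL(2, K) ∧
      Countable (XF m.L.fam) :=
  ⟨countable_field K, countable_ringOfIntegers K, countable_heightOneSpectrum K, countable_PGL K,
    inferInstance⟩

/-- **Levels are admissible.** Every element of `PGL₂(K)` is integral at almost all finite places (it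
lies in `U0 w`, the image of `GL₂` of the `w`-integers), and in almost all groups `L.U w` of a level.
The congruence subgroups `Gam w n` decrease and are contained in `U0 w`. File `H59Def`. -/
theorem integral_almost_everywhere {K : Type*} [Field K] [NumberField K] (L : Level (𝓞 K) K)
    (g : PGL(2, K)) (w : HeightOneSpectrum (𝓞 K)) {n n' : ℕ} (h : n ≤ n') :
    {w : HeightOneSpectrum (𝓞 K) | g ∉ U0 w}.Finite ∧
      {w : HeightOneSpectrum (𝓞 K) | g ∉ L.U w}.Finite ∧
      (Gam w n' : Subgroup PGL(2, K)) ≤ Gam w n ∧ (Gam w n : Subgroup PGL(2, K)) ≤ U0 w :=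
  ⟨finite_not_mem_U0 g, L.fam.adm g, Gam_antitone w h, Gam_le w n⟩

/-- **`PGL₂(ℂ)` on hyperbolic space.** Scalar matrices act trivially on `H3`, so `PGL₂(ℂ)` acts; the
action is continuous, preserves the hyperbolic cosine `H3.ch` of the distance and the hyperbolic
volume. (For `GL₂(ℂ)` see `GuideHyperbolic`.) File `H59Def`. -/
theorem action_on_H3 (g : GL (Fin 2) ℂ) (h : PGL(2, ℂ)) (u : ℂˣ) (p p' : H3) :
    (GeneralLinearGroup.scalar (Fin 2) u) • p = p ∧
      (ProjGenLinGroup.mk g : PGL(2, ℂ)) • p = g • p ∧ H3.ch (h • p) (h • p') = H3.ch p p' ∧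
      Continuous (fun p : H3 => h • p) ∧
      MeasurePreserving (fun p : H3 => h • p) volume volume :=
  ⟨scalar_smul u p, rfl, ch_smul h p p', continuous_const_smul h, measurePreserving_smul h⟩

/-- **`PGL₂(K)` on `X = (H3)^J × X_f`.** On the component `j` it acts through the embedding `m.e j`, on
`X_f` diagonally (`m.actInf` is the action on `(H3)^J`). The vector of the hyperbolic cosines of the
distances is invariant. File `H59Def`. -/
theorem action_on_X {K : Type*} [Field K] [NumberField K] {J : Type*} [Fintype J] (m : Model K J)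
    (g : PGL(2, K)) (x : m.X) (p p' : J → H3) :
    (∀ j, (g • x).1 j = ProjGenLinGroup.map (m.e j) g • x.1 j) ∧ (g • x).2 = g • x.2 ∧
      (fun j => H3.ch (m.actInf g p j) (m.actInf g p' j)) = fun j => H3.ch (p j) (p' j) :=
  ⟨m.smul_fst g x, m.smul_snd g x, m.chJ_actInf g p p'⟩

/-- **The invariant measure** on `X` is the product of the hyperbolic volume on `(H3)^J` and the
counting measure on `X_f`. Both factors are `σ`-finite and invariant under `PGL₂(K)`.
File `H59Def2`. -/
theorem invariant_measure {K : Type*} [Field K] [NumberField K] {J : Type*} [Fintype J]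
    (m : Model K J) (g : PGL(2, K)) :
    m.μ = (volume : Measure (J → H3)).prod (Measure.count : Measure (XF m.L.fam)) ∧
      SigmaFinite m.μ ∧ SigmaFinite (volume : Measure (J → H3)) ∧
      MeasurePreserving (m.actInf g) (volume : Measure (J → H3)) volume ∧
      MeasurePreserving (fun y : XF m.L.fam => g • y) Measure.count Measure.count ∧
      MeasurePreserving (fun x : m.X => g • x) m.μ m.μ :=
  ⟨rfl, inferInstance, Model.sigmaFinite_volume_pi, m.measurePreserving_actInf g,
    m.measurePreserving_count_smul g, m.measurePreserving_smul' g⟩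

/-- **Measurability on `X`** is measurability on the fibres over `X_f`, because `X_f` is countable and
discrete. File `H59Def2`. -/
theorem measurable_on_X {K : Type*} [Field K] [NumberField K] {J : Type*} [Fintype J]
    (m : Model K J) {β : Type*} [MeasurableSpace β] (f : m.X → β) :
    Measurable f ↔ ∀ y : XF m.L.fam, Measurable fun x : J → H3 => f (x, y) :=
  m.measurable_iff f

/-- **Kernels on `X`.** `m.ker κ k` is the product of a radial kernel `κ` at infinity and a kernel `k` on
`X_f`; it is invariant under `PGL₂(K)` if `k` is. The kernels on `X_f` are the global kernels: products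
of local kernels `a.loc i`, almost all of them the unit kernel. At given points almost all factors
are equal to `1`, so the product is not zero if and only if no factor is zero. Files `H59XF`,
`H59Def`. -/
theorem kernels_on_X {K : Type*} [Field K] [NumberField K] {J : Type*} [Fintype J]
    (m : Model K J) (κ : (J → ℝ) → ℂ) (k : XF m.L.fam → XF m.L.fam → ℂ)
    (hk : ∀ (g : PGL(2, K)) (y y' : XF m.L.fam), k (g • y) (g • y') = k y y') (g : PGL(2, K))
    (x x' : m.X) (a : GlobKer m.L.fam) (y y' : XF m.L.fam) :
    m.ker κ k x x' = κ (fun j => H3.ch (x.1 j) (x'.1 j)) * k x.2 x'.2 ∧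
      m.ker κ k (g • x) (g • x') = m.ker κ k x x' ∧
      (Function.mulSupport fun i => (a.loc i).k (y i) (y' i)).Finite ∧
      (a.k y y' ≠ 0 ↔ ∀ i, (a.loc i).k (y i) (y' i) ≠ 0) :=
  ⟨rfl, m.ker_smul κ k hk g x x', a.mulSupport_finite y y', a.k_ne_zero_iff y y'⟩

/-- **The automorphism on `X_f`.** `t : Twist L` consists of an automorphism `t.s` of the group `G` and a
permutation `t.σ` of the places, with `t.s (L.U i) = L.U (t.σ i)`. It induces bijections `t.cmap i` of
`G / L.U i` onto `G / L.U (t.σ i)` and a bijection `t.act` of `XF L`, both semilinear with respect to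
`t.s`. File `H59XF`. -/
theorem automorphism_on_points {G : Type*} [Group G] {ι : Type*} {L : LevelFam G ι}
    (t : Twist L) (i : ι) (g g' : G) (x : XF L) :
    (g ∈ L.U i ↔ t.s g ∈ L.U (t.σ i)) ∧
      t.cmap i (g : G ⧸ L.U i) = ((t.s g : G) : G ⧸ L.U (t.σ i)) ∧
      t.cmap i (g • (g' : G ⧸ L.U i)) = t.s g • t.cmap i (g' : G ⧸ L.U i) ∧
      Function.Bijective (t.cmap i) ∧ t.act x (t.σ i) = t.cmap i (x i) ∧
      t.act (g • x) = t.s g • t.act x ∧ Function.Bijective t.act :=
  ⟨t.map_U i g, t.cmap_mk i g, t.cmap_smul i g _, ⟨t.cmap_injective i, t.cmap_surjective i⟩,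
    t.act_apply_σ x i, t.act_smul g x, t.act_injective, t.act_surjective⟩

/-- **The automorphism on `X`.** `a : AutData m` is an automorphism `a.s` of `K` with the permutations
`a.σ` of the finite places and `a.c` of the infinite ones (`model_spec` in `GuideOctCSetup`). It maps
`x` to the point with the component `x_j` at `a.c j` (`a.actInf`) and with the finite part
`a.twist.act x.2`; this is a bijection of `X`, semilinear with respect to `a.s`, and preserves the
measure. Files `H59Def`, `H59Def2`. -/
theorem automorphism_on_X {K : Type*} [Field K] [NumberField K] {J : Type*} [Fintype J]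
    {m : Model K J} (a : AutData m) (g : PGL(2, K)) (x : m.X) (j : J) :
    (a.act x).1 (a.c j) = x.1 j ∧ (a.act x).2 = a.twist.act x.2 ∧
      a.act (g • x) = (ProjGenLinGroup.map (a.s : K →+* K) g : PGL(2, K)) • a.act x ∧
      Function.Bijective a.act ∧ MeasurePreserving a.actInf (volume : Measure (J → H3)) volume ∧
      MeasurePreserving (fun y : XF m.L.fam => a.twist.act y) Measure.count Measure.count ∧
      MeasurePreserving a.act m.μ m.μ :=
  ⟨a.actInf_apply_c x.1 j, rfl, a.act_smul g x, ⟨a.act_injective, a.act_surjective⟩,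
    a.measurePreserving_actInf, a.measurePreserving_twist, a.measurePreserving_act⟩

/-! ## 2. Transport by the automorphism

`L` is a family of levels for the group `G`, `t : Twist L` an automorphism as in section 1. A local
kernel `a` at the place `i` is transported to the local kernel `b` at `t.σ i` if
`b(t x, t y) = a(x, y)` for all cosets `x`, `y` (`TwL t i a b` in the library). -/

/-- **Units, products and powers** of transported local kernels are transported. File `H59K4`. -/
theorem transport_products {G : Type*} [Group G] {ι : Type*} {L : LevelFam G ι} {t : Twist L}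
    {i : ι} {a a' : LocKer (L.U i)} {b b' : LocKer (L.U (t.σ i))}
    (h : ∀ x y, b.k (t.cmap i x) (t.cmap i y) = a.k x y)
    (h' : ∀ x y, b'.k (t.cmap i x) (t.cmap i y) = a'.k x y) (n : ℕ) (x y : G ⧸ L.U i) :
    (LocKer.one : LocKer (L.U (t.σ i))).k (t.cmap i x) (t.cmap i y) =
        (LocKer.one : LocKer (L.U i)).k x y ∧
      (LocKer.mul b b').k (t.cmap i x) (t.cmap i y) = (LocKer.mul a a').k x y ∧
      (lpow b n).k (t.cmap i x) (t.cmap i y) = (lpow a n).k x y :=
  ⟨H59K.TwL.one x y, H59K.TwL.mul h h' x y, H59K.TwL.lpow h n x y⟩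

/-- **Double cosets.** `IsInd a D`: the kernel `a` is `1` at `(g, g')` if `g⁻¹ g'` is in `D`, otherwise `0`
(`indicator` in `GuideOctCSplit`). If `t.s` maps `D` onto `D'`, the kernel of `D` is transported to
the kernel of `D'`. File `H59K4`. -/
theorem transport_indicator {G : Type*} [Group G] {ι : Type*} {L : LevelFam G ι} {t : Twist L}
    {i : ι} {a : LocKer (L.U i)} {b : LocKer (L.U (t.σ i))} {D D' : Set G} (ha : IsInd a D)
    (hb : IsInd b D') (h : ∀ g, t.s g ∈ D' ↔ g ∈ D) (x y : G ⧸ L.U i) :
    b.k (t.cmap i x) (t.cmap i y) = a.k x y :=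
  H59K.twL_of_isInd ha hb h x y

/-- **Types.** `H` is a subgroup with a character `χ`, `IsTyp a H χ`: the kernel `a` is
`χ(g⁻¹ g')⁻¹ / [H : U]` if `g⁻¹ g'` is in `H`, otherwise `0`, where `U` is the level at `i`
(`idempotent` in `GuideOctCSplit`). If `t.s` maps `H` onto `H'` and `χ' ∘ t.s = χ`, the indices are equal
and the kernel of `(H, χ)` is transported to the kernel of `(H', χ')`. File `H59K4`. -/
theorem transport_type {G : Type*} [Group G] {ι : Type*} {L : LevelFam G ι} {t : Twist L} {i : ι}
    {a : LocKer (L.U i)} {b : LocKer (L.U (t.σ i))} {H H' : Subgroup G} {χ χ' : G → ℂ}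
    (ha : IsTyp a H χ) (hb : IsTyp b H' χ') (h : ∀ g, t.s g ∈ H' ↔ g ∈ H)
    (hχ : ∀ g, χ' (t.s g) = χ g) (x y : G ⧸ L.U i) :
    ((L.U (t.σ i)).subgroupOf H').index = ((L.U i).subgroupOf H).index ∧
      b.k (t.cmap i x) (t.cmap i y) = a.k x y :=
  ⟨H59K.index_twist h, H59K.twL_of_isTyp ha hb h hχ x y⟩

/-- **Double cosets of `T` and `U`.** `s` is an automorphism of the field `K` and `v' ∘ s = v` for two
valuations. Then `s` maps the double coset `cellT v` (matrices which are integral and whose
determinant is a uniformiser) onto `cellT v'`, and the double coset `cellU v c` of the Iwahori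
subgroup (`iwahori_iff` in `GuideOctCLevel`) onto `cellU v' c`. File `H59K4`. -/
theorem cells_transport {K : Type*} [Field K] {v v' : Valuation K ℤᵐ⁰} {s : K ≃+* K}
    (h : ∀ x, v' (s x) = v x) (c : ℤᵐ⁰) (x : PGL(2, K)) :
    (ProjGenLinGroup.map (s : K →+* K) x ∈ cellT v' ↔ x ∈ cellT v) ∧
      (ProjGenLinGroup.map (s : K →+* K) x ∈ cellU v' c ↔ x ∈ cellU v c) :=
  ⟨H59K.cellT_map h x, H59K.cellU_map h x⟩

/-- **Types given by lattices** (`lattice_type_iff` in `GuideOctCSplit`): the group `T.H` is given by three
additive subgroups `A`, `B`, `C` of `K`, the character `T.chi` by an additive character `T.psi`. If the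
automorphism `s` maps the lattices of `T` onto those of `T'`, it maps `T.H` onto `T'.H`; if it respects
the additive characters, it respects `chi`. File `H59K4`. -/
theorem lattice_types_transport {K : Type*} [Field K] {T T' : TD K} {s : K ≃+* K}
    (hA : ∀ x, s x ∈ T'.A ↔ x ∈ T.A) (hB : ∀ x, s x ∈ T'.B ↔ x ∈ T.B)
    (hC : ∀ x, s x ∈ T'.C ↔ x ∈ T.C) (h : ∀ x, T'.psi (s x) = T.psi x) (x : PGL(2, K)) :
    (ProjGenLinGroup.map (s : K →+* K) x ∈ T'.H ↔ x ∈ T.H) ∧
      T'.chi (ProjGenLinGroup.map (s : K →+* K) x) = T.chi x :=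
  ⟨H59K.tdH_map hA hB hC x, H59K.tdchi_map h x⟩

/-- **The places of a setup** `C` (`setup_spec` in `GuideOctCSetup`). The permutation `C.aE.σ` of the finite
places of `E` preserves the place of `F` below, it permutes the bad places, and it fixes the auxiliary
place `C.w0`, because this is the only place above `C.v0`. If `v ∉ C.SF` and `w` lies above `v`, the
valuation of `w` is equal to that of `v` on `F` (no ramification). Files `H25ZV0d`, `H59K4`. -/
theorem places_of_setup {F E : Type} [Field F] [NumberField F] [Field E] [NumberField E]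
    [Algebra F E] (C : CSetup F E) (w : HeightOneSpectrum (𝓞 E)) (x : F) :
    H47.below F (C.aE.σ w) = H47.below F w ∧ (C.aE.σ w ∈ C.SE ↔ w ∈ C.SE) ∧
      H47.below F C.w0 = C.v0 ∧ C.aE.σ C.w0 = C.w0 ∧ (C.aE.σ w = C.w0 ↔ w = C.w0) ∧
      (H47.below F w ∉ C.SF →
        w.valuation E (algebraMap F E x) = (H47.below F w).valuation F x) :=
  ⟨H25V.cs_below_sigma C w, H59K.cs_sigma_mem C w, H25V.cs_below_w0 C, H59K.cs_sigma_w0 C,
    H59K.cs_sigma_eq_w0 C, fun h => H25V.cs_val C h rfl x⟩

/-- **Transport of the monomial kernels.** `C.kE.D.mono n k` is the global kernel over `E` with the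
idempotents of the types at the bad places, `U ^ k` at `C.w0`, and `T_w ^ (n w)` at the other places
(`monomials` in `GuideOctCLevel`). The automorphism transports it to the monomial kernel whose
exponents are permuted by `C.aE.σ`. Proof: `transport_type` at the bad places, `transport_indicator` and
`transport_products` at the others. Files `H59K4`, `H51ZOp`. -/
theorem monomials_transport {F E : Type} [Field F] [NumberField F] [Field E] [NumberField E]
    [Algebra F E] (C : CSetup F E) (n : HeightOneSpectrum (𝓞 E) →₀ ℕ) (k : ℕ)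
    (y y' : XF C.mE.L.fam) :
    (C.kE.D.mono (n.mapDomain C.aE.σ) k).k (C.aE.twist.act y) (C.aE.twist.act y') =
      (C.kE.D.mono n k).k y y' :=
  (H59K.isTw_mono C n k).k_act y y'

/-! ## 3. Symmetry

A kernel `k` is hermitian if `conj k(x, y) = k(y, x)` (`LHerm` for local kernels). -/

/-- **Products and powers.** The unit kernel is hermitian; the product of two hermitian local kernels
which commute is hermitian; a kernel commutes with its powers, so powers of hermitian kernels are
hermitian. File `H59K4`. -/
theorem hermitian_products {G : Type*} [Group G] {U : Subgroup G} {a b : LocKer U}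
    (ha : ∀ x y, conj (a.k x y) = a.k y x) (hb : ∀ x y, conj (b.k x y) = b.k y x)
    (hc : LocKer.mul a b = LocKer.mul b a) (n : ℕ) (x y : G ⧸ U) :
    conj ((LocKer.one : LocKer U).k x y) = (LocKer.one : LocKer U).k y x ∧
      conj ((LocKer.mul a b).k x y) = (LocKer.mul a b).k y x ∧
      LocKer.mul a (lpow a n) = LocKer.mul (lpow a n) a ∧
      conj ((lpow a n).k x y) = (lpow a n).k y x :=
  ⟨H59K.lHerm_one x y, H59K.lHerm_mul ha hb hc x y, H59K.lpow_comm a n, H59K.lHerm_lpow ha n x y⟩

/-- **Double cosets.** The kernel of a set `D` with `D⁻¹ = D` is hermitian. This applies to the double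
coset of `T`: modulo scalars the inverse of a matrix is its adjugate. The double coset of `U` does not
have this property; the operator `C` contains no power of `U`. Files `H59K4`, `H51ZKer`. -/
theorem hermitian_indicator {G : Type*} [Group G] {U : Subgroup G} {a : LocKer U} {D : Set G}
    (h : IsInd a D) (hD : ∀ g ∈ D, g⁻¹ ∈ D) (x y : G ⧸ U) {K : Type*} [Field K]
    (v : Valuation K ℤᵐ⁰) :
    conj (a.k x y) = a.k y x ∧ ∀ g ∈ cellT v, g⁻¹ ∈ cellT v :=
  ⟨H59K.lHerm_of_isInd h hD x y, fun _ hg => cellT_inv v hg⟩

/-- **Types.** The idempotent of a type `(H, χ)` is hermitian if `χ` is a character of absolute value one.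
File `H59K4`. -/
theorem hermitian_type {G : Type*} [Group G] {U : Subgroup G} {a : LocKer U} {H : Subgroup G}
    {χ : G → ℂ} (h : IsTyp a H χ) (hmul : ∀ g ∈ H, ∀ h ∈ H, χ (g * h) = χ g * χ h)
    (hone : χ 1 = 1) (hnorm : ∀ g ∈ H, ‖χ g‖ = 1) (x y : G ⧸ U) :
    conj (a.k x y) = a.k y x :=
  H59K.lHerm_of_isTyp h hmul hone hnorm x y

/-- **Global kernels** with hermitian components are hermitian. File `H59K4`. -/
theorem hermitian_global {G : Type*} [Group G] {ι : Type*} {L : LevelFam G ι} {a : GlobKer L}
    (h : ∀ (i : ι) (x y : G ⧸ L.U i), conj ((a.loc i).k x y) = (a.loc i).k y x) (x y : XF L) :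
    conj (a.k x y) = a.k y x :=
  H59K.gHerm_of_loc h x y

/-- **The monomial kernels without `U`** are hermitian, over `E` and over `F`: `k : KerData m S w0 T` are
the local kernels of block (C) on a model, with bad places `S`, auxiliary place `w0` and types `T`. The
hypothesis on the characters holds in a setup (`setup_types` in `GuideOctCSetup`), because the standard
additive characters have absolute value one. Files `H59K4`, `H7ZPsi`. -/
theorem hermitian_monomials {K : Type*} [Field K] [NumberField K] {J : Type*} [Fintype J]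
    {m : Model K J} {S : Finset (HeightOneSpectrum (𝓞 K))} {w0 : HeightOneSpectrum (𝓞 K)}
    {T : HeightOneSpectrum (𝓞 K) → TD K} (k : KerData m S w0 T)
    (hpsi : ∀ w ∈ S, ∀ x, ‖(T w).psi x‖ = 1) {n : HeightOneSpectrum (𝓞 K) →₀ ℕ}
    (x y : XF m.L.fam) (w : HeightOneSpectrum (𝓞 K)) (z : K) :
    conj ((k.D.mono n 0).k x y) = (k.D.mono n 0).k y x ∧ ‖H7.Z.psi w z‖ = 1 :=
  ⟨H59K.mono_herm k hpsi x y, H7.Z.norm_psi w z⟩

/-! ## 4. Radial kernels

A one variable kernel is a function `k : ℝ → ℝ` which is continuous, bounded and zero for large argument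
(`IsK1`). `tn k` is the tensor product `∏ k_j(t_j)` as a complex valued function, `k1 k` the kernel in
one variable given by `k`, and `it a n κ = a * ⋯ * a * κ` (`n` factors `a`). -/

/-- **Tensor products** of one variable kernels are radial kernels (`IsRC`: continuous, bounded, zero if
one variable is large), have real values, and are permuted with their variables; in particular
`k ⊗ k ⊗ k` is symmetric. Files `H59K1`, `H59K2`, `H17CFam`. -/
theorem tensor_kernels {k : Fin 3 → ℝ → ℝ} (hk : ∀ j, H59K.IsK1 (k j)) {k' : ℝ → ℝ}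
    (e : Equiv.Perm (Fin 3)) (t : Fin 3 → ℝ) :
    H59K.tn k t = ((∏ j, k j (t j) : ℝ) : ℂ) ∧ IsRC (H59K.tn k) ∧
      conj (H59K.tn k t) = H59K.tn k t ∧
      H59K.tn (fun j => k (e j)) (fun j => t (e j)) = H59K.tn k t ∧
      H59K.tn (fun _ : Fin 3 => k') (fun j => t (e j)) = H59K.tn (fun _ => k') t :=
  ⟨rfl, H59K.isRC_tn hk, H17S.isReal_tn k t, H59K.tn_perm k e t, H59K.isSym_tn k' e t⟩

/-- **One variable.** `k1 k` is a real radial kernel in one variable, and the tensor product of three
kernels is `tens3` of the corresponding kernels, i.e. `k₀(t₀) k₁(t₁) k₂(t₂)`; this is the form in which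
`bF` is computed (it is `k₀ * k₁ * k₂`, see `radial_step_F` in `GuideOctCSpec`). File `H59K2`. -/
theorem one_variable {k : ℝ → ℝ} (hk : H59K.IsK1 k) (t : Fin 1 → ℝ) (k' : Fin 3 → ℝ → ℝ) :
    H59K.k1 k t = ((k (t 0) : ℝ) : ℂ) ∧ IsRC (H59K.k1 k) ∧ conj (H59K.k1 k t) = H59K.k1 k t ∧
      H59K.tn k' = fun t => H59K.k1 (k' 0) (fun _ => t 0) * H59K.k1 (k' 1) (fun _ => t 1) *
        H59K.k1 (k' 2) (fun _ => t 2) :=
  ⟨rfl, H59K.isRC_k1 hk, H59K.isReal_k1 k t, H59K.tn_three k'⟩

/-- **Iterated convolutions** of radial kernels are radial kernels, and the eigenvalue at spectral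
parameter `0` is multiplicative. Files `H59K2`, `H56ZChar`. -/
theorem iterated_convolution {J : Type*} [Fintype J] {a κ : (J → ℝ) → ℂ} (ha : IsRC a)
    (hκ : IsRC κ) (n : ℕ) :
    H59K.it a (n + 1) κ = H56Z.conv a (H59K.it a n κ) ∧ IsRC (H59K.it a n κ) ∧
      H56Z.khat0 (H59K.it a n κ) = H56Z.khat0 a ^ n * H56Z.khat0 κ :=
  ⟨H59K.it_succ a n κ, H59K.isRC_it ha hκ n, H59K.khat0_it ha hκ n⟩

/-- **Reality.** Convolutions of real radial kernels are real, and `bF` of a real kernel is real.
File `H59K2`. -/
theorem real_kernels {J : Type*} [Fintype J] {a κ : (J → ℝ) → ℂ} (ha : ∀ t, conj (a t) = a t)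
    (hκ : ∀ t, conj (κ t) = κ t) (n : ℕ) (t : J → ℝ) {κ' : (Fin 3 → ℝ) → ℂ}
    (hκ' : ∀ t, conj (κ' t) = κ' t) (u : Fin 1 → ℝ) :
    conj (H56Z.conv a κ t) = H56Z.conv a κ t ∧ conj (H59K.it a n κ t) = H59K.it a n κ t ∧
      conj (H67M.bF κ' u) = H67M.bF κ' u :=
  ⟨H59K.IsReal.conv ha hκ t, H59K.IsReal.it ha hκ n t, H59K.IsReal.bF hκ' u⟩

/-- **Permutations and convolutions.** Permuting the variables of a convolution permutes the variables
of both factors; if `a` is symmetric, it permutes the variables of `κ` in the iterated convolution.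
File `H59K2`. -/
theorem convolution_permute (κ κ' : (Fin 3 → ℝ) → ℂ) (e : Equiv.Perm (Fin 3)) (t : Fin 3 → ℝ)
    {a : (Fin 3 → ℝ) → ℂ} (ha : ∀ (e : Equiv.Perm (Fin 3)) t, a (fun j => t (e j)) = a t)
    (n : ℕ) :
    H56Z.conv κ κ' (fun j => t (e j)) =
        H56Z.conv (fun u => κ fun j => u (e j)) (fun u => κ' fun j => u (e j)) t ∧
      H59K.it a n κ (fun j => t (e j)) = H59K.it a n (fun u => κ fun j => u (e j)) t :=
  ⟨H59K.conv_perm κ κ' e t, H59K.it_perm ha n κ e t⟩

/-- **Abel transforms.** The Abel transform `H56Z.abel` (`abel_formula` in `GuideHyperbolic`) of a tensor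
product of one variable kernels is the product of the functions `2π ∫_{cosh u_j}^∞ k_j(t) dt`.
File `H75XRad`. -/
theorem abel_of_tensor {J : Type*} [Fintype J] (k : J → ℝ → ℝ) (u : J → ℝ) :
    H56Z.abel (H59K.tn k) u =
      ∏ j, (2 * Real.pi * ∫ t in Set.Ioi (Real.cosh (u j)), (k j t : ℂ)) :=
  H75X.abel_tn_eq k u

/-- **The functions `A_n`.** Let `A` be smooth, even, nonnegative, of compact support and zero near the
multiples of `ℓ` (`exists_test_function` in `GuideHyperbolic`). The functions `A_0 = A` and
`A_{n+1}(u) = A_n(u + ℓ) + A_n(u - ℓ)` (`iter ℓ A n`) have the same properties, and `∫ A_n = 2^n ∫ A`.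
The kernels `k_n` of the operator `C` are the functions with the Abel transforms `A_n`, for
`ℓ = log p` (`exists_inverse_abel` in `GuideHyperbolic`, `exists_kernels` in `GuideOctCSpec`).
File `H80Inv`. -/
theorem iterated_steps {ℓ : ℝ} {A : ℝ → ℝ} (h1 : ContDiff ℝ ∞ A) (h2 : ∀ u, A (-u) = A u)
    (h3 : ∀ u, 0 ≤ A u) (h4 : ∃ R : ℝ, 0 ≤ R ∧ ∀ u, R < |u| → A u = 0)
    (h5 : ∃ δ : ℝ, 0 < δ ∧ ∀ (k : ℤ) (u : ℝ), |u - k * ℓ| < δ → A u = 0) (n : ℕ) :
    (∀ u, H80Inv.iter ℓ A (n + 1) u = H80Inv.iter ℓ A n (u + ℓ) + H80Inv.iter ℓ A n (u - ℓ)) ∧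
      ContDiff ℝ ∞ (H80Inv.iter ℓ A n) ∧
      (∀ u, H80Inv.iter ℓ A n (-u) = H80Inv.iter ℓ A n u) ∧
      (∀ u, 0 ≤ H80Inv.iter ℓ A n u) ∧
      (∃ R : ℝ, 0 ≤ R ∧ ∀ u, R < |u| → H80Inv.iter ℓ A n u = 0) ∧
      (∃ δ : ℝ, 0 < δ ∧ ∀ (k : ℤ) (u : ℝ), |u - k * ℓ| < δ → H80Inv.iter ℓ A n u = 0) ∧
      ∫ u, H80Inv.iter ℓ A n u = 2 ^ n * ∫ u, A u :=
  have h : H80Inv.Seed ℓ A := ⟨h1, h2, h3, h4, h5⟩
  have h' := h.iter n
  ⟨fun _ => rfl, h'.smooth, h'.even, h'.nonneg, h'.supp, h'.gap, h.integral_iter n⟩

/-- **The kernels and their values.** `Seed ℓ A` are the hypotheses on `A` of `iterated_steps`; `invA A`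
is the one variable kernel with Abel transform `A` (continuous, bounded, zero for large argument). The
value of the tensor product of such kernels at spectral parameter `0` is the product of the integrals of
the `A_j`; for `A_{i_j}` as in `iterated_steps` this is `∏ 2^{i_j} ∫ A`. File `H17KK`. -/
theorem kernels_from_abel {ℓ : ℝ} {A : ℝ → ℝ} (h : H80Inv.Seed ℓ A) {J : Type*} [Fintype J]
    {A' : J → ℝ → ℝ} (h' : ∀ j, H80Inv.Seed ℓ (A' j)) (u : ℝ) :
    H59K.IsK1 (H80Inv.invA A) ∧
      2 * Real.pi * ∫ t in Set.Ioi (Real.cosh u), (H80Inv.invA A t : ℂ) = (A u : ℂ) ∧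
      H56Z.khat0 (H59K.tn fun j => H80Inv.invA (A' j)) = ∏ j, ((∫ u, A' j u : ℝ) : ℂ) :=
  ⟨H17S.isK1_invA h, H17S.ab1_invA h u, H17S.khat0_tn_invA h'⟩

/-- **Lipschitz bounds.** If the one variable kernel `a` is Lipschitz, then `a ⊗ a ⊗ a` and the kernel
`k1 a` satisfy the hypotheses on the smoothing kernel `b` in `bounded_kernel` of `GuideOctC`, with the same
bound `T` for the support. Files `H86B3`, `H95S1`. -/
theorem lipschitz_kernels {a : ℝ → ℝ} (ha : H59K.IsK1 a) {L : NNReal} (hL : LipschitzWith L a) :
    ∃ T M : ℝ, 1 ≤ T ∧ (∃ M' : ℝ,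
      (∀ t : Fin 3 → ℝ, (∃ j, T < t j) → H59K.tn (fun _ => a) t = 0) ∧
      (∀ t t' : Fin 3 → ℝ, ‖H59K.tn (fun _ => a) t - H59K.tn (fun _ => a) t'‖ ≤
        (max M 1) ^ Fintype.card (Fin 3) * L * ∑ j, |t j - t' j|) ∧
      ∀ t : Fin 3 → ℝ, ‖H59K.tn (fun _ => a) t‖ ≤ M') ∧
      (∀ t : Fin 1 → ℝ, (∃ j, T < t j) → H59K.k1 a t = 0) ∧
      (∀ t t' : Fin 1 → ℝ, ‖H59K.k1 a t - H59K.k1 a t'‖ ≤ L * ∑ j, |t j - t' j|) ∧
      ∀ t : Fin 1 → ℝ, ‖H59K.k1 a t‖ ≤ M := by
  obtain ⟨T, M, h⟩ := H86B.Lip1.of_lipschitz ha hL; obtain ⟨M', h3⟩ := H86B.ker_tn (J := Fin 3) h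
  exact ⟨T, M, h.one_le, ⟨M', h3.zero, h3.lip, h3.bdd⟩, (H86B.ker_k1 h).zero, (H86B.ker_k1 h).lip,
    (H86B.ker_k1 h).bdd⟩

/-! ## 5. The family

`Ix` is the set of the exponents `n` of monomials in the `3 + 3` variables `inl i`, `inr j`, `al` the aleph
polynomial, `ixs` the finite set of the exponents which occur in it, `prm e n` the exponent `n` permuted
by `e`. For a real number `q` and one variable kernels `k_0, k_1, …` the operator `C` has the summands
`kE q k n ⊗ ∏_i T_{w_i}^{n(inl i)}`, where `kE q k n` is `cf q n` times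
`k_{n(inr 0)} ⊗ k_{n(inr 1)} ⊗ k_{n(inr 2)}` and `cf q n` is the coefficient of `al` at `n` times `√q` to
the power `-(n(inl 0) + n(inl 1) + n(inl 2))`. (In the application `q` is the norm of the `w_i`.) The
summands are then smoothed: convolved with a power of `k_0 ⊗ k_0 ⊗ k_0`. -/

/-- **Construction of the aleph polynomial, one step.** `S` is a set of variables, `i` one more variable,
and an integral polynomial `F` is evaluated at `v_a + 1/v_a` for `a ∈ S` and at `v_a` for the other `a`
(this point is `asg S v`). Modulo `v_i² = (v_i + 1/v_i) v_i - 1` it is a linear polynomial in `v_i`, and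
its product with the polynomial in which `v_i` is replaced by `1/v_i` is again an integral polynomial,
now in `v_a + 1/v_a` for `a ∈ S ∪ {i}` and in the other `v_a`. (If the value of `F` is `x + v_i y`, the
product is `x² + x y (v_i + 1/v_i) + y²`.) File `H39ZPoly`. -/
theorem aleph_step {ι : Type} [DecidableEq ι] (S : Finset ι) {i : ι} (hi : i ∉ S)
    (F : MvPolynomial ι ℤ) :
    (∃ a b : MvPolynomial ι ℤ, ∀ (R : Type) [CommRing R] (v : ι → Rˣ),
      MvPolynomial.aeval (H39Z.asg S v) F = MvPolynomial.aeval (H39Z.asg (insert i S) v) a +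
        (v i : R) * MvPolynomial.aeval (H39Z.asg (insert i S) v) b) ∧
    (∃ G : MvPolynomial ι ℤ, ∀ (R : Type) [CommRing R] (v : ι → Rˣ),
      MvPolynomial.aeval (H39Z.asg (insert i S) v) G = MvPolynomial.aeval (H39Z.asg S v) F *
        MvPolynomial.aeval (H39Z.asg S (fun a => if a ∈ ({i} : Finset ι) then (v a)⁻¹ else v a)) F) ∧
    ∀ (R : Type) [CommRing R] (v : ι → Rˣ), H39Z.asg S v =
      fun a => if a ∈ S then (v a : R) + ((v a)⁻¹ : Rˣ) else (v a : R) :=
  ⟨H39Z.exists_linear S hi F, H39Z.exists_norm_step S hi F, fun _ _ _ => rfl⟩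

/-- **The norm.** By induction: for a polynomial `f` there is an integral polynomial `P` whose value at the
`v_a + 1/v_a`, `a ∈ S`, and the `v_a`, `a ∉ S`, is the product over the subsets `T` of `S` of the values of
`f` with `v_a` replaced by `1/v_a` for `a ∈ T`. For `f = 1 - ∏ X_a` and all variables this is the aleph
polynomial (`IsAleph`, `exists_aleph` in `GuideOctC`). File `H39ZPoly`. -/
theorem aleph_norm {ι : Type} [DecidableEq ι] (S : Finset ι) (f : MvPolynomial ι ℤ) :
    ∃ P : MvPolynomial ι ℤ, ∀ (R : Type) [CommRing R] (v : ι → Rˣ),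
      MvPolynomial.aeval (H39Z.asg S v) P = ∏ T ∈ S.powerset,
        MvPolynomial.aeval (fun a => (((if a ∈ T then (v a)⁻¹ else v a) : Rˣ) : R)) f :=
  H39Z.exists_norm S f

/-- **Uniqueness.** Every complex number is of the form `z + 1/z`; so two integral polynomials which agree
at all points `(z_a + 1/z_a)` are equal. File `H80Al`. -/
theorem aleph_unique {ι : Type} [Fintype ι] [DecidableEq ι] (x : ℂ) {P Q : MvPolynomial ι ℤ}
    (h : ∀ v : ι → ℂˣ, MvPolynomial.aeval (fun a => (v a : ℂ) + (((v a)⁻¹ : ℂˣ) : ℂ)) P =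
      MvPolynomial.aeval (fun a => (v a : ℂ) + (((v a)⁻¹ : ℂˣ) : ℂ)) Q) :
    (∃ z : ℂˣ, (z : ℂ) + ((z⁻¹ : ℂˣ) : ℂ) = x) ∧ P = Q :=
  ⟨H80Al.exists_unit_add_inv x, H80Al.eq_of_aeval h⟩

/-- **The aleph polynomial is symmetric** in all six variables, because the identity which defines it is
symmetric and determines it. So its coefficients do not change when the exponents are permuted. Files
`H80Al`, `H59K1`. -/
theorem aleph_symmetric (e : Equiv.Perm (Fin 3 ⊕ Fin 3)) (n : H59K.Ix) (a : Fin 3 ⊕ Fin 3)
    {P : MvPolynomial (Fin 3 ⊕ Fin 3) ℤ} (hP : H80Al.IsAleph P) :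
    H80Al.IsAleph H59K.al ∧ MvPolynomial.rename e P = P ∧ H59K.prm e n (e a) = n a ∧
      MvPolynomial.coeff (H59K.prm e n) H59K.al = MvPolynomial.coeff n H59K.al ∧
      (H59K.prm e n ∈ H59K.ixs ↔ n ∈ H59K.ixs) :=
  ⟨H59K.isAleph_al, hP.rename_perm e, H59K.prm_apply e n a, H59K.coeff_prm e n,
    H59K.prm_mem_ixs e⟩

/-- **The coefficients.** `cf q n` and the total degree `hdeg n` in the first three variables are
invariant under permutations of the first three and of the last three variables. File `H59K1`. -/
theorem coefficients (q : ℝ) (e e' : Equiv.Perm (Fin 3)) (n : H59K.Ix) :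
    H59K.hdeg n = ∑ i, n (Sum.inl i) ∧
      H59K.cf q n = ((MvPolynomial.coeff n H59K.al : ℤ) : ℝ) * ((Real.sqrt q)⁻¹) ^ H59K.hdeg n ∧
      H59K.hdeg (H59K.prm (Equiv.sumCongr e e') n) = H59K.hdeg n ∧
      H59K.cf q (H59K.prm (Equiv.sumCongr e e') n) = H59K.cf q n :=
  ⟨rfl, rfl, H59K.hdeg_prm e e' n, H59K.cf_prm q e e' n⟩

/-- **The radial kernels** `kE q k n` are real radial kernels; permuting the exponents of the last three
variables permutes the variables of the kernel. File `H59K1`. -/
theorem radial_kernels (q : ℝ) {k : ℕ → ℝ → ℝ} (hk : ∀ i, H59K.IsK1 (k i))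
    (e e' : Equiv.Perm (Fin 3)) (n : H59K.Ix) (t : Fin 3 → ℝ) :
    H59K.kE q k n t = (H59K.cf q n : ℂ) * H59K.tn (fun j => k (n (Sum.inr j))) t ∧
      IsRC (H59K.kE q k n) ∧ conj (H59K.kE q k n t) = H59K.kE q k n t ∧
      H59K.kE q k (H59K.prm (Equiv.sumCongr e e') n) t =
        H59K.kE q k n (fun j => t (e' j)) :=
  ⟨rfl, H59K.isRC_kE q hk n, H59K.kE_real q k n t, H59K.kE_prm q k e e' n t⟩

/-- **The exponents of the Hecke operators.** `nE w n` is the multi-index `Σ_i n(inl i) w_i` on the set of
places. Permuting the exponents of the first three variables permutes the places; taking the image under a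
map `f` of sets of places replaces `w i` by `f (w i)`; only the places `w i` occur. Files `H59K1`,
`H17CFam`. -/
theorem hecke_exponents {P Q : Type*} (w : Fin 3 → P) (f : P → Q) (e e' : Equiv.Perm (Fin 3))
    (n : H59K.Ix) (p : P) :
    H59K.nE w n = ∑ i, Finsupp.single (w i) (n (Sum.inl i)) ∧
      H59K.nE w (H59K.prm (Equiv.sumCongr e e') n) = H59K.nE (fun i => w (e i)) n ∧
      (H59K.nE w n).mapDomain f = H59K.nE (fun i => f (w i)) n ∧
      (p ∈ (H59K.nE w n).support → ∃ j, w j = p) :=
  ⟨rfl, H59K.nE_prm w e e' n, H59K.nE_mapDomain w f n, H17S.mem_support_nE⟩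

/-- **Finite families of kernels on `X`.** `fk m s κ f` is the sum over `i ∈ s` of the kernels with radial
part `κ i` and finite part `f i`. It is invariant under `PGL₂(K)`. It is invariant under the
automorphism `a` of the model if there is a permutation `e` of the indices which preserves `s` and
corresponds to the permutation of the variables of `κ i` (`hκ`) and to the transport of `f i` (`hf`).
File `H59K3`. -/
theorem finite_families {K : Type*} [Field K] [NumberField K] {J : Type*} [Fintype J] {I : Type*}
    {m : Model K J} {s : Finset I} {κ : I → (J → ℝ) → ℂ} {f : I → GlobKer m.L.fam}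
    (g : PGL(2, K)) (a : AutData m) (e : I ≃ I) (he : ∀ i, e i ∈ s ↔ i ∈ s)
    (hκ : ∀ i ∈ s, ∀ t : J → ℝ, κ (e i) t = κ i fun j => t (a.c.symm j))
    (hf : ∀ i ∈ s, ∀ x y, (f (e i)).k x y = (f i).k (a.twist.act x) (a.twist.act y))
    (x y : m.X) :
    H59K.fk m s κ f x y = ∑ i ∈ s, κ i (H5Z.chv x.1 y.1) * (f i).k x.2 y.2 ∧
      H59K.fk m s κ f (g • x) (g • y) = H59K.fk m s κ f x y ∧
      H59K.fk m s κ f (a.act x) (a.act y) = H59K.fk m s κ f x y :=
  ⟨H59K.fk_apply x y, H59K.fk_smul g x y, H59K.fk_act a e he hκ hf x y⟩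

/-- **The sum over `E`.** The sum of the test kernels `C.tkE` of the family, smoothed `N` times, is the
finite family with the radial parts `it (k_0 ⊗ k_0 ⊗ k_0) N (kE q k n)` (`fKE q k N n`) and the monomial
kernels with the exponents `nE w n`; `IxS` is `ixs` as a type. (`finite_families` with `e = prm` of the
inverse rotation of the `w_i` and of the infinite places is how `family_invariant` in
`GuideOctCKernels` is proved.) The radial parts are real radial kernels, and the exponents are allowed
(`C.Ok`: not bad, and the place of `F` below splits in `E`) if the `w_i` are. File `H17CFam`. -/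
theorem sum_over_E {F E : Type} [Field F] [NumberField F] [Field E] [NumberField E] [Algebra F E]
    (C : CSetup F E) (q : ℝ) {k : ℕ → ℝ → ℝ} (hk : ∀ i, H59K.IsK1 (k i)) (N : ℕ)
    {w : Fin 3 → HeightOneSpectrum (𝓞 E)} (hw : ∀ j, C.Ok (w j)) (x y : C.mE.X) (i : H59K.Ix)
    (t : Fin 3 → ℝ) :
    ∑ i : H17S.IxS, C.tkE (H17S.fKE q k N i) (H59K.nE w i) 0 x y =
        H59K.fk C.mE H59K.ixs (fun i => H59K.it (H59K.tn fun _ => k 0) N (H59K.kE q k i))
          (fun n => C.kE.D.mono (H59K.nE w n) 0) x y ∧
      IsRC (H17S.fKE q k N i) ∧ conj (H17S.fKE q k N i t) = H17S.fKE q k N i t ∧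
      ∀ p ∈ (H59K.nE w i).support, C.Ok p :=
  ⟨congrFun (congrFun (H17S.sumE C q k N w) x) y, H17S.isRC_fKE q hk N i,
    H17S.isReal_fKE q k N i t, H17S.okN_nE hw i⟩

/-- **The kernels over `F`** are `kF q k n = bF (kE q k n)`; they are real radial kernels in one
variable, and `bF (c κ) = c bF κ` for constants `c`. After smoothing: `bF` of a kernel, convolved `N`
times with `k_0 ⊗ k_0 ⊗ k_0`, is the kernel `bF κ`, convolved `3 N` times with `k_0` (`smoothing` in
`GuideOctCSpec`; the sum over `F` is `family_over_F` in `GuideOctCKernels`). Files `H59K2`, `H67M5`. -/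
theorem kernels_over_F (q : ℝ) {k : ℕ → ℝ → ℝ} (hk : ∀ i, H59K.IsK1 (k i)) (n : H59K.Ix)
    (t : Fin 1 → ℝ) {κ : (Fin 3 → ℝ) → ℂ} (c : ℂ) :
    H59K.kF q k n = H67M.bF (H59K.kE q k n) ∧ IsRC (H59K.kF q k n) ∧
      conj (H59K.kF q k n t) = H59K.kF q k n t ∧
      H67M.bF (fun u => c * κ u) = fun u => c * H67M.bF κ u :=
  ⟨rfl, H59K.isRC_kF q hk n, H59K.isReal_kF q k n t, H67M.bF_const_mul κ c⟩

/-- **The value of the operator.** On a joint eigenvector with the eigenvalues `lam i` of the Hecke
operators at the `w_i`, and `2^m h` of the kernels `k_m`, the family acts by `h³` times the value of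
the aleph polynomial at the `lam i / √q` and at `2, 2, 2`. File `H59K1`. -/
theorem value_of_operator (q : ℝ) (lam : Fin 3 → ℂ) (h : ℂ) :
    ∑ n ∈ H59K.ixs, (H59K.cf q n : ℂ) * (∏ j : Fin 3, (2 ^ n (Sum.inr j) * h)) *
        ∏ i, lam i ^ n (Sum.inl i) =
      h ^ 3 * MvPolynomial.aeval
        (Sum.elim (fun i => ((Real.sqrt q)⁻¹ : ℝ) * lam i) (fun _ => (2 : ℂ))) H59K.al :=
  H59K.sum_value q lam h

/-- **The eigenvalues of the summands.** `khat0` is linear; if the value of `k_{i_0} ⊗ k_{i_1} ⊗ k_{i_2}` is
`∏ 2^{i_j} h`, that of `kE q k n` is `cf q n ∏ 2^{n(inr j)} h`; and the eigenvalue of the Hecke monomial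
is the product of the powers of the eigenvalues at the `w_j`. With `value_of_operator` (at `lam = 0`)
this gives `family_value` in `GuideOctCKernels`. File `H17CFam`. -/
theorem eigenvalues_of_summands {J : Type*} [Fintype J] (c : ℂ) (κ : (J → ℝ) → ℂ) (q : ℝ)
    {k : ℕ → ℝ → ℝ} {h : ℂ}
    (hv : ∀ i : Fin 3 → ℕ, H56Z.khat0 (H59K.tn fun j => k (i j)) = ∏ j, (2 ^ i j * h))
    (n : H59K.Ix) {P : Type*} (w : Fin 3 → P) (x : P → ℂ) :
    H56Z.khat0 (fun t => c * κ t) = c * H56Z.khat0 κ ∧
      H56Z.khat0 (H59K.kE q k n) =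
        (H59K.cf q n : ℂ) * ∏ j : Fin 3, (2 ^ n (Sum.inr j) * h) ∧
      ((H59K.nE w n).prod fun p m => x p ^ m) = ∏ j, x (w j) ^ n (Sum.inl j) :=
  ⟨H17S.khat0_const_mul c κ, H17S.khat0_kE q hv n, H17S.prod_nE w x n⟩

/-! ## 6. The auxiliary prime

Let `hp` be the hypothesis of `operator_C` in `GuideOctC`: for every `n > 0` there is a prime `p ≡ -1`
modulo `n`, not dividing `n`, inert in `F = ℚ(ω)`, with three divisors in `E` (`divs E p` is the set of
the places of `E` which divide `p`), at which the given function `a` is zero. The theorems of this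
section show how to get the data of the operator `C`: take for `n` a high power of an integer which is
divisible by all bad places of `E` and `F` and by the auxiliary places. -/

/-- **Places which do not divide `p`.** If the place `u` divides `n` and the prime `p` does not divide `n`,
then `u` does not divide `p`, and `p` is a unit at `u`. An integer `n` is divisible by the place `w` of
`E` if and only if it is divisible by the place of `F` below. Elements of the `k`-th power of the prime
ideal have valuation `≤ exp (-k)`. Files `H59K5`, `H83ZInst4`. -/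
theorem not_dividing {F E : Type*} [Field F] [NumberField F] [Field E] [NumberField E]
    [Algebra F E] {u : HeightOneSpectrum (𝓞 E)} {p n : ℕ} (hp : p.Prime) (hpn : ¬ p ∣ n)
    (hn : (n : 𝓞 E) ∈ u.asIdeal) (m k : ℕ) (x : 𝓞 E) :
    (p : 𝓞 E) ∉ u.asIdeal ∧ ((p : 𝓞 E) ∉ u.asIdeal → u.valuation E (p : E) = 1) ∧
      ((m : 𝓞 F) ∈ (H47.below F u).asIdeal ↔ (m : 𝓞 E) ∈ u.asIdeal) ∧
      (x ∈ u.asIdeal ^ k → u.valuation E (x : E) ≤ exp (-(k : ℤ))) :=
  ⟨H59K.natCast_not_mem_of hp hpn hn, H83Z.val_natCast_eq_one, H83Z.natCast_mem_below,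
    H59K.val_coe_le⟩

/-- **Depth.** For a finite set `P` of places there are an integer `N ≠ 0` which is divisible by all places
of `P`, and a number `k₀` such that for `k ≥ k₀` the level at every place of `P` contains the congruence
subgroup of level `k`. Files `H59K5`, `H83ZInst4`. -/
theorem depth {K : Type*} [Field K] [NumberField K] {J : Type*} [Fintype J] (m : Model K J)
    {P : Set (HeightOneSpectrum (𝓞 K))} (hP : P.Finite) :
    (∃ N : ℕ, N ≠ 0 ∧ ∀ u ∈ P, (N : 𝓞 K) ∈ u.asIdeal) ∧
      ∃ k₀ : ℕ, ∀ k ≥ k₀, ∀ u ∈ P, (Gam u k : Subgroup PGL(2, K)) ≤ m.L.U u :=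
  ⟨H83Z.exists_nat_mem hP, H59K.exists_depth m hP⟩

/-- **`-p` is close to `1`.** Outside `P` the level is maximal, all places of `P` divide `N`, and at the
places of `P` the level contains the congruence subgroup of level `k`. If `N^k` divides `p + 1`, then
`-p` is, at every place `u` which does not divide `p`, a unit and congruent to `1` modulo the `n`-th
power of the maximal ideal, for some `n` such that the level at `u` contains the congruence subgroup of
level `n`. (At the places of `P` one takes `n = k`, at the others `n = 0`.) So `diag(-p, 1)` lies in the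
level at all these places. File `H59K5`. -/
theorem minus_p_close_to_one {K : Type*} [Field K] [NumberField K] {J : Type*} [Fintype J]
    {m : Model K J} {P : Set (HeightOneSpectrum (𝓞 K))} (hP : ∀ u ∉ P, m.L.U u = H59D.U0 u)
    {N k p : ℕ} (hN : ∀ u ∈ P, (N : 𝓞 K) ∈ u.asIdeal)
    (hk : ∀ u ∈ P, (Gam u k : Subgroup PGL(2, K)) ≤ m.L.U u) (hp : N ^ k ∣ p + 1)
    {u : HeightOneSpectrum (𝓞 K)} (hu : (p : 𝓞 K) ∉ u.asIdeal) :
    u.valuation K (-(p : K)) = 1 ∧ ∃ n : ℕ, (Gam u n : Subgroup PGL(2, K)) ≤ m.L.U u ∧
      u.valuation K (-(p : K) - 1) ≤ exp (-(n : ℤ)) :=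
  H59K.far_aux hP hN hk hp rfl hu

/-- **Norms.** The norm of the ideal `(r)` is the product of the norms of the places dividing it, with
their multiplicities; the norm of `(p)` is `p` to the power `[E : ℚ]`; an automorphism of `E` over `F`
does not change the norm of a place (`smulPlace s w` is the image of `w` under `s`). So, if `(p)` is the
product of three conjugate places `w_j` of the field `E` of degree six, then `N(w_j)³ = p⁶` and
`N(w_j) = p²`. Files `H82GlobIndex`, `H30G4`. -/
theorem norms_of_places {F E : Type} [Field F] [NumberField F] [Field E] [NumberField E]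
    [Algebra F E] (T : Finset (HeightOneSpectrum (𝓞 E))) {r : 𝓞 E} (hr : r ≠ 0)
    (e : HeightOneSpectrum (𝓞 E) → ℕ)
    (he : ∀ v ∈ T, v.valuation E (algebraMap (𝓞 E) E r) = exp (-(e v : ℤ)))
    (hT : ∀ v, v ∉ T → v.valuation E (algebraMap (𝓞 E) E r) = 1) (p : ℕ) (s : E ≃ₐ[F] E)
    (w : HeightOneSpectrum (𝓞 E)) :
    ∏ v ∈ T, Ideal.absNorm v.asIdeal ^ (e v) = Ideal.absNorm (Ideal.span {r}) ∧
      Ideal.absNorm (Ideal.span {(p : 𝓞 E)}) = p ^ Module.finrank ℚ E ∧
      Ideal.absNorm (H47.smulPlace s w).asIdeal = Ideal.absNorm w.asIdeal :=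
  ⟨H82.prod_absNorm T hr e he hT, H82.absNorm_natCast p, H30G.absNorm_smulPlace s w⟩

/-- **The data of the operator `C`.** There are a number `p > 0` (the prime of the hypothesis), three
different places `w_j` of `E` and a place `v` of `F` below them which satisfy all hypotheses of
`constantTerms_E` (over `E`, for `w_0, w_1, w_2`) and of `constantTerms_F` (over `F`, for `v`) in
`GuideOctCSpec`: the places are good, their norm is `p²`, `p` is a uniformiser there, and at all other
places `p` is a unit and `p + 1` is divisible by a power of the place which depends on the level. Files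
`H59K5`, `H17CF`, `H39ZC5` (`PData`). -/
theorem auxiliary_prime_data (F E : Type) [Field F] [NumberField F]
    [IsCyclotomicExtension {3} ℚ F] [Field E] [NumberField E] [Algebra F E] (C : CSetup F E)
    (a : HeightOneSpectrum (𝓞 E) → ℝ)
    (hp : ∀ n : ℕ, 0 < n → ∃ p : ℕ, p.Prime ∧ ¬ p ∣ n ∧ (p : ZMod n) = -1 ∧ p % 3 = 2 ∧
      (H46Z.divs E p).card = 3 ∧ ∀ w ∈ H46Z.divs E p, a w = 0) :
    ∃ (p : ℕ) (w : Fin 3 → HeightOneSpectrum (𝓞 E)) (v : HeightOneSpectrum (𝓞 F)), 0 < p ∧
      Function.Injective w ∧ (∀ i, H47.below F (w i) = v) ∧ ((∀ i, w i ∉ C.SE ∧ w i ≠ C.w0) ∧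
      (∀ i, Ideal.absNorm (w i).asIdeal = p ^ 2) ∧
      (∀ i, (w i).valuation E (p : E) = exp (-(1 : ℤ))) ∧
      ∀ u, (∀ i, w i ≠ u) → u.valuation E (p : E) = 1 ∧ ∃ n : ℕ,
        Gam u n ≤ C.mE.L.U u ∧ u.valuation E ((p : E) + 1) ≤ exp (-(n : ℤ))) ∧
      (v ∉ C.SF ∧ v ≠ C.v0) ∧ Ideal.absNorm v.asIdeal = p ^ 2 ∧
      v.valuation F (p : F) = exp (-(1 : ℤ)) ∧
      ∀ u, v ≠ u → u.valuation F (p : F) = 1 ∧ ∃ n : ℕ,
        Gam u n ≤ C.mF.L.U u ∧ u.valuation F ((p : F) + 1) ≤ exp (-(n : ℤ)) :=
  (H59K.exists_pw C hp).elim fun P => have h := H17S.pdataE P; have h' := H17S.pdataF P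
    ⟨P.p, P.w, P.v, h.pos, P.w_inj, P.w_below, ⟨h.good, h.nrm, h.val, h.out⟩, h'.good 0, h'.nrm 0,
      h'.val 0, fun u hu => h'.out u fun _ => hu⟩

end Fermat.Agent.Guide.OctCOperator
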