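import Fermat.Agent.H57CGood

/-!
# Guide to the proof: from local matchings to the geometric comparison (block (C) of S47)

This file is a machine-checked table of contents. Every theorem below is a citation of a theorem of
the library, with its statement written out. Nothing imports this file, except the list `Guide`. It is a
companion of `GuideOctCGeom`, sections 2 to 4; for the places at infinity see also `GuideOctCInfinity`.

**What it does.** The geometric comparison `C.Geom` (`GuideOctC.geom_iff`) is the equality of the integral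
of `Σ_d k_E(x, d s(x))` over `PGL₂(E) \ X(E)` and of the integral of `Σ_γ k_F(y, γ y)` over
`PGL₂(F) \ X(F)`, where `E / F` is cyclic of degree three with generator `s`. `GuideOctCGeom` explains the
classes (which `d` correspond to which `γ`), the local comparisons at the places of `F`, and the result.
Here is what is in between: how comparisons at all places of `F`, each of them an identity of finite
sums over cosets, are put together to the equality of the two integrals.

**The idea.** There is one relation, the *matching* of two weights (`GuideOctCGeom.locMatch_iff`): a map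
`β` between two sets, compatible with the action of a group `T` where the first weight is not zero,
under which the second weight is the push-forward of the first one. It is multiplicative in the place, it
can be composed with an identity at infinity, and it can be passed through a third set. All of this
uses only discrete sets of cosets of the global groups `PGL₂(E)`, `PGL₂(F)`: there are no completions,
no Haar measures on groups and no measures on centralisers.

**The steps.**
 (a) Weights at the places `w` above `v` are multiplied; the restricted product of the cosets over the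
   places of `E` is the restricted product over the places `v` of `F` of the products over `w ∣ v`.
   So matchings at all `v`, which respect the base points at almost all `v`, give a matching of the
   weights `x ↦ k(x, d s(x))` and `y ↦ k(y, γ y)` on the finite parts of `X(E)` and `X(F)`
   (sections 1, 2).
 (b) The weights over `E` and over `F` are both matched with the same weight on a third space (the finite
   part of a third model, over `F`). At the bad places with one place above them this is necessary: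
   there is no useful map from the cosets over `E` to the cosets over `F`. At the other places the third
   set is the one of `F`, and the second matching is the identity.
 (c) At infinity a map `p : (H3)³ → H3` and kernels `κ_E`, `κ_F` with: integration of `κ_E` against
   functions of `p(x)` is integration of `κ_F` (section 3). With (a) this gives the equality of the
   integrals over the quotients by the centraliser `T` of `γ`, first with the cut-off function over `E`
   replaced by the pull-back of the one over `F` (unfolding: the integral does not depend on the cut-off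
   function), then by summation over the fibres of `β` and integration over the fibres of `p`.
 (d) For a given pair `(d, γ)` almost all places are good: the kernels are trivial, `d` and `γ` are in the
   level, `γ` has a representative with unit discriminant. The local authors prove, for every place `v`,
   one of two statements: `PM` (a matching) or `PM0` (a matching, which respects the base points if `v`
   is good for `(d, γ)`). `PM` at finitely many places and `PM0` at the others give `C.Geom`
   (sections 4, 5).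

**Where.** NOTES.md, Appendix A.13: [472], and [415], 6.4. All of it is in the proof term of S47.
Author: helper57 (`H57CLoc`, `H57CProd`, `H57CProd2`, `H57COrb`, `H57COrb2`, `H57CGeom`, `H57CDict`,
`H57CSet`, `H57CFin`); cut-off functions: helper94 (`H94UCut`, `H94UCls`); spaces and kernels: helper59
(`H59XF`, `H59Def`); the setup: helper79 (`H79SDef`).
-/

set_option autoImplicit false

open IsDedekindDomain HeightOneSpectrum NumberField Matrix MeasureTheory
open scoped MatrixGroups ENNReal

noncomputable section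

namespace Fermat.Agent.Guide.OctCOrbital

open Fermat.Agent Fermat.Agent.H59XF Fermat.Agent.H59D Fermat.Agent.H79S

/-! ## 1. Matchings

`H57C.LocMatch aE aF φ ψ β` means that the weights `φ` and `ψ` are matched by `β`, for the operations
`aE`, `aF` of `T` (`GuideOctCGeom.locMatch_iff`). -/

/-- **Bijections of supports** (`H57CLoc`): a map which, where `φ` is not zero, is compatible with the
operations and preserves the weights, and which is a bijection from the support of `φ` to the one of `ψ`,
is a matching. The comparisons at the inert good places and at the auxiliary place have this form. -/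
theorem matching_of_bijection {T XE XF : Type*} {aE : T → XE → XE} {aF : T → XF → XF}
    {φ : XE → ℂ} {ψ : XF → ℂ} {β : XE → XF}
    (h1 : ∀ t x, φ x ≠ 0 → β (aE t x) = aF t (β x)) (h2 : ∀ x, φ x ≠ 0 → ψ (β x) = φ x)
    (h3 : ∀ x x', φ x ≠ 0 → φ x' ≠ 0 → β x = β x' → x = x')
    (h4 : ∀ y, ψ y ≠ 0 → ∃ x, φ x ≠ 0 ∧ β x = y) : H57C.LocMatch aE aF φ ψ β :=
  H57C.LocMatch.of_bij h1 h2 h3 h4

/-- **Base points** (`H57CLoc`). `Base bE bF φ ψ β`: both weights are `1` at the base points, and among the
points where `φ` is not zero only the base point `bE` is mapped to `bF`. In particular `β bE = bF`. -/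
theorem base_iff {XE XF : Type*} (bE : XE) (bF : XF) (φ : XE → ℂ) (ψ : XF → ℂ) (β : XE → XF) :
    (H57C.Base bE bF φ ψ β ↔ φ bE = 1 ∧ ψ bF = 1 ∧ ∀ x, φ x ≠ 0 → (β x = bF ↔ x = bE)) ∧
      (H57C.Base bE bF φ ψ β → β bE = bF) :=
  ⟨⟨fun h => ⟨h.1, h.2, h.3⟩, fun h => ⟨h.1, h.2.1, h.2.2⟩⟩, fun h => h.map⟩

/-- **The identity** (`H57CProd2`) is a matching of every weight with itself, and it respects the base
point if the weight is `1` there. -/
theorem identity_matching {T X : Type*} (a : T → X → X) (b : X) (φ : X → ℂ) :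
    H57C.LocMatch a a φ φ id ∧ (φ b = 1 → H57C.Base b b φ φ id) :=
  ⟨H57C.LocMatch.refl a φ, H57C.Base.refl b φ⟩

/-- **Transport** (`H57CProd`): a matching can be transported along bijections `eE`, `eF` of the sets which
are compatible with the operations and the weights. -/
theorem transport {T XE XF XE' XF' : Type*} {aE : T → XE → XE} {aF : T → XF → XF}
    {φ : XE → ℂ} {ψ : XF → ℂ} {β : XE → XF} (h : H57C.LocMatch aE aF φ ψ β)
    (eE : XE' ≃ XE) (eF : XF' ≃ XF) {aE' : T → XE' → XE'} {aF' : T → XF' → XF'}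
    {φ' : XE' → ℂ} {ψ' : XF' → ℂ} (haE : ∀ t x, eE (aE' t x) = aE t (eE x))
    (haF : ∀ t y, eF (aF' t y) = aF t (eF y)) (hφ : ∀ x, φ' x = φ (eE x))
    (hψ : ∀ y, ψ' y = ψ (eF y)) :
    H57C.LocMatch aE' aF' φ' ψ' (fun x => eF.symm (β (eE x))) :=
  h.transport eE eF haE haF hφ hψ

/-- **Product weights** (`H57CLoc`). `RP X b` is the restricted product of the pointed sets `(X v, b v)`.
If the weights `φ v` are `1` at almost all base points, then for a point `x` of the restricted product
almost all factors `φ v (x v)` are `1`, and the product weight `prodW φ x` (the product of the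
`φ v (x v)`) is not zero iff all factors are not zero. (The product of matchings is
`GuideOctCGeom.locMatch_product`. The fibre of the product map over `y` is a product of the finite
fibres over the finitely many coordinates of `y` which are not the base point, or where the matching
does not respect the base points; then the sum over it is the product of the sums.) -/
theorem product_weights {V : Type*} {X : V → Type*} {b : ∀ v, X v} {φ : ∀ v, X v → ℂ}
    (h0 : ∀ᶠ v in Filter.cofinite, φ v (b v) = 1) (x : H57C.RP X b) :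
    (Function.mulSupport fun v => φ v (x.1 v)).Finite ∧
      ((∏ᶠ v, φ v (x.1 v)) ≠ 0 ↔ ∀ v, φ v (x.1 v) ≠ 0) :=
  ⟨H57C.finite_mulSupport h0 x, H57C.prodW_ne_zero h0 x⟩

/-! ## 2. The finite part of the space of a model

`L : LevelFam G ι` is a family of subgroups `L.U i` of a group `G`, one for each place `i`, such that
every element of `G` is in almost all of them; `XF L` is the restricted product of the sets of cosets
`G / L.U i`, with the diagonal action of `G`. `t : Twist L` is an automorphism of `G` with a permutation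
`t.σ` of the places which permutes the groups `L.U i`; it acts on `XF L` by `t.act`. `a : GlobKer L` is
a product of invariant kernels `a.loc i` on the sets `G / L.U i`, almost all of them the unit kernel,
with kernel function `a.k`. Here `π : ι → κ` is a map to another set of places with finite fibres, and
`π (t.σ i) = π i` (in the application: the places of `E`, and `w ↦ v` if `w ∣ v`). -/

/-- **Points over a place** (`H57CProd`). `Xv L π v` is the product of the sets `G / L.U i` for the `i`
above `v`, `resv π x v` the restriction of a point `x` of `XF L` to the places above `v`, and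
`actv t π hπ v` the action of `t` on `Xv L π v`. The space `XF L` is the restricted product of the sets
`Xv L π v` (`x` corresponds to the family of its restrictions), and restriction is compatible with the
action of `t`. -/
theorem points_over_places {G : Type*} [Group G] {ι κ : Type*} (L : LevelFam G ι) (t : Twist L)
    (π : ι → κ) (hπ : ∀ i, π (t.σ i) = π i) (hfib : ∀ v, {i | π i = v}.Finite) :
    (∃ e : XF L ≃ H57C.RP (H57C.Xv L π) (H57C.bv L π), ∀ x v, (e x).1 v = H57C.resv π x v) ∧
      (∀ (x : XF L) (v : κ) (i : {i // π i = v}), H57C.resv π x v i = x i.1) ∧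
      ∀ (x : XF L) (v : κ),
        H57C.actv t π hπ v (H57C.resv π x v) = H57C.resv π (t.act x) v :=
  ⟨⟨H57C.eqv L π hfib, fun _ _ => rfl⟩, fun _ _ _ => rfl, fun _ _ => rfl⟩

/-- **Products over the fibres** (`H57CProd`): a product over the places `i` is the product over all `v`
of the products over the `i` above `v`. -/
theorem product_over_fibres {ι κ M : Type*} [CommMonoid M] (π : ι → κ) (f : ι → M)
    (hf : (Function.mulSupport f).Finite) :
    ∏ᶠ v : κ, ∏ᶠ i : {i // π i = v}, f i.1 = ∏ᶠ i, f i :=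
  H57C.finprod_fiber π f hf

/-- **The weight of a product kernel** (`H57CProd`). `phiv t π hπ a d v` is the weight
`x ↦ ∏_(i above v) k_i(x_i, (d t(x))_i)` on `Xv L π v`, for `d` in `G`. The weight `x ↦ a.k(x, d t(x))` on
`XF L` is the product of these weights. -/
theorem weight_of_product_kernel {G : Type*} [Group G] {ι κ : Type*} {L : LevelFam G ι}
    (t : Twist L) (π : ι → κ) (hπ : ∀ i, π (t.σ i) = π i) (a : GlobKer L) (d : G) :
    (∀ (v : κ) (x : H57C.Xv L π v), H57C.phiv t π hπ a d v x =
        ∏ᶠ i : {i // π i = v}, (a.loc i.1).k (x i) (d • H57C.actv t π hπ v x i)) ∧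
      ∀ x : XF L, a.k x (d • t.act x) = ∏ᶠ v : κ, H57C.phiv t π hπ a d v (H57C.resv π x v) :=
  ⟨fun _ _ => rfl, H57C.GlobKer_k_eq t π hπ a d⟩

/-- **Matching over `E`** (`H57CProd2`), step (a). Matchings of the weights `phiv` with weights `ψ v` on
sets `G' / L'.U v`, which respect the base points outside a finite set `S`, give a matching of the
weight `x ↦ a.k(x, d t(x))` on `XF L` with the weight `y ↦ ∏_v ψ v (y v)` on `XF L'`. The operations of
`T` (later: the centraliser of `γ`) are the translations by `τ c` and `τ' c`. -/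
theorem matching_over_E {G G' : Type*} [Group G] [Group G'] {ι κ : Type*} {L : LevelFam G ι}
    {L' : LevelFam G' κ} (t : Twist L) (π : ι → κ) (hπ : ∀ i, π (t.σ i) = π i)
    (hfib : ∀ v, {i | π i = v}.Finite) (a : GlobKer L) (ψ : ∀ v, G' ⧸ L'.U v → ℂ) (d : G)
    {T : Type*} (τ : T → G) (τ' : T → G') (S : Set κ) (hS : S.Finite)
    (h : ∀ v, ∃ β : H57C.Xv L π v → G' ⧸ L'.U v,
      H57C.LocMatch (fun c x => fun i => τ c • x i) (fun c y => τ' c • y)
        (H57C.phiv t π hπ a d v) (ψ v) β ∧
      (v ∉ S → H57C.Base (H57C.bv L π v) ((1 : G') : G' ⧸ L'.U v) (H57C.phiv t π hπ a d v)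
        (ψ v) β)) :
    ∃ β : XF L → XF L', H57C.LocMatch (fun c x => τ c • x) (fun c y => τ' c • y)
      (fun x => a.k x (d • t.act x)) (fun y => ∏ᶠ v, ψ v (y v)) β :=
  H57C.exists_locMatchE t π hπ hfib a ψ d τ τ' S hS h

/-- **Matching over `F`** (`H57CProd2`), step (b): the same for the weight `y ↦ b.k(y, γ y)` on `XF L'` and
a second level `L''` of the same group. -/
theorem matching_over_F {G' : Type*} [Group G'] {κ : Type*} {L' L'' : LevelFam G' κ}
    (b : GlobKer L') (γ : G') (ψ : ∀ v, G' ⧸ L''.U v → ℂ) {T : Type*} (τ' : T → G') (S : Set κ)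
    (hS : S.Finite)
    (h : ∀ v, ∃ β : G' ⧸ L'.U v → G' ⧸ L''.U v,
      H57C.LocMatch (fun c x => τ' c • x) (fun c y => τ' c • y)
        (fun y => (b.loc v).k y (γ • y)) (ψ v) β ∧
      (v ∉ S → H57C.Base ((1 : G') : G' ⧸ L'.U v) ((1 : G') : G' ⧸ L''.U v)
        (fun y => (b.loc v).k y (γ • y)) (ψ v) β)) :
    ∃ β : XF L' → XF L'', H57C.LocMatch (fun c x => τ' c • x) (fun c y => τ' c • y)
      (fun x => b.k x (γ • x)) (fun y => ∏ᶠ v, ψ v (y v)) β :=
  H57C.exists_locMatchF b γ ψ τ' S hS h

/-! ## 3. One class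

`HE`, `HF` are the spaces at infinity, with measures `μE`, `μF`, and `YE`, `YF`, `YT` countable discrete
sets (the finite parts). `IsCutoff T χ` means that `χ` is measurable and `Σ_(t ∈ T) χ(t x) = 1`; the
integral against `χ μ` is the integral over the quotient by `T`. -/

/-- **Matching at infinity** (`H57COrb`). `InfMatch μE μF p kE kF`: `p` and `kF` are measurable, and for
every measurable function `h : HF → [0, 1]` the integral of `h(p(x)) kE(x)`, if it converges
absolutely, is the one of `h(x) kF(x)`, and the `L¹`-norm of `h kF` is at most the one of `(h ∘ p) kE`.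
(So `kF μF` is the push-forward of `kE μE`.) For the models: `GuideOctCGeom.matching_infinity`. -/
theorem infMatch_iff {HE HF : Type*} [MeasurableSpace HE] [MeasurableSpace HF]
    (μE : Measure HE) (μF : Measure HF) (p : HE → HF) (kE : HE → ℂ) (kF : HF → ℂ) :
    H57C.InfMatch μE μF p kE kF ↔ Measurable p ∧
      (∀ h : HF → ℝ, Measurable h → (∀ x, 0 ≤ h x) → (∀ x, h x ≤ 1) →
        Integrable (fun x => (h (p x) : ℂ) * kE x) μE →
        ∫ x, (h (p x) : ℂ) * kE x ∂μE = ∫ x, (h x : ℂ) * kF x ∂μF) ∧
      (∀ h : HF → ℝ, Measurable h → (∀ x, 0 ≤ h x) → (∀ x, h x ≤ 1) →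
        ∫⁻ x, ‖(h x : ℂ) * kF x‖ₑ ∂μF ≤ ∫⁻ x, ‖(h (p x) : ℂ) * kE x‖ₑ ∂μE) ∧ Measurable kF :=
  ⟨fun h => ⟨h.1, h.2, h.3, h.4⟩, fun h => ⟨h.1, h.2.1, h.2.2.1, h.2.2.2⟩⟩

/-- **Summation over the fibres** (`H57COrb`). If `φ` on `YE` and `ψ` on `YF` are matched by `β`, then
`Σ_x u(β(x)) φ(x) = Σ_y u(y) ψ(y)` for every `u : YF → ℂ` for which the first sum converges
absolutely; and for `u ≥ 0` the sum of the `u(y) |ψ(y)|` is at most the one of the `u(β(x)) |φ(x)|`. -/
theorem sum_over_fibres {YE YF T : Type*} [MeasurableSpace YE] [MeasurableSpace YF]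
    [DiscreteMeasurableSpace YE] [DiscreteMeasurableSpace YF] [Countable YE] [Countable YF]
    {φ : YE → ℂ} {ψ : YF → ℂ} {β : YE → YF} {aE : T → YE → YE} {aF : T → YF → YF}
    (hm : H57C.LocMatch aE aF φ ψ β) :
    (∀ u : YF → ℂ, Summable (fun x => u (β x) * φ x) →
        ∑' x, u (β x) * φ x = ∑' y, u y * ψ y) ∧
      ∀ u : YF → ℝ≥0∞, ∑' y, u y * ‖ψ y‖ₑ ≤ ∑' x, u (β x) * ‖φ x‖ₑ :=
  ⟨H57C.tsum_fiber hm, H57C.tsum_fiber_enn hm⟩

/-- **One cut-off function on both sides** (`H57COrb`), step (c). Let `φ`, `ψ` be matched by `β`, and `kE`,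
`kF` by `p`, and let `χ` be a function with values in `[0, 1]` on `HF × YF`. If the integral of
`χ(p(z), β(y)) kE(z) φ(y)` over `HE × YE` converges absolutely, so does the one of `χ(z, y) kF(z) ψ(y)`
over `HF × YF`, and they are equal. (Fubini, `infMatch_iff` for the functions `χ(·, β(y))`, and
`sum_over_fibres`.) -/
theorem integral_with_one_cutoff {HE HF YE YF T : Type*} [MeasurableSpace HE] [MeasurableSpace HF]
    [MeasurableSpace YE] [MeasurableSpace YF] [DiscreteMeasurableSpace YE]
    [DiscreteMeasurableSpace YF] [Countable YE] [Countable YF] {μE : Measure HE}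
    {μF : Measure HF} [SigmaFinite μE] [SigmaFinite μF] {p : HE → HF} {kE : HE → ℂ}
    {kF : HF → ℂ} {φ : YE → ℂ} {ψ : YF → ℂ} {β : YE → YF} {aE : T → YE → YE}
    {aF : T → YF → YF} (hm : H57C.LocMatch aE aF φ ψ β) (hi : H57C.InfMatch μE μF p kE kF)
    (χ : HF × YF → ℝ) (hχ : Measurable χ) (hχ0 : ∀ z, 0 ≤ χ z) (hχ1 : ∀ z, χ z ≤ 1)
    (hint : Integrable (fun z : HE × YE => (χ (p z.1, β z.2) : ℂ) * (kE z.1 * φ z.2))
      (μE.prod Measure.count)) :
    Integrable (fun z : HF × YF => (χ z : ℂ) * (kF z.1 * ψ z.2)) (μF.prod Measure.count) ∧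
    ∫ z : HE × YE, (χ (p z.1, β z.2) : ℂ) * (kE z.1 * φ z.2) ∂(μE.prod Measure.count) =
      ∫ z : HF × YF, (χ z : ℂ) * (kF z.1 * ψ z.2) ∂(μF.prod Measure.count) :=
  H57C.orb_step2 hm hi χ hχ hχ0 hχ1 hint

/-- **Through a third set** (`H57COrb2`), steps (b) and (c). If `φ` on `YE` and `ψ` on `YF` are both
matched with `Ψ` on `YT`, and `kE`, `kF` are matched at infinity, and everything is compatible with the
operations of `T` (`hPE`, `hPF` for the maps, `hinvE`, `hinvF` for the integrands), then the integrals of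
`kE φ` and `kF ψ` modulo `T` are equal, provided that both converge absolutely. Proof:
`GuideOctCGeom.integral_of_matching` twice, the second time with the identity at infinity. -/
theorem orbital_integrals {HE HF YE YF YT T : Type*} [MeasurableSpace HE] [MeasurableSpace HF]
    [MeasurableSpace YE] [MeasurableSpace YF] [MeasurableSpace YT] [DiscreteMeasurableSpace YE]
    [DiscreteMeasurableSpace YF] [DiscreteMeasurableSpace YT] [Countable YE] [Countable YF]
    [Countable YT] {μE : Measure HE} {μF : Measure HF} [SigmaFinite μE] [SigmaFinite μF]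
    {p : HE → HF} {kE : HE → ℂ} {kF : HF → ℂ} {φ : YE → ℂ} {ψ : YF → ℂ} {Ψ : YT → ℂ}
    {βE : YE → YT} {βF : YF → YT} [Group T] [Countable T] [MulAction T (HE × YE)]
    [MeasurableConstSMul T (HE × YE)] [SMulInvariantMeasure T (HE × YE) (μE.prod Measure.count)]
    [MulAction T (HF × YF)] [MeasurableConstSMul T (HF × YF)]
    [SMulInvariantMeasure T (HF × YF) (μF.prod Measure.count)] [MulAction T (HF × YT)]
    {aE : T → YE → YE} {aF : T → YF → YF} {aT aT' : T → YT → YT}
    (hmE : H57C.LocMatch aE aT φ Ψ βE) (hmF : H57C.LocMatch aF aT' ψ Ψ βF)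
    (hi : H57C.InfMatch μE μF p kE kF) (hkE : Measurable kE)
    (hPE : ∀ (t : T) (z : HE × YE), φ z.2 ≠ 0 →
      (p (t • z).1, βE (t • z).2) = t • (p z.1, βE z.2))
    (hinvE : ∀ (t : T) (z : HE × YE), kE (t • z).1 * φ (t • z).2 = kE z.1 * φ z.2)
    (hPF : ∀ (t : T) (z : HF × YF), ψ z.2 ≠ 0 → ((t • z).1, βF (t • z).2) = t • (z.1, βF z.2))
    (hinvF : ∀ (t : T) (z : HF × YF), kF (t • z).1 * ψ (t • z).2 = kF z.1 * ψ z.2)
    {χE : HE × YE → ℝ≥0∞} (hχE : H94U.IsCutoff T χE)
    {χF : HF × YF → ℝ≥0∞} (hχF : H94U.IsCutoff T χF)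
    {χT : HF × YT → ℝ≥0∞} (hχT : H94U.IsCutoff T χT)
    (hintE : ∫⁻ z, ‖kE z.1 * φ z.2‖ₑ ∂((μE.prod Measure.count).withDensity χE) ≠ ⊤)
    (hintF : ∫⁻ z, ‖kF z.1 * ψ z.2‖ₑ ∂((μF.prod Measure.count).withDensity χF) ≠ ⊤) :
    ∫ z : HE × YE, kE z.1 * φ z.2 ∂((μE.prod Measure.count).withDensity χE) =
      ∫ z : HF × YF, kF z.1 * ψ z.2 ∂((μF.prod Measure.count).withDensity χF) :=
  H57C.orbital_eq3 hmE hmF hi hkE hPE hinvE hPF hinvF hχE hχF hχT hintE hintF

/-- **Measurability** (`H57CGeom`): `x ↦ k(x, f(x))` is measurable for the test kernel `k` of a model, if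
`κ` and `f` are. -/
theorem measurable_test_kernel {K J : Type*} [Field K] [NumberField K] [Fintype J]
    (m : Model K J) {κ : (J → ℝ) → ℂ} (hκ : Measurable κ)
    (kf : XF m.L.fam → XF m.L.fam → ℂ) {f : m.X → m.X} (hf : Measurable f) :
    Measurable fun x => m.ker κ kf x (f x) :=
  H57C.measurable_ker m hκ kf hf

/-- **One class, on the models** (`H57COrb2`). `mE` is a model over `E` with the data `aE` of the
automorphism `s`, `mF` a model over `F`, and `mT` a third model over `F` with the same embeddings; `d` in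
`PGL₂(E)` commutes with the centraliser of `γ` in `PGL₂(F)`. Given a matching `p` at infinity, and
matchings of `x ↦ k_E(x, d s(x))` and `y ↦ k_F(y, γ y)` on the finite parts with one weight `Ψ` on the
finite part of `mT`, the integrals of the two test kernels over the quotients by the centraliser are
equal, if they converge absolutely. (`HomCutoff m ι χ`: `χ` is a cut-off function for the action of `T`
on `X` through `ι : T → PGL₂(K)`.) -/
theorem one_class_on_models {F E : Type*} [Field F] [NumberField F] [Field E] [NumberField E]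
    [Algebra F E] {JE JF : Type*} [Fintype JE] [Fintype JF] (mE : Model E JE) (aE : AutData mE)
    (mF mT : Model F JF) (he : mT.e = mF.e) (d : PGL(2, E)) (γ : PGL(2, F))
    (hs : ∀ x : F, aE.s (algebraMap F E x) = algebraMap F E x)
    (hd : ∀ τ ∈ Subgroup.centralizer ({γ} : Set PGL(2, F)),
      H20.S47.incP E τ * d = d * H20.S47.incP E τ)
    (κE : (JE → ℝ) → ℂ) (κF : (JF → ℝ) → ℂ)
    (kfE : XF mE.L.fam → XF mE.L.fam → ℂ) (kfF : XF mF.L.fam → XF mF.L.fam → ℂ)
    (hkfE : ∀ (g : PGL(2, E)) x y, kfE (g • x) (g • y) = kfE x y)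
    (hkfF : ∀ (g : PGL(2, F)) x y, kfF (g • x) (g • y) = kfF x y) (hκE : Measurable κE)
    (p : (JE → H3) → (JF → H3))
    (hp : ∀ (τ : PGL(2, F)) x, p (mE.actInf (H20.S47.incP E τ) x) = mF.actInf τ (p x))
    (hi : H57C.InfMatch volume volume p
      (fun x => κE (Model.chJ x (mE.actInf d (aE.actInf x))))
      (fun x => κF (Model.chJ x (mF.actInf γ x))))
    (Ψ : XF mT.L.fam → ℂ)
    (hmE : ∃ βE : XF mE.L.fam → XF mT.L.fam,
      H57C.LocMatch (fun (c : Subgroup.centralizer ({γ} : Set PGL(2, F))) x =>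
        H20.S47.incP E (c : PGL(2, F)) • x)
        (fun c y => (c : PGL(2, F)) • y) (fun x => kfE x (d • aE.twist.act x)) Ψ βE)
    (hmF : ∃ βF : XF mF.L.fam → XF mT.L.fam,
      H57C.LocMatch (fun (c : Subgroup.centralizer ({γ} : Set PGL(2, F))) x =>
        (c : PGL(2, F)) • x)
        (fun c y => (c : PGL(2, F)) • y) (fun x => kfF x (γ • x)) Ψ βF)
    {χT : mT.X → ℝ≥0∞} (hχT : H94U.IsCutoff PGL(2, F) χT) {χE : mE.X → ℝ≥0∞}
    (hχE : H57C.HomCutoff mE
      ((H20.S47.incP E).comp (Subgroup.centralizer ({γ} : Set PGL(2, F))).subtype) χE)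
    {χF : mF.X → ℝ≥0∞}
    (hχF : H57C.HomCutoff mF (Subgroup.centralizer ({γ} : Set PGL(2, F))).subtype χF)
    (hintE : ∫⁻ x, ‖mE.ker κE kfE x (d • aE.act x)‖ₑ ∂(mE.μ.withDensity χE) ≠ ⊤)
    (hintF : ∫⁻ y, ‖mF.ker κF kfF y (γ • y)‖ₑ ∂(mF.μ.withDensity χF) ≠ ⊤) :
    ∫ x, mE.ker κE kfE x (d • aE.act x) ∂(mE.μ.withDensity χE) =
      ∫ y, mF.ker κF kfF y (γ • y) ∂(mF.μ.withDensity χF) :=
  H57C.cmp mE aE mF mT he d γ hs hd κE κF kfE kfF hkfE hkfF hκE p hp hi Ψ hmE hmF hχT hχE hχF
    hintE hintF

/-! ## 4. The pairs `(d, γ)` and the local statements -/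

/-- **Norm pairs** (`H57CDict`): `γ` in `PGL₂(F)` is elliptic regular, `d s(d) s²(d) = γ`, and `d` commutes
with the centraliser of `γ`. Every class which contributes contains such a pair
(`GuideOctCGeom.exists_norm`). -/
theorem normPair_iff {F E : Type*} [Field F] [NumberField F] [Field E] [NumberField E]
    [Algebra F E] (s : E ≃ₐ[F] E) (d : PGL(2, E)) (γ : PGL(2, F)) :
    H57C.NormPair s d γ ↔ H20.S47.EllReg γ ∧ H20.S47.nP s d = H20.S47.incP E γ ∧
      ∀ y : PGL(2, F), y * γ = γ * y → H20.S47.incP E y * d = d * H20.S47.incP E y :=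
  ⟨fun h => ⟨h.1, h.2, h.3⟩, fun h => ⟨h.1, h.2.1, h.2.2⟩⟩

/-- **Good places for a pair** (`H57CDict`). `v` is good for `(a, b, d, γ)` if the local kernels of `a` at
the places above `v` and the one of `b` at `v` are the unit kernels, `d` is in the level at the places
above `v` and `γ` at `v`, and `γ` has a representative in `GLw v` (entries integral at `v`, determinant a
unit at `v`) whose discriminant is a unit at `v`. -/
theorem goodAt_iff {F E : Type*} [Field F] [NumberField F] [Field E] [NumberField E]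
    [Algebra F E] {LE : LevelFam PGL(2, E) (HeightOneSpectrum (𝓞 E))}
    {LF : LevelFam PGL(2, F) (HeightOneSpectrum (𝓞 F))}
    (π : HeightOneSpectrum (𝓞 E) → HeightOneSpectrum (𝓞 F)) (a : GlobKer LE) (b : GlobKer LF)
    (d : PGL(2, E)) (γ : PGL(2, F)) (v : HeightOneSpectrum (𝓞 F)) :
    H57C.GoodAt π a b d γ v ↔ (∀ w, π w = v → a.loc w = LocKer.one) ∧ b.loc v = LocKer.one ∧
      (∀ w, π w = v → d ∈ LE.U w) ∧ γ ∈ LF.U v ∧
      ∃ g ∈ GLw v, ProjGenLinGroup.mk g = γ ∧
        v.valuation F ((g : Matrix (Fin 2) (Fin 2) F).trace *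
          (g : Matrix (Fin 2) (Fin 2) F).trace - 4 * (g : Matrix (Fin 2) (Fin 2) F).det) = 1 :=
  ⟨fun h => ⟨h.1, h.2, h.3, h.4, h.5⟩, fun h => ⟨h.1, h.2.1, h.2.2.1, h.2.2.2.1, h.2.2.2.2⟩⟩

/-- **Almost all places are good** (`H57CDict`): almost all kernels are trivial, `d` and `γ` are in almost
all levels, a representative of `γ` is in almost all `GLw v`, and its discriminant is not zero, because
`γ` is elliptic. -/
theorem almost_all_places_are_good {F E : Type*} [Field F] [NumberField F] [Field E]
    [NumberField E] [Algebra F E] {LE : LevelFam PGL(2, E) (HeightOneSpectrum (𝓞 E))}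
    {LF : LevelFam PGL(2, F) (HeightOneSpectrum (𝓞 F))}
    (π : HeightOneSpectrum (𝓞 E) → HeightOneSpectrum (𝓞 F)) (a : GlobKer LE) (b : GlobKer LF)
    (d : PGL(2, E)) {γ : PGL(2, F)} (hγ : H20.S47.EllReg γ) :
    {v | ¬ H57C.GoodAt π a b d γ v}.Finite :=
  H57C.goodAt_finite π a b d hγ

/-- **The discriminant** (`H57CDict`) of a representative of an elliptic element is not zero, and a
nonzero element of `F` is a unit at almost all places. -/
theorem discriminant {F : Type*} [Field F] [NumberField F] {γ : PGL(2, F)}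
    (h : H20.S47.EllReg γ) {g : GL (Fin 2) F} (hg : ProjGenLinGroup.mk g = γ) :
    ((g : Matrix (Fin 2) (Fin 2) F).trace * (g : Matrix (Fin 2) (Fin 2) F).trace -
        4 * (g : Matrix (Fin 2) (Fin 2) F).det ≠ 0) ∧
      ∀ x : F, x ≠ 0 → {v : HeightOneSpectrum (𝓞 F) | v.valuation F x ≠ 1}.Finite :=
  ⟨H57C.disc_ne_zero h hg, fun _ hx => H57C.finite_val_ne_one hx⟩

/-- **The two local matchings** (`H57CDict`). `LocPair t π hπ a b v d γ H ψ G`: the weight of `a`, `d` on
the cosets above `v`, and the weight `y ↦ b_v(y, γ y)` on `PGL₂(F) / LF.U v`, are both matched with the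
weight `ψ` on `PGL₂(F) / H`, for the action of the centraliser of `γ`; and if `G` holds, both matchings
respect the base points. -/
theorem locPair_iff {F E : Type*} [Field F] [NumberField F] [Field E] [NumberField E]
    [Algebra F E] {LE : LevelFam PGL(2, E) (HeightOneSpectrum (𝓞 E))}
    {LF : LevelFam PGL(2, F) (HeightOneSpectrum (𝓞 F))} (t : Twist LE)
    (π : HeightOneSpectrum (𝓞 E) → HeightOneSpectrum (𝓞 F)) (hπ : ∀ w, π (t.σ w) = π w)
    (a : GlobKer LE) (b : GlobKer LF) (v : HeightOneSpectrum (𝓞 F)) (d : PGL(2, E))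
    (γ : PGL(2, F)) (H : Subgroup PGL(2, F)) (ψ : PGL(2, F) ⧸ H → ℂ) (G : Prop) :
    H57C.LocPair t π hπ a b v d γ H ψ G ↔
      (∃ β : H57C.Xv LE π v → PGL(2, F) ⧸ H,
        H57C.LocMatch (fun (c : Subgroup.centralizer ({γ} : Set PGL(2, F))) x =>
            fun i => H20.S47.incP E (c : PGL(2, F)) • x i)
          (fun c y => (c : PGL(2, F)) • y) (H57C.phiv t π hπ a d v) ψ β ∧
        (G → H57C.Base (H57C.bv LE π v) ((1 : PGL(2, F)) : PGL(2, F) ⧸ H)
          (H57C.phiv t π hπ a d v) ψ β)) ∧
      ∃ β : PGL(2, F) ⧸ LF.U v → PGL(2, F) ⧸ H,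
        H57C.LocMatch (fun (c : Subgroup.centralizer ({γ} : Set PGL(2, F))) x =>
            (c : PGL(2, F)) • x)
          (fun c y => (c : PGL(2, F)) • y) (fun y => (b.loc v).k y (γ • y)) ψ β ∧
        (G → H57C.Base ((1 : PGL(2, F)) : PGL(2, F) ⧸ LF.U v)
          ((1 : PGL(2, F)) : PGL(2, F) ⧸ H) (fun y => (b.loc v).k y (γ • y)) ψ β) :=
  ⟨fun h => ⟨h.1, h.2⟩, fun h => ⟨h.1, h.2⟩⟩

/-- **The two statements on a place** (`H57CDict`). `PM` at `v`: for every elliptic regular `γ` there is a
weight `ψ` on `PGL₂(F) / H` such that for all norm pairs `(d, γ)` the two local matchings with `ψ`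
exist. `PM0`: moreover they respect the base points if `v` is good for `(a, b, d, γ)`. (What the proof
needs is that `ψ` is the same weight in the two matchings.) -/
theorem pm_iff {F E : Type*} [Field F] [NumberField F] [Field E] [NumberField E] [Algebra F E]
    {LE : LevelFam PGL(2, E) (HeightOneSpectrum (𝓞 E))}
    {LF : LevelFam PGL(2, F) (HeightOneSpectrum (𝓞 F))} (s : E ≃ₐ[F] E) (t : Twist LE)
    (π : HeightOneSpectrum (𝓞 E) → HeightOneSpectrum (𝓞 F)) (hπ : ∀ w, π (t.σ w) = π w)
    (a : GlobKer LE) (b : GlobKer LF) (H : Subgroup PGL(2, F)) (v : HeightOneSpectrum (𝓞 F)) :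
    (H57C.PM s t π hπ a b H v ↔ ∀ γ : PGL(2, F), H20.S47.EllReg γ →
      ∃ ψ : PGL(2, F) ⧸ H → ℂ, ∀ d, H57C.NormPair s d γ →
        H57C.LocPair t π hπ a b v d γ H ψ False) ∧
    (H57C.PM0 s t π hπ a b H v ↔ ∀ γ : PGL(2, F), H20.S47.EllReg γ →
      ∃ ψ : PGL(2, F) ⧸ H → ℂ, ∀ d, H57C.NormPair s d γ →
        H57C.LocPair t π hπ a b v d γ H ψ (H57C.GoodAt π a b d γ v)) ∧
    (H57C.PM0 s t π hπ a b H v → H57C.PM s t π hπ a b H v) :=
  ⟨Iff.rfl, Iff.rfl, fun h => h.pm⟩

/-- **Direct matchings** (`H57CDict`). If the third group `H` is the level of `F` at `v`, the matching over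
`F` is the identity with `ψ(y) = b_v(y, γ y)`, and only a matching over `E` with this weight is
needed (first statement: without base points, second statement: with base points). This form is used at
all places except the bad places with one place above them. -/
theorem direct_matchings {F E : Type*} [Field F] [NumberField F] [Field E] [NumberField E]
    [Algebra F E] {LE : LevelFam PGL(2, E) (HeightOneSpectrum (𝓞 E))}
    {LF : LevelFam PGL(2, F) (HeightOneSpectrum (𝓞 F))} {s : E ≃ₐ[F] E} {t : Twist LE}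
    {π : HeightOneSpectrum (𝓞 E) → HeightOneSpectrum (𝓞 F)} {hπ : ∀ w, π (t.σ w) = π w}
    {a : GlobKer LE} {b : GlobKer LF} {H : Subgroup PGL(2, F)} {v : HeightOneSpectrum (𝓞 F)}
    (hH : H = LF.U v) :
    ((∀ d γ, H57C.NormPair s d γ → ∃ β : H57C.Xv LE π v → PGL(2, F) ⧸ LF.U v,
        H57C.LocMatch (fun (c : Subgroup.centralizer ({γ} : Set PGL(2, F))) x =>
          fun i => H20.S47.incP E (c : PGL(2, F)) • x i)
          (fun c y => (c : PGL(2, F)) • y) (H57C.phiv t π hπ a d v)
          (fun y => (b.loc v).k y (γ • y)) β) → H57C.PM s t π hπ a b H v) ∧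
      ((∀ d γ, H57C.NormPair s d γ → ∃ β : H57C.Xv LE π v → PGL(2, F) ⧸ LF.U v,
        H57C.LocMatch (fun (c : Subgroup.centralizer ({γ} : Set PGL(2, F))) x =>
          fun i => H20.S47.incP E (c : PGL(2, F)) • x i)
          (fun c y => (c : PGL(2, F)) • y) (H57C.phiv t π hπ a d v)
          (fun y => (b.loc v).k y (γ • y)) β ∧
        (H57C.GoodAt π a b d γ v → H57C.Base (H57C.bv LE π v)
          ((1 : PGL(2, F)) : PGL(2, F) ⧸ LF.U v) (H57C.phiv t π hπ a d v)
          (fun y => (b.loc v).k y (γ • y)) β)) → H57C.PM0 s t π hπ a b H v) :=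
  ⟨H57C.PM.of_direct hH, H57C.PM0.of_direct hH⟩

/-- **The local statement only depends on the local kernels** (`H57CSet`). -/
theorem pm_congr {F E : Type} [Field F] [NumberField F] [Field E] [NumberField E] [Algebra F E]
    {LE : LevelFam PGL(2, E) (HeightOneSpectrum (𝓞 E))}
    {LF : LevelFam PGL(2, F) (HeightOneSpectrum (𝓞 F))} {s : E ≃ₐ[F] E} {t : Twist LE}
    {π : HeightOneSpectrum (𝓞 E) → HeightOneSpectrum (𝓞 F)} {hπ : ∀ w, π (t.σ w) = π w}
    {a a' : GlobKer LE} {b b' : GlobKer LF} {H : Subgroup PGL(2, F)}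
    {v : HeightOneSpectrum (𝓞 F)} (ha : ∀ w, π w = v → a'.loc w = a.loc w)
    (hb : b'.loc v = b.loc v) (h : H57C.PM s t π hπ a b H v) : H57C.PM s t π hπ a' b' H v :=
  H57C.PM.congr ha hb h

/-! ## 5. The comparison -/

/-- **From places to models** (`H57CDict`). `PM` at the places of a finite set `S` and `PM0` at all other
places give, for every `γ`, weights `ψ γ v` on `PGL₂(F) / mT.L.U v` such that for all norm pairs `(d, γ)`
the hypotheses of `matching_over_E` and `matching_over_F` are satisfied (`MatchE`, `MatchF`), with the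
finite set of the `v` which are in `S` or not good for `(a, b, d, γ)`. -/
theorem local_matchings {F E : Type*} [Field F] [NumberField F] [Field E] [NumberField E]
    [Algebra F E] {JE JF : Type*} [Fintype JE] [Fintype JF] (s : E ≃ₐ[F] E) (mE : Model E JE)
    (aE : AutData mE) (mF mT : Model F JF)
    (π : HeightOneSpectrum (𝓞 E) → HeightOneSpectrum (𝓞 F)) (hπ : ∀ w, π (aE.σ w) = π w)
    (a : GlobKer mE.L.fam) (b : GlobKer mF.L.fam) {S : Set (HeightOneSpectrum (𝓞 F))}
    (hS : S.Finite)
    (h1 : ∀ v ∈ S, H57C.PM s aE.twist π hπ a b (mT.L.fam.U v) v)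
    (h2 : ∀ v ∉ S, H57C.PM0 s aE.twist π hπ a b (mT.L.fam.U v) v) :
    ∃ ψ : PGL(2, F) → ∀ v, PGL(2, F) ⧸ mT.L.fam.U v → ℂ, ∀ d γ, H57C.NormPair s d γ →
      H57C.MatchE mE aE mT π hπ a (ψ γ) d γ ∧ H57C.MatchF mF mT b (ψ γ) γ :=
  H57C.exists_match s mE aE mF mT π hπ a b hS h1 h2

/-- **The comparison on two models** (`H57CDict`, from `H57CGeom`). `mE`, `mF` are models over `E` and `F`,
with test kernels `(κE, a)`, `(κF, b)` which are matched at infinity by `p`, and `χE`, `χF`, `χT` cut-off
functions. Suppose that over `E` only the `d` of elliptic regular norm contribute, over `F` only the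
elliptic regular norms, that both sides converge absolutely, and that `PM` holds at the places of a
finite set `S` and `PM0` at the others. Then the two sums over the groups are integrable over the
quotients, and their integrals are equal. Proof: `GuideOctCGeom.unfolding` (the sum over the classes),
`local_matchings`, `matching_over_E`, `matching_over_F`, `one_class_on_models`. -/
theorem comparison_on_models {F E : Type*} [Field F] [NumberField F] [Field E] [NumberField E]
    [Algebra F E] {JE JF : Type*} [Fintype JE] [Fintype JF] (s : E ≃ₐ[F] E)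
    (h3 : ∀ x, s (s (s x)) = x) (hs : s ≠ AlgEquiv.refl)
    (hfix : ∀ x, s x = x → x ∈ Set.range (algebraMap F E))
    (mE : Model E JE) (aE : AutData mE) (hsE : ∀ x, aE.s x = s x)
    (mF mT : Model F JF) (he : mT.e = mF.e)
    (π : HeightOneSpectrum (𝓞 E) → HeightOneSpectrum (𝓞 F)) (hπ : ∀ w, π (aE.σ w) = π w)
    (hfib : ∀ v, {w | π w = v}.Finite)
    (κE : (JE → ℝ) → ℂ) (κF : (JF → ℝ) → ℂ) (hκE : Measurable κE) (hκF : Measurable κF)
    (a : GlobKer mE.L.fam) (b : GlobKer mF.L.fam)
    (p : (JE → H3) → (JF → H3))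
    (hp : ∀ (τ : PGL(2, F)) x, p (mE.actInf (H20.S47.incP E τ) x) = mF.actInf τ (p x))
    (hinf : ∀ d γ, H20.S47.nP s d = H20.S47.incP E γ → H57C.InfMatch volume volume p
      (fun x => κE (Model.chJ x (mE.actInf d (aE.actInf x))))
      (fun x => κF (Model.chJ x (mF.actInf γ x))))
    {χE : mE.X → ℝ≥0∞} (hχE : H94U.IsCutoff PGL(2, E) χE)
    {χF : mF.X → ℝ≥0∞} (hχF : H94U.IsCutoff PGL(2, F) χF)
    {χT : mT.X → ℝ≥0∞} (hχT : H94U.IsCutoff PGL(2, F) χT)
    (hE1 : ∀ (d : PGL(2, E)) x, mE.ker κE a.k x (d • aE.act x) ≠ 0 →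
      H20.S47.EllReg (H20.S47.nP s d))
    (hE2 : ∑' d : PGL(2, E), ∫⁻ x, ‖mE.ker κE a.k x (d • aE.act x)‖ₑ
      ∂(mE.μ.withDensity χE) ≠ ⊤)
    (hF1 : ∀ (γ : PGL(2, F)) y, mF.ker κF b.k y (γ • y) ≠ 0 →
      H20.S47.EllReg γ ∧ ∃ d, H20.S47.nP s d = H20.S47.incP E γ)
    (hF2 : ∑' γ : PGL(2, F), ∫⁻ y, ‖mF.ker κF b.k y (γ • y)‖ₑ ∂(mF.μ.withDensity χF) ≠ ⊤)
    {S : Set (HeightOneSpectrum (𝓞 F))} (hS : S.Finite)
    (hPM : ∀ v ∈ S, H57C.PM s aE.twist π hπ a b (mT.L.fam.U v) v)
    (hPM0 : ∀ v ∉ S, H57C.PM0 s aE.twist π hπ a b (mT.L.fam.U v) v) :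
    Integrable (fun x => ∑' d : PGL(2, E), mE.ker κE a.k x (d • aE.act x))
      (mE.μ.withDensity χE) ∧
    Integrable (fun y => ∑' γ : PGL(2, F), mF.ker κF b.k y (γ • y)) (mF.μ.withDensity χF) ∧
    ∫ x, ∑' d : PGL(2, E), mE.ker κE a.k x (d • aE.act x) ∂(mE.μ.withDensity χE) =
      ∫ y, ∑' γ : PGL(2, F), mF.ker κF b.k y (γ • y) ∂(mF.μ.withDensity χF) :=
  H57C.geom' s h3 hs hfix mE aE hsE mF mT he π hπ hfib κE κF hκE hκF a b p hp hinf hχE hχF hχT
    hE1 hE2 hF1 hF2 hS hPM hPM0

/-! ### The setup

`C : CSetup F E` is the setup of block (C) (`GuideOctCSetup.setup_spec`): models `C.mE`, `C.mF`, the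
automorphism `C.s` with its data `C.aE`, the bad places `C.SE`, `C.SF`, the types `C.TE`, `C.TF`, the
auxiliary place `C.v0` of `F` and the kernels `C.kE`, `C.kF`. -/

/-- **The automorphism of the setup** (`H57CSet`): `s` has order three and fixed field `F`, the
permutation `σ` of the places does not change the place below, every place of `F` has finitely many
places above it, and if `w` is above `v`, then `w` is the only place above `v` iff `σ w = w`. -/
theorem setup_automorphism {F E : Type} [Field F] [NumberField F] [Field E] [NumberField E]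
    [Algebra F E] (C : CSetup F E) :
    (∀ x, C.s (C.s (C.s x)) = x) ∧ C.s ≠ AlgEquiv.refl ∧
      (∀ x, C.s x = x → x ∈ Set.range (algebraMap F E)) ∧
      (∀ w, H47.below F (C.aE.σ w) = H47.below F w) ∧
      (∀ v, {w : HeightOneSpectrum (𝓞 E) | H47.below F w = v}.Finite) ∧
      ∀ v w, H47.below F w = v → (H82.NonSplit E v ↔ C.aE.σ w = w) :=
  ⟨H57C.s3 C, H57C.s_ne C, H57C.s_fix C, H57C.below_σ C, H57C.fib_finite C,
    fun _ _ h => H57C.nonSplit_iff C h⟩

/-- **The third level** (`H57CSet`). `HT C v` is the group of the type at a bad place `v` with one place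
above it, and the level of `F` at `v` in all other cases. It is the level of a third model over `F`
(`mT`), with the same embedding as `C.mF` (hypothesis `hb`: the groups of the types are bounded). -/
theorem third_level {F E : Type} [Field F] [NumberField F] [Field E] [NumberField E]
    [Algebra F E] (C : CSetup F E) :
    (∀ v ∈ C.SF, H82.NonSplit E v → H57C.HT C v = (C.TF v).H) ∧
      (∀ v, ¬ H82.NonSplit E v → H57C.HT C v = C.mF.L.fam.U v) ∧
      (∀ v ∉ C.SF, H57C.HT C v = C.mF.L.fam.U v) ∧
      ∀ hb : (∀ v ∈ C.SF, ∃ c : PGL(2, F), ∀ g ∈ (C.TF v).H, c⁻¹ * g * c ∈ U0 v),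
        (H57C.mT C hb).e = C.mF.e ∧ ∀ v, (H57C.mT C hb).L.U v = H57C.HT C v :=
  ⟨fun _ h hv => H57C.HT_bad C h hv, fun _ hv => H57C.HT_split C hv,
    fun _ hv => H57C.HT_good C hv, fun _ => ⟨rfl, fun _ => rfl⟩⟩

/-- **Bad places** (`H57CSet`): at a bad place the local kernels are the idempotents of the types, for all
exponents `n`, `k`. So the local comparison has to be proved for the exponents `0` only. -/
theorem bad_place_exponents {F E : Type} [Field F] [NumberField F] [Field E] [NumberField E]
    [Algebra F E] (C : CSetup F E) {v : HeightOneSpectrum (𝓞 F)} (hv : v ∈ C.SF)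
    {n : HeightOneSpectrum (𝓞 E) →₀ ℕ} {k : ℕ} (h : H57C.PMat C 0 0 v) : H57C.PMat C n k v :=
  H57C.PMat_of_bad C hv h

/-- **`C.Geom` from the local statements** (`H57CSet`). The hypotheses are: the matching `p`, `hinf` at
infinity, the statement `h17` on contributing elements and convergence (`GuideOctCGeom.contributing`),
and the local comparisons at the bad places, at the auxiliary place and at all other places (the last
ones with base points). The finite set `S` of `comparison_on_models` is the set of the bad places and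
of `v0`. -/
theorem geom_from_local_statements {F E : Type} [Field F] [NumberField F] [Field E]
    [NumberField E] [Algebra F E] (C : CSetup F E)
    (hb : ∀ v ∈ C.SF, ∃ c : PGL(2, F), ∀ g ∈ (C.TF v).H, c⁻¹ * g * c ∈ U0 v)
    (p : (Fin 3 → H3) → (Fin 1 → H3))
    (hp : ∀ (τ : PGL(2, F)) x, p (C.mE.actInf (H20.S47.incP E τ) x) = C.mF.actInf τ (p x))
    (hinf : ∀ κ : (Fin 3 → ℝ) → ℂ, H56Z.IsRC κ → ∀ d γ,
      H20.S47.nP C.s d = H20.S47.incP E γ → H57C.InfMatch volume volume p
        (fun x => κ (Model.chJ x (C.mE.actInf d (C.aE.actInf x))))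
        (fun x => H67M.bF κ (Model.chJ x (C.mF.actInf γ x))))
    (h17 : ∀ κ : (Fin 3 → ℝ) → ℂ, H56Z.IsRC κ → ∀ n, C.OkN n → ∃ k0 : ℕ, ∀ k ≥ k0,
      (∀ (d : PGL(2, E)) x, C.tkE κ n k x (d • C.aE.act x) ≠ 0 →
        H20.S47.EllReg (H20.S47.nP C.s d)) ∧
      (∀ χ : C.mE.X → ℝ≥0∞, H94U.IsCutoff PGL(2, E) χ → ∑' d : PGL(2, E),
        ∫⁻ x, ‖C.tkE κ n k x (d • C.aE.act x)‖ₑ ∂(C.mE.μ.withDensity χ) ≠ ⊤) ∧
      (∀ (γ : PGL(2, F)) y, C.tkB κ n k y (γ • y) ≠ 0 →
        H20.S47.EllReg γ ∧ ∃ d, H20.S47.nP C.s d = H20.S47.incP E γ) ∧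
      (∀ χ : C.mF.X → ℝ≥0∞, H94U.IsCutoff PGL(2, F) χ → ∑' γ : PGL(2, F),
        ∫⁻ y, ‖C.tkB κ n k y (γ • y)‖ₑ ∂(C.mF.μ.withDensity χ) ≠ ⊤))
    (hbad : ∀ v ∈ C.SF, H57C.PMat C 0 0 v)
    (hv0 : ∀ n, C.OkN n → ∀ k, 1 ≤ k → H57C.PMat C n k C.v0)
    (hgood : ∀ n, C.OkN n → ∀ k, ∀ v ∉ C.SF, v ≠ C.v0 → H57C.PM0at C n k v) : C.Geom :=
  H57C.geomC C hb p hp hinf h17 hbad hv0 hgood

/-- **The remaining hypotheses** (`H57CFin`). The map at infinity is `H67M.p0` (the first coordinate of
`x` in `(H3)³`), its matching is `H67M.infMatch'`, the auxiliary place is `H25V.cs_pm_v0`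
(`GuideOctCGeom.matching_v0`), and `h17` is `H94Y.inputs` (it uses `ζ`, `h3v` and `hsupp`; `H94W.SuppOK`
says that the kernel over `F` at a nonsplit bad place is zero for all `γ` without the local norm condition
`LocOKP` of `GuideOctCGeom.exists_norm`). What remains are the bad places and the good places; the good
places are `GuideOctCGeom.matching_good`, and this gives `H57C.geom_of_bad` (`GuideOctCGeom`, section 6). -/
theorem geom_from_bad_and_good_places {F E : Type} [Field F] [NumberField F] [Field E]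
    [NumberField E] [Algebra F E] (C : CSetup F E) {ζ : F} (hζ : IsPrimitiveRoot ζ 3)
    (h3v : ∀ v ∉ C.SF, v.valuation F (3 : F) = 1)
    (hb : ∀ v ∈ C.SF, ∃ c : PGL(2, F), ∀ g ∈ (C.TF v).H, c⁻¹ * g * c ∈ U0 v)
    (hsupp : ∀ v ∈ C.SF, H82.NonSplit E v → H94W.SuppOK E ζ v (C.kF.D.e v))
    (hbad : ∀ v ∈ C.SF, H57C.PMat C 0 0 v)
    (hgood : ∀ n, C.OkN n → ∀ k, ∀ v ∉ C.SF, v ≠ C.v0 → H57C.PM0at C n k v) : C.Geom :=
  H57C.geom_of_PM C hζ h3v hb hsupp hbad hgood

end Fermat.Agent.Guide.OctCOrbital
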