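import Fermat.Agent.H40K7

/-!
# Reader's guide: block (C) of S47, the output on hyperbolic space, part 1: the Fourier coefficients

Companion of `GuideOctC` (theorem `output`, section 6) and of `GuideOctCForms`; editor helper72, with
texts of helper85, helper79 and helper69; library: `H85I1`-`H85I4` (helper85), `H40K1`-`H40K7` (helper40),
`H69I1` (helper69). In the NOTES: [421] S47-C21, [451] S47-C21-INV.
The comparison of block (C) produces a form `Φ` over `K = ℚ(ω)`: a function on `X(K) = H3 × X_f`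
(`IsMForm m S v0 T a Φ`, unfolded in `GuideOctC.isMForm_iff`), invariant under `PGL₂(K)`, an
eigenfunction of the Hecke operators at the places `w ∉ S ∪ {v0}` with eigenvalues `√(N w) a_w`, of a
type `(H, chi)` at the places of `S`, and an eigenfunction of the operator `U` at `v0`. Package C21
produces from it a function `F` on `H3` with multiplicative coefficients on `ℤ[ω]` (the structure
`S47T.ICT`, unfolded in `GuideOctahedral` and `GuideOctT`). Steps 1-3 are in this file, step 4 (the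
classical steps) in `GuideOctCTwists`.

1. The function `f₁(w) = Σ_y Φ(diag(1/√-3, 1) w, y)`, sum over the finitely many unit-diagonal points
   `y ∈ X_f`; it is bounded, continuous, an eigenfunction, and invariant under `Γ₀(N₀) ⊂ SL₂(ℤ[ω])`.
   The factor `√-3` comes from the different of `ℚ(ω)`: the dual of the local ring for the character
   `psi w` is generated by `1/√-3`. No strong approximation is used.
2. The Whittaker function `κ` of `Φ` on `X_f`; its behaviour at the good places (integrality,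
   recursion) and at the bad places (only one class of diagonal points contributes).
3. The Fourier coefficients `a(α)` of `f₁`, `α ∈ ℤ[ω]`: `(|α|/√3) Σ_y κ(diag(α, 1) y)`. For `α` prime
   to the bad places exactly one term can be non-zero. Hence the Hecke recursions, with the eigenvalues
   `a_w` at the prime elements `ϖ` which generate `w`, and `a(1) ≠ 0`.
4. Depletion, multiplicativity, reality: `GuideOctCTwists`; the composition is `output_of_form` below.

Notations: the model `m : Model K J` (complex embeddings `m.e`, level `m.L`, space `m.X`) and the types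
`T v : H76U.TD K` are explained in `GuideOctC` (section 1, `types`), the fields of a level (`H59D.Level`)
in `GuideSiegel.level_fields`; `XF m.L.fam` is `X_f`, the restricted product over the finite places `w` of
`PGL₂(K)/U_w`; `XF.upd y w c` is `y` with the component `c` at `w`; `U0 w` is the stabiliser of the
standard lattice (mod centre); for `B = borP K`: `B.n b = (1 b; 0 1)`, `B.d t = diag(t, 1)`; `psi w` is
the local additive character (`psi_formula` in `GuideOctCGeom`); `exp (-k)` is the `k`-th power of the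
absolute value of a uniformiser. All constants cited are in the term closure of S47 (S47 is not used in
the proof of S01).
-/

set_option autoImplicit false

noncomputable section

open IsDedekindDomain HeightOneSpectrum WithZero NumberField Matrix MeasureTheory
open scoped MatrixGroups Real

namespace Fermat.Agent.Guide.OctCOutput

open Fermat.Agent.H59XF Fermat.Agent.H59D Fermat.Agent.H7.Z
open Fermat.Agent.S47T (Eis sq3 Gam ICT kap0)

/-! ## 1. The function on `H3` -/

/-- *Unit-diagonal points.* A point `y` of the finite part `XF` (a family of classes `y w ∈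
PGL₂(K)/U_w`) is called unit-diagonal if at every finite place `w` it is the class of a matrix
`diag(t, 1)` with `t` a unit at `w`. At a place with `U_w = U0 w` this is the base point.
(Definition `H85I.UD`; `H40K.UD` is the same set.) -/
theorem unitDiagonal_iff {K : Type*} [Field K] [NumberField K] (L : Level (𝓞 K) K)
    (y : XF L.fam) :
    (H85I.UD L y ↔ ∀ w, ∃ t : Kˣ, w.valuation K (t : K) = 1 ∧
      y w = (((borP K).d t : PGL(2, K)) : PGL(2, K) ⧸ L.fam.U w)) ∧
    (y ∈ H40K.UD L ↔ H85I.UD L y) :=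
  ⟨Iff.rfl, Iff.rfl⟩

/-- *Condition on the level at a bad place* `w`: for some `k` the level contains all matrices `(1 b;
c 1)` with `b` in the dual of the local ring for the additive character `psi w` and `|c|_w ≤
exp(-k)`. (Definition `H85I.LOW`; it holds for the kernels of the types of block (C).) -/
theorem levelCondition_iff {K : Type*} [Field K] [NumberField K] (L : Level (𝓞 K) K)
    (w : HeightOneSpectrum (𝓞 K)) :
    H85I.LOW L w ↔
      ∃ k : ℕ, ∀ b c : K, (∀ r : K, w.valuation K r ≤ 1 → psi w (b * r) = 1) →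
        w.valuation K c ≤ exp (-(k : ℤ)) → ∀ g : GL (Fin 2) K,
          (g : Matrix (Fin 2) (Fin 2) K) = !![1, b; c, 1] →
            (ProjGenLinGroup.mk g : PGL(2, K)) ∈ L.U w :=
  Iff.rfl

/-- There are only finitely many unit-diagonal points if at every place either the level is the
standard one and `s` is a unit, or the condition `LOW` holds. (`H85I1`.) -/
theorem finite_unitDiagonal {K : Type*} [Field K] [NumberField K] {L : Level (𝓞 K) K} {s : K}
    (hL : ∀ w, (L.U w = U0 w ∧ w.valuation K s = 1) ∨ H85I.LOW L w) :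
    {y : XF L.fam | H85I.UD L y}.Finite :=
  H85I.finite_UD hL

/-- *The additive character and the different.* If `Tr(o/s)` is an integer for all integers `o` of
`K`, then the additive character `psi w` of the place `w` is trivial on `s⁻¹ 𝒪_w`. Applied with `s =
√-3`. (`H85I1`.) -/
theorem psi_trivial_on_dual {K : Type*} [Field K] [NumberField K] {s : 𝓞 K} (hs : s ≠ 0)
    (hdual : ∀ o : 𝓞 K, ∃ n : ℤ, Algebra.trace ℚ K ((o : K) / s) = n)
    (w : HeightOneSpectrum (𝓞 K)) {β : K} (hβ : w.valuation K (β * s) ≤ 1) : psi w β = 1 :=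
  H85I.psi_of_dual hs hdual w hβ

/-- *The key step for the invariance.* For every `q > 0` there is `N₀ > 0`, divisible by `q`, such that
the matrices `(a, b/s; s N₀ x, d)` of determinant one with `a, b, x, d` integers of `K` map the set of
unit-diagonal points into itself (hence permute it: the inverse has the same form). Proof: at a bad
place `g diag(t, 1) = diag(t', 1) (1 b'; c' 1)` modulo `K^×`, with `b'` in the dual of the local ring
and `c'` small. (`H85I1`; `H85I.sG` is the matrix with the given entries. The invariance of `f₁` under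
`Γ₀(N₀)` is `GuideOctC.classical_function_invariant`.) -/
theorem exists_level {K : Type*} [Field K] [NumberField K] {L : Level (𝓞 K) K} {s : 𝓞 K}
    (hL : ∀ w, (L.U w = U0 w ∧ w.valuation K (s : K) = 1) ∨ H85I.LOW L w) (hs : s ≠ 0)
    (hdual : ∀ o : 𝓞 K, ∃ n : ℤ, Algebra.trace ℚ K ((o : K) / s) = n) (q : ℕ) (hq : 0 < q) :
    ∃ N₀ : ℕ, 0 < N₀ ∧ q ∣ N₀ ∧ ∀ (a b x d : 𝓞 K)
      (h : (a : K) * d - (b / s : K) * (s * (((N₀ : 𝓞 K) : K) * x) : K) = 1) (y : XF L.fam),
      H85I.UD L y →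
        H85I.UD L ((ProjGenLinGroup.mk
          (H85I.sG (a : K) (b / s) (s * (((N₀ : 𝓞 K) : K) * x)) d h) : PGL(2, K)) • y) :=
  H85I.exists_level hL hs hdual q hq

/-! ### Radial kernels in one variable

`H3.ch w w'` is the hyperbolic cosine of the distance, `H3.base = (0, 1)`; `H69I.EigSm f` is the last
property of `f₁` in `classicalFunction_analytic`. -/

/-- **The transform of a radial kernel at spectral parameter zero.** For a continuous kernel `κ` which
is zero for large arguments, `∫ κ(ch((0, 1), w)) w.y dw = kap0 κ`; and this is the value `H9Z.hat1 κ` of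
the complex valued kernel, with which the operator of `κ` acts on the function `w.y`. (Image of the
measure under `w ↦ (ch((0, 1), w), log w.y)`; `H69I1`, from `H56ZRad4`.) -/
theorem transform_at_base (κ : ℝ → ℝ) (hκ : Continuous κ) (hs : ∃ T, ∀ t, T < t → κ t = 0) :
    ∫ u : H3, κ (H3.ch H3.base u) * u.y = kap0 κ ∧
      H9Z.hat1 (fun t => (κ t : ℂ)) = (kap0 κ : ℂ) :=
  ⟨H69I.integral_ch_mul_y κ hκ hs, H69I.hat1_ofReal κ hκ hs⟩

/-- **One complex place.** Let `J` have one element. An integral over `(H3)^J` is one over `H3`, and the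
kernel `H69I.toJ κ` on `(H3)^J` (the value of `κ` at the only coordinate) has the same operator
`H5Z.Rk` and the same value `H9Z.hat` as `κ` on `H3`. (`H69I1`.) -/
theorem one_factor {J : Type*} [Fintype J] [Unique J] (κ : ℝ → ℂ) (g : (J → H3) → ℂ) (w : H3) :
    (∫ v, g v) = (∫ u : H3, g (fun _ => u)) ∧
      H5Z.Rk (H69I.toJ κ) g (fun _ => w) = ∫ u : H3, κ (H3.ch w u) * g (fun _ => u) ∧
      H9Z.hat (H69I.toJ κ : (J → ℝ) → ℂ) = H9Z.hat1 κ :=
  ⟨H69I.integral_funUnique g, H69I.Rk_toJ_const κ g w, H69I.hat_toJ κ⟩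

/-- **Eigenfunctions of the smooth radial kernels** (`H69I1`). (1) `H69I.EigSm f`: every smooth kernel of
compact support acts on `f` by `kap0`. (2) It holds for an eigenfunction on `(H3)^J`, `J` with one element,
as a function on `H3`. (3) It is stable under finite sums of locally integrable functions and under
`w ↦ g w` for matrices `g` (isometries preserve the distance and the measure). Applied to the functions
`w ↦ Φ(diag(1/√-3, 1) w, y)` and to their sum `f₁`. -/
theorem eigenfunction_rules {J : Type*} [Fintype J] [Unique J] :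
    (∀ f : H3 → ℂ, H69I.EigSm f ↔ ∀ κ : ℝ → ℝ, ContDiff ℝ ((⊤ : ℕ∞) : WithTop ℕ∞) κ →
      HasCompactSupport κ → ∀ w, ∫ w', (κ (H3.ch w w') : ℂ) * f w' = kap0 κ * f w) ∧
    (∀ Φ : (J → H3) → ℂ, (∀ κ : ℝ → ℝ, ContDiff ℝ ((⊤ : ℕ∞) : WithTop ℕ∞) κ →
      HasCompactSupport κ → ∀ w, H5Z.Rk (H69I.toJ fun t => (κ t : ℂ)) Φ w =
        H9Z.hat (H69I.toJ (fun t => (κ t : ℂ)) : (J → ℝ) → ℂ) * Φ w) →
      H69I.EigSm fun u => Φ fun _ => u) ∧
    (∀ (I : Type) (s : Finset I) (f : I → H3 → ℂ), (∀ i ∈ s, H69I.EigSm (f i)) →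
      (∀ i ∈ s, LocallyIntegrable (f i)) → H69I.EigSm fun w => ∑ i ∈ s, f i w) ∧
    ∀ (f : H3 → ℂ) (g : GL (Fin 2) ℂ), H69I.EigSm f → H69I.EigSm fun w => f (g • w) :=
  ⟨fun _ => Iff.rfl, fun _ h => H69I.eigSm_of_Rk h, fun _ s _ h h' => H69I.EigSm.sum s h h',
    fun _ g h => h.comp_smul g⟩

/-- **The analytic properties of `f₁`** (`H85I.f1 m Φ`). Let `Φ` be an output of the comparison over
`K = ℚ(ω)` (levels: kernel of the type at `S`, Iwahori level at `v0`, standard elsewhere; the lattices `B`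
of the types contain the dual of the local ring, the lattices `C` a small ball; the characters of the types
are the `psi v`; the places outside `S` are unramified over `ℚ`). For every `q > 0` there is `N₀ > 0`
divisible by `q` such that `f₁` is continuous, bounded, invariant under `Γ₀(N₀)`, and an eigenfunction of
all smooth radial kernels with the value `kap0` at spectral parameter zero. Proof: `exists_level` for the
invariance; for the rest, `f₁` is a finite sum of functions `w ↦ Φ(diag(1/√-3, 1) w, y)`, which are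
continuous, bounded and eigenfunctions because `Φ` is (`eigenfunction_rules`); a kernel on `H3` is one on
`(H3)^J`, `J` with one element (`one_factor`), and its transform is `kap0 κ` (`transform_at_base`).
(`H85I3`, with `H85I1`, `H85I2`, `H69I1`, `H9ZRad`.) -/
theorem classicalFunction_analytic {K : Type*} [Field K] [NumberField K]
    [IsCyclotomicExtension {3} ℚ K] {J : Type*} [Fintype J] [Unique J] {m : Model K J}
    {S : Finset (HeightOneSpectrum (𝓞 K))} {v0 : HeightOneSpectrum (𝓞 K)}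
    {T : HeightOneSpectrum (𝓞 K) → H76U.TD K} {a : HeightOneSpectrum (𝓞 K) → ℝ} {Φ : m.X → ℂ}
    (hv0 : v0 ∉ S) (hS : ∀ v ∈ S, m.L.U v = (T v).U) (h0 : m.L.U v0 = H83Z.Iw v0)
    (hg : ∀ v ∉ S, v ≠ v0 → m.L.U v = U0 v) (hur : ∀ v ∉ S, Unram v)
    (hpsi : ∀ v ∈ S, ∀ x, (T v).psi x = psi v x)
    (hlow : ∀ v ∈ S, (∀ b : K, (∀ r : K, v.valuation K r ≤ 1 → psi v (b * r) = 1) →
      b ∈ (T v).B) ∧ ∃ k : ℕ, ∀ c : K, v.valuation K c ≤ exp (-(k : ℤ)) → c ∈ (T v).C)
    (h : H79S.IsMForm m S v0 T a Φ) (q : ℕ) (hq : 0 < q) :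
    ∃ N₀ : ℕ, 0 < N₀ ∧ q ∣ N₀ ∧ Continuous (H85I.f1 m Φ) ∧ (∃ C, ∀ w, ‖H85I.f1 m Φ w‖ ≤ C) ∧
      (∀ g ∈ Gam N₀, ∀ w, H85I.f1 m Φ (g • w) = H85I.f1 m Φ w) ∧
      ∀ κ : ℝ → ℝ, ContDiff ℝ ((⊤ : ℕ∞) : WithTop ℕ∞) κ → HasCompactSupport κ →
        ∀ w, ∫ w', (κ (H3.ch w w') : ℂ) * H85I.f1 m Φ w' = kap0 κ * H85I.f1 m Φ w :=
  H85I.exists_fields hv0 hS h0 hg hur hpsi hlow h q hq

/-! ## 2. The Whittaker function

`H19W.IsWM m (fun u => K₀(4πu)) Φ κ` says that `κ` is the Whittaker function of `Φ` on `X_f`: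
`Φ((z, r), y)` is the sum over `α ∈ K^×` of `κ(diag(α, 1) y) |α|r K₀(4π|α|r) exp(2πi · 2 Re(αz))` (one
infinite place). See `whittaker_iff`, `exists_whittaker` and `whittaker_local` in `GuideOctCForms`, and
`goodAt_iff`, `whittaker_recursion`, `whittaker_bad` there for the local conditions. -/

/-- **The data used for the coefficients** (`H40K.CoefData L κ S w0 lam`): `κ` is a Whittaker function
on `X_f` (`Whit`: `κ(B.n b y) = exp(-2πi Tr(b)) κ(y)` for `b ∈ K`); the places outside `S` are good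
(`GoodAt`: the level contains the integral `(1 b; 0 1)` and the units `diag(t, 1)`, and `psi w` has
conductor `𝒪_w`); outside `S ∪ {w0}` it is a Hecke eigenfunction (`HeckeEq`) with eigenvalue
`√(N w) lam w`; at the places of `S` it transforms by `psi w` under the `(1 b; 0 1)` on the right, `b` in
a set `B_w` (`TypeAt`), and `diag(a, 1)` is in the level if `psi w` is trivial on `(a - 1) B_w`
(`DualAt`); and `κ ≠ 0` at the base point. (`H40K4`.) -/
theorem coefData_iff {K : Type*} [Field K] [NumberField K]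
    [DecidableEq (HeightOneSpectrum (𝓞 K))] (L : Level (𝓞 K) K) (κ : XF L.fam → ℂ)
    (S : Finset (HeightOneSpectrum (𝓞 K))) (w0 : HeightOneSpectrum (𝓞 K))
    (lam : HeightOneSpectrum (𝓞 K) → ℝ) : H40K.CoefData L κ S w0 lam ↔
      Whit (borP K) L.fam κ ∧ (∀ w ∉ S, GoodAt (borP K) L.fam w) ∧
      (∀ w ∉ S, w ≠ w0 → ∀ ϖ : Kˣ, w.valuation K (ϖ : K) = exp (-1 : ℤ) →
        ∃ R : Finset K, (∀ b ∈ R, w.valuation K b ≤ 1) ∧ R.card = Ideal.absNorm w.asIdeal ∧
          ∀ (y : XF L.fam) (g : PGL(2, K)), y w = (g : PGL(2, K) ⧸ L.fam.U w) →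
            ((Real.sqrt (Ideal.absNorm w.asIdeal) * lam w : ℝ) : ℂ) * κ y =
              ∑ b ∈ R, κ (XF.upd y w
                ((g * (borP K).n b * (borP K).d ϖ : PGL(2, K)) : PGL(2, K) ⧸ L.fam.U w)) +
              κ (XF.upd y w ((g * ((borP K).d ϖ)⁻¹ : PGL(2, K)) : PGL(2, K) ⧸ L.fam.U w))) ∧
      (∀ w ∈ S, ∃ Bw : Set K,
        (∀ (y : XF L.fam) (g : PGL(2, K)) (b : K), b ∈ Bw →
          κ (XF.upd y w ((g * (borP K).n b : PGL(2, K)) : PGL(2, K) ⧸ L.fam.U w)) =
            psi w b * κ (XF.upd y w ((g : PGL(2, K)) : PGL(2, K) ⧸ L.fam.U w))) ∧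
        ∀ a : Kˣ, (∀ b ∈ Bw, psi w (((a : K) - 1) * b) = 1) → (borP K).d a ∈ L.fam.U w) ∧
      κ (XF.base L.fam) ≠ 0 :=
  ⟨fun ⟨h1, h2, h3, h4, h5⟩ => ⟨h1, h2, h3, h4, h5⟩,
    fun ⟨h1, h2, h3, h4, h5⟩ => ⟨h1, h2, h3, h4, h5⟩⟩

open Classical in
/-- **The form has such data.** The output `Φ` of the comparison has a Whittaker function `κ`, with
`CoefData` for the eigenvalues `a_w`. Proof: existence and uniqueness of the expansion for bounded
eigenfunctions of the Laplacians; the Hecke equations and the type pass from `Φ` to `κ`; if `κ`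
vanished at the base point, the recursions (at `v0` that of the operator `U`) and the argument of
`bad_place` would give `κ = 0` at all points whose components are classes of upper triangular matrices;
every point of `X_f` is moved to such a point by an element of `PGL₂(K)`, so `Φ = 0`.
(`H85I4`, from `H19W*`, `H22Z*`, `H7ZWhit`, `H7ZFun`, `H7ZX`.) -/
theorem exists_coefData {K : Type*} [Field K] [NumberField K] {J : Type*} [Fintype J] [Nonempty J]
    {m : Model K J} {S : Finset (HeightOneSpectrum (𝓞 K))} {v0 : HeightOneSpectrum (𝓞 K)}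
    {T : HeightOneSpectrum (𝓞 K) → H76U.TD K} {a : HeightOneSpectrum (𝓞 K) → ℝ} {Φ : m.X → ℂ}
    (hv0 : v0 ∉ S) (hS : ∀ v ∈ S, m.L.U v = (T v).U) (h0 : m.L.U v0 = H83Z.Iw v0)
    (hg : ∀ v ∉ S, v ≠ v0 → m.L.U v = U0 v) (hur : ∀ v ∉ S, Unram v)
    (hpsi : ∀ v ∈ S, ∀ x, (T v).psi x = psi v x)
    (hdual : ∀ v ∈ S, DualAt (borP K) m.L.fam v (T v).B)
    (h : H79S.IsMForm m S v0 T a Φ) :
    ∃ κ : XF m.L.fam → ℂ, H19W.IsWM m (fun u => H22Z.K0 (4 * Real.pi * u)) Φ κ ∧
      H40K.CoefData m.L κ S v0 a :=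
  H85I.coefData_of hv0 hS h0 hg hur hpsi hdual h

/-- *The level group has only units on the diagonal*: if `diag(t, 1)` lies in `U_w`, then `t` is a
unit at `w`, for every level. (A level is conjugate in `PGL₂(K)` to a subgroup of `U0 w`, field
`bdd`; on `U0 w` the number `tr²/det` is integral; `(t + 1)²/t` is integral only for units `t`.)
(`H85I4`.) -/
theorem unit_of_diagonal_mem {K : Type*} [Field K] [NumberField K] (L : Level (𝓞 K) K)
    (w : HeightOneSpectrum (𝓞 K)) (t : Kˣ) (ht : ((borP K).d t : PGL(2, K)) ∈ L.U w) :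
    w.valuation K (t : K) = 1 :=
  H85I.val_eq_one_of_d_mem L w t ht

/-! ## 3. Its values at the diagonal points

In this section `h : H40K.CoefData L κ S w0 lam`. The point `zpt α ∈ X_f` (`H40K.zpt L S α`) is the
base point at the places of `S` and the class of `diag(α, 1)` at the others. -/

/-- The components of `zpt α`. (`H40K4`.) -/
theorem zpt_component {K : Type*} [Field K] [NumberField K] (L : Level (𝓞 K) K)
    (S : Finset (HeightOneSpectrum (𝓞 K))) (α : Kˣ) (w : HeightOneSpectrum (𝓞 K)) :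
    (w ∈ S → H40K.zpt L S α w = ((1 : PGL(2, K)) : PGL(2, K) ⧸ L.fam.U w)) ∧
      (w ∉ S → H40K.zpt L S α w = (((borP K).d α : PGL(2, K)) : PGL(2, K) ⧸ L.fam.U w)) :=
  ⟨fun hw => H40K.zpt_mem hw, fun hw => H40K.zpt_not_mem hw⟩

section Values

variable {K : Type*} [Field K] [NumberField K] [DecidableEq (HeightOneSpectrum (𝓞 K))]
  {L : Level (𝓞 K) K} {κ : XF L.fam → ℂ} {S : Finset (HeightOneSpectrum (𝓞 K))}
  {w0 : HeightOneSpectrum (𝓞 K)} {lam : HeightOneSpectrum (𝓞 K) → ℝ}

/-- *Bad places.* If the component of `y` at `w ∈ S` is the class of `diag(a, 1)` and `κ(y) ≠ 0`, then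
`diag(a, 1)` is in the level at `w`. Proof: `(1 ab; 0 1) diag(a, 1) = diag(a, 1) (1 b; 0 1)`, so
`psi_w(ab) κ(y) = psi_w(b) κ(y)` for `b ∈ B_w`, hence `psi_w((a - 1) b) = 1`; now use `DualAt`.
(`H40K4`.) -/
theorem bad_place (h : H40K.CoefData L κ S w0 lam) {w : HeightOneSpectrum (𝓞 K)} (hw : w ∈ S)
    (y : XF L.fam) (a : Kˣ)
    (hy : y w = (((borP K).d a : PGL(2, K)) : PGL(2, K) ⧸ L.fam.U w)) (hne : κ y ≠ 0) :
    (borP K).d a ∈ L.fam.U w :=
  h.d_mem_of_ne hw y a hy hne

/-- *Good places.* If the component of `y` at `w ∉ S` is the class of `diag(a, 1)` and `κ(y) ≠ 0`, then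
`a` is integral at `w`. (`H40K4`, from `H7ZWhit`.) -/
theorem good_place (h : H40K.CoefData L κ S w0 lam) {w : HeightOneSpectrum (𝓞 K)} (hw : w ∉ S)
    (y : XF L.fam) (a : Kˣ)
    (hy : y w = (((borP K).d a : PGL(2, K)) : PGL(2, K) ⧸ L.fam.U w)) (hne : κ y ≠ 0) :
    w.valuation K (a : K) ≤ 1 :=
  h.int_of_ne hw y a hy hne

/-- **The sum over the unit-diagonal points.** If `α` is a unit at the places of `S`, the sum of
`κ(diag(α, 1) y)` over the unit-diagonal `y` is `κ(zpt α)`: a term with `κ(diag(α, 1) y) ≠ 0` has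
`diag(α, 1) y = zpt α` by `bad_place`, and `diag(α, 1)⁻¹ zpt α` is unit-diagonal. (`H40K4`.) -/
theorem sum_unitDiagonal (h : H40K.CoefData L κ S w0 lam) (hfin : (H40K.UD L).Finite) {α : Kˣ}
    (hα : ∀ w ∈ S, w.valuation K (α : K) = 1) :
    ∑ y ∈ hfin.toFinset, κ ((borP K).d α • y) = κ (H40K.zpt L S α) :=
  h.sum_UD hfin hα

/-- **Vanishing.** If `α` is not integral, or not a unit at some place of `S`, then all terms of this
sum are zero (by `bad_place`, `good_place` and `unit_of_diagonal_mem`). (`H40K4`.) -/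
theorem term_eq_zero (h : H40K.CoefData L κ S w0 lam) {α : Kˣ} {y : XF L.fam} (hy : y ∈ H40K.UD L)
    (hα : ¬ ((∀ w ∈ S, w.valuation K (α : K) = 1) ∧
      ∀ w : HeightOneSpectrum (𝓞 K), w.valuation K (α : K) ≤ 1)) :
    κ ((borP K).d α • y) = 0 :=
  h.eq_zero_of_not (fun w _ t ht => H85I.val_eq_one_of_d_mem L w t ht) hy hα

/-- `zpt` does not change if `α` is multiplied by an element which is a unit outside `S`, and `zpt 1`
is the base point, where `κ ≠ 0`. (`H40K4`.) -/
theorem zpt_unit (h : H40K.CoefData L κ S w0 lam) :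
    (∀ u α : Kˣ, (∀ w, w ∉ S → w.valuation K (u : K) = 1) →
      H40K.zpt L S (u * α) = H40K.zpt L S α) ∧ κ (H40K.zpt L S 1) ≠ 0 :=
  ⟨fun _ _ hu => h.zpt_unit hu, by rw [H40K.CoefData.zpt_one]; exact h.base⟩

/-- **The recursion at a good place.** `w ∉ S`, `w ≠ w0`, `ϖ` a uniformiser at `w` and a unit at the
other places outside `S`, `α` integral at `w`: `√(N w) lam_w κ(zpt α) = N w κ(zpt ϖα) + κ(zpt ϖ⁻¹α)`;
the last term is zero if `α` is a unit at `w` (second statement). Proof: the Hecke equation at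
`zpt α`; the `N w` matrices `(1 b; 0 1) diag(ϖ, 1)` give equal terms. (`H40K4`, from `H7ZWhit`.) -/
theorem recursion (h : H40K.CoefData L κ S w0 lam) {w : HeightOneSpectrum (𝓞 K)} (hw : w ∉ S)
    (hw0 : w ≠ w0) {ϖ α : Kˣ} (hϖ : w.valuation K (ϖ : K) = exp (-1 : ℤ))
    (hϖ' : ∀ w', w' ∉ S → w' ≠ w → w'.valuation K (ϖ : K) = 1)
    (hα : w.valuation K (α : K) ≤ 1) :
    ((Real.sqrt (Ideal.absNorm w.asIdeal) * lam w : ℝ) : ℂ) * κ (H40K.zpt L S α) =
      (Ideal.absNorm w.asIdeal : ℂ) * κ (H40K.zpt L S (ϖ * α)) +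
        κ (H40K.zpt L S (ϖ⁻¹ * α)) ∧
    ∀ β : Kˣ, ¬ w.valuation K (β : K) ≤ 1 → κ (H40K.zpt L S β) = 0 :=
  ⟨h.zpt_rec hw hw0 hϖ hϖ' hα, fun _ hβ => h.zpt_vanish hw hβ⟩

end Values

/-! ## 4. The coefficients of the function on `H3`

`hE : H72R.EF (m.e default)`: `K` has degree two over `ℚ` and contains a primitive cube root of unity;
`hE.eO : 𝓞 K ≃+* ℤ[ω]` and `hE.place ϖ`, the place generated by the prime element `ϖ` of `ℤ[ω]`, are
explained in `GuideOctCTwists`, section 1. The infinite place of `K` is `default : J`. -/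

section Coefficients

variable {K : Type*} [Field K] [NumberField K] {J : Type*} [Fintype J] [Unique J] {m : Model K J}
  {κ : XF m.L.fam → ℂ} (hE : H72R.EF (m.e default))

/-- **The coefficients**, `α ∈ ℤ[ω]` and `P` the finite set of unit-diagonal points:
`aco α = (|α|/√3) Σ_{y ∈ P} κ(diag(α, 1) y)` for `α ≠ 0`, and `aco 0 = 0`; `hE.liftU α` is `α` as an
element of `K^×`. (`H40K5`.) -/
theorem coefficient_eq (P : Finset (XF m.L.fam)) :
    (∀ (α : Eis) (hα : α ≠ 0), H40K.aco hE κ P α =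
      ((‖(α : ℂ)‖ / Real.sqrt 3 : ℝ) : ℂ) *
        ∑ y ∈ P, κ ((borP K).d (H40K.liftU hE α hα) • y)) ∧ H40K.aco hE κ P 0 = 0 :=
  ⟨fun α hα => by rw [H40K.aco, H40K.ksum_of_ne hE hα], by rw [H40K.aco, H40K.ksum_zero, mul_zero]⟩

variable [DecidableEq (HeightOneSpectrum (𝓞 K))] {S : Finset (HeightOneSpectrum (𝓞 K))}
  {w0 : HeightOneSpectrum (𝓞 K)} {lam : HeightOneSpectrum (𝓞 K) → ℝ}

/-- **The Fourier expansion of `f₁`** (by `H85I2` the sum on the right is `f₁(w)`):
`f₁(z, y) = Σ_α aco(α) y K₀(4π|α|y/√3) exp(2πi · 2 Re(αz/√-3))`, the sum over `α ∈ ℤ[ω]`. Proof: the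
expansion of `Φ` at the points `(diag(1/√-3, 1) w, y)` (`H85I.dl = diag(1/√-3, 1)`); the terms with
non-integral `α ∈ K` vanish by `term_eq_zero`. `S47T.K0` and `H22Z.K0` are the Bessel function
`K₀(x) = ∫_0^∞ exp(-x cosh t) dt`, `S47T.ee x = exp(2πi x)`. (`H40K5`.) -/
theorem expansion {Φ : m.X → ℂ} (hW : H19W.IsWM m (fun u => H22Z.K0 (4 * Real.pi * u)) Φ κ)
    (hC : H40K.CoefData m.L κ S w0 lam) (hfin : (H40K.UD m.L).Finite) (w : H3) :
    HasSum (fun α : Eis => H40K.aco hE κ hfin.toFinset α *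
      ((w.y * S47T.K0 (4 * π * ‖(α : ℂ)‖ * w.y / Real.sqrt 3) : ℝ) : ℂ) *
      S47T.ee ((2 * ((α : ℂ) * w.z / sq3).re : ℝ)))
      (∑ y ∈ hfin.toFinset, Φ (fun _ => H85I.dl • w, y)) :=
  H40K.expn_f1 hE hW hC (fun w _ t ht => H85I.val_eq_one_of_d_mem m.L w t ht) hfin w

/-- The coefficients are invariant under the units of `ℤ[ω]`, and the first one is not zero: the only
contribution to `aco 1` is `κ` at the base point. (`H40K5`.) -/
theorem coefficient_unit (hC : H40K.CoefData m.L κ S w0 lam) (hfin : (H40K.UD m.L).Finite) :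
    (∀ u α : Eis, IsUnit u → H40K.aco hE κ hfin.toFinset (u * α) = H40K.aco hE κ hfin.toFinset α) ∧
      H40K.aco hE κ hfin.toFinset 1 ≠ 0 :=
  ⟨fun u α hu => H40K.aco_unit hE hC (fun w _ t ht => H85I.val_eq_one_of_d_mem m.L w t ht) hfin
    u α hu, H40K.aco_one hE hC hfin⟩

/-- The eigenvalues as a function of prime elements: `lamE ϖ` is `lam` at the place generated by `ϖ`,
whose norm is `|ϖ|²`. (`H40K6`.) -/
theorem eigenvalue_eq {ϖ : Eis} (hϖ : Prime ϖ) :
    H40K.lamE hE lam ϖ = lam (hE.place ϖ hϖ) ∧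
      ((Ideal.absNorm (hE.place ϖ hϖ).asIdeal : ℕ) : ℝ) = ‖(ϖ : ℂ)‖ ^ 2 :=
  ⟨H40K.lamE_of hE hϖ, H40K.norm_sq_place hE hϖ⟩

/-- **The Hecke recursions of the coefficients.** Let `N ≠ 0` be an integer which lies in `w0` and in
all places of `S`, `ϖ` a prime element and `α` an element of `ℤ[ω]`, both prime to `N`. Then
`aco(ϖ²α) = λ(ϖ) aco(ϖα) - aco(α)`, and `aco(ϖα) = λ(ϖ) aco(α)` if `ϖ` does not divide `α`. Proof:
`recursion` for `κ(zpt ·)`; the factors `|α|/√3` turn `√(N w) = |ϖ|` and `N w = |ϖ|²` into `1`.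
(`H40K6`.) -/
theorem coefficient_recursion (hC : H40K.CoefData m.L κ S w0 lam) (hfin : (H40K.UD m.L).Finite)
    {N : ℕ} (hN0 : N ≠ 0) (hNS : ∀ w ∈ S, (N : 𝓞 K) ∈ w.asIdeal)
    (hNw : (N : 𝓞 K) ∈ w0.asIdeal) (ϖ : Eis) (hϖ : Prime ϖ) (hc : IsCoprime ϖ (N : Eis))
    (α : Eis) (hαc : IsCoprime α (N : Eis)) :
    H40K.aco hE κ hfin.toFinset (ϖ * (ϖ * α)) =
        H40K.lamE hE lam ϖ * H40K.aco hE κ hfin.toFinset (ϖ * α) -
          H40K.aco hE κ hfin.toFinset α ∧
      (¬ ϖ ∣ α → H40K.aco hE κ hfin.toFinset (ϖ * α) =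
        H40K.lamE hE lam ϖ * H40K.aco hE κ hfin.toFinset α) :=
  ⟨H40K.aco_rec hE hC hfin hN0 hNS hNw ϖ hϖ hc α hαc,
    fun hd => H40K.aco_rec0 hE hC hfin hN0 hNS hNw ϖ hϖ hc α hαc hd⟩

end Coefficients

/-! ## 5. The composition -/

/-- A positive integer divisible by `q` and by all places of a finite set. (`H40K7`.) -/
theorem exists_integer {K : Type*} [Field K] [NumberField K] [IsCyclotomicExtension {3} ℚ K]
    (S : Finset (HeightOneSpectrum (𝓞 K))) (q : ℕ) (hq : 0 < q) :
    ∃ n : ℕ, 0 < n ∧ q ∣ n ∧ ∀ v ∈ S, (n : 𝓞 K) ∈ v.asIdeal :=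
  H40K.exists_nat_mem S q hq

/-- **Package C21.** Let `Φ` be an output of the comparison over `K = ℚ(ω)` (hypotheses as in
`classicalFunction_analytic` and `exists_coefData`). For every `q > 0` there are a level `N`, divisible
by `3` and `q` and lying in `v0` and in the places of `S`, and a function `F` on `H3` with coefficients
`c` as in block (T) (`ICT N c F`), with `c(ϖ) = a_v` for every place `v` prime to `N` and every
generator `ϖ ∈ ℤ[ω]` of `v`. Proof: with an integer `q'` divisible by `3q` and all bad places, take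
`N₁` from `classicalFunction_analytic`; sections 2-4 give the hypotheses `PreICT N₁` of
`GuideOctCTwists.ict_of_preICT` for `f₁` and `aco`; `N = N₁³`. (`H40K7`.) -/
theorem output_of_form {K : Type*} [Field K] [NumberField K] [IsCyclotomicExtension {3} ℚ K]
    {m : Model K (Fin 1)} {S : Finset (HeightOneSpectrum (𝓞 K))}
    {v0 : HeightOneSpectrum (𝓞 K)} {T : HeightOneSpectrum (𝓞 K) → H76U.TD K}
    {a : HeightOneSpectrum (𝓞 K) → ℝ} {Φ : m.X → ℂ} (hv0 : v0 ∉ S)
    (hS : ∀ v ∈ S, m.L.U v = (T v).U) (h0 : m.L.U v0 = H83Z.Iw v0)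
    (hg : ∀ v ∉ S, v ≠ v0 → m.L.U v = U0 v) (hur : ∀ v ∉ S, Unram v)
    (hpsi : ∀ v ∈ S, ∀ x, (T v).psi x = psi v x)
    (hdual : ∀ v ∈ S, DualAt (borP K) m.L.fam v (T v).B)
    (hlow : ∀ v ∈ S, (∀ b : K, (∀ r : K, v.valuation K r ≤ 1 → psi v (b * r) = 1) →
      b ∈ (T v).B) ∧ ∃ k : ℕ, ∀ c : K, v.valuation K c ≤ exp (-(k : ℤ)) → c ∈ (T v).C)
    (h : H79S.IsMForm m S v0 T a Φ) (q : ℕ) (hq : 0 < q) :
    ∃ (N : ℕ) (c : Eis → ℝ) (F : H3 → ℂ), 3 ∣ N ∧ q ∣ N ∧ ICT N c F ∧
      (∀ v ∈ S, (N : 𝓞 K) ∈ v.asIdeal) ∧ (N : 𝓞 K) ∈ v0.asIdeal ∧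
      ∀ v : HeightOneSpectrum (𝓞 K), (N : 𝓞 K) ∉ v.asIdeal → ∀ ϖ : Eis,
        v.asIdeal = Ideal.span {(H83Z.eisO (m.e 0)).symm ϖ} → c ϖ = a v :=
  H40K.ict_of_cOut hv0 hS h0 hg hur hpsi hdual hlow h q hq

end Fermat.Agent.Guide.OctCOutput
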