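import Fermat.Agent.H79SCmp

/-!
# Guide, block (C) of S47: from equal traces to equal eigenvalues, step by step

Nothing is proved in this file.  Every theorem is a theorem of the library with its statement written
out, followed by a citation; only `Guide` imports this file.  It is a companion of `GuideOctC` (section 5)
and `GuideOctCSpec` (section 2) and shows the steps behind four of their theorems: `separation`,
`abstract_comparison`, `trace_identity` and `comparison`.  There is nothing automorphic in sections 1 and 2.

1. *Separation of the eigenvalues* (`generating_function` to `separation_monomials`).  Absolutely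
   summable weights `a_i` at points `z_i` of the complex plane, and real coordinates of the `i`: the
   sums `Σ a_i x_i(L) z_i^m`, known to vanish for LARGE `m` only, determine the weights.
2. *Joint eigenspaces and a permutation* (`mem_block_iff` to `joint_eigenvector`).  The trace of
   `Y_1 ⋯ Y_n s` on a finite dimensional space, where the `Y_k` commute and `s` permutes them: only
   the joint generalised eigenspaces fixed by `s` contribute.
3. *The two sides of the comparison* (`side_fields`, `side_of_operator_data`, `index_set`).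
4. *The trace identity* (`kernel_system` to `traces_agree`).  The traces of section 3 are integrals of
   automorphic kernels of products of test kernels; the products over `E` and over `F` match term by
   term, so the geometric comparison applies to each of them.
5. *The comparison* (`s_permutes_labels`, `labels_of_the_sides`): how the theorem
   `GuideOctC.comparison` is composed of the steps of this file, of `GuideOctCSpecSteps` (operators and
   operator data), `GuideOctCTarget`, `GuideOctCSpec` and `GuideOctCSteps`.

Notes: [435] (trace identity and comparison theorem, helper42), [438] (separation, trace of a word times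
`s`, helper69), [449] (operators on bounded invariant functions, helper21); the positivity is in [412]
(helper7).  Files `H69S1`, `H69S2`, `H69S3` (helper69), `H42S1`-`H42S6`, `H42T1`-`H42T7` (helper42),
`H21Z5`, `H21Z6` (helper21), `H79SCmp` (helper79).
All theorems are in the proof term of S47 and of no other of the 60 statements.
-/

set_option autoImplicit false

open IsDedekindDomain HeightOneSpectrum WithZero NumberField Matrix MeasureTheory Filter Topology
open scoped MatrixGroups ComplexConjugate InnerProductSpace

noncomputable section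

namespace Fermat.Agent.Guide.OctCSeparation

open Fermat.Agent.H59XF Fermat.Agent.H59D Fermat.Agent.H79S

/-! ## 1. Separation of the eigenvalues

In this section `a_i` is an absolutely summable family of complex numbers, and the `z_i` are complex
numbers which are of absolute value one or real and bounded by `R`.  In the application `i` runs through
the joint eigenspaces, `z_i` is the eigenvalue of `U / √q` (theorem `eigenvalue_U` of `GuideOctC`).  The
sum of the `a_i` with `z_i = z₀` is called the atom at `z₀`. -/

/-- **The generating function near zero.**  If the sums `Σ a_i z_i^m` vanish for all `m ≥ m₀`, then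
`Σ a_i / (1 - z_i t)` is for small `t` a polynomial of degree less than `m₀`.  File `H69S1`. -/
theorem generating_function {I : Type*} {a z : I → ℂ} {R : ℝ} (ha : Summable fun i => ‖a i‖)
    (hz : ∀ i, ‖z i‖ ≤ R) (hR : 0 ≤ R) {t : ℂ} (ht : R * ‖t‖ < 1) {m₀ : ℕ}
    (h : ∀ m, m₀ ≤ m → ∑' i, a i * z i ^ m = 0) :
    ∑' i, a i / (1 - z i * t) = ∑ m ∈ Finset.range m₀, (∑' i, a i * z i ^ m) * t ^ m :=
  H69S.gen_eq ha hz hR ht h

/-- **The generating function in the upper half disc.**  The poles `1 / z_i` are real or of absolute value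
one, so the function is holomorphic for `|t| < 1`, `Im t > 0`, and it is the same polynomial there
(identity theorem).  File `H69S1`. -/
theorem generating_function_upper {I : Type*} {a z : I → ℂ} {R : ℝ} (ha : Summable fun i => ‖a i‖)
    (hR : 1 ≤ R) (hz : ∀ i, ‖z i‖ = 1 ∨ ((z i).im = 0 ∧ ‖z i‖ ≤ R)) {m₀ : ℕ}
    (h : ∀ m, m₀ ≤ m → ∑' i, a i * z i ^ m = 0) {t : ℂ} (ht1 : ‖t‖ < 1) (ht : 0 < t.im) :
    ∑' i, a i / (1 - z i * t) = ∑ m ∈ Finset.range m₀, (∑' i, a i * z i ^ m) * t ^ m :=
  H69S.gen_eq_upper ha hR hz h ht1 ht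

/-- **No real atoms of absolute value greater than one.**  Proof: multiply the generating function by
`1 - x₀ t` and let `t = 1/x₀ + i ε`, `ε → 0`: the left side tends to the atom at `x₀` (dominated
convergence), the right side to zero.  File `H69S1`. -/
theorem no_real_atom {I : Type*} {a z : I → ℂ} {R : ℝ} (ha : Summable fun i => ‖a i‖) (hR : 1 ≤ R)
    (hz : ∀ i, ‖z i‖ = 1 ∨ ((z i).im = 0 ∧ ‖z i‖ ≤ R)) {m₀ : ℕ}
    (h : ∀ m, m₀ ≤ m → ∑' i, a i * z i ^ m = 0) {x₀ : ℝ} (hx₀ : 1 < |x₀|) :
    ∑' i : I, (if z i = x₀ then a i else 0) = 0 :=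
  H69S.atom_real ha hR hz h hx₀

/-- **The part in the closed unit disc** has therefore the same moments: the points with `|z_i| > 1` can be
removed.  File `H69S1`. -/
theorem moments_in_the_disc {I : Type*} {a z : I → ℂ} {R : ℝ} (ha : Summable fun i => ‖a i‖)
    (hR : 1 ≤ R) (hz : ∀ i, ‖z i‖ = 1 ∨ ((z i).im = 0 ∧ ‖z i‖ ≤ R)) {m₀ : ℕ}
    (h : ∀ m, m₀ ≤ m → ∑' i, a i * z i ^ m = 0) {m : ℕ} (hm : m₀ ≤ m) :
    ∑' i, (if ‖z i‖ ≤ 1 then a i else 0) * z i ^ m = 0 :=
  H69S.moments_inner ha hR hz h hm

/-- **No atoms on the unit circle.**  Proof: for the part in the unit disc the generating function is a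
polynomial in the whole open disc; multiply by `1 - z₀ t` and let `t = r / z₀`, `r → 1` from below.
File `H69S1`. -/
theorem no_atom_on_circle {I : Type*} {a z : I → ℂ} {R : ℝ} (ha : Summable fun i => ‖a i‖)
    (hR : 1 ≤ R) (hz : ∀ i, ‖z i‖ = 1 ∨ ((z i).im = 0 ∧ ‖z i‖ ≤ R)) {m₀ : ℕ}
    (h : ∀ m, m₀ ≤ m → ∑' i, a i * z i ^ m = 0) {z₀ : ℂ} (hz₀ : ‖z₀‖ = 1) :
    ∑' i : I, (if z i = z₀ then a i else 0) = 0 :=
  H69S.atom_circle ha hR hz h hz₀

/-- **Separation of the points**: no atom at any `z₀ ≠ 0`.  (For a real `z₀`, `0 < |z₀| < 1`: remove the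
points of absolute value at least one and rescale.  If `z₀` is neither real nor on the circle the sum is
empty.)  File `H69S1`. -/
theorem separation_of_points {I : Type*} {a z : I → ℂ} {R : ℝ} (ha : Summable fun i => ‖a i‖)
    (hR : 1 ≤ R) (hz : ∀ i, ‖z i‖ = 1 ∨ ((z i).im = 0 ∧ ‖z i‖ ≤ R)) {m₀ : ℕ}
    (h : ∀ m, m₀ ≤ m → ∑' i, a i * z i ^ m = 0) {z₀ : ℂ} (hz₀ : z₀ ≠ 0) :
    ∑' i : I, (if z i = z₀ then a i else 0) = 0 :=
  H69S.atom_eq_zero ha hR hz h hz₀

/-- **Separation of bounded real coordinates** `K_k(i)`.  If `Σ v_i P(K(i)) = 0` for all real polynomials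
`P` in the coordinates, then the sum of the `v_i` with `K(i) = y` is zero.  Proof: apply the hypothesis to
`P_n = ∏_{k < n} (1 - c_k (X_k - y_k)²)^n` with `c_k > 0` so small that the factors lie in `[0, 1]`;
`P_n(K(i))` tends to `1` if `K(i) = y` and to `0` otherwise.  File `H69S2`. -/
theorem separation_of_coordinates {I : Type*} {v : I → ℂ} (hv : Summable fun i => ‖v i‖)
    (K : ℕ → I → ℝ) (hK : ∀ k, ∃ B, ∀ i, |K k i| ≤ B)
    (h : ∀ P : MvPolynomial ℕ ℝ,
      ∑' i, v i * ((MvPolynomial.eval (fun k => K k i) P : ℝ) : ℂ) = 0)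
    (y : ℕ → ℝ) [∀ i, Decidable (∀ k, K k i = y k)] :
    ∑' i, (if ∀ k, K k i = y k then v i else 0) = 0 :=
  H69S.sep_coord hv K hK h y

/-- **Separation of the points and of countably many coordinates.**  The number `m₀` may depend on the
monomial `d`: for each monomial one first separates the point `z₀`.  (For the theorem `separation` of
`GuideOctC` the set of coordinates is arbitrary; since only countably many weights are not zero,
countably many coordinates suffice: `H42S3`.)  File `H69S2`. -/
theorem separation_monomials {I : Type*} {w z : I → ℂ} {R : ℝ} {κ : Type*} [Countable κ]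
    (hw : Summable fun i => ‖w i‖) (hR : 1 ≤ R)
    (hz : ∀ i, ‖z i‖ = 1 ∨ ((z i).im = 0 ∧ ‖z i‖ ≤ R)) (x : I → κ → ℝ)
    (hx : ∀ k, ∃ B, ∀ i, |x i k| ≤ B)
    (h : ∀ d : κ →₀ ℕ, ∃ m₀ : ℕ, ∀ m, m₀ ≤ m →
      ∑' i, w i * ((∏ k ∈ d.support, x i k ^ d k : ℝ) : ℂ) * z i ^ m = 0)
    (x₀ : κ → ℝ) {z₀ : ℂ} (hz₀ : z₀ ≠ 0) [∀ i, Decidable (x i = x₀ ∧ z i = z₀)] :
    ∑' i, (if x i = x₀ ∧ z i = z₀ then w i else 0) = 0 :=
  H69S.sep_monomial hw hR hz x hx h x₀ hz₀

/-! ## 2. Joint eigenspaces and a permutation

`E` is a finite dimensional complex space, `Y k` a family of commuting endomorphisms with an arbitrary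
index set, `σ` a permutation of the index set with `σ³ = 1`, and `s` an endomorphism with
`s (Y k) = (Y (σ k)) s`.  For a system of numbers `χ k` the joint generalised eigenspace, or block, of `χ` is
`⨅ k, (Y k).maxGenEigenspace (χ k)`; its name in the library is `H42S.blk Y χ`. -/

/-- **The block of `χ`** consists of the vectors killed by a power of each `Y k - χ k`.  The exponents
depend on the vector and on `k`.  File `H42S1`. -/
theorem mem_block_iff {K E : Type*} [AddCommGroup E] [Module ℂ E] {Y : K → Module.End ℂ E}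
    {χ : K → ℂ} {v : E} : v ∈ ⨅ k, (Y k).maxGenEigenspace (χ k) ↔
      ∀ k, ∃ n : ℕ, ((Y k - χ k • (1 : Module.End ℂ E)) ^ n) v = 0 :=
  H42S.mem_blk

/-- **Decomposition.**  `E` is the direct sum of the blocks, and only finitely many of them are not zero.
File `H42S1`. -/
theorem decomposition {K E : Type*} [AddCommGroup E] [Module ℂ E] [FiniteDimensional ℂ E]
    [DecidableEq (K → ℂ)] (Y : K → Module.End ℂ E) (hY : ∀ i j, Commute (Y i) (Y j)) :
    (DirectSum.IsInternal fun χ : K → ℂ => ⨅ k, (Y k).maxGenEigenspace (χ k)) ∧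
      {χ : K → ℂ | ⨅ k, (Y k).maxGenEigenspace (χ k) ≠ ⊥}.Finite :=
  ⟨H42S.internal_blk Y hY, H42S.finite_supp Y hY⟩

/-- **`s` permutes the blocks**: it maps the block of `χ` into the block of `χ ∘ σ⁻¹` (onto it if `s` is
invertible, as in the application, where `s³ = 1`).  File `H42S1`. -/
theorem s_permutes_blocks {K E : Type*} [AddCommGroup E] [Module ℂ E] {Y : K → Module.End ℂ E}
    {σ : K ≃ K} {s : Module.End ℂ E} (hs : ∀ k, s * Y k = Y (σ k) * s) (χ : K → ℂ) {v : E}
    (hv : v ∈ ⨅ k, (Y k).maxGenEigenspace (χ k)) :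
    s v ∈ ⨅ k, (Y k).maxGenEigenspace ((χ ∘ σ.symm) k) :=
  H42S.mapsTo_of_intertwine hs χ hv

/-- **Words on a block.**  On the block of `χ` the product of the `Y k`, `k` in the list `L`, is the sum of
the number `∏ χ k` and a nilpotent operator.  File `H42S1`. -/
theorem word_on_block {K E : Type*} [AddCommGroup E] [Module ℂ E] [FiniteDimensional ℂ E]
    {Y : K → Module.End ℂ E} (hY : ∀ i j, Commute (Y i) (Y j)) (L : List K) (χ : K → ℂ)
    (hm : Set.MapsTo (L.map Y).prod (⨅ k, (Y k).maxGenEigenspace (χ k) : Submodule ℂ E)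
      (⨅ k, (Y k).maxGenEigenspace (χ k) : Submodule ℂ E)) :
    IsNilpotent (LinearMap.restrict (L.map Y).prod hm -
      algebraMap ℂ (Module.End ℂ (⨅ k, (Y k).maxGenEigenspace (χ k) : Submodule ℂ E))
        (L.map χ).prod) :=
  H42S.isNilpotent_of_blk hY L χ hm

/-- **Nilpotent operators twisted by `s`.**  If `s` carries the commuting elements `Q₀`, `Q₁`, `Q₂` to `Q₁`,
`Q₂`, `Q₀` and `Q₀` is nilpotent, then `Q₀ s` is nilpotent: `(Q₀ s)³ = Q₀ Q₁ Q₂ s³`.  File `H69S3`. -/
theorem nilpotent_times_s {R : Type*} [Ring R] {Q₀ Q₁ Q₂ s : R} (h01 : Commute Q₀ Q₁)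
    (h02 : Commute Q₀ Q₂) (h1 : s * Q₀ = Q₁ * s) (h2 : s * Q₁ = Q₂ * s) (h3 : s * Q₂ = Q₀ * s)
    (hn : IsNilpotent Q₀) : IsNilpotent (Q₀ * s) :=
  H69S.isNilpotent_mul_twist h01 h02 h1 h2 h3 hn

/-- **The trace on a block fixed by `s`** (`χ ∘ σ = χ`): the trace of a word times `s` is the number
`∏ χ k` times the trace of `s` on the block; the nilpotent part does not contribute, by
`nilpotent_times_s`.  File `H69S3`. -/
theorem trace_on_fixed_block {K E : Type*} [AddCommGroup E] [Module ℂ E] [FiniteDimensional ℂ E]
    {Y : K → Module.End ℂ E} (hY : ∀ i j, Commute (Y i) (Y j)) {σ : K ≃ K}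
    (hσ : ∀ k, σ (σ (σ k)) = k) {s : Module.End ℂ E} (hs : ∀ k, s * Y k = Y (σ k) * s)
    (L : List K) {χ : K → ℂ} (hχ : χ ∘ σ = χ)
    (hm : Set.MapsTo (L.map Y).prod (⨅ k, (Y k).maxGenEigenspace (χ k) : Submodule ℂ E)
      (⨅ k, (Y k).maxGenEigenspace (χ k) : Submodule ℂ E))
    (hms : Set.MapsTo s (⨅ k, (Y k).maxGenEigenspace (χ k) : Submodule ℂ E)
      (⨅ k, (Y k).maxGenEigenspace (χ k) : Submodule ℂ E)) :
    LinearMap.trace ℂ (⨅ k, (Y k).maxGenEigenspace (χ k) : Submodule ℂ E)
        (LinearMap.restrict (L.map Y).prod hm * s.restrict hms) =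
      (L.map χ).prod *
        LinearMap.trace ℂ (⨅ k, (Y k).maxGenEigenspace (χ k) : Submodule ℂ E) (s.restrict hms) :=
  H69S.trace_blk_mul hY hσ hs L hχ hm hms

/-- **The trace of `Y_1 ⋯ Y_n s`** is the sum over the blocks fixed by `s` of `∏ χ k` times the trace
`bt Y s χ` of `s` on the block; the other blocks are permuted without fixed block and contribute zero.
If `s³ = 1`, the trace of `s` on a block is bounded by the dimension of the block (its eigenvalues are
roots of unity).  File `H69S3`. -/
theorem trace_of_word_times_s {K E : Type*} [AddCommGroup E] [Module ℂ E] [FiniteDimensional ℂ E]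
    {Y : K → Module.End ℂ E} (hY : ∀ i j, Commute (Y i) (Y j)) {σ : K ≃ K}
    (hσ : ∀ k, σ (σ (σ k)) = k) {s : Module.End ℂ E} (hs : ∀ k, s * Y k = Y (σ k) * s)
    (hs3 : s ^ 3 = 1) (L : List K) [DecidablePred fun χ : K → ℂ => χ ∘ σ = χ] :
    (LinearMap.trace ℂ E ((L.map Y).prod * s) =
      ∑ χ ∈ (H42S.finite_supp Y hY).toFinset with χ ∘ σ = χ, (L.map χ).prod * H69S.bt Y s χ) ∧
    ∀ χ : K → ℂ, ‖H69S.bt Y s χ‖ ≤
      Module.finrank ℂ (⨅ k, (Y k).maxGenEigenspace (χ k) : Submodule ℂ E) :=
  ⟨H69S.trace_mul_perm_gen hY hσ hs L, H69S.norm_bt_le hs3⟩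

/-- **Symmetric operators.**  Let `ι` be an injective linear map to a space with scalar product (here: the
inclusion of an eigenspace into `L²`), and let `Y k` be symmetric for the induced scalar product.  Then
`Y k` acts on the block of `χ` by the number `χ k`, and its eigenvalues are real.  Hence the coordinates
of a block which belong to the common labels are real numbers.  File `H42S5`. -/
theorem symmetric_operators {K E H : Type*} [AddCommGroup E] [Module ℂ E] [NormedAddCommGroup H]
    [InnerProductSpace ℂ H] {ι : E →ₗ[ℂ] H} (hι : Function.Injective ι)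
    {Y : K → Module.End ℂ E} {k : K} (hk : ∀ v w, ⟪ι (Y k v), ι w⟫_ℂ = ⟪ι v, ι (Y k w)⟫_ℂ) :
    (∀ (χ : K → ℂ) (v : E), v ∈ ⨅ k, (Y k).maxGenEigenspace (χ k) → Y k v = χ k • v) ∧
      ∀ (μ : ℂ) (v : E), v ≠ 0 → Y k v = μ • v → μ.im = 0 :=
  ⟨fun _ _ hv => H42S.SymmOn.of_mem_blk hι hk hv,
    fun _ _ hv h => H42S.SymmOn.eigenvalue_im hι hk hv h⟩

/-- **A joint eigenvector**, also for one more operator `A` which commutes with the family: a block which is
not zero contains one.  File `H42S6`. -/
theorem joint_eigenvector {K E : Type*} [AddCommGroup E] [Module ℂ E] [FiniteDimensional ℂ E]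
    {Y : K → Module.End ℂ E} {χ : K → ℂ} (hY : ∀ i j, Commute (Y i) (Y j))
    {A : Module.End ℂ E} (hA : ∀ k, Commute A (Y k))
    (hb : ⨅ k, (Y k).maxGenEigenspace (χ k) ≠ ⊥) :
    ∃ (μ : ℂ) (v : E), v ≠ 0 ∧ A v = μ • v ∧ ∀ k, Y k v = χ k • v :=
  H42S.exists_joint_ext hY hA hb

/-! ## 3. The two sides of the comparison -/

/-- **A side** `S : SideC J` is a family of finite dimensional spaces `S.E i` with weights `S.a i ≥ 0` and
`Σ a_i dim E_i` finite; on each of them a commuting family `S.Y i k` and an operator `S.s i` as in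
section 2; the labels `l` of `J` and `u` belong to members `Y (j l)`, `Y u` of the family, such that on the
blocks fixed by `s` the numbers of the `Y (j l)` are real and bounded, and the number of `Y u` is bounded and
real or of absolute value one.  File `H42S4`. -/
theorem side_fields {J : Type} (S : H42S.SideC J) :
    (∀ i, 0 ≤ S.a i) ∧ (Summable fun i => S.a i * Module.finrank ℂ (S.E i)) ∧
      (∀ i k l, Commute (S.Y i k) (S.Y i l)) ∧ (∀ k, S.σ (S.σ (S.σ k)) = k) ∧
      (∀ i, S.s i ^ 3 = 1) ∧ (∀ i k, S.s i * S.Y i k = S.Y i (S.σ k) * S.s i) ∧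
      ∀ i (χ : S.K → ℂ), χ ∘ S.σ = χ → ⨅ k, (S.Y i k).maxGenEigenspace (χ k) ≠ ⊥ →
        (∀ l, (χ (S.j l)).im = 0 ∧ |(χ (S.j l)).re| ≤ S.B l) ∧
          ‖χ S.u‖ ≤ S.R ∧ (‖χ S.u‖ = 1 ∨ (χ S.u).im = 0) :=
  ⟨S.a_nonneg, S.summable, S.comm, S.σ3, S.s3, S.s_comm,
    fun i χ h hb => ⟨S.real i χ h hb, S.bound i χ h hb⟩⟩

/-- **From operator data to a side.**  Let `D : H21Z.OpData` be operator data (`operator_data` in
`GuideOctCTarget`) on the bounded invariant functions on `X`, for a measurable bounded kernel `K`
(`H32Z.BK K`), assumed hermitian (`hsym`).  They define a side `D.side hsym`: the spaces are the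
eigenspaces `Eig hK ν c` of the operator of `K` for the real numbers `c ≠ 0`, on which the operators `Y k`
act as `D.YE hc k`; the weights are `c²`.  The sum of the `c² dim` converges because the operator is a
Hilbert-Schmidt operator; the numbers of the `Y (j l)` are real because these operators are symmetric, and
bounded because they are bounded for the supremum norm; for `Y u` see `U_eigenvalue` in
`GuideOctCSpec`.  File `H21Z2` (helper21). -/
theorem side_of_operator_data {G X : Type} [Group G] [MulAction G X] [MeasurableSpace X]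
    [MeasurableSpace.CountablyGenerated X] {ν : Measure X} [IsFiniteMeasure ν] {K : X → X → ℂ}
    {J : Type} {hK : H32Z.BK K} {hG : ∀ (g : G) x y, K (g • x) y = K x y}
    (D : H21Z.OpData J hK ν hG) (hsym : ∀ x y, K y x = conj (K x y)) :
    (Summable fun c : {c : ℝ // c ≠ 0} =>
      (c : ℝ) ^ 2 * Module.finrank ℂ (H32Z.Eig hK ν (c : ℝ))) ∧
    ∀ (c : ℝ) (hc : c ≠ 0) (χ : D.N → ℂ), ⨅ k, (D.YE hc k).maxGenEigenspace (χ k) ≠ ⊥ →
      (∀ l, (χ (D.j l)).im = 0 ∧ |(χ (D.j l)).re| ≤ D.B l) ∧
        ‖χ D.u‖ ≤ Real.sqrt D.q ^ D.e ∧ (‖χ D.u‖ = 1 ∨ (χ D.u).im = 0) :=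
  ⟨H21Z.OpData.summable_finrank hK ν hsym,
    fun _ hc _ h => ⟨D.real_of_blk hc h, D.bound_of_blk hc h⟩⟩

/-- **The index set** of the separation theorem: an element `p` of `S.I` is an index `i = p.1` with a system
`χ = p.2.1` of numbers, fixed by `σ`, whose block in `E_i` is not zero.  Its coordinates are the (real)
numbers `S.x p l` of the common labels and the number `S.z p` of `Y u`; its weight `S.w p` is `a_i` times the
trace of `s` on the block.  The weights are absolutely summable, so `separation` applies to the
difference of the two trace functionals (`trace_expansion` of `GuideOctCSpec`).  At the coordinates of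
the target `p₀` the operator `s` is the identity (`hpos` of `abstract_comparison`, positivity), so the
weights there are `a_i · dim ≥ 0`, the one of `p₀` is positive, and they do not cancel.  File `H42S4`. -/
theorem index_set {J : Type} (S : H42S.SideC J) :
    (Summable fun p : S.I => ‖S.w p‖) ∧ ∀ p : S.I,
      (⨅ k, (S.Y p.1 k).maxGenEigenspace ((p.2.1 : S.K → ℂ) k) ≠ ⊥ ∧
        (p.2.1 : S.K → ℂ) ∘ S.σ = p.2.1) ∧
      (∀ l, (S.x p l : ℂ) = (p.2.1 : S.K → ℂ) (S.j l)) ∧ S.z p = (p.2.1 : S.K → ℂ) S.u ∧
      S.w p = S.a p.1 * H69S.bt (S.Y p.1) (S.s p.1) p.2.1 :=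
  ⟨S.summable_w, fun p => ⟨S.mem_supp.mp p.2.2, S.x_eq p, rfl, rfl⟩⟩

/-! ## 4. The trace identity

`autK G k` is the automorphic kernel `Σ_g k(x, g y)` of a test kernel `k`, and `BInv G X` the space of the
bounded measurable invariant functions on `X` (see `GuideOctCSpec`).  Other notions of the statements:

* On a space `X` with a measure `μ` and an action of `G`: a coarse structure `𝒞 : H17S.Coarse G μ` is a
  family of subsets of `X × X`, the bands (theorem `bands` of `GuideOctCKernels`); `H17S.Bd G k` means
  that the automorphic kernel of `k` is bounded; a twist `tw : H17S.Tw G μ` is a measure preserving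
  bijection `tw.s` of `X` with an automorphism `tw.σ` of `G` such that `s (g x) = σ(g) s(x)` (theorem
  `twist` of `GuideOctCKernels`).  `c : H32Z.CutOff G X` is a cut-off function `χ`, and `c.ν μ` the measure
  `χ μ`: integrals over `G \ X` are integrals for it (theorem `exists_cutOff` of `GuideOctC`).
* `LevelFam`, `XF`, `GlobKer`: families of levels, the space of their cosets, global kernels (theorems
  `points` and `global_kernels` of `GuideOctCLevel`).  `D : HData L`: a finite set `D.S` of indices with
  idempotent local kernels `D.e i`, a further index `D.w0`, and local kernels `D.T i`, `D.U i`; the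
  monomial `D.mono n k` has the components `e i` at `S`, `U ^ k` at `w0`, and `T_i ^ (n i)` at the other
  indices (theorem `monomials` of `GuideOctCLevel`).
* `m : H59D.Model K J`: a model, the space `m.X = (H3)^J × XF m.L.fam` with its action of `PGL₂(K)`
  (section 1 of `GuideOctC`).  `C : H79S.CSetup F E`: the setup of block (C), with the models `C.mE`,
  `C.mF` and the local kernels `C.kE.D`, `C.kF.D : HData` (section 2 of `GuideOctC`, `GuideOctCSetup`).
  `H56Z.IsRC κ`: a radial kernel (theorem `radial_kernels` of `GuideOctC`); `H56Z.conv` is the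
  convolution, and `m.ker κ a.k` the product kernel of `κ` and a global kernel `a` (theorems
  `composition_of_product_kernels` and `product_kernels` of `GuideOctCKernels`). -/

/-- **Kernel systems.**  `S : KSys 𝒞 Λ` is a set `S.P` of test kernels on a space `X` with invariant measure
`μ`, closed under composition (`mul`) and under right multiplication (`app`) by operators `Y l` on `BInv`
with labels `l` in `Λ`; both are compatible.  `S.apps p W` is `p` multiplied on the right by the
operators with the labels of the list `W`, one after the other.  Moreover right multiplication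
preserves the boundedness of the automorphic kernel of a finite sum (field `bd_app`; see
`boundedness_preserved`).  (`𝒞` is a coarse structure, and all kernels of the system are controlled:
theorems `bands` and `controlled_iff` of `GuideOctCKernels`.)  File `H42T4`. -/
theorem kernel_system {G X : Type} [Group G] [MulAction G X] [MeasurableSpace X] {μ : Measure X}
    [SFinite μ] [Countable G] [MeasurableConstSMul G X] [SMulInvariantMeasure G X μ]
    {𝒞 : H17S.Coarse G μ} {Λ : Type} (S : H42T.KSys 𝒞 Λ) :
    (∀ p q x y, ∫ z, S.ker p x z * S.ker q z y ∂μ = S.ker (S.mul p q) x y) ∧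
    (∀ p l (f : H21Z.BInv G X) x, ∫ y, S.ker (S.app p l) x y * (f : X → ℂ) y ∂μ =
      ∫ y, S.ker p x y * (S.Y l f : X → ℂ) y ∂μ) ∧
    ∀ p q l, S.mul p (S.app q l) = S.app (S.mul p q) l :=
  ⟨S.comp_ker, S.act_app, S.mul_app⟩

/-- **The trace formula of one side.**  `D` is operator data (see `side_of_operator_data`) for the
automorphic kernel of a finite sum `Σ r_i t_i` of kernels of a kernel system, assumed bounded (`hBd`) and
hermitian; the operators of `D` with the labels in `J` are the `Y (lab l)`, the one with label `u` is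
`ρ Y(ul)`, and `s` is composition with the inverse of the measure preserving bijection `tw.s` of `X`.  Then
the trace functional `(D.side hsym).tr L m = Σ_c c² tr(Y_L U^m s | E_c)` is `ρ^m` times the integral over
`G \ X` of the sum over `i`, `j` of `r_i r_j` times the automorphic kernel of `t_i t_j Y_L U^m` at the
points `(x, s x)`.  (The integral is outside the sum: the automorphic kernels of the single terms need
not be bounded, and they are integrable only for large `m`, see `traces_agree`.)
Proof: `spectral_side` of `GuideOctCSpec` for the kernel `M` of `(Σ r_j t_j) Y_L U^m s` (theorem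
`twisted_operator` of `GuideOctCKernels`), then `trace_integral` of `GuideOctCKernels`.
File `H42T4`. -/
theorem trace_formula_one_side {G X : Type} [Group G] [MulAction G X] [MeasurableSpace X]
    {μ : Measure X} [SFinite μ] [Countable G] [MeasurableConstSMul G X]
    [SMulInvariantMeasure G X μ] {𝒞 : H17S.Coarse G μ} {Λ : Type} (S : H42T.KSys 𝒞 Λ)
    {ι : Type} [Fintype ι] (r : ι → ℂ) (t : ι → S.P)
    (hBd : H17S.Bd G fun x y => ∑ i, r i * S.ker (t i) x y)
    [MeasurableSpace.CountablyGenerated X] (c : H32Z.CutOff G X) [IsFiniteMeasure (c.ν μ)]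
    (tw : H17S.Tw G μ)
    {hK : H32Z.BK (H32Z.CutOff.autK G fun x y => ∑ i, r i * S.ker (t i) x y)}
    {hG : ∀ (g : G) x y, H32Z.CutOff.autK G (fun x y => ∑ i, r i * S.ker (t i) x y) (g • x) y =
      H32Z.CutOff.autK G (fun x y => ∑ i, r i * S.ker (t i) x y) x y}
    (hsym : ∀ x y, H32Z.CutOff.autK G (fun x y => ∑ i, r i * S.ker (t i) x y) y x =
      conj (H32Z.CutOff.autK G (fun x y => ∑ i, r i * S.ker (t i) x y) x y))
    {J : Type} (D : H21Z.OpData J hK (c.ν μ) hG) (lab : J → Λ)
    (hlab : ∀ l, D.Y (D.j l) = S.Y (lab l)) (ul : Λ) (ρ : ℂ) (hu : D.Y D.u = ρ • S.Y ul)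
    (hs : ∀ (f : H21Z.BInv G X) x, (D.s f : X → ℂ) x = (f : X → ℂ) (tw.s.symm x))
    (L : List J) (m : ℕ) :
    (D.side hsym).tr L m = ρ ^ m * ∫ x, ∑ i, ∑ j, r i * r j *
      H32Z.CutOff.autK G (S.ker (S.apps (S.mul (t i) (S.apps (t j) (L.map lab)))
        (List.replicate m ul))) x (tw.s x) ∂(c.ν μ) :=
  S.side_tr r t hBd c tw hsym D lab hlab ul ρ hu hs L m

/-- **The row sums of a global kernel are constant**, because the kernel is a product of local kernels which
are invariant on homogeneous spaces: the operator of `a` maps the function `1` to a constant.  The same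
for the kernel of the absolute values gives a bound of their row sums.  File `H42T3`. -/
theorem row_sums_constant {G : Type*} [Group G] {ι : Type*} {L : LevelFam G ι} (a : GlobKer L) :
    ∃ C : ℂ, ∀ x, H51Z.gop a (fun _ => (1 : ℂ)) x = C :=
  H42T.global_row a

/-- **Boundedness is preserved**: if the automorphic kernel of `Σ r_i κ_i ⊗ a_i` is bounded, then so are those
of `Σ r_i κ_i ⊗ (a_i b)`, `b` a global kernel (by `row_sums_constant`), and of `Σ r_i (κ_i * κ₂) ⊗ a_i`,
`κ₂` a radial kernel (`bounded_composition` of `GuideOctCKernels`).  So one only has to know that the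
automorphic kernel of the operator `C` is bounded (theorem `operator_C` of `GuideOctC`); the single test
kernels need not have bounded automorphic kernels.  File `H42T5`. -/
theorem boundedness_preserved {K : Type} [Field K] [NumberField K] {J : Type} [Fintype J]
    {m : Model K J} {ι : Type} (s : Finset ι) (r : ι → ℂ) (κ : ι → (J → ℝ) → ℂ)
    (hκ : ∀ i, H56Z.IsRC (κ i)) (a : ι → GlobKer m.L.fam) (b : GlobKer m.L.fam)
    {κ₂ : (J → ℝ) → ℂ} (h₂ : H56Z.IsRC κ₂)
    (h : ∃ B : ℝ, 0 ≤ B ∧ ∀ p q, ‖H32Z.CutOff.autK PGL(2, K)
      (fun x y => ∑ i ∈ s, r i * m.ker (κ i) (a i).k x y) p q‖ ≤ B) :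
    (∃ B : ℝ, 0 ≤ B ∧ ∀ p q, ‖H32Z.CutOff.autK PGL(2, K)
      (fun x y => ∑ i ∈ s, r i * m.ker (κ i) (H51Z.gmul (a i) b).k x y) p q‖ ≤ B) ∧
    ∃ B : ℝ, 0 ≤ B ∧ ∀ p q, ‖H32Z.CutOff.autK PGL(2, K)
      (fun x y => ∑ i ∈ s, r i * m.ker (H56Z.conv (κ i) κ₂) (a i).k x y) p q‖ ≤ B :=
  ⟨H42T.bd_fin s r κ hκ a b h, H42T.bd_arch s r κ hκ a h₂ h⟩

/-- **Monomials times operators**: right multiplication of the monomial with exponents `n`, `k` by the Hecke
operator at `w` raises `n(w)` by one, and by `U^e` it raises `k` by `e`.  File `H42T5`. -/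
theorem monomial_times_operator {K : Type} [Field K] [NumberField K] {J : Type} [Fintype J]
    {m : Model K J} {D : HData m.L.fam} {w : HeightOneSpectrum (𝓞 K)} (hw : w ∉ D.S)
    (h0 : w ≠ D.w0) (n : HeightOneSpectrum (𝓞 K) →₀ ℕ) (k e : ℕ) :
    H51Z.gmul (D.mono n k) (H51Z.single w (D.T w)) = D.mono (n + Finsupp.single w 1) k ∧
      H51Z.gmul (D.mono n k) (H51Z.single D.w0 (lpow (D.U D.w0) e)) = D.mono n (k + e) :=
  ⟨H42T.PK.mono_single hw h0 n k, H42T.PK.mono_U n k e⟩

/-- **The kernel system of the block.**  Its elements `p : H42T.PK D` are the test kernels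
`κ ⊗ (monomial n, k)`: a radial kernel `p.κ` and exponents `p.n`, `p.k`.  The product convolves the
radial kernels and adds the exponents; the labels are the Hecke operators at the good places (those
not in `D.S`, and not `D.w0`), the radial kernels, and `U^e` (`e = 1` over `E`, `e = 3` over `F`).
`B : H42T.BOps m` consists of the operators on `BInv` given by the global kernels and by the radial
kernels (for their existence see `GuideOctCSpec`).  File `H42T5`. -/
theorem kernel_system_of_block {K : Type} [Field K] [NumberField K] {J : Type} [Fintype J]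
    {m : Model K J} (D : HData m.L.fam) (B : H42T.BOps m) (e : ℕ) (p q : H42T.PK D) :
    (H42T.kSys D B e).ker p = m.ker p.κ (D.mono p.n p.k).k ∧
    (H42T.kSys D B e).mul p q = ⟨H56Z.conv p.κ q.κ, p.rc.conv q.rc, p.n + q.n, p.k + q.k⟩ ∧
    (H42T.kSys D B e).app p (Sum.inr ()) = ⟨p.κ, p.rc, p.n, p.k + e⟩ ∧
    ∀ κ : {κ : (J → ℝ) → ℂ // H56Z.IsRC κ},
      (H42T.kSys D B e).app p (Sum.inl (Sum.inr κ)) =
        ⟨H56Z.conv p.κ κ.1, p.rc.conv κ.2, p.n, p.k⟩ :=
  ⟨rfl, rfl, rfl, fun _ => rfl⟩

/-- **Matching of test kernels.**  `RM C p p'` means that `p'` over `F` is the kernel which matches `p` over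
`E` in the geometric comparison: radial part `bF κ`, Hecke exponents pushed forward to the places below,
`U^{3k}` for `U^k`; the exponents of `p` are supported at allowed places.  This is stable under products,
because `bF` is multiplicative for the convolution, and under right multiplication by the operators
with a common label.  A common label `l : H42T.JL C` is an allowed place `w` of `E` (`C.Ok w`: `w` is not
bad, and the place of `F` below it splits) or a real valued radial kernel `κ`; its label `labE C l` over
`E` is the Hecke operator at `w`, resp. `κ`, and `labF C l` over `F` is the Hecke operator at the place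
below `w`, resp. `bF κ`.  File `H42T6`. -/
theorem matching {F E : Type} [Field F] [NumberField F] [Field E] [NumberField E] [Algebra F E]
    (C : CSetup F E) {p q : H42T.PK C.kE.D} {p' q' : H42T.PK C.kF.D} :
    (H42T.RM C p p' ↔ p'.κ = H67M.bF p.κ ∧ (∀ w ∈ p.n.support, C.Ok w) ∧
      p'.n = p.n.mapDomain (H47.below F) ∧ p'.k = 3 * p.k) ∧
    (H42T.RM C p p' → H42T.RM C q q' → H42T.RM C (p.mul q) (p'.mul q')) ∧
    (H42T.RM C p p' → ∀ l : H42T.JL C,
      H42T.RM C (p.app 1 (H42T.labE C l)) (p'.app 3 (H42T.labF C l))) :=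
  ⟨Iff.rfl, H42T.RM_mul C, H42T.RM_app C⟩

/-- **From matched kernels to equal trace functionals** (abstract form).  `A : H42T.PureSys J X` is a set
`A.P` (in the application: of test kernels) with a product `A.mul` and right multiplication `A.app` by
the common labels in `J` (`A.apps`: by the labels of a list), and for `p` in `A.P` a sequence `A.val p m`
of functions on `X` (in the application `x ↦ (automorphic kernel of p U^m)(x, s x)`); similarly `A'`.
`M : H42T.Matching A A'` is a relation `M.R` stable under both operations.  If for matched kernels the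
integrals agree for all large `m` (`geom`), and the trace functionals of the two sides are the integrals
of `trace_formula_one_side`, then the trace functionals agree for every word and all large `m`: for a
given word only finitely many products occur.  File `H42T1`. -/
theorem traces_agree {J X X' : Type} {A : H42T.PureSys J X} {A' : H42T.PureSys J X'}
    (M : H42T.Matching A A') [MeasurableSpace X] [MeasurableSpace X'] (ν : Measure X)
    (ν' : Measure X')
    (geom : ∀ p p', M.R p p' → ∃ m₀, ∀ m ≥ m₀, Integrable (A.val p m) ν ∧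
      Integrable (A'.val p' m) ν' ∧ ∫ x, A.val p m x ∂ν = ∫ x, A'.val p' m x ∂ν')
    {ι : Type} [Fintype ι] (t : ι → A.P) (t' : ι → A'.P) (ht : ∀ i, M.R (t i) (t' i))
    (r : ι → ℂ) (ρ : ℕ → ℂ) (S S' : H42S.SideC J)
    (hS : ∀ L m, S.tr L m =
      ρ m * ∫ x, ∑ i, ∑ j, r i * r j * A.val (A.mul (t i) (A.apps (t j) L)) m x ∂ν)
    (hS' : ∀ L m, S'.tr L m =
      ρ m * ∫ x, ∑ i, ∑ j, r i * r j * A'.val (A'.mul (t' i) (A'.apps (t' j) L)) m x ∂ν') :
    ∀ L : List J, ∃ m₀ : ℕ, ∀ m ≥ m₀, S.tr L m = 1 * S'.tr L m :=
  H42T.TI M ν ν' geom t t' ht r ρ S S' hS hS'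

/-! ## 5. The comparison

`GuideOctC.comparison` (`H79S.compar`, from `compar_core` in `H79SCmp`, helper79) is composed as follows.

* (a) Choose cut-off functions over `E` and over `F` (`GuideOctC.exists_cutOff`).  The automorphic kernels
  of the operator `C` over `E`, a finite sum of test kernels `κ_i ⊗ (monomial n_i, 0)`, and of the sum of
  the matching kernels over `F` are bounded (`GuideOctC.operator_C`), invariant and hermitian
  (`GuideOctCTarget.test_kernels`, `GuideTrace.automorphic_kernel_invariant`).
* (b) The operator data of the two sides: `GuideOctCSpecSteps.operator_data_of_block`, with `e = 1` and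
  with `s` the automorphism over `E` (`s_permutes_labels`; it commutes with the operator of the kernel by
  `GuideOctCSpecSteps.commute_with_kernel`), and with `e = 3` and `s = 1` over `F`.  The factors `ρ` of
  `U^e` are equal: `√N(w0)⁻¹ = √N(v0)⁻³` (`GuideOctCTarget.auxiliary_place`).
* (c) The trace functionals of the two sides agree for large `m`: `GuideOctC.trace_identity`, from
  section 4.  Its hypotheses on the families are in `labels_of_the_sides`.
* (d) The given form is bounded (`GuideOctC.operator_C`) and an eigenfunction of the `T_w` and of the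
  radial operators, with the eigenvalues `√(N w) a_w` and `hat κ` (`GuideOctCTarget.operators_on_the_form`),
  and of the operator of the kernel, with an eigenvalue which is real and not zero
  (`GuideOctCTarget.C_on_the_form`, `GuideOctCSteps.eigenvalue_of_kernel_real`).  So there is an index `p₀`
  on the side of `E` with these coordinates and with a root of `y² - a_{w0} y + 1` for the last label:
  `GuideOctCTarget.target_index`.  (e) `s` is the identity on the blocks with the coordinates of `p₀`:
  `GuideOctCTarget.s_is_one`.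
* (f) So `GuideOctC.abstract_comparison` applies, in the form `GuideOctCSpec.extraction`, with the operator
  `D.T = U / √N(v0)` over `F`, which commutes with the family.  (g) The eigenfunction over `F` gives the
  form over `F`: `GuideOctCSpec.form_over_F`.

On the space `BInv`: `gopB` and `rkB` are the operators of global and of radial kernels, and `sB a` is
composition with the inverse of the automorphism `a` (theorems `operators` and `automorphism` of
`GuideOctCSpec`).  `Lab D` is the set of the labels of `kernel_system_of_block`, and `labY D e ρ` the family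
of the operators `T_w`, of the radial operators and of `ρ U^e` (`GuideOctCSpecSteps.family`). -/

/-- **The automorphism permutes the labels over `E`.**  The third power of `sB C.aE` is `1`, and `sB C.aE`
carries the operator of the label `l` to the one of `sg C l`: here `sg C` is the permutation (with third
power `1`) which replaces a place `w` by `s(w)`, permutes the three variables of a radial kernel, and fixes
the label of `U`.  Files `H79SCmp`, `H21Z5`, `H59K4`. -/
theorem s_permutes_labels {F E : Type} [Field F] [NumberField F] [Field E] [NumberField E]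
    [Algebra F E] (C : CSetup F E) (l : H42T.Lab C.kE.D) :
    sg C (sg C (sg C l)) = l ∧ H21Z.sB C.aE ^ 3 = 1 ∧
    H21Z.sB C.aE * H21Z.labY C.kE.D 1 (H21Z.rhoU C.w0 1) l =
      H21Z.labY C.kE.D 1 (H21Z.rhoU C.w0 1) (sg C l) * H21Z.sB C.aE :=
  ⟨sgF3 C l, H21Z.sB_pow_three C.aE (H21Z.act_three C.aE (sss C) (σσσ C) (ccc C)), s_comm_E C l⟩

/-- **The families of the two sides and the trace identity.**  `jE` and `jF` (hypothesis `j` of
`GuideOctCSpecSteps.operator_data_of_block`) assign to a common label, a place or a real radial kernel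
(`GuideOctC.common_labels`), a label over `E` and one over `F`.  These are labels of places or of REAL
radial kernels (`labReal`), and their operators are the ones in the hypotheses `hD`, `hD'` of
`GuideOctC.trace_identity`.  Files `H79SCmp`, `H42T7`. -/
theorem labels_of_the_sides {F E : Type} [Field F] [NumberField F] [Field E] [NumberField E]
    [Algebra F E] (C : CSetup F E) (ρ : ℂ) (l : H42T.JR C) :
    (H21Z.labReal C.kE.D (jE C l) ∧ H21Z.labReal C.kF.D (jF C l)) ∧
    H21Z.labY C.kE.D 1 ρ (Sum.inl (jE C l)) =
      (H42T.kSys C.kE.D (H42T.bOps C.mE) 1).Y (H42T.lE C l) ∧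
    H21Z.labY C.kF.D 3 ρ (Sum.inl (jF C l)) =
      (H42T.kSys C.kF.D (H42T.bOps C.mF) 3).Y (H42T.lF C l) :=
  ⟨⟨jE_real C l, jF_real C l⟩, by rcases l with w | κ <;> rfl, by rcases l with w | κ <;> rfl⟩

end Fermat.Agent.Guide.OctCSeparation
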