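import Fermat.Agent.H43ZFin
import Fermat.Agent.H83ZEis2

/-!
# Reader's guide to block (C) of S47: the construction of the setup

Companion of `GuideOctC`, theorem `setup` there ("Part 1: the setup exists").  Block (C) compares
automorphic functions over `E` and `F`, where `E / F` is a cyclic extension of degree three and `F`
is an imaginary quadratic field (`F = ℚ(ω)` in the application).  The comparison is formulated for a
record `C : H79S.CSetup F E`: a generator `s` of the Galois group, a model over `E` (enumeration of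
the infinite places and a level) with the action of `s`, a model over `F`, finite sets of bad
places, an auxiliary place `v0` of `F` with only one place `w0` of `E` above it, and types at the
bad places.  This file shows how the record is constructed.

There is no new mathematics in this file: every theorem is written out in full and proved by citing
the library, and all of them are used in the proof of S47.  Only the list `Guide` imports it.

## Reading order

1. The Galois group, the finite places of `E` above a place of `F`, the infinite places.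
2. The bad integer and the auxiliary place.
3. Levels: subgroups of `PGL₂`, their behaviour under automorphisms, the level attached to types.
4. The models over `E` and `F`, the conditions on the types, the setup.
5. The dictionary between the integers of `F = ℚ(ω)` and the ring `ℤ[ω] ⊂ ℂ`, which is used to
   translate the result of block (C) into a statement on functions on hyperbolic space.

The types themselves (`H76U*`, `H76V*`) are explained in `GuideLatticeTypes` (their construction),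
`GuideOctCGeom` (`types_everywhere`) and `GuideOctCLocal`; the fields `F`, `E` and the generator `s`
of the application in `GuideOctahedralGal`.  In `NOTES.md`: [459] NOTES-S47-CSETUP, [469] (types),
[415] (overview of S47).
-/

set_option autoImplicit false

namespace Fermat.Agent.Guide.OctCSetup

open IsDedekindDomain HeightOneSpectrum WithZero NumberField Matrix
open scoped MatrixGroups
open Fermat.Agent.H59D Fermat.Agent.H76U

/-! ## 1. The Galois group and the places -/

/-- **1. The Galois group** of a Galois extension of degree three: it is generated by each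
automorphism `s ≠ 1`, such automorphisms exist, and the elements fixed by `s` are in `F`.
Files: `H83ZInst1`, `H83ZInst5`. -/
theorem galois_group {F E : Type*} [Field F] [Field E] [Algebra F E] [FiniteDimensional F E]
    [IsGalois F E] (h3 : Module.finrank F E = 3) :
    (∃ s : E ≃ₐ[F] E, s ≠ 1) ∧
      ∀ s : E ≃ₐ[F] E, s ≠ 1 → s ^ 3 = 1 ∧ (∀ σ : E ≃ₐ[F] E, ∃ i : ℕ, i < 3 ∧ σ = s ^ i) ∧
        ∀ x : E, s x = x → x ∈ Set.range (algebraMap F E) :=
  ⟨H83Z.exists_aut_ne_one h3, fun s hs => ⟨H83Z.s_pow_three h3 s, H83Z.exists_pow_eq h3 s hs,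
    fun _ => H83Z.fixed_of_s h3 s hs⟩⟩

/-- **2. Places above a place** (definitions).  `H82.above E v` is the set of the finite places of
`E` above the finite place `v` of `F`, `H82.NonSplit E v` says that there is exactly one, and
`H47.below F w` is the place of `F` below `w`.  Files: `H82CftDefs`, `H47TClass`. -/
theorem above_iff {F E : Type*} [Field F] [NumberField F] [Field E] [NumberField E] [Algebra F E]
    (v : HeightOneSpectrum (𝓞 F)) (w : HeightOneSpectrum (𝓞 E)) :
    (w ∈ H82.above E v ↔ w.asIdeal.under (𝓞 F) = v.asIdeal) ∧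
      (H82.NonSplit E v ↔ (H82.above E v).ncard = 1) ∧
      (H47.below F w).asIdeal = w.asIdeal.under (𝓞 F) :=
  ⟨Iff.rfl, Iff.rfl, rfl⟩

/-- **3. The permutation of the finite places** of `E` given by an automorphism `s`:
`v_{s w}(s x) = v_w(x)`, and `s w` and `w` lie above the same place of `F`.
File: `H83ZInst1`. -/
theorem place_permutation {F E : Type*} [Field F] [NumberField F] [Field E] [NumberField E]
    [Algebra F E] (s : E ≃ₐ[F] E) (w : HeightOneSpectrum (𝓞 E)) :
    (∀ x, (H83Z.placePerm s w).valuation E (s x) = w.valuation E x) ∧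
      (∀ v : HeightOneSpectrum (𝓞 F), H83Z.placePerm s w ∈ H82.above E v ↔ w ∈ H82.above E v) ∧
      H47.below F (H83Z.placePerm s w) = H47.below F w :=
  ⟨H83Z.placePerm_val s w, fun _ => H83Z.placePerm_mem_above s, H83Z.below_placePerm s w⟩

/-- **4. Split and nonsplit places.**  The places above `v` are `w`, `s w`, `s² w`.  There is only
one if and only if `s w = w`; otherwise these three places are different.  File: `H83ZInst1`. -/
theorem places_above {F E : Type*} [Field F] [NumberField F] [Field E] [NumberField E]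
    [Algebra F E] [IsGalois F E] (h3 : Module.finrank F E = 3) (s : E ≃ₐ[F] E) (hs : s ≠ 1)
    {v : HeightOneSpectrum (𝓞 F)} {w : HeightOneSpectrum (𝓞 E)} (hw : w ∈ H82.above E v) :
    H82.above E v = {w, H83Z.placePerm s w, H83Z.placePerm s (H83Z.placePerm s w)} ∧
      (H82.NonSplit E v ↔ H83Z.placePerm s w = w) ∧
      (¬ H82.NonSplit E v → H83Z.placePerm s w ≠ w ∧
        H83Z.placePerm s (H83Z.placePerm s w) ≠ w ∧
        H83Z.placePerm s (H83Z.placePerm s w) ≠ H83Z.placePerm s w) :=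
  ⟨H83Z.above_eq h3 s hs hw, H83Z.nonSplit_iff h3 s hs hw, H83Z.ne_of_split h3 s hs hw⟩

/-- **5. The infinite places of `E`.**  Let `F` be imaginary quadratic and `e₀` an embedding of `E`
in `ℂ`.  The embeddings `e_j = e₀ ∘ s^(-j)`, `j = 0, 1, 2`, represent the three infinite places of
`E`; `e_{j+1}(s x) = e_j(x)`, and all `e_j` agree with `e₀` on `F`.  File: `H83ZInst1`. -/
theorem infinite_places {F E : Type*} [Field F] [NumberField F] [Field E] [NumberField E]
    [Algebra F E] [IsTotallyComplex F] [IsTotallyComplex E] [IsGalois F E]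
    (h2 : Module.finrank ℚ F = 2) (h3 : Module.finrank F E = 3) (e₀ : E →+* ℂ) (s : E ≃ₐ[F] E)
    (hs : s ≠ 1) :
    (∀ (j : Fin 3) (x : E), H83Z.embE e₀ s j x = e₀ ((s⁻¹ ^ (j : ℕ)) x)) ∧
      (∀ (j : Fin 3) (x : E), H83Z.embE e₀ s (j + 1) (s x) = H83Z.embE e₀ s j x) ∧
      (∀ (j : Fin 3) (x : F),
        H83Z.embE e₀ s j (algebraMap F E x) = e₀ (algebraMap F E x)) ∧
      Function.Bijective fun j : Fin 3 => InfinitePlace.mk (H83Z.embE e₀ s j) :=
  ⟨H83Z.embE_apply e₀ s, H83Z.embE_succ h3 e₀ s, H83Z.embE_algebraMap e₀ s,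
    H83Z.mk_embE_bijective h2 h3 e₀ s hs⟩

/-- **6. The case `M = ℚ(ω)`.**  `M` is an imaginary quadratic field, so it has one infinite place,
and every number field containing `M` is totally complex.  Files: `H83ZInst1`, `H83ZInst4`. -/
theorem cyclotomic_case {M E : Type*} [Field M] [NumberField M] [IsCyclotomicExtension {3} ℚ M]
    [Field E] [NumberField E] [Algebra M E] :
    Module.finrank ℚ M = 2 ∧ IsTotallyComplex M ∧ IsTotallyComplex E ∧
      ∀ e : M →+* ℂ, Function.Bijective fun _ : Fin 1 => InfinitePlace.mk e :=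
  haveI := H83Z.totallyComplex_M (M := M)
  ⟨H83Z.finrank_two, H83Z.totallyComplex_M, H83Z.isTotallyComplex_of_algebra (F := M),
    H83Z.mk_bijective_of_quadratic H83Z.finrank_two⟩

/-! ## 2. The bad integer and the auxiliary place -/

/-- **7. Places dividing an integer** (definitions).  `H46Z.divs K n` is the finite set of the
places of `K` which divide `n ≠ 0`; a place `w` of `E` divides `n` if and only if the place of `F`
below `w` does.  `H7.Z.psi w` is the standard additive character of `K` at the place `w`, which is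
trivial on the `w`-integers, and `H7.Z.Unram w` says that the dual of the `w`-integers for this
character is contained in the `w`-integers (`w` does not divide the different).
Files: `H46ZBlocks`, `H83ZInst4`, `H7ZWhit`. -/
theorem divs_iff {F E : Type*} [Field F] [NumberField F] [Field E] [NumberField E] [Algebra F E]
    {n : ℕ} (hn : n ≠ 0) (v : HeightOneSpectrum (𝓞 F)) (w : HeightOneSpectrum (𝓞 E)) :
    (v ∈ H46Z.divs F n ↔ (n : 𝓞 F) ∈ v.asIdeal) ∧
      (w ∈ H46Z.divs E n ↔ H47.below F w ∈ H46Z.divs F n) ∧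
      (H7.Z.Unram v ↔ ∀ x : F, (∀ r : F, v.valuation F r ≤ 1 → H7.Z.psi v (x * r) = 1) →
        v.valuation F x ≤ 1) :=
  ⟨H46Z.mem_divs hn, H83Z.mem_divs_below hn w, Iff.rfl⟩

/-- **8. Finiteness of the bad places.**  Almost all places of a number field do not divide the
different, almost all places of `E` have trivial inertia group over `F`, and finitely many given
places divide a common integer `N ≠ 0`.  Files: `H36Psi`, `H83ZInst4`. -/
theorem finite_bad_places {F E : Type*} [Field F] [NumberField F] [Field E] [NumberField E]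
    [Algebra F E] [IsGalois F E] :
    {v : HeightOneSpectrum (𝓞 F) | ¬ H7.Z.Unram v}.Finite ∧
      {w : HeightOneSpectrum (𝓞 E) |
        ¬ ∀ σ : E ≃ₐ[F] E, (∀ x : 𝓞 E, σ • x - x ∈ w.asIdeal) → σ = 1}.Finite ∧
      ∀ P : Set (HeightOneSpectrum (𝓞 F)), P.Finite →
        ∃ N : ℕ, N ≠ 0 ∧ ∀ v ∈ P, (N : 𝓞 F) ∈ v.asIdeal :=
  ⟨H36.Psi.finite_not_unram, H83Z.finite_not_trivIn, fun _ hP => H83Z.exists_nat_mem hP⟩

/-- **9. The bad integer.**  There is an integer `N₂`, divisible by `6`, such that for every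
multiple `N₀ ≠ 0` of `N₂` the places not dividing `N₀` have good properties: those of `F` are
unramified in `E`, prime to `3`, and they and the places of `E` do not divide the differents.
File: `H83ZInst4`. -/
theorem bad_integer {F E : Type*} [Field F] [NumberField F] [Field E] [NumberField E]
    [Algebra F E] [IsGalois F E] :
    ∃ N₂ : ℕ, N₂ ≠ 0 ∧ 6 ∣ N₂ ∧ ∀ N₀ : ℕ, N₀ ≠ 0 → N₂ ∣ N₀ →
      (∀ v ∉ H46Z.divs F N₀, ∀ w ∈ H82.above E v,
        v.asIdeal.ramificationIdx' w.asIdeal = 1) ∧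
      (∀ w ∉ H46Z.divs E N₀, H7.Z.Unram w) ∧ (∀ v ∉ H46Z.divs F N₀, H7.Z.Unram v) ∧
      (∀ v ∉ H46Z.divs F N₀, v.valuation F (3 : F) = 1) :=
  H83Z.exists_N2

/-- **10. The auxiliary place.**  Suppose that for every `n > 0` there is a place of `F`, prime to
`n`, unramified in `E` and with only one place of `E` above it (`H46Z.InertEx`; for the fields of
S47 it follows from the theorem of Frobenius, see `GuideOctahedralGal`).  Then there are places `v0`
and `w0` which do not divide `N₀`, such that `w0` is the only place above `v0`.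
File: `H83ZInst4`. -/
theorem auxiliary_place {F E : Type*} [Field F] [NumberField F] [Field E] [NumberField E]
    [Algebra F E]
    (hI : ∀ n : ℕ, 0 < n → ∃ v : HeightOneSpectrum (𝓞 F), (n : 𝓞 F) ∉ v.asIdeal ∧
      H82.NonSplit E v ∧ ∀ w ∈ H82.above E v, v.asIdeal.ramificationIdx' w.asIdeal = 1)
    {N₀ : ℕ} (hN : N₀ ≠ 0) :
    ∃ (v0 : HeightOneSpectrum (𝓞 F)) (w0 : HeightOneSpectrum (𝓞 E)),
      v0 ∉ H46Z.divs F N₀ ∧ w0 ∉ H46Z.divs E N₀ ∧ H82.above E v0 = {w0} :=
  H83Z.exists_v0 hI hN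

/-! ## 3. Levels -/

/-- **11. Subgroups of `PGL₂(K)` at a finite place `w`** (definitions).  `U0 w` consists of the
classes of the matrices in `GL₂` of the `w`-integers, `Gam w n` of those which are congruent to `1`
modulo `w^n`, and the Iwahori subgroup `Iw w` of those which are upper triangular modulo `w`; and
`Gam w 1 ⊂ Iw w ⊂ U0 w`.  Files: `H59Def`, `H83ZInst2` (`Iw w` in other files: `H51ZIwEq`,
`H59Aut`). -/
theorem subgroups {K : Type*} [Field K] [NumberField K] (w : HeightOneSpectrum (𝓞 K)) (n : ℕ)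
    (h : PGL(2, K)) :
    (h ∈ U0 w ↔ ∃ g : GL (Fin 2) K, ((∀ i j, w.valuation K (g i j) ≤ 1) ∧
        w.valuation K (g : Matrix (Fin 2) (Fin 2) K).det = 1) ∧ ProjGenLinGroup.mk g = h) ∧
      (h ∈ Gam w n ↔ ∃ g : GL (Fin 2) K, (g ∈ GLw w ∧ ∀ i j, w.valuation K
        ((g : Matrix (Fin 2) (Fin 2) K) i j - (1 : Matrix (Fin 2) (Fin 2) K) i j) ≤
          exp (-(n : ℤ))) ∧ ProjGenLinGroup.mk g = h) ∧
      (h ∈ H83Z.Iw w ↔ ∃ g : GL (Fin 2) K,
        (g ∈ GLw w ∧ w.valuation K (g 1 0) ≤ exp (-1 : ℤ)) ∧ ProjGenLinGroup.mk g = h) ∧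
      Gam w 1 ≤ H83Z.Iw (K := K) w ∧ H83Z.Iw (K := K) w ≤ U0 w :=
  ⟨Iff.rfl, Iff.rfl, Iff.rfl, H83Z.Gam_one_le_Iw w, H83Z.Iw_le w⟩

/-- **12. Automorphisms.**  If the automorphism `s` of `K` maps the place `w` to `w'`, it maps the
maximal subgroup and the Iwahori subgroup at `w` to those at `w'`.  File: `H83ZInst2`. -/
theorem subgroups_under_automorphisms {K : Type*} [Field K] [NumberField K] (s : K ≃+* K)
    {w w' : HeightOneSpectrum (𝓞 K)} (hv : ∀ x, w'.valuation K (s x) = w.valuation K x)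
    (g : PGL(2, K)) :
    (g ∈ U0 w ↔ (ProjGenLinGroup.map (s : K →+* K) g : PGL(2, K)) ∈ U0 w') ∧
      (g ∈ H83Z.Iw w ↔ (ProjGenLinGroup.map (s : K →+* K) g : PGL(2, K)) ∈ H83Z.Iw w') :=
  ⟨H83Z.U0_map s hv g, H83Z.Iw_map s hv g⟩

/-- **13. Levels** (definition).  A level `L` is a family of subgroups of `PGL₂(K)`, one for each
finite place; almost all are equal to `U0 w`, they are open (contain some `Gam w n`) and bounded
(conjugate to a subgroup of `U0 w`).  File: `H59Def`. -/
theorem level_spec {K : Type*} [Field K] [NumberField K] (L : Level (𝓞 K) K) :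
    {w | L.U w ≠ U0 w}.Finite ∧ (∀ w, ∃ n : ℕ, Gam w n ≤ L.U w) ∧
      ∀ w, ∃ c : PGL(2, K), ∀ g ∈ L.U w, c⁻¹ * g * c ∈ U0 w :=
  ⟨L.fin, L.isOpen, L.bdd⟩

/-- **14. The level attached to types.**  `S` is a finite set of places, `w0 ∉ S`, and `T w` a type
for each place, with group `(T w).H` and level `(T w).U` (the kernel of its character, see theorem
`types` of `GuideOctC`).  If the types at the places of `S` are open and bounded, there is a level
`L` with `L.U w = (T w).U` for `w ∈ S`, the Iwahori subgroup at `w0`, and `U0 w` at all other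
places.  It is stable under every automorphism which permutes `S` and the types and fixes `w0`.
File: `H83ZInst3`. -/
theorem level_of_types {K : Type*} [Field K] [NumberField K]
    {S : Finset (HeightOneSpectrum (𝓞 K))} {w0 : HeightOneSpectrum (𝓞 K)}
    {T : HeightOneSpectrum (𝓞 K) → TD K} (h0 : w0 ∉ S) (hT : ∀ w ∈ S, ∃ n : ℕ, Gam w n ≤ (T w).U)
    (hb : ∀ w ∈ S, ∃ c : PGL(2, K), ∀ g ∈ (T w).H, c⁻¹ * g * c ∈ U0 w) :
    ∃ L : Level (𝓞 K) K, (∀ w ∈ S, L.U w = (T w).U) ∧ L.U w0 = H83Z.Iw w0 ∧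
      (∀ w ∉ S, w ≠ w0 → L.U w = U0 w) ∧
      ∀ (s : K ≃+* K) (σ : Equiv.Perm (HeightOneSpectrum (𝓞 K))),
        (∀ w x, (σ w).valuation K (s x) = w.valuation K x) → (∀ w, σ w ∈ S ↔ w ∈ S) →
        σ w0 = w0 →
        (∀ w ∈ S, ∀ g : PGL(2, K), g ∈ (T w).U ↔
          (ProjGenLinGroup.map (s : K →+* K) g : PGL(2, K)) ∈ (T (σ w)).U) →
        ∀ (w : HeightOneSpectrum (𝓞 K)) (g : PGL(2, K)), g ∈ L.U w ↔
          (ProjGenLinGroup.map (s : K →+* K) g : PGL(2, K)) ∈ L.U (σ w) :=
  have h : H83Z.LevIn S w0 T := ⟨h0, hT, hb⟩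
  ⟨H83Z.lev h, fun _ => H83Z.lev_S h, H83Z.lev_w0 h, fun _ => H83Z.lev_good h,
    fun s σ h1 h2 h3 h4 => H83Z.lev_stable h s σ h1 h2 h3 h4⟩

/-! ## 4. The models and the setup -/

/-- **15. Models and their automorphisms** (definitions).  A model `m` of the totally complex field
`K` consists of embeddings `m.e j`, one for each infinite place, and a level `m.L`.  An
automorphism `a : AutData m` consists of an automorphism `a.s` of `K`, the permutations `a.σ` of the
finite places and `a.c` of the indices `j` induced by it, and the fact that the level is stable.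
File: `H59Def`. -/
theorem model_spec {K : Type*} [Field K] [NumberField K] {J : Type*} [Fintype J] (m : Model K J)
    (a : AutData m) :
    (Function.Bijective fun j => InfinitePlace.mk (m.e j)) ∧
      (∀ j, ¬ ComplexEmbedding.IsReal (m.e j)) ∧
      (∀ w x, (a.σ w).valuation K (a.s x) = w.valuation K x) ∧
      (∀ j x, m.e (a.c j) (a.s x) = m.e j x) ∧
      ∀ w (g : PGL(2, K)), g ∈ m.L.U w ↔
        (ProjGenLinGroup.map (a.s : K →+* K) g : PGL(2, K)) ∈ m.L.U (a.σ w) :=
  ⟨m.e_bij, m.e_cx, a.val, a.e_s, a.U_s⟩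

/-- **16. The models over `E` and `F`.**  `F` imaginary quadratic, `E / F` Galois of degree three,
`L` a level over `E` which is stable under `s`, and `L'` a level over `F`.  The model over `E` has
the embeddings `e₀ ∘ s^(-j)`, and `s` acts on it by the permutation of the finite places of theorem
3 and by `j ↦ j + 1`.  The model over `F` has the embedding `e₀` restricted to `F`.
File: `H83ZInst2`. -/
theorem models {F E : Type*} [Field F] [NumberField F] [Field E] [NumberField E] [Algebra F E]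
    [IsGalois F E] [IsTotallyComplex F] [IsTotallyComplex E] (h2 : Module.finrank ℚ F = 2)
    (h3 : Module.finrank F E = 3) (e₀ : E →+* ℂ) (s : E ≃ₐ[F] E) (hs : s ≠ 1)
    (L : Level (𝓞 E) E) (L' : Level (𝓞 F) F)
    (hL : ∀ w (g : PGL(2, E)), g ∈ L.U w ↔
      (ProjGenLinGroup.map ((s : E ≃+* E) : E →+* E) g : PGL(2, E)) ∈
        L.U (H83Z.placePerm s w)) :
    (∃ (m : Model E (Fin 3)) (a : AutData m), m.L = L ∧
        (∀ (j : Fin 3) (x : E), m.e j x = e₀ ((s⁻¹ ^ (j : ℕ)) x)) ∧ (∀ x, a.s x = s x) ∧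
        a.σ = H83Z.placePerm s ∧ a.c = Equiv.addRight 1) ∧
      ∃ m : Model F (Fin 1), m.L = L' ∧ m.e 0 = e₀.comp (algebraMap F E) :=
  ⟨⟨H83Z.modelE h2 h3 e₀ s hs L, H83Z.autE h2 h3 e₀ s hs L hL, rfl, fun _ _ => rfl, fun _ => rfl,
    rfl, rfl⟩, H83Z.modelF h2 e₀ L', rfl, rfl⟩

/-- **17. The torus and the level of a type.**  If `t - 1` is in the lattice `A` of the type `T`,
the class of `diag(t, 1)` (`H51Z.bm t 0`) is in the level `T.U`.  File: `H83ZInst3`. -/
theorem torus_in_level {K : Type*} [Field K] (T : TD K) {t : Kˣ} (ht : (t : K) - 1 ∈ T.A) :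
    (ProjGenLinGroup.mk (H51Z.bm t 0) : PGL(2, K)) ∈ T.U :=
  H83Z.d_mem_U T ht

/-- **18. What is required of the types**, for a setup `C`.  (a) The character of the type at a bad
place is given by the standard additive character.  (b) The lattices of the types over `E` are
permuted by `s`.  (c) If `a - 1` is orthogonal to the lattice `B` of the type, the class of
`diag(a, 1)` is in the level (by theorem 17, because the orthogonal complement of `B` is contained
in `A`).  (d) Over `F` the lattice `B` contains the dual of the integers, and the lattice `C` is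
open.  Files: `H79SDef`, `H7ZWhit`, `H7ZMod`. -/
theorem setup_types {F E : Type} [Field F] [NumberField F] [Field E] [NumberField E]
    [Algebra F E] (C : H79S.CSetup F E) :
    ((∀ w ∈ C.SE, ∀ x, (C.TE w).psi x = H7.Z.psi w x) ∧
        ∀ v ∈ C.SF, ∀ x, (C.TF v).psi x = H7.Z.psi v x) ∧
      (∀ w ∈ C.SE, ∀ x, (C.s x ∈ (C.TE (C.aE.σ w)).A ↔ x ∈ (C.TE w).A) ∧
        (C.s x ∈ (C.TE (C.aE.σ w)).B ↔ x ∈ (C.TE w).B) ∧
        (C.s x ∈ (C.TE (C.aE.σ w)).C ↔ x ∈ (C.TE w).C)) ∧
      ((∀ w ∈ C.SE, ∀ a : Eˣ, (∀ b ∈ (C.TE w).B, H7.Z.psi w (((a : E) - 1) * b) = 1) →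
          (ProjGenLinGroup.mk (H51Z.bm a 0) : PGL(2, E)) ∈ C.mE.L.U w) ∧
        ∀ v ∈ C.SF, ∀ a : Fˣ, (∀ b ∈ (C.TF v).B, H7.Z.psi v (((a : F) - 1) * b) = 1) →
          (ProjGenLinGroup.mk (H51Z.bm a 0) : PGL(2, F)) ∈ C.mF.L.U v) ∧
      ∀ v ∈ C.SF, (∀ b : F, (∀ r : F, v.valuation F r ≤ 1 → H7.Z.psi v (b * r) = 1) →
        b ∈ (C.TF v).B) ∧ ∃ k : ℕ, ∀ c : F, v.valuation F c ≤ exp (-(k : ℤ)) → c ∈ (C.TF v).C :=
  ⟨⟨C.psiE, C.psiF⟩, C.TE_s, ⟨C.dualE, C.dualF⟩, C.lowF⟩

/-- **19. The other data of a setup** `C : H79S.CSetup F E`: the models `C.mE`, `C.mF` with the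
automorphism `C.aE` given by `C.s`, the bad places `C.SF`, `C.SE`, the auxiliary places `C.v0`,
`C.w0` (where the level is the Iwahori subgroup), and the levels (theorem 14).
File: `H79SDef`. -/
theorem setup_spec {F E : Type} [Field F] [NumberField F] [Field E] [NumberField E]
    [Algebra F E] (C : H79S.CSetup F E) :
    (Module.finrank ℚ F = 2 ∧ Module.finrank F E = 3 ∧ IsGalois F E ∧ C.s ≠ 1) ∧
      ((∀ x, C.aE.s x = C.s x) ∧ C.aE.c = Equiv.addRight 1 ∧
        ∀ (j : Fin 3) (x : F), C.mE.e j (algebraMap F E x) = C.mF.e 0 x) ∧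
      ((∀ w, w ∈ C.SE ↔ H47.below F w ∈ C.SF) ∧ C.v0 ∉ C.SF ∧ H82.above E C.v0 = {C.w0}) ∧
      ((∀ v ∉ C.SF, ∀ w ∈ H82.above E v, v.asIdeal.ramificationIdx' w.asIdeal = 1) ∧
        (∀ w ∉ C.SE, H7.Z.Unram w) ∧ ∀ v ∉ C.SF, H7.Z.Unram v) ∧
      ((∀ w ∈ C.SE, C.mE.L.U w = (C.TE w).U) ∧ (∀ w ∉ C.SE, w ≠ C.w0 → C.mE.L.U w = U0 w) ∧
        C.mE.L.U C.w0 = H83Z.Iw C.w0) ∧
      (∀ v ∈ C.SF, C.mF.L.U v = (C.TF v).U) ∧ (∀ v ∉ C.SF, v ≠ C.v0 → C.mF.L.U v = U0 v) ∧
        C.mF.L.U C.v0 = H83Z.Iw C.v0 :=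
  ⟨⟨C.h2, C.h3, C.gal, C.hs⟩, ⟨C.s_eq, C.c_eq, C.e_alg⟩, ⟨C.mem_SE, C.v0S, C.above_v0⟩,
    ⟨C.unr, C.unramE, C.unramF⟩, ⟨C.kE.lev_S, C.kE.lev_good, C.kE.lev_w0⟩, C.kF.lev_S,
    C.kF.lev_good, C.kF.lev_w0⟩

/-- **20. The setup from the types.**  `t : H76V.TInst M E s k c₀` are types at all places with the
properties listed in `types_everywhere` of `GuideOctCGeom`.  For `M = ℚ(ω)` and a bad integer `N₀`
(theorem 9) there is a setup with these types, whose bad places are the divisors of `N₀`.  The proof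
puts together theorems 3 to 6, 10, 14, 16 and 17 and the existence of the local kernels
(`H51Z.exists_kerData`).  Files: `H83ZInst3`, `H83ZInst5`. -/
theorem exists_setup {M E : Type} [Field M] [NumberField M] [IsCyclotomicExtension {3} ℚ M]
    [Field E] [NumberField E] [Algebra M E] [IsGalois M E] {s : E ≃ₐ[M] E} {k c₀ N₀ : ℕ}
    (hdeg : Module.finrank M E = 3) (e : E →+* ℂ) (hs : s ≠ 1)
    (hI : ∀ n : ℕ, 0 < n → ∃ v : HeightOneSpectrum (𝓞 M), (n : 𝓞 M) ∉ v.asIdeal ∧
      H82.NonSplit E v ∧ ∀ w ∈ H82.above E v, v.asIdeal.ramificationIdx' w.asIdeal = 1)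
    (hN₀ : N₀ ≠ 0)
    (h : (∀ v ∉ H46Z.divs M N₀, ∀ w ∈ H82.above E v,
        v.asIdeal.ramificationIdx' w.asIdeal = 1) ∧
      (∀ w ∉ H46Z.divs E N₀, H7.Z.Unram w) ∧ ∀ v ∉ H46Z.divs M N₀, H7.Z.Unram v)
    (t : H76V.TInst M E s k c₀) :
    ∃ C : H79S.CSetup M E, C.s = s ∧ C.TE = t.TE ∧ C.TF = t.TF ∧ C.SF = H46Z.divs M N₀ ∧
      C.SE = H46Z.divs E N₀ ∧ C.mF.e 0 = e.comp (algebraMap M E) :=
  H83Z.exists_setup hdeg e hs hI hN₀ h t

/-! ## 5. The integers of `ℚ(ω)` and the ring `ℤ[ω] ⊂ ℂ`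

In this section `F` is a number field with `IsCyclotomicExtension {3} ℚ F`, i.e. `F = ℚ(ω)`, and `e`
one of its two embeddings in `ℂ`; `S47T.Eis = ℤ[ω]` is a subring of `ℂ` and `S47T.om = ω`.  The
dictionary is used, among others, in `H40K5`, `H85I2` (from the form over `F` to a function on
hyperbolic space), `H59K5` and `H15S47Left`.  The companion files on the output of block (C)
contain similar statements in the form of `H72RA` and `H72RB` (trace and norm, every place is given
by a prime of `ℤ[ω]`, coprimality). -/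

/-- **21. Integers.**  Some integral `z ∈ F` is mapped to `ω`; `x ∈ F` is integral if and only if
`e x ∈ ℤ[ω]`; and `H83Z.eisO e` is the resulting isomorphism from the ring of integers of `F` onto
`ℤ[ω]`.  File: `H83ZEis`. -/
theorem integers {F : Type*} [Field F] [NumberField F] [IsCyclotomicExtension {3} ℚ F]
    (e : F →+* ℂ) :
    (∃ z : F, IsIntegral ℤ z ∧ e z = S47T.om ∧ IsPrimitiveRoot z 3) ∧
      (∀ x : F, IsIntegral ℤ x ↔ e x ∈ S47T.Eis) ∧
      (∀ a : 𝓞 F, ((H83Z.eisO e a : S47T.Eis) : ℂ) = e a) ∧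
      ∀ y : S47T.Eis, e (((H83Z.eisO e).symm y : 𝓞 F) : F) = (y : ℂ) :=
  ⟨H83Z.exists_om e, H83Z.isIntegral_iff e, H83Z.coe_eisO e, H83Z.e_symm e⟩

/-- **22. Places and primes.**  Every prime `ϖ` of `ℤ[ω]` gives a finite place `v` of `F`.  The
valuation at `v` is divisibility by powers of `ϖ`, `ϖ` is a uniformizer, and the absolute norm of
`v` is `|ϖ|²`.  File: `H83ZEis`. -/
theorem places_and_primes {F : Type*} [Field F] [NumberField F] [IsCyclotomicExtension {3} ℚ F]
    {e : F →+* ℂ} :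
    (∀ ϖ : S47T.Eis, Prime ϖ → ∃ v : HeightOneSpectrum (𝓞 F),
        v.asIdeal = Ideal.span {(H83Z.eisO e).symm ϖ}) ∧
      ∀ (v : HeightOneSpectrum (𝓞 F)) (ϖ : S47T.Eis),
        v.asIdeal = Ideal.span {(H83Z.eisO e).symm ϖ} →
        (∀ (a : 𝓞 F) (n : ℕ),
          v.valuation F (a : F) ≤ exp (-(n : ℤ)) ↔ ϖ ^ n ∣ H83Z.eisO e a) ∧
        (Prime ϖ → v.valuation F (((H83Z.eisO e).symm ϖ : 𝓞 F) : F) = exp (-1 : ℤ)) ∧
        ((Ideal.absNorm v.asIdeal : ℕ) : ℝ) = Complex.normSq (ϖ : ℂ) :=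
  ⟨fun ϖ h => ⟨H83Z.placeOf e ϖ h, rfl⟩,
    fun _ _ hv => ⟨H83Z.val_le_iff hv, fun h => H83Z.val_gen h hv, H83Z.absNorm_eq hv⟩⟩

/-- **23. Norms in `ℤ[ω]`.**  `|x|²` is a natural number; `x` is a unit if and only if `|x|² = 1`;
elements whose norm is a prime number are primes, and prime numbers `p ≡ 2 mod 3` are primes of
`ℤ[ω]`, of norm `p²`.  File: `H83ZEis2`. -/
theorem norms :
    (∀ x : S47T.Eis, ∃ n : ℕ, Complex.normSq (x : ℂ) = n) ∧
      (∀ x : S47T.Eis, IsUnit x ↔ Complex.normSq (x : ℂ) = 1) ∧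
      (∀ (p : ℕ) (ϖ : S47T.Eis), p.Prime → Complex.normSq (ϖ : ℂ) = p → Prime ϖ) ∧
      (∀ p : ℕ, p.Prime → p % 3 = 2 → Prime (p : S47T.Eis)) ∧
      ∀ p : ℕ, Complex.normSq (((p : S47T.Eis) : S47T.Eis) : ℂ) = (p : ℝ) ^ 2 :=
  ⟨H83Z.exists_nat_normSq, fun _ => ⟨H83Z.normSq_eq_one_of_isUnit, H83Z.isUnit_of_normSq_eq_one⟩,
    fun _ _ hp h => H83Z.prime_of_normSq hp h, fun _ hp h => H83Z.prime_of_inert hp h,
    H83Z.normSq_natCast⟩

end Fermat.Agent.Guide.OctCSetup
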