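import Fermat.Agent.H17CF
import Fermat.Agent.H79SCmp

/-!
# Guide, block (C) of S47: operators, traces and the operator `C` in detail

Fourth file on block (C) of S47, after `GuideOctC` (overview), `GuideOctCGeom` and `GuideOctCLocal`
(geometric side). It explains the ingredients of the spectral side: the operators on bounded invariant
functions, the trace as a double integral of kernels, the linear algebra of joint eigenspaces, the
operator `C` (radial kernels, Hecke operators in coordinates, constant terms), and how one gets a form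
over `F` from a joint eigenvalue. All theorems are in the closure of `S47`.

The texts are by helper21 (sections 1, 2), helper42 (section 2), helper75 and helper39 (section 3),
helper44 (section 4), helper8 and helper79.

The general theory (cut-offs, bounded kernels, Hilbert-Schmidt operators) is in `GuideTrace`, the radial
kernels on `H3` and the spectral parameter `0` are in `GuideHyperbolic` and `GuideEigenfunctions`. Steps of
sections 1 and 2: `GuideOctCSpecSteps` (and `GuideOctCSeparation`); of section 3: `GuideOctCOperator`,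
`GuideConstantTerms`; of section 4: `GuideOctCSteps`.

Notes: [393], [449] (operators, traces), [435] (trace identity), [438] (separation, joint eigenspaces),
[443], [420], [434], [470] (operator `C`), [450] (target vector over `E`), [480] (extraction of the form
over `F`). The theorems `separation`, `trace_identity`, `abstract_comparison` and `eigenvalue_at_infinity`,
named below without a file, are in `GuideOctC`.
-/

set_option autoImplicit false

open IsDedekindDomain HeightOneSpectrum WithZero NumberField Matrix MeasureTheory Set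
open scoped MatrixGroups ComplexConjugate ENNReal

noncomputable section

namespace Fermat.Agent.Guide.OctCSpec

open Fermat.Agent.H59XF Fermat.Agent.H59D Fermat.Agent.H51Z

/-! ## 1. Operators on bounded invariant functions

`Model K J` is the space `X = (H3)^J × X_f` with the action of `PGL₂(K)` and the invariant measure
`m.μ`; for a cut-off `c` the measure `c.ν m.μ` is finite. (Files `H21Z1` to `H21Z6`. The records: `CSetup`,
`TD` and `OpData` are described in `GuideOctC`, `AutData` in `GuideOctCSetup`, `GlobKer` in `GuideOctCLevel`,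
`KerData` in `GuideOctCTarget`, `SideC` in `GuideOctCSeparation`.) -/

/-- `BInv PGL(2, K) m.X` is the space of the bounded measurable functions on `X` invariant under
`PGL₂(K)`. They are functions, not classes of functions. -/
theorem mem_BInv_iff {K : Type} [Field K] [NumberField K] {J : Type} [Fintype J] (m : Model K J)
    (f : m.X → ℂ) : f ∈ H21Z.BInv PGL(2, K) m.X ↔
      Measurable f ∧ (∃ C : ℝ, ∀ x, ‖f x‖ ≤ C) ∧ ∀ (g : PGL(2, K)) x, f (g • x) = f x :=
  Iff.rfl

/-- **The operators.** `gopB m a` is the operator of a global kernel `a` (a finite sum in the discrete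
variable; special cases are the Hecke operators `T_w`, `U`, `W` and the projectors onto types), and
`rkB m hκ` is the operator of a radial kernel `κ`: integration over `(H3)^J` against `κ` of the vector
`chv` of the hyperbolic cosines of the distances. -/
theorem operators {K : Type} [Field K] [NumberField K] {J : Type} [Fintype J] (m : Model K J)
    (a : GlobKer m.L.fam) {κ : (J → ℝ) → ℂ} (hκ : H56Z.IsRC κ)
    (f : H21Z.BInv PGL(2, K) m.X) (x : m.X) :
    (H21Z.gopB m a f : m.X → ℂ) x = ∑ y ∈ gs a x.2, a.k x.2 y * (f : m.X → ℂ) (x.1, y) ∧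
    (H21Z.rkB m hκ f : m.X → ℂ) x = ∫ w, κ (H5Z.chv x.1 w) * (f : m.X → ℂ) (w, x.2) :=
  ⟨rfl, rfl⟩

/-- **Relations.** The discrete operators form a representation of the algebra of global kernels;
radial operators commute with each other and with the discrete ones. -/
theorem operators_commute {K : Type} [Field K] [NumberField K] {J : Type} [Fintype J]
    (m : Model K J) (a b : GlobKer m.L.fam) {κ κ' : (J → ℝ) → ℂ} (hκ : H56Z.IsRC κ)
    (hκ' : H56Z.IsRC κ') :
    H21Z.gopB m (gmul a b) = H21Z.gopB m a * H21Z.gopB m b ∧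
    Commute (H21Z.rkB m hκ) (H21Z.rkB m hκ') ∧ Commute (H21Z.rkB m hκ) (H21Z.gopB m a) :=
  ⟨H21Z.gopB_gmul m a b, H21Z.rkB_commute m hκ hκ', H21Z.rkB_gopB_commute m hκ a⟩

/-- **Adjoints** for the pairing `∫ conj f · g dν`, `ν = χ μ`: the adjoint of the operator of a global
kernel `a` is the operator of the adjoint kernel `gadj a`, `(x, y) ↦ conj (a(y, x))` (this is the
unfolding of the invariant pairing), and radial operators with real kernel are symmetric. -/
theorem adjoints {K : Type} [Field K] [NumberField K] {J : Type} [Fintype J] (m : Model K J)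
    (c : H32Z.CutOff PGL(2, K) m.X) [IsFiniteMeasure (c.ν m.μ)] (a : GlobKer m.L.fam)
    {κ : (J → ℝ) → ℂ} (hκ : H56Z.IsRC κ) (hr : ∀ t, conj (κ t) = κ t)
    (f g : H21Z.BInv PGL(2, K) m.X) :
    ∫ x, conj ((H21Z.gopB m a f : m.X → ℂ) x) * (g : m.X → ℂ) x ∂(c.ν m.μ) =
      ∫ x, conj ((f : m.X → ℂ) x) * (H21Z.gopB m (H21Z.gadj a) g : m.X → ℂ) x ∂(c.ν m.μ) ∧
    ∫ x, conj ((H21Z.rkB m hκ f : m.X → ℂ) x) * (g : m.X → ℂ) x ∂(c.ν m.μ) =
      ∫ x, conj ((f : m.X → ℂ) x) * (H21Z.rkB m hκ g : m.X → ℂ) x ∂(c.ν m.μ) :=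
  ⟨H21Z.isAdj_gopB m c a f g, H21Z.isAdj_rkB_self m c hκ hr f g⟩

/-- **The operator of an automorphic kernel.** `k = Σ_i κ_i ⊗ a_i` is a finite sum of test kernels
(`fks`), `K(x, y) = Σ_g k(x, g y)` its automorphic kernel, assumed bounded. On `BInv` the operator
`kop` of `K` (integration against `K` and `ν`) is `Σ_i R(κ_i) H(a_i)`. -/
theorem autK_operator {K : Type} [Field K] [NumberField K] {J : Type} [Fintype J] (m : Model K J)
    {I : Type} (s : Finset I) {κ : I → (J → ℝ) → ℂ} (hκ : ∀ i, H56Z.IsRC (κ i))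
    (a : I → GlobKer m.L.fam) (c : H32Z.CutOff PGL(2, K) m.X) [IsFiniteMeasure (c.ν m.μ)]
    (hK : H32Z.BK (H32Z.CutOff.autK PGL(2, K) (H21Z.fks m s κ a)))
    (hG : ∀ (g : PGL(2, K)) x y, H32Z.CutOff.autK PGL(2, K) (H21Z.fks m s κ a) (g • x) y =
      H32Z.CutOff.autK PGL(2, K) (H21Z.fks m s κ a) x y) :
    H21Z.kop hK (c.ν m.μ) hG = ∑ i ∈ s, H21Z.rkB m (hκ i) * H21Z.gopB m (a i) :=
  H21Z.kop_fks s hκ a c hK hG

/-- **The automorphism** of the field acts on `BInv` by `sB a` (composition with the inverse of its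
action `a.act` on `X`). It has order three, transports the discrete kernels (`IsTw`) and permutes the
infinite places. -/
theorem automorphism {K : Type} [Field K] [NumberField K] {J : Type} [Fintype J] {m : Model K J}
    (a : AutData m) (h3 : ∀ x, a.act (a.act (a.act x)) = x) {b b' : GlobKer m.L.fam}
    (h : IsTw a.twist b b') {κ : (J → ℝ) → ℂ} (hκ : H56Z.IsRC κ) :
    (∀ (f : H21Z.BInv PGL(2, K) m.X) x,
      (H21Z.sB a f : m.X → ℂ) (a.act x) = (f : m.X → ℂ) x) ∧
    H21Z.sB a ^ 3 = 1 ∧ H21Z.sB a * H21Z.gopB m b = H21Z.gopB m b' * H21Z.sB a ∧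
    H21Z.sB a * H21Z.rkB m hκ = H21Z.rkB m (H21Z.isRC_perm hκ a.c) * H21Z.sB a :=
  ⟨H21Z.sB_act a, H21Z.sB_pow_three a h3, H21Z.sB_gopB a h, H21Z.sB_rkB a hκ⟩

/-! ## 2. Traces and joint eigenvalues -/

/-- **The trace on one side is a double integral of kernels** (`H21Z2`). `D` is the list of operators on
one side (see `trace_functional` in `GuideOctC`); its trace functional for a word `L` and `m` is
`Σ_c c² tr(Y_L Y_u^m s | E_c)` over the eigenspaces `E_c`, `c ≠ 0`, of the operator `kop` of `K`; `Y_u` is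
the operator with label `D.u`. If `M` is a bounded kernel of the operator `kop ∘ (Y_L Y_u^m s)`, it is the
double integral of `K(x, y) M(y, x)`. -/
theorem spectral_side {G X : Type} [Group G] [MulAction G X] [MeasurableSpace X]
    [MeasurableSpace.CountablyGenerated X] {ν : Measure X} [IsFiniteMeasure ν] {K : X → X → ℂ}
    {J : Type} {hK : H32Z.BK K} {hG : ∀ (g : G) x y, K (g • x) y = K x y}
    (D : H21Z.OpData J hK ν hG) (hsym : ∀ x y, K y x = conj (K x y)) (L : List J) (m : ℕ)
    {M : X → X → ℂ} (hM : H32Z.BK M)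
    (hMf : ∀ (f : H21Z.BInv G X) (x : X), ∫ y, M x y * (f : X → ℂ) y ∂ν =
      (H21Z.kop hK ν hG
        (((L.map D.j ++ List.replicate m D.u).map D.Y).prod (D.s f)) : X → ℂ) x) :
    (D.side hsym).tr L m = ∫ x, ∫ y, K x y * M y x ∂ν ∂ν :=
  D.side_tr hsym L m hM hMf

/-- **Twisting nilpotent elements** (`H69S3`, text of helper69). If `s` permutes the commuting elements
`Q₀ → Q₁ → Q₂ → Q₀` and `Q₀` is nilpotent, then `Q₀ s` is nilpotent: `(Q₀ s)³` is `Q₀` times something
commuting with it. This replaces semisimplicity of the Hecke algebra in the next theorem. -/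
theorem isNilpotent_mul_twist {R : Type*} [Ring R] {Q₀ Q₁ Q₂ s : R}
    (h01 : Commute Q₀ Q₁) (h02 : Commute Q₀ Q₂)
    (h1 : s * Q₀ = Q₁ * s) (h2 : s * Q₁ = Q₂ * s) (h3 : s * Q₂ = Q₀ * s)
    (hn : IsNilpotent Q₀) : IsNilpotent (Q₀ * s) :=
  H69S.isNilpotent_mul_twist h01 h02 h1 h2 h3 hn

/-- **The twisted trace is a sum over the stable blocks** (`H69S3`, text of helper69; used in `H42S4`).
`Y k` are commuting endomorphisms of a finite dimensional complex space `E`, `σ` is a permutation of the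
indices, `σ³ = 1`, and `s` an endomorphism with `s Y_k = Y_{σ k} s`. Then the trace of
`Y_{k₁} ⋯ Y_{k_n} s` is the sum, over the joint generalised characters `χ` of the `Y k` with `χ ∘ σ = χ`,
of `χ(k₁) ⋯ χ(k_n)` times the trace `bt Y s χ` of `s` on the block of `χ`. -/
theorem trace_mul_perm {K E : Type*} [AddCommGroup E] [Module ℂ E] [FiniteDimensional ℂ E]
    {Y : K → Module.End ℂ E} (hY : ∀ i j, Commute (Y i) (Y j)) {σ : K ≃ K}
    (hσ : ∀ k, σ (σ (σ k)) = k) {s : Module.End ℂ E} (hs : ∀ k, s * Y k = Y (σ k) * s)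
    (L : List K) [DecidablePred fun χ : K → ℂ => χ ∘ σ = χ] :
    LinearMap.trace ℂ E ((L.map Y).prod * s) =
      ∑ χ ∈ (H42S.finite_supp Y hY).toFinset with χ ∘ σ = χ, (L.map χ).prod * H69S.bt Y s χ :=
  H69S.trace_mul_perm_gen hY hσ hs L

/-- **The trace functional in terms of joint eigenvalues** (`H42S4`, `H69S3`). The finite dimensional
spaces are decomposed into joint generalised eigenspaces ("blocks") of the commuting operators; only
the blocks stable under the permutation by `s` contribute. The block `p` contributes its weight `S.w p`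
(weight of the space times the trace of `s` on the block) times its real coordinates `S.x p l` along
the word times the `m`-th power of its `U`-coordinate `S.z p`. -/
theorem trace_expansion {J : Type} (S : H42S.SideC J) (L : List J) (m : ℕ) :
    S.tr L m = ∑' p : S.I, S.w p * (((L.map (S.x p)).prod : ℝ) : ℂ) * S.z p ^ m :=
  S.tr_eq L m

/-- **Joint eigenvectors** (`H42S*`). A non-zero joint generalised eigenspace of a commuting family `Y`
on a finite dimensional space contains a joint eigenvector, also for one more operator `A` commuting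
with the family; if `Y u = A ^ n`, the eigenvalue of `A` is an `n`-th root of that of `Y u`. Used with
`n = 3`: over `F` only the third power of `U` is compared. -/
theorem exists_joint_eigenvector {K E : Type*} [AddCommGroup E] [Module ℂ E]
    [FiniteDimensional ℂ E] {Y : K → Module.End ℂ E} {χ : K → ℂ}
    (hY : ∀ i j, Commute (Y i) (Y j)) {A : Module.End ℂ E} (hA : ∀ k, Commute A (Y k))
    (hb : ⨅ k, (Y k).maxGenEigenspace (χ k) ≠ ⊥) {u : K} {n : ℕ} (hu : Y u = A ^ n) :
    ∃ (μ : ℂ) (v : E), v ≠ 0 ∧ A v = μ • v ∧ μ ^ n = χ u ∧ ∀ k, Y k v = χ k • v :=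
  H42S.exists_joint_pow hY hA hb hu

/-- **Eigenvalues of `U` on the eigenspaces of `K`** (`H21Z2`, from `H8U`). `W`, `P` are
operators on `BInv` which commute with the operator of `K`, are their own adjoints for the pairing
`∫ conj f g dν` (`IsAdj`; on the eigenspace of `K` for `c ≠ 0` it is a scalar product), and satisfy
`W² = 1`, `P² = (q + 1) P`. An eigenvalue `u` of `U = W (P - 1)` on the eigenspace of `K` for `c ≠ 0`
is real with `|u| ≤ q`, or `|u|² = q`: so after division by `√q` it satisfies the hypotheses of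
`separation`. (`Cm` is the algebra of the operators which commute with the operator of `K`, `toInv`
the inclusion of the eigenspace in `BInv`.) -/
theorem U_eigenvalue {G X : Type} [Group G] [MulAction G X] [MeasurableSpace X]
    {ν : Measure X} [IsFiniteMeasure ν] {K : X → X → ℂ} {hK : H32Z.BK K}
    {hG : ∀ (g : G) x y, K (g • x) y = K x y} {q : ℝ} (hq : 1 ≤ q)
    {W P : Module.End ℂ (H21Z.BInv G X)} (hW : W ∈ H21Z.Cm hK ν hG) (hP : P ∈ H21Z.Cm hK ν hG)
    (hWa : H21Z.IsAdj ν W W) (hPa : H21Z.IsAdj ν P P) (hW2 : W * W = 1)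
    (hP2 : P * P = ((q + 1 : ℝ) : ℂ) • P) {c : ℝ} (hc : c ≠ 0) {f : H32Z.Eig hK ν c} (hf : f ≠ 0)
    {u : ℂ} (hu : W (P (H21Z.toInv hG hc f) - H21Z.toInv hG hc f) = u • H21Z.toInv hG hc f) :
    (u.im = 0 ∧ ‖u‖ ≤ q) ∨ ‖u‖ ^ 2 = q :=
  H21Z.U_eigenvalue hG hq hW hP hWa hPa hW2 hP2 hc hf hu

/-- **Normalisation** (`H42T*`): the residue field of `w0` is the cubic extension of that of `v0`, so
`U / √N(w0)` and `(U / √N(v0))³` have the same factor `ρ` in `trace_identity`. -/
theorem norm_w0 {F E : Type} [Field F] [NumberField F] [Field E] [NumberField E] [Algebra F E]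
    (C : H79S.CSetup F E) : Ideal.absNorm C.w0.asIdeal = Ideal.absNorm C.v0.asIdeal ^ 3 :=
  H42T.absNorm_w0 C

/-! ## 3. The operator `C`: radial kernels, Hecke operators, constant terms

The Abel transform of a radial kernel is its integral over horospheres, divided by the height: in one
variable the integral of `k(ch(base, (z, e^u)))` over `z` in `ℂ` is `e^u A(u)`. The factors are absorbed by
dividing constant terms by `∏ y_j`. The kernels of the operator are built from a sequence of kernels in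
one variable whose Abel transforms satisfy `A_{n+1}(u) = A_n(u + ℓ) + A_n(u - ℓ)`, `ℓ = log p`: on constant
terms the step `n → n + 1` acts like `t + t⁻¹`, `t` the translation of `log y` by `ℓ`. (Details on constant
terms: `GuideConstantTerms`; on the kernels and the family of `C`: `GuideOctCKernels`.) -/

/-- **Abel transform and convolution** (`H56Z*`): the definitions. `ax t` is the point at distance
`arcosh t` above the base point of `H3`. -/
theorem abel_and_conv {J : Type} [Fintype J] (κ κ' : (J → ℝ) → ℂ) (u t : J → ℝ) :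
    H56Z.abel κ u = (2 * Real.pi) ^ Fintype.card J *
      ∫ t in {t : J → ℝ | ∀ j, Real.cosh (u j) < t j}, κ t ∧
    H56Z.conv κ κ' t = ∫ v : J → H3, κ (fun j => H3.ch H3.base (v j)) *
      κ' (fun j => H3.ch (v j) (H56Z.ax (t j))) :=
  ⟨rfl, rfl⟩

/-- **The Abel transform is multiplicative** (`H56Z*`): it maps the convolution of radial kernels to
the convolution on `ℝ^J`. Hence radial kernels commute. -/
theorem abel_conv {J : Type} [Fintype J] {κ κ' : (J → ℝ) → ℂ} (h : H56Z.IsRC κ)
    (h' : H56Z.IsRC κ') (v : J → ℝ) :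
    H56Z.abel (H56Z.conv κ κ') v = ∫ u, H56Z.abel κ u * H56Z.abel κ' (v - u) :=
  H56Z.abel_conv h h' v

/-- **The step relation over `E`** (`H75XRad`). If the Abel transforms of the kernels `k_n` satisfy the
step relation, the products `k_{n_1} ⊗ k_{n_2} ⊗ k_{n_3}` satisfy it in each variable `i` (the
translation by `ℓ` is in the variable `i` only). -/
theorem radial_step_E (k : ℕ → ℝ → ℝ) (ℓ : ℝ) (hk : ∀ i, H59K.IsK1 (k i))
    (hs : ∀ n (u : Fin 1 → ℝ), H56Z.abel (H59K.k1 (k (n + 1))) u =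
      H56Z.abel (H59K.k1 (k n)) (u + fun _ => ℓ) + H56Z.abel (H59K.k1 (k n)) (u - fun _ => ℓ))
    (n : Fin 3 → ℕ) (i : Fin 3) (u : Fin 3 → ℝ) :
    H56Z.abel (fun t => ((∏ j, k ((n + Pi.single i 1 : Fin 3 → ℕ) j) (t j) : ℝ) : ℂ)) u =
      H56Z.abel (fun t => ((∏ j, k (n j) (t j) : ℝ) : ℂ)) (u + fun j => if i = j then ℓ else 0) +
        H56Z.abel (fun t => ((∏ j, k (n j) (t j) : ℝ) : ℂ))
          (u - fun j => if i = j then ℓ else 0) :=
  (H75X.radData_E hk hs).step n i u

/-- **The step relation over `F`** (`H75XRad`). The kernel `bF` of `k_{n_1} ⊗ k_{n_2} ⊗ k_{n_3}` is the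
convolution `k_{n_1} * k_{n_2} * k_{n_3}`, and it satisfies the same relation in each index. -/
theorem radial_step_F (k : ℕ → ℝ → ℝ) (ℓ : ℝ) (hk : ∀ i, H59K.IsK1 (k i))
    (hs : ∀ n (u : Fin 1 → ℝ), H56Z.abel (H59K.k1 (k (n + 1))) u =
      H56Z.abel (H59K.k1 (k n)) (u + fun _ => ℓ) + H56Z.abel (H59K.k1 (k n)) (u - fun _ => ℓ))
    (n : Fin 3 → ℕ) (i : Fin 3) (u : Fin 1 → ℝ) :
    H67M.bF (fun t => ((∏ j, k (n j) (t j) : ℝ) : ℂ)) =
        H56Z.conv (H59K.k1 (k (n 0))) (H56Z.conv (H59K.k1 (k (n 1))) (H59K.k1 (k (n 2)))) ∧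
      H56Z.abel (H67M.bF fun t =>
          ((∏ j, k ((n + Pi.single i 1 : Fin 3 → ℕ) j) (t j) : ℝ) : ℂ)) u =
        H56Z.abel (H67M.bF fun t => ((∏ j, k (n j) (t j) : ℝ) : ℂ)) (u + fun _ => ℓ) +
          H56Z.abel (H67M.bF fun t => ((∏ j, k (n j) (t j) : ℝ) : ℂ)) (u - fun _ => ℓ) :=
  ⟨H59K.bF_tn fun j => k (n j), (H75X.radData_F hk hs).step n i u⟩

/-- **Existence of the kernels** (`H17KK`, from `H80Inv`): for every `ℓ > 0` there are Lipschitz kernels
`k_n` in one variable with the step relation, and the value of `k_{i_1} ⊗ k_{i_2} ⊗ k_{i_3}` at spectral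
parameter `0` is `∏ 2^{i_j} h`, `h > 0`: so `t_j + t_j⁻¹` has the value `2` there. Proof: `A_0` is an even
smooth function with two bumps at `±ℓ/2`, which vanishes, as all `A_n`, near the multiples of `ℓ`, in
particular near `0`, and `k_n(t) = -(2π)⁻¹ d/dt A_n(arcosh t)`; `h` is the integral of `A_0`. -/
theorem exists_kernels {ℓ : ℝ} (hℓ : 0 < ℓ) : ∃ (k : ℕ → ℝ → ℝ) (h : ℝ), 0 < h ∧
    (∀ n, H59K.IsK1 (k n)) ∧ (∀ n, ∃ L : NNReal, LipschitzWith L (k n)) ∧
    (∀ n (u : Fin 1 → ℝ), H56Z.abel (H59K.k1 (k (n + 1))) u =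
      H56Z.abel (H59K.k1 (k n)) (u + fun _ => ℓ) + H56Z.abel (H59K.k1 (k n)) (u - fun _ => ℓ)) ∧
    ∀ i : Fin 3 → ℕ, H9Z.hat (fun t : Fin 3 → ℝ => ((∏ j, k (i j) (t j) : ℝ) : ℂ)) =
      ∏ j, (2 ^ i j * (h : ℂ)) := by
  obtain ⟨k, h, h0, hk, hL, hs, hv⟩ := H17S.exists_kk hℓ
  exact ⟨k, h, h0, hk, hL, hs, fun i =>
    (H56Z.hat_eq_khat0 (H59K.isRC_tn fun j => hk (i j))).trans (hv i)⟩

/-- **Smoothing on both sides** (`H59K2`). To get bounded automorphic kernels (theorem
`bounded_kernel` in `GuideOctC`) the kernels over `E` are convolved `n` times with `a ⊗ a ⊗ a`; the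
matching kernels over `F` are then convolved `3 n` times with `a`. (In the proof `a = k_0`, `n = 24`.) -/
theorem smoothing {a : ℝ → ℝ} (ha : H59K.IsK1 a) {κ : (Fin 3 → ℝ) → ℂ} (hκ : H56Z.IsRC κ)
    (n : ℕ) :
    H67M.bF ((fun κ' => H56Z.conv (fun t => ((∏ j, a (t j) : ℝ) : ℂ)) κ')^[n] κ) =
      (fun κ' => H56Z.conv (H59K.k1 a) κ')^[3 * n] (H67M.bF κ) :=
  H59K.bF_it ha hκ n

/-- **The value on the given form** (`H59K1`). `ixs` is the finite set of the monomials of the aleph
polynomial, `cf q n` the coefficient of the monomial `n` times `q^{-d/2}`, `d` its total degree in the three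
Hecke variables (`hdeg`), `q = p²`. The eigenvalue of the operator on a form with Hecke eigenvalues `0` at the
three places and spectral parameter `0` is not zero (the summands with `n (inl i) > 0` vanish because
`0 ^ n = 0`). This is the value before smoothing, which multiplies it by a power of `h³`. -/
theorem value_ne_zero (q : ℝ) {h : ℂ} (hh : h ≠ 0) :
    ∑ n ∈ H59K.ixs, (H59K.cf q n : ℂ) * (∏ j : Fin 3, (2 ^ n (Sum.inr j) * h)) *
        ∏ i, (0 : Fin 3 → ℂ) i ^ n (Sum.inl i) ≠ 0 :=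
  H59K.value_ne_zero q hh

open Classical in
/-- **The Hecke operator in coordinates** (`H7ZHook`). At a place `w` with maximal level let `κ` be the
indicator of the double coset of `diag(ϖ, 1)`, and let `φ` be an eigenfunction of its operator on
functions on the finite component. Then `lam * φ(y)` is the sum over the `N w + 1` neighbours
`g n(b) d(ϖ)` (`b` modulo `w`) and `g d(ϖ)⁻¹` of the component `g` of `y` at `w`; `n(b)` is the class of
`(1 b; 0 1)`, `d(a)` the one of `diag(a, 1)`. -/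
theorem hecke_equation {K : Type*} [Field K] [NumberField K]
    {L : LevelFam PGL(2, K) (HeightOneSpectrum (𝓞 K))} {w : HeightOneSpectrum (𝓞 K)}
    {κ : LocKer (L.U w)} {φ : XF L → ℂ} (hL : L.U w = H59D.U0 w)
    (hκ : H79S.IsInd κ (cellT (w.valuation K))) {lam : ℂ} (h : lop w κ φ = lam • φ)
    {ϖ : Kˣ} (hϖ : w.valuation K (ϖ : K) = exp (-(1 : ℤ))) {R : Finset K}
    (hR : IsReps (w.valuation K) 1 R) (y : XF L) (g : PGL(2, K))
    (hg : y w = (g : PGL(2, K) ⧸ L.U w)) :
    lam * φ y = ∑ b ∈ R, φ (XF.upd y w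
        ((g * (H7.Z.borP K).n b * (H7.Z.borP K).d ϖ : PGL(2, K)) : PGL(2, K) ⧸ L.U w)) +
      φ (XF.upd y w ((g * ((H7.Z.borP K).d ϖ)⁻¹ : PGL(2, K)) : PGL(2, K) ⧸ L.U w)) :=
  H7.Z.heckeEq_of_isInd hL hκ h hϖ hR y g hg

/-- **The mean of a periodic function does not depend on the lattice** (`H39ZMean2`). `f` is measurable,
bounded on compact sets and periodic for the lattices spanned by the bases `b`, `b'`. Proof: Fubini
for `f(z + w)` on the product of the two fundamental domains. So the constant term `ct0 f x`, the mean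
of `z ↦ f(tr z x)`, is defined without choosing a lattice of periods. -/
theorem mean_eq_mean {E : Type*} [NormedAddCommGroup E] [NormedSpace ℝ E] [FiniteDimensional ℝ E]
    [MeasurableSpace E] [BorelSpace E] (μ : Measure E) [μ.IsAddHaarMeasure]
    {ι ι' : Type*} [Fintype ι] [Fintype ι'] (b : Module.Basis ι ℝ E) (b' : Module.Basis ι' ℝ E)
    {f : E → ℂ} (hm : Measurable f)
    (hb : ∀ K : Set E, IsCompact K → ∃ C : ℝ, ∀ z ∈ K, ‖f z‖ ≤ C)
    (h : ∀ z, ∀ v ∈ Submodule.span ℤ (Set.range b), f (z + v) = f z)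
    (h' : ∀ z, ∀ v ∈ Submodule.span ℤ (Set.range b'), f (z + v) = f z) :
    ((μ.real (ZSpan.fundamentalDomain b))⁻¹ : ℝ) • ∫ z in ZSpan.fundamentalDomain b, f z ∂μ =
      ((μ.real (ZSpan.fundamentalDomain b'))⁻¹ : ℝ) • ∫ z in ZSpan.fundamentalDomain b', f z ∂μ :=
  H39Z.lm_eq μ ⟨hm, hb⟩ h h'

/-- **Constant terms commute with radial kernels** (`H39ZCT`). `f` on `(H3)^J` is measurable, bounded on
compact sets (`LB`) and periodic on all horospheres under one and the same multiple `n` of the lattice of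
`b` (`HP b f`). -/
theorem constantTerm_radial {J : Type*} [Fintype J] {ι : Type*} [Fintype ι]
    {b : Module.Basis ι ℝ (J → ℂ)} {f : (J → H3) → ℂ} (hf : H39Z.LB f) (h : H39Z.HP b f)
    {κ : (J → ℝ) → ℂ} (hκ : H56Z.IsRC κ) (x : J → H3) :
    H39Z.ct0 (H5Z.Rk κ f) x = H5Z.Rk κ (H39Z.ct0 f) x :=
  H39Z.ct0_Rk hf h hκ x

/-- **The operator `C` kills constant terms, over `E`** (`H39ZC5`). Data as in
`constant_terms_vanish` of `GuideOctC`. `opF` is the operator `Σ_n coeff_n q^{-d/2} T^(n) R(k^(n))`, `n` over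
the monomials of the aleph polynomial, `d = hdeg n`, `q = p²`. For every invariant `Φ`, locally bounded, all
constant terms of `opF Φ` vanish. Proof: constant terms, divided by `∏ y_j`, are functions of the heights
and the finite part, invariant under the unipotent subgroup; on these the operator is `P(S_a + 1/S_a)`
times the operator of `k_0 ⊗ k_0 ⊗ k_0`, with six commuting `S_a`: the translation of the component at `w_i`
(times a constant), and the inverse of the translation by `log p` of the `j`-th height. Their product is the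
identity for an invariant `Φ`, because it is the action of `diag(-p, 1)`, and so `P` kills the constant term
(`exists_aleph` in `GuideOctC`). Step by step: `GuideConstantTerms`. -/
theorem constantTerms_E {K : Type*} [Field K] [NumberField K] {m : Model K (Fin 3)}
    {S : Finset (HeightOneSpectrum (𝓞 K))} {w0 : HeightOneSpectrum (𝓞 K)}
    {Ty : HeightOneSpectrum (𝓞 K) → H76U.TD K} (D : H79S.KerData m S w0 Ty)
    {w : Fin 3 → HeightOneSpectrum (𝓞 K)} (hw : Function.Injective w) {p : ℕ} (hp : 0 < p)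
    (hgood : ∀ i, w i ∉ S ∧ w i ≠ w0) (hN : ∀ i, Ideal.absNorm (w i).asIdeal = p ^ 2)
    (hval : ∀ i, (w i).valuation K (p : K) = exp (-(1 : ℤ)))
    (hout : ∀ v, (∀ i, w i ≠ v) → v.valuation K (p : K) = 1 ∧
      ∃ n : ℕ, Gam v n ≤ m.L.U v ∧ v.valuation K ((p : K) + 1) ≤ exp (-(n : ℤ)))
    {k : ℕ → ℝ → ℝ} (hk : ∀ i, H59K.IsK1 (k i))
    (hs : ∀ n (u : Fin 1 → ℝ), H56Z.abel (H59K.k1 (k (n + 1))) u =
      H56Z.abel (H59K.k1 (k n)) (u + fun _ => Real.log p) +
        H56Z.abel (H59K.k1 (k n)) (u - fun _ => Real.log p))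
    (Φ : m.X → ℂ) (hΦ : ∀ (g : PGL(2, K)) x, Φ (g • x) = Φ x)
    (hb : ∀ y : XF m.L.fam, H39Z.LB fun x : Fin 3 → H3 => Φ (x, y)) (y : XF m.L.fam)
    (x : Fin 3 → H3) :
    H39Z.ct0 (fun x => H17S.opF H59K.ixs (H59K.kE ((p : ℝ) ^ 2) k)
      (fun n => D.D.mono (H59K.nE w n) 0) Φ (x, y)) x = 0 :=
  (H39Z.final_E D hw ⟨hp, hgood, hN, hval, hout⟩ rfl hk hs).1 Φ hΦ hb y x

/-- **The same over `F`** (`H39ZC5`), one complex place: one place `v` of norm `p²`; the Hecke operator at
`v` and the radial kernels are used with the total exponents, that is, it is the operator over `F`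
which matches the one over `E`. The product of the six `S_a` (each of the two commuting operators is
used three times) is the action of `diag(-p³, 1)`. -/
theorem constantTerms_F {K : Type*} [Field K] [NumberField K] {m : Model K (Fin 1)}
    {S : Finset (HeightOneSpectrum (𝓞 K))} {w0 : HeightOneSpectrum (𝓞 K)}
    {Ty : HeightOneSpectrum (𝓞 K) → H76U.TD K} (D : H79S.KerData m S w0 Ty)
    {v : HeightOneSpectrum (𝓞 K)} {p : ℕ} (hp : 0 < p) (hv : v ∉ S ∧ v ≠ w0)
    (hN : Ideal.absNorm v.asIdeal = p ^ 2) (hval : v.valuation K (p : K) = exp (-(1 : ℤ)))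
    (hout : ∀ v', v ≠ v' → v'.valuation K (p : K) = 1 ∧
      ∃ n : ℕ, Gam v' n ≤ m.L.U v' ∧ v'.valuation K ((p : K) + 1) ≤ exp (-(n : ℤ)))
    {k : ℕ → ℝ → ℝ} (hk : ∀ i, H59K.IsK1 (k i))
    (hs : ∀ n (u : Fin 1 → ℝ), H56Z.abel (H59K.k1 (k (n + 1))) u =
      H56Z.abel (H59K.k1 (k n)) (u + fun _ => Real.log p) +
        H56Z.abel (H59K.k1 (k n)) (u - fun _ => Real.log p))
    (Φ : m.X → ℂ) (hΦ : ∀ (g : PGL(2, K)) x, Φ (g • x) = Φ x)
    (hb : ∀ y : XF m.L.fam, H39Z.LB fun x : Fin 1 → H3 => Φ (x, y)) (y : XF m.L.fam)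
    (x : Fin 1 → H3) :
    H39Z.ct0 (fun x => H17S.opF H59K.ixs (H59K.kF ((p : ℝ) ^ 2) k)
      (fun n => D.D.mono (H59K.nE (fun _ => v) n) 0) Φ (x, y)) x = 0 :=
  (H39Z.final_F D ⟨hp, fun _ => hv, fun _ => hN, fun _ => hval, fun v' h => hout v' (h 0)⟩ rfl hk
    hs).1 Φ hΦ hb y x

/-! ## 4. From a joint eigenvalue to a form over `F` -/

/-- **Extraction of a joint eigenfunction** (`H44ZExt2`). `D` is the list of operators on the side of `F`,
with one more operator `D.T` (the normalised `U`) whose power `D.T ^ D.e` belongs to the family; `S` is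
the side of `E`, `TI` the trace identity for all words. If `abstract_comparison` applies to `p₀`
(`ha`, `hpos`, `hz`), there is a non-zero bounded invariant function `Ψ` which is an eigenfunction of the
operator of `K` (eigenvalue `c ≠ 0`), of `D.T` (eigenvalue `μ`, `μ ^ e = S.z p₀`), of all operators of
the family, and which has the eigenvalues `S.x p₀ l` for the common labels. -/
theorem extraction {G X : Type} [Group G] [MulAction G X] [MeasurableSpace X]
    [MeasurableSpace.CountablyGenerated X] {ν : Measure X} [IsFiniteMeasure ν] {K : X → X → ℂ}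
    {J : Type} {hK : H32Z.BK K} {hG : ∀ (g : G) x y, K (g • x) y = K x y} (S : H42S.SideC J)
    (D : H21Z.OpData J hK ν hG) (hsym : ∀ x y, K y x = conj (K x y))
    (hT : ∀ k, Commute D.T (D.Y k)) (κ : ℂ)
    (TI : ∀ L : List J, ∃ m₀ : ℕ, ∀ m ≥ m₀, S.tr L m = κ * (D.side hsym).tr L m)
    (p₀ : S.I) (ha : 0 < S.a p₀.1)
    (hpos : ∀ p : S.I, S.x p = S.x p₀ → S.z p = S.z p₀ →
      ∀ v ∈ ⨅ k, (S.Y p.1 k).maxGenEigenspace (p.2.1 k), S.s p.1 v = v)
    (hz : 1 ≤ ‖S.z p₀‖) :
    ∃ (c : ℝ) (μ : ℂ) (χ : D.N → ℂ) (Ψ : H21Z.BInv G X), c ≠ 0 ∧ Ψ ≠ 0 ∧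
      H21Z.kop hK ν hG Ψ = (c : ℂ) • Ψ ∧ D.T Ψ = μ • Ψ ∧ μ ^ D.e = S.z p₀ ∧ μ ≠ 0 ∧
      (∀ k : D.N, D.Y k Ψ = χ k • Ψ) ∧
      ∀ l, D.Y (D.j l) Ψ = (S.x p₀ l : ℂ) • Ψ :=
  H44Z.extract S D hsym hT κ TI p₀ ha hpos hz

/-- **Real eigenvalues** (`H44ZExt2`). `A` commutes with the operator of `K` and is symmetric for the
pairing (`adjoints`). If `A Ψ = μ Ψ` for some `Ψ ≠ 0` which is an eigenfunction of the operator of `K` with
eigenvalue `c ≠ 0`, then `μ` is real. (The pairing is positive definite on these eigenspaces.) -/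
theorem eigenvalue_real {G X : Type} [Group G] [MulAction G X] [MeasurableSpace X]
    [MeasurableSpace.CountablyGenerated X] {ν : Measure X} [IsFiniteMeasure ν] {K : X → X → ℂ}
    {hK : H32Z.BK K}
    {hG : ∀ (g : G) x y, K (g • x) y = K x y} {A : Module.End ℂ (H21Z.BInv G X)}
    (hA : A ∈ H21Z.Cm hK ν hG) (hadj : H21Z.IsAdj ν A A) {c : ℝ} (hc : c ≠ 0)
    {Ψ : H21Z.BInv G X} (hΨ : Ψ ≠ 0) (hk : H21Z.kop hK ν hG Ψ = (c : ℂ) • Ψ) {μ : ℂ}
    (h : A Ψ = μ • Ψ) : μ.im = 0 :=
  H44Z.eigenvalue_real hA hadj hc hΨ hk h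

/-- **The types come from the kernel** (`H44ZOut2`). An eigenfunction `Ψ` on `X(F)`, with eigenvalue
`c ≠ 0`, of the automorphic kernel of a sum of test kernels of the setup is fixed by the product of the
idempotents of the types (`mono 0 0`): all test kernels contain these idempotents. So `Ψ` has the right
level and types without a separate projection (for any `K`: `GuideOctCTarget.typed_of_eigenfunction`). -/
theorem types_from_kernel {F E : Type} [Field F] [NumberField F] [Field E] [NumberField E]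
    [Algebra F E] (C : H79S.CSetup F E) {ι : Type} [Fintype ι] (κ : ι → (Fin 3 → ℝ) → ℂ)
    (n : ι → HeightOneSpectrum (𝓞 E) →₀ ℕ) (cF : H32Z.CutOff PGL(2, F) C.mF.X)
    [IsFiniteMeasure (cF.ν C.mF.μ)]
    {hK : H32Z.BK (H32Z.CutOff.autK PGL(2, F)
      fun x y : C.mF.X => ∑ i, C.tkB (κ i) (n i) 0 x y)}
    {hG : ∀ (g : PGL(2, F)) x y,
      H32Z.CutOff.autK PGL(2, F) (fun x y : C.mF.X => ∑ i, C.tkB (κ i) (n i) 0 x y) (g • x) y =
      H32Z.CutOff.autK PGL(2, F) (fun x y : C.mF.X => ∑ i, C.tkB (κ i) (n i) 0 x y) x y}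
    (hκ : ∀ i, H56Z.IsRC (κ i)) {c : ℝ} (hc : c ≠ 0) {Ψ : H21Z.BInv PGL(2, F) C.mF.X}
    (h : H21Z.kop hK (cF.ν C.mF.μ) hG Ψ = (c : ℂ) • Ψ) :
    H21Z.gopB C.mF (C.kF.D.mono 0 0) Ψ = Ψ :=
  H44Z.eS_of_kop C κ n cF hκ hc h

/-- **Output of the comparison** (`H44ZOut2`, `H44ZOut`, `H44ZMF`). Let `Ψ ≠ 0` be a bounded invariant
function on `X(F)`, eigenfunction with eigenvalue `c ≠ 0` of the automorphic kernel of the operator `C`
(so it has the types of the setup, and the eigenvalues of symmetric operators are real), eigenfunction of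
the `T_v` (with the eigenvalue `evT a w = √(N w) a_w` if `v` splits, `w ∣ v`), of `U` at `v0` with an
eigenvalue `≠ 0`, and of the radial operators (with eigenvalue `hat k` for the matched ones, so with
eigenvalue `hat` for all by `eigenvalue_at_infinity`). Then it gives a form over `F` with real numbers
`μ_v`, `μ_v = a_w` for `v` split (`COutE`). -/
theorem form_over_F {F E : Type} [Field F] [NumberField F] [Field E] [NumberField E] [Algebra F E]
    (C : H79S.CSetup F E) {ι : Type} [Fintype ι] (κ : ι → (Fin 3 → ℝ) → ℂ)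
    (n : ι → HeightOneSpectrum (𝓞 E) →₀ ℕ) (cF : H32Z.CutOff PGL(2, F) C.mF.X)
    [IsFiniteMeasure (cF.ν C.mF.μ)]
    {hK : H32Z.BK (H32Z.CutOff.autK PGL(2, F)
      fun x y : C.mF.X => ∑ i, C.tkB (κ i) (n i) 0 x y)}
    {hG : ∀ (g : PGL(2, F)) x y,
      H32Z.CutOff.autK PGL(2, F) (fun x y : C.mF.X => ∑ i, C.tkB (κ i) (n i) 0 x y) (g • x) y =
      H32Z.CutOff.autK PGL(2, F) (fun x y : C.mF.X => ∑ i, C.tkB (κ i) (n i) 0 x y) x y}
    [MeasurableSpace.CountablyGenerated C.mF.X]
    (a : HeightOneSpectrum (𝓞 E) → ℝ) (hκ : ∀ i, H56Z.IsRC (κ i)) {c : ℝ} (hc : c ≠ 0)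
    {Ψ : H21Z.BInv PGL(2, F) C.mF.X} (hΨ : Ψ ≠ 0)
    (h : H21Z.kop hK (cF.ν C.mF.μ) hG Ψ = (c : ℂ) • Ψ)
    (hT : ∀ v ∉ C.SF, v ≠ C.v0 →
      ∃ μ : ℂ, H21Z.gopB C.mF (single v (C.kF.D.T v)) Ψ = μ • Ψ)
    (hsplit : ∀ w : HeightOneSpectrum (𝓞 E), C.Ok w →
      H21Z.gopB C.mF (single (H47.below F w) (C.kF.D.T (H47.below F w))) Ψ =
        (H79S.evT a w : ℂ) • Ψ)
    {u : ℂ} (hu : u ≠ 0) (hU : H21Z.gopB C.mF (single C.v0 (C.kF.D.U C.v0)) Ψ = u • Ψ)
    (hk : ∀ (k : (Fin 1 → ℝ) → ℝ) (hk : H56Z.IsRC (fun t => (k t : ℂ))), ∃ μ : ℂ,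
      H21Z.rkB C.mF hk Ψ = μ • Ψ)
    (h3 : ∀ (k : (Fin 3 → ℝ) → ℝ) (hk : H56Z.IsRC (fun t => (k t : ℂ))),
      H21Z.rkB C.mF (H67M.isRC_bF hk) Ψ = H9Z.hat (fun t : Fin 3 → ℝ => (k t : ℂ)) • Ψ) :
    ∃ mu : HeightOneSpectrum (𝓞 F) → ℝ,
      (∀ v ∉ C.SF, ¬ H82.NonSplit E v → ∀ w ∈ H82.above E v, mu v = a w) ∧
        H79S.COutE F (C.mF.e 0) C.SF C.v0 mu :=
  H44Z.out_of_kop C κ n cF a hκ hc hΨ h hT hsplit hu hU hk h3

end Fermat.Agent.Guide.OctCSpec
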