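import Fermat.Agent.H21Z6

/-!
# Guide, block (C) of S47: operators on bounded invariant functions step by step

Companion of `GuideOctCSpec`, sections 1 and 2 (its theorems `operators_commute`, `adjoints`,
`autK_operator`, `automorphism`, `spectral_side`, `U_eigenvalue`), and of `side_of_operator_data` in
`GuideOctCSeparation` and `operator_data` in `GuideOctCTarget`. Nothing of these files is repeated;
every theorem below is a step of their proofs. How the operator data of the two sides enter the
comparison: section 5 of `GuideOctCSeparation`.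

**Order.**
1. A kernel `K`, its eigenspaces, and operators which commute with it.
2. The commuting family on one eigenspace: blocks, scalars, the normalised operator `U`.
3. Unfolding with a second variable: the tool for all adjoints.
4. Discrete operators: bounds and adjoints.
5. Radial operators: bounds, invariance, composition, adjoints.
6. The automorphism of the space.
7. The operator of the automorphic kernel is a sum of products of these operators.
8. The auxiliary place: `W`, `P`, `U`; the commuting family and the operator data of the block.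

**Statement served.** S47 (all cited theorems are in its proof term). NOTES: [393], [449].
Library files: `H21Z1` to `H21Z6` (helper21), which use `H32Z*` (helper32: cut-offs, bounded kernels),
`H51Z*` (helper51: local kernels), `H56Z*` (helper56: radial kernels), `H59*` (helper59: models).

**Conventions.** `G` is a group which acts on `X`, `ν` a finite measure on `X`, and `K` a bounded measurable
kernel (`H32Z.BK K`) with `K(g x, y) = K(x, y)`. `BInv G X` is the space of the bounded measurable
invariant functions on `X` (functions, not classes), `kop hK ν hG` the operator of `K` on it,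
`(kop f)(x) = ∫ K(x, y) f(y) dν(y)`. `Eig hK ν c` is the space of all bounded measurable functions `f` with
`c f(x) = ∫ K(x, y) f(y) dν(y)` for ALL `x`; it is finite dimensional if `c ≠ 0` (`GuideTrace`).
`IsAdj ν A A'` means `∫ conj (A f) · g dν = ∫ conj f · A' g dν` for all `f`, `g` in `BInv G X`.
For a model `m` (`H59D.Model`) of a totally complex number field `K` (`GuideOctC`, section 1) `m.X` is the
product of `(H3)^J` and the countable discrete space `X_f = XF m.L.fam`, and `m.μ` its measure (volume times
counting measure). A cut-off `c` is a measurable function `χ ≥ 0` with `Σ_g χ(g x) = 1` for all `x`, and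
`c.ν μ` is the measure `χ μ`: integrals over `G \ X` are integrals against it (`GuideTrace`).
-/

set_option autoImplicit false

open IsDedekindDomain HeightOneSpectrum NumberField MeasureTheory
open scoped MatrixGroups ComplexConjugate ENNReal InnerProductSpace

noncomputable section

namespace Fermat.Agent.Guide.OctCSpecSteps

open Fermat.Agent.H21Z Fermat.Agent.H32Z Fermat.Agent.H59XF Fermat.Agent.H59D Fermat.Agent.H51Z
open Fermat.Agent.H5Z (chv Rk)
open Fermat.Agent.H56Z (IsRC)
open Fermat.Agent.H79S (KerData HData lpow)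

/-! ## 1. A kernel and its eigenspaces -/

section Kernel

variable {G X : Type} [Group G] [MulAction G X] [MeasurableSpace X] {ν : Measure X}
  [IsFiniteMeasure ν] {K : X → X → ℂ} {hK : BK K} (hG : ∀ (g : G) x y, K (g • x) y = K x y)

/-- **Eigenfunctions are invariant.** If `c ≠ 0` and `c f(x) = ∫ K(x, y) f(y) dν(y)` for all `x`, then
`f` is invariant, because `K` is invariant in the first variable. So `Eig hK ν c` is the eigenspace of
`kop` on `BInv` for the eigenvalue `c`; `toInv` is the inclusion. File `H21Z1`. -/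
theorem eigenspace_in_BInv {c : ℝ} (hc : c ≠ 0) :
    (∀ (f : Eig hK ν c) (g : G) (x : X), (f : X → ℂ) (g • x) = (f : X → ℂ) x) ∧
    Function.Injective (toInv hG (hK := hK) (ν := ν) hc) ∧
    (∀ f : Eig hK ν c, kop hK ν hG (toInv hG hc f) = (c : ℂ) • toInv hG hc f) ∧
    ∀ f : BInv G X, kop hK ν hG f = (c : ℂ) • f → (f : X → ℂ) ∈ Eig hK ν c :=
  ⟨eig_inv hG hc, toInv_injective hG hc, kop_toInv hG hc, fun _ h => mem_eig_of_kop hG h⟩

/-- **Restriction to an eigenspace.** `Cm hK ν hG` is the algebra of the operators on `BInv` which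
commute with `kop`. They preserve the eigenspaces, and the restriction `resAlg` to `Eig hK ν c` is a
homomorphism of algebras. File `H21Z1`. -/
theorem restriction {c : ℝ} (hc : c ≠ 0) (A B : Cm hK ν hG) (f : Eig hK ν c) :
    (∀ A' : Module.End ℂ (BInv G X),
      A' ∈ Cm hK ν hG ↔ ∀ f, kop hK ν hG (A' f) = A' (kop hK ν hG f)) ∧
    toInv hG hc (resAlg hG hc A f) = (A : Module.End ℂ (BInv G X)) (toInv hG hc f) ∧
    resAlg hG hc (A * B) = resAlg hG hc A * resAlg hG hc B :=
  ⟨fun _ => mem_Cm hG, toInv_resAlg hG hc A f, map_mul _ A B⟩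

/-- **The pairing is a scalar product on the eigenspaces.** The classes in `L²(ν)` of two eigenfunctions
have the scalar product `∫ conj f · g dν`, and an eigenfunction for `c ≠ 0` whose class is zero is zero,
because its values are integrals against `ν`. Files `H21Z1`, `H21Z2`. -/
theorem pairing_on_eigenspaces {c d : ℝ} (hc : c ≠ 0) (f : Eig hK ν c) (g : Eig hK ν d) :
    ⟪Eig.toL2 hK ν c f, Eig.toL2 hK ν d g⟫_ℂ = ∫ x, conj ((f : X → ℂ) x) * (g : X → ℂ) x ∂ν ∧
      Function.Injective (Eig.toL2 hK ν c) :=
  ⟨pair_toL2 f g, OpData.toL2_injective hK ν hc⟩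

/-- **Adjoints on an eigenspace.** Let `A`, `A'` commute with `kop` and be adjoint to each other on
`BInv`. Then their restrictions to the eigenspace for `c ≠ 0` are adjoint for the scalar product of
`L²(ν)`. Here `res` (`H21Z.res`) is the restriction of an operator to `Eig hK ν c`, `eigEquiv` identifies
`Eig hK ν c` with the eigenspace of the operator of `K` on `L²(ν)`, and `resL2` is the restriction,
transported to it. File `H21Z1`. -/
theorem adjoints_on_eigenspace {A A' : Module.End ℂ (BInv G X)} (h : IsAdj ν A A')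
    (hA : ∀ f, kop hK ν hG (A f) = A (kop hK ν hG f))
    (hA' : ∀ f, kop hK ν hG (A' f) = A' (kop hK ν hG f)) {c : ℝ} (hc : c ≠ 0)
    (u v : Module.End.eigenspace (hK.op ν : Module.End ℂ (Lp ℂ 2 ν)) (c : ℂ)) :
    ⟪resL2 hG hA hc u, v⟫_ℂ = ⟪u, resL2 hG hA' hc v⟫_ℂ ∧
      ∀ f : Eig hK ν c,
        resL2 hG hA hc (eigEquiv hK ν hc f) = eigEquiv hK ν hc (res hG hA hc f) :=
  ⟨inner_resL2 hG h hA hA' hc u v, resL2_eigEquiv hG hA hc⟩

/-- **Eigenvalues are real and bounded.** Let `A` commute with `kop` and `lam` be an eigenvalue of its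
restriction `res` to the eigenspace for `c ≠ 0`. If `A` is its own adjoint, `lam` is real. If
`sup |A f| ≤ b sup |f|` for all `f` in `BInv`, then `|lam| ≤ b` (take the eigenfunction itself; it is
bounded). No bound for the norm on `L²` is needed. File `H21Z1`. -/
theorem eigenvalues_real_and_bounded {A : Module.End ℂ (BInv G X)}
    (hA : ∀ f, kop hK ν hG (A f) = A (kop hK ν hG f)) {c : ℝ} (hc : c ≠ 0) {lam : ℂ}
    (hev : Module.End.HasEigenvalue (res hG hA hc) lam) :
    (IsAdj ν A A → lam.im = 0) ∧
    ∀ b : ℝ, (∀ (f : BInv G X) (C : ℝ), (∀ x, ‖(f : X → ℂ) x‖ ≤ C) →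
      ∀ x, ‖(A f : X → ℂ) x‖ ≤ b * C) → ‖lam‖ ≤ b :=
  ⟨fun h => im_eq_zero_of_isAdj hG h hA hc hev, fun _ hb => norm_eigenvalue_le hG hb hA hc hev⟩

/-! ## 2. The commuting family on one eigenspace

`D : OpData J hK ν hG` is the list of the operators of one side of the comparison: a commuting family
`D.Y`, an operator `D.s` which permutes it, and `D.W`, `D.P` at the auxiliary place (all relations are
in `operator_data` of `GuideOctCTarget`). On the eigenspace for `c ≠ 0` we write `D.YE hc k` and
`D.sE hc` for their restrictions. A *block* is a joint generalised eigenspace of the `D.YE hc k`. -/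

/-- **A block which is not zero gives an eigenvalue** of every member of the family (also in infinite
dimension: apply `Y_k - χ_k` as long as the vector is not killed). File `H21Z2`. -/
theorem block_gives_eigenvalue {N E : Type*} [AddCommGroup E] [Module ℂ E]
    {Y : N → Module.End ℂ E} {χ : N → ℂ} (h : ⨅ k, (Y k).maxGenEigenspace (χ k) ≠ ⊥) (k : N) :
    Module.End.HasEigenvalue (Y k) (χ k) :=
  hasEigenvalue_of_blk h k

variable {hG} {J : Type} (D : OpData J hK ν hG)

/-- **The relations hold on every eigenspace**: the operators `D.YE hc k` commute, `D.sE hc` permutes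
them, and its third power is `1`. File `H21Z2`. -/
theorem relations_on_eigenspace {c : ℝ} (hc : c ≠ 0) (k l : D.N) :
    Commute (D.YE hc k) (D.YE hc l) ∧ D.sE hc * D.YE hc k = D.YE hc (D.σ k) * D.sE hc ∧
      D.sE hc ^ 3 = 1 :=
  ⟨D.YE_comm hc k l, D.sE_comm hc k, D.sE_pow hc⟩

/-- **Words.** The product of the restrictions of the operators of a word is the restriction of their
product, which again commutes with `kop`. So the trace of a word on the eigenspace is the trace of the
restriction of one operator on `BInv`. File `H21Z2`. -/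
theorem words [MeasurableSpace.CountablyGenerated X] {c : ℝ} (hc : c ≠ 0) (L : List D.N) :
    ∃ h : (L.map D.Y).prod ∈ Cm hK ν hG,
      (L.map (D.YE hc)).prod = resAlg hG hc ⟨(L.map D.Y).prod, h⟩ :=
  ⟨D.lprod_mem L, D.lprod_YE hc L⟩

/-- **On a block, symmetric members of the family act by scalars**: a symmetric operator on a space with
scalar product has no generalised eigenvectors other than eigenvectors. (The operator `U` need not be
symmetric, and a block need not consist of eigenvectors of it.) File `H21Z2`. -/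
theorem symmetric_is_scalar {c : ℝ} (hc : c ≠ 0) {χ : D.N → ℂ} {v : Eig hK ν c}
    (hv : v ∈ ⨅ k, (D.YE hc k).maxGenEigenspace (χ k)) {k : D.N}
    (hk : IsAdj ν (D.Y k) (D.Y k)) :
    D.Y k (toInv hG hc v) = χ k • toInv hG hc v :=
  D.apply_of_blk hc hv hk

/-- **The normalised operator** `T = W (P - 1) / √q`; it commutes with `kop`, and its `e`-th power is
the member `D.Y D.u` of the family (`e = 1` over `E`, `e = 3` over `F`). File `H21Z2`. -/
theorem normalised_operator (f : BInv G X) :
    D.T f = (((Real.sqrt D.q)⁻¹ : ℝ) : ℂ) • D.W (D.P f - f) ∧ D.T ∈ Cm hK ν hG ∧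
      D.Y D.u = D.T ^ D.e :=
  ⟨D.T_apply f, D.T_mem, D.Y_u⟩

/-- **The norm identity behind the bound.** If `P` is symmetric with `P² = (q + 1) P` then
`|P v - v|² = (q - 1) Re ⟨P v - v, v⟩ + q |v|²`. For an eigenvector `v` of `U = W (P - 1)`, `U v = u v`,
one has `P v - v = u W v` and `|W v| = |v|`. As `⟨P v - v, v⟩ = conj u ⟨W v, v⟩`, and both scalar
products are real, either `u` is real, and then `|u|² ≤ (q - 1) |u| + q`, so `|u| ≤ q`; or both are zero
and `|u|² = q`. File `H8U` (helper8). -/
theorem norm_identity {V : Type*} [NormedAddCommGroup V] [InnerProductSpace ℂ V] {q : ℝ}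
    {P : V →ₗ[ℂ] V} (hP : P.IsSymmetric) (hP2 : ∀ v, P (P v) = ((q + 1 : ℝ) : ℂ) • P v) (v : V) :
    ‖P v - v‖ ^ 2 = (q - 1) * (⟪P v - v, v⟫_ℂ).re + q * ‖v‖ ^ 2 :=
  H8U.norm_sq_apply hP hP2 v

/-- **Its eigenvalues** on the eigenspaces for `c ≠ 0` have absolute value at most `√q`, and they are
real or of absolute value one (`GuideOctCSpec.U_eigenvalue` divided by `√q`). The eigenvalues of `T^e`
on the finite dimensional eigenspace are the `e`-th powers, so the same holds for `D.Y D.u` with the
bound `√q ^ e`: this is `side_of_operator_data` in `GuideOctCSeparation`. File `H21Z2`. -/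
theorem normalised_eigenvalue {c : ℝ} (hc : c ≠ 0) {mu : ℂ}
    (h : Module.End.HasEigenvalue (resAlg hG hc ⟨D.T, D.T_mem⟩) mu) :
    ‖mu‖ ≤ Real.sqrt D.q ∧ (‖mu‖ = 1 ∨ mu.im = 0) :=
  D.T_eigenvalue hc h

end Kernel

/-! ## 3. Unfolding with a second variable

`G` is countable and acts on `X` and on `D` by measure preserving maps (`μ` on `X`, `δ` on `D`). All
adjoints below are instances of the theorem `unfold_and_swap` with `D = X_f` or `D = (H3)^J`. -/

section Swap

variable {G X D : Type*} [Group G] [MulAction G X] [MeasurableSpace X] [Countable G]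
  [MeasurableConstSMul G X] {μ : Measure X} [SMulInvariantMeasure G X μ] [SFinite μ]
  [MulAction G D] [MeasurableSpace D] [MeasurableConstSMul G D] {δ : Measure D}
  [SMulInvariantMeasure G D δ] [SFinite δ]

/-- **Cut-offs on a product.** A cut-off on `X` is also one on `X × D` with the diagonal action, and its
measure is the product of `c.ν μ` and `δ`: integrals over `G \ (X × D)` are integrals over `G \ X` and
all of `D`. The diagonal action preserves the product measure. File `H21Z3`. -/
theorem cutoff_on_product (c : CutOff G X) :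
    (∀ z : X × D, (cprod c D).χ z = c.χ z.1) ∧ (cprod c D).ν (μ.prod δ) = (c.ν μ).prod δ ∧
      SMulInvariantMeasure G (X × D) (μ.prod δ) :=
  ⟨fun _ => rfl, cprod_ν c, smulInvariantMeasure_prod μ δ⟩

/-- **Unfolding and swapping.** Let `sw` be a measure preserving map of `X × D` which commutes with `G`,
and `F` an invariant function on `X × D` which is integrable over `G \ (X × D)`. Then its integral does
not change if `F` is replaced by `F ∘ sw`. (The integral over the quotient does not depend on the
cut-off.) File `H21Z3`. -/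
theorem unfold_and_swap (c : CutOff G X) [SFinite (c.ν μ)] {sw : X × D → X × D}
    (hsw : MeasurePreserving sw (μ.prod δ) (μ.prod δ))
    (hG : ∀ (g : G) (z : X × D), sw (g • z) = g • sw z) {F : X × D → ℂ}
    (hF : AEStronglyMeasurable F (μ.prod δ)) (hinv : ∀ (g : G) (z : X × D), F (g • z) = F z)
    (hi : Integrable F ((c.ν μ).prod δ)) :
    ∫ x, ∫ d, F (x, d) ∂δ ∂(c.ν μ) = ∫ x, ∫ d, F (sw (x, d)) ∂δ ∂(c.ν μ) :=
  integral_swap c hsw hG hF hinv hi

/-- **The two swaps.** On `(T × Y) × Y` exchange the two points of `Y`; on `(T × Y) × T` exchange the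
two points of `T`. Both preserve the product measure. (`T = (H3)^J`, `Y = X_f`: the first one is used
for discrete operators, the second one for radial operators.) File `H21Z3`. -/
theorem the_two_swaps {T Y : Type*} [MeasurableSpace T] [MeasurableSpace Y] (τ : Measure T)
    [SFinite τ] (γ : Measure Y) [SFinite γ] :
    MeasurePreserving (fun z : (T × Y) × Y => ((z.1.1, z.2), z.1.2))
      ((τ.prod γ).prod γ) ((τ.prod γ).prod γ) ∧
    MeasurePreserving (fun z : (T × Y) × T => ((z.2, z.1.2), z.1.1))
      ((τ.prod γ).prod τ) ((τ.prod γ).prod τ) :=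
  ⟨mp_swap_right τ γ, mp_swap_left τ γ⟩

end Swap

/-! ## 4. Discrete operators

`L : LevelFam G ι` is a family of subgroups `L.U i` of `G`, `XF L` the restricted product of the sets
`G / L.U i`. A local kernel `κ : LocKer (L.U i)` is an invariant kernel on `G / L.U i` of finite range,
a global kernel `a : GlobKer L` a family of local kernels, almost all of them the identity; `lop i κ`
and `gop a` are their operators on functions on `XF L`, and `gs a x` is the finite set of the `y` with
`a.k x y ≠ 0` (see `GuideOctCLevel`, section 1). -/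

section Discrete

variable {G : Type*} [Group G] {ι : Type*} {L : LevelFam G ι}

/-- **Bounds for the supremum norm.** Operators of local kernels are bounded for the supremum norm: by
the invariance of the kernel and the transitivity of `G` on `G / L.U i`, all rows of the kernel have the
same sum of absolute values. Splitting off one place after the other one gets the same for global
kernels; `gbd a` is such a bound. File `H21Z3`. -/
theorem discrete_bounds (i : ι) (κ : LocKer (L.U i)) (a : GlobKer L) :
    (∃ B : ℝ, 0 ≤ B ∧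
      ∀ (f : XF L → ℂ) (C : ℝ), (∀ y, ‖f y‖ ≤ C) → ∀ x, ‖lop i κ f x‖ ≤ B * C) ∧
    ∀ (f : XF L → ℂ) (C : ℝ), (∀ y, ‖f y‖ ≤ C) → ∀ x, ‖gop a f x‖ ≤ gbd a * C :=
  ⟨exists_lop_bound i κ, fun _ _ hC x => norm_gop_le a hC x⟩

/-- **Row sums.** `gbd a` also bounds the sums of the absolute values in the rows of the kernel: apply
the previous theorem to the function `y ↦ conj (a.k x y) / |a.k x y|`. This gives the integrability
which is needed for `unfold_and_swap`. File `H21Z3`. -/
theorem row_sums (a : GlobKer L) (x : XF L) :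
    ∑ y ∈ gs a x, ‖a.k x y‖ ≤ gbd a ∧ ∑' y, ‖a.k x y‖ₑ ≤ ENNReal.ofReal (gbd a) :=
  ⟨sum_norm_le a x, tsum_enorm_le a x⟩

/-- **The adjoint kernel** `gadj a` is the transposed and conjugated kernel; this operation is done
place by place. So a global kernel all of whose local kernels are hermitian is its own adjoint. File
`H21Z3`. -/
theorem adjoint_kernel (a : GlobKer L) :
    (∀ x y : XF L, (gadj a).k x y = conj (a.k y x)) ∧
    (∀ (i : ι) (x y : G ⧸ L.U i), ((gadj a).loc i).k x y = conj ((a.loc i).k y x)) ∧
    ((∀ i x y, (a.loc i).k y x = conj ((a.loc i).k x y)) → gadj a = a) :=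
  ⟨gadj_k a, gadj_loc_k a, gadj_eq_self⟩

end Discrete

section Model

variable {K : Type*} [Field K] [NumberField K] {J : Type*} [Fintype J] (m : Model K J)

/-- **Discrete operators on the model.** `gopX m a` is the operator of `a` in the second variable. It
maps measurable, invariant, bounded functions to functions with the same properties; so it induces the
operator `gopB m a` on `BInv`. It is multiplicative in `a`. File `H21Z4`. -/
theorem discrete_on_model (a b : GlobKer m.L.fam) (f : m.X → ℂ) :
    (∀ x : m.X, gopX m a f x = gop a (fun y => f (x.1, y)) x.2) ∧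
    (Measurable f → Measurable (gopX m a f)) ∧
    ((∀ (g : PGL(2, K)) x, f (g • x) = f x) →
      ∀ (g : PGL(2, K)) x, gopX m a f (g • x) = gopX m a f x) ∧
    (∀ C : ℝ, (∀ x, ‖f x‖ ≤ C) → ∀ x, ‖gopX m a f x‖ ≤ gbd a * C) ∧
    gopX m (gmul a b) f = gopX m a (gopX m b f) :=
  ⟨fun _ => rfl, measurable_gopX m a, gopX_smul m a, fun _ => norm_gopX_le m a, gopX_gmul m a b f⟩

/-- **The sum as an integral.** The operator of `a` is the integral against the counting measure of
`X_f`. With `F((x, y), y') = conj(a(y, y') f(x, y')) g(x, y)` and the first swap this gives the adjoints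
of discrete operators (`GuideOctCSpec.adjoints`). File `H21Z4`. -/
theorem sum_as_integral (a : GlobKer m.L.fam) (x : XF m.L.fam) (φ : XF m.L.fam → ℂ) :
    ∫ y, a.k x y * φ y ∂(Measure.count : Measure (XF m.L.fam)) = gop a φ x :=
  integral_count_gop m a x φ

/-- **Symmetric operators.** If `a` is its own adjoint kernel, its operator is its own adjoint, and
kernels which commute have commuting operators. File `H21Z4`. -/
theorem discrete_symmetric (c : CutOff PGL(2, K) m.X) [IsFiniteMeasure (c.ν m.μ)]
    (a b : GlobKer m.L.fam) :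
    (gadj a = a → IsAdj (c.ν m.μ) (gopB m a) (gopB m a)) ∧
      (gmul a b = gmul b a → Commute (gopB m a) (gopB m b)) :=
  ⟨isAdj_gopB_self m c, gopB_commute m⟩

/-! ## 5. Radial operators

`κ` is a radial kernel (`IsRC κ`: continuous, bounded, and `κ(t) = 0` if one of the `t_j` is large),
`chv x w` the vector of the hyperbolic cosines of the distances of the components of `x` and `w`, and
`Rk κ g (x) = ∫ κ(chv x w) g(w) dw`, an integral over `(H3)^J`. -/

/-- **Bounds.** The integrals `∫ |κ(chv x w)| dw` are bounded independently of `x`, since the integrand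
is bounded and vanishes outside a ball around `x`, and the volumes of the balls of a given radius are
bounded. So `R(κ)` is bounded for the supremum norm; `rbd hκ` is a bound. File `H21Z4`. -/
theorem radial_bounds {κ : (J → ℝ) → ℂ} (hκ : IsRC κ) :
    (∀ x : J → H3, ∫⁻ w, ‖κ (chv x w)‖ₑ ≤ ENNReal.ofReal (rbd hκ)) ∧
    ∀ (g : (J → H3) → ℂ) (C : ℝ), (∀ w, ‖g w‖ ≤ C) → ∀ x, ‖Rk κ g x‖ ≤ rbd hκ * C :=
  ⟨lintegral_le_rbd hκ, fun _ _ hC x => norm_Rk_le hκ hC x⟩

/-- **Radial operators on the model.** `rkX m κ` is the operator in the first variable. For bounded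
measurable `f` the result is measurable (it is continuous in the first variable). If `f` is invariant,
so is `rkX m κ f`, because the distances and the volume are invariant. File `H21Z4`. -/
theorem radial_on_model {κ : (J → ℝ) → ℂ} (hκ : IsRC κ) (f : m.X → ℂ) :
    (∀ x : m.X, rkX m κ f x = ∫ w, κ (chv x.1 w) * f (w, x.2)) ∧
    (Measurable f → ∀ C : ℝ, (∀ x, ‖f x‖ ≤ C) → Measurable (rkX m κ f)) ∧
    ((∀ (g : PGL(2, K)) x, f (g • x) = f x) →
      ∀ (g : PGL(2, K)) x, rkX m κ f (g • x) = rkX m κ f x) :=
  ⟨fun _ => rfl, fun hf _ hC => measurable_rkX m hκ hf hC, rkX_smul m κ⟩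

/-- **Composition is convolution.** On `BInv` the operator of `conv κ κ'` is `R(κ) R(κ')`. The
convolution of radial kernels is commutative (symmetry of `H3`), so radial operators commute. Finite
sums can be exchanged with the integral, so they commute with discrete operators. File `H21Z4`. -/
theorem radial_composition {κ κ' : (J → ℝ) → ℂ} (hκ : IsRC κ) (hκ' : IsRC κ')
    (a : GlobKer m.L.fam) {f : m.X → ℂ} (hf : Measurable f) {C : ℝ} (hC : ∀ x, ‖f x‖ ≤ C) :
    rkB m (hκ.conv hκ') = rkB m hκ * rkB m hκ' ∧
      rkX m κ (gopX m a f) = gopX m a (rkX m κ f) :=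
  ⟨rkB_conv m hκ hκ', rkX_gopX m hκ a hf hC⟩

/-- **Adjoints.** The adjoint of `R(κ)` is `R(conj κ)`: `unfold_and_swap` for
`F((x, y), w) = conj(κ(chv x w) f(w, y)) g(x, y)` and the second swap; the distance is symmetric. File
`H21Z4`. -/
theorem radial_adjoint (c : CutOff PGL(2, K) m.X) [IsFiniteMeasure (c.ν m.μ)]
    {κ : (J → ℝ) → ℂ} (hκ : IsRC κ) :
    IsAdj (c.ν m.μ) (rkB m hκ) (rkB m (isRC_conj hκ)) :=
  isAdj_rkB m c hκ

/-! ## 6. The automorphism

`a : AutData m` is an automorphism `a.s` of the field `K` with the induced permutations of the infinite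
places (`a.c`) and of the finite places (`a.σ`), compatible with the levels; `a.act` is the induced map
of `X`. -/

variable {m}

/-- **The inverse.** `a.act` is bijective; its inverse `asymm a` is measurable and transforms the action
of `g` into the action of `a.s⁻¹(g)` (`AutData.pmap a.s` is the automorphism of `PGL₂(K)` given by `a.s`).
So composition with `asymm a` maps `BInv` to itself: this is the operator `sB a`. File `H21Z5`. -/
theorem inverse_of_automorphism (a : AutData m) :
    (∀ x, a.act (asymm a x) = x) ∧ (∀ x, asymm a (a.act x) = x) ∧ Measurable (asymm a) ∧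
    (∀ (g : PGL(2, K)) (x : m.X),
      asymm a (g • x) = (AutData.pmap a.s).symm g • asymm a x) ∧
    ∀ (f : BInv PGL(2, K) m.X) (x : m.X), (sB a f : m.X → ℂ) x = (f : m.X → ℂ) (asymm a x) :=
  ⟨act_asymm a, asymm_act a, measurable_asymm a, asymm_smul a, sB_apply a⟩

/-- **The automorphism preserves the measures** of `X` and of `(H3)^J` (on `(H3)^J` it is a permutation
of the factors). File `H21Z5`. -/
theorem automorphism_preserves_integrals (a : AutData m) (F : m.X → ℂ) (F' : (J → H3) → ℂ) :
    ∫ x, F (a.act x) ∂m.μ = ∫ x, F x ∂m.μ ∧ ∫ x, F' (a.actInf x) = ∫ x, F' x :=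
  ⟨integral_act a F, integral_actInf a F'⟩

/-- **The third power.** If the third power of `a.s` is the identity (on the field, on the finite places
and on the infinite places), then so is the third power of `a.act`. File `H21Z5`. -/
theorem automorphism_order_three (a : AutData m) (hs : ∀ x, a.s (a.s (a.s x)) = x)
    (hσ : ∀ w, a.σ (a.σ (a.σ w)) = w) (hc : ∀ j, a.c (a.c (a.c j)) = j) (x : m.X) :
    a.act (a.act (a.act x)) = x :=
  act_three a hs hσ hc x

/-! ## 7. The operator of the automorphic kernel

`m.ker κ b` is the test kernel with the value `κ(chv x w) b(y, z)` at `((x, y), (w, z))`, `fks m s κ f`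
the sum of the test kernels of `κ_i` and the global kernels `f i`, `i` in `s`, and `fkB s hκ f` the
operator `Σ_i R(κ_i) (operator of f i)` on `BInv`. -/

/-- **One test kernel.** Its product with a bounded measurable function is integrable over `X`, and the
integral is `R(κ)` of the discrete operator of the function (Fubini). File `H21Z5`. -/
theorem test_kernel_integral {κ : (J → ℝ) → ℂ} (hκ : IsRC κ) (a : GlobKer m.L.fam) (x : m.X)
    {f : m.X → ℂ} (hf : Measurable f) {C : ℝ} (hC : ∀ x, ‖f x‖ ≤ C) :
    Integrable (fun y => m.ker κ a.k x y * f y) m.μ ∧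
      ∫ y, m.ker κ a.k x y * f y ∂m.μ = rkX m κ (gopX m a f) x :=
  ⟨integrable_ker_mul hκ a x hf hC, integral_ker_mul hκ a x hf hC⟩

/-- **A finite sum.** The integral over all of `X` of the sum against `φ` in `BInv` is the operator
`fkB` applied to `φ`. As `φ` is invariant, this integral is also the one of the automorphic kernel over
`G \ X`; this is the proof of `GuideOctCSpec.autK_operator`. File `H21Z5`. -/
theorem sum_of_test_kernels {I : Type*} (s : Finset I) {κ : I → (J → ℝ) → ℂ}
    (hκ : ∀ i, IsRC (κ i)) (f : I → GlobKer m.L.fam) (x : m.X) (φ : BInv PGL(2, K) m.X) :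
    ∫ y, fks m s κ f x y * (φ : m.X → ℂ) y ∂m.μ = (fkB s hκ f φ : m.X → ℂ) x ∧
      fkB (m := m) s hκ f = ∑ i ∈ s, rkB m (hκ i) * gopB m (f i) :=
  ⟨integral_fks_mul s hκ f x φ, rfl⟩

/-- **What commutes with the operator of the automorphic kernel** of the sum: the discrete operators
whose kernel commutes with all `f i`, all radial operators, and the automorphism if it leaves the sum of
the test kernels invariant. (An operator is in `Cm` if and only if it commutes with `fkB`.) File
`H21Z5`. -/
theorem commute_with_kernel {I : Type*} (s : Finset I) {κ : I → (J → ℝ) → ℂ}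
    (hκ : ∀ i, IsRC (κ i)) (f : I → GlobKer m.L.fam) (c : CutOff PGL(2, K) m.X)
    [IsFiniteMeasure (c.ν m.μ)] {hK : BK (CutOff.autK PGL(2, K) (fks m s κ f))}
    {hG : ∀ (g : PGL(2, K)) x y, CutOff.autK PGL(2, K) (fks m s κ f) (g • x) y =
      CutOff.autK PGL(2, K) (fks m s κ f) x y} :
    (∀ A, A ∈ Cm hK (c.ν m.μ) hG ↔ Commute (fkB s hκ f) A) ∧
    (∀ b : GlobKer m.L.fam, (∀ i ∈ s, gmul (f i) b = gmul b (f i)) →
      gopB m b ∈ Cm hK (c.ν m.μ) hG) ∧
    (∀ (κ' : (J → ℝ) → ℂ) (hκ' : IsRC κ'), rkB m hκ' ∈ Cm hK (c.ν m.μ) hG) ∧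
    ∀ a : AutData m, (∀ x y, fks m s κ f (a.act x) (a.act y) = fks m s κ f x y) →
      sB a ∈ Cm hK (c.ν m.μ) hG :=
  ⟨mem_Cm_iff s hκ f c, fun _ h => gopB_mem_Cm s hκ f c h, fun _ h => rkB_mem_Cm s hκ f c h,
    fun a h => sB_mem_Cm s hκ f c a h⟩

end Model

/-! ## 8. The auxiliary place, the family, the operator data

`k : KerData m S w0 T` are the kernels of block (C) for the types `T w : H76U.TD K`, `w ∈ S` (`GuideOctC`).
The level at the auxiliary place `w0` is the Iwahori subgroup. `k.D : HData m.L.fam` are the local kernels: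
`k.D.T w` is the Hecke kernel at a place `w` outside `S` and `w ≠ w0`, and `k.D.U w0` the kernel of `U`.
`KD.Wk k` and `KD.Pk k` are the kernels `W` and `P` of the Iwahori-Hecke algebra (`GuideOctCLevel`,
section 2), and `WB k`, `PB k`, `UB k` the operators of `W`, `P`, `U` on `BInv`. -/

section Auxiliary

variable {K : Type} [Field K] [NumberField K] {J : Type} [Fintype J] {m : Model K J}

/-- **The adjoint of a product**: `(A B)* = B* A*` for adjoints with respect to the pairing. File
`H21Z6`. -/
theorem adjoint_of_product {G X : Type*} [Group G] [MulAction G X] [MeasurableSpace X]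
    {ν : Measure X} {A A' B B' : Module.End ℂ (BInv G X)} (h : IsAdj ν A A')
    (h' : IsAdj ν B B') : IsAdj ν (A * B) (B' * A') :=
  h.mul h'

/-- **Operators at one place.** `lopB m w κ` is the operator on `BInv` of a local kernel at `w`. The map
is compatible with products, scalars and powers, and a hermitian local kernel has a symmetric operator.
File `H21Z6`. -/
theorem local_operators (m : Model K J) (w : HeightOneSpectrum (𝓞 K))
    (κ κ' : LocKer (m.L.fam.U w)) (z : ℂ) (n : ℕ) (c : CutOff PGL(2, K) m.X)
    [IsFiniteMeasure (c.ν m.μ)] :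
    lopB m w (LocKer.mul κ κ') = lopB m w κ * lopB m w κ' ∧
    lopB m w (lsmul z κ) = z • lopB m w κ ∧ lopB m w (lpow κ n) = lopB m w κ ^ n ∧
    ((∀ x y, κ.k y x = conj (κ.k x y)) → IsAdj (c.ν m.μ) (lopB m w κ) (lopB m w κ)) :=
  ⟨lopB_mul m w κ κ', lopB_lsmul m w z κ, lopB_lpow m w κ n, fun h => isAdj_lopB m w c h⟩

variable {S : Finset (HeightOneSpectrum (𝓞 K))} {w0 : HeightOneSpectrum (𝓞 K)}
  {T : HeightOneSpectrum (𝓞 K) → H76U.TD K} (k : KerData m S w0 T)

/-- **The Iwahori-Hecke algebra on `BInv`.** `W² = 1`, `P² = (q + 1) P`, `U = P W - W`, `q = N(w0)`. The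
operator `P' = W P W` also satisfies `P'² = (q + 1) P'`, and `U = W (P' - 1)`: this is the form in which
`U` enters the operator data. File `H21Z6`. -/
theorem iwahori_hecke_on_BInv :
    WB k * WB k = 1 ∧
    PB k * PB k = ((((Ideal.absNorm w0.asIdeal : ℕ) : ℝ) + 1 : ℝ) : ℂ) • PB k ∧
    UB k = PB k * WB k - WB k ∧
    PB' k * PB' k = ((((Ideal.absNorm w0.asIdeal : ℕ) : ℝ) + 1 : ℝ) : ℂ) • PB' k ∧
    UB k = WB k * (PB' k - 1) ∧ PB' k = WB k * PB k * WB k :=
  ⟨WB_sq k, PB_sq k, UB_eq k, PB'_sq k, UB_eq' k, rfl⟩

/-- **`W`, `P` and `P'` are symmetric**: the kernels of `W` and `P` are hermitian, because they take the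
values `0` and `1` and are symmetric. The operator `U` is a product of symmetric operators which in
general do not commute; so it need not be symmetric. File `H21Z6`. -/
theorem W_P_symmetric (c : CutOff PGL(2, K) m.X) [IsFiniteMeasure (c.ν m.μ)] :
    ((∀ x y, (KD.Wk k).k y x = conj ((KD.Wk k).k x y)) ∧
      ∀ x y, (KD.Pk k).k y x = conj ((KD.Pk k).k x y)) ∧
    IsAdj (c.ν m.μ) (WB k) (WB k) ∧ IsAdj (c.ν m.μ) (PB k) (PB k) ∧
      IsAdj (c.ν m.μ) (PB' k) (PB' k) :=
  ⟨⟨herm_Wk k, herm_Pk k⟩, isAdj_WB k c, isAdj_PB k c, isAdj_PB' k c⟩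

/-- **Which kernels commute.** The monomial `D.mono n j` (idempotents at `S`, powers `T_w^(n w)`, the
power `U^j` at `w0`) commutes with every Hecke kernel `T_w`, and if `j = 0` with every kernel at `w0`:
the monomial then has the component `1` there. So `W` and `P`, which in general do not commute with `U`,
do commute with the operator of the automorphic kernel, whose test kernels contain no `U`. File
`H21Z6`. -/
theorem kernels_commute (D : HData m.L.fam) (n : HeightOneSpectrum (𝓞 K) →₀ ℕ) (j : ℕ)
    {w : HeightOneSpectrum (𝓞 K)} (hw : w ∉ D.S) (h0 : w ≠ D.w0)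
    (κ : LocKer (m.L.fam.U D.w0)) :
    gmul (D.mono n j) (single w (D.T w)) = gmul (single w (D.T w)) (D.mono n j) ∧
      gmul (D.mono n 0) (single D.w0 κ) = gmul (single D.w0 κ) (D.mono n 0) :=
  ⟨mono_single_T_comm D n j hw h0, mono_single_w0_comm D n κ⟩

/-- **The commuting family of the block.** Its labels (`H42T.Lab D`) are the places `w` outside `S`
different from `w0`, the radial kernels, and one label for `U`; the operators `labY` are the Hecke
operators `T_w`, the radial operators `R(κ)`, and `ρ U^e`. They commute. File `H21Z6`. -/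
theorem family (D : HData m.L.fam) (e : ℕ) (ρ : ℂ) :
    (∀ w : {w // w ∉ D.S ∧ w ≠ D.w0},
      labY D e ρ (Sum.inl (Sum.inl w)) = gopB m (single w.1 (D.T w.1))) ∧
    (∀ κ : {κ : (J → ℝ) → ℂ // IsRC κ}, labY D e ρ (Sum.inl (Sum.inr κ)) = rkB m κ.2) ∧
    (∀ u, labY D e ρ (Sum.inr u) = ρ • gopB m (single D.w0 (lpow (D.U D.w0) e))) ∧
    ∀ l l', Commute (labY D e ρ l) (labY D e ρ l') :=
  ⟨fun _ => rfl, fun _ => rfl, fun _ => rfl, labY_comm D e ρ⟩

/-- **The operator data of the block.** The kernel is the automorphic kernel of the sum of the test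
kernels `κ_i ⊗ (monomial n_i)` without `U`, `j` chooses the common labels (Hecke operators and radial
kernels; the latter must be real: this is `labReal`), and `s` is an operator with `s³ = 1` which
commutes with the operator of this kernel and permutes the family by `σ`. Then all the requirements of
`operator_data` in `GuideOctCTarget` are satisfied with the family `labY`, `ρ = q^(-e/2)`, `q = N(w0)`,
and the operators `W` and `P' = W P W`. For the field `E` one takes `s = sB a` and `e = 1`, for `F` one
takes `s = 1`, `σ = 1` and `e = 3`. File `H21Z6`. -/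
theorem operator_data_of_block (c : CutOff PGL(2, K) m.X) [IsFiniteMeasure (c.ν m.μ)]
    {I : Type} (si : Finset I) {κ : I → (J → ℝ) → ℂ} (hκ : ∀ i, IsRC (κ i))
    (n : I → HeightOneSpectrum (𝓞 K) →₀ ℕ)
    {hK : BK (CutOff.autK PGL(2, K) (fks m si κ fun i => k.D.mono (n i) 0))}
    {hG : ∀ (g : PGL(2, K)) x y,
      CutOff.autK PGL(2, K) (fks m si κ fun i => k.D.mono (n i) 0) (g • x) y =
      CutOff.autK PGL(2, K) (fks m si κ fun i => k.D.mono (n i) 0) x y}
    (e : ℕ) (he : 0 < e) {Jl : Type}
    (j : Jl → {w // w ∉ k.D.S ∧ w ≠ k.D.w0} ⊕ {κ : (J → ℝ) → ℂ // IsRC κ})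
    (hj : ∀ l, labReal k.D (j l)) (σ : H42T.Lab k.D ≃ H42T.Lab k.D)
    (σ3 : ∀ l, σ (σ (σ l)) = l) (s : Module.End ℂ (BInv PGL(2, K) m.X))
    (s_mem : s ∈ Cm hK (c.ν m.μ) hG) (s3 : s ^ 3 = 1)
    (s_comm : ∀ l, s * labY k.D e (rhoU w0 e) l = labY k.D e (rhoU w0 e) (σ l) * s) :
    rhoU w0 e = (((Real.sqrt ((Ideal.absNorm w0.asIdeal : ℕ) : ℝ))⁻¹ : ℝ) : ℂ) ^ e ∧
    ∃ D : OpData Jl hK (c.ν m.μ) hG, D.q = ((Ideal.absNorm w0.asIdeal : ℕ) : ℝ) ∧ D.e = e ∧
      D.s = s ∧ D.W = WB k ∧ D.P = PB' k ∧
      ∀ l, D.Y (D.j l) = labY k.D e (rhoU w0 e) (Sum.inl (j l)) :=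
  ⟨rfl, opd k c si hκ n e he j hj σ σ3 s s_mem s3 s_comm, rfl, rfl, rfl, rfl, rfl, fun _ => rfl⟩

end Auxiliary

end Fermat.Agent.Guide.OctCSpecSteps

end
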