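import Fermat.Agent.H57CLoc
import Fermat.Agent.H59XF

/-!
# Block (C) of S47, package C18a on the model `XF`

`E`-side: `G`, places `ι`, level family `L`, automorphism data `t : Twist L`, kernel `a : GlobKer L`.
`F`-side: `G'`, places `κ`, level family `L'`, kernel `b : GlobKer L'`.
`π : ι → κ` the map of places, with finite fibres, invariant under `t.σ`.

`exists_locMatch`: local matchings over all `v : κ` give the matching of the weights
`x ↦ a.k x (d • t.act x)` on `XF L` and `y ↦ b.k y (γ • y)` on `XF L'`.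
-/

namespace Fermat.Agent.H57C

open H59XF Filter

theorem LocMatch.transport {T XE XF XE' XF' : Type*} {aE : T → XE → XE} {aF : T → XF → XF}
    {φ : XE → ℂ} {ψ : XF → ℂ} {β : XE → XF} (h : LocMatch aE aF φ ψ β)
    (eE : XE' ≃ XE) (eF : XF' ≃ XF) {aE' : T → XE' → XE'} {aF' : T → XF' → XF'}
    {φ' : XE' → ℂ} {ψ' : XF' → ℂ}
    (haE : ∀ t x, eE (aE' t x) = aE t (eE x)) (haF : ∀ t y, eF (aF' t y) = aF t (eF y))
    (hφ : ∀ x, φ' x = φ (eE x)) (hψ : ∀ y, ψ' y = ψ (eF y)) :
    LocMatch aE' aF' φ' ψ' (fun x => eF.symm (β (eE x))) := by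
  have hset : ∀ y, {x | φ' x ≠ 0 ∧ eF.symm (β (eE x)) = y}
      = eE ⁻¹' {x | φ x ≠ 0 ∧ β x = eF y} := by
    intro y
    ext x
    simp only [Set.mem_ofPred_eq, Set.mem_preimage, hφ]
    rw [Equiv.symm_apply_eq]
  refine ⟨?_, ?_, ?_⟩
  · intro t x hx
    rw [hφ] at hx
    rw [Equiv.symm_apply_eq, haE, haF, Equiv.apply_symm_apply]
    exact h.equiv t _ hx
  · intro y
    rw [hset]
    exact (h.fin _).preimage eE.injective.injOn
  · intro y
    rw [hset, hψ, ← h.sum (eF y)]
    refine finsum_mem_eq_of_bijOn eE ?_ fun x _ => hφ x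
    refine ⟨fun x hx => hx, eE.injective.injOn, fun x hx => ⟨eE.symm x, ?_, eE.apply_symm_apply x⟩⟩
    simpa using hx

variable {G : Type*} [Group G] {ι : Type*} {L : LevelFam G ι} (t : Twist L)
  {G' : Type*} [Group G'] {κ : Type*} {L' : LevelFam G' κ} (π : ι → κ)

/-- the product of the local spaces over `v` -/
abbrev Xv (L : LevelFam G ι) (π : ι → κ) (v : κ) : Type _ := (i : {i // π i = v}) → G ⧸ L.U i.1

/-- the base point over `v` -/
def bv (L : LevelFam G ι) (π : ι → κ) (v : κ) : Xv L π v := fun i => ((1 : G) : G ⧸ L.U i.1)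

/-- the automorphism on the local space over `v` -/
def actv (hπ : ∀ i, π (t.σ i) = π i) (v : κ) (x : Xv L π v) : Xv L π v := fun j =>
  Twist.ccast (L := L) (t.σ.apply_symm_apply j.1) (t.cmap (t.σ.symm j.1)
    (x ⟨t.σ.symm j.1, by rw [← hπ, t.σ.apply_symm_apply]; exact j.2⟩))

/-- the local weight over `v` -/
noncomputable def phiv (hπ : ∀ i, π (t.σ i) = π i) (a : GlobKer L) (d : G) (v : κ)
    (x : Xv L π v) : ℂ :=
  ∏ᶠ i : {i // π i = v}, (a.loc i.1).k (x i) (d • actv t π hπ v x i)

/-- the restriction of a global point to the places over `v` -/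
def resv (x : XF L) (v : κ) : Xv L π v := fun i => x i.1

theorem actv_resv (hπ : ∀ i, π (t.σ i) = π i) (x : XF L) (v : κ) :
    actv t π hπ v (resv π x v) = resv π (t.act x) v := rfl

/-- `XF L` as a restricted product over the places of `κ` -/
def eqv (L : LevelFam G ι) (π : ι → κ) (hfib : ∀ v, {i | π i = v}.Finite) :
    XF L ≃ RP (Xv L π) (bv L π) where
  toFun x := ⟨resv π x, by
    refine (x.fin.image π).subset ?_
    intro v hv
    by_contra hcon
    apply hv
    funext i
    by_contra hi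
    exact hcon ⟨i.1, hi, i.2⟩⟩
  invFun y := ⟨fun i => y.1 (π i) ⟨i, rfl⟩, by
    refine (y.2.biUnion fun v _ => hfib v).subset ?_
    intro i hi
    simp only [Set.mem_iUnion]
    refine ⟨π i, ?_, rfl⟩
    intro hcon
    apply hi
    exact congrFun hcon ⟨i, rfl⟩⟩
  left_inv x := by
    apply XF.ext
    intro i
    rfl
  right_inv y := by
    apply Subtype.ext
    funext v i
    obtain ⟨i, rfl⟩ := i
    rfl

/-- `XF L'` as a restricted product -/
def eqv' (L' : LevelFam G' κ) :
    XF L' ≃ RP (fun v => G' ⧸ L'.U v) (fun v => ((1 : G') : G' ⧸ L'.U v)) where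
  toFun x := ⟨x.val, x.fin⟩
  invFun y := ⟨y.1, y.2⟩
  left_inv x := rfl
  right_inv y := rfl

theorem finprod_fiber {M : Type*} [CommMonoid M] (f : ι → M)
    (hf : (Function.mulSupport f).Finite) :
    ∏ᶠ v : κ, ∏ᶠ i : {i // π i = v}, f i.1 = ∏ᶠ i, f i := by
  classical
  set S := hf.toFinset with hS
  have h1 : ∀ v, ∏ᶠ i : {i // π i = v}, f i.1 = ∏ i ∈ S.filter (fun i => π i = v), f i := by
    intro v
    rw [finprod_subtype_eq_finprod_cond (fun i => π i = v)]
    refine finprod_mem_eq_prod_of_inter_mulSupport_eq (s := {i | π i = v}) f ?_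
    ext i
    simp only [Set.mem_inter_iff, Set.mem_ofPred_eq, Finset.coe_filter, hS,
      Set.Finite.mem_toFinset]
    tauto
  rw [finprod_congr h1, finprod_eq_prod _ hf]
  rw [finprod_eq_prod_of_mulSupport_subset (s := S.image π)]
  · exact Finset.prod_fiberwise_of_maps_to (fun i hi => Finset.mem_image_of_mem π hi) f
  · intro v hv
    by_contra hcon
    apply hv
    refine Finset.prod_eq_one fun i hi => ?_
    rw [Finset.mem_filter] at hi
    exact absurd (by
      rw [Finset.coe_image]
      exact ⟨i, hi.1, hi.2⟩) hcon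

theorem GlobKer_k_eq (hπ : ∀ i, π (t.σ i) = π i) (a : GlobKer L) (d : G) (x : XF L) :
    a.k x (d • t.act x) = ∏ᶠ v : κ, phiv t π hπ a d v (resv π x v) := by
  have h := finprod_fiber π (fun i => (a.loc i).k (x i) ((d • t.act x) i))
    (a.mulSupport_finite x (d • t.act x))
  rw [GlobKer.k, ← h]
  rfl

/-- **C18a.** Local matchings over all places of `F`, respecting the base points outside a finite set,
give the matching of the global finite parts. -/
theorem exists_locMatch (hπ : ∀ i, π (t.σ i) = π i) (hfib : ∀ v, {i | π i = v}.Finite)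
    (a : GlobKer L) (b : GlobKer L') (d : G) (γ : G') {T : Type*} (τ : T → G) (τ' : T → G')
    (S : Set κ) (hS : S.Finite)
    (h : ∀ v, ∃ β : Xv L π v → G' ⧸ L'.U v,
      LocMatch (fun c x => fun i => τ c • x i) (fun c y => τ' c • y)
        (phiv t π hπ a d v) (fun y => (b.loc v).k y (γ • y)) β ∧
      (v ∉ S → Base (bv L π v) ((1 : G') : G' ⧸ L'.U v) (phiv t π hπ a d v)
        (fun y => (b.loc v).k y (γ • y)) β)) :
    ∃ β : XF L → XF L', LocMatch (fun c x => τ c • x) (fun c y => τ' c • y)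
      (fun x => a.k x (d • t.act x)) (fun y => b.k y (γ • y)) β := by
  choose β hβ hβ0 using h
  have h0 : ∀ᶠ v in cofinite, Base (bv L π v) ((1 : G') : G' ⧸ L'.U v) (phiv t π hπ a d v)
      (fun y => (b.loc v).k y (γ • y)) (β v) := by
    refine Set.Finite.subset hS ?_
    intro v hv
    by_contra hcon
    exact hv (hβ0 v hcon)
  have key := LocMatch.rprod (aEf := fun c x => eqv L π hfib (τ c • (eqv L π hfib).symm x))
    (aFf := fun c y => eqv' L' (τ' c • (eqv' L').symm y)) hβ h0
    (by
      intro c x v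
      funext i
      obtain ⟨i, rfl⟩ := i
      rfl)
    (by intro c y v; rfl)
  refine ⟨_, key.transport (eqv L π hfib) (eqv' L') ?_ ?_ ?_ ?_⟩
  · intro c x
    simp
  · intro c y
    simp
  · intro x
    exact GlobKer_k_eq t π hπ a d x
  · intro y
    rfl

end Fermat.Agent.H57C
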