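import Fermat.Agent.H92T2
import Fermat.Agent.H57CProd

/-!
# S47, package C-TR (helper92), part 3: transfer of local matchings

* `cmap1`, `xvEquiv`, `phiv_single`: a place `v : κ` with exactly one place `w : ι` above it.
* `LocMatch.single`: a matching on `G ⧸ L.U w` gives one on `Xv L π v` (helper57's shape).
* `LocMatch.transfer`: a matching over dense overgroups (completions) gives one over `G`, `G'`.
* `LocMatch.nonsplit`: both together.
-/

set_option autoImplicit false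

namespace Fermat.Agent.H92T

open Fermat.Agent.H59XF Fermat.Agent.H57C

section Single

variable {G : Type*} [Group G] {ι : Type*} {L : LevelFam G ι} (t : Twist L)

/-- The automorphism of the coset space at a place `w` fixed by `t.σ`. -/
def cmap1 {w : ι} (hw : t.σ w = w) (x : G ⧸ L.U w) : G ⧸ L.U w :=
  Twist.ccast (L := L) hw (t.cmap w x)

@[simp] theorem cmap1_mk {w : ι} (hw : t.σ w = w) (g : G) :
    cmap1 t hw (g : G ⧸ L.U w) = ((t.s g : G) : G ⧸ L.U w) := by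
  unfold cmap1
  rw [Twist.cmap_mk, Twist.ccast_mk]

theorem cmap1_smul {w : ι} (hw : t.σ w = w) (g : G) (x : G ⧸ L.U w) :
    cmap1 t hw (g • x) = t.s g • cmap1 t hw x := by
  unfold cmap1
  rw [Twist.cmap_smul, Twist.ccast_smul]

theorem act_single {w : ι} (hw : t.σ w = w) (x : XF L) : t.act x w = cmap1 t hw (x w) := by
  have key : ∀ (j : ι) (hj : t.σ j = w) (hj' : j = w),
      Twist.ccast (L := L) hj (t.cmap j (x j)) = cmap1 t hw (x w) := by
    intro j hj hj'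
    subst hj'
    rfl
  rw [Twist.act_apply]
  exact key _ _ (by rw [Equiv.symm_apply_eq, hw])

variable {κ : Type*} (π : ι → κ) {v : κ} {w : ι}

/-- If `w` is the only place above `v`, the local space over `v` is `G ⧸ L.U w`. -/
def xvEquiv (L : LevelFam G ι) (π : ι → κ) {v : κ} {w : ι} (hv : ∀ i, π i = v ↔ i = w) :
    Xv L π v ≃ G ⧸ L.U w where
  toFun x := x ⟨w, (hv w).2 rfl⟩
  invFun y i := Twist.ccast (L := L) ((hv i.1).1 i.2).symm y
  left_inv x := by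
    funext i
    obtain ⟨i, hi⟩ := i
    obtain rfl := (hv i).1 hi
    rfl
  right_inv y := rfl

@[simp] theorem xvEquiv_apply (hv : ∀ i, π i = v ↔ i = w) (x : Xv L π v) :
    xvEquiv L π hv x = x ⟨w, (hv w).2 rfl⟩ := rfl

@[simp] theorem xvEquiv_bv (hv : ∀ i, π i = v ↔ i = w) :
    xvEquiv L π hv (bv L π v) = ((1 : G) : G ⧸ L.U w) := rfl

theorem actv_single (hπ : ∀ i, π (t.σ i) = π i) (hv : ∀ i, π i = v ↔ i = w) (hw : t.σ w = w)
    (x : Xv L π v) : actv t π hπ v x ⟨w, (hv w).2 rfl⟩ = cmap1 t hw (xvEquiv L π hv x) := by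
  have key : ∀ (j : ι) (hj : t.σ j = w) (hj' : j = w) (hj'' : π j = v),
      Twist.ccast (L := L) hj (t.cmap j (x ⟨j, hj''⟩)) = cmap1 t hw (xvEquiv L π hv x) := by
    intro j hj hj' hj''
    subst hj'
    rfl
  exact key _ _ (by rw [Equiv.symm_apply_eq, hw]) _

theorem phiv_single (hπ : ∀ i, π (t.σ i) = π i) (hv : ∀ i, π i = v ↔ i = w) (hw : t.σ w = w)
    (a : GlobKer L) (d : G) (x : Xv L π v) :
    phiv t π hπ a d v x =
      (a.loc w).k (xvEquiv L π hv x) (d • cmap1 t hw (xvEquiv L π hv x)) := by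
  unfold phiv
  let : Unique {i // π i = v} :=
    { default := ⟨w, (hv w).2 rfl⟩
      uniq := fun i => Subtype.ext ((hv i.1).1 i.2) }
  refine (finprod_unique _).trans ?_
  show (a.loc w).k (x ⟨w, (hv w).2 rfl⟩) (d • actv t π hπ v x ⟨w, (hv w).2 rfl⟩) = _
  rw [actv_single t π hπ hv hw]
  rfl

/-- A local matching on `G ⧸ L.U w` gives a local matching in helper57's shape. -/
theorem locMatch_single (hπ : ∀ i, π (t.σ i) = π i) (hv : ∀ i, π i = v ↔ i = w) (hw : t.σ w = w)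
    (a : GlobKer L) (d : G) {T Z : Type*} (τ : T → G) {aZ : T → Z → Z} {ζ : Z → ℂ}
    {β : G ⧸ L.U w → Z}
    (h : LocMatch (fun c x => τ c • x) aZ (fun x => (a.loc w).k x (d • cmap1 t hw x)) ζ β) :
    LocMatch (fun c x => fun i => τ c • x i) aZ (phiv t π hπ a d v) ζ
      (fun x => β (xvEquiv L π hv x)) := by
  refine h.transport (xvEquiv L π hv) (Equiv.refl Z) (fun c x => rfl) (fun c y => rfl)
    (fun x => phiv_single t π hπ hv hw a d x) (fun y => rfl)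

theorem base_single (hπ : ∀ i, π (t.σ i) = π i) (hv : ∀ i, π i = v ↔ i = w) (hw : t.σ w = w)
    (a : GlobKer L) (d : G) {Z : Type*} {bZ : Z} {ζ : Z → ℂ} {β : G ⧸ L.U w → Z}
    (h : Base ((1 : G) : G ⧸ L.U w) bZ (fun x => (a.loc w).k x (d • cmap1 t hw x)) ζ β) :
    Base (bv L π v) bZ (phiv t π hπ a d v) ζ (fun x => β (xvEquiv L π hv x)) := by
  refine ⟨?_, h.one', ?_⟩
  · rw [phiv_single t π hπ hv hw, xvEquiv_bv]
    exact h.one
  · intro x hx
    rw [phiv_single t π hπ hv hw] at hx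
    rw [h.iff _ hx, ← xvEquiv_bv (L := L) π hv, (xvEquiv L π hv).apply_eq_iff_eq]

end Single

section Transfer

variable {G G' Gh Gh' : Type*} [Group G] [Group G'] [Group Gh] [Group Gh']
  {j : G →* Gh} {j' : G' →* Gh'}

theorem base_transport {XE XF XE' XF' : Type*} {bE : XE} {bF : XF}
    {φ : XE → ℂ} {ψ : XF → ℂ} {β : XE → XF} (h : Base bE bF φ ψ β)
    (eE : XE' ≃ XE) (eF : XF' ≃ XF) {bE' : XE'} {bF' : XF'}
    {φ' : XE' → ℂ} {ψ' : XF' → ℂ} (hE : eE bE' = bE) (hF : eF bF' = bF)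
    (hφ : ∀ x, φ' x = φ (eE x)) (hψ : ∀ y, ψ' y = ψ (eF y)) :
    Base bE' bF' φ' ψ' (fun x => eF.symm (β (eE x))) := by
  refine ⟨?_, ?_, ?_⟩
  · rw [hφ, hE, h.one]
  · rw [hψ, hF, h.one']
  · intro x hx
    rw [hφ] at hx
    rw [Equiv.symm_apply_eq, hF, h.iff _ hx, ← hE, eE.apply_eq_iff_eq]

/-- **Transfer.**  A matching over the big groups gives a matching over the dense subgroups. -/
theorem locMatch_transfer {Uh : Subgroup Gh} (hA : Approx j Uh) {Hh : Subgroup Gh'}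
    (hA' : Approx j' Hh) {T Th : Type*} (i : T → Th) {τ : T → G} {τ' : T → G'}
    {τh : Th → Gh} {τh' : Th → Gh'} (h1 : ∀ c, τh (i c) = j (τ c))
    (h2 : ∀ c, τh' (i c) = j' (τ' c))
    {φh : Gh ⧸ Uh → ℂ} {ψh : Gh' ⧸ Hh → ℂ} {βh : Gh ⧸ Uh → Gh' ⧸ Hh}
    (h : LocMatch (fun c x => τh c • x) (fun c y => τh' c • y) φh ψh βh)
    {φ : G ⧸ Uh.comap j → ℂ} {ψ : G' ⧸ Hh.comap j' → ℂ}
    (hφ : ∀ g : G, φ (g : G ⧸ Uh.comap j) = φh (j g : Gh ⧸ Uh))
    (hψ : ∀ g : G', ψ (g : G' ⧸ Hh.comap j') = ψh (j' g : Gh' ⧸ Hh)) :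
    LocMatch (fun c x => τ c • x) (fun c y => τ' c • y) φ ψ
      (fun x => (cosetEquiv hA').symm (βh (cosetEquiv hA x))) := by
  have h' : LocMatch (fun c x => τh (i c) • x) (fun c y => τh' (i c) • y) φh ψh βh :=
    ⟨fun c x hx => h.equiv (i c) x hx, h.fin, h.sum⟩
  refine h'.transport (cosetEquiv hA) (cosetEquiv hA') ?_ ?_ ?_ ?_
  · intro c x
    show cosetEquiv hA (τ c • x) = τh (i c) • cosetEquiv hA x
    rw [h1, cosetEquiv_smul]
  · intro c y
    show cosetEquiv hA' (τ' c • y) = τh' (i c) • cosetEquiv hA' y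
    rw [h2, cosetEquiv_smul]
  · intro x
    induction x using QuotientGroup.induction_on with
    | H x => rw [cosetEquiv_mk]; exact hφ x
  · intro y
    induction y using QuotientGroup.induction_on with
    | H y => rw [cosetEquiv_mk]; exact hψ y

theorem base_transfer {Uh : Subgroup Gh} (hA : Approx j Uh) {Hh : Subgroup Gh'}
    (hA' : Approx j' Hh)
    {φh : Gh ⧸ Uh → ℂ} {ψh : Gh' ⧸ Hh → ℂ} {βh : Gh ⧸ Uh → Gh' ⧸ Hh}
    (h : Base ((1 : Gh) : Gh ⧸ Uh) ((1 : Gh') : Gh' ⧸ Hh) φh ψh βh)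
    {φ : G ⧸ Uh.comap j → ℂ} {ψ : G' ⧸ Hh.comap j' → ℂ}
    (hφ : ∀ g : G, φ (g : G ⧸ Uh.comap j) = φh (j g : Gh ⧸ Uh))
    (hψ : ∀ g : G', ψ (g : G' ⧸ Hh.comap j') = ψh (j' g : Gh' ⧸ Hh)) :
    Base ((1 : G) : G ⧸ Uh.comap j) ((1 : G') : G' ⧸ Hh.comap j') φ ψ
      (fun x => (cosetEquiv hA').symm (βh (cosetEquiv hA x))) := by
  refine base_transport h (cosetEquiv hA) (cosetEquiv hA') ?_ ?_ ?_ ?_
  · rw [cosetEquiv_mk, map_one]
  · rw [cosetEquiv_mk, map_one]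
  · intro x
    induction x using QuotientGroup.induction_on with
    | H x => rw [cosetEquiv_mk]; exact hφ x
  · intro y
    induction y using QuotientGroup.induction_on with
    | H y => rw [cosetEquiv_mk]; exact hψ y

end Transfer

section Main

variable {G G' Gh Gh' : Type*} [Group G] [Group G'] [Group Gh] [Group Gh']
  {ι κ : Type*} {L : LevelFam G ι} {L' : LevelFam G' κ} (t : Twist L) (π : ι → κ)
  {j : G →* Gh} {j' : G' →* Gh'} {v : κ} {w : ι}

/-- **C-TR, abstract form.**  `w` the only place above `v`.  `fh : Gh → ℂ` the function in the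
completion, `LocKer` at `w` is `k (g, h) = fh (j (g⁻¹ h))`.  A matching
`x ↦ fh (x⁻¹ * dh * sh x)` on `Gh ⧸ Uh` to `ζh` on `Gh' ⧸ Hh` gives a matching of
`phiv` to `ζ` on `G' ⧸ H`, where `H = Hh.comap j'`. -/
theorem locMatch_nonsplit (hπ : ∀ i, π (t.σ i) = π i) (hv : ∀ i, π i = v ↔ i = w)
    (hw : t.σ w = w) (a : GlobKer L) (d : G)
    {Uh : Subgroup Gh} (hU : L.U w = Uh.comap j) (hA : Approx j Uh)
    {H : Subgroup G'} {Hh : Subgroup Gh'} (hH : H = Hh.comap j') (hA' : Approx j' Hh)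
    {T Th : Type*} (i : T → Th) {τ : T → G} {τ' : T → G'}
    {τh : Th → Gh} {τh' : Th → Gh'} (h1 : ∀ c, τh (i c) = j (τ c))
    (h2 : ∀ c, τh' (i c) = j' (τ' c))
    {φh : Gh ⧸ Uh → ℂ} {ζh : Gh' ⧸ Hh → ℂ} {βh : Gh ⧸ Uh → Gh' ⧸ Hh}
    (h : LocMatch (fun c x => τh c • x) (fun c y => τh' c • y) φh ζh βh)
    (hφ : ∀ g : G, (a.loc w).k (g : G ⧸ L.U w) ((d * t.s g : G) : G ⧸ L.U w) =
      φh (j g : Gh ⧸ Uh))
    {ζ : G' ⧸ H → ℂ} (hζ : ∀ g : G', ζ (g : G' ⧸ H) = ζh (j' g : Gh' ⧸ Hh)) :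
    ∃ β : Xv L π v → G' ⧸ H,
      LocMatch (fun c x => fun i => τ c • x i) (fun c y => τ' c • y)
        (phiv t π hπ a d v) ζ β := by
  subst hH
  have key : ∃ β : G ⧸ L.U w → G' ⧸ Hh.comap j',
      LocMatch (fun c x => τ c • x) (fun c y => τ' c • y)
        (fun x => (a.loc w).k x (d • cmap1 t hw x)) ζ β := by
    have h3 : ∀ (U : Subgroup G) (hU : U = Uh.comap j) (φ : G ⧸ U → ℂ),
        (∀ g : G, φ (g : G ⧸ U) = φh (j g : Gh ⧸ Uh)) →
        ∃ β : G ⧸ U → G' ⧸ Hh.comap j',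
          LocMatch (fun c x => τ c • x) (fun c y => τ' c • y) φ ζ β := by
      intro U hU φ hφ
      subst hU
      exact ⟨_, locMatch_transfer hA hA' i h1 h2 h hφ hζ⟩
    refine h3 _ hU _ ?_
    intro g
    rw [← hφ g, cmap1_mk]
    rfl
  obtain ⟨β, hβ⟩ := key
  exact ⟨_, locMatch_single t π hπ hv hw a d τ hβ⟩

end Main

end Fermat.Agent.H92T
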