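import Fermat.Agent.H57CGeom
import Fermat.Agent.H92T3

/-!
# Block (C) of S47: the dictionary of local matchings

* `NormPair s d γ`: `γ` elliptic regular, `N d = γ`, `d` commutes with the centraliser of `γ`;
* `GoodAt`: the places at which everything is unramified for `(a, b, d, γ)`; almost all places;
* `LocPair`: the two local matchings (from `E` and from `F`) at one place to a third level;
* `PM`, `PM0`: local matchings at one place for all norm pairs; `PM0` also respects the base points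
  when the place is good for `(d, γ)`;
* `geom'`: GEOM from `PM` at finitely many places and `PM0` at all others.
-/

set_option linter.unusedSectionVars false

noncomputable section

namespace Fermat.Agent.H57C

open MeasureTheory Filter H59D H59XF IsDedekindDomain NumberField Matrix
open scoped ENNReal MatrixGroups
open H20.S47 (incP sP nP EllReg)

variable {F E : Type*} [Field F] [NumberField F] [Field E] [NumberField E] [Algebra F E]

/-- A norm pair. -/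
structure NormPair (s : E ≃ₐ[F] E) (d : PGL(2, E)) (γ : PGL(2, F)) : Prop where
  reg : EllReg γ
  norm : nP s d = incP E γ
  comm : ∀ y : PGL(2, F), y * γ = γ * y → incP E y * d = d * incP E y

variable {LE : LevelFam PGL(2, E) (HeightOneSpectrum (𝓞 E))}
  {LF : LevelFam PGL(2, F) (HeightOneSpectrum (𝓞 F))}

/-- `v` is good for `(a, b, d, γ)`. -/
structure GoodAt (π : HeightOneSpectrum (𝓞 E) → HeightOneSpectrum (𝓞 F)) (a : GlobKer LE)
    (b : GlobKer LF) (d : PGL(2, E)) (γ : PGL(2, F)) (v : HeightOneSpectrum (𝓞 F)) : Prop where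
  a_one : ∀ w, π w = v → a.loc w = LocKer.one
  b_one : b.loc v = LocKer.one
  d_mem : ∀ w, π w = v → d ∈ LE.U w
  γ_mem : γ ∈ LF.U v
  disc : ∃ g ∈ GLw v, ProjGenLinGroup.mk g = γ ∧
    v.valuation F ((g : Matrix (Fin 2) (Fin 2) F).trace * (g : Matrix (Fin 2) (Fin 2) F).trace -
      4 * (g : Matrix (Fin 2) (Fin 2) F).det) = 1

theorem finite_not_mem_GLw (g : GL (Fin 2) F) :
    {v : HeightOneSpectrum (𝓞 F) | g ∉ GLw v}.Finite := by
  have h1 : (⋃ i : Fin 2, ⋃ j : Fin 2, HeightOneSpectrum.Support (𝓞 F) (g i j)).Finite :=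
    Set.finite_iUnion fun i => Set.finite_iUnion fun j => HeightOneSpectrum.Support.finite _ _
  have h2 := HeightOneSpectrum.Support.finite (𝓞 F) (g : Matrix (Fin 2) (Fin 2) F).det
  have h3 := HeightOneSpectrum.Support.finite (𝓞 F) ((g : Matrix (Fin 2) (Fin 2) F).det)⁻¹
  refine ((h1.union h2).union h3).subset ?_
  intro w hw
  by_contra hcon
  apply hw
  refine ⟨fun i j => ?_, ?_⟩
  · by_contra hij
    exact hcon (Or.inl (Or.inl (Set.mem_iUnion.2 ⟨i, Set.mem_iUnion.2 ⟨j, not_le.1 hij⟩⟩)))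
  · have hdet : (g : Matrix (Fin 2) (Fin 2) F).det ≠ 0 := g.det.ne_zero
    have h4 : w.valuation F (g : Matrix (Fin 2) (Fin 2) F).det ≤ 1 := by
      by_contra h; exact hcon (Or.inl (Or.inr (not_le.1 h)))
    have h5 : w.valuation F ((g : Matrix (Fin 2) (Fin 2) F).det)⁻¹ ≤ 1 := by
      by_contra h; exact hcon (Or.inr (not_le.1 h))
    refine le_antisymm h4 ?_
    rw [map_inv₀] at h5
    exact (inv_le_one₀ (zero_lt_iff.2 ((Valuation.ne_zero_iff _).2 hdet))).1 h5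

theorem finite_val_ne_one {x : F} (hx : x ≠ 0) :
    {v : HeightOneSpectrum (𝓞 F) | v.valuation F x ≠ 1}.Finite := by
  have h2 := HeightOneSpectrum.Support.finite (𝓞 F) x
  have h3 := HeightOneSpectrum.Support.finite (𝓞 F) x⁻¹
  refine (h2.union h3).subset ?_
  intro w hw
  by_contra hcon
  apply hw
  have h4 : w.valuation F x ≤ 1 := by
    by_contra h; exact hcon (Or.inl (not_le.1 h))
  have h5 : w.valuation F x⁻¹ ≤ 1 := by
    by_contra h; exact hcon (Or.inr (not_le.1 h))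
  refine le_antisymm h4 ?_
  rw [map_inv₀] at h5
  exact (inv_le_one₀ (zero_lt_iff.2 ((Valuation.ne_zero_iff _).2 hx))).1 h5

/-- the discriminant of an elliptic element is not zero -/
theorem disc_ne_zero {γ : PGL(2, F)} (h : EllReg γ) {g : GL (Fin 2) F}
    (hg : ProjGenLinGroup.mk g = γ) :
    (g : Matrix (Fin 2) (Fin 2) F).trace * (g : Matrix (Fin 2) (Fin 2) F).trace -
      4 * (g : Matrix (Fin 2) (Fin 2) F).det ≠ 0 := by
  intro h0
  obtain ⟨h1, -⟩ := h.lift hg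
  apply h1 ((g : Matrix (Fin 2) (Fin 2) F).trace / 2)
  field_simp
  linear_combination (-1 : F) * h0

/-- Almost all places are good. -/
theorem goodAt_finite (π : HeightOneSpectrum (𝓞 E) → HeightOneSpectrum (𝓞 F)) (a : GlobKer LE)
    (b : GlobKer LF) (d : PGL(2, E)) {γ : PGL(2, F)} (hγ : EllReg γ) :
    {v | ¬ GoodAt π a b d γ v}.Finite := by
  obtain ⟨g, hg⟩ := ProjGenLinGroup.mk_surjective γ
  have h1 := a.fin.image π
  have h2 := b.fin
  have h3 := (LE.adm d).image π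
  have h4 := LF.adm γ
  have h5 := finite_not_mem_GLw g
  have h6 := finite_val_ne_one (disc_ne_zero hγ hg)
  refine (((((h1.union h2).union h3).union h4).union h5).union h6).subset ?_
  intro v hv
  by_contra hcon
  simp only [Set.mem_union, not_or] at hcon
  obtain ⟨⟨⟨⟨⟨c1, c2⟩, c3⟩, c4⟩, c5⟩, c6⟩ := hcon
  apply hv
  refine ⟨?_, ?_, ?_, ?_, g, ?_, hg, ?_⟩
  · intro w hw
    by_contra h
    exact c1 ⟨w, h, hw⟩
  · by_contra h
    exact c2 h
  · intro w hw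
    by_contra h
    exact c3 ⟨w, h, hw⟩
  · by_contra h
    exact c4 h
  · by_contra h
    exact c5 h
  · by_contra h
    exact c6 h

/-- The two local matchings at `v` to the coset space of `H`, weight `ψ`, for the pair `(d, γ)`;
they respect the base points if `G` holds. -/
structure LocPair (t : Twist LE) (π : HeightOneSpectrum (𝓞 E) → HeightOneSpectrum (𝓞 F))
    (hπ : ∀ w, π (t.σ w) = π w) (a : GlobKer LE) (b : GlobKer LF) (v : HeightOneSpectrum (𝓞 F))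
    (d : PGL(2, E)) (γ : PGL(2, F)) (H : Subgroup PGL(2, F)) (ψ : PGL(2, F) ⧸ H → ℂ)
    (G : Prop) : Prop where
  E : ∃ β : Xv LE π v → PGL(2, F) ⧸ H,
    LocMatch (fun (c : Subgroup.centralizer ({γ} : Set PGL(2, F))) x =>
        fun i => incP E (c : PGL(2, F)) • x i)
      (fun c y => (c : PGL(2, F)) • y) (phiv t π hπ a d v) ψ β ∧
    (G → Base (bv LE π v) ((1 : PGL(2, F)) : PGL(2, F) ⧸ H) (phiv t π hπ a d v) ψ β)
  F : ∃ β : PGL(2, F) ⧸ LF.U v → PGL(2, F) ⧸ H,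
    LocMatch (fun (c : Subgroup.centralizer ({γ} : Set PGL(2, F))) x => (c : PGL(2, F)) • x)
      (fun c y => (c : PGL(2, F)) • y) (fun y => (b.loc v).k y (γ • y)) ψ β ∧
    (G → Base ((1 : PGL(2, F)) : PGL(2, F) ⧸ LF.U v) ((1 : PGL(2, F)) : PGL(2, F) ⧸ H)
      (fun y => (b.loc v).k y (γ • y)) ψ β)

/-- Matching at the place `v` (no condition on base points): for the finitely many bad places. -/
def PM (s : E ≃ₐ[F] E) (t : Twist LE) (π : HeightOneSpectrum (𝓞 E) → HeightOneSpectrum (𝓞 F))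
    (hπ : ∀ w, π (t.σ w) = π w) (a : GlobKer LE) (b : GlobKer LF) (H : Subgroup PGL(2, F))
    (v : HeightOneSpectrum (𝓞 F)) : Prop :=
  ∀ γ : PGL(2, F), EllReg γ → ∃ ψ : PGL(2, F) ⧸ H → ℂ, ∀ d, NormPair s d γ →
    LocPair t π hπ a b v d γ H ψ False

/-- Matching at the place `v`, with base points where `v` is good for `(a, b, d, γ)`. -/
def PM0 (s : E ≃ₐ[F] E) (t : Twist LE) (π : HeightOneSpectrum (𝓞 E) → HeightOneSpectrum (𝓞 F))
    (hπ : ∀ w, π (t.σ w) = π w) (a : GlobKer LE) (b : GlobKer LF) (H : Subgroup PGL(2, F))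
    (v : HeightOneSpectrum (𝓞 F)) : Prop :=
  ∀ γ : PGL(2, F), EllReg γ → ∃ ψ : PGL(2, F) ⧸ H → ℂ, ∀ d, NormPair s d γ →
    LocPair t π hπ a b v d γ H ψ (GoodAt π a b d γ v)

theorem PM0.pm {s : E ≃ₐ[F] E} {t : Twist LE}
    {π : HeightOneSpectrum (𝓞 E) → HeightOneSpectrum (𝓞 F)}
    {hπ : ∀ w, π (t.σ w) = π w} {a : GlobKer LE} {b : GlobKer LF} {H : Subgroup PGL(2, F)}
    {v : HeightOneSpectrum (𝓞 F)} (h : PM0 s t π hπ a b H v) : PM s t π hπ a b H v := by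
  intro γ hγ
  obtain ⟨ψ, hψ⟩ := h γ hγ
  refine ⟨ψ, fun d hd => ⟨?_, ?_⟩⟩
  · obtain ⟨β, hβ, -⟩ := (hψ d hd).E
    exact ⟨β, hβ, fun h => h.elim⟩
  · obtain ⟨β, hβ, -⟩ := (hψ d hd).F
    exact ⟨β, hβ, fun h => h.elim⟩

/-- **Direct matching**: the third level is the level of `F`; only the `E` side is needed. -/
theorem PM0.of_direct {s : E ≃ₐ[F] E} {t : Twist LE}
    {π : HeightOneSpectrum (𝓞 E) → HeightOneSpectrum (𝓞 F)}
    {hπ : ∀ w, π (t.σ w) = π w} {a : GlobKer LE} {b : GlobKer LF} {H : Subgroup PGL(2, F)}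
    {v : HeightOneSpectrum (𝓞 F)} (hH : H = LF.U v)
    (hE : ∀ d γ, NormPair s d γ → ∃ β : Xv LE π v → PGL(2, F) ⧸ LF.U v,
      LocMatch (fun (c : Subgroup.centralizer ({γ} : Set PGL(2, F))) x =>
        fun i => incP E (c : PGL(2, F)) • x i)
        (fun c y => (c : PGL(2, F)) • y) (phiv t π hπ a d v)
        (fun y => (b.loc v).k y (γ • y)) β ∧
      (GoodAt π a b d γ v → Base (bv LE π v) ((1 : PGL(2, F)) : PGL(2, F) ⧸ LF.U v)
        (phiv t π hπ a d v) (fun y => (b.loc v).k y (γ • y)) β)) : PM0 s t π hπ a b H v := by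
  subst hH
  intro γ hγ
  refine ⟨fun y => (b.loc v).k y (γ • y), fun d hd => ⟨hE d γ hd, id, LocMatch.refl _ _, ?_⟩⟩
  intro hG
  refine Base.refl _ _ ?_
  show (b.loc v).k ((1 : PGL(2, F)) : PGL(2, F) ⧸ LF.U v)
    ((γ * 1 : PGL(2, F)) : PGL(2, F) ⧸ LF.U v) = 1
  rw [hG.b_one, LocKer.one_k, if_pos]
  rw [QuotientGroup.eq]
  simpa using hG.γ_mem

/-- **Direct matching**, without base points. -/
theorem PM.of_direct {s : E ≃ₐ[F] E} {t : Twist LE}
    {π : HeightOneSpectrum (𝓞 E) → HeightOneSpectrum (𝓞 F)}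
    {hπ : ∀ w, π (t.σ w) = π w} {a : GlobKer LE} {b : GlobKer LF} {H : Subgroup PGL(2, F)}
    {v : HeightOneSpectrum (𝓞 F)} (hH : H = LF.U v)
    (hE : ∀ d γ, NormPair s d γ → ∃ β : Xv LE π v → PGL(2, F) ⧸ LF.U v,
      LocMatch (fun (c : Subgroup.centralizer ({γ} : Set PGL(2, F))) x =>
        fun i => incP E (c : PGL(2, F)) • x i)
        (fun c y => (c : PGL(2, F)) • y) (phiv t π hπ a d v)
        (fun y => (b.loc v).k y (γ • y)) β) : PM s t π hπ a b H v := by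
  subst hH
  intro γ hγ
  refine ⟨fun y => (b.loc v).k y (γ • y), fun d hd => ⟨?_, id, LocMatch.refl _ _, fun h => h.elim⟩⟩
  obtain ⟨β, hβ⟩ := hE d γ hd
  exact ⟨β, hβ, fun h => h.elim⟩

variable {JE JF : Type*} [Fintype JE] [Fintype JF]

/-- The global matchings from the local ones. -/
theorem exists_match (s : E ≃ₐ[F] E) (mE : Model E JE) (aE : AutData mE) (mF mT : Model F JF)
    (π : HeightOneSpectrum (𝓞 E) → HeightOneSpectrum (𝓞 F)) (hπ : ∀ w, π (aE.σ w) = π w)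
    (a : GlobKer mE.L.fam) (b : GlobKer mF.L.fam) {S : Set (HeightOneSpectrum (𝓞 F))}
    (hS : S.Finite)
    (h1 : ∀ v ∈ S, PM s aE.twist π hπ a b (mT.L.fam.U v) v)
    (h2 : ∀ v ∉ S, PM0 s aE.twist π hπ a b (mT.L.fam.U v) v) :
    ∃ ψ : PGL(2, F) → ∀ v, PGL(2, F) ⧸ mT.L.fam.U v → ℂ, ∀ d γ, NormPair s d γ →
      MatchE mE aE mT π hπ a (ψ γ) d γ ∧ MatchF mF mT b (ψ γ) γ := by
  classical
  have key : ∀ (γ : PGL(2, F)) (v : HeightOneSpectrum (𝓞 F)),
      ∃ ψ : PGL(2, F) ⧸ mT.L.fam.U v → ℂ, ∀ d, NormPair s d γ →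
        LocPair aE.twist π hπ a b v d γ (mT.L.fam.U v) ψ (v ∉ S ∧ GoodAt π a b d γ v) := by
    intro γ v
    by_cases hγ : EllReg γ
    · by_cases hv : v ∈ S
      · obtain ⟨ψ, hψ⟩ := h1 v hv γ hγ
        refine ⟨ψ, fun d hd => ⟨?_, ?_⟩⟩
        · obtain ⟨β, hβ, -⟩ := (hψ d hd).E
          exact ⟨β, hβ, fun h => (h.1 hv).elim⟩
        · obtain ⟨β, hβ, -⟩ := (hψ d hd).F
          exact ⟨β, hβ, fun h => (h.1 hv).elim⟩
      · obtain ⟨ψ, hψ⟩ := h2 v hv γ hγ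
        refine ⟨ψ, fun d hd => ⟨?_, ?_⟩⟩
        · obtain ⟨β, hβ, h⟩ := (hψ d hd).E
          exact ⟨β, hβ, fun h' => h h'.2⟩
        · obtain ⟨β, hβ, h⟩ := (hψ d hd).F
          exact ⟨β, hβ, fun h' => h h'.2⟩
    · exact ⟨0, fun d hd => (hγ hd.reg).elim⟩
  choose ψ hψ using key
  refine ⟨ψ, fun d γ hd => ⟨?_, ?_⟩⟩
  · refine ⟨S ∪ {v | ¬ GoodAt π a b d γ v}, hS.union (goodAt_finite π a b d hd.reg), fun v => ?_⟩
    obtain ⟨β, hβ, h⟩ := (hψ γ v d hd).E
    refine ⟨β, hβ, fun hv => h ?_⟩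
    simp only [Set.mem_union, not_or, Set.mem_ofPred_eq, not_not] at hv
    exact hv
  · refine ⟨S ∪ {v | ¬ GoodAt π a b d γ v}, hS.union (goodAt_finite π a b d hd.reg), fun v => ?_⟩
    obtain ⟨β, hβ, h⟩ := (hψ γ v d hd).F
    refine ⟨β, hβ, fun hv => h ?_⟩
    simp only [Set.mem_union, not_or, Set.mem_ofPred_eq, not_not] at hv
    exact hv

/-- **GEOM**, with the local matchings in the form `PM`, `PM0`. -/
theorem geom' (s : E ≃ₐ[F] E) (h3 : ∀ x, s (s (s x)) = x) (hs : s ≠ AlgEquiv.refl)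
    (hfix : ∀ x, s x = x → x ∈ Set.range (algebraMap F E))
    (mE : Model E JE) (aE : AutData mE) (hsE : ∀ x, aE.s x = s x)
    (mF mT : Model F JF) (he : mT.e = mF.e)
    (π : HeightOneSpectrum (𝓞 E) → HeightOneSpectrum (𝓞 F)) (hπ : ∀ w, π (aE.σ w) = π w)
    (hfib : ∀ v, {w | π w = v}.Finite)
    (κE : (JE → ℝ) → ℂ) (κF : (JF → ℝ) → ℂ) (hκE : Measurable κE) (hκF : Measurable κF)
    (a : GlobKer mE.L.fam) (b : GlobKer mF.L.fam)
    (p : (JE → H3) → (JF → H3))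
    (hp : ∀ (τ : PGL(2, F)) x, p (mE.actInf (incP E τ) x) = mF.actInf τ (p x))
    (hinf : ∀ d γ, nP s d = incP E γ → InfMatch volume volume p
      (fun x => κE (Model.chJ x (mE.actInf d (aE.actInf x))))
      (fun x => κF (Model.chJ x (mF.actInf γ x))))
    {χE : mE.X → ℝ≥0∞} (hχE : H94U.IsCutoff PGL(2, E) χE)
    {χF : mF.X → ℝ≥0∞} (hχF : H94U.IsCutoff PGL(2, F) χF)
    {χT : mT.X → ℝ≥0∞} (hχT : H94U.IsCutoff PGL(2, F) χT)
    (hE1 : ∀ (d : PGL(2, E)) x, mE.ker κE a.k x (d • aE.act x) ≠ 0 → EllReg (nP s d))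
    (hE2 : ∑' d : PGL(2, E), ∫⁻ x, ‖mE.ker κE a.k x (d • aE.act x)‖ₑ ∂(mE.μ.withDensity χE) ≠ ⊤)
    (hF1 : ∀ (γ : PGL(2, F)) y, mF.ker κF b.k y (γ • y) ≠ 0 →
      EllReg γ ∧ ∃ d, nP s d = incP E γ)
    (hF2 : ∑' γ : PGL(2, F), ∫⁻ y, ‖mF.ker κF b.k y (γ • y)‖ₑ ∂(mF.μ.withDensity χF) ≠ ⊤)
    {S : Set (HeightOneSpectrum (𝓞 F))} (hS : S.Finite)
    (hPM : ∀ v ∈ S, PM s aE.twist π hπ a b (mT.L.fam.U v) v)
    (hPM0 : ∀ v ∉ S, PM0 s aE.twist π hπ a b (mT.L.fam.U v) v) :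
    Integrable (fun x => ∑' d : PGL(2, E), mE.ker κE a.k x (d • aE.act x))
      (mE.μ.withDensity χE) ∧
    Integrable (fun y => ∑' γ : PGL(2, F), mF.ker κF b.k y (γ • y)) (mF.μ.withDensity χF) ∧
    ∫ x, ∑' d : PGL(2, E), mE.ker κE a.k x (d • aE.act x) ∂(mE.μ.withDensity χE) =
      ∫ y, ∑' γ : PGL(2, F), mF.ker κF b.k y (γ • y) ∂(mF.μ.withDensity χF) := by
  obtain ⟨ψ, hψ⟩ := exists_match s mE aE mF mT π hπ a b hS hPM hPM0
  exact geom s h3 hs hfix mE aE hsE mF mT he π hπ hfib κE κF hκE hκF a b ψ p hp hinf hχE hχF hχT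
    hE1 hE2 hF1 hF2 (fun d γ hγ hN hc _ => hψ d γ ⟨hγ, hN, hc⟩)

end Fermat.Agent.H57C
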