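import Fermat.Agent.H59Def
import Fermat.Agent.H7ZApprox

/-!
# S47, block (C), package C15: a split place, density of the small field

`s` an automorphism of order three of `K`, `σ` the induced permutation of the finite places, `w` a
place with `σ w ≠ w`.  Then the fixed field `F` of `s` is dense in `K` for the `w`-adic topology
(weak approximation and the trace `z + s z + s² z`; ramification indices are not needed), and
`PGL₂(F)` is dense in `PGL₂(K)`.
-/

set_option autoImplicit false

open IsDedekindDomain HeightOneSpectrum WithZero Matrix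
open scoped MatrixGroups

namespace Fermat.Agent.H84Z

open Fermat.Agent.H59D

section den

variable {R : Type*} [CommRing R] [IsDedekindDomain R] {K : Type*} [Field K] [Algebra R K]
  [IsFractionRing R K] {F : Type*} [Field F] (j : F →+* K) (s : K ≃+* K)
  (σ : Equiv.Perm (HeightOneSpectrum R))
  (val : ∀ (w : HeightOneSpectrum R) (x : K), (σ w).valuation K (s x) = w.valuation K x)
  (hs3 : ∀ x, s (s (s x)) = x)

include val hs3 in
/-- The permutation of the places has order three. -/
theorem sigma3 (w : HeightOneSpectrum R) : σ (σ (σ w)) = w := by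
  apply HeightOneSpectrum.eq_of_valuation_isEquiv_valuation (K := K)
  have h : (σ (σ (σ w))).valuation K = w.valuation K := by
    ext x
    conv_lhs => rw [← hs3 x]
    rw [val, val, val]
  rw [h]

include val hs3 in
/-- The fixed field is dense at a place which is not fixed. -/
theorem dense_split (hfix : ∀ x, s x = x → ∃ y, j y = x) (w : HeightOneSpectrum R)
    (hw : σ w ≠ w) (x : K) (n : ℕ) : ∃ y : F, w.valuation K (x - j y) ≤ exp (-(n : ℤ)) := by
  classical
  have h3 := sigma3 s σ val hs3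
  have hw2 : σ (σ w) ≠ w := by
    intro h
    have h' : σ (σ (σ w)) = σ w := by rw [h]
    exact hw (by rw [← h', h3])
  obtain ⟨z, hz, -⟩ := H7.Z.exists_approx (K := K) {w, σ w, σ (σ w)}
    (fun u => if u = w then x else 0) (fun _ => n)
  have hz0 := hz w (by simp)
  have hz1 := hz (σ w) (by simp)
  have hz2 := hz (σ (σ w)) (by simp)
  simp only [if_true, if_neg hw, if_neg hw2, sub_zero] at hz0 hz1 hz2
  obtain ⟨y, hy⟩ := hfix (z + s z + s (s z)) (by rw [map_add, map_add, hs3]; ring)
  refine ⟨y, ?_⟩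
  rw [hy]
  have e1 : w.valuation K (s z) ≤ exp (-(n : ℤ)) := by
    have := val (σ (σ w)) z
    rw [h3] at this
    rw [this]
    exact hz2
  have e2 : w.valuation K (s (s z)) ≤ exp (-(n : ℤ)) := by
    have h1 := val (σ (σ w)) (s z)
    rw [h3] at h1
    rw [h1, val]
    exact hz1
  have e0 : x - (z + s z + s (s z)) = -(z - x) - s z - s (s z) := by ring
  rw [e0]
  refine Valuation.map_sub_le _ (Valuation.map_sub_le _ ?_ e1) e2
  rw [Valuation.map_neg]
  exact hz0

/-- Approximation of matrices: if `F` is dense in `K` at `w` then `PGL₂(F)` is dense in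
`PGL₂(K)`. -/
theorem dense_PGL (w : HeightOneSpectrum R)
    (hden : ∀ (x : K) (n : ℕ), ∃ y : F, w.valuation K (x - j y) ≤ exp (-(n : ℤ)))
    (g : PGL(2, K)) (n : ℕ) :
    ∃ f : PGL(2, F), g⁻¹ * ProjGenLinGroup.map j f ∈ Gam (K := K) w n := by
  classical
  induction g using ProjGenLinGroup.induction_on with
  | mk A =>
  choose e he using fun (i k : Fin 2) =>
    H7.Z.exists_le_exp w (((A⁻¹ : GL (Fin 2) K) : Matrix (Fin 2) (Fin 2) K) i k)
  set N : ℕ := n + 1 + (e 0 0 + e 0 1 + e 1 0 + e 1 1) with hN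
  have hNe : ∀ i k, exp (e i k : ℤ) * exp (-(N : ℤ)) ≤ exp (-((n + 1 : ℕ) : ℤ)) := by
    intro i k
    rw [← exp_add, exp_le_exp]
    have : e i k ≤ e 0 0 + e 0 1 + e 1 0 + e 1 1 := by
      fin_cases i <;> fin_cases k <;> simp <;> omega
    push_cast [hN]
    have h2 : ((e i k : ℕ) : ℤ) ≤ ((e 0 0 + e 0 1 + e 1 0 + e 1 1 : ℕ) : ℤ) := by
      exact_mod_cast this
    push_cast at h2
    linarith
  choose b hb using fun (i k : Fin 2) => hden ((A : Matrix (Fin 2) (Fin 2) K) i k) N
  let B : Matrix (Fin 2) (Fin 2) F := Matrix.of b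
  let M : Matrix (Fin 2) (Fin 2) K :=
    ((A⁻¹ : GL (Fin 2) K) : Matrix (Fin 2) (Fin 2) K) * B.map j
  have hM1 : M - 1 = ((A⁻¹ : GL (Fin 2) K) : Matrix (Fin 2) (Fin 2) K) *
      (B.map j - (A : Matrix (Fin 2) (Fin 2) K)) := by
    rw [mul_sub, ← Units.val_mul, inv_mul_cancel, Units.val_one]
  have hM2 : ∀ i k, w.valuation K (M i k - (1 : Matrix (Fin 2) (Fin 2) K) i k)
      ≤ exp (-((n + 1 : ℕ) : ℤ)) := by
    intro i k
    have h := congrFun (congrFun hM1 i) k
    rw [Matrix.sub_apply, Matrix.mul_apply] at h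
    rw [h]
    refine Valuation.map_sum_le _ fun l _ => ?_
    rw [map_mul, Matrix.sub_apply, Valuation.map_sub_swap]
    exact (mul_le_mul' (he i l) (hb l k)).trans (hNe i l)
  have hlt : exp (-((n + 1 : ℕ) : ℤ)) < (1 : ℤᵐ⁰) := by
    rw [← exp_zero, exp_lt_exp]
    push_cast
    omega
  have hle : exp (-((n + 1 : ℕ) : ℤ)) ≤ exp (-(n : ℤ)) := by
    rw [exp_le_exp]
    push_cast
    omega
  have hdet1 : w.valuation K M.det = 1 := by
    have e1 : M.det = 1 + ((M 0 0 - 1) + (M 1 1 - 1) + (M 0 0 - 1) * (M 1 1 - 1)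
        - (M 0 1) * (M 1 0)) := by
      rw [Matrix.det_fin_two]; ring
    have h00 := hM2 0 0
    have h11 := hM2 1 1
    have h01 := hM2 0 1
    have h10 := hM2 1 0
    simp only [Matrix.one_apply_eq, ne_eq, Fin.isValue, zero_ne_one, one_ne_zero,
      not_false_eq_true, Matrix.one_apply_ne, sub_zero] at h00 h11 h01 h10
    have e2 : w.valuation K ((M 0 0 - 1) + (M 1 1 - 1) + (M 0 0 - 1) * (M 1 1 - 1)
        - (M 0 1) * (M 1 0)) < 1 := by
      refine Valuation.map_sub_lt _ (Valuation.map_add_lt _ (Valuation.map_add_lt _ ?_ ?_) ?_) ?_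
      · exact h00.trans_lt hlt
      · exact h11.trans_lt hlt
      · rw [map_mul]
        exact (mul_le_mul' h00 (h11.trans hlt.le)).trans_lt (by rwa [mul_one])
      · rw [map_mul]
        exact (mul_le_mul' h01 (h10.trans hlt.le)).trans_lt (by rwa [mul_one])
    rw [e1, Valuation.map_add_eq_of_lt_left _ (by rwa [map_one])]
    exact map_one _
  have hdetB : B.det ≠ 0 := by
    intro h0
    have : M.det = 0 := by
      show (((A⁻¹ : GL (Fin 2) K) : Matrix (Fin 2) (Fin 2) K) * B.map j).det = 0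
      have h1 : (B.map j).det = j B.det := (RingHom.map_det j B).symm
      rw [Matrix.det_mul, h1, h0, map_zero, mul_zero]
    rw [this, map_zero] at hdet1
    exact zero_ne_one hdet1
  let Bu : GL (Fin 2) F := Matrix.GeneralLinearGroup.mkOfDetNeZero B hdetB
  refine ⟨ProjGenLinGroup.mk Bu, ?_⟩
  refine ⟨A⁻¹ * Matrix.GeneralLinearGroup.map j Bu, ?_, ?_⟩
  · have hval : ((A⁻¹ * Matrix.GeneralLinearGroup.map j Bu : GL (Fin 2) K) :
        Matrix (Fin 2) (Fin 2) K) = M := by
      rw [Units.val_mul]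
      rfl
    refine ⟨⟨fun i k => ?_, ?_⟩, fun i k => ?_⟩
    · rw [hval]
      have e3 : M i k = (M i k - (1 : Matrix (Fin 2) (Fin 2) K) i k)
          + (1 : Matrix (Fin 2) (Fin 2) K) i k := by ring
      rw [e3]
      refine Valuation.map_add_le _ ((hM2 i k).trans hlt.le) ?_
      rw [Matrix.one_apply]
      split_ifs <;> simp
    · rw [hval]; exact hdet1
    · rw [hval]; exact (hM2 i k).trans hle
  · rfl

include val hs3 in
/-- **Density at a split place.** -/
theorem dense_split_PGL (hfix : ∀ x, s x = x → ∃ y, j y = x) (w : HeightOneSpectrum R)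
    (hw : σ w ≠ w) {U : Subgroup PGL(2, K)} (hU : ∃ n : ℕ, Gam w n ≤ U) (g : PGL(2, K)) :
    ∃ f : PGL(2, F), g⁻¹ * ProjGenLinGroup.map j f ∈ U := by
  obtain ⟨n, hn⟩ := hU
  obtain ⟨f, hf⟩ := dense_PGL j w (dense_split j s σ val hs3 hfix w hw) g n
  exact ⟨f, hn hf⟩

end den

end Fermat.Agent.H84Z
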