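import Fermat.Agent.H84ZDen

/-!
# S47, block (C), package C15: a split place, comparison of the levels

`K / F` an extension of fraction fields of Dedekind domains `B / A`, `w` a place of `K` over `v` such
that `F` is dense in `K` for the `w`-adic topology.  Then `w = v` on `F`, and the maximal compact
and congruence subgroups of `PGL₂(K)` at `w` meet `PGL₂(F)` in those at `v`.
-/

set_option autoImplicit false

open IsDedekindDomain HeightOneSpectrum WithZero Matrix
open scoped MatrixGroups

namespace Fermat.Agent.H84Z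

open Fermat.Agent.H59D

theorem mul_scalar_eq {K : Type*} [Field K] (g : Matrix (Fin 2) (Fin 2) K) (u : K) :
    g * Matrix.scalar (Fin 2) u = u • g := by
  ext i k
  simp [Matrix.scalar_apply, Matrix.mul_diagonal, mul_comm]

theorem mem_U0_iff {B K : Type*} [CommRing B] [IsDedekindDomain B] [Field K] [Algebra B K]
    [IsFractionRing B K] (w : HeightOneSpectrum B) (g : GL (Fin 2) K) :
    ProjGenLinGroup.mk g ∈ U0 w ↔ ∃ u : Kˣ, (∀ i k, w.valuation K (g i k * u) ≤ 1) ∧
      w.valuation K ((g : Matrix (Fin 2) (Fin 2) K).det * (u : K) ^ 2) = 1 := by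
  constructor
  · rintro ⟨M, ⟨h1, h2⟩, h3⟩
    rw [ProjGenLinGroup.mk_eq_mk_iff] at h3
    obtain ⟨u, hu⟩ := h3
    have hM : g * GeneralLinearGroup.scalar (Fin 2) u⁻¹ = M := by
      rw [← hu, mul_assoc, ← map_mul, mul_inv_cancel, map_one, mul_one]
    have hM' : (M : Matrix (Fin 2) (Fin 2) K) = ((u⁻¹ : Kˣ) : K) • (g : Matrix (Fin 2) (Fin 2) K) := by
      rw [← hM, Units.val_mul, GeneralLinearGroup.coe_scalar, mul_scalar_eq]
    refine ⟨u⁻¹, fun i k => ?_, ?_⟩
    · have h4 := h1 i k
      rw [hM', Matrix.smul_apply, smul_eq_mul, mul_comm] at h4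
      exact h4
    · rw [hM', Matrix.det_smul, Fintype.card_fin, mul_comm] at h2
      exact h2
  · rintro ⟨u, h1, h2⟩
    have hM' : ((g * GeneralLinearGroup.scalar (Fin 2) u : GL (Fin 2) K) :
        Matrix (Fin 2) (Fin 2) K) = (u : K) • (g : Matrix (Fin 2) (Fin 2) K) := by
      rw [Units.val_mul, GeneralLinearGroup.coe_scalar, mul_scalar_eq]
    refine ⟨g * GeneralLinearGroup.scalar (Fin 2) u, ⟨fun i k => ?_, ?_⟩, ?_⟩
    · rw [hM', Matrix.smul_apply, smul_eq_mul, mul_comm]
      exact h1 i k
    · rw [hM', Matrix.det_smul, Fintype.card_fin, mul_comm]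
      exact h2
    · rw [map_mul, ProjGenLinGroup.mk_scalar, mul_one]

section val

variable {A F K B : Type*} [CommRing A] [IsDedekindDomain A] [CommRing B] [IsDedekindDomain B]
  [Algebra A B] [Module.IsTorsionFree A B] [Field F] [Field K] [Algebra F K] [Algebra A F]
  [IsFractionRing A F] [Algebra A K] [IsScalarTower A F K] [Algebra B K] [IsFractionRing B K]
  [IsScalarTower A B K] (v : HeightOneSpectrum A) (w : HeightOneSpectrum B)
  [w.asIdeal.LiesOver v.asIdeal]

/-- `F` is dense in `K` at `w`. -/
def Dense (F : Type*) {K B : Type*} [CommRing B] [IsDedekindDomain B] [Field F] [Field K]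
    [Algebra F K] [Algebra B K] [IsFractionRing B K] (w : HeightOneSpectrum B) : Prop :=
  ∀ (x : K) (n : ℕ), ∃ y : F, w.valuation K (x - algebraMap F K y) ≤ exp (-(n : ℤ))

include v in
/-- At a dense place there is no ramification: the valuations agree. -/
theorem val_eq (hd : Dense F (K := K) w) (x : F) :
    w.valuation K (algebraMap F K x) = v.valuation F x := by
  have he := valuation_liesOver K v w (K := F)
  set e := v.asIdeal.ramificationIdx' w.asIdeal with hedef
  suffices h1 : e = 1 by rw [← he, h1, pow_one]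
  obtain ⟨p, hp⟩ := w.valuation_exists_uniformizer K
  obtain ⟨y, hy⟩ := hd p 2
  have hy1 : w.valuation K (algebraMap F K y) = exp (-1 : ℤ) := by
    have e1 : algebraMap F K y = p + -(p - algebraMap F K y) := by ring
    rw [e1, Valuation.map_add_eq_of_lt_left, hp]
    rw [Valuation.map_neg, hp]
    refine hy.trans_lt ?_
    rw [exp_lt_exp]
    norm_num
  rw [← he y] at hy1
  have hy0 : v.valuation F y ≠ 0 := by
    intro h0
    by_cases he0 : e = 0
    · rw [he0, pow_zero] at hy1
      exact absurd hy1 (by rw [← exp_zero, exp_inj]; norm_num)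
    · rw [h0, zero_pow he0] at hy1
      exact exp_ne_zero hy1.symm
  obtain ⟨k, hk⟩ : ∃ k : ℤ, v.valuation F y = exp k := ⟨_, (exp_log hy0).symm⟩
  rw [hk, ← WithZero.exp_nsmul, exp_inj, nsmul_eq_mul] at hy1
  have h2 : (e : ℤ) ∣ -1 := ⟨k, hy1.symm⟩
  have h3 : (e : ℤ) ∣ 1 := (dvd_neg.1 h2)
  have h4 : e ∣ 1 := by exact_mod_cast h3
  exact Nat.dvd_one.1 h4

omit [Algebra A B] [Module.IsTorsionFree A B] [Algebra F K] [Algebra A K] [IsScalarTower A F K]
  [IsScalarTower A B K] [w.asIdeal.LiesOver v.asIdeal] in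
/-- Any value of `w` on `K` is attained on `F`. -/
theorem exists_val_eq (u : Kˣ) :
    ∃ u' : Fˣ, v.valuation F (u' : F) = w.valuation K (u : K) := by
  obtain ⟨y, hy⟩ := v.valuation_surjective F (w.valuation K (u : K))
  have hy0 : y ≠ 0 := by
    rintro rfl
    rw [map_zero] at hy
    exact (Valuation.ne_zero_iff _).2 u.ne_zero hy.symm
  exact ⟨Units.mk0 y hy0, hy⟩

include v in
/-- The maximal compact subgroup at a dense place. -/
theorem comap_U0 (hd : Dense F (K := K) w) (g : PGL(2, F)) :
    g ∈ U0 v ↔ ProjGenLinGroup.map (algebraMap F K) g ∈ U0 w := by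
  induction g using ProjGenLinGroup.induction_on with
  | mk g =>
  have hval := val_eq v w hd
  have hmap : ProjGenLinGroup.map (algebraMap F K) (ProjGenLinGroup.mk g)
      = ProjGenLinGroup.mk (GeneralLinearGroup.map (algebraMap F K) g) := rfl
  rw [hmap, mem_U0_iff v g, mem_U0_iff w]
  have hent : ∀ i k, (GeneralLinearGroup.map (algebraMap F K) g) i k = algebraMap F K (g i k) :=
    fun i k => rfl
  have hdet : ((GeneralLinearGroup.map (algebraMap F K) g : GL (Fin 2) K) :
      Matrix (Fin 2) (Fin 2) K).det = algebraMap F K (g : Matrix (Fin 2) (Fin 2) F).det :=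
    (RingHom.map_det (algebraMap F K) (g : Matrix (Fin 2) (Fin 2) F)).symm
  constructor
  · rintro ⟨u, h1, h2⟩
    refine ⟨Units.map (algebraMap F K : F →* K) u, fun i k => ?_, ?_⟩
    · rw [hent]
      show w.valuation K (algebraMap F K (g i k) * algebraMap F K (u : F)) ≤ 1
      rw [← map_mul, hval]
      exact h1 i k
    · rw [hdet]
      show w.valuation K (algebraMap F K _ * (algebraMap F K (u : F)) ^ 2) = 1
      rw [← map_pow, ← map_mul, hval]
      exact h2
  · rintro ⟨u, h1, h2⟩
    obtain ⟨u', hu'⟩ := exists_val_eq (F := F) v w u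
    refine ⟨u', fun i k => ?_, ?_⟩
    · have h3 := h1 i k
      rw [hent, map_mul, hval] at h3
      rw [map_mul, hu']
      exact h3
    · rw [hdet, map_mul, map_pow, hval] at h2
      rw [map_mul, map_pow, hu']
      exact h2

include v in
/-- The principal congruence subgroups at a dense place, easy inclusion. -/
theorem Gam_le_comap (hd : Dense F (K := K) w) (n : ℕ) (g : PGL(2, F)) (hg : g ∈ Gam v n) :
    ProjGenLinGroup.map (algebraMap F K) g ∈ Gam (K := K) w n := by
  have hval := val_eq v w hd
  obtain ⟨M, ⟨⟨h1, h2⟩, h3⟩, rfl⟩ := hg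
  refine ⟨GeneralLinearGroup.map (algebraMap F K) M, ⟨⟨fun i k => ?_, ?_⟩, fun i k => ?_⟩, rfl⟩
  · show w.valuation K (algebraMap F K (M i k)) ≤ 1
    rw [hval]; exact h1 i k
  · have : ((GeneralLinearGroup.map (algebraMap F K) M : GL (Fin 2) K) :
        Matrix (Fin 2) (Fin 2) K).det = algebraMap F K (M : Matrix (Fin 2) (Fin 2) F).det :=
      (RingHom.map_det (algebraMap F K) (M : Matrix (Fin 2) (Fin 2) F)).symm
    rw [this, hval]; exact h2
  · have : ((GeneralLinearGroup.map (algebraMap F K) M : GL (Fin 2) K) :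
        Matrix (Fin 2) (Fin 2) K) i k - (1 : Matrix (Fin 2) (Fin 2) K) i k
        = algebraMap F K ((M : Matrix (Fin 2) (Fin 2) F) i k -
          (1 : Matrix (Fin 2) (Fin 2) F) i k) := by
      rw [map_sub]
      congr 1
      rw [Matrix.one_apply, Matrix.one_apply]
      split_ifs <;> simp
    rw [this, hval]
    exact h3 i k

include v in
/-- Openness of the level of `F` at a dense place. -/
theorem isOpen_comap (hd : Dense F (K := K) w) {U : Subgroup PGL(2, K)}
    (hU : ∃ n : ℕ, Gam w n ≤ U) {V : Subgroup PGL(2, F)}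
    (hV : ∀ g, g ∈ V ↔ ProjGenLinGroup.map (algebraMap F K) g ∈ U) :
    ∃ n : ℕ, Gam v n ≤ V := by
  obtain ⟨n, hn⟩ := hU
  exact ⟨n, fun g hg => (hV g).2 (hn (Gam_le_comap v w hd n g hg))⟩

include v in
/-- Boundedness of the level of `F` at a dense place. -/
theorem bdd_comap (hd : Dense F (K := K) w) {U : Subgroup PGL(2, K)}
    (hU : ∃ c : PGL(2, K), ∀ g ∈ U, c⁻¹ * g * c ∈ U0 w) {V : Subgroup PGL(2, F)}
    (hV : ∀ g, g ∈ V ↔ ProjGenLinGroup.map (algebraMap F K) g ∈ U) :
    ∃ c : PGL(2, F), ∀ g ∈ V, c⁻¹ * g * c ∈ U0 v := by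
  obtain ⟨c, hc⟩ := hU
  obtain ⟨f, hf⟩ := dense_PGL (algebraMap F K) w hd c 0
  refine ⟨f, fun g hg => ?_⟩
  rw [comap_U0 v w hd, map_mul, map_mul, map_inv]
  set x := ProjGenLinGroup.map (algebraMap F K) f with hx
  have h1 : c⁻¹ * x ∈ U0 w := Gam_le w 0 hf
  have h2 : x⁻¹ * ProjGenLinGroup.map (algebraMap F K) g * x
      = (c⁻¹ * x)⁻¹ * (c⁻¹ * ProjGenLinGroup.map (algebraMap F K) g * c) * (c⁻¹ * x) := by
    group
  rw [h2]
  exact mul_mem (mul_mem (inv_mem h1) (hc _ ((hV g).1 hg))) h1

include v in
/-- Conditions on the valuations of the entries up to scalars descend (used for the Hecke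
correspondences). -/
theorem exists_scalar_iff (hd : Dense F (K := K) w)
    (Q : (Fin 2 → Fin 2 → ℤᵐ⁰) → ℤᵐ⁰ → Prop) (g : GL (Fin 2) F) :
    (∃ u : Kˣ, Q (fun i k => w.valuation K (algebraMap F K (g i k) * u))
        (w.valuation K (algebraMap F K (g : Matrix (Fin 2) (Fin 2) F).det * (u : K) ^ 2))) ↔
      ∃ u : Fˣ, Q (fun i k => v.valuation F (g i k * u))
        (v.valuation F ((g : Matrix (Fin 2) (Fin 2) F).det * (u : F) ^ 2)) := by
  have hval := val_eq v w hd
  constructor
  · rintro ⟨u, hQ⟩
    obtain ⟨u', hu'⟩ := exists_val_eq (F := F) v w u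
    refine ⟨u', ?_⟩
    have e1 : (fun i k => v.valuation F (g i k * (u' : F)))
        = fun i k => w.valuation K (algebraMap F K (g i k) * u) := by
      funext i k
      rw [map_mul, map_mul, hval, hu']
    have e2 : v.valuation F ((g : Matrix (Fin 2) (Fin 2) F).det * (u' : F) ^ 2)
        = w.valuation K (algebraMap F K (g : Matrix (Fin 2) (Fin 2) F).det * (u : K) ^ 2) := by
      rw [map_mul, map_mul, map_pow, map_pow, hval, hu']
    rw [e1, e2]
    exact hQ
  · rintro ⟨u, hQ⟩
    refine ⟨Units.map (algebraMap F K : F →* K) u, ?_⟩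
    have e1 : (fun i k => w.valuation K (algebraMap F K (g i k) *
          ((Units.map (algebraMap F K : F →* K) u : Kˣ) : K)))
        = fun i k => v.valuation F (g i k * (u : F)) := by
      funext i k
      show w.valuation K (algebraMap F K (g i k) * algebraMap F K (u : F)) = _
      rw [← map_mul, hval]
    have e2 : w.valuation K (algebraMap F K (g : Matrix (Fin 2) (Fin 2) F).det *
          ((Units.map (algebraMap F K : F →* K) u : Kˣ) : K) ^ 2)
        = v.valuation F ((g : Matrix (Fin 2) (Fin 2) F).det * (u : F) ^ 2) := by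
      show w.valuation K (algebraMap F K _ * (algebraMap F K (u : F)) ^ 2) = _
      rw [← map_pow, ← map_mul, hval]
    rw [e1, e2]
    exact hQ

omit [CommRing A] [IsDedekindDomain A] [Algebra A B] [Module.IsTorsionFree A B] [Algebra A F]
  [IsFractionRing A F] [Algebra A K] [IsScalarTower A F K] [IsScalarTower A B K]
  [w.asIdeal.LiesOver v.asIdeal] in
/-- The image in `PGL₂` of an open subgroup of `GL₂(K)` meets `PGL₂(F)` in the image of its
intersection with `GL₂(F)`. -/
theorem comap_map_mk (hd : Dense F (K := K) w) {D : Subgroup (GL (Fin 2) K)} {n : ℕ}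
    (hD : GLcong w n ≤ D) :
    (D.map ProjGenLinGroup.mk).comap (ProjGenLinGroup.map (n := Fin 2) (algebraMap F K))
      = (D.comap (GeneralLinearGroup.map (algebraMap F K))).map ProjGenLinGroup.mk := by
  ext g
  induction g using ProjGenLinGroup.induction_on with
  | mk g =>
  constructor
  · rintro ⟨M, hM, h3⟩
    have h3' : ProjGenLinGroup.mk M
        = ProjGenLinGroup.mk (GeneralLinearGroup.map (algebraMap F K) g) := h3
    rw [ProjGenLinGroup.mk_eq_mk_iff] at h3'
    obtain ⟨u, hu⟩ := h3'
    -- approximate `u⁻¹` by `y ∈ F`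
    obtain ⟨e, he⟩ := H7.Z.exists_le_exp w (u : K)
    obtain ⟨y, hy⟩ := hd ((u⁻¹ : Kˣ) : K) (n + 1 + e)
    have hq : w.valuation K ((u : K) * (algebraMap F K y) - 1)
        ≤ exp (-((n + 1 : ℕ) : ℤ)) := by
      have e1 : (u : K) * (algebraMap F K y) - 1
          = -((u : K) * (((u⁻¹ : Kˣ) : K) - algebraMap F K y)) := by
        rw [mul_sub, Units.mul_inv]; ring
      rw [e1, Valuation.map_neg, map_mul]
      refine (mul_le_mul' he hy).trans ?_
      rw [← WithZero.exp_add, exp_le_exp]
      push_cast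
      linarith
    have hlt : exp (-((n + 1 : ℕ) : ℤ)) < (1 : ℤᵐ⁰) := by
      rw [← exp_zero, exp_lt_exp]
      push_cast
      omega
    have hle : exp (-((n + 1 : ℕ) : ℤ)) ≤ exp (-(n : ℤ)) := by
      rw [exp_le_exp]
      push_cast
      omega
    have hv1 : w.valuation K ((u : K) * (algebraMap F K y)) = 1 := by
      have e1 : (u : K) * (algebraMap F K y) = 1 + ((u : K) * (algebraMap F K y) - 1) := by ring
      rw [e1, Valuation.map_add_eq_of_lt_left, map_one]
      rw [map_one]
      exact hq.trans_lt hlt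
    have hy0 : y ≠ 0 := by
      rintro rfl
      rw [map_zero, mul_zero, map_zero] at hv1
      exact zero_ne_one hv1
    let u' : Fˣ := Units.mk0 y hy0
    let q : Kˣ := u * Units.map (algebraMap F K : F →* K) u'
    have hqv : (q : K) = (u : K) * (algebraMap F K y) := rfl
    have hqD : GeneralLinearGroup.scalar (Fin 2) q ∈ D := by
      apply hD
      have hent : ((GeneralLinearGroup.scalar (Fin 2) q : GL (Fin 2) K) :
          Matrix (Fin 2) (Fin 2) K) = Matrix.scalar (Fin 2) (q : K) :=
        GeneralLinearGroup.coe_scalar ..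
      refine ⟨⟨fun i k => ?_, ?_⟩, fun i k => ?_⟩
      · rw [hent, Matrix.scalar_apply, Matrix.diagonal_apply]
        split_ifs
        · rw [hqv, hv1]
        · simp
      · rw [hent, Matrix.scalar_apply, Matrix.det_diagonal, Fin.prod_univ_two, map_mul, hqv, hv1,
          one_mul]
      · rw [hent, Matrix.scalar_apply, Matrix.diagonal_apply, Matrix.one_apply]
        split_ifs
        · rw [hqv]; exact hq.trans hle
        · simp
    refine ⟨g * GeneralLinearGroup.scalar (Fin 2) u', ?_, ?_⟩
    · show GeneralLinearGroup.map (algebraMap F K) (g * GeneralLinearGroup.scalar (Fin 2) u') ∈ D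
      have e1 : GeneralLinearGroup.map (algebraMap F K)
          (g * GeneralLinearGroup.scalar (Fin 2) u')
          = GeneralLinearGroup.map (algebraMap F K) g *
            GeneralLinearGroup.scalar (Fin 2) (Units.map (algebraMap F K : F →* K) u') := by
        rw [map_mul]
        congr 1
        apply Units.ext
        ext i k
        show algebraMap F K ((GeneralLinearGroup.scalar (Fin 2) u' : GL (Fin 2) F) i k) = _
        rw [GeneralLinearGroup.coe_scalar, GeneralLinearGroup.coe_scalar, Matrix.scalar_apply,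
          Matrix.scalar_apply, Matrix.diagonal_apply, Matrix.diagonal_apply]
        split_ifs
        · rfl
        · rw [map_zero]
      have e2 : GeneralLinearGroup.map (algebraMap F K) g *
            GeneralLinearGroup.scalar (Fin 2) (Units.map (algebraMap F K : F →* K) u')
          = M * GeneralLinearGroup.scalar (Fin 2) q := by
        rw [← hu, mul_assoc, ← map_mul]
      rw [e1, e2]
      exact mul_mem hM hqD
    · rw [map_mul, ProjGenLinGroup.mk_scalar, mul_one]
  · rintro ⟨M, hM, h3⟩
    refine ⟨GeneralLinearGroup.map (algebraMap F K) M, hM, ?_⟩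
    rw [← h3]
    rfl

include v in
/-- `GLcong` at a dense place. -/
theorem comap_GLcong (hd : Dense F (K := K) w) (n : ℕ) (g : GL (Fin 2) F) :
    GeneralLinearGroup.map (algebraMap F K) g ∈ GLcong (K := K) w n ↔ g ∈ GLcong v n := by
  have hval := val_eq v w hd
  have hent : ∀ i k, (GeneralLinearGroup.map (algebraMap F K) g) i k = algebraMap F K (g i k) :=
    fun i k => rfl
  have hdet : ((GeneralLinearGroup.map (algebraMap F K) g : GL (Fin 2) K) :
      Matrix (Fin 2) (Fin 2) K).det = algebraMap F K (g : Matrix (Fin 2) (Fin 2) F).det :=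
    (RingHom.map_det (algebraMap F K) (g : Matrix (Fin 2) (Fin 2) F)).symm
  have hsub : ∀ i k, ((GeneralLinearGroup.map (algebraMap F K) g : GL (Fin 2) K) :
        Matrix (Fin 2) (Fin 2) K) i k - (1 : Matrix (Fin 2) (Fin 2) K) i k
        = algebraMap F K ((g : Matrix (Fin 2) (Fin 2) F) i k -
          (1 : Matrix (Fin 2) (Fin 2) F) i k) := by
    intro i k
    rw [map_sub]
    congr 1
    rw [Matrix.one_apply, Matrix.one_apply]
    split_ifs <;> simp
  rw [mem_GLcong, mem_GLcong, mem_GLw, mem_GLw]
  refine and_congr ?_ ?_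
  · simp only [hent, hdet, hval]
  · refine forall_congr' fun i => forall_congr' fun k => ?_
    rw [hsub, hval]

include v in
/-- The principal congruence subgroups at a dense place. -/
theorem comap_Gam (hd : Dense F (K := K) w) (n : ℕ) (g : PGL(2, F)) :
    g ∈ Gam v n ↔ ProjGenLinGroup.map (algebraMap F K) g ∈ Gam (K := K) w n := by
  have h := comap_map_mk w hd (D := GLcong w n) (n := n) le_rfl
  have h2 : (GLcong (K := K) w n).comap (GeneralLinearGroup.map (algebraMap F K))
      = GLcong v n := by
    ext x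
    exact comap_GLcong v w hd n x
  rw [h2] at h
  have h3 := SetLike.ext_iff.1 h g
  exact h3.symm

end val

end Fermat.Agent.H84Z
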