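import Fermat.Agent.H84ZAlg
import Fermat.Agent.H84ZVal
import Fermat.Agent.H51ZKer

/-!
# S47, block (C), package C15 (m3): indicator kernels and Hecke kernels at split places
-/

set_option autoImplicit false

open IsDedekindDomain HeightOneSpectrum WithZero Matrix
open scoped MatrixGroups

namespace Fermat.Agent.H84Z

open Fermat.Agent.H59D Fermat.Agent.H59XF Fermat.Agent.H51Z

section lind

variable {G GF : Type*} [Group G] [Group GF] (ι : GF →* G) {H : Subgroup G} {V : Subgroup GF}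
  (hV : ∀ g, g ∈ V ↔ ι g ∈ H)

theorem res_lind {D : Set G} (h : DC H D) {D' : Set GF} (h' : DC V D')
    (hD : ∀ g, g ∈ D' ↔ ι g ∈ D) : res ι hV (lind D h) = lind D' h' := by
  classical
  rw [res_eq_iff]
  intro f g
  rw [lind_k, lind_k]
  have : (f⁻¹ * g ∈ D') ↔ ((ι f)⁻¹ * ι g ∈ D) := by rw [hD, map_mul, map_inv]
  by_cases hh : f⁻¹ * g ∈ D'
  · rw [if_pos hh, if_pos (this.1 hh)]
  · rw [if_neg hh, if_neg (fun h2 => hh (this.2 h2))]

include hV in
/-- A union of double cosets restricts to a union of double cosets. -/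
theorem DC_comap {D : Set G} (h : DC H D) {D' : Set GF} (hD : ∀ g, g ∈ D' ↔ ι g ∈ D) :
    DC V D' where
  left u hu g hg := by
    rw [hD, map_mul]
    exact h.left _ ((hV u).1 hu) _ ((hD g).1 hg)
  right u hu g hg := by
    rw [hD, map_mul]
    exact h.right _ ((hV u).1 hu) _ ((hD g).1 hg)
  finR := by
    classical
    obtain ⟨R, hR⟩ := h.finR
    let c : G → GF := fun r => if hr : ∃ f, r⁻¹ * ι f ∈ H then hr.choose else 1
    have hc : ∀ r, (∃ f, r⁻¹ * ι f ∈ H) → r⁻¹ * ι (c r) ∈ H := by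
      intro r hr
      show r⁻¹ * ι (if hr : ∃ f, r⁻¹ * ι f ∈ H then hr.choose else 1) ∈ H
      rw [dif_pos hr]
      exact hr.choose_spec
    refine ⟨R.image c, fun g hg => ?_⟩
    obtain ⟨r, hr, hrg⟩ := hR _ ((hD g).1 hg)
    refine ⟨c r, Finset.mem_image_of_mem _ hr, ?_⟩
    rw [hV, map_mul, map_inv]
    have : (ι (c r))⁻¹ * ι g = (r⁻¹ * ι (c r))⁻¹ * (r⁻¹ * ι g) := by group
    rw [this]
    exact mul_mem (inv_mem (hc r ⟨g, hrg⟩)) hrg
  finL := by
    classical
    obtain ⟨R, hR⟩ := h.finL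
    let c : G → GF := fun r => if hr : ∃ f, r⁻¹ * ι f ∈ H then hr.choose else 1
    have hc : ∀ r, (∃ f, r⁻¹ * ι f ∈ H) → r⁻¹ * ι (c r) ∈ H := by
      intro r hr
      show r⁻¹ * ι (if hr : ∃ f, r⁻¹ * ι f ∈ H then hr.choose else 1) ∈ H
      rw [dif_pos hr]
      exact hr.choose_spec
    refine ⟨R.image c, fun g hg => ?_⟩
    obtain ⟨r, hr, hrg⟩ := hR _ ((hD g).1 hg)
    refine ⟨c r, Finset.mem_image_of_mem _ hr, ?_⟩
    rw [hV, map_mul, map_inv, map_inv]
    have : (ι (c r))⁻¹ * (ι g)⁻¹ = (r⁻¹ * ι (c r))⁻¹ * (r⁻¹ * (ι g)⁻¹) := by group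
    rw [this]
    refine mul_mem (inv_mem (hc r ⟨g⁻¹, ?_⟩)) hrg
    rw [map_inv]
    exact hrg

theorem pull_lind (s : G ≃* G) {K : Subgroup G} (hs : ∀ g, g ∈ H ↔ s g ∈ K) {D : Set G}
    (h : DC K D) {D' : Set G} (h' : DC H D') (hD : ∀ g, g ∈ D' ↔ s g ∈ D) :
    pull s hs (lind D h) = lind D' h' := by
  classical
  apply LocKer.ext'
  intro x y
  induction x using QuotientGroup.induction_on with
  | H x =>
    induction y using QuotientGroup.induction_on with
    | H y =>
      rw [pull_k, smap_mk, smap_mk, lind_k, lind_k]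
      have : (x⁻¹ * y ∈ D') ↔ ((s x)⁻¹ * s y ∈ D) := by rw [hD, map_mul, map_inv]
      by_cases hh : x⁻¹ * y ∈ D'
      · rw [if_pos hh, if_pos (this.1 hh)]
      · rw [if_neg hh, if_neg (fun h2 => hh (this.2 h2))]

end lind

section cell

variable {K : Type*} [Field K]

/-- `cellT` by any representative. -/
theorem mk_mem_cellT (v : Valuation K ℤᵐ⁰) (g : GL (Fin 2) K) :
    ProjGenLinGroup.mk g ∈ cellT v ↔ ∃ u : Kˣ, (∀ i k, v (g i k * u) ≤ 1) ∧
      v ((g : Matrix (Fin 2) (Fin 2) K).det * (u : K) ^ 2) = exp (-1 : ℤ) := by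
  constructor
  · rintro ⟨M, h3, h1, h2⟩
    rw [ProjGenLinGroup.mk_eq_mk_iff] at h3
    obtain ⟨u, hu⟩ := h3
    have hM : g * GeneralLinearGroup.scalar (Fin 2) u⁻¹ = M := by
      rw [← hu, mul_assoc, ← map_mul, mul_inv_cancel, map_one, mul_one]
    have hM' : (M : Matrix (Fin 2) (Fin 2) K) = ((u⁻¹ : Kˣ) : K) • (g : Matrix (Fin 2) (Fin 2) K) := by
      rw [← hM, Units.val_mul, GeneralLinearGroup.coe_scalar, mul_scalar_eq]
    refine ⟨u⁻¹, fun i k => ?_, ?_⟩
    · have h4 := h1 i k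
      rw [hM', Matrix.smul_apply, smul_eq_mul, mul_comm] at h4
      exact h4
    · rw [GeneralLinearGroup.val_det_apply, hM', Matrix.det_smul, Fintype.card_fin, mul_comm] at h2
      exact h2
  · rintro ⟨u, h1, h2⟩
    have hM' : ((g * GeneralLinearGroup.scalar (Fin 2) u : GL (Fin 2) K) :
        Matrix (Fin 2) (Fin 2) K) = (u : K) • (g : Matrix (Fin 2) (Fin 2) K) := by
      rw [Units.val_mul, GeneralLinearGroup.coe_scalar, mul_scalar_eq]
    refine ⟨g * GeneralLinearGroup.scalar (Fin 2) u, ?_, fun i k => ?_, ?_⟩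
    · rw [map_mul, ProjGenLinGroup.mk_scalar, mul_one]
    · rw [hM', Matrix.smul_apply, smul_eq_mul, mul_comm]
      exact h1 i k
    · rw [GeneralLinearGroup.val_det_apply, hM', Matrix.det_smul, Fintype.card_fin, mul_comm]
      exact h2

/-- Transport of `cellT` by an automorphism of the field. -/
theorem map_mem_cellT {K' : Type*} [Field K'] (v : Valuation K ℤᵐ⁰) (v' : Valuation K' ℤᵐ⁰)
    (s : K ≃+* K') (hs : ∀ x, v' (s x) = v x) (g : PGL(2, K)) :
    ProjGenLinGroup.map (s : K →+* K') g ∈ cellT v' ↔ g ∈ cellT v := by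
  induction g using ProjGenLinGroup.induction_on with
  | mk g =>
  have hmap : ProjGenLinGroup.map (s : K →+* K') (ProjGenLinGroup.mk g)
      = ProjGenLinGroup.mk (GeneralLinearGroup.map (s : K →+* K') g) := rfl
  rw [hmap, mk_mem_cellT, mk_mem_cellT]
  have hent : ∀ i k, (GeneralLinearGroup.map (s : K →+* K') g) i k = s (g i k) :=
    fun i k => rfl
  have hdet : ((GeneralLinearGroup.map (s : K →+* K') g : GL (Fin 2) K') :
      Matrix (Fin 2) (Fin 2) K').det = s (g : Matrix (Fin 2) (Fin 2) K).det :=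
    (RingHom.map_det (s : K →+* K') (g : Matrix (Fin 2) (Fin 2) K)).symm
  have key : ∀ u : Kˣ, ((∀ i k, v (g i k * u) ≤ 1) ∧
      v ((g : Matrix (Fin 2) (Fin 2) K).det * (u : K) ^ 2) = exp (-1 : ℤ)) ↔
      ((∀ i k, v' (s (g i k) * ((Units.map (s : K →* K') u : K'ˣ) : K')) ≤ 1) ∧
      v' (s (g : Matrix (Fin 2) (Fin 2) K).det * ((Units.map (s : K →* K') u : K'ˣ) : K') ^ 2)
        = exp (-1 : ℤ)) := by
    intro u
    have hu : ((Units.map (s : K →* K') u : K'ˣ) : K') = s (u : K) := rfl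
    rw [hu, ← map_pow, ← map_mul, hs]
    simp only [← map_mul, hs]
  simp only [hent, hdet]
  constructor
  · rintro ⟨u, hu⟩
    refine ⟨Units.map (s.symm : K' →* K) u, (key _).2 ?_⟩
    have : Units.map (s : K →* K') (Units.map (s.symm : K' →* K) u) = u := by
      apply Units.ext
      exact s.apply_symm_apply (u : K')
    rw [this]
    exact hu
  · rintro ⟨u, hu⟩
    exact ⟨_, (key u).1 hu⟩

end cell

section val

variable {A F K B : Type*} [CommRing A] [IsDedekindDomain A] [CommRing B] [IsDedekindDomain B]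
  [Algebra A B] [Module.IsTorsionFree A B] [Field F] [Field K] [Algebra F K] [Algebra A F]
  [IsFractionRing A F] [Algebra A K] [IsScalarTower A F K] [Algebra B K] [IsFractionRing B K]
  [IsScalarTower A B K] (v : HeightOneSpectrum A) (w : HeightOneSpectrum B)
  [w.asIdeal.LiesOver v.asIdeal]

/-- `cellT` at a dense (split) place. -/
theorem comap_cellT (hd : Dense F (K := K) w) (g : PGL(2, F)) :
    g ∈ cellT (v.valuation F) ↔
      ProjGenLinGroup.map (algebraMap F K) g ∈ cellT (w.valuation K) := by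
  induction g using ProjGenLinGroup.induction_on with
  | mk g =>
  have hmap : ProjGenLinGroup.map (algebraMap F K) (ProjGenLinGroup.mk g)
      = ProjGenLinGroup.mk (GeneralLinearGroup.map (algebraMap F K) g) := rfl
  rw [hmap, mk_mem_cellT, mk_mem_cellT]
  have hent : ∀ i k, (GeneralLinearGroup.map (algebraMap F K) g) i k = algebraMap F K (g i k) :=
    fun i k => rfl
  have hdet : ((GeneralLinearGroup.map (algebraMap F K) g : GL (Fin 2) K) :
      Matrix (Fin 2) (Fin 2) K).det = algebraMap F K (g : Matrix (Fin 2) (Fin 2) F).det :=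
    (RingHom.map_det (algebraMap F K) (g : Matrix (Fin 2) (Fin 2) F)).symm
  simp only [hent, hdet]
  exact (exists_scalar_iff v w hd (fun e d => (∀ i k, e i k ≤ 1) ∧ d = exp (-1 : ℤ)) g).symm

end val

end Fermat.Agent.H84Z
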