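import Fermat.Agent.H79SDef
import Fermat.Agent.H57CDict
import Fermat.Agent.H84ZHecke
import Fermat.Agent.H84ZDen

/-!
# S47, block (C), [G1-SPLIT]: the local matching at the split places outside `SF`
-/

set_option autoImplicit false

noncomputable section

open IsDedekindDomain HeightOneSpectrum WithZero NumberField Matrix
open scoped MatrixGroups

namespace Fermat.Agent.H68G

open Fermat.Agent.H59XF Fermat.Agent.H51Z Fermat.Agent.H59D Fermat.Agent.H79S Fermat.Agent.H84Z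
open Fermat.Agent.H57C
open H20.S47 (incP sP nP EllReg)

/-! ### Kernels with the same values -/

section Ind

variable {G : Type*} [Group G] {H : Subgroup G}

theorem IsInd.unique {κ κ' : LocKer H} {D : Set G} (h : IsInd κ D) (h' : IsInd κ' D) : κ = κ' := by
  apply LocKer.ext'
  intro x y
  induction x using QuotientGroup.induction_on with
  | H x =>
    induction y using QuotientGroup.induction_on with
    | H y =>
      by_cases hxy : x⁻¹ * y ∈ D
      · rw [(h x y).1 hxy, (h' x y).1 hxy]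
      · rw [(h x y).2 hxy, (h' x y).2 hxy]

theorem IsInd.pull {s : G ≃* G} {K : Subgroup G} {hs : ∀ g, g ∈ H ↔ s g ∈ K} {κ : LocKer K}
    {D D' : Set G} (h : IsInd κ D) (hD : ∀ g, g ∈ D' ↔ s g ∈ D) : IsInd (pull s hs κ) D' := by
  intro x y
  have e : (s x)⁻¹ * s y = s (x⁻¹ * y) := by rw [map_mul, map_inv]
  refine ⟨fun hxy => ?_, fun hxy => ?_⟩
  · rw [pull_k, smap_mk, smap_mk]
    exact (h _ _).1 (by rw [e]; exact (hD _).1 hxy)
  · rw [pull_k, smap_mk, smap_mk]
    exact (h _ _).2 (by rw [e]; exact fun h' => hxy ((hD _).2 h'))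

theorem IsInd.res {GF : Type*} [Group GF] {ι : GF →* G} {V : Subgroup GF}
    {hV : ∀ g, g ∈ V ↔ ι g ∈ H} {κ : LocKer H} {D : Set G} {D' : Set GF} (h : IsInd κ D)
    (hD : ∀ g, g ∈ D' ↔ ι g ∈ D) : IsInd (res ι hV κ) D' := by
  intro x y
  have e : (ι x)⁻¹ * ι y = ι (x⁻¹ * y) := by rw [map_mul, map_inv]
  refine ⟨fun hxy => ?_, fun hxy => ?_⟩
  · show κ.k ((ι x : G) : G ⧸ H) ((ι y : G) : G ⧸ H) = 1
    exact (h _ _).1 (by rw [e]; exact (hD _).1 hxy)
  · show κ.k ((ι x : G) : G ⧸ H) ((ι y : G) : G ⧸ H) = 0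
    exact (h _ _).2 (by rw [e]; exact fun h' => hxy ((hD _).2 h'))

theorem pull_lpow {s : G ≃* G} {K : Subgroup G} (hs : ∀ g, g ∈ H ↔ s g ∈ K) (κ : LocKer K) (n : ℕ) :
    pull s hs (lpow κ n) = lpow (pull s hs κ) n := by
  induction n with
  | zero => exact pull_one s hs
  | succ n ih => rw [lpow_succ, lpow_succ, pull_mul, ih]

theorem res_lpow {GF : Type*} [Group GF] {ι : GF →* G} {V : Subgroup GF}
    (hV : ∀ g, g ∈ V ↔ ι g ∈ H) (hd : ∀ g : G, ∃ f : GF, g⁻¹ * ι f ∈ H) (κ : LocKer H) (n : ℕ) :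
    res ι hV (lpow κ n) = lpow (res ι hV κ) n := by
  induction n with
  | zero => exact res_one ι hV
  | succ n ih => rw [lpow_succ, lpow_succ, res_mul ι hV hd, ih]

end Ind

/-! ### The multi-index on `F` -/

theorem mapDomain_three {α β : Type*} {f : α → β} {n : α →₀ ℕ} {v : β} {x y z : α}
    (hxy : y ≠ x) (hxz : z ≠ x) (hyz : z ≠ y) (hx : f x = v) (hy : f y = v) (hz : f z = v)
    (h : ∀ a, f a = v → a = x ∨ a = y ∨ a = z) : (n.mapDomain f) v = n x + n y + n z := by
  classical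
  rw [Finsupp.mapDomain, Finsupp.sum_apply, Finsupp.sum]
  have h1 : ∑ a ∈ n.support, (Finsupp.single (f a) (n a)) v =
      ∑ a ∈ n.support ∪ {x, y, z}, if f a = v then n a else 0 := by
    rw [Finset.sum_congr rfl fun a _ => Finsupp.single_apply]
    refine Finset.sum_subset Finset.subset_union_left fun a _ ha => ?_
    rw [Finsupp.notMem_support_iff] at ha
    rw [ha, ite_self]
  rw [h1]
  have h2 : ∑ a ∈ n.support ∪ {x, y, z}, (if f a = v then n a else 0) =
      ∑ a ∈ ({x, y, z} : Finset α), if f a = v then n a else 0 := by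
    symm
    refine Finset.sum_subset Finset.subset_union_right fun a _ ha => ?_
    rw [if_neg]
    intro hav
    apply ha
    simp only [Finset.mem_insert, Finset.mem_singleton]
    exact h a hav
  rw [h2, Finset.sum_insert (by
    simp only [Finset.mem_insert, Finset.mem_singleton, not_or]
    exact ⟨fun h => hxy h.symm, fun h => hxz h.symm⟩), Finset.sum_insert (by
    simp only [Finset.mem_singleton]
    exact fun h => hyz h.symm), Finset.sum_singleton, if_pos hx, if_pos hy, if_pos hz]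
  ring

/-! ### The setup -/

section setup

variable {F E : Type} [Field F] [NumberField F] [Field E] [NumberField E] [Algebra F E]
  (C : CSetup F E)

theorem sigma_eq (w : HeightOneSpectrum (𝓞 E)) : C.aE.σ w = H83Z.placePerm C.s w := by
  apply HeightOneSpectrum.eq_of_valuation_isEquiv_valuation (K := E)
  have h : (C.aE.σ w).valuation E = (H83Z.placePerm C.s w).valuation E := by
    ext x
    obtain ⟨y, rfl⟩ := C.s.surjective x
    rw [H83Z.placePerm_val, ← C.s_eq, C.aE.val]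
  rw [h]

theorem below_sigma (w : HeightOneSpectrum (𝓞 E)) :
    H47.below F (C.aE.twist.σ w) = H47.below F w := by
  show H47.below F (C.aE.σ w) = _
  rw [sigma_eq, H83Z.below_placePerm]

theorem nonSplit_v0 : H82.NonSplit E C.v0 := by
  rw [H82.NonSplit, C.above_v0, Set.ncard_singleton]

theorem s_three (x : E) : C.s (C.s (C.s x)) = x := by
  have := C.gal
  exact H83Z.s_app_three C.h3 C.s x

theorem s_fixed {x : E} (h : C.s x = x) : ∃ y : F, algebraMap F E y = x := by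
  have := C.gal
  exact H83Z.fixed_of_s C.h3 C.s C.hs h

/-- `T` at the place `σ w`, transported to `w`. -/
theorem pull_T {w : HeightOneSpectrum (𝓞 E)} (hw : w ∉ C.SE) (hw0 : w ≠ C.w0)
    (hsw : C.aE.σ w ∉ C.SE) (hsw0 : C.aE.σ w ≠ C.w0) :
    pull C.aE.twist.s (C.aE.twist.map_U w) (C.kE.D.T (C.aE.twist.σ w)) = C.kE.D.T w := by
  refine IsInd.unique (IsInd.pull (C.kE.T_ind _ hsw hsw0) ?_) (C.kE.T_ind w hw hw0)
  intro g
  exact (map_mem_cellT (w.valuation E) ((C.aE.σ w).valuation E) C.aE.s (C.aE.val w) g).symm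

/-- **[G1-SPLIT]** The local matching at the split places outside `SF`. -/
theorem pm0_split (n : HeightOneSpectrum (𝓞 E) →₀ ℕ) (k : ℕ) {v : HeightOneSpectrum (𝓞 F)}
    (hv : v ∉ C.SF) (hsp : ¬ H82.NonSplit E v)
    (hπ : ∀ w, H47.below F (C.aE.twist.σ w) = H47.below F w) {H : Subgroup PGL(2, F)}
    (hH : H = C.mF.L.fam.U v) :
    PM0 C.s C.aE.twist (H47.below F) hπ (C.kE.D.mono n k)
      (C.kF.D.mono (n.mapDomain (H47.below F)) (3 * k)) H v := by
  have gal := C.gal
  refine PM0.of_direct hH ?_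
  intro d γ hN
  obtain ⟨w, hw⟩ := H47.above_nonempty (L := E) v
  have hbw : H47.below F w = v := (H47.eq_below_of_mem_above hw).symm
  obtain ⟨n1, n2, n3⟩ := H83Z.ne_of_split C.h3 C.s C.hs hw hsp
  have hv0 : v ≠ C.v0 := fun h => hsp (h ▸ nonSplit_v0 C)
  -- the three places
  have m1 : C.aE.twist.σ w ≠ w := by
    show C.aE.σ w ≠ w
    rw [sigma_eq]; exact n1
  have m2 : C.aE.twist.σ (C.aE.twist.σ w) ≠ w := by
    show C.aE.σ (C.aE.σ w) ≠ w
    rw [sigma_eq, sigma_eq]; exact n2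
  have m3 : C.aE.twist.σ (C.aE.twist.σ w) ≠ C.aE.twist.σ w := by
    show C.aE.σ (C.aE.σ w) ≠ C.aE.σ w
    rw [sigma_eq, sigma_eq]; exact n3
  have hthree : C.aE.twist.σ (C.aE.twist.σ (C.aE.twist.σ w)) = w := by
    show C.aE.σ (C.aE.σ (C.aE.σ w)) = w
    rw [sigma_eq, sigma_eq, sigma_eq, H83Z.placePerm_three C.h3]
  have hcov : ∀ i, H47.below F i = v → i = w ∨ i = C.aE.twist.σ w ∨
      i = C.aE.twist.σ (C.aE.twist.σ w) := by
    intro i hi
    have h1 : i ∈ H82.above E v := hi ▸ H47.mem_above_below i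
    have h2 := (H83Z.mem_above_iff_exists C.h3 C.s C.hs hw).1 h1
    show i = w ∨ i = C.aE.σ w ∨ i = C.aE.σ (C.aE.σ w)
    rw [sigma_eq, sigma_eq]
    exact h2
  -- places over `v` are neither bad nor `w0`
  have hgood : ∀ i, H47.below F i = v → i ∉ C.SE ∧ i ≠ C.w0 := by
    intro i hi
    refine ⟨fun h => hv (hi ▸ (C.mem_SE i).1 h), ?_⟩
    rintro rfl
    have h1 : C.w0 ∈ H82.above E C.v0 := by rw [C.above_v0]; rfl
    exact hv0 (hi ▸ H47.eq_below_of_mem_above h1 ▸ rfl)
  have hb1 : H47.below F (C.aE.twist.σ w) = v := by rw [hπ, hbw]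
  have hb2 : H47.below F (C.aE.twist.σ (C.aE.twist.σ w)) = v := by rw [hπ, hb1]
  obtain ⟨g0, g0'⟩ := hgood w hbw
  obtain ⟨g1, g1'⟩ := hgood _ hb1
  obtain ⟨g2, g2'⟩ := hgood _ hb2
  -- levels
  have lE : C.mE.L.fam.U w = H59D.U0 w := C.kE.lev_good w g0 g0'
  have lF : C.mF.L.fam.U v = H59D.U0 v := C.kF.lev_good v hv hv0
  -- density
  have hLO : w.asIdeal.LiesOver v.asIdeal := ⟨hw.symm⟩
  have hs3 : ∀ x, C.aE.s (C.aE.s (C.aE.s x)) = x := fun x => by
    rw [C.s_eq, C.s_eq, C.s_eq, s_three]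
  have hfix : ∀ x, C.aE.s x = x → ∃ y, algebraMap F E y = x := fun x hx => by
    rw [C.s_eq] at hx
    exact s_fixed C hx
  have hden : Dense F (K := E) w := fun x m =>
    dense_split (algebraMap F E) C.aE.s C.aE.σ C.aE.val hs3 hfix w m1 x m
  have hd : ∀ g : PGL(2, E), ∃ f : PGL(2, F), g⁻¹ * incP E f ∈ C.mE.L.fam.U w := by
    intro g
    refine dense_split_PGL (algebraMap F E) C.aE.s C.aE.σ C.aE.val hs3 hfix w m1 ⟨0, ?_⟩ g
    rw [lE]
    exact H59D.Gam_le w 0
  have hV : ∀ g, g ∈ C.mF.L.fam.U v ↔ incP E g ∈ C.mE.L.fam.U w := by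
    intro g
    rw [lE, lF]
    exact comap_U0 v w hden g
  -- the kernels
  have hT : res (incP E) hV (C.kE.D.T w) = C.kF.D.T v :=
    IsInd.unique (IsInd.res (C.kE.T_ind w g0 g0') (comap_cellT v w hden)) (C.kF.T_ind v hv hv0)
  have hloc : ∀ i, i ∉ C.SE → i ≠ C.w0 → (C.kE.D.mono n k).loc i = lpow (C.kE.D.T i) (n i) := by
    intro i h1 h2
    rw [HData.mono_loc]
    exact C.kE.D.loc_good (by rw [C.kE.D_S]; exact h1) (by rw [C.kE.D_w0]; exact h2)
  have hb : (C.kF.D.mono (n.mapDomain (H47.below F)) (3 * k)).loc v =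
      res (incP E) hV (convAt C.aE.twist (C.kE.D.mono n k) w) := by
    have e1 : convAt C.aE.twist (C.kE.D.mono n k) w =
        lpow (C.kE.D.T w) (n w + n (C.aE.twist.σ (C.aE.twist.σ w)) + n (C.aE.twist.σ w)) := by
      rw [convAt, hloc _ g0 g0', hloc _ g1 g1', hloc _ g2 g2', pull_lpow, pull_lpow, pull_lpow,
        pull_T C g1 g1' g2 g2', pull_T C g0 g0' g1 g1', lpow_add, lpow_add]
    rw [e1, res_lpow hV hd, hT, HData.mono_loc,
      C.kF.D.loc_good (by rw [C.kF.D_S]; exact hv) (by rw [C.kF.D_w0]; exact hv0),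
      mapDomain_three (x := w) (y := C.aE.twist.σ (C.aE.twist.σ w)) (z := C.aE.twist.σ w) m2 m1
        (fun h => m3 h.symm) hbw hb2 hb1 (fun i hi => ?_)]
    rcases hcov i hi with h | h | h
    · exact Or.inl h
    · exact Or.inr (Or.inr h)
    · exact Or.inr (Or.inl h)
  have hsd : ∀ g : PGL(2, E), C.aE.twist.s g = sP C.s g := by
    intro g
    have : (C.aE.s : E →+* E) = (C.s : E →+* E) := RingHom.ext C.s_eq
    show ProjGenLinGroup.map (C.aE.s : E →+* E) g = ProjGenLinGroup.map (C.s : E →+* E) g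
    rw [this]
  have hγ : incP E γ = d * C.aE.twist.s d * C.aE.twist.s (C.aE.twist.s d) := by
    rw [← hN.norm, hsd, hsd]
    rfl
  obtain ⟨β, h1, h2⟩ := exists_locMatch_split C.aE.twist (H47.below F) hπ (incP E) v w hbw hcov m1
    hthree (fun g => by rw [hsd, hsd, hsd]; exact H20.S47.sP3 C.s (s_three C) g) hV hd (C.kE.D.mono n k) _ hb d γ hγ
    (fun c : Subgroup.centralizer ({γ} : Set PGL(2, F)) => (c : PGL(2, F)))
  exact ⟨β, h1, fun hG => h2 hG.a_one hG.d_mem⟩

end setup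

end Fermat.Agent.H68G
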