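import Fermat.Agent.H84ZBadP
import Fermat.Agent.H68G1

/-!
# Guide, block (C) of S47: the local comparison at the places which split

(helper84; library files by helper84 and helper68, the language by helper57, helper59, helper79)

This file belongs to the guides on block (C), `GuideOctC`, `GuideOctCGeom` and `GuideOctCLocal`. It
explains step by step the proofs of two theorems in section 4 of `GuideOctCGeom`: `matching_good`,
for the places which split, and `matching_bad_split` (section 4 of `GuideOctCLocal` is a summary of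
this file). As in the other guides, it only contains citations of theorems, and all of them are in
the closure of `S47`. Notes: [418], [432]. See also `GuideOctCLevel` (helper50) for local kernels,
double cosets and types.

**The situation.** `E / F` is cyclic of degree three, `s` a generator of the Galois group. If a
finite place `v` of `F` splits there are three places of `E` above it: `w`, `σ w` and `σ² w`, where
`σ` is the permutation of the places induced by `s`. With completions one would write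
`E ⊗ F_v = F_v × F_v × F_v`, where `s` permutes the factors; an element `d` of `PGL₂(E ⊗ F_v)` is a
triple, its norm is the product of the three components in a suitable order, and the twisted orbital
integral of `φ₁ ⊗ φ₂ ⊗ φ₃` is the orbital integral over `PGL₂(F_v)` of the convolution of the three
functions.

**What is proved instead.** No completions and no measures are used. A point `x` of the finite part
of the space over `E` has for every place `w` a component `x_w`, which is a coset in
`PGL₂(E) / U w`. Here `PGL₂(E)` is the group over the number field `E` itself. The local kernels are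
invariant functions on pairs of such cosets.

* Section 1: `F` is dense in `E` for the `w`-adic topology. So `PGL₂(F) / V = PGL₂(E) / U w` if `V`
  is the intersection of `U w` and `PGL₂(F)`.
* Section 2: kernels on `PGL₂(E) / U (σ w)` are transported to `PGL₂(E) / U w` by `s`, and then
  restricted to `PGL₂(F) / V`. Both operations are homomorphisms of algebras.
* Section 3: the sum of the weights `∏ e_i(x_i, (d s(x))_i)`, `i = w, σ w, σ² w`, over the `x` with
  given component at `w` is a chain of three kernels, that is the product of the three transported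
  kernels, evaluated at the points `x_w` and `N(d) x_w`. This is the matching.
* Section 4: the same on the setup of block (C), and what remains to be checked at a given place.
* Section 5, good places: the kernels are powers of the Hecke operator `T`, and the exponents are
  added.
* Section 6, bad places: the kernels are idempotents of types, and `e e e = e`. The types are given
  by three lattices and an additive character, and on `F` the lattices and the characters over `E`
  and over `F` agree.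

**Vocabulary** (`H59XF`; see also `GuideOctCLevel`). `L : LevelFam G ι` is a family of subgroups
`L.U i` of `G` such that every element of `G` is in almost all of them. `LocKer U` is the type of
the kernels on `G / U` which are invariant under `G` and have finitely many nonzero entries in
every row and column. `a : GlobKer L` is a family `a.loc i` of such kernels, almost all of them the
unit. `t : Twist L` is an automorphism `t.s` of `G` with a permutation `t.σ` of the indices such
that `t.s` maps `L.U i` onto `L.U (t.σ i)`. `H20.S47.incP E` is the inclusion of `PGL₂(F)` in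
`PGL₂(E)`.
-/

set_option autoImplicit false

open IsDedekindDomain HeightOneSpectrum WithZero NumberField Matrix
open scoped MatrixGroups

noncomputable section

namespace Fermat.Agent.Guide.OctCSplit

open Fermat.Agent.H59XF Fermat.Agent.H59D Fermat.Agent.H79S

/-! ## 1. Density of the small field

`R` is a Dedekind domain with field of fractions `K`. Its nonzero prime ideals `w` ("places") give
the valuations `w.valuation K`, written multiplicatively, with values `0` and `exp n`, `n` an
integer. -/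

/-- **The fixed field is dense at a place which is not fixed** (`H84ZDen`). `s` is an automorphism
of `K` with `s³ = 1` which permutes the places by `σ`, and all fixed elements are in the image of
`F`. Proof: by weak approximation there is a `z` near to `x` at `w` and near to `0` at `σ w` and
`σ² w`; take `y = z + s z + s² z`. -/
theorem density_field {R : Type*} [CommRing R] [IsDedekindDomain R] {K : Type*} [Field K]
    [Algebra R K] [IsFractionRing R K] {F : Type*} [Field F] (j : F →+* K) (s : K ≃+* K)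
    (σ : Equiv.Perm (HeightOneSpectrum R))
    (hσ : ∀ (w : HeightOneSpectrum R) (x : K), (σ w).valuation K (s x) = w.valuation K x)
    (hs3 : ∀ x, s (s (s x)) = x) (hfix : ∀ x, s x = x → ∃ y, j y = x)
    (w : HeightOneSpectrum R) (hw : σ w ≠ w) (x : K) (n : ℕ) :
    ∃ y : F, w.valuation K (x - j y) ≤ exp (-(n : ℤ)) :=
  H84Z.dense_split j s σ hσ hs3 hfix w hw x n

/-- **Density of `PGL₂`** (`H84ZDen`). If `F` is dense in `K` at `w`, every element of `PGL₂(K)` is
congruent to an element of `PGL₂(F)` modulo the congruence subgroup `Gam w n` (the image in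
`PGL₂(K)` of the matrices in `GL₂(O_w)` which are `≡ 1` modulo `w ^ n`; in this file `O_w` is the
ring of the elements of `K` which are integral at `w`, not its completion). -/
theorem density_group {R : Type*} [CommRing R] [IsDedekindDomain R] {K : Type*} [Field K]
    [Algebra R K] [IsFractionRing R K] {F : Type*} [Field F] (j : F →+* K)
    (w : HeightOneSpectrum R)
    (hden : ∀ (x : K) (n : ℕ), ∃ y : F, w.valuation K (x - j y) ≤ exp (-(n : ℤ)))
    (g : PGL(2, K)) (n : ℕ) :
    ∃ f : PGL(2, F), g⁻¹ * ProjGenLinGroup.map j f ∈ Gam (K := K) w n :=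
  H84Z.dense_PGL j w hden g n

/-- **No ramification, same values** (`H84ZVal`). `w` is a place of `K` above the place `v` of `F`,
and `F` is dense in `K` at `w`. Then `w = v` on `F` (an element of `F` near to a uniformiser of `w`
shows that the ramification index is one), and every value of `w` is a value of `v`. -/
theorem same_valuation {A F K B : Type*} [CommRing A] [IsDedekindDomain A] [CommRing B]
    [IsDedekindDomain B] [Algebra A B] [Module.IsTorsionFree A B] [Field F] [Field K] [Algebra F K]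
    [Algebra A F] [IsFractionRing A F] [Algebra A K] [IsScalarTower A F K] [Algebra B K]
    [IsFractionRing B K] [IsScalarTower A B K] (v : HeightOneSpectrum A) (w : HeightOneSpectrum B)
    [w.asIdeal.LiesOver v.asIdeal]
    (hden : ∀ (x : K) (n : ℕ), ∃ y : F, w.valuation K (x - algebraMap F K y) ≤ exp (-(n : ℤ))) :
    (∀ x : F, w.valuation K (algebraMap F K x) = v.valuation F x) ∧
      ∀ u : Kˣ, ∃ u' : Fˣ, v.valuation F (u' : F) = w.valuation K (u : K) :=
  ⟨H84Z.val_eq v w hden, H84Z.exists_val_eq v w⟩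

/-- **The maximal compact subgroup and the double coset of `T`** (`H84ZVal`, `H84ZHecke`). `U0 w`
is the image of `GL₂(O_w)` in `PGL₂(K)`, `cellT` the set of classes of the integral matrices whose
determinant is a uniformiser: the double coset of `diag(ϖ, 1)`. In the situation of the previous
theorem, an element of `PGL₂(F)` is in these sets for `v` if and only if it is for `w`. -/
theorem same_cells {A F K B : Type*} [CommRing A] [IsDedekindDomain A] [CommRing B]
    [IsDedekindDomain B] [Algebra A B] [Module.IsTorsionFree A B] [Field F] [Field K] [Algebra F K]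
    [Algebra A F] [IsFractionRing A F] [Algebra A K] [IsScalarTower A F K] [Algebra B K]
    [IsFractionRing B K] [IsScalarTower A B K] (v : HeightOneSpectrum A) (w : HeightOneSpectrum B)
    [w.asIdeal.LiesOver v.asIdeal]
    (hden : ∀ (x : K) (n : ℕ), ∃ y : F, w.valuation K (x - algebraMap F K y) ≤ exp (-(n : ℤ)))
    (g : PGL(2, F)) :
    (g ∈ U0 v ↔ ProjGenLinGroup.map (algebraMap F K) g ∈ U0 w) ∧
      (g ∈ H51Z.cellT (v.valuation F) ↔
        ProjGenLinGroup.map (algebraMap F K) g ∈ H51Z.cellT (w.valuation K)) :=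
  ⟨H84Z.comap_U0 v w hden g, H84Z.comap_cellT v w hden g⟩

/-- **`cellT` and automorphisms** (`H84ZHecke`): an isomorphism `s` of fields which transports the
valuation `v` to `v'` transports the double coset of `T`. -/
theorem cellT_transport {K K' : Type*} [Field K] [Field K'] (v : Valuation K ℤᵐ⁰)
    (v' : Valuation K' ℤᵐ⁰) (s : K ≃+* K') (hs : ∀ x, v' (s x) = v x) (g : PGL(2, K)) :
    ProjGenLinGroup.map (s : K →+* K') g ∈ H51Z.cellT v' ↔ g ∈ H51Z.cellT v :=
  H84Z.map_mem_cellT v v' s hs g

/-! ## 2. Local kernels: transport and restriction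

From here to section 3 the groups are abstract; in the application `G = PGL₂(E)`,
`GF = PGL₂(F)`. -/

/-- **Local kernels** (`LocKer H`, file `H59XF`): the functions `k(x, y)` on pairs of cosets in
`G / H` which are invariant under `G` and of finite support in each variable. With
`(a b)(x, z) = ∑_y a(x, y) b(y, z)` they form an algebra, whose unit is the function `1` on the
diagonal. -/
theorem localKernel_iff {G : Type*} [Group G] {H : Subgroup G} (k : G ⧸ H → G ⧸ H → ℂ) :
    ((∃ a : LocKer H, a.k = k) ↔ (∀ (g : G) (x y : G ⧸ H), k (g • x) (g • y) = k x y) ∧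
      (∀ x, {y | k x y ≠ 0}.Finite) ∧ ∀ y, {x | k x y ≠ 0}.Finite) ∧
    ∀ (a b : LocKer H) (x z : G ⧸ H),
      (LocKer.mul a b).k x z = ∑ᶠ y, a.k x y * b.k y z :=
  ⟨⟨fun ⟨a, h⟩ => h ▸ ⟨a.inv, a.fin_right, a.fin_left⟩, fun h => ⟨⟨k, h.1, h.2.1, h.2.2⟩, rfl⟩⟩,
    LocKer.mul_k⟩

/-- **Transport by an automorphism** (`H84ZSplit`, `H84ZAlg`). If `s` maps the subgroup `H` onto
`K`, then `H84Z.pull` sends kernels on `G / K` to kernels on `G / H`. It respects units and
products. -/
theorem transport {G : Type*} [Group G] (s : G ≃* G) {H K : Subgroup G}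
    (h : ∀ g, g ∈ H ↔ s g ∈ K) (a b : LocKer K) :
    (∀ g g' : G, (H84Z.pull s h a).k (g : G ⧸ H) (g' : G ⧸ H) =
      a.k (s g : G ⧸ K) (s g' : G ⧸ K)) ∧
    H84Z.pull s h (LocKer.one : LocKer K) = LocKer.one ∧
    H84Z.pull s h (LocKer.mul a b) = LocKer.mul (H84Z.pull s h a) (H84Z.pull s h b) :=
  ⟨fun _ _ => H84Z.pull_k s h a _ _, H84Z.pull_one s h, H84Z.pull_mul s h a b⟩

/-- **The cosets are the same** (`H84ZSplit`). `ι : GF → G` is a homomorphism with `G = ι(GF) H`,
and `V` is the inverse image of `H`. Then `GF / V → G / H` is bijective. -/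
theorem same_cosets {G GF : Type*} [Group G] [Group GF] (ι : GF →* G) {H : Subgroup G}
    {V : Subgroup GF} (hV : ∀ g, g ∈ V ↔ ι g ∈ H) (hd : ∀ g : G, ∃ f : GF, g⁻¹ * ι f ∈ H) :
    Function.Bijective (H84Z.imap ι hV) ∧
      ∀ g : GF, H84Z.imap ι hV (g : GF ⧸ V) = (ι g : G ⧸ H) :=
  ⟨⟨H84Z.imap_injective ι hV, H84Z.imap_surjective ι hV hd⟩, fun _ => rfl⟩

/-- **Restriction** (`H84ZSplit`) of kernels on `G / H` to kernels on `GF / V`. It respects units
and products. -/
theorem restriction {G GF : Type*} [Group G] [Group GF] (ι : GF →* G) {H : Subgroup G}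
    {V : Subgroup GF} (hV : ∀ g, g ∈ V ↔ ι g ∈ H) (hd : ∀ g : G, ∃ f : GF, g⁻¹ * ι f ∈ H)
    (a b : LocKer H) :
    (∀ g g' : GF, (H84Z.res ι hV a).k (g : GF ⧸ V) (g' : GF ⧸ V) =
      a.k (ι g : G ⧸ H) (ι g' : G ⧸ H)) ∧
    H84Z.res ι hV (LocKer.one : LocKer H) = LocKer.one ∧
    H84Z.res ι hV (LocKer.mul a b) = LocKer.mul (H84Z.res ι hV a) (H84Z.res ι hV b) :=
  ⟨fun _ _ => H84Z.res_k ι hV a _ _, H84Z.res_one ι hV, H84Z.res_mul ι hV hd a b⟩

/-- **A chain of three kernels** (`H84ZSplit`), closed up with three elements `d`, `e`, `f` of the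
group, is the product of the three kernels at the points `x` and `d e f x`. Substitute `y = d p₂`,
`z = d e p₁` and use the invariance. -/
theorem chain {G : Type*} [Group G] {H : Subgroup G} (a b c : LocKer H) (d e f : G) (x : G ⧸ H) :
    ∑ᶠ p : (G ⧸ H) × (G ⧸ H), a.k x (d • p.2) * b.k p.2 (e • p.1) * c.k p.1 (f • x) =
      (LocKer.mul (LocKer.mul a b) c).k x ((d * e * f) • x) :=
  H84Z.sum_triple a b c d e f x

/-! ## 3. The three places together

`I` is a set of three elements `i₀`, `σ i₀`, `σ² i₀` (the places above `v`), with subgroups `U i`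
of `G` such that `s` maps `U i` onto `U (σ i)`; `s³ = 1` on `G`. -/

/-- **The action of `s`** on `∏ G / U i` (`H84ZSplit`; `smap` is the map on cosets induced by `s`):
it is the only map with `(s x)_{σ i} = s(x_i)`. -/
theorem action_of_s {G : Type*} [Group G] (s : G ≃* G) {I : Type*} {U : I → Subgroup G}
    (σ : Equiv.Perm I) (hU : ∀ i g, g ∈ U i ↔ s g ∈ U (σ i)) (x x' : (i : I) → G ⧸ U i) :
    x' = H84Z.sact s σ hU x ↔ ∀ i, x' (σ i) = H84Z.smap s (hU i) (x i) :=
  ⟨fun h i => h ▸ H84Z.sact_apply s σ hU x i, H84Z.sact_unique s σ hU x x'⟩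

/-- **Coordinates** (`H84ZSplit`). Transporting the components at `σ i₀` and `σ² i₀` to `i₀` one
gets a bijection of `(G / U i₀)³` and `∏ G / U i`. -/
theorem coordinates {G : Type*} [Group G] (s : G ≃* G) {I : Type*} [DecidableEq I]
    {U : I → Subgroup G} (σ : Equiv.Perm I) (hU : ∀ i g, g ∈ U i ↔ s g ∈ U (σ i)) (i₀ : I)
    (hcov : ∀ i, i = i₀ ∨ i = σ i₀ ∨ i = σ (σ i₀)) (h01 : σ i₀ ≠ i₀) (h3 : σ (σ (σ i₀)) = i₀) :
    ∃ e : (G ⧸ U i₀) × (G ⧸ U i₀) × (G ⧸ U i₀) ≃ ((i : I) → G ⧸ U i), ∀ p, e p i₀ = p.1 ∧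
      e p (σ i₀) = H84Z.smap s (hU i₀) p.2.1 ∧
      e p (σ (σ i₀)) = H84Z.smap s (hU (σ i₀)) (H84Z.smap s (hU i₀) p.2.2) :=
  ⟨H84Z.equiv3 s σ hU i₀ hcov h01 h3, fun p => ⟨H84Z.mk3_zero s σ hU i₀ h01 h3 p,
    H84Z.mk3_one s σ hU i₀ h01 p, H84Z.mk3_two s σ hU i₀ p⟩⟩

/-- **The twisted weight** `∏ a_i(x_i, d s(x)_i)` in these coordinates (`H84ZSplit`; `mk3 p` is the
point `x` with coordinates `p`, and `x'` is `s(x)`) is a chain of three kernels on `G / U i₀`: the
transported kernels of the places `i₀`, `σ² i₀`, `σ i₀` in this order, with the elements `d`,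
`s d`, `s² d`. -/
theorem twisted_weight {G : Type*} [Group G] (s : G ≃* G) {I : Type*} [Fintype I] [DecidableEq I]
    {U : I → Subgroup G} (σ : Equiv.Perm I) (hU : ∀ i g, g ∈ U i ↔ s g ∈ U (σ i)) (i₀ : I)
    (hcov : ∀ i, i = i₀ ∨ i = σ i₀ ∨ i = σ (σ i₀)) (h01 : σ i₀ ≠ i₀) (h3 : σ (σ (σ i₀)) = i₀)
    (hs3 : ∀ g, s (s (s g)) = g) (a : (i : I) → LocKer (U i)) (d : G)
    (p : (G ⧸ U i₀) × (G ⧸ U i₀) × (G ⧸ U i₀)) (x x' : (i : I) → G ⧸ U i)
    (hx : x = H84Z.mk3 s σ hU i₀ p) (hx' : ∀ i, x' (σ i) = H84Z.smap s (hU i) (x i)) :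
    ∏ i, (a i).k (x i) (d • x' i) =
      (a i₀).k p.1 (d • p.2.2) *
        (H84Z.pull s (hU i₀) (H84Z.pull s (hU (σ i₀)) (a (σ (σ i₀))))).k p.2.2 (s d • p.2.1) *
        (H84Z.pull s (hU i₀) (a (σ i₀))).k p.2.1 (s (s d) • p.1) := by
  subst hx
  exact H84Z.phi_mk3 s σ hU i₀ hcov h01 h3 hs3 a d p x' hx'

/-- **The sum over a fibre** (`H84ZSplit`). `β x` is the point of `GF / V` which corresponds to the
component `x i₀`, and `ι γ = d s(d) s²(d)`. The twisted weights of the points `x` with `β x = y`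
have the sum `(a_{i₀} * s*s* a_{σ² i₀} * s* a_{σ i₀})(y, γ y)`, restricted to `GF`. -/
theorem sum_over_fibre {G GF : Type*} [Group G] [Group GF] (ι : GF →* G) (s : G ≃* G) {I : Type*}
    [Fintype I] [DecidableEq I] {U : I → Subgroup G} (σ : Equiv.Perm I)
    (hU : ∀ i g, g ∈ U i ↔ s g ∈ U (σ i)) (i₀ : I) {V : Subgroup GF}
    (hV : ∀ g, g ∈ V ↔ ι g ∈ U i₀) (hd : ∀ g : G, ∃ f : GF, g⁻¹ * ι f ∈ U i₀)
    (hcov : ∀ i, i = i₀ ∨ i = σ i₀ ∨ i = σ (σ i₀)) (h01 : σ i₀ ≠ i₀) (h3 : σ (σ (σ i₀)) = i₀)
    (hs3 : ∀ g, s (s (s g)) = g) (a : (i : I) → LocKer (U i)) (d : G) (γ : GF)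
    (hγ : ι γ = d * s d * s (s d)) (y : GF ⧸ V) (φ : ((i : I) → G ⧸ U i) → ℂ)
    (hφ : ∀ x, φ x = ∏ i, (a i).k (x i) (d • H84Z.sact s σ hU x i)) :
    ∑ᶠ x ∈ {x | φ x ≠ 0 ∧ H84Z.beta ι i₀ hV hd x = y}, φ x =
      (H84Z.res ι hV (LocKer.mul (LocKer.mul (a i₀)
          (H84Z.pull s (hU i₀) (H84Z.pull s (hU (σ i₀)) (a (σ (σ i₀))))))
        (H84Z.pull s (hU i₀) (a (σ i₀))))).k y (γ • y) := by
  obtain rfl : φ = H84Z.phi s σ hU a d := funext hφ
  exact H84Z.sum_fibre ι s σ hU i₀ hV hd hcov h01 h3 hs3 a d γ hγ y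

/-- **Local matching, abstract form** (`H84ZMatch`; `LocMatch` is explained in `GuideOctCGeom`,
`locMatch_iff`). The set `T` acts by elements of `GF`. The weight `φ` of the previous theorem
(`H84Z.phi`) and the weight `y ↦ κ(y, γ y)` on `GF / V`, where `κ` is the product of kernels in the
previous theorem (`H84Z.conv3`, restricted to `GF`), are matched by `β`. If all three kernels are
the unit and `d` is in all `U i`, the base points are respected (`H57C.Base`): both weights are `1`
there, and among the `x` with `φ x ≠ 0` only the base point is mapped by `β` to the base point. -/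
theorem matching_abstract {G GF T : Type*} [Group G] [Group GF] (ι : GF →* G) (s : G ≃* G)
    {I : Type*} [Fintype I] [DecidableEq I] {U : I → Subgroup G} (σ : Equiv.Perm I)
    (hU : ∀ i g, g ∈ U i ↔ s g ∈ U (σ i)) (i₀ : I) {V : Subgroup GF}
    (hV : ∀ g, g ∈ V ↔ ι g ∈ U i₀) (hd : ∀ g : G, ∃ f : GF, g⁻¹ * ι f ∈ U i₀)
    (hcov : ∀ i, i = i₀ ∨ i = σ i₀ ∨ i = σ (σ i₀)) (h01 : σ i₀ ≠ i₀) (h3 : σ (σ (σ i₀)) = i₀)
    (hs3 : ∀ g, s (s (s g)) = g) (a : (i : I) → LocKer (U i)) (d : G) (γ : GF)
    (hγ : ι γ = d * s d * s (s d)) (j : T → GF) :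
    H57C.LocMatch (fun (t : T) (x : (i : I) → G ⧸ U i) => fun i => ι (j t) • x i)
      (fun (t : T) (y : GF ⧸ V) => j t • y) (H84Z.phi s σ hU a d)
      (fun y => (H84Z.res ι hV (H84Z.conv3 s σ hU i₀ a)).k y (γ • y))
      (H84Z.beta ι i₀ hV hd) ∧
    ((∀ i, a i = LocKer.one) → (∀ i, d ∈ U i) →
      H57C.Base (fun i => ((1 : G) : G ⧸ U i)) ((1 : GF) : GF ⧸ V) (H84Z.phi s σ hU a d)
        (fun y => (H84Z.res ι hV (H84Z.conv3 s σ hU i₀ a)).k y (γ • y))
        (H84Z.beta ι i₀ hV hd)) :=
  ⟨H84Z.locMatch ι s σ hU i₀ hV hd hcov h01 h3 hs3 a d γ hγ j,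
    fun ha hdU => H84Z.base ι s σ hU i₀ hV hd hcov h01 h3 a ha d hdU γ hγ⟩

/-! ## 4. The setup of block (C)

`C : CSetup F E` consists of the automorphism `C.s` of `E` over `F`, the models over `E` and `F`
with levels `C.mE.L.fam.U w` and `C.mF.L.fam.U v`, the set `C.SF` of bad places of `F`, the set
`C.SE` of the places of `E` above them, the auxiliary places `C.v0` and `C.w0`, the types `C.TE`,
`C.TF` and the kernels (see `GuideOctC`).
`H47.below F w` is the place of `F` below `w`; `¬ H82.NonSplit E v` means that `v` splits. -/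

/-- **The local comparison with base points** (`PM0`, file `H57CDict`), unfolded. `a` and `b` are
families of local kernels over `E` and `F`, `H` is a subgroup of `PGL₂(F)`. For every elliptic
regular `γ` there is one weight `ψ` on `PGL₂(F) / H` which is matched with the weight over `E` of
every `d` of norm `γ` commuting with the centraliser of `γ` (`NormPair`), and with the weight over
`F` of `γ`. If `v` is good for `a`, `b`, `d` and `γ` (`GoodAt`: the kernels at `v` are the unit,
`d` and `γ` are in the levels, `γ` has a representative in `GL₂(O_v)` whose discriminant is a unit)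
the base points are respected. Here `H57C.Xv LE π v` is the product of the `PGL₂(E) / U w` over the
`w` with `π w = v`, `H57C.bv LE π v` its base point, and `H57C.phiv t π hπ a d v` the weight
`x ↦ ∏ a_w(x_w, (d s(x))_w)` on it. The theorem `pmat_iff` of `GuideOctCGeom` is the same without
base points. At the places which split one can take the level over `F` for `H` and only has to
compare the weight over `E` with the one over `F`. -/
theorem pm0_iff {F E : Type*} [Field F] [NumberField F] [Field E] [NumberField E] [Algebra F E]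
    {LE : LevelFam PGL(2, E) (HeightOneSpectrum (𝓞 E))}
    {LF : LevelFam PGL(2, F) (HeightOneSpectrum (𝓞 F))} (s : E ≃ₐ[F] E) (t : Twist LE)
    (π : HeightOneSpectrum (𝓞 E) → HeightOneSpectrum (𝓞 F)) (hπ : ∀ w, π (t.σ w) = π w)
    (a : GlobKer LE) (b : GlobKer LF) (H : Subgroup PGL(2, F)) (v : HeightOneSpectrum (𝓞 F)) :
    H57C.PM0 s t π hπ a b H v ↔ ∀ γ : PGL(2, F), H20.S47.EllReg γ →
      ∃ ψ : PGL(2, F) ⧸ H → ℂ, ∀ d : PGL(2, E), H57C.NormPair s d γ →
        (∃ β : H57C.Xv LE π v → PGL(2, F) ⧸ H,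
          H57C.LocMatch (fun (c : Subgroup.centralizer ({γ} : Set PGL(2, F))) x =>
              fun i => H20.S47.incP E (c : PGL(2, F)) • x i)
            (fun c y => (c : PGL(2, F)) • y) (H57C.phiv t π hπ a d v) ψ β ∧
          (H57C.GoodAt π a b d γ v → H57C.Base (H57C.bv LE π v)
            ((1 : PGL(2, F)) : PGL(2, F) ⧸ H) (H57C.phiv t π hπ a d v) ψ β)) ∧
        (∃ β : PGL(2, F) ⧸ LF.U v → PGL(2, F) ⧸ H,
          H57C.LocMatch (fun (c : Subgroup.centralizer ({γ} : Set PGL(2, F))) x =>
              (c : PGL(2, F)) • x)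
            (fun c y => (c : PGL(2, F)) • y) (fun y => (b.loc v).k y (γ • y)) ψ β ∧
          (H57C.GoodAt π a b d γ v → H57C.Base ((1 : PGL(2, F)) : PGL(2, F) ⧸ LF.U v)
            ((1 : PGL(2, F)) : PGL(2, F) ⧸ H) (fun y => (b.loc v).k y (γ • y)) ψ β)) :=
  forall₂_congr fun _ _ => exists_congr fun _ => forall₂_congr fun _ _ =>
    ⟨fun h => ⟨h.E, h.F⟩, fun h => ⟨h.1, h.2⟩⟩

/-- **The three places above a place which splits** (`H84ZShell`). If `w` is one of them, they are
`w`, `σ w`, `σ² w`, these are different from each other, and `PGL₂(F)` is dense in `PGL₂(E)` for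
the topology of `w`: every class modulo the level at `w` contains an element of `PGL₂(F)`. -/
theorem three_places {F E : Type} [Field F] [NumberField F] [Field E] [NumberField E]
    [Algebra F E] (C : CSetup F E) {v : HeightOneSpectrum (𝓞 F)} {w : HeightOneSpectrum (𝓞 E)}
    (hw : H47.below F w = v) (hns : ¬ H82.NonSplit E v) :
    (∀ i : HeightOneSpectrum (𝓞 E), H47.below F i = v →
      i = w ∨ i = C.aE.twist.σ w ∨ i = C.aE.twist.σ (C.aE.twist.σ w)) ∧
    C.aE.σ w ≠ w ∧ C.aE.σ (C.aE.σ (C.aE.σ w)) = w ∧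
    ∀ g : PGL(2, E), ∃ f : PGL(2, F), g⁻¹ * H20.S47.incP E f ∈ C.mE.L.fam.U w :=
  ⟨H84Z.cs_cover C hw, H84Z.cs_sigma_ne C hw hns, H84Z.cs_sigma_three C w,
    H84Z.cs_dense C hw hns⟩

/-- **The local comparison at a place which splits** (`H84ZShell`, from `H84ZPlace`). It only
remains to check two things about `v` and one place `w` above it: the level of `v` is the
intersection of the level of `w` with `PGL₂(F)`, and the kernel at `v` is the restriction of the
product of the three kernels at `w`, `σ² w`, `σ w`, transported to `w`. -/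
theorem matching_split {F E : Type} [Field F] [NumberField F] [Field E] [NumberField E]
    [Algebra F E] (C : CSetup F E) {v : HeightOneSpectrum (𝓞 F)} {w : HeightOneSpectrum (𝓞 E)}
    (hw : H47.below F w = v) (hns : ¬ H82.NonSplit E v)
    (hV : ∀ g, g ∈ C.mF.L.fam.U v ↔ H20.S47.incP E g ∈ C.mE.L.fam.U w)
    (a : GlobKer C.mE.L.fam) (b : GlobKer C.mF.L.fam)
    (hb : b.loc v = H84Z.res (H20.S47.incP E) hV (LocKer.mul (LocKer.mul (a.loc w)
        (H84Z.pull C.aE.twist.s (C.aE.twist.map_U w)
          (H84Z.pull C.aE.twist.s (C.aE.twist.map_U (C.aE.twist.σ w))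
            (a.loc (C.aE.twist.σ (C.aE.twist.σ w))))))
      (H84Z.pull C.aE.twist.s (C.aE.twist.map_U w) (a.loc (C.aE.twist.σ w))))) :
    H57C.PM0 C.s C.aE.twist (H47.below F) (H57C.below_σ C) a b (C.mF.L.fam.U v) v :=
  H84Z.cs_pm0_split C hw hns hV a b hb _ rfl

/-! ## 5. Good places -/

/-- **Indicator functions** (`H68G1`). `IsInd κ D`: the kernel `κ` is `1` at `(g, g')` if `g⁻¹ g'`
is in the set `D`, and `0` otherwise. It is determined by `D`, and transport and restriction give
the indicator functions of the inverse images of `D`. By section 1 the Hecke operator `T` at `σ w`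
is transported to `T` at `w`, and `T` at `w` is restricted to `T` at `v`. -/
theorem indicator {G GF : Type*} [Group G] [Group GF] {H : Subgroup G} :
    (∀ (κ κ' : LocKer H) (D : Set G), IsInd κ D → IsInd κ' D → κ = κ') ∧
    (∀ (s : G ≃* G) (K : Subgroup G) (hs : ∀ g, g ∈ H ↔ s g ∈ K) (κ : LocKer K) (D D' : Set G),
      IsInd κ D → (∀ g, g ∈ D' ↔ s g ∈ D) → IsInd (H84Z.pull s hs κ) D') ∧
    ∀ (ι : GF →* G) (V : Subgroup GF) (hV : ∀ g, g ∈ V ↔ ι g ∈ H) (κ : LocKer H) (D : Set G)
      (D' : Set GF), IsInd κ D → (∀ g, g ∈ D' ↔ ι g ∈ D) → IsInd (H84Z.res ι hV κ) D' :=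
  ⟨fun _ _ _ => H68G.IsInd.unique, fun _ _ _ _ _ _ h hD => H68G.IsInd.pull h hD,
    fun _ _ _ _ _ _ h hD => H68G.IsInd.res h hD⟩

/-- **Powers** (`H68G1`): transport and restriction of the power `κ ^ n = lpow κ n`. -/
theorem powers {G GF : Type*} [Group G] [Group GF] {H K : Subgroup G} (s : G ≃* G)
    (hs : ∀ g, g ∈ H ↔ s g ∈ K) {ι : GF →* G} {V : Subgroup GF} (hV : ∀ g, g ∈ V ↔ ι g ∈ H)
    (hd : ∀ g : G, ∃ f : GF, g⁻¹ * ι f ∈ H) (κ : LocKer K) (κ' : LocKer H) (n : ℕ) :
    H84Z.pull s hs (lpow κ n) = lpow (H84Z.pull s hs κ) n ∧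
      H84Z.res ι hV (lpow κ' n) = lpow (H84Z.res ι hV κ') n :=
  ⟨H68G.pull_lpow hs κ n, H68G.res_lpow hV hd κ' n⟩

/-- **Components at the good places** (`H79SMono`, `H79SDef`). `C.kE.D.mono n k` is the test kernel
over `E` with exponents `n` at the good places and `k` at the auxiliary place. At a good place the
level is `U0 w`, the component is `T_w ^ n(w)`, and `T_w` is the indicator function of `cellT`. -/
theorem components_good {F E : Type} [Field F] [NumberField F] [Field E] [NumberField E]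
    [Algebra F E] (C : CSetup F E) (n : HeightOneSpectrum (𝓞 E) →₀ ℕ) (k : ℕ)
    {w : HeightOneSpectrum (𝓞 E)} (hw : w ∉ C.SE) (hw0 : w ≠ C.w0) :
    C.mE.L.U w = U0 w ∧ (C.kE.D.mono n k).loc w = lpow (C.kE.D.T w) (n w) ∧
      IsInd (C.kE.D.T w) (H51Z.cellT (w.valuation E)) :=
  ⟨C.kE.lev_good w hw hw0, C.kE.D.loc_good (by rwa [C.kE.D_S]) (by rwa [C.kE.D_w0]),
    C.kE.T_ind w hw hw0⟩

/-- **Transport of `T`** (`H68G1`): `T` at `σ w` is transported by `s` to `T` at `w`. -/
theorem transport_of_T {F E : Type} [Field F] [NumberField F] [Field E] [NumberField E]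
    [Algebra F E] (C : CSetup F E) {w : HeightOneSpectrum (𝓞 E)} (hw : w ∉ C.SE)
    (hw0 : w ≠ C.w0) (hsw : C.aE.σ w ∉ C.SE) (hsw0 : C.aE.σ w ≠ C.w0) :
    H84Z.pull C.aE.twist.s (C.aE.twist.map_U w) (C.kE.D.T (C.aE.twist.σ w)) = C.kE.D.T w :=
  H68G.pull_T C hw hw0 hsw hsw0

/-- **Exponents** (`H68G1`). If `x`, `y`, `z` are the three different places above `v`, the
exponent of `v` in the direct image of the family `n` of exponents is `n x + n y + n z`. -/
theorem exponents {α β : Type*} {f : α → β} {n : α →₀ ℕ} {v : β} {x y z : α} (hxy : y ≠ x)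
    (hxz : z ≠ x) (hyz : z ≠ y) (hx : f x = v) (hy : f y = v) (hz : f z = v)
    (h : ∀ a, f a = v → a = x ∨ a = y ∨ a = z) : (n.mapDomain f) v = n x + n y + n z :=
  H68G.mapDomain_three hxy hxz hyz hx hy hz h

/-- **Good places which split** (`H68G1`): the local comparison holds for the test kernel over `E`
with exponents `n`, `k` and the test kernel over `F` whose exponent at `v` is the sum of the
exponents of the three places above it. (`v` is not the auxiliary place `C.v0`, since `C.w0` is the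
only place above `C.v0`.) -/
theorem good_split {F E : Type} [Field F] [NumberField F] [Field E] [NumberField E]
    [Algebra F E] (C : CSetup F E) (n : HeightOneSpectrum (𝓞 E) →₀ ℕ) (k : ℕ)
    {v : HeightOneSpectrum (𝓞 F)} (hv : v ∉ C.SF) (hsp : ¬ H82.NonSplit E v) :
    H57C.PM0 C.s C.aE.twist (H47.below F) (H57C.below_σ C) (C.kE.D.mono n k)
      (C.kF.D.mono (n.mapDomain (H47.below F)) (3 * k)) (C.mF.L.fam.U v) v :=
  H68G.pm0_split C n k hv hsp _ rfl

/-! ## 6. Types and bad places

A type of level `U` (`H76U.Typ U`) consists of a group `H` containing `U` as a normal subgroup and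
a function `χ`, multiplicative on `H` and trivial on `U`. -/

/-- **The idempotent of a type** (`H84ZTyp`): the kernel `e(g, g') = [H : U]⁻¹ χ(g⁻¹ g')⁻¹` if
`g⁻¹ g'` is in `H`, and `0` otherwise. Its support is `H` and `e e = e`. -/
theorem idempotent {G : Type*} [Group G] {U : Subgroup G} (t : H76U.Typ U)
    (hf : U.relIndex t.H ≠ 0) :
    (∀ g g' : G, g⁻¹ * g' ∈ t.H → (H84Z.eker t hf).k (g : G ⧸ U) (g' : G ⧸ U) =
      (U.relIndex t.H : ℂ)⁻¹ * (t.chi (g⁻¹ * g'))⁻¹) ∧
    (∀ g g' : G, (H84Z.eker t hf).k (g : G ⧸ U) (g' : G ⧸ U) ≠ 0 ↔ g⁻¹ * g' ∈ t.H) ∧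
    LocKer.mul (H84Z.eker t hf) (H84Z.eker t hf) = H84Z.eker t hf :=
  ⟨fun g g' h => (H84Z.eker_k g g').trans (H84Z.efun_of_mem t h), H84Z.eker_ne_zero_iff,
    H84Z.eker_mul_self⟩

/-- **Transport of idempotents** (`H84ZTyp`): if `s` maps the type `t` to the type `t'`. -/
theorem idempotent_transport {G : Type*} [Group G] (s : G ≃* G) {U U' : Subgroup G}
    (h : ∀ g, g ∈ U ↔ s g ∈ U') {t : H76U.Typ U} {t' : H76U.Typ U'}
    (hH : ∀ g, g ∈ t.H ↔ s g ∈ t'.H) (hχ : ∀ g ∈ t.H, t'.chi (s g) = t.chi g)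
    (hf : U.relIndex t.H ≠ 0) (hf' : U'.relIndex t'.H ≠ 0) :
    H84Z.pull s h (H84Z.eker t' hf') = H84Z.eker t hf :=
  H84Z.pull_eker s h hH hχ hf hf'

/-- **Restriction of idempotents** (`H84ZTyp`). If the level and the type of `GF` are the
restrictions of those of `G`, and `G = ι(GF) U`, then the indices are the same, and the idempotent
over `GF` is the restriction of the one over `G`. -/
theorem idempotent_restriction {G GF : Type*} [Group G] [Group GF] (ι : GF →* G)
    {U : Subgroup G} {V : Subgroup GF} (hV : ∀ g, g ∈ V ↔ ι g ∈ U) {t : H76U.Typ U}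
    {tF : H76U.Typ V} (hd : ∀ g : G, ∃ f : GF, g⁻¹ * ι f ∈ U) (hH : ∀ g, g ∈ tF.H ↔ ι g ∈ t.H)
    (hχ : ∀ g ∈ tF.H, t.chi (ι g) = tF.chi g) (hf : U.relIndex t.H ≠ 0)
    (hfF : V.relIndex tF.H ≠ 0) :
    V.relIndex tF.H = U.relIndex t.H ∧
      H84Z.res ι hV (H84Z.eker t hf) = H84Z.eker tF hfF :=
  ⟨H84Z.relIndex_res ι hV hd hH hfF, H84Z.res_eker ι hV hd hH hχ hf hfF⟩

/-- **The product of the three idempotents** (`H84ZBad`), transported to `w`, is the idempotent at
`w`, if `s` maps the types at `w`, `σ w`, `σ² w` to each other. `H84Z.convAt` is the product in the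
hypothesis of `matching_split`. -/
theorem idempotent_product {G : Type*} [Group G] {ι : Type*} {L : LevelFam G ι} (T : Twist L)
    (a : GlobKer L) (i : ι) (t₀ : H76U.Typ (L.U i)) (t₁ : H76U.Typ (L.U (T.σ i)))
    (t₂ : H76U.Typ (L.U (T.σ (T.σ i)))) (hf₀ : (L.U i).relIndex t₀.H ≠ 0)
    (hf₁ : (L.U (T.σ i)).relIndex t₁.H ≠ 0) (hf₂ : (L.U (T.σ (T.σ i))).relIndex t₂.H ≠ 0)
    (hH₀ : ∀ g, g ∈ t₀.H ↔ T.s g ∈ t₁.H) (hχ₀ : ∀ g ∈ t₀.H, t₁.chi (T.s g) = t₀.chi g)
    (hH₁ : ∀ g, g ∈ t₁.H ↔ T.s g ∈ t₂.H) (hχ₁ : ∀ g ∈ t₁.H, t₂.chi (T.s g) = t₁.chi g)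
    (h₀ : a.loc i = H84Z.eker t₀ hf₀) (h₁ : a.loc (T.σ i) = H84Z.eker t₁ hf₁)
    (h₂ : a.loc (T.σ (T.σ i)) = H84Z.eker t₂ hf₂) :
    H84Z.convAt T a i = H84Z.eker t₀ hf₀ :=
  H84Z.convAt_eker3 T a i t₀ t₁ t₂ hf₀ hf₁ hf₂ hH₀ hχ₀ hH₁ hχ₁ h₀ h₁ h₂

/-- **Types given by lattices** (`T : H76U.TD K`, file `H76U2`). `T.H` consists of the classes of
the matrices whose diagonal entries are `1 + a`, `a` in the lattice `T.A`, and whose entries above
and below the diagonal are in `T.B` and `T.C`. The function `T.chi` is given by the additive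
character `T.psi`, and `T.U` is the kernel of `T.chi` on `T.H`. -/
theorem lattice_type_iff {K : Type*} [Field K] (T : H76U.TD K) :
    (∀ g : PGL(2, K), g ∈ T.H ↔ ∃ x : GL (Fin 2) K,
      (x 0 0 - 1 ∈ T.A ∧ x 0 1 ∈ T.B ∧ x 1 0 ∈ T.C ∧ x 1 1 - 1 ∈ T.A) ∧
        ProjGenLinGroup.mk x = g) ∧
    (∀ x : GL (Fin 2) K, T.chi (ProjGenLinGroup.mk x) = T.psi (x 0 1 / x 1 1)) ∧
    ∀ g : PGL(2, K), g ∈ T.U ↔ g ∈ T.H ∧ T.chi g = 1 :=
  ⟨fun _ => Iff.rfl, T.chi_mk, fun _ => Iff.rfl⟩

/-- **Homomorphisms and types given by lattices** (`H84ZBad`). If the lattices and the character of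
`T` are the inverse images of those of `T'` under a homomorphism `f` of fields, the same is true
for the groups `H` and `U` and for the function `chi`. If the image of the class of `x` is the class
of a matrix `y` as in the definition of `T'.H`, divide both by the lower right entry: then
`f(x / x 1 1)` is `y / y 1 1`, whose entries are in the lattices of `T'`. -/
theorem lattice_types {K K' : Type*} [Field K] [Field K'] (f : K →+* K') {T : H76U.TD K}
    {T' : H76U.TD K'} (hA : ∀ x, x ∈ T.A ↔ f x ∈ T'.A) (hB : ∀ x, x ∈ T.B ↔ f x ∈ T'.B)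
    (hC : ∀ x, x ∈ T.C ↔ f x ∈ T'.C) (hψ : ∀ x, T'.psi (f x) = T.psi x) (g : PGL(2, K)) :
    (g ∈ T.H ↔ ProjGenLinGroup.map f g ∈ T'.H) ∧
      T'.chi (ProjGenLinGroup.map f g) = T.chi g ∧
      (g ∈ T.U ↔ ProjGenLinGroup.map f g ∈ T'.U) :=
  ⟨H84Z.td_mem_H f hA hB hC g, H84Z.td_chi f hψ g, H84Z.td_mem_U f hA hB hC hψ g⟩

/-- **The characters** (`H92Psi`). `H7.Z.psi w` is the standard additive character at `w`. It is
compatible with automorphisms, and at a place which splits the character of `E` is equal to the one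
of `F` on `F`. (For a place which does not split this is wrong, see `psi_trace` in
`GuideOctCGeom`.) -/
theorem characters {F E : Type*} [Field F] [NumberField F] [Field E] [NumberField E]
    [Algebra F E] [IsGalois F E] (h3 : Module.finrank F E = 3) (s : E ≃ₐ[F] E) (hs : s ≠ 1)
    {v : HeightOneSpectrum (𝓞 F)} {w : HeightOneSpectrum (𝓞 E)} (hw : w ∈ H82.above E v)
    (hsw : H83Z.placePerm s w ≠ w) :
    (∀ x : E, H7.Z.psi (H83Z.placePerm s w) (s x) = H7.Z.psi w x) ∧
      ∀ x : F, H7.Z.psi w (algebraMap F E x) = H7.Z.psi v x :=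
  ⟨fun x => H92P.psi_aut (s : E ≃+* E) (H83Z.placePerm s) (fun u x => H83Z.placePerm_val s u x)
    rfl x, H92P.psi_split_cubic h3 s hs hw hsw⟩

/-- **The types of the setup are stable under `s`** (`H84ZBad`). -/
theorem types_stable {F E : Type} [Field F] [NumberField F] [Field E] [NumberField E]
    [Algebra F E] (C : CSetup F E) {w : HeightOneSpectrum (𝓞 E)} (hw : w ∈ C.SE)
    (g : PGL(2, E)) :
    (g ∈ (C.TE w).H ↔ C.aE.twist.s g ∈ (C.TE (C.aE.σ w)).H) ∧
      (C.TE (C.aE.σ w)).chi (C.aE.twist.s g) = (C.TE w).chi g :=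
  ⟨H84Z.cs_H_s C hw g, H84Z.cs_chi_s C hw g⟩

/-- **Components at the bad places** (`H84ZBad`). The level is the group `U` of the type, and the
component of all test kernels is the idempotent of the type (`H84Z.typOf` is `T.H`, `T.chi`,
regarded as a type of the level `U`). The same holds over `F`. -/
theorem component_bad {F E : Type} [Field F] [NumberField F] [Field E] [NumberField E]
    [Algebra F E] (C : CSetup F E) (n : HeightOneSpectrum (𝓞 E) →₀ ℕ) (k : ℕ)
    {w : HeightOneSpectrum (𝓞 E)} (hw : w ∈ C.SE) :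
    ∃ (hU : C.mE.L.fam.U w = (C.TE w).U)
      (hf : (C.mE.L.fam.U w).relIndex (H84Z.typOf (C.TE w) hU).H ≠ 0),
      (C.kE.D.mono n k).loc w = H84Z.eker (H84Z.typOf (C.TE w) hU) hf :=
  ⟨C.kE.lev_S w hw, H84Z.cs_relIndex C.kE hw _, H84Z.cs_loc_eker C.kE hw n k _ _⟩

/-- **Bad places which split** (`H84ZBad`, `H84ZBadP`). If the three lattices of the type at `v`
are the inverse images of those of the type at one place `w` above `v`, the local comparison holds
for all the kernels `mono n k` (in `H57C.PM0at` the group `H` of `pm0_iff` is the level at `v`,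
because `v` splits). For the setup of block (C) the hypothesis is in `types_everywhere` of
`GuideOctCGeom`. -/
theorem bad_split {F E : Type} [Field F] [NumberField F] [Field E] [NumberField E]
    [Algebra F E] (C : CSetup F E) {v : HeightOneSpectrum (𝓞 F)} (hv : v ∈ C.SF)
    (hns : ¬ H82.NonSplit E v) {w : HeightOneSpectrum (𝓞 E)} (hw : H47.below F w = v)
    (hT : ∀ x : F, (x ∈ (C.TF v).A ↔ algebraMap F E x ∈ (C.TE w).A) ∧
      (x ∈ (C.TF v).B ↔ algebraMap F E x ∈ (C.TE w).B) ∧
      (x ∈ (C.TF v).C ↔ algebraMap F E x ∈ (C.TE w).C))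
    (n : HeightOneSpectrum (𝓞 E) →₀ ℕ) (k : ℕ) : H57C.PM0at C n k v :=
  H84Z.pm0at_badsplit C hv hns hw hT n k

end Fermat.Agent.Guide.OctCSplit
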