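import Fermat.Agent.H79SCmp

/-!
# Reader's guide: the form over `E` and the target index (block (C) of S47)

Nothing is proved in this file. Every theorem is the exact statement of a theorem of the library,
with all hypotheses written out, followed by a citation. Only `Guide` imports it. It is a companion
of `Fermat.Agent.GuideOctC` and continues `Fermat.Agent.GuideOctCLevel` (operators on coset spaces,
Iwahori algebra, monomials, change of level), whose language is used here.

## What it is about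

Block (C) compares two traces, over the sextic field `E` and over `F = ℚ(ω)`. It starts from a form
`Φ` over `E`, delivered by block (D). This file explains how the hypotheses on the side of `E` of
`GuideOctC.abstract_comparison` are obtained from `Φ`: an index `p₀` of the spectral decomposition of
positive weight, the size of its last coordinate, and the fact that the automorphism `s` of `E` over
`F` acts as the identity on all blocks with the coordinates of `p₀`.

1. *The form over `E`* (`kernels_of_the_block` to `C_on_the_form`): the kernels of the block, the model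
   on which block (D) delivers the form, the form at Iwahori level and the operators on it.
2. *The target index and the automorphism* (`auxiliary_place` to `s_is_one`).

The continuation (extraction of a form over `F`) is in section 4 of `GuideOctCSpec`.

## References

NOTES.md, section A.13: [450] target (helper50), [433] the form at Iwahori level (helper56), [448],
[443] block (C) (helper79, helper17), [412] positivity (helper7), [435] the sides (helper42), [449]
operator data (helper21), [475], [402] kernels (helper59, helper51). Files `H79SDef`, `H79SFam`,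
`H79SCmp` (helper79), `H50ZDn`, `H50ZFin`, `H50ZEF`, `H50ZPos` (helper50), `H56ZTgt1` to `H56ZTgt3`
(helper56), `H84ZTyp` (helper84), `H51ZKD*` (helper51). All theorems are in the closure of S47 only.

## Notation

`m : Model K J` is the level with the enumeration of the complex places, `m.X` the space `X`
(`GuideOctC`, section 1); `T : H76U.TD K` are the data of a type, `H76U.Typ` is a type
(`GuideOctC.types`, `GuideOctDForm.typ_notions`); `IsReps` and `HData` are as in
`GuideOctCLevel.representatives` and `GuideOctCLevel.monomials`. `C : CSetup F E` is the setup of block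
(C): the models `C.mE`, `C.mF`, the kernels `C.kE`, `C.kF`, the types `C.TE`, `C.TF` at the bad places
`C.SE`, `C.SF`, the auxiliary places `C.w0`, `C.v0`, the automorphism `C.aE`
(`GuideOctCSetup.setup_spec`, `GuideOctCSetup.setup_types`). A side of the comparison is an
`H42S.SideC J`, with the set `I` of indices (`GuideOctCSeparation.side_fields`,
`GuideOctCSeparation.index_set`).
-/

set_option autoImplicit false

open MeasureTheory IsDedekindDomain HeightOneSpectrum WithZero NumberField Matrix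
open scoped MatrixGroups ComplexConjugate
open Fermat.Agent.H59XF Fermat.Agent.H59D Fermat.Agent.H51Z Fermat.Agent.H79S

namespace Fermat.Agent.Guide.OctCTarget

/-! ## 1. The form over `E` -/

/-- **The kernels of the block.** `k : KerData m S w0 T` says that the level of the model `m` is the
kernel `(T w).U` of the type `T w` at the bad places `w ∈ S`, the Iwahori subgroup at `w0`, and maximal
at the other places; it contains the kernels of the types at `S`, of `U` at `w0`, and of the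
Hecke operators `T_w` at the other places. They are given by their values, since the levels are only
equal, not definitionally equal, to the standard groups. File `H79SDef`. -/
theorem kernels_of_the_block {K : Type*} [Field K] [NumberField K] {J : Type*} [Fintype J]
    {m : Model K J} {S : Finset (HeightOneSpectrum (𝓞 K))} {w0 : HeightOneSpectrum (𝓞 K)}
    {T : HeightOneSpectrum (𝓞 K) → H76U.TD K} (k : KerData m S w0 T) :
    k.D.S = S ∧ k.D.w0 = w0 ∧
    (∀ w ∈ S, m.L.U w = (T w).U ∧ ((T w).U.subgroupOf (T w).H).index ≠ 0 ∧ ∀ g g' : PGL(2, K),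
      (g⁻¹ * g' ∈ (T w).H → (k.D.e w).k g g' =
        ((T w).chi (g⁻¹ * g'))⁻¹ / (((m.L.fam.U w).subgroupOf (T w).H).index : ℂ)) ∧
      (g⁻¹ * g' ∉ (T w).H → (k.D.e w).k g g' = 0)) ∧
    (m.L.U w0 = H83Z.Iw w0 ∧ ∀ g g' : PGL(2, K),
      (g⁻¹ * g' ∈ cellU (w0.valuation K) (exp (-1 : ℤ)) → (k.D.U w0).k g g' = 1) ∧
      (g⁻¹ * g' ∉ cellU (w0.valuation K) (exp (-1 : ℤ)) → (k.D.U w0).k g g' = 0)) ∧
    ∀ w ∉ S, w ≠ w0 → m.L.U w = H59D.U0 w ∧ ∀ g g' : PGL(2, K),
      (g⁻¹ * g' ∈ cellT (w.valuation K) → (k.D.T w).k g g' = 1) ∧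
      (g⁻¹ * g' ∉ cellT (w.valuation K) → (k.D.T w).k g g' = 0) :=
  ⟨k.D_S, k.D_w0, fun w hw => ⟨k.lev_S w hw, k.e_index w hw, k.e_typ w hw⟩,
    ⟨k.lev_w0, k.U_ind⟩, fun w hw h0 => ⟨k.lev_good w hw h0, k.T_ind w hw h0⟩⟩

/-- **Existence of the kernels.** The level has to be as described, and the levels at the bad places have
to be of finite index in the groups of the types; nothing else is needed. File `H51ZKD2`. -/
theorem exists_kernels {K : Type*} [Field K] [NumberField K] {J : Type*} [Fintype J]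
    (m : Model K J) (S : Finset (HeightOneSpectrum (𝓞 K))) (w0 : HeightOneSpectrum (𝓞 K))
    (T : HeightOneSpectrum (𝓞 K) → H76U.TD K) (hw0 : w0 ∉ S) (hS : ∀ w ∈ S, m.L.U w = (T w).U)
    (hgood : ∀ w ∉ S, w ≠ w0 → m.L.U w = H59D.U0 w) (hIw : m.L.U w0 = H83Z.Iw w0)
    (hidx : ∀ w ∈ S, ((T w).U.subgroupOf (T w).H).index ≠ 0) : Nonempty (KerData m S w0 T) :=
  exists_kerData m S w0 T hw0 hS hgood hIw hidx

/-- **Test kernels.** On `X(E)`: a radial kernel `κ` in the three infinite variables times a monomial.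
On `X(F)`: the matching kernel is `bF κ` (convolution of the three variables, see `GuideOctC`) times
the monomial with the Hecke operators at the places below, and with `U ^ (3k)` in place of `U ^ k`.
Without `U` and for real `κ` both kernels are hermitian. Files `H79SDef`, `H79SCmp`, `H51ZKD3`. -/
theorem test_kernels {F E : Type} [Field F] [NumberField F] [Field E] [NumberField E]
    [Algebra F E] (C : CSetup F E) {κ : (Fin 3 → ℝ) → ℂ} (hκ : ∀ t, conj (κ t) = κ t)
    (n : HeightOneSpectrum (𝓞 E) →₀ ℕ) (k : ℕ) (x x' : C.mE.X) (y y' : C.mF.X) :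
    C.tkE κ n k x x' = κ (H5Z.chv x.1 x'.1) * (C.kE.D.mono n k).k x.2 x'.2 ∧
    C.tkB κ n k y y' = H67M.bF κ (H5Z.chv y.1 y'.1) *
      (C.kF.D.mono (n.mapDomain (H47.below F)) (3 * k)).k y.2 y'.2 ∧
    C.tkE κ n 0 x' x = conj (C.tkE κ n 0 x x') ∧
    C.tkB κ n 0 y' y = conj (C.tkB κ n 0 y y') :=
  ⟨rfl, rfl, herm_tkE C hκ n x x', herm_tkF C (conj_bF hκ) _ y y'⟩

/-- **The model of block (D).** `C.m0` is the model `C.mE` with maximal level at `w0`. It is of the kind
on which block (D) delivers its form: the kernel of a type at the bad places, maximal level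
elsewhere. File `H50ZDn`. -/
theorem maximal_level_model {F E : Type} [Field F] [NumberField F] [Field E] [NumberField E]
    [Algebra F E] (C : CSetup F E) :
    C.w0 ∉ C.SE ∧ C.m0.L.U C.w0 = H59D.U0 C.w0 ∧
      (∀ w, w ≠ C.w0 → C.m0.L.U w = C.mE.L.U w) ∧ (∀ w ∈ C.SE, C.m0.L.U w = (C.TE w).U) ∧
      (∀ w ∉ C.SE, C.m0.L.U w = H59D.U0 w) ∧ ∀ w, C.mE.L.U w ≤ C.m0.L.U w :=
  ⟨C.w0S, C.m0_w0, fun _ h => C.m0_of_ne h, fun _ h => C.m0_S h, fun _ h => C.m0_good h, C.le_m0⟩

open Classical in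
/-- **The form at Iwahori level**, `IsEForm C a Φ`, unfolded: invariance; continuity and polynomial growth
in the heights; spectral parameter `0` (`H9Z.Ker κ`: the radial kernel `κ` is continuous where all
variables are `≥ 1`, and zero as soon as one of them is large; `hat κ` is its eigenvalue); Hecke
eigenvalues `√(N w) a_w` outside `SE` and `w0`; types at `SE`; at `w0` right invariance under the maximal
compact subgroup and the Hecke equation; `Φ` is not zero. File `H79SFam`. -/
theorem isEForm_iff {F E : Type} [Field F] [NumberField F] [Field E] [NumberField E]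
    [Algebra F E] (C : CSetup F E) (a : HeightOneSpectrum (𝓞 E) → ℝ) (Φ : C.mE.X → ℂ) :
    IsEForm C a Φ ↔
    (∀ (g : PGL(2, E)) (x : C.mE.X), Φ (g • x) = Φ x) ∧
    (∀ y : XF C.mE.L.fam, Continuous fun τ : Fin 3 → H3 => Φ (τ, y)) ∧
    (∀ y : XF C.mE.L.fam, ∃ A : ℝ, ∀ c : ℝ, 0 < c → ∃ M : ℝ, ∀ τ : Fin 3 → H3,
      (∀ j, c ≤ (τ j).y) → ‖Φ (τ, y)‖ ≤ M * (∏ j, (τ j).y) ^ A) ∧
    (∀ κ : (Fin 3 → ℝ) → ℂ, H9Z.Ker κ → ∀ (y : XF C.mE.L.fam) (τ : Fin 3 → H3),
      H5Z.Rk κ (fun v => Φ (v, y)) τ = H9Z.hat κ * Φ (τ, y)) ∧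
    (∀ w ∉ C.SE, w ≠ C.w0 → ∀ x : C.mE.X,
      gop (single w (C.kE.D.T w)) (fun y => Φ (x.1, y)) x.2 =
        ((Real.sqrt (Ideal.absNorm w.asIdeal) * a w : ℝ) : ℂ) * Φ x) ∧
    (∀ x : C.mE.X, gop (C.kE.D.mono 0 0) (fun y => Φ (x.1, y)) x.2 = Φ x) ∧
    (∀ (τ : Fin 3 → H3) (y : XF C.mE.L.fam) (g u : PGL(2, E)), u ∈ H59D.U0 C.w0 →
      Φ (τ, XF.upd y C.w0 ((g * u : PGL(2, E)) : PGL(2, E) ⧸ C.mE.L.fam.U C.w0)) =
        Φ (τ, XF.upd y C.w0 ((g : PGL(2, E)) : PGL(2, E) ⧸ C.mE.L.fam.U C.w0))) ∧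
    (∀ (ϖ : Eˣ), C.w0.valuation E (ϖ : E) = exp (-(1 : ℤ)) →
      ∀ R : Finset E, IsReps (C.w0.valuation E) 1 R →
      ∀ (τ : Fin 3 → H3) (y : XF C.mE.L.fam) (g : PGL(2, E)),
        y C.w0 = (g : PGL(2, E) ⧸ C.mE.L.fam.U C.w0) →
        ((Real.sqrt (Ideal.absNorm C.w0.asIdeal) * a C.w0 : ℝ) : ℂ) * Φ (τ, y) =
          ∑ b ∈ R, Φ (τ, XF.upd y C.w0 ((g * ProjGenLinGroup.mk (bm 1 b) *
            ProjGenLinGroup.mk (bm ϖ 0) : PGL(2, E)) : PGL(2, E) ⧸ C.mE.L.fam.U C.w0)) +
          Φ (τ, XF.upd y C.w0 ((g * (ProjGenLinGroup.mk (bm ϖ 0))⁻¹ : PGL(2, E)) :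
            PGL(2, E) ⧸ C.mE.L.fam.U C.w0))) ∧
    ∃ x, Φ x ≠ 0 :=
  ⟨fun h => ⟨h.inv, h.cont, h.growth, h.rad, h.hecke, h.eS, h.inv0, h.hecke0, h.ne⟩,
    fun ⟨h1, h2, h3, h4, h5, h6, h7, h8, h9⟩ => ⟨h1, h2, h3, h4, h5, h6, h7, h8, h9⟩⟩

open Classical in
/-- **Types and idempotents.** Let `κ` be the kernel of the type `t` at the place `i`
(`GuideOctCLevel.kernel_of_a_type`); `t.rt h` is right multiplication of the cosets by `h ∈ t.H`. A
function `f` of type `t` at `i` is fixed by the operator of `κ`, whose value at `x` is the mean of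
`χ(h)⁻¹ f(.., g h, ..) = f(x)` over the cosets `h U`, `h ∈ t.H`, where `U = L.U i` and `x i = g U`. A
function which is fixed by the operators of `D.e j` for all `j ∈ D.S` is fixed by the product
`D.mono 0 0` of the idempotents. Files `H84ZTyp`, `H56ZTgt1`. -/
theorem types_and_idempotents {G : Type*} [Group G] {ι : Type*} {L : LevelFam G ι} {i : ι}
    {κ : LocKer (L.U i)} {t : H76U.Typ (L.U i)} (hf : (L.U i).relIndex t.H ≠ 0)
    (hκ : ∀ g g' : G, (g⁻¹ * g' ∈ t.H → κ.k (g : G ⧸ L.U i) (g' : G ⧸ L.U i) =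
        (t.chi (g⁻¹ * g'))⁻¹ / (((L.U i).subgroupOf t.H).index : ℂ)) ∧
      (g⁻¹ * g' ∉ t.H → κ.k (g : G ⧸ L.U i) (g' : G ⧸ L.U i) = 0))
    {E : Type*} [AddCommGroup E] [Module ℂ E] {f : XF L → E} (D : HData L) :
    ((∀ (h : t.H) (x : XF L), f (XF.upd x i (t.rt h (x i))) = t.chi h • f x) → lop i κ f = f) ∧
    ((∀ j ∈ D.S, lop j (D.e j) f = f) → gop (D.mono 0 0) f = f) :=
  ⟨fun h => by rw [H56Z.isTyp_eq_eker hκ hf]; exact H84Z.IsTypedAt.lop_eker h,
    fun h => H56Z.gop_eS_of D h⟩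

open Classical in
/-- **Hecke equations and types under change of level.** Let `L'.U w ≤ L.U w` for all places and let `φ`
be a function of level `L`, with pull back `φ ∘ pull h` (`GuideOctCLevel.change_of_level`). The Hecke
equation of `φ` at `w` (as in `GuideOctCLevel.hecke_equation`) gives the same equation for the pull back;
and if `φ` is of type `t` at `w` and `t'` is the same type for the level `L'` (same group and same
character), then the pull back is of type `t'`. File `H56ZTgt2`. -/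
theorem equations_under_pull_back {K : Type*} [Field K] [NumberField K]
    {L' L : LevelFam PGL(2, K) (HeightOneSpectrum (𝓞 K))} (h : ∀ w, L'.U w ≤ L.U w) {φ : XF L → ℂ}
    {w : HeightOneSpectrum (𝓞 K)} :
    (∀ {ϖ : Kˣ} {R : Finset K} {lam : ℂ},
      (∀ (y : XF L) (g : PGL(2, K)), y w = (g : PGL(2, K) ⧸ L.U w) → lam * φ y =
        ∑ b ∈ R, φ (XF.upd y w ((g * ProjGenLinGroup.mk (bm 1 b) *
          ProjGenLinGroup.mk (bm ϖ 0) : PGL(2, K)) : PGL(2, K) ⧸ L.U w)) +
        φ (XF.upd y w ((g * (ProjGenLinGroup.mk (bm ϖ 0))⁻¹ : PGL(2, K)) :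
          PGL(2, K) ⧸ L.U w))) →
      ∀ (y : XF L') (g : PGL(2, K)), y w = (g : PGL(2, K) ⧸ L'.U w) →
        lam * φ (H50Z.pull h y) =
          ∑ b ∈ R, φ (H50Z.pull h (XF.upd y w ((g * ProjGenLinGroup.mk (bm 1 b) *
            ProjGenLinGroup.mk (bm ϖ 0) : PGL(2, K)) : PGL(2, K) ⧸ L'.U w))) +
          φ (H50Z.pull h (XF.upd y w ((g * (ProjGenLinGroup.mk (bm ϖ 0))⁻¹ : PGL(2, K)) :
            PGL(2, K) ⧸ L'.U w)))) ∧
    ∀ {t : H76U.Typ (L.U w)} {t' : H76U.Typ (L'.U w)}, t'.H = t.H →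
      (∀ g ∈ t.H, t'.chi g = t.chi g) →
      (∀ (a : t.H) (y : XF L), φ (XF.upd y w (t.rt a (y w))) = t.chi a * φ y) →
      ∀ (a : t'.H) (y : XF L'),
        φ (H50Z.pull h (XF.upd y w (t'.rt a (y w)))) = t'.chi a * φ (H50Z.pull h y) :=
  ⟨fun hH => H56Z.heckeEq_pull h hH, fun hH hc hφ => H56Z.typed_pull h hH hc hφ⟩

/-- **From maximal level to Iwahori level.** If `Φ` is a form in the sense of block (D) on the model
`C.m0` (`IsDForm`, unfolded in `GuideOctDForm`), with the types of the setup, then its pull back is a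
form in the sense of block (C). The Hecke equations and the types of `Φ` pass to the pull back
(`equations_under_pull_back`), and `GuideOctCLevel.hecke_equation` and `types_and_idempotents` apply.
Since `C.m0` has maximal level at `w0`, `Φ` also gives the two conditions at `w0` in `isEForm_iff`. The
pull back on `X` is equivariant and surjective (`GuideOctCLevel.change_of_level`), so the pull back of `Φ`
is invariant and not zero. Files `H56ZTgt1`, `H56ZTgt2`. -/
theorem form_at_Iwahori_level {F E : Type} [Field F] [NumberField F] [Field E] [NumberField E]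
    [Algebra F E] (C : CSetup F E) {a : HeightOneSpectrum (𝓞 E) → ℝ}
    {Ty : ∀ w, H76U.Typ (C.m0.L.fam.U w)} (hH : ∀ w ∈ C.SE, (Ty w).H = (C.TE w).H)
    (hchi : ∀ w ∈ C.SE, ∀ g ∈ (C.TE w).H, (Ty w).chi g = (C.TE w).chi g) {Φ : C.m0.X → ℂ}
    (hΦ : H55D.IsDForm C.m0 C.SE Ty a Φ) :
    IsEForm C a (fun x => Φ (x.1, H50Z.pull (L' := C.mE.L.fam) (L := C.m0.L.fam) C.le_m0 x.2)) :=
  H56Z.isEForm_of_isDForm C hH hchi hΦ

/-- **`P` and `T` on the form**: `P Φ = (q + 1) Φ` and `P W Φ = √q a_{w0} Φ`, `q = N(w0) > 1`, by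
`GuideOctCLevel.maximal_level_T` and the Hecke equation. `C.Pk`, `C.Wk` are the kernels of `P`, `W` on
the level of `C.mE` at `w0`. File `H50ZEF`. -/
theorem P_W_on_the_form {F E : Type} [Field F] [NumberField F] [Field E] [NumberField E]
    [Algebra F E] {C : CSetup F E} {a : HeightOneSpectrum (𝓞 E) → ℝ} {Φ : C.mE.X → ℂ}
    (h : IsEForm C a Φ) (x : C.mE.X) :
    1 < (Ideal.absNorm C.w0.asIdeal : ℝ) ∧
    gop (single C.w0 C.Pk) (fun y => Φ (x.1, y)) x.2 =
      ((Ideal.absNorm C.w0.asIdeal : ℝ) + 1 : ℝ) * Φ x ∧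
    gop (single C.w0 C.Pk) (fun y => gop (single C.w0 C.Wk) (fun y' => Φ (x.1, y')) y) x.2 =
      ((Real.sqrt (Ideal.absNorm C.w0.asIdeal) * a C.w0 : ℝ) : ℂ) * Φ x :=
  ⟨C.one_lt_q0, h.gX_Pk x, h.gX_Pk_Wk x⟩

/-- **Operators on the form.** Let `Φ` be bounded; `h.toB hb` is `Φ` as an element of the space `BInv` of
bounded measurable invariant functions. On this space `rkB κ` is the operator of the radial kernel `κ` in
the infinite variables (`IsRC κ`: `κ` is continuous, bounded, and zero as soon as one of the variables is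
large) and `gopB b` the operator of the global kernel `b`. They act on `Φ` by `hat κ`, by `√(N w) a_w` for
the Hecke operator `T_w`, and by the product of the powers for a monomial without `U`
(`GuideOctCLevel.monomial_on_eigenfunction`); for `n = 0` this is the product of the idempotents, which
fixes `Φ`. (`C.OkN n`: `n` is supported at places outside `SE` which lie above places of `F` split in
`E`.) File `H56ZTgt3`. -/
theorem operators_on_the_form {F E : Type} [Field F] [NumberField F] [Field E] [NumberField E]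
    [Algebra F E] {C : CSetup F E} {a : HeightOneSpectrum (𝓞 E) → ℝ} {Φ : C.mE.X → ℂ}
    (h : IsEForm C a Φ) (hb : ∃ M : ℝ, ∀ x, ‖Φ x‖ ≤ M) :
    (h.toB hb : C.mE.X → ℂ) = Φ ∧
    (∀ {κ : (Fin 3 → ℝ) → ℂ} (hκ : H56Z.IsRC κ),
      H21Z.rkB C.mE hκ (h.toB hb) = H9Z.hat κ • h.toB hb) ∧
    (∀ w ∉ C.SE, w ≠ C.w0 → H21Z.gopB C.mE (single w (C.kE.D.T w)) (h.toB hb) =
      ((Real.sqrt (Ideal.absNorm w.asIdeal) * a w : ℝ) : ℂ) • h.toB hb) ∧
    ∀ n : HeightOneSpectrum (𝓞 E) →₀ ℕ, C.OkN n →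
      H21Z.gopB C.mE (C.kE.D.mono n 0) (h.toB hb) =
        (n.prod fun w k => ((Real.sqrt (Ideal.absNorm w.asIdeal) * a w : ℝ) : ℂ) ^ k) • h.toB hb :=
  ⟨rfl, fun hκ => h.rkB_toB hb hκ, fun _ hw h0 => h.gopB_T hb hw h0,
    fun _ hn => h.gopB_mono hb hn⟩

/-- **The operator `C` on the form.** Let `Φ` be bounded. The integral operator (`kop`, for the finite
measure `c.ν`) of the automorphic kernel of the sum of the test kernels `κ_i`, `n_i` acts on `Φ` by
`∑ (hat κ_i) ∏ (√(N w) a_w)^(n_i w)`: it is the sum of the products of the operators of `κ_i` and of the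
monomials `n_i` (`GuideOctCSpec.autK_operator`); apply the preceding theorem, whose notation is used. File
`H56ZTgt3`. -/
theorem C_on_the_form {F E : Type} [Field F] [NumberField F] [Field E] [NumberField E]
    [Algebra F E] {C : CSetup F E} {a : HeightOneSpectrum (𝓞 E) → ℝ} {Φ : C.mE.X → ℂ}
    (h : IsEForm C a Φ) (hb : ∃ M : ℝ, ∀ x, ‖Φ x‖ ≤ M) {ι : Type*} (s : Finset ι)
    {κ : ι → (Fin 3 → ℝ) → ℂ} (hκ : ∀ i, H56Z.IsRC (κ i))
    {n : ι → HeightOneSpectrum (𝓞 E) →₀ ℕ} (hn : ∀ i ∈ s, C.OkN (n i))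
    (c : H32Z.CutOff PGL(2, E) C.mE.X) [IsFiniteMeasure (c.ν C.mE.μ)]
    (hK : H32Z.BK (H32Z.CutOff.autK PGL(2, E) fun x y => ∑ i ∈ s, C.tkE (κ i) (n i) 0 x y))
    (hG : ∀ (g : PGL(2, E)) x y,
      H32Z.CutOff.autK PGL(2, E) (fun x y => ∑ i ∈ s, C.tkE (κ i) (n i) 0 x y) (g • x) y =
      H32Z.CutOff.autK PGL(2, E) (fun x y => ∑ i ∈ s, C.tkE (κ i) (n i) 0 x y) x y) :
    H21Z.kop hK (c.ν C.mE.μ) hG (h.toB hb) =
      (∑ i ∈ s, H9Z.hat (κ i) * (n i).prod fun w k =>
        ((Real.sqrt (Ideal.absNorm w.asIdeal) * a w : ℝ) : ℂ) ^ k) • h.toB hb :=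
  h.kop_toB hb s hκ hn c hK hG

/-! ## 2. The target index and the automorphism

The two sides of the comparison of `GuideOctC.abstract_comparison` are obtained from operator data
`OpData`: operators on the space `BInv` of bounded measurable invariant functions on `X(E)` resp. `X(F)`
which commute with the integral operator `kop` of an automorphic kernel. `D.side` consists of the
eigenspaces of this operator for the real numbers `c ≠ 0`, with the weights `c²`. -/

/-- **The auxiliary place.** `w0` is the only place of `E` above `v0`, hence fixed by the automorphism, and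
`N(w0) = N(v0)³`. So the normalised operator `U / √N(w0)` on the side of `E` corresponds to the third
power of `U / √N(v0)` on the side of `F`. Files `H79SDef`, `H7ZHook2`, `H42T7`. -/
theorem auxiliary_place {F E : Type} [Field F] [NumberField F] [Field E] [NumberField E]
    [Algebra F E] (C : CSetup F E) :
    H82.above E C.v0 = {C.w0} ∧ C.aE.σ C.w0 = C.w0 ∧
      (Real.sqrt (Ideal.absNorm C.w0.asIdeal))⁻¹ =
        ((Real.sqrt (Ideal.absNorm C.v0.asIdeal))⁻¹) ^ 3 :=
  ⟨C.above_v0, H7.Z.σ_w0 C, H42T.sqrt_w0 C⟩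

/-- **Operator data**, the relations between the operators: a commuting family `Y`; an operator `s` with
`s³ = 1` and `s (Y k) = (Y (σ k)) s`; symmetric operators `Y (j l)`, indexed by the common labels, for the
pairing `∫ conj f · g dν`; operators `W`, `P` at the auxiliary place, also symmetric; `Y u` is the
`e`-th power of `W (P - 1) / √q`, where `e = 1` over `E` and `e = 3` over `F`. All operators commute with
`kop`. In the application the `P` of this theorem is `W P W` in the notation of `GuideOctCLevel`, so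
`W (P - 1)` is `U`. File `H21Z2`. -/
theorem operator_data {G X : Type} [Group G] [MulAction G X] [MeasurableSpace X] {ν : Measure X}
    [IsFiniteMeasure ν] {K : X → X → ℂ} {J : Type} {hK : H32Z.BK K}
    {hG : ∀ (g : G) x y, K (g • x) y = K x y} (D : H21Z.OpData J hK ν hG) :
    (∀ k l, Commute (D.Y k) (D.Y l)) ∧ (∀ k, D.s * D.Y k = D.Y (D.σ k) * D.s) ∧ D.s ^ 3 = 1 ∧
      (∀ k, D.σ (D.σ (D.σ k)) = k) ∧
      (∀ l (f g : H21Z.BInv G X), ∫ x, conj ((D.Y (D.j l) f : X → ℂ) x) * (g : X → ℂ) x ∂ν =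
        ∫ x, conj ((f : X → ℂ) x) * (D.Y (D.j l) g : X → ℂ) x ∂ν) ∧
      D.W * D.W = 1 ∧ D.P * D.P = ((D.q + 1 : ℝ) : ℂ) • D.P ∧ 1 ≤ D.q ∧ 0 < D.e ∧
      D.Y D.u = ((((Real.sqrt D.q)⁻¹ : ℝ) : ℂ) • (D.W * (D.P - 1))) ^ D.e :=
  ⟨D.Y_comm, D.s_comm, D.s3, D.σ3, D.adj, D.W_sq, D.P_sq, D.one_le_q, D.e_pos, D.Y_u⟩

/-- **The automorphism and the operators.** `sB C.aE` is composition with the inverse of the automorphism
of `X(E)` induced by `s`. It transforms the Hecke operator at `w` into the one at `s(w)`, and commutes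
with the powers of `U` at the auxiliary place. Files `H79SCmp`, `H59K*`, `H21Z5`. -/
theorem operators_and_s {F E : Type} [Field F] [NumberField F] [Field E] [NumberField E]
    [Algebra F E] (C : CSetup F E) {w : HeightOneSpectrum (𝓞 E)} (hw : w ∉ C.SE)
    (h0 : w ≠ C.w0) (e : ℕ) :
    H21Z.sB C.aE * H21Z.gopB C.mE (single w (C.kE.D.T w)) =
      H21Z.gopB C.mE (single (C.aE.σ w) (C.kE.D.T (C.aE.σ w))) * H21Z.sB C.aE ∧
    H21Z.sB C.aE * H21Z.gopB C.mE (single C.kE.D.w0 (lpow (C.kE.D.U C.kE.D.w0) e)) =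
      H21Z.gopB C.mE (single C.kE.D.w0 (lpow (C.kE.D.U C.kE.D.w0) e)) * H21Z.sB C.aE :=
  ⟨H21Z.sB_gopB C.aE (isTw_T C (by rw [C.kE.D_S, C.kE.D_w0]; exact ⟨hw, h0⟩)),
    H21Z.sB_gopB C.aE (isTw_U C e)⟩

/-- **The Hecke operators are symmetric**: the kernel of `T_w` is hermitian, because the double coset
`cellT` is stable under inversion; hence the operator is symmetric for the pairing over
`PGL₂(K) \ X`, computed with a cut-off `c`. File `H50ZPos`. -/
theorem T_symmetric {K : Type} [Field K] [NumberField K] {J : Type} [Fintype J] {m : Model K J}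
    {S : Finset (HeightOneSpectrum (𝓞 K))} {w0 : HeightOneSpectrum (𝓞 K)}
    {T : HeightOneSpectrum (𝓞 K) → H76U.TD K} (k : KerData m S w0 T)
    (c : H32Z.CutOff PGL(2, K) m.X) [IsFiniteMeasure (c.ν m.μ)] {w : HeightOneSpectrum (𝓞 K)}
    (hw : w ∉ S) (h0 : w ≠ w0) (f g : H21Z.BInv PGL(2, K) m.X) :
    (∀ x y, (k.D.T w).k y x = conj ((k.D.T w).k x y)) ∧
    ∫ x, conj ((H21Z.gopB m (single w (k.D.T w)) f : m.X → ℂ) x) * (g : m.X → ℂ) x
        ∂(c.ν m.μ) =
      ∫ x, conj ((f : m.X → ℂ) x) * (H21Z.gopB m (single w (k.D.T w)) g : m.X → ℂ) x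
        ∂(c.ν m.μ) :=
  ⟨H50Z.herm_T k hw h0, H50Z.isAdj_T k c hw h0 f g⟩

/-- **Roots.** For real `a` with `|a| ≤ 2` the roots of `y² - a y + 1` have absolute value one. For
`a = a_{w0}` they are the normalised eigenvalues of `U` on the span of `Φ` and `W Φ`. (In the application
`a_w` is the trace of an element of the quaternion group, so `0` or `±2`.) File `H50ZFin`. -/
theorem norm_root {a : ℝ} (ha : |a| ≤ 2) :
    (∃ y : ℂ, y ^ 2 - a * y + 1 = 0) ∧ ∀ y : ℂ, y ^ 2 - a * y + 1 = 0 → ‖y‖ = 1 :=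
  ⟨H50Z.exists_root a, fun _ h => H50Z.norm_eq_one_of_root ha h⟩

/-- **The target index.** `D` is operator data on `X(E)` with the operators `W` and `P' = W P W` at `w0`
(so that `W (P' - 1) = (P - 1) W` is `U`). The form `Φ` is an eigenfunction of the automorphic kernel
with eigenvalue `c ≠ 0` and of all `Y k`, `k ≠ u`, with eigenvalues `χ k` invariant under `σ`. Then there
is an index `p₀` of `D.side` of positive weight with coordinates `χ`, and with the last coordinate
`y ^ e`, `y` a root of `y² - a_{w0} y + 1`, `|y| = 1`. The eigenvector is `W Φ - √q y Φ`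
(`GuideOctC.target_vector` for `W Φ`, `P'`). Files `H50ZFin`, `H50ZEF`, `H50ZTgt`. -/
theorem target_index {F E : Type} [Field F] [NumberField F] [Field E] [NumberField E]
    [Algebra F E] {C : CSetup F E} {a : HeightOneSpectrum (𝓞 E) → ℝ}
    {Φ : H21Z.BInv PGL(2, E) C.mE.X} (h : IsEForm C a (Φ : C.mE.X → ℂ)) {ν : Measure C.mE.X}
    [IsFiniteMeasure ν] [MeasurableSpace.CountablyGenerated C.mE.X] {K : C.mE.X → C.mE.X → ℂ}
    {J : Type} {hK : H32Z.BK K} {hG : ∀ (g : PGL(2, E)) x y, K (g • x) y = K x y}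
    (D : H21Z.OpData J hK ν hG) (hsym : ∀ x y, K y x = conj (K x y)) (ha : |a C.w0| ≤ 2)
    (hW : D.W = H21Z.gopB C.mE (single C.w0 C.Wk))
    (hP : D.P = D.W * H21Z.gopB C.mE (single C.w0 C.Pk) * D.W)
    (hq : D.q = (Ideal.absNorm C.w0.asIdeal : ℝ)) {c : ℝ} (hc : c ≠ 0)
    (hker : H21Z.kop hK ν hG Φ = (c : ℂ) • Φ) {χ : D.N → ℂ}
    (hχ : ∀ k, k ≠ D.u → D.Y k Φ = χ k • Φ) (hcomm : ∀ k, k ≠ D.u → Commute (D.Y k) D.W)
    (hσu : D.σ D.u = D.u) (hσ : ∀ k, k ≠ D.u → χ (D.σ k) = χ k) :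
    ∃ (y : ℂ) (p₀ : (D.side hsym).I), ‖y‖ = 1 ∧ y ^ 2 - a C.w0 * y + 1 = 0 ∧
      p₀.1 = ⟨c, hc⟩ ∧ 0 < (D.side hsym).a p₀.1 ∧ (D.side hsym).z p₀ = y ^ D.e ∧
      1 ≤ ‖(D.side hsym).z p₀‖ ∧ (∀ k, k ≠ D.u → (p₀.2.1 : D.N → ℂ) k = χ k) ∧
      ∀ l, D.j l ≠ D.u → ((D.side hsym).x p₀ l : ℂ) = χ (D.j l) :=
  h.exists_p0 D hsym ha hW hP hq hc hker hχ hcomm hσu hσ

/-- **Eigenfunctions of the automorphic kernel are of the types of the block.** If `Ψ` is an
eigenfunction of the operator `∑ R(κ_i) · (monomial n_i, k_i)` with an eigenvalue `c ≠ 0`, it is fixed by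
the product `mono 0 0` of the idempotents, since every monomial is. So the types need not be
prescribed on the spectral side. File `H50ZPos`. -/
theorem typed_of_eigenfunction {K : Type} [Field K] [NumberField K] {J : Type} [Fintype J]
    {m : Model K J} (D : HData m.L.fam) {ι : Type} (s : Finset ι) {κ : ι → (J → ℝ) → ℂ}
    (hκ : ∀ i, H56Z.IsRC (κ i)) (n : ι → HeightOneSpectrum (𝓞 K) →₀ ℕ) (k : ι → ℕ) {c : ℂ}
    (hc : c ≠ 0) {Ψ : H21Z.BInv PGL(2, K) m.X}
    (h : (∑ i ∈ s, H21Z.rkB m (hκ i) * H21Z.gopB m (D.mono (n i) (k i))) Ψ = c • Ψ) :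
    H21Z.gopB m (D.mono 0 0) Ψ = Ψ :=
  H50Z.eS_of_eig D s hκ n k hc h

/-- **`s` is the identity on the blocks of the target** (`hpos` of `GuideOctC.abstract_comparison`). `D` is
operator data on `X(E)` for the automorphic kernel of the test kernels `κ_i`, `n_i`. The family `Y`
contains the Hecke operators at all places outside `SE` and `w0` (`lT`; `σ` acts on them like `s` on the
places), and the common labels contain all real radial kernels (`lk`), at which `p₀` has the
coordinates of spectral parameter `0` (`hx`). If `p` has the same coordinates as `p₀`, then `s` is the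
identity on the joint generalised eigenspace of `p`. Proof: these operators are symmetric, so its
elements are eigenfunctions; the eigenvalues are invariant under `σ` because the block `p` is stable
under `σ`; by `typed_of_eigenfunction` they have the types of the setup; apply `GuideOctC.positivity`.
File `H50ZPos`. -/
theorem s_is_one {F E : Type} [Field F] [NumberField F] [Field E] [NumberField E] [Algebra F E]
    {C : CSetup F E} {ι : Type} [Fintype ι] {κ : ι → (Fin 3 → ℝ) → ℂ}
    (hκ : ∀ i, H56Z.IsRC (κ i)) (n : ι → HeightOneSpectrum (𝓞 E) →₀ ℕ)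
    (c : H32Z.CutOff PGL(2, E) C.mE.X) [IsFiniteMeasure (c.ν C.mE.μ)]
    [MeasurableSpace.CountablyGenerated C.mE.X] {J : Type} {K : C.mE.X → C.mE.X → ℂ}
    (hKdef : K = H32Z.CutOff.autK PGL(2, E) fun x y => ∑ i, C.tkE (κ i) (n i) 0 x y)
    {hK : H32Z.BK K} {hG : ∀ (g : PGL(2, E)) x y, K (g • x) y = K x y}
    (hsym : ∀ x y, K y x = conj (K x y)) (D : H21Z.OpData J hK (c.ν C.mE.μ) hG)
    (lT : {w // w ∉ C.SE ∧ w ≠ C.w0} → D.N)
    (hT : ∀ w, D.Y (lT w) = H21Z.gopB C.mE (single w.1 (C.kE.D.T w.1)))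
    (hσ : ∀ w w', w'.1 = C.aE.σ w.1 → D.σ (lT w) = lT w')
    (lk : {κ : (Fin 3 → ℝ) → ℝ // H56Z.IsRC fun t => (κ t : ℂ)} → J)
    (hk : ∀ κ, D.Y (D.j (lk κ)) = H21Z.rkB C.mE κ.2) (hs : D.s = H21Z.sB C.aE)
    (p₀ : (D.side hsym).I)
    (hx : ∀ κ, ((D.side hsym).x p₀ (lk κ) : ℂ) = H9Z.hat fun t => (κ.1 t : ℂ))
    (p : (D.side hsym).I) (hxp : (D.side hsym).x p = (D.side hsym).x p₀)
    (hzp : (D.side hsym).z p = (D.side hsym).z p₀) :
    ∀ v ∈ ⨅ k, ((D.side hsym).Y p.1 k).maxGenEigenspace (p.2.1 k),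
      (D.side hsym).s p.1 v = v := by
  subst hKdef
  exact H50Z.hpos_E hκ n c hsym D lT hT hσ lk hk hs p₀ hx p hxp hzp

end Fermat.Agent.Guide.OctCTarget
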