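import Fermat.Agent.H72RA

/-!
# Primes, valuations, the additive character on `ℤ[ω]` (helper72, S47, C21-RING)
-/

set_option autoImplicit false
set_option linter.unusedSectionVars false
set_option linter.style.haveILetI false

noncomputable section

open NumberField IsDedekindDomain HeightOneSpectrum WithZero Fermat.Agent.S47T
open scoped ComplexConjugate Real

namespace Fermat.Agent.H72R

variable {M : Type*} [Field M] [NumberField M] {e : M →+* ℂ}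

/-! ### Ideals -/

/-- The ideal of `𝓞 M` generated by an element of `ℤ[ω]`. -/
def EF.id (h : EF e) (α : Eis) : Ideal (𝓞 M) := Ideal.span {h.eO.symm α}

theorem EF.mem_id (h : EF e) {α : Eis} {x : 𝓞 M} : x ∈ h.id α ↔ α ∣ h.eO x := by
  rw [EF.id, Ideal.mem_span_singleton]
  constructor
  · intro hd
    simpa using map_dvd h.eO hd
  · intro hd
    simpa using map_dvd h.eO.symm hd

theorem EF.symm_mem_id (h : EF e) {α β : Eis} : h.eO.symm β ∈ h.id α ↔ α ∣ β := by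
  rw [h.mem_id, RingEquiv.apply_symm_apply]

theorem EF.absNorm_id (h : EF e) (α : Eis) :
    (Ideal.absNorm (h.id α) : ℝ) = Complex.normSq (α : ℂ) := by
  rw [EF.id, Ideal.absNorm_span_singleton]
  have h1 := h.norm_eq ((h.eO.symm α : 𝓞 M) : M)
  rw [h.e_symm] at h1
  have h2 : ((Algebra.norm ℤ (h.eO.symm α) : ℤ) : ℚ) =
      Algebra.norm ℚ ((h.eO.symm α : 𝓞 M) : M) := by
    exact (Algebra.coe_norm_int (h.eO.symm α))
  rw [← h2] at h1
  have h3 : (0 : ℝ) ≤ ((Algebra.norm ℤ (h.eO.symm α) : ℤ) : ℝ) := by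
    have : ((Algebra.norm ℤ (h.eO.symm α) : ℤ) : ℝ) = Complex.normSq (α : ℂ) := by
      rw [← h1]; norm_cast
    rw [this]
    exact Complex.normSq_nonneg _
  have h4 : (0 : ℤ) ≤ Algebra.norm ℤ (h.eO.symm α) := by exact_mod_cast h3
  rw [← h1]
  have h5 : ((Algebra.norm ℤ (h.eO.symm α)).natAbs : ℤ) = Algebra.norm ℤ (h.eO.symm α) :=
    Int.natAbs_of_nonneg h4
  have h6 : (((Algebra.norm ℤ (h.eO.symm α)).natAbs : ℤ) : ℝ) =
      ((Algebra.norm ℤ (h.eO.symm α) : ℤ) : ℝ) := by rw [h5]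
  rw [show (((Algebra.norm ℤ (h.eO.symm α)).natAbs : ℕ) : ℝ) =
    (((Algebra.norm ℤ (h.eO.symm α)).natAbs : ℤ) : ℝ) from (Int.cast_natCast _).symm, h6]
  norm_cast

theorem EF.symm_ne_zero (h : EF e) {α : Eis} (hα : α ≠ 0) : h.eO.symm α ≠ 0 := by
  rwa [Ne, EmbeddingLike.map_eq_zero_iff]

theorem EF.id_isPrime (h : EF e) {ϖ : Eis} (hϖ : Prime ϖ) : (h.id ϖ).IsPrime := by
  rw [EF.id, Ideal.span_singleton_prime (h.symm_ne_zero hϖ.ne_zero)]
  exact (MulEquiv.prime_iff h.eO.symm.toMulEquiv).mpr hϖ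

/-- The place attached to a prime of `ℤ[ω]`. -/
def EF.place (h : EF e) (ϖ : Eis) (hϖ : Prime ϖ) : HeightOneSpectrum (𝓞 M) where
  asIdeal := h.id ϖ
  isPrime := h.id_isPrime hϖ
  ne_bot := by
    rw [EF.id, Ne, Ideal.span_singleton_eq_bot]
    exact h.symm_ne_zero hϖ.ne_zero

@[simp] theorem EF.place_asIdeal (h : EF e) (ϖ : Eis) (hϖ : Prime ϖ) :
    (h.place ϖ hϖ).asIdeal = h.id ϖ := rfl

theorem EF.exists_prime (h : EF e) (w : HeightOneSpectrum (𝓞 M)) :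
    ∃ ϖ : Eis, ∃ hϖ : Prime ϖ, w = h.place ϖ hϖ := by
  haveI := h.pid
  obtain ⟨x, hx⟩ := (IsPrincipalIdealRing.principal w.asIdeal).principal
  have hx' : w.asIdeal = Ideal.span {x} := hx
  have hx0 : x ≠ 0 := by
    rintro rfl
    apply w.ne_bot
    rw [hx']
    simp
  have hp : Prime x := by
    rw [← Ideal.span_singleton_prime hx0, ← hx']
    exact w.isPrime
  have hp' : Prime (h.eO x) := (MulEquiv.prime_iff h.eO.toMulEquiv).mpr hp
  refine ⟨h.eO x, hp', ?_⟩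
  ext1
  rw [h.place_asIdeal, EF.id, RingEquiv.symm_apply_apply, hx']

/-- a generator of the prime of a place -/
def EF.gen (h : EF e) (w : HeightOneSpectrum (𝓞 M)) : Eis := (h.exists_prime w).choose

theorem EF.gen_prime (h : EF e) (w : HeightOneSpectrum (𝓞 M)) : Prime (h.gen w) :=
  (h.exists_prime w).choose_spec.choose

theorem EF.gen_place (h : EF e) (w : HeightOneSpectrum (𝓞 M)) :
    h.place (h.gen w) (h.gen_prime w) = w := (h.exists_prime w).choose_spec.choose_spec.symm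

theorem EF.asIdeal_eq (h : EF e) (w : HeightOneSpectrum (𝓞 M)) : w.asIdeal = h.id (h.gen w) := by
  conv_lhs => rw [← h.gen_place w]
  rfl

theorem EF.absNorm_place (h : EF e) (ϖ : Eis) (hϖ : Prime ϖ) :
    (Ideal.absNorm (h.place ϖ hϖ).asIdeal : ℝ) = Complex.normSq (ϖ : ℂ) := h.absNorm_id ϖ

theorem EF.card_quot_place (h : EF e) (ϖ : Eis) (hϖ : Prime ϖ) :
    (Nat.card (𝓞 M ⧸ (h.place ϖ hϖ).asIdeal) : ℝ) = Complex.normSq (ϖ : ℂ) := by
  rw [← h.absNorm_place ϖ hϖ, Ideal.absNorm_apply, Submodule.cardQuot_apply]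

/-! ### Valuations -/

theorem EF.val_le_one (h : EF e) (w : HeightOneSpectrum (𝓞 M)) (α : Eis) :
    w.valuation M ((h.eO.symm α : 𝓞 M) : M) ≤ 1 := w.valuation_le_one (K := M) _

theorem EF.val_lt_one_iff (h : EF e) (ϖ : Eis) (hϖ : Prime ϖ) (α : Eis) :
    (h.place ϖ hϖ).valuation M ((h.eO.symm α : 𝓞 M) : M) < 1 ↔ ϖ ∣ α := by
  rw [show ((h.eO.symm α : 𝓞 M) : M) = algebraMap (𝓞 M) M (h.eO.symm α) from rfl,
    HeightOneSpectrum.valuation_lt_one_iff_mem, h.place_asIdeal, h.symm_mem_id]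

theorem EF.val_eq_one_iff (h : EF e) (ϖ : Eis) (hϖ : Prime ϖ) (α : Eis) :
    (h.place ϖ hϖ).valuation M ((h.eO.symm α : 𝓞 M) : M) = 1 ↔ ¬ ϖ ∣ α := by
  rw [← h.val_lt_one_iff ϖ hϖ α, not_lt]
  exact ⟨fun hh => hh.ge, fun hh => le_antisymm (h.val_le_one _ _) hh⟩

theorem EF.val_gen (h : EF e) (ϖ : Eis) (hϖ : Prime ϖ) :
    (h.place ϖ hϖ).valuation M ((h.eO.symm ϖ : 𝓞 M) : M) = exp (-(1 : ℤ)) := by
  rw [show ((h.eO.symm ϖ : 𝓞 M) : M) = algebraMap (𝓞 M) M (h.eO.symm ϖ) from rfl,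
    HeightOneSpectrum.valuation_of_algebraMap,
    HeightOneSpectrum.intValuation_singleton _ (h.symm_ne_zero hϖ.ne_zero) rfl]

theorem EF.val_pow (h : EF e) (ϖ : Eis) (hϖ : Prime ϖ) (k : ℕ) :
    (h.place ϖ hϖ).valuation M ((h.eO.symm (ϖ ^ k) : 𝓞 M) : M) = exp (-(k : ℤ)) := by
  have h1 : ((h.eO.symm (ϖ ^ k) : 𝓞 M) : M) = ((h.eO.symm ϖ : 𝓞 M) : M) ^ k := by
    rw [map_pow]; simp
  rw [h1, map_pow, h.val_gen, ← exp_nsmul]
  congr 1
  simp

/-- distinct primes -/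
theorem EF.val_of_not_dvd (h : EF e) (ϖ : Eis) (hϖ : Prime ϖ) {α : Eis} (hα : ¬ ϖ ∣ α) :
    (h.place ϖ hϖ).valuation M ((h.eO.symm α : 𝓞 M) : M) = 1 := (h.val_eq_one_iff ϖ hϖ α).mpr hα

theorem EF.isCoprime_iff (h : EF e) {α β : Eis} (h0 : ¬ (α = 0 ∧ β = 0)) : IsCoprime α β ↔
    ∀ ϖ : Eis, Prime ϖ → ϖ ∣ α → ¬ ϖ ∣ β := by
  haveI := h.pid_Eis
  constructor
  · intro hc ϖ hϖ h1 h2
    exact hϖ.not_isUnit (hc.isUnit_of_dvd' h1 h2)
  · intro hp
    exact isCoprime_of_prime_dvd h0 hp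

theorem EF.natCast_mem_iff (h : EF e) (ϖ : Eis) (hϖ : Prime ϖ) (N : ℕ) :
    (N : 𝓞 M) ∈ (h.place ϖ hϖ).asIdeal ↔ ϖ ∣ (N : Eis) := by
  rw [h.place_asIdeal, h.mem_id, map_natCast]

/-- coprimality to an integer in terms of valuations -/
theorem EF.isCoprime_natCast_iff (h : EF e) {N : ℕ} (hN : N ≠ 0) (α : Eis) :
    IsCoprime α (N : Eis) ↔ ∀ w : HeightOneSpectrum (𝓞 M), (N : 𝓞 M) ∈ w.asIdeal →
      w.valuation M ((h.eO.symm α : 𝓞 M) : M) = 1 := by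
  have hN' : (N : Eis) ≠ 0 := by
    intro hc
    have := congrArg (Subtype.val) hc
    push_cast at this
    exact hN (by exact_mod_cast this)
  rw [h.isCoprime_iff (fun hc => hN' hc.2)]
  constructor
  · intro hp w hw
    obtain ⟨ϖ, hϖ, rfl⟩ := h.exists_prime w
    rw [h.natCast_mem_iff] at hw
    rw [h.val_eq_one_iff]
    exact fun hd => hp ϖ hϖ hd hw
  · intro hw ϖ hϖ h1 h2
    have h3 := hw (h.place ϖ hϖ) ((h.natCast_mem_iff ϖ hϖ N).mpr h2)
    rw [h.val_eq_one_iff] at h3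
    exact h3 h1

/-- integral elements of `M` -/
theorem EF.exists_eq_of_integral (h : EF e) {x : M}
    (hx : ∀ w : HeightOneSpectrum (𝓞 M), w.valuation M x ≤ 1) :
    ∃ α : Eis, ((h.eO.symm α : 𝓞 M) : M) = x := by
  obtain ⟨r, rfl⟩ := HeightOneSpectrum.mem_integers_of_valuation_le_one M x hx
  exact ⟨h.eO r, by rw [RingEquiv.symm_apply_apply]⟩

theorem EF.e_mem_Eis_iff (h : EF e) {x : M} :
    e x ∈ Eis ↔ ∀ w : HeightOneSpectrum (𝓞 M), w.valuation M x ≤ 1 := by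
  constructor
  · intro hx w
    have h1 : ((h.eO.symm ⟨e x, hx⟩ : 𝓞 M) : M) = x := by
      apply e.injective
      rw [h.e_symm]
    rw [← h1]
    exact h.val_le_one w _
  · intro hx
    obtain ⟨α, rfl⟩ := h.exists_eq_of_integral hx
    rw [h.e_symm]
    exact α.2

theorem EF.symm_eq_of_e (h : EF e) {x : M} {α : Eis} (hx : e x = (α : ℂ)) :
    ((h.eO.symm α : 𝓞 M) : M) = x := by
  apply e.injective
  rw [h.e_symm, hx]

/-- exact power of a prime, valuation form -/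
theorem EF.val_eq_exp_iff (h : EF e) (ϖ : Eis) (hϖ : Prime ϖ) (α : Eis) (k : ℕ) :
    (h.place ϖ hϖ).valuation M ((h.eO.symm α : 𝓞 M) : M) = exp (-(k : ℤ)) ↔
      ∃ β : Eis, α = ϖ ^ k * β ∧ ¬ ϖ ∣ β := by
  have hmul : ∀ a b : Eis, ((h.eO.symm (a * b) : 𝓞 M) : M) =
      ((h.eO.symm a : 𝓞 M) : M) * ((h.eO.symm b : 𝓞 M) : M) := by
    intro a b; rw [map_mul]; simp
  constructor
  · intro hv
    have h1 : ϖ ^ k ∣ α := by
      induction k generalizing α with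
      | zero => simp
      | succ k ih =>
        have hlt : (h.place ϖ hϖ).valuation M ((h.eO.symm α : 𝓞 M) : M) < 1 := by
          rw [hv, ← exp_zero, exp_lt_exp]; push_cast; omega
        rw [h.val_lt_one_iff] at hlt
        obtain ⟨γ, rfl⟩ := hlt
        rw [hmul, map_mul, h.val_gen] at hv
        have h2 : (h.place ϖ hϖ).valuation M ((h.eO.symm γ : 𝓞 M) : M) = exp (-(k : ℤ)) := by
          have h3 : exp (-((k + 1 : ℕ) : ℤ)) = exp (-(1 : ℤ)) * exp (-(k : ℤ)) := by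
            rw [← exp_add]; congr 1; push_cast; ring
          rw [h3] at hv
          exact mul_left_cancel₀ (exp_ne_zero) hv
        rw [pow_succ, mul_comm]
        exact mul_dvd_mul_left ϖ (ih γ h2)
    obtain ⟨β, rfl⟩ := h1
    refine ⟨β, rfl, ?_⟩
    rw [hmul, map_mul, h.val_pow] at hv
    have h2 : (h.place ϖ hϖ).valuation M ((h.eO.symm β : 𝓞 M) : M) = 1 := by
      have h3 : exp (-(k : ℤ)) * (h.place ϖ hϖ).valuation M ((h.eO.symm β : 𝓞 M) : M) =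
          exp (-(k : ℤ)) * 1 := by rw [hv, mul_one]
      exact mul_left_cancel₀ (exp_ne_zero) h3
    rwa [h.val_eq_one_iff] at h2
  · rintro ⟨β, rfl, hβ⟩
    rw [hmul, map_mul, h.val_pow, h.val_of_not_dvd ϖ hϖ hβ, mul_one]

/-! ### The additive character -/

theorem ee_eq_one_iff (x : ℝ) : ee (x : ℂ) = 1 ↔ ∃ n : ℤ, x = n := by
  rw [ee, Complex.exp_eq_one_iff]
  have hpi : (2 * (Real.pi : ℂ) * Complex.I) ≠ 0 := Complex.two_pi_I_ne_zero
  constructor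
  · rintro ⟨n, hn⟩
    refine ⟨n, ?_⟩
    have h1 : (2 * (Real.pi : ℂ) * Complex.I) * (x : ℂ) =
        (2 * (Real.pi : ℂ) * Complex.I) * (n : ℂ) := by
      rw [hn]; ring
    have h2 := mul_left_cancel₀ hpi h1
    exact_mod_cast h2
  · rintro ⟨n, rfl⟩
    exact ⟨n, by push_cast; ring⟩

theorem two_re_div (p q : ℝ) : 2 * (((p : ℂ) + q * om) / sq3).re = q := by
  have h1 : ((p : ℂ) + q * om) / sq3 = ((p : ℂ) + q * om) * (-sq3) / 3 := by
    rw [div_eq_div_iff sq3_ne_zero (by norm_num)]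
    linear_combination ((p : ℂ) + q * om) * sq3_mul_sq3
  have hs : Real.sqrt 3 * Real.sqrt 3 = 3 := Real.mul_self_sqrt (by norm_num)
  rw [h1, om, sq3]
  simp
  linear_combination (q / 3) * hs

theorem two_re_int (a b : ℤ) : 2 * (((a : ℂ) + b * om) / sq3).re = b := by
  have := two_re_div a b
  exact_mod_cast this

theorem ee_of_mem {x : ℂ} (hx : x ∈ Eis) : ee ((2 * (x / sq3).re : ℝ)) = 1 := by
  obtain ⟨a, b, rfl⟩ := hx
  rw [ee_eq_one_iff]
  exact ⟨b, two_re_int a b⟩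

theorem exists_real (x : ℂ) : ∃ p q : ℝ, x = p + q * om := by
  refine ⟨x.re - x.im / om.im * om.re, x.im / om.im, ?_⟩
  apply Complex.ext
  · simp
  · simp [div_mul_cancel₀ _ om_im_ne]

theorem mem_of_ee {x : ℂ} (hx : ∀ b ∈ Eis, ee ((2 * (x * b / sq3).re : ℝ)) = 1) : x ∈ Eis := by
  obtain ⟨p, q, rfl⟩ := exists_real x
  obtain ⟨n, hn⟩ := (ee_eq_one_iff _).mp (hx 1 Eis.one_mem)
  rw [mul_one, two_re_div] at hn
  obtain ⟨m, hm⟩ := (ee_eq_one_iff _).mp (hx om om_mem)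
  have h1 : ((p : ℂ) + q * om) * om = ((-q : ℝ) : ℂ) + ((p - q : ℝ) : ℂ) * om := by
    push_cast
    linear_combination (q : ℂ) * om_rel
  rw [h1, two_re_div] at hm
  refine ⟨m + n, n, ?_⟩
  rw [hn]
  have h2 : p = m + n := by linarith
  rw [h2]
  push_cast
  rfl

theorem mem_Eis_iff_ee {x : ℂ} : x ∈ Eis ↔ ∀ b ∈ Eis, ee ((2 * (x * b / sq3).re : ℝ)) = 1 :=
  ⟨fun hx _ hb => ee_of_mem (Eis.mul_mem hx hb), mem_of_ee⟩

/-! ### Residues -/

theorem dvd_normSq (q : Eis) : ∃ n : ℕ, Complex.normSq (q : ℂ) = n ∧ q ∣ (n : Eis) := by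
  obtain ⟨a, b, hab⟩ := q.2
  have h1 : Complex.normSq (q : ℂ) = ((a ^ 2 - a * b + b ^ 2 : ℤ) : ℝ) := by
    rw [hab, normSq_eis]
  have h2 : 0 ≤ a ^ 2 - a * b + b ^ 2 := by
    have := Complex.normSq_nonneg (q : ℂ)
    rw [h1] at this
    exact_mod_cast this
  obtain ⟨n, hn⟩ := Int.eq_ofNat_of_zero_le h2
  rw [hn] at h1
  refine ⟨n, by rw [h1]; norm_cast, conjE q, ?_⟩
  apply Subtype.ext
  push_cast
  rw [coe_conjE, Complex.mul_conj, h1]
  norm_cast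

theorem normSq_ne_zero {q : Eis} (hq : q ≠ 0) : Complex.normSq (q : ℂ) ≠ 0 := by
  rw [Ne, Complex.normSq_eq_zero]
  exact fun h => hq (Subtype.ext h)

theorem intCast_dvd_of_coords {n : ℤ} {a b : ℤ} (ha : n ∣ a) (hb : n ∣ b) :
    (n : Eis) ∣ eisEquiv (a, b) := by
  obtain ⟨a', rfl⟩ := ha
  obtain ⟨b', rfl⟩ := hb
  refine ⟨eisEquiv (a', b'), ?_⟩
  apply Subtype.ext
  rw [coe_eisEquiv]
  push_cast
  rw [coe_eisEquiv]
  push_cast
  ring

theorem coords_of_intCast_dvd {n : ℤ} {a b : ℤ} (h : (n : Eis) ∣ eisEquiv (a, b)) :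
    n ∣ a ∧ n ∣ b := by
  obtain ⟨c, hc⟩ := h
  obtain ⟨⟨a', b'⟩, rfl⟩ := eisEquiv.surjective c
  have h1 := congrArg (Subtype.val) hc
  rw [coe_eisEquiv] at h1
  push_cast at h1
  rw [coe_eisEquiv] at h1
  push_cast at h1
  have h2 := om_indep (a := a - n * a') (b := b - n * b') (by push_cast; linear_combination h1)
  exact ⟨⟨a', by linarith [h2.1]⟩, ⟨b', by linarith [h2.2]⟩⟩

/-- `ℤ[ω] / q` is finite. -/
theorem finite_quot {q : Eis} (hq : q ≠ 0) : Finite (Eis ⧸ Ideal.span {q}) := by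
  obtain ⟨n, hn, hd⟩ := dvd_normSq q
  have hn0 : n ≠ 0 := by
    rintro rfl
    exact normSq_ne_zero hq (by rw [hn]; simp)
  haveI : NeZero n := ⟨hn0⟩
  let f : Fin n × Fin n → Eis ⧸ Ideal.span {q} := fun p =>
    Ideal.Quotient.mk _ (eisEquiv ((p.1 : ℤ), (p.2 : ℤ)))
  apply Finite.of_surjective f
  intro x
  obtain ⟨y, rfl⟩ := Ideal.Quotient.mk_surjective x
  obtain ⟨⟨a, b⟩, rfl⟩ := eisEquiv.surjective y
  have hnz : (n : ℤ) ≠ 0 := by exact_mod_cast hn0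
  have ha0 := Int.emod_nonneg a hnz
  have hb0 := Int.emod_nonneg b hnz
  have ha1 := Int.emod_lt_of_pos a (show (0 : ℤ) < n by positivity)
  have hb1 := Int.emod_lt_of_pos b (show (0 : ℤ) < n by positivity)
  refine ⟨(⟨(a % n).toNat, by omega⟩, ⟨(b % n).toNat, by omega⟩), ?_⟩
  show Ideal.Quotient.mk _ _ = _
  rw [Ideal.Quotient.eq, Ideal.mem_span_singleton]
  refine hd.trans ?_
  have h1 : eisEquiv (((⟨(a % n).toNat, by omega⟩ : Fin n) : ℤ), ((⟨(b % n).toNat, by omega⟩ :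
      Fin n) : ℤ)) - eisEquiv (a, b) = eisEquiv (a % n - a, b % n - b) := by
    apply Subtype.ext
    push_cast
    rw [coe_eisEquiv, coe_eisEquiv, coe_eisEquiv]
    simp only [Int.toNat_of_nonneg ha0, Int.toNat_of_nonneg hb0]
    push_cast
    ring
  rw [h1]
  have h3 : ∀ c : ℤ, (n : ℤ) ∣ c % n - c := fun c =>
    ⟨-(c / n), by linarith [Int.emod_add_mul_ediv c n]⟩
  have h2 := intCast_dvd_of_coords (n := (n : ℤ)) (h3 a) (h3 b)
  simpa using h2

/-- representatives modulo `q` -/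
theorem exists_reps {q : Eis} (hq : q ≠ 0) :
    ∃ R : Finset Eis, ∀ x : Eis, ∃! r, r ∈ R ∧ q ∣ x - r := by
  classical
  haveI := finite_quot hq
  haveI := Fintype.ofFinite (Eis ⧸ Ideal.span {q})
  refine ⟨Finset.univ.image (Quotient.out : Eis ⧸ Ideal.span {q} → Eis), fun x => ?_⟩
  have hmk : ∀ z : Eis ⧸ Ideal.span {q}, Ideal.Quotient.mk (Ideal.span {q}) z.out = z :=
    fun z => Quotient.out_eq' z
  refine ⟨(Ideal.Quotient.mk (Ideal.span {q}) x).out, ⟨Finset.mem_image_of_mem _ (Finset.mem_univ _),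
    ?_⟩, ?_⟩
  · rw [← Ideal.mem_span_singleton, ← Ideal.Quotient.eq, hmk]
  · rintro r ⟨hr, hr'⟩
    obtain ⟨z, -, rfl⟩ := Finset.mem_image.mp hr
    rw [← Ideal.mem_span_singleton, ← Ideal.Quotient.eq, hmk] at hr'
    rw [hr']

end Fermat.Agent.H72R
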