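import Fermat.Agent.H40K3
import Fermat.Agent.H72RB

/-!
# Reader's guide: block (C) of S47, the output on hyperbolic space, part 2: the classical steps

Companion of `GuideOctC` (theorem `output`) and of `GuideOctCOutput`; editor helper72, with texts of
helper79; library: `H40K1`-`H40K3` (helper40), `H72RA`, `H72RB` (helper72); in the NOTES: [421] S47-C21,
[471] S47-RING. Package C21 turns a form over
`K = ℚ(ω)` (an automorphic function on the space `X(K)` of a model) into a function on hyperbolic 3-space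
as in block (T), i.e. a structure `S47T.ICT N c F` (unfolded in `GuideOctahedral`, section 4, and in
`GuideOctT`). `GuideOctCOutput` explains the adelic half: the function on `H3`, its invariance, the
Whittaker coefficients and their recursions; the result is a structure `PreICT N lam a f` (theorem
`preICT_iff` below): a bounded continuous function `f` on `H3`, invariant under `Γ₀(N)`, with spectral
parameter `0` and complex coefficients `a(α)`, which satisfy the Hecke recursions at the primes not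
dividing `N` for the arguments prime to `N`; nothing is known at the primes dividing `N`. This file
contains the other half:

1. the dictionary between the subring `ℤ[ω]` of `ℂ` and the ring of integers `𝓞 M` of an abstract
   field `M` with an embedding (`H72RA`, `H72RB`);
2. **depletion**: a finite sum of additive twists of `f` is invariant under `Γ₀(N³)` and has the
   coefficients `a(α)` for `α` prime to `N` and `0` otherwise (`H40K1`-`H40K3`);
3. multiplicativity and reality of the new coefficients, hence `ICT (N³) c F` (`H40K2`, `H40K3`).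

All constants cited are in the term closure of S47 (S47 is not used in the proof of S01). Notations: a
point `w` of `H3` is `(w.z, w.y)` with `w.z ∈ ℂ`, `w.y > 0`; `H3.nMat b` is the matrix `(1 b; 0 1)`, which
acts on `H3` by `z ↦ z + b`; `H3.ch` is the hyperbolic cosine of the distance; `ee x = exp(2πi x)`, `K0` is
the Bessel function `K₀(x) = ∫_0^∞ exp(-x cosh t) dt`; `O` is a subring of `ℂ`, `δ ∈ ℂ`, later `O = ℤ[ω]`,
`δ = √-3`.
-/

set_option autoImplicit false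

noncomputable section

open NumberField IsDedekindDomain Matrix MeasureTheory
open scoped ComplexConjugate Real

namespace Fermat.Agent.Guide.OctCTwists

open Fermat.Agent.S47T (om sq3 Eis Gam K0 kap0 ee ICT)
open Fermat.Agent.H40K

/-! ## 1. The ring `ℤ[ω]` and the places of `ℚ(ω)` -/

/-- The notations: `sq3 = i√3`, `om = ω = (-1 + i√3)/2`, `Eis = ℤ[ω]` as a subring of `ℂ`.
File: `H96TDef`. -/
theorem eisenstein_notation : sq3 = Complex.I * (Real.sqrt 3 : ℝ) ∧ om = (-1 + sq3) / 2 ∧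
    om ^ 2 + om + 1 = 0 ∧ ∀ x : ℂ, x ∈ Eis ↔ ∃ a b : ℤ, x = a + b * om :=
  ⟨rfl, rfl, S47T.om_rel, fun _ => Iff.rfl⟩

/-- The hypotheses `H72R.EF e` on a number field `M` and an embedding `e : M → ℂ`: `M` has degree
two over `ℚ` and contains a primitive cube root of unity. File: `H72RA`. -/
theorem hypotheses_iff {M : Type*} [Field M] [NumberField M] (e : M →+* ℂ) :
    H72R.EF e ↔ Module.finrank ℚ M = 2 ∧ ∃ ζ : M, ζ ^ 2 + ζ + 1 = 0 :=
  ⟨fun h => ⟨h.deg, h.zeta⟩, fun h => ⟨h.1, h.2⟩⟩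

/-- **The ring of integers.** Under these hypotheses the embedding `e` identifies `𝓞 M` with `ℤ[ω]`:
there is a ring isomorphism `φ` with `φ x = e x` (in the library: `h.eO`). Proof: an integral
`a + bω` has integral trace `2a - b` and norm `a² - ab + b²`, so `3b²` and then `b` are integers.
File: `H72RA`. -/
theorem ring_of_integers {M : Type*} [Field M] [NumberField M] {e : M →+* ℂ} (h : H72R.EF e) :
    ∃ φ : 𝓞 M ≃+* Eis, φ = h.eO ∧ (∀ x : 𝓞 M, ((φ x : Eis) : ℂ) = e (x : M)) ∧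
      ∀ y : Eis, e ((φ.symm y : 𝓞 M) : M) = (y : ℂ) :=
  ⟨h.eO, rfl, h.coe_eO, h.e_symm⟩

/-- Trace and norm of `M/ℚ` in terms of the embedding. File: `H72RA`. -/
theorem trace_and_norm {M : Type*} [Field M] [NumberField M] {e : M →+* ℂ} (h : H72R.EF e)
    (x : M) : ((Algebra.trace ℚ M x : ℚ) : ℝ) = 2 * (e x).re ∧
      ((Algebra.norm ℚ x : ℚ) : ℝ) = Complex.normSq (e x) :=
  ⟨h.trace_eq x, h.norm_eq x⟩

/-- `𝓞 M` and `ℤ[ω]` are principal ideal domains (Mathlib, `M` is the third cyclotomic field).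
File: `H72RA`. -/
theorem principal {M : Type*} [Field M] [NumberField M] {e : M →+* ℂ} (h : H72R.EF e) :
    IsPrincipalIdealRing (𝓞 M) ∧ IsPrincipalIdealRing Eis :=
  ⟨h.pid, h.pid_Eis⟩

/-- **Elements which are integral at all finite places** come from `ℤ[ω]`. File: `H72RB`. -/
theorem integral_everywhere {M : Type*} [Field M] [NumberField M] {e : M →+* ℂ}
    (h : H72R.EF e) {x : M} (hx : ∀ w : HeightOneSpectrum (𝓞 M), w.valuation M x ≤ 1) :
    ∃ α : Eis, ((h.eO.symm α : 𝓞 M) : M) = x :=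
  h.exists_eq_of_integral hx

/-- **Primes and places.** Every finite place `w` of `M` is generated by a prime element `ϖ` of
`ℤ[ω]`: its norm is `|ϖ|²`, the elements of `ℤ[ω]` which are small at `w` are the multiples of `ϖ`,
the others are units at `w`, and `ϖ` is a uniformiser at `w` (`WithZero.exp (-1)` is the largest
value `< 1`). File: `H72RB`. -/
theorem place_is_prime {M : Type*} [Field M] [NumberField M] {e : M →+* ℂ} (h : H72R.EF e)
    (w : HeightOneSpectrum (𝓞 M)) :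
    ∃ ϖ : Eis, Prime ϖ ∧ (Ideal.absNorm w.asIdeal : ℝ) = Complex.normSq (ϖ : ℂ) ∧
      w.valuation M ((h.eO.symm ϖ : 𝓞 M) : M) = WithZero.exp (-(1 : ℤ)) ∧
      ∀ α : Eis, (w.valuation M ((h.eO.symm α : 𝓞 M) : M) < 1 ↔ ϖ ∣ α) ∧
        (w.valuation M ((h.eO.symm α : 𝓞 M) : M) = 1 ↔ ¬ ϖ ∣ α) := by
  obtain ⟨ϖ, hϖ, rfl⟩ := h.exists_prime w
  exact ⟨ϖ, hϖ, h.absNorm_place ϖ hϖ, h.val_gen ϖ hϖ, fun α =>
    ⟨h.val_lt_one_iff ϖ hϖ α, h.val_eq_one_iff ϖ hϖ α⟩⟩

/-- **Coprimality to an integer** in `ℤ[ω]` means: unit at all places above the integer.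
File: `H72RB`. -/
theorem coprime_to_integer {M : Type*} [Field M] [NumberField M] {e : M →+* ℂ}
    (h : H72R.EF e) {N : ℕ} (hN : N ≠ 0) (α : Eis) : IsCoprime α (N : Eis) ↔
      ∀ w : HeightOneSpectrum (𝓞 M), (N : 𝓞 M) ∈ w.asIdeal →
        w.valuation M ((h.eO.symm α : 𝓞 M) : M) = 1 :=
  h.isCoprime_natCast_iff hN α

/-! ## 2. Depletion by additive twists

`chr δ x = exp(2πi · 2 Re(x/δ))` is an additive character of `ℂ`; for `δ = √-3` it is trivial exactly
on `ℤ[ω]` in the sense of the next theorem (the inverse different of `ℤ[ω]` is `(√-3)⁻¹ ℤ[ω]`). Let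
`q ∈ O`, `R` a system of representatives of `O` modulo `q` (`IsReps O q R`), `G` a function on `R`, and
`D(w) = Σ_{r ∈ R} G(r) f(n(r/q) w)` (`dep q R G f w`). -/

/-- **The additive character**: `chr √-3` is a homomorphism, it is trivial on `ℤ[ω]`, and `x ∈ ℤ[ω]`
if it is trivial on `x ℤ[ω]`. (`2 Re(x/√-3) = 2 Im(x)/√3`; if this number is an integer for `x` and for
`xω`, then `x ∈ ℤ[ω]`.) File: `H40K2`. -/
theorem character :
    (∀ x : ℂ, chr sq3 x = Complex.exp (2 * π * Complex.I * ((2 * (x / sq3).re : ℝ) : ℂ))) ∧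
      (∀ x x' : ℂ, chr sq3 (x + x') = chr sq3 x * chr sq3 x') ∧
      (∀ x ∈ Eis, chr sq3 x = 1) ∧
      ∀ x : ℂ, (∀ b ∈ Eis, chr sq3 (x * b) = 1) → x ∈ Eis :=
  ⟨fun _ => rfl, chr_add sq3, fun _ hx => chr_sq3_of_mem hx, fun _ hx => mem_of_chr_sq3 hx⟩

/-- Representatives of `ℤ[ω]` modulo a positive integer `N`: there is a finite set `R ⊂ ℤ[ω]` which
meets every class exactly once (`IsReps`). File: `H40K2`. -/
theorem exists_representatives {N : ℕ} (hN : 0 < N) : ∃ R : Finset ℂ, IsReps Eis (N : ℂ) R ∧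
    (∀ r ∈ R, r ∈ Eis) ∧ (∀ x ∈ Eis, ∃ r ∈ R, ∃ t ∈ Eis, x = r + N * t) ∧
      ∀ r ∈ R, ∀ r' ∈ R, (∃ t ∈ Eis, r = r' + N * t) → r = r' :=
  let ⟨R, h⟩ := exists_isReps hN
  ⟨R, h, h.mem, h.ex, h.uniq⟩

/-- **Orthogonality.** For `α ∈ O` the sum over `R` of `chr δ (αr/q)` is `|R|` if `q` divides `α` in
`O` and `0` otherwise. File: `H40K1`. -/
theorem orthogonality {O : Subring ℂ} {δ q : ℂ} (hq0 : q ≠ 0) {R : Finset ℂ}
    (hR : IsReps O q R) (h1 : ∀ x ∈ O, chr δ x = 1)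
    (h2 : ∀ x : ℂ, (∀ b ∈ O, chr δ (x * b) = 1) → x ∈ O) {α : ℂ} (hα : α ∈ O) :
    ((∃ t ∈ O, α = q * t) → ∑ r ∈ R, chr δ (α * (r / q)) = R.card) ∧
      ((¬ ∃ t ∈ O, α = q * t) → ∑ r ∈ R, chr δ (α * (r / q)) = 0) :=
  sum_chr hq0 hR h1 h2 hα

/-- **The expansion of the twisted function**: if `f(z, y) = Σ_α a(α) W(α, y) chr δ (αz)`, then the
twisted function has the coefficients `a(α) Σ_r G(r) chr δ (αr/q)`. File: `H40K1`. -/
theorem twist_expansion {O : Subring ℂ} {δ q : ℂ} {R : Finset ℂ} (G : ℂ → ℂ)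
    {f : H3 → ℂ} {a : O → ℂ} {W : O → ℝ → ℂ}
    (hf : ∀ w : H3, HasSum (fun α : O => a α * W α w.y * chr δ (α * w.z)) (f w)) (w : H3) :
    HasSum (fun α : O => (a α * ∑ r ∈ R, G r * chr δ (α * (r / q))) * W α w.y * chr δ (α * w.z))
      (∑ r ∈ R, G r * f (H3.nMat (r / q) • w)) :=
  dep_hasSum G hf w

/-- **The twisted function is invariant under `Γ₀(N q²)`** if `f` is invariant under `Γ₀(N)`
(`IsGam O N g`: determinant one, entries in `O`, lower left entry in `N O`) and the weight satisfies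
`G(d² r) = G(r)` for all units `d` modulo `q`. Proof: for `g = (a b; c d)` in `Γ₀(N q²)` and
`r' ≡ d² r` modulo `q`, the matrix `n(r/q) g n(-r'/q)` is in `Γ₀(N)` (its upper right entry is
`≡ (r d - a r')/q` modulo `O`, and `a d ≡ 1` modulo `q²`), and `r ↦ r'` permutes `R`. File: `H40K1`. -/
theorem twist_invariant {O : Subring ℂ} {N q : ℂ} (hq : q ∈ O) (hN : N ∈ O) (hq0 : q ≠ 0)
    {R : Finset ℂ} (hR : IsReps O q R) {f : H3 → ℂ}
    (hf : ∀ g : GL (Fin 2) ℂ, IsGam O N g → ∀ w, f (g • w) = f w) {G : ℂ → ℂ}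
    (hG : ∀ a ∈ O, ∀ d ∈ O, (∃ t ∈ O, a * d = 1 + q * t) → ∀ r ∈ R, ∀ r' ∈ R,
      (∃ t ∈ O, d ^ 2 * r = r' + q * t) → G r = G r')
    {g : GL (Fin 2) ℂ} (hg : (g : Matrix (Fin 2) (Fin 2) ℂ).det = 1 ∧
      (∀ i j, (g : Matrix (Fin 2) (Fin 2) ℂ) i j ∈ O) ∧
      ∃ t ∈ O, (g : Matrix (Fin 2) (Fin 2) ℂ) 1 0 = N * q ^ 2 * t) (w : H3) :
    ∑ r ∈ R, G r * f (H3.nMat (r / q) • g • w) = ∑ r ∈ R, G r * f (H3.nMat (r / q) • w) :=
  dep_inv hq hN hq0 hR hf hG ⟨hg.1, hg.2.1, hg.2.2⟩ w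

open Classical in
/-- **The weight.** `uw O δ q R r` is `|R|⁻¹ Σ_u chr δ (-ur/q)`, the sum over the `u ∈ R` which are
invertible modulo `q`: the Fourier transform of the indicator function of the units modulo `q`.
File: `H40K1`. -/
theorem weight_eq (O : Subring ℂ) (δ q : ℂ) (R : Finset ℂ) (r : ℂ) : uw O δ q R r =
    (R.card : ℂ)⁻¹ * ∑ u ∈ R.filter (fun u : ℂ => ∃ v ∈ O, ∃ t ∈ O, u * v = 1 + q * t),
      chr δ (-(u * (r / q))) := by
  rw [uw]

/-- **Fourier inversion for the weight**: `Σ_r uw(r) chr δ (αr/q)` is `1` if `α` is invertible modulo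
`q`, otherwise `0`. So the twisted function has the coefficients `a(α)` at the `α` prime to `q`, and
zero elsewhere. File: `H40K1`. -/
theorem weight_inversion {O : Subring ℂ} {δ q : ℂ} (hq0 : q ≠ 0) {R : Finset ℂ}
    (hR : IsReps O q R) (h1 : ∀ x ∈ O, chr δ x = 1)
    (h2 : ∀ x : ℂ, (∀ b ∈ O, chr δ (x * b) = 1) → x ∈ O) {α : ℂ} (hα : α ∈ O) :
    ((∃ v ∈ O, ∃ t ∈ O, α * v = 1 + q * t) →
        ∑ r ∈ R, uw O δ q R r * chr δ (α * (r / q)) = 1) ∧
      ((¬ ∃ v ∈ O, ∃ t ∈ O, α * v = 1 + q * t) →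
        ∑ r ∈ R, uw O δ q R r * chr δ (α * (r / q)) = 0) :=
  sum_uw hq0 hR h1 h2 hα

/-- The weight satisfies the hypothesis of `twist_invariant`: it takes the same value at `r` and `d² r`
for every `d` which is invertible modulo `q`. File: `H40K1`. -/
theorem weight_invariant {O : Subring ℂ} {δ q : ℂ} (hq : q ∈ O) (hq0 : q ≠ 0) {R : Finset ℂ}
    (hR : IsReps O q R) (h1 : ∀ x ∈ O, chr δ x = 1) :
    ∀ a ∈ O, ∀ d ∈ O, (∃ t ∈ O, a * d = 1 + q * t) → ∀ r ∈ R, ∀ r' ∈ R,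
      (∃ t ∈ O, d ^ 2 * r = r' + q * t) → uw O δ q R r = uw O δ q R r' :=
  uw_inv hq hq0 hR h1

/-- **The twisted function is an eigenfunction** of the same radial kernels with the same eigenvalues
(translations are isometries). File: `H40K3`. -/
theorem twist_eigenfunction {q : ℂ} {R : Finset ℂ} {G : ℂ → ℂ} {f : H3 → ℂ} (hf : Continuous f)
    {κ : ℝ → ℝ} (h1 : Continuous κ) (h2 : HasCompactSupport κ) {c : ℂ}
    (he : ∀ w, ∫ w', (κ (H3.ch w w') : ℂ) * f w' = c * f w) (w : H3) :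
    ∫ w', (κ (H3.ch w w') : ℂ) * ∑ r ∈ R, G r * f (H3.nMat (r / q) • w') =
      c * ∑ r ∈ R, G r * f (H3.nMat (r / q) • w) :=
  eig_dep hf h1 h2 he w

/-! ## 3. Multiplicativity, reality, and the structure of block (T) -/

/-- **Multiplicativity from the recursions.** `R` is a principal ideal domain, `a` a complex function on
`R`, zero outside the elements prime to `N`, `a(0) = 0`, `a(1) = 1`, invariant under units, with
`a(ϖ² x) = λ(ϖ) a(ϖ x) - a(x)` for all `x`, and `a(ϖ x) = λ(ϖ) a(x)` if `ϖ ∤ x`, for the primes `ϖ`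
not dividing `N`. Then `a(xy) = a(x) a(y)` for coprime `x`, `y`. File: `H40K2`. -/
theorem coefficients_multiplicative {R : Type*} [CommRing R] [IsDomain R] [IsPrincipalIdealRing R] {N : R}
    {a : R → ℂ} (h0 : a 0 = 0) (h1 : a 1 = 1)
    (hu : ∀ u x, IsUnit u → a (u * x) = a x) (hsupp : ∀ x, ¬ IsCoprime x N → a x = 0)
    {lam : R → ℂ}
    (hrec : ∀ ϖ, Prime ϖ → IsCoprime ϖ N → ∀ x, a (ϖ * (ϖ * x)) = lam ϖ * a (ϖ * x) - a x)
    (hrec0 : ∀ ϖ, Prime ϖ → IsCoprime ϖ N → ∀ x, ¬ ϖ ∣ x → a (ϖ * x) = lam ϖ * a x)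
    (x y : R) (hxy : IsCoprime x y) : a (x * y) = a x * a y :=
  coeff_mul h0 h1 hu hsupp hrec hrec0 x y hxy

/-- **Reality**: if the eigenvalues `λ(ϖ)` are real, all values `a(x)` are real. File: `H40K2`. -/
theorem coefficients_real {R : Type*} [CommRing R] [IsDomain R] [IsPrincipalIdealRing R] {N : R}
    {a : R → ℂ} (h0 : a 0 = 0) (h1 : a 1 = 1)
    (hu : ∀ u x, IsUnit u → a (u * x) = a x) (hsupp : ∀ x, ¬ IsCoprime x N → a x = 0)
    {lam : R → ℝ}
    (hrec : ∀ ϖ, Prime ϖ → IsCoprime ϖ N → ∀ x, a (ϖ * (ϖ * x)) = (lam ϖ : ℂ) * a (ϖ * x) - a x)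
    (hrec0 : ∀ ϖ, Prime ϖ → IsCoprime ϖ N → ∀ x, ¬ ϖ ∣ x → a (ϖ * x) = (lam ϖ : ℂ) * a x)
    (x : R) : conj (a x) = a x :=
  coeff_real h0 h1 hu hsupp hrec hrec0 x

/-- **The structure `PreICT N lam a f`**, the result of `GuideOctCOutput`, unfolded: `N > 0`; `f` is
continuous, bounded, invariant under `Γ₀(N) = Gam N`, an eigenfunction of the smooth radial kernels
with the eigenvalue at spectral parameter `0`; `f(z, y)` is the sum over `α ∈ ℤ[ω]` of
`a(α) y K₀(4π|α|y/√3) exp(2πi · 2 Re(αz/√-3))`; `a(0) = 0`, `a(1) ≠ 0`; `a` is invariant under units;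
and for the primes `ϖ` and the elements `α` prime to `N`: `a(ϖ² α) = λ(ϖ) a(ϖ α) - a(α)`, and
`a(ϖ α) = λ(ϖ) a(α)` if `ϖ ∤ α`. File: `H40K3`. -/
theorem preICT_iff (N : ℕ) (lam : Eis → ℝ) (a : Eis → ℂ) (f : H3 → ℂ) : PreICT N lam a f ↔
    0 < N ∧ Continuous f ∧ (∃ C, ∀ w, ‖f w‖ ≤ C) ∧ (∀ g ∈ Gam N, ∀ w, f (g • w) = f w) ∧
      (∀ κ : ℝ → ℝ, ContDiff ℝ ((⊤ : ℕ∞) : WithTop ℕ∞) κ → HasCompactSupport κ →
        ∀ w, ∫ w', (κ (H3.ch w w') : ℂ) * f w' = kap0 κ * f w) ∧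
      (∀ w : H3, HasSum (fun α : Eis =>
        a α * ((w.y * K0 (4 * π * ‖(α : ℂ)‖ * w.y / Real.sqrt 3) : ℝ) : ℂ) *
          ee ((2 * ((α : ℂ) * w.z / sq3).re : ℝ))) (f w)) ∧
      a 0 = 0 ∧ a 1 ≠ 0 ∧ (∀ u α : Eis, IsUnit u → a (u * α) = a α) ∧
      (∀ ϖ : Eis, Prime ϖ → IsCoprime ϖ (N : Eis) → ∀ α : Eis, IsCoprime α (N : Eis) →
        a (ϖ * (ϖ * α)) = lam ϖ * a (ϖ * α) - a α) ∧
      (∀ ϖ : Eis, Prime ϖ → IsCoprime ϖ (N : Eis) → ∀ α : Eis, IsCoprime α (N : Eis) →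
        ¬ ϖ ∣ α → a (ϖ * α) = lam ϖ * a α) :=
  ⟨fun ⟨h1, h2, h3, h4, h5, h6, h7, h8, h9, h10, h11⟩ =>
    ⟨h1, h2, h3, h4, h5, h6, h7, h8, h9, h10, h11⟩,
    fun ⟨h1, h2, h3, h4, h5, h6, h7, h8, h9, h10, h11⟩ =>
      ⟨h1, h2, h3, h4, h5, h6, h7, h8, h9, h10, h11⟩⟩

/-- The coefficients of the final function: `a(α)/a(1)` if `α` is prime to `N`, else `0` (the
depletion is applied with `q = N`). File: `H40K3`. -/
theorem final_coefficients (N : ℕ) (a : Eis → ℂ) (α : Eis) :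
    (IsCoprime α (N : Eis) → cfin N a α = a α / a 1) ∧ (¬ IsCoprime α (N : Eis) → cfin N a α = 0) :=
  ⟨fun h => by rw [cfin, if_pos h], fun h => by rw [cfin, if_neg h]⟩

/-- **From `PreICT` to the structure of block (T).** For `PreICT N lam a f` there are real
multiplicative coefficients `c` and a function `F` with `ICT (N³) c F` and `c(ϖ) = λ(ϖ)` for all
primes `ϖ` not dividing `N`. Proof: `F = a(1)⁻¹ D` with the depleted function `D` of section 2, `q = N`,
invariant under `Γ₀(N · N²)`; `c = cfin`, real and multiplicative by `coefficients_real` and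
`coefficients_multiplicative`. File: `H40K3`. -/
theorem ict_of_preICT {N : ℕ} {lam : Eis → ℝ} {a : Eis → ℂ} {f : H3 → ℂ} (h : PreICT N lam a f) :
    ∃ (c : Eis → ℝ) (F : H3 → ℂ), ICT (N ^ 3) c F ∧
      ∀ ϖ : Eis, Prime ϖ → IsCoprime ϖ ((N ^ 3 : ℕ) : Eis) → c ϖ = lam ϖ :=
  ict_of_pre h

end Fermat.Agent.Guide.OctCTwists
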