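import Mathlib

/-!
# S47, [C6-E], abstract part (helper28)

Decomposition of an unramified prime in a Galois number field in terms of the order of Frobenius.
-/

set_option autoImplicit false
set_option linter.style.haveILetI false
set_option linter.unusedSectionVars false

open scoped Pointwise
open NumberField Ideal IsDedekindDomain

namespace Fermat.Agent.H28Y

variable {F : Type*} [Field F] [NumberField F]

theorem liesOver_span {p : ℕ} (hp : p.Prime) (P : Ideal (𝓞 F)) [P.IsPrime]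
    (hpP : (p : 𝓞 F) ∈ P) : P.LiesOver (span {(p : ℤ)}) := by
  refine ⟨?_⟩
  have hmax : (span {(p : ℤ)}).IsMaximal :=
    PrincipalIdealRing.isMaximal_of_irreducible (Nat.prime_iff_prime_int.mp hp).irreducible
  refine hmax.eq_of_le (Ideal.IsPrime.under ℤ P).ne_top ?_
  rw [span_singleton_le_iff_mem, under_def, mem_comap]
  simpa using hpP

theorem ne_bot_of_natCast_mem {p : ℕ} (hp : p.Prime) (P : Ideal (𝓞 F))
    (hpP : (p : 𝓞 F) ∈ P) : P ≠ ⊥ := by
  rintro rfl
  rw [mem_bot, Nat.cast_eq_zero] at hpP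
  exact hp.ne_zero hpP

section Galois

variable [IsGalois ℚ F] {p : ℕ} (hp : p.Prime) (P : Ideal (𝓞 F)) [hP : P.IsPrime]
  (hpP : (p : 𝓞 F) ∈ P) (hin : ∀ τ : F ≃ₐ[ℚ] F, (∀ x : 𝓞 F, τ • x - x ∈ P) → τ = 1)
  (φ : F ≃ₐ[ℚ] F) (hφ : ∀ x : 𝓞 F, φ • x - x ^ p ∈ P)

include hp hpP hφ in
theorem frob_smul : φ • P = P := by
  have hmax : P.IsMaximal := hP.isMaximal (ne_bot_of_natCast_mem hp P hpP)
  have h1 : φ • P ≤ P := by
    intro x hx
    rw [mem_pointwise_smul_iff_inv_smul_mem] at hx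
    have h2 := hφ (φ⁻¹ • x)
    rw [smul_inv_smul] at h2
    have h3 : (φ⁻¹ • x) ^ p ∈ P := pow_mem_of_mem P hx p hp.pos
    have := P.add_mem h2 h3
    rwa [sub_add_cancel] at this
  have h4 : P ≤ φ⁻¹ • P := by
    intro x hx
    rw [mem_pointwise_smul_iff_inv_smul_mem, inv_inv]
    exact h1 (smul_mem_pointwise_smul _ _ _ hx)
  have h5 : φ⁻¹ • P ≠ ⊤ := by
    intro h
    apply hmax.ne_top
    have := congrArg (fun I => φ • I) h
    simp only [smul_inv_smul] at this
    rw [this]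
    exact (eq_top_iff_one _).2 ((mem_pointwise_smul_iff_inv_smul_mem).2 (by simp))
  have h6 := hmax.eq_of_le h5 h4
  have := congrArg (fun I => φ • I) h6
  simpa using this

include hφ in
theorem frob_pow (n : ℕ) (x : 𝓞 F) : φ ^ n • x - x ^ p ^ n ∈ P := by
  induction n generalizing x with
  | zero => simp
  | succ n ih =>
    have h1 := ih (φ • x)
    have h2 : (φ • x) ^ p ^ n - (x ^ p) ^ p ^ n ∈ P :=
      P.mem_of_dvd (sub_dvd_pow_sub_pow _ _ _) (hφ x)
    have h3 := P.add_mem h1 h2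
    rw [← pow_mul, ← pow_succ'] at h3
    rw [pow_succ, mul_smul]
    convert h3 using 1
    ring

include hp hpP hin hφ in
/-- norm of a prime and order of its decomposition group -/
theorem card_stabilizer_and_norm :
    Nat.card (MulAction.stabilizer (F ≃ₐ[ℚ] F) P) = orderOf φ ∧ absNorm P = p ^ orderOf φ := by
  classical
  have hPb := ne_bot_of_natCast_mem hp P hpP
  have hmax : P.IsMaximal := hP.isMaximal hPb
  have hst := frob_smul hp P hpP φ hφ
  haveI hlo := liesOver_span hp P hpP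
  haveI hpp : (span {(p : ℤ)}).IsPrime := by
    rw [span_singleton_prime (by exact_mod_cast hp.ne_zero)]
    exact Nat.prime_iff_prime_int.mp hp
  haveI : Fact p.Prime := ⟨hp⟩
  have hinert : P.inertia (F ≃ₐ[ℚ] F) = ⊥ := by
    rw [eq_bot_iff]
    intro τ hτ
    rw [Subgroup.mem_bot]
    exact hin τ hτ
  have hcard := card_stabilizer_eq_card_inertia_mul_finrank (G := (F ≃ₐ[ℚ] F)) (span {(p : ℤ)}) P
  rw [hinert, Subgroup.card_bot, one_mul] at hcard
  have hnorm := pow_inertiaDeg p P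
  -- `φ` is in the stabilizer
  have hdvd : orderOf φ ∣ Nat.card (MulAction.stabilizer (F ≃ₐ[ℚ] F) P) := by
    have : orderOf φ = orderOf (⟨φ, hst⟩ : MulAction.stabilizer (F ≃ₐ[ℚ] F) P) := by
      rw [← Subgroup.orderOf_coe]
    rw [this]
    exact orderOf_dvd_natCard _
  rw [hcard] at hdvd ⊢
  -- the residue field
  letI : Field (𝓞 F ⧸ P) := Ideal.Quotient.field P
  have hcardk : Nat.card (𝓞 F ⧸ P) = p ^ P.inertiaDeg ℤ := by
    rw [hnorm, absNorm_apply, Submodule.cardQuot_apply]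
  haveI : Finite (𝓞 F ⧸ P) := Nat.finite_of_card_ne_zero (by
    rw [hcardk]; exact pow_ne_zero _ hp.ne_zero)
  have hroot : ∀ x : 𝓞 F ⧸ P, x ^ p ^ orderOf φ = x := by
    intro x
    obtain ⟨x, rfl⟩ := Ideal.Quotient.mk_surjective x
    have h := frob_pow P φ hφ (orderOf φ) x
    rw [pow_orderOf_eq_one, one_smul] at h
    rw [← map_pow]
    exact ((Ideal.Quotient.mk_eq_mk_iff_sub_mem _ _).2 h).symm
  have hpos : 0 < orderOf φ := orderOf_pos φ
  have hle : P.inertiaDeg ℤ ≤ orderOf φ := by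
    have h1 : Monoid.exponent (𝓞 F ⧸ P)ˣ ∣ p ^ orderOf φ - 1 := by
      apply Monoid.exponent_dvd_of_forall_pow_eq_one
      intro u
      have h2 : (u : 𝓞 F ⧸ P) ^ p ^ orderOf φ = u := hroot u
      have h3 : 1 ≤ p ^ orderOf φ := Nat.one_le_pow _ _ hp.pos
      have h4 : u * u ^ (p ^ orderOf φ - 1) = u * 1 := by
        rw [← pow_succ', Nat.sub_add_cancel h3, mul_one]
        exact Units.ext (by rw [Units.val_pow_eq_pow_val, h2])
      exact mul_left_cancel h4
    rw [IsCyclic.exponent_eq_card, Nat.card_units, hcardk] at h1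
    have h5 : 0 < p ^ orderOf φ - 1 := Nat.sub_pos_of_lt (Nat.one_lt_pow hpos.ne' hp.one_lt)
    have h6 := Nat.le_of_dvd h5 h1
    have h7 : p ^ P.inertiaDeg ℤ ≤ p ^ orderOf φ := by
      have h8 : 1 ≤ p ^ orderOf φ := Nat.one_le_pow _ _ hp.pos
      omega
    exact (Nat.pow_le_pow_iff_right hp.one_lt).1 h7
  have hfpos : 0 < P.inertiaDeg ℤ := by
    rcases Nat.eq_zero_or_pos (P.inertiaDeg ℤ) with h0 | h0
    · exfalso
      rw [h0, pow_zero] at hnorm
      exact hmax.ne_top (absNorm_eq_one_iff.1 hnorm.symm)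
    · exact h0
  have heq : P.inertiaDeg ℤ = orderOf φ := le_antisymm hle (Nat.le_of_dvd hfpos hdvd)
  exact ⟨heq, by rw [← hnorm, heq]⟩

end Galois

/-- an inert prime: if `Frobenius` at an unramified `P` has order `[F : ℚ]`, then `P = (p)` -/
theorem eq_span_of_orderOf [IsGalois ℚ F] {p : ℕ} (hp : p.Prime) (P : Ideal (𝓞 F))
    [hP : P.IsPrime] (hpP : (p : 𝓞 F) ∈ P)
    (hin : ∀ τ : F ≃ₐ[ℚ] F, (∀ x : 𝓞 F, τ • x - x ∈ P) → τ = 1)
    (φ : F ≃ₐ[ℚ] F) (hφ : ∀ x : 𝓞 F, φ • x - x ^ p ∈ P)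
    (hord : orderOf φ = Module.finrank ℚ F) : P = span {(p : 𝓞 F)} := by
  have h1 := (card_stabilizer_and_norm hp P hpP hin φ hφ).2
  have h2 : absNorm (span {(p : 𝓞 F)}) = p ^ Module.finrank ℚ F := by
    rw [absNorm_span_singleton]
    have : ((p : ℕ) : 𝓞 F) = algebraMap ℤ (𝓞 F) p := by simp
    rw [this, Algebra.norm_algebraMap, Int.natAbs_pow, Int.natAbs_natCast,
      NumberField.RingOfIntegers.rank]
  have h3 : P ∣ span {(p : 𝓞 F)} := by
    rw [dvd_span_singleton]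
    exact hpP
  obtain ⟨J, hJ⟩ := h3
  have h4 : absNorm J = 1 := by
    have h5 := congrArg absNorm hJ
    rw [map_mul, h1, h2, hord] at h5
    have h6 : 0 < p ^ Module.finrank ℚ F := pow_pos hp.pos _
    exact Nat.eq_of_mul_eq_mul_left h6 (by rw [← h5, mul_one])
  rw [absNorm_eq_one_iff] at h4
  rw [hJ, h4, mul_top]

/-- three places: `F` Galois of degree `6`, Frobenius at the unramified `P` of order `2` and `s` of
order `3` -/
theorem three_places [IsGalois ℚ F] (h6 : Module.finrank ℚ F = 6) {p : ℕ} (hp : p.Prime)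
    (P : Ideal (𝓞 F)) [hP : P.IsPrime] (hpP : (p : 𝓞 F) ∈ P)
    (hin : ∀ τ : F ≃ₐ[ℚ] F, (∀ x : 𝓞 F, τ • x - x ∈ P) → τ = 1)
    (φ : F ≃ₐ[ℚ] F) (hφ : ∀ x : 𝓞 F, φ • x - x ^ p ∈ P) (hord : orderOf φ = 2)
    (s : F ≃ₐ[ℚ] F) (hs : orderOf s = 3) :
    absNorm P = p ^ 2 ∧ s • P ≠ P ∧ s • s • P ≠ P ∧ s • s • P ≠ s • P ∧ s • s • s • P = P ∧
      span {(p : 𝓞 F)} = P * (s • P) * (s • s • P) ∧
      ∀ Q : Ideal (𝓞 F), Q.IsPrime → (p : 𝓞 F) ∈ Q → Q = P ∨ Q = s • P ∨ Q = s • s • P := by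
  obtain ⟨hst, hn⟩ := card_stabilizer_and_norm hp P hpP hin φ hφ
  rw [hord] at hst hn
  have hs3 : s ^ 3 = 1 := by rw [← hs]; exact pow_orderOf_eq_one s
  have hne : s • P ≠ P := by
    intro h
    have h1 : orderOf s ∣ Nat.card (MulAction.stabilizer (F ≃ₐ[ℚ] F) P) := by
      have : orderOf s = orderOf (⟨s, h⟩ : MulAction.stabilizer (F ≃ₐ[ℚ] F) P) := by
        rw [← Subgroup.orderOf_coe]
      rw [this]
      exact orderOf_dvd_natCard _
    rw [hst, hs] at h1
    omega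
  have hne2 : s • s • P ≠ s • P := by
    intro h
    apply hne
    have := congrArg (fun I => s⁻¹ • I) h
    simpa using this
  have hsss : s • s • s • P = P := by
    rw [← mul_smul, ← mul_smul, ← pow_two, ← pow_succ, hs3, one_smul]
  have hne3 : s • s • P ≠ P := by
    intro h
    apply hne
    have := congrArg (fun I => s • I) h
    simp only [hsss] at this
    exact this.symm
  have hPb := ne_bot_of_natCast_mem hp P hpP
  have hmax : P.IsMaximal := hP.isMaximal hPb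
  have hmem : ∀ (τ : F ≃ₐ[ℚ] F) (I : Ideal (𝓞 F)), (p : 𝓞 F) ∈ I → (p : 𝓞 F) ∈ τ • I := by
    intro τ I hI
    rw [mem_pointwise_smul_iff_inv_smul_mem]
    have h' : τ⁻¹ • (p : 𝓞 F) = p := map_natCast (MulSemiringAction.toRingHom _ (𝓞 F) τ⁻¹) p
    rwa [h']
  have hprime : ∀ (τ : F ≃ₐ[ℚ] F) (I : Ideal (𝓞 F)), I.IsPrime → (τ • I).IsPrime := by
    intro τ I hI
    infer_instance
  have hnorm : ∀ (τ : F ≃ₐ[ℚ] F) (I : Ideal (𝓞 F)), absNorm (τ • I) = absNorm I := by
    intro τ I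
    rw [absNorm_apply, absNorm_apply, Submodule.cardQuot_apply, Submodule.cardQuot_apply]
    exact (Nat.card_congr (Ideal.quotientEquiv I (τ • I) (MulSemiringAction.toRingEquiv _ (𝓞 F) τ)
      rfl).toEquiv).symm
  have h1 : (p : 𝓞 F) ∈ s • P := hmem s P hpP
  have h2 : (p : 𝓞 F) ∈ s • s • P := hmem s _ h1
  haveI hP1 : (s • P).IsPrime := hprime s P hP
  haveI hP2 : (s • s • P).IsPrime := hprime s _ hP1
  have hm1 : (s • P).IsMaximal := hP1.isMaximal (ne_bot_of_natCast_mem hp _ h1)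
  have hm2 : (s • s • P).IsMaximal := hP2.isMaximal (ne_bot_of_natCast_mem hp _ h2)
  have hc1 : IsCoprime P (s • P) := Ideal.isCoprime_of_isMaximal hne.symm
  have hc2 : IsCoprime P (s • s • P) := Ideal.isCoprime_of_isMaximal hne3.symm
  have hc3 : IsCoprime (s • P) (s • s • P) := Ideal.isCoprime_of_isMaximal hne2.symm
  have hd : P * (s • P) * (s • s • P) ∣ span {(p : 𝓞 F)} :=
    (IsCoprime.mul_left hc2 hc3).mul_dvd
      (hc1.mul_dvd (dvd_span_singleton.2 hpP) (dvd_span_singleton.2 h1)) (dvd_span_singleton.2 h2)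
  have hnp : absNorm (span {(p : 𝓞 F)}) = p ^ 6 := by
    rw [absNorm_span_singleton]
    have : ((p : ℕ) : 𝓞 F) = algebraMap ℤ (𝓞 F) p := by simp
    rw [this, Algebra.norm_algebraMap, Int.natAbs_pow, Int.natAbs_natCast,
      NumberField.RingOfIntegers.rank, h6]
  have hprod : span {(p : 𝓞 F)} = P * (s • P) * (s • s • P) := by
    obtain ⟨J, hJ⟩ := hd
    have h4 : absNorm J = 1 := by
      have h5 := congrArg absNorm hJ
      rw [map_mul, map_mul, map_mul, hnorm, hnorm, hnorm, hn, hnp] at h5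
      have h6 : 0 < p ^ 6 := pow_pos hp.pos _
      refine Nat.eq_of_mul_eq_mul_left h6 ?_
      rw [mul_one]
      conv_rhs => rw [h5]
      ring
    rw [absNorm_eq_one_iff] at h4
    rw [hJ, h4, mul_top]
  refine ⟨hn, hne, hne3, hne2, hsss, hprod, ?_⟩
  intro Q hQ hpQ
  have hQm : P * (s • P) * (s • s • P) ≤ Q := by
    rw [← hprod, span_singleton_le_iff_mem]
    exact hpQ
  rcases hQ.mul_le.1 hQm with h | h
  · rcases hQ.mul_le.1 h with h | h
    · exact Or.inl (hmax.eq_of_le hQ.ne_top h).symm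
    · exact Or.inr (Or.inl (hm1.eq_of_le hQ.ne_top h).symm)
  · exact Or.inr (Or.inr (hm2.eq_of_le hQ.ne_top h).symm)

end Fermat.Agent.H28Y
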