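import Mathlib
import Fermat.Agent.H28Y1
import Fermat.Agent.H14Lift
import Fermat.Agent.H86Density
import Fermat.Agent.H83ZPrime
import Fermat.Agent.H3G4

/-!
# S47, [C6-E] (helper28): the prime `p ≡ -1 mod n` with Frobenius of order `8` in the tower
-/

set_option autoImplicit false
set_option maxSynthPendingDepth 3
set_option linter.style.haveILetI false
set_option linter.unusedSectionVars false

open scoped Pointwise
open NumberField Ideal IsDedekindDomain WeierstrassCurve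

namespace Fermat.Agent.H28Y

local notation "Qb" => AlgebraicClosure ℚ
local notation "Zb" => integralClosure ℤ (AlgebraicClosure ℚ)
local notation "Γℚ" => (AlgebraicClosure ℚ ≃ₐ[ℚ] AlgebraicClosure ℚ)

local instance isAlgebraicQb : Algebra.IsAlgebraic ℚ Qb := AlgebraicClosure.isAlgebraic ℚ
local instance isAlgClosureQb : IsAlgClosure ℚ Qb := ⟨inferInstance, inferInstance⟩
local instance normalQb : Normal ℚ Qb := IsAlgClosure.normal ℚ Qb
local instance isGaloisQb : IsGalois ℚ Qb := ⟨⟩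

/-- `ρ(I_A) = 1` on `M` gives the finite-level condition -/
theorem inertia_trivial (M : IntermediateField ℚ Qb) [FiniteDimensional ℚ M] [Normal ℚ M]
    {p : ℕ} (hp : p.Prime) {A : ValuationSubring Qb} (hA : A.LiesOverPrime p)
    (h : ∀ σ ∈ A.inertiaSubgroupIn ℚ, σ ∈ M.fixingSubgroup) (τ : M ≃ₐ[ℚ] M)
    (hτ : ∀ x : 𝓞 M, τ • x - x ∈ H86.centre M A) : τ = 1 := by
  obtain ⟨s, rfl⟩ := AlgEquiv.restrictNormalHom_surjective (F := ℚ) (K₁ := M) Qb τ
  haveI hN : M.fixingSubgroup.Normal := by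
    refine ⟨fun σ hσ g => (IntermediateField.mem_fixingSubgroup_iff _ _).2 fun x hx => ?_⟩
    have h1 : (g⁻¹ : Γℚ) x ∈ M := by
      have h2 : ((AlgEquiv.restrictNormalHom M g⁻¹ (⟨x, hx⟩ : M) : M) : Qb) = (g⁻¹ : Γℚ) x :=
        AlgEquiv.restrictNormal_commutes g⁻¹ M (⟨x, hx⟩ : M)
      rw [← h2]
      exact SetLike.coe_mem _
    have h3 := (IntermediateField.mem_fixingSubgroup_iff _ _).1 hσ _ h1
    calc (g * σ * g⁻¹) x = g (σ ((g⁻¹ : Γℚ) x)) := rfl
      _ = g ((g⁻¹ : Γℚ) x) := by rw [h3]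
      _ = x := g.apply_symm_apply x
  have hcl : IsClosed (M.fixingSubgroup : Set Γℚ) := IntermediateField.fixingSubgroup_isClosed M
  obtain ⟨g, hg, hgs⟩ := H14.exists_lift_inertia M.fixingSubgroup hcl hp hA s (by
    intro b hb
    have hbM : (b : Qb) ∈ M := by
      rw [← InfiniteGalois.fixedField_fixingSubgroup M, IntermediateField.mem_fixedField_iff]
      intro σ hσ
      exact congrArg Subtype.val (hb σ hσ)
    obtain ⟨x, hx⟩ : ∃ x : 𝓞 M, H86.toZb M x = b := by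
      have h1 : IsIntegral ℤ (b : Qb) := b.2
      have h2 : IsIntegral ℤ (⟨(b : Qb), hbM⟩ : M) :=
        (isIntegral_algHom_iff (M.val.restrictScalars ℤ) Subtype.val_injective).1 h1
      exact ⟨⟨⟨(b : Qb), hbM⟩, h2⟩, rfl⟩
    have h2 := hτ x
    rw [H86.centre, Ideal.mem_comap, map_sub, H86.toZb_smul, hx] at h2
    exact h2)
  have h3 := h _ hgs
  have h4 : s ∈ M.fixingSubgroup := by
    have := M.fixingSubgroup.mul_mem (M.fixingSubgroup.inv_mem hg) h3
    rwa [inv_mul_cancel_left] at this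
  ext x
  rw [AlgEquiv.one_apply]
  have h5 : s ((x : M) : Qb) = x := (IntermediateField.mem_fixingSubgroup_iff _ _).1 h4 _ x.2
  rw [← h5]
  exact AlgEquiv.restrictNormal_commutes s M x

theorem restrict_eq_one_iff (M : IntermediateField ℚ Qb) [Normal ℚ M] (σ : Γℚ) :
    AlgEquiv.restrictNormalHom M σ = 1 ↔ σ ∈ M.fixingSubgroup := by
  rw [IntermediateField.mem_fixingSubgroup_iff]
  constructor
  · intro h x hx
    have h1 : ((AlgEquiv.restrictNormalHom M σ (⟨x, hx⟩ : M) : M) : Qb) = σ x :=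
      AlgEquiv.restrictNormal_commutes σ M (⟨x, hx⟩ : M)
    rw [← h1, h]
    rfl
  · intro h
    ext x
    have h1 : ((AlgEquiv.restrictNormalHom M σ x : M) : Qb) = σ (x : Qb) :=
      AlgEquiv.restrictNormal_commutes σ M x
    rw [h1, h _ x.2]
    rfl

/-- two elements which act by the same power map on the residue field differ by inertia -/
theorem frobenius_eq {A : ValuationSubring Qb} {q : ℕ} {σ τ : Γℚ} (hσ : A.IsFrobeniusAt σ q)
    (hτ : A.IsFrobeniusAt τ q) : τ⁻¹ * σ ∈ A.inertiaSubgroupIn ℚ := by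
  obtain ⟨h1, h2⟩ := hσ
  obtain ⟨h3, h4⟩ := hτ
  refine ⟨⟨τ, h3⟩⁻¹ * ⟨σ, h1⟩, ?_, rfl⟩
  show _ ∈ MonoidHom.ker _
  rw [MonoidHom.mem_ker]
  ext x
  show (((⟨τ, h3⟩ : A.decompositionSubgroup ℚ)⁻¹ * ⟨σ, h1⟩ : A.decompositionSubgroup ℚ)) • x = x
  rw [mul_smul, h2, inv_smul_eq_iff, h4]

theorem frobenius_sq {A : ValuationSubring Qb} {q : ℕ} {σ : Γℚ} (hσ : A.IsFrobeniusAt σ q) :
    A.IsFrobeniusAt (σ * σ) (q ^ 2) := by
  obtain ⟨h1, h2⟩ := hσ
  refine ⟨mul_mem h1 h1, fun x => ?_⟩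
  have : (⟨σ * σ, mul_mem h1 h1⟩ : A.decompositionSubgroup ℚ) = ⟨σ, h1⟩ * ⟨σ, h1⟩ := rfl
  rw [this, mul_smul, h2, h2, ← pow_mul, sq]

end Fermat.Agent.H28Y
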