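import Mathlib
import Fermat.Agent.H28Y2

/-!
# S47, [C6-E] (helper28): the prime `p ≡ -1 mod n` with Frobenius of order `8` in the tower
-/

set_option autoImplicit false
set_option maxSynthPendingDepth 3
set_option linter.style.haveILetI false
set_option linter.unusedSectionVars false

open scoped Pointwise
open NumberField Ideal IsDedekindDomain WeierstrassCurve

namespace Fermat.Agent.H28Y

open H3G

local notation "Qb" => AlgebraicClosure ℚ
local notation "Γℚ" => (AlgebraicClosure ℚ ≃ₐ[ℚ] AlgebraicClosure ℚ)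

/-! ### elements of order `8` -/

theorem not_mem_SL_of_orderOf {g : GG} (hg : orderOf g = 8) : g ∉ SL := by
  intro h
  have h1 : (⟨g, h⟩ : SL) ^ 3 ∈ Q8.subgroupOf SL := by
    have h2 := Subgroup.pow_index_mem (Q8.subgroupOf SL) (⟨g, h⟩ : SL)
    rwa [← Subgroup.relIndex, relIndex_Q8_SL] at h2
  have h3 : g ^ 3 ∈ Q8 := Subgroup.mem_subgroupOf.1 h1
  have h4 := pow_four_of_mem_Q8 h3
  rw [← pow_mul] at h4
  have h5 := orderOf_dvd_of_pow_eq_one h4
  rw [hg] at h5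
  omega

theorem sq_of_orderOf {g : GG} (hg : orderOf g = 8) : g * g ∈ Q8 ∧ g * g ≠ 1 ∧ g * g ≠ -1 := by
  have h1 := sq_mem_Q8_of_not_mem_SL (not_mem_SL_of_orderOf hg)
  rw [sq] at h1
  refine ⟨h1, ?_, ?_⟩
  · intro h
    have := orderOf_dvd_of_pow_eq_one (by rw [sq]; exact h : g ^ 2 = 1)
    rw [hg] at this
    omega
  · intro h
    have h2 : g ^ 4 = 1 := by
      have : g ^ 4 = (g * g) * (g * g) := by rw [show (4 : ℕ) = 2 + 2 from rfl, pow_add, sq]
      rw [this, h]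
      simp
    have := orderOf_dvd_of_pow_eq_one h2
    rw [hg] at this
    omega

/-! ### the tower -/

variable (D : RD)

/-- the restriction of an element of order `8` to a field between `ℚ` and `E` -/
theorem orderOf_restrict {H : Subgroup GG} [H.Normal] {σ : Γℚ} (h1 : D.ρ σ ∉ H)
    (h2 : D.ρ σ * D.ρ σ ∈ H) :
    orderOf (AlgEquiv.restrictNormalHom (fld D.ρ H) σ) = 2 := by
  apply orderOf_eq_prime
  · rw [sq, ← map_mul, restrict_eq_one_iff, mem_fixingSubgroup_fld D.cont, map_mul]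
    exact h2
  · rw [ne_eq, restrict_eq_one_iff, mem_fixingSubgroup_fld D.cont]
    exact h1

/-- **[C6-E]** -/
theorem exists_prime {n : ℕ} (hn : 0 < n) (S : Finset ℕ) :
    ∃ p : ℕ, p.Prime ∧ p ∉ S ∧ (p : ZMod n) = -1 ∧ p % 3 = 2 ∧
      (∃ v : HeightOneSpectrum (𝓞 D.M), v.asIdeal = span {(p : 𝓞 D.M)} ∧
        absNorm v.asIdeal = p ^ 2) ∧
      (∃ w : HeightOneSpectrum (𝓞 D.E), (p : 𝓞 D.E) ∈ w.asIdeal ∧ absNorm w.asIdeal = p ^ 2 ∧
        ∀ s : D.E ≃ₐ[ℚ] D.E, orderOf s = 3 →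
          s • w.asIdeal ≠ w.asIdeal ∧ s • s • w.asIdeal ≠ w.asIdeal ∧
          s • s • w.asIdeal ≠ s • w.asIdeal ∧ s • s • s • w.asIdeal = w.asIdeal ∧
          span {(p : 𝓞 D.E)} = w.asIdeal * (s • w.asIdeal) * (s • s • w.asIdeal) ∧
          ∀ Q : Ideal (𝓞 D.E), Q.IsPrime → (p : 𝓞 D.E) ∈ Q →
            Q = w.asIdeal ∨ Q = s • w.asIdeal ∨ Q = s • s • w.asIdeal) ∧
      ∀ A : ValuationSubring Qb, A.LiesOverPrime p →
        (∀ σ ∈ A.inertiaSubgroupIn ℚ, D.ρ σ = 1) ∧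
        ∀ σ : Γℚ, A.IsFrobeniusAt σ (p ^ 2) → D.ρ σ ∈ Q8 ∧ D.ρ σ ≠ 1 ∧ D.ρ σ ≠ -1 := by
  obtain ⟨p, hp, hpS, hpn, hp3, hA⟩ :=
    H83Z.exists_prime_order_eight D.ρ D.cont D.surj D.det hn S
  obtain ⟨A₀, hA₀⟩ := H54.exists_liesOverPrime hp
  obtain ⟨σ₀, hσ₀⟩ := H54.exists_isFrobeniusAt hp hA₀
  have h8 := (hA A₀ hA₀).2 σ₀ hσ₀
  have hunr : ∀ (H : Subgroup GG), ∀ σ ∈ A₀.inertiaSubgroupIn ℚ, σ ∈ (fld D.ρ H).fixingSubgroup := by
    intro H σ hσ
    rw [mem_fixingSubgroup_fld D.cont, (hA A₀ hA₀).1 σ hσ]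
    exact H.one_mem
  have hnb : ∀ (K : Type) [Field K] [NumberField K] (P : Ideal (𝓞 K)), (p : 𝓞 K) ∈ P → P ≠ ⊥ :=
    fun K _ _ P h => ne_bot_of_natCast_mem hp P h
  refine ⟨p, hp, hpS, hpn, hp3, ?_, ?_, ?_⟩
  · have hmem : (p : 𝓞 D.M) ∈ H86.centre (fld D.ρ SL) A₀ := H86.natCast_mem_centre _ hA₀
    have hin := inertia_trivial (fld D.ρ SL) hp hA₀ (hunr SL)
    have hφ := fun x => H86.restrict_frobenius (fld D.ρ SL) hσ₀ x
    have hord := orderOf_restrict D (H := SL) (not_mem_SL_of_orderOf h8)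
      (Q8_le_SL (sq_of_orderOf h8).1)
    refine ⟨⟨H86.centre (fld D.ρ SL) A₀, inferInstance, hnb _ _ hmem⟩, ?_, ?_⟩
    · exact eq_span_of_orderOf hp _ hmem hin _ hφ (by rw [hord, D.finrank_M])
    · have := (card_stabilizer_and_norm hp _ hmem hin _ hφ).2
      rwa [hord] at this
  · have hmem : (p : 𝓞 D.E) ∈ H86.centre (fld D.ρ Q8) A₀ := H86.natCast_mem_centre _ hA₀
    have hin := inertia_trivial (fld D.ρ Q8) hp hA₀ (hunr Q8)
    have hφ := fun x => H86.restrict_frobenius (fld D.ρ Q8) hσ₀ x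
    have hord := orderOf_restrict D (H := Q8)
      (fun h => not_mem_SL_of_orderOf h8 (Q8_le_SL h)) (sq_of_orderOf h8).1
    refine ⟨⟨H86.centre (fld D.ρ Q8) A₀, inferInstance, hnb _ _ hmem⟩, hmem, ?_, ?_⟩
    · have := (card_stabilizer_and_norm hp _ hmem hin _ hφ).2
      rwa [hord] at this
    · intro s hs
      exact (three_places D.finrank_E hp _ hmem hin _ hφ hord s hs).2
  · intro A hAp
    refine ⟨(hA A hAp).1, fun σ hσ => ?_⟩
    obtain ⟨φ, hφ⟩ := H54.exists_isFrobeniusAt hp hAp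
    have h1 := frobenius_eq hσ (frobenius_sq hφ)
    have h2 := (hA A hAp).1 _ h1
    rw [map_mul, map_inv, inv_mul_eq_one, map_mul] at h2
    rw [← h2]
    exact sq_of_orderOf ((hA A hAp).2 φ hφ)

/-! ### the form with valuations -/

/-- the permutation of the places given by an automorphism, on ideals -/
theorem asIdeal_eq_of_val {F : Type*} [Field F] [NumberField F] (s : F ≃ₐ[ℚ] F)
    (w w' : HeightOneSpectrum (𝓞 F)) (h : ∀ x, w'.valuation F (s x) = w.valuation F x) :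
    w'.asIdeal = s • w.asIdeal := by
  ext x
  rw [mem_pointwise_smul_iff_inv_smul_mem]
  have h1 : ∀ (v : HeightOneSpectrum (𝓞 F)) (y : 𝓞 F),
      y ∈ v.asIdeal ↔ v.valuation F (y : F) < 1 := fun v y =>
    (v.valuation_lt_one_iff_mem (K := F) y).symm
  rw [h1, h1, ← h]
  have h2 : s (((s⁻¹ • x : 𝓞 F) : F)) = (x : F) := by
    show s (s⁻¹ (x : F)) = x
    exact s.apply_symm_apply _
  rw [h2]

/-- valuation of `x` in terms of the factorization -/
theorem valuation_of_mul {F : Type*} [Field F] [NumberField F] {J : Ideal (𝓞 F)} {x : 𝓞 F}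
    (hx0 : x ≠ 0) (w : HeightOneSpectrum (𝓞 F)) (hx : span {x} = w.asIdeal * J)
    (hJ : ¬ J ≤ w.asIdeal) : w.valuation F (x : F) = WithZero.exp (-1 : ℤ) := by
  have h0 : w.intValuation x ≠ 0 := w.intValuation_ne_zero x hx0
  have h1 : w.intValuation x ≤ WithZero.exp (-((1 : ℕ) : ℤ)) := by
    rw [w.intValuation_le_pow_iff_dvd, pow_one, hx]
    exact dvd_mul_right _ _
  have h2 : ¬ w.intValuation x ≤ WithZero.exp (-((2 : ℕ) : ℤ)) := by
    rw [w.intValuation_le_pow_iff_dvd, hx, sq]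
    intro h
    exact hJ (Ideal.dvd_iff_le.1 ((mul_dvd_mul_iff_left w.ne_bot).1 h))
  have h3 : w.valuation F (x : F) = w.intValuation x := w.valuation_of_algebraMap (K := F) x
  rw [h3]
  obtain ⟨m, hm⟩ : ∃ m : ℤ, w.intValuation x = WithZero.exp m :=
    ⟨WithZero.log (w.intValuation x), (WithZero.exp_log h0).symm⟩
  rw [hm] at h1 h2 ⊢
  rw [WithZero.exp_le_exp] at h1 h2
  congr 1
  push_cast at h1 h2
  omega

theorem absNorm_smul {F : Type*} [Field F] [NumberField F] (τ : F ≃ₐ[ℚ] F) (I : Ideal (𝓞 F)) :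
    absNorm (τ • I) = absNorm I := by
  rw [absNorm_apply, absNorm_apply, Submodule.cardQuot_apply, Submodule.cardQuot_apply]
  exact (Nat.card_congr (Ideal.quotientEquiv I (τ • I) (MulSemiringAction.toRingEquiv _ (𝓞 F) τ)
    rfl).toEquiv).symm

theorem valuation_natCast_eq_one {F : Type*} [Field F] [NumberField F] {p : ℕ}
    (w : HeightOneSpectrum (𝓞 F)) (h : (p : 𝓞 F) ∉ w.asIdeal) :
    w.valuation F (p : F) = 1 := by
  have h1 : w.valuation F ((p : 𝓞 F) : F) = 1 := (w.valuation_eq_one_iff_notMem (K := F)).2 h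
  simpa using h1

/-- places below -/
theorem comap_eq_of_mem {K L : Type*} [Field K] [NumberField K] [Field L] [NumberField L]
    [Algebra K L] {p : ℕ} (v : HeightOneSpectrum (𝓞 K)) (w : HeightOneSpectrum (𝓞 L))
    (hv : v.asIdeal = span {(p : 𝓞 K)}) (hw : (p : 𝓞 L) ∈ w.asIdeal) :
    w.asIdeal.comap (algebraMap (𝓞 K) (𝓞 L)) = v.asIdeal := by
  refine (v.isMaximal.eq_of_le (Ideal.comap_isPrime _ _).ne_top ?_).symm
  rw [hv, span_singleton_le_iff_mem, mem_comap, map_natCast]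
  exact hw

/-- **[C6-E]**, in terms of valuations: the two places lists of `a = -p`. -/
theorem exists_prime_val {n : ℕ} (hn : 0 < n) (S : Finset ℕ) :
    ∃ p : ℕ, p.Prime ∧ p ∉ S ∧ (p : ZMod n) = -1 ∧ p % 3 = 2 ∧
      (∃ v : HeightOneSpectrum (𝓞 D.M), v.asIdeal = span {(p : 𝓞 D.M)} ∧
        absNorm v.asIdeal = p ^ 2 ∧ v.valuation D.M (p : D.M) = WithZero.exp (-1 : ℤ) ∧
        ∀ v' : HeightOneSpectrum (𝓞 D.M), v' ≠ v → v'.valuation D.M (p : D.M) = 1) ∧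
      (∃ w : HeightOneSpectrum (𝓞 D.E), (p : 𝓞 D.E) ∈ w.asIdeal ∧ absNorm w.asIdeal = p ^ 2 ∧
        ∀ s : D.E ≃ₐ[ℚ] D.E, orderOf s = 3 →
        ∀ σ : Equiv.Perm (HeightOneSpectrum (𝓞 D.E)),
          (∀ w x, (σ w).valuation D.E (s x) = w.valuation D.E x) →
          σ w ≠ w ∧ σ (σ w) ≠ w ∧ σ (σ w) ≠ σ w ∧ σ (σ (σ w)) = w ∧
          absNorm (σ w).asIdeal = p ^ 2 ∧ absNorm (σ (σ w)).asIdeal = p ^ 2 ∧
          w.valuation D.E (p : D.E) = WithZero.exp (-1 : ℤ) ∧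
          (σ w).valuation D.E (p : D.E) = WithZero.exp (-1 : ℤ) ∧
          (σ (σ w)).valuation D.E (p : D.E) = WithZero.exp (-1 : ℤ) ∧
          ∀ w' : HeightOneSpectrum (𝓞 D.E), w' ≠ w → w' ≠ σ w → w' ≠ σ (σ w) →
            w'.valuation D.E (p : D.E) = 1) ∧
      ∀ A : ValuationSubring Qb, A.LiesOverPrime p →
        (∀ σ ∈ A.inertiaSubgroupIn ℚ, D.ρ σ = 1) ∧
        ∀ σ : Γℚ, A.IsFrobeniusAt σ (p ^ 2) → D.ρ σ ∈ Q8 ∧ D.ρ σ ≠ 1 ∧ D.ρ σ ≠ -1 := by
  obtain ⟨p, hp, hpS, hpn, hp3, ⟨v, hv, hvn⟩, ⟨w, hw, hwn, hws⟩, hA⟩ := exists_prime D hn S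
  refine ⟨p, hp, hpS, hpn, hp3, ⟨v, hv, hvn, ?_, ?_⟩, ⟨w, hw, hwn, ?_⟩, hA⟩
  · have h0 : (p : 𝓞 D.M) ≠ 0 := Nat.cast_ne_zero.2 hp.ne_zero
    have h := valuation_of_mul h0 v (J := ⊤) (by rw [mul_top, hv])
      (fun h => v.isPrime.ne_top (top_le_iff.1 h))
    simpa using h
  · intro v' hv'
    apply valuation_natCast_eq_one
    intro h
    apply hv'
    apply HeightOneSpectrum.ext
    have h1 : v.asIdeal ≤ v'.asIdeal := by
      rw [hv, span_singleton_le_iff_mem]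
      exact h
    exact (v.isMaximal.eq_of_le v'.isPrime.ne_top h1).symm
  · intro s hs σ hσ
    obtain ⟨h1, h2, h3, h4, h5, h6⟩ := hws s hs
    have e1 : (σ w).asIdeal = s • w.asIdeal := asIdeal_eq_of_val s w _ (hσ w)
    have e2 : (σ (σ w)).asIdeal = s • s • w.asIdeal := by
      rw [asIdeal_eq_of_val s (σ w) _ (hσ (σ w)), e1]
    have e3 : (σ (σ (σ w))).asIdeal = s • s • s • w.asIdeal := by
      rw [asIdeal_eq_of_val s (σ (σ w)) _ (hσ (σ (σ w))), e2]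
    rw [← e2, ← e1] at h5
    have n1 : σ w ≠ w := fun h => h1 (by rw [← e1, h])
    have n2 : σ (σ w) ≠ w := fun h => h2 (by rw [← e2, h])
    have n3 : σ (σ w) ≠ σ w := fun h => h3 (by rw [← e2, ← e1, h])
    have hle : ∀ {x y z : HeightOneSpectrum (𝓞 D.E)}, y ≠ x → z ≠ x →
        ¬ y.asIdeal * z.asIdeal ≤ x.asIdeal := by
      intro x y z hy hz h
      rcases x.isPrime.mul_le.1 h with h | h
      · exact hy (HeightOneSpectrum.ext (y.isMaximal.eq_of_le x.isPrime.ne_top h))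
      · exact hz (HeightOneSpectrum.ext (z.isMaximal.eq_of_le x.isPrime.ne_top h))
    have h0 : (p : 𝓞 D.E) ≠ 0 := Nat.cast_ne_zero.2 hp.ne_zero
    have cast : ∀ (u : HeightOneSpectrum (𝓞 D.E)) (c : WithZero (Multiplicative ℤ)),
        u.valuation D.E (((p : 𝓞 D.E) : 𝓞 D.E) : D.E) = c → u.valuation D.E (p : D.E) = c := by
      intro u c h
      simpa using h
    refine ⟨n1, n2, n3, HeightOneSpectrum.ext (by rw [e3, h4]), ?_, ?_, ?_, ?_, ?_, ?_⟩
    · rw [e1, absNorm_smul, hwn]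
    · rw [e2, absNorm_smul, absNorm_smul, hwn]
    · exact cast _ _ (valuation_of_mul h0 w (J := (σ w).asIdeal * (σ (σ w)).asIdeal)
        (by rw [h5, mul_assoc]) (hle n1 n2))
    · exact cast _ _ (valuation_of_mul h0 (σ w) (J := w.asIdeal * (σ (σ w)).asIdeal)
        (by rw [h5]; ring) (hle n1.symm n3))
    · exact cast _ _ (valuation_of_mul h0 (σ (σ w)) (J := w.asIdeal * (σ w).asIdeal)
        (by rw [h5]; ring) (hle n2.symm n3.symm))
    · intro w' hw1 hw2 hw3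
      apply valuation_natCast_eq_one
      intro h
      rcases h6 w'.asIdeal w'.isPrime h with h7 | h7 | h7
      · exact hw1 (HeightOneSpectrum.ext h7)
      · exact hw2 (HeightOneSpectrum.ext (by rw [h7, e1]))
      · exact hw3 (HeightOneSpectrum.ext (by rw [h7, e2]))

end Fermat.Agent.H28Y
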