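/-
S47, package GAL (helper3): the Galois facts consumed by the left half of the assembly
(`H46ZBlocks`): `NE`, `InertEx`, `Dict`.
-/
import Mathlib
import Fermat.Agent.H46ZBlocks
import Fermat.Agent.H3G9
import Fermat.Agent.H30G3
import Fermat.Agent.H28Y3
import Fermat.Agent.H89D4
import Fermat.Agent.H54Frobenius
import Fermat.Agent.H83ZInst1

set_option autoImplicit false
set_option maxSynthPendingDepth 3
set_option linter.style.haveILetI false
set_option linter.unusedSectionVars false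

namespace Fermat.Agent.H3G

open Matrix Module NumberField IsDedekindDomain Fermat.Agent.H63 Fermat.Agent.H64
open scoped Pointwise

local notation "Qb" => AlgebraicClosure ℚ
local notation "GQ" => (AlgebraicClosure ℚ ≃ₐ[ℚ] AlgebraicClosure ℚ)

namespace RD

variable (D : RD)

theorem awR_eq (w : HeightOneSpectrum (𝓞 D.E)) : H46Z.awR D w = D.aw w := (D.aw_eq w).symm

theorem abs_awR_le (w : HeightOneSpectrum (𝓞 D.E)) : |H46Z.awR D w| ≤ 2 := by
  rw [awR_eq]; exact D.abs_aw_le w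

theorem awR_smulPlace (g : D.E ≃ₐ[D.M] D.E) (w : HeightOneSpectrum (𝓞 D.E)) :
    H46Z.awR D (H47.smulPlace g w) = H46Z.awR D w := by
  rw [awR_eq, awR_eq, D.aw_smulPlace_rel]

/-- the primes outside a finite set are unramified -/
theorem exists_unr : ∃ D₀ : ℕ, 0 < D₀ ∧ ∀ p : ℕ, p.Prime → ¬ p ∣ D₀ → H30G.Unr D p := by
  haveI : Normal ℚ (fld D.ρ ⊥) := normal_fld ⊥
  obtain ⟨D₀, h0, h⟩ := H30G.exists_unrK (fld D.ρ ⊥)
  exact ⟨D₀, h0, fun p hp hpD A hA σ hσ => H30G.rho_inertia D.cont (h p hp hpD) hA hσ⟩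

theorem mem_of_absNorm {F : Type*} [Field F] [NumberField F] {v : HeightOneSpectrum (𝓞 F)}
    {p f : ℕ} (h : Ideal.absNorm v.asIdeal = p ^ f) : ((p : ℕ) : 𝓞 F) ∈ v.asIdeal := by
  have h1 : ((Ideal.absNorm v.asIdeal : ℕ) : 𝓞 F) ∈ v.asIdeal := Ideal.absNorm_mem v.asIdeal
  rw [h, Nat.cast_pow] at h1
  exact v.isPrime.mem_of_pow_mem f h1

theorem dict_of_unr {p : ℕ} (hp : p.Prime) (hunr : H30G.Unr D p) {A : ValuationSubring Qb}
    (hA : A.LiesOverPrime p) {σ : GQ} (hσ : A.IsFrobeniusAt σ p) {f : ℕ}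
    {v : HeightOneSpectrum (𝓞 D.M)} (hv : Ideal.absNorm v.asIdeal = p ^ f)
    (h8 : D.ρ (σ ^ f) ∈ Q8) :
    ¬ H82.NonSplit D.E v ∧ ∀ w ∈ H82.above D.E v, H46Z.awR D w = H46Z.val8 (D.ρ (σ ^ f)) := by
  rw [map_pow] at h8 ⊢
  have hpv := mem_of_absNorm hv
  obtain ⟨f', hf0, hf', hk⟩ := H30G.exists_absNorm hp hunr hA hσ SL v hpv
  obtain rfl : f' = f := Nat.pow_right_injective hp.two_le (hf'.symm.trans hv)
  have key : ∀ w ∈ H82.above D.E v, Ideal.absNorm w.asIdeal = p ^ f' := by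
    intro w hw
    obtain ⟨g, hg0, hg, hgk⟩ := H30G.exists_absNorm hp hunr hA hσ Q8 w (H30G.mem_of_above hw hpv)
    have h1 : g ∣ f' := (hgk f').2 h8
    have h2 : f' ∣ g := (hk g).2 (Q8_le_SL ((hgk g).1 dvd_rfl))
    rw [hg, Nat.dvd_antisymm h1 h2]
  constructor
  · intro hns
    obtain ⟨w, hw⟩ := Set.ncard_eq_one.1 hns
    have hw' : w ∈ H82.above D.E v := by rw [hw]; rfl
    have h3 := H30G.ncard_above_mul hw'
      (H30G.Unr.rel hunr hp Q8_le_SL w (H30G.mem_of_above hw' hpv)) (g := 1)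
      (by rw [pow_one, key w hw', hv])
    rw [hns, D.finrank_ME] at h3
    omega
  · intro w hw
    rw [awR_eq]
    exact H30G.aw_eq_val8 hp hunr hA hσ w (H30G.mem_of_above hw hpv) (key w hw)

/-- the dictionary in the form of the assembly -/
theorem exists_dict : ∃ D₀ : ℕ, D₀ ≠ 0 ∧ H46Z.Dict D D₀ := by
  obtain ⟨D₀, h0, h⟩ := D.exists_unr
  exact ⟨D₀, h0.ne', fun p hp hpD A hA σ hσ f v hv h8 =>
    D.dict_of_unr hp (h p hp hpD) hA hσ hv h8⟩

theorem dict_mono {D₀ D₁ : ℕ} (h : D₀ ∣ D₁) (hD : H46Z.Dict D D₀) : H46Z.Dict D D₁ :=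
  fun p hp hpD => hD p hp (fun h' => hpD (h'.trans h))

/-- places of `M` inert in `E` -/
theorem inertEx : H46Z.InertEx D.M D.E := by
  intro n hn
  have hS : {v : HeightOneSpectrum (𝓞 D.M) | ((n : ℕ) : 𝓞 D.M) ∈ v.asIdeal}.Finite :=
    H46Z.finite_divs D.M hn.ne'
  obtain ⟨v, hv, Q, hQ, -, he, hdec⟩ := H89D.exists_place_dec_eq_zpowers D.s hS
  refine ⟨v, hv, ?_, he⟩
  rw [H89D.nonSplit_iff hQ]
  intro σ
  have h1 : σ ∈ H89D.dec D.M Q := by
    rw [hdec, D.zpowers_s]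
    trivial
  exact h1

theorem orderOf_s_restrict : orderOf (D.s.restrictScalars ℚ : D.E ≃ₐ[ℚ] D.E) = 3 := by
  haveI : Fact (Nat.Prime 3) := ⟨Nat.prime_three⟩
  apply orderOf_eq_prime
  · have h := D.s_pow_three
    apply AlgEquiv.ext
    intro x
    have h1 := DFunLike.congr_fun h x
    rw [pow_succ, sq] at h1 ⊢
    exact h1
  · intro h
    apply D.s_ne_one
    apply AlgEquiv.ext
    intro x
    exact DFunLike.congr_fun h x

theorem ne_awR : H46Z.NE D.E (H46Z.awR D) := by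
  intro n hn
  classical
  obtain ⟨p, hp, hpS, hpn, hp3, -, ⟨w, hw, hwn, hws⟩, hA⟩ :=
    H28Y.exists_prime_val D hn n.primeFactors
  have hunr : H30G.Unr D p := fun A hA' σ hσ => (hA A hA').1 σ hσ
  let σ := H83Z.placePerm D.s
  obtain ⟨n1, n2, n3, -, hn2, hn3, v1, v2, v3, vo⟩ := hws (D.s.restrictScalars ℚ)
    D.orderOf_s_restrict σ (fun w x => H83Z.placePerm_val D.s w x)
  have hval : ∀ u : HeightOneSpectrum (𝓞 D.E), ((p : ℕ) : 𝓞 D.E) ∈ u.asIdeal ↔
      u.valuation D.E (p : D.E) < 1 := by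
    intro u
    rw [← u.valuation_lt_one_iff_mem (K := D.E)]
    simp
  have hlt : (WithZero.exp (-1 : ℤ)) < (1 : WithZero (Multiplicative ℤ)) := by
    rw [← WithZero.exp_zero, WithZero.exp_lt_exp]; norm_num
  have hdivs : H46Z.divs D.E p = {w, σ w, σ (σ w)} := by
    ext u
    rw [H46Z.mem_divs hp.ne_zero, hval]
    simp only [Finset.mem_insert, Finset.mem_singleton]
    constructor
    · intro hu
      by_contra hcon
      push Not at hcon
      have := vo u hcon.1 hcon.2.1 hcon.2.2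
      rw [this] at hu
      exact lt_irrefl _ hu
    · rintro (rfl | rfl | rfl)
      · rw [v1]; exact hlt
      · rw [v2]; exact hlt
      · rw [v3]; exact hlt
  refine ⟨p, hp, fun h => hpS (Nat.mem_primeFactors.2 ⟨hp, h, hn.ne'⟩), hpn, hp3, ?_, ?_⟩
  · rw [hdivs]
    rw [Finset.card_eq_three]
    exact ⟨w, σ w, σ (σ w), n1.symm, n2.symm, n3.symm, rfl⟩
  · have hzero : ∀ u : HeightOneSpectrum (𝓞 D.E), ((p : ℕ) : 𝓞 D.E) ∈ u.asIdeal →
        Ideal.absNorm u.asIdeal = p ^ 2 → H46Z.awR D u = 0 := by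
      intro u hu hun
      obtain ⟨ℓ, hℓ, A, hAℓ, -, hmem⟩ := exists_placeBelow_eq u
      obtain rfl : ℓ = p := by
        by_contra hne
        have hcop : IsCoprime (ℓ : ℤ) (p : ℤ) := by
          rw [Nat.isCoprime_iff_coprime]
          exact (Nat.coprime_primes hℓ hp).2 hne
        obtain ⟨a, b, hab⟩ := hcop
        apply u.isPrime.ne_top
        rw [Ideal.eq_top_iff_one]
        have h1 : ((a * ℓ + b * p : ℤ) : 𝓞 D.E) = 1 := by rw [hab]; simp
        rw [← h1]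
        push_cast
        exact u.asIdeal.add_mem (u.asIdeal.mul_mem_left _ hmem) (u.asIdeal.mul_mem_left _ hu)
      obtain ⟨φ, hφ⟩ := H54.exists_isFrobeniusAt hℓ hAℓ
      obtain ⟨h8, h1, h2⟩ := (hA A hAℓ).2 (φ * φ) (H28Y.frobenius_sq hφ)
      rw [awR_eq]
      refine (H30G.aw_eq_val8 hℓ hunr hAℓ hφ u hu hun).trans ?_
      rw [map_mul, ← sq] at h1 h2
      exact val8_of_ne h1 h2
    intro u hu
    rw [hdivs] at hu
    simp only [Finset.mem_insert, Finset.mem_singleton] at hu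
    rcases hu with rfl | rfl | rfl
    · exact hzero _ hw hwn
    · exact hzero _ ((hval _).2 (by rw [v2]; exact hlt)) hn2
    · exact hzero _ ((hval _).2 (by rw [v3]; exact hlt)) hn3

end RD

end Fermat.Agent.H3G
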