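import Fermat.Agent.H16D8
import Fermat.Agent.H3GA

/-!
# Reader's guide: block (D) of S47, first part: the tower, the character, the series

**Statement served:** S47 (the octahedral case of the theorem of Langlands and Tunnell for a
surjective `ρ : Gal(ℚ̄/ℚ) → GL₂(𝔽₃)` with cyclotomic determinant), block (D).  Every library theorem
cited below is used in the proof of S47.  In prose: NOTES section 8 and note [441]; the plan is [415]
in Appendix A.13; details in [399], [439] (reciprocity), [401] (tower and traces), [460] (quartic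
character), [416] (coefficients), [405] (archimedean analysis).  Second and third part of this guide:
`GuideOctDTheta`, `GuideOctDForm`; the statement of the block is the last theorem of the third part.
S47 on one page: `GuideOctahedral`; group theory and places of the tower in more detail:
`GuideOctahedralGal`; quadratic reciprocity: `GuideQuadRec`; the steps of the proofs of this part:
`GuideQuarticCharacter` (section 2), `GuideCoefficients` (section 3), `GuideOuterSpace` and
`GuideThetaSeries` (section 4).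

**What the block does.**  `ρ` cuts out a field `K` of degree `48` over `ℚ`, with subfields
`ℚ ⊂ M ⊂ E ⊂ B ⊂ B' ⊂ K`, `M = ℚ(√-3)`, `[E : M] = 3`, `[B : E] = 2`, `Gal(K/E) = Q₈` (quaternion
group), `Gal(K/B) = C₄`.  Let `ρ̃` be the lift of `ρ` to characteristic zero.  Restricted to
`Gal(K/E)` it is induced from a character of order four of `Gal(K/B)`, hence there should be an
automorphic form on `PGL₂` over `E` with Hecke eigenvalues `a_w = tr ρ̃(Frob_w) ∈ {2, -2, 0}`.  The
block writes down this form as an explicit function and proves all its properties; it is the input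
of the cubic descent from `E` to `M` in block (C).

**The form.**  `E` is totally complex of degree `6`, so the form lives on `(J → ℍ³) × X_f`, where
`J` is an index set of the three complex places and `X_f` the restricted product of the coset spaces
`PGL₂(E) / U_w`: there are no adeles and no completions, only the group `PGL₂(E)` and the valuations
of `E`.  Away from the finite set `S` of the bad places the form is the Fourier series
`∑_α c(α) ψ(u α) ∏_j y_j K₀(4π |α_j| y_j) e(2 Re(α_j z_j))`, whose coefficients `c(α)` are the sums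
of the values of a quartic Hecke character `χ` of `B` over the ideals of given relative norm.

**Reading order.**
1. The tower of fields and the numbers `a_w` (`local_notions` to `trace_of_frobenius`).
2. The Hecke character `χ`: quadratic reciprocity, the Hasse norm theorem, an identity in a
   biquadratic extension, descent of characters, and the result (`isHecke_iff` to `exists_chi`).  No
   ideles and no reciprocity map: `χ` is obtained by descent from the quadratic character of `K/B'`.
3. The Hecke recursion of its coefficients (`isGoodFor_iff` to `exists_chi_good`).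
4. The series and its evident properties: translations, diagonal elements, Hecke operators, radial
   kernels, growth, non vanishing (`psS_eq` to `series_ne_zero`).
The second part (`GuideOctDTheta`) contains the hard property of the series: invariance under lower
unipotent elements which are small at `S`, by means of theta kernels and Gauss sums.  The third part
(`GuideOctDForm`) contains the assembly: types, from the functions outside `S` to the whole space,
and the statement of the block.

Theorems whose names end in `_eq`, `_iff`, `_notions`, and `spaces`, unfold definitions of the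
library; the other ones are steps of the proof.

**Conventions.**  `HeightOneSpectrum (𝓞 E)` is the set of the finite places.  `w.valuation E x` is
the multiplicative valuation, with values `0` and `exp n`, `n ∈ ℤ`: `w.valuation E x ≤ exp (-n)` says
that `x` has order at least `n` at `w`.  `ee r = exp(2πi r)` for `r ∈ ℚ`; `psi w` is the standard
additive character of `E` attached to the place `w`.  Hypotheses are never hidden: there is no
`variable` in this file.
-/

set_option autoImplicit false

noncomputable section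

namespace Fermat.Agent.Guide.OctD

open IsDedekindDomain NumberField WithZero Matrix FractionalIdeal
open scoped nonZeroDivisors MatrixGroups
open Fermat.Agent
open Fermat.Agent.H47 (smulPlace below)
open Fermat.Agent.H82 (above aboveSet NonSplit congr)
open Fermat.Agent.H7.Z (psi ee)

/-! ## 1. The tower of fields and the numbers `a_w` -/

/-- **Local notions.**  `above L v` is the set of the places of `L` above the place `v` of `K`, and
`aboveSet L T` the set of the places above a set `T`; `v` is `NonSplit` in `L` if there is exactly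
one place above it; `congr v m` is the group of the `v`-units of `K` congruent to `1` modulo `v ^ m`.
These four definitions (file `H82CftDefs`) replace completions in the whole block. -/
theorem local_notions (K L : Type) [Field K] [NumberField K] [Field L] [NumberField L] [Algebra K L]
    (v : HeightOneSpectrum (𝓞 K)) (w : HeightOneSpectrum (𝓞 L))
    (T : Set (HeightOneSpectrum (𝓞 K))) (m : ℕ) (x : Kˣ) :
    (w ∈ above L v ↔ w.asIdeal.under (𝓞 K) = v.asIdeal) ∧
      (w ∈ aboveSet L T ↔ ∃ v ∈ T, w ∈ above L v) ∧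
      (NonSplit L v ↔ (above L v).ncard = 1) ∧
      (x ∈ congr v m ↔ v.valuation K (x : K) = 1 ∧ v.valuation K ((x : K) - 1) ≤ exp (-(m : ℤ))) :=
  ⟨Iff.rfl, Iff.rfl, Iff.rfl, Iff.rfl⟩

/-- **Quaternion towers.**  `IsQ8Tower E B C K`: `K/E` and `C/E` are Galois, the steps of
`E ⊂ B ⊂ C ⊂ K` have degree `2`, every element of `Gal(C/E)` has square `1`, and every element of
`Gal(K/E)` with square `1` is trivial on `C`.  So `Gal(K/E)` has order `8` and only one element of
order `2`, with the Klein four group as quotient: it is the quaternion group.  Definition in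
`H89D2`. -/
theorem isQ8Tower_iff (E B C K : Type) [Field E] [Field B] [Field C] [Field K] [Algebra E B]
    [Algebra E C] [Algebra E K] [Algebra B C] [Algebra B K] [Algebra C K] [IsScalarTower E B C]
    [IsScalarTower E B K] [IsScalarTower E C K] [IsScalarTower B C K] :
    H89D.IsQ8Tower E B C K ↔ IsGalois E K ∧ IsGalois E C ∧ Module.finrank E B = 2 ∧
      Module.finrank B C = 2 ∧ Module.finrank C K = 2 ∧ (∀ σ : C ≃ₐ[E] C, σ * σ = 1) ∧
      ∀ σ : K ≃ₐ[E] K, σ * σ = 1 → ∀ x : C, σ (algebraMap C K x) = algebraMap C K x :=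
  ⟨fun ⟨h1, h2, h3, h4, h5, h6, h7⟩ => ⟨h1, h2, h3, h4, h5, h6, h7⟩,
    fun ⟨h1, h2, h3, h4, h5, h6, h7⟩ => ⟨h1, h2, h3, h4, h5, h6, h7⟩⟩

/-- **The tower attached to `ρ`.**  `D : H3G.RD` is the datum of a continuous surjective
`ρ : Gal(ℚ̄/ℚ) → GL₂(𝔽₃)` whose determinant is the cyclotomic character modulo `3`, and
`i : H3G.QI` is an element of order `4` of the quaternion group `Q₈ ⊂ SL₂(𝔽₃)`.  The fields `M`,
`E`, `B i`, `B'`, `K` are the fixed fields of the preimages of `SL₂(𝔽₃)`, `Q₈`, `⟨i⟩`, `{±1}`, `1`.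
So `M = ℚ(ζ₃) = ℚ(√-3)` and `[E : M] = 3`, `[B : E] = 2`, `[B' : B] = 2`, `[K : B'] = 2`; `E` and `B`
are totally complex (because `√-3 ∈ M`); and `E ⊂ B ⊂ B' ⊂ K` is a quaternion tower.  Proved in
`H3G4`, `H3G5`, `H3G6` by Galois theory and the subgroups of `GL₂(𝔽₃)` (`H3G2`). -/
theorem tower_of_rho (D : H3G.RD) (i : H3G.QI) :
    IsCyclotomicExtension {3} ℚ D.M ∧ Module.finrank D.M D.E = 3 ∧ Module.finrank D.E (D.B i) = 2 ∧
      Module.finrank (D.B i) D.B' = 2 ∧ Module.finrank D.B' D.K = 2 ∧
      IsTotallyComplex D.E ∧ IsTotallyComplex (D.B i) ∧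
      H89D.IsQ8Tower D.E (D.B i) D.B' D.K :=
  ⟨D.cyclotomic, D.finrank_ME, D.finrank_EB i, D.finrank_BB' i, D.finrank_B'K, inferInstance,
    inferInstance, D.isQ8Tower i⟩

open Classical in
/-- **The numbers `a_w`.**  For a place `w` of `E` the number `a_w = awR D w` is `2` if `w` has `8`
places above it in `K`, `-2` if it has `4` places above it in `B'` (and not `8` in `K`), and `0`
otherwise.  Outside the ramified places these are the cases where the Frobenius in `Gal(K/E) = Q₈`
has order `1`, `2`, `4`.  The definition mentions neither `B` nor the character `χ`; the fields `K`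
and `B'` are Galois over `M`, so the numbers are invariant under `Gal(E/M)`, which is needed in
block (C).  Definitions in `H89D5`, `H46ZBlocks`. -/
theorem awR_eq (D : H3G.RD) (w : HeightOneSpectrum (𝓞 D.E)) :
    H46Z.awR D w = if (above D.K w).ncard = 8 then 2 else
      if (above D.B' w).ncard = 4 then -2 else 0 := by
  unfold H46Z.awR H89D.aw
  split_ifs <;> norm_num

open Classical in
/-- **The numbers `a_w` are traces of Frobenius.**  There is `D₀ ≠ 0` such that, for a prime
`p ∤ D₀`, a Frobenius `σ` at `p` and a place `v` of `M` with absolute norm `p ^ f`: if `ρ(σ ^ f)`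
lies in `Q₈`, then `v` splits in `E`, and for all `w` above `v` the number `a_w` is the trace of the
lift of `ρ(σ ^ f)` to characteristic zero, that is `2`, `-2`, `0` for `1`, `-1` and the elements of
order `4`.  Proved in `H3GA`; used at the end of S47, when the form is compared with `ρ`. -/
theorem trace_of_frobenius (D : H3G.RD) : ∃ D₀ : ℕ, D₀ ≠ 0 ∧ ∀ p : ℕ, p.Prime → ¬ p ∣ D₀ →
    ∀ A : ValuationSubring (AlgebraicClosure ℚ), A.LiesOverPrime p →
    ∀ σ : AlgebraicClosure ℚ ≃ₐ[ℚ] AlgebraicClosure ℚ, A.IsFrobeniusAt σ p →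
    ∀ (f : ℕ) (v : HeightOneSpectrum (𝓞 D.M)), Ideal.absNorm v.asIdeal = p ^ f →
      D.ρ (σ ^ f) ∈ H3G.Q8 →
      ¬ NonSplit D.E v ∧ ∀ w ∈ above D.E v, H46Z.awR D w =
        if D.ρ (σ ^ f) = 1 then 2 else if D.ρ (σ ^ f) = -1 then -2 else 0 := by
  have h := D.exists_dict
  simp only [H46Z.Dict, H46Z.val8] at h
  convert h

/-! ## 2. The quartic Hecke character of `B` -/

/-- **Hecke characters of finite order, in divisor language.**  `f` is a function on the finite
places with values in an additive group, extended to divisors by `ev f D = ∑ D(v) f(v)`, and `dv x`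
is the divisor of `x`.  `IsHecke S f`: `f` vanishes on `S` and there is `m` such that the divisor of
every `x ∈ Kˣ` which is congruent to `1` modulo `v ^ m` for `v ∈ S` has value `0`.  Definition in
`H77ZDefs`. -/
theorem isHecke_iff (K A : Type) [Field K] [NumberField K] [AddCommGroup A]
    (S : Set (HeightOneSpectrum (𝓞 K))) (f : HeightOneSpectrum (𝓞 K) → A) :
    H77.Z.IsHecke S f ↔ (∀ v ∈ S, f v = 0) ∧ ∃ m : ℕ, ∀ x : Kˣ, (∀ v ∈ S, x ∈ congr v m) →
      (H77.Z.dv x).sum (fun v n => n • f v) = 0 :=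
  Iff.rfl

open Classical in
/-- **Quadratic reciprocity.**  `L/K` quadratic, `K` totally complex, `S` a finite set of places of
`K` containing the places above `2` and the ramified ones.  There is `m` such that for every
`x ∈ Kˣ` congruent to `1` modulo `v ^ m` for all `v ∈ S` the sum of the orders of `x` at the places
outside `S` which do not split in `L` is even (written as an identity in `ℤ/2`; `dv x` is the divisor
of `x`).  In other words: the quadratic character of `L/K` is a Hecke character.  Proved in `H82V6`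
from the product formula in the form "the places where `x` is not a local norm are finite and even in
number"; see `GuideQuadRec`. -/
theorem quadratic_reciprocity (K L : Type) [Field K] [NumberField K] [IsTotallyComplex K] [Field L]
    [NumberField L] [Algebra K L] [IsGalois K L] (hdeg : Module.finrank K L = 2)
    (S : Set (HeightOneSpectrum (𝓞 K))) (hS : S.Finite)
    (h2 : ∀ v ∉ S, v.valuation K (2 : K) = 1)
    (hunr : ∀ v ∉ S, ∀ w ∈ above L v, v.asIdeal.ramificationIdx' w.asIdeal = 1) :
    ∃ m : ℕ, ∀ x : Kˣ, (∀ v ∈ S, x ∈ congr v m) →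
      ((H77.Z.dv x).sum fun v n => n • (if v ∈ S then 0 else if NonSplit L v then 1 else 0 : ZMod 2))
        = 0 :=
  (H82V.isHecke_qchar hdeg hS h2 hunr).2

/-- **Lifting norms close to `1`** (Hasse norm theorem for quadratic extensions, with control at
`S`).  Same situation.  For every `m'` there is `m` such that every `c ∈ Kˣ` which is congruent to
`1` modulo `v ^ m` for `v ∈ S`, and has even order at the places outside `S` which do not split in
`L`, is the norm of some `y ∈ Lˣ` congruent to `1` modulo `w ^ m'` for all `w` above `S`.  Proved in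
`H77ZNorm`; used for the descent of characters below and (through `exists_data`) in the unfolding of
the second part. -/
theorem norm_lift (K L : Type) [Field K] [NumberField K] [Field L] [NumberField L] [Algebra K L]
    [IsTotallyComplex K] [IsGalois K L] (hdeg : Module.finrank K L = 2)
    (S : Set (HeightOneSpectrum (𝓞 K))) (hS : S.Finite)
    (h2 : ∀ v ∉ S, v.valuation K (2 : K) = 1)
    (hunr : ∀ v ∉ S, ∀ w ∈ above L v, v.asIdeal.ramificationIdx' w.asIdeal = 1) (m' : ℕ) :
    ∃ m : ℕ, ∀ c : Kˣ, (∀ v ∈ S, c ∈ congr v m) →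
      (∀ v ∉ S, NonSplit L v → (2 : ℤ) ∣ H77.Z.dv c v) →
      ∃ y : Lˣ, Algebra.norm K (y : L) = c ∧ ∀ w ∈ aboveSet L S, y ∈ congr w m' :=
  (H77.Z.exists_norm_lift hdeg hS h2 hunr m').imp fun _ h c h1 h2 =>
    (h c h1 h2).imp fun _ h3 => ⟨congrArg Units.val h3.1, h3.2⟩

/-- **The identity behind the descent.**  `B'/E` biquadratic with quadratic subfields `B` and `B₂`,
`τ` the element of `Gal(B'/E)` fixing `B` and `σ` an element acting non trivially on `B`.  If
`b ∈ B` and `y ∈ B₂` have the same norm in `E` and the traces `s`, `t`, then the norm from `B'` to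
`B` of `(b + y)/2` is `b (s + t)/4`.  So `b` is a norm from `B'` up to an element of `E`, and the value
at `(b)` of a character of `B` is determined by its base change to `B'` and its restriction to `E`.
In `H77ZCore`. -/
theorem core_identity (E B B₂ B' : Type) [Field E] [Field B] [Field B₂] [Field B'] [Algebra E B]
    [Algebra E B₂] [Algebra B B'] [Algebra B₂ B'] [Algebra E B'] [IsScalarTower E B B']
    [IsScalarTower E B₂ B'] (τ σ : B' ≃ₐ[E] B')
    (hτ : ∀ b : B, τ (algebraMap B B' b) = algebraMap B B' b) (b : B) (y : B₂) (s t : E)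
    (h4 : (4 : B') ≠ 0)
    (hs : algebraMap E B' s = algebraMap B B' b + σ (algebraMap B B' b))
    (ht : algebraMap E B' t = algebraMap B₂ B' y + τ (algebraMap B₂ B' y))
    (hN : algebraMap B B' b * σ (algebraMap B B' b) =
      algebraMap B₂ B' y * τ (algebraMap B₂ B' y)) :
    (algebraMap B B' b + algebraMap B₂ B' y) / 2 *
        τ ((algebraMap B B' b + algebraMap B₂ B' y) / 2) =
      algebraMap B B' b * algebraMap E B' ((s + t) / 4) :=
  H77.Z.core_relation τ σ hτ h4 hs ht hN

/-- **Descent of characters.**  `B'/E` biquadratic with quadratic subfields `B`, `B₂`; `E` totally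
complex; `S` contains the places above `2` and the ramified ones.  Let `e` and `ω` be Hecke
characters of `B'` and `E` (values in `ℚ/ℤ`) which agree on the divisors `x` of `B'` whose norm to
`B` comes from a divisor `a` of `E`.  Then there is a Hecke character `χ` of `B` whose base change
to `B'` is `e` (first and second property: inert and split places of `B'/B`) and whose restriction
to `E` is `ω`.  Proof: the prescribed values on norms, on divisors of `E` and on principal divisors
near `1` are compatible by `core_identity` and `norm_lift` (`H77ZCore`), and `ℚ/ℤ` is injective.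
Proved in `H77ZChi`. -/
theorem descent_of_characters (E B B₂ B' : Type) [Field E] [NumberField E] [IsTotallyComplex E]
    [Field B] [NumberField B] [Field B₂] [NumberField B₂] [Field B'] [NumberField B'] [Algebra E B]
    [Algebra E B₂] [Algebra B B'] [Algebra B₂ B'] [Algebra E B'] [IsScalarTower E B B']
    [IsScalarTower E B₂ B'] [IsGalois E B] [IsGalois E B₂] [IsGalois E B']
    (hB : Module.finrank E B = 2) (hB₂ : Module.finrank E B₂ = 2)
    (hB' : Module.finrank B B' = 2) (hB₂' : Module.finrank B₂ B' = 2)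
    (τ : B' ≃ₐ[B] B') (hτ : τ ≠ 1) (σ : B' ≃ₐ[B₂] B') (hσ : σ ≠ 1)
    (hσB : ∃ b : B, σ (algebraMap B B' b) ≠ algebraMap B B' b)
    (hτB₂ : ∃ y : B₂, τ (algebraMap B₂ B' y) ≠ algebraMap B₂ B' y)
    (S : Set (HeightOneSpectrum (𝓞 E))) (hS : S.Finite) (hSne : S.Nonempty)
    (h2 : ∀ v ∉ S, v.valuation E (2 : E) = 1)
    (hunr : ∀ v ∉ S, ∀ w ∈ above B' v, v.asIdeal.ramificationIdx' w.asIdeal = 1)
    (e : HeightOneSpectrum (𝓞 B') → AddCircle (1 : ℚ))
    (ω : HeightOneSpectrum (𝓞 E) → AddCircle (1 : ℚ))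
    (he : H77.Z.IsHecke (aboveSet B' S) e) (hω : H77.Z.IsHecke S ω)
    (hcompat : ∀ (x : HeightOneSpectrum (𝓞 B') →₀ ℤ) (a : HeightOneSpectrum (𝓞 E) →₀ ℤ),
      (∀ w ∉ aboveSet B' S, x w + x (smulPlace τ w) = a (below E w)) →
        H77.Z.ev e x = H77.Z.ev ω a) :
    ∃ χ : HeightOneSpectrum (𝓞 B) → AddCircle (1 : ℚ), H77.Z.IsHecke (aboveSet B S) χ ∧
      (∀ w, w ∉ aboveSet B' S → smulPlace τ w = w → 2 • χ (below B w) = e w) ∧
      (∀ w, w ∉ aboveSet B' S → smulPlace τ w ≠ w → χ (below B w) = e w) ∧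
      ∀ v, v ∉ S → ∑ᶠ P ∈ above B v, χ P = ω v :=
  H77.Z.exists_chi_add hB hB₂ hB' hB₂' hτ hσ hσB hτB₂ hS hSne h2 hunr he hω hcompat

/-- **Compatibility** (the hypothesis `hcompat` of `descent_of_characters`, at one place).
`E ⊂ B ⊂ C ⊂ K` a quaternion tower, `w` a place of `E` unramified in `K`, `h` an element with
`2 h = 0`.  Let `e(P) = h` if the place `P` of `C` is non split in `K`, else `0`, and `ω = h` if `w` is
non split in `B`, else `0`.  If `x(P) + x(τ P) = n` for the places `P` of `C` above `w`, `τ ≠ 1` in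
`Gal(C/B)`, then `∑ x(P) e(P) = n ω`.  A place `P` above `w` is non split in `K` if and only if `w`
does not split completely in `K`, because every subgroup `≠ 1` of `Q₈` contains the centre; the rest
is counting of places.  In `H89D3`; used in `H77ZTower`. -/
theorem compatibility (E B C K : Type) [Field E] [NumberField E] [Field B] [NumberField B] [Field C]
    [NumberField C] [Field K] [NumberField K] [Algebra E B] [Algebra E C] [Algebra E K]
    [Algebra B C] [Algebra B K] [Algebra C K] [IsScalarTower E B C] [IsScalarTower E B K]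
    [IsScalarTower E C K] [IsScalarTower B C K] (H : H89D.IsQ8Tower E B C K) (τ : C ≃ₐ[B] C)
    (hτ : τ ≠ 1) (G : Type) [AddCommGroup G] (h : G) (h2 : 2 • h = 0) (w : HeightOneSpectrum (𝓞 E))
    (hunr : ∀ Q ∈ above K w, w.asIdeal.ramificationIdx' Q.asIdeal = 1)
    (e : HeightOneSpectrum (𝓞 C) → G) (ω : G)
    (he1 : ∀ P ∈ above C w, NonSplit K P → e P = h) (he0 : ∀ P ∈ above C w, ¬ NonSplit K P → e P = 0)
    (hω1 : NonSplit B w → ω = h) (hω0 : ¬ NonSplit B w → ω = 0)
    (x : HeightOneSpectrum (𝓞 C) → ℤ) (n : ℤ)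
    (hx : ∀ P ∈ above C w, x P + x (smulPlace τ P) = n) :
    ∑ᶠ P ∈ above C w, x P • e P = n • ω :=
  H.compat' hτ h2 hunr he1 he0 hω1 hω0 x n hx

open Classical in
/-- **The values of `χ`.**  Same tower; `χ` a function on the places of `B` whose base change to `C`
is the quadratic character of `K/C` (hypothesis `ha`, `f` = residue degree of `P` over `B`).  For a
place `p` of `B` above `w` there are four cases: `w` splits completely in `K` and `χ(p) = 1`; it
splits completely in `C` only and `χ(p) = -1`; there are two places of `C` above `w` and either `w`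
splits in `B` and `χ(p)² = -1`, or it does not and `χ(p) = -1`.  (The Frobenius in `Q₈` has order `1`,
`2`, `4`, `4` respectively.)  In `H89D5`; used in `H77ZOut`. -/
theorem values_of_chi (E B C K : Type) [Field E] [NumberField E] [Field B] [NumberField B] [Field C]
    [NumberField C] [Field K] [NumberField K] [Algebra E B] [Algebra E C] [Algebra E K]
    [Algebra B C] [Algebra B K] [Algebra C K] [IsScalarTower E B C] [IsScalarTower E B K]
    [IsScalarTower E C K] [IsScalarTower B C K] (H : H89D.IsQ8Tower E B C K)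
    (χ : HeightOneSpectrum (𝓞 B) → ℂ) (w : HeightOneSpectrum (𝓞 E))
    (hunr : ∀ Q ∈ above K w, w.asIdeal.ramificationIdx' Q.asIdeal = 1)
    (ha : ∀ P ∈ above C w, χ (below B P) ^ ((below B P).asIdeal.inertiaDeg' P.asIdeal) =
      if NonSplit K P then -1 else 1) (p : HeightOneSpectrum (𝓞 B)) (hp : p ∈ above B w) :
    ((above K w).ncard = 8 ∧ ¬ NonSplit B w ∧ χ p = 1) ∨
    ((above K w).ncard ≠ 8 ∧ (above C w).ncard = 4 ∧ ¬ NonSplit B w ∧ χ p = -1) ∨
    ((above K w).ncard ≠ 8 ∧ (above C w).ncard = 2 ∧ ¬ NonSplit B w ∧ χ p ^ 2 = -1) ∨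
    ((above K w).ncard ≠ 8 ∧ (above C w).ncard = 2 ∧ NonSplit B w ∧ χ p = -1) :=
  H.value_cases hunr ha hp

open Classical in
/-- **The quartic Hecke character of a quaternion tower.**  `E ⊂ B ⊂ C ⊂ K` a quaternion tower with
`E` totally complex, `S` a finite non empty set of places of `E` containing the places above `2`
and those ramified in `K`.  There are an ideal `m` of `B` with support exactly above `S` and a
multiplicative function `chi` on the ideals of `B` which vanishes exactly at the primes above `S`, is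
trivial on the ideals `(a)` with `a ≡ 1` modulo `m`, takes fourth roots of unity as values at the
other primes, and: its base change to `C` is the quadratic character of `K/C`; its restriction to `E`
is the quadratic character of `B/E`; at the places which split in `B` the sum of its two values is
`a_v`; at the others its value is `-1` and `a_v = 0`.  Proved in `H77ZTower`, `H77ZOut`, `H77ZFin`:
`descent_of_characters` for `B ⊂ C` applied to the quadratic characters of `K/C` and of `B/E`
(`quadratic_reciprocity`, `compatibility`), and `values_of_chi`. -/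
theorem exists_chi (E B C K : Type) [Field E] [NumberField E] [IsTotallyComplex E] [Field B]
    [NumberField B] [Field C] [NumberField C] [Field K] [NumberField K] [Algebra E B]
    [Algebra E C] [Algebra E K] [Algebra B C] [Algebra B K] [Algebra C K] [IsScalarTower E B C]
    [IsScalarTower E B K] [IsScalarTower E C K] [IsScalarTower B C K]
    (H : H89D.IsQ8Tower E B C K) (S : Set (HeightOneSpectrum (𝓞 E))) (hS : S.Finite)
    (hSne : S.Nonempty) (h2 : ∀ v ∉ S, v.valuation E (2 : E) = 1)
    (hunr : ∀ v ∉ S, ∀ w ∈ above K v, v.asIdeal.ramificationIdx' w.asIdeal = 1) :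
    ∃ (m : Ideal (𝓞 B)) (chi : Ideal (𝓞 B) →*₀ ℂ), m ≠ ⊥ ∧
      (∀ P : HeightOneSpectrum (𝓞 B), m ≤ P.asIdeal ↔ P ∈ aboveSet B S) ∧
      (∀ P : HeightOneSpectrum (𝓞 B), chi P.asIdeal = 0 ↔ P ∈ aboveSet B S) ∧
      (∀ a : 𝓞 B, a - 1 ∈ m → chi (Ideal.span {a}) = 1) ∧
      (∀ P : HeightOneSpectrum (𝓞 B), P ∉ aboveSet B S → chi P.asIdeal ^ 4 = 1) ∧
      (∀ v ∉ S, ∀ w ∈ above C v, chi (below B w).asIdeal ^
        ((below B w).asIdeal.inertiaDeg' w.asIdeal) = if NonSplit K w then -1 else 1) ∧
      (∀ v ∉ S, ∏ᶠ P ∈ above B v, chi P.asIdeal = if NonSplit B v then -1 else 1) ∧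
      (∀ v ∉ S, ¬ NonSplit B v → ∑ᶠ P ∈ above B v, chi P.asIdeal = H89D.aw C K v) ∧
      (∀ v ∉ S, NonSplit B v → H89D.aw C K v = 0 ∧ ∀ P ∈ above B v, chi P.asIdeal = -1) :=
  H77.Z.exists_chi_final H hS hSne h2 hunr

/-! ## 3. The Hecke recursion of the coefficients -/

/-- **Coefficients.**  For a multiplicative function `chi` on the ideals of `B` the coefficient
`coef chi n` at an ideal `n` of `E` is the sum of `chi I` over the ideals `I` of `B` with relative
norm `n` (a finite sum for `n ≠ 0`).  `IsGoodFor chi w a` says that `w` is prime and that these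
coefficients satisfy at `w` the recursion of a Hecke eigenform with eigenvalue `a`.  Definitions in
`H33DCoef`. -/
theorem isGoodFor_iff (E B : Type) [Field E] [NumberField E] [Field B] [NumberField B] [Algebra E B]
    (chi : Ideal (𝓞 B) →*₀ ℂ) (w : Ideal (𝓞 E)) (a : ℂ) :
    (∀ n : Ideal (𝓞 E), H33D.coef chi n =
      ∑ᶠ I ∈ {I : Ideal (𝓞 B) | Ideal.relNorm (𝓞 E) I = n}, chi I) ∧
    (H33D.IsGoodFor chi w a ↔ Prime w ∧ H33D.coef chi w = a ∧
      (∀ n : Ideal (𝓞 E), n ≠ 0 → ¬ w ∣ n → H33D.coef chi (w * n) = a * H33D.coef chi n) ∧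
      ∀ n : Ideal (𝓞 E), n ≠ 0 →
        H33D.coef chi (w * (w * n)) = a * H33D.coef chi (w * n) - H33D.coef chi n) :=
  ⟨fun _ => rfl, fun ⟨h1, h2, h3, h4⟩ => ⟨h1, h2, h3, h4⟩, fun ⟨h1, h2, h3, h4⟩ => ⟨h1, h2, h3, h4⟩⟩

/-- **Split and inert places.**  `B/E` quadratic, `v` a place of `E` unramified in `B`.  If
`v = P P'` in `B` and `chi (P P') = 1`, then `chi` is good at `v` with `a = chi P + chi P'`; if `v`
remains prime, `v = P`, and `chi P = -1`, then `chi` is good at `v` with `a = 0`.  Elementary (unique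
factorisation of ideals and multiplicativity of the relative norm), in `H33DCoef` and `H16D3`. -/
theorem good_of_decomposition (E B : Type) [Field E] [NumberField E] [Field B] [NumberField B]
    [Algebra E B] [IsGalois E B] (hdeg : Module.finrank E B = 2) (chi : Ideal (𝓞 B) →*₀ ℂ)
    (v : HeightOneSpectrum (𝓞 E)) (P P' : HeightOneSpectrum (𝓞 B))
    (hunr : ∀ w ∈ above B v, v.asIdeal.ramificationIdx' w.asIdeal = 1) :
    (P ≠ P' → above B v = {P, P'} → chi (P.asIdeal * P'.asIdeal) = 1 →
      H33D.IsGoodFor chi v.asIdeal (chi P.asIdeal + chi P'.asIdeal)) ∧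
    (above B v = {P} → chi P.asIdeal = -1 → H33D.IsGoodFor chi v.asIdeal 0) :=
  ⟨fun h1 h2 h3 => (H16D.isSplit_of hdeg h1 h2 hunr).isGoodFor h3,
    fun h1 h2 => (H16D.isInert_of hdeg h1 hunr).isGoodFor h2⟩

/-- **The recursion for fractional ideals.**  `cf chi J` is `coef chi J` for integral `J` and `0`
for the other fractional ideals of `E`.  If `chi` is good at `v` with `a`, then
`cf (v J) = a cf (J) - cf (v⁻¹ J)` for all fractional ideals `J ≠ 0` with non negative order at `v`:
the Hecke relation in the form in which it is used on Fourier coefficients.  In `H33DCoef`. -/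
theorem cf_mul (E B : Type) [Field E] [NumberField E] [Field B] [NumberField B] [Algebra E B]
    (chi : Ideal (𝓞 B) →*₀ ℂ) (v : HeightOneSpectrum (𝓞 E)) (a : ℂ)
    (h : H33D.IsGoodFor chi v.asIdeal a) (J : FractionalIdeal (𝓞 E)⁰ E) (hJ : J ≠ 0)
    (hv : 0 ≤ count E v J) :
    H33D.cf chi ((v.asIdeal : FractionalIdeal (𝓞 E)⁰ E) * J) =
      a * H33D.cf chi J - H33D.cf chi ((v.asIdeal : FractionalIdeal (𝓞 E)⁰ E)⁻¹ * J) :=
  H33D.cf_mul h hJ hv

/-- **The character with its eigenvalues.**  In the situation of `exists_chi`, with `psi v` unramified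
for `v ∉ S`, the coefficients of `chi` are those of a Hecke eigenform with eigenvalue `a_v` at every
`v ∉ S`.  Proved in `H16D4` from `exists_chi` and `good_of_decomposition`.  The list of properties is
the hypothesis of `exists_data` in section 4. -/
theorem exists_chi_good (E B C K : Type) [Field E] [NumberField E] [IsTotallyComplex E] [Field B]
    [NumberField B] [IsTotallyComplex B] [Field C] [NumberField C] [Field K] [NumberField K]
    [Algebra E B] [Algebra E C] [Algebra E K] [Algebra B C] [Algebra B K] [Algebra C K]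
    [IsScalarTower E B C] [IsScalarTower E B K] [IsScalarTower E C K] [IsScalarTower B C K]
    (H : H89D.IsQ8Tower E B C K) (S : Finset (HeightOneSpectrum (𝓞 E))) (hSne : S.Nonempty)
    (h2 : ∀ v ∉ S, v.valuation E (2 : E) = 1)
    (hunr : ∀ v ∉ S, ∀ w ∈ above K v, v.asIdeal.ramificationIdx' w.asIdeal = 1)
    (hpsi : ∀ v ∉ S, H7.Z.Unram v) :
    ∃ chi : Ideal (𝓞 B) →*₀ ℂ,
      (∀ P : HeightOneSpectrum (𝓞 B), chi P.asIdeal = 0 ↔
        P ∈ aboveSet B (S : Set (HeightOneSpectrum (𝓞 E)))) ∧
      (∀ P ∉ aboveSet B (S : Set (HeightOneSpectrum (𝓞 E))), chi P.asIdeal ^ 4 = 1) ∧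
      (∃ m : Ideal (𝓞 B), m ≠ ⊥ ∧ (∀ P : HeightOneSpectrum (𝓞 B), m ≤ P.asIdeal ↔
        P ∈ aboveSet B (S : Set (HeightOneSpectrum (𝓞 E)))) ∧
          ∀ x : 𝓞 B, x - 1 ∈ m → chi (Ideal.span {x}) = 1) ∧
      (∀ v ∉ S, (NonSplit B v → chi (v.asIdeal.map (algebraMap (𝓞 E) (𝓞 B))) = -1) ∧
        (¬ NonSplit B v → chi (v.asIdeal.map (algebraMap (𝓞 E) (𝓞 B))) = 1)) ∧
      ∀ v ∉ S, H33D.IsGoodFor chi v.asIdeal ((H89D.aw C K v : ℤ) : ℂ) :=
  (H16D.exists_chiHyp H hSne h2 hunr hpsi).imp fun _ h =>
    ⟨h.chi_S, h.chi_pow, h.chi_span, h.chi_E, h.good⟩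

/-! ## 4. The Fourier series and its evident properties -/

/-- **Additive characters.**  `psi w` is the standard additive character of `E` at `w`: its value at
`z` is `ee (-tr z')` for any `z'` which differs from `z` by a `w`-integral element and is integral at
all other places.  `psS S` is the part outside `S` of the additive character `z ↦ ee (-tr z)` of `E`.
If `z` is integral outside `S`, then `psS S z = 1`: this is the product formula
`∏_{w ∈ S} psi w z = ee (-tr z)`, that is, the additive character of the adeles is trivial on `E`.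
`Unram w` says that the dual of the integers at `w` for the pairing `psi w (x r)` is not larger than
the integers.  Files `H7ZPsi`, `H7ZWhit`, `H71UDefs`. -/
theorem psS_eq (E : Type) [Field E] [NumberField E] (S : Finset (HeightOneSpectrum (𝓞 E))) (z : E)
    (w : HeightOneSpectrum (𝓞 E)) :
    (∀ z' : E, w.valuation E (z - z') ≤ 1 → (∀ v, v ≠ w → v.valuation E z' ≤ 1) →
      psi w z = ee (-Algebra.trace ℚ E z')) ∧
    H71D.psS S z = ee (-Algebra.trace ℚ E z) * (∏ v ∈ S, psi v z)⁻¹ ∧
      ((∀ v ∉ S, v.valuation E z ≤ 1) → H71D.psS S z = 1) ∧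
      (H7.Z.Unram w ↔
        ∀ x : E, (∀ r : E, w.valuation E r ≤ 1 → psi w (x * r) = 1) → w.valuation E x ≤ 1) :=
  ⟨fun _ h h' => H7.Z.psi_eq w h h', rfl, fun h => H71D.psS_eq_one h, Iff.rfl⟩

/-- **The data of the series.**  `d : H71D.DD E B J` consists of the conjugation `tau` of `B/E`, one
complex embedding `e j` of `E` for each infinite place and an extension `b j` to `B`, the bad places
`S`, a subgroup `US` of `Eˣ` (the torus part of the type at `S`), a number `n2` and the character
`chi`.  `VS` is the set of the `x ∈ B` which are congruent to `1` modulo `P ^ n2` for `P` above `S`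
and whose norm lies in `US`.  `d.Good` is the list of properties below.  The essential ones: `US` is
open and consists of units at the places of `S`; every element of `US` with even orders at the non
split places outside `S` is the norm of an element of `VS`; `chi` vanishes above `S`, is trivial on
the ideals `(a)` with `a` close to `1` above `S`, and restricts to the quadratic character of `B/E`.
Definitions in `H71UDefs`. -/
theorem good_iff (E B J : Type) [Field E] [NumberField E] [Field B] [NumberField B] [Algebra E B]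
    [Fintype J] (d : H71D.DD E B J) :
    (∀ x : B, x ∈ d.VS ↔ (∀ P ∈ aboveSet B (d.S : Set (HeightOneSpectrum (𝓞 E))),
      P.valuation B (x - 1) ≤ exp (-(d.n2 : ℤ))) ∧ ∃ α ∈ d.US, (α : E) = Algebra.norm E x) ∧
    (d.Good ↔ d.tau ≠ 1 ∧ Module.finrank E B = 2 ∧
      (∀ j, (d.b j).comp (algebraMap E B) = d.e j) ∧
      (Function.Bijective fun j => InfinitePlace.mk (d.e j)) ∧
      IsTotallyComplex E ∧ IsTotallyComplex B ∧ d.S.Nonempty ∧
      (∀ w ∉ d.S, w.valuation E (2 : E) = 1) ∧
      (∀ w ∉ d.S, ∀ P ∈ above B w, w.asIdeal.ramificationIdx' P.asIdeal = 1) ∧ 0 < d.n2 ∧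
      (∃ k : ℕ, ∀ α : Eˣ, (∀ w ∈ d.S, α ∈ congr w k) → α ∈ d.US) ∧
      (∀ α ∈ d.US, ∀ w ∈ d.S, w.valuation E (α : E) = 1) ∧
      (∀ α ∈ d.US, (∀ w ∉ d.S, NonSplit B w → ∃ k : ℤ, w.valuation E (α : E) = exp (2 * k)) →
        ∃ x : B, x ∈ d.VS ∧ Algebra.norm E x = (α : E)) ∧
      (∀ P : HeightOneSpectrum (𝓞 B), d.chi P.asIdeal = 0 ↔
        P ∈ aboveSet B (d.S : Set (HeightOneSpectrum (𝓞 E)))) ∧
      (∀ P ∉ aboveSet B (d.S : Set (HeightOneSpectrum (𝓞 E))), ‖d.chi P.asIdeal‖ = 1) ∧
      (∀ a : 𝓞 B, (∀ P ∈ aboveSet B (d.S : Set (HeightOneSpectrum (𝓞 E))),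
        P.valuation B ((a : B) - 1) ≤ exp (-(d.n2 : ℤ))) → d.chi (Ideal.span {a}) = 1) ∧
      ∀ w ∉ d.S, (NonSplit B w → d.chi (w.asIdeal.map (algebraMap (𝓞 E) (𝓞 B))) = -1) ∧
        (¬ NonSplit B w → d.chi (w.asIdeal.map (algebraMap (𝓞 E) (𝓞 B))) = 1)) := by
  refine ⟨fun _ => Iff.rfl, ?_⟩
  constructor <;> rintro ⟨h1, h2, h3, h4, h5, h6, h7, h8, h9, h10, h11, h12, h13, h14, h15, h16, h17⟩
  all_goals exact ⟨h1, h2, h3, h4, h5, h6, h7, h8, h9, h10, h11, h12, h13, h14, h15, h16, h17⟩

/-- **The data exist.**  `B/E` quadratic, both totally complex, `S` and `chi` as in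
`exists_chi_good` (`psi w` unramified outside `S`).  There are a level `n2` (as large as we want) and
`k` such that for every system `e` of complex embeddings and every open subgroup `US` of `Eˣ` whose
elements are congruent to `1` modulo `w ^ k` for `w ∈ S` there are good data with these `e`, `S`,
`US`, `n2`, `chi`.  Proved in `H16D5`; the property of lifting norms is `norm_lift`. -/
theorem exists_data (E B : Type) [Field E] [NumberField E] [IsTotallyComplex E] [Field B]
    [NumberField B] [IsTotallyComplex B] [Algebra E B] [IsGalois E B]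
    (hdeg : Module.finrank E B = 2) (S : Finset (HeightOneSpectrum (𝓞 E))) (hS : S.Nonempty)
    (h2 : ∀ w ∉ S, w.valuation E (2 : E) = 1)
    (hunr : ∀ w ∉ S, ∀ P ∈ above B w, w.asIdeal.ramificationIdx' P.asIdeal = 1)
    (hpsi : ∀ w ∉ S, H7.Z.Unram w) (chi : Ideal (𝓞 B) →*₀ ℂ)
    (a : HeightOneSpectrum (𝓞 E) → ℤ)
    (hchiS : ∀ P : HeightOneSpectrum (𝓞 B), chi P.asIdeal = 0 ↔
      P ∈ aboveSet B (S : Set (HeightOneSpectrum (𝓞 E))))
    (hchi4 : ∀ P ∉ aboveSet B (S : Set (HeightOneSpectrum (𝓞 E))), chi P.asIdeal ^ 4 = 1)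
    (hchim : ∃ m : Ideal (𝓞 B), m ≠ ⊥ ∧ (∀ P : HeightOneSpectrum (𝓞 B), m ≤ P.asIdeal ↔
      P ∈ aboveSet B (S : Set (HeightOneSpectrum (𝓞 E)))) ∧
        ∀ x : 𝓞 B, x - 1 ∈ m → chi (Ideal.span {x}) = 1)
    (hchiE : ∀ w ∉ S, (NonSplit B w → chi (w.asIdeal.map (algebraMap (𝓞 E) (𝓞 B))) = -1) ∧
      (¬ NonSplit B w → chi (w.asIdeal.map (algebraMap (𝓞 E) (𝓞 B))) = 1))
    (hgood : ∀ w ∉ S, H33D.IsGoodFor chi w.asIdeal ((a w : ℤ) : ℂ)) (n₀ : ℕ) :
    ∃ n2 k : ℕ, n₀ ≤ n2 ∧ 0 < n2 ∧ ∀ (J : Type) [Fintype J] (e : J → (E →+* ℂ))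
      (_ : Function.Bijective fun j => InfinitePlace.mk (e j)) (US : Subgroup Eˣ)
      (_ : ∃ k' : ℕ, ∀ α : Eˣ, (∀ w ∈ S, α ∈ congr w k') → α ∈ US)
      (_ : ∀ α ∈ US, ∀ w ∈ S, α ∈ congr w k),
      ∃ d : H71D.DD E B J, d.e = e ∧ d.S = S ∧ d.US = US ∧ d.n2 = n2 ∧ d.chi = chi ∧ d.Good :=
  H16D.exists_dd (a := a) ⟨inferInstance, inferInstance, hdeg, inferInstance, hS, h2, hunr, hpsi,
    hchiS, hchi4, hchim, hchiE, hgood⟩ n₀

open Classical in
/-- **The series (X).**  `FI E` is the group of the fractional ideals of `E`, `aN a` the absolute norm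
of `a`, `u ∈ E` is an additive parameter, and a point of `J → ℍ³` has coordinates `(z_j, y_j)`.  The
series is `N(a)^(-1/2) ∑_α cf(α a) psS(u α) ∏_j y_j K₀(4π|α_j| y_j) ee(2 Re(α_j z_j))`, the sum over
the `α ∈ US`; `K₀(x) = ∫_0^∞ exp(-x cosh t) dt`.  It is the Fourier expansion, at the cusp `∞` of the
component given by `(a, u)`, of a form of weight zero and spectral parameter zero at each complex
place.  Definitions in `H71UDefs`, `H53Z1`, `H22ZK0`. -/
theorem ser_eq (E B J : Type) [Field E] [NumberField E] [Field B] [NumberField B] [Algebra E B]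
    [Fintype J] (d : H71D.DD E B J) (a : H71D.FI E) (u : E) (p : J → H3) :
    d.ser a u p = ((H71D.aN a ^ (-(1 / 2) : ℝ) : ℝ) : ℂ) * ∑' α : Eˣ,
      (if α ∈ d.US then H33D.cf d.chi (spanSingleton (𝓞 E)⁰ (α : E) *
        (a : FractionalIdeal (𝓞 E)⁰ E)) * H71D.psS d.S (u * α) else 0) *
      ((∏ j, (((p j).y * ∫ t in Set.Ioi (0 : ℝ),
          Real.exp (-(4 * Real.pi * ‖d.e j α‖ * (p j).y) * Real.cosh t) : ℝ) : ℂ)) *
        Complex.exp (2 * Real.pi * Complex.I * ((∑ j, 2 * (d.e j α * (p j).z).re : ℝ) : ℂ))) := by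
  simp only [H71D.DD.ser, H71D.DD.sco, H53Z.kterm_eq, H22Z.K0]

/-- **The spaces.**  `L : LevelFam PGL₂(E) I` is a family of subgroups `L.U w`, `w ∈ I`, of `PGL₂(E)`
such that every element is in almost all of them; `XF L` is the set of the families `(y_w)`,
`y_w ∈ PGL₂(E) / L.U w`, with `y_w = 1` for almost all `w`; `PGL₂(E)` acts by left multiplication.
For the places outside `S` the level is the maximal one, `U0 w` = image of `GL₂` of the integers at
`w`.  A *model* `m : H59D.Model E J` consists of the complex embeddings `m.e` and levels `m.L.U w` at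
all finite places; its space is `m.X = (J → ℍ³) × XF m.L.fam`, on which `PGL₂(E)` acts diagonally, at
infinity through the embeddings (`m.actInf`).  Definitions in `H59XF`, `H59Def`. -/
theorem spaces (E J : Type) [Field E] [NumberField E] [Fintype J] (m : H59D.Model E J)
    (g : PGL(2, E)) (p : J → H3) (y : H59XF.XF m.L.fam) (w : HeightOneSpectrum (𝓞 E)) :
    (g ∈ (H59D.U0 w : Subgroup PGL(2, E)) ↔ ∃ x : GL (Fin 2) E,
      ((∀ i j, w.valuation E (x i j) ≤ 1) ∧
        w.valuation E (x : Matrix (Fin 2) (Fin 2) E).det = 1) ∧ ProjGenLinGroup.mk x = g) ∧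
    {v | y.val v ≠ ((1 : PGL(2, E)) : PGL(2, E) ⧸ m.L.U v)}.Finite ∧
    (g • y).val w = g • y.val w ∧ g • (show m.X from (p, y)) = (m.actInf g p, g • y) ∧
    ∀ j, m.actInf g p j = ProjGenLinGroup.map (m.e j) g • p j :=
  ⟨Iff.rfl, y.fin, rfl, rfl, fun _ => rfl⟩

/-- **Coordinates.**  Every point `y` of `X_f` (outside `S`) has coordinates `(e, u)`, `e w ∈ ℤ` and
`u ∈ E`: for all `w ∉ S` and all `t` of order `e w` at `w` the component `y_w` is the class of the
matrix `(t u; 0 1)`.  Iwasawa decomposition at every place and strong approximation; in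
`H18DKap`. -/
theorem exists_coordinates (E : Type) [Field E] [NumberField E]
    (S : Finset (HeightOneSpectrum (𝓞 E)))
    (L : H59XF.LevelFam PGL(2, E) {w : HeightOneSpectrum (𝓞 E) // w ∉ S})
    (hL : ∀ w, L.U w = H59D.U0 w.1) (y : H59XF.XF L) :
    ∃ (e : HeightOneSpectrum (𝓞 E) → ℤ) (u : E), (∀ w ∈ S, e w = 0) ∧
      ∀ (w : HeightOneSpectrum (𝓞 E)) (hw : w ∉ S) (t : Eˣ), w.valuation E (t : E) = exp (-e w) →
        y ⟨w, hw⟩ = ((ProjGenLinGroup.mk (H51Z.bm t u) : PGL(2, E)) : PGL(2, E) ⧸ L.U ⟨w, hw⟩) :=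
  let ⟨e, u, h⟩ := H18D.exists_isCo hL y
  ⟨e, u, h.zero, h.eq⟩

/-- **Uniqueness of the coordinates.**  `e` is determined by `y`, and `u` modulo the ideal
`∏ w ^ (e w)` (outside `S`).  In `H18DKap`. -/
theorem coordinates_unique (E : Type) [Field E] [NumberField E]
    (S : Finset (HeightOneSpectrum (𝓞 E)))
    (L : H59XF.LevelFam PGL(2, E) {w : HeightOneSpectrum (𝓞 E) // w ∉ S})
    (hL : ∀ w, L.U w = H59D.U0 w.1) (y : H59XF.XF L) (e e' : HeightOneSpectrum (𝓞 E) → ℤ) (u u' : E)
    (he : ∀ w ∈ S, e w = 0) (he' : ∀ w ∈ S, e' w = 0)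
    (hy : ∀ (w : HeightOneSpectrum (𝓞 E)) (hw : w ∉ S) (t : Eˣ), w.valuation E (t : E) = exp (-e w) →
      y ⟨w, hw⟩ = ((ProjGenLinGroup.mk (H51Z.bm t u) : PGL(2, E)) : PGL(2, E) ⧸ L.U ⟨w, hw⟩))
    (hy' : ∀ (w : HeightOneSpectrum (𝓞 E)) (hw : w ∉ S) (t : Eˣ),
      w.valuation E (t : E) = exp (-e' w) →
      y ⟨w, hw⟩ = ((ProjGenLinGroup.mk (H51Z.bm t u') : PGL(2, E)) : PGL(2, E) ⧸ L.U ⟨w, hw⟩)) :
    e = e' ∧ ∀ w ∉ S, w.valuation E (u' - u) ≤ exp (-e w) :=
  H18D.IsCo.unique hL ⟨he, hy⟩ ⟨he', hy'⟩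

open Classical in
/-- **The function outside `S`.**  `FF d y z` is the explicit function on the part of the space
outside `S`.  Its coefficient at `α` is `∏_j |α_j|` times the value at `diag(α, 1) y` of a spherical
Whittaker function `kap` on `X_f`, which is `psS(u) N(a)^(-1/2) cf(a)`, `a = ∏ w ^ (e w)`, at a point
with coordinates `(e, u)`; here `kcf` is `N(a)^(-1/2) cf(a)` as a function of `e`, and `kterm` is the
archimedean factor of `ser_eq`.  The value of `kap` does not depend on the choice of `u` by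
`coordinates_unique`, because `cf(a)` vanishes unless `e ≥ 0` and `psS` is trivial on the elements
which are integral outside `S`.  Definitions in `H18DKap`, `H18DIdl`, `H18DF`. -/
theorem FF_eq (E B J : Type) [Field E] [NumberField E] [Field B] [NumberField B] [Algebra E B]
    [Fintype J] (d : H71D.DD E B J)
    (L : H59XF.LevelFam PGL(2, E) {w : HeightOneSpectrum (𝓞 E) // w ∉ d.S})
    (hL : ∀ w, L.U w = H59D.U0 w.1) (y : H59XF.XF L) (z : J → H3) :
    H18D.FF d y z = ∑' α : Eˣ, (if α ∈ d.US then ((∏ j, ‖d.e j α‖ : ℝ) : ℂ) *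
        H18D.kap (H18D.kcf d.chi) ((ProjGenLinGroup.mk (H76U.dM α) : PGL(2, E)) • y) else 0) *
          H53Z.kterm (fun j => d.e j α) z ∧
    ∀ (e : HeightOneSpectrum (𝓞 E) → ℤ) (u : E), (∀ w ∈ d.S, e w = 0) →
      (∀ (w : HeightOneSpectrum (𝓞 E)) (hw : w ∉ d.S) (t : Eˣ),
        w.valuation E (t : E) = exp (-e w) →
        y ⟨w, hw⟩ = ((ProjGenLinGroup.mk (H51Z.bm t u) : PGL(2, E)) : PGL(2, E) ⧸ L.U ⟨w, hw⟩)) →
      H18D.kap (H18D.kcf d.chi) y = H71D.psS d.S u * H18D.kcf d.chi e :=
  ⟨rfl, fun _ _ he hy => H18D.kap_eq hL (H18D.kcf_neg' d.chi d.S) ⟨he, hy⟩⟩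

/-- **The function outside `S` is the series.**  If `y` has the coordinates `(e, u)`, then `FF d y z` is
the series of `ser_eq` for the ideal `idU e = ∏ w ^ (e w)` and the parameter `u`.  Proved in
`H18DF`. -/
theorem FF_eq_ser (E B J : Type) [Field E] [NumberField E] [Field B] [NumberField B] [Algebra E B]
    [Fintype J] (d : H71D.DD E B J) (hd : d.Good)
    (L : H59XF.LevelFam PGL(2, E) {w : HeightOneSpectrum (𝓞 E) // w ∉ d.S})
    (hL : ∀ w, L.U w = H59D.U0 w.1) (y : H59XF.XF L) (e : HeightOneSpectrum (𝓞 E) → ℤ) (u : E)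
    (he : ∀ w ∈ d.S, e w = 0)
    (hy : ∀ (w : HeightOneSpectrum (𝓞 E)) (hw : w ∉ d.S) (t : Eˣ),
      w.valuation E (t : E) = exp (-e w) →
        y ⟨w, hw⟩ = ((ProjGenLinGroup.mk (H51Z.bm t u) : PGL(2, E)) : PGL(2, E) ⧸ L.U ⟨w, hw⟩))
    (z : J → H3) : H18D.FF d y z = d.ser (H18D.idU e) u z :=
  H18D.FF_eq_ser hd hL ⟨he, hy⟩ z

/-- **Upper triangular elements.**  Write `F(z, y)` for `FF d y z`.  For `b ∈ E` such that `psi w` is
trivial on `(α - 1) b` for `α ∈ US`, `w ∈ S`, the matrix `n(b) = (1 b; 0 1)` satisfies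
`∏_{w ∈ S} psi w (b) · F(n(b) z, n(b) y) = F(z, y)`; the factor is the type at `S`.  (The translation
multiplies the term of `α` by `psS(α b)` and by `ee(tr(α b))`; the product formula applies.)  And `F`
is invariant under `diag(t, 1)` for `t ∈ US` (substitute `α ↦ t α` in the series).  Proved in
`H18DP1`. -/
theorem upper_triangular (E B J : Type) [Field E] [NumberField E] [Field B] [NumberField B]
    [Algebra E B] [Fintype J] (d : H71D.DD E B J) (m : H59D.Model E J)
    (L : H59XF.LevelFam PGL(2, E) {w : HeightOneSpectrum (𝓞 E) // w ∉ d.S})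
    (hL : ∀ w, L.U w = H59D.U0 w.1) (hme : m.e = d.e) (y : H59XF.XF L) (z : J → H3) :
    (∀ b : E, (∀ α ∈ d.US, ∀ w ∈ d.S, psi w (((α : Eˣ) - 1) * b) = 1) →
      (∏ w ∈ d.S, psi w b) * H18D.FF d ((ProjGenLinGroup.mk (H76U.nM b) : PGL(2, E)) • y)
        (m.actInf (ProjGenLinGroup.mk (H76U.nM b)) z) = H18D.FF d y z) ∧
    ∀ t ∈ d.US, H18D.FF d ((ProjGenLinGroup.mk (H76U.dM t) : PGL(2, E)) • y)
      (m.actInf (ProjGenLinGroup.mk (H76U.dM t)) z) = H18D.FF d y z :=
  ⟨fun _ hb => H18D.FF_n hL hme hb y z, fun _ ht => H18D.FF_d hme ht y z⟩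

open Classical in
/-- **Hecke operators.**  At a place `w ∉ S` where `chi` is good with `a`, the function `F` is an
eigenfunction of the Hecke operator `T_w` with eigenvalue `(N w)^(1/2) a`: for a uniformiser `ϖ` and
a set `R` of representatives of the residue field, the sum of the values of `F` at the `N w + 1`
neighbours `g (ϖ b; 0 1)`, `b ∈ R`, and `g (ϖ 0; 0 1)⁻¹` of `g` is `(N w)^(1/2) a` times its value
at `g`.  (`IsReps v 1 R`: `R` is a set of representatives of the integers modulo the maximal ideal;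
`bm a b = (a b; 0 1)`.)  Proved in `H18DHec`, `H18DP3` from `cf_mul`. -/
theorem hecke (E B J : Type) [Field E] [NumberField E] [Field B] [NumberField B]
    [Algebra E B] [Fintype J] (d : H71D.DD E B J) (hd : d.Good)
    (L : H59XF.LevelFam PGL(2, E) {w : HeightOneSpectrum (𝓞 E) // w ∉ d.S})
    (hL : ∀ w, L.U w = H59D.U0 w.1) (w : HeightOneSpectrum (𝓞 E)) (hw : w ∉ d.S)
    (hu : H7.Z.Unram w) (ϖ : Eˣ) (hϖ : w.valuation E (ϖ : E) = exp (-1 : ℤ)) (R : Finset E)
    (hR : H51Z.IsReps (w.valuation E) 1 R) (a : ℂ) (ha : H33D.IsGoodFor d.chi w.asIdeal a)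
    (z : J → H3) (y : H59XF.XF L) (g : PGL(2, E)) (hg : y.val ⟨w, hw⟩ = (g : PGL(2, E) ⧸ L.U _)) :
    (Real.sqrt (Ideal.absNorm w.asIdeal) : ℂ) * a * H18D.FF d y z =
      ∑ b ∈ R, H18D.FF d (y.upd ⟨w, hw⟩ ((g * ProjGenLinGroup.mk (H51Z.bm 1 b) *
        ProjGenLinGroup.mk (H51Z.bm ϖ 0) : PGL(2, E)) : PGL(2, E) ⧸ L.U ⟨w, hw⟩)) z +
      H18D.FF d (y.upd ⟨w, hw⟩ ((g * (ProjGenLinGroup.mk (H51Z.bm ϖ 0))⁻¹ : PGL(2, E)) :
        PGL(2, E) ⧸ L.U ⟨w, hw⟩)) z :=
  H18D.FF_hecke hd hL hw hu hϖ hR ha z y g hg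

/-- **Radial kernels and growth.**  `F` is continuous in `z` and an eigenfunction of the integral
operators with kernel `κ((cosh d(z_j, v_j))_j)`, `κ` continuous and zero if one variable is large;
the eigenvalue is the one of `∏_j y_j` (spectral parameter zero).  This replaces the Laplace
operators.  (`H3.ch` is the hyperbolic cosine of the distance in `ℍ³`, `H3.base = (0, 1)`; the
library writes `Ker κ`, `Rk κ`, `hat κ` for the three notions.)  And `F` is bounded by a power of
`∏_j (y_j + 1/y_j)`.  Proved in `H18DP2` from the corresponding facts for one term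
`y K₀(4π|ν|y) e(2 Re(ν z))` (`H53Z6`, `H9ZEig`) and polynomial bounds for the coefficients
(`H53Z5`). -/
theorem radial_and_growth (E B J : Type) [Field E] [NumberField E] [Field B] [NumberField B]
    [Algebra E B] [Fintype J] (d : H71D.DD E B J) (hd : d.Good)
    (L : H59XF.LevelFam PGL(2, E) {w : HeightOneSpectrum (𝓞 E) // w ∉ d.S})
    (hL : ∀ w, L.U w = H59D.U0 w.1) (y : H59XF.XF L) :
    (Continuous fun z : J → H3 => H18D.FF d y z) ∧
    (∀ κ : (J → ℝ) → ℂ, ContinuousOn κ {t | ∀ j, 1 ≤ t j} →
      (∃ T : ℝ, ∀ t : J → ℝ, (∀ j, 1 ≤ t j) → (∃ j, T < t j) → κ t = 0) → ∀ z : J → H3,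
      ∫ v : J → H3, κ (fun j => H3.ch (z j) (v j)) * H18D.FF d y v =
        (∫ v : J → H3, κ (fun j => H3.ch H3.base (v j)) * ∏ j, ((v j).y : ℂ)) * H18D.FF d y z) ∧
    ∃ (A : ℕ) (C : ℝ), ∀ z : J → H3, ‖H18D.FF d y z‖ ≤ C * ∏ j, ((z j).y + ((z j).y)⁻¹) ^ A :=
  ⟨H18D.FF_cont hd hL y, fun _ h1 h2 z => H18D.FF_rad hd hL ⟨h1, h2⟩ y z, H18D.FF_grow hd hL y⟩

/-- **Non vanishing.**  `F` does not vanish identically: its Fourier coefficient at `α = 1` on the
standard component is `cf (1) = 1`, and Fourier expansions are unique.  Proved in `H18DP4`. -/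
theorem series_ne_zero (E B J : Type) [Field E] [NumberField E] [Field B] [NumberField B]
    [Algebra E B] [Fintype J] (d : H71D.DD E B J) (hd : d.Good) (m : H59D.Model E J)
    (L : H59XF.LevelFam PGL(2, E) {w : HeightOneSpectrum (𝓞 E) // w ∉ d.S})
    (hL : ∀ w, L.U w = H59D.U0 w.1) (hme : m.e = d.e) :
    ∃ z : J → H3, H18D.FF d (H59XF.XF.base L) z ≠ 0 :=
  H18D.FF_base_ne hd hL hme

end Fermat.Agent.Guide.OctD
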