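import Fermat.Agent.H16D8

/-!
# Reader's guide: block (D) of S47, third part: types, assembly, and the statement of the block

**Statement served:** S47, block (D).  First part of this guide: `GuideOctD` (the tower of fields, the
quartic Hecke character `chi` of `B`, the Fourier series and its evident properties, conventions);
second part: `GuideOctDTheta` (invariance under lower unipotent elements).  Every library theorem
cited below is used in the proof of S47.  In prose: NOTES section 8 and note [441]; details in [453]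
(the outer function), [469] (the semilocal machine), [446] (interface and numerical check).  More
steps of the proofs: `GuideSemilocal` (typed functions, extension to the whole space),
`GuideLatticeTypes` (lattice data at the bad places).

**What this part does.**  The first two parts give a function `F(z, y)` on the part of the space
outside the bad places `S`, with a transformation law under three kinds of elements of `PGL₂(E)`:
upper unipotent, diagonal, lower unipotent, close to `1` at `S` in a suitable sense.  At a place of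
`S` the behaviour of an automorphic form is prescribed by a *type*, a character of a small open
subgroup.  The three kinds of elements generate the group of all elements of `PGL₂(E)` which lie in
the groups of the types (`exists_ndl`, `outTyped_of_three`); by weak approximation the function `F`
extends to a function on the whole space, invariant under `PGL₂(E)` and typed at `S`
(`weak_approximation`, `form_properties`); its other properties follow from those of `F`
(`isDForm_of_outer`).  `form_of_character` is the result of the analytic part, and `blockD` the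
statement which block (C) uses.

**Conventions.** As in the first part.  A *model* `m : H59D.Model E J` consists of complex
embeddings `m.e j`, one for each infinite place of the totally complex field `E`, and levels
`m.L.U w` (open bounded subgroups of `PGL₂(E)` for the `w`-adic topology, almost all maximal; every
element is in almost all of them, and `m.L.fam : LevelFam` is this family); its space is
`m.X = (J → ℍ³) × XF m.L.fam`, where `XF m.L.fam` is the set of the families `(y_w)`,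
`y_w ∈ PGL₂(E) / m.L.U w`, with `y_w = 1` for almost all `w`; `restr m.L.fam S` are the levels at
the places outside `S` only.  `y.upd w a` is the point `y` with the coordinate at `w` replaced by
`a`.  `Zm m` is a name for `J → ℍ³` with the action of `PGL₂(E)` through `m.e`.  The matrices
`(1 b; 0 1)`, `(t 0; 0 1)`, `(1 0; c 1)` are written `nM b`, `dM t`, `lM c`, and `bm a b` is
`(a b; 0 1)`.  `IsReps v 1 R`: `R` is a set of representatives of the integers modulo the prime.
-/

set_option autoImplicit false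

noncomputable section

namespace Fermat.Agent.Guide.OctDForm

open IsDedekindDomain NumberField WithZero Matrix FractionalIdeal
open scoped nonZeroDivisors MatrixGroups
open Fermat.Agent
open Fermat.Agent.H47 (smulPlace below)
open Fermat.Agent.H82 (above aboveSet NonSplit congr)
open Fermat.Agent.H7.Z (psi ee)

/-! ## (a) Types -/

/-- **Types.**  A type `t : H76U.Typ U` for a subgroup `U` of a group `G` (the level at one place)
consists of a subgroup `t.H` which contains and normalises `U`, and a character `t.chi` of `t.H`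
trivial on `U`.  `t.rt h` is the right translation of `G / U` by `h ∈ t.H`.  A function on a space
with a factor `G / U` is typed if right translation by `h` in this factor multiplies it by
`t.chi h`.  Types serve in block (C) to isolate the form; block (D) must provide it for all
sufficiently deep types.  Definitions in `H76U1`. -/
theorem typ_notions (G : Type) [Group G] (U : Subgroup G) (t : H76U.Typ U) :
    U ≤ t.H ∧ (∀ g ∈ t.H, ∀ h ∈ t.H, t.chi (g * h) = t.chi g * t.chi h) ∧
      (∀ u ∈ U, t.chi u = 1) ∧ (∀ h ∈ t.H, ∀ u ∈ U, h⁻¹ * u * h ∈ U) ∧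
      ∀ (h : t.H) (g : G), t.rt h ((g : G) : G ⧸ U) = ((g * h.1 : G) : G ⧸ U) :=
  ⟨t.le, t.mul, t.one, t.norm, fun _ _ => rfl⟩

/-- **Lattice types.**  `T : H76U.TD K` (lattice data) consists of additive groups `A`, `B`, `C` of `K`
with `A A ⊂ A`, `A B ⊂ B`, `A C ⊂ C`, `B C ⊂ A`, `1 + A` a group, and an additive character `psi`
trivial on `A B`.  The group `T.H ⊂ PGL₂(K)` is the image of the matrices `(a b; c d)` with
`a, d ∈ 1 + A`, `b ∈ B`, `c ∈ C`, with the character `T.chi (a b; c d) = psi(b)` (well defined and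
multiplicative because `psi` is trivial on `A B`).  Definitions in `H76U2`. -/
theorem type_group (K : Type) [Field K] (T : H76U.TD K) (g : PGL(2, K)) :
    (g ∈ T.H ↔ ∃ x : GL (Fin 2) K, (x 0 0 - 1 ∈ T.A ∧ x 0 1 ∈ T.B ∧ x 1 0 ∈ T.C ∧ x 1 1 - 1 ∈ T.A) ∧
      ProjGenLinGroup.mk x = g) ∧
    ∀ x : GL (Fin 2) K, (x 0 0 - 1 ∈ T.A ∧ x 0 1 ∈ T.B ∧ x 1 0 ∈ T.C ∧ x 1 1 - 1 ∈ T.A) →
      T.chi (ProjGenLinGroup.mk x) = T.psi (x 0 1) :=
  ⟨Iff.rfl, fun _ hx => T.chi_of_mem hx⟩

/-- **The semilocal group is generated by three types of elements.**  `S` a finite non empty set,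
`T_i` lattice data over the same field `K` for `i ∈ S`.  Every `g ∈ PGL₂(K)` which lies in `T_i.H`
for all `i ∈ S` is a product `n(b) diag(t, 1) n̄(c)` with `b ∈ B_i`, `t ∈ 1 + A_i`, `c ∈ C_i` for all
`i ∈ S`.  (Normalise the lower right entry to `1` simultaneously at all places.)  Proved in
`H76U2`. -/
theorem exists_ndl (K ι : Type) [Field K] (S : Finset ι) (hS : S.Nonempty) (T : ι → H76U.TD K)
    (g : PGL(2, K)) (hg : ∀ i ∈ S, g ∈ (T i).H) :
    ∃ (b : K) (t : Kˣ) (c : K), (∀ i ∈ S, b ∈ (T i).B) ∧ (∀ i ∈ S, (t : K) - 1 ∈ (T i).A) ∧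
      (∀ i ∈ S, c ∈ (T i).C) ∧ g = ProjGenLinGroup.mk (H76U.nM b) *
        ProjGenLinGroup.mk (H76U.dM t) * ProjGenLinGroup.mk (H76U.lM c) :=
  H76U.exists_ndl hS T hg

/-- **The transformation law outside `S`.**  A function `F` on `Z × XF (restr L S)` (coordinates
outside `S`; `Z = J → ℍ³` in the application) with the properties `upper_triangular` and
`lower_unipotent` satisfies `∏_{i ∈ S} χ_i(g) · F(g z, g y) = F(z, y)` for all `g` in the
intersection of the `T_i.H`, `i ∈ S`.  Immediate from `exists_ndl`; in `H76U2`. -/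
theorem outTyped_of_three (K ι Z : Type) [Field K] (L : H59XF.LevelFam PGL(2, K) ι) (S : Finset ι)
    [MulAction PGL(2, K) Z] (hS : S.Nonempty) (T : ι → H76U.TD K)
    (Ty : ∀ i : ι, H76U.Typ (L.U i)) (hH : ∀ i ∈ S, (Ty i).H = (T i).H)
    (hchi : ∀ i ∈ S, ∀ g ∈ (T i).H, (Ty i).chi g = (T i).chi g)
    (F : Z → H59XF.XF (H76U.restr L S) → ℂ)
    (hn : ∀ b : K, (∀ i ∈ S, b ∈ (T i).B) → ∀ z y, (∏ i ∈ S, (T i).psi b) *
      F (ProjGenLinGroup.mk (H76U.nM b) • z) (ProjGenLinGroup.mk (H76U.nM b) • y) = F z y)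
    (hd : ∀ t : Kˣ, (∀ i ∈ S, (t : K) - 1 ∈ (T i).A) → ∀ z y,
      F (ProjGenLinGroup.mk (H76U.dM t) • z) (ProjGenLinGroup.mk (H76U.dM t) • y) = F z y)
    (hl : ∀ c : K, (∀ i ∈ S, c ∈ (T i).C) → ∀ z y,
      F (ProjGenLinGroup.mk (H76U.lM c) • z) (ProjGenLinGroup.mk (H76U.lM c) • y) = F z y)
    (g : PGL(2, K)) (hg : ∀ i ∈ S, g ∈ (Ty i).H) (z : Z) (y : H59XF.XF (H76U.restr L S)) :
    (∏ i ∈ S, (Ty i).chi g) * F (g • z) (g • y) = F z y :=
  H76U.outTyped_of_three hS T Ty hH hchi hn hd hl g hg z y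

/-! ## (b) From the function outside `S` to the whole space -/

/-- **Weak approximation.**  `E` a number field, `m` a model, `S` a finite set of places: for given
`g_w ∈ PGL₂(E)` there is `γ ∈ PGL₂(E)` with `g_w⁻¹ γ ∈ m.L.U w` for all `w ∈ S`.  So every point
`y` of `X_f` is represented at the places of `S` by one `γ ∈ PGL₂(E)`.  Proved in `H76U3` with the
approximation theorem of `H7ZApprox`. -/
theorem weak_approximation (E J : Type) [Field E] [NumberField E] [Fintype J] (m : H59D.Model E J)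
    (S : Finset (HeightOneSpectrum (𝓞 E))) (g : HeightOneSpectrum (𝓞 E) → PGL(2, E)) :
    ∃ γ : PGL(2, E), ∀ w ∈ S, (g w)⁻¹ * γ ∈ m.L.fam.U w :=
  H76U.wa_level m.L S g

open Classical in
/-- **From the outer space to the whole space.**  `OutTyped Ty S F` is the law of
`outTyped_of_three`.  The function `form m S F` on `m.X = (J → ℍ³) × X_f` is defined by moving a
point with an element `γ ∈ PGL₂(E)` which represents it at the places of `S`: it is well defined,
invariant under `PGL₂(E)`, typed at the places of `S` and restricts to `F` (take `γ = 1`).  Here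
`proj` forgets the coordinates at `S`.  Proved in `H76U1`, `H76U3`. -/
theorem form_properties (E J : Type) [Field E] [NumberField E] [Fintype J] (m : H59D.Model E J)
    (S : Finset (HeightOneSpectrum (𝓞 E))) (Ty : ∀ w, H76U.Typ (m.L.fam.U w))
    (F : H76U.Zm m → H59XF.XF (H76U.restr m.L.fam S) → ℂ) (hF : H76U.OutTyped Ty S F) :
    (∀ (x : m.X) (γ : PGL(2, E)),
      (∀ w ∈ S, x.2 w = ((γ : PGL(2, E)) : PGL(2, E) ⧸ m.L.fam.U w)) →
      H76U.form m S F x = F (m.actInf γ⁻¹ x.1) (γ⁻¹ • H76U.proj m.L.fam S x.2)) ∧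
    (∀ (g : PGL(2, E)) (x : m.X), H76U.form m S F (g • x) = H76U.form m S F x) ∧
    ∀ w ∈ S, ∀ (h : (Ty w).H) (x : m.X),
      H76U.form m S F (x.1, H59XF.XF.upd x.2 w ((Ty w).rt h (x.2 w))) =
        (Ty w).chi h * H76U.form m S F x :=
  ⟨fun x _ hγ => H76U.form_eq hF x hγ, H76U.form_smul hF, fun _ hw h x => H76U.form_typed hF hw h x⟩

/-- **Heights of translates.**  For `g ∈ PGL₂(E)` there is `C` with
`y' + 1/y' ≤ C (1 + |z|²) (y + 1/y)` for all points `(z, y)` and `(z', y') = g (z, y)` of every factor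
`ℍ³`.  In `H16D1`. -/
theorem height_translate (E J : Type) [Field E] [NumberField E] [Fintype J] (m : H59D.Model E J)
    (g : PGL(2, E)) : ∃ C : ℝ, 1 ≤ C ∧ ∀ (z : J → H3) (j : J),
      (m.actInf g z j).y + ((m.actInf g z j).y)⁻¹ ≤
        C * ((1 + ‖(z j).z‖ ^ 2) * ((z j).y + ((z j).y)⁻¹)) :=
  H16D.exists_y_le m g

/-- **Balancing.**  For a finite set `Y₀` of points of `X_f` there are constants `B`, `R` such that
every `w ∈ J → ℍ³` can be moved by an element `g` which fixes `η ∈ Y₀` to a point with `|z_j| ≤ R`,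
with comparable heights `y_i ≤ B y_j` and with the same product `h` of the heights, so that
`h^(1/r) ≤ B y_j`, `r = |J|`.  (Translations by an ideal of the integers of `E` and the matrices
`diag(u², 1)`, `u` a unit congruent to `1` modulo an ideal; Dirichlet's unit theorem.)  In
`H35BK1`. -/
theorem balancing (E J : Type) [Field E] [NumberField E] [Fintype J] [Nonempty J]
    (m : H59D.Model E J) (Y₀ : Set (H59XF.XF m.L.fam)) (hY₀ : Y₀.Finite) :
    ∃ B R : ℝ, 1 ≤ B ∧ 0 ≤ R ∧ ∀ η ∈ Y₀, ∀ w : J → H3, ∃ g : PGL(2, E), g • η = η ∧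
      ∏ j, (m.actInf g w j).y = ∏ j, (w j).y ∧
      (∀ i j, (m.actInf g w i).y ≤ B * (m.actInf g w j).y) ∧
      (∀ j, (∏ i, (w i).y) ^ (1 / (Fintype.card J : ℝ)) ≤ B * (m.actInf g w j).y) ∧
      ∀ j, ‖(m.actInf g w j).z‖ ≤ R :=
  H35BK.bal m hY₀

open Classical in
/-- **Operators and growth on the whole space.**  Let `F` be as in `form_properties` and
`Φ = form m S F`.  If `F` is an eigenfunction of the integral operator with kernel
`κ((cosh d(z_j, v_j))_j)`, or of the Hecke operator at `w ∉ S`, then `Φ` is one, with the same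
eigenvalue: both operators commute with the action of `PGL₂(E)`, and `Φ(z, y)` is the value of `F` at
`γ⁻¹ (z, y)`, `γ` representing `y` at `S`.  If `F` is bounded by powers of `∏ (y_j + 1/y_j)`, then `Φ`
is of moderate growth: this uses `height_translate` and `balancing`.  Proved in `H16D1`. -/
theorem operators_and_growth (E J : Type) [Field E] [NumberField E] [Fintype J]
    (m : H59D.Model E J) (S : Finset (HeightOneSpectrum (𝓞 E)))
    (Ty : ∀ w, H76U.Typ (m.L.fam.U w)) (F : H76U.Zm m → H59XF.XF (H76U.restr m.L.fam S) → ℂ)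
    (hF : H76U.OutTyped Ty S F) :
    (∀ (κ : (J → ℝ) → ℂ) (c : ℂ), (∀ (y : H59XF.XF (H76U.restr m.L.fam S)) (z : J → H3),
        ∫ v : J → H3, κ (fun j => H3.ch (z j) (v j)) * F v y = c * F z y) →
      ∀ (y : H59XF.XF m.L.fam) (z : J → H3),
        ∫ v : J → H3, κ (fun j => H3.ch (z j) (v j)) * H76U.form m S F (v, y) =
          c * H76U.form m S F (z, y)) ∧
    (∀ (w : {w // w ∉ S}) (ϖ : Eˣ) (R : Finset E) (lam : ℂ),
      (∀ (z : J → H3) (y : H59XF.XF (H76U.restr m.L.fam S)) (g : PGL(2, E)),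
        y w = (g : PGL(2, E) ⧸ (H76U.restr m.L.fam S).U w) →
        lam * F z y = ∑ b ∈ R, F z (y.upd w ((g * ProjGenLinGroup.mk (H51Z.bm 1 b) *
            ProjGenLinGroup.mk (H51Z.bm ϖ 0) : PGL(2, E)) :
              PGL(2, E) ⧸ (H76U.restr m.L.fam S).U w)) +
          F z (y.upd w ((g * (ProjGenLinGroup.mk (H51Z.bm ϖ 0))⁻¹ : PGL(2, E)) :
            PGL(2, E) ⧸ (H76U.restr m.L.fam S).U w))) →
      ∀ (z : J → H3) (y : H59XF.XF m.L.fam) (g : PGL(2, E)),
        y w.1 = (g : PGL(2, E) ⧸ m.L.fam.U w.1) →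
        lam * H76U.form m S F (z, y) =
          ∑ b ∈ R, H76U.form m S F (z, y.upd w.1 ((g * ProjGenLinGroup.mk (H51Z.bm 1 b) *
            ProjGenLinGroup.mk (H51Z.bm ϖ 0) : PGL(2, E)) : PGL(2, E) ⧸ m.L.fam.U w.1)) +
          H76U.form m S F (z, y.upd w.1 ((g * (ProjGenLinGroup.mk (H51Z.bm ϖ 0))⁻¹ : PGL(2, E)) :
            PGL(2, E) ⧸ m.L.fam.U w.1))) ∧
    ((∀ y : H59XF.XF (H76U.restr m.L.fam S), ∃ (A : ℕ) (C : ℝ), ∀ z : J → H3,
        ‖F z y‖ ≤ C * ∏ j, ((z j).y + ((z j).y)⁻¹) ^ A) →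
      ∀ y : H59XF.XF m.L.fam, ∃ A : ℝ, ∀ c : ℝ, 0 < c → ∃ M : ℝ, ∀ τ : J → H3,
        (∀ j, c ≤ (τ j).y) → ‖H76U.form m S F (τ, y)‖ ≤ M * (∏ j, (τ j).y) ^ A) :=
  ⟨fun _ _ h y z => H16D.form_rad hF h y z, fun w _ _ _ h z => H16D.form_hecke hF w h z,
    fun h y => H16D.form_growth hF h y⟩

open Classical in
/-- **The properties of the form.**  `IsDForm m S Ty a Φ` unfolded: `Φ` is a function on
`(J → ℍ³) × X_f` which is invariant under `PGL₂(E)`, continuous in `τ`, of moderate growth at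
the cusp `∞` (for every `y` there is an exponent `A` such that for every `c > 0` it is bounded by a
multiple of `(∏ y_j) ^ A` where all `y_j ≥ c`), an eigenfunction of the radial kernels with spectral
parameter zero (see `radial_and_growth` in the first part), an eigenfunction of the Hecke operators
at `w ∉ S` with eigenvalue `(N w)^(1/2) a_w`, typed at the places of `S`, and not zero.  Definition
in `H55DC`. -/
theorem isDForm_iff (E J : Type) [Field E] [NumberField E] [Fintype J] (m : H59D.Model E J)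
    (S : Finset (HeightOneSpectrum (𝓞 E))) (Ty : ∀ w, H76U.Typ (m.L.fam.U w))
    (a : HeightOneSpectrum (𝓞 E) → ℝ) (Φ : m.X → ℂ) :
    H55D.IsDForm m S Ty a Φ ↔
      (∀ (g : PGL(2, E)) (x : m.X), Φ (g • x) = Φ x) ∧
      (∀ y : H59XF.XF m.L.fam, Continuous fun τ : J → H3 => Φ (τ, y)) ∧
      (∀ y : H59XF.XF m.L.fam, ∃ A : ℝ, ∀ c : ℝ, 0 < c → ∃ M : ℝ, ∀ τ : J → H3,
        (∀ j, c ≤ (τ j).y) → ‖Φ (τ, y)‖ ≤ M * (∏ j, (τ j).y) ^ A) ∧
      (∀ κ : (J → ℝ) → ℂ, ContinuousOn κ {t | ∀ j, 1 ≤ t j} →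
        (∃ T : ℝ, ∀ t : J → ℝ, (∀ j, 1 ≤ t j) → (∃ j, T < t j) → κ t = 0) →
        ∀ (y : H59XF.XF m.L.fam) (τ : J → H3),
        ∫ v : J → H3, κ (fun j => H3.ch (τ j) (v j)) * Φ (v, y) =
          (∫ v : J → H3, κ (fun j => H3.ch H3.base (v j)) * ∏ j, ((v j).y : ℂ)) * Φ (τ, y)) ∧
      (∀ w ∉ S, ∀ ϖ : Eˣ, w.valuation E (ϖ : E) = exp (-(1 : ℤ)) →
        ∀ R : Finset E, H51Z.IsReps (w.valuation E) 1 R → ∀ (τ : J → H3) (y : H59XF.XF m.L.fam)
        (g : PGL(2, E)), y w = (g : PGL(2, E) ⧸ m.L.fam.U w) →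
        ((Real.sqrt (Ideal.absNorm w.asIdeal) * a w : ℝ) : ℂ) * Φ (τ, y) =
          ∑ b ∈ R, Φ (τ, y.upd w ((g * ProjGenLinGroup.mk (H51Z.bm 1 b) *
            ProjGenLinGroup.mk (H51Z.bm ϖ 0) : PGL(2, E)) : PGL(2, E) ⧸ m.L.fam.U w)) +
          Φ (τ, y.upd w ((g * (ProjGenLinGroup.mk (H51Z.bm ϖ 0))⁻¹ : PGL(2, E)) :
            PGL(2, E) ⧸ m.L.fam.U w))) ∧
      (∀ w ∈ S, ∀ (h : (Ty w).H) (τ : J → H3) (y : H59XF.XF m.L.fam),
        Φ (τ, y.upd w ((Ty w).rt h (y w))) = (Ty w).chi h * Φ (τ, y)) ∧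
      ∃ x, Φ x ≠ 0 :=
  ⟨fun ⟨h1, h2, h3, h4, h5, h6, h7⟩ => ⟨h1, h2, h3, fun κ c s => h4 κ ⟨c, s⟩, h5, h6, h7⟩,
    fun ⟨h1, h2, h3, h4, h5, h6, h7⟩ => ⟨h1, h2, h3, fun κ h => h4 κ h.cont h.supp, h5, h6, h7⟩⟩

open Classical in
/-- **From the function outside `S` to the form.**  All the properties of `F` in one list (upper
unipotent, diagonal, lower unipotent elements, continuity, radial kernels, Hecke operators, growth,
non vanishing) imply that `form m S F` has the properties of `isDForm_iff` (`outTyped_of_three`,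
`form_properties`, `operators_and_growth`).  Growth: `τ` is first moved by an upper triangular
element which fixes `y` to a point with bounded `z_j` and balanced heights (`balancing`); then
`height_translate` is applied to the fixed `γ⁻¹`, `γ` representing `y` at `S`, so that the bound for
`F` becomes a power of the product of the heights.  Proved in `H16D1`, `H16D2`. -/
theorem isDForm_of_outer (E J : Type) [Field E] [NumberField E] [Fintype J] (m : H59D.Model E J)
    (S : Finset (HeightOneSpectrum (𝓞 E))) (hS : S.Nonempty)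
    (T : HeightOneSpectrum (𝓞 E) → H76U.TD E) (Ty : ∀ w, H76U.Typ (m.L.fam.U w))
    (hH : ∀ w ∈ S, (Ty w).H = (T w).H)
    (hchi : ∀ w ∈ S, ∀ g ∈ (T w).H, (Ty w).chi g = (T w).chi g)
    (a : HeightOneSpectrum (𝓞 E) → ℝ)
    (F : H76U.Zm m → H59XF.XF (H76U.restr m.L.fam S) → ℂ)
    (hn : ∀ b : E, (∀ w ∈ S, b ∈ (T w).B) → ∀ (z : H76U.Zm m) (y : H59XF.XF (H76U.restr m.L.fam S)),
      (∏ w ∈ S, (T w).psi b) * F ((ProjGenLinGroup.mk (H76U.nM b) : PGL(2, E)) • z)
        ((ProjGenLinGroup.mk (H76U.nM b) : PGL(2, E)) • y) = F z y)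
    (hd : ∀ t : Eˣ, (∀ w ∈ S, (t : E) - 1 ∈ (T w).A) →
      ∀ (z : H76U.Zm m) (y : H59XF.XF (H76U.restr m.L.fam S)),
      F ((ProjGenLinGroup.mk (H76U.dM t) : PGL(2, E)) • z)
        ((ProjGenLinGroup.mk (H76U.dM t) : PGL(2, E)) • y) = F z y)
    (hl : ∀ c : E, (∀ w ∈ S, c ∈ (T w).C) →
      ∀ (z : H76U.Zm m) (y : H59XF.XF (H76U.restr m.L.fam S)),
      F ((ProjGenLinGroup.mk (H76U.lM c) : PGL(2, E)) • z)
        ((ProjGenLinGroup.mk (H76U.lM c) : PGL(2, E)) • y) = F z y)
    (hcont : ∀ y : H59XF.XF (H76U.restr m.L.fam S), Continuous fun z : J → H3 => F z y)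
    (hrad : ∀ κ : (J → ℝ) → ℂ, ContinuousOn κ {t | ∀ j, 1 ≤ t j} →
      (∃ T : ℝ, ∀ t : J → ℝ, (∀ j, 1 ≤ t j) → (∃ j, T < t j) → κ t = 0) →
      ∀ (y : H59XF.XF (H76U.restr m.L.fam S)) (z : J → H3),
      ∫ v : J → H3, κ (fun j => H3.ch (z j) (v j)) * F v y =
        (∫ v : J → H3, κ (fun j => H3.ch H3.base (v j)) * ∏ j, ((v j).y : ℂ)) * F z y)
    (hhecke : ∀ w : {w // w ∉ S}, ∀ ϖ : Eˣ, w.1.valuation E (ϖ : E) = exp (-(1 : ℤ)) →
      ∀ R : Finset E, H51Z.IsReps (w.1.valuation E) 1 R → ∀ (z : J → H3)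
      (y : H59XF.XF (H76U.restr m.L.fam S)) (g : PGL(2, E)),
      y w = (g : PGL(2, E) ⧸ (H76U.restr m.L.fam S).U w) →
      ((Real.sqrt (Ideal.absNorm w.1.asIdeal) * a w.1 : ℝ) : ℂ) * F z y =
        ∑ b ∈ R, F z (y.upd w ((g * ProjGenLinGroup.mk (H51Z.bm 1 b) *
          ProjGenLinGroup.mk (H51Z.bm ϖ 0) : PGL(2, E)) :
            PGL(2, E) ⧸ (H76U.restr m.L.fam S).U w)) +
        F z (y.upd w ((g * (ProjGenLinGroup.mk (H51Z.bm ϖ 0))⁻¹ : PGL(2, E)) :
          PGL(2, E) ⧸ (H76U.restr m.L.fam S).U w)))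
    (hgrow : ∀ y : H59XF.XF (H76U.restr m.L.fam S), ∃ (A : ℕ) (C : ℝ), ∀ z : J → H3,
      ‖F z y‖ ≤ C * ∏ j, ((z j).y + ((z j).y)⁻¹) ^ A)
    (hne : ∃ z y, F z y ≠ 0) :
    H55D.IsDForm m S Ty a (H76U.form m S F) :=
  H16D.IsOuter.isDForm (T := T) ⟨hn, hd, hl, hcont, fun κ h => hrad κ h.cont h.supp, hhecke, hgrow,
    hne⟩ hS Ty hH hchi

/-! ## (c) The statement -/

/-- **Deep types and the set of bad places.**  The two notions in the statement of `blockD`
unfolded.  `H55D.Adm w T k c₀` says that the lattice data `T` have the standard character at `w`,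
that `A ⊂ w ^ k`, and that `w ^ n ⊂ A`, `C ⊂ w ^ (2 n + c₀)` for some `n`, where `w ^ n` denotes the
set of the elements of `E` of order at least `n` at `w`; `divs E N₀` is the set of the places of `E`
dividing `N₀`.  In `H55DC`, `H46ZBlocks`. -/
theorem adm_iff (E : Type) [Field E] [NumberField E] (w : HeightOneSpectrum (𝓞 E))
    (T : H76U.TD E) (k c₀ N₀ : ℕ) (hN : N₀ ≠ 0) :
    (H55D.Adm w T k c₀ ↔ (∀ x, T.psi x = psi w x) ∧
      (∀ a ∈ T.A, w.valuation E a ≤ exp (-(k : ℤ))) ∧
      ∃ n : ℕ, (∀ a : E, w.valuation E a ≤ exp (-(n : ℤ)) → a ∈ T.A) ∧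
        ∀ c ∈ T.C, w.valuation E c ≤ exp (-((2 * n + c₀ : ℕ) : ℤ))) ∧
    (w ∈ H46Z.divs E N₀ ↔ (N₀ : 𝓞 E) ∈ w.asIdeal) :=
  ⟨⟨fun ⟨h1, h2, h3⟩ => ⟨h1, h2, h3⟩, fun ⟨h1, h2, h3⟩ => ⟨h1, h2, h3⟩⟩, H46Z.mem_divs hN⟩

/-- **The form attached to the character.**  `B/E` quadratic, both totally complex, `S` a finite non
empty set of places of `E` containing those above `2`, those ramified in `B`, and those where `psi` is
ramified; `chi` a multiplicative function on the ideals of `B` with the properties of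
`exists_chi_good` of the first part, with integral eigenvalues `a_w`.  There are `k`, `c₀` such that
for every model `m`, of maximal level outside `S`, and all lattice types of depth `(k, c₀)` at the
places of `S` there is a function `Φ` on `m.X` with the properties of `isDForm_iff`: invariant, typed,
with Hecke eigenvalues `(N w)^(1/2) a_w`, not zero.  Proved in `H16D6`, `H16D8` (the function outside
`S`: `H18DOut`) from `exists_data` and section 4 of the first part, `lower_unipotent` and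
`theta_invariant` of the second part, and `isDForm_of_outer`. -/
theorem form_of_character (E B : Type) [Field E] [NumberField E] [IsTotallyComplex E] [Field B]
    [NumberField B] [IsTotallyComplex B] [Algebra E B] [IsGalois E B]
    (hdeg : Module.finrank E B = 2) (S : Finset (HeightOneSpectrum (𝓞 E))) (hS : S.Nonempty)
    (h2 : ∀ w ∉ S, w.valuation E (2 : E) = 1)
    (hunr : ∀ w ∉ S, ∀ P ∈ above B w, w.asIdeal.ramificationIdx' P.asIdeal = 1)
    (hpsi : ∀ w ∉ S, H7.Z.Unram w) (chi : Ideal (𝓞 B) →*₀ ℂ) (a : HeightOneSpectrum (𝓞 E) → ℤ)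
    (hchiS : ∀ P : HeightOneSpectrum (𝓞 B), chi P.asIdeal = 0 ↔
      P ∈ aboveSet B (S : Set (HeightOneSpectrum (𝓞 E))))
    (hchi4 : ∀ P ∉ aboveSet B (S : Set (HeightOneSpectrum (𝓞 E))), chi P.asIdeal ^ 4 = 1)
    (hchim : ∃ m : Ideal (𝓞 B), m ≠ ⊥ ∧ (∀ P : HeightOneSpectrum (𝓞 B), m ≤ P.asIdeal ↔
      P ∈ aboveSet B (S : Set (HeightOneSpectrum (𝓞 E)))) ∧
        ∀ x : 𝓞 B, x - 1 ∈ m → chi (Ideal.span {x}) = 1)
    (hchiE : ∀ w ∉ S, (NonSplit B w → chi (w.asIdeal.map (algebraMap (𝓞 E) (𝓞 B))) = -1) ∧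
      (¬ NonSplit B w → chi (w.asIdeal.map (algebraMap (𝓞 E) (𝓞 B))) = 1))
    (hgood : ∀ w ∉ S, H33D.IsGoodFor chi w.asIdeal ((a w : ℤ) : ℂ)) :
    ∃ k c₀ : ℕ, ∀ (J : Type) [Fintype J] (m : H59D.Model E J)
      (T : HeightOneSpectrum (𝓞 E) → H76U.TD E) (Ty : ∀ w, H76U.Typ (m.L.fam.U w)),
      (∀ w ∈ S, H55D.Adm w (T w) k c₀) → (∀ w ∈ S, (Ty w).H = (T w).H) →
      (∀ w ∈ S, ∀ g ∈ (T w).H, (Ty w).chi g = (T w).chi g) → (∀ w ∉ S, m.L.U w = H59D.U0 w) →
      ∃ Φ : m.X → ℂ, H55D.IsDForm m S Ty (fun w => ((a w : ℤ) : ℝ)) Φ :=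
  H16D.fin_of H18D.outerEx H16D.nbarEx E B S chi a ⟨inferInstance, inferInstance, hdeg, inferInstance,
    hS, h2, hunr, hpsi, hchiS, hchi4, hchim, hchiE, hgood⟩

/-- **Finiteness of the bad places.**  Only finitely many places `w` of a number field have a
ramified additive character `psi w` (those dividing the different over `ℤ`).  In `H36Psi`; with the
finiteness of the places above `2` and of those ramified in `K` this gives the number `N₁` of
`blockD`. -/
theorem finite_ramified (E : Type) [Field E] [NumberField E] :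
    {w : HeightOneSpectrum (𝓞 E) | ¬ H7.Z.Unram w}.Finite :=
  H36.Psi.finite_not_unram

/-- **Block (D).**  For every `ρ` (datum `D : H3G.RD`, see `tower_of_rho` in the first part) there is
`N₁ ≠ 0` such that for all multiples `N₀ ≠ 0` of `N₁`, with `S` the set of the places of `E` dividing
`N₀`, the form exists for all deep types at `S`: there are `k`, `c₀` such that for every model `m`
over `E`, of maximal level outside `S`, and all lattice data `T_w` at `w ∈ S` with `psi = psi w`,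
`A ⊂ w ^ k`, `w ^ n ⊂ A` and `C ⊂ w ^ (2 n + c₀)` for some `n` there is a function `Φ` on `m.X` with
the properties of `isDForm_iff`, with Hecke eigenvalues `(N w)^(1/2) a_w`, `a_w = awR D w` (see
`awR_eq` in the first part).  Proved in `H16D4`, `H16D8`: choose `i`, take the tower
`E ⊂ B ⊂ B' ⊂ K` of `tower_of_rho`, and apply `exists_chi_good` and `form_of_character`.  Block (C)
starts from this statement. -/
theorem blockD (D : H3G.RD) : ∃ N₁ : ℕ, N₁ ≠ 0 ∧ ∀ N₀ : ℕ, N₀ ≠ 0 → N₁ ∣ N₀ →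
    ∃ k c₀ : ℕ, ∀ (J : Type) [Fintype J] (m : H59D.Model D.E J)
      (T : HeightOneSpectrum (𝓞 D.E) → H76U.TD D.E) (Ty : ∀ w, H76U.Typ (m.L.fam.U w)),
      (∀ w ∈ H46Z.divs D.E N₀, H55D.Adm w (T w) k c₀) →
      (∀ w ∈ H46Z.divs D.E N₀, (Ty w).H = (T w).H) →
      (∀ w ∈ H46Z.divs D.E N₀, ∀ g ∈ (T w).H, (Ty w).chi g = (T w).chi g) →
      (∀ w ∉ H46Z.divs D.E N₀, m.L.U w = H59D.U0 w) →
      ∃ Φ : m.X → ℂ, H55D.IsDForm m (H46Z.divs D.E N₀) Ty (H46Z.awR D) Φ :=
  H16D.blockD D

end Fermat.Agent.Guide.OctDForm
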