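import Fermat.Agent.H16D8

/-!
# Reader's guide: block (D) of S47, second part: the theta kernel

**Statement served:** S47, block (D).  First part of this guide: `GuideOctD` (the tower of fields, the
quartic Hecke character `chi` of `B`, the Fourier series and its evident properties, conventions);
third part: `GuideOctDForm` (assembly).  Every library theorem cited below is used in the proof of
S47.  In prose: NOTES section 8 and note [441]; details in [405] (archimedean analysis), [408]
(Poisson summation), [437], [474] (`REL`, auxiliary element), [473] (duality), [444], [478] (Gauss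
sums), [447] (relative units), [461], [477] (unfolding), [464] (volumes), [468] (theta kernel).
The steps of the proofs as further theorems: `GuidePoisson` (Gaussian functions, Poisson summation),
`GuideThetaSeries` (convergence, unfolding, coefficients; section 7: auxiliary element, series),
`GuideThetaGauss` (the unramified Gauss sums outside `S`: lattices of divisors, completing the square,
the key identity), `GuideThetaFinite` (the computation at the finite places).

**What remains to be done after the first part.**  The function `F(z, y) = FF d y z` on the part of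
the space outside the bad places `S` is a Fourier series.  Its behaviour under upper triangular
matrices is evident.  The space of automorphic forms requires in addition the invariance under the
lower unipotent elements `n̄(c) = (1 0; c 1)` with `c ∈ E` close to `0` at the places of `S`
(`lower_unipotent`, the last theorem of this file).

**The proof.**  The coefficients of the series are sums over ideals of `B` of given norm.  Summing
also over `α` one gets a sum over the elements `x ∈ B` modulo units of relative norm one which are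
congruent to `1` above `S`, with `α = N x`; and the Whittaker function
`y K₀(4π|N x| y) e(2 Re(N x z))` is an integral over `s ∈ ℝ` of Gaussian functions of `x` and its
conjugate (`integral_gterm`).  So the series is a finite sum of integrals of theta kernels
`θ(A, D, u, h; w, s)` of the quadratic form `N : B → E` (`coefficient_identity`, `unfolding`), and it
suffices that the theta kernel is invariant.  By Poisson summation (`poisson`) this is an identity
between Fourier transforms of functions on `B` which are locally constant for the topology of the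
finite places; outside `S` it is a computation of Gauss sums (`quadratic_means` to
`fourier_transform`), and at `S` it holds because `c` is small (`norm_support`).  Altogether:
`theta_invariant`, `series_of_theta`, `lower_unipotent`.  The proof uses Poisson summation and Gauss
sums directly; it does not use the Weil representation.

**Reading order.**  (a) Lattices and the theta kernel: `integral_gterm` to `theta_eq`; (b) unfolding:
`relative_units` to `series_zero`; (c) invariance of the theta kernel: `relation_at_one_place` to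
`theta_invariant`; (d) conclusion: `relation_rules` to `lower_unipotent`.

Theorems whose names end in `_eq` or `_notions` only unfold definitions of the library.  Conventions
as in the first part; in particular `w.valuation E x ≤ exp (-n)` says that `x` has order at least `n`
at `w`, `FI K` is the group of the fractional ideals of `K`, `aN` the absolute norm,
`d : H71D.DD E B J` the data of the series (`good_iff`), `L : LevelFam` a family of levels with its
space `XF L`, `m : H59D.Model E J` a model (both in `spaces`), and there are no hidden hypotheses.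
-/

set_option autoImplicit false

noncomputable section

namespace Fermat.Agent.Guide.OctDTheta

open IsDedekindDomain NumberField WithZero Matrix FractionalIdeal
open scoped nonZeroDivisors MatrixGroups
open Fermat.Agent
open Fermat.Agent.H47 (smulPlace below)
open Fermat.Agent.H82 (above aboveSet NonSplit congr)
open Fermat.Agent.H7.Z (psi ee)

/-! ## (a) Lattices and the theta kernel -/

/-- **The Gauss integral.**  For `p_j, q_j ∈ ℂˣ` the integral over `s ∈ ℝ^J` of
`∏_j y_j exp(-2π y_j (|p_j|² e^(2 s_j) + |q_j|² e^(-2 s_j))) e(2 Re(p_j q_j z_j))` is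
`∏_j y_j K₀(4π|p_j q_j| y_j) e(2 Re(p_j q_j z_j))`.  So the term of the Fourier series at `α` is an
integral of Gaussian terms as soon as `α = p q`, in particular for `α = N x = x · τ x`.  Proved in
`H53Z1`. -/
theorem integral_gterm (J : Type) [Fintype J] (w : J → H3) (p q : J → ℂ) (hp : ∀ j, p j ≠ 0)
    (hq : ∀ j, q j ≠ 0) :
    ∫ s : J → ℝ, ∏ j, ((((w j).y * Real.exp (-(2 * Real.pi * (w j).y *
        (‖p j‖ ^ 2 * Real.exp (2 * s j) + ‖q j‖ ^ 2 * Real.exp (-2 * s j)))) : ℝ) : ℂ) *
        Complex.exp (2 * Real.pi * Complex.I * ((2 * (p j * q j * (w j).z).re : ℝ) : ℂ))) =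
      ∏ j, ((((w j).y * H22Z.K0 (4 * Real.pi * ‖p j * q j‖ * (w j).y) : ℝ) : ℂ) *
        Complex.exp (2 * Real.pi * Complex.I * ((2 * (p j * q j * (w j).z).re : ℝ) : ℂ))) :=
  H53Z.integral_gterm w hp hq

/-- **Lattices.**  `FI K` is the group of the fractional ideals of `K`, `cE A w` the order of `A` at
`w`.  `RB B S δ` is the lattice of the `x ∈ B` with order at least `δ P` at all `P` not above `S`,
`dlt D h` the orders of the ideal `D h̄⁻¹` of `B` (`h̄` = conjugate of `h`).  `IsNm S τ h n`: the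
ideal `h` of `B` is prime to the places above `S` and has norm with the orders `n` outside `S`.
`REL S c A D u A₁ D₁ u₁`: the lower unipotent element `n̄(c) = (1 0; c 1)` maps the lattice
`{(x, y) : y ∈ D, x - u y ∈ A}` (outside `S`) to the lattice with the data `(A₁, D₁, u₁)`.
Definitions in `H71UDefs`. -/
theorem lattice_notions (E B J : Type) [Field E] [NumberField E] [Field B] [NumberField B]
    [Algebra E B] [Fintype J] (d : H71D.DD E B J) (S : Finset (HeightOneSpectrum (𝓞 E)))
    (δ : HeightOneSpectrum (𝓞 B) → ℤ) (n : HeightOneSpectrum (𝓞 E) → ℤ) (x : B) (h : H71D.FI B)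
    (A D A₁ D₁ : H71D.FI E) (c u u₁ : E) (w : HeightOneSpectrum (𝓞 E)) (P : HeightOneSpectrum (𝓞 B)) :
    H71D.cE A w = count E w (A : FractionalIdeal (𝓞 E)⁰ E) ∧
    (x ∈ H71D.RB B S δ ↔ ∀ P ∉ aboveSet B (S : Set (HeightOneSpectrum (𝓞 E))),
      P.valuation B x ≤ exp (-δ P)) ∧
    d.dlt D h P = H71D.cE D (below E P) - H71D.cE h (smulPlace d.tau P) ∧
    (H71D.IsNm S d.tau h n ↔
      (∀ P ∈ aboveSet B (S : Set (HeightOneSpectrum (𝓞 E))), H71D.cE h P = 0) ∧
      ∀ P ∉ aboveSet B (S : Set (HeightOneSpectrum (𝓞 E))),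
        H71D.cE h P + H71D.cE h (smulPlace d.tau P) = n (below E P)) ∧
    (H71D.REL S c A D u A₁ D₁ u₁ ↔ ∀ x y : E,
      ((∀ w ∉ S, w.valuation E y ≤ exp (-H71D.cE D w)) ∧
        ∀ w ∉ S, w.valuation E (x - u * y) ≤ exp (-H71D.cE A w)) ↔
      ((∀ w ∉ S, w.valuation E (c * x + y) ≤ exp (-H71D.cE D₁ w)) ∧
        ∀ w ∉ S, w.valuation E (x - u₁ * (c * x + y)) ≤ exp (-H71D.cE A₁ w))) :=
  ⟨rfl, Iff.rfl, rfl, ⟨fun h => ⟨h.prime, h.norm⟩, fun h => ⟨h.1, h.2⟩⟩, Iff.rfl⟩

/-- **What `n̄(c)` does to coordinates.**  Let `y` have the coordinates `(e, u)` and `n̄(c) y` the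
coordinates `(e₁, u₁)`, in the sense of `exists_coordinates` of the first part.  Then there are
integers `f w`, zero at `S` and almost everywhere, with `e₁ = e - 2 f`, and `REL` holds for
`D = 1`, `A = ∏ w ^ (e w)`, `D₁ = ∏ w ^ (f w)`, `A₁ = ∏ w ^ (e₁ w + f w)`.  So `A/D` and `A₁/D₁` are
the ideals of the coordinates, and `A D = A₁ D₁`.  Proved in `H99D1`. -/
theorem relation_of_translate (E : Type) [Field E] [NumberField E]
    (S : Finset (HeightOneSpectrum (𝓞 E)))
    (L : H59XF.LevelFam PGL(2, E) {w : HeightOneSpectrum (𝓞 E) // w ∉ S})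
    (hL : ∀ w, L.U w = H59D.U0 w.1) (y : H59XF.XF L) (c : E)
    (e e₁ : HeightOneSpectrum (𝓞 E) → ℤ) (u u₁ : E) (he : ∀ w ∈ S, e w = 0)
    (he₁ : ∀ w ∈ S, e₁ w = 0)
    (hy : ∀ (w : HeightOneSpectrum (𝓞 E)) (hw : w ∉ S) (t : Eˣ), w.valuation E (t : E) = exp (-e w) →
      y ⟨w, hw⟩ = ((ProjGenLinGroup.mk (H51Z.bm t u) : PGL(2, E)) : PGL(2, E) ⧸ L.U ⟨w, hw⟩))
    (hy₁ : ∀ (w : HeightOneSpectrum (𝓞 E)) (hw : w ∉ S) (t : Eˣ),
      w.valuation E (t : E) = exp (-e₁ w) →
      ((ProjGenLinGroup.mk (H76U.lM c) : PGL(2, E)) • y) ⟨w, hw⟩ =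
        ((ProjGenLinGroup.mk (H51Z.bm t u₁) : PGL(2, E)) : PGL(2, E) ⧸ L.U ⟨w, hw⟩)) :
    ∃ f : HeightOneSpectrum (𝓞 E) → ℤ, {w | f w ≠ 0}.Finite ∧ (∀ w ∈ S, f w = 0) ∧
      e₁ = e - 2 • f ∧ ∀ x z : E,
        ((∀ w ∉ S, w.valuation E z ≤ 1) ∧ ∀ w ∉ S, w.valuation E (x - u * z) ≤ exp (-e w)) ↔
        ((∀ w ∉ S, w.valuation E (c * x + z) ≤ exp (-f w)) ∧
          ∀ w ∉ S, w.valuation E (x - u₁ * (c * x + z)) ≤ exp (-(e₁ w + f w))) :=
  H99D.rel_of_isCo hL ⟨he, hy⟩ ⟨he₁, hy₁⟩

open Classical in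
/-- **The theta kernel (Y).**  For fractional ideals `A`, `D` of `E`, `u ∈ E` and an ideal `h` of `B`
the kernel is the sum over the `x ∈ B` which lie in `VS` and in the lattice `D h̄⁻¹` of
`ω(D) N(A/D)^(-1/2) psS(u N x)` times the Gaussian term `H53Z.gterm w s p q`, the integrand of
`integral_gterm`, with `p_j = b_j(x)`, `q_j = b_j(τ x)`; `ω` is the quadratic character of `B/E` (the
product `ω(D)` written out here is `H71D.om B S D`).  Definition in `H71UDefs`. -/
theorem theta_eq (E B J : Type) [Field E] [NumberField E] [Field B] [NumberField B] [Algebra E B]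
    [Fintype J] (d : H71D.DD E B J) (A D : H71D.FI E) (u : E) (h : H71D.FI B) (w : J → H3)
    (s : J → ℝ) :
    d.theta A D u h w s = ∑' x : B,
      (if x ∈ d.VS ∧ x ∈ H71D.RB B d.S (d.dlt D h) then
        (∏ᶠ v : HeightOneSpectrum (𝓞 E), (if v ∉ d.S ∧ NonSplit B v then (-1 : ℂ) else 1) ^
          (H71D.cE D v)) * (((H71D.aN (A * D⁻¹)) ^ (-(1 / 2) : ℝ) : ℝ) : ℂ) *
          H71D.psS d.S (u * Algebra.norm E x)
      else 0) * H53Z.gterm w s (fun j => d.b j x) (fun j => d.b j (d.tau x)) :=
  rfl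

/-! ## (b) Unfolding -/

/-- **Relative units.**  `B/E` quadratic with conjugation `τ`, both totally complex, `b_j` an
extension to `B` of the embedding `e_j` of `E`, one for each infinite place.  For an ideal `m ≠ 0` of
`B` let `U1 τ m` be the group of the units `ε` of `B` with `ε τ(ε) = 1` and `ε ≡ 1` modulo `m`.  The
vectors `(log |b_j(ε)|)_j`, `ε ∈ U1 τ m`, are cocompact in `ℝ^J`, and only finitely many `ε` have a
vector in a given bounded set: Dirichlet's unit theorem for the torus of the elements of relative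
norm one.  Proved in `H73U1`. -/
theorem relative_units (E B J : Type) [Field E] [NumberField E] [IsTotallyComplex E] [Field B]
    [NumberField B] [IsTotallyComplex B] [Algebra E B] [Fintype J] (e : J → (E →+* ℂ))
    (b : J → (B →+* ℂ)) (τ : B ≃ₐ[E] B) (hb : ∀ j, (b j).comp (algebraMap E B) = e j)
    (he : Function.Bijective fun j => InfinitePlace.mk (e j)) (hτ : τ ≠ 1)
    (h2 : Module.finrank E B = 2) (m : Ideal (𝓞 B)) (hm : m ≠ ⊥) :
    (∀ u : (𝓞 B)ˣ, u ∈ H73U.U1 τ m ↔
      ((u : 𝓞 B) : B) * τ ((u : 𝓞 B) : B) = 1 ∧ (u : 𝓞 B) - 1 ∈ m) ∧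
    (∃ C : ℝ, 0 ≤ C ∧ ∀ s : J → ℝ, ∃ u ∈ H73U.U1 τ m,
      ∀ j, |s j + Real.log ‖b j ((u : 𝓞 B) : B)‖| ≤ C) ∧
    ∀ C : ℝ, {u : (𝓞 B)ˣ | u ∈ H73U.U1 τ m ∧
      ∀ j, |Real.log ‖b j ((u : 𝓞 B) : B)‖| ≤ C}.Finite :=
  ⟨fun _ => Iff.rfl, H73U.cocompact e b τ hb he hτ h2 m hm, H73U.finite_U1 e b τ hb he hτ h2 m⟩

open Classical in
/-- **The coefficients as sums over elements of `B`.**  Let `n` be a fractional ideal of `E` prime to
`S` which is the norm of an ideal of `B` (`IsNm`).  There are finitely many ideals `h_i` of norm `n`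
and numbers `g_i` (values of `chi`) such that, for all `A`, `D` prime to `S` with `A D = n` outside
`S` and all `α ∈ US`, the coefficient `cf(α A/D)` is the sum of `g_i ω(D)` over the pairs `(i, x)`,
`x` in a system of representatives of `Bˣ` modulo the group `U1` of `relative_units` for the ideal
`d.idm` (intersection of the `P ^ n2`, `P` above `S`), with `x ∈ VS`, `x ∈ D h̄_i⁻¹` outside `S`, and
`N x = α`.  Idea: `x ↦ x h̄_i / D` maps these pairs bijectively to the ideals of norm `α A/D`.  Proved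
in `H33DUnf`, `H87VFin`; here `(H71U.incl d.tau d.idm).range` is the image of `U1` in `Bˣ`. -/
theorem coefficient_identity (E B J : Type) [Field E] [NumberField E] [Field B] [NumberField B]
    [Algebra E B] [Fintype J] (d : H71D.DD E B J) (hd : d.Good) (n : H71D.FI E)
    (hn : ∀ w ∈ d.S, H71D.cE n w = 0) (h₀ : H71D.FI B)
    (hh₀ : H71D.IsNm d.S d.tau h₀ (H71D.cE n)) :
    ∃ (ι : Type) (_ : Fintype ι) (h : ι → H71D.FI B) (g : ι → ℂ),
      (∀ i, H71D.IsNm d.S d.tau (h i) (H71D.cE n)) ∧
      ∀ A D : H71D.FI E, (∀ w ∈ d.S, H71D.cE A w = 0 ∧ H71D.cE D w = 0) →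
        (∀ w ∉ d.S, H71D.cE (A * D) w = H71D.cE n w) → ∀ α ∈ d.US,
        HasSum (fun p : {p : ι × (Bˣ ⧸ (H71U.incl d.tau d.idm).range) //
            ((p.2.out : Bˣ) : B) ∈ d.VS ∧
            ((p.2.out : Bˣ) : B) ∈ H71D.RB B d.S (d.dlt D (h p.1)) ∧
            Units.map (Algebra.norm E : B →* E) (p.2.out : Bˣ) = α} =>
          g p.1.1 * H71D.om B d.S D)
        (H33D.cf d.chi (spanSingleton (𝓞 E)⁰ (α : E) *
          ((A * D⁻¹ : H71D.FI E) : FractionalIdeal (𝓞 E)⁰ E))) :=
  H87V.hcoef hd hn ⟨h₀, hh₀⟩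

/-- **Unfolding.**  Let `n` be an ideal of `E` prime to `S` which is the norm of an ideal `h₀` of `B`
(`IsNm`).  Then there are finitely many ideals `h_i` of norm `n`, constants `g_i` and a continuous
function `c ≥ 0` with compact support on `ℝ^J` such that for all `A`, `D` with `A D = n` the series
of `ser_eq` at `a = A/D` is the combination
`ser(A/D, u, w) = ∑_i g_i ∫ c(s) θ(A, D, u, h_i; w, s) ds` of integrals of theta kernels.  Idea: by
`coefficient_identity` the series is a sum over the elements `x ∈ B` modulo the units `ε` of relative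
norm one which are congruent to `1` above `S`; by `integral_gterm` the term of `x` is an integral over
`ℝ^J`, and this is the sum over `ε` of the integrals of the Gaussian terms of `ε x` against a cut-off
function `c` whose translates by the vectors of `relative_units` have sum one.  The steps are
`summation_over_norms` and `stability_under_units` of `GuideThetaSeries`.  Proved in `H87UFold`
(cut-off), `H71U1`, `H71U2`, `H71U3`. -/
theorem unfolding (E B J : Type) [Field E] [NumberField E] [Field B] [NumberField B] [Algebra E B]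
    [Fintype J] (d : H71D.DD E B J) (hd : d.Good) (n : H71D.FI E)
    (hn : ∀ w ∈ d.S, H71D.cE n w = 0) (h₀ : H71D.FI B)
    (hh₀ : H71D.IsNm d.S d.tau h₀ (H71D.cE n)) :
    ∃ (ι : Type) (_ : Fintype ι) (h : ι → H71D.FI B) (g : ι → ℂ) (c : (J → ℝ) → ℝ) (R : ℝ),
      (Continuous c ∧ (∀ s, 0 ≤ c s) ∧ ∀ s, (∃ j, R < |s j|) → c s = 0) ∧
      (∀ i, H71D.IsNm d.S d.tau (h i) (H71D.cE n)) ∧
      ∀ A D : H71D.FI E, (∀ w ∈ d.S, H71D.cE A w = 0 ∧ H71D.cE D w = 0) →
        (∀ w ∉ d.S, H71D.cE (A * D) w = H71D.cE n w) → ∀ (u : E) (w : J → H3),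
        d.ser (A * D⁻¹) u w = ∑ i, g i * ∫ s : J → ℝ, (c s : ℂ) * d.theta A D u (h i) w s :=
  let ⟨ι, hι, x, h, g, c, hc, hx, H⟩ := H71D.unfold hd (H87V.hcoef hd hn ⟨h₀, hh₀⟩)
  ⟨ι, hι, x, h, g, c, ⟨hc.cont, hc.nonneg, hc.supp⟩, hx, H⟩

/-- **The remaining components.**  If no ideal `α A D`, `α ∈ US`, is the norm of an ideal of `B` (prime
to `S`), then all coefficients are empty sums and the series vanishes at `(A, D, u)`; `pE α` is the
principal ideal `(α)`.  For the other components one replaces `A` by `α A` and applies `unfolding`.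
Proved in `H87VZero`. -/
theorem series_zero (E B J : Type) [Field E] [NumberField E] [Field B] [NumberField B] [Algebra E B]
    [Fintype J] (d : H71D.DD E B J) (hd : d.Good) (A D : H71D.FI E)
    (hS : ∀ w ∈ d.S, H71D.cE A w = 0 ∧ H71D.cE D w = 0)
    (hno : ∀ α ∈ d.US, ∀ h : H71D.FI B,
      ¬ H71D.IsNm d.S d.tau h (H71D.cE (H87V.pE α * (A * D)))) (u : E) (w : J → H3) :
    d.ser (A * D⁻¹) u w = 0 :=
  H87V.zeroSer hd A D hS hno u w

/-! ## (c) Invariance of the theta kernel -/

/-- **The relation at one place.**  `Q w a d u c` is the lattice of the `(x, y) ∈ E²` with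
`c x + y ∈ w^d` and `x - u (c x + y) ∈ w^a` (at the place `w`).  The relation `REL` says that two such
lattices outside `S`, for `(A, D, u, 0)` and `(A₁, D₁, u₁, c)`, are equal; by strong approximation they
are then equal at every place outside `S`.  Definition of `Q` and proof in `H12Rel`. -/
theorem relation_at_one_place (E : Type) [Field E] [NumberField E]
    (S : Finset (HeightOneSpectrum (𝓞 E))) (A D A₁ D₁ : H71D.FI E) (u c u₁ : E)
    (hrel : H71D.REL S c A D u A₁ D₁ u₁) (w : HeightOneSpectrum (𝓞 E)) (hw : w ∉ S) (x y : E) :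
    (∀ (a d : ℤ) (u c : E), H12R.Q w a d u c x y ↔
      w.valuation E (c * x + y) ≤ exp (-d) ∧ w.valuation E (x - u * (c * x + y)) ≤ exp (-a)) ∧
    (H12R.Q w (H71D.cE A w) (H71D.cE D w) u 0 x y ↔
      H12R.Q w (H71D.cE A₁ w) (H71D.cE D₁ w) u₁ c x y) :=
  ⟨fun _ _ _ _ => Iff.rfl, H12R.REL.local hrel hw x y⟩

/-- **The condition on the auxiliary element.**  `Cnd w a d u c u₂` says that `(0, y + u₂ x)` is in the
lattice `Q w a d u c` for all `(x, y)` in it, i.e. that `y + u₂ x` has order at least `a - g`, where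
`g` is the order of `w^(a-d) + (u)` (`exp (-g)` is the maximum written).  If it holds for `c = 0`,
then `u₂` is an approximate inverse `-1/u` of `u` as in `exists_auxiliary`; and there is one element
of `E` which satisfies it, for given `A`, `D`, `u` and `c = 0`, at all places.  In `H12Rel`. -/
theorem auxiliary_condition (E : Type) [Field E] [NumberField E] (w : HeightOneSpectrum (𝓞 E))
    (a d : ℤ) (u c u₂ : E) (A D : H71D.FI E) :
    (H12R.Cnd w a d u c u₂ ↔ ∀ x y : E, H12R.Q w a d u c x y →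
      w.valuation E (y + u₂ * x) * max (w.valuation E u) (exp (d - a)) ≤ exp (-a)) ∧
    (∀ y : E, H12R.Q w a d u c 0 y ↔
      w.valuation E y * max (w.valuation E u) (exp (d - a)) ≤ exp (-a)) ∧
    (H12R.Cnd w a d u 0 u₂ → w.valuation E u₂ ≤ exp (-(d - a)) ∧ w.valuation E (u * u₂) ≤ 1 ∧
      w.valuation E ((1 + u * u₂) * u) ≤ exp (d - a)) ∧
    ∃ u₂' : E, ∀ v, H12R.Cnd v (H71D.cE A v) (H71D.cE D v) u 0 u₂' :=
  ⟨Iff.rfl, fun _ => H12R.zero_mem_iff, fun h => h.good, H12R.exists_u₂ A D u⟩

/-- **The auxiliary element.**  If `(A, D, u)` and `(A₁, D₁, u₁)` are related by `n̄(c)`, then there is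
one element `u₂` of `E` which outside `S` is an approximate inverse `-1/u` of `u` modulo `A/D`:
`u₂ ∈ D/A`, `u u₂` is integral and `(1 + u u₂) u ∈ A/D`; and `u₂ - c` has the same properties with
respect to `u₁` and `A₁/D₁`.  The integers `g w`, `g₁ w` are the orders of the ideals `A/D + (u)`,
`A₁/D₁ + (u₁)`; outside `S` one has `D (A/D + (u)) = D₁ (A₁/D₁ + (u₁))` and `A D = A₁ D₁`, because
`n̄(c)` has determinant one and does not change the first coordinate of the vectors of the lattice
`{(x, y) : y ∈ D, x - u y ∈ A}`.  Proved in `H12Rel`: `REL` is equivalent to the same relation at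
every place outside `S`; at one place take `u₂ = 0` if `u ∈ A/D` and `u₂ = -1/u` otherwise; strong
approximation gives one `u₂` for all places; finally the condition on `u₂`, namely that `y + u₂ x`
lies in `{y : (0, y) in the lattice}` for all `(x, y)` in the lattice, depends only on the lattice,
and `u₂ x + y = (u₂ - c) x + (c x + y)`.  (The orders and the solution at one place: section 7 of
`GuideThetaSeries`.) -/
theorem exists_auxiliary (E : Type) [Field E] [NumberField E]
    (S : Finset (HeightOneSpectrum (𝓞 E))) (A D A₁ D₁ : H71D.FI E) (u c u₁ : E)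
    (hrel : H71D.REL S c A D u A₁ D₁ u₁) :
    ∃ (u₂ : E) (g g₁ : HeightOneSpectrum (𝓞 E) → ℤ),
      (∀ w ∉ S, exp (-g w) = max (w.valuation E u) (exp (H71D.cE D w - H71D.cE A w)) ∧
        w.valuation E u₂ ≤ exp (-(H71D.cE D w - H71D.cE A w)) ∧ w.valuation E (u * u₂) ≤ 1 ∧
        w.valuation E ((1 + u * u₂) * u) ≤ exp (H71D.cE D w - H71D.cE A w)) ∧
      (∀ w ∉ S, exp (-g₁ w) = max (w.valuation E u₁) (exp (H71D.cE D₁ w - H71D.cE A₁ w)) ∧
        w.valuation E (u₂ - c) ≤ exp (-(H71D.cE D₁ w - H71D.cE A₁ w)) ∧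
        w.valuation E (u₁ * (u₂ - c)) ≤ 1 ∧
        w.valuation E ((1 + u₁ * (u₂ - c)) * u₁) ≤ exp (H71D.cE D₁ w - H71D.cE A₁ w)) ∧
      (∀ w ∉ S, g w + H71D.cE D w = g₁ w + H71D.cE D₁ w ∧
        H71D.cE A w + H71D.cE D w = H71D.cE A₁ w + H71D.cE D₁ w) ∧
      {w | g w ≠ 0}.Finite ∧ {w | g₁ w ≠ 0}.Finite :=
  H12R.exists_goodU hrel

/-- **Poisson summation.**  `SF (OLat B)` is the space of the functions `φ` on `B` for which there is
`m ≠ 0` such that `φ` has support in `m⁻¹ 𝓞_B` and is periodic modulo `m 𝓞_B`; `HIfun` is the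
invariant mean on this space with value `1` at the characteristic function of `𝓞_B`.  If the Fourier
transforms of `φ` and `φ₁` for the pairing `er(tr(x τ(y)))`, `er r = exp(2πi r)`, differ by the factor
`er(-tr(c N x))`, then the theta series of `φ` at `w` is the one of `φ₁` at `n̄(c) w = d.nbAct c w`.
(Write `n̄(c)` as the conjugate of `n(-c)` by the inversion and apply Poisson's formula twice: this
is the only part of the Weil representation which is needed.)  Proved in `H13ZA`. -/
theorem poisson (E B J : Type) [Field E] [NumberField E] [Field B] [NumberField B] [Algebra E B]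
    [Fintype J] (d : H71D.DD E B J) (hd : d.Good) (c : E) (φ φ₁ : B → ℂ)
    (hφ : φ ∈ H66D.SF (H66D.OLat B)) (hφ₁ : φ₁ ∈ H66D.SF (H66D.OLat B))
    (h : ∀ x : B, H66D.HIfun (H66D.OLat B) (fun y =>
        H13Z.er ((Algebra.trace ℚ B (x * d.tau y) : ℚ) : ℝ) * φ y) =
      H13Z.er (-((Algebra.trace ℚ E (c * Algebra.norm E x) : ℚ) : ℝ)) *
        H66D.HIfun (H66D.OLat B) (fun y =>
          H13Z.er ((Algebra.trace ℚ B (x * d.tau y) : ℚ) : ℝ) * φ₁ y))
    (w : J → H3) (s : J → ℝ) :
    (∑' x : B, φ₁ x * H53Z.gterm (d.nbAct c w) s (fun j => d.b j x) (fun j => d.b j (d.tau x))) =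
      ∑' x : B, φ x * H53Z.gterm w s (fun j => d.b j x) (fun j => d.b j (d.tau x)) :=
  H13Z.nb_red hd hφ hφ₁ h w s

/-- **Means over finite quotients.**  For additive groups `L' ⊂ L` with finite quotient and a function
`f` on `L` which is periodic modulo `L'`, `mean L L' f` is the mean value of `f` over `L / L'`.  All
Gauss sums of the block are written as means, so that they do not depend on the sublattice `L'`.
Definition in `H78Key`. -/
theorem mean_eq (B : Type) [AddCommGroup B] (L L' : AddSubgroup B) (f : B → ℂ) :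
    H78G.mean L L' f = (Nat.card (L ⧸ L'.addSubgroupOf L) : ℂ)⁻¹ *
      ∑ᶠ q : L ⧸ L'.addSubgroupOf L, f (q.out : L) :=
  rfl

/-- **Quadratic means: the general identity.**  `D : H78G.NT E B` is a quadratic form `N : B → E` with
polar form `T`, `R ⊂ E` a subring on which the additive character `ψ` is trivial, `b ⊂ B` a lattice,
`L' ⊂ b` a sublattice on which `u N` and `u T(·, b)` have values in `R`.  Let `ξ = u η + δ` with
`η ∈ b`, `T(b, δ) ⊂ R`, and let `u'` be an approximate inverse `-1/u`: `u u' ∈ R`, `u' N(δ) ∈ R`,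
`(1 + u u') u N(η) ∈ R`.  Then the mean over `b / L'` of `ψ(u N(x) - T(x, ξ))` is `ψ(u' N(ξ))` times
the mean of `ψ(u N(x))`.  This is completing the square, without division by `u`.  In `H78Key`. -/
theorem quadratic_means (E B : Type) [Field E] [Field B] [Algebra E B] (D : H78G.NT E B)
    (ψ : AddChar E ℂ) (R : Subring E) (hψ : ∀ z ∈ R, ψ z = 1) (b L' : AddSubgroup B) (u u' : E)
    (hL' : ∀ x ∈ L', x ∈ b ∧ (∀ y ∈ b, u * D.T x y ∈ R) ∧ u * D.N x ∈ R)
    (hfin : Finite (b ⧸ L'.addSubgroupOf b)) (η δ : B) (hη : η ∈ b) (hδ : ∀ x ∈ b, D.T x δ ∈ R)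
    (hδN : u' * D.N δ ∈ R) (huu : u * u' ∈ R) (huN : (1 + u * u') * (u * D.N η) ∈ R) :
    H78G.mean b L' (fun x => ψ (u * D.N x - D.T x (u • η + δ))) =
      ψ (u' * D.N (u • η + δ)) * H78G.mean b L' (fun x => ψ (u * D.N x)) :=
  H78G.mean_key hψ (fun x hx => hL' x hx) hη hδ hδN huu huN

/-- **Quadratic means: outside the support.**  Same notation.  If there is `x₀ ∈ b` on which the form
is degenerate (`u N(x₀) ∈ R`, `u T(x₀, b) ⊂ R`) and `ψ(T(x₀, ξ)) ≠ 1`, then the mean over `b / L'` of
`ψ(u N(x) - T(x, ξ))` is zero.  (Substitute `x + x₀` for `x`.)  In `H78Key`. -/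
theorem quadratic_means_zero (E B : Type) [Field E] [Field B] [Algebra E B] (D : H78G.NT E B)
    (ψ : AddChar E ℂ) (R : Subring E) (hψ : ∀ z ∈ R, ψ z = 1) (b L' : AddSubgroup B) (u : E)
    (hfin : Finite (b ⧸ L'.addSubgroupOf b)) (ξ x₀ : B)
    (hper : ∀ l ∈ b, ∀ l' ∈ L', ψ (u * D.N (l + l') - D.T (l + l') ξ) = ψ (u * D.N l - D.T l ξ))
    (hx₀ : x₀ ∈ b ∧ (∀ y ∈ b, u * D.T x₀ y ∈ R) ∧ u * D.N x₀ ∈ R) (hξ : ψ (D.T x₀ ξ) ≠ 1) :
    H78G.mean b L' (fun x => ψ (u * D.N x - D.T x ξ)) = 0 :=
  H78G.mean_key_zero hψ hper hx₀ hξ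

/-- **Duality of lattices outside `S`.**  Suppose that `psi w` is unramified for `w ∉ S`, and let `δ`
be integers, almost all zero.  If `y` has not order at least `-δ w` for all `w ∉ S`, then there is `x`
of order at least `δ w` for all `w ∉ S` with `psS(x y) ≠ 1`.  This gives the `x₀` of the preceding
theorem.  Proved in `H78RL` from the duality at one place and approximation. -/
theorem lattice_duality (K : Type) [Field K] [NumberField K] (S : Finset (HeightOneSpectrum (𝓞 K)))
    (hun : ∀ w ∉ S, H7.Z.Unram w) (δ : HeightOneSpectrum (𝓞 K) → ℤ)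
    (hδ : {w | w ∉ S ∧ δ w ≠ 0}.Finite) (y : K) (hy : ¬ ∀ w ∉ S, w.valuation K y ≤ exp (δ w)) :
    ∃ x : K, (∀ w ∉ S, w.valuation K x ≤ exp (-δ w)) ∧ H71D.psS S (x * y) ≠ 1 :=
  H78R.exists_psS_ne_one hun hδ fun h => hy fun w hw => by simpa using h w hw

/-- **Places of `B`.**  For good data such that `psi w` is unramified for `w ∉ S`, the additive
character `psi P` of `B` is unramified for the places `P` not above `S`.  (`psi` is unramified
exactly at the places which do not divide the different over `ℤ`, and the different is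
multiplicative in towers.)  Proved in `H78Unr`, `H36Psi`. -/
theorem psi_unramified_above (E B J : Type) [Field E] [NumberField E] [Field B] [NumberField B]
    [Algebra E B] [Fintype J] (d : H71D.DD E B J) (hd : d.Good) (hE : ∀ w ∉ d.S, H7.Z.Unram w)
    (P : HeightOneSpectrum (𝓞 B)) (hP : P ∉ aboveSet B (d.S : Set (HeightOneSpectrum (𝓞 E)))) :
    H7.Z.Unram P :=
  have h1 : below E P ∉ d.S := fun h => hP ⟨below E P, h, H47.mem_above_below P⟩
  H78R.unramB (hE _ h1) (hd.unr _ h1 P (H47.mem_above_below P))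

open Classical in
/-- **The Gauss sum identity** (the reason why the theta kernel is invariant).  `A`, `D`, `h` as in
`theta_eq` with `h` of norm `A D`, `u₂` an approximate inverse of `u` as in `exists_auxiliary`, `b`
the lattice `D h̄⁻¹` outside `S` and `L₂ ⊂ b` a sublattice on which `u N`, its polar form with `b` and
`x ↦ tr(x τ ξ)` are integral outside `S` (so that the mean makes sense).  The mean over `b / L₂` of
`psS(u N x - tr(x τ ξ))` is `psS(u₂ N ξ)` times the mean of `psS(u N x)` if `ξ` has orders at least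
`dlt D h + g`, and `0` otherwise.  Proved in `H78RLd` from `quadratic_means` and
`quadratic_means_zero`, applied to the norm form `N` and the ring of the elements integral outside
`S`. -/
theorem gauss_sum_identity (E B J : Type) [Field E] [NumberField E] [Field B] [NumberField B]
    [Algebra E B] [Fintype J] (d : H71D.DD E B J) (A D : H71D.FI E) (h : H71D.FI B) (hd : d.Good)
    (hE : ∀ w ∉ d.S, H7.Z.Unram w) (hh : H71D.IsNm d.S d.tau h (H71D.cE (A * D))) (u u₂ : E)
    (g : HeightOneSpectrum (𝓞 E) → ℤ)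
    (hu : ∀ w ∉ d.S, exp (-g w) = max (w.valuation E u) (exp (H71D.cE D w - H71D.cE A w)) ∧
      w.valuation E u₂ ≤ exp (-(H71D.cE D w - H71D.cE A w)) ∧ w.valuation E (u * u₂) ≤ 1 ∧
      w.valuation E ((1 + u * u₂) * u) ≤ exp (H71D.cE D w - H71D.cE A w))
    (L₂ : AddSubgroup B) (hle : L₂ ≤ H71D.RB B d.S (d.dlt D h))
    (hT : ∀ x ∈ L₂, ∀ y ∈ H71D.RB B d.S (d.dlt D h), ∀ w ∉ d.S,
      w.valuation E (u * Algebra.trace E B (x * d.tau y)) ≤ 1)
    (hN : ∀ x ∈ L₂, ∀ w ∉ d.S, w.valuation E (u * Algebra.norm E x) ≤ 1)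
    (hfin : Finite (H71D.RB B d.S (d.dlt D h) ⧸ L₂.addSubgroupOf (H71D.RB B d.S (d.dlt D h))))
    (ξ : B) (hξ : ∀ x ∈ L₂, ∀ w ∉ d.S, w.valuation E (Algebra.trace E B (x * d.tau ξ)) ≤ 1) :
    H78G.mean (H71D.RB B d.S (d.dlt D h)) L₂
        (fun x => H71D.psS d.S (u * Algebra.norm E x - Algebra.trace E B (x * d.tau ξ))) =
      if ξ ∈ H71D.RB B d.S (fun P => d.dlt D h P + g (below E P)) then
        H71D.psS d.S (u₂ * Algebra.norm E ξ) *
          H78G.mean (H71D.RB B d.S (d.dlt D h)) L₂ (fun x => H71D.psS d.S (u * Algebra.norm E x))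
      else 0 :=
  H78R.key_DD hd (psi_unramified_above E B J d hd hE) hh hu hle hT hN hξ

/-- **The value of the Gauss sum.**  Same situation, with the sublattice given by orders `δ`; `Q` is
the ideal with orders `ord A - ord D - g = max(0, ord(A/D) - ord u)`, the denominator of `u` relative
to `A/D`.  The mean of `psS(u N x)` over `D h̄⁻¹` modulo the sublattice is `ω(Q) / N(Q)` (`om B S Q`
is `ω(Q)`, see `theta_eq`).  For one place this is the classical fact that the Gauss sum of the norm
form of an unramified quadratic extension is, up to the sign `ω`, the norm of the denominator; no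
residue characteristic is excluded.  Proved in `H88GS1` to `H88GS10`, one place at a time: the order
of the denominator is lowered by two with an isotropic sublattice; a denominator of order one is
treated with the norm of finite fields if `w` is inert, and with the isotropic ideal `P` if
`w = P τ(P)`. -/
theorem gauss_sum_value (E B J : Type) [Field E] [NumberField E] [Field B] [NumberField B]
    [Algebra E B] [Fintype J] (d : H71D.DD E B J) (hd : d.Good)
    (hE : ∀ w ∉ d.S, H7.Z.Unram w)
    (A D : H71D.FI E) (u u₂ : E) (h : H71D.FI B) (g : HeightOneSpectrum (𝓞 E) → ℤ)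
    (hAD : ∀ w ∈ d.S, H71D.cE A w = 0 ∧ H71D.cE D w = 0)
    (hh : H71D.IsNm d.S d.tau h (H71D.cE (A * D)))
    (hu : ∀ w ∉ d.S, exp (-g w) = max (w.valuation E u) (exp (H71D.cE D w - H71D.cE A w)) ∧
      w.valuation E u₂ ≤ exp (-(H71D.cE D w - H71D.cE A w)) ∧ w.valuation E (u * u₂) ≤ 1 ∧
      w.valuation E ((1 + u * u₂) * u) ≤ exp (H71D.cE D w - H71D.cE A w))
    (Q : H71D.FI E) (hQ : ∀ w ∈ d.S, H71D.cE Q w = 0)
    (hQ' : ∀ w ∉ d.S, H71D.cE Q w = H71D.cE A w - H71D.cE D w - g w)
    (δ : HeightOneSpectrum (𝓞 B) → ℤ) (hδ : {P | δ P ≠ 0}.Finite) (hle : ∀ P, d.dlt D h P ≤ δ P)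
    (hint : ∀ x ∈ H71D.RB B d.S δ, (∀ y ∈ H71D.RB B d.S (d.dlt D h), ∀ w ∉ d.S,
        w.valuation E (u * Algebra.trace E B (x * d.tau y)) ≤ 1) ∧
      ∀ w ∉ d.S, w.valuation E (u * Algebra.norm E x) ≤ 1) :
    H78G.mean (H71D.RB B d.S (d.dlt D h)) (H71D.RB B d.S δ)
        (fun x => H71D.psS d.S (u * Algebra.norm E x)) =
      H71D.om B d.S Q * ((H71D.aN Q : ℝ) : ℂ)⁻¹ :=
  H88T.gsProp d hd hE (psi_unramified_above E B J d hd hE) A D u u₂ h g hAD hh hu Q hQ hQ' δ hδ hle
    hint

open Classical in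
/-- **The volume of the lattice.**  `HIfun (OLat B)` is the functional of `poisson`.  Its value at the
characteristic function of the ideal `D h̄⁻¹` of `B` (orders `d.dlt D h P`) is `N(A/D)` if `A`, `D` are
prime to `S` and `h` is prime to `S` of norm `A D`.  Proof: for a fractional ideal `I` the value is
`N(I)⁻¹` (indices of lattices), and the product of `D h̄⁻¹` with its conjugate is the extension of the
ideal `D/A` of `E`.  In `H97DVol`, `H97DVol2`. -/
theorem lattice_volume (E B J : Type) [Field E] [NumberField E] [Field B] [NumberField B]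
    [Algebra E B] [Fintype J] (d : H71D.DD E B J) (hdeg : Module.finrank E B = 2)
    (hunr : ∀ w ∉ d.S, ∀ P ∈ above B w, w.asIdeal.ramificationIdx' P.asIdeal = 1)
    (A D : H71D.FI E) (h : H71D.FI B) (hAD : ∀ w ∈ d.S, H71D.cE A w = 0 ∧ H71D.cE D w = 0)
    (hh : H71D.IsNm d.S d.tau h (H71D.cE (A * D))) :
    H66D.HIfun (H66D.OLat B) (fun x => if (∀ P : HeightOneSpectrum (𝓞 B),
      P.valuation B x ≤ exp (-(d.dlt D h P))) then (1 : ℂ) else 0) =
        ((H71D.aN (A * D⁻¹) : ℝ) : ℂ) :=
  H97D.HIfun_dlt d hdeg hunr hAD hh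

open Classical in
/-- **The Fourier transform of the kernel.**  `φ = d.phi A D u h` is the coefficient function of
`theta_eq`.  Its Fourier transform at `x` is the product of the constant
`ω(D) N(A/D)^(-1/2) N(A/D) ω(Q) / N(Q)`, of a factor `MS d k x` at the places of `S` which depends
only on `x`, and of `psS(u₂ N x)` if `x` has orders at least `dlt D h + g` outside `S` (else `0`).
(`gS d x` is the function `y ↦ ∏_{w ∈ S} psi w (-tr(x τ y))` on `VS`, `MS d k x` its mean; `SFun`: it
has integral support and period `P ^ k` above `S`.)  By `exists_auxiliary` the data `(A₁, D₁, u₁)`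
give the same lattice, the same constant and `u₂ - c` instead of `u₂`: the first transform is
`psS(c N x)` times the second one.  For `c N x` integral at `S` this is the factor in `poisson`; at
the other `x` both transforms vanish (`norm_support`).  Proved in `H66TMain`. -/
theorem fourier_transform (E B J : Type) [Field E] [NumberField E] [Field B] [NumberField B]
    [Algebra E B] [Fintype J] (d : H71D.DD E B J) (hd : d.Good)
    (hE : ∀ w ∉ d.S, H7.Z.Unram w)
    (A D : H71D.FI E) (u u₂ : E) (h : H71D.FI B) (g : HeightOneSpectrum (𝓞 E) → ℤ)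
    (hAD : ∀ w ∈ d.S, H71D.cE A w = 0 ∧ H71D.cE D w = 0)
    (hh : H71D.IsNm d.S d.tau h (H71D.cE (A * D)))
    (hu : ∀ w ∉ d.S, exp (-g w) = max (w.valuation E u) (exp (H71D.cE D w - H71D.cE A w)) ∧
      w.valuation E u₂ ≤ exp (-(H71D.cE D w - H71D.cE A w)) ∧ w.valuation E (u * u₂) ≤ 1 ∧
      w.valuation E ((1 + u * u₂) * u) ≤ exp (H71D.cE D w - H71D.cE A w))
    (Q : H71D.FI E) (hQ : ∀ w ∈ d.S, H71D.cE Q w = 0)
    (hQ' : ∀ w ∉ d.S, H71D.cE Q w = H71D.cE A w - H71D.cE D w - g w) (k : ℕ) (x : B)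
    (hk : H66T.SFun (aboveSet B (d.S : Set (HeightOneSpectrum (𝓞 E)))) k (H66T.gS d x)) :
    H66D.HIfun (H66D.OLat B) (fun y =>
        H13Z.er ((Algebra.trace ℚ B (x * d.tau y) : ℚ) : ℝ) * d.phi A D u h y) =
      (H71D.om B d.S D * (((H71D.aN (A * D⁻¹)) ^ (-(1 / 2) : ℝ) : ℝ) : ℂ) *
          ((H71D.aN (A * D⁻¹) : ℝ) : ℂ) * (H71D.om B d.S Q * ((H71D.aN Q : ℝ) : ℂ)⁻¹)) *
        (H66T.MS d k x * (if x ∈ H71D.RB B d.S (fun P => d.dlt D h P + g (below E P)) then
          H71D.psS d.S (u₂ * Algebra.norm E x) else 0)) :=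
  have hB := psi_unramified_above E B J d hd hE
  H66T.HF_phi d hd hB (H88T.gsProp d hd hE hB) hAD hh hu hQ hQ' hk

/-- **The bad places.**  `B/E` quadratic with conjugation `τ`.  There is `c₂`, depending on `E`, `B`,
`S` only, such that: if `∏_{w ∈ S} psi w (tr(x τ y)) = 1` for all `y ∈ B` which have at all `P` above
`w ∈ S` order at least `e(P/w) m_w + a`, then `ord_w (N x) ≥ -(2 m_w + 2 a + c₂)` for `w ∈ S`.  So the
Fourier transform at `S` of the characteristic function of `VS` is supported on elements `x` with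
`c N x` integral at `S` if `c` is small: the lower unipotent element acts trivially at `S`.  Proved
in `H53Z8`: test elements `y` with order exactly `e(P/w) m_w + a` above `S`, and the dual of the
lattice of the integers of `B` for the trace form; no completions. -/
theorem norm_support (E B : Type) [Field E] [NumberField E] [Field B] [NumberField B] [Algebra E B]
    (S : Finset (HeightOneSpectrum (𝓞 E))) (hdeg : Module.finrank E B = 2) :
    ∃ c₂ : ℕ, ∀ τ : B ≃ₐ[E] B, τ ≠ 1 → ∀ (m : HeightOneSpectrum (𝓞 E) → ℕ) (a : ℕ) (x : B),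
      (∀ y : B, (∀ P ∈ aboveSet B (S : Set (HeightOneSpectrum (𝓞 E))), P.valuation B y ≤
          exp (-(((below E P).asIdeal.ramificationIdx' P.asIdeal * m (below E P) + a : ℕ) : ℤ))) →
        ∏ w ∈ S, psi w (Algebra.trace E B (x * τ y)) = 1) →
      ∀ w ∈ S, w.valuation E (Algebra.norm E x) ≤ exp (2 * (m w : ℤ) + 2 * (a : ℤ) + c₂) :=
  H53Z.exists_supp_norm S hdeg

/-- **The theta kernel is invariant.**  `S` contains all places where the additive characters of `E`
are ramified.  There is `c₀`, depending on `E`, `B`, `S` only, such that for all good data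
with bad places `S`, all levels `n_w ≥ n2` with `US` containing the elements congruent to `1` modulo
`w ^ (n_w)`, all `c ∈ E` of order at least `2 n_w + c₀` at the `w ∈ S`, and all `(A, D, u)`,
`(A₁, D₁, u₁)` related by `n̄(c)` and `h` of norm `A D` and `A₁ D₁`:
`θ(A₁, D₁, u₁, h; n̄(c) w, s) = θ(A, D, u, h; w, s)`.  Proved in `H66TMain`, `H66TFin` from
`exists_auxiliary`, `poisson`, `fourier_transform` and `norm_support`. -/
theorem theta_invariant (E B : Type) [Field E] [NumberField E] [Field B] [NumberField B]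
    [Algebra E B] (hdeg : Module.finrank E B = 2) (S : Finset (HeightOneSpectrum (𝓞 E)))
    (hE : ∀ w ∉ S, H7.Z.Unram w) :
    ∃ c₀ : ℕ, ∀ (J : Type) [Fintype J] (d : H71D.DD E B J), d.Good → d.S = S →
      ∀ n : HeightOneSpectrum (𝓞 E) → ℕ, (∀ w ∈ S, d.n2 ≤ n w) →
      (∀ α : Eˣ, (∀ w ∈ S, α ∈ congr w (n w)) → α ∈ d.US) →
      ∀ c : E, (∀ w ∈ S, w.valuation E c ≤ exp (-((2 * n w + c₀ : ℕ) : ℤ))) →
      ∀ (A D : H71D.FI E) (u : E) (A₁ D₁ : H71D.FI E) (u₁ : E) (h : H71D.FI B),
      (∀ w ∈ d.S, H71D.cE A w = 0 ∧ H71D.cE D w = 0 ∧ H71D.cE A₁ w = 0 ∧ H71D.cE D₁ w = 0) →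
      H71D.REL d.S c A D u A₁ D₁ u₁ → H71D.IsNm d.S d.tau h (H71D.cE (A * D)) →
      H71D.IsNm d.S d.tau h (H71D.cE (A₁ * D₁)) → ∀ (w : J → H3) (s : J → ℝ),
        d.theta A₁ D₁ u₁ h (d.nbAct c w) s = d.theta A D u h w s := by
  obtain ⟨c₀, h⟩ := H66T.nbarTheta_unif (B := B) hdeg S hE
  exact ⟨c₀, fun J _ d hd hS n hn hU => h J d hd hS (H88T.gsProp d hd (hS ▸ hE)
    (psi_unramified_above E B J d hd (hS ▸ hE))) n hn hU⟩

/-! ## (d) Conclusion -/

/-- **Rules for the relation** `REL` by `n̄(c)` between `(A, D, u)` and `(A₁, D₁, u₁)`: it is symmetric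
with `-c` in place of `c`, it implies that `A D` and `A₁ D₁` have the same orders outside `S`, and it
is compatible with `diag(α, 1)`: `(α A, D, α u)` and `(α A₁, D₁, α u₁)` are related by `n̄(c/α)`
(`pE α` is the principal ideal `(α)`).  In `H87VRel`. -/
theorem relation_rules (E : Type) [Field E] [NumberField E]
    (S : Finset (HeightOneSpectrum (𝓞 E))) (A D A₁ D₁ : H71D.FI E) (u c u₁ : E)
    (hrel : H71D.REL S c A D u A₁ D₁ u₁) :
    H71D.REL S (-c) A₁ D₁ u₁ A D u ∧
    (∀ w ∉ S, H71D.cE (A * D) w = H71D.cE (A₁ * D₁) w) ∧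
    ∀ α : Eˣ, H71D.REL S ((α⁻¹ : Eˣ) * c) (H87V.pE α * A) D (α * u) (H87V.pE α * A₁) D₁ (α * u₁) :=
  ⟨hrel.symm, fun _ hw => hrel.cE_eq hw, fun α => hrel.smul α⟩

/-- **Diagonal elements.**  `dgAct d α` is the action of `diag(α, 1)` on `J → ℍ³`, which multiplies the
coordinate `z_j` by `e_j(α)` and `y_j` by `|e_j(α)|`.  One has `diag(α, 1) n̄(c) = n̄(c/α) diag(α, 1)`,
and for `α ∈ US` the series at `α a`, `α u`, `diag(α, 1) w` is the series at `a`, `u`, `w`.  So in
`series_of_theta` one may replace `A`, `u`, `c` by `α A`, `α u`, `c/α`.  In `H87VRel`. -/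
theorem series_and_diagonal (E B J : Type) [Field E] [NumberField E] [Field B] [NumberField B]
    [Algebra E B] [Fintype J] (d : H71D.DD E B J) (hd : d.Good) (α : Eˣ) (w : J → H3) :
    (∀ j, (H87V.dgAct d α w j).z = d.e j α * (w j).z ∧
      (H87V.dgAct d α w j).y = ‖d.e j α‖ * (w j).y) ∧
    (∀ c : E, H87V.dgAct d α (d.nbAct c w) = d.nbAct ((α⁻¹ : Eˣ) * c) (H87V.dgAct d α w)) ∧
    (α ∈ d.US → ∀ (a : H71D.FI E) (u : E),
      d.ser (H87V.pE α * a) (α * u) (H87V.dgAct d α w) = d.ser a u w) :=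
  ⟨H87V.dgAct_apply d α w, fun c => H87V.dgAct_nbAct d α c w, fun hα a u => H87V.ser_smul hd hα a u w⟩

/-- **From the theta kernel to the series.**  If the theta kernels are invariant under `n̄(c)` for
all `c` in a set `CS` stable under multiplication by `US`, then so is the series: by `unfolding`
when `A D` times an element of `US` is a norm (reduced by `relation_rules` and `series_and_diagonal`
to the case that `A D` is a norm, `series_of_norms` in section 7 of `GuideThetaSeries`), and otherwise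
both sides vanish (`series_zero`).  Proved in `H87VRel`, `H87VZero`, `H87VFin`. -/
theorem series_of_theta (E B J : Type) [Field E] [NumberField E] [Field B] [NumberField B]
    [Algebra E B] [Fintype J] (d : H71D.DD E B J) (hd : d.Good) (CS : Set E)
    (hCS : ∀ α ∈ d.US, ∀ c ∈ CS, ((α⁻¹ : Eˣ) : E) * c ∈ CS)
    (hθ : ∀ c ∈ CS, ∀ (A D : H71D.FI E) (u : E) (A₁ D₁ : H71D.FI E) (u₁ : E) (h : H71D.FI B),
      (∀ w ∈ d.S, H71D.cE A w = 0 ∧ H71D.cE D w = 0 ∧ H71D.cE A₁ w = 0 ∧ H71D.cE D₁ w = 0) →
      H71D.REL d.S c A D u A₁ D₁ u₁ → H71D.IsNm d.S d.tau h (H71D.cE (A * D)) →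
      H71D.IsNm d.S d.tau h (H71D.cE (A₁ * D₁)) → ∀ (w : J → H3) (s : J → ℝ),
        d.theta A₁ D₁ u₁ h (d.nbAct c w) s = d.theta A D u h w s) :
    ∀ c ∈ CS, ∀ (A D : H71D.FI E) (u : E) (A₁ D₁ : H71D.FI E) (u₁ : E),
      (∀ w ∈ d.S, H71D.cE A w = 0 ∧ H71D.cE D w = 0 ∧ H71D.cE A₁ w = 0 ∧ H71D.cE D₁ w = 0) →
      H71D.REL d.S c A D u A₁ D₁ u₁ → ∀ w : J → H3,
        d.ser (A₁ * D₁⁻¹) u₁ (d.nbAct c w) = d.ser (A * D⁻¹) u w :=
  H87V.nbarSer_of_theta hd hCS hθ

/-- **Lower unipotent elements.**  Consequence for the function `F = FF d` of section 4 of the first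
part (`GuideOctD`): it is invariant under `n̄(c)` for `c ∈ CS`.  Proved in `H18DP5` from
`relation_of_translate` and `FF_eq_ser` of the first part. -/
theorem lower_unipotent (E B J : Type) [Field E] [NumberField E] [Field B] [NumberField B]
    [Algebra E B] [Fintype J] (d : H71D.DD E B J) (hd : d.Good) (m : H59D.Model E J)
    (L : H59XF.LevelFam PGL(2, E) {w : HeightOneSpectrum (𝓞 E) // w ∉ d.S})
    (hL : ∀ w, L.U w = H59D.U0 w.1) (hme : m.e = d.e) (CS : Set E)
    (hser : ∀ c ∈ CS, ∀ (A D : H71D.FI E) (u : E) (A₁ D₁ : H71D.FI E) (u₁ : E),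
      (∀ w ∈ d.S, H71D.cE A w = 0 ∧ H71D.cE D w = 0 ∧ H71D.cE A₁ w = 0 ∧ H71D.cE D₁ w = 0) →
      H71D.REL d.S c A D u A₁ D₁ u₁ → ∀ w : J → H3,
        d.ser (A₁ * D₁⁻¹) u₁ (d.nbAct c w) = d.ser (A * D⁻¹) u w)
    (c : E) (hc : c ∈ CS) (y : H59XF.XF L) (z : J → H3) :
    H18D.FF d ((ProjGenLinGroup.mk (H76U.lM c) : PGL(2, E)) • y)
      (m.actInf (ProjGenLinGroup.mk (H76U.lM c)) z) = H18D.FF d y z :=
  H18D.FF_l hd hL hme hser hc y z

end Fermat.Agent.Guide.OctDTheta
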