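import Mathlib
import Fermat.Agent.H91ZBlockN

/-!
# Reader's guide: block (N) of S47, the unbounded Dirichlet series

S47 is the octahedral case of the theorem of Langlands and Tunnell (overview: `GuideOctahedral`). Let
`M = ℚ(ω)`, `ω² + ω + 1 = 0`. Block (C) (`GuideOctC`) produces a function `F` on hyperbolic three-space
with real coefficients `c(α)`, `α ∈ ℤ[ω]` (the structure `ICT N c F`, written out in theorem `ict_iff`
of `GuideOctahedral`). The values of `c` are known at the primes of `M` which split in the sextic field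
`E`, and unknown at the others. Block (N) shows that the Dirichlet series over the POSITIVE INTEGERS
`D(s) = ∑_{n ≥ 1} c(n) n^{-s}` is unbounded for `s → 1+`. Block (T) (`GuideOctT`) uses this to prove
that the theta lift of `F` to weight one is not zero.

There is no analytic continuation, no functional equation, no Rankin-Selberg unfolding and no bound
towards the Ramanujan conjecture. The idea: let `L(s) = ∑ c(𝔞)² N(𝔞)^{-s}` (all ideals `𝔞` of `ℤ[ω]`).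
Prime by prime, the Euler factor of `D(s)² L(s)` is at least `(1 - p^{-2s})⁴`, WHATEVER the unknown
coefficients are; at the primes with `ρ(Frob) = ±1` it is about `exp(16 p^{-s})`, at the primes with
`ρ(Frob)` a reflection about `exp(4 p^{-s})`. These sets have densities `2/48` and `12/48`, and
`16 · 2/48 + 4 · 12/48 = 5/3 > 1`, whereas `L(s) = O(1/(s-1))` because `F` is bounded.

Reading order: local factors (1-5), Euler products (5a-9), the inputs (10-15), the result (16-18);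
a number with a letter ((5a), (12a), ...) is a step towards the theorem which follows.
Files: H91ZLocal, H91ZMult, H91ZMain, H91ZUnb; H25ZDens (with H85Cheb*); H91ZIdeal, H62N2, H91ZEis,
H91ZICT; H37NBessel, H37NLattice, H37NPartial, H37NReal, H37NIct; H91ZFinal, H91ZBlockN.
Notes: NOTES.md, [392], [426], [479], and [458] for the densities. All cited theorems are in the proof
term of S47 (and of no other statement). Authors: helper91, helper25, helper62, helper37.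
-/

set_option autoImplicit false

namespace Fermat.Agent.Guide.OctN

open Fermat.Agent Fermat.Agent.S47T Fermat.Agent.H91.Z Fermat.Agent.H62N WeierstrassCurve Ideal
open Fermat.Agent.H85 (Fr)
open scoped MatrixGroups

local notation "Γℚ" => (AlgebraicClosure ℚ ≃ₐ[ℚ] AlgebraicClosure ℚ)

/-! ### Local factors -/

/-- (1) `cU t k` is the value at the `k`-th power of a prime of a normalised Hecke eigensystem with
trivial central character and eigenvalue `t` at the prime: `cU t 0 = 1`, `cU t 1 = t`,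
`cU t (k+2) = t · cU t (k+1) - cU t k`. So `∑ cU t k x^k = 1 / (1 - t x + x²)`. -/
theorem recursion (t : ℝ) (k : ℕ) :
    cU t 0 = 1 ∧ cU t 1 = t ∧ cU t (k + 2) = t * cU t (k + 1) - cU t k :=
  ⟨rfl, rfl, rfl⟩

/-- (2) Closed form of the Euler factor of `D(s)` at a prime `p = v v'` which splits in `M`
(`x = p^{-s}`, `t = c(v)`, `t' = c(v')`): `G = ∑ cU t k · cU t' k · x^k` satisfies `G · Q = 1 - x²` with
`Q = (1 - x²)² - t t' x (1 + x²) + (t² + t'²) x²`. The only hypothesis is the convergence of the two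
diagonal series (they are parts of the convergent series `L(s)`). File H91ZLocal. -/
theorem asai_factor {t t' x : ℝ} (h : Summable fun k => cU t k ^ 2 * x ^ k)
    (h' : Summable fun k => cU t' k ^ 2 * x ^ k) (hx : 0 < x) (hx1 : x < 1) :
    (∑' k, cU t k * cU t' k * x ^ k) *
      ((1 - x ^ 2) ^ 2 - t * t' * x * (1 + x ^ 2) + (t ^ 2 + t' ^ 2) * x ^ 2) = 1 - x ^ 2 :=
  tsum_mul_Qp h h' hx hx1

/-- (3) Closed form of the diagonal factor: `∑ (cU t k)² x^k = (1 + x) / ((1 - x) ((1 + x)² - t² x))`.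
In particular its convergence forces `t² x < (1 + x)²`. File H91ZLocal. -/
theorem diagonal_factor {t x : ℝ} (h : Summable fun k => cU t k ^ 2 * x ^ k) (hx : 0 < x)
    (hx1 : x < 1) :
    (∑' k, cU t k ^ 2 * x ^ k) * ((1 - x) * ((1 + x) ^ 2 - t ^ 2 * x)) = 1 + x :=
  tsum_sq_mul h hx hx1

/-- (4) THE LOCAL COMPARISON, valid for all real `t`, `t'`: the factor `G` of `D(s)` at a split prime is
positive and `G² V V' ≥ (1 - x²)⁴`, where `V`, `V'` are the two diagonal factors. It is here that the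
unknown coefficients disappear. Proof: closed forms (2), (3) and an elementary inequality.
File H91ZLocal. -/
theorem local_comparison {t t' x : ℝ} (h : Summable fun k => cU t k ^ 2 * x ^ k)
    (h' : Summable fun k => cU t' k ^ 2 * x ^ k) (hx : 0 < x) (hx1 : x < 1) :
    0 < (∑' k, cU t k * cU t' k * x ^ k) ∧
    (1 - x ^ 2) ^ 4 ≤ (∑' k, cU t k * cU t' k * x ^ k) ^ 2 *
      ((∑' k, cU t k ^ 2 * x ^ k) * (∑' k, cU t' k ^ 2 * x ^ k)) :=
  Fermat.Agent.H91.Z.local_comparison h h' hx hx1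

/-- (5) The special values: `cU 2 k = k + 1`, `cU (-t) k = (-1)^k cU t k`, `|cU 0 k| ≤ 1`. So at a split
prime with `t = t' = 2` or `t = t' = -2` one has `G = V = V' = ∑ (k+1)² x^k = (1 + x)/(1 - x)³`, and at
an inert prime with `t = 2` the factor of `D(s)` is `∑ (k+1) x^k = (1 - x)^{-2}`. File H91ZLocal. -/
theorem special_values (t : ℝ) (k : ℕ) :
    cU 2 k = k + 1 ∧ cU (-t) k = (-1) ^ k * cU t k ∧ |cU 0 k| ≤ 1 :=
  ⟨cU_two k, cU_neg t k, cU_zero_sq_le k⟩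

/-! ### Euler products -/

/-- (5a) The tool: a nonnegative multiplicative function `F` of the positive integers (`F(0) = 0`),
summable over the powers of each prime, is summable if and only if the finite Euler products are
bounded. It is applied to `|d(n)| n^{-s}` and `l(n) n^{-s}`, `s` real, so that every estimate is a finite
product of local estimates. File H91ZMult. -/
theorem summable_iff_euler_products {F : ℕ → ℝ} (h1 : F 1 = 1)
    (hmul : ∀ {m n : ℕ}, m.Coprime n → F (m * n) = F m * F n) (hz : F 0 = 0) (h0 : ∀ n, 0 ≤ F n)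
    (hloc : ∀ p : ℕ, p.Prime → Summable fun k => F (p ^ k)) :
    Summable F ↔ ∃ K : ℝ, ∀ N : ℕ, ∏ p ∈ Nat.primesBelow N, ∑' k, F (p ^ k) ≤ K :=
  ⟨fun hs => ⟨_, prod_le_tsum h1 hmul h0 hs⟩, fun ⟨_, hK⟩ => summable_of_prod_le h1 hmul hz h0 hloc hK⟩

/-- (6) The abstract data. `d` and `l` are multiplicative functions of the positive integers (later
`d(n) = c((n))`, `l(n) = ∑_{N𝔞 = n} c(𝔞)²`); `t(p)`, `t'(p)` are the coefficients at the two primes over
`p ≡ 1 mod 3`, and `t(p)` the coefficient at the prime `(p)` if `p ≡ 2 mod 3`. `A` is a set of primes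
`≡ 1 mod 3` with `t = t' = 2` or `t = t' = -2`, `B` a set of primes `≡ 2 mod 3` with `t = 2`; the other
primes `≡ 2 mod 3` have `t = 0`. Nothing is assumed about `t(p)`, `t'(p)` for the other `p ≡ 1 mod 3`.
All this for the primes not dividing `3N`; for `p ∣ 3N` one has `d(p^k) = 0` (`k ≥ 1`). The values
`l(p^k)` are prescribed only for `p ≡ 1 mod 3`, `p ∤ N`; otherwise `l ≥ 0` is enough. (Every field of
the structure is listed here.) File H91ZMain. -/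
theorem asaiData_iff (N : ℕ) (t t' : ℕ → ℝ) (A B : Set ℕ) (d l : ℕ → ℝ) :
    AsaiData N t t' A B d l ↔
      (d 0 = 0 ∧ d 1 = 1 ∧ (∀ m n : ℕ, m.Coprime n → d (m * n) = d m * d n)) ∧
      (l 0 = 0 ∧ l 1 = 1 ∧ (∀ m n : ℕ, m.Coprime n → l (m * n) = l m * l n) ∧ ∀ n, 0 ≤ l n) ∧
      (∀ p : ℕ, p.Prime → ¬ p ∣ 3 * N → p % 3 = 1 → ∀ k, d (p ^ k) = cU (t p) k * cU (t' p) k) ∧
      (∀ p : ℕ, p.Prime → ¬ p ∣ 3 * N → p % 3 = 1 → ∀ k, l (p ^ k) =
        ∑ ij ∈ Finset.HasAntidiagonal.antidiagonal k, cU (t p) ij.1 ^ 2 * cU (t' p) ij.2 ^ 2) ∧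
      (∀ p : ℕ, p.Prime → ¬ p ∣ 3 * N → p % 3 = 2 → ∀ k, d (p ^ k) = cU (t p) k) ∧
      (∀ p : ℕ, p.Prime → p ∣ 3 * N → ∀ k, d (p ^ (k + 1)) = 0) ∧
      (∀ p ∈ A, p.Prime ∧ ¬ p ∣ 3 * N ∧ p % 3 = 1 ∧
        ((t p = 2 ∧ t' p = 2) ∨ (t p = -2 ∧ t' p = -2))) ∧
      (∀ p ∈ B, p.Prime ∧ ¬ p ∣ 3 * N ∧ p % 3 = 2 ∧ t p = 2) ∧
      (∀ p : ℕ, p.Prime → ¬ p ∣ 3 * N → p % 3 = 2 → p ∉ B → t p = 0) :=
  ⟨fun D => ⟨⟨D.d_zero, D.d_one, fun _ _ h => D.d_mul h⟩, ⟨D.l_zero, D.l_one, fun _ _ h => D.l_mul h,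
      D.l_nonneg⟩, D.d_split, D.l_split, D.d_inert, D.d_bad, D.A_spec, D.B_spec, D.notB_spec⟩,
    fun ⟨⟨a, b, c⟩, ⟨d, e, f, g⟩, h, i, j, k, l, m, n⟩ => ⟨a, b, c _ _, d, e, f _ _, g, h, i, j, k, l, m, n⟩⟩

/-- (7) Absolute convergence of `D(s)` for real `s > 1` is a CONSEQUENCE of the convergence of `L(s)`:
the finite Euler products of `∑ |d(n)| n^{-s}` are bounded by `L(s) ζ(s)²`. File H91ZUnb. -/
theorem absolute_convergence {N : ℕ} {t t' : ℕ → ℝ} {A B : Set ℕ} {d l : ℕ → ℝ}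
    (D : AsaiData N t t' A B d l) {s : ℝ} (hs : 1 < s)
    (hl : Summable fun n : ℕ => l n * (n : ℝ) ^ (-s)) :
    Summable fun n : ℕ => |d n| * (n : ℝ) ^ (-s) :=
  D.summable hs hl

/-- (8) THE KEY INEQUALITY: `exp (16 ∑_{p ∈ A} p^{-s} + 4 ∑_{p ∈ B} p^{-s} - 8 ζ(2)) ≤ D(s)² L(s)` and
`D(s) ≥ 0`, for every real `s > 1`. Product of the local estimates (4), (5) over all primes.
(`A.indicator f n` is `f n` for `n ∈ A` and `0` otherwise; the terms `n = 0` are `0`.) File H91ZUnb. -/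
theorem key_inequality {N : ℕ} {t t' : ℕ → ℝ} {A B : Set ℕ} {d l : ℕ → ℝ}
    (D : AsaiData N t t' A B d l) {s : ℝ} (hs : 1 < s)
    (hl : Summable fun n : ℕ => l n * (n : ℝ) ^ (-s)) :
    0 ≤ ∑' n, d n * (n : ℝ) ^ (-s) ∧
    Real.exp (16 * (∑' n : ℕ, A.indicator (fun n : ℕ => (n : ℝ) ^ (-s)) n) +
      4 * (∑' n : ℕ, B.indicator (fun n : ℕ => (n : ℝ) ^ (-s)) n) -
      8 * ∑' n : ℕ, (n : ℝ) ^ (-2 : ℝ)) ≤
      (∑' n, d n * (n : ℝ) ^ (-s)) ^ 2 * ∑' n, l n * (n : ℝ) ^ (-s) :=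
  D.key hs hl

/-- (9) THE ABSTRACT THEOREM: if `L(s) ≤ CL/(s-1)`, `∑_A p^{-s} ≥ a log(1/(s-1)) - CA`,
`∑_B p^{-s} ≥ b log(1/(s-1)) - CB` for `1 < s ≤ 2` and `16 a + 4 b > 1`, then `D(s) → ∞` for `s → 1+`.
Immediate from (8). File H91ZUnb. -/
theorem abstract_unbounded {N : ℕ} {t t' : ℕ → ℝ} {A B : Set ℕ} {d l : ℕ → ℝ}
    (D : AsaiData N t t' A B d l) {a b CL CA CB : ℝ} (hab : 1 < 16 * a + 4 * b)
    (hL : ∀ s : ℝ, 1 < s → s ≤ 2 → Summable (fun n : ℕ => l n * (n : ℝ) ^ (-s)) ∧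
      ∑' n : ℕ, l n * (n : ℝ) ^ (-s) ≤ CL / (s - 1))
    (hA : ∀ s : ℝ, 1 < s → s ≤ 2 → a * Real.log (1 / (s - 1)) - CA ≤
      ∑' n : ℕ, A.indicator (fun n : ℕ => (n : ℝ) ^ (-s)) n)
    (hB : ∀ s : ℝ, 1 < s → s ≤ 2 → b * Real.log (1 / (s - 1)) - CB ≤
      ∑' n : ℕ, B.indicator (fun n : ℕ => (n : ℝ) ^ (-s)) n) (K : ℝ) :
    ∃ s₀ : ℝ, 1 < s₀ ∧ ∀ s : ℝ, 1 < s → s < s₀ →
      Summable (fun n : ℕ => d n * (n : ℝ) ^ (-s)) ∧ K < ∑' n : ℕ, d n * (n : ℝ) ^ (-s) :=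
  D.unbounded hab hL hA hB K

/-! ### The inputs: densities, ideals of `ℤ[ω]`, mean square -/

/-- (10) The primes with `ρ(Frob_p) = ±1` have density `2/48 = 1/24` (lower bound for the sum of
`p^{-s}`; `S` is a finite set of excluded primes, `Fr p` a Frobenius element at a place over `p`).
From the Chebotarev theorem for class functions invariant under inversion (theorem `chebotarev` of
`GuideDeligneSerre`, file H85Cheb). File H25ZDens. -/
theorem density_pm_one (ρ : Γℚ →* GL (Fin 2) (ZMod 3))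
    (hρ : GaloisFactorsThroughFiniteLevel ρ) (hsurj : Function.Surjective ρ) (S : Finset ℕ)
    {a : ℝ} (ha0 : 0 ≤ a) (ha : a < 1 / 24) :
    ∃ C : ℝ, ∀ s : ℝ, 1 < s → s ≤ 2 → a * Real.log (1 / (s - 1)) - C ≤
      ∑' p : Nat.Primes, Set.indicator {p : Nat.Primes | (p : ℕ) ∉ S ∧
        (ρ (Fr p) = 1 ∨ ρ (Fr p) = -1)} (fun p => ((p : ℕ) : ℝ) ^ (-s)) p :=
  Fermat.Agent.H25Z.density_A ρ hρ hsurj S ha0 ha

/-- (11) The primes with `ρ(Frob_p)` a reflection (order 2, determinant -1) have density `12/48 = 1/4`.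
File H25ZDens. -/
theorem density_reflections (ρ : Γℚ →* GL (Fin 2) (ZMod 3))
    (hρ : GaloisFactorsThroughFiniteLevel ρ) (hsurj : Function.Surjective ρ) (S : Finset ℕ)
    {b : ℝ} (hb0 : 0 ≤ b) (hb : b < 1 / 4) :
    ∃ C : ℝ, ∀ s : ℝ, 1 < s → s ≤ 2 → b * Real.log (1 / (s - 1)) - C ≤
      ∑' p : Nat.Primes, Set.indicator {p : Nat.Primes | (p : ℕ) ∉ S ∧
        (ρ (Fr p) ^ 2 = 1 ∧
          ((ρ (Fr p) : GL (Fin 2) (ZMod 3)) : Matrix (Fin 2) (Fin 2) (ZMod 3)).det = -1)}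
        (fun p => ((p : ℕ) : ℝ) ^ (-s)) p :=
  Fermat.Agent.H25Z.density_B ρ hρ hsurj S hb0 hb

/-- (12) The determinant of `ρ(Frob_p)` is `p mod 3`; so the primes in (10) are `1 mod 3` and the primes
in (11) are `2 mod 3`. File H91ZFinal. -/
theorem det_frobenius {ρ : Γℚ →* GL (Fin 2) (ZMod 3)}
    (hdet : ∀ σ : Γℚ, Matrix.GeneralLinearGroup.det (ρ σ) = modThreeCyclotomicChar σ)
    {p : ℕ} (hp : p.Prime) (h3 : ¬ p ∣ 3) {A : ValuationSubring (AlgebraicClosure ℚ)}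
    (hA : A.LiesOverPrime p) {σ : Γℚ} (hσ : A.IsFrobeniusAt σ p) :
    ((ρ σ : GL (Fin 2) (ZMod 3)) : Matrix (Fin 2) (Fin 2) (ZMod 3)).det = (p : ZMod 3) :=
  det_frob hdet hp h3 hA hσ

/-- (12a) Sums over the ideals of a Dedekind domain `R` which is free of finite rank over `ℤ`: an ideal of
norm `m n`, `m` and `n` coprime, is in a unique way a product of ideals of norms `m` and `n`. So
`n ↦ ∑_{N𝔞 = n} f(𝔞)` is multiplicative if `f` is (`fib R n` is the set of the ideals of norm `n`).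
File H91ZIdeal. -/
theorem sum_over_ideals {R : Type*} [CommRing R] [IsDedekindDomain R] [Module.Free ℤ R]
    [Module.Finite ℤ R] [CharZero R] (f : Ideal R → ℝ)
    (hf : ∀ I J, IsCoprime I J → f (I * J) = f I * f J) {m n : ℕ} (hm : m ≠ 0) (hn : n ≠ 0)
    (hmn : m.Coprime n) :
    ∑ I ∈ fib R (m * n), f I = (∑ I ∈ fib R m, f I) * ∑ I ∈ fib R n, f I :=
  sum_fib_mul f hf hm hn hmn

/-- (12b) Splitting of the primes in `O = ℤ ⊕ ℤ om`, `om² + om + 1 = 0` (so `O = ℤ[ω]`): if `p ≡ 1 mod 3`,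
then `(p) = P P'` with two different coprime prime ideals of norm `p`; if `p ≡ 2 mod 3`, then `(p)` is a
prime ideal. File H62N2. -/
theorem splitting {O : Type*} [CommRing O] [IsDedekindDomain O] [Module.Free ℤ O]
    [Module.Finite ℤ O] [CharZero O] {om : O} (hrel : om ^ 2 + om + 1 = 0)
    (hex : ∀ x : O, ∃ a b : ℤ, x = a + b * om)
    (hindep : ∀ a b : ℤ, (a : O) + b * om = 0 → a = 0 ∧ b = 0) {p : ℕ} (hp : p.Prime) :
    (p % 3 = 1 → ∃ P P' : Ideal O, P.IsPrime ∧ P'.IsPrime ∧ P ≠ P' ∧ absNorm P = p ∧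
      absNorm P' = p ∧ P * P' = span {(p : O)} ∧ IsCoprime P P') ∧
    (p % 3 = 2 → (span {(p : O)}).IsPrime) :=
  ⟨EisLike.exists_split ⟨hrel, hex, hindep⟩ hp, EisLike.isPrime_inert ⟨hrel, hex, hindep⟩ hp⟩

/-- (12c) `Eis`, the subring `ℤ[ω]` of `ℂ`, is a principal ideal ring, and the ideal `(x)` has norm
`|x|²`. So a function of the elements which depends only on the ideal is a function of the ideals.
Files H91ZEis, H91ZICT. -/
theorem eisenstein_integers :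
    (∀ z : ℂ, z ∈ Eis ↔ ∃ a b : ℤ, z = a + b * ((-1 + (Real.sqrt 3 : ℂ) * Complex.I) / 2)) ∧
    IsPrincipalIdealRing Eis ∧
    ∀ x : Eis, ((absNorm (span {x}) : ℕ) : ℝ) = Complex.normSq (x : ℂ) :=
  ⟨isEis, isEis.isPrincipalIdealRing, absNorm_span_Eis⟩

/-- (13) Ideals of a ring `O = ℤ ⊕ ℤ om`, `om² + om + 1 = 0` (so `O = ℤ[ω]`; the splitting of the primes
is (12b)): a multiplicative function `c` of the ideals with the Hecke recursion at the primes not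
dividing `3N`, `c = 0` at the ideals not prime to `3N`, known values at the primes over `A` and `B`,
and the value `0` at the other primes `p ≡ 2 mod 3` not dividing `N`, gives the data (6) with
`d(n) = c((n))` and `l(n) = ∑_{N𝔞 = n} c(𝔞)²` (`fib O n` is the finite set of the ideals of norm `n`).
File H62N2. -/
theorem asaiData_of_ideals {O : Type*} [CommRing O] [IsDedekindDomain O] [Module.Free ℤ O]
    [Module.Finite ℤ O] [CharZero O] {om : O} {N : ℕ} {c : Ideal O → ℝ}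
    (hrel : om ^ 2 + om + 1 = 0) (hex : ∀ x : O, ∃ a b : ℤ, x = a + b * om)
    (hindep : ∀ a b : ℤ, (a : O) + b * om = 0 → a = 0 ∧ b = 0)
    (htop : c ⊤ = 1) (hmul : ∀ a b : Ideal O, IsCoprime a b → c (a * b) = c a * c b)
    (hrec : ∀ v : Ideal O, v.IsPrime → v ≠ ⊥ → IsCoprime v (span {((3 * N : ℕ) : O)}) →
      ∀ k, c (v ^ (k + 2)) = c v * c (v ^ (k + 1)) - c (v ^ k))
    (hbad : ∀ a : Ideal O, ¬ IsCoprime a (span {((3 * N : ℕ) : O)}) → c a = 0) {A B : Set ℕ}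
    (hA : ∀ p ∈ A, p.Prime ∧ ¬ p ∣ 3 * N ∧ p % 3 = 1 ∧
      ((∀ v : Ideal O, absNorm v = p → c v = 2) ∨ (∀ v : Ideal O, absNorm v = p → c v = -2)))
    (hB : ∀ p ∈ B, p.Prime ∧ ¬ p ∣ 3 * N ∧ p % 3 = 2 ∧ c (span {(p : O)}) = 2)
    (hnB : ∀ p : ℕ, p.Prime → ¬ p ∣ 3 * N → p % 3 = 2 → p ∉ B → c (span {(p : O)}) = 0) :
    ∃ t t' : ℕ → ℝ, AsaiData N t t' A B (fun n => c (span {(n : O)}))
      (fun n => ∑ I ∈ fib O n, c I ^ 2) :=
  exists_asaiData ⟨hrel, hex, hindep⟩ ⟨htop, hmul, hrec, hbad⟩ hA hB hnB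

/-- (13a) Bessel's inequality for an absolutely convergent double Fourier series with pairwise different
frequencies `e(i) ∈ ℤ²`: if the sum is bounded by `B`, then `∑_{i ∈ S} |a(i)|² ≤ B²` for every finite
`S`. File H37NBessel. -/
theorem bessel_inequality {ι : Type*} {e : ι → ℤ × ℤ} (he : Function.Injective e) {a : ι → ℂ}
    (ha : Summable fun i => ‖a i‖) {B : ℝ}
    (hB : ∀ x : ℝ × ℝ, ‖∑' i : ι, a i * Complex.exp
      (2 * Real.pi * Complex.I * ((e i).1 * x.1 + (e i).2 * x.2))‖ ≤ B) (S : Finset ι) :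
    ∑ i ∈ S, ‖a i‖ ^ 2 ≤ B ^ 2 :=
  Fermat.Agent.H37N.bessel he ha hB S

/-- (14) The mean square of the coefficients of a BOUNDED function: `∑_{|α|² ≤ X} c(α)² ≤ C X`, from
`|F| ≤ B` and Bessel's inequality on one horosphere at height `X^{-1/2}`. This replaces the
Rankin-Selberg method. `Eis` is the subring `ℤ[ω]` of `ℂ`. File H37NIct. -/
theorem mean_square {N : ℕ} {c : Eis → ℝ} {F : H3 → ℂ} (h : ICT N c F) :
    ∃ C : ℝ, 0 ≤ C ∧ ∀ X : ℝ, 0 < X → ∀ T : Finset Eis,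
      (∀ α ∈ T, α ≠ 0 ∧ Complex.normSq (α : ℂ) ≤ X) → ∑ α ∈ T, c α ^ 2 ≤ C * X :=
  Fermat.Agent.H37N.ict_mean_square h

/-- (14a) Partial summation: `l ≥ 0` and `∑_{n ≤ X} l(n) ≤ C (X + 1)` for all `X` imply
`∑ l(n) n^{-s} ≤ CL/(s-1)` for `1 < s ≤ 2`. Files H37NPartial, H37NReal. -/
theorem partial_summation {l : ℕ → ℝ} (hl0 : ∀ n, 0 ≤ l n) {C : ℝ}
    (hl : ∀ X : ℕ, ∑ n ∈ Finset.range (X + 1), l n ≤ C * (X + 1)) :
    ∃ CL : ℝ, ∀ s : ℝ, 1 < s → s ≤ 2 → Summable (fun n : ℕ => l n * (n : ℝ) ^ (-s)) ∧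
      ∑' n : ℕ, l n * (n : ℝ) ^ (-s) ≤ CL / (s - 1) :=
  Fermat.Agent.H37N.exists_dirichlet_bound hl0 hl

/-- (15) Hence `L(s) ≤ CL/(s-1)` for `1 < s ≤ 2`. `cI c 𝔞` is the value of `c` at a generator of `𝔞`.
File H91ZFinal. -/
theorem mean_square_dirichlet {N : ℕ} {c : Eis → ℝ} {F : H3 → ℂ} (h : ICT N c F) :
    ∃ CL : ℝ, ∀ s : ℝ, 1 < s → s ≤ 2 →
      Summable (fun n : ℕ => (∑ I ∈ fib Eis n, cI c I ^ 2) * (n : ℝ) ^ (-s)) ∧
      ∑' n : ℕ, (∑ I ∈ fib Eis n, cI c I ^ 2) * (n : ℝ) ^ (-s) ≤ CL / (s - 1) :=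
  l_bound h

/-! ### The result -/

/-- (16) The values of `c` used by block (N), unfolded: for every prime `p` not dividing `N` and every
Frobenius element `σ` at a place over `p`, `c(ϖ)` is `2`, `-2`, `0` for `ρ(σ) = 1`, `-1`, other, if
`|ϖ|² = p` and `ρ(σ)⁴ = 1` (that is, `ρ(σ) ∈ Q₈`: since `3 ∣ N` and `p` is a norm, `p ≡ 1 mod 3`, so that
`ρ(σ)` has determinant 1), and if `p ≡ 2 mod 3`, then `c(p)` is given by the same rule applied to
`ρ(σ)² ∈ Q₈`. These are the places of `ℚ(ω)` which split in `E`. File H91ZFinal. -/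
theorem valH_iff (ρ : Γℚ →* GL (Fin 2) (ZMod 3)) (N : ℕ) (c : Eis → ℝ) :
    ValH ρ N c ↔ ∀ p : ℕ, p.Prime → ¬ p ∣ N →
      ∀ A : ValuationSubring (AlgebraicClosure ℚ), A.LiesOverPrime p →
      ∀ σ : Γℚ, A.IsFrobeniusAt σ p →
        (∀ ϖ : Eis, Complex.normSq (ϖ : ℂ) = p → (ρ σ) ^ 4 = 1 →
          c ϖ = if ρ σ = 1 then 2 else if ρ σ = -1 then -2 else 0) ∧
        (p % 3 = 2 → c (p : Eis) = if (ρ σ) ^ 2 = 1 then 2 else if (ρ σ) ^ 2 = -1 then -2 else 0) :=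
  Iff.rfl

/-- (17) **BLOCK (N).** For `ρ` as in S47, `3 ∣ N`, `ICT N c F` and the values (16): the series
`D(s) = ∑_{n ≥ 1} c(n) n^{-s}` (the term `n = 0` vanishes) converges for `s > 1` near `1` and tends to
infinity for `s → 1+`. From (9)-(15) with `a = 1/25`, `b = 6/25`. Files H91ZICT, H91ZFinal. -/
theorem unbounded {N : ℕ} {c : Eis → ℝ} {F : H3 → ℂ} (h : ICT N c F) (h3 : 3 ∣ N)
    (ρ : Γℚ →* GL (Fin 2) (ZMod 3)) (hρ : Continuous ρ) (hsurj : Function.Surjective ρ)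
    (hdet : ∀ σ : Γℚ, Matrix.GeneralLinearGroup.det (ρ σ) = modThreeCyclotomicChar σ)
    (hv : ValH ρ N c) (K : ℝ) :
    ∃ s₀ : ℝ, 1 < s₀ ∧ ∀ s : ℝ, 1 < s → s < s₀ →
      Summable (fun n : ℕ => c (n : Eis) * (n : ℝ) ^ (-s)) ∧
      K < ∑' n : ℕ, c (n : Eis) * (n : ℝ) ^ (-s) :=
  asai_unbounded h h3 ρ hρ hsurj hdet hv K

/-- (18) The same in the form in which it enters the assembly of S47 (`H15S47.S47_of_left`), written
out: `BlockN`. File H91ZBlockN. -/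
theorem block_N (ρ : Γℚ →* GL (Fin 2) (ZMod 3)) (hρ : Continuous ρ)
    (hsurj : Function.Surjective ρ)
    (hdet : ∀ σ : Γℚ, Matrix.GeneralLinearGroup.det (ρ σ) = modThreeCyclotomicChar σ)
    (N : ℕ) (c : Eis → ℝ) (F : H3 → ℂ) (h3 : 3 ∣ N) (h : ICT N c F)
    (hsplit : ∀ p : ℕ, p.Prime → ¬ p ∣ N →
      ∀ A : ValuationSubring (AlgebraicClosure ℚ), A.LiesOverPrime p →
      ∀ σ : Γℚ, A.IsFrobeniusAt σ p → Matrix.GeneralLinearGroup.det (ρ σ) = 1 → (ρ σ) ^ 4 = 1 →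
        ∀ ϖ : Eis, Complex.normSq (ϖ : ℂ) = p → c ϖ = H15S47.trQ (ρ σ))
    (hinert : ∀ p : ℕ, p.Prime → ¬ p ∣ N → p % 3 = 2 →
      ∀ A : ValuationSubring (AlgebraicClosure ℚ), A.LiesOverPrime p →
      ∀ σ : Γℚ, A.IsFrobeniusAt σ p → c (p : Eis) = H15S47.trQ ((ρ σ) ^ 2)) (K : ℝ) :
    ∃ s₀ : ℝ, 1 < s₀ ∧ ∀ s : ℝ, 1 < s → s < s₀ →
      Summable (fun n : ℕ => c (n : Eis) / (n : ℝ) ^ s) ∧
      K < ∑' n : ℕ, c (n : Eis) / (n : ℝ) ^ s :=
  blockN ρ ⟨hρ, hsurj, hdet⟩ N c F h3 h hsplit hinert K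

end Fermat.Agent.Guide.OctN
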