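import Fermat.Agent.H15S47T3

/-!
# Reader's guide: block (T) of the proof of S47, the theta lift to weight one (first part)

STATEMENT. Let `K = ℚ(√-3)`, `ω = (-1 + √-3)/2`, and let `F` be a bounded continuous function on
hyperbolic three-space `H3 = {(z, y) : z ∈ ℂ, y > 0}`, invariant under `Γ₀(N) ⊂ SL₂(ℤ[ω])`, `3 ∣ N`,
with spectral parameter zero (Laplace eigenvalue `-1`), with Fourier expansion
`F(z, y) = ∑_α c(α) y K₀(4π|α|y/√3) e(Tr(α z/√-3))`, `c` multiplicative. Assume that the series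
`D(s) = ∑_{n ≥ 1} c(n) n^{-s}` tends to infinity for `s → 1+`. Then there is a nonzero cusp form
`g` of weight one with `T_p g = c(π) g` for all primes `p = π π̄` in some progression `p ≡ 1 (D)`.
This is `blockT` below; it serves S47 (and nothing else), and S47 uses nothing of this block but
`blockT` (through `H15S47.S47_of_leftHalf`).

IDEA. `g(τ) = ∫_{Γ₀(N) \ H3} F(w) Θ(τ, w) dw`, `Θ` the Siegel theta kernel of the Hermitian `2 × 2`
matrices with the quadratic form `-det`, of signature `(3, 1)`; the weight is `(3 - 1)/2 = 1`. Since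
the eigenvalue of `F` corresponds to the one of holomorphic forms of weight one, the conjugate of
`v ∂g/∂τ̄` is holomorphic; `F` decays at the cusps, so Green's formula on the standard fundamental
domain of `SL₂(ℤ)` gives `∂g/∂τ̄ = 0`. The Hecke operators are computed on the lattice.
The Fourier coefficient of `g` at `1/3` is an integral of `F` over `Γ₀(N) \ (ℍ × ℝ)`, `Γ₀(N)` over
`ℤ`; if it vanished, unfolding with the Eisenstein series of `Γ₀(N)` (for real `s > 1` only) would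
show that `D(s)` is bounded for `s → 1+`. No adeles, no theory of the Weil representation, no
Rankin-Selberg theory.

There are no quotient spaces: `∫_{Γ \ H3} f` stands for `∫_{H3} χ f` with a function `χ ≥ 0` such
that `∑_{γ ∈ Γ} χ(γ w) = 1` for all `w` (if `-1 ∈ Γ`, which acts trivially, this is half of the
integral over the quotient).

READING ORDER: this file (1 objects, 2 theorem, 3 integrals and decay, 4 theta kernel, 5 Laplace
equation, 6 constant terms, 7 holomorphy), then `GuideOctT2` (Hecke operators, nonvanishing,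
assembly). The proofs step by step, in companions by the authors of the library files:
`GuideSiegelSets` (section 3), `GuideThetaGrowth` (3, 4 and 6), `GuideThetaInversion`,
`GuideThetaClasses` and `GuideThetaCongruence` (4), `GuideThetaLaplace` (5),
`GuideThetaIsotropic` (6), `GuideHolomorphy` (7); for the second part see the header of
`GuideOctT2`. The whole proof of S47: `GuideOctahedral`; the neighbours of this block: block (N),
which supplies the hypothesis on `D(s)`: `GuideOctN`; block (Z), which goes from `g` to the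
statement of S47: `GuideOctZ`. The tools which are used here are described in `GuideHyperbolic`
(action, distance, measure), `GuideEigenfunctions` (expansion with `K₀`, constant term) and
`GuideTrace` (mean value, cut-off functions). Every library theorem and definition cited here
occurs in the proof term of `S47.result` (checked by a script). NOTES: [419] (overview), [396]
[409] [410] (theta kernel), [424] [400] [394] (reduction theory, decay, cut-offs), [423] (Laplace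
equation), [403] (Hecke operators), [404] [406] [437] (nonvanishing).
-/

set_option autoImplicit false

noncomputable section

open MeasureTheory CongruenceSubgroup Set Filter
open scoped ComplexConjugate Real UpperHalfPlane MatrixGroups ENNReal Matrix Topology

namespace Fermat.Agent.Guide.OctT

open Fermat.Agent.S47T Fermat.Agent.H47.Red

/-! ### 1. The objects -/

/-- The ring `ℤ[ω]`, `ω = (-1 + i√3)/2`, is realised as a subring `Eis` of `ℂ`.
(Definition in `H96TDef`.) -/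
theorem mem_eisenstein_iff (x : ℂ) :
    x ∈ Eis ↔ ∃ a b : ℤ, x = a + b * ((-1 + Complex.I * (Real.sqrt 3 : ℝ)) / 2) := Iff.rfl

/-- Hyperbolic three-space is the upper half space `{(z, y) : z ∈ ℂ, y > 0}`, `GL₂(ℂ)` acts by
the Poincaré extension of the Möbius action (`(c z + d)`-denominators
`|c z + d|² + |c|² y²`), and `cosh` of the distance is `H3.ch`. (`H31Hyp1`.) -/
theorem h3_action (g : GL (Fin 2) ℂ) (w w' : H3) :
    (g • w).z = ((g 0 0 * w.z + g 0 1) * conj (g 1 0 * w.z + g 1 1) +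
        g 0 0 * conj (g 1 0) * (w.y : ℂ) ^ 2) /
          ((Complex.normSq (g 1 0 * w.z + g 1 1) + Complex.normSq (g 1 0) * w.y ^ 2 : ℝ) : ℂ) ∧
      (g • w).y = ‖(g : Matrix (Fin 2) (Fin 2) ℂ).det‖ * w.y /
          (Complex.normSq (g 1 0 * w.z + g 1 1) + Complex.normSq (g 1 0) * w.y ^ 2) ∧
      H3.ch w w' = (Complex.normSq (w.z - w'.z) + w.y ^ 2 + w'.y ^ 2) / (2 * w.y * w'.y) ∧
      H3.ch (g • w) (g • w') = H3.ch w w' :=
  ⟨rfl, rfl, rfl, H3.ch_smul g w w'⟩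

/-- The measure on `H3` is `dz dy / y³`; it is invariant under `GL₂(ℂ)`. (`H31Hyp2`.) -/
theorem h3_measure (f : ℂ → ℝ → ℝ≥0∞) (hf : Measurable (Function.uncurry f))
    (g : GL (Fin 2) ℂ) :
    ∫⁻ w : H3, f w.z w.y =
        ∫⁻ y in Ioi (0 : ℝ), (∫⁻ z : ℂ, f z y) * ENNReal.ofReal ((y ^ 3)⁻¹) ∧
      MeasurePreserving (fun w : H3 => g • w) volume volume :=
  ⟨H3.lintegral_eq f hf, H3.measurePreserving_smul g⟩

/-- The group `Γ₀(N)` over `ℤ[ω]`, and the principal congruence subgroup `GamP N`.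
(`H96TDef`, `H96TIface`.) -/
theorem mem_gam_iff (N : ℕ) (g : GL (Fin 2) ℂ) : (g ∈ Gam N ↔
    (g : Matrix (Fin 2) (Fin 2) ℂ).det = 1 ∧
    (∀ i j, (g : Matrix (Fin 2) (Fin 2) ℂ) i j ∈ Eis) ∧
    ∃ x ∈ Eis, (g : Matrix (Fin 2) (Fin 2) ℂ) 1 0 = N * x) ∧
    (g ∈ GamP N ↔ (g : Matrix (Fin 2) (Fin 2) ℂ).det = 1 ∧
    ∀ i j, ∃ x ∈ Eis, (g : Matrix (Fin 2) (Fin 2) ℂ) i j =
      (1 : Matrix (Fin 2) (Fin 2) ℂ) i j + N * x) := ⟨Iff.rfl, Iff.rfl⟩

/-- The Siegel theta kernel. The index set is `ℤ × ℤ[ω] × ℤ`, the triple `(a, β, d)` stands for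
the Hermitian matrix `X = n⁻¹ (a, b; b̄, d)`, `b = β/√-3` (`sq3 = √-3 = i√3`); the quadratic form
is `-det X`, and the
pairing with the point `w = (z, y)` is `(a - 2 Re(b z̄) + d (|z|² + y²))/(2 y)` (times `n⁻¹`),
half the trace of `X` times the adjugate of the positive matrix of determinant one attached to
`w`. The term is `φ(X) e(τ (-det X)) exp(-4 π v (X, w)²)`, `v = im τ`. (`H96TDef`.) -/
theorem theta_kernel_eq (n : ℕ) (φ : ℤ × Eis × ℤ → ℂ) (τ : ℂ) (w : H3) :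
    Theta n φ τ w = (Real.sqrt τ.im : ℝ) * ∑' x : ℤ × Eis × ℤ, φ x *
      Complex.exp (2 * π * Complex.I *
        (τ * (((Complex.normSq ((x.2.1 : ℂ) / sq3) - x.1 * x.2.2) / n ^ 2 : ℝ) : ℂ))) *
      (Real.exp (-4 * π * τ.im * (((x.1 - 2 * (((x.2.1 : ℂ) / sq3) * conj w.z).re +
        x.2.2 * (Complex.normSq w.z + w.y ^ 2)) / (2 * w.y)) / n) ^ 2) : ℝ) := rfl

open Classical in
/-- The test function of the lift: the characteristic function of `N ∣ d`, `β` prime to `N`.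
(`H96TDef`.) -/
theorem test_function_eq (N : ℕ) (a d : ℤ) (β : Eis) :
    phiN N (a, β, d) = if (N : ℤ) ∣ d ∧ IsCoprime β (N : Eis) then 1 else 0 := by
  unfold phiN; split_ifs <;> rfl

/-- Cut-off functions, the replacement of a fundamental domain. (`H96TDef`.) -/
theorem isCut_iff (Γ : Subgroup (GL (Fin 2) ℂ)) (χ : H3 → ℝ) : IsCut Γ χ ↔
    Measurable χ ∧ (∀ w, 0 ≤ χ w) ∧
      ∀ w, HasSum (fun g : Γ => χ ((g : GL (Fin 2) ℂ) • w)) 1 :=
  ⟨fun h => ⟨h.meas, h.nonneg, h.sum⟩, fun h => ⟨h.1, h.2.1, h.2.2⟩⟩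

/-- The theta lift of `F`: `∫_{Γ \ H3} F Θ`, computed with a cut-off function `χ`.
(`H96TDef`.) -/
theorem lift_eq (χ : H3 → ℝ) (F : H3 → ℂ) (n : ℕ) (φ : ℤ × Eis × ℤ → ℂ) (τ : ℂ) :
    lift χ F n φ τ = ∫ w : H3, (χ w : ℂ) * (F w * Theta n φ τ w) := rfl

/-- **The interface (I-CT)**: `F` is a form of level `N` on `H3` for `ℤ[ω]` with spectral
parameter zero and coefficients `c`. The fifth condition says that every radial kernel
`κ (cosh d)` (smooth, compact support) acts on `F` by its spherical transform at the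
spectral parameter zero, `2 ∫_0^∞ (2 π ∫_{cosh u}^∞ κ(t) dt) du`. The function in the
Fourier expansion is `K₀(x) = ∫_0^∞ exp(-x cosh t) dt`. This is the output of block (C) (cubic
descent from `E` to `ℚ(√-3)`). (`H96TDef`.) -/
theorem ict_iff (N : ℕ) (c : Eis → ℝ) (F : H3 → ℂ) : ICT N c F ↔
    0 < N ∧ Continuous F ∧ (∃ C, ∀ w, ‖F w‖ ≤ C) ∧ (∀ g ∈ Gam N, ∀ w, F (g • w) = F w) ∧
    (∀ κ : ℝ → ℝ, ContDiff ℝ ((⊤ : ℕ∞) : WithTop ℕ∞) κ → HasCompactSupport κ → ∀ w,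
      ∫ w', (κ (H3.ch w w') : ℂ) * F w' =
        ((2 * ∫ u in Ioi (0 : ℝ), 2 * π * ∫ t in Ioi (Real.cosh u), κ t : ℝ) : ℂ) * F w) ∧
    (∀ w : H3, HasSum (fun α : Eis =>
      ((c α * w.y * ∫ t in Ioi (0 : ℝ),
        Real.exp (-(4 * π * ‖(α : ℂ)‖ * w.y / Real.sqrt 3 * Real.cosh t)) : ℝ) : ℂ) *
        Complex.exp (2 * π * Complex.I * ((2 * ((α : ℂ) * w.z / sq3).re : ℝ) : ℂ))) (F w)) ∧
    c 0 = 0 ∧ c 1 = 1 ∧ (∀ u α : Eis, IsUnit u → c (u * α) = c α) ∧
    (∀ α β : Eis, IsCoprime α β → c (α * β) = c α * c β) ∧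
    (∀ (ϖ : Eis) (k : ℕ), Prime ϖ → IsCoprime ϖ (N : Eis) →
      c (ϖ ^ (k + 2)) = c ϖ * c (ϖ ^ (k + 1)) - c (ϖ ^ k)) ∧
    (∀ α : Eis, ¬ IsCoprime α (N : Eis) → c α = 0) :=
  ⟨fun h => ⟨h.pos, h.cont, h.bdd, h.inv, h.eig, h.expn, h.c_zero, h.c_one, h.c_unit, h.c_mul,
    h.c_rec, h.c_supp⟩, fun ⟨h1, h2, h3, h4, h5, h6, h7, h8, h9, h10, h11, h12⟩ =>
    ⟨h1, h2, h3, h4, h5, h6, h7, h8, h9, h10, h11, h12⟩⟩

/-! ### 2. The theorem -/

/-- **Block (T).** The theta lift to weight one. `H58.T1L M 1 p` is the Hecke operator `T_p` on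
`S₁(Γ₁(M))` (written out in `GuideOctT2`). Assembly in `H15S47T`-`H15S47T3`. Used in
`H15S47.S47_of_leftHalf`, hence in `S47.result`. -/
theorem blockT (N : ℕ) (c : Eis → ℝ) (F : H3 → ℂ) (h3 : 3 ∣ N) (hF : ICT N c F)
    (hD : ∀ K : ℝ, ∃ s₀ : ℝ, 1 < s₀ ∧ ∀ s : ℝ, 1 < s → s < s₀ →
      Summable (fun n : ℕ => c (n : Eis) / (n : ℝ) ^ s) ∧
        K < ∑' n : ℕ, c (n : Eis) / (n : ℝ) ^ s) :
    ∃ (D : ℕ) (_ : 0 < D) (M : ℕ) (_ : NeZero M) (g : CuspForm (Gamma1 M) 1), g ≠ 0 ∧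
      ∀ (p : ℕ) (hp : p.Prime) (hpM : ¬ p ∣ M), p ≡ 1 [MOD D] →
        ∀ ϖ : Eis, Complex.normSq (ϖ : ℂ) = p →
          H58.T1L M 1 p hp hpM g = (c ϖ : ℂ) • g :=
  H15S47.blockT N c F h3 hF hD

/-! ### 3. Integrals over `Γ \ H3` without quotients

Step by step: `GuideSiegelSets`, `GuideThetaGrowth`. -/

/-- Reduction theory for `SL₂(ℤ[ω])` (`Gam 1`): every orbit meets the set `|z|² ≤ 1/3`,
`|z|² + y² ≥ 1`. The only inputs (`EucOrder`) are: `|a| ≥ 1` for `0 ≠ a ∈ ℤ[ω]`, and every complex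
number is at squared distance at most `1/3` of `ℤ[ω]`. Proof: translate a point of maximal height
of the orbit. (`H47RBase`; `eucOrder_Eis` in `H47RCong`.) -/
theorem reduction (w : H3) : ∃ g ∈ Gam 1, Complex.normSq (g • w).z ≤ 1 / 3 ∧
    1 ≤ Complex.normSq (g • w).z + (g • w).y ^ 2 := by
  obtain ⟨g, hg, h, -⟩ := eucOrder_Eis.exists_mem_S0 w
  exact ⟨g, H8T.mem_SLO_iff.mp hg, h⟩

/-- `Γ₀(N)` has cut-off functions, and they are integrable (finite volume). Proof: divide the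
characteristic function of a finite union of translates of the set in `reduction` (one for each
coset of `Γ₀(N)` in `SL₂(ℤ[ω])`) by the (finite) number of `γ ∈ Γ₀(N)` which map the point into
it; the volume of `{|z|² ≤ 1/3, y² ≥ 2/3}` is finite. (`H47RSiegel`, `H47RInt`, `H47RCong`,
`H47RGamP`.) -/
theorem exists_cut {N : ℕ} (hN : N ≠ 0) : ∃ χ : H3 → ℝ, IsCut (Gam N) χ ∧ Integrable χ := by
  obtain ⟨χ, h⟩ := cutEx hN
  exact ⟨χ, h, IsCut.integrable_self h (finIdx_Gam hN)⟩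

/-- The integral of an invariant function does not depend on the cut-off function (for any action
of a countable group which preserves the measure). (`H34T1`.) -/
theorem integral_independent {G X : Type*} [Group G] [Countable G] [MeasurableSpace X]
    [MulAction G X] [MeasurableConstSMul G X] {μ : Measure X} [SMulInvariantMeasure G X μ]
    {χ χ' : X → ℝ} (hm : Measurable χ) (h0 : ∀ x, 0 ≤ χ x)
    (hχ : ∀ x, HasSum (fun g : G => χ (g • x)) 1) (hm' : Measurable χ') (h0' : ∀ x, 0 ≤ χ' x)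
    (hχ' : ∀ x, HasSum (fun g : G => χ' (g • x)) 1) {f : X → ℂ} (hf : AEStronglyMeasurable f μ)
    (hinv : ∀ (g : G) x, f (g • x) = f x) (hi : Integrable (fun x => χ x • f x) μ) :
    ∫ x, χ x • f x ∂μ = ∫ x, χ' x • f x ∂μ :=
  H34T.integral_cut_eq ⟨hm, h0, hχ⟩ ⟨hm', h0', hχ'⟩ hf hinv hi

/-- Exponential decay of `F` at all cusps, uniformly: `Gam 1` is `SL₂(ℤ[ω])`. Proof (`H8T4`-`H8T6`,
with `H74C3a`-`H74C3c` for smoothness and `Δ F = -F`, and `H22ZK0*`, `H22ZFEa`-`H22ZFEd` for the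
Fourier expansion): the Fourier coefficients at a cusp are multiples of `y K₀(..)`; the constant
term is a combination of `y` and `y log y`, hence zero as `F` is bounded. -/
theorem decay {N : ℕ} {c : Eis → ℝ} {F : H3 → ℂ} (hF : ICT N c F) {y₀ : ℝ} (hy₀ : 0 < y₀) :
    ∃ C c' : ℝ, 0 < C ∧ 0 < c' ∧
      ∀ g ∈ Gam 1, ∀ w : H3, y₀ ≤ w.y → ‖F (g • w)‖ ≤ C * Real.exp (-(c' * w.y)) :=
  H8T.ict_decay hF hy₀

/-! ### 4. The theta kernel

Step by step: `GuideThetaGrowth`, `GuideThetaInversion`, `GuideThetaClasses`,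
`GuideThetaCongruence`. -/

/-- Matrices over `ℤ[ω]` act on the index set: `gL g _ x` is the index of the Hermitian matrix
`g X g^*`, `X` the matrix of `x`. (`H96TC`.) -/
theorem action_on_lattice (g : Matrix (Fin 2) (Fin 2) ℂ) (hg : ∀ i j, g i j ∈ Eis)
    (x : ℤ × Eis × ℤ) :
    !![(((gL g hg x).1 : ℝ) : ℂ), ((gL g hg x).2.1 : ℂ) / sq3;
        conj (((gL g hg x).2.1 : ℂ) / sq3), (((gL g hg x).2.2 : ℝ) : ℂ)] =
      g * !![((x.1 : ℝ) : ℂ), (x.2.1 : ℂ) / sq3; conj ((x.2.1 : ℂ) / sq3), ((x.2.2 : ℝ) : ℂ)] *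
        gᴴ := hm_gL g hg x

/-- (T1c) Invariance in `w`. Proof (`H96TC`): for `g ∈ Γ₀(N)` the map `X ↦ g X g^*` preserves
the condition of the test function (`N` divides `d`, and `β` is prime to `N`). -/
theorem theta_invariant (N : ℕ) {g : GL (Fin 2) ℂ} (hg : g ∈ Gam N) (τ : ℂ) (w : H3) :
    Theta 1 (phiN N) τ (g • w) = Theta 1 (phiN N) τ w := t1c N g hg τ w

/-- **Growth of the theta kernel.** Let `Q_w(X) = -det X + 2 (X, w)²`, in the notation of
`theta_kernel_eq` with `n = 1`; then a term of the kernel has absolute value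
`√v |φ(X)| exp(-2 π v Q_w(X))`. The series of `(1 + Q_w(X))^j exp(-ε Q_w(X))` converges and is at
most `C ht(w)^8`, where `ht Eis w` is the largest height in the orbit of `w` under `SL₂(ℤ[ω])`.
Together with `decay` this is the absolute convergence of the lift and of its derivatives in `τ`.
Proof (`H8T1`-`H8T3`): `Q_w(X)` is a sum of squares; in a Siegel set the entries of `X` are at
most `c y Q_w(X)^(1/2)`; the series is invariant under `SL₂(ℤ[ω])`. Used in `H23TH`, `H23TI`,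
`H29T7`, `H81T5e`. -/
theorem theta_growth {Q : H3 → ℤ × Eis × ℤ → ℝ}
    (hQ : ∀ w x, Q w x = Complex.normSq ((x.2.1 : ℂ) / sq3) - x.1 * x.2.2 +
      2 * ((x.1 - 2 * (((x.2.1 : ℂ) / sq3) * conj w.z).re +
        x.2.2 * (Complex.normSq w.z + w.y ^ 2)) / (2 * w.y)) ^ 2) (j : ℕ) {ε : ℝ} (hε : 0 < ε) :
    ∃ C : ℝ, 0 < C ∧ ∀ w : H3,
      Summable (fun x : ℤ × Eis × ℤ => (1 + Q w x) ^ j * Real.exp (-(ε * Q w x))) ∧
      ∑' x : ℤ × Eis × ℤ, (1 + Q w x) ^ j * Real.exp (-(ε * Q w x)) ≤ C * ht Eis w ^ 8 := by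
  obtain rfl : Q = fun w x => H8T.QW x w := by funext w x; exact hQ w x
  obtain ⟨C, hC, h⟩ := H8T.maj_ht eucOrder_Eis j hε
  exact ⟨C, hC, fun w => ⟨H8T.summable_QW j hε w, h w⟩⟩

/-- One term of the theta kernel for real `a`, `d` and complex `b` (not necessarily in the lattice):
`√v e(τ (|b|² - a d)) exp(-4 π v t²)`, `t` the pairing with the point `(z, y)`. (`H45TB`.) -/
theorem kernel_eq (τ z : ℂ) (y a : ℝ) (b : ℂ) (d : ℝ) :
    H45.TK.fK τ z y a b d = ((√τ.im : ℝ) : ℂ) *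
      Complex.exp (2 * π * Complex.I * τ * ((‖b‖ ^ 2 - a * d : ℝ) : ℂ)) *
      Complex.exp (-(4 * π * τ.im *
        ((a - 2 * (b * conj z).re + d * (‖z‖ ^ 2 + y ^ 2)) / (2 * y)) ^ 2 : ℝ)) := rfl

open H45.TK in
/-- **Inversion formula** with two real characteristics `λ = (a₀, b₀, d₀)`, `μ = (a₁, b₁, d₁)`, for
the lattice `L = α ℤ + Λ + δ ℤ` of Hermitian matrices and its dual lattice
`L' = δ⁻¹ ℤ + Λ' + α⁻¹ ℤ`. Here `Λ ⊂ ℂ` has the basis `B.e`, `Λ'` the dual basis `B.f` with respect to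
`ip x y = 2 Re(x ȳ)` (`Bin`: such a pair), `emb e x = x₀ e₀ + x₁ e₁`, `e1 x = exp(2πix)`, the terms
`fK` are written out in `kernel_eq`; the pairing of Hermitian matrices is
`(X, X') = 2 Re(b b̄') - a d' - a' d`. The factor `τ` (weight one) is exact.
Proof (`H45TA`-`H45TC`): Poisson summation in `a`, then in `b`, then backwards in `d`. -/
theorem theta_inversion (B : Bin) {α δ : ℝ} (hα : 0 < α) (hδ : 0 < δ) (a0 d0 a1 d1 : ℝ)
    (b0 b1 : ℂ) {τ : ℂ} (hτ : 0 < τ.im) (z : ℂ) {y : ℝ} (hy : 0 < y) :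
    ∑' p : ℤ × (Fin 2 → ℤ) × ℤ,
        fK (-1 / τ) z y (a0 + α * p.1) (b0 + emb B.e fun i => p.2.1 i) (d0 + δ * p.2.2) *
        e1 (ip (b0 + emb B.e fun i => p.2.1 i) b1 - (a0 + α * p.1) * d1 - (d0 + δ * p.2.2) * a1) =
      (-Complex.I * τ / (α * δ * B.vol : ℝ)) *
      ∑' p : ℤ × (Fin 2 → ℤ) × ℤ,
        fK τ z y (a1 + p.1 / δ) (b1 + emb B.f fun i => p.2.1 i) (d1 + p.2.2 / α) *
        e1 (-(ip b0 (emb B.f fun i => p.2.1 i) - a0 * (p.2.2 / α) - d0 * (p.1 / δ))) :=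
  poissonV B hα hδ a0 d0 a1 d1 b0 b1 hτ z hy

/-- (T1a) The kernel lies in the span of a finite family on which `τ ↦ τ + 1` and `τ ↦ -1/τ` act
by unitary matrices (weight one). Proof (`H98U1`-`H98U4`): the family consists of the kernels of
the classes of a lattice modulo its dual lattice; the matrix of `τ ↦ -1/τ` is a finite Fourier
transform times a constant by `theta_inversion`. It is unitary by the orthogonality of
characters, the number of classes is found by applying `τ ↦ -1/τ` twice at `τ = i`. All steps: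
`GuideThetaClasses`, sections 1-5. -/
theorem theta_unitary_family (N : ℕ) (hN : 0 < N) :
    ∃ (m : ℕ) (_ : 0 < m) (I : Type) (_ : Fintype I) (_ : DecidableEq I)
      (φs : I → ℤ × Eis × ℤ → ℂ) (A B : Matrix I I ℂ) (a : I → ℂ), 3 ∣ m ∧ N ∣ m ∧
      A ∈ Matrix.unitaryGroup I ℂ ∧ B ∈ Matrix.unitaryGroup I ℂ ∧
      (∀ i x, ‖φs i x‖ ≤ 1) ∧
      (∀ g ∈ GamP m, ∀ (hE : ∀ i j, (g : Matrix (Fin 2) (Fin 2) ℂ) i j ∈ Eis) i x,
        φs i (gL (g : Matrix (Fin 2) (Fin 2) ℂ) hE x) = φs i x) ∧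
      (∀ g ∈ GamP m, ∀ i τ w, 0 < τ.im → Theta N (φs i) τ (g • w) = Theta N (φs i) τ w) ∧
      (∀ i τ w, 0 < τ.im → Theta N (φs i) (τ + 1) w = ∑ j, A i j * Theta N (φs j) τ w) ∧
      (∀ i τ w, 0 < τ.im →
        Theta N (φs i) (-1 / τ) w = τ * ∑ j, B i j * Theta N (φs j) τ w) ∧
      (∀ τ w, 0 < τ.im → Theta 1 (phiN N) τ w = ∑ i, a i * Theta N (φs i) τ w) :=
  H98U.t1a_inv N hN

/-- (T1b) Modularity in `τ`, weight one, for `Γ(6 N²)`. Proof (`H49T1`-`H49T4`): the group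
generated by `τ ↦ τ + 1` and `τ ↦ τ/(3τ + 1)` acts linearly on pairs of characteristics of the
theta kernel (this group is `Γ₁(3)`, `GuideOctT2.gamma1_three_generated`), and `Γ(6 N²)` fixes
the characteristics which occur; no Gauss sums. -/
theorem theta_modular {N : ℕ} (hN : 0 < N) {γ : SL(2, ℤ)} (hγ : γ ∈ Gamma (6 * N ^ 2)) (τ : ℍ)
    (w : H3) : Theta 1 (phiN N) ((γ • τ : ℍ) : ℂ) w =
      ((γ 1 0 : ℤ) * (τ : ℂ) + (γ 1 1 : ℤ)) * Theta 1 (phiN N) τ w :=
  H49T.Theta_phiN_congr hN hγ τ w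

/-! ### 5. The Laplace equation of the lift

Step by step: `GuideThetaLaplace`. -/

/-- The Laplace operator of `H3` is `y² (∂²/∂x₁² + ∂²/∂x₂² + ∂²/∂y²) - y ∂/∂y`, `z = x₁ + i x₂`
(`H74.C3.pt z y` is the point `(z, y)`). (`H74C3a`.) -/
theorem laplace_eq (F : H3 → ℂ) (w : H3) : H74.C3.Lap F w =
    (w.y : ℂ) ^ 2 * (deriv (deriv fun t : ℝ => F (H74.C3.pt (w.z + t) w.y)) 0 +
      deriv (deriv fun t : ℝ => F (H74.C3.pt (w.z + t * Complex.I) w.y)) 0 +
      deriv (deriv fun t : ℝ => F (H74.C3.pt w.z t)) w.y) -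
    w.y * deriv (fun t : ℝ => F (H74.C3.pt w.z t)) w.y := rfl

/-- **The Laplace equation of one term of the theta kernel.** For real `q`, `m` put
`H98T.th q m τ = √v e(q τ) exp(-2 π v (m - q))`. With `q = r (|b|² - a d)` and
`m = q + 2 r t²`, `t` the pairing of `(a, b; b̄, d)` with `w`, this is a term `θ(τ, w)` of the
kernel. Then `(Δ_w + 1) θ = 16 v ∂/∂τ (v ∂θ/∂τ̄)`; the common value is `H98T.pT q m τ`. In
the second part `v ∂θ/∂τ̄ = (i/2) (1/2 - 2 π v (m - q)) θ`, and `A dτ + B dv` is its real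
derivative, so that `∂/∂τ` of it is `A - (i/2) B`. (`H23TC`, `H98T1`.) -/
theorem laplace_theta_term (r a d : ℝ) (b : ℂ) {q : ℝ} (hq : q = r * (Complex.normSq b - a * d))
    {m : H3 → ℝ} (hm : ∀ w, m w = q + 2 * (r * ((a - 2 * (b * conj w.z).re +
      d * (Complex.normSq w.z + w.y ^ 2)) / (2 * w.y)) ^ 2)) {τ : ℂ} (hτ : 0 < τ.im) (w : H3) :
    H74.C3.Lap (fun w => H98T.th q (m w) τ) w + H98T.th q (m w) τ = H98T.pT q (m w) τ ∧
    ∃ A B : ℂ, HasFDerivAt (fun τ : ℂ =>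
        (Complex.I / 2) * (1 / 2 - 2 * π * τ.im * (m w - q)) * H98T.th q (m w) τ)
      (A • ContinuousLinearMap.id ℝ ℂ + B • Complex.ofRealCLM.comp Complex.imCLM) τ ∧
      A - Complex.I / 2 * B = 1 / (16 * τ.im) * H98T.pT q (m w) τ := by
  obtain rfl : m = _ := funext hm
  subst hq
  exact ⟨H23T.Lap_th r a d b τ w, _, _, H98T.hasFDerivAt_xt _ _ hτ, H98T.aX_sub_bX _ _ hτ⟩

/-- (T3) The analytic input for the lift `g` of a test function invariant under the principal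
congruence subgroup `GamP m`: there is `ξ` (`= v ∂g/∂τ̄`) with
`dg = a dτ + (2/i)(ξ/v) dv`, the conjugate of `ξ` is holomorphic, and `g`, `ξ` decay
exponentially for `v → ∞`. (`dτ̄ = dτ - 2i dv`, so the coefficient of `dv` is `-2i ∂g/∂τ̄`.)
Proof: the last theorem, and `∫ F (Δ_w + 1) Θ = 0` (`H23TB`-`H23TJ`): `F` is an eigenfunction of
a smooth radial kernel `κ` with nonzero eigenvalue; Green's formula for every single term moves
`Δ_w + 1` from `θ` to `κ`, and `(t² - 1) κ'' + 3 t κ' + κ` has eigenvalue zero (next theorem). `F`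
is never differentiated, and there is no Laplacian on the quotient. The decay (`H60THdec`,
`H8T1`-`H8T3`, `H8T6`, `H34T4`): isotropic vectors and the vector zero contribute zero. The
differentiation under the integral sign: `GuideThetaClasses`, section 6. -/
theorem lift_laplace {N m : ℕ} {c : Eis → ℝ} {F : H3 → ℂ} (hI : ICT N c F) (hm : 0 < m)
    (h3 : 3 ∣ m) (hNm : N ∣ m) {φ : ℤ × Eis × ℤ → ℂ} (hφ : ∀ x, ‖φ x‖ ≤ 1)
    (hinv : ∀ g ∈ GamP m, ∀ (hE : ∀ i j, (g : Matrix (Fin 2) (Fin 2) ℂ) i j ∈ Eis) x,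
      φ (gL (g : Matrix (Fin 2) (Fin 2) ℂ) hE x) = φ x) {χ : H3 → ℝ} (hχ : IsCut (GamP m) χ) :
    ∃ (ξ : ℂ → ℂ) (C c' : ℝ), 0 < c' ∧
      (∀ τ : ℂ, 0 < τ.im → ∃ a : ℂ, HasFDerivAt (lift χ F N φ)
        (a • ContinuousLinearMap.id ℝ ℂ +
          (2 / Complex.I * (ξ τ / τ.im)) • Complex.ofRealCLM.comp Complex.imCLM) τ) ∧
      DifferentiableOn ℂ (fun τ => conj (ξ τ)) {τ | 0 < τ.im} ∧
      ∀ τ : ℂ, 1 / 2 ≤ τ.im → ‖lift χ F N φ τ‖ ≤ C * (√τ.im * Real.exp (-(c' * τ.im))) ∧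
        ‖ξ τ‖ ≤ C * (√τ.im * Real.exp (-(c' * τ.im))) := by
  have h := H93.TAsm.tdata hI hm hNm hφ hinv hχ
  obtain ⟨C, _, hC⟩ := H60T.hdec (Nat.le_of_dvd hm h3) h (fun g x => by
    rw [H60T.smul_eq_gL]; exact hinv g g.2 _ x)
  refine H93.TAsm.liftOK_of_TData h ⟨C, π / 2 * (1 / (3 * (N : ℝ) ^ 2)), ?_, hC⟩
  have : (0 : ℝ) < N := by exact_mod_cast hI.pos
  positivity

/-- The eigenvalue of the kernel `(t² - 1) κ'' + 3 t κ' + κ` (which is `κ` differentiated by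
`Δ + 1`) at the spectral parameter zero is zero. (`H23TE`; `H34T5` identifies the kernel with `L κ + κ`,
`L` the radial part of the Laplace operator in `H74C3a`; used in `lift_laplace`.) -/
theorem radial_kernel_eigenvalue_zero {κ : ℝ → ℝ} (hκ : ContDiff ℝ ((⊤ : ℕ∞) : WithTop ℕ∞) κ)
    (hs : HasCompactSupport κ) :
    2 * ∫ u in Ioi (0 : ℝ), 2 * π * ∫ t in Ioi (Real.cosh u),
      ((t ^ 2 - 1) * deriv (deriv κ) t + 3 * t * deriv κ t + κ t) = 0 := H23T.kap0_L1 hκ hs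

/-- The nonzero isotropic vectors `X` of the lattice are `t v v^*`, `v` the first column of some
`g ∈ SL₂(ℤ[ω])`, and the pairing of `X` with `g w` depends only on the height of `w`; so their
contribution to the lift is an integral of constant terms of `F`. (`H60TIso`; used in
`lift_laplace`.) -/
theorem isotropic_vector {a d : ℤ} {β : Eis} (h0 : (a, β, d) ≠ (0 : ℤ × Eis × ℤ))
    (hq : Complex.normSq ((β : ℂ) / sq3) - a * d = 0) :
    ∃ g ∈ Gam 1, ∃ t : ℝ, t ≠ 0 ∧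
      !![((a : ℝ) : ℂ), (β : ℂ) / sq3; conj ((β : ℂ) / sq3), ((d : ℝ) : ℂ)] =
        (g : Matrix (Fin 2) (Fin 2) ℂ) * !![(t : ℂ), 0; 0, 0] *
          (g : Matrix (Fin 2) (Fin 2) ℂ)ᴴ ∧
      ∀ w : H3, (a - 2 * (((β : ℂ) / sq3) * conj (g • w).z).re +
        d * (Complex.normSq (g • w).z + (g • w).y ^ 2)) / (2 * (g • w).y) = t / (2 * w.y) := by
  obtain ⟨g, hg, t, ht, h⟩ := H60T.exists_iso h0 hq
  exact ⟨g, H8T.mem_SLO_iff.mp hg, t, ht, h, H60T.pL_iso hg h⟩

/-! ### 6. Constant terms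

Step by step: `GuideThetaGrowth`, `GuideThetaIsotropic`. -/

/-- The constant terms of a bounded eigenfunction with spectral parameter zero (as in `ict_iff`)
vanish at all cusps: integral over a fundamental domain of the translations by `m ℤ[ω]`, `H60T.eisB m`
being the basis `m`, `m ω`. (`H8T6`, from `H22ZFEd`.) -/
theorem constant_term_zero {F : H3 → ℂ} (hc : Continuous F) (heig : ∀ κ : ℝ → ℝ,
      ContDiff ℝ ((⊤ : ℕ∞) : WithTop ℕ∞) κ → HasCompactSupport κ → ∀ w,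
      ∫ w', (κ (H3.ch w w') : ℂ) * F w' =
        ((2 * ∫ u in Ioi (0 : ℝ), 2 * π * ∫ t in Ioi (Real.cosh u), κ t : ℝ) : ℂ) * F w)
    (hb : ∃ M, ∀ w, ‖F w‖ ≤ M) {m : ℕ} (hm : 0 < m)
    (hinv : ∀ g ∈ GamP m, ∀ w, F (g • w) = F w) {g : GL (Fin 2) ℂ} (hg : g ∈ Gam 1) {y : ℝ}
    (hy : 0 < y) :
    ∫ z in ZSpan.fundamentalDomain (H60T.eisB m hm), F (g • (⟨z, y, hy⟩ : H3)) = 0 :=
  H8T.const_of_GamP hc heig hb hm hinv hg hy

/-- The mean value of such a function over `Γ \ H3` is zero: a suitable nonnegative radial kernel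
has different eigenvalues on `F` and on the constant function. (`H34T4`; this is the vector
`X = 0` in the lift.) -/
theorem mean_value_zero {Γ : Subgroup (GL (Fin 2) ℂ)} [Countable Γ] {χ : H3 → ℝ}
    (h : IsCut Γ χ) {F : H3 → ℂ} (hF : AEStronglyMeasurable F)
    (hinv : ∀ g ∈ Γ, ∀ w, F (g • w) = F w) (heig : ∀ κ : ℝ → ℝ,
      ContDiff ℝ ((⊤ : ℕ∞) : WithTop ℕ∞) κ → HasCompactSupport κ → ∀ w,
      ∫ w', (κ (H3.ch w w') : ℂ) * F w' =
        ((2 * ∫ u in Ioi (0 : ℝ), 2 * π * ∫ t in Ioi (Real.cosh u), κ t : ℝ) : ℂ) * F w) :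
    ∫ w, (χ w : ℂ) * F w = 0 := H34T.qint_eq_zero_of_eig h hF hinv heig

/-! ### 7. The lift is holomorphic

Step by step: `GuideHolomorphy`. -/

/-- **Green's formula on the fundamental domain of `SL₂(ℤ)`.** Let `H` be real differentiable, of
weight two under `τ ↦ τ + 1` and `τ ↦ -1/τ`, exponentially decreasing for `Im τ ≥ 1/2`, and let
`2 ∂H/∂τ̄` be a continuous function `P ≥ 0`. Then `P = 0` on the fundamental domain `|Re τ| ≤ 1/2`,
`|τ| ≥ 1`, whose points are `u + i (√(1 - u²) + t)`, `t ≥ 0`. Proof (`H93TGreen`): `∫ P` over the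
truncated domain is `-i` times the boundary integral of `H dτ`; the two vertical sides cancel, so
do the two halves of the arc, and the upper side tends to zero. -/
theorem green_vanishing {H : ℂ → ℂ} {P : ℂ → ℝ}
    (hd : ∀ z : ℂ, 0 < z.im → DifferentiableAt ℝ H z)
    (hP : ∀ z : ℂ, 0 < z.im → fderiv ℝ H z 1 + Complex.I * fderiv ℝ H z Complex.I = (P z : ℂ))
    (hPc : ContinuousOn P {z | 0 < z.im}) (hP0 : ∀ z : ℂ, 0 < z.im → 0 ≤ P z)
    (hT : ∀ z : ℂ, 0 < z.im → H (z + 1) = H z)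
    (hS : ∀ z : ℂ, 0 < z.im → H (-z⁻¹) = z ^ 2 * H z)
    {C c : ℝ} (hc : 0 < c)
    (hdec : ∀ z : ℂ, 0 < z.im → 1 / 2 ≤ z.im → ‖H z‖ ≤ C * Real.exp (-c * z.im))
    {u t : ℝ} (hu1 : -1 / 2 ≤ u) (hu2 : u ≤ 1 / 2) (ht : 0 ≤ t) :
    P ⟨u, Real.sqrt (1 - u ^ 2) + t⟩ = 0 :=
  H93.THol.green_zero hd hP hPc hP0 hT hS hc hdec (x := (u, t)) hu1 hu2 ht

/-- **Holomorphy criterion.** A finite family `g i` of functions of weight one on which `SL₂(ℤ)`
acts by unitary matrices, with antiholomorphic `ξ i = v ∂(g i)/∂τ̄` and exponential decay,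
is holomorphic and `√v |g i|` is bounded. Proof (`H93THol`, `H93THol2`): `green_vanishing` for
`∑ g i conj(ξ i)`, which has weight two, and whose `2 ∂/∂τ̄` is `(2/v) ∑ |ξ i|²`; the bound on
`√v |g i|` follows from the invariance of `v ∑ |g i|²` under `SL₂(ℤ)`. -/
theorem holomorphy_criterion {ι : Type*} [Fintype ι] [DecidableEq ι] {A B : Matrix ι ι ℂ}
    {g ξ : ι → ℂ → ℂ} (hA : A ∈ Matrix.unitaryGroup ι ℂ) (hB : B ∈ Matrix.unitaryGroup ι ℂ)
    (hg : ∀ i (τ : ℂ), 0 < τ.im → ∃ a : ℂ, HasFDerivAt (g i)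
      (a • ContinuousLinearMap.id ℝ ℂ +
        (2 / Complex.I * (ξ i τ / τ.im)) • Complex.ofRealCLM.comp Complex.imCLM) τ)
    (hξ : ∀ i, DifferentiableOn ℂ (fun τ => conj (ξ i τ)) {τ | 0 < τ.im})
    (hT : ∀ i τ, 0 < τ.im → g i (τ + 1) = ∑ j, A i j * g j τ)
    (hS : ∀ i τ, 0 < τ.im → g i (-1 / τ) = τ * ∑ j, B i j * g j τ)
    {C c : ℝ} (hc : 0 < c)
    (hdec : ∀ i τ, 1 / 2 ≤ τ.im → ‖g i τ‖ ≤ C * (√τ.im * Real.exp (-(c * τ.im))) ∧
      ‖ξ i τ‖ ≤ C * (√τ.im * Real.exp (-(c * τ.im)))) :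
    (∀ i, DifferentiableOn ℂ (g i) {τ | 0 < τ.im}) ∧
      ∃ K : ℝ, ∀ i τ, 0 < τ.im → ‖g i τ‖ ≤ K / √τ.im :=
  H93.THol.thol hA hB hg hξ hT hS hc hdec

/-- (T-HOL) The lift is holomorphic and `√v |g|` is bounded. From `theta_unitary_family`,
`lift_laplace` and `holomorphy_criterion`; the group of the family is `GamP m`, that of the lift
`Gam N`, and the two integrals differ by the index. (`H93TAsm`, `H93TFin`, `H15S47T3`.) -/
theorem lift_holomorphic {N : ℕ} {c : Eis → ℝ} {F : H3 → ℂ} (h3 : 3 ∣ N) (hF : ICT N c F)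
    {χ : H3 → ℝ} (hχ : IsCut (Gam N) χ) :
    DifferentiableOn ℂ (lift χ F 1 (phiN N)) {τ | 0 < τ.im} ∧
      ∃ C : ℝ, ∀ τ : ℂ, 0 < τ.im → ‖lift χ F 1 (phiN N) τ‖ ≤ C / Real.sqrt τ.im :=
  H15S47.pieceHol N c F h3 hF χ hχ

end Fermat.Agent.Guide.OctT
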