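import Fermat.Agent.H15S47T3

/-!
# Reader's guide: block (T) of the proof of S47, second part (Hecke operators, nonvanishing)

Continues `GuideOctT`, where the objects are written out: `Eis` is the ring `ℤ[ω] ⊂ ℂ`, `H3`
hyperbolic three-space with the points `(z, y)`, `Gam N` the group `Γ₀(N)` over `ℤ[ω]`,
`Theta 1 (phiN N)` the theta kernel, `IsCut` a cut-off function (it replaces a fundamental
domain), `lift χ F 1 (phiN N)` the theta lift `∫ χ F Θ`, `ICT N c F` the hypotheses on the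
form `F` and its coefficients `c`.

WHAT IS SHOWN HERE. (a) `g(3 τ)` is an eigenfunction of `T_p` with eigenvalue `c(ϖ)`,
`ϖ ϖ̄ = p ∤ 3 N` (section 1). (b) `g ≠ 0` (sections 2-6), in the following steps. The coefficient
of `g` at `1/3` is a sum over the matrices `X` with `-det X = 1/3` in the support of the test
function; they form one orbit up to sign, with stabiliser `Γ₀(N) ⊂ SL₂(ℤ)`, so the coefficient
is a Gaussian-weighted integral of `F` over `Γ₀(N) \ H3` (section 2). `H3` is fibred over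
the upper half plane `ℍ`, compatibly with `SL₂(ℤ)` (section 3); integration over the fibres
gives a `Γ₀(N)`-invariant function `f` on `ℍ`, whose integral over `Γ₀(N) \ ℍ` is the
coefficient. If it vanishes, then the integrals of `f(τ) (Im τ)^s` over `0 ≤ Re τ < 1` are
bounded for `s → 1+` (section 4). But they are `2 D(s) G(s)` with `D(s) = ∑ c(n) n^{-s}` and
`G(s) → G(1) > 0` (section 5), so `D(s)` would be bounded (section 6). (c) Assembly (section 7).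
The proofs step by step: `GuideOctT2Steps` (sections 1 and 2, cut-off functions in 4),
`GuideRealEisenstein` (section 4) and `GuidePeriod` (sections 3, 5 and 6).

Every library theorem and definition cited here occurs in the proof term of `S47.result` (checked
by a script). NOTES: [403] (Hecke operators), [404] [406] [437] (nonvanishing), [419] (overview).
-/

set_option autoImplicit false

noncomputable section

open MeasureTheory CongruenceSubgroup Set Filter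
open scoped ComplexConjugate Real UpperHalfPlane MatrixGroups ENNReal Matrix Topology

namespace Fermat.Agent.Guide.OctT2

open Fermat.Agent.S47T Fermat.Agent.H47.Red

/-! ### 1. Hecke operators

Step by step: `GuideOctT2Steps`, section 1. -/

/-- The Hecke operator `T_p` on `S_k(Γ₁(M))`, `p ∤ M`, of the library (`H58Hecke1`): with
`heckeMatrix p j • τ = (τ + j)/p`, `heckeDiagMatrix p • τ = p τ` and `dia` the diamond
operator. -/
theorem heckeOperator_eq (M : ℕ) [NeZero M] (k : ℤ) (p : ℕ) (hp : p.Prime) (hpM : ¬ p ∣ M)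
    (g : CuspForm (Gamma1 M) k) (τ : ℍ) :
    H58.T1L M k p hp hpM g τ =
      (p : ℂ)⁻¹ * ∑ j ∈ Finset.range p, g (ModularForm.heckeMatrix p j • τ) +
        (p : ℂ) ^ (k - 1) * H58.dia M k p g (ModularForm.heckeDiagMatrix p • τ) := by
  rw [H58.coe_T1L, Pi.add_apply, ModularForm.heckeU_apply k hp.ne_zero,
    ModularForm.slash_heckeDiagMatrix_apply k hp.ne_zero]

/-- The `p + 1` matrices which define the Hecke operator for `ϖ` on functions on `H3`. -/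
theorem hecke_matrices (t ϖ : ℂ) (h0 : ϖ ≠ 0) :
    (H29T.alT t ϖ h0 : Matrix (Fin 2) (Fin 2) ℂ) = !![1, t; 0, ϖ] ∧
      (H3.dMat ϖ h0 : Matrix (Fin 2) (Fin 2) ℂ) = !![ϖ, 0; 0, 1] := ⟨rfl, rfl⟩

/-- The Hecke identity of the theta kernel, `p = |ϖ|²` prime to `3 N`: the `p + 1` matrices are
`(1, t; 0, ϖ)`, `0 ≤ t < p`, and `(ϖ, 0; 0, 1)`. Proof (`H29T1`, `H29T2`, `H29T4`): the maps
`X ↦ adj(α) X adj(α)^*` multiply `-det` by `p`; the number of those whose image contains `Z` is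
`1` if `p ∣ det Z`, plus `p` if `Z ∈ p L`. -/
theorem theta_hecke {N p : ℕ} {ϖ : Eis} (hp : p.Prime) (h3 : p ≠ 3) (hpN : ¬ p ∣ 3 * N)
    (hϖ : Complex.normSq (ϖ : ℂ) = p) (h0 : (ϖ : ℂ) ≠ 0) {τ : ℂ} (hτ : 0 < τ.im) (w : H3) :
    ∑ t ∈ Finset.range p, Theta 1 (phiN N) τ (H29T.alT t (ϖ : ℂ) h0 • w) +
      Theta 1 (phiN N) τ (H3.dMat (ϖ : ℂ) h0 • w) =
    Real.sqrt p * (1 / p * ∑ j ∈ Finset.range p, Theta 1 (phiN N) ((τ + 3 * j) / p) w +
      Theta 1 (phiN N) (p * τ) w) :=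
  H29T.theta_hecke (H29T.splitPrime hp h3 hϖ) hpN hτ w (H29T.summable_thT (H29T.norm_phiN_le N)
    (by rw [Complex.div_natCast_im]; exact div_pos hτ (by exact_mod_cast hp.pos)) w)

/-- The Hecke operator on `F`, from the Fourier expansion. (`H29T6`.) -/
theorem hecke_F {N p : ℕ} {ϖ : Eis} (hp : p.Prime) (h3 : p ≠ 3) (hpN : ¬ p ∣ 3 * N)
    (hϖ : Complex.normSq (ϖ : ℂ) = p) (h0 : (ϖ : ℂ) ≠ 0) {c : Eis → ℝ} {F : H3 → ℂ}
    (hF : ICT N c F) (w : H3) :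
    ∑ t ∈ Finset.range p, F (H29T.alT t (ϖ : ℂ) h0 • w) + F (H3.dMat (ϖ : ℂ) h0 • w) =
      Real.sqrt p * c ϖ * F w :=
  H29T.hecke_F (H29T.splitPrime hp h3 hϖ) hpN hF.c_zero hF.c_mul hF.c_rec hF.expn w

/-- The double coset: every matrix over `ℤ[ω]` of determinant `ϖ` with lower left entry divisible
by `N` lies in `Gam N α` for one of the `p + 1` matrices `α` of `theta_hecke`. (`H29T5`; there
it is also shown that these cosets are disjoint.) -/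
theorem hecke_cosets {N p : ℕ} {ϖ : Eis} (hp : p.Prime) (h3 : p ≠ 3) (hpN : ¬ p ∣ 3 * N)
    (hϖ : Complex.normSq (ϖ : ℂ) = p) (h0 : (ϖ : ℂ) ≠ 0) {δ : GL (Fin 2) ℂ}
    (hdet : (δ : Matrix (Fin 2) (Fin 2) ℂ).det = ϖ)
    (hint : ∀ i j, (δ : Matrix (Fin 2) (Fin 2) ℂ) i j ∈ Eis)
    (hN : ∃ x ∈ Eis, (δ : Matrix (Fin 2) (Fin 2) ℂ) 1 0 = N * x) :
    ∃ γ ∈ Gam N, δ = γ * H3.dMat (ϖ : ℂ) h0 ∨ ∃ t < p, δ = γ * H29T.alT t (ϖ : ℂ) h0 := by
  obtain ⟨γ, hγ, i, h⟩ := H29T.exists_rep (H29T.splitPrime hp h3 hϖ) hpN ⟨hdet, hint, hN⟩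
  rcases i with _ | t
  exacts [⟨γ, hγ, .inl h.symm⟩, ⟨γ, hγ, .inr ⟨t, t.2, h.symm⟩⟩]

/-- Adjointness of Hecke correspondences for cut-off integrals, in any group `G` acting on a
measure space: `Δ = ⋃ Γ α_i` (disjoint), stable under an involution which induces inverses on the
space. Both sides are `∑_{δ ∈ Δ} ∫ χ(x) χ(δ x) F(x) Θ(δ x)`. (`H29T3`.) -/
theorem hecke_adjoint {G : Type*} [Group G] {X : Type*} [MeasurableSpace X] [MulAction G X]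
    {μ : Measure X} {ι : Type*} [Fintype ι]
    (hmp : ∀ g : G, MeasurePreserving (fun x : X => g • x) μ μ)
    (Γ : Subgroup G) [Countable Γ] (α : ι → G) (Δ : Set G) (adj : G → G)
    (hmem : ∀ γ ∈ Γ, ∀ i, γ * α i ∈ Δ) (hex : ∀ δ ∈ Δ, ∃ γ ∈ Γ, ∃ i, γ * α i = δ)
    (huniq : ∀ i j, α i * (α j)⁻¹ ∈ Γ → i = j)
    (hadj : ∀ δ ∈ Δ, adj δ ∈ Δ) (hadj2 : ∀ δ ∈ Δ, adj (adj δ) = δ)
    (hadjx : ∀ δ ∈ Δ, ∀ x : X, adj δ • δ • x = x)
    {χ : X → ℝ} (hχ0 : ∀ x, 0 ≤ χ x) (hχm : Measurable χ)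
    (hχ : ∀ x, HasSum (fun γ : Γ => χ ((γ : G) • x)) 1)
    {F Θ : X → ℂ} (hF : ∀ γ ∈ Γ, ∀ x, F (γ • x) = F x) (hΘ : ∀ γ ∈ Γ, ∀ x, Θ (γ • x) = Θ x)
    (hint : ∀ i, Integrable (fun x => (χ x : ℂ) * (F x * Θ (α i • x))) μ) :
    ∫ x, (χ x : ℂ) * (F x * ∑ i, Θ (α i • x)) ∂μ =
      ∫ x, (χ x : ℂ) * ((∑ i, F (α i • x)) * Θ x) ∂μ :=
  H29T.adjoint_group hmp Γ α Δ adj hmem hex huniq hadj hadj2 hadjx hχ0 hχm hχ hF hΘ hint

/-- Adjointness of the Hecke operator for `ϖ` on `Γ₀(N) \ H3`: `hecke_adjoint` for the set `Δ` of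
the matrices in `hecke_cosets` and the involution `δ ↦ ϖ δ⁻¹`. (`H29T5`.) -/
theorem hecke_adjoint_gam {N p : ℕ} {ϖ : Eis} (hp : p.Prime) (h3 : p ≠ 3) (hpN : ¬ p ∣ 3 * N)
    (hϖ : Complex.normSq (ϖ : ℂ) = p) (h0 : (ϖ : ℂ) ≠ 0) {χ : H3 → ℝ} (hχ : IsCut (Gam N) χ)
    {F Θ : H3 → ℂ} (hF : ∀ g ∈ Gam N, ∀ w, F (g • w) = F w)
    (hΘ : ∀ g ∈ Gam N, ∀ w, Θ (g • w) = Θ w)
    (h1 : ∀ t < p, Integrable fun w => (χ w : ℂ) * (F w * Θ (H29T.alT t (ϖ : ℂ) h0 • w)))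
    (h2 : Integrable fun w => (χ w : ℂ) * (F w * Θ (H3.dMat (ϖ : ℂ) h0 • w))) :
    ∫ w, (χ w : ℂ) * (F w * (∑ t ∈ Finset.range p, Θ (H29T.alT t (ϖ : ℂ) h0 • w) +
        Θ (H3.dMat (ϖ : ℂ) h0 • w))) =
      ∫ w, (χ w : ℂ) * ((∑ t ∈ Finset.range p, F (H29T.alT t (ϖ : ℂ) h0 • w) +
        F (H3.dMat (ϖ : ℂ) h0 • w)) * Θ w) := by
  have h := H29T.adjoint_gam (H29T.splitPrime hp h3 hϖ) hpN hχ hF hΘ
    (by rintro (_ | t); exacts [h2, h1 t t.2])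
  have e (G : H3 → ℂ) (w : H3) : ∑ t ∈ Finset.range p, G (H29T.alT t (ϖ : ℂ) h0 • w) +
      G (H3.dMat (ϖ : ℂ) h0 • w) = ∑ i, G (H29T.al (H29T.splitPrime hp h3 hϖ) i • w) := by
    rw [Fintype.sum_option, add_comm, Finset.sum_range]; rfl
  simpa only [e] using h

/-- (T4) The Hecke operators of the lift: `g(3 τ)` is an eigenfunction of `T_p` (weight one)
with eigenvalue `c(ϖ)` for every `ϖ` of norm `p`, `p` prime to `3 N`. Proof (`H29T7`, `H29T8`):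
`theta_hecke`, `hecke_adjoint_gam`, `hecke_F`. -/
theorem lift_hecke {N : ℕ} {c : Eis → ℝ} {F : H3 → ℂ} (hF : ICT N c F) {χ : H3 → ℝ}
    (hχ : IsCut (Gam N) χ) (p : ℕ) (hp : p.Prime) (hpN : ¬ p ∣ 3 * N) (ϖ : Eis)
    (hϖ : Complex.normSq (ϖ : ℂ) = p) (τ : ℂ) (hτ : 0 < τ.im) :
    (∑ j ∈ Finset.range p, lift χ F 1 (phiN N) (3 * ((τ + j) / p))) / p +
      lift χ F 1 (phiN N) (3 * (p * τ)) = c ϖ * lift χ F 1 (phiN N) (3 * τ) :=
  H29T.t4_ict hF χ hχ p hp hpN ϖ hϖ τ hτ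

/-! ### 2. The coefficient at `1/3`

Step by step: `GuideOctT2Steps`, section 2. -/

/-- One orbit: a skew-Hermitian matrix `Y` over `ℤ[ω]` with `det Y = 1` and lower right entry
divisible by `N √-3` is `± g (0, 1; -1, 0) g^*` with `g ∈ SL₂(ℤ[ω])`, `N ∣ g₂₁`
(`conjE` is the complex conjugation of `ℤ[ω]`, `1 + 2 ω = √-3`). These are the vectors of norm
`1/3` in the support of the test function: `Y = √-3 X`, `X` the Hermitian matrix. (`H81T5a`,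
applied in `H81T5c`.) -/
theorem one_orbit {N : ℕ} (hN : N ≠ 0) {Y : Matrix (Fin 2) (Fin 2) Eis}
    (hskew : (Y.map conjE).transpose = -Y) (hdet : Y.det = 1)
    (hY : ((N : ℤ) : Eis) * (1 + 2 * omE) ∣ Y 1 1) :
    ∃ g : Matrix.SpecialLinearGroup (Fin 2) Eis, ((N : ℤ) : Eis) ∣ g.1 1 0 ∧
      (Y = g.1 * !![0, 1; -1, 0] * (g.1.map conjE).transpose ∨
        Y = -(g.1 * !![0, 1; -1, 0] * (g.1.map conjE).transpose)) :=
  H81.T5.one_orbit S47T.Orb.eisModel hN hskew hdet hY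

/-- The orbit: two elements `g, g'` of `Γ₀(N) ⊂ SL₂(ℤ[ω])` give the same matrix
`g (0, 1; -1, 0) g^*` if and only if `g' = g k` with `k` in the ordinary group
`Γ₀(N) ⊂ SL₂(ℤ)`, and they never give opposite matrices. (`H81T5a`: `g J g^* = ± J` means
`conj g = ± g` entrywise; the sign `-` would give `det g ∈ 3 ℤ`.) -/
theorem orbit_stabiliser {N : ℤ} {g g' : Matrix.SpecialLinearGroup (Fin 2) Eis}
    (hg : (N : Eis) ∣ g.1 1 0) (hg' : (N : Eis) ∣ g'.1 1 0) :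
    (g.1 * !![0, 1; -1, 0] * (g.1.map conjE).transpose =
        g'.1 * !![0, 1; -1, 0] * (g'.1.map conjE).transpose ↔
      ∃ k : Matrix.SpecialLinearGroup (Fin 2) ℤ, N ∣ k.1 1 0 ∧
        g' = g * Matrix.SpecialLinearGroup.map (Int.castRingHom Eis) k) ∧
      g.1 * !![0, 1; -1, 0] * (g.1.map conjE).transpose ≠
        -(g'.1 * !![0, 1; -1, 0] * (g'.1.map conjE).transpose) :=
  ⟨H81.T5.tw_J_eq_iff S47T.Orb.eisModel hg hg', H81.T5.tw_J_ne_neg' S47T.Orb.eisModel g g'⟩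

/-- The Fourier coefficient of the lift at `1/3`. Let `T w x` be `φ(x) exp(-4 π v (X, w)²)` if
`-det X = 1/3` and zero otherwise, `X` the Hermitian matrix of `x`, `φ` the test function. Then the
coefficient is an integral of `F(w) ∑_x T w x`. (`H81T5e`; the lift has the period `3`.) -/
theorem coefficient_third {N : ℕ} (hN : N ≠ 0) {χ : H3 → ℝ} (hχ : IsCut (Gam N) χ)
    {c : Eis → ℝ} {F : H3 → ℂ} (hF : ICT N c F) {v : ℝ} (hv : 0 < v)
    {T : H3 → ℤ × Eis × ℤ → ℂ}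
    (hT : ∀ w (x : ℤ × Eis × ℤ), Complex.normSq ((x.2.1 : ℂ) / sq3) - x.1 * x.2.2 = 1 / 3 →
      T w x = phiN N x * (Real.exp (-(4 * π * v * ((x.1 - 2 * (((x.2.1 : ℂ) / sq3) *
        conj w.z).re + x.2.2 * (Complex.normSq w.z + w.y ^ 2)) / (2 * w.y)) ^ 2)) : ℝ))
    (hT' : ∀ w (x : ℤ × Eis × ℤ), Complex.normSq ((x.2.1 : ℂ) / sq3) - x.1 * x.2.2 ≠ 1 / 3 →
      T w x = 0) :
    ∫ u in (0 : ℝ)..3, lift χ F 1 (phiN N) ((u : ℂ) + v * Complex.I) *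
        Complex.exp (2 * π * Complex.I * ((u * (-((1 : ℤ) : ℝ) / 3) : ℝ) : ℂ)) =
      (Real.sqrt v : ℝ) * (3 * ((Real.exp (-(2 * π * v / 3)) : ℝ) *
        ∫ w, (χ w : ℂ) * (F w * ∑' x, T w x))) := by
  obtain rfl : T = S47T.Orb.third N (S47T.Orb.gs v) := by
    funext w x; unfold S47T.Orb.third; split_ifs with h; exacts [hT w x h, hT' w x h]
  exact S47T.Orb.coef_third hχ.meas hχ.nonneg hF.cont.measurable (S47T.Orb.MV_of_decays hN hχ
    (H8T.ict_decays hF) hF.inv (fun x => by rw [phiN]; split_ifs <;> simp) hv)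

/-- Unfolding of the orbit. Let `T w x` be `φ(x) G((X, w))` if `-det X = 1/3` and zero otherwise, `X`
the Hermitian matrix of `x`, `φ` the test function, `G` an even function. Then the integral of
`F(w) ∑_x T w x` over `Γ₀(N) \ H3` (group over `ℤ[ω]`) is twice the integral of
`F(w) G(Im z/(√3 y))` over `Γ₀(N) \ H3` (group over `ℤ`; `χZ` is a cut-off function for it, and
`H90T.toC` the inclusion `SL₂(ℤ) → GL₂(ℂ)`). (`H81T5d`.) -/
theorem unfold_third {N : ℕ} (hN : N ≠ 0) {χ χZ : H3 → ℝ} (hχ : IsCut (Gam N) χ)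
    (hm : Measurable χZ) (h0 : ∀ w, 0 ≤ χZ w)
    (hs : ∀ w : H3, HasSum (fun k : Gamma0 N => χZ (H90T.toC k • w)) 1)
    {F : H3 → ℂ} (hF : Measurable F) (hinv : ∀ g ∈ Gam N, ∀ w, F (g • w) = F w)
    {G : ℝ → ℂ} (hGm : Measurable G) (hG : ∀ t, G (-t) = G t) {T : H3 → ℤ × Eis × ℤ → ℂ}
    (hT : ∀ w (x : ℤ × Eis × ℤ), Complex.normSq ((x.2.1 : ℂ) / sq3) - x.1 * x.2.2 = 1 / 3 →
      T w x = phiN N x * G ((x.1 - 2 * (((x.2.1 : ℂ) / sq3) * conj w.z).re +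
        x.2.2 * (Complex.normSq w.z + w.y ^ 2)) / (2 * w.y)))
    (hT' : ∀ w (x : ℤ × Eis × ℤ), Complex.normSq ((x.2.1 : ℂ) / sq3) - x.1 * x.2.2 ≠ 1 / 3 →
      T w x = 0)
    (hfin : ∫⁻ w, ENNReal.ofReal (χ w) * (‖F w‖ₑ * ∑' x, ‖T w x‖ₑ) ≠ ⊤) :
    ∫ w, (χ w : ℂ) * (F w * ∑' x, T w x) =
      2 * ∫ w, (χZ w : ℂ) * (F w * G (w.z.im / (Real.sqrt 3 * w.y))) := by
  obtain rfl : T = S47T.Orb.third N G := by
    funext w x; unfold S47T.Orb.third; split_ifs with h; exacts [hT w x h, hT' w x h]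
  simpa only [S47T.Orb.pL_x0] using
    (S47T.Orb.unfold_third hN hχ hm h0 hs hF hinv hGm hG hfin).2

/-- The coefficient of the lift at `1/3` is a period of `F`: if the lift vanishes identically, then
`∫ χ_Z(w) F(w) exp(-4 π v (Im z)²/(3 y²)) dw = 0` for every cut-off function `χ_Z` of the
ordinary group `Γ₀(N) ⊂ SL₂(ℤ)` acting on `H3`. Proof (`H81T5e`): `coefficient_third`, and
`unfold_third` for the Gaussian `G(t) = exp(-4 π v t²)`. -/
theorem period_eq_zero {N : ℕ} (hN : N ≠ 0) {χ χZ : H3 → ℝ} (hχ : IsCut (Gam N) χ)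
    (hm : Measurable χZ) (h0 : ∀ w, 0 ≤ χZ w)
    (hs : ∀ w : H3, HasSum (fun k : Gamma0 N => χZ (H90T.toC k • w)) 1)
    {c : Eis → ℝ} {F : H3 → ℂ} (hF : ICT N c F)
    (hzero : ∀ τ : ℂ, 0 < τ.im → lift χ F 1 (phiN N) τ = 0) {v : ℝ} (hv : 0 < v) :
    ∫ w : H3, (χZ w : ℂ) *
      (F w * ((Real.exp (-(4 * π * v * (w.z.im / (Real.sqrt 3 * w.y)) ^ 2)) : ℝ) : ℂ)) = 0 :=
  (S47T.Orb.period_eq_zero hN hχ hm h0 hs hF.cont.measurable hF.inv (H8T.ict_decays hF) hzero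
    hv).2

/-! ### 3. Coordinates on `H3`

Step by step: `GuidePeriod`. -/

/-- Coordinates `ℍ × ℝ → H3`, `(τ, r) ↦ (Re τ + i Im τ tanh r, Im τ / cosh r)`: `SL₂(ℤ)` acts on the
first factor only. They are coordinates on all of `H3`: `H90T.pt` is bijective,
`Im τ = √((Im z)² + y²)`, `sinh r = Im z / y`. (`H90TCoord`.) -/
theorem coordinates (g : SL(2, ℤ)) (τ : ℍ) (r : ℝ) :
    (H90T.pt (τ, r)).z = ⟨τ.re, τ.im * Real.tanh r⟩ ∧
      (H90T.pt (τ, r)).y = τ.im / Real.cosh r ∧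
      H90T.toC g • H90T.pt (τ, r) = H90T.pt (g • τ, r) :=
  ⟨rfl, rfl, H90T.toC_smul_pt g τ r⟩

/-- In these coordinates the measure is `dx dy / y² × cosh² r dr`. (`H90TCoord`.) -/
theorem coordinates_measure : MeasurePreserving H90T.pt ((volume : Measure ℍ).prod
    ((volume : Measure ℝ).withDensity fun r => ENNReal.ofReal (Real.cosh r ^ 2))) volume :=
  H90T.measurePreserving_pt

/-! ### 4. The upper half plane: cut-off functions, Eisenstein series, unfolding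

Step by step: `GuideOctT2Steps`, section 3, and `GuideRealEisenstein`. -/

/-- `Γ₀(N) ⊂ SL₂(ℤ)` has a measurable, nonnegative, integrable function `χ` on the upper half plane
with `∑ χ(γ τ) = 1` (measure `dx dy / y²`). Proof (`H97TCut`): divide the characteristic function
of the standard fundamental domain by the number of `γ ∈ SL₂(ℤ)` moving `τ` into it, and add its
translates by representatives of `SL₂(ℤ)/Γ₀(N)`. -/
theorem exists_cut_H2 (N : ℕ) [NeZero N] :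
    ∃ χ : ℍ → ℝ, Measurable χ ∧ (∀ τ, 0 ≤ χ τ) ∧
      (∀ τ, HasSum (fun g : Gamma0 N => χ ((g : SL(2, ℤ)) • τ)) 1) ∧ Integrable χ :=
  H97T.exists_cut N

/-- **The Eisenstein series of `Γ₀(N)`** for real `s > 1` is the sum of `(Im σ_r τ)^s` over the
coprime pairs `r = (c, d)`, `N ∣ c`, `σ_r = H99C.sec r` a matrix with bottom row `r`. Multiplied by
`∑ k^{-2s}` (`k` prime to `N`) it differs from a number `K(s)` which does not depend on `τ` by at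
most `C (Im g τ)²`, for all `g ∈ SL₂(ℤ)` with `Im g τ ≥ 1/2`, uniformly in `1 < s ≤ 2`.
Proof (`H99C1`-`H99C5`): compare the sum over each row of the lattice with the integral. -/
theorem eisenstein_estimate (N : ℕ) (hN : 0 < N) : ∃ (K : ℝ → ℝ) (C : ℝ), 0 < C ∧
    ∀ s : ℝ, 1 < s → s ≤ 2 → ∀ (τ : ℍ) (g : SL(2, ℤ)), 1 / 2 ≤ (g • τ).im →
      |(∑' k : {k : ℕ // 0 < k ∧ Nat.Coprime k N}, ((k : ℕ) : ℝ) ^ (-(2 * s))) *
        (∑' r : H99C.CPN N, (H99C.sec r.1 • τ).im ^ s) - K s| ≤ C * (g • τ).im ^ 2 :=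
  ⟨H99C.KN N, H99C.EN_estimate N hN⟩

/-- Unfolding: let `χ ≥ 0` satisfy `∑ χ(γ τ) = 1` (sum over `γ ∈ Γ₀(N)`) for every `τ`. For `u ≥ 0`
with `u(τ + 1) = u(τ)`, the sum over `r` as above of the integrals of `χ(τ) u(σ_r τ)` is the
integral of `u` over the strip `0 ≤ Re τ < 1`. (`H99C6`.) -/
theorem unfolding {N : ℕ} {χ : ℍ → ℝ≥0∞} (hχm : Measurable χ)
    (hχ : ∀ τ, ∑' g : Gamma0 N, χ ((g : SL(2, ℤ)) • τ) = 1)
    (u : ℍ → ℝ≥0∞) (hu : Measurable u) (hT : ∀ (n : ℤ) τ, u (ModularGroup.T ^ n • τ) = u τ) :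
    ∑' r : H99C.CPN N, ∫⁻ τ, χ τ * u (H99C.sec r.1 • τ) =
      ∫⁻ τ in {τ : ℍ | 0 ≤ τ.re ∧ τ.re < 1}, u τ :=
  H99C.tsum_lintegral_cut hχm hχ u hu hT

/-- **A vanishing period makes the Mellin transform bounded.** Let `f` be a measurable function on
the upper half plane, invariant under `Γ₀(N) ⊂ SL₂(ℤ)`, with `|f(τ)| ≤ C₀ (Im g τ)^{-2}` for all
`g ∈ SL₂(ℤ)`, and with vanishing integral over `Γ₀(N) \ ℍ`. Then the integrals of `f(τ) (Im τ)^s`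
over the strip `0 ≤ Re τ < 1` are bounded for `1 < s ≤ 2`. Proof (`H99C7`): by `unfolding` the
integral is that of `f` times the Eisenstein series over `Γ₀(N) \ ℍ`; multiply by
`L(s) = ∑ k^{-2s} ≥ 1` and subtract `K(s)` times the vanishing period. The rest is bounded by
`C₀ C ∫ χ`, because `|f(τ)| ≤ C₀ (Im g τ)^{-2}` at the `g` with `Im g τ ≥ 1/2`. -/
theorem bounded_of_period_zero {N : ℕ} (hN : 0 < N) {χ : ℍ → ℝ} (hχm : Measurable χ)
    (hχ0 : ∀ τ, 0 ≤ χ τ) (hχ : ∀ τ, HasSum (fun g : Gamma0 N => χ ((g : SL(2, ℤ)) • τ)) 1)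
    (hfin : Integrable χ) {f : ℍ → ℂ} (hf : Measurable f)
    (hinv : ∀ g ∈ Gamma0 N, ∀ τ, f (g • τ) = f τ) {C₀ : ℝ}
    (hdec : ∀ (g : SL(2, ℤ)) τ, ‖f τ‖ ≤ C₀ * ((g • τ).im ^ 2)⁻¹)
    (h0 : ∫ τ, (χ τ : ℂ) * f τ = 0) :
    ∃ C : ℝ, ∀ s : ℝ, 1 < s → s ≤ 2 →
      IntegrableOn (fun τ : ℍ => f τ * ((τ.im ^ s : ℝ) : ℂ)) {τ : ℍ | 0 ≤ τ.re ∧ τ.re < 1} ∧
        ‖∫ τ in {τ : ℍ | 0 ≤ τ.re ∧ τ.re < 1}, f τ * ((τ.im ^ s : ℝ) : ℂ)‖ ≤ C :=
  H99C.period_zero_bounded hN hχm hχ0 hχ hfin hf hinv hdec h0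

/-! ### 5. The Mellin transform of the integral along the fibres is `2 D(s) G(s)`

Step by step: `GuidePeriod`. -/

/-- Only the frequencies in `ℤ` survive in the mean value over `x ∈ [0, 1]`, `z = x + i u` (the
frequencies `n` and `-n` are taken together, therefore the factor `2` and the cosine; `c(0) = 0`,
`c(-n) = c(n)`). Here `κ = 4π/√3` and `H22Z.K0` is the function `K₀`. (`H90TSlice`.) -/
theorem slice {N : ℕ} {c : Eis → ℝ} {F : H3 → ℂ} (hF : ICT N c F) (u Y : ℝ) (hY : 0 < Y) :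
    HasSum (fun n : ℕ => ((2 * (c ((n + 1 : ℕ) : Eis) * (Y *
      (H22Z.K0 (4 * π / √3 * (n + 1 : ℝ) * Y) *
        Real.cos (4 * π / √3 * (n + 1 : ℝ) * u)))) : ℝ) : ℂ))
      (∫ x in (0 : ℝ)..1, F ⟨⟨x, u⟩, Y, hY⟩) := H90T.hasSum_slice hF u Y hY

/-- The integral which makes the archimedean factor positive at `s = 1`. (`H90TBess`.) -/
theorem integral_K0_cos {a : ℝ} (ha : 0 < a) (b : ℝ) :
    ∫ t in Ioi (0 : ℝ), H22Z.K0 (a * t) * Real.cos (b * t) = (π / 2) / √(a ^ 2 + b ^ 2) :=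
  H90T.integral_K0_cos ha b

/-- **The strip integral.** Let `f(τ) = ∫ F(τ, r) W(r) dr` in the coordinates of section 3. Then the
integral of `f(τ) (Im τ)^s` over the strip `0 ≤ Re τ < 1` is `2 D(s) G(s)`, where
`D(s) = ∑ c(n) n^{-s}` and, with `κ = 4π/√3`,
`G(s) = ∫∫ W(r) (cosh r)^{-1} y^{s-1} K₀(κ y / cosh r) cos(κ y tanh r) dy dr`. (`H90TUnf`; the
integral over the strip in coordinates is `H97TCoord`. This is applied to the Gaussian
`W(r) = exp(-4π (sinh r)²/3) cosh² r` of `period_eq_zero`.) -/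
theorem strip_integral {N : ℕ} {c : Eis → ℝ} {F : H3 → ℂ} (hF : ICT N c F) {W : ℝ → ℝ}
    (hW0 : ∀ r, 0 ≤ W r) (hWm : Measurable W) (hW : Integrable W)
    (hW1 : Integrable fun r => W r * Real.cosh r) {s : ℝ} (hs0 : 0 < s) (hs2 : s ≤ 2)
    (hsum : Summable fun n : ℕ => c (n : Eis) / (n : ℝ) ^ s)
    (hi : IntegrableOn (fun τ : ℍ => (∫ r, F (H90T.pt (τ, r)) * (W r : ℂ)) *
      ((τ.im ^ s : ℝ) : ℂ)) {τ : ℍ | 0 ≤ τ.re ∧ τ.re < 1}) :
    ∫ τ in {τ : ℍ | 0 ≤ τ.re ∧ τ.re < 1}, (∫ r, F (H90T.pt (τ, r)) * (W r : ℂ)) *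
        ((τ.im ^ s : ℝ) : ℂ) =
      ((2 * ((∑' n : ℕ, c (n : Eis) / (n : ℝ) ^ s) *
        ∫ p : ℝ × ℝ, W p.2 * ((Real.cosh p.2)⁻¹ * (p.1 ^ (s - 1) *
          (H22Z.K0 (4 * π / √3 / Real.cosh p.2 * p.1) *
            Real.cos (4 * π / √3 * Real.tanh p.2 * p.1))))
          ∂((volume.restrict (Ioi (0 : ℝ))).prod volume)) : ℝ) : ℂ) := by
  simpa only [H90T.G, H90T.term, H90T.kap, H90T.ff, H99C.strip, mul_one] using
    H90T.integral_strip_ff hF hW0 hWm hW hW1 hs0 hs2 hsum hi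

/-- `G(s) → G(1)` for `s → 1+`, and `G(1) = (π/2) κ^{-1} ∫ W(r) / cosh r dr` (`H90T.G κ W s` is the
double integral in `strip_integral`). So `G(1) > 0` for `W > 0`. (`H90TG`.) -/
theorem tendsto_G {κ : ℝ} (hκ : 0 < κ) {W : ℝ → ℝ} (hW0 : ∀ r, 0 ≤ W r)
    (hWm : AEStronglyMeasurable W) (hW : Integrable fun r => W r * Real.cosh r) :
    Tendsto (H90T.G κ W) (𝓝[>] 1) (𝓝 ((π / 2) / κ * ∫ r, W r * (Real.cosh r)⁻¹)) := by
  simpa only [H90T.G_one hκ hW0 hWm hW] using H90T.tendsto_G hκ hW0 hWm hW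

/-! ### 6. The lift is not zero -/

/-- The period does not vanish. With a positive weight `W` the integral over `Γ₀(N) \ ℍ` of
`f(τ) = ∫ F(τ, r) W(r) dr` is not zero if `D(s)` is unbounded: otherwise `2 D(s) G(s)` would be
bounded by `bounded_of_period_zero`. The bound `|F| ≤ C₁ ht^{-2}` is a weak form of the
exponential decay (`ht Eis w` is the largest height in the orbit of `w`). (`H90TUnf`.) -/
theorem period_ne_zero {N : ℕ} {c : Eis → ℝ} {F : H3 → ℂ} (hF : ICT N c F) {C₁ : ℝ}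
    (hdec : ∀ w, ‖F w‖ * ht Eis w ^ 2 ≤ C₁)
    (hD : ∀ K : ℝ, ∃ s₀ : ℝ, 1 < s₀ ∧ ∀ s : ℝ, 1 < s → s < s₀ →
      Summable (fun n : ℕ => c (n : Eis) / (n : ℝ) ^ s) ∧
        K < ∑' n : ℕ, c (n : Eis) / (n : ℝ) ^ s) {W : ℝ → ℝ} (hW0 : ∀ r, 0 < W r)
    (hWm : Measurable W) (hW2 : Integrable fun r => W r * Real.cosh r ^ 2) {χ : ℍ → ℝ}
    (hχm : Measurable χ) (hχ0 : ∀ τ, 0 ≤ χ τ)
    (hχ : ∀ τ, HasSum (fun g : Gamma0 N => χ ((g : SL(2, ℤ)) • τ)) 1) (hfin : Integrable χ) :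
    ∫ τ, (χ τ : ℂ) * ∫ r, F (H90T.pt (τ, r)) * (W r : ℂ) ≠ 0 :=
  H90T.period_ne_zero hF hdec hD hW0 hWm hW2 hχm hχ0 hχ hfin

/-- (T56) **The lift does not vanish.** In the coordinates above `Im z/(√3 y) = sinh r/√3`, so the
Gaussian of `period_eq_zero` (`v = 1`) and the density `cosh² r` of `coordinates_measure` give the
weight `W(r) = exp(-4 π (sinh r)²/3) cosh² r`. Integrating `F W` over `r` gives a function `f` on
`ℍ` whose Mellin transform is `2 D(s) G(s)` with `G(s) → G(1) > 0`; if the lift were zero, the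
period of `f` would be zero and `D(s)` bounded for `s → 1+`. (`H90TUnf`, `H90T56`.) -/
theorem lift_ne_zero {N : ℕ} {c : Eis → ℝ} {F : H3 → ℂ} (hF : ICT N c F)
    (hD : ∀ K : ℝ, ∃ s₀ : ℝ, 1 < s₀ ∧ ∀ s : ℝ, 1 < s → s < s₀ →
      Summable (fun n : ℕ => c (n : Eis) / (n : ℝ) ^ s) ∧
        K < ∑' n : ℕ, c (n : Eis) / (n : ℝ) ^ s) {χ : H3 → ℝ} (hχ : IsCut (Gam N) χ) :
    ∃ τ : ℂ, 0 < τ.im ∧ lift χ F 1 (phiN N) τ ≠ 0 := H90T.t56 hF hD χ hχ

/-! ### 7. Assembly -/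

/-- The group `Γ₁(3)` is generated by `τ ↦ τ + 1` and `τ ↦ τ/(3 τ + 1)`; so only two
transformations of the theta kernel have to be computed. Proof: Euclidean algorithm with
remainders of absolute value at most half of the divisor. (`H49T1`; used for
`GuideOctT.theta_modular`.) -/
theorem gamma1_three_generated :
    Gamma1 3 ≤ Subgroup.closure {ModularGroup.T, ⟨!![1, 0; 3, 1], by simp⟩} :=
  H49T.Gamma1_three_le_closure

/-- A holomorphic function of weight one for `Γ(m)` with `√v |f|` bounded gives the cusp form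
`f(m τ)` for `Γ₁(m²)`. Proof (`H93THol2`): `h(τ) = f(m τ)` is invariant under `Γ₁(m²)`, and for
`γ ∈ SL₂(ℤ)` one has `√v |(h|γ)(τ)| = √(Im γτ) |h(γτ)|`, so `h|γ = O(1/√v)` tends to zero
at `i∞`. -/
theorem exists_cuspForm (m : ℕ) [NeZero m] (f : ℂ → ℂ)
    (hf : DifferentiableOn ℂ f {τ | 0 < τ.im})
    (hb : ∃ K : ℝ, ∀ τ : ℂ, 0 < τ.im → ‖f τ‖ ≤ K / √τ.im)
    (hinv : ∀ γ ∈ Gamma m, ∀ τ : ℍ, f ((γ • τ : ℍ) : ℂ) =
      ((γ 1 0 : ℤ) * (τ : ℂ) + (γ 1 1 : ℤ)) * f τ) :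
    ∃ G : CuspForm (Gamma1 (m ^ 2)) 1, ∀ τ : ℍ, G τ = f (m * (τ : ℂ)) :=
  H93.THol.exists_cuspForm_level m f hf hb hinv

/-- **Assembly of block (T)**: holomorphy, Hecke operators and nonvanishing give the cusp form.
It is `g(K τ)`, `K = 6 N²`, of level `Γ₁(K²)`; the progression is `p ≡ 1` modulo `K²`, where the
diamond operator is trivial. The Hecke identity for `g(3 τ)` gives the one for `g(K τ)`, `3 ∣ K`,
because `g` has period `3` and `p` is prime to `K`. (`H49TOut`; used in `H15S47T`. Of the earlier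
version `H96TOut` only two unfolding lemmas are used.) -/
theorem assembly {N : ℕ} {c : Eis → ℝ} {F : H3 → ℂ} (hF : ICT N c F)
    (hHol : ∀ χ, IsCut (Gam N) χ →
      DifferentiableOn ℂ (lift χ F 1 (phiN N)) {τ | 0 < τ.im} ∧
        ∃ C : ℝ, ∀ τ : ℂ, 0 < τ.im → ‖lift χ F 1 (phiN N) τ‖ ≤ C / Real.sqrt τ.im)
    (hHecke : ∀ χ, IsCut (Gam N) χ → ∀ p : ℕ, p.Prime → ¬ p ∣ 3 * N →
      ∀ ϖ : Eis, Complex.normSq (ϖ : ℂ) = p → ∀ τ : ℂ, 0 < τ.im →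
        (∑ j ∈ Finset.range p, lift χ F 1 (phiN N) (3 * ((τ + j) / p))) / p +
          lift χ F 1 (phiN N) (3 * (p * τ)) = c ϖ * lift χ F 1 (phiN N) (3 * τ))
    (hne : ∀ χ, IsCut (Gam N) χ → ∃ τ : ℂ, 0 < τ.im ∧ lift χ F 1 (phiN N) τ ≠ 0)
    (hcut : ∃ χ, IsCut (Gam N) χ) :
    ∃ (D : ℕ) (_ : 0 < D) (M : ℕ) (_ : NeZero M) (g : CuspForm (Gamma1 M) 1), g ≠ 0 ∧
      ∀ (p : ℕ) (hp : p.Prime) (hpM : ¬ p ∣ M), p ≡ 1 [MOD D] →
        ∀ ϖ : Eis, Complex.normSq (ϖ : ℂ) = p →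
          H58.T1L M 1 p hp hpM g = (c ϖ : ℂ) • g :=
  H49T.tOut_of hF hHol hHecke hne hcut

end Fermat.Agent.Guide.OctT2
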