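import Fermat.Agent.H15S47T3

/-!
# Reader's guide: block (T) of S47, steps behind `GuideOctT2`: Hecke operators, vectors of norm 1/3

Companion of `GuideOctT2` (same notation: `Eis = ℤ[ω] ⊂ ℂ`, `H3` hyperbolic three-space with the
points `w = (z, y)`, `Gam N` the group `Γ₀(N)` over `ℤ[ω]`, `IsCut Γ χ` a cut-off function,
`ICT N c F` the hypotheses on the form `F`). Intermediate statements of:

1. the Hecke operator on the lattice of Hermitian matrices (`GuideOctT2`, section 1);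
2. the vectors of norm `1/3`, unfolding, Fourier series of the lift (`GuideOctT2`, section 2);
3. cut-off functions and the strip in the upper half plane (`GuideOctT2`, section 4).

The other companions of `GuideOctT2` are `GuideRealEisenstein` (section 4, Eisenstein series) and
`GuidePeriod` (sections 3, 5 and 6). Serves S47 only; every library constant cited here is in the
proof term of `S47.result` (checked by a script). NOTES: [403] (section 1), [406] (section 2), [437]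
[404] (section 3). Nothing imports this file.
-/

set_option autoImplicit false

noncomputable section

open MeasureTheory CongruenceSubgroup Set Filter
open scoped ComplexConjugate Real UpperHalfPlane MatrixGroups ENNReal Matrix Topology

namespace Fermat.Agent.Guide.OctT2Steps

open Fermat.Agent.S47T Fermat.Agent.H47.Red

/-! ### 1. The Hecke operator on the lattice

`R` is a domain of characteristic zero with an involution `star`, for which norms and traces are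
integers (`NormTrace`), for instance `ℤ[ω]`; a Hermitian matrix `(a, b; star b, d)` with `a, d ∈ ℤ`,
`b ∈ R` is an element of `Herm R`, and `Q X = b star b - a d`. -/

attribute [local instance] H29T.starEis H29T.normTraceEis

/-- An element `ϖ` of `ℤ[ω]` of norm `p`, `p ≠ 3` prime, is a split prime (the structure `SplitPrime`
of the next theorems): its norm is `p`, every residue class modulo `ϖ` contains an integer, and the
conjugate of `ϖ` does not divide `ϖ`. (`H29T1`, `H29T4`.) -/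
theorem split_prime {p : ℕ} (hp : p.Prime) (h3 : p ≠ 3) {ϖ : Eis}
    (hϖ : Complex.normSq (ϖ : ℂ) = p) :
    ϖ * conjE ϖ = p ∧ (∀ b : Eis, ∃ n : ℤ, ϖ ∣ b - n) ∧ ¬ conjE ϖ ∣ ϖ :=
  have h := H29T.splitPrime hp h3 hϖ
  ⟨h.mul_star, h.surj, h.ne⟩

section Herm

variable {R : Type*} [CommRing R] [StarRing R] [H29T.NormTrace R]

open H29T in
/-- **The maps of the Hecke operator** on Hermitian matrices: `X ↦ adj(α) X adj(α)^*` for
`α = (1, t; 0, ϖ)` and `α = (ϖ, 0; 0, 1)`, and multiplication by `p`. (`H29T1`.) -/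
theorem herm_maps (p t : ℕ) (ϖ : R) (X : Herm R) :
    Herm.tr p ϖ t X = ⟨p * X.a - t * NormTrace.tr (ϖ * X.b) + t ^ 2 * X.d, X.d,
      ϖ * X.b - t * X.d⟩ ∧ Herm.ti p ϖ X = ⟨X.a, p * X.d, star ϖ * X.b⟩ ∧
    Herm.sc p X = ⟨p * X.a, p * X.d, p * X.b⟩ ∧ X.Q = NormTrace.nm X.b - X.a * X.d :=
  ⟨rfl, rfl, rfl, rfl⟩

variable [IsDomain R] [CharZero R] {p : ℕ} {ϖ : R}

open H29T in
/-- The first two maps multiply `Q` by `p`, and their images are given by congruences. (`H29T1`.) -/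
theorem images (h : SplitPrime R p ϖ) (t : ℕ) (X Z : Herm R) :
    (Herm.tr p ϖ t X).Q = p * X.Q ∧ (Herm.ti p ϖ X).Q = p * X.Q ∧
    (Z ∈ Set.range (Herm.tr p ϖ t) ↔
      ϖ ∣ Z.b + t * Z.d ∧ (p : ℤ) ∣ Z.a + t * NormTrace.tr Z.b + t ^ 2 * Z.d) ∧
    (Z ∈ Set.range (Herm.ti p ϖ) ↔ star ϖ ∣ Z.b ∧ (p : ℤ) ∣ Z.d) :=
  ⟨Herm.Q_tr h t X, Herm.Q_ti h X, Herm.mem_range_tr h t Z, Herm.mem_range_ti h Z⟩

open H29T in
open Classical in
/-- **The counting lemma**: the number of the `p + 1` maps whose image contains `Z` is `1` if `p`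
divides `Q Z`, plus `p` if `Z` is divisible by `p`. (`H29T1`.) -/
theorem count (h : SplitPrime R p ϖ) (Z : Herm R) :
    ∑ t ∈ Finset.range p, (if Z ∈ Set.range (Herm.tr p ϖ t) then (1 : ℂ) else 0) +
      (if Z ∈ Set.range (Herm.ti p ϖ) then (1 : ℂ) else 0) =
    (if (p : ℤ) ∣ Z.Q then (1 : ℂ) else 0) +
      p * (if Z ∈ Set.range (Herm.sc (R := R) p) then (1 : ℂ) else 0) :=
  H29T.count h Z

open H29T in
/-- **The identity for sums over the lattice**, for a test function `φ` which is invariant under the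
maps: so the sum over the `p + 1` maps is the sum over the `X` with `p ∣ Q X`, plus `p` times the sum
over `p L`. For the theta kernel the first part is the mean value of `Θ((τ + 3 j)/p)` over `j`.
(`H29T1`, `H29T2`.) -/
theorem hecke_sum (h : SplitPrime R p ϖ) (φ : Herm R → ℂ)
    (hφt : ∀ (t : ℕ) (X : Herm R), φ (Herm.tr p ϖ t X) = φ X)
    (hφi : ∀ X : Herm R, φ (Herm.ti p ϖ X) = φ X) (hφp : ∀ X : Herm R, φ (Herm.sc p X) = φ X)
    (f : Herm R → ℂ) (hf : Summable fun X => φ X * f X) :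
    ∑ t ∈ Finset.range p, ∑' X, φ X * f (Herm.tr p ϖ t X) + ∑' X, φ X * f (Herm.ti p ϖ X) =
      (∑' X, if (p : ℤ) ∣ X.Q then φ X * f X else 0) + p * ∑' X, φ X * f (Herm.sc p X) :=
  H29T.hecke_sum h φ hφt hφi hφp f hf

variable {e : R →+* ℂ}

open H29T in
/-- **The terms of the theta kernel.** `kf e κ τ w X = e(κ τ Q(X)) exp(-4π v κ (X, w)²)`, `v = Im τ`,
for an embedding `e` of `R` compatible with conjugation, a scale `κ` and the pairing `(X, w)` of a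
matrix and a point. Moving `w` by `α = (1, t; 0, ϖ)` (`alT t ϖ`) or `α = (ϖ, 0; 0, 1)` (`dMat ϖ`) is
the same as replacing `X` by `adj(α) X adj(α)^*` and `τ` by `τ/p`; multiplication of `X` by `p`
corresponds to `p τ`. (`H29T2`.) -/
theorem kernel_terms (he : ∀ x, e (star x) = conj (e x)) (h : SplitPrime R p ϖ) (κ : ℝ) (τ : ℂ)
    (t : ℕ) (X : Herm R) (w : H3) :
    kf e κ τ w X = Complex.exp (2 * π * Complex.I * τ * ((κ * X.Q : ℝ) : ℂ)) *
      Real.exp (-(4 * π * τ.im * κ * X.pair e w ^ 2)) ∧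
    X.pair e w = (X.a - 2 * (e X.b * conj w.z).re + X.d * (Complex.normSq w.z + w.y ^ 2)) /
      (2 * w.y) ∧
    kf e κ τ (alT t (e ϖ) (e_ne h) • w) X = kf e κ (τ / p) w (Herm.tr p ϖ t X) ∧
    kf e κ τ (H3.dMat (e ϖ) (e_ne h) • w) X = kf e κ (τ / p) w (Herm.ti p ϖ X) ∧
    kf e κ (p * τ) w X = kf e κ (τ / p) w (Herm.sc p X) :=
  ⟨rfl, rfl, kf_tr he h κ τ t X w, kf_ti he h κ τ X w, kf_sc h κ τ X w⟩

open H29T in
/-- Replacing `τ/p` by `(τ + s b)/p` multiplies the term at `X` by `e(b n/p)`, `n = s κ Q(X)`, and these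
factors, `0 ≤ b < p`, sum to `p` if `p ∣ n` and to zero otherwise. (`H29T2`.) -/
theorem kernel_translates (hp : p.Prime) (h : SplitPrime R p ϖ) (κ : ℝ) (τ : ℂ) (s b : ℕ)
    (X : Herm R) (w : H3) (n : ℤ) (hn : (s : ℝ) * κ * X.Q = n) :
    kf e κ ((τ + s * b) / p) w X =
      kf e κ (τ / p) w X * Complex.exp (2 * π * Complex.I * (b * n / p)) ∧
    ∑ b ∈ Finset.range p, Complex.exp (2 * π * Complex.I * (b * n / p)) =
      if (p : ℤ) ∣ n then (p : ℂ) else 0 :=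
  ⟨kf_shift h κ τ s b X w n hn, sum_exp hp n⟩

open H29T in
/-- **The Hecke identity for the theta kernel** `Th(τ, w) = √v ∑_X φ(X) kf(τ, w, X)` of an invariant
test function `φ`, for an integer `s` such that on the support of `φ` the number `s κ Q(X)` is an
integer, divisible by `p` exactly if `Q(X)` is: the general form of `GuideOctT2.theta_hecke` (there
`κ = 1/9`, `s = 3`). (`H29T2`.) -/
theorem kernel_identity (he : ∀ x, e (star x) = conj (e x)) (h : SplitPrime R p ϖ)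
    (φ : Herm R → ℂ) (hφt : ∀ (t : ℕ) (X : Herm R), φ (Herm.tr p ϖ t X) = φ X)
    (hφi : ∀ X : Herm R, φ (Herm.ti p ϖ X) = φ X) (hφp : ∀ X : Herm R, φ (Herm.sc p X) = φ X)
    (κ : ℝ) (s : ℕ)
    (hs : ∀ X, φ X ≠ 0 → ∃ n : ℤ, (s : ℝ) * κ * X.Q = n ∧ ((p : ℤ) ∣ n ↔ (p : ℤ) ∣ X.Q))
    (τ : ℂ) (hτ : 0 < τ.im) (w : H3) (hsum : Summable fun X => φ X * kf e κ (τ / p) w X) :
    (∀ τ w, Th e κ φ τ w = (Real.sqrt τ.im : ℂ) * ∑' X, φ X * kf e κ τ w X) ∧
    ∑ t ∈ Finset.range p, Th e κ φ τ (alT t (e ϖ) (e_ne h) • w) +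
      Th e κ φ τ (H3.dMat (e ϖ) (e_ne h) • w) =
    Real.sqrt p * (1 / p * ∑ b ∈ Finset.range p, Th e κ φ ((τ + s * b) / p) w +
      Th e κ φ (p * τ) w) :=
  ⟨fun _ _ => rfl, hecke_kernel he h φ hφt hφi hφp κ s hs τ hτ w hsum⟩

end Herm

/-- **The lattice of `GuideOctT`** in this form: the index `x = (a, β, d)` of the matrix
`X = (a, β/√-3; …, d)` becomes `J x = 3 X`, with entries in `ℤ[ω]`, so `κ = 1/9`; and the theta kernel
of the test function `phiN N` is the kernel of the function `phiH N` with `phiH (J x) = phiN x`, which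
is zero outside of the image of `J`. (`H29T4`.) -/
theorem change_of_lattice (N : ℕ) (x : S47T.Lat) (w : H3) (τ : ℂ) :
    H29T.J x = ⟨3 * x.1, 3 * x.2.2, -sq3E * x.2.1⟩ ∧
    (((H29T.J x).Q : ℤ) : ℝ) = 9 * (Complex.normSq ((x.2.1 : ℂ) / sq3) - x.1 * x.2.2) ∧
    (H29T.J x).pair H29T.emb w = 3 * pL x w ∧ H29T.phiH N (H29T.J x) = phiN N x ∧
    H29T.Th H29T.emb (1 / 9) (H29T.phiH N) τ w = Theta 1 (phiN N) τ w :=
  ⟨rfl, H29T.Q_J x, H29T.pair_J x w, H29T.phiH_J N x, H29T.Th_eq N τ w⟩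

/-- The support of the test function (`3 ∣ Z.a`, `3 N ∣ Z.d`, `Z.b = -√-3 β` with `β` prime to `N`) is
invariant under the maps of the Hecke operator, if `p` does not divide `3 N`. (`H29T4`.) -/
theorem invariant_support {N p : ℕ} {ϖ : Eis} (hp : p.Prime) (h3 : p ≠ 3) (hpN : ¬ p ∣ 3 * N)
    (hϖ : Complex.normSq (ϖ : ℂ) = p) (Z : H29T.Herm Eis) :
    (H29T.Good N Z ↔ (3 : ℤ) ∣ Z.a ∧ (3 * N : ℤ) ∣ Z.d ∧
      ∃ β : Eis, Z.b = -sq3E * β ∧ IsCoprime β (N : Eis)) ∧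
    (∀ t, H29T.Good N (H29T.Herm.tr p ϖ t Z) ↔ H29T.Good N Z) ∧
    (H29T.Good N (H29T.Herm.ti p ϖ Z) ↔ H29T.Good N Z) ∧
    (H29T.Good N (H29T.Herm.sc p Z) ↔ H29T.Good N Z) :=
  have h := H29T.splitPrime hp h3 hϖ
  ⟨Iff.rfl, fun t => H29T.good_tr h hpN t Z, H29T.good_ti h hpN Z, H29T.good_sc h hpN Z⟩

/-- **The coefficients** of `F` satisfy the Hecke relations for all arguments, from multiplicativity
and the recursion for prime powers; the additive characters `α ↦ e(Tr(α t/(ϖ √-3)))`, `0 ≤ t < p`,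
sum to `p` if `ϖ ∣ α` and to zero otherwise. This proves `GuideOctT2.hecke_F`. (`H29T6`.) -/
theorem coefficient_relation {N p : ℕ} {ϖ : Eis} (hp : p.Prime) (h3 : p ≠ 3) (hpN : ¬ p ∣ 3 * N)
    (hϖ : Complex.normSq (ϖ : ℂ) = p) {c : Eis → ℝ} {F : H3 → ℂ} (hF : ICT N c F) (α : Eis) :
    c (ϖ * (ϖ * α)) + c α = c ϖ * c (ϖ * α) ∧ (¬ ϖ ∣ α → c (ϖ * α) = c ϖ * c α) ∧
    ∑ t ∈ Finset.range p, ee ((2 * ((α : ℂ) * ((t : ℂ) / ϖ) / sq3).re : ℝ)) =
      (open Classical in if ϖ ∣ α then (p : ℂ) else 0) :=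
  have h := H29T.splitPrime hp h3 hϖ
  have h' := H29T.c_hecke h hpN hF.c_zero hF.c_mul hF.c_rec
  ⟨h'.1 α, h'.2 α, H29T.sum_ee h α⟩

/-- `ϖ` is prime, and every nonzero element of `ℤ[ω]` is a power of `ϖ` times an element which is not
divisible by `ϖ`. (`H29T6`.) -/
theorem prime_power {p : ℕ} {ϖ : Eis} (hp : p.Prime) (h3 : p ≠ 3)
    (hϖ : Complex.normSq (ϖ : ℂ) = p) {x : Eis} (hx : x ≠ 0) :
    Prime ϖ ∧ ∃ (k : ℕ) (y : Eis), x = ϖ ^ k * y ∧ ¬ ϖ ∣ y :=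
  ⟨H29T.prime_pi (H29T.splitPrime hp h3 hϖ), H29T.exists_pow (H29T.splitPrime hp h3 hϖ) hx⟩

/-- **The Fourier terms** of `F` at the points `(1, t; 0, ϖ) w = ((z + t)/ϖ, y/√p)`, `0 ≤ t < p`: their
sum is `p` times the term at `(z/ϖ, y/√p)` if `ϖ` divides the index `α`, and zero otherwise (`K0` is
the Bessel function `K₀`). (`H29T6`.) -/
theorem fourier_terms {p : ℕ} {ϖ : Eis} (h : H29T.SplitPrime Eis p ϖ) (c : Eis → ℝ) (w : H3)
    (α : Eis) :
    ∑ t ∈ Finset.range p, fterm c (H29T.alT t (ϖ : ℂ) (H29T.coe_ne h) • w) α =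
      (open Classical in if ϖ ∣ α then (p : ℂ) else 0) *
      ((c α * (w.y / Real.sqrt p * K0 (4 * π * ‖(α : ℂ)‖ * (w.y / Real.sqrt p) / Real.sqrt 3)) : ℝ) *
        ee ((2 * ((α : ℂ) * (w.z / ϖ) / sq3).re : ℝ))) :=
  H29T.sum_fterm h c w α

/-- **Integrability** of `χ F Θ(g ·)` for an integral matrix `g`, if `F` decays exponentially in the
height `ht Eis w`, the largest `y` in the orbit of `w` under `SL₂(ℤ[ω])`: `Θ` is at most a constant
times the eighth power of the height. (`H29T7`.) -/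
theorem integrable_translate {N : ℕ} (hN : N ≠ 0) {χ : H3 → ℝ} (hχ : IsCut (Gam N) χ) {F : H3 → ℂ}
    (hFc : Continuous F) (hF : ∃ C c : ℝ, 0 < C ∧ 0 < c ∧ ∀ w : H3,
      ‖F w‖ ≤ C * Real.exp (-(c * ht Eis w))) {τ : ℂ} (hτ : 0 < τ.im) :
    (∃ C : ℝ, 0 < C ∧ ∀ w : H3, ‖Theta 1 (phiN N) τ w‖ ≤ C * ht Eis w ^ 8) ∧
    ∀ g : GL (Fin 2) ℂ, (∀ i j, (g : Matrix (Fin 2) (Fin 2) ℂ) i j ∈ Eis) →
      Integrable fun w => (χ w : ℂ) * (F w * Theta 1 (phiN N) τ (g • w)) :=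
  ⟨H29T.exists_Theta_le N hτ, fun g hg => H29T.integrable_mul hN hχ hFc hF hτ g hg⟩

/-- An integral matrix multiplies the height at most by the absolute value of its determinant; so the
integrals in the adjointness relation `GuideOctT2.hecke_adjoint_gam` converge. (`H29T7`.) -/
theorem height_hecke {g : GL (Fin 2) ℂ}
    (hg : ∀ i j, (g : Matrix (Fin 2) (Fin 2) ℂ) i j ∈ Eis) (w : H3) :
    ht Eis (g • w) ≤ ‖(g : Matrix (Fin 2) (Fin 2) ℂ).det‖ * ht Eis w :=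
  H29T.ht_smul_le hg w

/-! ### 2. The vectors of norm `1/3` -/

/-- The index `x = (a, β, d)` as a skew-Hermitian matrix `Y = √-3 X` over `ℤ[ω]`:
`Y = (√-3 a, β; -β̄, √-3 d)`. All skew-Hermitian matrices are obtained once, and `-det X = 1/3` if
and only if `det Y = 1`. (`H81T5b`.) -/
theorem skew_matrix (x : ℤ × Eis × ℤ) :
    Orb.Ymat x = !![sq3E * (x.1 : Eis), x.2.1; -conjE x.2.1, sq3E * (x.2.2 : Eis)] ∧
    Function.Injective Orb.Ymat ∧
    (∀ Y : Matrix (Fin 2) (Fin 2) Eis, (Y.map conjE).transpose = -Y → ∃ x, Orb.Ymat x = Y) ∧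
    (Complex.normSq ((x.2.1 : ℂ) / sq3) - x.1 * x.2.2 = 1 / 3 ↔ (Orb.Ymat x).det = 1) :=
  ⟨rfl, Orb.Ymat_injective, fun _ hY => Orb.exists_Ymat hY, Orb.qL_eq_iff x⟩

/-- `SL₂(ℤ[ω])` acts on the indices, `g x` is the index with the matrix `g Y g^*`; the action preserves
the quadratic form and, together with the action on `H3`, the pairing `pL` of indices and points. The
base vector `x₀ = (0, 1, 0)` has the matrix `(0, 1; -1, 0)` and the pairing `Im z/(√3 y)`.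
(`H81T5b`.) -/
theorem action_on_indices (g : Matrix.SpecialLinearGroup (Fin 2) Eis) (x : S47T.Lat) (w : H3) :
    Orb.Ymat (g • x) = g.1 * Orb.Ymat x * (g.1.map conjE).transpose ∧ qL (g • x) = qL x ∧
    pL (g • x) (Orb.toGLC g • w) = pL x w ∧ Orb.Ymat Orb.x0 = !![0, 1; -1, 0] ∧
    pL Orb.x0 w = w.z.im / (Real.sqrt 3 * w.y) :=
  ⟨Orb.Ymat_smul g x, Orb.qL_smul g x, Orb.pL_smul g x w, Orb.Ymat_x0, Orb.pL_x0 w⟩

/-- **What is used of `ℤ[ω]`** (the structure `EisModel`): the basis `1, ω`, `ω² + ω + 1 = 0`, the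
conjugation `ω ↦ -1 - ω`. So `√-3 = 1 + 2 ω` has the square `-3`, the elements which are fixed by the
conjugation are the integers, and divisibility of integers in `ℤ[ω]` implies divisibility in `ℤ`.
(`H90TOrb`, `H81T5b`.) -/
theorem eisenstein_ring : (∀ x : Eis, ∃ a b : ℤ, x = a + b * omE) ∧ omE ^ 2 + omE + 1 = 0 ∧
    conjE omE = -1 - omE ∧ (1 + 2 * omE) * (1 + 2 * omE) = -3 ∧
    (∀ x : Eis, conjE x = x → ∃ a : ℤ, x = a) ∧ ∀ n m : ℤ, (n : Eis) ∣ (m : Eis) → n ∣ m :=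
  have h := Orb.eisModel
  ⟨h.basis, h.rel, h.conj, h.sqrt_sq, fun _ hx => h.exists_int_of_conj_eq hx,
    fun _ _ e => h.int_dvd e⟩

/-- Every row `(x, y)` over `ℤ[ω]` is orthogonal to a column `(a, c)` which can be completed to a matrix
of determinant one (Euclidean algorithm). (`H81T5a`.) -/
theorem unimodular_kernel (x y : Eis) : ∃ a b c d : Eis, a * d - b * c = 1 ∧ x * a + y * c = 0 :=
  H81.T5.exists_det_one Orb.eisModel x y

/-- An element of `ℤ[ω]` of norm one is, up to sign, the inverse of the square of an element of norm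
one. (`H81T5a`.) -/
theorem norm_one {β : Eis} (hβ : β * conjE β = 1) :
    ∃ ε : Eis, ε * conjE ε = 1 ∧ (ε ^ 2 * β = 1 ∨ ε ^ 2 * β = -1) :=
  H81.T5.norm_one Orb.eisModel hβ

/-- **One orbit, level one, in two steps**: a skew-Hermitian matrix `Y` over `ℤ[ω]` with `det Y = 1` can
be transformed by `SL₂(ℤ[ω])` (`Y ↦ g Y g^*`) such that its lower right entry is zero (a lattice
vector which is isotropic for `Y`: descent on the lower right entry), and then into `± (0, 1; -1, 0)`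
by `norm_one`. (`H81T5a`.) -/
theorem one_orbit_steps {Y : Matrix (Fin 2) (Fin 2) Eis} (hskew : (Y.map conjE).transpose = -Y)
    (hdet : Y.det = 1) :
    (∃ g : Matrix.SpecialLinearGroup (Fin 2) Eis,
      (g.1 * Y * (g.1.map conjE).transpose) 1 1 = 0) ∧
    (Y 1 1 = 0 → ∃ g : Matrix.SpecialLinearGroup (Fin 2) Eis,
      g.1 * Y * (g.1.map conjE).transpose = !![0, 1; -1, 0] ∨
      g.1 * Y * (g.1.map conjE).transpose = -!![0, 1; -1, 0]) :=
  ⟨H81.T5.exists_isotropic Orb.eisModel hskew hdet,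
    H81.T5.exists_normal Orb.eisModel hskew hdet⟩

/-- **Level `N`**: if the two rows `(a₁, a₂)`, `(b₁, b₂)` of integers are dependent modulo `N`, and not
all four are divisible by a prime divisor of `N`, there is a coprime pair `(p, q)` which is orthogonal
to both modulo `N`. It is used to move `g ∈ SL₂(ℤ[ω])` by an element of `SL₂(ℤ)`, the stabiliser of
`(0, 1; -1, 0)`, into `Γ₀(N)`. (`H81T5a`.) -/
theorem kernel_mod {a1 a2 b1 b2 : ℤ} {N : ℕ} (hN : N ≠ 0) (hprim : ∀ ℓ : ℕ, ℓ.Prime → ℓ ∣ N →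
      ¬ ((ℓ : ℤ) ∣ a1 ∧ (ℓ : ℤ) ∣ a2 ∧ (ℓ : ℤ) ∣ b1 ∧ (ℓ : ℤ) ∣ b2))
    (hdet : (N : ℤ) ∣ a1 * b2 - a2 * b1) :
    ∃ p q : ℤ, IsCoprime p q ∧ (N : ℤ) ∣ a1 * p + a2 * q ∧ (N : ℤ) ∣ b1 * p + b2 * q :=
  H81.T5.exists_primitive_ker hN hprim hdet

/-- **The parametrisation**: `eL (c, ±)`, for a class `c` of `Gam N` modulo `Γ₀(N) ⊂ SL₂(ℤ)` (`HZ N`)
and a sign, is `± g x₀`, `g` a representative of `c`. This is a bijection onto the vectors of norm
`1/3` in the support of `phiN N`. (`H81T5c`.) -/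
theorem parametrisation {N : ℕ} (hN : N ≠ 0) : Function.Injective (Orb.eL (N := N)) ∧
    Set.range (Orb.eL (N := N)) = {x | Complex.normSq ((x.2.1 : ℂ) / sq3) - x.1 * x.2.2 = 1 / 3 ∧
      phiN N x ≠ 0} :=
  ⟨Orb.eL_injective, Set.ext fun _ => ⟨by
    rintro ⟨p, rfl⟩
    exact ⟨Orb.qL_eL p, by rw [Orb.phiN_eL]; exact one_ne_zero⟩,
    fun h => Orb.exists_eL hN h.1 h.2⟩⟩

/-- **The sum over the vectors of norm `1/3`** in the support of `phiN N` of an even function `G` of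
the pairing (`third N G w x` is `phiN N x · G(pL x w)` if the norm of `x` is `1/3`, and `0` otherwise)
is twice the sum over the classes `c` of `G(Im z'/(√3 y'))` at the point `(z', y') = c⁻¹ w`, provided
that this sum converges absolutely. The subgroup is `Γ₀(N)` and its cut-off functions are the ones of
`Γ₀(N)`. (`H81T5c`, `H81T5d`.) -/
theorem sum_over_orbit {N : ℕ} (hN : N ≠ 0) {G : ℝ → ℂ} (hG : ∀ t, G (-t) = G t) (w : H3)
    (hs : ∑' c : Gam N ⧸ Orb.HZ N, ‖G (pL Orb.x0 (c.out⁻¹ • w))‖ₑ ≠ ∞) :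
    ∑' x : S47T.Lat, Orb.third N G w x = 2 * ∑' c : Gam N ⧸ Orb.HZ N, G (pL Orb.x0 (c.out⁻¹ • w)) ∧
    ∀ {χZ : H3 → ℝ}, Measurable χZ → (∀ w, 0 ≤ χZ w) →
      (∀ w : H3, HasSum (fun k : Gamma0 N => χZ (H90T.toC k • w)) 1) →
      ∀ w, HasSum (fun g : Orb.HZ N => χZ (g • w)) 1 :=
  ⟨Orb.tsum_third hN hG w hs, fun hm h0 hs => (Orb.cut_HZ hm h0 hs).sum⟩

/-- **Unfolding for a subgroup** `H` of a countable group `Γ` which preserves a measure, with cut-off
functions `χ` of `Γ` and `χH` of `H`: for `f` invariant under `H`, if `χH |f|` has a finite integral,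
the integral of `χ(w) ∑_{c ∈ Γ/H} f(c⁻¹ w)` is the integral of `χH(w) f(w)`. (`H81T5u`.) -/
theorem unfold_subgroup {Γ X : Type*} [Group Γ] [MulAction Γ X] [MeasurableSpace X]
    {μ : Measure X} [Countable Γ] [MeasurableConstSMul Γ X] [SMulInvariantMeasure Γ X μ]
    (H : Subgroup Γ) {χ χH : X → ℝ} (h1 : Measurable χ) (h2 : ∀ w, 0 ≤ χ w)
    (h3 : ∀ w, HasSum (fun g : Γ => χ (g • w)) 1) (h1' : Measurable χH) (h2' : ∀ w, 0 ≤ χH w)
    (h3' : ∀ w, HasSum (fun g : H => χH (g • w)) 1) {f : X → ℂ} (hf : Measurable f)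
    (hinv : ∀ k ∈ H, ∀ w, f (k • w) = f w)
    (hint : ∫⁻ w, ENNReal.ofReal (χH w) * ‖f w‖ₑ ∂μ ≠ ∞) :
    ∫ w, (χ w : ℂ) * ∑' c : Γ ⧸ H, f (c.out⁻¹ • w) ∂μ = ∫ w, (χH w : ℂ) * f w ∂μ :=
  H81.Unf.unfold H ⟨h1, h2, h3⟩ ⟨h1', h2', h3'⟩ hf hinv hint

/-- **The Fourier series of the lift** on a horizontal line: `lift(u + i v)` is `√v` times the sum over
the indices `x` of `e(u (-det X))` times the integral of `χ F φ(x) exp(-2 π v Q_w(X))`
(`H8T.QW x w = Q_w(X) = -det X + 2 (X, w)²`). Integration over `0 ≤ u ≤ 3` gives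
`GuideOctT2.coefficient_third`. (`H81T5e`.) -/
theorem lift_fourier {N : ℕ} (hN : N ≠ 0) {χ : H3 → ℝ} (hχ : IsCut (Gam N) χ) {c : Eis → ℝ}
    {F : H3 → ℂ} (hF : ICT N c F) {v : ℝ} (hv : 0 < v) (u : ℝ) :
    lift χ F 1 (phiN N) ((u : ℂ) + v * Complex.I) = (Real.sqrt v : ℝ) *
      ∑' x : ℤ × Eis × ℤ, ee ((u * (Complex.normSq ((x.2.1 : ℂ) / sq3) - x.1 * x.2.2) : ℝ)) *
        ∫ w, (χ w : ℂ) * (F w * (phiN N x * (Real.exp (-(2 * π * v * H8T.QW x w)) : ℝ))) :=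
  Orb.lift_eq hχ.meas hχ.nonneg hF.cont.measurable (Orb.MV_of_decays hN hχ
    (H8T.ict_decays hF) hF.inv (fun x => by rw [phiN]; split_ifs <;> simp) hv) u

/-- The values of `-det` are in `(1/3) ℤ`, and the characters `e(u k/3)` are orthogonal on
`0 ≤ u ≤ 3`. (`H81T5e`.) -/
theorem orthogonality : (∀ x : S47T.Lat, ∃ k : ℤ, qL x = k / 3) ∧
    ∀ k : ℤ, ∫ u in (0 : ℝ)..3, ee ((u * (k / 3) : ℝ) : ℂ) = if k = 0 then 3 else 0 :=
  ⟨Orb.exists_int_qL, Orb.integral_ee⟩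

/-- **The Fourier coefficients of the lift**: `lift(u + i v)` has period `3` in `u`, and its
coefficient at `m/3` is the sum over the indices with `-det X = m/3` of `√v` times the integral of
`χ F φ(x) exp(-2 π v Q_w(X))` (`Orb.cf`). (`H81T5e`.) -/
theorem fourier_coefficient {N : ℕ} (hN : N ≠ 0) {χ : H3 → ℝ} (hχ : IsCut (Gam N) χ)
    {c : Eis → ℝ} {F : H3 → ℂ} (hF : ICT N c F) {v : ℝ} (hv : 0 < v) (m : ℤ) :
    ∫ u in (0 : ℝ)..3, lift χ F 1 (phiN N) ((u : ℂ) + v * Complex.I) *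
        ee ((u * (-m / 3) : ℝ) : ℂ) =
      (Real.sqrt v : ℝ) * (3 * ∑' x : ℤ × Eis × ℤ, (haveI := Classical.propDecidable
        if qL x = m / 3 then Orb.cf χ F (phiN N) v x else 0)) :=
  Orb.coef hχ.meas hχ.nonneg hF.cont.measurable (Orb.MV_of_decays hN hχ
    (H8T.ict_decays hF) hF.inv (fun x => by rw [phiN]; split_ifs <;> simp) hv) m

open Classical in
/-- The sum of the coefficients over a set `P` of indices is the integral of `χ F` and the partial sum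
of the theta series over `P`. (`H81T5e`.) -/
theorem partial_sum {χ : H3 → ℝ} {F : H3 → ℂ} {φ : S47T.Lat → ℂ} {v : ℝ} (hχ : Measurable χ)
    (hχ0 : ∀ w, 0 ≤ χ w) (hF : Measurable F) (hM : ∫⁻ w, ENNReal.ofReal (χ w) * (‖F w‖ₑ *
      ∑' x : S47T.Lat, ‖φ x‖ₑ * ENNReal.ofReal (Real.exp (-(2 * π * v * H8T.QW x w)))) ≠ ∞)
    (P : S47T.Lat → Prop) :
    ∑' x : S47T.Lat, (if P x then ∫ w, (χ w : ℂ) * (F w * (φ x *
        (Real.exp (-(2 * π * v * H8T.QW x w)) : ℝ))) else 0) =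
      ∫ w, (χ w : ℂ) * (F w * ∑' x : S47T.Lat,
        if P x then φ x * (Real.exp (-(2 * π * v * H8T.QW x w)) : ℝ) else 0) :=
  Orb.tsum_cf hχ hχ0 hF hM P

/-! ### 3. The upper half plane -/

open scoped Modular in
/-- **The fundamental domain** `𝒟 = {|Re τ| ≤ 1/2, |τ| ≥ 1}` of `SL₂(ℤ)` has finite volume and meets
only finitely many of its translates, by `± g` for the ten `g` of an explicit list. (`H97TCut`.) -/
theorem fundamental_domain : (volume : Measure ℍ) 𝒟 < ∞ ∧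
    ∀ (z : ℍ) (g : SL(2, ℤ)), z ∈ 𝒟 → g • z ∈ 𝒟 → ∃ x ∈ ([1, ModularGroup.T, ModularGroup.T⁻¹,
      ModularGroup.S, ModularGroup.T * ModularGroup.S,
      ModularGroup.T⁻¹ * ModularGroup.S * ModularGroup.T⁻¹, ModularGroup.S * ModularGroup.T⁻¹,
      ModularGroup.S * ModularGroup.T, ModularGroup.T * ModularGroup.S * ModularGroup.T,
      ModularGroup.T⁻¹ * ModularGroup.S] : List SL(2, ℤ)), g = x ∨ g = -x :=
  ⟨H97T.volume_fd_lt_top, fun _ _ hz hg => H97T.mem_fdList hz hg⟩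

open scoped Modular in
/-- **The cut-off function of `SL₂(ℤ)`**: the characteristic function of `𝒟` divided by the number
of the `g` with `g τ ∈ 𝒟`. It has a finite integral; and the sum of its translates under
representatives of `SL₂(ℤ)/Γ` is a cut-off function of `Γ`, with finite integral if the index is
finite. (`H97TCut`.) -/
theorem cut_functions (Γ : Subgroup SL(2, ℤ)) [Finite (SL(2, ℤ) ⧸ Γ)] (τ : ℍ) :
    H97T.cut1 τ = (𝒟).indicator (1 : ℍ → ℝ≥0∞) τ /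
      (∑' g : SL(2, ℤ), (𝒟).indicator (1 : ℍ → ℝ≥0∞) (g • τ)) ∧
    ∑' g : SL(2, ℤ), H97T.cut1 (g • τ) = 1 ∧ ∫⁻ τ, H97T.cut1 τ < ∞ ∧
    ∑' g : Γ, (∑' q : SL(2, ℤ) ⧸ Γ, H97T.cut1 (q.out • (g : SL(2, ℤ)) • τ)) = 1 ∧
    ∫⁻ τ, (∑' q : SL(2, ℤ) ⧸ Γ, H97T.cut1 (q.out • τ)) < ∞ :=
  ⟨rfl, H97T.tsum_cut1 τ, H97T.lintegral_cut1, H97T.tsum_cutE Γ τ, H97T.lintegral_cutE Γ⟩

/-- **The invariant measure** of the upper half plane is `dx dy / y²` (nonnegative functions; the other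
order of integration: `GuidePeriod.measure_upper_half_plane`). (`H97TCoord`.) -/
theorem coordinates_upper {h : ℍ → ℝ≥0∞} (hm : Measurable h) {H : ℝ → ℝ → ℝ≥0∞}
    (hH : ∀ x y (hy : 0 < y), h ⟨⟨x, y⟩, hy⟩ = H x y) :
    ∫⁻ τ, h τ = ∫⁻ y in Ioi (0 : ℝ), (∫⁻ x, H x y) * ENNReal.ofReal (y ^ 2)⁻¹ :=
  H97T.lintegral_coord hm hH

/-- **Integration over the strip** `0 ≤ Re τ < 1` in coordinates, for the measure `dx dy / y²`.
(`H97TCoord`.) -/
theorem strip_coordinates {h : ℍ → ℂ} (hi : IntegrableOn h {τ : ℍ | 0 ≤ τ.re ∧ τ.re < 1})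
    {H : ℝ → ℝ → ℂ} (hH : ∀ x y (hy : 0 < y), h ⟨⟨x, y⟩, hy⟩ = H x y) :
    ∫ τ in {τ : ℍ | 0 ≤ τ.re ∧ τ.re < 1}, h τ =
      ∫ y in Ioi (0 : ℝ), (∫ x in (0 : ℝ)..1, H x y) * (((y ^ 2)⁻¹ : ℝ) : ℂ) :=
  H97T.integral_strip' hi hH

end Fermat.Agent.Guide.OctT2Steps
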