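import Fermat.Agent.H48ZEnd

/-!
# Reader's guide: block (Z) of S47, from the theta lift to the statement

S47 is the octahedral case of the theorem of Langlands and Tunnell: `ρ : Gal(ℚ̄/ℚ) → GL₂(𝔽₃)` is
continuous and surjective, its determinant is the cyclotomic character, and `Ψ` is a lifting of
`GL₂(𝔽₃)` to `GL₂(ℤ[√-2])`. Block (T) produces a nonzero cusp form `g` of weight one on some `Γ₁(N)`
about which little is known: `T_p g = tr Ψ(ρ(Frob_p)) g` for the primes `p ≡ 1` modulo some `D`, for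
which `ρ(Frob_p)` lies in the quaternion group `Q₈`, with finitely many exceptions. Nothing is
known about the other primes, about a nebentypus, or about the first coefficient. Block (Z) proves
that this is enough (`s47_of_form`, the last theorem).

## Plan (reading order of this file)

1. *Operations on coefficients.* Multiplication of the coefficients by a periodic function and the
   operator `a_n ↦ a_{mn}` preserve cusp forms (of a higher level).
2. *The eigenform.* The forms with the same eigenvalues as `g` at the primes in question form a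
   space stable under all Hecke and diamond operators prime to the level. A common eigenvector,
   corrected by the operator `a_n ↦ a_{mn}`, is a normalised eigenform `f` with a Dirichlet character
   `ε`; the theorem of Deligne and Serre (S48) gives `ρ_f : Gal(ℚ̄/ℚ) → GL₂(ℂ)`.
3. *Linear algebra* of `2 × 2` matrices over `ℂ`: elements of finite order are recognised by traces, and
   a representation whose image spans the matrix algebra is determined by its traces.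
4. *Finite facts* on `GL₂(𝔽₃)` and on `Ψ`.
5. *Recognition of `ρ`.* Let `H` be the group of the `σ` with `ρ(σ) ∈ Q₈` and trivial cyclotomic
   character modulo `D`. Frobenius' density theorem gives `tr ρ_f = tr Ψρ` on `H`, hence
   `ρ_f = P (Ψρ) P⁻¹` on `H`, hence `ρ_f = P (Ψρ ⊗ η) P⁻¹` with a character `η` trivial on `H`. One shows
   that `η` is a Dirichlet character modulo `3D` without using the theorem of Kronecker and Weber.
6. *The end.* The twist of `f` by `η⁻¹`, without the coefficients at the bad primes, is the form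
   required by S47. Its coefficients lie in `ℤ[√-2]`.

In this block all ambiguities of the previous blocks disappear: the unknown eigenvalues at the
primes of `ℚ(√-3)` which do not split in the cubic extension, the twist, the nebentypus.

References: NOTES.md, section 8 and A.13 [417]. Files `H48ZCoef`, `H48ZEig`, `H48ZLin`, `H48ZFin`,
`H48ZGal`, `H48ZEnd`. All theorems of this file are in the closure of S47.
-/

set_option autoImplicit false

open CongruenceSubgroup ModularFormClass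
open FLT.ExplicitLift WeierstrassCurve EisensteinWeightOne
open scoped MatrixGroups ModularForm

namespace Fermat.Agent.Guide.OctZ

/-- The algebraic closure of `ℚ`. -/
local notation "Qb" => AlgebraicClosure ℚ
/-- The absolute Galois group of `ℚ`. -/
local notation "Γℚ" => (AlgebraicClosure ℚ ≃ₐ[ℚ] AlgebraicClosure ℚ)
/-- The group `GL₂(𝔽₃)`. -/
local notation "G3" => GL (Fin 2) (ZMod 3)
/-- The ring `ℤ[√-2]`. -/
local notation "ZR" => ℤ√(-2)
/-- The algebra of `2 × 2` matrices over `ℂ`. -/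
local notation "M2C" => Matrix (Fin 2) (Fin 2) ℂ

/-! ### 1. Operations on the coefficients of cusp forms -/

/-- (1) MULTIPLICATION BY A PERIODIC FUNCTION. If `f = ∑ a_n qⁿ` is a cusp form of weight `k` on `Γ₁(N)` and
`ψ` is any function on `ℤ/m`, then `∑ ψ(n) a_n qⁿ` is a cusp form on `Γ₁(N m²)`. Proof: it is a linear
combination of the translates `f(τ + j/m)` (discrete Fourier transform of `ψ`), and translation by
`j/m` conjugates `Γ₁(N m²)` into `Γ₁(N)`. File H48ZCoef. Used in (23) with a Dirichlet character. -/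
theorem mul_periodic {N : ℕ} [NeZero N] {k : ℤ} (f : CuspForm (Gamma1 N) k) (m : ℕ) [NeZero m]
    (ψ : ZMod m → ℂ) :
    ∃ F : CuspForm (Gamma1 (N * m ^ 2)) k, ∀ n : ℕ, qCoeff F n = ψ n * qCoeff f n :=
  H48Z.exists_mul_periodic f m ψ

/-- (2) THE OPERATOR `U_m`. If `f = ∑ a_n qⁿ` is a cusp form on `Γ₁(N)`, then `∑ a_{mn} qⁿ` is a cusp form on
`Γ₁(N m)`. File H48ZCoef. Used in (6). -/
theorem operator_U {N : ℕ} [NeZero N] {k : ℤ} (f : CuspForm (Gamma1 N) k) (m : ℕ) [NeZero m] :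
    ∃ F : CuspForm (Gamma1 (N * m)) k, ∀ n : ℕ, qCoeff F n = qCoeff f (m * n) :=
  H48Z.exists_U f m

/-! ### 2. The eigenform -/

/-- (3) HECKE OPERATORS. `H58.T1L N k p hp hpN` is the operator `T_p` on `S_k(Γ₁(N))`, `p ∤ N` prime, and
`H58.dia N k d` is the diamond operator `⟨d⟩`; the effect on coefficients is the classical one,
`a_n(T_p f) = a_{pn}(f) + p^{k-1} a_{n/p}(⟨p⟩ f)`. File H58Hecke1. -/
theorem hecke_operator {N : ℕ} [NeZero N] {k : ℤ} (f : CuspForm (Gamma1 N) k) {p : ℕ}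
    (hp : p.Prime) (hpN : ¬ p ∣ N) (n : ℕ) :
    qCoeff (H58.T1L N k p hp hpN f) n = qCoeff f (p * n) +
      (p : ℂ) ^ (k - 1) * (if p ∣ n then qCoeff (H58.dia N k p f) (n / p) else 0) :=
  H58.qCoeff_T1L hp hpN f n

/-- (4) THE CHARACTER. A nonzero common eigenvector of the diamond operators has a Dirichlet character:
`⟨d⟩ h = ε(d) h`. File H48ZEig. -/
theorem diamond_character {N : ℕ} [NeZero N] {k : ℤ} (h : CuspForm (Gamma1 N) k) (h0 : h ≠ 0)
    (hd : ∀ d : ℤ, IsCoprime d (N : ℤ) → ∃ c : ℂ, H58.dia N k d h = c • h) :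
    ∃ ε : DirichletCharacter ℂ N, ∀ d : ℤ, IsCoprime d (N : ℤ) →
      H58.dia N k d h = ε (d : ZMod N) • h :=
  H48Z.exists_character h h0 hd

/-- (5) The definition `H48Z.Rel M ε f μ`: the Hecke relations of weight one with character `ε` and
eigenvalues `μ(p)` at the primes `p ∤ M`. -/
theorem rel_iff (M : ℕ) (ε : DirichletCharacter ℂ M) (f : UpperHalfPlane → ℂ) (μ : ℕ → ℂ) :
    H48Z.Rel M ε f μ ↔ ∀ p : ℕ, p.Prime → ¬ p ∣ M → ∀ n : ℕ,
      qCoeff f (p * n) + ε (p : ZMod M) * (if p ∣ n then qCoeff f (n / p) else 0) =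
        μ p * qCoeff f n :=
  Iff.rfl

/-- (6) FROM A PARTIAL EIGENVECTOR TO A NORMALISED EIGENFORM. Let `g ≠ 0` be a cusp form of weight one on
`Γ₁(N)` with `T_p g = λ(p) g` for the primes `p ∤ N` in a set `P`. Then there is a normalised form `f` of
some level `M`, divisible by `N`, satisfying the Hecke relations at all primes `p ∤ M`, with
`a_p(f) = λ(p)` for the primes `p ∈ P`, `p ∤ M`. Proof: the space `{h : T_p h = λ(p) h for all p ∈ P}` is
stable under the commuting operators `T_ℓ`, `⟨d⟩` and contains a common eigenvector `h`. Let `m ≥ 1` be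
minimal with `a_m(h) ≠ 0`. No prime `ℓ ∤ N` divides `m`: otherwise the Hecke relations express `a_m(h)`
by `a_{m/ℓ}(h)` and `a_{m/ℓ²}(h)`, which are zero. So `f = a_m(h)⁻¹ ∑ a_{mn}(h) qⁿ`, a form of level
`M = N m`, satisfies the same relations. File H48ZEig. -/
theorem exists_eigenform {N : ℕ} [NeZero N] (g : CuspForm (Gamma1 N) 1) (hg : g ≠ 0) (P : Set ℕ)
    (lam : ℕ → ℂ)
    (hT : ∀ (p : ℕ) (hp : p.Prime) (hpN : ¬ p ∣ N), p ∈ P →
      H58.T1L N 1 p hp hpN g = lam p • g) :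
    ∃ (M : ℕ) (_ : NeZero M) (ε : DirichletCharacter ℂ M) (f : CuspForm (Gamma1 M) 1),
      N ∣ M ∧ qCoeff f 1 = 1 ∧
      (∀ p : ℕ, p.Prime → ¬ p ∣ M → ∀ n : ℕ,
        qCoeff f (p * n) + ε (p : ZMod M) * (if p ∣ n then qCoeff f (n / p) else 0) =
          qCoeff f p * qCoeff f n) ∧
      ∀ p ∈ P, p.Prime → ¬ p ∣ M → qCoeff f p = lam p :=
  H48Z.exists_eigenform g hg P lam hT

/-- (7) THE THEOREM OF DELIGNE AND SERRE (S48) attaches a representation to this `f`. Only the traces and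
determinants of the Frobenius elements are used below. See `Fermat.Agent.GuideDeligneSerre`. -/
theorem deligne_serre {M : ℕ} [NeZero M] (ε : DirichletCharacter ℂ M)
    (f : CuspForm (Gamma1 M) 1) (hf1 : qCoeff f 1 = 1)
    (hT : ∀ p : ℕ, p.Prime → ¬ p ∣ M → ∀ n : ℕ,
      qCoeff f (p * n) + ε (p : ZMod M) * (if p ∣ n then qCoeff f (n / p) else 0) =
        qCoeff f p * qCoeff f n) :
    ∃ ρf : Γℚ →* GL (Fin 2) ℂ, GaloisFactorsThroughFiniteLevel ρf ∧
      (Deformation.matrixRepresentation ρf).IsIrreducible ∧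
      ∀ p : ℕ, p.Prime → ¬ p ∣ M → ∀ A : ValuationSubring Qb, A.LiesOverPrime p →
        (∀ σ ∈ A.inertiaSubgroupIn ℚ, ρf σ = 1) ∧
        ∀ σ : Γℚ, A.IsFrobeniusAt σ p →
          ((ρf σ : GL (Fin 2) ℂ) : M2C).trace = qCoeff f p ∧
          ((ρf σ : GL (Fin 2) ℂ) : M2C).det = ε (p : ZMod M) :=
  Fermat.Agent.S48.result M ε f hf1 hT

/-! ### 3. Linear algebra in dimension two over the complex numbers -/

/-- (8) A matrix of finite order and trace `2` is the identity. Proof: its eigenvalues `1 + z`, `1 - z` have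
absolute value `1`, so `z = 0` by the parallelogram law; then `(A - 1)² = 0` and
`1 = Aⁿ = 1 + n (A - 1)`. File H48ZLin. -/
theorem eq_one_of_trace {A : M2C} {n : ℕ} (hn : 0 < n) (hA : A ^ n = 1) (ht : A.trace = 2) :
    A = 1 :=
  H48Z.eq_one_of_trace hn hA ht

/-- (9) COMPARISON OF TRACES OF POWERS. Let `A`, `B` have the same trace, `A` of finite order, `det B = 1`,
`B⁴ = 1`, and let `B` be a power of `B^j`, say `B = (B^j)^k`. Then `A^j` and `B^j` have the same trace.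
Proof: the trace is `2`, `-2` or `0`. In the first two cases `A = B = ±1`; in the last case `A² = -det A`,
`B² = -1`, `j` is odd, and both traces are `0`. Frobenius' density theorem (15) provides Frobenius
elements only up to generators of the same cyclic group; (9) removes this uncertainty. File
H48ZLin. -/
theorem trace_pow_eq {A B : M2C} {n j k : ℕ} (hn : 0 < n) (hA : A ^ n = 1)
    (ht : A.trace = B.trace) (hd : B.det = 1) (hB : B ^ 4 = 1) (hjk : B = (B ^ j) ^ k) :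
    (A ^ j).trace = (B ^ j).trace :=
  H48Z.trace_pow_eq hn hA ht hd hB hjk

/-- (10) TRACES DETERMINE A REPRESENTATION WHICH SPANS. Two homomorphisms `a`, `b` from a group to the
`2 × 2` matrices with the same traces, the image of `b` spanning all matrices, are conjugate. Proof: let
`a'`, `b'` be the extensions to the group algebra. If `a'(x) = 0`, then `tr(b'(x) b'(y)) = 0` for all `y`,
so `b'(x) = 0`; counting dimensions, `a'` is surjective as well, and the kernels agree. So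
`b'(x) ↦ a'(x)` is an automorphism of the matrix algebra, and such automorphisms are inner. File
H48ZLin. -/
theorem conj_of_trace {H : Type} [Group H] (a b : H →* M2C)
    (htr : ∀ h, (a h).trace = (b h).trace)
    (hspan : Submodule.span ℂ (Set.range b) = ⊤) :
    ∃ P : GL (Fin 2) ℂ, ∀ h, a h = (P : M2C) * b h * ((P⁻¹ : GL (Fin 2) ℂ) : M2C) :=
  H48Z.conj_of_trace a b htr hspan

/-! ### 4. Finite facts -/

/-- (11) FACTS ON `GL₂(𝔽₃)`. The elements `x` with `det x = 1`, `x⁴ = 1` form a group (it is `Q₈`); `SL₂(𝔽₃)`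
has exponent dividing `12`, and the reflection `t = diag(1, -1)` acts by inversion on `SL₂(𝔽₃)/Q₈`;
`H48Z.qi` and `H48Z.qj` are two generators of `Q₈`, and they are commutators in `GL₂(𝔽₃)`. Proof: the
kernel of Lean checks the `81` matrices. File H48ZFin. More on this group: `GuideOctahedralGal`. -/
theorem finite_facts :
    (∀ x y : G3, Matrix.GeneralLinearGroup.det x = 1 → x ^ 4 = 1 →
      Matrix.GeneralLinearGroup.det y = 1 → y ^ 4 = 1 → (x * y) ^ 4 = 1) ∧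
    (∀ x : G3, Matrix.GeneralLinearGroup.det x = 1 → x ^ 12 = 1) ∧
    (∀ x : G3, Matrix.GeneralLinearGroup.det x = 1 →
      (H48Z.qt * x * H48Z.qt⁻¹ * x) ^ 4 = 1) ∧
    ((H48Z.qi : G3) : Matrix (Fin 2) (Fin 2) (ZMod 3)) = !![0, 2; 1, 0] ∧
    ((H48Z.qj : G3) : Matrix (Fin 2) (Fin 2) (ZMod 3)) = !![1, 1; 1, 2] ∧
    (∃ a b : G3, H48Z.qi = a * b * a⁻¹ * b⁻¹) ∧ ∃ a b : G3, H48Z.qj = a * b * a⁻¹ * b⁻¹ :=
  ⟨fun _ _ => H48Z.q8_mul, fun _ => H48Z.pow12, fun _ => H48Z.inv_rel, rfl, rfl,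
    ⟨_, _, H48Z.qi_comm⟩, ⟨_, _, H48Z.qj_comm⟩⟩

/-- (12) THE DETERMINANT OF THE LIFTING. `red : ℤ[√-2] → 𝔽₃` is the reduction modulo a prime above `3`.
If `Ψ` is a lifting of `GL₂(𝔽₃)`, then `det Ψ(g) = 1` or `-1` according to `det g`. Proof: the units of
`ℤ[√-2]` are `1` and `-1`, and they are different modulo `3`. File H48ZFin. -/
theorem det_lift (Ψ : G3 →* GL (Fin 2) ZR)
    (hΨ : ∀ g, Matrix.GeneralLinearGroup.map red (Ψ g) = g) (g : G3) :
    (((Ψ g : GL (Fin 2) ZR) : Matrix (Fin 2) (Fin 2) ZR).det = 1 ∧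
      Matrix.GeneralLinearGroup.det g = 1) ∨
    (((Ψ g : GL (Fin 2) ZR) : Matrix (Fin 2) (Fin 2) ZR).det = -1 ∧
      Matrix.GeneralLinearGroup.det g = -1) :=
  H48Z.det_lift Ψ hΨ g

/-- (13) THE LIFTING OF `Q₈` IS IRREDUCIBLE. For every homomorphism `ι : ℤ[√-2] → ℂ` the matrices
`ι Ψ(x)`, `x = 1, i, j, ij`, span the matrix algebra. Proof: the determinant of the `4 × 4` matrix of their
entries lies in `ℤ[√-2]`, and its image under `red` is the same determinant for `1, i, j, ij`, which is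
not zero. The family `1, i, j, ij` is indexed by pairs. File H48ZFin. -/
theorem span_lift (Ψ : G3 →* GL (Fin 2) ZR)
    (hΨ : ∀ g, Matrix.GeneralLinearGroup.map red (Ψ g) = g) (ι : ZR →+* ℂ) :
    Submodule.span ℂ (Set.range fun p : Fin 2 × Fin 2 =>
      ((Ψ ((if p.1 = 0 then 1 else H48Z.qi) * (if p.2 = 0 then 1 else H48Z.qj)) :
        GL (Fin 2) ZR) : Matrix (Fin 2) (Fin 2) ZR).map ι) = ⊤ :=
  H48Z.span_lift Ψ hΨ ι

/-! ### 5. Recognition of the representation -/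

/-- (14) CYCLOTOMIC CHARACTERS. `H48.cyc N` is the cyclotomic character modulo `N`, with values in the
units of `ℤ/N`. It is `p` at the Frobenius elements above `p ∤ N`, it is surjective (Dirichlet's theorem
on primes in progressions, and the existence of Frobenius elements), and for `N = 3` it is the
character in the statement of S47. Files H48Det, H48ZGal. -/
theorem cyclotomic (N : ℕ) [NeZero N] :
    (∀ p : ℕ, p.Prime → ¬ p ∣ N → ∀ A : ValuationSubring Qb, A.LiesOverPrime p →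
      ∀ σ : Γℚ, A.IsFrobeniusAt σ p → ((H48.cyc N σ : (ZMod N)ˣ) : ZMod N) = p) ∧
    Function.Surjective (H48.cyc N) ∧ ∀ σ : Γℚ, H48.cyc 3 σ = modThreeCyclotomicChar σ :=
  ⟨fun _ hp hpN _ hA _ hσ => H48.cyc_frob hp hpN hA hσ, H48Z.cyc_surjective N, H48Z.cyc_three⟩

/-- (15) FROBENIUS' DENSITY THEOREM for a homomorphism `R` from `Gal(ℚ̄/ℚ)` to a monoid which is trivial on
the absolute Galois group of a number field: for every `σ` and every finite set `S` of primes there is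
a Frobenius element `φ` above a prime `ℓ ∉ S` such that `R(σ)` and `R(φ)` are powers of each other.
Files H82FrobDensity, H86DensityFinal, H86DensityRep. -/
theorem frobenius_density {M : Type} [Monoid M] {R : Γℚ →* M}
    (hR : GaloisFactorsThroughFiniteLevel R) (σ : Γℚ) (S : Finset ℕ) :
    ∃ ℓ : ℕ, ℓ.Prime ∧ ℓ ∉ S ∧ ∃ A : ValuationSubring Qb, A.LiesOverPrime ℓ ∧
      ∃ φ : Γℚ, A.IsFrobeniusAt φ ℓ ∧ ∃ j k : ℕ, R σ = R φ ^ j ∧ R φ = R σ ^ k :=
  H86.density_hom H86.frobDensityFinite hR σ S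

/-- (16) THE GROUP `H` (`H48Z.HH ρ D`) consists of the `σ` with `ρ(σ) ∈ Q₈` and trivial cyclotomic character
modulo `D`. It is normal in `Gal(ℚ̄/ℚ)`, and `ρ` maps it onto `Q₈`: the elements `1, i, j, ij` have
preimages in `H`, because `i` and `j` are commutators (11). File H48ZGal. -/
theorem group_H {ρ : Γℚ →* G3} (hsurj : Function.Surjective ρ) (D : ℕ) [NeZero D] :
    (∀ σ : Γℚ, σ ∈ H48Z.HH ρ D ↔
      Matrix.GeneralLinearGroup.det (ρ σ) = 1 ∧ ρ σ ^ 4 = 1 ∧ H48.cyc D σ = 1) ∧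
    (∀ h ∈ H48Z.HH ρ D, ∀ g : Γℚ, g * h * g⁻¹ ∈ H48Z.HH ρ D) ∧
    ∀ p : Fin 2 × Fin 2, ∃ h ∈ H48Z.HH ρ D,
      ρ h = (if p.1 = 0 then 1 else H48Z.qi) * (if p.2 = 0 then 1 else H48Z.qj) :=
  ⟨fun _ => Iff.rfl, fun _ hh g => H48Z.HH_conj hh g, H48Z.exists_q4 hsurj D⟩

/-- (17) The representation `Ψρ` over `ℂ`: the composition of `ρ`, `Ψ` and `ι` (`H48Z.rr ρ Ψ ι`). -/
theorem complex_representation (ρ : Γℚ →* G3) (Ψ : G3 →* GL (Fin 2) ZR) (ι : ZR →+* ℂ)
    (σ : Γℚ) :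
    ((H48Z.rr ρ Ψ ι σ : GL (Fin 2) ℂ) : M2C) =
      ((Ψ (ρ σ) : GL (Fin 2) ZR) : Matrix (Fin 2) (Fin 2) ZR).map ι :=
  rfl

/-- (18) EQUALITY OF TRACES ON `H`. Let `ρ_f` be a representation of finite level over `ℂ` such that
`tr ρ_f(σ) = tr Ψρ(σ)` for the Frobenius elements `σ` above the primes `p ≡ 1` modulo `D`, `p ∤ M`, `p ∉ S`,
with `ρ(σ) ∈ Q₈`. Then `tr ρ_f = tr Ψρ` on `H`. Proof: apply (15) to the product of `ρ`, the cyclotomic
character and `ρ_f`, and (9) to `A = ρ_f(φ)`, `B = Ψρ(φ)`. File H48ZGal. -/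
theorem equality_of_traces {ρ : Γℚ →* G3} {Ψ : G3 →* GL (Fin 2) ZR}
    (hΨ : ∀ g, Matrix.GeneralLinearGroup.map red (Ψ g) = g) (ι : ZR →+* ℂ) (hρ : Continuous ρ)
    {D : ℕ} [NeZero D] {M : ℕ} [NeZero M] (S : Finset ℕ) {ρf : Γℚ →* GL (Fin 2) ℂ}
    (hfin : GaloisFactorsThroughFiniteLevel ρf)
    (htr : ∀ p : ℕ, p.Prime → ¬ p ∣ M → p ∉ S → p ≡ 1 [MOD D] →
      ∀ A : ValuationSubring Qb, A.LiesOverPrime p → ∀ σ : Γℚ, A.IsFrobeniusAt σ p →
        Matrix.GeneralLinearGroup.det (ρ σ) = 1 → ρ σ ^ 4 = 1 →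
        ((ρf σ : GL (Fin 2) ℂ) : M2C).trace =
          ι ((Ψ (ρ σ) : GL (Fin 2) ZR) : Matrix (Fin 2) (Fin 2) ZR).trace)
    {σ : Γℚ} (hσ : σ ∈ H48Z.HH ρ D) :
    ((ρf σ : GL (Fin 2) ℂ) : M2C).trace = ((H48Z.rr ρ Ψ ι σ : GL (Fin 2) ℂ) : M2C).trace :=
  H48Z.trace_eq hΨ ι hρ S hfin htr hσ

/-- (19) THE CHARACTER `η` (`ηc` in the formula, where the letter alone denotes Dedekind's function). If
`tr ρ_f = tr Ψρ` on `H`, then `ρ_f = P (Ψρ ⊗ η) P⁻¹` on the whole group `Gal(ℚ̄/ℚ)` for a matrix `P` and a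
character `η` which is trivial on `H`. Proof: by (10), (13), (16) `ρ_f = P (Ψρ) P⁻¹` on `H`. For `g` in the
Galois group `(Ψρ(g))⁻¹ P⁻¹ ρ_f(g) P` commutes with `Ψρ(H)`, because `H` is normal, hence it is a scalar.
File H48ZGal. -/
theorem exists_eta {ρ : Γℚ →* G3} {Ψ : G3 →* GL (Fin 2) ZR}
    (hΨ : ∀ g, Matrix.GeneralLinearGroup.map red (Ψ g) = g) (ι : ZR →+* ℂ)
    (hsurj : Function.Surjective ρ) {D : ℕ} [NeZero D] {ρf : Γℚ →* GL (Fin 2) ℂ}
    (htr : ∀ σ ∈ H48Z.HH ρ D,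
      ((ρf σ : GL (Fin 2) ℂ) : M2C).trace = ((H48Z.rr ρ Ψ ι σ : GL (Fin 2) ℂ) : M2C).trace) :
    ∃ (P : GL (Fin 2) ℂ) (ηc : Γℚ →* ℂ), (∀ σ, ((ρf σ : GL (Fin 2) ℂ) : M2C) =
        ηc σ • ((P * H48Z.rr ρ Ψ ι σ * P⁻¹ : GL (Fin 2) ℂ) : M2C)) ∧
      ∀ σ ∈ H48Z.HH ρ D, ηc σ = 1 :=
  H48Z.exists_eta hΨ ι hsurj htr

/-- (20) THE CONDUCTOR OF `η`. A character of `Gal(ℚ̄/ℚ)` which is trivial on `H` is trivial on the kernel
of the cyclotomic character modulo `3D`. Proof: for `σ` in this kernel `ρ(σ) ∈ SL₂(𝔽₃)`, so that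
`σ³ ∈ H`; and for `ρ(t)` the reflection `diag(1, -1)` one has `t σ t⁻¹ σ ∈ H` (11). Hence
`η(σ)³ = 1` and `η(σ)² = η(t σ t⁻¹ σ) = 1`, because the values of `η` commute. File H48ZGal. -/
theorem eta_trivial {ρ : Γℚ →* G3} (hsurj : Function.Surjective ρ)
    (hdet : ∀ σ : Γℚ, Matrix.GeneralLinearGroup.det (ρ σ) = modThreeCyclotomicChar σ)
    {D : ℕ} [NeZero D] {ηc : Γℚ →* ℂ} (hηc : ∀ σ ∈ H48Z.HH ρ D, ηc σ = 1) {σ : Γℚ}
    (hσ : H48.cyc (3 * D) σ = 1) : ηc σ = 1 :=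
  H48Z.eta_trivial hsurj hdet hηc hσ

/-- (21) RECOGNITION OF `ρ`. Let `ρ_f` be a representation of finite level over `ℂ`, and let `a_p`, `ε(p)` be
the traces and determinants of its Frobenius elements above `p ∤ M`. If `a_p = tr Ψρ(Frob_p)` for the
primes `p ≡ 1` modulo `D` with `ρ(Frob_p) ∈ Q₈`, with finitely many exceptions, then there is a Dirichlet
character `η₀` modulo `3D` such that `a_p = η₀(p) tr Ψρ(Frob_p)` and `ε(p) = η₀(p)² χ₋₃(p)` for ALL primes
`p ∤ 3DM`. Proof: (18), (19), (20), (14), (12). File H48ZGal. -/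
theorem exists_twist {ρ : Γℚ →* G3} {Ψ : G3 →* GL (Fin 2) ZR} (ι : ZR →+* ℂ)
    (hρ : Continuous ρ) (hsurj : Function.Surjective ρ)
    (hdet : ∀ σ : Γℚ, Matrix.GeneralLinearGroup.det (ρ σ) = modThreeCyclotomicChar σ)
    (hΨ : ∀ g, Matrix.GeneralLinearGroup.map red (Ψ g) = g)
    {D : ℕ} [NeZero D] {M : ℕ} [NeZero M] (S : Finset ℕ) (ε : DirichletCharacter ℂ M)
    (a : ℕ → ℂ) {ρf : Γℚ →* GL (Fin 2) ℂ} (hfin : GaloisFactorsThroughFiniteLevel ρf)
    (hρf : ∀ p : ℕ, p.Prime → ¬ p ∣ M → ∀ A : ValuationSubring Qb, A.LiesOverPrime p →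
      ∀ σ : Γℚ, A.IsFrobeniusAt σ p → ((ρf σ : GL (Fin 2) ℂ) : M2C).trace = a p ∧
        ((ρf σ : GL (Fin 2) ℂ) : M2C).det = ε (p : ZMod M))
    (hQ : ∀ p : ℕ, p.Prime → ¬ p ∣ M → p ∉ S → p ≡ 1 [MOD D] →
      ∀ A : ValuationSubring Qb, A.LiesOverPrime p → ∀ σ : Γℚ, A.IsFrobeniusAt σ p →
        Matrix.GeneralLinearGroup.det (ρ σ) = 1 → ρ σ ^ 4 = 1 →
        a p = ι ((Ψ (ρ σ) : GL (Fin 2) ZR) : Matrix (Fin 2) (Fin 2) ZR).trace) :
    ∃ η₀ : DirichletCharacter ℂ (3 * D), ∀ p : ℕ, p.Prime → ¬ p ∣ M → ¬ p ∣ 3 * D →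
      ∀ A : ValuationSubring Qb, A.LiesOverPrime p → ∀ σ : Γℚ, A.IsFrobeniusAt σ p →
        a p = η₀ (p : ZMod (3 * D)) *
          ι ((Ψ (ρ σ) : GL (Fin 2) ZR) : Matrix (Fin 2) (Fin 2) ZR).trace ∧
        ε (p : ZMod M) = η₀ (p : ZMod (3 * D)) ^ 2 * ((chiNegThree p : ℤ) : ℂ) :=
  H48Z.exists_twist ι hρ hsurj hdet hΨ S ε a hfin hρf hQ

/-! ### 6. The end -/

/-- (22) The notions in the conclusion of S47 (frozen definitions): `b` is a formal eigensystem with
character `e` if `b(1) = 1` and `b(ℓn) + e(ℓ) b(n/ℓ) = b(ℓ) b(n)` for all primes `ℓ`; it is realised in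
weight one and level `M` if for some `ι : ℤ[√-2] → ℂ` the numbers `ι(b(n))` are the coefficients of a
cusp form of weight one on `Γ₁(M)`; `chiNegThree` is the quadratic character modulo `3`. -/
theorem frozen_notions (M : ℕ) (e b : ℕ → ZR) (n : ℕ) :
    (FormalHecke.IsEigensystem e b ↔ b 1 = 1 ∧ ∀ ℓ : ℕ, ℓ.Prime → ∀ n : ℕ,
      b (ℓ * n) + e ℓ * (if ℓ ∣ n then b (n / ℓ) else 0) = b ℓ * b n) ∧
    (CuspForm.IsWeightOneChiNegThreeRealized M b ↔
      ∃ (ι : ZR →+* ℂ) (f : CuspForm (Gamma1 M) 1), ∀ n : ℕ, qCoeff f n = ι (b n)) ∧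
    chiNegThree n = if n % 3 = 1 then 1 else if n % 3 = 2 then -1 else 0 :=
  ⟨Iff.rfl, Iff.rfl, rfl⟩

/-- (23) TWIST AND DEPLETION. Let `f` be a normalised eigenform of weight one and level `M` with
`a_p = η₀(p) ι(t_p)`, `ε(p) = η₀(p)² χ₋₃(p)` for the primes `p ∤ 3DM`, where `t_p ∈ ℤ[√-2]`. Let `m = 3DM` and
`F = ∑ η₀(n)⁻¹ a_n qⁿ`, the sum over the `n` prime to `m`; by (1) this is a cusp form of level
`N = M m²`. Then `F` has coefficients in `ι(ℤ[√-2])`, they form an eigensystem with character `χ₋₃`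
outside `N` and `0` at the primes dividing `N`, and `b(p) = t_p` for `p ∤ N`. Proof: the Hecke relations of
`f`, and induction on the smallest prime factor. File H48ZEnd. -/
theorem realize (ι : ZR →+* ℂ) {M : ℕ} [NeZero M] {D : ℕ} [NeZero D]
    (ε : DirichletCharacter ℂ M) (f : CuspForm (Gamma1 M) 1) (hf1 : qCoeff f 1 = 1)
    (hrel : ∀ p : ℕ, p.Prime → ¬ p ∣ M → ∀ n : ℕ,
      qCoeff f (p * n) + ε (p : ZMod M) * (if p ∣ n then qCoeff f (n / p) else 0) =
        qCoeff f p * qCoeff f n)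
    (η₀ : DirichletCharacter ℂ (3 * D)) (t : ℕ → ZR)
    (ht : ∀ p : ℕ, p.Prime → ¬ p ∣ M → ¬ p ∣ 3 * D →
      qCoeff f p = η₀ (p : ZMod (3 * D)) * ι (t p) ∧
      ε (p : ZMod M) = η₀ (p : ZMod (3 * D)) ^ 2 * ((chiNegThree p : ℤ) : ℂ)) :
    ∃ (N : ℕ) (_ : NeZero N) (b : ℕ → ZR),
      FormalHecke.IsEigensystem
        (fun ℓ => if ℓ ∣ N then 0 else ((chiNegThree ℓ : ℤ) : ZR)) b ∧
      CuspForm.IsWeightOneChiNegThreeRealized N b ∧
      ∀ p : ℕ, p.Prime → ¬ p ∣ N → ¬ p ∣ M ∧ ¬ p ∣ 3 * D ∧ b p = t p :=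
  H48Z.realize ι ε f hf1 hrel η₀ t ht

/-- (24) BLOCK (Z). The conclusion is that of S47. The hypotheses on `ρ` and `Ψ` are those of S47. The form
`g` and its Hecke eigenvalues are the output of block (T), see `Fermat.Agent.GuideOctT`. File
H48ZEnd; the interface form is `H15S47.blockZ`. -/
theorem s47_of_form
    (ρ : Γℚ →* GL (Fin 2) (ZMod 3)) (hρ : Continuous ρ) (hsurj : Function.Surjective ρ)
    (hdet : ∀ σ : Γℚ, Matrix.GeneralLinearGroup.det (ρ σ) = modThreeCyclotomicChar σ)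
    (Ψ : GL (Fin 2) (ZMod 3) →* GL (Fin 2) (ℤ√(-2)))
    (hΨ : ∀ g, Matrix.GeneralLinearGroup.map red (Ψ g) = g)
    (N : ℕ) [NeZero N] (g : CuspForm (Gamma1 N) 1) (hg : g ≠ 0)
    (S : Finset ℕ) (D : ℕ) (hD : 0 < D) (ι : ℤ√(-2) →+* ℂ)
    (hT : ∀ (p : ℕ) (hp : p.Prime) (hpN : ¬ p ∣ N), p ∉ S → p ≡ 1 [MOD D] →
      ∀ A : ValuationSubring (AlgebraicClosure ℚ), A.LiesOverPrime p →
        ∀ σ : Γℚ, A.IsFrobeniusAt σ p →
        Matrix.GeneralLinearGroup.det (ρ σ) = 1 → (ρ σ) ^ 4 = 1 →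
        H58.T1L N 1 p hp hpN g =
          (ι ((Ψ (ρ σ) : GL (Fin 2) (ℤ√(-2))) : Matrix (Fin 2) (Fin 2) (ℤ√(-2))).trace) • g) :
    ∃ (N : ℕ) (_ : NeZero N) (b : ℕ → ℤ√(-2)),
      FormalHecke.IsEigensystem
        (fun ℓ => if ℓ ∣ N then 0 else ((chiNegThree ℓ : ℤ) : ℤ√(-2))) b ∧
      CuspForm.IsWeightOneChiNegThreeRealized N b ∧
      ∀ p : ℕ, p.Prime → ¬ p ∣ 3 * N →
        ∀ A : ValuationSubring (AlgebraicClosure ℚ), A.LiesOverPrime p →
          ∀ σ : Γℚ, A.IsFrobeniusAt σ p →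
            b p = ((Ψ (ρ σ) : GL (Fin 2) (ℤ√(-2))) : Matrix (Fin 2) (Fin 2) (ℤ√(-2))).trace :=
  H48Z.s47_of_form ρ hρ hsurj hdet Ψ hΨ N g hg S D hD ι hT

end Fermat.Agent.Guide.OctZ
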