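import Fermat.Agent.S47

/-!
# Reader's guide: S47, the octahedral case of the theorem of Langlands and Tunnell

**Statement.** Let `ρ : Gal(ℚ̄/ℚ) → GL₂(𝔽₃)` be continuous and surjective with cyclotomic
determinant, and `Ψ : GL₂(𝔽₃) → GL₂(ℤ[√-2])` a homomorphic section of the reduction `√-2 ↦ -1`.
There is a cusp form of weight one and of some level `N` whose coefficients `b(n)` lie in `ℤ[√-2]`
and satisfy the Hecke relations, and `b(p) = tr Ψ(ρ(Frob_p))` for all primes `p ∤ 3N` (`theorem_S47`,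
the last theorem of this file).

**Route.** `M = ℚ(√-3)` is the fixed field of `ρ⁻¹(SL₂(𝔽₃))`, `E` the fixed field of `ρ⁻¹(Q₈)`;
`E/M` is cyclic of degree three.

* (D) Over `E` the representation `Ψ ∘ ρ` is dihedral; an explicit theta series gives an automorphic
  function on `PGL₂(E)` with the Hecke eigenvalues `a_w = tr Ψ(ρ(Frob_w))`: `block_D`.
* (C) A simple trace formula for the cubic extension `E/M` gives an automorphic function on
  `PGL₂(M)` with the right eigenvalues at the places which split in `E`: `block_C`. The result of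
  these two blocks is `blocks_D_and_C`.
* (N) A Dirichlet series made of its Fourier coefficients tends to infinity at `s = 1`: `block_N`.
* (T) Its theta lift to `SL₂` over `ℚ` is holomorphic of weight one, and not zero by (N): `block_T`.
* (Z) The lift is an eigenvector of `T_p` only for some of the primes. The theorem of Deligne and
  Serre (S48), applied to a normalised eigenform of some higher level with the same eigenvalues at
  these primes, and a twist by a Dirichlet character give the form for `ρ`: `block_Z`.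

**Reading order.** Section 1 (the group `GL₂(𝔽₃)`), 2 (the fields and the numbers `a_w`), 3 (the
spaces `X(K)` and block (D)), 4 (hyperbolic space and the structure `ICT`, the output of block (C)),
5 (blocks (C) and (N)), 6 (theta lift, block (T)), 7 (block (Z) and the assembly). A theorem called
`..._iff` shows the definition of a notion or the content of a closed proposition; in the docstrings
`(H16D8)` is the name of the file which contains the proof.

The inside of the blocks is described in the following files.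
* Fields, Frobenius elements, the numbers `a_w`: `GuideOctahedralGal`.
* (D): `GuideOctD`, `GuideOctDTheta`, `GuideOctDForm`; for the quartic character `GuideQuadRec`
  (and `GuideClassField`, `GuideLocalNorms`), `GuideQuarticCharacter`; for the theta series
  `GuideCoefficients`, `GuideThetaFinite`, `GuideThetaGauss`, `GuidePoisson`, `GuideThetaSeries`;
  for the finite places `GuideOuterSpace`, `GuideSemilocal`, `GuideLatticeTypes`.
* (C): `GuideOctC` and its companions: `GuideOctCSetup` (setup), `GuideOctCTarget`,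
  `GuideOctCLevel` (target), `GuideOctCSpec`, `GuideOctCSpecSteps`, `GuideOctCOperator`,
  `GuideOctCKernels`, `GuideConstantTerms`, `GuideUnipotent` (operators, traces, constant terms),
  `GuideOctCGeom`, `GuideOctCSteps`, `GuideOctCOrbital`, `GuideOctCInfinity`, `GuideOctCLocal`,
  `GuideStableLines`, `GuideOctCInert`, `GuideOctCSplit`, `GuideOctCBad` (geometric comparison),
  `GuideOctCSeparation` (separation of eigenvalues), `GuideOctCForms`, `GuideWhittaker`
  (positivity), `GuideOctCOutput`, `GuideOctCTwists` (output).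
* (N): `GuideOctN`.
* (T): `GuideOctT` and its companions: `GuideSiegelSets` (reduction theory), `GuideThetaClasses`,
  `GuideThetaCongruence`, `GuideThetaInversion` (theta kernel), `GuideThetaGrowth` (growth, decay),
  `GuideThetaLaplace`, `GuideThetaIsotropic`, `GuideHolomorphy` (holomorphy); `GuideOctT2` and its
  companions: `GuideOctT2Steps` (Hecke operators, unfolding), `GuidePeriod`, `GuideRealEisenstein`
  (period).
* (Z): `GuideOctZ`; for S48 `GuideDeligneSerre`, `GuideDeligneSerreSteps`, `GuideChebotarev`,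
  `GuideWeightOne`, `GuideEisensteinOne`, `GuideGaloisAction`, `GuideTwistedForms`,
  `GuideSeparation`, `GuideDivisionValues`, `GuideSpecialFibre`.
* Analysis and geometry: `GuideHyperbolic` and `GuideRadial`, `GuideEigenfunctions` and
  `GuideBessel`, `GuideSiegel` with `GuideSiegelSteps` and `GuideLocalLattices`, `GuideTrace` with
  `GuideTraceSteps` and `GuideBoundedKernels`.

In `NOTES.md`: section 8 and the notes NOTES-S47-* of Appendix A.13.

All library theorems cited below are used in the proof of `S47`. The proof of `S01` does not use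
S47: there the modularity of `E[3]` is obtained by a 2-adic argument (block LT, `GuideResidual`).

**Notions of the Prelude.** `A.LiesOverPrime p`: the valuation ring `A` of `ℚ̄` has `p` in its
maximal ideal. `A.IsFrobeniusAt σ p`: `σ` fixes `A` and acts as `x ↦ x ^ p` on its residue field.
`WeierstrassCurve.modThreeCyclotomicChar`: the action on the third roots of unity.
`FLT.ExplicitLift.red`: the ring homomorphism `ℤ[√-2] → 𝔽₃`, `√-2 ↦ -1`.
`EisensteinWeightOne.chiNegThree`: the quadratic character modulo three.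
`FormalHecke.IsEigensystem e b`: `b 1 = 1` and `b (ℓ n) + e ℓ · b (n / ℓ) = b ℓ · b n` for all
primes `ℓ` and all `n` (without the second term if `ℓ ∤ n`).
`CuspForm.IsWeightOneChiNegThreeRealized N b`: for an embedding `ι` of `ℤ[√-2]` in `ℂ` the numbers
`ι (b n)` are the coefficients of a cusp form of weight one on `Γ₁(N)`.
-/

set_option autoImplicit false

noncomputable section

open AutomorphicForm FLT.ExplicitLift EisensteinWeightOne WeierstrassCurve LanglandsTunnell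
open IsDedekindDomain HeightOneSpectrum WithZero NumberField CongruenceSubgroup MeasureTheory
open Fermat.Agent.S47T
open scoped MatrixGroups ComplexConjugate Real UpperHalfPlane

namespace Fermat.Agent.Guide.Octahedral

/-- The absolute Galois group of `ℚ`. -/
local notation "Γℚ" => (AlgebraicClosure ℚ ≃ₐ[ℚ] AlgebraicClosure ℚ)

/-- The `2 × 2` matrices. -/
local notation "M₂(" R ")" => Matrix (Fin 2) (Fin 2) R

/-! ## 1. The group `GL₂(𝔽₃)` and the section `Ψ` -/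

/-- The groups: `GL₂(𝔽₃)` has 48 elements, `SL₂(𝔽₃)` has 24, and its normal subgroup `Q₈`, the
quaternion group, consists of the 8 elements of `SL₂(𝔽₃)` whose order divides four. The square of an
element of determinant `-1` lies in `Q₈` and is not `-1`: such an element is a reflection or has
order eight. (`H3G0`, `H3G2`, `H91ZFinal`.) -/
theorem groups :
    (∀ g : GL (Fin 2) (ZMod 3), g ∈ H3G.SL ↔ Matrix.GeneralLinearGroup.det g = 1) ∧
    (∀ g : GL (Fin 2) (ZMod 3), g ∈ H3G.Q8 ↔ Matrix.GeneralLinearGroup.det g = 1 ∧ g ^ 4 = 1) ∧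
    Nat.card (GL (Fin 2) (ZMod 3)) = 48 ∧ Nat.card H3G.SL = 24 ∧ Nat.card H3G.Q8 = 8 ∧
    ∀ g : GL (Fin 2) (ZMod 3), (g : M₂(ZMod 3)).det = -1 → g ^ 2 ∈ H3G.Q8 ∧ g ^ 2 ≠ -1 :=
  ⟨fun _ => Iff.rfl, fun _ => H3G.mem_Q8_iff_pow, H3G.card_GG, H3G.card_SL, H3G.card_Q8,
    fun _ h => ⟨H3G.sq_mem_Q8_of_not_mem_SL fun h₁ =>
      absurd ((H3G.mem_SL'.1 h₁).symm.trans h) (by decide), H91.Z.sq_ne_neg_one h⟩⟩

/-- The trace of the lift `Ψ` on `Q₈` is `2` at `1`, `-2` at `-1` and `0` elsewhere: it depends only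
on the order of the element. The real valued function `trQ` on `GL₂(𝔽₃)`, also called `H46Z.val8`,
which occurs in the statements below, has the same values on `Q₈`. (`H3G2`.) -/
theorem traces_on_Q8 {Ψ : GL (Fin 2) (ZMod 3) →* GL (Fin 2) (ℤ√(-2))}
    (hΨ : ∀ g, Matrix.GeneralLinearGroup.map red (Ψ g) = g) {g : GL (Fin 2) (ZMod 3)}
    (hdet : Matrix.GeneralLinearGroup.det g = 1) (h4 : g ^ 4 = 1) :
    (g = 1 → (Ψ g : M₂(ℤ√(-2))).trace = 2 ∧ H15S47.trQ g = 2) ∧
    (g = -1 → (Ψ g : M₂(ℤ√(-2))).trace = -2 ∧ H15S47.trQ g = -2) ∧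
    (g ≠ 1 → g ≠ -1 → (Ψ g : M₂(ℤ√(-2))).trace = 0 ∧ H15S47.trQ g = 0) ∧
    H46Z.val8 g = H15S47.trQ g :=
  ⟨fun h => h ▸ ⟨H3G.ptr_one, H3G.val8_one⟩, fun h => h ▸ ⟨H3G.ptr_neg_one hΨ, H3G.val8_neg_one⟩,
    fun h1 h2 => ⟨H3G.ptr_of_mem_Q8 hΨ (H3G.mem_Q8_iff_pow.2 ⟨hdet, h4⟩) h1 h2,
      H3G.val8_of_ne h1 h2⟩, rfl⟩

/-! ## 2. The fields `M ⊂ E` and the numbers `a_w`

`D : H3G.RD` is a representation `D.ρ` with the three properties of S47 (continuous, surjective,
cyclotomic determinant). `H3G.fld ρ H` is the fixed field of `ρ⁻¹(H)`; the fields `D.M`, `D.E`,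
`D.B'`, `D.K` are the ones for `H = SL₂(𝔽₃)`, `Q₈`, `{±1}`, `1`. -/

/-- **The fields.** `D.ρ` has the three properties (and every `ρ` with them comes from some `D`). An
algebraic number belongs to `H3G.fld ρ H` if it is fixed by all `σ` with `ρ(σ) ∈ H`, and the degree of
this field is the index of `H`. `M = ℚ(√-3)` is the field of third roots of unity, `E/M` is cyclic of
degree three, `E/ℚ` is Galois of degree six (with group `S₃`), and `E` is totally complex. (`H3G1`,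
`H3G4`, `H3G5`.) -/
theorem fields (D : H3G.RD) :
    (Continuous D.ρ ∧ Function.Surjective D.ρ ∧
      ∀ σ : Γℚ, Matrix.GeneralLinearGroup.det (D.ρ σ) = modThreeCyclotomicChar σ) ∧
    (∀ (H : Subgroup (GL (Fin 2) (ZMod 3))) (x : AlgebraicClosure ℚ),
      x ∈ H3G.fld D.ρ H ↔ ∀ σ : Γℚ, D.ρ σ ∈ H → σ x = x) ∧
    (∀ H : Subgroup (GL (Fin 2) (ZMod 3)), Module.finrank ℚ (H3G.fld D.ρ H) = H.index) ∧
    IsCyclotomicExtension {3} ℚ D.M ∧ Module.finrank D.M D.E = 3 ∧ IsGalois D.M D.E ∧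
    Module.finrank ℚ D.E = 6 ∧ IsGalois ℚ D.E ∧ IsTotallyComplex D.E :=
  ⟨⟨D.cont, D.surj, D.det⟩, fun _ _ => H3G.mem_fld, D.finrank_Q, inferInstance, D.finrank_ME,
    inferInstance, D.finrank_E, inferInstance, inferInstance⟩

/-- Three abbreviations: `H82.above E v` is the set of the finite places of `E` above the finite
place `v` of `M`, `H47.smulPlace s w` is the place `s(w)`, and `H46Z.divs E n` is the finite set of
the places of `E` which divide the integer `n ≠ 0`. (`H82CftDefs`, `H47TClass`, `H46ZBlocks`.) -/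
theorem places {M E : Type*} [Field M] [NumberField M] [Field E] [NumberField E] [Algebra M E]
    (w : HeightOneSpectrum (𝓞 E)) :
    (∀ v : HeightOneSpectrum (𝓞 M), w ∈ H82.above E v ↔ w.asIdeal.under (𝓞 M) = v.asIdeal) ∧
    (∀ (s : E ≃ₐ[M] E) (x : 𝓞 E), s • x ∈ (H47.smulPlace s w).asIdeal ↔ x ∈ w.asIdeal) ∧
    ∀ n : ℕ, n ≠ 0 → (w ∈ H46Z.divs E n ↔ (n : 𝓞 E) ∈ w.asIdeal) :=
  ⟨fun _ => Iff.rfl, fun _ _ => Ideal.smul_mem_pointwise_smul_iff, fun _ hn => H46Z.mem_divs hn⟩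

/-- **The numbers `a_w`**, for all finite places `w` of `E`: `2` if `w` splits completely in the field
`K` of `ρ` (`[K : E] = 8`), `-2` if it splits completely in `B'` (`[B' : E] = 4`) but not in `K`, and
`0` otherwise. They are invariant under `Gal(E/M)`. For unramified `w` this is the trace of the lift
of `ρ(Frob_w)`, see `frobenius_dictionary`. (`H3G8`, `H3G9`, `H3GA`.) -/
theorem eigenvalues (D : H3G.RD) (w : HeightOneSpectrum (𝓞 D.E)) :
    H46Z.awR D w = (if (H82.above D.K w).ncard = 8 then 2 else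
      if (H82.above D.B' w).ncard = 4 then -2 else 0) ∧
    ∀ s : D.E ≃ₐ[D.M] D.E, H46Z.awR D (H47.smulPlace s w) = H46Z.awR D w :=
  ⟨D.awR_eq w, fun s => D.awR_smulPlace s w⟩

/-- **The dictionary.** Outside the divisors of some `D₀`: let `v` be a place of `M` over the prime
`p`, of norm `p ^ f`, and `σ` a Frobenius element at `p`. If `ρ(σ ^ f) ∈ Q₈` then `v` splits in `E`
and `a_w` is the trace of the lift of `ρ(σ ^ f)` for the places `w` of `E` over `v`.
(`H3G6`-`H3GA`, `H30G1`-`H30G3`, `H89D1`, `H89D5`; see `dict_at_prime` in `GuideOctahedralGal`.) -/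
theorem frobenius_dictionary (D : H3G.RD) : ∃ D₀ : ℕ, D₀ ≠ 0 ∧
    ∀ p : ℕ, p.Prime → ¬ p ∣ D₀ → ∀ A : ValuationSubring (AlgebraicClosure ℚ),
      A.LiesOverPrime p → ∀ σ : Γℚ, A.IsFrobeniusAt σ p →
        ∀ (f : ℕ) (v : HeightOneSpectrum (𝓞 D.M)), Ideal.absNorm v.asIdeal = p ^ f →
          D.ρ (σ ^ f) ∈ H3G.Q8 →
            (H82.above D.E v).ncard ≠ 1 ∧
              ∀ w ∈ H82.above D.E v, H46Z.awR D w = H46Z.val8 (D.ρ (σ ^ f)) :=
  D.exists_dict

/-- **Auxiliary primes.** For every `n` there is a prime `p ≡ -1 mod n`, `p ≡ 2 mod 3`, with exactly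
three places `w` of `E` above it, all with `a_w = 0`: the Frobenius elements at `p` have order eight
under `ρ`. They exist by Frobenius' density theorem (existence form), applied to the field cut out
by `ρ` and the `n`-th roots of unity. With such a prime the constant terms are killed in block (C).
(`H28Y1`-`H28Y3`, `H89D5`, `H3GA`; see `prime_with_three_places` in `GuideOctahedralGal`.) -/
theorem auxiliary_primes (D : H3G.RD) (n : ℕ) (hn : 0 < n) :
    ∃ p : ℕ, p.Prime ∧ ¬ p ∣ n ∧ (p : ZMod n) = -1 ∧ p % 3 = 2 ∧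
      (H46Z.divs D.E p).card = 3 ∧ ∀ w ∈ H46Z.divs D.E p, H46Z.awR D w = 0 :=
  D.ne_awR n hn

/-! ## 3. The space `X(K)` and block (D)

Let `K` be a totally complex number field. A model `m : H59D.Model K J` consists of embeddings
`m.e j : K → ℂ`, one for each infinite place, and of subgroups `U_w = m.L.U w` of `PGL₂(K)`, one for
each finite place `w`. -/

/-- **The space `X(K)`** is the product of copies of hyperbolic three-space, one for each infinite
place, and of the restricted product of the discrete sets `PGL₂(K)/U_w`; the countable group `PGL₂(K)`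
acts diagonally. `U0 w` is the image in `PGL₂(K)` of the matrices with entries integral at `w` and
determinant a unit at `w`. The groups `U_w` of a model are equal to `U0 w` for almost all `w`, always
bounded (conjugate to a subgroup of `U0 w`), and open: they contain the image `H59D.Gam w n` of the
matrices congruent to `1` modulo the `n`-th power of the prime of `w`. (`H59Def`, `H59XF`.) -/
theorem space_X {K : Type*} [Field K] [NumberField K] {J : Type*} [Fintype J]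
    (m : H59D.Model K J) : (Function.Bijective fun j => InfinitePlace.mk (m.e j)) ∧
    (∀ j, ¬ ComplexEmbedding.IsReal (m.e j)) ∧ {w | m.L.U w ≠ H59D.U0 w}.Finite ∧
    (∀ w : HeightOneSpectrum (𝓞 K),
      (∀ g : PGL(2, K), g ∈ H59D.U0 w ↔ ∃ x : GL (Fin 2) K,
        ((∀ i j, w.valuation K (x i j) ≤ 1) ∧ w.valuation K (x : M₂(K)).det = 1) ∧
          Matrix.ProjGenLinGroup.mk x = g) ∧
      (∃ c : PGL(2, K), ∀ g ∈ m.L.U w, c⁻¹ * g * c ∈ H59D.U0 w) ∧
      ∃ n : ℕ, H59D.Gam w n ≤ m.L.U w) ∧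
    ∀ x : m.X, {w | x.2 w ≠ ((1 : PGL(2, K)) : PGL(2, K) ⧸ m.L.U w)}.Finite ∧
      ∀ g : PGL(2, K), (∀ j, (g • x).1 j = Matrix.ProjGenLinGroup.map (m.e j) g • x.1 j) ∧
        ∀ w, (g • x).2 w = g • x.2 w :=
  ⟨m.e_bij, m.e_cx, m.L.fin, fun w => ⟨fun _ => Iff.rfl, m.L.bdd w, m.L.isOpen w⟩,
    fun x => ⟨x.2.fin, fun _ => ⟨fun _ => rfl, fun _ => rfl⟩⟩⟩

/-- **Types.** A type `t` (`H76U.Typ U_w`) at a finite place consists of a group `t.H` which contains
and normalises `U_w`, and of a character `t.chi` of it which is trivial on `U_w`; `t.rt h` is the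
right translation. A function on `X(K)` is *typed* if the right translation by `h ∈ t.H` at the place
`w` multiplies it by `t.chi h` (item 6 of `isDForm_iff`). (`H76U1`.) -/
theorem types {K : Type*} [Field K] [NumberField K] {U : Subgroup PGL(2, K)} (t : H76U.Typ U) :
    U ≤ t.H ∧ (∀ h ∈ t.H, ∀ u ∈ U, h⁻¹ * u * h ∈ U) ∧
    (∀ g ∈ t.H, ∀ h ∈ t.H, t.chi (g * h) = t.chi g * t.chi h) ∧ (∀ u ∈ U, t.chi u = 1) ∧
    ∀ (h : t.H) (g : PGL(2, K)),
      t.rt h (g : PGL(2, K) ⧸ U) = ((g * (h : PGL(2, K)) : PGL(2, K)) : PGL(2, K) ⧸ U) :=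
  ⟨t.le, t.norm, t.mul, t.one, fun _ _ => rfl⟩

/-- **The types which are used** come from lattices `T : H76U.TD K`: `T.A`, `T.B`, `T.C` are additive
subgroups of `K`, the group consists of the matrices with diagonal entries in `1 + A`, upper right
entry `b ∈ B`, lower left entry in `C`, and the character is `ψ(b)` for an additive character
`ψ = T.psi` which is trivial on `A B` (so that one may divide `b` by the diagonal entry). The
predicate `Adm` says that the type is sufficiently deep: `ψ` is the standard local character `ψ_w`,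
and with `𝔭` the prime of `w`: `A ⊂ 𝔭^k`, and there is `n` with `A ⊃ 𝔭^n`, `C ⊂ 𝔭^(2n+c₀)`.
(`H76U2`, `H55DC`.) -/
theorem lattice_types {K : Type*} [Field K] [NumberField K] (T : H76U.TD K) :
    (∀ g : PGL(2, K), g ∈ T.H ↔ ∃ x : GL (Fin 2) K,
      (x 0 0 - 1 ∈ T.A ∧ x 0 1 ∈ T.B ∧ x 1 0 ∈ T.C ∧ x 1 1 - 1 ∈ T.A) ∧
        Matrix.ProjGenLinGroup.mk x = g) ∧
    (∀ x : GL (Fin 2) K, T.chi (Matrix.ProjGenLinGroup.mk x) = T.psi (x 0 1 / x 1 1)) ∧
    ∀ (w : HeightOneSpectrum (𝓞 K)) (k c₀ : ℕ), H55D.Adm w T k c₀ ↔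
      (∀ x, T.psi x = H7.Z.psi w x) ∧ (∀ a ∈ T.A, w.valuation K a ≤ exp (-(k : ℤ))) ∧
      ∃ n : ℕ, (∀ a : K, w.valuation K a ≤ exp (-(n : ℤ)) → a ∈ T.A) ∧
        ∀ c ∈ T.C, w.valuation K c ≤ exp (-((2 * n + c₀ : ℕ) : ℤ)) :=
  ⟨fun _ => Iff.rfl, T.chi_mk, fun _ _ _ => ⟨fun h => ⟨h.psi, h.deep, h.lev⟩,
    fun h => ⟨h.1, h.2.1, h.2.2⟩⟩⟩

open Classical in
/-- **The function delivered by block (D).** A point of `X(E)` is a pair `(τ, y)`, `τ` the part at
infinity. A function `Φ` on `X(E)` satisfies `IsDForm m S Ty a Φ` if it is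

1. invariant under `PGL₂(E)`;
2. continuous in `τ`, and
3. of moderate growth: for every `y` there is one exponent `A` such that it is `O((∏ y_j) ^ A)` on
  every set where all heights `y_j` are at least `c > 0`;
4. an eigenfunction of all radial integral operators at infinity: `κ` is a continuous function of the
  numbers `cosh d(τ_j, v_j) ≥ 1`, zero if one of them is large, and the eigenvalue is the value of the
  operator on `∏ y_j` at the base point: spectral parameter `0`, Laplace eigenvalues `-1`;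
5. an eigenfunction of the Hecke operators `T_w`, `w ∉ S`, with eigenvalue `(N w)^(1/2) a_w`: `R` is a
  set of representatives of the integers modulo the prime (`H51Z.IsReps`), `H51Z.bm a b` is the matrix
  `(a b; 0 1)`, and `XF.upd y w z` is the point `y` with the coordinate at `w` replaced by `z`;
6. typed at the places of `S`;
7. not zero. (`H55DC`.) -/
theorem isDForm_iff {E : Type*} [Field E] [NumberField E] {J : Type*} [Fintype J]
    (m : H59D.Model E J) (S : Finset (HeightOneSpectrum (𝓞 E)))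
    (Ty : ∀ w : HeightOneSpectrum (𝓞 E), H76U.Typ (m.L.fam.U w))
    (a : HeightOneSpectrum (𝓞 E) → ℝ) (Φ : m.X → ℂ) :
    H55D.IsDForm m S Ty a Φ ↔
      (∀ (g : PGL(2, E)) (x : m.X), Φ (g • x) = Φ x) ∧
      (∀ y : H59XF.XF m.L.fam, Continuous fun τ : J → H3 => Φ (τ, y)) ∧
      (∀ y : H59XF.XF m.L.fam, ∃ A : ℝ, ∀ c : ℝ, 0 < c → ∃ C : ℝ, ∀ τ : J → H3,
        (∀ j, c ≤ (τ j).y) → ‖Φ (τ, y)‖ ≤ C * (∏ j, (τ j).y) ^ A) ∧
      (∀ κ : (J → ℝ) → ℂ, ContinuousOn κ {t | ∀ j, 1 ≤ t j} →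
        (∃ T : ℝ, ∀ t : J → ℝ, (∀ j, 1 ≤ t j) → (∃ j, T < t j) → κ t = 0) →
        ∀ (y : H59XF.XF m.L.fam) (τ : J → H3),
          ∫ v : J → H3, κ (fun j => H3.ch (τ j) (v j)) * Φ (v, y) =
            (∫ v : J → H3, κ (fun j => H3.ch H3.base (v j)) * ∏ j, ((v j).y : ℂ)) * Φ (τ, y)) ∧
      (∀ w ∉ S, ∀ ϖ : Eˣ, w.valuation E (ϖ : E) = exp (-(1 : ℤ)) →
        ∀ R : Finset E, H51Z.IsReps (w.valuation E) 1 R →
          ∀ (τ : J → H3) (y : H59XF.XF m.L.fam) (g : PGL(2, E)),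
            y w = (g : PGL(2, E) ⧸ m.L.fam.U w) →
            ((Real.sqrt (Ideal.absNorm w.asIdeal) * a w : ℝ) : ℂ) * Φ (τ, y) =
              ∑ b ∈ R, Φ (τ, H59XF.XF.upd y w ((g * Matrix.ProjGenLinGroup.mk (H51Z.bm 1 b) *
                Matrix.ProjGenLinGroup.mk (H51Z.bm ϖ 0) : PGL(2, E)) :
                  PGL(2, E) ⧸ m.L.fam.U w)) +
              Φ (τ, H59XF.XF.upd y w ((g * (Matrix.ProjGenLinGroup.mk (H51Z.bm ϖ 0))⁻¹ :
                PGL(2, E)) : PGL(2, E) ⧸ m.L.fam.U w))) ∧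
      (∀ w ∈ S, ∀ (h : (Ty w).H) (τ : J → H3) (y : H59XF.XF m.L.fam),
        Φ (τ, H59XF.XF.upd y w ((Ty w).rt h (y w))) = (Ty w).chi h * Φ (τ, y)) ∧
      ∃ x, Φ x ≠ 0 :=
  ⟨fun h => ⟨h.inv, h.cont, h.growth, fun κ h₁ h₂ => h.rad κ ⟨h₁, h₂⟩, h.hecke, h.typ, h.ne⟩,
    fun ⟨h₁, h₂, h₃, h₄, h₅, h₆, h₇⟩ => ⟨h₁, h₂, h₃, fun κ h => h₄ κ h.cont h.supp, h₅, h₆, h₇⟩⟩

/-- **The statement of block (D)**, the closed proposition `H46Z.BlockD`. There is `N₁ ≠ 0` such that
for all multiples `N₀ ≠ 0` of `N₁` there are depths `k`, `c₀` such that for every model of `X(E)` with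
`U_w = U0 w` for `w ∤ N₀` and all types of these depths at the places of `E` dividing `N₀` there is a
function `Φ` as in `isDForm_iff`, for the numbers `a_w` of section 2. (`H46ZBlocks`, `H55DC`.) -/
theorem BlockD_iff : H46Z.BlockD ↔ ∀ D : H3G.RD,
    ∃ N₁ : ℕ, N₁ ≠ 0 ∧ ∀ N₀ : ℕ, N₀ ≠ 0 → N₁ ∣ N₀ →
      ∃ k c₀ : ℕ, ∀ (J : Type) [Fintype J] (m : H59D.Model D.E J)
        (T : HeightOneSpectrum (𝓞 D.E) → H76U.TD D.E) (Ty : ∀ w, H76U.Typ (m.L.fam.U w)),
        (∀ w ∈ H46Z.divs D.E N₀, H55D.Adm w (T w) k c₀) →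
        (∀ w ∈ H46Z.divs D.E N₀, (Ty w).H = (T w).H) →
        (∀ w ∈ H46Z.divs D.E N₀, ∀ g ∈ (T w).H, (Ty w).chi g = (T w).chi g) →
        (∀ w ∉ H46Z.divs D.E N₀, m.L.U w = H59D.U0 w) →
          ∃ Φ : m.X → ℂ, H55D.IsDForm m (H46Z.divs D.E N₀) Ty (H46Z.awR D) Φ :=
  Iff.rfl

/-- **Block (D): the dihedral form.** `Φ` is given by an explicit series with the coefficients
`∑ χ(b)`, `N b = a`, where `χ` is a quartic character of the ideals of a quadratic extension `B/E`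
inside the field of `ρ`; its invariance comes from one Poisson summation for the theta series of the
norm form of `B/E` and the value of unramified quadratic Gauss sums. (`H16D8`; see `GuideOctD`,
`GuideOctDTheta`, `GuideOctDForm`.) -/
theorem block_D : H46Z.BlockD :=
  H16D.blockD

/-! ## 4. Hyperbolic three-space and the structure `ICT`

`H3` is the upper half space, with points `w = (z, y)`, `z ∈ ℂ`, `y > 0`. -/

/-- The action of `GL₂(ℂ)` on `H3` in coordinates; the function `H3.ch = cosh d`, `d` the hyperbolic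
distance; the measure is the invariant measure `dz dy / y³`, `dz` the Lebesgue measure of `ℂ`.
(`H31Hyp1`, `H31Hyp2`.) -/
theorem hyperbolic_space (g : GL (Fin 2) ℂ) (w v : H3) :
    (g • w).z = ((g 0 0 * w.z + g 0 1) * conj (g 1 0 * w.z + g 1 1) +
      g 0 0 * conj (g 1 0) * (w.y : ℂ) ^ 2) /
        ((Complex.normSq (g 1 0 * w.z + g 1 1) + Complex.normSq (g 1 0) * w.y ^ 2 : ℝ) : ℂ) ∧
    (g • w).y = ‖(g : M₂(ℂ)).det‖ * w.y /
      (Complex.normSq (g 1 0 * w.z + g 1 1) + Complex.normSq (g 1 0) * w.y ^ 2) ∧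
    H3.ch w v = (Complex.normSq (w.z - v.z) + w.y ^ 2 + v.y ^ 2) / (2 * w.y * v.y) ∧
    ∀ f : ℂ → ℝ → ℂ, Integrable (fun u : H3 => f u.z u.y) →
      ∫ u : H3, f u.z u.y = ∫ y in Set.Ioi (0 : ℝ), (y ^ 3)⁻¹ • ∫ z : ℂ, f z y :=
  ⟨rfl, rfl, rfl, H3.integral_eq⟩

/-- `Eis = ℤ[ω]`, `ω = (-1 + i √3) / 2`, as a subring of `ℂ`; `Gam N` is the group `Γ₀(N)` over
`ℤ[ω]`; `fterm c w α`, `w = (z, y)`, is the term `c(α) y K₀(4π|α|y/√3) exp(2πi · 2 Re(αz/√-3))` of a
Fourier series, where `K₀(x)` is the integral of `exp(-x cosh t)` over `t > 0`. (`H96TDef`.) -/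
theorem notation_ict (N : ℕ) (c : Eis → ℝ) :
    (∀ x : ℂ, x ∈ Eis ↔ ∃ a b : ℤ, x = a + b * ((-1 + Complex.I * (Real.sqrt 3 : ℝ)) / 2)) ∧
    (∀ g : GL (Fin 2) ℂ, g ∈ Gam N ↔ (g : M₂(ℂ)).det = 1 ∧
      (∀ i j, (g : M₂(ℂ)) i j ∈ Eis) ∧ ∃ x ∈ Eis, (g : M₂(ℂ)) 1 0 = N * x) ∧
    ∀ (w : H3) (α : Eis), fterm c w α = (c α * w.y * (∫ t in Set.Ioi (0 : ℝ),
        Real.exp (-(4 * π * ‖(α : ℂ)‖ * w.y / Real.sqrt 3 * Real.cosh t))) : ℝ) *
      Complex.exp (2 * π * Complex.I *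
        (2 * ((α : ℂ) * w.z / (Complex.I * (Real.sqrt 3 : ℝ))).re : ℝ)) :=
  ⟨fun _ => Iff.rfl, fun _ => Iff.rfl, fun _ _ => rfl⟩

/-- **The output of block (C).** `ICT N c F` says: `F` is a bounded continuous function on `H3`,
invariant under `Γ₀(N)`, an eigenfunction of all radial integral operators (test function `κ`, a
function of `cosh d`) with the eigenvalue belonging to the spectral parameter `0`, and the sum of a
Fourier series with real coefficients `c(α)`, `α ∈ ℤ[ω]`, which depend only on the ideal `(α)`, are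
multiplicative, satisfy the Hecke relations at the primes not dividing `N`, and vanish if `α` is not
prime to `N`. There is no constant term, and `c(1) = 1`. (`H96TDef`.) -/
theorem ict_iff (N : ℕ) (c : Eis → ℝ) (F : H3 → ℂ) : ICT N c F ↔
    0 < N ∧ Continuous F ∧ (∃ C, ∀ w, ‖F w‖ ≤ C) ∧ (∀ g ∈ Gam N, ∀ w, F (g • w) = F w) ∧
    (∀ κ : ℝ → ℝ, ContDiff ℝ ((⊤ : ℕ∞) : WithTop ℕ∞) κ → HasCompactSupport κ → ∀ w,
      ∫ v, (κ (H3.ch w v) : ℂ) * F v =
        ((2 * ∫ u in Set.Ioi (0 : ℝ), 2 * π * ∫ t in Set.Ioi (Real.cosh u), κ t : ℝ) : ℂ) * F w) ∧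
    (∀ w, HasSum (fun α : Eis => fterm c w α) (F w)) ∧
    c 0 = 0 ∧ c 1 = 1 ∧ (∀ u α : Eis, IsUnit u → c (u * α) = c α) ∧
    (∀ α β : Eis, IsCoprime α β → c (α * β) = c α * c β) ∧
    (∀ (ϖ : Eis) (k : ℕ), Prime ϖ → IsCoprime ϖ (N : Eis) →
      c (ϖ ^ (k + 2)) = c ϖ * c (ϖ ^ (k + 1)) - c (ϖ ^ k)) ∧
    ∀ α : Eis, ¬ IsCoprime α (N : Eis) → c α = 0 :=
  ⟨fun h => ⟨h.pos, h.cont, h.bdd, h.inv, h.eig, h.expn, h.c_zero, h.c_one, h.c_unit, h.c_mul,
      h.c_rec, h.c_supp⟩,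
    fun ⟨h1, h2, h3, h4, h5, h6, h7, h8, h9, h10, h11, h12⟩ =>
      ⟨h1, h2, h3, h4, h5, h6, h7, h8, h9, h10, h11, h12⟩⟩

/-! ## 5. Blocks (C) and (N) -/

/-- **The statement of block (C)**, the closed proposition `H46Z.BlockC`. Let `M = ℚ(√-3)`, `E/M`
cyclic of degree three, `a_w` real numbers, `|a_w| ≤ 2`, invariant under `Gal(E/M)`. Suppose that the
auxiliary primes of section 2 exist, that there are places of `M` which are inert in `E` (another
consequence of the density theorem), and that the conclusion of block (D) holds for the numbers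
`a_w`, with some `N₁`. Then there are `N`, a multiple of `3` and of `N₁`, and `c`, `F` with
`ICT N c F` such that `c(ϖ) = a_w` for all primes `ϖ ∤ N` of `ℤ[ω]` which split in `E` and all
`w ∣ ϖ`. Nothing is claimed about the other `c(ϖ)`. Here `e` is an embedding of `E` in `ℂ`, and
`H83Z.eisO` identifies the integers of `M` with `ℤ[ω]`. (`H46ZBlocks`.) -/
theorem BlockC_iff : H46Z.BlockC ↔
    ∀ (M E : Type) [Field M] [NumberField M] [IsCyclotomicExtension {3} ℚ M] [Field E]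
    [NumberField E] [Algebra M E] [IsGalois M E] (_ : Module.finrank M E = 3)
    (e : E →+* ℂ) (a : HeightOneSpectrum (𝓞 E) → ℝ) (_ : ∀ w, |a w| ≤ 2)
    (_ : ∀ (s : E ≃ₐ[M] E) (w : HeightOneSpectrum (𝓞 E)), a (H47.smulPlace s w) = a w)
    (_ : ∀ n : ℕ, 0 < n → ∃ p : ℕ, p.Prime ∧ ¬ p ∣ n ∧ (p : ZMod n) = -1 ∧ p % 3 = 2 ∧
      (H46Z.divs E p).card = 3 ∧ ∀ w ∈ H46Z.divs E p, a w = 0)
    (_ : ∀ n : ℕ, 0 < n → ∃ v : HeightOneSpectrum (𝓞 M), (n : 𝓞 M) ∉ v.asIdeal ∧
      (H82.above E v).ncard = 1 ∧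
      ∀ w ∈ H82.above E v, v.asIdeal.ramificationIdx' w.asIdeal = 1)
    (N₁ : ℕ) (_ : N₁ ≠ 0)
    (_ : ∀ N₀ : ℕ, N₀ ≠ 0 → N₁ ∣ N₀ →
      ∃ k c₀ : ℕ, ∀ (J : Type) [Fintype J] (m : H59D.Model E J)
        (T : HeightOneSpectrum (𝓞 E) → H76U.TD E) (Ty : ∀ w, H76U.Typ (m.L.fam.U w)),
        (∀ w ∈ H46Z.divs E N₀, H55D.Adm w (T w) k c₀) →
        (∀ w ∈ H46Z.divs E N₀, (Ty w).H = (T w).H) →
        (∀ w ∈ H46Z.divs E N₀, ∀ g ∈ (T w).H, (Ty w).chi g = (T w).chi g) →
        (∀ w ∉ H46Z.divs E N₀, m.L.U w = H59D.U0 w) →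
          ∃ Φ : m.X → ℂ, H55D.IsDForm m (H46Z.divs E N₀) Ty a Φ),
    ∃ (N : ℕ) (c : Eis → ℝ) (F : H3 → ℂ), 3 ∣ N ∧ N₁ ∣ N ∧ ICT N c F ∧
      ∀ v : HeightOneSpectrum (𝓞 M), (N : 𝓞 M) ∉ v.asIdeal → ¬ (H82.above E v).ncard = 1 →
        ∀ w ∈ H82.above E v, ∀ ϖ : Eis,
          v.asIdeal = Ideal.span {(H83Z.eisO (e.comp (algebraMap M E))).symm ϖ} → c ϖ = a w :=
  Iff.rfl

/-- **Block (C): cubic descent.** One compares the traces of two compact operators, one on
`PGL₂(M)`, one on `PGL₂(E)` composed with a generator of `Gal(E/M)`. The five parts of the proof are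
the existence of the geometric setup together with the comparison of the geometric sides
(`H43ZFin`), the form of block (D) on the level of the setup (`H56ZTgtA`), the operator which kills
the constant terms (`H17CF`), the trace identities and the comparison of the spectral sides
(`H79SCmp`), the passage to `ICT` (`H40K7`). (`H15S47Three`, `H79SBlk`; see `GuideOctC`,
`GuideOctCGeom`, `GuideOctCLocal`.) -/
theorem block_C : H46Z.BlockC :=
  H15S47.blockC_of_two H17S.cfamEx H79S.compar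

/-- **Blocks (D) and (C) together.** For every `ρ` as in S47 there are `N` divisible by three, `c` and
`F` with `ICT N c F` whose coefficients have the right values at the primes `p ∤ 3 N` with
`ρ(Frob_p) ∈ Q₈` (`p = |ϖ|²`: the trace of the lift of `ρ(Frob_p)`) and at the primes
`p ≡ 2 mod 3` (the trace of the lift of `ρ(Frob_p)²`). The hypotheses of block (C) are satisfied by
section 2; the last step is `frobenius_dictionary`. (`H15S47Left`.) -/
theorem blocks_D_and_C (ρ : Γℚ →* GL (Fin 2) (ZMod 3)) (hρ : Continuous ρ)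
    (hsurj : Function.Surjective ρ)
    (hdet : ∀ σ : Γℚ, Matrix.GeneralLinearGroup.det (ρ σ) = modThreeCyclotomicChar σ) :
    ∃ (N : ℕ) (c : Eis → ℝ) (F : H3 → ℂ), 3 ∣ N ∧ ICT N c F ∧
      (∀ p : ℕ, p.Prime → ¬ p ∣ 3 * N → ∀ A : ValuationSubring (AlgebraicClosure ℚ),
        A.LiesOverPrime p → ∀ σ : Γℚ, A.IsFrobeniusAt σ p → ρ σ ∈ H3G.Q8 →
          ∀ ϖ : Eis, Complex.normSq (ϖ : ℂ) = p → c ϖ = H15S47.trQ (ρ σ)) ∧
      (∀ p : ℕ, p.Prime → ¬ p ∣ 3 * N → ∀ A : ValuationSubring (AlgebraicClosure ℚ),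
        A.LiesOverPrime p → ∀ σ : Γℚ, A.IsFrobeniusAt σ p →
          ¬ Matrix.GeneralLinearGroup.det (ρ σ) = 1 → c (p : Eis) = H15S47.trQ (ρ σ ^ 2)) :=
  let ⟨N, c, F, h3, h, hc⟩ := H15S47.leftHalf_of block_D block_C ρ ⟨hρ, hsurj, hdet⟩
  ⟨N, c, F, h3, h, hc.split, hc.inert⟩

/-- **Block (N).** If `ICT N c F`, `3 ∣ N`, and `c` has the values of `blocks_D_and_C`, then the
Dirichlet series `∑ c(n) n^(-s)` over the natural numbers converges for `s > 1` near `1` and tends to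
infinity for `s → 1+`. Proof: call it `D(s)`, and let `ℓ(s)` be the series `∑ c(𝔞)² (N𝔞)^(-s)` over
the ideals of `ℤ[ω]`. The Euler factor of `D(s)² ℓ(s)` at `p ∤ 3N` is at least `(1 - p^(-2s))⁴`,
whatever the unknown values of `c` are, and the primes with `ρ(Frob_p) = ±1` or a reflection
(densities 1/24 and 1/4, factors about `exp(16 p^(-s))` and `exp(4 p^(-s))`) make
`log (D(s)² ℓ(s))` at least `(5/3 - ε) log (s - 1)⁻¹`; on the other hand `ℓ(s) = O(1/(s-1))` because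
`F` is bounded. (`H91ZBlockN`, `H91ZFinal`, `H91ZUnb`, `H91ZMain`, `H62N2`, `H37NIct`, `H25ZDens`;
see `GuideOctN`.) -/
theorem block_N (ρ : Γℚ →* GL (Fin 2) (ZMod 3)) (hρ : Continuous ρ)
    (hsurj : Function.Surjective ρ)
    (hdet : ∀ σ : Γℚ, Matrix.GeneralLinearGroup.det (ρ σ) = modThreeCyclotomicChar σ)
    (N : ℕ) (c : Eis → ℝ) (F : H3 → ℂ) (h3 : 3 ∣ N) (hF : ICT N c F)
    (hsplit : ∀ p : ℕ, p.Prime → ¬ p ∣ N → ∀ A : ValuationSubring (AlgebraicClosure ℚ),
      A.LiesOverPrime p → ∀ σ : Γℚ, A.IsFrobeniusAt σ p →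
        Matrix.GeneralLinearGroup.det (ρ σ) = 1 → (ρ σ) ^ 4 = 1 →
          ∀ ϖ : Eis, Complex.normSq (ϖ : ℂ) = p → c ϖ = H15S47.trQ (ρ σ))
    (hinert : ∀ p : ℕ, p.Prime → ¬ p ∣ N → p % 3 = 2 →
      ∀ A : ValuationSubring (AlgebraicClosure ℚ), A.LiesOverPrime p →
        ∀ σ : Γℚ, A.IsFrobeniusAt σ p → c (p : Eis) = H15S47.trQ ((ρ σ) ^ 2)) :
    ∀ K : ℝ, ∃ s₀ : ℝ, 1 < s₀ ∧ ∀ s : ℝ, 1 < s → s < s₀ →
      Summable (fun n : ℕ => c (n : Eis) / (n : ℝ) ^ s) ∧
        K < ∑' n : ℕ, c (n : Eis) / (n : ℝ) ^ s :=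
  H91.Z.blockN ρ ⟨hρ, hsurj, hdet⟩ N c F h3 hF hsplit hinert

/-! ## 6. The theta lift: block (T) -/

/-- **The Siegel theta kernel** `Θ(τ, w) = √v ∑ φ(x) e(τ q(x)) exp(-4πv p(x, w)²)`, `v = Im τ`: here
`x` runs over the lattice `S47T.Lat = ℤ × ℤ[ω] × ℤ` of the Hermitian matrices `(a, β/√-3; conj, d)`,
`q = -det` is a quadratic form of signature `(3, 1)`, `p` is the pairing with a point of `H3`, and
the test function `φ = phiN N` is the characteristic function of the `x = (a, β, d)` with `N ∣ d` and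
`β` prime to `N`. (`H96TDef`.) -/
theorem theta_kernel (a d : ℤ) (β : Eis) (N : ℕ) (τ : ℂ) (w : H3) :
    qL (a, β, d) = Complex.normSq ((β : ℂ) / (Complex.I * (Real.sqrt 3 : ℝ))) - a * d ∧
    pL (a, β, d) w = (a - 2 * ((β : ℂ) / (Complex.I * (Real.sqrt 3 : ℝ)) * conj w.z).re +
      d * (Complex.normSq w.z + w.y ^ 2)) / (2 * w.y) ∧
    Theta 1 (phiN N) τ w = (Real.sqrt τ.im : ℝ) * ∑' x : S47T.Lat, phiN N x *
      Complex.exp (2 * π * Complex.I * (τ * (qL x / ((1 : ℕ) : ℝ) ^ 2 : ℝ))) *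
        (Real.exp (-4 * π * τ.im * (pL x w / ((1 : ℕ) : ℝ)) ^ 2) : ℝ) :=
  ⟨rfl, rfl, rfl⟩

/-- **Cut-off functions** replace fundamental domains: `χ ≥ 0` is measurable and its translates
under `Γ` add up to one. They exist for `Γ₀(N)`. The theta lift of `F` is the integral of
`χ(w) F(w) Θ(τ, w)` over `H3`, which is, up to the factor two due to `-1 ∈ Γ₀(N)`, the integral of
`F Θ` over `Γ₀(N)\H3`. (`H96TDef`, `H47RGamP`.) -/
theorem cut_off {N : ℕ} (hN : N ≠ 0) : (∃ χ : H3 → ℝ, IsCut (Gam N) χ) ∧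
    (∀ χ : H3 → ℝ, IsCut (Gam N) χ ↔ Measurable χ ∧ (∀ w, 0 ≤ χ w) ∧
      ∀ w, HasSum (fun g : Gam N => χ ((g : GL (Fin 2) ℂ) • w)) 1) ∧
    ∀ (χ : H3 → ℝ) (F : H3 → ℂ) (τ : ℂ), lift χ F 1 (phiN N) τ =
      ∫ w, (χ w : ℂ) * (F w * Theta 1 (phiN N) τ w) :=
  ⟨H47.Red.cutEx hN, fun _ => ⟨fun h => ⟨h.meas, h.nonneg, h.sum⟩, fun h => ⟨h.1, h.2.1, h.2.2⟩⟩,
    fun _ _ _ => rfl⟩

/-- **The lift is a modular form** of weight one for `Γ(6N²)`, holomorphic, with `√v |lift|` bounded.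
Modularity comes from the Poisson summation formula for the theta kernel. Holomorphy: since `F` has
the spectral parameter `0`, the equation `16 v ∂_τ(v ∂_τ̄ Θ) = (Δ + 1) Θ` shows that the conjugate of
`v ∂_τ̄(lift)` is holomorphic; Green's formula on the fundamental domain of `SL₂(ℤ)`, for a unitary
family of such lifts, then shows that it is zero. (`H45TA`-`H45TC`, `H49T1`-`H49T4`, `H49TOut`;
`H23T*`, `H93T*`, `H60T*`, `H15S47T3`.) -/
theorem lift_modular (N : ℕ) (c : Eis → ℝ) (F : H3 → ℂ) (h3 : 3 ∣ N) (hF : ICT N c F)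
    (χ : H3 → ℝ) (hχ : IsCut (Gam N) χ) :
    (∀ γ ∈ CongruenceSubgroup.Gamma (6 * N ^ 2), ∀ τ : ℍ, lift χ F 1 (phiN N) ((γ • τ : ℍ) : ℂ) =
      ((γ 1 0 : ℤ) * (τ : ℂ) + (γ 1 1 : ℤ)) * lift χ F 1 (phiN N) τ) ∧
    DifferentiableOn ℂ (lift χ F 1 (phiN N)) {τ | 0 < τ.im} ∧
      ∃ C : ℝ, ∀ τ : ℂ, 0 < τ.im → ‖lift χ F 1 (phiN N) τ‖ ≤ C / Real.sqrt τ.im :=
  ⟨fun _ hγ τ => H49T.lift_congr hF.pos χ F hγ τ, H15S47.pieceHol N c F h3 hF χ hχ⟩

/-- **Hecke operators.** For a prime `p = |ϖ|²` not dividing `3N` the function `τ ↦ lift(3τ)` is an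
eigenfunction of the weight one operator `T_p` with eigenvalue `c(ϖ)` (the formula for forms on which
the diamond operator of `p` is trivial; `p = |ϖ|²`, `p ≠ 3`, implies `p ≡ 1 mod 3`).
(`H29T1`-`H29T8`.) -/
theorem lift_hecke (N : ℕ) (c : Eis → ℝ) (F : H3 → ℂ) (h3 : 3 ∣ N) (hF : ICT N c F)
    (χ : H3 → ℝ) (hχ : IsCut (Gam N) χ) (p : ℕ) (hp : p.Prime) (hpN : ¬ p ∣ 3 * N)
    (ϖ : Eis) (hϖ : Complex.normSq (ϖ : ℂ) = p) (τ : ℂ) (hτ : 0 < τ.im) :
    (∑ j ∈ Finset.range p, lift χ F 1 (phiN N) (3 * ((τ + j) / p))) / p +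
        lift χ F 1 (phiN N) (3 * (p * τ)) = c ϖ * lift χ F 1 (phiN N) (3 * τ) :=
  H15S47.pieceT4 N c F h3 hF χ hχ p hp hpN ϖ hϖ τ hτ

/-- **The lift is not zero**, because the Dirichlet series of block (N) is unbounded: one Fourier
coefficient of the lift is a period of `F` over `Γ₀(N)\H2 × ℝ`, and unfolding against the Eisenstein
series of `Γ₀(N)` over `ℚ` (for real `s > 1` only) would bound the series. (`H90T*`, `H81T5*`,
`H99C1`-`H99C7`.) -/
theorem lift_ne_zero (N : ℕ) (c : Eis → ℝ) (F : H3 → ℂ) (h3 : 3 ∣ N) (hF : ICT N c F)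
    (hN : ∀ K : ℝ, ∃ s₀ : ℝ, 1 < s₀ ∧ ∀ s : ℝ, 1 < s → s < s₀ →
      Summable (fun n : ℕ => c (n : Eis) / (n : ℝ) ^ s) ∧
        K < ∑' n : ℕ, c (n : Eis) / (n : ℝ) ^ s)
    (χ : H3 → ℝ) (hχ : IsCut (Gam N) χ) :
    ∃ τ : ℂ, 0 < τ.im ∧ lift χ F 1 (phiN N) τ ≠ 0 :=
  H15S47.pieceT56 N c F h3 hF hN χ hχ

/-- The Hecke operator `T_p`, `p ∤ M`, on the cusp forms of weight one on `Γ₁(M)`, in terms of
coefficients; `H58.dia M 1 p` is the diamond operator `⟨p⟩`. (`H58Hecke1`.) -/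
theorem hecke_operator {M : ℕ} [NeZero M] {p : ℕ} (hp : p.Prime) (hpM : ¬ p ∣ M)
    (g : CuspForm (Gamma1 M) 1) (n : ℕ) :
    ModularFormClass.qCoeff (H58.T1L M 1 p hp hpM g) n = ModularFormClass.qCoeff g (p * n) +
      (p : ℂ) ^ ((1 : ℤ) - 1) *
        (if p ∣ n then ModularFormClass.qCoeff (H58.dia M 1 p g) (n / p) else 0) :=
  H58.qCoeff_T1L hp hpM g n

/-- **Block (T): the theta lift.** If `ICT N c F`, `3 ∣ N`, and `∑ c(n) n^(-s) → ∞` for `s → 1+`,
there is a cusp form `g ≠ 0` of weight one on some `Γ₁(M)` with `T_p g = c(ϖ) g` for all primes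
`p = |ϖ|²`, `p ∤ M`, in a residue class `1 mod D`. (`H15S47T`-`H15S47T3`, `H49TOut`; see
`GuideOctT`, `GuideOctT2`.) -/
theorem block_T (N : ℕ) (c : Eis → ℝ) (F : H3 → ℂ) (h3 : 3 ∣ N) (hF : ICT N c F)
    (hN : ∀ K : ℝ, ∃ s₀ : ℝ, 1 < s₀ ∧ ∀ s : ℝ, 1 < s → s < s₀ →
      Summable (fun n : ℕ => c (n : Eis) / (n : ℝ) ^ s) ∧
        K < ∑' n : ℕ, c (n : Eis) / (n : ℝ) ^ s) :
    ∃ (D : ℕ) (_ : 0 < D) (M : ℕ) (_ : NeZero M) (g : CuspForm (Gamma1 M) 1), g ≠ 0 ∧
      ∀ (p : ℕ) (hp : p.Prime) (hpM : ¬ p ∣ M), p ≡ 1 [MOD D] →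
        ∀ ϖ : Eis, Complex.normSq (ϖ : ℂ) = p → H58.T1L M 1 p hp hpM g = (c ϖ : ℂ) • g :=
  H15S47.blockT N c F h3 hF hN

/-! ## 7. Block (Z) and the assembly -/

/-- **Block (Z): the end.** Let `g ≠ 0` be a cusp form of weight one on `Γ₁(N)` such that
`T_p g = tr Ψ(ρ(Frob_p)) g` for all primes `p ∤ N` outside a finite set `S` in the residue class
`1 mod D` with `ρ(Frob_p) ∈ Q₈`. Then the conclusion of S47 holds for `ρ`. Proof: the forms with
these eigenvalues contain a common eigenvector of all Hecke and diamond operators prime to the level,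
and the operator `a_n ↦ a_(mn)` (`m` the smallest index with `a_m ≠ 0`) makes a normalised eigenform
`f` of a higher level from it. The representation `ρ_f` of Deligne and Serre has the same traces as
`Ψ ∘ ρ` on a normal subgroup of finite index on which `Ψ ∘ ρ` is still absolutely irreducible, so
`ρ_f` is conjugate to the twist of `Ψ ∘ ρ` by a character trivial on this subgroup; this is a
Dirichlet character modulo `3D`. One twists `f` back and omits the coefficients at the bad primes.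
(`H48ZEnd`; see `GuideOctZ`.) -/
theorem block_Z (ρ : Γℚ →* GL (Fin 2) (ZMod 3)) (hρ : Continuous ρ)
    (hsurj : Function.Surjective ρ)
    (hdet : ∀ σ : Γℚ, Matrix.GeneralLinearGroup.det (ρ σ) = modThreeCyclotomicChar σ)
    (Ψ : GL (Fin 2) (ZMod 3) →* GL (Fin 2) (ℤ√(-2)))
    (hΨ : ∀ g, Matrix.GeneralLinearGroup.map red (Ψ g) = g)
    (N : ℕ) [NeZero N] (g : CuspForm (Gamma1 N) 1) (hg : g ≠ 0)
    (S : Finset ℕ) (D : ℕ) (hD : 0 < D) (ι : ℤ√(-2) →+* ℂ)
    (hT : ∀ (p : ℕ) (hp : p.Prime) (hpN : ¬ p ∣ N), p ∉ S → p ≡ 1 [MOD D] →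
      ∀ A : ValuationSubring (AlgebraicClosure ℚ), A.LiesOverPrime p →
        ∀ σ : Γℚ, A.IsFrobeniusAt σ p →
        Matrix.GeneralLinearGroup.det (ρ σ) = 1 → (ρ σ) ^ 4 = 1 →
        H58.T1L N 1 p hp hpN g = ι (Ψ (ρ σ) : M₂(ℤ√(-2))).trace • g) :
    ∃ (N : ℕ) (_ : NeZero N) (b : ℕ → ℤ√(-2)),
      FormalHecke.IsEigensystem
        (fun ℓ => if ℓ ∣ N then 0 else ((chiNegThree ℓ : ℤ) : ℤ√(-2))) b ∧
      CuspForm.IsWeightOneChiNegThreeRealized N b ∧
      ∀ p : ℕ, p.Prime → ¬ p ∣ 3 * N →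
        ∀ A : ValuationSubring (AlgebraicClosure ℚ), A.LiesOverPrime p →
          ∀ σ : Γℚ, A.IsFrobeniusAt σ p → b p = (Ψ (ρ σ) : M₂(ℤ√(-2))).trace :=
  H48Z.s47_of_form ρ hρ hsurj hdet Ψ hΨ N g hg S D hD ι hT

/-- **Assembly**: S47 follows from the statements of the blocks (D) and (C). Proof:
`blocks_D_and_C` gives `N`, `c`, `F`; by `block_N` the Dirichlet series is unbounded, so `block_T`
gives a cusp form `g ≠ 0` with `T_p g = c(ϖ) g` for the primes `p = |ϖ|²`, `p ≡ 1 mod D`; with `3D`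
for `D` every such `p` is of the form `|ϖ|²` (`H15S47Norm`), and `c(ϖ)` is known if `ρ(Frob_p) ∈ Q₈`:
this is the hypothesis of `block_Z`. (`H15S47DC`, `H15S47Glue`, `H15S47Meet`, `H15S47Fin`.) -/
theorem S47_of_D_and_C (hD : H46Z.BlockD) (hC : H46Z.BlockC)
    (ρ : Γℚ →* GL (Fin 2) (ZMod 3)) (hρ : Continuous ρ) (hsurj : Function.Surjective ρ)
    (hdet : ∀ σ : Γℚ, Matrix.GeneralLinearGroup.det (ρ σ) = modThreeCyclotomicChar σ)
    (Ψ : GL (Fin 2) (ZMod 3) →* GL (Fin 2) (ℤ√(-2)))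
    (hΨ : ∀ g, Matrix.GeneralLinearGroup.map red (Ψ g) = g) :
    ∃ (N : ℕ) (_ : NeZero N) (b : ℕ → ℤ√(-2)),
      FormalHecke.IsEigensystem
        (fun ℓ => if ℓ ∣ N then 0 else ((chiNegThree ℓ : ℤ) : ℤ√(-2))) b ∧
      CuspForm.IsWeightOneChiNegThreeRealized N b ∧
      ∀ p : ℕ, p.Prime → ¬ p ∣ 3 * N →
        ∀ A : ValuationSubring (AlgebraicClosure ℚ), A.LiesOverPrime p →
          ∀ σ : Γℚ, A.IsFrobeniusAt σ p → b p = (Ψ (ρ σ) : M₂(ℤ√(-2))).trace :=
  H15S47.S47_of_DC hD hC ρ hρ hsurj hdet Ψ hΨ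

/-- **S47**: the octahedral case of the theorem of Langlands and Tunnell. The proof is the previous
theorem applied to `block_D` and `block_C`. (`S47`.) -/
theorem theorem_S47
    (ρ : Γℚ →* GL (Fin 2) (ZMod 3)) (hρ : Continuous ρ) (hsurj : Function.Surjective ρ)
    (hdet : ∀ σ : Γℚ, Matrix.GeneralLinearGroup.det (ρ σ) = modThreeCyclotomicChar σ)
    (Ψ : GL (Fin 2) (ZMod 3) →* GL (Fin 2) (ℤ√(-2)))
    (hΨ : ∀ g, Matrix.GeneralLinearGroup.map red (Ψ g) = g) :
    ∃ (N : ℕ) (_ : NeZero N) (b : ℕ → ℤ√(-2)),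
      FormalHecke.IsEigensystem
        (fun ℓ => if ℓ ∣ N then 0 else ((chiNegThree ℓ : ℤ) : ℤ√(-2))) b ∧
      CuspForm.IsWeightOneChiNegThreeRealized N b ∧
      ∀ p : ℕ, p.Prime → ¬ p ∣ 3 * N →
        ∀ A : ValuationSubring (AlgebraicClosure ℚ), A.LiesOverPrime p →
          ∀ σ : Γℚ, A.IsFrobeniusAt σ p → b p = (Ψ (ρ σ) : M₂(ℤ√(-2))).trace :=
  S47.result ρ hρ hsurj hdet Ψ hΨ

end Fermat.Agent.Guide.Octahedral
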