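import Fermat.Agent.H3GA
import Fermat.Agent.H30G4
import Fermat.Agent.H83ZPrime
import Fermat.Agent.H28Y3
import Fermat.Agent.H46ZMeet

/-!
# Guide to the proof: the fields and the Galois dictionary of S47

S47 (the octahedral case of the theorem of Langlands and Tunnell) starts from a continuous surjective
homomorphism `ρ : Gal(ℚ̄/ℚ) → GL₂(𝔽₃)` whose determinant is the cyclotomic character modulo `3`. The
blocks (D) and (C) of the proof do not see `ρ`: they work with number fields, places and real numbers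
`a_w` attached to places. This file lists the theorems which translate the one language into the other.
The borders of all blocks and the assembly are in `GuideOctahedral`; the blocks themselves in `GuideOctD`,
`GuideOctC`, `GuideOctN`, `GuideOctT`.

* Section 1: the group `GL₂(𝔽₃)` (48 elements) with the normal subgroups `SL₂(𝔽₃)` (24), `Q₈` (8),
  `{±1}` (2), its elements of order eight, and the traces of a lift `Ψ : GL₂(𝔽₃) → GL₂(ℤ[√-2])` on
  `Q₈`: they are `2`, `-2`, `0`.
* Section 2: the fields `ℚ ⊂ M ⊂ E ⊂ B ⊂ B' ⊂ K`, fixed fields of the preimages under `ρ` of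
  `SL₂(𝔽₃) ⊃ Q₈ ⊃ ⟨i⟩ ⊃ {±1} ⊃ 1`, of degrees `2, 6, 12, 24, 48`; `M = ℚ(√-3)`, `E/M` is cyclic of
  degree three with generator `s`, `E` and `B` are totally complex, `E ⊂ B ⊂ B' ⊂ K` is a "quaternion
  tower".
* Section 3: places and Frobenius elements. A place of `ℚ̄` over the prime `p` is a valuation subring
  `A` with `A.LiesOverPrime p` (`p` is not invertible in `A`); `A.IsFrobeniusAt σ p` means that `σ`
  stabilises `A` and acts as `x ↦ x ^ p` on its residue field. A place of a number field is a term of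
  `HeightOneSpectrum` of the ring of integers (a nonzero prime ideal). Inertia, norms and decomposition
  groups of these places in terms of `ρ`, and the two existence theorems (a place with given
  decomposition group; a prime `p ≡ -1 mod n` with a Frobenius element of order eight).
* Section 4: the numbers `a_w` and the three statements used in the assembly of S47.

All cited theorems occur in the proof term of S47 and of no other statement; only the notions in
`places_above`, `smulPlace_ideal` and `centres` (places above a place, action of an automorphism on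
places, centre of a place of `ℚ̄` in a number field) are also used for S01 and others.
Library files in reading order: `H3G0`, `H3G2`, `H3G1`, `H3G3`-`H3G6` (helper3), `H89D1`-`H89D5`
(helper89), `H30G1`-`H30G4` (helper30), `H83ZPrime` (helper83), `H28Y1`-`H28Y3` (helper28), `H3GA`
(helper3); interface `H46ZMeet`, `H46ZBlocks` (helper46). See NOTES.md, section 8, and the notes [411],
[413], [401] of its appendix A.
-/

set_option autoImplicit false
set_option maxSynthPendingDepth 3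

open NumberField IsDedekindDomain Fermat.Agent.H3G Fermat.Agent.H46Z
open FLT.ExplicitLift WeierstrassCurve
open scoped Pointwise

namespace Fermat.Agent.Guide.OctahedralGal

/-- An algebraic closure of `ℚ`. -/
local notation "Qb" => AlgebraicClosure ℚ

/-- The absolute Galois group of `ℚ`. -/
local notation "Γℚ" => (AlgebraicClosure ℚ ≃ₐ[ℚ] AlgebraicClosure ℚ)

/-! ## Section 1: finite group theory

`GG` is notation of the library for `GL (Fin 2) (ZMod 3)`. -/

/-- **The three subgroups**: `SL = SL₂(𝔽₃)` is the kernel of the determinant, `Q8` is the quaternion group,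
the set of the elements of determinant one whose fourth power is one (in the library it is defined by:
determinant one and trace zero, or `±1`), and `PM = {±1}`. Library: `H3G0`. -/
theorem subgroups (g : GL (Fin 2) (ZMod 3)) :
    (g ∈ SL ↔ Matrix.GeneralLinearGroup.det g = 1) ∧
      (g ∈ Q8 ↔ Matrix.GeneralLinearGroup.det g = 1 ∧ g ^ 4 = 1) ∧
      (g ∈ PM ↔ g = 1 ∨ g = -1) :=
  ⟨mem_SL, mem_Q8_iff_pow, mem_PM⟩

/-- The three subgroups are normal; the orders of the four groups. Library: `H3G0`, `H3G2`. -/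
theorem normal_and_orders : (SL.Normal ∧ Q8.Normal ∧ PM.Normal) ∧
    Nat.card (GL (Fin 2) (ZMod 3)) = 48 ∧ Nat.card SL = 24 ∧ Nat.card Q8 = 8 ∧ Nat.card PM = 2 :=
  ⟨⟨inferInstance, inferInstance, inferInstance⟩, card_GG, card_SL, card_Q8, card_PM⟩

/-- The square of an element of `Q₈` other than `±1` is `-1`. Library: `H3G0`. -/
theorem sq_of_mem_quaternion (g : GL (Fin 2) (ZMod 3)) (hg : g ∈ Q8) (h1 : g ≠ 1) (h2 : g ≠ -1) :
    g ^ 2 = -1 :=
  sq_of_mem_Q8 hg h1 h2

/-- If `det g = -1`, then the square of `g` is in `Q₈`. So for a prime `p` inert in `M = ℚ(√-3)` the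
Frobenius element of the place `p` of `M` (the square of a Frobenius element at `p`) always has its image
in `Q₈`: if it is unramified in `E`, this place splits completely in `E`. Library: `H3G0`. -/
theorem sq_of_det_neg_one (g : GL (Fin 2) (ZMod 3)) (hg : g ∉ SL) : g ^ 2 ∈ Q8 :=
  sq_mem_Q8_of_not_mem_SL hg

/-- **Elements of order eight.** An element of order `8` is not in `SL₂(𝔽₃)` (the cube of an element of
`SL₂(𝔽₃)` is in `Q₈`, so its twelfth power is `1`), and its square is an element of `Q₈` other than `±1`.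
Library: `H28Y3`. -/
theorem order_eight (g : GL (Fin 2) (ZMod 3)) (hg : orderOf g = 8) :
    g ∉ SL ∧ g * g ∈ Q8 ∧ g * g ≠ 1 ∧ g * g ≠ -1 :=
  ⟨H28Y.not_mem_SL_of_orderOf hg, H28Y.sq_of_orderOf hg⟩

/-- `h8 = (1 1; 1 0)` has order `8` and determinant `-1`. Library: `H83ZPrime`. -/
theorem element_of_order_eight :
    ((H83Z.h8 : GL (Fin 2) (ZMod 3)) : Matrix (Fin 2) (Fin 2) (ZMod 3)) = !![1, 1; 1, 0] ∧
      orderOf H83Z.h8 = 8 ∧ Matrix.GeneralLinearGroup.det H83Z.h8 = -1 :=
  ⟨rfl, H83Z.orderOf_h8, H83Z.det_h8⟩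

/-- **Commutators.** The matrices `up a = (1 a; 0 1)` and `lo a = (1 0; a 1)` are commutators
`u = d u d⁻¹ u⁻¹` with `d = dg = diag(-1, 1)`, and a subgroup which contains all of them contains
`SL₂(𝔽₃)`. So every element of `SL₂(𝔽₃)` is the image under `ρ` of an automorphism of `ℚ̄` which is trivial
on the roots of unity (as commutators are); this is used for `exists_prime_order_eight`.
Library: `H83ZPrime`. -/
theorem commutators :
    (∀ a : ZMod 3, H83Z.dg * H83Z.up a * H83Z.dg⁻¹ * (H83Z.up a)⁻¹ = H83Z.up a ∧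
      H83Z.dg * H83Z.lo a * H83Z.dg⁻¹ * (H83Z.lo a)⁻¹ = H83Z.lo a) ∧
    ((H83Z.dg : GL (Fin 2) (ZMod 3)) : Matrix (Fin 2) (Fin 2) (ZMod 3)) = !![-1, 0; 0, 1] ∧
    (∀ a : ZMod 3, ((H83Z.up a : GL (Fin 2) (ZMod 3)) : Matrix (Fin 2) (Fin 2) (ZMod 3)) =
      !![1, a; 0, 1] ∧ ((H83Z.lo a : GL (Fin 2) (ZMod 3)) : Matrix (Fin 2) (Fin 2) (ZMod 3)) =
      !![1, 0; a, 1]) ∧
    ∀ K : Subgroup (GL (Fin 2) (ZMod 3)), (∀ a, H83Z.up a ∈ K) → (∀ a, H83Z.lo a ∈ K) →
      ∀ y : GL (Fin 2) (ZMod 3), (y : Matrix (Fin 2) (Fin 2) (ZMod 3)).det = 1 → y ∈ K :=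
  ⟨fun a => ⟨H83Z.up_comm a, H83Z.lo_comm a⟩, rfl, fun _ => ⟨rfl, rfl⟩, H83Z.mem_of_det_eq_one⟩

/-- **The traces of the lift.** Let `Ψ : GL₂(𝔽₃) → GL₂(ℤ[√-2])` be a homomorphism which is a section
of the reduction `red : ℤ[√-2] → 𝔽₃`, `√-2 ↦ -1`. The trace of `Ψ g` is `2` for `g = 1`, `-2` for
`g = -1` and `0` for the other elements of `Q₈` (theorem of Cayley and Hamilton). It does not depend on
the choice of `Ψ`; this is why only the orders of Frobenius elements matter in the proof of S47.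
Library: `H3G2`. -/
theorem trace_lift (Ψ : GL (Fin 2) (ZMod 3) →* GL (Fin 2) (ℤ√(-2)))
    (hΨ : ∀ g, Matrix.GeneralLinearGroup.map red (Ψ g) = g) :
    ((Ψ 1 : GL (Fin 2) (ℤ√(-2))) : Matrix (Fin 2) (Fin 2) (ℤ√(-2))).trace = 2 ∧
      ((Ψ (-1) : GL (Fin 2) (ℤ√(-2))) : Matrix (Fin 2) (Fin 2) (ℤ√(-2))).trace = -2 ∧
      ∀ g ∈ Q8, g ≠ 1 → g ≠ -1 →
        ((Ψ g : GL (Fin 2) (ℤ√(-2))) : Matrix (Fin 2) (Fin 2) (ℤ√(-2))).trace = 0 :=
  ⟨ptr_one, ptr_neg_one hΨ, fun _ hg h1 h2 => ptr_of_mem_Q8 hΨ hg h1 h2⟩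

/-- The determinant of the lift is `1` on `SL₂(𝔽₃)`, and `tr Ψ(g²) = (tr Ψ g)² - 2 det Ψ g` for all `g`
(theorem of Cayley and Hamilton). Library: `H3G2`. -/
theorem det_lift (Ψ : GL (Fin 2) (ZMod 3) →* GL (Fin 2) (ℤ√(-2)))
    (hΨ : ∀ g, Matrix.GeneralLinearGroup.map red (Ψ g) = g) (g : GL (Fin 2) (ZMod 3)) :
    (g ∈ SL → ((Ψ g : GL (Fin 2) (ℤ√(-2))) : Matrix (Fin 2) (Fin 2) (ℤ√(-2))).det = 1) ∧
      ((Ψ (g * g) : GL (Fin 2) (ℤ√(-2))) : Matrix (Fin 2) (Fin 2) (ℤ√(-2))).trace =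
        ((Ψ g : GL (Fin 2) (ℤ√(-2))) : Matrix (Fin 2) (Fin 2) (ℤ√(-2))).trace ^ 2 -
          2 * ((Ψ g : GL (Fin 2) (ℤ√(-2))) : Matrix (Fin 2) (Fin 2) (ℤ√(-2))).det :=
  ⟨det_pm_of_mem hΨ, ptr_sq g⟩

/-- The function `val8 : GL₂(𝔽₃) → ℝ` of the interfaces: `2`, `-2`, `0` at `1`, `-1` and the other
elements. On `Q₈` it is the trace of the lift (`trace_lift`). Library: `H46ZMeet` (definition), `H3G6`. -/
theorem val8_values : val8 1 = 2 ∧ val8 (-1) = -2 ∧
    ∀ g : GL (Fin 2) (ZMod 3), g ≠ 1 → g ≠ -1 → val8 g = 0 :=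
  ⟨val8_one, val8_neg_one, fun _ h1 h2 => val8_of_ne h1 h2⟩

/-! ## Section 2: the fields

`D : RD` is the package of the hypotheses of S47 on `ρ`: `D.ρ : Gal(ℚ̄/ℚ) → GL₂(𝔽₃)`, `D.cont`
(continuous), `D.surj` (surjective), `D.det` (the determinant is the cyclotomic character mod `3`).
The fields are `D.M`, `D.E`, `D.B i`, `D.B'`, `D.K`. -/

/-- **Fixed fields.** `fld ρ H` is the field of the elements of `ℚ̄` fixed by all automorphisms `σ` with
`ρ σ` in the subgroup `H`. As `ρ` is continuous, Galois theory shows that an automorphism fixes this field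
pointwise if and only if its image under `ρ` is in `H`. Library: `H3G1`. -/
theorem fixed_field (ρ : Γℚ →* GL (Fin 2) (ZMod 3)) (hρ : Continuous ρ)
    (H : Subgroup (GL (Fin 2) (ZMod 3))) :
    (∀ x : Qb, x ∈ fld ρ H ↔ ∀ σ : Γℚ, ρ σ ∈ H → σ x = x) ∧
      ∀ σ : Γℚ, σ ∈ (fld ρ H).fixingSubgroup ↔ ρ σ ∈ H :=
  ⟨fun _ => mem_fld, fun _ => mem_fixingSubgroup_fld hρ⟩

/-- The degree of `fld ρ H` over `ℚ` is the index of `H`; the field is normal over `ℚ` if `H` is a normal
subgroup; a larger subgroup has a smaller field. Library: `H3G1`. -/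
theorem degree_is_index (ρ : Γℚ →* GL (Fin 2) (ZMod 3)) (hρ : Continuous ρ)
    (hsurj : Function.Surjective ρ) (H H' : Subgroup (GL (Fin 2) (ZMod 3))) :
    Module.finrank ℚ (fld ρ H) = H.index ∧ (H.Normal → Normal ℚ (fld ρ H)) ∧
      (H ≤ H' → fld ρ H' ≤ fld ρ H) :=
  ⟨finrank_fld hρ hsurj H, fun _ => normal_fld H, fld_anti⟩

/-- **Relative extensions.** Let `H ≤ H'` and let `H` be normal in `H'`. Then `fld ρ H` is a Galois
extension of `fld ρ H'` of degree `[H' : H]`. (`algOf`: the algebra structure given by the inclusion.)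
Library: `H3G3`. -/
theorem relative_extension (ρ : Γℚ →* GL (Fin 2) (ZMod 3)) (hρ : Continuous ρ)
    (hsurj : Function.Surjective ρ) {H H' : Subgroup (GL (Fin 2) (ZMod 3))} (h : H ≤ H')
    (hn : (H.subgroupOf H').Normal) :
    letI := algOf (fld_anti (ρ := ρ) h)
    IsGalois (fld ρ H') (fld ρ H) ∧ Module.finrank (fld ρ H') (fld ρ H) = H.relIndex H' :=
  ⟨isGalois_rel hρ h hn, finrank_rel hρ hsurj h⟩

/-- **Its automorphisms.** `autRel h hn σ hσ` is the restriction to `fld ρ H` of an automorphism `σ` of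
`ℚ̄` with `ρ σ ∈ H'`. All automorphisms over `fld ρ H'` are of this form, and `σ`, `τ` have the same
restriction if and only if `ρ σ` and `ρ τ` have the same class modulo `H`. Library: `H3G3`. -/
theorem relative_automorphisms (ρ : Γℚ →* GL (Fin 2) (ZMod 3)) (hρ : Continuous ρ)
    {H H' : Subgroup (GL (Fin 2) (ZMod 3))} (h : H ≤ H') (hn : (H.subgroupOf H').Normal) :
    letI := algOf (fld_anti (ρ := ρ) h)
    (∀ (σ : Γℚ) (hσ : ρ σ ∈ H') (x : fld ρ H),
      ((autRel h hn σ hσ x : fld ρ H) : Qb) = σ (x : Qb)) ∧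
    (∀ (σ : Γℚ) (hσ : ρ σ ∈ H') (τ : Γℚ) (hτ : ρ τ ∈ H'),
      autRel h hn σ hσ = autRel h hn τ hτ ↔ (ρ σ)⁻¹ * ρ τ ∈ H) ∧
    ∀ g : fld ρ H ≃ₐ[fld ρ H'] fld ρ H, ∃ (σ : Γℚ) (hσ : ρ σ ∈ H'), autRel h hn σ hσ = g :=
  ⟨fun _ _ _ => rfl, autRel_eq_iff hρ h hn, autRel_surjective hρ h hn⟩

/-- The five fields are the fixed fields of the preimages of `SL₂(𝔽₃)`, `Q₈`, the cyclic group
generated by an element `i` of order four of `Q₈` (`i : QI`), `{±1}` and the trivial group.
Library: `H3G4`. -/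
theorem fields (D : RD) (i : QI) : D.M = fld D.ρ SL ∧ D.E = fld D.ρ Q8 ∧
    D.B i = fld D.ρ (Subgroup.zpowers i.g) ∧ D.B' = fld D.ρ PM ∧ D.K = fld D.ρ ⊥ :=
  ⟨rfl, rfl, rfl, rfl, rfl⟩

/-- The degrees `[M : ℚ] = 2`, `[E : M] = 3`, `[E : ℚ] = 6`, `[K : E] = 8`. Library: `H3G4`. -/
theorem degrees (D : RD) : Module.finrank ℚ D.M = 2 ∧ Module.finrank D.M D.E = 3 ∧
    Module.finrank ℚ D.E = 6 ∧ Module.finrank D.E D.K = 8 :=
  ⟨D.finrank_M, D.finrank_ME, D.finrank_E, D.finrank_EK⟩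

/-- `M` is the field of cube roots of unity (because the determinant of `ρ` is the cyclotomic character),
and `E` is a Galois extension of `M`. Library: `H3G5`, `H3G4`. -/
theorem field_M (D : RD) : IsCyclotomicExtension {3} ℚ D.M ∧ IsGalois D.M D.E :=
  ⟨inferInstance, inferInstance⟩

/-- **Cube roots of unity.** Let `z3` be a primitive cube root of unity. `σ z3 = z3 ^ χ(σ)` for the
cyclotomic character `χ` modulo `3`, and `χ` is the determinant of `ρ`; so `z3` is in `M`, and every field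
`fld ρ H` with `H ≤ SL₂(𝔽₃)` contains it and is totally complex. Library: `H3G4`. -/
theorem cube_roots_of_unity (D : RD) :
    (∀ σ : Γℚ, σ z3 = z3 ^ ((modThreeCyclotomicChar σ : (ZMod 3)ˣ) : ZMod 3).val) ∧
      z3 ∈ fld D.ρ SL ∧ ∀ H : Subgroup (GL (Fin 2) (ZMod 3)), H ≤ SL → IsTotallyComplex (fld D.ρ H) :=
  ⟨apply_z3, D.z3_mem, fun _ h => D.isTotallyComplex_of_le h⟩

/-- `E` and `B` are totally complex (they contain the cube roots of unity): there are no real places in
the blocks (D) and (C). Library: `H3G4`. -/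
theorem totally_complex (D : RD) (i : QI) : IsTotallyComplex D.E ∧ IsTotallyComplex (D.B i) :=
  ⟨inferInstance, inferInstance⟩

/-- **The generator `s` of `Gal(E/M)`.** It is the restriction to `E` of an automorphism `σ` of `ℚ̄` with
`ρ σ = (1 1; 0 1)`; it has order three and generates the Galois group. The trace formula of block (C)
is twisted by `s`. Library: `H3G5`. -/
theorem generator_s (D : RD) :
    (∃ σ : Γℚ, ((D.ρ σ : GL (Fin 2) (ZMod 3)) : Matrix (Fin 2) (Fin 2) (ZMod 3)) = !![1, 1; 0, 1] ∧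
      ∀ x : D.E, ((D.s x : D.E) : Qb) = σ (x : Qb)) ∧
    D.s ≠ 1 ∧ D.s ^ 3 = 1 ∧ Subgroup.zpowers D.s = ⊤ :=
  ⟨⟨D.sig, by rw [D.ρ_sig]; rfl, fun _ => rfl⟩, D.s_ne_one, D.s_pow_three, D.zpowers_s⟩

/-- **The quaternion tower.** `K/E` is a Galois extension with group `Q₈` in the following weak sense,
which is all that block (D) uses: `B/E`, `B'/B` and `K/B'` are quadratic, every automorphism of `B'/E` is
an involution or trivial, and every element of order at most two of `Gal(K/E)` is trivial on `B'`.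
Library: `H89D2` (definition), `H3G6`. -/
theorem quaternion_tower (D : RD) (i : QI) :
    IsGalois D.E D.K ∧ IsGalois D.E D.B' ∧ Module.finrank D.E (D.B i) = 2 ∧
      Module.finrank (D.B i) D.B' = 2 ∧ Module.finrank D.B' D.K = 2 ∧
      (∀ σ : D.B' ≃ₐ[D.E] D.B', σ * σ = 1) ∧
      (∀ σ : D.K ≃ₐ[D.E] D.K, σ * σ = 1 → ∀ x : D.B', σ (algebraMap D.B' D.K x) =
        algebraMap D.B' D.K x) :=
  let h := D.isQ8Tower i
  ⟨h.isGalois_EK, h.isGalois_EC, h.finrank_EB, h.finrank_BC, h.finrank_CK, h.sq_eq_one, h.fix_of_sq⟩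

/-! ## Section 3: places and Frobenius elements -/

/-- **Places above a place.** `H82.above L v` is the set of the places of `L` above the place `v` of `F`, and
`v` is nonsplit in `L` (`H82.NonSplit L v`) if there is exactly one of them. Library: `H82CftDefs`. -/
theorem places_above {F L : Type} [Field F] [NumberField F] [Field L] [NumberField L] [Algebra F L]
    (v : HeightOneSpectrum (𝓞 F)) (w : HeightOneSpectrum (𝓞 L)) :
    (w ∈ H82.above L v ↔ w.asIdeal.under (𝓞 F) = v.asIdeal) ∧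
      (H82.NonSplit L v ↔ (H82.above L v).ncard = 1) :=
  ⟨Iff.rfl, Iff.rfl⟩

/-- `H47.smulPlace g w` is the place `g w` for an automorphism `g`. Library: `H47TClass`. -/
theorem smulPlace_ideal {F L : Type} [Field F] [Field L] [NumberField L] [Algebra F L]
    (g : L ≃ₐ[F] L) (w : HeightOneSpectrum (𝓞 L)) : (H47.smulPlace g w).asIdeal = g • w.asIdeal :=
  rfl

/-- **Centres.** `H86.centre L A` is the prime ideal of the integers of `L ⊂ ℚ̄` below the place `A` of
`ℚ̄`. Every prime ideal over `p` is the centre of a place over `p`, and the centre in a subfield `L'` of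
`L` is the restriction of the centre in `L`. Library: `H30G1`. -/
theorem centres (L : IntermediateField ℚ Qb) [NumberField L] (p : ℕ) (hp : p.Prime) :
    (∀ P : Ideal (𝓞 L), P.IsPrime → ((p : ℕ) : 𝓞 L) ∈ P →
      ∃ A : ValuationSubring Qb, A.LiesOverPrime p ∧ H86.centre L A = P) ∧
    ∀ (L' : IntermediateField ℚ Qb) (h : L' ≤ L) (A : ValuationSubring Qb),
      (H86.centre L A).comap (H30G.incl h) = H86.centre L' A :=
  ⟨fun P _ h => H30G.exists_centre_eq L hp P h, fun _ h A => H30G.comap_incl_centre h A⟩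

/-- **Residue degrees.** A nonzero prime ideal `P` of a number field contains a prime number `p`, its norm
is `p ^ n` with `n > 0`, and `x ^ (p ^ k) ≡ x` modulo `P` for all `x` if and only if `n` divides `k`.
Library: `H30G1`. -/
theorem residue_degree {F : Type} [Field F] [NumberField F] (P : Ideal (𝓞 F)) [P.IsPrime]
    (h0 : P ≠ ⊥) :
    ∃ p n : ℕ, p.Prime ∧ 0 < n ∧ ((p : ℕ) : 𝓞 F) ∈ P ∧ Ideal.absNorm P = p ^ n ∧
      ∀ k : ℕ, (∀ x : 𝓞 F, x ^ p ^ k - x ∈ P) ↔ n ∣ k :=
  H30G.exists_absNorm_eq_pow P h0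

/-- **Frobenius elements and residue degrees.** Let `K` be a normal number field in `ℚ̄` which is
unramified at `p` (`UnrK`: inertia groups are trivial), `L` a subfield of `K`, `A` a place of `ℚ̄` over `p`
and `φ` a Frobenius element at `A`. Then `φ ^ k` is trivial on `L` if and only if the residue degree of the
place of `L` below `A` (`resDeg`, the norm of this place is `p ^ resDeg`) divides `k`. `L` need not be
normal. Library: `H30G1`. -/
theorem frobenius_residue_degree (K L : IntermediateField ℚ Qb) [NumberField K] [Normal ℚ K]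
    [NumberField L] (hLK : L ≤ K) (p : ℕ) (hp : p.Prime)
    (hunr : ∀ A : ValuationSubring Qb, A.LiesOverPrime p → ∀ τ : K ≃ₐ[ℚ] K,
      (∀ x : 𝓞 K, τ • x - x ∈ H86.centre K A) → τ = 1)
    (A : ValuationSubring Qb) (hA : A.LiesOverPrime p) (φ : Γℚ) (hφ : A.IsFrobeniusAt φ p) (k : ℕ) :
    Ideal.absNorm (H86.centre L A) = p ^ H30G.resDeg L A p ∧
      ((∀ x ∈ L, (φ ^ k) x = x) ↔ H30G.resDeg L A p ∣ k) :=
  ⟨H30G.absNorm_centre hp hA, H30G.frob_pow_iff hLK hp hunr hA hφ k⟩

/-- **The bad primes.** There is an integer `N₀`, divisible by `6`, such that the inertia groups at all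
primes not dividing `N₀` are in the kernel of `ρ`. Library: `H30G1`, `H30G4`. -/
theorem exists_bad_primes (D : RD) : ∃ N₀ : ℕ, 0 < N₀ ∧ 6 ∣ N₀ ∧ ∀ p : ℕ, p.Prime → ¬ p ∣ N₀ →
    ∀ A : ValuationSubring Qb, A.LiesOverPrime p → ∀ σ ∈ A.inertiaSubgroupIn ℚ, D.ρ σ = 1 :=
  H30G.exists_bad D

/-- The reason: a normal number field `K` is unramified outside finitely many primes. For every
automorphism `τ ≠ 1` choose an integer `x` of `K` with `τ x ≠ x`; if inertia at a place over `p` is not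
trivial, `p` divides the product of the norms of the numbers `τ x - x`. Library: `H30G1`. -/
theorem exists_unramified (K : IntermediateField ℚ Qb) [NumberField K] [Normal ℚ K] :
    ∃ N₀ : ℕ, 0 < N₀ ∧ ∀ p : ℕ, p.Prime → ¬ p ∣ N₀ → ∀ A : ValuationSubring Qb,
      A.LiesOverPrime p → ∀ τ : K ≃ₐ[ℚ] K, (∀ x : 𝓞 K, τ • x - x ∈ H86.centre K A) → τ = 1 :=
  H30G.exists_unrK K

/-- **Inertia in the kernel of `ρ`.** If the inertia groups of the field `K = fld ρ ⊥` above `p` are
trivial (`UnrK`), then inertia at `p` is in the kernel of `ρ`; and then the inertia groups of all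
`fld ρ H`, `H` normal, and of `K/E` are trivial. Library: `H30G2` (`rho_inertia`), `H30G3` (`Unr.unrK`),
`H30G4` (`Unr.trivIn_EK`); for the second statement also `H28Y2` (`inertia_trivial`). -/
theorem inertia_in_kernel (D : RD) (p : ℕ) (hp : p.Prime) :
    (H30G.UnrK (fld D.ρ ⊥) p →
      ∀ A : ValuationSubring Qb, A.LiesOverPrime p → ∀ σ ∈ A.inertiaSubgroupIn ℚ, D.ρ σ = 1) ∧
    ((∀ A : ValuationSubring Qb, A.LiesOverPrime p → ∀ σ ∈ A.inertiaSubgroupIn ℚ, D.ρ σ = 1) →
      (∀ H : Subgroup (GL (Fin 2) (ZMod 3)), H.Normal → H30G.UnrK (fld D.ρ H) p) ∧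
      ∀ w : HeightOneSpectrum (𝓞 D.K), ((p : ℕ) : 𝓞 D.K) ∈ w.asIdeal →
        ∀ σ : D.K ≃ₐ[D.E] D.K, (∀ x : 𝓞 D.K, σ • x - x ∈ w.asIdeal) → σ = 1) :=
  ⟨fun h _ hA _ hσ => H30G.rho_inertia D.cont h hA hσ, fun h =>
    ⟨fun H _ => H30G.Unr.unrK h H, fun w hw => H30G.Unr.trivIn_EK h hp w hw⟩⟩

/-- **The residue degree at `A` of any of the fields** `fld ρ H` (`H` need not be normal) divides `k` if and
only if `ρ(φ) ^ k` is in `H`. With `centres` and `frobenius_conjugate` one obtains `norm_of_place`.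
Library: `H30G2`. -/
theorem residue_degree_of_field (D : RD) (p : ℕ) (hp : p.Prime)
    (hunr : ∀ A : ValuationSubring Qb, A.LiesOverPrime p → ∀ σ ∈ A.inertiaSubgroupIn ℚ, D.ρ σ = 1)
    (A : ValuationSubring Qb) (hA : A.LiesOverPrime p) (φ : Γℚ) (hφ : A.IsFrobeniusAt φ p)
    (H : Subgroup (GL (Fin 2) (ZMod 3))) (k : ℕ) :
    H30G.resDeg (fld D.ρ H) A p ∣ k ↔ D.ρ φ ^ k ∈ H :=
  H30G.resDeg_dvd_iff D.cont hp (H30G.Unr.unrK hunr ⊥) hA hφ H k

/-- **Norms of places.** Let inertia at `p` be in the kernel of `ρ`, `φ` a Frobenius element at a place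
over `p`, `H` a normal subgroup of `GL₂(𝔽₃)` and `P` any place over `p` of the field `fld ρ H`. The norm of
`P` is `p ^ f`, where `f` is the order of `ρ(φ)` modulo `H`; in particular all places over `p` have the same
norm. Library: `H30G3`. -/
theorem norm_of_place (D : RD) (p : ℕ) (hp : p.Prime)
    (hunr : ∀ A : ValuationSubring Qb, A.LiesOverPrime p → ∀ σ ∈ A.inertiaSubgroupIn ℚ, D.ρ σ = 1)
    (A : ValuationSubring Qb) (hA : A.LiesOverPrime p) (φ : Γℚ) (hφ : A.IsFrobeniusAt φ p)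
    (H : Subgroup (GL (Fin 2) (ZMod 3))) [H.Normal] (P : HeightOneSpectrum (𝓞 (fld D.ρ H)))
    (hP : ((p : ℕ) : 𝓞 (fld D.ρ H)) ∈ P.asIdeal) :
    ∃ f : ℕ, 0 < f ∧ Ideal.absNorm P.asIdeal = p ^ f ∧ ∀ k : ℕ, f ∣ k ↔ D.ρ φ ^ k ∈ H :=
  H30G.exists_absNorm hp hunr hA hφ H P hP

/-- The image of a Frobenius element under `ρ` is well defined up to conjugation (inertia at `p` is in the
kernel of `ρ`); for a fixed place `A` it is well defined. Library: `H30G2`. -/
theorem frobenius_conjugate (D : RD) (p : ℕ) (hp : p.Prime)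
    (hunr : ∀ A : ValuationSubring Qb, A.LiesOverPrime p → ∀ σ ∈ A.inertiaSubgroupIn ℚ, D.ρ σ = 1)
    (A A' : ValuationSubring Qb) (hA : A.LiesOverPrime p) (hA' : A'.LiesOverPrime p) (φ φ' : Γℚ)
    (hφ : A.IsFrobeniusAt φ p) (hφ' : A'.IsFrobeniusAt φ' p) :
    ∃ g : GL (Fin 2) (ZMod 3), D.ρ φ' = g * D.ρ φ * g⁻¹ :=
  H30G.rho_frob_conj D.cont hp (H30G.Unr.unrK hunr ⊥) hA hA' hφ hφ'

/-- Two elements `σ`, `τ` which act by `x ↦ x ^ q` on the residue field of `A` differ by an element of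
inertia, and the square of `σ` acts by `x ↦ x ^ (q ^ 2)`. Library: `H28Y2`. -/
theorem frobenius_and_inertia {A : ValuationSubring Qb} {q : ℕ} {σ τ : Γℚ}
    (hσ : A.IsFrobeniusAt σ q) (hτ : A.IsFrobeniusAt τ q) :
    τ⁻¹ * σ ∈ A.inertiaSubgroupIn ℚ ∧ A.IsFrobeniusAt (σ * σ) (q ^ 2) :=
  ⟨H28Y.frobenius_eq hσ hτ, H28Y.frobenius_sq hσ⟩

/-- **Norms and decomposition groups.** `H89D.dec F Q` is the decomposition group of the place `Q` of `L`,
the stabilizer of `Q` in `Gal(L/F)`. If `L/F` is Galois, `w` is the place below `Q` and inertia is trivial,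
then `N Q = (N w) ^ d` with the order `d` of this group. Library: `H30G3`. -/
theorem norm_and_decomposition_group {F L : Type} [Field F] [NumberField F] [Field L]
    [NumberField L] [Algebra F L] [IsGalois F L] (w : HeightOneSpectrum (𝓞 F))
    (Q : HeightOneSpectrum (𝓞 L)) (hQ : Q ∈ H82.above L w)
    (hin : ∀ σ : L ≃ₐ[F] L, (∀ x : 𝓞 L, σ • x - x ∈ Q.asIdeal) → σ = 1) :
    (∀ σ : L ≃ₐ[F] L, σ ∈ H89D.dec F Q ↔ H47.smulPlace σ Q = Q) ∧
      Ideal.absNorm Q.asIdeal = Ideal.absNorm w.asIdeal ^ Nat.card (H89D.dec F Q) :=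
  ⟨fun _ => H89D.mem_dec, H30G.absNorm_eq_pow_card_dec hQ hin⟩

/-- **The number of places.** Let `L/F` be a Galois extension of number fields, `Q` a place of `L` above
the place `w` of `F` with trivial inertia group and with `N Q = (N w) ^ g`. There are `[L : F] / g` places
of `L` above `w`. Library: `H30G3`. -/
theorem number_of_places {F L : Type} [Field F] [NumberField F] [Field L] [NumberField L]
    [Algebra F L] [IsGalois F L] (w : HeightOneSpectrum (𝓞 F)) (Q : HeightOneSpectrum (𝓞 L))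
    (hQ : Q ∈ H82.above L w)
    (hin : ∀ σ : L ≃ₐ[F] L, (∀ x : 𝓞 L, σ • x - x ∈ Q.asIdeal) → σ = 1) (g : ℕ)
    (hg : Ideal.absNorm Q.asIdeal = Ideal.absNorm w.asIdeal ^ g) :
    (H82.above L w).ncard * g = Module.finrank F L :=
  H30G.ncard_above_mul hQ hin hg

/-- **Over `ℚ`.** Let `F` be a Galois extension of `ℚ`, `P` a prime ideal over `p` with trivial inertia
group and `φ` its Frobenius element, of order `d`. The decomposition group of `P` (its stabilizer) has `d`
elements, and `N P = p ^ d`. If `d = [F : ℚ]`, then `P = (p)`. Library: `H28Y1`. -/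
theorem decomposition_over_rationals {F : Type} [Field F] [NumberField F] [IsGalois ℚ F] (p : ℕ)
    (hp : p.Prime) (P : Ideal (𝓞 F)) [P.IsPrime] (hpP : (p : 𝓞 F) ∈ P)
    (hin : ∀ τ : F ≃ₐ[ℚ] F, (∀ x : 𝓞 F, τ • x - x ∈ P) → τ = 1)
    (φ : F ≃ₐ[ℚ] F) (hφ : ∀ x : 𝓞 F, φ • x - x ^ p ∈ P) :
    Nat.card (MulAction.stabilizer (F ≃ₐ[ℚ] F) P) = orderOf φ ∧
      Ideal.absNorm P = p ^ orderOf φ ∧
      (orderOf φ = Module.finrank ℚ F → P = Ideal.span {(p : 𝓞 F)}) :=
  ⟨(H28Y.card_stabilizer_and_norm hp P hpP hin φ hφ).1,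
    (H28Y.card_stabilizer_and_norm hp P hpP hin φ hφ).2, H28Y.eq_span_of_orderOf hp P hpP hin φ hφ⟩

/-- **Three places.** Let `F` be a Galois extension of `ℚ` of degree six, `P` a prime ideal over `p` with
trivial inertia group whose Frobenius element `φ` has order two, and `s` an element of order three of the
Galois group (later: `F = E`, and `s` generates `Gal(E/M)`). Then `p` is the product of the three different
prime ideals `P`, `s P`, `s² P`, all of norm `p²`. Library: `H28Y1`. -/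
theorem three_places {F : Type} [Field F] [NumberField F] [IsGalois ℚ F]
    (h6 : Module.finrank ℚ F = 6) (p : ℕ) (hp : p.Prime) (P : Ideal (𝓞 F)) [P.IsPrime]
    (hpP : (p : 𝓞 F) ∈ P) (hin : ∀ τ : F ≃ₐ[ℚ] F, (∀ x : 𝓞 F, τ • x - x ∈ P) → τ = 1)
    (φ : F ≃ₐ[ℚ] F) (hφ : ∀ x : 𝓞 F, φ • x - x ^ p ∈ P) (hord : orderOf φ = 2)
    (s : F ≃ₐ[ℚ] F) (hs : orderOf s = 3) :
    Ideal.absNorm P = p ^ 2 ∧ s • P ≠ P ∧ s • s • P ≠ P ∧ s • s • P ≠ s • P ∧ s • s • s • P = P ∧
      Ideal.span {(p : 𝓞 F)} = P * (s • P) * (s • s • P) ∧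
      ∀ Q : Ideal (𝓞 F), Q.IsPrime → (p : 𝓞 F) ∈ Q → Q = P ∨ Q = s • P ∨ Q = s • s • P :=
  H28Y.three_places h6 hp P hpP hin φ hφ hord s hs

/-- **Frobenius density, relative form.** Let `L/F` be a Galois extension of number fields, `σ` in its
Galois group and `S` a finite set of places of `F`. There is a place `w ∉ S` of `F`, unramified in `L`, and a
place `Q` of `L` above `w` whose decomposition group is generated by `σ`. Library: `H89D4`, from
Frobenius' density theorem over `ℚ` (`H82FrobDensity`). -/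
theorem frobenius_density {F L : Type} [Field F] [NumberField F] [Field L] [NumberField L]
    [Algebra F L] [IsGalois F L] (σ : L ≃ₐ[F] L) (S : Set (HeightOneSpectrum (𝓞 F)))
    (hS : S.Finite) :
    ∃ w ∉ S, ∃ Q ∈ H82.above L w, w.asIdeal.ramificationIdx' Q.asIdeal = 1 ∧
      (∀ Q' ∈ H82.above L w, w.asIdeal.ramificationIdx' Q'.asIdeal = 1) ∧
      ∀ τ : L ≃ₐ[F] L, H47.smulPlace τ Q = Q ↔ τ ∈ Subgroup.zpowers σ := by
  obtain ⟨w, hw, Q, hQ, h1, h2, h3⟩ := H89D.exists_place_dec_eq_zpowers σ hS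
  exact ⟨w, hw, Q, hQ, h1, h2, fun τ => by rw [← h3]; rfl⟩

/-- **Primes with `p ≡ -1 mod n` and a Frobenius element of order `8`.** They are the primes used in the
cuspidal operator of block (C). Proof: complex conjugation times an element which is trivial on the roots of
unity of order `3 n`, and the theorem of Frobenius. Library: `H83ZPrime`. -/
theorem exists_prime_order_eight (ρ : Γℚ →* GL (Fin 2) (ZMod 3)) (hρ : Continuous ρ)
    (hsurj : Function.Surjective ρ)
    (hdet : ∀ σ : Γℚ, Matrix.GeneralLinearGroup.det (ρ σ) = modThreeCyclotomicChar σ)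
    (n : ℕ) (hn : 0 < n) (S : Finset ℕ) :
    ∃ p : ℕ, p.Prime ∧ p ∉ S ∧ (p : ZMod n) = -1 ∧ p % 3 = 2 ∧
      ∀ A : ValuationSubring Qb, A.LiesOverPrime p →
        (∀ σ ∈ A.inertiaSubgroupIn ℚ, ρ σ = 1) ∧
        ∀ σ : Γℚ, A.IsFrobeniusAt σ p → orderOf (ρ σ) = 8 :=
  H83Z.exists_prime_order_eight ρ hρ hsurj hdet hn S

/-- If `ρ σ` is not in the normal subgroup `H` but its square is, then the restriction of `σ` to
`fld ρ H` has order two. (Below: `ρ σ` of order `8` and `H = SL₂(𝔽₃)` or `Q₈`, see `order_eight`.)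
Library: `H28Y3`. -/
theorem restriction_of_order_two (D : RD) {H : Subgroup (GL (Fin 2) (ZMod 3))} [H.Normal]
    {σ : Γℚ} (h1 : D.ρ σ ∉ H) (h2 : D.ρ σ * D.ρ σ ∈ H) :
    orderOf (AlgEquiv.restrictNormalHom (fld D.ρ H) σ) = 2 :=
  H28Y.orderOf_restrict D h1 h2

/-- **Primes with three places in `E`.** The primes `p` of `exists_prime_order_eight` are inert in `M`
(`(p)` is a prime ideal of norm `p²`), and in `E` they are the product of the three different prime
ideals `w`, `s w`, `s² w` of norm `p²`, for every element `s` of order three of `Gal(E/ℚ)`; if `σ` acts by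
`x ↦ x ^ (p²)` at a place over `p`, then `ρ σ` is an element of `Q₈` other than `±1`. From `order_eight`,
`restriction_of_order_two`, `decomposition_over_rationals`, `three_places` and `frobenius_and_inertia`.
Library: `H28Y3` (`exists_prime`; in terms of valuations: `exists_prime_val`). -/
theorem prime_with_three_places (D : RD) (n : ℕ) (hn : 0 < n) (S : Finset ℕ) :
    ∃ p : ℕ, p.Prime ∧ p ∉ S ∧ (p : ZMod n) = -1 ∧ p % 3 = 2 ∧
      (∃ v : HeightOneSpectrum (𝓞 D.M), v.asIdeal = Ideal.span {(p : 𝓞 D.M)} ∧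
        Ideal.absNorm v.asIdeal = p ^ 2) ∧
      (∃ w : HeightOneSpectrum (𝓞 D.E), (p : 𝓞 D.E) ∈ w.asIdeal ∧
        Ideal.absNorm w.asIdeal = p ^ 2 ∧ ∀ s : D.E ≃ₐ[ℚ] D.E, orderOf s = 3 →
          s • w.asIdeal ≠ w.asIdeal ∧ s • s • w.asIdeal ≠ w.asIdeal ∧
          s • s • w.asIdeal ≠ s • w.asIdeal ∧ s • s • s • w.asIdeal = w.asIdeal ∧
          Ideal.span {(p : 𝓞 D.E)} = w.asIdeal * (s • w.asIdeal) * (s • s • w.asIdeal) ∧
          ∀ Q : Ideal (𝓞 D.E), Q.IsPrime → (p : 𝓞 D.E) ∈ Q →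
            Q = w.asIdeal ∨ Q = s • w.asIdeal ∨ Q = s • s • w.asIdeal) ∧
      ∀ A : ValuationSubring Qb, A.LiesOverPrime p →
        (∀ σ ∈ A.inertiaSubgroupIn ℚ, D.ρ σ = 1) ∧
        ∀ σ : Γℚ, A.IsFrobeniusAt σ (p ^ 2) → D.ρ σ ∈ Q8 ∧ D.ρ σ ≠ 1 ∧ D.ρ σ ≠ -1 :=
  H28Y.exists_prime D hn S

/-! ## Section 4: the numbers `a_w` and the statements used in the assembly -/

open Classical in
/-- **Definition of `a_w`** for a place `w` of `E`: `2` if there are eight places of `K` above `w` (`w`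
splits completely in `K`), `-2` if not but there are four places of `B'` above it, and `0` otherwise. The
definition mentions neither `ρ` nor a Frobenius element. `awR` is the function in the interfaces of the
blocks (D) and (C). Library: `H89D5`, `H46ZBlocks`. -/
theorem awR_def (D : RD) (w : HeightOneSpectrum (𝓞 D.E)) :
    awR D w = if (H82.above D.K w).ncard = 8 then 2 else
      if (H82.above D.B' w).ncard = 4 then -2 else 0 :=
  D.awR_eq w

/-- **The dictionary.** For a place `w` of `E` over a prime `p` unramified in `K`, with `N w = p ^ f`, the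
number `a_w` is the value of `val8` at `ρ(Frob_w) = ρ(φ) ^ f`, that is, the trace of `Ψ(ρ(Frob_w))`.
Library: `H30G3`, `H3GA`. -/
theorem awR_eq_val8 (D : RD) (p : ℕ) (hp : p.Prime)
    (hunr : ∀ A : ValuationSubring Qb, A.LiesOverPrime p → ∀ σ ∈ A.inertiaSubgroupIn ℚ, D.ρ σ = 1)
    (A : ValuationSubring Qb) (hA : A.LiesOverPrime p) (φ : Γℚ) (hφ : A.IsFrobeniusAt φ p)
    (w : HeightOneSpectrum (𝓞 D.E)) (hw : ((p : ℕ) : 𝓞 D.E) ∈ w.asIdeal) (f : ℕ)
    (hf : Ideal.absNorm w.asIdeal = p ^ f) : awR D w = val8 (D.ρ φ ^ f) :=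
  (D.awR_eq w).trans (H30G.aw_eq_val8 hp hunr hA hφ w hw hf)

/-- `a_w` is bounded by `2` and invariant under `Gal(E/M)`. Library: `H3G9`, `H3GA`. -/
theorem awR_bound_invariant (D : RD) (w : HeightOneSpectrum (𝓞 D.E)) : |awR D w| ≤ 2 ∧
    ∀ g : D.E ≃ₐ[D.M] D.E, awR D (H47.smulPlace g w) = awR D w :=
  ⟨D.abs_awR_le w, fun g => D.awR_smulPlace g w⟩

/-- **The dictionary at one prime**: let `p` be a prime unramified in `K`, `σ` a Frobenius element at a
place over `p` and `v` a place of `M` of norm `p ^ f`. If `ρ(σ ^ f)` is in `Q₈`, then `v` is not nonsplit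
in `E`, and `a_w = val8 (ρ(σ ^ f))` for the places `w` of `E` above `v`. Proof: by `norm_of_place` (for
`SL₂(𝔽₃)` and `Q₈`) `N w = N v`, so there are three places above `v` by `number_of_places`; then
`awR_eq_val8`. Library: `H3GA` (`dict_of_unr`). -/
theorem dict_at_prime (D : RD) {p : ℕ} (hp : p.Prime)
    (hunr : ∀ A : ValuationSubring Qb, A.LiesOverPrime p → ∀ σ ∈ A.inertiaSubgroupIn ℚ, D.ρ σ = 1)
    {A : ValuationSubring Qb} (hA : A.LiesOverPrime p) {σ : Γℚ} (hσ : A.IsFrobeniusAt σ p) {f : ℕ}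
    {v : HeightOneSpectrum (𝓞 D.M)} (hv : Ideal.absNorm v.asIdeal = p ^ f)
    (h8 : D.ρ (σ ^ f) ∈ Q8) :
    ¬ H82.NonSplit D.E v ∧ ∀ w ∈ H82.above D.E v, awR D w = val8 (D.ρ (σ ^ f)) :=
  D.dict_of_unr hp hunr hA hσ hv h8

/-- **(Dict)**, used at the end of block (C): outside the primes dividing some `D₀ ≠ 0`, a place `v` of `M`
with `ρ(Frob_v)` in `Q₈` is not nonsplit in `E`, and `a_w = val8 (ρ(Frob_v))` for every place `w` of `E` above
`v`. Nothing is claimed about the other places of `M`. From `dict_at_prime` and `exists_unramified`.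
Library: `H3GA` (`exists_dict`). -/
theorem dict (D : RD) : ∃ D₀ : ℕ, D₀ ≠ 0 ∧
    ∀ p : ℕ, p.Prime → ¬ p ∣ D₀ → ∀ A : ValuationSubring Qb, A.LiesOverPrime p →
      ∀ σ : Γℚ, A.IsFrobeniusAt σ p → ∀ (f : ℕ) (v : HeightOneSpectrum (𝓞 D.M)),
        Ideal.absNorm v.asIdeal = p ^ f → D.ρ (σ ^ f) ∈ Q8 →
          ¬ H82.NonSplit D.E v ∧ ∀ w ∈ H82.above D.E v, awR D w = val8 (D.ρ (σ ^ f)) :=
  D.exists_dict

/-- **(NE)**, used for the operator which kills the constant terms in block (C): for every `n > 0` there is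
a prime `p`, prime to `n`, with `p ≡ -1 mod n` and `p ≡ 2 mod 3`, which has exactly three places in `E`
(`p = w₁ w₂ w₃`), and `a_w = 0` at these three places. `divs E p` is the finite set of the places of `E`
dividing `p`. From `prime_with_three_places` and `awR_eq_val8`. Library: `H3GA` (`ne_awR`). -/
theorem primes_without_trace (D : RD) : ∀ n : ℕ, 0 < n → ∃ p : ℕ, p.Prime ∧ ¬ p ∣ n ∧
    (p : ZMod n) = -1 ∧ p % 3 = 2 ∧ (divs D.E p).card = 3 ∧ ∀ w ∈ divs D.E p, awR D w = 0 :=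
  D.ne_awR

/-- **(InertEx)**, used for the auxiliary place `v₀` of block (C): there are places of `M`, prime to any
given integer, with only one place of `E` above them and unramified in `E`. From `frobenius_density` with
`σ = s`. Library: `H3GA` (`inertEx`). -/
theorem inert_places (D : RD) : ∀ n : ℕ, 0 < n → ∃ v : HeightOneSpectrum (𝓞 D.M),
    (n : 𝓞 D.M) ∉ v.asIdeal ∧ H82.NonSplit D.E v ∧
      ∀ w ∈ H82.above D.E v, v.asIdeal.ramificationIdx' w.asIdeal = 1 :=
  D.inertEx

end Fermat.Agent.Guide.OctahedralGal
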