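import Fermat.Agent.H47ESGS
import Fermat.Agent.H44ESide
import Fermat.Agent.H44Kum

/-!
# Guide: points of order `p` at a place above `p`

Companion of `GuideLevelsAtP` (S39, S40) and of `GuideLevelsS44` (S44).  The comparison of an elliptic
curve `E` with the curve `X₀(Mp)` at the prime `p` needs a precise description of the inertia group
acting on `E[p]`: the structure `LineAtP` (`GuideLevelsAtP.lineAtP_fields`) and the statement
`GuideLevelsS44.frey_inertia_at_p`.  This file shows how both are proved.  Formal groups, Tate curves,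
fundamental characters and finite flat group schemes are not used.

**Setting.** `W` is a Weierstrass equation over `ℤ` with `Δ ≠ 0`, `p` an odd prime, `A` a valuation ring
of the algebraic closure of `ℚ` above `p` (a *place* above `p`), `|·|` its valuation (`A.valuation`,
written multiplicatively, with values in the abstract value group of `A`; no embedding of it in the real
numbers is used) and `I = A.inertiaSubgroupIn ℚ` its inertia group.  `V = V1 W p A` is the group of the
`p`-torsion points which reduce to zero at `A`.  For a point `T = (x, y)` the library writes `xN T = x`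
(and `xN 0 = 1`), `wc T = 1/x` (and `wc 0 = 0`) and `zc T = x/y` (and `zc 0 = 0`).

**Method.**
1. *The field fixed by `I` is discretely valued with uniformiser `p`* (section 1).  So an element which
   is symmetric in an `I`-stable set of points has as size an integral power of `|p|`.
2. *The division polynomial* gives the opposite estimate: the product of the `|x(T)/y(T)|` over the
   nonzero points of `V` is at least `|p|` (section 2).  Together: `I` is transitive on the nonzero points
   of `V`, and their size is known exactly.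
3. *`V` is a line* in the cases needed: good ordinary reduction (section 3) and multiplicative reduction
   (section 4); in both cases `I` acts trivially on `E[p] / V`.
4. *Distances.* For `P` outside `V` and `0 ≠ T` in `V` the size of `x(P + T) - x(P)` is computed from the
   equation of the curve.  If `I` is transitive on `P + V`, these are the mutual distances of `p` conjugate
   numbers, and the *uniformiser criterion* (section 5) produces a number `θ`, rational over the field of
   `P`, with `|θ|^p = |p|`: the field of `P` is wildly ramified of degree `p`, with the smallest possible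
   different.
5. *Constants* (section 6): what `θ` says about all numbers fixed by the stabiliser of `P`.  This is the
   form in which the leading coefficients of functions at the nodes of `X₀(Mp)` are compared.

**Files.** 1: `H44EDisc`, `H44EGlob`, `H44EWild`, `H44EConst`.  2: `H44ETor`, `H47ESProd`.  3: `H47ESGood`,
`H47ESOrd`.  4: `H44EGlob`, `H44ENode`, `H44EXi`, `H44EMain`; the coordinates near the node are explained
in `GuideNode` and `GuideNodeSteps`.  5: `H44EGrp`, `H44EAlg`.  6: `H44EConst`, `H44EWild`, `H44ESide`,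
`H44EFrey`.  7: `H44Kum`.  Section 3 and the product formulas of section 2 are used in S39 and S40, nearly
all the rest also in S44 (and therefore in S01, S03, S43, S45).  Notes: NOTES.md [290] (`H44E*`) and [316]
(`H47ES*`).  Written by helper44 and helper47.
-/

set_option autoImplicit false

open WeierstrassCurve WeierstrassCurve.Affine AlgebraicCurve ModularCurve Polynomial

noncomputable section

local notation "Qb" => AlgebraicClosure ℚ
local notation "GQ" => (AlgebraicClosure ℚ ≃ₐ[ℚ] AlgebraicClosure ℚ)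

namespace Fermat.Agent.Guide.OrderPPoints

open Fermat.Agent Fermat.Agent.H44E

/-! ## 1. The field fixed by inertia -/

/-- **The fixed field of inertia is discretely valued with uniformiser `p`.**  `A` is a place of an
algebraic Galois extension `L` of `ℚ` above the prime `p`.  A nonzero `c` fixed by the inertia group has
size `|p|^n` for an integer `n`.  Proof: `c` lies in a number field `E` which is Galois over `ℚ`; the
prime of `E` below `A` is unramified over `ℚ` in the fixed field of its inertia group, because the order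
of the inertia group is the ramification index.  File `H44EDisc`. -/
theorem size_of_fixed {L : Type*} [Field L] [CharZero L] [IsGalois ℚ L] {p : ℕ} (hp : p.Prime)
    {A : ValuationSubring L} (hA : A.LiesOverPrime p) {c : L} (hc0 : c ≠ 0)
    (hfix : ∀ σ ∈ A.inertiaSubgroupIn ℚ, σ c = c) :
    ∃ n : ℤ, A.valuation c = A.valuation (p : L) ^ n :=
  exists_valuation_eq_zpow hp hA hc0 hfix

/-- **Small numbers fixed by inertia are divisible by `p`.** -/
theorem le_of_fixed_of_lt {p : ℕ} (hp : p.Prime) {A : ValuationSubring Qb} (hA : A.LiesOverPrime p)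
    {c : Qb} (hfix : ∀ σ ∈ A.inertiaSubgroupIn ℚ, σ c = c) (hc : A.valuation c < 1) :
    A.valuation c ≤ A.valuation (p : Qb) :=
  le_of_fixed hp hA hfix hc

/-- **The residue field of the fixed field of inertia is the whole residue field**: every integral `a`
is congruent modulo the maximal ideal of `A` to a number fixed by inertia. -/
theorem exists_fixed_congruent {p : ℕ} (hp : p.Prime) {A : ValuationSubring Qb}
    (hA : A.LiesOverPrime p) {a : Qb} (ha : A.valuation a ≤ 1) :
    ∃ c : Qb, (∀ σ : A.inertiaSubgroupIn ℚ, σ • c = c) ∧ A.valuation (a - c) < 1 :=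
  res_inertia hp hA ha

/-- **Sizes in an extension of degree `d`.**  `G` acts on a valued field `K`, preserving the valuation,
and the elements fixed by `G` have as sizes the powers of `|ϖ|`.  If `a ≠ 0` is fixed by a subgroup `H`
of finite index `d`, then `|a|^d` is a power of `|ϖ|`: the product of the `d` conjugates of `a` is fixed
by `G`. -/
theorem size_pow_index {K Γ G : Type*} [Field K] [LinearOrderedCommGroupWithZero Γ] [Group G]
    [MulSemiringAction G K] {v : Valuation K Γ} (hv : ∀ (σ : G) (c : K), v (σ • c) = v c) {ϖ : K}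
    (hdisc : ∀ c : K, c ≠ 0 → (∀ σ : G, σ • c = c) → ∃ n : ℤ, v c = v ϖ ^ n) {H : Subgroup G}
    (hH : H.index ≠ 0) {a : K} (ha0 : a ≠ 0) (ha : ∀ σ ∈ H, σ • a = a) :
    ∃ n : ℤ, v a ^ H.index = v ϖ ^ n :=
  exists_pow_index_eq hv hdisc hH ha0 ha

/-! ## 2. The `p`-torsion points which reduce to zero, any reduction -/

/-- **Unfolding.**  `V = V1 W p A` consists of `0` and of the `p`-torsion points `(x, y)` with `x` not
integral at `A`. -/
theorem mem_kernel_iff {W : WeierstrassCurve ℤ} {p : ℕ} {A : ValuationSubring Qb}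
    {x y : Qb} {h : ((W.map (Int.castRingHom ℚ))⁄(AlgebraicClosure ℚ)).Nonsingular x y} :
    (Point.some x y h : PtQ W) ∈ V1 W p A ↔ p • (Point.some x y h : PtQ W) = 0 ∧ x ∉ A :=
  mem_V1_some

/-- **The parameter `z = x/y`** at a nonzero point `T` of `V`: `|z(T)|² = |1/x(T)| < 1`, as the
Weierstrass equation shows (`y²` and `x³` have the same size). -/
theorem size_of_parameter {W : WeierstrassCurve ℤ} {p : ℕ} {A : ValuationSubring Qb} {T : PtQ W}
    (hT : T ∈ V1 W p A) (hT0 : T ≠ 0) :
    A.valuation (H72.wc T) < 1 ∧ A.valuation (zc T) ^ 2 = A.valuation (H72.wc T) :=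
  ⟨(wc_lt_of_mem_V1 hT0 hT).2, H47.ES.v_zc_sq' hT hT0⟩

/-- **Multiples have the same size.**  `A` a valuation ring of any field, `W` a Weierstrass equation over
`A`, `Q ≠ 0` a point with `|1/x(Q)| < 1`.  If the integer `n` is a unit of `A`, then
`|1/x(nQ)| = |1/x(Q)|`: modulo smaller terms `1/x(nQ)` is `n²` times `1/x(Q)`.  So all nonzero multiples
of a `p`-torsion point of `V` have the same size. -/
theorem size_of_multiples {L : Type*} [Field L] [DecidableEq L] {A : ValuationSubring L}
    {W : WeierstrassCurve A} {EL : Affine L} (hL : W.map A.subtype = EL) {Q : EL.Point} (hQ0 : Q ≠ 0)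
    (nQ : H72.xN Q ≠ 0) (hQ : A.valuation (H72.wc Q) < 1) {n : ℕ} (hn : A.valuation (n : L) = 1) :
    H72.xN (n • Q) ≠ 0 ∧ A.valuation (H72.wc (n • Q)) = A.valuation (H72.wc Q) :=
  wc_nsmul_unit hL hQ0 nQ hQ hn

/-- **Division polynomial, one point.**  Let `Q ≠ 0` be a `p`-torsion point with `|1/x(Q)| < 1` and let
`1, ..., p - 1` be units of `A`.  Then `|p| ≤ |1/x(Q)|^((p-1)/2)`.  Proof: the reversed `p`-th division
polynomial has coefficients in `A` and constant term `p`, and the `1/x(nQ)`, `0 < n ≤ (p-1)/2`, are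
distinct roots of it. -/
theorem valuation_p_le_pow {L : Type*} [Field L] [DecidableEq L] [CharZero L]
    {A : ValuationSubring L} {W : WeierstrassCurve A} {EL : Affine L} (hL : W.map A.subtype = EL)
    {p : ℕ} (hp : p.Prime) (hp2 : p ≠ 2)
    (hunit : ∀ n : ℕ, 0 < n → n < p → A.valuation (n : L) = 1) {Q : EL.Point} (hQ0 : Q ≠ 0)
    (nQ : H72.xN Q ≠ 0) (hpQ : p • Q = 0) (hQ : A.valuation (H72.wc Q) < 1) :
    A.valuation (p : L) ≤ A.valuation (H72.wc Q) ^ ((p - 1) / 2) :=
  valuation_p_le hL hp hp2 hunit hQ0 nQ hpQ hQ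

/-- **Division polynomial, all points.**  The product of the `|z(T)|` over the nonzero points `T` of `V`
(the finite set `V1S`) is at least `|p|`: again the reversed division polynomial, with the distinct
roots `1/x(T)`, each belonging to the two points `T`, `-T`, and `|z(T)|² = |1/x(T)|`. -/
theorem valuation_p_le_prod {W : WeierstrassCurve ℤ} (hΔ : W.Δ ≠ 0) {p : ℕ} (hp : p.Prime)
    (hp2 : p ≠ 2) {A : ValuationSubring Qb} :
    A.valuation (p : Qb) ≤ ∏ T ∈ H47.ES.V1S A hp hΔ, A.valuation (zc T) :=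
  H47.ES.valuation_p_le_prod hp hp2 hΔ

/-- **Orbits of inertia.**  For a nonempty `I`-stable set `O` of nonzero points of `V` the product of the
`|z(T)|`, `T ∈ O`, is at most `|p|`: the product of the `z(T)` is fixed by inertia and small
(`le_of_fixed_of_lt`).  With `valuation_p_le_prod`, two disjoint such sets would give `|p| ≤ |p|²`;
hence `I` is transitive on the nonzero points of `V`
(`GuideLevelsAtP.inertia_transitive_on_kernel_of_reduction`). -/
theorem prod_le_valuation_p {W : WeierstrassCurve ℤ} (hΔ : W.Δ ≠ 0) {p : ℕ} (hp : p.Prime)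
    {A : ValuationSubring Qb} (hA : A.LiesOverPrime p) {O : Finset (PtQ W)}
    (hO : O ⊆ H47.ES.V1S A hp hΔ) (hne : O.Nonempty)
    (hstab : ∀ σ ∈ A.inertiaSubgroupIn ℚ, ∀ T ∈ O, σ • T ∈ O) :
    ∏ T ∈ O, A.valuation (zc T) ≤ A.valuation (p : Qb) :=
  H47.ES.prod_zc_le hp hA hΔ hO hne hstab

/-- **Exact size**: `|z(T)|^(#V - 1) = |p|` for every nonzero `T` in `V` (the product over all nonzero
points of `V` is both `≥` and `≤ |p|`, and its factors are equal).  So the field of `T` is totally
ramified of degree `#V - 1`, which is `p - 1` or `p² - 1`, over the field fixed by inertia. -/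
theorem size_of_parameter_pow {W : WeierstrassCurve ℤ} (hΔ : W.Δ ≠ 0) {p : ℕ} (hp : p.Prime)
    (hp2 : p ≠ 2) {A : ValuationSubring Qb} (hA : A.LiesOverPrime p) {T : PtQ W}
    (hT : T ∈ V1 W p A) (hT0 : T ≠ 0) :
    A.valuation (zc T) ^ (Nat.card (V1 W p A) - 1) = A.valuation (p : Qb) :=
  H47.ES.val_zc_pow hp hp2 hA hΔ hT hT0

/-! ## 3. Good reduction -/

/-- **Good reduction: a nonzero `p`-torsion point reduces to zero.**  Otherwise the `x`-coordinates of
all `p`-torsion points are integral, and the `p`-th division polynomial, which is `p` times the product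
of the `X - x(T)` (one factor for each pair `T`, `-T`), vanishes modulo the maximal ideal of `A`; then the
points of order `2` of the reduced curve would be killed by the odd number `p`. -/
theorem exists_point_in_kernel {W : WeierstrassCurve ℤ} {p : ℕ} (hp : p.Prime) (hp2 : p ≠ 2)
    (hgood : ¬ (p : ℤ) ∣ W.Δ) {A : ValuationSubring Qb} (hA : A.LiesOverPrime p) :
    ∃ T ∈ V1 W p A, T ≠ 0 :=
  H47.ES.exists_ne_zero_mem_V1 hp hp2 hA hgood

/-- **Good reduction: `V` has order `p` (ordinary) or is all of `E[p]` (supersingular)**: `E[p]` has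
order `p²` and `V ≠ 0`. -/
theorem card_kernel_good {W : WeierstrassCurve ℤ} {p : ℕ} (hp : p.Prime) (hp2 : p ≠ 2)
    (hgood : ¬ (p : ℤ) ∣ W.Δ) {A : ValuationSubring Qb} (hA : A.LiesOverPrime p) :
    Nat.card (V1 W p A) = p ∨
      (Nat.card (V1 W p A) = p ^ 2 ∧ ∀ P : PtQ W, p • P = 0 → P ∈ V1 W p A) :=
  H47.ES.card_V1_good hp hp2 hA hgood

/-- **Good reduction: inertia moves `p`-torsion points only inside their coset modulo `V`**, since `P`
and `σ P` have the same reduction. -/
theorem smul_sub_mem_good {W : WeierstrassCurve ℤ} {p : ℕ} (hp : p.Prime)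
    (hgood : ¬ (p : ℤ) ∣ W.Δ) {A : ValuationSubring Qb} (hA : A.LiesOverPrime p) {σ : GQ}
    (hσ : σ ∈ A.inertiaSubgroupIn ℚ) {P : PtQ W} (hpP : p • P = 0) : σ • P - P ∈ V1 W p A :=
  H47.ES.smul_sub_mem_V1_good hp hA hgood hσ hpP

/-- **The difference of `x(P + T)` and `x(P - T)`.**  `P` a `p`-torsion point outside `V`, `T ≠ 0` in
`V`: `|x(P + T) - x(P - T)|² = |1/x(T)|`.  Proof: the identity
`(x_P - x_T)⁴ (x(P+T) - x(P-T))² = ψ₂(P)² ψ₂(T)²` with `ψ₂² = 4x³ + b₂x² + 2b₄x + b₆`.  Here `ψ₂(P)` is a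
unit, because the reduction of `P` is a nonzero point of odd order of a nonsingular curve, and
`|x_T| > 1`, so that the left factor has size `|x_T|⁴` and `|ψ₂(T)²| = |x_T|³`. -/
theorem difference_of_abscissas {W : WeierstrassCurve ℤ} {p : ℕ} (hp : p.Prime) (hp2 : p ≠ 2)
    (hgood : ¬ (p : ℤ) ∣ W.Δ) {A : ValuationSubring Qb} (hA : A.LiesOverPrime p)
    {P T : PtQ W} (hpP : p • P = 0) (hP : P ∉ V1 W p A) (hT : T ∈ V1 W p A) (hT0 : T ≠ 0) :
    A.valuation (H72.xN (P + T) - H72.xN (P - T)) ^ 2 = A.valuation (H72.wc T) :=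
  H47.ES.dist_sq hp hp2 hA hgood hpP hP hT hT0

/-- **Distances, ordinary reduction.**  If `V` has order `p`, then `|x(P + T) - x(P)|^(p-1) = |p|` for
every `p`-torsion point `P` outside `V` and `0 ≠ T` in `V`: the previous theorem for `P + T/2` and `T/2`,
and `size_of_parameter_pow`. -/
theorem distances_good {W : WeierstrassCurve ℤ} {p : ℕ} (hp : p.Prime) (hp2 : p ≠ 2)
    (hgood : ¬ (p : ℤ) ∣ W.Δ) {A : ValuationSubring Qb} (hA : A.LiesOverPrime p)
    (hcard : Nat.card (V1 W p A) = p) {P T : PtQ W} (hpP : p • P = 0) (hP : P ∉ V1 W p A)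
    (hT : T ∈ V1 W p A) (hT0 : T ≠ 0) :
    A.valuation (H72.xN (P + T) - H72.xN P) ^ (p - 1) = A.valuation (p : Qb) :=
  H47.ES.dist_pow hp hp2 hA hgood hcard hpP hP hT hT0

/-- **Ordinary reduction: a fixed point or a uniformiser.**  `V` has order `p`, and `x` is a `p`-torsion
point outside `V`.  Either a translate `x + T`, `T ∈ V`, is fixed by inertia, or inertia is transitive on
`x + V`, and there is `θ`, fixed by the stabiliser of `x` in `I`, with `|θ|^p = |p|` and
`|τ θ - θ|^(p-1) = |p|` for all `τ ∈ I` which move `x`.  Proof: `affine_dichotomy`; in the second case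
`θ = ξ - c`, where `ξ` is the abscissa of the point `x` and `c` a constant fixed by inertia and congruent
to `ξ`, and `uniformiser_criterion` applies. -/
theorem fixed_or_uniformiser_good {W : WeierstrassCurve ℤ} {p : ℕ} (hp : p.Prime) (hp2 : p ≠ 2)
    (hgood : ¬ (p : ℤ) ∣ W.Δ) {A : ValuationSubring Qb} (hA : A.LiesOverPrime p)
    (hcard : Nat.card (V1 W p A) = p) {x : PtQ W} (hpx : p • x = 0) (hx : x ∉ V1 W p A) :
    (∃ T ∈ V1 W p A, ∀ σ ∈ A.inertiaSubgroupIn ℚ, σ • (x + T) = x + T) ∨
    ((∀ T ∈ V1 W p A, ∃ σ ∈ A.inertiaSubgroupIn ℚ, σ • x = x + T) ∧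
      ∃ θ : Qb, (∀ σ ∈ A.inertiaSubgroupIn ℚ, σ • x = x → σ θ = θ) ∧
        A.valuation θ ^ p = A.valuation (p : Qb) ∧
        ∀ τ ∈ A.inertiaSubgroupIn ℚ, τ • x ≠ x →
          A.valuation (τ θ - θ) ^ (p - 1) = A.valuation (p : Qb)) :=
  H47.ES.fixed_or_theta_good hp hp2 hA hgood hcard hpx hx

/-- **Ordinary reduction: `V` is a line in the sense of `LineAtP`** (`GuideLevelsAtP.lineAtP_fields`). -/
theorem lineAtP_of_ordinary {W : WeierstrassCurve ℤ} {p : ℕ} (hp : p.Prime) (hp2 : p ≠ 2)
    (hgood : ¬ (p : ℤ) ∣ W.Δ) {A : ValuationSubring Qb} (hA : A.LiesOverPrime p)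
    (hcard : Nat.card (V1 W p A) = p) : LineAtP p A (PtQ W) (V1 W p A) :=
  H47.ES.lineAtP_of_ordinary hp hp2 hA hgood hcard

/-! ## 4. Multiplicative reduction -/

/-- **Multiplicative reduction: `V` has order `p`, and inertia moves `p`-torsion points only inside their
coset modulo `V`.**  `p ∣ Δ ≠ 0`, `p ∤ c₄`.  Proof: `W` has coordinates adapted to the node over `A`
(`H13.exists_goodNode`, see `GuideNode`).  `E[p]` has order `p²`; some nonzero `p`-torsion point reduces
to zero, and some `p`-torsion point reduces to the node.  The point `σ P - P` is a `p`-torsion point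
which does not reduce to the node, because `σ` preserves components. -/
theorem kernel_multiplicative {W : WeierstrassCurve ℤ} {p : ℕ} (hp : p.Prime)
    (hbad : (p : ℤ) ∣ W.Δ) (hΔ : W.Δ ≠ 0) (hc : ¬ (p : ℤ) ∣ W.c₄) {A : ValuationSubring Qb}
    (hA : A.LiesOverPrime p) : Nat.card (V1 W p A) = p ∧
      ∀ σ ∈ A.inertiaSubgroupIn ℚ, ∀ P : PtQ W, p • P = 0 → σ • P - P ∈ V1 W p A := by
  obtain ⟨x₀, y₀, α, β, g, hN⟩ := H13.exists_goodNode hp hbad hΔ hc hA
  exact ⟨natCard_V1 hp hA hΔ hN, fun σ hσ P hP => smul_sub_mem_V1 hp hA hN hσ hP⟩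

/-- **The `p`-torsion points outside `V` reduce to the node.**  `GoodNode W x₀ y₀ α β g` means that
`(x₀, y₀)` is the centre of `W` at the node, with `g ≠ 0` small and different tangents
(`GuideNode.goodNode_iff`); it reduces to the node. -/
theorem near_node {W : WeierstrassCurve ℤ} {p : ℕ} (hp : p.Prime) {A : ValuationSubring Qb}
    (hA : A.LiesOverPrime p) {x₀ y₀ α β g : A}
    (hN : H13.GoodNode (W.map (Int.castRingHom A)) x₀ y₀ α β g) {x y : Qb}
    {h : ((W.map (Int.castRingHom ℚ))⁄(AlgebraicClosure ℚ)).Nonsingular x y}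
    (hpP : p • (Point.some x y h : PtQ W) = 0) (hP : (Point.some x y h : PtQ W) ∉ V1 W p A) :
    A.valuation (x - x₀) < 1 :=
  near_of_not_mem hp hA hN hpP hP

/-- **Size of the points of `V`.**  For a nonzero point `(x, y)` of `V` one has
`|1/x|^((p-1)/2) = |p|`.  Proof: `≥` is `valuation_p_le_pow`; the product of the `z(n Q)`, `0 < n < p`,
is fixed by inertia and small, which gives `≤`.  So the field of a point of `V` is tamely ramified of
index `p - 1` over the field fixed by inertia. -/
theorem size_multiplicative {W : WeierstrassCurve ℤ} {p : ℕ} (hp : p.Prime) (hp2 : p ≠ 2)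
    (hbad : (p : ℤ) ∣ W.Δ) (hΔ : W.Δ ≠ 0) (hc : ¬ (p : ℤ) ∣ W.c₄) {A : ValuationSubring Qb}
    (hA : A.LiesOverPrime p) {x y : Qb}
    {h : ((W.map (Int.castRingHom ℚ))⁄(AlgebraicClosure ℚ)).Nonsingular x y}
    (hx : (Point.some x y h : PtQ W) ∈ V1 W p A) :
    A.valuation (1 / x) ^ ((p - 1) / 2) = A.valuation (p : Qb) := by
  obtain ⟨x₀, y₀, α, β, g, hN⟩ := H13.exists_goodNode hp hbad hΔ hc hA
  exact val_wc hp hp2 hA hΔ hN (Point.some_ne_zero h) hx

/-- **Distances, multiplicative reduction with `p ∣ v_p(Δ)`.**  There is `x₀ ∈ A`, fixed by inertia (the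
abscissa of the centre at the node), such that for every `p`-torsion point `P` outside `V` the size of
`x(P) - x₀` is an integral power of `|p|`, and
`|x(P + T) - x(P)|^(p-1) = |x(P) - x₀|^(p-1) |p|` for `0 ≠ T` in `V`.
Proof of the first part: the theory of components gives `|x(P) - x₀|^p = |Δ|^k` for an integer `k`; here
`p ∣ v_p(Δ)` enters.  Proof of the second: the lines through `P + T`, `-P`, `-T` and through `P + T`, `P`
in the coordinates at the node (`H44ENode`). -/
theorem distances_multiplicative {W : WeierstrassCurve ℤ} {p : ℕ} (hp : p.Prime) (hp2 : p ≠ 2)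
    (hbad : (p : ℤ) ∣ W.Δ) (hΔ : W.Δ ≠ 0) (hc : ¬ (p : ℤ) ∣ W.c₄)
    (hdvd : p ∣ padicValInt p W.Δ) {A : ValuationSubring Qb} (hA : A.LiesOverPrime p) :
    ∃ x₀ : A, (∀ σ ∈ A.inertiaSubgroupIn ℚ, σ (x₀ : Qb) = x₀) ∧
      ∀ P : PtQ W, p • P = 0 → P ∉ V1 W p A →
        (∃ m : ℤ, A.valuation (H72.xN P - x₀) = A.valuation (p : Qb) ^ m) ∧
        ∀ T ∈ V1 W p A, T ≠ 0 → A.valuation (H72.xN (P + T) - H72.xN P) ^ (p - 1) =
          A.valuation (H72.xN P - x₀) ^ (p - 1) * A.valuation (p : Qb) := by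
  obtain ⟨x₀, y₀, α, β, g, hN⟩ := H13.exists_goodNode hp hbad hΔ hc hA
  exact ⟨x₀, fun σ hσ => (hN.inertia hσ).1, fun P h h' => ⟨val_xi hp hp2 hA hΔ hN hdvd h h',
    fun T hT hT0 => val_xi_sub hp hp2 hA hΔ hN h h' hT hT0⟩⟩

/-- **Multiplicative reduction with `p ∣ v_p(Δ)`: a fixed point or a uniformiser.**  The same statement
as in the ordinary case (`fixed_or_uniformiser_good`).  In the second case `θ = (ξ - x₀)/p^m - c` with the
abscissa `ξ` of the point `x`, with `x₀`, `m` from `distances_multiplicative` and a constant `c` fixed by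
inertia. -/
theorem fixed_or_uniformiser_multiplicative {W : WeierstrassCurve ℤ} {p : ℕ} (hp : p.Prime)
    (hp2 : p ≠ 2) (hbad : (p : ℤ) ∣ W.Δ) (hΔ : W.Δ ≠ 0) (hc : ¬ (p : ℤ) ∣ W.c₄)
    (hdvd : p ∣ padicValInt p W.Δ) {A : ValuationSubring Qb} (hA : A.LiesOverPrime p)
    {x : PtQ W} (hpx : p • x = 0) (hx : x ∉ V1 W p A) :
    (∃ T ∈ V1 W p A, ∀ σ ∈ A.inertiaSubgroupIn ℚ, σ • (x + T) = x + T) ∨
    ((∀ T ∈ V1 W p A, ∃ σ ∈ A.inertiaSubgroupIn ℚ, σ • x = x + T) ∧
      ∃ θ : Qb, (∀ σ ∈ A.inertiaSubgroupIn ℚ, σ • x = x → σ θ = θ) ∧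
        A.valuation θ ^ p = A.valuation (p : Qb) ∧
        ∀ τ ∈ A.inertiaSubgroupIn ℚ, τ • x ≠ x →
          A.valuation (τ θ - θ) ^ (p - 1) = A.valuation (p : Qb)) := by
  obtain ⟨x₀, y₀, α, β, g, hN⟩ := H13.exists_goodNode hp hbad hΔ hc hA
  exact fixed_or_theta hp hp2 hA hΔ hN hdvd hpx hx

/-! ## 5. Two general facts -/

/-- **Affine dichotomy** (group theory).  A group `I` acts on `M`, preserves a subgroup `V` of prime
order `p` on which it acts nontrivially, and moves `x` only inside the coset `x + V`.  Then either a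
point of `x + V` is fixed by `I`, or `I` is transitive on `x + V`. -/
theorem affine_dichotomy {G M : Type*} [Group G] [AddCommGroup M] [DistribMulAction G M]
    (I : Subgroup G) (V : AddSubgroup M) {p : ℕ} [Fact p.Prime] (hcard : Nat.card V = p)
    (hV : ∀ σ ∈ I, ∀ T ∈ V, σ • T ∈ V) (x : M) (hx : ∀ σ ∈ I, σ • x - x ∈ V) {σ₀ : G}
    (hσ₀ : σ₀ ∈ I) {T₀ : M} (hT₀ : T₀ ∈ V) (h₀ : σ₀ • T₀ ≠ T₀) :
    (∃ T ∈ V, ∀ σ ∈ I, σ • (x + T) = x + T) ∨ (∀ T ∈ V, ∃ σ ∈ I, σ • x = x + T) :=
  H44E.affine_dichotomy I V hcard hV x hx hσ₀ hT₀ h₀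

/-- **The uniformiser criterion.**  `s_1, ..., s_p` of equal size `< 1` in a valued field, with
`|s_i - s_j|^(p-1) = |p|` for `i ≠ j`, such that every nonzero coefficient of `∏ (X - s_i)` has as size
an integral power of `|p|`.  Then `|s_i|^p = |p|`.  Proof: the coefficients of `f = ∏ (X - s_i)` except
the leading one are small, hence divisible by `p`.  The number `f'(s_i) = ∏_{j ≠ i} (s_i - s_j)` has size
`|p|`, and in it all terms except the linear coefficient of `f` are smaller; so this coefficient has size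
`|p|`.  The constant coefficient has size `|s_i|^p = |p|^m` with `m ≥ 1`; if `m ≥ 2`, then
`|s_i|^(p-1) < |p|`, and the linear term would be larger than all others in `f(s_i) = 0`. -/
theorem uniformiser_criterion {L Γ : Type*} [Field L] [LinearOrderedCommGroupWithZero Γ]
    (v : Valuation L Γ) {ι : Type*} [Fintype ι] {p : ℕ} (hp3 : 3 ≤ p) (hι : Fintype.card ι = p)
    (hp0 : v (p : L) ≠ 0) (hp1 : v (p : L) < 1) (s : ι → L) (hs : ∀ i, v (s i) < 1)
    (hsv : ∀ i j, v (s i) = v (s j))
    (hss : ∀ i j, i ≠ j → v (s i - s j) ^ (p - 1) = v (p : L))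
    (hdisc : ∀ n, (∏ i, (X - C (s i))).coeff n ≠ 0 →
      ∃ m : ℤ, v ((∏ i, (X - C (s i))).coeff n) = v (p : L) ^ m) (i : ι) :
    v (s i) ^ p = v (p : L) :=
  val_pow_eq_of_dist v hp3 hι hp0 hp1 s hs hsv hss hdisc i

/-! ## 6. Constants -/

/-- **Constants of the wild extension.**  `G` acts on a valued field `K`, preserving the valuation, and the
nonzero elements fixed by `G` have sizes `|p|^n`; `Hx` is a subgroup of index `p ≥ 3` such that every
integral element fixed by `Hx` is congruent to one fixed by `G`.  Let `θ` be fixed by `Hx` with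
`|θ|^p = |p|`, let `τ ∈ G` satisfy `|τ θ - θ|^(p-1) = |p|`, and put `ε = τ(θ)/θ - 1`.  Then `ε ≠ 0` is
small, `|ε²|^(p(p-1)) = |p|²`, and for all `a` fixed by `Hx`: if `|a| < 1` then `|a| ≤ |ε²|`; if
`|a| ≤ 1` then `|τ a - a| ≤ |ε²|`; if `a ≠ 0` then `|a|^p = |p|^n` and `τ(a)/a ≡ 1 + n ε` modulo `ε²`
for an integer `n`.  Proof: `|θ|` is the largest size `< 1` of an element fixed by `Hx`, and
`|ε²| = |θ|^(2/(p-1)) ≥ |θ|` since `p ≥ 3`; every `a ≠ 0` is `θ^n` times a unit `u`, with `u` congruent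
to an element fixed by `G`. -/
theorem constants_wild {K Γ G : Type*} [Field K] [LinearOrderedCommGroupWithZero Γ] [Group G]
    [MulSemiringAction G K] {v : Valuation K Γ} {p : ℕ} (hp3 : 3 ≤ p)
    (hv : ∀ (σ : G) (c : K), v (σ • c) = v c) (hp0 : v (p : K) ≠ 0) (hp1 : v (p : K) < 1)
    (hdisc : ∀ c : K, c ≠ 0 → (∀ σ : G, σ • c = c) → ∃ n : ℤ, v c = v (p : K) ^ n)
    {Hx : Subgroup G} (hHx : Hx.index = p)
    (hres : ∀ a : K, (∀ σ ∈ Hx, σ • a = a) → v a ≤ 1 →
      ∃ c : K, (∀ σ : G, σ • c = c) ∧ v (a - c) < 1)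
    {θ : K} (hθ : ∀ σ ∈ Hx, σ • θ = θ) (hθp : v θ ^ p = v (p : K)) {τ : G}
    (hτ : v (τ • θ - θ) ^ (p - 1) = v (p : K)) {ε : K} (hε : ε = τ • θ / θ - 1) :
    ε ≠ 0 ∧ v ε < 1 ∧ (v ε ^ 2) ^ (p * (p - 1)) = v (p : K) ^ 2 ∧
      (∀ a : K, (∀ σ ∈ Hx, σ • a = a) → v a < 1 → v a ≤ v ε ^ 2) ∧
      (∀ a : K, (∀ σ ∈ Hx, σ • a = a) → v a ≤ 1 → v (τ • a - a) ≤ v ε ^ 2) ∧
      (∀ a : K, a ≠ 0 → (∀ σ ∈ Hx, σ • a = a) →
        ∃ n : ℤ, v a ^ p = v (p : K) ^ n ∧ v ((τ • a) / a - 1 - n * ε) ≤ v ε ^ 2) :=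
  wild_consts hp3 hv hp0 hp1 hdisc hHx hres hθ hθp hτ hε

/-- **Constants of the tame extension.**  `Hy` is a subgroup of index at most `p - 1` and
`r^(p(p-1)) = |p|²` (so `r = |ε²|` above).  Every `a` fixed by `Hy` with `|a| < 1` has `|a| ≤ r`:
`|a|^(p-1) ≤ |p|` by `size_pow_index`, and `p ≥ 2`. -/
theorem constants_tame {K Γ G : Type*} [Field K] [LinearOrderedCommGroupWithZero Γ] [Group G]
    [MulSemiringAction G K] {v : Valuation K Γ} {p : ℕ} (hp3 : 3 ≤ p)
    (hv : ∀ (σ : G) (c : K), v (σ • c) = v c) (hp0 : v (p : K) ≠ 0) (hp1 : v (p : K) < 1)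
    (hdisc : ∀ c : K, c ≠ 0 → (∀ σ : G, σ • c = c) → ∃ n : ℤ, v c = v (p : K) ^ n)
    {Hy : Subgroup G} (hHy0 : Hy.index ≠ 0) (hHy : Hy.index ≤ p - 1) {r : Γ}
    (hr : r ^ (p * (p - 1)) = v (p : K) ^ 2) {a : K} (ha : ∀ σ ∈ Hy, σ • a = a)
    (ha1 : v a < 1) : v a ≤ r :=
  tame_le_eps hp3 hv hp0 hp1 hdisc hHy0 hHy hr ha ha1

/-- **The field of a point of `V` is small**: if `V` has order `p`, the stabiliser in `I` of a nonzero
point of `V` has finite index, at most `p - 1` (its orbit lies in `V` and does not contain `0`). -/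
theorem index_stabilizer_le {W : WeierstrassCurve ℤ} {p : ℕ} (hp : p.Prime) {A : ValuationSubring Qb}
    (hcard : Nat.card (V1 W p A) = p) {y : PtQ W} (hy : y ∈ V1 W p A) (hy0 : y ≠ 0) :
    (MulAction.stabilizer (A.inertiaSubgroupIn ℚ) y).index ≠ 0 ∧
      (MulAction.stabilizer (A.inertiaSubgroupIn ℚ) y).index ≤ p - 1 :=
  H47.ES.index_stabilizer_of_card hp hcard hy hy0

/-- **Inertia acts on the line through the cyclotomic character.**  `V` is a line in `E[p]` in the sense
of `LineAtP`, `ζ` a primitive `p`-th root of unity.  If `σ ∈ I` maps `ζ` to `ζ^a`, then `σ y = a y` for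
`y ∈ V`: the determinant of `σ` on `E[p]` is `a` (Weil pairing) and `σ` acts trivially on
`E[p] / V`. -/
theorem line_cyclotomic {W : WeierstrassCurve ℤ} {p : ℕ} {A : ValuationSubring Qb}
    {V : AddSubgroup (TorQ W p)} (h : LineAtP p A (TorQ W p) V) (hp : p.Prime) (hp2 : p ≠ 2)
    (hΔ : W.Δ ≠ 0) {ζ : Qb} (hζ : IsPrimitiveRoot ζ p) {y : TorQ W p} (hy : y ∈ V)
    (σ : A.inertiaSubgroupIn ℚ) (a : ℕ) (hσ : σ • ζ = ζ ^ a) : σ • y = a • y :=
  h.char hp hp2 hΔ hζ hy σ a hσ

/-! ## 7. Kummer functions -/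

/-- **Kummer functions with Galois action.**  `x ∈ J₀(N)(ℚ̄)` with `n x = 0`.  There are a divisor `D` of
degree zero on `X₀(N)` over `ℚ̄` in the class of `x` and a function `u` with `div u = n D`, such that
`σ u = u` for every `σ ∈ Gal(ℚ̄/ℚ)` with `σ x = x`.  (`arithmeticGalois` is the action of the Galois
group on the function field, through the coefficients of the `q`-expansions.)  So the functions attached
to `E[p]` are rational over the fields of the points of `E[p]`, and section 6 applies to their values and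
leading coefficients. -/
theorem exists_kummer_function {N : ℕ} [NeZero N] {n : ℕ} {x : JZero N} (hx : n • x = 0) :
    ∃ u : H99.FX Qb N, u ≠ 0 ∧
      (∃ D : Divisor.degZero (K := Qb) (F := H99.FX Qb N), Pic0.mk D = x ∧
        ∀ v : Place Qb (H99.FX Qb N), (n : ℤ) * (D : Divisor Qb (H99.FX Qb N)) v = v.ord u) ∧
      ∀ σ : GQ, σ • x = x → arithmeticGalois (modularFunctionFieldFull N) σ • u = u := by
  obtain ⟨u, hu, h⟩ := H44K.exists_fixed_kum hx
  exact ⟨u, hu.1, hu.2, h⟩

end Fermat.Agent.Guide.OrderPPoints
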