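import Fermat.Agent.S33

/-!
# Guide: ordinary at `p`, `p ∥ N` (S33)

Statement served: S33, and through it S01, S03, S04, S06, S38, S45, S46, S50, S59 and S60.  Theorems
and text: helper33; Theorem 6: helper89; Theorems 15 to 18: helper84.  Companion files:
GuideOrdinaryLocal (the steps of the proofs of Theorems 13, 19, 20 and 21), GuideFrames (the proof
of Theorems 17 and 18), GuideGalois (where the representations come from: S29, S30, S31, S32),
GuideFrobeniusAtP and GuideUnitRoot (the action of Frobenius at `p`, by the same methods),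
GuideBadRed and GuideReduction (the reduction of `X_0(mq)` at `q`), GuideNewforms (S34, S35, S36),
GuideHeckeRings (`datum_ordinary` and `strictOrdinary_of_sigma` there use S33).
NOTES.md: [257] NOTES-S33, [90] NOTES-FRAMES.  Every theorem below is proved by citation; the file
where the proof is found is named in parentheses.

`ρ : G_ℚ → GL₂(T)` is the representation over a local component `T` of the Hecke algebra of level
`N`, `p ∥ N`, `p` odd.  S33 says: residually ordinary implies ordinary.  In the literature this is a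
theorem on `p`-divisible groups over `ℤ_p` and on the semistable reduction of `J_0(N)`
(Deligne-Rapoport, Mazur-Wiles).  Here neither Néron models nor group schemes are used: torsion
classes `x ∈ J_0(N)[p]` are represented by their Kummer functions `f` (`div f = p D`, `x = [D]`) and
everything is read off from the `q`-expansion of `f` modulo powers of `λ = ζ_p - 1`.  The steps:

1. (Theorems 1 to 5) Reduction to points `ψ : T → K`: it is enough to find, for every place `P`
   above `p` and every `ψ`, a nonzero functional on `K ⊗ V` which is invariant under inertia.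
2. (Theorem 6) A nonzero equivariant map `V → T_p J_0(N)` which factors through `ψ`.
3. (Theorems 7 to 14) If there is no invariant functional then the classes in the image have Kummer
   functions whose reduction is a `p`-th power of a modular function modulo `p`.
4. (Theorems 15 to 18) Two geometric theorems on Kummer covers: a Kummer function which is close to
   a `p`-th power (modulo `λ^p`) on the reduction of `X_0(M)` is a `p`-th power; if it is close to a
   `p`-th power on both components of the reduction of `X_0(Mp)` then inertia acts on the classes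
   through the cyclotomic character.
5. (Theorems 19 to 21) The three cases: new at `p` (N); old at `p` with `T_p` invertible (D); old at
   `p` with `T_p = 0` (C).  In each case the Kummer functions are improved from "`p`-th power modulo
   the maximal ideal" to "close to a `p`-th power" by means of the formulas on `q`-expansions for
   the norm from `X_0(Mp)` to `X_0(M)` (case N, Theorem 12) and for `T_p` (cases D and C, Theorem
   10); in case C the first congruence also comes from `T_p x = 0`.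
6. (Theorems 22 to 28) The contradiction with the residual representation, and S33.
-/

set_option autoImplicit false

open ModularCurve AlgebraicCurve
open scoped TensorProduct

namespace Fermat.Agent.Guide.Ordinary

local notation "Qb" => AlgebraicClosure ℚ
local notation "Gq" => AlgebraicClosure ℚ ≃ₐ[ℚ] AlgebraicClosure ℚ

/-! ### S33: the statement and the reduction to points -/

/-- **1. Ordinary at `p`**, unfolded. For every place `P` of `ℚ̄` above `p` there is a line
`L = T b₀`, `(b₀, b₁)` a basis of `V`, which is stable under the decomposition group, such that the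
inertia group acts trivially on `V / L`. -/
theorem isOrdinaryAt_iff {T : Type} [CommRing T] [IsLocalRing T] (ρ : GaloisRepAdic T) (p : ℕ) :
    ρ.IsOrdinaryAt p ↔ ∀ P : ValuationSubring Qb, P.LiesOverPrime p →
      ∃ L : Submodule T ρ.V,
        (∃ b : Module.Basis (Fin 2) T ρ.V, L = Submodule.span T {b 0}) ∧
        (∀ σ ∈ P.decompositionSubgroup ℚ, ∀ v ∈ L, ρ.ρ σ v ∈ L) ∧
        (∀ σ ∈ P.inertiaSubgroupIn ℚ, ∀ v : ρ.V, ρ.ρ σ v - v ∈ L) :=
  Iff.rfl

/-- **2. Inertia at `p` surjects onto `Gal(ℚ(μ_p)/ℚ)`**: every value `a` prime to `p` of the mod `p`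
cyclotomic character is taken on the inertia group of every place `A` of `ℚ̄` above `p`.
(H33Cyclo) -/
theorem inertia_surjects_cyclotomic {p : ℕ} [Fact p.Prime] {A : ValuationSubring Qb}
    (hA : A.LiesOverPrime p) (a : ℕ) (ha : ¬ p ∣ a) :
    ∃ σ ∈ A.inertiaSubgroupIn ℚ, ∀ μ : Qb, μ ^ p = 1 → σ μ = μ ^ a :=
  H33.exists_inertia_cyclo hA a ha

/-- **3. Patching.** `E i`, `i ∈ ι`, is a family of fields with maps `T → E i` which are jointly
injective. If every `E i ⊗ V` has a nonzero linear map to some space which is invariant under the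
inertia groups above `p`, and `det ρ(σ₀) - 1` is a unit for some `σ₀` in inertia, then `ρ` is
ordinary at `p`. Idea: the invariant functionals give `(ρ(τ) - det ρ(τ)) (ρ(σ) - 1) = 0` at every
point, hence over `T`, for `σ`, `τ` in inertia; the line is the kernel of `ρ(σ₀) - det ρ(σ₀)`.
(H33Patch) -/
theorem ordinary_of_functionals {T : Type} [CommRing T] [IsLocalRing T] (ρ : GaloisRepAdic T)
    (p : ℕ) {ι : Type*} (E : ι → Type) [∀ i, Field (E i)] [∀ i, Algebra T (E i)]
    (hE : ∀ t : T, (∀ i, algebraMap T (E i) t = 0) → t = 0)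
    (h1 : ∀ P : ValuationSubring Qb, P.LiesOverPrime p → ∀ i,
      ∃ (W : Type) (_ : AddCommGroup W) (_ : Module (E i) W) (f : E i ⊗[T] ρ.V →ₗ[E i] W),
        f ≠ 0 ∧ ∀ σ ∈ P.inertiaSubgroupIn ℚ, ∀ v, f ((ρ.ρ σ).baseChange (E i) v) = f v)
    (h2 : ∀ P : ValuationSubring Qb, P.LiesOverPrime p →
      ∃ σ ∈ P.inertiaSubgroupIn ℚ, IsUnit (LinearMap.det (ρ.ρ σ) - 1)) :
    ρ.IsOrdinaryAt p :=
  H33.isOrdinaryAt_of_functional ρ p E hE h1 h2

/-- **4. Reduction of S33 to points.** `T` is finite free over the complete discrete valuation ring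
`𝒪` of characteristic zero and is generated by Hecke operators; the points `ψ : T → K` with values
in an algebraically closed field `K ⊇ 𝒪` are jointly injective, because the Hecke algebra of weight
two is reduced. (H33Points, H33Reduce) -/
theorem S33_reduction_to_points {p N : ℕ} [NeZero N] {S : Finset ℕ} {𝒪 : Type} [CommRing 𝒪]
    [IsDomain 𝒪] [IsDiscreteValuationRing 𝒪] [IsAdicComplete (IsLocalRing.maximalIdeal 𝒪) 𝒪]
    {θ : CuspForm.heckeAlgebra N 2 (↑S : Set ℕ) →+* IsLocalRing.ResidueField 𝒪}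
    {T : Type} [CommRing T] [IsLocalRing T] [IsNoetherianRing T]
    [IsAdicComplete (IsLocalRing.maximalIdeal T) T] [Algebra 𝒪 T] [IsLocalHom (algebraMap 𝒪 T)]
    [Module.Finite 𝒪 T] [Module.Free 𝒪 T] [CharZero 𝒪]
    (hp : p.Prime) (hp2 : p ≠ 2) (hp𝒪 : (p : 𝒪) ∈ IsLocalRing.maximalIdeal 𝒪)
    (hNS : ∀ q : ℕ, q.Prime → q ∣ N → q ∈ S)
    (H : CuspForm.HeckeGaloisRepDatum N (↑S : Set ℕ) 𝒪 θ T)
    {K : Type} [Field K] [Algebra 𝒪 K] [FaithfulSMul 𝒪 K] [IsAlgClosed K]
    (h : ∀ P : ValuationSubring Qb, P.LiesOverPrime p → ∀ ψ : T →ₐ[𝒪] K,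
      letI : Algebra T K := ψ.toRingHom.toAlgebra
      ∃ (W : Type) (_ : AddCommGroup W) (_ : Module K W) (f : K ⊗[T] H.ρ.V →ₗ[K] W),
        f ≠ 0 ∧ ∀ σ ∈ P.inertiaSubgroupIn ℚ, ∀ v, f ((H.ρ.ρ σ).baseChange K v) = f v) :
    H.ρ.IsOrdinaryAt p :=
  H33.S33_of_functional hp hp2 hp𝒪 hNS H h

/-- **5. A point without invariant functional.** `A` is a place of `ℚ̄`. If `K ⊗ V` has no nonzero
map which is invariant under the inertia group of `A` then `t V` is contained in the span of the
elements `ρ(σ) v - v`, `σ` in inertia, for some `t ∈ T` which is not zero in `K`. (H33Coinv) -/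
theorem mul_mem_span_of_no_functional {T : Type} [CommRing T] [IsLocalRing T]
    (ρ : GaloisRepAdic T) (A : ValuationSubring Qb) {K : Type} [Field K] [Algebra T K]
    (hno : ¬ ∃ (W : Type) (_ : AddCommGroup W) (_ : Module K W) (f : K ⊗[T] ρ.V →ₗ[K] W),
      f ≠ 0 ∧ ∀ σ ∈ A.inertiaSubgroupIn ℚ, ∀ v, f ((ρ.ρ σ).baseChange K v) = f v) :
    ∃ t : T, algebraMap T K t ≠ 0 ∧ ∀ v : ρ.V, t • v ∈
      Submodule.span T {x : ρ.V | ∃ σ ∈ A.inertiaSubgroupIn ℚ, ∃ v, x = ρ.ρ σ v - v} :=
  H33.exists_smul_mem_diffSub ρ A hno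

/-- **6. Realisation at a point** (helper89). For every point `ψ : T → K` there is a nonzero
additive map `V → T_p J₀(N)` which commutes with the Galois group and kills `(ker ψ) V`.
(H89Point) -/
theorem realisation_at_point {p : ℕ} [Fact p.Prime] {N : ℕ} [NeZero N] {S : Finset ℕ} {𝒪 : Type}
    [CommRing 𝒪] [IsDomain 𝒪] [IsDiscreteValuationRing 𝒪]
    [IsAdicComplete (IsLocalRing.maximalIdeal 𝒪) 𝒪]
    {θ : CuspForm.heckeAlgebra N 2 (↑S : Set ℕ) →+* IsLocalRing.ResidueField 𝒪}
    {T : Type} [CommRing T] [IsLocalRing T] [IsNoetherianRing T]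
    [IsAdicComplete (IsLocalRing.maximalIdeal T) T] [Algebra 𝒪 T] [IsLocalHom (algebraMap 𝒪 T)]
    [Module.Finite 𝒪 T] [Module.Free 𝒪 T] [Finite (IsLocalRing.ResidueField 𝒪)] [CharZero 𝒪]
    (hp𝒪 : (p : 𝒪) ∈ IsLocalRing.maximalIdeal 𝒪) (hpS : p ∈ S)
    (hNS : ∀ q : ℕ, q.Prime → q ∣ N → q ∈ S)
    (H : CuspForm.HeckeGaloisRepDatum N (↑S : Set ℕ) 𝒪 θ T)
    {K : Type} [Field K] [Algebra 𝒪 K] [FaithfulSMul 𝒪 K] (ψ : T →ₐ[𝒪] K) :
    ∃ h : H.ρ.V →+ H30.TateMod p (JZero N), h ≠ 0 ∧
      (∀ σ v, h (H.ρ.ρ σ v) = H30.galTate p (JZero N) σ (h v)) ∧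
      (∀ t : T, ψ t = 0 → ∀ v, h (t • v) = 0) :=
  H89Point.exists_hom_of_point hp𝒪 hpS hNS H ψ

/-! ### Kummer functions and their reductions -/

/-- **7. Kummer functions.** `F` a function field over `K`: `f` is a Kummer function of level `n`
of the class `x` if `f ≠ 0` and `div f = n D` for a divisor `D` of degree zero in the class `x`
(then `n x = 0`). -/
theorem isKum_iff {K F : Type*} [Field K] [Field F] [Algebra K F] (n : ℕ) (x : Pic0 K F) (f : F) :
    H33.IsKum n x f ↔ f ≠ 0 ∧ ∃ D : Divisor.degZero (K := K) (F := F), Pic0.mk D = x ∧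
      ∀ v : Place K F, (n : ℤ) * (D : Divisor K F) v = v.ord f :=
  Iff.rfl

/-- **8. The Gauss ring.** `A` a valuation ring of `K` with a map `π : A → k` to a field: the
Laurent series `f ∈ K((q))` which are quotients `g / h` of series with coefficients in `A`, the
reduction of `h` being nonzero; `f` reduces to `π g / π h ∈ k((q))` (the map `H33.valRes`). -/
theorem mem_gaussRing_iff {K : Type*} [Field K] (A : ValuationSubring K) {k : Type*} [Field k]
    (π : A →+* k) (f : LaurentSeries K) :
    f ∈ H33.valRing A π ↔ ∃ g h : LaurentSeries A,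
      coeffMap π h ≠ 0 ∧ f * coeffMap A.subtype h = coeffMap A.subtype g :=
  Iff.rfl

/-- **9. Reductions up to constants**: `Red A π f r` says that `r ≠ 0` is the reduction of a nonzero
multiple `c f`, `c ∈ K`, of the series `f`. -/
theorem red_iff {K : Type*} [Field K] (A : ValuationSubring K) {k : Type*} [Field k]
    (π : A →+* k) (f : LaurentSeries K) (r : LaurentSeries k) :
    H33.Red A π f r ↔ r ≠ 0 ∧ ∃ c : K, c ≠ 0 ∧
      ∃ h : algebraMap K (LaurentSeries K) c * f ∈ H33.valRing A π, H33.valRes A π ⟨_, h⟩ = r :=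
  Iff.rfl

/-- **10. `T_p` on `q`-expansions.** `p ∤ M`. The norm of `β^* x` along `α` (whose divisor is
`T_p (div x)`) has the `q`-expansion `x(q^p) · (N x)(q)`, with the norm operator
`(N x)(q^p) = ∏_{i < p} x(ζ^i q)` (`H33.normOp`, see the next theorem). (H33Field) -/
theorem hecke_norm_qExpansion {p : ℕ} [Fact p.Prime] [NeZero p] {M : ℕ} [NeZero M]
    (hpM : ¬ p ∣ M) {ζ : Qbˣ} (hζ : IsPrimitiveRoot ζ p)
    (x : laurentBaseChange Qb (modularFunctionFieldFull M)) :
    ((H60.normAlong (heckeAlphaBar Qb M p) (heckeBetaBar Qb M p x) :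
        laurentBaseChange Qb (modularFunctionFieldFull M)) : LaurentSeries Qb) =
      qExpand Qb p (x : LaurentSeries Qb) * H33.normOp p ζ (x : LaurentSeries Qb) :=
  H33.coe_heckeNorm hpM hζ x

/-- **11. The norm operator**: `(N f)(q^p) = ∏_{i < p} f(ζ^i q)`. (H33Laurent) -/
theorem qExpand_normOp (p : ℕ) [NeZero p] {R : Type*} [CommRing R] [IsDomain R] {ζ : Rˣ}
    (hζ : IsPrimitiveRoot ζ p) (f : LaurentSeries R) :
    qExpand R p (H33.normOp p ζ f) = ∏ i ∈ Finset.range p, H60.twist (ζ ^ i) f :=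
  H33.qExpand_normOp p hζ f

/-- **12. The norm from `X₀(Mp)` to `X₀(M)` on `q`-expansions**: `Norm_α z = z · N(w z)`, `w` the
Atkin–Lehner involution of `X₀(Mp)` at `p`, `p ∤ M` (`H99.AL`: the automorphisms with square `1`
which exchange the two degeneracy maps; GuideCarayolModel, 10). (H33NormN) -/
theorem norm_alpha_qExpansion {p : ℕ} [Fact p.Prime] [NeZero p] {M : ℕ} [NeZero M]
    (w : H99.AL Qb M p) (hpM : ¬ p ∣ M) {ζ : Qbˣ} (hζ : IsPrimitiveRoot ζ p)
    (z : H99.FX Qb (M * p)) :
    ((H60.normAlong (heckeAlphaBar Qb M p) z : H99.FX Qb M) : LaurentSeries Qb) =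
      (z : LaurentSeries Qb) * H33.normOp p ζ (w.W z : LaurentSeries Qb) :=
  H33.coe_normAlong_alpha w hpM hζ z

/-- **13. Kummer functions of inertia coinvariants reduce to `p`-th powers.** Let `x` be a class in
`J₀(N)[p]` and suppose `x = Σ (σ_i Y_i - Y_i)` with `σ_i` in the inertia group of a place `A` above
`p` and `p^(m+1) Y_i = 0`. Then the reduction at `A` of every Kummer function of `x` is a `p`-th
power of a Laurent series. Proof: let `F_i` be a Kummer function of level `p^(m+1)` of `Y_i`; then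
`g = ∏ σ_i F_i / F_i` has constant reduction, `f^(p^m) = g h^(p^(m+1))` for some function `h`, and
`p^m`-th roots are unique in characteristic `p`. (H33Delta) -/
theorem kummer_reduces_to_pth_power {p : ℕ} [Fact p.Prime] [NeZero p] {N : ℕ} [NeZero N]
    {A : ValuationSubring Qb} (hA : A.LiesOverPrime p) {x : JZero N} {m : ℕ} {ι : Type*}
    (s : Finset ι) (σ : ι → Gq) (hσ : ∀ i ∈ s, σ i ∈ A.inertiaSubgroupIn ℚ) (Y : ι → JZero N)
    (hY : ∀ i ∈ s, (p * p ^ m) • Y i = 0) (hx : x = ∑ i ∈ s, (σ i • Y i - Y i))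
    (f : H99.FX Qb N) (hf : H33.IsKum p x f) :
    ∃ ω : LaurentSeries (IsLocalRing.ResidueField A),
      H33.Red A (IsLocalRing.residue A) (f : LaurentSeries Qb) (ω ^ p) :=
  H33.red_of_coinv hA s σ hσ Y hY hx f hf

/-- **14. Roots of modular functions modulo `p` are modular**: `k` algebraically closed of
characteristic `p`, `p ∤ M`; if the `p`-th power of a Laurent series is a modular function of level
`M` over `k` then so is the series. Proof: `j` is a separating element, not a `p`-th power.
(H33Sat) -/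
theorem root_of_modular_mod_p {p : ℕ} [Fact p.Prime] {k : Type*} [Field k] [IsAlgClosed k]
    [CharP k p] {M : ℕ} [NeZero M] (hM : (M : k) ≠ 0) (g : LaurentSeries k)
    (hg : g ^ p ∈ modularFunctionFieldFullC k M) : g ∈ modularFunctionFieldFullC k M :=
  H33.fullC_sat p M hM g hg

/-! ### The two geometric theorems on Kummer covers -/

/-- **15. The components of the reduction.** `A` a valuation ring of `L` with a map `π : A → k`. The
component `gC` of the reduction of `X₀(N)` (the one through the cusp `∞`) is the Gauss ring of 8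
together with the reduction of `q`-expansions; for `N = m q`, `q ∤ m`, with the Atkin–Lehner
involution `w` at `q`, the second component `gC2` is the image of the first one under `w`.
(H34Two4, H34Two5; the general notion `H84.Comp` of a component is explained in `GuideFrames`) -/
theorem components {L : Type*} [Field L] [Algebra ℚ L] (A : ValuationSubring L) {k : Type*}
    [Field k] (π : A →+* k) {N m q : ℕ} [NeZero m] [NeZero q] (w : H99.AL L m q) :
    (∀ f : H99.FX L N, f ∈ (H34.Two.gC A π N).V ↔ ∃ g h : LaurentSeries A,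
      coeffMap π h ≠ 0 ∧ (f : LaurentSeries L) * coeffMap A.subtype h = coeffMap A.subtype g) ∧
    (∀ (f : H99.FX L N) (g h : LaurentSeries A), coeffMap π h ≠ 0 →
      (f : LaurentSeries L) * coeffMap A.subtype h = coeffMap A.subtype g →
      (H34.Two.gC A π N).red f * coeffMap π h = coeffMap π g) ∧
    (∀ f : H99.FX L (m * q), f ∈ (H34.Two.gC2 A π w).V ↔ w.W f ∈ (H34.Two.gC A π (m * q)).V) ∧
    ∀ f : H99.FX L (m * q), (H34.Two.gC2 A π w).red f = (H34.Two.gC A π (m * q)).red (w.W f) :=
  ⟨fun _ => H34.Two.mem_locL_iff A π, fun _ _ _ hz h => H34.Two.red_gaussComp_mul A π _ hz h,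
    fun _ => H34.Two.mem_gC2 A π w, H34.Two.red_gC2 A π w⟩

/-- **16. Close to a `p`-th power**, `λ = ζ_p - 1`: the function `f` is close to a `p`-th power at
the component `C` if `f y^p = 1 + λ^p z` for some `y ≠ 0` and some `z` which is integral at `C` with
reduction `0`. (`(1 + λ t)^p ≡ 1 + λ^p (t^p - t)` modulo `λ^p 𝔪`: the roots `t ∈ 𝔽_p` of
`t^p - t = 0` are the reason for the splitting in 17 and 18.) -/
theorem closeAt_iff {K k F κ : Type*} [Field K] [Field k] [Field F] [Algebra K F] [Field κ]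
    [Algebra k κ] {A : ValuationSubring K} {π : A →+* k} (C : H84.Comp A π F κ) (p : ℕ) (lam : K)
    (f : F) :
    H33.CloseAt C p lam f ↔
      ∃ y z : F, y ≠ 0 ∧ z ∈ C.V ∧ C.red z = 0 ∧ f * y ^ p = 1 + algebraMap K F (lam ^ p) * z :=
  Iff.rfl

/-- **17. (CL_p), good reduction.** `p ∤ M`, `A` a place of `ℚ̄` above `p`, `ζ` a primitive `p`-th
root of unity. Let `f` be a function on `X₀(M)` with divisor divisible by `p` which is close to a
`p`-th power at the component `C` of the reduction: `f y^p = 1 + (ζ - 1)^p z`, `z` integral at `C`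
with reduction zero. Then `f` is a `p`-th power. Idea: otherwise the reduction of the Kummer cover
`F(f^{1/p})` would consist of `p` disjoint copies of `X₀(M)` mod `p`. (H84SSp, H84Main) -/
theorem closeness_good_reduction {p M : ℕ} [NeZero M] [NeZero p] {A : ValuationSubring Qb}
    (hp : p.Prime) (hpM : ¬ p ∣ M) (hA : A.LiesOverPrime p)
    (ζ : Qb) (hζ : IsPrimitiveRoot ζ p) (f : H99.FX Qb M) (hf : f ≠ 0)
    (hdiv : ∀ v : Place Qb (H99.FX Qb M), (p : ℤ) ∣ v.ord f)
    (hclose : ∃ y z : H99.FX Qb M, y ≠ 0 ∧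
      z ∈ (H34.Two.gC A (IsLocalRing.residue A) M).V ∧
      (H34.Two.gC A (IsLocalRing.residue A) M).red z = 0 ∧
      f * y ^ p = 1 + algebraMap Qb (H99.FX Qb M) ((ζ - 1) ^ p) * z) :
    ∃ h, f = h ^ p :=
  H84.clp hp hpM hA ζ hζ f hf hdiv hclose

/-- **18. (SS2_p), two components.** `p ∤ M`, `W` a finite subgroup of `J₀(Mp)[p]` stable under the
inertia group of a place `A` above `p`, such that every `x ∈ W` has a Kummer function which is close
to a `p`-th power (in the sense of 16) at both components `gC`, `gC2` of the reduction of `X₀(Mp)`.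
Then inertia acts on `W` through the cyclotomic character. Idea: the Kummer cover splits completely
over both components; the copies are glued at the crossing points, and the quotients of the gluing
elements generate the Galois group of the cover and commute with inertia.
(H84SSp, H84TwoSS2, H84Iner) -/
theorem closeness_two_components {p M : ℕ} [NeZero M] [NeZero p] [NeZero (M * p)]
    {A : ValuationSubring Qb} (hp : p.Prime) (hpM : ¬ p ∣ M) (hA : A.LiesOverPrime p)
    (w : H99.AL Qb M p) (ζ : Qb) (hζ : IsPrimitiveRoot ζ p) (W : AddSubgroup (JZero (M * p)))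
    (hW : Finite W) (hpW : ∀ x ∈ W, p • x = 0)
    (hI : ∀ σ ∈ A.inertiaSubgroupIn ℚ, ∀ x ∈ W, σ • x ∈ W)
    (hclose : ∀ x ∈ W, ∃ f : H99.FX Qb (M * p), H33.IsKum p x f ∧
      H33.CloseAt (H34.Two.gC A (IsLocalRing.residue A) (M * p)) p (ζ - 1) f ∧
      H33.CloseAt (H34.Two.gC2 A (IsLocalRing.residue A) w) p (ζ - 1) f)
    (σ : Gq) (hσ : σ ∈ A.inertiaSubgroupIn ℚ) (a : ℕ) (ha : σ ζ = ζ ^ a) (x : JZero (M * p))
    (hx : x ∈ W) : σ • x = a • x :=
  H84.ss2p hp hpM hA w ζ hζ W hW hpW hI hclose σ hσ a ha x hx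

/-! ### The three cases -/

/-- **19. Case N** (new at `p`). `p ∤ M`, `W` a finite subgroup of `J₀(Mp)[p]`, stable under inertia
at `A` and under the Atkin–Lehner involution `w`, killed by `α_* : J₀(Mp) → J₀(M)`, all of whose
Kummer functions reduce to `p`-th powers. Then inertia acts on `W` through the cyclotomic
character. Proof: by 12 the function `f · N(w f)` is a `p`-th power, which improves the congruence
of `f` with a `p`-th power up to `(ζ - 1)^p 𝔪`; then 18. (H33Start, H33CaseN, and
`LocCtx.close_new` in H33Local) -/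
theorem caseN {p : ℕ} [Fact p.Prime] [NeZero p] {M : ℕ} [NeZero M] [NeZero (M * p)]
    {A : ValuationSubring Qb} (hA : A.LiesOverPrime p) (hpM : ¬ p ∣ M) (w : H99.AL Qb M p)
    {W : AddSubgroup (JZero (M * p))} (hfin : Finite W) (hpW : ∀ x ∈ W, p • x = 0)
    (hI : ∀ σ ∈ A.inertiaSubgroupIn ℚ, ∀ x ∈ W, σ • x ∈ W)
    (hw : ∀ x ∈ W, H67.pushP w.W.toAlgHom x ∈ W)
    (hα : ∀ x ∈ W, H67.pushP (heckeAlphaBar Qb M p) x = 0)
    (hred : ∀ x ∈ W, ∀ f : H99.FX Qb (M * p), H33.IsKum p x f →
      ∃ ω, H33.Red A (IsLocalRing.residue A) (f : LaurentSeries Qb) (ω ^ p))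
    {ζ : Qb} (hζ : IsPrimitiveRoot ζ p) {σ : Gq} (hσ : σ ∈ A.inertiaSubgroupIn ℚ) {a : ℕ}
    (hσζ : σ ζ = ζ ^ a) {x : JZero (M * p)} (hx : x ∈ W) : σ • x = a • x :=
  H33.case_N hA hpM w (H84.ss2p Fact.out hpM hA w) hfin hpW hI hw hα hred hζ hσ hσζ hx

/-- **20. Case D** (good reduction, `T_p` invertible). `p` odd, `p ∤ M`; `(x_w)` a finite family of
classes in `J₀(M)[p]` permuted by `T_p`, all of whose Kummer functions reduce to `p`-th powers. Then
inertia at `A` acts on them through the cyclotomic character. Proof: by 10 the relation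
`f(q^p) (N f)(q) = c f' H^p` holds between the Kummer functions `f`, `f'` of `x_w` and `T_p x_w`;
successive approximation modulo powers of a uniformizer gives `f y^p = c (1 + (ζ - 1)^p u)` with
`u` integral. Then `σ f / f^a` is close to a `p`-th power in the sense of 16, and 17 applies to it.
(H33CaseD, `DiscCtx.close_all` in H33Local, H33Final) -/
theorem caseD {p : ℕ} [Fact p.Prime] [NeZero p] {M : ℕ} [NeZero M] {A : ValuationSubring Qb}
    (hp2 : 2 < p) (hA : A.LiesOverPrime p) (hpM : ¬ p ∣ M) {W : Type*} [Finite W] (T : W ≃ W)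
    (x : W → JZero M) (hT : ∀ w, heckeOperatorAlong Qb M p (x w) = x (T w))
    (hpx : ∀ w, p • x w = 0)
    (hred : ∀ w, ∀ f : H99.FX Qb M, H33.IsKum p (x w) f →
      ∃ ω, H33.Red A (IsLocalRing.residue A) (f : LaurentSeries Qb) (ω ^ p))
    {ζ : Qb} (hζ : IsPrimitiveRoot ζ p) {σ : Gq} (hσ : σ ∈ A.inertiaSubgroupIn ℚ) {a : ℕ}
    (hσζ : σ ζ = ζ ^ a) (w : W) : σ • x w = a • x w :=
  H33.case_D hp2 hA (H33.inertiaFacts hA) hpM (H84.clp Fact.out hpM hA) T x hT hpx hred hζ hσ
    hσζ w

/-- **21. Case C** (good reduction, kernel of `T_p`). `p` odd, `p ∤ M`. A class `x ∈ J₀(M)[p]` with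
`T_p x = 0` which is fixed by all elements of inertia at `A` which fix `ζ_p` is zero. Proof: `x` has
a Kummer function `f` with leading coefficient `1` over the field `L` fixed by these elements
(GuideOrdinaryLocal, 28), in which `ζ_p - 1` is a uniformizer. As `T_p x = 0`, the function of 10,
`f(q^p) (N f)(q)`, whose leading coefficient is `1` as well, is `h^p` for a unique `h` with leading
coefficient `1`; by uniqueness the coefficients of `h` are in `L`. So `f` is close to a `p`-th power
(GuideOrdinaryLocal, 24 and 25); then 17. (H33CaseC, H33CaseC2, `DiscCtx.close_of_T` in H33Local) -/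
theorem caseC {p : ℕ} [Fact p.Prime] [NeZero p] {M : ℕ} [NeZero M] {A : ValuationSubring Qb}
    (hp2 : 2 < p) (hA : A.LiesOverPrime p) (hpM : ¬ p ∣ M) {ζ : Qb} (hζ : IsPrimitiveRoot ζ p)
    {x : JZero M} (hpx : p • x = 0) (hT : heckeOperatorAlong Qb M p x = 0)
    (hfix : ∀ σ ∈ A.inertiaSubgroupIn ℚ, σ ζ = ζ → σ • x = x) : x = 0 :=
  H33.case_C hp2 hA (H33.inertiaFacts hA) hpM (H84.clp Fact.out hpM hA) hζ hpx hT hfix

/-! ### The end of the proof of S33 -/

/-- **22. No scalar inertia.** `ρ` residually absolutely irreducible with cyclotomic determinant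
(`DetIsCyclotomic`, which includes that `p` is not a unit in `T`), `p` odd, `s ≠ 0` an equivariant
additive map to a Galois module. Then inertia at a place `A` above `p` does not act on the values
of `s` through the cyclotomic character: otherwise `ρ(σ) = χ(σ)` residually for `σ` in inertia, and
`χ² = det = χ`. Contradiction in cases N and D. (H33Glue) -/
theorem no_scalar_inertia {T : Type} [CommRing T] [IsLocalRing T] (ρ : GaloisRepAdic T)
    {J : Type*} [AddCommGroup J] [DistribMulAction Gq J] {p : ℕ} (hp : p.Prime) (hp2 : p ≠ 2)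
    (h : ρ.residual.IsAbsolutelyIrreducible) (hdet : ρ.DetIsCyclotomic p)
    {A : ValuationSubring Qb} (hA : A.LiesOverPrime p) (s : ρ.V →+ J) (hs : s ≠ 0)
    (hsG : ∀ σ v, s (ρ.ρ σ v) = σ • s v) {ζ : Qb} (hζ : IsPrimitiveRoot ζ p)
    (hI : ∀ σ ∈ A.inertiaSubgroupIn ℚ, ∀ a : ℕ, σ ζ = ζ ^ a → ∀ v, σ • s v = a • s v) :
    False :=
  H33.false_of_scalar ρ hp hp2 h hdet hA s hs hsG hζ hI

/-- **23. The ordinary line is seen.** `ρ` residually absolutely irreducible, residually ordinary,
with cyclotomic determinant, `𝔪_T^n ⊆ p T` for some `n`; `s ≠ 0` an equivariant additive map with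
`p s = 0`. Then some nonzero value `s v` is fixed by all elements of inertia which fix `ζ_p`.
Contradiction in case C. (H33GlueC) -/
theorem ordinary_line_is_seen {T : Type} [CommRing T] [IsLocalRing T] (ρ : GaloisRepAdic T)
    {J : Type*} [AddCommGroup J] [DistribMulAction Gq J] {p : ℕ} (hp : p.Prime)
    (h : ρ.residual.IsAbsolutelyIrreducible) (hdet : ρ.DetIsCyclotomic p)
    (hres : (GaloisRepAdic.ofResidualGaloisRep ρ.residual).IsOrdinaryAt p)
    (hnil : ∃ n : ℕ, IsLocalRing.maximalIdeal T ^ n ≤ Ideal.span {(p : T)})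
    {A : ValuationSubring Qb} (hA : A.LiesOverPrime p) (s : ρ.V →+ J) (hs : s ≠ 0)
    (hps : ∀ v, p • s v = 0) (hsG : ∀ σ v, s (ρ.ρ σ v) = σ • s v) {ζ : Qb}
    (hζ : IsPrimitiveRoot ζ p)
    (hC : ∀ v, (∀ σ ∈ A.inertiaSubgroupIn ℚ, σ ζ = ζ → σ • s v = s v) → s v = 0) : False :=
  H33.false_of_kernel ρ hp h hdet hres hnil hA s hs hps hsG hζ hC

/-- **24. The inertia field.** The elements of `ℚ̄` fixed by the inertia group of a place `A` above
`p` have valuation an integral power of `v(p)` and reduce onto the residue field of `A`. This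
makes the successive approximation of 20 and 21 possible. (H33Facts; helper44, helper1) -/
theorem inertia_field {p : ℕ} [Fact p.Prime] {A : ValuationSubring Qb} (hA : A.LiesOverPrime p) :
    (∀ a : Qb, a ≠ 0 → (∀ σ ∈ A.inertiaSubgroupIn ℚ, σ a = a) →
      ∃ m : ℤ, A.valuation a = A.valuation (p : Qb) ^ m) ∧
    (∀ c : IsLocalRing.ResidueField A, ∃ a : A,
      (∀ σ ∈ A.inertiaSubgroupIn ℚ, σ (a : Qb) = a) ∧ IsLocalRing.residue A a = c) :=
  ⟨(H33.inertiaFacts hA).val, (H33.inertiaFacts hA).res⟩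

/-- **25. Division by `p`.** Let `I` be an ideal of `T` and `h : V → T_p J` a nonzero additive map
which commutes with the Galois group and kills `I V`. Then there is such a map `h'` (`h` divided by
a power of `p`) which is not zero modulo `p`, that is, as a map to `J[p]`. (H33Main) -/
theorem division_by_p {T : Type} [CommRing T] [IsLocalRing T] {ρ : GaloisRepAdic T} {I : Ideal T}
    {p : ℕ} [Fact p.Prime] {J : Type*} [AddCommGroup J] [DistribMulAction Gq J]
    {h : ρ.V →+ H30.TateMod p J} (hG : ∀ σ v, h (ρ.ρ σ v) = H30.galTate p J σ (h v))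
    (hI : ∀ t ∈ I, ∀ v, h (t • v) = 0) (h0 : h ≠ 0) :
    ∃ h' : ρ.V →+ H30.TateMod p J, (∀ σ v, h' (ρ.ρ σ v) = H30.galTate p J σ (h' v)) ∧
      (∀ t ∈ I, ∀ v, h' (t • v) = 0) ∧ ∃ v, H30.TateMod.proj 1 (h' v) ≠ 0 :=
  let ⟨h', hh', hv⟩ := (H33.IsRealHom.mk hG hI).saturate h0
  ⟨h', hh'.gal, hh'.ker, hv⟩

/-- **26. New at `p`.** `p` odd, `p ∤ M`; `ρ` is residually absolutely irreducible with cyclotomic
determinant, `I` an ideal of `T`, and `c ≡ p^m` modulo `I` is an element of `T` such that `c V` is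
contained in the span of the `ρ(σ) v - v`, `σ` in the inertia group of `A` (compare 5). If
`α_* : J₀(Mp) → J₀(M)` kills the reductions modulo `p` of all equivariant maps `V → T_p J₀(Mp)`
which kill `I V`, then there is no such map `h ≠ 0`. Proof: by 13 the values of these reductions
have Kummer functions which reduce to `p`-th powers (`p^m h(v) = h(c v)` is a sum of elements
`σ y - y`). The group `W` generated by these values is finite and stable under Galois and `w`, so 19
applies to it; this contradicts 22 for the map modulo `p` of 25. (H33Main) -/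
theorem no_map_new {T : Type} [CommRing T] [IsLocalRing T] {ρ : GaloisRepAdic T} {I : Ideal T}
    {p : ℕ} [Fact p.Prime] [NeZero p] {M : ℕ} [NeZero M] [NeZero (M * p)]
    {A : ValuationSubring Qb} (hp2 : p ≠ 2) (hA : A.LiesOverPrime p) (hpM : ¬ p ∣ M)
    (hirr : ρ.residual.IsAbsolutelyIrreducible) (hdet : ρ.DetIsCyclotomic p) {m : ℕ} {c : T}
    (hc : c - (p : T) ^ m ∈ I) (hD : ∀ v : ρ.V, c • v ∈
      Submodule.span T {x : ρ.V | ∃ σ ∈ A.inertiaSubgroupIn ℚ, ∃ v, x = ρ.ρ σ v - v})
    (hα : ∀ h : ρ.V →+ H30.TateMod p (JZero (M * p)),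
      (∀ σ v, h (ρ.ρ σ v) = H30.galTate p (JZero (M * p)) σ (h v)) →
      (∀ t ∈ I, ∀ v, h (t • v) = 0) →
      ∀ v, H67.pushP (heckeAlphaBar Qb M p) (H30.TateMod.proj 1 (h v)) = 0)
    {h : ρ.V →+ H30.TateMod p (JZero (M * p))}
    (hG : ∀ σ v, h (ρ.ρ σ v) = H30.galTate p (JZero (M * p)) σ (h v))
    (hI : ∀ t ∈ I, ∀ v, h (t • v) = 0) (h0 : h ≠ 0) : False :=
  H33.false_of_new hp2 hA hpM (fun w => H84.ss2p Fact.out hpM hA w) hirr hdet hc hD
    (H33.IsRealHom.mk hG hI) h0 fun h hh => hα h hh.gal hh.ker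

/-- **27. Old at `p`.** `p` odd, `p ∤ M`; `ρ` as in 23, `V / p V` finite, `I` and `c` as in 26. Then
there is no nonzero equivariant map `V → T_p J₀(M)` which kills `I V`. Proof: as in 26 the values of
the reductions `s : V → J₀(M)[p]` of these maps have Kummer functions which reduce to `p`-th powers.
Either `T_p ∘ s = 0` for some `s ≠ 0`, and then 21 and 23 give a contradiction; or `T_p` permutes
the finite set of all values (GuideOrdinaryLocal, 30), and then 20, 25 and 22. (H33Main) -/
theorem no_map_old {T : Type} [CommRing T] [IsLocalRing T] {ρ : GaloisRepAdic T} {I : Ideal T}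
    {p : ℕ} [Fact p.Prime] [NeZero p] {M : ℕ} [NeZero M] {A : ValuationSubring Qb}
    (hp2 : 2 < p) (hA : A.LiesOverPrime p) (hpM : ¬ p ∣ M)
    (hirr : ρ.residual.IsAbsolutelyIrreducible) (hdet : ρ.DetIsCyclotomic p)
    (hres : (GaloisRepAdic.ofResidualGaloisRep ρ.residual).IsOrdinaryAt p)
    (hnil : ∃ n : ℕ, IsLocalRing.maximalIdeal T ^ n ≤ Ideal.span {(p : T)})
    (hQ : Finite (ρ.V ⧸ (Ideal.span {(p : T)} • (⊤ : Submodule T ρ.V)))) {m : ℕ} {c : T}
    (hc : c - (p : T) ^ m ∈ I) (hD : ∀ v : ρ.V, c • v ∈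
      Submodule.span T {x : ρ.V | ∃ σ ∈ A.inertiaSubgroupIn ℚ, ∃ v, x = ρ.ρ σ v - v})
    {h : ρ.V →+ H30.TateMod p (JZero M)}
    (hG : ∀ σ v, h (ρ.ρ σ v) = H30.galTate p (JZero M) σ (h v))
    (hI : ∀ t ∈ I, ∀ v, h (t • v) = 0) (h0 : h ≠ 0) : False :=
  H33.false_of_old hp2 hA (H33.inertiaFacts hA) hpM (H84.clp Fact.out hpM hA) hirr hdet hres hnil
    hQ hc hD (H33.IsRealHom.mk hG hI) h0

/-- **28. S33.** `p` odd, `p ∥ N`, `𝒪` a complete discrete valuation ring of characteristic zero
with finite residue field of characteristic `p`, `S` a finite set containing the prime divisors of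
`N`, `H` a Hecke–Galois datum over a local component `T` of the Hecke algebra away from `S`
(`H.ρ : G_ℚ → GL₂(T)` residually absolutely irreducible, Frobenius at `ℓ ∤ N`, `ℓ ∉ S`, has
characteristic polynomial `X² - T_ℓ X + ℓ`). If the residual representation is ordinary at `p` then
so is `H.ρ`. Proof: by 4, suppose that for a place `A` above `p` and a point `ψ` with kernel `I`
there is no invariant functional. By 5, and since `T` is finite over `𝒪`, there is `c` as in 26
(GuideOrdinaryLocal, 29), and by 6 a nonzero equivariant map `h : V → T_p J₀(N)` which kills `I V`;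
`N = Mp`. If the hypothesis on `α_*` in 26 holds, this contradicts 26; if not, `α_* ∘ h ≠ 0` for
some such `h`, which contradicts 27. (H33Main, H33Asm, S33; used in the proofs of S01, S03, S04,
S06, S38, S45, S46, S50, S59 and S60) -/
theorem S33_statement {p : ℕ} {N : ℕ} [NeZero N] {S : Finset ℕ}
    {𝒪 : Type} [CommRing 𝒪] [IsDomain 𝒪] [IsDiscreteValuationRing 𝒪]
    [IsAdicComplete (IsLocalRing.maximalIdeal 𝒪) 𝒪]
    {θ : CuspForm.heckeAlgebra N 2 (↑S : Set ℕ) →+* IsLocalRing.ResidueField 𝒪}
    {T : Type} [CommRing T] [IsLocalRing T] [IsNoetherianRing T]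
    [IsAdicComplete (IsLocalRing.maximalIdeal T) T] [Algebra 𝒪 T] [IsLocalHom (algebraMap 𝒪 T)]
    [Module.Finite 𝒪 T] [Module.Free 𝒪 T] [Finite (IsLocalRing.ResidueField 𝒪)] [CharZero 𝒪]
    (hp : p.Prime) (hp2 : p ≠ 2) (hp𝒪 : (p : 𝒪) ∈ IsLocalRing.maximalIdeal 𝒪)
    (hN : p ∣ N ∧ ¬ p ^ 2 ∣ N) (hNS : ∀ q : ℕ, q.Prime → q ∣ N → q ∈ S)
    (H : CuspForm.HeckeGaloisRepDatum N (↑S : Set ℕ) 𝒪 θ T)
    (hres : (GaloisRepAdic.ofResidualGaloisRep H.ρ.residual).IsOrdinaryAt p) :
    H.ρ.IsOrdinaryAt p :=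
  S33.result hp hp2 hp𝒪 hN hNS H hres

end Fermat.Agent.Guide.Ordinary
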