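import Fermat.Agent.H33Asm
import Fermat.Agent.H84SSp

/-!
# Reader's guide: the local analysis at `p` behind S33

**Statement served:** S33, and through it S01, S03, S04, S06, S38, S45, S46, S50, S59 and S60.  (Case
N, with theorems 1, 2 and 4, is also used in S39 and S40; the discrete fields, theorems 7 and 8, also
in S09, S12, S15, S39, S40 and S43.)  Companion of `GuideOrdinary`, which contains the results (Theorems
13, 19, 20 and 21 there: inertia coinvariants, the cases N, D and C) without the calculations; this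
file contains the steps of the proofs.  Numbers of theorems with the word "Ordinary" refer to that
file.  Kummer functions in general: `GuideKummerFunctions`, section 1.  In prose: note [257] NOTES-S33.

**The problem.**  `A` is a place of `ℚ̄` above the odd prime `p`, `k` its residue field, `ζ` a
primitive `p`-th root of unity, `λ = ζ - 1`.  A class `x ∈ J₀(N)[p]` has Kummer functions `f`
(`div f = p D`, `x = [D]`), well defined up to `p`-th powers and constants.  One knows that the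
reduction of `f` (of its `q`-expansion) is a `p`-th power, and wants to multiply `f` by `p`-th powers
and constants until it is congruent to `1` modulo `λ^p`.  From such a congruence one reads off the
action of inertia on `x` (theorems 5 and 6).  The only information on `f` is multiplicative: a
relation between `f`, the series `V f = f(q^p)` and the norm `N f`, where
`(N f)(q^p) = ∏_{i < p} f(ζ^i q)`.

**The method.**  Successive approximation.  If `f = 1 + μ u`, then `N f ≡ 1` modulo a better ideal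
(theorem 1), whereas `V f = 1 + μ u(q^p)`.
* Case N: `f` is a `p`-th power divided by `N f'`, `f'` of the same kind; so every congruence for the
  `f'` gives a better one for the `f` (theorem 27).
* Cases D and C: `V f · N f = f' · (p-th power)`; so `u(q^p) - u'(q)` is, modulo the maximal ideal,
  the first coefficient of a `p`-th power which is congruent to `1`.  The possible coefficients are
  determined in theorems 15 to 17: constants and `p`-th powers, and `h^p + ε h` at the critical level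
  `λ^p`, `ε = p / λ^(p-1)`.  In case D the `f` are permuted by `V N` (theorem 23), in case C the right
  hand side is a `p`-th power (theorem 25).
For the second method the Gauss valuation must be discrete.  It is discrete on the functions with
coefficients in a subfield `L` of `ℚ̄` on which `A` is discrete; `L` is the field fixed by an open
subgroup of the inertia group, so that its residue field is still `k`, and the subgroup is chosen so
small that the finitely many functions in question have coefficients in `L` (Section 2).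

**Conventions.**  `valRing A π` is the ring `𝓥` of the quotients of Laurent series with coefficients
in `A` whose denominator has a nonzero reduction, `valRes A π` the reduction `𝓥 → k((q))` (Ordinary,
Theorem 8); `Red A π f r` says that `r ≠ 0` is the reduction of a nonzero constant multiple of `f`
(Ordinary, Theorem 9); `qExpand K p f` is `f(q^p)`, `normOp p ζ f` is `N f` (Ordinary, Theorem 11);
`cst a` is the constant series `a`, `constField k` the field of the constant series over `k`;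
`modularFunctionFieldFullC K M` is the field of the modular functions of level `M` over `K`, a
subfield of `K((q))`, and `H99.FX K M` another name for it; `IsKum p x f` says that `f` is a Kummer
function of `x` (Ordinary, Theorem 7); `w : H99.AL Qb M p` is the Atkin-Lehner involution at `p` of
the field of level `M p` (Ordinary, Theorem 12).
-/

set_option autoImplicit false

open ModularCurve AlgebraicCurve
open scoped TensorProduct

namespace Fermat.Agent.Guide.OrdinaryLocal

local notation "Qb" => AlgebraicClosure ℚ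
local notation "Gq" => AlgebraicClosure ℚ ≃ₐ[ℚ] AlgebraicClosure ℚ

/-! ## 1. The norm operator and the local setting -/

/-- **1. The congruence for the norm operator.**  `N (1 + μ u) ≡ 1` modulo `μ'` if `μ'` divides both
`(ζ - 1) μ` and `μ^p`.  Reason: the twists `u(ζ^i q)` are congruent to `u(q)` modulo `ζ - 1`, so
`N (1 + μ u)(q^p)` is congruent to `(1 + μ u)^p` modulo `(ζ - 1) μ`, and `p` is divisible by `ζ - 1`.
(H33Cong) -/
theorem norm_congruence {K : Type*} [Field K] {A : ValuationSubring K} {k : Type*} [Field k]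
    {π : A →+* k} {p : ℕ} [Fact p.Prime] [NeZero p] [CharP k p] {ζ : Aˣ}
    (hζ : IsPrimitiveRoot (Units.map (A.subtype : A →* K) ζ) p)
    (hζ1 : Units.map (π : A →* k) ζ = 1) {μ μ' : A} (hμ'0 : μ' ≠ 0)
    (hd1 : μ' ∣ ((ζ : A) - 1) * μ) (hd2 : μ' ∣ μ ^ p) {u : LaurentSeries K}
    (hu : u ∈ H33.valRing A π) :
    ∃ w ∈ H33.valRing A π, H33.normOp p (Units.map (A.subtype : A →* K) ζ)
      (1 + H33.cst (μ : K) * u) = 1 + H33.cst (μ' : K) * w :=
  H33.normHom_one_add hζ hζ1 hμ'0 hd1 hd2 hu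

/-- **2. The local setting.**  `LocCtx 𝓛 𝓡 p` is a list of data which abstracts from Laurent series: a
field `𝓛` with a ring `𝓥` of integral elements and a reduction `𝓥 → 𝓡` to a field of characteristic
`p` with constants `𝓚`, a ring homomorphism `V`, a multiplicative map `N`, an automorphism `φ` of
`𝓡`.  `locCtx` is this setting for `𝓛 = K((q))` and `𝓡 = k((q))`, `k` algebraically closed: `V f =
f(q^p)`, `N` the norm operator, `φ` the Frobenius automorphism on the coefficients.  (H33Laurent) -/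
theorem local_setting {K : Type*} [Field K] {A : ValuationSubring K} {k : Type*} [Field k]
    {π : A →+* k} {p : ℕ} [Fact p.Prime] [NeZero p] [CharP k p] [IsAlgClosed k] {ζ : Aˣ}
    (hζ : IsPrimitiveRoot (Units.map (A.subtype : A →* K) ζ) p)
    (hζ1 : Units.map (π : A →* k) ζ = 1) :
    (H33.locCtx hζ hζ1).𝓥 = H33.valRing A π ∧ (H33.locCtx hζ hζ1).r = H33.valRes A π ∧
      (H33.locCtx hζ hζ1).V = qExpand K p ∧
      (∀ f, (H33.locCtx hζ hζ1).N f = H33.normOp p (Units.map (A.subtype : A →* K) ζ) f) ∧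
      (∀ x, (H33.locCtx hζ hζ1).φ x = coeffMap (frobeniusEquiv k p : k →+* k) x) ∧
      (H33.locCtx hζ hζ1).Vb = qExpand k p ∧ (H33.locCtx hζ hζ1).𝓚 = H33.constField k :=
  ⟨rfl, rfl, rfl, fun _ => rfl, fun _ => rfl, rfl, rfl⟩

/-- **3. The rules.**  `res` is the reduction.  `V f` reduces to `V̄` of the reduction of `f`, `N f` to
`φ` of it, and `V̄ φ x = x^p`; so `V̄ x = (φ⁻¹ x)^p` is always a `p`-th power.  Constants are fixed by
`V̄`, and `φ c = c^p` for them.  (H33Local) -/
theorem local_rules {𝓛 𝓡 : Type*} [Field 𝓛] [Field 𝓡] {p : ℕ} (C : H33.LocCtx 𝓛 𝓡 p) :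
    (∀ f ∈ C.𝓥, C.res (C.V f) = C.Vb (C.res f)) ∧ (∀ f ∈ C.𝓥, C.res (C.N f) = C.φ (C.res f)) ∧
      (∀ x, C.Vb (C.φ x) = x ^ p) ∧ (∀ x, C.Vb x = (C.φ.symm x) ^ p) ∧
      (∀ c ∈ C.𝓚, C.Vb c = c ∧ C.φ c = c ^ p) :=
  ⟨fun _ hf => C.res_V hf, fun _ hf => C.res_N hf, C.Vb_φ, C.Vb_eq,
    fun c hc => ⟨C.Vb_const c hc, C.φ_const hc⟩⟩

/-- **4. Periodic series are constant.**  If `x(q^(p^n)) - x(q)` is constant, `n > 0`, then `x` is
constant (compare the first nonconstant coefficients).  (H33Laurent) -/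
theorem periodic_constant {k : Type*} [Field k] (p : ℕ) [NeZero p] (hp : 1 < p) (n : ℕ)
    (hn : 0 < n) (x : LaurentSeries k) (h : ((qExpand k p)^[n]) x - x ∈ H33.constField k) :
    x ∈ H33.constField k :=
  H33.mem_const_of_iterate p hp n hn x h

/-- **5. Inertia on functions congruent to `1` modulo `λ^p`.**  `σ` in the inertia group, `σ ζ = ζ^a`.
For `f = 1 + λ^p u` the quotient `σ f / f^a` is congruent to `1` modulo `λ^p 𝔪`.  Proof: `σ λ` is
`α λ` with `α ≡ a`, so `σ f ≡ 1 + a^p λ^p u` and `a^p ≡ a`.  (H33Local, H33Final) -/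
theorem inertia_near_one {p : ℕ} [Fact p.Prime] [NeZero p] {A : ValuationSubring Qb}
    (hA : A.LiesOverPrime p) {ζ : Qb} (hζ : IsPrimitiveRoot ζ p) {σ : Gq}
    (hσ : σ ∈ A.inertiaSubgroupIn ℚ) {a : ℕ} (hσζ : σ ζ = ζ ^ a)
    {u : LaurentSeries Qb} (hu : u ∈ H33.valRing A (IsLocalRing.residue A)) :
    ∃ (w : LaurentSeries Qb) (hw : w ∈ H33.valRing A (IsLocalRing.residue A)),
      H33.valRes A (IsLocalRing.residue A) ⟨w, hw⟩ = 0 ∧
      coeffMap (σ : Qb →+* Qb) (1 + H33.cst ((ζ - 1) ^ p) * u) *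
        ((1 + H33.cst ((ζ - 1) ^ p) * u) ^ a)⁻¹ = 1 + H33.cst ((ζ - 1) ^ p) * w :=
  H33.galois_one_add' hA hζ hσ hσζ hu

/-- **6. From the congruence to the action of inertia** (good reduction, `p ∤ M`).  `f` a Kummer
function of `x ∈ J₀(M)[p]` with `c f U^p = 1 + λ^p u`, `u` integral.  Then `σ x = a x` if `σ` is in
the inertia group and `σ ζ = ζ^a`.  Proof: `σ f / f^a` is a Kummer function of `σ x - a x`; by 5 it is
close to a `p`-th power in the sense of (CL_p) (Ordinary, Theorem 17), hence a `p`-th power.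
(H33Final) -/
theorem inertia_of_close {p : ℕ} [Fact p.Prime] [NeZero p] {A : ValuationSubring Qb}
    (hA : A.LiesOverPrime p) {M : ℕ} [NeZero M] (hpM : ¬ p ∣ M) {ζ : Qb}
    (hζ : IsPrimitiveRoot ζ p) {σ : Gq} (hσ : σ ∈ A.inertiaSubgroupIn ℚ) {a : ℕ}
    (hσζ : σ ζ = ζ ^ a) {x : JZero M} {f U : H99.FX Qb M} (hf : H33.IsKum p x f) (hU : U ≠ 0)
    {c : Qb} (hc : c ≠ 0) {u : LaurentSeries Qb}
    (hu : u ∈ H33.valRing A (IsLocalRing.residue A))
    (heq : H33.cst c * (f : LaurentSeries Qb) * (U : LaurentSeries Qb) ^ p =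
      1 + H33.cst ((ζ - 1) ^ p) * u) : σ • x = a • x :=
  H33.smul_eq_of_close hA (H84.clp Fact.out hpM hA) hζ hσ hσζ hf hU hc hu heq

/-! ## 2. Modular functions over a discretely valued field -/

/-- **7. Discretely valued subfields with full residue field**, unfolded: `L ⊆ K` with uniformizer
`ϖ`; every nonzero `a ∈ L` is a power of `ϖ` times a unit of `A`, and every element of the residue
field is the reduction of an element of `L`. -/
theorem discFld_iff {K : Type*} [Field K] (A : ValuationSubring K) {k : Type*} [Field k]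
    (π : A →+* k) (L : Subfield K) (ϖ : K) :
    H33.DiscFld A π L ϖ ↔ ϖ ∈ L ∧ ϖ ≠ 0 ∧ (∃ h : ϖ ∈ A, π ⟨ϖ, h⟩ = 0) ∧
      (∀ a ∈ L, a ≠ 0 → ∃ m : ℤ, ∃ h : ϖ ^ m * a ∈ A, π ⟨_, h⟩ ≠ 0) ∧
      ∀ c : k, ∃ a ∈ L, ∃ h : a ∈ A, π ⟨a, h⟩ = c :=
  ⟨fun h => ⟨h.mem_L, h.ne, ⟨h.mem_A, h.map_eq⟩, h.discr, h.lift⟩,
    fun h => ⟨h.1, h.2.1, h.2.2.1.1, h.2.2.1.2, h.2.2.2.1, h.2.2.2.2⟩⟩

/-- **8. The field fixed by an open subgroup of the inertia group** is of this kind.  `A` is a place
above `p`, `H'` a subgroup of finite index of the Galois group, `fixL A H'` the field fixed by the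
elements of `H'` which are in the inertia group.  Proof: the value group of the field fixed by the
inertia group is generated by the value of `p`, and it has the full residue field (GuideAbsGal); the
value group of `fixL A H'` contains it with finite index.  (H33Inertia, H33Facts) -/
theorem exists_discFld {p : ℕ} [Fact p.Prime] {A : ValuationSubring Qb} (hA : A.LiesOverPrime p)
    (H' : Subgroup Gq) [H'.FiniteIndex] :
    (∀ a : Qb, a ∈ H33.fixL A H' ↔ ∀ σ ∈ A.inertiaSubgroupIn ℚ, σ ∈ H' → σ a = a) ∧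
      ∃ ϖ : Qb, H33.DiscFld A (IsLocalRing.residue A) (H33.fixL A H') ϖ :=
  ⟨fun _ => H33.mem_fixL, H33.exists_discFld (H33.inertiaFacts hA) hA Fact.out⟩

/-- **9. The ramification index.**  If `ζ ∈ L` then `ϖ^e₀ = η (ζ - 1)` and `p = ε ϖ^((p-1) e₀)` for some
`e₀ > 0`, with `η`, `ε` in `A` (hence units, as `p` is `(ζ - 1)^(p-1)` up to a unit).  So the level
`λ^p` is the level `ϖ^(p e₀)`.  (H33Inertia) -/
theorem ramification_index {K : Type*} [Field K] {A : ValuationSubring K} {k : Type*} [Field k]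
    {π : A →+* k} {L : Subfield K} {ϖ : K} (D : H33.DiscFld A π L ϖ)
    (hπ : Function.Surjective π) {p : ℕ} (hp : p.Prime) {ζ : K} (hζ : IsPrimitiveRoot ζ p)
    (hζA : ζ - 1 ∈ A) (hζ1 : π ⟨ζ - 1, hζA⟩ = 0) (hζL : ζ ∈ L) :
    ∃ e₀ : ℕ, 0 < e₀ ∧ (∃ ε ∈ A, (p : K) = ε * ϖ ^ ((p - 1) * e₀)) ∧
      ∃ η ∈ A, ϖ ^ e₀ = η * (ζ - 1) :=
  D.exists_e0 hπ hp hζ hζA hζ1 hζL

/-- **10. Functions with coefficients in `L`.**  `fieldE L M` is the field generated by `L` and the
`j(q^d)`, `d ∣ M`; it consists of the modular functions over `K` whose `q`-expansion has coefficients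
in `L`.  (H33Field) -/
theorem mem_fieldE_iff {K : Type*} [Field K] [CharZero K] {L : Subfield K} {M : ℕ}
    {f : LaurentSeries K} :
    f ∈ H33.fieldE L M ↔ f ∈ modularFunctionFieldFullC K M ∧ ∀ n, f.coeff n ∈ L :=
  H33.mem_fieldE_iff

/-- **11. The Gauss valuation is discrete** on `fieldE L M`: every `f ≠ 0` in it is `ϖ^(-m) y / z`
with series `y`, `z` in it which have coefficients in `A` and nonzero reductions.  Proof: numerator
and denominator are polynomials in the series `j(q^d)`, which have integral coefficients, with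
coefficients in `L`; divide them by the largest possible power of `ϖ`.  (H33Field) -/
theorem gauss_discrete {K : Type*} [Field K] {A : ValuationSubring K} {k : Type*} [Field k]
    {π : A →+* k} {L : Subfield K} {ϖ : K} (D : H33.DiscFld A π L ϖ) (M : ℕ)
    {f : LaurentSeries K} (hf : f ∈ H33.fieldE L M) (hf0 : f ≠ 0) :
    ∃ (m : ℤ) (y z : LaurentSeries A), coeffMap A.subtype y ∈ H33.fieldE L M ∧
      coeffMap A.subtype z ∈ H33.fieldE L M ∧ coeffMap π y ≠ 0 ∧ coeffMap π z ≠ 0 ∧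
      H33.cst (ϖ ^ m) * f * coeffMap A.subtype z = coeffMap A.subtype y :=
  D.exists_rep M hf hf0

/-- **12. Its residue field** is the field of the modular functions of level `M` modulo `p`, `p ∤ M`.
(H33Field) -/
theorem residue_field {K : Type*} [Field K] [CharZero K] [IsAlgClosed K]
    {A : ValuationSubring K} {k : Type*} [Field k] [IsAlgClosed k] {π : A →+* k} {L : Subfield K}
    {ϖ : K} {M : ℕ} [NeZero M] (D : H33.DiscFld A π L ϖ) (hπ : Function.Surjective π)
    (hM : (M : k) ≠ 0) :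
    (∀ (f : LaurentSeries K), f ∈ H33.fieldE L M → ∀ h : f ∈ H33.valRing A π,
      H33.valRes A π ⟨f, h⟩ ∈ modularFunctionFieldFullC k M) ∧
    ∀ c ∈ modularFunctionFieldFullC k M, ∃ f ∈ H33.fieldE L M, ∃ h : f ∈ H33.valRing A π,
      H33.valRes A π ⟨f, h⟩ = c :=
  ⟨fun _ hf h => D.res_mem hπ hM hf h, fun _ hc => D.exists_lift M hc⟩

/-- **13. The operator `T f = f(q^p) · N f`** maps modular functions of level `M`, `p ∤ M`, with
coefficients in `L` to such functions if `ζ ∈ L` (it is the norm attached to the correspondence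
`T_p`: Ordinary, Theorem 10).  (H33Field) -/
theorem operator_T {p : ℕ} [Fact p.Prime] [NeZero p] {M : ℕ} [NeZero M] (hpM : ¬ p ∣ M)
    {ζ : Qbˣ} (hζ : IsPrimitiveRoot ζ p) {L : Subfield Qb} (hζL : (ζ : Qb) ∈ L)
    {f : LaurentSeries Qb} (hf : f ∈ H33.fieldE L M) :
    qExpand Qb p f * H33.normOp p ζ f ∈ H33.fieldE L M :=
  H33.T_mem_fieldE hpM hζ hζL hf

/-! ## 3. Powers which are congruent to `1`

`D : DiscCtx C` is the setting of Section 2 in the abstract setting `C` of theorem 2: a subfield `E`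
of `𝓛` with constants `L` and residue field `κ ⊇ 𝓚`, a uniformizer `ϖ ∈ L`, and `p = ε ϖ^((p-1) e₀)`;
`V f · N f ∈ E` for `f ∈ E`; `κ` is closed under extraction of `p`-th roots (Ordinary, Theorem 14),
and `p > 2`.  For modular functions this is `H33.discCtx` (H33Field): `E = fieldE L M`, `κ` the field
of the modular functions modulo `p`. -/

section Disc

variable {𝓛 𝓡 : Type*} [Field 𝓛] [Field 𝓡] {p : ℕ} {C : H33.LocCtx 𝓛 𝓡 p} (D : H33.DiscCtx C)

/-- **14. Expansion of a `p`-th power.**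
`(1 + ϖ^t h)^p = 1 + ϖ^(p t) h^p + ϖ^((p-1) e₀ + t) ε h + ϖ^((p-1) e₀ + 2 t) s`.  The first term is
larger than the second for `t < e₀`, and both have the same order for `t = e₀`: the critical level
`ϖ^(p e₀)`.  (H33Local) -/
theorem power_expansion (t : ℕ) {h : 𝓛} (hh : h ∈ C.𝓥) : ∃ s ∈ C.𝓥,
    (1 + D.ϖ ^ t * h) ^ p = 1 + D.ϖ ^ (p * t) * h ^ p + D.ϖ ^ ((p - 1) * D.e₀ + t) * (D.ε * h)
      + D.ϖ ^ ((p - 1) * D.e₀ + 2 * t) * s :=
  D.pow_expand t hh

/-- **15. Normal form.**  `c H^p ≡ 1` modulo `ϖ^m`, `m ≤ p e₀`, `c` a constant.  For every `t` with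
`p t < m` one can write `c H^p = c' (1 + ϖ^(t+1) h)^p` with a constant `c' ≡ 1`.  Proof by induction on
`t`: if `p (t + 1) < m` then the coefficient `h^p` of `ϖ^(p (t+1))` must be a constant modulo the
maximal ideal, so `h` is a constant plus an element divisible by `ϖ`, and the factor
`1 + ϖ^(t+1) · constant` is moved to `c'`.  (H33Local) -/
theorem normal_form {m : ℕ} (hm : 0 < m) (hm' : m ≤ p * D.e₀) {H c : 𝓛} (hH : H ∈ D.E)
    (hH0 : H ≠ 0) (hc : c ∈ D.L) (hc0 : c ≠ 0) {w : 𝓛} (hw : w ∈ C.𝓥)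
    (heq : c * H ^ p = 1 + D.ϖ ^ m * w) (t : ℕ) (ht : p * t < m) :
    ∃ h ∈ D.E, h ∈ C.𝓥 ∧ ∃ c' ∈ D.L, c' ≠ 0 ∧ c' ∈ C.𝓥 ∧ C.res c' = 1 ∧
      c * H ^ p = c' * (1 + D.ϖ ^ (t + 1) * h) ^ p :=
  D.exists_normal hm hm' hH hH0 hc hc0 hw heq t ht

/-- **16. Below the critical level.**  `c H^p = 1 + ϖ^m w`, `0 < m < p e₀`.  The reduction of `w` is a
`p`-th power, and it is constant if `p ∤ m`.  Proof: 15 with the largest `t` and 14: the term
`ϖ^(p (t+1)) h^p` contributes to `w` only if `m = p (t + 1)`, the next term never.  (H33Local) -/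
theorem below_critical {m : ℕ} (hm : 0 < m) (hm' : m < p * D.e₀) {H c : 𝓛} (hH : H ∈ D.E)
    (hH0 : H ≠ 0) (hc : c ∈ D.L) (hc0 : c ≠ 0) {w : 𝓛} (hw : w ∈ C.𝓥)
    (heq : c * H ^ p = 1 + D.ϖ ^ m * w) :
    (¬ p ∣ m → C.res w ∈ C.𝓚) ∧ ∃ ν ∈ D.κ, C.res w = ν ^ p :=
  D.root_coeff hm hm' hH hH0 hc hc0 hw heq

/-- **17. At the critical level**, `m = p e₀`, the reduction of `w` is `h^p + ε h` plus a constant:
15 and 14 with `t + 1 = e₀`, where both terms contribute.  (H33Local) -/
theorem at_critical {H c : 𝓛} (hH : H ∈ D.E) (hH0 : H ≠ 0) (hc : c ∈ D.L) (hc0 : c ≠ 0) {w : 𝓛}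
    (hw : w ∈ C.𝓥) (heq : c * H ^ p = 1 + D.ϖ ^ (p * D.e₀) * w) :
    ∃ h ∈ D.κ, ∃ y ∈ C.𝓚, C.res w = h ^ p + C.res D.ε * h + y :=
  D.root_coeff_crit hH hH0 hc hc0 hw heq

/-- **18. Closeness.**  `Close m G`: up to constants and `p`-th powers in `E`, the element `G` is
congruent to `1` modulo `ϖ^m`. -/
theorem close_iff (m : ℕ) (G : 𝓛) :
    D.Close m G ↔ ∃ U ∈ D.E, U ≠ 0 ∧ ∃ c ∈ D.L, c ≠ 0 ∧ ∃ u ∈ C.𝓥, c * G * U ^ p = 1 + D.ϖ ^ m * u :=
  Iff.rfl

/-- **19. Improving the congruence.**  `c G U^p = 1 + ϖ^m u`.  One can pass from `m` to `m + 1` if the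
reduction of `u` is a constant; if it is a `p`-th power, `p ∣ m` and `m < p e₀`; and at the critical
level `m = p e₀` if it is of the form `ω^p + ε ω`.  In each case one divides by a constant `1 + ϖ^m d`
or by the `p`-th power of `1 + ϖ^(m/p) d`, `d` a lift of the constant or of `ω`, and uses 14.
(H33Local) -/
theorem close_improve {m : ℕ} (hm : 0 < m) {G : 𝓛} (hG : G ∈ D.E) {U : 𝓛} (hU : U ∈ D.E)
    (hU0 : U ≠ 0) {c : 𝓛} (hc : c ∈ D.L) (hc0 : c ≠ 0) {u : 𝓛} (hu : u ∈ C.𝓥)
    (heq : c * G * U ^ p = 1 + D.ϖ ^ m * u) :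
    (C.res u ∈ C.𝓚 → D.Close (m + 1) G) ∧
    (p ∣ m → m < p * D.e₀ → ∀ ω ∈ D.κ, C.res u = ω ^ p → D.Close (m + 1) G) ∧
    (m = p * D.e₀ → ∀ ω ∈ D.κ, C.res u = ω ^ p + C.res D.ε * ω → D.Close (m + 1) G) :=
  ⟨fun h => D.close_succ_of_const hm hG hU hU0 hc hc0 hu heq h,
    fun h1 h2 _ hω h => D.close_succ_of_pow hm h1 h2 hG hU hU0 hc hc0 hu heq hω h,
    fun h1 _ hω h => by
      subst h1
      exact D.close_succ_of_AS hG hU hU0 hc hc0 hu heq hω h⟩

/-- **20. The start.**  If the reduction of `ϖ^a G` is nonzero and a `p`-th power `ω^p` then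
`Close 1 G`.  (H33Local) -/
theorem close_start {G : 𝓛} (hG : G ∈ D.E) (a : ℤ) (h : D.ϖ ^ a * G ∈ C.𝓥)
    (h0 : C.res (D.ϖ ^ a * G) ≠ 0) (ω : 𝓡) (hω : C.res (D.ϖ ^ a * G) = ω ^ p) : D.Close 1 G :=
  D.close_one_of_res hG a h h0 ω hω

/-! ## 4. The operator `T = V N`: cases D and C -/

/-- **21. `T` on elements congruent to `1`:** `T (1 + ϖ^m u) = 1 + ϖ^m w`, `w` reduces to `V̄` of the
reduction of `u`: by 1 the factor `N (1 + ϖ^m u)` is `1` modulo `ϖ^(m+1)`.  (H33Local) -/
theorem T_near_one {m : ℕ} (hm : 0 < m) {u : 𝓛} (hu : u ∈ C.𝓥) :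
    ∃ w ∈ C.𝓥, C.V (1 + D.ϖ ^ m * u) * C.N (1 + D.ϖ ^ m * u) = 1 + D.ϖ ^ m * w ∧
      C.res w = C.Vb (C.res u) :=
  D.T_one_add hm hu

/-- **22. Comparison.**  `V G · N G = c₀ G' H^p`, and `G`, `G'` are `1 + ϖ^m u`, `1 + ϖ^m u'` up to
constants and `p`-th powers.  Then there is a `p`-th power times a constant which is `1 + ϖ^m w`, where
`w` reduces to `V̄(u) - u'` (here and in 23 and 25 `u` also denotes the reduction of `u`).  With 16 this
says, for `m < p e₀`: `V̄(u) - u'` is a `p`-th power, and constant if `p ∤ m`.  (H33Local) -/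
theorem T_comparison {m : ℕ} (hm : 0 < m) {G G' H c₀ : 𝓛} (hH : H ∈ D.E) (hH0 : H ≠ 0)
    (hc₀ : c₀ ∈ D.L) (hc₀0 : c₀ ≠ 0) (hrel : C.V G * C.N G = c₀ * G' * H ^ p)
    {U c u : 𝓛} (hU : U ∈ D.E) (hU0 : U ≠ 0) (hc : c ∈ D.L) (hc0 : c ≠ 0) (hu : u ∈ C.𝓥)
    (heq : c * G * U ^ p = 1 + D.ϖ ^ m * u)
    {U' c' u' : 𝓛} (hU' : U' ∈ D.E) (hU'0 : U' ≠ 0) (hc' : c' ∈ D.L) (hc'0 : c' ≠ 0)
    (hu' : u' ∈ C.𝓥) (heq' : c' * G' * U' ^ p = 1 + D.ϖ ^ m * u') :
    ∃ H' ∈ D.E, H' ≠ 0 ∧ ∃ c'' ∈ D.L, c'' ≠ 0 ∧ ∃ w ∈ C.𝓥,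
      c'' * H' ^ p = 1 + D.ϖ ^ m * w ∧ C.res w = C.Vb (C.res u) - C.res u' :=
  D.T_compare hm hH hH0 hc₀ hc₀0 hrel hU hU0 hc hc0 hu heq hU' hU'0 hc' hc'0 hu' heq'

/-- **23. Case D.**  `G x`, `x` in a finite set, are permuted by `T = V N` up to constants and `p`-th
powers and are `p`-th powers modulo the maximal ideal.  Then they are `1` modulo `ϖ^(p e₀)` up to
constants and `p`-th powers.  Proof by induction on the level `m < p e₀`, with `u_x` the coefficient
of `G x`.  If `p ∣ m`: `V̄(u_x)` is a `p`-th power by 3, so by 22 all `u_{T x}` are, and 19 applies.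
If `p ∤ m`: `V̄(u_x) - u_{T x}` is constant, so `V̄^n(u_x) - u_x` is constant for the order `n` of the
permutation, and `u_x` is constant by 4; then 19.  (H33Local; for Kummer functions: H33CaseD) -/
theorem case_D {W : Type*} [Finite W] (T : W ≃ W) (G H c₀ : W → 𝓛) (hG : ∀ x, G x ∈ D.E)
    (hH : ∀ x, H x ∈ D.E) (hH0 : ∀ x, H x ≠ 0) (hc₀ : ∀ x, c₀ x ∈ D.L) (hc₀0 : ∀ x, c₀ x ≠ 0)
    (hrel : ∀ x, C.V (G x) * C.N (G x) = c₀ x * G (T x) * H x ^ p)
    (h1 : ∀ x, D.Close 1 (G x)) (m : ℕ) (hm : 1 ≤ m) (hm' : m ≤ p * D.e₀) (x : W) :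
    D.Close m (G x) :=
  D.close_all T G H c₀ hG hH hH0 hc₀ hc₀0 hrel h1 m hm hm' x

/-- **24. Case C, the start.**  If `T G` is a `p`-th power times a constant then so is the reduction
`g` of `G` (after multiplication by a power of `ϖ`), because it satisfies `V̄(g) φ(g) = c h^p` and
`V̄(g)` is a `p`-th power; so `Close 1 G` by 20.  (H33Local) -/
theorem case_C_start {G H c₀ : 𝓛} (hG : G ∈ D.E) (hG0 : G ≠ 0) (hH : H ∈ D.E) (hH0 : H ≠ 0)
    (hc₀ : c₀ ∈ D.L) (hrel : C.V G * C.N G = c₀ * H ^ p) : D.Close 1 G :=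
  D.close_one_of_T hG hG0 hH hH0 hc₀ hrel

/-- **25. Case C.**  `e₀ = 1`, `ε ≡ -1`.  If `T G` is a `p`-th power times a constant then `G` is `1`
even modulo `ϖ^(p+1)`, up to constants and `p`-th powers.  Proof: for `m < p` the series `V̄(u)` is
constant by 22 and 16, so `u` is.  For `m = p` one has `V̄(u) = h^p - h + y` by 22 and 17, `y` a
constant; as `V̄(u)` is the `p`-th power of `φ⁻¹(u)`, also `h` is a `p`-th power `b^p`, and
`φ⁻¹(u) = b^p - b + y'`, `y'^p = y`.  So `u = φ(b)^p - φ(b) + y`, which is of the form `ω^p - ω`,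
because the constants are algebraically closed; then 19.  (H33Local; for Kummer functions:
H33CaseC2, where `L` is the field fixed by the elements of inertia which fix `ζ`, and `ϖ = ζ - 1`) -/
theorem case_C {G H c₀ : 𝓛} (he : D.e₀ = 1) (hε : C.res D.ε = -1) (hG : G ∈ D.E) (hG0 : G ≠ 0)
    (hH : H ∈ D.E) (hH0 : H ≠ 0) (hc₀ : c₀ ∈ D.L) (hc₀0 : c₀ ≠ 0)
    (hrel : C.V G * C.N G = c₀ * H ^ p) : D.Close (p + 1) G :=
  D.close_of_T he hε hG hG0 hH hH0 hc₀ hc₀0 hrel

end Disc

/-! ## 5. Level `M p`: case N -/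

/-- **26. The start at level `M p`.**  If a function `f` on `X₀(Mp)`, `p ∤ M`, reduces to a `p`-th
power, then `f U^p = 1 + c u` with a function `U`, `u` integral and a constant `c` of the maximal
ideal.  Proof: the reduction of `f` is a modular function of level `M` modulo `p`, so its `p`-th root
is one (Ordinary, Theorem 14) and can be lifted; and an element of the maximal ideal of the Gauss
ring is divisible by a constant.  (H33Start) -/
theorem start_level_Mp {p : ℕ} [Fact p.Prime] [NeZero p] {M : ℕ} [NeZero M]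
    {A : ValuationSubring Qb} (hA : A.LiesOverPrime p) (hpM : ¬ p ∣ M) (w : H99.AL Qb M p)
    {f : H99.FX Qb (M * p)} {ω : LaurentSeries (IsLocalRing.ResidueField A)}
    (hf : H33.Red A (IsLocalRing.residue A) (f : LaurentSeries Qb) (ω ^ p)) :
    ∃ U ∈ H99.FX Qb (M * p), U ≠ 0 ∧ ∃ c : A, c ≠ 0 ∧ IsLocalRing.residue A c = 0 ∧
      ∃ u ∈ H33.valRing A (IsLocalRing.residue A),
        (f : LaurentSeries Qb) * U ^ p = 1 + H33.cst (c : Qb) * u :=
  H33.exists_start hA hpM w hf

/-- **27. Case N.**  `w` a map of a set to itself, `G x = (B x)^p / N (G (w x))`, all `G x` are `1`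
modulo `μ` up to `p`-th powers in `F`, and `N (1 + μ^i u) ≡ 1` modulo `μ^(i+1)` (theorem 1).  Then the
same congruences hold modulo `μ^i` for all `i`.  Here no discrete valuation is needed.  (H33Local;
for Kummer functions: H33CaseN, where `μ` is a common divisor of `ζ - 1` and of the constants of 26
for the finitely many classes, and a power of `μ` is divisible by `λ^p μ`, because the value group
has rank one; `w` exchanges the two components of the reduction, and Ordinary, Theorem 18 applies) -/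
theorem case_N {𝓛 𝓡 : Type*} [Field 𝓛] [Field 𝓡] {p : ℕ} (C : H33.LocCtx 𝓛 𝓡 p)
    (F : Subfield 𝓛) (hNF : ∀ f ∈ F, C.N f ∈ F) (μ : 𝓛) (hμ : μ ∈ C.𝓥) (hμ0 : C.res μ = 0)
    (hN : ∀ i : ℕ, 0 < i → ∀ u ∈ C.𝓥, ∃ w ∈ C.𝓥, C.N (1 + μ ^ i * u) = 1 + μ ^ (i + 1) * w)
    {W : Type*} (w : W → W) (G B : W → 𝓛) (hB : ∀ x, B x ∈ F) (hB0 : ∀ x, B x ≠ 0)
    (hrel : ∀ x, G x = B x ^ p * (C.N (G (w x)))⁻¹)
    (h1 : ∀ x, ∃ U ∈ F, U ≠ 0 ∧ ∃ u ∈ C.𝓥, G x * U ^ p = 1 + μ * u) (i : ℕ) (hi : 1 ≤ i) (x : W) :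
    ∃ U ∈ F, U ≠ 0 ∧ ∃ u ∈ C.𝓥, G x * U ^ p = 1 + μ ^ i * u :=
  C.close_new F hNF μ hμ hμ0 hN w G B hB hB0 hrel h1 i hi x

/-! ## 6. The classes -/

/-- **28. Descent of Kummer functions** (case C).  A class `x ∈ J₀(M)[p]` fixed by a group `I'` of
automorphisms has a Kummer function with leading coefficient `1` which is fixed by `I'`.  Proof: let
`G` be a Kummer function with leading coefficient `1`.  For `τ ∈ I'` one has `τ G = G h_τ^p` with a
unique `h_τ` of leading coefficient `1`, so `τ ↦ h_τ` is a cocycle; it is trivial on the subgroup of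
finite index which fixes `G`.  The sum `B` of the `h_τ` over the cosets satisfies `τ(B) h_τ = B`, and
it is not zero, since its constant coefficient is the number of cosets; so `G B^p` is fixed by `I'`.
Divide it by its leading coefficient.  (H33CaseC) -/
theorem fixed_kummer_function {p : ℕ} [Fact p.Prime] [NeZero p] {M : ℕ} [NeZero M] {ζ : Qb}
    (hζ : IsPrimitiveRoot ζ p) {x : JZero M} (hpx : p • x = 0) (I' : Subgroup Gq)
    (hI' : ∀ τ ∈ I', τ • x = x) :
    ∃ G : H99.FX Qb M, H33.IsKum p x G ∧ (G : LaurentSeries Qb).leadingCoeff = 1 ∧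
      ∀ τ ∈ I', coeffMap (τ : Qb →+* Qb) (G : LaurentSeries Qb) = G :=
  H33.exists_fixed_kummer hζ hpx I' hI'

/-- **29. Inertia coinvariants.**  `ρ` a representation over a local ring `T` with space `V`, `K` a
field with a map `T → K`.  If `K ⊗ V` has no nonzero quotient on which inertia at `A` acts trivially,
then `t V` is contained in the span `diffSub ρ A` of the `σ v - v`, `σ` in inertia, for some `t ∈ T`
not in the kernel `I`; and if `T` is finite over the discrete valuation ring `𝒪`, then `c t ≡ p^m`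
modulo the kernel for some `c`, `m`.  So for an equivariant map `h : V → T_p J₀(N)` which kills `I V`
(`IsRealHom ρ I h`), `p^m h(v)` is a sum of elements `σ y - y`, and the Kummer functions of the image
of `h(v)` in `J₀(N)[p]` reduce to `p`-th powers (Ordinary, Theorem 13).  (H33Coinv, H33Delta,
H33Main) -/
theorem coinvariants {T : Type} [CommRing T] [IsLocalRing T] (ρ : GaloisRepAdic T)
    (A : ValuationSubring Qb) {K : Type} [Field K] [Algebra T K]
    (hno : ¬ ∃ (W : Type) (_ : AddCommGroup W) (_ : Module K W) (f : K ⊗[T] ρ.V →ₗ[K] W),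
      f ≠ 0 ∧ ∀ σ ∈ A.inertiaSubgroupIn ℚ, ∀ v, f ((ρ.ρ σ).baseChange K v) = f v) :
    (∃ t : T, algebraMap T K t ≠ 0 ∧ ∀ v, t • v ∈ H33.diffSub ρ A) ∧
    (∀ {𝒪 : Type} [CommRing 𝒪] [IsDomain 𝒪] [IsDiscreteValuationRing 𝒪] [Algebra 𝒪 T]
      [Module.Finite 𝒪 T] [Algebra 𝒪 K] [FaithfulSMul 𝒪 K] {p : ℕ},
      (p : 𝒪) ∈ IsLocalRing.maximalIdeal 𝒪 → ∀ (ψ : T →ₐ[𝒪] K) {t : T}, ψ t ≠ 0 →
        ∃ (m : ℕ) (c : T), ψ (c * t - (p : T) ^ m) = 0) ∧
    ∀ {p : ℕ} [Fact p.Prime] [NeZero p] {N : ℕ} [NeZero N] {I : Ideal T}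
      {h : ρ.V →+ H30.TateMod p (JZero N)}, H33.IsRealHom ρ I h → A.LiesOverPrime p →
      ∀ {m : ℕ} {c : T}, c - (p : T) ^ m ∈ I → (∀ v, c • v ∈ H33.diffSub ρ A) → ∀ (v : ρ.V)
        (f : H99.FX Qb N), H33.IsKum p (H30.TateMod.proj 1 (h v)) f →
          ∃ ω, H33.Red A (IsLocalRing.residue A) (f : LaurentSeries Qb) (ω ^ p) :=
  ⟨H33.exists_smul_mem_diffSub ρ A hno, fun hp ψ _ ht => H33.exists_mul_sub_pow hp ψ ht,
    fun hh hA _ _ hc hD v f hf => (hh.good hA hc hD v).2 f hf⟩

/-- **30. The alternative between the cases C and D.**  `I` an ideal of `T`, `barSet` the finite set of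
the reductions modulo `p` of the equivariant maps `V → T_p J` which kill `I V`, `valSet ⊆ J[p]` the
set of their values.  For an equivariant endomorphism `f` of `J` (here `T_p` on `J₀(M)`) either `f`
kills a nonzero element of `barSet` (case C), or `f` permutes `valSet` (case D): composition with `f`
maps the finite group `barSet` to itself, and it is injective or not.  (H33Main) -/
theorem permutation_or_kernel {T : Type} [CommRing T] [IsLocalRing T] {ρ : GaloisRepAdic T}
    {I : Ideal T} {p : ℕ} [Fact p.Prime] {J : Type*} [AddCommGroup J] [DistribMulAction Gq J]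
    (hJ : {x : J | p • x = 0}.Finite)
    (hQ : Finite (ρ.V ⧸ (Ideal.span {(p : T)} • (⊤ : Submodule T ρ.V))))
    (f : J →+ J) (hf : ∀ (σ : Gq) (x : J), f (σ • x) = σ • f x) :
    (∃ s ∈ H33.barSet ρ I p J, s ≠ 0 ∧ ∀ v, f (s v) = 0) ∨
    ∃ TW : H33.valSet ρ I p J ≃ H33.valSet ρ I p J, ∀ x, (TW x : J) = f x :=
  H33.perm_or_kernel hJ hQ f hf

end Fermat.Agent.Guide.OrdinaryLocal
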