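import Fermat.Agent.H18DOut

/-!
# Reader's guide: block (D) of S47, companion: the finite part of the explicit form

**Statement served:** S47, block (D).  Companion of `GuideOctD` (section 4 there: coordinates, the
function `FF`, its properties) and of `GuideSemilocal` (types, extension to the whole space).  This
file contains the details of the finite part.  Every library theorem cited below is used in the
proof of S47.  In prose: NOTES-S47-D4, note [453].

**What is proved here.**  `E` is a number field, `S` a finite set of finite places of `E`, and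
`X_f = XF L` the restricted product, over the places `w ∉ S`, of the coset spaces
`PGL₂(E) / U0 w`, where `U0 w` is the image of `GL₂` of the ring `O_w` of the elements of `E` which
are integral at `w` (the vertices of the tree of `PGL₂` at `w`).  No completion and no adele is
used.  The finite part of the form of block (D) is a function `kap` on `X_f`, the product over
`w ∉ S` of the spherical Whittaker functions, and the whole proof of its properties is a
computation in the coordinates given by the Iwasawa decomposition: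

1. local coordinates: `g ∈ (a u; 0 1) · U0 w` (`exists_local_coordinates` to
   `diagonal_exponent`);
2. the additive character outside `S` (`character_product_formula` to `character_at_one_place`);
3. global coordinates `(e, u)` of a point of `X_f` (`isCo_iff` to `coordinates_base`);
4. fractional ideals and exponents (`ideal_of_exponents` to `principal_ideal`);
5. the function `kap` (`kap_eq` to `kap_base`) and the coefficients of the form
   (`coefficient_eq` to `coefficient_recursion`);
6. the Hecke relation (`neighbours`, `orthogonality`, `neighbour_up`, `neighbour_down`,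
   `kap_hecke`);
7. lower unipotent elements in coordinates: the relation of lattices which is the input of the
   theta kernel (`integral_column`, `local_relation`, `lattice_relation`);
8. the function `FF` on `(J → ℍ³) × X_f` as a Fourier series: absolute convergence, independence of
   the coordinates, the Fourier expansion, the element `diag(t, 1)` and translations on one term
   (`FF_eq` to `fourier_expansion`), and the result of the finite part (`norm_character_le`,
   `outer`).

**Conventions.**  `w.valuation E x ≤ exp (-n)` says that `x` has order at least `n` at `w`.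
`H18D.bP a u` is the class of the matrix `(a u; 0 1)` in `PGL₂(E)`; `(borP E).n b` and
`(borP E).d a` are the classes of `(1 b; 0 1)` and `(a 0; 0 1)`.  `XF.upd y w x` is the point `y`
with the component at `w` replaced by `x`.  `psi w` is the standard additive character of `E`
attached to the place `w` (trivial on the elements integral at `w`), `ee r = exp(2πi r)`.
-/

set_option autoImplicit false

noncomputable section

namespace Fermat.Agent.Guide.OuterSpace

open IsDedekindDomain HeightOneSpectrum WithZero NumberField FractionalIdeal Matrix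
open scoped nonZeroDivisors MatrixGroups
open Fermat.Agent Fermat.Agent.H59XF
open Fermat.Agent.H7.Z (psi ee borP Unram)

/-! ## 1. Local coordinates -/

/-- **Iwasawa decomposition at one place.**  Every `g ∈ PGL₂(E)` is `(a u; 0 1)` times an element of
`U0 w`, with `a ∈ Eˣ` and `u ∈ E`.  (The library writes `H18D.Co w g u a` for this relation.)
Proved in `H18DLoc`. -/
theorem exists_local_coordinates (E : Type) [Field E] [NumberField E] (w : HeightOneSpectrum (𝓞 E))
    (g : PGL(2, E)) :
    ∃ (u : E) (a : Eˣ), (H18D.bP a u)⁻¹ * g ∈ (H59D.U0 w : Subgroup PGL(2, E)) :=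
  H18D.exists_co w g

/-- **Which upper triangular elements are integral.**  `(a b; 0 1)` is in `U0 w` if and only if `a` is
a unit at `w` and `b` is integral at `w`.  Proved in `H18DLoc`. -/
theorem upper_triangular_mem (E : Type) [Field E] [NumberField E] (w : HeightOneSpectrum (𝓞 E))
    (a : Eˣ) (b : E) :
    H18D.bP a b ∈ (H59D.U0 w : Subgroup PGL(2, E)) ↔
      w.valuation E (a : E) = 1 ∧ w.valuation E b ≤ 1 :=
  H18D.bP_mem_U0

/-- **Uniqueness of the local coordinates.**  If `g` has the coordinates `(a, u)` and `(a', u')` at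
`w`, then `a` and `a'` have the same order and `u' - u` has at least this order: the coordinates
are an order `e ∈ ℤ` and a class `u ∈ E / w ^ e`.  Proved in `H18DLoc`. -/
theorem local_coordinates_unique (E : Type) [Field E] [NumberField E] (w : HeightOneSpectrum (𝓞 E))
    (g : PGL(2, E)) (u u' : E) (a a' : Eˣ)
    (h : (H18D.bP a u)⁻¹ * g ∈ (H59D.U0 w : Subgroup PGL(2, E)))
    (h' : (H18D.bP a' u')⁻¹ * g ∈ (H59D.U0 w : Subgroup PGL(2, E))) :
    w.valuation E (a : E) = w.valuation E (a' : E) ∧
      w.valuation E (u' - u) ≤ w.valuation E (a : E) :=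
  H18D.Co.unique h h'

/-- **Change of the local coordinates.**  `u` may be replaced by any `u'` with `u' - u` of order at
least the order of `a`.  Proved in `H18DLoc`. -/
theorem local_coordinates_change (E : Type) [Field E] [NumberField E] (w : HeightOneSpectrum (𝓞 E))
    (g : PGL(2, E)) (u u' : E) (a : Eˣ)
    (h : (H18D.bP a u)⁻¹ * g ∈ (H59D.U0 w : Subgroup PGL(2, E)))
    (hu : w.valuation E (u' - u) ≤ w.valuation E (a : E)) :
    (H18D.bP a u')⁻¹ * g ∈ (H59D.U0 w : Subgroup PGL(2, E)) :=
  H18D.Co.change h hu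

/-- **Borel elements in local coordinates.**  `(c b; 0 1)` maps the point with coordinates `(a, u)` to
the one with coordinates `(c a, c u + b)`.  Proved in `H18DLoc`. -/
theorem local_coordinates_smul (E : Type) [Field E] [NumberField E] (w : HeightOneSpectrum (𝓞 E))
    (g : PGL(2, E)) (u : E) (a : Eˣ)
    (h : (H18D.bP a u)⁻¹ * g ∈ (H59D.U0 w : Subgroup PGL(2, E))) (c : Eˣ) (b : E) :
    (H18D.bP (c * a) (c * u + b))⁻¹ * (H18D.bP c b * g) ∈ (H59D.U0 w : Subgroup PGL(2, E)) :=
  H18D.Co.smul h c b

/-- **The exponent.**  `exG w g` is the order at `w` of the coordinate `a` of `g`; for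
`g = (a u; 0 1)` it is the order of `a`.  Proved in `H18DLoc`. -/
theorem diagonal_exponent (E : Type) [Field E] [NumberField E] (w : HeightOneSpectrum (𝓞 E)) :
    (∀ (g : PGL(2, E)) (u : E) (a : Eˣ),
      (H18D.bP a u)⁻¹ * g ∈ (H59D.U0 w : Subgroup PGL(2, E)) →
        w.valuation E (a : E) = exp (-H18D.exG w g)) ∧
    ∀ (a : Eˣ) (u : E), H18D.exG w (H18D.bP a u) = -log (w.valuation E (a : E)) :=
  ⟨fun _ _ _ h => H18D.Co.val_eq h, H18D.exG_bP w⟩

/-! ## 2. The additive character outside `S` -/

/-- **Product formula.**  `psS S b = ee(-tr b) ∏_{w ∈ S} psi w (b)⁻¹` plays the role of the component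
outside `S` of the additive character of the adeles; it is trivial on the elements of `E` which are
integral outside `S`.  Proved in `H18DKap` from `H7.Z.prod_psi`. -/
theorem character_product_formula (E : Type) [Field E] [NumberField E]
    (S : Finset (HeightOneSpectrum (𝓞 E))) (b : E) :
    H18D.psS S b = ee (-Algebra.trace ℚ E b) * (∏ w ∈ S, psi w b)⁻¹ ∧
      ((∀ w ∉ S, w.valuation E b ≤ 1) → H18D.psS S b = 1) :=
  ⟨rfl, fun h => H18D.psS_of_out h⟩

/-- **The character `psS` on elements integral at `S`** is `ee(-tr b)`, because `psi w` is trivial on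
elements integral at `w`.  Proved in `H18DKap`. -/
theorem character_integral_at_S (E : Type) [Field E] [NumberField E]
    (S : Finset (HeightOneSpectrum (𝓞 E))) (b : E) (h : ∀ w ∈ S, w.valuation E b ≤ 1) :
    H18D.psS S b = ee (-Algebra.trace ℚ E b) :=
  H18D.psS_of_in h

/-- **The character `psS` at one place.**  If `b` is integral at all places different from `w ∉ S`,
then `psS S b = psi w b`.  Proved in `H18DKap`. -/
theorem character_at_one_place (E : Type) [Field E] [NumberField E]
    (S : Finset (HeightOneSpectrum (𝓞 E))) (w : HeightOneSpectrum (𝓞 E)) (hw : w ∉ S) (b : E)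
    (h : ∀ v : HeightOneSpectrum (𝓞 E), v ≠ w → v.valuation E b ≤ 1) :
    H18D.psS S b = psi w b :=
  H18D.psS_eq_psi hw h

/-! ## 3. Global coordinates -/

/-- **Coordinates of a point of `X_f`** (definition).  `IsCo y e u`: the exponents `e w ∈ ℤ` are zero
at `S`, and for every `w ∉ S` the component `y_w` is the class of `(t u; 0 1)` for every `t` of
order `e w` at `w`.  One element `u ∈ E` serves all places at once.  That coordinates exist is
`GuideOctD.exists_coordinates`.  Definition in `H18DKap`. -/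
theorem isCo_iff (E : Type) [Field E] [NumberField E] (S : Finset (HeightOneSpectrum (𝓞 E)))
    (L : LevelFam PGL(2, E) {w : HeightOneSpectrum (𝓞 E) // w ∉ S}) (y : XF L)
    (e : HeightOneSpectrum (𝓞 E) → ℤ) (u : E) :
    H18D.IsCo y e u ↔ (∀ w ∈ S, e w = 0) ∧
      ∀ (w : HeightOneSpectrum (𝓞 E)) (hw : w ∉ S) (t : Eˣ),
        w.valuation E (t : E) = exp (-e w) →
          y ⟨w, hw⟩ = ((H18D.bP t u : PGL(2, E)) : PGL(2, E) ⧸ L.U ⟨w, hw⟩) :=
  ⟨fun h => ⟨h.zero, h.eq⟩, fun h => ⟨h.1, h.2⟩⟩

/-- **Uniqueness and finiteness.**  The exponents of `y` are unique, `u` is unique modulo `w ^ (e w)`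
at every `w ∉ S`, and almost all exponents are zero (because `y` has almost all components equal
to the base vertex).  Proved in `H18DKap`. -/
theorem coordinates_unique (E : Type) [Field E] [NumberField E]
    (S : Finset (HeightOneSpectrum (𝓞 E)))
    (L : LevelFam PGL(2, E) {w : HeightOneSpectrum (𝓞 E) // w ∉ S})
    (hL : ∀ w, L.U w = H59D.U0 w.1) (y : XF L) (e e' : HeightOneSpectrum (𝓞 E) → ℤ) (u u' : E)
    (h : H18D.IsCo y e u) (h' : H18D.IsCo y e' u') :
    e = e' ∧ (∀ w ∉ S, w.valuation E (u' - u) ≤ exp (-e w)) ∧ {w | e w ≠ 0}.Finite :=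
  ⟨(h.unique hL h').1, (h.unique hL h').2, H18D.isCo_fin hL h⟩

/-- **The Borel subgroup in coordinates.**  `(c b; 0 1)` maps the point with coordinates `(e, u)` to the
point with coordinates `(e + ord c, c u + b)`.  Here `ordS S c w` is the order of `c` at `w ∉ S`,
and `0` for `w ∈ S`.  Proved in `H18DKap`. -/
theorem coordinates_smul (E : Type) [Field E] [NumberField E]
    (S : Finset (HeightOneSpectrum (𝓞 E)))
    (L : LevelFam PGL(2, E) {w : HeightOneSpectrum (𝓞 E) // w ∉ S})
    (hL : ∀ w, L.U w = H59D.U0 w.1) (y : XF L) (e : HeightOneSpectrum (𝓞 E) → ℤ) (u : E)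
    (h : H18D.IsCo y e u) (c : Eˣ) (b : E) :
    H18D.IsCo (H18D.bP c b • y) (e + H18D.ordS S c) (c * u + b) ∧
      (∀ w ∈ S, H18D.ordS S c w = 0) ∧
      ∀ w ∉ S, w.valuation E (c : E) = exp (-H18D.ordS S c w) :=
  ⟨h.smul hL c b, fun _ hw => H18D.ordS_mem c hw, fun _ hw => H18D.val_ordS c hw⟩

/-- **The base point** has the coordinates `(0, 0)`.  Proved in `H18DKap`. -/
theorem coordinates_base (E : Type) [Field E] [NumberField E]
    (S : Finset (HeightOneSpectrum (𝓞 E)))
    (L : LevelFam PGL(2, E) {w : HeightOneSpectrum (𝓞 E) // w ∉ S})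
    (hL : ∀ w, L.U w = H59D.U0 w.1) :
    H18D.IsCo (XF.base L) (0 : HeightOneSpectrum (𝓞 E) → ℤ) (0 : E) :=
  H18D.isCo_base hL

/-! ## 4. Ideals and exponents -/

/-- **The ideal with given exponents**: `idl e = ∏ w ^ (e w)`; it has order `e w` at `w` if almost all
`e w` are zero, and `idl (e + e') = idl e · idl e'`.  Proved in `H18DIdl`. -/
theorem ideal_of_exponents (E : Type) [Field E] [NumberField E]
    (e e' : HeightOneSpectrum (𝓞 E) → ℤ) (he : {w | e w ≠ 0}.Finite)
    (he' : {w | e' w ≠ 0}.Finite) :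
    H18D.idl e = ∏ᶠ w : HeightOneSpectrum (𝓞 E),
        (w.asIdeal : FractionalIdeal (𝓞 E)⁰ E) ^ (e w) ∧
      H18D.idl (e + e') = H18D.idl e * H18D.idl e' ∧
      ∀ w, count E w (H18D.idl e) = e w :=
  ⟨rfl, H18D.idl_add he he', H18D.count_idl he⟩

/-- **Principal ideals.**  If `x ∈ Eˣ` is a unit at `S`, then the ideal with the exponents of `x`
outside `S` is the principal fractional ideal of `x`; in general the order of this ideal at `v` is
the order of `x`.  Proved in `H18DSpan`. -/
theorem principal_ideal (E : Type) [Field E] [NumberField E]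
    (S : Finset (HeightOneSpectrum (𝓞 E))) (x : Eˣ) :
    ((∀ w ∈ S, w.valuation E (x : E) = 1) →
      spanSingleton (𝓞 E)⁰ (x : E) = H18D.idl (H18D.ordS S x)) ∧
    ∀ v : HeightOneSpectrum (𝓞 E),
      count E v (spanSingleton (𝓞 E)⁰ (x : E)) = -log (v.valuation E (x : E)) :=
  ⟨fun h => H18D.span_eq_idl h, fun v => H18D.count_span v x.ne_zero⟩

/-! ## 5. The function `kap` and the coefficients -/

/-- **The finite Whittaker function.**  Let `kc` be a function of the exponents which is zero if some
exponent is negative.  Then `kap kc y = psS S u · kc e` for all coordinates `(e, u)` of `y`: the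
value does not depend on the choice, since for `e ≥ 0` another `u'` differs from `u` by an element
integral outside `S`.  Proved in `H18DKap`. -/
theorem kap_eq (E : Type) [Field E] [NumberField E] (S : Finset (HeightOneSpectrum (𝓞 E)))
    (L : LevelFam PGL(2, E) {w : HeightOneSpectrum (𝓞 E) // w ∉ S})
    (hL : ∀ w, L.U w = H59D.U0 w.1) (kc : (HeightOneSpectrum (𝓞 E) → ℤ) → ℂ)
    (hneg : ∀ e, (∃ w ∉ S, e w < 0) → kc e = 0) (y : XF L) (e : HeightOneSpectrum (𝓞 E) → ℤ)
    (u : E) (h : H18D.IsCo y e u) : H18D.kap kc y = H18D.psS S u * kc e :=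
  H18D.kap_eq hL hneg h

/-- **Translations and the base point.**  `kap` is multiplied by `psS S b` under `(1 b; 0 1)`, and its
value at the base point is `kc 0`.  Proved in `H18DKap`. -/
theorem kap_base (E : Type) [Field E] [NumberField E] (S : Finset (HeightOneSpectrum (𝓞 E)))
    (L : LevelFam PGL(2, E) {w : HeightOneSpectrum (𝓞 E) // w ∉ S})
    (hL : ∀ w, L.U w = H59D.U0 w.1) (kc : (HeightOneSpectrum (𝓞 E) → ℤ) → ℂ)
    (hneg : ∀ e, (∃ w ∉ S, e w < 0) → kc e = 0) :
    (∀ (b : E) (y : XF L), H18D.kap kc ((borP E).n b • y) = H18D.psS S b * H18D.kap kc y) ∧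
      H18D.kap kc (XF.base L) = kc 0 :=
  ⟨H18D.kap_n hL hneg, H18D.kap_base hL hneg⟩

/-- **The coefficients.**  `kcf χ e = N(𝔞)^(-1/2) c_χ(𝔞)` for the ideal `𝔞 = idl e`, where
`c_χ(𝔞) = cf χ 𝔞` is the sum of `χ(I)` over the integral ideals `I` of `B` with relative norm `𝔞`
(zero if `𝔞` is not integral); `nrm` is the absolute norm.  It is zero if some exponent is
negative, and one for `e = 0`.  Proved in `H18DIdl`. -/
theorem coefficient_eq (E B : Type) [Field E] [NumberField E] [Field B] [NumberField B]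
    [Algebra E B] (χ : Ideal (𝓞 B) →*₀ ℂ) :
    (∀ e : HeightOneSpectrum (𝓞 E) → ℤ, {w | e w ≠ 0}.Finite →
      H18D.kcf χ e =
        ((Real.sqrt (H18D.nrm (H18D.idl e)))⁻¹ : ℝ) * H33D.cf χ (H18D.idl e)) ∧
    (∀ (e : HeightOneSpectrum (𝓞 E) → ℤ) (w : HeightOneSpectrum (𝓞 E)), e w < 0 →
      H18D.kcf χ e = 0) ∧
    H18D.kcf χ (0 : HeightOneSpectrum (𝓞 E) → ℤ) = 1 :=
  ⟨fun _ h => H18D.kcf_eq χ h, fun _ _ h => H18D.kcf_neg χ h, H18D.kcf_zero χ⟩

open Classical in
/-- **The recursion of the coefficients.**  If `χ` is good at `w` with the number `a`, i.e.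
`c_χ(w 𝔫) = a c_χ(𝔫) - c_χ(w⁻¹ 𝔫)` for integral ideals `𝔫`, then for `e w ≥ 0` and `q = N w`
`q · kcf (e + 1_w) + kcf (e - 1_w) = q^(1/2) a · kcf e`.  Proved in `H18DIdl`. -/
theorem coefficient_recursion (E B : Type) [Field E] [NumberField E] [Field B] [NumberField B]
    [Algebra E B] (χ : Ideal (𝓞 B) →*₀ ℂ) (w : HeightOneSpectrum (𝓞 E)) (a : ℂ)
    (h : H33D.IsGoodFor χ w.asIdeal a) (e : HeightOneSpectrum (𝓞 E) → ℤ)
    (hfin : {w | e w ≠ 0}.Finite) (hw : 0 ≤ e w) :
    (Ideal.absNorm w.asIdeal : ℂ) * H18D.kcf χ (e + Pi.single w 1) +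
        H18D.kcf χ (e - Pi.single w 1) =
      ((Real.sqrt (Ideal.absNorm w.asIdeal) : ℝ) : ℂ) * a * H18D.kcf χ e :=
  H18D.kcf_rec h hfin hw

/-! ## 6. The Hecke relation -/

/-- **The neighbours of a vertex.**  `R` is a system of representatives of the residue field at `w`
(`IsReps v 1 R`), `ϖ` a uniformiser.  The `q + 1` neighbours of the vertex of `g` are
`g (ϖ b; 0 1)`, `b ∈ R`, and `g (ϖ 0; 0 1)⁻¹`; the sum of a function over them depends on the
vertex only, not on `g`.  Proved in `H18DHec` from the coset decomposition of the double coset of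
`(ϖ 0; 0 1)` (`H51Z`). -/
theorem neighbours (E : Type) [Field E] [NumberField E] (w : HeightOneSpectrum (𝓞 E))
    (U : Subgroup PGL(2, E)) (hU : U = H51Z.U0 (w.valuation E)) (ϖ : Eˣ)
    (hϖ : w.valuation E (ϖ : E) = exp (-1 : ℤ)) (R : Finset E)
    (hR : H51Z.IsReps (w.valuation E) 1 R) (F : PGL(2, E) ⧸ U → ℂ) (g g' : PGL(2, E))
    (h : (g : PGL(2, E) ⧸ U) = (g' : PGL(2, E) ⧸ U)) :
    ∑ b ∈ R, F ((g * (borP E).n b * (borP E).d ϖ : PGL(2, E)) : PGL(2, E) ⧸ U) +
        F ((g * ((borP E).d ϖ)⁻¹ : PGL(2, E)) : PGL(2, E) ⧸ U) =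
      ∑ b ∈ R, F ((g' * (borP E).n b * (borP E).d ϖ : PGL(2, E)) : PGL(2, E) ⧸ U) +
        F ((g' * ((borP E).d ϖ)⁻¹ : PGL(2, E)) : PGL(2, E) ⧸ U) :=
  H18D.nb_sum_congr hU hϖ hR F h

/-- **The number of representatives** of the residue field at `w` is the absolute norm of `w`.
Proved in `H64D1`. -/
theorem card_representatives (E : Type) [Field E] [NumberField E] (w : HeightOneSpectrum (𝓞 E))
    (R : Finset E) (hR : H51Z.IsReps (w.valuation E) 1 R) :
    R.card = Ideal.absNorm w.asIdeal :=
  H64D.card_isReps w hR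

/-- **Orthogonality.**  If `psi w` has conductor `O_w` (`Unram w`: an element `z` with `psi w`
trivial on `z O_w` is integral at `w`) and `a` has a simple pole at `w`, then
`∑_{b ∈ R} psi w (a b) = 0`.  Proved in `H18DHec`. -/
theorem orthogonality (E : Type) [Field E] [NumberField E] (w : HeightOneSpectrum (𝓞 E))
    (hu : Unram w) (R : Finset E) (hR : H51Z.IsReps (w.valuation E) 1 R) (a : E)
    (ha : w.valuation E a = exp (1 : ℤ)) : ∑ b ∈ R, psi w (a * b) = 0 :=
  H18D.sum_psi_eq_zero hu hR ha

open Classical in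
/-- **Coordinates of the `q` neighbours.**  Let `y` have the coordinates `(e, u)` and `t` order `e w` at
`w`.  The neighbour `(t u; 0 1) (ϖ b; 0 1)` at `w` has the coordinates `(e + 1_w, u + β)`, where
`β ∈ E` is close to `t b` at `w` and close to `0` at the other places.  Proved in `H18DHec`. -/
theorem neighbour_up (E : Type) [Field E] [NumberField E] (S : Finset (HeightOneSpectrum (𝓞 E)))
    (L : LevelFam PGL(2, E) {w : HeightOneSpectrum (𝓞 E) // w ∉ S})
    (hL : ∀ w, L.U w = H59D.U0 w.1) (y : XF L) (e : HeightOneSpectrum (𝓞 E) → ℤ) (u : E)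
    (h : H18D.IsCo y e u) (w : HeightOneSpectrum (𝓞 E)) (hw : w ∉ S) (t ϖ : Eˣ)
    (ht : w.valuation E (t : E) = exp (-e w)) (hϖ : w.valuation E (ϖ : E) = exp (-1 : ℤ))
    (b β : E) (hβw : w.valuation E (β - t * b) ≤ exp (-(e w + 1)))
    (hβ : ∀ v ∉ S, v ≠ w → v.valuation E β ≤ exp (-e v)) :
    H18D.IsCo (XF.upd y ⟨w, hw⟩ ((H18D.bP (t * ϖ) (t * b + u) : PGL(2, E)) :
      PGL(2, E) ⧸ L.U ⟨w, hw⟩)) (e + Pi.single w 1) (u + β) :=
  h.upd_up hL hw ht hϖ hβw hβ

open Classical in
/-- **Coordinates of the last neighbour**: `(t u; 0 1) (ϖ 0; 0 1)⁻¹` has the coordinates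
`(e - 1_w, u)`.  Proved in `H18DHec`. -/
theorem neighbour_down (E : Type) [Field E] [NumberField E] (S : Finset (HeightOneSpectrum (𝓞 E)))
    (L : LevelFam PGL(2, E) {w : HeightOneSpectrum (𝓞 E) // w ∉ S})
    (hL : ∀ w, L.U w = H59D.U0 w.1) (y : XF L) (e : HeightOneSpectrum (𝓞 E) → ℤ) (u : E)
    (h : H18D.IsCo y e u) (w : HeightOneSpectrum (𝓞 E)) (hw : w ∉ S) (t ϖ : Eˣ)
    (ht : w.valuation E (t : E) = exp (-e w)) (hϖ : w.valuation E (ϖ : E) = exp (-1 : ℤ)) :
    H18D.IsCo (XF.upd y ⟨w, hw⟩ ((H18D.bP (t * ϖ⁻¹) u : PGL(2, E)) : PGL(2, E) ⧸ L.U ⟨w, hw⟩))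
      (e - Pi.single w 1) u :=
  h.upd_down hL hw ht hϖ

open Classical in
/-- **The Hecke relation of the finite Whittaker function.**  If `psi w` has conductor `O_w` and `kc`
satisfies `q kc(e + 1_w) + kc(e - 1_w) = lam kc(e)` for `e ≥ 0`, then the sum of the values of `kap kc`
at the `q + 1` neighbours of `y` at `w` is `lam` times its value at `y`.  For `e w ≥ 0` the `q` first
terms are equal; for `e w = -1` their sum vanishes by `orthogonality`, and for `e w < -1` all terms
are zero.  (If the exponent of `y` at another place outside `S` is negative, both sides are zero.)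
Proved in `H18DHec`. -/
theorem kap_hecke (E : Type) [Field E] [NumberField E] (S : Finset (HeightOneSpectrum (𝓞 E)))
    (L : LevelFam PGL(2, E) {w : HeightOneSpectrum (𝓞 E) // w ∉ S})
    (hL : ∀ w, L.U w = H59D.U0 w.1) (kc : (HeightOneSpectrum (𝓞 E) → ℤ) → ℂ)
    (hneg : ∀ e, (∃ w ∉ S, e w < 0) → kc e = 0) (w : HeightOneSpectrum (𝓞 E)) (hw : w ∉ S)
    (hu : Unram w) (ϖ : Eˣ) (hϖ : w.valuation E (ϖ : E) = exp (-1 : ℤ)) (R : Finset E)
    (hR : H51Z.IsReps (w.valuation E) 1 R) (lam : ℂ)
    (hrec : ∀ e : HeightOneSpectrum (𝓞 E) → ℤ, (∀ v ∈ S, e v = 0) → (∀ v ∉ S, 0 ≤ e v) →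
      {v | e v ≠ 0}.Finite →
      (R.card : ℂ) * kc (e + Pi.single w 1) + kc (e - Pi.single w 1) = lam * kc e)
    (y : XF L) (g : PGL(2, E)) (hg : y ⟨w, hw⟩ = (g : PGL(2, E) ⧸ L.U ⟨w, hw⟩)) :
    lam * H18D.kap kc y =
      ∑ b ∈ R, H18D.kap kc (XF.upd y ⟨w, hw⟩
        ((g * (borP E).n b * (borP E).d ϖ : PGL(2, E)) : PGL(2, E) ⧸ L.U ⟨w, hw⟩)) +
      H18D.kap kc (XF.upd y ⟨w, hw⟩
        ((g * ((borP E).d ϖ)⁻¹ : PGL(2, E)) : PGL(2, E) ⧸ L.U ⟨w, hw⟩)) :=
  H18D.kap_hecke hL hneg hw hu hϖ hR hrec y g hg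

/-! ## 7. Lower unipotent elements in coordinates -/

/-- **Integral columns.**  A matrix `(a b; c d)` which is integral with unit determinant for a
valuation `v` maps integral columns to integral columns, and only these.  Proved in `H99D1`. -/
theorem integral_column (E : Type) [Field E] [NumberField E] (w : HeightOneSpectrum (𝓞 E))
    (a b c d α β α' β' : E) (ha : w.valuation E a ≤ 1) (hb : w.valuation E b ≤ 1)
    (hc : w.valuation E c ≤ 1) (hd : w.valuation E d ≤ 1)
    (hdet : w.valuation E (a * d - b * c) = 1) (hα : α' = a * α + b * β)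
    (hβ : β' = c * α + d * β) :
    (w.valuation E β ≤ 1 ∧ w.valuation E α ≤ 1) ↔ (w.valuation E β' ≤ 1 ∧ w.valuation E α' ≤ 1) :=
  H99D.int_iff (w.valuation E) ha hb hc hd hdet hα hβ

/-- **The relation of local lattices.**  The point `(t u; 0 1)` corresponds to the lattice
`{(x, z) : z integral, x - u z ∈ t O_w}` up to a scalar.  If `(1 0; c 1)` maps the point with
coordinates `(t, u)` to the one with coordinates `(t₁, u₁)`, then it maps the lattice of `(t, u)` to
`s` times the lattice of `(t₁, u₁)` for a scalar `s` with `ord t = 2 ord s + ord t₁`.  Proved in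
`H99D1`. -/
theorem local_relation (E : Type) [Field E] [NumberField E] (w : HeightOneSpectrum (𝓞 E))
    (g : PGL(2, E)) (t t₁ : Eˣ) (u u₁ c : E)
    (h : (H18D.bP t u)⁻¹ * g ∈ (H59D.U0 w : Subgroup PGL(2, E)))
    (h₁ : (H18D.bP t₁ u₁)⁻¹ * (ProjGenLinGroup.mk (H76U.lM c) * g) ∈
      (H59D.U0 w : Subgroup PGL(2, E))) :
    ∃ s : Eˣ, w.valuation E (t : E) = w.valuation E (s : E) ^ 2 * w.valuation E (t₁ : E) ∧
      ∀ x z : E, (w.valuation E z ≤ 1 ∧ w.valuation E (x - u * z) ≤ w.valuation E (t : E)) ↔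
        (w.valuation E (c * x + z) ≤ w.valuation E (s : E) ∧
          w.valuation E (x - u₁ * (c * x + z)) ≤
            w.valuation E (s : E) * w.valuation E (t₁ : E)) :=
  H99D.loc_rel h h₁

/-- **The relation of lattices.**  If `y` has the coordinates `(e, u)` and `(1 0; c 1) y` the
coordinates `(e₁, u₁)`, then there are exponents `d` (the scalars of `local_relation`), almost all
zero, with `e₁ = e - 2 d`, such that `(1 0; c 1)` maps the lattice of `(e, u)` outside `S` to the
one given by the ideals with exponents `e₁ + d`, `d` and by `u₁`.  This is the relation `REL` which is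
the hypothesis of the invariance of the theta kernel (`GuideOctDTheta.lattice_notions`).  Proved in
`H99D1`. -/
theorem lattice_relation (E : Type) [Field E] [NumberField E]
    (S : Finset (HeightOneSpectrum (𝓞 E)))
    (L : LevelFam PGL(2, E) {w : HeightOneSpectrum (𝓞 E) // w ∉ S})
    (hL : ∀ w, L.U w = H59D.U0 w.1) (y : XF L) (e e₁ : HeightOneSpectrum (𝓞 E) → ℤ)
    (u u₁ c : E) (h : H18D.IsCo y e u)
    (h₁ : H18D.IsCo ((ProjGenLinGroup.mk (H76U.lM c) : PGL(2, E)) • y) e₁ u₁) :
    ∃ d : HeightOneSpectrum (𝓞 E) → ℤ, {w | d w ≠ 0}.Finite ∧ (∀ w ∈ S, d w = 0) ∧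
      e₁ = e - 2 • d ∧
      ∀ x z : E,
        ((∀ w ∉ S, w.valuation E z ≤ 1) ∧ (∀ w ∉ S, w.valuation E (x - u * z) ≤ exp (-e w))) ↔
        ((∀ w ∉ S, w.valuation E (c * x + z) ≤ exp (-d w)) ∧
          (∀ w ∉ S, w.valuation E (x - u₁ * (c * x + z)) ≤ exp (-(e₁ w + d w)))) :=
  H99D.rel_of_isCo hL h h₁

/-! ## 8. The function on `(J → ℍ³) × X_f` -/

open Classical in
/-- **Definition of `FF`.**  `FF d y z = ∑_α ∏_j |α_j| · kap(diag(α, 1) y) · W_α(z)`, the sum over the
`α ∈ US`, where `kap` is formed with the coefficients `kcf` of the Hecke character of the data `d`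
and `W_α(z) = ∏_j y_j K₀(4π|α_j| y_j) e(2 Re(α_j z_j))` (`kterm`).  Definition in `H18DF`. -/
theorem FF_eq (E B J : Type) [Field E] [NumberField E] [Field B] [NumberField B] [Algebra E B]
    [Fintype J] (d : H71D.DD E B J)
    (L : LevelFam PGL(2, E) {w : HeightOneSpectrum (𝓞 E) // w ∉ d.S}) (y : XF L) (z : J → H3) :
    H18D.FF d y z = ∑' α : Eˣ,
      (if α ∈ d.US then ((∏ j, ‖d.e j α‖ : ℝ) : ℂ) * H18D.kap (H18D.kcf d.chi) ((borP E).d α • y)
        else 0) * H53Z.kterm (fun j => d.e j α) z :=
  rfl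

open Classical in
/-- **The coefficients of `FF` in coordinates.**  If `y` has the coordinates `(e, u)` and `𝔞 = idl e`,
the coefficient at `α ∈ US` is `N(𝔞)^(-1/2) c_χ(α 𝔞) psS(u α)`: the factor `∏ |α_j|` is cancelled by
`N(α 𝔞)^(-1/2) = N(𝔞)^(-1/2) ∏ |α_j|⁻¹` (`E` is totally complex).  Proved in `H18DF`. -/
theorem coefficient_in_coordinates (E B J : Type) [Field E] [NumberField E] [Field B]
    [NumberField B] [Algebra E B] [Fintype J] (d : H71D.DD E B J) (hd : d.Good)
    (L : LevelFam PGL(2, E) {w : HeightOneSpectrum (𝓞 E) // w ∉ d.S})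
    (hL : ∀ w, L.U w = H59D.U0 w.1) (y : XF L) (e : HeightOneSpectrum (𝓞 E) → ℤ) (u : E)
    (h : H18D.IsCo y e u) (α : Eˣ) :
    H18D.fco d y α = (((H71D.aN (H18D.idU e)) ^ (-(1 / 2) : ℝ) : ℝ) : ℂ) *
      (if α ∈ d.US then H33D.cf d.chi (spanSingleton (𝓞 E)⁰ (α : E) * H18D.idl e) *
        H71D.psS d.S (u * α) else 0) :=
  H18D.fco_eq hd hL h α

/-- **Absolute convergence.**  The Fourier series of `FF` is summable at every point.  Proved in
`H18DP3` from the bound for the Whittaker functions and the polynomial bound of the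
coefficients. -/
theorem summable_series (E B J : Type) [Field E] [NumberField E] [Field B] [NumberField B]
    [Algebra E B] [Fintype J] (d : H71D.DD E B J) (hd : d.Good)
    (L : LevelFam PGL(2, E) {w : HeightOneSpectrum (𝓞 E) // w ∉ d.S})
    (hL : ∀ w, L.U w = H59D.U0 w.1) (y : XF L) (z : J → H3) :
    Summable fun α : Eˣ => H18D.fco d y α * H53Z.kterm (fun j => d.e j α) z :=
  H18D.summable_FF hd hL y z

/-- **One term under translations and dilations.**  `W_α(z + b) = ee(tr(α b)) W_α(z)` and
`W_α(t z) = ∏_j |t_j| · W_{α t}(z)`; the actions are those of `(1 b; 0 1)` and `(t 0; 0 1)` on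
`J → ℍ³` through the embeddings of `E`.  Proved in `H18DP1`. -/
theorem term_under_borel (E J : Type) [Field E] [NumberField E] [Fintype J] (m : H59D.Model E J)
    (z : J → H3) :
    (∀ α b : E, H53Z.kterm (fun j => m.e j α) (m.actInf (ProjGenLinGroup.mk (H76U.nM b)) z) =
      ee (Algebra.trace ℚ E (α * b)) * H53Z.kterm (fun j => m.e j α) z) ∧
    ∀ α t : Eˣ, H53Z.kterm (fun j => m.e j α) (m.actInf (ProjGenLinGroup.mk (H76U.dM t)) z) =
      ((∏ j, ‖m.e j t‖ : ℝ) : ℂ) * H53Z.kterm (fun j => m.e j (α * t : Eˣ)) z :=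
  ⟨fun α b => H18D.kterm_n m α b z, fun α t => H18D.kterm_d m α t z⟩

/-- **The Fourier expansion.**  `z ↦ FF d y z` has a Fourier expansion in the sense of block (C):
`Expands e ω Φ c` says that `c` has support in a lattice of `E`, `c 0 = 0` and
`Φ(z) = ∑_α c(α) ∏_j ω(|α_j| y_j) e(2 Re ∑ α_j z_j)`.  Here `ω(t) = t K₀(4πt)` and `c(α)` is the
coefficient of `FF` divided by `∏_j |α_j|`.  Since expansions are unique and the coefficient of the
base point at `α = 1` is one, `FF` is not zero.  Proved in `H18DP4`. -/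
theorem fourier_expansion (E B J : Type) [Field E] [NumberField E] [Field B] [NumberField B]
    [Algebra E B] [Fintype J] (d : H71D.DD E B J) (hd : d.Good) (m : H59D.Model E J)
    (hme : m.e = d.e) (L : LevelFam PGL(2, E) {w : HeightOneSpectrum (𝓞 E) // w ∉ d.S})
    (hL : ∀ w, L.U w = H59D.U0 w.1) (y : XF L) (e : HeightOneSpectrum (𝓞 E) → ℤ) (u : E)
    (h : H18D.IsCo y e u) :
    H19W.Expands m.e (fun t => t * H22Z.K0 (4 * Real.pi * t)) (fun z => H18D.FF d y z)
      (fun α => H18D.ffc d e u α * ((∏ j, ‖d.e j α‖ : ℝ) : ℂ)⁻¹) :=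
  H18D.FF_expands hd hL hme h

/-- **Bound for the character.**  The values of the Hecke character of good data have absolute value
at most one on all ideals: the character is zero at the primes above `S` and has absolute value one at
all other primes (the fields `chi_S`, `chi_norm` of `Good`).  This is the hypothesis of the
convergence lemmas.  Proved in `H18DP2`. -/
theorem norm_character_le (E B J : Type) [Field E] [NumberField E] [Field B] [NumberField B]
    [Algebra E B] [Fintype J] (d : H71D.DD E B J) (hd : d.Good) (I : Ideal (𝓞 B)) :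
    ‖d.chi I‖ ≤ 1 :=
  H18D.norm_chi_le hd I

/-- **(OUTER)**: the last theorem of the finite part, in the form in which it is used by the assembly
of block (D): if the explicit series is invariant (`NbarSer`) under the lower unipotent elements
`(1 0; c 1)` with `c` in the lattices `C_w` of the types at `S`, then there is a function with all
properties `IsOuter`: the transformation laws of the type groups at `S` (three fields), continuity,
radial kernels, Hecke operators outside `S` with eigenvalue `(N w)^(1/2) a_w`, growth, non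
vanishing.  `H16D.ChiHyp` collects the hypotheses on the Hecke character (`GuideOctD.exists_data`).
Proved in `H18DP5`. -/
theorem outer (E B J : Type) [Field E] [NumberField E] [Field B] [NumberField B] [Algebra E B]
    [Fintype J] (S : Finset (HeightOneSpectrum (𝓞 E))) (chi : Ideal (𝓞 B) →*₀ ℂ)
    (a : HeightOneSpectrum (𝓞 E) → ℤ) (hC : H16D.ChiHyp E B S chi a) (m : H59D.Model E J)
    (hL : ∀ w ∉ S, m.L.U w = H59D.U0 w) (T : HeightOneSpectrum (𝓞 E) → H76U.TD E)
    (hpsi : ∀ w ∈ S, ∀ x, (T w).psi x = psi w x) (d : H71D.DD E B J) (hd : d.Good)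
    (hde : d.e = m.e) (hdS : d.S = S) (hdchi : d.chi = chi)
    (hUS : ∀ t : Eˣ, t ∈ d.US ↔ ∀ w ∈ S, (t : E) - 1 ∈ (T w).A) (CS : Set E)
    (hCS : ∀ c : E, (∀ w ∈ S, c ∈ (T w).C) → c ∈ CS) (hN : H71D.NbarSer d CS) :
    ∃ F, H16D.IsOuter m S T (fun w => ((a w : ℤ) : ℝ)) F :=
  H18D.isOuter hC m hL T hpsi d hd hde hdS hdchi hUS hCS hN

end Fermat.Agent.Guide.OuterSpace
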