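import Mathlib
import Fermat.Prelude.Def_ModularCurve_PeriodMap

/-!
# Upper bound for the dimension of the space of parabolic homomorphisms

For a group `G` generated by `S, T`, a finite index subgroup `Γ` and `X = G ⧸ Γ`, a space `P` of
homomorphisms `Γ → ℂ` vanishing on all conjugates `x⁻¹ g ^ m x ∈ Γ` (`g ∈ {S, T, S T}`) satisfies
`dim P + #orb(S) + #orb(T) + #orb(S T) ≤ #X + 2`.
-/

set_option autoImplicit false

open scoped MatrixGroups

namespace Fermat.Agent.H50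

section Perm

variable {G : Type*} [Group G] (X : Type*) [MulAction G X]

/-- Permutation representation on functions: `(ρ g v) x = v (g⁻¹ • x)`. -/
def rhoF (g : G) : (X → ℂ) →ₗ[ℂ] (X → ℂ) := LinearMap.funLeft ℂ ℂ (fun x => g⁻¹ • x)

@[simp] theorem rhoF_apply (g : G) (v : X → ℂ) (x : X) : rhoF X g v x = v (g⁻¹ • x) := rfl

/-- `D g = 1 - ρ g`. -/
def dF (g : G) : (X → ℂ) →ₗ[ℂ] (X → ℂ) := LinearMap.id - rhoF X g

@[simp] theorem dF_apply (g : G) (v : X → ℂ) (x : X) : dF X g v x = v x - v (g⁻¹ • x) := rfl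

theorem dF_mul (g h : G) (v : X → ℂ) : dF X (g * h) v = dF X g v + rhoF X g (dF X h v) := by
  ext x
  simp [mul_smul]

/-- The kernel of `1 - ρ g` is the space of functions on orbits. -/
noncomputable def kerEquiv (g : G) :
    (MulAction.orbitRel.Quotient (Subgroup.zpowers g) X → ℂ) ≃ₗ[ℂ] LinearMap.ker (dF X g) :=
  LinearEquiv.ofBijective
    (LinearMap.codRestrict (LinearMap.ker (dF X g))
      (LinearMap.funLeft ℂ ℂ (Quotient.mk (MulAction.orbitRel (Subgroup.zpowers g) X)))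
      (by
        intro v
        rw [LinearMap.mem_ker]
        ext x
        simp only [dF_apply, LinearMap.funLeft_apply, Pi.zero_apply]
        rw [sub_eq_zero]
        congr 1
        rw [Quotient.eq, MulAction.orbitRel_apply, MulAction.mem_orbit_iff]
        refine ⟨⟨g, Subgroup.mem_zpowers g⟩, ?_⟩
        show g • g⁻¹ • x = x
        rw [smul_inv_smul]))
    (by
      constructor
      · intro v w hvw
        ext q
        induction q using Quotient.inductionOn with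
        | h x =>
        exact congrFun (congrArg Subtype.val hvw) x
      · rintro ⟨v, hv⟩
        rw [LinearMap.mem_ker] at hv
        have h1 : ∀ x, v (g⁻¹ • x) = v x := fun x => by
          have := congrFun hv x
          simp only [dF_apply, Pi.zero_apply] at this
          exact (sub_eq_zero.mp this).symm
        have h2 : ∀ x, v (g • x) = v x := fun x => by
          rw [← h1 (g • x), inv_smul_smul]
        have h3 : ∀ (k : G), k ∈ Subgroup.zpowers g → ∀ x, v (k • x) = v x := by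
          intro k hk
          rw [Subgroup.zpowers_eq_closure] at hk
          induction hk using Subgroup.closure_induction with
          | mem y hy => rw [Set.mem_singleton_iff.mp hy]; exact h2
          | one => intro x; rw [one_smul]
          | mul a b _ _ ha hb => intro x; rw [mul_smul, ha, hb]
          | inv a _ ha => intro x; rw [← ha (a⁻¹ • x), smul_inv_smul]
        refine ⟨Quotient.lift v ?_, ?_⟩
        · intro a b hab
          have hab' : a ∈ MulAction.orbit (Subgroup.zpowers g) b :=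
            MulAction.orbitRel_apply.mp hab
          obtain ⟨⟨k, hk⟩, rfl⟩ := MulAction.mem_orbit_iff.mp hab'
          exact h3 k hk b
        · ext x; rfl)

variable [Finite X]

theorem finrank_ker_dF (g : G) :
    Module.finrank ℂ (LinearMap.ker (dF X g)) =
      Nat.card (MulAction.orbitRel.Quotient (Subgroup.zpowers g) X) := by
  have : Finite (MulAction.orbitRel.Quotient (Subgroup.zpowers g) X) := Quotient.finite _
  have := Fintype.ofFinite (MulAction.orbitRel.Quotient (Subgroup.zpowers g) X)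
  rw [← (kerEquiv X g).finrank_eq, Module.finrank_fintype_fun_eq_card, Nat.card_eq_fintype_card]

theorem finrank_range_dF_add (g : G) :
    Module.finrank ℂ (LinearMap.range (dF X g)) +
      Nat.card (MulAction.orbitRel.Quotient (Subgroup.zpowers g) X) = Nat.card X := by
  have := Fintype.ofFinite X
  rw [← finrank_ker_dF, LinearMap.finrank_range_add_finrank_ker,
    Module.finrank_fintype_fun_eq_card, Nat.card_eq_fintype_card]

/-- `(1 - ρ S) V + ρ S (1 - ρ T) V` has codimension at most one. -/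
theorem card_le_finrank_add_one [MulAction.IsPretransitive G X] (S T : G)
    (hST : Subgroup.closure ({S, T} : Set G) = ⊤) :
    Nat.card X ≤ Module.finrank ℂ
      (LinearMap.range (dF X S) ⊔ (LinearMap.range (dF X T)).map (rhoF X S) :
        Submodule ℂ (X → ℂ)) + 1 := by
  classical
  have := Fintype.ofFinite X
  set W : Submodule ℂ (X → ℂ) :=
    LinearMap.range (dF X S) ⊔ (LinearMap.range (dF X T)).map (rhoF X S) with hW
  rcases isEmpty_or_nonempty X with hX | ⟨⟨x₀⟩⟩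
  · rw [Nat.card_of_isEmpty]; exact Nat.zero_le _
  have hδ : ∀ (g : G) (x : X), rhoF X g (Pi.single x (1 : ℂ)) = Pi.single (g • x) 1 := by
    intro g x
    ext y
    rw [rhoF_apply]
    by_cases h : y = g • x
    · subst h; simp
    · rw [Pi.single_eq_of_ne h, Pi.single_eq_of_ne]
      intro h2; apply h; rw [← h2, smul_inv_smul]
  have hS : ∀ x : X, W.mkQ (Pi.single (S • x) 1) = W.mkQ (Pi.single x (1 : ℂ)) := by
    intro x
    rw [eq_comm, ← sub_eq_zero, ← map_sub, Submodule.mkQ_apply, Submodule.Quotient.mk_eq_zero]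
    refine Submodule.mem_sup_left ⟨Pi.single x 1, ?_⟩
    rw [dF, LinearMap.sub_apply, LinearMap.id_apply, hδ]
  have hT : ∀ x : X, W.mkQ (Pi.single (T • x) 1) = W.mkQ (Pi.single x (1 : ℂ)) := by
    intro x
    have h1 : W.mkQ (Pi.single (S • T • x) 1) = W.mkQ (Pi.single (S • x) (1 : ℂ)) := by
      rw [eq_comm, ← sub_eq_zero, ← map_sub, Submodule.mkQ_apply, Submodule.Quotient.mk_eq_zero]
      refine Submodule.mem_sup_right ⟨dF X T (Pi.single x 1), ⟨Pi.single x 1, rfl⟩, ?_⟩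
      rw [dF, LinearMap.sub_apply, LinearMap.id_apply, hδ, map_sub, hδ, hδ]
    rw [← hS (T • x), h1, hS]
  have hG : ∀ (g : G) (x : X), W.mkQ (Pi.single (g • x) 1) = W.mkQ (Pi.single x (1 : ℂ)) := by
    intro g
    have hg : g ∈ Subgroup.closure ({S, T} : Set G) := by rw [hST]; trivial
    induction hg using Subgroup.closure_induction with
    | mem y hy =>
      rcases hy with rfl | hy
      · exact hS
      · rw [Set.mem_singleton_iff.mp hy]; exact hT
    | one => intro x; rw [one_smul]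
    | mul a b _ _ ha hb => intro x; rw [mul_smul, ha, hb]
    | inv a _ ha => intro x; rw [← ha (a⁻¹ • x), smul_inv_smul]
  have h1 : Module.finrank ℂ ((X → ℂ) ⧸ W) ≤ 1 := by
    refine finrank_le_one (W.mkQ (Pi.single x₀ (1 : ℂ))) ?_
    intro w
    obtain ⟨v, rfl⟩ := W.mkQ_surjective w
    refine ⟨∑ x, v x, ?_⟩
    have hv : v = ∑ x, v x • Pi.single x (1 : ℂ) := by
      ext y
      simp [Finset.sum_apply, Pi.single_apply]
    conv_rhs => rw [hv]
    rw [map_sum, Finset.sum_smul]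
    refine Finset.sum_congr rfl fun x _ => ?_
    rw [map_smul]
    obtain ⟨g, rfl⟩ := MulAction.exists_smul_eq G x₀ x
    rw [hG]
  have h2 := Submodule.finrank_quotient_add_finrank W
  rw [Module.finrank_fintype_fun_eq_card] at h2
  rw [Nat.card_eq_fintype_card]
  omega

end Perm

section Coset

variable {G : Type*} [Group G] (Γ : Subgroup G)

/-- `F φ h = φ (s(h)⁻¹ h)`, where `s(h)` is the chosen representative of the coset of `h`. -/
noncomputable def potF : (Additive Γ →+ ℂ) →ₗ[ℂ] (G → ℂ) where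
  toFun φ h := φ (Additive.ofMul ⟨(Quotient.out (h : G ⧸ Γ))⁻¹ * h, by
    rw [← QuotientGroup.eq, QuotientGroup.out_eq']⟩)
  map_add' _ _ := rfl
  map_smul' _ _ := rfl

theorem potF_mul (φ : Additive Γ →+ ℂ) (h : G) (γ : Γ) :
    potF Γ φ (h * γ) = potF Γ φ h + φ (Additive.ofMul γ) := by
  simp only [potF, LinearMap.coe_mk, AddHom.coe_mk]
  rw [← map_add, ← ofMul_mul]
  congr 2
  apply Subtype.ext
  show (Quotient.out ((h * γ : G) : G ⧸ Γ))⁻¹ * (h * γ) = (Quotient.out (h : G ⧸ Γ))⁻¹ * h * γ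
  rw [QuotientGroup.mk_mul_of_mem h γ.2, mul_assoc]

/-- The cocycle `c φ g ∈ (G ⧸ Γ → ℂ)` attached to `φ`. -/
noncomputable def cocF (g : G) : (Additive Γ →+ ℂ) →ₗ[ℂ] ((G ⧸ Γ) → ℂ) where
  toFun φ x := potF Γ φ (Quotient.out x) - potF Γ φ (g⁻¹ * Quotient.out x)
  map_add' φ ψ := by
    ext x
    simp only [map_add, Pi.add_apply]
    ring
  map_smul' c φ := by
    ext x
    simp only [map_smul, Pi.smul_apply, smul_eq_mul, RingHom.id_apply]
    ring

theorem cocF_mk (g : G) (φ : Additive Γ →+ ℂ) (h : G) :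
    cocF Γ g φ (h : G ⧸ Γ) = potF Γ φ h - potF Γ φ (g⁻¹ * h) := by
  obtain ⟨γ, hγ⟩ := QuotientGroup.mk_out_eq_mul Γ h
  show potF Γ φ (Quotient.out (h : G ⧸ Γ)) - potF Γ φ (g⁻¹ * Quotient.out (h : G ⧸ Γ)) = _
  rw [hγ, ← mul_assoc, potF_mul, potF_mul]
  ring

theorem cocF_mul (g h : G) (φ : Additive Γ →+ ℂ) :
    cocF Γ (g * h) φ = cocF Γ g φ + rhoF (G ⧸ Γ) g (cocF Γ h φ) := by
  ext x
  induction x using Quotient.inductionOn with
  | h y =>
  show cocF Γ (g * h) φ (y : G ⧸ Γ) = cocF Γ g φ (y : G ⧸ Γ) + cocF Γ h φ (g⁻¹ • (y : G ⧸ Γ))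
  rw [MulAction.Quotient.smul_coe, smul_eq_mul, cocF_mk, cocF_mk, cocF_mk, mul_inv_rev, mul_assoc]
  ring

theorem cocF_one (φ : Additive Γ →+ ℂ) : cocF Γ 1 φ = 0 := by
  ext x
  induction x using Quotient.inductionOn with
  | h y =>
  show cocF Γ 1 φ (y : G ⧸ Γ) = 0
  rw [cocF_mk]; simp

/-- If `φ` vanishes on all `x⁻¹ g ^ m x ∈ Γ`, then the cocycle at `g` is a coboundary at `g`. -/
theorem cocF_mem_range (g : G) (φ : Additive Γ →+ ℂ)
    (hφ : ∀ (x : G) (m : ℤ) (h : x⁻¹ * g ^ m * x ∈ Γ),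
      φ (Additive.ofMul ⟨x⁻¹ * g ^ m * x, h⟩) = 0) :
    cocF Γ g φ ∈ LinearMap.range (dF (G ⧸ Γ) g) := by
  classical
  -- representative of each orbit
  let rep : G ⧸ Γ → G ⧸ Γ := fun x =>
    Quotient.out (Quotient.mk (MulAction.orbitRel (Subgroup.zpowers g) (G ⧸ Γ)) x)
  have hrep : ∀ x : G ⧸ Γ, ∃ i : ℤ, g ^ i • rep x = x := by
    intro x
    have h1 : Quotient.mk (MulAction.orbitRel (Subgroup.zpowers g) (G ⧸ Γ)) (rep x) =
        Quotient.mk _ x := Quotient.out_eq _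
    have h2 := MulAction.orbitRel_apply.mp (Quotient.eq.mp h1.symm)
    obtain ⟨⟨k, hk⟩, hkx⟩ := MulAction.mem_orbit_iff.mp h2
    obtain ⟨i, rfl⟩ := Subgroup.mem_zpowers_iff.mp hk
    exact ⟨i, hkx⟩
  choose i hi using hrep
  let s : G ⧸ Γ → G := Quotient.out
  have hs : ∀ x, ((s x : G) : G ⧸ Γ) = x := fun x => QuotientGroup.out_eq' x
  -- well-definedness
  have key : ∀ (y : G) (a b : ℤ), g ^ a • (y : G ⧸ Γ) = g ^ b • (y : G ⧸ Γ) →
      potF Γ φ (g ^ a * y) = potF Γ φ (g ^ b * y) := by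
    intro y a b hab
    rw [MulAction.Quotient.smul_coe, MulAction.Quotient.smul_coe, smul_eq_mul, smul_eq_mul,
      QuotientGroup.eq] at hab
    have e : (g ^ a * y)⁻¹ * (g ^ b * y) = y⁻¹ * g ^ (b - a) * y := by
      group
    have hmem : y⁻¹ * g ^ (b - a) * y ∈ Γ := e ▸ hab
    have h1 : g ^ b * y = g ^ a * y * (⟨y⁻¹ * g ^ (b - a) * y, hmem⟩ : Γ) := by
      show g ^ b * y = g ^ a * y * (y⁻¹ * g ^ (b - a) * y)
      rw [← e]; group
    rw [h1, potF_mul, hφ, add_zero]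
  refine ⟨fun x => potF Γ φ (g ^ i x * s (rep x)), ?_⟩
  ext x
  rw [dF_apply]
  have hrx : rep (g⁻¹ • x) = rep x := by
    show Quotient.out _ = Quotient.out _
    congr 1
    rw [Quotient.eq]
    refine MulAction.orbitRel_apply.mpr (MulAction.mem_orbit_iff.mpr
      ⟨⟨g⁻¹, (Subgroup.zpowers g).inv_mem (Subgroup.mem_zpowers g)⟩, rfl⟩)
  have hx : x = ((g ^ i x * s (rep x) : G) : G ⧸ Γ) := by
    conv_lhs => rw [← hi x, ← hs (rep x)]
    rfl
  have h2 : potF Γ φ (g ^ i (g⁻¹ • x) * s (rep (g⁻¹ • x))) =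
      potF Γ φ (g⁻¹ * (g ^ i x * s (rep x))) := by
    have e2 : g⁻¹ * (g ^ i x * s (rep x)) = g ^ (-1 + i x) * s (rep x) := by group
    rw [hrx, e2]
    apply key
    rw [hs]
    have h3 := hi (g⁻¹ • x)
    rw [hrx] at h3
    rw [h3, zpow_add, mul_smul, hi x, zpow_neg_one]
  rw [h2]
  conv_rhs => rw [hx, cocF_mk]

variable (S T : G) (hST : Subgroup.closure ({S, T} : Set G) = ⊤)

include hST in
/-- A class in `Hom(Γ, ℂ)` whose cocycle is a coboundary on generators is zero. -/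
theorem eq_zero_of_cocF (φ : Additive Γ →+ ℂ) (v : (G ⧸ Γ) → ℂ)
    (h1 : cocF Γ S φ + dF (G ⧸ Γ) S v = 0) (h2 : cocF Γ T φ + dF (G ⧸ Γ) T v = 0) :
    φ = 0 := by
  have hG : ∀ g : G, cocF Γ g φ + dF (G ⧸ Γ) g v = 0 := by
    intro g
    have hg : g ∈ Subgroup.closure ({S, T} : Set G) := by rw [hST]; trivial
    have hmul : ∀ a b : G, cocF Γ a φ + dF (G ⧸ Γ) a v = 0 → cocF Γ b φ + dF (G ⧸ Γ) b v = 0 →
        cocF Γ (a * b) φ + dF (G ⧸ Γ) (a * b) v = 0 := by
      intro a b ha hb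
      rw [cocF_mul, dF_mul]
      have : cocF Γ a φ + rhoF (G ⧸ Γ) a (cocF Γ b φ) +
          (dF (G ⧸ Γ) a v + rhoF (G ⧸ Γ) a (dF (G ⧸ Γ) b v)) =
          (cocF Γ a φ + dF (G ⧸ Γ) a v) + rhoF (G ⧸ Γ) a (cocF Γ b φ + dF (G ⧸ Γ) b v) := by
        rw [map_add]; abel
      rw [this, ha, hb, map_zero, add_zero]
    induction hg using Subgroup.closure_induction with
    | mem y hy =>
      rcases hy with rfl | hy
      · exact h1
      · rw [Set.mem_singleton_iff.mp hy]; exact h2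
    | one =>
      rw [cocF_one]; ext x; simp
    | mul a b _ _ ha hb => exact hmul a b ha hb
    | inv a _ ha =>
      have h3 : cocF Γ (a⁻¹ * a) φ + dF (G ⧸ Γ) (a⁻¹ * a) v = 0 := by
        rw [inv_mul_cancel, cocF_one]; ext x; simp
      rw [cocF_mul, dF_mul] at h3
      have : cocF Γ a⁻¹ φ + rhoF (G ⧸ Γ) a⁻¹ (cocF Γ a φ) +
          (dF (G ⧸ Γ) a⁻¹ v + rhoF (G ⧸ Γ) a⁻¹ (dF (G ⧸ Γ) a v)) =
          (cocF Γ a⁻¹ φ + dF (G ⧸ Γ) a⁻¹ v) +
            rhoF (G ⧸ Γ) a⁻¹ (cocF Γ a φ + dF (G ⧸ Γ) a v) := by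
        rw [map_add]; abel
      rw [this, ha, map_zero, add_zero] at h3
      exact h3
  refine AddMonoidHom.ext fun γ => ?_
  have h3 := congrFun (hG (Additive.toMul γ : Γ)) ((1 : G) : G ⧸ Γ)
  have h4 : (((Additive.toMul γ : Γ) : G)⁻¹ • ((1 : G) : G ⧸ Γ)) = ((1 : G) : G ⧸ Γ) := by
    rw [MulAction.Quotient.smul_coe, smul_eq_mul, mul_one, eq_comm, QuotientGroup.eq, inv_one,
      one_mul]
    exact Γ.inv_mem (Additive.toMul γ : Γ).2
  rw [Pi.add_apply, dF_apply, h4, sub_self, add_zero, cocF_mk, mul_one] at h3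
  have h5 := potF_mul Γ φ 1 (Additive.toMul γ)⁻¹
  rw [one_mul] at h5
  rw [InvMemClass.coe_inv] at h5
  rw [h5] at h3
  have h6 : φ (Additive.ofMul (Additive.toMul γ)⁻¹) = - φ γ := by
    rw [← map_neg]; rfl
  rw [h6] at h3
  simpa using h3

include hST in
theorem finiteDimensional_hom [Γ.FiniteIndex] : FiniteDimensional ℂ (Additive Γ →+ ℂ) := by
  have : Finite (G ⧸ Γ) := Subgroup.finite_quotient_of_finiteIndex
  refine Module.Finite.of_injective ((cocF Γ S).prod (cocF Γ T)) ?_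
  rw [← LinearMap.ker_eq_bot, LinearMap.ker_eq_bot']
  intro φ hφ
  rw [LinearMap.prod_apply, Prod.mk_eq_zero] at hφ
  refine eq_zero_of_cocF Γ S T hST φ 0 ?_ ?_
  · rw [map_zero, add_zero]; exact hφ.1
  · rw [map_zero, add_zero]; exact hφ.2

include hST in
/-- **Main bound.** -/
theorem finrank_add_orbits_le [Γ.FiniteIndex] (P : Submodule ℂ (Additive Γ →+ ℂ))
    (hPS : ∀ φ ∈ P, ∀ (x : G) (m : ℤ) (h : x⁻¹ * S ^ m * x ∈ Γ),
      φ (Additive.ofMul ⟨x⁻¹ * S ^ m * x, h⟩) = 0)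
    (hPT : ∀ φ ∈ P, ∀ (x : G) (m : ℤ) (h : x⁻¹ * T ^ m * x ∈ Γ),
      φ (Additive.ofMul ⟨x⁻¹ * T ^ m * x, h⟩) = 0)
    (hPST : ∀ φ ∈ P, ∀ (x : G) (m : ℤ) (h : x⁻¹ * (S * T) ^ m * x ∈ Γ),
      φ (Additive.ofMul ⟨x⁻¹ * (S * T) ^ m * x, h⟩) = 0) :
    Module.finrank ℂ P +
      Nat.card (MulAction.orbitRel.Quotient (Subgroup.zpowers S) (G ⧸ Γ)) +
      Nat.card (MulAction.orbitRel.Quotient (Subgroup.zpowers T) (G ⧸ Γ)) +
      Nat.card (MulAction.orbitRel.Quotient (Subgroup.zpowers (S * T)) (G ⧸ Γ)) ≤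
      Nat.card (G ⧸ Γ) + 2 := by
  classical
  have : Finite (G ⧸ Γ) := Subgroup.finite_quotient_of_finiteIndex
  have := Fintype.ofFinite (G ⧸ Γ)
  have : FiniteDimensional ℂ (Additive Γ →+ ℂ) := finiteDimensional_hom Γ S T hST
  set A := LinearMap.range (dF (G ⧸ Γ) S)
  set B := LinearMap.range (dF (G ⧸ Γ) T)
  set C := LinearMap.range (dF (G ⧸ Γ) (S * T))
  -- the map `ψ : A × B → V`
  let ψ : (A × B) →ₗ[ℂ] ((G ⧸ Γ) → ℂ) := A.subtype.coprod ((rhoF (G ⧸ Γ) S) ∘ₗ B.subtype)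
  have hψr : LinearMap.range ψ = A ⊔ B.map (rhoF (G ⧸ Γ) S) := by
    rw [LinearMap.range_coprod, Submodule.range_subtype, LinearMap.range_comp,
      Submodule.range_subtype]
  have hWn : Nat.card (G ⧸ Γ) ≤ Module.finrank ℂ (LinearMap.range ψ) + 1 := by
    rw [hψr]; exact card_le_finrank_add_one (G ⧸ Γ) S T hST
  let K : Submodule ℂ (A × B) := C.comap ψ
  have hK : Module.finrank ℂ K ≤ Module.finrank ℂ (LinearMap.ker ψ) + Module.finrank ℂ C := by
    let χ : K →ₗ[ℂ] C := ψ.restrict (fun x hx => hx)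
    have h1 := LinearMap.finrank_range_add_finrank_ker (K := ℂ) (V := K) (V₂ := C) χ
    have h2 : Module.finrank ℂ (LinearMap.range χ) ≤ Module.finrank ℂ C :=
      Submodule.finrank_le _
    have h3 : Module.finrank ℂ (LinearMap.ker χ) ≤ Module.finrank ℂ (LinearMap.ker ψ) := by
      let ι : LinearMap.ker χ →ₗ[ℂ] LinearMap.ker ψ :=
        LinearMap.codRestrict _ (K.subtype ∘ₗ (LinearMap.ker χ).subtype) (by
          rintro ⟨x, hx⟩
          rw [LinearMap.mem_ker] at hx ⊢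
          exact congrArg Subtype.val hx)
      refine LinearMap.finrank_le_finrank_of_injective (f := ι) ?_
      intro x y hxy
      apply Subtype.ext; apply Subtype.ext
      have h4 := congrArg Subtype.val hxy
      exact h4
    omega
  have hψ := LinearMap.finrank_range_add_finrank_ker ψ
  rw [Module.finrank_prod] at hψ
  -- the map `Θ : P × V → A × B`
  let Θ : (P × ((G ⧸ Γ) → ℂ)) →ₗ[ℂ] (A × B) :=
    (LinearMap.codRestrict A ((cocF Γ S ∘ₗ P.subtype).coprod (dF (G ⧸ Γ) S)) (by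
      rintro ⟨φ, v⟩
      exact A.add_mem (cocF_mem_range Γ S φ (hPS φ φ.2)) ⟨v, rfl⟩)).prod
    (LinearMap.codRestrict B ((cocF Γ T ∘ₗ P.subtype).coprod (dF (G ⧸ Γ) T)) (by
      rintro ⟨φ, v⟩
      exact B.add_mem (cocF_mem_range Γ T φ (hPT φ φ.2)) ⟨v, rfl⟩))
  have hΘK : LinearMap.range Θ ≤ K := by
    rintro _ ⟨⟨φ, v⟩, rfl⟩
    show (cocF Γ S φ + dF (G ⧸ Γ) S v) + rhoF (G ⧸ Γ) S (cocF Γ T φ + dF (G ⧸ Γ) T v) ∈ C
    have : (cocF Γ S φ + dF (G ⧸ Γ) S v) + rhoF (G ⧸ Γ) S (cocF Γ T φ + dF (G ⧸ Γ) T v) =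
        cocF Γ (S * T) φ + dF (G ⧸ Γ) (S * T) v := by
      rw [cocF_mul, dF_mul, map_add]; abel
    rw [this]
    exact C.add_mem (cocF_mem_range Γ (S * T) φ (hPST φ φ.2)) ⟨v, rfl⟩
  have hΘ := LinearMap.finrank_range_add_finrank_ker Θ
  rw [Module.finrank_prod, Module.finrank_fintype_fun_eq_card, ← Nat.card_eq_fintype_card] at hΘ
  have hΘr : Module.finrank ℂ (LinearMap.range Θ) ≤ Module.finrank ℂ K :=
    Submodule.finrank_mono hΘK
  have hΘk : Module.finrank ℂ (LinearMap.ker Θ) ≤ 1 := by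
    have hone : (0, fun _ => 1) ∈ LinearMap.ker Θ := by
      rw [LinearMap.mem_ker]
      refine Prod.ext (Subtype.ext ?_) (Subtype.ext ?_)
      · show cocF Γ S ((0 : P) : Additive Γ →+ ℂ) + dF (G ⧸ Γ) S (fun _ => 1) = 0
        rw [ZeroMemClass.coe_zero, map_zero, zero_add]; ext x; simp
      · show cocF Γ T ((0 : P) : Additive Γ →+ ℂ) + dF (G ⧸ Γ) T (fun _ => 1) = 0
        rw [ZeroMemClass.coe_zero, map_zero, zero_add]; ext x; simp
    refine finrank_le_one (⟨(0, fun _ => 1), hone⟩ : LinearMap.ker Θ) ?_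
    rintro ⟨⟨φ, v⟩, hφv⟩
    rw [LinearMap.mem_ker] at hφv
    have h1 : cocF Γ S (φ : Additive Γ →+ ℂ) + dF (G ⧸ Γ) S v = 0 :=
      congrArg Subtype.val (congrArg Prod.fst hφv)
    have h2 : cocF Γ T (φ : Additive Γ →+ ℂ) + dF (G ⧸ Γ) T v = 0 :=
      congrArg Subtype.val (congrArg Prod.snd hφv)
    have h3 : (φ : Additive Γ →+ ℂ) = 0 := eq_zero_of_cocF Γ S T hST φ v h1 h2
    rw [h3, map_zero, zero_add] at h1 h2
    have hG : ∀ (g : G) (x : (G ⧸ Γ)), v (g⁻¹ • x) = v x := by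
      intro g
      have hg : g ∈ Subgroup.closure ({S, T} : Set G) := by rw [hST]; trivial
      induction hg using Subgroup.closure_induction with
      | mem y hy =>
        rcases hy with rfl | hy
        · intro x; exact (sub_eq_zero.mp (congrFun h1 x)).symm
        · rw [Set.mem_singleton_iff.mp hy]
          intro x; exact (sub_eq_zero.mp (congrFun h2 x)).symm
      | one => intro x; simp
      | mul a b _ _ ha hb => intro x; rw [mul_inv_rev, mul_smul, hb, ha]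
      | inv a _ ha => intro x; rw [← ha (a⁻¹⁻¹ • x), inv_inv, inv_smul_smul]
    refine ⟨v ((1 : G) : G ⧸ Γ), ?_⟩
    apply Subtype.ext
    refine Prod.ext ?_ ?_
    · apply Subtype.ext
      show v ((1 : G) : G ⧸ Γ) • ((0 : P) : Additive Γ →+ ℂ) = φ
      rw [h3, ZeroMemClass.coe_zero, smul_zero]
    · ext x
      show v ((1 : G) : G ⧸ Γ) * 1 = v x
      obtain ⟨g, hg⟩ := MulAction.exists_smul_eq G ((1 : G) : G ⧸ Γ) x
      rw [mul_one, ← hg, ← hG g⁻¹ ((1 : G) : G ⧸ Γ), inv_inv]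
  have hA : Module.finrank ℂ A +
      Nat.card (MulAction.orbitRel.Quotient (Subgroup.zpowers S) (G ⧸ Γ)) = Nat.card (G ⧸ Γ) :=
    finrank_range_dF_add (G ⧸ Γ) S
  have hB : Module.finrank ℂ B +
      Nat.card (MulAction.orbitRel.Quotient (Subgroup.zpowers T) (G ⧸ Γ)) = Nat.card (G ⧸ Γ) :=
    finrank_range_dF_add (G ⧸ Γ) T
  have hC : Module.finrank ℂ C +
      Nat.card (MulAction.orbitRel.Quotient (Subgroup.zpowers (S * T)) (G ⧸ Γ)) =
        Nat.card (G ⧸ Γ) :=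
    finrank_range_dF_add (G ⧸ Γ) (S * T)
  omega

end Coset

section SL2Z

open ModularGroup ModularCurve.Period

theorem hom_eq_zero_of_pow_eq_one {H : Type*} [Group H] (φ : Additive H →+ ℂ) (γ : H) {n : ℕ}
    (hn : n ≠ 0) (h : γ ^ n = 1) : φ (Additive.ofMul γ) = 0 := by
  have h1 : φ (Additive.ofMul (γ ^ n)) = n • φ (Additive.ofMul γ) := by
    rw [ofMul_pow, map_nsmul]
  rw [h, ofMul_one, map_zero] at h1
  have h2 : (n : ℂ) * φ (Additive.ofMul γ) = 0 := by rw [← nsmul_eq_mul]; exact h1.symm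
  rcases mul_eq_zero.mp h2 with h3 | h3
  · exact absurd (by exact_mod_cast h3) hn
  · exact h3

theorem hom_conj_eq_zero {G : Type*} [Group G] (Γ : Subgroup G) (φ : Additive Γ →+ ℂ) (g : G)
    {n : ℕ} (hn : n ≠ 0) (hg : g ^ n = 1) (x : G) (m : ℤ) (h : x⁻¹ * g ^ m * x ∈ Γ) :
    φ (Additive.ofMul ⟨x⁻¹ * g ^ m * x, h⟩) = 0 := by
  refine hom_eq_zero_of_pow_eq_one φ _ hn ?_
  apply Subtype.ext
  show (x⁻¹ * g ^ m * x) ^ n = 1
  have h1 : (x⁻¹ * g ^ m * x) ^ n = x⁻¹ * (g ^ m) ^ n * x := by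
    have := conj_pow (i := n) (a := x⁻¹) (b := g ^ m)
    rwa [inv_inv] at this
  have h2 : (g ^ m) ^ n = 1 := by
    rw [← zpow_natCast, ← zpow_mul, mul_comm, zpow_mul, zpow_natCast, hg, one_zpow]
  rw [h1, h2]; group

theorem S_pow_four : (ModularGroup.S : SL(2, ℤ)) ^ 4 = 1 := by
  have h : ModularGroup.S * ModularGroup.S = (-1 : SL(2, ℤ)) := by
    ext i j
    rw [Matrix.SpecialLinearGroup.coe_mul, ModularGroup.coe_S]
    fin_cases i <;> fin_cases j <;> simp [Matrix.mul_apply, Fin.sum_univ_two]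
  have h2 : (ModularGroup.S : SL(2, ℤ)) ^ 4 =
      (ModularGroup.S * ModularGroup.S) * (ModularGroup.S * ModularGroup.S) := by
    simp only [pow_succ, pow_zero, one_mul, mul_assoc]
  rw [h2, h]; simp

theorem ST_pow_six : (ModularGroup.S * ModularGroup.T : SL(2, ℤ)) ^ 6 = 1 := by
  have hc : ((ModularGroup.S * ModularGroup.T : SL(2, ℤ)) : Matrix (Fin 2) (Fin 2) ℤ) =
      !![0, -1; 1, 1] := by
    rw [Matrix.SpecialLinearGroup.coe_mul, ModularGroup.coe_S, ModularGroup.coe_T]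
    ext i j; fin_cases i <;> fin_cases j <;> simp [Matrix.mul_apply, Fin.sum_univ_two]
  have h3 : (ModularGroup.S * ModularGroup.T) ^ 3 = (-1 : SL(2, ℤ)) := by
    ext i j
    rw [pow_succ, pow_two]
    simp only [Matrix.SpecialLinearGroup.coe_mul (ModularGroup.S * ModularGroup.T * _),
      Matrix.SpecialLinearGroup.coe_mul (ModularGroup.S * ModularGroup.T), hc]
    fin_cases i <;> fin_cases j <;> simp [Matrix.mul_apply, Fin.sum_univ_two]
  have h2 : (ModularGroup.S * ModularGroup.T : SL(2, ℤ)) ^ 6 =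
      ((ModularGroup.S * ModularGroup.T) ^ 3) * ((ModularGroup.S * ModularGroup.T) ^ 3) := by
    rw [← pow_add]
  rw [h2, h3]; simp

theorem trace_conj_T_zpow (x : SL(2, ℤ)) (m : ℤ) :
    ((x⁻¹ * ModularGroup.T ^ m * x : SL(2, ℤ)) : Matrix (Fin 2) (Fin 2) ℤ).trace = 2 := by
  rw [Matrix.SpecialLinearGroup.coe_mul, Matrix.trace_mul_comm, ← Matrix.SpecialLinearGroup.coe_mul]
  have : x * (x⁻¹ * ModularGroup.T ^ m) = ModularGroup.T ^ m := by group
  rw [this, ModularGroup.coe_T_zpow, Matrix.trace_fin_two_of]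
  norm_num

instance finiteDimensional_parabolicHoms (Γ : Subgroup SL(2, ℤ)) [Γ.FiniteIndex] :
    FiniteDimensional ℂ (parabolicHoms ℂ Γ ℂ) :=
  have : FiniteDimensional ℂ (Additive Γ →+ ℂ) :=
    finiteDimensional_hom Γ ModularGroup.S ModularGroup.T
      SpecialLinearGroup.SL2Z_generators
  inferInstance

/-- Dimension bound for the space of parabolic homomorphisms of a finite index subgroup
of `SL(2, ℤ)`. -/
theorem finrank_parabolicHoms_add_le (Γ : Subgroup SL(2, ℤ)) [Γ.FiniteIndex] :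
    Module.finrank ℂ (parabolicHoms ℂ Γ ℂ) +
      Nat.card (MulAction.orbitRel.Quotient (Subgroup.zpowers ModularGroup.S) (SL(2, ℤ) ⧸ Γ)) +
      Nat.card (MulAction.orbitRel.Quotient (Subgroup.zpowers ModularGroup.T) (SL(2, ℤ) ⧸ Γ)) +
      Nat.card (MulAction.orbitRel.Quotient
        (Subgroup.zpowers (ModularGroup.S * ModularGroup.T)) (SL(2, ℤ) ⧸ Γ)) ≤
      Nat.card (SL(2, ℤ) ⧸ Γ) + 2 := by
  refine finrank_add_orbits_le Γ ModularGroup.S ModularGroup.T
    SpecialLinearGroup.SL2Z_generators _ ?_ ?_ ?_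
  · intro φ _ x m h
    exact hom_conj_eq_zero Γ φ _ (n := 4) (by norm_num) S_pow_four x m h
  · intro φ hφ x m h
    refine hφ ⟨x⁻¹ * ModularGroup.T ^ m * x, h⟩ ?_
    show ((x⁻¹ * ModularGroup.T ^ m * x : SL(2, ℤ)) : Matrix (Fin 2) (Fin 2) ℤ).trace ^ 2 = 4
    rw [trace_conj_T_zpow]; norm_num
  · intro φ _ x m h
    exact hom_conj_eq_zero Γ φ _ (n := 6) (by norm_num) ST_pow_six x m h

end SL2Z

end Fermat.Agent.H50
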