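import Fermat.Agent.H45P1Genus
import Fermat.Agent.H50Parab

/-!
# `dim parabolicHoms (Γ₀(N)) ≤ 2 g` and the genus formula is a natural number
-/

set_option autoImplicit false

open CongruenceSubgroup
open scoped MatrixGroups

namespace Fermat.Agent.H50

open ModularCurve ModularCurve.Period Fermat.Agent.H45

theorem finrank_parabolicHoms_Gamma0_le (N : ℕ) [NeZero N] :
    (Module.finrank ℂ (parabolicHoms ℂ (Gamma0 N) ℂ) : ℚ) ≤ 2 * genusFormula N := by
  have h1 := finrank_parabolicHoms_add_le (Gamma0 N)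
  have hn : Nat.card (SL(2, ℤ) ⧸ Gamma0 N) = dedekindPsi N := natCard_P1 N
  have hT : Nat.card (MulAction.orbitRel.Quotient (Subgroup.zpowers ModularGroup.T)
      (SL(2, ℤ) ⧸ Gamma0 N)) = cuspCount N := natCard_TOrbits N
  have hS : Nat.card (MulAction.orbitRel.Quotient (Subgroup.zpowers ModularGroup.S)
      (SL(2, ℤ) ⧸ Gamma0 N)) = orbS N := rfl
  have hST : Nat.card (MulAction.orbitRel.Quotient
      (Subgroup.zpowers (ModularGroup.S * ModularGroup.T)) (SL(2, ℤ) ⧸ Gamma0 N)) = orbST N := rfl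
  rw [hn, hT, hS, hST] at h1
  rw [two_mul_genusFormula]
  have h2 : (Module.finrank ℂ (parabolicHoms ℂ (Gamma0 N) ℂ) : ℚ) + orbS N + cuspCount N +
      orbST N ≤ dedekindPsi N + 2 := by exact_mod_cast h1
  linarith

theorem genusFormula_nonneg (N : ℕ) [NeZero N] : 0 ≤ genusFormula N := by
  have h := finrank_parabolicHoms_Gamma0_le N
  have h0 : (0 : ℚ) ≤ Module.finrank ℂ (parabolicHoms ℂ (Gamma0 N) ℂ) := Nat.cast_nonneg _
  linarith

/-- The genus formula is a natural number. -/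
theorem exists_nat_genusFormula (N : ℕ) [NeZero N] : ∃ g : ℕ, (g : ℚ) = genusFormula N := by
  obtain ⟨g, hg⟩ := exists_int_genusFormula N
  have h := genusFormula_nonneg N
  rw [← hg] at h
  obtain ⟨n, rfl⟩ := Int.eq_ofNat_of_zero_le (by exact_mod_cast h : (0 : ℤ) ≤ g)
  exact ⟨n, by rw [← hg]; push_cast; rfl⟩

end Fermat.Agent.H50
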