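import Fermat.Agent.S21
import Fermat.Agent.H8ShimMain
import Fermat.Agent.H50ParabGamma0

/-!
# Reader's guide: homomorphisms from `Γ₀(N)` which kill parabolic elements (S21, S24, S01)

Every theorem of this file is proved by citing a theorem of the library; nothing here is used by any
other file. Companion of `GuidePeriods`, sections 1 and 2 (there: the statements for `Γ₀(N)` and what
they are good for; here: the proofs step by step). Editor: helper77. The library files are by helper77
(`H77ParField`, `H77Par`), helper50 (`H50Parab`, section 4) and helper8 (`H8ShimTF`, `H8ShimMain`).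

**What is proved.** Let `Γ` be a subgroup of finite index of `SL(2, ℤ)` which contains `-1`, let
`X = SL(2, ℤ) / Γ`, and let `F` be a field. The homomorphisms `Γ → F` which kill the parabolic and the
elliptic elements (`trace ^ 2 ≤ 4`) form a space of dimension at most
`|X| + 2 - #(orbits of S) - #(orbits of S T) - #(orbits of T)`. For `Γ = Γ₀(N)` this number is `2 g`, `g`
the genus of `X₀(N)` (`GuideModularCurves.genusFormula_natural`; the orbits are counted in
`GuideProjectiveLine`), and this is the upper bound in the Eichler-Shimura theorem. It holds for ALL fields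
`F`, also in the characteristics `2` and `3`; together with the dimension formula for cusp forms it implies
that the group of periods of `Γ₀(N)` is free of rank `2 g`, so that homomorphisms to `ℤ/n` lift to `ℤ`.

**How.** No fundamental domain, no generators of `Γ` and no topology: a homomorphism is extended to a
cocycle on `SL(2, ℤ)` with values in the functions on `X` (lemma of Shapiro); such a cocycle is determined
by its values at `S` and `S T`; these lie in spaces of the right dimension; the condition at `T` says that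
the value at `T = - S (S T)` lies in a third such space; and one counts dimensions.

**Order.** 1. The cocycle. 2. Functions with vanishing sums over cycles. 3. The count. 4. Over `ℂ`: two
other proofs. 5. The group of periods. `NOTES.md`, Appendix A, notes [285], [181], [78].

**Where it is used.** Sections 1 to 3 and 5 and `elliptic_elements`, over the field `ℝ` and over the prime
fields (`GuidePeriods.real_eichler_shimura`, `GuidePeriods.lattice_free`): in S01, S03, S04, S06, S09, S12,
S15, S35, S36, S38-S40, S43-S46, S50, S58-S60. `kernel_of_norm` (`H77Par`) in S21 and S41. The theorems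
about `H50Parab` in S24 (`H94S24`: the number given by the genus formula is a natural number) and, through
`H94S24`, in 31 other statements.
-/

set_option autoImplicit false

noncomputable section

namespace Fermat.Agent.Guide.Parabolic

open ModularGroup CongruenceSubgroup Module MatrixGroups
open Fermat.Agent.H77.FieldGen (smallHoms KillsSmall gam zc zsum Orb)

/-! ## 1. The cocycle of a homomorphism

`X = SL(2, ℤ) / Γ` is the set of left cosets, on which `SL(2, ℤ)` acts from the left. -/

section Cocycle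

variable (Γ : Subgroup SL(2, ℤ)) {F : Type*} [Field F]

/-- **Definitions.** `x.out` is a representative of the coset `x`; `gam Γ σ x` is the element
`(σ x).out⁻¹ σ x.out` of `Γ`, and `zc φ σ` is the function `x ↦ φ (gam Γ σ x)` on `X`. `KillsSmall φ`
says that `φ` kills the elements with `trace ^ 2 ≤ 4`. File `H77ParField`. -/
theorem cocycle_definition (φ : Additive Γ →+ F) (σ : SL(2, ℤ)) (x : SL(2, ℤ) ⧸ Γ) :
    (gam Γ σ x : SL(2, ℤ)) = (σ • x).out⁻¹ * (σ * x.out) ∧
      zc φ σ x = φ (Additive.ofMul (gam Γ σ x)) ∧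
      (KillsSmall φ ↔ ∀ γ : Γ, ((γ : SL(2, ℤ)) : Matrix (Fin 2) (Fin 2) ℤ).trace ^ 2 ≤ 4 →
        φ (Additive.ofMul γ) = 0) :=
  ⟨rfl, rfl, Iff.rfl⟩

variable {Γ}

/-- **The cocycle relation** `z(στ) = z(σ) ∘ τ + z(τ)`, and its consequence for powers. File
`H77ParField`. -/
theorem cocycle_relation (φ : Additive Γ →+ F) :
    (∀ (σ τ : SL(2, ℤ)) (x : SL(2, ℤ) ⧸ Γ), zc φ (σ * τ) x = zc φ σ (τ • x) + zc φ τ x) ∧
      ∀ (g : SL(2, ℤ)) (n : ℕ) (x : SL(2, ℤ) ⧸ Γ),
        zc φ (g ^ n) x = ∑ j ∈ Finset.range n, zc φ g (g ^ j • x) :=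
  ⟨H77.FieldGen.zc_mul φ, H77.FieldGen.zc_pow φ⟩

/-- **Values at fixed cosets.** If `σ` fixes the coset `x`, then `zc φ σ x` is the value of `φ` at a
conjugate of `σ`; so it is zero if `φ` kills the elements with `trace ^ 2 ≤ 4` and `σ` is one of them. File
`H77ParField`. -/
theorem cocycle_at_fixed_coset (φ : Additive Γ →+ F) (hφ : KillsSmall φ) (σ : SL(2, ℤ))
    (hσ : (σ : Matrix (Fin 2) (Fin 2) ℤ).trace ^ 2 ≤ 4) (x : SL(2, ℤ) ⧸ Γ) (h : σ • x = x) :
    zc φ σ x = 0 :=
  H77.FieldGen.zc_of_smul_eq φ hφ σ hσ x h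

/-- **A cocycle is determined by its values at `S` and `S T`**, even up to coboundaries: if at these two
elements it is the coboundary `x ↦ v(x) - v(σ x)` of a function `v`, then it is the coboundary of `v`
everywhere (they generate `SL(2, ℤ)`), and then `φ = 0` (and `v` is constant on `X`). File `H77ParField`. -/
theorem eq_zero_of_coboundary (φ : Additive Γ →+ F) (v : (SL(2, ℤ) ⧸ Γ) → F)
    (hS : ∀ x, zc φ S x = v x - v (S • x))
    (hST : ∀ x, zc φ (S * T) x = v x - v ((S * T) • x)) :
    (∀ σ x, zc φ σ x = v x - v (σ • x)) ∧ φ = 0 :=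
  ⟨H77.FieldGen.zc_of_generators φ v hS hST,
    H77.FieldGen.eq_zero_of_zc φ v (H77.FieldGen.zc_of_generators φ v hS hST)⟩

/-- **The relation at `T`.** As `T = (-1) S (S T)` and `φ` kills `-1`, the value at `T` is
`z(S) ∘ (S T) + z(S T)`. File `H77ParField`. -/
theorem value_at_T (hneg : (-1 : SL(2, ℤ)) ∈ Γ) (φ : Additive Γ →+ F) (hφ : KillsSmall φ)
    (x : SL(2, ℤ) ⧸ Γ) : zc φ T x = zc φ S ((S * T) • x) + zc φ (S * T) x :=
  congrFun (H77.FieldGen.zc_T hneg φ hφ) x

end Cocycle

/-! ## 2. Functions with vanishing sums over cycles -/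

section Sums

variable {G : Type*} [Group G] {X : Type*} [MulAction G X] {F : Type*} [Field F]

/-- **The space `zsum F X g`** of the functions on `X` whose sums over all closed paths of `g` vanish. For
a finite cyclic action and a field of characteristic zero it is the kernel of the norm; the present
definition is the right one in all characteristics. File `H77ParField`. -/
theorem mem_zsum_iff (g : G) (a : X → F) : a ∈ zsum F X g ↔
    ∀ (n : ℕ) (x : X), g ^ n • x = x → ∑ j ∈ Finset.range n, a (g ^ j • x) = 0 :=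
  Iff.rfl

/-- Coboundaries belong to this space (telescoping sums). File `H77ParField`. -/
theorem coboundary_mem_zsum (g : G) (v : X → F) : (fun x => v (g • x) - v x) ∈ zsum F X g :=
  H77.FieldGen.cob_mem_zsum g v

/-- **Its dimension** is at most the number of points minus the number of orbits of `g`: it meets the space
of the functions supported in a set of representatives of the orbits only in zero. File `H77ParField`. -/
theorem zsum_dimension [Finite X] (g : G) :
    finrank F (zsum F X g) + Nat.card (MulAction.orbitRel.Quotient (Subgroup.zpowers g) X) ≤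
      Nat.card X :=
  H77.FieldGen.finrank_zsum_add_le g

/-- **The values of the cocycle** at an element `g` all of whose powers have `trace ^ 2 ≤ 4` belong to this
space, if `φ` kills the parabolic and elliptic elements; and `S`, `S T`, `T` are such elements. (This is
where the parabolic and elliptic elements of `Γ` enter.) File `H77ParField`. -/
theorem cocycle_mem_zsum {Γ : Subgroup SL(2, ℤ)} (φ : Additive Γ →+ F) (hφ : KillsSmall φ) :
    zc φ S ∈ zsum F (SL(2, ℤ) ⧸ Γ) S ∧ zc φ (S * T) ∈ zsum F (SL(2, ℤ) ⧸ Γ) (S * T) ∧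
      zc φ T ∈ zsum F (SL(2, ℤ) ⧸ Γ) T :=
  ⟨H77.FieldGen.zc_mem_zsum φ hφ S H77.FieldGen.trace_S_pow,
    H77.FieldGen.zc_mem_zsum φ hφ (S * T) H77.FieldGen.trace_ST_pow,
    H77.FieldGen.zc_mem_zsum φ hφ T H77.FieldGen.trace_T_pow⟩

/-- **The sum map is almost onto**: `wm F Γ (a, b) = a ∘ (S T) + b` maps pairs `a ∈ zsum S`, `b ∈ zsum (S T)`
to functions on `X`, and its rank is at least `|X| - 1`: with coboundaries one reaches all differences of
two delta functions, since `S T` and `(S T)⁻¹ S (S T)` generate `SL(2, ℤ)` and the action on `X` is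
transitive. File `H77ParField`. -/
theorem sum_map_rank (F : Type*) [Field F] {Γ : Subgroup SL(2, ℤ)} [Finite (SL(2, ℤ) ⧸ Γ)] :
    (∀ (a : zsum F (SL(2, ℤ) ⧸ Γ) S) (b : zsum F (SL(2, ℤ) ⧸ Γ) (S * T)) (x : SL(2, ℤ) ⧸ Γ),
      H77.FieldGen.wm F Γ (a, b) x = a.1 ((S * T) • x) + b.1 x) ∧
    Nat.card (SL(2, ℤ) ⧸ Γ) ≤ finrank F (LinearMap.range (H77.FieldGen.wm F Γ)) + 1 :=
  ⟨fun a b x => H77.FieldGen.wm_apply F a b x, H77.FieldGen.natCard_le_finrank_range_wm F⟩

end Sums

/-! ## 3. The count -/

section Count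

/-- **The bound.** The pairs (homomorphism `φ`, function `v` on `X`) are mapped to the pairs
`(a, b) = (z(S) + δ_S v, z(S T) + δ_{ST} v)`; the kernel is one dimensional (`eq_zero_of_coboundary`), and
the sum `a ∘ (S T) + b = z(T) + δ_T v` lies in `zsum T` (`value_at_T`). So `dim + |X| - 1` is at most
`dim (zsum S) + dim (zsum S T) - rank (wm) + dim (zsum T)`, which is at most
`3 |X| - (numbers of orbits) - (|X| - 1)`. File `H77ParField`. -/
theorem bound (F : Type*) [Field F] {Γ : Subgroup SL(2, ℤ)} [Finite (SL(2, ℤ) ⧸ Γ)]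
    (hneg : (-1 : SL(2, ℤ)) ∈ Γ) :
    Module.Finite F (smallHoms Γ F) ∧
      finrank F (smallHoms Γ F) +
        Nat.card (MulAction.orbitRel.Quotient (Subgroup.zpowers (S : SL(2, ℤ))) (SL(2, ℤ) ⧸ Γ)) +
        Nat.card (MulAction.orbitRel.Quotient (Subgroup.zpowers (S * T : SL(2, ℤ))) (SL(2, ℤ) ⧸ Γ)) +
        Nat.card (MulAction.orbitRel.Quotient (Subgroup.zpowers (T : SL(2, ℤ))) (SL(2, ℤ) ⧸ Γ)) ≤
          Nat.card (SL(2, ℤ) ⧸ Γ) + 2 :=
  H77.FieldGen.main_bound F hneg

end Count

/-! ## 4. Over `ℂ`: two other proofs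

For `F = ℂ` it is enough that the parabolic elements are killed. One proof (`H77Par`) is the one of
sections 1 to 3 with kernels of norms. The other one (`H50Parab`) is about a group `G` generated by two
elements `S`, `T` and a subgroup `Γ` of finite index: for a set `X` with an action of `G` the space
`X → ℂ` has the action `(g v) x = v (g⁻¹ x)` (`H50.rhoF`), `H50.dF X g` is `1 - g`, and instead of kernels
of norms one uses the images of `1 - S`, `1 - T` and `1 - S T`. -/

section Complex

/-- **Elliptic elements** have finite order (their square is `t γ - 1` with `t = 0, 1, -1`), so over a field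
of characteristic zero a homomorphism which kills the parabolic elements kills them, too. In characteristic
`2` or `3` this is a condition of its own. File `H8ShimMain`. -/
theorem elliptic_elements :
    (∀ γ : SL(2, ℤ), (γ : Matrix (Fin 2) (Fin 2) ℤ).trace ^ 2 < 4 → γ ^ 12 = 1) ∧
    ∀ {Γ : Subgroup SL(2, ℤ)} {F : Type} [Field F] [CharZero F] (φ : Additive Γ →+ F),
      (∀ γ : Γ, ((γ : SL(2, ℤ)) : Matrix (Fin 2) (Fin 2) ℤ).trace ^ 2 = 4 →
        φ (Additive.ofMul γ) = 0) → KillsSmall φ :=
  ⟨H8.pow_twelve_eq_one, fun φ hφ => H8.kills_of_parabolic φ hφ⟩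

/-- **The variant over `ℂ`** for homomorphisms which kill the parabolic elements (S21): here the values at
`S` and `S T` are in the kernels of the norms `1 + S` and `1 + ST + (ST)²`, because `S² = (S T)³ = -1`, and
for an element `g` with `g ^ n = 1` on `X` the dimension of the kernel of `1 + g + ... + g^(n-1)` is the
number of points minus the dimension of the space of invariant functions. The result is
`GuidePeriods.parabolic_bound`. File `H77Par`. -/
theorem kernel_of_norm {G : Type*} [Group G] {X : Type*} [MulAction G X] [Finite X] {g : G} {n : ℕ}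
    (hn : 0 < n) (h : ∀ x : X, g ^ n • x = x) :
    (∀ (v : X → ℂ) (x : X), H77.nrm X g n v x = ∑ j ∈ Finset.range n, v (g ^ j • x)) ∧
      finrank ℂ (LinearMap.ker (H77.nrm X g n)) + finrank ℂ (H77.fixS X g) = Nat.card X :=
  ⟨fun v x => H77.nrm_apply g n v x, H77.finrank_ker_nrm hn h⟩

variable {G : Type*} [Group G]

/-- **The rank of `1 - g`** is the number of points minus the number of orbits of `g`. File `H50Parab`. -/
theorem rank_one_sub (X : Type*) [MulAction G X] [Finite X] (g : G) :
    (∀ (v : X → ℂ) (x : X), H50.dF X g v x = v x - v (g⁻¹ • x)) ∧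
      finrank ℂ (LinearMap.range (H50.dF X g)) +
        Nat.card (MulAction.orbitRel.Quotient (Subgroup.zpowers g) X) = Nat.card X :=
  ⟨H50.dF_apply X g, H50.finrank_range_dF_add X g⟩

/-- **Two generators.** If `S`, `T` generate `G` and the action is transitive, `(1 - S) V + S (1 - T) V`,
`V = (X → ℂ)`, has codimension at most one: this subspace contains `v - g v` for all `g`. File
`H50Parab`. -/
theorem sum_of_ranges (X : Type*) [MulAction G X] [Finite X] [MulAction.IsPretransitive G X] (S T : G)
    (hST : Subgroup.closure ({S, T} : Set G) = ⊤) :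
    Nat.card X ≤ finrank ℂ (LinearMap.range (H50.dF X S) ⊔
      (LinearMap.range (H50.dF X T)).map (H50.rhoF X S) : Submodule ℂ (X → ℂ)) + 1 :=
  H50.card_le_finrank_add_one X S T hST

/-- **The cocycle** `H50.cocF Γ g φ : G / Γ → ℂ` of a homomorphism `φ : Γ → ℂ`. The function
`p = H50.potF Γ φ` on `G` satisfies `p (h γ) = p h + φ γ`, and the value of the cocycle at `g` is the
function `h Γ ↦ p h - p (g⁻¹ h)`. File `H50Parab`. -/
theorem cocycle_over_complex (Γ : Subgroup G) (φ : Additive Γ →+ ℂ) :
    (∀ (h : G) (γ : Γ), H50.potF Γ φ (h * γ) = H50.potF Γ φ h + φ (Additive.ofMul γ)) ∧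
    (∀ g h : G, H50.cocF Γ g φ (h : G ⧸ Γ) = H50.potF Γ φ h - H50.potF Γ φ (g⁻¹ * h)) ∧
    ∀ g h : G, H50.cocF Γ (g * h) φ = H50.cocF Γ g φ + H50.rhoF (G ⧸ Γ) g (H50.cocF Γ h φ) :=
  ⟨H50.potF_mul Γ φ, fun g h => H50.cocF_mk Γ g φ h, fun g h => H50.cocF_mul Γ g h φ⟩

/-- **Where the condition enters.** If `φ` kills all elements of `Γ` which are conjugate in `G` to a power
of `g`, then the value of the cocycle at `g` is in the image of `1 - g`. File `H50Parab`. -/
theorem value_is_coboundary (Γ : Subgroup G) (g : G) (φ : Additive Γ →+ ℂ)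
    (hφ : ∀ (x : G) (m : ℤ) (h : x⁻¹ * g ^ m * x ∈ Γ),
      φ (Additive.ofMul ⟨x⁻¹ * g ^ m * x, h⟩) = 0) :
    H50.cocF Γ g φ ∈ LinearMap.range (H50.dF (G ⧸ Γ) g) :=
  H50.cocF_mem_range Γ g φ hφ

/-- **Injectivity.** If the cocycle of `φ` is the coboundary of one function `v` at both generators, then
it is the coboundary of `v` at all elements, and `φ = 0`. File `H50Parab`. -/
theorem eq_zero_over_complex (Γ : Subgroup G) (S T : G)
    (hST : Subgroup.closure ({S, T} : Set G) = ⊤) (φ : Additive Γ →+ ℂ) (v : (G ⧸ Γ) → ℂ)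
    (h1 : H50.cocF Γ S φ + H50.dF (G ⧸ Γ) S v = 0)
    (h2 : H50.cocF Γ T φ + H50.dF (G ⧸ Γ) T v = 0) : φ = 0 :=
  H50.eq_zero_of_cocF Γ S T hST φ v h1 h2

/-- **The bound for a group with two generators** and for homomorphisms which kill the conjugates of the
powers of `S`, `T` and `S T` in `Γ`. The pairs (`φ`, `v`), modulo the constants `v`, are mapped
injectively to the pairs `(a, b)` in `(1 - S) V × (1 - T) V` for which `a + S b` is in `(1 - S T) V`. Now
count with `rank_one_sub` and `sum_of_ranges`. File `H50Parab`. -/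
theorem bound_two_generators (Γ : Subgroup G) [Γ.FiniteIndex] (S T : G)
    (hST : Subgroup.closure ({S, T} : Set G) = ⊤) (P : Submodule ℂ (Additive Γ →+ ℂ))
    (hP : ∀ φ ∈ P, ∀ g : G, g = S ∨ g = T ∨ g = S * T → ∀ (x : G) (m : ℤ)
      (h : x⁻¹ * g ^ m * x ∈ Γ), φ (Additive.ofMul ⟨x⁻¹ * g ^ m * x, h⟩) = 0) :
    finrank ℂ P + Nat.card (MulAction.orbitRel.Quotient (Subgroup.zpowers S) (G ⧸ Γ)) +
      Nat.card (MulAction.orbitRel.Quotient (Subgroup.zpowers T) (G ⧸ Γ)) +
      Nat.card (MulAction.orbitRel.Quotient (Subgroup.zpowers (S * T)) (G ⧸ Γ)) ≤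
      Nat.card (G ⧸ Γ) + 2 :=
  H50.finrank_add_orbits_le Γ S T hST P (fun φ hφ => hP φ hφ S (.inl rfl))
    (fun φ hφ => hP φ hφ T (.inr (.inl rfl))) fun φ hφ => hP φ hφ (S * T) (.inr (.inr rfl))

/-- **For `SL(2, ℤ)`** and homomorphisms to `ℂ` which kill the parabolic elements (`trace ^ 2 = 4`): `T`
is parabolic, and a homomorphism to `ℂ` kills the conjugates of the powers of `S` and `S T` because
`S ^ 4 = (S T) ^ 6 = 1`. The condition `-1 ∈ Γ` is not needed. For `Γ₀(N)` it follows that the value of
the genus formula is not negative (`GuideModularCurves.genusFormula_natural`). Files `H50Parab`,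
`H50ParabGamma0`. -/
theorem bound_over_complex (Γ : Subgroup SL(2, ℤ)) [Γ.FiniteIndex] :
    finrank ℂ (ModularCurve.Period.parabolicHoms ℂ Γ ℂ) +
      Nat.card (MulAction.orbitRel.Quotient (Subgroup.zpowers (S : SL(2, ℤ))) (SL(2, ℤ) ⧸ Γ)) +
      Nat.card (MulAction.orbitRel.Quotient (Subgroup.zpowers (T : SL(2, ℤ))) (SL(2, ℤ) ⧸ Γ)) +
      Nat.card (MulAction.orbitRel.Quotient (Subgroup.zpowers (S * T : SL(2, ℤ))) (SL(2, ℤ) ⧸ Γ)) ≤
      Nat.card (SL(2, ℤ) ⧸ Γ) + 2 :=
  H50.finrank_parabolicHoms_add_le Γ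

end Complex

/-! ## 5. The group of periods

`H8.Lam Γ` is the quotient of the abelianisation of `Γ` by the classes of the parabolic and elliptic
elements, written additively, and `H8.proj Γ` the projection of `Γ` to it. -/

section Lattice

variable (Γ : Subgroup SL(2, ℤ))

/-- **Universal property**: the projection is onto, it kills the elements with `trace ^ 2 ≤ 4`, and every
homomorphism from `Γ` to an abelian group which kills them factors through it. File `H8ShimTF`. -/
theorem universal_property :
    Function.Surjective (H8.proj Γ) ∧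
    (∀ γ : Γ, ((γ : SL(2, ℤ)) : Matrix (Fin 2) (Fin 2) ℤ).trace ^ 2 ≤ 4 →
      H8.proj Γ (Additive.ofMul γ) = 0) ∧
    ∀ {A : Type} [AddCommGroup A] (φ : Additive Γ →+ A),
      (∀ γ : Γ, ((γ : SL(2, ℤ)) : Matrix (Fin 2) (Fin 2) ℤ).trace ^ 2 ≤ 4 →
        φ (Additive.ofMul γ) = 0) → ∃ χ : H8.Lam Γ →+ A, χ.comp (H8.proj Γ) = φ :=
  ⟨H8.proj_surjective Γ, fun _ hγ => H8.proj_of_mem Γ hγ, fun φ hφ => H8.exists_lift Γ φ hφ⟩

/-- **It is finitely generated** if the index is finite (a subgroup of finite index of a finitely generated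
group is finitely generated). File `H8ShimTF`. -/
theorem finitely_generated [Γ.FiniteIndex] : AddGroup.FG (H8.Lam Γ) :=
  H8.addGroupFG_Lam Γ

/-- **A criterion for freeness**: a finitely generated abelian group `Λ` is free if for some `g` the space
`Hom(Λ, ℝ)` has dimension at least `g` and all spaces `Hom(Λ, ℤ/ℓ)`, `ℓ` prime, have dimension at most
`g`. (A cyclic factor of order `ℓ^e` would make `Hom(Λ, ℤ/ℓ)` too large.) File `H8ShimTF`. -/
theorem free_criterion {Λ : Type*} [AddCommGroup Λ] [AddGroup.FG Λ] (g : ℕ)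
    (hR : g ≤ finrank ℝ (Λ →+ ℝ))
    (hfin : ∀ (ℓ : ℕ) [Fact ℓ.Prime], Module.Finite (ZMod ℓ) (Λ →+ ZMod ℓ))
    (hle : ∀ (ℓ : ℕ) [Fact ℓ.Prime], finrank (ZMod ℓ) (Λ →+ ZMod ℓ) ≤ g) : Module.Free ℤ Λ :=
  H8.free_of_finrank g hR hfin hle

/-- **The criterion for `H8.Lam Γ`.** For `Γ₀(N)` the hypotheses hold with `g` replaced by twice the
dimension of the space of cusp forms of weight two: the real dimension is exactly this number (`bound` for
`F = ℝ`, injectivity of the real period map, dimension formula), and `bound` for `F = ℤ/ℓ` gives the upper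
bounds; result: `GuidePeriods.lattice_free`. File `H8ShimTF`. -/
theorem lattice_criterion [Γ.FiniteIndex] (g : ℕ) (hR : g ≤ finrank ℝ (smallHoms Γ ℝ))
    (hfin : ∀ (ℓ : ℕ) [Fact ℓ.Prime], Module.Finite (ZMod ℓ) (smallHoms Γ (ZMod ℓ)))
    (hle : ∀ (ℓ : ℕ) [Fact ℓ.Prime], finrank (ZMod ℓ) (smallHoms Γ (ZMod ℓ)) ≤ g) :
    Module.Free ℤ (H8.Lam Γ) :=
  H8.lam_free Γ g hR hfin hle

/-- **Lifting.** If the group of periods is free, every homomorphism `Γ → B` which kills the parabolic and
elliptic elements lifts along every surjection `A → B` of abelian groups to one of the same kind, for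
instance from `ℤ/n` to `ℤ`. So a class modulo `n` is the reduction of an integral class, and an integral
class is the real part of the period homomorphism of a cusp form. File `H8ShimTF`. -/
theorem exists_lift_of_free [Module.Free ℤ (H8.Lam Γ)] {A B : Type*} [AddCommGroup A] [AddCommGroup B]
    (f : A →+ B) (hf : Function.Surjective f) (φ : Additive Γ →+ B)
    (hφ : ∀ γ : Γ, ((γ : SL(2, ℤ)) : Matrix (Fin 2) (Fin 2) ℤ).trace ^ 2 ≤ 4 →
      φ (Additive.ofMul γ) = 0) :
    ∃ φ' : Additive Γ →+ A, (∀ γ : Γ, ((γ : SL(2, ℤ)) : Matrix (Fin 2) (Fin 2) ℤ).trace ^ 2 ≤ 4 →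
      φ' (Additive.ofMul γ) = 0) ∧ f.comp φ' = φ :=
  H8.exists_lift_of_free Γ f hf φ hφ

end Lattice

end Fermat.Agent.Guide.Parabolic
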