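import Fermat.Agent.H69Full

/-!
# The module part of a level of the full endgame, with additional elements killing all modules
(variant of helper69's `exists_fullModPart`; helper21)
-/

set_option autoImplicit false
set_option linter.style.haveILetI false
set_option linter.unusedSectionVars false

namespace Fermat.Agent.H21M

open IsLocalRing Fermat.Agent.H69.KP Fermat.Agent.H59 TensorProduct Fermat.Agent.H57.NM
  Fermat.Agent.H57.Full Fermat.Agent.H69.EG

section Main

variable {O : Type} [CommRing O] [IsDomain O] [IsDiscreteValuationRing O]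
  [IsAdicComplete (maximalIdeal O) O] [Finite (ResidueField O)] [CharZero O]
  {p : ℕ} [Fact p.Prime] [CharP (ResidueField O) p]
  {R : Type} [CommRing R] [IsLocalRing R] [Algebra O R]
  {𝕋 : Type} [CommRing 𝕋] [Algebra O 𝕋]

variable [Module.Finite O 𝕋]

/-- **The module part of a level of the full endgame.** -/
theorem exists_fullModPart_U [IsReduced 𝕋] [IsAdicComplete (maximalIdeal R) R]
    {ϖ c' : O} {r n D m s : ℕ} {T : Type} {prodElt uniElt : T → R} {y : Fin s → Fin 3 → R}
    {cb : Fin s → O}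
    (π : R →ₐ[O] 𝕋) (e : Fin r → ℕ) (hne : ∀ j, n ≤ e j)
    (c : Fin r → R) (hcm : ∀ j, c j ∈ maximalIdeal R) (hc : ∀ j, (1 + c j) ^ (p ^ e j) = 1)
    -- the modules
    (E : MIdx s → EMod O p e 𝕋) (hd0 : 0 < (E .chi).d) (hdD : ∀ τ, (E τ).d ≤ D)
    (hEA1 : ∀ τ, (E τ).Compat π c)
    (hprod : ∀ t, ForallEigen (E .chi).Φ fun _ _ _ _ _ _ _ _ _ _ lam _ =>
      lam (π (prodElt t)) = 0)
    (huni : ∀ i t, ForallEigen (E (.mod i)).Φ fun _ _ _ _ _ _ _ _ _ _ lam _ =>
      lam (π (uniElt t)) = 0)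
    (hchi : ∀ i, ForallEigen (E .chi).Φ fun _ _ _ _ _ _ _ _ _ _ lam _ =>
      lam (π (y i 1)) = 0 ∧ lam (π (y i 2)) = 0)
    (hnr : ∀ (i : Fin (s + 1)) (j : Fin s), (i : ℕ) ≤ j →
      ForallEigen (E (.mod i)).Φ fun _ _ _ _ _ _ _ _ _ _ lam _ =>
        lam (π (y j 1)) = 0 ∧ lam (π (y j 2)) = 0)
    (hun : ∀ (i : Fin (s + 1)) (j : Fin s), (j : ℕ) < i →
      ForallEigen (E (.mod i)).Φ fun O' _ _ _ _ _ _ _ _ _ lam _ =>
        lam (π (y j 1)) * lam (π (y j 0)) = 0 ∧
        lam (π (y j 2)) * (lam (π (y j 0)) + algebraMap O O' (cb j)) = 0)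
    (hnew : ∀ (i : Fin s) (x : (E (.new i)).M),
      (E (.new i)).Φ (π ((y i 0 * (y i 0 + algebraMap O R (cb i))) ^ 2)) x = 0)
    -- the congruence between the module with characters and the unipotent module
    {Y : Type} [AddCommGroup Y]
    (g : (E .chi).M →+ Y) (hg : Function.Surjective g) (hgk : ∀ x, g x = 0 ↔ ∃ y, x = ϖ • y)
    (g₁ : (E (.mod 0)).M →+ Y) (hg₁ : Function.Surjective g₁)
    (hgk₁ : ∀ x, g₁ x = 0 ↔ ∃ y, x = ϖ • y)
    (hgg : ∀ t x y, g x = g₁ y → g ((E .chi).Φ t x) = g₁ ((E (.mod 0)).Φ t y))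
    -- the quotients and the maps to lower level
    (quo : ∀ i : Fin s, (E (.mod i.succ)).M →+ (E (.new i)).M)
    (hquo : ∀ i t x, quo i ((E (.mod i.succ)).Φ t x) = (E (.new i)).Φ t (quo i x))
    (hquo_surj : ∀ i, Function.Surjective (quo i))
    (low : ∀ i : Fin s, (E (.mod i.succ)).M →+ (E (.mod i.castSucc)).M)
    (hlow : ∀ i t x, low i ((E (.mod i.succ)).Φ t x) = (E (.mod i.castSucc)).Φ t (low i x))
    (hlow_surj : ∀ i a, ∃ x, low i x = c' • a)
    (hlow_old : ∀ i x, quo i x = 0 →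
      ∃ a, low i x = (E (.mod i.castSucc)).Φ (π (y i 0)) a)
    -- the point
    (pt : R →ₐ[O] O) (hpt : ∀ j, pt (c j) = 0) (hptu : ∀ t, pt (uniElt t) = 0)
    (hptt : ∀ i, pt (y i 0) = 0) (hptz : ∀ i, pt (y i 2) = 0)
    (f : R) (hEA4 : ForallEigen (E (.mod (Fin.last s))).Φ fun O' _ _ _ _ _ _ _ _ _ lam x =>
      (∀ g, ((E (.mod (Fin.last s))).Ψ g).baseChange O' x = x) → lam (π f) = 0)
    (hf : pt f ∉ Ideal.span {ϖ ^ m})
    -- elements which kill all modules
    (U : Set R) (hUc : ∀ a ∈ U, ForallEigen (E .chi).Φ fun _ _ _ _ _ _ _ _ _ _ lam _ =>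
      lam (π a) = 0)
    (hUm : ∀ i, ∀ a ∈ U, ForallEigen (E (.mod i)).Φ fun _ _ _ _ _ _ _ _ _ _ lam _ =>
      lam (π a) = 0) :
    ∃ mp : FullModPart O ϖ c' p r n D m s R prodElt uniElt y cb,
      mp.pt = pt ∧ letI := mp.instAddCommGroup; letI := mp.instModule;
      ∀ a ∈ U, ∀ τ (x : mp.N τ), a • x = 0 := by
  classical
  obtain ⟨φ, hφ⟩ := Fermat.Agent.H56.exists_mvPowerSeries_eval (O := O) (maximalIdeal R) c hcm
  have key := fun τ => exists_pres π e c hc φ hφ (E τ).Φ (E τ).Ψ (E τ).comm (E τ).b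
    (E τ).b_apply (hEA1 τ)
  letI iM : ∀ τ, Module R (E τ).M := fun τ => modOf π (E τ).Φ
  choose bb hbs hbr hbf using key
  have hsm : ∀ τ (a : R) (x : (E τ).M), a • x = (E τ).Φ (π a) x := fun _ _ _ => rfl
  haveI : ∀ τ, IsScalarTower O R (E τ).M := fun τ => ⟨fun a s x => by
    rw [hsm, hsm, map_smul, map_smul]
    rfl⟩
  have hOsm : ∀ τ (a : O) (x : (E τ).M), algebraMap O R a • x = a • x :=
    fun τ a x => algebraMap_smul R a x
  have hkill : ∀ τ (a : R), (ForallEigen (E τ).Φ fun _ _ _ _ _ _ _ _ _ _ lam _ =>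
      lam (π a) = 0) → ∀ x : (E τ).M, a • x = 0 := by
    intro τ a h x
    rw [hsm, map_eq_zero_of_eigen (E τ).Φ _ h]
    rfl
  refine ⟨
    { N := fun τ => (E τ).M
      d := fun τ => (E τ).d
      d_pos := hd0
      d_le := hdD
      e := e
      le_e := hne
      φ := φ
      φ_mem := fun j => by rw [hφ]; exact hcm j
      b := bb
      b_span := hbs
      b_rel := hbr
      prod_smul := fun t x => hkill .chi _ (hprod t) x
      uni_smul := fun i t x => hkill (.mod i) _ (huni i t) x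
      chi_nr := fun i x => ⟨hkill .chi _ (fun O' _ _ _ _ _ _ _ _ _ h lam z hz hl =>
          (hchi i O' h lam z hz hl).1) x,
        hkill .chi _ (fun O' _ _ _ _ _ _ _ _ _ h lam z hz hl =>
          (hchi i O' h lam z hz hl).2) x⟩
      mod_nr := fun i j hij x => ⟨hkill (.mod i) _ (fun O' _ _ _ _ _ _ _ _ _ h lam z hz hl =>
          (hnr i j hij O' h lam z hz hl).1) x,
        hkill (.mod i) _ (fun O' _ _ _ _ _ _ _ _ _ h lam z hz hl =>
          (hnr i j hij O' h lam z hz hl).2) x⟩
      mod_uni := fun i j hij x => ⟨hkill (.mod i) _ (fun O' _ _ _ _ _ _ _ _ _ h lam z hz hl => by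
          change lam (π (y j 1 * y j 0)) = 0
          rw [map_mul, map_mul]
          exact (hun i j hij O' h lam z hz hl).1) x,
        hkill (.mod i) _ (fun O' _ _ _ _ _ _ _ _ _ h lam z hz hl => by
          change lam (π (y j 2 * (y j 0 + algebraMap O R (cb j)))) = 0
          rw [map_mul, map_add, AlgHom.commutes, map_mul, map_add, AlgHom.commutes]
          exact (hun i j hij O' h lam z hz hl).2) x⟩
      new_smul := hnew
      iso := exists_iso (algebraMap O R ϖ) g hg
        (fun x => by simp only [hOsm]; exact hgk x) g₁ hg₁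
        (fun x => by simp only [hOsm]; exact hgk₁ x)
        fun t x y h => hgg (π t) x y h
      quo := fun i =>
        { toFun := quo i
          map_add' := (quo i).map_add
          map_smul' := fun a x => hquo i (π a) x }
      quo_surj := hquo_surj
      low := fun i =>
        { toFun := low i
          map_add' := (low i).map_add
          map_smul' := fun a x => hlow i (π a) x }
      low_surj := fun i a => by
        obtain ⟨x, hx⟩ := hlow_surj i a
        exact ⟨x, by rw [hOsm]; exact hx⟩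
      low_old := fun i x hx => hlow_old i x hx
      pt := pt
      pt_φ := fun j => by rw [hφ]; exact hpt j
      pt_uni := hptu
      pt_t := hptt
      pt_z := hptz
      f := f
      f_smul := fun x => hbf _ _ (map_norm_eq_zero (E (.mod (Fin.last s))).Φ
        (E (.mod (Fin.last s))).Ψ (E (.mod (Fin.last s))).comm (π f) hEA4 x)
      f_pt := hf }, rfl, ?_⟩
  intro a ha τ
  match τ with
  | .chi => exact fun x => hkill .chi a (hUc a ha) x
  | .mod i => exact fun x => hkill (.mod i) a (hUm i a ha) x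
  | .new i =>
    intro x
    obtain ⟨z, rfl⟩ := hquo_surj i x
    change (E (.new i)).Φ (π a) (quo i z) = 0
    rw [← hquo]
    have h1 : (E (.mod i.succ)).Φ (π a) z = 0 := hkill (.mod i.succ) a (hUm i.succ a ha) z
    rw [h1, map_zero]

end Main

end Fermat.Agent.H21M
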