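import Fermat.Agent.H70Mod
import Fermat.Agent.H70Grp

/-!
# Localised modules: ranks, quotients, passage to points
-/

set_option autoImplicit false
set_option linter.style.haveILetI false

open Matrix CongruenceSubgroup IsLocalRing
open scoped MatrixGroups TensorProduct

namespace Fermat.Agent.H70.Mod

open Fermat.Agent.H70.Coh Fermat.Agent.H59

section Rank

variable {N M : ℕ} (hM : N ∣ M) {S : Set ℕ} (hS : Away M S) {R : Type} [CommRing R]
  (ψ η : (ZMod N)ˣ →* Rˣ) {R' : Type} [CommRing R']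
  {O : Type} [CommRing O] [Algebra O R] [Algebra O R'] (hg : Good M R) (hψ : ψ (-1) = 1)
  {κ : Type} [Field κ] {θ : MvPolynomial (Idx S) O →+* κ} {e : MvPolynomial (Idx S) O}

include hg hψ in
/-- freeness and rank are preserved by base change -/
theorem free_finrank_map [NeZero M] [Nontrivial R] [Nontrivial R']
    (he : IsLocIdem (tw hM hS ψ η) (tw_comm hM hS ψ η) θ e)
    [Module.Free R (MLoc hM hS ψ η e)] [Module.Finite R (MLoc hM hS ψ η e)]
    (f : R →+* R') (hf : ∀ a : O, f (algebraMap O R a) = algebraMap O R' a) :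
    Module.Free R' (MLoc hM hS (psiMap f ψ) (psiMap f η) e) ∧
      Module.Finite R' (MLoc hM hS (psiMap f ψ) (psiMap f η) e) ∧
      Module.finrank R' (MLoc hM hS (psiMap f ψ) (psiMap f η) e) =
        Module.finrank R (MLoc hM hS ψ η e) := by
  letI : Algebra R R' := f.toAlgebra
  haveI : IsScalarTower O R R' := IsScalarTower.of_algebraMap_eq fun a => (hf a).symm
  let E := LinearEquiv.ofBijective (mBC (e := e) (R' := R') hM hS ψ η)
    (mBC_bijective hM hS ψ η hg hψ he)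
  exact ⟨Module.Free.of_equiv E, Module.Finite.equiv E,
    E.finrank_eq.symm.trans (Module.finrank_baseChange)⟩

/-- characters which are residually trivial -/
def ResTriv [IsLocalRing R] (ψ : (ZMod N)ˣ →* Rˣ) : Prop :=
  ∀ u, ((ψ u : Rˣ) : R) - 1 ∈ maximalIdeal R

lemma ResTriv.psiMap_residue [IsLocalRing R] {ψ : (ZMod N)ˣ →* Rˣ} (h : ResTriv ψ) :
    psiMap (residue R) ψ = 1 := by
  ext u
  rw [psiMap_apply, MonoidHom.one_apply, Units.val_one]
  have h1 := h u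
  rw [← residue_eq_zero_iff, map_sub, map_one, sub_eq_zero] at h1
  exact h1

lemma ResTriv.map [IsLocalRing R] [IsLocalRing R'] {ψ : (ZMod N)ˣ →* Rˣ} (h : ResTriv ψ)
    (f : R →+* R') (hf : (maximalIdeal R).map f ≤ maximalIdeal R') : ResTriv (psiMap f ψ) := by
  intro u
  rw [psiMap_apply, ← map_one f, ← map_sub]
  exact hf (Ideal.mem_map_of_mem f (h u))

lemma ResTriv.one [IsLocalRing R] : ResTriv (1 : (ZMod N)ˣ →* Rˣ) := by
  intro u
  rw [MonoidHom.one_apply, Units.val_one, sub_self]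
  exact zero_mem _

lemma ResTriv.mul [IsLocalRing R] {ψ χ : (ZMod N)ˣ →* Rˣ} (h : ResTriv ψ) (h' : ResTriv χ) :
    ResTriv (ψ * χ) := by
  intro u
  have h1 := Ideal.add_mem _ (Ideal.mul_mem_left _ ((χ u : Rˣ) : R) (h u)) (h' u)
  rw [MonoidHom.mul_apply, Units.val_mul]
  convert h1 using 1
  ring

lemma ResTriv.pow [IsLocalRing R] {ψ : (ZMod N)ˣ →* Rˣ} (h : ResTriv ψ) (n : ℕ) :
    ResTriv (ψ ^ n) := by
  intro u
  rw [MonoidHom.pow_apply, Units.val_pow_eq_pow_val]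
  have h1 := sub_dvd_pow_sub_pow ((ψ u : Rˣ) : R) 1 n
  rw [one_pow] at h1
  exact Ideal.mem_of_dvd _ h1 (h u)

lemma psiMap_one (f : R →+* R') : psiMap f (1 : (ZMod N)ˣ →* Rˣ) = 1 := by
  ext u
  rw [psiMap_apply, MonoidHom.one_apply, Units.val_one, map_one]
  rfl

lemma psiMap_mul (f : R →+* R') (ψ χ : (ZMod N)ˣ →* Rˣ) :
    psiMap f (ψ * χ) = psiMap f ψ * psiMap f χ := by
  ext u
  rw [psiMap_apply, MonoidHom.mul_apply, Units.val_mul, map_mul]
  rfl

lemma psiMap_pow (f : R →+* R') (ψ : (ZMod N)ˣ →* Rˣ) (n : ℕ) :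
    psiMap f (ψ ^ n) = (psiMap f ψ) ^ n := by
  ext u
  rw [psiMap_apply, MonoidHom.pow_apply, Units.val_pow_eq_pow_val, map_pow]
  rfl

include hg hψ in
/-- over a local ring with residually trivial characters, the localised module is free, and its
rank is the rank over the residue field with trivial characters -/
theorem finrank_mloc_residue [NeZero M] [IsLocalRing R]
    (he : IsLocIdem (tw hM hS ψ η) (tw_comm hM hS ψ η) θ e) (hψ1 : ResTriv ψ) (hη1 : ResTriv η)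
    (i₀ : Idx S) (hi₀ : θ (MvPolynomial.X i₀) ≠ 1 + (i₀.1 : κ)) :
    Module.finrank (ResidueField R) (MLoc (R := ResidueField R) hM hS 1 1 e) =
      Module.finrank R (MLoc hM hS ψ η e) := by
  obtain ⟨h1, h2⟩ := loc_free hM hS ψ η hg hψ he hψ1 hη1 i₀ hi₀
  obtain ⟨-, -, h3⟩ := free_finrank_map (R' := ResidueField R) hM hS ψ η hg hψ he (residue R)
    (fun a => rfl)
  rw [hψ1.psiMap_residue, hη1.psiMap_residue] at h3
  exact h3

end Rank

section Rank2

variable {N M : ℕ} (hM : N ∣ M) {S : Set ℕ} (hS : Away M S)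
  {O : Type} [CommRing O] [IsLocalRing O]
  {κ : Type} [Field κ] {θ : MvPolynomial (Idx S) O →+* κ} {e : MvPolynomial (Idx S) O}
  (i₀ : Idx S) (hi₀ : θ (MvPolynomial.X i₀) ≠ 1 + (i₀.1 : κ))
  {R : Type} [CommRing R] [IsLocalRing R] [Algebra O R]
  (ψ η : (ZMod N)ˣ →* Rˣ)

include hi₀ in
/-- **The rank does not depend on the ring and the characters.** -/
theorem finrank_mloc_eq [NeZero M] (hgO : Good M O) (hgR : Good M R) (hψ : ψ (-1) = 1)
    (heO : IsLocIdem (tw (R := O) hM hS 1 1) (tw_comm hM hS 1 1) θ e)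
    (heR : IsLocIdem (tw hM hS ψ η) (tw_comm hM hS ψ η) θ e)
    (hψ1 : ResTriv ψ) (hη1 : ResTriv η) :
    Module.finrank R (MLoc hM hS ψ η e) = Module.finrank O (MLoc (R := O) hM hS 1 1 e) := by
  rw [← finrank_mloc_residue hM hS ψ η hgR hψ heR hψ1 hη1 i₀ hi₀]
  obtain ⟨h1, h2⟩ := loc_free hM hS (1 : (ZMod N)ˣ →* Oˣ) 1 hgO rfl heO ResTriv.one ResTriv.one
    i₀ hi₀
  have h4 := (free_finrank_map (R' := ResidueField R) hM hS (1 : (ZMod N)ˣ →* Oˣ) 1 hgO rfl heO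
    (algebraMap O (ResidueField R)) (fun a => rfl)).2.2
  rw [psiMap_one] at h4
  exact h4

end Rank2

section Quot

lemma exists_lift_quot {R R' A B Z : Type} [CommRing R] [CommRing R'] (f : R →+* R')
    [AddCommGroup A] [Module R A] [AddCommGroup B] [Module R B] [AddCommGroup Z] [Module R' Z]
    (g₁ : A →ₛₗ[f] Z) (g₂ : B →ₛₗ[f] Z) (h₁ : Function.Surjective g₁)
    (h₂ : Function.Surjective g₂) (K : Submodule R B) (hK : ∀ y, g₂ y = 0 ↔ y ∈ K) :
    ∃ F : A →ₗ[R] B ⧸ K, Function.Surjective F ∧ (∀ x, F x = 0 ↔ g₁ x = 0) ∧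
      ∀ x y, F x = Submodule.Quotient.mk y ↔ g₁ x = g₂ y := by
  have hwd : ∀ y y', K.mkQ y = K.mkQ y' ↔ g₂ y = g₂ y' := by
    intro y y'
    rw [Submodule.mkQ_apply, Submodule.mkQ_apply, Submodule.Quotient.eq, ← hK, map_sub,
      sub_eq_zero]
  let F : A →ₗ[R] (B ⧸ K) :=
    { toFun := fun x => K.mkQ (h₂ (g₁ x)).choose
      map_add' := by
        intro x y
        rw [← map_add, hwd, (h₂ _).choose_spec, map_add, map_add, (h₂ _).choose_spec,
          (h₂ _).choose_spec]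
      map_smul' := by
        intro r x
        rw [RingHom.id_apply, ← map_smul, hwd, (h₂ _).choose_spec, map_smulₛₗ, map_smulₛₗ,
          (h₂ _).choose_spec] }
  have hFy : ∀ x y, F x = Submodule.Quotient.mk y ↔ g₁ x = g₂ y := by
    intro x y
    change K.mkQ (h₂ (g₁ x)).choose = K.mkQ y ↔ _
    rw [hwd, (h₂ _).choose_spec]
  refine ⟨F, ?_, ?_, hFy⟩
  · intro z
    obtain ⟨y, rfl⟩ := Submodule.Quotient.mk_surjective _ z
    obtain ⟨x, hx⟩ := h₁ (g₂ y)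
    exact ⟨x, (hFy x y).mpr hx⟩
  · intro x
    have h := hFy x 0
    rw [map_zero, Submodule.Quotient.mk_zero] at h
    exact h

variable {N M : ℕ} (hM : N ∣ M) {S : Set ℕ} (hS : Away M S) {R : Type} [CommRing R]
  (ψ η ψ₂ η₂ : (ZMod N)ˣ →* Rˣ) {O : Type} [CommRing O] [Algebra O R] (hg : Good M R)
  (hψ : ψ (-1) = 1) (hψ₂ : ψ₂ (-1) = 1)
  {κ : Type} [Field κ] {θ : MvPolynomial (Idx S) O →+* κ} {e : MvPolynomial (Idx S) O}

include hg hψ in
/-- reduction modulo `ϖ` of the localised module -/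
lemma exists_red [NeZero M] (he : IsLocIdem (tw hM hS ψ η) (tw_comm hM hS ψ η) θ e) (ϖ : O)
    {R' : Type} [CommRing R'] [Algebra O R'] (f : R →+* R')
    (hf : ∀ a : O, f (algebraMap O R a) = algebraMap O R' a) (hfs : Function.Surjective f)
    (hker : RingHom.ker f = Ideal.span {algebraMap O R ϖ}) (α β : (ZMod N)ˣ →* R'ˣ)
    (hα : psiMap f ψ = α) (hβ : psiMap f η = β) :
    ∃ G : MLoc hM hS ψ η e →ₛₗ[f] MLoc hM hS α β e, Function.Surjective G ∧
        (∀ x, G x = 0 ↔ ∃ y, x = ϖ • y) ∧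
        ∀ P x, G (mact hM hS ψ η e P x) = mact hM hS α β e P (G x) := by
  subst hα hβ
  refine ⟨mS hM hS ψ η e f hf, mS_surjective hM hS ψ η hg hψ he f hf hfs, fun x => ?_,
    mS_mact hM hS ψ η e f hf⟩
  rw [mS_eq_zero_iff hM hS ψ η hg hψ he f hf hfs, hker,
    Submodule.ideal_span_singleton_smul, Submodule.mem_smul_pointwise_iff_exists]
  constructor
  · rintro ⟨y, -, rfl⟩
    exact ⟨y, algebraMap_smul R ϖ y⟩
  · rintro ⟨y, rfl⟩
    exact ⟨y, trivial, algebraMap_smul R ϖ y⟩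

/-- the submodule `ϖ M` -/
def piSub {O R X : Type} [CommRing O] [CommRing R] [Algebra O R] [AddCommGroup X] [Module R X]
    [Module O X] [IsScalarTower O R X] (ϖ : O) : Submodule R X where
  carrier := {x | ∃ y, x = ϖ • y}
  add_mem' := by
    rintro _ _ ⟨y, rfl⟩ ⟨z, rfl⟩
    exact ⟨y + z, (smul_add _ _ _).symm⟩
  zero_mem' := ⟨0, (smul_zero _).symm⟩
  smul_mem' := by
    rintro r _ ⟨y, rfl⟩
    exact ⟨r • y, smul_comm _ _ _⟩

lemma mem_piSub {O R X : Type} [CommRing O] [CommRing R] [Algebra O R] [AddCommGroup X]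
    [Module R X] [Module O X] [IsScalarTower O R X] (ϖ : O) (x : X) :
    x ∈ (piSub ϖ : Submodule R X) ↔ ∃ y, x = ϖ • y := Iff.rfl

include hg hψ hψ₂ in
lemma exists_congr_aux [NeZero M] (he : IsLocIdem (tw hM hS ψ η) (tw_comm hM hS ψ η) θ e)
    (he₂ : IsLocIdem (tw hM hS ψ₂ η₂) (tw_comm hM hS ψ₂ η₂) θ e) (ϖ : O)
    {R' : Type} [CommRing R'] [Algebra O R'] (f : R →+* R')
    (hf : ∀ a : O, f (algebraMap O R a) = algebraMap O R' a) (hfs : Function.Surjective f)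
    (hker : RingHom.ker f = Ideal.span {algebraMap O R ϖ})
    (e1 : psiMap f ψ = psiMap f ψ₂) (e2 : psiMap f η = psiMap f η₂) :
    ∃ F : MLoc hM hS ψ η e →ₗ[R]
        (MLoc hM hS ψ₂ η₂ e ⧸ (piSub ϖ : Submodule R (MLoc hM hS ψ₂ η₂ e))),
      Function.Surjective F ∧
      (∀ x, F x = 0 ↔ ∃ y, x = ϖ • y) ∧
      ∀ (P : MvPolynomial (Idx S) O) (x : MLoc hM hS ψ η e) (y : MLoc hM hS ψ₂ η₂ e),
        F x = Submodule.Quotient.mk y →
        F (mact hM hS ψ η e P x) = Submodule.Quotient.mk (mact hM hS ψ₂ η₂ e P y) := by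
  have H1 := exists_red (e := e) hM hS ψ η hg hψ he ϖ f hf hfs hker
    (psiMap f ψ₂) (psiMap f η₂) e1 e2
  obtain ⟨G₁, hG⟩ := H1
  have H2 := exists_red (e := e) hM hS ψ₂ η₂ hg hψ₂ he₂ ϖ f hf hfs hker
    (psiMap f ψ₂) (psiMap f η₂) rfl rfl
  obtain ⟨G₂, hG'⟩ := H2
  have H3 := exists_lift_quot f G₁ G₂ hG.1 hG'.1
    (piSub ϖ : Submodule R (MLoc hM hS ψ₂ η₂ e)) hG'.2.1
  obtain ⟨F, hF⟩ := H3
  refine ⟨F, hF.1, fun x => (hF.2.1 x).trans (hG.2.1 x), fun P x y h => ?_⟩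
  have h1 : G₁ x = G₂ y := (hF.2.2 x y).mp h
  have h2 := hG.2.2 P x
  have h3 := hG'.2.2 P y
  rw [h1, ← h3] at h2
  have h4 := (hF.2.2 (mact hM hS ψ η e P x) (mact hM hS ψ₂ η₂ e P y)).mpr h2
  exact h4

include hg hψ hψ₂ in
/-- **Congruences between the modules for congruent characters.** -/
theorem exists_congr [NeZero M] (he : IsLocIdem (tw hM hS ψ η) (tw_comm hM hS ψ η) θ e)
    (he₂ : IsLocIdem (tw hM hS ψ₂ η₂) (tw_comm hM hS ψ₂ η₂) θ e) (ϖ : O)
    (hψψ : ∀ u, ∃ r : R, ((ψ u : Rˣ) : R) - ((ψ₂ u : Rˣ) : R) = ϖ • r)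
    (hηη : ∀ u, ∃ r : R, ((η u : Rˣ) : R) - ((η₂ u : Rˣ) : R) = ϖ • r) :
    ∃ F : MLoc hM hS ψ η e →ₗ[R]
        (MLoc hM hS ψ₂ η₂ e ⧸ (piSub ϖ : Submodule R (MLoc hM hS ψ₂ η₂ e))),
      Function.Surjective F ∧
      (∀ x, F x = 0 ↔ ∃ y, x = ϖ • y) ∧
      ∀ (P : MvPolynomial (Idx S) O) (x : MLoc hM hS ψ η e) (y : MLoc hM hS ψ₂ η₂ e),
        F x = Submodule.Quotient.mk y →
        F (mact hM hS ψ η e P x) = Submodule.Quotient.mk (mact hM hS ψ₂ η₂ e P y) := by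
  have hmem : ∀ r : R, Ideal.Quotient.mk (Ideal.span {algebraMap O R ϖ}) (ϖ • r) = 0 := by
    intro r
    rw [Algebra.smul_def, map_mul]
    have : Ideal.Quotient.mk (Ideal.span {algebraMap O R ϖ}) (algebraMap O R ϖ) = 0 :=
      Ideal.Quotient.eq_zero_iff_mem.mpr (Ideal.subset_span rfl)
    rw [this, zero_mul]
  refine exists_congr_aux hM hS ψ η ψ₂ η₂ hg hψ hψ₂ he he₂ ϖ
    (Ideal.Quotient.mk (Ideal.span {algebraMap O R ϖ})) (fun a => rfl)
    Ideal.Quotient.mk_surjective Ideal.mk_ker ?_ ?_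
  · ext u
    rw [psiMap_apply, psiMap_apply]
    obtain ⟨r, hr⟩ := hψψ u
    rw [← sub_eq_zero, ← map_sub, hr, hmem]
  · ext u
    rw [psiMap_apply, psiMap_apply]
    obtain ⟨r, hr⟩ := hηη u
    rw [← sub_eq_zero, ← map_sub, hr, hmem]

end Quot

end Fermat.Agent.H70.Mod
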