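import Fermat.Agent.H21MLev
import Fermat.Agent.H70Mod2

/-!
# Congruences between the modules of a level; points with trivial diamond character (helper69)

* `exists_cong` : the input `Y, g, g₁, hgg` of `H69.EG.exists_fullModPart`.
* `exists_pt_model` : from eigenvectors of a module of the chain to points.
* `eigen_trivial_of_pt` : the input `hEA4` of `H69.EG.exists_fullModPart`.
-/

set_option autoImplicit false
set_option linter.style.haveILetI false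
set_option linter.unusedSectionVars false

open Matrix CongruenceSubgroup IsLocalRing CuspForm
open scoped MatrixGroups TensorProduct

namespace Fermat.Agent.H69.Cong

open Fermat.Agent.H70.Coh Fermat.Agent.H70.Mod Fermat.Agent.H59 Fermat.Agent.H37.Rank
  Fermat.Agent.H30 Fermat.Agent.H69.EG Fermat.Agent.H21M

set_option synthInstance.maxHeartbeats 400000
set_option maxHeartbeats 1000000

section CongAux

variable {O Λ X₁ X₂ Z₁ Z₂ : Type} [CommRing O] [CommRing Λ] [Algebra O Λ] [AddCommGroup X₁]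
  [Module O X₁] [AddCommGroup X₂] [Module O X₂] [AddCommGroup Z₁] [Module Λ Z₁] [Module O Z₁]
  [AddCommGroup Z₂] [Module Λ Z₂] [Module O Z₂]

lemma cong_aux (ι₁ : X₁ ≃ₗ[O] Z₁) (ι₂ : X₂ ≃ₗ[O] Z₂) (K : Submodule Λ Z₂) (ϖ : O)
    (hK : ∀ x, x ∈ K ↔ ∃ y, x = ϖ • y) (F : Z₁ →ₗ[Λ] Z₂ ⧸ K) (hF : Function.Surjective F)
    (hFk : ∀ x, F x = 0 ↔ ∃ y, x = ϖ • y) :
    ∃ (Y : Type) (_ : AddCommGroup Y) (g : X₁ →+ Y) (g₁ : X₂ →+ Y),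
      (Function.Surjective g ∧ ∀ x, g x = 0 ↔ ∃ y, x = ϖ • y) ∧
      (Function.Surjective g₁ ∧ ∀ x, g₁ x = 0 ↔ ∃ y, x = ϖ • y) ∧
      ∀ x y, g x = g₁ y ↔ F (ι₁ x) = Submodule.Quotient.mk (ι₂ y) := by
  refine ⟨Z₂ ⧸ K, inferInstance,
    F.toAddMonoidHom.comp (ι₁ : X₁ →ₗ[O] Z₁).toAddMonoidHom,
    K.mkQ.toAddMonoidHom.comp (ι₂ : X₂ →ₗ[O] Z₂).toAddMonoidHom,
    ⟨fun z => ?_, fun x => ?_⟩, ⟨fun z => ?_, fun x => ?_⟩, fun x y => Iff.rfl⟩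
  · obtain ⟨y, rfl⟩ := hF z
    exact ⟨ι₁.symm y, congrArg F (ι₁.apply_symm_apply y)⟩
  · change F (ι₁ x) = 0 ↔ _
    rw [hFk]
    constructor
    · rintro ⟨y, hy⟩
      exact ⟨ι₁.symm y, by rw [← map_smul, ← hy, LinearEquiv.symm_apply_apply]⟩
    · rintro ⟨y, rfl⟩
      exact ⟨ι₁ y, map_smul _ _ _⟩
  · obtain ⟨y, rfl⟩ := K.mkQ_surjective z
    exact ⟨ι₂.symm y, congrArg K.mkQ (ι₂.apply_symm_apply y)⟩
  · change K.mkQ (ι₂ x) = 0 ↔ _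
    rw [Submodule.mkQ_apply, Submodule.Quotient.mk_eq_zero, hK]
    constructor
    · rintro ⟨y, hy⟩
      exact ⟨ι₂.symm y, by rw [← map_smul, ← hy, LinearEquiv.symm_apply_apply]⟩
    · rintro ⟨y, rfl⟩
      exact ⟨ι₂ y, map_smul _ _ _⟩

lemma cong_smul (K : Submodule Λ Z₂) (F : Z₁ →ₗ[Λ] Z₂ ⧸ K) (a : Λ) {x : Z₁} {y : Z₂}
    (h : F x = Submodule.Quotient.mk y) : F (a • x) = Submodule.Quotient.mk (a • y) := by
  rw [map_smul, h, Submodule.Quotient.mk_smul]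

end CongAux

section Cong

variable {N M L : ℕ} [NeZero M] [NeZero L] {hM : N ∣ M} {S : Set ℕ} {hS : Away M S}
  {hSL : ∀ q : ℕ, q.Prime → q ∣ L → q ∈ S}
  {O : Type} [CommRing O] [IsDomain O] [IsDiscreteValuationRing O]
  [IsAdicComplete (maximalIdeal O) O]
  {p r : ℕ} {e : Fin r → ℕ} {ψ₁ η₁ ψ₂ η₂ : (ZMod N)ˣ →* (MonoidAlgebra O (Dlt p e))ˣ}
  {θ : heckeAlgebra L 2 S →+* ResidueField O} {ee : MvPolynomial (Idx S) O}
  {A₁ A₂ : EMod O p e (heckeLocal L S O θ)} {ι₁ : A₁.M ≃ₗ[O] MLoc hM hS ψ₁ η₁ ee}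
  {ι₂ : A₂.M ≃ₗ[O] MLoc hM hS ψ₂ η₂ ee}

/-- **Congruent characters give congruent Hecke modules.** -/
theorem exists_cong (hm₁ : IsModel hM hS hSL ψ₁ η₁ θ ee A₁ ι₁)
    (hm₂ : IsModel hM hS hSL ψ₂ η₂ θ ee A₂ ι₂)
    (hgΛ : Good M (MonoidAlgebra O (Dlt p e))) (hψ₁ : ψ₁ (-1) = 1) (hψ₂ : ψ₂ (-1) = 1)
    {κ : Type} [Field κ] {θP : MvPolynomial (Idx S) O →+* κ}
    (he₁ : IsLocIdem (tw hM hS ψ₁ η₁) (tw_comm hM hS ψ₁ η₁) θP ee)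
    (he₂ : IsLocIdem (tw hM hS ψ₂ η₂) (tw_comm hM hS ψ₂ η₂) θP ee) (ϖ : O)
    (hψψ : ∀ u, ∃ c : MonoidAlgebra O (Dlt p e),
      ((ψ₁ u : (MonoidAlgebra O (Dlt p e))ˣ) : MonoidAlgebra O (Dlt p e)) -
        ((ψ₂ u : (MonoidAlgebra O (Dlt p e))ˣ) : MonoidAlgebra O (Dlt p e)) = ϖ • c)
    (hηη : ∀ u, ∃ c : MonoidAlgebra O (Dlt p e),
      ((η₁ u : (MonoidAlgebra O (Dlt p e))ˣ) : MonoidAlgebra O (Dlt p e)) -
        ((η₂ u : (MonoidAlgebra O (Dlt p e))ˣ) : MonoidAlgebra O (Dlt p e)) = ϖ • c) :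
    ∃ (Y : Type) (_ : AddCommGroup Y) (g : A₁.M →+ Y) (g₁ : A₂.M →+ Y),
      (Function.Surjective g ∧ ∀ x, g x = 0 ↔ ∃ y, x = ϖ • y) ∧
      (Function.Surjective g₁ ∧ ∀ x, g₁ x = 0 ↔ ∃ y, x = ϖ • y) ∧
      (∀ t x y, g x = g₁ y → g (A₁.Φ t x) = g₁ (A₂.Φ t y)) ∧
      ∀ h x y, g x = g₁ y → g (A₁.Ψ h x) = g₁ (A₂.Ψ h y) := by
  obtain ⟨F, hF, hFk, hFP⟩ := exists_congr hM hS ψ₁ η₁ ψ₂ η₂ hgΛ hψ₁ hψ₂ he₁ he₂ ϖ hψψ hηη
  obtain ⟨Y, iY, g, g₁, hg, hg₁, hgg⟩ := cong_aux ι₁ ι₂ (piSub ϖ) ϖ (fun x => mem_piSub ϖ x) F hF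
    hFk
  refine ⟨Y, iY, g, g₁, hg, hg₁, fun t x y h => ?_, fun h x y hxy => ?_⟩
  · obtain ⟨P, rfl⟩ := toLocal_surjective L S hSL O θ t
    rw [hgg, hm₁.Φ, hm₂.Φ]
    exact hFP P (ι₁ x) (ι₂ y) ((hgg x y).mp h)
  · rw [hgg, hm₁.Ψ, hm₂.Ψ]
    exact cong_smul _ F (MonoidAlgebra.of O (Dlt p e) h) ((hgg x y).mp hxy)

end Cong

section CongEta

variable {N M L : ℕ} [NeZero M] [NeZero L] {hM : N ∣ M} {S : Set ℕ} {hS : Away M S}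
  {hSL : ∀ q : ℕ, q.Prime → q ∣ L → q ∈ S}
  {O : Type} [CommRing O] [IsDomain O] [IsDiscreteValuationRing O]
  [IsAdicComplete (maximalIdeal O) O]
  {p r : ℕ} {e : Fin r → ℕ} {Q : Fin r → ℕ} {hQN : ∀ j, Q j ∣ N}
  {u : ∀ j, (ZMod (Q j))ˣ →* Multiplicative (ZMod (p ^ e j))} {τ : (ZMod N)ˣ →* Oˣ}
  {θ : heckeAlgebra L 2 S →+* ResidueField O} {ee : MvPolynomial (Idx S) O}
  {A₁ A₂ : EMod O p e (heckeLocal L S O θ)}
  {ι₁ : A₁.M ≃ₗ[O] MLoc hM hS ((etaL hQN u τ) ^ 2) (etaL hQN u τ) ee}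
  {ι₂ : A₂.M ≃ₗ[O] MLoc hM hS ((etaL hQN u (1 : (ZMod N)ˣ →* Oˣ)) ^ 2)
    (etaL hQN u (1 : (ZMod N)ˣ →* Oˣ)) ee}

omit [NeZero M] [NeZero L] in
/-- a character of order `p` is congruent to the trivial character -/
lemma dvd_tau_sub_one [Fact p.Prime] {ϖ : O} (hϖ : maximalIdeal O = Ideal.span {ϖ})
    (hpO : (p : O) ∈ maximalIdeal O) {s : ℕ} (hτ : τ ^ p ^ s = 1) (a : (ZMod N)ˣ) :
    ϖ ∣ ((τ a : Oˣ) : O) - 1 := by
  have h := resTriv_of_pow (Fact.out : p.Prime) hpO hτ a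
  rwa [hϖ, Ideal.mem_span_singleton] at h

/-- **The congruence between the module with the character `τ` and the one without.** -/
theorem exists_cong_etaL (hm₁ : IsModel hM hS hSL ((etaL hQN u τ) ^ 2) (etaL hQN u τ) θ ee A₁ ι₁)
    (hm₂ : IsModel hM hS hSL ((etaL hQN u (1 : (ZMod N)ˣ →* Oˣ)) ^ 2)
      (etaL hQN u (1 : (ZMod N)ˣ →* Oˣ)) θ ee A₂ ι₂)
    (hgΛ : Good M (MonoidAlgebra O (Dlt p e)))
    {κ : Type} [Field κ] {θP : MvPolynomial (Idx S) O →+* κ}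
    (he₁ : IsLocIdem (tw hM hS ((etaL hQN u τ) ^ 2) (etaL hQN u τ))
      (tw_comm hM hS ((etaL hQN u τ) ^ 2) (etaL hQN u τ)) θP ee)
    (he₂ : IsLocIdem (tw hM hS ((etaL hQN u (1 : (ZMod N)ˣ →* Oˣ)) ^ 2)
      (etaL hQN u (1 : (ZMod N)ˣ →* Oˣ)))
      (tw_comm hM hS ((etaL hQN u (1 : (ZMod N)ˣ →* Oˣ)) ^ 2)
        (etaL hQN u (1 : (ZMod N)ˣ →* Oˣ))) θP ee) (ϖ : O)
    (hτ : ∀ a, ϖ ∣ ((τ a : Oˣ) : O) - 1) :
    ∃ (Y : Type) (_ : AddCommGroup Y) (g : A₁.M →+ Y) (g₁ : A₂.M →+ Y),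
      (Function.Surjective g ∧ ∀ x, g x = 0 ↔ ∃ y, x = ϖ • y) ∧
      (Function.Surjective g₁ ∧ ∀ x, g₁ x = 0 ↔ ∃ y, x = ϖ • y) ∧
      (∀ t x y, g x = g₁ y → g (A₁.Φ t x) = g₁ (A₂.Φ t y)) ∧
      ∀ h x y, g x = g₁ y → g (A₁.Ψ h x) = g₁ (A₂.Ψ h y) := by
  refine exists_cong hm₁ hm₂ hgΛ (sq_neg_one _) (sq_neg_one _) he₁ he₂ ϖ (fun a => ?_)
    fun a => ?_
  · obtain ⟨c, hc⟩ := etaL_sq_sub hQN u τ ϖ hτ a
    exact ⟨-c, by rw [smul_neg, ← hc, neg_sub]⟩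
  · obtain ⟨c, hc⟩ := etaL_sub hQN u τ ϖ hτ a
    exact ⟨-c, by rw [smul_neg, ← hc, neg_sub]⟩

end CongEta

section Aux

variable {O O' X Y : Type} [CommRing O] [CommRing O'] [Algebra O O'] [AddCommGroup X] [Module O X]
  [AddCommGroup Y] [Module O Y] (ι : X ≃ₗ[O] Y)

lemma bc_eigen (f : Module.End O X) (g : Module.End O Y) (h : ∀ x, ι (f x) = g (ι x))
    (v : O' ⊗[O] X) (c : O') (hv : f.baseChange O' v = c • v) :
    g.baseChange O' ((ι : X →ₗ[O] Y).baseChange O' v) =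
      c • (ι : X →ₗ[O] Y).baseChange O' v := by
  have h1 : g ∘ₗ (ι : X →ₗ[O] Y) = (ι : X →ₗ[O] Y) ∘ₗ f := LinearMap.ext fun x => (h x).symm
  have h2 := congrArg (fun F : X →ₗ[O] Y => F.baseChange O' v) h1
  simp only [LinearMap.baseChange_comp, LinearMap.comp_apply] at h2
  rw [h2, hv, map_smul]

lemma bc_ne_zero (v : O' ⊗[O] X) (hv : v ≠ 0) : (ι : X →ₗ[O] Y).baseChange O' v ≠ 0 := by
  intro h
  apply hv
  have h1 : (ι.symm : Y →ₗ[O] X).baseChange O' ((ι : X →ₗ[O] Y).baseChange O' v) = v := by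
    rw [← LinearMap.comp_apply, ← LinearMap.baseChange_comp]
    have h2 : (ι.symm : Y →ₗ[O] X) ∘ₗ (ι : X →ₗ[O] Y) = LinearMap.id :=
      LinearMap.ext fun x => ι.symm_apply_apply x
    rw [h2, LinearMap.baseChange_id]
    rfl
  rw [← h1, h, map_zero]

end Aux

section Pt

variable {N M L : ℕ} [NeZero M] [NeZero L] {hM : N ∣ M} {S : Set ℕ} {hS : Away M S}
  {hSL : ∀ q : ℕ, q.Prime → q ∣ L → q ∈ S}
  {O : Type} [CommRing O] [IsDomain O] [IsDiscreteValuationRing O]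
  [IsAdicComplete (maximalIdeal O) O]
  {p r : ℕ} {e : Fin r → ℕ} {η : (ZMod N)ˣ →* (MonoidAlgebra O (Dlt p e))ˣ}
  {θ : heckeAlgebra L 2 S →+* ResidueField O} {ee : MvPolynomial (Idx S) O}
  {A : EMod O p e (heckeLocal L S O θ)} {ι : A.M ≃ₗ[O] MLoc hM hS (η ^ 2) η ee}

/-- **Points from eigenvectors of the Hecke module.** -/
theorem exists_pt_model [Fact p.Prime] (hpO : (p : O) ∈ maximalIdeal O)
    (hm : IsModel hM hS hSL (η ^ 2) η θ ee A ι)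
    (hgΛ : Good M (MonoidAlgebra O (Dlt p e)))
    {κ : Type} [Field κ] {θP : MvPolynomial (Idx S) O →+* κ}
    (heΛ : IsLocIdem (tw hM hS (η ^ 2) η) (tw_comm hM hS (η ^ 2) η) θP ee)
    (i₀ : Idx S) (hi₀ : θP (MvPolynomial.X i₀) ≠ 1 + (i₀.1 : κ)) {s : ℕ} (hη : η ^ p ^ s = 1)
    {O' : Type} [CommRing O'] [IsDomain O'] [IsLocalRing O'] [CharZero O'] [Algebra O O']
    [IsLocalHom (algebraMap O O')]
    (lam : heckeLocal L S O θ →ₐ[O] O') (v : O' ⊗[O] A.M) (hv : v ≠ 0)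
    (hlam : ∀ t, (A.Φ t).baseChange O' v = lam t • v) (χ : Dlt p e →* O'ˣ)
    (hχ : ∀ g, (A.Ψ g).baseChange O' v = ((χ g : O'ˣ) : O') • v) :
    ∃ z : H1 (gam N M hM) (psiRep ((psiMap (evC (O := O) χ).toRingHom η) ^ 2) O'),
      IsPt hM hS (psiMap (evC (O := O) χ).toRingHom η)
        (fun i => lam (heckeLocal.π L S O θ (TIdx L S hSL i))) z ∧
      act (tw hM hS ((psiMap (evC (O := O) χ).toRingHom η) ^ 2)
        (psiMap (evC (O := O) χ).toRingHom η)) (tw_comm hM hS _ _) ee z = z := by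
  haveI : Module.Free O (MLoc hM hS (η ^ 2) η ee) := Module.Free.of_equiv ι
  have hχ' : ∀ g, (diam hM hS (η ^ 2) η ee g).baseChange O'
      ((ι : A.M →ₗ[O] MLoc hM hS (η ^ 2) η ee).baseChange O' v) =
      ((χ g : O'ˣ) : O') • (ι : A.M →ₗ[O] MLoc hM hS (η ^ 2) η ee).baseChange O' v :=
    fun g => bc_eigen ι (A.Ψ g) (diam hM hS (η ^ 2) η ee g) (hm.Ψ g) v _ (hχ g)
  have hl' : ∀ P, (mactO hM hS (η ^ 2) η ee P).baseChange O'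
      ((ι : A.M →ₗ[O] MLoc hM hS (η ^ 2) η ee).baseChange O' v) =
      lam (toLocal L S hSL O θ P) • (ι : A.M →ₗ[O] MLoc hM hS (η ^ 2) η ee).baseChange O' v :=
    fun P => bc_eigen ι (A.Φ (toLocal L S hSL O θ P)) (mactO hM hS (η ^ 2) η ee P) (hm.Φ P) v _
      (hlam _)
  have hne := bc_ne_zero (O' := O') ι v hv
  obtain ⟨z, hz, hze⟩ := exists_pt hM hS (Fact.out : p.Prime) hgΛ heΛ i₀ hi₀
    (natCast_mem_of_isLocalHom (O' := O') hpO) hη _ hne χ hχ'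
    (fun P => lam (toLocal L S hSL O θ P)) hl'
  refine ⟨z, ⟨hz.smul_ne, fun i => ?_⟩, hze⟩
  rw [hz.eigen i, toLocal_X]

end Pt

section Triv

variable {N M L : ℕ} [NeZero M] [NeZero L] {hM : N ∣ M} {S : Set ℕ} {hS : Away M S}
  {hSL : ∀ q : ℕ, q.Prime → q ∣ L → q ∈ S}
  {O : Type} [CommRing O] [IsDomain O] [IsDiscreteValuationRing O]
  [IsAdicComplete (maximalIdeal O) O]
  {p r : ℕ} {e : Fin r → ℕ} {Q : Fin r → ℕ} {hQN : ∀ j, Q j ∣ N}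
  {u : ∀ j, (ZMod (Q j))ˣ →* Multiplicative (ZMod (p ^ e j))}
  {θ : heckeAlgebra L 2 S →+* ResidueField O} {ee : MvPolynomial (Idx S) O}
  {A : EMod O p e (heckeLocal L S O θ)}
  {ι : A.M ≃ₗ[O] MLoc hM hS ((etaL hQN u (1 : (ZMod N)ˣ →* Oˣ)) ^ 2)
    (etaL hQN u (1 : (ZMod N)ˣ →* Oˣ)) ee}

lemma psiMap_etaL_one {O' : Type} [CommRing O'] [Algebra O O'] :
    psiMap (evC (O := O) (1 : Dlt p e →* O'ˣ)).toRingHom (etaL hQN u (1 : (ZMod N)ˣ →* Oˣ)) =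
      1 := by
  ext1 a
  rw [psiMap_etaL, MonoidHom.one_apply, MonoidHom.one_apply, map_one, one_mul,
    MonoidHom.one_apply]

/-- **The input `hEA4`** of `exists_fullModPart` from the statement for the points without
character. -/
theorem eigen_trivial_of_pt [Fact p.Prime] (hpO : (p : O) ∈ maximalIdeal O)
    (hm : IsModel hM hS hSL ((etaL hQN u (1 : (ZMod N)ˣ →* Oˣ)) ^ 2)
      (etaL hQN u (1 : (ZMod N)ˣ →* Oˣ)) θ ee A ι)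
    (hgΛ : Good M (MonoidAlgebra O (Dlt p e)))
    {κ : Type} [Field κ] {θP : MvPolynomial (Idx S) O →+* κ}
    (heΛ : IsLocIdem (tw hM hS ((etaL hQN u (1 : (ZMod N)ˣ →* Oˣ)) ^ 2)
      (etaL hQN u (1 : (ZMod N)ˣ →* Oˣ)))
      (tw_comm hM hS ((etaL hQN u (1 : (ZMod N)ˣ →* Oˣ)) ^ 2)
        (etaL hQN u (1 : (ZMod N)ˣ →* Oˣ))) θP ee)
    (i₀ : Idx S) (hi₀ : θP (MvPolynomial.X i₀) ≠ 1 + (i₀.1 : κ)) (t : heckeLocal L S O θ)
    (hpt : ∀ (O' : Type) [CommRing O'] [IsDomain O'] [IsDiscreteValuationRing O']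
      [IsAdicComplete (maximalIdeal O') O'] [Finite (ResidueField O')] [CharZero O']
      [Algebra O O'] [Module.Finite O O'] [IsLocalHom (algebraMap O O')],
      Function.Injective (algebraMap O O') → ∀ (lam : heckeLocal L S O θ →ₐ[O] O')
      (η : (ZMod N)ˣ →* O'ˣ), η = 1 → ∀ (x : H1 (gam N M hM) (psiRep (η ^ 2) O')),
      (∀ c : O', c ≠ 0 → c • x ≠ 0) →
      (∀ i, tw hM hS (η ^ 2) η i x = lam (heckeLocal.π L S O θ (TIdx L S hSL i)) • x) →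
      lam t = 0) :
    ForallEigen A.Φ fun O' _ _ _ _ _ _ _ _ _ lam x =>
      (∀ g, (A.Ψ g).baseChange O' x = x) → lam t = 0 := by
  intro O' _ _ _ _ _ _ _ _ _ hO' lam x hx hl hΨ
  obtain ⟨s, hs⟩ : ∃ s, ∀ j, e j ≤ s := by
    obtain ⟨s, hs⟩ := (Set.finite_range e).bddAbove
    exact ⟨s, fun j => hs ⟨j, rfl⟩⟩
  obtain ⟨z, hz, -⟩ := exists_pt_model hpO hm hgΛ heΛ i₀ hi₀
    (etaL_pow hQN u hs (τ := 1) (by
      ext1 a
      rw [MonoidHom.pow_apply, MonoidHom.one_apply, one_pow])) lam x hx hl 1 (fun g => by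
      rw [hΨ g, MonoidHom.one_apply, Units.val_one, one_smul])
  exact hpt O' hO' lam _ psiMap_etaL_one z hz.smul_ne hz.eigen

end Triv

end Fermat.Agent.H69.Cong
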