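import Fermat.Agent.H69C3
import Fermat.Agent.H69Cong
import Fermat.Agent.H69Fin
import Fermat.Agent.H70Lev11
import Fermat.Agent.H21MFull

/-!
# Guide: the bookkeeping of the patching argument

This file belongs to the reader's guide. It states, in full, theorems that are used in the
development; every proof is one citation. It is a companion of the files `GuideLiftingAlgebra`
(abstract patching), `GuideLifting` and `GuideLiftingHecke` (modularity lifting), `GuideLevels`
and `GuideLevelsIhara` (level lowering), and it contains the steps between their main theorems.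
Smaller steps are in `GuidePatchingSteps`.

In the method of Taylor, Wiles and Kisin one works with *levels*: a power series ring
`S = O[[X_1, …, X_r]]` (diamond operators at the auxiliary primes), a local deformation ring `B`, a
homomorphism `S → B` and finitely many `B`-modules that are free over `S/I`, where the ideal `I`
is contained in a high power of the maximal ideal. The ideals at the `n`-th stage are generated by
`(1 + X_j)^(p^(n_j)) - 1` with `n_j ≥ n`; so `S/I` is the group ring of `∏_j ℤ/p^(n_j)`. As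
`n → ∞` the levels have a limit with `I = 0`, and a dimension count in the limit leads to a
contradiction. The assumption which produces the system of levels, and which is refuted in this way,
is in modularity lifting (S46, S59): the curve is not modular; and in level lowering (S38, S43): a
given unramified prime cannot be removed from the level.

* Section 1: linear algebra in one level. The action of `B` is given by matrices over `S/I`; they
  depend continuously on the element of `B`, uniformly in the level (this makes the limit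
  possible); an isomorphism modulo an ideal is a pair of matrices; freeness by a rank count.
* Section 2: how the modules of a level are obtained from Hecke modules (localised cohomology of
  modular curves), in particular the congruence between different characters.
* Section 3: passing to a quotient of the deformation ring, which removes the *marks* at `p` of the
  condition "ordinary with marks", when all eigenclasses are new at `p` (type `Pβ` of S59,
  `case_marks` in `GuideLevelsOdd` for S38).
* Section 4: the outer part of level lowering (S38): choice of the coefficient ring, the levels on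
  the Galois side, and the contradiction.
* Section 5: the point of the deformation ring given by the Tate module of a semistable
  elliptic curve, and the end of the argument (a character of the Hecke algebra with the
  eigenvalues `a_ℓ` of the curve is a proof of modularity).

Used in (term closures): section 1: S01, S03, S04, S06, S38, S43, S45, S46, S50, S59, S60;
sections 2, 3 and 5: the same without S43, except `module_part_fields` and `module_part` (S01,
S03, S38, S43, S45) and `removal_of_marks` (S38); section 4: S38 (the same argument without marks,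
for the Frey curve, serves S43, S45, S03 and S01). Notes: [304] and [165] (patching), [184] and
[201] (Hecke modules), [322] and [329] (S38), [214] (witness of non-modularity).

Author of the library files and of this file: helper69 (`H69*`); with helper57 (`H57*`),
helper70 (`H70*`), helper21 (`H21M*`), helper85 (`H85*`), helper53 (`H53*`), helper87 (`H87*`).
-/

set_option autoImplicit false

noncomputable section

namespace Fermat.Agent.Guide.Patching

open IsLocalRing Fermat.Agent
open Fermat.Agent.H69.KP (FLevel Θ)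

/-! ### 1. Linear algebra in one level

`L : FLevel S B d I` consists of a homomorphism `L.φ : S → B` and, for every index `τ`, of a
`B`-module `L.N τ` with elements `L.b τ i`, `i < d τ`, which form a basis over `S/I`. `Θ L.toK τ f`
is the matrix of the action of `f : B` in this basis; its entries are well defined modulo `I`. -/

section Linear

variable {S B : Type} [CommRing S] [CommRing B] {ι : Type} {d : ι → ℕ} {I : Ideal S}

/-- **Coordinates modulo an ideal.** For an ideal `K` of `S`, a vector `∑ c_i b_i` of the module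
`N_τ` belongs to `K N_τ` if and only if all coordinates `c_i` belong to `K + I`. -/
theorem mem_smul_iff (L : FLevel S B d I) (τ : ι) (K : Ideal S) (c : Fin (d τ) → S) :
    ∑ i, L.φ (c i) • L.b τ i ∈ (K.map L.φ • ⊤ : Submodule B (L.N τ)) ↔ ∀ i, c i ∈ K ⊔ I :=
  H69.KP.sum_mem_iff L.toK

/-- **Uniform continuity of the matrices.** Let `S` and `B` be local and let `S/𝔪^k` be finite, with
`c` elements. If `f` lies in the power of the maximal ideal of `B` with exponent `c^d`, then all
entries of the matrix of `f` lie in `𝔪^k + I`. Proof: `N/𝔪^k N` has at most `c^d` elements, and a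
module with `m` elements over a local ring is killed by the `m`-th power of the maximal ideal. The
exponent does not depend on the level: therefore the matrices of infinitely many levels, taken
modulo `𝔪^k`, factor through one finite quotient of `B`, and a limit can be formed. -/
theorem matrix_continuity [IsLocalRing S] [IsLocalRing B] (L : FLevel S B d I) (k : ℕ)
    [Finite (S ⧸ maximalIdeal S ^ k)] (τ : ι) (f : B)
    (hf : f ∈ maximalIdeal B ^ (Nat.card (S ⧸ maximalIdeal S ^ k) ^ d τ)) (i j : Fin (d τ)) :
    Θ L.toK τ f i j ∈ maximalIdeal S ^ k ⊔ I :=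
  H69.KP.Θ_mem L.toK k τ f hf i j

/-- **The matrices are a representation.** Modulo `I`, the matrix of a product is the product of the
matrices, and the matrix of `φ(s)`, `s ∈ S`, is `s` times the identity matrix. -/
theorem matrix_mul (L : FLevel S B d I) (τ : ι) (f g : B) (s : S) (i j : Fin (d τ)) :
    Θ L.toK τ (f * g) i j - ∑ l, Θ L.toK τ f i l * Θ L.toK τ g l j ∈ I ∧
      Θ L.toK τ (L.φ s) i j - (if i = j then s else 0) ∈ I :=
  ⟨H69.KP.Θ_mul L.toK τ f g i j, H69.KP.Θ_φ L.toK τ s i j⟩

/-- **Isomorphisms are pairs of matrices.** The modules `N_τ/K N_τ` and `N_τ'/K N_τ'` are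
isomorphic over `B` if and only if there are matrices `A` and `C` over `S` which intertwine the
two actions of `B` and are inverse to each other modulo `K + I`. For levels with ideals
`I_n ⊆ 𝔪^n` such matrices have limits (along an ultrafilter), and the relations hold for the limits
modulo `K` (`mem_of_approx`); so the existence of an isomorphism passes to the limit. In the
application `K` is generated by the uniformiser and the two modules come from two characters which
are congruent modulo it. -/
theorem isomorphic_mod_iff (L : FLevel S B d I) (τ τ' : ι) (K : Ideal S) :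
    Nonempty ((L.N τ ⧸ (K.map L.φ • ⊤ : Submodule B (L.N τ))) ≃ₗ[B]
      (L.N τ' ⧸ (K.map L.φ • ⊤ : Submodule B (L.N τ')))) ↔
    ∃ (A : Fin (d τ') → Fin (d τ) → S) (C : Fin (d τ) → Fin (d τ') → S),
      (∀ f i j, ∑ l, A i l * Θ L.toK τ f l j - ∑ l, Θ L.toK τ' f i l * A l j ∈ K ⊔ I) ∧
      (∀ f i j, ∑ l, C i l * Θ L.toK τ' f l j - ∑ l, Θ L.toK τ f i l * C l j ∈ K ⊔ I) ∧
      (∀ i j, ∑ l, C i l * A l j - (if i = j then 1 else 0) ∈ K ⊔ I) ∧
      ∀ i j, ∑ l, A i l * C l j - (if i = j then 1 else 0) ∈ K ⊔ I :=
  ⟨fun ⟨e⟩ => (H69.KP.exists_intertwining L.toK e).imp fun _ => Exists.imp fun _ h =>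
      ⟨h.comm, h.comm', h.left, h.right⟩,
    fun ⟨_, _, h1, h2, h3, h4⟩ => H69.KP.nonempty_equiv_of_intertwining L.toK ⟨h1, h2, h3, h4⟩⟩

/-- **Ideals are closed** (Krull's intersection theorem). In a noetherian local ring an element
which lies in `K + 𝔪^k` for all `k` lies in `K`. So relations modulo `K` can be verified in the
limit. -/
theorem mem_of_approx {A : Type} [CommRing A] [IsLocalRing A] [IsNoetherianRing A]
    {K : Ideal A} {x : A} (h : ∀ k, x ∈ K ⊔ maximalIdeal A ^ k) : x ∈ K :=
  H69.KP.mem_of_forall_mem_sup_pow h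

end Linear

section Rank

open MvPowerSeries

/-- **Monomials with small exponents.** Every power series is a linear combination of monomials
with exponents `α_j < e_j`, plus a combination of the powers `X_j^(e_j)` with power series as
coefficients. -/
theorem small_monomials {O : Type} [CommRing O] {r : ℕ} (e : Fin r → ℕ)
    (g : MvPowerSeries (Fin r) O) :
    ∃ g' : Fin r → MvPowerSeries (Fin r) O,
      g = ∑ α : (∀ j, Fin (e j)),
          C (coeff (Finsupp.equivFunOnFinite.symm fun j => (α j : ℕ)) g) *
            monomial (Finsupp.equivFunOnFinite.symm fun j => (α j : ℕ)) 1 +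
        ∑ j, X j ^ e j * g' j :=
  H69.KP.exists_decomp e g

/-- **The relations of a level are deep.** Let the integer `ℓ` lie in the maximal ideal of the local
ring `A` and let `x` lie in it too; then `(1 + x)^(ℓ^n) - 1` lies in the power `n + 1` of the maximal
ideal. With `ℓ = p` and `x = X_j`: the ideal of the `n`-th level is contained in `𝔪^n`, as the
patching limit requires. -/
theorem one_add_pow_sub_one_mem {A : Type} [CommRing A] [IsLocalRing A] {ℓ : ℕ}
    (hℓ : (ℓ : A) ∈ maximalIdeal A) {x : A} (hx : x ∈ maximalIdeal A) (n : ℕ) :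
    (1 + x) ^ (ℓ ^ n) - 1 ∈ maximalIdeal A ^ (n + 1) :=
  H69.KP.one_add_pow_sub_one_mem hℓ hx n

/-- **Freeness by a rank count.** Let `O` be a complete noetherian local ring, `p` a prime in its
maximal ideal, and let `S = O[[X_1, …, X_r]]` act through `φ : S → R'` on a module `N` which is
finite and free over `O`. If `N` is generated over `S` by `d` elements `b_i`, if
`(1 + φ(X_j))^(p^(n_j)) = 1` in `R'`, and if the rank of `N` over `O` is `d · ∏ p^(n_j)`, then the
relations between the `b_i` are exactly those which follow from `(1 + X_j)^(p^(n_j)) = 1`: `N` is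
free of rank `d` over the group ring `S/((1 + X_j)^(p^(n_j)) - 1)`. -/
theorem free_of_rank {O : Type} [CommRing O] [IsLocalRing O] [IsNoetherianRing O]
    [IsAdicComplete (maximalIdeal O) O] {r p : ℕ} {R' : Type} [CommRing R'] [Algebra O R']
    (hp : p.Prime) (hpO : (p : O) ∈ maximalIdeal O) (n : Fin r → ℕ)
    (φ : MvPowerSeries (Fin r) O →ₐ[O] R') {N : Type} [AddCommGroup N]
    [Module R' N] [Module O N] [IsScalarTower O R' N] [Module.Finite O N] [Module.Free O N]
    {d : ℕ} (hrank : Module.finrank O N = d * ∏ j, p ^ n j) (b : Fin d → N)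
    (hspan : ∀ x : N, ∃ c : Fin d → MvPowerSeries (Fin r) O, x = ∑ i, φ (c i) • b i)
    (hrel : ∀ j, (φ (X j) + 1) ^ (p ^ n j) = 1) (c : Fin d → MvPowerSeries (Fin r) O) :
    ∑ i, φ (c i) • b i = 0 ↔ ∀ i, c i ∈
      Ideal.span (Set.range fun j : Fin r => ((1 + X j) ^ (p ^ n j) - 1 : MvPowerSeries (Fin r) O)) :=
  H69.KP.rel_of_rank hp hpO n φ hrank b hspan hrel c

/-- **Lifting of homomorphisms.** Let `γ : B → C` be a surjection of complete local rings and let
`θ : O[[X_1, …, X_r]] → C` map the variables to the maximal ideal. Every lift `a : O → B` of `θ`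
on the constants extends to a lift `O[[X_1, …, X_r]] → B` of `θ`: choose lifts of the images of the
variables. So the diamond operators, which a priori act through the global deformation ring, can be
lifted to the patched local ring `B`. -/
theorem lift_power_series {O B C : Type} [CommRing O] [CommRing B] [CommRing C] [IsLocalRing B]
    [IsLocalRing C] [IsAdicComplete (maximalIdeal B) B] [IsAdicComplete (maximalIdeal C) C]
    {r : ℕ} (γ : B →+* C) (hγ : Function.Surjective γ) (θ : MvPowerSeries (Fin r) O →+* C)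
    (hθ : ∀ i, θ (X i) ∈ maximalIdeal C)
    (a : O →+* B) (ha : ∀ x, γ (a x) = θ (MvPowerSeries.C x)) :
    ∃ φ : MvPowerSeries (Fin r) O →+* B, (∀ s, γ (φ s) = θ s) ∧
      ∀ x, φ (MvPowerSeries.C x) = a x :=
  H69.KP.exists_lift_one γ hγ θ hθ a ha

end Rank

/-! ### 2. From Hecke modules to the modules of a level

`𝕋` is a local Hecke algebra, finite and reduced over the complete discrete valuation ring `O`, and
`π : R → 𝕋` is the homomorphism from the deformation ring. `Δ = Dlt p e = ∏_j ℤ/p^(e_j)` is the group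
of diamond operators. At the `j`-th auxiliary prime the universal deformation splits into two
characters, and `1 + c_j ∈ R` is the value of the first one at a generator of tame inertia.
`ForallEigen Φ P` says that `P O' λ x` holds for all eigenvectors `x ≠ 0` of `𝕋` in `O' ⊗ M` with
eigenvalue `λ : 𝕋 → O'`, for all finite extensions `O'` of `O` (see `forallEigen_iff` in
`GuideLiftingHecke`). General facts on eigenvectors are in `GuideEigensystems`; the hypotheses of
`module_part` are verified in `GuideTWModules` and `GuideLevelsPoints`.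

`MLoc hM hS ψ η ee` is the localised cohomology of `Γ₀(M)` with coefficients in `O[Δ]`
(`GuideTWModules`, section 2); `Away M S` says that the prime divisors of `M` are in `S`.
`A : EMod O p e 𝕋` is a module `A.M` with actions `A.Φ` of `𝕋` and `A.Ψ` of `Δ`, free over `O[Δ]`
(`compat_iff` in `GuideLiftingHecke`); `IsModel … A ι` says that the isomorphism `ι` of `A.M` with
`MLoc` is compatible with both actions. Steps: `GuidePatchingSteps`, sections 4 and 5. -/

section Hecke

open Fermat.Agent.H69.EG (Dlt EMod TWModPart)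
open Fermat.Agent.H70.Coh Fermat.Agent.H70.Mod Fermat.Agent.H59 Fermat.Agent.H37.Rank
  Fermat.Agent.H30 Fermat.Agent.H21M
open scoped TensorProduct

variable {O : Type} [CommRing O] [IsDomain O] [IsDiscreteValuationRing O]
  [IsAdicComplete (maximalIdeal O) O]

/-- **An operator and the norm.** A finite commutative group `Δ` acts on the Hecke module `M`,
commuting with `𝕋`. If the eigenvalue of `t ∈ 𝕋` is zero on every eigenvector that is fixed by `Δ`,
then `t` kills the image of the norm `∑ g`. Proof: on the image of the norm the group `Δ` acts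
trivially, and an element of a reduced algebra with all eigenvalues zero acts as zero. -/
theorem norm_killed [Finite (ResidueField O)] [CharZero O]
    {𝕋 : Type} [CommRing 𝕋] [Algebra O 𝕋] [Module.Finite O 𝕋] [IsReduced 𝕋]
    {M : Type} [AddCommGroup M] [Module O M] [Module.Finite O M] [Module.Free O M]
    {Δ : Type} [CommGroup Δ] [Fintype Δ] (Φ : 𝕋 →ₐ[O] Module.End O M)
    (Ψ : Δ →* Module.End O M) (hΦΨ : ∀ t g, Φ t * Ψ g = Ψ g * Φ t) (t : 𝕋)
    (h : ForallEigen Φ fun O' _ _ _ _ _ _ _ _ _ lam x =>
      (∀ g, (Ψ g).baseChange O' x = x) → lam t = 0) (y : M) :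
    ∑ g, Ψ g (Φ t y) = 0 :=
  H69.EG.map_norm_eq_zero Φ Ψ hΦΨ t h y

/-- **The two actions of the diamond group.** The diamond group acts on `M` through the geometry
(`Ψ`) and through the Galois side (`1 + c_j ∈ R`, i.e. `X_j ↦ c_j` under `φ : O[[X]] → R`). Suppose
that on eigenvectors the first character is trivial if and only if the second one is. If `M` is free
of rank `d` over `O[Δ]` for the first action, then it is free of rank `d` over
`O[[X]]/((1 + X_j)^(p^(e_j)) - 1)` for the second. (No equality of the two actions is needed.) -/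
theorem free_through_galois [Finite (ResidueField O)] [CharZero O]
    {p : ℕ} [Fact p.Prime] [CharP (ResidueField O) p] {R : Type} [CommRing R] [IsLocalRing R]
    [Algebra O R] {𝕋 : Type} [CommRing 𝕋] [Algebra O 𝕋] [Module.Finite O 𝕋] {r : ℕ}
    (π : R →ₐ[O] 𝕋) (e : Fin r → ℕ) (c : Fin r → R) (hc : ∀ j, (1 + c j) ^ (p ^ e j) = 1)
    (φ : MvPowerSeries (Fin r) O →ₐ[O] R) (hφ : ∀ j, φ (MvPowerSeries.X j) = c j)
    {M : Type} [AddCommGroup M] [Module O M] [Module.Finite O M] [Module.Free O M]
    (Φ : 𝕋 →ₐ[O] Module.End O M) (Ψ : Dlt p e →* Module.End O M)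
    (hΦΨ : ∀ t g, Φ t * Ψ g = Ψ g * Φ t)
    {d : ℕ} (b : Module.Basis (Fin d × Dlt p e) O M) (hb : ∀ i g, b (i, g) = Ψ g (b (i, 1)))
    (hE : ForallEigen Φ fun O' _ _ _ _ _ _ _ _ _ lam x =>
      ∀ χ : Dlt p e →* O', (∀ g, (Ψ g).baseChange O' x = χ g • x) →
        ((∀ g, χ g = 1) ↔ ∀ j, lam (π (1 + c j)) = 1)) :
    ∃ bb : Fin d → M,
      (∀ x : M, ∃ cc : Fin d → MvPowerSeries (Fin r) O, x = ∑ i, Φ (π (φ (cc i))) (bb i)) ∧
      ∀ cc : Fin d → MvPowerSeries (Fin r) O, ∑ i, Φ (π (φ (cc i))) (bb i) = 0 ↔
        ∀ i, cc i ∈ Ideal.span (Set.range fun j : Fin r =>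
          ((1 + MvPowerSeries.X j) ^ (p ^ e j) - 1 : MvPowerSeries (Fin r) O)) := by
  obtain ⟨bb, h1, h2, -⟩ := H69.EG.exists_pres π e c hc φ hφ Φ Ψ hΦΨ b hb hE
  exact ⟨bb, h1, h2⟩

/-- **A common quotient gives an isomorphism.** If two `R`-modules `M` and `M₁` have a common
quotient group `Y`, with kernels `a M` and `a M₁`, and the action of `R` is compatible on `Y`, then
`M/a M` and `M₁/a M₁` are isomorphic over `R`. -/
theorem isomorphism_of_common_quotient {R M M₁ Y : Type} [CommRing R] [AddCommGroup M]
    [Module R M] [AddCommGroup M₁] [Module R M₁] [AddCommGroup Y] (a : R)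
    (g : M →+ Y) (hg : Function.Surjective g) (hgk : ∀ x, g x = 0 ↔ ∃ y, x = a • y)
    (g₁ : M₁ →+ Y) (hg₁ : Function.Surjective g₁) (hgk₁ : ∀ x, g₁ x = 0 ↔ ∃ y, x = a • y)
    (h : ∀ (t : R) x y, g x = g₁ y → g (t • x) = g₁ (t • y)) :
    Nonempty ((M ⧸ (Ideal.span {a} • ⊤ : Submodule R M)) ≃ₗ[R]
      (M₁ ⧸ (Ideal.span {a} • ⊤ : Submodule R M₁))) :=
  H69.EG.exists_iso a g hg hgk g₁ hg₁ hgk₁ h

/-- **Congruent characters give congruent Hecke modules.** `A₁` and `A₂` are the Hecke modules of
level `Γ₀(M)` with coefficients in `Λ = O[Δ]` twisted by the characters `ψ₁` and `ψ₂` of `(ℤ/N)ˣ`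
(and with the Hecke operators twisted by `η₁`, `η₂`), both localised at the same maximal ideal. If
`ψ₁ ≡ ψ₂` and `η₁ ≡ η₂` modulo `ϖ` then the two modules have a common quotient `Y = A₁/ϖ = A₂/ϖ`, as
modules over the Hecke algebra and over `Δ`. Proof: the cohomology of `Γ₀(M)` with coefficients in
`Λ/ϖ` does not distinguish the two characters, and it is the reduction modulo `ϖ` of the cohomology
with coefficients in `Λ`, since cocycles can be lifted (`Good`: `good_of` in `GuideCohomology`). -/
theorem congruent_characters {N M L : ℕ} [NeZero M] [NeZero L] {hM : N ∣ M} {S : Set ℕ}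
    {hS : Away M S} {hSL : ∀ q : ℕ, q.Prime → q ∣ L → q ∈ S}
    {p r : ℕ} {e : Fin r → ℕ} {ψ₁ η₁ ψ₂ η₂ : (ZMod N)ˣ →* (MonoidAlgebra O (Dlt p e))ˣ}
    {θ : CuspForm.heckeAlgebra L 2 S →+* ResidueField O} {ee : MvPolynomial (Idx S) O}
    {A₁ A₂ : EMod O p e (CuspForm.heckeLocal L S O θ)}
    {ι₁ : A₁.M ≃ₗ[O] MLoc hM hS ψ₁ η₁ ee} {ι₂ : A₂.M ≃ₗ[O] MLoc hM hS ψ₂ η₂ ee}
    (hm₁ : IsModel hM hS hSL ψ₁ η₁ θ ee A₁ ι₁)
    (hm₂ : IsModel hM hS hSL ψ₂ η₂ θ ee A₂ ι₂)
    (hgΛ : Good M (MonoidAlgebra O (Dlt p e))) (hψ₁ : ψ₁ (-1) = 1) (hψ₂ : ψ₂ (-1) = 1)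
    {κ : Type} [Field κ] {θP : MvPolynomial (Idx S) O →+* κ}
    (he₁ : IsLocIdem (tw hM hS ψ₁ η₁) (tw_comm hM hS ψ₁ η₁) θP ee)
    (he₂ : IsLocIdem (tw hM hS ψ₂ η₂) (tw_comm hM hS ψ₂ η₂) θP ee) (ϖ : O)
    (hψψ : ∀ u, ∃ c : MonoidAlgebra O (Dlt p e),
      ((ψ₁ u : (MonoidAlgebra O (Dlt p e))ˣ) : MonoidAlgebra O (Dlt p e)) -
        ((ψ₂ u : (MonoidAlgebra O (Dlt p e))ˣ) : MonoidAlgebra O (Dlt p e)) = ϖ • c)
    (hηη : ∀ u, ∃ c : MonoidAlgebra O (Dlt p e),
      ((η₁ u : (MonoidAlgebra O (Dlt p e))ˣ) : MonoidAlgebra O (Dlt p e)) -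
        ((η₂ u : (MonoidAlgebra O (Dlt p e))ˣ) : MonoidAlgebra O (Dlt p e)) = ϖ • c) :
    ∃ (Y : Type) (_ : AddCommGroup Y) (g : A₁.M →+ Y) (g₁ : A₂.M →+ Y),
      (Function.Surjective g ∧ ∀ x, g x = 0 ↔ ∃ y, x = ϖ • y) ∧
      (Function.Surjective g₁ ∧ ∀ x, g₁ x = 0 ↔ ∃ y, x = ϖ • y) ∧
      (∀ t x y, g x = g₁ y → g (A₁.Φ t x) = g₁ (A₂.Φ t y)) ∧
      ∀ h x y, g x = g₁ y → g (A₁.Ψ h x) = g₁ (A₂.Ψ h y) :=
  H69.Cong.exists_cong hm₁ hm₂ hgΛ hψ₁ hψ₂ he₁ he₂ ϖ hψψ hηη

attribute [local instance] TWModPart.instAddCommGroup TWModPart.instModule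

omit [IsAdicComplete (maximalIdeal O) O] in
/-- **The modular part of a level of level lowering**, fields of `TWModPart` (`prodElt t`, `hElt`
are elements of the deformation ring `R`): a module `M`, free of rank `d`, `0 < d ≤ D`, over
`O[[X_1, …, X_r]]/((1 + X_j)^(p^(e_j)) - 1)`, all `e_j ≥ n`; it is killed by `prodElt t` for all `t`
(the trace of inertia at `t` is that of a *non-trivial* character `ζ` of `p`-power order), and
`hElt` maps `M` into `ϖ M` (at the prime `t₀` which is to be removed, the trace of Frobenius is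
`± (q + 1)` modulo `ϖ`: the form is new at `t₀`). -/
theorem module_part_fields {ϖ : O} {p r n D : ℕ} {T : Type} {R : Type} [CommRing R]
    [IsLocalRing R] [Algebra O R] {prodElt : T → R} {hElt : R}
    (mp : TWModPart O ϖ p r n D R prodElt hElt) :
    0 < mp.d ∧ mp.d ≤ D ∧ (∀ j, n ≤ mp.e j) ∧ (∀ j, mp.φ (MvPowerSeries.X j) ∈ maximalIdeal R) ∧
      (∀ x : mp.M, ∃ c : Fin mp.d → MvPowerSeries (Fin r) O, x = ∑ i, mp.φ (c i) • mp.b i) ∧
      (∀ c : Fin mp.d → MvPowerSeries (Fin r) O, ∑ i, mp.φ (c i) • mp.b i = 0 ↔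
        ∀ i, c i ∈ Ideal.span (Set.range fun j : Fin r =>
          ((1 + MvPowerSeries.X j) ^ (p ^ mp.e j) - 1 : MvPowerSeries (Fin r) O))) ∧
      (∀ t (x : mp.M), prodElt t • x = 0) ∧
      ∀ x : mp.M, ∃ y : mp.M, hElt • x = algebraMap O R ϖ • y :=
  ⟨mp.d_pos, mp.d_le, mp.le_e, mp.φ_mem, mp.b_span, mp.b_rel, mp.prod_smul, mp.h_smul⟩

/-- **Construction of the modular part of a level.** `M` is the Hecke module with a non-trivial
character at the primes in question, `M₁` the module without it. Hypotheses: `M` is free of rank `d`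
over `O[Δ]`; on every eigenvector the diamond character is trivial if and only if that of the
Galois side is (`hE1`; the two need not be equal); the eigenvalues of `prodElt t` on `M` vanish
(`hE2`: local-global compatibility); the eigenvalues of `hElt` on `M₁` vanish (`hE3`: the form is
new at `t₀`); and `M₁` maps onto `M/N`, `N ⊆ ϖ M`, compatibly with the Hecke operators (congruence
of the two characters). -/
theorem module_part [Finite (ResidueField O)] [CharZero O] {p : ℕ} [Fact p.Prime]
    [CharP (ResidueField O) p] {R : Type} [CommRing R] [IsLocalRing R] [Algebra O R]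
    [IsAdicComplete (maximalIdeal R) R] {𝕋 : Type} [CommRing 𝕋] [Algebra O 𝕋]
    [Module.Finite O 𝕋] [IsReduced 𝕋]
    {ϖ : O} {r n D : ℕ} {T : Type} {prodElt : T → R} {hElt : R}
    (π : R →ₐ[O] 𝕋) (e : Fin r → ℕ) (hne : ∀ j, n ≤ e j)
    (c : Fin r → R) (hcm : ∀ j, c j ∈ maximalIdeal R) (hc : ∀ j, (1 + c j) ^ (p ^ e j) = 1)
    {M : Type} [AddCommGroup M] [Module O M] [Module.Finite O M] [Module.Free O M]
    (Φ : 𝕋 →ₐ[O] Module.End O M) (Ψ : Dlt p e →* Module.End O M)
    (hΦΨ : ∀ t g, Φ t * Ψ g = Ψ g * Φ t)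
    {d : ℕ} (hd0 : 0 < d) (hdD : d ≤ D)
    (b : Module.Basis (Fin d × Dlt p e) O M) (hb : ∀ i g, b (i, g) = Ψ g (b (i, 1)))
    (hE1 : ForallEigen Φ fun O' _ _ _ _ _ _ _ _ _ lam x =>
      ∀ χ : Dlt p e →* O', (∀ g, (Ψ g).baseChange O' x = χ g • x) →
        ((∀ g, χ g = 1) ↔ ∀ j, lam (π (1 + c j)) = 1))
    (hE2 : ∀ t, ForallEigen Φ fun _ _ _ _ _ _ _ _ _ _ lam _ => lam (π (prodElt t)) = 0)
    {M₁ : Type} [AddCommGroup M₁] [Module O M₁] [Module.Finite O M₁] [Module.Free O M₁]
    (Φ₁ : 𝕋 →ₐ[O] Module.End O M₁)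
    (hE3 : ForallEigen Φ₁ fun _ _ _ _ _ _ _ _ _ _ lam _ => lam (π hElt) = 0)
    (N : Submodule O M) (hN : ∀ x ∈ N, ∃ y, x = ϖ • y)
    (f : M₁ →+ (M ⧸ N)) (hf : Function.Surjective f)
    (hfΦ : ∀ t y x, f y = Submodule.Quotient.mk x →
      f (Φ₁ t y) = Submodule.Quotient.mk (Φ t x)) :
    Nonempty (TWModPart O ϖ p r n D R prodElt hElt) :=
  H69.EG.exists_modPart π e hne c hcm hc Φ Ψ hΦΨ hd0 hdD b hb hE1 hE2 Φ₁ hE3 N hN f hf hfΦ

/-- **The modular inputs of modularity lifting.** This theorem lists exactly what has to be known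
about modular forms at one level. The Hecke modules `E τ` have indices `τ : MIdx s`: `chi` (with a
non-trivial character of `p`-power order at the primes of `T`), `mod i`, `i = 0, …, s` (the level is
raised at the first `i` of the `s` raising primes) and `new i` (the part of `mod (i + 1)` which is
new at the `i`-th raising prime). For eigensystems `λ` and the marks `y i = (t, y, z)` at the
raising primes:
* `hE1`: on every eigenvector the diamond character is trivial if and only if that of the Galois
  side is;
* `hprod`, `huni`: the trace of inertia at the primes of `T` is that of the character, resp. `2`;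
* `hchi`, `hnr`, `hun`: unramified at the raising primes which do not divide the level (`y = z = 0`),
  unipotent at those which do (`y t = 0`, `z (t + c) = 0`);
* `hnew`: `(t (t + c))²` kills the new part (its Frobenius has the trace of a Steinberg
  representation); `quo`, `low`: the maps of one raising step (`raising_step` in
  `GuideLiftingHecke`); `g`, `g₁`: `chi` and `mod 0` are congruent modulo `ϖ`;
* `pt`: the point of the curve, and `f`: a witness of non-modularity (`hE4`: it vanishes at the
  points of `mod s` with trivial diamond character; `hf`: it does not vanish at the curve,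
  modulo `ϖ^m`);
* `U`: a set of elements which kill all modules (the marks at `p`), as they vanish at all modular
  points.
Conclusion: the modular part of a level (`FullModPart`), whose modules are killed by `U`. -/
theorem modular_inputs [Finite (ResidueField O)] [CharZero O] {p : ℕ} [Fact p.Prime]
    [CharP (ResidueField O) p] {R : Type} [CommRing R] [IsLocalRing R] [Algebra O R]
    [IsAdicComplete (maximalIdeal R) R] {𝕋 : Type} [CommRing 𝕋] [Algebra O 𝕋]
    [Module.Finite O 𝕋] [IsReduced 𝕋] {ϖ c' : O} {r n D m s : ℕ} {T : Type}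
    {prodElt uniElt : T → R} {y : Fin s → Fin 3 → R} {cb : Fin s → O}
    (π : R →ₐ[O] 𝕋) (e : Fin r → ℕ) (hne : ∀ j, n ≤ e j)
    (c : Fin r → R) (hcm : ∀ j, c j ∈ maximalIdeal R) (hc : ∀ j, (1 + c j) ^ (p ^ e j) = 1)
    (E : H57.Full.MIdx s → EMod O p e 𝕋) (hd0 : 0 < (E .chi).d) (hdD : ∀ τ, (E τ).d ≤ D)
    (hE1 : ∀ τ, (E τ).Compat π c)
    (hprod : ∀ t, ForallEigen (E .chi).Φ fun _ _ _ _ _ _ _ _ _ _ lam _ =>
      lam (π (prodElt t)) = 0)
    (huni : ∀ i t, ForallEigen (E (.mod i)).Φ fun _ _ _ _ _ _ _ _ _ _ lam _ =>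
      lam (π (uniElt t)) = 0)
    (hchi : ∀ i, ForallEigen (E .chi).Φ fun _ _ _ _ _ _ _ _ _ _ lam _ =>
      lam (π (y i 1)) = 0 ∧ lam (π (y i 2)) = 0)
    (hnr : ∀ (i : Fin (s + 1)) (j : Fin s), (i : ℕ) ≤ j →
      ForallEigen (E (.mod i)).Φ fun _ _ _ _ _ _ _ _ _ _ lam _ =>
        lam (π (y j 1)) = 0 ∧ lam (π (y j 2)) = 0)
    (hun : ∀ (i : Fin (s + 1)) (j : Fin s), (j : ℕ) < i →
      ForallEigen (E (.mod i)).Φ fun O' _ _ _ _ _ _ _ _ _ lam _ =>
        lam (π (y j 1)) * lam (π (y j 0)) = 0 ∧
        lam (π (y j 2)) * (lam (π (y j 0)) + algebraMap O O' (cb j)) = 0)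
    (hnew : ∀ (i : Fin s) (x : (E (.new i)).M),
      (E (.new i)).Φ (π ((y i 0 * (y i 0 + algebraMap O R (cb i))) ^ 2)) x = 0)
    {Y : Type} [AddCommGroup Y]
    (g : (E .chi).M →+ Y) (hg : Function.Surjective g) (hgk : ∀ x, g x = 0 ↔ ∃ y, x = ϖ • y)
    (g₁ : (E (.mod 0)).M →+ Y) (hg₁ : Function.Surjective g₁)
    (hgk₁ : ∀ x, g₁ x = 0 ↔ ∃ y, x = ϖ • y)
    (hgg : ∀ t x y, g x = g₁ y → g ((E .chi).Φ t x) = g₁ ((E (.mod 0)).Φ t y))
    (quo : ∀ i : Fin s, (E (.mod i.succ)).M →+ (E (.new i)).M)
    (hquo : ∀ i t x, quo i ((E (.mod i.succ)).Φ t x) = (E (.new i)).Φ t (quo i x))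
    (hquo_surj : ∀ i, Function.Surjective (quo i))
    (low : ∀ i : Fin s, (E (.mod i.succ)).M →+ (E (.mod i.castSucc)).M)
    (hlow : ∀ i t x, low i ((E (.mod i.succ)).Φ t x) = (E (.mod i.castSucc)).Φ t (low i x))
    (hlow_surj : ∀ i a, ∃ x, low i x = c' • a)
    (hlow_old : ∀ i x, quo i x = 0 →
      ∃ a, low i x = (E (.mod i.castSucc)).Φ (π (y i 0)) a)
    (pt : R →ₐ[O] O) (hpt : ∀ j, pt (c j) = 0) (hptu : ∀ t, pt (uniElt t) = 0)
    (hptt : ∀ i, pt (y i 0) = 0) (hptz : ∀ i, pt (y i 2) = 0)
    (f : R) (hE4 : ForallEigen (E (.mod (Fin.last s))).Φ fun O' _ _ _ _ _ _ _ _ _ lam x =>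
      (∀ g, ((E (.mod (Fin.last s))).Ψ g).baseChange O' x = x) → lam (π f) = 0)
    (hf : pt f ∉ Ideal.span {ϖ ^ m})
    (U : Set R) (hUc : ∀ a ∈ U, ForallEigen (E .chi).Φ fun _ _ _ _ _ _ _ _ _ _ lam _ =>
      lam (π a) = 0)
    (hUm : ∀ i, ∀ a ∈ U, ForallEigen (E (.mod i)).Φ fun _ _ _ _ _ _ _ _ _ _ lam _ =>
      lam (π a) = 0) :
    ∃ mp : H69.EG.FullModPart O ϖ c' p r n D m s R prodElt uniElt y cb,
      mp.pt = pt ∧ letI := mp.instAddCommGroup; letI := mp.instModule;
      ∀ a ∈ U, ∀ τ (x : mp.N τ), a • x = 0 :=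
  H21M.exists_fullModPart_U π e hne c hcm hc E hd0 hdD hE1 hprod huni hchi hnr hun hnew g hg hgk
    g₁ hg₁ hgk₁ hgg quo hquo hquo_surj low hlow hlow_surj hlow_old pt hpt hptu hptt hptz f hE4 hf
    U hUc hUm

end Hecke

/-! ### 3. Quotients of the deformation ring and removal of marks

A *mark* is a triple `(t, y, z)` of elements of the deformation ring attached to a place where a
local condition is imposed. At `p`, if all eigenclasses are new at `p`, `t` and `z` kill all modules
which come from modular forms (the points are Steinberg at `p`), so they can be divided out, while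
`y` stays as a free variable. The ring `O[[…]]` that presents the deformation ring then has two
variables less for each mark, and the components of its quotient by the relations at the primes
of `T` (and at the raising primes) have the dimension `1 + r` of `O[[X_1, …, X_r]]`. For the levels
of level lowering see also `level_over_quotient` and `no_patching_marks` in `GuideLevelsIhara`. The
levels of modularity lifting are the structures `FullLevel` (`GuideLiftingAlgebra`, section E), those
of level lowering the structures `TWLevel` (`full_level_module` in `GuideLevelsIhara`). -/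

section Marks

open Fermat.Agent.H57 Fermat.Agent.H57.Full Fermat.Agent.H57.Tame Fermat.Agent.H69.EG
open Fermat.Agent.H57.NM

attribute [local instance] TWLevel.instCommRing TWLevel.instLocal TWLevel.instAlgebra
attribute [local instance] TWLevel.instAddCommGroup TWLevel.instModule
attribute [local instance] RPart.instCommRing RPart.instLocal RPart.instAlgebra
attribute [local instance] FullLevel.instAddCommGroup FullLevel.instModule

/-- **A quotient needs fewer variables.** Let `β : O[[X_a]] → R` be a presentation of the local ring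
`R` and `I` a proper ideal. If `j` is a map of index sets such that every variable which is not
in the image of `j` is mapped into `I`, then `R/I` is presented by the variables `X_(j(b))`. -/
theorem presentation_of_quotient {O : Type} [CommRing O] [IsLocalRing O] [IsNoetherianRing O]
    [IsAdicComplete (maximalIdeal O) O] {σ σ₁ : Type} [Finite σ] [Finite σ₁]
    {R : Type} [CommRing R] [IsLocalRing R] [Algebra O R] (β : MvPowerSeries σ O →ₐ[O] R)
    (hβ : Function.Surjective β) (I : Ideal R) (hI : I ≠ ⊤) (j : σ₁ → σ)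
    (hj : ∀ a, (∃ b, j b = a) ∨ β (MvPowerSeries.X a) ∈ I) :
    ∃ β' : MvPowerSeries σ₁ O →ₐ[O] R ⧸ I, Function.Surjective β' ∧
      ∀ b, β' (MvPowerSeries.X b) = Ideal.Quotient.mk I (β (MvPowerSeries.X (j b))) :=
  H69.Quot.exists_pres_quot β hβ I hI j hj

/-- **Quotients of a level of modularity lifting.** Let `I` be an ideal of the deformation ring of
the level `L` which kills all modules and the point (the homomorphism `L.pt : R → O` of the Tate
module of the curve). If `β'` is a presentation of `R/I` in which the distinguished variables have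
the same images as in the given presentation, then there is a level with the same data and the
ring `B'` in place of `B`. -/
theorem quotient_of_level {O : Type} [CommRing O] [IsLocalRing O] {ϖ c' : O}
    {p r n D m s : ℕ} {T B B' : Type} [CommRing B] [Algebra O B] [CommRing B'] [Algebra O B']
    {X : T → Fin 6 → B} {Y : Fin s → Fin 3 → B} {X' : T → Fin 6 → B'} {Y' : Fin s → Fin 3 → B'}
    {q : T → ℕ} {v : T → O} {Z : T → Finset Oˣ} {cb : Fin s → O}
    (L : FullLevel O ϖ c' p r n D m s B X Y q v Z cb) (I : Ideal L.R)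
    (hIN : ∀ τ, ∀ a ∈ I, ∀ x : L.N τ, a • x = 0) (hIpt : ∀ a ∈ I, L.pt a = 0)
    (β' : B' →ₐ[O] L.R ⧸ I) (hβ' : Function.Surjective β')
    (hX : ∀ t j, β' (X' t j) = Ideal.Quotient.mk I (L.β (X t j)))
    (hY : ∀ i j, β' (Y' i j) = Ideal.Quotient.mk I (L.β (Y i j))) :
    Nonempty (FullLevel O ϖ c' p r n D m s B' X' Y' q v Z cb) :=
  H69.Quot.nonempty_quot L I hIN hIpt β' hβ' hX hY

/-- **Removal of the marks at `p`, level lowering.** The variables of the presentation of the
deformation ring of a level `L` are: six for every `t ∈ T` (the matrices of inertia and Frobenius),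
three for every mark (index set `ε'`), and `k` more. If the elements `t` and `z` of all marks kill
the module, one may pass to the quotient: each mark then contributes one free variable instead of
three. (`BRing O T k'` is the power series ring with six variables for every `t ∈ T` and `k'` more,
`bVar` are the six variables. For one mark and the levels of modularity lifting see
`removal_of_mark` in `GuideLiftingAlgebra`.) -/
theorem removal_of_marks {O : Type} [CommRing O] [IsDomain O] [IsDiscreteValuationRing O]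
    [IsAdicComplete (maximalIdeal O) O] {ϖ : O} {p r n D k : ℕ} {T ι ε' : Type} [Finite T]
    [IsEmpty ι] [Finite ε'] {q : T → ℕ} {v : T → O} {Z : T → Finset Oˣ} {t₀ : T}
    (L : TWLevel O ϖ p r n D
      (MvPowerSeries (((T × Fin 6) ⊕ ((ι ⊕ ε') × Fin 3)) ⊕ Fin k) O)
      (fun t j => MvPowerSeries.X (Sum.inl (Sum.inl (t, j)))) q v Z t₀)
    (ht : ∀ (e : ε') (x : L.M),
      L.β (MvPowerSeries.X (Sum.inl (Sum.inr (Sum.inr e, 0)))) • x = 0)
    (hz : ∀ (e : ε') (x : L.M),
      L.β (MvPowerSeries.X (Sum.inl (Sum.inr (Sum.inr e, 2)))) • x = 0) :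
    Nonempty (TWLevel O ϖ p r n D (BRing O T (Nat.card ε' + k)) (bVar O (Nat.card ε' + k))
      q v Z t₀) :=
  H69C.nonempty_removeMarks L ht hz

/-- **There is no system of levels, type `Pβ`.** `T`: the primes with a condition on inertia
(`q_t ≡ 1`), `Fin s ≃ ι`: the primes where the level is raised (marks with constant `cb_i ≠ 0`),
`ε'`: the mark `(t, y, z)` at `p`; its elements `t` and `z` kill all modules and vanish at the point.
If the number of diamond operators is `r = 3 |T| + |ι| + 1 + k`, then levels of every depth `n`, of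
bounded rank and with `m` fixed, cannot exist. This is the contradiction which proves modularity
lifting in type `Pβ` (`contradiction_beta` in `GuideLifting`); for the types `F`, `Pα`, `O` see
`endgame` in `GuideLiftingAlgebra`. -/
theorem no_system_beta {O : Type} [CommRing O] [IsDomain O]
    [IsDiscreteValuationRing O] [IsAdicComplete (maximalIdeal O) O] [Finite (ResidueField O)]
    {ϖ c' : O} (hϖ : maximalIdeal O = Ideal.span {ϖ}) (hc' : c' ≠ 0)
    {p k D m s r : ℕ} (hpO : (p : O) ∈ maximalIdeal O) (h2 : IsUnit (2 : O))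
    {T ι ε' : Type} [Finite T] [Finite ι] [Unique ε'] (ε : Fin s ≃ ι)
    (hr : r = 3 * Nat.card T + Nat.card (ι ⊕ ε') + k)
    {q : T → ℕ} (hq0 : ∀ t, 1 ≤ q t) (hq : ∀ t, (q t : O) - 1 ∈ maximalIdeal O)
    (hq1 : ∀ t, (q t : O) ≠ 1) {v : T → O} (hv : ∀ t, v t * v t = 1)
    {Z : T → Finset Oˣ} (hZ1 : ∀ t, ∀ ζ ∈ Z t, ζ ≠ 1) (hZ2 : ∀ t, ∀ ζ ∈ Z t, ζ ^ (q t - 1) = 1)
    (hZ3 : ∀ t, ∀ ζ ∈ Z t, (ζ : O) - 1 ∈ maximalIdeal O)
    {cb : Fin s → O} (hcb : ∀ i, cb i ≠ 0)
    (L : ∀ n, ∃ L : FullLevel O ϖ c' p r n D m s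
      (MvPowerSeries (((T × Fin 6) ⊕ ((ι ⊕ ε') × Fin 3)) ⊕ Fin k) O)
      (fun t j => MvPowerSeries.X (Sum.inl (Sum.inl (t, j))))
      (fun i j => MvPowerSeries.X (Sum.inl (Sum.inr (Sum.inl (ε i), j)))) q v Z cb,
      (∀ τ (x : L.N τ),
        L.β (MvPowerSeries.X (Sum.inl (Sum.inr (Sum.inr default, 0)))) • x = 0) ∧
      (∀ τ (x : L.N τ),
        L.β (MvPowerSeries.X (Sum.inl (Sum.inr (Sum.inr default, 2)))) • x = 0) ∧
      L.pt (L.β (MvPowerSeries.X (Sum.inl (Sum.inr (Sum.inr default, 0))))) = 0 ∧
      L.pt (L.β (MvPowerSeries.X (Sum.inl (Sum.inr (Sum.inr default, 2))))) = 0) : False :=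
  H69.Quot.no_full_levels_pbeta hϖ hc' hpO h2 ε hr hq0 hq hq1 hv hZ1 hZ2 hZ3 hcb L

end Marks

/-! ### 4. The outer part of level lowering

`W` is an elliptic curve over `ℤ` with discriminant `Δ ≠ 0`, `resZ W hΔ p` the representation on
`W[p]`, `p` odd. `H57.S59.ResHypB W hΔ p A T ∅ sB` collects what is known about `W[p]` at the primes
`≠ p`: `A` are the ramified primes (unipotent inertia), `T` are unramified primes `t ≡ 1` modulo `p`
at which Frobenius acts as a scalar `± 1`. The prime `t₀ ∈ T` is the prime to be removed from the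
level. `CoeffChoice`, `PlaceData`, `PData` and `GalLevelB` (the Galois side of a level) are
explained in `GuideLifting` and `GuideLiftingGalois`; `GLev` is `GalLevelB` for the curve `W`,
`Tset T` is `T` as a type, `Zset O p T t` the set of the roots of unity `≠ 1` in `O` whose order is
a power of `p` dividing `t - 1`, and `Kills mp a` says that `a` kills the module `mp.M`. The inner
statement and the cases at `p` are in `GuideLevelsOdd`, the modules in `GuideTWModules`; the
assertion LL which results (`W[p]` is modular of level `M/t₀`) and its use for S38 are in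
`GuideLevels` (`LL_all_odd`, `lower_of_noLL`). -/

section Outer

open Fermat.Agent.H53 (GQ M2 toMat mapMat PData PlaceData GalLevelB numB)
open Fermat.Agent.H59 (Tset CoeffChoice Zset)
open Fermat.Agent.H87.Glue (resZ)
open Fermat.Agent.H69.EG (TWModPart TWLevel)
open Fermat.Agent.H86.In (GLev)
open Fermat.Agent.H57.S59 (ResHypB)
open Fermat.Agent.H69C

attribute [local instance] TWModPart.instAddCommGroup TWModPart.instModule
attribute [local instance] TWLevel.instCommRing TWLevel.instLocal TWLevel.instAlgebra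
attribute [local instance] TWLevel.instAddCommGroup TWLevel.instModule

/-- **The condition of Taylor and Wiles**, unfolded: after every extension of scalars, `W[p]` stays
irreducible over every quadratic extension of `ℚ` (a subgroup `G` of index 2 has no stable line).
For `p` odd and `W` semistable it follows from the irreducibility of `W[p]`: theorem
`taylor_wiles_condition` in `GuideLevels` (steps: `GuideTWCondition`). -/
theorem tw_condition_iff (W : WeierstrassCurve ℤ) (hΔ : W.Δ ≠ 0) (p : ℕ) [Fact p.Prime] :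
    TWCond W hΔ p ↔
      ∀ (k : Type) [Field k] (φ : ZMod p →+* k) (ρbar : ResidualGaloisRep k),
        ((resZ W hΔ p).baseChangeAlong φ).IsEquiv ρbar →
        ∀ (K : Type) [Field K] [Algebra k K] (G : Subgroup GQ), G.index = 2 →
          ∀ V : Submodule K (ρbar.baseChange K).V,
            (∀ σ ∈ G, ∀ x ∈ V, (ρbar.baseChange K).ρ σ x ∈ V) → V = ⊥ ∨ V = ⊤ := Iff.rfl

/-- **The inner statement of level lowering**, unfolded: the part of the argument which concerns
modular forms. Given the coefficient ring `O`, a basis of the representation, places above the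
primes of `T` with their Frobenius matrices `± 1`, there is a local condition `pd` at `p` such that
for all `k` there is a bound `D` for the ranks such that for all `n`, for a suitable finite set `S₀`
of primes to be avoided, every Galois side `G` of a level of depth `n` (with auxiliary primes
outside `S₀`) can be completed by a modular part of rank at most `D`: a module over the deformation
ring `G.D.R`, free over the diamond group ring, killed by `tr σ_t - (ζ + ζ⁻¹)` multiplied over the
non-trivial roots of unity `ζ` at `t`, for all `t ∈ T`, on which `(tr φ_t₀)² - (t₀ + 1)²` vanishes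
modulo `ϖ`, and which is killed by the elements `t` and `z` of the marks at `p`. -/
theorem inner_statement_iff (W : WeierstrassCurve ℤ) (hΔ : W.Δ ≠ 0) (p : ℕ) [Fact p.Prime]
    (A T : Finset ℕ) (t₀ : Tset T) :
    InnerLLK W hΔ p A T t₀ ↔
    ∀ (O : Type) [CommRing O] [IsDomain O] [IsDiscreteValuationRing O]
      [IsAdicComplete (maximalIdeal O) O] [CharZero O] [Finite (ResidueField O)]
      [CharP (ResidueField O) p] [Algebra (ZMod p) (ResidueField O)] (ϖ : O) (a : ℕ) (ζ : O)
      (_ : CoeffChoice p T O ϖ a ζ)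
      (b : Module.Basis (Fin 2) (ResidueField O) ((resZ W hΔ p).baseChange (ResidueField O)).V)
      (pl : ∀ t : Tset T, PlaceData p t.1)
      (_ : ∀ (t : Tset T) (ht : t.1.Prime), (pl t).P = ExtCitation.primeLocalPlace ⟨t.1, ht⟩)
      (u : Tset T → O) (_ : ∀ t, u t ^ 2 = 1)
      (_ : ∀ t, toMat ((resZ W hΔ p).baseChange (ResidueField O)).ρ b (pl t).φ =
        residue O (u t) • (1 : M2 (ResidueField O)))
      (plB : ∀ i : Tset (∅ : Finset ℕ), PlaceData p i.1),
      ∃ (pd : PData p ((resZ W hΔ p).baseChange (ResidueField O)) b),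
        ∀ k : ℕ, ∃ D : ℕ, ∀ n : ℕ, ∃ S₀ : Finset ℕ, ∀ G : GLev hΔ pd A pl u plB k n S₀,
          ∃ mp : TWModPart O ϖ p (numB (Tset T) (Tset (∅ : Finset ℕ)) pd.ε k) n D G.D.R
            (fun t : Tset T => ∏ z ∈ Zset O p T t, (G.r (pl t).σ 0 0 + G.r (pl t).σ 1 1 -
              algebraMap O G.D.R ((z : O) + (z⁻¹ : Oˣ))))
            ((G.r (pl t₀).φ 0 0 + G.r (pl t₀).φ 1 1) ^ 2 - ((t₀.1 : G.D.R) + 1) ^ 2),
          ∀ j : pd.ε, (∀ x : mp.M, G.mB (Sum.inr j) 0 • x = 0) ∧
            ∀ x : mp.M, G.mB (Sum.inr j) 2 • x = 0 := Iff.rfl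

/-- **The outer part: the Galois sides of all levels exist.** Written in continuation form: to prove
a statement `C` one may assume a coefficient ring `O`, places, and, for every local condition `pd`
at `p`, a number `k` such that for all depths `n` and all finite sets `S₀` the Galois side of a
level exists. Ingredients: the Taylor-Wiles primes (Frobenius' density theorem and the condition of
Taylor and Wiles) and the inequality of Greenberg and Wiles, which gives the number of generators of
the deformation rings. -/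
theorem outer_part {W : WeierstrassCurve ℤ} {hΔ : W.Δ ≠ 0} {p : ℕ} [Fact p.Prime]
    {A T B : Finset ℕ} {sB : ℕ → ℤ} (hp2 : p ≠ 2) (hTW : TWCond W hΔ p)
    (hirr : W.ModRepIsIrreducible p) (H : ResHypB W hΔ p A T B sB) {C : Prop}
    (K : ∀ (O : Type) [CommRing O] [IsDomain O] [IsDiscreteValuationRing O]
      [IsAdicComplete (maximalIdeal O) O] [CharZero O] [Finite (ResidueField O)]
      [CharP (ResidueField O) p] [Algebra (ZMod p) (ResidueField O)] (ϖ : O) (a : ℕ) (ζ : O)
      (_ : CoeffChoice p T O ϖ a ζ)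
      (b : Module.Basis (Fin 2) (ResidueField O) ((resZ W hΔ p).baseChange (ResidueField O)).V)
      (pl : ∀ t : Tset T, PlaceData p t.1)
      (_ : ∀ (t : Tset T) (ht : t.1.Prime), (pl t).P = ExtCitation.primeLocalPlace ⟨t.1, ht⟩)
      (u : Tset T → O) (_ : ∀ t, u t ^ 2 = 1)
      (_ : ∀ t, toMat ((resZ W hΔ p).baseChange (ResidueField O)).ρ b (pl t).φ =
        residue O (u t) • (1 : M2 (ResidueField O)))
      (plB : ∀ i : Tset B, PlaceData p i.1)
      (_ : ∀ (i : Tset B) (hi : i.1.Prime), (plB i).P = ExtCitation.primeLocalPlace ⟨i.1, hi⟩),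
      (∀ pd : PData p ((resZ W hΔ p).baseChange (ResidueField O)) b, ∃ k : ℕ,
        ∀ (n : ℕ) (S₀ : Finset ℕ),
          Nonempty (GalLevelB p ((resZ W hΔ p).baseChange (ResidueField O)) b pd A
            (fun t : Tset T => t.1) pl u (fun i : Tset B => i.1) plB
            (fun i => (sB i.1 : O)) k n S₀)) → C) : C :=
  H69C.outer hp2 hTW hirr H K

/-- **Packing.** The Galois side `G` of a level and a modular part over its deformation ring which
is killed by the elements `t` and `z` of the marks at `p` give a level of the level lowering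
argument, with the same property. -/
theorem level_of_parts {O : Type} [CommRing O] [IsDomain O] [IsDiscreteValuationRing O]
    [IsAdicComplete (maximalIdeal O) O] [Finite (ResidueField O)] {p : ℕ} [Fact p.Prime]
    {A : Finset ℕ} {ρbar : ResidualGaloisRep (ResidueField O)}
    {b : Module.Basis (Fin 2) (ResidueField O) ρbar.V} {pd : PData p ρbar b}
    {τ ι : Type} [Fintype τ] [Fintype ι] {qT : τ → ℕ} {pl : ∀ t, PlaceData p (qT t)} {u : τ → O}
    {qB : ι → ℕ} {plB : ∀ i, PlaceData p (qB i)} {uB : ι → O} {k n D : ℕ} {S₀ : Finset ℕ}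
    (G : GalLevelB p ρbar b pd A qT pl u qB plB uB k n S₀) {ϖ : O} {r : ℕ} {Z : τ → Finset Oˣ}
    {t₀ : τ}
    (mp : TWModPart O ϖ p r n D G.D.R
      (fun t : τ => ∏ z ∈ Z t, (toMat G.D.ρ.ρ G.b₁ (pl t).σ 0 0 +
        toMat G.D.ρ.ρ G.b₁ (pl t).σ 1 1 - algebraMap O G.D.R ((z : O) + (z⁻¹ : Oˣ))))
      ((toMat G.D.ρ.ρ G.b₁ (pl t₀).φ 0 0 + toMat G.D.ρ.ρ G.b₁ (pl t₀).φ 1 1) ^ 2 -
        ((qT t₀ : G.D.R) + 1) ^ 2))
    (hmp : ∀ j : pd.ε, Kills mp (G.mB (Sum.inr j) 0) ∧ Kills mp (G.mB (Sum.inr j) 2)) :
    ∃ L : TWLevel O ϖ p r n D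
      (MvPowerSeries (((τ × Fin 6) ⊕ ((ι ⊕ pd.ε) × Fin 3)) ⊕ Fin k) O)
      (fun t j => MvPowerSeries.X (Sum.inl (Sum.inl (t, j)))) qT u Z t₀,
      (∀ (e : pd.ε) (x : L.M),
        L.β (MvPowerSeries.X (Sum.inl (Sum.inr (Sum.inr e, 0)))) • x = 0) ∧
      (∀ (e : pd.ε) (x : L.M),
        L.β (MvPowerSeries.X (Sum.inl (Sum.inr (Sum.inr e, 2)))) • x = 0) :=
  H69C.exists_twLevel G mp hmp

/-- **There is no system of levels.** For `p` odd, `W[p]` irreducible and with the condition of
Taylor and Wiles, the inner statement leads to a contradiction. The inner statement itself is proved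
from the assumption that `W[p]` is modular of level `M`, `t₀ ∣ M`, but not of level `M/t₀`: this is
level lowering in the case where Frobenius at `t₀` is a scalar. -/
theorem no_system {W : WeierstrassCurve ℤ} {hΔ : W.Δ ≠ 0} {p : ℕ} [Fact p.Prime]
    {A T : Finset ℕ} {sB : ℕ → ℤ} (hp2 : p ≠ 2) (hTW : TWCond W hΔ p)
    (hirr : W.ModRepIsIrreducible p) (H : ResHypB W hΔ p A T ∅ sB) (t₀ : Tset T)
    (inner : InnerLLK W hΔ p A T t₀) : False :=
  H69C.noLLK hp2 hTW hirr H t₀ inner

end Outer

/-! ### 5. The point of the curve and the end of modularity lifting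

`𝒪` is a complete discrete valuation ring with residue characteristic `p`, and `tO W hΔ hpO` is the
Tate module `T_p W ⊗ 𝒪` as a representation of the Galois group of `ℚ`. -/

section Point

open Fermat.Agent.H53 (GQ M2 toMat mapMat)
open Fermat.Agent.H87.Glue Fermat.Agent.H87.S58 Fermat.Agent.H69.Pt

variable {𝒪 : Type} [CommRing 𝒪] [IsDomain 𝒪] [IsDiscreteValuationRing 𝒪]
  [IsAdicComplete (maximalIdeal 𝒪) 𝒪]

/-- **The Tate module as a deformation.** The reduction of `T_p W ⊗ 𝒪` is `W[p]` (with coefficients
in the residue field), its determinant is the cyclotomic character, and if `W` has multiplicative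
reduction at `p` it is strictly ordinary at `p`. So it is a point of the deformation ring. -/
theorem tate_module_is_deformation (W : WeierstrassCurve ℤ) (hΔ : W.Δ ≠ 0) {p : ℕ}
    [Fact p.Prime] (hpO : (p : 𝒪) ∈ maximalIdeal 𝒪) (φ : ZMod p →+* ResidueField 𝒪) :
    (tO W hΔ hpO).residual.IsEquiv ((resZ W hΔ p).baseChangeAlong φ) ∧
      (tO W hΔ hpO).DetIsCyclotomic p ∧
      (W.IsSemistableModel → (p : ℤ) ∣ W.Δ → (tO W hΔ hpO).IsStrictOrdinaryAt p) :=
  ⟨residual_tO W hΔ hpO φ, detIsCyclotomic_tO W hΔ hpO, isStrictOrdinaryAt_tO W hΔ hpO⟩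

/-- **Hecke polynomials as elements of the deformation ring.** Let `r` be a representation by
matrices over `R` and `P` a polynomial in variables `T_ℓ`, `ℓ ∉ S`; `trElt r P` is its value at
`T_ℓ ↦ trace of r(Frobenius at ℓ)`. If the point `f : R → 𝒪` gives the Tate module of `W`, and `S`
contains `p` and the bad primes, then `f (trElt r P)` is the value of `P` at the integers `a_ℓ(W)`:
by the characteristic polynomial of Frobenius on the Tate module. -/
theorem hecke_polynomial_at_point {W : WeierstrassCurve ℤ} {hΔ : W.Δ ≠ 0} {p : ℕ}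
    [Fact p.Prime] {hpO : (p : 𝒪) ∈ maximalIdeal 𝒪} {R : Type} [CommRing R] {r : GQ →* M2 R}
    {f : R →+* 𝒪} {b₂ : Module.Basis (Fin 2) 𝒪 (tO W hΔ hpO).V}
    (h : toMat (tO W hΔ hpO).ρ b₂ = mapMat f r) {S : Set ℕ} (hpS : p ∈ S)
    (hS : ∀ q : ℕ, q.Prime → (q : ℤ) ∣ W.Δ → q ∈ S)
    (P : MvPolynomial {ℓ : ℕ // ℓ.Prime ∧ ℓ ∉ S} ℤ) :
    f (trElt r P) = ((MvPolynomial.aeval (fun i => W.apOfModel i.1) P : ℤ) : 𝒪) :=
  map_trElt_tO h hpS hS P

/-- **The depth of the witness.** If `W` is not modular of the level in question, there is a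
polynomial `P` which vanishes in the Hecke algebra but whose value `c` at the `a_ℓ(W)` is a non-zero
integer (theorem `dichotomy` in `GuideLiftingComposition`). Then `c` is not divisible by `ϖ^m` for
some `m`: this `m`, the same for all levels, is the number `m` of the levels. -/
theorem exists_depth [CharZero 𝒪] {ϖ : 𝒪} (hϖ : maximalIdeal 𝒪 = Ideal.span {ϖ}) {c : ℤ}
    (hc : c ≠ 0) : ∃ m : ℕ, (c : 𝒪) ∉ Ideal.span {ϖ ^ m} :=
  exists_notMem_pow hϖ hc

/-- **A character of the Hecke algebra proves modularity.** Let `L` be squarefree. If the Hecke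
algebra of level `Γ₀(L)` outside `S` (generated by the `T_ℓ`, `ℓ ∤ L`, and the `U_q`, `q ∣ L`, with
`ℓ, q ∉ S`) has a homomorphism to a ring of characteristic zero which maps `T_ℓ` to `a_ℓ(W)` (no
condition on the `U_q`), then `W` is modular of exact conductor level: there is a normalised eigenform
whose level is the product of the primes of bad reduction and whose coefficients at the good primes
are the `a_ℓ(W)`. (`h35 : StatementS35` is S35, the Galois representations of newforms at the primes
dividing the level; it excludes superfluous primes.) -/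
theorem modular_of_character (h35 : StatementS35) (W : WeierstrassCurve ℤ) (hΔ : W.Δ ≠ 0)
    {L : ℕ} [NeZero L] (hL : Squarefree L) (S : Finset ℕ) {A : Type} [CommRing A] [CharZero A]
    (lam : CuspForm.heckeAlgebra L 2 (↑S : Set ℕ) →+* A)
    (hlam : ∀ (ℓ : ℕ) (hℓ : ℓ.Prime) (hℓL : ¬ ℓ ∣ L) (hℓS : ℓ ∉ (↑S : Set ℕ)),
      lam (CuspForm.heckeAlgebra.T hℓ hℓL hℓS) = (W.apOfModel ℓ : A)) :
    Mlc1IsModularModelOfExactConductorLevel W :=
  H69.Fin.exact_of_char h35 W hΔ hL S lam hlam

end Point

end Fermat.Agent.Guide.Patching
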