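import Fermat.Agent.H69Cong
import Fermat.Agent.H69Fin
import Fermat.Agent.H69Quot
import Fermat.Agent.H69Red
import Fermat.Agent.H69Tangent
import Fermat.Agent.H57FreeLimit

/-!
# Guide: steps of the patching argument

This file belongs to the reader's guide. It states theorems that are used in the development; every
proof is a citation (for `level_of_matrices`: the last lines of the proof of `exists_free_ulimit` in
`H57FreeLimit`). It is a companion of `GuidePatching` and shows the steps between the main theorems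
of `GuideLiftingAlgebra` (part (C): the patching limit), `GuideLevelsIhara` (sections 4 and 5: level
lowering), `GuideTWModules` (Hecke modules) and `GuideTameRings` (section 6).

* Section 1: complete local rings and limits along an ultrafilter: the quotients by powers of the
  maximal ideal are finite, so every sequence has a limit, and limits are compatible with the
  ring operations.
* Section 2: matrices. A level is a module over `B` with a basis over `S/I`; the action of `B` is
  given by matrices over `S`, well defined modulo `I`. Homomorphisms modulo an ideal are matrices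
  which commute with the action, and conversely a representation by matrices gives a module.
  Together with section 1 and with `matrix_continuity` and `mem_of_approx` of `GuidePatching` these
  are all the steps of the theorem on the patching limit (`patching_limit` in
  `GuideLiftingAlgebra`, `patching_without_target` in `GuideLevelsIhara`): one takes the limits of
  the entries of the matrices.
* Section 3: the power series ring `O[[X_1, …, X_r]]` of the diamond operators.
* Section 4: the group of diamond operators, and the passage from the geometric action to the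
  action through the Galois side.
* Section 5: congruent characters; from an eigenvector of a Hecke module to a cohomology class.
* Section 6: from a level of level lowering to equations. The matrices of inertia and Frobenius
  are defined over the local ring `B`, and the conditions on traces become equations between
  their entries. This is the proof of `no_patching` in `GuideLevelsIhara`, between
  `full_level_module` and `chi_component_irreducible` there.
* Section 7: dimension. Section 8: steps of the beginning and of the end of modularity lifting.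
  Section 9: two facts used in the construction of the universal deformation ring.

Used in (term closures): sections 1 to 3, the first two theorems of section 4,
`unique_square_root`, `powers_of_matrix` and `dimension_of_integral_extension`: S01, S03, S04, S06,
S38, S43, S45, S46, S50, S59, S60; `change_of_action` and sections 5 and 8: the same without S43; the
other theorems of sections 6 and 7: S01, S03, S38, S43, S45; section 9: the first list and S53.
Notes: [304] and [165] (patching), [201] (Hecke modules).

Author of the library files (`H69*`) and of this file: helper69; with helper57 (`H57AdicLimit`,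
`H57FreeLimit`), helper70 (`H70*`), helper21 (`H21MLev`), helper53 (`H53Family`).
-/

set_option autoImplicit false

noncomputable section

namespace Fermat.Agent.Guide.PatchingSteps

open IsLocalRing Fermat.Agent
open Fermat.Agent.H69.KP (FLevel Θ)
open Fermat.Agent.H57 (IsULim)

/-! ### 1. Complete local rings and limits along an ultrafilter

`IsULim I U x z` says: for every `k` the congruence `x_n ≡ z` modulo `I^k` holds for almost all `n` in
the sense of the ultrafilter `U` (`limits_exist` in `GuideTameRings`). -/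

section Limits

/-- **The quotients by powers are finite**, if the local ring is noetherian with finite residue
field. So every sequence is constant modulo `𝔪^k` along an ultrafilter, and in a complete ring it
has a limit. -/
theorem finite_quotients (A : Type) [CommRing A] [IsLocalRing A] [IsNoetherianRing A]
    [Finite (ResidueField A)] (k : ℕ) : Finite (A ⧸ maximalIdeal A ^ k) :=
  H69.KP.finite_quot_pow A k

/-- **Quotients of complete rings are complete.** If `f : A → B` is a surjective homomorphism of
local rings and `A` is noetherian and complete, then `B` is complete; moreover `f` maps the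
maximal ideal (and its powers) into the maximal ideal (and its powers). -/
theorem complete_quotient {A B : Type} [CommRing A] [CommRing B] [IsLocalRing A]
    [IsNoetherianRing A] [IsLocalRing B] [IsAdicComplete (maximalIdeal A) A]
    (f : A →+* B) (hf : Function.Surjective f) :
    IsAdicComplete (maximalIdeal B) B ∧ ∀ k, maximalIdeal A ^ k ≤ (maximalIdeal B ^ k).comap f :=
  ⟨H69.KP.isAdicComplete_of_surjective f hf,
    H69.KP.pow_le_comap_pow f (H69.KP.le_comap_of_surjective f hf)⟩

/-- **A finite module is killed by a power of the maximal ideal**: if the module `Z` over a local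
ring has at most `K` elements, then `𝔪^K Z = 0` (Nakayama: the submodules `𝔪^i Z` decrease strictly
until they are zero). The exponent depends only on the number of elements: this is the reason for
the uniformity in `matrix_continuity` of `GuidePatching`. -/
theorem killed_by_power {B : Type} [CommRing B] [IsLocalRing B] (K : ℕ) {Z : Type}
    [AddCommGroup Z] [Module B Z] [Finite Z] (h : Nat.card Z ≤ K) :
    (maximalIdeal B ^ K • ⊤ : Submodule B Z) = ⊥ :=
  H57.pow_smul_top_eq_bot_of_card_le K h

variable {B : Type} [CommRing B] {I : Ideal B} {U : Ultrafilter ℕ}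

/-- **Limits are unique** (the module is separated), and a constant sequence converges to its
value. In particular a value which is the same at all levels is kept in the limit. -/
theorem limit_unique {Z : Type} [AddCommGroup Z] [Module B Z] [IsHausdorff I Z] {x : ℕ → Z}
    {z w : Z} (hz : IsULim I U x z) :
    (IsULim I U x w → z = w) ∧ IsULim I U (fun _ => w) w :=
  ⟨fun hw => hz.unique hw, IsULim.const w⟩

/-- **Limits are compatible with sums and products.** So a limit of ring homomorphisms is a ring
homomorphism, and a limit of representations by matrices is a representation. -/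
theorem limit_operations {Z : Type} [AddCommGroup Z] [Module B Z] {a : ℕ → B} {b : B}
    {x y : ℕ → Z} {z w : Z} (ha : IsULim I U a b) (hx : IsULim I U x z) (hy : IsULim I U y w) :
    IsULim I U (fun n => x n + y n) (z + w) ∧ IsULim I U (fun n => a n • x n) (b • z) :=
  ⟨hx.add hy, ha.smul hx⟩

/-- **The limit depends only on the sequence up to null sequences.** Applied to the relations
modulo `I_n` of the matrices of the `n`-th level, since `I_n ⊆ 𝔪^n`. -/
theorem limit_congr {Z : Type} [AddCommGroup Z] [Module B Z] {x y : ℕ → Z} {z : Z}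
    (hx : IsULim I U x z)
    (h : ∀ k, ∀ᶠ n in (U : Filter ℕ), y n - x n ∈ (I ^ k • ⊤ : Submodule B Z)) :
    IsULim I U y z :=
  hx.congr h

end Limits

/-! ### 2. Matrices

`L : FLevel S B d I` is a homomorphism `L.φ : S → B` and, for each index `τ`, a `B`-module `L.N τ` with
elements `L.b τ i`, `i < d τ`, which form a basis over `S/I`. `Θ L.toK τ f` is the matrix of `f : B`. -/

section Matrices

variable {S B : Type} [CommRing S] [CommRing B] {ι : Type} {d : ι → ℕ} {I : Ideal S}

/-- **The matrix describes the action**: on the basis and on linear combinations. -/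
theorem action_by_matrix (L : FLevel S B d I) (τ : ι) (f : B) (c : Fin (d τ) → S)
    (j : Fin (d τ)) :
    f • L.b τ j = ∑ i, L.φ (Θ L.toK τ f i j) • L.b τ i ∧
      f • ∑ j, L.φ (c j) • L.b τ j = ∑ i, L.φ (∑ j, Θ L.toK τ f i j * c j) • L.b τ i :=
  ⟨H69.KP.Θ_spec L.toK τ f j, H69.KP.smul_sum L.toK τ f c⟩

/-- **Additivity and unit element**, modulo `I` (products: `matrix_mul` in `GuidePatching`). -/
theorem matrix_add_one (L : FLevel S B d I) (τ : ι) (f g : B) (i j : Fin (d τ)) :
    Θ L.toK τ (f + g) i j - (Θ L.toK τ f i j + Θ L.toK τ g i j) ∈ I ∧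
      Θ L.toK τ 1 i j - (if i = j then 1 else 0) ∈ I :=
  ⟨H69.KP.Θ_add L.toK τ f g i j, H69.KP.Θ_one L.toK τ i j⟩

/-- **Divisibility is a condition on the matrix.** Let `K` be an ideal of `S`. The element `f` of `B`
maps `N_τ` into `K N_τ` if and only if all entries of its matrix lie in `K + I`. This condition is
closed (`mem_of_approx` in `GuidePatching`); so it passes to the limit. -/
theorem mul_le_iff (L : FLevel S B d I) (τ : ι) (f : B) (K : Ideal S) :
    (∀ x : L.N τ, f • x ∈ (K.map L.φ • ⊤ : Submodule B (L.N τ))) ↔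
      ∀ i j, Θ L.toK τ f i j ∈ K ⊔ I :=
  ⟨fun h i j => H69.KP.Θ_mem_of_smul_mem L.toK τ f h i j,
    fun h x => H69.KP.smul_mem_of_Θ_mem L.toK τ f h x⟩

/-- **Equality modulo `K`** of two vectors: congruence of the coordinates modulo `K + I`. -/
theorem eq_mod_iff (L : FLevel S B d I) (τ : ι) (K : Ideal S) (c c' : Fin (d τ) → S) :
    (Submodule.Quotient.mk (∑ j, L.φ (c j) • L.b τ j) :
        L.N τ ⧸ (K.map L.φ • ⊤ : Submodule B (L.N τ))) =
      Submodule.Quotient.mk (∑ j, L.φ (c' j) • L.b τ j) ↔ ∀ i, c i - c' i ∈ K ⊔ I :=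
  H69.KP.mk_eq_iff L.toK

/-- **Every homomorphism modulo `K` is given by a matrix** `A` over `S`, and this matrix commutes
with the action of `B` modulo `K + I`. -/
theorem matrix_of_homomorphism (L : FLevel S B d I) {τ τ' : ι} {K : Ideal S}
    (e : (L.N τ ⧸ (K.map L.φ • ⊤ : Submodule B (L.N τ))) →ₗ[B]
      (L.N τ' ⧸ (K.map L.φ • ⊤ : Submodule B (L.N τ')))) :
    ∃ A : Fin (d τ') → Fin (d τ) → S, (∀ c : Fin (d τ) → S,
        e (Submodule.Quotient.mk (∑ j, L.φ (c j) • L.b τ j)) =
          Submodule.Quotient.mk (∑ i, L.φ (∑ j, A i j * c j) • L.b τ' i)) ∧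
      ∀ f i j, ∑ l, A i l * Θ L.toK τ f l j - ∑ l, Θ L.toK τ' f i l * A l j ∈ K ⊔ I := by
  obtain ⟨A, hA⟩ := H69.KP.exists_matrix L.toK e
  exact ⟨A, hA, H69.KP.comm_of_matrix L.toK e hA⟩

/-- **Conversely**, a matrix which commutes with the action of `B` modulo `K + I` gives a
homomorphism modulo `K`. -/
theorem homomorphism_of_matrix (L : FLevel S B d I) {τ τ' : ι} {K : Ideal S}
    (A : Fin (d τ') → Fin (d τ) → S)
    (hA : ∀ f i j, ∑ l, A i l * Θ L.toK τ f l j - ∑ l, Θ L.toK τ' f i l * A l j ∈ K ⊔ I) :
    ∃ e : (L.N τ ⧸ (K.map L.φ • ⊤ : Submodule B (L.N τ))) →ₗ[B]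
        (L.N τ' ⧸ (K.map L.φ • ⊤ : Submodule B (L.N τ'))), ∀ c : Fin (d τ) → S,
      e (Submodule.Quotient.mk (∑ j, L.φ (c j) • L.b τ j)) =
        Submodule.Quotient.mk (∑ i, L.φ (∑ j, A i j * c j) • L.b τ' i) :=
  H69.KP.exists_linearMap L.toK A hA

/-- **The module of a representation by matrices.** Let `φ : S → B` be a homomorphism and let
`ρ τ : B → M_d(S)` be ring homomorphisms such that `ρ τ (φ s)` is the scalar matrix `s`. Then there is
a level with `I = 0` (its modules have bases over `S` itself) with the map `φ` and the matrices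
`ρ τ f`: the module is `S^d`, and `B` acts on it through `ρ τ`. This is how the limit level is
constructed from the limits of `φ` and of the matrices. -/
theorem level_of_matrices (φ : S →+* B) (ρ : ∀ τ, B →+* Matrix (Fin (d τ)) (Fin (d τ)) S)
    (hρ : ∀ τ s i j, ρ τ (φ s) i j = if i = j then s else 0) :
    ∃ L : FLevel S B d (⊥ : Ideal S), L.φ = φ ∧ ∀ τ f i j, Θ L.toK τ f i j = ρ τ f i j := by
  let D : H69.KP.MatLim S B PUnit.{1} (fun _ : ι => PUnit.{1}) d ⊤ :=
    { φ := φ
      ψ := { toFun := fun _ => PUnit.unit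
             map_one' := rfl
             map_mul' := fun _ _ => rfl
             map_zero' := rfl
             map_add' := fun _ _ => rfl }
      ψ_surjective := fun _ => ⟨0, rfl⟩
      ψ_φ := fun _ => rfl
      Θ := ρ
      Θ_φ := hρ
      e := fun _ _ => PUnit.unit
      e_compat := fun _ _ _ => rfl
      e_span := fun _ _ => ⟨0, rfl⟩
      e_indep := fun _ _ _ _ => trivial }
  refine ⟨FLevel.ofK D.toLevel, rfl, fun τ f i j => ?_⟩
  have h1 := H69.KP.Θ_spec D.toLevel τ f j
  have h2 : f • D.toLevel.b τ j = ∑ i, D.toLevel.φ (ρ τ f i j) • D.toLevel.b τ i := by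
    refine Eq.trans ?_ (D.sum_φ_smul_single τ fun i => ρ τ f i j).symm
    let _i := D.instMod τ
    refine H69.KP.LimMod.ext fun i => ?_
    refine (D.coord_smul τ f (H69.KP.LimMod.mk (Pi.single j 1)) i).trans ?_
    rw [Finset.sum_eq_single j]
    · rw [H69.KP.LimMod.coord_mk, Pi.single_eq_same, mul_one, H69.KP.LimMod.coord_mk]
    · intro l _ hl
      rw [H69.KP.LimMod.coord_mk, Pi.single_eq_of_ne hl, mul_zero]
    · simp
  have h3 := H69.KP.sub_mem_of_eq D.toLevel (h1.symm.trans h2) i
  rwa [Submodule.mem_bot, sub_eq_zero] at h3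

end Matrices

/-! ### 3. The power series ring of the diamond operators -/

section PowerSeries

open MvPowerSeries

/-- **Reduction of exponents.** Let `O` be a complete noetherian local ring and `p` a prime in its
maximal ideal. Modulo the relations `(1 + X_j)^(p^(n_j)) = 1` every power series is a linear
combination, with coefficients in `O`, of the monomials with exponents `< p^(n_j)`. So a module
which is generated by `d` elements over the power series ring modulo these relations is generated
by `d · ∏ p^(n_j)` elements over `O`. (Proof: `small_monomials` in `GuidePatching`; the power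
`X_j^(p^(n_j))` is congruent to the relation modulo `p`; completeness.) -/
theorem reduction_of_exponents {O : Type} [CommRing O] [IsLocalRing O] [IsNoetherianRing O]
    [IsAdicComplete (maximalIdeal O) O] {r p : ℕ} (hp : p.Prime)
    (hpO : (p : O) ∈ maximalIdeal O) (n : Fin r → ℕ) (g : MvPowerSeries (Fin r) O) :
    ∃ c : (∀ j, Fin (p ^ n j)) → O,
      g - ∑ α, C (c α) * monomial (Finsupp.equivFunOnFinite.symm fun j => (α j : ℕ)) 1 ∈
        Ideal.span (Set.range fun j : Fin r =>
          ((1 + X j) ^ (p ^ n j) - 1 : MvPowerSeries (Fin r) O)) :=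
  H69.KP.exists_reduced hp hpO n g

/-- **The ideals of the levels are deep.** If all `n_j ≥ N`, the ideal generated by the elements
`(1 + X_j)^(p^(n_j)) - 1` is contained in the `N`-th power of the maximal ideal. -/
theorem relations_deep {O : Type} [CommRing O] [IsLocalRing O] {r p : ℕ}
    (hpO : (p : O) ∈ maximalIdeal O) (n : Fin r → ℕ) {N : ℕ} (hn : ∀ j, N ≤ n j) :
    Ideal.span (Set.range fun j : Fin r =>
        ((1 + X j) ^ (p ^ n j) - 1 : MvPowerSeries (Fin r) O)) ≤
      maximalIdeal (MvPowerSeries (Fin r) O) ^ N :=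
  H69.KP.twIdeal_le_pow hpO n hn

/-- **Dimension**: for a discrete valuation ring `O` the dimension of `O[[X_1, …, X_r]]` is at least
`r + 1`. (Only this inequality is needed, since the dimensions of the components of the local
deformation rings are bounded from above.) -/
theorem le_dimension (O : Type) [CommRing O] [IsDomain O] [IsDiscreteValuationRing O] (r : ℕ) :
    ((r + 1 : ℕ) : WithBot ℕ∞) ≤ ringKrullDim (MvPowerSeries (Fin r) O) :=
  H69.EG.le_ringKrullDim_mvPowerSeries O r

/-- **Approximation by polynomials**: every power series is a polynomial modulo the `n`-th power of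
the ideal generated by the variables. -/
theorem exists_polynomial {O : Type} [CommRing O] {r : ℕ} (n : ℕ)
    (h : MvPowerSeries (Fin r) O) :
    ∃ P : MvPolynomial (Fin r) O, h - (P : MvPowerSeries (Fin r) O) ∈
      Ideal.span (Set.range fun s : Fin r => (X s : MvPowerSeries (Fin r) O)) ^ n :=
  H69.KP.exists_poly_sub_mem n h

/-- **Homomorphisms from a power series ring** into a ring which is separated for the powers of an
ideal `I`, and which map the variables into `I`, are determined by the images of the constants and of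
the variables. No continuity has to be assumed (approximation by polynomials). -/
theorem hom_ext {O C' : Type} [CommRing O] [CommRing C'] {r : ℕ} (I : Ideal C')
    [IsHausdorff I C'] {f g : MvPowerSeries (Fin r) O →+* C'} (hC : ∀ a, f (C a) = g (C a))
    (hX : ∀ i, f (X i) = g (X i)) (hI : ∀ i, f (X i) ∈ I) : f = g :=
  H69.KP.ringHom_ext_of_X I hC hX hI

end PowerSeries

/-! ### 4. The group of diamond operators

`Dlt p e` is the group `Δ = ∏_j ℤ/p^(e_j)`, written multiplicatively: a quotient of the product of the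
unit groups modulo the auxiliary primes, which are congruent to `1` modulo `p^(e_j)`. -/

section Diamond

open Fermat.Agent.H69.EG (Dlt powHom)
open Fermat.Agent.H59
open scoped TensorProduct

variable {p r : ℕ} {e : Fin r → ℕ}

/-- **Order**: `Δ` is a `p`-group with `∏ p^(e_j)` elements. -/
theorem order_of_diamond_group [Fact p.Prime] :
    Nat.card (Dlt p e) = ∏ j, p ^ e j ∧ IsPGroup p (Dlt p e) :=
  ⟨H69.EG.card_dlt, H69.EG.isPGroup_dlt⟩

/-- **The homomorphism from `Δ`** to a commutative monoid which belongs to elements `u_j` with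
`u_j^(p^(e_j)) = 1`: `powHom u hu` maps `(a_j)` to `∏ u_j^(a_j)`. It is trivial if and only if all
`u_j = 1`, and it is compatible with homomorphisms `f`. Applied to `u_j = 1 + c_j` in the deformation
ring (the value of the character of inertia at the `j`-th auxiliary prime) and to eigenvalues `f`. -/
theorem homomorphisms_of_diamond_group [Fact p.Prime] {A A' : Type} [CommMonoid A]
    [CommMonoid A'] (u : Fin r → A) (hu : ∀ j, u j ^ (p ^ e j) = 1) (f : A →* A')
    (hu' : ∀ j, f (u j) ^ (p ^ e j) = 1) :
    (∀ a : Dlt p e, powHom u hu a = ∏ j, u j ^ (Multiplicative.toAdd (a j)).val) ∧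
    ((∀ a : Dlt p e, powHom u hu a = 1) ↔ ∀ j, u j = 1) ∧
    ∀ a : Dlt p e, f (powHom u hu a) = powHom (fun j => f (u j)) hu' a :=
  ⟨H69.EG.powHom_apply u hu, H69.EG.forall_powHom_eq_one u hu, H69.EG.map_powHom f u hu hu'⟩

/-- **Change of the action of `Δ`** (the step before `free_through_galois` in `GuidePatching`). `Ψ` is
the geometric action on the Hecke module `M`, which is free over `O[Δ]`: the elements
`b (i, g) = Ψ g (b (i, 1))` are a basis over `O`. The action through the Galois side is given by the
elements `∏ (1 + X_j)^(g_j)`, mapped by `φ : O[[X]] → R` (`φ(X_j) = c_j`), `π : R → 𝕋` and `Φ`. If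
on every eigenvector the two characters of `Δ` are trivial at the same time, then the two norms
`∑ g` agree (`norms_agree` in `GuideEigensystems`), and the `b (i, 1)` generate also a basis for the
second action (`norm_trick` in `GuideLevelsIhara`). -/
theorem change_of_action {O : Type} [CommRing O] [IsDomain O] [IsDiscreteValuationRing O]
    [IsAdicComplete (maximalIdeal O) O] [Finite (ResidueField O)] [CharZero O]
    [Fact p.Prime] [CharP (ResidueField O) p] {R : Type} [CommRing R] [IsLocalRing R]
    [Algebra O R] {𝕋 : Type} [CommRing 𝕋] [Algebra O 𝕋] [Module.Finite O 𝕋]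
    (π : R →ₐ[O] 𝕋) (c : Fin r → R) (hc : ∀ j, (1 + c j) ^ (p ^ e j) = 1)
    (φ : MvPowerSeries (Fin r) O →ₐ[O] R) (hφ : ∀ j, φ (MvPowerSeries.X j) = c j)
    {M : Type} [AddCommGroup M] [Module O M] [Module.Finite O M] [Module.Free O M]
    (Φ : 𝕋 →ₐ[O] Module.End O M) (Ψ : Dlt p e →* Module.End O M)
    (hΦΨ : ∀ t g, Φ t * Ψ g = Ψ g * Φ t)
    {d : ℕ} (b : Module.Basis (Fin d × Dlt p e) O M) (hb : ∀ i g, b (i, g) = Ψ g (b (i, 1)))
    (hE : ForallEigen Φ fun O' _ _ _ _ _ _ _ _ _ lam x =>
      ∀ χ : Dlt p e →* O', (∀ g, (Ψ g).baseChange O' x = χ g • x) →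
        ((∀ g, χ g = 1) ↔ ∀ j, lam (π (1 + c j)) = 1)) :
    ∃ b' : Module.Basis (Fin d × Dlt p e) O M,
      (∀ i g, b' (i, g) = Φ (π (φ (∏ j, (1 + MvPowerSeries.X j) ^
        (Multiplicative.toAdd (g j)).val))) (b (i, 1))) ∧
      ∀ y : M, ∑ g, Ψ g y = ∑ g : Dlt p e, Φ (π (φ (∏ j, (1 + MvPowerSeries.X j) ^
        (Multiplicative.toAdd (g j)).val))) y :=
  H69.EG.exists_span_rel π e c hc φ hφ Φ Ψ hΦΨ b hb hE

end Diamond

/-! ### 5. Congruent characters and eigenvectors

`MLoc hM hS ψ η ee` is the localised Hecke module of level `Γ₀(M)` with character `ψ` and operators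
twisted by `η` (`GuideTWModules`, section 2); `Away M S` says that the prime divisors of `M` are in
`S`. `A : EMod O p e 𝕋` is a module `A.M` with commuting actions `A.Φ` of the Hecke algebra `𝕋` and
`A.Ψ` of the diamond group, free over `O[Δ]` (`compat_iff` in `GuideLiftingHecke`), and
`IsModel … A ι` says that the isomorphism `ι` of `A.M` with `MLoc` is compatible with both actions
(`GuideLiftingSteps`, section 4). `etaL hQN u τ` is the character `(ℤ/N)ˣ → O[Δ]ˣ` which is the product
of the universal character (with values in `Δ`, from the homomorphisms `u j`) and of `τ`. -/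

section Characters

open Fermat.Agent.H69.EG (Dlt EMod)
open Fermat.Agent.H70.Coh Fermat.Agent.H70.Mod Fermat.Agent.H59 Fermat.Agent.H37.Rank
  Fermat.Agent.H30 Fermat.Agent.H21M
open scoped TensorProduct

/-- **A common quotient from a congruence.** Let `Z₁` and `Z₂` be isomorphic to the `O`-modules `X₁`
and `X₂`, and let `F : Z₁ → Z₂/ϖ Z₂` be linear over `Λ`, surjective, with kernel `ϖ Z₁`. Then `X₁`
and `X₂` have a common quotient group `Y`, with kernels `ϖ X₁` and `ϖ X₂`, and two elements have the
same image in `Y` if and only if they correspond under `F`. -/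
theorem common_quotient {O Λ X₁ X₂ Z₁ Z₂ : Type} [CommRing O] [CommRing Λ] [Algebra O Λ]
    [AddCommGroup X₁] [Module O X₁] [AddCommGroup X₂] [Module O X₂] [AddCommGroup Z₁]
    [Module Λ Z₁] [Module O Z₁] [AddCommGroup Z₂] [Module Λ Z₂] [Module O Z₂]
    (ι₁ : X₁ ≃ₗ[O] Z₁) (ι₂ : X₂ ≃ₗ[O] Z₂) (K : Submodule Λ Z₂) (ϖ : O)
    (hK : ∀ x, x ∈ K ↔ ∃ y, x = ϖ • y) (F : Z₁ →ₗ[Λ] Z₂ ⧸ K) (hF : Function.Surjective F)
    (hFk : ∀ x, F x = 0 ↔ ∃ y, x = ϖ • y) :
    ∃ (Y : Type) (_ : AddCommGroup Y) (g : X₁ →+ Y) (g₁ : X₂ →+ Y),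
      (Function.Surjective g ∧ ∀ x, g x = 0 ↔ ∃ y, x = ϖ • y) ∧
      (Function.Surjective g₁ ∧ ∀ x, g₁ x = 0 ↔ ∃ y, x = ϖ • y) ∧
      ∀ x y, g x = g₁ y ↔ F (ι₁ x) = Submodule.Quotient.mk (ι₂ y) :=
  H69.Cong.cong_aux ι₁ ι₂ K ϖ hK F hF hFk

/-- **Characters of `p`-power order are congruent to the trivial character** modulo the
uniformiser `ϖ` of a discrete valuation ring with residue characteristic `p`. -/
theorem congruent_to_trivial {O : Type} [CommRing O] [IsDomain O] [IsDiscreteValuationRing O]
    [IsAdicComplete (maximalIdeal O) O] {N p : ℕ} [Fact p.Prime] {ϖ : O}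
    (hϖ : maximalIdeal O = Ideal.span {ϖ}) (hpO : (p : O) ∈ maximalIdeal O)
    {τ : (ZMod N)ˣ →* Oˣ} {s : ℕ} (hτ : τ ^ p ^ s = 1) (a : (ZMod N)ˣ) :
    ϖ ∣ ((τ a : Oˣ) : O) - 1 :=
  H69.Cong.dvd_tau_sub_one hϖ hpO hτ a

/-- **The congruence used in every level** of modularity lifting, between the module `A₁` with the
character `τ` at the primes of `T` (and the universal character at the auxiliary primes) and the
module `A₂` with the universal character only: they have a common quotient group, with kernels
`ϖ A₁.M` and `ϖ A₂.M`, compatible with the actions of the Hecke algebra and of `Δ`.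
(`congruent_characters` of `GuidePatching`; the characters `etaL hQN u τ` and `etaL hQN u 1` and
their squares are congruent since `τ` is congruent to `1`. `Good`: see the theorem
`point_of_eigenvector`.) -/
theorem congruence_of_level_modules {N M L : ℕ} [NeZero M] [NeZero L] {hM : N ∣ M} {S : Set ℕ}
    {hS : Away M S} {hSL : ∀ q : ℕ, q.Prime → q ∣ L → q ∈ S}
    {O : Type} [CommRing O] [IsDomain O] [IsDiscreteValuationRing O]
    [IsAdicComplete (maximalIdeal O) O] {p r : ℕ} {e : Fin r → ℕ} {Q : Fin r → ℕ}
    {hQN : ∀ j, Q j ∣ N} {u : ∀ j, (ZMod (Q j))ˣ →* Multiplicative (ZMod (p ^ e j))}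
    {τ : (ZMod N)ˣ →* Oˣ} {θ : CuspForm.heckeAlgebra L 2 S →+* ResidueField O}
    {ee : MvPolynomial (Idx S) O} {A₁ A₂ : EMod O p e (CuspForm.heckeLocal L S O θ)}
    {ι₁ : A₁.M ≃ₗ[O] MLoc hM hS ((etaL hQN u τ) ^ 2) (etaL hQN u τ) ee}
    {ι₂ : A₂.M ≃ₗ[O] MLoc hM hS ((etaL hQN u (1 : (ZMod N)ˣ →* Oˣ)) ^ 2)
      (etaL hQN u (1 : (ZMod N)ˣ →* Oˣ)) ee}
    (hm₁ : IsModel hM hS hSL ((etaL hQN u τ) ^ 2) (etaL hQN u τ) θ ee A₁ ι₁)
    (hm₂ : IsModel hM hS hSL ((etaL hQN u (1 : (ZMod N)ˣ →* Oˣ)) ^ 2)
      (etaL hQN u (1 : (ZMod N)ˣ →* Oˣ)) θ ee A₂ ι₂)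
    (hgΛ : Good M (MonoidAlgebra O (Dlt p e)))
    {κ : Type} [Field κ] {θP : MvPolynomial (Idx S) O →+* κ}
    (he₁ : IsLocIdem (tw hM hS ((etaL hQN u τ) ^ 2) (etaL hQN u τ))
      (tw_comm hM hS ((etaL hQN u τ) ^ 2) (etaL hQN u τ)) θP ee)
    (he₂ : IsLocIdem (tw hM hS ((etaL hQN u (1 : (ZMod N)ˣ →* Oˣ)) ^ 2)
      (etaL hQN u (1 : (ZMod N)ˣ →* Oˣ)))
      (tw_comm hM hS ((etaL hQN u (1 : (ZMod N)ˣ →* Oˣ)) ^ 2)
        (etaL hQN u (1 : (ZMod N)ˣ →* Oˣ))) θP ee) (ϖ : O)
    (hτ : ∀ a, ϖ ∣ ((τ a : Oˣ) : O) - 1) :
    ∃ (Y : Type) (_ : AddCommGroup Y) (g : A₁.M →+ Y) (g₁ : A₂.M →+ Y),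
      (Function.Surjective g ∧ ∀ x, g x = 0 ↔ ∃ y, x = ϖ • y) ∧
      (Function.Surjective g₁ ∧ ∀ x, g₁ x = 0 ↔ ∃ y, x = ϖ • y) ∧
      (∀ t x y, g x = g₁ y → g (A₁.Φ t x) = g₁ (A₂.Φ t y)) ∧
      ∀ h x y, g x = g₁ y → g (A₁.Ψ h x) = g₁ (A₂.Ψ h y) :=
  H69.Cong.exists_cong_etaL hm₁ hm₂ hgΛ he₁ he₂ ϖ hτ

/-- **Transport of eigenvectors.** An isomorphism `ι` of `O`-modules which intertwines `f` and `g`
maps eigenvectors `v ≠ 0` of `f` in `O' ⊗ X` to eigenvectors `≠ 0` of `g` in `O' ⊗ Y` with the same
eigenvalue. -/
theorem transport_of_eigenvectors {O O' X Y : Type} [CommRing O] [CommRing O'] [Algebra O O']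
    [AddCommGroup X] [Module O X] [AddCommGroup Y] [Module O Y] (ι : X ≃ₗ[O] Y)
    (f : Module.End O X) (g : Module.End O Y) (h : ∀ x, ι (f x) = g (ι x))
    (v : O' ⊗[O] X) (hv0 : v ≠ 0) (c : O') (hv : f.baseChange O' v = c • v) :
    (ι : X →ₗ[O] Y).baseChange O' v ≠ 0 ∧
      g.baseChange O' ((ι : X →ₗ[O] Y).baseChange O' v) =
        c • (ι : X →ₗ[O] Y).baseChange O' v :=
  ⟨H69.Cong.bc_ne_zero ι v hv0, H69.Cong.bc_eigen ι f g h v c hv⟩

/-- **From eigenvectors of the Hecke module to points** (`exists_point_of_eigenvector` in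
`GuideTWModules`, for the modules of the levels). Let `v ≠ 0` in `O' ⊗ A.M` be an eigenvector with
eigenvalue `λ` for the Hecke algebra and `χ` for the diamond group. Then there is a cohomology class
`z` of level `Γ₀(M)` with coefficients in `O'`, twisted by the square of the character `χ ∘ η`,
which is not a torsion element, has the eigenvalues `λ(T_ℓ)` under the twisted operators (`IsPt`)
and is fixed by the local idempotent. Hypotheses: `Good` (`2` is invertible and there are orbit
weights: `good_of` in `GuideCohomology`), the order of `η` is a power of `p`, and `hi₀`: the residual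
eigensystem `θP` is not Eisenstein at one prime. Such classes are translated into eigenforms and
Galois representations. (`eigenvector_gives_class` in `GuideLiftingSteps` is the same statement for
the eigensystem of `θ`, with the idea of the proof: the library has both, in `H69Cong` and `H21MPt`.) -/
theorem point_of_eigenvector {N M L : ℕ} [NeZero M] [NeZero L] {hM : N ∣ M} {S : Set ℕ}
    {hS : Away M S} {hSL : ∀ q : ℕ, q.Prime → q ∣ L → q ∈ S}
    {O : Type} [CommRing O] [IsDomain O] [IsDiscreteValuationRing O]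
    [IsAdicComplete (maximalIdeal O) O] {p r : ℕ} {e : Fin r → ℕ}
    {η : (ZMod N)ˣ →* (MonoidAlgebra O (Dlt p e))ˣ}
    {θ : CuspForm.heckeAlgebra L 2 S →+* ResidueField O} {ee : MvPolynomial (Idx S) O}
    {A : EMod O p e (CuspForm.heckeLocal L S O θ)} {ι : A.M ≃ₗ[O] MLoc hM hS (η ^ 2) η ee}
    [Fact p.Prime] (hpO : (p : O) ∈ maximalIdeal O)
    (hm : IsModel hM hS hSL (η ^ 2) η θ ee A ι)
    (hgΛ : Good M (MonoidAlgebra O (Dlt p e)))
    {κ : Type} [Field κ] {θP : MvPolynomial (Idx S) O →+* κ}
    (heΛ : IsLocIdem (tw hM hS (η ^ 2) η) (tw_comm hM hS (η ^ 2) η) θP ee)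
    (i₀ : Idx S) (hi₀ : θP (MvPolynomial.X i₀) ≠ 1 + (i₀.1 : κ)) {s : ℕ} (hη : η ^ p ^ s = 1)
    {O' : Type} [CommRing O'] [IsDomain O'] [IsLocalRing O'] [CharZero O'] [Algebra O O']
    [IsLocalHom (algebraMap O O')]
    (lam : CuspForm.heckeLocal L S O θ →ₐ[O] O') (v : O' ⊗[O] A.M) (hv : v ≠ 0)
    (hlam : ∀ t, (A.Φ t).baseChange O' v = lam t • v) (χ : Dlt p e →* O'ˣ)
    (hχ : ∀ g, (A.Ψ g).baseChange O' v = ((χ g : O'ˣ) : O') • v) :
    ∃ z : H1 (gam N M hM) (psiRep ((psiMap (evC (O := O) χ).toRingHom η) ^ 2) O'),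
      IsPt hM hS (psiMap (evC (O := O) χ).toRingHom η)
        (fun i => lam (CuspForm.heckeLocal.π L S O θ (TIdx L S hSL i))) z ∧
      act (tw hM hS ((psiMap (evC (O := O) χ).toRingHom η) ^ 2)
        (psiMap (evC (O := O) χ).toRingHom η)) (tw_comm hM hS _ _) ee z = z :=
  H69.Cong.exists_pt_model hpO hm hgΛ heΛ i₀ hi₀ hη lam v hv hlam χ hχ

/-- **Eigenvectors with trivial diamond character** give cohomology classes of level `Γ₀(M)` without
character. So if the eigenvalue of an element `t` of the Hecke algebra is zero for all such classes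
(`hpt`), it is zero for all eigenvectors which are fixed by `Δ`. Applied to the witness of
non-modularity: this is the hypothesis `hE4` of `modular_inputs` in `GuidePatching`. -/
theorem vanishing_at_invariant_eigenvectors {N M L : ℕ} [NeZero M] [NeZero L] {hM : N ∣ M}
    {S : Set ℕ} {hS : Away M S} {hSL : ∀ q : ℕ, q.Prime → q ∣ L → q ∈ S}
    {O : Type} [CommRing O] [IsDomain O] [IsDiscreteValuationRing O]
    [IsAdicComplete (maximalIdeal O) O] {p r : ℕ} {e : Fin r → ℕ} {Q : Fin r → ℕ}
    {hQN : ∀ j, Q j ∣ N} {u : ∀ j, (ZMod (Q j))ˣ →* Multiplicative (ZMod (p ^ e j))}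
    {θ : CuspForm.heckeAlgebra L 2 S →+* ResidueField O} {ee : MvPolynomial (Idx S) O}
    {A : EMod O p e (CuspForm.heckeLocal L S O θ)}
    {ι : A.M ≃ₗ[O] MLoc hM hS ((etaL hQN u (1 : (ZMod N)ˣ →* Oˣ)) ^ 2)
      (etaL hQN u (1 : (ZMod N)ˣ →* Oˣ)) ee}
    [Fact p.Prime] (hpO : (p : O) ∈ maximalIdeal O)
    (hm : IsModel hM hS hSL ((etaL hQN u (1 : (ZMod N)ˣ →* Oˣ)) ^ 2)
      (etaL hQN u (1 : (ZMod N)ˣ →* Oˣ)) θ ee A ι)
    (hgΛ : Good M (MonoidAlgebra O (Dlt p e)))
    {κ : Type} [Field κ] {θP : MvPolynomial (Idx S) O →+* κ}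
    (heΛ : IsLocIdem (tw hM hS ((etaL hQN u (1 : (ZMod N)ˣ →* Oˣ)) ^ 2)
      (etaL hQN u (1 : (ZMod N)ˣ →* Oˣ)))
      (tw_comm hM hS ((etaL hQN u (1 : (ZMod N)ˣ →* Oˣ)) ^ 2)
        (etaL hQN u (1 : (ZMod N)ˣ →* Oˣ))) θP ee)
    (i₀ : Idx S) (hi₀ : θP (MvPolynomial.X i₀) ≠ 1 + (i₀.1 : κ))
    (t : CuspForm.heckeLocal L S O θ)
    (hpt : ∀ (O' : Type) [CommRing O'] [IsDomain O'] [IsDiscreteValuationRing O']
      [IsAdicComplete (maximalIdeal O') O'] [Finite (ResidueField O')] [CharZero O']
      [Algebra O O'] [Module.Finite O O'] [IsLocalHom (algebraMap O O')],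
      Function.Injective (algebraMap O O') →
      ∀ (lam : CuspForm.heckeLocal L S O θ →ₐ[O] O') (η : (ZMod N)ˣ →* O'ˣ), η = 1 →
      ∀ (x : H1 (gam N M hM) (psiRep (η ^ 2) O')), (∀ c : O', c ≠ 0 → c • x ≠ 0) →
      (∀ i, tw hM hS (η ^ 2) η i x =
        lam (CuspForm.heckeLocal.π L S O θ (TIdx L S hSL i)) • x) → lam t = 0) :
    ForallEigen A.Φ fun O' _ _ _ _ _ _ _ _ _ lam x =>
      (∀ g, (A.Ψ g).baseChange O' x = x) → lam t = 0 :=
  H69.Cong.eigen_trivial_of_pt hpO hm hgΛ heΛ i₀ hi₀ t hpt

end Characters

/-! ### 6. From a level to equations (level lowering)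

A level `L : TWLevel O ϖ p r n D B X q v Z t₀` (`galois_level_presentation` and `full_level_module`
in `GuideLevelsIhara`) consists of a local ring `L.R` with a surjection `L.β : B → L.R`, matrices
`L.Sg t` (inertia, determinant `1`) and `L.Ph t` (Frobenius, determinant `q t`) over `L.R` for `t ∈ T`,
and a module `L.M` with a basis of `L.d ≤ D` elements over the power series ring modulo the relations
`(1 + X_j)^(p^(e_j)) = 1`, where `e_j ≥ n`. The variables `X t 0, X t 1, X t 2` are mapped to the
entries of the traceless part of `L.Sg t`, and `X t 3, X t 4, X t 5` to those of `L.Ph t`. The traces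
are not variables: they are recovered as square roots. -/

section Level

open Fermat.Agent.H69.EG Fermat.Agent.H69.KP

attribute [local instance] TWLevel.instCommRing TWLevel.instLocal TWLevel.instAlgebra
  TWLevel.instAddCommGroup TWLevel.instModule

/-- **Square roots.** Let `2` and `v` be units of the complete local ring `A` and `v² ≡ a` modulo the
maximal ideal. Then `a` has a square root which is congruent to `v` (Hensel), and only one. -/
theorem unique_square_root {A : Type} [CommRing A] [IsLocalRing A]
    [IsAdicComplete (maximalIdeal A) A] (h2 : IsUnit (2 : A)) {a v : A} (hv : IsUnit v)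
    (h : v ^ 2 - a ∈ maximalIdeal A) :
    ∃! s : A, s ^ 2 = a ∧ s - v ∈ maximalIdeal A := by
  obtain ⟨s, h1, h3⟩ := exists_sqrt h2 hv h
  exact ⟨s, ⟨h1, h3⟩, fun s' h' => sqrt_unique h2 hv (h'.1.trans h1.symm) h'.2 h3⟩

/-- **Powers of a matrix which is killed by** `(X - ζ)(X - ζ')`, `ζ ζ' = 1` (interpolation). In
particular `(ζ - ζ') S^m = ζ - ζ'` (times the unit matrix) if `ζ^m = ζ'^m = 1`. In a domain with
`ζ ≠ ζ'` it follows for `m = q - 1` that `S^q = S`, and the tame relation `Φ S = S^q Φ` becomes
`Φ S = S Φ` (`comm_of_tame` in `GuideLevelsIhara`). -/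
theorem powers_of_matrix {A : Type} [CommRing A] (S : Matrix (Fin 2) (Fin 2) A) {ζ ζ' : A}
    (h1 : ζ * ζ' = 1) (hS : S * S = (ζ + ζ') • S - 1) (m : ℕ) :
    (ζ - ζ') • S ^ m = ζ ^ m • (S - ζ' • (1 : Matrix (Fin 2) (Fin 2) A)) -
      ζ' ^ m • (S - ζ • (1 : Matrix (Fin 2) (Fin 2) A)) :=
  pow_eq_of_quadratic S h1 hS m

variable {O : Type} [CommRing O] [IsLocalRing O] {ϖ : O} {p r n D : ℕ} {T : Type}
  {B : Type} [CommRing B] [Algebra O B] {X : T → Fin 6 → B} {q : T → ℕ} {v : T → O}
  {Z : T → Finset Oˣ} {t₀ : T}

/-- **The matrices of a level are defined over `B`.** Let `s` be the square root of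
`1 + X₀² + X₁ X₂` which is congruent to `1`, and `c` the square root of `q + X₃² + X₄ X₅` which is
congruent to `v t` (in the application `± 1`, the scalar by which Frobenius acts residually). Then
`s` and `c` are mapped to half the traces of inertia and Frobenius, and the displayed matrices to
`L.Sg t` and `L.Ph t`. Reason: since the determinants are `1` and `q`, half the traces are square
roots of the images of the same elements, with the same reduction. -/
theorem matrices_of_level [IsLocalRing B] (L : TWLevel O ϖ p r n D B X q v Z t₀)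
    (h2 : IsUnit (2 : B)) {s c : B} {t : T} (hv : IsUnit (v t))
    (hs : s ^ 2 = 1 + (X t 0 ^ 2 + X t 1 * X t 2)) (hs1 : s - 1 ∈ maximalIdeal B)
    (hc : c ^ 2 = q t + (X t 3 ^ 2 + X t 4 * X t 5))
    (hc1 : c - algebraMap O B (v t) ∈ maximalIdeal B) :
    (2 * L.β s = L.Sg t 0 0 + L.Sg t 1 1 ∧ 2 * L.β c = L.Ph t 0 0 + L.Ph t 1 1) ∧
    (L.β : B →+* L.R).mapMatrix !![s + X t 0, X t 1; X t 2, s - X t 0] = L.Sg t ∧
    (L.β : B →+* L.R).mapMatrix !![c + X t 3, X t 4; X t 5, c - X t 3] = L.Ph t :=
  ⟨⟨two_mul_β_s L h2 hs hs1, two_mul_β_c L h2 hv hc hc1⟩, map_sgB L h2 hs hs1,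
    map_phB L h2 hv hc hc1⟩

/-- **The equations satisfied by the module of a level.** For `f ∈ B` write `f x` for `L.β f • x`.
(1) The entries of `Φ Σ - Σ^q Φ` (`Σ`, `Φ` the matrices of `matrices_of_level`) kill the module: the
tame relation. (2) The product over the roots of unity `ζ ∈ Z t` of `4 (X₀² + X₁ X₂ - κ(ζ)²)`, where
`2 κ(ζ) = ζ - ζ⁻¹`, kills the module: the factor at `ζ` is equal to `(tr Σ)² - (ζ + ζ⁻¹)²`, and the
product of the `tr Σ - (ζ + ζ⁻¹)` kills the module. (3) The element `4 (X₃² + X₄ X₅) - (q - 1)²` at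
the prime `t₀` maps the module into `ϖ` times itself: it is `(tr Φ)² - (q + 1)²`. -/
theorem equations_of_level [IsLocalRing B] (L : TWLevel O ϖ p r n D B X q v Z t₀) :
    (∀ (_ : IsUnit (2 : B)) {s c : B} {t : T} (_ : IsUnit (v t))
      (_ : s ^ 2 = 1 + (X t 0 ^ 2 + X t 1 * X t 2)) (_ : s - 1 ∈ maximalIdeal B)
      (_ : c ^ 2 = q t + (X t 3 ^ 2 + X t 4 * X t 5))
      (_ : c - algebraMap O B (v t) ∈ maximalIdeal B) (i j : Fin 2) (x : L.M),
      L.β ((!![c + X t 3, X t 4; X t 5, c - X t 3] * !![s + X t 0, X t 1; X t 2, s - X t 0] -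
        !![s + X t 0, X t 1; X t 2, s - X t 0] ^ q t *
          !![c + X t 3, X t 4; X t 5, c - X t 3]) i j) • x = 0) ∧
    (∀ (κ : Oˣ → O) (_ : ∀ ζ : Oˣ, 2 * κ ζ = (ζ : O) - (ζ⁻¹ : Oˣ)) (t : T) (x : L.M),
      L.β (∏ ζ ∈ Z t, (4 * (X t 0 ^ 2 + X t 1 * X t 2 - algebraMap O B (κ ζ) ^ 2))) • x = 0) ∧
    ∀ x : L.M, ∃ y : L.M,
      L.β (4 * (X t₀ 3 ^ 2 + X t₀ 4 * X t₀ 5) - ((q t₀ : B) - 1) ^ 2) • x =
        algebraMap O L.R ϖ • y :=
  ⟨fun h2 _ _ _ hv hs hs1 hc hc1 i j => gB_kills L h2 hv hs hs1 hc hc1 i j,
    fun κ hκ t => prod_smul_B L κ hκ t, h_smul_B L⟩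

/-- **A level as a module over `B`.** The map `O[[X_1, …, X_r]] → L.R` of the diamond operators lifts to
`B` (`lift_power_series` in `GuidePatching`), and `L.M` becomes a level in the sense of section 2, of
rank `L.d` and with the ideal generated by the `(1 + X_j)^(p^(e_j)) - 1`. Elements which kill `L.M`
kill this module, and elements which map `L.M` into `ϖ L.M` map it into `ϖ` times itself
(`MulLe F τ K f` says that `f` maps `F.N τ` into `K` times itself: `mul_le_iff`). The choice of the
lift does not matter; in the patching limit one takes the limit of the lifts. -/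
theorem module_over_local_ring [IsLocalRing B] [IsAdicComplete (maximalIdeal B) B]
    [IsNoetherianRing B] (L : TWLevel O ϖ p r n D B X q v Z t₀) :
    ∃ F : FLevel (MvPowerSeries (Fin r) O) B (fun _ : Unit => L.d)
        (Ideal.span (Set.range fun j : Fin r =>
          ((1 + MvPowerSeries.X j) ^ (p ^ L.e j) - 1 : MvPowerSeries (Fin r) O))),
      (∀ x, F.φ (MvPowerSeries.C x) = algebraMap O B x) ∧
      (∀ f : B, (∀ x : L.M, L.β f • x = 0) → MulLe F () ⊥ f) ∧
      (∀ f : B, (∀ x : L.M, ∃ y : L.M, L.β f • x = algebraMap O L.R ϖ • y) →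
        MulLe F () (Ideal.span {MvPowerSeries.C ϖ}) f) :=
  exists_flevel L rfl

/-- **Infinitely many levels have the same rank** (the ranks are bounded): a bounded function on
the natural numbers takes some value infinitely often. -/
theorem constant_rank (f : ℕ → ℕ) {D : ℕ} (hf : ∀ n, f n ≤ D) :
    ∃ d, ∀ N, ∃ n, N ≤ n ∧ f n = d :=
  exists_const f hf

/-- **The contradiction in the limit.** `F` is the limit level (`I = 0`; `B` is noetherian) with a
module of positive rank over the noetherian domain `S`, whose dimension is at least `n`; `h` maps the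
module into `K` times itself; `Q` is a prime of `B` which contains the image of `K`, but not `h`. If
every prime `P` which contains the annihilator of the module and meets `S` trivially contains a
prime `J ⊆ Q` with `dim B/J ≤ n`, one gets a contradiction (`endgame` of `GuideLevelsIhara`, written
for levels). -/
theorem contradiction_in_limit {S : Type} [CommRing S] [IsDomain S] [IsNoetherianRing S]
    [IsNoetherianRing B] {ι : Type} {d : ι → ℕ} (F : FLevel S B d (⊥ : Ideal S)) (τ : ι)
    (hd : 0 < d τ) {n : ℕ} (hn : (n : WithBot ℕ∞) ≤ ringKrullDim S) (K : Ideal S) (h : B)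
    (hh : MulLe F τ K h) (Q : Ideal B) (hQ : Q.IsPrime) (hKQ : K.map F.φ ≤ Q) (hhQ : h ∉ Q)
    (hJ : ∀ P : Ideal B, P.IsPrime → (∀ f : B, MulLe F τ ⊥ f → f ∈ P) →
      (∀ s : S, F.φ s ∈ P → s = 0) →
      ∃ J : Ideal B, J.IsPrime ∧ J ≤ P ∧ J ≤ Q ∧ ringKrullDim (B ⧸ J) ≤ n) : False :=
  endgame_level F τ hd hn K h hh Q hQ hKQ hhQ hJ

end Level

/-! ### 7. Dimension -/

section Dimension

/-- **Integral extensions**: if the ring `A` is contained in `C` and `C` is integral over `A`, then
`dim A ≤ dim C` (lying over and going up). Applied to `S → B/P` for an associated prime `P` of a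
module which is finite and free over `S`. -/
theorem dimension_of_integral_extension {A C : Type} [CommRing A] [CommRing C] [Algebra A C]
    [Algebra.IsIntegral A C] (h : Function.Injective (algebraMap A C)) :
    ringKrullDim A ≤ ringKrullDim C :=
  H69.EG.ringKrullDim_le_of_isIntegral h

/-- **A component is determined by its dimension.** If `J` is prime, `J ⊆ P`,
`dim B/J ≤ n ≤ dim B/P`, then `J = P`. -/
theorem component_of_dimension {B : Type} [CommRing B] {J P : Ideal B} (hJ : J.IsPrime)
    (hJP : J ≤ P) {n : ℕ} (h1 : ringKrullDim (B ⧸ J) ≤ n)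
    (h2 : (n : WithBot ℕ∞) ≤ ringKrullDim (B ⧸ P)) : J = P :=
  H69.EG.eq_of_dim_le hJ hJP h1 h2

end Dimension

/-! ### 8. The beginning and the end of modularity lifting

Steps of `initial_reduction` in `GuideLifting` and of `modular_of_character` in `GuidePatching`.
`Partition W hΔ p A T B s` (`partition_iff` in `GuideLifting`): `A` ramified primes, `T` unramified
scalar primes, `B` the other bad primes, `s` the auxiliary prime (`s = 1` if `p ≠ 3`). -/

section Lifting

open Fermat.Agent.H87.Glue (resZ)
open Fermat.Agent.H69.Red (Partition baseLevel ScalarAt)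
open Fermat.Agent.H87.S58 (StatementS35)
open ModularFormClass

/-- **Raising the level trivially**: if `W[p]` is modular of level `N` and `N ∣ L`, `L ≠ 0`, it is
modular of level `L`. (Residual modularity of level `M` is a congruence between the eigenvalues of an
eigenform of level `M` and the numbers `a_ℓ(W)` at all primes `ℓ` which do not divide `p M Δ(W)`. The
eigenform of level `N` gives a character, with values in `𝔽_p`, of the Hecke algebra of level `L`
outside the primes dividing `p L Δ(W)` (`exists_hecke_character` in `GuideLevels`), and this gives an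
eigenform of level `L` (`residually_modular_of_character` in `GuideLevels`). The hypothesis
`h29 : StatementS29`, that is S29, comes from the general form of the last step, in which finitely
many other primes may be omitted; they are recovered by means of the residual Galois representation
of the eigenform.) -/
theorem trivial_raising (h29 : H96.StatementS29) {W : WeierstrassCurve ℤ} (hΔ : W.Δ ≠ 0)
    {p : ℕ} (hp : p.Prime) {N L : ℕ} (hL : L ≠ 0) (hdvd : N ∣ L)
    (h : W.IsResiduallyModularOfLevel p N) : W.IsResiduallyModularOfLevel p L :=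
  H69.Red.res_of_dvd h29 hΔ hp hL hdvd h

/-- **Removal of a set of primes from the level** by Mazur's principle `mz`: the primes of `E` are
unramified for `W[p]` and not scalar (`ScalarAt`: `q ≡ 1` modulo `p`, and Frobenius acts by the
scalar `1` or by the scalar `-1`).
For `p = 3` Mazur's principle is used only if some prime `s ≡ 2` modulo `3` divides the level: this
is the role of the auxiliary prime. -/
theorem removal_of_primes {W : WeierstrassCurve ℤ} {hΔ : W.Δ ≠ 0} {p : ℕ} [Fact p.Prime]
    (mz : ∀ q M : ℕ, q.Prime → q ≠ p → 0 < M → ¬ q ∣ M →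
      (p = 3 → ∃ s, s.Prime ∧ s ∣ M ∧ s % 3 = 2) → (resZ W hΔ p).IsUnramifiedAt q →
      W.IsResiduallyModularOfLevel p (M * q) →
      W.IsResiduallyModularOfLevel p M ∨ ScalarAt W hΔ p q) {N : ℕ} (hN : 0 < N)
    (h3 : p = 3 → ∃ s, s.Prime ∧ s ∣ N ∧ s % 3 = 2) (E : Finset ℕ)
    (hE : ∀ q ∈ E, q.Prime ∧ q ≠ p ∧ ¬ q ∣ N ∧ (resZ W hΔ p).IsUnramifiedAt q ∧
      ¬ ScalarAt W hΔ p q)
    (h : W.IsResiduallyModularOfLevel p (N * ∏ q ∈ E, q)) :
    W.IsResiduallyModularOfLevel p N :=
  H69.Red.remove mz hN h3 E hE h

/-- **The base level** `∏ (A ∪ T) · s` of a partition is squarefree; its prime divisors are the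
elements of `A` and of `T` and the auxiliary prime; `p` and the primes of `B` do not divide it. -/
theorem base_level {W : WeierstrassCurve ℤ} {hΔ : W.Δ ≠ 0} {p : ℕ} [Fact p.Prime]
    {A T B : Finset ℕ} {s : ℕ} (P : Partition W hΔ p A T B s) :
    Squarefree ((∏ q ∈ A ∪ T, q) * s) ∧
      (∀ q : ℕ, q.Prime → (q ∣ (∏ q ∈ A ∪ T, q) * s ↔ q ∈ A ∨ q ∈ T ∨ q = s)) ∧
      ¬ p ∣ (∏ q ∈ A ∪ T, q) * s ∧ ∀ q ∈ B, ¬ q ∣ (∏ q ∈ A ∪ T, q) * s :=
  ⟨P.squarefree, fun _ hq => P.dvd_baseLevel_iff hq, P.not_p_dvd, fun _ hq => P.not_B_dvd hq⟩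

/-- **Isomorphisms over a quotient ring.** If the ideal `I` of `R` kills `M` and `N`, an isomorphism
`M/K M ≅ N/K N` over `R` is one over `R/I`. This is used when the deformation ring of a level is
replaced by a quotient (`quotient_of_level` in `GuidePatching`). -/
theorem isomorphism_over_quotient {R : Type} [CommRing R] (I : Ideal R) {M N : Type}
    [AddCommGroup M] [Module R M] [Module (R ⧸ I) M]
    [AddCommGroup N] [Module R N] [Module (R ⧸ I) N]
    (hM : ∀ (f : R) (x : M), f • x = Ideal.Quotient.mk I f • x)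
    (hN : ∀ (f : R) (x : N), f • x = Ideal.Quotient.mk I f • x) (K : Ideal R)
    (K' : Ideal (R ⧸ I)) (hK : K' = K.map (Ideal.Quotient.mk I))
    (eq : (M ⧸ (K • ⊤ : Submodule R M)) ≃ₗ[R] (N ⧸ (K • ⊤ : Submodule R N))) :
    Nonempty ((M ⧸ (K' • ⊤ : Submodule (R ⧸ I) M)) ≃ₗ[R ⧸ I]
      (N ⧸ (K' • ⊤ : Submodule (R ⧸ I) N))) :=
  H69.Quot.nonempty_equiv_quot I hM hN K K' hK eq

/-- **A form with the eigenvalues of `W`** for almost all primes is enough: if `h ≠ 0` is a cusp form
of weight two and squarefree level `L` with `T_ℓ h = a_ℓ(W) h` for all primes `ℓ` which do not divide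
`N` (`N ≠ 0` a multiple of `L`), then `W` is modular of exact conductor level. (First one passes to a
normalised eigenform: `modular_of_eigenform`; `StatementS35` is the statement of S35.) -/
theorem modular_of_form (h35 : StatementS35) (W : WeierstrassCurve ℤ) (hΔ : W.Δ ≠ 0)
    {L : ℕ} (hL : Squarefree L) {N : ℕ} (hN0 : N ≠ 0) (hLN : L ∣ N)
    (h : CuspForm (CongruenceSubgroup.Gamma0 L) 2) (hne : h ≠ 0)
    (hT : ∀ (ℓ : ℕ) (hℓ : ℓ.Prime) (_ : ¬ ℓ ∣ N) (hℓL : ¬ ℓ ∣ L),
      CuspForm.heckeTLin 2 hℓ hℓL h = (W.apOfModel ℓ : ℂ) • h) :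
    Mlc1IsModularModelOfExactConductorLevel W :=
  H69.Fin.exact_of_form h35 W hΔ hL hN0 hLN h hne hT

/-- **From an eigenform of squarefree level to the exact conductor level.** Let `f` be a normalised
eigenform of squarefree level `L` with `a_ℓ(f) = a_ℓ(W)` for all primes `ℓ ∤ N`. Let `g` be the newform
attached to `f`, of level `M ∣ L`. At a prime `q ∣ M` the trace of Frobenius in the Galois
representations of `g` is `± (q + 1)` (`h35`, that is S35). If `W` had good reduction at `q` it would
be `a_q(W)`, of absolute value at most `2 √q`: a contradiction. So `M` divides the product of the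
bad primes of `W` (the prime divisors of the discriminant), and there is a normalised eigenform of
this level with the eigenvalues of `g`; they are the `a_ℓ(W)` at all good primes `ℓ`, again by the
Galois representation. -/
theorem modular_of_eigenform (h35 : StatementS35) (W : WeierstrassCurve ℤ) (hΔ : W.Δ ≠ 0)
    {L : ℕ} (hL : Squarefree L) {f : CuspForm (CongruenceSubgroup.Gamma0 L) 2}
    (hf : f.IsNormalizedEigenform) {N : ℕ} (hN0 : N ≠ 0) (hLN : L ∣ N)
    (hfa : ∀ ℓ : ℕ, ℓ.Prime → ¬ ℓ ∣ N → qCoeff ⇑f ℓ = (W.apOfModel ℓ : ℂ)) :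
    Mlc1IsModularModelOfExactConductorLevel W :=
  H69.Fin.exact_of_eigenform h35 W hΔ hL hf hN0 hLN hfa

end Lifting

/-! ### 9. Two facts used for the universal deformation ring (S53)

See `GuideDeformations` and `GuideDeformationSteps`. -/

section Deformations

/-- **Matrices as values of group ring elements.** If the matrices `rbar g` span the matrix algebra
over the residue field `k` of `O` (for absolutely irreducible `rbar`: `burnside` in
`GuideDeformations`), then every matrix over `k` is the value `ev rbar x = ∑ c_g rbar(g)` of an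
element `x = ∑ c_g g` of the group ring `O[G]`. Applied to the elementary matrices `E₁₁` and `E₂₁`: this
gives the elements `x` and `z` of the normal form. -/
theorem exists_group_ring_element {O G : Type} [CommRing O] [IsLocalRing O] [Group G]
    (rbar : G →* Matrix (Fin 2) (Fin 2) (ResidueField O))
    (hspan : Submodule.span (ResidueField O) (Set.range rbar) = ⊤)
    (M : Matrix (Fin 2) (Fin 2) (ResidueField O)) :
    ∃ x : MonoidAlgebra O G, H69.ev rbar x = M :=
  H69.exists_lift_group_ring rbar hspan M

/-- **A finite tangent space bounds the quotients.** Let `k` be the residue field of `O`, finite, `P` an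
`O`-algebra, `π : P → k` with kernel `𝔪`, and `F` a set of ideals contained in `𝔪`. If the
homomorphisms `P → k[ε]` of `O`-algebras over `π` which kill some ideal `I ∈ F` that contains
`𝔪² + 𝔪_O P` all lie in a finite set `S`, then the quotients `P/I` for these `I` are finite, of
bounded order. Reason: these homomorphisms separate the points of `P/I` (`exists_dualNumber_hom` in
`GuideDeformations`), so the intersection of the kernels of the elements of `S` is contained in every
such `I`. -/
theorem bounded_quotients {O P : Type} [CommRing O] [IsLocalRing O] [Finite (ResidueField O)]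
    [CommRing P] [Algebra O P]
    (π : P →+* ResidueField O) (hπ : ∀ c, π (algebraMap O P c) = residue O c)
    (F : Set (Ideal P)) (hF : ∀ I ∈ F, I ≤ RingHom.ker π)
    (S : Set (P →+* DualNumber (ResidueField O))) (hS : S.Finite)
    (hFS : ∀ I ∈ F, (RingHom.ker π) ^ 2 ⊔ (maximalIdeal O).map (algebraMap O P) ≤ I →
      ∀ f : P →+* DualNumber (ResidueField O),
        (∀ c, f (algebraMap O P c) = TrivSqZeroExt.inl (residue O c)) →
        (∀ x, TrivSqZeroExt.fst (f x) = π x) → I ≤ RingHom.ker f → f ∈ S) :
    ∃ N : ℕ, ∀ I ∈ F, (RingHom.ker π) ^ 2 ⊔ (maximalIdeal O).map (algebraMap O P) ≤ I →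
      Finite (P ⧸ I) ∧ Nat.card (P ⧸ I) ≤ N :=
  H69.tangent_bound_aux π hπ F hF S hS hFS

end Deformations

end Fermat.Agent.Guide.PatchingSteps
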