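import Mathlib

/-!
# Characteristic polynomials: restriction of scalars, duals, lattices
-/

set_option autoImplicit false

namespace Fermat.Agent.H50.J9

open Polynomial Module

section Eval

variable {R M : Type*} [CommRing R] [AddCommGroup M] [Module R M] [Module.Free R M]
  [Module.Finite R M]

theorem eval_charpoly [Nontrivial R] (T : Module.End R M) (x : R) :
    T.charpoly.eval x = LinearMap.det (x • (1 : Module.End R M) - T) := by
  classical
  rw [LinearMap.charpoly_def, Matrix.charpoly, _root_.eval_det, Matrix.matPolyEquiv_charmatrix,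
    eval_sub, eval_X, eval_C, ← LinearMap.det_toMatrix (Module.Free.chooseBasis R M), map_sub,
    map_smul, LinearMap.toMatrix_one, Matrix.scalar_apply, Matrix.smul_one_eq_diagonal]

end Eval

section Real

variable {V : Type*} [AddCommGroup V] [Module ℂ V] [Module ℝ V] [IsScalarTower ℝ ℂ V]
  [FiniteDimensional ℂ V]

theorem charpoly_restrictScalars (T : Module.End ℂ V) (P : ℝ[X])
    (hP : T.charpoly = P.map (algebraMap ℝ ℂ)) :
    have : FiniteDimensional ℝ V := FiniteDimensional.trans ℝ ℂ V
    LinearMap.charpoly (T.restrictScalars ℝ) = P ^ 2 := by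
  have : FiniteDimensional ℝ V := FiniteDimensional.trans ℝ ℂ V
  apply Polynomial.funext
  intro x
  rw [eval_charpoly, eval_pow]
  have h1 : x • (1 : Module.End ℝ V) - T.restrictScalars ℝ =
      ((x : ℂ) • (1 : Module.End ℂ V) - T).restrictScalars ℝ := by
    ext v
    show x • v - T v = (x : ℂ) • v - T v
    rw [← algebraMap_smul ℂ x v]
    rfl
  rw [h1, LinearMap.det_restrictScalars, ← eval_charpoly, hP, Algebra.norm_complex_apply]
  have h2 : (P.map (algebraMap ℝ ℂ)).eval (x : ℂ) = ((P.eval x : ℝ) : ℂ) :=
    Polynomial.eval_map_algebraMap P (x : ℂ) |>.trans (Polynomial.aeval_algebraMap_apply ℂ x P)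
  rw [h2, Complex.normSq_ofReal, sq]

end Real

section Dual

variable {K V : Type*} [Field K] [Infinite K] [AddCommGroup V] [Module K V] [FiniteDimensional K V]

theorem charpoly_dualMap (T : Module.End K V) :
    LinearMap.charpoly (T.dualMap : Module.End K (Module.Dual K V)) = T.charpoly := by
  apply Polynomial.funext
  intro x
  rw [eval_charpoly, eval_charpoly, ← LinearMap.det_dualMap (x • (1 : Module.End K V) - T)]
  congr 1
  refine LinearMap.ext fun φ => LinearMap.ext fun v => ?_
  show x • φ v - φ (T v) = φ (x • v - T v)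
  rw [map_sub, map_smul]

end Dual

section Lattice

variable {V : Type*} [AddCommGroup V] [Module ℝ V] [FiniteDimensional ℝ V]
  (L : Submodule ℤ V) [Module.Free ℤ L] [Module.Finite ℤ L]

/-- `ℝ ⊗ L → V` -/
noncomputable def latMap : TensorProduct ℤ ℝ L →ₗ[ℝ] V := LinearMap.liftBaseChange ℝ L.subtype

theorem charpoly_lattice (hL : Function.Bijective (latMap L)) (T : Module.End ℝ V)
    (t : Module.End ℤ L) (h : ∀ v : L, ((t v : L) : V) = T v) :
    t.charpoly.map (algebraMap ℤ ℝ) = T.charpoly := by
  let e : TensorProduct ℤ ℝ L ≃ₗ[ℝ] V := LinearEquiv.ofBijective (latMap L) hL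
  have h1 : e.conj (t.baseChange ℝ) = T := by
    refine LinearMap.ext fun v => ?_
    obtain ⟨w, rfl⟩ := e.surjective v
    rw [LinearEquiv.conj_apply_apply, LinearEquiv.symm_apply_apply]
    induction w using TensorProduct.induction_on with
    | zero => simp
    | tmul x y =>
      show latMap L _ = T (latMap L _)
      rw [LinearMap.baseChange_tmul, latMap, LinearMap.liftBaseChange_tmul,
        LinearMap.liftBaseChange_tmul, map_smul]
      congr 1
      exact h y
    | add a b ha hb => rw [map_add, map_add, map_add, map_add, ha, hb]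
  rw [← h1, LinearEquiv.charpoly_conj, LinearMap.charpoly_baseChange]

end Lattice

end Fermat.Agent.H50.J9
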