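import Mathlib
import Fermat.Agent.H4Faithful
import Fermat.Agent.H8ShimMain
import Fermat.Agent.H80S20
import Fermat.Agent.H49HeckeBasic
import Fermat.Agent.H50J9A

/-!
# The period lattice of `Γ₀(N)`

* `eq_zero_of_toLat` : homs killing parabolic and elliptic elements factor through `Lat N`.
* `latMap_bijective` : `ℝ ⊗ Lat N ≃ Dual S₂`.
* `charpoly_latAct` : the characteristic polynomial of a Hecke operator on `Lat N` is the square of
  that on `S₂(Γ₀(N))`.
-/

set_option autoImplicit false

noncomputable section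

namespace Fermat.Agent.H50.J9

open CongruenceSubgroup UpperHalfPlane ModularForm ModularCurve TensorProduct Polynomial Module
open Fermat.Agent.H4
open scoped MatrixGroups

variable {N : ℕ} [NeZero N]

instance finDimS2 : FiniteDimensional ℂ (CuspForm (Gamma0 N) 2) :=
  H49.finiteDimensional_cuspForm N 2

/-- real classes are real parts of periods -/
theorem exists_re_period (φ : Additive (Gamma0 N) →+ ℝ) (hφ : IsPE φ) :
    ∃ f : CuspForm (Gamma0 N) 2, ∀ γ, φ γ = (perHom N γ f).re := by
  obtain ⟨f, hf⟩ := (H8.realPeriod_surjective (H80.finrank_eq_genusFormula N)).1 ⟨φ, hφ⟩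
  refine ⟨f, fun γ => ?_⟩
  have h1 : Complex.reAddGroupHom.comp (periodMap N f) = φ := congrArg Subtype.val hf
  rw [← h1]
  rfl

/-- classes vanishing on parabolic and elliptic elements vanish on the elements without periods -/
theorem eq_zero_of_toLat {A : Type*} [AddCommGroup A] (φ : Additive (Gamma0 N) →+ A) (hφ : IsPE φ)
    {γ : Additive (Gamma0 N)} (hγ : toLat N γ = 0) : φ γ = 0 := by
  have hfree := H8.lam_free_Gamma0 (H80.finrank_eq_genusFormula N)
  obtain ⟨χ, rfl⟩ := H8.exists_lift (Gamma0 N) φ (fun δ hδ => hφ δ hδ)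
  rw [AddMonoidHom.comp_apply]
  suffices h : H8.proj (Gamma0 N) γ = 0 by rw [h, map_zero]
  by_contra hne
  have hne' : H8.proj (Gamma0 N) γ ≠ 0 := hne
  obtain ⟨c, hc⟩ := Module.Projective.exists_dual_ne_zero ℤ hne'
  apply hc
  have hint : IsPE ((Int.castAddHom ℝ).comp (c.toAddMonoidHom.comp (H8.proj (Gamma0 N)))) := by
    intro δ hδ
    rw [AddMonoidHom.comp_apply, AddMonoidHom.comp_apply, H8.proj_of_mem (Gamma0 N) hδ, map_zero,
      map_zero]
  obtain ⟨f, hf⟩ := exists_re_period _ hint
  have h1 := hf γ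
  have h2 : perHom N γ = 0 := congrArg Subtype.val hγ
  rw [h2, LinearMap.zero_apply, Complex.zero_re] at h1
  have h3 : ((c (H8.proj (Gamma0 N) γ) : ℤ) : ℝ) = 0 := h1
  exact_mod_cast h3

/-- they come from the period lattice -/
theorem ofLatHom_bijective (A : Type*) [AddCommGroup A] : Function.Bijective (ofLatHom N A) := by
  constructor
  · intro g g' h
    refine AddMonoidHom.ext fun v => ?_
    obtain ⟨γ, rfl⟩ := toLat_surjective v
    exact DFunLike.congr_fun (congrArg Subtype.val h) γ
  · rintro ⟨φ, hφ⟩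
    refine ⟨(toLat N).liftOfSurjective toLat_surjective ⟨φ, fun γ hγ => ?_⟩, Subtype.ext ?_⟩
    · rw [AddMonoidHom.mem_ker] at hγ ⊢
      exact eq_zero_of_toLat φ hφ hγ
    · exact AddMonoidHom.liftOfRightInverse_comp _ _ _ _

theorem latMap_injective : Function.Injective (latMap (Lat N)) := by
  classical
  rw [injective_iff_map_eq_zero]
  intro w hw
  let b := Module.Free.chooseBasis ℤ (Lat N)
  -- functionals
  have hfun : ∀ g : Lat N →+ ℝ, LinearMap.liftBaseChange ℝ g.toIntLinearMap w = 0 := by
    intro g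
    obtain ⟨f, hf⟩ := exists_re_period (g.comp (toLat N)) (fun γ hγ => by
      rw [AddMonoidHom.comp_apply, isPE_toLat γ hγ, map_zero])
    have key : ∀ w : ℝ ⊗[ℤ] (Lat N), LinearMap.liftBaseChange ℝ g.toIntLinearMap w =
        (latMap (Lat N) w f).re := by
      intro w
      induction w using TensorProduct.induction_on with
      | zero => simp
      | tmul x v =>
        obtain ⟨γ, rfl⟩ := toLat_surjective v
        rw [LinearMap.liftBaseChange_tmul, latMap, LinearMap.liftBaseChange_tmul]
        show x * g (toLat N γ) = ((x • (perHom N γ)) f).re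
        have h1 : (x • (perHom N γ)) f = x • (perHom N γ f) := rfl
        rw [h1, Complex.real_smul, Complex.re_ofReal_mul, ← hf γ]
        rfl
      | add a b ha hb =>
        rw [map_add, map_add, ha, hb, LinearMap.add_apply, Complex.add_re]
    rw [key, hw]
    simp
  have hb : ∀ i, (b.baseChange ℝ).repr w i = 0 := by
    intro i
    have h1 := hfun ((Int.castAddHom ℝ).comp (b.coord i).toAddMonoidHom)
    have key : ∀ w : ℝ ⊗[ℤ] (Lat N), LinearMap.liftBaseChange ℝ
        ((Int.castAddHom ℝ).comp (b.coord i).toAddMonoidHom).toIntLinearMap w =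
          (b.baseChange ℝ).repr w i := by
      intro w
      induction w using TensorProduct.induction_on with
      | zero => simp
      | tmul x v =>
        rw [LinearMap.liftBaseChange_tmul, Module.Basis.baseChange_repr_tmul]
        show x * ((b.repr v i : ℤ) : ℝ) = (b.repr v i) • x
        rw [zsmul_eq_mul, mul_comm]
      | add a c ha hc => rw [map_add, map_add, ha, hc, Finsupp.add_apply]
    rw [← key, h1]
  exact (b.baseChange ℝ).ext_elem fun i => by rw [hb, map_zero, Finsupp.zero_apply]

theorem finrank_le_rank : 2 * finrank ℂ (CuspForm (Gamma0 N) 2) ≤ finrank ℤ (Lat N) := by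
  classical
  let b := Module.Free.chooseBasis ℤ (Lat N)
  rw [← (H8.realPeriod_surjective (H80.finrank_eq_genusFormula N)).2, finrank_eq_card_basis b]
  have hγ : ∀ i, ∃ γ, toLat N γ = b i := fun i => toLat_surjective (b i)
  choose γ hγ using hγ
  let R : H77.FieldGen.smallHoms (Gamma0 N) ℝ →ₗ[ℝ] (Module.Free.ChooseBasisIndex ℤ (Lat N) → ℝ) :=
    { toFun := fun φ i => φ.1 (γ i)
      map_add' := fun _ _ => rfl
      map_smul' := fun _ _ => rfl }
  have hR : Function.Injective R := by
    rw [injective_iff_map_eq_zero]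
    intro φ hφ
    obtain ⟨g, hg⟩ := (ofLatHom_bijective (N := N) ℝ).2 ⟨φ.1, φ.2⟩
    have hg1 : g.comp (toLat N) = φ.1 := congrArg Subtype.val hg
    have hg0 : g.toIntLinearMap = 0 := b.ext fun i => by
      have h1 : g (toLat N (γ i)) = φ.1 (γ i) := DFunLike.congr_fun hg1 (γ i)
      have h2 : φ.1 (γ i) = 0 := congrFun hφ i
      rw [hγ, h2] at h1
      exact h1
    apply Subtype.ext
    rw [← hg1]
    refine AddMonoidHom.ext fun δ => ?_
    exact LinearMap.congr_fun hg0 (toLat N δ)
  have := LinearMap.finrank_le_finrank_of_injective hR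
  rwa [Module.finrank_fintype_fun_eq_card] at this

theorem latMap_bijective : Function.Bijective (latMap (Lat N)) := by
  have hfin : FiniteDimensional ℝ (DualS N) := FiniteDimensional.trans ℝ ℂ (DualS N)
  have h1 : finrank ℝ (ℝ ⊗[ℤ] (Lat N)) = finrank ℤ (Lat N) := Module.finrank_baseChange
  have h2 : finrank ℝ (DualS N) = 2 * finrank ℂ (CuspForm (Gamma0 N) 2) := by
    rw [finrank_real_of_complex, Subspace.dual_finrank_eq]
  have h3 := LinearMap.finrank_le_finrank_of_injective (latMap_injective (N := N))
  have h4 := finrank_le_rank (N := N)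
  refine ⟨latMap_injective, ?_⟩
  exact (LinearMap.injective_iff_surjective_of_finrank_eq_finrank (by omega)).mp latMap_injective

theorem finrank_lat : finrank ℤ (Lat N) = 2 * finrank ℂ (CuspForm (Gamma0 N) 2) := by
  have hfin : FiniteDimensional ℝ (DualS N) := FiniteDimensional.trans ℝ ℂ (DualS N)
  have h1 : finrank ℝ (ℝ ⊗[ℤ] (Lat N)) = finrank ℤ (Lat N) := Module.finrank_baseChange
  have h2 : finrank ℝ (DualS N) = 2 * finrank ℂ (CuspForm (Gamma0 N) 2) := by
    rw [finrank_real_of_complex, Subspace.dual_finrank_eq]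
  have h3 := LinearMap.finrank_le_finrank_of_injective (latMap_injective (N := N))
  have h4 := finrank_le_rank (N := N)
  omega

/-- **Eichler-Shimura for characteristic polynomials.** -/
theorem charpoly_latAct {S : Set ℕ} (hNS : ∀ q : ℕ, q.Prime → q ∣ N → q ∈ S)
    (t : CuspForm.heckeAlgebra N 2 S) (P : ℤ[X])
    (hP : LinearMap.charpoly (t : Module.End ℂ (CuspForm (Gamma0 N) 2)) =
      P.map (Int.castRingHom ℂ)) :
    LinearMap.charpoly (latAct hNS t) = P ^ 2 := by
  have hfin : FiniteDimensional ℝ (DualS N) := FiniteDimensional.trans ℝ ℂ (DualS N)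
  have hP' : LinearMap.charpoly (dualAct N S t) =
      (P.map (Int.castRingHom ℝ)).map (algebraMap ℝ ℂ) := by
    have h1 : LinearMap.charpoly (dualAct N S t) =
        LinearMap.charpoly (t : Module.End ℂ (CuspForm (Gamma0 N) 2)) :=
      charpoly_dualMap (t : Module.End ℂ (CuspForm (Gamma0 N) 2))
    rw [h1, hP, Polynomial.map_map]
    congr 1
  have h2 := charpoly_restrictScalars (dualAct N S t) (P.map (Int.castRingHom ℝ)) hP'
  have h3 := charpoly_lattice (Lat N) latMap_bijective ((dualAct N S t).restrictScalars ℝ)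
    (latAct hNS t) (fun v => coe_latAct_apply hNS t v)
  rw [h2, ← Polynomial.map_pow] at h3
  exact Polynomial.map_injective (algebraMap ℤ ℝ) (algebraMap ℤ ℝ).injective_int h3

end Fermat.Agent.H50.J9
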