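import Fermat.Agent.H15Defs
import Fermat.Agent.H8ShimMain
import Fermat.Agent.H80S20
import Fermat.Agent.H61Bound
import Fermat.Agent.H90Faithful
import Fermat.Agent.H90Kappa
import Fermat.Agent.H4Periods

/-!
# `1 + q - T_q` is invertible rationally on the torsion of `J₀(N)` (MAZUR, MZ-J7)
-/

set_option autoImplicit false
set_option linter.unusedSectionVars false
set_option linter.style.haveILetI false

noncomputable section

namespace Fermat.Agent.H94.NE

open CongruenceSubgroup ModularCurve AlgebraicCurve Module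
open Fermat.Agent.H90 Fermat.Agent.H4
open scoped MatrixGroups

variable {N : ℕ} [NeZero N]

/-- the universal homomorphism killing parabolic and elliptic elements is `H8.proj`. -/
abbrev LamN (N : ℕ) : Type := H8.Lam (Gamma0 N)

instance lam_free' : Module.Free ℤ (LamN N) :=
  H8.lam_free_Gamma0 (H80.finrank_eq_genusFormula N)

instance lam_finite' : Module.Finite ℤ (LamN N) :=
  Module.Finite.iff_addGroup_fg.mpr inferInstance

theorem isPE_proj : IsPE (H8.proj (Gamma0 N)) := fun _ hγ => H8.proj_of_mem (Gamma0 N) hγ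

theorem exists_lift_isPE {A : Type*} [AddCommGroup A] {φ : Additive (Gamma0 N) →+ A}
    (hφ : IsPE φ) : ∃ χ : LamN N →+ A, χ.comp (H8.proj (Gamma0 N)) = φ :=
  H8.exists_lift (Gamma0 N) φ fun γ hγ => hφ γ hγ

section Hecke

variable {q : ℕ} [hq : Fact q.Prime] (hqN : ¬ q ∣ N)

/-- the Hecke operator on `Λ` -/
def heckeLam : LamN N →+ LamN N :=
  (exists_lift_isPE (IsPE.heckeHom hqN (isPE_proj (N := N)))).choose

theorem heckeLam_comp : (heckeLam hqN).comp (H8.proj (Gamma0 N)) =
    heckeHom hqN (H8.proj (Gamma0 N)) :=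
  (exists_lift_isPE (IsPE.heckeHom hqN (isPE_proj (N := N)))).choose_spec

theorem heckeHom_lift {A : Type*} [AddCommGroup A] (f : LamN N →+ A) :
    heckeHom hqN (f.comp (H8.proj (Gamma0 N))) =
      (f.comp (heckeLam hqN)).comp (H8.proj (Gamma0 N)) := by
  rw [heckeHom_comp, ← heckeLam_comp, AddMonoidHom.comp_assoc]

/-- `1 + q` is not an eigenvalue of `T_q` on real parabolic classes. -/
theorem eq_zero_of_heckeHom_eq {φ : Additive (Gamma0 N) →+ ℝ} (hφ : IsPE φ)
    (h : heckeHom hqN φ = ((1 + q : ℕ) : ℝ) • φ) : φ = 0 := by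
  obtain ⟨f, hf⟩ := (H8.realPeriod_surjective (H80.finrank_eq_genusFormula N)).1
    ⟨φ, fun γ hγ => hφ γ hγ⟩
  have h1 : Complex.reAddGroupHom.comp (periodMap N f) = φ := congrArg Subtype.val hf
  have h2 : Complex.reAddGroupHom.comp (periodMap N (CuspForm.heckeTLin 2 hq.out hqN f)) =
      Complex.reAddGroupHom.comp (periodMap N (((1 + q : ℕ) : ℂ) • f)) := by
    rw [periodMap_heckeTLin, ← heckeHom_comp, h1, h, periodMap_smul', ← h1]
    refine AddMonoidHom.ext fun γ => ?_
    show ((1 + q : ℕ) : ℝ) * (periodMap N f γ).re = ((((1 + q : ℕ) : ℂ)) * periodMap N f γ).re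
    rw [← Complex.ofReal_natCast, Complex.re_ofReal_mul]
  have h3 : CuspForm.heckeTLin 2 hq.out hqN f = ((1 + q : ℕ) : ℂ) • f := by
    apply H8.realPeriod_injective N
    exact Subtype.ext h2
  have h4 : f = 0 := by
    by_contra hf0
    have h5 := H61.Bound.norm_eigenvalue_lt hq.out hqN f hf0 _ h3
    rw [Complex.norm_natCast] at h5
    push_cast at h5
    linarith
  rw [← h1, h4, periodMap_zero']
  exact AddMonoidHom.comp_zero _

theorem det_ne_zero :
    LinearMap.det (algebraMap ℤ (Module.End ℤ (LamN N)) (1 + q : ℕ) -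
      (heckeLam hqN).toIntLinearMap) ≠ 0 := by
  classical
  intro h0
  let b := Module.Free.chooseBasis ℤ (LamN N)
  set T := algebraMap ℤ (Module.End ℤ (LamN N)) (1 + q : ℕ) - (heckeLam hqN).toIntLinearMap with hT
  rw [← LinearMap.det_toMatrix b, ← Matrix.exists_vecMul_eq_zero_iff] at h0
  obtain ⟨v, hv0, hv⟩ := h0
  let ψ : LamN N →ₗ[ℤ] ℤ := ∑ i, v i • b.coord i
  have hψ : ∀ x, ψ (T x) = 0 := by
    intro x
    have h1 : b.repr (T x) = (LinearMap.toMatrix b b T).mulVec (b.repr x) :=
      (LinearMap.toMatrix_mulVec_repr b b T x).symm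
    have h2 : ψ (T x) = dotProduct v (b.repr (T x)) := by
      simp only [ψ, LinearMap.sum_apply, LinearMap.smul_apply, Module.Basis.coord_apply,
        smul_eq_mul, dotProduct]
    rw [h2, h1, Matrix.dotProduct_mulVec, hv, zero_dotProduct]
  have hψ0 : ψ ≠ 0 := by
    intro h
    apply hv0
    funext i
    have h1 := LinearMap.congr_fun h (b i)
    simp only [ψ, LinearMap.sum_apply, LinearMap.smul_apply, Module.Basis.coord_apply,
      smul_eq_mul, Module.Basis.repr_self, LinearMap.zero_apply] at h1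
    rw [Finset.sum_eq_single i] at h1
    · simpa using h1
    · intro j _ hj
      rw [Finsupp.single_eq_of_ne (by simpa using hj), mul_zero]
    · intro h; exact absurd (Finset.mem_univ i) h
  -- the corresponding real class
  let c : ℤ →+ ℝ := Int.castAddHom ℝ
  let φ : Additive (Gamma0 N) →+ ℝ := (c.comp ψ.toAddMonoidHom).comp (H8.proj (Gamma0 N))
  have hφ : IsPE φ := fun γ hγ => by
    show c (ψ (H8.proj (Gamma0 N) (Additive.ofMul γ))) = 0
    rw [H8.proj_of_mem (Gamma0 N) hγ, map_zero, map_zero]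
  have h3 : heckeHom hqN φ = ((1 + q : ℕ) : ℝ) • φ := by
    rw [heckeHom_lift]
    refine AddMonoidHom.ext fun γ => ?_
    show c (ψ (heckeLam hqN (H8.proj (Gamma0 N) γ))) =
      ((1 + q : ℕ) : ℝ) * c (ψ (H8.proj (Gamma0 N) γ))
    have h4 := hψ (H8.proj (Gamma0 N) γ)
    rw [hT, LinearMap.sub_apply, map_sub, sub_eq_zero, Module.algebraMap_end_apply, map_smul] at h4
    have h5 : ψ (heckeLam hqN (H8.proj (Gamma0 N) γ)) =
        ((1 + q : ℕ) : ℤ) * ψ (H8.proj (Gamma0 N) γ) := h4.symm
    rw [h5]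
    show (((((1 + q : ℕ) : ℤ) * ψ (H8.proj (Gamma0 N) γ) : ℤ)) : ℝ) = _
    push_cast
    rfl
  have h6 := eq_zero_of_heckeHom_eq hqN hφ h3
  apply hψ0
  refine LinearMap.ext fun x => ?_
  obtain ⟨γ, rfl⟩ := H8.proj_surjective (Gamma0 N) x
  have h7 : c (ψ (H8.proj (Gamma0 N) γ)) = 0 := DFunLike.congr_fun h6 γ
  exact Int.cast_eq_zero.mp h7

end Hecke

section Rel

variable {q : ℕ} [hq : Fact q.Prime] (hqN : ¬ q ∣ N)

theorem rel_zsmul {K : Type*} [Field K] [Algebra K ℂ] [IsAlgClosed K] [CharZero K] [Algebra ℚ K]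
    {n : ℕ} (hn : n ≠ 0) (a : ℤ) {x : Pic0 K (FX K N)} {χ : Additive (Gamma0 N) →+ Mu}
    (h : Rel n x χ) : Rel n (a • x) (a • χ) := by
  obtain ⟨k, rfl | rfl⟩ := a.eq_nat_or_neg
  · rw [natCast_zsmul, natCast_zsmul]
    exact h.nsmul k
  · rw [neg_smul, neg_smul, natCast_zsmul, natCast_zsmul]
    exact (h.nsmul k).neg hn

/-- polynomials in `T_q` in `HeckeAlg` -/
def polyT (q : Nat.Primes) (P : Polynomial ℤ) : HeckeAlg := Polynomial.aeval (heckeGen q) P

theorem rel_poly {n : ℕ} (hn : n ≠ 0) (P : Polynomial ℤ) :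
    letI := algQbarC
    letI := heckeModuleBar N
    ∀ {x : JZero N} {χ : Additive (Gamma0 N) →+ Mu}, Rel (K := AlgebraicClosure ℚ) n x χ →
    Rel (K := AlgebraicClosure ℚ) n (polyT ⟨q, hq.out⟩ P • x)
      (Polynomial.aeval (heckeLin (A := Mu) ℤ hqN) P χ) := by
  letI := algQbarC
  letI := heckeModuleBar N
  haveI : NeZero q := ⟨hq.out.ne_zero⟩
  induction P using Polynomial.induction_on with
  | C a =>
    intro x χ h
    have e1 : polyT ⟨q, hq.out⟩ (Polynomial.C a) = MvPolynomial.C a := by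
      rw [polyT, Polynomial.aeval_C, MvPolynomial.algebraMap_eq]
    rw [e1, heckeModuleBar_C_smul, Polynomial.aeval_C, Module.algebraMap_end_apply]
    exact rel_zsmul hn a h
  | add P Q hP hQ =>
    intro x χ h
    rw [polyT, map_add, add_smul, map_add, LinearMap.add_apply]
    exact (hP h).add (hQ h)
  | monomial k a hk =>
    intro x χ h
    have h1 := rel_hecke hqN h
    have h2 := hk h1
    have e1 : polyT ⟨q, hq.out⟩ (Polynomial.C a * Polynomial.X ^ (k + 1)) =
        polyT ⟨q, hq.out⟩ (Polynomial.C a * Polynomial.X ^ k) * heckeGen ⟨q, hq.out⟩ := by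
      simp only [polyT, map_mul, map_pow, Polynomial.aeval_X]
      ring
    have e2 : (Polynomial.aeval (heckeLin (A := Mu) ℤ hqN)
        (Polynomial.C a * Polynomial.X ^ (k + 1))) χ =
        (Polynomial.aeval (heckeLin (A := Mu) ℤ hqN) (Polynomial.C a * Polynomial.X ^ k))
          (heckeHom hqN χ) := by
      rw [pow_succ, ← mul_assoc, map_mul, Polynomial.aeval_X]
      rfl
    rw [e1, e2, mul_smul, heckeModuleBar_heckeGen_smul (H67.heckeOperatorsCommuteBar N)]
    exact h2

theorem aeval_mul_self {M : Type*} [AddCommGroup M] (T : Module.End ℤ M) (P : Polynomial ℤ) :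
    Polynomial.aeval T P * T = T * Polynomial.aeval T P := by
  have h3 : Polynomial.aeval T (P * Polynomial.X) = Polynomial.aeval T (Polynomial.X * P) := by
    rw [mul_comm]
  simpa only [map_mul, Polynomial.aeval_X] using h3

theorem aeval_heckeLin_lift {A : Type*} [AddCommGroup A] (P : Polynomial ℤ) (f : LamN N →+ A) :
    Polynomial.aeval (heckeLin (A := A) ℤ hqN) P (f.comp (H8.proj (Gamma0 N))) =
      (f.comp (Polynomial.aeval (heckeLam hqN).toIntLinearMap P).toAddMonoidHom).comp
        (H8.proj (Gamma0 N)) := by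
  induction P using Polynomial.induction_on generalizing f with
  | C a =>
    rw [Polynomial.aeval_C, Polynomial.aeval_C, Module.algebraMap_end_apply]
    refine AddMonoidHom.ext fun γ => ?_
    show a • f (H8.proj (Gamma0 N) γ) = f (a • H8.proj (Gamma0 N) γ)
    rw [map_zsmul]
  | add P Q hP hQ =>
    rw [map_add, LinearMap.add_apply, hP, hQ, map_add]
    refine AddMonoidHom.ext fun γ => ?_
    exact (map_add f _ _).symm
  | monomial k a hk =>
    have e1 : (Polynomial.aeval (heckeLin (A := A) ℤ hqN)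
        (Polynomial.C a * Polynomial.X ^ (k + 1))) (f.comp (H8.proj (Gamma0 N))) =
        (Polynomial.aeval (heckeLin (A := A) ℤ hqN) (Polynomial.C a * Polynomial.X ^ k))
          (heckeLin (A := A) ℤ hqN (f.comp (H8.proj (Gamma0 N)))) := by
      rw [pow_succ, ← mul_assoc, map_mul, Polynomial.aeval_X]
      rfl
    have e2 : Polynomial.aeval (heckeLam hqN).toIntLinearMap
        (Polynomial.C a * Polynomial.X ^ (k + 1)) =
        Polynomial.aeval (heckeLam hqN).toIntLinearMap
        (Polynomial.C a * Polynomial.X ^ k) * (heckeLam hqN).toIntLinearMap := by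
      rw [pow_succ, ← mul_assoc, map_mul, Polynomial.aeval_X]
    rw [e1, e2]
    have h1 : heckeLin (A := A) ℤ hqN (f.comp (H8.proj (Gamma0 N))) =
        (f.comp (heckeLam hqN)).comp (H8.proj (Gamma0 N)) := heckeHom_lift hqN f
    rw [h1, hk]
    have h2 : (Polynomial.aeval (heckeLam hqN).toIntLinearMap)
        (Polynomial.C a * Polynomial.X ^ k) * (heckeLam hqN).toIntLinearMap =
        (heckeLam hqN).toIntLinearMap * (Polynomial.aeval (heckeLam hqN).toIntLinearMap)
        (Polynomial.C a * Polynomial.X ^ k) := aeval_mul_self _ _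
    rw [h2]
    rfl

/-- A polynomial killing `T_q` on `Λ` kills `T_q` on the torsion of `J₀(N)`. -/
theorem polyT_smul_eq_zero {P : Polynomial ℤ}
    (hP : Polynomial.aeval (heckeLam (N := N) hqN).toIntLinearMap P = 0) {n : ℕ} (hn : n ≠ 0)
    {x : JZero N} (hx : n • x = 0) :
    letI := heckeModuleBar N
    polyT ⟨q, hq.out⟩ P • x = 0 := by
  letI := algQbarC
  letI := heckeModuleBar N
  obtain ⟨χ, hχ0⟩ := exists_rel (K := AlgebraicClosure ℚ) (N := N) hn (c := x) hx
  have hχ : Rel (K := AlgebraicClosure ℚ) (N := N) n x χ := hχ0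
  obtain ⟨f, hf⟩ := exists_lift_isPE (Rel.isPE hχ hn)
  have h1 := rel_poly hqN hn P hχ
  rw [← hf, aeval_heckeLin_lift, hP] at h1
  have h2 : (f.comp (0 : Module.End ℤ (LamN N)).toAddMonoidHom).comp (H8.proj (Gamma0 N)) = 0 := by
    refine AddMonoidHom.ext fun γ => ?_
    exact map_zero f
  rw [h2] at h1
  exact Rel.eq_zero h1 hn

end Rel

/-- **MZ-J7.** -/
theorem noEis_all (N : ℕ) [NeZero N] :
    letI := heckeModuleBar N
    H15.NoEis N (JZero N) := by
  letI := heckeModuleBar N
  intro q hqN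
  haveI hq : Fact (q : ℕ).Prime := ⟨q.2⟩
  set T := (heckeLam (N := N) hqN).toIntLinearMap with hT
  set P := T.charpoly with hP
  set a : ℤ := ((1 + (q : ℕ) : ℕ) : ℤ) with ha
  have h0 : P.eval a ≠ 0 := by
    rw [hP, LinearMap.eval_charpoly]
    exact det_ne_zero hqN
  have hPT : Polynomial.aeval T P = 0 := LinearMap.aeval_self_charpoly T
  -- `P - P(a) = (X - a) Q`
  obtain ⟨Q, hQ⟩ := Polynomial.X_sub_C_dvd_sub_C_eval (p := P) (a := a)
  -- sign
  refine ⟨(P.eval a).sign • polyT q Q, (P.eval a).natAbs, Int.natAbs_ne_zero.mpr h0, ?_⟩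
  rintro x ⟨d, hd, hdx⟩
  have h1 : polyT q P • x = 0 := polyT_smul_eq_zero hqN hPT hd hdx
  have h2 : polyT q (P - Polynomial.C (P.eval a)) = polyT q Q *
      (heckeGen q - MvPolynomial.C a) := by
    rw [hQ, polyT, map_mul, map_sub, Polynomial.aeval_X, Polynomial.aeval_C,
      MvPolynomial.algebraMap_eq, mul_comm]
    rfl
  have h3 : polyT q (P - Polynomial.C (P.eval a)) • x = - ((P.eval a) • x) := by
    rw [polyT, map_sub, sub_smul, Polynomial.aeval_C, MvPolynomial.algebraMap_eq,
      heckeModuleBar_C_smul]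
    have h4 : (Polynomial.aeval (heckeGen q)) P • x = 0 := h1
    rw [h4, zero_sub]
  rw [h2, mul_smul, sub_smul, heckeModuleBar_C_smul] at h3
  have h5 : (1 + (q : ℕ)) • x = a • x := by
    rw [ha, natCast_zsmul]
  have h6 : ((P.eval a).sign • polyT q Q) • ((1 + (q : ℕ)) • x - heckeGen q • x) =
      -((P.eval a).sign • (polyT q Q • (heckeGen q • x - a • x))) := by
    rw [h5, ← neg_sub (heckeGen q • x) (a • x), smul_neg, smul_assoc]
  have h7 : (P.eval a).sign • (-((P.eval a) • x)) = -((P.eval a).natAbs • x) := by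
    have h8 : (P.eval a).sign • (P.eval a • x) = (P.eval a).natAbs • x := by
      rw [← natCast_zsmul x, ← Int.abs_eq_natAbs, ← Int.sign_mul_self_eq_abs, mul_zsmul']
      rw [zsmul_comm]
    rw [zsmul_neg, h8]
  rw [h6, h3, h7, neg_neg]

theorem noEis : H15.T_noEis := by
  intro N _ _
  exact noEis_all N

end Fermat.Agent.H94.NE
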