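import Fermat.Agent.H9J9D
import Fermat.Agent.H67Comm

/-!
# MZ-J9: the Hecke action on `J_0(N)[r]` (definitions)
-/

set_option autoImplicit false
set_option linter.unusedSectionVars false
set_option linter.style.haveILetI false

noncomputable section

open ModularCurve AlgebraicCurve

namespace Fermat.Agent.H9

local notation "Qb" => AlgebraicClosure ℚ

variable (N : ℕ) [NeZero N] (r : ℕ)

/-- `J_0(N)[r]` -/
abbrev Jr : Type := Pic0.torsion Qb (modularFunctionFieldBar N) r

theorem heckeOperatorBar_mem_torsion (q : Nat.Primes) (x : Jr N r) :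
    heckeOperatorBar N q (x : JZero N) ∈ Pic0.torsion Qb (modularFunctionFieldBar N) r := by
  have hx := x.2
  rw [Pic0.mem_torsion] at hx ⊢
  rw [← map_zsmul, hx, map_zero]

/-- `T_q` on `J_0(N)[r]` -/
def TJ (q : Idx N) : Module.End (ZMod r) (Jr N r) :=
  AddMonoidHom.toZModLinearMap r
    { toFun := fun x => ⟨heckeOperatorBar N q.1 (x : JZero N),
        heckeOperatorBar_mem_torsion N r q.1 x⟩
      map_zero' := Subtype.ext (map_zero _)
      map_add' := fun _ _ => Subtype.ext (map_add _ _ _) }

theorem coe_TJ (q : Idx N) (x : Jr N r) :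
    (TJ N r q x : JZero N) = heckeOperatorBar N q.1 (x : JZero N) := rfl

theorem TJ_comm (q q' : Idx N) : TJ N r q * TJ N r q' = TJ N r q' * TJ N r q :=
  LinearMap.ext fun x => Subtype.ext
    (LinearMap.congr_fun (H67.heckeOperatorsCommuteBar N q.1 q'.1) (x : JZero N))

/-- the action of the polynomial ring in the `T_q`, `q ≠ N`, on `J_0(N)[r]` -/
def evJ : R0 N →+* Module.End (ZMod r) (Jr N r) := evalC (TJ N r) (TJ_comm N r)

end Fermat.Agent.H9
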