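import Mathlib
import Fermat.Agent.H9J9E
import Fermat.Agent.H94NoEis
import Fermat.Agent.H50J9B

/-!
# Characteristic polynomials on `Λ = Γ₀(N)^ab / (parabolic, elliptic)`
-/

set_option autoImplicit false

noncomputable section

namespace Fermat.Agent.H50.J9

open CongruenceSubgroup ModularForm ModularCurve Module
open Fermat.Agent.H4 Fermat.Agent.H9 Fermat.Agent.H94.NE
open scoped MatrixGroups

variable {N : ℕ} [NeZero N]

/-- `Λ → Lat N` -/
def lamToLat (N : ℕ) [NeZero N] : LamN N →+ Lat N :=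
  (exists_lift_isPE (isPE_toLat (N := N))).choose

theorem lamToLat_proj (γ : Additive (Gamma0 N)) :
    lamToLat N (H8.proj (Gamma0 N) γ) = toLat N γ :=
  DFunLike.congr_fun (exists_lift_isPE (isPE_toLat (N := N))).choose_spec γ

theorem lamToLat_bijective : Function.Bijective (lamToLat N) := by
  constructor
  · rw [injective_iff_map_eq_zero]
    intro x hx
    obtain ⟨γ, rfl⟩ := H8.proj_surjective (Gamma0 N) x
    rw [lamToLat_proj] at hx
    exact eq_zero_of_toLat (H8.proj (Gamma0 N)) isPE_proj hx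
  · intro v
    obtain ⟨γ, rfl⟩ := toLat_surjective v
    exact ⟨_, lamToLat_proj γ⟩

/-- **`Λ ≃ Lat N`** -/
def lamEquivLat (N : ℕ) [NeZero N] : LamN N ≃ₗ[ℤ] Lat N :=
  (AddEquiv.ofBijective (lamToLat N) lamToLat_bijective).toIntLinearEquiv

theorem lamEquivLat_apply (x : LamN N) : lamEquivLat N x = lamToLat N x := rfl

/-- the primes dividing `N` -/
def badS (N : ℕ) : Set ℕ := {q | q ∣ N}

theorem badS_spec (N : ℕ) : ∀ q : ℕ, q.Prime → q ∣ N → q ∈ badS N := fun _ _ h => h

theorem lamToLat_heckeLam {q : ℕ} [hq : Fact q.Prime] (hqN : ¬ q ∣ N) (x : LamN N) :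
    lamToLat N (heckeLam hqN x) =
      latAct (badS_spec N) (CuspForm.heckeAlgebra.T hq.out hqN hqN) (lamToLat N x) := by
  obtain ⟨γ, rfl⟩ := H8.proj_surjective (Gamma0 N) x
  rw [lamToLat_proj, latAct_T_toLat (badS_spec N) hqN hqN]
  have h1 := heckeHom_lift hqN (lamToLat N)
  have h2 : (lamToLat N).comp (H8.proj (Gamma0 N)) = toLat N :=
    AddMonoidHom.ext fun γ => lamToLat_proj γ
  rw [h2] at h1
  exact (DFunLike.congr_fun h1 γ).symm

/-- evaluation in the Hecke algebra -/
def evH (hN : N.Prime) : R0 N →+* CuspForm.heckeAlgebra N 2 (badS N) :=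
  MvPolynomial.eval₂Hom (Int.castRingHom _) fun q =>
    CuspForm.heckeAlgebra.T q.1.2 (q.not_dvd hN) (q.not_dvd hN)

theorem evH_X (hN : N.Prime) (q : Idx N) : evH hN (MvPolynomial.X q) =
    CuspForm.heckeAlgebra.T q.1.2 (q.not_dvd hN) (q.not_dvd hN) :=
  MvPolynomial.eval₂Hom_X' _ _ _

theorem coe_evH (hN : N.Prime) (a : R0 N) :
    ((evH hN a : CuspForm.heckeAlgebra N 2 (badS N)) : Module.End ℂ (CuspForm (Gamma0 N) 2)) =
      evC hN a := by
  have h : ((CuspForm.heckeAlgebra N 2 (badS N)).val : _ →+* _).comp (evH hN) = evC hN := by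
    apply MvPolynomial.ringHom_ext
    · intro n
      rw [evC, evalC_C]
      simp
    · intro q
      rw [evC, evalC_X, RingHom.comp_apply, evH_X]
      rfl
  exact RingHom.congr_fun h a

theorem evalC_lam (hN : N.Prime) (T : Idx N → Module.End ℤ (LamN N))
    (hT : ∀ (q : Idx N) (x : LamN N), T q x =
      (haveI : Fact (q.1 : ℕ).Prime := ⟨q.1.2⟩; heckeLam (q.not_dvd hN) x))
    (hcomm : ∀ i j, T i * T j = T j * T i) (a : R0 N) (x : LamN N) :
    lamToLat N (evalC T hcomm a x) = latAct (badS_spec N) (evH hN a) (lamToLat N x) := by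
  induction a using MvPolynomial.induction_on generalizing x with
  | C n =>
    rw [evalC_C, Module.End.intCast_apply, map_zsmul]
    have h1 : evH hN (MvPolynomial.C n) = (n : CuspForm.heckeAlgebra N 2 (badS N)) := by
      rw [evH, MvPolynomial.coe_eval₂Hom, MvPolynomial.eval₂_C]; rfl
    rw [h1, map_intCast, Module.End.intCast_apply]
  | add p q hp hq =>
    rw [map_add, map_add, map_add, LinearMap.add_apply, LinearMap.add_apply, map_add, hp, hq]
  | mul_X p i hp =>
    have : Fact (i.1 : ℕ).Prime := ⟨i.1.2⟩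
    rw [map_mul, map_mul, map_mul, evalC_X, Module.End.mul_apply, Module.End.mul_apply, hp, hT,
      evH_X]
    congr 1
    exact lamToLat_heckeLam (i.not_dvd hN) x

/-- **(J2)**: the characteristic polynomial of a Hecke operator on `Λ` is the square of that on
the integral cusp forms. -/
theorem charpoly_lam (hN : N.Prime) (T : Idx N → Module.End ℤ (LamN N))
    (hT : ∀ (q : Idx N) (x : LamN N), T q x =
      (haveI : Fact (q.1 : ℕ).Prime := ⟨q.1.2⟩; heckeLam (q.not_dvd hN) x))
    (hcomm : ∀ i j, T i * T j = T j * T i) (a : R0 N) :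
    (evalC T hcomm a).charpoly = (evMZ hN a).charpoly ^ 2 := by
  have h1 : (lamEquivLat N).conj (evalC T hcomm a) = latAct (badS_spec N) (evH hN a) := by
    refine LinearMap.ext fun v => ?_
    obtain ⟨x, rfl⟩ := (lamEquivLat N).surjective v
    rw [LinearEquiv.conj_apply_apply, LinearEquiv.symm_apply_apply]
    exact evalC_lam hN T hT hcomm a x
  rw [← LinearEquiv.charpoly_conj (lamEquivLat N), h1]
  apply charpoly_latAct
  rw [← charpoly_evC hN a]
  congr 1
  exact coe_evH hN a

end Fermat.Agent.H50.J9
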