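import Fermat.Agent.H4Faithful
import Fermat.Agent.H50J9C

/-!
# Reader's guide: the lattice of periods of `Γ₀(N)` and its Hecke operators

Nothing is proved in this file. Every theorem is the exact statement of a theorem of the library,
with all hypotheses written out, followed by a citation. Only `Guide` imports it. It is a companion
of `Fermat.Agent.GuideBridge` (steps of `mod_p_eigenclass` and `hecke_faithful` there), of
`Fermat.Agent.GuidePeriods` and of `Fermat.Agent.GuideEisenstein`.

## What it is about

The homology `H₁(X₀(N), ℤ)` appears in the library as the lattice of periods: the group of the linear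
forms `f ↦ ∫_{τ}^{γτ} f` on `S₂(Γ₀(N))`, `γ ∈ Γ₀(N)`. No curve, no path and no homology group is
needed; the Hecke operators act by the transfer of group elements.

1. *The lattice* (`lattice_iff` to `character_gives_functional`): it is finitely generated and free,
   stable under the transposed Hecke operators; the Hecke algebra acts faithfully; every character of
   the Hecke algebra with values in a field occurs in the functionals.
2. *Homomorphisms with values in `A`* (`factors_through_lattice` to `saturation`).
3. *It is a full lattice* (`functional_is_real_part` to `full_lattice`): `ℝ ⊗ Lat N` is the dual of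
   `S₂(Γ₀(N))`.
4. *Characteristic polynomials* (`charpoly_over_the_reals` to `charpoly_on_the_group`): on the lattice
   of periods a Hecke operator has the square of its characteristic polynomial on `S₂(Γ₀(N))`.

## References

NOTES.md: [162] characteristic polynomials (section A.2), [181], [144] periods (section A.4). Files
`H4Lattice`, `H4Faithful` (helper4), `H50J9A`, `H50J9B`, `H50J9C` (helper50). Every theorem is in the
closure of S01.

## Notation

`Additive Γ →+ A` is the type of homomorphisms `Γ → A`. `H4.IsPE φ` says that the homomorphism `φ` on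
`Γ₀(N)` kills the `γ` with `(tr γ)² ≤ 4`: `±1`, the parabolic and the elliptic ones. `H4.heckeHom hℓN φ`
is `T_ℓ φ` (`GuidePeriods.hecke_operator`, `GuideBridge.heckeHom_def`). `H4.Lat N` is the lattice of
periods inside `H4.DualS N`, the complex dual of `S₂(Γ₀(N))`. `CuspForm.heckeAlgebra N 2 S` is the
`ℤ`-algebra generated by the Hecke operators at the primes outside `S`; here `S` contains all primes
dividing `N`.
-/

set_option autoImplicit false

open CongruenceSubgroup ModularCurve
open scoped MatrixGroups

namespace Fermat.Agent.Guide.PeriodLattice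

/-! ## 1. The lattice -/

/-- **Definition.** `H4.perHom N γ` is the linear form `f ↦ periodMap N f γ`; `H4.Lat N` is the set of
these forms; `H4.toLat N` is the map `γ ↦ H4.perHom N γ` onto it, which kills the parabolic and the
elliptic elements. The group is finitely generated (because `Γ₀(N)` is) and torsion-free (a subgroup of
a complex vector space), hence free. File `H4Lattice`. -/
theorem lattice_iff (N : ℕ) [NeZero N] :
    (∀ (γ : Additive (Gamma0 N)) (f : CuspForm (Gamma0 N) 2),
      H4.perHom N γ f = periodMap N f γ) ∧
    (∀ v : Module.Dual ℂ (CuspForm (Gamma0 N) 2), v ∈ H4.Lat N ↔ ∃ γ, H4.perHom N γ = v) ∧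
    (∀ γ, (H4.toLat N γ : Module.Dual ℂ (CuspForm (Gamma0 N) 2)) = H4.perHom N γ) ∧
    H4.IsPE (H4.toLat N) ∧ Module.Finite ℤ (H4.Lat N) ∧ Module.Free ℤ (H4.Lat N) :=
  ⟨fun _ _ => rfl, fun _ => Iff.rfl, fun _ => rfl, H4.isPE_toLat, H4.finite_lat N, H4.free_lat⟩

/-- **Hecke operators and periods.** `H4.dualAct N S T` is the transpose of `T`. It maps the lattice of
periods into itself, and on the period of `γ` the operator `T_ℓ` acts by the transfer: the period of
`T_ℓ f` along `γ` is the sum over the projective line over `ℤ/ℓ` of the periods of `f` along the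
elements `δ_x` with `α_x γ = δ_x α_{π(x)}`. File `H4Lattice`. -/
theorem lattice_stable {N : ℕ} [NeZero N] {S : Set ℕ} (hNS : ∀ q : ℕ, q.Prime → q ∣ N → q ∈ S) :
    (∀ (T : CuspForm.heckeAlgebra N 2 S) (v : Module.Dual ℂ (CuspForm (Gamma0 N) 2))
      (f : CuspForm (Gamma0 N) 2), H4.dualAct N S T v f = v (T.1 f)) ∧
    (∀ (T : CuspForm.heckeAlgebra N 2 S), ∀ v ∈ H4.Lat N, H4.dualAct N S T v ∈ H4.Lat N) ∧
    ∀ {ℓ : ℕ} [hℓ : Fact ℓ.Prime] (hℓN : ¬ ℓ ∣ N) (hℓS : ℓ ∉ S) (γ : Additive (Gamma0 N)),
      H4.dualAct N S (CuspForm.heckeAlgebra.T hℓ.out hℓN hℓS) (H4.perHom N γ) =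
        H4.heckeHom hℓN (H4.perHom N) γ :=
  ⟨fun _ _ _ => rfl, H4.dualAct_mem_Lat hNS, fun hℓN hℓS γ => H4.dualAct_T_perHom hℓN hℓS γ⟩

/-- **The Hecke algebra acts faithfully on the lattice** (`H4.latAct hNS` is the action), because the
periods separate cusp forms: a form with all periods zero is zero. File `H4Lattice`. -/
theorem faithful {N : ℕ} [NeZero N] {S : Set ℕ} (hNS : ∀ q : ℕ, q.Prime → q ∣ N → q ∈ S) :
    (∀ (T : CuspForm.heckeAlgebra N 2 S) (v : H4.Lat N),
      (H4.latAct hNS T v : Module.Dual ℂ (CuspForm (Gamma0 N) 2)) = H4.dualAct N S T v) ∧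
    (∀ f : CuspForm (Gamma0 N) 2, (∀ γ, H4.perHom N γ f = 0) → f = 0) ∧
    Function.Injective (H4.latAct hNS) :=
  ⟨fun _ _ => rfl, H4.eq_zero_of_forall_perHom, H4.latAct_injective hNS⟩

/-- **Characters occur in functionals** (algebra). Let `M` be a finite module over the commutative
ring `R` and `θ : R → k` a homomorphism to a field which kills the annihilator of `M`. Then there is
an additive map `g ≠ 0` from `M` to `k` with `g(r m) = θ(r) g(m)`. Proof: the kernel of `θ` is in the
support of `M`, so the fibre of `M` at it is not zero. Applied to `M = Lat N` (annihilator zero by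
`faithful`) it gives `GuideBridge.mod_p_eigenclass`. File `H4Lattice`. -/
theorem character_gives_functional {R M k : Type*} [CommRing R] [AddCommGroup M] [Module R M]
    [Module.Finite R M] [Field k] (θ : R →+* k)
    (hann : ∀ r : R, (∀ m : M, r • m = 0) → θ r = 0) :
    ∃ g : M →+ k, g ≠ 0 ∧ ∀ (r : R) (m : M), g (r • m) = θ r * g m :=
  H4.exists_functional θ hann

/-! ## 2. Homomorphisms with values in `A` -/

/-- **Elements without periods.** If `γ` has period zero for all cusp forms, it is killed by every
homomorphism `φ` from `Γ₀(N)` to any abelian group which kills the parabolic and the elliptic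
elements. (So the kernel of `Γ₀(N) → Lat N` is generated by commutators, parabolic and elliptic
elements.) Proof: the group `Λ` of `group_is_lattice` is free (`GuidePeriods.lattice_free`); a
functional on it is the real part of the periods of a cusp form, hence zero at `γ`; so the class of
`γ` in `Λ` is zero. File `H50J9B`. -/
theorem factors_through_lattice {N : ℕ} [NeZero N] {A : Type*} [AddCommGroup A]
    (φ : Additive (Gamma0 N) →+ A) (hφ : H4.IsPE φ) {γ : Additive (Gamma0 N)}
    (hγ : H4.toLat N γ = 0) : φ γ = 0 :=
  H50.J9.eq_zero_of_toLat φ hφ hγ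

/-- **Homomorphisms are functionals on the lattice**: `g ↦ g ∘ H4.toLat N` is a bijection from the
homomorphisms `Lat N → A` to the homomorphisms `Γ₀(N) → A` which kill the parabolic and the elliptic
elements (`H4.PE N A`), for every abelian group `A`. File `H50J9B`. -/
theorem homs_are_functionals (N : ℕ) [NeZero N] (A : Type*) [AddCommGroup A] :
    (∀ φ : Additive (Gamma0 N) →+ A, φ ∈ H4.PE N A ↔ H4.IsPE φ) ∧
    (∀ g : H4.Lat N →+ A, (H4.ofLatHom N A g).1 = g.comp (H4.toLat N)) ∧
    Function.Bijective (H4.ofLatHom N A) :=
  ⟨fun _ => Iff.rfl, fun _ => rfl, H50.J9.ofLatHom_bijective A⟩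

/-- **Hecke operators correspond.** Under this bijection (`H4.ofLat N g` is `g ∘ H4.toLat N` as an element
of `H4.PE N A`) the operator `T_ℓ` on homomorphisms, `H4.heckePE A hℓN`, is composition with `T_ℓ` on
the lattice. File `H4Faithful`. -/
theorem hecke_corresponds {N : ℕ} [NeZero N] {S : Set ℕ} {A : Type*} [AddCommGroup A]
    (hNS : ∀ q : ℕ, q.Prime → q ∣ N → q ∈ S) {ℓ : ℕ} [hℓ : Fact ℓ.Prime] (hℓN : ¬ ℓ ∣ N)
    (hℓS : ℓ ∉ S) (g : H4.Lat N →+ A) :
    H4.heckePE A hℓN (H4.ofLat N g) = H4.ofLat N
      (g.comp (H4.latAct hNS (CuspForm.heckeAlgebra.T hℓ.out hℓN hℓS)).toAddMonoidHom) :=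
  H4.heckePE_ofLat hNS hℓN hℓS g

/-- **Divisible operators.** An endomorphism `X` of a finite free `ℤ`-module such that `g ∘ X = 0` for
all functionals `g` modulo `m` is `m` times an endomorphism. In `GuideBridge.hecke_faithful`: a Hecke
operator which acts as zero on `J₀(N)[m]` is `m` times an endomorphism of the lattice. File
`H4Faithful`. -/
theorem divisible_operator {L : Type*} [AddCommGroup L] [Module.Free ℤ L] [Module.Finite ℤ L]
    (m : ℕ) (X : Module.End ℤ L) (h : ∀ (g : L →+ ZMod m) (v : L), g (X v) = 0) :
    ∃ Y : Module.End ℤ L, X = m • Y :=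
  H4.exists_eq_smul_of_forall m X h

/-- **Saturation.** For a subgroup `B` of a finitely generated abelian group `E` there is `M ≠ 0` such
that `M x ∈ B` as soon as some nonzero multiple of `x` is in `B`. Applied to the Hecke algebra inside
the endomorphisms of the lattice, with `M = p ^ c u`, `p ∤ u`, this gives the constants `c` and `u` of
`GuideBridge.hecke_faithful`. File `H4Faithful`. -/
theorem saturation {E : Type*} [AddCommGroup E] [Module.Finite ℤ E] (B : Submodule ℤ E) :
    ∃ M : ℕ, M ≠ 0 ∧ ∀ (x : E) (n : ℕ), n ≠ 0 → n • x ∈ B → M • x ∈ B :=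
  H4.exists_nat_saturation B

/-! ## 3. It is a full lattice -/

/-- **Real functionals are real parts of periods** (Eichler-Shimura over `ℝ`,
`GuidePeriods.real_eichler_shimura`, existence only). File `H50J9B`. -/
theorem functional_is_real_part {N : ℕ} [NeZero N] (φ : Additive (Gamma0 N) →+ ℝ)
    (hφ : H4.IsPE φ) :
    ∃ f : CuspForm (Gamma0 N) 2, ∀ γ, φ γ = (H4.perHom N γ f).re :=
  H50.J9.exists_re_period φ hφ

/-- **`ℤ`-independent periods are independent over `ℝ`.** The map `ℝ ⊗ Lat N → dual of S₂(Γ₀(N))`
(`H50.J9.latMap`) is injective: the coordinates of the free group `Lat N` are real functionals,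
hence real parts of periods of cusp forms, so they extend to the dual. And the rank of `Lat N` is at
least `2 dim S₂(Γ₀(N))`: the homomorphisms `Γ₀(N) → ℝ` of the type considered form a real space of at
least this dimension (`f ↦ Re` of the periods is injective), and such a homomorphism is determined by
its values on a basis. File `H50J9B`. -/
theorem independence (N : ℕ) [NeZero N] :
    Function.Injective (LinearMap.liftBaseChange ℝ (H4.Lat N).subtype) ∧
    2 * Module.finrank ℂ (CuspForm (Gamma0 N) 2) ≤ Module.finrank ℤ (H4.Lat N) :=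
  ⟨H50.J9.latMap_injective, H50.J9.finrank_le_rank⟩

/-- **`Lat N` is a full lattice**: `ℝ ⊗ Lat N` is the dual of `S₂(Γ₀(N))` as a real vector space, by
comparison of dimensions. File `H50J9B`. -/
theorem full_lattice (N : ℕ) [NeZero N] :
    Function.Bijective (LinearMap.liftBaseChange ℝ (H4.Lat N).subtype) :=
  H50.J9.latMap_bijective

/-! ## 4. Characteristic polynomials -/

/-- **Restriction of scalars to the reals.** If the characteristic polynomial `P` of an endomorphism of
a complex vector space has real coefficients, the characteristic polynomial over `ℝ` is `P²`: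
evaluate at real numbers; the determinant over `ℝ` is the norm of the determinant over `ℂ`. File
`H50J9A`. -/
theorem charpoly_over_the_reals {V : Type*} [AddCommGroup V] [Module ℂ V] [Module ℝ V]
    [IsScalarTower ℝ ℂ V] [FiniteDimensional ℂ V] (T : Module.End ℂ V) (P : Polynomial ℝ)
    (hP : T.charpoly = P.map (algebraMap ℝ ℂ)) :
    have : FiniteDimensional ℝ V := FiniteDimensional.trans ℝ ℂ V
    LinearMap.charpoly (T.restrictScalars ℝ) = P ^ 2 :=
  H50.J9.charpoly_restrictScalars T P hP

/-- **Dual and lattice.** The transpose of an endomorphism has the same characteristic polynomial; and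
an endomorphism `T` of a real vector space which preserves a full lattice `L` has the same
characteristic polynomial as its restriction `t` to `L`. File `H50J9A`. -/
theorem charpoly_dual_and_lattice {K W : Type*} [Field K] [Infinite K] [AddCommGroup W]
    [Module K W] [FiniteDimensional K W] (A : Module.End K W)
    {V : Type*} [AddCommGroup V] [Module ℝ V] [FiniteDimensional ℝ V]
    (L : Submodule ℤ V) [Module.Free ℤ L] [Module.Finite ℤ L]
    (hL : Function.Bijective (LinearMap.liftBaseChange ℝ L.subtype)) (T : Module.End ℝ V)
    (t : Module.End ℤ L) (h : ∀ v : L, ((t v : L) : V) = T v) :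
    LinearMap.charpoly (A.dualMap : Module.End K (Module.Dual K W)) = A.charpoly ∧
    t.charpoly.map (algebraMap ℤ ℝ) = T.charpoly :=
  ⟨H50.J9.charpoly_dualMap A, H50.J9.charpoly_lattice L hL T t h⟩

/-- **Eichler-Shimura for characteristic polynomials.** If the characteristic polynomial of the Hecke
operator `t` on `S₂(Γ₀(N))` is `P`, with integral coefficients, then the characteristic polynomial of
`t` on the lattice of periods is `P²`. Proof: the two previous theorems and `full_lattice`. File
`H50J9B`. -/
theorem charpoly_of_hecke {N : ℕ} [NeZero N] {S : Set ℕ}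
    (hNS : ∀ q : ℕ, q.Prime → q ∣ N → q ∈ S)
    (t : CuspForm.heckeAlgebra N 2 S) (P : Polynomial ℤ)
    (hP : LinearMap.charpoly (t : Module.End ℂ (CuspForm (Gamma0 N) 2)) =
      P.map (Int.castRingHom ℂ)) :
    LinearMap.charpoly (H4.latAct hNS t) = P ^ 2 :=
  H50.J9.charpoly_latAct hNS t P hP

/-- **The group `Λ`.** Let `Λ = H94.NE.LamN N` be the quotient of the abelianisation of `Γ₀(N)` by the
classes of the parabolic and the elliptic elements, `H8.proj` the projection. The map `Λ → Lat N`
induced by the periods (`H50.J9.lamToLat N`) is bijective and compatible with the Hecke operators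
(`H94.NE.heckeLam` on `Λ`; on the lattice the action of the Hecke algebra outside the set
`H50.J9.badS N` of the divisors of `N`). File `H50J9C`. -/
theorem group_is_lattice {N : ℕ} [NeZero N] {q : ℕ} [hq : Fact q.Prime] (hqN : ¬ q ∣ N) :
    (∀ γ : Additive (Gamma0 N),
      H50.J9.lamToLat N (H8.proj (Gamma0 N) γ) = H4.toLat N γ) ∧
    Function.Bijective (H50.J9.lamToLat N) ∧
    ∀ x : H94.NE.LamN N, H50.J9.lamToLat N (H94.NE.heckeLam hqN x) =
      H4.latAct (H50.J9.badS_spec N) (CuspForm.heckeAlgebra.T hq.out hqN hqN)
        (H50.J9.lamToLat N x) :=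
  ⟨H50.J9.lamToLat_proj, H50.J9.lamToLat_bijective, H50.J9.lamToLat_heckeLam hqN⟩

/-- **Characteristic polynomials on `Λ`.** For prime `N` and a polynomial `a` in the operators `T_q`,
`q ≠ N` (`H9.Idx N` is the set of these primes, `H9.R0 N` the ring of these polynomials, `H9.evalC`
evaluates them at commuting operators): the characteristic polynomial of `a` on `Λ` is the square of
that on the lattice `H9.MZ N` of cusp forms with integral coefficients (`H9.evMZ`). As
`J₀(N)[r] = Hom(Λ, ℤ/r)` as a Hecke module, this gives the ranks of the Eisenstein part of the torsion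
used in Mazur's theorem (`GuideEisenstein`, files `H9J9H`, `H94J9`). File `H50J9C`. -/
theorem charpoly_on_the_group {N : ℕ} [NeZero N] (hN : N.Prime)
    (T : H9.Idx N → Module.End ℤ (H94.NE.LamN N))
    (hT : ∀ (q : H9.Idx N) (x : H94.NE.LamN N), T q x =
      (haveI : Fact (q.1 : ℕ).Prime := ⟨q.1.2⟩; H94.NE.heckeLam (q.not_dvd hN) x))
    (hcomm : ∀ i j, T i * T j = T j * T i) (a : H9.R0 N) :
    (H9.evalC T hcomm a).charpoly = (H9.evMZ hN a).charpoly ^ 2 :=
  H50.J9.charpoly_lam hN T hT hcomm a

end Fermat.Agent.Guide.PeriodLattice
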