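import Fermat.Agent.S22

/-!
# Reader's guide: periods of cusp forms in all weights, step by step (S22)

(editor helper22; library files by helper22)

Companion of `GuidePeriods`, section 4. There the result (Hecke algebras are finite over `ℤ`, statement S22)
and the four main steps are stated: primitives and periods, finiteness of the lattice of periods, stability
under Hecke operators, separation. This file shows how each of these steps is proved. Every theorem is a
citation of a theorem of the library with the statement written out, or the unfolding of a definition. The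
file is imported by no other file except the list `Guide`. Everything cited is used in the proof of S22 and,
through it, in the proofs of S01, S03, S04, S06, S09, S12, S15, S29, S33, S38, S39, S40, S42, S43, S44, S45,
S46, S50, S58, S59 and S60. The primitives of section 1 and the decay of section 5 are used a second time, in
weight two and for all subgroups of finite index, in `H48Per` (for S47 and S48, see `GuideDeligneSerre`,
section 3; and for S01, see `GuideAtkinLehner.periods`). The file `H22Gen` repeats the argument for every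
subgroup of finite index of `SL(2, ℤ)`, every weight `k ≠ 1` and all operators given by integral matrices of
positive determinant (`H22.Gen.moduleFinite_adjoin`); the proofs of the 60 statements use of it only the
exponential decay and the invariance of cusp forms (`cuspLike_of_cuspForm`, `slash_of_mem`).

**The argument.** Let `f` be a cusp form of weight `w + 2` on `Γ₀(N)`, `P` a polynomial of degree at most
`w` and `g ∈ SL(2, ℤ)`. The period of `f P` from `∞` to `g ∞` is defined without contour integrals.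
(a) `h = f P` has a primitive `F` which tends to zero at `i∞`, because `h` decays exponentially; the
translate `h ∣ g` of weight two has one as well, say `G`. Both `τ ↦ F(g τ)` and `G` are primitives of `h ∣ g`;
the period is the constant `F(g τ) - G(τ)` (section 1).
(b) `(f P) ∣ g = (f ∣ g)(P ∣ g)` with weights `2 = (w + 2) + (-w)`, and `P ∣ g` is again an integral
polynomial of degree at most `w` if `P` is (section 2). So a period from `∞` to `g g' ∞` is the sum of a
period from `∞` to `g ∞` and a period of `f ∣ g` from `∞` to `g' ∞`. Since `S` and `T` generate `SL(2, ℤ)` and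
`T ∞ = ∞`, all periods are integral combinations of the periods of `(f ∣ γ) τ^i` from `∞` to `S ∞ = 0` with
`0 ≤ i ≤ w` and `γ` modulo `Γ₀(N)`, which are finitely many (section 3).
(c) The Hecke operators are sums of substitutions by integral matrices `δ` of positive determinant. The
primitive of `(f ∣ δ) P` is `τ ↦ F(δ τ)`, where `F` is the primitive of `f P'` for another integral polynomial
`P'`; and `δ g = g' B` with `B` upper triangular, so the limit of `F(δ τ)` at `g ∞` is a period from `∞` to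
`g' ∞` (section 4).
(d) If all periods of `f` vanish, then the Eichler integral `∫ (z - u)^w f(u) du` from `∞` to `z` is a cusp
form of weight `-w ≤ 0`. There is none except zero, and differentiating `w + 1` times gives `f = 0`
(section 5).
(e) By (b), (c), (d) the Hecke algebra embeds into the endomorphisms of a finitely generated abelian group
(section 6).

**Notation.** `H22.prim h` is the primitive of `h` which vanishes at `i∞`, `H22.Phi h g` the period of `h`
from `∞` to `g ∞`, `H22.Pol R w` the `R`-module of the polynomials in `τ` of degree at most `w` with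
coefficients in `R` (functions on the upper half plane), `H22.M N w` the lattice of periods, `H22.Good h` the
condition that `h` is holomorphic and all its translates of weight two decay exponentially at `i∞` in
vertical strips; see `GuidePeriods`, section 4.

**Contents.**
1. Primitives and periods (`H22Prim`).
2. Polynomials of weight `-w` (`H22Pol`).
3. Finiteness (`H22FG`).
4. Hecke operators (`H22Hecke`).
5. Separation: Eichler integrals (`H22Sep`).
6. The Hecke algebra is finite over `ℤ` (`S22`).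

**Used for** S22. Reference in NOTES.md: [144].
-/

set_option autoImplicit false

open UpperHalfPlane ModularForm MatrixGroups CongruenceSubgroup Module Filter
open scoped Manifold Topology

namespace Fermat.Agent.Guide.PeriodSteps

/-! ## 1. Primitives and periods -/

/-- **The three notions of this section**: `H22.IsPrim F h` says that `F` is a primitive of `h`;
`H22.SDecay h` says that `h` decays exponentially at `i∞` in every vertical strip `|Re τ| ≤ R`; `H22.VZero F`
says that `F` tends to zero at `i∞` along every vertical line. (`H22Prim`) -/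
theorem notions_iff (F h : ℍ → ℂ) :
    (H22.IsPrim F h ↔ ∀ τ : ℍ, HasDerivAt (F ∘ ofComplex) (h τ) (τ : ℂ)) ∧
    (H22.SDecay h ↔ ∀ R : ℝ, ∃ c > 0, ∃ C A : ℝ, ∀ τ : ℍ, |τ.re| ≤ R → A ≤ τ.im →
      ‖h τ‖ ≤ C * Real.exp (-c * τ.im)) ∧
    (H22.VZero F ↔ ∀ x : ℝ, Tendsto (fun y : ℝ => F (ofComplex (x + y * Complex.I))) atTop (𝓝 0)) :=
  ⟨Iff.rfl, Iff.rfl, Iff.rfl⟩

/-- A holomorphic function on the upper half plane has a primitive, since the half plane is convex.
(`H22Prim`) -/
theorem exists_primitive (h : ℍ → ℂ) (hh : MDiff h) : ∃ F, H22.IsPrim F h :=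
  H22.exists_isPrim hh

/-- A primitive of zero is constant. (`H22Prim`) -/
theorem constant_of_primitive_zero (F : ℍ → ℂ) (hF : H22.IsPrim F 0) (τ σ : ℍ) : F τ = F σ :=
  hF.const_of_zero τ σ

/-- Exponential decay in strips survives multiplication by `τ`, hence by polynomials in `τ`. (`H22Prim`,
`H22Pol`) -/
theorem decay_mul_polynomial (w : ℕ) (h P : ℍ → ℂ) (hh : H22.SDecay h) (hP : P ∈ H22.Pol ℂ w) :
    H22.SDecay (fun τ => (τ : ℂ) * h τ) ∧ H22.SDecay (h * P) :=
  ⟨hh.coe_mul, hh.mul_Pol hP⟩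

/-- **The primitive vanishing at `i∞`**: a holomorphic function which decays exponentially in strips is
integrable along the vertical half lines above height `a > 0`, so a primitive has a limit along every vertical
line. Two such limits are equal, by the mean value inequality on horizontal segments. Hence exactly one
primitive tends to zero along every vertical line. (`H22Prim`) -/
theorem existsUnique_primitive_vanishing (h : ℍ → ℂ) (hh : MDiff h) (hd : H22.SDecay h) :
    (∀ x a : ℝ, 0 < a → MeasureTheory.IntegrableOn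
      (fun y : ℝ => Complex.I * h (ofComplex (x + y * Complex.I))) (Set.Ioi a)) ∧
    ∃! F : ℍ → ℂ, H22.IsPrim F h ∧ H22.VZero F := by
  obtain ⟨F, hF, h0⟩ := H22.exists_isPrim_vzero hh hd
  exact ⟨fun x _ ha => H22.integrableOn_line hh hd x ha,
    F, ⟨hF, h0⟩, fun G hG => hG.1.unique_of_vzero hF hG.2 h0⟩

/-- **Chain rule**: if `F` is a primitive of `h`, then `τ ↦ F(g τ)` is a primitive of `h ∣ g` (weight two),
for every real matrix `g` of positive determinant. (`H22Prim`) -/
theorem primitive_comp (F h : ℍ → ℂ) (hF : H22.IsPrim F h) (g : GL (Fin 2) ℝ) (hg : 0 < g.det.val) :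
    H22.IsPrim (fun τ => F (g • τ)) (h ∣[(2 : ℤ)] g) :=
  hF.comp_slash hg

/-- An upper triangular matrix with positive diagonal maps vertical half lines to vertical half lines; so if
`F` tends to zero along all of them, then `τ ↦ F(g τ)` does. (`H22Prim`) -/
theorem vanishing_comp (F : ℍ → ℂ) (hF : H22.VZero F) (g : GL (Fin 2) ℝ) (h10 : g 1 0 = 0)
    (h00 : 0 < g 0 0) (h11 : 0 < g 1 1) : H22.VZero (fun τ => F (g • τ)) :=
  hF.comp_upper h10 h00 h11

/-- **The period**: for a good function `h` the translate `h ∣ g` is good, and its two primitives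
`τ ↦ prim h (g τ)` and `prim (h ∣ g)` differ by a constant, the period `Phi h g`. (`H22Prim`) -/
theorem primitive_smul (h : ℍ → ℂ) (hh : H22.Good h) (g : SL(2, ℤ)) (τ : ℍ) :
    H22.Good (h ∣[(2 : ℤ)] g) ∧
      H22.prim h (g • τ) = H22.prim (h ∣[(2 : ℤ)] g) τ + H22.Phi h g :=
  ⟨hh.slash g, hh.prim_smul_eq g τ⟩

/-- Periods are linear in the function. (`H22Prim`) -/
theorem period_linear (h k : ℍ → ℂ) (hh : H22.Good h) (hk : H22.Good k) (c : ℂ) (g : SL(2, ℤ)) :
    H22.Phi (h + k) g = H22.Phi h g + H22.Phi k g ∧ H22.Phi (c • h) g = c * H22.Phi h g :=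
  ⟨H22.Phi_add hh hk g, H22.Phi_smul hh c g⟩

/-- The periods from `∞` to `1 ∞ = ∞` and to `T ∞ = ∞` are zero; for `T` because `τ ↦ prim h (τ + 1)` tends to
zero at `i∞`. (`H22Prim`) -/
theorem period_one_and_T (h : ℍ → ℂ) (hh : H22.Good h) :
    H22.Phi h 1 = 0 ∧ H22.Phi h ModularGroup.T = 0 :=
  ⟨H22.Phi_one, H22.Phi_T hh⟩

/-! ## 2. Polynomials of weight `-w` -/

/-- **Stability of the integral polynomials**: for integers `a, b, c, d` and `i ≤ w` the function
`(a τ + b)^i (c τ + d)^(w - i)` is an integral polynomial of degree at most `w`. So for an integral polynomial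
`P` of degree at most `w` and `g = (a, b; c, d)` in `SL(2, ℤ)` the translate of weight `-w`, which is
`(c τ + d)^w P(g τ)`, is again one. (`H22Pol`) -/
theorem polynomial_slash (w : ℕ) (a b c d : ℤ) (i : ℕ) (hi : i ≤ w) (P : ℍ → ℂ) (hP : P ∈ H22.Pol ℤ w)
    (g : SL(2, ℤ)) :
    (fun τ : ℍ => ((a : ℂ) * τ + b) ^ i * ((c : ℂ) * τ + d) ^ (w - i)) ∈ H22.Pol ℤ w ∧
      P ∣[-(w : ℤ)] g ∈ H22.Pol ℤ w :=
  ⟨H22.lin_mem_Pol a b c d hi, H22.Pol_slash hP g⟩

/-- **Weights add**: `(f P) ∣ g = (f ∣ g) (P ∣ g)`, where the weights are `2`, `w + 2` and `-w`. (`H22Pol`) -/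
theorem product_slash (w : ℕ) (f P : ℍ → ℂ) (g : SL(2, ℤ)) :
    (f * P) ∣[(2 : ℤ)] g = (f ∣[(w : ℤ) + 2] g) * (P ∣[-(w : ℤ)] g) :=
  H22.mul_slash_two f P g

/-- `H22.CuspLike k f`: the function `f` is holomorphic and all its translates of weight `k` decay
exponentially at `i∞`. (`H22Pol`) -/
theorem cuspLike_iff (k : ℤ) (f : ℍ → ℂ) :
    H22.CuspLike k f ↔ MDiff f ∧ ∀ g : SL(2, ℤ), ∃ c > 0, ∃ C A : ℝ, ∀ τ : ℍ, A ≤ τ.im →
      ‖(f ∣[k] g) τ‖ ≤ C * Real.exp (-c * τ.im) :=
  ⟨fun H => ⟨H.hol, H.dec⟩, fun H => ⟨H.1, H.2⟩⟩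

/-- **Cusp forms times polynomials are good**: a cusp form `f` of weight `w + 2` on `Γ₀(N)` and its translates
`f ∣ γ` satisfy this condition, and the products of `f ∣ γ` with the polynomials of degree at most `w` are
good functions. (`H22FG`, `H22Pol`) -/
theorem good_of_cuspForm (N w : ℕ) [NeZero N] (f : CuspForm (Gamma0 N) ((w : ℤ) + 2)) (γ : SL(2, ℤ))
    (P : ℍ → ℂ) (hP : P ∈ H22.Pol ℂ w) :
    H22.CuspLike ((w : ℤ) + 2) f ∧ H22.CuspLike ((w : ℤ) + 2) ((f : ℍ → ℂ) ∣[(w : ℤ) + 2] γ) ∧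
      H22.Good (((f : ℍ → ℂ) ∣[(w : ℤ) + 2] γ) * P) :=
  ⟨H22.cuspLike_of_cuspForm f, (H22.cuspLike_of_cuspForm f).slash γ,
    ((H22.cuspLike_of_cuspForm f).slash γ).good_mul hP⟩

/-! ## 3. Finiteness

For `γ, g ∈ SL(2, ℤ)` and an integral polynomial `P` of degree at most `w`, the functional `H22.Lam N γ hP g`
on `S_{w+2}(Γ₀(N))` maps `f` to the period of `(f ∣ γ) P` from `∞` to `g ∞`. The lattice of periods
`H22.M N w` is generated by the functionals with `γ = 1`. -/

/-- The functional `H22.Lam N γ hP g` (`hP` is the proof that `P` is an integral polynomial of degree at most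
`w`). (`H22FG`) -/
theorem functional_apply (N w : ℕ) [NeZero N] (γ : SL(2, ℤ)) (P : ℍ → ℂ) (hP : P ∈ H22.Pol ℤ w)
    (g : SL(2, ℤ)) (f : CuspForm (Gamma0 N) ((w : ℤ) + 2)) :
    H22.Lam N γ hP g f = H22.Phi (((f : ℍ → ℂ) ∣[(w : ℤ) + 2] γ) * P) g :=
  rfl

/-- A cusp form of weight `k` on `Γ₀(N)` is invariant under `Γ₀(N)`; so the functionals depend only on the
coset `Γ₀(N) γ`. (`H22FG`) -/
theorem slash_eq_self (N : ℕ) (k : ℤ) (f : CuspForm (Gamma0 N) k) (γ : SL(2, ℤ)) (hγ : γ ∈ Gamma0 N) :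
    (f : ℍ → ℂ) ∣[k] γ = f :=
  H22.slash_of_mem_Gamma0 f hγ

/-- **The paths `∞ → g ∞ → g g' ∞`**: the functional of `g g'` is the functional of `g` plus the functional
of `g'` for `γ g` and `P ∣ g`. (`H22FG`) -/
theorem functional_mul (N w : ℕ) [NeZero N] (γ : SL(2, ℤ)) (P : ℍ → ℂ) (hP : P ∈ H22.Pol ℤ w)
    (g g' : SL(2, ℤ)) :
    H22.Lam N γ hP (g * g') = H22.Lam N γ hP g + H22.Lam N (γ * g) (H22.Pol_slash hP g) g' :=
  H22.Lam_mul γ hP g g'

/-- The functionals of `1` and `T` are zero. (`H22FG`) -/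
theorem functional_one_and_T (N w : ℕ) [NeZero N] (γ : SL(2, ℤ)) (P : ℍ → ℂ) (hP : P ∈ H22.Pol ℤ w) :
    H22.Lam N γ hP 1 = 0 ∧ H22.Lam N γ hP ModularGroup.T = 0 :=
  ⟨H22.Lam_one γ hP, H22.Lam_T γ hP⟩

/-- **The finite set of generators**: the functionals `f ↦ Phi ((f ∣ γ) τ^i) S`, for `γ ∈ SL(2, ℤ)` and
`i ≤ w`, are finitely many, because `Γ₀(N)` has finite index. Their `ℤ`-span is called `H22.M0 N w`.
(`H22FG`) -/
theorem generators_finite (N w : ℕ) [NeZero N] :
    {L : CuspForm (Gamma0 N) ((w : ℤ) + 2) →ₗ[ℂ] ℂ | ∃ (γ : SL(2, ℤ)) (i : ℕ) (_ : i ≤ w),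
      ∀ f, L f = H22.Phi (((f : ℍ → ℂ) ∣[(w : ℤ) + 2] γ) * fun τ : ℍ => (τ : ℂ) ^ i)
        ModularGroup.S}.Finite ∧
    H22.M0 N w = Submodule.span ℤ {L : CuspForm (Gamma0 N) ((w : ℤ) + 2) →ₗ[ℂ] ℂ |
      ∃ (γ : SL(2, ℤ)) (i : ℕ) (_ : i ≤ w),
        ∀ f, L f = H22.Phi (((f : ℍ → ℂ) ∣[(w : ℤ) + 2] γ) * fun τ : ℍ => (τ : ℂ) ^ i)
          ModularGroup.S} := by
  have e : {L : CuspForm (Gamma0 N) ((w : ℤ) + 2) →ₗ[ℂ] ℂ | ∃ (γ : SL(2, ℤ)) (i : ℕ) (_ : i ≤ w),
      ∀ f, L f = H22.Phi (((f : ℍ → ℂ) ∣[(w : ℤ) + 2] γ) * fun τ : ℍ => (τ : ℂ) ^ i)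
        ModularGroup.S} =
      {L | ∃ (γ : SL(2, ℤ)) (i : ℕ) (hi : i ≤ w),
        L = H22.Lam N γ (Submodule.subset_span ⟨i, hi, rfl⟩ :
          (fun τ : ℍ => (τ : ℂ) ^ i) ∈ H22.Pol ℤ w) ModularGroup.S} :=
    Set.ext fun L => exists_congr fun γ => exists_congr fun i => exists_congr fun hi =>
      ⟨fun h => LinearMap.ext h, fun h f => LinearMap.congr_fun h f⟩
  exact ⟨e ▸ H22.finite_gens N w, e ▸ rfl⟩

/-- **All functionals are integral combinations of these generators**, by linearity in `P` and induction on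
a word in `S` and `T` for `g`. (`H22FG`) -/
theorem functional_mem (N w : ℕ) [NeZero N] (γ : SL(2, ℤ)) (P : ℍ → ℂ) (hP : P ∈ H22.Pol ℤ w)
    (g : SL(2, ℤ)) : H22.Lam N γ hP g ∈ H22.M0 N w :=
  H22.Lam_mem g γ hP

/-- So the lattice of periods is contained in the finitely generated group `H22.M0 N w`; a subgroup of a
finitely generated abelian group is finitely generated. (`H22FG`) -/
theorem lattice_le (N w : ℕ) [NeZero N] : H22.M N w ≤ H22.M0 N w ∧ (H22.M0 N w).FG :=
  ⟨H22.M_le N w, H22.M0_fg N w⟩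

/-! ## 4. Hecke operators

`ModularForm.heckeMatrix p j` is the matrix `(1, j; 0, p)` and `ModularForm.heckeDiagMatrix p` the matrix
`(p, 0; 0, 1)` (Prelude). The operator `U_p` is `f ↦ ∑ f ∣ (1, j; 0, p)` with the sum over `0 ≤ j < p`, and
`T_p f = U_p f + f ∣ (p, 0; 0, 1)`. -/

/-- **Decomposition.** An integral matrix of positive determinant is a product `g B` with `g ∈ SL(2, ℤ)` and
`B` integral, upper triangular, with positive diagonal (by Bézout's identity for the first column).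
(`H22Hecke`) -/
theorem exists_decomposition (D : Matrix (Fin 2) (Fin 2) ℤ) (hD : 0 < D.det) :
    ∃ (g : SL(2, ℤ)) (B : Matrix (Fin 2) (Fin 2) ℤ),
      D = (g : Matrix (Fin 2) (Fin 2) ℤ) * B ∧ B 1 0 = 0 ∧ 0 < B 0 0 ∧ 0 < B 1 1 :=
  H22.exists_decomp_int D hD

/-- The same for a real matrix `δ` with integral entries and `g ∈ SL(2, ℤ)`: `δ g = g' B`. (`H22Hecke`) -/
theorem exists_decomposition_mul (δ : GL (Fin 2) ℝ) (D : Matrix (Fin 2) (Fin 2) ℤ)
    (hδ : (δ : Matrix (Fin 2) (Fin 2) ℝ) = D.map (Int.cast : ℤ → ℝ)) (hD : 0 < D.det) (g : SL(2, ℤ)) :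
    ∃ (g' : SL(2, ℤ)) (B : GL (Fin 2) ℝ),
      δ * Matrix.SpecialLinearGroup.mapGL ℝ g = Matrix.SpecialLinearGroup.mapGL ℝ g' * B ∧
        B 1 0 = 0 ∧ 0 < B 0 0 ∧ 0 < B 1 1 :=
  H22.exists_decomp δ D hδ hD g

/-- If `δ g = g' B` with `B` upper triangular with positive diagonal, then for a good function `h` the value
`prim h (δ g (x + i y))` tends to the period of `h` from `∞` to `g' ∞` when `y` tends to infinity.
(`H22Hecke`) -/
theorem tendsto_primitive (h : ℍ → ℂ) (hh : H22.Good h) (δ B : GL (Fin 2) ℝ) (g g' : SL(2, ℤ))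
    (hdec : δ * Matrix.SpecialLinearGroup.mapGL ℝ g = Matrix.SpecialLinearGroup.mapGL ℝ g' * B)
    (h10 : B 1 0 = 0) (h00 : 0 < B 0 0) (h11 : 0 < B 1 1) (x : ℝ) :
    Tendsto (fun y : ℝ => H22.prim h (δ • (g • ofComplex (x + y * Complex.I)))) atTop
      (𝓝 (H22.Phi h g')) :=
  H22.tendsto_of_decomp hh hdec h10 h00 h11 x

/-- **The polynomial of the substitution**: for an integral polynomial `P` of degree at most `w` there are
integral polynomials `P'` and `P''` of degree at most `w` with `P'((τ + j)/p) = P(τ)` and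
`P''(p τ) = p^w P(τ)`. For `P = τ^i` these are `(p τ - j)^i` and `p^(w - i) τ^i`. (`H22Hecke`) -/
theorem exists_polynomial (w p : ℕ) (hp : p ≠ 0) (j : ℕ) (P : ℍ → ℂ) (hP : P ∈ H22.Pol ℤ w) :
    (∃ P' ∈ H22.Pol ℤ w, ∀ τ, P' (ModularForm.heckeMatrix p j • τ) = P τ) ∧
    ∃ P'' ∈ H22.Pol ℤ w, ∀ τ, P'' (ModularForm.heckeDiagMatrix p • τ) = (p : ℂ) ^ w * P τ :=
  ⟨H22.exists_Pol_heckeMatrix hp j hP, H22.exists_Pol_heckeDiagMatrix hp hP⟩

/-- **The primitive after the substitution `δ = (1, j; 0, p)`**: if `P'(δ τ) = P(τ)`, then the primitive of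
`(f ∣ δ) P` which vanishes at `i∞` is `τ ↦ prim (f P') (δ τ)`. (`H22Hecke`) -/
theorem primitive_heckeMatrix (w : ℕ) (f P P' : ℍ → ℂ) (hf : H22.CuspLike ((w : ℤ) + 2) f)
    (hP' : P' ∈ H22.Pol ℤ w) (p : ℕ) (hp : p ≠ 0) (j : ℕ)
    (h : ∀ τ, P' (ModularForm.heckeMatrix p j • τ) = P τ) :
    H22.IsPrim (fun τ => H22.prim (f * P') (ModularForm.heckeMatrix p j • τ))
        ((f ∣[(w : ℤ) + 2] ModularForm.heckeMatrix p j) * P) ∧
      H22.VZero (fun τ => H22.prim (f * P') (ModularForm.heckeMatrix p j • τ)) :=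
  H22.prim_heckeMatrix hf hP' hp j h

/-- **The primitive after the substitution `δ = (p, 0; 0, 1)`**: if `P''(δ τ) = p^w P(τ)`, then the primitive
of `(f ∣ δ) P` which vanishes at `i∞` is `τ ↦ prim (f P'') (δ τ)`. (`H22Hecke`) -/
theorem primitive_heckeDiagMatrix (w : ℕ) (f P P'' : ℍ → ℂ) (hf : H22.CuspLike ((w : ℤ) + 2) f)
    (hP'' : P'' ∈ H22.Pol ℤ w) (p : ℕ) (hp : p ≠ 0)
    (h : ∀ τ, P'' (ModularForm.heckeDiagMatrix p • τ) = (p : ℂ) ^ w * P τ) :
    H22.IsPrim (fun τ => H22.prim (f * P'') (ModularForm.heckeDiagMatrix p • τ))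
        ((f ∣[(w : ℤ) + 2] ModularForm.heckeDiagMatrix p) * P) ∧
      H22.VZero (fun τ => H22.prim (f * P'') (ModularForm.heckeDiagMatrix p • τ)) :=
  H22.prim_heckeDiagMatrix hf hP'' hp h

/-- **The periods of `U_p f` and of `f ∣ (p, 0; 0, 1)`** (every natural number `p ≠ 0`): for an integral
polynomial `P` of degree at most `w` and `g ∈ SL(2, ℤ)` there are functionals `L` and `L'` in the lattice of
periods such that, for every `f`, the primitive of `(U_p f) P` which vanishes at `i∞` tends to `L f` at `g ∞`,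
and the primitive of `(f ∣ (p, 0; 0, 1)) P` tends to `L' f`. (`H22Hecke`) -/
theorem exists_functional (N w : ℕ) [NeZero N] (p : ℕ) (hp : p ≠ 0) (P : ℍ → ℂ) (hP : P ∈ H22.Pol ℤ w)
    (g : SL(2, ℤ)) :
    (∃ L ∈ H22.M N w, ∀ f : CuspForm (Gamma0 N) ((w : ℤ) + 2),
      ∃ F : ℍ → ℂ, H22.IsPrim F (ModularForm.heckeU ((w : ℤ) + 2) p f * P) ∧ H22.VZero F ∧
        Tendsto (fun y : ℝ => F (g • ofComplex ((0 : ℝ) + y * Complex.I))) atTop (𝓝 (L f))) ∧
    ∃ L' ∈ H22.M N w, ∀ f : CuspForm (Gamma0 N) ((w : ℤ) + 2),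
      ∃ F : ℍ → ℂ, H22.IsPrim F (((f : ℍ → ℂ) ∣[(w : ℤ) + 2] ModularForm.heckeDiagMatrix p) * P) ∧
        H22.VZero F ∧
        Tendsto (fun y : ℝ => F (g • ofComplex ((0 : ℝ) + y * Complex.I))) atTop (𝓝 (L' f)) :=
  ⟨H22.exists_Lam_heckeU hp hP g, H22.exists_Lam_heckeDiag hp hP g⟩

/-- **The operator `U_q`**, for a divisor `q` of `N` (prime or not): its transpose preserves the lattice of
periods. (`H22Hecke`) -/
theorem lattice_comp_U (N w : ℕ) [NeZero N] (q : ℕ) (hq : q ≠ 0) (hqN : q ∣ N)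
    (L : CuspForm (Gamma0 N) ((w : ℤ) + 2) →ₗ[ℂ] ℂ) (hL : L ∈ H22.M N w) :
    L ∘ₗ CuspForm.heckeULin ((w : ℤ) + 2) hqN ∈ H22.M N w :=
  H22.M_comp_heckeULin hq hqN hL

/-- **The operator `T_p`**, for a prime `p ∤ N`: its transpose preserves the lattice of periods.
(`H22Hecke`) -/
theorem lattice_comp_T (N w : ℕ) [NeZero N] (p : ℕ) (hp : p.Prime) (hpN : ¬ p ∣ N)
    (L : CuspForm (Gamma0 N) ((w : ℤ) + 2) →ₗ[ℂ] ℂ) (hL : L ∈ H22.M N w) :
    L ∘ₗ CuspForm.heckeTLin ((w : ℤ) + 2) hp hpN ∈ H22.M N w :=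
  H22.M_comp_heckeTLin hp hpN hL

/-! ## 5. Separation: Eichler integrals -/

/-- `H22.SD h`: the function `h` is holomorphic and decays exponentially in strips (no condition at the other
cusps). (`H22Sep`) -/
theorem sd_iff (h : ℍ → ℂ) : H22.SD h ↔ MDiff h ∧ H22.SDecay h :=
  ⟨fun H => ⟨H.hol, H.dec⟩, fun H => ⟨H.1, H.2⟩⟩

/-- **The iterated integral** `H22.Eic n h`, by definition: `Eic 0 h` is the primitive of `h` which vanishes
at `i∞`, and `Eic (n + 1) h z = z Eic n h z - Eic n (u h) z`. (`H22Sep`) -/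
theorem eichler_def (h : ℍ → ℂ) (n : ℕ) (z : ℍ) :
    H22.Eic 0 h = H22.prim h ∧
      H22.Eic (n + 1) h z = (z : ℂ) * H22.Eic n h z - H22.Eic n (fun u => (u : ℂ) * h u) z :=
  ⟨rfl, rfl⟩

/-- `H22.Eic n h z` is the value at `z` of the primitive of `u ↦ (z - u)^n h(u)`, that is, the integral of
`(z - u)^n h(u) du` from `∞` to `z`. (`H22Sep`) -/
theorem eichler_eq (h : ℍ → ℂ) (n : ℕ) (hh : H22.SD h) (z : ℍ) :
    H22.Eic n h z = H22.prim (fun u : ℍ => ((z : ℂ) - u) ^ n * h u) z :=
  H22.Eic_eq n hh z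

/-- **Derivative**: `Eic (n + 1) h` is a primitive of `(n + 1) Eic n h`. Consequently `Eic n h = 0` implies
`h = 0`. (`H22Sep`) -/
theorem eichler_deriv (h : ℍ → ℂ) (n : ℕ) (hh : H22.SD h) :
    H22.IsPrim (H22.Eic (n + 1) h) (((n + 1 : ℕ) : ℂ) • H22.Eic n h) ∧
      (H22.Eic n h = 0 → h = 0) :=
  ⟨H22.isPrim_Eic n hh, H22.eq_zero_of_Eic n hh⟩

/-- **Integral formula** for the primitive which vanishes at `i∞`: `prim h z = - ∫ i h(z + i t) dt` over
`t > 0`. (`H22Sep`) -/
theorem primitive_eq_integral (h : ℍ → ℂ) (hh : H22.SD h) (z : ℍ) :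
    H22.prim h z = - ∫ t in Set.Ioi (0 : ℝ), Complex.I * h (ofComplex (z + t * Complex.I)) :=
  hh.prim_eq_integral z

/-- **Decay**: the iterated integrals of a function all of whose translates of weight `k` decay exponentially
tend to zero at `i∞`, uniformly in the real part; by the integral formula, where `(z - u)^n = (-i t)^n`.
(`H22Sep`) -/
theorem eichler_isZeroAtImInfty (k : ℤ) (f : ℍ → ℂ) (hf : H22.CuspLike k f) (n : ℕ) :
    IsZeroAtImInfty (H22.Eic n f) :=
  hf.isZeroAtImInfty_Eic n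

/-- **Vanishing of all periods**, `H22.NoPer w f`: for all complex polynomials of degree at most `w`. It is
enough to test with integral polynomials, because the powers of `τ` span. (`H22Sep`) -/
theorem noPeriods (w : ℕ) (f : ℍ → ℂ) (hf : H22.CuspLike ((w : ℤ) + 2) f) :
    (H22.NoPer w f ↔ ∀ P ∈ H22.Pol ℂ w, ∀ g : SL(2, ℤ), H22.Phi (f * P) g = 0) ∧
    ((∀ P ∈ H22.Pol ℤ w, ∀ g : SL(2, ℤ), H22.Phi (f * P) g = 0) → H22.NoPer w f) :=
  ⟨Iff.rfl, H22.noPer_of_int hf⟩

/-- **The kernel `(z - u)^w` is covariant**: for `a d - b c = 1`,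
`(g z - g u) (c u + d) = (c z + d)⁻¹ (z - u)`. (`H22Sep`) -/
theorem kernel_covariant (a b c d z u : ℂ) (hdet : a * d - b * c = 1) (hz : c * z + d ≠ 0)
    (hu : c * u + d ≠ 0) :
    ((a * z + b) / (c * z + d) - (a * u + b) / (c * u + d)) * (c * u + d) =
      (c * z + d)⁻¹ * (z - u) :=
  H22.moeb_sub a b c d z u hdet hz hu

/-- **The Eichler integral of a form without periods has weight `-w`**: `(Eic w f) ∣ g = Eic w (f ∣ g)` with
the weights `-w` and `w + 2`, for all `g ∈ SL(2, ℤ)`. The error would be the period from `∞` to `g ∞` of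
`f(u) (g z - u)^w`, which is zero. (`H22Sep`) -/
theorem eichler_slash (w : ℕ) (f : ℍ → ℂ) (hf : H22.CuspLike ((w : ℤ) + 2) f) (H : H22.NoPer w f)
    (g : SL(2, ℤ)) : H22.Eic w f ∣[-(w : ℤ)] g = H22.Eic w (f ∣[(w : ℤ) + 2] g) :=
  H22.Eic_slash hf H g

/-- So the Eichler integral of a cusp form `f` without periods is a cusp form of weight `-w` on `Γ₀(N)`.
(`H22Sep`) -/
theorem exists_eichler_form (N w : ℕ) [NeZero N] (f : CuspForm (Gamma0 N) ((w : ℤ) + 2))
    (H : H22.NoPer w f) : ∃ F : CuspForm (Gamma0 N) (-(w : ℤ)), (F : ℍ → ℂ) = H22.Eic w f :=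
  ⟨H22.eicForm f H, rfl⟩

/-- **Cusp forms of weight `k ≤ 0` are zero**: Mathlib knows that modular forms of negative weight vanish and
that those of weight zero are constant. (`H22Sep`) -/
theorem eq_zero_of_nonpos (N : ℕ) [NeZero N] (k : ℤ) (hk : k ≤ 0) (F : CuspForm (Gamma0 N) k) :
    (F : ℍ → ℂ) = 0 :=
  H22.eq_zero_of_weight_nonpos k hk F

/-! ## 6. The Hecke algebra is finite over `ℤ` -/

/-- **Small and odd weights**: there are no cusp forms except zero on `Γ₀(N)` in weight `k ≤ 0` and in odd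
weight (because `-1 ∈ Γ₀(N)`). (`S22`) -/
theorem cuspForm_subsingleton (N : ℕ) [NeZero N] (k : ℤ) (hk : k ≤ 0 ∨ Odd k) :
    Subsingleton (CuspForm (Gamma0 N) k) :=
  hk.elim H22.cuspForm_subsingleton_of_nonpos H22.cuspForm_subsingleton_of_odd

/-- If there are no cusp forms except zero, then the Hecke algebra is the zero ring, hence finite over `ℤ`.
(`S22`) -/
theorem finite_of_subsingleton (N : ℕ) [NeZero N] (k : ℤ) (S : Set ℕ)
    (h : Subsingleton (CuspForm (Gamma0 N) k)) : Module.Finite ℤ (CuspForm.heckeAlgebra N k S) :=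
  H22.moduleFinite_heckeAlgebra_of_subsingleton S h

/-- **Weight `w + 2`**: the Hecke algebra acts on the lattice of periods by transposition, faithfully: if
`t` kills the lattice, then all periods of `t f` vanish for every `f`, so `t f = 0`. Hence it embeds into the
endomorphisms of a finitely generated abelian group and is a finitely generated abelian group. (`S22`) -/
theorem finite_add_two (N : ℕ) [NeZero N] (w : ℕ) (S : Set ℕ) :
    Module.Finite ℤ (CuspForm.heckeAlgebra N ((w : ℤ) + 2) S) :=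
  H22.moduleFinite_heckeAlgebra_add_two w S

end Fermat.Agent.Guide.PeriodSteps
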