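import Fermat.Agent.S21
import Fermat.Agent.S22
import Fermat.Agent.H8ShimMain
import Fermat.Agent.H94NoEis

/-!
# Reader's guide: periods of cusp forms and the cohomology of `Γ₀(N)` (S21, S22)

This file contains no new mathematics. Every theorem below is proved by citing a theorem of the
library; the statements are written out, so that a reader can see what has been proved without
trusting the prose of NOTES.md (there: Appendix A.4, documents [181], [144]). Only `Guide` imports
it. The dimension formula S20, which is used here, is in `GuideModularForms`. Hecke operators on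
`Hom(Γ₀(N), A)` and the comparison with the torsion of `J₀(N)` are continued in `GuideBridge`. The
steps of the bounds for parabolic cohomology and of `lattice_free` are in `GuideParabolic`, the steps
of section 4 in `GuidePeriodSteps`; that Hecke algebras are reduced is shown in `GuidePetersson`.

## What the block does

The group cohomology of `Γ₀(N)` in degree one, that is the groups `Hom(Γ₀(N), A)` for abelian groups
`A`, replaces the homology of the modular curve in the whole proof. This block provides

* the Eichler-Shimura isomorphism for cusp forms of weight two, over `ℂ` (S21) and in a real form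
  (used in the closure of S01);
* the lattice of periods: the largest quotient of `Γ₀(N)` which is abelian and in which the elliptic
  and parabolic elements are trivial is free of rank `2 g`;
* the elementary bound `|a_q| < q + 1` for Hecke eigenvalues of weight two;
* in all weights: Hecke algebras are finite over `ℤ` (S22).

No Riemann surfaces, no Petersson product (only its integrand `|f|² y²`, at a maximum, in section 3)
and no contour integrals are used; the main tools are primitives of cusp forms on the upper half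
plane, the maximum principle, and the presentation of `SL(2, ℤ)`.

## Notation

`Additive (Gamma0 N)` is the group `Γ₀(N)` written additively, so `Additive (Gamma0 N) →+ A` is
`Hom(Γ₀(N), A)`. `periodMap N f : Additive (Gamma0 N) →+ ℂ` is the period homomorphism of `f`
(definition of the Prelude; see `exists_primitive`). The condition `trace ^ 2 = 4` describes the
parabolic elements and `± 1`, the condition `trace ^ 2 ≤ 4` also the elliptic elements.
`genusFormula N` is the number `1 + ψ(N)/12 - ν₂/4 - ν₃/3 - c/2`. For an integrable function `h` the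
notation `∫ h` in the docstrings means the integral of `h(τ) dτ`.
-/

set_option autoImplicit false

open UpperHalfPlane ModularForm MatrixGroups CongruenceSubgroup Module Filter
open ModularCurve
open scoped Manifold Topology

noncomputable section

namespace Fermat.Agent.Guide.Periods

/-! ## 1. Cusp forms of weight two: the Eichler-Shimura isomorphism -/

/-- Every holomorphic function on the upper half plane has a primitive (the half plane is convex).
Proved in `H21Prim`. -/
theorem exists_holomorphic_primitive (g : ℍ → ℂ) (hg : MDiff g) :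
    ∃ G : ℍ → ℂ, ∀ τ : ℍ, HasDerivAt (G ∘ ofComplex) (g τ) (τ : ℂ) :=
  H21.exists_isPrim hg

/-- A cusp form of weight two on `Γ₀(N)` decays exponentially at every cusp: for every
`δ ∈ SL(2, ℤ)` there is `c > 0` with `(f ∣ δ)(τ) = O(exp(-c Im τ))`. Proved in `H21Prim`. -/
theorem cuspForm_decay (N : ℕ) [NeZero N] (f : CuspForm (Gamma0 N) 2) (δ : SL(2, ℤ)) :
    ∃ c : ℝ, 0 < c ∧ ((f : ℍ → ℂ) ∣[(2 : ℤ)] δ) =O[atImInfty] fun τ => Real.exp (-c * τ.im) :=
  H21.slash_expDecay f δ

/-- **Primitives of cusp forms.** Every cusp form `f` of weight two on `Γ₀(N)` has a primitive `F` on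
the upper half plane which tends to `0` at `i∞` and has a limit at every cusp; the period of
`γ ∈ Γ₀(N)` is the constant `F(γ z) - F(z)`. Proved in `H21Prim` (the exponential decay gives the
limits). -/
theorem exists_primitive (N : ℕ) [NeZero N] (f : CuspForm (Gamma0 N) 2) :
    ∃ F : ℍ → ℂ, (∀ τ : ℍ, HasDerivAt (F ∘ ofComplex) (f τ) (τ : ℂ)) ∧ Tendsto F atImInfty (𝓝 0) ∧
      (∀ δ : SL(2, ℤ), ∃ L : ℂ, Tendsto (fun w : ℍ => F (δ • w)) atImInfty (𝓝 L)) ∧
      ∀ (γ : Gamma0 N) (z : ℍ),
        periodMap N f (Additive.ofMul γ) = F ((γ : SL(2, ℤ)) • z) - F z :=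
  ⟨H21.prim f, (H21.prim_spec f).1, (H21.prim_spec f).2.1, (H21.prim_spec f).2.2.2,
    H21.periodMap_apply f⟩

/-- **The period homomorphism**: for EVERY primitive `F` of `f` and every point `z` its value at `γ`
is `F(γ z) - F(z)` (there is no factor `2πi`). Proved in `H21Prim`. -/
theorem period_apply (N : ℕ) [NeZero N] (f : CuspForm (Gamma0 N) 2) (F : ℍ → ℂ)
    (hF : ∀ τ : ℍ, HasDerivAt (F ∘ ofComplex) (f τ) (τ : ℂ)) (γ : Gamma0 N) (z : ℍ) :
    periodMap N f (Additive.ofMul γ) = F ((γ : SL(2, ℤ)) • z) - F z := by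
  obtain ⟨c, hc⟩ := H21.IsPrim.exists_sub_const (H21.prim_isPrim f) hF
  linear_combination H21.periodMap_apply f γ z + hc ((γ : SL(2, ℤ)) • z) - hc z

/-- The period of a parabolic element (trace `2` or `-2`) is zero, because the primitive has a limit
at its cusp. Proved in `H21Prim`; used in S21 and in the real form below. -/
theorem period_of_parabolic (N : ℕ) [NeZero N] (f : CuspForm (Gamma0 N) 2) (γ : Gamma0 N)
    (hγ : ((γ : SL(2, ℤ)) : Matrix (Fin 2) (Fin 2) ℤ).trace ^ 2 = 4) :
    periodMap N f (Additive.ofMul γ) = 0 :=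
  H21.periodMap_mem_parabolicHoms f γ hγ

/-- **Maximum principle.** Let `G` be a primitive of `g` which has limits at all cusps and whose
differences `G(γ z) - G(z)`, `γ ∈ Γ₀(N)`, are purely imaginary constants. Then `g = 0`: the absolute
value of `exp G` is invariant under `Γ₀(N)` and extends continuously to the cusps, so it has a
maximum, and `exp G` is constant. This replaces the Petersson product. Proved in `H21Inj`; used for
the injectivity in S21 and in the real form (`H8ShimMain`). -/
theorem maximum_principle (N : ℕ) [NeZero N] (G g : ℍ → ℂ)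
    (hG : ∀ τ : ℍ, HasDerivAt (G ∘ ofComplex) (g τ) (τ : ℂ))
    (hinv : ∀ γ ∈ Gamma0 N, ∃ c : ℂ, c.re = 0 ∧ ∀ z, G (γ • z) - G z = c)
    (hlim : ∀ δ : SL(2, ℤ), ∃ L : ℂ, Tendsto (fun w : ℍ => G (δ • w)) atImInfty (𝓝 L)) : g = 0 :=
  H21.eq_zero_of_re_invariant hG hinv hlim

/-- The map of statement S21 written out: `periodHomPair N (f, g)` is
`(P_f + P_f ∘ c) + (P_g - P_g ∘ c)`, where `P_f` is the period homomorphism of `f` and `c` is
conjugation by `diag(1, -1)` on `Γ₀(N)`. Proved in `H21Prim`. -/
theorem periodHomPair_apply (N : ℕ) [NeZero N] (f g : CuspForm (Gamma0 N) 2)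
    (γ : Additive (Gamma0 N)) : periodHomPair N (f, g) γ =
      (periodMap N f γ + periodMap N f (Additive.ofMul (Period.jConjGamma0 N γ.toMul))) +
      (periodMap N g γ - periodMap N g (Additive.ofMul (Period.jConjGamma0 N γ.toMul))) := by
  rw [H21.periodHomPair_apply]; rfl

/-- The space `H77.fixS X g` of the complex functions on the set `X` which are invariant under `g`;
if `X` is finite, its dimension is the number of orbits of `g`. Defined in `H77Par`. -/
theorem mem_fixS (G X : Type) [Group G] [MulAction G X] (g : G) (v : X → ℂ) :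
    v ∈ H77.fixS X g ↔ ∀ x, v (g • x) = v x :=
  Iff.rfl

/-- **Upper bound for parabolic cohomology**, for every subgroup `Γ` of finite index which contains
`-1`. With `X = SL(2, ℤ) / Γ` the space of homomorphisms `Γ → ℂ` which kill the parabolic elements
(`parabolicHoms`) is finite dimensional, of dimension at most
`|X| + 2 - #(orbits of S) - #(orbits of S T) - #(orbits of T)`. Idea: a homomorphism is determined
by the values of its Shapiro cocycle at `S` and `S T`; these are in the kernels of the norms of `S`
and `S T`, and its value at `T` is in the kernel of the norm of `T`. Proved in `H77Par`; used in S21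
(and S41). (Another proof of such a bound, in `H50Parab`, is used for the genus of `X₀(N)`:
`genusFormula_natural` in `GuideModularCurves`.) -/
theorem parabolic_bound (Γ : Subgroup SL(2, ℤ)) [Finite (SL(2, ℤ) ⧸ Γ)]
    (hneg : (-1 : SL(2, ℤ)) ∈ Γ) :
    Module.Finite ℂ (Period.parabolicHoms ℂ Γ ℂ) ∧ finrank ℂ (Period.parabolicHoms ℂ Γ ℂ)
        + finrank ℂ (H77.fixS (SL(2, ℤ) ⧸ Γ) ModularGroup.S)
        + finrank ℂ (H77.fixS (SL(2, ℤ) ⧸ Γ) (ModularGroup.S * ModularGroup.T))
        + finrank ℂ (H77.fixS (SL(2, ℤ) ⧸ Γ) ModularGroup.T) ≤ Nat.card (SL(2, ℤ) ⧸ Γ) + 2 :=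
  H77.main_bound hneg

/-- The bound for `Γ₀(N)`: the space of parabolic homomorphisms has dimension at most `2 g`, where
`g = genusFormula N`. Proved in `H77ParGenus` from `parabolic_bound` and the numbers of orbits
(`genusFormula_natural` in `GuideModularCurves`); used in S21 (and S41). -/
theorem finrank_parabolicHoms_le (N : ℕ) [NeZero N] :
    (finrank ℂ (Period.parabolicHoms ℂ (Gamma0 N) ℂ) : ℚ) ≤ 2 * genusFormula N :=
  H77.finrank_parabolicHoms_le N

/-- **Eichler-Shimura (statement S21)**: the map `S₂(Γ₀(N)) × S₂(Γ₀(N)) → Hom(Γ₀(N), ℂ)` is injective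
and its image is the space of all homomorphisms which kill the parabolic elements. Proved in `S21`
from `maximum_principle`, `finrank_parabolicHoms_le` and the dimension formula S20 (equality of
dimensions). -/
theorem eichler_shimura (N : ℕ) [NeZero N] :
    Function.Injective (periodHomPair N) ∧ ∀ φ : Additive (Gamma0 N) →+ ℂ,
      φ ∈ LinearMap.range (periodHomPair N) ↔
        ∀ γ : Gamma0 N, ((γ : SL(2, ℤ)) : Matrix (Fin 2) (Fin 2) ℤ).trace ^ 2 = 4 →
          φ (Additive.ofMul γ) = 0 := by
  exact ⟨(S21.result N).1, fun φ => by rw [(S21.result N).2]; rfl⟩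

/-! ## 2. The real form and the lattice of periods

From here on the homomorphisms are required to kill the parabolic AND the elliptic elements
(`trace ^ 2 ≤ 4`). For coefficient fields of characteristic zero this is the same as before; for
`ℤ/2` and `ℤ/3` it is not. -/

/-- The space `H77.FieldGen.smallHoms Γ F` of the homomorphisms from `Γ` to the field `F` which kill
the parabolic and the elliptic elements. Defined in `H77ParField`. -/
theorem mem_smallHoms (Γ : Subgroup SL(2, ℤ)) (F : Type*) [Field F] (φ : Additive Γ →+ F) :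
    φ ∈ H77.FieldGen.smallHoms Γ F ↔
      ∀ γ : Γ, ((γ : SL(2, ℤ)) : Matrix (Fin 2) (Fin 2) ℤ).trace ^ 2 ≤ 4 →
        φ (Additive.ofMul γ) = 0 :=
  Iff.rfl

/-- **Upper bound over every field** (of any characteristic, `2` and `3` included): the homomorphisms
`Γ₀(N) → F` which kill the parabolic and the elliptic elements form a space of dimension at most
`2 g`. Again by Shapiro cocycles at the generators `S`, `S T` of `SL(2, ℤ)`; no generators of `Γ₀(N)`
are used. Proved in `H77ParField`, `H77ParFieldGenus`; used for `F = ℝ` and for all prime fields (next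
two theorems). -/
theorem finrank_smallHoms_le (F : Type*) [Field F] (N : ℕ) [NeZero N] :
    (finrank F (H77.FieldGen.smallHoms (Gamma0 N) F) : ℚ) ≤ 2 * genusFormula N :=
  H77.FieldGen.finrank_smallHoms_le F N

/-- **Eichler-Shimura over `ℝ`.** Every homomorphism `φ : Γ₀(N) → ℝ` which kills the parabolic and
the elliptic elements is the real part of the period homomorphism of exactly one cusp form of weight
two. Uniqueness is the maximum principle; existence is the equality of the real dimensions, by S20
and `finrank_smallHoms_le`. Proved in `H8ShimPeriod`, `H8ShimMain`; used in the closure of S01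
(`H59ES`, `H94NoEis`, `H94J9`, `H35Kill`, `H50J9B`, `H6MzThree`). -/
theorem real_eichler_shimura (N : ℕ) [NeZero N] (φ : Additive (Gamma0 N) →+ ℝ)
    (hφ : ∀ γ : Gamma0 N, ((γ : SL(2, ℤ)) : Matrix (Fin 2) (Fin 2) ℤ).trace ^ 2 ≤ 4 →
      φ (Additive.ofMul γ) = 0) :
    ∃! f : CuspForm (Gamma0 N) 2, Complex.reAddGroupHom.comp (periodMap N f) = φ := by
  obtain ⟨f, hf⟩ := (H8.realPeriod_surjective (H80.finrank_eq_genusFormula N)).1 ⟨φ, hφ⟩
  exact ⟨f, congrArg Subtype.val hf,
    fun g hg => H8.realPeriod_injective N (Subtype.ext (hg.trans (congrArg Subtype.val hf).symm))⟩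

/-- **The lattice of periods is free.** The quotient of the abelianisation of `Γ₀(N)` by the classes
of the elliptic and parabolic elements has no torsion: its homomorphisms to `ℝ` form a space of
dimension `2 g`, its homomorphisms to `ℤ/ℓ` one of dimension at most `2 g`, for every prime `ℓ`.
Hence every homomorphism `Γ₀(N) → ℤ/n` of the type considered lifts to `ℤ`. Proved in `H8ShimTF`,
`H8ShimMain`; used in the closure of S01 (`H94NoEis`, `H35Kill`, `H50J9B`: torsion of `J₀(N)` and
rings of Hecke operators). -/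
theorem lattice_free (N : ℕ) [NeZero N] : Module.Free ℤ
    (Additive (Abelianization (Gamma0 N) ⧸ Subgroup.closure (Abelianization.of ''
      {γ : Gamma0 N | ((γ : SL(2, ℤ)) : Matrix (Fin 2) (Fin 2) ℤ).trace ^ 2 ≤ 4}))) :=
  H8.lam_free_Gamma0 (H80.finrank_eq_genusFormula N)

/-! ## 3. A bound for Hecke eigenvalues

The Hecke operators on `Hom(Γ₀(N), A)` are the subject of `GuideBridge` (naturality, compatibility with
the period map and with torsion classes); here only the definition is written out. -/

/-- **The Hecke operator `T_ℓ` on `Hom(Γ₀(N), A)`** (`H4.heckeHom hℓN`), for a prime `ℓ ∤ N` and any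
abelian group `A`. The matrices `α_∞ = (ℓ, 0; 0, 1)` and `α_j = (1, j; 0, ℓ)`, `j ∈ ℤ/ℓ`, are
indexed by the projective line over `ℤ/ℓ`; for `γ ∈ Γ₀(N)` one has `α_x γ = δ_x α_{π(x)}` with a
permutation `π` and `δ_x ∈ Γ₀(N)`; and `(T_ℓ φ)(γ) = ∑ x, φ(δ_x)`. The period homomorphism of `T_ℓ f` is
`T_ℓ` of the one of `f` (`GuideBridge`). Defined in `H4Transfer`. -/
theorem hecke_operator (N ℓ : ℕ) [Fact ℓ.Prime] (hℓN : ¬ ℓ ∣ N) (A : Type*) [AddCommGroup A]
    (φ : Additive (Gamma0 N) →+ A) (γ : Gamma0 N) :
    ∃ (α : OnePoint (ZMod ℓ) → GL (Fin 2) ℝ) (π : Equiv.Perm (OnePoint (ZMod ℓ)))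
      (δ : OnePoint (ZMod ℓ) → Gamma0 N), α OnePoint.infty = heckeDiagMatrix ℓ ∧
      (∀ j : ZMod ℓ, α j = heckeMatrix ℓ j.val) ∧
      (∀ x, α x * Matrix.SpecialLinearGroup.mapGL ℝ (γ : SL(2, ℤ)) =
        Matrix.SpecialLinearGroup.mapGL ℝ (δ x : SL(2, ℤ)) * α (π x)) ∧
      H4.heckeHom hℓN φ (Additive.ofMul γ) = ∑ x, φ (Additive.ofMul (δ x)) :=
  ⟨H4.rep ℓ, H4.act (γ : SL(2, ℤ)), H4.coc hℓN γ, rfl, fun _ => rfl, H4.coc_spec hℓN γ, rfl⟩

/-- **An elementary bound for Hecke eigenvalues**: `|a| < q + 1` for every eigenvalue `a` of `T_q` on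
`S₂(Γ₀(N))`. Idea: the function `|f(τ)| Im τ` has a maximum; if `|a| ≥ q + 1`, all `q + 1` terms of
`T_q f` at such a point `τ` are maximal too, so the maximum is also attained at `q τ`, `q² τ`, …, but
the function tends to `0` at `i∞`. This is used instead of the Ramanujan bound `2 √q`.
Proved in `H61Bound`; used in the next theorem and (through corollaries) in `H41Raise` (S41). -/
theorem norm_eigenvalue_lt (N q : ℕ) (hq : q.Prime) (hqN : ¬ q ∣ N) (f : CuspForm (Gamma0 N) 2)
    (hf : f ≠ 0) (a : ℂ) (h : CuspForm.heckeTLin 2 hq hqN f = a • f) : ‖a‖ < q + 1 :=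
  H61.Bound.norm_eigenvalue_lt hq hqN f hf a h

/-- **There is no Eisenstein class**: if `φ : Γ₀(N) → ℝ` kills the parabolic and the elliptic elements
and `T_q φ = (1 + q) φ` for one prime `q ∤ N`, then `φ = 0`. Proved in `H94NoEis` from
`real_eichler_shimura` and `norm_eigenvalue_lt`; used for the torsion of `J₀(N)` in Mazur's theorem
(closures of S15, S12, S09, S03 and S01). -/
theorem no_eisenstein_class (N q : ℕ) [NeZero N] [Fact q.Prime] (hqN : ¬ q ∣ N)
    (φ : Additive (Gamma0 N) →+ ℝ)
    (hφ : ∀ γ : Gamma0 N, ((γ : SL(2, ℤ)) : Matrix (Fin 2) (Fin 2) ℤ).trace ^ 2 ≤ 4 →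
      φ (Additive.ofMul γ) = 0)
    (h : H4.heckeHom hqN φ = ((1 + q : ℕ) : ℝ) • φ) : φ = 0 :=
  H94.NE.eq_zero_of_heckeHom_eq hqN hφ h

/-! ## 4. All weights: Hecke algebras are finite over `ℤ`

The periods `∫ f(τ) P(τ) dτ` from `∞` to `g ∞` of a cusp form `f` of weight `w + 2`, with integral
polynomials `P` of degree at most `w`, are the values of a finitely generated group of linear
functionals. The files are `H22Prim`, `H22Pol`, `H22FG`, `H22Hecke`, `H22Sep`, `S22`; the steps of
the proofs are in `GuidePeriodSteps`. -/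

/-- `H22.Good h`: the function `h` is holomorphic and all its translates of weight two decay
exponentially at `i∞` in vertical strips. Example: `h = f P`, where `f` is a cusp form of weight
`w + 2` and `P` is a polynomial of degree at most `w`. Defined in `H22Prim`. -/
theorem good_iff (h : ℍ → ℂ) :
    H22.Good h ↔ MDiff h ∧ ∀ (g : SL(2, ℤ)) (R : ℝ), ∃ c > 0, ∃ C A : ℝ,
      ∀ τ : ℍ, |τ.re| ≤ R → A ≤ τ.im → ‖(h ∣[(2 : ℤ)] g) τ‖ ≤ C * Real.exp (-c * τ.im) :=
  ⟨fun H => ⟨H.hol, H.dec⟩, fun H => ⟨H.1, H.2⟩⟩

/-- **Primitives.** A good function `h` has exactly one primitive which tends to zero at `i∞` along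
every vertical line; it is called `H22.prim h`. Proved in `H22Prim`. -/
theorem existsUnique_primitive (h : ℍ → ℂ) (hh : H22.Good h) :
    ∃! F : ℍ → ℂ, (∀ τ : ℍ, HasDerivAt (F ∘ ofComplex) (h τ) (τ : ℂ)) ∧
      ∀ x : ℝ, Tendsto (fun y : ℝ => F (ofComplex (x + y * Complex.I))) atTop (𝓝 0) :=
  ⟨H22.prim h, ⟨hh.isPrim_prim, hh.vzero_prim⟩, fun _ hF => (H22.prim_eq hF.1 hF.2).symm⟩

/-- **The period** `H22.Phi h g`, the integral of `h(τ) dτ` from `∞` to `g ∞`, is the limit of the
primitive at the cusp `g ∞`; and periods are additive along paths `∞ → g ∞ → g g' ∞`. Proved in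
`H22Prim`. -/
theorem period_of_good (h : ℍ → ℂ) (hh : H22.Good h) (g g' : SL(2, ℤ)) (x : ℝ) :
    Tendsto (fun y : ℝ => H22.prim h (g • ofComplex (x + y * Complex.I))) atTop
      (𝓝 (H22.Phi h g)) ∧ H22.Phi h (g * g') = H22.Phi h g + H22.Phi (h ∣[(2 : ℤ)] g) g' :=
  ⟨hh.tendsto_phi g x, H22.Phi_mul hh g g'⟩

/-- **The lattice of periods** `H22.M N w`, a group of linear functionals on `S_{w+2}(Γ₀(N))`,
generated by the functionals `f ↦ Phi (f P) g` with `g ∈ SL(2, ℤ)` and integral polynomials `P` of
degree at most `w` (`H22.Pol ℤ w`). Defined in `H22FG`. -/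
theorem lattice_eq_span (N w : ℕ) [NeZero N] :
    H22.Pol ℤ w = Submodule.span ℤ {P : ℍ → ℂ | ∃ i ≤ w, P = fun τ : ℍ => (τ : ℂ) ^ i} ∧
    H22.M N w = Submodule.span ℤ {L : CuspForm (Gamma0 N) ((w : ℤ) + 2) →ₗ[ℂ] ℂ |
      ∃ (P : ℍ → ℂ) (_ : P ∈ H22.Pol ℤ w) (g : SL(2, ℤ)), ∀ f, L f = H22.Phi (f * P) g} :=
  ⟨rfl, congrArg (Submodule.span ℤ) (Set.ext fun L => exists_congr fun P => exists_congr fun hP =>
    exists_congr fun g => by simp [LinearMap.ext_iff, H22.Lam_apply])⟩

/-- **Finiteness**: the lattice of periods is finitely generated, because `SL(2, ℤ)` is generated by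
`S` and `T`, the period from `∞` to `T ∞ = ∞` is zero, and `Γ₀(N) \ SL(2, ℤ)` is finite. Proved in
`H22FG`. -/
theorem lattice_fg (N w : ℕ) [NeZero N] : (H22.M N w).FG :=
  H22.M_fg N w

/-- **Stability**: the lattice of periods is stable under the transposes of all Hecke operators,
because `δ g = g' B` with `g' ∈ SL(2, ℤ)` and `B` upper triangular, for every integral matrix `δ` of
positive determinant. Proved in `H22Hecke`. -/
theorem lattice_stable (N w : ℕ) [NeZero N] (S : Set ℕ)
    (t : Module.End ℂ (CuspForm (Gamma0 N) ((w : ℤ) + 2)))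
    (ht : t ∈ CuspForm.heckeAlgebra N ((w : ℤ) + 2) S)
    (L : CuspForm (Gamma0 N) ((w : ℤ) + 2) →ₗ[ℂ] ℂ) (hL : L ∈ H22.M N w) :
    L ∘ₗ t ∈ H22.M N w :=
  H22.M_comp_heckeAlgebra ht hL

/-- **Separation**: a cusp form all of whose periods vanish is zero. Idea: its Eichler integral
`∫ (z - u)^w f(u) du` from `∞` to `z` is a cusp form of weight `-w ≤ 0`, hence zero, and `f` is its
derivative of order `w + 1` up to a constant factor. Proved in `H22Sep`. -/
theorem eq_zero_of_periods (N w : ℕ) [NeZero N] (f : CuspForm (Gamma0 N) ((w : ℤ) + 2))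
    (hf : ∀ P ∈ H22.Pol ℤ w, ∀ g : SL(2, ℤ), H22.Phi ((f : ℍ → ℂ) * P) g = 0) : f = 0 :=
  H22.eq_zero_of_noPer f (H22.noPer_of_int (H22.cuspLike_of_cuspForm f) hf)

/-- **Hecke algebras are finite over `ℤ` (statement S22)**: for every level, weight and set `S` of
primes the ring generated by the operators `T_ℓ` (`ℓ ∤ N`) and `U_q` (`q ∣ N`) with index outside
`S` on `S_k(Γ₀(N))` is a finitely generated `ℤ`-module: for `k = w + 2` it embeds into the
endomorphisms of the lattice of periods, for `k ≤ 1` the space is zero. Proved in `S22`; used in the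
closure of S01 (`H33Reduce`, `H34LTOld`, `H39Real2`, `H46LTEnd`, `H54MzD`, `H65TQ2`, `H70Reduced`,
`H87S58`, `H96S29`). A second proof, from S23, is `H23.moduleFinite_heckeAlgebra` (used in `H35Mult`,
`H35E1`, `H61TB`, `H61L5A`). -/
theorem finite_heckeAlgebra (N : ℕ) [NeZero N] (k : ℤ) (S : Set ℕ) :
    Module.Finite ℤ (CuspForm.heckeAlgebra N k S) :=
  S22.result N k S

end Fermat.Agent.Guide.Periods
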