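import Fermat.Agent.H70Reduced

/-!
# Guide: the Petersson product and the reducedness of Hecke algebras

Statements served: S33, S38, S43, S50, S59, S60 (and S09, S12, S15), through them S01, S03, S04, S06, S45,
S46 (the semisimplicity of the operators and the nonnegativity in `product_definite` only for S38, S50,
S59, S60 and, through them, S01, S03, S04, S06, S45, S46; the coefficient rings at the end of section 5
not for S33, S09, S12, S15).

The result is that the Hecke algebra of `S_k(Γ₀(N))` generated by the `T_ℓ` with `ℓ ∤ N` is reduced, more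
precisely that all its elements are semisimple operators, and that the coefficient rings generated by it
(the rings `T` of the modularity lifting theorems) are reduced. Mathlib has the function
`petersson k f f' = conj(f) f' y^k` and its transformation law, but no fundamental domains for subgroups
and no product. The proof here avoids fundamental domains. Reading order:

1. weights: a weight for a countable group `Γ` acting on a measure space is a function `φ ≥ 0` of finite
   integral whose translates have sum `1`; the integral of `F φ` for `Γ`-invariant `F` does not depend on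
   `φ`; weights exist for arithmetic subgroups of `GL₂(ℝ)` acting on the upper half plane
   (`H70PetWeight`, `H70PetSL`);
2. the average `petAvg F` of a function invariant under *some* arithmetic subgroup, normalised by
   `petAvg 1 = 1`. It does not depend on the subgroup and is therefore invariant under all of `GL₂(ℚ)`
   (`H70PetInt`, `H70PetForm`);
3. the product `pip k f g = petAvg (petersson k f g)` on functions which behave like cusp forms for
   some arithmetic group (`PForm k`): it is positive definite, and slashing by a rational matrix `α` is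
   adjoint to slashing by `α⁻¹` up to a power of the determinant (`H70PetForm`);
4. `T_p` is self-adjoint for `p ∤ N`: all its matrices lie in one double coset of `Γ₀(N)`
   (`H70PetHecke`);
5. consequences for Hecke algebras (`H70PetSpace`, `H70Reduced`).

The finiteness of the Hecke algebra over `ℤ` is S22 (`GuidePeriods`). Notation: `CuspForm (Gamma0 N) k`,
`heckeT`, `heckeTLin`, `heckeAlgebra N k S` (generated by the `T_ℓ`, `ℓ ∤ N`, `ℓ ∉ S`, and the `U_q`,
`q ∣ N`, `q ∉ S`) are those of `GuideNotionsForms`. `IsRatGL α` says that `α ∈ GL₂(ℝ)` has rational entries.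
Notes: NOTES.md, Appendix A.7, [201] (section "Other library parts"). Author of the files: helper70.
-/

set_option autoImplicit false

open MeasureTheory UpperHalfPlane ModularGroup ModularForm
open scoped ENNReal Pointwise MatrixGroups Modular ModularForm ComplexConjugate

namespace Fermat.Agent.Guide.Petersson

open Fermat.Agent.H70

/-! ## 1. Weights -/

/-- **Weights.** `IsWeight μ Γ φ` says: `φ : X → [0, ∞]` is measurable, the sum of its translates
`φ(γ x)`, `γ ∈ Γ`, is `1` at every point, and its integral is finite. A measurable set `D` of finite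
volume with exactly one point of every orbit would give a weight (`1 / #Γ_x` at the points `x` of `D`,
if the stabilisers `Γ_x` are finite, and `0` elsewhere); weights are easier to construct. -/
theorem isWeight_iff {G X : Type*} [Group G] [MulAction G X] [MeasurableSpace X] {μ : Measure X}
    {Γ : Subgroup G} {φ : X → ℝ≥0∞} :
    IsWeight μ Γ φ ↔
      Measurable φ ∧ (∀ x, ∑' γ : Γ, φ ((γ : G) • x) = 1) ∧ ∫⁻ x, φ x ∂μ ≠ ∞ :=
  ⟨fun h => ⟨h.meas, h.tsum_eq, h.lintegral_ne_top⟩, fun h => ⟨h.1, h.2.1, h.2.2⟩⟩

/-- **Independence of the weight**: two weights of a countable group of measure preserving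
transformations give the same integral of an invariant measurable function (`H70PetWeight`; insert
`1 = ∑ ψ(γ x)`, exchange, substitute). -/
theorem integral_eq_of_weights {G X : Type*} [Group G] [MulAction G X] [MeasurableSpace X]
    {μ : Measure X} [MeasurableConstSMul G X] [SMulInvariantMeasure G X μ] {Γ : Subgroup G}
    [Countable Γ] {φ ψ : X → ℝ≥0∞} (hφ : IsWeight μ Γ φ) (hψ : IsWeight μ Γ ψ) {F : X → ℂ}
    (hF : Measurable F) (hinv : ∀ γ ∈ Γ, ∀ x, F (γ • x) = F x) :
    ∫ x, F x ∂(μ.withDensity φ) = ∫ x, F x ∂(μ.withDensity ψ) :=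
  hφ.integral_withDensity_eq hψ hF hinv

/-- **Larger groups**: a weight for a subgroup `H` of finite index in `Γ`, divided by the index, is a
weight for `Γ` (`H70PetWeight`). -/
theorem weight_of_subgroup {G X : Type*} [Group G] [MulAction G X] [MeasurableSpace X]
    {μ : Measure X} {H Γ : Subgroup G} (hle : H ≤ Γ) [(H.subgroupOf Γ).FiniteIndex] {φ : X → ℝ≥0∞}
    (hφ : IsWeight μ H φ) : IsWeight μ Γ (fun x => ((H.subgroupOf Γ).index : ℝ≥0∞)⁻¹ * φ x) :=
  hφ.up hle

/-- **Smaller groups**: the sum of the translates of a weight for `Γ` by representatives of `Γ / H` is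
a weight for a subgroup `H` of finite index (`H70PetWeight`). -/
theorem weight_of_overgroup {G X : Type*} [Group G] [MulAction G X] [MeasurableSpace X]
    {μ : Measure X} [MeasurableConstSMul G X] [SMulInvariantMeasure G X μ] {H Γ : Subgroup G}
    (hle : H ≤ Γ) [(H.subgroupOf Γ).FiniteIndex] {φ : X → ℝ≥0∞} (hφ : IsWeight μ Γ φ) :
    IsWeight μ H (fun x => ∑' q : Γ ⧸ (H.subgroupOf Γ), φ ((q.out : G) • x)) :=
  hφ.down hle

/-- **A weight for `SL(2, ℤ)`** (its image `𝒮ℒ` in `GL₂(ℝ)`, acting on the upper half plane with the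
hyperbolic measure): the indicator function of the closed standard domain `𝒟`, divided by
`fdCount τ = #{γ ∈ SL(2, ℤ) | γ τ ∈ 𝒟}`. This number is finite and not zero, and `𝒟` has finite volume
(`H70PetSL`). No statement about the boundary of `𝒟` is needed. -/
theorem weight_SL2Z : IsWeight (volume : Measure ℍ) (𝒮ℒ : Subgroup (GL (Fin 2) ℝ))
    (fun τ => (fdCount τ)⁻¹ * (𝒟 : Set ℍ).indicator 1 τ) :=
  isWeight_SL

/-- **Every arithmetic subgroup of `GL₂(ℝ)` has a weight** (`H70PetSL`; the intersection with
`SL(2, ℤ)` has finite index in both groups). -/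
theorem exists_weight (Γ : Subgroup (GL (Fin 2) ℝ)) [Γ.IsArithmetic] :
    ∃ φ, IsWeight (volume : Measure ℍ) Γ φ :=
  exists_isWeight Γ

/-! ## 2. Averages -/

/-- **The average `petAvg F`** of a measurable function `F` invariant under an arithmetic subgroup `Γ` is
the quotient of the integrals of `F φ` and of `φ`, for any weight `φ` of `Γ`; it does not depend on
the pair `(Γ, φ)` (`H70PetInt`; two subgroups are compared with their intersection). -/
theorem average_eq {Γ : Subgroup (GL (Fin 2) ℝ)} [Γ.IsArithmetic] {φ : ℍ → ℝ≥0∞}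
    (hφ : IsWeight (volume : Measure ℍ) Γ φ) {F : ℍ → ℂ} (hF : Measurable F)
    (hinv : ∀ γ ∈ Γ, ∀ x, F (γ • x) = F x) :
    petAvg F = (∫ x, F x ∂((volume : Measure ℍ).withDensity φ)) / ((∫⁻ x, φ x).toReal : ℂ) :=
  petAvg_eq hφ hF hinv

/-- **Invariance of the average under `GL₂(ℚ)`**: `petAvg (F ∘ α) = petAvg F`, although `α` does not
normalise any of the groups (`H70PetForm`: `F ∘ α` is invariant under `α⁻¹ Γ α`, which is again
arithmetic). `IsAmb F` says that `F` is measurable and invariant under some arithmetic subgroup. -/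
theorem average_translate {F : ℍ → ℂ} (hF : IsAmb F) {α : GL (Fin 2) ℝ} (hα : IsRatGL α) :
    petAvg (fun τ => F (α • τ)) = petAvg F :=
  petAvg_comp_smul hF hα

/-- **Positivity of the average**: a bounded continuous `F` with `Re F ≥ 0` and `Re (petAvg F) = 0` has
real part zero everywhere (`H70PetForm`; `IsAmbB` means `IsAmb` and bounded). -/
theorem average_definite {F : ℍ → ℂ} (hF : IsAmbB F) (hc : Continuous F) (h0 : ∀ τ, 0 ≤ (F τ).re)
    (hz : (petAvg F).re = 0) (τ : ℍ) : (F τ).re = 0 :=
  eq_zero_of_petAvg_re_eq_zero hF hc h0 hz τ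

/-! ## 3. The product -/

/-- **The class of functions `PForm k`**: continuous functions `f` on the upper half plane which are
invariant of weight `k` under some arithmetic subgroup of determinant one and for which
`|f(τ)|² Im(τ)^k` is bounded. -/
theorem pForm_iff {k : ℤ} {f : ℍ → ℂ} : PForm k f ↔ Continuous f ∧
    (∃ Γ : Subgroup (GL (Fin 2) ℝ), Γ.IsArithmetic ∧ Γ.HasDetOne ∧ ∀ γ ∈ Γ, f ∣[k] γ = f) ∧
    ∃ C : ℝ, ∀ τ, ‖f τ‖ ^ 2 * τ.im ^ k ≤ C :=
  ⟨fun h => ⟨h.cont, h.inv, h.bdd⟩, fun h => ⟨h.1, h.2.1, h.2.2⟩⟩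

/-- **Cusp forms belong to this class** (`H70PetForm`; boundedness is in Mathlib), and it is stable
under slashing by rational matrices of positive determinant. -/
theorem pForm_of_cuspForm {k : ℤ} {Γ : Subgroup (GL (Fin 2) ℝ)} [Γ.IsArithmetic] [Γ.HasDetOne]
    (f : CuspForm Γ k) {α : GL (Fin 2) ℝ} (hr : IsRatGL α) (hα : 0 < α.det.val) :
    PForm k f ∧ PForm k (f ∣[k] α) :=
  ⟨pform_of_cuspForm f, (pform_of_cuspForm f).slash hr hα⟩

/-- **The product `pip k f g = petAvg (conj f · g · y^k)` is a hermitian form** (conjugate linear in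
the first variable; `H70PetForm`). -/
theorem product_hermitian {k : ℤ} {f g g' : ℍ → ℂ} (hf : PForm k f) (hg : PForm k g)
    (hg' : PForm k g') (c : ℂ) :
    pip k f g = petAvg (petersson k f g) ∧ pip k f (g + g') = pip k f g + pip k f g' ∧
      pip k f (c • g) = c * pip k f g ∧ conj (pip k f g) = pip k g f :=
  ⟨rfl, pip_add_right hf hg hg', pip_smul_right hf hg c, pip_conj hf hg⟩

/-- **The product is positive definite** (`H70PetForm`). -/
theorem product_definite {k : ℤ} {f : ℍ → ℂ} (hf : PForm k f) :
    0 ≤ (pip k f f).re ∧ ((pip k f f).re = 0 → f = 0) :=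
  ⟨pip_self_re_nonneg hf, eq_zero_of_pip_self hf⟩

/-- **Slashing by a rational matrix `α`** of positive determinant multiplies the product by
`det(α)^(k-2)` (`H70PetForm`, from `average_translate`). -/
theorem product_slash {k : ℤ} {f g : ℍ → ℂ} (hf : PForm k f) (hg : PForm k g) {α : GL (Fin 2) ℝ}
    (hr : IsRatGL α) (hα : 0 < α.det.val) :
    pip k (f ∣[k] α) (g ∣[k] α) = (α.det.val : ℂ) ^ (k - 2) * pip k f g :=
  pip_slash hf hg hr hα

/-- **The adjoint of slashing by `α`** is slashing by `α⁻¹`, up to the factor `det(α)^(k-2)`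
(`H70PetForm`). -/
theorem product_slash_left {k : ℤ} {f g : ℍ → ℂ} (hf : PForm k f) (hg : PForm k g)
    {α : GL (Fin 2) ℝ} (hr : IsRatGL α) (hα : 0 < α.det.val) :
    pip k (f ∣[k] α) g = (α.det.val : ℂ) ^ (k - 2) * pip k f (g ∣[k] α⁻¹) :=
  pip_slash_left hf hg hr hα

/-! ## 4. Hecke operators are self-adjoint -/

/-- **Double cosets**: for `f`, `g` invariant under `Γ₀(N)` the product of `f|γ₁ α γ₂` and `g`,
`γ₁, γ₂ ∈ Γ₀(N)`, depends on `α` only (`H70PetHecke`). -/
theorem product_double_coset {N : ℕ} {k : ℤ} {f g : ℍ → ℂ} (hf : PForm k f) (hg : PForm k g)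
    (hfi : ∀ γ ∈ (CongruenceSubgroup.Gamma0 N : Subgroup (GL (Fin 2) ℝ)), f ∣[k] γ = f)
    (hgi : ∀ γ ∈ (CongruenceSubgroup.Gamma0 N : Subgroup (GL (Fin 2) ℝ)), g ∣[k] γ = g)
    {α γ₁ γ₂ : GL (Fin 2) ℝ} (hr : IsRatGL α) (hα : 0 < α.det.val)
    (h₁ : γ₁ ∈ (CongruenceSubgroup.Gamma0 N : Subgroup (GL (Fin 2) ℝ)))
    (h₂ : γ₂ ∈ (CongruenceSubgroup.Gamma0 N : Subgroup (GL (Fin 2) ℝ))) :
    pip k (f ∣[k] (γ₁ * α * γ₂)) g = pip k (f ∣[k] α) g :=
  pip_slash_doubleCoset hf hg hfi hgi hr hα h₁ h₂

/-- **The `p + 1` matrices of `T_p` lie in one double coset** for `p ∤ N`: `(1 j; 0 p)` and `(p 0; 0 1)`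
are in `Γ₀(N) (1 0; 0 p) Γ₀(N)` (`H70PetHecke`; the second by Bézout for `p` and `N`). -/
theorem hecke_matrices {p : ℕ} (hp : p.Prime) (j : ℕ) {N : ℕ} (hpN : ¬ p ∣ N) :
    (∃ γ₂ ∈ (CongruenceSubgroup.Gamma0 N : Subgroup (GL (Fin 2) ℝ)),
      heckeMatrix p j = 1 * heckeMatrix p 0 * γ₂) ∧
    ∃ γ₁ ∈ (CongruenceSubgroup.Gamma0 N : Subgroup (GL (Fin 2) ℝ)),
    ∃ γ₂ ∈ (CongruenceSubgroup.Gamma0 N : Subgroup (GL (Fin 2) ℝ)),
      heckeDiagMatrix p = γ₁ * heckeMatrix p 0 * γ₂ :=
  ⟨exists_decomp_heckeMatrix hp.ne_zero j N, exists_decomp_heckeDiagMatrix hp hpN⟩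

/-- **`T_p` is self-adjoint** for `p ∤ N` on functions invariant under `Γ₀(N)`, in every weight `k`
(`H70PetHecke`): the product of `T_p f` and `g` is `p + 1` times the one of `f|(1 0; 0 p)` and `g`, the
adjoint of this matrix is `(p 0; 0 1)` (the factor `p^(k-2)` of `product_slash_left` is compensated by the
scalar matrix `p`), and both are in the same double coset. -/
theorem heckeT_self_adjoint {N : ℕ} {k : ℤ} {p : ℕ} {f g : ℍ → ℂ} (hf : PForm k f)
    (hg : PForm k g)
    (hfi : ∀ γ ∈ (CongruenceSubgroup.Gamma0 N : Subgroup (GL (Fin 2) ℝ)), f ∣[k] γ = f)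
    (hgi : ∀ γ ∈ (CongruenceSubgroup.Gamma0 N : Subgroup (GL (Fin 2) ℝ)), g ∣[k] γ = g)
    (hp : p.Prime) (hpN : ¬ p ∣ N) : pip k (heckeT k p f) g = pip k f (heckeT k p g) :=
  pip_heckeT_symm hf hg hfi hgi hp hpN

/-! ## 5. Hecke algebras -/

/-- **Every element of the Hecke algebra away from the level is self-adjoint** (`H70PetSpace`); `S`
contains the primes dividing `N`, so that there are no operators `U_q`. -/
theorem hecke_algebra_self_adjoint {N : ℕ} [NeZero N] {k : ℤ} {S : Set ℕ}
    (hS : ∀ q : ℕ, q.Prime → q ∣ N → q ∈ S)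
    {t : Module.End ℂ (CuspForm (CongruenceSubgroup.Gamma0 N) k)}
    (ht : t ∈ CuspForm.heckeAlgebra N k S) (f g : CuspForm (CongruenceSubgroup.Gamma0 N) k) :
    pip k (t f) g = pip k f (t g) :=
  pip_symm_of_mem_heckeAlgebra hS ht f g

/-- **Every element of the Hecke algebra away from the level is a semisimple operator** on
`S_k(Γ₀(N))` (`H70PetSpace`; a symmetric operator of a finite dimensional hermitian space). -/
theorem hecke_operator_semisimple {N : ℕ} [NeZero N] {k : ℤ} {S : Set ℕ}
    (hS : ∀ q : ℕ, q.Prime → q ∣ N → q ∈ S)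
    {t : Module.End ℂ (CuspForm (CongruenceSubgroup.Gamma0 N) k)}
    (ht : t ∈ CuspForm.heckeAlgebra N k S) : t.IsSemisimple :=
  isSemisimple_of_mem_heckeAlgebra hS ht

/-- **The Hecke algebra away from the level is reduced** (`H70PetSpace`): if `t² = 0`, the product of
`t f` with itself is the one of `f` and `t² f`, which is zero. -/
theorem hecke_algebra_reduced {N : ℕ} [NeZero N] {k : ℤ} {S : Set ℕ}
    (hS : ∀ q : ℕ, q.Prime → q ∣ N → q ∈ S) : IsReduced (CuspForm.heckeAlgebra N k S) :=
  isReduced_heckeAlgebra hS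

/-- **An algebra generated by a reduced ring is reduced**: let `R` be reduced and integral over `ℤ`, and
`B` a finite dimensional algebra over a field `K` of characteristic zero generated by the image of `R`.
Then `B` is reduced (`H70Reduced`). Proof: an element of `R` is a zero of a monic integral polynomial
with distinct complex zeros (the squarefree part of an integral relation, because `R` is reduced), so
its image is a semisimple operator on `B`; sums and products of commuting semisimple operators in
characteristic zero are semisimple. -/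
theorem reduced_of_generated_field {R : Type*} [CommRing R] [IsReduced R] [Algebra.IsIntegral ℤ R]
    {K : Type*} [Field K] [CharZero K] {B : Type*} [CommRing B] [Algebra K B]
    [FiniteDimensional K B] (π : R →+* B) (hπ : Algebra.adjoin K (Set.range π) = ⊤) :
    IsReduced B :=
  isReduced_of_adjoin_field π hπ

/-- **Coefficient rings**: an algebra `T`, finite and free over a domain `𝒪` of characteristic zero
and generated by the image of a reduced ring integral over `ℤ`, is reduced (`H70Reduced`). -/
theorem reduced_of_generated {R : Type*} [CommRing R] [IsReduced R] [Algebra.IsIntegral ℤ R]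
    {𝒪 : Type*} [CommRing 𝒪] [IsDomain 𝒪] [CharZero 𝒪] {T : Type*} [CommRing T] [Algebra 𝒪 T]
    [Module.Finite 𝒪 T] [Module.Free 𝒪 T] (π : R →+* T)
    (hπ : Algebra.adjoin 𝒪 (Set.range π) = ⊤) : IsReduced T :=
  isReduced_of_adjoin π hπ

/-- **The coefficient ring `T` of a Hecke-Galois datum is reduced**, if it is generated over `𝒪` by the
Hecke algebra away from the level (`H70Reduced`; with S22). Used for the Hecke side of the levels
(`H70Lev10`, `H21MChain`, `H30Datum`), where an operator is shown to be zero on eigenvectors only; for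
the local Hecke algebra this is `GuideHeckeRings.heckeLocal_isReduced`. -/
theorem reduced_of_heckeAlgebra {N : ℕ} [NeZero N] {k : ℤ} {S : Set ℕ}
    (hNS : ∀ q : ℕ, q.Prime → q ∣ N → q ∈ S) {𝒪 : Type*} [CommRing 𝒪] [IsDomain 𝒪] [CharZero 𝒪]
    {T : Type*} [CommRing T] [Algebra 𝒪 T] [Module.Finite 𝒪 T] [Module.Free 𝒪 T]
    (π : CuspForm.heckeAlgebra N k S →+* T) (hπ : Algebra.adjoin 𝒪 (Set.range π) = ⊤) :
    IsReduced T :=
  isReduced_of_adjoin_heckeAlgebra hNS π hπ

end Fermat.Agent.Guide.Petersson
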