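import Fermat.Agent.H13ZA

set_option autoImplicit false

/-!
# Reader's guide: block (D) of S47, Poisson summation for the theta kernel

**What this file is.**  Supplement to `GuideOctDTheta`, where Poisson summation appears in its final form
(`GuideOctDTheta.poisson`); here is the way to this form.  Every theorem is *proved by citing the library*
(at most three lines); no other module imports this file.

**Statement served.**  S47, block (D), and only this one.

**What is proved.**  Let `B/E` be a quadratic extension of totally complex number fields, `τ` its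
conjugation, `J` the set of infinite places of `E`, so `[B : ℚ] = 4 |J|`.  The theta kernel is a sum over
`x ∈ B` of `φ(x) g(x)`, where `g` is a Gaussian function on `B ⊗ ℝ = (ℂ × ℂ)^J` and `φ` is locally constant
at the finite places.  Poisson summation: the sum does not change if both factors are replaced by their
Fourier transforms.  The Gaussian functions belong to the points `w` of the product `H3^J` of hyperbolic
spaces; the Fourier transform maps `w` to `w₀ w` (`theta_inversion`), and the translation `n(β)` multiplies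
`φ` by the quadratic character `e(Tr (β N x))` (`theta_translation`, `quadratic_form`).  Now let
`n̄(c) = (1 0; c 1)`, so `w₀ n̄(c) = n(-c) w₀`, and write `θ(φ, w)` for the series and `φ^` for the Fourier
transform.  If `φ^(x) = e(-Tr (c N x)) φ₁^(x)` then, by inversion, translation, the hypothesis and
inversion,
`θ(φ₁, n̄(c) w) = θ(φ₁^, w₀ n̄(c) w) = θ(φ₁^, n(-c) w₀ w) = θ(e(-Tr (c N x)) φ₁^, w₀ w)`
`= θ(φ^, w₀ w) = θ(φ, w)`.  This is `GuideOctDTheta.poisson`.

**The steps.**  Mathlib has Fourier series on the torus `(ℝ/ℤ)^d`; from there: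
* Poisson summation on `ℝ^d`: Fourier coefficients of the periodised function (section 1); any lattice in
  any finite dimensional space, with the dual lattice for a bilinear form (section 2);
* the Gaussian integral: the Fourier transform of the Gaussian function of a point of the hyperbolic space
  is the Gaussian function of the inverted point, up to the factor `1/4` for each place (section 3);
* functions at the finite places without adeles: functions on a rational vector space `V` with a lattice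
  `Λ` which have a level `m`, i.e. support in `m⁻¹ Λ` and period `m Λ`.  They are combinations of indicator
  functions of cosets `q + m Λ`, so that everything reduces to Poisson summation for `m Λ` (section 4);
* theta series of such functions (section 5); the case `V = B`, `Λ = 𝓞_B` with the trace form (section 6).
The Fourier transform of the function `φ` of the theta kernel is computed in `GuideThetaFinite`.

**Reading order.**  `H13Z1`, ..., `H13Z9`, `H13ZA`; before `H13Z5` also `H66DSch`.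
**Prose.**  NOTES.md, note [408].

**Conventions.**  `e(r) = exp(2πi r)` for real `r`; in the library it is `H13Z.er r`.  `H3` is the
hyperbolic space of the points `(z, y)`, `z ∈ ℂ`, `y > 0`, with its action of `GL₂(ℂ)`.  There are no
hidden hypotheses.
-/

namespace Fermat.Agent.Guide.Poisson

open MeasureTheory NumberField IsDedekindDomain WithZero
open Fermat.Agent

/-! ## 1. Poisson summation on `ℝ^d` -/

/-- **The periodised function.**  Let `f` be continuous on `ℝ^d` with `|f(x)| ≤ C ∏ (1 + x_i²)⁻¹`.  Then the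
sum of `f (x + n)` over `n ∈ ℤ^d` converges, and it is continuous in `x`.  (From
`(1 + (x + n)²)⁻¹ ≤ 2 (1 + x²) (1 + n²)⁻¹`.)  Module `H13Z1`. -/
theorem periodisation {d : Type*} [Fintype d] (f : (d → ℝ) → ℂ) (hc : Continuous f) (C : ℝ)
    (hf : ∀ x, ‖f x‖ ≤ C * ∏ i, (1 + x i ^ 2)⁻¹) :
    (∀ x : d → ℝ, Summable fun n : d → ℤ => f (x + fun i => (n i : ℝ))) ∧
      Continuous fun x => ∑' n : d → ℤ, f (x + fun i => (n i : ℝ)) :=
  ⟨H13Z.Dec.summable ⟨C, hf⟩, H13Z.continuous_per hc ⟨C, hf⟩⟩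

/-- **Its Fourier coefficients.**  The periodised function is a continuous function `F` on the torus
`(ℝ/ℤ)^d`, and its Fourier coefficients are the values of the Fourier transform of `f` at the points of
`ℤ^d`.  (`ℝ^d` is the union of the translates of the unit cube.)  Module `H13Z1`. -/
theorem fourier_coefficients {d : Type*} [Fintype d] (f : (d → ℝ) → ℂ) (hc : Continuous f) (C : ℝ)
    (hf : ∀ x, ‖f x‖ ≤ C * ∏ i, (1 + x i ^ 2)⁻¹) :
    ∃ F : C(UnitAddTorus d, ℂ),
      (∀ x : d → ℝ, F (fun i => (x i : UnitAddCircle)) = ∑' n : d → ℤ, f (x + fun i => (n i : ℝ))) ∧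
      ∀ m : d → ℤ, UnitAddTorus.mFourierCoeff F m = ∫ x : d → ℝ,
        Complex.exp (2 * Real.pi * Complex.I * ((∑ i, (((-m) i : ℤ) : ℝ) * x i : ℝ) : ℂ)) * f x :=
  ⟨H13Z.per f hc ⟨C, hf⟩, H13Z.per_proj f hc ⟨C, hf⟩, H13Z.mFourierCoeff_per f hc ⟨C, hf⟩⟩

/-- **Poisson summation on `ℝ^d`.**  If moreover the Fourier coefficients are summable, the periodised
function is the sum of its Fourier series.  Module `H13Z1`. -/
theorem poisson_real {d : Type*} [Fintype d] (f : (d → ℝ) → ℂ) (hc : Continuous f) (C : ℝ)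
    (hf : ∀ x, ‖f x‖ ≤ C * ∏ i, (1 + x i ^ 2)⁻¹)
    (hs : Summable fun m : d → ℤ => ∫ x : d → ℝ,
      Complex.exp (2 * Real.pi * Complex.I * ((∑ i, (((-m) i : ℤ) : ℝ) * x i : ℝ) : ℂ)) * f x)
    (x : d → ℝ) :
    ∑' n : d → ℤ, f (x + fun i => (n i : ℝ)) = ∑' m : d → ℤ,
      (∫ y : d → ℝ,
        Complex.exp (2 * Real.pi * Complex.I * ((∑ i, (((-m) i : ℤ) : ℝ) * y i : ℝ) : ℂ)) * f y) *
      Complex.exp (2 * Real.pi * Complex.I * ((∑ i, (m i : ℝ) * x i : ℝ) : ℂ)) :=
  H13Z.poisson hc ⟨C, hf⟩ hs x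

/-! ## 2. Lattices in real vector spaces -/

/-- **Decay.**  A function with Gaussian decay, `|f(x)| ≤ C exp(-c |x|²)` with `c > 0`, decays faster than
any power of `1 + |x|²`, and it is summable over every translate of the lattice of a basis.
Module `H13Z2`. -/
theorem decay {W ι : Type*} [NormedAddCommGroup W] [NormedSpace ℝ W] [FiniteDimensional ℝ W] [Fintype ι]
    (b : Module.Basis ι ℝ W) (f : W → ℂ) (c : ℝ) (hc : 0 < c) (C : ℝ)
    (hf : ∀ x, ‖f x‖ ≤ C * Real.exp (-c * ‖x‖ ^ 2)) :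
    (∀ n : ℕ, ∃ C' : ℝ, ∀ x, ‖f x‖ ≤ C' * ((1 + ‖x‖ ^ 2) ^ n)⁻¹) ∧
      ∀ v, Summable fun m : ι → ℤ => f (v + ∑ i, (m i : ℝ) • b i) :=
  ⟨H13Z.GDec.pDec ⟨c, hc, C, hf⟩, (H13Z.GDec.pDec ⟨c, hc, C, hf⟩ _).summable_cmb b⟩

/-- **The covolume.**  For a basis `b` of `W` and a Haar measure `μ` on `W` the integral of
`f (∑ x_i b_i)` over `x ∈ ℝ^n` is the integral of `f` over `W`, divided by the volume of the fundamental
parallelepiped of `b`.  Module `H13Z2`. -/
theorem integral_coordinates {W ι : Type*} [NormedAddCommGroup W] [NormedSpace ℝ W]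
    [FiniteDimensional ℝ W] [Fintype ι] [MeasurableSpace W] [BorelSpace W] (μ : Measure W)
    [μ.IsAddHaarMeasure] (b : Module.Basis ι ℝ W) (f : W → ℂ) :
    ∫ x : ι → ℝ, f (b.equivFun.symm x) =
      (μ.real (ZSpan.fundamentalDomain b))⁻¹ • ∫ x, f x ∂μ :=
  H13Z.integral_par μ b f

/-- **Poisson summation for a lattice.**  Let `b` be a basis of `W`, `β` a bilinear form on `W`, `b'` a
family with `β(b_i, b'_j) = δ_ij`, and `f` a continuous function with `|f(x)| ≤ C (1 + |x|²)^(-n)`,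
`n = dim W`, whose Fourier transform for `β` is summable over the lattice `L'` spanned by `b'`.  Then
`∑_{x ∈ v + L} f(x) = vol(L)⁻¹ ∑_{y ∈ L'} f̂(y) e(β(v, y))`, with `L` the lattice spanned by `b`.
Module `H13Z2`. -/
theorem poisson_lattice {W ι : Type*} [NormedAddCommGroup W] [NormedSpace ℝ W]
    [FiniteDimensional ℝ W] [Fintype ι] [DecidableEq ι] [MeasurableSpace W] [BorelSpace W]
    (μ : Measure W) [μ.IsAddHaarMeasure] (b : Module.Basis ι ℝ W) (b' : ι → W)
    (β : W →ₗ[ℝ] W →ₗ[ℝ] ℝ) (hβ : ∀ i j, β (b i) (b' j) = if i = j then 1 else 0) (f : W → ℂ)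
    (hc : Continuous f) (C : ℝ) (hf : ∀ x, ‖f x‖ ≤ C * ((1 + ‖x‖ ^ 2) ^ Fintype.card ι)⁻¹)
    (hs : Summable fun m : ι → ℤ => ∫ x,
      Complex.exp (-(2 * Real.pi * Complex.I * (β x (∑ i, (m i : ℝ) • b' i) : ℂ))) * f x ∂μ) (v : W) :
    ∑' n : ι → ℤ, f (v + ∑ i, (n i : ℝ) • b i) =
      (μ.real (ZSpan.fundamentalDomain b))⁻¹ • ∑' m : ι → ℤ,
        (∫ x, Complex.exp (-(2 * Real.pi * Complex.I * (β x (∑ i, (m i : ℝ) • b' i) : ℂ))) * f x ∂μ) *
        Complex.exp (2 * Real.pi * Complex.I * (β v (∑ i, (m i : ℝ) • b' i) : ℂ)) :=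
  H13Z.poisson_lattice μ b b' β hβ hc ⟨C, hf⟩ hs v

/-- Two families which are dual to each other for a bilinear form are linearly independent.  So in the
application, where their number is the dimension, both are bases.  Module `H13Z4`. -/
theorem independent_of_dual {W ι : Type*} [AddCommGroup W] [Module ℝ W] [Fintype ι] [DecidableEq ι]
    (β : W →ₗ[ℝ] W →ₗ[ℝ] ℝ) (b b' : ι → W) (h : ∀ i j, β (b i) (b' j) = if i = j then 1 else 0) :
    LinearIndependent ℝ b ∧ LinearIndependent ℝ b' :=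
  H13Z.linInd_of_dual β h

/-! ## 3. The Gaussian functions of the points of the hyperbolic space -/

/-- **Gaussian integrals** over `ℝ` and `ℂ` with linear terms.  Module `H13Z3`. -/
theorem gauss_integrals (a : ℝ) (ha : 0 < a) (α β : ℂ) :
    ∫ x : ℝ, Complex.exp (-(2 * Real.pi * a * (x : ℂ) ^ 2) + α * x) =
      ((1 / (2 * a) : ℝ) : ℂ) ^ (1 / 2 : ℂ) * Complex.exp (α ^ 2 / (8 * Real.pi * a)) ∧
    ∫ x : ℂ, Complex.exp (-(2 * Real.pi * a * ((x.re : ℂ) ^ 2 + (x.im : ℂ) ^ 2)) +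
        (α * x.re + β * x.im)) =
      ((1 / (2 * a) : ℝ) : ℂ) * Complex.exp ((α ^ 2 + β ^ 2) / (8 * Real.pi * a)) :=
  ⟨H13Z.integral_gauss_R ha α, H13Z.integral_gauss_C ha α β⟩

/-- **The action on the hyperbolic space.**  The inversion `w₀ = (0 -1; 1 0)` maps `(z, y)` to
`(-z̄, y) / (|z|² + y²)`, the translation `n(β) = (1 β; 0 1)` maps it to `(z + β, y)`, and
`w₀ (1 0; c 1) = n(-c) w₀`.  Modules `H31Hyp2` and `H13ZA`. -/
theorem action (w : H3) (β c : ℂ) :
    (H3.wMat • w).z = -(starRingEnd ℂ) w.z / ((Complex.normSq w.z + w.y ^ 2 : ℝ) : ℂ) ∧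
    (H3.wMat • w).y = w.y / (Complex.normSq w.z + w.y ^ 2) ∧
    (H3.nMat β • w).z = w.z + β ∧ (H3.nMat β • w).y = w.y ∧
    H3.wMat • (Matrix.GeneralLinearGroup.mkOfDetNeZero !![1, 0; c, 1]
      (by simp [Matrix.det_fin_two_of]) : GL (Fin 2) ℂ) • w = H3.nMat (-c) • H3.wMat • w :=
  ⟨congrArg H3.z (H3.wMat_smul w), congrArg H3.y (H3.wMat_smul w),
    congrArg H3.z (H3.nMat_smul β w), by rw [H3.nMat_smul β w], H13Z.lower_mul c w⟩

/-- **The Gaussian function of a point.**  For `w = (z, y)` the function `H13Z.om w` on `ℂ × ℂ` is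
`(x, x') ↦ y e(2 Re(z x x')) exp(-2π y (|x|² + |x'|²))`; `H13Z.pr` is the pairing `2 Re(x u' + x' u)`, and
`H13Z.tor1 t` the map `(x, x') ↦ (t x, t⁻¹ x')`, for real `t`.  Definitions in `H13Z3`, `H13Z4`. -/
theorem gaussian_notions (w : H3) (x u : ℂ × ℂ) (t : ℝ) :
    H13Z.om w x = w.y * Complex.exp (2 * Real.pi * Complex.I * (2 * (w.z * x.1 * x.2).re : ℝ) -
      2 * Real.pi * w.y * (‖x.1‖ ^ 2 + ‖x.2‖ ^ 2 : ℝ)) ∧
    H13Z.pr x u = 2 * (x.1 * u.2 + x.2 * u.1).re ∧ H13Z.tor1 t x = (t • x.1, t⁻¹ • x.2) :=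
  ⟨rfl, rfl, rfl⟩

/-- **Fourier transform = inversion.**  The Fourier transform of the Gaussian function of `w` for the
pairing `H13Z.pr` is `1/4` times the Gaussian function of `w₀ w`.  (Integrate over `x'`, then over `x`;
both are integrals of `gauss_integrals`.)  Module `H13Z3`. -/
theorem fourier_gaussian (w : H3) (u : ℂ × ℂ) :
    ∫ x : ℂ × ℂ, Complex.exp (-(2 * Real.pi * Complex.I * (H13Z.pr x u : ℂ))) * H13Z.om w x =
      1 / 4 * H13Z.om (H3.wMat • w) u :=
  H13Z.integral_om w u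

/-- The maps `H13Z.tor1 t`, `t ≠ 0`, preserve the measure and the pairing.  Module `H13Z4`. -/
theorem torus (t : ℝ) (ht : t ≠ 0) :
    MeasurePreserving (H13Z.tor1 t) (volume : Measure (ℂ × ℂ)) volume ∧
      ∀ x u : ℂ × ℂ, H13Z.pr (H13Z.tor1 t x) (H13Z.tor1 t u) = H13Z.pr x u :=
  ⟨H13Z.measurePreserving_tor1 ht, H13Z.pr_tor1 ht⟩

/-- **Several places.**  On `(ℂ × ℂ)^J` the Gaussian function of a point `w` of `H3^J` with parameter
`t ∈ (ℝˣ)^J` is the product `H13Z.OM t w x = ∏ om (w_j) (tor1 t_j x_j)`, and the pairing is the sum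
`H13Z.PR`.  The function is continuous with Gaussian decay, and its Fourier transform is `4^(-|J|)` times
the function of `(w₀ w_j)_j` with the same parameter.  Module `H13Z4`. -/
theorem fourier_product {J : Type*} [Fintype J] (t : J → ℝ) (ht : ∀ j, t j ≠ 0) (w : J → H3)
    (u : J → ℂ × ℂ) :
    (∀ x, H13Z.OM t w x = ∏ j, H13Z.om (w j) (H13Z.tor1 (t j) (x j))) ∧
    (∀ x, H13Z.PR x u = ∑ j, H13Z.pr (x j) (u j)) ∧ Continuous (H13Z.OM t w) ∧
    (∃ c : ℝ, 0 < c ∧ ∃ C : ℝ, ∀ x, ‖H13Z.OM t w x‖ ≤ C * Real.exp (-c * ‖x‖ ^ 2)) ∧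
    ∫ x : J → ℂ × ℂ, Complex.exp (-(2 * Real.pi * Complex.I * (H13Z.PR x u : ℂ))) * H13Z.OM t w x =
      (1 / 4) ^ Fintype.card J * H13Z.OM t (fun j => H3.wMat • w j) u :=
  ⟨fun _ => rfl, fun _ => rfl, H13Z.continuous_OM t w, H13Z.gDec_OM ht w, H13Z.ft_OM ht w u⟩

/-- **Translation = quadratic character.**  The Gaussian function of `n(β) w` is the one of `w`, multiplied
by `e(∑ 2 Re(β_j x_j x'_j))`.  Module `H13Z7`. -/
theorem translation {J : Type*} [Fintype J] (t : J → ℝ) (ht : ∀ j, t j ≠ 0) (β : J → ℂ) (w : J → H3)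
    (x : J → ℂ × ℂ) :
    H13Z.OM t (fun j => H3.nMat (β j) • w j) x =
      H13Z.er (∑ j, 2 * (β j * (x j).1 * (x j).2).re) * H13Z.OM t w x :=
  H13Z.OM_nMat ht β w x

/-- **Poisson summation for the Gaussian functions**: `poisson_lattice`, `decay` and `fourier_product`.
Here `b` and `b'` are bases of `(ℂ × ℂ)^J`, dual to each other.  Module `H13Z4`. -/
theorem poisson_gaussian {J ι : Type*} [Fintype J] [Fintype ι] [DecidableEq ι]
    (b b' : Module.Basis ι ℝ (J → ℂ × ℂ)) (hb : ∀ i j, H13Z.PR (b i) (b' j) = if i = j then 1 else 0)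
    (t : J → ℝ) (ht : ∀ j, t j ≠ 0) (w : J → H3) (v : J → ℂ × ℂ) :
    ∑' n : ι → ℤ, H13Z.OM t w (v + ∑ i, (n i : ℝ) • b i) =
      (((4 : ℝ) ^ Fintype.card J * (volume : Measure (J → ℂ × ℂ)).real (ZSpan.fundamentalDomain b))⁻¹ :
        ℝ) * ∑' n : ι → ℤ, H13Z.OM t (fun j => H3.wMat • w j) (∑ i, (n i : ℝ) • b' i) *
          Complex.exp (2 * Real.pi * Complex.I * (H13Z.PR v (∑ i, (n i : ℝ) • b' i) : ℂ)) :=
  H13Z.poisson_OM b b' hb ht w v

/-! ## 4. The finite part: functions with a level -/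

/-- **Functions with a level.**  `H66D.SF Λ` is the space of the functions `φ` on the rational vector space
`V` for which there is `m ≠ 0` such that `φ` has support in `m⁻¹ Λ` and is periodic modulo `m Λ`;
`H66D.mL Λ m = m Λ`.  (These are the restrictions to `V` of the Schwartz functions on the points of `V`
over the finite adeles.)  Module `H66DSch`, helper66. -/
theorem level_notions {V : Type*} [AddCommGroup V] [Module ℚ V] (Λ : AddSubgroup V) (φ : V → ℂ)
    (m : ℕ) (x : V) :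
    (φ ∈ H66D.SF Λ ↔ ∃ m : ℕ, m ≠ 0 ∧ (∀ x, φ x ≠ 0 → m • x ∈ Λ) ∧
      ∀ x, ∀ y ∈ Λ, φ (x + m • y) = φ x) ∧
    (x ∈ H66D.mL Λ m ↔ ∃ y ∈ Λ, m • y = x) :=
  ⟨Iff.rfl, H66D.mem_mL⟩

/-- **The integral over the finite part.**  `H66D.HIfun Λ` is the linear functional on `H66D.SF Λ`, invariant
under translations, with value `1` at the indicator function of `Λ`: for a function of level `m` it is
`[Λ : m Λ]⁻¹` times the sum over `V / m Λ`.  (`H66D.IsFull Λ`: every `x ∈ V` has a multiple `m x ∈ Λ` with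
`m ≠ 0`, and the indices `[Λ : m Λ]` are finite.)  Module `H66DSch`, helper66. -/
theorem integral_level {V : Type*} [AddCommGroup V] [Module ℚ V] (Λ : AddSubgroup V)
    (hΛ : H66D.IsFull Λ) (φ : V → ℂ) (m : ℕ) (hm : m ≠ 0) (h1 : ∀ x, φ x ≠ 0 → m • x ∈ Λ)
    (h2 : ∀ x, ∀ y ∈ Λ, φ (x + m • y) = φ x) :
    H66D.HIfun Λ φ = ((H66D.mL Λ m).relIndex Λ : ℂ)⁻¹ * ∑ᶠ q : V ⧸ H66D.mL Λ m, φ q.out :=
  H66D.HIfun_eq hΛ ⟨hm, h1, h2⟩

open Classical in
/-- **Reduction to cosets.**  A property of functions with a level which is compatible with sums and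
scalars and which holds for the indicator functions of the cosets `q + m Λ` holds for all functions with a
level.  Module `H13Z6`. -/
theorem induction {V : Type*} [AddCommGroup V] [Module ℚ V] (Λ : AddSubgroup V) (hΛ : H66D.IsFull Λ)
    (P : (V → ℂ) → Prop) (h0 : P 0)
    (hadd : ∀ φ ψ, φ ∈ H66D.SF Λ → ψ ∈ H66D.SF Λ → P φ → P ψ → P (φ + ψ))
    (hsmul : ∀ (c : ℂ) (φ), φ ∈ H66D.SF Λ → P φ → P (c • φ))
    (hc : ∀ m : ℕ, m ≠ 0 → ∀ q, P (fun x => if x - q ∈ H66D.mL Λ m then 1 else 0)) (φ : V → ℂ)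
    (hφ : φ ∈ H66D.SF Λ) : P φ :=
  H13Z.SF_induction hΛ h0 hadd hsmul hc hφ

/-- **Theta data.**  `D : H13Z.TD Λ J ι` consists of an additive map `D.emb : V → (ℂ × ℂ)^J`, a `ℤ`-basis
`D.b` of `Λ`, and vectors `D.b'` of `V` which are dual to it for the pairing `H13Z.PR`; here `|ι| = 4 |J|`,
and every `x ∈ V` has a multiple in `Λ`.  Definition in `H13Z5`. -/
theorem theta_data {V J ι : Type*} [AddCommGroup V] [Module ℚ V] [Fintype J] [Fintype ι]
    [DecidableEq ι] {Λ : AddSubgroup V} (D : H13Z.TD Λ J ι) :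
    (∀ i j, H13Z.PR (D.emb (D.b i)) (D.emb (D.b' j)) = if i = j then 1 else 0) ∧
    Fintype.card ι = 4 * Fintype.card J ∧ (∀ x, x ∈ Λ ↔ ∃ n : ι → ℤ, x = ∑ i, n i • D.b i) ∧
    ∀ x : V, ∃ m : ℕ, m ≠ 0 ∧ m • x ∈ Λ :=
  ⟨D.dual, D.card, D.span, D.full⟩

/-- **The finite Fourier transform.**  For theta data `D` let `D.T x y` be the pairing of the images of `x`
and `y`.  The Fourier transform of a function `φ` with a level is `x ↦ vol · ∫ e(T(x, y)) φ(y) dy`, where
the integral is `H66D.HIfun` and `vol⁻¹` is `4^|J|` times the covolume of `Λ` (`D.B 1` is the basis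
`D.emb (D.b i)` of `(ℂ × ℂ)^J`).  Definitions in `H13Z5` and `H13Z6`. -/
theorem fourier_notions {V J ι : Type*} [AddCommGroup V] [Module ℚ V] [Fintype J] [Fintype ι]
    [DecidableEq ι] {Λ : AddSubgroup V} (D : H13Z.TD Λ J ι) (φ : V → ℂ) (x y : V) (i : ι) (m : ℕ)
    (hm : m ≠ 0) :
    D.T x y = H13Z.PR (D.emb x) (D.emb y) ∧
    D.FT φ x = D.vol * H66D.HIfun Λ (fun y => H13Z.er (D.T x y) * φ y) ∧
    D.vol = ((4 : ℝ) ^ Fintype.card J *
      (volume : Measure (J → ℂ × ℂ)).real (ZSpan.fundamentalDomain (D.B 1 one_ne_zero)))⁻¹ ∧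
    D.B m hm i = (m : ℝ) • D.emb (D.b i) :=
  ⟨rfl, rfl, rfl, D.B_apply m hm i⟩

/-- **Index and dual lattice of `m Λ`.**  The index of `m Λ` in `Λ` is `m ^ |ι|`; an element `x` of `V` has
integral pairing with `m Λ` if and only if it is a combination of the vectors `m⁻¹ b'_i`.
Module `H13Z5`. -/
theorem dual_lattice {V J ι : Type*} [AddCommGroup V] [Module ℚ V] [Fintype J] [Fintype ι]
    [DecidableEq ι] {Λ : AddSubgroup V} (D : H13Z.TD Λ J ι) (m : ℕ) (hm : m ≠ 0) (x : V) :
    (H66D.mL Λ m).relIndex Λ = m ^ Fintype.card ι ∧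
    ((∀ y ∈ H66D.mL Λ m, ∃ k : ℤ, D.T x y = k) ↔ ∃ n : ι → ℤ, (m : ℚ)⁻¹ • ∑ i, n i • D.b' i = x) :=
  ⟨D.relIndex_mL m hm, D.mem_DL_iff m hm x⟩

open Classical in
/-- **Fourier transform of a coset.**  The Fourier transform of the indicator function of `q + m Λ` is
`vol m^(-|ι|) e(T(x, q))` on the dual lattice of `m Λ` and zero elsewhere.  So the Fourier transform of a
function with a level has a level.  Module `H13Z6`. -/
theorem fourier_coset {V J ι : Type*} [AddCommGroup V] [Module ℚ V] [Fintype J] [Fintype ι]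
    [DecidableEq ι] {Λ : AddSubgroup V} (D : H13Z.TD Λ J ι) :
    (∀ (m : ℕ), m ≠ 0 → ∀ q x : V, D.FT (fun z => if z - q ∈ H66D.mL Λ m then 1 else 0) x =
      if (∀ y ∈ H66D.mL Λ m, ∃ k : ℤ, D.T x y = k) then
        D.vol * ((m : ℂ) ^ Fintype.card ι)⁻¹ * H13Z.er (D.T x q) else 0) ∧
    ∀ φ ∈ H66D.SF Λ, D.FT φ ∈ H66D.SF Λ :=
  ⟨fun _ hm q x => D.FT_cst hm q x, fun _ hφ => D.FT_mem hφ⟩

/-! ## 5. Theta series -/

/-- **The theta series** of a function `φ` with a level is `D.th φ t w = ∑ φ(x) OM t w (x)`, the sum over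
`x ∈ V`.  It converges.  Module `H13Z6`. -/
theorem theta_series {V J ι : Type*} [AddCommGroup V] [Module ℚ V] [Fintype J] [Fintype ι]
    [DecidableEq ι] {Λ : AddSubgroup V} (D : H13Z.TD Λ J ι) (φ : V → ℂ) (hφ : φ ∈ H66D.SF Λ)
    (t : J → ℝ) (ht : ∀ j, t j ≠ 0) (w : J → H3) :
    D.th φ t w = ∑' x : V, φ x * H13Z.OM t w (D.emb x) ∧
      Summable fun x : V => φ x * H13Z.OM t w (D.emb x) :=
  ⟨rfl, D.summable_th ht w hφ⟩

open Classical in
/-- For the indicator function of `q + m Λ` the theta series is a sum over a translated lattice, to which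
`poisson_gaussian` applies; together with `fourier_coset` this proves `theta_inversion` in this case.
Module `H13Z6`. -/
theorem theta_coset {V J ι : Type*} [AddCommGroup V] [Module ℚ V] [Fintype J] [Fintype ι]
    [DecidableEq ι] {Λ : AddSubgroup V} (D : H13Z.TD Λ J ι) (m : ℕ) (hm : m ≠ 0) (q : V) (t : J → ℝ)
    (ht : ∀ j, t j ≠ 0) (w : J → H3) :
    D.th (fun x => if x - q ∈ H66D.mL Λ m then 1 else 0) t w =
      ∑' n : ι → ℤ, H13Z.OM t w (D.emb q + ∑ i, (n i : ℝ) • D.B m hm i) :=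
  (D.th_cst hm q ht w).2

/-- **Inversion.**  The theta series of `φ` at `w` is the theta series of its Fourier transform at `w₀ w`.
Module `H13Z6`. -/
theorem theta_inversion {V J ι : Type*} [AddCommGroup V] [Module ℚ V] [Fintype J] [Fintype ι]
    [DecidableEq ι] {Λ : AddSubgroup V} (D : H13Z.TD Λ J ι) (φ : V → ℂ) (hφ : φ ∈ H66D.SF Λ)
    (t : J → ℝ) (ht : ∀ j, t j ≠ 0) (w : J → H3) :
    D.th (D.FT φ) t (fun j => H3.wMat • w j) = D.th φ t w :=
  D.th_FT ht w hφ

/-- **Translation.**  The theta series of `φ` at `n(β) w` is the theta series at `w` of `φ` multiplied by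
the quadratic character of `translation` (term by term, no convergence is needed).  Module `H13Z7`. -/
theorem theta_translation {V J ι : Type*} [AddCommGroup V] [Module ℚ V] [Fintype J] [Fintype ι]
    [DecidableEq ι] {Λ : AddSubgroup V} (D : H13Z.TD Λ J ι) (φ : V → ℂ) (t : J → ℝ)
    (ht : ∀ j, t j ≠ 0) (β : J → ℂ) (w : J → H3) :
    D.th φ t (fun j => H3.nMat (β j) • w j) = D.th
      (fun x => H13Z.er (∑ j, 2 * (β j * (D.emb x j).1 * (D.emb x j).2).re) * φ x) t w :=
  D.th_nMat ht β w φ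

/-! ## 6. A quadratic extension of totally complex fields -/

/-- **The embeddings.**  Let `B/E` be quadratic with conjugation `τ`, `E` totally complex, `b_j` an
extension to `B` of the embedding `e_j` of `E`, one for each infinite place.  The embeddings of `B` are
`b_j`, `b_j ∘ τ` and their complex conjugates, `j ∈ J` (this is the enumeration `H13Z.emm b τ` by
`J × Bool × Bool`).  So `[B : ℚ] = 4 |J|`, and the trace of `x` is the sum of `2 Re(b_j x) +
2 Re(b_j (τ x))`.  Module `H13Z8`. -/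
theorem embeddings {E B J : Type*} [Field E] [NumberField E] [Field B] [NumberField B] [Algebra E B]
    [Fintype J] (e : J → (E →+* ℂ)) (b : J → (B →+* ℂ)) (τ : B ≃ₐ[E] B)
    (hb : ∀ j, (b j).comp (algebraMap E B) = e j)
    (he : Function.Bijective fun j => InfinitePlace.mk (e j)) [IsTotallyComplex E] (hτ : τ ≠ 1)
    (h2 : Module.finrank E B = 2) :
    (∀ j, H13Z.emm b τ (j, false, false) = b j ∧
      H13Z.emm b τ (j, true, false) = (b j).comp (τ : B →+* B) ∧
      H13Z.emm b τ (j, false, true) = ComplexEmbedding.conjugate (b j) ∧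
      H13Z.emm b τ (j, true, true) = ComplexEmbedding.conjugate ((b j).comp (τ : B →+* B))) ∧
    Function.Bijective (H13Z.emm b τ) ∧ Module.finrank ℚ B = 4 * Fintype.card J ∧
    ∀ x : B, ((Algebra.trace ℚ B x : ℚ) : ℂ) = ∑ j, ((2 * (b j x).re + 2 * (b j (τ x)).re : ℝ) : ℂ) :=
  ⟨fun _ => ⟨rfl, rfl, rfl, rfl⟩, H13Z.emm_bijective e b τ hb he hτ h2,
    H13Z.finrank_eq e b τ hb he hτ h2, H13Z.trace_eq e b τ hb he hτ h2⟩

/-- **The theta data of `B`.**  The map `x ↦ (b_j x, b_j (τ x))_j`, the lattice `𝓞_B` and the dual basis for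
the trace form, conjugated, are theta data with `T(x, y) = Tr_{B/ℚ} (x τ(y))`.  Module `H13Z8`. -/
theorem theta_data_of_field {E B J : Type*} [Field E] [NumberField E] [Field B] [NumberField B]
    [Algebra E B] [Fintype J] (e : J → (E →+* ℂ)) (b : J → (B →+* ℂ)) (τ : B ≃ₐ[E] B)
    (hb : ∀ j, (b j).comp (algebraMap E B) = e j)
    (he : Function.Bijective fun j => InfinitePlace.mk (e j)) [IsTotallyComplex E] (hτ : τ ≠ 1)
    (h2 : Module.finrank E B = 2) :
    ∃ D : H13Z.TD (H66D.OLat B) J (Module.Free.ChooseBasisIndex ℤ (𝓞 B)),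
      (∀ x j, D.emb x j = (b j x, b j (τ x))) ∧
      ∀ x y, D.T x y = ((Algebra.trace ℚ B (x * τ y) : ℚ) : ℝ) :=
  ⟨H13Z.numTD e b τ hb he hτ h2, fun _ _ => rfl, H13Z.numTD_T e b τ hb he hτ h2⟩

/-- **The quadratic character.**  `N x = x τ(x)` for the norm from `B` to `E`, and the quadratic form of
`theta_translation` for `(e_j β)_j`, `β ∈ E`, is `Tr_{E/ℚ} (β N x)`.  Module `H13Z9`. -/
theorem quadratic_form {E B J : Type*} [Field E] [NumberField E] [Field B] [NumberField B]
    [Algebra E B] [Fintype J] (e : J → (E →+* ℂ)) (b : J → (B →+* ℂ)) (τ : B ≃ₐ[E] B)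
    (hb : ∀ j, (b j).comp (algebraMap E B) = e j)
    (he : Function.Bijective fun j => InfinitePlace.mk (e j)) [IsTotallyComplex E] (hτ : τ ≠ 1)
    (h2 : Module.finrank E B = 2) (β : E) (x : B) :
    algebraMap E B (Algebra.norm E x) = x * τ x ∧
    ∑ j, 2 * (e j β * b j x * b j (τ x)).re =
      ((Algebra.trace ℚ E (β * Algebra.norm E x) : ℚ) : ℝ) :=
  ⟨H13Z.norm_eq_mul τ hτ h2 x, H13Z.QF_embN e b τ hb he hτ h2 β x⟩

/-- **Logarithmic coordinates.**  With the parameter `t_j = exp(s_j)` the Gaussian function is the term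
`H53Z.gterm w s` in the definition of the theta kernel (`GuideOctDTheta.theta_eq`).  Module `H13Z9`. -/
theorem gaussian_eq_gterm {J : Type*} [Fintype J] (w : J → H3) (s : J → ℝ) (x : J → ℂ × ℂ) :
    H13Z.OM (fun j => Real.exp (s j)) w x =
      H53Z.gterm w s (fun j => (x j).1) (fun j => (x j).2) :=
  H13Z.OM_eq_gterm w s x

end Fermat.Agent.Guide.Poisson
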