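import Fermat.Agent.S55
import Fermat.Agent.H75EC4

/-!
# Guide to the proof: Poitou-Tate duality over `ℚ` (S55)

This file is a machine-checked table of contents. Every theorem below is a citation of a theorem of
the library, with its statement written out. Nothing imports this file.

**What the block does.** `p` is an odd prime, `S` a finite set of primes containing `p`, `G_S` the
Galois group over `ℚ` of the maximal extension unramified outside `S` (and infinity), `M` a finite
`F_p[G_S]`-module, `M' = Hom(M, μ_p)`. S55 says that `Sha^1_S(M')` and `Sha^2_S(M)` are in perfect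
duality. As only the existence of a nondegenerate pairing is asked, this is an equality of
dimensions, and this is what is proved: the classical pairing is not constructed, and cup products of
global classes occur only in the orthogonality behind `defect_nonneg`.

**The idea.** All dimensions are computed for trivial coefficients over fields `K ⊇ ℚ(μ_p)`, by
counting (norm indices, units, class groups, the Hasse norm theorem for cyclic extensions of degree
`p`): this is the structure `ArithInput`. The passage to all modules is formal: a right exact functor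
with the right values on induced modules is representable. There are no ideles, no Brauer groups, no
fundamental classes, no invariant maps and no cohomology in degree `≥ 3`.

**Order of the file.**
 1. The language: cohomology by cocycles which are constant on cosets of an open subgroup.
 2. Formal part: Shapiro, Euler characteristics, right exactness of `H^2`, representability (the
    steps of the proofs are in `GuideLevelCohomology`).
 3. Local fields: norm index, index of `p`-th powers, dimensions of `H^1` and `H^2` of `F_p` (their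
    proof with cocycles is in `GuideHasseH2`).
 4. The arithmetic input, written out, and that it holds for `ℚ` (the global part of its proof is
    the subject of `GuideEulerChar` and `GuideHasseH2`).
 5. Duality: local, global in degree 2, Euler characteristics, `dim Sha^1(M') = dim Sha^2(M)`, S55.

**See also** `GuideLevelCohomology` (section 2, `prelude_sha`, and S55 from `finrank_sha`), `GuideFourier`
(the steps of `fourier`, section 4), `GuideDecomposition` (places, completions and local Galois groups
inside `ℚ̄_q`).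

**Where.** NOTES.md, Appendix A.10: [206] (overview), [263], [169], [209], [282], [300].
All theorems are in the closure of S55. Sections 1-4 and the statements in degree 2 of section 5 are
also used for the inequality of Greenberg and Wiles (`GuideEulerChar`), i.e. in S56, S43, S59 and S01
(and, through S43 and S59, in S03, S04, S06, S38, S45, S46, S50, S60).
Authors: helpers 55, 92, 54, 7, 82, 91, 47, 64, 65, 75, 73.
-/

set_option autoImplicit false
set_option maxSynthPendingDepth 3

open Module ExtCitation Fermat.Agent.H55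

namespace Fermat.Agent.Guide.PoitouTate

/-- The absolute Galois group of `ℚ` (inside the fixed algebraic closure). -/
local notation "GQ" => (AlgebraicClosure ℚ ≃ₐ[ℚ] AlgebraicClosure ℚ)

/-! ## 1. The language: level cohomology

`H55.Levels G` is a family of subgroups of finite index of a group `G` which play the role of the open
subgroups (closed under intersection and enlargement, every member contains a normal member). A
representation is `Smooth` if every vector is fixed by an open subgroup. `Z1 𝓛 ρ`, `Z2 𝓛 ρ` are the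
inhomogeneous cocycles which are constant on the cosets of an open subgroup, `H1 𝓛 ρ`, `H2 𝓛 ρ` the
quotients by the coboundaries (of cochains of the same kind in degree 2). For a profinite group and
its open subgroups this is continuous cohomology of discrete modules. `𝓛.onSub U` are the levels
induced on a subgroup `U`, `mu χ` is the one dimensional representation given by the character `χ`,
`funRep Ω ρ` consists of the functions `f` on the `G`-set `Ω` with values in the module of `ρ`, with
`(g f)(x) = g f(g⁻¹ x)`. `H55.H1res`, `H55.H2res` are the restrictions of classes along a homomorphism of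
groups which is continuous for the levels, `H55.H2c` is the map on `H^2` given by an equivariant linear
map (`Equivar`), and `SES 𝓛 ρA ρB ρC` is a short exact sequence `0 → A → B → C → 0` of representations,
`B` smooth. -/

/-- **The levels of `ℚ`.** `krullLevels`: a subgroup of the absolute Galois group of `ℚ` is open if it
contains the subgroup fixing some number field `F` (`H55Fam`). -/
theorem krullLevels_op_iff (U : Subgroup GQ) :
    krullLevels.op U ↔ ∃ F : IntermediateField ℚ (AlgebraicClosure ℚ),
      FiniteDimensional ℚ F ∧ F.fixingSubgroup ≤ U :=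
  H55.krullLevels_op_iff U

/-- **The levels of `G_S`.** `ramLevels S`: a subgroup is open if it contains the subgroup fixing some
number field `F` unramified outside `S` (all inertia groups at primes outside `S` fix `F`). So the
cohomology with respect to `ramLevels S` is the cohomology of `G_S`, written with functions on the
absolute Galois group (`H55Fam`). -/
theorem ramLevels_op_iff (S : Finset Nat.Primes) (U : Subgroup GQ) :
    (ramLevels S).op U ↔ ∃ F : IntermediateField ℚ (AlgebraicClosure ℚ),
      F.IsUnramifiedOutside S ∧ F.fixingSubgroup ≤ U :=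
  H55.ramLevels_op_iff S U

/-- **1-cocycles**: functions constant on the cosets `g U` of an open subgroup with
`f(gh) = g f(h) + f(g)` (`H55Level`). -/
theorem mem_Z1_iff {k G A : Type} [CommRing k] [Group G] [AddCommGroup A] [Module k A]
    (𝓛 : Levels G) (ρ : Representation k G A) (f : G → A) :
    f ∈ Z1 𝓛 ρ ↔ (∃ U, 𝓛.op U ∧ ∀ g, ∀ s ∈ U, f (g * s) = f g) ∧
      ∀ g h, f (g * h) = ρ g (f h) + f g :=
  Iff.rfl

/-- **2-cocycles**: functions constant on the cosets of an open subgroup in both variables with the
usual identity (`H55Level`). -/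
theorem mem_Z2_iff {k G A : Type} [CommRing k] [Group G] [AddCommGroup A] [Module k A]
    (𝓛 : Levels G) (ρ : Representation k G A) (f : G × G → A) :
    f ∈ Z2 𝓛 ρ ↔
      (∃ U, 𝓛.op U ∧ ∀ g g', ∀ s ∈ U, ∀ s' ∈ U, f (g * s, g' * s') = f (g, g')) ∧
      ∀ g h j, f (g * h, j) + f (g, h) = ρ g (f (h, j)) + f (g, h * j) :=
  Iff.rfl

/-- **The class of a 1-cocycle is zero** iff it is `g ↦ g a - a` for some `a` (`H55Level`). -/
theorem h1_class_eq_zero_iff {k G A : Type} [CommRing k] [Group G] [AddCommGroup A] [Module k A]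
    {𝓛 : Levels G} {ρ : Representation k G A} (f : Z1 𝓛 ρ) :
    H1π 𝓛 ρ f = 0 ↔ ∃ a : A, (fun g => ρ g a - a) = (f : G → A) :=
  H1π_eq_zero_iff f

/-- **The class of a 2-cocycle is zero** iff it is the coboundary of a 1-cochain which is constant on
the cosets of an open subgroup (`H55Level`; functoriality: `H55Funct`, powers and products:
`H55Pow`). -/
theorem h2_class_eq_zero_iff {k G A : Type} [CommRing k] [Group G] [AddCommGroup A] [Module k A]
    {𝓛 : Levels G} {ρ : Representation k G A} (f : Z2 𝓛 ρ) :
    H2π 𝓛 ρ f = 0 ↔ ∃ x : G → A, (∃ U, 𝓛.op U ∧ ∀ g, ∀ s ∈ U, x (g * s) = x g) ∧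
      (fun g : G × G => ρ g.1 (x g.2) - x (g.1 * g.2) + x g.1) = f :=
  H2π_eq_zero_iff f

/-- **`Sha^1` and `Sha^2`.** Local data `D : LD 𝓛` are a finite family of groups `D.Gv v` with levels
`D.lev v` and continuous homomorphisms `D.loc v` to `G`. `D.Sha1 ρ` and `D.Sha2 ρ` consist of the
classes whose restrictions to all `D.Gv v` vanish; `D.Cok ρ` is the cokernel of the localisation map
in degree 2 (`H55Defs`). -/
theorem mem_sha_iff {k G A : Type} [CommRing k] [Group G] [AddCommGroup A] [Module k A]
    {𝓛 : Levels G} (D : LD 𝓛) (ρ : Representation k G A) (x : H1 𝓛 ρ) (y : H2 𝓛 ρ) :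
    (x ∈ D.Sha1 ρ ↔ ∀ v, H1res (D.cont v) ρ x = 0) ∧
      (y ∈ D.Sha2 ρ ↔ ∀ v, H2res (D.cont v) ρ y = 0) := by
  rw [LD.Sha1, LD.Sha2, LinearMap.mem_ker, LinearMap.mem_ker]
  exact ⟨⟨fun h v => congrFun h v, fun h => funext h⟩, ⟨fun h v => congrFun h v, fun h => funext h⟩⟩

/-- **The local data `DS S`** of `G_S`: for `q ∈ S` the absolute Galois group of `ℚ_q`, its open
subgroups (those induced by number fields), and the homomorphism to `GQ` given by a fixed embedding of
the algebraic closures (`H55Arith`). -/
theorem DS_lev_loc (S : Finset Nat.Primes) (q : S) :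
    (DS S).lev q = krullLevels.comap (primeLocalToGlobal (q : Nat.Primes)) ∧
      (DS S).loc q = primeLocalToGlobal (q : Nat.Primes) :=
  ⟨rfl, rfl⟩

/-- **The dual module** `dtw χ ρ`: the linear forms `f` on `A` with `(g f)(a) = χ(g) f(g⁻¹ a)`. For the
cyclotomic character `χ` this is `Hom(A, μ_p)` (`H55Defs`). -/
theorem dtw_apply {k G A : Type} [CommRing k] [Group G] [AddCommGroup A] [Module k A] (χ : G →* kˣ)
    (ρ : Representation k G A) (g : G) (f : Module.Dual k A) (a : A) :
    dtw χ ρ g f a = χ g * f (ρ g⁻¹ a) :=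
  H55.dtw_apply χ ρ g f a

/-! ## 2. Formal part -/

/-- **Shapiro's lemma**: for an open subgroup `P` the maps `sh1`, `sh2` (restriction to `P` and evaluation
at the base point) are bijections `H^i(G, Fun(G/P, A)) → H^i(P, A)`, `i = 1, 2` (`H55Sh`, explicit
homotopies in `H55ShapiroA`, `H55ShapiroB`, `H55ShapiroC`; the local version, a product over the places,
in `H55ShapiroD`, averaging and induced covers in `H55ShapiroE`, dimensions over the places in
`H55ShapiroF`). -/
theorem shapiro {k G A : Type} [CommRing k] [Group G] [AddCommGroup A] [Module k A]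
    {𝓛 : Levels G} {P : Subgroup G} {ρ : Representation k G A} (hP : 𝓛.op P) :
    Function.Bijective (sh1 𝓛 P ρ) ∧ Function.Bijective (sh2 𝓛 P ρ) :=
  ⟨sh1_bijective hP, sh2_bijective hP⟩

/-- **Euler characteristics and right exactness.** `chi2 = h^0 - h^1 + h^2` is the truncated Euler
characteristic. For a short exact sequence `E : 0 → A → B → C → 0` of smooth modules such that `A` and
`C` have finite cohomology in degrees `≤ 2` (`Fin2`) one has `χ(B) ≤ χ(A) + χ(C)`, with equality iff
`H^2(B) → H^2(C)` is surjective (`H55LES`, from the long exact sequence in `H92LevLES`, with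
`H92LevBasic`, `H92LevNat`). -/
theorem chi2_of_sequence {k G A B C : Type} [Field k] [Group G] [AddCommGroup A] [Module k A]
    [AddCommGroup B] [Module k B] [AddCommGroup C] [Module k C] {𝓛 : Levels G}
    {ρA : Representation k G A} {ρB : Representation k G B} {ρC : Representation k G C}
    (E : SES 𝓛 ρA ρB ρC) (hA : Fin2 𝓛 ρA) (hC : Fin2 𝓛 ρC) :
    chi2 𝓛 ρB ≤ chi2 𝓛 ρA + chi2 𝓛 ρC ∧
      (chi2 𝓛 ρB = chi2 𝓛 ρA + chi2 𝓛 ρC ↔ Function.Surjective (H2c 𝓛 E.hq)) :=
  ⟨E.chi2_le hA hC, E.chi2_eq_iff hA hC⟩

/-- **Right exactness of `H^2` without cohomological dimension** (`H55RE`). Let `W` be an open normal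
subgroup of index prime to `p` such that for all open `U ≤ V ≤ W` the groups `H^1(U, F_p)`, `H^2(U, F_p)`
are finite and `chi2` of `F_p` is multiplicative, `χ(U) = [V : U] χ(V)`. Then `H^2(B) → H^2(C)` is
surjective for all surjections `B → C` of finite smooth modules. For a `p`-group the multiplicativity
forces the inequalities of `chi2_of_sequence` to be equalities (`H55PGrp`); restriction and transfer do
the rest. -/
theorem right_exact {p : ℕ} [Fact p.Prime] {G : Type} [Group G] {𝓛 : Levels G} {W : Subgroup G}
    (opW : 𝓛.op W) (normal : W.Normal) (cop : ¬ p ∣ W.index)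
    (fin1 : ∀ U, 𝓛.op U → U ≤ W →
      Module.Finite (ZMod p) (H1 (𝓛.onSub U) (Representation.trivial (ZMod p) U (ZMod p))))
    (fin2 : ∀ U, 𝓛.op U → U ≤ W →
      Module.Finite (ZMod p) (H2 (𝓛.onSub U) (Representation.trivial (ZMod p) U (ZMod p))))
    (ec : ∀ U V, 𝓛.op U → 𝓛.op V → U ≤ V → V ≤ W →
      chi2 (𝓛.onSub U) (Representation.trivial (ZMod p) U (ZMod p)) =
        U.relIndex V * chi2 (𝓛.onSub V) (Representation.trivial (ZMod p) V (ZMod p)))
    {A B C : Type} [AddCommGroup A] [Module (ZMod p) A] [AddCommGroup B] [Module (ZMod p) B]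
    [AddCommGroup C] [Module (ZMod p) C] [Module.Finite (ZMod p) B]
    {ρA : Representation (ZMod p) G A} {ρB : Representation (ZMod p) G B}
    {ρC : Representation (ZMod p) G C} (E : SES 𝓛 ρA ρB ρC) :
    Function.Surjective (H2c 𝓛 E.hq) :=
  EC.right_exact ⟨opW, normal, cop, fin1, fin2, ec⟩ E

/-- **Duality without cup products** (`H55RF`). Let `F` be a right exact functor on the finite smooth
`F_p`-representations of `G` (structure `RF`; applied to `H^2(G_v, ·)` and to the cokernel of
`H^2(G, ·) → ∏ H^2(G_v, ·)`). If `F (Fun(G/U, F_p))` has dimension one for all open `U ≤ ker χ`, and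
`F(μ) ≠ 0` for the one dimensional module `μ` of the character `χ`, then `dim F(M) = dim Hom_G(M, μ)`
for all `M` (`homMu χ ρ` is `Hom_G(M, μ)`). -/
theorem dim_of_good {p : ℕ} [Fact p.Prime] {G : Type} [Group G] {𝓛 : Levels G}
    (F : RF (ZMod p) 𝓛) (χ : G →* (ZMod p)ˣ) (open_ker : 𝓛.op χ.ker)
    (one : ∀ U, 𝓛.op U → U ≤ χ.ker → finrank (ZMod p)
      (F.obj (funRep (G ⧸ U) (Representation.trivial (ZMod p) G (ZMod p)))) = 1)
    (nontriv : Nontrivial (F.obj (mu χ)))
    {A : Type} [AddCommGroup A] [Module (ZMod p) A] [Module.Finite (ZMod p) A]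
    {ρ : Representation (ZMod p) G A} (hs : Smooth 𝓛 ρ) :
    finrank (ZMod p) (F.obj ρ) = finrank (ZMod p) (homMu χ ρ) :=
  RF.Good.finrank_eq ⟨open_ker, one, nontriv⟩ hs

/-! ## 3. Local fields -/

/-- **The local norm index**: `[Eˣ : N Fˣ] = [F : E]` for a finite Galois extension `F / E` with cyclic
group, `E` a finite extension of `ℚ_q` (`H7LocIndex`, `H7LocPadic`). Proof: Herbrand quotient
(`H7LocHerbrand`) of a Galois stable open subgroup `⟨π⟩ × V` of `Fˣ`, `V` a small ball for the norm of
a normal basis, on which both cohomology groups vanish by successive approximation (`H7LocCoh`,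
`H7LocLattice`). -/
theorem local_norm_index (q : ℕ) [Fact q.Prime] (E F : Type) [Field E] [Algebra ℚ_[q] E]
    [FiniteDimensional ℚ_[q] E] [Field F] [Algebra E F] [FiniteDimensional E F] [IsGalois E F]
    [IsCyclic (F ≃ₐ[E] F)] :
    (Units.map (Algebra.norm E : F →* E)).range.index = Module.finrank E F :=
  H7.index_norm_padic q E F

/-- **The index of `p`-th powers**, `E` a finite extension of `ℚ_q`, `q ≠ p`, containing a primitive
`p`-th root of unity: `[Eˣ : Eˣᵖ] = p²` (`H7LocPow`, `H7LocPowPadic`). -/
theorem local_power_index_ne (q : ℕ) [Fact q.Prime] (E : Type) [Field E] [Algebra ℚ_[q] E]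
    [FiniteDimensional ℚ_[q] E] {p : ℕ} (hp : p.Prime) (hpq : p ≠ q) {ζ : E}
    (hζ : IsPrimitiveRoot ζ p) :
    (powMonoidHom p : Eˣ →* Eˣ).range.index = p ^ 2 :=
  H7.index_pow_padic_ne' q E hp hpq hζ

/-- **The index of `q`-th powers** for `E / ℚ_q` finite containing a primitive `q`-th root of unity:
`[Eˣ : Eˣ^q] = q ^ (2 + [E : ℚ_q])` (`H7LocPow`, `H7LocPowPadic`). -/
theorem local_power_index_self (q : ℕ) [Fact q.Prime] (E : Type) [Field E] [Algebra ℚ_[q] E]
    [FiniteDimensional ℚ_[q] E] {ζ : E} (hζ : IsPrimitiveRoot ζ q) :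
    (powMonoidHom q : Eˣ →* Eˣ).range.index = q ^ (2 + Module.finrank ℚ_[q] E) :=
  H7.index_pow_padic_self' q E hζ

/-- **`dim H^2(E, F_p) = 1`** for every finite extension `E` of `ℚ_v`, `v ∈ S`, containing `μ_p` (`V` is
its Galois group), `p` odd. Proof (`H7BrCarry`, `H7BrMain`, `H7BrS55`): classes which die on a cyclic
layer are "carry cocycles" `(χ, a)`, trivial iff `a` is a norm; the norm index and the cyclotomic tower
give the dimension. No Brauer group, no invariant map. -/
theorem local_H2 (S : Finset Nat.Primes) (p : ℕ) [Fact p.Prime] (hp2 : p ≠ 2) (v : (DS S).ι)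
    (V : Subgroup ((DS S).Gv v)) (hVo : ((DS S).lev v).op V)
    (hV : V ≤ ((cycloChar p).comp ((DS S).loc v)).ker) :
    Module.Finite (ZMod p) (H2 (((DS S).lev v).onSub V) (Representation.trivial (ZMod p) V (ZMod p))) ∧
    finrank (ZMod p) (H2 (((DS S).lev v).onSub V) (Representation.trivial (ZMod p) V (ZMod p))) = 1 :=
  H7.DS_loc_H2 S p hp2 v V hVo hV

/-- **`dim H^1(E, F_p) = 2 + [E : ℚ_p]` or `2`** (`E / ℚ_v` finite, containing `μ_p`, with Galois group
`V`), according as `v = p` or not: Kummer theory and the index of `p`-th powers. `c v` is `1` for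
`v = p` and `0` otherwise (`H7BrS55`). -/
theorem local_H1 (S : Finset Nat.Primes) (p : ℕ) [Fact p.Prime] (hpS : pPrime p ∈ S) :
    ∃ c : (DS S).ι → ℕ, ∑ v, c v = 1 ∧ ∀ (v : (DS S).ι) (V : Subgroup ((DS S).Gv v)),
      ((DS S).lev v).op V → V ≤ ((cycloChar p).comp ((DS S).loc v)).ker →
      finrank (ZMod p) (H1 (((DS S).lev v).onSub V)
        (Representation.trivial (ZMod p) V (ZMod p))) = 2 + c v * V.index :=
  H7.loc_h1 S p hpS

/-! ## 4. The arithmetic input -/

/-- **The arithmetic input written out** (structure `ArithInput`, `H55Defs`). `U` runs over the open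
subgroups contained in `ker χ`, i.e. over the number fields `K ⊇ ℚ(μ_p)` unramified outside `S`;
`D.nPlaces U` is the number of places of `K` above `S`, `D.ShaU2 k U` the everywhere locally trivial
part of `H^2(U, k)`; `V` runs over the finite extensions `E ⊇ ℚ_v(μ_p)`. Local: `H^1` and `H^2` are
finite, `dim H^2(E) = 1`, `dim H^1(E) = 2 + c_v [E : ℚ_v]` with `c_v = 1` for `v = p` and `0` otherwise;
for one `v` the local group has the same image under `χ` as `G` (for `ℚ` take `v = p`, totally ramified
in `ℚ(μ_p)`), and `H^2(G_v, μ) ≠ 0`. Global: `H^1` and `H^2` are finite,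
`2 dim H^1 = 2 (number of places) + [K : ℚ] + 2 dim Sha^2`, the localisation of `H^2` has codimension at
most one for a cofinal family, and no class over `ℚ(μ_p)` has exactly one nonzero local component. -/
theorem arithInput_iff {k G : Type} [Field k] [Group G] {𝓛 : Levels G} (D : LD 𝓛) (χ : G →* kˣ) :
    ArithInput D χ ↔
      𝓛.op χ.ker ∧
      (∀ v V, (D.lev v).op V → V ≤ (χ.comp (D.loc v)).ker →
        Module.Finite k (H1 ((D.lev v).onSub V) (Representation.trivial k V k)) ∧
        Module.Finite k (H2 ((D.lev v).onSub V) (Representation.trivial k V k)) ∧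
        finrank k (H2 ((D.lev v).onSub V) (Representation.trivial k V k)) = 1) ∧
      (∃ c : D.ι → ℕ, ∑ v, c v = 1 ∧ ∀ v V, (D.lev v).op V → V ≤ (χ.comp (D.loc v)).ker →
        finrank k (H1 ((D.lev v).onSub V) (Representation.trivial k V k)) = 2 + c v * V.index) ∧
      (∃ v, (∀ g : G, ∃ x : D.Gv v, χ (D.loc v x) = χ g) ∧
        Nontrivial (H2 (D.lev v) (mu (χ.comp (D.loc v))))) ∧
      (∀ U, 𝓛.op U → U ≤ χ.ker →
        Module.Finite k (H1 (𝓛.onSub U) (Representation.trivial k U k)) ∧
        Module.Finite k (H2 (𝓛.onSub U) (Representation.trivial k U k)) ∧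
        2 * finrank k (H1 (𝓛.onSub U) (Representation.trivial k U k)) =
          2 * D.nPlaces U + U.index + 2 * finrank k (D.ShaU2 k U)) ∧
      (∀ U, 𝓛.op U → ∃ U', 𝓛.op U' ∧ U' ≤ U ∧ U' ≤ χ.ker ∧
        D.nPlaces U' + finrank k (D.ShaU2 k U') ≤
          finrank k (H2 (𝓛.onSub U') (Representation.trivial k U' k)) + 1) ∧
      (∀ (z : H2 (𝓛.onSub χ.ker) (Representation.trivial k χ.ker k)) (v₀ : D.ι) (g₀ : G),
        (∀ v g, (v = v₀ → place (D.loc v) χ.ker g ≠ place (D.loc v) χ.ker g₀) →
          D.locU2 k χ.ker v g z = 0) → D.locU2 k χ.ker v₀ g₀ z = 0) :=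
  ⟨fun h => ⟨h.open_ker, fun v V hV hle => ⟨h.loc_fin1 v V hV hle, h.loc_fin2 v V hV hle,
      h.loc_h2 v V hV hle⟩, h.loc_h1, h.tot_ram, fun U hU hle => ⟨h.glob_fin1 U hU hle,
      h.glob_fin2 U hU hle, h.glob_h U hU hle⟩, h.codim, h.iso⟩,
    fun ⟨h1, h2, h3, h4, h5, h6, h7⟩ => ⟨h1, fun v V hV hle => (h2 v V hV hle).1,
      fun v V hV hle => (h2 v V hV hle).2.1, h3, fun v V hV hle => (h2 v V hV hle).2.2, h4,
      fun U hU hle => (h5 U hU hle).1, fun U hU hle => (h5 U hU hle).2.1,
      fun U hU hle => (h5 U hU hle).2.2, h6, h7⟩⟩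

/-- **The arithmetic input holds for `ℚ`** (`p` odd, `p ∈ S`), `H54Input`: local dimensions (section 3),
Kummer theory and `S`-units, the Hasse norm theorem for cyclic extensions of degree `p` (for the
codimension and for the last condition). -/
theorem arithInput {p : ℕ} [Fact p.Prime] (S : Finset Nat.Primes) (hp2 : p ≠ 2)
    (hpS : pPrime p ∈ S) : ArithInput (DS S) (cycloChar p) :=
  H54.arithInput hp2 hpS

/-- **The Fourier argument** (`H65Fourier`, `H65FourierB`, `H65FourierC`): the arithmetic input and right
exactness of the local `H^2` (`H75.RightExact`, with finiteness of `H^1` and `H^2`) imply that the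
cokernel of `H^2(G, μ) → ∏ H^2(G_v, μ)` is one dimensional and that every single local group `H^2(G_v, μ)`
maps isomorphically onto it (`H65.J` is this map). (For `ℚ` this is the sum of the local invariants. The
proof decomposes `Fun(Gal(ℚ(μ_p)/ℚ), F_p)` into characters; only the character `χ` can contribute to the
cokernel, because the totally ramified place `p` already contributes to it and the total codimension
is at most one.) -/
theorem fourier {k G : Type} [Field k] [Finite k] [Group G] {𝓛 : Levels G} {D : LD 𝓛}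
    {χ : G →* kˣ} (hA : ArithInput D χ) (hR : ∀ v, H75.RightExact k (D.lev v)) :
    Module.Finite k (D.Cok (mu χ)) ∧ finrank k (D.Cok (mu χ)) = 1 ∧
      ∀ v, Function.Bijective (H65.J D (mu χ) v) :=
  H65.fourier_of_rightExact hA hR

/-! ## 5. Duality -/

/-- **Right exactness of `H^2` of `G_S`** (`H55Main`, from `right_exact` and `arithInput`). -/
theorem h2_right_exact {p : ℕ} [Fact p.Prime] {S : Finset Nat.Primes} (hp2 : p ≠ 2)
    (hpS : pPrime p ∈ S) {A B C : Type} [AddCommGroup A] [Module (ZMod p) A] [AddCommGroup B]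
    [Module (ZMod p) B] [AddCommGroup C] [Module (ZMod p) C] [Module.Finite (ZMod p) B]
    {ρA : Representation (ZMod p) GQ A} {ρB : Representation (ZMod p) GQ B}
    {ρC : Representation (ZMod p) GQ C} (E : SES (ramLevels S) ρA ρB ρC) :
    Function.Surjective (H2c (ramLevels S) E.hq) :=
  (H54.arithInput hp2 hpS).globRE.surj E

/-- **Local duality in degree 2, at the level of dimensions**: `dim H^2(G_v, A)` is the
dimension of `Hom(A, μ_p)^(G_v)` (`H55Main`, from `dim_of_good`). -/
theorem local_duality_H2 {p : ℕ} [Fact p.Prime] {S : Finset Nat.Primes} (hp2 : p ≠ 2)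
    (hpS : pPrime p ∈ S) (v : (DS S).ι) {A : Type} [AddCommGroup A] [Module (ZMod p) A]
    [Module.Finite (ZMod p) A] (ρ : Representation (ZMod p) ((DS S).Gv v) A)
    (hρ : Smooth ((DS S).lev v) ρ) :
    finrank (ZMod p) (H2 ((DS S).lev v) ρ) =
      finrank (ZMod p) (dtw ((cycloChar p).comp ((DS S).loc v)) ρ).invariants :=
  ((H54.arithInput hp2 hpS).locHyp v).h2 ρ hρ

/-- **Local duality in degree 1** (Tate): for a perfect equivariant pairing `β : A × B → μ_p` of finite
modules over `G_v` (`H75.BiEquivar`: `β(g a, g b) = g β(a, b)`) the cup product `H75.cup11`,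
`H^1(G_v, A) × H^1(G_v, B) → H^2(G_v, μ_p)`, is perfect: the map `H^1(A) → Hom(H^1(B), H^2(μ_p))` is
bijective (`H75LocDual`, `H75Cup`). Proof: independent classes `y_i` of `H^1(A)` define an extension of
`B` by `μ_p^r`; compare the dimensions of `H^2`. -/
theorem local_duality_H1 {p : ℕ} [Fact p.Prime] {S : Finset Nat.Primes} (hp2 : p ≠ 2)
    (hpS : pPrime p ∈ S) (v : (DS S).ι) {A B : Type} [AddCommGroup A] [Module (ZMod p) A]
    [Module.Finite (ZMod p) A] [AddCommGroup B] [Module (ZMod p) B] [Module.Finite (ZMod p) B]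
    {ρA : Representation (ZMod p) ((DS S).Gv v) A} {ρB : Representation (ZMod p) ((DS S).Gv v) B}
    {β : A →ₗ[ZMod p] B →ₗ[ZMod p] ZMod p}
    (hβ : H75.BiEquivar ρA ρB (mu ((cycloChar p).comp ((DS S).loc v))) β)
    (hA : Smooth ((DS S).lev v) ρA) (hB : Smooth ((DS S).lev v) ρB) (hbij : Function.Bijective β) :
    Function.Bijective (H75.cup11 hβ hB) :=
  H75.cup_bijective hβ ((H54.arithInput hp2 hpS).locHyp v) hA hB hbij

/-- **Global duality in degree 2**: the cokernel of `H^2(G_S, A) → ⊕_{v ∈ S} H^2(G_v, A)` has the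
dimension of `Hom_G(A, μ_p)` (`H55Main`, from `dim_of_good` and `fourier`). -/
theorem cokernel_duality {p : ℕ} [Fact p.Prime] {S : Finset Nat.Primes} (hp2 : p ≠ 2)
    (hpS : pPrime p ∈ S) {A : Type} [AddCommGroup A] [Module (ZMod p) A] [Module.Finite (ZMod p) A]
    (ρ : Representation (ZMod p) GQ A) (hρ : Smooth (ramLevels S) ρ) :
    finrank (ZMod p) ((DS S).Cok ρ) = finrank (ZMod p) (dtw (cycloChar p) ρ).invariants :=
  (H54.arithInput hp2 hpS).fullHyp.cok ρ hρ

/-- **The defect is nonnegative**: `Σ_v χ(G_v, A) ≤ χ(G_S, A) + χ(G_S, B)` for dual modules `A`, `B`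
(`H75Count`; `H75.BiEquivar` as in `local_duality_H1`). The images of `H^1(G_S, A)` and `H^1(G_S, B)` in
the local groups are orthogonal, which bounds the sum of their dimensions; the rest is counting.
`GlobHyp`, `LocHyp` collect right exactness and the duality statements in degree 2; `hinj` (every single
`H^2(G_v, μ)` injects into the cokernel) is a part of `fourier`. -/
theorem defect_nonneg {k G A B : Type} [Field k] [Group G] [AddCommGroup A] [Module k A]
    [AddCommGroup B] [Module k B] [Module.Finite k A] [Module.Finite k B] {𝓛 : Levels G} {D : LD 𝓛}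
    {χ : G →* kˣ} {ρA : Representation k G A} {ρB : Representation k G B} {β : A →ₗ[k] B →ₗ[k] k}
    (hβ : H75.BiEquivar ρA ρB (mu χ) β) (hG : H75.GlobHyp D χ)
    (hL : ∀ v : D.ι, H75.LocHyp (D.lev v) (χ.comp (D.loc v))) [DecidableEq D.ι]
    (hinj : ∀ v : D.ι, Function.Injective fun z => (Submodule.Quotient.mk (Pi.single v z) :
      D.Cok (mu χ)))
    (hA : Smooth 𝓛 ρA) (hB : Smooth 𝓛 ρB) (hbij : Function.Bijective β) :
    ∑ v, chi2 (D.lev v) (D.rv ρA v) ≤ chi2 𝓛 ρA + chi2 𝓛 ρB :=
  H75.defect_nonneg hβ hG hL hinj hA hB hbij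

/-- **Symmetrised Euler characteristic formula**:
`χ(G_S, A) + χ(G_S, A') = Σ_{v ∈ S} χ(G_v, A)`, `χ = h^0 - h^1 + h^2`, `A' = Hom(A, μ_p)` (`H75Final`).
The difference of the two sides is additive in `A` (`H75.defect_add`), nonnegative, and nonpositive for
induced modules (`H75Ind`), in which every `A` can be embedded. -/
theorem euler_characteristic_symmetrised {p : ℕ} [Fact p.Prime] {S : Finset Nat.Primes} (hp2 : p ≠ 2)
    (hpS : pPrime p ∈ S) {A : Type} [AddCommGroup A] [Module (ZMod p) A] [Module.Finite (ZMod p) A]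
    {ρ : Representation (ZMod p) GQ A} (hρ : Smooth (ramLevels S) ρ) :
    chi2 (ramLevels S) ρ + chi2 (ramLevels S) (dtw (cycloChar p) ρ) -
      ∑ v, chi2 ((DS S).lev v) ((DS S).rv ρ v) = 0 :=
  (H54.arithInput hp2 hpS).fullHyp.defect_eq_zero hρ

/-- **Numerical Poitou-Tate duality**: `dim Sha^1_S(A') = dim Sha^2_S(A) < ∞` (`H55Main`). Equality in
the formula above forces equality in `dim Sha^1(A') ≤ dim Sha^2(A)` (`H75Lin`, `H75Global`). -/
theorem finrank_sha {p : ℕ} [Fact p.Prime] {S : Finset Nat.Primes} (hp2 : p ≠ 2)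
    (hpS : pPrime p ∈ S) {A : Type} [AddCommGroup A] [Module (ZMod p) A] [Module.Finite (ZMod p) A]
    {ρ : Representation (ZMod p) GQ A} (hρ : Smooth (ramLevels S) ρ) :
    Module.Finite (ZMod p) ((DS S).Sha1 (dtw (cycloChar p) ρ)) ∧
      Module.Finite (ZMod p) ((DS S).Sha2 ρ) ∧
      finrank (ZMod p) ((DS S).Sha1 (dtw (cycloChar p) ρ)) = finrank (ZMod p) ((DS S).Sha2 ρ) :=
  (H54.arithInput hp2 hpS).poitouTate hρ

/-- **Dictionary with the Prelude** (`H73F6a`, `H73F6b`, `H73F6`): under the comparison maps of `H^1` and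
`H^2` the groups `Sha^1`, `Sha^2` correspond to the groups `sha₁`, `sha₂` of the frozen statement. (The
archimedean place, which is part of the Prelude definition, imposes no condition for odd `p`.) Steps:
`GuideLevelCohomology`, section 6. -/
theorem prelude_sha {p : ℕ} [Fact p.Prime] (hp2 : p ≠ 2) (S : Finset Nat.Primes)
    (M : Rep (ZMod p) GQ) :
    ((DS S).Sha1 M.ρ).map (H73.F6.toH1 (ramLevels S) M) = groupCohomology.sha₁ S M ∧
      ((DS S).Sha2 M.ρ).map (H73.F6.h2Equiv S M).toLinearMap = groupCohomology.sha₂ S M :=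
  ⟨H73.F6.map_Sha1 S M hp2, H73.F6.map_Sha2 S M hp2⟩

/-- **S55** (Poitou-Tate duality between `Sha^1_S(M')` and `Sha^2_S(M)`), in the language of the frozen
statement: `M` is a finite dimensional representation of `GQ` over `F_p` whose vectors have open
stabilisers and on which inertia outside `S` acts trivially; `sha₁`, `sha₂` are the kernels of
localisation in the Prelude's cohomology of `G_S`. (`S55`, `H55Fin`, from `finrank_sha` and
`prelude_sha`; `H55GlobFin`: finiteness of `H^2` of `G_S` from that of `Sha^2`.) -/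
theorem poitou_tate {p : ℕ} [Fact p.Prime] (hp2 : p ≠ 2) (S : Finset Nat.Primes)
    (hpS : pPrime p ∈ S) (M : Rep (ZMod p) GQ) [FiniteDimensional (ZMod p) M]
    (hsm : ∀ m : M, ∃ F : IntermediateField ℚ (AlgebraicClosure ℚ), FiniteDimensional ℚ F ∧
      ∀ s ∈ F.fixingSubgroup, M.ρ s m = m)
    (hMur : ∀ q : Nat.Primes, q ∉ S → ∀ A : ValuationSubring (AlgebraicClosure ℚ),
      A.LiesOverPrime (q : ℕ) → ∀ g ∈ A.inertiaSubgroupIn ℚ, M.ρ g = 1) :
    ∃ B : groupCohomology.sha₁ S (M.dualTwist (cycloChar p)) →ₗ[ZMod p]
        groupCohomology.sha₂ S M →ₗ[ZMod p] ZMod p,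
      (∀ y, (∀ x, B y x = 0) → y = 0) ∧ (∀ x, (∀ y, B y x = 0) → x = 0) :=
  S55.result hp2 S hpS M hsm hMur

end Fermat.Agent.Guide.PoitouTate
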