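import Fermat.Agent.H65ProRep

/-!
# Guide to the proof: complete rings from families of ideals (companion of GuideDeformations, for S53)

This file is a machine-checked table of contents. Every theorem below is a citation of a theorem of
the library, with its statement written out. Nothing imports this file.

**What it does.** `GuideDeformations.pro_representability` produces the universal deformation ring: from a
family `Adm` of ideals of an `O`-algebra `P` (the kernels of the deformations of the given type over
finite rings) it makes a complete noetherian local `O`-algebra `R` and a map `Φ : P → R` with dense image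
such that the kernels of `P → R / m_R^n` belong to the family and are cofinal in it. Here are the steps
of the proof. It replaces Schlessinger's criterion; there are no functors and no Artinian category.

**The situation.** `O` is a complete noetherian local ring with finite residue field, `P` any commutative
`O`-algebra, `m` a maximal ideal of `P` such that `O → P/m` is onto; the ideals `I` of the family satisfy
`m^n ≤ I ≤ m` for some `n` and have finite index; the family contains `m` and is closed under
intersections and under enlargement below `m`. (`P` is not assumed to be noetherian; in the application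
it is generated by the matrix entries of all elements of the Galois group.)

**The steps.**
 (a) *Finitely many generators.* Suppose that `x_1, ..., x_h ∈ m` generate `m` modulo `I + m_O P` for
   every `I` in the family. Then every `P/I` is a quotient of the power series ring
   `S = O[[X_1, ..., X_h]]`: evaluate at `x_1, ..., x_h` and use Nakayama's lemma.
 (b) *Least ideals.* If moreover `m^n ≤ I`, then `P/I` is a quotient of `S/m_S^n`, which is a finite ring.
   So the index of such an `I` is bounded, and for `n ≥ 1` the family has a least ideal `I_n` among those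
   which contain `m^n` (take one of maximal index; it is contained in the others, by intersection).
 (c) *Passage to `S`.* Let `a_n` be the kernel of `S → P/I_n`. Then `m_S^n ≤ a_n`, and
   `a_j ≤ a_n + m_S^j` for `j ≤ n`, because `I_n + m^j` is in the family, hence contains `I_j`. By
   Chevalley's theorem (`GuideDeformations.chevalley`; here the completeness of `S` is used)
   `a_n = J + m_S^n`, where `J` is the intersection of all `a_n`. So `R = S/J`, which is noetherian and
   complete because `S` is, satisfies `R/m_R^n = S/a_n = P/I_n`; and the maps `P → P/I_n = R/m_R^n`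
   define `Φ : P → R`.
 (d) *The number of generators.* The hypothesis in (a) follows from the one of `pro_representability`:
   there is an ideal `K` of finite index which is contained in `I + m^2 + m_O P` for all `I` in the
   family. Take for `x_1, ..., x_h` representatives of the elements of `m` modulo `K`; they generate `m`
   modulo `I + m^2 + m_O P`, and so (iterate, since `m^n ≤ I`) modulo `I + m_O P`.
The universal property of `R` is `GuideDeformations.lift_to_completion`.

**Notation.** `maximalIdeal A` is the maximal ideal of the local ring `A`; `mP` is the ideal `m` of `P`.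

**Where.** NOTES.md, Appendix A.10: [245]; Appendix A.12: [289], part 2. Everything is in the proof terms
of S53, S01, S03, S04, S06, S38, S43, S45, S46, S50, S59, S60.
Author: helper65 (`H65PowerSeries`, `H65ProRep`); the frame was agreed with helper53 and helper69.
-/

set_option autoImplicit false

namespace Fermat.Agent.Guide.ProRep

open IsLocalRing Fermat.Agent

/-! ## 1. Power series rings over local rings -/

/-- **The maximal ideal** (`H65PowerSeries`): a power series over a local ring is in the maximal ideal
iff its constant coefficient is. -/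
theorem mem_maximalIdeal_iff {R : Type} [CommRing R] [IsLocalRing R] (f : PowerSeries R) :
    f ∈ maximalIdeal (PowerSeries R) ↔ PowerSeries.constantCoeff f ∈ maximalIdeal R :=
  H65.ps_mem_maximalIdeal_iff f

/-- **The powers of the maximal ideal** (`H65PowerSeries`): `f ∈ m^n` iff its `i`-th coefficient is in
`m_R^(n - i)` for all `i < n`. (`n - i` is truncated subtraction: no condition for `i ≥ n`.) This holds for
every local ring `R`, noetherian or not. -/
theorem mem_pow_iff {R : Type} [CommRing R] [IsLocalRing R] (n : ℕ) (f : PowerSeries R) :
    f ∈ (maximalIdeal (PowerSeries R)) ^ n ↔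
      ∀ i : ℕ, PowerSeries.coeff i f ∈ (maximalIdeal R) ^ (n - i) :=
  ⟨H65.ps_pow_mem_coeff n f, H65.ps_mem_pow_of_coeff n f⟩

/-- **Completeness in one variable** (`H65PowerSeries`): if `R` is complete (and separated) for the
topology of its maximal ideal, so is `R[[X]]` for the topology of *its* maximal ideal. Proof: the limit
is taken coefficient by coefficient, by `mem_pow_iff`. -/
theorem complete_one_variable {R : Type} [CommRing R] [IsLocalRing R]
    [IsAdicComplete (maximalIdeal R) R] :
    IsAdicComplete (maximalIdeal (PowerSeries R)) (PowerSeries R) :=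
  H65.isAdicComplete_powerSeries

/-- **Completeness in several variables** (`H65PowerSeries`), by induction on the number of variables. -/
theorem complete_several_variables {O : Type} [CommRing O] [IsLocalRing O]
    [IsAdicComplete (maximalIdeal O) O] (h : ℕ) :
    IsAdicComplete (maximalIdeal (MvPowerSeries (Fin h) O)) (MvPowerSeries (Fin h) O) :=
  H65.isAdicComplete_mvPowerSeries_fin h

/-- **Finite quotients** (`H65ProRep`): if `O` is noetherian with finite residue field, `S/m_S^n` is finite
for `S = O[[X_1, ..., X_h]]`. -/
theorem finite_quotients {O : Type} [CommRing O] [IsLocalRing O] [IsNoetherianRing O]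
    [Finite (ResidueField O)] (h n : ℕ) :
    Finite (MvPowerSeries (Fin h) O ⧸ (maximalIdeal (MvPowerSeries (Fin h) O)) ^ n) :=
  H65.finite_quot_mvps n

/-! ## 2. Evaluation modulo an open ideal

`P` is an `O`-algebra, `mP` an ideal of `P`, `x_1, ..., x_h ∈ mP`, and `I` an ideal which contains
`mP^n`. `ev mP x hx n I hI` is the `O`-algebra homomorphism from the power series ring to `P/I` which
sends `X_i` to `x_i`. No topology on `P` is needed. -/

/-- **Evaluation** (`H65ProRep`): the value of the power series `f` is the value at `x_1, ..., x_h` of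
the polynomial `f.truncTotal n` (the terms of total degree less than `n`); `X_i` goes to `x_i`. -/
theorem evaluation {O : Type} [CommRing O] {P : Type} [CommRing P] [Algebra O P] {h : ℕ}
    (mP : Ideal P) (x : Fin h → P) (hx : ∀ i, x i ∈ mP) (n : ℕ) (I : Ideal P) (hI : mP ^ n ≤ I) :
    (∀ f : MvPowerSeries (Fin h) O, H65.ev mP x hx n I hI f =
        Ideal.Quotient.mk I (MvPolynomial.aeval x (f.truncTotal n))) ∧
      ∀ i, H65.ev mP x hx n I hI (MvPowerSeries.X i : MvPowerSeries (Fin h) O) =
        Ideal.Quotient.mk I (x i) :=
  ⟨H65.ev_apply mP x hx n I hI, H65.ev_X mP x hx n I hI⟩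

/-- **Compatibility** (`H65ProRep`): evaluation does not depend on `n`, and it is compatible with the
projections `P/J → P/I` for `J ≤ I`. -/
theorem evaluation_compatible {O : Type} [CommRing O] {P : Type} [CommRing P] [Algebra O P] {h : ℕ}
    (mP : Ideal P) (x : Fin h → P) (hx : ∀ i, x i ∈ mP) {n n' : ℕ} (hn : n ≤ n') {I J : Ideal P}
    (hI : mP ^ n ≤ I) (hJ : mP ^ n' ≤ J) (hJI : J ≤ I) (f : MvPowerSeries (Fin h) O) :
    Ideal.Quotient.factor hJI (H65.ev mP x hx n' J hJ f) = H65.ev mP x hx n I hI f :=
  H65.ev_change mP x hx hn hI hJ hJI f

/-- **Surjectivity** (`H65ProRep`), step (a): if `P/I` is finite, `O → P/mP` is onto, and the `x_i`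
generate `mP` modulo `I + m_O P`, then evaluation is onto. Proof: Nakayama's lemma for the module `P/I`
over the power series ring `S` (the image of `S` and `m_S · (P/I)` together are everything). -/
theorem evaluation_surjective {O : Type} [CommRing O] [IsLocalRing O] {P : Type} [CommRing P]
    [Algebra O P] {h : ℕ} (mP : Ideal P)
    (hres : Function.Surjective ((Ideal.Quotient.mk mP).comp (algebraMap O P)))
    (x : Fin h → P) (hx : ∀ i, x i ∈ mP) (n : ℕ) (I : Ideal P) (hI : mP ^ n ≤ I) [Finite (P ⧸ I)]
    (hgen : mP ≤ I ⊔ (maximalIdeal O).map (algebraMap O P) ⊔ Ideal.span (Set.range x)) :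
    Function.Surjective (H65.ev mP x hx n I hI : MvPowerSeries (Fin h) O →ₐ[O] P ⧸ I) :=
  H65.ev_surjective mP hres x hx n I hI hgen

/-- **The maximal ideals correspond** (`H65ProRep`), for `mP` maximal and `I ≤ mP`: a power series has its
value in `mP/I` iff it is in the maximal ideal of the power series ring. -/
theorem evaluation_residue {O : Type} [CommRing O] [IsLocalRing O] {P : Type} [CommRing P]
    [Algebra O P] {h : ℕ} (mP : Ideal P) [mP.IsMaximal]
    (hres : Function.Surjective ((Ideal.Quotient.mk mP).comp (algebraMap O P)))
    (x : Fin h → P) (hx : ∀ i, x i ∈ mP) (n : ℕ) (I : Ideal P) (hI : mP ^ n ≤ I) (hIm : I ≤ mP)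
    (f : MvPowerSeries (Fin h) O) :
    Ideal.Quotient.factor hIm (H65.ev mP x hx n I hI f) = 0 ↔
      f ∈ maximalIdeal (MvPowerSeries (Fin h) O) :=
  H65.factor_ev_eq_zero_iff mP hres x hx n I hI hIm f

/-- **The kernel and the image of the maximal ideal** (`H65ProRep`): the kernel of the evaluation
contains the `n`-th power of the maximal ideal `m_S` of the power series ring; and if the `x_i` generate
`mP` modulo `I + m_O P`, the image of `m_S` generates `mP/I`. (If `P/I` is finite, evaluation is onto in
this case, so the image of `m_S^j` is `(mP^j + I)/I`.) -/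
theorem evaluation_ideals {O : Type} [CommRing O] [IsLocalRing O] {P : Type} [CommRing P]
    [Algebra O P] {h : ℕ} (mP : Ideal P) [mP.IsMaximal]
    (hres : Function.Surjective ((Ideal.Quotient.mk mP).comp (algebraMap O P)))
    (x : Fin h → P) (hx : ∀ i, x i ∈ mP) (n : ℕ) (I : Ideal P) (hI : mP ^ n ≤ I) (hIm : I ≤ mP) :
    (maximalIdeal (MvPowerSeries (Fin h) O)) ^ n ≤
        RingHom.ker (H65.ev mP x hx n I hI : MvPowerSeries (Fin h) O →ₐ[O] P ⧸ I) ∧
      (mP ≤ I ⊔ (maximalIdeal O).map (algebraMap O P) ⊔ Ideal.span (Set.range x) →
        (maximalIdeal (MvPowerSeries (Fin h) O)).map (H65.ev mP x hx n I hI) =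
          mP.map (Ideal.Quotient.mk I)) :=
  ⟨H65.pow_le_ker_ev mP hres x hx n I hI hIm, H65.map_maximalIdeal_ev mP hres x hx n I hI hIm⟩

/-! ## 3. The least ideals and the completion -/

/-- **Least ideals** (`H65ProRep`), step (b). `Adm` is the family, with the hypotheses of step (a). For
every `n > 0` there is a least ideal `I_n` in the family among those which contain `mP^n`. (By
`evaluation_surjective` and `evaluation_ideals`, `P/I` is a quotient of the finite ring `S/m_S^n` for all
these `I`; one of maximal index is contained in all others, because of the intersections.) -/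
theorem least_ideal {O : Type} [CommRing O] [IsLocalRing O] [IsNoetherianRing O]
    [Finite (ResidueField O)] {P : Type} [CommRing P] [Algebra O P] {h : ℕ} (mP : Ideal P)
    [mP.IsMaximal] (hres : Function.Surjective ((Ideal.Quotient.mk mP).comp (algebraMap O P)))
    (Adm : Ideal P → Prop) (hbase : Adm mP) (hle : ∀ I, Adm I → I ≤ mP)
    (hfin : ∀ I, Adm I → Finite (P ⧸ I)) (hinf : ∀ I J, Adm I → Adm J → Adm (I ⊓ J))
    (x : Fin h → P) (hx : ∀ i, x i ∈ mP)
    (hgen : ∀ I, Adm I →
      mP ≤ I ⊔ (maximalIdeal O).map (algebraMap O P) ⊔ Ideal.span (Set.range x))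
    (n : ℕ) (hn : n ≠ 0) :
    ∃ I, Adm I ∧ mP ^ n ≤ I ∧ ∀ J, Adm J → mP ^ n ≤ J → I ≤ J :=
  H65.exists_least mP hres Adm hbase hle hfin hinf x hx hgen n hn

/-- **Approximation** (`H65ProRep`): Chevalley's theorem (`GuideDeformations.chevalley`) in terms of
elements, as it is used in step (c), where `a n` is the kernel of `S → P/I_n`: every element of `a j` is
the sum of an element which is in all `a n` and an element of `m_S^j`. Proof: successive approximation,
and completeness of `S`. -/
theorem approximation {S : Type} [CommRing S] [IsLocalRing S] [IsAdicComplete (maximalIdeal S) S]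
    (a : ℕ → Ideal S) (hpow : ∀ n, maximalIdeal S ^ n ≤ a n) (hanti : ∀ j n, j ≤ n → a n ≤ a j)
    (hstep : ∀ j n, j ≤ n → a j ≤ a n ⊔ maximalIdeal S ^ j) (j : ℕ) (f : S) (hf : f ∈ a j) :
    ∃ y z, (∀ n, y ∈ a n) ∧ z ∈ maximalIdeal S ^ j ∧ y + z = f := by
  obtain ⟨y, hy, z, hz, h⟩ := Submodule.mem_sup.1 (H65.chevalley a hpow hanti hstep j ▸ hf)
  exact ⟨y, z, fun n => Ideal.mem_iInf.1 hy n, hz, h⟩

/-- **The completion, if there are finitely many generators** (`H65ProRep`), steps (a) to (c): a
complete noetherian local `O`-algebra `R` with the residue field of `O` and a homomorphism `Φ : P → R`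
with dense image such that the kernel of `P → R/m_R^n` is in the family for `n ≠ 0`, and is contained in
every ideal of the family which contains `mP^n`. With step (d) this becomes
`GuideDeformations.pro_representability`. -/
theorem completion_of_generators {O : Type} [CommRing O] [IsLocalRing O] [IsNoetherianRing O]
    [Finite (ResidueField O)] [IsAdicComplete (maximalIdeal O) O] {P : Type} [CommRing P]
    [Algebra O P] (mP : Ideal P) [mP.IsMaximal]
    (hres : Function.Surjective ((Ideal.Quotient.mk mP).comp (algebraMap O P)))
    (Adm : Ideal P → Prop) (hbase : Adm mP) (hle : ∀ I, Adm I → I ≤ mP)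
    (hpow : ∀ I, Adm I → ∃ n : ℕ, mP ^ n ≤ I) (hfin : ∀ I, Adm I → Finite (P ⧸ I))
    (hup : ∀ I J, Adm I → I ≤ J → J ≤ mP → Adm J) (hinf : ∀ I J, Adm I → Adm J → Adm (I ⊓ J))
    (h : ℕ) (x : Fin h → P) (hx : ∀ i, x i ∈ mP)
    (hgen : ∀ I, Adm I →
      mP ≤ I ⊔ (maximalIdeal O).map (algebraMap O P) ⊔ Ideal.span (Set.range x)) :
    ∃ (R : Type) (_ : CommRing R) (_ : IsLocalRing R) (_ : IsNoetherianRing R)
      (_ : IsAdicComplete (maximalIdeal R) R) (_ : Algebra O R) (_ : IsLocalHom (algebraMap O R)),
      Function.Surjective (residue R ∘ algebraMap O R) ∧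
      ∃ Φ : P →ₐ[O] R,
        (∀ (n : ℕ) (r : R), ∃ p : P, r - Φ p ∈ maximalIdeal R ^ n) ∧
        (∀ n : ℕ, n ≠ 0 → Adm ((maximalIdeal R ^ n).comap Φ)) ∧
        (∀ (n : ℕ) (I : Ideal P), Adm I → mP ^ n ≤ I → (maximalIdeal R ^ n).comap Φ ≤ I) :=
  H65.prorep_gen O P mP hres Adm hbase hle hpow hfin hup hinf h x hx hgen

end Fermat.Agent.Guide.ProRep
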