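import Fermat.Agent.H45P1Genus

/-!
# Reader's guide: the cosets of `Γ₀(N)` and the genus formula (companion of `GuideModularForms`,
`GuideModularCurves`)

Every theorem of this file is proved by citing a theorem of the library; nothing here is used by any other
file. Editor: helper45. Notes: [134]. The index of `Γ₀(N)` is used for S20 (dimension), S47, S48, the
recursion of `ψ` also for S28; the numbers of fixed points, of cusps and of orbits are used for S21 and S41
(upper bound for the dimension of the parabolic cohomology, `H77ParGenus`; guide `Parabolic`), for S24 (genus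
of `X₀(N)`, `H94S24`, `H50ParabGamma0`) and for the places over `0`, `1728` and `∞` of the `j`-line
(`H94Export`), hence for S01 and for all statements which use the Jacobian of `X₀(N)`.

**What is proved.** `SL₂(ℤ)` acts on the finite set `SL₂(ℤ)/Γ₀(N)`, the projective line over `ℤ/N`. Let
`S = (0 -1; 1 0)` and `T = (1 1; 0 1)`.
* The number of points is `ψ(N) = N ∏ (1 + 1/p)`, defined as the sum of `N/d` over the squarefree `d ∣ N`.
* `S` has `ν₂(N)` fixed points, the solutions of `x² + 1 = 0` in `ℤ/N`; `ST` has `ν₃(N)`, the solutions of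
  `x² + x + 1 = 0`.
* The orbits of `T` are the cusps; their number is the sum of `φ(gcd(d, N/d))` over `d ∣ N`.
* The genus formula `1 + ψ/12 - ν₂/4 - ν₃/3 - c/2` is half of `ψ + 2 - (orbits of S) - (orbits of ST) - c`,
  `c` the number of orbits of `T`, and it is an integer: the permutation of `ST` is the product of those of
  `S` and `T`, and the sign of a permutation of `n` points with `k` orbits is `(-1)^(n + k)`.

The genus formula is always used in this combinatorial form. In S24 the orbits are the places over the three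
ramified points of the `j`-line (guides `ModularCurves`, `Cusps`), in S21 they are relations in the cohomology
of `PSL₂(ℤ)`. That the formula gives a natural number (an integer by the parity, not negative by the bound of
`H50ParabGamma0`; `genusFormula_natural` in the guide `ModularCurves`) is used for S24.
-/

set_option autoImplicit false

noncomputable section

open CongruenceSubgroup ModularGroup MatrixGroups

namespace Fermat.Agent.Guide.ProjectiveLine

open Fermat.Agent.H45 (P1 mkP TOrbits mkO colGcd orbDiv)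
open ModularCurve (dedekindPsi nuTwo nuThree cuspCount genusFormula)

/-! ## 1. Points -/

/-- **Points of the projective line.** `P1 N` is the set `SL₂(ℤ)/Γ₀(N)`, `mkP N g` the coset of `g`. Two
matrices with the first columns `(a, c)` and `(a', c')` have the same coset if and only if `N` divides
`a c' - a' c`. The coprime pairs of integers are the first columns. File `H45P1Basic`. -/
theorem points {N : ℕ} (g h : SL(2, ℤ)) :
    (mkP N g = mkP N h ↔ (N : ℤ) ∣ g 0 0 * h 1 0 - h 0 0 * g 1 0) ∧
      IsCoprime (g 0 0) (g 1 0) ∧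
      ∀ a c : ℤ, IsCoprime a c → ∃ g' : SL(2, ℤ), g' 0 0 = a ∧ g' 1 0 = c :=
  ⟨H45.mkP_eq_iff g h, H45.isCoprime_col g, fun _ _ => H45.exists_SL2⟩

/-- **The action** of a matrix `m` is the multiplication from the left; `S` maps the column `(a, c)` to
`(-c, a)` and `T^k` maps it to `(a + k c, c)`. File `H45P1Basic`. -/
theorem action (N : ℕ) (m g : SL(2, ℤ)) (k : ℤ) : m • mkP N g = mkP N (m * g) ∧
    ((S * g) 0 0 = - g 1 0 ∧ (S * g) 1 0 = g 0 0) ∧
    ((T ^ k * g) 0 0 = g 0 0 + k * g 1 0 ∧ (T ^ k * g) 1 0 = g 1 0) :=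
  ⟨H45.smul_mkP N m g, ⟨H45.S_mul_zero_zero g, H45.S_mul_one_zero g⟩,
    ⟨H45.T_zpow_mul_zero_zero k g, H45.T_zpow_mul_one_zero k g⟩⟩

/-! ## 2. The index -/

/-- **The index of `Γ₀(pM)` in `Γ₀(M)`** is `p` if `p` divides `M`, and `p + 1` otherwise. File
`H45P1Index`. -/
theorem relative_index {M p : ℕ} (hp : p.Prime) (hM : M ≠ 0) :
    (p ∣ M → (Gamma0 (p * M)).relIndex (Gamma0 M) = p) ∧
      (¬ p ∣ M → (Gamma0 (p * M)).relIndex (Gamma0 M) = p + 1) :=
  ⟨H45.relIndex_of_dvd hp hM, H45.relIndex_of_not_dvd hp hM⟩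

/-- **The function `ψ`** satisfies the same recursion. It is used in many places for degrees, since
`[F(pM) : F(M)]` is the quotient `ψ(pM)/ψ(M)`. File `H45P1Index`. -/
theorem dedekindPsi_recursion {M p : ℕ} (hp : p.Prime) (hM : M ≠ 0) :
    (p ∣ M → dedekindPsi (p * M) = p * dedekindPsi M) ∧
      (¬ p ∣ M → dedekindPsi (p * M) = (p + 1) * dedekindPsi M) :=
  ⟨H45.dedekindPsi_mul_of_dvd hp hM, H45.dedekindPsi_mul_of_not_dvd hp hM⟩

/-- **The index of `Γ₀(N)`** is `ψ(N)`: induction on the number of prime factors. File `H45P1Index`. -/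
theorem index (N : ℕ) [NeZero N] :
    (Gamma0 N).index = dedekindPsi N ∧ Nat.card (P1 N) = dedekindPsi N :=
  ⟨H45.index_Gamma0 N, H45.natCard_P1 N⟩

/-! ## 3. Fixed points of `S` and `ST` -/

/-- **Fixed points**: the point `(a : c)` is fixed by `S` if and only if `N` divides `a² + c²`, and by `ST` if
and only if `N` divides `a² + a c + c²`. File `H45P1Basic`. -/
theorem fixed_iff {N : ℕ} (g : SL(2, ℤ)) :
    (S • mkP N g = mkP N g ↔ (N : ℤ) ∣ g 0 0 ^ 2 + g 1 0 ^ 2) ∧
      ((S * T) • mkP N g = mkP N g ↔ (N : ℤ) ∣ g 0 0 ^ 2 + g 0 0 * g 1 0 + g 1 0 ^ 2) :=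
  ⟨H45.S_smul_eq_iff g, H45.ST_smul_eq_iff g⟩

/-- If `a` and `c` are coprime and `N` divides `a² + t a c + c²`, then `c` is prime to `N`; so the point is
`(x : 1)` with `x² + t x + 1 = 0` in `ℤ/N`. File `H45P1Basic`. -/
theorem denominator {N : ℕ} {a c t : ℤ} (h : IsCoprime a c)
    (hN : (N : ℤ) ∣ a ^ 2 + t * (a * c) + c ^ 2) : IsCoprime c (N : ℤ) :=
  H45.isCoprime_of_dvd_quadratic h hN

/-- **The numbers of fixed points** of `S` and `ST` are the numbers of solutions of `x² + 1 = 0` and of
`x² + x + 1 = 0` in `ℤ/N`. File `H45P1Basic`. -/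
theorem number_of_fixed_points (N : ℕ) [NeZero N] :
    (Nat.card {x : P1 N // S • x = x} = nuTwo N ∧ nuTwo N = Nat.card {x : ZMod N // x ^ 2 + 1 = 0}) ∧
      (Nat.card {x : P1 N // (S * T) • x = x} = nuThree N ∧
        nuThree N = Nat.card {x : ZMod N // x ^ 2 + x + 1 = 0}) :=
  ⟨⟨H45.natCard_fixed_S N, rfl⟩, ⟨H45.natCard_fixed_ST N, rfl⟩⟩

/-! ## 4. Cusps -/

/-- **Orbits of `T`** (the type `TOrbits N`, `mkO N x` is the orbit of `x`). The point `(a : c)` is mapped to
`(a' : c')` by `T^k` if and only if `N` divides `(a + k c) c' - a' c`, and it is fixed by `T^k` if and only if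
`N` divides `k c²`. File `H45P1Cusps`. -/
theorem orbits_of_T {N : ℕ} (k : ℤ) (g h : SL(2, ℤ)) (x y : P1 N) :
    ((T ^ k) • mkP N g = mkP N h ↔ (N : ℤ) ∣ (g 0 0 + k * g 1 0) * h 1 0 - h 0 0 * g 1 0) ∧
      ((T ^ k) • mkP N g = mkP N g ↔ (N : ℤ) ∣ k * g 1 0 ^ 2) ∧
      (mkO N x = mkO N y ↔ ∃ k : ℤ, (T ^ k) • x = y) :=
  ⟨H45.T_zpow_smul_eq_iff k g h, H45.T_zpow_smul_self_iff k g, H45.mkO_eq_iff x y⟩

/-- **The divisor of a cusp**: `gcd(c, N)` depends only on the coset and on the orbit of `T`. File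
`H45P1Cusps`. -/
theorem divisor_of_cusp (N : ℕ) (g : SL(2, ℤ)) (x : TOrbits N) :
    colGcd N g = Int.gcd (g 1 0) N ∧ orbDiv N (mkO N (mkP N g)) = colGcd N g ∧ orbDiv N x ∣ N :=
  ⟨rfl, H45.orbDiv_mkO N g, H45.orbDiv_dvd N x⟩

/-- **Cusps with the same divisor** `d = gcd(c, N) = gcd(c', N)`: the points `(a : c)` and `(a' : c')` are in
the same orbit of `T` if and only if `a (c'/d) ≡ a' (c/d)` modulo `gcd(d, N/d)`. File `H45P1Cusps`. -/
theorem same_cusp_iff {N : ℕ} [NeZero N] {d : ℕ} {g h : SL(2, ℤ)} (hg : colGcd N g = d)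
    (hh : colGcd N h = d) :
    (∃ k : ℤ, (T ^ k) • mkP N g = mkP N h) ↔
      ((Nat.gcd d (N / d) : ℕ) : ℤ) ∣ g 0 0 * (h 1 0 / d) - h 0 0 * (g 1 0 / d) :=
  H45.exists_T_zpow_smul_eq_iff hg hh

/-- Each unit modulo a divisor `m` of `d` is represented by an integer prime to `d`; with `m = gcd(d, N/d)`
this gives all classes in the preceding theorem. File `H45P1Cusps`. -/
theorem lift_of_unit {m d : ℕ} (hd : d ≠ 0) (hmd : m ∣ d) (u : (ZMod m)ˣ) :
    ∃ a : ℤ, IsCoprime a (d : ℤ) ∧ ((a : ℤ) : ZMod m) = u :=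
  H45.exists_isCoprime_lift hd hmd u

/-- **The number of cusps**: `φ(gcd(d, N/d))` cusps have the divisor `d`, so their number is the sum over
`d ∣ N`. File `H45P1Cusps`. -/
theorem number_of_cusps (N : ℕ) [NeZero N] :
    (∀ d : ℕ, d ∣ N → Nat.card {x : TOrbits N // orbDiv N x = d} = Nat.totient (Nat.gcd d (N / d))) ∧
      Nat.card (TOrbits N) = ∑ d ∈ N.divisors, Nat.totient (Nat.gcd d (N / d)) :=
  ⟨fun _ hd => H45.natCard_orbDiv_eq N hd, H45.natCard_TOrbits N⟩

/-! ## 5. Orbits and signs of permutations -/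

/-- **Number of orbits of a permutation**: fixed points plus cycles of length `> 1`. File `H45PermSign`. -/
theorem number_of_orbits {α : Type*} [Fintype α] [DecidableEq α] (σ : Equiv.Perm α) :
    Nat.card (Quotient (Equiv.Perm.SameCycle.setoid σ)) =
      Fintype.card (Function.fixedPoints σ) + Multiset.card σ.cycleType :=
  H45.card_sameCycle_quotient σ

/-- **Sign of a permutation**: `(-1)^(number of points + number of orbits)`. File `H45PermSign`. -/
theorem sign {α : Type*} [Fintype α] [DecidableEq α] (σ : Equiv.Perm α) :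
    Equiv.Perm.sign σ =
      (-1 : ℤˣ) ^ (Fintype.card α + Nat.card (Quotient (Equiv.Perm.SameCycle.setoid σ))) :=
  H45.sign_eq_neg_one_pow σ

/-- **Elements of prime order**: if `g^p` acts trivially on a finite set with `f` fixed points of `g`, then
the set has `f + p k` points and `g` has `f + k` orbits, for some `k`. File `H45PermSign`. -/
theorem orbits_of_prime_order {G X : Type*} [Group G] [MulAction G X] [Finite X] (g : G) {p : ℕ}
    [Fact p.Prime] (hg : ∀ x : X, (g ^ p) • x = x) :
    ∃ k : ℕ, Nat.card X = Nat.card {x : X // g • x = x} + p * k ∧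
      Nat.card (MulAction.orbitRel.Quotient (Subgroup.zpowers g) X) =
        Nat.card {x : X // g • x = x} + k :=
  H45.card_orbits_toPerm_of_pow_prime g hg

/-! ## 6. The genus formula -/

/-- **The relations** `S² = -1` and `(S T)³ = -1`; `-1` acts trivially on the projective line. File
`H45P1Genus`. -/
theorem relations (N : ℕ) (x : P1 N) : (S : SL(2, ℤ)) ^ 2 = -1 ∧ (S * T : SL(2, ℤ)) ^ 3 = -1 ∧
    (-1 : SL(2, ℤ)) • x = x :=
  ⟨H45.S_sq, H45.ST_cube, H45.neg_one_smul_P1 N x⟩

/-- **Orbits of `S`**: `ψ(N) = ν₂(N) + 2 k` points and `ν₂(N) + k` orbits. File `H45P1Genus`. -/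
theorem orbits_of_S (N : ℕ) [NeZero N] : ∃ k : ℕ, dedekindPsi N = nuTwo N + 2 * k ∧
    Nat.card (MulAction.orbitRel.Quotient (Subgroup.zpowers (S : SL(2, ℤ))) (P1 N)) =
      nuTwo N + k :=
  H45.exists_orbits_S N

/-- **Orbits of `ST`**: `ψ(N) = ν₃(N) + 3 k` points and `ν₃(N) + k` orbits. File `H45P1Genus`. -/
theorem orbits_of_ST (N : ℕ) [NeZero N] : ∃ k : ℕ, dedekindPsi N = nuThree N + 3 * k ∧
    Nat.card (MulAction.orbitRel.Quotient (Subgroup.zpowers (S * T : SL(2, ℤ))) (P1 N)) =
      nuThree N + k :=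
  H45.exists_orbits_ST N

/-- **Parity**: `ψ(N)` plus the numbers of orbits of `S`, `ST` and `T` is even, because the sign is
multiplicative. (The numbers of orbits of `S` and `ST` are called `H45.orbS N` and `H45.orbST N`.) File
`H45P1Genus`. -/
theorem parity (N : ℕ) [NeZero N] :
    Even (dedekindPsi N +
      Nat.card (MulAction.orbitRel.Quotient (Subgroup.zpowers (S : SL(2, ℤ))) (P1 N)) +
      Nat.card (MulAction.orbitRel.Quotient (Subgroup.zpowers (S * T : SL(2, ℤ))) (P1 N)) +
      cuspCount N) :=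
  H45.even_orbits N

/-- **The genus formula** `g = 1 + ψ/12 - ν₂/4 - ν₃/3 - c/2` as a count of orbits (formula of Riemann and
Hurwitz): `2 g = ψ + 2 - (orbits of S) - (orbits of ST) - c`, `c` the number of cusps. File `H45P1Genus`. -/
theorem genus_formula (N : ℕ) [NeZero N] :
    genusFormula N = 1 + (dedekindPsi N : ℚ) / 12 - (nuTwo N : ℚ) / 4 - (nuThree N : ℚ) / 3
      - (cuspCount N : ℚ) / 2 ∧
    2 * genusFormula N = (dedekindPsi N : ℚ) + 2 -
      Nat.card (MulAction.orbitRel.Quotient (Subgroup.zpowers (S : SL(2, ℤ))) (P1 N)) -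
      Nat.card (MulAction.orbitRel.Quotient (Subgroup.zpowers (S * T : SL(2, ℤ))) (P1 N)) -
      cuspCount N :=
  ⟨rfl, H45.two_mul_genusFormula N⟩

/-- **The genus formula gives an integer.** File `H45P1Genus`. -/
theorem genus_formula_integral (N : ℕ) [NeZero N] : ∃ g : ℤ, (g : ℚ) = genusFormula N :=
  H45.exists_int_genusFormula N

end Fermat.Agent.Guide.ProjectiveLine
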