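import Fermat.Agent.H77ZFin
import Fermat.Agent.H82G4b
import Fermat.Agent.H82LTFI

/-!
# Reader's guide: class field theory of cyclic extensions of prime degree, quadratic reciprocity

This file is a table of contents, checked by Lean: the key theorems of the block, written out in full,
each proved by citing the library. It is imported by no other file.

## What the block does

The proof of the main theorem (S01) and the octahedral case (S47) need only the part of class field
theory which concerns a number field `K` containing the `p`-th roots of unity and a Galois extension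
`L/K` of prime degree `p`:

* the first inequality, the second inequality and the Hasse norm theorem for `L/K`;
* a substitute for the reciprocity law: every place contributes to the cokernel of `Kˣ` in the local
  norm residue groups, and this cokernel has order dividing `p`;
* for S47: the product formula for the quadratic norm residue symbol over a totally complex field
  (quadratic reciprocity), so that the quadratic character of `L/K` is a ray class character.

There are no ideles, no completions in the statements, no Brauer groups, no cohomology of the idele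
class group and no zeta functions of `L/K`. The local objects at a place `v` are subgroups of the
multiplicative group `Kˣ` of the global field, for instance `N(Lˣ) · (1 + v^m)` in place of the local
norm group, and everything is an index computation in the style of Herbrand and Chevalley. The analytic
input is one theorem, Frobenius' density theorem of 1896, which rests on the pole at `s = 1` of
Dedekind zeta functions (Mathlib). Chebotarev's theorem is not needed here; its symmetric form
(`H85.chebotarev_gal_of`, S48 and block T of S47) is shown in `GuideDeligneSerre` and `GuideChebotarev`.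

## Reading order

1. Notions. 2. Frobenius' density theorem. 3. Local groups and their indices. 4. Kummer extensions.
5. First inequality. 6. Second inequality. 7. Hasse norm theorem. 8. Every place contributes.
9. The quadratic norm residue symbol and quadratic reciprocity.

The steps of the proofs are shown in three companions: `GuideDensity` (sections 1 - 3: the density theorem),
`GuideLocalNorms` (helper65: local norm index, first inequality) and `GuideClassField` (everything else). The
story continues in `GuideEulerChar`, `GuideHasseH2`, `GuideLocalGlobal` (S55) and `GuideQuarticCharacter`,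
`GuideOctD` (S47).

Library files in this order: `H82CftDefs`; `H99PrimeSum`, `H99Combo`, `H82Galois`, `H82FrobDensity`;
`H82Approx`, `H82LocIndex`, `H82LocIndex2`, `H82RootVal`, `H82GlobIndex`, `H65LocIndex`, `H65Adic`,
`H82Tame`, `H82Stable`; `H82Kummer`, `H82KummerExists`, `H82Residue`; `H65First`, `H82LTFI`;
`H82AuxField`, `H82AuxPrime`, `H82AuxSet`, `H82Second`; `H82Hasse`, `H54THasse`, `H77ZAdj`, `H77ZNorm`;
`H82G4`, `H82G4b`, `H82J8`, `H54Codim`; `H82V1` - `H82V6`, `H77ZFin`.

## Where it is used

The density theorem (section 2): 32 of the 60 statements depend on it, first of all S29 - S36, S42, S48.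
Sections 3 - 8: the dimension of the second cohomology of `μ_p` and the codimension one theorem of S55
(`H47ShaU2`, `H91Iso`, `H54Codim`), hence S56, S59 and S01; in block LT (residual modularity at 3 by a
2-adic argument, S01, S50) `H54TRec` (`GuideTwoReciprocity`) and `H82LTPsi` (`GuideCubicCharacter`); in block
C of S47 `H20S8` (elliptic tori, `GuideOctCGeom`). The first inequality for cyclic unramified extensions of
degree `2^k` (`H91FIa` - `H91FIh`, block LT) is shown in `GuideResidualSteps` and, with its steps, in
`GuideClassBound`.
Section 9: block D of S47, the quartic character of the quaternion tower (`GuideOctD`).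

The docstrings say where each theorem is proved and used. "S01" or "S47" means that the theorem occurs in
the proof term of this statement (transitively); this has been checked for every citation.

References: NOTES.md, notes [95] and [215] (Frobenius density), [94] (class field theory of degree `p`),
[289] (first inequality, local norm index), [169] (local index theorem), [209], [263], [282] (use in S55),
[93], [264] (block LT), [439] (quadratic reciprocity), [441] (block D), [445] (elliptic tori). A second
proof of quadratic reciprocity, by Gauss sums and theta functions (helper70, `H70Q1` - `H70Q7`, last theorem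
`H70Q.exists_quadChar`, note [399]), is in the repository, but in no closure.

Authors of the library theorems: helper82; helper65 (first inequality and local norm index, on top of
helper7's local index theorem), helper54 (Hasse norm theorem for `p = 2`), helper77 (norms with
congruences), helper99 (prime sums), helper47 (units, class groups).
Guide: helper82, with texts of helper77, helper99 and helper65.
-/

set_option autoImplicit false

open IsDedekindDomain NumberField WithZero Filter Topology
open Fermat.Agent.H82 (above aboveSet NonSplit congr locPow locNorm ClTrivial)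

namespace Fermat.Agent.Guide.QuadRec

/-!
## 1. Notions

A finite place of a number field `K` is a nonzero prime ideal `v : HeightOneSpectrum (𝓞 K)` of its ring
of integers, and `v.valuation K` is the multiplicative `v`-adic valuation with values in `ℤᵐ⁰`, the
integers written multiplicatively (`exp n`, `n ∈ ℤ`) together with `0`; a uniformiser has the value
`exp (-1)`. For a set `T` of places, `T.unit K` (Mathlib) is the group of the `T`-units: the elements of
`Kˣ` whose valuation is `1` at all places outside `T`.
-/

/-- `above L v` is the set of the places `w` of `L` above the place `v` of `K`, and `NonSplit L v` says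
that there is exactly one. For a Galois extension of prime degree the alternative is that `v` splits
completely. (`H82CftDefs`; `aboveSet L T` is the set of all places above the places in `T`.) -/
theorem places_above {K L : Type*} [Field K] [NumberField K] [Field L] [NumberField L]
    [Algebra K L] (v : HeightOneSpectrum (𝓞 K)) :
    (∀ w : HeightOneSpectrum (𝓞 L), w ∈ above L v ↔ w.asIdeal.under (𝓞 K) = v.asIdeal) ∧
      (NonSplit L v ↔ (above L v).ncard = 1) :=
  ⟨fun _ => Iff.rfl, Iff.rfl⟩

/-- `congr v m` is the subgroup `1 + v^m` of `Kˣ`: the elements `x` which are units at `v` and satisfy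
`x ≡ 1` modulo `v^m`; for `m = 0` these are the units at `v`. (`H82CftDefs`) -/
theorem mem_congr {K : Type*} [Field K] [NumberField K] (v : HeightOneSpectrum (𝓞 K)) (m : ℕ)
    (x : Kˣ) :
    x ∈ congr v m ↔
      v.valuation K (x : K) = 1 ∧ v.valuation K ((x : K) - 1) ≤ exp (-(m : ℤ)) :=
  Iff.rfl

/-- `locPow p v m` is the subgroup `(Kˣ)^p (1 + v^m)` of `Kˣ`. For large `m` it consists of the elements
of `K` which are `p`-th powers in the completion `K_v`. (`H82CftDefs`) -/
theorem mem_locPow {K : Type*} [Field K] [NumberField K] (p : ℕ) (v : HeightOneSpectrum (𝓞 K))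
    (m : ℕ) (x : Kˣ) : x ∈ locPow p v m ↔ ∃ z : Kˣ, x / z ^ p ∈ congr v m :=
  H82.mem_locPow

/-- `locNorm L v m` is the subgroup `N(Lˣ) (1 + v^m)` of `Kˣ`. "`x` is a local norm at `v`" means
`x ∈ locNorm L v m` for every `m`: the element `x` is a limit, for the topology of `v`, of norms from
`L`. For Galois `L/K` this is the same as being a norm from the completion of `L` at a place above `v`,
but completions occur only in the proof of `local_norm_index`. (`H82CftDefs`) -/
theorem mem_locNorm {K L : Type*} [Field K] [NumberField K] [Field L] [Algebra K L]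
    (v : HeightOneSpectrum (𝓞 K)) (m : ℕ) (x : Kˣ) :
    x ∈ locNorm L v m ↔ ∃ z : Lˣ, x / Units.map (Algebra.norm K : L →* K) z ∈ congr v m :=
  H82.mem_locNorm

/-- `ClTrivial T`: the `T`-class group of `K` is trivial, in the form that every place outside `T` has a
uniformiser which is a unit at all other places outside `T`. Every finite set of places is contained in
a finite set `T` with this property, because the class group is finite (`H47.exists_clTrivial`).
(`H82CftDefs`) -/
theorem clTrivial_iff {K : Type*} [Field K] [NumberField K] (T : Set (HeightOneSpectrum (𝓞 K))) :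
    ClTrivial T ↔ ∀ v, v ∉ T → ∃ x : Kˣ, v.valuation K (x : K) = exp (-1) ∧
      ∀ v', v' ∉ T → v' ≠ v → v'.valuation K (x : K) = 1 :=
  Iff.rfl

/-- `H47.divHom (𝓞 K) K x` is the divisor of `x`: the finitely supported function `v ↦ ord_v(x)` on the
places, where `v(x) = exp (- ord_v(x))`. (`H47TUnits`, helper47) -/
theorem valuation_eq_exp_neg_div {K : Type} [Field K] [NumberField K]
    (v : HeightOneSpectrum (𝓞 K)) (x : Kˣ) :
    v.valuation K (x : K) = exp (-(H47.divHom (𝓞 K) K (Additive.ofMul x) v)) :=
  H47.valuation_eq_exp_ordHom v x

/-!
## 2. Frobenius' density theorem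
-/

/-- **Prime ideal sums.** For every number field `K`,
`∑_p #{I ⊆ O_K : N I = p} p^(-s) ~ log (1/(s-1))` as `s → 1+`, the sum being over the rational primes: the
primes of degree one have a logarithmic pole with coefficient one. Proof: the residue at `s = 1` of the
Dedekind zeta function (Mathlib), and comparison of `log ζ_K(s)` with its terms of degree one.
(`H99PrimeSum`, helper99; S01, S47) -/
theorem primeSum_asymptotic (K : Type*) [Field K] [NumberField K] :
    Tendsto (fun s : ℝ => (∑' p : Nat.Primes,
      (Nat.card {I : Ideal (𝓞 K) // Ideal.absNorm I = (p : ℕ)} : ℝ) * ((p : ℕ) : ℝ) ^ (-s)) /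
        Real.log (1 / (s - 1))) (𝓝[>] 1) (𝓝 1) :=
  H99.tendsto_primeCount K

/-- **Ideals of norm `p` and conjugates of Frobenius.** `L/ℚ` finite Galois with group `G`, `p` a prime,
`ψ₀ : O_L → Ω` a homomorphism to an algebraically closed field of characteristic `p` and `F ∈ G` a
Frobenius element for it: `ψ₀(b)^p = ψ₀(F b)`. Suppose that `ψ ∘ h = ψ`, for a homomorphism `ψ : O_L → Ω`
and `h ∈ G`, is only possible for `h = 1` (this excludes only finitely many `p`: `H82.exists_bad`). Then,
for every subgroup `H` with fixed field `K`, the number of `y ∈ G` with `y⁻¹ F y ∈ H` is `#H` times the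
number of ideals of norm `p` in `O_K`. Proof: the homomorphisms `O_L → Ω` are the `ψ₀ ∘ y`, and such a
homomorphism maps `O_K` to `𝔽_p` if and only if `y⁻¹ F y ∈ H`. (`H82Galois`; S01, S47) -/
theorem card_conj_mem {L : Type*} [Field L] [NumberField L] [IsGalois ℚ L]
    (H : Subgroup (L ≃ₐ[ℚ] L)) {p : ℕ} [Fact p.Prime] {Ω : Type*} [Field Ω] [CharP Ω p]
    [IsAlgClosed Ω] (ψ₀ : 𝓞 L →+* Ω) (F : L ≃ₐ[ℚ] L) (hF : ∀ b : 𝓞 L, ψ₀ b ^ p = ψ₀ (F • b))
    (hfree : ∀ (ψ : 𝓞 L →+* Ω) (h : L ≃ₐ[ℚ] L), (∀ b : 𝓞 L, ψ (h • b) = ψ b) → h = 1) :
    Nat.card {y : L ≃ₐ[ℚ] L // y⁻¹ * F * y ∈ H} = Nat.card H *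
      Nat.card {I : Ideal (𝓞 (IntermediateField.fixedField H)) // Ideal.absNorm I = p} :=
  H82.card_conj_mem_eq H ψ₀ F hF hfree

/-- **The combination argument of Frobenius**, a statement about a finite group `G` and a map `F` from
primes to `G` (a choice of Frobenius elements). Suppose that for every subgroup `H` the numbers `a H p`
(in the application: the number of ideals of norm `p` of the fixed field of `H`) have logarithmic density
one, and that `#{y ∈ G : y⁻¹ F(p) y ∈ H} = #H · a H p` for the good primes. Then every cyclic subgroup
`⟨g⟩` is generated by a conjugate of some `F(p)`, `p` good. Proof: the density of the pairs `(p, y)` for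
which `y⁻¹ F(p) y` generates a given cyclic group is computed by induction over its subgroups; it is
the number of generators of this group, which is positive. (`H99Combo`, helper99; S01, S47) -/
theorem exists_generator_conj {G : Type*} [Group G] [Finite G] (a : Subgroup G → Nat.Primes → ℕ)
    (hsum : ∀ H, ∀ s : ℝ, 1 < s →
      Summable fun p : Nat.Primes => (a H p : ℝ) * ((p : ℕ) : ℝ) ^ (-s))
    (hlim : ∀ H, Tendsto (fun s : ℝ => (∑' p : Nat.Primes, (a H p : ℝ) * ((p : ℕ) : ℝ) ^ (-s)) /
      Real.log (1 / (s - 1))) (𝓝[>] 1) (𝓝 1))
    (bad : Finset ℕ) (F : Nat.Primes → G)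
    (hF : ∀ p : Nat.Primes, (p : ℕ) ∉ bad → ∀ H : Subgroup G,
      Nat.card {y : G // y⁻¹ * F p * y ∈ H} = Nat.card H * a H p) (g : G) :
    ∃ p : Nat.Primes, (p : ℕ) ∉ bad ∧
      ∃ y : G, Subgroup.zpowers (y⁻¹ * F p * y) = Subgroup.zpowers g :=
  H99.exists_conj_generator a hsum hlim bad F hF g

/-- **Frobenius' density theorem** (1896), existence form. `L/ℚ` finite Galois, `σ` an element of its
Galois group, `S` a finite set of primes: there are a prime `ℓ ∉ S`, a prime ideal `P` of `O_L` which
contains `ℓ` and has trivial inertia group, and a Frobenius element `φ` at `P` (`φ x ≡ x^ℓ` modulo `P`)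
which generates the same cyclic group as `σ`. Proof: the three preceding theorems. (`H82FrobDensity`; S01,
S47: everything on traces of Frobenius elements uses it, and `exists_auxiliary_places` below. For the form
in terms of `Gal(ℚ̄/ℚ)`, `H86.frobenius_density`, see `GuideGalois`.) -/
theorem frobenius_density (L : Type*) [Field L] [NumberField L] [IsGalois ℚ L] (σ : L ≃ₐ[ℚ] L)
    (S : Finset ℕ) :
    ∃ ℓ : ℕ, ℓ.Prime ∧ ℓ ∉ S ∧ ∃ P : Ideal (𝓞 L), P.IsPrime ∧ ((ℓ : ℕ) : 𝓞 L) ∈ P ∧
      (∀ τ : L ≃ₐ[ℚ] L, (∀ x : 𝓞 L, τ • x - x ∈ P) → τ = 1) ∧
      ∃ φ : L ≃ₐ[ℚ] L, (∀ x : 𝓞 L, φ • x - x ^ ℓ ∈ P) ∧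
        Subgroup.zpowers φ = Subgroup.zpowers σ :=
  H82.exists_frob_finite L σ S

/-!
## 3. Local groups and their indices

From now on `ζ ∈ K` is a primitive `p`-th root of unity, `p` a prime. The condition
`exp (-m) < v(ζ - 1)^p` on `m` ("`m` is deep at `v`", `H82.Deep ζ p v m` in the library) says that all
elements of `1 + v^m` are `p`-th powers in the completion `K_v`; for `v ∤ p` it means `m ≥ 1`. From this
depth on, `locPow p v m` and `locNorm L v m` (`L/K` of degree `p`) do not depend on `m`.
-/

/-- **Weak approximation** for finitely many places, multiplicative form. (`H82Approx`, from the Chinese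
remainder theorem; S01, S47) -/
theorem weak_approximation {K : Type*} [Field K] [NumberField K]
    (T : Finset (HeightOneSpectrum (𝓞 K))) (m : HeightOneSpectrum (𝓞 K) → ℕ)
    (x : HeightOneSpectrum (𝓞 K) → Kˣ) : ∃ y : Kˣ, ∀ v ∈ T, y / x v ∈ congr v (m v) :=
  H82.exists_approx T m x

/-- **Independence of local conditions.** If `H v` contains `1 + v^(m v)` for `v ∈ T`, then the index of
the intersection of the groups `H v` is the product of their indices. This formula takes the place of
the product of the local groups `K_v^×`. (`H82Approx`; S01, S47) -/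
theorem index_of_local_conditions {K : Type*} [Field K] [NumberField K]
    (T : Finset (HeightOneSpectrum (𝓞 K))) (m : HeightOneSpectrum (𝓞 K) → ℕ)
    (H : HeightOneSpectrum (𝓞 K) → Subgroup Kˣ) (hH : ∀ v ∈ T, congr v (m v) ≤ H v) :
    (⨅ v ∈ T, H v).index = ∏ v ∈ T, (H v).index :=
  H82.index_iInf T m H hH

/-- **Index of the local `p`-th powers.** If `T` contains all places above `p`, the elements of `Kˣ` which
are local `p`-th powers at all `v ∈ T` form a subgroup of index `p^(2 #T + [K:ℚ])`. At one place the index
is `p² N(v)^(ord_v p)` (`H82LocIndex2`): one factor `p` comes from the value group, and in the finite group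
of the units at `v` modulo `1 + v^m` the index of the `p`-th powers is the number of elements killed by
`p`; these are the classes of `μ_p (1 + v^(m - ord_v p))`. (`H82GlobIndex`; S01, S47) -/
theorem index_local_powers {K : Type*} [Field K] [NumberField K] {p : ℕ} [Fact p.Prime] {ζ : K}
    (hζ : IsPrimitiveRoot ζ p) (T : Finset (HeightOneSpectrum (𝓞 K)))
    (hT : ∀ v, v ∉ T → v.valuation K (p : K) = 1) (m : HeightOneSpectrum (𝓞 K) → ℕ)
    (hm : ∀ v ∈ T, exp (-(m v : ℤ)) < v.valuation K (ζ - 1) ^ p) :
    (⨅ v ∈ T, locPow p v (m v)).index = p ^ (2 * T.card + Module.finrank ℚ K) :=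
  H82.index_iInf_locPow hζ T hT m hm

/-- **The local norm index without completions.** `L/K` Galois of prime degree `p`, `ζ_p ∈ K`, `v` a
place with only one place of `L` above it: the local norms at `v` form a subgroup of `Kˣ` of index `p`.
Proof: `K_v` (Mathlib's `v.adicCompletion K`) is a locally compact field in which `K` is dense, and there
`[E^× : N F^×] = [F : E]` for cyclic `F/E` is helper7's theorem `H7.index_norm` (Herbrand quotients of
a lattice; all residue characteristics at once; steps: `GuideLocalNorms`, sections 1 to 5).
(`H65LocIndex`, `H65Adic`, helper65; S01, S47) -/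
theorem local_norm_index {K L : Type} [Field K] [NumberField K] [Field L] [NumberField L]
    [Algebra K L] [IsGalois K L] {p : ℕ} (hp : p.Prime) (hL : Module.finrank K L = p) {ζ : K}
    (hζ : IsPrimitiveRoot ζ p) {v : HeightOneSpectrum (𝓞 K)} (hns : NonSplit L v) :
    (⨅ m, locNorm L v m : Subgroup Kˣ).index = p :=
  H65.index_locNorm_eq hp hL hζ hns

/-- **Units are local norms** at an unramified nonsplit place `v` prime to `p`. Proof by counting: the
order at `v` of a local norm is divisible by `p`, and both this condition and the local norm group have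
index `p` (`local_norm_index`). (`H82Stable`; S01, S47. At a split place every element is a local norm:
`H82.locNorm_eq_top_of_split`.) -/
theorem units_are_local_norms {K : Type} [Field K] [NumberField K] {p : ℕ} [Fact p.Prime] {ζ : K}
    (hζ : IsPrimitiveRoot ζ p) {L : Type} [Field L] [NumberField L] [Algebra K L] [IsGalois K L]
    (hdeg : Module.finrank K L = p) {v : HeightOneSpectrum (𝓞 K)}
    (hv : v.valuation K (p : K) = 1) (hns : NonSplit L v)
    (hunr : ∀ w ∈ above L v, v.asIdeal.ramificationIdx' w.asIdeal = 1) {x : Kˣ}
    (hx : v.valuation K (x : K) = 1) {m : ℕ} (hm : 0 < m) : x ∈ locNorm L v m :=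
  H82.units_le_locNorm hζ hdeg hv hns hunr hm (H82.mem_congr_zero.2 hx)

/-!
## 4. Kummer extensions
-/

/-- **Splitting and ramification in a Kummer extension** `M = K(b^(1/p))` of degree `p`, given by `β ∈ M`
with `β^p = b` which is fixed only by the identity (this is `H82.IsKummer p K M b β`). A place `v` at
which `b` is a local `p`-th power splits; a place `v ∤ p` at which `b` is a unit times a `p`-th power is
unramified. Every `b ∈ Kˣ` which is not a `p`-th power has such an extension (`H82.exists_kummer`), and
every Galois extension of degree `p` is of this form (`H82.exists_isKummer`). (`H82Kummer`; S01, S47) -/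
theorem kummer_splitting {K M : Type*} [Field K] [NumberField K] [Field M] [NumberField M]
    [Algebra K M] [IsGalois K M] {p : ℕ} [Fact p.Prime] {ζ : K} (hζ : IsPrimitiveRoot ζ p)
    (hdeg : Module.finrank K M = p) {b : Kˣ} {β : M} (hβ : β ^ p = algebraMap K M b)
    (hgen : ∀ σ : M ≃ₐ[K] M, σ β = β → σ = 1) (v : HeightOneSpectrum (𝓞 K)) :
    (∀ m : ℕ, exp (-(m : ℤ)) < v.valuation K (ζ - 1) ^ p → b ∈ locPow p v m → ¬ NonSplit M v) ∧
      (v.valuation K (p : K) = 1 → b ∈ locPow p v 0 →
        ∀ w ∈ above M v, v.asIdeal.ramificationIdx' w.asIdeal = 1) :=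
  ⟨fun _ hm hb => H82.IsKummer.not_nonSplit hζ hdeg ⟨hβ, hgen⟩ hm hb,
    fun hv hb _ hw => H82.IsKummer.ramificationIdx'_eq_one hζ ⟨hβ, hgen⟩ hv hb hw⟩

/-!
## 5. The first inequality
-/

/-- **First inequality of class field theory, `T`-unit form.** `K` totally complex, `L/K` Galois of prime
degree `p`, `T` a finite set of places of `K` with trivial `T`-class group such that `L/K` is unramified
outside `T`. Then, with `E_T` the groups of `T`-units (on `L`: of units outside the places above `T`),

  `[E_T(K) : N E_T(L)] * p = p ^ #{v ∈ T : v does not split in L}`.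

In particular some place of `T` does not split. Proof: the Herbrand quotient of the `T`-units, computed
from ranks and indices only, and Hilbert 90 for `T`-units (from unramifiedness and `ClTrivial T`); steps:
`GuideLocalNorms`, sections 1 and 6. (`H54HerbrandPrime`, `H47TUnits`, `H47TClass`, `H65FirstA`,
`H65FirstB`, `H65First`, helper54, helper47, helper65; S01, S47. It is used for `L/K` itself and for
auxiliary Kummer extensions.) -/
theorem first_inequality {K L : Type} [Field K] [NumberField K] [Field L] [NumberField L]
    [Algebra K L] [IsGalois K L] [IsTotallyComplex K] {p : ℕ} (hp : p.Prime)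
    (hL : Module.finrank K L = p) {T : Set (HeightOneSpectrum (𝓞 K))} (hT : T.Finite)
    (hcl : ClTrivial T)
    (hunr : ∀ v ∉ T, ∀ w ∈ above L v, v.asIdeal.ramificationIdx' w.asIdeal = 1) :
    (((aboveSet L T).unit L).map (Units.map (Algebra.norm K : L →* K))).relIndex (T.unit K) * p
      = p ^ {v ∈ T | NonSplit L v}.ncard :=
  H65.relIndex_norm_mul hp hL hT hcl hunr

/-- **First inequality, class group form.** `K` totally complex, `L/K` Galois of prime degree `p`,
unramified at all places (no roots of unity are assumed). There is a nontrivial homomorphism `η` from the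
class group of `K` to `ℤ/p` which kills the classes of all places that split in `L`, as the Artin
character of `L/K` does. Used with `p = 3` and `K = ℚ(√-N)`: `η` gives the theta series of weight one which
describes the 2-torsion of an elliptic curve of conductor `N`. (`H82LTFI`; S01: `H82LTPsi`, block LT) -/
theorem exists_class_character {K L : Type} [Field K] [NumberField K] [Field L] [NumberField L]
    [Algebra K L] [IsGalois K L] [IsTotallyComplex K] {p : ℕ} [Fact p.Prime]
    (hdeg : Module.finrank K L = p)
    (hunr : ∀ v : HeightOneSpectrum (𝓞 K), ∀ w ∈ above L v,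
      v.asIdeal.ramificationIdx' w.asIdeal = 1) :
    ∃ η : Additive (ClassGroup (𝓞 K)) →+ ZMod p,
      (∃ v : HeightOneSpectrum (𝓞 K), η (Additive.ofMul (ClassGroup.mk0
        ⟨v.asIdeal, mem_nonZeroDivisors_of_ne_zero v.ne_bot⟩)) ≠ 0) ∧
      ∀ v : HeightOneSpectrum (𝓞 K), ¬ NonSplit L v → η (Additive.ofMul (ClassGroup.mk0
        ⟨v.asIdeal, mem_nonZeroDivisors_of_ne_zero v.ne_bot⟩)) = 0 :=
  H82.exists_class_char hdeg hunr

/-!
## 6. The second inequality

The hypothesis `p ≠ 2 ∨ IsTotallyComplex K` in this and the following sections says that `K` has no real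
places: for odd `p` this is automatic, since `K` contains `ζ_p`. The library has two versions of the
theorems: `H82.*` for odd `p` (S01), and `H54T.*` (S01, S47), `H82V.*` (S47) for all `p`, `K` totally
complex.
-/

/-- **Herbrand's auxiliary places.** `T` and `S` finite sets of places, `a` a `T`-unit which is not a
`p`-th power. There is a set `A` of `rank(O_K^×) + #T` places, outside `T` and `S` and prime to `p`, such
that `a` is a local `p`-th power at all `v ∈ A` and such that the `T`-units modulo `⟨a⟩` and `p`-th powers
are isomorphic to the product over `v ∈ A` of the groups (of order `p`) of the units at `v` modulo `p`-th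
powers. In particular a `T`-unit which is a local `p`-th power at all `v ∈ A` is a power of `a` times a
`p`-th power. Each place comes from `frobenius_density`, for a Galois closure over `ℚ` of
`K(a^(1/p), x^(1/p))`. (`H82AuxField`, `H82AuxPrime`, `H82AuxSet`; S01, S47) -/
theorem exists_auxiliary_places {K : Type*} [Field K] [NumberField K] {p : ℕ} [Fact p.Prime]
    {ζ : K} (hζ : IsPrimitiveRoot ζ p) (T : Set (HeightOneSpectrum (𝓞 K))) (hT : T.Finite)
    {a : Kˣ} (ha : a ∈ T.unit K) (hap : a ∉ (powMonoidHom p : Kˣ →* Kˣ).range)
    (S : Set (HeightOneSpectrum (𝓞 K))) (hS : S.Finite) :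
    ∃ A : Finset (HeightOneSpectrum (𝓞 K)), A.card = Units.rank K + T.ncard ∧
      (∀ v ∈ A, v ∉ T ∧ v ∉ S ∧ v.valuation K (p : K) = 1 ∧ a ∈ locPow p v 1) ∧
      (⨅ v ∈ A, locPow p v 1).relIndex (T.unit K) = p ^ A.card ∧
      T.unit K ⊓ (⨅ v ∈ A, locPow p v 1) ≤
        Subgroup.zpowers a ⊔ (powMonoidHom p : Kˣ →* Kˣ).range :=
  H82.exists_aux_set hζ T hT ha hap S hS

/-- **Second inequality.** `T` a finite set of places containing the places above `p`, with trivial
`T`-class group, `A` a set of auxiliary places as above. The subgroup of `Kˣ` generated by the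
`T ∪ A`-units and by the elements which are local `p`-th powers at all places of `T` has index exactly `p`.
Proof: a `T ∪ A`-unit which is a local `p`-th power at `T` is a `p`-th power (else the first inequality
for the Kummer extension which it defines is violated: `H82.kernel_le`, `H54T.kernel_le`); so the index is
`p^(2 #T + [K:ℚ])` (`index_local_powers`) divided by `[E_{T∪A} : E_{T∪A}^p] = p^(rank + #T + #A + 1)`.
(`H82Second`, `H54THasse`; S01, S47) -/
theorem second_inequality {K : Type} [Field K] [NumberField K] {p : ℕ} [Fact p.Prime] {ζ : K}
    (hζ : IsPrimitiveRoot ζ p) (hp : p ≠ 2 ∨ IsTotallyComplex K)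
    {T A : Finset (HeightOneSpectrum (𝓞 K))}
    (hcl : ClTrivial (T : Set (HeightOneSpectrum (𝓞 K))))
    (hTp : ∀ v, v ∉ T → v.valuation K (p : K) = 1) (m : HeightOneSpectrum (𝓞 K) → ℕ)
    (hm : ∀ v ∈ T, exp (-(m v : ℤ)) < v.valuation K (ζ - 1) ^ p) (hA : ∀ v ∈ A, v ∉ T)
    (hcard : A.card = Units.rank K + T.card)
    (hidx : (⨅ v ∈ A, locPow p v 1).relIndex
      ((T : Set (HeightOneSpectrum (𝓞 K))).unit K) = p ^ A.card) :
    (((T : Set (HeightOneSpectrum (𝓞 K))) ∪ A).unit K ⊔ (⨅ v ∈ T, locPow p v (m v))).index = p :=
  hp.elim (fun h => H82.index_unit_sup hζ h hcl hTp m hm hA hcard hidx)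
    fun _ => H54T.index_unit_sup hζ hcl hTp m hm hA hcard hidx

/-!
## 7. The Hasse norm theorem
-/

/-- **Hasse norm theorem** for a Galois extension `L/K` of prime degree `p`, `ζ_p ∈ K`, `K` without real
places: an element of `Kˣ` which is a local norm at every nonsplit place is a norm. Proof: `L = K(a^(1/p))`;
choose `T` large and auxiliary places `A` for `a`; these split in `L`. Then the `T ∪ A`-units which are
local norms at the nonsplit places of `T` are compared with the norms of `T ∪ A`-units: both groups have
the same index, by the first and the second inequality. (`H82Hasse`: `p` odd, S01: `Sha²(K, μ_p)` in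
`H47ShaU2`, and `H91Iso`. `H54THasse`: S01, reciprocity for 2-torsion classes `H54TRec`, and S47) -/
theorem hasse_norm {K L : Type} [Field K] [NumberField K] [Field L] [NumberField L] [Algebra K L]
    [IsGalois K L] {p : ℕ} [Fact p.Prime] {ζ : K} (hζ : IsPrimitiveRoot ζ p)
    (hp : p ≠ 2 ∨ IsTotallyComplex K) (hdeg : Module.finrank K L = p) (x : Kˣ)
    (hx : ∀ v : HeightOneSpectrum (𝓞 K), NonSplit L v → ∀ m : ℕ, x ∈ locNorm L v m) :
    ∃ y : Lˣ, Units.map (Algebra.norm K : L →* K) y = x :=
  hp.elim (fun h => H82.hasse_norm hζ h hdeg x hx) fun _ => H54T.hasse_norm hζ hdeg x hx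

/-- **Norms from a quadratic extension, with congruences.** `K` totally complex, `L/K` quadratic, `S` a
finite set of places containing the places above `2` and the ramified places. If `c ∈ Kˣ` is sufficiently
close to `1` at `S` and has even order at the inert places outside `S`, then `c` is the norm of an element
`y` which is as close to `1` at the places above `S` as we like. Proof: the Hasse norm theorem gives some
`y`, which is changed by an element `τ(z)/z` (approximate Hilbert 90, `H77.Z.exists_adjust` in `H77ZAdj`).
(`H77ZNorm`, helper77; S47, block D: the quartic character in `H77ZCore`, the unfolding data in `H16D5`) -/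
theorem norm_with_congruences {K L : Type} [Field K] [NumberField K] [IsTotallyComplex K]
    [Field L] [NumberField L] [Algebra K L] [IsGalois K L] (hdeg : Module.finrank K L = 2)
    {S : Set (HeightOneSpectrum (𝓞 K))} (hS : S.Finite)
    (h2 : ∀ v ∉ S, v.valuation K (2 : K) = 1)
    (hunr : ∀ v ∉ S, ∀ w ∈ above L v, v.asIdeal.ramificationIdx' w.asIdeal = 1) (m' : ℕ) :
    ∃ m : ℕ, ∀ c : Kˣ, (∀ v ∈ S, c ∈ congr v m) →
      (∀ v ∉ S, NonSplit L v → (2 : ℤ) ∣ H47.divHom (𝓞 K) K (Additive.ofMul c) v) →
      ∃ y : Lˣ, Units.map (Algebra.norm K : L →* K) y = c ∧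
        ∀ w ∈ aboveSet L S, y ∈ congr w m' :=
  H77.Z.exists_norm_lift hdeg hS h2 hunr m'

/-!
## 8. Every place contributes

The map from `Kˣ` to the direct sum over `v` of `Kˣ / {local norms at v}` has a cokernel of order dividing
`p` (`codimension_at_most_one`), and for a suitable extension `L/K` the component at a given place `w` is
not killed in it (`every_place_contributes`). In S55 and S47 these two facts replace the reciprocity law,
which says that this is so for every `L` and every nonsplit place at once.
-/

/-- **Every place contributes.** For every place `w` there is a Kummer generator `b` such that `w` does not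
split in `L = K(b^(1/p))` and every element which is a local norm from `L` at all places `v ≠ w` is a local
norm at `w` too. Proof: otherwise, by the second inequality, the component at `w` of `Kˣ` modulo local
`p`-th powers at `T` would be filled by `T`-units; then there is a `T`-unit which is a local `p`-th power
at all places of `T` except `w`, and the first inequality for its Kummer extension makes every element a
local norm at `w`, against `local_norm_index`. (`H82G4b`, `p` odd, S01: `H91Iso`. `H82V1`, S47) -/
theorem every_place_contributes {K : Type} [Field K] [NumberField K] {p : ℕ} [Fact p.Prime]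
    {ζ : K} (hζ : IsPrimitiveRoot ζ p) (hp : p ≠ 2 ∨ IsTotallyComplex K)
    (w : HeightOneSpectrum (𝓞 K)) :
    ∃ b : Kˣ, b ∉ (powMonoidHom p : Kˣ →* Kˣ).range ∧
      ∀ (L : Type) [Field L] [NumberField L] [Algebra K L] [IsGalois K L] (β : L),
        Module.finrank K L = p → β ^ p = algebraMap K L b →
        (∀ σ : L ≃ₐ[K] L, σ β = β → σ = 1) →
        NonSplit L w ∧ ∀ a : Kˣ, (∀ v, v ≠ w → NonSplit L v → ∀ n, a ∈ locNorm L v n) →
          ∀ n, a ∈ locNorm L w n :=
  (hp.elim (fun h => H82.exists_good_b hζ h w) fun _ => H82V.exists_good_b hζ w).imp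
    fun _ hb => ⟨hb.1, fun L _ _ _ _ β hd h1 h2 => hb.2 L β hd ⟨h1, h2⟩⟩

/-- **Codimension at most one.** `L/K` of degree `p` as before, `S` a finite set of places: the elements
which are local norms outside `S` and the elements which are local norms at `S` generate a subgroup of
`Kˣ` of index `1` or `p`. In other words: among the prescriptions of local classes modulo norms at the
places of `S`, those which are realised by a global element which is a norm outside `S` have index at most
`p`. (`H82J8`, `p` odd, S01: `H54Codim`. `H82V1`, S47) -/
theorem codimension_at_most_one {K : Type} [Field K] [NumberField K] {p : ℕ} [Fact p.Prime]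
    {ζ : K} (hζ : IsPrimitiveRoot ζ p) (hp : p ≠ 2 ∨ IsTotallyComplex K)
    (L : Type) [Field L] [NumberField L] [Algebra K L] [IsGalois K L]
    (hdeg : Module.finrank K L = p) {S : Set (HeightOneSpectrum (𝓞 K))} (hS : S.Finite) :
    ((⨅ (v : HeightOneSpectrum (𝓞 K)) (_ : v ∉ S) (_ : NonSplit L v) (m : ℕ), locNorm L v m) ⊔
      ⨅ v ∈ S, ⨅ m, locNorm L v m).index ∣ p :=
  hp.elim (fun h => H82.index_normOutside_sup hζ L h hdeg hS)
    fun _ => H82V.index_normOutside_sup hζ hdeg hS

/-!
## 9. The quadratic norm residue symbol and quadratic reciprocity (S47)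

Now `p = 2` and `K` is totally complex. `a ∈ H82V.hil v b` means that the quadratic norm residue symbol
(Hilbert symbol) `(a, b)_v` is `1`.
-/

/-- `H82V.hil v b` is the set of the `a ∈ Kˣ` which are, at `v`, limits of values `u² - b w²` of the norm
form of `K(√b)`: for every `m` there is such a value `y ≠ 0` with `a / y ∈ 1 + v^m`. It is a subgroup of
`Kˣ`. Here `b` may be a square. (`H82V2`; S47) -/
theorem mem_hil {K : Type*} [Field K] [NumberField K] (v : HeightOneSpectrum (𝓞 K)) (a b : Kˣ) :
    a ∈ H82V.hil v b ↔
      ∀ m : ℕ, ∃ y : Kˣ, (∃ u w : K, u ^ 2 - b * w ^ 2 = y) ∧ a / y ∈ congr v m :=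
  H82V.mem_hil

/-- If `L/K` is quadratic with generator `β`, `β² = b`, then `H82V.hil v b` is the group of local norms
from `L` at `v`. (`H82V3`; S47) -/
theorem hil_eq_local_norms {K L : Type} [Field K] [NumberField K] [Field L] [NumberField L]
    [Algebra K L] [IsGalois K L] (hdeg : Module.finrank K L = 2) {b : Kˣ} {β : L}
    (hβ : β ^ 2 = algebraMap K L b) (hgen : ∀ σ : L ≃ₐ[K] L, σ β = β → σ = 1)
    (v : HeightOneSpectrum (𝓞 K)) : H82V.hil v b = ⨅ m, locNorm L v m :=
  H82V.hil_eq_iInf hdeg ⟨hβ, hgen⟩ v

/-- **Rules for the symbol** at every place, the places above `2` included: it is symmetric,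
multiplicative in both variables, and `(·, b)_v` is trivial or takes the value `-1` on one of two cosets.
Proof: symmetry is an explicit transformation (if `u² - b w² = a t` with `t` a local square close to `1`,
then `b` is a value of the norm form of `K(√a)` up to a local square); the index comes from
`local_norm_index`; multiplicativity follows. (`H82V2`, `H82V3`; S47) -/
theorem symbol_rules {K : Type} [Field K] [NumberField K] (v : HeightOneSpectrum (𝓞 K)) :
    (∀ a b : Kˣ, a ∈ H82V.hil v b ↔ b ∈ H82V.hil v a) ∧
    (∀ a a' b : Kˣ, a * a' ∈ H82V.hil v b ↔ (a ∈ H82V.hil v b ↔ a' ∈ H82V.hil v b)) ∧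
    (∀ a b b' : Kˣ, a ∈ H82V.hil v (b * b') ↔ (a ∈ H82V.hil v b ↔ a ∈ H82V.hil v b')) ∧
    (∀ b : Kˣ, H82V.hil v b = ⊤ ∨ (H82V.hil v b).index = 2) :=
  ⟨fun _ _ => H82V.hil_symm, fun _ _ _ => H82V.hil_mul_iff, fun _ _ _ => H82V.hil_mul_right,
    H82V.hil_index v⟩

/-- **No quaternion algebra is ramified at exactly one place.** `K` totally complex: if `(c, b)_v = 1` for
all places `v ≠ v₀`, then `(c, b)_{v₀} = 1`. Proof: suppose that it is `-1`; take `b'` from
`every_place_contributes` at `v₀` and `L = K(√b')`. Over `L` the symbol `(c, b)_w` is `1` at every place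
`w` (for `w` above `v₀` because `v₀` does not split in `L`), so `c = U² - b W²` with `U, W ∈ L` by the
Hasse norm theorem over `L`. The coordinates of `U` and `W` give `n₁ ∈ K`, a norm from `K(√b)`, such that
`c n₁` is a norm from `K(√(b b'))` (common slot); then `(c n₁, b')_v = (c, b)_v` for all `v`, against the
choice of `b'`. (Degenerate cases: if `b` is a square in `L`, then `(c, b)_v = (c, b')_v`; if `n₁ = 0`,
then `(c, b)_v = (b, b')_v`; both are again against the choice of `b'`.) (`H82V4`; S47) -/
theorem not_exactly_one_place {K : Type} [Field K] [NumberField K] [IsTotallyComplex K]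
    {v₀ : HeightOneSpectrum (𝓞 K)} {b c : Kˣ} (h : ∀ v, v ≠ v₀ → c ∈ H82V.hil v b) :
    c ∈ H82V.hil v₀ b :=
  H82V.mem_hil_of_forall_ne h

/-- **Product formula.** `K` totally complex, `a, b ∈ Kˣ`: the number of the places `v` with
`(a, b)_v = -1` is finite and even. Proof: let `F` be the set of these places and `y_v` (`v ∈ F`)
elements with `(y_v, b)_v = -1` and `(y_v, b)_{v'} = 1` for the other `v' ∈ F`. The group `G` of
`codimension_at_most_one` for `S = F` has index at most `2` and contains no `y_v` by the preceding theorem;
it contains `a`, and `a ∏ y_v` by construction, hence `∏ y_v`; so `#F` is even. (`H82V5`; S47) -/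
theorem product_formula {K : Type} [Field K] [NumberField K] [IsTotallyComplex K] (a b : Kˣ) :
    {v : HeightOneSpectrum (𝓞 K) | a ∉ H82V.hil v b}.Finite ∧
      Even {v : HeightOneSpectrum (𝓞 K) | a ∉ H82V.hil v b}.ncard :=
  ⟨H82V.finite_bad a b, H82V.even_bad a b⟩

open Classical in
/-- **Quadratic reciprocity over a totally complex field.** `L/K` quadratic, `S` a finite set of places
containing the places above `2` and the ramified places. There is `m` such that for every `x ∈ Kˣ` which is
congruent to `1` modulo `v^m` at all `v ∈ S` the sum of `ord_v(x)` over the places `v ∉ S` which do not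
split in `L` is even. In other words: `v ↦ -1` (inert), `v ↦ 1` (split) is a ray class character. Proof:
the product formula for `(x, b)_v`, `L = K(√b)`: for `v ∈ S` the symbol is `1` since `x` is a local
square, and for `v ∉ S` it is `-1` exactly if `v` is inert and `ord_v(x)` odd. (`H82V6`; the library says
`H77.Z.IsHecke S (H82V.qchar L S)`. S47: block D, quartic character, see `GuideOctD`. The multiplicative
form on ideals, `H77.Z.exists_omega`, is a corollary which is not used.) -/
theorem quadratic_reciprocity {K L : Type} [Field K] [NumberField K] [IsTotallyComplex K]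
    [Field L] [NumberField L] [Algebra K L] [IsGalois K L] (hdeg : Module.finrank K L = 2)
    {S : Set (HeightOneSpectrum (𝓞 K))} (hS : S.Finite)
    (h2 : ∀ v ∉ S, v.valuation K (2 : K) = 1)
    (hunr : ∀ v ∉ S, ∀ w ∈ above L v, v.asIdeal.ramificationIdx' w.asIdeal = 1) :
    ∃ m : ℕ, ∀ x : Kˣ, (∀ v ∈ S, x ∈ congr v m) →
      ((H47.divHom (𝓞 K) K (Additive.ofMul x)).sum fun v n =>
        n • (if v ∈ S then 0 else if NonSplit L v then 1 else 0 : ZMod 2)) = 0 :=
  (H82V.isHecke_qchar hdeg hS h2 hunr).2

end Fermat.Agent.Guide.QuadRec
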