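import Fermat.Agent.H89D5

/-!
# The values of the quartic character: `τ`-form of the hypothesis
-/

set_option autoImplicit false
set_option linter.unusedSectionVars false

noncomputable section

namespace Fermat.Agent.H89D

open IsDedekindDomain NumberField
open scoped Pointwise

namespace IsQ8Tower

variable {E B C K : Type*} [Field E] [NumberField E] [Field B] [NumberField B] [Field C]
  [NumberField C] [Field K] [NumberField K] [Algebra E B] [Algebra E C] [Algebra E K]
  [Algebra B C] [Algebra B K] [Algebra C K] [IsScalarTower E B C] [IsScalarTower E B K]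
  [IsScalarTower E C K] [IsScalarTower B C K] (H : IsQ8Tower E B C K)

include H

open scoped Classical in
/-- The hypothesis `χ(P)^f = e` from its `τ`-form. -/
theorem ha_of_tau {τ : C ≃ₐ[B] C} (hτ : τ ≠ 1) {R : Type*} [Monoid R] [HasDistribNeg R]
    {χ : HeightOneSpectrum (𝓞 B) → R}
    {w : HeightOneSpectrum (𝓞 E)}
    (hunr : ∀ Q ∈ H82.above K w, w.asIdeal.ramificationIdx' Q.asIdeal = 1)
    (h1 : ∀ P ∈ H82.above C w, H47.smulPlace τ P = P →
      χ (H47.below B P) ^ 2 = if H82.NonSplit K P then -1 else 1)
    (h2 : ∀ P ∈ H82.above C w, H47.smulPlace τ P ≠ P →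
      χ (H47.below B P) = if H82.NonSplit K P then -1 else 1) :
    ∀ P ∈ H82.above C w, χ (H47.below B P) ^
      ((H47.below B P).asIdeal.inertiaDeg' P.asIdeal) = if H82.NonSplit K P then -1 else 1 := by
  intro P hP
  have hf := H.inertiaDeg'_BC hτ hunr hP
  by_cases h : H47.smulPlace τ P = P
  · rw [hf.1.2 h, h1 P hP h]
  · rw [hf.2.2 h, pow_one, h2 P hP h]

end IsQ8Tower

end Fermat.Agent.H89D
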