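import Fermat.Agent.H77ZFin
import Fermat.Agent.H89D6

/-!
# Reader's guide: the quartic Hecke character of a quaternion tower, in detail (block (D) of S47)

(helper77, helper89; library files `H77ZDefs`, `H77ZAdj`, `H77ZNorm`, `H77ZCore`, `H77ZChi`,
`H77ZTower`, `H77ZIdeal`, `H77ZOut`, `H77ZFin` by helper77 and `H89D1` - `H89D6` by helper89)

**Statement served:** S47.  Every library theorem cited below is used in the proof of S47.  Notes:
[401] (tower and traces), [460] (quartic character).

**What is proved.**  `E ⊂ B ⊂ C ⊂ K` is a tower of number fields with `E` totally complex, `K / E`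
Galois with the quaternion group `Q₈` as Galois group, `C` the fixed field of the centre, `B` one of
the three quadratic extensions of `E` in `K`.  Classically the irreducible representation of degree
two of `Q₈` is induced from a character of order four of the cyclic group `Gal(K/B)`, and this
character is a Hecke character of `B` by class field theory.  Here the Hecke character `χ` of `B` is
constructed without class field theory of degree four: only quadratic reciprocity and the norm
principle of Hasse for quadratic extensions are used (`GuideQuadRec`; steps of their proofs: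
`GuideClassField`).  The result is `GuideOctD.exists_chi`; the main steps (`quadratic_reciprocity`,
`norm_lift`, `core_identity`, `descent_of_characters`, `compatibility`, `values_of_chi`) are in section
2 of `GuideOctD` and are not repeated.  This file contains the steps between them.  What is done with
`χ` afterwards: section 3 of `GuideOctD`, and `GuideCoefficients`.

**The construction.**
1. Decomposition groups and Frobenius elements in a Galois extension of number fields.
2. The places of the tower: how a place of `E` decomposes in `B`, `C`, `K`, in terms of the order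
   `1`, `2`, `4` of the Frobenius element.  This gives the `compatibility` of the quadratic characters
   `e` of `K/C` and `ω` of `B/E`, and the values of `χ`.
3. Hecke characters of finite order as functions on places with values in `ℚ/ℤ`: a function is
   extended to divisors, and being a Hecke character means to vanish on the divisors of the elements
   close to `1` at the bad places.  Characters extend because `ℚ/ℤ` is divisible.
4. Norms with congruences: an element which is close to `1` and a local norm everywhere is the norm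
   of an element close to `1`.
5. Descent: the character `χ` is prescribed on the norms of divisors of `C` (by `e`), on the divisors
   of `E` (by `ω`), on the divisors of the elements close to `1` and on the bad places (by `0`); the
   theorem `well_defined` says that these prescriptions agree, and `extension` gives `χ`.
6. From places to ideals: `χ` becomes a multiplicative function on ideals, with values in the fourth
   roots of unity and a modulus.

**Conventions.**  A place is a nonzero prime ideal (`HeightOneSpectrum (𝓞 K)`); no completions occur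
in the statements.  `above L v` is the set of the places of `L` above `v`, `aboveSet L S` the set of
the places above the places in `S`, `below K w` the place of `K` below `w`; `NonSplit L v` means that
there is exactly one place of `L` above `v`; `smulPlace σ w` is the place `σ w`.  `congr v m` is the
group of the `v`-units `≡ 1` modulo `v ^ m` (all this is unfolded in `GuideOctD.local_notions`).
`v.asIdeal.ramificationIdx' w.asIdeal` is the ramification index, `v.asIdeal.inertiaDeg' w.asIdeal`
the residue degree of the place `w` above `v`.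
-/

set_option autoImplicit false

noncomputable section

open IsDedekindDomain NumberField WithZero
open scoped Pointwise Classical

namespace Fermat.Agent.Guide.QuarticCharacter

open Fermat.Agent.H47 (smulPlace below)
open Fermat.Agent.H82 (above aboveSet NonSplit congr locNorm)
open Fermat.Agent.H89D (dec IsQ8Tower aw)
open Fermat.Agent.H77.Z (IsHecke ev dv)

/-! ## 1. Decomposition groups and Frobenius elements -/

/-- `dec F Q` is the **decomposition group** of the place `Q` of `L`: the automorphisms `σ` of `L/F`
with `σ Q = Q`.  Definition in `H89D1`. -/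
theorem mem_dec_iff {F L : Type*} [Field F] [Field L] [NumberField L] [Algebra F L]
    (σ : L ≃ₐ[F] L) (Q : HeightOneSpectrum (𝓞 L)) : σ ∈ dec F Q ↔ smulPlace σ Q = Q :=
  H89D.mem_dec

/-- **Orbits.**  `L/F` Galois, `Q` a place of `L` above the place `w` of `F`.  The places above `w`
are the `σ Q`, so their number times the order of the decomposition group is the degree of `L/F`; and
there is only one of them if and only if `σ Q = Q` for all `σ`.  In `H89D1`. -/
theorem orbits {F L : Type*} [Field F] [NumberField F] [Field L] [NumberField L] [Algebra F L]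
    [IsGalois F L] {w : HeightOneSpectrum (𝓞 F)} {Q : HeightOneSpectrum (𝓞 L)}
    (hQ : Q ∈ above L w) :
    above L w = Set.range (fun σ : L ≃ₐ[F] L => smulPlace σ Q) ∧
      (above L w).ncard * Nat.card (dec F Q) = Module.finrank F L ∧
      (NonSplit L w ↔ ∀ σ : L ≃ₐ[F] L, smulPlace σ Q = Q) :=
  ⟨H89D.above_eq_range hQ, H89D.ncard_above_mul_card_dec hQ, H89D.nonSplit_iff hQ⟩

/-- **Frobenius elements.**  If `Q` is unramified over `w`, the decomposition group is generated by
an element `φ` with `φ x ≡ x ^ q` modulo `Q`, `q` the number of elements of the residue field of `w`.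
The order of `φ`, that is the order of the decomposition group, is the residue degree.  Proof: the
decomposition group acts faithfully on the residue field of `Q`, as the full Galois group.  In
`H89D1`, `H89D5`. -/
theorem frobenius {F L : Type*} [Field F] [NumberField F] [Field L] [NumberField L] [Algebra F L]
    [IsGalois F L] {w : HeightOneSpectrum (𝓞 F)} {Q : HeightOneSpectrum (𝓞 L)}
    (hQ : Q ∈ above L w) (he : w.asIdeal.ramificationIdx' Q.asIdeal = 1) :
    (∃ φ : L ≃ₐ[F] L, (∀ x : 𝓞 L, φ • x - x ^ Nat.card (𝓞 F ⧸ w.asIdeal) ∈ Q.asIdeal) ∧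
      dec F Q = Subgroup.zpowers φ ∧ orderOf φ = w.asIdeal.inertiaDeg' Q.asIdeal) ∧
    Nat.card (dec F Q) = w.asIdeal.inertiaDeg' Q.asIdeal :=
  ⟨H89D.exists_frob hQ he, H89D.card_dec_eq_inertiaDeg' hQ he⟩

/-- **Restriction.**  `E ⊂ M ⊂ L` with `L/E` and `M/E` Galois: the decomposition group of the place
of `M` below `Q` is the group of the restrictions to `M` of the elements of the decomposition group
of `Q`.  In `H89D1`, `H89D2`. -/
theorem dec_below {E M L : Type*} [Field E] [NumberField E] [Field M] [NumberField M] [Field L]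
    [NumberField L] [Algebra E M] [Algebra M L] [Algebra E L] [IsScalarTower E M L] [IsGalois E L]
    [Normal E M] (Q : HeightOneSpectrum (𝓞 L)) :
    dec E (below M Q) = (dec E Q).map (AlgEquiv.restrictNormalHom M) :=
  H89D.dec_below_eq_map Q

/-! ## 2. The places of a quaternion tower -/

section Tower

/-! Announced variables of this section: a quaternion tower `E ⊂ B ⊂ C ⊂ K`
(`H : IsQ8Tower E B C K`, see `GuideOctD.isQ8Tower_iff`) and a place `w` of `E` which is unramified
in `K` (hypothesis `hunr`). -/

variable {E B C K : Type*} [Field E] [NumberField E] [Field B] [NumberField B] [Field C]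
  [NumberField C] [Field K] [NumberField K] [Algebra E B] [Algebra E C] [Algebra E K]
  [Algebra B C] [Algebra B K] [Algebra C K] [IsScalarTower E B C] [IsScalarTower E B K]
  [IsScalarTower E C K] [IsScalarTower B C K]

/-- **Counting places** in `K`, `C` and `B`: `[K : E] = 8`, `[C : E] = 4`, `[B : E] = 2`.  In
`H89D2`. -/
theorem counting (H : IsQ8Tower E B C K) (w : HeightOneSpectrum (𝓞 E)) :
    (∀ Q ∈ above K w, (above K w).ncard * Nat.card (dec E Q) = 8) ∧
      (∀ P ∈ above C w, (above C w).ncard * Nat.card (dec E P) = 4) ∧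
      ∀ p ∈ above B w, (above B w).ncard * Nat.card (dec E p) = 2 :=
  ⟨fun _ h => H.ncard_K h, fun _ h => H.ncard_C h, fun _ h => H.ncard_B h⟩

/-- **The centre.**  Let `P` be a place of `C` above `w`, `Q` a place of `K` above `P`.  Then `P` is
non split in `K` if and only if the decomposition group of `Q` over `E` is not trivial: a subgroup
`≠ 1` of the quaternion group contains the centre `Gal(K/C)`.  So `P` is non split in `K` if and only
if `w` does not split completely in `K`; this does not depend on `P`.  In `H89D2`. -/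
theorem nonSplit_K (H : IsQ8Tower E B C K) {w : HeightOneSpectrum (𝓞 E)}
    (hunr : ∀ Q ∈ above K w, w.asIdeal.ramificationIdx' Q.asIdeal = 1)
    {P : HeightOneSpectrum (𝓞 C)} (hP : P ∈ above C w) :
    (∀ Q ∈ above K P, (NonSplit K P ↔ dec E Q ≠ ⊥)) ∧
      (NonSplit K P ↔ (above K w).ncard ≠ 8) :=
  ⟨fun _ hQ => H.nonSplit_iff_dec_ne_bot hunr hP hQ, H.nonSplit_K_iff hunr hP⟩

/-- **Decomposition in `C`.**  The Galois group of `C/E` is the Klein four group and the
decomposition groups are cyclic (`w` is unramified), so there are `4` or `2` places of `C` above `w`.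
If there are `8` places of `K` above `w`, there are `4` places of `C` above `w`; if there are `4`
places of `C` above `w`, there are two places of `B` above `w`.  In `H89D2`. -/
theorem places_of_C (H : IsQ8Tower E B C K) {w : HeightOneSpectrum (𝓞 E)}
    (hunr : ∀ Q ∈ above K w, w.asIdeal.ramificationIdx' Q.asIdeal = 1) :
    ((above C w).ncard = 4 ∨ (above C w).ncard = 2) ∧
      ((above K w).ncard = 8 → (above C w).ncard = 4) ∧
      ((above C w).ncard = 4 → ¬ NonSplit B w) :=
  ⟨H.ncard_C_eq hunr, H.ncard_C_of_ncard_K, H.not_nonSplit_B⟩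

/-- **The automorphism `τ ≠ 1` of `C/B`** fixes a place `P` of `C` above `w` if and only if there are
two places of `C` above `w` and `w` splits in `B`.  It fixes `P` if and only if the residue degree of
`P` over `B` is two.  In `H89D2`, `H89D5`. -/
theorem tau (H : IsQ8Tower E B C K) {τ : C ≃ₐ[B] C} (hτ : τ ≠ 1) {w : HeightOneSpectrum (𝓞 E)}
    (hunr : ∀ Q ∈ above K w, w.asIdeal.ramificationIdx' Q.asIdeal = 1)
    {P : HeightOneSpectrum (𝓞 C)} (hP : P ∈ above C w) :
    (smulPlace τ P = P ↔ (above C w).ncard = 2 ∧ ¬ NonSplit B w) ∧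
      ((below B P).asIdeal.inertiaDeg' P.asIdeal = 2 ↔ smulPlace τ P = P) ∧
      ((below B P).asIdeal.inertiaDeg' P.asIdeal = 1 ↔ smulPlace τ P ≠ P) :=
  ⟨H.smulPlace_tau_iff hτ hunr hP, H.inertiaDeg'_BC hτ hunr hP⟩

/-- **The sum behind the compatibility** (`GuideOctD.compatibility`).  If `x(P) + x(τ P) = n` for the
places `P` of `C` above `w`, then twice the sum of the `x(P)` is `n` times the number of these places.
This is where the parity comes from: let `w` not split completely in `K`.  If there are four places
of `C` above `w` the sum is `2 n`, and `w` splits in `B`.  If there are two the sum is `n`; when `w`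
splits in `B`, `τ` fixes the places and `n` is even; when it does not, the value of `ω` at `w` is
`1/2`.  In `H89D3`. -/
theorem sum_over_places (H : IsQ8Tower E B C K) (τ : C ≃ₐ[B] C) {w : HeightOneSpectrum (𝓞 E)}
    (x : HeightOneSpectrum (𝓞 C) → ℤ) (n : ℤ)
    (hx : ∀ P ∈ above C w, x P + x (smulPlace τ P) = n) :
    2 * ∑ P ∈ (H89D.finite_above (L := C) w).toFinset, x P = (above C w).ncard * n :=
  H.sum_above_tau τ x n hx

/-- **The hypothesis on the values of `χ`.**  If the values of `χ` on the places of `B` satisfy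
`χ(p)² = ± 1` for `τ P = P` and `χ(p) = ± 1` for `τ P ≠ P`, `p` the place below `P`, with the sign
`-1` if `P` is non split in `K`, then `χ(p) ^ f = ± 1` with `f` the residue degree of `P` over `B`:
the base change of `χ` to `C` is the quadratic character of `K/C`.  In `H89D6`. -/
theorem base_change_of_tau (H : IsQ8Tower E B C K) {τ : C ≃ₐ[B] C} (hτ : τ ≠ 1)
    {χ : HeightOneSpectrum (𝓞 B) → ℂ} {w : HeightOneSpectrum (𝓞 E)}
    (hunr : ∀ Q ∈ above K w, w.asIdeal.ramificationIdx' Q.asIdeal = 1)
    (h1 : ∀ P ∈ above C w, smulPlace τ P = P → χ (below B P) ^ 2 = if NonSplit K P then -1 else 1)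
    (h2 : ∀ P ∈ above C w, smulPlace τ P ≠ P → χ (below B P) = if NonSplit K P then -1 else 1) :
    ∀ P ∈ above C w, χ (below B P) ^ ((below B P).asIdeal.inertiaDeg' P.asIdeal) =
      if NonSplit K P then -1 else 1 :=
  H.ha_of_tau hτ hunr h1 h2

/-- **`χ` induces `a_w`.**  Let the base change of `χ` to `C` be the quadratic character of `K/C`
(hypothesis `ha`) and let the product of the values of `χ` above `w` be `-1` if `w` is non split in
`B` and `1` otherwise (`hb`).  If `w` splits in `B` the sum of the two values of `χ` above `w` is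
`a_w`, the trace of the Frobenius element in the representation of degree two of `Q₈` (`2`, `-2`, `0`
for the orders `1`, `2`, `4`; `GuideOctD.awR_eq`).  If `w` is non split in `B` the value of `χ` is
`-1`, and `a_w = 0`.  In `H89D5`, from `GuideOctD.values_of_chi`. -/
theorem induced (H : IsQ8Tower E B C K) {χ : HeightOneSpectrum (𝓞 B) → ℂ}
    {w : HeightOneSpectrum (𝓞 E)}
    (hunr : ∀ Q ∈ above K w, w.asIdeal.ramificationIdx' Q.asIdeal = 1)
    (ha : ∀ P ∈ above C w, χ (below B P) ^ ((below B P).asIdeal.inertiaDeg' P.asIdeal) =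
      if NonSplit K P then -1 else 1)
    (hb : ∏ᶠ p ∈ above B w, χ p = if NonSplit B w then -1 else 1) :
    (¬ NonSplit B w → ∑ᶠ p ∈ above B w, χ p = aw C K w) ∧
      (NonSplit B w → aw C K w = 0 ∧ ∀ p ∈ above B w, χ p = -1) :=
  ⟨fun h => H.sum_chi hunr ha hb h,
    fun h => ⟨H.aw_eq_zero_of_nonSplit h, fun _ hp => H.chi_nonSplit hunr ha h hp⟩⟩

end Tower

/-! ## 3. Hecke characters of finite order in the language of divisors -/

/-- **Values at divisors.**  `dv x` is the divisor of `x ∈ Kˣ`, with coefficient the order of `x` at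
`v`, and `ev f` extends a function `f` on the places, with values in an abelian group, to an additive
function on divisors.  Definitions in `H77ZDefs`. -/
theorem ev_apply {K : Type*} [Field K] [NumberField K] {A : Type*} [AddCommGroup A]
    (f : HeightOneSpectrum (𝓞 K) → A) :
    (∀ D : HeightOneSpectrum (𝓞 K) →₀ ℤ, ev f D = D.sum fun v n => n • f v) ∧
      (∀ v : HeightOneSpectrum (𝓞 K), ∀ n : ℤ, ev f (Finsupp.single v n) = n • f v) ∧
      ∀ (v : HeightOneSpectrum (𝓞 K)) (x : Kˣ), v.valuation K (x : K) = exp (-(dv x v)) :=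
  ⟨H77.Z.ev_apply f, H77.Z.ev_single f, fun v x => H47.valuation_eq_exp_ordHom v x⟩

/-- **Hecke characters and homomorphisms of the value groups.**  (`IsHecke` is unfolded in
`GuideOctD.isHecke_iff`.)  It is applied to the homomorphism `ℤ/2 → ℚ/ℤ` with `1 ↦ 1/2`.  In
`H77ZDefs`. -/
theorem isHecke_comp {K : Type*} [Field K] [NumberField K] {A A' : Type*} [AddCommGroup A]
    [AddCommGroup A'] (g : A →+ A') {S : Set (HeightOneSpectrum (𝓞 K))}
    {f : HeightOneSpectrum (𝓞 K) → A} (hf : IsHecke S f) : IsHecke S (fun v => g (f v)) :=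
  hf.comp g

/-- **The standard character of `ℚ/ℤ`**: `ex t = exp(2πi t)`; in particular `ex (1/2) = -1`.  Here
`H77.Z.half` is the class of `1/2`.  In `H77ZDefs`, `H77ZTower`, `H77ZOut`. -/
theorem ex_apply :
    (∀ t : ℚ, (((H77.Z.ex (t : AddCircle (1 : ℚ))).toMul : ℂˣ) : ℂ) =
      Complex.exp (2 * Real.pi * Complex.I * (t : ℂ))) ∧
    H77.Z.half = ((1 / 2 : ℚ) : AddCircle (1 : ℚ)) ∧ 2 • H77.Z.half = 0 ∧
    (((H77.Z.ex H77.Z.half).toMul : ℂˣ) : ℂ) = -1 :=
  ⟨H77.Z.coe_ex, rfl, H77.Z.two_half, H77.Z.ex_half⟩

/-- **Extension of characters.**  `φ : X → D` a homomorphism of abelian groups, `c` a character of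
`X` with values in `ℚ/ℤ` which is trivial on the kernel of `φ`.  Then there is a character `χ` of `D`
with `χ (φ x) = c x`, because `ℚ/ℤ` is divisible.  In `H77ZDefs`. -/
theorem extension {X D : Type*} [AddCommGroup X] [AddCommGroup D] (φ : X →+ D)
    (c : X →+ AddCircle (1 : ℚ)) (h : ∀ x, φ x = 0 → c x = 0) :
    ∃ χ : D →+ AddCircle (1 : ℚ), ∀ x, χ (φ x) = c x :=
  H77.Z.exists_extension φ c h

/-- **Norm and extension of divisors** for a quadratic extension `L/K` with automorphism `τ ≠ 1`.
`nmD τ` sends a place `w` to `2` or `1` times the place below it, according as `τ w = w` or not: the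
coefficient of `nmD τ x` at the place below `w` is `x(w) + x(τ w)`.  `upD` sends a place to the sum of
the places above it: the coefficient of `upD a` at `w` is the one of `a` at the place below `w`.
Outside the ramified places this is the norm of divisors and the extension of divisors.  In
`H77ZChi`. -/
theorem divisors {K L : Type} [Field K] [NumberField K] [Field L] [NumberField L] [Algebra K L]
    [IsGalois K L] (hdeg : Module.finrank K L = 2) {τ : L ≃ₐ[K] L} (hτ : τ ≠ 1)
    (w : HeightOneSpectrum (𝓞 L)) :
    (∀ x : HeightOneSpectrum (𝓞 L) →₀ ℤ,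
      H77.Z.nmD τ x (below K w) = x w + x (smulPlace τ w)) ∧
    ∀ a : HeightOneSpectrum (𝓞 K) →₀ ℤ, H77.Z.upD K L a w = a (below K w) :=
  ⟨fun x => H77.Z.nmD_apply hdeg hτ x w, fun a => H77.Z.upD_apply a w⟩

/-- **The quadratic character** `quadFn L S h` of `L/K` as a function on the places of `K`: `0` on
`S`, and outside `S` it is `h` at the non split and `0` at the other places.  In `H77ZTower`. -/
theorem quadFn_eq {K L : Type} [Field K] [NumberField K] [Field L] [NumberField L] [Algebra K L]
    {A : Type} [AddCommGroup A] (S : Set (HeightOneSpectrum (𝓞 K))) (h : A)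
    (v : HeightOneSpectrum (𝓞 K)) :
    H77.Z.quadFn L S h v = if v ∈ S then 0 else if NonSplit L v then h else 0 :=
  rfl

/-- **Quadratic reciprocity, additive form.**  `L/K` quadratic, `K` totally complex, `S` a finite set
of places containing the places above `2` and the ramified places.  The quadratic character with
value `1/2` at the inert places outside `S` is a Hecke character.  (`GuideOctD.quadratic_reciprocity` composed
with `ℤ/2 → ℚ/ℤ`.)  In `H77ZFin`, from `H82V6`. -/
theorem isHecke_quadFn {K L : Type} [Field K] [NumberField K] [IsTotallyComplex K] [Field L]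
    [NumberField L] [Algebra K L] [IsGalois K L] (hdeg : Module.finrank K L = 2)
    {S : Set (HeightOneSpectrum (𝓞 K))} (hS : S.Finite) (h2 : ∀ v ∉ S, v.valuation K (2 : K) = 1)
    (hunr : ∀ v ∉ S, ∀ w ∈ above L v, v.asIdeal.ramificationIdx' w.asIdeal = 1) :
    IsHecke S (H77.Z.quadFn L S H77.Z.half) :=
  H77.Z.isHecke_quadFn hdeg hS h2 hunr

/-! ## 4. Norms with congruences -/

/-- **Quadratic extensions**, `τ ≠ 1` the automorphism of `L/K`: every automorphism is `1` or `τ`,
`τ² = 1`, the norm of `x` is `x τ(x)` and the trace is `x + τ(x)`.  In `H77ZAdj`. -/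
theorem quadratic_extension {K L : Type} [Field K] [NumberField K] [Field L] [NumberField L]
    [Algebra K L] [IsGalois K L] (hdeg : Module.finrank K L = 2) {τ : L ≃ₐ[K] L} (hτ : τ ≠ 1) :
    (∀ g : L ≃ₐ[K] L, g = 1 ∨ g = τ) ∧ τ * τ = 1 ∧
      ∀ x : L, algebraMap K L (Algebra.norm K x) = x * τ x ∧
        algebraMap K L (Algebra.trace K L x) = x + τ x :=
  have : FiniteDimensional K L := Module.Finite.of_restrictScalars_finite ℚ K L
  ⟨fun g => H77.Z.aut_eq_one_or hdeg hτ g, H77.Z.aut_mul_self hdeg hτ,
    fun x => ⟨H77.Z.algebraMap_norm hdeg hτ x, H77.Z.algebraMap_trace hdeg hτ x⟩⟩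

/-- **Approximate Hilbert 90.**  `L/K` quadratic with automorphism `τ ≠ 1`, `S` a finite set of
places.  If the norm of `y ∈ Lˣ` is sufficiently close to `1` at `S`, then `y` can be brought close
to `1` at all places above `S` by multiplying it with an element `τ(z)/z` (which has norm `1`).
Proof: for `z = r + y τ(r)` one has `y τ(z)/z - 1 = (N y - 1) r / z`, and `r` is chosen by weak
approximation such that `z` is not much smaller than `r`.  In `H77ZAdj`. -/
theorem approximate_hilbert90 {K L : Type} [Field K] [NumberField K] [Field L] [NumberField L]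
    [Algebra K L] [IsGalois K L] (hdeg : Module.finrank K L = 2) {τ : L ≃ₐ[K] L} (hτ : τ ≠ 1)
    {S : Set (HeightOneSpectrum (𝓞 K))} (hS : S.Finite) (m' : ℕ) :
    ∃ m : ℕ, ∀ y : Lˣ, (∀ v ∈ S, Units.map (Algebra.norm K : L →* K) y ∈ congr v m) →
      ∃ z : Lˣ, ∀ w ∈ aboveSet L S, y * Units.map (τ : L →* L) z / z ∈ congr w m' :=
  H77.Z.exists_adjust hdeg hτ hS m'

/-- **Local norms.**  `L/K` quadratic, `v` a place of `K` not above `2`, unramified and non split in
`L`: an element of even order at `v` is a local norm at `v`, that is (`locNorm L v m`, for all `m`) a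
product of a norm and an element of `congr v m`.  Together with the Hasse norm theorem
(`GuideQuadRec.hasse_norm`) and `approximate_hilbert90` this proves `GuideOctD.norm_lift`.  In
`H77ZNorm`. -/
theorem even_order {K L : Type} [Field K] [NumberField K] [Field L] [NumberField L] [Algebra K L]
    [IsGalois K L] (hdeg : Module.finrank K L = 2) {v : HeightOneSpectrum (𝓞 K)}
    (hv2 : v.valuation K (2 : K) = 1) (hns : NonSplit L v)
    (hunr : ∀ w ∈ above L v, v.asIdeal.ramificationIdx' w.asIdeal = 1) {x : Kˣ}
    (hx : (2 : ℤ) ∣ dv x v) (m : ℕ) : x ∈ locNorm L v m :=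
  H77.Z.even_mem_locNorm hdeg hv2 hns hunr hx m

/-- **Congruences and extensions.**  An element of `K` which is `≡ 1` modulo `v ^ m` is `≡ 1` modulo
`w ^ m` for the places `w` of `L` above `v`.  Conversely, for `S` finite and every `n` there is `m`
such that an element of `K` which is `≡ 1` modulo `w ^ m` at some place `w` above `v ∈ S` is `≡ 1`
modulo `v ^ n`.  The order of an element of `K` is the same at `v` and at an unramified place `w`
above `v`.  In `H77ZNorm`. -/
theorem congruences {K L : Type*} [Field K] [NumberField K] [Field L] [NumberField L] [Algebra K L] :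
    (∀ (v : HeightOneSpectrum (𝓞 K)) (w : HeightOneSpectrum (𝓞 L)), w ∈ above L v →
      ∀ (m : ℕ) (x : Kˣ), x ∈ congr v m → H77.Z.up K L x ∈ congr w m) ∧
    (∀ S : Set (HeightOneSpectrum (𝓞 K)), S.Finite → ∀ n : ℕ, ∃ m : ℕ, ∀ x : Kˣ, ∀ v ∈ S,
      ∀ w ∈ above L v, H77.Z.up K L x ∈ congr w m → x ∈ congr v n) ∧
    ∀ (v : HeightOneSpectrum (𝓞 K)) (w : HeightOneSpectrum (𝓞 L)), w ∈ above L v →
      v.asIdeal.ramificationIdx' w.asIdeal = 1 → ∀ x : Kˣ, dv (H77.Z.up K L x) w = dv x v :=
  ⟨fun _ _ hw _ _ hx => H77.Z.up_mem_congr hw hx, fun _ hS n => H77.Z.exists_descend hS n,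
    fun _ _ hw hunr x => H77.Z.od_up hw hunr x⟩

/-! ## 5. Descent of characters in a biquadratic extension -/

/-- **The second quadratic subfield.**  `E ⊂ B ⊂ C` with `[B : E] = [C : B] = 2`, `C/E` Galois with a
group of exponent two, `τ ≠ 1` the automorphism of `C/B`.  There is another quadratic extension `B₂`
of `E` in `C`; the automorphism `σ ≠ 1` of `C/B₂` is not trivial on `B`, and `τ` is not trivial on
`B₂`.  In `H77ZTower`. -/
theorem second_subfield {E B C : Type} [Field E] [NumberField E] [Field B] [NumberField B] [Field C]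
    [NumberField C] [Algebra E B] [Algebra B C] [Algebra E C] [IsScalarTower E B C] [IsGalois E C]
    (hB : Module.finrank E B = 2) (hBC : Module.finrank B C = 2)
    (hsq : ∀ σ : C ≃ₐ[E] C, σ * σ = 1) {τ : C ≃ₐ[B] C} (hτ : τ ≠ 1) :
    ∃ (B2 : IntermediateField E C) (σ : C ≃ₐ[B2] C), σ ≠ 1 ∧ Module.finrank E B2 = 2 ∧
      Module.finrank B2 C = 2 ∧ (∃ b : B, σ (algebraMap B C b) ≠ algebraMap B C b) ∧
      ∃ y : B2, τ (algebraMap B2 C y) ≠ algebraMap B2 C y :=
  H77.Z.exists_other hB hBC hsq hτ

/-- **Ramification in a tower** `E ⊂ B ⊂ C`: a place of `C` which is unramified over `E` is unramified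
over `B`, and the place of `B` below it is unramified over `E`.  In `H77ZCore`. -/
theorem unramified_tower {E B C : Type} [Field E] [NumberField E] [Field B] [NumberField B]
    [Field C] [NumberField C] [Algebra E B] [Algebra B C] [Algebra E C] [IsScalarTower E B C]
    {w : HeightOneSpectrum (𝓞 C)} (h : (below E w).asIdeal.ramificationIdx' w.asIdeal = 1) :
    (below B w).asIdeal.ramificationIdx' w.asIdeal = 1 ∧
      (below E (below B w)).asIdeal.ramificationIdx' (below B w).asIdeal = 1 :=
  H77.Z.unr_of_tower h

/-- **From the local to the global compatibility.**  `e` and `ω` are functions on the places of `C`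
and of `E`, zero at `S`.  If for every place `v` of `E` outside `S` the equations
`x(w) + x(τ w) = n`, `w` above `v`, imply `∑ x(w) e(w) = n ω(v)`, then `ev e x = ev ω a` for all
divisors `x` of `C` and `a` of `E` such that the norm of `x` to the fixed field of `τ` is the divisor
`a`, outside `S`.  So `GuideOctD.compatibility` gives the hypothesis `hcompat` of
`GuideOctD.descent_of_characters`.  In `H77ZCore`. -/
theorem local_to_global {E C : Type} [Field E] [NumberField E] [Field C] [NumberField C]
    [Algebra E C] {T : Type*} [AddCommGroup T] {S : Set (HeightOneSpectrum (𝓞 E))}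
    {e : HeightOneSpectrum (𝓞 C) → T} {ω : HeightOneSpectrum (𝓞 E) → T}
    (he : ∀ w ∈ aboveSet C S, e w = 0) (hω : ∀ v ∈ S, ω v = 0) (τ : C ≃ₐ[E] C)
    (hloc : ∀ v ∉ S, ∀ (x : HeightOneSpectrum (𝓞 C) →₀ ℤ) (n : ℤ),
      (∀ w ∈ above C v, x w + x (smulPlace τ w) = n) →
        ∑ᶠ w ∈ above C v, x w • e w = n • ω v)
    (x : HeightOneSpectrum (𝓞 C) →₀ ℤ) (a : HeightOneSpectrum (𝓞 E) →₀ ℤ)
    (hx : ∀ w ∉ aboveSet C S, x w + x (smulPlace τ w) = a (below E w)) : ev e x = ev ω a :=
  H77.Z.ev_eq_of_local he hω τ hloc x a hx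

/-- **The prescriptions agree** (the heart of the descent).  Situation of
`GuideOctD.descent_of_characters`: `C/E` biquadratic with quadratic subfields `B` and `B₂`, `τ` and
`σ` the automorphisms of `C/B` and `C/B₂`, `e` and `ω` Hecke characters of `C` and `E` with
`hcompat`.  There is `m` such that: if the sum of the norm to `B` of a divisor `x` of `C`, of a
divisor `a` of `E` and of the divisor of an element `b ∈ B`, `b ≡ 1` modulo `w ^ m` above `S`, is zero
outside `S` (written on the places of `C`), then `e(x) + ω(a) = 0`.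

Proof: the norm `c` of `b` in `E` is close to `1` and has even order at the places outside `S` which
do not split in `B₂` (by the hypothesis on `x`, `a`, `b` at `w` and `σ w`).  By `GuideOctD.norm_lift`
there is `y ∈ B₂` close to `1` with the same norm `c`.  Put `z = (b + y)/2` in `C` and
`s = (Tr b + Tr y)/4` in `E`.  Both are close to `1`, so `e` and `ω` are zero on their divisors, and
`z τ(z) = b s` by `GuideOctD.core_identity`.  Hence the norm of `x + div(z)` is `div(s) - a` outside
`S`, and `hcompat` gives `e(x) = - ω(a)`.  In `H77ZCore`. -/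
theorem well_defined {E B B2 C : Type} [Field E] [NumberField E] [IsTotallyComplex E] [Field B]
    [NumberField B] [Field B2] [NumberField B2] [Field C] [NumberField C] [Algebra E B]
    [Algebra E B2] [Algebra B C] [Algebra B2 C] [Algebra E C] [IsScalarTower E B C]
    [IsScalarTower E B2 C] [IsGalois E B] [IsGalois E B2] [IsGalois E C] {T : Type*}
    [AddCommGroup T] (hB : Module.finrank E B = 2) (hB2 : Module.finrank E B2 = 2)
    (hC : Module.finrank B C = 2) (hC2 : Module.finrank B2 C = 2) {τ : C ≃ₐ[B] C} (hτ : τ ≠ 1)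
    {σ : C ≃ₐ[B2] C} (hσ : σ ≠ 1) (hσB : ∃ b : B, σ (algebraMap B C b) ≠ algebraMap B C b)
    (hτB2 : ∃ y : B2, τ (algebraMap B2 C y) ≠ algebraMap B2 C y)
    {S : Set (HeightOneSpectrum (𝓞 E))} (hS : S.Finite) (hSne : S.Nonempty)
    (h2 : ∀ v ∉ S, v.valuation E (2 : E) = 1)
    (hunr : ∀ v ∉ S, ∀ w ∈ above C v, v.asIdeal.ramificationIdx' w.asIdeal = 1)
    {e : HeightOneSpectrum (𝓞 C) → T} {ω : HeightOneSpectrum (𝓞 E) → T}
    (he : IsHecke (aboveSet C S) e) (hω : IsHecke S ω)
    (hcompat : ∀ (x : HeightOneSpectrum (𝓞 C) →₀ ℤ) (a : HeightOneSpectrum (𝓞 E) →₀ ℤ),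
      (∀ w ∉ aboveSet C S, x w + x (smulPlace τ w) = a (below E w)) → ev e x = ev ω a) :
    ∃ m : ℕ, ∀ (x : HeightOneSpectrum (𝓞 C) →₀ ℤ) (a : HeightOneSpectrum (𝓞 E) →₀ ℤ) (b : Bˣ),
      (∀ w ∈ aboveSet B S, b ∈ congr w m) →
      (∀ w ∉ aboveSet C S, x w + x (smulPlace τ w) + a (below E w) + dv (H77.Z.up B C b) w = 0) →
      ev e x + ev ω a = 0 :=
  H77.Z.core hB hB2 hC hC2 hτ hσ hσB hτB2 hS hSne h2 hunr he hω hcompat

/-- **The quartic character, additive form.**  In a quaternion tower, let the quadratic characters of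
`K/C` and of `B/E` be Hecke characters (`isHecke_quadFn`).  There is a Hecke character `χ` of `B`
with values in `ℚ/ℤ` with `2 χ(p) = e(P)` if `τ P = P` and `χ(p) = e(P)` if `τ P ≠ P`, `p` the place
of `B` below the place `P` of `C`, and such that the sum of the values of `χ` over a place of `E` is
the value of the quadratic character of `B/E`.  (`GuideOctD.descent_of_characters` with
`second_subfield`, `local_to_global` and `GuideOctD.compatibility`.)  In `H77ZTower`. -/
theorem additive_form {E B C K : Type} [Field E] [NumberField E] [IsTotallyComplex E] [Field B]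
    [NumberField B] [Field C] [NumberField C] [Field K] [NumberField K] [Algebra E B] [Algebra E C]
    [Algebra E K] [Algebra B C] [Algebra B K] [Algebra C K] [IsScalarTower E B C]
    [IsScalarTower E B K] [IsScalarTower E C K] [IsScalarTower B C K] (H : IsQ8Tower E B C K)
    {τ : C ≃ₐ[B] C} (hτ : τ ≠ 1) {S : Set (HeightOneSpectrum (𝓞 E))} (hS : S.Finite)
    (hSne : S.Nonempty) (h2 : ∀ v ∉ S, v.valuation E (2 : E) = 1)
    (hunr : ∀ v ∉ S, ∀ w ∈ above K v, v.asIdeal.ramificationIdx' w.asIdeal = 1)
    (he : IsHecke (aboveSet C S) (H77.Z.quadFn K (aboveSet C S) H77.Z.half))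
    (hω : IsHecke S (H77.Z.quadFn B S H77.Z.half)) :
    ∃ χ : HeightOneSpectrum (𝓞 B) → AddCircle (1 : ℚ), IsHecke (aboveSet B S) χ ∧
      (∀ P : HeightOneSpectrum (𝓞 C), P ∉ aboveSet C S → smulPlace τ P = P →
        2 • χ (below B P) = H77.Z.quadFn K (aboveSet C S) H77.Z.half P) ∧
      (∀ P : HeightOneSpectrum (𝓞 C), P ∉ aboveSet C S → smulPlace τ P ≠ P →
        χ (below B P) = H77.Z.quadFn K (aboveSet C S) H77.Z.half P) ∧
      (∀ v, v ∉ S → ∑ᶠ p ∈ above B v, χ p = H77.Z.quadFn B S H77.Z.half v) :=
  H77.Z.exists_chi_tower H hτ hS hSne h2 hunr he hω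

/-! ## 6. From places to ideals -/

/-- **The divisor of an ideal** `idD I`: its value at `v` is the exponent of `v` in `I`.  It is
additive, the divisor of a prime is the prime, and the divisor of `(a)` is the divisor of `a`.  In
`H77ZIdeal`. -/
theorem divisor_of_ideal {K : Type*} [Field K] [NumberField K] :
    (∀ I J : Ideal (𝓞 K), I ≠ ⊥ → J ≠ ⊥ → H77.Z.idD (I * J) = H77.Z.idD I + H77.Z.idD J) ∧
      (∀ v : HeightOneSpectrum (𝓞 K), H77.Z.idD v.asIdeal = Finsupp.single v 1) ∧
      ∀ (a : 𝓞 K) (x : Kˣ), (x : K) = algebraMap (𝓞 K) K a →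
        H77.Z.idD (Ideal.span {a}) = dv x :=
  ⟨fun _ _ hI hJ => H77.Z.idD_mul hI hJ, H77.Z.idD_prime, fun _ _ hx => H77.Z.idD_span hx⟩

/-- **Multiplicative functions on ideals** `chiI f`: the multiplicative function on the ideals of `K`
with given values `f v` at the primes `v`.  If `f v = g v` outside `S`, `g` with values in the
nonzero complex numbers (written additively, as in `ev`), the value at an ideal which is prime to `S`
is the value of `g` at its divisor.  In `H77ZIdeal`. -/
theorem function_on_ideals {K : Type*} [Field K] [NumberField K]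
    (f : HeightOneSpectrum (𝓞 K) → ℂ) :
    (∀ v : HeightOneSpectrum (𝓞 K), H77.Z.chiI f v.asIdeal = f v) ∧
      ∀ (S : Set (HeightOneSpectrum (𝓞 K))) (g : HeightOneSpectrum (𝓞 K) → Additive ℂˣ),
        (∀ v ∉ S, f v = ((g v).toMul : ℂˣ)) → ∀ I : Ideal (𝓞 K), I ≠ ⊥ →
          (∀ v ∈ S, ¬ I ≤ v.asIdeal) → H77.Z.chiI f I = ((ev g (H77.Z.idD I)).toMul : ℂˣ) :=
  ⟨fun v => H77.Z.chiI_prime f v, fun _ _ hf _ hI hS => H77.Z.chiI_eq_ev hf hI hS⟩

/-- **Hecke characters in the language of ideals.**  A Hecke character `χ` with values in `ℚ/ℤ` and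
with bad set `S` gives an ideal `m`, divisible exactly by the primes in `S`, and a multiplicative
function `chi` on ideals, which is `0` at the primes in `S` and `exp(2πi χ(P))` at the other primes,
and `1` on the principal ideals `(a)` with `a ≡ 1` modulo `m`.  Proof: `m` is the product of the
`P ^ (n + 1)`, `P ∈ S`, where `n` is the exponent of the congruences in the definition of `IsHecke`.
In `H77ZOut`. -/
theorem ideal_form {K : Type*} [Field K] [NumberField K] {S : Set (HeightOneSpectrum (𝓞 K))}
    (hS : S.Finite) (hSne : S.Nonempty) {χ : HeightOneSpectrum (𝓞 K) → AddCircle (1 : ℚ)}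
    (hχ : IsHecke S χ) :
    ∃ (m : Ideal (𝓞 K)) (chi : Ideal (𝓞 K) →*₀ ℂ), m ≠ ⊥ ∧
      (∀ P : HeightOneSpectrum (𝓞 K), m ≤ P.asIdeal ↔ P ∈ S) ∧
      (∀ P ∈ S, chi P.asIdeal = 0) ∧
      (∀ P ∉ S, chi P.asIdeal = ((H77.Z.ex (χ P)).toMul : ℂˣ)) ∧
      (∀ a : 𝓞 K, a - 1 ∈ m → chi (Ideal.span {a}) = 1) :=
  H77.Z.exists_chiI hS hSne hχ

/-- **The quartic character from the two quadratic characters.**  This is `GuideOctD.exists_chi` with
the two instances of quadratic reciprocity as hypotheses: `additive_form` and `ideal_form`, then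
`base_change_of_tau`, `GuideOctD.values_of_chi` (so `chi P ^ 4 = 1`) and `induced`.  With
`isHecke_quadFn` and `unramified_tower` it gives `GuideOctD.exists_chi` (`H77ZFin`).  In
`H77ZOut`. -/
theorem from_quadratic_characters {E B C K : Type} [Field E] [NumberField E] [IsTotallyComplex E]
    [Field B] [NumberField B] [Field C] [NumberField C] [Field K] [NumberField K] [Algebra E B]
    [Algebra E C] [Algebra E K] [Algebra B C] [Algebra B K] [Algebra C K] [IsScalarTower E B C]
    [IsScalarTower E B K] [IsScalarTower E C K] [IsScalarTower B C K] (H : IsQ8Tower E B C K)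
    {S : Set (HeightOneSpectrum (𝓞 E))} (hS : S.Finite) (hSne : S.Nonempty)
    (h2 : ∀ v ∉ S, v.valuation E (2 : E) = 1)
    (hunr : ∀ v ∉ S, ∀ w ∈ above K v, v.asIdeal.ramificationIdx' w.asIdeal = 1)
    (he : IsHecke (aboveSet C S) (H77.Z.quadFn K (aboveSet C S) H77.Z.half))
    (hω : IsHecke S (H77.Z.quadFn B S H77.Z.half)) :
    ∃ (m : Ideal (𝓞 B)) (chi : Ideal (𝓞 B) →*₀ ℂ), m ≠ ⊥ ∧
      (∀ P : HeightOneSpectrum (𝓞 B), m ≤ P.asIdeal ↔ P ∈ aboveSet B S) ∧
      (∀ P : HeightOneSpectrum (𝓞 B), chi P.asIdeal = 0 ↔ P ∈ aboveSet B S) ∧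
      (∀ a : 𝓞 B, a - 1 ∈ m → chi (Ideal.span {a}) = 1) ∧
      (∀ P : HeightOneSpectrum (𝓞 B), P ∉ aboveSet B S → chi P.asIdeal ^ 4 = 1) ∧
      (∀ v ∉ S, ∀ w ∈ above C v, chi (below B w).asIdeal ^
        ((below B w).asIdeal.inertiaDeg' w.asIdeal) = if NonSplit K w then -1 else 1) ∧
      (∀ v ∉ S, ∏ᶠ P ∈ above B v, chi P.asIdeal = if NonSplit B v then -1 else 1) ∧
      (∀ v ∉ S, ¬ NonSplit B v → ∑ᶠ P ∈ above B v, chi P.asIdeal = aw C K v) ∧
      (∀ v ∉ S, NonSplit B v → aw C K v = 0 ∧ ∀ P ∈ above B v, chi P.asIdeal = -1) :=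
  H77.Z.exists_chi H hS hSne h2 hunr he hω

end Fermat.Agent.Guide.QuarticCharacter
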