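import Fermat.Agent.H45Theta

/-!
# Reader's guide: quaternary theta series (companion of `GuideResidualTheta`, section 1)

Every theorem of this file is proved by citing a theorem of the library; nothing here is used by any other
file. Editor: helper45. Notes: [133], and [120] for the use of the result. The theorems belong to the closures
of S01, S03, S04, S06, S38, S45, S46, S50, S59, S60 (block LT, through `Residual.ta_theta_hom`). Section 1
belongs also to the closure of S16 (theta series in the bound for the Eisenstein ideal) and, except for its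
last theorem, of S47 (theta kernel of block (T), with `n = 2`).

**What is proved.** Let `G` be the Gram matrix of an even positive definite quadratic form `q(x) = x G x / 2`
in four variables, `G G* = N` with an even symmetric integral matrix `G*`, `det G = D²`. Then
`θ(τ) = Σ_x exp(2πi τ q(x))` satisfies `θ((a τ + b)/(c τ + d)) = (c τ + d)² θ(τ)` for all matrices of `Γ₀(N)`
and has a limit at each cusp: it is a modular form of weight two, and its `n`-th coefficient is the number of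
`x` with `q(x) = n`.

**Idea of the proof.** (1) Poisson summation in `n` variables by induction on `n`: complete the square in the
first variable and use Mathlib's functional equation of the theta function of one variable. There is no
Fourier transform in several variables. (2) For a matrix with lower left entry `c > 0` split the sum into the
residue classes modulo `c`: the result is a sum over the dual lattice weighted by Gauss sums. (3) If `N ∣ c`,
the Gauss sums vanish outside the lattice, and inside it they are the value at zero times an exponential. So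
`θ` is multiplied by `-G(a, c) / (c² D)`. (4) The remaining Gauss sum `G(a, c)` is not computed: for `a = 1`
its value is read off from the action of `(1 0; c 1)`, which is known by conjugation with the inversion, at
the point `τ = i`, where `θ(i) > 0`; for other `a` it is a Galois conjugate of the value for `a = 1`, which
is an integer. (5) The limits at the cusps follow from the formula of (2), term by term.

Notation: `bl G x y = x G y`; `ee c m = exp(2πi m / c)`; `lft c h` is the vector of the representatives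
`0, ..., c - 1` of a vector `h` of residue classes modulo `c`; `L.q x = x G x / 2` (integer division of an
even number); `L.th` the theta series, `L.ths` the theta series of `G*`, `L.gs a c w` the Gauss sum,
`L.thf` the theta series as a function on the upper half plane.
-/

set_option autoImplicit false

noncomputable section

open Complex Matrix Filter Topology
open UpperHalfPlane hiding I
open scoped Real ModularForm MatrixGroups Manifold

namespace Fermat.Agent.Guide.QuaternaryTheta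

open Fermat.Agent.H45 (qf)
open Fermat.Agent.H45.Th (QD bl ee lft)

/-! ## 1. Poisson summation in several variables -/

/-- **Completing the square** for a positive definite real matrix `A` of size `n + 1`. There are a number
`a > 0` (the entry `A₀₀`), a vector `β` and a positive definite matrix `S` of size `n` with
`x A x = a (x₀ + β·x')² + x' S x'`, `det A = a det S`, and for the inverse matrix
`u A⁻¹ u = u₀² / a + (u' - u₀ β) S⁻¹ (u' - u₀ β)`. Here `x'` is `x` without its first coordinate and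
`qf A x = x A x`. File `H45Poisson1`. -/
theorem completing_the_square {n : ℕ} (A : Matrix (Fin (n + 1)) (Fin (n + 1)) ℝ) (hA : A.PosDef) :
    ∃ (a : ℝ) (β : Fin n → ℝ) (S : Matrix (Fin n) (Fin n) ℝ), 0 < a ∧ S.PosDef ∧
      (∀ x : Fin (n + 1) → ℝ, x ⬝ᵥ (A *ᵥ x) = a * (x 0 + β ⬝ᵥ Fin.tail x) ^ 2 +
        Fin.tail x ⬝ᵥ (S *ᵥ Fin.tail x)) ∧
      A.det = a * S.det ∧
      ∀ u : Fin (n + 1) → ℝ, u ⬝ᵥ (A⁻¹ *ᵥ u) = (u 0) ^ 2 / a +
        (Fin.tail u - u 0 • β) ⬝ᵥ (S⁻¹ *ᵥ (Fin.tail u - u 0 • β)) :=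
  H45.schur_decomp A hA

/-- **One variable**: Poisson summation for `exp(πi z a (x + t)² + 2πi w (x + t))`, `x ∈ ℤ`, `Im z > 0`,
`a > 0` and real `t`, `w`. From the functional equation of Mathlib's two variable Jacobi theta function. File
`H45Poisson2`. -/
theorem poisson_one_variable (a : ℝ) (ha : 0 < a) (z : ℂ) (hz : 0 < z.im) (t w : ℝ) :
    ∑' x : ℤ, cexp (π * I * z * ((a * ((x : ℝ) + t) ^ 2 : ℝ) : ℂ) +
      2 * π * I * ((w * ((x : ℝ) + t) : ℝ) : ℂ)) =
    1 / (-I * z) ^ (1 / 2 : ℂ) * (1 / (√a : ℝ)) *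
      ∑' y : ℤ, cexp (-π * I / z * ((((y : ℝ) - w) ^ 2 / a : ℝ) : ℂ) +
        2 * π * I * (((y : ℝ) * t : ℝ) : ℂ)) :=
  H45.gaussian_one_dim a ha z hz t w

/-- The sum of `exp(-π c (x + t)²)` over the integers is bounded, uniformly in `t`. This is what the induction
on the number of variables needs for the convergence. File `H45Poisson2`. -/
theorem uniform_bound (c : ℝ) (hc : 0 < c) :
    ∃ M : ℝ, ∀ t : ℝ, ∑' x : ℤ, Real.exp (-π * c * ((x : ℝ) + t) ^ 2) ≤ M :=
  H45.exists_bound_tsum_exp_neg_sq c hc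

/-- **Convergence**: for a positive definite matrix `A` and a real vector `h` the sum of
`exp(-π c (x + h) A (x + h))` over all integral vectors `x` converges. File `H45Poisson2`. -/
theorem summable_gauss (n : ℕ) (A : Matrix (Fin n) (Fin n) ℝ) (hA : A.PosDef) (c : ℝ) (hc : 0 < c)
    (h : Fin n → ℝ) :
    Summable fun x : Fin n → ℤ => Real.exp (-π * c *
      ((fun i => (x i : ℝ) + h i) ⬝ᵥ (A *ᵥ fun i => (x i : ℝ) + h i))) :=
  H45.summable_gauss n A hA c hc h

/-- **Poisson summation in `n` variables** for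
`exp(πi z (x + h) A (x + h) + 2πi w·(x + h))`, `A` positive definite, `Im z > 0`, `h` and `w` real vectors:
the factor is `(-i z)^(-n/2) (det A)^(-1/2)` and the dual sum runs over `y` with
`exp(-πi/z (y - w) A⁻¹ (y - w) + 2πi y·h)`. Induction on `n`: sum over the first coordinate with
`poisson_one_variable`, then over the others. File `H45Poisson2`. -/
theorem poisson_n_variables (z : ℂ) (hz : 0 < z.im) (n : ℕ) (A : Matrix (Fin n) (Fin n) ℝ)
    (hA : A.PosDef) (h w : Fin n → ℝ) :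
    ∑' x : Fin n → ℤ, cexp (π * I * z *
        (((fun i => (x i : ℝ) + h i) ⬝ᵥ (A *ᵥ fun i => (x i : ℝ) + h i) : ℝ) : ℂ) +
      2 * π * I * ((w ⬝ᵥ (fun i => (x i : ℝ) + h i) : ℝ) : ℂ)) =
    (1 / (-I * z) ^ (1 / 2 : ℂ)) ^ n * (1 / (√A.det : ℝ)) *
      ∑' y : Fin n → ℤ, cexp (-π * I / z *
          (((fun i => (y i : ℝ) - w i) ⬝ᵥ (A⁻¹ *ᵥ fun i => (y i : ℝ) - w i) : ℝ) : ℂ) +
        2 * π * I * (((fun i => (y i : ℝ)) ⬝ᵥ h : ℝ) : ℂ)) :=
  H45.poisson_gt z hz n A hA h w

/-- **Four variables**: the factor `(-i z)^(-2)` is `-1/z²`, so no square root of `z` remains. (helper16.)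
File `H16Poisson`; used here and for S16. -/
theorem poisson_four_variables (A : Matrix (Fin 4) (Fin 4) ℝ) (hA : A.PosDef) (h : Fin 4 → ℝ)
    (z : UpperHalfPlane) :
    ∑' x : Fin 4 → ℤ, cexp (π * I * z *
        ((((fun i => (x i : ℝ) + h i) ⬝ᵥ (A *ᵥ (fun i => (x i : ℝ) + h i)) : ℝ) : ℂ))) =
      -(1 / (z : ℂ) ^ 2) * (1 / (√A.det : ℝ)) *
        ∑' y : Fin 4 → ℤ, cexp (-π * I / z *
          ((((fun i => (y i : ℝ)) ⬝ᵥ (A⁻¹ *ᵥ (fun i => (y i : ℝ))) : ℝ) : ℂ)) +
          2 * π * I * (((fun i => (y i : ℝ)) ⬝ᵥ h : ℝ) : ℂ)) :=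
  H16.gaussian_poisson A hA h z

/-! ## 2. Integral forms -/

/-- **Positivity over `ℝ`**: a symmetric integral matrix with nonzero determinant which is positive at all
nonzero INTEGRAL vectors is positive definite. (It is nonnegative at rational vectors, so semidefinite by
continuity.) File `H45Theta`. -/
theorem positive_definite {A : Matrix (Fin 4) (Fin 4) ℤ} (hs : Aᵀ = A) (hd : A.det ≠ 0)
    (pos : ∀ x : Fin 4 → ℤ, x ≠ 0 → 0 < x ⬝ᵥ (A *ᵥ x)) :
    (A.map (Int.cast : ℤ → ℝ)).PosDef :=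
  H45.Th.posDef_of_int hs hd pos

/-- **The data** `QD N`: matrices `G` and `G*` and a number `D` with the following properties. The form
`q(x) = x G x / 2` has level dividing `N`, and `N G⁻¹ = G*`. File `H45Th1`. -/
theorem data {N : ℕ} (L : QD N) : L.Gᵀ = L.G ∧ L.Gsᵀ = L.Gs ∧ (∀ i, Even (L.G i i)) ∧
    (∀ i, Even (L.Gs i i)) ∧ L.G * L.Gs = (N : ℤ) • (1 : Matrix (Fin 4) (Fin 4) ℤ) ∧
    (L.G.map (Int.cast : ℤ → ℝ)).PosDef ∧ L.G.det = (L.D : ℤ) ^ 2 :=
  ⟨L.symm, L.symm', L.even, L.even', L.mul, L.pos, L.det⟩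

/-- **The form**: `x G x` is even, `q(x + y) = q(x) + q(y) + x G y`, `q(k x) = k² q(x)`, and
`(G x) G* (G x) = N x G x`. Files `H45Th1`-`H45Th3`. -/
theorem form {N : ℕ} (L : QD N) (x y : Fin 4 → ℤ) (k : ℤ) :
    2 * L.q x = x ⬝ᵥ (L.G *ᵥ x) ∧ L.q (x + y) = L.q x + L.q y + x ⬝ᵥ (L.G *ᵥ y) ∧
      L.q (k • x) = k ^ 2 * L.q x ∧
      (L.G *ᵥ x) ⬝ᵥ (L.Gs *ᵥ (L.G *ᵥ x)) = N * (x ⬝ᵥ (L.G *ᵥ x)) :=
  ⟨L.two_q x, L.q_add x y, L.q_smul k x, L.bl_Gs_mulVec x⟩

/-- **The theta series** `L.th τ` of the lattice and `L.ths τ` of the dual form `G*`; the first one converges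
absolutely for `Im τ > 0`. File `H45Th1`. -/
theorem theta_series {N : ℕ} (L : QD N) (τ : ℂ) :
    L.th τ = ∑' x : Fin 4 → ℤ, cexp (π * I * τ * ((x ⬝ᵥ (L.G *ᵥ x) : ℤ) : ℂ)) ∧
      L.ths τ = ∑' x : Fin 4 → ℤ, cexp (π * I * τ * ((x ⬝ᵥ (L.Gs *ᵥ x) : ℤ) : ℂ)) ∧
      (0 < τ.im → Summable fun x : Fin 4 → ℤ => cexp (π * I * τ * ((x ⬝ᵥ (L.G *ᵥ x) : ℤ) : ℂ))) :=
  ⟨rfl, rfl, fun h => L.summable_th h⟩

/-- **Inversion**: `θ(-1/z) = -(z²/D) θ*(z/N)`. File `H45Th1`. -/
theorem inversion {N : ℕ} (L : QD N) (hN : N ≠ 0) {z : ℂ} (hz : 0 < z.im) :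
    L.th (-1 / z) = -(z ^ 2 / L.D) * L.ths (z / N) :=
  L.th_inv hN hz

/-- **Period one**: both theta series are invariant under integral translations, because both forms are even.
File `H45Th4`. -/
theorem periodic {N : ℕ} (L : QD N) (τ : ℂ) (k : ℤ) :
    L.th (τ + k) = L.th τ ∧ L.ths (τ + k) = L.ths τ :=
  ⟨L.th_add_int τ k, L.ths_add_int τ k⟩

/-- **Lower unipotent matrices** `(1 0; kN 1)`: they are the conjugates of translations under the inversion.
File `H45Th4`. -/
theorem lower_unipotent {N : ℕ} (L : QD N) (hN : N ≠ 0) (k : ℤ) {τ : ℂ} (hτ : 0 < τ.im) :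
    L.th (τ / ((k * N) * τ + 1)) = ((k * N) * τ + 1) ^ 2 * L.th τ :=
  L.th_lower hN k hτ

/-! ## 3. Gauss sums -/

/-- **Gauss sums**: `L.gs a c w` is the sum of `exp(2πi (a q(x) + w·x) / c)` over the vectors `x` modulo
`c`; the terms depend only on the residue classes. File `H45Th2`. -/
theorem gauss_sum {N : ℕ} (L : QD N) (a : ℤ) (c : ℕ) [NeZero c] (w : Fin 4 → ℤ) :
    L.gs a c w = ∑ h : Fin 4 → ZMod c,
        cexp (2 * π * I * ((a * L.q (lft c h) + w ⬝ᵥ lft c h : ℤ) : ℂ) / c) ∧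
      ∀ x y : Fin 4 → ℤ, ee c (a * L.q (x + (c : ℤ) • y) + w ⬝ᵥ (x + (c : ℤ) • y)) =
        ee c (a * L.q x + w ⬝ᵥ x) :=
  ⟨rfl, L.gs_periodic a w⟩

/-- **Vanishing.** If `N ∣ c` and `w` is not of the form `G x`, then `L.gs a c w = 0`. Proof: translation of
the variable by `(c/N) G* u` multiplies the sum by `exp(2πi w·(G* u) / N)`; if this is `1` for all `u`, then
`G* w` is divisible by `N` and `w = G x`. File `H45Th2`. -/
theorem gauss_sum_vanishes {N : ℕ} (L : QD N) {c : ℕ} [NeZero c] (hN : N ≠ 0) (hNc : N ∣ c) (a : ℤ)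
    (w : Fin 4 → ℤ) (hw : ¬ ∃ x, w = L.G *ᵥ x) : L.gs a c w = 0 :=
  L.gs_eq_zero hN hNc a w hw

/-- **On the lattice** `w = G x` the Gauss sum is `exp(-2πi d q(x) / c)` times the Gauss sum for `w = 0`,
where `a d ≡ 1` modulo `c`. (Translation by `d x`.) File `H45Th2`. -/
theorem gauss_sum_on_lattice {N : ℕ} (L : QD N) {c : ℕ} [NeZero c] (a d : ℤ) (had : (c : ℤ) ∣ a * d - 1)
    (x : Fin 4 → ℤ) : L.gs a c (L.G *ᵥ x) = ee c (-(d * L.q x)) * L.gs a c 0 :=
  L.gs_mulVec a d had x

/-! ## 4. The transformation formula -/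

/-- **Matrices with `c > 0`** in the lower left corner: `θ((a τ + b)/(c τ + d))` is `-(c τ + d)² / (c² D)`
times the sum over the integral vectors `w` of `exp(πi (τ + d/c) w G* w / N)` times the Gauss sum
`L.gs a c w`. (Split the sum over `x` into classes modulo `c` and use Poisson summation in each class.) File
`H45Th3`. -/
theorem transformation {N : ℕ} (L : QD N) {c : ℕ} [NeZero c] (hN : N ≠ 0) (a b d : ℤ)
    (hdet : a * d - b * c = 1) {τ : ℂ} (hτ : 0 < τ.im) :
    L.th ((a * τ + b) / (c * τ + d)) = -(((c : ℂ) * τ + d) ^ 2 / (c ^ 2 * L.D)) *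
      ∑' w : Fin 4 → ℤ, cexp (π * I * (τ + d / c) * (((w ⬝ᵥ (L.Gs *ᵥ w) : ℤ) : ℂ) / N)) *
        L.gs a c w :=
  L.th_smul hN a b d hdet hτ

/-- **Level `N`**: if `N ∣ c`, then only the vectors `w = G x` remain, and the sum is `L.gs a c 0` times
`θ(τ)`. File `H45Th4`. -/
theorem transformation_level {N : ℕ} (L : QD N) {c : ℕ} [NeZero c] (hN : N ≠ 0) (hNc : N ∣ c)
    (a b d : ℤ) (hdet : a * d - b * c = 1) {τ : ℂ} (hτ : 0 < τ.im) :
    L.th ((a * τ + b) / (c * τ + d)) =
      -(L.gs a c 0 / (c ^ 2 * L.D)) * ((c : ℂ) * τ + d) ^ 2 * L.th τ :=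
  L.th_smul_of_dvd hN hNc a b d hdet hτ

/-- `θ(i)` is a sum of positive numbers, so it is not zero. File `H45Th4`. -/
theorem theta_at_i {N : ℕ} (L : QD N) : L.th I ≠ 0 :=
  L.th_I_ne_zero

/-- **The Gauss sum for `a = 1`** is `-c² D`, if `N ∣ c`: compare `transformation_level` and `lower_unipotent`
for the matrix `(1 0; c 1)` at the point `i`. File `H45Th4`. -/
theorem gauss_sum_one {N : ℕ} (L : QD N) {c : ℕ} [NeZero c] (hN : N ≠ 0) (hNc : N ∣ c) :
    L.gs 1 c 0 = -((c ^ 2 * L.D : ℕ) : ℂ) :=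
  L.gs_one hN hNc

/-- **The Gauss sum for all `a` prime to `c`** has the same value: the sums for `a` and for `1` are values at
`ζ^a` and `ζ`, `ζ = exp(2πi/c)`, of the same polynomial with integral coefficients, and `ζ^a` is a conjugate
of `ζ` (irreducibility of the cyclotomic polynomial). File `H45Th4`. -/
theorem gauss_sum_value {N : ℕ} (L : QD N) {c : ℕ} [NeZero c] (hN : N ≠ 0) (hNc : N ∣ c) {a : ℤ}
    (ha : IsCoprime a (c : ℤ)) : L.gs a c 0 = -((c ^ 2 * L.D : ℕ) : ℂ) :=
  L.gs_eq hN hNc ha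

/-- **Invariance under `Γ₀(N)`** (for the lower left entry `0` it is the period one, for negative entries
change the sign of the matrix). File `H45Th4`. -/
theorem invariance {N : ℕ} (L : QD N) (hN : N ≠ 0) {a b c d : ℤ} (hNc : (N : ℤ) ∣ c)
    (hdet : a * d - b * c = 1) {τ : ℂ} (hτ : 0 < τ.im) :
    L.th ((a * τ + b) / (c * τ + d)) = ((c : ℂ) * τ + d) ^ 2 * L.th τ :=
  L.th_gamma hN hNc hdet hτ

/-! ## 5. The modular form -/

/-- **Limits of Gaussian sums** at `i∞`: if `q(0) = 0`, `q(w) > 0` for `w ≠ 0`, the sum of `exp(-π q(w))`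
converges and `g` is bounded, then `Σ_w exp(πi (z + r) q(w)) g(w)` tends to `g(0)`. File `H45Th5`. -/
theorem limit_of_gaussian_sum {q : (Fin 4 → ℤ) → ℝ} (hq0 : q 0 = 0) (hq : ∀ w, w ≠ 0 → 0 < q w)
    (hs : Summable fun w => Real.exp (-(π * q w))) (g : (Fin 4 → ℤ) → ℂ) (C : ℝ)
    (hg : ∀ w, ‖g w‖ ≤ C) (r : ℝ) :
    Tendsto (fun z : ℍ => ∑' w, cexp (π * I * ((z : ℂ) + r) * (q w : ℂ)) * g w) atImInfty
      (𝓝 (g 0)) :=
  H45.Th.tendsto_gauss hq0 hq hs g C hg r

/-- **The function `θ` on the upper half plane** (`L.thf z = L.th z`) is holomorphic and tends to `1` at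
`i∞`. File `H45Th5`. -/
theorem holomorphic {N : ℕ} (L : QD N) : (∀ z : ℍ, L.thf z = L.th z) ∧ MDiff L.thf ∧
    Tendsto L.thf atImInfty (𝓝 1) :=
  ⟨fun _ => rfl, L.mdifferentiable_thf, L.tendsto_thf⟩

/-- **Values at the cusps**: for a matrix `γ` of `SL₂(ℤ)` with lower left entry `c > 0` and upper left entry
`a` the function `θ ∣ γ` of weight two tends to `-L.gs a c 0 / (c² D)` at `i∞`. (`transformation` and
`limit_of_gaussian_sum`.) File `H45Th5`. -/
theorem value_at_cusp {N : ℕ} (L : QD N) {c : ℕ} [NeZero c] (hN : N ≠ 0) {γ : SL(2, ℤ)}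
    (hc : γ 1 0 = (c : ℤ)) :
    Tendsto (L.thf ∣[(2 : ℤ)] γ) atImInfty (𝓝 (-(L.gs (γ 0 0) c 0 / (c ^ 2 * L.D)))) :=
  L.tendsto_slash_pos hN hc

/-- Consequently `θ ∣ γ` has a limit at `i∞` for every `γ` in `SL₂(ℤ)`, and `θ ∣ γ = θ` if `N` divides the
lower left entry of `γ`. File `H45Th5`. -/
theorem limit_at_cusps {N : ℕ} (L : QD N) (hN : N ≠ 0) (γ : SL(2, ℤ)) :
    (∃ l : ℂ, Tendsto (L.thf ∣[(2 : ℤ)] γ) atImInfty (𝓝 l)) ∧
      ((N : ℤ) ∣ γ 1 0 → L.thf ∣[(2 : ℤ)] γ = L.thf) :=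
  ⟨L.exists_tendsto_slash hN γ, L.slash_of_dvd hN γ⟩

/-- **The modular form.** `θ` is a modular form of weight two for `Γ₀(N)`, and its `n`-th coefficient is the
number of integral vectors `x` with `x G x = 2 n`. File `H45Th5`; the form for given matrices is
`GuideResidualTheta.quaternary_theta_series` (`H45Theta`, `LT.exists_theta`). -/
theorem modular_form {N : ℕ} [NeZero N] (L : QD N) :
    ∃ f : ModularForm (CongruenceSubgroup.Gamma0 N) 2, (∀ z : ℍ, f z = L.th z) ∧
      ∀ n : ℕ, ModularFormClass.qCoeff f n =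
        (Nat.card {x : Fin 4 → ℤ // x ⬝ᵥ (L.G *ᵥ x) = 2 * n} : ℂ) :=
  ⟨L.theta, fun _ => rfl, L.qCoeff_theta⟩

end Fermat.Agent.Guide.QuaternaryTheta
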