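import Fermat.Agent.H56ZChar

/-!
# Guide to the proof: radial kernels step by step (companion of `GuideHyperbolic`)

This file is a machine-checked table of contents. Every theorem below is a citation of theorems of the
library, with its statement written out. Only `Guide` imports this file.

**What it contains.** The steps behind sections 2 and 3 of `GuideHyperbolic`: the invariant measure of a
product of hyperbolic 3-spaces in horospherical coordinates, the algebra of radial kernels, the Abel
transform and the characters. The main statements themselves are in `GuideHyperbolic`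
(`horospherical_coordinates`, `convolution_formula`, `convolution_isRC`, `radial_operator_convolution`,
`radial_operator_continuous`, `radial_operator_on_heights`, `abel_convolution`, `spherical_transform`,
`spherical_transform_mul`, `value_at_zero`) and are not repeated.

**The idea.** Seen from a point `w`, a second point `w'` has two invariants: `t = cosh d(w, w')` and `u =
log y' - log y`. The points with given `u` are the plane of height `y e^u` (a horosphere), those with
given `t` in it form a circle, and the area of the disc bounded by it is a linear function of `t`. So the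
measure of the pairs `(t, u)` is `2π e^{-u} dt du` on `t > cosh u` (section 1), and for products one takes
products of densities (section 2). As the group acts transitively on pairs of points at given distances,
an integral `∫ κ(w, v) κ'(v, w') dv` depends only on the distances of `w` and `w'`, and may be computed
for points on one axis (section 3). Kernels of bounded support act on locally bounded functions, and
Fubini's theorem gives associativity (section 4). A function of the heights is mapped to a function of the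
heights; the operator on these functions is a convolution with the Abel transform (section 5), whose
eigenfunctions are the exponential functions (section 6).

**Order of the file.** 1. One factor. 2. Products. 3. Pairs of points and balls. 4. Kernels as operators.
5. The Abel transform. 6. Exponential functions of the heights.

**Notation** as in `GuideHyperbolic`: `H3` with coordinates `w.z`, `w.y`; `H3.ch w w' = cosh d(w, w')`;
`H3.base` the point `(0, 1)`; `J` a finite set; `lh w` the vector of the `log y_j`; `IsRC κ`: `κ` is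
continuous, bounded, and zero as soon as one variable is large; `Rk κ g` the operator of `κ`;
`conv κ κ'` the convolution; `abel κ` the Abel transform; `khat κ s` the spherical transform. Integrals
`∫⁻` are integrals of functions with values in `[0, ∞]`.

**Where.** NOTES.md, Appendix A.13: [433] (radial kernels), [481] (hyperbolic 3-space). All theorems
below are in the closure of S47 only. Author: helper56.
-/

set_option autoImplicit false

open MeasureTheory Set
open scoped Real ENNReal Topology
open Fermat.Agent.H56Z Fermat.Agent.H5Z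

namespace Fermat.Agent.Guide.Radial

/-! ## 1. One factor: horospherical coordinates -/

/-- **Polar coordinates** (`H56ZRad1`): the integral of a function of `|z|²` over the plane is
`2π ∫_0^∞ r G(r²) dr`. -/
theorem polar_coordinates (G : ℝ → ℝ≥0∞) (hG : Measurable G) :
    ∫⁻ z : ℂ, G (Complex.normSq z) = ENNReal.ofReal (2 * π) *
      ∫⁻ r in Ioi (0 : ℝ), ENNReal.ofReal r * G (r ^ 2) :=
  lintegral_normSq G hG

/-- **The substitution `t = (r² + c)/d`** (`H56ZRad1`): `∫_0^∞ r G((r² + c)/d) dr = (d/2) ∫_{c/d}^∞ G`.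
There is no Jacobian but the constant `d/2`: this is why the density below does not depend on `t`. -/
theorem quadratic_substitution (G : ℝ → ℝ≥0∞) {c d : ℝ} (hd : 0 < d) :
    ∫⁻ r in Ioi (0 : ℝ), ENNReal.ofReal r * G ((r ^ 2 + c) / d) =
      ENNReal.ofReal (d / 2) * ∫⁻ t in Ioi (c / d), G t :=
  lintegral_quad G hd

/-- **The integral over a horosphere** (`H56ZRad1`). The points of height `e` are `(e ζ, e)`, `ζ` in the
plane; their distance from the point `(z, y)` is given by `(|z - e ζ|² + y² + e²)/(2 y e)`. The integral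
of a function `G` of it is `2π (y/e) ∫ G(t) dt` over `t > (y² + e²)/(2 y e)`. -/
theorem horosphere_integral (G : ℝ → ℝ≥0∞) (hG : Measurable G) (z : ℂ) {y e : ℝ} (hy : 0 < y)
    (he : 0 < e) :
    ∫⁻ ζ : ℂ, G ((Complex.normSq (z - e * ζ) + y ^ 2 + e ^ 2) / (2 * y * e)) =
      ENNReal.ofReal (2 * π * (y / e)) * ∫⁻ t in Ioi ((y ^ 2 + e ^ 2) / (2 * y * e)), G t :=
  lintegral_horo G hG z hy he

/-- **Integrals over `H3`** (`H56ZRad1`). In the coordinates `(z/y, log y)` the invariant measure is
Lebesgue measure; with `e = y e^u` the last formula becomes: the integral of a function of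
`(ch w w', log y' - log y)` over `w'` is `∫ 2π e^{-u} ∫_{cosh u}^∞ F(t, u) dt du`. -/
theorem one_factor_integral (w : H3) (F : ℝ × ℝ → ℝ≥0∞) (hF : Measurable F) :
    ∫⁻ w' : H3, F (H3.ch w w', Real.log w'.y - Real.log w.y) =
      ∫⁻ u : ℝ, ENNReal.ofReal (2 * π * Real.exp (-u)) *
        ∫⁻ t in Ioi (Real.cosh u), F (t, u) :=
  lintegral_chl w F hF

/-- **Horospherical coordinates, one factor** (`H56ZRad1`): the image of the invariant measure under
`w' ↦ (ch w w', log y' - log y)` is `2π e^{-u} dt du` on the region `t > cosh u`. -/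
theorem one_factor_measure (w : H3) :
    MeasurePreserving (fun w' : H3 => (H3.ch w w', Real.log w'.y - Real.log w.y)) volume
      (((volume : Measure (ℝ × ℝ)).restrict {p | Real.cosh p.2 < p.1}).withDensity
        fun p => ENNReal.ofReal (2 * π * Real.exp (-p.2))) :=
  measurePreserving_chl w

/-! ## 2. Products -/

/-- **Integrals of products** (`H56ZRad2`): for finitely many σ-finite measures and measurable functions
with values in `[0, ∞]`, the integral of `∏ f_i(x_i)` over the product is the product of the integrals. -/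
theorem product_integral {ι : Type*} [Fintype ι] {E : ι → Type*} {mE : ∀ i, MeasurableSpace (E i)}
    {μ : (i : ι) → Measure (E i)} [∀ i, SigmaFinite (μ i)] (f : (i : ι) → E i → ℝ≥0∞)
    (hf : ∀ i, Measurable (f i)) :
    ∫⁻ x : (i : ι) → E i, ∏ i, f i (x i) ∂(Measure.pi μ) = ∏ i, ∫⁻ x, f i x ∂(μ i) :=
  lintegral_pi_prod f hf

/-- **Products of densities** (`H56ZRad2`): the product of the measures `f_i μ_i` is `(∏ f_i) ∏ μ_i`. -/
theorem product_density {ι : Type*} [Fintype ι] {E : ι → Type*} {mE : ∀ i, MeasurableSpace (E i)}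
    (μ : (i : ι) → Measure (E i)) [∀ i, SigmaFinite (μ i)] (f : (i : ι) → E i → ℝ≥0∞)
    (hf : ∀ i, Measurable (f i)) [∀ i, SigmaFinite ((μ i).withDensity (f i))] :
    Measure.pi (fun i => (μ i).withDensity (f i)) =
      (Measure.pi μ).withDensity (fun x => ∏ i, f i (x i)) :=
  pi_withDensity μ f hf

/-- **The density of the product** (`H56ZRad2`): the product of the densities `2π e^{-u_j}` is
`(2π)^#J e^{-∑ u_j}`, a positive continuous function. -/
theorem density_formula {J : Type*} [Fintype J] :
    (∀ u : J → ℝ, ∏ j, ENNReal.ofReal (2 * π * Real.exp (-u j)) =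
      ENNReal.ofReal ((2 * π) ^ Fintype.card J * Real.exp (-∑ j, u j))) ∧
    (∀ u : J → ℝ, 0 < (2 * π) ^ Fintype.card J * Real.exp (-∑ j, u j)) ∧
    Continuous fun u : J → ℝ => (2 * π) ^ Fintype.card J * Real.exp (-∑ j, u j) :=
  ⟨fun u => prod_dens u, fun u => densJ_pos u, continuous_densJ⟩

/-- **The product measure** (`H56ZRad2`): under the identification of families of pairs `(t_j, u_j)` with
pairs of families `(t, u)`, the product of the measures of `one_factor_measure` is
`(2π)^#J e^{-∑ u_j} dt du` on the region `t_j > cosh u_j`. With `one_factor_measure` in every factor this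
gives `GuideHyperbolic.horospherical_coordinates`. -/
theorem product_measure {J : Type*} [Fintype J] :
    MeasurePreserving (MeasurableEquiv.arrowProdEquivProdArrow ℝ ℝ J)
      (Measure.pi fun _ : J =>
        ((volume : Measure (ℝ × ℝ)).restrict {p | Real.cosh p.2 < p.1}).withDensity
          fun p => ENNReal.ofReal (2 * π * Real.exp (-p.2)))
      (((volume : Measure ((J → ℝ) × (J → ℝ))).restrict
          {p | ∀ j, Real.cosh (p.2 j) < p.1 j}).withDensity
        fun p => ENNReal.ofReal ((2 * π) ^ Fintype.card J * Real.exp (-∑ j, p.2 j))) :=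
  measurePreserving_arrow_rho

/-! ## 3. Pairs of points and balls

`chv w w' = (ch w_j w'_j)_j` for `w`, `w'` in `J → H3`. -/

/-- **The vector of distances** (`H5ZH3`, `H56ZRad3`): `chv` is the vector of the `ch w_j w'_j`; it is
invariant under the group `J → GL₂(ℂ)`, symmetric, with entries at least `1`. -/
theorem distances {J : Type*} (w w' : J → H3) :
    (∀ j, chv w w' j = H3.ch (w j) (w' j)) ∧
      (∀ g : J → GL (Fin 2) ℂ, chv (fun j => g j • w j) (fun j => g j • w' j) = chv w w') ∧
      chv w w' = chv w' w ∧ ∀ j, 1 ≤ chv w w' j :=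
  ⟨fun _ => rfl, fun g => chv_smul g w w', chv_comm w w', one_le_chv w w'⟩

/-- **Pairs of points at given distances** (`H56ZRad3`) form one orbit of `J → GL₂(ℂ)`. -/
theorem pairs_one_orbit {J : Type*} {w w' v v' : J → H3} (h : chv w w' = chv v v') :
    ∃ g : J → GL (Fin 2) ℂ, (fun j => g j • w j) = v ∧ (fun j => g j • w' j) = v' :=
  exists_smul_eqJ h

/-- **The axis** (`H56ZRad3`): `ax t = (0, e^{arcosh t})`, with `e^{arcosh t} = t + √(t² - 1)`, constant
for `t ≤ 1`. It depends continuously on `t`, and `ch (base, ax t) = max t 1`. -/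
theorem axis_point :
    (∀ t : ℝ, (ax t).z = 0 ∧ (ax t).y = max t 1 + √((max t 1) ^ 2 - 1)) ∧ Continuous ax ∧
      ∀ t : ℝ, H3.ch H3.base (ax t) = max t 1 :=
  ⟨fun _ => ⟨rfl, rfl⟩, continuous_ax, ch_base_ax⟩

/-- **Every vector of distances occurs on the axis** (`H56ZRad3`): if `t_j ≥ 1` for all `j`, then
`chv (base, ax t) = t`. So a radial kernel is determined by its values at the pairs `(base, ax t)`. -/
theorem axis_distances {J : Type*} {t : J → ℝ} (ht : ∀ j, 1 ≤ t j) :
    chv (baseJ J) (axJ t) = t ∧ (∀ j, baseJ J j = H3.base) ∧ ∀ j, axJ t j = ax (t j) :=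
  ⟨chv_base_axJ_of_le ht, fun _ => rfl, fun _ => rfl⟩

/-- **Invariance of integrals** (`H56ZRad3`) under the group `J → GL₂(ℂ)`, for every function. -/
theorem integral_invariant {J : Type*} [Fintype J] {E : Type*} [NormedAddCommGroup E]
    [NormedSpace ℝ E] (g : J → GL (Fin 2) ℂ) (f : (J → H3) → E) :
    ∫ v : J → H3, f (fun j => g j • v j) = ∫ v, f v :=
  integral_smulJ g f

/-- **Balls are compact** (`H56ZRad3`): if `ch x w ≤ R`, then `x.y/(2R) ≤ w.y ≤ 2R x.y` and
`|w.z - x.z| ≤ 2R x.y`. The product ball `Bl R x` is the set of the `w` with `ch x_j w_j ≤ R` for all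
`j`. -/
theorem balls_compact (R : ℝ) :
    (∀ x : H3, IsCompact {w | H3.ch x w ≤ R}) ∧
      ∀ {J : Type*} (x : J → H3), (∀ w, w ∈ Bl R x ↔ ∀ j, H3.ch (x j) (w j) ≤ R) ∧
        IsCompact (Bl R x) :=
  ⟨isCompact_ballH3 R, fun x => ⟨fun _ => Iff.rfl, isCompact_Bl R x⟩⟩

/-- **Balls and neighbourhoods** (`H56ZRad4`): `Bl R x` is a neighbourhood of `x` for `R > 1`; a point of
`Bl R' v` with `v ∈ Bl R x` lies in `Bl (2 R R') x`, by `GuideHyperbolic.ch_triangle`. -/
theorem balls_neighbourhoods {J : Type*} [Fintype J] {R R' : ℝ} {x v w : J → H3} :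
    (1 < R → Bl R x ∈ 𝓝 x) ∧ (0 ≤ R → v ∈ Bl R x → w ∈ Bl R' v → w ∈ Bl (2 * R * R') x) :=
  ⟨fun h => Bl_mem_nhds h x, fun h h1 h2 => Bl_subset h h1 h2⟩

/-! ## 4. Kernels as operators -/

/-- **Uniform bounds of a radial kernel** (`H56ZRad3`): `R ≥ 1` and `M ≥ 0` with `|κ| ≤ M`, and `κ = 0` as
soon as one variable exceeds `R`. -/
theorem kernel_bounds {J : Type*} {κ : (J → ℝ) → ℂ} (h : IsRC κ) :
    ∃ R M : ℝ, 1 ≤ R ∧ 0 ≤ M ∧ (∀ u, ‖κ u‖ ≤ M) ∧ ∀ u, (∃ j, R < u j) → κ u = 0 :=
  h.exists_bounds

/-- **The kernel vanishes outside a ball** (`H56ZRad3`), so the integral which defines the operator is an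
integral over a compact set. -/
theorem integral_over_ball {J : Type*} [Fintype J] {κ : (J → ℝ) → ℂ} {R : ℝ}
    (hR : ∀ u, (∃ j, R < u j) → κ u = 0) (x : J → H3) :
    (∀ w, w ∉ Bl R x → κ (chv x w) = 0) ∧
      ∀ g : (J → H3) → ℂ, ∫ w, κ (chv x w) * g w = ∫ w in Bl R x, κ (chv x w) * g w :=
  ⟨fun _ h => IsRC.eq_zero_of_notMem hR h, fun g => IsRC.integral_eq_setIntegral hR x g⟩

/-- **The convolution** (`H56ZRad3`) is defined by the integral for the points `base` and `ax t`, and
depends only on the numbers `max t_j 1`. -/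
theorem convolution_on_axis {J : Type*} [Fintype J] (κ κ' : (J → ℝ) → ℂ) (t : J → ℝ) :
    conv κ κ' t = ∫ v : J → H3, κ (chv (baseJ J) v) * κ' (chv v (axJ t)) ∧
      conv κ κ' t = conv κ κ' (fun j => max (t j) 1) :=
  ⟨rfl, conv_max κ κ' t⟩

/-- **Locally bounded functions** (`H56ZRad4`): `IsLB g` means that `g` is measurable (up to a null set)
and bounded on every ball `Bl R x`. Continuous functions and bounded measurable functions have this
property, and so has `v ↦ κ(v, z)` for a radial kernel `κ`. -/
theorem locally_bounded {J : Type*} [Fintype J] :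
    (∀ g : (J → H3) → ℂ, IsLB g ↔ AEStronglyMeasurable g volume ∧
      ∀ (R : ℝ) (x : J → H3), ∃ G : ℝ, 0 ≤ G ∧ ∀ w ∈ Bl R x, ‖g w‖ ≤ G) ∧
    (∀ {g : (J → H3) → ℂ}, Continuous g → IsLB g) ∧
    (∀ {g : (J → H3) → ℂ}, AEStronglyMeasurable g volume → ∀ {G : ℝ}, (∀ w, ‖g w‖ ≤ G) →
      IsLB g) ∧
    ∀ {κ : (J → ℝ) → ℂ}, IsRC κ → ∀ z : J → H3, IsLB fun v => κ (chv v z) :=
  ⟨fun _ => ⟨fun h => ⟨h.meas, h.bdd⟩, fun h => ⟨h.1, h.2⟩⟩, fun h => IsLB.of_continuous h,
    fun h _ hG => IsLB.of_bounded h hG, fun h z => h.isLB z⟩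

/-- **The operator is defined on locally bounded functions** (`H56ZRad4`): the function
`w ↦ κ(x, w) g(w)` is integrable. As `R(κ) g` is continuous
(`GuideHyperbolic.radial_operator_continuous`), it is again locally bounded. -/
theorem operator_defined {J : Type*} [Fintype J] {κ : (J → ℝ) → ℂ} (hκ : IsRC κ)
    {g : (J → H3) → ℂ} (hg : IsLB g) (x : J → H3) :
    Integrable (fun w => κ (chv x w) * g w) volume :=
  hg.integrable_Rk hκ x

/-- **Fubini's theorem applies** (`H56ZRad4`): `κ(x, v) κ'(v, w) g(w)` is integrable in `(w, v)`; it is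
bounded and vanishes outside `Bl (2 R R') x × Bl R x`. Integration in the two orders gives
`R(κ * κ') g = R(κ) R(κ') g`. -/
theorem double_integrable {J : Type*} [Fintype J] {κ κ' : (J → ℝ) → ℂ} (hκ : IsRC κ)
    (hκ' : IsRC κ') {g : (J → H3) → ℂ} (hg : IsLB g) (x : J → H3) :
    Integrable (fun p : (J → H3) × (J → H3) => κ (chv x p.2) * κ' (chv p.2 p.1) * g p.1)
      (volume.prod volume) :=
  integrable_conv hκ hκ' hg x

/-- **A convolution is the operator applied to a kernel** (`H56ZRad4`):
`(κ * κ')(x, z) = (R(κ) κ'(·, z))(x)`. Hence the convolution is associative. -/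
theorem convolution_assoc {J : Type*} [Fintype J] :
    (∀ (κ κ' : (J → ℝ) → ℂ) (x z : J → H3),
      conv κ κ' (chv x z) = Rk κ (fun v => κ' (chv v z)) x) ∧
    ∀ {κ κ' κ'' : (J → ℝ) → ℂ}, IsRC κ → IsRC κ' → IsRC κ'' →
      conv (conv κ κ') κ'' = conv κ (conv κ' κ'') :=
  ⟨conv_eq_Rk, fun h h' h'' => conv_assoc h h' h''⟩

/-! ## 5. The Abel transform -/

/-- **A second form of the Abel transform** (`H56ZAbel`): after the translation `t = v + cosh u` it is an
integral over the orthant `v_j > 0`. In this form the continuity in `u` is clear. -/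
theorem abel_orthant {J : Type*} [Fintype J] (κ : (J → ℝ) → ℂ) (u : J → ℝ) :
    abel κ u = (2 * π) ^ Fintype.card J *
      ∫ v in {v : J → ℝ | ∀ j, 0 < v j}, κ (v + fun j => Real.cosh (u j)) :=
  abel_eq κ u

/-- **Support of the Abel transform** (`H56ZAbel`): if `κ` is zero as soon as one variable exceeds `R`,
then `abel κ u = 0` as soon as one `cosh u_j ≥ R`; and `|x| ≤ cosh x`, so the support is compact. -/
theorem abel_support {J : Type*} [Fintype J] {κ : (J → ℝ) → ℂ} {R : ℝ}
    (hR : ∀ u, (∃ j, R < u j) → κ u = 0) :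
    (∀ {u : J → ℝ}, (∃ j, R ≤ Real.cosh (u j)) → abel κ u = 0) ∧ ∀ x : ℝ, |x| ≤ Real.cosh x :=
  ⟨fun h => abel_eq_zero hR h, abs_le_cosh⟩

/-- **Integrals in horospherical coordinates** (`H56ZAbel`): for a function integrable for the measure
`rhoJ J` of `GuideHyperbolic.horospherical_coordinates`, the integral is
`∫ (2π)^#J e^{-∑ u_j} ∫_{t_j > cosh u_j} F(t, u) dt du`. -/
theorem coordinates_integral {J : Type*} [Fintype J] {F : (J → ℝ) × (J → ℝ) → ℂ}
    (hF : Integrable F (rhoJ J)) :
    ∫ p, F p ∂(((volume : Measure ((J → ℝ) × (J → ℝ))).restrict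
          {p | ∀ j, Real.cosh (p.2 j) < p.1 j}).withDensity
        fun p => ENNReal.ofReal ((2 * π) ^ Fintype.card J * Real.exp (-∑ j, p.2 j))) =
      ∫ u : J → ℝ, (((2 * π) ^ Fintype.card J * Real.exp (-∑ j, u j) : ℝ) : ℂ) *
        ∫ t in {t : J → ℝ | ∀ j, Real.cosh (u j) < t j}, F (t, u) :=
  integral_rhoJ hF

/-- **Integrability** (`H56ZAbel`): for a locally integrable function `f` of the heights and a radial
kernel `κ` the function `κ(t) f(s + u)` is integrable for this measure. -/
theorem heights_integrable {J : Type*} [Fintype J] {κ : (J → ℝ) → ℂ} (hκ : IsRC κ)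
    {f : (J → ℝ) → ℂ} (hf : LocallyIntegrable f volume) (s : J → ℝ) :
    Integrable (fun p : (J → ℝ) × (J → ℝ) => κ p.1 * f (s + p.2)) (rhoJ J) :=
  integrable_height hκ hf s

/-- **Points with given heights** (`H56ZAbel2`): the point `hpt s = (0, e^{s_j})_j` has the logarithmic
heights `s`, it depends continuously on `s`, and `lh base = 0`. -/
theorem points_of_height {J : Type*} :
    (∀ (s : J → ℝ) (j : J), (hpt s j).z = 0 ∧ (hpt s j).y = Real.exp (s j)) ∧
      (∀ s : J → ℝ, lh (hpt s) = s) ∧ Continuous (hpt : (J → ℝ) → J → H3) ∧ lh (baseJ J) = 0 :=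
  ⟨fun _ _ => ⟨rfl, rfl⟩, lh_hpt, continuous_hpt, lh_baseJ⟩

/-- **The operator on functions of the heights** (`H56ZAbel2`): for a continuous function `f` on `ℝ^J` the
function `R(κ)(f ∘ lh)` is `(RA κ f) ∘ lh`, where
`(RA κ f)(s) = ∫ f(s + u) e^{-∑ u_j} abel κ (u) du`; and `RA κ f` is continuous. -/
theorem operator_on_heights {J : Type*} [Fintype J] {κ : (J → ℝ) → ℂ} (hκ : IsRC κ)
    {f : (J → ℝ) → ℂ} (hf : Continuous f) :
    (Rk κ (fun w' => f (lh w')) = fun w => RA κ f (lh w)) ∧
      (∀ s, RA κ f s = ∫ u, f (s + u) * (Real.exp (-∑ j, u j) : ℂ) * abel κ u) ∧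
      Continuous (RA κ f) :=
  ⟨Rk_lh hκ hf, fun _ => rfl, continuous_RA hκ hf⟩

/-- **It is a homomorphism** (`H56ZAbel2`): `RA (κ * κ') = RA κ ∘ RA κ'` on continuous functions. From
`R(κ * κ') = R(κ) R(κ')` on `f ∘ lh`, at the points of given heights. The formula
`GuideHyperbolic.abel_convolution` follows: two continuous functions with the same integrals against all
smooth functions of compact support are equal. -/
theorem operator_on_heights_mul {J : Type*} [Fintype J] {κ κ' : (J → ℝ) → ℂ} (hκ : IsRC κ)
    (hκ' : IsRC κ') {f : (J → ℝ) → ℂ} (hf : Continuous f) :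
    RA (conv κ κ') f = RA κ (RA κ' f) :=
  RA_conv hκ hκ' hf

/-! ## 6. Exponential functions of the heights -/

/-- **The functions `∏ y_j^{1 + s_j}`** (`H56ZChar`): `yexp s v = exp(∑ (1 + s_j) v_j)` is a character of
`ℝ^J`; times `e^{-∑ v_j}` it is `exp(∑ s_j v_j)`. -/
theorem exponentials {J : Type*} [Fintype J] (s : J → ℂ) :
    (∀ v : J → ℝ, yexp s v = Complex.exp (∑ j, (1 + s j) * v j)) ∧ yexp s 0 = 1 ∧
      (∀ u v : J → ℝ, yexp s (u + v) = yexp s u * yexp s v) ∧
      ∀ u : J → ℝ, yexp s u * (Real.exp (-∑ j, u j) : ℂ) = Complex.exp (∑ j, s j * u j) :=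
  ⟨fun _ => rfl, yexp_zero s, yexp_add s, yexp_mul s⟩

/-- **They are eigenfunctions of every `RA κ`** (`H56ZChar`), with eigenvalue the spherical transform
`khat κ s = ∫ abel κ (u) e^{∑ s_j u_j} du`. As `RA (κ * κ') = RA κ ∘ RA κ'`, the eigenvalue is
multiplicative in `κ`. -/
theorem exponentials_eigenfunctions {J : Type*} [Fintype J] (κ : (J → ℝ) → ℂ) (s : J → ℂ)
    (v : J → ℝ) :
    RA κ (yexp s) v = khat κ s * yexp s v ∧
      khat κ s = ∫ u : J → ℝ, abel κ u * Complex.exp (∑ j, s j * u j) :=
  ⟨RA_yexp κ s v, rfl⟩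

/-- **The parameter zero** (`H56ZChar`): the eigenvalue `khat0 κ` is the integral of the Abel transform, and
the eigenfunction is the product of the heights. -/
theorem parameter_zero {J : Type*} [Fintype J] :
    (∀ κ : (J → ℝ) → ℂ, khat0 κ = ∫ u, abel κ u) ∧
      ∀ w : J → H3, yexp 0 (lh w) = ((∏ j, (w j).y : ℝ) : ℂ) :=
  ⟨khat0_eq_integral_abel, yexp_zero_lh⟩

end Fermat.Agent.Guide.Radial
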