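import Fermat.Agent.S41
import Fermat.Agent.H41Step

/-!
# Reader's guide: operators on modular symbols and Hecke modules, the steps of level raising

Written by helper41. This file is a companion of `GuideLevelsRaising` (S41) and of `GuideLiftingHecke` (one
raising step of S59); the steps of the proof of Ihara's lemma are in `GuideIharaSteps`. It is a
machine-checked table of contents: every theorem is a citation of a theorem of the library with its
statement written out, and only `Guide` imports this file.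

**Level raising** (sections 1-5). Level raising from `N` to `N q` compares three lattices: integral modular
symbols of level `N` (twice) and of level `N q`, with the two maps `m ↦ m` and `m ↦ m|W` up, the two traces
`tr(m)` and `tr(m|W)` down, and the Hecke operators on both sides.
1. *Commutation*: the Hecke operators `T_ℓ`, `ℓ ∤ N q`, and `U_r`, `r ∣ N`, commute with each other, with
   the traces and with the Atkin-Lehner matrix `W`. This is proved by coset representatives: `T_ℓ m` can be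
   computed with any `ℓ + 1` integral matrices of determinant `ℓ`, lower left entry divisible by `N`, which
   are inequivalent under `Γ₀(N)`.
2. *Traces*: `tr` is computed with any representatives of `Γ₀(N q)` in `Γ₀(N)`, i.e. with `P¹(𝔽_q)`.
3. *Coefficients*: symbols modulo `p`, integral and complex symbols.
4. *Polynomials in commuting operators*, which reduce statements on operators to modules over a polynomial
   ring (`congruence_module` of `GuideLevelsRaising`).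
5. *From a functional modulo `p` to a new form*: the new eigenspaces; they contain cusp forms, and `U_q` is
   an involution on them. The eigenvalues of `T_q` are bounded by a maximum principle.

**The raising step** (sections 6, 7). The same for the Hecke modules `EMod` over `O[Δ]` of
`GuideLiftingHecke`.
6. *Quotients of Hecke modules*: eigensystems and the compatibility with the diamond operators pass to the
   quotient by the old part; freeness over the group ring.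
7. *Points with vanishing traces*: a joint eigenvector in `O' ⊗ MLoc` on which some Hecke families vanish
   gives a cohomology class with coefficients `O'` on which they vanish. So the kernel of the two traces is
   killed by every element of the Hecke ring which is zero at the points new at `q`.

**Complex symbols and cusp forms** (section 8): the steps of `symbols_cuspForms` of `GuideLevelsRaising`.

**Notation.** See `GuideLevelsRaising` and `GuideIharaSteps` for `H41.Symb`, `slash`, `inv`, `G0`, `hT`,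
`hU`, `hd`, `hm`, `tr`, `alW`; `GuideTWModules` and `GuideLiftingHecke` for `H1`, `gam`, `psiRep`, `HFam`,
`MLoc`, `tw`, `mactO`, `IsLocIdem`, `EMod`. `H41.sl a b c d` is the matrix `(a b; c d)` of `SL₂(ℤ)`;
`H41.tOp`, `H41.uOp` are `T_ℓ`, `U_r` on the symbols of a level. `Away M S` says that `S` contains the
primes dividing `M` (the Hecke operators are those outside `S`), `diam` is the action of `Δ` on `MLoc`.

**Serves** sections 1-3: S41 and, in part, S01, S03, S04, S06, S38, S45, S46, S50, S59, S60. Sections 4, 5: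
S41 (the maximum principle also S01, S03, S09, S12, S15). Sections 6, 7: S01, S03, S04, S06, S38, S45, S46,
S50, S59, S60. Section 8: S41 (`periods_of_transforms` and the family of `T_ℓ` also as sections 6, 7).
**Files** `H61Comm`, `H61Bound`, `H61Eig` (helper61), `H41Trace`, `H41Manin`, `H41Final`, `H41Raise`,
`H41AlgOps`, `H41Char0`, `H41FullX`, `H41Step` (helper41), `H77BrA`, `H77BrB`, `H77Bridge` (helper77),
`H21Prim` (helper21).
**Notes**: NOTES-S41 [203], NOTES-S59-STEP [205].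
-/

set_option autoImplicit false

namespace Fermat.Agent.Guide.RaisingSteps

open Matrix Matrix.SpecialLinearGroup CongruenceSubgroup IsLocalRing ModularFormClass
open scoped MatrixGroups TensorProduct

/-! ### 1. Hecke operators commute -/

section Operators

variable {R X A : Type*} [CommRing R] [AddCommGroup A] [Module R A] [MulAction (GL (Fin 2) ℚ) X]

/-- **Products and commutation of Hecke operators.** `U_r U_s = U_(r s)`, because
`(1 i; 0 s) (1 j; 0 r) = (1 j + r i; 0 r s)`. On symbols which are invariant under integral translations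
(`TInv`), `U_r` commutes with `m ↦ m|diag(q, 1)` for `q` prime to `r`: `j ↦ q j` permutes the residues
modulo `r`. So `T_ℓ` commutes with `m ↦ m|diag(ℓ', 1)`, with `T_ℓ'` and with `U_r`, if `ℓ` is prime to `ℓ'`
and `r`. (`H61Comm`) -/
theorem hecke_commute {ℓ ℓ' r : ℕ} (hℓ : ℓ ≠ 0) (hℓ' : ℓ' ≠ 0) (hr : r ≠ 0)
    (h : Nat.Coprime ℓ ℓ') (h' : Nat.Coprime ℓ r) (m : H41.Symb R X A) :
    H41.hU ℓ (H41.hU r m) = H41.hU (r * ℓ) m ∧
    (H61.Comm.TInv m ↔ ∀ b : ℤ, H41.slash (mapGL ℚ (H41.sl 1 b 0 1 (by ring)) : GL (Fin 2) ℚ) m = m) ∧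
    (H61.Comm.TInv m →
      H41.hT ℓ (H41.slash (H41.hd ℓ') m) = H41.slash (H41.hd ℓ') (H41.hT ℓ m) ∧
      H41.hT ℓ (H41.hT ℓ' m) = H41.hT ℓ' (H41.hT ℓ m) ∧
      H41.hT ℓ (H41.hU r m) = H41.hU r (H41.hT ℓ m)) :=
  ⟨H61.Comm.hU_hU hℓ hr m, Iff.rfl, fun hm => ⟨H61.Comm.hT_slash_hd hℓ hℓ' h hm,
    H61.Comm.hT_hT_comm hℓ hℓ' h hm, H61.Comm.hT_hU_comm hℓ hr h' hm⟩⟩

/-- **`T_ℓ` by arbitrary representatives.** Let `ℓ` be a prime, `ℓ ∤ N`. The integral matrices of
determinant `ℓ` with lower left entry divisible by `N` form `ℓ + 1` cosets `Γ₀(N) g`, so any `ℓ + 1`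
inequivalent ones (indexed here by `P¹(𝔽_ℓ)`) give `T_ℓ` on symbols of level `N`. (`H61Comm`) -/
theorem hecke_representatives {N ℓ : ℕ} [Fact ℓ.Prime] (hℓN : ¬ ℓ ∣ N) {m : H41.Symb R X A}
    (hm : m ∈ H41.inv R X A (H41.G0 N)) (M : OnePoint (ZMod ℓ) → GL (Fin 2) ℚ)
    (hM : ∀ i, ∃ a b c d : ℤ, M i 0 0 = a ∧ M i 0 1 = b ∧ M i 1 0 = c ∧ M i 1 1 = d ∧
      a * d - b * c = (ℓ : ℤ) ∧ (N : ℤ) ∣ c)
    (hinj : ∀ i j, M i * (M j)⁻¹ ∈ H41.G0 N → i = j) :
    H41.hT ℓ m = ∑ i, H41.slash (M i) m :=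
  H61.Comm.hT_eq_of_reps hℓN hm M hM hinj

/-- **Hecke operators commute with `W` and with the trace.** `q` a prime, `m` a symbol of level `N q`,
`W = alW` the Atkin-Lehner matrix at `q`, `tr` the trace to level `N`. For the prime `ℓ ∤ N q` conjugation
by `W` permutes the cosets of `hecke_representatives`, so `T_ℓ(m|W) = (T_ℓ m)|W`; the same for `U_r`,
`r ∣ N`. The trace is `tr(m) = m + U_q(m|W)`, hence it commutes with `T_ℓ` and `U_r`, too. (`SclTriv X`:
scalar matrices act trivially on `X`; true for `P¹(ℚ)` and for `PGL₂(ℚ)`.) (`H61Comm`) -/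
theorem hecke_commute_trace {N q : ℕ} [NeZero q] [H41.SclTriv X] (hq : q.Prime) (hqN : ¬ q ∣ N)
    (hc : Nat.Coprime q N) {m : H41.Symb R X A} (hm : m ∈ H41.inv R X A (H41.G0 (N * q))) :
    (∀ ℓ : ℕ, ℓ.Prime → ¬ ℓ ∣ N * q →
      H41.hT ℓ (H41.slash (H41.alW hc) m) = H41.slash (H41.alW hc) (H41.hT ℓ m) ∧
      H41.hT ℓ (H41.tr N q m) = H41.tr N q (H41.hT ℓ m)) ∧
    ∀ r : ℕ, r.Prime → r ∣ N →
      H41.hU r (H41.slash (H41.alW hc) m) = H41.slash (H41.alW hc) (H41.hU r m) ∧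
      H41.hU r (H41.tr N q m) = H41.tr N q (H41.hU r m) :=
  ⟨fun _ hℓ hℓN => ⟨H61.Comm.hT_alW hc hq.ne_zero hℓ hℓN hm, H61.Comm.hT_tr hq hqN hℓ hℓN hm⟩,
    fun _ hr hrN => ⟨H61.Comm.hU_alW hc hq.ne_zero hr hrN hm, H61.Comm.hU_tr hq hqN hr hrN hm⟩⟩

/-! ### 2. Traces and the Atkin-Lehner matrix -/

/-- **Representatives of `Γ₀(N q)` in `Γ₀(N)`.** `H41.rho N q x`, `x ∈ P¹(𝔽_q)`, is in `Γ₀(N)`; its second
row `(c, d)` modulo `q` is the point `x = d/c` (`red q g` is the matrix `g` modulo `q`, written such that it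
maps `∞` to `d/c`). Two elements of `Γ₀(N)` with the same point `d/c` differ by `Γ₀(N q)` on the left.
(`H41Trace`) -/
theorem trace_cosets {N q : ℕ} [Fact q.Prime] (hqN : ¬ q ∣ N) :
    (∀ x : OnePoint (ZMod q), (N : ℤ) ∣ (H41.rho N q x) 1 0 ∧
      H41.red q (H41.rho N q x) • (OnePoint.infty : OnePoint (ZMod q)) = x) ∧
    (∀ g : SL(2, ℤ), H41.red q g • (OnePoint.infty : OnePoint (ZMod q)) =
      if ((g 1 0 : ℤ) : ZMod q) = 0 then OnePoint.infty
      else ((((g 1 1 : ℤ) : ZMod q) / ((g 1 0 : ℤ) : ZMod q) : ZMod q) : OnePoint (ZMod q))) ∧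
    ∀ g g' : SL(2, ℤ), (N : ℤ) ∣ g 1 0 → (N : ℤ) ∣ g' 1 0 →
      H41.red q g • (OnePoint.infty : OnePoint (ZMod q)) = H41.red q g' • OnePoint.infty →
      ((N * q : ℕ) : ℤ) ∣ (g * g'⁻¹) 1 0 :=
  ⟨fun x => ⟨H41.rho_dvd N q x, H41.red_rho_smul hqN x⟩, H41.red_smul_infty,
    fun _ _ hg hg' h => H41.dvd_of_red_eq hqN hg hg' h⟩

/-- **The trace** is the sum over these representatives, and can be computed with any others: `g x ∈ Γ₀(N)`
whose points are a permutation `σ` of `P¹(𝔽_q)`. Right multiplication by an element of `Γ₀(N)` is such a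
permutation, so the trace is invariant under `Γ₀(N)`. (`H41Trace`) -/
theorem trace_representatives {N q : ℕ} [NeZero q] (hq : q.Prime) (hqN : ¬ q ∣ N)
    {m : H41.Symb R X A} (hm : m ∈ H41.inv R X A (H41.G0 (N * q))) :
    H41.tr N q m = ∑ x : OnePoint (ZMod q), H41.slash (mapGL ℚ (H41.rho N q x) : GL (Fin 2) ℚ) m ∧
    ∀ (g : OnePoint (ZMod q) → SL(2, ℤ)), (∀ x, (N : ℤ) ∣ (g x) 1 0) →
      ∀ σ : Equiv.Perm (OnePoint (ZMod q)),
      (∀ x, (haveI : Fact q.Prime := ⟨hq⟩;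
        H41.red q (g x) • (OnePoint.infty : OnePoint (ZMod q)) = σ x)) →
      H41.tr N q m = ∑ x, H41.slash (mapGL ℚ (g x) : GL (Fin 2) ℚ) m :=
  ⟨H41.tr_apply N q m, fun g hg σ h => H41.tr_eq_of_reps hq hqN hm g hg σ h⟩

end Operators

/-- **The Atkin-Lehner matrix** `W = (q 1; N q z, q w)` with `q w - N z = 1` (`bw`, `bz` are Bézout
coefficients): it has determinant `q`, is the product of `H41.g0 = (1 1; N z, q w)`, an element of `Γ₀(N)`,
and of `diag(q, 1)`, and normalises `Γ₀(N q)`. (`H41Trace`) -/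
theorem atkinLehner_matrix {N q : ℕ} (hc : Nat.Coprime q N) (hq : q ≠ 0) :
    ((q : ℤ) * H41.bw N q - N * H41.bz N q = 1) ∧
    ((H41.alW hc) 0 0 = q ∧ (H41.alW hc) 0 1 = 1 ∧ (H41.alW hc) 1 0 = N * q * H41.bz N q ∧
      (H41.alW hc) 1 1 = q * H41.bw N q) ∧
    H41.alW hc = mapGL ℚ (H41.g0 hc) * H41.hd q ∧
    ∀ g : SL(2, ℤ), ((N * q : ℕ) : ℤ) ∣ g 1 0 →
      ∃ g' : SL(2, ℤ), ((N * q : ℕ) : ℤ) ∣ g' 1 0 ∧
        H41.alW hc * mapGL ℚ g = mapGL ℚ g' * H41.alW hc :=
  ⟨H41.bezout hc, ⟨H41.alW_00 hc hq, H41.alW_01 hc hq, H41.alW_10 hc hq, H41.alW_11 hc hq⟩, rfl,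
    fun _ hg => H41.alW_conj hc hq hg⟩

/-! ### 3. Change of coefficients -/

/-- **Change of coefficients.** `H41.smap R R' f` applies the homomorphism `f : A → B` to the values of a
symbol. It commutes with `m ↦ m|g`, the Hecke operators and the trace, and is injective if `f` is.
(`H41Manin`) -/
theorem change_of_coefficients {X R R' A B : Type*} [MulAction (GL (Fin 2) ℚ) X] [CommRing R]
    [CommRing R'] [AddCommGroup A] [AddCommGroup B] [Module R A] [Module R' B] (f : A →+ B) :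
    (∀ (m : H41.Symb R X A) (x y : X), (H41.smap R R' f m).1 x y = f (m.1 x y)) ∧
    (∀ (g : GL (Fin 2) ℚ) (m : H41.Symb R X A),
      H41.smap R R' f (H41.slash g m) = H41.slash g (H41.smap R R' f m)) ∧
    (∀ (ℓ : ℕ) (m : H41.Symb R X A), H41.smap R R' f (H41.hT ℓ m) = H41.hT ℓ (H41.smap R R' f m)) ∧
    (∀ (N q : ℕ) [NeZero q] (m : H41.Symb R X A),
      H41.smap R R' f (H41.tr N q m) = H41.tr N q (H41.smap R R' f m)) ∧
    (Function.Injective f → Function.Injective (H41.smap R R' (X := X) f)) :=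
  ⟨fun _ _ _ => rfl, fun g m => H41.smap_slash f g m, fun ℓ m => H41.smap_hT f ℓ m,
    fun N q _ m => H41.smap_tr f N q m, fun hf => H41.smap_injective hf⟩

/-- **Manin's values.** `H41.manEv R A N m` is the function `g ↦ m(g⁻¹∞, g⁻¹0)` on the finite set
`SL₂(ℤ)/Γ₀(N)`; it determines the symbol `m` of level `N` (Manin's trick, `manin_symbols` of
`GuideLevelsRaising`). So the symbols of level `N` with values in `ℤ` are a finitely generated torsion free
group. (`H41Manin`, `H41Final`) -/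
theorem manin_values (N : ℕ) [NeZero N] :
    (∀ (R A : Type) [CommRing R] [AddCommGroup A] [Module R A],
      Function.Injective (H41.manEv R A N) ∧
      ∀ (m : H41.inv R (OnePoint ℚ) A (H41.G0 N)) (g : SL(2, ℤ)),
        H41.manEv R A N m (QuotientGroup.mk g) = m.1.1 ((mapGL ℚ g⁻¹ : GL (Fin 2) ℚ) • OnePoint.infty)
          ((mapGL ℚ g⁻¹ : GL (Fin 2) ℚ) • ((0 : ℚ) : OnePoint ℚ))) ∧
    Module.Finite ℤ (H41.inv ℤ (OnePoint ℚ) ℤ (H41.G0 N)) ∧
    Module.IsTorsionFree ℤ (H41.inv ℤ (OnePoint ℚ) ℤ (H41.G0 N)) :=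
  ⟨fun _ _ _ _ _ => ⟨H41.manEv_injective N, fun m g => H41.manEv_mk m g⟩, inferInstance,
    inferInstance⟩

/-- **Integral and complex symbols.** `H41.cInv M` is the inclusion of the integral symbols of level `M` in
the complex ones. It is injective, compatible with `T_ℓ` (`H41.tOp`), and its image spans the complex
symbols. (`H41Final`) -/
theorem integral_in_complex (M : ℕ) [NeZero M] :
    Function.Injective (H41.cInv M) ∧
    (∀ (ℓ : ℕ) (hℓ : ℓ.Prime) (hM : ¬ ℓ ∣ M) (x : H41.inv ℤ (OnePoint ℚ) ℤ (H41.G0 M)),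
      H41.cInv M (H41.tOp ℤ ℤ M ℓ hℓ hM x) = H41.tOp ℂ ℂ M ℓ hℓ hM (H41.cInv M x)) ∧
    Submodule.span ℂ (Set.range (H41.cInv M)) = ⊤ :=
  ⟨H41.cInv_injective M, fun _ hℓ hM x => H41.cInv_tOp hℓ hM x, H41.span_cInv M⟩

/-- **Symbols which are zero modulo `p` are divisible by `p`.** (`H41Raise`) -/
theorem divisible_of_zero_mod {p N : ℕ} [Fact p.Prime] (x : H41.inv ℤ (OnePoint ℚ) ℤ (H41.G0 N))
    (h : H41.smap ℤ (ZMod p) (Int.castAddHom (ZMod p)) x.1 = 0) :
    ∃ x' : H41.inv ℤ (OnePoint ℚ) ℤ (H41.G0 N), x = p • x' :=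
  H41.exists_smul_of_smap_zero x h

/-! ### 4. Polynomials in commuting operators -/

/-- **Polynomials.** Commuting operators `t_i` on an abelian group make it a module over `ℤ[X_i]`
(`H41.polyAct`). Maps which commute with the `t_i` are linear, and a functional modulo `p` which is an
eigenvector of all `t_i`, with eigenvalues `a_i`, is an eigenvector of all polynomials `P`, with eigenvalue
`P(a)`. (`H41AlgOps`) -/
theorem polynomials {ι M M' : Type*} [AddCommGroup M] [AddCommGroup M'] (t : ι → M →+ M)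
    (h : ∀ i j m, t i (t j m) = t j (t i m)) (t' : ι → M' →+ M')
    (h' : ∀ i j m, t' i (t' j m) = t' j (t' i m)) :
    (∀ i m, H41.polyAct t h (MvPolynomial.X i) m = t i m) ∧
    (∀ f : M →+ M', (∀ i m, f (t i m) = t' i (f m)) → ∀ (P : MvPolynomial ι ℤ) (m : M),
      f (H41.polyAct t h P m) = H41.polyAct t' h' P (f m)) ∧
    ∀ (p : ℕ) (a : ι → ZMod p) (lam : M →+ ZMod p), (∀ i m, lam (t i m) = a i * lam m) →
      ∀ (P : MvPolynomial ι ℤ) (m : M),
        lam (H41.polyAct t h P m) = MvPolynomial.eval₂Hom (Int.castRingHom (ZMod p)) a P * lam m :=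
  ⟨H41.polyAct_X t h, fun f hf => H41.polyAct_comm t h t' h' f hf,
    fun _ a lam hl => H41.polyAct_functional t h a lam hl⟩

/-! ### 5. From a functional modulo `p` to a new form -/

/-- **A new functional modulo `p`.** Let `f` be an eigenform of level `N` whose eigenvalues are congruent to
`a_ℓ` modulo `𝔪 ∋ p`, `ℓ ∈ S`, with `(a_ℓ)` not Eisenstein (`hNE1`, `hNE2`), and let `b² = (q + 1)²` modulo
`𝔪` for the eigenvalue `b` of `T_q` (`hLR`). Let `K` be the group of the integral symbols of level `N q`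
with both traces zero (`trA`, `trW`: the traces of `m` and of `m|W`). Then there is a functional `μ ≠ 0`
modulo `p` on `K` with eigenvalues `a_ℓ`. (`congruence_module` of `GuideLevelsRaising` applied to symbols;
its hypotheses come from Ihara's lemma and the duality there and from `delta_injective` of
`GuideIharaSteps`. `H41Raise`) -/
theorem new_functional {p N q : ℕ} [Fact p.Prime] [NeZero N] [NeZero q] (hq : q.Prime)
    (hqN : ¬ q ∣ N) (hc : Nat.Coprime q N) (S : Set ℕ) (hS : ∀ ℓ ∈ S, ℓ.Prime ∧ ¬ ℓ ∣ N * q)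
    (a : ℕ → ZMod p)
    (hNE1 : ∃ ℓ ∈ S, (a ℓ) ^ 2 ≠ ((ℓ : ZMod p) + 1) ^ 2)
    (hNE2 : ∀ M : ℕ, M ≠ 0 → ∃ ℓ ∈ S, (M : ℤ) ∣ (ℓ : ℤ) - 1 ∧ a ℓ ≠ (ℓ : ZMod p) + 1)
    (f : CuspForm (Gamma0 N) 2) (hf : f.IsNormalizedEigenform)
    (𝔪 : Ideal (integralClosure ℤ ℂ)) (hmax : 𝔪.IsMaximal)
    (hpm : ((p : ℕ) : integralClosure ℤ ℂ) ∈ 𝔪)
    (hcong : ∀ ℓ ∈ S, ∃ b : integralClosure ℤ ℂ, (b : ℂ) = qCoeff f ℓ ∧
      b - (((a ℓ).val : ℕ) : integralClosure ℤ ℂ) ∈ 𝔪)
    (hLR : ∃ b : integralClosure ℤ ℂ, (b : ℂ) = qCoeff f q ∧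
      b ^ 2 - ((q : integralClosure ℤ ℂ) + 1) ^ 2 ∈ 𝔪)
    (K : AddSubgroup (H41.inv ℤ (OnePoint ℚ) ℤ (H41.G0 (N * q))))
    (hK : ∀ v, v ∈ K ↔ H41.trA hq hqN v = 0 ∧ H41.trW hq hqN hc v = 0) :
    ∃ μ : K →+ ZMod p, (∀ (ℓ : ℕ) (hℓ : ℓ ∈ S) (m m' : K),
      m'.1 = H41.tOp ℤ ℤ (N * q) ℓ (hS ℓ hℓ).1 (hS ℓ hℓ).2 m.1 → μ m' = a ℓ * μ m) ∧ μ ≠ 0 :=
  H41.exists_new_functional hq hqN hc S hS a hNE1 hNE2 f hf 𝔪 hmax hpm hcong hLR K hK

/-- **The new eigenspace** `H41.newEig N q hc S α`: complex symbols `m` of level `N q` with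
`tr(m) = 0 = tr(m|W)` and `T_ℓ m = α_ℓ m` for `ℓ ∈ S`. It is stable under all `T_ℓ`, `ℓ ∤ N q`, and `U_r`
(`H41.uOp`), `r ∣ N q`; on it `U_q m = -m|W` and `U_q² = 1`, from `tr(m) = m + U_q(m|W)`. (`H41Char0`) -/
theorem new_eigenspace {N q : ℕ} [NeZero N] [NeZero q] (hq : q.Prime) (hqN : ¬ q ∣ N)
    (hc : Nat.Coprime q N) {S : Set ℕ} (hS : ∀ ℓ ∈ S, ℓ.Prime ∧ ¬ ℓ ∣ N * q) (α : S → ℂ)
    (m : H41.inv ℂ (OnePoint ℚ) ℂ (H41.G0 (N * q))) :
    (m ∈ H41.newEig N q hc S α ↔ H41.tr N q m.1 = 0 ∧ H41.tr N q (H41.slash (H41.alW hc) m.1) = 0 ∧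
      ∀ ℓ : S, H41.hT ℓ.1 m.1 = α ℓ • m.1) ∧
    (m ∈ H41.newEig N q hc S α →
      (∀ (ℓ : ℕ) (hℓ : ℓ.Prime) (hℓN : ¬ ℓ ∣ N * q),
        H41.tOp ℂ ℂ (N * q) ℓ hℓ hℓN m ∈ H41.newEig N q hc S α) ∧
      (∀ (r : ℕ) (hr : r.Prime) (hrN : r ∣ N),
        H41.uOp (N * q) r hr (Dvd.dvd.mul_right hrN q) m ∈ H41.newEig N q hc S α) ∧
      H41.uOp (N * q) q hq (Dvd.intro_left N rfl) m ∈ H41.newEig N q hc S α ∧
      H41.hU q m.1 = - H41.slash (H41.alW hc) m.1 ∧ H41.hU q (H41.hU q m.1) = m.1) :=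
  ⟨Iff.rfl, fun hm => ⟨fun _ hℓ hℓN => H41.newEig_T hq hqN hc hS α hℓ hℓN hm,
    fun _ hr hrN => H41.newEig_U hq hqN hc hS α hr hrN hm, H41.newEig_U_q hq hc hS α hm,
    H41.newEig_Uq hq hc α hm, H41.newEig_UqUq hq hc α hm⟩⟩

/-- **Eigenforms in stable subspaces.** A subspace `V ≠ 0` of `S₂(Γ₀(N))` which is stable under all Hecke
operators contains a normalised eigenform. Applied to the image of the new eigenspace under
`symbols_cuspForms` of `GuideLevelsRaising`. (`H61Eig`) -/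
theorem eigenform_in_subspace {N : ℕ} [NeZero N] (V : Submodule ℂ (CuspForm (Gamma0 N) 2))
    (hV : V ≠ ⊥)
    (hT : ∀ (ℓ : ℕ) (hℓ : ℓ.Prime) (hN : ¬ ℓ ∣ N), V ≤ V.comap (CuspForm.heckeTLin 2 hℓ hN))
    (hU : ∀ (r : ℕ) (_ : r.Prime) (hrN : r ∣ N), V ≤ V.comap (CuspForm.heckeULin 2 hrN)) :
    ∃ g ∈ V, g.IsNormalizedEigenform ∧
      (∀ (ℓ : ℕ) (hℓ : ℓ.Prime) (hN : ¬ ℓ ∣ N), CuspForm.heckeTLin 2 hℓ hN g = qCoeff g ℓ • g) ∧
      (∀ (r : ℕ) (_ : r.Prime) (hrN : r ∣ N), CuspForm.heckeULin 2 hrN g = qCoeff g r • g) :=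
  H61.Eig.exists_eigenform V hV hT hU

/-- **The maximum principle.** For a cusp form `f ≠ 0` of weight two the function `φ(τ) = |f(τ)| Im(τ)`
(`H61.Bound.phi`) has a positive maximum. If `T_q f = a f`, then `|a| φ(τ)` is at most the sum of the
`q + 1` values of `φ` at the points `(τ + j)/q` and `q τ`. So if `|a| ≥ q + 1`, with `τ` also `q τ` is a
point where `φ` is maximal; but `φ(q^n τ) → 0`. Hence `|a| < q + 1`, and `(q + 1)² - T_q²` is injective.
(`H61Bound`) -/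
theorem maximum_principle {N q : ℕ} [NeZero N] (hq : q.Prime) (hqN : ¬ q ∣ N)
    (f : CuspForm (Gamma0 N) 2) :
    (∀ τ : UpperHalfPlane, H61.Bound.phi f τ = ‖f τ‖ * τ.im) ∧
    (f ≠ 0 → ∃ τ₀, 0 < H61.Bound.phi f τ₀ ∧ ∀ τ, H61.Bound.phi f τ ≤ H61.Bound.phi f τ₀) ∧
    (∀ a : ℂ, ModularForm.heckeT 2 q (f : UpperHalfPlane → ℂ) = a • (f : UpperHalfPlane → ℂ) → ∀ τ,
      ‖a‖ * H61.Bound.phi f τ ≤
        ∑ j ∈ Finset.range q, H61.Bound.phi f (ModularForm.heckeMatrix q j • τ) +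
          H61.Bound.phi f (ModularForm.heckeDiagMatrix q • τ)) ∧
    (CuspForm.heckeTLin 2 hq hqN (CuspForm.heckeTLin 2 hq hqN f) = ((q : ℂ) + 1) ^ 2 • f → f = 0) :=
  ⟨fun _ => rfl, H61.Bound.exists_max_phi f, fun _ h τ => H61.Bound.norm_mul_phi_le hq.ne_zero h τ,
    H61.Bound.eq_zero_of_heckeT_sq hq hqN f⟩

/-! ### 6. Quotients of Hecke modules -/

section Quotients

open Fermat.Agent.H69.EG (EMod Dlt)

/-- **The joint action** of an `O`-algebra `𝕋` (acting by `Φ`) and of a commutative group `Δ` (acting by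
`Ψ`, commuting with `Φ`) is an action of `𝕋 ⊗ O[Δ]`; equivariant maps are linear over it. (`H41FullX`) -/
theorem joint_action {O M X 𝕋 Δ : Type} [CommRing O] [AddCommGroup M] [Module O M] [AddCommGroup X]
    [Module O X] [CommRing 𝕋] [Algebra O 𝕋] [CommGroup Δ]
    (Φ : 𝕋 →ₐ[O] Module.End O M) (Ψ : Δ →* Module.End O M)
    (hc : ∀ t g, Φ t * Ψ g = Ψ g * Φ t) (Φ' : 𝕋 →ₐ[O] Module.End O X) (Ψ' : Δ →* Module.End O X)
    (hc' : ∀ t g, Φ' t * Ψ' g = Ψ' g * Φ' t) (f : M →ₗ[O] X)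
    (hΦ : ∀ t x, f (Φ t x) = Φ' t (f x)) (hΨ : ∀ g x, f (Ψ g x) = Ψ' g (f x)) :
    (∀ (t : 𝕋) (g : Δ), H41.FX.jointAct Φ Ψ hc (t ⊗ₜ MonoidAlgebra.of O Δ g) = Φ t * Ψ g) ∧
    ∀ (z : 𝕋 ⊗[O] MonoidAlgebra O Δ) (x : M),
      f (H41.FX.jointAct Φ Ψ hc z x) = H41.FX.jointAct Φ' Ψ' hc' z (f x) :=
  ⟨fun t g => by rw [H41.FX.jointAct_tmul, H41.FX.grpAct_of],
    fun z x => H41.FX.jointAct_map Φ Ψ hc Φ' Ψ' hc' f hΦ hΨ z x⟩

/-- **Eigensystems of a quotient, over an extension `O'`** of `O`: if `lam : 𝕋 → O'` is the eigenvalue of an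
eigenvector `x ≠ 0` of `O' ⊗ X`, `X` free over `O` and a quotient of the finite module `M`, it is the
eigenvalue of an eigenvector `y ≠ 0` of `O' ⊗ M`. (`eigensystem_of_quotient` of `GuideIharaSteps` for the
algebra `O' ⊗ 𝕋`; applied to the joint action this is `eigensystems_of_quotient` of `GuideLiftingHecke`.
`H41FullX`) -/
theorem eigensystems_over_extensions {O M X 𝕋 : Type} [CommRing O] [AddCommGroup M] [Module O M]
    [AddCommGroup X] [Module O X] [CommRing 𝕋] [Algebra O 𝕋] [Module.Finite O M]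
    [Module.Finite O 𝕋] [Module.Free O X] (Φ : 𝕋 →ₐ[O] Module.End O M)
    (Φ' : 𝕋 →ₐ[O] Module.End O X) (quo : M →ₗ[O] X) (hq : Function.Surjective quo)
    (hqe : ∀ t x, quo (Φ t x) = Φ' t (quo x)) (O' : Type) [CommRing O'] [IsDomain O']
    [IsNoetherianRing O'] [Algebra O O'] (lam : 𝕋 →ₐ[O] O') (x : O' ⊗[O] X) (hx : x ≠ 0)
    (hl : ∀ t, (Φ' t).baseChange O' x = lam t • x) :
    ∃ y : O' ⊗[O] M, y ≠ 0 ∧ ∀ t, (Φ t).baseChange O' y = lam t • y :=
  H41.FX.exists_eigen_lift Φ Φ' quo hq hqe O' lam x hx hl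

/-- **Compatibility passes to quotients.** If `X` is a quotient of the Hecke module `B`, equivariant for `𝕋`
and `Δ`, and `B` is compatible with the elements `c` of `R` (`compat_iff` of `GuideLiftingHecke`), so is
`X`. (`H41FullX`) -/
theorem compatible_quotient {O : Type} [CommRing O] {p : ℕ} [Fact p.Prime] {𝕋 : Type} [CommRing 𝕋]
    [Algebra O 𝕋] [Module.Finite O 𝕋] {r : ℕ} {e : Fin r → ℕ} {R : Type} [CommRing R] [Algebra O R]
    (B X : EMod O p e 𝕋) (quo : B.M →ₗ[O] X.M) (hq : Function.Surjective quo)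
    (hΦ : ∀ t x, quo (B.Φ t x) = X.Φ t (quo x)) (hΨ : ∀ g x, quo (B.Ψ g x) = X.Ψ g (quo x))
    (π : R →ₐ[O] 𝕋) (c : Fin r → R) (h : B.Compat π c) : X.Compat π c :=
  H41.FX.compat_of_surj B X quo hq hΦ hΨ π c h

/-- **Bases over the group ring.** A Hecke module `E` is free over `O[Δ]` of rank `E.d` (`lamMod`: `O[Δ]`
acts by `grpAct E.Ψ`, the linear extension of the action `Ψ` of `Δ`). (`H41FullX`) -/
theorem basis_over_group_ring {O : Type} [CommRing O] {p : ℕ} [Fact p.Prime] {𝕋 : Type} [CommRing 𝕋]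
    [Algebra O 𝕋] {r : ℕ} {e : Fin r → ℕ} (E : EMod O p e 𝕋) :
    letI := H41.FX.lamMod E
    (∀ (z : MonoidAlgebra O (Dlt p e)) (x : E.M), z • x = H41.FX.grpAct E.Ψ z x) ∧
    Nonempty (Module.Basis (Fin E.d) (MonoidAlgebra O (Dlt p e)) E.M) :=
  ⟨fun _ _ => rfl, H41.FX.exists_lamBasis E⟩

/-- **Construction of Hecke modules**: a free `O[Δ]`-module of rank `d` with a commuting action of `𝕋` is a
Hecke module of rank `d`. This is used for the quotient by the old part, which is free because the old part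
is a direct summand and `O[Δ]` is local. (`H41FullX`) -/
theorem hecke_module_of_free {O : Type} [CommRing O] {p : ℕ} [Fact p.Prime] {𝕋 : Type} [CommRing 𝕋]
    [Algebra O 𝕋] {r : ℕ} {e : Fin r → ℕ} {X : Type} [AddCommGroup X] [Module O X]
    [Module (MonoidAlgebra O (Dlt p e)) X] [IsScalarTower O (MonoidAlgebra O (Dlt p e)) X]
    {d : ℕ} (c : Module.Basis (Fin d) (MonoidAlgebra O (Dlt p e)) X)
    (Φ : 𝕋 →ₐ[O] Module.End O X)
    (hΦ : ∀ t (g : Dlt p e) (x : X), Φ t (MonoidAlgebra.of O (Dlt p e) g • x) =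
      MonoidAlgebra.of O (Dlt p e) g • Φ t x) :
    ∃ (E : EMod O p e 𝕋) (f : X ≃ₗ[O] E.M), E.d = d ∧ (∀ t x, f (Φ t x) = E.Φ t (f x)) ∧
      ∀ g x, f (MonoidAlgebra.of O (Dlt p e) g • x) = E.Ψ g (f x) :=
  H41.FX.exists_eMod c Φ hΦ

end Quotients

/-! ### 7. Points with vanishing traces -/

section Points

open H70.Coh H70.Mod H59 H37.Rank H30 H69.EG H71.R H21M H41.FX CuspForm

/-- **From joint eigenvectors to points.** Let `v ≠ 0` in `O' ⊗ MLoc` be an eigenvector of the Hecke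
operators (eigenvalues `lam`) and of `Δ` (character `χ`). There is a class `z` in the cohomology of `Γ₀(M)`
with coefficients `O'`, twisted by the square of `η' = χ ∘ η`, which belongs to `lam` (`IsPt`), such that
every Hecke family `F` which is zero on `v` (`H41.Step.Van`) is zero on `z`. (`z` is the image of `v` under
the evaluation `O[Δ] → O'` at `χ`; `H41Step`) -/
theorem point_of_eigenvector {N M : ℕ} [NeZero M] (hM : N ∣ M) {S : Set ℕ} (hS : Away M S)
    {O : Type} [CommRing O]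
    {Δ : Type} [CommGroup Δ] [Finite Δ] {η : (ZMod N)ˣ →* (MonoidAlgebra O Δ)ˣ}
    {κ : Type} [Field κ] {θ : MvPolynomial (Idx S) O →+* κ} {e : MvPolynomial (Idx S) O}
    {p : ℕ} (hp : p.Prime) (hgΛ : Good M (MonoidAlgebra O Δ))
    (heΛ : IsLocIdem (tw hM hS (η ^ 2) η) (tw_comm hM hS (η ^ 2) η) θ e)
    (i₀ : Idx S) (hi₀ : θ (MvPolynomial.X i₀) ≠ 1 + (i₀.1 : κ))
    {O' : Type} [CommRing O'] [IsDomain O'] [IsLocalRing O'] [CharZero O'] [Algebra O O']
    (hpO' : (p : O') ∈ maximalIdeal O')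
    {s : ℕ} (hη : η ^ p ^ s = 1) [Module.Free O (MLoc hM hS (η ^ 2) η e)]
    (v : O' ⊗[O] MLoc hM hS (η ^ 2) η e) (hv : v ≠ 0) (χ : Δ →* O'ˣ)
    (hχ : ∀ g, (diam hM hS (η ^ 2) η e g).baseChange O' v = ((χ g : O'ˣ) : O') • v)
    (lam : MvPolynomial (Idx S) O → O')
    (hlam : ∀ P, (mactO hM hS (η ^ 2) η e P).baseChange O' v = lam P • v) :
    ∃ z : H1 (gam N M hM) (psiRep ((psiMap (evC (O := O) χ).toRingHom η) ^ 2) O'),
      IsPt hM hS (psiMap (evC (O := O) χ).toRingHom η) (fun i => lam (MvPolynomial.X i)) z ∧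
      ∀ (M' : ℕ) (hM' : N ∣ M') (F : HFam (gam N M hM) (gam N M' hM')),
        H41.Step.Van hM hS (η ^ 2) η e v M' hM' F →
        F.opH (psiRep ((psiMap (evC (O := O) χ).toRingHom η) ^ 2) O') z = 0 :=
  H41.Step.exists_pt_fam hM hS hp hgΛ heΛ i₀ hi₀ hpO' hη v hv χ hχ lam hlam

/-- **Transport to models.** `IsModel … A iA`: the Hecke module `A` is isomorphic to the localised module
`MLoc` of level `M` by `iA`, such that Hecke operators and diamond operators correspond. For models `A`, `B`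
of the levels `M`, `M'` a map `f` of the localised modules which commutes with the polynomials in the Hecke
operators gives a map `tp iA iB f` from `A` to `B` which is equivariant for `𝕋` and `Δ`. (`H41Step`) -/
theorem transport {N M M' L : ℕ} [NeZero L] {hM : N ∣ M} {hM' : N ∣ M'} {S : Set ℕ} {hS : Away M S}
    {hS' : Away M' S} {hSL : ∀ q : ℕ, q.Prime → q ∣ L → q ∈ S}
    {O : Type} [CommRing O] [IsDomain O] [IsDiscreteValuationRing O]
    [IsAdicComplete (maximalIdeal O) O]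
    {p r : ℕ} {e : Fin r → ℕ} {ψ η : (ZMod N)ˣ →* (MonoidAlgebra O (Dlt p e))ˣ}
    {θ : heckeAlgebra L 2 S →+* ResidueField O} {ee : MvPolynomial (Idx S) O}
    {A B : EMod O p e (heckeLocal L S O θ)}
    {iA : A.M ≃ₗ[O] MLoc hM hS ψ η ee} {iB : B.M ≃ₗ[O] MLoc hM' hS' ψ η ee}
    (hA : IsModel hM hS hSL ψ η θ ee A iA) (hB : IsModel hM' hS' hSL ψ η θ ee B iB)
    (f : MLoc hM hS ψ η ee →ₗ[MonoidAlgebra O (Dlt p e)] MLoc hM' hS' ψ η ee)
    (hf : ∀ P x, f (mactO hM hS ψ η ee P x) = mactO hM' hS' ψ η ee P (f x)) :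
    (∀ x, H41.Step.tp iA iB f x = iB.symm (f (iA x))) ∧
    (∀ t x, H41.Step.tp iA iB f (A.Φ t x) = B.Φ t (H41.Step.tp iA iB f x)) ∧
    ∀ g x, H41.Step.tp iA iB f (A.Ψ g x) = B.Ψ g (H41.Step.tp iA iB f x) :=
  ⟨fun _ => rfl, H41.Step.tp_Φ hA hB f hf, H41.Step.tp_Ψ hA hB f⟩

/-- **The kernel of the two traces for the localised modules.** Let `A`, `B` be models of the levels `M`,
`M q`. If the eigenvalue of `h0` in the Hecke ring is zero at all points of level `M q` on which both traces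
are zero (`hD`), then `h0` kills the elements of `B` on which both traces are zero. (By
`kernel_of_traces_killed` of `GuideIharaSteps` and `point_of_eigenvector`; it is used in
`raising_step_of_modules` there. `H41Step`) -/
theorem kernel_of_traces_of_modules {N M q L : ℕ} [NeZero N] [NeZero M] [NeZero q] [NeZero L]
    (hM : N ∣ M) {S : Set ℕ}
    (hS : Away M S) (hS' : Away (M * q) S) (hSL : ∀ q : ℕ, q.Prime → q ∣ L → q ∈ S)
    {O : Type} [CommRing O] [IsDomain O] [IsDiscreteValuationRing O]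
    [IsAdicComplete (maximalIdeal O) O] [Finite (ResidueField O)] [CharZero O]
    {p : ℕ} [Fact p.Prime] (hpO : (p : O) ∈ maximalIdeal O)
    {r : ℕ} {e : Fin r → ℕ} {η : (ZMod N)ˣ →* (MonoidAlgebra O (Dlt p e))ˣ}
    {θ : heckeAlgebra L 2 S →+* ResidueField O} {ee : MvPolynomial (Idx S) O}
    {sη : ℕ} (hη : η ^ p ^ sη = 1) (hq : q.Prime) (hqM : ¬ q ∣ M)
    (hgΛ' : Good (M * q) (MonoidAlgebra O (Dlt p e)))
    (he' : IsLocIdem (tw (dvd_mul_q (q := q) hM) hS' (η ^ 2) η)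
      (tw_comm (dvd_mul_q (q := q) hM) hS' (η ^ 2) η) (thetaPoly L S hSL O θ) ee)
    (hNE2 : ∀ D : ℕ, D ≠ 0 → ∃ i : Idx S, (D : ℤ) ∣ (i.1 : ℤ) - 1 ∧
      θ (TIdx L S hSL i) ≠ (i.1 : ResidueField O) + 1)
    {A B : EMod O p e (heckeLocal L S O θ)}
    {iA : A.M ≃ₗ[O] MLoc hM hS (η ^ 2) η ee}
    {iB : B.M ≃ₗ[O] MLoc (dvd_mul_q (q := q) hM) hS' (η ^ 2) η ee}
    (hA : IsModel hM hS hSL (η ^ 2) η θ ee A iA)
    (hB : IsModel (dvd_mul_q (q := q) hM) hS' hSL (η ^ 2) η θ ee B iB)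
    [Module.Finite O (heckeLocal L S O θ)] [IsReduced (heckeLocal L S O θ)]
    (h0 : heckeLocal L S O θ)
    (hD : ∀ (O' : Type) [CommRing O'] [IsDomain O'] [IsDiscreteValuationRing O']
      [IsAdicComplete (maximalIdeal O') O'] [Finite (ResidueField O')] [CharZero O']
      [Algebra O O'] [Module.Finite O O'] [IsLocalHom (algebraMap O O')],
      Function.Injective (algebraMap O O') →
      ∀ (lam : heckeLocal L S O θ →ₐ[O] O') (η' : (ZMod N)ˣ →* O'ˣ)
      (x : H1 (gam N (M * q) (hM.mul_right q)) (psiRep (η' ^ 2) O')),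
      (∃ k, η' ^ p ^ k = 1) →
      IsPt (hM.mul_right q) hS' η'
        (fun i => lam (heckeLocal.π L S O θ (TIdx L S hSL i))) x →
      (trFam hM).opH (psiRep (η' ^ 2) O') x = 0 → (nuFam hM hq).opH (psiRep (η' ^ 2) O') x = 0 →
      lam h0 = 0)
    (x : B.M) (hx : H41.Step.tp iB iA (trM hM hS hS' (η ^ 2) η ee hq hqM) x = 0)
    (hx' : H41.Step.tp iB iA (nuM hM hS hS' (η ^ 2) η ee hq hqM) x = 0) : B.Φ h0 x = 0 :=
  H41.Step.kills_step hM hS hS' hSL hpO hη hq hqM hgΛ' he' hNE2 hA hB h0 hD x hx hx'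

end Points

/-! ### 8. Symbols and cusp forms

The steps of `symbols_cuspForms` of `GuideLevelsRaising`. The period homomorphisms `γ ↦ m(γ x, x)` of the
complex symbols of level `N` are the parabolic homomorphisms `Γ₀(N) → ℂ` (`period_homomorphisms`), and by
the theorem of Eichler and Shimura (S21) these are the pairs of cusp forms. That the Hecke operators
correspond is seen with symbols on the upper half plane: `T_ℓ` and `U_r` change the periods of a symbol by
the same rule on every set on which `GL₂(ℚ)` acts (`periods_of_transforms`). -/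

section CuspForms

variable {R X A : Type*} [CommRing R] [AddCommGroup A] [Module R A]

/-- **Families of representatives.** `H77.BR.IsHeckeFam Γ η`: for every `g` in the subgroup `Γ` of `G` one
has `η_i g = g'_i η_(σ i)` with a permutation `σ` of the indices and `g'_i ∈ Γ`. Then `∑ m|η_i` is invariant
under `Γ` if `m` is. (`H77BrA`) -/
theorem representatives {G : Type*} [Group G] [MulAction G X] {Γ : Subgroup G} {ι : Type*} [Fintype ι]
    {η : ι → G} :
    (H77.BR.IsHeckeFam Γ η ↔ ∀ g ∈ Γ, ∃ (σ : Equiv.Perm ι) (g' : ι → G), (∀ i, g' i ∈ Γ) ∧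
      ∀ i, η i * g = g' i * η (σ i)) ∧
    (H77.BR.IsHeckeFam Γ η → ∀ m ∈ H41.inv R X A Γ, ∑ i, H41.slash (η i) m ∈ H41.inv R X A Γ) :=
  ⟨Iff.rfl, fun hη _ hm => H77.BR.sum_slash_mem_inv hη hm⟩

/-- **The matrices of `T_ℓ`, `ℓ ∤ N`, and of `U_r`, `r ∣ N`,** are such families for `Γ₀(N)`: `H41.hrep ℓ`
(`hecke_matrices` of `GuideIharaSteps`) and `H77.BR.urep r`, that is `(1 j; 0 r)`, `0 ≤ j < r`.
(`H77BrA`) -/
theorem representatives_TU [MulAction (GL (Fin 2) ℚ) X] {N : ℕ} :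
    (∀ {ℓ : ℕ}, ℓ.Prime → ¬ ℓ ∣ N → H77.BR.IsHeckeFam (H41.G0 N) (H41.hrep ℓ)) ∧
    ∀ {r : ℕ} [NeZero r], (∀ j : ZMod r, H77.BR.urep r j = H41.hm r j.val) ∧
      (∀ m : H41.Symb R X A, H41.hU r m = ∑ x : ZMod r, H41.slash (H77.BR.urep r x) m) ∧
      (r ∣ N → H77.BR.IsHeckeFam (H41.G0 N) (H77.BR.urep r)) :=
  ⟨fun {_} hℓ hN => H77.BR.isHeckeFam_T hℓ hN,
    fun {_} [_] => ⟨fun _ => rfl, H77.BR.hU_eq_sum, H77.BR.isHeckeFam_U⟩⟩

/-- **Periods of `∑ m|η_i`.** (1) The period of `∑ m|η_i` at `g` is the sum of the periods of `m` at the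
`g'_i` (as in `representatives`), each computed at any point `y_i`. (2) So it depends only on the periods of
`m`: if the symbols `m` on `X` and `n` on `Y` have the same periods, so have `∑ m|η_i` and `∑ n|η_i`.
(`H77BrA`) -/
theorem periods_of_transforms {G Y : Type*} [Group G] [MulAction G X] [MulAction G Y] {Γ : Subgroup G}
    {ι : Type*} [Fintype ι] {η : ι → G} {m : H41.Symb R X A} (hm : m ∈ H41.inv R X A Γ) (x : X) {g : G} :
    (∀ (σ : Equiv.Perm ι) (g' : ι → G), (∀ i, g' i ∈ Γ) → (∀ i, η i * g = g' i * η (σ i)) →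
      ∀ y : ι → X, (∑ i, H41.slash (η i) m).1 (g • x) x = ∑ i, m.1 (g' i • y i) (y i)) ∧
    (H77.BR.IsHeckeFam Γ η → ∀ {n : H41.Symb R Y A}, n ∈ H41.inv R Y A Γ → ∀ y : Y,
      (∀ g ∈ Γ, m.1 (g • x) x = n.1 (g • y) y) → g ∈ Γ →
        (∑ i, H41.slash (η i) m).1 (g • x) x = (∑ i, H41.slash (η i) n).1 (g • y) y) :=
  ⟨fun σ g' hg' hmul y => H77.BR.per_sum η σ g' hg' hmul hm x y,
    fun hη {_} hn y h hg => H77.BR.per_sum_congr hη hm hn x y h hg⟩

/-- **The reflection** `H77.BR.eps = diag(1, -1)`. Conjugation by it changes the signs of the entries `b`, `c`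
of a matrix (`H77.BR.jc`). It preserves the symbols of level `N` and commutes on them with `U_p` and `T_p`.
(`H77BrA`) -/
theorem reflection [MulAction (GL (Fin 2) ℚ) X] {N p : ℕ} [NeZero p] {m : H41.Symb R X A}
    (hm : m ∈ H41.inv R X A (H41.G0 N)) :
    (∀ g : SL(2, ℤ), H77.BR.eps * mapGL ℚ g = mapGL ℚ (H77.BR.jc g) * H77.BR.eps) ∧
    H41.slash H77.BR.eps m ∈ H41.inv R X A (H41.G0 N) ∧
    H41.hU p (H41.slash H77.BR.eps m) = H41.slash H77.BR.eps (H41.hU p m) ∧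
    H41.hT p (H41.slash H77.BR.eps m) = H41.slash H77.BR.eps (H41.hT p m) :=
  ⟨H77.BR.eps_mul, H77.BR.slash_eps_mem hm, H77.BR.hU_eps hm, H77.BR.hT_eps hm⟩

end CuspForms

/-- **Parabolic elements**: `γ ∈ SL₂(ℤ)` has a fixed point on `P¹(ℚ)` if and only if its trace is `± 2`.
(`H77Bridge`) -/
theorem fixed_point_iff (γ : SL(2, ℤ)) :
    (∃ x : OnePoint ℚ, (mapGL ℚ γ : GL (Fin 2) ℚ) • x = x) ↔
      (γ : Matrix (Fin 2) (Fin 2) ℤ).trace ^ 2 = 4 :=
  ⟨fun ⟨_, h⟩ => H77.BR.trace_sq_of_fix h, H77.BR.exists_fix⟩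

/-- **Period homomorphisms.** `H77.BR.perHom N` maps a complex symbol `m` of level `N` to the homomorphism
`γ ↦ m(γ x, x)` on `Γ₀(N)`. Its image is the space of the parabolic homomorphisms, those which are zero at
the `γ` of trace `± 2` (choose representatives `r` of the orbits of cusps and let `F(g r) = φ(g)`; the
symbol is `F(x) - F(y)`). The reflection of symbols corresponds to the one of homomorphisms
(`charInvolution`: `φ` at the conjugate of `γ` by `diag(1, -1)`). (`H77Bridge`) -/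
theorem period_homomorphisms (N : ℕ) :
    (∀ (m : H41.inv ℂ (OnePoint ℚ) ℂ (H41.G0 N)) (γ : Gamma0 N) (x : OnePoint ℚ),
      H77.BR.perHom N m (Additive.ofMul γ) =
        m.1.1 ((mapGL ℚ (γ : SL(2, ℤ)) : GL (Fin 2) ℚ) • x) x) ∧
    (∀ m, H77.BR.perHom N m ∈ ModularCurve.Period.parabolicHoms ℂ (Gamma0 N) ℂ) ∧
    (∀ φ ∈ ModularCurve.Period.parabolicHoms ℂ (Gamma0 N) ℂ, ∃ m, H77.BR.perHom N m = φ) ∧
    ∀ m : H41.inv ℂ (OnePoint ℚ) ℂ (H41.G0 N),
      H77.BR.perHom N ⟨H41.slash H77.BR.eps m.1, H77.BR.slash_eps_mem m.2⟩ =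
        ModularCurve.Period.charInvolution N ℂ ℂ (H77.BR.perHom N m) :=
  ⟨H77.BR.perHom_apply, H77.BR.perHom_mem, fun _ hφ => H77.BR.perHom_surj hφ, H77.BR.perHom_eps⟩

/-- **Primitives.** `H21.IsPrim F f`: `F` is a primitive of `f` on the upper half plane. The periods of a cusp
form (`periodMap N f`, see `period_spec` of `GuideBridge`) can be computed with any primitive. A primitive
of `T_p f` is the sum of the `F(M τ)` over the `p + 1` matrices `M` of `T_p` (`toR M`: the same matrix, with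
real entries), for the primitive `F = H21.prim f`; likewise for `U_p`. (`H77BrB`) -/
theorem primitives {N : ℕ} [NeZero N] (f : CuspForm (Gamma0 N) 2) :
    (∀ {F : UpperHalfPlane → ℂ}, H21.IsPrim F f → ∀ (γ : Gamma0 N) (z : UpperHalfPlane),
      ModularCurve.periodMap N f (Additive.ofMul γ) = F ((γ : SL(2, ℤ)) • z) - F z) ∧
    ∀ {p : ℕ}, p ≠ 0 →
      H21.IsPrim (∑ j ∈ Finset.range p, fun τ : UpperHalfPlane => H21.prim f (H77.BR.toR (H41.hm p j) • τ))
        (ModularForm.heckeU 2 p f) ∧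
      H21.IsPrim ((∑ j ∈ Finset.range p,
          fun τ : UpperHalfPlane => H21.prim f (H77.BR.toR (H41.hm p j) • τ)) +
          fun τ : UpperHalfPlane => H21.prim f (H77.BR.toR (H41.hd p) • τ))
        (ModularForm.heckeT 2 p f) :=
  ⟨fun {_} hF γ z => H77.BR.periodMap_of_isPrim f hF γ z,
    fun {_} hp => ⟨H77.BR.isPrim_U f hp, H77.BR.isPrim_T f hp⟩⟩

/-- **The symbol of a cusp form** on the upper half plane `H77.BR.HQ` (with the action of `GL₂(ℚ)`) is
`fsymb f`, the function `(z, w) ↦ F(z) - F(w)`, `F` the primitive `H21.prim f`. It is of level `N`, its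
periods are those of `f`, and `T_ℓ`, `U_r` on it have the periods of `T_ℓ f`, `U_r f`. (`H77BrB`) -/
theorem symbol_of_cuspForm {N : ℕ} [NeZero N] (f : CuspForm (Gamma0 N) 2) :
    (∀ z w : H77.BR.HQ,
      (H77.BR.fsymb f).1 z w = H21.prim f (H77.BR.toH z) - H21.prim f (H77.BR.toH w)) ∧
    H77.BR.fsymb f ∈ H41.inv ℂ H77.BR.HQ ℂ (H41.G0 N) ∧
    ∀ (γ : Gamma0 N) (z : H77.BR.HQ),
      (H77.BR.fsymb f).1 ((mapGL ℚ (γ : SL(2, ℤ)) : GL (Fin 2) ℚ) • z) z =
        ModularCurve.periodMap N f (Additive.ofMul γ) ∧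
      (∀ {ℓ : ℕ} (hℓ : ℓ.Prime) (hN : ¬ ℓ ∣ N),
        (H41.hT ℓ (H77.BR.fsymb f)).1 ((mapGL ℚ (γ : SL(2, ℤ)) : GL (Fin 2) ℚ) • z) z =
          ModularCurve.periodMap N (CuspForm.heckeTLin 2 hℓ hN f) (Additive.ofMul γ)) ∧
      ∀ {r : ℕ} (hrN : r ∣ N), r ≠ 0 →
        (H41.hU r (H77.BR.fsymb f)).1 ((mapGL ℚ (γ : SL(2, ℤ)) : GL (Fin 2) ℚ) • z) z =
          ModularCurve.periodMap N (CuspForm.heckeULin 2 hrN f) (Additive.ofMul γ) :=
  ⟨fun _ _ => rfl, H77.BR.fsymb_mem f, fun γ z => ⟨H77.BR.fsymb_per f γ z,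
    fun {_} hℓ hN => H77.BR.fsymb_hT f hℓ hN γ z, fun {_} hrN hr => H77.BR.fsymb_hU f hrN hr γ z⟩⟩

/-- **Hecke operators on pairs of cusp forms.** `periodHomPair N (f, g)` is the sum of the symmetric part
`P(f) + P(f)^ι` and of the antisymmetric part `P(g) - P(g)^ι` of the periods of `f` and of `g`. If it is the
period homomorphism of the symbol `m`, then `(T f, T g)` belongs in the same way to `∑ m|η_i`, for a family
`η` which commutes with the reflection on the symbols of level `N` (`heps`) and an operator `T` on cusp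
forms whose effect on periods is that of `η` (`hTS`). (`H77Bridge`, from `periods_of_transforms`) -/
theorem hecke_on_pairs {N : ℕ} [NeZero N] {ι : Type*} [Fintype ι] {η : ι → GL (Fin 2) ℚ}
    (hη : H77.BR.IsHeckeFam (H41.G0 N) η)
    (heps : ∀ m : H41.Symb ℂ (OnePoint ℚ) ℂ, m ∈ H41.inv ℂ (OnePoint ℚ) ℂ (H41.G0 N) →
      ∑ i, H41.slash (η i) (H41.slash H77.BR.eps m) = H41.slash H77.BR.eps (∑ i, H41.slash (η i) m))
    (TS : CuspForm (Gamma0 N) 2 → CuspForm (Gamma0 N) 2)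
    (hTS : ∀ f (γ : Gamma0 N) (z : H77.BR.HQ), (∑ i, H41.slash (η i) (H77.BR.fsymb f)).1
      ((mapGL ℚ (γ : SL(2, ℤ)) : GL (Fin 2) ℚ) • z) z =
        ModularCurve.periodMap N (TS f) (Additive.ofMul γ))
    {m m' : H41.inv ℂ (OnePoint ℚ) ℂ (H41.G0 N)} (hm' : m'.1 = ∑ i, H41.slash (η i) m.1)
    {f g : CuspForm (Gamma0 N) 2} (h : H77.BR.perHom N m = ModularCurve.periodHomPair N (f, g)) :
    ModularCurve.periodHomPair N (f, g) = (ModularCurve.periodMap N f +
        ModularCurve.Period.charInvolution N ℂ ℂ (ModularCurve.periodMap N f)) +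
      (ModularCurve.periodMap N g -
        ModularCurve.Period.charInvolution N ℂ ℂ (ModularCurve.periodMap N g)) ∧
    H77.BR.perHom N m' = ModularCurve.periodHomPair N (TS f, TS g) :=
  ⟨H21.periodHomPair_apply f g, H77.BR.bridge_hecke hη heps TS hTS hm' h⟩

end Fermat.Agent.Guide.RaisingSteps
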