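import Fermat.Agent.S24
import Fermat.Agent.H94Export

/-!
# Reader's guide: places, differentials and the genus in characteristic zero (S24, companion file)

This file contains no new mathematics. Every theorem below is proved by citing a theorem of the
library; the statements are written out. It is a companion of `GuideModularCurves`, section 1, and
shows the steps of three proofs: places from expansions (`places_of_expansions`), the formula of
Riemann and Hurwitz (`riemann_hurwitz`), and the equality of the two definitions of the genus
(`genus_eq_genusFF`). Compare `GuideRiemannRoch` (the theorem of Riemann and Roch), `GuideIgusa` (the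
inequality of Riemann and Hurwitz in all characteristics) and `GuideCusps` (the expansions).

## What the block does

`F/K` is a function field in one variable, `K` is algebraically closed of characteristic zero. Nothing
of the theory of curves is used; everything is a statement on valuation rings of `F`.

1. Places and Dedekind rings: places where `x` is regular are the maximal ideals of the integral
   closure of `K[x]`; a function has `[F : K(x)]` zeros and as many poles.
2. Places and Laurent series: an embedding of `F` in `C((t))` defines a place, and `[F : K(x)]`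
   different embeddings with the same value at `x` give all zeros of `x`. With the rotation
   `t ↦ ζ t` one can read off the ramification: the zeros are the cycles of a permutation.
3. Differentials: they form a space of dimension one over `F`; the derivation `d/dt` by a uniformizer
   maps the valuation ring to itself; the order of `dx` at a place is `e - 1`, or `- e - 1` at a
   pole, where `e` is the ramification index (characteristic zero).
4. Riemann-Hurwitz and the genus from the cycle structure of the monodromy.
5. The degree of the divisor of `dx` is `2 g - 2` for the genus `g` of the Riemann-Roch theorem: `≤` is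
   the inequality in `GuideIgusa`, `≥` is proved with the trace form (an argument with the dual basis
   instead of Serre duality).

Every library theorem cited here is in the closure of S01; those of sections 1 to 4 are also in the
closure of S24, except the dimension of the space of differentials, the chain rule (section 3) and
`canonical_divisors`. Files: `H94*` (helper94), `H88RH` (helper88). NOTES: Appendix A.4, documents
[125] and [179].

## Notation

`Place K F` is the set of the discrete valuation rings of `F` which contain `K` (a place `v` has the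
ring `v.toValuationSubring`); `v.ord f` is the normalised order (`v.ord 0 = 0` by convention),
`v.adicValuation f = exp (- v.ord f)` for `f ≠ 0` the multiplicative valuation; `Divisor K F` is the free
group on the places; `riemannRochSpace D` is `L(D)`; `genusFF` is the dimension of `H¹(0)`, the genus of
the Riemann-Roch theorem; `genus` is defined by the degree of the divisor of a differential;
`v.ordDifferential ω` is the order of a differential at `v`.
-/

set_option autoImplicit false

open AlgebraicCurve IntermediateField WithZero Module
open IsDedekindDomain (HeightOneSpectrum)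
open Fermat.Agent.H3RR (IsFF poleDiv)

noncomputable section

namespace Fermat.Agent.Guide.Ramification

/-! ## 1. Places and Dedekind rings -/

/-- **Function fields in one variable.** `H94.FunField K F` says that `F` is finite over `K(x)` for some
transcendental `x`; then `F` is finite over `K(y)` for every transcendental `y`. Proved in
`H94FunField`. -/
theorem funField_iff (K F : Type*) [Field K] [Field F] [Algebra K F] :
    (H94.FunField K F ↔ ∃ x : F, Transcendental K x ∧ FiniteDimensional K⟮x⟯ F) ∧
    (H94.FunField K F → ∀ y : F, Transcendental K y → FiniteDimensional K⟮y⟯ F) :=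
  ⟨⟨fun h => h.out, fun h => ⟨h⟩⟩, fun _ _ hy => H94.FunField.finiteDimensional hy⟩

/-- **Residue fields.** If `K` is algebraically closed, all places have degree one: every function
which is regular at `v` is congruent to a constant. Proved in `H94FunField`. -/
theorem residue_field {K F : Type*} [Field K] [Field F] [Algebra K F] [IsAlgClosed K]
    [H94.FunField K F] (v : Place K F) :
    Function.Bijective (algebraMap K v.ResidueField) ∧ v.deg = 1 ∧
    ∀ f ∈ v.toValuationSubring, ∃ a : K,
      f - algebraMap K F a = 0 ∨ 0 < v.ord (f - algebraMap K F a) :=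
  ⟨H94.algebraMap_residue_bijective v, H94.deg_eq_one v,
    fun _ hf => H94.exists_sub_algebraMap_ord_pos v hf⟩

/-- **The order is determined by the ring**: every discrete valuation `w` of `F` with the same
valuation ring as the place `v` and with a value `exp (-1)` satisfies `w f = exp (- v.ord f)` for
`f ≠ 0`, and a valuation ring of a place is not contained in another one. Proved in `H94Places`. -/
theorem order_unique {K F : Type*} [Field K] [Field F] [Algebra K F] (v : Place K F) :
    (∀ w : Valuation F (WithZero (Multiplicative ℤ)), w.valuationSubring = v.toValuationSubring →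
      (∃ t, w t = exp (-1 : ℤ)) → ∀ f : F, v.ord f = - log (w f)) ∧
    ∀ v' : Place K F, v.toValuationSubring ≤ v'.toValuationSubring → v = v' :=
  ⟨fun w hw ht f => H94.ord_eq_neg_log v w hw ht f, fun _ h => H94.place_eq_of_le h⟩

/-- **Places and primes.** Let `R ⊂ F` be a Dedekind ring with fraction field `F` which contains `K`. The
places whose ring contains `R` correspond to the maximal ideals of `R` (`Place.ofHeightOneSpectrum w`
is the place of `w`), with the same orders. Proved in `H94Places`. -/
theorem places_and_primes {K F R : Type*} [Field K] [Field F] [Algebra K F] [CommRing R]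
    [IsDedekindDomain R] [Algebra R F] [IsFractionRing R F] [Algebra K R] [IsScalarTower K R F] :
    (∀ (w : HeightOneSpectrum R) (r : R),
      algebraMap R F r ∈ (Place.ofHeightOneSpectrum w : Place K F).toValuationSubring) ∧
    (∀ (w : HeightOneSpectrum R) (f : F),
      (Place.ofHeightOneSpectrum w : Place K F).ord f = - log (w.valuation F f)) ∧
    ∀ v : Place K F, (∀ r : R, algebraMap R F r ∈ v.toValuationSubring) →
      ∃! w : HeightOneSpectrum R, Place.ofHeightOneSpectrum w = v :=
  ⟨H94.algebraMap_mem_ofHeightOneSpectrum, H94.ord_ofHeightOneSpectrum, fun v hR =>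
    ⟨H94.primeBelow v hR, H94.ofHeightOneSpectrum_primeBelow v hR,
      fun w hw => by subst hw; exact (H94.primeBelow_ofHeightOneSpectrum w hR).symm⟩⟩

/-- **The integral closure** of `K[x]` in `F` (`H94.IntRing K x`) is a Dedekind ring with fraction
field `F`, finite over `K[x]`, of rank `[F : K(x)]`; a place at which `x` is regular contains it. Proved
in `H94Divisors`. -/
theorem integral_closure {K F : Type*} [Field K] [Field F] [Algebra K F] [CharZero K] {x : F}
    (hx : Transcendental K x) [FiniteDimensional K⟮x⟯ F] :
    H94.IntRing K x = integralClosure (Algebra.adjoin K {x}) F ∧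
    IsDedekindDomain (H94.IntRing K x) ∧ IsFractionRing (H94.IntRing K x) F ∧
    Module.Finite (Algebra.adjoin K {x}) (H94.IntRing K x) ∧
    finrank (Algebra.adjoin K {x}) (H94.IntRing K x) = finrank K⟮x⟯ F ∧
    ∀ v : Place K F, x ∈ v.toValuationSubring → ∀ b : H94.IntRing K x,
      (b : F) ∈ v.toValuationSubring :=
  ⟨rfl, H94.isDedekindDomain_intRing hx, H94.isFractionRing_intRing, H94.finite_intRing hx,
    H94.finrank_intRing, fun _ hv b => H94.mem_of_intRing hv b⟩

/-- **Zeros and poles.** A transcendental function `x` has `[F : K(x)]` zeros and `[F : K(x)]` poles,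
counted with multiplicities: the zeros are the primes above `x` in the integral closure of `K[x]`
(`∑ e f = n`), the poles are the zeros of `x⁻¹`. Proved in `H94Divisors`. -/
theorem zeros_and_poles {K F : Type*} [Field K] [Field F] [Algebra K F] [CharZero K] [IsAlgClosed K]
    [H94.FunField K F] {x : F} (hx : Transcendental K x) :
    (∃ h : {v : Place K F | 0 < v.ord x}.Finite,
      ∑ v ∈ h.toFinset, v.ord x = finrank K⟮x⟯ F) ∧
    ∃ h : {v : Place K F | v.ord x < 0}.Finite,
      ∑ v ∈ h.toFinset, v.ord x = - (finrank K⟮x⟯ F : ℤ) :=
  ⟨H94.sum_ord_pos hx, H94.finite_setOf_ord_neg hx, H94.sum_ord_neg hx⟩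

/-- **Principal divisors**: a nonzero function has a divisor, and its degree is zero (a function which
is not a constant is transcendental over `K`). Proved in `H94Divisors`. -/
theorem principal_divisors (K F : Type*) [Field K] [Field F] [Algebra K F] [CharZero K]
    [IsAlgClosed K] [H94.FunField K F] (f : F) (hf : f ≠ 0) :
    ∃ D : Divisor K F, (∀ v : Place K F, D v = v.ord f) ∧ Divisor.degree D = 0 :=
  (H94.hasPrincipalDivisors K F).exists_divisor f hf

/-! ## 2. Places and embeddings in fields of Laurent series -/

/-- Every nontrivial valuation ring of `F` which contains `K` is the ring of a place (it contains `x` or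
`x⁻¹`, hence an integral closure, and is a localisation of it). Proved in `H94Embed`. -/
theorem valuation_ring_is_place {K F : Type*} [Field K] [Field F] [Algebra K F] [CharZero K]
    [H94.FunField K F] (V : ValuationSubring F) (hK : ∀ a : K, algebraMap K F a ∈ V) (hV : V ≠ ⊤) :
    ∃ v : Place K F, v.toValuationSubring = V :=
  H94.exists_place_of_valuationSubring V hK hV

/-- **The place of an embedding.** Let `s : F → C((t))` be a homomorphism of `K`-algebras such that
`s(x)` has positive order for some `x`. There is a place `v` such that `f` is regular at `v` if and only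
if `s(f)` is a power series, and the order of `s(f)` is `m · v.ord f` with a constant `m > 0`. Proved in
`H94Embed`. -/
theorem place_of_embedding {K F C : Type*} [Field K] [Field F] [Algebra K F] [Field C] [Algebra K C]
    [CharZero K] [H94.FunField K F] (s : F →ₐ[K] LaurentSeries C) {x : F} (hx : 0 < (s x).order) :
    ∃ v : Place K F, (∀ f : F, f ∈ v.toValuationSubring ↔ 0 ≤ (s f).order) ∧
      ∃ m : ℤ, 0 < m ∧ ∀ f : F, (s f).order = m * v.ord f := by
  obtain ⟨v, hv⟩ := H94.exists_place_of_embedding s hx
  exact ⟨v, fun f => by rw [hv, H94.mem_pullbackRing], H94.exists_order_eq_mul v s hv⟩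

/-- **All zeros come from the embeddings.** Let `s_i` be `n = [F : K(x)]` different embeddings of `F`
in `C((t))` with the same value `y` at `x`, of positive order. Then every zero `v` of `x` is the place of
some `s_i`. Idea: otherwise there is an integral element `b` over `K[x]` which vanishes at `v` and at none
of the places of the `s_i`; the constant coefficient of its minimal polynomial vanishes at `v`, so it is
divisible by `x` (it is a polynomial in `x`); but up to sign it is a product of conjugates `s_i(b)`, which
have order zero. Proved in `H94Orbits`. -/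
theorem every_zero_has_embedding {K F C ι : Type*} [Field K] [Field F] [Algebra K F] [Field C]
    [Algebra K C] [Fintype ι] [CharZero K] [IsAlgClosed K] [H94.FunField K F] {x : F}
    (hx : Transcendental K x) (s : ι → (F →ₐ[K] LaurentSeries C)) (hs : Function.Injective s)
    (hcard : Fintype.card ι = finrank K⟮x⟯ F) {y : LaurentSeries C} (hy : ∀ i, s i x = y)
    (hpos : 0 < y.order) (v : Place K F) (hv : 0 < v.ord x) :
    ∃ i, ∀ f : F, f ∈ v.toValuationSubring ↔ 0 ≤ (s i f).order := by
  obtain ⟨i, hi⟩ := H94.exists_embedding_of_place hx s hs hcard hy hpos v hv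
  exact ⟨i, fun f => by rw [hi, H94.mem_pullbackRing]⟩

/-- **Rotations.** If the substitution `t ↦ ζ t` maps `s_i` to `s_{π(i)}`, then `t ↦ ζ^k t` maps `s_i` to
`s_{π^k(i)}`, and the embeddings `s_i`, `s_{π(i)}` have the same orders: the place of `s_i` depends only on
the cycle of `i`. Proved in `H94OrbitCount`; the converse and the formula for the ramification index
(the length of the cycle) are `places_of_expansions` in `GuideModularCurves`. -/
theorem rotations {K F C ι : Type*} [Field K] [Field F] [Algebra K F] [Field C] [Algebra K C]
    (s : ι → (F →ₐ[K] LaurentSeries C)) {ζ : C} {π : Equiv.Perm ι}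
    (h : ∀ i f (n : ℤ), (s (π i) f).coeff n = ζ ^ n * (s i f).coeff n) :
    (∀ (k : ℕ) i f (n : ℤ), (s ((π ^ k) i) f).coeff n = ζ ^ (n * k) * (s i f).coeff n) ∧
    (ζ ≠ 0 → ∀ i f, (s (π i) f).order = (s i f).order) :=
  ⟨H94.coeff_pow_twist s h, fun hζ => H94.order_eq_of_twist s hζ h⟩

/-- **Local expansions with monodromy.** `H94.LocalEmb K F C ι x e π` is the set of the data which one
has above the point `x = 0`: different embeddings `s_i` of `F` in `C((t))`, indexed by `ι`, with the same
value of order `e` at `x`, such that a rotation of order `e` acts on them as the permutation `π` of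
`ι`. Defined in `H94Genus`. -/
theorem localEmb_iff {K F C ι : Type*} [Field K] [Field F] [Algebra K F] [Field C] [Algebra K C]
    (x : F) (e : ℕ) (π : Equiv.Perm ι) : Nonempty (H94.LocalEmb K F C ι x e π) ↔
      ∃ (s : ι → (F →ₐ[K] LaurentSeries C)) (y : LaurentSeries C) (ζ : C), Function.Injective s ∧
        (∀ i, s i x = y) ∧ 0 < e ∧ y.order = e ∧ IsPrimitiveRoot ζ e ∧
        ∀ i f (n : ℤ), (s (π i) f).coeff n = ζ ^ n * (s i f).coeff n :=
  ⟨fun ⟨d⟩ => ⟨d.s, d.y, d.ζ, d.inj, d.map_x, d.e_pos, d.order_y, d.prim, d.twist⟩,
    fun ⟨s, y, ζ, h1, h2, h3, h4, h5, h6⟩ => ⟨⟨s, h1, y, h2, h3, h4, ζ, h5, h6⟩⟩⟩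

/-- **The number of zeros** of `x` (without multiplicities) is the number of cycles of `π`, if there are
`[F : K(x)]` embeddings; if `π` is the identity, all zeros are simple. Proved in `H94Genus`. -/
theorem number_of_zeros {K F C ι : Type*} [Field K] [Field F] [Algebra K F] [Field C] [Algebra K C]
    [CharZero K] [IsAlgClosed K] [H94.FunField K F] [Finite ι] {x : F} (hx : Transcendental K x)
    (hcard : Nat.card ι = finrank K⟮x⟯ F) {e : ℕ} :
    (∀ π : Equiv.Perm ι, H94.LocalEmb K F C ι x e π →
      Nat.card {v : Place K F // 0 < v.ord x} =
        Nat.card (Quotient (Equiv.Perm.SameCycle.setoid π))) ∧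
    (H94.LocalEmb K F C ι x e 1 → ∀ v : Place K F, 0 < v.ord x → v.ord x = 1) :=
  ⟨fun _ d => d.card_places hx hcard, fun d => d.ord_eq_one hx hcard⟩

/-! ## 3. Differentials -/

/-- **One differential is enough**: the module `Ω[F⁄K]` of differentials has dimension one over `F` and
is generated by `dx`, for every transcendental `x`. Proved in `H94Kaehler` (a derivation which kills `x`
is zero, because `F` is separable over `K(x)`). -/
theorem differentials {K F : Type*} [Field K] [Field F] [Algebra K F] [CharZero K]
    [H94.FunField K F] {x : F} (hx : Transcendental K x) :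
    KaehlerDifferential.D K F x ≠ 0 ∧ Submodule.span F {KaehlerDifferential.D K F x} = ⊤ ∧
      finrank F (Ω[F⁄K]) = 1 :=
  ⟨H94.D_ne_zero hx, H94.span_D_eq_top hx, H94.finrank_kaehler⟩

/-- **The derivation `d/dx`** (`H94.dd hx`) is defined by `df = (df/dx) dx`; `dx/dx = 1`, and
`(df/dy) (dy/dx) = df/dx`. Defined in `H94OrdDiff`. -/
theorem derivative {K F : Type*} [Field K] [Field F] [Algebra K F] [CharZero K] [H94.FunField K F]
    {x y : F} (hx : Transcendental K x) (hy : Transcendental K y) (f : F) :
    H94.dd hx f • KaehlerDifferential.D K F x = KaehlerDifferential.D K F f ∧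
    H94.dd hx x = 1 ∧ H94.dd hy f * H94.dd hx y = H94.dd hx f :=
  ⟨H94.dd_smul hx f, H94.dd_self hx, H94.dd_mul_dd hx hy f⟩

/-- **Taylor expansion.** If `t` is a uniformizer at `v` (`v.ord t = 1`) and `f` is regular at `v`, then
`f = p(t) + t^N g` with a polynomial `p` and a regular `g`, for every `N`. Proved in `H94OrdDiff`. -/
theorem taylor {K F : Type*} [Field K] [Field F] [Algebra K F] [IsAlgClosed K] [H94.FunField K F]
    (v : Place K F) {t : F} (ht : v.ord t = 1) {f : F} (hf : f ∈ v.toValuationSubring) (N : ℕ) :
    ∃ (p : Polynomial K) (g : F), g ∈ v.toValuationSubring ∧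
      f = Polynomial.aeval t p + t ^ N * g :=
  H94.exists_poly_approx v ht hf N

/-- **`d/dt` maps the valuation ring to itself** if `t` is a uniformizer at `v`. Idea: the integral
closure of `K[t]` is finite over `K[t]`, so there is a `c` such that `t^c df/dt` is regular for all regular
`f` (first part); then apply `d/dt` to the expansion `f = p(t) + t^(c+1) g` (previous theorem). Proved in
`H94OrdDiff`. -/
theorem derivative_regular {K F : Type*} [Field K] [Field F] [Algebra K F] [CharZero K]
    [IsAlgClosed K] [H94.FunField K F] (v : Place K F) {t : F} (ht : v.ord t = 1)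
    (htr : Transcendental K t) :
    (∃ c : ℕ, ∀ f ∈ v.toValuationSubring, t ^ c * H94.dd htr f ∈ v.toValuationSubring) ∧
    ∀ f ∈ v.toValuationSubring, H94.dd htr f ∈ v.toValuationSubring :=
  ⟨H94.exists_bound v ht, fun _ hf => H94.dd_mem v ht hf⟩

/-- **The order of a derivative**: `v.ord (dy/dt) = v.ord y - 1` if `v.ord y ≠ 0` and `t` is a uniformizer
at `v`; here characteristic zero is used. Proved in `H94OrdDiff`. -/
theorem order_of_derivative {K F : Type*} [Field K] [Field F] [Algebra K F] [CharZero K]
    [IsAlgClosed K] [H94.FunField K F] (v : Place K F) {t : F} (ht : v.ord t = 1)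
    (htr : Transcendental K t) {y : F} (hy : v.ord y ≠ 0) :
    v.ord (H94.dd htr y) = v.ord y - 1 ∧ H94.dd htr y ≠ 0 :=
  H94.ord_dd v ht hy

/-- **The order of a differential** at `v` can be computed with any uniformizer `t`: it is `v.ord f` if
`ω = f dt`; and it is additive. (In the definition one uniformizer is chosen.) Proved in
`H94OrdDiff`. -/
theorem order_of_differential {K F : Type*} [Field K] [Field F] [Algebra K F] [CharZero K]
    [IsAlgClosed K] [H94.FunField K F] (v : Place K F) :
    (∃ t : F, v.ord t = 1) ∧
    (∀ t : F, v.ord t = 1 → ∀ (ω : Ω[F⁄K]) (f : F), ω = f • KaehlerDifferential.D K F t →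
      v.ordDifferential ω = v.ord f) ∧
    ∀ g : F, g ≠ 0 → ∀ ω : Ω[F⁄K], ω ≠ 0 →
      v.ordDifferential (g • ω) = v.ord g + v.ordDifferential ω :=
  ⟨H94.exists_ord_eq_one v, fun _ ht _ _ h => H94.ordDifferential_eq v ht h,
    fun _ hg _ hω => H94.ordDifferential_smul' v hg hω⟩

/-- **The order of `dx`**: it is `e - 1` if `x - a` has a zero of order `e` at `v`, and `- e - 1` if `x` has
a pole of order `e` at `v`. Proved in `H94OrdDiff`. -/
theorem order_of_dx {K F : Type*} [Field K] [Field F] [Algebra K F] [CharZero K] [IsAlgClosed K]
    [H94.FunField K F] (v : Place K F) (x : F) :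
    (∀ a : K, 0 < v.ord (x - algebraMap K F a) →
      v.ordDifferential (KaehlerDifferential.D K F x) = v.ord (x - algebraMap K F a) - 1) ∧
    (v.ord x < 0 → v.ordDifferential (KaehlerDifferential.D K F x) = v.ord x - 1) :=
  ⟨fun _ h => H94.ordDifferential_D_sub v h.ne', fun h => H94.ordDifferential_D v h.ne⟩

/-- **Canonical divisors**: `dx` has order zero at almost all places (`x` is ramified at finitely many
places only), hence every nonzero differential has a divisor. Proved in `H94GenusFF`. -/
theorem canonical_divisors {K F : Type*} [Field K] [Field F] [Algebra K F] [CharZero K]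
    [IsAlgClosed K] [H94.FunField K F] :
    (∀ x : F, Transcendental K x →
      {v : Place K F | v.ordDifferential (KaehlerDifferential.D K F x) ≠ 0}.Finite) ∧
    ∀ ω : Ω[F⁄K], ω ≠ 0 → ∃ D : Divisor K F, ∀ v : Place K F, D v = v.ordDifferential ω :=
  ⟨fun _ hx => H94.finite_ramified hx, (H94.hasCanonicalDivisor K F).exists_divisor⟩

/-! ## 4. The formula of Riemann and Hurwitz -/

/-- The degree of the divisor of a differential does not depend on the differential, because the
divisor of a function has degree zero. Proved in `H94RiemannHurwitz`. -/
theorem degree_independent {K F : Type*} [Field K] [Field F] [Algebra K F] [CharZero K]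
    [IsAlgClosed K] [H94.FunField K F] {x : F} (hx : Transcendental K x) {ω : Ω[F⁄K]} (hω : ω ≠ 0)
    (Dx Dω : Divisor K F)
    (hDx : ∀ v : Place K F, Dx v = v.ordDifferential (KaehlerDifferential.D K F x))
    (hDω : ∀ v : Place K F, Dω v = v.ordDifferential ω) :
    Divisor.degree Dω = Divisor.degree Dx :=
  H94.degree_canonical_eq hx hω Dx Dω hDx hDω

/-- **The degree of `dx`.** If `x` is unramified outside `S ∪ {∞}`, the divisor of `dx` has degree
`∑_{a ∈ S} (n - #{x = a}) - n - #{poles of x}`, `n = [F : K(x)]`: sum the orders of `order_of_dx` with
`zeros_and_poles`. Proved in `H94RiemannHurwitz`; this is the form of Riemann-Hurwitz used in S24. -/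
theorem degree_of_dx {K F : Type*} [Field K] [Field F] [Algebra K F] [CharZero K] [IsAlgClosed K]
    [H94.FunField K F] {x : F} (hx : Transcendental K x) (S : Finset K)
    (hS : ∀ a ∉ S, ∀ v : Place K F, 0 < v.ord (x - algebraMap K F a) →
      v.ord (x - algebraMap K F a) = 1) (Dx : Divisor K F)
    (hDx : ∀ v : Place K F, Dx v = v.ordDifferential (KaehlerDifferential.D K F x)) :
    Divisor.degree Dx = ∑ a ∈ S, ((finrank K⟮x⟯ F : ℤ) -
        Nat.card {v : Place K F // 0 < v.ord (x - algebraMap K F a)}) -
      finrank K⟮x⟯ F - Nat.card {v : Place K F // 0 < v.ord x⁻¹} :=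
  H94.degree_div_dx hx S hS Dx hDx

/-- **The genus from the monodromy.** Suppose that `F` has `n = [F : K(x)]` expansions with monodromy
(`localEmb_iff`) above every point of the line: `π₀` above `x = 0`, `π₁` above `x = b`, `π₂` above `x = ∞`,
and the identity elsewhere. Then `2 g - 2 = n - c(π₀) - c(π₁) - c(π₂)`, where `c` is the number of cycles
(`genus` is a natural number, hence the form of the statement; that the right side is even and not
less than `-2` is `genusFormula_natural` in `GuideModularCurves`). Proved in `H94Genus`; applied in
`H94S24` to `x = j`, `b = 1728` with the permutations `S T`, `S`, `T` of `SL(2, ℤ) / Γ₀(N)`. -/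
theorem genus_from_monodromy {K F C ι : Type*} [Field K] [Field F] [Algebra K F] [Field C]
    [Algebra K C] [CharZero K] [IsAlgClosed K] [H94.FunField K F] [Finite ι]
    [HasCanonicalDivisor (K := K) (F := F)] {x : F} (hx : Transcendental K x)
    (hcard : Nat.card ι = finrank K⟮x⟯ F) {b : K} (hb : b ≠ 0) {e₀ e₁ e₂ : ℕ}
    {π₀ π₁ π₂ : Equiv.Perm ι} (h₀ : Nonempty (H94.LocalEmb K F C ι x e₀ π₀))
    (h₁ : Nonempty (H94.LocalEmb K F C ι (x - algebraMap K F b) e₁ π₁))
    (h₂ : Nonempty (H94.LocalEmb K F C ι x⁻¹ e₂ π₂))
    (h : ∀ a : K, a ≠ 0 → a ≠ b → Nonempty (H94.LocalEmb K F C ι (x - algebraMap K F a) 1 1)) :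
    genus K F = ((Nat.card ι : ℤ) - Nat.card (Quotient (Equiv.Perm.SameCycle.setoid π₀)) -
      Nat.card (Quotient (Equiv.Perm.SameCycle.setoid π₁)) -
      Nat.card (Quotient (Equiv.Perm.SameCycle.setoid π₂)) + 2).toNat / 2 :=
  H94.genus_eq_of_localEmb hx hcard hb h₀ h₁ h₂ h

/-! ## 5. The degree of `dx` is `2 g - 2` for the genus of the Riemann-Roch theorem

`n = [F : K(y)]`, `E = K(y)` or any subfield over which `F` is finite; `H94.GF.Above v w` says that the
place `w` of `F` lies above the place `v` of `E`; `Algebra.trace E F` is the trace. -/

/-- **Places above a place.** `w` lies above `v` if the ring of `v` is the intersection of the ring of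
`w` with `E`. Every place of `F` lies above a place of `E`, and there are finitely many places above
`v` (`π` is any function with a zero at `v`). Proved in `H94GF1`. -/
theorem above {K E F : Type*} [Field K] [Field E] [Field F] [Algebra K E] [Algebra K F] [Algebra E F]
    [IsScalarTower K E F] [IsAlgClosed K] [IsFF K E] [IsFF K F] [FiniteDimensional E F] :
    (∀ (v : Place K E) (w : Place K F), H94.GF.Above v w ↔
      ∀ e : E, e ∈ v.toValuationSubring ↔ algebraMap E F e ∈ w.toValuationSubring) ∧
    (∀ w : Place K F, ∃ v : Place K E, H94.GF.Above v w) ∧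
    ∀ (v : Place K E) (π : E), v.adicValuation π < 1 → Transcendental K (algebraMap E F π) →
      {w : Place K F | H94.GF.Above v w}.Finite :=
  ⟨fun _ _ => Iff.rfl, H94.GF.exists_below, fun _ _ h1 h2 => H94.GF.finite_above h1 h2⟩

/-- **A trace which does not vanish.** If `h` is `1` at the place `w₀` above `v` and `0` at all other
places above `v`, its trace does not vanish at `v`: its value there is the number of the embeddings of
`F` in an algebraic closure of `E` which belong to `w₀`, and the characteristic is zero. Proved in
`H94GF1`. -/
theorem trace_ne_zero {K E F : Type*} [Field K] [Field E] [Field F] [Algebra K E] [Algebra K F]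
    [Algebra E F] [IsScalarTower K E F] [CharZero K] [FiniteDimensional E F]
    [Algebra.IsSeparable E F] [IsFF K F] (v : Place K E) (w₀ : Place K F)
    (hw : H94.GF.Above v w₀) {h : F} (h1 : w₀.adicValuation (h - 1) < 1)
    (h2 : ∀ w : Place K F, w ≠ w₀ → H94.GF.Above v w → w.adicValuation h < 1) :
    ¬ v.adicValuation (Algebra.trace E F h) < 1 :=
  H94.GF.not_trace_lt_one v w₀ hw h1 h2

/-- **The exponent of the different** is at most `e - 1`: if `Tr(f g)` is regular at `v` for all `g`
which have poles of order at most `D w` at the places `w` above `v`, then `f` has at every place `w₀`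
above `v` a pole of order at most `(e - 1) - D w₀`, where `e` is the ramification index of `w₀`. By the
previous theorem and approximation. Proved in `H94GF1`. -/
theorem different_bound {K E F : Type*} [Field K] [Field E] [Field F] [Algebra K E] [Algebra K F]
    [Algebra E F] [IsScalarTower K E F] [CharZero K] [IsAlgClosed K] [FiniteDimensional E F]
    [Algebra.IsSeparable E F] [IsFF K F] (v : Place K E) {π : E}
    (hπ : v.adicValuation π = exp (-1 : ℤ)) (htr : Transcendental K (algebraMap E F π))
    (D : Divisor K F) {f : F}
    (hf : ∀ g : F, (∀ w : Place K F, H94.GF.Above v w → w.adicValuation g ≤ exp (D w)) →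
      v.adicValuation (Algebra.trace E F (f * g)) ≤ 1)
    (w₀ : Place K F) (hw : H94.GF.Above v w₀) :
    w₀.adicValuation f ≤ exp (w₀.ord (algebraMap E F π) - 1 - D w₀) :=
  H94.GF.dual_bound v hπ htr D hf w₀ hw

/-- **A divisor of degree `g - 1` without functions**: start with a divisor of large degree and remove
places which lower the dimension of `L(D)`, until it is zero. Proved in `H88RH` from the theorem of
Riemann. -/
theorem exists_divisor_without_functions (K F : Type*) [Field K] [Field F] [Algebra K F]
    [IsAlgClosed K] [H94.FunField K F] :
    ∃ D : Divisor K F, Divisor.degree D = (genusFF K F : ℤ) - 1 ∧ riemannRochSpace D = ⊥ :=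
  H88.exists_nonspecial H94.riemann_pkg

/-- **A basis without denominators.** Let `L(D) = 0`, `Z` the divisor of the zeros of `y`, and `b` a basis
of `F` over `K(y)` in `L(D + Z)`. If `g` has poles of order at most `(D + Z) w` at the places `w` above
the place `v` of `K(y)`, the coordinates of `g` with respect to `b` are regular at `v`. Idea: otherwise
a linear combination of the `b_i` with constant coefficients would vanish on the fibre `Z'` above `v`,
but `L(D + Z - Z')` is isomorphic to `L(D) = 0`. Proved in `H94GF2`. -/
theorem coordinates_regular {K F : Type*} [Field K] [Field F] [Algebra K F] [IsAlgClosed K]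
    [IsFF K F] {y : F} (hy : Transcendental K y) {D : Divisor K F} (hD : riemannRochSpace D = ⊥)
    {ι : Type*} [Fintype ι] (b : Basis ι K⟮y⟯ F)
    (hb : ∀ i, b i ∈ riemannRochSpace (D + (poleDiv y⁻¹ : Divisor K F))) (v : Place K K⟮y⟯) {g : F}
    (hg : ∀ w : Place K F, H94.GF.Above v w →
      w.adicValuation g ≤ exp ((D + (poleDiv y⁻¹ : Divisor K F)) w)) (j : ι) :
    v.adicValuation (b.repr g j) ≤ 1 :=
  H94.GF.repr_le_one hy hD b hb v hg j

/-- **The second half of Riemann-Hurwitz**: `2 g - 2 + 2 n ≤ deg R` for every divisor `R` which is at
least `e - 1` at every place, `e` the ramification index over the `y`-line, `n = [F : K(y)]`. Proof: let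
`D` be of degree `g - 1` with `L(D) = 0`; then `L(D + Z)` has dimension `n`, and it contains a basis
`b` of `F` over `K(y)`. By `different_bound` and `coordinates_regular` the dual basis for the trace
form is in `L(R - D - Z)`. Its products with `y^i`, `-(m + 1) ≤ i ≤ 0`, show that `L(R - D + m Z)` has at
least the dimension `(m + 2) n`, and for large `m` its dimension is `deg R - 2 (g - 1) + m n`. Proved in
`H94GF2`. -/
theorem riemann_hurwitz_reverse {K F : Type*} [Field K] [Field F] [Algebra K F] [IsAlgClosed K]
    [IsFF K F] [CharZero K] {y : F} (hy : Transcendental K y) (R : Divisor K F)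
    (h0 : ∀ (w : Place K F) (c : K), 0 < w.ord (y - algebraMap K F c) →
      w.ord (y - algebraMap K F c) - 1 ≤ R w)
    (h1 : ∀ w : Place K F, w.ord y < 0 → - w.ord y - 1 ≤ R w) :
    2 * (genusFF K F : ℤ) - 2 + 2 * finrank K⟮y⟯ F ≤ Divisor.degree R :=
  H94.GF.rh_ge hy R h0 h1

/-- **The degree of a canonical divisor** is `2 g - 2`, `g` the genus of the Riemann-Roch theorem (stated
for `dx`; all differentials give the same degree by `degree_independent`). Proved in `H94GenusFF` from
the previous theorem and the inequality `riemann_hurwitz_inequality` of `GuideIgusa`, applied to the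
divisor of `dx` plus twice the divisor of the poles of `x`. Therefore both genera agree
(`genus_eq_genusFF` in `GuideModularCurves`). -/
theorem degree_of_dx_eq {K F : Type*} [Field K] [Field F] [Algebra K F] [CharZero K] [IsAlgClosed K]
    [H94.FunField K F] {x : F} (hx : Transcendental K x) (Dx : Divisor K F)
    (hDx : ∀ v : Place K F, Dx v = v.ordDifferential (KaehlerDifferential.D K F x)) :
    Divisor.degree Dx = 2 * (genusFF K F : ℤ) - 2 :=
  H94.degree_div_dx_eq_genusFF hx Dx hDx

end Fermat.Agent.Guide.Ramification
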