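import Fermat.Agent.H99C7

/-!
# Guide: the Eisenstein series of `Γ₀(N)` for real `s → 1+`, by elementary estimates

**Statement served:** S47 (and only S47), block (T): the non vanishing of the period.  Companion of
`GuideOctT2`, section 4, which states the three results of this part (`eisenstein_estimate`,
`unfolding`, `bounded_of_period_zero`).  This file contains the steps of their proofs, in the order
of the modules `H99C1` to `H99C7`.  In prose: NOTES.md, section 8, notes [404] and [437].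

**What is needed.**  `f` is a function on the upper half plane, invariant under `Γ₀(N)`, decreasing
at all cusps, with integral zero over `Γ₀(N) \ ℍ`.  Then `∫ f(τ) (Im τ)^s` over the strip
`0 ≤ Re τ < 1` is bounded for `1 < s ≤ 2`.  Classically one uses that the Eisenstein series of
`Γ₀(N)` has a pole at `s = 1` with constant residue.  Here nothing is continued analytically, and
no residue is computed: it is enough to know that for `1 < s ≤ 2` the Eisenstein series, multiplied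
by a zeta sum, is a number which depends on `s` only, plus an error which is bounded by the square
of the height, uniformly in `s`.  This is proved by comparing sums over the integers with
integrals:

1. one row of the lattice: `∑_d ((a + d)² + b²)^{-s}` against `∫ (x² + b²)^{-s} dx`
   (`row_integral`, `step_estimate`, `row_estimate`);
2. the sum over the lattice `ℤ z + ℤ` (`term_in_row` to `level_one_estimate`);
3. invariance under `SL₂(ℤ)` and comparison of heights (`lattice_sum_invariant` to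
   `scaled_estimate`);
4. level `N`: the condition `N ∣ c`, `(d, N) = 1` by the Möbius function (`moebius_weight` to
   `level_estimate`);
5. from all pairs to coprime pairs (`height_of_translate` to `zeta_mul_eisenstein`);
6. unfolding (`coset_representatives` to `unfolding_integrable`);
7. the bound (`exists_large_height` to `product_bound`).

**Notation.**  For a pair `p = (c, d)` of integers and `z = x + i y` the term of the lattice sum is
`(y / |c z + d|²)^s = (y / ((c x + d)² + (c y)²))^s` (`H99C.tm x y s p`); the term of `p = 0` is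
zero.  `H99C.Gs x y s` is the sum over all `p`, `H99C.Bs s` the number `∫ (1 + x²)^{-s} dx`,
`H99C.Zs t` the sum `∑ |n|^{-t}` over the integers (`n = 0` contributes zero), and
`H99C.Ks s = Bs s · Zs (2 s - 1)`.  Coprime pairs are the elements of `H99C.CP`, those with `N ∣ c`
the elements of `H99C.CPN N`; `H99C.sec r ∈ SL₂(ℤ)` has the bottom row `r`.  Powers are powers of
real numbers with real exponents.

Text by helper99.
-/

set_option autoImplicit false

noncomputable section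

open UpperHalfPlane MeasureTheory ModularGroup Set
open scoped MatrixGroups ENNReal

namespace Fermat.Agent.Guide.RealEisenstein

/-! ## 1. One row -/

/-- **The integral of a row.**  For `b > 0` and `s ≥ 1` the integral of `(x² + b²)^{-s}` over the
real line is `b^{1 - 2 s} B(s)` with `B(s) = ∫ (1 + x²)^{-s} dx`, and `0 ≤ B(s) ≤ π`.
(`H99C2`; substitution `x = b t`.) -/
theorem row_integral {s b : ℝ} (hb : 0 < b) (hs : 1 ≤ s) :
    Integrable (fun x : ℝ => (x ^ 2 + b ^ 2) ^ (-s)) ∧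
      ∫ x : ℝ, (x ^ 2 + b ^ 2) ^ (-s) = b ^ (1 - 2 * s) * H99C.Bs s ∧
      0 ≤ H99C.Bs s ∧ H99C.Bs s ≤ Real.pi :=
  ⟨H99C.integrable_hk hb hs, H99C.integral_hk hb, H99C.Bs_nonneg s, H99C.Bs_le hs⟩

/-- **One step.**  The value of `(x² + b²)^{-s}` at `p` differs from its integral over `(p, p + 1]`
by at most `s / b` times this integral.  Proof (`H99C2`): the derivative of the function is at most
`s / b` times the function. -/
theorem step_estimate {s b : ℝ} (hb : 0 < b) (hs : 1 ≤ s) (p : ℝ) :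
    |(p ^ 2 + b ^ 2) ^ (-s) - ∫ x in Ioc p (p + 1), (x ^ 2 + b ^ 2) ^ (-s)| ≤
      s / b * ∫ x in Ioc p (p + 1), (x ^ 2 + b ^ 2) ^ (-s) :=
  H99C.step_estimate hb hs p

/-- **The sum over a row.**  The sum of `((a + d)² + b²)^{-s}` over `d ∈ ℤ` differs from the
integral `b^{1 - 2 s} B(s)` by at most `s b^{-2 s} B(s)`, for every `a`.  (`H99C2`; sum of the
steps.) -/
theorem row_estimate {s b : ℝ} (hb : 0 < b) (hs : 1 ≤ s) (a : ℝ) :
    (Summable fun d : ℤ => ((a + d) ^ 2 + b ^ 2) ^ (-s)) ∧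
      |∑' d : ℤ, ((a + d) ^ 2 + b ^ 2) ^ (-s) - b ^ (1 - 2 * s) * H99C.Bs s| ≤
        s * b ^ (-2 * s) * H99C.Bs s :=
  H99C.row_estimate hb hs a

/-! ## 2. The lattice sum -/

/-- **The terms of a row.**  For `c ≠ 0` the term of `(c, d)` is `y^s` times the function of
section 1 with `b = |c| y` at `c x + d`; for `c = 0` it is `y^s |d|^{-2 s}`.  (`H99C3`.) -/
theorem term_in_row {x y s : ℝ} (hy : 0 < y) (hs : 0 < s) (d : ℤ) :
    (∀ c : ℤ, c ≠ 0 → H99C.tm x y s (c, d) =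
      y ^ s * ((c * x + d) ^ 2 + (|(c : ℝ)| * y) ^ 2) ^ (-s)) ∧
    H99C.tm x y s (0, d) = y ^ s * |(d : ℝ)| ^ (-(2 * s)) :=
  ⟨fun _ hc => H99C.tm_ne hy hc d, H99C.tm_zero hy hs d⟩

/-- **The zeta sum** `∑ |n|^{-t}` over the integers `n ≠ 0` is at most `2 (1 + 1 / (t - 1))` for
`t > 1`.  (`H99C3`; telescoping with `m^{1-t} - (m + 1)^{1-t} ≥ (t - 1) (m + 1)^{-t}`.) -/
theorem zeta_bound {t : ℝ} (ht : 1 < t) : ∑' n : ℤ, |(n : ℝ)| ^ (-t) ≤ 2 * (1 + 1 / (t - 1)) :=
  H99C.Zs_le ht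

/-- **One row of the lattice sum.**  The row of `c` is `B(s) y^{1-s} |c|^{-(2 s - 1)}` up to an
error `s B(s) y^{-s} |c|^{-2 s}`; for `c = 0` these two expressions are zero, and the row is
`y^s ∑ |d|^{-2 s} = y^s Z(2 s)`.  (`H99C3`.) -/
theorem row_of_lattice {x y s : ℝ} (hy : 0 < y) (hs : 1 < s) (c : ℤ) :
    |∑' d : ℤ, (y / ((c * x + d) ^ 2 + (c * y) ^ 2)) ^ s -
        H99C.Bs s * y ^ (1 - s) * |(c : ℝ)| ^ (-(2 * s - 1))| ≤
      (if c = 0 then y ^ s * H99C.Zs (2 * s) else 0) +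
        s * H99C.Bs s * y ^ (-s) * |(c : ℝ)| ^ (-(2 * s)) :=
  H99C.row_le hy hs c

/-- **The lattice sum.**  It differs from `B(s) y^{1-s} Z(2 s - 1)` by at most
`y^s Z(2 s) + s B(s) y^{-s} Z(2 s)`.  (`H99C3`; sum of the rows.) -/
theorem lattice_sum {x y s : ℝ} (hy : 0 < y) (hs : 1 < s) :
    |∑' p : ℤ × ℤ, (y / ((p.1 * x + p.2) ^ 2 + (p.1 * y) ^ 2)) ^ s -
        H99C.Bs s * y ^ (1 - s) * H99C.Zs (2 * s - 1)| ≤
      y ^ s * H99C.Zs (2 * s) + s * H99C.Bs s * y ^ (-s) * H99C.Zs (2 * s) :=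
  H99C.Gs_main hy hs

/-- **The constant and the power of `y`.**  `K(s) = B(s) Z(2 s - 1)` is at most `3 π / (s - 1)`, and
`y^{1-s}` differs from `1` by at most `4 (s - 1) y` for `y ≥ 1/2`.  So `K(s) y^{1-s}` may be
replaced by `K(s)` with an error `≤ 12 π y`: this is the only place where the pole at `s = 1` is
seen.  (`H99C3`.) -/
theorem constant_bound {s : ℝ} (hs : 1 < s) (hs2 : s ≤ 2) :
    (s - 1) * (H99C.Bs s * H99C.Zs (2 * s - 1)) ≤ 3 * Real.pi ∧
      ∀ y : ℝ, 1 / 2 ≤ y → |y ^ (1 - s) - 1| ≤ 4 * (s - 1) * y :=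
  ⟨H99C.Ks_le hs hs2, fun _ hy => H99C.rpow_sub_one_le hs hs2 hy⟩

/-- **Level one.**  There is a constant `C` such that for `1 < s ≤ 2`, all `x` and all `y ≥ 1/2` the
lattice sum differs from `K(s)` by at most `C y²`.  (`H99C3`.) -/
theorem level_one_estimate : ∃ C : ℝ, 0 < C ∧ ∀ s : ℝ, 1 < s → s ≤ 2 → ∀ x y : ℝ, 1 / 2 ≤ y →
    |∑' p : ℤ × ℤ, (y / ((p.1 * x + p.2) ^ 2 + (p.1 * y) ^ 2)) ^ s -
      H99C.Bs s * H99C.Zs (2 * s - 1)| ≤ C * y ^ 2 :=
  H99C.Gs_estimate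

/-! ## 3. Invariance and heights -/

/-- **Invariance.**  The lattice sum is invariant under `SL₂(ℤ)`: a matrix permutes the pairs
`(c, d)`.  (`H99C4`.) -/
theorem lattice_sum_invariant (g : SL(2, ℤ)) (z : ℍ) (s : ℝ) :
    H99C.Gs (g • z).re (g • z).im s = H99C.Gs z.re z.im s :=
  H99C.Gs_smul g z s

/-- **Heights of translates.**  If `Im (g z) ≥ 1/2`, then all translates of `z` have height at most
`4 Im (g z)`, more precisely `Im z / |c z + d|² ≤ 4 Im (g z)` for all `(c, d) ≠ 0`.  (`H99C4`; for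
`z` with `Im z ≥ 1/2` this is clear from `|c z + d|² ≥ (c Im z)²` and, for `c = 0`, from
`|d| ≥ 1`.) -/
theorem height_le (z : ℍ) (g : SL(2, ℤ)) (hg : 1 / 2 ≤ (g • z).im) (p : ℤ × ℤ) (hp : p ≠ 0) :
    z.im / Complex.normSq ((p.1 : ℂ) * z + p.2) ≤ 4 * (g • z).im :=
  H99C.im_div_le z g hg p hp

/-- **Heights of the multiples.**  `H99C.scl f hf z` is the point `f z` of the upper half plane.
If `Im (g z) ≥ 1/2`, some translate of `f z` has height between `1/2` and `4 f Im (g z)`.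
(`H99C4`.) -/
theorem height_of_multiple (f : ℕ) (hf : 0 < f) (z : ℍ) (g : SL(2, ℤ)) (hg : 1 / 2 ≤ (g • z).im) :
    (H99C.scl f hf z).re = f * z.re ∧ (H99C.scl f hf z).im = f * z.im ∧
      ∃ g' : SL(2, ℤ), 1 / 2 ≤ (g' • H99C.scl f hf z).im ∧
        (g' • H99C.scl f hf z).im ≤ f * (4 * (g • z).im) :=
  ⟨H99C.scl_re f hf z, H99C.scl_im f hf z, H99C.exists_scl f hf z g hg⟩

/-- **The estimate at all points.**  For every `z` and every `g` with `Im (g z) ≥ 1/2` the lattice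
sum at `f z` differs from `K(s)` by at most `C f² (Im g z)²`, with one constant `C`.  (`H99C4`, from
`level_one_estimate` and the last three theorems.) -/
theorem scaled_estimate : ∃ C : ℝ, 0 < C ∧ ∀ f : ℕ, 0 < f → ∀ s : ℝ, 1 < s → s ≤ 2 →
    ∀ (z : ℍ) (g : SL(2, ℤ)), 1 / 2 ≤ (g • z).im →
      |H99C.Gs (f * z.re) (f * z.im) s - H99C.Bs s * H99C.Zs (2 * s - 1)| ≤
        C * f ^ 2 * (g • z).im ^ 2 :=
  H99C.Gs_scl_estimate

/-! ## 4. Level `N` -/

open Classical in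
/-- **The condition of level `N`.**  The weight `wN N (c, d)`, one if `N ∣ c` and `(d, N) = 1` and
zero otherwise, is `∑_{e ∣ N} μ(e) vN N e (c, d)`, where `vN N e (c, d)` is one if `N ∣ c`, `e ∣ d`
and zero otherwise.  (`H99C4`.) -/
theorem moebius_weight (N : ℕ) (hN : 0 < N) (p : ℤ × ℤ) :
    (if (N : ℤ) ∣ p.1 ∧ IsCoprime p.2 (N : ℤ) then (1 : ℝ) else 0) =
      ∑ e ∈ N.divisors, (ArithmeticFunction.moebius e : ℝ) *
        (if (N : ℤ) ∣ p.1 ∧ (e : ℤ) ∣ p.2 then 1 else 0) := by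
  have h := H99C.wN_eq N hN p
  simpa only [H99C.wN, H99C.vN] using h

/-- **One divisor.**  For `N = e f` the pairs with `N ∣ c`, `e ∣ d` are the pairs `(N c', e d')`,
and `N c' z + e d' = e (c' f z + d')`: their sum is `(N e)^{-s}` times the lattice sum at `f z`.
(`H99C4`.) -/
theorem sum_of_divisor {x y s : ℝ} {N e f : ℕ} (he : 0 < e) (hf : 0 < f) (hN : N = e * f)
    (hy : 0 < y) : ∑' p, H99C.vN N e p * H99C.tm x y s p =
      ((N : ℝ) * e) ^ (-s) * H99C.Gs (f * x) (f * y) s :=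
  H99C.tsum_vN he hf hN hy

/-- **The sum of level `N`** over all pairs with `N ∣ c`, `(d, N) = 1`.  (`H99C4`.) -/
theorem sum_of_level {x y s : ℝ} {N : ℕ} (hN : 0 < N) (hy : 0 < y) (hs : 1 < s) :
    ∑' p, H99C.wN N p * H99C.tm x y s p =
      ∑ e ∈ N.divisors, (ArithmeticFunction.moebius e : ℝ) *
        (((N : ℝ) * e) ^ (-s) * H99C.Gs (((N / e : ℕ) : ℝ) * x) (((N / e : ℕ) : ℝ) * y) s) :=
  H99C.tsum_wN hN hy hs

/-- **The estimate of level `N`** for this sum: it differs from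
`K_N(s) = ∑_{e ∣ N} μ(e) (N e)^{-s} K(s)` by at most `C (Im g z)²`, for all `g ∈ SL₂(ℤ)` with
`Im (g z) ≥ 1/2`, uniformly in `1 < s ≤ 2`.  (`H99C4`, from `scaled_estimate`.) -/
theorem level_estimate (N : ℕ) (hN : 0 < N) : ∃ C : ℝ, 0 < C ∧ ∀ s : ℝ, 1 < s → s ≤ 2 →
    ∀ (z : ℍ) (g : SL(2, ℤ)), 1 / 2 ≤ (g • z).im →
      |∑' p, H99C.wN N p * H99C.tm z.re z.im s p -
        ∑ e ∈ N.divisors, (ArithmeticFunction.moebius e : ℝ) *
          (((N : ℝ) * e) ^ (-s) * (H99C.Bs s * H99C.Zs (2 * s - 1)))| ≤ C * (g • z).im ^ 2 :=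
  H99C.wN_estimate N hN

/-! ## 5. Coprime pairs -/

/-- **Terms as heights.**  For a coprime pair `r` the term of `r` in the lattice sum is the power
`(Im σ_r z)^s`, `σ_r = H99C.sec r` a matrix with bottom row `r`.  (`H99C5`.) -/
theorem height_of_translate (r : H99C.CP) (z : ℍ) (s : ℝ) :
    (H99C.sec r : Matrix (Fin 2) (Fin 2) ℤ) 1 = r.1 ∧
      (H99C.sec r • z).im ^ s = H99C.tm z.re z.im s (r.1 0, r.1 1) :=
  ⟨H99C.sec_row r, H99C.sec_im r z s⟩

/-- **Multiples of coprime pairs.**  A positive integer `k` prime to `N` and a coprime pair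
`r = (c, d)` with `N ∣ c` give the pair `k r`, of greatest common divisor `k`; the term of `k r` is
`k^{-2 s} (Im σ_r z)^s`.  (`H99C5`.) -/
theorem term_of_multiple {N : ℕ} {z : ℍ} {s : ℝ} (p : H99C.KK N × H99C.CPN N) :
    H99C.mulPair N p = (((p.1 : ℕ) : ℤ) * p.2.1.1 0, ((p.1 : ℕ) : ℤ) * p.2.1.1 1) ∧
      Int.gcd (H99C.mulPair N p).1 (H99C.mulPair N p).2 = (p.1 : ℕ) ∧
      H99C.tm z.re z.im s (H99C.mulPair N p) =
        ((p.1 : ℕ) : ℝ) ^ (-(2 * s)) * (H99C.sec p.2.1 • z).im ^ s :=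
  ⟨rfl, H99C.gcd_mulPair N p, H99C.tm_mulPair p⟩

/-- **From coprime pairs to all pairs.**  The zeta sum `L(s) = ∑ k^{-2 s}` over the `k` prime to `N`
times the Eisenstein series is the sum of level `N` of section 4, and `L(s) ≥ 1`.  With
`level_estimate` this is `GuideOctT2.eisenstein_estimate`.  (`H99C5`.) -/
theorem zeta_mul_eisenstein {N : ℕ} (z : ℍ) {s : ℝ} (hs : 1 < s) :
    (∑' k : {k : ℕ // 0 < k ∧ Nat.Coprime k N}, ((k : ℕ) : ℝ) ^ (-(2 * s))) *
        (∑' r : H99C.CPN N, (H99C.sec r.1 • z).im ^ s) =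
      ∑' p, H99C.wN N p * H99C.tm z.re z.im s p ∧
    1 ≤ ∑' k : {k : ℕ // 0 < k ∧ Nat.Coprime k N}, ((k : ℕ) : ℝ) ^ (-(2 * s)) :=
  ⟨H99C.LN_mul_EN z hs, H99C.one_le_LN N hs⟩

/-! ## 6. Unfolding -/

/-- **Representatives.**  Every element of `Γ₀(N)` is `T^n σ_r` for exactly one `n ∈ ℤ` and one
coprime pair `r` with `N ∣ c`.  (`H99C1`, `H99C6`; matrices with the same bottom row differ by a
power of `T`.) -/
theorem coset_representatives (N : ℕ) :
    ∃ E : H99C.CPN N × ℤ ≃ CongruenceSubgroup.Gamma0 N,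
      ∀ p, (E p : SL(2, ℤ)) = T ^ p.2 * H99C.sec p.1.1 :=
  ⟨H99C.gEquiv N, H99C.gEquiv_apply⟩

/-- **The strip** `0 ≤ Re τ < 1` meets every orbit of the translations `τ ↦ τ + n` exactly once.
(`H99C1`.) -/
theorem strip_meets_once (τ : ℍ) :
    ∑' n : ℤ, {τ : ℍ | 0 ≤ τ.re ∧ τ.re < 1}.indicator (1 : ℍ → ℝ≥0∞) (T ^ n • τ) = 1 :=
  H99C.tsum_indicator_strip τ

/-- **The identity of measures behind the unfolding.**  `χ` is a cut-off function of `Γ₀(N)`.  The
sum over `r` of the images of the measure `χ(τ) dx dy / y²` under `τ ↦ σ_r τ`, reduced to the strip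
by a translation (`H99C.red`), is the measure `dx dy / y²` on the strip.  (`H99C6`.) -/
theorem measure_identity {N : ℕ} {χ : ℍ → ℝ≥0∞} (hχm : Measurable χ)
    (hχ : ∀ τ, ∑' g : CongruenceSubgroup.Gamma0 N, χ ((g : SL(2, ℤ)) • τ) = 1) :
    Measure.sum (fun r : H99C.CPN N => ((volume : Measure ℍ).withDensity χ).map
      (fun τ => T ^ (-⌊(H99C.sec r.1 • τ).re⌋) • (H99C.sec r.1 • τ))) =
        (volume : Measure ℍ).restrict {τ : ℍ | 0 ≤ τ.re ∧ τ.re < 1} :=
  H99C.measure_cut_eq hχm hχ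

/-- **Unfolding for integrable functions.**  `u` invariant under `τ ↦ τ + 1` and integrable on the
strip: the sum over `r` of the integrals of `χ(τ) u(σ_r τ)` is the integral of `u` over the strip.
(`H99C6`; for nonnegative functions: `GuideOctT2.unfolding`.) -/
theorem unfolding_integrable {N : ℕ} {χ : ℍ → ℝ≥0∞} (hχm : Measurable χ)
    (hχ : ∀ τ, ∑' g : CongruenceSubgroup.Gamma0 N, χ ((g : SL(2, ℤ)) • τ) = 1) {u : ℍ → ℂ}
    (hum : Measurable u) (hT : ∀ (n : ℤ) τ, u (T ^ n • τ) = u τ)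
    (hu : IntegrableOn u {τ : ℍ | 0 ≤ τ.re ∧ τ.re < 1}) :
    HasSum (fun r : H99C.CPN N =>
        ∫ τ, u (H99C.sec r.1 • τ) ∂((volume : Measure ℍ).withDensity χ))
      (∫ τ in {τ : ℍ | 0 ≤ τ.re ∧ τ.re < 1}, u τ) :=
  H99C.hasSum_integral_cut hχm hχ hum hT hu

/-! ## 7. The bound -/

/-- **Every point has a translate of height at least `1/2`.**  (`H99C7`; the fundamental domain of
`SL₂(ℤ)`.) -/
theorem exists_large_height (τ : ℍ) : ∃ g : SL(2, ℤ), 1 / 2 ≤ (g • τ).im :=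
  H99C.exists_large τ

/-- **The norms.**  `f` invariant under `Γ₀(N)`: the sum over `r` of the integrals of
`χ(τ) |f(σ_r τ)| (Im σ_r τ)^s` is the integral of `χ |f|` times the Eisenstein series
(`H99C.uf f s τ = f(τ) (Im τ)^s`).  It is finite by `level_estimate` and the next theorem, as `f` is
bounded and `∫ χ < ∞`; so `f(τ) (Im τ)^s` is integrable on the strip.  (`H99C7`.) -/
theorem sum_of_norms {N : ℕ} {χ : ℍ → ℝ≥0∞} {f : ℍ → ℂ} (hχm : Measurable χ) (hf : Measurable f)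
    (hinv : ∀ g ∈ CongruenceSubgroup.Gamma0 N, ∀ τ, f (g • τ) = f τ) {s : ℝ} (hs : 1 < s) :
    ∑' r : H99C.CPN N, ∫⁻ τ, χ τ * ‖H99C.uf f s (H99C.sec r.1 • τ)‖ₑ =
      ∫⁻ τ, χ τ * (‖f τ‖ₑ * ENNReal.ofReal (∑' r : H99C.CPN N, (H99C.sec r.1 • τ).im ^ s)) :=
  H99C.tsum_lintegral_norm hχm hf hinv hs

/-- **The product of a decreasing function and an error term.**  If `|f(τ)| ≤ C₀ (Im g τ)^{-2}`
for all `g ∈ SL₂(ℤ)` and `|x| ≤ A (Im g τ)²` for all `g` with `Im (g τ) ≥ 1/2`, then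
`|f(τ)| |x| ≤ C₀ A`.  With `x = L(s) E(τ, s) - K_N(s)` and the vanishing of the period this gives
`GuideOctT2.bounded_of_period_zero`.  (`H99C7`.) -/
theorem product_bound {f : ℍ → ℂ} {C₀ : ℝ} (hC : 0 ≤ C₀)
    (hdec : ∀ (g : SL(2, ℤ)) τ, ‖f τ‖ ≤ C₀ * ((g • τ).im ^ 2)⁻¹) {A : ℝ} {τ : ℍ} {x : ℝ}
    (hx : ∀ g : SL(2, ℤ), 1 / 2 ≤ (g • τ).im → |x| ≤ A * (g • τ).im ^ 2) : ‖f τ‖ * |x| ≤ C₀ * A :=
  H99C.norm_mul_le hC hdec hx

end Fermat.Agent.Guide.RealEisenstein
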