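import Fermat.Agent.H33Cyclo
import Fermat.Agent.H32Burnside

/-!
# Equivariant maps from a residually irreducible representation (helper33)
-/

set_option autoImplicit false
set_option linter.unusedSectionVars false

open scoped TensorProduct

namespace Fermat.Agent.H33

local notation "Qb" => AlgebraicClosure ℚ
local notation "Gq" => AlgebraicClosure ℚ ≃ₐ[ℚ] AlgebraicClosure ℚ

variable {T : Type} [CommRing T] [IsLocalRing T] (ρ : GaloisRepAdic T)

theorem coord_mem_of_tmul_eq_zero {ι : Type*} [Fintype ι] (b : Module.Basis ι T ρ.V) {x : ρ.V}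
    (hx : (1 : IsLocalRing.ResidueField T) ⊗ₜ[T] x = 0) (i : ι) :
    b.repr x i ∈ IsLocalRing.maximalIdeal T := by
  have h1 := congrArg (fun y => (b.baseChange (IsLocalRing.ResidueField T)).repr y i) hx
  simp only [Module.Basis.baseChange_repr_tmul, map_zero, Finsupp.zero_apply] at h1
  rw [Algebra.smul_def, mul_one, IsLocalRing.ResidueField.algebraMap_eq,
    IsLocalRing.residue_eq_zero_iff] at h1
  exact h1

theorem eq_top_of_stable (h : ρ.residual.IsAbsolutelyIrreducible) (Ker : Submodule T ρ.V)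
    (hG : ∀ σ, ∀ v ∈ Ker, ρ.ρ σ v ∈ Ker) {v : ρ.V} (hv : v ∈ Ker)
    (hv' : (1 : IsLocalRing.ResidueField T) ⊗ₜ[T] v ≠ 0) : Ker = ⊤ := by
  classical
  have h1 : ∀ y : Module.End T ρ.V, y v ∈ Ker := by
    intro y
    have hy : y ∈ Submodule.span T (Set.range ρ.ρ) := by
      rw [H32.span_range_eq_top ρ h]; trivial
    induction hy using Submodule.span_induction with
    | mem y hy => obtain ⟨σ, rfl⟩ := hy; exact hG σ v hv
    | zero => exact Ker.zero_mem
    | add y z _ _ hy hz => exact Ker.add_mem hy hz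
    | smul c y _ hy => exact Ker.smul_mem c hy
  let b := Module.Free.chooseBasis T ρ.V
  obtain ⟨i, hi⟩ : ∃ i, b.repr v i ∉ IsLocalRing.maximalIdeal T := by
    by_contra hcon
    push Not at hcon
    apply hv'
    apply (b.baseChange (IsLocalRing.ResidueField T)).ext_elem
    intro i
    rw [Module.Basis.baseChange_repr_tmul, map_zero, Finsupp.zero_apply, Algebra.smul_def, mul_one,
      IsLocalRing.ResidueField.algebraMap_eq, IsLocalRing.residue_eq_zero_iff]
    exact hcon i
  rw [IsLocalRing.mem_maximalIdeal, mem_nonunits_iff, not_not] at hi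
  obtain ⟨u, hu⟩ := hi
  rw [eq_top_iff]
  intro w _
  let y : Module.End T ρ.V :=
    (LinearMap.toSpanSingleton T ρ.V w).comp (((u⁻¹ : Tˣ) : T) • b.coord i)
  have hy : y v = w := by
    show ((((u⁻¹ : Tˣ) : T) • b.coord i) v) • w = w
    rw [LinearMap.smul_apply, Module.Basis.coord_apply, ← hu, smul_eq_mul, Units.inv_mul, one_smul]
  rw [← hy]
  exact h1 y

variable {J : Type*} [AddCommGroup J] [DistribMulAction Gq J]

theorem exists_smul_ne (h : ρ.residual.IsAbsolutelyIrreducible) (s : ρ.V →+ J) (hs : s ≠ 0)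
    (hsG : ∀ σ v, s (ρ.ρ σ v) = σ • s v) {v : ρ.V}
    (hv' : (1 : IsLocalRing.ResidueField T) ⊗ₜ[T] v ≠ 0) : ∃ t : T, s (t • v) ≠ 0 := by
  by_contra hcon
  push Not at hcon
  let Ker : Submodule T ρ.V :=
    { carrier := {v | ∀ t : T, s (t • v) = 0}
      add_mem' := fun {x y} hx hy t => by rw [smul_add, map_add, hx t, hy t, add_zero]
      zero_mem' := fun t => by rw [smul_zero, map_zero]
      smul_mem' := fun c x hx t => by rw [smul_smul]; exact hx _ }
  have h1 : Ker = ⊤ := eq_top_of_stable ρ h Ker (fun σ v hv t => by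
    rw [← map_smul, hsG, hv t, smul_zero]) (v := v) hcon hv'
  apply hs
  ext w
  have h2 : w ∈ Ker := by rw [h1]; trivial
  have := h2 1
  rwa [one_smul] at this

theorem false_of_scalar {p : ℕ} (hp : p.Prime) (hp2 : p ≠ 2)
    (h : ρ.residual.IsAbsolutelyIrreducible) (hdet : ρ.DetIsCyclotomic p)
    {A : ValuationSubring Qb} (hA : A.LiesOverPrime p) (s : ρ.V →+ J) (hs : s ≠ 0)
    (hsG : ∀ σ v, s (ρ.ρ σ v) = σ • s v) {ζ : Qb} (hζ : IsPrimitiveRoot ζ p)
    (hI : ∀ σ ∈ A.inertiaSubgroupIn ℚ, ∀ a : ℕ, σ ζ = ζ ^ a → ∀ v, σ • s v = a • s v) :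
    False := by
  obtain ⟨σ, hσ, hσd⟩ := exists_inertia_isUnit_det ρ hp hp2 hdet A hA
  have : NeZero p := ⟨hp.ne_zero⟩
  obtain ⟨a, -, ha⟩ : ∃ a < p, ζ ^ a = σ ζ := by
    apply hζ.eq_pow_of_pow_eq_one
    rw [← map_pow, hζ.pow_eq_one, map_one]
  have hdetσ := hdet.2 1 σ a (fun μ hμ => by
    rw [pow_one] at hμ
    obtain ⟨i, -, rfl⟩ := hζ.eq_pow_of_pow_eq_one hμ
    rw [map_pow, ← ha, ← pow_mul, ← pow_mul, mul_comm])
  have hpm := hdet.1
  set κ := IsLocalRing.ResidueField T
  have hdetκ : IsLocalRing.residue T (LinearMap.det (ρ.ρ σ)) = (a : κ) := by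
    rw [← sub_eq_zero, ← map_natCast (IsLocalRing.residue T), ← map_sub,
      IsLocalRing.residue_eq_zero_iff]
    rw [pow_one] at hdetσ
    exact (Ideal.span_singleton_le_iff_mem _).mpr hpm hdetσ
  -- `σ` acts as `a` on the residual representation
  have hσV : ∀ v, (1 : κ) ⊗ₜ[T] (ρ.ρ σ v - (a : T) • v) = 0 := by
    intro v
    by_contra hne
    obtain ⟨t, ht⟩ := exists_smul_ne ρ h s hs hsG hne
    apply ht
    have e1 : t • (ρ.ρ σ v - (a : T) • v) = ρ.ρ σ (t • v) - a • (t • v) := by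
      rw [smul_sub, map_smul, smul_comm, Nat.cast_smul_eq_nsmul]
    rw [e1, map_sub, hsG, map_nsmul, hI σ hσ a ha.symm, sub_self]
  have hbc : (ρ.ρ σ).baseChange κ = (a : κ) • (LinearMap.id : κ ⊗[T] ρ.V →ₗ[κ] κ ⊗[T] ρ.V) := by
    apply LinearMap.ext
    intro y
    induction y using TensorProduct.induction_on with
    | zero => simp
    | add x y hx hy => rw [map_add, map_add, hx, hy]
    | tmul c v =>
      have h2 := hσV v
      rw [TensorProduct.tmul_sub, sub_eq_zero] at h2
      have h3 : ∀ w : ρ.V, c ⊗ₜ[T] w = c • ((1 : κ) ⊗ₜ[T] w) := fun w => by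
        rw [TensorProduct.smul_tmul', smul_eq_mul, mul_one]
      rw [LinearMap.baseChange_tmul, h3, h2, TensorProduct.tmul_smul, LinearMap.smul_apply,
        LinearMap.id_apply, h3 v]
      rw [Nat.cast_smul_eq_nsmul T, Nat.cast_smul_eq_nsmul κ, smul_comm c a]
  have hd2 := LinearMap.det_baseChange (A := κ) (ρ.ρ σ)
  rw [hbc, LinearMap.det_smul, LinearMap.det_id, mul_one, Module.finrank_baseChange,
    ρ.finrank_eq] at hd2
  have hd3 : (a : κ) ^ 2 = (a : κ) := by
    rw [hd2]
    exact hdetκ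
  have hu1 : (a : κ) ≠ 1 := by
    intro h1
    have h2 := hσd.map (IsLocalRing.residue T)
    rw [map_sub, hdetκ, h1, map_one, sub_self] at h2
    exact not_isUnit_zero h2
  have hu0 : (a : κ) ≠ 0 := by
    intro h1
    have h2 : IsUnit (LinearMap.det (ρ.ρ σ)) := ((Group.isUnit σ).map ρ.ρ).map LinearMap.det
    have h3 := h2.map (IsLocalRing.residue T)
    rw [hdetκ, h1] at h3
    exact not_isUnit_zero h3
  apply hu1
  rw [pow_two] at hd3
  exact mul_right_cancel₀ hu0 (hd3.trans (one_mul _).symm)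

end Fermat.Agent.H33
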