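/-
H7PReal: a Galois representation over a complete discrete valuation ring with absolutely irreducible
reduction is a saturated subrepresentation of any lattice satisfying its quadratic relations.
-/
import Mathlib
import Fermat.Agent.H32BLR
import Fermat.Agent.H32Burnside
import Fermat.Agent.H35VChi

set_option autoImplicit false
set_option linter.unusedSectionVars false

open IsLocalRing Module TensorProduct

namespace Fermat.Agent.H7.P

theorem sub_free {O : Type*} [CommRing O] [IsDomain O] [IsPrincipalIdealRing O] {V : Type*}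
    [AddCommGroup V] [Module O V] [Module.Free O V] [Module.Finite O V] (W : Submodule O V) :
    Module.Free O W := inferInstance

section

variable {p : ℕ} [Fact p.Prime] {O : Type} [CommRing O] [IsDomain O] [IsPrincipalIdealRing O]
  [IsLocalRing O] [Algebra ℤ_[p] O]
  {T : Type*} [AddCommGroup T] [Module ℤ_[p] T] [Module.Free ℤ_[p] T] [Module.Finite ℤ_[p] T]

/-- the action on a stable submodule -/
noncomputable def actSub {G : Type*} [Group G] (ρT : G →* Module.End ℤ_[p] T) (V : Submodule O (O ⊗[ℤ_[p]] T))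
    (hst : ∀ g, ∀ w ∈ V, (ρT g).baseChange O w ∈ V) : G →* Module.End O V where
  toFun g := ((ρT g).baseChange O).restrict (hst g)
  map_one' := by
    refine LinearMap.ext fun w => Subtype.ext ?_
    rw [LinearMap.coe_restrict_apply, map_one]
    have : (1 : Module.End ℤ_[p] T).baseChange O = LinearMap.id := LinearMap.baseChange_id
    rw [this]
    rfl
  map_mul' g h := by
    refine LinearMap.ext fun w => Subtype.ext ?_
    rw [LinearMap.coe_restrict_apply, map_mul, Module.End.mul_eq_comp, LinearMap.baseChange_comp]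
    rfl

theorem exists_sat_realization {G : Type*} [Group G] (ρT : G →* Module.End ℤ_[p] T)
    (V : Submodule O (O ⊗[ℤ_[p]] T)) (hV : V ≠ ⊥)
    (hsat : ∀ c : O, c ≠ 0 → ∀ w, c • w ∈ V → w ∈ V)
    (hst : ∀ g, ∀ w ∈ V, (ρT g).baseChange O w ∈ V)
    {W : Type*} [AddCommGroup W] [Module O W] (b : Module.Basis (Fin 2) O W)
    (ρ : G →* Module.End O W) (hspan : Submodule.span O (Set.range ρ) = ⊤)
    (hquad : ∀ g, ∀ w ∈ V, (ρT g).baseChange O ((ρT g).baseChange O w) -
      LinearMap.trace O W (ρ g) • (ρT g).baseChange O w + LinearMap.det (ρ g) • w = 0) :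
    ∃ F : W →ₗ[O] O ⊗[ℤ_[p]] T, Function.Injective F ∧ (∀ v, F v ∈ V) ∧
      (∀ g v, F (ρ g v) = (ρT g).baseChange O (F v)) ∧
      ∀ (c : O) (v : W) (w : O ⊗[ℤ_[p]] T), F v = c • w → ∃ v', v = c • v' := by
  classical
  have hfreeT : Module.Free O (O ⊗[ℤ_[p]] T) := inferInstance
  have hQ : H32.Quadratic (M := ↥V) ρ (actSub ρT V hst) := by
    intro g
    refine LinearMap.ext fun w => Subtype.ext ?_
    exact hquad g w w.2
  obtain ⟨M₀, e, he, -⟩ :=
    H32.exists_equiv_tensor_of_quadratic (M := ↥V) ρ (actSub ρT V hst) b hspan hQ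
  have hfinT : Module.Finite O (O ⊗[ℤ_[p]] T) := inferInstance
  have hfinV : Module.Finite O V := inferInstance
  have hfreeV : Module.Free O V := sub_free V
  have hfin0 : Module.Finite O M₀ := inferInstance
  have hfree0 : Module.Free O M₀ := sub_free (V := ↥V) M₀
  have hne : Nontrivial M₀ := by
    by_contra hcon
    rw [not_nontrivial_iff_subsingleton] at hcon
    apply hV
    rw [Submodule.eq_bot_iff]
    intro w hw
    have h1 : ∀ x : W ⊗[O] M₀, x = 0 := by
      intro x
      induction x using TensorProduct.induction_on with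
      | zero => rfl
      | tmul v m => rw [Subsingleton.elim m 0, TensorProduct.tmul_zero]
      | add x y hx hy => rw [hx, hy, add_zero]
    have h2 : (⟨w, hw⟩ : V) = 0 := by
      rw [← e.apply_symm_apply ⟨w, hw⟩, h1 (e.symm ⟨w, hw⟩), map_zero]
    exact congrArg Subtype.val h2
  let c₀ := Module.Free.chooseBasis O M₀
  have hι : Nonempty (Module.Free.ChooseBasisIndex O M₀) := c₀.index_nonempty
  let i₀ := Classical.choice hι
  let m₀ : M₀ := c₀ i₀
  let ξ : M₀ →ₗ[O] O := c₀.coord i₀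
  have hξ : ξ m₀ = 1 := by
    show c₀.repr (c₀ i₀) i₀ = 1
    rw [Module.Basis.repr_self, Finsupp.single_eq_same]
  let F : W →ₗ[O] O ⊗[ℤ_[p]] T :=
    V.subtype ∘ₗ e.toLinearMap ∘ₗ ((TensorProduct.mk O W M₀).flip m₀)
  have hF : ∀ v, F v = ((e (v ⊗ₜ[O] m₀) : V) : O ⊗[ℤ_[p]] T) := fun v => rfl
  let R : V →ₗ[O] W := (TensorProduct.rid O W).toLinearMap ∘ₗ (LinearMap.lTensor W ξ) ∘ₗ
    e.symm.toLinearMap
  have hR : ∀ v, R (e (v ⊗ₜ[O] m₀)) = v := by
    intro v
    show (TensorProduct.rid O W) ((LinearMap.lTensor W ξ) (e.symm (e (v ⊗ₜ[O] m₀)))) = v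
    rw [e.symm_apply_apply, LinearMap.lTensor_tmul, hξ, TensorProduct.rid_tmul, one_smul]
  refine ⟨F, ?_, fun v => (e (v ⊗ₜ[O] m₀)).2, ?_, ?_⟩
  · intro v v' h
    have h1 : e (v ⊗ₜ[O] m₀) = e (v' ⊗ₜ[O] m₀) := Subtype.ext h
    rw [← hR v, h1, hR]
  · intro g v
    have h1 := he g (v ⊗ₜ[O] m₀)
    rw [LinearMap.rTensor_tmul] at h1
    rw [hF, hF, h1]
    rfl
  · intro c v w h
    by_cases hc : c = 0
    · refine ⟨0, ?_⟩
      have h2 : F v = 0 := by rw [h, hc, zero_smul]
      have h1 : e (v ⊗ₜ[O] m₀) = 0 := Subtype.ext h2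
      rw [← hR v, h1, map_zero, smul_zero]
    · have hw : w ∈ V := hsat c hc w (by rw [← h]; exact (e (v ⊗ₜ[O] m₀)).2)
      refine ⟨R ⟨w, hw⟩, ?_⟩
      have h1 : e (v ⊗ₜ[O] m₀) = c • ⟨w, hw⟩ := Subtype.ext h
      rw [← hR v, h1, map_smul]

end

end Fermat.Agent.H7.P
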