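import Fermat.Agent.H32Burnside
import Fermat.Agent.H32BLR
import Fermat.Agent.H32Carayol
import Fermat.Agent.H32RealK
import Fermat.Agent.H33Glue
import Fermat.Agent.H35Eigen
import Fermat.Agent.H39Real2
import Fermat.Agent.H4OrdP
import Fermat.Agent.H7PReal
import Fermat.Agent.H88RealD1
import Fermat.Agent.H88RealE0

/-!
# Guide: realisation of two-dimensional representations in Tate modules and torsion points

Companion of `GuideGalois`, `GuideFlat`, `GuideLevels` and `GuideEigen`.  In the arguments of this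
library about Galois representations of cusp forms the Jacobian `J_0(N)` is never decomposed: neither
abelian subvarieties nor the abelian variety of an eigenform occur.  The following observation is
used instead.  If a group `G` acts on a module `E`, and every `g` satisfies on `E` the equation

  `g² - tr ρ(g) · g + det ρ(g) = 0`

of a representation `ρ` on a free module `V` of rank two whose operators span `End(V)`, then `E`
consists of copies of `V`: `E = V ⊗ E₀` (theorem of Boston, Lenstra and Ribet).  In particular, if `E`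
is not zero, there is a nonzero equivariant map `V → E`.  For the eigenspaces of the Hecke operators
in `T_p J_0(N)` and `J_0(N)[p]` the equation is the Eichler-Shimura relation together with the density
of Frobenius elements, and a nonzero vector is obtained by linear algebra, because the Hecke algebra
of cusp forms acts faithfully.  No duality, multiplicity one or Gorenstein property is needed.

1. The image of an irreducible representation (Burnside's theorem).        `burnside_closed` …
2. The theorem of Boston, Lenstra and Ribet; Carayol's lemma.               `quadratic_relation` …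
3. Embeddings over a field and over a discrete valuation ring.              `embedding_field` …
4. Existence of eigenvectors.                                               `eigenvector_field` …
5. Realisation in the Tate module and in the `p`-torsion.                   `relation_eigenspace` …

Elsewhere: Burnside's theorem for `GaloisRepAdic` (`GuideFlat.burnside`); embeddings over a domain
(`GuideEigen.embedding_of_quadratic`) and over `ℤ/p^m` (`GuideResidualSteps.embedding_in_orbit`); the
realisation at a prime dividing the level (`GuideEigen.realisation_good`, `realisation_new`); a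
homomorphism `V → T_p J` for each point of the Hecke ring (`GuideBadRed.exists_hom_of_point`,
`GuideOrdinary.realisation_at_point`); the embedding of `E[p]` in `J_0(N)`
(`GuideLevels.exists_embedding_torsion`); Frobenius at `p` in these realisations (`GuideUnitRoot`,
`GuideFrobeniusAtP`).  `NOTES.md`: [286] NOTES-PARTS-helper32; [80] NOTES-GALREP-S30 and [240]
NOTES-GALREP-GLUE (eigenvectors); [158] NOTES-EIGEN-ANALYSIS; [170] NOTES-ORDP-P1; [237]
NOTES-REALISATION-CONVERSE; [292] NOTES-LT-REALPLUS.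

Notation of the library.
* `H31.GQ`, `H39.GQb`, `H53.GQ` are three names for `Gal(Qbar/ℚ)`; `ρ : GaloisRepAdic A` is a free
  module `ρ.V` of rank two over the local ring `A` with a continuous action `ρ.ρ` of this group.
* `H31.GoodPrimes N S` is the type of the primes `ℓ ∤ N`, `ℓ ∉ S`; `heckeAlgebra N 2 S` is the ring
  generated by these `T_ℓ` and by the `U_q`, `q ∣ N`, `q ∉ S` (there are none if `S` contains the
  prime divisors of `N`), on the cusp forms of weight two, and `H31.evHecke N S` the evaluation of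
  integer polynomials in the variables `T_ℓ` in this ring.  `HeckeAlg` is the polynomial ring in all
  `T_ℓ`, with variables `heckeGen ℓ`, and `H31.inclHecke N S` the inclusion of the first polynomials.
* `H30.TateMod p J` is the Tate module `T_p J`, with the Galois action `H30.galTate p J` and the Hecke
  action `H30.actTate p J N S`; `H35.tateMap f` is the map of Tate modules induced by `f`.
* `f.baseChange A` is the endomorphism `1 ⊗ f` of `A ⊗ M`; `H39.Tor W p` is the group `W[p]` over `Qbar`.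
-/

set_option autoImplicit false

noncomputable section

namespace Fermat.Agent.Guide.Realisation

open IsLocalRing CuspForm ModularCurve
open scoped TensorProduct

/-! ## 1. The image of an irreducible representation -/

/-- **Burnside's theorem.**  Let `V ≠ 0` be a finite-dimensional representation of a monoid `G` over
an algebraically closed field, whose only stable subspaces are `0` and `V`.  Then the operators
`ρ(g)` span the vector space `End(V)`.  Proof: `V` is a simple module over the algebra `S` generated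
by the `ρ(g)`, its endomorphisms are the scalars (Schur), and the density theorem of Jacobson gives
`S = End(V)`; since the `ρ(g)` are closed under products, they span `S`.
(File `H32Burnside.lean`; the source of the hypothesis `span (ρ(g)) = End(V)` in the theorems below.) -/
theorem burnside_closed {K V G : Type*} [Field K] [IsAlgClosed K] [AddCommGroup V] [Module K V]
    [FiniteDimensional K V] [Nontrivial V] [Monoid G] (ρ : G →* Module.End K V)
    (hirr : ∀ W : Submodule K V, (∀ g, ∀ x ∈ W, ρ g x ∈ W) → W = ⊥ ∨ W = ⊤) :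
    Submodule.span K (Set.range ρ) = ⊤ :=
  H32.span_range_eq_top_of_isAlgClosed ρ hirr

/-- Descent of the conclusion: if the operators `ρ(g)` span `End(K ⊗ V)` after an extension of the
field `k` to `K`, they span `End(V)` over `k`.  Proof: a basis of their span over `k` generates the
span over `K`, and the dimension of `End(V)` does not change.  (File `H32Burnside.lean`.) -/
theorem burnside_descent {k K V G : Type*} [Field k] [Field K] [Algebra k K] [AddCommGroup V]
    [Module k V] [FiniteDimensional k V] [Monoid G] (ρ : G →* Module.End k V)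
    (h : Submodule.span K (Set.range fun g => (ρ g).baseChange K) = ⊤) :
    Submodule.span k (Set.range ρ) = ⊤ :=
  H32.span_range_eq_top_of_baseChange ρ h

/-- An absolutely irreducible two-dimensional representation `ρ` of the Galois group over a field
`k`: the operators `ρ(g)` span `End_k(V)`.  (File `H32Burnside.lean`; used directly for the mod `p`
representation of an elliptic curve in `H39Real.lean` and for residual representations of Hecke
rings in `H30Datum.lean`.) -/
theorem burnside_residual {k : Type} [Field k] (ρ : ResidualGaloisRep k)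
    (h : ρ.IsAbsolutelyIrreducible) : Submodule.span k (Set.range ρ.ρ) = ⊤ :=
  H32.residual_span_range_eq_top ρ h

/-- **Nakayama's lemma for the span.**  Let `V` be a finite free module over a local ring `A` with
residue field `k`.  If the reductions of the endomorphisms `ρ(g)` span `End_k(k ⊗ V)`, then the
`ρ(g)` span `End_A(V)`.  No group structure is needed.  (File `H32Burnside.lean`; with
`burnside_residual` it gives `GuideFlat.burnside` for all `GaloisRepAdic`.) -/
theorem burnside_nakayama {A V G : Type*} [CommRing A] [IsLocalRing A] [AddCommGroup V] [Module A V]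
    [Module.Free A V] [Module.Finite A V] (ρ : G → Module.End A V)
    (h : Submodule.span (ResidueField A) (Set.range fun g => (ρ g).baseChange (ResidueField A)) = ⊤) :
    Submodule.span A (Set.range ρ) = ⊤ :=
  H32.span_range_eq_top_of_residue ρ h

/-- Burnside's theorem over a field which is not algebraically closed, for a representation by
`2 × 2` matrices: suppose that some `R(g)` has two different eigenvalues `a`, `b` in `k`, and that no
nonzero vector is an eigenvector of all `R(h)`.  Then the matrices `R(h)` span `M₂(k)`.  Proof: in a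
basis of eigenvectors of `R(g)` the diagonal matrix units are polynomials in `R(g)`, and by
irreducibility some `R(h)` has nonzero entry above, and some `R(h')` below the diagonal; multiply by
the diagonal matrix units.  (File `H88RealE0.lean`; used in `H88RealD.lean` in characteristic two,
where `g` has order three and its eigenvalues are the primitive cube roots of unity.) -/
theorem burnside_split {k : Type} [Field k] {G : Type*} [Monoid G]
    (R : G →* Matrix (Fin 2) (Fin 2) k) {a b : k} (hab : a ≠ b) {g : G}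
    (htr : (R g).trace = a + b) (hdet : (R g).det = a * b)
    (hirr : ∀ x : Fin 2 → k, x ≠ 0 → ∃ h : G, ∀ c : k, (R h).mulVec x ≠ c • x) :
    Submodule.span k (Set.range R) = ⊤ :=
  H88.RealP.span_eq_top_field R hab htr hdet hirr

/-- A residually absolutely irreducible representation over a local ring `T` is generated by every
vector which is not in `𝔪V`: a stable submodule containing a vector with nonzero reduction is
everything.  (File `H33Glue.lean`; used in `equivariant_ne_zero`.) -/
theorem stable_eq_top {T : Type} [CommRing T] [IsLocalRing T] (ρ : GaloisRepAdic T)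
    (h : ρ.residual.IsAbsolutelyIrreducible) (W : Submodule T ρ.V)
    (hG : ∀ σ, ∀ v ∈ W, ρ.ρ σ v ∈ W) {v : ρ.V} (hv : v ∈ W)
    (hv' : (1 : ResidueField T) ⊗ₜ[T] v ≠ 0) : W = ⊤ :=
  H33.eq_top_of_stable ρ h W hG hv hv'

/-- Let `ρ` be residually absolutely irreducible over `T` and `s : V → J` a nonzero additive
equivariant map into an abelian group with Galois action (not a `T`-module).  For every `v` with
nonzero reduction, `s(t v) ≠ 0` for some `t ∈ T`.  Proof: the set of `v` with `s(T v) = 0` is a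
stable submodule.  (File `H33Glue.lean`; used in `H33GlueC.lean` and for `H33.false_of_scalar`: if `p`
is odd and the determinant cyclotomic, inertia at `p` cannot act on the image of `s` through the
cyclotomic character; an element with `σ ζ_p = ζ_p^a` would act on the residual representation by the
scalar `a`, and `a² = a` modulo `p` for all `a` prime to `p`.) -/
theorem equivariant_ne_zero {T : Type} [CommRing T] [IsLocalRing T] (ρ : GaloisRepAdic T)
    {J : Type*} [AddCommGroup J]
    [DistribMulAction (AlgebraicClosure ℚ ≃ₐ[ℚ] AlgebraicClosure ℚ) J]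
    (h : ρ.residual.IsAbsolutelyIrreducible) (s : ρ.V →+ J) (hs : s ≠ 0)
    (hsG : ∀ σ v, s (ρ.ρ σ v) = σ • s v) {v : ρ.V}
    (hv' : (1 : ResidueField T) ⊗ₜ[T] v ≠ 0) : ∃ t : T, s (t • v) ≠ 0 :=
  H33.exists_smul_ne ρ h s hs hsG hv'

/-! ## 2. The theorem of Boston, Lenstra and Ribet

Throughout, `ρ : G → End_A(V)` and `μ : G → End_A(M)` are two representations of a group over a
commutative ring, `V` is free of rank two, and `M` is arbitrary. -/

/-- The quadratic relation for `V` itself: the theorem of Cayley and Hamilton for an endomorphism of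
a free module of rank two.  (File `H32BLR.lean`; used in `H32Carayol`, `H32Commutator`, `H7P1b`.) -/
theorem quadratic_relation {A V : Type*} [CommRing A] [AddCommGroup V] [Module A V]
    (b : Module.Basis (Fin 2) A V) (f : Module.End A V) :
    f * f - (LinearMap.trace A V f) • f + (LinearMap.det f) • (1 : Module.End A V) = 0 :=
  H32.quadratic_of_basis b f

/-- The quadratic relation, multiplied by `μ(g)⁻¹`: `tr ρ(g) - μ(g) = det ρ(g) μ(g⁻¹)`.  The left
side is the candidate for the adjoint of `μ(g)`, the right side is antimultiplicative in `g`.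
(File `H32BLR.lean`.) -/
theorem adjoint_eq {A V M G : Type*} [CommRing A] [AddCommGroup V] [Module A V] [AddCommGroup M]
    [Module A M] [Group G] (ρ : G →* Module.End A V) (μ : G →* Module.End A M)
    (hquad : ∀ g : G, μ g * μ g - (LinearMap.trace A V (ρ g)) • μ g +
      (LinearMap.det (ρ g)) • (1 : Module.End A M) = 0) (g : G) :
    (LinearMap.trace A V (ρ g)) • (1 : Module.End A M) - μ g = (LinearMap.det (ρ g)) • μ g⁻¹ :=
  H32.Quadratic.star_eq hquad g

/-- Consequently, for pairs `x = (x₁, x₂)` and `y` in the span of the pairs `(ρ(g), μ(g))`, the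
operation `x* = tr(x₁) - x₂` satisfies `(x y)* = y* x*`: both sides are bilinear, and for two
elements of the group this is `adjoint_eq`.  (File `H32BLR.lean`.) -/
theorem adjoint_mul {A V M G : Type*} [CommRing A] [AddCommGroup V] [Module A V] [AddCommGroup M]
    [Module A M] [Group G] (ρ : G →* Module.End A V) (μ : G →* Module.End A M)
    (hquad : ∀ g : G, μ g * μ g - (LinearMap.trace A V (ρ g)) • μ g +
      (LinearMap.det (ρ g)) • (1 : Module.End A M) = 0)
    (x y : Module.End A V × Module.End A M)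
    (hx : x ∈ Submodule.span A (Set.range fun g => (ρ g, μ g)))
    (hy : y ∈ Submodule.span A (Set.range fun g => (ρ g, μ g))) :
    (LinearMap.trace A V (x.1 * y.1)) • (1 : Module.End A M) - x.2 * y.2 =
      ((LinearMap.trace A V y.1) • (1 : Module.End A M) - y.2) *
        ((LinearMap.trace A V x.1) • (1 : Module.End A M) - x.2) :=
  H32.Quadratic.anti hquad ((H32.mem_pairAlg_iff ρ μ x).mpr hx) ((H32.mem_pairAlg_iff ρ μ y).mpr hy)

/-- Every pair in the span satisfies the quadratic relation: `x₂ (tr(x₁) - x₂) = det(x₁)`.  Proof: both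
sides are quadratic forms in `x`, they agree on the group, and their polar forms agree by
`adjoint_mul` and `det(f + g) = det f + det g + tr f tr g - tr(f g)`.  (File `H32BLR.lean`.) -/
theorem adjoint_norm {A V M G : Type*} [CommRing A] [AddCommGroup V] [Module A V] [AddCommGroup M]
    [Module A M] [Group G] (ρ : G →* Module.End A V) (μ : G →* Module.End A M)
    (b : Module.Basis (Fin 2) A V)
    (hquad : ∀ g : G, μ g * μ g - (LinearMap.trace A V (ρ g)) • μ g +
      (LinearMap.det (ρ g)) • (1 : Module.End A M) = 0)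
    (x : Module.End A V × Module.End A M)
    (hx : x ∈ Submodule.span A (Set.range fun g => (ρ g, μ g))) :
    x.2 * ((LinearMap.trace A V x.1) • (1 : Module.End A M) - x.2) =
      (LinearMap.det x.1) • (1 : Module.End A M) :=
  H32.Quadratic.norm b hquad ((H32.mem_pairAlg_iff ρ μ x).mpr hx)

/-- **The kernel is zero.**  If the `ρ(g)` span `End(V)`, a relation `∑ a(g) ρ(g) = 0` implies
`∑ a(g) μ(g) = 0`.  Proof: let `x = (0, x₂)` be in the span.  By `adjoint_norm`, `x₂² = 0`, and by
`adjoint_mul`, `x₂ y₂ = y₂* x₂` for all `y` in the span; so `x₂ y₂ z₂ = z₂* x₂ y₂ = x₂ z₂ y₂`, and `x₂`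
annihilates all commutators.  Lift the matrix units `e_ij ∈ End(V)` to elements `m_ij` of the span.
Since `1 = [e₀₀, e₀₁] e₁₀ + [e₁₁, e₁₀] e₀₁`, the element `k = 1 - [m₀₀, m₀₁] m₁₀ - [m₁₁, m₁₀] m₀₁` has
first component zero, and `x₂ = x₂ k₂ = x₂ k₂² = 0`.  (File `H32BLR.lean`.) -/
theorem kernel_eq_zero {A V M G : Type*} [CommRing A] [AddCommGroup V] [Module A V]
    [AddCommGroup M] [Module A M] [Group G] (ρ : G →* Module.End A V) (μ : G →* Module.End A M)
    (b : Module.Basis (Fin 2) A V)
    (hquad : ∀ g : G, μ g * μ g - (LinearMap.trace A V (ρ g)) • μ g +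
      (LinearMap.det (ρ g)) • (1 : Module.End A M) = 0)
    (hspan : Submodule.span A (Set.range ρ) = ⊤) (x : Module.End A V × Module.End A M)
    (hx : x ∈ Submodule.span A (Set.range fun g => (ρ g, μ g))) (hx0 : x.1 = 0) : x.2 = 0 :=
  H32.Quadratic.eq_zero_of_fst_eq_zero b hquad hspan ((H32.mem_pairAlg_iff ρ μ x).mpr hx) hx0

/-- **Theorem of Boston, Lenstra and Ribet, algebra form**, over an arbitrary commutative ring `A`.
Let `G` act on a free module `V` of rank two with operators spanning `End_A(V)`, and on an `A`-module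
`M` such that `μ(g)² - tr ρ(g) μ(g) + det ρ(g) = 0` for all `g`.  Then the action of the group algebra
on `M` factors through `End_A(V)`: this is `kernel_eq_zero`.
(File `H32BLR.lean`; used in `H39Real.lean` and `H35LTCyc.lean`.) -/
theorem boston_lenstra_ribet_algebra {A V M G : Type*} [CommRing A] [AddCommGroup V] [Module A V]
    [AddCommGroup M] [Module A M] [Group G] (ρ : G →* Module.End A V) (μ : G →* Module.End A M)
    (b : Module.Basis (Fin 2) A V) (hspan : Submodule.span A (Set.range ρ) = ⊤)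
    (hquad : ∀ g : G, μ g * μ g - (LinearMap.trace A V (ρ g)) • μ g +
      (LinearMap.det (ρ g)) • (1 : Module.End A M) = 0) :
    ∃ Ψ : Module.End A V →ₐ[A] Module.End A M, ∀ g, Ψ (ρ g) = μ g :=
  H32.exists_algHom_of_quadratic b hspan hquad

/-- **Theorem of Boston, Lenstra and Ribet, tensor form.**  Under the same hypotheses `M` is
isomorphic to `V ⊗ M₀` with the trivial action on `M₀`, where `M₀` is the image of a projector of the
`A`-module `M`: the image of a matrix unit `e₀₀ ∈ End(V)` (Morita theory).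
(File `H32BLR.lean`; used in `H32Carayol`, `H32Real`, `H4OrdP`, `H7PReal`, `H88RealD0`.) -/
theorem boston_lenstra_ribet {A V M G : Type*} [CommRing A] [AddCommGroup V] [Module A V]
    [AddCommGroup M] [Module A M] [Group G] (ρ : G →* Module.End A V) (μ : G →* Module.End A M)
    (b : Module.Basis (Fin 2) A V) (hspan : Submodule.span A (Set.range ρ) = ⊤)
    (hquad : ∀ g : G, μ g * μ g - (LinearMap.trace A V (ρ g)) • μ g +
      (LinearMap.det (ρ g)) • (1 : Module.End A M) = 0) :
    ∃ (M₀ : Submodule A M) (e : V ⊗[A] M₀ ≃ₗ[A] M),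
      (∀ (g : G) (x : V ⊗[A] M₀), e ((ρ g).rTensor _ x) = μ g (e x)) ∧
      ∃ π : M →ₗ[A] M, LinearMap.range π = M₀ ∧ ∀ m ∈ M₀, π m = m :=
  H32.exists_equiv_tensor_of_quadratic ρ μ b hspan hquad

/-- **Carayol's lemma.**  Two representations of a group on free modules of rank two over a local
ring with the same traces and determinants are isomorphic, if the operators of one of them span the
endomorphism ring.  Proof: by Cayley-Hamilton the quadratic relation holds, so `M = V ⊗ M₀` with `M₀`
projective, hence free, of rank one.  No completeness and no finiteness hypothesis on `A` is needed.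
(File `H32Carayol.lean`; used in `H30Datum.lean`: two residual representations with the same
Frobenius traces and determinants, one of them irreducible, are isomorphic, see
`GuideHeckeRings.residual_unique`.) -/
theorem carayol {A V M G : Type*} [CommRing A] [IsLocalRing A] [AddCommGroup V] [Module A V]
    [AddCommGroup M] [Module A M] [Group G] (ρ : G →* Module.End A V) (μ : G →* Module.End A M)
    (b : Module.Basis (Fin 2) A V) (c : Module.Basis (Fin 2) A M)
    (hspan : Submodule.span A (Set.range ρ) = ⊤)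
    (htr : ∀ g, LinearMap.trace A V (ρ g) = LinearMap.trace A M (μ g))
    (hdet : ∀ g, LinearMap.det (ρ g) = LinearMap.det (μ g)) :
    ∃ e : V ≃ₗ[A] M, ∀ (g : G) (x : V), e (ρ g x) = μ g (e x) :=
  H32.exists_equiv_of_trace_det ρ μ b c hspan htr hdet

/-! ## 3. Embeddings from the quadratic relation

Over a domain, with values in a submodule `E` of a torsion-free module, see
`GuideEigen.embedding_of_quadratic`; over `ℤ/p^m`, see `GuideResidualSteps.embedding_in_orbit`. -/

/-- **Over a field.**  If `M ≠ 0` satisfies the quadratic relations of `V` there is a nonzero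
equivariant map `V → M`; it is injective, since `V` is irreducible.  Proof: for `v ∈ V`
let `e_v` be the endomorphism `w ↦ w_i v`, with `w_i` the `i`-th coordinate; take `v ↦ Ψ(e_v) x` for
suitable `x` and `i`.  (File `H39Real.lean`; used for `realisation_torsion`.) -/
theorem embedding_field {A V M G : Type*} [Field A] [AddCommGroup V] [Module A V]
    [AddCommGroup M] [Module A M] [Group G] (ρ : G →* Module.End A V) (μ : G →* Module.End A M)
    (b : Module.Basis (Fin 2) A V) (hspan : Submodule.span A (Set.range ρ) = ⊤)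
    (hquad : ∀ g : G, μ g * μ g - (LinearMap.trace A V (ρ g)) • μ g +
      (LinearMap.det (ρ g)) • (1 : Module.End A M) = 0) (hM : Nontrivial M) :
    ∃ ι : V →ₗ[A] M, ι ≠ 0 ∧ ∀ g v, ι (ρ g v) = μ g (ι v) :=
  H39.exists_equivariant_of_quadratic b hspan hquad hM

/-- **Over a discrete valuation ring.**  Let `E ≠ 0` be a stable and saturated submodule of a finite
torsion-free module `X` on which the quadratic relations of a representation on `A²` hold.  Then `A²`
embeds in `X`, equivariantly and with values in `E`, such that the embedding stays injective modulo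
the maximal ideal.  Proof: in `E = A² ⊗ M₀` choose an element of `M₀` which is not divisible by the
uniformiser.  (File `H88RealD0.lean`; used for `realisation_vector`.) -/
theorem embedding_saturated {A : Type} [CommRing A] [IsDomain A] [IsDiscreteValuationRing A]
    {G : Type*} [Group G] {X : Type*} [AddCommGroup X] [Module A X] [Module.Finite A X]
    [Module.IsTorsionFree A X] (ρ : G →* Module.End A (Fin 2 → A))
    (hspan : Submodule.span A (Set.range ρ) = ⊤) (σX : G →* Module.End A X) (E : Submodule A X)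
    (hstab : ∀ g, ∀ x ∈ E, σX g x ∈ E) (hsat : ∀ (a : A) (x : X), a ≠ 0 → a • x ∈ E → x ∈ E)
    {w : X} (hw : w ∈ E) (hw0 : w ≠ 0)
    (hquad : ∀ g, ∀ x ∈ E, σX g (σX g x) - LinearMap.trace A (Fin 2 → A) (ρ g) • σX g x +
      LinearMap.det (ρ g) • x = 0) :
    ∃ Φ : (Fin 2 → A) →ₗ[A] X, Function.Injective Φ ∧
      (∀ x, Φ x ∈ (maximalIdeal A • ⊤ : Submodule A X) → ∀ i, x i ∈ maximalIdeal A) ∧
      (∀ g x, Φ (ρ g x) = σX g (Φ x)) ∧ ∀ x, Φ x ∈ E :=
  H88.RealP.exists_saturated_embedding ρ hspan σX E hstab hsat hw hw0 hquad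

/-- **In a lattice `O ⊗ T`.**  The same for a finite free `ℤ_p`-module `T` with an action of `G` and a
saturated stable submodule `E ≠ 0` of `O ⊗ T`: the image of the embedding `F` of `W` is saturated, a
vector `F(v)` divisible by `c` in `O ⊗ T` comes from a vector divisible by `c`.
(File `H7PReal.lean`; used in `H7PAbs2.lean` for an ordinary representation: the eigenvalue `ψ` of
Frobenius on the unramified quotient satisfies `ψ² - a_p ψ + p = 0`, see
`GuideUnitRoot.unit_root_abstract`.) -/
theorem embedding_lattice {p : ℕ} [Fact p.Prime] {O : Type} [CommRing O] [IsDomain O]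
    [IsPrincipalIdealRing O] [IsLocalRing O] [Algebra ℤ_[p] O] {T : Type*} [AddCommGroup T]
    [Module ℤ_[p] T] [Module.Free ℤ_[p] T] [Module.Finite ℤ_[p] T] {G : Type*} [Group G]
    (ρT : G →* Module.End ℤ_[p] T) (E : Submodule O (O ⊗[ℤ_[p]] T)) (hE : E ≠ ⊥)
    (hsat : ∀ c : O, c ≠ 0 → ∀ w, c • w ∈ E → w ∈ E)
    (hstab : ∀ g, ∀ w ∈ E, (ρT g).baseChange O w ∈ E)
    {W : Type*} [AddCommGroup W] [Module O W] (b : Module.Basis (Fin 2) O W)
    (ρ : G →* Module.End O W) (hspan : Submodule.span O (Set.range ρ) = ⊤)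
    (hquad : ∀ g, ∀ w ∈ E, (ρT g).baseChange O ((ρT g).baseChange O w) -
      LinearMap.trace O W (ρ g) • (ρT g).baseChange O w + LinearMap.det (ρ g) • w = 0) :
    ∃ F : W →ₗ[O] O ⊗[ℤ_[p]] T, Function.Injective F ∧ (∀ v, F v ∈ E) ∧
      (∀ g v, F (ρ g v) = (ρT g).baseChange O (F v)) ∧
      ∀ (c : O) (v : W) (w : O ⊗[ℤ_[p]] T), F v = c • w → ∃ v', v = c • v' :=
  H7.P.exists_sat_realization ρT E hE hsat hstab b ρ hspan hquad

/-! ## 4. Existence of eigenvectors -/

/-- **Eigenvectors over a field.**  Let `f : A → End(V)` be the action of a commutative ring on a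
finite-dimensional vector space over `K`, and `χ : A → K` a ring homomorphism which satisfies all
`K`-linear relations between the operators: `Σ c_a f(a) = 0` implies `Σ c_a χ(a) = 0`.  Then there is
`v ≠ 0` with `f(a) v = χ(a) v` for all `a`.  Proof: `χ` extends to the algebra `B` spanned by the
operators; `B` is artinian and acts faithfully on `V`, so the kernel of `B → K` is a minimal prime
ideal, hence associated to `V`: it is the annihilator of a vector.  (File `H30Eigen.lean`; used for
`eigenvector_torsion`, and in `H39ConvA.lean` for `V = L / p L`, `L` a lattice with Hecke action.) -/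
theorem eigenvector_field {K V A : Type*} [Field K] [AddCommGroup V] [Module K V]
    [FiniteDimensional K V] [CommRing A] (f : A →+* Module.End K V) (χ : A →+* K)
    (h : ∀ (s : Finset A) (c : A → K), ∑ a ∈ s, c a • f a = 0 → ∑ a ∈ s, c a * χ a = 0) :
    ∃ v : V, v ≠ 0 ∧ ∀ a, f a v = χ a • v :=
  H30.exists_eigenvector_of_relations f χ h

/-- **Eigenvectors from relations.**  Let a commutative ring `A` act on `Z^m`, where `Z` is a principal
ideal domain contained in a noetherian domain `O`, and let `χ : A → O` be a ring homomorphism which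
respects all `Z`-linear relations between the matrices `act(a)`.  Then `O^m` contains a nonzero
common eigenvector with eigenvalues `χ(a)`.  Proof: `χ` is defined on the algebra `B ⊆ M_m(O)` spanned
by the operators, which is finite over `O` and acts faithfully on `O^m`; the kernel of `B → O` is a
minimal prime ideal, hence associated to `O^m`: it is the annihilator of a vector `v`.
(File `H35Eigen.lean`; used in `H32Real`, `H35VChi`, `H35Abs`, `H35S30`.) -/
theorem eigenvector_matrix {Z O A : Type*} [CommRing Z] [IsDomain Z] [IsPrincipalIdealRing Z]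
    [CommRing O] [IsDomain O] [IsNoetherianRing O] [Algebra Z O]
    (hinj : Function.Injective (algebraMap Z O)) [CommRing A] {m : ℕ}
    (act : A →+* Matrix (Fin m) (Fin m) Z) (χ : A →+* O)
    (hrel : ∀ U : Finset (Z × A), ∑ i ∈ U, i.1 • act i.2 = 0 →
      ∑ i ∈ U, algebraMap Z O i.1 * χ i.2 = 0) :
    ∃ v : Fin m → O, v ≠ 0 ∧ ∀ a : A, ((act a).map (algebraMap Z O)).mulVec v = χ a • v :=
  H35.exists_eigenvector_matrix hinj act χ hrel

/-- **Faithful action implies relations.**  Let the polynomial ring in the `T_ℓ` act on a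
`ℤ_p`-module `TJ`, faithfully in the following sense: if `P(T)` maps `TJ` into `p^n TJ`, then `u P(T)`
is divisible by `p^(n-c)` in the Hecke algebra of cusp forms, for constants `u ≠ 0` and `c`.  Let `χ` be
a homomorphism from this Hecke algebra to a noetherian local domain `A` of characteristic zero, with
`p ∈ 𝔪`.  Then a `ℤ_p`-linear relation between operators on `TJ` holds for the values of `χ`.
Proof: approximate the coefficients by integers modulo `p^n`; the defect is in `⋂ 𝔪^n = 0`.
(File `H32Real.lean`; used in `eigenvector_tate`.) -/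
theorem relations_of_faithful {p : ℕ} [Fact p.Prime] {N : ℕ} [NeZero N] {S : Finset ℕ} {A : Type}
    [CommRing A] [IsLocalRing A] [IsNoetherianRing A] [IsDomain A] [CharZero A] [Algebra ℤ_[p] A]
    {TJ : Type*} [AddCommGroup TJ] [Module ℤ_[p] TJ] (hpA : (p : A) ∈ maximalIdeal A)
    (act : MvPolynomial (H31.GoodPrimes N (↑S : Set ℕ)) ℤ →+* Module.End ℤ_[p] TJ)
    (χ : heckeAlgebra N 2 (↑S : Set ℕ) →+* A)
    (hfaith : ∃ c u : ℕ, u ≠ 0 ∧
      ∀ (n : ℕ) (P : MvPolynomial (H31.GoodPrimes N (↑S : Set ℕ)) ℤ),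
        (∀ x : TJ, ∃ y : TJ, act P x = (p : ℤ_[p]) ^ n • y) →
          ∃ y : heckeAlgebra N 2 (↑S : Set ℕ),
            (u : heckeAlgebra N 2 (↑S : Set ℕ)) * H31.evHecke N (↑S : Set ℕ) P =
              (p : heckeAlgebra N 2 (↑S : Set ℕ)) ^ (n - c) * y)
    (U : Finset (ℤ_[p] × MvPolynomial (H31.GoodPrimes N (↑S : Set ℕ)) ℤ))
    (hU : ∑ i ∈ U, i.1 • act i.2 = 0) :
    ∑ i ∈ U, algebraMap ℤ_[p] A i.1 * χ (H31.evHecke N (↑S : Set ℕ) i.2) = 0 :=
  H32.relations_of_faithful hpA act χ hfaith U hU

/-- **Eigenvectors in the Tate module.**  Under the same hypotheses, with `TJ` finite and free over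
`ℤ_p`, the module `A ⊗ TJ` contains a nonzero common eigenvector of the Hecke operators `P(T)` with
eigenvalues `χ(P(T))`.  (File `H32Real.lean`; used for `realisation_field`.) -/
theorem eigenvector_tate {p : ℕ} [Fact p.Prime] {N : ℕ} [NeZero N] {S : Finset ℕ} {A : Type}
    [CommRing A] [IsLocalRing A] [IsNoetherianRing A] [IsDomain A] [CharZero A] [Algebra ℤ_[p] A]
    {TJ : Type*} [AddCommGroup TJ] [Module ℤ_[p] TJ] [Module.Finite ℤ_[p] TJ]
    [Module.Free ℤ_[p] TJ] (hpA : (p : A) ∈ maximalIdeal A)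
    (act : MvPolynomial (H31.GoodPrimes N (↑S : Set ℕ)) ℤ →+* Module.End ℤ_[p] TJ)
    (χ : heckeAlgebra N 2 (↑S : Set ℕ) →+* A)
    (hfaith : ∃ c u : ℕ, u ≠ 0 ∧
      ∀ (n : ℕ) (P : MvPolynomial (H31.GoodPrimes N (↑S : Set ℕ)) ℤ),
        (∀ x : TJ, ∃ y : TJ, act P x = (p : ℤ_[p]) ^ n • y) →
          ∃ y : heckeAlgebra N 2 (↑S : Set ℕ),
            (u : heckeAlgebra N 2 (↑S : Set ℕ)) * H31.evHecke N (↑S : Set ℕ) P =
              (p : heckeAlgebra N 2 (↑S : Set ℕ)) ^ (n - c) * y) :
    ∃ w : A ⊗[ℤ_[p]] TJ,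
      (∀ P, (act P).baseChange A w = χ (H31.evHecke N (↑S : Set ℕ) P) • w) ∧ w ≠ 0 :=
  H32.exists_eigen_ne_zero hpA act χ hfaith

/-- **Eigenvectors in the `p`-torsion.**  Let `J` be a module under the Hecke operators with finite
`p`-torsion, such that a polynomial `P(T)` which annihilates `J[p^n]` is, up to a factor `u` prime to
`p`, divisible by `p^(n-c)` in the Hecke algebra of cusp forms.  Let `θ` be a homomorphism of this
Hecke algebra to a field of characteristic `p` with values `a_ℓ ∈ ℤ` at the `T_ℓ`.  Then `J[p]`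
contains a nonzero vector `x` with `T_ℓ x = a_ℓ x` for all `ℓ ∤ N`, `ℓ ∉ S`.  Proof: if `P(T)` is zero
on `J[p]` then `P(T)^n` is zero on `J[p^n]`, hence `u θ(P(T))^n = 0` for `n > c`, so `θ(P(T)) = 0`.
Therefore `θ` factors through the operators on the finite vector space `J[p]`, and
`eigenvector_field` applies.
(File `H39RealEig.lean`; used for the embedding of `E[p]` in `J_0(N)` in `H39Real2.lean`.) -/
theorem eigenvector_torsion {p N : ℕ} [NeZero N] (hp : p.Prime) {S : Set ℕ}
    {J : Type*} [AddCommGroup J] [Module HeckeAlg J] (hfin : {x : J | p • x = 0}.Finite)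
    (hfaith : ∃ c u : ℕ, ¬ p ∣ u ∧ ∀ (n : ℕ) (P : MvPolynomial (H31.GoodPrimes N S) ℤ),
      (∀ x : J, p ^ n • x = 0 → H31.inclHecke N S P • x = 0) →
        ∃ y : heckeAlgebra N 2 S, (u : heckeAlgebra N 2 S) * H31.evHecke N S P =
          (p : heckeAlgebra N 2 S) ^ (n - c) * y)
    {k : Type*} [Field k] [CharP k p] (θ : heckeAlgebra N 2 S →+* k)
    (a : H31.GoodPrimes N S → ℤ)
    (ha : ∀ ℓ : H31.GoodPrimes N S, θ (heckeAlgebra.T ℓ.1.2 ℓ.2.1 ℓ.2.2) = (a ℓ : k)) :
    ∃ x : J, x ≠ 0 ∧ p • x = 0 ∧ ∀ ℓ : H31.GoodPrimes N S, heckeGen ℓ.1 • x = a ℓ • x :=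
  H39.exists_eigenvector_torsion hp hfin hfaith θ a ha

/-- The eigencharacter of a normalised eigenform `f` of weight two on `Γ₀(N)` takes integral values:
there is a homomorphism from the Hecke algebra to the ring of algebraic integers in `ℂ` which sends
`T_ℓ` to the coefficient `a_ℓ(f)`.  (The Hecke algebra is finite over `ℤ`, statement `S22`.)
(File `H39Real2.lean`; used there with reduction modulo a maximal ideal, and in `H88RealD.lean`.) -/
theorem integral_character {N : ℕ} [NeZero N] {f : CuspForm (CongruenceSubgroup.Gamma0 N) 2}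
    (hf : f.IsNormalizedEigenform) (S : Set ℕ) :
    ∃ χ : heckeAlgebra N 2 S →+* integralClosure ℤ ℂ, ∀ ℓ (hℓ : ℓ.Prime) (hℓN : ¬ ℓ ∣ N)
      (hℓS : ℓ ∉ S), ((χ (heckeAlgebra.T hℓ hℓN hℓS) : integralClosure ℤ ℂ) : ℂ) =
        ModularFormClass.qCoeff f ℓ :=
  H39.exists_residual_char hf S

/-! ## 5. Realisation in the Tate module and in the torsion -/

/-- **The quadratic relation on an eigenspace of the Tate module.**  Let `TJ` be a finite
`ℤ_p`-module with commuting actions of the Galois group (of finite level modulo every `p^n`) and of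
the Hecke operators, such that `φ² - T_ℓ φ + ℓ = 0` for all Frobenius elements `φ` at the primes
`ℓ ∤ N`, `ℓ ∉ S` (Eichler-Shimura).  Let `ρ` be a representation over `A` with characteristic
polynomials `X² - χ(T_ℓ) X + ℓ` at these elements.  Then every `g` satisfies
`g² - tr ρ(g) g + det ρ(g) = 0` on the vectors of `A ⊗ TJ` with Hecke eigenvalues given by `χ`.
Proof: on the finite level of the two actions modulo `𝔪^n`, `g` agrees with a power of a Frobenius
element `φ` (weak density theorem, `GuideFlat.weak_frobenius_density`); the relation for `φ` implies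
the relation for its powers, and `⋂ 𝔪^n = 0`.  (Files `H32Real.lean`, `H32Compare.lean`; used in
`H88RealD1.lean`.) -/
theorem relation_eigenspace {p : ℕ} [Fact p.Prime] {N : ℕ} [NeZero N] {S : Finset ℕ} {A : Type}
    [CommRing A] [IsLocalRing A] [IsNoetherianRing A] [Algebra ℤ_[p] A]
    {TJ : Type*} [AddCommGroup TJ] [Module ℤ_[p] TJ] [Module.Finite ℤ_[p] TJ]
    (ρT : H31.GQ →* Module.End ℤ_[p] TJ)
    (hcont : ∀ n : ℕ, ∃ L : IntermediateField ℚ (AlgebraicClosure ℚ), FiniteDimensional ℚ L ∧
      ∀ σ : H31.GQ, (∀ x ∈ L, σ x = x) → ∀ x : TJ, ∃ y : TJ, ρT σ x - x = (p : ℤ_[p]) ^ n • y)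
    (act : MvPolynomial (H31.GoodPrimes N (↑S : Set ℕ)) ℤ →+* Module.End ℤ_[p] TJ)
    (hcomm : ∀ P σ, Commute (act P) (ρT σ))
    (hfrob : ∀ (a : H31.GoodPrimes N (↑S : Set ℕ)) (B : ValuationSubring (AlgebraicClosure ℚ)),
      B.LiesOverPrime (a.1 : ℕ) → ∀ φ : H31.GQ, B.IsFrobeniusAt φ (a.1 : ℕ) →
        ∀ x : TJ, ρT φ (ρT φ x) - act (MvPolynomial.X a) (ρT φ x) + (a.1 : ℕ) • x = 0)
    (hNS : ∀ q : ℕ, q.Prime → q ∣ N → q ∈ S) (hpA : (p : A) ∈ maximalIdeal A)
    (χ : heckeAlgebra N 2 (↑S : Set ℕ) →+* A) (ρ : GaloisRepAdic A)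
    (hchar : ∀ (ℓ : ℕ) (hℓ : ℓ.Prime) (hℓN : ¬ ℓ ∣ N) (hℓS : ℓ ∉ (↑S : Set ℕ)),
      ∀ B : ValuationSubring (AlgebraicClosure ℚ), B.LiesOverPrime ℓ →
      ∀ σ : H31.GQ, B.IsFrobeniusAt σ ℓ →
        LinearMap.charpoly (ρ.ρ σ) = Polynomial.X ^ 2 -
          Polynomial.C (χ (heckeAlgebra.T hℓ hℓN hℓS)) * Polynomial.X + Polynomial.C ((ℓ : A)))
    (g : H31.GQ) (w : A ⊗[ℤ_[p]] TJ)
    (hw : ∀ P, (act P).baseChange A w = χ (H31.evHecke N (↑S : Set ℕ) P) • w) :
    (ρT g).baseChange A ((ρT g).baseChange A w)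
      - LinearMap.trace A ρ.V (ρ.ρ g) • (ρT g).baseChange A w
      + LinearMap.det (ρ.ρ g) • w = 0 :=
  H32.quadratic_eigenA ρT hcont act hcomm hfrob hNS hpA χ ρ hchar g w hw

/-- **The quadratic relation in the Tate module of `J_0(N)`.**  Let `v ≠ 0` be a vector of
`𝒪' ⊗ T_p J_0(N)` with `T_ℓ v = λ_ℓ v` for all `ℓ ∤ N`, `ℓ ∉ S`, where `𝒪'` is a complete discrete
valuation ring of characteristic zero with finite residue field and `S` contains `p` and the primes
dividing `N`.  If `ρ` is a representation over `𝒪'` with characteristic polynomials `X² - λ_ℓ X + ℓ` at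
the Frobenius elements outside `S`, then `g² v - tr ρ(g) g v + det ρ(g) v = 0` for all `g`.
(File `H4OrdP.lean`; used there for `GuideEigen.realisation_good`, `GuideEigen.realisation_new`, and
in `H80FlatPt.lean` for `GuideFlat.flat_of_embedding_J0`.) -/
theorem relation_J0 {p : ℕ} [Fact p.Prime] {S : Finset ℕ} {𝒪' : Type} [CommRing 𝒪'] [IsDomain 𝒪']
    [IsDiscreteValuationRing 𝒪'] [IsAdicComplete (maximalIdeal 𝒪') 𝒪'] [Finite (ResidueField 𝒪')]
    [CharZero 𝒪'] [Algebra ℤ_[p] 𝒪'] {N : ℕ} [NeZero N] (hpS : p ∈ S)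
    (hNS : ∀ q : ℕ, q.Prime → q ∣ N → q ∈ S) (hp𝒪' : (p : 𝒪') ∈ maximalIdeal 𝒪') {lam : ℕ → 𝒪'}
    (ρ : GaloisRepAdic 𝒪')
    (hρ : ∀ ℓ : ℕ, ℓ.Prime → ℓ ∉ S → ∀ B : ValuationSubring (AlgebraicClosure ℚ),
      B.LiesOverPrime ℓ → ∀ φ : H53.GQ, B.IsFrobeniusAt φ ℓ → LinearMap.charpoly (ρ.ρ φ) =
        Polynomial.X ^ 2 - Polynomial.C (lam ℓ) * Polynomial.X + Polynomial.C ((ℓ : 𝒪')))
    (g : H53.GQ) {v : 𝒪' ⊗[ℤ_[p]] H30.TateMod p (JZero N)}
    (hv : ∀ ℓ : Nat.Primes, ¬ (ℓ : ℕ) ∣ N → (ℓ : ℕ) ∉ S →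
      (H35.tateMap (p := p) (heckeOperatorBar N ℓ)).baseChange 𝒪' v = lam (ℓ : ℕ) • v)
    (hv0 : v ≠ 0) :
    (H30.galTate p (JZero N) g).baseChange 𝒪' ((H30.galTate p (JZero N) g).baseChange 𝒪' v)
      - LinearMap.trace 𝒪' ρ.V (ρ.ρ g) • (H30.galTate p (JZero N) g).baseChange 𝒪' v
      + LinearMap.det (ρ.ρ g) • v = 0 :=
  H4.quad_eigSub hpS hNS hp𝒪' ρ hρ g (H4.mem_eigSub.mpr hv) hv0

/-- **Realisation at a point of a Hecke ring.**  Let `TJ` be as in `relation_eigenspace`, finite and
free over `ℤ_p`, with faithful Hecke action.  Let `ρ` be a residually absolutely irreducible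
representation over a noetherian local ring `T` with characteristic polynomials `X² - χ(T_ℓ) X + ℓ`,
and `T → K` a homomorphism to a field of characteristic zero.  Then `K ⊗_T V` embeds in `K ⊗ TJ`,
equivariantly, with Hecke eigenvalues given by `χ`.  Proof: apply `eigenvector_tate` and the theorem
of Boston, Lenstra and Ribet over the image of `T` in `K`, a local domain.
(File `H32RealK.lean`; used in `realisation_datum`.) -/
theorem realisation_field {p : ℕ} [Fact p.Prime] {N : ℕ} [NeZero N] {S : Finset ℕ} {T : Type}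
    [CommRing T] [IsLocalRing T] [IsNoetherianRing T] [Algebra ℤ_[p] T]
    {TJ : Type*} [AddCommGroup TJ] [Module ℤ_[p] TJ] [Module.Finite ℤ_[p] TJ]
    [Module.Free ℤ_[p] TJ] (ρT : H31.GQ →* Module.End ℤ_[p] TJ)
    (hcont : ∀ n : ℕ, ∃ L : IntermediateField ℚ (AlgebraicClosure ℚ), FiniteDimensional ℚ L ∧
      ∀ σ : H31.GQ, (∀ x ∈ L, σ x = x) → ∀ x : TJ, ∃ y : TJ, ρT σ x - x = (p : ℤ_[p]) ^ n • y)
    (act : MvPolynomial (H31.GoodPrimes N (↑S : Set ℕ)) ℤ →+* Module.End ℤ_[p] TJ)
    (hcomm : ∀ P σ, Commute (act P) (ρT σ))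
    (hfrob : ∀ (a : H31.GoodPrimes N (↑S : Set ℕ)) (B : ValuationSubring (AlgebraicClosure ℚ)),
      B.LiesOverPrime (a.1 : ℕ) → ∀ φ : H31.GQ, B.IsFrobeniusAt φ (a.1 : ℕ) →
        ∀ x : TJ, ρT φ (ρT φ x) - act (MvPolynomial.X a) (ρT φ x) + (a.1 : ℕ) • x = 0)
    (hfaith : ∃ c u : ℕ, u ≠ 0 ∧
      ∀ (n : ℕ) (P : MvPolynomial (H31.GoodPrimes N (↑S : Set ℕ)) ℤ),
        (∀ x : TJ, ∃ y : TJ, act P x = (p : ℤ_[p]) ^ n • y) →
          ∃ y : heckeAlgebra N 2 (↑S : Set ℕ),
            (u : heckeAlgebra N 2 (↑S : Set ℕ)) * H31.evHecke N (↑S : Set ℕ) P =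
              (p : heckeAlgebra N 2 (↑S : Set ℕ)) ^ (n - c) * y)
    (hNS : ∀ q : ℕ, q.Prime → q ∣ N → q ∈ S) (hpT : (p : T) ∈ maximalIdeal T)
    (χ : heckeAlgebra N 2 (↑S : Set ℕ) →+* T) (ρ : GaloisRepAdic T)
    (hchar : ∀ (ℓ : ℕ) (hℓ : ℓ.Prime) (hℓN : ¬ ℓ ∣ N) (hℓS : ℓ ∉ (↑S : Set ℕ)),
      ∀ B : ValuationSubring (AlgebraicClosure ℚ), B.LiesOverPrime ℓ →
      ∀ σ : H31.GQ, B.IsFrobeniusAt σ ℓ →
        LinearMap.charpoly (ρ.ρ σ) = Polynomial.X ^ 2 -
          Polynomial.C (χ (heckeAlgebra.T hℓ hℓN hℓS)) * Polynomial.X + Polynomial.C ((ℓ : T)))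
    (hirr : ρ.residual.IsAbsolutelyIrreducible)
    {K : Type} [Field K] [CharZero K] [Algebra T K] [Algebra ℤ_[p] K] [IsScalarTower ℤ_[p] T K] :
    ∃ F : K ⊗[T] ρ.V →ₗ[K] K ⊗[ℤ_[p]] TJ, Function.Injective F ∧
      (∀ g x, F ((ρ.ρ g).baseChange K x) = (ρT g).baseChange K (F x)) ∧
      (∀ P x, (act P).baseChange K (F x) =
        algebraMap T K (χ (H31.evHecke N (↑S : Set ℕ) P)) • F x) :=
  H32.exists_realization ρT hcont act hcomm hfrob hfaith hNS hpT χ ρ hchar hirr

/-- **Realisation of the representation of a Hecke ring.**  Let `H` be a Hecke-Galois datum over the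
discrete valuation ring `𝒪`: a finite free local `𝒪`-algebra `T` with a homomorphism `H.π` from the
Hecke algebra and a representation `H.ρ` over `T`, residually absolutely irreducible, with the
characteristic polynomials `X² - T_ℓ X + ℓ`.  Let `J` be an abelian group with commuting actions of
the Galois group and of the Hecke operators, with finite `p`-torsion, Galois action of finite level
on `J[p^n]`, Eichler-Shimura relations, and faithful Hecke action (for example `J_0(N)`).  For every
homomorphism from `T` to a field `K` of characteristic zero, `K ⊗_T V` embeds in `K ⊗ T_p J`,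
equivariantly for Galois and Hecke.  (File `H32RealK.lean`; used in `H89Point.lean`, from there in
`S33`: the representation over `T` is ordinary at `p` because each of its points is, and this is read
off from the Tate module of `J_0(N)`.) -/
theorem realisation_datum {p : ℕ} [Fact p.Prime] {N : ℕ} [NeZero N] {S : Finset ℕ}
    {𝒪 : Type} [CommRing 𝒪] [IsDomain 𝒪] [IsDiscreteValuationRing 𝒪]
    [IsAdicComplete (maximalIdeal 𝒪) 𝒪]
    {θ : heckeAlgebra N 2 (↑S : Set ℕ) →+* ResidueField 𝒪}
    {T : Type} [CommRing T] [IsLocalRing T] [IsNoetherianRing T]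
    [IsAdicComplete (maximalIdeal T) T] [Algebra 𝒪 T] [IsLocalHom (algebraMap 𝒪 T)]
    [Module.Finite 𝒪 T] [Module.Free 𝒪 T] (hp𝒪 : (p : 𝒪) ∈ maximalIdeal 𝒪) (hpS : p ∈ S)
    (hNS : ∀ q : ℕ, q.Prime → q ∣ N → q ∈ S)
    (H : CuspForm.HeckeGaloisRepDatum N (↑S : Set ℕ) 𝒪 θ T)
    {J : Type*} [AddCommGroup J] [Module HeckeAlg J] [DistribMulAction H31.GQ J]
    [SMulCommClass H31.GQ HeckeAlg J] (hfin : {x : J | p • x = 0}.Finite)
    (hF : ∀ (ℓ : ℕ) (hℓ : ℓ.Prime), ¬ ℓ ∣ N * p → ∀ B : ValuationSubring (AlgebraicClosure ℚ),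
      B.LiesOverPrime ℓ → ∀ φ : H31.GQ, B.IsFrobeniusAt φ ℓ → ∀ x : J, (∃ n : ℕ, p ^ n • x = 0) →
        φ • φ • x - heckeGen ⟨ℓ, hℓ⟩ • (φ • x) + ℓ • x = 0)
    (hlev : ∀ n : ℕ, ∃ L : IntermediateField ℚ (AlgebraicClosure ℚ), FiniteDimensional ℚ L ∧
      ∀ σ : H31.GQ, (∀ x ∈ L, σ x = x) → ∀ x : J, p ^ n • x = 0 → σ • x = x)
    (hfaith : ∃ c u : ℕ, ¬ p ∣ u ∧
      ∀ (n : ℕ) (P : MvPolynomial (H31.GoodPrimes N (↑S : Set ℕ)) ℤ),
        (∀ x : J, p ^ n • x = 0 → H31.inclHecke N (↑S : Set ℕ) P • x = 0) →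
          ∃ y : heckeAlgebra N 2 (↑S : Set ℕ),
            (u : heckeAlgebra N 2 (↑S : Set ℕ)) * H31.evHecke N (↑S : Set ℕ) P =
              (p : heckeAlgebra N 2 (↑S : Set ℕ)) ^ (n - c) * y)
    {K : Type} [Field K] [CharZero K] [Algebra ℤ_[p] T] [Algebra T K] [Algebra ℤ_[p] K]
    [IsScalarTower ℤ_[p] T K] :
    ∃ F : K ⊗[T] H.ρ.V →ₗ[K] K ⊗[ℤ_[p]] H30.TateMod p J, Function.Injective F ∧
      (∀ g x, F ((H.ρ.ρ g).baseChange K x) = (H30.galTate p J g).baseChange K (F x)) ∧
      (∀ P x, (H30.actTate p J N (↑S : Set ℕ) P).baseChange K (F x) =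
        algebraMap T K (H.π (H31.evHecke N (↑S : Set ℕ) P)) • F x) :=
  H32.exists_realization_datum hp𝒪 hpS hNS H hfin hF hlev hfaith

/-- **Realisation of `E[p]`.**  Let `W` be an integral Weierstrass equation, `p` an odd prime with
`W[p]` irreducible, `S` a finite set containing `p` and the primes dividing `N` and the discriminant,
and `J` as before (Eichler-Shimura relations, finite level).  If `J[p]` contains one nonzero vector
with `T_ℓ x = a_ℓ(W) x` for all `ℓ ∤ N`, `ℓ ∉ S`, then `W[p]` embeds in `J`, equivariantly, with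
values in the vectors of this kind.  Proof: `H39.quadratic_eig`, the analogue of
`relation_eigenspace`, `burnside_residual` and `embedding_field`; `W[p]` is absolutely irreducible,
since `p` is odd and complex conjugation has determinant `-1`.
(File `H39Real.lean`; used in `H39Real2.lean`.) -/
theorem realisation_torsion {N : ℕ} {S : Finset ℕ} {p : ℕ} [Fact p.Prime] (hp2 : p ≠ 2)
    (hpS : p ∈ S) (hNS : ∀ q : ℕ, q.Prime → q ∣ N → q ∈ S) {W : WeierstrassCurve ℤ}
    (hΔ : W.Δ ≠ 0) (hΔS : ∀ q : ℕ, q.Prime → (q : ℤ) ∣ W.Δ → q ∈ S)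
    (hirr : W.ModRepIsIrreducible p)
    {J : Type*} [AddCommGroup J] [Module HeckeAlg J] [DistribMulAction H39.GQb J]
    [SMulCommClass H39.GQb HeckeAlg J]
    (hF : ∀ (ℓ : ℕ) (hℓ : ℓ.Prime), ¬ ℓ ∣ N * p → ∀ B : ValuationSubring (AlgebraicClosure ℚ),
      B.LiesOverPrime ℓ → ∀ φ : H39.GQb, B.IsFrobeniusAt φ ℓ → ∀ x : J,
        (∃ n : ℕ, p ^ n • x = 0) → φ • φ • x - heckeGen ⟨ℓ, hℓ⟩ • (φ • x) + ℓ • x = 0)
    (hlev : ∀ n : ℕ, ∃ L : IntermediateField ℚ (AlgebraicClosure ℚ), FiniteDimensional ℚ L ∧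
      ∀ σ : H39.GQb, (∀ x ∈ L, σ x = x) → ∀ x : J, p ^ n • x = 0 → σ • x = x)
    (hne : ∃ x : J, x ≠ 0 ∧ p • x = 0 ∧ ∀ ℓ : H31.GoodPrimes N (↑S : Set ℕ),
      heckeGen ℓ.1 • x = W.apOfModel (ℓ.1 : ℕ) • x) :
    ∃ ι : H39.Tor W p →+ J, Function.Injective ι ∧
      (∀ (σ : H39.GQb) (x : H39.Tor W p), ι (σ • x) = σ • ι x) ∧
      ∀ (ℓ : H31.GoodPrimes N (↑S : Set ℕ)) (x : H39.Tor W p),
        heckeGen ℓ.1 • ι x = W.apOfModel (ℓ.1 : ℕ) • ι x :=
  H39.exists_equivariant hp2 hpS hNS hΔ hΔS hirr hF hlev hne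

/-- **Residual modularity gives a realisation.**  Let `W`, `p`, `S`, `J` be as before, with finite
`p`-torsion and faithful Hecke action, let `f` be a normalised eigenform of weight two and level `N`
and `𝔪 ∋ p` a maximal ideal of the ring of algebraic integers with `a_ℓ(f) ≡ a_ℓ(W)` modulo `𝔪` for
all `ℓ ∉ S`.  Then `W[p]` embeds in `J`, with Hecke eigenvalues `a_ℓ(W)`.  Proof: reduce
`integral_character` modulo `𝔪`, and apply `eigenvector_torsion` and `realisation_torsion`.
(File `H39Real2.lean`; used there for `J = J_0(N)`, see `GuideLevels`; the starting point of the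
arguments of Mazur and Ribet in `S38`, `S39`, `S40`, `S43`, `S44`.) -/
theorem realisation_eigenform {N : ℕ} [NeZero N] {S : Finset ℕ} {p : ℕ} [Fact p.Prime]
    (hp2 : p ≠ 2) (hpS : p ∈ S) (hNS : ∀ q : ℕ, q.Prime → q ∣ N → q ∈ S)
    {W : WeierstrassCurve ℤ} (hΔ : W.Δ ≠ 0)
    (hΔS : ∀ q : ℕ, q.Prime → (q : ℤ) ∣ W.Δ → q ∈ S) (hirr : W.ModRepIsIrreducible p)
    {J : Type*} [AddCommGroup J] [Module HeckeAlg J] [DistribMulAction H39.GQb J]
    [SMulCommClass H39.GQb HeckeAlg J] (hfin : {x : J | p • x = 0}.Finite)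
    (hF : ∀ (ℓ : ℕ) (hℓ : ℓ.Prime), ¬ ℓ ∣ N * p → ∀ B : ValuationSubring (AlgebraicClosure ℚ),
      B.LiesOverPrime ℓ → ∀ φ : H39.GQb, B.IsFrobeniusAt φ ℓ → ∀ x : J,
        (∃ n : ℕ, p ^ n • x = 0) → φ • φ • x - heckeGen ⟨ℓ, hℓ⟩ • (φ • x) + ℓ • x = 0)
    (hlev : ∀ n : ℕ, ∃ L : IntermediateField ℚ (AlgebraicClosure ℚ), FiniteDimensional ℚ L ∧
      ∀ σ : H39.GQb, (∀ x ∈ L, σ x = x) → ∀ x : J, p ^ n • x = 0 → σ • x = x)
    (hfaith : ∃ c u : ℕ, ¬ p ∣ u ∧
      ∀ (n : ℕ) (P : MvPolynomial (H31.GoodPrimes N (↑S : Set ℕ)) ℤ),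
        (∀ x : J, p ^ n • x = 0 → H31.inclHecke N (↑S : Set ℕ) P • x = 0) →
          ∃ y : heckeAlgebra N 2 (↑S : Set ℕ),
            (u : heckeAlgebra N 2 (↑S : Set ℕ)) * H31.evHecke N (↑S : Set ℕ) P =
              (p : heckeAlgebra N 2 (↑S : Set ℕ)) ^ (n - c) * y)
    {f : CuspForm (CongruenceSubgroup.Gamma0 N) 2} (hf : f.IsNormalizedEigenform)
    {𝔪 : Ideal (integralClosure ℤ ℂ)} (h𝔪 : 𝔪.IsMaximal) (hp𝔪 : (p : integralClosure ℤ ℂ) ∈ 𝔪)
    (hcong : ∀ ℓ : ℕ, ℓ.Prime → ℓ ∉ S →
      ∃ a : integralClosure ℤ ℂ, (a : ℂ) = ModularFormClass.qCoeff f ℓ ∧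
        a - ((W.apOfModel ℓ : ℤ) : integralClosure ℤ ℂ) ∈ 𝔪) :
    ∃ ι : H39.Tor W p →+ J, Function.Injective ι ∧
      (∀ (σ : H39.GQb) (x : H39.Tor W p), ι (σ • x) = σ • ι x) ∧
      ∀ (ℓ : H31.GoodPrimes N (↑S : Set ℕ)) (x : H39.Tor W p),
        heckeGen ℓ.1 • ι x = W.apOfModel (ℓ.1 : ℕ) • ι x :=
  H39.exists_embedding_of_eigenform hp2 hpS hNS hΔ hΔS hirr hfin hF hlev hfaith hf h𝔪 hp𝔪 hcong

/-- **Realisation in the new part, over a discrete valuation ring.**  Let `TJ` be as in
`relation_eigenspace`, with two equivariant maps `P₁`, `P_q` to another Tate module (the degeneracy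
maps of `J_0(Mq)` to `J_0(M)`) and an equivariant operator `w` (the Atkin-Lehner involution).  Let
`r` be a continuous representation by `2 × 2` matrices over the discrete valuation ring `A` with
Frobenius traces `χ(T_ℓ)` and determinants `ℓ`, whose operators span `M₂(A)`.  If `A ⊗ TJ` contains
one nonzero Hecke eigenvector for `χ` in the kernels of `P₁`, `P_q` with eigenvalue `c` of `w`, then
`A²` embeds in the vectors of this kind, equivariantly, and the embedding is injective modulo the
maximal ideal.  Proof: these vectors form a stable saturated submodule; `relation_eigenspace` and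
`embedding_saturated`.  (File `H88RealD1.lean`; used in `H88RealD.lean` for an eigenform of level `Mq`
with `a_q = s = ± 1` and `c = -s`: `GuideAtkinLehner.realisation`.) -/
theorem realisation_vector {p : ℕ} [Fact p.Prime] {N : ℕ} [NeZero N] {S : Finset ℕ} {A : Type}
    [CommRing A] [IsDomain A] [IsDiscreteValuationRing A] [CharZero A] [Algebra ℤ_[p] A]
    {TJ : Type*} [AddCommGroup TJ] [Module ℤ_[p] TJ] [Module.Finite ℤ_[p] TJ]
    [Module.Free ℤ_[p] TJ] {T1 : Type*} [AddCommGroup T1] [Module ℤ_[p] T1] [Module.Free ℤ_[p] T1]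
    (ρT : H31.GQ →* Module.End ℤ_[p] TJ)
    (hcont : ∀ n : ℕ, ∃ L : IntermediateField ℚ (AlgebraicClosure ℚ), FiniteDimensional ℚ L ∧
      ∀ σ : H31.GQ, (∀ x ∈ L, σ x = x) → ∀ x : TJ, ∃ y : TJ, ρT σ x - x = (p : ℤ_[p]) ^ n • y)
    (act : MvPolynomial (H31.GoodPrimes N (↑S : Set ℕ)) ℤ →+* Module.End ℤ_[p] TJ)
    (hcomm : ∀ P σ, Commute (act P) (ρT σ))
    (hfrob : ∀ (a : H31.GoodPrimes N (↑S : Set ℕ)) (B : ValuationSubring (AlgebraicClosure ℚ)),
      B.LiesOverPrime (a.1 : ℕ) → ∀ φ : H31.GQ, B.IsFrobeniusAt φ (a.1 : ℕ) →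
        ∀ x : TJ, ρT φ (ρT φ x) - act (MvPolynomial.X a) (ρT φ x) + (a.1 : ℕ) • x = 0)
    (hNS : ∀ q : ℕ, q.Prime → q ∣ N → q ∈ S) (hpA : (p : A) ∈ maximalIdeal A)
    (χ : heckeAlgebra N 2 (↑S : Set ℕ) →+* A)
    {r : H31.GQ →* Matrix (Fin 2) (Fin 2) A} (hr : H53.MCont A r)
    (hchar : ∀ (ℓ : ℕ) (hℓ : ℓ.Prime) (hℓN : ¬ ℓ ∣ N) (hℓS : ℓ ∉ (↑S : Set ℕ)),
      ∀ B : ValuationSubring (AlgebraicClosure ℚ), B.LiesOverPrime ℓ →
      ∀ σ : H31.GQ, B.IsFrobeniusAt σ ℓ →
        (r σ).trace = χ (heckeAlgebra.T hℓ hℓN hℓS) ∧ (r σ).det = (ℓ : A))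
    (hspan : Submodule.span A (Set.range r) = ⊤)
    (P1 Pq : TJ →ₗ[ℤ_[p]] T1) (W : TJ →ₗ[ℤ_[p]] TJ) (ρ1 : H31.GQ → Module.End ℤ_[p] T1)
    (hP1 : ∀ g x, P1 (ρT g x) = ρ1 g (P1 x)) (hPq : ∀ g x, Pq (ρT g x) = ρ1 g (Pq x))
    (hW : ∀ g x, W (ρT g x) = ρT g (W x)) (c : A) {w : A ⊗[ℤ_[p]] TJ} (hw0 : w ≠ 0)
    (hw : ∀ P, (act P).baseChange A w = χ (H31.evHecke N (↑S : Set ℕ) P) • w)
    (hw1 : P1.baseChange A w = 0) (hwq : Pq.baseChange A w = 0)
    (hww : W.baseChange A w = c • w) :
    ∃ Φ : (Fin 2 → A) →ₗ[A] A ⊗[ℤ_[p]] TJ, Function.Injective Φ ∧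
      (∀ x, Φ x ∈ (maximalIdeal A • ⊤ : Submodule A (A ⊗[ℤ_[p]] TJ)) →
        ∀ i, x i ∈ maximalIdeal A) ∧
      (∀ g x, Φ ((r g).mulVec x) = (ρT g).baseChange A (Φ x)) ∧
      (∀ x P, (act P).baseChange A (Φ x) = χ (H31.evHecke N (↑S : Set ℕ) P) • Φ x) ∧
      (∀ x, P1.baseChange A (Φ x) = 0) ∧ (∀ x, Pq.baseChange A (Φ x) = 0) ∧
      (∀ x, W.baseChange A (Φ x) = c • Φ x) :=
  H88.RealP.exists_embedding_of_vector ρT hcont act hcomm hfrob hNS hpA χ hr hchar hspan P1 Pq W
    ρ1 hP1 hPq hW c hw0 hw hw1 hwq hww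

end Fermat.Agent.Guide.Realisation
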