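/-
H23FibLin: characteristic polynomial of a multiplication map after specialisation, from a flag (project S17, L9)
-/
import Mathlib

set_option autoImplicit false

noncomputable section

open Polynomial

namespace Fermat.Agent.H23.Fib

/-- Characteristic polynomial of an endomorphism acting by scalars on the steps of a flag. -/
theorem charpoly_of_flag {K : Type*} [Field K] {d : ℕ} (N : (Fin d → K) →ₗ[K] (Fin d → K))
    (V : ℕ → Submodule K (Fin d → K)) (χ : ℕ → K) (h0 : V 0 = ⊤) (hd : V d = ⊥)
    (h1 : ∀ k < d, ∃ u ∈ V k, ∀ f ∈ V k, ∃ c : K, f - c • u ∈ V (k + 1))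
    (h2 : ∀ k < d, ∀ f ∈ V k, N f - χ k • f ∈ V (k + 1)) :
    N.charpoly = ∏ k ∈ Finset.range d, (X - C (χ k)) := by
  classical
  choose! u hu hu' using h1
  -- `V k` is spanned by the `u j`, `j ≥ k`
  have hspan : ∀ k, k ≤ d → V k ≤ Submodule.span K ((fun j : Fin d => u j) '' {j : Fin d | k ≤ (j : ℕ)}) := by
    intro k hk
    induction' hn : d - k with n ih generalizing k
    · have : k = d := by omega
      subst this
      rw [hd]; exact bot_le
    · intro f hf
      have hkd : k < d := by omega
      obtain ⟨c, hc⟩ := hu' k hkd f hf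
      have h3 := ih (k + 1) (by omega) (by omega) hc
      have h4 : f = (f - c • u k) + c • u k := by abel
      rw [h4]
      refine add_mem (Submodule.span_mono ?_ h3) (Submodule.smul_mem _ _ (Submodule.subset_span ?_))
      · exact Set.image_mono fun j hj => by
          simp only [Set.mem_ofPred_eq] at hj ⊢
          omega
      · exact ⟨⟨k, hkd⟩, by simp, rfl⟩
  have htop : ⊤ ≤ Submodule.span K (Set.range fun j : Fin d => u j) := by
    rw [← h0]
    refine (hspan 0 (Nat.zero_le _)).trans (Submodule.span_mono ?_)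
    exact Set.image_subset_range _ _
  let bs : Module.Basis (Fin d) K (Fin d → K) :=
    basisOfTopLeSpanOfCardEqFinrank (fun j : Fin d => u j) htop (by simp)
  have hbs : ∀ j : Fin d, bs j = u j := fun j => by
    simp [bs]
  have hrepr : ∀ (k : ℕ) (f : Fin d → K), k ≤ d → f ∈ V k → ∀ i : Fin d, (i : ℕ) < k →
      bs.repr f i = 0 := by
    intro k f hk hf i hi
    have h3 := hspan k hk hf
    have h4 : (fun j : Fin d => u j) = bs := funext fun j => (hbs j).symm
    rw [h4, Module.Basis.mem_span_image] at h3
    by_contra h5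
    have := h3 (Finsupp.mem_support_iff.mpr h5)
    simp only [Set.mem_ofPred_eq] at this
    omega
  have hmat : ∀ i j : Fin d, i ≤ j → LinearMap.toMatrix bs bs N i j = if i = j then χ j else 0 := by
    intro i j hij
    have hdj := h2 j j.2 (u j) (hu j j.2)
    have h5 : bs.repr (N (u j)) i = χ j * bs.repr (u j) i + bs.repr (N (u j) - χ j • u j) i := by
      rw [map_sub, map_smul]
      simp
    have h6 : bs.repr (u j) i = if j = i then 1 else 0 := by
      rw [← hbs j, Module.Basis.repr_self, Finsupp.single_apply]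
    rw [LinearMap.toMatrix_apply, hbs, h5, h6, hrepr (j + 1) _ (by omega) hdj i
      (by rw [Fin.le_def] at hij; omega)]
    by_cases h : i = j
    · simp [h]
    · rw [if_neg h, if_neg fun h' => h h'.symm]; simp
  have hdet : (LinearMap.toMatrix bs bs N).charpoly = ∏ i : Fin d, (X - C (χ i)) := by
    rw [Matrix.charpoly, Matrix.det_of_isLowerTriangular]
    · refine Finset.prod_congr rfl fun i _ => ?_
      rw [Matrix.charmatrix_apply_eq, hmat i i le_rfl, if_pos rfl]
    · intro i j hij
      have hij' : i < j := hij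
      rw [Matrix.charmatrix_apply_ne _ _ _ (ne_of_lt hij'), hmat i j hij'.le, if_neg (ne_of_lt hij'),
        map_zero, neg_zero]
  rw [← LinearMap.charpoly_toMatrix N bs, hdet, ← Fin.prod_univ_eq_prod_range (fun k => X - C (χ k)) d]

/-- Characteristic polynomial of multiplication by `y`, specialised along `ε : R → K`, from a flag. -/
theorem charpoly_map_of_flag {K R B : Type*} [Field K] [CommRing R] [CommRing B] [Algebra R B]
    [Module.Free R B] [Module.Finite R B] [Algebra K R] [Algebra K B] [IsScalarTower K R B] {d : ℕ} (β : Module.Basis (Fin d) R B)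
    (ε : R →ₐ[K] K) (I : ℕ → Submodule K B) (χ : ℕ → K) (y : B) (h0 : I 0 = ⊤)
    (hd : ∀ f ∈ I d, ∀ i, ε (β.repr f i) = 0)
    (h1 : ∀ k < d, ∃ u ∈ I k, ∀ f ∈ I k, ∃ c : K, f - c • u ∈ I (k + 1))
    (h2 : ∀ k < d, ∀ f ∈ I k, y * f - χ k • f ∈ I (k + 1)) :
    (Algebra.lmul R B y).charpoly.map (ε : R →+* K) = ∏ k ∈ Finset.range d, (X - C (χ k)) := by
  classical
  let red : B →ₗ[K] (Fin d → K) :=
    { toFun := fun f i => ε (β.repr f i)
      map_add' := fun f g => funext fun i => by simp
      map_smul' := fun c f => funext fun i => by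
        have : c • f = algebraMap K R c • f := by rw [algebraMap_smul]
        rw [this, map_smul]
        simp }
  have hred : ∀ f i, red f i = ε (β.repr f i) := fun f i => rfl
  let M := LinearMap.toMatrix β β (Algebra.lmul R B y)
  let N : (Fin d → K) →ₗ[K] (Fin d → K) := Matrix.toLin' (M.map (ε : R →+* K))
  have hN : ∀ f, N (red f) = red (y * f) := by
    intro f
    have e1 : M.mulVec (β.repr f) = β.repr (y * f) :=
      LinearMap.toMatrix_mulVec_repr β β (Algebra.lmul R B y) f
    funext i
    have e2 := congrFun (congrArg (fun g : Fin d → R => fun i => ε (g i)) e1) i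
    rw [hred]
    refine Eq.trans ?_ e2
    show (M.map (ε : R →+* K)).mulVec (red f) i = ε (M.mulVec (β.repr f) i)
    simp [Matrix.mulVec, dotProduct, hred]
  have hsurj : Function.Surjective red := by
    intro g
    refine ⟨∑ i, algebraMap K R (g i) • β i, funext fun i => ?_⟩
    rw [hred, Module.Basis.repr_sum_self]
    simp
  have key := charpoly_of_flag N (fun k => (I k).map red) χ (by
      show (I 0).map red = ⊤
      rw [h0, Submodule.map_top, LinearMap.range_eq_top]; exact hsurj) (by
      rw [eq_bot_iff]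
      rintro _ ⟨f, hf, rfl⟩
      rw [Submodule.mem_bot]
      exact funext fun i => hd f hf i) (by
      intro k hk
      obtain ⟨u, hu, hu'⟩ := h1 k hk
      refine ⟨red u, ⟨u, hu, rfl⟩, ?_⟩
      rintro _ ⟨f, hf, rfl⟩
      obtain ⟨c, hc⟩ := hu' f hf
      exact ⟨c, f - c • u, hc, by rw [map_sub, map_smul]⟩) (by
      rintro k hk _ ⟨f, hf, rfl⟩
      exact ⟨y * f - χ k • f, h2 k hk f hf, by rw [map_sub, map_smul, hN]⟩)
  rw [← key, ← LinearMap.charpoly_toMatrix (Algebra.lmul R B y) β, ← Matrix.charpoly_map,
    Matrix.charpoly_toLin']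

end Fermat.Agent.H23.Fib
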