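/-
H23FibAlg: the fibres of `x` and the polynomials `g_y` (project S17, L9)
-/
import Mathlib
import Fermat.Agent.H23FibLin
import Fermat.Agent.H94Divisors
import Fermat.Agent.H17Zer
import Fermat.Agent.H3RR_Bridge

set_option autoImplicit false
set_option linter.unusedSectionVars false

noncomputable section

open AlgebraicCurve WithZero Polynomial IsDedekindDomain

namespace Fermat.Agent.H23.Fib

open Fermat.Agent Fermat.Agent.H3RR Fermat.Agent.H17

section Gpol

variable {K B : Type*} [Field K] [CommRing B] [Algebra K B] [Algebra K[X] B]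
  [IsScalarTower K K[X] B] [Module.Free K[X] B] [Module.Finite K[X] B]

variable (K) in
/-- the characteristic polynomial of `y` evaluated at `y`, as a polynomial in `x` -/
def Gpol (y : B) : B[X] :=
  eval₂ (mapRingHom (algebraMap K B)) (C y) (Algebra.lmul K[X] B y).charpoly

theorem eval_Gpol (y : B) : (Gpol K y).eval (algebraMap K[X] B X) = 0 := by
  have h : (evalRingHom (algebraMap K[X] B X)).comp (mapRingHom (algebraMap K B)) =
      algebraMap K[X] B := by
    apply Polynomial.ringHom_ext
    · intro c
      simp [IsScalarTower.algebraMap_apply K K[X] B]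
    · simp
  have h1 : (Gpol K y).eval (algebraMap K[X] B X) = aeval y (Algebra.lmul K[X] B y).charpoly := by
    rw [Gpol, ← coe_evalRingHom, hom_eval₂, h, aeval_def]
    simp
  have h2 := LinearMap.aeval_self_charpoly (Algebra.lmul K[X] B y)
  rw [Polynomial.aeval_algHom_apply] at h2
  have h3 := LinearMap.congr_fun h2 (1 : B)
  rw [h1]
  simpa using h3

variable (K) in
/-- the quotient of `Gpol` by `X - x` -/
def gpol (y : B) : B[X] := Gpol K y /ₘ (X - C (algebraMap K[X] B X))

theorem mul_gpol (y : B) : (X - C (algebraMap K[X] B X)) * gpol K y = Gpol K y :=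
  mul_divByMonic_eq_iff_isRoot.mpr (eval_Gpol y)

theorem map_Gpol (φ : B →ₐ[K] K) (y : B) :
    (Gpol K y).map (φ : B →+* K) = (Algebra.lmul K[X] B y).charpoly.eval (C (φ y)) := by
  have h : (mapRingHom (φ : B →+* K)).comp (mapRingHom (algebraMap K B)) = RingHom.id K[X] := by
    apply Polynomial.ringHom_ext
    · intro c
      simp
    · simp
  rw [Gpol, ← coe_mapRingHom, hom_eval₂, h]
  simp

theorem eval₂_Gpol (φ : B →ₐ[K] K) (a : K) (y : B) :
    (Gpol K y).eval₂ (φ : B →+* K) a =
      ((Algebra.lmul K[X] B y).charpoly.map (evalRingHom a)).eval (φ y) := by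
  rw [← eval_map, map_Gpol, eval_map]
  induction (Algebra.lmul K[X] B y).charpoly using Polynomial.induction_on' with
  | add p q hp hq => rw [eval_add, eval_add, hp, hq, eval₂_add]
  | monomial n c => simp

end Gpol

/-- `B` is a model of the ring of functions regular where `x` is. -/
structure Model (K : Type*) {F : Type*} (B : Type*) [Field K] [Field F] [Algebra K F] [CommRing B]
    [IsDedekindDomain B] [Algebra B F] [IsFractionRing B F] [Algebra K B] [IsScalarTower K B F]
    [Algebra K[X] B] [IsScalarTower K K[X] B] (x : F) : Prop where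
  hX : algebraMap B F (algebraMap K[X] B X) = x
  hmem : ∀ (b : B) (v : Place K F), x ∈ v.toValuationSubring → algebraMap B F b ∈ v.toValuationSubring

namespace Model

variable {K F B : Type*} [Field K] [Field F] [Algebra K F] [CommRing B]
    [IsDedekindDomain B] [Algebra B F] [IsFractionRing B F] [Algebra K B] [IsScalarTower K B F]
    [Algebra K[X] B] [IsScalarTower K K[X] B] {x : F}

theorem mem_of_forall (M : Model K B x) {v : Place K F}
    (h : ∀ b : B, algebraMap B F b ∈ v.toValuationSubring) : x ∈ v.toValuationSubring := by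
  rw [← M.hX]; exact h _

theorem exists_of_reg (M : Model K B x) (f : F)
    (hf : ∀ v : Place K F, x ∈ v.toValuationSubring → f ∈ v.toValuationSubring) :
    ∃ b : B, algebraMap B F b = f := by
  refine HeightOneSpectrum.mem_integers_of_valuation_le_one F f fun w => ?_
  have h1 : x ∈ (Place.ofHeightOneSpectrum (K := K) (F := F) w).toValuationSubring :=
    M.mem_of_forall (H94.algebraMap_mem_ofHeightOneSpectrum (K := K) (F := F) w)
  have h2 := hf _ h1
  rwa [Place.ofHeightOneSpectrum_toValuationSubring, Valuation.mem_valuationSubring_iff] at h2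

variable [IsAlgClosed K] [IsFF K F]

/-- evaluation at a place where `x` is regular -/
def evB (M : Model K B x) (v : Place K F) (hv : x ∈ v.toValuationSubring) : B →ₐ[K] K where
  toFun b := val v (algebraMap B F b)
  map_one' := by rw [map_one, val_one]
  map_zero' := by rw [map_zero, val_zero]
  map_add' b c := by rw [map_add, val_add v (M.hmem b v hv) (M.hmem c v hv)]
  map_mul' b c := by rw [map_mul, val_mul v (M.hmem b v hv) (M.hmem c v hv)]
  commutes' c := by
    rw [← IsScalarTower.algebraMap_apply K B F, val_algebraMap]; rfl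

theorem evB_apply (M : Model K B x) {v : Place K F} (hv : x ∈ v.toValuationSubring) (b : B) :
    M.evB v hv b = val v (algebraMap B F b) := rfl

theorem evB_X (M : Model K B x) {v : Place K F} (hv : x ∈ v.toValuationSubring) :
    M.evB v hv (algebraMap K[X] B X) = val v x := by
  rw [evB_apply, M.hX]

theorem evB_algebraMap (M : Model K B x) {v : Place K F} (hv : x ∈ v.toValuationSubring) (p : K[X]) :
    M.evB v hv (algebraMap K[X] B p) = p.eval (val v x) := by
  have h : (M.evB v hv).comp (IsScalarTower.toAlgHom K K[X] B) = aeval (val v x) := by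
    apply Polynomial.algHom_ext
    rw [aeval_X]
    exact M.evB_X hv
  have := DFunLike.congr_fun h p
  rw [aeval_def, eval₂_eq_eval_map, Algebra.algebraMap_self, Polynomial.map_id] at this
  exact this

theorem evB_eq_zero_iff (M : Model K B x) {v : Place K F} (hv : x ∈ v.toValuationSubring) (b : B) :
    M.evB v hv b = 0 ↔ v.adicValuation (algebraMap B F b) < 1 := by
  constructor
  · intro h
    have := val_spec v (M.hmem b v hv)
    rw [← M.evB_apply hv, h, map_zero, sub_zero] at this
    exact this
  · intro h
    rw [evB_apply]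
    exact val_eq v (by rw [map_zero, sub_zero]; exact h)

theorem adic_sub_evB_lt (M : Model K B x) {v : Place K F} (hv : x ∈ v.toValuationSubring) (b : B) :
    v.adicValuation (algebraMap B F b - algebraMap K F (M.evB v hv b)) < 1 :=
  val_spec v (M.hmem b v hv)

theorem exists_place_of_algHom (M : Model K B x) (hx : Transcendental K x) (φ : B →ₐ[K] K) :
    ∃ (v : Place K F) (hv : x ∈ v.toValuationSubring), ∀ b, φ b = M.evB v hv b := by
  classical
  have hsurj : Function.Surjective φ := fun c => ⟨algebraMap K B c, by rw [φ.commutes]; rfl⟩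
  have hmax : (RingHom.ker φ).IsMaximal := RingHom.ker_isMaximal_of_surjective _ hsurj
  have hne : RingHom.ker φ ≠ ⊥ := by
    intro h
    set c := φ (algebraMap K[X] B X) with hc
    have h1 : algebraMap K[X] B X - algebraMap K B c ∈ RingHom.ker φ := by
      rw [RingHom.mem_ker, map_sub, φ.commutes, ← hc]
      exact sub_self _
    rw [h, Ideal.mem_bot, sub_eq_zero] at h1
    have h2 := congrArg (algebraMap B F) h1
    rw [M.hX, ← IsScalarTower.algebraMap_apply K B F] at h2
    exact hx (h2 ▸ isAlgebraic_algebraMap c)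
  let w : HeightOneSpectrum B := ⟨RingHom.ker φ, hmax.isPrime, hne⟩
  let v : Place K F := Place.ofHeightOneSpectrum w
  have hv : x ∈ v.toValuationSubring :=
    M.mem_of_forall (H94.algebraMap_mem_ofHeightOneSpectrum (K := K) (F := F) w)
  refine ⟨v, hv, fun b => ?_⟩
  have h1 : b - algebraMap K B (φ b) ∈ w.asIdeal := by
    show b - algebraMap K B (φ b) ∈ RingHom.ker φ
    rw [RingHom.mem_ker, map_sub, φ.commutes]
    exact sub_self _
  have hR := H94.algebraMap_mem_ofHeightOneSpectrum (K := K) (F := F) w
  have h2 := H94.primeBelow_ofHeightOneSpectrum (K := K) (F := F) w hR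
  rw [← h2, H94.mem_primeBelow_iff] at h1
  have h3 : M.evB v hv (b - algebraMap K B (φ b)) = 0 := by
    rw [M.evB_eq_zero_iff hv]
    rcases h1 with h1 | h1
    · rw [h1, map_zero, map_zero]; exact zero_lt_one
    · have h0 : algebraMap B F (b - algebraMap K B (φ b)) ≠ 0 := by
        intro h0; rw [h0] at h1; simp at h1
      rw [v.adicValuation_eq_exp_neg_ord h0, show (1 : ℤᵐ⁰) = exp 0 from rfl, exp_lt_exp]
      show -v.ord _ < 0
      have : 0 < v.ord (algebraMap B F (b - algebraMap K B (φ b))) := h1
      omega
  rw [map_sub, (M.evB v hv).commutes, sub_eq_zero] at h3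
  exact h3.symm

/-- a function vanishing to order exactly one at `v` and not vanishing at finitely many further places -/
theorem exists_unif (M : Model K B x) {v : Place K F} (hv : x ∈ v.toValuationSubring)
    (T : Finset (Place K F)) (hT : ∀ w ∈ T, x ∈ w.toValuationSubring) (hvT : v ∉ T) :
    ∃ b : B, M.evB v hv b = 0 ∧ ¬ v.adicValuation (algebraMap B F b) ≤ exp (-2 : ℤ) ∧
      ∀ w (hw : x ∈ w.toValuationSubring), w ∈ T → M.evB w hw b ≠ 0 := by
  classical
  have hR : ∀ w : Place K F, x ∈ w.toValuationSubring → ∀ b : B,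
    algebraMap B F b ∈ w.toValuationSubring := fun w hw b => M.hmem b w hw
  let P : Place K F → Ideal B := fun w =>
    if hw : x ∈ w.toValuationSubring then (H94.primeBelow w (hR w hw)).asIdeal else ⊥
  have hP : ∀ w (hw : x ∈ w.toValuationSubring), P w = (H94.primeBelow w (hR w hw)).asIdeal :=
    fun w hw => dif_pos hw
  have hPmem : ∀ w (hw : x ∈ w.toValuationSubring) (b : B), b ∈ P w ↔ M.evB w hw b = 0 := by
    intro w hw b
    rw [hP w hw, H94.mem_primeBelow_iff, M.evB_eq_zero_iff hw]
    by_cases hb : b = 0
    · rw [hb, map_zero, map_zero]; simp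
    · have h0 : algebraMap B F b ≠ 0 := by
        rw [ne_eq, map_eq_zero_iff _ (IsFractionRing.injective B F)]; exact hb
      rw [w.adicValuation_eq_exp_neg_ord h0, show (1 : ℤᵐ⁰) = exp 0 from rfl, exp_lt_exp,
        or_iff_right hb]
      omega
  let W := H94.primeBelow v (hR v hv)
  have hWv : Place.ofHeightOneSpectrum (K := K) (F := F) W = v :=
    H94.ofHeightOneSpectrum_primeBelow v (hR v hv)
  -- prime avoidance
  let f : Option (Place K F) → Ideal B := fun o => match o with
    | none => P v ^ 2
    | some w => P w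
  have hkey : ¬ ((P v : Set B) ⊆ (f none : Set B) ∪ f none ∪ ⋃ i ∈ (↑(T.image some) : Set (Option (Place K F))), f i) := by
    intro hsub
    have hsub' := (Ideal.subset_union_prime' (s := T.image some) (f := f) (a := none) (b := none)
      (fun i hi => by
        obtain ⟨w, hw, rfl⟩ := Finset.mem_image.mp hi
        show (P w).IsPrime
        rw [hP w (hT w hw)]; exact (H94.primeBelow w _).isPrime) (I := P v)).mp hsub
    have hsq : ¬ P v ≤ P v ^ 2 := by
      intro h
      have h1 := Ideal.pow_right_strictAnti (P v) (by rw [hP v hv]; exact W.ne_bot)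
        (by rw [hP v hv]; exact W.isPrime.ne_top)
      have h2 := h1 (show 1 < 2 by norm_num)
      simp only [pow_one] at h2
      exact absurd h (not_le_of_gt h2)
    rcases hsub' with h | h | ⟨i, hi, h⟩
    · exact hsq h
    · exact hsq h
    obtain ⟨w, hw, rfl⟩ := Finset.mem_image.mp hi
    have h1 : P v ≤ P w := h
    have hw' := hT w hw
    have h2 : P v = P w := by
      rw [hP v hv, hP w hw'] at h1 ⊢
      exact ((H94.primeBelow v (hR v hv)).isMaximal).eq_of_le (H94.primeBelow w (hR w hw')).isPrime.ne_top h1
    rw [hP v hv, hP w hw'] at h2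
    have h3 : H94.primeBelow v (hR v hv) = H94.primeBelow w (hR w hw') := HeightOneSpectrum.ext h2
    have h4 : v = w := by
      rw [← H94.ofHeightOneSpectrum_primeBelow v (hR v hv), h3,
        H94.ofHeightOneSpectrum_primeBelow w (hR w hw')]
    exact hvT (h4 ▸ hw)
  obtain ⟨b, hb, hb'⟩ := Set.not_subset.mp hkey
  simp only [Set.mem_union, not_or, Set.mem_iUnion, not_exists] at hb'
  refine ⟨b, (hPmem v hv b).mp hb, ?_, fun w hw hwT h => ?_⟩
  · intro h
    apply hb'.1.1
    show b ∈ P v ^ 2
    rw [hP v hv, ← HeightOneSpectrum.intValuation_le_pow_iff_mem, ← W.valuation_of_algebraMap (K := F)]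
    by_cases hb0 : b = 0
    · simp [hb0]
    have h0 : algebraMap B F b ≠ 0 := by
      rw [ne_eq, map_eq_zero_iff _ (IsFractionRing.injective B F)]; exact hb0
    have h1 := H94.ord_ofHeightOneSpectrum (K := K) (F := F) W (algebraMap B F b)
    rw [hWv] at h1
    rw [v.adicValuation_eq_exp_neg_ord h0, exp_le_exp] at h
    have h2 : W.valuation F (algebraMap B F b) ≠ 0 := by
      rw [ne_eq, map_eq_zero]; exact h0
    rw [← exp_log h2, exp_le_exp]
    push_cast
    omega
  · exact hb'.2 (some w) (Finset.mem_coe.mpr (Finset.mem_image_of_mem _ hwT)) ((hPmem w hw b).mpr h)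

/-- `A` is the fibre of `x` over `a` (with multiplicities) -/
def IsFib (x : F) (a : K) (A : Multiset (Place K F)) : Prop := by
  classical exact (∀ v ∈ A, x ∈ v.toValuationSubring) ∧ ∀ v : Place K F, x ∈ v.toValuationSubring →
    v.adicValuation (x - algebraMap K F a) = exp (-(A.count v : ℤ))

theorem val_of_isFib {a : K} {A : Multiset (Place K F)} (hA : IsFib x a A) {v : Place K F}
    (hv : v ∈ A) : val v x = a := by
  classical
  apply val_eq
  rw [hA.2 v (hA.1 v hv), show (1 : ℤᵐ⁰) = exp 0 from rfl, exp_lt_exp]
  have : 0 < A.count v := Multiset.count_pos.mpr hv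
  omega

theorem mem_of_isFib {a : K} {A : Multiset (Place K F)} (hA : IsFib x a A) {v : Place K F}
    (hv : x ∈ v.toValuationSubring) (h : val v x = a) : v ∈ A := by
  classical
  have h1 := val_spec v hv
  rw [h, hA.2 v hv, show (1 : ℤᵐ⁰) = exp 0 from rfl, exp_lt_exp] at h1
  exact Multiset.count_pos.mp (by omega)

open Classical in
/-- the steps of the flag -/
def flag (_M : Model K B x) (l : List (Place K F)) (k : ℕ) : Submodule K B where
  carrier := {b : B | ∀ v : Place K F, x ∈ v.toValuationSubring →
    v.adicValuation (algebraMap B F b) ≤ exp (-((l.take k).count v : ℤ))}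
  zero_mem' := fun v _ => by rw [map_zero, map_zero]; exact zero_le
  add_mem' := fun {b c} hb hc v hv => by
    show v.adicValuation (algebraMap B F (b + c)) ≤ _
    rw [map_add]
    exact (Valuation.map_add _ _ _).trans (max_le (hb v hv) (hc v hv))
  smul_mem' := fun c b hb v hv => by
    show v.adicValuation (algebraMap B F (c • b)) ≤ _
    rw [Algebra.smul_def, map_mul, map_mul, ← IsScalarTower.algebraMap_apply K B F]
    calc _ ≤ 1 * v.adicValuation (algebraMap B F b) :=
          mul_le_mul_left (v.adicValuation_algebraMap_le_one _) _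
      _ ≤ _ := by rw [one_mul]; exact hb v hv

open Classical in
theorem mem_flag (M : Model K B x) {l : List (Place K F)} {k : ℕ} {b : B} :
    b ∈ M.flag l k ↔ ∀ v : Place K F, x ∈ v.toValuationSubring →
      v.adicValuation (algebraMap B F b) ≤ exp (-((l.take k).count v : ℤ)) := Iff.rfl

open Classical in
theorem mem_flag_succ (M : Model K B x) {l : List (Place K F)} (hl : ∀ v ∈ l, x ∈ v.toValuationSubring)
    {k : ℕ} (hk : k < l.length) {b : B} :
    b ∈ M.flag l (k + 1) ↔ b ∈ M.flag l k ∧
      l[k].adicValuation (algebraMap B F b) ≤ exp (-((l.take k).count l[k] : ℤ) - 1) := by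
  have hc : ∀ v : Place K F, ((l.take (k + 1)).count v : ℤ) = (l.take k).count v + if l[k] = v then 1 else 0 := by
    intro v
    rw [List.take_succ_eq_append_getElem hk, List.count_append, List.count_singleton]
    by_cases h : l[k] = v
    · simp [h]
    · have : ¬ (l[k] == v) = true := by simpa using h
      simp [h]
  constructor
  · intro h
    refine ⟨fun v hv => (h v hv).trans (exp_le_exp.mpr ?_), ?_⟩
    · rw [hc]; split_ifs <;> omega
    · have := h l[k] (hl _ (List.getElem_mem hk))
      rw [hc, if_pos rfl] at this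
      refine this.trans (exp_le_exp.mpr ?_)
      omega
  · rintro ⟨h, h'⟩ v hv
    rw [hc]
    by_cases hv' : l[k] = v
    · subst hv'
      rw [if_pos rfl]
      refine h'.trans (exp_le_exp.mpr ?_)
      omega
    · rw [if_neg hv', add_zero]
      exact h v hv

variable [Module.Free K[X] B] [Module.Finite K[X] B]

/-- Characteristic polynomial of the multiplication by `y`, at `x = a`. -/
theorem charpoly_map (M : Model K B x) (hx : Transcendental K x) {a : K}
    {A : Multiset (Place K F)} (hA : IsFib x a A)
    (hcard : A.card = Module.finrank K[X] B) (y : B) :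
    (Algebra.lmul K[X] B y).charpoly.map (evalRingHom a) =
      (A.map fun P => X - C (val P (algebraMap B F y))).prod := by
  classical
  set d := Module.finrank K[X] B with hd
  set l := A.toList with hl
  have hlen : l.length = d := by rw [hl, Multiset.length_toList, hcard]
  have hlA : ∀ v, v ∈ l ↔ v ∈ A := fun v => Multiset.mem_toList
  have hlx : ∀ v ∈ l, x ∈ v.toValuationSubring := fun v hv => hA.1 v ((hlA v).mp hv)
  let χ : ℕ → K := fun k => if hk : k < l.length then val l[k] (algebraMap B F y) else 0
  let β : Module.Basis (Fin d) K[X] B := Module.finBasis K[X] B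
  have key := charpoly_map_of_flag β (Polynomial.aeval a : K[X] →ₐ[K] K) (M.flag l) χ y ?_ ?_ ?_ ?_
  · have e : ((Polynomial.aeval a : K[X] →ₐ[K] K) : K[X] →+* K) = evalRingHom a := by
      apply Polynomial.ringHom_ext <;> simp
    rw [e] at key
    rw [key]
    have h1 : A = (l : Multiset (Place K F)) := (Multiset.coe_toList A).symm
    rw [h1, Multiset.map_coe, Multiset.prod_coe, ← hlen,
      ← Fin.prod_univ_eq_prod_range (fun k => X - C (χ k)) l.length, ← Fin.prod_univ_fun_getElem]
    exact Finset.prod_congr rfl fun i _ => by simp [χ]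
  · rw [eq_top_iff]
    intro b _ v hv
    rw [List.take_zero, List.count_nil]
    exact v.adicValuation_le_one_of_mem (M.hmem b v hv)
  · intro f hf i
    have h1 : ∀ v : Place K F, x ∈ v.toValuationSubring →
        algebraMap B F f * (x - algebraMap K F a)⁻¹ ∈ v.toValuationSubring := by
      intro v hv
      have h2 := hf v hv
      rw [mem_iff_adicValuation_le_one, map_mul, map_inv₀, hA.2 v hv]
      have h3 : (l.take d).count v = A.count v := by
        rw [← hlen, List.take_length, ← Multiset.coe_count, hl, Multiset.coe_toList]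
      rw [h3] at h2
      calc _ ≤ exp (-(A.count v : ℤ)) * (exp (-(A.count v : ℤ)))⁻¹ := mul_le_mul_left h2 _
        _ = 1 := mul_inv_cancel₀ exp_ne_zero
    obtain ⟨g, hg⟩ := M.exists_of_reg _ h1
    have hxa : x - algebraMap K F a ≠ 0 := by
      intro h
      exact hx (by rw [sub_eq_zero.mp h]; exact isAlgebraic_algebraMap a)
    have h2 : f = (X - C a : K[X]) • g := by
      apply IsFractionRing.injective B F
      rw [Algebra.smul_def, map_mul, hg, map_sub, map_sub, M.hX]
      have : algebraMap B F (algebraMap K[X] B (C a)) = algebraMap K F a := by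
        rw [IsScalarTower.algebraMap_apply K B F, IsScalarTower.algebraMap_apply K K[X] B]; rfl
      rw [this]
      field_simp
    rw [h2, map_smul]
    simp
  · intro k hk
    rw [← hlen] at hk
    by_cases h : ∃ u ∈ M.flag l k, u ∉ M.flag l (k + 1)
    · obtain ⟨u, hu, hu'⟩ := h
      refine ⟨u, hu, fun f hf => ?_⟩
      rw [M.mem_flag_succ hlx hk, not_and, not_le] at hu'
      have hu2 := hu' hu
      set P := l[k] with hP
      have hPx : x ∈ P.toValuationSubring := hlx _ (List.getElem_mem hk)
      set m : ℤ := ((l.take k).count P : ℤ) with hm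
      have hu3 : P.adicValuation (algebraMap B F u) ≤ exp (-m) := hu P hPx
      have hf3 : P.adicValuation (algebraMap B F f) ≤ exp (-m) := hf P hPx
      have hu0 : algebraMap B F u ≠ 0 := by
        intro h0; rw [h0, map_zero] at hu2; exact not_lt_zero hu2
      have hu4 : P.adicValuation (algebraMap B F u) = exp (-m) := by
        rw [P.adicValuation_eq_exp_neg_ord hu0] at hu2 hu3 ⊢
        rw [exp_lt_exp] at hu2
        rw [exp_le_exp] at hu3
        congr 1
        omega
      have h4 : P.adicValuation (algebraMap B F f * (algebraMap B F u)⁻¹) ≤ 1 := by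
        rw [map_mul, map_inv₀, hu4]
        calc _ ≤ exp (-m) * (exp (-m))⁻¹ := mul_le_mul_left hf3 _
          _ = 1 := mul_inv_cancel₀ exp_ne_zero
      obtain ⟨c, hc⟩ := exists_const_sub_lt_one P h4
      refine ⟨c, (M.mem_flag_succ hlx hk).mpr ⟨sub_mem hf (Submodule.smul_mem _ _ hu), ?_⟩⟩
      rw [adicValuation_lt_one_iff] at hc
      have h5 : algebraMap B F (f - c • u) =
          (algebraMap B F f * (algebraMap B F u)⁻¹ - algebraMap K F c) * algebraMap B F u := by
        rw [Algebra.smul_def, map_sub, map_mul, ← IsScalarTower.algebraMap_apply K B F]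
        field_simp
      rw [h5, map_mul, hu4]
      calc _ ≤ exp (-1 : ℤ) * exp (-m) := mul_le_mul_left hc _
        _ = exp (-m - 1) := by rw [← exp_add]; congr 1; ring
    · push Not at h
      exact ⟨0, zero_mem _, fun f hf => ⟨0, by simpa using h f hf⟩⟩
  · intro k hk f hf
    rw [← hlen] at hk
    have hχ : χ k = val l[k] (algebraMap B F y) := dif_pos hk
    have hPx : x ∈ l[k].toValuationSubring := hlx _ (List.getElem_mem hk)
    have e : algebraMap B F (y * f - χ k • f) =
        (algebraMap B F y - algebraMap K F (M.evB _ hPx y)) * algebraMap B F f := by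
      rw [Algebra.smul_def, map_sub, map_mul, map_mul, ← IsScalarTower.algebraMap_apply K B F, hχ]
      rw [M.evB_apply]; ring
    refine (M.mem_flag_succ hlx hk).mpr ⟨fun v hv => ?_, ?_⟩
    · rw [e, map_mul]
      calc _ ≤ 1 * v.adicValuation (algebraMap B F f) := by
            refine mul_le_mul_left (v.adicValuation_le_one_of_mem ?_) _
            exact sub_mem (M.hmem y v hv) (v.algebraMap_mem' _)
        _ ≤ _ := by rw [one_mul]; exact hf v hv
    · rw [e, map_mul]
      have h1 := M.adic_sub_evB_lt hPx y
      rw [adicValuation_lt_one_iff] at h1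
      calc _ ≤ exp (-1 : ℤ) * exp (-((l.take k).count l[k] : ℤ)) := mul_le_mul' h1 (hf _ hPx)
        _ = _ := by rw [← exp_add]; congr 1; ring

/-- the fundamental identity -/
theorem mul_eval₂_gpol (M : Model K B x) (hx : Transcendental K x) {a : K}
    {A : Multiset (Place K F)} (hA : IsFib x a A) (hcard : A.card = Module.finrank K[X] B)
    {Q : Place K F} (hQ : x ∈ Q.toValuationSubring) (y : B) :
    (a - val Q x) * (gpol K y).eval₂ (M.evB Q hQ : B →+* K) a =
      (A.map fun P => val Q (algebraMap B F y) - val P (algebraMap B F y)).prod := by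
  have h1 := congrArg (eval₂ (M.evB Q hQ : B →+* K) a) (mul_gpol (K := K) y)
  rw [eval₂_mul, eval₂_sub, eval₂_X, eval₂_C, eval₂_Gpol, M.charpoly_map hx hA hcard,
    eval_multiset_prod, Multiset.map_map] at h1
  have h2 : (M.evB Q hQ : B →+* K) (algebraMap K[X] B X) = val Q x := M.evB_X hQ
  rw [h2] at h1
  rw [h1]
  refine congrArg Multiset.prod (Multiset.map_congr rfl fun P _ => ?_)
  simp [evB_apply]

omit [IsDedekindDomain B] [IsFractionRing B F] [IsScalarTower K B F] [Algebra B F] [Algebra K B]
  [IsScalarTower K K[X] B] [Module.Free K[X] B] [Module.Finite K[X] B] in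
theorem isFib_of_isZer (hx : Transcendental K x) {a : K} {A : Multiset (Place K F)}
    (hA : IsZer x 1 (x - algebraMap K F a) A) : IsFib x a A := by
  classical
  have hxa : x - algebraMap K F a ≠ 0 := by
    intro h
    exact hx (by rw [sub_eq_zero.mp h]; exact isAlgebraic_algebraMap a)
  have hx0 : x ≠ 0 := transcendental_ne_zero hx
  refine ⟨fun v hv => ?_, fun v hv => ?_⟩
  · by_contra h
    have h1 := hA v
    rw [nf_of_notMem h, pow_one, sub_mul, mul_inv_cancel₀ hx0] at h1
    have h2 : 0 < v.ord (1 - algebraMap K F a * x⁻¹) := by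
      rw [← h1]; exact_mod_cast Multiset.count_pos.mpr hv
    have h3 : (1 : F) - algebraMap K F a * x⁻¹ ∈ v.toValuationSubring :=
      sub_mem (one_mem _) (mul_mem (v.algebraMap_mem' a) (inv_mem_of_notMem v h))
    have h0 : (1 : F) - algebraMap K F a * x⁻¹ ≠ 0 := by
      intro h0; rw [h0] at h2; simp at h2
    rw [← val_eq_zero_iff v h0 h3, val_sub v (one_mem _)
      (mul_mem (v.algebraMap_mem' a) (inv_mem_of_notMem v h)), val_one,
      val_mul v (v.algebraMap_mem' a) (inv_mem_of_notMem v h), val_inv_of_notMem v h] at h2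
    simp at h2
  · have h1 := hA v
    rw [nf_of_mem hv, pow_one, mul_one] at h1
    rw [v.adicValuation_eq_exp_neg_ord hxa, ← h1]

theorem exists_isFib (_M : Model K B x) (hx : Transcendental K x)
    (hrank : Module.finrank K[X] B = Module.finrank (IntermediateField.adjoin K {x}) F) (a : K) :
    ∃ A : Multiset (Place K F), IsFib x a A ∧ A.card = Module.finrank K[X] B := by
  have hxa : x - algebraMap K F a ≠ 0 := by
    intro h
    exact hx (by rw [sub_eq_zero.mp h]; exact isAlgebraic_algebraMap a)
  have hmem : x - algebraMap K F a ∈ W K x 1 := by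
    refine sub_mem (self_mem_W x) ?_
    rw [Algebra.algebraMap_eq_smul_one]
    exact Submodule.smul_mem _ _ (one_mem_W x 1)
  obtain ⟨A, hA⟩ := exists_isZer hx hmem hxa
  refine ⟨A, isFib_of_isZer hx hA, ?_⟩
  rw [IsZer.card_eq hx hxa hA, one_mul, hrank]

theorem isUnit_of_algHom (M : Model K B x) (hx : Transcendental K x)
    (hrank : Module.finrank K[X] B = Module.finrank (IntermediateField.adjoin K {x}) F)
    {Q : Place K F} (hQ : x ∈ Q.toValuationSubring) (a : K) :
    ∃ y : B, (gpol K y).eval₂ (M.evB Q hQ : B →+* K) a ≠ 0 := by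
  classical
  obtain ⟨A, hA, hcard⟩ := M.exists_isFib hx hrank a
  by_cases ha : a = val Q x
  swap
  · refine ⟨algebraMap K[X] B X, fun h => ?_⟩
    have h1 := M.mul_eval₂_gpol hx hA hcard hQ (algebraMap K[X] B X)
    rw [h, mul_zero, M.hX] at h1
    have h2 := Multiset.prod_eq_zero_iff.mp h1.symm
    obtain ⟨P, hP, hP'⟩ := Multiset.mem_map.mp h2
    rw [val_of_isFib hA hP, sub_eq_zero] at hP'
    exact ha hP'.symm
  · have hQA : Q ∈ A := mem_of_isFib hA hQ ha.symm
    obtain ⟨y, hy0, hy1, hy2⟩ := M.exists_unif hQ (A.toFinset.erase Q)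
      (fun w hw => hA.1 w (Multiset.mem_toFinset.mp (Finset.mem_of_mem_erase hw)))
      (Finset.notMem_erase _ _)
    refine ⟨y, fun h => ?_⟩
    set e := A.count Q with he
    have he1 : 1 ≤ e := Multiset.one_le_count_iff_mem.mpr hQA
    set χ := (Algebra.lmul K[X] B y).charpoly with hχ
    -- the order of `y` at `Q` is one
    have hyF0 : algebraMap B F y ≠ 0 := by
      intro h0; rw [h0, map_zero] at hy1; exact hy1 zero_le
    have hyQ : Q.adicValuation (algebraMap B F y) = exp (-1 : ℤ) := by
      have h1 := (M.evB_eq_zero_iff hQ y).mp hy0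
      rw [adicValuation_lt_one_iff] at h1
      rw [Q.adicValuation_eq_exp_neg_ord hyF0] at hy1 h1 ⊢
      rw [exp_le_exp] at hy1 h1
      congr 1
      omega
    have hxa : Q.adicValuation (x - algebraMap K F a) = exp (-(e : ℤ)) := hA.2 Q hQ
    -- divisibility by `X - a` gives valuation at most `exp (-e)`
    have hdiv : ∀ (p : K[X]) (n : ℕ), (X - C a) ^ n ∣ p →
        Q.adicValuation (algebraMap B F (algebraMap K[X] B p)) ≤ exp (-(n * e : ℤ)) := by
      rintro p n ⟨q, rfl⟩
      have h2 : algebraMap B F (algebraMap K[X] B (X - C a)) = x - algebraMap K F a := by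
        rw [map_sub, map_sub, M.hX]
        congr 1
        rw [IsScalarTower.algebraMap_apply K B F, IsScalarTower.algebraMap_apply K K[X] B]; rfl
      rw [map_mul, map_mul, map_mul, map_pow, map_pow, map_pow, h2, hxa]
      calc _ ≤ exp (-(e : ℤ)) ^ n * 1 :=
            mul_le_mul_right (Q.adicValuation_le_one_of_mem (M.hmem _ Q hQ)) _
        _ = exp (-(n * e : ℤ)) := by rw [mul_one, ← exp_nsmul]; congr 1; simp
    -- the specialised polynomial
    have hsp := M.charpoly_map hx hA hcard y
    rw [← hχ] at hsp
    have hfac : (A.map fun P => X - C (val P (algebraMap B F y))).prod =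
        X ^ e * ((A.filter (· ≠ Q)).map fun P => X - C (val P (algebraMap B F y))).prod := by
      have h1 : A = A.filter (· = Q) + A.filter (· ≠ Q) :=
        (Multiset.filter_add_not (fun P => P = Q) A).symm
      conv_lhs => rw [h1]
      have hrep : A.filter (fun x => x = Q) = Multiset.replicate e Q := by
        rw [he]; convert Multiset.filter_eq' A Q
      rw [Multiset.map_add, Multiset.prod_add, hrep, Multiset.map_replicate,
        Multiset.prod_replicate]
      have : val Q (algebraMap B F y) = 0 := hy0
      rw [this, map_zero, sub_zero]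
    rw [hfac] at hsp
    have hlow : ∀ i < e, (χ.coeff i).eval a = 0 := by
      intro i hi
      have h1 := congrArg (fun p => p.coeff i) hsp
      simp only [coeff_map, coe_evalRingHom] at h1
      rw [h1, coeff_X_pow_mul', if_neg (by omega)]
    have hmid : (χ.coeff e).eval a ≠ 0 := by
      have h1 := congrArg (fun p => p.coeff e) hsp
      simp only [coeff_map, coe_evalRingHom] at h1
      rw [h1, coeff_X_pow_mul', if_pos le_rfl, Nat.sub_self, coeff_zero_eq_eval_zero,
        eval_multiset_prod, Multiset.map_map]
      intro h2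
      obtain ⟨P, hP, hP'⟩ := Multiset.mem_map.mp (Multiset.prod_eq_zero_iff.mp h2)
      rw [Multiset.mem_filter] at hP
      have hPx := hA.1 P hP.1
      refine hy2 P hPx (Finset.mem_erase.mpr ⟨hP.2, Multiset.mem_toFinset.mpr hP.1⟩) ?_
      simpa [evB_apply] using hP'
    -- the constant coefficient is divisible by `(X - a) ^ 2`
    have hzero : (X - C a) ^ 2 ∣ χ.coeff 0 := by
      have h1 := congrArg (Polynomial.map (M.evB Q hQ : B →+* K)) (mul_gpol (K := K) y)
      rw [map_Gpol, hy0, map_zero, ← coeff_zero_eq_eval_zero, Polynomial.map_mul,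
        Polynomial.map_sub, map_X, map_C] at h1
      have h2 : (M.evB Q hQ : B →+* K) (algebraMap K[X] B X) = a := by
        rw [ha]; exact M.evB_X hQ
      rw [h2] at h1
      rw [← h1, pow_two]
      refine mul_dvd_mul_left _ (dvd_iff_isRoot.mpr ?_)
      rw [IsRoot.def, eval_map]; exact h
    -- contradiction
    have hCH : ∑ i ∈ Finset.range (χ.natDegree + 1),
        algebraMap B F (algebraMap K[X] B (χ.coeff i)) * algebraMap B F y ^ i = 0 := by
      have h2 := LinearMap.aeval_self_charpoly (Algebra.lmul K[X] B y)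
      rw [Polynomial.aeval_algHom_apply, ← hχ] at h2
      have h3 : aeval y χ = 0 := by simpa using LinearMap.congr_fun h2 (1 : B)
      rw [aeval_eq_sum_range] at h3
      have h4 := congrArg (algebraMap B F) h3
      rw [map_sum, map_zero] at h4
      rw [← h4]
      refine Finset.sum_congr rfl fun i _ => ?_
      rw [Algebra.smul_def, map_mul, map_pow]
    have hval : ∀ i, i ≠ e → Q.adicValuation (algebraMap B F (algebraMap K[X] B (χ.coeff i)) *
        algebraMap B F y ^ i) < exp (-(e : ℤ)) := by
      intro i hi
      rw [map_mul, map_pow, hyQ]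
      rcases lt_or_gt_of_ne hi with h1 | h1
      · rcases Nat.eq_zero_or_pos i with h2 | h2
        · subst h2
          rw [pow_zero, mul_one]
          refine (hdiv _ 2 hzero).trans_lt (exp_lt_exp.mpr ?_)
          push_cast
          omega
        · have h3 := hdiv (χ.coeff i) 1 (by rw [pow_one, dvd_iff_isRoot]; exact hlow i h1)
          calc _ ≤ exp (-((1 : ℕ) * e : ℤ)) * exp (-1 : ℤ) ^ i := mul_le_mul_left h3 _
            _ = exp (-(e : ℤ) - i) := by rw [← exp_nsmul, ← exp_add]; congr 1; simp; ring
            _ < _ := exp_lt_exp.mpr (by omega)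
      · calc _ ≤ 1 * exp (-1 : ℤ) ^ i :=
              mul_le_mul_left (Q.adicValuation_le_one_of_mem (M.hmem _ Q hQ)) _
          _ = exp (-(i : ℤ)) := by rw [one_mul, ← exp_nsmul]; congr 1; simp
          _ < _ := exp_lt_exp.mpr (by omega)
    have hvale : Q.adicValuation (algebraMap B F (algebraMap K[X] B (χ.coeff e)) *
        algebraMap B F y ^ e) = exp (-(e : ℤ)) := by
      rw [map_mul, map_pow, hyQ]
      have h1 : Q.adicValuation (algebraMap B F (algebraMap K[X] B (χ.coeff e))) = 1 := by
        refine le_antisymm (Q.adicValuation_le_one_of_mem (M.hmem _ Q hQ)) (not_lt.mp fun h2 => ?_)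
        rw [← M.evB_eq_zero_iff hQ, M.evB_algebraMap hQ, ← ha] at h2
        exact hmid h2
      rw [h1, one_mul, ← exp_nsmul]; congr 1; simp
    have hed : e ∈ Finset.range (χ.natDegree + 1) := by
      rw [Finset.mem_range]
      by_contra h1
      rw [coeff_eq_zero_of_natDegree_lt (by omega), eval_zero] at hmid
      exact hmid rfl
    rw [← Finset.add_sum_erase _ _ hed, add_eq_zero_iff_eq_neg] at hCH
    have h1 := Valuation.map_sum_lt Q.adicValuation (exp_ne_zero (a := -(e : ℤ)))
      (fun i (hi : i ∈ (Finset.range (χ.natDegree + 1)).erase e) => hval i (Finset.ne_of_mem_erase hi))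
    rw [← Valuation.map_neg, ← hCH, hvale] at h1
    exact lt_irrefl _ h1

/-- the polynomials `g_y` generate the unit ideal -/
theorem span_gpol (M : Model K B x) (hx : Transcendental K x)
    (hrank : Module.finrank K[X] B = Module.finrank (IntermediateField.adjoin K {x}) F) :
    Ideal.span (Set.range (gpol K : B → B[X])) = ⊤ := by
  by_contra hne
  obtain ⟨m, hm, hle⟩ := Ideal.exists_le_maximal _ hne
  let _ : Field (B[X] ⧸ m) := Ideal.Quotient.field m
  have h1 : Algebra.FiniteType K B := Algebra.FiniteType.trans (S := K[X]) inferInstance inferInstance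
  have h2 : Algebra.FiniteType K B[X] := Algebra.FiniteType.trans (S := B) h1 inferInstance
  have h3 : Algebra.FiniteType K (B[X] ⧸ m) :=
    Algebra.FiniteType.of_surjective (Ideal.Quotient.mkₐ K m) (Ideal.Quotient.mkₐ_surjective K m)
  have h4 : Module.Finite K (B[X] ⧸ m) := finite_of_finite_type_of_isJacobsonRing K _
  have h5 : Function.Bijective (algebraMap K (B[X] ⧸ m)) :=
    IsAlgClosed.algebraMap_bijective_of_isIntegral
  let E : K ≃ₐ[K] (B[X] ⧸ m) := AlgEquiv.ofBijective (Algebra.ofId K _) h5
  let Φ : B[X] →ₐ[K] K := (E.symm : (B[X] ⧸ m) →ₐ[K] K).comp (Ideal.Quotient.mkₐ K m)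
  have hΦ : ∀ p ∈ m, Φ p = 0 := by
    intro p hp
    show E.symm (Ideal.Quotient.mkₐ K m p) = 0
    have : Ideal.Quotient.mkₐ K m p = 0 := Ideal.Quotient.eq_zero_iff_mem.mpr hp
    rw [this, map_zero]
  let φ : B →ₐ[K] K := Φ.comp (Polynomial.CAlgHom (R := K) (A := B))
  obtain ⟨Q, hQ, hφ⟩ := M.exists_place_of_algHom hx φ
  obtain ⟨y, hy⟩ := M.isUnit_of_algHom hx hrank hQ (Φ X)
  apply hy
  have h6 : (Φ : B[X] →+* K) = eval₂RingHom (M.evB Q hQ : B →+* K) (Φ X) := by
    apply Polynomial.ringHom_ext
    · intro b
      have := hφ b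
      simp only [coe_eval₂RingHom, eval₂_C]
      exact this
    · simp
  have h7 := hΦ _ (hle (Ideal.subset_span ⟨y, rfl⟩))
  have h8 := RingHom.congr_fun h6 (gpol K y)
  rw [← coe_eval₂RingHom, ← h8]
  exact h7

/-- the algebraic form of the fibre estimate -/
theorem exists_identity (M : Model K B x) (hx : Transcendental K x)
    (hrank : Module.finrank K[X] B = Module.finrank (IntermediateField.adjoin K {x}) F) :
    ∃ (n : ℕ) (y : Fin n → B) (h : Fin n → B[X]), ∀ (a : K) (A : Multiset (Place K F)),
      IsFib x a A → A.card = Module.finrank K[X] B → ∀ (Q : Place K F)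
      (hQ : x ∈ Q.toValuationSubring), a - val Q x = ∑ k, (h k).eval₂ (M.evB Q hQ : B →+* K) a *
        (A.map fun P => val Q (algebraMap B F (y k)) - val P (algebraMap B F (y k))).prod := by
  have h1 : (1 : B[X]) ∈ Ideal.span (Set.range (gpol K : B → B[X])) := by
    rw [M.span_gpol hx hrank]; trivial
  rw [Ideal.span, ← Set.image_univ, Submodule.mem_span_image_iff_exists_fun] at h1
  obtain ⟨t, -, c, hc⟩ := h1
  refine ⟨t.card, fun k => t.equivFin.symm k, fun k => c (t.equivFin.symm k), ?_⟩
  intro a A hA hcard Q hQ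
  have h2 := congrArg (fun p => (a - val Q x) * eval₂ (M.evB Q hQ : B →+* K) a p) hc
  simp only [eval₂_one, mul_one] at h2
  rw [← h2, ← coe_eval₂RingHom, map_sum, Finset.mul_sum]
  rw [← Equiv.sum_comp t.equivFin.symm]
  refine Finset.sum_congr rfl fun k _ => ?_
  rw [smul_eq_mul, map_mul, coe_eval₂RingHom, ← M.mul_eval₂_gpol hx hA hcard hQ]
  ring

end Model

end Fermat.Agent.H23.Fib
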