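/-
H23FibMain: the identity `a - x(Q) = Σ_k h_k(a)(Q) ∏_{P ∈ x⁻¹(a)} (y_k(Q) - y_k(P))` (project S17, L9)
-/
import Mathlib
import Fermat.Agent.H23FibAlg

set_option autoImplicit false
set_option linter.unusedSectionVars false

noncomputable section

open AlgebraicCurve WithZero Polynomial IsDedekindDomain IntermediateField
open scoped IntermediateField.algebraAdjoinAdjoin

namespace Fermat.Agent.H23.Fib

open Fermat.Agent Fermat.Agent.H3RR Fermat.Agent.H17

variable {K F : Type*} [Field K] [Field F] [Algebra K F] [IsAlgClosed K] [CharZero K] [IsFF K F] {x : F}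

theorem exists_fib_identity (hx : Transcendental K x) :
    ∃ (n m : ℕ) (y : Fin n → F) (b : Fin n → ℕ → F),
      (∀ k, ∀ v : Place K F, x ∈ v.toValuationSubring → y k ∈ v.toValuationSubring) ∧
      (∀ k j, ∀ v : Place K F, x ∈ v.toValuationSubring → b k j ∈ v.toValuationSubring) ∧
      ∀ (a : K) (A : Multiset (Place K F)), IsZer x 1 (x - algebraMap K F a) A →
        ∀ Q : Place K F, x ∈ Q.toValuationSubring → a - val Q x =
          ∑ k, (∑ j ∈ Finset.range m, val Q (b k j) * a ^ j) *
            (A.map fun P : Place K F => val Q (y k) - val P (y k)).prod := by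
  classical
  have hFF := funField_of_isFF (K := K) (F := F)
  have hfd := IsFF.finiteDimensional (F := F) hx
  have hded := H94.isDedekindDomain_intRing (F := F) hx
  have hfrac := H94.isFractionRing_intRing (K := K) (x := x)
  have hfinite := H94.finite_intRing (F := F) hx
  have hpid := H94.isPrincipalIdealRing_adjoin (F := F) hx
  have hrk := H94.finrank_intRing (K := K) (x := x)
  let R := Algebra.adjoin K {x}
  let B := H94.IntRing K x
  let e : K[X] ≃ₐ[K] R := algEquivOfTranscendental K x hx
  let alg : Algebra K[X] B := ((algebraMap R B).comp (e : K[X] →+* R)).toAlgebra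
  have halg : ∀ p : K[X], algebraMap K[X] B p = algebraMap R B (e p) := fun p => rfl
  have htow : IsScalarTower K K[X] B := IsScalarTower.of_algebraMap_eq fun c => by
    rw [halg, e.commutes]
    rfl
  have hfree : Module.Free R B := inferInstance
  let β := (Module.finBasis R B).mapCoeffs (e.symm : R ≃+* K[X]) (by
    intro c z
    show algebraMap K[X] B (e.symm c) * z = c • z
    rw [halg, Algebra.smul_def]
    congr 2
    exact e.apply_symm_apply c)
  have hfree' : Module.Free K[X] B := Module.Free.of_basis β
  have hfin' : Module.Finite K[X] B := Module.Finite.of_basis β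
  have hrank : Module.finrank K[X] B = Module.finrank (IntermediateField.adjoin K {x}) F := by
    rw [Module.finrank_eq_card_basis β, Fintype.card_fin]
    exact hrk
  have M : Model K B x :=
    { hX := by
        rw [halg]
        show ((e X : R) : F) = x
        rw [algEquivOfTranscendental_apply_X]
      hmem := fun b v hv => H94.mem_of_intRing hv b }
  obtain ⟨n, y, h, hyh⟩ := M.exists_identity hx hrank
  refine ⟨n, Finset.univ.sup (fun k => (h k).natDegree) + 1, fun k => algebraMap B F (y k),
    fun k j => algebraMap B F ((h k).coeff j), fun k v hv => M.hmem _ v hv,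
    fun k j v hv => M.hmem _ v hv, fun a A hA Q hQ => ?_⟩
  have hcard : A.card = Module.finrank K[X] B := by
    have hxa : x - algebraMap K F a ≠ 0 := by
      intro h
      exact hx (by rw [sub_eq_zero.mp h]; exact isAlgebraic_algebraMap a)
    rw [IsZer.card_eq hx hxa hA, one_mul, hrank]
  rw [hyh a A (Model.isFib_of_isZer hx hA) hcard Q hQ]
  refine Finset.sum_congr rfl fun k _ => ?_
  congr 1
  rw [eval₂_eq_sum_range' _ (Nat.lt_succ_of_le
    (Finset.le_sup (f := fun k => (h k).natDegree) (Finset.mem_univ k)))]
  rfl

end Fermat.Agent.H23.Fib
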