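import Fermat.Agent.H23RedPic
import Fermat.Agent.H23FibMain

/-!
# Reader's guide: reduction of divisor classes and the fibre identity, step by step

Every theorem of this file is proved by citing a theorem of the library; nothing here is used by any
other file. Editor: helper23. Companion of GuideFunctionField (section 2: reduction of function
fields), GuideFlatTorsion (S19), GuideKernel (kernel of reduction of `J_0(N)`), GuideMordellWeil (S17).

**Part 1 (file `H23RedPic`).** It serves S19, S32 and (with the same results) S01, S03, S04, S06, S38,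
S43, S45, S46, S50, S59, S60; fact 1 and, in part, fact 3 also serve S15 (S09, S12) and S39, S40. Let
`S` be a good reduction of the function field `F/K` to the function field `E/k` (Deuring: the same
genus on both sides). Classically one has a smooth model over a valuation ring and the reduction of its
Jacobian; here there is neither. Three facts on divisor classes replace the Jacobian over the valuation
ring.
1. The reduction `r` of places gives a homomorphism `Pic⁰(F) → Pic⁰(E)`, because a function can be
   multiplied by a constant so that it is integral with nonzero reduction, and then the divisor of the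
   reduction is the image of the divisor.
2. *Coordinates on the kernel of reduction.* Fix places `R_1, ..., R_g` whose reductions are different
   and nonspecial (no nonconstant function has at most simple poles there; such systems exist by the
   theorem of Riemann and Roch). Every class with reduction zero is `[∑ P_i - ∑ R_i]` for exactly one
   tuple with `r(P_i) = r(R_i)`. Existence: theorem of Riemann; uniqueness: `dim L` can only increase
   under reduction. This replaces the formal group of the Jacobian.
3. *Automorphisms.* An automorphism which preserves integral functions acts on the reductions of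
   places, since `L(n P)` has reduction `L(n r(P))`, and this space determines `r(P)`; inertia acts
   trivially. Places, divisors and classes of `E` have inertia-invariant lifts, and so have the
   functions in the spaces `L(n r(P_∞))` for an invariant place `P_∞`.

**Part 2 (files `H23FibLin`, `H23FibAlg`, `H23FibMain`, used in S17).** For a function `x` the number
`a - x(Q)` is a combination of the products of the `y(Q) - y(P)` over the fibre `x⁻¹(a) = {P}`, with
coefficients which are polynomials in `a` over the functions regular where `x` is. In the local theory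
of heights this bounds `|a - x(Q)|` by the distances of `Q` to the points of the fibre (`fibre_bound` in
GuideHeights). Proof: let `B` be the ring of the functions regular where `x` is, a free `K[x]`-module
of rank `[F : K(x)]`, and let `χ_y` be the characteristic polynomial of `y ∈ B`. At `x = a` it is the
product of `T - y(P)` over the fibre. By the theorem of Cayley and Hamilton `χ_y(y) = 0`; so the
polynomial in `a` over `B` which arises from `χ_y(y)` by putting `a` for `x` in the coefficients
vanishes at `a = x`: it is `(a - x) g_y(a)`. The polynomials `g_y` generate the unit ideal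
(Nullstellensatz, and functions `y` with a simple zero at `Q`), so `1 = ∑ h_k g_{y_k}`; multiply by
`a - x(Q)`.

**Notation.** `Place K F`, `v.ord f`, `Divisor K F`, `Pic0 K F`, `riemannRochSpace D` (= `L(D)`) are the
definitions of the frozen statements; `Finsupp.mapDomain S.r D` is the image `r_* D` of the divisor
`D`; `Finsupp.single P n` is `n P`; `H94.FunField K F`: `F` is a function field in one variable over
`K`. Details: NOTES.md, Appendix A.3, notes [148], [149].
-/

set_option autoImplicit false
set_option linter.unusedSectionVars false

namespace Fermat.Agent.Guide.RedPic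

open AlgebraicCurve WithZero Polynomial
open Fermat.Agent.H40 (RiemannFor)
open Fermat.Agent.H19 (GoodRed InertiaAction)

/-! ## 1. Reduction of divisor classes

`F/K` and `E/k` are extensions of fields with a good reduction `S`. From 1.2 on `K` and `k` are
algebraically closed (of any characteristic) and `F`, `E` are function fields in one variable.

### 1.1 The data -/

section Reduction

variable {K F k E : Type*} [Field K] [Field F] [Algebra K F] [Field k] [Field E] [Algebra k E]

/-- **Good reduction of function fields.** The data of `S : GoodRed K F k E`: a valuation ring `S.A` of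
`K` with residue map `S.π` onto `k`; a ring `S.B` of integral functions with a homomorphism `S.ρ` to `E`
which extends `S.π`; every finite dimensional space of functions has a basis of integral functions with
independent reductions; quotients of reductions give all of `E`; the theorem of Riemann
`dim L(D) = deg D + 1 - g` for `deg D ≥ S.c` on both sides with the same `S.g`; a map `S.r` of places
such that `L(D)` has reduction `L(r_* D)` for `deg D > S.c` and `div ρ(x) = r_* div x`. (The structure
also contains that on both sides nonzero functions have divisors of degree zero.) -/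
theorem goodRed_data (S : GoodRed K F k E) :
    Function.Surjective S.π ∧ (∀ a : S.A, S.π a = 0 ↔ ¬ IsUnit a) ∧
      (∀ a : S.A, S.ρ ⟨algebraMap K F a, S.mem_B a⟩ = algebraMap k E (S.π a)) ∧
      (∀ V : Submodule K F, FiniteDimensional K V → ∃ (n : ℕ) (b : Fin n → S.B),
        Submodule.span K (Set.range fun i => (b i : F)) = V ∧
          LinearIndependent k fun i => S.ρ (b i)) ∧
      (∀ e : E, ∃ x y : S.B, S.ρ y ≠ 0 ∧ e * S.ρ y = S.ρ x) ∧
      RiemannFor K F S.g S.c ∧ RiemannFor k E S.g S.c ∧
      (∀ D : Divisor K F, S.c < Divisor.degree D → ∀ e : E,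
        e ∈ riemannRochSpace (Finsupp.mapDomain S.r D) ↔
          ∃ x : S.B, (x : F) ∈ riemannRochSpace D ∧ S.ρ x = e) ∧
      ∀ x : S.B, S.ρ x ≠ 0 → ∀ D : Divisor K F, (∀ v, D v = v.ord (x : F)) →
        ∀ w, Finsupp.mapDomain S.r D w = w.ord (S.ρ x) :=
  ⟨S.π_surj, S.π_eq_zero, S.ρ_algebraMap, S.exists_basis, S.frac, S.riemF, S.riemE,
    fun D h e => by rw [← (S.isRed D h).2]; rfl, S.div_red⟩

/-- **Integral constants.** A constant is integral as a function iff it is in `S.A`; more generally, if
`x` has nonzero reduction and `a x` is integral, then `a ∈ S.A`. -/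
theorem integral_constants (S : GoodRed K F k E) :
    (∀ a : K, a ∈ S.A ↔ algebraMap K F a ∈ S.B) ∧
      ∀ x : S.B, S.ρ x ≠ 0 → ∀ a : K, a • (x : F) ∈ S.B → a ∈ S.A :=
  ⟨H23.mem_A_iff S, fun _ hx _ ha => H23.coeff_mem_A S hx ha⟩

/-- **Scaling.** For every function `f ≠ 0` there is a constant `c ≠ 0` such that `c f` is integral with
nonzero reduction; the divisor of this reduction is the image of the divisor of `f`. -/
theorem exists_scaling (S : GoodRed K F k E) {f : F} (hf : f ≠ 0) :
    ∃ c : K, c ≠ 0 ∧ ∃ x : S.B, (x : F) = c • f ∧ S.ρ x ≠ 0 ∧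
      ∀ D : Divisor K F, (∀ v, D v = v.ord f) → ∀ w, Finsupp.mapDomain S.r D w = w.ord (S.ρ x) :=
  H23.exists_scale_div S hf

/-- **Genus.** The number `S.g` is the genus of `F` and the genus of `E`. -/
theorem genus_eq [IsAlgClosed K] [IsAlgClosed k] [H94.FunField K F] [H94.FunField k E]
    (S : GoodRed K F k E) : (genusFF K F : ℤ) = S.g ∧ (genusFF k E : ℤ) = S.g :=
  ⟨H23.genusFF_eq_of_riemannFor S.riemF, H23.genusFF_eq_of_riemannFor S.riemE⟩

/-! ### 1.2 Divisor classes of degree zero -/

section AlgClosed

variable [IsAlgClosed K] [IsAlgClosed k] [H94.FunField K F] [H94.FunField k E]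

/-- **Reduction of classes.** Degrees are preserved (all places have degree one), and principal
divisors go to principal divisors (by `exists_scaling`). So the reduction of divisors induces a
homomorphism `redPic0 S : Pic⁰(F) → Pic⁰(E)`. -/
theorem reduction_of_classes (S : GoodRed K F k E) :
    (∀ D : Divisor K F, Divisor.degree (Finsupp.mapDomain S.r D) = Divisor.degree D) ∧
      (∀ D ∈ Divisor.principal (K := K) (F := F),
        Finsupp.mapDomain S.r D ∈ Divisor.principal (K := k) (F := E)) ∧
      ∀ D : Divisor.degZero (K := K) (F := F), ∃ h,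
        H23.redPic0 S (Pic0.mk D) = Pic0.mk ⟨Finsupp.mapDomain S.r (D : Divisor K F), h⟩ :=
  ⟨H23.degree_mapDomain S, fun _ h => H23.mapDomain_mem_principal S h,
    fun D => ⟨_, H23.redPic0_mk S D⟩⟩

/-- **Semicontinuity.** The reductions of the integral functions in `L(D)` are in `L(r_* D)`, and
`dim L(D) ≤ dim L(r_* D)`, for every divisor `D` (for large degree there is equality, but not in
general). -/
theorem semicontinuity (S : GoodRed K F k E) (D : Divisor K F) :
    (∀ x : S.B, (x : F) ∈ riemannRochSpace D →
      S.ρ x ∈ riemannRochSpace (Finsupp.mapDomain S.r D)) ∧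
    Module.finrank K (riemannRochSpace D) ≤
      Module.finrank k (riemannRochSpace (Finsupp.mapDomain S.r D)) :=
  ⟨fun x hx => H23.red_L_le' S D ⟨x, hx, rfl⟩, H23.ell_le_ell S D⟩

/-! ### 1.3 Coordinates on the kernel of reduction -/

/-- **Nonspecial systems exist**: outside any finite set `T` there are `g` different places
`Q_1, ..., Q_g` of `E` such that only constants have at most simple poles at the `Q_i`. -/
theorem exists_nonspecial_system (S : GoodRed K F k E) (T : Finset (Place k E)) :
    ∃ Q : Fin S.g → Place k E, Function.Injective Q ∧ (∀ i, Q i ∉ T) ∧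
      ∀ f ∈ riemannRochSpace (∑ i, Finsupp.single (Q i) (1 : ℤ)), ∃ c : k, f = algebraMap k E c :=
  H23.exists_nonspecial S T

/-- **Effective divisors** of degree `n` are sums of `n` places. -/
theorem effective_eq_sum (n : ℕ) (D : Divisor K F) (hD : 0 ≤ D) (hn : Divisor.degree D = n) :
    ∃ P : Fin n → Place K F, D = ∑ i, Finsupp.single (P i) 1 :=
  H23.exists_eq_sum_single H94.deg_eq_one n D hD hn

/-- **Notions.** `classOf P R` is the class of `∑ P_i - ∑ R_i`. `IsNonspecial S R` says that the places
`R_1, ..., R_g` of `F` have different reductions and that these are nonspecial. -/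
theorem notions (S : GoodRed K F k E) (P R : Fin S.g → Place K F) :
    (∃ h, H23.classOf P R =
        Pic0.mk ⟨∑ i, Finsupp.single (P i) (1 : ℤ) - ∑ i, Finsupp.single (R i) (1 : ℤ), h⟩) ∧
      (H23.IsNonspecial S R ↔ (Function.Injective fun i => S.r (R i)) ∧
        ∀ f ∈ riemannRochSpace (∑ i, Finsupp.single (S.r (R i)) (1 : ℤ)),
          ∃ c : k, f = algebraMap k E c) :=
  ⟨⟨_, rfl⟩, fun h => ⟨h.inj, h.const⟩, fun h => ⟨h.1, h.2⟩⟩

/-- **Lifts of a nonspecial system are nonspecial**: `dim L(∑ P_i) = 1` if `r(P_i) = r(R_i)` (by
`semicontinuity`). -/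
theorem lift_of_nonspecial {S : GoodRed K F k E} {R P : Fin S.g → Place K F}
    (hR : H23.IsNonspecial S R) (hP : ∀ i, S.r (P i) = S.r (R i)) :
    Module.finrank K (riemannRochSpace (∑ i, Finsupp.single (P i) (1 : ℤ))) = 1 :=
  hR.ell_eq_one hP

/-- **Existence of coordinates.** Every class with reduction zero is `classOf P R` with
`r(P_i) = r(R_i)`. Proof: `D + ∑ R_i` has degree `g`, so it is equivalent to an effective divisor
`∑ P_i`; its reduction is effective and equivalent to the nonspecial divisor `∑ r(R_i)`, hence equal to
it, and after renumbering `r(P_i) = r(R_i)`. Conversely such classes have reduction zero. -/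
theorem coordinates_exist {S : GoodRed K F k E} {R : Fin S.g → Place K F}
    (hR : H23.IsNonspecial S R) (x : Pic0 K F) :
    H23.redPic0 S x = 0 ↔
      ∃ P : Fin S.g → Place K F, (∀ i, S.r (P i) = S.r (R i)) ∧ x = H23.classOf P R := by
  refine ⟨hR.exists_repr, fun h => ?_⟩
  obtain ⟨P, hP, rfl⟩ := h
  exact H23.redPic0_classOf hP

/-- **Uniqueness of coordinates.** If `∑ P_i` and `∑ P'_i` are equivalent, a function connects them; it
is constant by `lift_of_nonspecial`, so the divisors are equal, and the reductions tell which `P_i` is
which `P'_i`. -/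
theorem coordinates_unique {S : GoodRed K F k E} {R P P' : Fin S.g → Place K F}
    (hR : H23.IsNonspecial S R) (hP : ∀ i, S.r (P i) = S.r (R i))
    (hP' : ∀ i, S.r (P' i) = S.r (R i)) (h : H23.classOf P R = H23.classOf P' R) : P = P' :=
  hR.classOf_injective hP hP' h

/-! ### 1.4 Automorphisms

`SemilinearAut K F` is the group of the automorphisms `δ` of the field `F` which map `K` to itself
(more precisely: the pairs of such a `δ` and the automorphism `SemilinearAut.baseAut δ` of `K`). It acts
on functions, places, divisors and classes. -/

/-- **Compatible automorphisms** (`H23.Compat`): `δ f` is integral iff `f` is integral. Then integral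
constants are preserved, and so is the set of the integral functions with reduction zero. -/
theorem compatible {S : GoodRed K F k E} {δ : SemilinearAut K F}
    (hδ : ∀ f : F, δ • f ∈ S.B ↔ f ∈ S.B) :
    (∀ a : K, SemilinearAut.baseAut δ a ∈ S.A ↔ a ∈ S.A) ∧
      ∀ b : S.B, S.ρ b = 0 → S.ρ ⟨δ • (b : F), (hδ _).mpr b.2⟩ = 0 :=
  ⟨H23.Compat.mem_A_iff ⟨hδ⟩, fun _ hb => H23.Compat.ρ_act_eq_zero ⟨hδ⟩ hb⟩

/-- **A place is determined by its Riemann-Roch spaces**: let `S.red V` be the space of the reductions
of the integral functions in `V`; if `n > S.c`, `n > 0` and `L(n P)`, `L(n P')` have the same reduction,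
then `r(P) = r(P')`. Moreover `δ L(D) = L(δ D)`. -/
theorem place_from_spaces (S : GoodRed K F k E) :
    (∀ (P P' : Place K F) (n : ℤ), S.c < n → 0 < n →
      S.red (riemannRochSpace (Finsupp.single P n)) =
        S.red (riemannRochSpace (Finsupp.single P' n)) → S.r P = S.r P') ∧
    ∀ (δ : SemilinearAut K F) (D : Divisor K F) (f : F),
      δ • f ∈ riemannRochSpace (δ • D) ↔ f ∈ riemannRochSpace D :=
  ⟨fun _ _ _ hn hn0 h => H23.r_eq_of_red hn hn0 h, H23.smul_mem_L_iff⟩

/-- **Compatible automorphisms act on the reductions of places and of classes**: `r(δ P)` depends only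
on `r(P)`, and `redPic0 (δ x)` only on `redPic0 x`. Used for the elements of decomposition groups. -/
theorem compatible_action {S : GoodRed K F k E} {δ : SemilinearAut K F}
    (hδ : ∀ f : F, δ • f ∈ S.B ↔ f ∈ S.B) :
    (∃ τ : Place k E → Place k E, ∀ P, S.r (δ • P) = τ (S.r P)) ∧
      ∀ x y : Pic0 K F, H23.redPic0 S x = H23.redPic0 S y →
        H23.redPic0 S (δ • x) = H23.redPic0 S (δ • y) :=
  ⟨H23.Compat.exists_place_map ⟨hδ⟩, fun _ _ h => H23.Compat.redPic0_smul_congr ⟨hδ⟩ h⟩

/-! ### 1.5 Inertia and invariant lifts

`I : InertiaAction S Γ` (definition in `H19Setting`): every `γ ∈ Γ` preserves integral functions,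
integral constants and the reductions of integral functions; residue classes of constants contain
invariant constants; there is an invariant place `I.Pinf`; invariant finite dimensional spaces have
bases of invariant integral functions with independent reductions. -/

/-- **Inertia acts trivially on reductions** of places and of classes. -/
theorem inertia_trivial {S : GoodRed K F k E} {Γ : Subgroup (SemilinearAut K F)}
    (I : InertiaAction S Γ) {γ : SemilinearAut K F} (hγ : γ ∈ Γ) :
    (∀ P : Place K F, S.r (γ • P) = S.r P) ∧
      ∀ x : Pic0 K F, H23.redPic0 S (γ • x) = H23.redPic0 S x :=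
  ⟨H23.r_smul I hγ, H23.redPic0_smul I hγ⟩

/-- **Invariant functions.** Let `P_∞ = I.Pinf` and `n > S.c`. Every function in `L(n r(P_∞))` is the
reduction of an invariant integral function in `L(n P_∞)`. -/
theorem invariant_function {S : GoodRed K F k E} {Γ : Subgroup (SemilinearAut K F)}
    (I : InertiaAction S Γ) {n : ℤ} (hn : S.c < n) {e : E}
    (he : e ∈ riemannRochSpace (Finsupp.single (S.r I.Pinf) n)) :
    ∃ z : S.B, (z : F) ∈ riemannRochSpace (Finsupp.single I.Pinf n) ∧
      (∀ γ ∈ Γ, γ • (z : F) = z) ∧ S.ρ z = e :=
  H23.exists_lift I hn he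

/-- **Invariant places and parameters.** Every place `Q ≠ r(P_∞)` of `E` is the reduction of an
invariant place `P`, and there is an invariant integral function `z` which has a simple zero at `P`,
no other zero or pole at the places above `Q`, poles only at `P_∞`, and whose reduction has a simple
zero at `Q`. Proof: lift a function with a simple zero at `Q`; exactly one place above `Q` is a zero of
the lift, so it is invariant. -/
theorem invariant_place {S : GoodRed K F k E} {Γ : Subgroup (SemilinearAut K F)}
    (I : InertiaAction S Γ) {Q : Place k E} (hQ : Q ≠ S.r I.Pinf) :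
    ∃ (P : Place K F) (z : S.B), S.r P = Q ∧ (∀ γ ∈ Γ, γ • P = P) ∧
      (∀ γ ∈ Γ, γ • (z : F) = z) ∧ (∀ P', S.r P' = Q → 0 ≤ P'.ord (z : F) ∨ (z : F) = 0) ∧
      0 < P.ord (z : F) ∧ Q.ord (S.ρ z) = 1 ∧ P.ord (z : F) = 1 ∧
      (∀ P', S.r P' = Q → P'.ord (z : F) ≠ 0 → P' = P) ∧
      ∃ n : ℤ, (z : F) ∈ riemannRochSpace (Finsupp.single I.Pinf n) :=
  H23.exists_fixed_place I hQ

/-- **Invariant divisors and classes.** Every divisor of `E` is the reduction of an invariant divisor
of the same degree, every class of degree zero the reduction of an invariant class. So the inertia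
invariants of `Pic⁰(F)` surject onto `Pic⁰(E)`. -/
theorem invariant_classes {S : GoodRed K F k E} {Γ : Subgroup (SemilinearAut K F)}
    (I : InertiaAction S Γ) :
    (∀ D : Divisor k E, ∃ G : Divisor K F, Finsupp.mapDomain S.r G = D ∧ (∀ γ ∈ Γ, γ • G = G) ∧
      Divisor.degree G = Divisor.degree D) ∧
    ∀ y : Pic0 k E, ∃ x : Pic0 K F, H23.redPic0 S x = y ∧ ∀ γ ∈ Γ, γ • x = x :=
  ⟨H23.exists_fixed_divisor I, H23.exists_fixed_class I⟩

end AlgClosed

end Reduction

/-! ## 2. The fibre identity (S17)

`K` is an algebraically closed field and `F` a function field in one variable over `K`; `x ∈ F` is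
transcendental over `K`; `H17.val Q f` is the value at the place `Q` of a function `f` regular at
`Q`. -/

section Linear

/-- **Characteristic polynomial from a flag.** Let `V_0 = K^d, V_1, ..., V_d = 0` be subspaces such that
`V_j` is contained in `K u + V_{j+1}` for some `u ∈ V_j` (steps of dimension at most one) and
`N - χ_j` maps `V_j` to `V_{j+1}`. Then the characteristic polynomial of `N` is the product of the
`X - χ_j`. File `H23FibLin`. -/
theorem charpoly_of_flag {K : Type*} [Field K] {d : ℕ} (N : (Fin d → K) →ₗ[K] (Fin d → K))
    (V : ℕ → Submodule K (Fin d → K)) (χ : ℕ → K) (h0 : V 0 = ⊤) (hd : V d = ⊥)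
    (h1 : ∀ j < d, ∃ u ∈ V j, ∀ f ∈ V j, ∃ c : K, f - c • u ∈ V (j + 1))
    (h2 : ∀ j < d, ∀ f ∈ V j, N f - χ j • f ∈ V (j + 1)) :
    N.charpoly = ∏ j ∈ Finset.range d, (X - C (χ j)) :=
  H23.Fib.charpoly_of_flag N V χ h0 hd h1 h2

/-- **The polynomial `g_y`.** `B` is a `K[x]`-algebra, free of finite rank as a module, `y ∈ B` with
characteristic polynomial `χ_y` over `K[x]`. `Gpol K y ∈ B[X]` is `χ_y(y)` with the variable `X` in
place of `x` in the coefficients (`eval₂` with the map `K[X] → B[X]`); it is divisible by `X - x` by
the theorem of Cayley and Hamilton, and `gpol K y` is the quotient. Under a homomorphism `φ : B → K`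
and for `X = a` it becomes the characteristic polynomial with coefficients at `a`, evaluated at
`φ(y)`. File `H23FibAlg`. -/
theorem gpol_spec {K B : Type*} [Field K] [CommRing B] [Algebra K B] [Algebra K[X] B]
    [IsScalarTower K K[X] B] [Module.Free K[X] B] [Module.Finite K[X] B] (y : B) :
    H23.Fib.Gpol K y =
        eval₂ (mapRingHom (algebraMap K B)) (C y) (Algebra.lmul K[X] B y).charpoly ∧
      (X - C (algebraMap K[X] B X)) * H23.Fib.gpol K y = H23.Fib.Gpol K y ∧
      ∀ (φ : B →ₐ[K] K) (a : K), (H23.Fib.Gpol K y).eval₂ (φ : B →+* K) a =
        ((Algebra.lmul K[X] B y).charpoly.map (evalRingHom a)).eval (φ y) :=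
  ⟨rfl, H23.Fib.mul_gpol y, fun φ a => H23.Fib.eval₂_Gpol φ a y⟩

end Linear

section Fibre

open Fermat.Agent.H3RR (IsFF)
open Fermat.Agent.H23.Fib (Model gpol)
open Fermat.Agent.H23.Fib.Model (IsFib)

variable {K F B : Type*} [Field K] [Field F] [Algebra K F] [CommRing B]
  [IsDedekindDomain B] [Algebra B F] [IsFractionRing B F] [Algebra K B] [IsScalarTower K B F]
  [Algebra K[X] B] [IsScalarTower K K[X] B] {x : F}

/-- **Notions.** `Model K B x`: the Dedekind ring `B` with field of fractions `F` is an algebra over
`K[X]` with `X ↦ x`, and its elements are regular where `x` is (then it is the ring of all these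
functions: `exists_of_reg`). `IsFib x a A`: the multiset `A` of places is the fibre of `x` above `a`,
each place with the multiplicity `ord (x - a)`. File `H23FibAlg`. -/
theorem fibre_notions (a : K) (A : Multiset (Place K F)) [DecidableEq (Place K F)] :
    (Model K B x ↔ algebraMap B F (algebraMap K[X] B X) = x ∧
      ∀ (b : B) (v : Place K F), x ∈ v.toValuationSubring → algebraMap B F b ∈ v.toValuationSubring) ∧
    (IsFib x a A ↔ (∀ v ∈ A, x ∈ v.toValuationSubring) ∧
      ∀ v : Place K F, x ∈ v.toValuationSubring →
        v.adicValuation (x - algebraMap K F a) = exp (-(A.count v : ℤ))) := by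
  refine ⟨⟨fun h => ⟨h.hX, h.hmem⟩, fun h => ⟨h.1, h.2⟩⟩, ?_⟩
  unfold IsFib; convert Iff.rfl

/-- **`B` is the ring of all functions regular where `x` is.** (A Dedekind domain is the intersection
of its localisations, and they are places.) File `H23FibAlg`. -/
theorem exists_of_reg (M : Model K B x) (f : F)
    (hf : ∀ v : Place K F, x ∈ v.toValuationSubring → f ∈ v.toValuationSubring) :
    ∃ b : B, algebraMap B F b = f :=
  M.exists_of_reg f hf

variable [IsAlgClosed K] [IsFF K F]

/-- **Homomorphisms `B → K` are places**: each of them is the evaluation at a place at which `x` is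
regular. File `H23FibAlg`. -/
theorem exists_place_of_algHom (M : Model K B x) (hx : Transcendental K x) (φ : B →ₐ[K] K) :
    ∃ v : Place K F, x ∈ v.toValuationSubring ∧ ∀ b, φ b = H17.val v (algebraMap B F b) := by
  obtain ⟨v, hv, h⟩ := M.exists_place_of_algHom hx φ
  exact ⟨v, hv, h⟩

/-- **A local parameter with prescribed units**: for a place `v` outside a finite set `T` of places
(all with `x` regular) there is `b ∈ B` with a simple zero at `v` and no zero in `T` (prime avoidance).
File `H23FibAlg`. -/
theorem exists_parameter (M : Model K B x) {v : Place K F} (hv : x ∈ v.toValuationSubring)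
    (T : Finset (Place K F)) (hT : ∀ w ∈ T, x ∈ w.toValuationSubring) (hvT : v ∉ T) :
    ∃ b : B, H17.val v (algebraMap B F b) = 0 ∧
      ¬ v.adicValuation (algebraMap B F b) ≤ exp (-2 : ℤ) ∧
      ∀ w ∈ T, H17.val w (algebraMap B F b) ≠ 0 := by
  obtain ⟨b, h0, h1, h2⟩ := M.exists_unif hv T hT hvT
  exact ⟨b, h0, h1, fun w hw => h2 w (hT w hw) hw⟩

variable [Module.Free K[X] B] [Module.Finite K[X] B]

/-- **The characteristic polynomial of `y` at `x = a`** is the product of `X - y(P)` over the fibre
above `a` (`charpoly_of_flag` for the flag of the functions vanishing at the first `j` points of the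
fibre). `hcard`: the fibre has `rank B` points. File `H23FibAlg`. -/
theorem charpoly_at (M : Model K B x) (hx : Transcendental K x) {a : K}
    {A : Multiset (Place K F)} (hA : IsFib x a A) (hcard : A.card = Module.finrank K[X] B) (y : B) :
    (Algebra.lmul K[X] B y).charpoly.map (evalRingHom a) =
      (A.map fun P => X - C (H17.val P (algebraMap B F y))).prod :=
  M.charpoly_map hx hA hcard y

/-- **Identity for one `y`**: `(a - x(Q)) g_y(a)(Q) = ∏_P (y(Q) - y(P))` over the fibre above `a`.
(`M.evB Q hQ` is the evaluation of elements of `B` at `Q`.) File `H23FibAlg`. -/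
theorem identity_for_one (M : Model K B x) (hx : Transcendental K x) {a : K}
    {A : Multiset (Place K F)} (hA : IsFib x a A) (hcard : A.card = Module.finrank K[X] B)
    {Q : Place K F} (hQ : x ∈ Q.toValuationSubring) (y : B) :
    (a - H17.val Q x) * (gpol K y).eval₂ (M.evB Q hQ : B →+* K) a =
      (A.map fun P => H17.val Q (algebraMap B F y) - H17.val P (algebraMap B F y)).prod :=
  M.mul_eval₂_gpol hx hA hcard hQ y

/-- **Some `g_y` does not vanish at `(Q, a)`.** If `a ≠ x(Q)`, take `y = x` in `identity_for_one`. If
`a = x(Q)`, take `y` with a simple zero at `Q` and no zero at the other points of the fibre. Let `e` be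
the multiplicity of `Q` in the fibre; by `charpoly_at` the coefficients of `χ_y` of degree `< e` vanish
at `a` and the coefficient of degree `e` does not. If `g_y(a)(Q)` were zero, the constant coefficient
would be divisible by `(x - a)²`, and in the sum `χ_y(y) = 0` the term of degree `e` would be larger at
`Q` than all others, a contradiction. File `H23FibAlg`. -/
theorem exists_gpol_ne_zero (M : Model K B x) (hx : Transcendental K x)
    (hrank : Module.finrank K[X] B = Module.finrank (IntermediateField.adjoin K {x}) F)
    {Q : Place K F} (hQ : x ∈ Q.toValuationSubring) (a : K) :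
    ∃ y : B, (gpol K y).eval₂ (M.evB Q hQ : B →+* K) a ≠ 0 :=
  M.isUnit_of_algHom hx hrank hQ a

/-- **The polynomials `g_y` generate the unit ideal of `B[X]`**: a maximal ideal of `B[X]` is a pair
`(Q, a)` by the Nullstellensatz. File `H23FibAlg`. -/
theorem span_gpol (M : Model K B x) (hx : Transcendental K x)
    (hrank : Module.finrank K[X] B = Module.finrank (IntermediateField.adjoin K {x}) F) :
    Ideal.span (Set.range (gpol K : B → B[X])) = ⊤ :=
  M.span_gpol hx hrank

/-- **Fibre identity, algebraic form.** There are `y_1, ..., y_n ∈ B` and `h_1, ..., h_n ∈ B[X]` such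
that for all `a`, fibres `A` above `a` and places `Q` at which `x` is regular
`a - x(Q) = ∑_k h_k(a)(Q) ∏_P (y_k(Q) - y_k(P))`. The form without `B` (the coefficients of `h_k` as
functions) is `fibre_identity` in GuideMordellWeil, file `H23FibMain`. -/
theorem fibre_identity (M : Model K B x) (hx : Transcendental K x)
    (hrank : Module.finrank K[X] B = Module.finrank (IntermediateField.adjoin K {x}) F) :
    ∃ (n : ℕ) (y : Fin n → B) (h : Fin n → B[X]), ∀ (a : K) (A : Multiset (Place K F)),
      IsFib x a A → A.card = Module.finrank K[X] B →
      ∀ (Q : Place K F) (hQ : x ∈ Q.toValuationSubring), a - H17.val Q x =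
        ∑ k, (h k).eval₂ (M.evB Q hQ : B →+* K) a *
          (A.map fun P => H17.val Q (algebraMap B F (y k)) -
            H17.val P (algebraMap B F (y k))).prod :=
  M.exists_identity hx hrank

end Fibre

end Fermat.Agent.Guide.RedPic
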