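import Fermat.Agent.H31EqL
import Fermat.Agent.H34Arch
import Fermat.Agent.H34Two7
import Fermat.Agent.H97InfH
import Fermat.Agent.H97MdL
import Fermat.Agent.H99Emb3

/-!
# Guide: from q-expansions to the reduction of `X_0(m)` and the two components of `X_0(mq)`

This file states the theorems on the reduction of modular curves modulo a prime which do not use
any model over a ring of integers.  A curve is its function field, embedded into Laurent series by
the expansion at the cusp `∞`; a component of a special fibre is a valuation ring of this field
with a reduction map (Gauss valuation of expansions, and its images under automorphisms).  These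
theorems replace Igusa's theorem (good reduction of `X_0(m)` outside `m`), the theorem of Deligne
and Rapoport (reduction of `X_0(mq)` modulo `q`, `q` a prime not dividing `m`) and the theory of
semistable models.

They serve
* S18, S29-S32, S37 and everything which uses the reduction of `J_0(m)` at a good prime (section 3);
* S34, S35 through the two-component reductions of `GuideBadRed` (sections 1-5, without
  `hom_ext_of_degeneracies`, `exists_dvd_pow` and, see there, `exists_place_reduction`);
* S33 (sections 2, 4, 5; of section 6 only the component `H97.comp0`);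
* S44 and Mazur's principle, hence S43, S59 and S01 (section 6).
All theorems are in the closure of S01, S43 and S45, and (except the fields `opt` of `comp_iff` and
`node_deg` of `model_rules`, which are used through S44) of S59 and S60; none is used in S47.

Companion files: `GuideGaussSeries` (the steps of the proofs of sections 2 to 4), `GuideIgusa` and
`GuideDeuring` (for section 3: the proof of `genus_eq`, and the reduction of divisors after
Deuring), `GuideTwoSheets` (the steps of the proofs of sections 5 and 6), `GuideNodeAnalysis` and
`GuideNodeParameters` (functions on the residue classes of the model of `X_0(mq)`, and its local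
equation at a node; for S44 and Mazur's principle), `GuideFrames` (the theory of components of
function fields without modular curves: approximation, orthonormal bases, connectedness, splitting
of Kummer covers), `GuideOrdinary` (S33) and `GuideBadRed` (two-component reductions, S34 and S35).

Reading order.
1. The function fields of modular curves: generators, degeneracy maps, Atkin-Lehner involutions,
   degrees over the `j`-line, in characteristic `0` and in characteristic `q`.
2. Gauss valuation rings over a valuation ring which need not be discrete (places of `ℚ̄`).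
3. Good reduction at a level prime to the residue characteristic: reductions of functions are
   functions, the genus is preserved, divisors can be reduced.
4. The two components of `X_0(mq)` in characteristic `q`: reductions of the two degeneracy maps,
   and the theorem that both residue fields are the function field of `X_0(m)`; traces and norms.
5. The cusps.
6. Semistable models in function field language: components, nodes and the specialisation map of
   places; the model of `X_0(mq)` obtained from its two sheets over `X_0(m)`.

Notation.  `LaurentSeries R = R((t))`; `coeffMap φ` applies the ring homomorphism `φ` to all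
coefficients; `qExpand R n` is the substitution `t ↦ t ^ n`; `jqModC k` is the expansion of the
`j`-function over `k`.  `modularFunctionFieldFullC k m ⊆ k((t))` is the field generated over `k` by
the series `j(t ^ d)`, `d ∣ m`: the function field of `X_0(m)` over `k`.  For a field `L` of
characteristic `0`, `FX L m` (file `H99Emb1`) is the same field, in the form
`laurentBaseChange L (modularFunctionFieldFull m)` used in the Prelude.
`heckeAlphaBar L m n`, `heckeBetaBar L m n : FX L m → FX L (m * n)` are the two degeneracy maps.
`A` is always a valuation ring of `L` and `π : A → k` a homomorphism to a field; in the applications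
`L = ℚ̄`, `A` is a place over a prime `q` and `k` is its residue field.

References in NOTES.md: [230] (Gauss valuations and Atkin-Lehner), [115] (reduction of divisors,
after Deuring), [291] (the genus is preserved), [271] (two components), [220] (sheets and models),
[172] (unipotent inertia and Steinberg relation, see `GuideBadRed`).

Editor: helper97; sections 1, 2, 4 by helper99 and helper34.
-/

set_option autoImplicit false

noncomputable section

open AlgebraicCurve ModularCurve IntermediateField Module WithZero
open Fermat.Agent.H99 (FX)

namespace Fermat.Agent.Guide.Reduction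

/-! ### 1. Function fields of modular curves -/

/-- **Generators.**  The function field of `X_0(N)` over `L` is generated by the series
`H66.J L d = j(t ^ d)`, `d ∣ N`.  Proved in `H66Gen`. -/
theorem functionField_le_iff {L : Type*} [Field L] [Algebra ℚ L] {N : ℕ} (hN : N ≠ 0)
    (F : IntermediateField L (LaurentSeries L)) :
    FX L N ≤ F ↔ ∀ d, d ∣ N → H66.J L d ∈ F := by
  rw [H99.FX_eq, H66.full_le_iff hN]

/-- **The two degeneracy maps** from level `N` to level `N ℓ`, on expansions: `heckeAlphaBar` is
`f(z) ↦ f(z)` and `heckeBetaBar` is `f(z) ↦ f(ℓ z)`, i.e. `t ↦ t ^ ℓ`. -/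
theorem degeneracy_expansion {L : Type*} [Field L] [Algebra ℚ L] (N ℓ : ℕ) [NeZero N] [NeZero ℓ]
    (f : FX L N) :
    ((heckeAlphaBar L N ℓ f : FX L (N * ℓ)) : LaurentSeries L) = (f : LaurentSeries L) ∧
      ((heckeBetaBar L N ℓ f : FX L (N * ℓ)) : LaurentSeries L) =
        qExpand L ℓ (f : LaurentSeries L) :=
  ⟨coe_heckeAlphaBar N ℓ f, coe_heckeBetaBar N ℓ f⟩

/-- **The field of level `N ℓ` is generated by the images of the two degeneracy maps**: two
homomorphisms which agree on both images are equal.  Together with `functionField_le_iff` this
proves all identities between degeneracy maps, Atkin-Lehner automorphisms and embeddings.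
Proved in `H99Emb2`. -/
theorem hom_ext_of_degeneracies {L : Type*} [Field L] [Algebra ℚ L] (N ℓ : ℕ) [NeZero N]
    [NeZero ℓ] (hℓ : ℓ.Prime) {E : Type*} [Field E] [Algebra L E] (φ ψ : FX L (N * ℓ) →ₐ[L] E)
    (h1 : ∀ x, φ (heckeAlphaBar L N ℓ x) = ψ (heckeAlphaBar L N ℓ x))
    (h2 : ∀ x, φ (heckeBetaBar L N ℓ x) = ψ (heckeBetaBar L N ℓ x)) : φ = ψ :=
  H99.algHom_ext' N ℓ hℓ φ ψ h1 h2

/-- **The Atkin-Lehner automorphism** `w_q` of the field of level `m q`, `(m, q) = 1` (`q` need not
be prime): an involution over `L` which exchanges the two degeneracy maps `f(z)` and `f(q z)`; in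
particular it exchanges `j(d z)` and `j(q d z)` for `d ∣ m`.  Constructed on the upper half plane:
there is a map `W` with `j(d W(z)) = j(d' z)` for all `d ∣ m q` (`d'` = exchanged divisor), so every
polynomial relation between the `j(d z)` holds for the `j(d' z)` (`H42Swap`, for a field `L`
embeddable in `ℂ`).  It exchanges the two components of the reduction of `X_0(m q)` modulo `q`.  The
structure `H99.AL L m q` consists of such an involution.  Proved in `H99Emb2`. -/
theorem exists_atkinLehner {L : Type*} [Field L] [Algebra ℚ L] (ι : L →+* ℂ) {m q : ℕ} [NeZero m]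
    [NeZero q] (h : m.Coprime q) :
    ∃ W : FX L (m * q) ≃ₐ[L] FX L (m * q), (∀ x, W (W x) = x) ∧
      (∀ x, W (heckeAlphaBar L m q x) = heckeBetaBar L m q x) ∧
      (∀ x, W (heckeBetaBar L m q x) = heckeAlphaBar L m q x) :=
  let ⟨w⟩ := H99.nonempty_AL (L := L) ι h
  ⟨w.W, w.invol, w.alpha, w.beta⟩

/-- **The degree over the `j`-line** of the function field of `X_0(N)` over an algebraically closed
field `k` of any characteristic not dividing `N` is Dedekind's `ψ(N) = N ∏ (1 + 1/p)`, `p ∣ N`.
(`relfinrank` is the degree of an extension of two subfields of `k((t))`.)  In characteristic `q`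
this is the irreducibility theorem of Igusa.  Proof: one prime `p ∣ N` at a time; the `p + 1`
conjugates `j(t ^ p)`, `j(ζ t^{1/p})` are written down, the last `p` of them are permuted
transitively by `t^{1/p} ↦ ζ t^{1/p}`, and `j(t ^ p)` is not in `k(j)`.  Proved in `H66Degree`. -/
theorem degree_eq_psi (k : Type*) [Field k] [IsAlgClosed k] (N : ℕ) [NeZero N]
    (hN : (N : k) ≠ 0) :
    relfinrank k⟮jqModC k⟯ (modularFunctionFieldFullC k N) = dedekindPsi N :=
  H66.relfinrank_full k N hN

/-- **The hypotheses on degrees of the next sections always hold.**  `H67.DegreeFact L`: the degree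
over `L(j)` is `ψ(N)` for all `N`; `H42.DegLE L k m`: the degree of the function field of `X_0(m)`
over `L(j)` is not zero and not larger than the one over `k(j)`.  They are written as hypotheses in
several theorems below, which were proved in parallel with `degree_eq_psi`. -/
theorem degree_hypotheses (L : Type*) [Field L] [Algebra ℚ L] [CharZero L] [IsAlgClosed L]
    (k : Type*) [Field k] [IsAlgClosed k] (m : ℕ) [NeZero m] (hm : (m : k) ≠ 0) :
    H67.DegreeFact L ∧ H42.DegLE L k m :=
  ⟨H42.degreeFact L, H42.degLE_of L k m hm⟩

/-! ### 2. Gauss valuation rings -/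

/-- **Places of `ℚ̄` have rank one.**  `A` is a valuation ring of `ℚ̄` above the prime `q`
(`LiesOverPrime`: `q` is in the maximal ideal), `a ∈ A` is not a unit and `0 ≠ b ∈ A`.  Then `b`
divides a power of `a`.  This replaces completeness and discreteness in all approximation arguments.
Proved in `H34Arch`. -/
theorem exists_dvd_pow {A : ValuationSubring (AlgebraicClosure ℚ)} {q : ℕ} (hq : q.Prime)
    (hA : A.LiesOverPrime q) (a b : A) (ha : ¬ IsUnit a) (hb : b ≠ 0) : ∃ n : ℕ, b ∣ a ^ n :=
  H34.Two.arch_Qbar hq hA a b ha hb

/-- **The Gauss norm of a bounded Laurent series is attained.**  `A` is any valuation ring of a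
field `L` with a local homomorphism `π : A → k` to a field, and `0 ≠ f` is in the `L`-span
of `ℤ((t))` inside `L((t))` (`H34.Two.intSpan`).  Then `f = c y` with `c ≠ 0` in `L` and a series
`y ∈ A((t))` whose reduction is not zero.  (The value group of `A` may be divisible, as over `ℚ̄`.)
Proof: finitely many elements of `ℤ((t))` are in the span of a system whose columns generate
`ℤ ^ r`.  Proved in `H34Two1`. -/
theorem gauss_norm_attained {L : Type*} [Field L] (A : ValuationSubring L) {k : Type*} [Field k]
    (π : A →+* k) [IsLocalHom π] {f : LaurentSeries L} (hf : f ∈ H34.Two.intSpan L) (hf0 : f ≠ 0) :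
    ∃ (c : L) (y : LaurentSeries A), c ≠ 0 ∧ coeffMap π y ≠ 0 ∧
      ∀ n : ℤ, f.coeff n = c * (y.coeff n : L) :=
  let ⟨c, y, hc, hy, h⟩ := H34.Two.exists_eq_smul A π hf hf0
  ⟨c, y, hc, hy, fun n => by rw [h, H34.Two.coeff_smul']; rfl⟩

/-- **The Gauss valuation ring of the function field of `X_0(M)`, unfolded.**  A function `f` of
level `M` is *Gauss integral* if `f z = y` for some `y, z ∈ A((t))` with `z` not reducing to zero.
`H34.Two.gC A π M` is this valuation ring (`.V`) together with its reduction map `.red` to `k((t))`
(extended by `0`): the component of the reduction through the cusp `∞`.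
Proved in `H34Two3`, `H34Two4`. -/
theorem mem_component_iff {L : Type*} [Field L] [Algebra ℚ L] (A : ValuationSubring L)
    {k : Type*} [Field k] (π : A →+* k) (M : ℕ) (f : FX L M) :
    f ∈ (H34.Two.gC A π M).V ↔ ∃ y z : LaurentSeries A, coeffMap π z ≠ 0 ∧
      (f : LaurentSeries L) * coeffMap A.subtype z = coeffMap A.subtype y :=
  H34.Two.mem_locL_iff A π

/-- **The Gauss reduction, unfolded**: if `f z = y` with `y, z ∈ A((t))` and `z̄ ≠ 0`, then
`red f = ȳ / z̄`.  Proved in `H34Two4`. -/
theorem component_red {L : Type*} [Field L] [Algebra ℚ L] (A : ValuationSubring L)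
    {k : Type*} [Field k] (π : A →+* k) (M : ℕ) (f : FX L M) (y z : LaurentSeries A)
    (hz : coeffMap π z ≠ 0)
    (h : (f : LaurentSeries L) * coeffMap A.subtype z = coeffMap A.subtype y) :
    (H34.Two.gC A π M).red f * coeffMap π z = coeffMap π y :=
  H34.Two.red_gaussComp_mul A π (H34.Two.isQuot_FX M) hz h

/-- **Every nonzero modular function can be scaled** by a constant to have nonzero reduction (the
value group of the component is the one of the constants, `e = 1`).
Proved in `H34Two3`, `H34Two5`. -/
theorem component_scalable {L : Type*} [Field L] [Algebra ℚ L] (A : ValuationSubring L)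
    {k : Type*} [Field k] (π : A →+* k) [IsLocalHom π] (M : ℕ) (f : FX L M) (hf : f ≠ 0) :
    ∃ c : L, c ≠ 0 ∧ (H34.Two.gC A π M).red (algebraMap L _ c * f) ≠ 0 :=
  H34.Two.gC_scalable A π M f hf

/-- **A bounded Gauss integral series has integral coefficients.**  `A` has rank one (`hA`), `f` is a
Laurent series over `L` with `c f ∈ A((t))` for some `c ≠ 0`, and `f z = y` with `y, z ∈ A((t))`,
`z̄ ≠ 0`.  Then all coefficients of `f` are in `A`.  So a function on `X_0(M)` whose expansion is
bounded (for instance one with poles only at cusps) and which is integral on the component through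
`∞` has a reduction which is computed coefficient by coefficient.  Proved in `H97InfA`, `H97InfC`. -/
theorem coeff_mem_of_bounded {L : Type*} [Field L] {A : ValuationSubring L} {k : Type*} [Field k]
    {π : A →+* k} [IsLocalHom π] (hA : ∀ a b : A, ¬ IsUnit a → b ≠ 0 → ∃ n : ℕ, b ∣ a ^ n)
    {f : LaurentSeries L} {c : A} (hc : c ≠ 0)
    (hcf : ∃ g : LaurentSeries A,
      coeffMap A.subtype g = algebraMap L (LaurentSeries L) (c : L) * f)
    {y z : LaurentSeries A} (hz : coeffMap π z ≠ 0)
    (h : f * coeffMap A.subtype z = coeffMap A.subtype y) : ∃ g, coeffMap A.subtype g = f :=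
  H97.GaussInt.mem_intL hA ⟨y, z, hz, h⟩ ⟨c, hc, hcf⟩

/-! ### 3. Good reduction of `X_0(N)` at a place of residue characteristic prime to `N` -/

/-- **Reductions of functions are functions.**  If the expansion of a function of level `N` has
coefficients in `A`, the reduced series is a function of level `N` over the residue field.  (This
is the `q`-expansion principle for functions.)  Proof: lift a basis of the function field over
`k(j)` to functions `b_i` with coefficients in `A` (the `j(t ^ d)` reduce to themselves).  The `b_i`
are independent over `L(j)`, so by the comparison of degrees they span the function field over `L`;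
clear denominators in `f = Σ r_i b_i` and reduce.  Proved in `H42GaussField`, `H42GaussMod`. -/
theorem reduction_mem {L : Type*} [Field L] [Algebra ℚ L] {A : ValuationSubring L} {k : Type*}
    [Field k] {π : A →+* k} (N : ℕ) [NeZero N] (hπ : Function.Surjective π)
    (hdeg : H42.DegLE L k N) (y : LaurentSeries A) (hy : coeffMap A.subtype y ∈ FX L N) :
    coeffMap π y ∈ modularFunctionFieldFullC k N :=
  H42.coeffMap_mem_full A π N hπ hdeg y hy

/-- **Orthonormal bases.**  `R = H42.modReductionData A π N hπ hdeg` is the reduction of the function
field of `X_0(N)` at `A`: a subring `R.B` (the Gauss integral functions) with its reduction map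
`R.ρ` to the function field over `k`.  Every finite dimensional space `V` of functions over `L` has
a basis of integral functions with linearly independent reductions.  In particular the reduction of
`V` has the same dimension as `V`.  Proved in `H42Gauss` (maximal minors and the lemma of Gauss for
families of polynomials), `H42GaussField`, `H42RedInputs`. -/
theorem exists_orthonormal_basis {L : Type*} [Field L] [Algebra ℚ L] (A : ValuationSubring L)
    {k : Type*} [Field k] (π : A →+* k) (N : ℕ) [NeZero N] (hπ : Function.Surjective π)
    [IsLocalHom π] (hdeg : H42.DegLE L k N) (V : Submodule L (FX L N)) [FiniteDimensional L V] :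
    ∃ (n : ℕ) (b : Fin n → (H42.modReductionData A π N hπ hdeg).B),
      Submodule.span L (Set.range fun i => (b i : FX L N)) = V ∧
      LinearIndependent k (fun i => (H42.modReductionData A π N hπ hdeg).ρ (b i)) :=
  (H42.modReductionData A π N hπ hdeg).exists_basis V inferInstance

/-- **The genus is preserved** (Igusa's theorem, in the only form in which good reduction is used):
if the prime `ℓ` does not divide `N`, the function field of `X_0(N)` over `ℚ̄` and the one over the
residue field of a place `A` over `ℓ` have the same genus.  Proof: if `2 ∣ N` or `3 ∣ N`, by a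
Hauptmodul of level `2` or `3` and by counting places with Riemann-Roch; then descent from level
`2 N` or `3 N` to level `N` by norms and traces (step by step in `GuideIgusa`).
Proved in `H88GenusEq`; used for S18 (`H18Final`) and for all statements on `J_0(N)` at a good prime. -/
theorem genus_eq (N : ℕ) [NeZero N] {ℓ : ℕ} [Fact ℓ.Prime] (hℓN : ¬ ℓ ∣ N)
    (A : ValuationSubring (AlgebraicClosure ℚ)) (hA : A.LiesOverPrime ℓ) :
    genusFF (AlgebraicClosure ℚ) (FX (AlgebraicClosure ℚ) N) =
      genusFF (IsLocalRing.ResidueField A)
        (modularFunctionFieldFullC (IsLocalRing.ResidueField A) N) :=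
  H88.genusFFEq N hℓN A hA

/-- **Reduction of places and divisors (Deuring).**  Let `q` be a prime not dividing `m` and `A` a
place of `ℚ̄` over `q` with residue field `k`.  There is a map `r` from the places of the function
field of `X_0(m)` over `ℚ̄` to the places over `k`, and a constant `c`, such that
(a) for every divisor `D` of degree `> c` the divisor `r D` has the same degree as `D`, and the
reductions of the integral functions in `L(D)` are exactly the functions in `L(r D)`;
(b) the divisor of the reduction of an integral function with nonzero reduction is the image of its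
divisor;
(c) the cusp `∞` reduces to the cusp `∞` (`P₀`, `P` are the places given by the order of the
expansion).
Proof: `genus_eq`, `exists_orthonormal_basis` and Riemann-Roch for large degrees
(`H40DeuringMain`, `H40DeuringPlace`); (c) in `H97InfC`.  In this form it is used for the models of
section 6; for S17, S29-S37 the map `r` enters through `H42.reductionInputsAlong` and
`H97.exists_red` (same proof). -/
theorem exists_place_reduction {m q : ℕ} [NeZero m] [Fact q.Prime] (hqm : ¬ q ∣ m)
    {A : ValuationSubring (AlgebraicClosure ℚ)} (hA : A.LiesOverPrime q)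
    [IsAlgClosed (IsLocalRing.ResidueField A)]
    (hdeg : H42.DegLE (AlgebraicClosure ℚ) (IsLocalRing.ResidueField A) m) :
    ∃ (r : Place (AlgebraicClosure ℚ) (FX (AlgebraicClosure ℚ) m) →
        Place (IsLocalRing.ResidueField A)
          (modularFunctionFieldFullC (IsLocalRing.ResidueField A) m)) (c : ℕ),
      (∀ D : Divisor (AlgebraicClosure ℚ) (FX (AlgebraicClosure ℚ) m),
        (c : ℤ) < Divisor.degree D →
          Divisor.degree (Finsupp.mapDomain r D : Divisor (IsLocalRing.ResidueField A)
            (modularFunctionFieldFullC (IsLocalRing.ResidueField A) m)) = Divisor.degree D ∧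
          (H42.modReductionData A (IsLocalRing.residue A) m IsLocalRing.residue_surjective
            hdeg).red (riemannRochSpace D) = riemannRochSpace (Finsupp.mapDomain r D)) ∧
      (∀ x : (H42.modReductionData A (IsLocalRing.residue A) m IsLocalRing.residue_surjective
          hdeg).B, (H42.modReductionData A (IsLocalRing.residue A) m
            IsLocalRing.residue_surjective hdeg).ρ x ≠ 0 →
        ∀ Δ : Divisor (AlgebraicClosure ℚ) (FX (AlgebraicClosure ℚ) m),
          (∀ v, Δ v = v.ord (x : FX (AlgebraicClosure ℚ) m)) →
          ∀ w, Finsupp.mapDomain r Δ w = w.ord ((H42.modReductionData A (IsLocalRing.residue A) m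
            IsLocalRing.residue_surjective hdeg).ρ x)) ∧
      ∀ (P₀ : Place (AlgebraicClosure ℚ) (FX (AlgebraicClosure ℚ) m))
        (P : Place (IsLocalRing.ResidueField A)
          (modularFunctionFieldFullC (IsLocalRing.ResidueField A) m)),
        (∀ f : FX (AlgebraicClosure ℚ) m,
          P₀.ord f = (f : LaurentSeries (AlgebraicClosure ℚ)).order) →
        (∀ f : modularFunctionFieldFullC (IsLocalRing.ResidueField A) m,
          P.ord f = (f : LaurentSeries (IsLocalRing.ResidueField A)).order) → r P₀ = P :=
  H31.EqI.exists_r hqm hA hdeg

/-! ### 4. The two components of `X_0(mq)` in characteristic `q` -/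

/-- **The second component, unfolded**: it is the image of the first one under the Atkin-Lehner
involution `w` of the function field of `X_0(mq)`.  Its reduction map is `f ↦ red(w f)`.
Proved in `H34Two5`. -/
theorem second_component {L : Type*} [Field L] [Algebra ℚ L] (A : ValuationSubring L)
    {k : Type*} [Field k] (π : A →+* k) {m q : ℕ} [NeZero m] [NeZero q] (w : H99.AL L m q)
    (f : FX L (m * q)) :
    (f ∈ (H34.Two.gC2 A π w).V ↔ w.W f ∈ (H34.Two.gC A π (m * q)).V) ∧
      (H34.Two.gC2 A π w).red f = (H34.Two.gC A π (m * q)).red (w.W f) :=
  ⟨Iff.rfl, H34.Two.red_gC2 A π w f⟩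

/-- **The degeneracy maps on the two components** (Kronecker's congruence at the level of
functions): on the first component `α f`, `β f` reduce to `f̄`, `f̄(t ^ q)`, on the second one to
`f̄(t ^ q)`, `f̄`.  Proved in `H34Two4`, `H34Two5`.  Used for the Steinberg relation on
`J_0(mq)` (S35). -/
theorem degeneracy_reduction {L : Type*} [Field L] [Algebra ℚ L] (A : ValuationSubring L)
    {k : Type*} [Field k] (π : A →+* k) {m q : ℕ} [NeZero m] [NeZero q] (w : H99.AL L m q)
    (f : FX L m) :
    (H34.Two.gC A π (m * q)).red (heckeAlphaBar L m q f) = (H34.Two.gC A π m).red f ∧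
    (H34.Two.gC A π (m * q)).red (heckeBetaBar L m q f) =
      qExpand k q ((H34.Two.gC A π m).red f) ∧
    (H34.Two.gC2 A π w).red (heckeAlphaBar L m q f) = qExpand k q ((H34.Two.gC A π m).red f) ∧
    (H34.Two.gC2 A π w).red (heckeBetaBar L m q f) = (H34.Two.gC A π m).red f :=
  ⟨H34.Two.red_alpha A π f, H34.Two.red_beta A π f, H34.Two.red_gC2_alpha A π w f,
    H34.Two.red_gC2_beta A π w f⟩

/-- **The two components are different** (in characteristic `q`), because `j` reduces to `j` on the
first one and to `j(t ^ q) = j ^ q` on the second one.  Proved in `H34Two5`. -/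
theorem components_ne {L : Type*} [Field L] [Algebra ℚ L] (A : ValuationSubring L)
    {k : Type*} [Field k] (π : A →+* k) {m q : ℕ} [NeZero m] [NeZero q] [Fact q.Prime] [CharP k q]
    (w : H99.AL L m q) : (H34.Two.gC A π (m * q)).V ≠ (H34.Two.gC2 A π w).V :=
  H34.Two.V_ne A π w

/-- **Sum of degrees.**  Write `F` for the function field of `X_0(mq)` over `L` and `κ` for the one
of `X_0(m)` over `k`, `q ∤ m`.  Then `[F : L(j)] ≤ [κ : k(j)] + [κ : k(j ^ q)]`; here `jmq` is the
function `j` of level `mq`, `jk` the one of level `m` over `k`.  Proof: `ψ(mq) = (q + 1) ψ(m)` and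
`degree_hypotheses`.  Proved in `H34Two5`. -/
theorem degree_sum {L : Type*} [Field L] [Algebra ℚ L] {k : Type*} [Field k] {m q : ℕ} [NeZero m]
    [NeZero q] [Fact q.Prime] (hD : H67.DegreeFact L) (hdeg : H42.DegLE L k m) (hqm : ¬ q ∣ m) :
    finrank L⟮H34.Two.jmq L m q⟯ (FX L (m * q)) ≤
      finrank k⟮H34.Two.jk k m⟯ (modularFunctionFieldFullC k m) +
        finrank k⟮H34.Two.jk k m ^ q⟯ (modularFunctionFieldFullC k m) :=
  H34.Two.degree_sum hD hdeg hqm

/-- **The residue fields of both components are the function field of `X_0(m)` in characteristic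
`q`** (for `q ∤ m`, `π : A → k` onto, `k` infinite of characteristic `q`): every value of the two
reduction maps is a modular function of level `m`.  Proof: both residue fields contain `κ`
(`degeneracy_reduction`), and by `degree_sum` the fundamental inequality for the two different
valuation rings over `L(j)` is an equality.  In particular there is no third component.
Proved in `H34Two5`.  Used for the two-component reductions of `GuideBadRed` (S34, S35) and for the
semistable model of section 6. -/
theorem residue_fields {L : Type*} [Field L] [Algebra ℚ L] {A : ValuationSubring L}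
    {k : Type*} [Field k] {π : A →+* k} {m q : ℕ} [NeZero m] [NeZero q] [Fact q.Prime] [CharP k q]
    [Infinite k] [IsLocalHom π] (w : H99.AL L m q) (hπ : Function.Surjective π)
    (hD : H67.DegreeFact L) (hdeg : H42.DegLE L k m) (hqm : ¬ q ∣ m) (f : FX L (m * q)) :
    (H34.Two.gC A π (m * q)).red f ∈ modularFunctionFieldFullC k m ∧
    (H34.Two.gC2 A π w).red f ∈ modularFunctionFieldFullC k m :=
  H34.Two.red_mem_full w hπ hD hdeg hqm f

/-- **Traces in terms of expansions.**  `x` is a function on `X_0(Nℓ)` and `w x` the expansion of its
transform under an embedding exchanging the two degeneracy maps (`H60.IsSwap`, for instance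
Atkin-Lehner).  The trace of `x` to level `N` (`H97.traceAlong`, the trace of the field extension
given by `heckeAlphaBar`) is `x + ℓ U_ℓ (w x)`: its coefficient at `n` is `x_n + ℓ (w x)_{ℓ n}`.  In
particular it is congruent to `x` modulo `ℓ` if `w x` is integral.  Proof: the trace is the sum over
the `ℓ + 1` embeddings `x(t)`, `(w x)(ζ t^{1/ℓ})`.  Proved in `H97InfD`.  (Traces as sums over
embeddings are used again for level `m q²`, `H34Two2` and `H99Three2`, S36.) -/
theorem trace_expansion {L : Type*} [Field L] [Algebra ℚ L] [CharZero L] {N ℓ : ℕ} [NeZero N]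
    [NeZero ℓ] {w : FX L (N * ℓ) →+* LaurentSeries L} (hw : H60.IsSwap w) (hℓ : 1 < ℓ) {ζ : Lˣ}
    (hζ : IsPrimitiveRoot ζ ℓ) (hfin : FiniteAlong L (heckeAlphaBar L N ℓ))
    (hdeg : finrankAlong L (heckeAlphaBar L N ℓ) ≤ ℓ + 1) (x : FX L (N * ℓ)) (n : ℤ) :
    ((H97.traceAlong (heckeAlphaBar L N ℓ) x : FX L N) : LaurentSeries L).coeff n =
      (x : LaurentSeries L).coeff n + ℓ * (w x).coeff (ℓ * n) :=
  H97.coeff_traceAlong hw hℓ hζ hfin hdeg x n

/-! ### 5. The cusps -/

/-- **The cusps of `X_0(Nℓ)` in characteristic `ℓ`** (`ℓ` a prime not dividing `N`, `k` of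
characteristic `ℓ`, `A` of rank one).  `W` is the involution of level `Nℓ` exchanging the two
degeneracy maps, `P₁` the cusp `∞` of level `Nℓ` (order = order of the expansion), `P₂ = W P₁`, and
`P` the cusp `∞` of level `N` in characteristic `ℓ`.
(a) Poles specialise: if `f` has poles of order at most `i` at `P₁`, `j` at `P₂` and no others, and
`f`, `W f` are Gauss integral (`H97.GaussInt`, see `mem_component_iff`), then both have coefficients
in `A`, and the reductions are functions of level `N` with at most a pole of order `i` (resp. `j`)
at `P`.
(b) Lifting: for `i` large every function `a` of level `N` in characteristic `ℓ` with at most a pole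
of order `i` at `P` is the reduction of a function `x` of level `Nℓ` with poles of order at most `i`
at `P₁` and `ℓ i` at `P₂` and `W x = x(t ^ ℓ)`.
The hypothesis `hgen` holds over `ℚ̄` by `genus_eq`.
Proof of (a): the trace of `f` to level `N` is congruent to `f` modulo `ℓ` (`trace_expansion`) and
regular outside `∞` (`GuideTwoSheets.trace_regular`), and level `N` has good reduction; the order of
the reduction at `∞` is read off the expansion.  Proof of (b): lift `a` to level `N` and pull the
lift back to level `Nℓ` (`GuideTwoSheets.pull_back_poles`).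
Proved in `H97InfA`-`H97InfH`; used in `H34Two7` for S34, S35. -/
theorem cusp_reduction {L : Type*} [Field L] [Algebra ℚ L] [CharZero L] [IsAlgClosed L]
    {A : ValuationSubring L} {k : Type*} [Field k] [IsAlgClosed k] {π : A →+* k} {N ℓ : ℕ}
    [NeZero N] [NeZero ℓ] (hℓ : ℓ.Prime) (hN : (N : k) ≠ 0) (hℓk : (ℓ : k) = 0)
    (hπ : Function.Surjective π) [IsLocalHom π]
    (hA : ∀ a b : A, ¬ IsUnit a → b ≠ 0 → ∃ n : ℕ, b ∣ a ^ n)
    (hgen : genusFF L (FX L N) = genusFF k (modularFunctionFieldFullC k N))
    {W : FX L (N * ℓ) ≃ₐ[L] FX L (N * ℓ)}
    (hα : ∀ x, W (heckeAlphaBar L N ℓ x) = heckeBetaBar L N ℓ x) (hWW : ∀ x, W (W x) = x)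
    {P₁ P₂ : Place L (FX L (N * ℓ))}
    (hP₁ : ∀ f : FX L (N * ℓ), P₁.ord f = (f : LaurentSeries L).order)
    (hP₂ : ∀ f, P₂.ord f = P₁.ord (W f))
    {P : Place k (modularFunctionFieldFullC k N)}
    (hP : ∀ f : modularFunctionFieldFullC k N, P.ord f = (f : LaurentSeries k).order) :
    (∀ (i j : ℤ) (f : FX L (N * ℓ)),
      f ∈ riemannRochSpace (Finsupp.single P₁ i + Finsupp.single P₂ j :
        Divisor L (FX L (N * ℓ))) →
      H97.GaussInt π (f : LaurentSeries L) →
      H97.GaussInt π ((W f : FX L (N * ℓ)) : LaurentSeries L) →
      (∃ y : LaurentSeries A, coeffMap A.subtype y = f ∧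
        ∃ hy : coeffMap π y ∈ modularFunctionFieldFullC k N,
          (⟨coeffMap π y, hy⟩ : modularFunctionFieldFullC k N) ∈
            riemannRochSpace (Finsupp.single P i :
              Divisor k (modularFunctionFieldFullC k N))) ∧
      (∃ y : LaurentSeries A, coeffMap A.subtype y = (W f : FX L (N * ℓ)) ∧
        ∃ hy : coeffMap π y ∈ modularFunctionFieldFullC k N,
          (⟨coeffMap π y, hy⟩ : modularFunctionFieldFullC k N) ∈
            riemannRochSpace (Finsupp.single P j :
              Divisor k (modularFunctionFieldFullC k N)))) ∧
    (∃ i₀ : ℕ, ∀ i ≥ i₀, ∀ a : modularFunctionFieldFullC k N,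
      a ∈ riemannRochSpace (Finsupp.single P (i : ℤ) :
        Divisor k (modularFunctionFieldFullC k N)) →
      ∃ (y : LaurentSeries A) (x : FX L (N * ℓ)), coeffMap A.subtype y = x ∧
        coeffMap A.subtype (qExpand A ℓ y) = (W x : FX L (N * ℓ)) ∧ coeffMap π y = a ∧
        x ∈ riemannRochSpace
          (Finsupp.single P₁ (i : ℤ) + Finsupp.single P₂ ((ℓ * i : ℕ) : ℤ) :
            Divisor L (FX L (N * ℓ))) ∧
        W x ∈ riemannRochSpace
          (Finsupp.single P₁ ((ℓ * i : ℕ) : ℤ) + Finsupp.single P₂ (i : ℤ) :
            Divisor L (FX L (N * ℓ)))) :=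
  H97.red_mem_and_lift hℓ hN hℓk hπ hA hgen hα hWW hP₁ hP₂ hP

/-! ### 6. Semistable models in function field language

In the first part of this section `F` is a function field over `K`, `vK` a valuation of `K` with a
residue map `res : K → k` (meaningful on integral constants), and `Fb` a function field over `k`. -/

section Models

variable {K F k Fb Γ : Type*} [Field K] [Field F] [Algebra K F] [Field k] [Field Fb] [Algebra k Fb]
  [LinearOrderedCommGroupWithZero Γ]

/-- **Components, unfolded.**  The pair `(v, ρ)` is a component if `v` is a valuation of `F`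
extending `vK`, `ρ : F → Fb` is a ring homomorphism on `{v ≤ 1}` with kernel `{v < 1}` compatible
with `res`, every nonzero function has the value of a constant, and every nonconstant function has a
best approximation by constants, the normalised difference having a nonconstant reduction.
Defined in `H97Comp`. -/
theorem comp_iff (vK : Valuation K Γ) (res : K → k) (v : Valuation F Γ) (ρ : F → Fb) :
    H97.Comp vK res v ρ ↔
      (∀ c : K, v (algebraMap K F c) = vK c) ∧ ρ 1 = 1 ∧
      (∀ x y, v x ≤ 1 → v y ≤ 1 → ρ (x + y) = ρ x + ρ y) ∧
      (∀ x y, v x ≤ 1 → v y ≤ 1 → ρ (x * y) = ρ x * ρ y) ∧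
      (∀ x, v x ≤ 1 → (ρ x = 0 ↔ v x < 1)) ∧
      (∀ c : K, vK c ≤ 1 → ρ (algebraMap K F c) = algebraMap k Fb (res c)) ∧
      (∀ f : F, f ≠ 0 → ∃ c : K, c ≠ 0 ∧ v f = vK c) ∧
      ∀ w : F, (∀ c : K, w ≠ algebraMap K F c) → ∃ c l : K, l ≠ 0 ∧
        v (w - algebraMap K F c) ≤ vK l ∧
        ∀ e : k, ρ ((w - algebraMap K F c) / algebraMap K F l) ≠ algebraMap k Fb e :=
  ⟨fun h => ⟨h.v_alg, h.ρ_one, h.ρ_add, h.ρ_mul, h.ρ_eq_zero, h.ρ_alg, h.scale, h.opt⟩,
    fun ⟨a, b, c, d, e, f, g, h⟩ => ⟨a, b, c, d, e, f, g, h⟩⟩

variable {ι ν : Type*} (M : H97.Model K F k Fb Γ ι ν)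

/-- **The three rules of a semistable model.**  `M : H97.Model K F k Fb Γ ι ν` is a model with
components `i : ι`, given by the pairs `(M.v i, M.ρ i)` as in `comp_iff`, and nodes `ν`; `M.br s` is
the finite set of branches (points on components) of the node `s`, and `M.sp P` is the point to
which the place `P` of `F` specialises: a smooth point `x` (a place `x.2` of the component `x.1`, no
branch) or a node.  `D.mapDomain M.sp` is the divisor `D` pushed to the special fibre: its value at
a point is the degree of `D` on the residue class of the point.
(a) If `f` is a unit for the valuation of the component of the smooth point `x`, the degree of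
`div f` on the residue class of `x` is the order of the reduction of `f` at `x`.
(b) If `f` is a unit for all components, the degree of `div f` on the annulus of the node `s` is the
sum of the orders of the reductions of `f` over the branches of `s`.
(c) A function which is integral on all components and regular on the annulus of `s` has the same
value at all branches of `s`.
These rules are the definition of a model (`H97Model`).  The arguments on semistable reduction (S44,
Mazur's principle) use them, the local equation at the nodes and Riemann-Roch. -/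
theorem model_rules :
    (∀ x : ι × Place k Fb, (∀ s, x ∉ M.br s) → ∀ f : F, f ≠ 0 → M.v x.1 f = 1 →
      ∀ D : Divisor K F, (∀ P, D P = P.ord f) →
        D.mapDomain M.sp (Sum.inl x) = x.2.ord (M.ρ x.1 f)) ∧
    (∀ s, ∀ f : F, f ≠ 0 → (∀ i, M.v i f = 1) → ∀ D : Divisor K F, (∀ P, D P = P.ord f) →
      D.mapDomain M.sp (Sum.inr s) = ∑ x ∈ M.br s, x.2.ord (M.ρ x.1 f)) ∧
    ∀ s, ∀ f : F, (∀ i, M.v i f ≤ 1) → (∀ P, M.sp P = Sum.inr s → P.adicValuation f ≤ 1) →
      ∃ c : k, ∀ x ∈ M.br s, x.2.adicValuation (M.ρ x.1 f - algebraMap k Fb c) < 1 :=
  ⟨M.smooth_deg, M.node_deg, M.node_val⟩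

end Models

/-! In the second part, `L` is algebraically closed of characteristic `0`, `q` is a prime not
dividing `m`, `k` is algebraically closed of characteristic `q`, and `w` is an Atkin-Lehner
involution of level `mq`.  `H97.v0` is the Gauss valuation of level `m`, `H97.v1` the one of level
`mq` and `H97.v2` its image under `w`, all with values in the value group of `A`. -/

section Instance

variable {L : Type*} [Field L] [Algebra ℚ L] (A : ValuationSubring L) {k : Type*} [Field k]
  (π : A →+* k) {m q : ℕ} [NeZero m] [NeZero q] [Fact q.Prime]
  [CharP k q] [IsAlgClosed k] [Infinite k] (w : H99.AL L m q)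
  (hπ : Function.Surjective π) (hD : H67.DegreeFact L)
  (hdeg : H42.DegLE L k m) (hqm : ¬ q ∣ m)

omit [IsAlgClosed k] in
/-- **The valuations of level `m q`.**  Every function `f ≠ 0` of level `mq` is `c g`, `c` a constant
and `g` a Gauss unit (`g = y / z` with `y, z ∈ A((t))`, both not reducing to zero), and `v1(f)` is
the value of `c`; moreover `v2(f) = v1(w f)`.  Proved in `H97MdI`. -/
theorem valuations {f : FX L (m * q)} (hf : f ≠ 0) :
    (∃ (c : L) (y z : LaurentSeries A), c ≠ 0 ∧ coeffMap π y ≠ 0 ∧ coeffMap π z ≠ 0 ∧
      (f : LaurentSeries L) * coeffMap A.subtype z =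
        algebraMap L (LaurentSeries L) c * coeffMap A.subtype y ∧
      H97.v1 A π w hπ hD hdeg hqm f = A.valuation c) ∧
    H97.v2 A π w hπ hD hdeg hqm f = H97.v1 A π w hπ hD hdeg hqm (w.W f) :=
  let ⟨c, _, hc, ⟨y, z, hy, hz, h, _⟩, h', _⟩ := H97.hasG1 A π w hπ hD hdeg hqm hf
  ⟨⟨c, y, z, hc, hy, hz, h, h'⟩, H97.v2_eq A π w hπ hD hdeg hqm f⟩

variable [IsAlgClosed L] [CharZero L] [IsLocalHom π]

/-- **First norm formula.**  The norm along the first degeneracy map `α`, of degree `q + 1`,
satisfies `v0(N f) = v1(f) v2(f) ^ q` (additively: `v1(f) + q v2(f)`).  Proof: the expansion of `N f`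
at `t ^ q` is the product of the one of `f` at `t ^ q` and of the `q` twists of the one of `w f` by
the `q`-th roots of unity, which are `≡ 1` modulo the maximal ideal.  Proved in `H97MdJ`. -/
theorem norm_value (f : FX L (m * q)) :
    H97.v0 A π w hπ hD hdeg hqm (H60.normAlong (heckeAlphaBar L m q) f) =
      H97.v1 A π w hπ hD hdeg hqm f * H97.v2 A π w hπ hD hdeg hqm f ^ q :=
  H97.v0_norm A π w hπ hD hdeg hqm f

/-- **Second norm formula.**  If `v1(f) = v2(f) = 1`, the reduction of `N f` is the product of the
first reduction of `f` and of the coefficientwise Frobenius (`H97.sig`) of its second reduction.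
(`comp0`, `comp1`, `comp2` are the components of section 4 with the residue field of
`residue_fields`.)  Proved in `H97MdJ`. -/
theorem norm_reduction {f : FX L (m * q)} (h1 : H97.v1 A π w hπ hD hdeg hqm f = 1)
    (h2 : H97.v2 A π w hπ hD hdeg hqm f = 1) :
    (H97.comp0 A π w hπ hD hdeg hqm).red (H60.normAlong (heckeAlphaBar L m q) f) =
      (H34.Two.comp1 A π w hπ hD hdeg hqm).red f *
        H97.sig k m q ((H34.Two.comp2 A π w hπ hD hdeg hqm).red f) :=
  H97.red0_norm A π w hπ hD hdeg hqm h1 h2

end Instance

section Sheets

variable {K F₀ F k κ Γ : Type*} [Field K] [Field F₀] [Field F] [Algebra K F₀] [Algebra K F]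
  [Field k] [Field κ] [Algebra k κ] [LinearOrderedCommGroupWithZero Γ] {q : ℕ}
  [IsAlgClosed K] [CharZero K] [H3RR.IsFF K F₀] [H3RR.IsFF K F] [IsAlgClosed k] [H3RR.IsFF k κ]
  [H94.FunField K F₀] [H94.FunField K F] [Fact q.Prime] [CharP k q]
  (S : H97.Sheets K F₀ F k κ Γ q)

omit [H3RR.IsFF K F₀] [H3RR.IsFF K F] [IsAlgClosed k] [H3RR.IsFF k κ] [Fact q.Prime] [CharP k q] in
/-- **Nodes of two sheets.**  `S` is a two-sheet structure (`H97.Sheets`, unfolded in
`GuideTwoSheets.sheets_rules`): an extension `F/F₀` of degree `q + 1` of function fields over `K`, a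
good reduction `κ` of `F₀` (valuation `v₀`, reduction `ρ₀`), and two extensions `v false`, `v true`
of `v₀` to `F`, both with reductions in `κ`; the first one has residue degree one, the second one is
purely inseparable of degree `q`, and the two norm formulae above hold.  Over a point `x` of the
special fibre of `F₀` lie the points `S.pt false x = x` and `S.pt true x` (the Frobenius twist of
`x`).  The point `x` is a node if no function of the semilocal ring over `x` (integral for both
valuations and regular at all places over `x`) takes different values at these two points.  The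
finiteness of the set of nodes is not needed, and the words supersingular point do not occur. -/
theorem node_iff (x : Place k κ) :
    S.Node x ↔ ∀ f, ((∀ i, S.v i f ≤ 1) ∧ ∀ P, S.red P = x → P.adicValuation f ≤ 1) →
      ∃ c : k, ∀ i, (S.pt i x).adicValuation (S.ρ i f - algebraMap k κ c) < 1 :=
  Iff.rfl

/-- **Degrees on the two sheets** (the rules (a) and (b) for the model `S.model` of `F`).
(a) If `x` is not a node, the places of `F` over `x` fall into two classes, one for each sheet, and
the degree of `div f` on the class of the sheet `i` is the order of the reduction of `f`, for every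
`f` with `v_i(f) = 1`.
(b) Over a node the degree of `div f` is the sum of the orders of the two reductions, if `f` is a
unit for both valuations.
Proof: the norm formulae give the sum of the degrees over `x`; a function separating the two points
over `x` gives one inequality for each sheet.  Proved in `H97MdA`-`H97MdE`. -/
theorem sheets_degrees {f : F} (hf : f ≠ 0) {D : Divisor K F} (hD : ∀ P, D P = P.ord f) :
    (∀ x, ¬ S.Node x → ∀ i, S.v i f = 1 →
      D.mapDomain S.sp (Sum.inl (i, S.pt i x)) = (S.pt i x).ord (S.ρ i f)) ∧
    ∀ s : {x : Place k κ // S.Node x}, (∀ i, S.v i f = 1) →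
      D.mapDomain S.sp (Sum.inr s) = s.1.ord (S.ρ false f) + (S.tw s.1).ord (S.ρ true f) :=
  ⟨fun _ hx i hv => S.deg_smooth hx i hv hD, fun s hv => S.deg_node s hf hv hD⟩

end Sheets

/-- **The two-sheet structure of `X_0(mq) → X_0(m)` in characteristic `q`**, `q ∤ m` (`H97.sheets`,
constructed from the norm formulae, from `residue_fields` and from the place reduction `r` of level
`m` of `exists_place_reduction`).  The hypotheses on `r` are: `r_* D` is the reduction of `D` for
divisors of large degree (`hr1`, see `GuideDeuring.isRed_iff`), and the divisor of the reduction of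
`f` is `r_* (div f)` if `f` is integral with nonzero reduction (`hr2`, `H34.GR.DivCompat`).  The
data of the structure are: the degeneracy map `α`, the valuations `v1`, `v2`, the reductions on the
two components, and the Frobenius twist of places.  `S.model` is the semistable model of `X_0(mq)`
at `A`; the thickness of its nodes is computed with the local equation at a node (`H45NdA`-`H45NdG`,
`H61NdA`, `H61NdB`, see `GuideNodeParameters`).  Defined in `H97MdL`. -/
theorem sheets_data {L : Type*} [Field L] [Algebra ℚ L] {A : ValuationSubring L} {k : Type*}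
    [Field k] {π : A →+* k} {m q : ℕ} [NeZero m] [NeZero q] [Fact q.Prime] [CharP k q]
    [IsAlgClosed k] [Infinite k] (w : H99.AL L m q) (hπ : Function.Surjective π)
    (hdeg : H42.DegLE L k m) (hqm : ¬ q ∣ m) [IsAlgClosed L] [CharZero L] [IsLocalHom π]
    (hA : ∀ a b : A, ¬ IsUnit a → b ≠ 0 → ∃ n : ℕ, b ∣ a ^ n)
    (r : Place L (FX L m) → Place k (modularFunctionFieldFullC k m)) {c : ℕ}
    (hr1 : ∀ D : Divisor L (FX L m), (c : ℤ) < Divisor.degree D →
      (H42.modReductionData A π m hπ hdeg).IsRed D (Finsupp.mapDomain r D))
    (hr2 : H34.GR.DivCompat (H42.modReductionData A π m hπ hdeg) r) :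
    let S := H97.sheets w hπ hdeg hqm hA r hr1 hr2
    S.φ = heckeAlphaBar L m q ∧ S.vK = A.valuation ∧ S.r = r ∧
      S.v₀ = H97.v0 A π w hπ (H42.degreeFact L) hdeg hqm ∧
      S.v false = H97.v1 A π w hπ (H42.degreeFact L) hdeg hqm ∧
      S.v true = H97.v2 A π w hπ (H42.degreeFact L) hdeg hqm ∧
      S.ρ false = (H34.Two.comp1 A π w hπ (H42.degreeFact L) hdeg hqm).red ∧
      S.ρ true = (H34.Two.comp2 A π w hπ (H42.degreeFact L) hdeg hqm).red ∧
      (∀ x h, (S.tw x).adicValuation h = x.adicValuation (H97.sig k m q h)) :=
  ⟨rfl, rfl, rfl, rfl, rfl, rfl, rfl, rfl, fun x h => (H97.twP_val k m q x h).symm⟩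

end Fermat.Agent.Guide.Reduction

end
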