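import Fermat.Agent.H65C1

/-!
# Guide: flatness of the residual representation of a modular curve, step by step

Companion of `GuideFlat` (last section, `residual_flat_of_modular`), `GuideLevels` (`residual_flat`) and
`GuideLevelsOdd` (`flat_type`); their statements are not repeated.  Used in S38, S43, S59, S60 and so in
S01, S03, S04, S06, S45, S46, S50 (the last theorem only in S38).

**The statement.** `W` is a Weierstrass equation over `ℤ`, `p` odd, the representation on `E[p]`
irreducible, and `W` residually modular of a level `M` prime to `p`.  Then `E[p]` is flat at `p`, although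
nothing is assumed about the reduction of `W` at `p`.

**The proof.** Let `k₀ = 𝔽_p` be the residue field of `ℤ_p`.  Residual modularity gives a homomorphism `θ`
from the Hecke algebra of level `M` to `k₀` with `θ(T_ℓ) = a_ℓ(W)` for the primes `ℓ` of good reduction,
`ℓ ∤ M p` (the operators at the other primes are left out).  By S30 there is a representation over the local
Hecke ring `T` of `θ`, whose residual representation is `E[p]` over the residue field `k_T` of `T`; by S32 it
is flat at `p`.  So `E[p] ⊗ k_T` has a flat order (section 1), therefore also the stable subgroup `E[p]`, and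
then `E[p] ⊗ k` for every finite field `k` of characteristic `p`, a quotient of a finite power of `E[p]`
(section 2).  The same argument shows that inertia at the primes `q ≠ p`, `q ∤ M`, acts trivially.

**Notation.** A `ResidualGaloisRep k` is a two-dimensional representation `ρ.ρ` on `ρ.V` over the field
`k`; `ρ.baseChangeAlong φ` is its base change along `φ : k → k'`, `ρ.residual` the residual representation
of a representation over a local ring.  `H32.HasFlatOrder p V act` (`GuideFlat.hasFlatOrder_def`): `V` is
finite and there is a finite flat order over `ℤ_(p)` in the functions on `V`, compatible with the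
Galois action and the addition.  Files `H47LL2` (helper47), `H65C1` (helper65), `H59Occ`.
-/

set_option autoImplicit false
set_option linter.overlappingInstances false

namespace Fermat.Agent.Guide.ResidualFlat

open IsLocalRing CuspForm GaloisRep
open Fermat.Agent.H87.Glue (resZ)

/-- short for the Galois group of `ℚ` -/
local notation "GQ" => (AlgebraicClosure ℚ ≃ₐ[ℚ] AlgebraicClosure ℚ)

/-! ## 1. Flat orders and residual representations -/

/-- **Flatness over a finite field.**  The definition of flatness at `p` asks for all quotients by ideals of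
the coefficient ring; for a finite field `k` it says that `ρ.V` has a flat order.  File `H47LL2`. -/
theorem flat_iff_order (p : ℕ) [Fact p.Prime] {k : Type} [Field k] [Finite k]
    (ρ : ResidualGaloisRep k) : (GaloisRepAdic.ofResidualGaloisRep ρ).IsFlatAt p ↔
      H32.HasFlatOrder p ρ.V (fun σ v => ρ.ρ σ v) :=
  H47.isFlatAt_ofResidual_iff p ρ

/-- **Reduction modulo the maximal ideal**: the residual representation of a flat representation has a flat
order.  File `H47LL2`. -/
theorem residual_has_order (p : ℕ) [Fact p.Prime] {A : Type} [CommRing A] [IsLocalRing A]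
    {ρ : GaloisRepAdic A} (h : ρ.IsFlatAt p) :
    H32.HasFlatOrder p ρ.residual.V (fun σ v => ρ.residual.ρ σ v) :=
  H47.hasFlatOrder_residual p h

/-- **Equivalent representations**: transport of a flat order, and of the property that `σ` acts
trivially.  File `H47LL2`. -/
theorem equivalent {k : Type} [Field k] {ρ ρ' : ResidualGaloisRep k}
    (e : ResidualGaloisRep.Equiv ρ ρ') :
    (∀ {p : ℕ}, H32.HasFlatOrder p ρ.V (fun σ v => ρ.ρ σ v) →
      H32.HasFlatOrder p ρ'.V (fun σ v => ρ'.ρ σ v)) ∧ ∀ {σ : GQ}, ρ.ρ σ = 1 → ρ'.ρ σ = 1 :=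
  ⟨fun h => H47.hasFlatOrder_of_equiv e h, fun h => H47.eq_one_of_equiv e h⟩

/-- If `σ` acts trivially on `ρ`, then also on the residual representation.  File `H47LL2`. -/
theorem residual_trivial {A : Type} [CommRing A] [IsLocalRing A] {ρ : GaloisRepAdic A} {σ : GQ}
    (h : ρ.ρ σ = 1) : ρ.residual.ρ σ = 1 :=
  H47.residual_eq_one h

/-! ## 2. Change of the coefficient field -/

/-- **The inclusion** `v ↦ 1 ⊗ v` of `ρ` in its base change along `φ : k → k'` (`inclAlong φ ρ`) is additive,
injective and Galois equivariant.  File `H47LL2`. -/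
theorem inclusion {k k' : Type} [Field k] [Field k'] (φ : k →+* k') (ρ : ResidualGaloisRep k) :
    Function.Injective (H47.inclAlong φ ρ) ∧ ∀ (σ : GQ) (v : ρ.V),
      H47.inclAlong φ ρ (ρ.ρ σ v) = (ρ.baseChangeAlong φ).ρ σ (H47.inclAlong φ ρ v) :=
  ⟨H47.inclAlong_injective φ ρ, H47.inclAlong_apply φ ρ⟩

/-- **Descent.**  If the base change of `ρ` has a flat order, or if `σ` acts trivially on it, then the same
is true for `ρ` (`GuideFlat`: subgroups of groups with flat order).  File `H47LL2`. -/
theorem descent {k k' : Type} [Field k] [Field k'] (φ : k →+* k') (ρ : ResidualGaloisRep k) :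
    (∀ {p : ℕ}, H32.HasFlatOrder p (ρ.baseChangeAlong φ).V
        (fun σ v => (ρ.baseChangeAlong φ).ρ σ v) →
      H32.HasFlatOrder p ρ.V (fun σ v => ρ.ρ σ v)) ∧
    ∀ {σ : GQ}, (ρ.baseChangeAlong φ).ρ σ = 1 → ρ.ρ σ = 1 :=
  ⟨fun h => H47.hasFlatOrder_of_baseChangeAlong φ ρ h, fun h => H47.eq_one_of_baseChangeAlong φ ρ h⟩

/-- **Extension.**  If `ρ` has a flat order, so has `k' ⊗ ρ` for every finite field `k'` containing `k`: it is
the image of the group of the functions `f : k' → ρ.V` under `f ↦ ∑ c ⊗ f(c)`, so a quotient of a finite power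
of `ρ` (`GuideFlat`: powers and quotients).  File `H47LL2`. -/
theorem extension {p : ℕ} {k : Type} [Field k] (k' : Type) [Field k'] [Finite k'] [Algebra k k']
    (ρ : ResidualGaloisRep k) (h : H32.HasFlatOrder p ρ.V (fun σ v => ρ.ρ σ v)) :
    H32.HasFlatOrder p (ρ.baseChange k').V (fun σ v => (ρ.baseChange k').ρ σ v) :=
  H47.hasFlatOrder_baseChange k' ρ h

/-- **Irreducibility** is preserved by base change along an isomorphism of fields (from `ℤ/p` to the residue
field of `ℤ_p`).  File `H47LL2`. -/
theorem irreducible_base_change {k k' : Type} [Field k] [Field k'] (φ : k →+* k')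
    (hφ : Function.Surjective φ) {ρ : ResidualGaloisRep k} (h : ρ.IsIrreducible) :
    (ρ.baseChangeAlong φ).IsIrreducible :=
  H47.isIrreducible_baseChangeAlong φ hφ h

/-! ## 3. The torsion of the curve

`resZ W hΔ p` is the representation on `E[p]`, over `ℤ/p`. -/

/-- **Frobenius elements** at the primes `ℓ ≠ p` of good reduction act on `E[p] ⊗ k` with trace `a_ℓ(W)` and
determinant `ℓ`; so their characteristic polynomial is that of the Hecke side.  File `H59Occ`. -/
theorem frobenius_of_curve (W : WeierstrassCurve ℤ) (hΔ : W.Δ ≠ 0) (p : ℕ) [Fact p.Prime] {k : Type}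
    [Field k] [Algebra (ZMod p) k] {ℓ : ℕ} (hℓ : ℓ.Prime) (hℓp : ℓ ≠ p) (hW : W.IsGoodPrimeFor ℓ)
    {A : ValuationSubring (AlgebraicClosure ℚ)} (hA : A.LiesOverPrime ℓ) {φ : GQ}
    (hφ : A.IsFrobeniusAt φ ℓ) :
    LinearMap.trace k _ (((resZ W hΔ p).baseChange k).ρ φ) = (W.apOfModel ℓ : k) ∧
      LinearMap.det (((resZ W hΔ p).baseChange k).ρ φ) = (ℓ : k) :=
  H59.trace_det_baseChange W hΔ p hℓ hℓp hW hA hφ

/-- **Over the residue field of `𝒪`**, a complete discrete valuation ring of characteristic zero with finite
residue field `k` of characteristic `p`: if `E[p] ⊗ k` is irreducible and `W` residually modular of level `M`,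
then `E[p] ⊗ k` is flat at `p` if `p ∤ M`, and unramified at the primes `q ≠ p`, `q ∤ M`.  Proof: `θ` from
`GuideLevels.exists_hecke_character`, the representation over the Hecke ring from
`GuideHeckeRings.exists_datum`, S32, and sections 1 and 2.  Applied with `𝒪 = ℤ_p`, with `extension` it gives
`GuideFlat.residual_flat_of_modular`.  File `H47LL2`. -/
theorem over_residue_field (W : WeierstrassCurve ℤ) (hΔ : W.Δ ≠ 0) {p : ℕ} [Fact p.Prime]
    (hp2 : p ≠ 2) {𝒪 : Type} [CommRing 𝒪] [IsDomain 𝒪] [IsDiscreteValuationRing 𝒪]
    [IsAdicComplete (maximalIdeal 𝒪) 𝒪] [Finite (ResidueField 𝒪)] [CharZero 𝒪]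
    [Algebra (ZMod p) (ResidueField 𝒪)] (hp𝒪 : (p : 𝒪) ∈ maximalIdeal 𝒪)
    (hirr : ((resZ W hΔ p).baseChange (ResidueField 𝒪)).IsIrreducible)
    {M : ℕ} [NeZero M] (hmod : W.IsResiduallyModularOfLevel p M) :
    (¬ p ∣ M → (GaloisRepAdic.ofResidualGaloisRep
        ((resZ W hΔ p).baseChange (ResidueField 𝒪))).IsFlatAt p) ∧
      ∀ q : ℕ, q.Prime → ¬ q ∣ M → q ≠ p →
        ((resZ W hΔ p).baseChange (ResidueField 𝒪)).IsUnramifiedAt q :=
  H47.isFlatAt_of_isResiduallyModular' W hΔ hp2 H30.statementS30 S32.result hp𝒪 hirr hmod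

/-- **The type at `p` when the level is prime to `p`** (only S38).  `CoeffChoice p T O ϖ a ζ`: the list of
properties of the coefficient ring (complete, characteristic zero, uniformiser `ϖ`, integral quadratic
polynomials split over the finite residue field, `ζ` a root of unity of large order `p^a`).  The deformation
data `pd` at `p` (`PData`: a condition on representations, a local bound and marks) can be chosen without
marks (`pd.ε` is empty) such that the representations over the local Hecke rings of all levels `L` with
`p ∤ L` and residual representation `E[p]` satisfy the condition.  It is "flat at `p`"; from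
`GuideLevels.residual_flat` and `GuideLevelsOdd.flat_type`.  File `H65C1`. -/
theorem flat_type {W : WeierstrassCurve ℤ} (hΔ : W.Δ ≠ 0) {p : ℕ} [Fact p.Prime] (hp2 : p ≠ 2)
    (hirr : W.ModRepIsIrreducible p) {T : Finset ℕ} {M : ℕ} (hM : M ≠ 0) (hpM : ¬ p ∣ M)
    (hmod : W.IsResiduallyModularOfLevel p M) :
    ∀ (O : Type) [CommRing O] [IsDomain O] [IsDiscreteValuationRing O]
      [IsAdicComplete (maximalIdeal O) O] [CharZero O] [Finite (ResidueField O)]
      [CharP (ResidueField O) p] [Algebra (ZMod p) (ResidueField O)] (ϖ : O) (a : ℕ) (ζ : O)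
      (_ : H59.CoeffChoice p T O ϖ a ζ)
      (b : Module.Basis (Fin 2) (ResidueField O) ((resZ W hΔ p).baseChange (ResidueField O)).V),
      ∃ pd : H53.PData p ((resZ W hΔ p).baseChange (ResidueField O)) b, IsEmpty pd.ε ∧
        ∀ {L : ℕ} [NeZero L] {S : Finset ℕ}, p ∈ S → (∀ q : ℕ, q.Prime → q ∣ L → q ∈ S) →
          ¬ p ^ 2 ∣ L → (p ∣ L ↔ p ∣ M) →
          ∀ {θ : heckeAlgebra L 2 (↑S : Set ℕ) →+* ResidueField O}
          (H : HeckeGaloisRepDatum L (↑S : Set ℕ) O θ (heckeLocal L (↑S : Set ℕ) O θ)),
          H.ρ.residual.IsEquiv (((resZ W hΔ p).baseChange (ResidueField O)).baseChangeAlong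
            (ResidueField.map (algebraMap O (heckeLocal L (↑S : Set ℕ) O θ)))) → pd.𝒟p H.ρ :=
  H65.C.letterF hΔ hp2 hirr hM hpM hmod

end Fermat.Agent.Guide.ResidualFlat
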