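import Fermat.Agent.H49LTA

/-!
# Reader's guide: inside the blocks of the 2-adic argument (block LT)

Continuation of `GuideResidual`, which contains the result (residual modularity at 3 of the semistable
curves with even discriminant), the notions and the statements of the blocks M1, E, M6, TA, M4, M5, C,
M8, M7. Here are the theorems on which these statements rest, block by block:

* M1: the identity, the congruence modulo 3 and the squarefree sieve for the Hesse pencil (more in
  GuideGoodCurve);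
* E: the Tate module at a prime of multiplicative reduction without the Tate curve, the quadratic
  subfield of `ℚ(E[2])` (more in GuideTwoAdicCurve);
* M6: why a Selmer class can be detected by a Frobenius element which acts like complex conjugation, and
  the reciprocity law which replaces Poitou-Tate duality (more in GuideSelmerTwo; proof of the reciprocity
  law: GuideTwoReciprocity);
* TA: see `GuideResidualTheta` (and GuideTSide);
* M4: the number of elements of a ring of dihedral type (more in GuideDihedral);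
* M5: first inequality, density, genus theory: unramified class field theory of `ℚ(√-N)` at 2 without the
  Artin map (more in GuideClassBound, GuideLocalNorms, GuideGenus, GuideCubicCharacter);
* C: the curve over `O / 2^m`, the auxiliary primes in `ℚ(√-N)`, points of the full Hecke algebra;
* M8: from the reduction of `X₀(Mq)` at `q` to the local type at `q` (more in GuideAtkinLehner);
* M7: how Mazur's principle removes one auxiliary prime, and the limit.

All theorems are in the closure of S01 (through `H49.LTF.ltA`). Notes: Appendix A.8 [267] (M1), [251] (E),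
[97], [264] (M6), [154], [198] and the note on M5b (M5). Every proof is the citation of a
theorem of the library. Authors of the library files and of the texts below: helper3, 52, 74 (M1), 73, 87
(E), 6, 54 (M6), 69, 55, 51 (M4), 91, 63 (M5), 34, 88, 89, 79 (M8), 35 (M7).

Notation as in `GuideResidual`; moreover `H91.FI.clv v` is the class of the prime ideal `v` and
`H64.placeBelow K hℓ hA` the prime ideal of `K` below the place `A`; `H87.Tate.tateMat W hΔ p σ` is the
matrix of `σ` on the `p`-adic Tate module of `W` in a fixed basis; `H30.TateMod p J` and `H30.galTate` are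
the `p`-adic Tate module of an abelian group `J` and the action of `G_ℚ` on it; `JZero N` is `J₀(N)(ℚ̄)`, the
group of the divisor classes of degree zero of `X₀(N)`, with the action `heckeModuleBar N` of the Hecke
operators `heckeGen ℓ`.
-/

set_option autoImplicit false

noncomputable section

open WeierstrassCurve CuspForm ModularFormClass IsLocalRing Matrix Polynomial ModularCurve
open WeierstrassCurve.Affine WeierstrassCurve.Affine.Point TensorProduct
open scoped NumberField nonZeroDivisors WeierstrassCurve.Affine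

namespace Fermat.Agent.Guide.ResidualSteps

open Fermat.Agent.H53 (GQ M2 mapMat MCont)
open Fermat.Agent.LT (Qb)

local notation "Qbar" => AlgebraicClosure ℚ

/-! ## M1: the Hesse pencil and the sieve -/

/-- **The Hesse pencil.** Let `a = c₄`, `b = c₆` be the invariants of an elliptic curve `E`. The curves
`E_(l:m)` of the pencil spanned by the cubic `E` and its Hessian have the nine flexes, that is the
3-torsion, of `E`; their invariants are the forms `c4`, `c6` of degree 4 and 6 below, and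
`c4³ - c6² = (a³ - b²) D³` with the quartic form `D` (the homogenised 3-division polynomial). Hence the
discriminant of `E_(l:m)` is that of `E` times a cube: the parity of its valuations is that of
`v(Δ(E)) + v(D)`, and it can be chosen. File `H3LTFam`; see GuideGoodCurve, section 1. -/
theorem hesse_pencil {R : Type*} [CommRing R] (a b l m D c4 c6 : R)
    (hD : D = l ^ 4 - 6 * a * l ^ 2 * m ^ 2 - 8 * b * l * m ^ 3 - 3 * a ^ 2 * m ^ 4)
    (h4 : c4 = a * l ^ 4 + 4 * b * l ^ 3 * m + 6 * a ^ 2 * l ^ 2 * m ^ 2 + 4 * a * b * l * m ^ 3 -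
      (3 * a ^ 3 - 4 * b ^ 2) * m ^ 4)
    (h6 : c6 = b * l ^ 6 + 6 * a ^ 2 * l ^ 5 * m + 15 * a * b * l ^ 4 * m ^ 2 +
      20 * b ^ 2 * l ^ 3 * m ^ 3 + 15 * a ^ 2 * b * l ^ 2 * m ^ 4 +
      6 * (3 * a ^ 4 - 2 * a * b ^ 2) * l * m ^ 5 + (9 * a ^ 3 * b - 8 * b ^ 3) * m ^ 6) :
    c4 ^ 3 - c6 ^ 2 = (a ^ 3 - b ^ 2) * D ^ 3 := by
  subst hD h4 h6; exact H3LT.hC4_pow_sub_hC6_sq a b l m

/-- **The members of the Hesse pencil are congruent modulo 3.** Over a prime field of characteristic
`ℓ ≥ 5` the curve `y² = x³ - 27 c4 x - 54 c6` with the invariants of `hesse_pencil` has, modulo 3, as many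
points as `y² = x³ - 27 a x - 54 b`. Proof: one explicit projective linear map carries the 3-torsion of
the second curve to that of the first one; it respects collinearity, that is the group law, and commutes
with Frobenius; and the number of points modulo 3 is determined by the action of Frobenius on the
3-torsion. No modular curve `X_E(3)` is used. File `H52Congr3`; steps: GuideGoodCurve, section 2. -/
theorem hesse_pencil_congruence (ℓ : ℕ) [Fact ℓ.Prime] (a b l m D c4 c6 : ZMod ℓ)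
    (hD : D = l ^ 4 - 6 * a * l ^ 2 * m ^ 2 - 8 * b * l * m ^ 3 - 3 * a ^ 2 * m ^ 4)
    (h4 : c4 = a * l ^ 4 + 4 * b * l ^ 3 * m + 6 * a ^ 2 * l ^ 2 * m ^ 2 + 4 * a * b * l * m ^ 3 -
      (3 * a ^ 3 - 4 * b ^ 2) * m ^ 4)
    (h6 : c6 = b * l ^ 6 + 6 * a ^ 2 * l ^ 5 * m + 15 * a * b * l ^ 4 * m ^ 2 +
      20 * b ^ 2 * l ^ 3 * m ^ 3 + 15 * a ^ 2 * b * l ^ 2 * m ^ 4 +
      6 * (3 * a ^ 4 - 2 * a * b ^ 2) * l * m ^ 5 + (9 * a ^ 3 * b - 8 * b ^ 3) * m ^ 6)
    (hℓ : (6 : ZMod ℓ) ≠ 0) (hab : a ^ 3 - b ^ 2 ≠ 0) (hD0 : D ≠ 0) :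
    (3 : ℤ) ∣
      (Nat.card (⟨0, 0, 0, -27 * c4, -54 * c6⟩ : WeierstrassCurve (ZMod ℓ)).toAffine.Point : ℤ) -
      (Nat.card (⟨0, 0, 0, -27 * a, -54 * b⟩ : WeierstrassCurve (ZMod ℓ)).toAffine.Point : ℤ) := by
  subst hD h4 h6; exact H52.congr3 ℓ a b l m hℓ hab hD0

/-- **Squarefree values of binary quartic forms.** Let `F` be a binary quartic form over `ℤ` with
`F(1,0) ≠ 0`, without multiple factors, and without a prime `p ∤ M` whose square divides all values. Then
in every residue class modulo `M` (of pairs which are coprime at the primes of `M`) and in every real cone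
`x0 < l/m < x1` there are coprime pairs `(l, m)`, with `m` arbitrarily large, such that no `p²` with
`p ∤ M` divides `F(l, m)`. Only `π(x) = o(x)` is used: for large `p` the pairs with `p² ∣ F(l, m)` lie on
few lines through the origin. It is applied to the form `D` of the Hesse pencil. Files `H74Sv*`; steps:
GuideGoodCurve, section 5. -/
theorem squarefree_quartic_values (a0 a1 a2 a3 a4 : ℤ) (ha0 : a0 ≠ 0)
    (hsep : ((C a0 * X ^ 4 + C a1 * X ^ 3 + C a2 * X ^ 2 + C a3 * X + C a4 : ℤ[X]).map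
      (Int.castRingHom ℚ)).Separable)
    (M : ℕ) (hM : 0 < M) (l0 m0 : ℤ)
    (hcop : ∀ p : ℕ, p.Prime → p ∣ M → ¬ ((p : ℤ) ∣ l0 ∧ (p : ℤ) ∣ m0))
    (hloc : ∀ p : ℕ, p.Prime → ¬ p ∣ M → ∃ l m : ℤ, ¬ ((p : ℤ) ∣ l ∧ (p : ℤ) ∣ m) ∧
      ¬ ((p : ℤ) ^ 2 ∣
        a0 * l ^ 4 + a1 * l ^ 3 * m + a2 * l ^ 2 * m ^ 2 + a3 * l * m ^ 3 + a4 * m ^ 4))
    (x0 x1 : ℝ) (hx : x0 < x1) (B : ℕ) :
    ∃ l m : ℤ, (B : ℤ) < m ∧ x0 * m < l ∧ (l : ℝ) < x1 * m ∧ l ≡ l0 [ZMOD M] ∧
      m ≡ m0 [ZMOD M] ∧ IsCoprime l m ∧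
      ∀ p : ℕ, p.Prime → ¬ p ∣ M → ¬ ((p : ℤ) ^ 2 ∣
        a0 * l ^ 4 + a1 * l ^ 3 * m + a2 * l ^ 2 * m ^ 2 + a3 * l * m ^ 3 + a4 * m ^ 4) :=
  H74.Sv.exists_sqfree_quartic a0 a1 a2 a3 a4 ha0 hsep M hM l0 m0 hcop hloc x0 x1 hx B

/-- **The auxiliary curve.** Let `W` be a semistable curve with even discriminant, `n ≥ 1` and `T` a finite
set of primes. There is a semistable `W'` with negative even discriminant, all of whose valuations are odd
at the primes dividing it, with bad primes congruent to `1` and to `-1` modulo `n`, without new bad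
reduction at the primes of `T`, and `a_ℓ(W') ≡ a_ℓ(W)` modulo 3 at all common good primes `ℓ ≠ 3`. So the
residual modularity of `W[3]` follows from the modularity of `W'`. Proof: a member of the Hesse pencil of
`W`, found by the sieve with local conditions at 2, 3 and the bad primes; the two auxiliary primes come
from Frobenius' density theorem. Files `H3LT*`, assembled in `H3LTM1`; steps: GuideGoodCurve. -/
theorem auxiliary_curve (W : WeierstrassCurve ℤ) (hΔ : W.Δ ≠ 0) (hW : W.IsSemistableModel)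
    (h2 : (2 : ℤ) ∣ W.Δ) (n : ℕ) (hn : 0 < n) (T : Finset ℕ) (hT : ∀ p ∈ T, p.Prime) :
    ∃ W' : WeierstrassCurve ℤ, W'.Δ < 0 ∧ W'.IsSemistableModel ∧ (2 : ℤ) ∣ W'.Δ ∧
      (∀ ℓ : ℕ, ℓ.Prime → (ℓ : ℤ) ∣ W'.Δ → Odd (padicValInt ℓ W'.Δ)) ∧
      (∃ r : ℕ, r.Prime ∧ (n : ℤ) ∣ (r : ℤ) - 1 ∧ (r : ℤ) ∣ W'.Δ) ∧
      (∃ r : ℕ, r.Prime ∧ (n : ℤ) ∣ (r : ℤ) + 1 ∧ (r : ℤ) ∣ W'.Δ) ∧
      (∀ ℓ ∈ T, (ℓ : ℤ) ∣ W'.Δ → (ℓ : ℤ) ∣ W.Δ) ∧
      ∀ ℓ : ℕ, ℓ.Prime → W.IsGoodPrimeFor ℓ → W'.IsGoodPrimeFor ℓ → ℓ ≠ 3 →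
        (3 : ℤ) ∣ (W'.apOfModel ℓ - W.apOfModel ℓ) :=
  H3LT.exists_partner' W hΔ hW h2 n hn T hT

/-! ## E: the Tate module at the bad primes -/

/-- **A basis of the Tate module adapted to a `p`-divisible subgroup.** Let `D` be a `p`-divisible
subgroup of `W(ℚ̄)` with `0 ≠ D[p] ≠ W[p]`. After a change of basis `U` every `σ` which stabilises
`D` is upper triangular in the `p`-adic representation, and if `σ x - ε x ∈ D` for all torsion
points `x` of `p`-power order then the lower right entry of `σ` is `ε`. Applied to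
`D = {points whose reduction is not the node}`. File `H73LTBasis`. -/
theorem exists_adapted_basis (W : WeierstrassCurve ℚ) (hΔ : W.Δ ≠ 0) (p : ℕ) [Fact p.Prime]
    (D : AddSubgroup (W⁄Qbar).Point) (hdiv : ∀ x ∈ D, ∃ y ∈ D, p • y = x)
    (h1 : ∃ x ∈ D, x ≠ 0 ∧ p • x = 0) (h2 : ∃ y : (W⁄Qbar).Point, p • y = 0 ∧ y ∉ D) :
    ∃ U : (M2 ℤ_[p])ˣ, ∀ σ : GQ, (∀ x ∈ D, σ • x ∈ D) →
      ((U : M2 ℤ_[p]) * H87.Tate.tateMat W hΔ p σ * ((U⁻¹ : (M2 ℤ_[p])ˣ) : M2 ℤ_[p])) 1 0 = 0 ∧
      ∀ ε : ℤ, (∀ (n : ℕ) (x : (W⁄Qbar).Point), p ^ n • x = 0 → σ • x - ε • x ∈ D) →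
        ((U : M2 ℤ_[p]) * H87.Tate.tateMat W hΔ p σ * ((U⁻¹ : (M2 ℤ_[p])ˣ) : M2 ℤ_[p])) 1 1 = ε :=
  H73LT.exists_adapted W hΔ p D hdiv h1 h2

/-- **The local type at a prime of multiplicative reduction**, `q = p` ALLOWED. `W` over `ℤ` with
`q ∣ Δ`, `q ∤ c₄`; `P` a place of `ℚ̄` above `q`. There is an unramified sign `s` on the
decomposition group, with `s(Frob) = H73LT.nodeSign W q` (`= 1` iff the tangents at the node of `W`
modulo `q` are rational over `𝔽_q`), such that
`(r g - det (r g) s(g)) (r h - s(h)) = 0` on the decomposition group, `r` the `p`-adic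
representation. No Tate curve: the subgroup of the points which do not reduce to the node is
`p`-divisible, and `exists_adapted_basis` applies. File `H73LTType`; steps: GuideTwoAdicCurve, sections 4
and 5. -/
theorem local_type_multiplicative {W : WeierstrassCurve ℤ} (hΔ : W.Δ ≠ 0) {q p : ℕ}
    [Fact p.Prime] (hq : q.Prime) (hbad : (q : ℤ) ∣ W.Δ) (hc : ¬ (q : ℤ) ∣ W.c₄)
    (P : ValuationSubring Qbar) (hP : P.LiesOverPrime q) :
    ∃ s : GQ → ℤ,
      ((∀ g ∈ P.decompositionSubgroup ℚ, s g = 1 ∨ s g = -1) ∧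
       (∀ g ∈ P.decompositionSubgroup ℚ, ∀ h ∈ P.decompositionSubgroup ℚ, s (g * h) = s g * s h) ∧
       (∀ g ∈ P.inertiaSubgroupIn ℚ, s g = 1) ∧
       ∀ g ∈ P.decompositionSubgroup ℚ, ∀ h ∈ P.decompositionSubgroup ℚ,
        (H87.Tate.tateMat (W.map (Int.castRingHom ℚ)) (H87.EC.map_int_Δ_ne_zero hΔ) p g
          - ((H87.Tate.tateMat (W.map (Int.castRingHom ℚ)) (H87.EC.map_int_Δ_ne_zero hΔ) p g).det
            * (s g : ℤ_[p])) • (1 : M2 ℤ_[p])) *
        (H87.Tate.tateMat (W.map (Int.castRingHom ℚ)) (H87.EC.map_int_Δ_ne_zero hΔ) p h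
          - (s h : ℤ_[p]) • (1 : M2 ℤ_[p])) = 0) ∧
      ∀ g, P.IsFrobeniusAt g q → s g = H73LT.nodeSign W q := by
  obtain ⟨s, h, hs⟩ := H73LT.exists_locType (p := p) hΔ hq hbad hc P hP
  exact ⟨s, ⟨h.sign, h.mul, h.inertia, h.rel⟩, hs⟩

/-- **The 2-torsion and the square root of the discriminant**: `σ √Δ = sgn(σ) √Δ`, where `sgn` is
the sign of the permutation of the three points of order two: it is `1` iff the matrix of `σ`
modulo `2` is `1` or has trace `1` (order three). File `H73LTTwo`. -/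
theorem galois_on_sqrt_disc (W : WeierstrassCurve ℚ) (hΔ : W.Δ ≠ 0) {δ : Qbar}
    (hδ : δ ^ 2 = algebraMap ℚ Qbar W.Δ) (σ : GQ) :
    σ δ = ((if (H87.Tate.tateMat W hΔ 2 σ).map (PadicInt.toZMod (p := 2)) = 1 ∨
      ((H87.Tate.tateMat W hΔ 2 σ).map (PadicInt.toZMod (p := 2))).trace = 1
        then 1 else -1 : ℤ) : Qbar) * δ :=
  H73LT.map_sqrt_disc W hΔ hδ σ

/-- **Inertia at `q` moves `√d` if `v_q(d)` is odd**, also for `q = 2`. (Otherwise `q` would be
unramified in `ℚ(√(q m))` for some `m` prime to `q`; but there `q` lies in the square of every prime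
ideal above it.) File `H73LTSqrt`. -/
theorem inertia_moves_sqrt {q : ℕ} (hq : q.Prime) {d : ℤ} (hd : d ≠ 0)
    (hodd : Odd (padicValInt q d)) {δ : Qbar} (hδ : δ ^ 2 = d) {P : ValuationSubring Qbar}
    (hP : P.LiesOverPrime q) : ∃ g ∈ P.inertiaSubgroupIn ℚ, g δ = -δ :=
  H73LT.exists_inertia_neg_sqrt hq hd hodd hδ hP

/-- **The discriminant of a good curve is `-N m²`**, `N` the product of the bad primes. Hence the
quadratic subfield of `ℚ(W[2])` is `K = ℚ(√-N)`. File `H73LTArith`. -/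
theorem disc_eq_neg_conductor_mul_sq {W : WeierstrassCurve ℤ} (hW : LT.GoodCurve W) :
    ∃ m : ℕ, m ≠ 0 ∧ W.Δ = -((∏ ℓ ∈ W.Δ.natAbs.primeFactors, ℓ : ℕ) : ℤ) * (m : ℤ) ^ 2 :=
  H73LT.exists_disc_eq hW

/-! ## M6: how one auxiliary prime is found, and reciprocity -/

/-- **Classes of the Selmer group are not inflated from `GL₂(ℤ/2ⁿ)`.** Let `ρ : Γ → GL₂(ℤ/2ⁿ)` have the
surjective reduction `rb` modulo 2. A cocycle `b` with values in `𝔽₂²` which vanishes on the kernel of `ρ`
and on the square of one element `u` acting as a transvection (`ρ(u)` conjugate to `(1 a; 0 1)`, `a` a unit)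
is a coboundary. Proof: an opposite transvection `u'` is found among the conjugates of `u`; modulo `ker ρ` the
elements `x` with `rb(x) = 1`, `det ρ(x) = 1` are products of powers of `u²`, `u'²` and of their conjugates,
so `b(x) = 0`; for `x ∈ ker rb` all commutators `g x g⁻¹ x⁻¹` are of this kind, so `b(x)` is fixed by the
image of `rb`, hence zero; finally `H¹(GL₂(𝔽₂), 𝔽₂²) = 0`. No assumption on the size of the image of `ρ`.
File `H6MDGroup`; steps: GuideSelmerTwo, section 1. -/
theorem not_inflated {n : ℕ} {Γ : Type*} [Group Γ] {ρ : Γ →* GL (Fin 2) (ZMod (2 ^ n))}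
    {rb : Γ →* GL (Fin 2) (ZMod 2)} {b : Γ → Fin 2 → ZMod 2}
    (hb : ∀ g h, b (g * h) = b g + (rb g).val *ᵥ b h) (hn : n ≠ 0)
    (hred : ∀ g i j, (rb g).val i j = ZMod.castHom (dvd_pow_self 2 hn) (ZMod 2) ((ρ g).val i j))
    (hsurj : Function.Surjective rb) (hker : ∀ g, ρ g = 1 → b g = 0) {u : Γ}
    {a : ZMod (2 ^ n)} (ha : IsUnit a) (A : GL (Fin 2) (ZMod (2 ^ n)))
    (hu : (ρ u).val = A.val * !![1, a; 0, 1] * (A⁻¹).val) (hbu : b (u ^ 2) = 0) :
    ∃ w : Fin 2 → ZMod 2, ∀ g, b g = (rb g).val *ᵥ w - w :=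
  H6.MD.Coc.cob_of_inflated hb hn hred hsurj hker ha A (Units.ext hu) hbu

/-- **Choice of one auxiliary prime.** `ρ : G_ℚ → GL₂(ℤ/2ⁿ)` of finite level with cyclotomic determinant and
surjective reduction `rb`; `c` an involution with `rb(c) ≠ 1` and `det ρ(c) = -1` (complex conjugation); `b` a
cocycle of finite level with values in `𝔽₂²`, not zero at some `x₀ ∈ ker ρ`. Outside every finite set there
is a prime `q ≡ -1 mod 2ⁿ`, unramified for `ρ` and `b`, such that all Frobenius elements at `q` are conjugate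
to `c` modulo `2ⁿ` and `b` is not a coboundary at them. Proof: `b` maps `ker ρ` onto `𝔽₂²`, so `x ∈ ker ρ` can
be chosen with `b(x c)` outside the image of `rb(c) - 1`; then the density theorem of Frobenius for `x c`.
File `H6MDSelect`. -/
theorem choice_of_one_prime {n : ℕ} {ρ : GQ →* GL (Fin 2) (ZMod (2 ^ n))}
    {rb : GQ →* GL (Fin 2) (ZMod 2)} (hn : n ≠ 0)
    (hred : ∀ g i j, (rb g).val i j = ZMod.castHom (dvd_pow_self 2 hn) (ZMod 2) ((ρ g).val i j))
    (hsurj : Function.Surjective rb)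
    (hρ : ∃ F : IntermediateField ℚ Qb, FiniteDimensional ℚ F ∧
      ∀ g τ : GQ, (∀ x ∈ F, τ x = x) → ρ (g * τ) = ρ g)
    (hdet : ∀ (σ : GQ) (a : ℕ), (∀ μ : Qb, μ ^ 2 ^ n = 1 → σ μ = μ ^ a) →
      (ρ σ).val.det = (a : ZMod (2 ^ n)))
    {c : GQ} (hc2 : c * c = 1) (hc1 : rb c ≠ 1) (hcdet : (ρ c).val.det = -1)
    {b : GQ → Fin 2 → ZMod 2} (hb : ∀ g h, b (g * h) = b g + (rb g).val *ᵥ b h)
    (hbl : ∃ F : IntermediateField ℚ Qb, FiniteDimensional ℚ F ∧
      ∀ g τ : GQ, (∀ x ∈ F, τ x = x) → b (g * τ) = b g)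
    {x₀ : GQ} (hx₀ : ρ x₀ = 1) (hbx₀ : b x₀ ≠ 0) (S : Finset ℕ) :
    ∃ q : ℕ, q.Prime ∧ q ∉ S ∧ 2 ^ n ∣ q + 1 ∧
      (∀ P : ValuationSubring Qb, P.LiesOverPrime q →
        ∀ τ ∈ P.inertiaSubgroupIn ℚ, ρ τ = 1 ∧ b τ = 0) ∧
      ∀ P : ValuationSubring Qb, P.LiesOverPrime q → ∀ φ : GQ, P.IsFrobeniusAt φ q →
        (∃ g, ρ φ = ρ (g * c * g⁻¹)) ∧ ∀ w : Fin 2 → ZMod 2, b φ ≠ (rb φ).val *ᵥ w - w :=
  H6.MD.exists_aux_prime hn hred hsurj hρ hdet hc2 hc1 hcdet hb hbl hx₀ hbx₀ S

/-- **Reciprocity for Selmer cocycles** (the input of M6). Let `rb : G_ℚ → GL₂(𝔽₂)` be of finite level,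
unramified outside the finite set `S ∋ 2`, nontrivial on the decomposition groups at the primes of `S` and
at complex conjugation `c`; let `q ≡ 7` modulo 8 be a prime outside `S` at which Frobenius has order 2. Let
`b`, `b'` be 1-cocycles of finite level with values in `V = 𝔽₂²`, unramified outside `S ∪ {q}`, which at
the places above `S` have, up to a coboundary, values fixed by the decomposition group (at most a line). If
`b` is unramified at `q` and not a coboundary at Frobenius, and `b'` satisfies the condition of the line at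
`q`, then `b'` is unramified at `q`. Proof: the cup product of `b` and `b'` is a 2-torsion class in
`H²(G_ℚ, ℚ̄ˣ)` which is trivial at all places except possibly `q`; it is trivial at `q` by the Hasse
principle over `ℚ(√-q)` and the quadratic reciprocity law over `ℚ` (no local invariants, no Poitou-Tate
duality). Files `H54TCup`, `H54TLoc`, `H54TLocB`, `H54TNum`, `H54THasse`, `H54TPrinc`, `H54TRec`,
`H54TGlob`, `H54TRecip`, last step in `H54TRecipB`; steps: GuideTwoReciprocity (see also GuideQuadRec). -/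
theorem reciprocity {rb : GQ →* GL (Fin 2) (ZMod 2)} {S : Finset ℕ} {q : ℕ} (hq : q.Prime)
    (hq8 : q % 8 = 7) (hqS : q ∉ S) (h2S : 2 ∈ S)
    (hrb : ∃ F : IntermediateField ℚ Qb, FiniteDimensional ℚ F ∧
      ∀ g τ : GQ, (∀ x ∈ F, τ x = x) → rb (g * τ) = rb g)
    (hunr : ∀ ℓ : ℕ, ℓ.Prime → ℓ ∉ S → ∀ P : ValuationSubring Qb, P.LiesOverPrime ℓ →
      ∀ τ ∈ P.inertiaSubgroupIn ℚ, rb τ = 1)
    (hbad : ∀ ℓ ∈ S, ℓ.Prime → ∀ P : ValuationSubring Qb, P.LiesOverPrime ℓ →
      ∃ g ∈ P.decompositionSubgroup ℚ, rb g ≠ 1)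
    {c : GQ} {ι : Qb →+* ℂ} (hcι : ∀ x, ι (c x) = starRingEnd ℂ (ι x)) (hc : rb c ≠ 1)
    (hfrob : ∀ P : ValuationSubring Qb, P.LiesOverPrime q → ∀ φ : GQ, P.IsFrobeniusAt φ q →
      rb φ ≠ 1 ∧ rb φ * rb φ = 1)
    (b b' : GQ → Fin 2 → ZMod 2) (hb : ∀ g h, b (g * h) = b g + (rb g).val *ᵥ b h)
    (hb' : ∀ g h, b' (g * h) = b' g + (rb g).val *ᵥ b' h)
    (hl : ∃ F : IntermediateField ℚ Qb, FiniteDimensional ℚ F ∧
      ∀ g τ : GQ, (∀ x ∈ F, τ x = x) → b (g * τ) = b g)
    (hl' : ∃ F : IntermediateField ℚ Qb, FiniteDimensional ℚ F ∧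
      ∀ g τ : GQ, (∀ x ∈ F, τ x = x) → b' (g * τ) = b' g)
    (h1 : ∀ ℓ : ℕ, ℓ.Prime → ℓ ∉ S → ℓ ≠ q → ∀ P : ValuationSubring Qb, P.LiesOverPrime ℓ →
      (∀ τ ∈ P.inertiaSubgroupIn ℚ, b τ = 0) ∧ (∀ τ ∈ P.inertiaSubgroupIn ℚ, b' τ = 0))
    (h2 : ∀ ℓ ∈ S, ∀ P : ValuationSubring Qb, P.LiesOverPrime ℓ →
      (∃ w : Fin 2 → ZMod 2, ∀ g ∈ P.decompositionSubgroup ℚ, ∀ h ∈ P.decompositionSubgroup ℚ,
        (rb h).val *ᵥ (b g - ((rb g).val *ᵥ w - w)) = b g - ((rb g).val *ᵥ w - w)) ∧
      (∃ w : Fin 2 → ZMod 2, ∀ g ∈ P.decompositionSubgroup ℚ, ∀ h ∈ P.decompositionSubgroup ℚ,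
        (rb h).val *ᵥ (b' g - ((rb g).val *ᵥ w - w)) = b' g - ((rb g).val *ᵥ w - w)))
    (h3 : ∀ P : ValuationSubring Qb, P.LiesOverPrime q →
      (∀ τ ∈ P.inertiaSubgroupIn ℚ, b τ = 0) ∧
      (∃ w : Fin 2 → ZMod 2, ∀ g ∈ P.decompositionSubgroup ℚ, ∀ h ∈ P.decompositionSubgroup ℚ,
        (rb h).val *ᵥ (b' g - ((rb g).val *ᵥ w - w)) = b' g - ((rb g).val *ᵥ w - w)))
    (h4 : ∀ P : ValuationSubring Qb, P.LiesOverPrime q → ∀ φ : GQ, P.IsFrobeniusAt φ q →
      ∀ w : Fin 2 → ZMod 2, b φ ≠ (rb φ).val *ᵥ w - w) :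
    ∀ P : ValuationSubring Qb, P.LiesOverPrime q → ∀ τ ∈ P.inertiaSubgroupIn ℚ, b' τ = 0 :=
  H54T.recip hq hq8 hqS h2S hrb hunr hbad hcι hc hfrob b b' hb hb' hl hl' h1 h2 h3 h4

/-- **The Selmer set decreases.** `H6.MD.Sel rb S` is the set of the Selmer cocycles for the finite set `S`
(as in `Residual.isSel_iff`), `H6.MD.Recip rb S q` the conclusion of `reciprocity`. If the Frobenius
elements at `q ∉ S` act as involutions `≠ 1` and some Selmer cocycle for `S` is not a coboundary at
Frobenius elements at `q`, then there are fewer Selmer cocycles for `S ∪ {q}`: they are unramified at `q`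
by reciprocity, and `b` is none of them. The Selmer set is finite by Hermite's theorem
(`H6.MD.finite_sel`); iterating this with `not_inflated` and `choice_of_one_prime` kills the Selmer group
with a number of primes that is bounded independently of `n`. File `H6MDFinal`. -/
theorem selmer_decreases {rb : GQ →* GL (Fin 2) (ZMod 2)} {S : Finset ℕ} {q : ℕ} (hq : q.Prime)
    (hqS : q ∉ S) (hR : H6.MD.Recip rb S q)
    (hrbq : ∀ P : ValuationSubring Qb, P.LiesOverPrime q → ∀ φ : GQ, P.IsFrobeniusAt φ q →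
      rb φ ≠ 1 ∧ rb φ * rb φ = 1)
    {b : GQ → Fin 2 → ZMod 2} (hb : H6.MD.Sel rb S b)
    (hbq : ∀ P : ValuationSubring Qb, P.LiesOverPrime q → ∀ φ : GQ, P.IsFrobeniusAt φ q →
      ∀ w : Fin 2 → ZMod 2, b φ ≠ (rb φ).val *ᵥ w - w) :
    {b : GQ → Fin 2 → ZMod 2 | H6.MD.Sel rb (insert q S) b} ⊂ {b | H6.MD.Sel rb S b} :=
  H6.MD.sel_ssubset hq hqS hR hrbq hb hbq

/-! ## M4: counting -/

/-- **The bound for a ring of dihedral type.** Under the hypotheses of Theorem B, if `A` is generated over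
`𝔽₄` by the traces of `r` and by a finite set `U` of elements of square one, and everywhere unramified
characters of `H` with values in finite 2-groups have at most `h` values, then `|A| ≤ 4^(h 2^|U|)`. Used
for `A = A₀/2`. Proof: by Theorem B `r` is diagonal on `H` with entries `a`, `1/a`; `a` is the product of
the cubic character with values in `k` and of a character `c` of 2-power order, which is unramified
everywhere (also at the primes of `S`: by the Steinberg type, and because `D_v` is not contained in `H`,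
the diagonal entries on the intersection of `H` and `D_v` are `χ`). So `c` has at most `h` values, and `A`
is spanned over `k` by their products with the products of elements of `U`. Files `H55LTC3` (general form),
`H55LTRes` (`GL₂(𝔽₂)` over `𝔽₄`), `H55LTD`; steps: GuideDihedral, sections 2 and 3. -/
theorem card_of_dihedral_type {k : Type} [Field k] [Finite k] (hk4 : Nat.card k = 4) [Algebra (ZMod 2) k]
    (A : Type) [CommRing A] [IsLocalRing A] [Finite A] [Algebra k A]
    (h2 : (2 : A) = 0) (π : A →+* k) (hπk : ∀ c, π (algebraMap k A c) = c)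
    (rb : GQ →* M2 (ZMod 2)) (hrb : ∀ g, (rb g).det ≠ 0) (H : Subgroup GQ)
    (hH : ∀ g, g ∈ H ↔ rb g = 1 ∨ (rb g).trace = 1)
    (r : GQ →* M2 A)
    (hcont : ∃ L : IntermediateField ℚ Qb, FiniteDimensional ℚ L ∧
      ∀ σ : GQ, (∀ x ∈ L, σ x = x) → r σ = 1)
    (hdet : ∀ g, (r g).det = 1)
    (Q : (M2 k)ˣ)
    (hQ : ∀ g, π.mapMatrix (r g) = Q.val * (rb g).map (algebraMap (ZMod 2) k) * Q⁻¹.val)
    (S : Set ℕ)
    (hunr : ∀ ℓ : ℕ, ℓ.Prime → ℓ ∉ S → ∀ P : ValuationSubring Qb,
      P.LiesOverPrime ℓ → ∀ σ ∈ P.inertiaSubgroupIn ℚ, r σ = 1)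
    (htype : ∀ v : ℕ, v.Prime → v ∈ S → ∀ P : ValuationSubring Qb,
      P.LiesOverPrime v → ∃ χ : GQ → A,
        (∀ g ∈ P.decompositionSubgroup ℚ, χ g ^ 2 = 1) ∧
        (∀ g ∈ P.inertiaSubgroupIn ℚ, χ g = 1) ∧
        ∀ g ∈ P.decompositionSubgroup ℚ, ∀ g' ∈ P.decompositionSubgroup ℚ,
          (r g - χ g • (1 : M2 A)) * (r g' - χ g' • (1 : M2 A)) = 0)
    (hnsp : ∀ v : ℕ, v.Prime → v ∈ S → ∀ P : ValuationSubring Qb,
      P.LiesOverPrime v → ∃ g ∈ P.decompositionSubgroup ℚ, g ∉ H)
    (hSel : H55.LT.Sel0 rb S)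
    (U : Finset A) (hU : ∀ u ∈ U, u ^ 2 = 1)
    (hgen : Algebra.adjoin k (Set.range (fun g => (r g).trace) ∪ (U : Set A)) = ⊤) (h : ℕ)
    (hM5 : H55.LT.UnrBound H h) :
    Nat.card A ≤ Nat.card k ^ (h * 2 ^ U.card) :=
  H55.LT.card_le_char2 hk4 A h2 π hπk rb hrb H hH r hcont hdet Q hQ S hunr htype hnsp hSel U hU hgen h hM5

/-! ## M5: the class group of `ℚ(√-N)` -/

/-- **Herbrand quotient of the units.** Let `L/K` be cyclic of degree `n = 2^k` with generator `g`, `K`
totally complex with unit rank 0 (so that the field fixed by `g^(2^i)` has unit rank `2^i - 1` by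
Dirichlet). Let `T = g - 1` and `N = 1 + g + ... + g^(n-1)` on the units of `L`. Then the indices
`[ker T : im N]` and `[ker N : im T]` are finite and their quotient is `1/n`. Files `H91FI*`. -/
theorem herbrand_quotient_of_units {K L : Type*} [Field K] [NumberField K] [Field L] [NumberField L]
    [Algebra K L] [IsGalois K L] [NumberField.IsTotallyComplex K] (hrank : NumberField.Units.rank K = 0)
    {g : L ≃ₐ[K] L} (hg : ∀ x, x ∈ Subgroup.zpowers g) {k : ℕ}
    (hdeg : Module.finrank K L = 2 ^ k) (T N : AddMonoid.End (Additive (𝓞 L)ˣ))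
    (hT : T = H91.FI.unitAct g - 1) (hN : N = ∑ i ∈ Finset.range (2 ^ k), H91.FI.unitAct g ^ i) :
    N.range.relIndex T.ker ≠ 0 ∧ T.range.relIndex N.ker ≠ 0 ∧
      2 ^ k * N.range.relIndex T.ker = T.range.relIndex N.ker := by
  subst hT hN; have h := H91.FI.units_HQ hrank hg hdeg
  exact ⟨h.ne1, h.ne2, h.eq.trans (one_mul _)⟩

/-- **The first inequality, Galois form.** `K` totally complex of unit rank 0, `Ω/K` Galois and algebraic
over `ℚ`, `H` an open normal subgroup of `Gal(Ω/K)` of index `2^k` with cyclic quotient, containing all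
inertia groups. There is a subgroup `D` of the class group of `K`, of index at least `2^k` and containing
all `2^k`-th powers, such that for every place `A` of `Ω` above a prime number `ℓ`: if some Frobenius
element at `A` lies in `H`, then the class of the prime of `K` below `A` lies in `D` (which is generated by
the classes of the norms of the ideals of the field fixed by `H`). Proof by Herbrand quotients. File
`H91FIh`. -/
theorem first_inequality {K Ω : Type} [Field K] [NumberField K] [Field Ω] [CharZero Ω]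
    [Algebra.IsAlgebraic ℚ Ω] [Algebra K Ω] [IsGalois K Ω] [NumberField.IsTotallyComplex K]
    (hrank : NumberField.Units.rank K = 0) (H : Subgroup (Ω ≃ₐ[K] Ω)) [H.Normal]
    (hopen : IsOpen (H : Set (Ω ≃ₐ[K] Ω))) (hcyc : IsCyclic ((Ω ≃ₐ[K] Ω) ⧸ H)) {k : ℕ}
    (hidx : H.index = 2 ^ k)
    (hunr : ∀ (ℓ : ℕ), ℓ.Prime → ∀ A : ValuationSubring Ω, A.LiesOverPrime ℓ →
      A.inertiaSubgroupIn K ≤ H) :
    ∃ D : Subgroup (ClassGroup (𝓞 K)), 2 ^ k ≤ D.index ∧ (∀ c, c ^ 2 ^ k ∈ D) ∧
      ∀ (ℓ : ℕ) (hℓ : ℓ.Prime) (A : ValuationSubring Ω) (hA : A.LiesOverPrime ℓ)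
        (φ : Ω ≃ₐ[K] Ω), φ ∈ H → A.IsFrobeniusAt φ ℓ → H91.FI.clv (H64.placeBelow K hℓ hA) ∈ D :=
  H91.FI.first_inequality_gal hrank H hopen hcyc hidx hunr

/-- **Frobenius density over `K`, existence form.**  For every number field `K` with an embedding
into `Qbar`, every finite set `S` of primes, every open subgroup `U` of `Gal(Qbar/K)` and every `σ`
there is a prime `ℓ` outside `S`, a place `A` above `ℓ` and a Frobenius element `φ` at `A` such that,
modulo `U`, `σ` is a power of `φ` and `φ` is a power of `σ`. File `H91M5b`. -/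
theorem density {K : Type} [Field K] [NumberField K] [Algebra K (AlgebraicClosure ℚ)]
    (S : Finset ℕ) (U : Subgroup (AlgebraicClosure ℚ ≃ₐ[K] AlgebraicClosure ℚ))
    (hU : IsOpen (U : Set (AlgebraicClosure ℚ ≃ₐ[K] AlgebraicClosure ℚ)))
    (σ : AlgebraicClosure ℚ ≃ₐ[K] AlgebraicClosure ℚ) :
    ∃ (ℓ : ℕ) (_ : ℓ.Prime) (A : ValuationSubring (AlgebraicClosure ℚ)) (_ : A.LiesOverPrime ℓ)
      (φ : AlgebraicClosure ℚ ≃ₐ[K] AlgebraicClosure ℚ) (i j : ℕ),
      ℓ ∉ S ∧ A.IsFrobeniusAt φ ℓ ∧ (φ ^ i)⁻¹ * σ ∈ U ∧ (σ ^ j)⁻¹ * φ ∈ U :=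
  H91.M5.dense S U hU σ

/-- **End step of M5: an unramified 2-power abelian character is seen by the class group.**
Notation: `K` totally complex of unit rank 0, `Ω/K` Galois with Frobenius density (hypothesis
`hdens`), `ψ` a nontrivial character of order 3 with open kernel; `x` a homomorphism of the class
group of `K` whose kernel has odd order; `κ₀` a homomorphism of the Galois group with open kernel and
the same image, such that `κ₀ (φ) = x [v]` or `x [v]⁻¹` for all Frobenius elements `φ` at places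
above `v` and above a prime `ℓ` outside `S` with `ψ(φ) ≠ 1`.  Then every homomorphism `κ` of the
Galois group into an abelian group, with open kernel, with values of 2-power order and unramified at
every place, is trivial on the kernel of `κ₀`; in particular its image is at most as large as the
image of `x`.  It is applied (`H63.LT.unrBound_of`, module `H63UnrBound`) with `K = ℚ(√-N)` and `x`
the projection of the class group onto its 2-part: an everywhere unramified character of `Gal(Qbar/K)`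
with values in a finite 2-group has at most as many values as this 2-part has elements. -/
theorem end_step {K Ω : Type} [Field K] [NumberField K] [Field Ω] [CharZero Ω]
    [Algebra.IsAlgebraic ℚ Ω] [Algebra K Ω] [IsGalois K Ω] [NumberField.IsTotallyComplex K]
    (hrank : NumberField.Units.rank K = 0) {S : Finset ℕ}
    (hdens : ∀ U : Subgroup (Ω ≃ₐ[K] Ω), IsOpen (U : Set (Ω ≃ₐ[K] Ω)) → ∀ σ : Ω ≃ₐ[K] Ω,
      ∃ (ℓ : ℕ) (_ : ℓ.Prime) (A : ValuationSubring Ω) (_ : A.LiesOverPrime ℓ) (φ : Ω ≃ₐ[K] Ω)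
        (i j : ℕ), ℓ ∉ S ∧ A.IsFrobeniusAt φ ℓ ∧ (φ ^ i)⁻¹ * σ ∈ U ∧ (σ ^ j)⁻¹ * φ ∈ U)
    (ψ : (Ω ≃ₐ[K] Ω) →* Multiplicative (ZMod 3)) (hψ1 : ψ ≠ 1)
    (hψ : IsOpen (ψ.ker : Set (Ω ≃ₐ[K] Ω)))
    {Γ : Type*} [CommGroup Γ] (x : ClassGroup (𝓞 K) →* Γ) (hx : ∀ c, x c = 1 → Odd (orderOf c))
    (κ₀ : (Ω ≃ₐ[K] Ω) →* Γ) (hκ₀ : IsOpen (κ₀.ker : Set (Ω ≃ₐ[K] Ω)))
    (hκ₀f : ∀ (ℓ : ℕ) (hℓ : ℓ.Prime) (A : ValuationSubring Ω) (hA : A.LiesOverPrime ℓ)
      (φ : Ω ≃ₐ[K] Ω), ℓ ∉ S → A.IsFrobeniusAt φ ℓ → ψ φ ≠ 1 →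
        κ₀ φ = x (H91.FI.clv (H64.placeBelow K hℓ hA)) ∨ κ₀ φ = (x (H91.FI.clv (H64.placeBelow K hℓ hA)))⁻¹)
    (hsurj : κ₀.range = x.range)
    {P : Type*} [CommGroup P] (κ : (Ω ≃ₐ[K] Ω) →* P) (hκ : IsOpen (κ.ker : Set (Ω ≃ₐ[K] Ω)))
    (h2 : ∀ g, ∃ m : ℕ, κ g ^ 2 ^ m = 1)
    (hunr : ∀ (ℓ : ℕ), ℓ.Prime → ∀ A : ValuationSubring Ω, A.LiesOverPrime ℓ →
      A.inertiaSubgroupIn K ≤ κ.ker) :
    κ₀.ker ≤ κ.ker ∧ Nat.card κ.range ≤ Nat.card x.range :=
  H91.M5.m5_end hrank hdens ψ hψ1 hψ x hx κ₀ hκ₀ hκ₀f hsurj κ hκ h2 hunr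

/-- **2-torsion of the class group** of `K = ℚ(√-N)`, `N` even and squarefree: it has at most `2^(t-1)`
elements, `t - 1` the number of odd primes dividing `N`. (Ambiguous ideals; file `H63LTTors`.) -/
theorem card_two_torsion_class_group {K : Type*} [Field K] [NumberField K] {N : ℕ} {w : 𝓞 K}
    (hK : Module.finrank ℚ K = 2) (hw : w ^ 2 = -(N : 𝓞 K)) (hsq : Squarefree N) (h2N : 2 ∣ N) :
    Nat.card {c : ClassGroup (𝓞 K) // c ^ 2 = 1} ≤ 2 ^ (N / 2).primeFactors.card :=
  H63.LT.QuadData.card_two_torsion_le ⟨hK, hw, hsq, h2N⟩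

/-- **Genus theory.** Let `K = ℚ(√-N)`, `N` even and squarefree, and `χ ≠ 1` a quadratic character of
`Cl(K)`. There is an integer `d`, such that `d` and `-N d` are not squares in `ℚ`, with `χ([P]) = (d / ℓ)`
for every prime ideal `P` of prime norm `ℓ ∤ 2N`: the character of `Gal(K(√d)/K)`. Proof: by primes in
arithmetic progressions and quadratic reciprocity there are `2^(t-1)` different characters of this form
(`t - 1` the number of odd primes dividing `N`), as many as the bound for the 2-torsion allows. File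
`H63LTGenusChar`; more in GuideGenus. -/
theorem genus_theory {K : Type*} [Field K] [NumberField K] {N : ℕ} {w : 𝓞 K}
    (hK : Module.finrank ℚ K = 2) (hw : w ^ 2 = -(N : 𝓞 K)) (hsq : Squarefree N) (h2N : 2 ∣ N)
    (χ : ClassGroup (𝓞 K) →* ℤˣ) (hχ : χ ≠ 1) :
    ∃ d : ℤ, d ≠ 0 ∧ ¬ IsSquare (d : ℚ) ∧ ¬ IsSquare (-(N : ℚ) * d) ∧
      ∀ ℓ : ℕ, ℓ.Prime → ¬ ℓ ∣ 2 * N → (¬ (ℓ : ℤ) ∣ d) ∧
        ∀ P : (Ideal (𝓞 K))⁰, Ideal.absNorm (P : Ideal (𝓞 K)) = ℓ →
          ((χ (ClassGroup.mk0 P) : ℤˣ) : ℤ) = jacobiSym d ℓ :=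
  H63.LT.QuadData.genus_char ⟨hK, hw, hsq, h2N⟩ χ hχ

/-! ## C: what goes into Theorem C and what comes out -/

/-- **The curve over `O / 2^m`.** Let `W` be a curve of the class of `GuideResidual.goodCurve_iff`, `N` its
conductor and `r` its 2-adic representation with the signs `s v` (`GuideResidual.eData_iff`). Over every ring
`B` with a homomorphism `f : ℤ₂ → B` the representation `r` is unramified at the primes `ℓ ∤ N`, where
Frobenius elements have trace `a_ℓ(W)` and determinant `ℓ`, and of Steinberg type with the sign `s v` at the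
primes `v ∣ N`. In Theorem C (`GuideResidual.c_theorem`) `B` is `O / 2^m`; there `r` is also of Steinberg type
with sign 1 at the auxiliary primes of level `m` (`GuideTwoAdicCurve.type_at_auxiliary_prime`). File
`H49LTC1`. -/
theorem curve_over_ring {W : WeierstrassCurve ℤ} {r : GQ →* M2 ℤ_[2]} {s : ℕ → ℤ} (hW : LT.GoodCurve W)
    (hE : LT.EData W r s) {B : Type} [CommRing B] (f : ℤ_[2] →+* B) :
    (∀ ℓ : ℕ, ℓ.Prime → ¬ ℓ ∣ LT.cond W →
      LT.UnrAt ℓ (mapMat f r) ∧ LT.FrobAt ℓ ((W.apOfModel ℓ : ℤ) : B) (mapMat f r)) ∧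
    ∀ v : ℕ, v.Prime → v ∣ LT.cond W → LT.TypeAt v ((s v : ℤ) : B) (mapMat f r) :=
  ⟨fun _ hℓ h => ⟨H49.LTC.unrAt_mapMat f hW hE hℓ h, H49.LTC.frobAt_mapMat f hW hE hℓ h⟩,
    fun _ hv h => H49.LTC.typeAt_mapMat f hW hE hv h⟩

/-- **The residual representation** over `k = O / 𝔪` is the representation modulo 2 of `W`, since all ring
homomorphisms from `ℤ₂` to a field of characteristic 2 are equal. With `curve_over_ring` and
`GuideTwoAdicCurve.type_at_auxiliary_prime` these are the hypotheses of Theorem C about `rB` (besides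
continuity). File `H49LTC1`. -/
theorem residual_representation {B k : Type} [CommRing B] [Field k] [CharP k 2] [Algebra (ZMod 2) k]
    (f : ℤ_[2] →+* B) (π : B →+* k) (r : GQ →* M2 ℤ_[2]) (g : GQ) :
    (mapMat f r g).map π = (mapMat PadicInt.toZMod r g).map (algebraMap (ZMod 2) k) :=
  H49.LTC.residual_eq f π r g

/-- **The auxiliary primes are inert in `K = ℚ(√-N)`.** If `-N` is a square modulo the prime `q ∤ 2N`, then
the Frobenius elements at `q` fix the square roots of `-N`, that is, they belong to `LT.GK N`. But modulo 2 a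
Frobenius element at an auxiliary prime is not 1 and has trace 0, while the elements of `LT.GK N` are 1 or
have trace 1. Hence `-N` is not a square modulo an auxiliary prime `q` of level `n ≥ 3`, and `q ≡ 7 mod 8` as
`2^n ∣ q + 1`. These are the hypotheses about `Q` of the theta side (`GuideResidual.ta_hecke_ring`). File
`H49LTC1`. -/
theorem auxiliary_primes_inert :
    (∀ {N q : ℕ}, q.Prime → q ≠ 2 → ¬ q ∣ N → IsSquare ((-(N : ℤ) : ℤ) : ZMod q) →
      ∀ {P : ValuationSubring Qb}, P.LiesOverPrime q → ∀ {φ : GQ}, P.IsFrobeniusAt φ q → φ ∈ LT.GK N) ∧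
    ∀ {W : WeierstrassCurve ℤ} {r : GQ →* M2 ℤ_[2]} {s : ℕ → ℤ}, LT.EData W r s →
      ∀ {n q : ℕ}, LT.AuxPrime r (LT.cond W) n q → 3 ≤ n →
        q % 8 = 7 ∧ ¬ IsSquare ((-(LT.cond W : ℤ) : ℤ) : ZMod q) :=
  ⟨H49.LTC.frob_mem_GK, fun hE _ _ h hn => (H49.LTC.aux_cond hE h hn).2.2⟩

/-- **Extension of a point.** Let `A → B` be an injective homomorphism of rings, `B` finitely generated as
an abelian group, and `φ` a homomorphism from `A` to a complete discrete valuation ring `O'` of
characteristic zero with finite residue field. Then `φ` extends to a homomorphism from `B` to a ring `O''` of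
the same kind, with a local homomorphism `O' → O''`. Proof: `B` is integral over `A`, so (lying over for the
ideal `ker φ`) `φ` extends to `B` with values in the algebraic closure of the fraction field of `O'`; the
values generate a finite extension, in which the integral closure of `O'` is such a ring
(`GuideEigenSteps.finite_extension`). In Theorem C the point of `GuideResidual.c_point` is extended from the
Hecke algebra without the `U_v`, `v ∣ N`, to the full Hecke algebra of level `N ∏ Q` (`LT.statementC_of`).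
File `H46LTEnd`. -/
theorem extension_of_points {O' : Type} [CommRing O'] [IsDomain O'] [IsDiscreteValuationRing O']
    [IsAdicComplete (maximalIdeal O') O'] [Finite (ResidueField O')] [CharZero O'] {A B : Type*}
    [CommRing A] [CommRing B] [Module.Finite ℤ B] (i : A →+* B) (hi : Function.Injective i)
    (φ : A →+* O') :
    ∃ (O'' : Type) (_ : CommRing O'') (_ : IsDomain O'') (_ : IsDiscreteValuationRing O'')
      (_ : IsAdicComplete (maximalIdeal O'') O'') (_ : Finite (ResidueField O''))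
      (_ : CharZero O'') (_ : Algebra O' O'') (_ : IsLocalHom (algebraMap O' O'')),
      ∃ ψ : B →+* O'', ∀ a, ψ (i a) = algebraMap O' O'' (φ a) :=
  LT.exists_point_extension i hi φ

/-! ## M8: from `J₀(Mq)` to the local type -/

/-- **The determinant is cyclotomic.** Let `A` be a local ring with residue characteristic `p` in
the sense that every ideal `(p^n)` contains a power of the maximal ideal, and `r` a continuous
representation (`MCont`: for every `n` the entries of `r(σ) - 1` lie in `𝔪^n` for `σ` in an open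
subgroup) with `det r(Frob_ℓ) = ℓ` for all primes `ℓ` outside a finite set. If `σ` acts on the
`p^n`-th roots of unity as `ζ ↦ ζ^a`, then `det r(σ) ≡ a mod p^n`.
Proof: by the weak form of the Frobenius density theorem a power of a Frobenius element approximates
`σ` on a finite extension. File `H34LTDet`. Used for `Residual.m8_sign`. -/
theorem det_congr_of_frobenius {A : Type} [CommRing A] [IsLocalRing A] {p : ℕ} (hp : p.Prime)
    {S : Finset ℕ} (hpS : p ∈ S)
    {r : (AlgebraicClosure ℚ ≃ₐ[ℚ] AlgebraicClosure ℚ) →* Matrix (Fin 2) (Fin 2) A}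
    (hr : H53.MCont A r)
    (hfr : ∀ ℓ : ℕ, ℓ.Prime → ℓ ∉ S → ∀ P : ValuationSubring (AlgebraicClosure ℚ),
      P.LiesOverPrime ℓ → ∀ φ, P.IsFrobeniusAt φ ℓ → (r φ).det = (ℓ : A))
    (hcl : ∀ n : ℕ, ∃ k : ℕ, maximalIdeal A ^ k ≤ Ideal.span {((p ^ n : ℕ) : A)})
    (n : ℕ) (σ : AlgebraicClosure ℚ ≃ₐ[ℚ] AlgebraicClosure ℚ) (a : ℕ)
    (hσ : ∀ ζ : AlgebraicClosure ℚ, ζ ^ p ^ n = 1 → σ ζ = ζ ^ a) :
    (r σ).det - (a : A) ∈ Ideal.span {((p ^ n : ℕ) : A)} :=
  H34.LTDet.detCyc_of_frob hp hpS hr hfr hcl n σ a hσ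

/-- **Matrices which respect the Frobenius line.** Let `F` be a 2 by 2 matrix over `A` (later the image of a
Frobenius element). `LT.GoodMat F q s M c` says that `M` acts by `det(M) c` on the image of `F - s` and that
`M - c` maps into the kernel of `F - q s`. This holds for `M = F` with `c = s`, if `(F - q s)(F - s) = 0` and
`det F = q`; it is multiplicative in `(M, c)`; and if `A` is a domain and `(q - 1) s ≠ 0`, then any two such
matrices satisfy the relation in the definition of the Steinberg type (`GuideResidual.typeAt_iff`). File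
`H46LTStein`. -/
theorem frobenius_line {A : Type} [CommRing A] {F : M2 A} {q s : A} :
    (∀ {M : M2 A} {c : A}, LT.GoodMat F q s M c ↔
      (M - (M.det * c) • (1 : M2 A)) * (F - s • (1 : M2 A)) = 0 ∧
        (F - (q * s) • (1 : M2 A)) * (M - c • (1 : M2 A)) = 0) ∧
    ((F - (q * s) • (1 : M2 A)) * (F - s • (1 : M2 A)) = 0 → F.det = q → LT.GoodMat F q s F s) ∧
    (∀ {M N : M2 A} {c d : A}, LT.GoodMat F q s M c → LT.GoodMat F q s N d →
      LT.GoodMat F q s (M * N) (c * d)) ∧
    (IsDomain A → (q - 1) * s ≠ 0 → ∀ {M N : M2 A} {c d : A}, LT.GoodMat F q s M c →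
      LT.GoodMat F q s N d → (M - (M.det * c) • (1 : M2 A)) * (N - d • (1 : M2 A)) = 0) :=
  ⟨Iff.rfl, LT.goodMat_self, LT.GoodMat.mul, fun _ hqs _ _ _ _ hM hN => hM.mul_eq_zero hN hqs⟩

/-- **Inertia respects the Frobenius line.** Let `A` be a domain, `q` a natural number which is not 0, 1 or
-1 in `A`, `F` a matrix with trace `(q + 1) s` and determinant `q`, `s² = 1`, and `T` a unipotent matrix with
`F T = T^q F` (the relation between a Frobenius element and an element of tame inertia). Then `T` is as in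
`frobenius_line` with `c = 1`. Proof: for `X = T - 1` the relation is `F X = q X F`, so `X (F - s)` is killed
by the matrix `F - q² s`, of determinant `q (q - 1)² (q + 1)`; the other half is similar. File
`H46LTStein`. -/
theorem inertia_on_frobenius_line {A : Type} [CommRing A] [IsDomain A] {F T : M2 A} {s : A} {q : ℕ}
    (hs : s ^ 2 = 1) (hq0 : (q : A) ≠ 0) (hq1 : (q : A) ≠ 1) (hq2 : (q : A) ≠ -1)
    (htr : F.trace = ((q : A) + 1) * s) (hdet : F.det = (q : A))
    (hT : (T - 1) * (T - 1) = 0) (hrel : F * T = T ^ q * F) : LT.GoodMat F (q : A) s T 1 :=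
  LT.goodMat_of_unipotent rfl hs hq0 hq1 hq2 htr hdet hT hrel

/-- **The local type from Frobenius and inertia.** Let `A` be a local domain of characteristic zero, separated
in the topology of its maximal ideal, with `p` in the maximal ideal, `r` continuous and `q ≠ p` a prime such
that, at every place above `q`, inertia is unipotent and some Frobenius element has trace `(q + 1) s` and
determinant `q`, `s = ± 1`. Then `r` is of Steinberg type with sign `s` at `q`. Proof: by the structure of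
the tame quotient (`H53.frob_rel_eq`) the relation of `inertia_on_frobenius_line` holds for the elements of
inertia; an element of the decomposition group is, modulo every open subgroup, a product of a power of the
Frobenius element and an element of inertia. So its matrix has the property of `frobenius_line` with some
`c = ± 1`, which is the value of the character. File `H46LTStein`. -/
theorem type_of_frobenius {p q : ℕ} [Fact p.Prime] {A : Type} [CommRing A] [IsDomain A] [IsLocalRing A]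
    [CharZero A] {r : GQ →* M2 A} (hq : q.Prime) (hpq : p ≠ q) (hpA : (p : A) ∈ maximalIdeal A)
    (hr : MCont A r) (hA : ∀ x : A, (∀ n, x ∈ maximalIdeal A ^ n) → x = 0) {s : A}
    (hs : s = 1 ∨ s = -1)
    (hfr : ∀ P : ValuationSubring Qb, P.LiesOverPrime q → ∃ φ : GQ, P.IsFrobeniusAt φ q ∧
      (r φ).trace = ((q : A) + 1) * s ∧ (r φ).det = q)
    (hU : ∀ P : ValuationSubring Qb, P.LiesOverPrime q → ∀ τ ∈ P.inertiaSubgroupIn ℚ,
      (r τ - 1) * (r τ - 1) = 0) : LT.TypeAt q s r :=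
  LT.typeAt_of_frob hq hpq hpA hr hA hs hfr hU

/-- **The local type from a realisation** (the statement about `J₀(Mq)` behind everything). Let `q ≠ p` be
a prime not dividing `M`, `O` a discrete valuation ring of characteristic zero and residue characteristic
`p`, and `r : Gal(ℚ̄/ℚ) → GL₂(O)` continuous with cyclotomic determinant. Assume that `r` embeds Galois
equivariantly into `O ⊗ T_p J₀(Mq)` (the map `F`), that the Atkin-Lehner involution `w_q` is `-s` on the
image (`s = ±1`) and that the image is killed by the push-forward to level `M`. Then `r` is of Steinberg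
type at `q` with sign `s`. Proof: inertia satisfies `(σ - 1)² = 0` and Frobenius the relation
`(φ + q w)(φ + w) = 0` on the torsion points killed by both traces (by the second one because of `w_q`),
because the reduction of `X₀(Mq)` has two components interchanged by `w_q` (`H89J.unipotentTorsion'`,
`H89J.starInput'`); transport along `F` (elements of `O ⊗ T_p J` are split along `ℤ_p`-independent elements
of `O`, `H34LTPull`), then `type_of_frobenius`.
Files `H34LTPull`, `H34LTSign`. Used for `Residual.m8_sign`. -/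
theorem localType_of_realisation {p M q : ℕ} [Fact p.Prime] [NeZero M] [NeZero (M * q)] [NeZero q]
    {O : Type} [CommRing O] [IsDomain O] [IsDiscreteValuationRing O] [CharZero O] [Algebra ℤ_[p] O]
    (hinj : Function.Injective (algebraMap ℤ_[p] O)) (hq : q.Prime) (hpq : p ≠ q) (hqM : ¬ q ∣ M)
    (hpO : (p : O) ∈ maximalIdeal O)
    {r : (AlgebraicClosure ℚ ≃ₐ[ℚ] AlgebraicClosure ℚ) →* Matrix (Fin 2) (Fin 2) O}
    (hr : H53.MCont O r) (hdet : LT.DetCyc p r) {s : O} (hs : s = 1 ∨ s = -1) (hc : M.Coprime q)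
    (F : (Fin 2 → O) →ₗ[O] O ⊗[ℤ_[p]] H30.TateMod p (JZero (M * q))) (hF : Function.Injective F)
    (hgal : ∀ g (x : Fin 2 → O), F ((r g).mulVec x) =
      (H30.galTate p (JZero (M * q)) g).baseChange O (F x))
    (hw : ∀ x, (H35.tateMap (p := p) (H67.wJ (R := M * q) M q rfl hc)).baseChange O (F x) =
      -(s • F x))
    (hpush : ∀ x, (H35.tateMap (p := p)
      (H67.degPush (M := M) (N := M * q) 1 (by simp))).baseChange O (F x) = 0) :
    LT.TypeAt q s r :=
  H34.LTSign.typeAt_of_real hinj hq hpq hqM hpO hr hdet hs hc F hF hgal hw hpush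

/-- **Residually unramified.** Let `r` be attached to the eigenform `f` of level `L` as before
(`H19LT.Attached`), residually irreducible (`H19LT.ResIrr`), and suppose that the eigenvalues of `f`
away from `L` are those of an eigenform `g` of a level `M ∣ L` prime to the odd prime `v`. Then `r`
modulo the maximal ideal is trivial on the inertia groups at `v`.
Proof: the Hecke algebra of level `M` maps to `O'` (it is generated by the `T_ℓ`, which go to traces
of Frobenius elements), so `H19LT.exists_heckeRep` builds a representation of level `M` with the same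
traces, unramified at `v`; modulo the maximal ideal it is conjugate to `r`. File `H34LTOld`.
Used for `Residual.m8_ramified`. -/
theorem residually_unramified {L M : ℕ} [NeZero L] [NeZero M]
    {f : CuspForm (CongruenceSubgroup.Gamma0 L) 2}
    {g : CuspForm (CongruenceSubgroup.Gamma0 M) 2} (hg : g.IsNormalizedEigenform)
    (hfg : ∀ ℓ : ℕ, ℓ.Prime → ¬ ℓ ∣ L → qCoeff g ℓ = qCoeff f ℓ) (hML : M ∣ L)
    {v : ℕ} (hv : v.Prime) (hv2 : v ≠ 2) (hvM : ¬ v ∣ M)
    {O' : Type} [CommRing O'] [IsDomain O'] [IsDiscreteValuationRing O'] [LT.TwoRing O']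
    {E : Type} [Field E] (j : O' →+* E) (ι : integralClosure ℤ ℂ →+* E) (S : Finset ℕ)
    (r : (AlgebraicClosure ℚ ≃ₐ[ℚ] AlgebraicClosure ℚ) →* Matrix (Fin 2) (Fin 2) O')
    (hr : H19LT.Attached f S j ι r) (hirr : H19LT.ResIrr r)
    (P : ValuationSubring (AlgebraicClosure ℚ)) (hP : P.LiesOverPrime v)
    (σ : AlgebraicClosure ℚ ≃ₐ[ℚ] AlgebraicClosure ℚ) (hσ : σ ∈ P.inertiaSubgroupIn ℚ) :
    H53.mapMat (residue O') r σ = 1 :=
  H34.LTOld.residual_unramified hg hfg hML hv hv2 hvM j ι S r hr hirr P hP σ hσ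

/-- **Steinberg type from an inertia-invariant functional.** `A` a noetherian local domain, `r` a
continuous representation to `M₂(A)`, `v` any prime (also the residue characteristic), `s² = 1`.
If for every place `P` above `v` there is a nonzero linear functional `l` on `A²` with
`l(r(σ) x) = l(x)` for `σ` in the inertia group and `l(r(φ) x) = s l(x)` for one Frobenius `φ`,
then `r` is of Steinberg type at `v` with sign `s`. Used on the modular side at `v = 2`, where the
functional comes from the toric part of `J₀(2 L')`. File `H73M8c`; used in `H79V2End`, for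
`Residual.m8_ramified`. Steps: GuideTwoAdicCurve, section 7. -/
theorem type_of_functional {v : ℕ} {A : Type} [CommRing A] [IsDomain A] [IsLocalRing A]
    [IsNoetherianRing A] {r : GQ →* M2 A} (hv : v.Prime) (hr : MCont A r)
    {s : A} (hs : s ^ 2 = 1)
    (h : ∀ P : ValuationSubring Qbar, P.LiesOverPrime v → ∃ l : (Fin 2 → A) →ₗ[A] A, l ≠ 0 ∧
      (∀ σ ∈ P.inertiaSubgroupIn ℚ, ∀ x, l ((r σ).mulVec x) = l x) ∧
      ∃ φ : GQ, P.IsFrobeniusAt φ v ∧ ∀ x, l ((r φ).mulVec x) = s * l x) :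
    LT.TypeAt v s r :=
  H73.M8c.typeAt_of_functional' hv hr hs h

/-! ## M7: Mazur's principle modulo powers of 2, and the limit -/

/-- **A representation inside a Galois module with a quadratic relation.** Let `V` be a free module of rank
2 over `ℤ/p^m` on which `G` acts by `ρ` with image spanning `End V`, and let `y` be an element of exact
order `p^m` of a `G`-module `J` such that every `g` satisfies its characteristic equation
`g² - tr ρ(g) g + det ρ(g) = 0` on the subgroup generated by the orbit of `y`. Then `V` embeds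
`G`-equivariantly in this subgroup: by the theorem of Boston, Lenstra and Ribet
(`boston_lenstra_ribet_algebra` of GuideRealisation) the group ring acts on it through `M₂(ℤ/p^m)`. (In
the application `J = J₀(Mq)` and the relation is that of Eichler and Shimura: `reduction_spans` and
`quadratic_on_orbit` of GuideLevelsMazurSteps.) File `H35LTCyc`. -/
theorem embedding_in_orbit {p m : ℕ} {G J V : Type*} [Group G] [AddCommGroup J] [DistribMulAction G J]
    [AddCommGroup V] [Module (ZMod (p ^ m)) V] (hp : p.Prime)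
    (b : Module.Basis (Fin 2) (ZMod (p ^ m)) V) (ρ : G →* Module.End (ZMod (p ^ m)) V)
    (hspan : Submodule.span (ZMod (p ^ m)) (Set.range ρ) = ⊤)
    {y : J} (hy : p ^ m • y = 0) (hy' : p ^ (m - 1) • y ≠ 0)
    (h : ∀ g : G, ∃ t d : ℤ, LinearMap.trace (ZMod (p ^ m)) V (ρ g) = t ∧
      LinearMap.det (ρ g) = d ∧ ∀ x ∈ AddSubgroup.closure (Set.range fun g : G => g • y),
        g • (g • x) - t • (g • x) + d • x = 0) :
    ∃ ι : V →+ J, Function.Injective ι ∧ (∀ (g : G) (v : V), ι (ρ g v) = g • ι v) ∧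
      ∀ v, ι v ∈ AddSubgroup.closure (Set.range fun g : G => g • y) :=
  H35.exists_embedding hp b ρ hspan hy hy' h

/-- **Removing one auxiliary prime.** Let `ρ` be a `p`-adic representation of `G_ℚ` with Frobenius traces
`a ℓ`, whose reduction spans the matrix algebra, with `a ℓ ≢ ℓ + 1` modulo `p` for infinitely many `ℓ`,
unramified at `q` and with Frobenius at `q` not scalar modulo `p`. Suppose Mazur's principle for `J₀(Mq)`
with loss `p^r` (`H35.MazurInput`; for `p = 2` this is `Residual.m7_mazur_two`). If `J₀(Mq)` contains a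
torsion point `y` of `p`-power order with `p^(k+r+1) y ≠ 0` and `T_ℓ y = a_ℓ y` for all primes `ℓ ∤ R`,
then `J₀(M)` contains such a point `z` with `p^k z ≠ 0`. Proof: take `y` with `w_q y = ± y` (this costs a
factor `p`, needed for `p = 2`); by `embedding_in_orbit` the orbit of `y` contains `ρ` modulo a power of
`p`, on which inertia at `q` is trivial; the component map vanishes on it because `a ℓ ≢ ℓ + 1`, and if
both reductions vanished, Frobenius would be the scalar `∓ q`. File `H35LTDown`. -/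
theorem remove_one_prime {p : ℕ} [Fact p.Prime] {S : Finset ℕ} (hpS : p ∈ S) {a : ℕ → ℤ}
    {ρ : GQ →* M2 ℤ_[p]} (hcont : MCont ℤ_[p] ρ)
    (hspan : Submodule.span (ZMod p) (Set.range (mapMat PadicInt.toZMod ρ)) = ⊤)
    (hfrob : ∀ ℓ : ℕ, ℓ.Prime → ℓ ∉ S → ∀ A : ValuationSubring Qbar, A.LiesOverPrime ℓ →
      ∀ φ : GQ, A.IsFrobeniusAt φ ℓ →
        (ρ φ).trace = ((a ℓ : ℤ) : ℤ_[p]) ∧ (ρ φ).det = (ℓ : ℤ_[p]))
    (hEis : ∀ S' : Finset ℕ, ∃ ℓ : ℕ, ℓ.Prime ∧ ℓ ∉ S' ∧ ¬ (p : ℤ) ∣ a ℓ - (ℓ + 1))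
    {M q : ℕ} [NeZero M] [NeZero (M * q)] [NeZero q] (hq : q.Prime) (hc : M.Coprime q)
    (hunr : ∀ A : ValuationSubring Qbar, A.LiesOverPrime q → ∀ σ ∈ A.inertiaSubgroupIn ℚ, ρ σ = 1)
    (hns : ∃ A : ValuationSubring Qbar, A.LiesOverPrime q ∧ ∃ φ : GQ, A.IsFrobeniusAt φ q ∧
      ∀ c : ZMod p, mapMat PadicInt.toZMod ρ φ ≠ c • 1)
    {r : ℕ} (hD : ∀ m : ℕ, H35.MazurInput (p ^ m) (p ^ r) q M) {R : ℕ} (hR0 : R ≠ 0)
    (hR : M * q ∣ R) {k : ℕ}
    (h : letI := heckeModuleBar (M * q)
      ∃ y : JZero (M * q), (∃ K, p ^ K • y = 0) ∧ p ^ (k + r + 1) • y ≠ 0 ∧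
        ∀ ℓ : Nat.Primes, ¬ (ℓ : ℕ) ∣ R → heckeGen ℓ • y = a ℓ • y) :
    letI := heckeModuleBar M
    ∃ z : JZero M, (∃ K, p ^ K • z = 0) ∧ p ^ k • z ≠ 0 ∧
      ∀ ℓ : Nat.Primes, ¬ (ℓ : ℕ) ∣ R → heckeGen ℓ • z = a ℓ • z :=
  H35.levelPoint_step ⟨hpS, hcont, hspan, hfrob, hEis⟩ ⟨hq, hunr, hns⟩ hc hD hR0 hR h

/-- **The limit.** Let `a : ℕ → ℤ` and suppose that for all `n` and `B` there is a torsion point `y` of
`p`-power order of `J₀(N)` with `p^n y ≠ 0` and `T_ℓ y = a_ℓ y` for all primes `ℓ ∤ R`, where `R` has no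
prime factor `< B` except divisors of `N`. Then there is a normalised eigenform of level `N` with
eigenvalues `a_ℓ` at all primes `ℓ ∤ N`. Proof: a polynomial in the Hecke operators which is zero on the cusp
forms is zero on the torsion of `J₀(N)`; so its value at `a` is divisible by all powers of `p`, hence zero.
File `H35LTEnd2`. -/
theorem eigenform_from_torsion {N : ℕ} [NeZero N] {p : ℕ} (hp : p.Prime) (a : ℕ → ℤ)
    (h : ∀ n B : ℕ, ∃ R : ℕ, (∀ ℓ : ℕ, ℓ.Prime → ℓ < B → ℓ ∣ R → ℓ ∣ N) ∧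
      letI := heckeModuleBar N
      ∃ y : JZero N, (∃ K, p ^ K • y = 0) ∧ p ^ n • y ≠ 0 ∧
        ∀ ℓ : Nat.Primes, ¬ (ℓ : ℕ) ∣ R → heckeGen ℓ • y = a ℓ • y) :
    ∃ g : CuspForm (CongruenceSubgroup.Gamma0 N) 2, g.IsNormalizedEigenform ∧
      ∀ ℓ : ℕ, ℓ.Prime → ¬ ℓ ∣ N → qCoeff g ℓ = a ℓ :=
  H35.exists_eigenform_of_levelPoints hp a h

end Fermat.Agent.Guide.ResidualSteps
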