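import Fermat.Agent.H49LTA

/-!
# Reader's guide: the theta series modulo 2 (block TA of block LT)

Continuation of `GuideResidual`, section 5. All theorems are in the closure of S01 (through `H49.LTF.ltA`);
every proof is the citation of a theorem of the library (`theta_coefficients` is a reformulation). Notes:
Appendix A.8 [120]. More on section 1 is in GuideQuaternaryTheta, more on sections 2, 5, 6 in GuideTSide.

**What is proved** (`Residual.ta_theta_hom`, `Residual.ta_hecke_ring`). Let `K = ℚ(√-N)`, `N > 2` even and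
squarefree, `ψ` a character of the class group with values in a ring in which `2 = 0` (a group algebra
`𝔽₄[C₂ × μ₂^Q]`), whose cubic part `η` is not trivial. There is a homomorphism from the Hecke algebra of
level `N ∏ Q` and weight 2 which sends `T_ℓ` to the sum of `ψ` over the prime ideals of norm `ℓ`, for any
finite set `Q` of inert primes at once.

**Idea.** The theta series `Θ = Σ t_n qⁿ`, `t_n = Σ_{N(𝔞) = n} ψ(𝔞)`, has weight ONE. Forms of weight two:
the products `θ_I(τ) θ_J(Qτ)` of two binary theta series, `θ_I = Σ_{x ∈ I} q^(N(x)/N(I))` (from now on `Q`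
is also the product of the primes in the set `Q`). Because `θ_I = 1 + 2 (...)`, half of such a product is
modulo 2 the SUM of two forms of weight one, up to the constant term. A combination over the classes gives
`F = t_r (Θ(τ) + ψ(b) Θ(Qτ))` modulo 2, with `U_q² F = F` for `q ∣ Q`. Finally the product of the operators
`1 + [δ_q] U_q` over `q ∣ Q` makes `F` an eigenform with `U_q = [δ_q]`, whose first coefficient
`t_r (1 + ψ(b) ∏ [δ_q])` is a unit (only the terms of `1` and of the product of all `[δ_q] U_q` remain,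
since `t_d = 0` for the other divisors `d` of `Q`). There is no supersingular module, no quaternion algebra
and no Eisenstein series of weight one.

* section 1: theta series as modular forms (Poisson summation);
* section 2: from level `4NQ` to a cusp form of level `NQ`: the operators `U_4` and `(T_r - 1 - r)/2`;
  `U_v² = 1` for `v = 2` and `v ∣ Q`;
* section 3: modulo 2: lattice points and ideals, the sum over the classes;
* section 4: the choice of `r` and `b`, which makes the form nonzero modulo 2;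
* section 5: the eigensequence and the homomorphism;
* section 6: from the homomorphism to eigenforms.

Notation: `𝓞 K` is the ring of integers; `qCoeff f n` the `n`-th coefficient of `f`; `heckeULin 2 h` is the
operator `U_v` on the cusp forms of weight 2 (`h : v ∣ M`); `heckeT 2 r` the operator `T_r`.

Authors of the library files and of the texts: helper45 (quaternary theta series), 27 (binary forms), 79, 80,
65, 22, 81, 61, 96, 54.
-/

set_option autoImplicit false

noncomputable section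

open CuspForm ModularFormClass IsLocalRing Matrix Ideal
open scoped NumberField nonZeroDivisors NumberTheorySymbols

namespace Fermat.Agent.Guide.ResidualTheta

/-! ## 1. Theta series are modular forms -/

/-- **Quaternary theta series.** Let `A` be the Gram matrix of an even positive definite form in four
variables of level `M`, that is `A B = M` with an even symmetric matrix `B`, and of discriminant `M²`. The
numbers of solutions of `x A x / 2 = n` are the coefficients of a modular form of weight 2 for `Γ₀(M)`.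
Proof: Poisson summation in four variables, by induction from Mathlib's functional equation of the theta
function of one variable, gives with Gauss sums the transformation formula under every matrix of `Γ₀(M)`.
Files `H45Poisson1`, `H45Poisson2`, `H16Poisson`, `H45Th1`, `H45Th2`, `H45Th3`, `H45Th4`, `H45Th5`,
`H45Theta`. -/
theorem quaternary_theta_series {M : ℕ} [NeZero M] {A B : Matrix (Fin 4) (Fin 4) ℤ}
    (symm : A.IsSymm) (even : ∀ i, Even (A i i)) (symm' : B.IsSymm) (even' : ∀ i, Even (B i i))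
    (mul : A * B = (M : ℤ) • 1) (pos : ∀ x : Fin 4 → ℤ, x ≠ 0 → 0 < x ⬝ᵥ (A *ᵥ x))
    (det : A.det = (M : ℤ) ^ 2) :
    ∃ f : ModularForm (CongruenceSubgroup.Gamma0 M) 2, ∀ n : ℕ,
      qCoeff f n = (Nat.card {x : Fin 4 → ℤ // x ⬝ᵥ (A *ᵥ x) = 2 * (n : ℤ)} : ℕ) :=
  LT.exists_theta ⟨symm, even, pos, ⟨B, symm', even', mul⟩, det⟩

/-- **Products of two binary theta series.** For ideals `I`, `J` of an imaginary quadratic field `K` let
`θ_I(τ) = Σ_{x ∈ I} q^(N(x)/N(I))`. Then `θ_I(τ) θ_J(Qτ)` is a modular form of weight 2 on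
`Γ₀(|disc K| Q)`. These products are the only modular forms that are constructed in block LT. Files
`H27LTDefs`, `H27LTBin`, `H27LTProd`. -/
theorem binary_theta_product {K : Type*} [Field K] [NumberField K] [NumberField.IsTotallyComplex K]
    (h2 : Module.finrank ℚ K = 2) (I J : Ideal (𝓞 K)) (hI : I ≠ ⊥) (hJ : J ≠ ⊥) (Q : ℕ) (hQ : 0 < Q) :
    ∃ f : ModularForm (CongruenceSubgroup.Gamma0 ((NumberField.discr K).natAbs * Q)) 2, ∀ n : ℕ,
      qCoeff f n = (Nat.card {p : I × J //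
        Ideal.absNorm (Ideal.span {(p.1 : 𝓞 K)}) / Ideal.absNorm I +
          Q * (Ideal.absNorm (Ideal.span {(p.2 : 𝓞 K)}) / Ideal.absNorm J) = n} : ℂ) :=
  LT.exists_theta_prod h2 I J hI hJ Q hQ _ rfl

/-! ## 2. From level `4NQ` to cusp forms of level `NQ` -/

/-- **`U_4` lowers the level.** For a modular form `f` of level `8M` the series with the coefficients
`a_{4n}(f)` is a modular form of level `2M` of the same weight. Applied to `θ_I(τ) θ_J(Qτ)`, whose level
`4NQ`, `N = 2m`, is `8 (mQ)`. File `H79Up`. -/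
theorem level_lowering_at_two {L M : ℕ} (k : ℤ) [NeZero M] (hL : L = 8 * M)
    (f : ModularForm (CongruenceSubgroup.Gamma0 L) k) :
    ∃ g : ModularForm (CongruenceSubgroup.Gamma0 (2 * M)) k,
      (g : UpperHalfPlane → ℂ) = ModularForm.heckeU k 2 (ModularForm.heckeU k 2 f) ∧
        ∀ n, qCoeff g n = qCoeff f (4 * n) :=
  H79.Up.exists_mfLow_four k hL f

/-- **`T_r - 1 - r` makes a form cuspidal**, if the level `M` is squarefree and `r` is a prime not dividing
it: at each cusp the constant term is an eigenvector of `T_r` with eigenvalue `1 + r`. File `H81Br3`. -/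
theorem hecke_makes_cuspidal {M : ℕ} [NeZero M] (hM : Squarefree M)
    (f : ModularForm (CongruenceSubgroup.Gamma0 M) 2) {r : ℕ} (hr : r.Prime) (hrM : ¬ r ∣ M) :
    ∃ g : CuspForm (CongruenceSubgroup.Gamma0 M) 2,
      (g : UpperHalfPlane → ℂ) = ModularForm.heckeT 2 r f - ((r : ℂ) + 1) • (f : UpperHalfPlane → ℂ) ∧
      ∀ n, qCoeff g n = qCoeff f (n * r) + (if r ∣ n then (r : ℂ) * qCoeff f (n / r) else 0) -
        (r + 1) * qCoeff f n :=
  H81.exists_cuspForm_heckeT_sub_qCoeff hM f hr hrM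

/-- **The cusp form of one class.** Let `f = 1 + Σ c(n) qⁿ` be a modular form of weight 2 and level `4NQ`,
`N = 2m`, `NQ` squarefree, with even integers `c(n)`, and let `r` be a prime not dividing `NQ`. Then
`(T_r - 1 - r) U_4 f / 2` is a cusp form of level `NQ` with INTEGRAL coefficients, and `U_v²` is the identity
on it if `c(4 v² n) = c(4 n)` for all `n`. File `H79TA2`. -/
theorem cusp_form_of_class {c : ℕ → ℕ} {r N m Q : ℕ} (hN : N = 2 * m) (hsq : Squarefree (N * Q))
    [NeZero (N * Q)] (f : ModularForm (CongruenceSubgroup.Gamma0 (4 * N * Q)) 2)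
    (hf : ∀ n, qCoeff f n = (c n : ℂ)) (hr : r.Prime) (hrM : ¬ r ∣ N * Q) (c0 : c 0 = 1)
    (hc : ∀ n, 0 < n → 2 ∣ c n) (V : Set ℕ)
    (h : ∀ v ∈ V, v.Prime → v ∣ N * Q → ∀ n, c (4 * (n * v * v)) = c (4 * n)) :
    ∃ H : CuspForm (CongruenceSubgroup.Gamma0 (N * Q)) 2,
      (∀ v : ℕ, v.Prime → v ∈ V → ∀ hv : v ∣ N * Q, heckeULin 2 hv (heckeULin 2 hv H) = H) ∧
      ∀ n, qCoeff H n = ((((c (4 * (n * r)) : ℤ) +
        (if r ∣ n then (r : ℤ) * c (4 * (n / r)) else 0) - (r + 1) * c (4 * n)) / 2 : ℤ) : ℂ) := by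
  obtain ⟨H, h1, h2⟩ := H79.TA.exists_cuspForm hN hsq f hf hr hrM c0 hc h
  exact ⟨H, h1, h2⟩

/-- **Products of two binary theta series at an inert prime.** `S` an imaginary quadratic ring (any Dedekind
domain of rank two over `ℤ`), `I`, `J` nonzero ideals, `q` a prime number which stays prime in `S` and divides
`Q` exactly once. The number of `(x, y) ∈ I × J` with `N(x)/N(I) + Q N(y)/N(J) = q² n` is the same as for `n`:
on the form `θ_I(τ) θ_J(Qτ)`, of weight two, the operator `U_q²` is the identity. Idea: `q ∣ N(x)/N(I)` means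
`x ∈ q I`, and then the roles of `x` and `y` are exchanged. File `H80ThLat`. -/
theorem theta_product_inert {S : Type*} [CommRing S] [IsDedekindDomain S] [Module.Free ℤ S]
    [Module.Finite ℤ S] (hrk : Module.finrank ℤ S = 2) {I J : Ideal S} (hI : I ≠ ⊥) (hJ : J ≠ ⊥)
    {q : ℕ} (hq : q.Prime) (hqP : (Ideal.span {(q : S)}).IsPrime) {Q : ℕ} (h1 : q ∣ Q)
    (h2 : ¬ q ^ 2 ∣ Q) (n : ℕ) :
    Nat.card {p : I × J // Ideal.absNorm (Ideal.span {(p.1 : S)}) / Ideal.absNorm I +
        Q * (Ideal.absNorm (Ideal.span {(p.2 : S)}) / Ideal.absNorm J) = q ^ 2 * n} =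
      Nat.card {p : I × J // Ideal.absNorm (Ideal.span {(p.1 : S)}) / Ideal.absNorm I +
        Q * (Ideal.absNorm (Ideal.span {(p.2 : S)}) / Ideal.absNorm J) = n} := by
  simpa only [H80.Th.rth, H80.Th.nm, one_mul] using H80.Th.rth_inert_sq' hI hJ hrk hq hqP h1 h2 n

/-- **The same at `v = 2`.** `K = ℚ(√-N)`, `N` even and squarefree, `I`, `J`, `b` ideals with `J` in the class
of `I b`, `N(b)` and `Q` odd and `-Q N(b)` congruent neither to `1` nor to `1 + N` modulo 8 (in the
application `Q N(b) ≡ 3 mod 8`). The number of `(x, y) ∈ I × J` with `N(x)/N(I) + Q N(y)/N(J) = 16 n` is the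
same as for `4 n`: on `U_4 (θ_I(τ) θ_J(Qτ))` the operator `U_2²` is the identity. The condition says that
`N(x)/N(I) + Q N(y)/N(J)` represents 0 over `ℚ₂` only trivially. File `H80ThQuad`. -/
theorem theta_product_at_two {K : Type} [Field K] [NumberField K] {N : ℕ} {w : 𝓞 K}
    (hK : Module.finrank ℚ K = 2) (hw : w ^ 2 = -(N : 𝓞 K)) (hsq : Squarefree N) (h2N : 2 ∣ N)
    {I J b : Ideal (𝓞 K)} (hI : I ≠ ⊥) (hJ : J ≠ ⊥) (hb : Odd (absNorm b))
    (hcls : ∃ c d : 𝓞 K, c ≠ 0 ∧ d ≠ 0 ∧ span {c} * J = span {d} * (I * b))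
    {Q : ℕ} (hQ : Odd Q) (hQ1 : (-(Q * absNorm b : ℤ)) % 8 ≠ 1)
    (hQN : (-(Q * absNorm b : ℤ)) % 8 ≠ (1 + N) % 8) (n : ℕ) :
    Nat.card {p : I × J // absNorm (span {(p.1 : 𝓞 K)}) / absNorm I +
        Q * (absNorm (span {(p.2 : 𝓞 K)}) / absNorm J) = 16 * n} =
      Nat.card {p : I × J // absNorm (span {(p.1 : 𝓞 K)}) / absNorm I +
        Q * (absNorm (span {(p.2 : 𝓞 K)}) / absNorm J) = 4 * n} := by
  simpa only [H80.Th.rth, H80.Th.nm, one_mul] using
    H80.Th.rth_sixteen_quad ⟨hK, hw, hsq, h2N⟩ hI hJ hb hcls hQ hQ1 hQN n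

/-! ## 3. Modulo 2: ideals instead of lattice points -/

/-- **Lattice points and ideals** (`H65ThDict`). `R` a Dedekind domain, free of finite rank over `ℤ`, with
units `±1`; `𝔞 ≠ 0` an ideal, `n ≥ 1`. The number of `x ∈ 𝔞` with `N(x) = n N(𝔞)` is twice the number of the
ideals `𝔠` of norm `n` with `𝔠 𝔞` principal (that is, in the class inverse to `𝔞`). -/
theorem points_and_ideals {R : Type*} [CommRing R] [IsDedekindDomain R]
    [Module.Free ℤ R] [Module.Finite ℤ R] [CharZero R] (hU : ∀ u : Rˣ, u = 1 ∨ u = -1)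
    (𝔞 : Ideal R) (h𝔞 : 𝔞 ≠ ⊥) (n : ℕ) (hn : 0 < n) :
    Nat.card {x : R // x ∈ 𝔞 ∧ Ideal.absNorm (Ideal.span {x}) = n * Ideal.absNorm 𝔞} =
      2 * Nat.card {𝔠 : Ideal R // Ideal.absNorm 𝔠 = n ∧ Submodule.IsPrincipal (𝔠 * 𝔞)} :=
  H65Th.card_pts hU 𝔞 h𝔞 n hn

/-- **A product of two theta series is a sum modulo 4.** `S` a Dedekind domain, free of finite rank over
`ℤ`, with units `±1` (the ring of integers of `K`); for `n ≥ 1` the `n`-th coefficient of `θ_I(τ) θ_J(Qτ)`
is, up to a multiple of 4, twice the number of ideals `c` of norm `n` in the class of `I⁻¹` plus (if `Q ∣ n`)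
twice the number of ideals of norm `n / Q` in the class of `J⁻¹`: half of the form of weight 2 is modulo 2 a
sum of two forms of weight one. (Lattice points correspond to ideals, two points `±x` to one ideal.) File
`H65ThF`. -/
theorem product_mod_four {S : Type*} [CommRing S] [IsDedekindDomain S] [CharZero S]
    [Module.Free ℤ S] [Module.Finite ℤ S] (hU : ∀ u : Sˣ, u = 1 ∨ u = -1) {I J : Ideal S}
    (hI : I ≠ ⊥) (hJ : J ≠ ⊥) {Q : ℕ} (hQ : 0 < Q) {n : ℕ} (hn : 0 < n) :
    ∃ z : ℕ, Nat.card {p : I × J // Ideal.absNorm (Ideal.span {(p.1 : S)}) / Ideal.absNorm I +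
        Q * (Ideal.absNorm (Ideal.span {(p.2 : S)}) / Ideal.absNorm J) = n} =
      2 * Nat.card {c : Ideal S // Ideal.absNorm c = n ∧ Submodule.IsPrincipal (c * I)} +
      (if Q ∣ n then
        2 * Nat.card {c : Ideal S // Ideal.absNorm c = n / Q ∧ Submodule.IsPrincipal (c * J)}
        else 0) + 4 * z :=
  ⟨H65Th.cross I J Q n, by
    simpa only [H80.Th.rth, H80.Th.nm, H65Th.hc, H65Th.Idls, one_mul] using
      H65Th.rth_eq hU hI hJ hQ hn⟩

/-- **The constant coefficient** of `θ_I(τ) θ_J(Qτ)` is 1: the only pair is `(0, 0)`. (Used in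
`cusp_form_of_one_class`.) File `H79TA1`. -/
theorem constant_coefficient {S : Type*} [CommRing S] [IsDedekindDomain S] [CharZero S]
    [Module.Free ℤ S] [Module.Finite ℤ S] (hU : ∀ u : Sˣ, u = 1 ∨ u = -1) {I J : Ideal S}
    (hI : I ≠ ⊥) (hJ : J ≠ ⊥) {Q : ℕ} (hQ : 0 < Q) :
    Nat.card {p : I × J // Ideal.absNorm (Ideal.span {(p.1 : S)}) / Ideal.absNorm I +
        Q * (Ideal.absNorm (Ideal.span {(p.2 : S)}) / Ideal.absNorm J) = 0} = 1 :=
  H79.TA.cnt_zero hU hI hJ hQ

/-- **Sum over the class group.** `ψ` a character of the class group with values in a commutative ring `B`,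
`J A` an ideal in the class `A b` for every class `A`. The sum of `ψ(A)⁻¹ #{c : N(c) = n, c (J A) principal}`
over the classes `A` is `ψ(b) t_n`, `t_n` the sum of `ψ` over the ideals of norm `n` (`theta_coefficients`
below; here in the form `H22.Th.tc (H22.Th.cg ψ) n`). File `H65ThF`. -/
theorem sum_over_classes {S : Type*} [CommRing S] [IsDedekindDomain S] [CharZero S]
    [Module.Free ℤ S] [Module.Finite ℤ S] {B : Type*} [CommRing B] [Fintype (ClassGroup S)]
    (ψ : ClassGroup S →* B) (J : ClassGroup S → (Ideal S)⁰) (b : ClassGroup S)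
    (hJ : ∀ A, ClassGroup.mk0 (J A) = A * b) {n : ℕ} (hn : 0 < n) :
    ∑ A : ClassGroup S, ψ A⁻¹ *
      (Nat.card {c : Ideal S // absNorm c = n ∧ Submodule.IsPrincipal (c * (J A : Ideal S))} : B) =
        ψ b * H22.Th.tc (H22.Th.cg ψ) n :=
  H65Th.sum_hc ψ J b hJ hn

/-- **The coefficients of a theta series.** Let `K` be a number field and `ψ` a character of its
class group with values in a commutative ring `B`. The coefficients `H22.Th.th ψ n` of the theta
series of `ψ` are the sums of `ψ([𝔞])` over all nonzero ideals `𝔞` of norm `n`. File `H22Th`. -/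
theorem theta_coefficients {K : Type} [Field K] [NumberField K] {B : Type*} [CommRing B]
    (ψ : ClassGroup (𝓞 K) →* B) (n : ℕ) :
    H22.Th.th ψ n = ∑ᶠ I ∈ {I : (Ideal (𝓞 K))⁰ | Ideal.absNorm (I : Ideal (𝓞 K)) = n},
      ψ (ClassGroup.mk0 I) := by
  rcases eq_or_ne n 0 with rfl | hn
  · have h : {I : (Ideal (𝓞 K))⁰ | Ideal.absNorm (I : Ideal (𝓞 K)) = 0} = ∅ :=
      Set.eq_empty_of_forall_notMem fun I hI =>
        nonZeroDivisors.coe_ne_zero I (Ideal.absNorm_eq_zero_iff.mp hI)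
    rw [H22.Th.QD.zero, h, finsum_mem_empty]
  · rw [H22.Th.th, H22.Th.tc, ← finsum_mem_coe_finset]
    refine (finsum_mem_eq_of_bijOn (fun I : (Ideal (𝓞 K))⁰ => (I : Ideal (𝓞 K)))
      ⟨fun I hI => Finset.mem_coe.mpr (H22.Th.mem_idn.mpr hI), fun I _ J _ h => Subtype.ext h,
        fun I hI => ?_⟩ fun I _ => (H22.Th.cg_mk0 ψ I.2).symm).symm
    have h := H22.Th.mem_idn.mp (Finset.mem_coe.mp hI)
    refine ⟨⟨I, mem_nonZeroDivisors_of_ne_zero ?_⟩, h, rfl⟩
    rintro rfl
    exact hn (by rw [← h, Ideal.zero_eq_bot, Ideal.absNorm_bot])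

/-- **The theta series of a class group character is a Hecke eigenseries in characteristic two.**
Let `K = ℚ(√-N)`, `N` squarefree and even (`w = √-N`; the discriminant of `K` is `-4N`), let `ψ`
be a character of the class group of `K` with values in a commutative ring `B` in which `2 = 0`
(in the application a group algebra over a field of characteristic two), and let `t n` be the
sum of `ψ([𝔞])` over the nonzero ideals `𝔞` of norm `n`; for a prime `r ∤ N` the number `t r` is the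
trace of Frobenius on the representation induced from `ψ`. Then `t 0 = 0`, `t 1 = 1` and

* `t (r n) + t (n / r) = t r · t n` for every prime `r ∤ N`, where `t (n / r)` means `0` if
  `r ∤ n`: the Hecke relation of weight one with the character `χ = (-N / ·)`, and at the same
  time the Hecke relation of weight two, since `χ(r) = r = 1` in `B`;
* `t d = 0` if `d > 1` is a squarefree product of inert primes (`-N` not a square);
* `t (v² n) = t n` for every prime `v ∣ N`.

The proof is elementary: unique factorisation of ideals and the three splitting types of a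
rational prime, for any completely multiplicative function on the ideals. Proved in `H22Th`,
`H22ThK`; used in `H79TA4`, `H79TA6` (the explicit weight two form congruent modulo 2 to the
dihedral form). -/
theorem theta_series_hecke {K : Type} [Field K] [NumberField K] {N : ℕ} {w : 𝓞 K}
    (hK : Module.finrank ℚ K = 2) (hw : w ^ 2 = -(N : 𝓞 K)) (hN : Squarefree N) (h2 : 2 ∣ N)
    {B : Type*} [CommRing B] (hB : (2 : B) = 0) (ψ : ClassGroup (𝓞 K) →* B) {t : ℕ → B}
    (ht : ∀ n, t n = ∑ᶠ I ∈ {I : (Ideal (𝓞 K))⁰ | Ideal.absNorm (I : Ideal (𝓞 K)) = n},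
      ψ (ClassGroup.mk0 I)) :
    t 0 = 0 ∧ t 1 = 1 ∧
    (∀ r : ℕ, r.Prime → ¬ r ∣ N → ∀ n : ℕ,
      t (r * n) + (if r ∣ n then t (n / r) else 0) = t r * t n) ∧
    (∀ d : ℕ, Squarefree d →
      (∀ q : ℕ, q.Prime → q ∣ d → ¬ IsSquare ((-(N : ℤ) : ℤ) : ZMod q)) →
      t d = if d = 1 then 1 else 0) ∧
    (∀ v : ℕ, v.Prime → v ∣ N → ∀ n : ℕ, t (v * (v * n)) = t n) := by
  obtain rfl : t = H22.Th.th ψ := funext fun n => (ht n).trans (theta_coefficients ψ n).symm
  have h : H63.LT.QuadData K N w := ⟨hK, hw, hN, h2⟩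
  exact ⟨H22.Th.QD.zero ψ, H22.Th.tc_one _, fun r hr hrN => H22.Th.QD.hecke_two h ψ hB hr hrN,
    fun d => H22.Th.QD.squarefree h ψ, fun v hv hvN => H22.Th.QD.ram h ψ hv hvN⟩

/-- **The form modulo 2.** `K = ℚ(√-N)`, `N` even and squarefree, `ψ` a character of the class group with
values in a ring `B` with `2 = 0`, `I A` and `J A` ideals in the classes `A` and `A b`, `Q` odd, `r` a prime
not dividing `N Q`; `c A n` is the number of the `(x, y) ∈ I A × J A` with
`N(x)/N(I A) + Q N(y)/N(J A) = n`. The combination with coefficients `ψ(A)⁻¹` of the cusp forms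
`(T_r - 1 - r) U_4 (θ_I θ_J)/2` of `cusp_form_of_class` is congruent to `t_r (Θ(τ) + ψ(b) Θ(Qτ))`, where
`t_n = H22.Th.th ψ n` are the coefficients of `Θ` (`theta_coefficients`). File `H79TA4`. -/
theorem form_modulo_two {K : Type} [Field K] [NumberField K] {N : ℕ} {w : 𝓞 K}
    (hK : Module.finrank ℚ K = 2) (hw : w ^ 2 = -(N : 𝓞 K)) (hsq : Squarefree N) (h2N : 2 ∣ N)
    {B : Type*} [CommRing B] (hB : (2 : B) = 0) (ψ : ClassGroup (𝓞 K) →* B)
    (I J : ClassGroup (𝓞 K) → (Ideal (𝓞 K))⁰) (b : ClassGroup (𝓞 K))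
    (hI : ∀ A, ClassGroup.mk0 (I A) = A) (hJ : ∀ A, ClassGroup.mk0 (J A) = A * b) (Q r : ℕ)
    (hQ : Odd Q) (hr : r.Prime) (hrN : ¬ r ∣ N) (hrQ : ¬ r ∣ Q)
    (c : ClassGroup (𝓞 K) → ℕ → ℕ)
    (hc : ∀ (A : ClassGroup (𝓞 K)) (n : ℕ), c A n =
      Nat.card {p : ↥(I A : Ideal (𝓞 K)) × ↥(J A : Ideal (𝓞 K)) //
        absNorm (span {(p.1 : 𝓞 K)}) / absNorm (I A : Ideal (𝓞 K)) +
          Q * (absNorm (span {(p.2 : 𝓞 K)}) / absNorm (J A : Ideal (𝓞 K))) = n}) (n : ℕ) :
    ∑ A : ClassGroup (𝓞 K), ψ A⁻¹ * ((((c A (4 * (n * r)) : ℤ) +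
        (if r ∣ n then (r : ℤ) * c A (4 * (n / r)) else 0) - (r + 1) * c A (4 * n)) / 2 : ℤ) : B) =
      H22.Th.th ψ r * (H22.Th.th ψ n + if Q ∣ n then ψ b * H22.Th.th ψ (n / Q) else 0) := by
  obtain rfl : c = fun A => H79.TA.cA I J Q A := by
    funext A n; rw [hc]; simp only [H79.TA.cA, H80.Th.rth, H80.Th.nm, one_mul]
  exact H79.TA.Fn_eq ⟨hK, hw, hsq, h2N⟩ ψ I J Q r hB b hI hJ hQ hr hrN hrQ n

/-! ## 4. The choice of `r` and of the classes `A b` -/

/-- **A unit in the group algebra** of an abelian group whose exponent divides `2^n`, over a field of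
characteristic 2: `x` is a unit if its augmentation (the sum of its coefficients, `H79.TA.aug`) is not zero.
So `t_r = ψ(P) + ψ(P)⁻¹` (`r` a split prime, `P` above `r`) is a unit if `η(P) + η(P)⁻¹ ≠ 0`, and
`1 + ψ(b) ∏ [δ_q]` is a unit if `η(b) ≠ 1`, `η` the cubic character in `ψ`. File `H79TA3`. -/
theorem unit_of_augmentation {k G : Type*} [Field k] [CharP k 2] [CommGroup G] {n : ℕ}
    (hG : ∀ g : G, g ^ 2 ^ n = 1) {x : MonoidAlgebra k G} (hx : H79.TA.aug k G x ≠ 0) : IsUnit x :=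
  H79.TA.isUnit_of_aug_ne_zero hG hx

/-- **The prime `r`.** `K = ℚ(√-N)` and `η ≠ 1` a character of the class group with `η³ = 1`. There is a
prime `r ∤ 2N` which splits in `K`, with a prime ideal `P` above it with `η(P) ≠ 1`. If `η` has values in a
field of characteristic 2, then `η(P) + η(P)⁻¹ = 1`, so `t_r` is a unit of the group algebra. File
`H79TA3`. -/
theorem exists_prime_r {K : Type} [Field K] [NumberField K] {N : ℕ} {w : 𝓞 K}
    (hK : Module.finrank ℚ K = 2) (hw : w ^ 2 = -(N : 𝓞 K)) (hsq : Squarefree N) (h2N : 2 ∣ N)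
    {G : Type*} [CommGroup G] (η : ClassGroup (𝓞 K) →* G) (hη : η ≠ 1) (hη3 : ∀ c, η c ^ 3 = 1) :
    ∃ r : ℕ, r.Prime ∧ ¬ r ∣ 2 * N ∧ IsSquare ((-(N : ℤ) : ℤ) : ZMod r) ∧
      ∃ P : (Ideal (𝓞 K))⁰, absNorm (P : Ideal (𝓞 K)) = r ∧ (P : Ideal (𝓞 K)).IsPrime ∧
        η (ClassGroup.mk0 P) ≠ 1 :=
  H79.TA.exists_split_prime ⟨hK, hw, hsq, h2N⟩ η hη hη3

/-- **Split primes in residue classes modulo 8.** `m > 1` odd and squarefree: for every odd residue class
modulo 8 there are arbitrarily large primes `t` in it for which `-2m` is a square. Proof: Dirichlet's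
theorem on primes in arithmetic progressions and quadratic reciprocity. File `H65ThB0` (prescribed Legendre
symbols: `H65QArith`). -/
theorem exists_split_prime (m : ℕ) (hm : Odd m) (hsq : Squarefree m) (hm1 : 1 < m) (a : ℕ)
    (ha : Odd a) (B : ℕ) :
    ∃ t : ℕ, t.Prime ∧ B < t ∧ t % 8 = a % 8 ∧ jacobiSym (-(2 * (m : ℤ))) t = 1 :=
  H65Th.exists_split_prime m hm hsq hm1 a ha B

/-- **The auxiliary ideal.** `K = ℚ(√-N)`, `N > 2` even and squarefree, `ψ` a nontrivial cubic character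
of the class group, `Q` odd: there is an ideal `b` with `Q N(b) ≡ 3 mod 8` and `ψ(b) ≠ 1`. (Take
`J_A = b I_A` in the products `θ_(I_A)(τ) θ_(J_A)(Qτ)`: the condition modulo 8 gives `U_2² = 1`, the
condition `ψ(b) ≠ 1` makes the form nonzero modulo 2.) Proof: a prime `t ≡ 3Q mod 8` which splits in `K`,
by Dirichlet's theorem and quadratic reciprocity; if `ψ(P) = 1` for a prime ideal `P` of norm `t`, one
takes `P J²` with an ideal `J` of odd norm for which `ψ(J) ≠ 1`. File `H65ThB0`. -/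
theorem exists_auxiliary_ideal {K : Type*} [Field K] [NumberField K] {N : ℕ} {w : 𝓞 K}
    (hK : Module.finrank ℚ K = 2) (hw : w ^ 2 = -(N : 𝓞 K)) (hsq : Squarefree N) (h2N : 2 ∣ N)
    (hN : 2 < N) {G : Type*} [CommGroup G] (ψ : ClassGroup (𝓞 K) →* G) (hψ : ψ ≠ 1)
    (hψ3 : ∀ c, ψ c ^ 3 = 1) (Q : ℕ) (hQ : Odd Q) :
    ∃ (b : Ideal (𝓞 K)) (hb : b ≠ ⊥), (Q * Ideal.absNorm b) % 8 = 3 ∧
      ψ (ClassGroup.mk0 ⟨b, mem_nonZeroDivisors_iff_ne_zero.2 hb⟩) ≠ 1 :=
  H65Th.exists_B0 ⟨hK, hw, hsq, h2N⟩ hN ψ hψ hψ3 Q hQ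

/-! ## 5. The eigensequence and the homomorphism

The proof of `Residual.ta_theta_hom` (file `H79TA6`). Let `B` be the group algebra and `ψ` the character of
`group_algebra`. Choose `b` as in `exists_auxiliary_ideal` and `r` as in `exists_prime_r`, and let `F` be the
combination of cusp forms of `form_modulo_two`, a sequence with values in `B`:

1. `F` is admissible in the sense of `GuideTSide.mem_Adm_iff`: every relation between Hecke operators on the
   cusp forms of level `N Q` with `U_v² = 1` for `v = 2` and `v ∣ Q` holds for `F` (`cusp_form_of_one_class`,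
   `admissible_and_square`);
2. `F = t_r D` with `D = Θ(τ) + ψ(b) Θ(Qτ)`, so `T_ℓ F = t_ℓ F` for `ℓ ∤ N Q` (`relations_modulo_two`), and
   `U_q² F = F` for `q ∣ Q` (`admissible_and_square`);
3. let `G` be the image of `F` under the product of the operators `1 + [δ_q] U_q`
   (`GuideTSide.projection`); then `T_ℓ G = t_ℓ G`, `U_q G = [δ_q] G`, and `G(1)` is a unit
   (`GuideTSide.coefficients_of_projection`, `first_coefficient`, `units`);
4. an admissible eigensequence whose first term is a unit defines a homomorphism of the Hecke algebra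
   (`GuideTSide.exists_ringHom`). -/

/-- **The cusp form of one class.** `K = ℚ(√-N)`, `I A` and `J A` ideals in the classes `A` and `A [b]` with
`Q N(b) ≡ 3 mod 8`, `Q` squarefree, its prime divisors inert in `K` and prime to `N`, `r` a prime not dividing
`N Q`; `c n` is the number of the `(x, y) ∈ I A × J A` with `N(x)/N(I A) + Q N(y)/N(J A) = n`. Then
`cusp_form_of_class` can be applied to `θ_(I A)(τ) θ_(J A)(Qτ)` (`binary_theta_product`, `|disc K| = 4N`):
`c 0 = 1` (`constant_coefficient`), `c n` is even for `n > 0` (`product_mod_four`), and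
`c (4 v² n) = c (4 n)` for `v = 2` and `v ∣ Q` (`theta_product_at_two`, `theta_product_inert`). File
`H79TA5`. -/
theorem cusp_form_of_one_class {K : Type} [Field K] [NumberField K] {N : ℕ} {w : 𝓞 K}
    (hK : Module.finrank ℚ K = 2) (hw : w ^ 2 = -(N : 𝓞 K)) (hsq : Squarefree N) (h2N : 2 ∣ N)
    {I J : ClassGroup (𝓞 K) → (Ideal (𝓞 K))⁰} {b : (Ideal (𝓞 K))⁰} {Q r : ℕ} [NeZero (N * Q)]
    (hI : ∀ A, ClassGroup.mk0 (I A) = A) (hJ : ∀ A, ClassGroup.mk0 (J A) = A * ClassGroup.mk0 b)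
    (h8 : (Q * absNorm (b : Ideal (𝓞 K))) % 8 = 3) (hQ : Squarefree Q)
    (hin : ∀ q : ℕ, q.Prime → q ∣ Q → ¬ q ∣ N ∧ ¬ IsSquare ((-(N : ℤ) : ℤ) : ZMod q))
    (hr : r.Prime) (hrM : ¬ r ∣ N * Q) (A : ClassGroup (𝓞 K)) {c : ℕ → ℕ}
    (hc : ∀ n : ℕ, c n = Nat.card {p : ↥(I A : Ideal (𝓞 K)) × ↥(J A : Ideal (𝓞 K)) //
        absNorm (span {(p.1 : 𝓞 K)}) / absNorm (I A : Ideal (𝓞 K)) +
          Q * (absNorm (span {(p.2 : 𝓞 K)}) / absNorm (J A : Ideal (𝓞 K))) = n}) :
    ∃ H : CuspForm (CongruenceSubgroup.Gamma0 (N * Q)) 2,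
      (∀ v : ℕ, v.Prime → (v = 2 ∨ v ∣ Q) → ∀ hv : v ∣ N * Q, heckeULin 2 hv (heckeULin 2 hv H) = H) ∧
      ∀ n, qCoeff H n = ((((c (4 * (n * r)) : ℤ) +
        (if r ∣ n then (r : ℤ) * c (4 * (n / r)) else 0) - (r + 1) * c (4 * n)) / 2 : ℤ) : ℂ) := by
  obtain rfl : c = H79.TA.cA I J Q A := by
    funext n; rw [hc]; simp only [H79.TA.cA, H80.Th.rth, H80.Th.nm, one_mul]
  obtain ⟨H, h1, h2⟩ := H79.TA.exists_form ⟨hK, hw, hsq, h2N⟩ ⟨hI, hJ, h8, hQ, hin⟩ A hr hrM
    (V := {v | v = 2 ∨ v ∣ Q}) fun _ hv => hv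
  exact ⟨H, h1, h2⟩

/-- **`F` is admissible, and `U_q² F = F`** for `q ∣ Q`, `F` the combination of `form_modulo_two` (with
values in any ring `B`). Same hypotheses as in `cusp_form_of_one_class`. The admissibility is that of
`GuideTSide.mem_Adm_iff`, for the operators at the primes outside `S` (in the application `S` consists of the
divisors of `N`) and the cusp forms with `U_v² = 1` for the primes `v ∈ V`: a combination of admissible
sequences is admissible. File `H79TA5`. -/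
theorem admissible_and_square {K : Type} [Field K] [NumberField K] {N : ℕ} {w : 𝓞 K}
    (hK : Module.finrank ℚ K = 2) (hw : w ^ 2 = -(N : 𝓞 K)) (hsq : Squarefree N) (h2N : 2 ∣ N)
    {B : Type*} [CommRing B] (ψ : ClassGroup (𝓞 K) →* B)
    {I J : ClassGroup (𝓞 K) → (Ideal (𝓞 K))⁰} {b : (Ideal (𝓞 K))⁰} {Q r : ℕ} [NeZero (N * Q)]
    (hI : ∀ A, ClassGroup.mk0 (I A) = A) (hJ : ∀ A, ClassGroup.mk0 (J A) = A * ClassGroup.mk0 b)
    (h8 : (Q * absNorm (b : Ideal (𝓞 K))) % 8 = 3) (hQ : Squarefree Q)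
    (hin : ∀ q : ℕ, q.Prime → q ∣ Q → ¬ q ∣ N ∧ ¬ IsSquare ((-(N : ℤ) : ℤ) : ZMod q))
    (hr : r.Prime) (hrM : ¬ r ∣ N * Q) {c : ClassGroup (𝓞 K) → ℕ → ℕ}
    (hc : ∀ (A : ClassGroup (𝓞 K)) (n : ℕ), c A n =
      Nat.card {p : ↥(I A : Ideal (𝓞 K)) × ↥(J A : Ideal (𝓞 K)) //
        absNorm (span {(p.1 : 𝓞 K)}) / absNorm (I A : Ideal (𝓞 K)) +
          Q * (absNorm (span {(p.2 : 𝓞 K)}) / absNorm (J A : Ideal (𝓞 K))) = n}) {F : ℕ → B}
    (hF : ∀ n, F n = ∑ A : ClassGroup (𝓞 K), ψ A⁻¹ * ((((c A (4 * (n * r)) : ℤ) +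
        (if r ∣ n then (r : ℤ) * c A (4 * (n / r)) else 0) - (r + 1) * c A (4 * n)) / 2 : ℤ) : B)) :
    (∀ S V : Set ℕ, (∀ v ∈ V, v = 2 ∨ v ∣ Q) → F ∈ H61.TA.Adm (N * Q) S B (H61.TA.X2 (N * Q) V)) ∧
    ∀ q : ℕ, q.Prime → q ∣ Q → ∀ n, F (n * q * q) = F n := by
  obtain rfl : c = fun A => H79.TA.cA I J Q A := by
    funext A n; rw [hc]; simp only [H79.TA.cA, H80.Th.rth, H80.Th.nm, one_mul]
  obtain rfl : F = H79.TA.Fn ψ I J Q r := funext hF
  have h : H63.LT.QuadData K N w := ⟨hK, hw, hsq, h2N⟩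
  have hg : H79.TA.Good N I J b Q := ⟨hI, hJ, h8, hQ, hin⟩
  exact ⟨fun S V hV => H79.TA.Fn_mem_Adm h ψ hg hr hrM hV,
    fun q hq hqQ => H79.TA.Fn_mul_sq h ψ hg hr hrM hq hqQ⟩

/-- **The relations of `D = Θ(τ) + ψ(b) Θ(Qτ)`** (as in `form_modulo_two`, `2 = 0` in `B`): `D(0) = 0`,
`D(4n) = D(n)`, the Hecke relation with eigenvalue `t_r` for `r ∤ N Q`, and, if `Q` is squarefree with inert
prime divisors, `D(e) = 0` for the divisors `e ≠ 1, Q` of `Q`. All of this follows from the relations of `Θ`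
(`theta_series_hecke`). File `H79TA4`. -/
theorem relations_modulo_two {K : Type} [Field K] [NumberField K] {N : ℕ} {w : 𝓞 K}
    (hK : Module.finrank ℚ K = 2) (hw : w ^ 2 = -(N : 𝓞 K)) (hsq : Squarefree N) (h2N : 2 ∣ N)
    {B : Type*} [CommRing B] (hB : (2 : B) = 0) (ψ : ClassGroup (𝓞 K) →* B) (b : ClassGroup (𝓞 K))
    {Q : ℕ} (hQ : Odd Q) {D : ℕ → B}
    (hD : ∀ n, D n = H22.Th.th ψ n + if Q ∣ n then ψ b * H22.Th.th ψ (n / Q) else 0) :
    D 0 = 0 ∧ (∀ n, D (4 * n) = D n) ∧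
    (∀ r : ℕ, r.Prime → ¬ r ∣ N → ¬ r ∣ Q → ∀ n,
      D (n * r) + (if r ∣ n then D (n / r) else 0) = H22.Th.th ψ r * D n) ∧
    (Squarefree Q → (∀ q : ℕ, q.Prime → q ∣ Q → ¬ IsSquare ((-(N : ℤ) : ℤ) : ZMod q)) →
      ∀ e : ℕ, e ∣ Q → D e = (if e = 1 then 1 else 0) + if e = Q then ψ b else 0) := by
  obtain rfl : D = H79.TA.Dn ψ b Q := funext hD
  have h : H63.LT.QuadData K N w := ⟨hK, hw, hsq, h2N⟩
  exact ⟨H79.TA.Dn_zero ψ b Q, H79.TA.Dn_four h ψ b Q hQ,
    fun r hr hrN hrQ => H79.TA.Dn_hecke h ψ b Q hB hr hrN hrQ hQ.pos,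
    fun hQ' hq e he => H79.TA.Dn_squarefree h ψ b Q hQ' hq he⟩

/-- **The group algebra** `B = k[C₂ × μ₂^Q]` of `Residual.ta_theta_hom`, `k` a field of characteristic 2. The
group has exponent a power of 2. The character `ψ = H79.TA.psi η Q` sends a class `c` to `η(c) [c]`,
`H79.TA.uu K k Q q` is `[δ_q]` for `q ∈ Q`, with square 1; the augmentations are `η(c)` and 1. File
`H79TA6`. -/
theorem group_algebra {K : Type} [Field K] [NumberField K] {k : Type} [Field k] [CharP k 2]
    (η : ClassGroup (𝓞 K) →* kˣ) (Q : Finset ℕ) :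
    (∀ g : LT.C2Q K Q, g ^ 2 ^ (Nat.card (ClassGroup (𝓞 K)) + 1) = 1) ∧
    (∀ c : ClassGroup (𝓞 K), H79.TA.psi η Q c = MonoidAlgebra.single ((QuotientGroup.mk c : LT.C2' K),
      (1 : {q // q ∈ Q} → Multiplicative (ZMod 2))) ((η c : kˣ) : k)) ∧
    (∀ (q : ℕ) (hq : q ∈ Q),
      H79.TA.uu K k Q q = MonoidAlgebra.single (LT.deltaQ K Q ⟨q, hq⟩) 1) ∧
    (∀ q : ℕ, H79.TA.uu K k Q q * H79.TA.uu K k Q q = 1) ∧
    (∀ c : ClassGroup (𝓞 K), H79.TA.aug k (LT.C2Q K Q) (H79.TA.psi η Q c) = (η c : k)) ∧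
    ∀ q : ℕ, H79.TA.aug k (LT.C2Q K Q) (H79.TA.uu K k Q q) = 1 :=
  ⟨H79.TA.pow_two_C2Q K Q, fun _ => rfl, fun _ hq => H79.TA.uu_of_mem Q hq, H79.TA.uu_mul_uu Q,
    H79.TA.aug_psi η Q, H79.TA.aug_uu Q⟩

/-- **The units.** `t_r` is a unit of the group algebra, if `r` splits in `K` and `η(P) ≠ 1` for a prime ideal
`P` of norm `r` (`exists_prime_r`): its augmentation is `η(P) + η(P)⁻¹`, which is not zero in characteristic
2. If `η(b) ≠ 1` and `x` has augmentation 1, then `1 + ψ(b) x` is a unit. Both by `unit_of_augmentation`.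
File `H79TA6`. -/
theorem units {K : Type} [Field K] [NumberField K] {N : ℕ} {w : 𝓞 K}
    (hK : Module.finrank ℚ K = 2) (hw : w ^ 2 = -(N : 𝓞 K)) (hsq : Squarefree N) (h2N : 2 ∣ N)
    {k : Type} [Field k] [CharP k 2] (η : ClassGroup (𝓞 K) →* kˣ) (Q : Finset ℕ) :
    (∀ r : ℕ, r.Prime → ¬ r ∣ 2 * N → IsSquare ((-(N : ℤ) : ℤ) : ZMod r) →
      ∀ P : (Ideal (𝓞 K))⁰, absNorm (P : Ideal (𝓞 K)) = r → (P : Ideal (𝓞 K)).IsPrime →
        η (ClassGroup.mk0 P) ≠ 1 → IsUnit (H22.Th.th (H79.TA.psi η Q) r)) ∧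
    ∀ b : ClassGroup (𝓞 K), η b ≠ 1 → ∀ x : MonoidAlgebra k (LT.C2Q K Q),
      H79.TA.aug k (LT.C2Q K Q) x = 1 → IsUnit (1 + H79.TA.psi η Q b * x) :=
  ⟨fun _ hr hr2 hrsq _ hPn hP hηP => H79.TA.isUnit_th ⟨hK, hw, hsq, h2N⟩ η Q hr hr2 hrsq hPn hP hηP,
    fun _ hb _ hx => H79.TA.isUnit_one_add η Q hb hx⟩

/-- **The first coefficient.** A sum over the sublists of a list `l` without repetitions, whose terms are zero
except for the empty list and `l`, is `f [] + f l` (or `f []` if `l` is empty). With `D(e)` as in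
`relations_modulo_two` this gives `G(1) = t_r (1 + ψ(b) ∏ [δ_q])`, the product over `q ∈ Q`. File
`H79TA5`. -/
theorem first_coefficient {B : Type*} [CommRing B] {l : List ℕ} (hl : l.Nodup) (f : List ℕ → B)
    (hf : ∀ d, d.Sublist l → d ≠ [] → d ≠ l → f d = 0) :
    (l.sublists.map f).sum = if l = [] then f [] else f [] + f l :=
  H79.TA.sum_sublists hl f hf

/-! ## 6. From the homomorphism to eigenforms -/

/-- **Points of Hecke algebras are eigenforms.** Let `V` be a Hecke stable subspace of `S₂(Γ₀(M))` (in the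
application the forms with `U_v² = 1` for `v = 2` and `v ∈ Q`) and `A` a commutative ring, integral over `ℤ`,
acting faithfully on `V` by Hecke operators. Every ring homomorphism `φ` from `A` to an algebraically closed
field comes from a normalised eigenform `f` in `V`: if `a ∈ A` acts as the operator `t`, then `t f = z f` and
`φ(a)` is the image of the algebraic integer `z`. File `H81Pt`; steps, and the ring to which it is applied:
GuideTSide, section 4. -/
theorem eigenform_of_point {M : ℕ} [NeZero M]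
    (V : Submodule ℂ (CuspForm (CongruenceSubgroup.Gamma0 M) 2))
    (hV : ∀ t ∈ heckeAlgebra M 2 ∅, ∀ f ∈ V, t f ∈ V) {A : Type*} [CommRing A]
    (hA : ∀ a : A, IsIntegral ℤ a) (i : A →+* Module.End ℂ V) (hi : Function.Injective i)
    (hiB : ∀ a, ∃ t ∈ heckeAlgebra M 2 ∅, ∀ g : V,
      ((i a g : V) : CuspForm (CongruenceSubgroup.Gamma0 M) 2) = t g)
    {F : Type*} [Field F] [IsAlgClosed F] (φ : A →+* F) :
    ∃ f ∈ V, f.IsNormalizedEigenform ∧ ∃ ι : integralClosure ℤ ℂ →+* F,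
      ∀ (a : A) (t : Module.End ℂ (CuspForm (CongruenceSubgroup.Gamma0 M) 2)),
        (∀ g : V, ((i a g : V) : CuspForm (CongruenceSubgroup.Gamma0 M) 2) = t g) →
        ∃ z : integralClosure ℤ ℂ, t f = (z : ℂ) • f ∧ ι z = φ a :=
  H81.exists_eigenform_of_point V hV hA i hi hiB φ

end Fermat.Agent.Guide.ResidualTheta
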