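import Fermat.Agent.H58Newform
import Fermat.Agent.H71S49Ideal
import Fermat.Agent.H23Main
import Fermat.Prelude.Def_WeierstrassCurve_Mlc1RowStatement

/-!
H71C46: the weight one eigensystem mod 3 of a semistable elliptic curve (statement S46), deduced
from modularity at exact level.

Let `f` be the normalised eigenform of squarefree level `N` with `a_ℓ(f) = a_ℓ(W)` for `ℓ ∤ N`.
* `exists_deplete`: the form `g` of level `N * N` with `a_n(g) = a_n(f)` for `(n, N) = 1` and
  `a_n(g) = 0` otherwise.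
* `eig A e`: the multiplicative sequence with prime values `A ℓ` and recursion given by `e`.
* the sequence `a = eig A χ₋₃` is congruent mod 3 to the coefficients of `g`.
-/

set_option autoImplicit false

open ModularFormClass CuspForm EisensteinWeightOne CongruenceSubgroup
open Fermat.Agent.H58

namespace Fermat.Agent.H71C

/-! ### Formal eigensystems -/

section Formal

variable {R : Type*} [CommRing R]

/-- local factor: `loc t e 0 = 1`, `loc t e 1 = t`, `loc t e (r+2) = t loc (r+1) - e loc r`. -/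
def loc (t e : R) : ℕ → R
  | 0 => 1
  | 1 => t
  | (r + 2) => t * loc t e (r + 1) - e * loc t e r

/-- multiplicative sequence with local factors `loc (A p) (e p)`. -/
noncomputable def eig (A e : ℕ → R) (n : ℕ) : R :=
  if n = 0 then 0 else n.factorization.prod fun p r => loc (A p) (e p) r

theorem eig_zero (A e : ℕ → R) : eig A e 0 = 0 := if_pos rfl

theorem eig_one (A e : ℕ → R) : eig A e 1 = 1 := by
  simp [eig]

theorem eig_pow_mul (A e : ℕ → R) {p : ℕ} (hp : p.Prime) (r : ℕ) {m : ℕ} (hm : ¬ p ∣ m) :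
    eig A e (p ^ r * m) = loc (A p) (e p) r * eig A e m := by
  have hm0 : m ≠ 0 := by
    rintro rfl
    exact hm (dvd_zero _)
  have hpr : p ^ r ≠ 0 := pow_ne_zero _ hp.ne_zero
  have hsupp : Disjoint (p ^ r).factorization.support m.factorization.support := by
    rw [Nat.support_factorization, Nat.support_factorization]
    exact Nat.Coprime.disjoint_primeFactors
      (Nat.Coprime.pow_left r ((Nat.Prime.coprime_iff_not_dvd hp).mpr hm))
  rw [eig, if_neg (mul_ne_zero hpr hm0), eig, if_neg hm0, Nat.factorization_mul hpr hm0,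
    Finsupp.prod_add_index_of_disjoint hsupp, hp.factorization_pow,
    Finsupp.prod_single_index rfl]

theorem eig_prime (A e : ℕ → R) {p : ℕ} (hp : p.Prime) : eig A e p = A p := by
  have h := eig_pow_mul A e hp 1 (m := 1) (fun h => hp.one_lt.ne' (Nat.dvd_one.mp h))
  rw [pow_one, mul_one, eig_one, mul_one] at h
  exact h

theorem eig_isEigensystem (A e : ℕ → R) : FormalHecke.IsEigensystem e (eig A e) := by
  refine ⟨eig_one A e, fun ℓ hℓ n => ?_⟩
  rw [eig_prime A e hℓ]
  rcases eq_or_ne n 0 with rfl | hn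
  · simp [eig_zero]
  obtain ⟨r, m, hm, rfl⟩ := Nat.exists_eq_pow_mul_and_not_dvd hn ℓ hℓ.ne_one
  have h1 : ℓ * (ℓ ^ r * m) = ℓ ^ (r + 1) * m := by ring
  rw [h1, eig_pow_mul A e hℓ _ hm, eig_pow_mul A e hℓ _ hm]
  rcases r with _ | r
  · rw [if_neg (by simpa using hm)]
    simp [loc]
  · have hd : ℓ ∣ ℓ ^ (r + 1) * m := (dvd_pow_self ℓ (Nat.succ_ne_zero r)).mul_right m
    have h2 : ℓ ^ (r + 1) * m / ℓ = ℓ ^ r * m := by
      rw [pow_succ, mul_right_comm, Nat.mul_div_cancel _ hℓ.pos]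
    rw [if_pos hd, h2, eig_pow_mul A e hℓ _ hm]
    simp only [loc]
    ring

/-- an eigensystem is determined by its values at primes -/
theorem eigensystem_unique {e e' a b : ℕ → R} (ha : FormalHecke.IsEigensystem e a)
    (hb : FormalHecke.IsEigensystem e' b) (he : ∀ ℓ : ℕ, ℓ.Prime → e ℓ = e' ℓ)
    (h0 : a 0 = b 0) (h : ∀ ℓ : ℕ, ℓ.Prime → a ℓ = b ℓ) (n : ℕ) : a n = b n := by
  induction n using Nat.strong_induction_on with
  | _ n ih =>
    rcases Nat.eq_zero_or_pos n with rfl | hn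
    · exact h0
    rcases eq_or_ne n 1 with rfl | hn1
    · rw [ha.1, hb.1]
    have hp : n.minFac.Prime := Nat.minFac_prime hn1
    obtain ⟨m, hm⟩ := Nat.minFac_dvd n
    have hm0 : 0 < m := by
      rcases Nat.eq_zero_or_pos m with rfl | h'
      · rw [mul_zero] at hm
        omega
      · exact h'
    have hmn : m < n := by
      calc m < n.minFac * m := lt_mul_of_one_lt_left hm0 hp.one_lt
        _ = n := hm.symm
    have h1 := ha.2 _ hp m
    have h2 := hb.2 _ hp m
    rw [← hm] at h1 h2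
    have h3 : (if n.minFac ∣ m then a (m / n.minFac) else 0) =
        (if n.minFac ∣ m then b (m / n.minFac) else 0) := by
      split_ifs
      · exact ih _ ((Nat.div_le_self _ _).trans_lt hmn)
      · rfl
    rw [h3, he _ hp, h _ hp, ih m hmn] at h1
    exact add_right_cancel (h1.trans h2.symm)

theorem isEigensystem_map {S : Type*} [CommRing S] (φ : R →+* S) {e a : ℕ → R}
    (h : FormalHecke.IsEigensystem e a) :
    FormalHecke.IsEigensystem (fun n => φ (e n)) (fun n => φ (a n)) := by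
  refine ⟨by show φ (a 1) = 1; rw [h.1, map_one], fun ℓ hℓ n => ?_⟩
  have h1 := congrArg φ (h.2 ℓ hℓ n)
  rw [map_add, map_mul, map_mul] at h1
  rw [← h1]
  congr 2
  split_ifs
  · rfl
  · rw [map_zero]

end Formal

/-! ### Depletion -/

section Deplete

variable {N : ℕ} [NeZero N]

theorem exists_deplete {f : CuspForm (Gamma0 N) 2} (hf : f.IsNormalizedEigenform) (d : ℕ) :
    d ≠ 0 → (∀ p : ℕ, p.Prime → p ∣ d → p ∣ N) →
    ∃ g : CuspForm (Gamma0 (N * d)) 2, ∀ n : ℕ,
      qCoeff ⇑g n = if n.Coprime d then qCoeff ⇑f n else 0 := by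
  induction d using induction_on_primes with
  | zero => exact fun h => absurd rfl h
  | one =>
    intro _ _
    have : NeZero (N * 1) := ⟨by rw [mul_one]; exact NeZero.ne N⟩
    refine ⟨levelIncl 2 (dvd_mul_right N 1) f, fun n => ?_⟩
    rw [qCoeff_levelIncl, if_pos (Nat.coprime_one_right n)]
  | prime_mul p d hp ih =>
    intro hd0 hdN
    have hd : d ≠ 0 := right_ne_zero_of_mul hd0
    obtain ⟨g, hg⟩ := ih hd fun q hq hqd => hdN q hq (hqd.mul_left p)
    have hpN : p ∣ N := hdN p hp (dvd_mul_right p d)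
    have hN0 : N ≠ 0 := NeZero.ne N
    have i1 : NeZero (N * d) := ⟨mul_ne_zero hN0 hd⟩
    have i2 : NeZero (N * (p * d)) := ⟨mul_ne_zero hN0 hd0⟩
    by_cases hpd : p ∣ d
    · refine ⟨levelIncl 2 ⟨p, by ring⟩ g, fun n => ?_⟩
      have hiff : n.Coprime (p * d) ↔ n.Coprime d := by
        rw [Nat.coprime_mul_iff_right]
        refine ⟨fun h => h.2, fun h => ⟨h.coprime_dvd_right hpd, h⟩⟩
      rw [qCoeff_levelIncl, hg]
      simp only [hiff]
    · have hlev : N * d * p ∣ N * (p * d) := ⟨1, by ring⟩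
      refine ⟨stab hp.ne_zero hlev (qCoeff ⇑f p) g, fun n => ?_⟩
      rw [qCoeff_stab, hg, hg]
      by_cases hpn : p ∣ n
      · obtain ⟨m, rfl⟩ := hpn
        have hcop : p.Coprime d := (Nat.Prime.coprime_iff_not_dvd hp).mpr hpd
        have h1 : ¬ (p * m).Coprime (p * d) := by
          intro h
          have h2 : p ∣ Nat.gcd (p * m) (p * d) :=
            Nat.dvd_gcd (dvd_mul_right _ _) (dvd_mul_right _ _)
          rw [h] at h2
          exact hp.one_lt.ne' (Nat.dvd_one.mp h2)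
        have h2 : (p * m).Coprime d ↔ m.Coprime d := by
          rw [Nat.coprime_mul_iff_left]
          exact ⟨fun h => h.2, fun h => ⟨hcop, h⟩⟩
        have h3 : qCoeff ⇑f (p * m) = qCoeff ⇑f p * qCoeff ⇑f m := by
          rcases eq_or_ne m 0 with rfl | hm
          · rw [mul_zero, qCoeff_zero, mul_zero]
          · exact qCoeff_mul_of_dvd hf hp hpN m hm
        rw [if_neg h1, if_pos (dvd_mul_right p m), Nat.mul_div_cancel_left _ hp.pos]
        simp only [h2]
        split_ifs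
        · rw [h3, sub_self]
        · rw [mul_zero, sub_zero]
      · have h1 : n.Coprime (p * d) ↔ n.Coprime d := by
          rw [Nat.coprime_mul_iff_right]
          exact ⟨fun h => h.2, fun h =>
            ⟨((Nat.Prime.coprime_iff_not_dvd hp).mpr hpn).symm, h⟩⟩
        rw [if_neg hpn, sub_zero]
        simp only [h1]

omit [NeZero N] in
/-- the depleted coefficients form a formal eigensystem -/
theorem isEigensystem_deplete {f : CuspForm (Gamma0 N) 2} (hf : f.IsNormalizedEigenform)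
    {c : ℕ → ℂ} (hc : ∀ n, c n = if n.Coprime N then qCoeff ⇑f n else 0) :
    FormalHecke.IsEigensystem (fun ℓ => if ℓ ∣ N then 0 else (ℓ : ℂ)) c := by
  refine ⟨by rw [hc, if_pos (Nat.coprime_one_left N), hf.qCoeff_one], fun ℓ hℓ n => ?_⟩
  by_cases hℓN : ℓ ∣ N
  · have h1 : ∀ m : ℕ, ¬ (ℓ * m).Coprime N := by
      intro m h
      have h2 : ℓ ∣ Nat.gcd (ℓ * m) N := Nat.dvd_gcd (dvd_mul_right _ _) hℓN
      rw [h] at h2
      exact hℓ.one_lt.ne' (Nat.dvd_one.mp h2)
    have h2 : ¬ ℓ.Coprime N := by simpa using h1 1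
    rw [hc (ℓ * n), if_neg (h1 n), hc ℓ, if_neg h2]
    simp only [hℓN, if_true, zero_mul, add_zero]
  · have hcop : ℓ.Coprime N := (Nat.Prime.coprime_iff_not_dvd hℓ).mpr hℓN
    have h1 : ∀ m : ℕ, (ℓ * m).Coprime N ↔ m.Coprime N := fun m => by
      rw [Nat.coprime_mul_iff_left]
      exact ⟨fun h => h.2, fun h => ⟨hcop, h⟩⟩
    rw [hc (ℓ * n), hc ℓ, if_pos hcop, hc n]
    simp only [hℓN, if_false, h1]
    rcases eq_or_ne n 0 with rfl | hn
    · simp [hc, qCoeff_zero]
    have h2 := qCoeff_mul_add hf hℓ hℓN n hn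
    by_cases hn' : n.Coprime N
    · rw [if_pos hn', if_pos hn', ← h2]
      congr 1
      by_cases hd : ℓ ∣ n
      · obtain ⟨m, rfl⟩ := hd
        rw [if_pos (dvd_mul_right _ _), if_pos (dvd_mul_right _ _),
          Nat.mul_div_cancel_left _ hℓ.pos, hc, if_pos ((h1 m).mp hn')]
      · rw [if_neg hd, if_neg hd, mul_zero]
    · rw [if_neg hn', if_neg hn', mul_zero, zero_add]
      by_cases hd : ℓ ∣ n
      · obtain ⟨m, rfl⟩ := hd
        rw [if_pos (dvd_mul_right _ _), Nat.mul_div_cancel_left _ hℓ.pos, hc,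
          if_neg fun h => hn' ((h1 m).mpr h), mul_zero]
      · rw [if_neg hd, mul_zero]

end Deplete

theorem not_cube_dvd_of_squarefree {N : ℕ} (hN : Squarefree N) {q : ℕ} (hq : q.Prime) :
    ¬ q ^ 3 ∣ N * N := by
  intro h
  have hN0 : N ≠ 0 := hN.ne_zero
  have h1 : 3 ≤ (N * N).factorization q :=
    (hq.pow_dvd_iff_le_factorization (mul_ne_zero hN0 hN0)).mp h
  rw [Nat.factorization_mul hN0 hN0, Finsupp.add_apply] at h1
  have h2 := hN.natFactorization_le_one q
  omega

theorem hasIntegralBasis (N : ℕ) [NeZero N] : CuspForm.HasIntegralBasis N := by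
  have h := Fermat.Agent.H23.hasIntegralStructure N 2
  rw [CuspForm.HasIntegralBasis, eq_top_iff, ← (show Submodule.span ℂ _ = ⊤ from h)]
  refine Submodule.span_mono fun g hg => ?_
  exact (Fermat.Agent.H71.mem_qIntegralSet_iff g).mpr
    ((Fermat.Agent.H71.mem_intLattice_iff g).mp hg)

/-- **S46 from modularity at exact level** -/
theorem weightOne_of_exact (W : WeierstrassCurve ℤ)
    (h : Mlc1IsModularModelOfExactConductorLevel W) :
    ∃ (N : ℕ) (_ : NeZero N) (a : ℕ → ℤ),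
      CuspForm.HasIntegralBasis N ∧
      FormalHecke.IsEigensystem
        (fun ℓ => if ℓ ∣ N then 0 else ((chiNegThree ℓ : ℤ) : ℤ)) a ∧
      CuspForm.IsLatticeRealized N a ∧
      (∀ q : ℕ, q.Prime → q ≠ 3 → ¬ q ^ 3 ∣ N) ∧
      ∀ ℓ : ℕ, ℓ.Prime → W.IsGoodPrimeFor ℓ → ¬ ℓ ∣ N → ℓ ≠ 3 →
        (3 : ℤ) ∣ (a ℓ - W.apOfModel ℓ) := by
  obtain ⟨N, hNpos, hsq, hdvd, f, hf, hfW⟩ := h
  have i0 : NeZero N := ⟨hNpos.ne'⟩
  have i1 : NeZero (N * N) := ⟨mul_ne_zero hNpos.ne' hNpos.ne'⟩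
  obtain ⟨g, hg⟩ := exists_deplete hf N hNpos.ne' fun _ _ h => h
  -- the prime values
  set A : ℕ → ℤ := fun ℓ => if ℓ ∣ N then 0 else W.apOfModel ℓ with hA
  set a : ℕ → ℤ := eig A fun ℓ => if ℓ ∣ N * N then 0 else ((chiNegThree ℓ : ℤ) : ℤ) with ha
  set af : ℕ → ℤ := eig A fun ℓ => if ℓ ∣ N then 0 else (ℓ : ℤ) with haf
  have hafg : ∀ n, (af n : ℂ) = qCoeff ⇑g n := by
    have h1 : FormalHecke.IsEigensystem (fun ℓ => if ℓ ∣ N then 0 else (ℓ : ℂ))
        (fun n => qCoeff ⇑g n) := isEigensystem_deplete hf hg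
    have h2 := isEigensystem_map (Int.castRingHom ℂ)
      (eig_isEigensystem A fun ℓ => if ℓ ∣ N then 0 else (ℓ : ℤ))
    refine fun n => eigensystem_unique h2 h1 (fun ℓ _ => ?_) ?_ (fun ℓ hℓ => ?_) n
    · split_ifs <;> simp
    · rw [eig_zero, map_zero, qCoeff_zero]
    · rw [eig_prime _ _ hℓ, hg]
      by_cases hℓN : ℓ ∣ N
      · have h3 : ¬ ℓ.Coprime N := fun h => (Nat.Prime.coprime_iff_not_dvd hℓ).mp h hℓN
        simp [hA, hℓN, h3]
      · have h3 : ℓ.Coprime N := (Nat.Prime.coprime_iff_not_dvd hℓ).mpr hℓN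
        have h4 : W.IsGoodPrimeFor ℓ := fun h => hℓN ((hdvd ℓ hℓ).mpr h)
        rw [if_pos h3, hfW ℓ hℓ h4 hℓN]
        simp [hA, hℓN]
  have hcong : ∀ n, (3 : ℤ) ∣ af n - a n := by
    have h1 := isEigensystem_map (Int.castRingHom (ZMod 3))
      (eig_isEigensystem A fun ℓ => if ℓ ∣ N then 0 else (ℓ : ℤ))
    have h2 := isEigensystem_map (Int.castRingHom (ZMod 3))
      (eig_isEigensystem A fun ℓ => if ℓ ∣ N * N then 0 else ((chiNegThree ℓ : ℤ) : ℤ))
    intro n
    have h3 := eigensystem_unique h1 h2 (fun ℓ hℓ => ?_) (by rw [eig_zero, eig_zero])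
      (fun ℓ hℓ => by rw [eig_prime _ _ hℓ, eig_prime _ _ hℓ]) n
    · have h4 : ((af n - a n : ℤ) : ZMod 3) = 0 := by
        push_cast
        exact sub_eq_zero.mpr h3
      exact_mod_cast (ZMod.intCast_zmod_eq_zero_iff_dvd (af n - a n) 3).mp h4
    · have h5 : ℓ ∣ N * N ↔ ℓ ∣ N := by rw [hℓ.dvd_mul, or_self]
      simp only [h5]
      split_ifs
      · rfl
      · have h6 := Fermat.Agent.H71.three_dvd_natCast_sub_chiNegThree ℓ
        have h7 : (((ℓ : ℤ) - chiNegThree ℓ : ℤ) : ZMod 3) = 0 :=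
          (ZMod.intCast_zmod_eq_zero_iff_dvd _ 3).mpr (by exact_mod_cast h6)
        rw [Int.cast_sub, sub_eq_zero] at h7
        exact h7
  refine ⟨N * N, i1, a, hasIntegralBasis (N * N), eig_isEigensystem _ _, ?_,
    fun q hq _ => not_cube_dvd_of_squarefree hsq hq, fun ℓ hℓ hgood hℓN _ => ?_⟩
  · refine ⟨g, ?_, af, hafg, fun n => ?_⟩
    · rw [Fermat.Agent.H71.mem_qIntegralSet_iff]
      exact fun n => ⟨af n, (hafg n).symm⟩
    · have h1 := dvd_sub (hcong n) (Fermat.Agent.H71.three_dvd_coeff_bridgeProduct_sub a n)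
      rwa [sub_sub_sub_cancel_right] at h1
  · have h1 : ¬ ℓ ∣ N := fun h => hℓN (h.mul_right N)
    rw [ha, eig_prime _ _ hℓ, hA]
    simp [h1]

end Fermat.Agent.H71C
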