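import Fermat.Agent.H42Last
import Fermat.Agent.H71C46

/-!
# Reader's guide: residual modularity at 3 of all semistable curves (S50) and S46

Block LT-X (S38, S50, S59, S60) and S46, continuation of `GuideResidual`. Notes: section 3.6 and Appendix A.8
([228], [276], [186]).
Every proof is the citation of a theorem of the library. Sections 1-4 are in the closures of S38, S46, S50,
S59 and S60 (except: `even_modular` S01, S03, S04, S06, S45; `s50` only S50; `semistable_modular` not S50;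
`lifting_three_five` and `three_five_switch` also S01, S03, S04, S06, S45), section 5 in the closure of S46.

`GuideResidual` contains the modularity of `W[3]` for the semistable curves `W` with EVEN discriminant
(without the theorem of Langlands and Tunnell). With the modularity lifting theorem (GuideLifting) such
curves are modular, of the exact conductor level (`even_exact`, GuideEndgame). Here:

* sections 2-4: let `W` be semistable with odd discriminant. A member of the Hesse pencil of `W` with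
  suitable parameter (the 3-switch) or of the icosahedral family (the 5-switch) changes the reduction at 2
  without changing `W[3]` or `W[5]`. At most two 3-switches and one 5-switch lead to even discriminant, and
  lifting at 5 leads back from the 5-switch. So every semistable curve is congruent modulo 3 to a modular
  curve. This is S50, the form in which the theorem of Langlands and Tunnell enters Wiles' proof. With
  lifting at 3 and 5 the curve itself is modular.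
* section 5: S46, the eigensystem of weight one with coefficients in `ℤ` attached to `W[3]`, as far as it
  can be expressed by forms of weight two. (A true form of weight one, for the octahedral representation,
  is the subject of S47, see GuideOctahedral.)

**Notation.** `W.apOfModel ℓ` is `a_ℓ(W) = ℓ + 1 - #W(𝔽_ℓ)`, `W.IsGoodPrimeFor ℓ` means `ℓ ∤ Δ(W)`,
`W.IsSemistableModel` that no prime divides both `Δ(W)` and `c₄(W)`; `W.IsModularModelOfLevel N`: there is a
normalised eigenform of weight 2 on `Γ₀(N)` with `a_p(f) = a_p(W)` for the good primes `p ∤ N`;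
`W.IsResiduallyModularOfLevel p N`: the same modulo a maximal ideal above `p` of the ring of all algebraic
integers, for `ℓ ≠ p`. `W.ModRepIsIrreducible p`: `W[p]` has no stable line. `A.LiesOverPrime ℓ`: the
valuation subring `A` of the algebraic closure of `ℚ` is a place above `ℓ`, with inertia group
`A.inertiaSubgroupIn ℚ`. `qCoeff f n` is the `n`-th coefficient of `f`.

Authors of the texts: helper42 (sections 1, 4), 52 (section 2), 85 (section 3), 71 (section 5), 54. Authors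
of the library files: see NOTES.md.
-/

set_option autoImplicit false

noncomputable section

open WeierstrassCurve CuspForm ModularFormClass
open WeierstrassCurve.Affine WeierstrassCurve.Affine.Point
open EisensteinWeightOne FormalHecke CongruenceSubgroup
open scoped WeierstrassCurve.Affine

namespace Fermat.Agent.Guide.ResidualThree

open Fermat.Agent

/-! ## 1. The inputs: lifting at 3 and 5, curves with even discriminant -/

/-- **Modularity lifting at 3 and 5**, in the form used below: `W` semistable, `W[p]` irreducible and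
modular of a squarefree level, prime to `p` if `W` is good at `p`. Then `W` is modular of level the product
of its bad primes. See GuideLifting. File `H42Last` (from `H57S59sq`; the reduction of S59 to squarefree
levels is in `H52S59`). -/
theorem lifting_three_five (p : ℕ) (hp : p = 3 ∨ p = 5) (W : WeierstrassCurve ℤ) (hΔ : W.Δ ≠ 0)
    (hW : W.IsSemistableModel) (hirr : W.ModRepIsIrreducible p) (M : ℕ) [NeZero M]
    (hsq : Squarefree M) (hres : W.IsResiduallyModularOfLevel p M)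
    (hgood : W.IsGoodPrimeFor p → ¬ p ∣ M) :
    ∃ N : ℕ, 0 < N ∧ Squarefree N ∧ (∀ q : ℕ, q.Prime → (q ∣ N ↔ (q : ℤ) ∣ W.Δ)) ∧
      W.IsModularModelOfLevel N := by
  rcases hp with rfl | rfl
  exacts [H42X.lift_three W hΔ hW hirr M hsq hres hgood, H42X.lift_five W hΔ hW hirr M hsq hres hgood]

/-- **Semistable curves with even discriminant are modular.** From `Residual.even_discriminant` and lifting
at 3 if `W[3]` is irreducible; otherwise `W[5]` is irreducible (S51), the 3-5 switch gives a curve with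
even discriminant, the same 5-torsion and irreducible 3-torsion, and lifting at 5 leads back to `W`. Files
`H42XFinal`, `H42XClose`, `H42Last`. -/
theorem even_modular (W : WeierstrassCurve ℤ) (hΔ : W.Δ ≠ 0) (hW : W.IsSemistableModel)
    (h2 : (2 : ℤ) ∣ W.Δ) :
    ∃ N : ℕ, 0 < N ∧ Squarefree N ∧ (∀ q : ℕ, q.Prime → (q ∣ N ↔ (q : ℤ) ∣ W.Δ)) ∧
      W.IsModularModelOfLevel N :=
  H42X.even_exact W hΔ hW h2

/-- **The 3-5 switch.** For every semistable `W` there is a semistable `W'` with `W'[3]` irreducible,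
congruent to `W` modulo 5, such that `Δ(W)` divides `Δ(W')` (so `Δ(W')` is even if `Δ(W)` is) and `W'` is
good at 5 if `W` is. A member of the icosahedral family, found by Runge's method. See GuideSwitch (S51,
S52). Files `H52Switch`, `H42XSwitch5`. -/
theorem three_five_switch (W : WeierstrassCurve ℤ) (hΔ : W.Δ ≠ 0) (hW : W.IsSemistableModel) :
    ∃ W' : WeierstrassCurve ℤ, W.Δ ∣ W'.Δ ∧ W'.Δ ≠ 0 ∧ W'.IsSemistableModel ∧
      W'.ModRepIsIrreducible 3 ∧
      (∀ ℓ : ℕ, ℓ.Prime → W.IsGoodPrimeFor ℓ → W'.IsGoodPrimeFor ℓ → ℓ ≠ 5 →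
        (5 : ℤ) ∣ (W'.apOfModel ℓ - W.apOfModel ℓ)) ∧ ((5 : ℤ) ∣ W'.Δ → (5 : ℤ) ∣ W.Δ) :=
  H42X.s52Ext W hΔ hW

/-! ## 2. The 3-switch at the prime 2 -/

/-- **An integral equation with given even invariants** (a case of the criterion of Kraus): `c₄ = 16 a`,
`c₆ = 8 b` with `b ≡ 1` modulo 4. Used for the members of the Hesse pencil. File `H52XKraus`. -/
theorem integral_model_even (a b Δ : ℤ) (hrel : 27 * Δ = 64 * a ^ 3 - b ^ 2) (h2 : b % 4 = 1)
    (h3 : ¬ (3 : ℤ) ∣ b ∨ (27 : ℤ) ∣ b) :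
    ∃ W : WeierstrassCurve ℤ, W.c₄ = 16 * a ∧ W.c₆ = 8 * b ∧ W.Δ = Δ :=
  H52.exists_model_even a b Δ hrel h2 h3

/-- **The trace at 2 from `c₄` and `c₆`**, for an equation with good reduction at 2: `a₂ = -1` or `1` if `c₄`
is odd and `c₆ ≡ 7` or `3` modulo 8; `a₂ = 0` if `32 ∣ c₄` and `c₆ ≡ 8` modulo 32; `a₂ = -2` or `2` if
`c₄ ≡ 16` modulo 32 and `c₆ ≡ 40` or `8` modulo 64. There is no other case. Proof: a change of variables,
which keeps `c₄`, `c₆` and the trace, leads to `y² + xy = ...` or to `y² + y = ...` (the first and third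
coefficient are `1`, `0` or `0`, `1`); then one counts the points over `𝔽₂`. File `H52XTrace`. -/
theorem trace_at_two (W : WeierstrassCurve ℤ) (h2 : ¬ (2 : ℤ) ∣ W.Δ) :
    (W.c₄ % 2 = 1 ∧ W.c₆ % 8 = 7 ∧ W.apOfModel 2 = -1) ∨
      (W.c₄ % 2 = 1 ∧ W.c₆ % 8 = 3 ∧ W.apOfModel 2 = 1) ∨
      (W.c₄ % 32 = 0 ∧ W.c₆ % 32 = 8 ∧ W.apOfModel 2 = 0) ∨
      (W.c₄ % 32 = 16 ∧ W.c₆ % 64 = 40 ∧ W.apOfModel 2 = -2) ∨
      (W.c₄ % 32 = 16 ∧ W.c₆ % 64 = 8 ∧ W.apOfModel 2 = 2) := by
  rcases H52.redTwo W h2 with ⟨a, b, c⟩ | ⟨a, b, c⟩ | ⟨a, b, c⟩ | ⟨a, b, c⟩ | ⟨a, b, c⟩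
  exacts [.inl ⟨a, b, c⟩, .inr (.inl ⟨a, b, c⟩), .inr (.inr (.inl ⟨a, b, c⟩)),
    .inr (.inr (.inr (.inl ⟨a, b, c⟩))), .inr (.inr (.inr (.inr ⟨a, b, c⟩)))]

/-- **The trace at a prime `r > 3`** depends only on `c₄` and `c₆` modulo `r` (short Weierstrass form). File
`H52X1`. -/
theorem trace_from_invariants (W W' : WeierstrassCurve ℤ) (r : ℕ) (hr : r.Prime) (h2 : r ≠ 2)
    (h3 : r ≠ 3) (h4 : (r : ℤ) ∣ W'.c₄ - W.c₄) (h6 : (r : ℤ) ∣ W'.c₆ - W.c₆) :
    W'.apOfModel r = W.apOfModel r :=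
  H52.ap_congr_c W W' r hr h2 h3 h4 h6

/-- **Members of the Hesse pencil near `W`.** `P`, `C4`, `C6` (`H3LT`) are the forms of degree 4, 4, 6 of the
pencil of `W` with integral coefficients, see GuideGoodCurve; the parameter `(1 : 0)` belongs to `W`. Let `W`
be semistable and good at 2, `X + Y = 1`, `X ≡ 1` and `Y ≡ 0` modulo `M`, where `27`, `Δ(W)` and the odd
primes dividing `R` divide `M`, and let `W'` have the invariants `C4(X, Y)`, `C6(X, Y)` and
`Δ(W) P(X, Y)³`, with `C4(X, Y)` odd if `P(X, Y)` is even. Then `W'` is semistable; it is congruent to `W`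
modulo 3 (here without `ℓ = 2`, `3`); at the primes `r > 3` dividing `R` good reduction is kept and `a_r` is
the same; the invariants are those of `W` modulo `M`; and `W'` is good at 3 if `W` is. File `H52X1`. -/
theorem pencil_member (W W' : WeierstrassCurve ℤ) (hss : W.IsSemistableModel) (h2 : ¬ (2 : ℤ) ∣ W.Δ)
    (R : ℕ) (X Y M : ℤ) (hXY : X + Y = 1) (hXM : M ∣ X - 1) (hYM : M ∣ Y) (h27 : (27 : ℤ) ∣ M)
    (hΔM : W.Δ ∣ M) (hRM : ∀ r : ℕ, r.Prime → r ∣ R → r ≠ 2 → (r : ℤ) ∣ M)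
    (e4 : W'.c₄ = H3LT.C4 W X Y) (e6 : W'.c₆ = H3LT.C6 W X Y) (eΔ : W'.Δ = W.Δ * H3LT.P W X Y ^ 3)
    (hP2 : (2 : ℤ) ∣ H3LT.P W X Y → ¬ (2 : ℤ) ∣ H3LT.C4 W X Y) :
    W'.IsSemistableModel ∧ W'.Δ ≠ 0 ∧
      (∀ ℓ : ℕ, ℓ.Prime → ℓ ≠ 2 → ℓ ≠ 3 → W.IsGoodPrimeFor ℓ → W'.IsGoodPrimeFor ℓ →
        (3 : ℤ) ∣ W'.apOfModel ℓ - W.apOfModel ℓ) ∧
      (∀ r : ℕ, r.Prime → r ∣ R → r ≠ 2 → r ≠ 3 →
        (¬ (r : ℤ) ∣ W.Δ → ¬ (r : ℤ) ∣ W'.Δ) ∧ W'.apOfModel r = W.apOfModel r) ∧
      (M ∣ W'.c₄ - W.c₄ ∧ M ∣ W'.c₆ - W.c₆) ∧ ((3 : ℤ) ∣ W'.Δ → (3 : ℤ) ∣ W.Δ) :=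
  H52.of_member W W' hss h2 R X Y M hXY hXM hYM h27 hΔM hRM e4 e6 eΔ hP2

/-- **The parameter.** `X`, `Y`, `M` as in `pencil_member` exist with `64 ∣ X`: near 2 the parameter is
`(0 : 1)`, where the three forms have the values below. File `H52X1`. -/
theorem choice_of_parameter (W : WeierstrassCurve ℤ) (h2 : ¬ (2 : ℤ) ∣ W.Δ) (R : ℕ) (hR : 0 < R) :
    (∃ X Y M : ℤ, X + Y = 1 ∧ (64 : ℤ) ∣ X ∧ M ∣ X - 1 ∧ M ∣ Y ∧ (27 : ℤ) ∣ M ∧ W.Δ ∣ M ∧
      ∀ r : ℕ, r.Prime → r ∣ R → r ≠ 2 → (r : ℤ) ∣ M) ∧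
    H3LT.P W 0 1 = 27 * W.b₈ ∧ H3LT.C4 W 0 1 = 729 * W.b₆ ^ 2 - 648 * W.b₄ * W.b₈ ∧
    H3LT.C6 W 0 1 = 5832 * W.b₂ * W.b₈ ^ 2 - 26244 * W.b₄ * W.b₆ * W.b₈ + 19683 * W.b₆ ^ 3 := by
  obtain ⟨X, Y, M, h1, h2', h3, h4, h5, h6, h7, -⟩ := H52.exists_coords W.Δ h2 R hR
  exact ⟨⟨X, Y, M, h1, h2', h3, h4, h5, h6, h7⟩, H52.P_zero_one W, H52.C4_zero_one W, H52.C6_zero_one W⟩

/-- **The values at `(0 : 1)` modulo 64**, for the two normal forms of `W` at 2. In the first one
`a₂(W) = ±1`; the member exists by `integral_model_even`, and `a₂(W') = -2 a₂(W)` by `trace_at_two`. In the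
second one the member exists by Kraus' criterion for `c₆ ≡ 3` modulo 4 (GuideGoodCurve, `kraus`); it is bad
at 2 if `a₂(W) = 0`, and `a₂(W') = -a₂(W)/2` if `a₂(W) = ±2`. File `H52X1`. -/
theorem values_at_two (W : WeierstrassCurve ℤ) :
    (W.a₁ = 1 → W.a₃ = 0 → ¬ (2 : ℤ) ∣ W.Δ → H3LT.P W 0 1 % 2 = 1 ∧ H3LT.C4 W 0 1 % 32 = 16 ∧
      ((W.c₆ % 8 = 7 ∧ H3LT.C6 W 0 1 % 64 = 8) ∨ (W.c₆ % 8 = 3 ∧ H3LT.C6 W 0 1 % 64 = 40))) ∧
    (W.a₁ = 0 → W.a₃ = 1 → H3LT.C4 W 0 1 % 2 = 1 ∧ H3LT.C6 W 0 1 % 4 = 3 ∧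
      ((H3LT.P W 0 1 % 2 = 0 ∧ W.c₄ % 32 = 0) ∨
        (H3LT.P W 0 1 % 2 = 1 ∧ W.c₄ % 32 = 16 ∧ W.c₆ % 64 = 40 ∧ H3LT.C6 W 0 1 % 8 = 3) ∨
        (H3LT.P W 0 1 % 2 = 1 ∧ W.c₄ % 32 = 16 ∧ W.c₆ % 64 = 8 ∧ H3LT.C6 W 0 1 % 8 = 7))) :=
  ⟨H52.values_ord W, H52.values_ss W⟩

/-- **The 3-switch at the prime 2.** Let `W` be semistable with good reduction at 2 and `R ≥ 1`. There is a
semistable `W'`, congruent to `W` modulo 3, such that: `W'` is bad at 2 if `a₂(W) = 0`; `a₂(W') = -2 a₂(W)`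
if `a₂(W) = ±1`; `a₂(W') = -a₂(W)/2` if `a₂(W) = ±2`. At the primes `r > 3` dividing `R` the number `a_r`
does not change and good reduction is kept, and `W'` is good at 3 if `W` is. (The values `±2`, `±1`, `0`
are all the values of `a₂`.) The member of the Hesse pencil with the parameter of `choice_of_parameter`.
Files `H52XTrace`, `H52X1`. -/
theorem three_switch_at_two (W : WeierstrassCurve ℤ) (hss : W.IsSemistableModel)
    (h2 : ¬ (2 : ℤ) ∣ W.Δ) (R : ℕ) (hR : 0 < R) :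
    ∃ W' : WeierstrassCurve ℤ, W'.IsSemistableModel ∧ W'.Δ ≠ 0 ∧
      ((W.apOfModel 2 = 0 ∧ (2 : ℤ) ∣ W'.Δ) ∨
        ((W.apOfModel 2 = 1 ∨ W.apOfModel 2 = -1) ∧ ¬ (2 : ℤ) ∣ W'.Δ ∧
          W'.apOfModel 2 = -2 * W.apOfModel 2) ∨
        ((W.apOfModel 2 = 2 ∨ W.apOfModel 2 = -2) ∧ ¬ (2 : ℤ) ∣ W'.Δ ∧
          2 * W'.apOfModel 2 = -W.apOfModel 2)) ∧
      (∀ ℓ : ℕ, ℓ.Prime → ℓ ≠ 3 → W.IsGoodPrimeFor ℓ → W'.IsGoodPrimeFor ℓ →
        (3 : ℤ) ∣ W'.apOfModel ℓ - W.apOfModel ℓ) ∧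
      (∀ r : ℕ, r.Prime → r ∣ R → r ≠ 2 → r ≠ 3 →
        (¬ (r : ℤ) ∣ W.Δ → ¬ (r : ℤ) ∣ W'.Δ) ∧ W'.apOfModel r = W.apOfModel r) ∧
      ((3 : ℤ) ∣ W'.Δ → (3 : ℤ) ∣ W.Δ) := by
  obtain ⟨W', h3, h4, h5, h6, h7, -, h8⟩ := H52.switch_two' W hss h2 R hR
  exact ⟨W', h3, h4, by rcases h5 with ⟨a, b⟩ | ⟨a, b, c⟩ | ⟨a, b, c⟩ <;> tauto, h6, h7, h8⟩

/-! ## 3. The 5-switch at the prime 2 -/

/-- **Shape at 2.** Let `W` be a Weierstrass equation over `ℤ` with good reduction at `2` and `a₂(W) = ± 2`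
(the supersingular curves over `𝔽₂` with 1 or 5 points). Then `c₄(W) = 16 A` and `c₆(W) = 8 B` with `A` odd
and `B ≡ 1 mod 4`. (`H85XTwo`: a check of the 32 equations over `𝔽₂`.) -/
theorem invariants_of_trace_pm_two (W : WeierstrassCurve ℤ) (h2 : ¬ (2 : ℤ) ∣ W.Δ)
    (ha : W.apOfModel 2 = 2 ∨ W.apOfModel 2 = -2) :
    ∃ A B : ℤ, W.c₄ = 16 * A ∧ W.c₆ = 8 * B ∧ A % 2 = 1 ∧ B % 4 = 1 :=
  H85.X.exists_AB W h2 ha

/-- **The family of curves with the same 5-torsion near a cusp.** `FD`, `F20`, `F30` are explicit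
polynomials with integral coefficients in `A, B, s` of degrees 12, 20, 30 in `s` (`H85XPoly`; they are
Klein's forms of the icosahedron, taken at `t = s / 4`, see `H98Family`). Identity: the curve with
invariants `c₄ = F20`, `c₆ = F30` has discriminant `Δ · FD⁵`, where `1728 Δ = (16 A)³ - (8 B)²`. -/
theorem five_family_relation (A B s : ℤ) :
    H85.X.F20 A B s ^ 3 - H85.X.F30 A B s ^ 2 = ((16 * A) ^ 3 - (8 * B) ^ 2) * H85.X.FD A B s ^ 5 :=
  H85.X.F_relation A B s

/-- **The family at 2.** For odd `A`, `B ≡ 1 mod 4` and odd `s`: `FD` is even, `F20` is odd and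
`F30 ≡ 3 mod 4`. So the new curve has multiplicative reduction at `2`, and `F20`, `F30` satisfy the
condition of Kraus at `2`. (`H85XPoly`.) -/
theorem five_family_at_two {A B s : ℤ} (hA : A % 2 = 1) (hB : B % 4 = 1) (hs : s % 2 = 1) :
    (2 : ℤ) ∣ H85.X.FD A B s ∧ ¬ (2 : ℤ) ∣ H85.X.F20 A B s ∧ H85.X.F30 A B s % 4 = 3 :=
  ⟨H85.X.FD_even hA (by omega) hs, H85.X.F20_odd hA (by omega) hs, H85.X.F30_mod_four hA hB hs⟩

/-- **The family near the old curve.** If `M` divides `s`, then `FD ≡ 1`, `F20 ≡ 16 A`, `F30 ≡ 8 B`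
modulo `M`: at the primes dividing `s` the new curve is close to the old one. (`H85XPoly`; the
switch takes `s = 4455 Δ`, `4455 = 3⁴ · 5 · 11`.) -/
theorem five_family_congruences {A B s M : ℤ} (h : M ∣ s) :
    M ∣ H85.X.FD A B s - 1 ∧ M ∣ H85.X.F20 A B s - 16 * A ∧ M ∣ H85.X.F30 A B s - 8 * B :=
  ⟨H85.X.FD_congr h, H85.X.F20_congr h, H85.X.F30_congr h⟩

/-- **Semistability of the new curve.** A prime which divides `FD` and does not divide `30 · 1728 Δ`
does not divide `F20`: the resultants of Klein's forms. (`H85XSwitch`, from `H98NoRoot`.) -/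
theorem five_family_semistable {p : ℕ} (hp : p.Prime) (A B s : ℤ) (hpD : (p : ℤ) ∣ H85.X.FD A B s)
    (hp30 : ¬ (p : ℤ) ∣ 30 * ((16 * A) ^ 3 - (8 * B) ^ 2)) : ¬ (p : ℤ) ∣ H85.X.F20 A B s :=
  H85.X.not_dvd_F20 hp A B s hpD hp30

/-- **An integral equation with given invariants, with control at 3** (a case of the criterion of
Kraus). Let `1728 Δ = c₄³ - c₆²` with `c₆ ≡ 3 mod 4`, and let `c₄ ≡ c₄(W)`, `c₆ ≡ c₆(W)` modulo `81`
for an integral equation `W`. Then there is an integral equation `W'` with invariants `c₄, c₆, Δ`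
and `b₂, b₄, b₆` congruent to those of `W` modulo 3. (`H85XKr`.) -/
theorem exists_model_with_invariants (W : WeierstrassCurve ℤ) (c4 c6 Δ : ℤ)
    (hrel : 1728 * Δ = c4 ^ 3 - c6 ^ 2) (h2 : c6 % 4 = 3) (h4 : (81 : ℤ) ∣ c4 - W.c₄)
    (h6 : (81 : ℤ) ∣ c6 - W.c₆) :
    ∃ W' : WeierstrassCurve ℤ, W'.c₄ = c4 ∧ W'.c₆ = c6 ∧ W'.Δ = Δ ∧
      (3 : ℤ) ∣ W'.b₂ - W.b₂ ∧ (3 : ℤ) ∣ W'.b₄ - W.b₄ ∧ (3 : ℤ) ∣ W'.b₆ - W.b₆ :=
  H85.X.exists_model_near W c4 c6 Δ hrel h2 h4 h6

/-- **The trace at 3** depends only on `b₂, b₄, b₆` modulo 3. (`H85XKr`.) -/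
theorem trace_at_three (W W' : WeierstrassCurve ℤ) (h2 : (3 : ℤ) ∣ W'.b₂ - W.b₂)
    (h4 : (3 : ℤ) ∣ W'.b₄ - W.b₄) (h6 : (3 : ℤ) ∣ W'.b₆ - W.b₆) :
    W'.apOfModel 3 = W.apOfModel 3 :=
  H85.X.apOfModel_three_eq W W' h2 h4 h6

/-- **The 5-switch at the prime 2.** A semistable curve `W` with good reduction at 2 and `a₂ = ±2` is
congruent modulo 5 to a semistable `W'` with even discriminant, `Δ(W) ∣ Δ(W')`, and good at 5 if `W` is.
The member of the icosahedral family with parameter `4455 Δ / 4`. Files `H85XPoly`, `H85XTwo`, `H85XKr`,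
`H85XSwitch`, `H42XSwitch5`. -/
theorem five_switch_at_two (W : WeierstrassCurve ℤ) (hW : W.IsSemistableModel)
    (h2 : ¬ (2 : ℤ) ∣ W.Δ) (ha : W.apOfModel 2 = 2 ∨ W.apOfModel 2 = -2) :
    ∃ W' : WeierstrassCurve ℤ, W'.Δ ≠ 0 ∧ W'.IsSemistableModel ∧ (2 : ℤ) ∣ W'.Δ ∧ W.Δ ∣ W'.Δ ∧
      (∀ ℓ : ℕ, ℓ.Prime → W.IsGoodPrimeFor ℓ → W'.IsGoodPrimeFor ℓ → ℓ ≠ 5 →
        (5 : ℤ) ∣ (W'.apOfModel ℓ - W.apOfModel ℓ)) ∧
      ((5 : ℤ) ∣ W'.Δ → (5 : ℤ) ∣ W.Δ) :=
  H42X.x2Ext W hW h2 ha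

/-! ## 4. All semistable curves; S50 -/

/-- If `a_ℓ² - 4 ℓ` is not a square mod `p` for ONE good prime `ℓ ≠ p` (the Frobenius at `ℓ` has no
eigenvector in `W[p]`), then `W[p]` is irreducible. File `H42XGal`. -/
theorem irreducible_of_frobenius {W : WeierstrassCurve ℤ} {p : ℕ} [Fact p.Prime] (hΔ : W.Δ ≠ 0)
    {ℓ : ℕ} (hℓ : ℓ.Prime) (hg : W.IsGoodPrimeFor ℓ) (hne : ℓ ≠ p)
    (hns : ¬ IsSquare (((W.apOfModel ℓ : ZMod p)) ^ 2 - 4 * (ℓ : ZMod p))) :
    W.ModRepIsIrreducible p :=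
  H42X.irr_of_frob hΔ hℓ hg hne hns

/-- **Every semistable curve is congruent modulo 3 to a modular curve** (modular of its exact conductor
level). If `Δ(W)` is even take `W` itself. If `a₂(W) = 0` the 3-switch leads to even discriminant. If
`a₂(W) = ±1`, then `a₂² - 4 · 2` is not a square modulo 5; take another good prime `r > 5` with this
property and keep `a_r` in the 3-switch: it gives `W'` with `a₂(W') = ∓2` and irreducible 5-torsion; the
5-switch leads from `W'` to even discriminant, and lifting at 5 shows that `W'` is modular. If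
`a₂(W) = ±2`, a 3-switch leads to `a₂ = ∓1`. (The congruences for `W[3]` are known first at the primes
which are good for all curves of the chain; by the density theorem they hold at all common good primes of
the two ends, `H42XGal`.) File `H42XMain`. -/
theorem modular_partner (W : WeierstrassCurve ℤ) (hΔ : W.Δ ≠ 0) (hW : W.IsSemistableModel) :
    ∃ W' : WeierstrassCurve ℤ, W'.Δ ≠ 0 ∧
      (∃ N : ℕ, 0 < N ∧ Squarefree N ∧ (∀ q : ℕ, q.Prime → (q ∣ N ↔ (q : ℤ) ∣ W'.Δ)) ∧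
        W'.IsModularModelOfLevel N) ∧
      (∀ ℓ : ℕ, ℓ.Prime → W.IsGoodPrimeFor ℓ → W'.IsGoodPrimeFor ℓ → ℓ ≠ 3 →
        (3 : ℤ) ∣ W'.apOfModel ℓ - W.apOfModel ℓ) ∧
      ((3 : ℤ) ∣ W'.Δ → (3 : ℤ) ∣ W.Δ) :=
  H42X.exists_modular_partner (H42X.evenExact_of H42X.lt_even_sq H42X.lift_three H42X.lift_five)
    H42X.lift_five H42X.x1Ext H42X.x2Ext W hΔ hW

/-- **Residual modularity at 3 of every semistable curve**, of a squarefree level prime to 3 if `W` is good
at 3. File `H42XMain`. -/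
theorem residual_three (W : WeierstrassCurve ℤ) (hΔ : W.Δ ≠ 0)
    (hW : W.IsSemistableModel) :
    ∃ N : ℕ, 0 < N ∧ Squarefree N ∧ W.IsResiduallyModularOfLevel 3 N ∧
      (W.IsGoodPrimeFor 3 → ¬ 3 ∣ N) :=
  H42X.residual_three (H42X.evenExact_of H42X.lt_even_sq H42X.lift_three H42X.lift_five)
    H42X.lift_five H42X.x1Ext H42X.x2Ext W hΔ hW

/-- **Every semistable curve is modular**, of level the product of its bad primes (this is stronger than
S60). Residual modularity at 3 and lifting if `W[3]` is irreducible; otherwise `W[5]` is irreducible (S51)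
and the 3-5 switch gives a semistable curve with irreducible 3-torsion and the same 5-torsion. File
`H42XFinal`. -/
theorem semistable_modular (W : WeierstrassCurve ℤ) (hΔ : W.Δ ≠ 0) (hW : W.IsSemistableModel) :
    ∃ N : ℕ, 0 < N ∧ Squarefree N ∧ (∀ q : ℕ, q.Prime → (q ∣ N ↔ (q : ℤ) ∣ W.Δ)) ∧
      W.IsModularModelOfLevel N :=
  H42X.exact_final H42X.lt_even_sq H42X.lift_three H42X.lift_five W hΔ hW

/-- **S50** (in the closure of S50; the form in which the theorem of Langlands and Tunnell enters Wiles'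
proof): if `W[3]` is irreducible, it is modular of a level which is cube-free away from 3, and if the level
is divisible by 9, the inertia groups at 3 have no fixed points `≠ 0` in `W[3]`. (The level found here is
squarefree.) File `H42XFinal`. -/
theorem s50 (W : WeierstrassCurve ℤ) (hΔ : W.Δ ≠ 0) (hW : W.IsSemistableModel)
    (h3 : W.ModRepIsIrreducible 3) :
    ∃ M : ℕ, 0 < M ∧ W.IsResiduallyModularOfLevel 3 M ∧
      (∀ q : ℕ, q.Prime → q ≠ 3 → ¬ q ^ 3 ∣ M) ∧
      (3 ^ 2 ∣ M →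
        ∀ A : ValuationSubring (AlgebraicClosure ℚ), A.LiesOverPrime 3 →
          ∀ x : Submodule.torsionBy ℤ
              ((W.map (Int.castRingHom ℚ))⁄(AlgebraicClosure ℚ)).Point (3 : ℕ),
            (∀ σ ∈ A.inertiaSubgroupIn ℚ, σ • x = x) → x = 0) :=
  H42X.S50_final H42X.lt_even_sq H42X.lift_three H42X.lift_five W hΔ hW h3

/-! ## 5. S46: the eigensystem of weight one -/

/-- **Depletion** (`H71C46`). Let `f` be a normalised eigenform of weight two and level `Γ₀(N)` and let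
`d ≠ 0` have only prime factors which divide `N`. There is a cusp form `g` of level `Γ₀(N d)` whose
`n`-th coefficient is that of `f` if `n` is prime to `d`, and `0` otherwise. Proof by induction on the
prime factors `p` of `d`: one step is `g(z) - a_p(f) g(p z)`, because `a_{pm}(f) = a_p(f) a_m(f)` for
`p ∣ N`. -/
theorem s46_deplete {N : ℕ} [NeZero N] {f : CuspForm (Gamma0 N) 2} (hf : f.IsNormalizedEigenform)
    (d : ℕ) (hd : d ≠ 0) (hdN : ∀ p : ℕ, p.Prime → p ∣ d → p ∣ N) :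
    ∃ g : CuspForm (Gamma0 (N * d)) 2, ∀ n : ℕ,
      qCoeff ⇑g n = if n.Coprime d then qCoeff ⇑f n else 0 :=
  H71C.exists_deplete hf d hd hdN

/-- **Formal eigensystems.** `FormalHecke.IsEigensystem e a` says `a 1 = 1` and
`a (ℓ n) + e ℓ * a (n / ℓ) = a ℓ * a n` for all primes `ℓ` (the second term only if `ℓ ∣ n`). -/
theorem s46_isEigensystem_iff {R : Type*} [CommRing R] (e a : ℕ → R) :
    FormalHecke.IsEigensystem e a ↔ a 1 = 1 ∧ ∀ ℓ : ℕ, ℓ.Prime → ∀ n : ℕ,
      a (ℓ * n) + e ℓ * (if ℓ ∣ n then a (n / ℓ) else 0) = a ℓ * a n :=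
  Iff.rfl

/-- A formal eigensystem is determined by `a 0` and its values at the primes (`H71C46`; induction with the
least prime factor, over any commutative ring). Used over `ℂ` (the coefficients of the depleted form
are rational integers) and over `ZMod 3` (weight two and weight one systems are congruent). -/
theorem s46_eigensystem_unique {R : Type*} [CommRing R] {e e' a b : ℕ → R}
    (ha : FormalHecke.IsEigensystem e a) (hb : FormalHecke.IsEigensystem e' b)
    (he : ∀ ℓ : ℕ, ℓ.Prime → e ℓ = e' ℓ) (h0 : a 0 = b 0)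
    (h : ∀ ℓ : ℕ, ℓ.Prime → a ℓ = b ℓ) (n : ℕ) : a n = b n :=
  H71C.eigensystem_unique ha hb he h0 h n

/-- **Realisation in weight two.** `IsLatticeRealized N a`: there is a form of `S₂(Γ₀(N))` with rational
integral coefficients which are congruent modulo `3` to those of the product of `∑ a n qⁿ` and the
Eisenstein series `E_{1,χ}`, `χ = chi_{-3}` (`bridgeProduct a`). -/
theorem s46_isLatticeRealized_iff (N : ℕ) (a : ℕ → ℤ) : CuspForm.IsLatticeRealized N a ↔
    ∃ f : CuspForm (Gamma0 N) 2, f ∈ CuspForm.qIntegralSet N ∧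
      ∃ af : ℕ → ℤ, (∀ n, (af n : ℂ) = ModularFormClass.qCoeff f n) ∧
        ∀ n, (3 : ℤ) ∣ af n - (bridgeProduct a).coeff n :=
  Iff.rfl

/-- **S46.** Let `W` be semistable. There are a cube-free level `N` (the square of the product of the bad
primes) and integers `a n` such that `S₂(Γ₀(N))` has a basis with integral coefficients, `a` satisfies the
Hecke relations of weight ONE with the character `chi_{-3}`, the product of `∑ a n qⁿ` with the Eisenstein
series of weight one is congruent modulo 3 to a cusp form of weight two and level `Γ₀(N)`, and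
`a ℓ ≡ a_ℓ(W)` modulo 3. Proof: `W` is modular at its exact level; deplete the eigenform at the bad primes;
because `ℓ ≡ chi_{-3}(ℓ)` modulo 3 the systems of weight two and of weight one with the same values at the
primes are congruent, and the Eisenstein series is congruent to 1 modulo 3, so it does not change the
coefficients modulo 3. (A true form of weight one in characteristic zero is the subject of S47, see
GuideOctahedral.) File `H71C46`. -/
theorem s46 (W : WeierstrassCurve ℤ) (hΔ : W.Δ ≠ 0) (hW : W.IsSemistableModel) :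
    ∃ (N : ℕ) (_ : NeZero N) (a : ℕ → ℤ),
      CuspForm.HasIntegralBasis N ∧
      FormalHecke.IsEigensystem (fun ℓ => if ℓ ∣ N then 0 else ((chiNegThree ℓ : ℤ) : ℤ)) a ∧
      CuspForm.IsLatticeRealized N a ∧
      (∀ q : ℕ, q.Prime → q ≠ 3 → ¬ q ^ 3 ∣ N) ∧
      ∀ ℓ : ℕ, ℓ.Prime → W.IsGoodPrimeFor ℓ → ¬ ℓ ∣ N → ℓ ≠ 3 →
        (3 : ℤ) ∣ (a ℓ - W.apOfModel ℓ) :=
  H71C.weightOne_of_exact W
    (H42X.exact_final H42X.lt_even_sq H42X.lift_three H42X.lift_five W hΔ hW)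

end Fermat.Agent.Guide.ResidualThree
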