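import Fermat.Agent.H3RR_Special

/-!
# Reader's guide: the proof of the theorem of Riemann and Roch (library)

Every theorem of this file is proved by citing a theorem of the library; nothing here is used by any
other file. Editor: helper10. The library files `H3RR_*` were written by helper3 and are used in the
proofs of 33 of the 60 statements (S01 included); the main results (degree of a divisor of a function,
genus, Riemann-Roch, nonspecial divisors) are stated in section 1 of the guide FunctionField, here are
the steps between them.

**Setting.** `K` is an algebraically closed field of any characteristic and `F` a function field in one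
variable over `K` (`IsFF K F`: a finite extension of `K(x)`, `x` transcendental). A place `v` of `F`
is a discrete valuation ring with `K ⊂ v ⊂ F`. Its valuation is written multiplicatively:
`v.adicValuation f ≤ exp n` means `f = 0` or `v.ord f ≥ -n`; so `v.adicValuation f ≤ 1` says that `f`
is regular at `v` and `v.adicValuation f < 1` that `f` has a zero at `v`. There is no curve, no
projective embedding and no differential form: only valuations and linear algebra.

**Proof** (A. Weil).
1. Functions separate places; valuation rings of `F/K` are discrete, because elements of different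
   values between `|y|` and `1` are independent over `K(y)`; every transcendental function has a zero.
2. `∑ ord_v(y) ≤ [F : K(y)]` over the zeros of `y`, since functions which are independent near the
   zeros are independent over `K(y)`. Conversely `L(r (y)_∞ + C)` has dimension at least
   `[F : K(y)] (r + 1)`. So the number of poles is `[F : K(y)]` and functions have degree zero.
3. Repartitions: `H¹(D)` and the exact sequence for `D ≤ D + v`. `deg D - dim L(D)` is bounded above
   (theorem of Riemann), so it has a maximum, and there `H¹` vanishes; hence all `H¹(D)` are finite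
   dimensional and `dim L(D) - dim H¹(D) = deg D + 1 - g` with `g = dim H¹(0)`.
4. Weil differentials are the linear forms on repartitions which vanish on `F` and on the repartitions
   bounded by some `D`. They form a space of dimension one over `F`, and each of them has a divisor;
   this identifies the dual of `H¹(D)` with `L(W - D)`.
5. A general place imposes one condition on `L(D)`; effective representatives of classes.

Details: NOTES.md, Appendix A.3, note [268]. References: A. Weil, J. Reine Angew. Math. 179 (1938);
H. Stichtenoth, *Algebraic function fields and codes*, chapter I; J.-P. Serre, *Groupes algébriques et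
corps de classes*, chapter II.
-/

set_option autoImplicit false

namespace Fermat.Agent.Guide.RiemannRoch

open AlgebraicCurve IntermediateField WithZero Polynomial
open Fermat.Agent.H3RR (IsFF)

variable {K F : Type*} [Field K] [Field F] [Algebra K F]

/-! ## 1. Places -/

/-- **Two places are separated** by a function with a pole at one and a zero at the other (a discrete
valuation ring is a maximal proper subring). File `H3RR_Places`. -/
theorem exists_separating {v w : Place K F} (h : v ≠ w) :
    ∃ f : F, 1 < v.adicValuation f ∧ w.adicValuation f < 1 :=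
  H3RR.exists_lt_one_lt h

/-- **Approximate idempotents.** For a place `v` outside a finite set `S` of places there is `f` which
is close to `1` at `v` and close to `0` at the places of `S`: take `g` with a pole at `v` and zeros in
`S` and `f = g^n / (1 + g^n)`. Weak approximation follows. File `H3RR_Places`. -/
theorem exists_near_idempotent (v : Place K F) (S : Finset (Place K F)) (hv : v ∉ S) (m : ℤ) :
    ∃ f : F, v.adicValuation (f - 1) ≤ exp (-m) ∧ ∀ w ∈ S, w.adicValuation f ≤ exp (-m) :=
  H3RR.exists_near_idempotent v S hv m

/-- **Criterion for independence over `K(y)`**: it is enough to exclude relations `∑ p_i(y) z_i = 0`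
with polynomials `p_i` which are not all divisible by the variable. File `H3RR_FF`. -/
theorem linearIndependent_of_poly {y : F} (hy : Transcendental K y) {ι : Type*} [Fintype ι]
    (z : ι → F)
    (h : ∀ p : ι → K[X], ∑ i, aeval y (p i) * z i = 0 → (∃ i, (p i).coeff 0 ≠ 0) → False) :
    LinearIndependent K⟮y⟯ z :=
  H3RR.linearIndependent_of_poly hy z h

/-- **Chains of values.** Let `A` be a valuation ring of `F` which contains `K`, and let
`y = x_0, x_1, ..., x_n` be elements of its maximal ideal with increasing values
`|x_0| < |x_1| < ... < |x_n| < 1`. Then they are independent over `K(y)`, so `n + 1 ≤ [F : K(y)]`.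
Hence there is a largest value `< 1`, and `A` is principal. File `H3RR_FF`. -/
theorem chain_bound (A : ValuationSubring F) (hK : ∀ a : K, algebraMap K F a ∈ A) {y : F}
    (hy : Transcendental K y) [FiniteDimensional K⟮y⟯ F] (n : ℕ) (x : Fin (n + 1) → F)
    (hx0 : x 0 = y) (hval : StrictMono fun i => A.valuation (x i))
    (hlt : ∀ i, A.valuation (x i) < 1) : n + 1 ≤ Module.finrank K⟮y⟯ F :=
  H3RR.chain_bound A hK hy n x hx0 hval hlt

/-- **Zeros exist.** A transcendental function has a zero: the maximal ideal `(y)` of `K[y]` is
dominated by a valuation ring of `F`, which is a place by `chain_bound`. File `H3RR_FF`. -/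
theorem exists_zero [IsAlgClosed K] [IsFF K F] {y : F} (hy : Transcendental K y) :
    ∃ v : Place K F, v.adicValuation y < 1 :=
  H3RR.exists_place_lt_one hy

/-- **Functions without poles are constant**: otherwise `f⁻¹` is transcendental and has a zero. File
`H3RR_FF`. -/
theorem const_of_regular [IsAlgClosed K] [IsFF K F] {f : F}
    (h : ∀ v : Place K F, v.adicValuation f ≤ 1) : ∃ c : K, algebraMap K F c = f :=
  H3RR.exists_const_of_forall_le_one h

/-! ## 2. Degrees -/

section Degrees

variable [IsAlgClosed K] [IsFF K F]

/-- **Functions which are independent near `S`.** Let `E v ≤ E' v` be integers at the places `v` of a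
finite set `S`, `m = ∑ (E' v - E v)`. There are `m` functions of value `≤ exp (E' v)` at all `v ∈ S`
such that no nontrivial linear combination over `K` has value `≤ exp (E v)` at all `v ∈ S`. (Weak
approximation, by induction on `m`.) File `H3RR_Degree`. -/
theorem exists_independent (S : Finset (Place K F)) (E : Place K F → ℤ) (m : ℕ)
    (E' : Place K F → ℤ) (h : ∀ v ∈ S, E v ≤ E' v) (hm : ∑ v ∈ S, (E' v - E v).toNat = m) :
    ∃ z : Fin m → F, (∀ i, ∀ v ∈ S, v.adicValuation (z i) ≤ exp (E' v)) ∧
      ∀ c : Fin m → K, (∀ v ∈ S, v.adicValuation (∑ i, algebraMap K F (c i) * z i) ≤ exp (E v)) →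
        c = 0 :=
  H3RR.exists_indep S E m E' h hm

/-- **Zeros of `y`**: the sum of the orders of the zeros is at most `[F : K(y)]`. Proof: take
`E v = -ord_v y` and `E' = 0` in `exists_independent`; the functions obtained are independent over
`K(y)` by `linearIndependent_of_poly`. File `H3RR_Degree`. -/
theorem sum_zeros_le {y : F} (hy : Transcendental K y) (S : Finset (Place K F))
    (hS : ∀ v ∈ S, v.adicValuation y < 1) :
    ∑ v ∈ S, (v.ord y).toNat ≤ Module.finrank K⟮y⟯ F :=
  H3RR.sum_ord_le_finrank hy S hS

/-- **A nonzero function has finitely many zeros and poles.** File `H3RR_Degree`. -/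
theorem finite_zeros_poles {f : F} (hf : f ≠ 0) :
    (Function.support fun v : Place K F => v.ord f).Finite :=
  H3RR.finite_support_ord hf

/-- **Upper bounds for dimensions**: `L(0) = K`; `dim L(D) ≤ deg D + 1` for `D ≥ 0`; and
`dim L(D') - dim L(D) ≤ deg D' - deg D` for `D ≤ D'`. (`L(D + v) / L(D)` embeds into the residue field
of `v`; the residue field of every place is `K`.) File `H3RR_Riemann`. -/
theorem dim_le : Module.finrank K (riemannRochSpace (0 : Divisor K F)) = 1 ∧
    (∀ D : Divisor K F, 0 ≤ D →
      (Module.finrank K (riemannRochSpace D) : ℤ) ≤ Divisor.degree D + 1) ∧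
    ∀ D D' : Divisor K F, D ≤ D' →
      (Module.finrank K (riemannRochSpace D') : ℤ) - Module.finrank K (riemannRochSpace D) ≤
        Divisor.degree D' - Divisor.degree D :=
  ⟨H3RR.finite_and_ell_zero.2, fun _ h => (H3RR.finite_and_ell_le_of_nonneg h).2,
    fun _ _ h => H3RR.ell_sub_le h⟩

/-- **Lower bound.** `B` is the divisor of poles of `y`, `n = [F : K(y)]`: there is `C ≥ 0` with
`dim L(r B + C) ≥ n (r + 1)` for all `r` (the products `y^j u_i`, `j ≤ r`, `u_i` a basis of `F` over
`K(y)`). With the upper bound and `r → ∞` this gives `deg B ≥ n`, so `deg B = n`. File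
`H3RR_Riemann`. -/
theorem exists_lower_bound {y : F} (hy : Transcendental K y) (B : Divisor K F)
    (hB : ∀ v, B v = max (-v.ord y) 0) : ∃ C : Divisor K F, 0 ≤ C ∧ ∀ r : ℕ,
      Module.finrank K⟮y⟯ F * (r + 1) ≤ Module.finrank K (riemannRochSpace (r • B + C)) := by
  have : B = H3RR.poleDiv y := Finsupp.ext fun v =>
    (hB v).trans (H3RR.poleDiv_apply (H3RR.transcendental_ne_zero hy) v).symm
  rw [this]; exact H3RR.exists_lower_bound hy

/-- **Degrees.** The divisor of poles of `y` has degree `[F : K(y)]`. Since `K(f) = K(f⁻¹)`, a function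
`f ≠ 0` has as many zeros as poles: its divisor has degree zero. File `H3RR_Riemann`. -/
theorem degrees : (∀ (y : F) (B : Divisor K F), Transcendental K y →
      (∀ v, B v = max (-v.ord y) 0) → Divisor.degree B = Module.finrank K⟮y⟯ F) ∧
    ∀ (f : F) (D : Divisor K F), f ≠ 0 → (∀ v, D v = v.ord f) → Divisor.degree D = 0 := by
  refine ⟨fun y B hy hB => ?_, fun f D hf hD => ?_⟩
  · rw [show B = H3RR.poleDiv y from Finsupp.ext fun v =>
      (hB v).trans (H3RR.poleDiv_apply (H3RR.transcendental_ne_zero hy) v).symm]
    exact H3RR.degree_poleDiv hy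
  · rw [show D = H3RR.divOf f from Finsupp.ext fun v => (hD v).trans (H3RR.divOf_apply hf v).symm]
    exact H3RR.degree_divOf hf

end Degrees

/-! ## 3. Repartitions and the theorem of Riemann -/

/-- **Notions.** A repartition `α` assigns a function `α v ∈ F` to every place `v` (`repartitions K F`
is the ring generated over `F` by the families which are regular at almost all `v`).
`repartitionsOf D` are the repartitions with `α v` of value `≤ exp (D v)` at all `v`;
`principalRepartitions` are the constant ones. `H1 D` is the quotient of `repartitions K F` by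
`repartitionsOf D + principalRepartitions`, and the genus is the dimension of `H1 0`. -/
theorem notions (D : Divisor K F) (α : ↥(repartitions K F)) :
    (α ∈ repartitionsOf D ↔
      ∀ v : Place K F, v.adicValuation ((α : Place K F → F) v) ≤ exp (D v)) ∧
    (α ∈ principalRepartitions K F ↔ ∃ f : F, (α : Place K F → F) = fun _ => f) ∧
    H1 D = (↥(repartitions K F) ⧸ (repartitionsOf D ⊔ principalRepartitions K F)) ∧
    genusFF K F = Module.finrank K (H1 (0 : Divisor K F)) :=
  ⟨Iff.rfl, mem_principalRepartitions_iff, rfl, rfl⟩

/-- **Exact sequence** `0 → L(D) → L(D + v) → k(v) → H¹(D) → H¹(D + v) → 0`. The map `a` takes the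
leading coefficient at `v`, and `b` is induced by the identity on repartitions. (Proved for every
field extension `F/K` and every place.) File `H3RR_Exact`. -/
theorem exact_sequence (D : Divisor K F) (v : Place K F) :
    ∃ (a : riemannRochSpace (D + Finsupp.single v 1) →ₗ[K] v.ResidueField)
      (δ : v.ResidueField →ₗ[K] H1 D) (b : H1 D →ₗ[K] H1 (D + Finsupp.single v 1)),
      (∀ f, a f = 0 ↔ (f : F) ∈ riemannRochSpace D) ∧
      (∀ c, δ c = 0 ↔ c ∈ LinearMap.range a) ∧ (∀ x, b x = 0 ↔ x ∈ LinearMap.range δ) ∧
      Function.Surjective b ∧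
      ∀ α : ↥(repartitions K F), b (Submodule.Quotient.mk α) = Submodule.Quotient.mk α :=
  ⟨H3RR.lmap D v, H3RR.delta D v, H3RR.h1Map (H3RR.le_add_single D v),
    fun _ => H3RR.lmap_eq_zero_iff D v, H3RR.delta_eq_zero_iff D v, H3RR.h1Map_eq_zero_iff D v,
    H3RR.h1Map_surjective _, fun _ => rfl⟩

section Riemann

variable [IsAlgClosed K] [IsFF K F]

/-- **Every repartition is bounded by a divisor.** File `H3RR_Genus`. -/
theorem exists_bound (α : ↥(repartitions K F)) :
    ∃ D : Divisor K F, 0 ≤ D ∧ α ∈ repartitionsOf D :=
  H3RR.exists_mem_repartitionsOf α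

variable (K F)

/-- **Theorem of Riemann**: `deg D - dim L(D)` is bounded above. Proof: it does not decrease when `D`
increases and does not change when the divisor of a function is added; the lower bound of section 2
shows that every `D` is at most `r B + C + div f` for some `f` and large `r`, where
`deg - dim L ≤ deg C - n`. File `H3RR_Genus`. -/
theorem riemann_bound : ∃ γ : ℤ, ∀ D : Divisor K F,
    Divisor.degree D - Module.finrank K (riemannRochSpace D) ≤ γ :=
  H3RR.riemann_bound K F

/-- **`H¹` vanishes somewhere**, namely for `D₀` with `deg D₀ - dim L(D₀)` maximal: then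
`L(D + v) → k(v)` is onto for all `D ≥ D₀`, so `H¹(D₀) → H¹(D)` is injective, and every repartition is
bounded by some `D ≥ D₀`. By the exact sequence all `H¹(D)` are finite dimensional. File
`H3RR_Genus`. -/
theorem exists_H1_eq_zero :
    (∃ D₀ : Divisor K F, Subsingleton (H1 D₀)) ∧ ∀ D : Divisor K F, Module.Finite K (H1 D) :=
  ⟨H3RR.exists_H1_subsingleton K F, fun D => H3RR.finite_H1 D⟩

variable {K F}

/-- **Theorem of Riemann and Roch, first form**: `dim L(D) - dim H¹(D) = deg D + 1 - g`. (Both sides
change in the same way from `D` to `D + v`, and they agree for `D = 0`.) In particular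
`dim L(D) ≥ deg D + 1 - g`. File `H3RR_Genus`. -/
theorem riemann_roch_first_form (D : Divisor K F) :
    (Module.finrank K (riemannRochSpace D) : ℤ) - Module.finrank K (H1 D) =
        Divisor.degree D + 1 - genusFF K F ∧
      Divisor.degree D + 1 - genusFF K F ≤ (Module.finrank K (riemannRochSpace D) : ℤ) :=
  ⟨H3RR.riemann_roch_weak D, H3RR.riemann_inequality D⟩

/-- **`H¹(D) = 0` for all divisors of large degree.** File `H3RR_Duality`. -/
theorem exists_degree_bound (K F : Type*) [Field K] [Field F] [Algebra K F] [IsAlgClosed K]
    [IsFF K F] :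
    ∃ c : ℤ, ∀ D : Divisor K F, c ≤ Divisor.degree D → Module.finrank K (H1 D) = 0 :=
  H3RR.exists_h1_eq_zero K F

/-- **Linear equivalence.** Multiplication by `f ≠ 0` identifies `L(D + div f)` with `L(D)` (`g` is in
`L(D + div f)` exactly when `f g` is in `L(D)`), and a divisor of negative degree has `L(D) = 0`.
Files `H3RR_Genus`, `H3RR_Duality`. -/
theorem linear_equivalence : (∀ (f : F) (D E : Divisor K F), f ≠ 0 → (∀ v, E v = v.ord f) →
      Module.finrank K (riemannRochSpace (D + E)) = Module.finrank K (riemannRochSpace D)) ∧
    ∀ D : Divisor K F, Divisor.degree D < 0 → Module.finrank K (riemannRochSpace D) = 0 := by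
  refine ⟨fun f D E hf hE => ?_, fun D h => H3RR.ell_eq_zero_of_degree_neg h⟩
  rw [show E = H3RR.divOf f from Finsupp.ext fun v => (hE v).trans (H3RR.divOf_apply hf v).symm]
  exact H3RR.ell_add_divOf hf D

end Riemann

/-! ## 4. Weil differentials

`Om D` is the space of the linear forms on repartitions which vanish on `repartitionsOf D` and on the
constants; `fmul f ω` is the linear form `α ↦ ω (f α)`. -/

section Duality

open Fermat.Agent.H3RR (Om fmul)

variable [IsAlgClosed K] [IsFF K F]

/-- **Weil differentials**: `Om D` is the dual of `H¹(D)`. File `H3RR_Duality`. -/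
theorem weil_differentials (D : Divisor K F) :
    (∀ ω : Module.Dual K ↥(repartitions K F), ω ∈ Om D ↔
      (∀ α ∈ repartitionsOf D, ω α = 0) ∧ ∀ α ∈ principalRepartitions K F, ω α = 0) ∧
    Module.finrank K (Om D) = Module.finrank K (H1 D) :=
  ⟨fun _ => H3RR.mem_Om, H3RR.finrank_Om D⟩

/-- **Multiplication of differentials by functions**: `(f ω)(α) = ω(f α)`; if `ω ∈ Om W`, then
`f ω ∈ Om (W + div f)` for `f ≠ 0`, and `f ω ∈ Om D` for `f ∈ L(W - D)`. File `H3RR_Duality`. -/
theorem mul_differential {W D : Divisor K F} {ω : Module.Dual K ↥(repartitions K F)}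
    (hω : ω ∈ Om W) (f : F) :
    (∀ α : ↥(repartitions K F), fmul f ω α = ω (algebraMap F ↥(repartitions K F) f * α)) ∧
      (∀ E : Divisor K F, f ≠ 0 → (∀ v, E v = v.ord f) → fmul f ω ∈ Om (W + E)) ∧
      (f ∈ riemannRochSpace (W - D) → fmul f ω ∈ Om D) := by
  refine ⟨fun α => rfl, fun E hf hE => ?_, fun h => H3RR.fmul_mem_Om_of_mem_L h hω⟩
  rw [show E = H3RR.divOf f from Finsupp.ext fun v => (hE v).trans (H3RR.divOf_apply hf v).symm]
  exact H3RR.fmul_mem_Om hf hω

/-- **Weil differentials form a space of dimension one over `F`.** Proof: for `D = -n P`, `n` large,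
the spaces `L(W₁ - D) ω₁` and `L(W₂ - D) ω₂` have a common nonzero element, because
`dim Om D = n - 1 + g`, but the sum of their dimensions grows like `2n`. File `H3RR_Duality`. -/
theorem differentials_one_dimensional {W₁ W₂ : Divisor K F}
    {ω₁ ω₂ : Module.Dual K ↥(repartitions K F)} (h₁ : ω₁ ∈ Om W₁) (h₂ : ω₂ ∈ Om W₂)
    (h₁0 : ω₁ ≠ 0) (h₂0 : ω₂ ≠ 0) : ∃ f : F, f ≠ 0 ∧ ω₂ = fmul f ω₁ :=
  H3RR.exists_fmul_eq h₁ h₂ h₁0 h₂0

/-- **The divisor of a Weil differential** `ω ≠ 0`: the largest `W` with `ω ∈ Om W`. (The degrees of the
`D` with `ω ∈ Om D` are bounded, since `Om D = 0` for large degree.) File `H3RR_Duality`. -/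
theorem exists_divisor_of_differential {ω : Module.Dual K ↥(repartitions K F)} (hω : ω ≠ 0)
    (hex : ∃ D, ω ∈ Om D) : ∃ W : Divisor K F, ω ∈ Om W ∧ ∀ D, ω ∈ Om D → D ≤ W :=
  H3RR.exists_divisor hω hex

/-- **Duality**: there is a divisor `W` with `dim H¹(D) = dim L(W - D)` for all `D`, namely the divisor
of any Weil differential `ω ≠ 0` (`f ↦ f ω` is an isomorphism of `L(W - D)` onto `Om D`). It has
degree `2g - 2` and `dim L(W) = g`. With `riemann_roch_first_form` this is the theorem of Riemann and
Roch. File `H3RR_Duality`. -/
theorem exists_canonical (K F : Type*) [Field K] [Field F] [Algebra K F] [IsAlgClosed K]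
    [IsFF K F] : ∃ W : Divisor K F,
      (∀ D : Divisor K F,
        Module.finrank K (H1 D) = Module.finrank K (riemannRochSpace (W - D))) ∧
      Module.finrank K (riemannRochSpace W) = genusFF K F ∧
      Divisor.degree W = 2 * genusFF K F - 2 :=
  ⟨H3RR.canon K F, H3RR.h1_eq, H3RR.ell_canon, H3RR.degree_canon⟩

/-- **Large degree**: `dim L(D) = deg D + 1 - g` and `H¹(D) = 0` if `deg D > 2g - 2`. This is the form
of the theorem which is used most. File `H3RR_Duality`. -/
theorem large_degree {D : Divisor K F} (h : 2 * (genusFF K F : ℤ) - 2 < Divisor.degree D) :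
    (Module.finrank K (riemannRochSpace D) : ℤ) = Divisor.degree D + 1 - genusFF K F ∧
      Module.finrank K (H1 D) = 0 :=
  ⟨H3RR.ell_of_degree_gt h, H3RR.h1_eq_zero_of_degree_gt h⟩

end Duality

/-! ## 5. General places and effective divisors -/

section Special

variable [IsAlgClosed K] [IsFF K F]

/-- **A general place imposes one condition**: if `L(D) ≠ 0`, then outside any finite set there is a
place `P` with `dim L(D - P) = dim L(D) - 1`. File `H3RR_Special`. -/
theorem exists_general_place (D : Divisor K F) (h : 0 < Module.finrank K (riemannRochSpace D))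
    (S : Finset (Place K F)) :
    ∃ P ∉ S, Module.finrank K (riemannRochSpace (D - Finsupp.single P 1)) + 1 =
      Module.finrank K (riemannRochSpace D) :=
  H3RR.exists_ell_sub D h S

/-- **`n` general places impose `n` conditions**, `n ≤ dim L(D)`. For the canonical divisor and `n = g`
this gives the nonspecial divisors of the guide FunctionField. File `H3RR_Special`. -/
theorem exists_general_places (D : Divisor K F) (S : Finset (Place K F)) (n : ℕ)
    (hn : n ≤ Module.finrank K (riemannRochSpace D)) :
    ∃ R : Finset (Place K F), R.card = n ∧ Disjoint R S ∧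
      Module.finrank K (riemannRochSpace (D - ∑ v ∈ R, Finsupp.single v 1)) + n =
        Module.finrank K (riemannRochSpace D) :=
  H3RR.exists_redDiv_ell D S n hn

/-- **Effective divisors in a class.** A divisor of degree at least `g` is equivalent to an effective
one; so for a fixed divisor `E₀` of degree `g` every divisor of degree zero is equivalent to `E - E₀`
with `E ≥ 0` of degree `g`. File `H3RR_Special`. -/
theorem exists_effective :
    (∀ D : Divisor K F, (genusFF K F : ℤ) ≤ Divisor.degree D →
      ∃ f : F, f ≠ 0 ∧ ∀ v, 0 ≤ D v + v.ord f) ∧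
    ∀ D E₀ : Divisor K F, Divisor.degree D = 0 → Divisor.degree E₀ = genusFF K F →
      ∃ f : F, f ≠ 0 ∧ ∃ E : Divisor K F, 0 ≤ E ∧ Divisor.degree E = genusFF K F ∧
        ∀ v, D v + v.ord f = E v - E₀ v := by
  refine ⟨fun D h => ?_, fun D E₀ h h0 => ?_⟩
  · obtain ⟨f, hf, h1⟩ := H3RR.exists_effective h
    exact ⟨f, hf, fun v => by simpa [H3RR.divOf_apply hf] using h1 v⟩
  · obtain ⟨f, hf, E, h1, h2, h3⟩ := H3RR.exists_effective_sub h h0
    refine ⟨f, hf, E, h1, h2, fun v => ?_⟩
    simpa [H3RR.divOf_apply hf] using DFunLike.congr_fun h3 v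

/-- **If `D ≥ 0` and `dim L(D) = 1`, then `L(D) = K`.** File `H3RR_Special`. -/
theorem const_of_dim_one {D : Divisor K F} (hD : 0 ≤ D)
    (h : Module.finrank K (riemannRochSpace D) = 1) {f : F} (hf : f ∈ riemannRochSpace D) :
    ∃ c : K, algebraMap K F c = f :=
  H3RR.exists_const_of_mem_L hD h hf

end Special

end Fermat.Agent.Guide.RiemannRoch
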