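import Fermat.Agent.H40Node
import Fermat.Agent.H40NOp

/-!
# Guide: classes with trivial reduction at `p`, and the norm operator: the remaining steps

Companion of `GuideLevelsS44`, section 5: further steps of the proofs of `trivial_reduction_iff`,
`node_congruence` and `norm_operator_contracts`.  Every theorem of this file is a citation of a
theorem of the library; nothing here is imported by any other file.

**Situation.**  `D : MP.Data K F k Fb Γ ν G p` is the model of `X₀(M p)` with two components in
the language of valuations (`GuideNodeAnalysis`): `F` is the function field over `K = ℚ̄`,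
`D.M.v i` and `D.M.ρ i` (`i = false, true`) are the absolute values and the reduction maps of the
two components, `Fb` is the function field of `X₀(M)` over the residue field `k`, of
characteristic `p`, `D.M.vK` is the absolute value of the constants (written multiplicatively),
`ν` is the set of the double points, and `G` is an inertia group at `p`, which preserves the two
absolute values and acts trivially on the two reductions.  `W` is the Atkin-Lehner involution,
which exchanges the two components, `N` the norm operator `N f (q) = ∏ f (ζ^i q^{1/p})`, and `ζ` a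
primitive `p`-th root of unity; the hypothesis `R : H40.Geo D W N ζ` contains all that is used
about them (`GuideLevelsS44.geo_iff`).  `V` is the module `E[p]`, `Q : H40.Kum K G p V W N` a
family of functions `Q.U x`, `x ∈ V`, whose divisors are divisible by `p`
(`GuideLevelsS44.kum_fields`), and `E : H40.ESide D.M.vK p V ζ` the description of the action of
inertia on `E[p]` (`eSide_fields`; for the Frey curve `GuideLevelsS44.frey_inertia_at_p`).
`H40.TrivAt D i f` says that `f` has *trivial reduction* on the component `i`: it is congruent to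
a `p`-th power there (`GuideLevelsS44.congruent_to_power`).

**The argument.**  The classes `x ∈ V` for which `Q.U x` has trivial reduction form a subgroup
which contains all the `σ x - x` (`kummer_calculus`, `GuideLevelsS44.congruent_to_power`).
Inertia acts on this subgroup through the cyclotomic character
(`GuideLevelsS44.cyclotomic_action`); so it is the line `E.Vm`, on which inertia acts in this way
(`GuideLevelsS44.trivial_reduction_iff`).  For the point `z = E.z` outside of the line and `τ` in
inertia which moves it, `y = τ z - z` is in the line; `Q.U y` is, up to constants and `p`-th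
powers fixed by the stabiliser of `y`, congruent to `1` on both components
(`trivial_on_both_components`, `GuideLevelsS44.representative_near_one`), and
`τ (Q.U z) = Q.U z · Q.U y` up to `p`-th powers (`kummer_calculus`).  This is the input of the
wild case of the node analysis (`GuideLevelsS44.orders_at_nodes_congruent_wild`), which gives
`GuideLevelsS44.node_congruence`; the choice of the constants by which the functions are divided
does not matter (`change_of_normalisation`).
The properties of the norm operator which are used (`GuideLevelsS44.norm_operator_iff`) are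
proved in section 3 from its description by expansions at the cusp `∞`.

**Reading order.**
1. Constants.
2. Kummer functions.
3. The norm operator.

**Closures.**  All theorems: S01, S03, S39, S40, S43, S44, S45 (the library theorem
`H33.qExpand_normOp` behind `norm_operator_expansion` is also used in S04, S06, S09, S12, S15, S33,
S38, S46, S50, S59, S60).  Notes: [114] and Section 3.5 of NOTES.md.  Files: `H40Fin`, `H40SS` (1),
`H40Book`, `H40Node` (1, 2), `H33Laurent`, `H33NormN`, `H40NOp` (3).  Written by helper40.
-/

set_option autoImplicit false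
set_option linter.unusedSectionVars false

noncomputable section

open AlgebraicCurve ModularCurve
open Fermat.Agent Fermat.Agent.H31

namespace Fermat.Agent.Guide.S44Classes

section Abstract

/-! The variables of sections 1 and 2: the fields and the model `D` are as in the header. -/

variable {K F k Fb Γ ν G : Type*} [Field K] [Field F] [Algebra K F] [Field k] [Field Fb]
  [Algebra k Fb] [LinearOrderedCommGroupWithZero Γ] [Group G] [MulSemiringAction G K]
  [MulSemiringAction G F] {p : ℕ} {D : MP.Data K F k Fb Γ ν G p}

/-! ## 1. Constants -/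

/-- **The norm of a constant** (`H40Fin`).  Let `H` be a subgroup of finite index of `G` and `c` a
constant fixed by `H`.  The product `n` of the conjugates of `c` is fixed by `G`, it is not `0` if
`c ≠ 0`, and `|n| = |c|^[G : H]`.  So the absolute values of the nonzero constants fixed by `H`,
raised to the power `[G : H]`, are absolute values of constants fixed by `G`: if the latter are
discretely valued, so are the former (`GuideLevelsS44.discrete_constants`). -/
theorem norm_of_constant (D : MP.Data K F k Fb Γ ν G p) {H : Subgroup G} [H.FiniteIndex] {c : K}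
    (hc : ∀ σ ∈ H, σ • c = c) :
    ∃ n : K, (∀ σ ∈ (⊤ : Subgroup G), σ • n = n) ∧ (c ≠ 0 → n ≠ 0) ∧
      D.M.vK n = D.M.vK c ^ H.index :=
  H40.exists_norm D hc

/-- **The root of unity** (`H40SS`).  In a field with a valuation `v`, let `ζ ≠ 1` be a `p`-th root of
unity with `|ζ - 1| < 1`, and `p ≠ 0`.  Then `|ζ - 1|^(p-1) = |p|`, and `p / (ζ - 1)^(p-1)` is
congruent to `-1`.  (Divide `(1 + l)^p = 1`, `l = ζ - 1`, by `l`.)  With `|ζ - 1| = |ϖ|^d` this gives
`|p| = |ϖ|^((p-1) d)`, the hypothesis of `GuideNodeAnalysis`, section 4. -/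
theorem size_of_zeta_sub_one {K Γ : Type*} [Field K] [LinearOrderedCommGroupWithZero Γ]
    (v : Valuation K Γ) {p : ℕ} (hp : p.Prime) {ζ : K} (hζ : ζ ^ p = 1) (hζ1 : ζ ≠ 1)
    (hlt : v (ζ - 1) < 1) (hp0 : (p : K) ≠ 0) :
    v (ζ - 1) ^ (p - 1) = v (p : K) ∧ v (p / (ζ - 1) ^ (p - 1) + 1) < 1 :=
  H40.zeta_rel v hp hζ hζ1 hlt hp0

/-- **Conjugates of `ζ`** (`H40Node`): `σ ζ` is a power of `ζ`, for every automorphism `σ`. -/
theorem conjugate_of_zeta {K G : Type*} [Field K] [Group G] [MulSemiringAction G K] {p : ℕ}
    (hp : p.Prime) {ζ : K} (h1 : ζ ^ p = 1) (h2 : ζ ≠ 1) (σ : G) : ∃ a : ℕ, σ • ζ = ζ ^ a :=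
  H40.exists_char_of hp h1 h2 σ

variable [IsAlgClosed K] [H3RR.IsFF K F] [IsAlgClosed k] [H3RR.IsFF k Fb]
  [Fact p.Prime] [CharP k p] [CharP Fb p] {W : F ≃ₐ[K] F} {N : F →* F} {ζ : K}

/-- **The normalisation does not matter** (`H40Node`): if `u / c` and `u / c'` have absolute value `1`,
their reductions differ by a constant factor, so they have the same orders and are `p`-th powers
at the same time. -/
theorem change_of_normalisation {u : F} {c c' : K} {i : Bool}
    (hc : D.M.v i (u / algebraMap K F c) = 1) (hc' : D.M.v i (u / algebraMap K F c') = 1) :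
    ∃ e : k, e ≠ 0 ∧ D.M.ρ i (u / algebraMap K F c') =
      algebraMap k Fb e * D.M.ρ i (u / algebraMap K F c) :=
  H40.ord_ρ_congr hc hc'

/-! ## 2. Kummer functions

`V` is a module with an action of `G` (in the application `E[p]`). -/

variable {V : Type*} [AddCommGroup V] [DistribMulAction G V]

omit [Field k] [Field Fb] [Algebra k Fb] [LinearOrderedCommGroupWithZero Γ]
  [MulSemiringAction G K] [IsAlgClosed K] [H3RR.IsFF K F] [IsAlgClosed k] [H3RR.IsFF k Fb]
  [Fact p.Prime] [CharP k p] [CharP Fb p] in
/-- **The Kummer functions of multiples, equal classes, and the twist** (`H40Book`).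
`Q.U (n x) = Q.U x ^ n` up to a `p`-th power; if `Q.U x` and `Q.U y` differ by a `p`-th power then
`x = y`; and `τ (Q.U x) = Q.U x · Q.U (τ x - x)` up to a `p`-th power, for `τ` in `G`. -/
theorem kummer_calculus (Q : H40.Kum K G p V W N) :
    (∀ (x : V) (n : ℕ), ∃ f, f ≠ 0 ∧ Q.U (n • x) = Q.U x ^ n * f ^ p) ∧
      (∀ (x y : V) (f : F), Q.U x = Q.U y * f ^ p → x = y) ∧
      ∀ (τ : G) (x : V), ∃ f, f ≠ 0 ∧ τ • Q.U x = Q.U x * Q.U (τ • x - x) * f ^ p :=
  ⟨Q.nsmul, fun x y _ h => Q.eq_of_mul_pow x y h, Q.exists_twist⟩

/-- **The two components** (`H40Node`): if `Q.U x` has trivial reduction on the first component, then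
also on the second one: `W` exchanges the components, and `W (Q.U x)` is an integral power of `Q.U x`
up to a `p`-th power. -/
theorem trivial_on_both_components (R : H40.Geo D W N ζ) (Q : H40.Kum K G p V W N) {x : V}
    (hx : H40.TrivAt D false (Q.U x)) : H40.TrivAt D true (Q.U x) :=
  H40.triv_true R Q hx

/-- **The action of inertia on `V`, unfolded** (`H40.ESide v p V ζ`, `H40Book`; `v` is the valuation of
the constants).  There is a subgroup `E.Vm` which contains all the `σ x - x`, on which `G` acts through
the cyclotomic character, which is generated by each of its nonzero elements and is not `0`; `p V = 0`;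
some `σ` acts on `ζ` not trivially; `E.z` is not in `E.Vm`; and either `G` fixes `E.z`, or there are `τ`
in `G` and a small constant `ε` as in `GuideLevelsS44.frey_inertia_at_p`. -/
theorem eSide_fields {K Γ G : Type*} [Field K] [LinearOrderedCommGroupWithZero Γ] [Group G]
    [MulSemiringAction G K] {p : ℕ} {V : Type*} [AddCommGroup V] [DistribMulAction G V] {ζ : K}
    {v : Valuation K Γ} (E : H40.ESide (G := G) v p V ζ) :
    (∀ (σ : G) (x : V), σ • x - x ∈ E.Vm) ∧
      (∀ y ∈ E.Vm, ∀ (σ : G) (a : ℕ), σ • ζ = ζ ^ a → σ • y = a • y) ∧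
      (∃ y ∈ E.Vm, y ≠ 0) ∧ (∀ y ∈ E.Vm, y ≠ 0 → ∀ y' ∈ E.Vm, ∃ n : ℕ, y' = n • y) ∧
      (∀ x : V, p • x = 0) ∧ (∃ (σ : G) (a : ℕ), σ • ζ = ζ ^ a ∧ ¬ (a : ZMod p) = 1) ∧
      E.z ∉ E.Vm ∧
      ((∀ σ : G, σ • E.z = E.z) ∨ ∃ (τ : G) (ε : K), τ • E.z ≠ E.z ∧ ε ≠ 0 ∧ v ε < 1 ∧
        (∀ a : K, (∀ σ ∈ MulAction.stabilizer G E.z, σ • a = a) → v a < 1 → v a ≤ v ε ^ 2) ∧
        (∀ a : K, a ≠ 0 → (∀ σ ∈ MulAction.stabilizer G E.z, σ • a = a) →
          ∃ n : ℤ, v a ^ p = v (p : K) ^ n ∧ v ((τ • a) / a - 1 - n * ε) ≤ v ε ^ 2) ∧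
        ∀ a : K, (∀ σ ∈ MulAction.stabilizer G (τ • E.z - E.z), σ • a = a) →
          v a < 1 → v a ≤ v ε ^ 2) :=
  ⟨E.sub_mem, E.char, E.exists_ne, E.line, E.torsion, E.exists_char, E.z_notMem, E.main⟩

end Abstract

/-! ## 3. The norm operator

`Qb = ℚ̄`, `A` is a place of `ℚ̄` above `p` with residue map `π : A → k`, `p ∤ M`.
`H34.Two.locL A π` is the ring of the Laurent series `y / z`, where `y`, `z` have coefficients in `A`
and `π z ≠ 0`, and `H34.Two.resL A π` the reduction map of this ring to `k((q))`.
`H60.twist u f` is `f(u q)`. -/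

/-- The field of algebraic numbers. -/
local notation "Qb" => AlgebraicClosure ℚ

/-- The absolute Galois group of `ℚ`. -/
local notation "GQ" => (AlgebraicClosure ℚ ≃ₐ[ℚ] AlgebraicClosure ℚ)

section NormOperator

variable {p : ℕ} [Fact p.Prime] [NeZero p] {M : ℕ} [NeZero M]

/-- **The norm operator on expansions** (`H33Laurent`, `H40NOp`): `N f (q^p) = ∏_{i < p} f(ζ^i q)`.
(`H40.Nrm.nOp hpM hζ` is the norm operator on the function field of `X₀(M p)`; it is multiplicative by
definition.  The product on the right is a series in `q^p`.) -/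
theorem norm_operator_expansion (hpM : ¬ p ∣ M) {ζ : Qbˣ} (hζ : IsPrimitiveRoot ζ p)
    (f : H99.FX Qb (M * p)) :
    qExpand Qb p (H40.Nrm.nOp hpM hζ f : LaurentSeries Qb) =
      ∏ i ∈ Finset.range p, H60.twist (ζ ^ i) (f : LaurentSeries Qb) :=
  H33.qExpand_normOp p hζ (f : LaurentSeries Qb)

/-- **The norm to level `M`** (`H33NormN`, `H40NOp`): for a function `z` of level `M p` the norm along
the first map `α : X₀(M p) → X₀(M)`, pulled back by `α`, is `z · N (w_p z)`.  So for Kummer functions
`z · N (w_p z)` is a `p`-th power if the class has trace `0` in `J₀(M)`: this is the relation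
`U_p = -w_p` in the fields `rel`, `rel'` of `H40.Kum`. -/
theorem norm_to_level_M (w : H99.AL Qb M p) (hpM : ¬ p ∣ M) {ζ : Qbˣ} (hζ : IsPrimitiveRoot ζ p)
    (z : H99.FX Qb (M * p)) :
    heckeAlphaBar Qb M p (H60.normAlong (heckeAlphaBar Qb M p) z) =
      z * H40.Nrm.nOp hpM hζ (w.W z) :=
  H40.Nrm.alpha_normAlong w hpM hζ z

/-- **Galois equivariance** (`H40NOp`): `N` does not depend on the choice of `ζ` (by `norm_to_level_M`), so
it commutes with the Galois group, which acts on the coefficients of the expansions. -/
theorem norm_operator_galois (hpM : ¬ p ∣ M) {ζ : Qbˣ} (hζ : IsPrimitiveRoot ζ p) (σ : GQ)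
    (f : H99.FX Qb (M * p)) :
    arithmeticGalois (modularFunctionFieldFull (M * p)) σ • H40.Nrm.nOp hpM hζ f =
      H40.Nrm.nOp hpM hζ (arithmeticGalois (modularFunctionFieldFull (M * p)) σ • f) :=
  H40.Nrm.nOp_galois hpM hζ σ f

end NormOperator

/-- **A product near `1`** (`H40NOp`): `∏ (1 + c g_i) = 1 + c ∑ g_i + c² e`. -/
theorem prod_one_add {R : Type*} [CommRing R] {ι : Type*} [DecidableEq ι] (s : Finset ι) (c : R)
    (g : ι → R) : ∃ e : R, ∏ i ∈ s, (1 + c * g i) = 1 + c * ∑ i ∈ s, g i + c ^ 2 * e :=
  H40.Nrm.prod_one_add s c g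

/-- **The product of the twists near `1`** (`H40NOp`).  Let `ζ` be a unit of `A` which reduces to `1`, `g`
integral (in `locL A π`), `c ∈ A` with reduction `0`.  Then
`∏_{i < p} (1 + c g)(ζ^i q) = 1 + c z` with `z` integral of reduction `0`: by `prod_one_add` the
reduction of `z` is the sum of the reductions of the `g(ζ^i q)`, `i < p`, which are all equal to that
of `g`, and `p = 0` in `k`. -/
theorem twists_near_one {L : Type*} [Field L] {A : ValuationSubring L} {k : Type*} [Field k]
    {π : A →+* k} {p : ℕ} [Fact p.Prime] [NeZero p] [CharP k p] {ζ : Aˣ}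
    (hζ : Units.map (π : A →* k) ζ = 1) {g : LaurentSeries L} (hg : g ∈ H34.Two.locL A π) {c : A}
    (hc : π c = 0) :
    ∃ z : LaurentSeries L, ∃ hz : z ∈ H34.Two.locL A π, H34.Two.resL A π ⟨z, hz⟩ = 0 ∧
      H33.prodTwist p (Units.map (A.subtype : A →* L) ζ)
        (1 + algebraMap L (LaurentSeries L) (c : L) * g) =
      1 + algebraMap L (LaurentSeries L) (c : L) * z :=
  H40.Nrm.prodTwist_close hζ hg hc

section FirstComponent

variable {p : ℕ} [Fact p.Prime] [NeZero p] {M : ℕ} [NeZero M]
  {A : ValuationSubring Qb} {k : Type*} [Field k] {π : A →+* k} [CharP k p] [Infinite k]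
  (w : H99.AL Qb M p) (hπ : Function.Surjective π) (hD : H67.DegreeFact Qb)
  (hdeg : H42.DegLE Qb k M) (hpM : ¬ p ∣ M)

/-- **The absolute value of the first component** (`H40NOp`).  `H97.v1` is the Gauss valuation of the
function field of `X₀(M p)` at the cusp `∞`: a function has absolute value at most `1` exactly if
its expansion is in `locL A π`, and less than `1` exactly if moreover the reduction is `0`; it
extends the valuation of `A`, and its values on functions `≠ 0` are values of constants `≠ 0`. -/
theorem first_component :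
    (∀ z : H99.FX Qb (M * p), H97.v1 A π w hπ hD hdeg hpM z ≤ 1 ↔
        (z : LaurentSeries Qb) ∈ H34.Two.locL A π) ∧
      (∀ z : H99.FX Qb (M * p), H97.v1 A π w hπ hD hdeg hpM z < 1 ↔
        ∃ h : (z : LaurentSeries Qb) ∈ H34.Two.locL A π, H34.Two.resL A π ⟨_, h⟩ = 0) ∧
      (∀ c : Qb, H97.v1 A π w hπ hD hdeg hpM (algebraMap Qb _ c) = A.valuation c) ∧
      ∀ f : H99.FX Qb (M * p), f ≠ 0 →
        ∃ c : Qb, c ≠ 0 ∧ H97.v1 A π w hπ hD hdeg hpM f = A.valuation c :=
  ⟨H40.Nrm.v1_le_one_iff w hπ hD hdeg hpM, H40.Nrm.v1_lt_one_iff w hπ hD hdeg hpM,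
    H40.Nrm.v1_alg w hπ hD hdeg hpM, H40.Nrm.v1_scale w hπ hD hdeg hpM⟩

/-- **The norm operator and the model** (`H40NOp`).  `D` is a model of `X₀(M p)` as in the header whose
two absolute values are the Gauss valuation at `∞` (`H97.v1`) and its transform under `w_p`
(`H97.v2`), and whose group `G` acts on the functions through a map `e` to the Galois group of
`ℚ̄` over `ℚ`: `σ f = e(σ) f`.  Then the Atkin-Lehner involution and the norm operator have the
properties `H40.NOp` (`GuideLevelsS44.norm_operator_iff`), the last one by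
`GuideLevelsS44.norm_operator_contracts`. -/
theorem norm_operator_of_model [IsLocalHom π] {ζ : Qbˣ} (hζ : IsPrimitiveRoot ζ p)
    {Fb ν G : Type*} [Field Fb] [Algebra k Fb] [Group G] [MulSemiringAction G Qb]
    [MulSemiringAction G (H99.FX Qb (M * p))]
    (D : MP.Data Qb (H99.FX Qb (M * p)) k Fb A.ValueGroup ν G p) (e : G → GQ)
    (he : ∀ (σ : G) (f : H99.FX Qb (M * p)),
      σ • f = arithmeticGalois (modularFunctionFieldFull (M * p)) (e σ) • f)
    (hf : ∀ f, D.M.v false f = H97.v1 A π w hπ hD hdeg hpM f)
    (ht : ∀ f, D.M.v true f = H97.v2 A π w hπ hD hdeg hpM f) :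
    H40.NOp D w.W (H40.Nrm.nOp hpM hζ) :=
  H40.Nrm.nop_inst w hπ hD hdeg hpM hζ D e he hf ht

end FirstComponent

end Fermat.Agent.Guide.S44Classes
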