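import Fermat.Agent.H38MzRep
import Fermat.Agent.H38S44B

/-!
# Guide: lowering the level at `p`, step by step

Companion of `GuideLevelsS44` (sections 2, 6, 7 and 8 there).  That file states the main theorems on the
Kummer function of a point of `E[p]` and its reduction modulo `p`; here one finds the small steps between
them: how functions are reduced, what the Hecke operator does to a function and to its reduction, the
modular unit `Δ(q^p)/Δ(q)`, and the assembly.

**Idea.**  A class `x` of order `n` in the Jacobian of a curve is replaced by a function `f` with divisor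
`n D`, `[D] = x` (a *Kummer function*, `H33.IsKum n x f`); it is unique up to `n`-th powers.  Everything
that acts on classes acts on functions: sums are products, the pull back is the inclusion of fields, the
push forward is the norm, `T_ℓ` is `f ↦ Norm_α (β f)`.  The functions on `X₀(N)` are Laurent series, so they
can be reduced modulo a place of `ℚ̄` coefficient by coefficient (after division by a constant), and the
formulas for norms and Hecke operators on expansions survive the reduction.  No model of `X₀(N)` over a ring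
of integers is used for this.  In this file only the order of `Δ̄^{p-1}` at the supersingular points needs
the two components of `X₀(M p)` and the local equation `z z' = p` at a node; the node analysis in
`GuideLevelsS44` needs them, too.

1. Reduction of Laurent series as a relation: `reduction_unique` - `normSeries_ne_zero`.
2. Kummer functions: `class_eq_zero_iff` - `fixed_kummer_function` (after `GuideKummerFunctions`, section 1).
3. The Hecke operator on functions: `hecke_transform` - `eigenclass_function`.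
4. Reduction of functions on `X₀(N)`: `component_iff` - `first_component`.
5. The modular unit `Δ(q^p)/Δ(q)`: `unit_of_root` - `atkinLehner_j`.
6. Its reduction: `delta_ratio_integral` - `unit_on_the_model`.
7. Assembly: `degree_prime_to_p` - `modular_of_orders`.

**Used in** S44, S43, S45, S03 and S01; nearly everything also in S39 and S40 (the step at `p` of the change
of level, `GuideLevelsAtP`).  Exceptions: `class_eq_zero_iff` belongs also to S33, S38, S46, S50, S59, S60,
S04, S06, S09, S12, S15, and `exists_fixed_divisor` (also S09, S12, S15), `fixed_kummer_function` to S38,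
S43, S45, S46, S50, S59, S60, S03, S04, S06 and S01 (in S44 the construction of `H40Rep`, with the same
result, is used); `unit_of_root`, `exists_unit_polynomial` also to S09, S12, S15; `degree_prime_to_p`,
`modular_of_orders` are not used in S39, S40, and `functions_lift` is used only there.

**Files**: 1: `H38MzRed`.  2: `H33Kummer`, `H33NormN`, `H44Kum`, `H38MzRep`, `H1QPlace`.  3: `H38MzTheta`,
`H42HeckeData`, `H67J`.  4: `H38MzComp`, `H38MzComp2`, `H38MzHecke`, `H34Two4`.  5: `H9Unit`, `H66NotMem`,
`H38DvA`.  6: `H38DvB`, `H38DvC`.  7: `H38DvD`, `H46P2`, `H38S44A`, `H38S44B`.  **Notes** [114], [143], [290],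
for section 2 also [257], for section 5 [100].

Neighbours: `GuideKummerFunctions`, `GuideGaussSeries`, `GuideReduction` (why the reduction of a function is
a function), `GuideS44Classes` (classes with trivial reduction, the norm operator), `GuideNodeParameters`
(the local equation), `GuideNodeAnalysis`, `GuideDlog`, `GuideKernel`.

Theorems of helper38, helper33, helper44, helper42, helper67, helper9; text: helper38.
-/

set_option autoImplicit false
set_option linter.unusedSectionVars false
set_option synthInstance.maxHeartbeats 200000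

noncomputable section

open AlgebraicCurve ModularCurve HahnSeries WithZero Polynomial
open Fermat.Agent Fermat.Agent.H97
open Fermat.Agent.H33 (IsKum)
open Fermat.Agent.H38.Mz (Red)
open Fermat.Agent.H39 (Tor)
open Fermat.Agent.H61.L5 (NewEmb)
open Fermat.Agent.H61.Nd (jmb)
open Fermat.Agent.H34.Two (jmq jk)

namespace Fermat.Agent.Guide.S44Steps

/- Only to make the file faster to check: prefer the obvious `k`-algebra structure on a subfield of
`k((q))`. -/
attribute [-instance] IsLocalRing.ResidueField.algebra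
attribute [local instance 5000] SubalgebraClass.toAlgebra

/-- The field of algebraic numbers. -/
local notation "Qb" => AlgebraicClosure ℚ

/-- The function field of `X₀(N)` over an algebraically closed field `k`, in `k((q))`. -/
local notation "FC" => modularFunctionFieldFullC

/-! ### 1. Reduction of Laurent series -/

section Reduction

/-! Throughout `A` is a valuation ring of a field `L` and `π` a homomorphism from `A` to a field `k`.
`H38.Mz.Red A π f fb` means: `f = y / z` for series `y`, `z` with coefficients in `A` with `z̄ ≠ 0`, and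
`fb = ȳ / z̄`. -/

variable {L : Type*} [Field L] {A : ValuationSubring L} {k : Type*} [Field k] {π : A →+* k}
  {f g : LaurentSeries L} {fb gb : LaurentSeries k}

/-- **The reduction of a series is well defined.**  The hypotheses are `Red A π f fb` and `Red A π f gb`
written out (`coeffMap` changes the coefficients).  (File `H38MzRed`.) -/
theorem reduction_unique
    (h : ∃ y z : LaurentSeries A, coeffMap π z ≠ 0 ∧
      f * coeffMap A.subtype z = coeffMap A.subtype y ∧ fb * coeffMap π z = coeffMap π y)
    (h' : ∃ y z : LaurentSeries A, coeffMap π z ≠ 0 ∧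
      f * coeffMap A.subtype z = coeffMap A.subtype y ∧ gb * coeffMap π z = coeffMap π y) :
    fb = gb :=
  H38.Mz.Red.unique h h'

/-- Series with coefficients in `A` reduce coefficient by coefficient; constants `a ∈ A` reduce to `π a`.
(File `H38MzRed`.) -/
theorem reduction_of_integral (y : LaurentSeries A) (a : A) :
    Red A π (coeffMap A.subtype y) (coeffMap π y) ∧
      Red A π (algebraMap L (LaurentSeries L) (a : L)) (algebraMap k (LaurentSeries k) (π a)) :=
  ⟨H38.Mz.Red.coe y, H38.Mz.Red.const a⟩

/-- The reduction is compatible with products and powers; a series with a reduction `fb ≠ 0` is not `0`,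
and negative powers are allowed.  (File `H38MzRed`.) -/
theorem reduction_rules (hf : Red A π f fb) (hg : Red A π g gb) :
    Red A π (f * g) (fb * gb) ∧ (∀ n : ℕ, Red A π (f ^ n) (fb ^ n)) ∧
      (fb ≠ 0 → f ≠ 0 ∧ ∀ n : ℤ, Red A π (f ^ n) (fb ^ n)) :=
  ⟨hf.mul hg, hf.pow, fun h => ⟨hf.ne_zero h, hf.zpow h⟩⟩

/-- **Constants.**  If `f` and `c f` have reductions `fb ≠ 0` and `gb`, then `c` is in `A` and `gb = c̄ fb`;
if also `gb ≠ 0`, then `c` is a unit.  So the reduction of a multiple `c f` is unique up to a constant.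
(`IsLocalHom π`: the kernel of `π` is the maximal ideal.  File `H38MzRed`.) -/
theorem reduction_scalar [IsLocalHom π] (hf : Red A π f fb) (h0 : fb ≠ 0) {c : L}
    (hc : Red A π (algebraMap L (LaurentSeries L) c * f) gb) :
    ∃ h : c ∈ A, gb = algebraMap k (LaurentSeries k) (π ⟨c, h⟩) * fb ∧
      (gb ≠ 0 → IsUnit (⟨c, h⟩ : A)) :=
  ⟨hf.mem_of_smul h0 hc, hf.smul_eq h0 hc, H38.Mz.isUnit_of_smul hf h0 hc⟩

/-- **Substitutions.**  The reduction commutes with `q ↦ q^n` (`qExpand`), with `q ↦ ζ q` (`H60.twist`,
`ζ` a unit of `A`), and with the product `f(q^(n²)) ∏_{i<n} f(ζ^i q)`, which for a prime `n` and a primitive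
`n`-th root of unity `ζ` is `(T_n f)(q^n)` in multiplicative form (section 3).  (File `H38MzRed`.) -/
theorem reduction_substitutions (hf : Red A π f fb) (n : ℕ) [NeZero n] (ζ : Aˣ) :
    Red A π (qExpand L n f) (qExpand k n fb) ∧
      Red A π (H60.twist (Units.map (A.subtype : A →* L) ζ) f)
        (H60.twist (Units.map (π : A →* k) ζ) fb) ∧
      Red A π (qExpand L n (qExpand L n f) *
          ∏ i ∈ Finset.range n, H60.twist (Units.map (A.subtype : A →* L) ζ ^ i) f)
        (qExpand k n (qExpand k n fb) *
          ∏ i ∈ Finset.range n, H60.twist (Units.map (π : A →* k) ζ ^ i) fb) :=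
  ⟨hf.qExpand n, hf.twist ζ, hf.normSeries n ζ⟩

end Reduction

/-- Over a field this product (`H60.normSeries n ζ x`) is not zero if `x ≠ 0`.  (File `H38MzRed`.) -/
theorem normSeries_ne_zero {k : Type*} [Field k] (n : ℕ) [NeZero n] (ζ : kˣ) {x : LaurentSeries k}
    (hx : x ≠ 0) :
    qExpand k n (qExpand k n x) * ∏ i ∈ Finset.range n, H60.twist (ζ ^ i) x ≠ 0 :=
  H38.Mz.normSeries_ne_zero n ζ hx

/-! ### 2. Kummer functions -/

section Kummer

/-! `H33.IsKum n x f`, for a class `x` of divisors of degree `0` of the function field `F/K`, means: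
`f ≠ 0` and the divisor of `f` is `n D` for a divisor `D` in the class `x`.  The rules are in
`GuideKummerFunctions`, section 1: there is such an `f` exactly if `n x = 0`; sums, negatives and multiples
of classes correspond to products, inverses and powers of functions; an automorphism of `F` which is
semilinear over one of `K` (this is how the Galois group acts) maps a Kummer function of `x` to one of the
image of `x`. -/

variable {K F : Type*} [Field K] [Field F] [Algebra K F] {n : ℕ} {x : Pic0 K F} {f : F}

/-- **The class is zero exactly if the function is an `n`-th power** (`K` algebraically closed).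
(File `H33Kummer`.) -/
theorem class_eq_zero_iff [IsAlgClosed K] [H94.FunField K F] (hn : n ≠ 0) (hf : IsKum n x f) :
    x = 0 ↔ ∃ h : F, f = h ^ n :=
  ⟨fun h0 => let ⟨h, _, e⟩ := hf.unique hn (h0 ▸ IsKum.one K); ⟨h, e.trans (one_mul _)⟩,
    fun ⟨h, e⟩ => hf.eq_zero hn (c := 1) (by rw [map_one, one_mul, e])⟩

/-- **Pull back and push forward** along a finite map `φ : F → F'` of function fields: the Kummer function
of the pull back of `x` is `φ f`, the one of the push forward of `z` is the norm of `g`.
(Files `H44Kum`, `H33NormN`; `H67.pullP`, `H67.pushP` are pull back and push forward of classes.) -/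
theorem kummer_pull_push [IsAlgClosed K] [CharZero K] {F' : Type*} [Field F'] [Algebra K F']
    [H94.FunField K F] [H94.FunField K F'] (φ : F →ₐ[K] F') (hf : IsKum n x f) {z : Pic0 K F'}
    {g : F'} (hg : IsKum n z g) :
    IsKum n (H67.pullP φ x) (φ f) ∧ IsKum n (H67.pushP φ z) (H60.normAlong φ g) :=
  ⟨H44K.isKum_pullP φ hf, hg.pushP φ⟩

/-- **Divisors fixed by Galois.**  For a function field over an algebraically closed field and a place `P₀`
every class `x` of degree `0` contains a divisor `D` with `g D = D` for every semilinear automorphism `g`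
which fixes `P₀` and `x`.  Proof: choose the smallest `n ≥ 0` such that some divisor of the class `x` becomes
effective after adding `n P₀`; this divisor is unique (its Riemann-Roch space has dimension `1`).
(File `H38MzRep`; see also `H40Rep`.) -/
theorem exists_fixed_divisor [IsAlgClosed K] [H3RR.IsFF K F] (P₀ : Place K F) (x : Pic0 K F) :
    ∃ D : Divisor.degZero (K := K) (F := F), Pic0.mk D = x ∧
      ∀ g : SemilinearAut K F, g • P₀ = P₀ → g • x = x → g • (D : Divisor K F) = D :=
  H38.Mz.exists_rep P₀ x

end Kummer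

/-- **Fixed Kummer functions.**  `L` is an algebraically closed field over `ℚ`, `F₀` a field of Laurent
series with rational coefficients, and its base change to `L` contains a series of order `1` (so the order
of series is a place `∞`, and the Galois group fixes it).  For a class `x` with `d x = 0` there are `D` in
the class `x` and `u` with `div u = d D` and leading coefficient `1`, both fixed by every `σ` with
`σ x = x`.  (Take `P₀ = ∞` in `exists_fixed_divisor`; `u` is fixed because its divisor and its leading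
coefficient are.  Files `H38MzRep`, `H1QPlace`.) -/
theorem fixed_kummer_function {L : Type*} [Field L] [Algebra ℚ L] [IsAlgClosed L]
    {F₀ : IntermediateField ℚ (LaurentSeries ℚ)} [H3RR.IsFF L (laurentBaseChange L F₀)]
    (h1 : ∃ t : laurentBaseChange L F₀, (t : LaurentSeries L).order = 1)
    (x : Pic0 L (laurentBaseChange L F₀)) (d : ℕ) (hx : d • x = 0) :
    ∃ (D : Divisor.degZero (K := L) (F := laurentBaseChange L F₀)) (u : laurentBaseChange L F₀),
      Pic0.mk D = x ∧ u ≠ 0 ∧ (∀ v : Place L (laurentBaseChange L F₀),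
        v.ord u = d * (D : Divisor L (laurentBaseChange L F₀)) v) ∧
      (u : LaurentSeries L).leadingCoeff = 1 ∧
      ∀ σ : L ≃ₐ[ℚ] L, σ • x = x → arithmeticGalois F₀ σ • u = u ∧
        arithmeticGalois F₀ σ • (D : Divisor L (laurentBaseChange L F₀)) = D :=
  H38.Mz.exists_fixed_repr h1 x d hx

/-! ### 3. The Hecke operator on functions -/

section Hecke

variable {N ℓ : ℕ} [NeZero N] [NeZero ℓ]

/-- **The Hecke transform** `Th N ℓ f` of a function `f` on `X₀(N)` is the norm along the first degeneracy
map `α` of the pull back along the second one `β` (`β f = f(q^ℓ)`), both from `X₀(N ℓ)` to `X₀(N)`.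
(File `H38MzTheta`.) -/
theorem hecke_transform {f : H67.FB Qb N} (hf : f ≠ 0) :
    H38.Mz.Th N ℓ f = H60.normAlong (heckeAlphaBar Qb N ℓ) (heckeBetaBar Qb N ℓ f) ∧
      H38.Mz.Th N ℓ f ≠ 0 :=
  ⟨rfl, H38.Mz.Th_ne_zero hf⟩

/-- **Its expansion**: `(Th f)(q^ℓ) = f(q^(ℓ²)) ∏_{i<ℓ} f(ζ^i q)` for a prime `ℓ ∤ N`, that is
`Th f = f(q^ℓ) ∏_{i<ℓ} f(ζ^i q^(1/ℓ))`.  Proof: the `ℓ + 1` embeddings over `α` of the function field of
`X₀(N ℓ)` in the series in `q^(1/ℓ)` are the inclusion and, after the Atkin-Lehner automorphism (which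
exchanges `α` and `β`), the substitutions `q ↦ ζ^i q^(1/ℓ)`.
(Files `H60Norm`, `H42HeckeData`, `H38MzTheta`.) -/
theorem hecke_transform_expansion (hℓ : ℓ.Prime) (hℓN : ¬ ℓ ∣ N) {ζ : Qbˣ}
    (hζ : IsPrimitiveRoot ζ ℓ) (f : H67.FB Qb N) :
    qExpand Qb ℓ ((H38.Mz.Th N ℓ f : H67.FB Qb N) : LaurentSeries Qb) =
      qExpand Qb ℓ (qExpand Qb ℓ (f : LaurentSeries Qb)) *
        ∏ i ∈ Finset.range ℓ, H60.twist (ζ ^ i) (f : LaurentSeries Qb) :=
  H38.Mz.qExpand_Th hℓ hℓN hζ f

/-- **Its divisor**: if `div f = d D`, then `div (Th f) = d D'` with `[D'] = T_ℓ [D]`.  So the Hecke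
transform of a Kummer function of `x` is one of `T_ℓ x`.  (File `H38MzTheta`; the push forward of the divisor
of a function is the divisor of its norm, `H67J`.) -/
theorem hecke_transform_divisor (hℓ : ℓ.Prime) {d : ℕ}
    {D : Divisor.degZero (K := Qb) (F := H67.FB Qb N)} {f : H67.FB Qb N} (hf : f ≠ 0)
    (h : ∀ v : Place Qb (H67.FB Qb N), v.ord f = d * (D : Divisor Qb (H67.FB Qb N)) v) :
    ∃ D' : Divisor.degZero (K := Qb) (F := H67.FB Qb N),
      Pic0.mk D' = heckeOperatorBar N ⟨ℓ, hℓ⟩ (Pic0.mk D : Pic0 Qb (H67.FB Qb N)) ∧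
      ∀ v : Place Qb (H67.FB Qb N),
        v.ord (H38.Mz.Th N ℓ f) = d * (D' : Divisor Qb (H67.FB Qb N)) v :=
  H38.Mz.exists_div_Th hℓ hf h

end Hecke

/-- **Eigenclasses**: `[D'] = a [D]` means that `D' - a D` is principal, and if `u`, `v` have the divisors
`d D`, `d D'`, then `v u^(-a)` has the divisor `d (D' - a D)`.  So for an eigenclass `T_ℓ [D] = a [D]` the
function `Th u` is `u^a` times a `d`-th power.  (File `H38MzHecke`.) -/
theorem eigenclass_function {K F : Type*} [Field K] [Field F] [Algebra K F]
    {D D' : Divisor.degZero (K := K) (F := F)} {a : ℤ} :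
    (Pic0.mk D' = a • Pic0.mk D ↔
      ((D' : Divisor K F) - a • (D : Divisor K F)) ∈ Divisor.principal (K := K) (F := F)) ∧
    ∀ {u v : F}, u ≠ 0 → v ≠ 0 → ∀ {d : ℤ}, (∀ P : Place K F, P.ord u = d * (D : Divisor K F) P) →
      (∀ P : Place K F, P.ord v = d * (D' : Divisor K F) P) → ∀ P : Place K F,
        P.ord (v * u ^ (-a)) = d * ((D' : Divisor K F) - a • (D : Divisor K F)) P :=
  ⟨H38.Mz.mk_eq_zsmul_iff, fun hu hv _ h h' P => H38.Mz.ord_mul_zpow_neg hu hv h h' a P⟩

/-! ### 4. Reduction of functions on `X₀(N)` -/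

section Functions

variable {A : ValuationSubring Qb} {k : Type*} [Field k] {π : A →+* k} {N : ℕ} [NeZero N]

/-- The functions on `X₀(N)` which have a reduction form the valuation ring of the first component
(`H34.Two.gC`: the Gauss norm of `q`-expansions, see `GuideReduction`), and the reduction is the residue map
of this ring.  (File `H38MzComp`.) -/
theorem component_iff {f : H67.FB Qb N} {fb : LaurentSeries k} :
    (f ∈ (H34.Two.gC A π N).V ↔ ∃ s, Red A π (f : LaurentSeries Qb) s) ∧
      (Red A π (f : LaurentSeries Qb) fb → (H34.Two.gC A π N).red f = fb) :=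
  ⟨⟨fun h => ⟨_, H38.Mz.red_of_mem h⟩, fun ⟨_, h⟩ => H38.Mz.mem_of_red h⟩, fun h => h.red_eq⟩

/-- **Every function can be normalised**: for `f ≠ 0` there is a constant `c ≠ 0` such that `c f` has a
reduction `≠ 0`.  (A function is a quotient of series whose coefficients are bounded and attain their
maximum.  Files `H34Two4`, `H38MzComp`.) -/
theorem exists_normalisation {f : H67.FB Qb N} (hf : f ≠ 0) :
    ∃ (c : Qb) (fb : LaurentSeries k), c ≠ 0 ∧ fb ≠ 0 ∧
      Red A π (algebraMap Qb (LaurentSeries Qb) c * (f : LaurentSeries Qb)) fb :=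
  H38.Mz.exists_scale_red hf

/-- **Roots**: if `h^n` has a reduction `s ≠ 0`, then `h` has a reduction, which is an `n`-th root of `s`.
(File `H38MzComp`.) -/
theorem reduction_of_root [IsLocalHom π] {h : H67.FB Qb N} {n : ℕ} (hn : n ≠ 0)
    {s : LaurentSeries k} (hs : s ≠ 0) (hr : Red A π ((h : LaurentSeries Qb) ^ n) s) :
    ∃ hb : LaurentSeries k, Red A π (h : LaurentSeries Qb) hb ∧ hb ^ n = s :=
  H38.Mz.red_of_pow hn hs hr

/-- **The Hecke transform of a function with reduction `fb ≠ 0` has a reduction `tb ≠ 0`**, and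
`tb(q^ℓ) = fb(q^(ℓ²)) ∏_{i<ℓ} fb(ζ̄^i q)`.  (File `H38MzComp`.  Here `ζ` is a primitive `ℓ`-th root of unity
in `A`, and `ℓ` may be any prime not dividing `N`.) -/
theorem reduction_of_hecke_transform [IsLocalHom π] {ℓ : ℕ} [NeZero ℓ] (hℓ : ℓ.Prime)
    (hℓN : ¬ ℓ ∣ N) {ζ : Aˣ} (hζ : IsPrimitiveRoot (Units.map (A.subtype : A →* Qb) ζ) ℓ)
    {f : H67.FB Qb N} {fb : LaurentSeries k} (hfb : fb ≠ 0)
    (hf : Red A π (f : LaurentSeries Qb) fb) :
    ∃ tb : LaurentSeries k, tb ≠ 0 ∧
      Red A π ((H38.Mz.Th N ℓ f : H67.FB Qb N) : LaurentSeries Qb) tb ∧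
      qExpand k ℓ tb = qExpand k ℓ (qExpand k ℓ fb) *
        ∏ i ∈ Finset.range ℓ, H60.twist (Units.map (π : A →* k) ζ ^ i) fb :=
  H38.Mz.red_Th hℓ hℓN hζ hfb hf

/-- Such a root of unity exists.  (File `H38MzComp`.) -/
theorem exists_root_of_unity (A : ValuationSubring Qb) {ℓ : ℕ} (hℓ : ℓ.Prime) :
    ∃ ζ : Aˣ, IsPrimitiveRoot (Units.map (A.subtype : A →* Qb) ζ) ℓ :=
  H38.Mz.exists_zeta_unit A ℓ hℓ

end Functions

/-- **The level drops**: at a place `A` above a prime `q ∤ M` the reduction of a function on `X₀(M q)` is a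
function on `X₀(M)` over the residue field.  (The first component of `X₀(M q)` modulo `q` is `X₀(M)`,
`GuideReduction.residue_fields`.  File `H38MzComp2`.) -/
theorem reduction_has_level_M {M q : ℕ} [NeZero M] [Fact q.Prime] (hqM : ¬ q ∣ M)
    {A : ValuationSubring Qb} (hA : A.LiesOverPrime q) {f : H67.FB Qb (M * q)}
    {fb : LaurentSeries (IsLocalRing.ResidueField A)}
    (h : Red A (IsLocalRing.residue A) (f : LaurentSeries Qb) fb) :
    fb ∈ FC (IsLocalRing.ResidueField A) M :=
  H38.Mz.mem_full_of_red hqM hA h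

/-- **Functions lift**: every function on `X₀(M)` over the residue field is the reduction of a function.
(Used in S39 and S40.  File `H38MzComp2`.) -/
theorem functions_lift (M : ℕ) [NeZero M] (A : ValuationSubring Qb)
    {e : LaurentSeries (IsLocalRing.ResidueField A)} (he : e ∈ FC (IsLocalRing.ResidueField A) M) :
    ∃ f : H67.FB Qb M, Red A (IsLocalRing.residue A) (f : LaurentSeries Qb) e :=
  H38.Mz.exists_red_eq M A he

/-- **The first component.**  In the model of `X₀(m q)` with two components modulo `q` (`GuideTwoSheets`) a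
function `f` with `|f| ≤ 1` on the first component reduces there to the reduction of its expansion.
(File `H38S44A`; `H97.v1` is the Gauss norm, `(H34.Two.comp1 ...).red` the residue map.) -/
theorem first_component {A : ValuationSubring Qb} {m q : ℕ} [NeZero m] [NeZero q] [Fact q.Prime]
    [CharP (IsLocalRing.ResidueField A) q] [IsAlgClosed (IsLocalRing.ResidueField A)]
    [Infinite (IsLocalRing.ResidueField A)] (w : H99.AL Qb m q)
    (hπ : Function.Surjective (IsLocalRing.residue A))
    (hdeg : H42.DegLE Qb (IsLocalRing.ResidueField A) m) (hqm : ¬ q ∣ m)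
    {f : H99.FX Qb (m * q)}
    (hf : v1 A (IsLocalRing.residue A) w hπ (H42.degreeFact Qb) hdeg hqm f ≤ 1) :
    Red A (IsLocalRing.residue A) (f : LaurentSeries Qb)
      (((H34.Two.comp1 A (IsLocalRing.residue A) w hπ (H42.degreeFact Qb) hdeg hqm).red f :
        FC (IsLocalRing.ResidueField A) m) : LaurentSeries (IsLocalRing.ResidueField A)) :=
  H38.S44.red_of_v1 w hπ hdeg hqm hf

/-! ### 5. The modular unit -/

/-- A root `y` of a monic polynomial over `K[x]` whose constant term is a constant `c ≠ 0` is a unit where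
`x` is regular.  (File `H9Unit`.) -/
theorem unit_of_root {K O F : Type*} [Field K] [CommRing O] [IsDomain O] [IsIntegrallyClosed O]
    [Field F] [Algebra O F] [IsFractionRing O F] [Algebra K O] (H : K[X][X]) (hm : H.Monic) {c : K}
    (hc : c ≠ 0) (h0 : H.coeff 0 = C c) (x : O) {y : F}
    (hy : (H.map (aeval x : K[X] →ₐ[K] O).toRingHom).eval₂ (algebraMap O F) y = 0) :
    ∃ z : Oˣ, algebraMap O F z = y :=
  H9.exists_unit_of_root H hm hc h0 x hy

/-- **The polynomial of the modular unit.**  `K` is a field which contains a primitive `p`-th root of unity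
`u`.  The series `(p^12 Δ(q^p)/Δ(q))^p` is a root of a monic polynomial over `K[j]` whose constant term is a
constant `≠ 0`.  Proof: the other roots are `(Δ(u^i q^(1/p))/Δ(q))^p`, `i < p`; the product of all roots is a
polynomial in `j`, and it has no pole at `q = 0`.  (File `H9Unit`; `H66.phiAt` substitutes a series for `j`,
`H66.J K 1 = j`.) -/
theorem exists_unit_polynomial {K : Type*} [Field K] {p : ℕ} [Fact p.Prime] {u : Kˣ}
    (hp0 : (p : K) ≠ 0) (hu : IsPrimitiveRoot u p) :
    ∃ (H : K[X][X]) (c : K), H.Monic ∧ c ≠ 0 ∧ H.coeff 0 = C c ∧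
      (H66.phiAt K H (H66.J K 1)).eval
        ((HahnSeries.C ((p : K) ^ 12) * qExpand K p (H28.deltaL K) * H28.deltaInvL K) ^ p) = 0 :=
  H9.exists_poly_vv hp0 hu

/-- **`Δ(q^p)/Δ(q)` has no zeros and no poles outside the cusps.**  `F` is a function field in `K((q))`,
`J₀` and `V` are elements of it with expansions `j` and `Δ(q^p)/Δ(q)`, and `v` is a place with
`v(J₀) ≥ 0`.  (File `H38DvA`; the same for the field of `X₀(p)` in `H9Unit`.) -/
theorem unit_has_no_zeros {K : Type*} [Field K] [IsAlgClosed K] {p : ℕ} [Fact p.Prime]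
    {F : IntermediateField K (LaurentSeries K)} [H94.FunField K F] (hp0 : (p : K) ≠ 0)
    (v : Place K F) {J₀ V : F} (hJ : (J₀ : LaurentSeries K) = jqModC K)
    (hV : (V : LaurentSeries K) = qExpand K p (H28.deltaL K) * H28.deltaInvL K)
    (hv : 0 ≤ v.ord J₀) : v.ord V = 0 :=
  H38.Dv.ord_unit hp0 v hJ hV hv

/-- The Atkin-Lehner automorphism `w` of the function field of `X₀(m q)` (`H99.AL`: an involution over the
constants which exchanges the two embeddings of the field of `X₀(m)`) exchanges `j(q)` (`jmq`) and `j(q^q)`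
(`jmb`), and both are transcendental over the constants.  (File `H38DvA`.) -/
theorem atkinLehner_j {L : Type*} [Field L] [Algebra ℚ L] [IsAlgClosed L] [CharZero L] {m q : ℕ}
    [NeZero m] [NeZero q] [Fact q.Prime] (w : H99.AL L m q) :
    w.W (jmq L m q) = jmb L m q ∧ w.W (jmb L m q) = jmq L m q ∧
      Transcendental L (jmq L m q) ∧ Transcendental L (jmb L m q) :=
  ⟨H38.Dv.W_jmq w, H38.Dv.W_jmb w, H38.Dv.transcendental_jmq, H38.Dv.transcendental_jmb w⟩

/-! ### 6. Its reduction -/

/-- `Δ(t^q)/Δ(t)` has coefficients in `ℤ`, because `Δ = t + ...` has, so it can be reduced modulo `q`.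
(File `H38DvC`.) -/
theorem delta_ratio_integral (K : Type*) [Field K] (q : ℕ) [NeZero q] :
    qExpand K q (H28.deltaL K) * H28.deltaInvL K =
      coeffMap (Int.castRingHom K) (qExpand ℤ q (H28.deltaL ℤ) * H28.deltaInvL ℤ) :=
  H38.Dv.coe_deltaRatio_int K q

/-- **In characteristic `q`** one has `Δ(t^q) = Δ(t)^q` (coefficients in the prime field), so
`Δ(t^q)/Δ(t) = Δ(t)^{q-1}`.  In classical terms this function is the form `Δ^{q-1}` of weight `12 (q-1)`
divided by the 12-th power of the Hasse invariant, a form of weight `q-1` with expansion `1` and with simple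
zeros at the supersingular points; this explains its order `-12` at these points (if `4 ∣ m` or `9 ∣ m`, so
that there are no elliptic points).  (File `H38DvC`; the Hasse invariant is not used.) -/
theorem delta_ratio_char (k : Type*) [Field k] (q : ℕ) [Fact q.Prime] [NeZero q] [CharP k q] :
    qExpand k q (H28.deltaL k) * H28.deltaInvL k = H28.deltaL k ^ (q - 1) :=
  H38.Dv.deltaRatio_char k q

/-- **Order of a reduction at a smooth point.**  `S` is a two-sheeted model of `F/K` (`H97.Sheets`), `x` a
point of the first component which is not a node.  A function `V` with `|V| = 1` on this component and with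
no zeros and poles among the points `P` whose image under `F₀ ⊂ F` reduces to `x` (`S.red P = x`) has a
reduction of order `0` at `x`.  (File `H38DvB`; at a node: `GuideLevelsS44.order_at_node`.) -/
theorem order_at_smooth_point {K F₀ F k κF Γ : Type*} [Field K] [Field F₀] [Field F]
    [Algebra K F₀] [Algebra K F] [Field k] [Field κF] [Algebra k κF]
    [LinearOrderedCommGroupWithZero Γ] {q : ℕ} (S : Sheets K F₀ F k κF Γ q) [IsAlgClosed K]
    [CharZero K] [H3RR.IsFF K F₀] [H3RR.IsFF K F] [IsAlgClosed k] [H3RR.IsFF k κF]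
    [H94.FunField K F₀] [H94.FunField K F] [Fact q.Prime] [CharP k q] {x : Place k κF}
    (hx : ¬ S.Node x) {V : F} (hV1 : S.v false V = 1) (hord : ∀ P, S.red P = x → P.ord V = 0) :
    x.ord (S.ρ false V) = 0 :=
  H38.Dv.ord_smooth S hx hV1 hord

/-- **The unit on the model of `X₀(m q)`.**  Situation of `GuideLevelsS44.special_fibre`: `S` is the model of
`X₀(m q)` over `X₀(m)` at `A` (`H97.sheets`).  It is defined under these hypotheses: `A` has rank one
(`H97.Arch`), and `r` is the reduction of the points of `X₀(m)`, that is, if a function has a reduction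
`≠ 0`, then the divisor of the reduction is the image under `r` of its divisor (`H34.GR.DivCompat`), and for
divisors `D` of large degree the reduction of `L(D)` is `L(r D)` (`IsRed`).  (1) There is a function `V` with
`|V| = 1` on the first component and `|V| = |q|^{-12}` on the second (because `V · w V = q^{-12}`), with
reduction `Δ̄^{q-1}` on the first and with no zeros and poles outside the cusps.  (2) So `Δ̄^{q-1}` is a
function on `X₀(m)` in characteristic `q`.  (3) A point `P` of `X₀(m q)` whose image in `X₀(m)` reduces to a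
point `x` that is not a cusp is not a cusp.  (Cusps are the poles of `j`, which is `jmq` on `X₀(m q)` and
`jk` on the curve `X₀(m)` over `k`.  File `H38DvC`.) -/
theorem unit_on_the_model {L : Type*} [Field L] [Algebra ℚ L] {A : ValuationSubring L} {k : Type*}
    [Field k] {π : A →+* k} {m q : ℕ} [NeZero m] [NeZero q] [Fact q.Prime] [CharP k q]
    [IsAlgClosed k] [Infinite k] (w : H99.AL L m q) (hπ : Function.Surjective π)
    (hdeg : H42.DegLE L k m) (hqm : ¬ q ∣ m) [IsAlgClosed L] [CharZero L] [IsLocalHom π]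
    (arch : Arch A) (r : Place L (H99.FX L m) → Place k (FC k m)) {c : ℕ}
    (hr1 : ∀ D : Divisor L (H99.FX L m), (c : ℤ) < Divisor.degree D →
      (H42.modReductionData A π m hπ hdeg).IsRed D (Finsupp.mapDomain r D))
    (hr2 : H34.GR.DivCompat (H42.modReductionData A π m hπ hdeg) r)
    [H3RR.IsFF L (H99.FX L m)] [H3RR.IsFF L (H99.FX L (m * q))] [H3RR.IsFF k (FC k m)]
    [H94.FunField L (H99.FX L m)] [H94.FunField L (H99.FX L (m * q))]
    {S : Sheets L (H99.FX L m) (H99.FX L (m * q)) k (FC k m) A.ValueGroup q}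
    (hS : S = sheets w hπ hdeg hqm arch r hr1 hr2) :
    (∃ V : H99.FX L (m * q), S.v false V = 1 ∧ S.v true V = S.vK q ^ (-12 : ℤ) ∧
      (S.ρ false V : LaurentSeries k) = H28.deltaL k ^ (q - 1) ∧
      ∀ P : Place L (H99.FX L (m * q)), 0 ≤ P.ord (jmq L m q) → P.ord V = 0) ∧
    (∃ ub : FC k m, (ub : LaurentSeries k) = H28.deltaL k ^ (q - 1)) ∧
    ∀ x : Place k (FC k m), 0 ≤ x.ord (jk k m) → ∀ P, S.red P = x → 0 ≤ P.ord (jmq L m q) := by
  subst hS
  exact ⟨H38.Dv.exists_V w hπ hdeg hqm arch r hr1 hr2, H38.Dv.exists_ubar w hπ hdeg hqm arch r hr1 hr2,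
    fun x hx P hP => H38.Dv.ord_jmq_of_red w hπ hdeg hqm arch r hr1 hr2 hx hP⟩

/-! ### 7. Assembly -/

/-- **The auxiliary level changes nothing modulo `p ≥ 5`**: for `M₀ ∣ M ∣ 4 M₀` the degree `d` of `X₀(M)`
over `X₀(M₀)` is prime to `p` (it is `1`, `2`, `3`, `4` or `6`; `dedekindPsi` is the index of `Γ₀(N)`).
(Files `H38S44A`, `H38DvD`.) -/
theorem degree_prime_to_p {p M₀ M : ℕ} (hp : p.Prime) (hp5 : 5 ≤ p) [NeZero M₀] (h : M₀ ∣ M)
    (h4 : M ∣ 4 * M₀) : ∃ d, dedekindPsi M = d * dedekindPsi M₀ ∧ ¬ p ∣ d :=
  H38.S44.exists_deg hp hp5 h h4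

/-- **Kummer functions at the auxiliary level.**  (`Tor W p` is `E[p]`.)  If the new embedding `E` of level
`M p` is the pull back of `E₀`, of level `M₀ p`, then the functions `U₀ x` of `E₀`, seen as functions on
`X₀(M p)` (`H67.dg Qb 1 h` is the inclusion of function fields), are Kummer functions of `E`, and they are
still fixed by the stabiliser of `x`.  (File `H44Kum`.) -/
theorem kummer_at_aux_level {W : WeierstrassCurve ℤ} {p : Nat.Primes} {M M₀ : ℕ} [NeZero M]
    [NeZero (M * p)] [NeZero (p : ℕ)] [NeZero M₀] [NeZero (M₀ * p)] {S S₀ : Set ℕ}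
    (E₀ : NewEmb W p M₀ S₀) (E : NewEmb W p M S) (h : M₀ * p * 1 ∣ M * p)
    (hE : ∀ x, E.ι x = H67.degPull 1 h (E₀.ι x)) {U₀ : Tor W p → H99.FX Qb (M₀ * p)}
    (hU₀ : ∀ x, IsKum p (E₀.ι x) (U₀ x))
    (hfix : ∀ (x : Tor W p) (σ : Qb ≃ₐ[ℚ] Qb), σ • x = x →
      arithmeticGalois (modularFunctionFieldFull (M₀ * p)) σ • U₀ x = U₀ x) (x : Tor W p) :
    IsKum p (E.ι x) (H67.dg Qb 1 h (U₀ x)) ∧ ∀ σ : Qb ≃ₐ[ℚ] Qb, σ • x = x →
      arithmeticGalois (modularFunctionFieldFull (M * p)) σ • H67.dg Qb 1 h (U₀ x) =
        H67.dg Qb 1 h (U₀ x) :=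
  ⟨H44K.isKum_dg E₀ E h hE hU₀ x, H44K.fixed_dg h hfix x⟩

/-- **The norm operator and `U_p`.**  The operator `f ↦ ∏_{i<p} f(ζ^i q^{1/p})` on functions on `X₀(M p)`
(`H40.Nrm.nOp`) is `f ↦ α^* α_* (w f) / w f`.  On classes this is `α^* α_* w - w = w U_p w`, the transpose of
`U_p = β^* α_* - w` (`GuideLevelsAtP.heckeOperator_add_wJ`); on a new class, which is killed by `α_*` and by
`α_* w`, it is `-w`, like `U_p`.  (File `H38S44B`.) -/
theorem norm_operator {p M : ℕ} [Fact p.Prime] [NeZero p] [NeZero M] (w : H99.AL Qb M p)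
    (hpM : ¬ p ∣ M) {ζ : Qbˣ} (hζ : IsPrimitiveRoot ζ p) (f : H99.FX Qb (M * p)) :
    H40.Nrm.nOp hpM hζ f =
      heckeAlphaBar Qb M p (H60.normAlong (heckeAlphaBar Qb M p) (w.W f)) * (w.W f)⁻¹ :=
  H38.S44.nOp_eq w hpM hζ f

/-- **From the orders of the reduction to residual modularity.**  `W` is an integral Weierstrass equation
with irreducible `E[p]`, `p ≥ 5`, embedded in `J₀(M₀ p)` as a new module (`E₀`), `M₀` squarefree;
`M₀ ∣ M ∣ 4 M₀`, `4 ∣ M`.  `S` is the model of `X₀(M p)` over `X₀(M)` at a place `A` above `p`.  Let `u₀` be a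
Kummer function of `z ∈ E[p]` and `u = a u₀` a multiple with `|u| = 1` on the first component, whose
reduction `S.ρ false u` has orders which are congruent modulo `p` at all nodes and divisible by `p` at the
other points, and is not a `p`-th power.  Then `W` is residually modular of level `M₀`.  Proof: outside the
cusps `12` times the divisor of the reduction is modulo `p` a multiple of the one of `Δ̄^{p-1}`
(`GuideLevelsS44.special_fibre`); apply `GuideLevelsS44.modular_of_reduction`, with `a_ℓ ≢ ℓ + 1` for some `ℓ`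
because `E[p]` is irreducible (`H62NE`).  The hypotheses on the orders are the result of the node analysis
(`GuideLevelsS44.node_congruence` and the theorems next to it).  (File `H38S44A`.) -/
theorem modular_of_orders {A : ValuationSubring Qb} {W : WeierstrassCurve ℤ} {p : Nat.Primes}
    [Fact (p : ℕ).Prime] [NeZero (p : ℕ)] (hp5 : 5 ≤ (p : ℕ)) (hA : A.LiesOverPrime p)
    (hΔ : W.Δ ≠ 0) (hirr : W.ModRepIsIrreducible p) {M₀ M : ℕ} [NeZero M₀] [NeZero M]
    [NeZero (M₀ * p)] [NeZero (M * p)] (hM₀ : Squarefree M₀) (hdvd : M₀ ∣ M) (h4 : M ∣ 4 * M₀)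
    (h4M : 4 ∣ M) (hpM : ¬ (p : ℕ) ∣ M) {T : Set ℕ}
    (hT : ∀ ℓ : ℕ, ℓ.Prime → W.IsGoodPrimeFor ℓ → ¬ ℓ ∣ M₀ → ℓ ≠ p → ℓ ∉ T)
    (E₀ : NewEmb W p M₀ T) [CharP (IsLocalRing.ResidueField A) p]
    [IsAlgClosed (IsLocalRing.ResidueField A)] [Infinite (IsLocalRing.ResidueField A)]
    (w : H99.AL Qb M p) (hπ : Function.Surjective (IsLocalRing.residue A))
    (hdeg : H42.DegLE Qb (IsLocalRing.ResidueField A) M) (arch : Arch A)
    (r : Place Qb (H99.FX Qb M) →
      Place (IsLocalRing.ResidueField A) (FC (IsLocalRing.ResidueField A) M)) {c : ℕ}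
    (hr1 : ∀ D : Divisor Qb (H99.FX Qb M), (c : ℤ) < Divisor.degree D →
      (H42.modReductionData A (IsLocalRing.residue A) M hπ hdeg).IsRed D (Finsupp.mapDomain r D))
    (hr2 : H34.GR.DivCompat (H42.modReductionData A (IsLocalRing.residue A) M hπ hdeg) r)
    [H3RR.IsFF Qb (H99.FX Qb M)] [H3RR.IsFF Qb (H99.FX Qb (M * p))]
    [H3RR.IsFF (IsLocalRing.ResidueField A) (FC (IsLocalRing.ResidueField A) M)]
    [H94.FunField Qb (H99.FX Qb M)] [H94.FunField Qb (H99.FX Qb (M * p))]
    {S : Sheets Qb (H99.FX Qb M) (H99.FX Qb (M * p)) (IsLocalRing.ResidueField A)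
      (FC (IsLocalRing.ResidueField A) M) A.ValueGroup p}
    (hS : S = sheets w hπ hdeg hpM arch r hr1 hr2)
    {z : Tor W p} {u₀ : H99.FX Qb (M₀ * p)} (hu₀ : IsKum p (E₀.ι z) u₀) {a : Qb}
    {u : H99.FX Qb (M * p)}
    (hu : (u : LaurentSeries Qb) = algebraMap Qb (LaurentSeries Qb) a * (u₀ : LaurentSeries Qb))
    (hv : S.v false u = 1)
    (hnode : ∀ s s', S.Node s → S.Node s' →
      ((p : ℕ) : ℤ) ∣ s.ord (S.ρ false u) - s'.ord (S.ρ false u))
    (hsm : ∀ s, ¬ S.Node s → ((p : ℕ) : ℤ) ∣ s.ord (S.ρ false u))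
    (hpow : ∀ h : FC (IsLocalRing.ResidueField A) M, S.ρ false u ≠ h ^ (p : ℕ)) :
    W.IsResiduallyModularOfLevel p M₀ := by
  subst hS
  exact H38.S44.resModular_of_core hp5 hA hΔ hirr hM₀ hdvd h4 h4M hpM hT E₀ w hπ hdeg arch r hr1 hr2
    hu₀ hu hv hnode hsm hpow

end Fermat.Agent.Guide.S44Steps
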