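import Fermat.Agent.S28

/-!
# Reader's guide: the fibre of `X₀(N)` at a prime not dividing `N`, in detail (S28)

This file contains no new mathematics. Every theorem below is proved by citing a theorem of the
library (files `H28*`, helper28). It shows the steps of the theorem `saturation` of the guide
ModularCurves. Only `Guide` imports this file.

## What the block does

`N ≥ 1`, `ℓ` a prime not dividing `N`, `𝒪 = ℤ_(ℓ)`, `F = ℚ(j(q^d) : d ∣ N)` inside `ℚ((q))`. The
Igusa model of `X₀(N)` over `𝒪` has two charts: the integral closures of `𝒪[j]` and of `𝒪[1/j]` in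
`F`. Its fibre at `ℓ` is geometrically integral as soon as these two rings are saturated: if all
coefficients of an element `f` are divisible by `ℓ`, then `f = ℓ g` with `g` in the same ring. This
needs neither a moduli problem nor a regular model, only the fact that the degree of `F` over the field
of `j` is the same number `ψ(N)` in characteristic zero and in characteristic `ℓ` (guides
ModularCurves, section 3, and ModularEquation).

**Idea.** Put `n = ψ(N)`.
1. Over an algebraically closed field `K` of characteristic `ℓ` choose `n` monomials in the series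
   `j(q^d)` which are linearly independent over `K(j)`. Monomials have coefficients in `ℤ`, so the
   same monomials make sense in characteristic zero.
2. Any `n + 1` elements of `F` are linearly dependent over `ℚ(j)` (degree theorem over `ℂ` and descent
   of linear relations from `ℂ` to `ℚ`), so every `f` in `F` satisfies a relation
   `D(j) f = ∑ E_i(j) β_i` with polynomials which are not all zero, where the `β_i` are the `n` monomials.
3. Let `f` have `ℓ`-integral coefficients. Divide the relation by the correct power of `ℓ`: then not all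
   polynomials are divisible by `ℓ`, and by step 1 in characteristic `ℓ` the polynomial `D` is not
   divisible by `ℓ`. For a given `g` with `ℓ`-integral coefficients apply this to the `n` products
   `f = g β_k`, and let `D` be the product of the polynomials obtained. Multiplication by `D(j) g` maps
   the finite `𝒪[j]`-module generated by the `β_i` to itself, so `D(j) g` is integral over `𝒪[j]`; and
   `D` is not divisible by `ℓ`, because `ℓ` is a prime element of `𝒪[X]`.
4. If `ℓ g` and `D(j) g` are integral over the integrally closed ring `𝒪[j]`, so is `g` (compare the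
   minimal polynomials: `ℓ` is a prime element which does not divide `D`).
5. The chart at infinity is reduced to the finite chart by multiplication with powers of `j` and `1/j`,
   and by step 4 for `𝒪[1/j]` with `D = X^M`.

The other steps of S28 (coefficients of functions on the charts, reduction of expansions, schemes) are
in the guide IgusaModel; the degree theorem is in the guide ModularEquation.

References: NOTES.md, Appendix A.4, [116] and [136]. Sections 1-5 are used in S28 only (the proof of
S01 does not pass through S28); section 6 is used in all statements on modular curves and in S01.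
-/

set_option autoImplicit false

namespace Fermat.Agent.Guide.Saturation

open Polynomial ModularCurve ModularCurve.IgusaScheme IntermediateField

/-! ## 1. The ring `ℤ_(ℓ)` -/

section Local

variable (ℓ : ℕ) [Fact ℓ.Prime]

/-- The ring `ℤ_(ℓ)` is the subring `GaloisRep.ratLocalizedAt ℓ` of `ℚ` of all fractions whose
denominator is prime to `ℓ`; an element is divisible by `ℓ` in `ℤ_(ℓ)` if and only if its numerator
is. File `H28Reduction`. -/
theorem ratLocalizedAt (x : ℚ) :
    (x ∈ GaloisRep.ratLocalizedAt ℓ ↔ x.den.Coprime ℓ) ∧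
      ∀ y : ↥(GaloisRep.ratLocalizedAt ℓ),
        ((ℓ : ↥(GaloisRep.ratLocalizedAt ℓ)) ∣ y ↔ (ℓ : ℤ) ∣ (y : ℚ).num) :=
  ⟨H28.mem_ratLoc_iff ℓ, H28.dvd_ratLoc_iff ℓ⟩

/-- `ℤ_(ℓ)` is a valuation ring, integrally closed, with maximal ideal generated by the prime element
`ℓ`. File `H28Reduction`. -/
theorem ratLocalizedAt_valuationRing :
    ValuationRing ↥(GaloisRep.ratLocalizedAt ℓ) ∧
      IsIntegrallyClosed ↥(GaloisRep.ratLocalizedAt ℓ) ∧
      (Ideal.span {(ℓ : ↥(GaloisRep.ratLocalizedAt ℓ))}).IsMaximal ∧
      Prime (ℓ : ↥(GaloisRep.ratLocalizedAt ℓ)) :=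
  ⟨H28.valuationRing_ratLoc ℓ, H28.isIntegrallyClosed_ratLoc ℓ, H28.isMaximal_span_ratLoc ℓ,
    H28.prime_ratLoc ℓ⟩

/-- **Normalisation of a relation.** A finite family of rational polynomials, not all zero, can be
multiplied by a rational number `c ≠ 0` so that all coefficients are in `ℤ_(ℓ)` and one of them is `1`
(divide by a coefficient of smallest `ℓ`-adic valuation). File `H28Reduction`. -/
theorem exists_normalised {κ : Type*} [Fintype κ] (E : κ → ℚ[X]) (hE : ∃ k, E k ≠ 0) :
    ∃ (c : ℚ) (E' : κ → (↥(GaloisRep.ratLocalizedAt ℓ))[X]), c ≠ 0 ∧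
      (∀ k, (E' k).map (GaloisRep.ratLocalizedAt ℓ).subtype = C c * E k) ∧
      ∃ k m, (E' k).coeff m = 1 :=
  H28.exists_normalized ℓ E hE

end Local

/-! ## 2. Polynomials in the series `j`

`jqModC R` is the series `j = 1/q + 744 + 196884 q + …` with coefficients in the commutative ring `R`,
and `H28.evJ R : R[X] → R((q))` is the evaluation of polynomials at `j`. -/

/-- `H28.evJ R P` is `P(j)`: the ring homomorphism from `R[X]` to `R((q))` with `X ↦ j`.
File `H28Reduction`. -/
theorem evaluation_at_j (R : Type*) [CommRing R] :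
    H28.evJ R X = jqModC R ∧ (∀ r : R, H28.evJ R (C r) = HahnSeries.C r) ∧
      H28.evJ R = eval₂RingHom HahnSeries.C (jqModC R) :=
  ⟨H28.evJ_X, H28.evJ_C, rfl⟩

/-- **`j` is transcendental over every ring** (it has a pole of order one with leading coefficient
`1`), and evaluation at `j` commutes with reduction of the coefficients along a ring homomorphism.
File `H28Reduction`. -/
theorem j_transcendental {R S : Type*} [CommRing R] [CommRing S] (f : R →+* S) :
    Function.Injective (H28.evJ R) ∧
      ∀ P : R[X], coeffMap f (H28.evJ R P) = H28.evJ S (P.map f) :=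
  ⟨H28.evJ_injective, H28.coeffMap_evJ f⟩

/-- The same inside the function field `F` of `X₀(N)` over `ℚ`: `jFull N` is the element `j` of `F`,
the expansion of `P(j)` is `P` evaluated at the series `j`, and `j` and `1/j` are transcendental over
`ℤ_(ℓ)`. File `H28Reduction`. -/
theorem evaluation_in_function_field (N : ℕ) [NeZero N] (ℓ : ℕ) [Fact ℓ.Prime] :
    (∀ P : (↥(GaloisRep.ratLocalizedAt ℓ))[X],
      ((aeval (jFull N) P : ↥(modularFunctionFieldFull N)) : LaurentSeries ℚ) =
        H28.evJ ℚ (P.map (GaloisRep.ratLocalizedAt ℓ).subtype)) ∧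
    Function.Injective (aeval (R := ↥(GaloisRep.ratLocalizedAt ℓ)) (jFull N)) ∧
    Function.Injective (aeval (R := ↥(GaloisRep.ratLocalizedAt ℓ)) (jFull N)⁻¹) :=
  ⟨H28.coe_aeval_jFull, H28.aeval_jFull_injective, H28.aeval_jFull_inv_injective⟩

/-! ## 3. Monomials in the series `j(q^d)`

`H28.monoJ N R` is the set of all products of series `j(q^d)`, `d ∣ N`, with coefficients in `R`, and
`modularFunctionFieldFullC K N = K(j(q^d) : d ∣ N)` is the function field over the field `K`. -/

section Monomials

/-- The monomials, by definition: the submonoid of `R((q))` generated by the series `j(q^d)`, `d ∣ N`.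
File `H28Degree`. -/
theorem monomials_def (N : ℕ) (R : Type*) [CommRing R] :
    H28.monoJ N R = Submonoid.closure
      {x | ∃ (d : ℕ) (_ : NeZero d), d ∣ N ∧ x = qExpand R d (jqModC R)} :=
  rfl

/-- Every monomial over `R` is the image of a monomial with coefficients in `ℤ`, and a ring
homomorphism maps monomials to monomials. File `H28Degree`. -/
theorem monomials_integral (N : ℕ) {R S : Type*} [CommRing R] [CommRing S] (f : R →+* S)
    {x : LaurentSeries R} (hx : x ∈ H28.monoJ N R) :
    (∃ β ∈ H28.monoJ N ℤ, coeffMap (Int.castRingHom R) β = x) ∧ coeffMap f x ∈ H28.monoJ N S :=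
  ⟨H28.exists_int_of_mem_monoJ N hx, H28.coeffMap_mem_monoJ N f hx⟩

/-- **A basis of monomials.** If the degree of `K(j(q^d) : d ∣ N)` over `K(j)` is `n > 0`, there is a
set of `n` monomials which are linearly independent over `K(j)`: the monomials span the field over
`K(j)`, because the series `j(q^d)` are algebraic over `K(j)`. File `H28Degree`; used in
characteristic `ℓ`. -/
theorem exists_monomial_basis {N : ℕ} {K : Type} [Field K] {n : ℕ} (hn : 0 < n)
    (h : relfinrank K⟮jqModC K⟯ (modularFunctionFieldFullC K N) = n) :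
    ∃ b : Set (LaurentSeries K), b ⊆ H28.monoJ N K ∧ Nat.card b = n ∧
      LinearIndependent K⟮jqModC K⟯ ((↑) : b → LaurentSeries K) :=
  H28.exists_monomial_basis hn h

/-- **More than `n` elements of the field are linearly dependent over `K(j)`**, if `n > 0` is the
degree. File `H28Degree`; used over `ℂ`. -/
theorem not_linearIndependent {N : ℕ} {K : Type} [Field K] {n : ℕ} (hn : 0 < n)
    (h : relfinrank K⟮jqModC K⟯ (modularFunctionFieldFullC K N) = n) {ι : Type*} [Fintype ι]
    (v : ι → LaurentSeries K) (hv : ∀ i, v i ∈ modularFunctionFieldFullC K N)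
    (hcard : n < Fintype.card ι) : ¬ LinearIndependent K⟮jqModC K⟯ v :=
  H28.not_linearIndependent hn h v hv hcard

/-- **From dependence to polynomial relations.** If the series `v i` are linearly dependent over the
field `K(j)`, there are polynomials `P i`, not all zero, with `∑ P_i(j) v_i = 0` (common
denominator); the converse for independence: if they are independent and `∑ P_i(j) v_i = 0`, then all
`P_i` are zero. File `H28Degree`. -/
theorem polynomial_relations {K : Type} [Field K] {ι : Type*} [Fintype ι] {v : ι → LaurentSeries K} :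
    (¬ LinearIndependent K⟮jqModC K⟯ v →
      ∃ P : ι → K[X], (∃ i, P i ≠ 0) ∧ ∑ i, H28.evJ K (P i) * v i = 0) ∧
    (LinearIndependent K⟮jqModC K⟯ v →
      ∀ P : ι → K[X], ∑ i, H28.evJ K (P i) * v i = 0 → ∀ i, P i = 0) :=
  ⟨H28.exists_sum_evJ_of_not_linearIndependent, fun h => H28.eq_zero_of_sum_evJ h⟩

/-- **Descent to `ℚ`.** Series with rational coefficients which satisfy a nontrivial relation
`∑ P_i(j) v_i = 0` with polynomials over a larger field `L` satisfy one with rational polynomials (apply
a `ℚ`-linear form `L → ℚ` to all coefficients). File `H28Degree`; used for `L = ℂ`. -/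
theorem descent_of_relations {L : Type*} [Field L] [Algebra ℚ L] {ι : Type*} [Fintype ι]
    (v : ι → LaurentSeries ℚ) (P : ι → L[X]) (hP : ∃ i, P i ≠ 0)
    (h : ∑ i, H28.evJ L (P i) * coeffMap (algebraMap ℚ L) (v i) = 0) :
    ∃ Q : ι → ℚ[X], (∃ i, Q i ≠ 0) ∧ ∑ i, H28.evJ ℚ (Q i) * v i = 0 :=
  H28.exists_descent v P hP h

end Monomials

/-! ## 4. The data for the comparison of the two characteristics -/

section Data

variable (N : ℕ) [NeZero N] (ℓ : ℕ) [Fact ℓ.Prime]

/-- The notion `H28.DegreeData N ℓ`: finitely many series `β i` in `F` with coefficients in `ℤ` and a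
ring homomorphism `r` from `ℤ_(ℓ)` to a field `K` with `r ℓ = 0`, such that the `β i` are linearly
independent over `K(j)` and every `f` in `F` satisfies a relation `D(j) f = ∑ E_i(j) β_i` with rational
polynomials which are not all zero. File `H28Reduction`. -/
theorem degreeData_iff : Nonempty (H28.DegreeData N ℓ) ↔
    ∃ (ι : Type) (_ : Fintype ι) (_ : Nonempty ι) (β : ι → LaurentSeries ℤ) (K : Type) (_ : Field K)
      (r : ↥(GaloisRep.ratLocalizedAt ℓ) →+* K),
      (∀ i, coeffMap (Int.castRingHom ℚ) (β i) ∈ modularFunctionFieldFull N) ∧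
      r (ℓ : ↥(GaloisRep.ratLocalizedAt ℓ)) = 0 ∧
      (∀ P : ι → K[X], ∑ i, H28.evJ K (P i) * coeffMap (Int.castRingHom K) (β i) = 0 →
        ∀ i, P i = 0) ∧
      ∀ f ∈ modularFunctionFieldFull N, ∃ (D : ℚ[X]) (E : ι → ℚ[X]), (D ≠ 0 ∨ ∃ i, E i ≠ 0) ∧
        H28.evJ ℚ D * f = ∑ i, H28.evJ ℚ (E i) * coeffMap (Int.castRingHom ℚ) (β i) :=
  ⟨fun ⟨d⟩ => ⟨d.ι, d.fin, d.ne, d.β, d.K, d.fieldK, d.r, d.hβ, d.hr0, d.H1, d.H2⟩,
    fun ⟨ι, i₁, i₂, β, K, i₃, r, h₁, h₂, h₃, h₄⟩ =>
      ⟨@H28.DegreeData.mk N _ ℓ _ ι i₁ i₂ β h₁ K i₃ r h₂ h₃ h₄⟩⟩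

/-- **Equality of the two degrees gives the data**: if the field of modular functions has the same
degree `n > 0` over the field of `j` over a field `K` of characteristic `ℓ` and over a field `L`
containing `ℚ`, the data exist (steps 1 and 2 of the header). File `H28Degree`. -/
theorem exists_degreeData {n : ℕ} (hn : 0 < n) (K : Type) [Field K]
    (r : ↥(GaloisRep.ratLocalizedAt ℓ) →+* K) (hr0 : r (ℓ : ↥(GaloisRep.ratLocalizedAt ℓ)) = 0)
    (hK : relfinrank K⟮jqModC K⟯ (modularFunctionFieldFullC K N) = n) (L : Type) [Field L]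
    [Algebra ℚ L] (hL : relfinrank L⟮jqModC L⟯ (modularFunctionFieldFullC L N) = n) :
    Nonempty (H28.DegreeData N ℓ) :=
  H28.nonempty_degreeData hn K r hr0 hK L hL

/-- **The data exist** for every prime `ℓ` not dividing `N`, because the degree is `ψ(N)` over every
algebraically closed field in which `N ≠ 0` (`H66Degree`, guide ModularEquation). File `H28Final`. -/
theorem exists_degreeData_of_not_dvd (hℓN : ¬ ℓ ∣ N) : Nonempty (H28.DegreeData N ℓ) :=
  H28.nonempty_degreeData_of_degreeTheorem N ℓ hℓN fun K _ _ => H66.relfinrank_full K N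

end Data

/-! ## 5. Integral elements -/

section Integral

/-- The minimal polynomial of `c g` is obtained from the one of `g` by scaling the roots with `c`.
File `H28Algebra`. -/
theorem minpoly_smul {K L : Type*} [Field K] [Field L] [Algebra K L] {c : K} (hc : c ≠ 0) {g : L}
    (hg : IsIntegral K g) : minpoly K (c • g) = (minpoly K g).scaleRoots c :=
  H28.minpoly_smul_eq hc hg

/-- **Two multiples.** Let `A` be an integrally closed domain, `π` a prime element of `A` which does not
divide `D`. If `π g` and `D g` are integral over `A`, then `g` is integral over `A`: the coefficients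
`c` of the minimal polynomial of `g` satisfy `π^k c ∈ A` and `D^k c ∈ A` for some `k`, hence `c ∈ A`.
File `H28Algebra`. -/
theorem isIntegral_of_two_multiples {A L : Type*} [CommRing A] [IsDomain A] [IsIntegrallyClosed A]
    [Field L] [Algebra A L] [FaithfulSMul A L] {π D : A} (hπ : Prime π) (hD : ¬ π ∣ D) {g : L}
    (h1 : IsIntegral A (π • g)) (h2 : IsIntegral A (D • g)) : IsIntegral A g :=
  H28.isIntegral_of_prime_smul hπ hD h1 h2

variable {N : ℕ} [NeZero N] {ℓ : ℕ} [Fact ℓ.Prime]

/-- The same for `A = ℤ_(ℓ)[s]` inside `F`, where `s = j` or `s = 1/j`, and `π = ℓ`: the polynomial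
`D` has a coefficient which is not divisible by `ℓ`. File `H28Reduction`. -/
theorem isIntegral_of_prime_multiple (s : ↥(modularFunctionFieldFull N))
    (hs : Function.Injective (aeval (R := ↥(GaloisRep.ratLocalizedAt ℓ)) s))
    {g : ↥(modularFunctionFieldFull N)} {D : (↥(GaloisRep.ratLocalizedAt ℓ))[X]}
    (hD : ¬ C (ℓ : ↥(GaloisRep.ratLocalizedAt ℓ)) ∣ D)
    (h1 : IsIntegral (Algebra.adjoin ↥(GaloisRep.ratLocalizedAt ℓ) {s})
      ((ℓ : ↥(modularFunctionFieldFull N)) * g))
    (h2 : IsIntegral (Algebra.adjoin ↥(GaloisRep.ratLocalizedAt ℓ) {s}) (aeval s D * g)) :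
    IsIntegral (Algebra.adjoin ↥(GaloisRep.ratLocalizedAt ℓ) {s}) g :=
  H28.isIntegral_of_mul s hs hD h1 h2

/-- **Key step.** Given the data of section 4, let `g` be an element of `F` with coefficients in
`ℤ_(ℓ)`. There is a polynomial `D`, not divisible by `ℓ`, such that `D(j) g` is integral over
`ℤ_(ℓ)[j]`: apply `exists_normalised` and the independence modulo `ℓ` to the products `g β_k`; if `D` is
the product of the polynomials obtained, multiplication by `D(j) g` maps the module `∑ ℤ_(ℓ)[j] β_i` to
itself. File `H28Reduction`. -/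
theorem exists_integral_multiple (dd : H28.DegreeData N ℓ) (g : ↥(modularFunctionFieldFull N))
    (hg : ∀ n : ℤ, (g : LaurentSeries ℚ).coeff n ∈ GaloisRep.ratLocalizedAt ℓ) :
    ∃ D : (↥(GaloisRep.ratLocalizedAt ℓ))[X], ¬ C (ℓ : ↥(GaloisRep.ratLocalizedAt ℓ)) ∣ D ∧
      IsIntegral (Algebra.adjoin ↥(GaloisRep.ratLocalizedAt ℓ) {jFull N})
        (aeval (jFull N) D * g) :=
  dd.exists_smul g hg

/-- Division by `ℓ` in `F`: if all coefficients of `f` are in `ℓ ℤ_(ℓ)`, then `f = ℓ g`, and the
coefficients of `g` are in `ℤ_(ℓ)`. File `H28Reduction`. -/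
theorem exists_quotient (f : ↥(modularFunctionFieldFull N))
    (hf : ∀ n : ℤ, ∃ w ∈ GaloisRep.ratLocalizedAt ℓ,
      (f : LaurentSeries ℚ).coeff n = (ℓ : ℚ) * w) :
    ∃ g : ↥(modularFunctionFieldFull N), f = (ℓ : ↥(modularFunctionFieldFull N)) * g ∧
      ∀ n : ℤ, (g : LaurentSeries ℚ).coeff n ∈ GaloisRep.ratLocalizedAt ℓ :=
  H28.exists_mul_of_coeff f hf

/-- **Saturation of the two charts.** `chartAlgFin N ℓ` and `chartAlgInf N ℓ` are the integral
closures of `ℤ_(ℓ)[j]` and `ℤ_(ℓ)[1/j]` in `F`. If all coefficients of an element `f` of one of them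
are divisible by `ℓ` in `ℤ_(ℓ)`, then `f = ℓ g` with `g` in the same ring. File `H28Reduction`; with
`exists_degreeData_of_not_dvd` this is the theorem `saturation` of the guide ModularCurves; used in
S28. -/
theorem saturation_of_data (dd : H28.DegreeData N ℓ) (f : ↥(modularFunctionFieldFull N))
    (h : ∀ n : ℤ, ∃ w ∈ GaloisRep.ratLocalizedAt ℓ,
      (f : LaurentSeries ℚ).coeff n = (ℓ : ℚ) * w) :
    (f ∈ chartAlgFin N ℓ →
      ∃ g ∈ chartAlgFin N ℓ, f = (ℓ : ↥(modularFunctionFieldFull N)) * g) ∧
    (f ∈ chartAlgInf N ℓ →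
      ∃ g ∈ chartAlgInf N ℓ, f = (ℓ : ↥(modularFunctionFieldFull N)) * g) :=
  ⟨fun hf => H28.hdivF dd f hf h, fun hf => H28.hdivI dd f hf h⟩

end Integral

/-! ## 6. Expansions of holomorphic functions

`H28.HasExp h f a` says that the function `f` on the upper half plane is the sum of the Laurent series
`a` in `𝕢 = exp(2 π i τ / h)`. It is the link between the series over `ℂ` and modular functions. -/

section Expansions

open UpperHalfPlane in
/-- The notion `HasExp`, by definition: the series `∑ a_n 𝕢^n` converges to `f(τ)` for every `τ` in the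
upper half plane. File `H28Exp`. -/
theorem hasExp_iff (h : ℝ) (f : ℍ → ℂ) (a : LaurentSeries ℂ) :
    H28.HasExp h f a ↔
      ∀ τ : ℍ, HasSum (fun n : ℤ => a.coeff n * Function.Periodic.qParam h τ ^ n) (f τ) :=
  Iff.rfl

open UpperHalfPlane in
/-- Products: if `f` and `g` have expansions `a` and `b`, then `f g` has the expansion `a b` (Cauchy
product of absolutely convergent series). File `H28Exp`. -/
theorem hasExp_mul {h : ℝ} {f g : ℍ → ℂ} {a b : LaurentSeries ℂ} (hf : H28.HasExp h f a)
    (hg : H28.HasExp h g b) : H28.HasExp h (f * g) (a * b) :=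
  hf.mul hg

/-- **The product `∏ (1 - q^n)`** for `|q| < 1` is the sum of its formal expansion `etaProd`, whose
coefficients are integers (Taylor series of a locally uniform limit of polynomials). File `H28Jq`;
used for the expansion of `Δ` (theorem `delta_series` of the guide ModularCurves). -/
theorem hasSum_euler_product {q : ℂ} (hq : ‖q‖ < 1) :
    HasSum (fun n : ℕ => ((etaProd.coeff n : ℤ) : ℂ) * q ^ n) (∏' n : ℕ, (1 - q ^ (n + 1))) :=
  H28.hasSum_etaProd hq

end Expansions

end Fermat.Agent.Guide.Saturation
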