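import Fermat.Agent.H6MDM6

/-!
# Guide to the proof: killing the Selmer group of `E[2]` (block M6 of block LT), step by step

This file is a machine-checked table of contents. Every theorem below is a citation of a theorem of
the library, with its statement written out. Only `Guide` imports this file. It is a companion of
`GuideResidual`, section 4, and of `GuideResidualSteps`, section M6, which contains the four main steps
`not_inflated`, `choice_of_one_prime`, `reciprocity` (proof: `GuideTwoReciprocity`) and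
`selmer_decreases`. Here: their smaller steps, and how they are put together.

**What is proved.** Let `E'` be the auxiliary semistable curve of block LT, `V = E'[2] = 𝔽₂²`, with
`rb : G_ℚ → GL₂(𝔽₂)` surjective, `ρ : G_ℚ → GL₂(ℤ/2ⁿ)` the action on `E'[2ⁿ]`, `S` the set of the bad
primes (`2 ∈ S`). At every bad prime the decomposition group fixes a line in `V`. The Selmer cocycles
for a set `T` of primes are those unramified outside `T` whose restrictions to the decomposition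
groups at the primes of `T` have, up to a coboundary, values fixed by the decomposition group. There is
a bound `d`, independent of `n`, such that for every `n` there is a set `Q` of at most `d` primes
`q ≡ -1 mod 2ⁿ`, at which Frobenius acts on `E'[2ⁿ]` like complex conjugation, such that every Selmer
cocycle for `S ∪ Q` is a coboundary. (Auxiliary primes of this kind are due to Khare; here the
coefficients are modulo 2, and no theorem of duality is used.)

**The proof.**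
 1. A Selmer cocycle `b` which vanishes on `ker ρ` is a coboundary. At a bad prime some inertia element
    `u` acts on the 2-adic Tate module as a transvection (20), and `b(u²) = 0` by the Selmer condition
    (16). With an opposite transvection conjugate to `u` (6) the cocycle vanishes on all `x ∈ ker rb`
    with `det ρ(x) = 1` (5), then by commutators (`b(g x g⁻¹ x⁻¹) = rb(g) b(x) - b(x)`) on `ker rb`, and
    `H¹(GL₂(𝔽₂), V) = 0` (8).
 2. If `b` is not a coboundary, `b(x₀) ≠ 0` for some `x₀ ∈ ker ρ`. Then `b` takes all values on `ker ρ`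
    (12), so for some `x ∈ ker ρ` the value `b(x c)` (`c` complex conjugation) is not in the image of
    `c - 1` (11), and the density theorem, applied to `x c`, gives an auxiliary prime `q` at which `b`
    is not a coboundary (10).
 3. Add `q` to the set. By reciprocity the new Selmer cocycles are unramified at `q`, so they are old
    ones, and `b` is not among them (11). The set of the Selmer cocycles is finite (15), with a number
    of elements which does not depend on `n`; so at most that many steps are needed (17).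

**Notation.** `H6.MD.V2 = (Fin 2 → ZMod 2)`, `H6.MD.Up a = [1 a; 0 1]`, `H6.MD.Lo a = [1 0; a 1]`,
`H6.MD.red2` the reduction `ℤ/2ⁿ → 𝔽₂`, `H6.MD.LevC f`: `f` is of finite level, `H6.MD.UnrAt P b`: `b`
vanishes on the inertia group of the place `P`, `H6.MD.InL rb P b`: the condition of 13 at `P`,
`LT.DetCyc 2 r`: `det r` is the cyclotomic character, `LT.StatementM6`: the statement of
`GuideResidual.m6_auxiliary_primes`.

**Where.** NOTES.md, section 3.6 and Appendix A.8: [97], [264]. Files `H6MDDefs`, `H6MDGroup`, `H6MDSelect`,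
`H6MDFinal`, `H6MDRec`, `H6MDBlock`, `H6MDM6`. Used in S01, S03, S04, S06, S38, S45, S46, S50, S59, S60.
Author: helper 6.
-/

set_option autoImplicit false

open scoped Pointwise
open Matrix

namespace Fermat.Agent.Guide.SelmerTwo

local notation "Qb" => AlgebraicClosure ℚ
local notation "GQ" => (AlgebraicClosure ℚ ≃ₐ[ℚ] AlgebraicClosure ℚ)

/-! ## 1. Cocycles which vanish on the kernel of `ρ` -/

/-- **1. Cocycles on the kernel** (`H6MDGroup`). Let `b` be a cocycle with values in `V`, and `rb(x) = 1`.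
Then `b(g x g⁻¹) = rb(g) b(x)` and `b(x y) = b(x) + b(y)`. If `b(x) = 0` (any `x`), then
`b(g x) = b(g)`. -/
theorem cocycle_on_kernel {Γ : Type*} [Group Γ] {rb : Γ →* GL (Fin 2) (ZMod 2)}
    {b : Γ → Fin 2 → ZMod 2} (hb : ∀ g h, b (g * h) = b g + (rb g).val *ᵥ b h) :
    (∀ x, rb x = 1 → (∀ g, b (g * x * g⁻¹) = (rb g).val *ᵥ b x) ∧ ∀ y, b (x * y) = b x + b y) ∧
      ∀ x, b x = 0 → ∀ g, b (g * x) = b g :=
  have hc : H6.MD.Coc rb b := hb
  ⟨fun _ hx => ⟨fun g => hc.conj g hx, fun y => hc.mul_of_ker hx y⟩,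
    fun _ hx g => hc.mul_of_zero g hx⟩

/-- **2. Unipotent matrices** (`H6MDGroup`). `Up a = [1 a; 0 1]`, `Lo a = [1 0; a 1]`, and their
powers. -/
theorem unipotent_matrices {R : Type*} [CommRing R] (a : R) :
    ((H6.MD.Up a).val = !![1, a; 0, 1] ∧ (H6.MD.Lo a).val = !![1, 0; a, 1]) ∧
      ∀ k : ℕ, H6.MD.Up a ^ k = H6.MD.Up (k * a) ∧ H6.MD.Lo a ^ k = H6.MD.Lo (k * a) :=
  ⟨⟨rfl, rfl⟩, fun k => ⟨H6.MD.Up_pow a k, H6.MD.Lo_pow a k⟩⟩

/-- **3. A factorisation in `SL₂`** (`H6MDGroup`). Let `m` have determinant `1` and the invertible entry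
`m₀₀` with inverse `α'`. Then `m` is the product of `Lo (m₁₀ α')`, `Lo (-(m₀₀ - 1) α')`,
`Lo 1 * Up (1 - m₀₀) * (Lo 1)⁻¹`, `Up (-(1 - m₀₀) α')` and `Up (m₀₁ α')`. If `m ≡ 1` modulo `2`, all
parameters except the `1` are even. -/
theorem factorisation {R : Type*} [CommRing R] {m : GL (Fin 2) R} {α' : R}
    (hα : m.val 0 0 * α' = 1) (hdet : m.val 0 0 * m.val 1 1 - m.val 0 1 * m.val 1 0 = 1) :
    m = H6.MD.Lo (m.val 1 0 * α') * H6.MD.Lo (-((m.val 0 0 - 1) * α')) *
      (H6.MD.Lo 1 * H6.MD.Up (1 - m.val 0 0) * (H6.MD.Lo 1)⁻¹) *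
      H6.MD.Up (-((1 - m.val 0 0) * α')) * H6.MD.Up (m.val 0 1 * α') :=
  H6.MD.factor hα hdet

/-- **4. Residue classes modulo `2ⁿ`** (`H6MDGroup`). Even classes are multiples of `2`, odd classes are
units, and if `c` is a unit every class is a multiple `k c` with a natural number `k`: the powers of
`Up c` are all matrices `Up t`. -/
theorem residue_classes {n : ℕ} (hn : n ≠ 0) :
    (∀ a : ZMod (2 ^ n), H6.MD.red2 hn a = 0 → ∃ y, a = 2 * y) ∧
      (∀ a : ZMod (2 ^ n), H6.MD.red2 hn a = 1 → IsUnit a) ∧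
      ∀ c : ZMod (2 ^ n), IsUnit c → ∀ t, ∃ k : ℕ, (k : ZMod (2 ^ n)) * c = t :=
  ⟨fun _ h => H6.MD.red2_eq_zero hn h, fun _ h => H6.MD.red2_eq_one hn h,
    fun _ hc t => H6.MD.exists_natCast_mul hc t⟩

/-- **5. Two opposite transvections** (`H6MDGroup`). Let `b` vanish on `ker ρ` and on the squares of `u`,
`u'`, where in one basis `ρ(u) = Up a` and `ρ(u') = Lo c` with units `a`, `c`. Then `b(x) = 0` for all `x`
with `rb(x) = 1` and `det ρ(x) = 1`. Proof: `{x ∈ ker rb : b(x) = 0}` is a subgroup stable under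
conjugation; its image under `ρ` contains all `Up (2 y)`, `Lo (2 y)` (powers of `u²`, `u'²`) and
`Lo 1 * Up (2 y) * (Lo 1)⁻¹` (conjugation by a power of `u'`); use 3. -/
theorem vanishing_from_two_transvections {n : ℕ} {Γ : Type*} [Group Γ]
    {ρ : Γ →* GL (Fin 2) (ZMod (2 ^ n))} {rb : Γ →* GL (Fin 2) (ZMod 2)}
    {b : Γ → Fin 2 → ZMod 2} (hb : ∀ g h, b (g * h) = b g + (rb g).val *ᵥ b h) (hn : n ≠ 0)
    (hred : ∀ g i j, (rb g).val i j = H6.MD.red2 hn ((ρ g).val i j))
    (hker : ∀ g, ρ g = 1 → b g = 0) {u u' : Γ} {a c : ZMod (2 ^ n)} (ha : IsUnit a)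
    (hc : IsUnit c) (A : GL (Fin 2) (ZMod (2 ^ n))) (hu : ρ u = A * H6.MD.Up a * A⁻¹)
    (hu' : ρ u' = A * H6.MD.Lo c * A⁻¹) (hbu : b (u ^ 2) = 0) (hbu' : b (u' ^ 2) = 0) {x : Γ}
    (hx : rb x = 1) (hdet : (ρ x).val.det = 1) : b x = 0 :=
  H6.MD.Coc.zero_of_det_one' (rb := rb) hb hn hred hker ha hc A hu hu' hbu hbu' hx hdet

/-- **6. An opposite transvection** (`H6MDGroup`). Let `rb` be surjective and `ρ(u) = A (Up a) A⁻¹`, `a` a
unit. Some conjugate of `u` is opposite to `u`: in another basis `B` the matrices of `u` and `g u g⁻¹` are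
`Up a'` and `Lo c` with units `a'`, `c`. Take `g` for which `rb(g)` exchanges, modulo `2`, the two basis
vectors of `A`; the new basis consists of the fixed vectors of `u` and of `g u g⁻¹`. -/
theorem opposite_transvection {n : ℕ} {Γ : Type*} [Group Γ]
    {ρ : Γ →* GL (Fin 2) (ZMod (2 ^ n))} {rb : Γ →* GL (Fin 2) (ZMod 2)} (hn : n ≠ 0)
    (hred : ∀ g i j, (rb g).val i j = H6.MD.red2 hn ((ρ g).val i j))
    (hsurj : Function.Surjective rb) {u : Γ} {a : ZMod (2 ^ n)} (ha : IsUnit a)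
    (A : GL (Fin 2) (ZMod (2 ^ n))) (hu : ρ u = A * H6.MD.Up a * A⁻¹) :
    ∃ (g : Γ) (B : GL (Fin 2) (ZMod (2 ^ n))) (a' c : ZMod (2 ^ n)), IsUnit a' ∧ IsUnit c ∧
      ρ u = B * H6.MD.Up a' * B⁻¹ ∧ ρ (g * u * g⁻¹) = B * H6.MD.Lo c * B⁻¹ :=
  H6.MD.exists_opposite hn hred hsurj ha A hu

/-- **7. The element of order three** (`H6MDGroup`). `T3 = [0 1; 1 1] ∈ GL₂(𝔽₂)`: `T3 - 1` is surjective
on `V`, and every conjugate of `T3` is `T3` or `T3²`. -/
theorem order_three :
    (∀ v : Fin 2 → ZMod 2, ∃ w : Fin 2 → ZMod 2, H6.MD.T3.val *ᵥ w - w = v) ∧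
      ∀ g : GL (Fin 2) (ZMod 2), g⁻¹ * H6.MD.T3 * g = H6.MD.T3 ∨
        g⁻¹ * H6.MD.T3 * g = H6.MD.T3 ^ 2 :=
  ⟨fun v => H6.MD.exists_T3_sub v, H6.MD.T3_conj⟩

/-- **8. `H¹(GL₂(𝔽₂), V) = 0`** (`H6MDGroup`). A cocycle which vanishes on the kernel of the surjective
`rb` is a coboundary. By 7 one may assume `b(h) = 0` for some `h` with `rb(h) = T3`; then
`b(h g) = b(g (g⁻¹ h g)) = b(g)`, so `b(g)` is fixed by `T3`, hence zero. -/
theorem h1_gl2_f2 {Γ : Type*} [Group Γ] {rb : Γ →* GL (Fin 2) (ZMod 2)}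
    {b : Γ → Fin 2 → ZMod 2} (hb : ∀ g h, b (g * h) = b g + (rb g).val *ᵥ b h)
    (hsurj : Function.Surjective rb) (hker : ∀ g, rb g = 1 → b g = 0) :
    ∃ w : Fin 2 → ZMod 2, ∀ g, b g = (rb g).val *ᵥ w - w :=
  H6.MD.Coc.cob_of_ker (rb := rb) hb hsurj hker

/-! ## 2. Finite level and local classes -/

/-- **9. Normal levels** (`H6MDSelect`). A function of finite level on `G_ℚ` depends only on the
restriction of the automorphism to some finite normal extension of `ℚ` (normal closure); two functions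
of finite level have a common level. -/
theorem normal_level {X Y : Type*} {f : GQ → X} {f' : GQ → Y}
    (hf : ∃ F : IntermediateField ℚ Qb, FiniteDimensional ℚ F ∧
      ∀ g τ : GQ, (∀ x ∈ F, τ x = x) → f (g * τ) = f g)
    (hf' : ∃ F : IntermediateField ℚ Qb, FiniteDimensional ℚ F ∧
      ∀ g τ : GQ, (∀ x ∈ F, τ x = x) → f' (g * τ) = f' g) :
    ∃ M : IntermediateField ℚ Qb, FiniteDimensional ℚ M ∧ Normal ℚ M ∧
      ∀ σ τ : GQ, (∀ x ∈ M, σ x = τ x) → (f σ, f' σ) = (f τ, f' τ) :=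
  (H6.MD.LevC.prod (f := f) hf (f' := f') hf').exists_normal

/-- **10. Powers and conjugates** (`H6MDSelect`). If `b` is a coboundary at `x`, it is one at the powers of
`x`; if it is one at `g x g⁻¹`, it is one at `x`. (Frobenius' density theorem gives a Frobenius element
which, on the level field, generates the same cyclic group as the given element. So if `b` is not a
coboundary at the given element, it is not a coboundary at the Frobenius elements.) -/
theorem powers_and_conjugates {Γ : Type*} [Group Γ] {rb : Γ →* GL (Fin 2) (ZMod 2)}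
    {b : Γ → Fin 2 → ZMod 2} (hb : ∀ g h, b (g * h) = b g + (rb g).val *ᵥ b h) (x : Γ) :
    (∀ w, b x = (rb x).val *ᵥ w - w → ∀ k : ℕ, b (x ^ k) = (rb (x ^ k)).val *ᵥ w - w) ∧
      ∀ g w, b (g * x * g⁻¹) = (rb (g * x * g⁻¹)).val *ᵥ w - w →
        ∃ w', b x = (rb x).val *ᵥ w' - w' :=
  have hc : H6.MD.Coc rb b := hb
  ⟨fun _ hw k => hc.cobAt_pow hw k, fun _ _ hw => hc.cobAt_conj hw⟩

/-- **11. Involutions** (`H6MDSelect`, `H6MDFinal`). For `g ∈ GL₂(𝔽₂)` of order two, the image of `g - 1` on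
`V` is a line: it is not `V`, and it contains all vectors fixed by `g`. Hence a cocycle whose value at a
Frobenius `φ` with `rb(φ) = g` is, up to a coboundary, a fixed vector is a coboundary at `φ`. -/
theorem involutions (g : GL (Fin 2) (ZMod 2)) (h1 : g ≠ 1) (h2 : g * g = 1) :
    (∃ t : Fin 2 → ZMod 2, ∀ w : Fin 2 → ZMod 2, g.val *ᵥ w - w ≠ t) ∧
      ∀ v : Fin 2 → ZMod 2, g.val *ᵥ v = v → ∃ w : Fin 2 → ZMod 2, g.val *ᵥ w - w = v :=
  ⟨H6.MD.exists_not_range g h1 h2, fun _ hv => H6.MD.exists_sub_of_fixed g h1 h2 hv⟩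

/-- **12. Values on the kernel** (`H6MDSelect`). If a cocycle is not zero at some `x₀ ∈ ker ρ`, it takes all
values of `V` on `ker ρ`: conjugate `x₀`, and use that `GL₂(𝔽₂)` is transitive on the nonzero vectors. -/
theorem values_on_kernel {n : ℕ} {ρ : GQ →* GL (Fin 2) (ZMod (2 ^ n))}
    {rb : GQ →* GL (Fin 2) (ZMod 2)} {b : GQ → Fin 2 → ZMod 2}
    (hb : ∀ g h, b (g * h) = b g + (rb g).val *ᵥ b h) (hsurj : Function.Surjective rb)
    (hρr : ∀ g, ρ g = 1 → rb g = 1) {x₀ : GQ} (hx₀ : ρ x₀ = 1) (hbx₀ : b x₀ ≠ 0)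
    (v : Fin 2 → ZMod 2) : ∃ x, ρ x = 1 ∧ b x = v :=
  H6.MD.Coc.surj_on_ker (rb := rb) hb hsurj hρr hx₀ hbx₀ v

/-! ## 3. The Selmer set -/

/-- **13. Selmer cocycles** (`H6MDDefs`). `Sel rb S b`: `b` is a cocycle of finite level, zero on the
inertia groups at all primes outside `S`, and at every place above a prime of `S` its restriction to
the decomposition group has, up to a coboundary, values fixed by the decomposition group. -/
theorem selmer_iff (rb : GQ →* GL (Fin 2) (ZMod 2)) (S : Finset ℕ) (b : GQ → Fin 2 → ZMod 2) :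
    H6.MD.Sel rb S b ↔ (∀ g h, b (g * h) = b g + (rb g).val *ᵥ b h) ∧
      (∃ F : IntermediateField ℚ Qb, FiniteDimensional ℚ F ∧
        ∀ g τ : GQ, (∀ x ∈ F, τ x = x) → b (g * τ) = b g) ∧
      (∀ ℓ : ℕ, ℓ.Prime → ℓ ∉ S → ∀ P : ValuationSubring Qb, P.LiesOverPrime ℓ →
        ∀ τ ∈ P.inertiaSubgroupIn ℚ, b τ = 0) ∧
      ∀ ℓ ∈ S, ∀ P : ValuationSubring Qb, P.LiesOverPrime ℓ → ∃ w : Fin 2 → ZMod 2,
        ∀ g ∈ P.decompositionSubgroup ℚ, ∀ h ∈ P.decompositionSubgroup ℚ,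
          (rb h).val *ᵥ (b g - ((rb g).val *ᵥ w - w)) = b g - ((rb g).val *ᵥ w - w) :=
  ⟨fun h => ⟨h.coc, h.lev, h.unr, h.inL⟩, fun h => ⟨h.1, h.2.1, h.2.2.1, h.2.2.2⟩⟩

/-- **14. The reciprocity statement** (`H6MDDefs`), used as hypothesis of the reduction: `Recip rb S q` is
the conclusion of `GuideResidualSteps.reciprocity` for all pairs `b`, `b'`. -/
theorem recip_iff (rb : GQ →* GL (Fin 2) (ZMod 2)) (S : Finset ℕ) (q : ℕ) :
    H6.MD.Recip rb S q ↔ ∀ b b' : GQ → Fin 2 → ZMod 2,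
      (∀ g h, b (g * h) = b g + (rb g).val *ᵥ b h) →
      (∀ g h, b' (g * h) = b' g + (rb g).val *ᵥ b' h) → H6.MD.LevC b → H6.MD.LevC b' →
      (∀ ℓ : ℕ, ℓ.Prime → ℓ ∉ S → ℓ ≠ q → ∀ P : ValuationSubring Qb, P.LiesOverPrime ℓ →
        H6.MD.UnrAt P b ∧ H6.MD.UnrAt P b') →
      (∀ ℓ ∈ S, ∀ P : ValuationSubring Qb, P.LiesOverPrime ℓ →
        H6.MD.InL rb P b ∧ H6.MD.InL rb P b') →
      (∀ P : ValuationSubring Qb, P.LiesOverPrime q → H6.MD.UnrAt P b ∧ H6.MD.InL rb P b') →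
      (∀ P : ValuationSubring Qb, P.LiesOverPrime q → ∀ φ : GQ, P.IsFrobeniusAt φ q →
        ∀ w : Fin 2 → ZMod 2, b φ ≠ (rb φ).val *ᵥ w - w) →
      ∀ P : ValuationSubring Qb, P.LiesOverPrime q → H6.MD.UnrAt P b' :=
  Iff.rfl

/-- **15. Finiteness** (`H6MDFinal`). If `rb` is of finite level and unramified outside `S`, there are
only finitely many Selmer cocycles: by Hermite's theorem (`H63Hermite`) there is one finite level for
all, since `{x : rb(x) = 1, b(x) = 0}` has an index at most `#GL₂(𝔽₂) · #V = 24`. -/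
theorem selmer_finite {rb : GQ →* GL (Fin 2) (ZMod 2)} {S : Finset ℕ} (hS : ∀ ℓ ∈ S, ℓ.Prime)
    (hrb : ∃ F : IntermediateField ℚ Qb, FiniteDimensional ℚ F ∧
      ∀ g τ : GQ, (∀ x ∈ F, τ x = x) → rb (g * τ) = rb g)
    (hunr : ∀ ℓ : ℕ, ℓ.Prime → ℓ ∉ S → ∀ P : ValuationSubring Qb, P.LiesOverPrime ℓ →
      ∀ τ ∈ P.inertiaSubgroupIn ℚ, rb τ = 1) :
    {b : GQ → Fin 2 → ZMod 2 | H6.MD.Sel rb S b}.Finite :=
  H6.MD.finite_sel hS hrb hunr

/-- **16. Squares of transvections** (`H6MDFinal`). Let `b` be a Selmer cocycle and `u` an element of the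
decomposition group at a prime of `S` with `rb(u)² = 1`. Then `b(u²) = 0`: write `b(u) = f + (u w - w)`
with `f` fixed by `u`; then `b(u²) = b(u) + u b(u) = 2 f + (u² w - w) = 0`. -/
theorem squares_are_killed {rb : GQ →* GL (Fin 2) (ZMod 2)} {S : Finset ℕ}
    {b : GQ → Fin 2 → ZMod 2} (hb : H6.MD.Sel rb S b) {ℓ : ℕ} (hℓ : ℓ ∈ S)
    {P : ValuationSubring Qb} (hP : P.LiesOverPrime ℓ) {u : GQ}
    (hu : u ∈ P.decompositionSubgroup ℚ) (hu2 : rb u * rb u = 1) : b (u ^ 2) = 0 :=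
  hb.sq_eq_zero hℓ hP hu hu2

/-- **17. Killing the Selmer group** (`H6MDFinal`). `rb` is surjective and unramified outside `S`, the
determinant of `ρ` is the cyclotomic character; `c` is an involution (complex conjugation) with
`rb(c) ≠ 1`, `det ρ(c) = -1`; `u` is in the decomposition group at some prime of `S` and a transvection
modulo `2ⁿ`; reciprocity holds for the sets `S ∪ Q`. Then there is a set `Q` of good primes
(`GoodPrime ρ c q`: `q ≡ -1 mod 2ⁿ`, `ρ` unramified at `q`, all Frobenius elements conjugate to `c`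
under `ρ`), disjoint from `S` and from a given set, such that every Selmer cocycle for `S ∪ Q` is a
coboundary; and `#Q` is at most the number of the Selmer cocycles for `S`. -/
theorem killing_set {n : ℕ} {ρ : GQ →* GL (Fin 2) (ZMod (2 ^ n))} {c : GQ}
    {rb : GQ →* GL (Fin 2) (ZMod 2)} (hn : n ≠ 0)
    (hred : ∀ g i j, (rb g).val i j = H6.MD.red2 hn ((ρ g).val i j))
    (hsurj : Function.Surjective rb) (hρ : H6.MD.LevC ρ)
    (hdet : ∀ (σ : GQ) (a : ℕ), (∀ μ : Qb, μ ^ 2 ^ n = 1 → σ μ = μ ^ a) →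
      (ρ σ).val.det = (a : ZMod (2 ^ n)))
    (hc2 : c * c = 1) (hc1 : rb c ≠ 1) (hcdet : (ρ c).val.det = -1)
    {S : Finset ℕ} (hS : ∀ ℓ ∈ S, ℓ.Prime)
    (hunr : ∀ ℓ : ℕ, ℓ.Prime → ℓ ∉ S → ∀ P : ValuationSubring Qb, P.LiesOverPrime ℓ →
      ∀ τ ∈ P.inertiaSubgroupIn ℚ, rb τ = 1)
    {v : ℕ} (hv : v ∈ S) {P₀ : ValuationSubring Qb} (hP₀ : P₀.LiesOverPrime v) {u : GQ}
    (huP : u ∈ P₀.decompositionSubgroup ℚ) {a : ZMod (2 ^ n)} (ha : IsUnit a)
    (A : GL (Fin 2) (ZMod (2 ^ n))) (hu : ρ u = A * H6.MD.Up a * A⁻¹)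
    (hR : ∀ Q : Finset ℕ, Disjoint Q S → (∀ q ∈ Q, H6.MD.GoodPrime ρ c q) → ∀ q : ℕ,
      H6.MD.GoodPrime ρ c q → q ∉ S ∪ Q → H6.MD.Recip rb (S ∪ Q) q) (S₀ : Finset ℕ) :
    ∃ Q : Finset ℕ, Disjoint Q (S ∪ S₀) ∧ (∀ q ∈ Q, H6.MD.GoodPrime ρ c q) ∧
      Q.card ≤ {b : GQ → Fin 2 → ZMod 2 | H6.MD.Sel rb S b}.ncard ∧
      ∀ b : GQ → Fin 2 → ZMod 2, H6.MD.Sel rb (S ∪ Q) b →
        ∃ w : Fin 2 → ZMod 2, ∀ g, b g = (rb g).val *ᵥ w - w :=
  H6.MD.exists_killing_set hn hred hsurj hρ hdet hc2 hc1 hcdet hS hunr hv hP₀ huP ha A hu hR S₀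

/-! ## 4. The curve -/

/-- **18. Reductions of the 2-adic representation** (`H6MDBlock`). For `r : G_ℚ → GL₂(ℤ₂)` (as matrices)
`H6.MD.rho r n` is the reduction modulo `2ⁿ`, `H6.MD.rbar r` that modulo `2`. If `r` is continuous,
`rho r n` is of finite level; if `det r` is the cyclotomic character, so is the determinant of
`rho r n`. -/
theorem reductions {r : GQ →* H53.M2 ℤ_[2]} (hr : H53.MCont ℤ_[2] r) (hdet : LT.DetCyc 2 r)
    (n : ℕ) :
    (∀ g, (H6.MD.rho r n g).val = H53.mapMat (PadicInt.toZModPow n) r g ∧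
      (H6.MD.rbar r g).val = H53.mapMat PadicInt.toZMod r g) ∧
    (∀ hn : n ≠ 0, ∀ g i j,
      (H6.MD.rbar r g).val i j = H6.MD.red2 hn ((H6.MD.rho r n g).val i j)) ∧
    H6.MD.LevC (H6.MD.rho r n) ∧
    ∀ (σ : GQ) (a : ℕ), (∀ μ : Qb, μ ^ 2 ^ n = 1 → σ μ = μ ^ a) →
      (H6.MD.rho r n σ).val.det = (a : ZMod (2 ^ n)) :=
  ⟨fun g => ⟨H6.MD.rho_val r n g, H6.MD.rbar_val r g⟩, H6.MD.rbar_red r n,
    H6.MD.rho_lev hr n, H6.MD.rho_det hdet n⟩

/-- **19. At a bad prime** (`H6MDBlock`). Let `D` be a subgroup of `G_ℚ` with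
`(rb(g) - 1)(rb(g') - 1) = 0` for all `g, g' ∈ D` (the Steinberg type modulo `2`: the signs and the
determinant are `1` modulo `2`), on which `rb` is not trivial. Then `D` fixes a nonzero vector: a value
of `rb(τ) - 1`. -/
theorem line_at_bad_prime {rb : GQ →* GL (Fin 2) (ZMod 2)} (D : Subgroup GQ)
    (h : ∀ g ∈ D, ∀ g' ∈ D, ((rb g).val - 1) * ((rb g').val - 1) = 0)
    (hτ : ∃ τ ∈ D, rb τ ≠ 1) : ∃ v : Fin 2 → ZMod 2, v ≠ 0 ∧ ∀ g ∈ D, (rb g).val *ᵥ v = v :=
  H6.MD.line_of_sq D h hτ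

/-- **20. The transvection** (`H6MDBlock`). A matrix `1 + N` over `ℤ₂` with `N² = 0`, `N ≢ 0` modulo `2`, is
conjugate to `[1 1; 0 1]`. Applied to an inertia element at a bad prime `v ≡ 23 mod 24` which is
nontrivial modulo `2`. -/
theorem transvection {N : H53.M2 ℤ_[2]} (hN : N * N = 0)
    (hne : ∃ i j, PadicInt.toZMod (N i j) ≠ 0) :
    ∃ A : GL (Fin 2) ℤ_[2], 1 + N = A.val * (H6.MD.Up (1 : ℤ_[2])).val * A⁻¹.val :=
  H6.MD.exists_conj_up hN hne

/-- **21. At an auxiliary prime** (`H6MDBlock`). If `rb` is of finite level and unramified at `q`, the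
decomposition group acts through the powers of Frobenius; a matrix of square `1` and determinant `-1`
over a commutative ring has trace `0` (Cayley-Hamilton), and every element of `GL₂(𝔽₂)` has determinant
`1`. -/
theorem at_auxiliary_prime :
    (∀ rb : GQ →* GL (Fin 2) (ZMod 2), H6.MD.LevC rb → ∀ q : ℕ, q.Prime →
      ∀ P : ValuationSubring Qb, P.LiesOverPrime q → (∀ τ ∈ P.inertiaSubgroupIn ℚ, rb τ = 1) →
      ∀ φ : GQ, P.IsFrobeniusAt φ q → ∀ g ∈ P.decompositionSubgroup ℚ,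
        ∃ k : ℕ, rb g = rb φ ^ k) ∧
    (∀ (R : Type) [CommRing R] (M : Matrix (Fin 2) (Fin 2) R), M * M = 1 → M.det = -1 →
      M.trace = 0) ∧
    ∀ g : GL (Fin 2) (ZMod 2), g.val.det = 1 :=
  ⟨fun _ hl _ hq _ hP hI _ hφ _ hg => H6.MD.rb_decomp hl hq hP hI hφ hg,
    fun _ _ _ h1 h2 => H6.MD.trace_eq_zero_of_sq h1 h2, H6.MD.det_gl2_zmod2⟩

/-- **22. Reciprocity applies** (`H6MDRec`, `H6MDM6`). `RecHyp rb S q` collects what is known in the
application: `rb` surjective, of finite level, nontrivial at complex conjugation, unramified outside the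
finite set `S ∋ 2` of primes; at the primes of `S` the decomposition group acts nontrivially on `V` and
fixes a line; `q ∉ S` is a prime, `8 ∣ q + 1`, with Frobenius elements of order two. -/
theorem reciprocity_applies (rb : GQ →* GL (Fin 2) (ZMod 2)) (S : Finset ℕ) (q : ℕ)
    (h : H6.MD.RecHyp rb S q) : H6.MD.Recip rb S q :=
  H6.MD.recipStatement rb S q h

/-- **23. Assembly** (`H6MDBlock`). Block M6 follows from reciprocity: for given `n` one applies 17
modulo `2^(n+3)` (so that `q ≡ 7 mod 8`), `c` complex conjugation, `u` from 20, `d` the number of the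
Selmer cocycles for the bad primes. The block without the hypothesis is
`GuideResidual.m6_auxiliary_primes`. -/
theorem assembly (hRec : ∀ (rb : GQ →* GL (Fin 2) (ZMod 2)) (S : Finset ℕ) (q : ℕ),
    H6.MD.RecHyp rb S q → H6.MD.Recip rb S q)
    (W : WeierstrassCurve ℤ) (r : GQ →* H53.M2 ℤ_[2]) (s : ℕ → ℤ) (hW : LT.GoodCurve W)
    (hE : LT.EData W r s) : LT.StatementM6 W r :=
  H6.MD.blockM6 hRec W r s hW hE

end Fermat.Agent.Guide.SelmerTwo
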