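import Fermat.Agent.H76U3

/-!
# Reader's guide: block (D) of S47, companion: types and the semilocal machine

**Statement served:** S47, block (D); sections 2 and 4 are used in block (C), too. Main texts:
`GuideOctD`, `GuideOctDTheta`, `GuideOctDForm`; the types of blocks (C) and (D) are constructed in the
companion `GuideLatticeTypes`. Every library theorem cited below is used in the proof of S47. In
prose: note [469] of `NOTES.md`. Files: `H59XF`, `H76U1`-`H76U3` (helper76).

**What this is about.** An automorphic form of block (D) is a function on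
`(J → ℍ³) × X_f` invariant under `PGL₂(E)`, where `X_f` is a restricted product of the coset spaces
`PGL₂(E) / U_w` over all finite places `w` of `E`. It must transform by given characters of compact
groups ("types") at the places `w` of a finite set `S` of bad places; outside `S` it is described by
an explicit Fourier series. Instead of describing the form at `S`, one restricts it to the points
whose coordinates at `S` are the base point, and considers it as a function `F` of the archimedean
coordinates and the coordinates outside `S` only. By weak approximation nothing is lost, and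
invariance under `PGL₂(E)` together with the types at `S` becomes *one* transformation law of `F`,
under the group of all `g ∈ PGL₂(E)` which lie in the groups of the types at all places of `S`
(`outTyped_iff`, `exists_invariant_typed`). No adeles and no strong approximation occur, and most of
sections 1-3 is about an arbitrary group.

**Conventions** (`H59XF`). `L : LevelFam G ι` is a family of subgroups `L.U i` of a group `G` such that
every `g ∈ G` lies in `L.U i` for almost all `i`. `XF L` is the restricted product of the `G / L.U i`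
(almost all coordinates are the base point `1`), `G` acts on it diagonally, `XF.upd x i a` is `x` with
the coordinate `i` replaced by `a`. `restr L S` is the family of the `L.U i`, `i ∉ S`, so
`XF (restr L S)` is the *outer space*; `proj L S x` forgets the coordinates in `S` and `inj L S y` is
the point `y` completed by base points. `Z` is a set on which `G` acts.
-/

set_option autoImplicit false

namespace Fermat.Agent.Guide.Semilocal

open IsDedekindDomain HeightOneSpectrum WithZero NumberField Matrix
open scoped MatrixGroups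
open Fermat.Agent.H59XF Fermat.Agent.H59D
open Fermat.Agent.H76U (Typ Typed OutTyped WA restr inj proj Zm nM dM lM TD)

/-! ## 1. The outer space -/

/-- **Restriction and completion of points** (`H76U1`). `proj` after `inj` is the identity; the
coordinates of `inj L S y` at `i ∈ S` are the base point, the others are those of `y`; `proj`
commutes with the action of `G`. (`inj` does not, because `g` moves the base points.) -/
theorem proj_and_inj {G : Type*} [Group G] {ι : Type*} (L : LevelFam G ι) (S : Finset ι) :
    (∀ y : XF (restr L S), proj L S (inj L S y) = y) ∧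
    (∀ (y : XF (restr L S)) (i : ι), i ∈ S → inj L S y i = ((1 : G) : G ⧸ L.U i)) ∧
    (∀ (y : XF (restr L S)) (i : ι) (hi : i ∉ S), inj L S y i = y ⟨i, hi⟩) ∧
    ∀ (g : G) (x : XF L), proj L S (g • x) = g • proj L S x :=
  ⟨H76U.proj_inj, fun y _ hi => H76U.inj_apply_mem y hi, fun y _ hi => H76U.inj_apply_notMem y hi,
    H76U.proj_smul⟩

/-- **Changing one coordinate** (`H76U1`). A change of a coordinate in `S` is not seen by `proj`, a
change of a coordinate outside `S` is seen at the same place. -/
theorem proj_upd {G : Type*} [Group G] {ι : Type*} [DecidableEq ι] (L : LevelFam G ι)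
    (S : Finset ι) (x : XF L) :
    (∀ (i : ι) (a : G ⧸ L.U i), i ∈ S → proj L S (XF.upd x i a) = proj L S x) ∧
    ∀ (i : {i // i ∉ S}) (a : G ⧸ L.U i.1),
      proj L S (XF.upd x i.1 a) = XF.upd (proj L S x) i a :=
  ⟨fun _ a hi => H76U.proj_upd_mem x hi a, H76U.proj_upd_notMem x⟩

/-- **Weak approximation gives representatives** (`H76U1`). `WA L S` says that for all `g_i ∈ G`
there is `γ ∈ G` with `g_i⁻¹ γ ∈ L.U i` for all `i ∈ S`. Then the coordinates in `S` of any point `x`
are the cosets of one `γ ∈ G`, and `γ⁻¹ x` has base coordinates in `S`. For number fields see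
`weak_approximation` in `GuideOctDForm`. -/
theorem representatives {G : Type*} [Group G] {ι : Type*} {L : LevelFam G ι} {S : Finset ι}
    (h : ∀ g : ι → G, ∃ γ : G, ∀ i ∈ S, (g i)⁻¹ * γ ∈ L.U i) (x : XF L) :
    ∃ γ : G, ∀ i ∈ S, x i = ((γ : G) : G ⧸ L.U i) :=
  H76U.WA.exists_rep h x

/-- **Matrices close to `1`** (`H76U3`). A matrix over the fraction field of a Dedekind domain with
`w(g - 1) ≤ exp(-n)` for all entries, `n ≥ 1`, is in the principal congruence subgroup of level
`w^n` of `GL₂` of the local ring at `w` (its determinant is a unit at `w`). With the approximation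
theorem for matrices (`H7ZApprox`) this gives weak approximation for every level. -/
theorem congruence_subgroup {R : Type*} [CommRing R] [IsDedekindDomain R] {K : Type*} [Field K]
    [Algebra R K] [IsFractionRing R K] {w : HeightOneSpectrum R} {n : ℕ} (hn : 1 ≤ n)
    {g : GL (Fin 2) K} (h : ∀ i j, w.valuation K
      ((g : Matrix (Fin 2) (Fin 2) K) i j - (1 : Matrix (Fin 2) (Fin 2) K) i j) ≤
        exp (-(n : ℤ))) :
    g ∈ GLcong w n :=
  H76U.mem_GLcong_of_sub_one hn h

/-! ## 2. Typed functions -/

/-- **The character of a type** (`H76U1`). A type `t : Typ U` consists of a group `t.H` containing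
and normalising `U` and a function `t.chi` multiplicative on `t.H` and equal to `1` on `U` (see
`typ_notions` in `GuideOctDForm`). So `t.chi` is a character of `t.H` with values in `ℂ^×`. -/
theorem type_character {G : Type*} [Group G] {U : Subgroup G} (t : Typ U) :
    t.chi 1 = 1 ∧ (∀ h ∈ t.H, t.chi h ≠ 0) ∧ ∀ h ∈ t.H, t.chi h⁻¹ = (t.chi h)⁻¹ :=
  ⟨t.chi_one, fun _ hh => t.chi_ne_zero hh, fun _ hh => t.chi_inv hh⟩

/-- **Definition: functions typed at `S`.** `F` on `Z × XF L` is typed at the places of `S` for the
types `T i` if the right translation of the coordinate `i ∈ S` by `h ∈ (T i).H` multiplies `F` by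
`(T i).chi h`. (Right translation of `G / U` by `h ∈ t.H` is well defined, because `h` normalises `U`.) -/
theorem typed_iff {G : Type*} [Group G] {ι : Type*} [DecidableEq ι] {L : LevelFam G ι}
    {Z : Type*} (T : ∀ i : ι, Typ (L.U i)) (S : Finset ι) (F : Z → XF L → ℂ) :
    Typed T S F ↔ ∀ i ∈ S, ∀ (h : (T i).H) (z : Z) (x : XF L),
      F z (XF.upd x i ((T i).rt h (x i))) = (T i).chi h * F z x :=
  Iff.rfl

/-- **Definition: the transformation law on the outer space.** For every `g ∈ G` which lies in the
groups `(T i).H` for all `i ∈ S`: `(∏ i ∈ S, χ_i(g)) F(g z, g y) = F(z, y)`, `y` in the outer space. -/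
theorem outTyped_iff {G : Type*} [Group G] {ι : Type*} {L : LevelFam G ι} {Z : Type*}
    [MulAction G Z] (T : ∀ i : ι, Typ (L.U i)) (S : Finset ι) (F : Z → XF (restr L S) → ℂ) :
    OutTyped T S F ↔ ∀ g : G, (∀ i ∈ S, g ∈ (T i).H) → ∀ (z : Z) (y : XF (restr L S)),
      (∏ i ∈ S, (T i).chi g) * F (g • z) (g • y) = F z y :=
  Iff.rfl

/-! ## 3. Extension to the whole space -/

/-- **The formula for the extension** (`H76U1`). Let `F` satisfy the transformation law. The
extension `Φ = lift F` is `Φ(z, x) = F(γ⁻¹ z, γ⁻¹ proj x)` for *every* `γ ∈ G` whose cosets at the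
places of `S` are the coordinates of `x`. (If `γ`, `δ` are two of them, `δ⁻¹ γ` is in all the `L.U i`,
`i ∈ S`, and there the characters are trivial.) -/
theorem extension_formula {G : Type*} [Group G] {ι : Type*} {L : LevelFam G ι} {Z : Type*}
    [MulAction G Z] {S : Finset ι} (hWA : WA L S) {T : ∀ i : ι, Typ (L.U i)}
    {F : Z → XF (restr L S) → ℂ} (hF : OutTyped T S F) (z : Z) (x : XF L) {γ : G}
    (hγ : ∀ i ∈ S, x i = ((γ : G) : G ⧸ L.U i)) :
    H76U.lift hWA F z x = F (γ⁻¹ • z) (γ⁻¹ • proj L S x) :=
  H76U.lift_eq hWA hF z x hγ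

/-- **The semilocal machine** (`H76U1`). Assume weak approximation at `S`. Every function `F` on the
outer space with the transformation law extends to a function `Φ` on `Z × XF L` which is invariant
under `G` and typed at the places of `S`. It is typed, because if `γ` represents `x` at `S` and `γ'`
the point obtained from `x` by right translation of the coordinate `a` by `h`, then `γ⁻¹ γ'` is in all
the groups of the types and `∏ i ∈ S, χ_i(γ⁻¹ γ') = χ_a(h)`. The version for a number field is
`form_properties` in `GuideOctDForm`. -/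
theorem exists_invariant_typed {G : Type*} [Group G] {ι : Type*} [DecidableEq ι]
    {L : LevelFam G ι} {Z : Type*} [MulAction G Z] {S : Finset ι}
    (hWA : ∀ g : ι → G, ∃ γ : G, ∀ i ∈ S, (g i)⁻¹ * γ ∈ L.U i)
    {T : ∀ i : ι, Typ (L.U i)} {F : Z → XF (restr L S) → ℂ} (hF : OutTyped T S F) :
    ∃ Φ : Z → XF L → ℂ, (∀ (g : G) (z : Z) (x : XF L), Φ (g • z) (g • x) = Φ z x) ∧
      Typed T S Φ ∧ ∀ z y, Φ z (inj L S y) = F z y :=
  ⟨H76U.lift hWA F, H76U.lift_smul hWA hF, H76U.lift_typed hWA hF,
    fun z y => congrFun (congrFun (H76U.res_lift hWA hF) z) y⟩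

/-- **Hecke operators outside `S`** (`H76U1`). The value of the extension at `x` with the coordinate
`i ∉ S` replaced by `a` is the value of `F` at `γ⁻¹ proj x` with the coordinate `i` replaced by
`γ⁻¹ a`, for the same `γ` as for `x`. So sums over the neighbours of the coordinate `i` (kernels
invariant under `G`) can be computed on the outer space, and eigenvalues are preserved. -/
theorem extension_outside {G : Type*} [Group G] {ι : Type*} [DecidableEq ι] {L : LevelFam G ι}
    {Z : Type*} [MulAction G Z] {S : Finset ι} (hWA : WA L S) {T : ∀ i : ι, Typ (L.U i)}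
    {F : Z → XF (restr L S) → ℂ} (hF : OutTyped T S F) (z : Z) (x : XF L) (i : {i // i ∉ S})
    (a : G ⧸ L.U i.1) {γ : G} (hγ : ∀ i ∈ S, x i = ((γ : G) : G ⧸ L.U i)) :
    H76U.lift hWA F z (XF.upd x i.1 a) =
      F (γ⁻¹ • z) (XF.upd (γ⁻¹ • proj L S x) i (γ⁻¹ • a)) :=
  H76U.lift_upd hWA hF z x i a hγ

/-- **Archimedean operators** (`H76U1`). `R` is an operator on functions on `Z` which commutes with
the action of `G` (in the application: the convolution with a radial kernel on one factor `ℍ³`). If
all functions `z ↦ F(z, y)` are eigenfunctions with eigenvalue `c`, so are all `z ↦ Φ(z, x)`. -/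
theorem extension_archimedean {G : Type*} [Group G] {ι : Type*} {L : LevelFam G ι} {Z : Type*}
    [MulAction G Z] {S : Finset ι} (hWA : WA L S) {T : ∀ i : ι, Typ (L.U i)}
    {F : Z → XF (restr L S) → ℂ} (hF : OutTyped T S F) (R : (Z → ℂ) → (Z → ℂ))
    (hR : ∀ (g : G) (f : Z → ℂ) (z : Z), R (fun z' => f (g • z')) z = R f (g • z)) {c : ℂ}
    (hc : ∀ y z, R (fun z' => F z' y) z = c * F z y) (z : Z) (x : XF L) :
    R (fun z' => H76U.lift hWA F z' x) z = c * H76U.lift hWA F z x :=
  H76U.arch_lift_eig hWA hF R hR hc z x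

/-- **Continuity** (`H76U1`). If all functions `z ↦ F(z, y)` are continuous, so are all
`z ↦ Φ(z, x)`: for fixed `x` the extension is a translate of one of the former. -/
theorem extension_continuous {G : Type*} [Group G] {ι : Type*} {L : LevelFam G ι} {Z : Type*}
    [MulAction G Z] {S : Finset ι} [TopologicalSpace Z] [ContinuousConstSMul G Z]
    (hWA : WA L S) {F : Z → XF (restr L S) → ℂ} (hF : ∀ y, Continuous fun z => F z y) (x : XF L) :
    Continuous fun z => H76U.lift hWA F z x :=
  H76U.continuous_lift hWA hF x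

/-- **The model.** For a model `m` over a totally complex number field `K` (`H59D.Model`: one embedding
for every infinite place, and levels at the finite places; conventions of `GuideOctDForm`) and
`Z = J → ℍ³` with the action of `PGL₂(K)` (`H76U.Zm m`) the extension is called `form m S F`. Its
values at the points with base coordinates in `S` are those of `F`, in particular it is not zero if `F`
is not zero; it is continuous in the archimedean variable if `F` is. Used in `isDForm_of_outer` of
`GuideOctDForm` (file `H76U3`). -/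
theorem model_values {K J : Type*} [Field K] [NumberField K] [Fintype J] (m : Model K J)
    (S : Finset (HeightOneSpectrum (𝓞 K))) (T : ∀ w, Typ (m.L.fam.U w))
    (F : Zm m → XF (restr m.L.fam S) → ℂ) (hF : OutTyped T S F)
    (hc : ∀ y, Continuous fun z => F z y) :
    (∀ (z : J → H3) (y : XF (restr m.L.fam S)),
      H76U.form m S F (z, inj m.L.fam S y) = F z y) ∧
    ∀ x : XF m.L.fam, Continuous fun z : J → H3 => H76U.form m S F (z, x) :=
  ⟨H76U.form_inj hF, H76U.form_continuous hc⟩

/-- **Archimedean operators on the model** (`H76U3`), commuting with the action of `PGL₂(K)` through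
the complex embeddings of the model (`m.actInf g z`). In block (D): the convolutions with radial
kernels, which have the eigenvalue of the spectral parameter zero on `F`. -/
theorem model_archimedean {K J : Type*} [Field K] [NumberField K] [Fintype J] (m : Model K J)
    (S : Finset (HeightOneSpectrum (𝓞 K))) (T : ∀ w, Typ (m.L.fam.U w))
    (F : Zm m → XF (restr m.L.fam S) → ℂ) (hF : OutTyped T S F)
    (Rop : ((J → H3) → ℂ) → ((J → H3) → ℂ))
    (hR : ∀ (g : PGL(2, K)) (f : (J → H3) → ℂ) (z : J → H3),
      Rop (fun z' => f (m.actInf g z')) z = Rop f (m.actInf g z)) (c : ℂ)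
    (hc : ∀ y z, Rop (fun z' => F z' y) z = c * F z y) (y : XF m.L.fam) (z : J → H3) :
    Rop (fun z' => H76U.form m S F (z', y)) z = c * H76U.form m S F (z, y) :=
  H76U.form_arch hF Rop hR hc y z

/-! ## 4. The groups of the lattice types

`T : TD K` (`type_group` in `GuideOctDForm`) consists of additive subgroups `A`, `B`, `C` of a field `K`
and an additive character `psi` with `A A ⊆ A`, `A B ⊆ B`, `A C ⊆ C`, `B C ⊆ A`, `1 + A` closed under
inverses, and `psi = 1` on `A B`. Then the set `(1 + A, B; C, 1 + A)` is a group and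
`(a b; c d) ↦ psi(b)` is a character. In the application `A` is a small, `B` a large and `C` a very
small neighbourhood of `0`, so that `psi` is not trivial on `B`. -/

/-- **The rules** (`H76U2`). For `a, d ∈ 1 + A`, `b ∈ B`, `c ∈ C`: `a ≠ 0`, `a d ∈ 1 + A`,
`a⁻¹ ∈ 1 + A`, `a b ∈ B`, `a c ∈ C`, `a d - b c ∈ 1 + A`, and `psi(a b) = psi(b)`. -/
theorem lattice_rules {K : Type*} [Field K] (T : TD K) {a b c d : K} (ha : a - 1 ∈ T.A)
    (hb : b ∈ T.B) (hc : c ∈ T.C) (hd : d - 1 ∈ T.A) :
    a ≠ 0 ∧ a * d - 1 ∈ T.A ∧ a⁻¹ - 1 ∈ T.A ∧ a * b ∈ T.B ∧ a * c ∈ T.C ∧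
      a * d - b * c - 1 ∈ T.A ∧ T.psi (a * b) = T.psi b :=
  ⟨T.ne' ha, T.mulA ha hd, T.inv' ha, T.mulB ha hb, T.mulC ha hc, T.det_mem ha hb hc hd,
    T.psi_mul ha hb⟩

/-- **The inverse matrix** (`H76U2`): `g⁻¹ = det(g)⁻¹ (d, -b; -c, a)` for `g = (a, b; c, d)`. -/
theorem inverse_matrix {K : Type*} [Field K] (g : GL (Fin 2) K) :
    ((g⁻¹ : GL (Fin 2) K) : Matrix (Fin 2) (Fin 2) K) =
      (g.det : K)⁻¹ • !![g 1 1, -g 0 1; -g 1 0, g 0 0] :=
  H76U.inv_coe g

/-- **The matrices `(1 + A, B; C, 1 + A)` form a group** (`H76U2`). -/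
theorem lattice_group {K : Type*} [Field K] (T : TD K) (P : GL (Fin 2) K → Prop)
    (hP : ∀ g, P g ↔ g 0 0 - 1 ∈ T.A ∧ g 0 1 ∈ T.B ∧ g 1 0 ∈ T.C ∧ g 1 1 - 1 ∈ T.A) :
    P 1 ∧ (∀ g h, P g → P h → P (g * h)) ∧ ∀ g, P g → P g⁻¹ :=
  ⟨(hP 1).2 (T.mem_GH.1 T.GH.one_mem), fun g h hg hh => (hP _).2 (T.mem_GH.1
    (T.GH.mul_mem (T.mem_GH.2 ((hP g).1 hg)) (T.mem_GH.2 ((hP h).1 hh)))),
    fun g hg => (hP _).2 (T.mem_GH.1 (T.GH.inv_mem (T.mem_GH.2 ((hP g).1 hg))))⟩

/-- **The type attached to the lattices** (`H76U2`). The function `T.chi` on `PGL₂(K)`, given by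
`psi(b / d)` on the class of `(a, b; c, d)`, is multiplicative on the image `T.H` of this group, and
`T.H`, `T.chi` form a type for the subgroup `T.U = {g ∈ T.H | T.chi g = 1}`. -/
theorem lattice_type {K : Type*} [Field K] (T : TD K) :
    T.chi 1 = 1 ∧ (∀ g ∈ T.H, ∀ h ∈ T.H, T.chi (g * h) = T.chi g * T.chi h) ∧
      ∃ t : Typ T.U, t.H = T.H ∧ t.chi = T.chi :=
  ⟨T.chi_one, fun _ hg _ hh => T.chi_mul hg hh, T.typ, rfl, rfl⟩

/-- **The generators and their characters** (`H76U2`). For `b ∈ B`, `t ∈ 1 + A`, `c ∈ C` the matrices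
`(1 b; 0 1)`, `(t 0; 0 1)`, `(1 0; c 1)` are in the group, and their characters are `psi(b)`, `1`,
`1`. By `exists_ndl` of `GuideOctDForm` their products are the whole group, also for finitely many
types simultaneously. -/
theorem generators {K : Type*} [Field K] (T : TD K) :
    (∀ b ∈ T.B, ProjGenLinGroup.mk (nM b) ∈ T.H) ∧
    (∀ t : Kˣ, (t : K) - 1 ∈ T.A → ProjGenLinGroup.mk (dM t) ∈ T.H) ∧
    (∀ c ∈ T.C, ProjGenLinGroup.mk (lM c) ∈ T.H) ∧
    (∀ b : K, T.chi (ProjGenLinGroup.mk (nM b)) = T.psi b) ∧
    (∀ t : Kˣ, T.chi (ProjGenLinGroup.mk (dM t)) = 1) ∧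
    ∀ c : K, T.chi (ProjGenLinGroup.mk (lM c)) = 1 :=
  ⟨fun _ hb => ⟨_, T.nM_mem hb, rfl⟩, fun _ ht => ⟨_, T.dM_mem ht, rfl⟩,
    fun _ hc => ⟨_, T.lM_mem hc, rfl⟩, fun _ => T.chi_nM, fun _ => T.chi_dM, fun _ => T.chi_lM⟩

/-- **Normalised representatives** (`H76U2`). Every element of `T.H` has exactly one representative in
`GL₂(K)` with lower right entry `1`, and it is in the group `(1 + A, B; C, 1 + A)`. Here existence;
uniqueness is clear, and it is the reason why the generation works for several types at once. -/
theorem normalised_representative {K : Type*} [Field K] (T : TD K) {g : PGL(2, K)}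
    (hg : g ∈ T.H) :
    ∃ x : GL (Fin 2) K, (x 0 0 - 1 ∈ T.A ∧ x 0 1 ∈ T.B ∧ x 1 0 ∈ T.C ∧ x 1 1 - 1 ∈ T.A) ∧
      ProjGenLinGroup.mk x = g ∧ x 1 1 = 1 :=
  let ⟨x, h1, h2, h3⟩ := T.exists_normalised hg
  ⟨x, T.mem_GH.1 h1, h2, h3⟩

end Fermat.Agent.Guide.Semilocal
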