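import Fermat.Agent.H78KIFinal

/-!
# Reader's guide: function fields of subgroups of `SL₂(ℤ)` and the covering of the `t`-line

Companion of `GuideGaloisAction`, sections 4 and 5 (S48). Nothing is proved in this file: every
theorem is the exact statement of a theorem of the library (or a conjunction of such statements),
followed by a citation.

## What is explained here

The two inputs of the Galois action (the `q`-expansion principle and Kummer injectivity for
`±Γ₁(M) ∩ Γ₀(r)`, `r = 2, 3`) are theorems on a covering `X → X₀(r)` of the projective line with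
coordinate `t`. The library has neither the curve `X` nor its points: it works with the field of
the expansions of the modular functions, and with the embeddings of this field in Laurent series. This
file describes how that field is constructed and how the hypotheses of the abstract theorem
(`GuideGaloisAction`, section 6) are verified for it.

## Plan (reading order of this file)

1. *Modular functions for a subgroup of finite index* (`bounded_iff` to `field_embeddings`). A
   periodic holomorphic function on `ℍ` of moderate growth has a Laurent expansion. The embeddings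
   `x ↦ expansion of x ∘ γ`, at `i∞` and at the points of `ℍ`; the characteristic polynomial over
   the cosets has coefficients in `ℂ[j]`, which gives a relation of the same degree over `K[j]`; the
   degree over `K(j)` is the index of the subgroup.
2. *The Hauptmoduln of level 2 and 3* (`sturm_comparison` to `local_orders`): four identities,
   verified on 17 coefficients, give the invariance, the stabiliser, the growth at the cusps, the
   values and the local orders of the functions `t₂` and `t₃`.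
3. *The covering of the `t`-line* (`rational_function_field` to `orders_of_powers`): the tower
   `K(j) ⊆ K(t) ⊆ E`, its degrees, and the expansions at the points with a given value of `t`.
4. *The two principles over a number field, and descent* (`separation` to `descent`).

The verification that distinct conjugates of a suitable function have distinct reductions (division
values of the Weierstrass function, files `H58*`) is in `GuideDivisionValues`.

## References

NOTES.md: [239] (Appendix A.4) function fields of subgroups, files `H78FF*` (helper78); [238] (A.9)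
the two principles, files `H78KI*` (helper78); [161] (A.9) Hauptmoduln as functions, covering of the
line, files `H50HauptA` to `H50EmbC` (helper50); the series identities are in `H23Trunc`, `H23Haupt`,
`H23HauptL` (helper23). All theorems are in the closure of S48 (and of S47, which uses S48).

## Notation

`𝕢 h τ` is `exp (2 π i τ / h)`. `jInv` is the function `j = E₄³ / Δ` on `ℍ`, `jqModC K` its expansion
with coefficients in `K`. `E₄`, `Δ` and their expansions: see `GuideModularCurves`. `MDiff f` says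
that `f` is holomorphic. `T = (1 1; 0 1)`. For a field `K` with an embedding in `ℂ`, a Laurent series
`x` over `K` and `τ ∈ ℍ`, `H24.ev K x τ` is the value of `x` at `𝕢 1 τ`. `H24.HasExpC z f F` says that
the Laurent series `F` over `ℂ` converges for `0 < |w| < 1` and `f(τ) = F(z(τ))` whenever `z(τ) ≠ 0`.
`GoodAlg K Γ N` is the ring of the modular functions for `Γ` with coefficients in `K`
(`GuideGaloisAction.expansion_notions`).
-/

set_option autoImplicit false
set_option linter.unusedSectionVars false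
set_option linter.unusedFintypeInType false

open CongruenceSubgroup UpperHalfPlane ModularCurve IntermediateField
open scoped MatrixGroups ModularForm Manifold Polynomial IntermediateField
open Fermat.Agent.H78.FF (GoodAlg GoodChart phi Sep FF sFF jFF)

namespace Fermat.Agent.Guide.Separation

local notation "Qb" => AlgebraicClosure ℚ
local notation "𝕢" => Function.Periodic.qParam

/-! ## 1. Modular functions for a subgroup of finite index

Files `H78FFExp`, `H78FFRing`, `H78FFDeg`, `H78FFField`; for `Γ₀(N)` see `GuideCusps`. -/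

/-- **Growth and expansion.** Let `f` be holomorphic on `ℍ` with `f(τ + L) = f(τ)`. Then `f` is a
Laurent series in `𝕢 L` if and only if `(𝕢 L)^n f` is bounded near `i∞` for some `n`. File
`H78FFExp`. -/
theorem bounded_iff (L : ℕ) [NeZero L] {f : ℍ → ℂ} (hf : MDiff f)
    (hper : ∀ τ : ℍ, f (ModularGroup.T ^ L • τ) = f τ) :
    (∃ F, H24.HasExpC (fun τ : ℍ => 𝕢 (L : ℝ) τ) f F) ↔
      ∃ n : ℕ, IsBoundedAtImInfty (fun τ : ℍ => 𝕢 (L : ℝ) τ ^ n * f τ) :=
  ⟨fun ⟨_, h⟩ => H78.FF.bdd_of_hasExpC L h, fun ⟨n, h⟩ => H78.FF.expAlg_of_bdd L hf hper n h⟩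

/-- **Two kinds of coordinates.** `GoodChart K Γ N z` says that `z` is a coordinate (a function on `ℍ`
with values in the unit disc whose series determine the function) in which all `x ∘ γ`,
`x ∈ GoodAlg K Γ N`, `γ ∈ SL₂(ℤ)`, have a Laurent expansion. Examples: `𝕢 N` at `i∞`, and the Cayley
coordinate `(τ - τ₀) / (τ - conj τ₀)` at a point `τ₀ ∈ ℍ`. -/
theorem coordinates (K : Type*) [Field K] [Algebra K ℂ] (Γ : Subgroup SL(2, ℤ)) (N : ℕ) [NeZero N] :
    GoodChart K Γ N (fun τ : ℍ => 𝕢 (N : ℝ) τ) ∧ ∀ τ₀ : ℍ,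
      GoodChart K Γ N fun τ : ℍ => ((τ : ℂ) - τ₀) / ((τ : ℂ) - (starRingEnd ℂ) (τ₀ : ℂ)) :=
  ⟨H78.FF.goodChart_qParam K Γ N, H78.FF.goodChart_cayley K Γ N⟩

/-- **The embeddings.** For `γ ∈ SL₂(ℤ)` the map `phi hz γ`, `x ↦ expansion of x ∘ γ` in the coordinate
`z`, is an injective homomorphism of `K`-algebras `GoodAlg K Γ N → ℂ((z))`, and equality of two
expansions is equality of functions. -/
theorem embeddings {K : Type*} [Field K] [Algebra K ℂ] {Γ : Subgroup SL(2, ℤ)} {N : ℕ} [NeZero N]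
    {z : ℍ → ℂ} (hz : GoodChart K Γ N z) (γ γ' : SL(2, ℤ)) :
    (∀ x : GoodAlg K Γ N,
      H24.HasExpC z (fun τ => H24.ev K (x : LaurentSeries K) (γ • τ)) (phi hz γ x)) ∧
    Function.Injective (phi hz γ) ∧
    ∀ x y : GoodAlg K Γ N, phi hz γ x = phi hz γ' y ↔
      ∀ τ, H24.ev K (x : LaurentSeries K) (γ • τ) = H24.ev K (y : LaurentSeries K) (γ' • τ) :=
  ⟨H78.FF.phi_spec hz γ, H78.FF.phi_injective hz γ, H78.FF.phi_eq_phi_iff hz γ γ'⟩

/-- **Embeddings and cosets.** The embedding of `γ` depends only on the coset `Γ γ`. `Sep K Γ N` says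
that `Γ` is the group of all `γ` with `x ∘ γ = x` for all `x ∈ GoodAlg K Γ N`; under this hypothesis
distinct cosets have distinct embeddings. -/
theorem embeddings_cosets {K : Type*} [Field K] [Algebra K ℂ] {Γ : Subgroup SL(2, ℤ)} {N : ℕ}
    [NeZero N] {z : ℍ → ℂ} (hz : GoodChart K Γ N z) (γ γ' : SL(2, ℤ)) :
    (γ' * γ⁻¹ ∈ Γ → phi hz γ = phi hz γ') ∧
    ((∀ δ : SL(2, ℤ), (∀ x ∈ GoodAlg K Γ N, (fun τ => H24.ev K x (δ • τ)) = H24.ev K x) → δ ∈ Γ) →
      phi hz γ = phi hz γ' → γ' * γ⁻¹ ∈ Γ) :=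
  ⟨H78.FF.phi_eq_of_mem hz, fun h => H78.FF.mem_of_phi_eq hz h⟩

/-- **The characteristic polynomial.** For `x ∈ GoodAlg K Γ N` let `charP x = ∏ (X - x ∘ γ⁻¹)`, product
over the cosets `γ Γ`. It is monic of degree the index of `Γ`, has the root `x`, and its coefficients
are polynomials in `j` over `ℂ` (they are invariant under `SL₂(ℤ)`, holomorphic on `ℍ` and
meromorphic at the cusp). File `H78FFRing`. -/
theorem characteristic_polynomial {K : Type*} [Field K] [Algebra K ℂ] {Γ : Subgroup SL(2, ℤ)}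
    {N : ℕ} [NeZero N] [Fintype (SL(2, ℤ) ⧸ Γ)] (x : GoodAlg K Γ N) :
    (H78.FF.charP x).Monic ∧ (H78.FF.charP x).natDegree = Fintype.card (SL(2, ℤ) ⧸ Γ) ∧
    (H78.FF.charP x).eval (H24.ev K (x : LaurentSeries K)) = 0 ∧
    ∀ n, ∃ p : Polynomial ℂ, ∀ τ, (H78.FF.charP x).coeff n τ = p.eval (H61.jInv τ) :=
  ⟨H78.FF.charP_monic x, H78.FF.charP_natDegree x, H78.FF.charP_eval x, H78.FF.charP_coeff_eq x⟩

/-- **The field.** `FF K Γ N` is the subfield of `K((q))` generated by `GoodAlg K Γ N`; its elements are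
the quotients of elements of `GoodAlg K Γ N`. It contains `j` (as an element of the field: `jFF K Γ N`),
which is transcendental over `K`. File `H78FFField`. -/
theorem function_field (K : Type*) [Field K] [Algebra K ℂ] (Γ : Subgroup SL(2, ℤ)) (N : ℕ)
    [NeZero N] :
    (∀ x : LaurentSeries K,
      x ∈ FF K Γ N ↔ ∃ a ∈ GoodAlg K Γ N, ∃ b ∈ GoodAlg K Γ N, x = a / b) ∧
    jqModC K ∈ FF K Γ N ∧ Transcendental K (jFF K Γ N) :=
  ⟨fun _ => H78.FF.mem_FF_iff K Γ N, (jFF K Γ N).2, H78.FF.transcendental_jFF K Γ N⟩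

/-- **The relation over `K[j]`.** Let `n` be the index of `Γ`. Every `a ∈ GoodAlg K Γ N` satisfies a monic
equation of degree `n` with coefficients in `K[j]`: the coefficients over `ℂ` of
`characteristic_polynomial` are replaced by their images under a `K`-linear retraction `ℂ → K`. -/
theorem relation {K : Type*} [Field K] [Algebra K ℂ] {Γ : Subgroup SL(2, ℤ)} {N : ℕ} [NeZero N]
    [Fintype (SL(2, ℤ) ⧸ Γ)] (a : FF K Γ N) (ha : (a : LaurentSeries K) ∈ GoodAlg K Γ N) :
    ∃ p : ℕ → Polynomial K, a ^ Fintype.card (SL(2, ℤ) ⧸ Γ) +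
      ∑ i ∈ Finset.range (Fintype.card (SL(2, ℤ) ⧸ Γ)),
        Polynomial.aeval (jFF K Γ N) (p i) * a ^ i = 0 :=
  H78.FF.exists_relation_FF a ha

/-- **A criterion for the degree.** Let `K` have characteristic `0`, `F` a field extension of `K`,
`j ∈ F`, and `A` a subalgebra with `j ∈ A` whose quotients are all of `F`. If every `a ∈ A` satisfies a
monic equation of degree `n` with coefficients in `K[j]`, then `F` is finite over `K(j)`, of degree at
most `n`. (Finiteness is not assumed; it is proved with primitive elements of the finite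
subextensions.) File `H78FFDeg`. -/
theorem degree_criterion {K F : Type*} [Field K] [CharZero K] [Field F]
    [Algebra K F] (j : F) (A : Subalgebra K F) (hj : j ∈ A)
    (hA : ∀ z : F, ∃ a ∈ A, ∃ b ∈ A, z = a / b) (n : ℕ)
    (hdeg : ∀ a ∈ A, ∃ p : ℕ → Polynomial K,
      a ^ n + ∑ i ∈ Finset.range n, Polynomial.aeval j (p i) * a ^ i = 0) :
    FiniteDimensional K⟮j⟯ F ∧ Module.finrank K⟮j⟯ F ≤ n :=
  H78.FF.finiteDimensional_and_finrank_le j A hj hA n hdeg

/-- **Lower bound for the degree.** Distinct embeddings of `F` in a field `C` over `K` which agree at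
`j` are at most `[F : K(j)]` in number. File `H78FFDeg`. -/
theorem degree_lower_bound {K F C : Type*} [Field K] [Field F] [Field C]
    [Algebra K F] [Algebra K C] (j : F) [FiniteDimensional K⟮j⟯ F] {ι : Type*} [Finite ι]
    [Nonempty ι] (s : ι → (F →ₐ[K] C)) (hs : Function.Injective s) {y : C} (hy : ∀ i, s i j = y) :
    Nat.card ι ≤ Module.finrank K⟮j⟯ F :=
  H78.FF.card_le_finrank_of_embeddings j s hs hy

/-- **The degree over the `j`-line.** Let `Γ` be of finite index. The field `FF K Γ N` is finite over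
`K(j)`; if the modular functions separate the cosets of `Γ`, its degree is the index of `Γ` in
`SL₂(ℤ)`. No Riemann surface is used: `characteristic_polynomial` gives `≤`, the embeddings give `≥`.
File `H78FFField`. -/
theorem degree (K : Type*) [Field K] [Algebra K ℂ] (Γ : Subgroup SL(2, ℤ)) (N : ℕ)
    [NeZero N] [Γ.FiniteIndex] :
    FiniteDimensional K⟮jFF K Γ N⟯ (FF K Γ N) ∧
    (Sep K Γ N → Module.finrank K⟮jFF K Γ N⟯ (FF K Γ N) = Nat.card (SL(2, ℤ) ⧸ Γ)) :=
  ⟨H78.FF.finiteDimensional_jFF K Γ N, H78.FF.finrank_eq⟩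

/-- **The embeddings of the field.** For a coordinate `z` and a coset `g = γ Γ` there is an embedding
`sFF hz g` of `FF K Γ N` in `ℂ((z))` over `K`: on `GoodAlg K Γ N` it maps `x` to the expansion of
`x ∘ γ⁻¹`. All of them map `j` to the expansion of the function `j`; if the modular functions separate
the cosets they are distinct. File `H78FFField`. -/
theorem field_embeddings {K : Type*} [Field K] [Algebra K ℂ] {Γ : Subgroup SL(2, ℤ)} {N : ℕ}
    [NeZero N] {z : ℍ → ℂ} (hz : GoodChart K Γ N z) :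
    (∀ (γ : SL(2, ℤ)) (x : GoodAlg K Γ N),
      sFF hz (QuotientGroup.mk γ) (algebraMap _ _ x) = phi hz γ⁻¹ x) ∧
    (∀ (g : SL(2, ℤ) ⧸ Γ) (y : LaurentSeries ℂ), H24.HasExpC z H61.jInv y →
      sFF hz g (jFF K Γ N) = y) ∧
    (Sep K Γ N → Function.Injective (sFF hz)) :=
  ⟨fun γ x => by rw [H78.FF.sFF_algebraMap, H78.FF.sA_mk], fun g _ hy => H78.FF.sFF_jFF hz g hy,
    H78.FF.sFF_injective hz⟩

/-! ## 2. The Hauptmoduln of level 2 and 3

`t₂ = Δ(τ) / Δ(2τ)` and `t₃ = (η(τ) / η(3τ))^12`, files `H23Trunc`, `H23Haupt`, `H23HauptL` (series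
over `ℤ`), `H50HauptA`, `H50HauptB`, `H50HauptC`, `H50EmbA` (functions). The four relations with `j`
and with `j(q²)`, `j(q³)` as identities of series are in `GuideModularCurves`. -/

/-- **Comparison of expansions.** Let `A`, `B` be power series over `ℤ` which are the expansions of
modular forms of weight `k` on `Γ₀(N)` over `ℂ` (`IsMN`). If their first `M` coefficients agree, and
`k ψ(N) / 12 < M` (`ψ(N)` is the index of `Γ₀(N)`), then `A = B` (Sturm bound, Prelude). The
bound is `9` for weight `36` on `Γ₀(2)` and `16` for weight `48` on `Γ₀(3)`. File `H23Haupt`. -/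
theorem sturm_comparison {N : ℕ} [NeZero N] {k : ℤ} {A B : PowerSeries ℤ}
    (hA : ∃ F : ModularForm (Gamma0 N) k, qExpansion 1 F = A.map (Int.castRingHom ℂ))
    (hB : ∃ F : ModularForm (Gamma0 N) k, qExpansion 1 F = B.map (Int.castRingHom ℂ)) {M : ℕ}
    (hM : (k * (dedekindPsi N : ℕ)).toNat / 12 < M) (h : ∀ n < M, A.coeff n = B.coeff n) : A = B :=
  H23.Haupt.eq_of_isMN hA hB hM h

/-- **The four identities.** Let `D = q ∏ (1 - q^n)^24`, `E4` the Eisenstein series of weight 4 (integral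
power series), and `exPS N f = f(q^N)`. Divided by suitable powers of `D` and `D(q^N)` the first two
identities are the relations of `t₂` with `j(τ)` and `j(2τ)`; each of the other two is the product of
the relation of `t₃` and of that of `-t₃`, because only `t₃² = D / D(q³)` is a quotient of these
series (the leading coefficients exclude `-t₃`). Both sides are expansions of modular forms, of
weight 36 on `Γ₀(2)` and of weight 48 on `Γ₀(3)`; the coefficients of `q^0` to `q^16` are compared by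
exact computation with lists of integers (`H23Trunc`), starting from those of `E4` and `E6`
(`1728 D = E4³ - E6²`). File `H23Haupt`. -/
theorem identities (D : PowerSeries ℤ) (hD : D = PowerSeries.X * dedekindEtaUnit) :
    (∀ n < 17, D.coeff n = [0, 1, -24, 252, -1472, 4830, -6048, -16744, 84480, -113643, -115920,
      534612, -370944, -577738, 401856, 1217160, 987136].getD n 0) ∧
    (D + PowerSeries.C 256 * H23.Trunc.exPS 2 D) ^ 3 =
      eisenstein4 ^ 3 * (D * H23.Trunc.exPS 2 D) ∧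
    (D + PowerSeries.C 16 * H23.Trunc.exPS 2 D) ^ 3 =
      H23.Trunc.exPS 2 (eisenstein4 ^ 3) * (D * H23.Trunc.exPS 2 D) ∧
    (D ^ 2 + PowerSeries.C 196830 * (D * H23.Trunc.exPS 3 D) +
        PowerSeries.C 387420489 * H23.Trunc.exPS 3 D ^ 2) ^ 2 =
      (D * H23.Trunc.exPS 3 D) * (PowerSeries.C 756 * D - eisenstein4 ^ 3 +
        PowerSeries.C 19131876 * H23.Trunc.exPS 3 D) ^ 2 ∧
    (D ^ 2 + PowerSeries.C 270 * (D * H23.Trunc.exPS 3 D) +
        PowerSeries.C 729 * H23.Trunc.exPS 3 D ^ 2) ^ 2 =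
      (D * H23.Trunc.exPS 3 D) * (PowerSeries.C 36 * D - H23.Trunc.exPS 3 (eisenstein4 ^ 3) +
        PowerSeries.C 756 * H23.Trunc.exPS 3 D) ^ 2 := by
  subst hD
  exact ⟨H23.Haupt.ap_D, H23.Haupt.identity_E1, H23.Haupt.identity_E2, H23.Haupt.identity_E3,
    H23.Haupt.identity_E4⟩

/-- **The functions.** The series `t₂`, `t₃` (with integral coefficients) converge to the functions
`t2f = Δ(τ) / Δ(2τ)` and `t3f`, with `t3f² = Δ(τ) / Δ(3τ)`; both are holomorphic and without zeros on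
`ℍ`. -/
theorem functions :
    (∀ τ : ℍ, HasSum (fun n : ℤ => (H23.Haupt.t2 ℂ).coeff n * 𝕢 (1 : ℝ) τ ^ n)
      (H50.Haupt.t2f τ)) ∧
    (∀ τ : ℍ, HasSum (fun n : ℤ => (H23.Haupt.t3 ℂ).coeff n * 𝕢 (1 : ℝ) τ ^ n)
      (H50.Haupt.t3f τ)) ∧
    (∀ τ : ℍ, H50.Haupt.t2f τ = ModularForm.discriminant τ *
      (ModularForm.discriminant (H24.scale 2 τ))⁻¹ ∧ H50.Haupt.t3f τ ^ 2 =
      ModularForm.discriminant τ * (ModularForm.discriminant (H24.scale 3 τ))⁻¹) ∧
    (∀ τ, H50.Haupt.t2f τ ≠ 0 ∧ H50.Haupt.t3f τ ≠ 0) ∧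
    MDiff H50.Haupt.t2f ∧ MDiff H50.Haupt.t3f :=
  ⟨H50.Haupt.hasExp_t2, H50.Haupt.hasExp_t3, fun τ => ⟨rfl, H50.Haupt.t3f_sq τ⟩,
    fun τ => ⟨H50.Haupt.t2f_ne_zero τ, H50.Haupt.t3f_ne_zero τ⟩, H50.Haupt.mdiff_t2f,
    H50.Haupt.mdiff_t3f⟩

/-- **The relations with `j`.** `scale d τ = d τ`. -/
theorem relations (τ : ℍ) :
    (H50.Haupt.t2f τ + 256) ^ 3 = H61.jInv τ * H50.Haupt.t2f τ ^ 2 ∧
    (H50.Haupt.t2f τ + 16) ^ 3 = H61.jInv (H24.scale 2 τ) * H50.Haupt.t2f τ ∧
    (H50.Haupt.t3f τ + 27) * (H50.Haupt.t3f τ + 243) ^ 3 = H61.jInv τ * H50.Haupt.t3f τ ^ 3 ∧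
    (H50.Haupt.t3f τ + 27) * (H50.Haupt.t3f τ + 3) ^ 3 = H61.jInv (H24.scale 3 τ) * H50.Haupt.t3f τ :=
  ⟨H50.Haupt.t2f_E1 τ, H50.Haupt.t2f_E2 τ, H50.Haupt.t3f_E3 τ, H50.Haupt.t3f_E4 τ⟩

/-- **Invariance and stabiliser.** `t₂ ∘ γ = t₂` if and only if `γ ∈ Γ₀(2)`, and `t₃ ∘ γ = t₃` if and
only if `γ ∈ Γ₀(3)`. Invariance of `t₂` and of `t₃²` follows from the transformation of `Δ`; the
sign of `t₃` from the relations with `j(τ)` and `j(3τ)`. Conversely `t₂ ∘ γ = t₂` implies
`j(2 γτ) = j(2 τ)` by the second relation, hence `γ ∈ Γ₀(2)`; likewise for `t₃`. The indices of the two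
groups are `3` and `4`, the degrees of the relations with `j`. -/
theorem stabiliser :
    (∀ γ : SL(2, ℤ), (∀ τ, H50.Haupt.t2f (γ • τ) = H50.Haupt.t2f τ) ↔ γ ∈ Gamma0 2) ∧
    (∀ γ : SL(2, ℤ), (∀ τ, H50.Haupt.t3f (γ • τ) = H50.Haupt.t3f τ) ↔ γ ∈ Gamma0 3) ∧
    Nat.card (SL(2, ℤ) ⧸ Gamma0 2) = 3 ∧ Nat.card (SL(2, ℤ) ⧸ Gamma0 3) = 4 :=
  ⟨fun _ => ⟨H50.Haupt.mem_Gamma0_of_t2f, fun h τ => H50.Haupt.t2f_smul h τ⟩,
    fun _ => ⟨H50.Haupt.mem_Gamma0_of_t3f, fun h τ => H50.Haupt.t3f_smul h τ⟩,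
    H50.Haupt.card_Gamma0_two, H50.Haupt.card_Gamma0_three⟩

/-- **Growth at all cusps.** The relations bound `t₂` and `t₃` by a constant plus `|j|` on all of `ℍ`.
A holomorphic function with such a bound, invariant under the conjugates of `T ^ N`, has an expansion
in `𝕢 N` at every cusp. Hence `t₂` is a modular function for `Γ₀(2)` with expansions in `𝕢 N` when
`2 ∣ N`, and `t₃` is one for `Γ₀(3)` when `3 ∣ N`. File `H50HauptB`. -/
theorem growth (K : Type*) [Field K] [Algebra K ℂ] (N : ℕ) [NeZero N] :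
    (∀ τ, ‖H50.Haupt.t2f τ‖ ≤ 17000000 + ‖H61.jInv τ‖) ∧
    (∀ τ, ‖H50.Haupt.t3f τ‖ ≤ 500000000 + ‖H61.jInv τ‖) ∧
    (∀ (f : ℍ → ℂ) (C : ℝ), MDiff f → (∀ τ, ‖f τ‖ ≤ C + ‖H61.jInv τ‖) →
      (∀ (γ : SL(2, ℤ)) (τ : ℍ), f (γ • ModularGroup.T ^ N • τ) = f (γ • τ)) →
      ∀ γ : SL(2, ℤ), ∃ F, H24.HasExpC (fun τ : ℍ => 𝕢 (N : ℝ) τ) (fun τ => f (γ • τ)) F) ∧
    (2 ∣ N → H23.Haupt.t2 K ∈ GoodAlg K (Gamma0 2) N) ∧
    (3 ∣ N → H23.Haupt.t3 K ∈ GoodAlg K (Gamma0 3) N) :=
  ⟨H50.Haupt.norm_t2f_le, H50.Haupt.norm_t3f_le,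
    fun _ C hf hb hinv γ => H50.Haupt.mem_expAlg_of_le hf N C hb hinv γ,
    fun h => H50.Haupt.good_t2 K le_rfl h, fun h => H50.Haupt.good_t3 K le_rfl h⟩

/-- **Values.** `t₂` and `t₃` take every value `α ≠ 0`. Proof for `t₂`: the function `j` takes the value
`(α + 256)³ / α²` at some `τ`, so `α` is a root of the equation of `t₂(τ)` over `j(τ)`. The roots of
this equation are the values of `t₂` at the points `γ τ`: a monic polynomial over the ring of
holomorphic functions, of degree the index of the stabiliser of `f`, which has all `f ∘ γ` as roots is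
the product of the `X - f ∘ γ` over the cosets. File `H50EmbA`. -/
theorem values {α : ℂ} (hα : α ≠ 0) :
    (∃ τ, H50.Haupt.t2f τ = α) ∧ ∃ τ, H50.Haupt.t3f τ = α :=
  ⟨H50.Haupt.t2f_surj hα, H50.Haupt.t3f_surj hα⟩

/-- **Local orders.** `oAt τ₀ f` is the order of vanishing of `f` at `τ₀`. The function `j - j(τ₀)` has
order `3`, `2` or `1` at `τ₀`; by the relations, `t₂ - t₂(τ₀)` has order `1` unless `t₂(τ₀) = -64`, and
`t₃ - t₃(τ₀)` has order `1` unless `t₃(τ₀) = -27`. These are the values at the elliptic points of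
`Γ₀(2)` and `Γ₀(3)`. File `H50EmbA`. -/
theorem local_orders (τ₀ : ℍ) :
    H50.Haupt.oAt τ₀ (fun τ => H61.jInv τ - H61.jInv τ₀) =
      (if H61.jInv τ₀ = 0 then 3 else if H61.jInv τ₀ = 1728 then 2 else 1) ∧
    (H50.Haupt.t2f τ₀ ≠ -64 →
      H50.Haupt.oAt τ₀ (fun τ => H50.Haupt.t2f τ - H50.Haupt.t2f τ₀) = 1) ∧
    (H50.Haupt.t3f τ₀ ≠ -27 →
      H50.Haupt.oAt τ₀ (fun τ => H50.Haupt.t3f τ - H50.Haupt.t3f τ₀) = 1) :=
  ⟨H50.Haupt.oAt_j τ₀, H50.Haupt.order_t2f τ₀, H50.Haupt.order_t3f τ₀⟩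

/-! ## 3. The covering of the `t`-line

`Haup K r N` is the common interface of `t₂` and `t₃`: a modular function `t` for `Γ₀(r)`, its
function `f`, the elliptic value `c`, and the properties of section 2. For `Γ ≤ Γ₀(r)`, `H.tF hΓ` is
`t` as an element of the field `E = FF K Γ N`. Files `H50EmbB`, `H50EmbC`. -/

/-- **The rational function field.** If `t` is transcendental over `K`, the field `K(t)` is the field of
rational functions in `t`: no polynomial relation, and every element is a quotient of polynomials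
(`IsRatGen`, the form in which `GuideGaloisAction`, section 6, uses it). -/
theorem rational_function_field {K F : Type*} [Field K] [Field F] [Algebra K F] {t : F}
    (ht : Transcendental K t) :
    (∀ p : K[X], Polynomial.aeval (AdjoinSimple.gen K t) p = 0 → p = 0) ∧
    ∀ x : K⟮t⟯, ∃ p q : K[X], q ≠ 0 ∧
      x * Polynomial.aeval (AdjoinSimple.gen K t) q = Polynomial.aeval (AdjoinSimple.gen K t) p :=
  ⟨(H50.Haupt.isRatGen_gen ht).transc, (H50.Haupt.isRatGen_gen ht).surj⟩

/-- **The tower `K(j) ⊆ K(t) ⊆ E`.** `t` is transcendental over `K`, `j ∈ K(t)`, `t` is integral over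
`K(j)` with minimal polynomial of degree the index of `Γ₀(r)`; if the modular functions separate the
cosets of `Γ`, the degree of `E` over `K(t)` is the index of `Γ` in `Γ₀(r)`. -/
theorem tower {K : Type*} [Field K] [Algebra K ℂ] {r : ℕ} [NeZero r] {N : ℕ} [NeZero N]
    (H : H50.Haupt.Haup K r N) {Γ : Subgroup SL(2, ℤ)} (hΓ : Γ ≤ Gamma0 r) [Γ.FiniteIndex] :
    Transcendental K (H.tF hΓ) ∧ jFF K Γ N ∈ K⟮H.tF hΓ⟯ ∧ IsIntegral K⟮jFF K Γ N⟯ (H.tF hΓ) ∧
    (minpoly K⟮jFF K Γ N⟯ (H.tF hΓ)).natDegree = Nat.card (SL(2, ℤ) ⧸ Gamma0 r) ∧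
    (Sep K Γ N → FiniteDimensional K⟮H.tF hΓ⟯ (FF K Γ N) ∧
      Module.finrank K⟮H.tF hΓ⟯ (FF K Γ N) = Γ.relIndex (Gamma0 r)) :=
  ⟨H.transcendental_tF hΓ, H.jFF_mem hΓ, H.isIntegral_tF hΓ, H.natDegree_minpoly hΓ,
    fun h => ⟨H.finiteDimensional_tF hΓ h, H.finrank_tF hΓ h⟩⟩

/-- **Restriction to the line.** The embeddings of `E` attached to `γ`, `γ'` agree at `t` if and only
if `γ` and `γ'` define the same coset of `Γ₀(r)`. Hence the embeddings `sFF hz g` with a given
restriction to `K(t)` are those of the cosets `g` of `Γ` contained in one coset of `Γ₀(r)`. -/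
theorem restriction {K : Type*} [Field K] [Algebra K ℂ] {r : ℕ} [NeZero r] {N : ℕ} [NeZero N]
    (H : H50.Haupt.Haup K r N) {Γ : Subgroup SL(2, ℤ)} (hΓ : Γ ≤ Gamma0 r) {z : ℍ → ℂ}
    (hz : GoodChart K Γ N z) (γ γ' : SL(2, ℤ)) :
    sFF hz (QuotientGroup.mk γ) (H.tF hΓ) = sFF hz (QuotientGroup.mk γ') (H.tF hΓ) ↔
      γ⁻¹ * γ' ∈ Gamma0 r :=
  H.sFF_tF_eq_iff hΓ hz γ γ'

/-- **The expansion of `t` at a point of `ℍ`.** If `t(τ₀) ≠ c`, the function `t` is a power series
`y = t(τ₀) + y₁ z + ⋯` with `y₁ ≠ 0` in the Cayley coordinate `z` at `τ₀`, and the embedding of `E`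
attached to `τ₀` and `γ ∈ Γ₀(r)` maps `t` to `y`. -/
theorem expansion_at_a_point {K : Type*} [Field K] [Algebra K ℂ] {r : ℕ} [NeZero r] {N : ℕ}
    [NeZero N] (H : H50.Haupt.Haup K r N) {Γ : Subgroup SL(2, ℤ)} (hΓ : Γ ≤ Gamma0 r) (τ₀ : ℍ)
    (h : H.f τ₀ ≠ H.c) :
    ∃ y : PowerSeries ℂ,
      H24.HasExpC (H24.cayley τ₀) H.f (HahnSeries.ofPowerSeries ℤ ℂ y) ∧
      PowerSeries.constantCoeff y = H.f τ₀ ∧ PowerSeries.coeff 1 y ≠ 0 ∧
      ∀ γ ∈ Gamma0 r, sFF (H78.FF.goodChart_cayley K Γ N τ₀) (QuotientGroup.mk γ) (H.tF hΓ) =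
        HahnSeries.ofPowerSeries ℤ ℂ y := by
  obtain ⟨y, h1, h2, h3⟩ := H.exists_y τ₀ h
  exact ⟨y, h1, h2, h3, fun γ hγ => H.sFF_tF hΓ τ₀ h1 hγ⟩

/-- **Orders of powers.** Let `a`, `b` be modular functions for `Γ` with `a = A ^ m U`, `b = B ^ m U` as
functions on `ℍ`, where `A`, `B`, `U` are holomorphic on `ℍ` (but need not be modular). Then the order
of `a / b` in every expansion at a point of `ℍ` is divisible by `m`. -/
theorem orders_of_powers {K : Type*} [Field K] [Algebra K ℂ] {N : ℕ} [NeZero N]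
    {Γ : Subgroup SL(2, ℤ)} (τ₀ : ℍ) (g : SL(2, ℤ) ⧸ Γ) (m : ℕ) (a b : GoodAlg K Γ N)
    {A B U : ℍ → ℂ} (hA : MDiff A) (hB : MDiff B) (hU : MDiff U)
    (ha : ∀ τ, H24.ev K (a : LaurentSeries K) τ = A τ ^ m * U τ)
    (hb : ∀ τ, H24.ev K (b : LaurentSeries K) τ = B τ ^ m * U τ) :
    (m : ℤ) ∣ (sFF (H78.FF.goodChart_cayley K Γ N τ₀) g
      (algebraMap (GoodAlg K Γ N) (FF K Γ N) a / algebraMap (GoodAlg K Γ N) (FF K Γ N) b)).order :=
  H50.Haupt.dvd_order_div τ₀ g m a b hA hB hU ha hb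

/-! ## 4. The two principles over a number field, and descent

`Ω` is an algebraically closed field of characteristic `0` with an embedding in `ℂ` (in the
application `ℚ̄`), `A` a valuation ring of `Ω` in which `M r` is invertible, `aC A : A → ℂ` the
inclusion, `K ⊆ Ω` a field containing the `M r`-th roots of unity, `H24.incl K` the embedding of
`K((q))` in `ℂ((q))`, `GG M r = ±Γ₁(M) ∩ Γ₀(r)`. The valuation ring `A` contains all roots of unity,
and a Laurent series with all coefficients in `A` is a Laurent series over `A` (`H78KISetup`). Files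
`H78KISetup`, `H78KIAbs`, `H78KIMain`, `H78KIFinal`. -/

/-- **The modular functions for `GG M r` separate cosets.** Let `K` contain the `M r`-th roots of unity.
If `x ∘ γ = x` for all modular functions `x` for `GG M r` with coefficients in `K`, then
`γ ∈ GG M r`: the Hauptmodul `t` gives `γ ∈ Γ₀(r)`, and the function
`(x(1/M) - x(1/r)) E₄ E₆ / Δ` (division values of the Weierstrass function, `GuideDivisionValues`)
gives `γ ∈ ±Γ₁(M)`. -/
theorem separation {K : Type*} [Field K] [CharZero K] [Algebra K ℂ] {M r : ℕ} [NeZero M] [NeZero r]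
    [NeZero (M * r)] (hM : 2 ≤ M) (hr : r = 2 ∨ r = 3)
    (hK : ∀ z : ℂ, z ^ (M * r) = 1 → z ∈ (algebraMap K ℂ).range) (γ : SL(2, ℤ))
    (h : ∀ x ∈ GoodAlg K (H78.KI.GG M r) (M * r),
      (fun τ => H24.ev K x (γ • τ)) = H24.ev K x) : γ ∈ H78.KI.GG M r := by
  obtain ⟨H⟩ := H78.KI.exists_haupZ K r (M * r) hr (dvd_mul_left r M)
  exact H78.KI.sep_GG hM hr hK H γ h

/-- **The `q`-expansion principle, abstract form with expansions in `ℂ((q))`.** `𝔬` is a discrete
valuation ring with field of fractions `K ⊆ Ω`, dominated by the valuation ring `A` of `Ω`, with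
`p ≥ 1` equal to `0` in the residue field; `E` is a finite extension of `K(t)`, `t` transcendental, with
`[E : K(t)]` embeddings `τ_i` in `ℂ((q))` over `K`. Suppose:
(1) `τ_i t` has coefficients in `A`, does not depend on `i`, and its reduction has a pole;
(2) some `θ ∈ E` has conjugates `τ_i θ` over `A` with pairwise distinct reductions;
(3) for every `α ≠ 0, c` (`c` a unit of `𝔬`) `E / K(t)` is unramified over `α` (`EmbAt`, see
`GuideGaloisAction.emb_notion`);
(4) `E` has an embedding `ψ` in `K((q))` over `K` (a rational cusp).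
If ONE conjugate `τ_i z` of `z ∈ E` is a quotient `P / Q` of series over `A` with nonzero reduction of
`Q`, then so is EVERY conjugate. Proof: `GuideGaloisAction.qexp_principle`. File `H78KIAbs`. -/
theorem qexp_abstract {Ω : Type*} [Field Ω] [Algebra Ω ℂ] (A : ValuationSubring Ω)
    {𝔬 K E : Type*} [CommRing 𝔬] [IsDomain 𝔬] [IsDiscreteValuationRing 𝔬]
    [Field K] [CharZero K] [Algebra 𝔬 K] [IsFractionRing 𝔬 K] [Algebra K Ω] [Algebra K ℂ]
    [IsScalarTower K Ω ℂ] [Field E] [Algebra K E]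
    (oA : 𝔬 →+* A) [IsLocalHom oA]
    (hoA : ∀ c : 𝔬, ((oA c : A) : Ω) = algebraMap K Ω (algebraMap 𝔬 K c))
    {t : E} (ht : Transcendental K t)
    (tA : LaurentSeries A) (htA : (coeffMap (IsLocalRing.residue A) tA).order < 0)
    {ι : Type*} [Finite ι] (τ : ι → (E →ₐ[K] LaurentSeries ℂ))
    (hcard : Nat.card ι = Module.finrank K⟮t⟯ E)
    (hτt : ∀ i, τ i t = coeffMap (H78.KI.aC A) tA)
    (θ : E) (a : ι → LaurentSeries A) (ha : ∀ i, τ i θ = coeffMap (H78.KI.aC A) (a i))
    (hdist : ∀ i j, i ≠ j → coeffMap (IsLocalRing.residue A) (a i) ≠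
      coeffMap (IsLocalRing.residue A) (a j))
    (p : ℕ) (hp1 : 1 ≤ p) (hpA : IsLocalRing.residue A (p : A) = 0)
    (c : 𝔬) (hc : IsUnit c) (ψ : E →ₐ[K] LaurentSeries K) [FiniteDimensional K⟮t⟯ E]
    (hemb : ∀ α : ℂ, α ≠ 0 → α ≠ algebraMap K ℂ (algebraMap 𝔬 K c) →
      Nonempty (H29.EmbAt K ℂ E (AdjoinSimple.gen K t) α)) {z : E} (i j : ι)
    (hz : ∃ P Q : LaurentSeries A, coeffMap (IsLocalRing.residue A) Q ≠ 0 ∧
      τ i z * coeffMap (H78.KI.aC A) Q = coeffMap (H78.KI.aC A) P) :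
    ∃ P Q : LaurentSeries A, coeffMap (IsLocalRing.residue A) Q ≠ 0 ∧
      τ j z * coeffMap (H78.KI.aC A) Q = coeffMap (H78.KI.aC A) P :=
  H78.KI.qe_abs A oA hoA ht tA htA τ hcard hτt θ a ha hdist p hp1 hpA c hc ψ hemb i j hz

/-- **Kummer injectivity, abstract form.** Same hypotheses (1), (2), (4), `m` a prime invertible in
`𝔬`, and (3) with: all orders of `w ∈ E` at the points over `α` are divisible by `m`. If one
conjugate of `w` is a quotient `P / Q` of series over `A` with equal nonzero reductions, and `ψ w` is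
an `m`-th power in `K((q))`, then `w` is an `m`-th power in `E`. Proof:
`GuideGaloisAction.ki_qexp`. File `H78KIAbs`. -/
theorem kummer_abstract {Ω : Type*} [Field Ω] [Algebra Ω ℂ] (A : ValuationSubring Ω)
    {𝔬 K E : Type*} [CommRing 𝔬] [IsDomain 𝔬] [IsDiscreteValuationRing 𝔬]
    [Field K] [CharZero K] [Algebra 𝔬 K] [IsFractionRing 𝔬 K] [Algebra K Ω] [Algebra K ℂ]
    [IsScalarTower K Ω ℂ] [Field E] [Algebra K E]
    (oA : 𝔬 →+* A) [IsLocalHom oA]
    (hoA : ∀ c : 𝔬, ((oA c : A) : Ω) = algebraMap K Ω (algebraMap 𝔬 K c))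
    {t : E} (ht : Transcendental K t)
    (tA : LaurentSeries A) (htA : (coeffMap (IsLocalRing.residue A) tA).order < 0)
    {ι : Type*} [Finite ι] (τ : ι → (E →ₐ[K] LaurentSeries ℂ))
    (hcard : Nat.card ι = Module.finrank K⟮t⟯ E)
    (hτt : ∀ i, τ i t = coeffMap (H78.KI.aC A) tA)
    (θ : E) (a : ι → LaurentSeries A) (ha : ∀ i, τ i θ = coeffMap (H78.KI.aC A) (a i))
    (hdist : ∀ i j, i ≠ j → coeffMap (IsLocalRing.residue A) (a i) ≠
      coeffMap (IsLocalRing.residue A) (a j))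
    (p : ℕ) (hp1 : 1 ≤ p) (hpA : IsLocalRing.residue A (p : A) = 0)
    (c : 𝔬) (hc : IsUnit c) (ψ : E →ₐ[K] LaurentSeries K) [FiniteDimensional K⟮t⟯ E]
    {m : ℕ} (hm : m.Prime) (hmu : IsUnit (m : 𝔬)) {w : E}
    (hemb : ∀ α : ℂ, α ≠ 0 → α ≠ algebraMap K ℂ (algebraMap 𝔬 K c) →
      ∃ D : H29.EmbAt K ℂ E (AdjoinSimple.gen K t) α, ∀ i, (m : ℤ) ∣ (D.σ i w).order)
    (i : ι) (P Q : LaurentSeries A)
    (hPQ : τ i w * coeffMap (H78.KI.aC A) Q = coeffMap (H78.KI.aC A) P)
    (hQ : coeffMap (IsLocalRing.residue A) Q ≠ 0)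
    (hP : coeffMap (IsLocalRing.residue A) P = coeffMap (IsLocalRing.residue A) Q)
    (h₀ : LaurentSeries K) (hh : h₀ ^ m = ψ w) : ∃ g : E, g ^ m = w :=
  H78.KI.ki_abs A oA hoA ht tA htA τ hcard hτt θ a ha hdist p hp1 hpA c hc ψ hm hmu hemb i P Q
    hPQ hQ hP h₀ hh

/-- **The hypotheses at `p`.** Let `A` lie over the prime `p`, and let `H : HaupZ K r (M r)` be a
Hauptmodul `t` with its expansion `H.tZ` over `ℤ` and its elliptic value `H.cZ = - r ^ k`
(`GuideGaloisAction.hauptmodul`). Integers prime to `p` are units of `A`, and `p` is `0` in the residue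
field; the expansion `tAA A H` of `t` in `𝕢 (M r)` over `A` is `u ^ (- M r) + ⋯`, so its reduction has a
pole; and the elliptic value is a unit of `A ∩ K` if `p ∤ r`. File `H78KIMain`. -/
theorem hypotheses_at_p {Ω : Type*} [Field Ω] [CharZero Ω] [IsAlgClosed Ω] [Algebra Ω ℂ]
    (A : ValuationSubring Ω) {K : Type*} [Field K] [CharZero K] [Algebra K Ω] [Algebra K ℂ]
    [IsScalarTower K Ω ℂ] {M r : ℕ} [NeZero M] [NeZero r] [NeZero (M * r)] {p : ℕ} (hp : p.Prime)
    (hA : A.LiesOverPrime p) (H : H78.KI.HaupZ K r (M * r)) :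
    (∀ n : ℕ, ¬ p ∣ n → IsUnit ((n : ℕ) : A)) ∧ IsLocalRing.residue A ((p : ℕ) : A) = 0 ∧
    coeffMap (H78.KI.aC A) (H78.KI.tAA A H) =
      qExpand ℂ (M * r) (coeffMap (Int.castRingHom ℂ) H.tZ) ∧
    (coeffMap (IsLocalRing.residue A) (H78.KI.tAA A H)).order < 0 ∧
    (¬ p ∣ r → IsUnit ((H.cZ : ℤ) : A.comap (algebraMap K Ω))) :=
  ⟨fun _ hn => H78.KI.isUnit_natCast A hp hA hn, H78.KI.residue_p A hA, H78.KI.coeffMap_tAA A H,
    H78.KI.order_tAA A H, fun h => H78.KI.isUnit_cZ A hp hA h H⟩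

/-- **All conjugates are integral.** Suppose that `A ∩ K` is a discrete valuation ring (`K` a number
field), that `A` lies over `p ∤ M`, `p ≠ r`, and that the expansion of the modular function `x` for
`GG M r` at `i∞` has coefficients in `A`. Then the expansion of every `x ∘ γ⁻¹`, `γ ∈ Γ₀(r)`, that is
`tau γ x`, is a quotient `P' / Q'` of series over `A` with nonzero reduction of `Q'`. Proof:
`qexp_abstract` for `E = FF K (GG M r) (M r)`. The embeddings `tau` are those of
`GuideGaloisAction.conjugates`; (1) `hypotheses_at_p`; (2) `GuideGaloisAction.separating_generator`;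
(3) `GuideGaloisAction.embeddings_over_the_line`, with `separation`; (4) the elements of `E` are
Laurent series over `K` (`function_field`). File `H78KIMain`. -/
theorem qexp_all_conjugates {Ω : Type*} [Field Ω] [CharZero Ω] [IsAlgClosed Ω] [Algebra Ω ℂ]
    (A : ValuationSubring Ω) {K : Type*} [Field K] [CharZero K] [Algebra K Ω] [Algebra K ℂ]
    [IsScalarTower K Ω ℂ] {M r : ℕ} [NeZero M] [NeZero r] [NeZero (M * r)] (hM : 2 ≤ M)
    (hr : r = 2 ∨ r = 3) (hK : ∀ z : Ω, z ^ (M * r) = 1 → z ∈ (algebraMap K Ω).range)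
    [IsDiscreteValuationRing (A.comap (algebraMap K Ω))] {p : ℕ} (hp : p.Prime)
    (hA : A.LiesOverPrime p) (hpM : ¬ p ∣ M) (hpr : p ≠ r)
    (x : GoodAlg K (H78.KI.GG M r) (M * r)) (P : LaurentSeries A)
    (hP : coeffMap (H78.KI.aC A) P = H24.incl K (x : LaurentSeries K))
    (j : Gamma0 r ⧸ (H78.KI.GG M r).subgroupOf (Gamma0 r)) :
    ∃ P' Q' : LaurentSeries A, coeffMap (IsLocalRing.residue A) Q' ≠ 0 ∧
      H78.KI.tau K M r j (algebraMap (GoodAlg K (H78.KI.GG M r) (M * r)) _ x) *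
        coeffMap (H78.KI.aC A) Q' = coeffMap (H78.KI.aC A) P' :=
  H78.KI.qe_FF A hM hr hK hp hA hpM hpr x P hP j

/-- **The `q`-expansion principle for `GG M r` over `K`.** Suppose that `A ∩ K` is a discrete valuation
ring (`K` a number field). Let `x` be a modular function for `GG M r` whose expansion has coefficients
in `A`, of residue characteristic `p ∤ M`, `p ≠ r`. If for `δ ∈ Γ₀(r)` the expansion of `x ∘ δ` is
`c X` with `X` over `A` of nonzero reduction, then `c ∈ A`. Proof: `c X Q' = P'` with `P'`, `Q'` of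
`qexp_all_conjugates`; if `c ∉ A`, then `c⁻¹` is in the maximal ideal of `A`, and the reduction of
`X Q' = c⁻¹ P'` would be zero. File `H78KIMain`. -/
theorem qexp_over_K {Ω : Type*} [Field Ω] [CharZero Ω] [IsAlgClosed Ω] [Algebra Ω ℂ]
    (A : ValuationSubring Ω) {K : Type*} [Field K] [CharZero K] [Algebra K Ω] [Algebra K ℂ]
    [IsScalarTower K Ω ℂ] {M r : ℕ} [NeZero M] [NeZero r] [NeZero (M * r)] (hM : 2 ≤ M)
    (hr : r = 2 ∨ r = 3) (hK : ∀ z : Ω, z ^ (M * r) = 1 → z ∈ (algebraMap K Ω).range)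
    [IsDiscreteValuationRing (A.comap (algebraMap K Ω))] {p : ℕ} (hp : p.Prime)
    (hA : A.LiesOverPrime p) (hpM : ¬ p ∣ M) (hpr : p ≠ r)
    (x : GoodAlg K (H78.KI.GG M r) (M * r)) (P : LaurentSeries A)
    (hP : coeffMap (H78.KI.aC A) P = H24.incl K (x : LaurentSeries K)) {δ : SL(2, ℤ)}
    (hδ : δ ∈ Gamma0 r) (X : LaurentSeries A) (c : Ω)
    (hX : coeffMap (IsLocalRing.residue A) X ≠ 0)
    (hexp : H24.HasExpC (fun τ : ℍ => 𝕢 ((M * r : ℕ) : ℝ) τ)
      (fun τ => H24.ev K (x : LaurentSeries K) (δ • τ))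
      (coeffMap (algebraMap Ω ℂ) (HahnSeries.C c * coeffMap A.subtype X))) : c ∈ A :=
  H78.KI.qe_const A hM hr hK hp hA hpM hpr x P hP hδ X c hX hexp

/-- **Kummer injectivity for `GG M r` over `K`.** Same setting, `n` a prime, `p ∤ n`. Let `u₁`, `u₂` be
modular functions for `GG M r` which are `n`-th powers of holomorphic functions on `ℍ`, with
expansions over `A` of equal nonzero reductions, and `u₁ / u₂` an `n`-th power in `K((q))`. Then
`u₁ / u₂` is the `n`-th power of an element of the field `FF K (GG M r) (M r)`. Proof: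
`kummer_abstract` for `w = u₁ / u₂`, with the same verifications as for `qexp_all_conjugates`. File
`H78KIMain`. -/
theorem kummer_over_K {Ω : Type*} [Field Ω] [CharZero Ω] [IsAlgClosed Ω] [Algebra Ω ℂ]
    (A : ValuationSubring Ω) {K : Type*} [Field K] [CharZero K] [Algebra K Ω] [Algebra K ℂ]
    [IsScalarTower K Ω ℂ] {M r : ℕ} [NeZero M] [NeZero r] [NeZero (M * r)] (hM : 2 ≤ M)
    (hr : r = 2 ∨ r = 3) (hK : ∀ z : Ω, z ^ (M * r) = 1 → z ∈ (algebraMap K Ω).range)
    [IsDiscreteValuationRing (A.comap (algebraMap K Ω))] {n p : ℕ} (hn : n.Prime) (hp : p.Prime)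
    (hA : A.LiesOverPrime p) (hpM : ¬ p ∣ M) (hpr : p ≠ r) (hpn : ¬ p ∣ n)
    (u₁ u₂ : GoodAlg K (H78.KI.GG M r) (M * r)) {h₁ h₂ : ℍ → ℂ}
    (hh₁ : MDiff h₁) (hh₂ : MDiff h₂)
    (e₁ : ∀ τ, h₁ τ ^ n = H24.ev K (u₁ : LaurentSeries K) τ)
    (e₂ : ∀ τ, h₂ τ ^ n = H24.ev K (u₂ : LaurentSeries K) τ)
    (P Q : LaurentSeries A) (hP : coeffMap (H78.KI.aC A) P = H24.incl K (u₁ : LaurentSeries K))
    (hQ : coeffMap (H78.KI.aC A) Q = H24.incl K (u₂ : LaurentSeries K))
    (hQ0 : coeffMap (IsLocalRing.residue A) Q ≠ 0)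
    (hPQ : coeffMap (IsLocalRing.residue A) P = coeffMap (IsLocalRing.residue A) Q)
    (h₀ : LaurentSeries K) (hh₀ : h₀ ^ n * (u₂ : LaurentSeries K) = u₁) :
    ∃ g : FF K (H78.KI.GG M r) (M * r),
      g ^ n * algebraMap (GoodAlg K (H78.KI.GG M r) (M * r)) _ u₂ =
        algebraMap (GoodAlg K (H78.KI.GG M r) (M * r)) _ u₁ :=
  H78.KI.ki_FF A hM hr hK hn hp hA hpM hpr hpn u₁ u₂ hh₁ hh₂ e₁ e₂ P Q hP hQ hQ0 hPQ h₀ hh₀

/-- **Descent.** From `ℚ̄` to a number field: the property of being a modular function depends only on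
the image of the series in `ℂ((q))`; a series whose coefficients come from a subfield is the image of
a series over the subfield, of the same order; if `A` lies over `p`, then `1 / p ∉ A`, so the
restriction of `A` to a number field is a discrete valuation ring (`H58DVR`). Every finite extension
of `ℚ` in `ℚ̄` is contained in one with the `M r`-th roots of unity (`H58Num`). This reduces
`GuideGaloisAction.qExpansion_principle_functions` and `kummer_injectivity_functions` to
`qexp_over_K` and `kummer_over_K`. File `H78KIFinal`. -/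
theorem descent {K K' : Type*} [Field K] [Algebra K ℂ] [Field K'] [Algebra K' ℂ] :
    (∀ (Γ : Subgroup SL(2, ℤ)) (N : ℕ) [NeZero N] (x : LaurentSeries K) (x' : LaurentSeries K'),
      H24.incl K x = H24.incl K' x' → x ∈ GoodAlg K Γ N → x' ∈ GoodAlg K' Γ N) ∧
    (∀ f : K →+* K', (∀ x : LaurentSeries K', (∀ n, ∃ a, f a = x.coeff n) →
      ∃ x' : LaurentSeries K, coeffMap f x' = x) ∧
      ∀ x : LaurentSeries K, (coeffMap f x).order = x.order) ∧
    ∀ (A : ValuationSubring Qb) (p : ℕ), p.Prime → A.LiesOverPrime p → ((p : Qb))⁻¹ ∉ A :=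
  ⟨fun _ _ _ _ _ h hx => H78.KI.good_change h hx,
    fun f => ⟨H78.KI.exists_descent f f.injective, H78.KI.order_coeffMap f⟩,
    fun A _ hp hA => H78.KI.inv_notMem_of_liesOver A hp hA⟩

end Fermat.Agent.Guide.Separation
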