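import Fermat.Agent.H47ShaU2

/-!
# Guide: T-units, Selmer groups and `Ш²` of a number field with restricted ramification

Companion of `GuideEulerChar` (`card_selmer`, `card_sha2`, `hasse_principle_H2`) and `GuideHasseH2`.
The formula of Greenberg and Wiles is proved by counting (`GuideEulerChar`).  For a number field
`K ∋ ζ_p`, `p` odd, unramified outside a finite set `S ∋ p` of primes, the count uses two numbers:
the order of `H¹(G_{K,S}, ℤ/p)`, which by Kummer theory is the order of a Selmer group, and the order
of `Ш²`, the kernel of localisation on `H²(G_{K,S}, ℤ/p)`.  Both are expressed by the `p`-torsion of the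
class group of the ring of `S`-integers.  This file shows how.  All statements are used in S01, S03, S04,
S06, S38, S43, S45, S46, S50, S55, S56, S59, S60; those of sections 1 and 3 (`T`-units) also in S47,
except the definition of `selT`.

**Notation.**  `T` is a set of finite primes of `K`, `T.unit K` the group of `T`-units.
`ordHom v : Kˣ → ℤ` is the additive valuation, `divHom` the divisor of an element, `classOf` the ideal
class of a divisor, `ClT K T` the group of divisors modulo principal divisors and divisors with support in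
`T`.  `placesS S K` are the primes of `K` above `S`.  Cohomology is computed with cochains which are
constant modulo the subgroups of a system of *levels* (`GuidePoitouTate`): `krullLevels` for the full
Galois group `Γ` of `ℚ`, `ramLevels S` for the quotient unramified outside `S`; `𝓛.onSub U` is the
induced system on the subgroup `U`, here `U = K.fixingSubgroup`.  `Additive Ωˣ` is the multiplicative
group of the algebraic closure, written additively, and `uval e` the number underlying `e`.

**Reading order.**
1. Divisors, classes, `T`-units (`H47TUnits`, `H47FGIndex`): rank and index of the `n`-th powers.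
2. The `T`-Selmer group (`H47Selmer`): the exact sequence `E_T/E_T^n → Sel/Kˣ^n → Cl_T[n]`.
3. Large `T` (`H47TClass`): Hilbert 90 for `T`-units in a cyclic extension unramified outside `T`.
4. The kernel of inflation in degree two, abstractly (`H47C1Abs`): `ker (H²(𝓢) → H²(𝓛))` is
   `(W/pW)^G` modulo `E^G`.
5. The arithmetic data (`H47C1Data`, `H47C1Val`): `E` is the multiplicative group of the algebraic
   closure, `W` the subgroup of the numbers which are fixed by inertia outside `S`.
6. Divisors modulo `p` and capitulation (`H47C1Div`, `H47C1`): `(W/pW)^G / Kˣ = Cl_S(K)/p`.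
7. `Ш²` is the kernel of inflation (`H47LocTriv`, `H47ShaU2`); the Hasse principle is in `GuideHasseH2`.
Notes: NOTES.md, Appendix A.10, [282] (overview of the block: [206]).  Written by helper47.
-/

set_option autoImplicit false

open NumberField IsDedekindDomain Fermat.Agent.H63 Fermat.Agent.H64 Fermat.Agent.H55
  Fermat.Agent.H91 groupCohomology ExtCitation
open scoped nonZeroDivisors

noncomputable section

local notation "Ω" => AlgebraicClosure ℚ
local notation "Γ" => (AlgebraicClosure ℚ ≃ₐ[ℚ] AlgebraicClosure ℚ)

namespace Fermat.Agent.Guide.ShaTwo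

open Fermat.Agent Fermat.Agent.H47

/-! ## 1. Divisors, classes and `T`-units -/

/-- **Divisors and ideal classes.**  `R` a Dedekind domain with field of fractions `K`.  Every ideal class
is the class of a divisor, and the class of a divisor is trivial exactly if it is the divisor of an
element of `Kˣ`. -/
theorem divisor_classes {R K : Type*} [CommRing R] [IsDedekindDomain R] [Field K] [Algebra R K]
    [IsFractionRing R K] :
    Function.Surjective (classOf (R := R) K) ∧ (classOf (R := R) K).ker = (divHom R K).range :=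
  ⟨classOf_surjective K, ker_classOf K⟩

/-- *`T`-units* are the elements of order zero outside `T`; *the `T`-Selmer group* `selT K T n` consists of
the `x ∈ Kˣ` whose order at every prime outside `T` is divisible by `n`. -/
theorem mem_units_selmer {K : Type*} [Field K] [NumberField K] {T : Set (HeightOneSpectrum (𝓞 K))}
    {x : Kˣ} {n : ℕ} : (x ∈ T.unit K ↔ ∀ v ∉ T, ordHom v (Additive.ofMul x) = 0) ∧
      (x ∈ selT K T n ↔ ∀ v ∉ T, (n : ℤ) ∣ ordHom v (Additive.ofMul x)) :=
  ⟨mem_unit_iff, mem_selT_iff⟩

/-- **The orders of `T`-units at `T`.**  The kernel of the homomorphism `ordT` which sends a `T`-unit to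
its orders at the primes of `T` is the group of units of `𝓞 K`; if `T` is finite, its image has finite
index in `ℤ^T` (stated as: the cokernel is torsion), because a power of every prime ideal is principal.
Hence the rank of the `T`-units is `r₁ + r₂ - 1 + #T` (`GuideEulerChar.finrank_T_units`). -/
theorem orders_of_T_units (K : Type*) [Field K] [NumberField K] (T : Set (HeightOneSpectrum (𝓞 K)))
    [Finite T] :
    LinearMap.range (unitsToT K T) = LinearMap.ker (ordT K T) ∧
      Module.IsTorsion ℤ ((T → ℤ) ⧸ LinearMap.range (ordT K T)) :=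
  ⟨range_unitsToT K T, isTorsion_quotient_range_ordT K T⟩

/-- **Index of the multiples of `n`** in a finitely generated abelian group `A`:
`[A : nA] = n^(rank A) · #A[n]`. -/
theorem index_multiples (A : Type*) [AddCommGroup A] [Module.Finite ℤ A] {n : ℕ} (hn : n ≠ 0) :
    (nsmulAddMonoidHom (α := A) n).range.index =
      n ^ Module.finrank ℤ A * Nat.card (nsmulAddMonoidHom (α := A) n).ker :=
  index_range_nsmul_eq A hn

/-- **Index of the `n`-th powers in the `T`-units**, if `K` contains the `n`-th roots of unity:
`[E_T : E_T^n] = n^(#S_∞ + #T)`, where `S_∞` are the infinite primes. -/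
theorem index_powers_T_units (K : Type*) [Field K] [NumberField K]
    (T : Set (HeightOneSpectrum (𝓞 K))) [Finite T] {n : ℕ} [NeZero n] {ζ : K}
    (hζ : IsPrimitiveRoot ζ n) :
    (powMonoidHom n : T.unit K →* T.unit K).range.index =
      n ^ (Fintype.card (InfinitePlace K) + Nat.card T) :=
  index_range_pow_unit_of_primitiveRoot K T hζ

/-! ## 2. The `T`-Selmer group -/

/-- **The Selmer sequence.**  The homomorphism `selToClT` sends `x` to the class of the divisor
`(v(x)/n)_{v ∉ T}` in `Cl_T`.  Its kernel is generated by the `T`-units and the `n`-th powers, and its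
image is the `n`-torsion of `Cl_T`. -/
theorem selmer_sequence {K : Type*} [Field K] [NumberField K] {T : Set (HeightOneSpectrum (𝓞 K))}
    {n : ℕ} (hn : n ≠ 0) :
    (selToClT K T n hn).ker =
        (T.unit K ⊔ (powMonoidHom n : Kˣ →* Kˣ).range).subgroupOf (selT K T n) ∧
      ∀ c : ClT K T, Multiplicative.ofAdd c ∈ (selToClT K T n hn).range ↔ n • c = 0 :=
  ⟨ker_selToClT hn, range_selToClT hn⟩

/-- **Counting form**: `[Sel : Kˣ^n] = [E_T : E_T^n] · #Cl_T[n]`.  With `index_powers_T_units` this is
`GuideEulerChar.card_selmer`. -/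
theorem selmer_count {K : Type*} [Field K] [NumberField K] {T : Set (HeightOneSpectrum (𝓞 K))}
    {n : ℕ} (hn : n ≠ 0) :
    ((powMonoidHom n : Kˣ →* Kˣ).range).relIndex (selT K T n) =
      ((T.unit K).map (powMonoidHom n : Kˣ →* Kˣ)).relIndex (T.unit K) *
        Nat.card (nsmulAddMonoidHom (α := ClT K T) n).ker :=
  relIndex_range_pow_selT hn

/-! ## 3. Large `T` -/

/-- **If the `T`-class group vanishes, every divisor is principal outside `T`.** -/
theorem exists_element_of_divisor {K : Type*} [Field K] [NumberField K]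
    {T : Set (HeightOneSpectrum (𝓞 K))} (hT : H82.ClTrivial T)
    (D : HeightOneSpectrum (𝓞 K) →₀ ℤ) : ∃ x : Kˣ, ∀ v ∉ T, ordHom v (Additive.ofMul x) = D v :=
  exists_ordHom_eq hT D

/-- **Invariant divisors descend.**  `L/K` is Galois and unramified outside `T`, and the `T`-class group of
`K` vanishes.  If `σ y / y` is a `T`-unit of `L` for all `σ`, then `y` is a `T`-unit of `L` times an
element of `K`: the divisor of `y` outside `T` is invariant, hence comes from `K`, where it is principal
outside `T`. -/
theorem invariant_divisor_descends {K L : Type*} [Field K] [Field L] [NumberField L] [Algebra K L]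
    [NumberField K] [IsGalois K L] {T : Set (HeightOneSpectrum (𝓞 K))} (hT : H82.ClTrivial T)
    (hunr : ∀ v ∉ T, ∀ w ∈ H82.above L v, v.asIdeal.ramificationIdx' w.asIdeal = 1) (y : Lˣ)
    (hy : ∀ σ : L ≃ₐ[K] L, Units.map (σ : L →* L) y / y ∈ (H82.aboveSet L T).unit L) :
    ∃ x : Kˣ, y / Units.map (algebraMap K L : K →* L) x ∈ (H82.aboveSet L T).unit L :=
  exists_div_mem_unit hT hunr y hy

/-- **Hilbert 90 for `T`-units.**  `L/K` is cyclic with generator `g` and unramified outside `T`, and the
`T`-class group of `K` vanishes.  A `T`-unit of `L` of norm `1` is `g(z)/z` for a `T`-unit `z`.  Proof: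
Hilbert 90 gives `y ∈ Lˣ`, and the previous theorem makes it a `T`-unit.  Used in the first inequality
of class field theory (`GuideEulerChar.first_inequality`). -/
theorem hilbert90_T_units {K L : Type} [Field K] [Field L] [NumberField L] [Algebra K L]
    [NumberField K] [IsGalois K L] [IsCyclic (L ≃ₐ[K] L)] {g : L ≃ₐ[K] L}
    (hg : ∀ x, x ∈ Subgroup.zpowers g) {T : Set (HeightOneSpectrum (𝓞 K))} (hT : H82.ClTrivial T)
    (hunr : ∀ v ∉ T, ∀ w ∈ H82.above L v, v.asIdeal.ramificationIdx' w.asIdeal = 1)
    {u : Lˣ} (hu : u ∈ (H82.aboveSet L T).unit L) (hN : Algebra.norm K (u : L) = 1) :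
    ∃ z ∈ (H82.aboveSet L T).unit L, Units.map (g : L →* L) z / z = u :=
  hilbert90_unit hg hT hunr hu hN

/-! ## 4. The kernel of inflation in degree two, abstractly -/

section Abstract

variable {G : Type*} [Group G] {E : Type*} [AddCommGroup E] [DistribMulAction G E] {p : ℕ}

/-- *The abstract situation.*  `𝓢` is a coarse and `𝓛` a fine system of levels on the group `G` (think of
the Galois group of `K`; `𝓢` defines the quotient unramified outside `S`).  `E` is a `p`-divisible
module, smooth for `𝓛`, whose `p`-torsion is `ℤ/p` with trivial action (embedding `ε`), which satisfies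
Hilbert 90 on every subgroup open for `𝓢`; and `W` is the submodule of the elements fixed by a subgroup
open for `𝓢`. -/
theorem inflData_iff (𝓢 𝓛 : Levels G) (ε : ZMod p →+ E) (W : AddSubgroup E) :
    InflData 𝓢 𝓛 ε W ↔
      (∀ V, 𝓢.op V → 𝓛.op V) ∧ Function.Injective ε ∧ (∀ e : E, p • e = 0 → ∃ a, ε a = e) ∧
      (∀ (g : G) (a : ZMod p), g • ε a = ε a) ∧
      (∀ e : E, ∃ V, 𝓛.op V ∧ ∀ g ∈ V, g • e = e) ∧ (∀ e : E, ∃ e', p • e' = e) ∧
      (∀ V : Subgroup G, 𝓢.op V → ∀ c : V → E, LC1 (𝓛.onSub V) c →
        (∀ g h : V, c (g * h) = (g : G) • c h + c g) → ∃ e, ∀ g : V, c g = (g : G) • e - e) ∧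
      (∀ e, e ∈ W ↔ ∃ V, 𝓢.op V ∧ ∀ g ∈ V, g • e = e) :=
  ⟨fun h => ⟨h.le, h.inj, h.range, h.fix, h.smooth, h.div, h.h90, h.memW⟩,
    fun ⟨h1, h2, h3, h4, h5, h6, h7, h8⟩ => ⟨h1, h2, h3, h4, h5, h6, h7, h8⟩⟩

/-- *The correspondence between elements and 2-cochains.*  `Rel 𝓢 ε W z f` says: there is a 1-cochain `y`
of level `𝓢` with values in `W` such that `p y(g) = g z - z`, and `f` is the coboundary of `y` (which has
values in the `p`-torsion of `E`). -/
theorem rel_iff (𝓢 : Levels G) (ε : ZMod p →+ E) (W : AddSubgroup E) (z : E) (f : G × G → ZMod p) :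
    Rel 𝓢 ε W z f ↔ ∃ y : G → E, LC1 𝓢 y ∧ (∀ g, y g ∈ W) ∧ (∀ g, p • y g = g • z - z) ∧
      ∀ g h, ε (f (g, h)) = g • y h - y (g * h) + y g := Iff.rfl

/-- *The two groups*: `ZW G p W` are the `z ∈ W` whose class in `W/pW` is invariant under `G`, and
`BW G p W = E^G + pW`. -/
theorem mem_groups (W : AddSubgroup E) (z : E) :
    (z ∈ ZW G p W ↔ z ∈ W ∧ ∀ g : G, ∃ w ∈ W, p • w = g • z - z) ∧
      (z ∈ BW G p W ↔ ∃ e w, (∀ g : G, g • e = e) ∧ w ∈ W ∧ z = e + p • w) :=
  ⟨Iff.rfl, Iff.rfl⟩

variable {𝓢 𝓛 : Levels G} {ε : ZMod p →+ E} {W : AddSubgroup E}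

/-- **From elements to 2-cocycles**: every `z` with invariant class in `W/pW` corresponds to a cochain `f`
(choose the roots `y(g)`); `f` is a 2-cocycle of level `𝓢`. -/
theorem exists_cocycle (D : InflData 𝓢 𝓛 ε W) {z : E} (hz : z ∈ ZW G p W) :
    ∃ f, Rel 𝓢 ε W z f ∧ f ∈ Z2 𝓢 (Representation.trivial (ZMod p) G (ZMod p)) := by
  obtain ⟨f, hf⟩ := D.exists_rel hz
  exact ⟨f, hf, InflData.Rel.mem_Z2 D hf⟩

/-- **When the cocycle is a coboundary.**  Let `f` correspond to `z`.  At the level `𝓢` it is a coboundary
exactly if `z ∈ E^G + pW` (Hilbert 90 for `G`); at the finer level `𝓛` it is always one: write `z = p w`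
and compare `y(g)` with `g w - w`. -/
theorem cocycle_trivial (D : InflData 𝓢 𝓛 ε W) {z : E} {f : G × G → ZMod p} (h : Rel 𝓢 ε W z f) :
    ((∃ x, LC1 𝓢 x ∧ d1 (Representation.trivial (ZMod p) G (ZMod p)) x = f) ↔ z ∈ BW G p W) ∧
      ∃ x, LC1 𝓛 x ∧ d1 (Representation.trivial (ZMod p) G (ZMod p)) x = f :=
  ⟨InflData.Rel.triv_iff D h, InflData.Rel.triv D h⟩

/-- **From 2-cocycles to elements.**  A 2-cocycle `f` of level `𝓢` which becomes the coboundary of a
cochain `c` of level `𝓛` corresponds to some `z`.  Proof: on a normal subgroup `V` open for `𝓢` on which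
`f` is constant, `c - c(1)` is a homomorphism; by Hilbert 90 it is `s ↦ s e - e`, and `z = -p e` has the
required property with `y(g) = c(g) - (g e - e)`, which is invariant under `V`. -/
theorem exists_element_of_cocycle (D : InflData 𝓢 𝓛 ε W) {f : G × G → ZMod p}
    (hf : f ∈ Z2 𝓢 (Representation.trivial (ZMod p) G (ZMod p)))
    (ht : ∃ x, LC1 𝓛 x ∧ d1 (Representation.trivial (ZMod p) G (ZMod p)) x = f) :
    ∃ z ∈ ZW G p W, Rel 𝓢 ε W z f :=
  D.exists_rel_of_triv hf ht

/-- **The kernel of inflation**, abstract form: the homomorphism `psi` from the group `ZW` to `H²(𝓢)` given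
by the correspondence has kernel `BW` and image the kernel of `H²(𝓢) → H²(𝓛)`. -/
theorem kernel_of_inflation (D : InflData 𝓢 𝓛 ε W) :
    D.psi.ker = (BW G p W).addSubgroupOf (ZW G p W) ∧
      ∀ x : H2 𝓢 (Representation.trivial (ZMod p) G (ZMod p)), x ∈ D.psi.range ↔
        x ∈ LinearMap.ker (H2map (ρA := Representation.trivial (ZMod p) G (ZMod p))
          (ρB := Representation.trivial (ZMod p) G (ZMod p)) (φ := LinearMap.id)
          D.cont (fun _ _ => rfl)) :=
  ⟨D.psi_ker, D.psi_mem_range_iff⟩

end Abstract

/-! ## 5. The arithmetic data -/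

/-- **The arithmetic situation satisfies the axioms**: `K ∋ ζ` is unramified outside `S`, `E` is the
multiplicative group of the algebraic closure, `ε` the embedding of `ℤ/p` given by the `p`-th root of
unity `ζ`, and `W = unrW S` consists of the numbers fixed by all inertia groups above the primes outside
`S`: these are the numbers fixed by a subgroup of the Galois group of `K` which is open for the levels
unramified outside `S`. -/
theorem arithmetic_data {p : ℕ} {ζ : Ω} (hp : p ≠ 0) (hζ : IsPrimitiveRoot ζ p)
    {K : IntermediateField ℚ Ω} (hζK : ζ ∈ K) {S : Finset Nat.Primes}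
    (hK : K.IsUnramifiedOutside S) :
    InflData ((ramLevels S).onSub K.fixingSubgroup) (krullLevels.onSub K.fixingSubgroup)
      (muEmb hζ hp) (unrW S) :=
  inflData hp hζ hζK hK

/-- **Tame roots.**  `A` is a place of residue characteristic prime to `n` (`center A` is the prime ideal
of the integers below `A`).  A unit `u` of `A` whose `n`-th power is fixed by an element of inertia is
itself fixed: `σ u / u` is an `n`-th root of unity congruent to `1`. -/
theorem tame_roots {L : Type*} [Field L] [CharZero L] [IsGalois ℚ L] {A : ValuationSubring L}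
    {n : ℕ} (hn : (n : 𝓞 L) ∉ center A) {σ : L ≃ₐ[ℚ] L} (hσ : σ ∈ A.inertiaSubgroupIn ℚ) {u : L}
    (hu : A.valuation u = 1) (hun : σ (u ^ n) = u ^ n) : σ u = u :=
  eq_of_mem_inertia hn hσ hu hun

/-- **Orders in an unramified extension.**  `K ⊆ E ⊆ L`, `E` and `L` Galois over `ℚ`, `A` a place of `L`
whose inertia group fixes `E`.  The order of `x ∈ Kˣ` is the same at the primes of `E` and of `K` below
`A` (`placeBelow`). -/
theorem order_in_unramified_extension {L : Type*} [Field L] [CharZero L] [IsGalois ℚ L]
    (K E : Type*) [Field K] [NumberField K] [Field E] [NumberField E] [IsGalois ℚ E]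
    [Algebra K E] [Algebra E L] [Algebra K L] [IsScalarTower K E L] {q : ℕ} (hq : q.Prime)
    {A : ValuationSubring L} (hA : A.LiesOverPrime q)
    (hI : ∀ σ ∈ A.inertiaSubgroupIn ℚ, ∀ x : E, σ (algebraMap E L x) = algebraMap E L x) (x : Kˣ) :
    ordHom (placeBelow E hq hA) (Additive.ofMul (Units.map (algebraMap K E : K →* E) x)) =
      ordHom (placeBelow K hq hA) (Additive.ofMul x) :=
  ordHom_placeBelow_tower K E hq hA hI x

/-! ## 6. Divisors modulo `p` and capitulation -/

/-- *Divisors modulo `p`.*  `DivMod p S K z D` says that outside `S` the number `z` has the divisor `D` of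
`K` modulo `p`: at every place `A` above a prime `q ∉ S` the size of `z` is that of `x w^p`, where
`x ∈ Kˣ` has order `D(v)` at the prime `v` of `K` below `A`, and `w ∈ unrW S`. -/
theorem divMod_iff (p : ℕ) (S : Finset Nat.Primes) (K : IntermediateField ℚ Ω) [NumberField K]
    (z : Additive Ωˣ) (D : HeightOneSpectrum (𝓞 K) →₀ ℤ) : DivMod p S K z D ↔
    ∀ (q : Nat.Primes) (_ : q ∉ S) (A : ValuationSubring Ω) (hA : A.LiesOverPrime (q : ℕ)),
      ∃ (x : Kˣ) (w : Additive Ωˣ), w ∈ unrW S ∧
        ordHom (placeBelow K q.2 hA) (Additive.ofMul x) = D (placeBelow K q.2 hA) ∧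
        A.valuation (uval z) = A.valuation (algebraMap K Ω (x : K) * uval w ^ p) := Iff.rfl

section Divisors

variable {S : Finset Nat.Primes} {K : IntermediateField ℚ Ω} [NumberField K] {p : ℕ}

/-- **Every `z` with invariant class in `W/pW` has a divisor modulo `p`.**  Proof: `z` lies in a finite
Galois extension `E` of `ℚ` unramified outside `S`, `E ⊇ K`; choose a prime `w(v)` of `E` above every
prime `v` of `K` and take the order of `z` at `w(v)`; at the other primes above `v` the order differs by
a multiple of `p`, since `g z / z` is a `p`-th power in `W`. -/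
theorem exists_divisor (hK : K.IsUnramifiedOutside S) {z : Additive Ωˣ}
    (hz : z ∈ ZW K.fixingSubgroup p (unrW S)) : ∃ D, DivMod p S K z D :=
  exists_divMod hK hz

/-- **The class of the divisor is well defined modulo `p`**: if `z = k w^p` with `k ∈ Kˣ`, `w ∈ W`, has the
divisor `D` modulo `p`, then `D(v) ≡ v(k)` modulo `p` for the primes `v` outside `S`. -/
theorem divisor_of_trivial (hK : K.IsUnramifiedOutside S) {k : Kˣ} {w : Additive Ωˣ}
    (hw : w ∈ unrW S) {D : HeightOneSpectrum (𝓞 K) →₀ ℤ}
    (h : DivMod p S K (kEmb K k + p • w) D) {v : HeightOneSpectrum (𝓞 K)}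
    (hv : v ∉ placesS S K) : (p : ℤ) ∣ D v - ordHom v (Additive.ofMul k) :=
  h.dvd hK hw hv

/-- **Injectivity.**  Conversely, let `p ∈ S`.  If `z ∈ W` has the divisor `D` modulo `p`, and `D` is
congruent modulo `p` to the divisor of some `k ∈ Kˣ` outside `S`, then `z ∈ Kˣ W^p`.  Proof: a `p`-th root
`u` of `z/k` is fixed by inertia outside `S`, because up to an element of `Kˣ W` it is a unit whose
`p`-th power is fixed (`tame_roots`). -/
theorem trivial_of_divisor [Fact p.Prime] (hpS : ∀ q : Nat.Primes, (q : ℕ) = p → q ∈ S)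
    (hK : K.IsUnramifiedOutside S) {z : Additive Ωˣ} (hz : z ∈ unrW S)
    {D : HeightOneSpectrum (𝓞 K) →₀ ℤ} (h : DivMod p S K z D) {k : Kˣ}
    (hk : ∀ v ∉ placesS S K, (p : ℤ) ∣ D v - ordHom v (Additive.ofMul k)) :
    z ∈ BW K.fixingSubgroup p (unrW S) :=
  mem_BW_of_divMod hpS hK hz h hk

/-- **Principal multiples.**  For every divisor `D` there are `n`, `m` with `m ≡ 1` modulo `p` such that
`p^n m D` is the divisor of an element `β` of `Kˣ` (the class number is `p^n h'` with `h'` prime to `p`;
`m` is a power of `h'`). -/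
theorem exists_principal_multiple {F : Type*} [Field F] [NumberField F] (hp : p.Prime)
    (D : HeightOneSpectrum (𝓞 F) →₀ ℤ) :
    ∃ (n m : ℕ) (β : Fˣ), m ≡ 1 [MOD p] ∧
      ∀ v, ordHom v (Additive.ofMul β) = (p ^ n : ℕ) * (m • D) v :=
  exists_pow_principal_div hp D

/-- **Capitulation gives surjectivity.**  Let `p ∈ S`, and let `β ∈ Kˣ` have outside `S` the divisor
`p^n D`.  A `p^n`-th root `d` of `β` is fixed by inertia outside `S`, its class in `W/pW` is invariant
(`g d / d` is a `p^n`-th root of unity, and its `p`-th roots are unramified outside `S`), and it has the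
divisor `D` modulo `p`.  So outside `S` the divisor `D` becomes principal in the field `K(d)`, which is
unramified outside `S`. -/
theorem capitulation [Fact p.Prime] (hpS : ∀ q : Nat.Primes, (q : ℕ) = p → q ∈ S)
    (hK : K.IsUnramifiedOutside S) (n : ℕ) {β : Kˣ} {D : HeightOneSpectrum (𝓞 K) →₀ ℤ}
    (hβ : ∀ v ∉ placesS S K, ordHom v (Additive.ofMul β) = (p ^ n : ℕ) * D v)
    {d : Additive Ωˣ} (hd : (p ^ n) • d = kEmb K β) :
    d ∈ ZW K.fixingSubgroup p (unrW S) ∧ DivMod p S K d D :=
  capitulate hpS hK n hβ hd

/-- **The divisor class map** `theta` from the group `ZW` to `Cl_S(K)/p` is surjective with kernel `BW`. -/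
theorem divisor_class_map [Fact p.Prime] (hpS : ∀ q : Nat.Primes, (q : ℕ) = p → q ∈ S)
    (hK : K.IsUnramifiedOutside S) :
    Function.Surjective (theta p hK) ∧
      (theta p hK).ker =
        (BW K.fixingSubgroup p (unrW S)).addSubgroupOf (ZW K.fixingSubgroup p (unrW S)) :=
  ⟨theta_surjective hpS hK, theta_ker hpS hK⟩

/-- **The kernel of inflation** `H²(G_{K,S}, ℤ/p) → H²(G_K, ℤ/p)` has as many elements as the `p`-torsion
of the `S`-class group (it is isomorphic to `Cl_S(K)/p`, by sections 4 and 6). -/
theorem card_kernel_of_inflation [Fact p.Prime] {ζ : Ω} (hζ : IsPrimitiveRoot ζ p) (hζK : ζ ∈ K)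
    (hpS : ∀ q : Nat.Primes, (q : ℕ) = p → q ∈ S) (hK : K.IsUnramifiedOutside S) :
    Nat.card ↥(LinearMap.ker (inflH2 p S K.fixingSubgroup)) =
      Nat.card (nsmulAddMonoidHom (α := ClT K (placesS S K)) p).ker :=
  card_ker_inflH2 hζ hζK hpS hK

end Divisors

/-! ## 7. `Ш²` -/

/-- **Local triviality outside `S`.**  `K ∋ ζ_p` is unramified outside `S ∋ p`.  The restriction of a
2-cocycle `f` of level `S` to the decomposition groups at a prime `q ∉ S` is a coboundary (of a cochain
which is locally constant on the local Galois group).  Proof: the cocycle is inflated from an unramified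
extension, where the group is procyclic; adjoining `p`-power roots of unity, which is unramified at `q`,
makes the index divisible by `p`, and this kills classes with coefficients in `ℤ/p`. -/
theorem local_triviality {p : ℕ} [Fact p.Prime] {ζ : Ω} {K : IntermediateField ℚ Ω}
    {S : Finset Nat.Primes} (hζ : IsPrimitiveRoot ζ p) (hζK : ζ ∈ K)
    (hpS : ∀ q : Nat.Primes, (q : ℕ) = p → q ∈ S) (hK : K.IsUnramifiedOutside S)
    {q : Nat.Primes} (hq : q ∉ S) (g : Γ) {f : K.fixingSubgroup × K.fixingSubgroup → ZMod p}
    (hf : f ∈ Z2 ((ramLevels S).onSub K.fixingSubgroup)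
      (Representation.trivial (ZMod p) K.fixingSubgroup (ZMod p))) :
    ∃ y : dec (primeLocalToGlobal q) K.fixingSubgroup g → ZMod p,
      LC1 ((krullLevels.comap (primeLocalToGlobal q)).onSub
        (dec (primeLocalToGlobal q) K.fixingSubgroup g)) y ∧
      ∀ s t, y t - y (s * t) + y s =
        f (decHom (primeLocalToGlobal q) K.fixingSubgroup g s,
          decHom (primeLocalToGlobal q) K.fixingSubgroup g t) :=
  locTriv hζ hζK hpS hK hq g hf

/-- **`Ш²` is the kernel of inflation**, `p` odd.  A class of `H²(G_{K,S}, ℤ/p)` which is trivial at the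
primes of `S` is trivial at all primes by `local_triviality`, hence dies in `H²(G_K, ℤ/p)` by the Hasse
principle (`GuideEulerChar.hasse_principle_H2`); the converse is clear, since the local cohomology is
that of the full local Galois groups.  With `card_kernel_of_inflation` this proves
`GuideEulerChar.card_sha2`. -/
theorem sha2_eq_kernel {p : ℕ} [Fact p.Prime] {ζ : Ω} {K : IntermediateField ℚ Ω}
    {S : Finset Nat.Primes} (hp2 : p ≠ 2) (hζ : IsPrimitiveRoot ζ p) (hζK : ζ ∈ K)
    (hpS : ∀ q : Nat.Primes, (q : ℕ) = p → q ∈ S) (hK : K.IsUnramifiedOutside S) :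
    (DS S).ShaU2 (ZMod p) K.fixingSubgroup = LinearMap.ker (inflH2 p S K.fixingSubgroup) :=
  ShaU2_eq_ker hp2 hζ hζK hpS hK

end Fermat.Agent.Guide.ShaTwo
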