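import Fermat.Agent.S25

/-!
# Guide to the proof: sheaves of modules, line bundles, glueing (S25, companion of `GuideJacobians`)

This file contains no new mathematics. Every theorem below is proved by citing theorems of the
library; the statements are written out. Mathlib has the category of sheaves of modules over a
scheme, with push forward and pull back, but no calculus for line bundles. The theorems below were
proved for the construction of the Jacobian (statement S25, guides `GuideJacobians`,
`GuideJacobianCharts`, `GuideTwists`). They say that a line bundle may be handled by its local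
generators, that its sections over affine opens behave as in commutative algebra, and that sheaves,
line bundles on `C_T` with a trivialisation along a section, and schemes can be glued. Nothing in
sections 1 to 5 is special to curves, and this part may be useful elsewhere. (Text: helper25, with
helper51 for sections 4 and 7.)

Notation. `X.Modules` is the category of sheaves of modules over the scheme `X`, `Γ(M, U)` the
sections of `M` over `U`, `Γ(X, U)` the functions on `U`. `res M h s` is the restriction of the
section `s` along `h : V ≤ U`, `resO h a` the restriction of a function, `pb f M s` the pull back of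
the section `s` of `M` over `V` to a section of `f^*M` over `f⁻¹V`, and `IsGen M s` means: `s`
generates `M` freely, over its open set and over every smaller one. `IsInvertible M` is the notion of
line bundle of the definitions file: every point has an open neighbourhood on which `M` is isomorphic
to the structure sheaf. `uMod X` is the structure sheaf as a sheaf of modules, and
`c : C ⟶ Spec k` the curve of S25 with its rational point `ε`.

Reading order.
1. Sections and generators: `generator_iff`, `glue_sections`, `generator_local`,
   `generators_differ_by_unit`, `line_bundle_iff`, `hom_of_generators`, `iso_of_generators`,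
   `trivialisation_is_generator`.
2. Pull back of sections: `pullback_hom`, `pullback_rules`, `pullback_generator`,
   `pullback_open_immersion`.
3. Glueing: `glue_homs`, `glue_modules`.
4. Line bundles over affine opens: `invertible_of_local_generators`,
   `base_change_of_local_generators`, `affine_invertible`, `affine_restriction`, `affine_homs`,
   `affine_iso`, `affine_pullback`.
5. Tensor products and the Picard group: `exists_tensor`, `tensor_universal`, `tensor_affine`,
   `tensor_pullback`, `picard_group`.
6. Line bundles on `C_T` trivial along the section, and glueing of schemes: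
   `class_of_rigidified`, `twist_by_class_on_curve`, `glue_rigidified`, `glue_schemes`.
7. Curves, sections and points: `affine_curve`, `points_of_curve`, `diagonal_ideal_invertible`,
   `exists_section`, `generator_of_nonzero_values`, `rational_points_cover`,
   `geometrically_integral`.
8. Steps of `glue_rigidified`: `pullback_local_hom`, `local_isomorphisms`,
   `endomorphism_is_function`, `functions_over_open`, `compatible_isomorphisms`,
   `isomorphism_is_local`, `glue_over_open_subsets`, `restrict_to_open`.

All library theorems cited below are used in the proof of S25 and of no other statement. NOTES: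
[105], [177], [223]. Files `H25Gen`, `H25Gen2`, `H25Pb`, `H25Coc`, `H25Glue`, `H25Glue2`, `H25PullL`,
`H25Rig`, `H25S12`, `H25RelGlue`, `H25Chi`, `H25Eff4`, `H25Fin3` (helper25), `H51Inv`, `H51Aff`,
`H51Hom`, `H51Pb`, `H51Curve*` (helper51), `H21Tens`, `H21Tens2`, `H21Pic` (helper21), `H74F1`,
`H74F1Int` (helper74).
-/

set_option autoImplicit false
universe u

open CategoryTheory CategoryTheory.Limits AlgebraicGeometry AlgebraicGeometry.RelPicard
  NeronModelInfra TopologicalSpace
open Fermat.Agent Fermat.Agent.H25 Fermat.Agent.H21T
open scoped TensorProduct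

noncomputable section

namespace Fermat.Agent.Guide.Sheaves

/-! ## 1. Sections and generators -/

/-- **Generators.** `IsGen M s` for a section `s` of `M` over `U` means: for every open `V` inside `U`
the map `f ↦ f • s|_V` from functions on `V` to sections of `M` over `V` is bijective. This is the
definition (file `H25Defs`). A line bundle is handled through such sections, never through a choice
of isomorphisms with the structure sheaf. -/
theorem generator_iff {X : Scheme.{u}} (M : X.Modules) {U : X.Opens} (s : Γ(M, U)) :
    IsGen M s ↔ ∀ (V : X.Opens) (h : V ≤ U), Function.Bijective (fun f : Γ(X, V) => f • res M h s) :=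
  Iff.rfl

/-- **The sheaf property for sections.** Sections over the members `W i` of an open cover of `U` which
agree on every open set contained in two members come from exactly one section over `U`. Files
`H25Gen` (`sec_glue`, `sec_ext`). -/
theorem glue_sections {X : Scheme.{u}} {M : X.Modules} {U : X.Opens} {ι : Type*} (W : ι → X.Opens)
    (hW : ∀ i, W i ≤ U) (hc : U ≤ ⨆ i, W i) (s : ∀ i, Γ(M, W i))
    (h : ∀ i j (V : X.Opens) (hi : V ≤ W i) (hj : V ≤ W j), res M hi (s i) = res M hj (s j)) :
    ∃! x : Γ(M, U), ∀ i, res M (hW i) x = s i := by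
  obtain ⟨x, hx⟩ := sec_glue W hW hc s h
  exact ⟨x, hx, fun y hy => sec_ext W hW hc fun i => (hy i).trans (hx i).symm⟩

/-- **Being a generator is local**: it can be tested on the members of an open cover. File
`H25Gen`. -/
theorem generator_local {X : Scheme.{u}} {M : X.Modules} {U : X.Opens} {s : Γ(M, U)} {ι : Type*}
    (W : ι → X.Opens) (hW : ∀ i, W i ≤ U) (hc : U ≤ ⨆ i, W i)
    (h : ∀ i, IsGen M (res M (hW i) s)) : IsGen M s :=
  IsGen.of_cover W hW hc h

/-- Two generators over the same open set differ by a unit. These units, for generators over the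
members of a cover, are the cocycle of a line bundle. File `H25Gen`. -/
theorem generators_differ_by_unit {X : Scheme.{u}} {M : X.Modules} {U : X.Opens} {s s' : Γ(M, U)}
    (hs : IsGen M s) (hs' : IsGen M s') : ∃ g : (Γ(X, U))ˣ, s' = (g : Γ(X, U)) • s :=
  hs.exists_unit hs'

/-- **Line bundles.** A sheaf of modules is invertible (locally isomorphic to the structure sheaf,
definition of the statement) if and only if every point has a neighbourhood over which there is a
generator. File `H25Gen2`. -/
theorem line_bundle_iff {X : Scheme.{u}} (M : X.Modules) :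
    Scheme.Modules.IsInvertible M ↔
      ∀ x : X, ∃ (U : X.Opens) (_ : x ∈ U) (s : Γ(M, U)), IsGen M s :=
  isInvertible_iff M

/-- **Homomorphisms from generators.** Let `s i` be generators of `M` over the members of an open
cover of `X`, and `n i` sections of `N` such that every relation `s i = f s j` over an open set in both
members implies `n i = f n j`. Then there is exactly one homomorphism `M → N` which maps `s i` to `n i`
for all `i`. File `H25Gen2`. -/
theorem hom_of_generators {X : Scheme.{u}} {M N : X.Modules} {ι : Type*} (U : ι → X.Opens)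
    (hU : ⨆ i, U i = ⊤) (s : ∀ i, Γ(M, U i)) (hs : ∀ i, IsGen M (s i)) (n : ∀ i, Γ(N, U i))
    (h : ∀ i j (W : X.Opens) (hi : W ≤ U i) (hj : W ≤ U j) (f : Γ(X, W)),
      res M hi (s i) = f • res M hj (s j) → res N hi (n i) = f • res N hj (n j)) :
    ∃! φ : M ⟶ N, ∀ i, φ.app (U i) (s i) = n i :=
  exists_glueHom U hU s hs n h

/-- **Isomorphisms from generators.** A homomorphism which, near every point, maps some generator to
a generator is an isomorphism. File `H25Gen2`. -/
theorem iso_of_generators {X : Scheme.{u}} {M N : X.Modules} (φ : M ⟶ N)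
    (h : ∀ x : X, ∃ (U : X.Opens) (_ : x ∈ U) (s : Γ(M, U)), IsGen M s ∧ IsGen N (φ.app U s)) :
    IsIso φ :=
  isIso_of_isGen φ h

/-- **Trivialisations are generators.** `M` has a generator over `U` if and only if its pull back to
`U` is isomorphic to the structure sheaf of `U`; and `M` is isomorphic to the structure sheaf of `X`
if and only if it has a global generator. File `H25Gen2`. -/
theorem trivialisation_is_generator {X : Scheme.{u}} (M : X.Modules) (U : X.Opens) :
    ((∃ s : Γ(M, U), IsGen M s) ↔ Nonempty ((Scheme.Modules.pullback U.ι).obj M ≅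
      SheafOfModules.unit U.toScheme.ringCatSheaf)) ∧
      (Nonempty (M ≅ uMod X) ↔ ∃ s : Γ(M, ⊤), IsGen M s) :=
  ⟨exists_isGen_iff_nonempty_iso M U, nonempty_iso_unit_iff⟩

/-! ## 2. Pull back of sections -/

/-- **The universal property of the pull back**, in terms of sections. Homomorphisms from `f^*M` to
`N` correspond to homomorphisms `w` from `M` to `f_*N`: the homomorphism which belongs to `w` is the
only one which maps the pull back `pb f M s` of every section `s` of `M` over every open `V` to `w(s)`
(a section of `N` over `f⁻¹V`). File `H25Pb`. -/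
theorem pullback_hom {X Y : Scheme.{u}} (f : X ⟶ Y) (M : Y.Modules) (N : X.Modules)
    (w : M ⟶ (Scheme.Modules.pushforward f).obj N) :
    ∃! v : (Scheme.Modules.pullback f).obj M ⟶ N, ∀ (V : Y.Opens) (s : Γ(M, V)),
      v.app (f ⁻¹ᵁ V) (pb f M s) = w.app V s :=
  exists_pullback_hom f M N w

/-- **Rules for the pull back of sections**: it is semilinear over the pull back of functions,
commutes with restriction, and is compatible with homomorphisms of sheaves. File `H25Pb`. -/
theorem pullback_rules {X Y : Scheme.{u}} (f : X ⟶ Y) {M N : Y.Modules} (φ : M ⟶ N)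
    {V W : Y.Opens} (h : W ≤ V) (a : Γ(Y, V)) (s : Γ(M, V)) :
    pb f M (a • s) = (f.app V a) • pb f M s ∧
      pb f M (res M h s) = res _ (f.preimage_mono h) (pb f M s) ∧
      ((Scheme.Modules.pullback f).map φ).app (f ⁻¹ᵁ V) (pb f M s) = pb f N (φ.app V s) :=
  ⟨pb_smul f M a s, pb_res f M h s, pb_app f φ s⟩

/-- **Generators pull back to generators**, along every morphism of schemes; in particular pull backs
of line bundles are line bundles, with the pulled back cocycle. Proof: over the open set `V` of the
generator the sheaf is isomorphic to the structure sheaf, whose pull back is the structure sheaf. File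
`H25Pb`. -/
theorem pullback_generator {X Y : Scheme.{u}} (f : X ⟶ Y) (M : Y.Modules) {V : Y.Opens} {s : Γ(M, V)}
    (hs : IsGen M s) : IsGen _ (pb f M s) :=
  hs.pb f M

/-- **Open immersions.** For an open immersion `f` and an open `V` in its image, the pull back is a
bijection from sections of `M` over `V` to sections of `f^*M` over `f⁻¹V`, and it preserves and
reflects generators. Files `H25Pb`, `H25Glue2`. -/
theorem pullback_open_immersion {X Y : Scheme.{u}} (f : X ⟶ Y) [IsOpenImmersion f]
    (M : Y.Modules) {V : Y.Opens} (hV : V ≤ f.opensRange) :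
    Function.Bijective (pb f M (V := V)) ∧ ∀ s : Γ(M, V), IsGen _ (pb f M s) ↔ IsGen M s :=
  ⟨pb_bijective_of_le f M hV, fun s => isGen_pb_iff_of_le f M hV s⟩

/-! ## 3. Glueing of homomorphisms, isomorphisms and sheaves

`LHom U M N` is the type of homomorphisms from `M` to `N` over the open set `U`: families of additive
maps `Γ(M, W) → Γ(N, W)` for `W ≤ U`, linear over functions and compatible with restriction; `LIso`
is the type of isomorphisms over `U`. They avoid the pull back to the open subscheme. -/

/-- **Glueing of homomorphisms.** Homomorphisms over the members of an open cover which agree on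
common open subsets come from exactly one homomorphism. (For isomorphisms: `LIso.exists_iso`.) File
`H25Glue`. -/
theorem glue_homs {X : Scheme.{u}} {M N : X.Modules} {ι : Type*} (U : ι → X.Opens)
    (hU : ⨆ i, U i = ⊤) (f : ∀ i, LHom (U i) M N)
    (h : ∀ i j (W : X.Opens) (hi : W ≤ U i) (hj : W ≤ U j) (x : Γ(M, W)),
      (f i).f W hi x = (f j).f W hj x) :
    ∃! φ : M ⟶ N, ∀ i (W : X.Opens) (hi : W ≤ U i) (x : Γ(M, W)), φ.app W x = (f i).f W hi x :=
  LHom.exists_hom U hU f h

/-- **Glueing of sheaves of modules.** Sheaves `N i` on `X` with isomorphisms `φ i j` between `N i`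
and `N j` over `U i ∩ U j`, which satisfy the cocycle condition over triple intersections, come from a
sheaf `M` with isomorphisms `ψ i` between `M` and `N i` over `U i`, compatible with `φ`. (Only the
restriction of `N i` to `U i` matters.) The sections of `M` over `W` are the compatible families of
sections of `N i` over `W ∩ U i`. File `H25Glue`. -/
theorem glue_modules {X : Scheme.{u}} {ι : Type u} (U : ι → X.Opens) (N : ι → X.Modules)
    (φ : ∀ i j, LIso (U i ⊓ U j) (N i) (N j))
    (hφ : ∀ i j k (W : X.Opens) (hi : W ≤ U i) (hj : W ≤ U j) (hk : W ≤ U k) (x : Γ(N i, W)),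
      (φ j k).hom.f W (le_inf hj hk) ((φ i j).hom.f W (le_inf hi hj) x) =
        (φ i k).hom.f W (le_inf hi hk) x) :
    ∃ (M : X.Modules) (ψ : ∀ i, LIso (U i) M (N i)),
      ∀ i j (W : X.Opens) (hi : W ≤ U i) (hj : W ≤ U j) (x : Γ(M, W)),
        (φ i j).hom.f W (le_inf hi hj) ((ψ i).hom.f W hi x) = (ψ j).hom.f W hj x :=
  exists_glued_module U N φ hφ

/-! ## 4. Line bundles over affine open sets

These theorems say that a line bundle is determined over an affine open by its module of sections. They
are proved directly, with finitely many functions `f i` generating the unit ideal and sections `e i`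
which become generators over `D(f i)` (`LocGen` in `H51Inv`, `exists_locGen_cover` in `H51Aff`); the
sheaf associated with a module is not used. -/

/-- **Invertible modules by local generators** (`H51Inv.LocGen f e` in the library): if functions
`f i`, finite in number, generate the unit ideal of `R` and if, for each `i`, the element `e i` of `E`
becomes a basis of `E` after `f i` is inverted (the two conditions `hsurj`, `hinj`, without
localisations), then `E` is an invertible `R`-module. Proof: functionals `ψ i` with `ψ i (e i)` a power
of `f i` are constructed by hand. Together with `affine_restriction` this proves `affine_invertible`.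
File `H51Inv`. -/
theorem invertible_of_local_generators {R : Type u} [CommRing R] {E : Type u} [AddCommGroup E]
    [Module R E] {ι : Type*} [Finite ι] (f : ι → R) (e : ι → E)
    (hf : Ideal.span (Set.range f) = ⊤)
    (hsurj : ∀ i x, ∃ (n : ℕ) (a : R), f i ^ n • x = a • e i)
    (hinj : ∀ i a, a • e i = 0 → ∃ n : ℕ, f i ^ n * a = 0) : Module.Invertible R E :=
  H51Inv.LocGen.invertible (f := f) (e := e) ⟨hf, hsurj, hinj⟩

/-- **A criterion for base change**: let `S` be an `R`-algebra and `β : E → F` an `R`-linear map to an
`S`-module which maps a finite system of local generators of `E` (`H51Inv.LocGen f e`: the hypotheses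
`hf`, `hsurj`, `hinj` of the previous theorem) to one of `F`. Then `β` is the base change of `E` from
`R` to `S`. It is used for sections over smaller open sets and for pull backs. File `H51Inv`. -/
theorem base_change_of_local_generators {R : Type*} [CommRing R] {E : Type*} [AddCommGroup E]
    [Module R E] (S : Type*) [CommRing S] [Algebra R S] {F : Type*} [AddCommGroup F] [Module R F]
    [Module S F] [IsScalarTower R S F] {ι : Type*} [Finite ι] {f : ι → R} {e : ι → E}
    (h : H51Inv.LocGen f e) (β : E →ₗ[R] F)
    (h' : H51Inv.LocGen (fun i => algebraMap R S (f i)) fun i => β (e i)) : IsBaseChange S β :=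
  h.isBaseChange S β h'

/-- **Sections over an affine open form an invertible module**: if `M` is a line bundle and `U` is
affine, then `Γ(M, U)` is an invertible module over `Γ(X, U)` (finite projective of rank one; in
Mathlib: the contraction with the dual module is bijective). A section over `U` which freely generates
this module is a generator. File `H51Aff`. -/
theorem affine_invertible {X : Scheme.{u}} {M : X.Modules} {U : X.Opens} (hU : IsAffineOpen U)
    (hM : Scheme.Modules.IsInvertible M) :
    Module.Invertible Γ(X, U) Γ(M, U) ∧
      ∀ s : Γ(M, U), Function.Bijective (fun a : Γ(X, U) => a • s) → IsGen M s :=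
  ⟨H51Aff.invertible hU hM, fun s hs => H51Aff.isGen_of_bijective hU hM s hs⟩

/-- **Restriction to a basic open is a localisation.** For `U` affine, `f` a function on `U` and
`W = D(f)`: every section of the line bundle `M` over `W` becomes, after multiplication by a power of
`f`, the restriction of a section over `U`, and a section over `U` which vanishes on `W` is killed by
a power of `f`. File `H51Aff`. -/
theorem affine_restriction {X : Scheme.{u}} {M : X.Modules} {U : X.Opens} (hU : IsAffineOpen U)
    (hM : Scheme.Modules.IsInvertible M) (f : Γ(X, U)) {W : X.Opens} (hW : W = X.basicOpen f)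
    (h : W ≤ U) :
    (∀ y : Γ(M, W), ∃ (n : ℕ) (x : Γ(M, U)), res M h x = (resO h f) ^ n • y) ∧
      ∀ x : Γ(M, U), res M h x = 0 → ∃ n : ℕ, f ^ n • x = 0 :=
  ⟨fun y => H51Aff.res_surj hU hM f hW h y, fun x hx => H51Aff.res_inj hU hM f hW h x hx⟩

/-- **Homomorphisms over an affine open are linear maps.** Let `M` be a line bundle, `N` any sheaf of
modules and `U` affine. Every `Γ(X, U)`-linear map from `Γ(M, U)` to `Γ(N, U)` comes from exactly one
homomorphism from `M` to `N` over `U`. (Linear equivalences come from isomorphisms if `N` is a line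
bundle, too: `exists_lIso_of_linearEquiv`.) Files `H51Hom`, `H51Pb`. -/
theorem affine_homs {X : Scheme.{u}} {M N : X.Modules} {U : X.Opens} (hU : IsAffineOpen U)
    (hM : Scheme.Modules.IsInvertible M) (ψ : Γ(M, U) →ₗ[Γ(X, U)] Γ(N, U)) :
    ∃! φ : LHom U M N, ∀ x, φ.f U le_rfl x = ψ x := by
  obtain ⟨φ, hφ⟩ := H51Aff.exists_lHom_of_linear hU hM ψ
  exact ⟨φ, hφ, fun φ' h => H51Aff.LHom_ext_affine hU hM fun x => (h x).trans (hφ x).symm⟩

/-- **Isomorphisms are detected on an affine cover**: a homomorphism of line bundles which is
bijective on sections over the members of an affine open cover is an isomorphism. File `H51Hom`. -/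
theorem affine_iso {X : Scheme.{u}} {M N : X.Modules} (hM : Scheme.Modules.IsInvertible M)
    (hN : Scheme.Modules.IsInvertible N) (φ : M ⟶ N) {ι : Type*} (U : ι → X.Opens)
    (hU : ∀ i, IsAffineOpen (U i)) (hc : ⨆ i, U i = ⊤)
    (hφ : ∀ i, Function.Bijective (φ.app (U i))) : IsIso φ :=
  H51Aff.isIso_of_affine_cover hM hN φ U hU hc hφ

/-- **Sections of the pull back are the base change of sections.** Let `M` be a line bundle on `Y`,
`f : X ⟶ Y` a morphism, `V` affine in `Y` and `W` affine in `X` with `f(W) ⊆ V`. Then the map
`s ↦ f^*s|_W` from `Γ(M, V)` to `Γ(f^*M, W)` is the base change along `Γ(Y, V) → Γ(X, W)`. (Mathlib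
defines `f^*M` by a left adjoint, which says nothing about its sections. The brackets say that the
algebra and module structures are those given by `f`, `halg` and `hβ` name the ring map and the map on
sections.) File `H51Pb`. -/
theorem affine_pullback {X Y : Scheme.{u}} (f : X ⟶ Y) {M : Y.Modules}
    (hM : Scheme.Modules.IsInvertible M) {V : Y.Opens} (hV : IsAffineOpen V) {W : X.Opens}
    (hW : IsAffineOpen W) (h : W ≤ f ⁻¹ᵁ V)
    [Algebra Γ(Y, V) Γ(X, W)] [Module Γ(Y, V) Γ((Scheme.Modules.pullback f).obj M, W)]
    [IsScalarTower Γ(Y, V) Γ(X, W) Γ((Scheme.Modules.pullback f).obj M, W)]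
    (halg : ∀ a, algebraMap Γ(Y, V) Γ(X, W) a = resO h (f.app V a))
    (β : Γ(M, V) →ₗ[Γ(Y, V)] Γ((Scheme.Modules.pullback f).obj M, W))
    (hβ : ∀ x, β x = res _ h (pb f M x)) : IsBaseChange Γ(X, W) β :=
  H51Aff.isBaseChange_pb f hM hV hW h halg β hβ

/-! ## 5. Tensor products and the Picard group

`BiHom L N T` is the type of bilinear pairings `L × N → T` of sheaves of modules (maps
`b.m W : Γ(L, W) → Γ(N, W) → Γ(T, W)` for all open `W`, bilinear over functions and compatible with
restriction), and `Tens L N T` the type of those pairings for which the product of two generators is a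
generator. For line bundles such a `T` is the tensor product of `L` and `N`. -/

/-- **Tensor products and inverses** of line bundles exist: two line bundles `L`, `N` have a tensor
product `T`, and there is a line bundle `L'` such that the structure sheaf is a tensor product of `L`
and `L'`. They are constructed from products and inverses of cocycles. File `H21Tens`. -/
theorem exists_tensor {X : Scheme.{u}} {L N : X.Modules} (hL : Scheme.Modules.IsInvertible L)
    (hN : Scheme.Modules.IsInvertible N) :
    (∃ T : X.Modules, Scheme.Modules.IsInvertible T ∧ Nonempty (Tens L N T)) ∧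
      ∃ L' : X.Modules, Scheme.Modules.IsInvertible L' ∧ Nonempty (Tens L L' (uMod X)) :=
  ⟨exists_tens hL hN, exists_inverse hL⟩

/-- **The universal property of the tensor product**: every bilinear pairing `b` of the line bundles
`L`, `N` with values in a sheaf of modules `P` comes from exactly one homomorphism `T → P`. File
`H21Tens`. -/
theorem tensor_universal {X : Scheme.{u}} {L N T P : X.Modules} (t : Tens L N T)
    (hL : Scheme.Modules.IsInvertible L) (hN : Scheme.Modules.IsInvertible N) (b : BiHom L N P) :
    ∃! φ : T ⟶ P, ∀ (W : X.Opens) (x : Γ(L, W)) (y : Γ(N, W)),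
      φ.app W (t.m W x y) = b.m W x y :=
  t.exists_lift hL hN b

/-- **Sections of the tensor product over an affine open** are the tensor product of the sections:
the linear map `Γ(L, U) ⊗ Γ(N, U) → Γ(T, U)` induced by the pairing is bijective. File `H21Tens2`. -/
theorem tensor_affine {X : Scheme.{u}} {L N T : X.Modules} {U : X.Opens} (hU : IsAffineOpen U)
    (t : Tens L N T) (hL : Scheme.Modules.IsInvertible L) (hN : Scheme.Modules.IsInvertible N) :
    ∃ φ : Γ(L, U) ⊗[Γ(X, U)] Γ(N, U) →ₗ[Γ(X, U)] Γ(T, U),
      (∀ x y, φ (x ⊗ₜ y) = t.m U x y) ∧ Function.Bijective φ :=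
  ⟨t.toBiHom.lin U, fun x y => BiHom.lin_tmul _ U x y, t.bijective_affine hU hL hN⟩

/-- **Tensor products pull back to tensor products**, and the pairing of pulled back sections is the
pull back of the pairing. File `H21Tens2`. -/
theorem tensor_pullback {X Y : Scheme.{u}} (f : X ⟶ Y) {L N T : Y.Modules} (t : Tens L N T)
    (hL : Scheme.Modules.IsInvertible L) (hN : Scheme.Modules.IsInvertible N) :
    ∃ t' : Tens ((Scheme.Modules.pullback f).obj L) ((Scheme.Modules.pullback f).obj N)
        ((Scheme.Modules.pullback f).obj T),
      ∀ (V : Y.Opens) (x : Γ(L, V)) (y : Γ(N, V)),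
        t'.m (f ⁻¹ᵁ V) (pb f L x) (pb f N y) = pb f T (t.m V x y) :=
  t.exists_pullback f hL hN

/-- **The Picard group** `SPic X` is the commutative group of isomorphism classes `SPic.mk L hL` of
line bundles: the product of the classes of `L` and `N` is the class of any tensor product `T`; the
class of `L` is trivial if and only if `L` has a global generator; and the pull back
`SPic.map f : SPic Y →* SPic X` maps the class of `L'` to the class of `f^*L'`. File `H21Pic`. -/
theorem picard_group {X Y : Scheme.{u}} {L N T : X.Modules} (t : Tens L N T)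
    (hL : Scheme.Modules.IsInvertible L) (hN : Scheme.Modules.IsInvertible N)
    (hT : Scheme.Modules.IsInvertible T) (f : X ⟶ Y) {L' : Y.Modules}
    (hL' : Scheme.Modules.IsInvertible L') :
    SPic.mk L hL * SPic.mk N hN = SPic.mk T hT ∧
      (SPic.mk L hL = 1 ↔ ∃ s : Γ(L, ⊤), IsGen L s) ∧
      SPic.map f (SPic.mk L' hL') =
        SPic.mk ((Scheme.Modules.pullback f).obj L') (isInvertible_pullback f hL') :=
  ⟨SPic.mk_mul_mk t, SPic.mk_eq_one_iff_exists, SPic.map_mk f L' hL'⟩

/-! ## 6. Line bundles trivial along the section, and glueing of schemes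

`RigidifiedLineBundle c ε t` (definitions file) is the type of line bundles on `C_T` whose pull back
along the section `rigSection c t ε : T ⟶ C_T` is trivial, `M.pullbackAlong g` its pull back along
`g : T' ⟶ T`, and `cl M` its class in the Picard group of `C_T`. -/

/-- **Rigidified bundles are classes.** Rigidified bundles on `C_T`, up to isomorphism, are the
elements of the Picard group of `C_T` which are trivial along the section (`cl M = cl M'` means that
the line bundles are isomorphic). File `H25Chi`. -/
theorem class_of_rigidified {k : Type u} [Field k] {C : Scheme.{u}}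
    {c : C ⟶ Spec (CommRingCat.of k)} {ε : SchemeHomOver (𝟙 (Spec (CommRingCat.of k))) c}
    {T : Scheme.{u}} {t : T ⟶ Spec (CommRingCat.of k)} :
    (∀ M M' : RigidifiedLineBundle c ε t, cl M = cl M' ↔ Nonempty (M.L ≅ M'.L)) ∧
      ∀ α : SPic (pullback c t), (∃ M : RigidifiedLineBundle c ε t, cl M = α) ↔
        SPic.map (rigSection c t ε) α = 1 :=
  ⟨fun _ _ => cl_eq_iff, fun α => ⟨by rintro ⟨M, rfl⟩; exact cl_rig M, exists_cl α⟩⟩

/-- **Twisting by a class on the curve.** A rigidified bundle on `C_T` may be multiplied by the pull
back of any line bundle on `C` itself, since line bundles on `Spec k` are trivial. File `H25Chi`. -/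
theorem twist_by_class_on_curve {k : Type u} [Field k] {C : Scheme.{u}}
    {c : C ⟶ Spec (CommRingCat.of k)} {ε : SchemeHomOver (𝟙 (Spec (CommRingCat.of k))) c}
    {T : Scheme.{u}} {t : T ⟶ Spec (CommRingCat.of k)} (M : RigidifiedLineBundle c ε t)
    (ν : SPic C) :
    ∃ N : RigidifiedLineBundle c ε t, cl N = cl M * SPic.map (pullback.fst c t) ν :=
  ⟨tw M ν, cl_tw M ν⟩

/-- **Glueing rigidified bundles.** Let `ψ i : S i ⟶ T` be open immersions covering `T`, and `M i` a
rigidified bundle over `S i`. Suppose that over the intersection of the images of `S i` and `S j`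
(given by some scheme `V` with an open immersion `a` into `S i` and a map `b` to `S j`) the two
bundles become isomorphic, with no condition on triple intersections. Then there is a rigidified
bundle over `T` which restricts to all `M i`. The hypothesis `hinj` says that functions on `C_T` are
determined by their values along the section, for all `T`: isomorphisms compatible with the
trivialisations are then unique, so the cocycle condition is automatic. File `H25S12` (steps:
section 8). -/
theorem glue_rigidified {k : Type u} [Field k] {C : Scheme.{u}}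
    {c : C ⟶ Spec (CommRingCat.of k)} {ε : SchemeHomOver (𝟙 (Spec (CommRingCat.of k))) c}
    (hinj : ∀ {T : Scheme.{u}} (t : T ⟶ Spec (CommRingCat.of k)),
      Function.Injective (rigSection c t ε).appTop)
    {T : Scheme.{u}} {t : T ⟶ Spec (CommRingCat.of k)} {ι : Type u} {S : ι → Scheme.{u}}
    {s : ∀ i, S i ⟶ Spec (CommRingCat.of k)} (ψ : ∀ i, SchemeHomOver (s i) t)
    (hψ : ∀ i, IsOpenImmersion (ψ i).1) (hcov : ∀ x : T, ∃ i, x ∈ (ψ i).1.opensRange)
    (M : ∀ i, RigidifiedLineBundle c ε (s i))
    (h : ∀ i j, ∃ (V : Scheme.{u}) (v : V ⟶ Spec (CommRingCat.of k)) (a : SchemeHomOver v (s i))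
      (b : SchemeHomOver v (s j)), a.1 ≫ (ψ i).1 = b.1 ≫ (ψ j).1 ∧ IsOpenImmersion a.1 ∧
      (∀ x, x ∈ (ψ i).1.opensRange → x ∈ (ψ j).1.opensRange → x ∈ Set.range (a.1 ≫ (ψ i).1)) ∧
      Nonempty (((M i).pullbackAlong a).L ≅ ((M j).pullbackAlong b).L)) :
    ∃ N : RigidifiedLineBundle c ε t, ∀ i, Nonempty ((N.pullbackAlong (ψ i)).L ≅ (M i).L) :=
  exists_bundle_of_cover hinj ψ hψ hcov M h

/-- **Glueing schemes along a relation between points.** Let `X i` be schemes with open subsets
`V i j`, and let `R i j a b` be a relation between points `a` of `X i` and `b` of `X j` with values in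
the same scheme `S`, for all `S`. If `R` is symmetric, transitive and compatible with maps `S' ⟶ S`,
if `R i i` is equality, and if a point `a` of `X i` has a partner in `X j` if and only if it lies in
`V i j`, then there is a scheme `P` covered by open immersions `X i ⟶ P` such that two points become
equal in `P` if and only if they are related. No glueing maps and no cocycle conditions have to be
constructed: they come from the universal points. In S25, `X i` are charts of the Picard functor, and
`R i j a b` says that `a` and `b` have isomorphic line bundles. File `H25RelGlue`. -/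
theorem glue_schemes {ι : Type u} (X : ι → Scheme.{u}) (V : ∀ i _ : ι, (X i).Opens)
    (R : ∀ {S : Scheme.{u}} (i j : ι) (_ : S ⟶ X i) (_ : S ⟶ X j), Prop)
    (symm : ∀ {S : Scheme.{u}} {i j : ι} {a : S ⟶ X i} {b : S ⟶ X j}, R i j a b → R j i b a)
    (trans : ∀ {S : Scheme.{u}} {i j k : ι} {a : S ⟶ X i} {b : S ⟶ X j} {d : S ⟶ X k},
      R i j a b → R j k b d → R i k a d)
    (pre : ∀ {S S' : Scheme.{u}} {i j : ι} {a : S ⟶ X i} {b : S ⟶ X j} (g : S' ⟶ S),
      R i j a b → R i j (g ≫ a) (g ≫ b))
    (self : ∀ {S : Scheme.{u}} {i : ι} {a b : S ⟶ X i}, R i i a b ↔ a = b)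
    (hV : ∀ {S : Scheme.{u}} {i : ι} (j : ι) (a : S ⟶ X i), (∃ b, R i j a b) ↔ Set.range a ⊆ V i j) :
    ∃ (P : Scheme.{u}) (j : ∀ i, X i ⟶ P), (∀ i, IsOpenImmersion (j i)) ∧
      (∀ x : P, ∃ i, x ∈ Set.range (j i)) ∧
      ∀ {S : Scheme.{u}} (i i' : ι) (a : S ⟶ X i) (b : S ⟶ X i'), a ≫ j i = b ≫ j i' ↔ R i i' a b :=
  exists_relGlue ⟨ι, X, V, R, symm, trans, pre, self, hV⟩

/-! ## 7. Curves, sections and points -/

/-- **Affine curves.** Let `C` be an integral curve, smooth of relative dimension one over an
algebraically closed field `k`, and `U` a nonempty affine open. Then `O(U)` is a Dedekind domain, and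
it contains an element transcendental over `k` (`strHom c U` is the structure map `k → O(U)`). Proof:
by smoothness the module of differentials of `O(U)` is locally generated by one element; for a maximal
ideal `m` the module `m/m²` is a quotient of it, so `m` is locally generated by one element (Nakayama).
Files `H51Curve`, `H51CurveRing`, `H51CurveAlg`, `H51CurveSm`. -/
theorem affine_curve {k : Type u} [Field k] [IsAlgClosed k] {C : Scheme.{u}}
    (c : C ⟶ Spec (CommRingCat.of k)) [SmoothOfRelativeDimension 1 c] [IsIntegral C] {U : C.Opens}
    (hU : IsAffineOpen U) [Nonempty U] :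
    IsDedekindDomain Γ(C, U) ∧
      ∃ t : Γ(C, U), ∀ p : Polynomial k, p.eval₂ (strHom c U) t = 0 → p = 0 :=
  ⟨H51Curve.isDedekindDomain c hU, H51Curve.exists_transcendental c hU⟩

/-- **Points of the curve.** Every point of `C` is the generic point or closed, and the local rings
at closed points are discrete valuation rings. File `H51Curve`. -/
theorem points_of_curve {k : Type u} [Field k] [IsAlgClosed k] {C : Scheme.{u}}
    (c : C ⟶ Spec (CommRingCat.of k)) [SmoothOfRelativeDimension 1 c] [IsIntegral C] (x : C) :
    (x = genericPoint C ∨ IsClosed {x}) ∧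
      (IsClosed {x} → IsDiscreteValuationRing (C.presheaf.stalk x)) :=
  ⟨H51Curve.eq_genericPoint_or_isClosed c x, H51Curve.isDiscreteValuationRing_stalk c x⟩

/-- **The ideal of the diagonal is invertible**, over a nonempty affine open `U` of the curve:
the kernel `I` of the multiplication `O(U) ⊗ O(U) → O(U)` (tensor product over `k`) is an invertible
module over `O(U) ⊗ O(U)`. Proof: `O(U) ⊗ O(U)` is a domain, and `I/I²`, the module of differentials,
is locally generated by one element, hence `I` is (Nakayama). The line bundle of the diagonal, and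
with it the classes `O(-x)` for points `x` with values in any scheme (`GuideTwists`), are built on
this. Files `H51Curve`, `H51CurveRing`. -/
theorem diagonal_ideal_invertible {k : Type u} [Field k] [IsAlgClosed k] {C : Scheme.{u}}
    (c : C ⟶ Spec (CommRingCat.of k)) [SmoothOfRelativeDimension 1 c] [IsIntegral C] {U : C.Opens}
    (hU : IsAffineOpen U) [Nonempty U] :
    letI := (strHom c U).toAlgebra
    Module.Invertible (Γ(C, U) ⊗[k] Γ(C, U)) (KaehlerDifferential.ideal k Γ(C, U)) :=
  H51Curve.invertible_ideal c hU

/-- **Sections from the Euler characteristic.** On a curve `Z` over a field with two charts `τ`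
(`TwoChart z`, see `GuideJacobianCharts`), a line bundle with positive Euler characteristic
`chiL τ M hM = h⁰ - h¹` has a nonzero global section.
With `generator_of_nonzero_values` and the classes `O(-x)` it gives `effective_classes` of
`GuideJacobians`. File `H25Eff4`. -/
theorem exists_section {K : Type u} [Field K] {Z : Scheme.{u}} {z : Z ⟶ Spec (CommRingCat.of K)}
    (τ : TwoChart z) {M : Z.Modules} (hM : Scheme.Modules.IsInvertible M) (h : 0 < chiL τ M hM) :
    ∃ s : Γ(M, ⊤), s ≠ 0 :=
  H25.exists_section τ hM h

/-- **A section without zeros generates.** On the curve over an algebraically closed field (written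
as `C ×_k Spec k`), a global section `s` of a line bundle whose pull back along every rational point
`x` is nonzero is a generator. (`H20T.graph x` is the rational point `x` as a map
`Spec k ⟶ C ×_k Spec k`.) File `H25Eff4`. -/
theorem generator_of_nonzero_values {k : Type u} [Field k] [IsAlgClosed k] {C : Scheme.{u}}
    {c : C ⟶ Spec (CommRingCat.of k)} [IsSeparated c] [SmoothOfRelativeDimension 1 c] [IsIntegral C]
    {M : (pullback c (𝟙 (Spec (CommRingCat.of k)))).Modules}
    (hM : Scheme.Modules.IsInvertible M) {s : Γ(M, ⊤)}
    (h : ∀ x : SchemeHomOver (𝟙 (Spec (CommRingCat.of k))) c, pb (H20T.graph x) M s ≠ 0) :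
    IsGen M s :=
  isGen_of_points hM h

/-- **Rational points cover.** An open subset of a scheme `P` locally of finite type over an
algebraically closed field which contains all rational points is everything; and for a surjective
morphism `f` locally of finite type, points with values in an algebraically closed field `K` lift.
Files `H74F1`, `H25Fin3`. -/
theorem rational_points_cover {k : Type u} [Field k] [IsAlgClosed k] {P : Scheme.{u}}
    (p : P ⟶ Spec (CommRingCat.of k)) [LocallyOfFiniteType p] (U : P.Opens)
    (h : ∀ x : Spec (CommRingCat.of k) ⟶ P, x ≫ p = 𝟙 _ → Set.range x.base ⊆ U) {Y : Scheme.{u}}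
    (f : Y ⟶ P) [Surjective f] [LocallyOfFiniteType f] {K : Type u} [Field K] [IsAlgClosed K]
    (q : Spec (CommRingCat.of K) ⟶ P) :
    U = ⊤ ∧ ∃ r : Spec (CommRingCat.of K) ⟶ Y, r ≫ f = q :=
  ⟨H74.F1.eq_top_of_kPoints p U h, exists_lift_point f q⟩

/-- **Integral implies geometrically integral** for schemes locally of finite type over an
algebraically closed field. It is used for the families of line bundles which prove algebraic
equivalence to zero. File `H74F1Int` (helper74). -/
theorem geometrically_integral {k : Type u} [Field k] [IsAlgClosed k] {X : Scheme.{u}}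
    (x : X ⟶ Spec (CommRingCat.of k)) [LocallyOfFiniteType x] [IsIntegral X] :
    GeometricallyIntegral x :=
  H74.F1.geometricallyIntegral x

/-! ## 8. Steps of `glue_rigidified`

The bundles are compared over open subsets: for `W` open in `T` let `C_W` be the inverse image of `W`
in `C_T` (`pullback.snd c t ⁻¹ᵁ W`). Isomorphisms over `C_W` are elements of `LIso`, and a
trivialisation along the section is a generator `ℓ` of the pull back along
`rigSection c t ε : T ⟶ C_T`. -/

/-- **Pull back of local homomorphisms.** A homomorphism `f` over the open subset `U` of `Y` has a pull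
back `f.pullL g` over `g⁻¹U`, characterised by its values at the pull backs of sections. So the pull
back is compatible with composition and restriction, and the pull back of the multiplication by a
function `a` (`LHom.smulId a M`) is the multiplication by the pull back of `a`. File `H25PullL`. -/
theorem pullback_local_hom {X Y : Scheme.{u}} (g : X ⟶ Y) {U : Y.Opens} {M N P : Y.Modules}
    (f : LHom U M N) (f' : LHom U N P) (a : Γ(Y, U)) :
    (∀ φ : LHom (g ⁻¹ᵁ U) ((Scheme.Modules.pullback g).obj M) ((Scheme.Modules.pullback g).obj N),
      φ = f.pullL g ↔ ∀ (W : Y.Opens) (h : W ≤ U) (x : Γ(M, W)),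
        φ.f (g ⁻¹ᵁ W) (g.preimage_mono h) (pb g M x) = pb g N (f.f W h x)) ∧
    (f.comp f').pullL g = (f.pullL g).comp (f'.pullL g) ∧
    (∀ {V : Y.Opens} (h : V ≤ U),
      (f.restr h).pullL g = (f.pullL g).restr (g.preimage_mono h)) ∧
    (LHom.smulId a M).pullL g = LHom.smulId (g.app U a) _ :=
  ⟨fun _ => ⟨fun h => h ▸ LHom.pullL_pb g f, fun h => LHom.ext_pb g fun W hW x =>
    (h W hW x).trans (LHom.pullL_pb g f W hW x).symm⟩, LHom.pullL_comp g f f',
    fun h => LHom.pullL_restr g f h, LHom.pullL_smulId g a⟩

/-- **Local isomorphisms and isomorphisms of pull backs.** An isomorphism of `j^*M` and `j^*N`, `j` an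
open immersion, comes from an isomorphism of `M` and `N` over every open subset `U` of its image; and
an isomorphism over `U` gives one of `g^*M` and `g^*N` for every `g` with image in `U`. File
`H25Glue2`. -/
theorem local_isomorphisms {X Y Z : Scheme.{u}} (j : X ⟶ Y) [IsOpenImmersion j] {U : Y.Opens}
    (hU : U ≤ j.opensRange) {M N : Y.Modules}
    (e : (Scheme.Modules.pullback j).obj M ≅ (Scheme.Modules.pullback j).obj N) (g : Z ⟶ Y)
    (hg : g ⁻¹ᵁ U = ⊤) (f : LIso U M N) :
    (∃ f' : LIso U M N, ∀ (W : Y.Opens) (h : W ≤ U) (x : Γ(M, W)),
      pb j N (f'.hom.f W h x) = e.hom.app (j ⁻¹ᵁ W) (pb j M x)) ∧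
    ∃ e' : (Scheme.Modules.pullback g).obj M ≅ (Scheme.Modules.pullback g).obj N,
      ∀ (W : Y.Opens) (h : W ≤ U) (x : Γ(M, W)),
        e'.hom.app (g ⁻¹ᵁ W) (pb g M x) = pb g N (f.hom.f W h x) :=
  ⟨⟨LIso.ofPull j hU e, LHom.pb_ofPull j hU e.hom⟩,
    ⟨f.pull g hg, fun _ h x => f.hom.pull_app g hg h x⟩⟩

/-- **Endomorphisms are functions.** `InvOn U M` says that `M` is a line bundle over `U`. Then every
endomorphism of `M` over `U` is the multiplication by exactly one function on `U`. File `H25PullL`. -/
theorem endomorphism_is_function {X : Scheme.{u}} {U : X.Opens} {M : X.Modules} :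
    (InvOn U M ↔ ∀ x ∈ U, ∃ (V : X.Opens) (_ : V ≤ U) (_ : x ∈ V) (s : Γ(M, V)), IsGen M s) ∧
    (InvOn U M → ∀ f : LHom U M M, ∃! a : Γ(X, U), f = LHom.smulId a M) :=
  ⟨Iff.rfl, fun h f => LHom.exists_eq_smulId h f⟩

section Steps

variable {k : Type u} [Field k] {C : Scheme.{u}} {c : C ⟶ Spec (CommRingCat.of k)}
  {ε : SchemeHomOver (𝟙 (Spec (CommRingCat.of k))) c} {T : Scheme.{u}}
  {t : T ⟶ Spec (CommRingCat.of k)}

/-- **Functions on `C_W`.** `RigInj c ε` is the hypothesis `hinj` of `glue_rigidified`. It is applied
with the open subset `W` of `T` as base: functions on `C_W` are determined along the section. File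
`H25Rig`. -/
theorem functions_over_open (hinj : RigInj c ε) (t : T ⟶ Spec (CommRingCat.of k)) (W : T.Opens) :
    (RigInj c ε ↔ ∀ {T : Scheme.{u}} (t : T ⟶ Spec (CommRingCat.of k)),
      Function.Injective (rigSection c t ε).appTop) ∧
    rigSection c t ε ⁻¹ᵁ (pullback.snd c t ⁻¹ᵁ W) = W ∧
    Function.Injective ((rigSection c t ε).app (pullback.snd c t ⁻¹ᵁ W)) :=
  ⟨Iff.rfl, rigSection_preimage t W, hinj.app t W⟩

/-- **Isomorphisms compatible with trivialisations** `ℓ`, `ℓ'` of `M`, `M'` along the section over `W`.
Uniqueness: two isomorphisms of the line bundle `M` with `M'` over `C_W` with the same value at `ℓ` are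
equal, because they differ by a function which is `1` along the section. Existence: if there is an
isomorphism over `C_W`, there is one which maps `ℓ` to `ℓ'`: multiply it by the pull back of a unit on
`W`. File `H25Rig`. -/
theorem compatible_isomorphisms (hinj : RigInj c ε) {W : T.Opens} {M M' : (pullback c t).Modules}
    {ℓ : Γ((Scheme.Modules.pullback (rigSection c t ε)).obj M,
      rigSection c t ε ⁻¹ᵁ (pullback.snd c t ⁻¹ᵁ W))} (hℓ : IsGen _ ℓ)
    {ℓ' : Γ((Scheme.Modules.pullback (rigSection c t ε)).obj M',
      rigSection c t ε ⁻¹ᵁ (pullback.snd c t ⁻¹ᵁ W))} (hℓ' : IsGen _ ℓ') :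
    (InvOn (pullback.snd c t ⁻¹ᵁ W) M → ∀ f f' : LIso (pullback.snd c t ⁻¹ᵁ W) M M',
      (f.pullL (rigSection c t ε)).hom.f _ le_rfl ℓ =
        (f'.pullL (rigSection c t ε)).hom.f _ le_rfl ℓ → f = f') ∧
    ∀ _ : LIso (pullback.snd c t ⁻¹ᵁ W) M M', ∃ f : LIso (pullback.snd c t ⁻¹ᵁ W) M M',
      (f.pullL (rigSection c t ε)).hom.f _ le_rfl ℓ = ℓ' :=
  ⟨fun hM f f' h => lIso_ext hinj hM hℓ f f' h, fun f => exists_lIso_rig hℓ hℓ' f⟩

/-- **Isomorphism is local on the base.** Two rigidified bundles on `C_T` which become isomorphic over
the members of an open cover of `T` are isomorphic: make the isomorphisms compatible with the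
trivialisations; then they agree on the intersections, and `glue_homs` applies. File `H25S12`. -/
theorem isomorphism_is_local (hinj : RigInj c ε) (M M' : RigidifiedLineBundle c ε t) {ι : Type*}
    {S : ι → Scheme.{u}} {s : ∀ i, S i ⟶ Spec (CommRingCat.of k)}
    (ψ : ∀ i, SchemeHomOver (s i) t) (hψ : ∀ i, IsOpenImmersion (ψ i).1)
    (hcov : ∀ x : T, ∃ i, x ∈ (ψ i).1.opensRange)
    (h : ∀ i, Nonempty ((M.pullbackAlong (ψ i)).L ≅ (M'.pullbackAlong (ψ i)).L)) :
    Nonempty (M.L ≅ M'.L) :=
  iso_of_cover hinj M M' ψ hψ hcov h

/-- **Glueing over open subsets.** Let the `W i` cover `T`, and let `N i` be sheaves on `C_T` which are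
line bundles over `C_{W i}`, with trivialisations `ℓ i` along the section over `W i`, and isomorphic
over the intersections. Then there is a rigidified bundle `M` on `C_T` isomorphic to `N i` over
`C_{W i}`, for all `i`: isomorphisms compatible with the trivialisations satisfy the cocycle condition
(uniqueness), so `glue_modules` applies; the `ℓ i` are glued by `glue_sections`. File `H25Rig`. -/
theorem glue_over_open_subsets (hinj : RigInj c ε) {ι : Type u} (W : ι → T.Opens)
    (hW : ⨆ i, W i = ⊤) (N : ι → (pullback c t).Modules)
    (hN : ∀ i, InvOn (pullback.snd c t ⁻¹ᵁ W i) (N i))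
    (ℓ : ∀ i, Γ((Scheme.Modules.pullback (rigSection c t ε)).obj (N i),
      rigSection c t ε ⁻¹ᵁ (pullback.snd c t ⁻¹ᵁ W i))) (hℓ : ∀ i, IsGen _ (ℓ i))
    (f : ∀ i j, LIso (pullback.snd c t ⁻¹ᵁ (W i ⊓ W j)) (N i) (N j)) :
    ∃ M : RigidifiedLineBundle c ε t,
      ∀ i, Nonempty (LIso (pullback.snd c t ⁻¹ᵁ W i) M.L (N i)) :=
  exists_glued_bundle hinj W hW N hN ℓ hℓ f

/-- **From `C_S` to `C_T`.** Let `ψ : S ⟶ T` be an open immersion. The map `C_S ⟶ C_T`
(`baseChangeSnd c ψ`) is an open immersion onto `C_W`, `W` the image of `ψ`. A sheaf `N` on `C_T` is a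
line bundle over `C_W` if and only if its pull back to `C_S` is a line bundle, and every sheaf `M` on
`C_S` is the pull back of its direct image. So `glue_rigidified` follows from
`glue_over_open_subsets`, applied to the direct images of the `M i`, with `local_isomorphisms`. Files
`H25Rig`, `H25S12`. -/
theorem restrict_to_open {S : Scheme.{u}} {s : S ⟶ Spec (CommRingCat.of k)} (ψ : SchemeHomOver s t)
    [IsOpenImmersion ψ.1] (N : (pullback c t).Modules) (M : (pullback c s).Modules) :
    IsOpenImmersion (baseChangeSnd c ψ) ∧
    (baseChangeSnd c ψ).opensRange = pullback.snd c t ⁻¹ᵁ ψ.1.opensRange ∧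
    (InvOn (baseChangeSnd c ψ).opensRange N ↔
      Scheme.Modules.IsInvertible ((Scheme.Modules.pullback (baseChangeSnd c ψ)).obj N)) ∧
    IsIso ((Scheme.Modules.pullbackPushforwardAdjunction (baseChangeSnd c ψ)).counit.app M) :=
  ⟨inferInstance, opensRange_baseChangeSnd c ψ, invOn_opensRange_iff _ N,
    isIso_counit_openImmersion _ M⟩

end Steps

end Fermat.Agent.Guide.Sheaves
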