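import Fermat.Agent.H56ZRad2
import Fermat.Agent.H31Hyp3
import Fermat.Agent.H5ZH3

/-!
# Radial kernels on products of hyperbolic 3-spaces, part 3 (helper56)

The convolution algebra of the radial kernels `κ ((ch_j)_j)` on `J → H3`.
-/

set_option autoImplicit false

noncomputable section

open MeasureTheory Set
open scoped Real ENNReal

namespace Fermat.Agent.H56Z

open H5Z

variable {J : Type*} [Fintype J]

/-- The class of radial kernels: continuous, bounded, zero as soon as one variable is large. -/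
structure IsRC (κ : (J → ℝ) → ℂ) : Prop where
  cont : Continuous κ
  bdd : ∃ M : ℝ, ∀ u, ‖κ u‖ ≤ M
  supp : ∃ R : ℝ, ∀ u, (∃ j, R < u j) → κ u = 0

omit [Fintype J] in
theorem chJ_eq_chv (w w' : J → H3) : chJ w w' = chv w w' := rfl

/-! ### Points on an axis -/

/-- `e^{arcosh t}`, extended constantly for `t ≤ 1`. -/
def eac (t : ℝ) : ℝ := max t 1 + √((max t 1) ^ 2 - 1)

theorem eac_pos (t : ℝ) : 0 < eac t := by
  have h1 : 1 ≤ max t 1 := le_max_right _ _
  have h2 := Real.sqrt_nonneg ((max t 1) ^ 2 - 1)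
  unfold eac
  linarith

theorem continuous_eac : Continuous eac := by
  unfold eac
  fun_prop

theorem eac_max (t : ℝ) : eac (max t 1) = eac t := by
  unfold eac
  rw [max_assoc, max_self]

/-- The point at distance `arcosh t` above the base point. -/
def ax (t : ℝ) : H3 := ⟨0, eac t, eac_pos t⟩

theorem continuous_ax : Continuous ax :=
  H3.continuous_mk continuous_const continuous_eac

theorem ch_base_ax (t : ℝ) : H3.ch H3.base (ax t) = max t 1 := by
  have h1 : 1 ≤ max t 1 := le_max_right _ _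
  have h2 : (√((max t 1) ^ 2 - 1)) ^ 2 = (max t 1) ^ 2 - 1 := Real.sq_sqrt (by nlinarith)
  have h3 := eac_pos t
  simp only [H3.ch, ax, H3.base_z, H3.base_y, sub_self, map_zero]
  rw [div_eq_iff (by positivity)]
  unfold eac
  nlinarith

variable (J) in
/-- The base point of `J → H3`. -/
def baseJ : J → H3 := fun _ => H3.base

/-- The point with distances `arcosh t_j` above the base point. -/
def axJ (t : J → ℝ) : J → H3 := fun j => ax (t j)

omit [Fintype J] in
theorem continuous_axJ : Continuous (axJ : (J → ℝ) → J → H3) :=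
  continuous_pi fun j => continuous_ax.comp (continuous_apply j)

omit [Fintype J] in
theorem chv_base_axJ (t : J → ℝ) : chv (baseJ J) (axJ t) = fun j => max (t j) 1 :=
  funext fun j => ch_base_ax (t j)

omit [Fintype J] in
theorem chv_base_axJ_of_le {t : J → ℝ} (ht : ∀ j, 1 ≤ t j) : chv (baseJ J) (axJ t) = t := by
  rw [chv_base_axJ]
  exact funext fun j => max_eq_left (ht j)

omit [Fintype J] in
theorem chv_comm (w w' : J → H3) : chv w w' = chv w' w := funext fun _ => H3.ch_comm _ _

omit [Fintype J] in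
theorem one_le_chv (w w' : J → H3) (j : J) : 1 ≤ chv w w' j := H3.one_le_ch _ _

omit [Fintype J] in
theorem chv_smul (g : J → GL (Fin 2) ℂ) (w w' : J → H3) :
    chv (fun j => g j • w j) (fun j => g j • w' j) = chv w w' :=
  funext fun j => H3.ch_smul (g j) (w j) (w' j)

omit [Fintype J] in
/-- Two-point homogeneity of `J → H3`. -/
theorem exists_smul_eqJ {w w' v v' : J → H3} (h : chv w w' = chv v v') :
    ∃ g : J → GL (Fin 2) ℂ, (fun j => g j • w j) = v ∧ (fun j => g j • w' j) = v' := by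
  choose g hg using fun j => H3.exists_smul_eq₂ (congrFun h j : H3.ch (w j) (w' j) = _)
  exact ⟨g, funext fun j => (hg j).1, funext fun j => (hg j).2⟩

theorem integral_smulJ {E : Type*} [NormedAddCommGroup E] [NormedSpace ℝ E]
    (g : J → GL (Fin 2) ℂ) (f : (J → H3) → E) :
    ∫ v : J → H3, f (fun j => g j • v j) = ∫ v, f v := by
  have h := H3.measurePreserving_smul_pi g
  let e : (J → H3) ≃ᵐ (J → H3) := (Homeomorph.piCongrRight fun j =>
    Homeomorph.smul (g j)).toMeasurableEquiv
  have he : (e : (J → H3) → J → H3) = fun v j => g j • v j := rfl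
  have h' : MeasurePreserving e volume volume := by rw [he]; exact h
  exact h'.integral_comp' f

/-! ### The triangle inequality -/

theorem ch_triangle (w v w' : H3) : H3.ch w w' ≤ 2 * H3.ch w v * H3.ch v w' := by
  have hw := w.pos
  have hv := v.pos
  have hw' := w'.pos
  rw [H3.ch, H3.ch, H3.ch]
  have e : 2 * ((Complex.normSq (w.z - v.z) + w.y ^ 2 + v.y ^ 2) / (2 * w.y * v.y)) *
      ((Complex.normSq (v.z - w'.z) + v.y ^ 2 + w'.y ^ 2) / (2 * v.y * w'.y)) =
      ((Complex.normSq (w.z - v.z) + w.y ^ 2 + v.y ^ 2) *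
        (Complex.normSq (v.z - w'.z) + v.y ^ 2 + w'.y ^ 2) / v.y ^ 2) / (2 * w.y * w'.y) := by
    field_simp
  rw [e]
  refine div_le_div_of_nonneg_right ?_ (by positivity)
  rw [le_div_iff₀ (by positivity)]
  simp only [Complex.normSq_eq_norm_sq]
  have h1 : ‖w.z - w'.z‖ ≤ ‖w.z - v.z‖ + ‖v.z - w'.z‖ := by
    calc ‖w.z - w'.z‖ = ‖(w.z - v.z) + (v.z - w'.z)‖ := by ring_nf
      _ ≤ _ := norm_add_le _ _
  have h2 : ‖w.z - w'.z‖ ^ 2 ≤ (‖w.z - v.z‖ + ‖v.z - w'.z‖) ^ 2 :=
    pow_le_pow_left₀ (norm_nonneg _) h1 2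
  set p := ‖w.z - v.z‖
  set q := ‖v.z - w'.z‖
  have hp : 0 ≤ p := norm_nonneg _
  have hq : 0 ≤ q := norm_nonneg _
  nlinarith [sq_nonneg (p * q - v.y ^ 2), mul_nonneg (sq_nonneg p) (sq_nonneg w'.y),
    mul_nonneg (sq_nonneg q) (sq_nonneg w.y), mul_nonneg (sq_nonneg w.y) (sq_nonneg w'.y),
    mul_nonneg (sq_nonneg v.y) (sq_nonneg w.y), mul_nonneg (sq_nonneg v.y) (sq_nonneg w'.y),
    mul_le_mul_of_nonneg_right h2 (sq_nonneg v.y), sq_nonneg (v.y ^ 2)]

/-! ### Compactness of balls -/

theorem isCompact_ballH3 (R : ℝ) (x : H3) : IsCompact {w | H3.ch x w ≤ R} := by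
  by_cases hR : R < 1
  · have : {w | H3.ch x w ≤ R} = ∅ := by
      ext w
      simp only [mem_ofPred_eq, mem_empty_iff_false, iff_false, not_le]
      exact hR.trans_le (H3.one_le_ch x w)
    rw [this]
    exact isCompact_empty
  push Not at hR
  have hK : IsCompact (Metric.closedBall x.z (2 * R * x.y) ×ˢ
      Icc (x.y / (2 * R)) (2 * R * x.y)) :=
    (isCompact_closedBall _ _).prod isCompact_Icc
  have hx := x.pos
  let f : ℂ × ℝ → H3 := fun p => ⟨p.1, max p.2 (x.y / (2 * R)),
    lt_of_lt_of_le (by positivity) (le_max_right _ _)⟩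
  have hf : Continuous f := H3.continuous_mk continuous_fst (continuous_snd.max continuous_const)
  refine IsCompact.of_isClosed_subset (hK.image hf) (isClosed_ball R x) ?_
  intro w hw
  have hw' : chc x.z x.y w.z w.y ≤ R := by rw [← ch_eq_chc]; exact hw
  obtain ⟨h1, h2, h3, -⟩ := le_of_chc_le x.pos w.pos hw'
  refine ⟨(w.z, w.y), ⟨?_, ?_, ?_⟩, ?_⟩
  · rw [Metric.mem_closedBall, dist_eq_norm, ← norm_neg, neg_sub]
    exact h3
  · rw [div_le_iff₀ (by positivity)]
    linarith
  · exact h2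
  · have h4 : x.y / (2 * R) ≤ w.y := by
      rw [div_le_iff₀ (by positivity)]
      linarith
    ext
    · rfl
    · exact max_eq_left h4

omit [Fintype J] in
theorem isCompact_Bl (R : ℝ) (x : J → H3) : IsCompact (Bl R x) := by
  have : Bl R x = Set.pi univ fun j => {w | H3.ch (x j) w ≤ R} := by
    ext w
    simp [Bl]
  rw [this]
  exact isCompact_univ_pi fun j => isCompact_ballH3 R (x j)

instance : IsFiniteMeasureOnCompacts (volume : Measure H3) :=
  Measure.IsFiniteMeasureOnCompacts.map (volume : Measure (ℂ × ℝ)) H3.coord.symm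

instance : IsLocallyFiniteMeasure (volume : Measure H3) :=
  ⟨fun x => by
    obtain ⟨K, hK, hx⟩ := exists_compact_mem_nhds x
    exact ⟨K, hx, hK.measure_lt_top⟩⟩

/-! ### Convolution -/

/-- Convolution of radial kernels. -/
def conv (κ κ' : (J → ℝ) → ℂ) (t : J → ℝ) : ℂ :=
  ∫ v : J → H3, κ (chv (baseJ J) v) * κ' (chv v (axJ t))

/-- The defining property of the convolution (no hypotheses are needed). -/
theorem conv_apply (κ κ' : (J → ℝ) → ℂ) (w w' : J → H3) :
    conv κ κ' (chv w w') = ∫ v : J → H3, κ (chv w v) * κ' (chv v w') := by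
  obtain ⟨g, h1, h2⟩ := exists_smul_eqJ (chv_base_axJ_of_le (one_le_chv w w')).symm
  have h := integral_smulJ g fun v => κ (chv (baseJ J) v) * κ' (chv v (axJ (chv w w')))
  rw [conv, ← h]
  refine integral_congr_ae (Filter.Eventually.of_forall fun v => ?_)
  simp only
  rw [← h1, ← h2, chv_smul, chv_smul]

theorem conv_max (κ κ' : (J → ℝ) → ℂ) (t : J → ℝ) :
    conv κ κ' t = conv κ κ' (fun j => max (t j) 1) := by
  have : axJ (fun j => max (t j) 1) = axJ t := by
    funext j
    ext
    · rfl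
    · exact eac_max (t j)
  rw [conv, conv, this]

theorem conv_comm (κ κ' : (J → ℝ) → ℂ) : conv κ κ' = conv κ' κ := by
  funext t
  rw [conv_max κ κ', conv_max κ' κ, ← chv_base_axJ, conv_apply, chv_comm, conv_apply]
  refine integral_congr_ae (Filter.Eventually.of_forall fun v => ?_)
  simp only
  rw [chv_comm v (axJ t), chv_comm v (baseJ J), mul_comm]

namespace IsRC

variable {κ κ' : (J → ℝ) → ℂ}

omit [Fintype J] in
/-- Bounds in normalised form. -/
theorem exists_bounds (h : IsRC κ) : ∃ R M : ℝ, 1 ≤ R ∧ 0 ≤ M ∧ (∀ u, ‖κ u‖ ≤ M) ∧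
    ∀ u, (∃ j, R < u j) → κ u = 0 := by
  obtain ⟨M, hM⟩ := h.bdd
  obtain ⟨R, hR⟩ := h.supp
  refine ⟨max R 1, M, le_max_right _ _, (norm_nonneg _).trans (hM 0), hM, ?_⟩
  rintro u ⟨j, hj⟩
  exact hR u ⟨j, (le_max_left _ _).trans_lt hj⟩

omit [Fintype J] in
theorem zero : IsRC (0 : (J → ℝ) → ℂ) :=
  ⟨continuous_zero, ⟨0, fun _ => by simp⟩, ⟨0, fun _ _ => rfl⟩⟩

omit [Fintype J] in
theorem add (h : IsRC κ) (h' : IsRC κ') : IsRC (κ + κ') := by
  obtain ⟨R, M, -, -, hM, hR⟩ := h.exists_bounds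
  obtain ⟨R', M', -, -, hM', hR'⟩ := h'.exists_bounds
  refine ⟨h.cont.add h'.cont, ⟨M + M', fun u => ?_⟩, ⟨max R R', ?_⟩⟩
  · exact (norm_add_le _ _).trans (add_le_add (hM u) (hM' u))
  · rintro u ⟨j, hj⟩
    rw [Pi.add_apply, hR u ⟨j, (le_max_left _ _).trans_lt hj⟩,
      hR' u ⟨j, (le_max_right _ _).trans_lt hj⟩, add_zero]

omit [Fintype J] in
theorem const_mul (h : IsRC κ) (c : ℂ) : IsRC (fun u => c * κ u) := by
  obtain ⟨R, M, -, -, hM, hR⟩ := h.exists_bounds
  refine ⟨continuous_const.mul h.cont, ⟨‖c‖ * M, fun u => ?_⟩, ⟨R, fun u hu => ?_⟩⟩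
  · rw [norm_mul]
    exact mul_le_mul_of_nonneg_left (hM u) (norm_nonneg _)
  · rw [hR u hu, mul_zero]

omit [Fintype J] in
theorem neg (h : IsRC κ) : IsRC (-κ) := by
  have := h.const_mul (-1)
  convert this using 1
  funext u
  simp

omit [Fintype J] in
theorem sub (h : IsRC κ) (h' : IsRC κ') : IsRC (κ - κ') := by
  rw [sub_eq_add_neg]
  exact h.add h'.neg

omit [Fintype J] in
theorem smul (h : IsRC κ) (c : ℂ) : IsRC (c • κ) := h.const_mul c

omit [Fintype J] in
theorem sum {ι : Type*} (s : Finset ι) (f : ι → (J → ℝ) → ℂ) (hf : ∀ i ∈ s, IsRC (f i)) :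
    IsRC (∑ i ∈ s, f i) := by
  classical
  induction s using Finset.induction_on with
  | empty => simpa using IsRC.zero
  | insert a s ha ih =>
    rw [Finset.sum_insert ha]
    exact (hf a (Finset.mem_insert_self _ _)).add
      (ih fun i hi => hf i (Finset.mem_insert_of_mem hi))

omit [Fintype J] in
/-- The support condition along `chv`. -/
theorem eq_zero_of_notMem {R : ℝ} (hR : ∀ u, (∃ j, R < u j) → κ u = 0) {x w : J → H3}
    (h : w ∉ Bl R x) : κ (chv x w) = 0 := by
  simp only [Bl, mem_ofPred_eq, not_forall, not_le] at h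
  exact hR _ h

/-- The integral may be restricted to a ball. -/
theorem integral_eq_setIntegral {R : ℝ} (hR : ∀ u, (∃ j, R < u j) → κ u = 0) (x : J → H3)
    (g : (J → H3) → ℂ) :
    ∫ w, κ (chv x w) * g w = ∫ w in Bl R x, κ (chv x w) * g w := by
  rw [← integral_indicator (measurableSet_Bl R x)]
  refine integral_congr_ae (Filter.Eventually.of_forall fun w => ?_)
  by_cases hw : w ∈ Bl R x
  · simp only
    rw [indicator_of_mem hw]
  · simp only
    rw [indicator_of_notMem hw, eq_zero_of_notMem hR hw, zero_mul]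

theorem conv (h : IsRC κ) (h' : IsRC κ') : IsRC (conv κ κ') := by
  obtain ⟨R, M, hR1, hM0, hM, hR⟩ := h.exists_bounds
  obtain ⟨R', M', hR1', hM0', hM', hR'⟩ := h'.exists_bounds
  have hsupp : ∀ t : J → ℝ, (∃ j, 2 * R * R' < t j) → H56Z.conv κ κ' t = 0 := by
    rintro t ⟨j, hj⟩
    rw [H56Z.conv]
    refine (integral_congr_ae (Filter.Eventually.of_forall fun v => ?_)).trans
      (integral_zero _ _)
    by_cases h1 : chv (baseJ J) v j ≤ R
    · have h2 := ch_triangle H3.base (v j) (ax (t j))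
      rw [ch_base_ax] at h2
      have h3 : t j ≤ max (t j) 1 := le_max_left _ _
      have h4 : R' < chv v (axJ t) j := by
        by_contra h5
        push Not at h5
        have h6 : 2 * H3.ch H3.base (v j) * H3.ch (v j) (ax (t j)) ≤ 2 * R * R' := by
          have e1 : H3.ch H3.base (v j) ≤ R := h1
          have e2 : H3.ch (v j) (ax (t j)) ≤ R' := h5
          have e3 : 0 ≤ H3.ch (v j) (ax (t j)) := zero_le_one.trans (H3.one_le_ch _ _)
          exact mul_le_mul (by linarith) e2 e3 (by linarith)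
        linarith
      rw [hR' _ ⟨j, h4⟩, mul_zero]
    · push Not at h1
      rw [hR _ ⟨j, h1⟩, zero_mul]
  have hbdd : ∀ t : J → ℝ, ‖H56Z.conv κ κ' t‖ ≤ M * M' * (volume (Bl R (baseJ J))).toReal := by
    intro t
    rw [H56Z.conv, integral_eq_setIntegral hR]
    have hfin : volume (Bl R (baseJ J)) < ⊤ := (isCompact_Bl R (baseJ J)).measure_lt_top
    refine norm_setIntegral_le_of_norm_le_const hfin ?_
    intro w _
    rw [norm_mul]
    exact mul_le_mul (hM _) (hM' _) (norm_nonneg _) hM0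
  refine ⟨?_, ⟨_, hbdd⟩, ⟨_, hsupp⟩⟩
  have e : H56Z.conv κ κ' = fun t => ∫ v in Bl R (baseJ J), κ (chv (baseJ J) v) *
      κ' (chv v (axJ t)) := by
    funext t
    rw [H56Z.conv, integral_eq_setIntegral hR]
  rw [e]
  have hc : Continuous (Function.uncurry fun (t : J → ℝ) (v : J → H3) =>
      κ (chv (baseJ J) v) * κ' (chv v (axJ t))) := by
    have h1 : Continuous fun p : (J → ℝ) × (J → H3) => chv (baseJ J) p.2 :=
      (continuous_chv_right (baseJ J)).comp continuous_snd
    have h2 : Continuous fun p : (J → ℝ) × (J → H3) => chv p.2 (axJ p.1) :=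
      continuous_chv.comp (continuous_snd.prodMk (continuous_axJ.comp continuous_fst))
    exact (h.cont.comp h1).mul (h'.cont.comp h2)
  exact continuous_parametric_integral_of_continuous hc (isCompact_Bl R (baseJ J))

end IsRC

end Fermat.Agent.H56Z
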