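import Mathlib
import Fermat.Agent.H58PD2
import Fermat.Agent.H64L3
import Fermat.Agent.H56ZRad3

/-!
# Proper discontinuity of `PGL₂(K)` on the model `X(K)` (H58, PD3)
-/

open NumberField Module Matrix
open scoped nonZeroDivisors MatrixGroups

set_option linter.unusedSectionVars false
set_option linter.overlappingInstances false

noncomputable section

namespace Fermat.Agent.H58PD

open Fermat.Agent.H26Z Fermat.Agent.H59D Fermat.Agent.H59XF Fermat.Agent.H64L

variable {K : Type*} [Field K] [NumberField K] {J : Type*} [Fintype J]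

/-- **PD** on the model: exact form of helper17's (5). -/
theorem pd (m : Model K J) (y y' : XF m.L.fam) (w w' : J → H3) (R : ℝ) :
    {g : PGL(2, K) | g • y' = y ∧ ∀ j, H3.ch (w j) (m.actInf g w' j) ≤ R}.Finite :=
  finite_of_map m.e m.e_bij (lat m.L) (fun g y => lat_smul m.L g y) y y' w w' R

/-- PD for finite sets of discrete coordinates. -/
theorem pd_set (m : Model K J) {S S' : Set (XF m.L.fam)} (hS : S.Finite) (hS' : S'.Finite)
    (w w' : J → H3) (R : ℝ) :
    {g : PGL(2, K) | (∃ y' ∈ S', g • y' ∈ S) ∧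
      ∀ j, H3.ch (w j) (m.actInf g w' j) ≤ R}.Finite := by
  refine ((hS.prod hS').biUnion fun p _ => pd m p.1 p.2 w w' R).subset ?_
  rintro g ⟨⟨y', hy', hy⟩, h⟩
  exact Set.mem_biUnion (x := (g • y', y')) ⟨hy, hy'⟩ ⟨rfl, h⟩

/-- **PD, locally uniform**: the points move in balls (`ch ≤ T`). -/
theorem pd_ball (m : Model K J) {S S' : Set (XF m.L.fam)} (hS : S.Finite) (hS' : S'.Finite)
    (w w' : J → H3) (R T : ℝ) :
    {g : PGL(2, K) | (∃ y' ∈ S', g • y' ∈ S) ∧ ∃ v v' : J → H3,
      (∀ j, H3.ch (w j) (v j) ≤ T) ∧ (∀ j, H3.ch (w' j) (v' j) ≤ T) ∧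
      ∀ j, H3.ch (v j) (m.actInf g v' j) ≤ R}.Finite := by
  refine (pd_set m hS hS' w w' (2 * (2 * T * R) * T)).subset ?_
  rintro g ⟨h, v, v', hv, hv', hg⟩
  refine ⟨h, fun j => ?_⟩
  have h0 := H3.one_le_ch (w j) (v j)
  have h1 := H3.one_le_ch (v j) (m.actInf g v' j)
  have h2 := H3.one_le_ch (m.actInf g v' j) (m.actInf g w' j)
  have h3 : H3.ch (m.actInf g v' j) (m.actInf g w' j) ≤ T := by
    have : H3.ch (m.actInf g v' j) (m.actInf g w' j) = H3.ch (v' j) (w' j) :=
      Fermat.Agent.H59D.ch_smul _ _ _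
    rw [this, H3.ch_comm]
    exact hv' j
  have h4 := Fermat.Agent.H56Z.ch_triangle (w j) (v j) (m.actInf g v' j)
  have h5 := Fermat.Agent.H56Z.ch_triangle (w j) (m.actInf g v' j) (m.actInf g w' j)
  have h6 : H3.ch (w j) (m.actInf g v' j) ≤ 2 * T * R := by
    refine h4.trans ?_
    have a1 := hv j
    have a2 := hg j
    have a3 : 0 ≤ 2 * T := by linarith
    gcongr
  refine h5.trans ?_
  have h7 := H3.one_le_ch (w j) (m.actInf g v' j)
  have h8 : 0 ≤ 2 * (2 * T * R) := by linarith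
  gcongr

/-- PD for points of the model. -/
theorem pd_point (m : Model K J) (x x' : m.X) (R : ℝ) {S : Set (XF m.L.fam)} (hS : S.Finite) :
    {g : PGL(2, K) | (g • x').2 ∈ S ∧ ∀ j, H3.ch (x.1 j) ((g • x').1 j) ≤ R}.Finite := by
  refine (pd_set m hS (Set.finite_singleton x'.2) x.1 x'.1 R).subset ?_
  rintro g ⟨h, h'⟩
  exact ⟨⟨x'.2, rfl, h⟩, h'⟩

/-- The stabiliser of a point of the model is finite. -/
theorem finite_stabilizer (m : Model K J) (x : m.X) :
    Finite (MulAction.stabilizer PGL(2, K) x) := by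
  have h := pd_point m x x 1 (Set.finite_singleton x.2)
  refine Set.Finite.to_subtype (h.subset ?_)
  intro g hg
  have hg' : g • x = x := hg
  refine ⟨by rw [hg']; rfl, fun j => ?_⟩
  rw [hg', H3.ch_self]

end Fermat.Agent.H58PD

end
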