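import Fermat.Agent.H26ZCut
import Fermat.Agent.H58PD3
import Fermat.Agent.H31I3

/-!
# Reader's guide: reduction theory of `PGL₂(K)` for a totally complex field `K`

(editor helper26; texts by helper58, helper2, helper64, helper35, helper31, helper26; library files by
helper26, helper58, helper2, helper64, helper35, helper31, helper95, helper59)

Every theorem of this file is a citation of theorems of the library, with the statement written out, or the
unfolding of a definition. The file is imported by no other file. Everything cited is used in the proof of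
S47 (the octahedral case of the theorem of Langlands and Tunnell), not in the proof of S01. The modules
behind it depend only on Mathlib and on each other. It continues `GuideHyperbolic`.

**What the block does.** Instead of adeles, S47 uses the space `X = (J → H3) × X_f`, where `J` is the set of
infinite places of the totally complex field `K`, `H3` is hyperbolic 3-space and `X_f` is the restricted
product of the coset spaces `PGL₂(K) / U_w` over the finite places (a countable discrete set). The group
`PGL₂(K)` acts on `X`. The trace comparison needs: the quotient has finite volume, the action is properly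
discontinuous, there is a Siegel set, and the number of group elements which move a point near another one is
bounded by a power of the heights. The finite part is treated through lattices: `X_f` maps equivariantly and
with finite fibres to the set of lattices in `K²` modulo fractional ideals. Then everything follows from
Minkowski's theorem, Dirichlet's unit theorem and the finiteness of the class number (all three in Mathlib),
and from the hermitian norms which the points of `H3` define on `ℂ²`.

**Contents.**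
1. The hermitian norm of a point (`H26ZHt`, `H26ZHigh`).
2. Geometry of numbers and units (`H58RMink`, `H58RUnit`, `H58RLines`, `H26ZFin`).
3. Lattices modulo fractional ideals (`H26ZLat`, `H58RStein`, `H26ZLift`, `H58PD0`, `H58PD1`).
4. Siegel sets (`H2ZCov`, `H26ZFin2`, `H26ZSieg`, `H26ZHigh`).
5. Proper discontinuity (`H58PD2`, `H58PD3`).
6. The finite part of the model: levels and their lattices (`H59XF`, `H59Def`, `H64L1` - `H64L4`, `H35BK1`).
7. The model: finite volume, cut-off, counting (`H26ZCut`, `H31I2`, `H31I3`).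

**Used for** S47, block (C) and the dihedral form of block (D). The continuation is `GuideTrace`. The steps
of the proofs are in `GuideSiegelSteps`, for section 6 in `GuideLocalLattices`, and for the counting of
section 7 in `GuideBoundedKernels`.
References in NOTES.md: [407], [454], [457], [475], [481].
-/

set_option autoImplicit false

open scoped nonZeroDivisors MatrixGroups NumberField ENNReal
open MeasureTheory NumberField Matrix IsDedekindDomain

namespace Fermat.Agent.Guide.Siegel

/-! ## 1. The hermitian norm of a point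

A point `w = (z, y)` of `H3` defines the hermitian norm `(|v₀ - z v₁|² + y² |v₁|²) / y` on `ℂ²`. Its
determinant is `1`. High points are those for which `(1, 0)` has small norm `1 / y`. -/

/-- **Equivariance** of the hermitian norm: `‖g v‖_{g w} = |det g| ‖v‖_w` for `g` in `GL₂(ℂ)` (norms without
square root). (`H26ZHt.hh_smul`) -/
theorem hermitian_norm_smul (g : GL (Fin 2) ℂ) (w : H3) (v : Fin 2 → ℂ) :
    (Complex.normSq ((g • v) 0 - (g • w).z * (g • v) 1) +
        Complex.normSq ((g • v) 1) * (g • w).y ^ 2) / (g • w).y =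
      ‖(g : Matrix (Fin 2) (Fin 2) ℂ).det‖ *
        ((Complex.normSq (v 0 - w.z * v 1) + Complex.normSq (v 1) * w.y ^ 2) / w.y) :=
  H26Z.hh_smul g w v

/-- **Hadamard's inequality**: `|det (v, v')|² ≤ ‖v‖_w ‖v'‖_w`. Because of it a point cannot be high in two
different cusps. (`H26ZHt.normSq_det_le`) -/
theorem hadamard (w : H3) (v v' : Fin 2 → ℂ) :
    Complex.normSq (v 0 * v' 1 - v 1 * v' 0) ≤
      (Complex.normSq (v 0 - w.z * v 1) + Complex.normSq (v 1) * w.y ^ 2) / w.y *
        ((Complex.normSq (v' 0 - w.z * v' 1) + Complex.normSq (v' 1) * w.y ^ 2) / w.y) :=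
  H26Z.normSq_det_le w v v'

/-- The norms of two points are comparable: `‖v‖_w ≤ 2 ch(w, w') ‖v‖_{w'}`, where `ch` is the hyperbolic
cosine of the distance. (`H26ZHigh.hh_le_ch`) -/
theorem hermitian_norm_le (w w' : H3) (v : Fin 2 → ℂ) :
    (Complex.normSq (v 0 - w.z * v 1) + Complex.normSq (v 1) * w.y ^ 2) / w.y ≤
      2 * H3.ch w w' *
        ((Complex.normSq (v 0 - w'.z * v 1) + Complex.normSq (v 1) * w'.y ^ 2) / w'.y) :=
  H26Z.hh_le_ch w w' v

/-! ## 2. Geometry of numbers and units

`e : J → (K →+* ℂ)` is a choice of one embedding from each pair of complex conjugate ones (`he`), so that `J`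
is the set of infinite places. -/

/-- **Minkowski's theorem for the lattice `I × I'`, uniformly over `(H3)^J`.** For two nonzero fractional
ideals `I`, `I'` there is one constant `R` such that at every point `(z_j, y_j)_j` the lattice `I × I'`
contains a nonzero vector `(a, b)` with `|e_j a - z_j e_j b|² ≤ R y_j` and `|e_j b|² ≤ R / y_j` for all `j`.
Proof: the convex body is a shear of a product of two standard bodies, hence its volume depends only on the
product of the sizes, and `R` does not depend on the point. (`H58RMink.exists_short`) -/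
theorem minkowski {K : Type*} [Field K] [NumberField K] [IsTotallyComplex K] {J : Type*} [Finite J]
    (e : J → K →+* ℂ) (he : Function.Bijective fun j => InfinitePlace.mk (e j))
    (I I' : (FractionalIdeal (𝓞 K)⁰ K)ˣ) :
    ∃ R : ℝ, 0 < R ∧ ∀ (z : J → ℂ) (y : J → ℝ), (∀ j, 0 < y j) →
      ∃ a ∈ (I : FractionalIdeal (𝓞 K)⁰ K), ∃ b ∈ (I' : FractionalIdeal (𝓞 K)⁰ K),
        (a ≠ 0 ∨ b ≠ 0) ∧
          ∀ j, ‖e j a - z j * e j b‖ ^ 2 ≤ R * y j ∧ ‖e j b‖ ^ 2 ≤ R / y j :=
  H58R.exists_short K e he I I'

/-- **Balancing by units congruent to `1` modulo an ideal.** For every nonzero ideal `n` there is `C` such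
that the coordinates of every positive vector `y` become comparable up to `C` after multiplication by the
squares of the absolute values of a unit `u ≡ 1 mod n`. Dirichlet's unit theorem, applied to powers of
units. (`H58RUnit`, `H58RLines`) -/
theorem balance_by_units {K : Type*} [Field K] [NumberField K] [IsTotallyComplex K] {J : Type*}
    [Fintype J] (e : J → K →+* ℂ) (he : Function.Bijective fun j => InfinitePlace.mk (e j))
    (n : Ideal (𝓞 K)) (hn : n ≠ ⊥) :
    ∃ C : ℝ, 1 ≤ C ∧ ∀ y : J → ℝ, (∀ j, 0 < y j) →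
      ∃ u : (𝓞 K)ˣ, ((u : 𝓞 K) - 1) ∈ n ∧
        ∀ i j : J, ‖e i (u : K)‖ ^ 2 * y i ≤ C * (‖e j (u : K)‖ ^ 2 * y j) :=
  H58R.exists_unit_balanced' K e he n hn

/-- **Translations by a fractional ideal are cocompact on `ℂ^J`.** (`H58RLines.exists_translate`) -/
theorem translations_cocompact {K : Type*} [Field K] [NumberField K] [IsTotallyComplex K]
    {J : Type*} (e : J → K →+* ℂ) (he : Function.Bijective fun j => InfinitePlace.mk (e j))
    (I : (FractionalIdeal (𝓞 K)⁰ K)ˣ) :
    ∃ B : ℝ, 0 ≤ B ∧ ∀ z : J → ℂ, ∃ a ∈ (I : FractionalIdeal (𝓞 K)⁰ K),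
      ∀ j, ‖z j - e j a‖ ≤ B :=
  H58R.exists_translate K e he I

/-- **Finitely many short vectors**: for a lattice `Λ` in `K²` only finitely many `v` in `Λ` have all norms
`‖v‖_{x_j} ≤ B` at a point `x` of the bounded set `c ≤ y_j ≤ Y`, `‖z_j‖ ≤ R`. (`H26ZFin.finite_short`) -/
theorem finite_short {K : Type*} [Field K] [NumberField K] {J : Type*} [Fintype J]
    (e : J → K →+* ℂ) (he : ∀ w : InfinitePlace K, ∃ j, InfinitePlace.mk (e j) = w)
    (Λ : H26Z.Lat (𝓞 K) K) {c : ℝ} (hc : 0 < c) (R Y B : ℝ) :
    {v : Fin 2 → K | v ∈ Λ.M ∧ ∃ x : J → H3, (∀ j, c ≤ (x j).y) ∧ (∀ j, (x j).y ≤ Y) ∧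
      (∀ j, ‖(x j).z‖ ≤ R) ∧
      ∀ j, (Complex.normSq (e j (v 0) - (x j).z * e j (v 1)) +
        Complex.normSq (e j (v 1)) * (x j).y ^ 2) / (x j).y ≤ B}.Finite :=
  H26Z.finite_short he Λ hc R Y B

/-! ## 3. Lattices modulo fractional ideals

`R` is a Dedekind domain with fraction field `K`. `Lat R K` is the set of lattices: finitely generated
`R`-submodules `Λ.M` of `K²` which span `K²`. `LatC R K` is its quotient by multiplication with fractional
ideals, `LatC.mk Λ` the class of `Λ`. On the classes `PGL₂(K)` acts. -/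

/-- The structure `Lat` unfolded: a submodule `M` of `K²` is the module of a lattice if and only if it is
finitely generated and spans `K²`; `GL₂(K)` acts by `g Λ = {g v}`, fractional ideals by multiplication.
(`H26ZLat`) -/
theorem lattice_def {R K : Type*} [CommRing R] [IsDedekindDomain R] [Field K] [Algebra R K]
    [IsFractionRing R K] :
    (∀ M : Submodule R (Fin 2 → K), (∃ Λ : H26Z.Lat R K, Λ.M = M) ↔
      M.FG ∧ Submodule.span K (M : Set (Fin 2 → K)) = ⊤) ∧
    (∀ (g : GL (Fin 2) K) (Λ : H26Z.Lat R K) (v : Fin 2 → K), v ∈ (g • Λ).M ↔ g⁻¹ • v ∈ Λ.M) ∧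
    ∀ (I : (FractionalIdeal R⁰ K)ˣ) (Λ : H26Z.Lat R K),
      (I • Λ).M = ((I : FractionalIdeal R⁰ K) : Submodule R K) • Λ.M :=
  ⟨fun _ => ⟨fun ⟨Λ, h⟩ => h ▸ ⟨Λ.fg, Λ.span_eq⟩, fun h => ⟨⟨_, h.1, h.2⟩, rfl⟩⟩,
    fun _ _ _ => H26Z.Lat.mem_smul, fun _ _ => rfl⟩

/-- Two lattices have the same class if and only if they differ by a fractional ideal; the action of
`PGL₂(K)` on the classes is induced by the action of `GL₂(K)` on the lattices. (`H26ZLat`) -/
theorem lattice_class_def {R K : Type*} [CommRing R] [IsDedekindDomain R] [Field K] [Algebra R K]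
    [IsFractionRing R K] (Λ Λ' : H26Z.Lat R K) (g : GL (Fin 2) K) :
    (H26Z.LatC.mk Λ = H26Z.LatC.mk Λ' ↔ ∃ I : (FractionalIdeal R⁰ K)ˣ, I • Λ' = Λ) ∧
      (ProjGenLinGroup.mk g : PGL(2, K)) • H26Z.LatC.mk Λ = H26Z.LatC.mk (g • Λ) :=
  ⟨H26Z.LatC.mk_eq_mk, rfl⟩

/-- **Steinitz.** A finitely generated submodule `L` of `K²` which spans `K²` is, up to one shear by `β`, a
product of two fractional ideals: `v ∈ L ↔ v₀ - β v₁ ∈ I ∧ v₁ ∈ I'`. (`H58RStein.exists_split`) -/
theorem steinitz {R K : Type*} [CommRing R] [IsDedekindDomain R] [Field K] [Algebra R K]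
    [IsFractionRing R K] (L : Submodule R (Fin 2 → K)) (hL : L.FG)
    (hs : Submodule.span K (L : Set (Fin 2 → K)) = ⊤) :
    ∃ (β : K) (I I' : (FractionalIdeal R⁰ K)ˣ), ∀ v : Fin 2 → K,
      v ∈ L ↔ v 0 - β * v 1 ∈ (I : FractionalIdeal R⁰ K) ∧ v 1 ∈ (I' : FractionalIdeal R⁰ K) :=
  H58R.exists_split L hL hs

/-- **Matrices which map one class to another have, up to scalars, finitely many determinants.** For two
lattices there is a finite set `P` of pairs (fractional ideal, number) such that every `g` in `GL₂(K)` which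
maps the class of `Λ` to the class of `Λ'` has a scalar multiple `c g` with `(c g) Λ = I Λ'` and
`det (c g) = δ` for some `(I, δ)` in `P`. Uses the finiteness of the class number and of the group of units
modulo squares. (`H26ZLift.exists_lifts`) -/
theorem finitely_many_determinants {K : Type*} [Field K] [NumberField K]
    (Λ Λ' : H26Z.Lat (𝓞 K) K) :
    ∃ P : Set ((FractionalIdeal (𝓞 K)⁰ K)ˣ × Kˣ), P.Finite ∧
      ∀ g : GL (Fin 2) K, (ProjGenLinGroup.mk g : PGL(2, K)) • H26Z.LatC.mk Λ = H26Z.LatC.mk Λ' →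
        ∃ (c : Kˣ) (p : (FractionalIdeal (𝓞 K)⁰ K)ˣ × Kˣ), p ∈ P ∧
          (GeneralLinearGroup.scalar (Fin 2) c * g) • Λ = p.1 • Λ' ∧
          GeneralLinearGroup.det (GeneralLinearGroup.scalar (Fin 2) c * g) = p.2 :=
  H26Z.exists_lifts Λ Λ'

/-- **Bounded denominators.** For a finite set `Y₀` of classes there are `d ≠ 0` in `R` and a finite set `D`
of nonzero elements of `K` such that every `g` in `GL₂(K)` with `g y' = y`, `y, y' ∈ Y₀`, has a scalar
multiple `c g` with `d (c g)` integral and `det (c g) ∈ D`. Proof: the class number is finite, so up to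
scalars `g` maps one lattice to one of finitely many; with common denominators `d` of these `g` and `e` of
their inverses `d² det g` divides `d² e²` in `R`, which gives finitely many determinants up to units, and
units are finite modulo squares. (`H58PD1.exists_bound`) -/
theorem bounded_denominators {R K : Type*} [CommRing R] [IsDedekindDomain R] [Field K]
    [Algebra R K] [IsFractionRing R K] [Group.FG Rˣ] [Finite (ClassGroup R)]
    {Y0 : Set (H26Z.LatC R K)} (hY0 : Y0.Finite) :
    ∃ (d : R) (D : Set K), d ≠ 0 ∧ D.Finite ∧ 0 ∉ D ∧ ∀ y ∈ Y0, ∀ y' ∈ Y0,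
      ∀ g : GL (Fin 2) K, g • y' = y → ∃ c : Kˣ,
        (∀ i j, ∃ a : R, algebraMap R K d * (c * g.1 i j) = algebraMap R K a) ∧
        (c : K) ^ 2 * g.1.det ∈ D :=
  H58PD.exists_bound hY0

/-- **The size of a matrix which moves a point `w'` close to a point `w`.** The sum of the squares of the
absolute values of the entries of `g` is at most `2 ch(w, g w') |det g| · 2 ch(w, o) · 2 ch(w', o)`, where
`o = (0, 1)` is the base point. (`H58PD0.fr_le`) -/
theorem matrix_size (g : GL (Fin 2) ℂ) (w w' : H3) :
    ‖g.1 0 0‖ ^ 2 + ‖g.1 0 1‖ ^ 2 + ‖g.1 1 0‖ ^ 2 + ‖g.1 1 1‖ ^ 2 ≤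
      2 * H3.ch w (g • w') * ‖(g : Matrix (Fin 2) (Fin 2) ℂ).det‖ *
        (2 * H3.ch w H3.base) * (2 * H3.ch w' H3.base) :=
  H58PD.fr_le g w w'

/-! ## 4. Siegel sets

`Y` is any set with an action of `PGL₂(K)` and an equivariant map `π` to the classes of lattices; in the
application it is the finite part of the model. `PGL₂(K)` acts on `J → H3` through the embeddings `e_j`. -/

/-- **Covering by a Siegel set** (`π` with finite fibres). There are a finite set `Y₀ ⊂ Y` and `c, C, R > 0`
such that every point of `(H3)^J × Y` is equivalent to one with finite part in `Y₀`, all heights at least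
`c`, ratios of heights at most `C`, and first coordinates bounded by `R`. Proof: Minkowski's theorem gives a
short vector; lattices with a given vector are standard up to finitely many ideal classes; units balance
the heights, translations the first coordinates. (`H2ZCov.exists_cover`) -/
theorem covering {K : Type*} [Field K] [NumberField K] [IsTotallyComplex K]
    {J : Type*} [Fintype J] (e : J → K →+* ℂ)
    (he : Function.Bijective fun j => InfinitePlace.mk (e j))
    {Y : Type*} [MulAction PGL(2, K) Y] (π : Y → H26Z.LatC (𝓞 K) K)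
    (hπ : ∀ (g : PGL(2, K)) (y : Y), π (g • y) = g • π y)
    (hfib : ∀ l : H26Z.LatC (𝓞 K) K, {y | π y = l}.Finite) :
    ∃ (Y₀ : Set Y) (c C R : ℝ), Y₀.Finite ∧ 0 < c ∧ 0 < C ∧ 0 < R ∧
      ∀ (x : J → H3) (y : Y), ∃ g : PGL(2, K),
        ((∀ j, c ≤ ((ProjGenLinGroup.map (e j) g : PGL(2, ℂ)) • x j).y) ∧
        (∀ j k, ((ProjGenLinGroup.map (e j) g : PGL(2, ℂ)) • x j).y ≤
          C * ((ProjGenLinGroup.map (e k) g : PGL(2, ℂ)) • x k).y) ∧
        ∀ j, ‖((ProjGenLinGroup.map (e j) g : PGL(2, ℂ)) • x j).z‖ ≤ R) ∧ g • y ∈ Y₀ :=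
  H2Z.exists_cover e he π hπ hfib

/-- A **Siegel set** has finite volume. (`H26ZSieg.volume_siegel_lt_top`) -/
theorem siegel_volume {J : Type*} [Fintype J] {c : ℝ} (hc : 0 < c) (C R : ℝ) :
    volume {x : J → H3 | (∀ j, c ≤ (x j).y) ∧ (∀ j k, (x j).y ≤ C * (x k).y) ∧
      ∀ j, ‖(x j).z‖ ≤ R} < ⊤ :=
  H26Z.volume_siegel_lt_top hc C R

/-- **The finiteness property of Siegel sets**: an orbit meets the product of a Siegel set with a finite set
`Y₀` for only finitely many group elements. Proof: the inverse of such a matrix maps two fixed vectors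
`(a, 0)`, `(0, b)` to short vectors of a lattice; there are finitely many of them for each of the finitely
many determinants. (`H26ZFin2`, `H26ZSieg.finite_siegel`) -/
theorem siegel_finite {K : Type*} [Field K] [NumberField K] {J : Type*} [Fintype J]
    (e : J → K →+* ℂ) (he : ∀ w : InfinitePlace K, ∃ j, InfinitePlace.mk (e j) = w)
    {Y : Type*} [MulAction PGL(2, K) Y] (π : Y → H26Z.LatC (𝓞 K) K)
    (hπ : ∀ (g : PGL(2, K)) (y : Y), π (g • y) = g • π y) {Y₀ : Set Y} (hY₀ : Y₀.Finite)
    (x : J → H3) (y : Y) {c : ℝ} (hc : 0 < c) (C R : ℝ) :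
    {g : PGL(2, K) | (fun j => (ProjGenLinGroup.map (e j) g : PGL(2, ℂ)) • x j) ∈
      {x : J → H3 | (∀ j, c ≤ (x j).y) ∧ (∀ j k, (x j).y ≤ C * (x k).y) ∧ ∀ j, ‖(x j).z‖ ≤ R} ∧
      g • y ∈ Y₀}.Finite :=
  H26Z.finite_siegel he π hπ hY₀ x y hc C R

/-- **High points are moved only by upper triangular matrices.** If `w` and `g w'` are at bounded distance,
the finite parts lie in finite sets and the product of all heights of `w` and `w'` is larger than a constant
`T`, then the lower left entry of `g` is zero. Proof: it is the determinant of `(1, 0)` and `g (1, 0)`; apply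
`hadamard` and `hermitian_norm_le` at every place; the norm of a nonzero element of a fractional ideal is
bounded below. This replaces the theory of cusps and their disjoint neighbourhoods. (`H26ZHigh.high`) -/
theorem high_points {K : Type*} [Field K] [NumberField K] [IsTotallyComplex K]
    {J : Type*} [Fintype J]
    (e : J → K →+* ℂ) (he : Function.Bijective fun j => InfinitePlace.mk (e j))
    {Y : Type*} [MulAction PGL(2, K) Y] (π : Y → H26Z.LatC (𝓞 K) K)
    (hπ : ∀ (g : PGL(2, K)) y, π (g • y) = g • π y) {Y₀ Y₁ : Set Y} (hY₀ : Y₀.Finite)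
    (hY₁ : Y₁.Finite) (R : ℝ) :
    ∃ T : ℝ, 0 ≤ T ∧ ∀ (g : GL (Fin 2) K) (w w' : J → H3) (y' : Y), y' ∈ Y₁ →
      ProjGenLinGroup.mk g • y' ∈ Y₀ →
      (∀ j, H3.ch (w j) ((ProjGenLinGroup.map (e j) (ProjGenLinGroup.mk g) : PGL(2, ℂ)) • w' j) ≤
        R) →
      T < (∏ j, (w j).y) * ∏ j, (w' j).y → g 1 0 = 0 :=
  H26Z.high e he π hπ hY₀ hY₁ R

/-! ## 5. Proper discontinuity -/

/-- **Proper discontinuity.** For classes `y`, `y'`, points `w`, `w'` and `R`, only finitely many `g` in
`PGL₂(K)` satisfy `g y' = y` and `ch(w_j, g w'_j) ≤ R` for all `j`. By `bounded_denominators` and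
`matrix_size` such a `g` is represented by a matrix with bounded denominators and bounded absolute values.
(`H58PD2.finite_latC`) -/
theorem proper_discontinuity {K : Type*} [Field K] [NumberField K] {J : Type*} [Fintype J]
    (e : J → K →+* ℂ) (he : Function.Bijective fun j => InfinitePlace.mk (e j))
    (y y' : H26Z.LatC (𝓞 K) K) (w w' : J → H3) (R : ℝ) :
    {g : PGL(2, K) | g • y' = y ∧
      ∀ j, H3.ch (w j) ((ProjGenLinGroup.map (e j) g : PGL(2, ℂ)) • w' j) ≤ R}.Finite :=
  H58PD.finite_latC e he y y' w w' R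

/-! ## 6. The finite part of the model

A **level** `L` over a number field `K` consists of subgroups `U_w = L.U w` of `PGL₂(K)`, one for each finite
place `w`; `XF L.fam` is the restricted product of the sets `PGL₂(K) / U_w`. -/

/-- **What a level is.** Almost all `U_w` are equal to `U0 w`, the image of `GL₂` of the local ring at `w`;
every `U_w` is open (contains the image `Gam w n` of a principal congruence subgroup) and bounded (conjugate
to a subgroup of `U0 w`). (`H59Def.Level`) -/
theorem level_fields {K : Type*} [Field K] [NumberField K] (L : H59D.Level (𝓞 K) K) :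
    {w | L.U w ≠ H59D.U0 w}.Finite ∧ (∀ w, ∃ n : ℕ, H59D.Gam w n ≤ L.U w) ∧
      ∀ w, ∃ c : PGL(2, K), ∀ g ∈ L.U w, c⁻¹ * g * c ∈ H59D.U0 w :=
  ⟨L.fin, L.isOpen, L.bdd⟩

/-- The groups `U0 w` and `Gam w n` unfolded: classes of matrices whose entries are integral at `w` and whose
determinant is a unit at `w`; for `Gam w n` the matrix is moreover congruent to `1` modulo `w^n`.
(`H59Def`; `exp (-n)` is the value of `w^n` in the value group) -/
theorem local_groups {K : Type*} [Field K] [NumberField K] (w : HeightOneSpectrum (𝓞 K)) (n : ℕ)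
    (g : PGL(2, K)) :
    (g ∈ H59D.U0 w ↔ ∃ h : GL (Fin 2) K, ((∀ i j, w.valuation K (h i j) ≤ 1) ∧
      w.valuation K (h : Matrix (Fin 2) (Fin 2) K).det = 1) ∧ ProjGenLinGroup.mk h = g) ∧
    (g ∈ H59D.Gam w n ↔ ∃ h : GL (Fin 2) K, (((∀ i j, w.valuation K (h i j) ≤ 1) ∧
      w.valuation K (h : Matrix (Fin 2) (Fin 2) K).det = 1) ∧
      ∀ i j, w.valuation K ((h : Matrix (Fin 2) (Fin 2) K) i j -
        (1 : Matrix (Fin 2) (Fin 2) K) i j) ≤ WithZero.exp (-(n : ℤ))) ∧
      ProjGenLinGroup.mk h = g) :=
  ⟨Iff.rfl, Iff.rfl⟩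

/-- **Points of the finite part**: a family of cosets is a point of `XF L.fam` if and only if it is the
trivial coset at almost all places; the group acts place by place. (`H59XF`) -/
theorem finite_part_points {K : Type*} [Field K] [NumberField K] (L : H59D.Level (𝓞 K) K)
    (f : (w : HeightOneSpectrum (𝓞 K)) → PGL(2, K) ⧸ L.fam.U w) :
    ((∃ x : H59XF.XF L.fam, ∀ w, x w = f w) ↔
      {w | f w ≠ ((1 : PGL(2, K)) : PGL(2, K) ⧸ L.fam.U w)}.Finite) ∧
    ∀ (g : PGL(2, K)) (x : H59XF.XF L.fam) (w : HeightOneSpectrum (𝓞 K)), (g • x) w = g • x w :=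
  ⟨⟨fun ⟨x, h⟩ => (funext h : x.val = f) ▸ x.fin, fun h => ⟨⟨f, h⟩, fun _ => rfl⟩⟩,
    fun _ _ _ => rfl⟩

/-- **The finite part maps to classes of lattices**, equivariantly and with finite fibres. So everything
which is proved for lattices in sections 4 and 5 holds for the model of every level. Proof: lattices are
determined by their localisations, and a bounded group fixes a lattice. (`H64L1` - `H64L4`) -/
theorem exists_equivariant_map_to_lattices {K : Type*} [Field K] [NumberField K]
    (L : H59D.Level (𝓞 K) K) :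
    ∃ f : H59XF.XF L.fam → H26Z.LatC (𝓞 K) K,
      (∀ (g : PGL(2, K)) (x : H59XF.XF L.fam), f (g • x) = g • f x) ∧
      ∀ z : H26Z.LatC (𝓞 K) K, {x | f x = z}.Finite :=
  ⟨H64L.lat L, H64L.lat_smul L, H64L.finite_fiber_numberField L⟩

/-- **A principal congruence subgroup fixes a finite set of points of the finite part.** For a finite set `Y₀`
there is a nonzero ideal `n` such that every matrix in `GL₂(𝓞 K)` which is congruent to `1` modulo `n` fixes
every point of `Y₀`. (`H35BK1.exists_ideal_fix`) -/
theorem congruence_subgroup_fixes {K : Type*} [Field K] [NumberField K] (L : H59D.Level (𝓞 K) K)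
    {Y0 : Set (H59XF.XF L.fam)} (hY0 : Y0.Finite) :
    ∃ n : Ideal (𝓞 K), n ≠ ⊥ ∧ ∀ h : GL (Fin 2) (𝓞 K),
      (∀ i j, (h : Matrix (Fin 2) (Fin 2) (𝓞 K)) i j -
        (1 : Matrix (Fin 2) (Fin 2) (𝓞 K)) i j ∈ n) → ∀ η ∈ Y0,
      (ProjGenLinGroup.mk (GeneralLinearGroup.map (algebraMap (𝓞 K) K) h) : PGL(2, K)) • η = η :=
  H35BK.exists_ideal_fix L hY0

/-! ## 7. The model: finite volume, cut-off, counting

A **model** `m : Model K J` consists of embeddings `m.e j` (`j` in `J`), one for each infinite place of `K`,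
all of them complex, and a level `m.L`. Its space is `m.X = (J → H3) × XF m.L.fam` with the measure `m.μ`
(hyperbolic volume times counting measure); `m.actInf g w` is the action on the first factor. -/

/-- The action on the model, unfolded, preserves the measure. (`H59Def`, `H59Def2`) -/
theorem model_action {K : Type*} [Field K] [NumberField K] {J : Type*} [Fintype J]
    (m : H59D.Model K J) (g : PGL(2, K)) :
    (∀ (x : m.X) (j : J), (g • x).1 j = (ProjGenLinGroup.map (m.e j) g : PGL(2, ℂ)) • x.1 j) ∧
      (∀ x : m.X, (g • x).2 = g • x.2) ∧ MeasurePreserving (fun x : m.X => g • x) m.μ m.μ :=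
  ⟨fun _ _ => rfl, fun _ => rfl, m.measurePreserving_smul' g⟩

/-- **Balancing.** For a finite set `Y₀` there are `B`, `R` such that for every `η` in `Y₀` and every `w` some
`g` in `PGL₂(K)` fixes `η`, preserves the product of the heights, makes all heights comparable and all
`‖z_j‖ ≤ R`. By `balance_by_units` (`g = diag(u², 1)`) and translations by an ideal. (`H35BK1.bal`) -/
theorem balancing {K : Type*} [Field K] [NumberField K] {J : Type*} [Fintype J] [Nonempty J]
    (m : H59D.Model K J) {Y0 : Set (H59XF.XF m.L.fam)} (hY0 : Y0.Finite) :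
    ∃ B R : ℝ, 1 ≤ B ∧ 0 ≤ R ∧ ∀ η ∈ Y0, ∀ w : J → H3, ∃ g : PGL(2, K), g • η = η ∧
      ∏ j, (m.actInf g w j).y = ∏ j, (w j).y ∧
      (∀ i j, (m.actInf g w i).y ≤ B * (m.actInf g w j).y) ∧
      (∀ j, (∏ i, (w i).y) ^ (1 / (Fintype.card J : ℝ)) ≤ B * (m.actInf g w j).y) ∧
      ∀ j, ‖(m.actInf g w j).z‖ ≤ R :=
  H35BK.bal m hY0

/-- **Finite volume.** There is a set `S` of finite measure in `m.X` (a Siegel set times a finite set) which
meets every orbit, and every orbit meets it for finitely many group elements only. (`H26ZCut`) -/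
theorem finite_volume {K : Type*} [Field K] [NumberField K] {J : Type*} [Fintype J]
    (m : H59D.Model K J) :
    ∃ S : Set m.X, MeasurableSet S ∧ (∀ x, ∃ g : PGL(2, K), g • x ∈ S) ∧
      (∀ x, {g : PGL(2, K) | g • x ∈ S}.Finite) ∧ m.μ S < ⊤ := by
  obtain ⟨Y₀, c, C, R, hY₀, hc, -, -, h⟩ := H26Z.exists_covers m
  exact ⟨H26Z.sset m c C R Y₀, H26Z.measurableSet_sset m c C R Y₀, h, H26Z.finite_sset m hc C R hY₀,
    H26Z.μ_sset_lt_top m hc C R hY₀⟩

/-- **A cut-off of finite total mass**: a measurable function `χ ≥ 0` on `m.X` with `∑_g χ(g x) = 1` for every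
`x` and `∫ χ dμ < ∞`. It replaces a fundamental domain: the integral over the quotient of an invariant
function `F` is `∫ χ F dμ`. (`H26ZCut.exists_cutOff`; the calculus of cut-offs is in `GuideTrace`) -/
theorem exists_cutOff {K : Type*} [Field K] [NumberField K] {J : Type*} [Fintype J]
    (m : H59D.Model K J) :
    ∃ χ : m.X → ℝ≥0∞, Measurable χ ∧ (∀ x, ∑' g : PGL(2, K), χ (g • x) = 1) ∧
      ∫⁻ x, χ x ∂m.μ < ⊤ := by
  obtain ⟨χ, h⟩ := H26Z.exists_cutOff m
  exact ⟨χ.χ, χ.meas, χ.sum_eq, by simpa [H32Z.CutOff.ν] using h.measure_univ_lt_top⟩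

/-- **Proper discontinuity on the model**, uniformly when the discrete coordinates run through finite sets and
the points move in balls. (`H58PD3.pd_ball`) -/
theorem proper_discontinuity_model {K : Type*} [Field K] [NumberField K] {J : Type*} [Fintype J]
    (m : H59D.Model K J) {S S' : Set (H59XF.XF m.L.fam)}
    (hS : S.Finite) (hS' : S'.Finite) (w w' : J → H3) (R T : ℝ) :
    {g : PGL(2, K) | (∃ y' ∈ S', g • y' ∈ S) ∧ ∃ v v' : J → H3,
      (∀ j, H3.ch (w j) (v j) ≤ T) ∧ (∀ j, H3.ch (w' j) (v' j) ≤ T) ∧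
      ∀ j, H3.ch (v j) (m.actInf g v' j) ≤ R}.Finite :=
  H58PD.pd_ball m hS hS' w w' R T

/-- **Counting.** For points `η`, `η'` of the finite part and `c > 0` the number of group elements which map
`η'` to `η` and move `w'` into the ball `ch ≤ T` around `w` (in every coordinate) is at most
`M (ht w · ht w')^4`, `ht w = ∏ y_j`, uniformly for `y_j, y'_j ≥ c`. Proof: translations which fix `η`, `η'`
make the coordinates `z_j` bounded; by `finitely_many_determinants` the elements are represented by matrices
whose entries are, up to one common denominator, integers of `K`, and as in `matrix_size` these satisfy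
`|e_j a|² ≤ M y_j y'_j`; now `integers_in_box` of `GuideTrace`. The exponent does not matter.
(`H31I2.count_abs`, `H95S3.count_le`, `H31I3.count`) -/
theorem counting {K : Type*} [Field K] [NumberField K] {J : Type*} [Fintype J]
    (m : H59D.Model K J) (η η' : H59XF.XF m.L.fam) (T : ℝ) {c : ℝ} (hc : 0 < c) :
    ∃ M : ℝ, 0 ≤ M ∧ ∀ w w' : J → H3, (∀ j, c ≤ (w j).y) → (∀ j, c ≤ (w' j).y) →
      {g : PGL(2, K) | g • η' = η ∧ ∀ j, H3.ch (w j) (m.actInf g w' j) ≤ T}.Finite ∧
        (({g : PGL(2, K) | g • η' = η ∧ ∀ j, H3.ch (w j) (m.actInf g w' j) ≤ T}).ncard : ℝ) ≤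
          M * ((∏ j, (w j).y) * ∏ j, (w' j).y) ^ (4 : ℝ) :=
  H31I.count m η η' T hc

/-- **Crude bound of automorphic kernels.** Let `k` be a bounded kernel of finite range on the model:
`|k| ≤ B`; `k(x, y) ≠ 0` only if `ch ≤ T` at every infinite place; every `η` has finitely many neighbours
`η'`. Then `∑_g k(x, g x')` is at most `M (ht w · ht w')^4` for `y_j, y'_j ≥ c`, if the finite parts of `x`,
`x'` lie in a finite set: sum over the finitely many neighbours of `counting`. (`H31I3.crude_tsum`) -/
theorem crude_bound {K : Type*} [Field K] [NumberField K] {J : Type*} [Fintype J]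
    (m : H59D.Model K J) {k : (J → H3) × H59XF.XF m.L.fam → (J → H3) × H59XF.XF m.L.fam → ℂ}
    {T B : ℝ} (hB : ∀ x y, ‖k x y‖ ≤ B)
    (hT : ∀ x y, k x y ≠ 0 → ∀ j, H3.ch (x.1 j) (y.1 j) ≤ T)
    (hfin : ∀ η : H59XF.XF m.L.fam,
      {η' : H59XF.XF m.L.fam | ∃ w w' : J → H3, k (w, η) (w', η') ≠ 0}.Finite)
    {Y₀ : Set (H59XF.XF m.L.fam)} (hY₀ : Y₀.Finite) :
    ∀ c > (0 : ℝ), ∃ M, ∀ η ∈ Y₀, ∀ η' ∈ Y₀, ∀ w w' : J → H3,
      (∀ j, c ≤ (w j).y) → (∀ j, c ≤ (w' j).y) →
        ‖∑' g : PGL(2, K), k (w, η) (m.actInf g w', g • η')‖ ≤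
          M * ((∏ j, (w j).y) * ∏ j, (w' j).y) ^ (4 : ℝ) :=
  H31I.crude_tsum ⟨hB, hT, hfin⟩ hY₀

end Fermat.Agent.Guide.Siegel
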