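import Fermat.Agent.H47RGamP

/-!
# Guide: reduction theory for `SL₂(ℤ[ω])` on hyperbolic 3-space

Companion of `GuideOctT` (block (T) of S47, section 3): the steps behind `GuideOctT.reduction` and
`GuideOctT.exists_cut`.  Everything here is used in S47 (the octahedral case of Langlands-Tunnell).

**Setting.** `H3` is the space of the points `w = (z, y)`, `z` complex, `y > 0`, with the invariant measure
`dz dy / y³`; `GL₂(ℂ)` acts through `PGL₂(ℂ)`.  `O` is a subring of `ℂ` with the two properties `EucOrder`;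
for instance `O = ℤ[ω]`, written `Eis`.  `SLO O` is the group `SL₂(O)`, as a subgroup of `GL₂(ℂ)`, and
`D c d w = |c z + d|² + |c|² y²`.  `S0` is the set `|z|² ≤ 1/3`, `|z|² + y² ≥ 1`, and `Sieg R t` is the
Siegel set `|z|² ≤ R`, `y ≥ t`.

**Method.** No quotient space is formed.  An integral over `Γ \ H3` is an integral over `H3` against a
*cut-off function*, a measurable `χ ≥ 0` with `∑ χ(γ w) = 1`, the sum over all `γ ∈ Γ`.  So one needs:
cut-off functions exist, they are integrable, and `χ f` is integrable for invariant `f` of moderate growth.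
The class number one of `ℤ[ω]` enters through the Euclidean algorithm: there is one cusp, and the height of
a point is the largest `y` in its orbit under `SL₂(ℤ[ω])`.

**Reading order.** 1 Euclidean rings (`H47RBase`, `H47RCong`).  2 The height (`H47RBase`, `H47RSiegel`).
3 Siegel sets (`H47RSiegel`, `H47RInt`).  4 Subgroups of finite index and cut-off functions (`H47RInt`,
`H47RCong`, `H47RGamP`).  5 Integrability (`H47RInt`, `H47RCong`).  Notes: NOTES.md [424].  Written by
helper47.
-/

set_option autoImplicit false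

open MeasureTheory Matrix Complex
open scoped ComplexConjugate Real ENNReal

noncomputable section

namespace Fermat.Agent.Guide.SiegelSets

open Fermat.Agent Fermat.Agent.H47.Red Fermat.Agent.S47T

/-! ## 1. Euclidean rings -/

/-- **`ℤ[ω]` is norm Euclidean**: nonzero elements have absolute value at least `1`, and every complex
number is at squared distance at most `1/3` of `ℤ[ω]` (the covering radius of the hexagonal lattice).
These two properties are the structure `EucOrder`; reduction theory uses nothing else. -/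
theorem eisenstein_euclidean :
    (∀ a ∈ Eis, a ≠ 0 → 1 ≤ normSq a) ∧ ∀ z : ℂ, ∃ a ∈ Eis, normSq (z - a) ≤ 1 / 3 :=
  ⟨eucOrder_Eis.one_le, eucOrder_Eis.cover⟩

variable {O : Subring ℂ}

/-- **Discreteness**: a disc contains only finitely many elements of `O`. -/
theorem finite_in_disc (hO : EucOrder O) (R : ℝ) : {a : ℂ | a ∈ O ∧ normSq a ≤ R}.Finite :=
  hO.finite_normSq R

/-- **Greatest common divisors.**  Two elements `c`, `d` of `O`, not both zero, have a common divisor
`e = x c + y d` with `x`, `y` in `O`: take a nonzero `e` of this form of smallest absolute value. -/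
theorem exists_gcd (hO : EucOrder O) {c d : ℂ} (hc : c ∈ O) (hd : d ∈ O) (h0 : ¬ (c = 0 ∧ d = 0)) :
    ∃ e ∈ O, e ≠ 0 ∧ (∃ x ∈ O, ∃ y ∈ O, e = x * c + y * d) ∧
      (∃ c' ∈ O, c = e * c') ∧ ∃ d' ∈ O, d = e * d' :=
  hO.exists_gcd hc hd h0

/-! ## 2. The height -/

/-- **The action on the coordinate `y`**: for `g ∈ SL₂(O)` with bottom row `(c, d)` the point `g w` has
`y`-coordinate `y / D c d w`, `D c d w = |c z + d|² + |c|² y²`. -/
theorem height_of_image {g : GL (Fin 2) ℂ} (hg : g ∈ SLO O) (w : H3) :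
    (g • w).y = w.y / D (g 1 0) (g 1 1) w :=
  smul_y_of_mem hg w

/-- **Smallest bottom row.**  For every point `w` there is `g ∈ SL₂(O)` whose bottom row minimises `D`
among all pairs `(c, d) ≠ (0, 0)` of elements of `O`.  Proof: only finitely many pairs have `D` below a
given bound (`finite_pairs`), and a minimal pair has greatest common divisor a unit, hence is a bottom
row. -/
theorem exists_minimal_row (hO : EucOrder O) (w : H3) : ∃ g ∈ SLO O,
    ∀ c ∈ O, ∀ d ∈ O, ¬ (c = 0 ∧ d = 0) → H3.den g w ≤ D c d w :=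
  hO.exists_min w

/-- **Finitely many pairs** `(c, d)` satisfy `|c z + d|² + |c|² y² ≤ K`. -/
theorem finite_pairs (hO : EucOrder O) (w : H3) (K : ℝ) :
    {p : ℂ × ℂ | p.1 ∈ O ∧ p.2 ∈ O ∧ D p.1 p.2 w ≤ K}.Finite :=
  hO.finite_D w K

/-- **The height** `ht O w` is the largest `y`-coordinate in the orbit of `w` under `SL₂(O)`; it is
attained, and it is invariant. -/
theorem height_attained (hO : EucOrder O) (w : H3) :
    (∃ g ∈ SLO O, (g • w).y = ht O w) ∧ (∀ g ∈ SLO O, (g • w).y ≤ ht O w) ∧
      ∀ g ∈ SLO O, ht O (g • w) = ht O w :=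
  ⟨hO.exists_ht w, fun _ hg => hO.le_ht hg w, fun _ hg => ht_smul hg w⟩

/-- **Reduction**: every orbit meets `S0` (`|z|² ≤ 1/3`, `|z|² + y² ≥ 1`), in a point of maximal height.
Proof: translate a point of maximal height by an element of `O`; if `|z|² + y²` were less than `1`, the
matrix with bottom row `(1, 0)` would increase the height. -/
theorem exists_reduced (hO : EucOrder O) (w : H3) : ∃ g ∈ SLO O, g • w ∈ S0 ∧ (g • w).y = ht O w :=
  hO.exists_mem_S0 w

/-- **The height is bounded below**: `2/3 ≤ (ht O w)²`. -/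
theorem height_lower_bound (hO : EucOrder O) (w : H3) : 2 / 3 ≤ ht O w ^ 2 :=
  hO.ht_sq_ge w

/-- **The height is at most `max y (1/y)`**: for `c ≠ 0` one has `D c d w ≥ y²`, and for `c = 0`, `d ≠ 0`
one has `D c d w ≥ 1`. -/
theorem height_upper_bound (hO : EucOrder O) (w : H3) : ht O w ≤ max w.y (1 / w.y) :=
  hO.ht_le w

/-! ## 3. Siegel sets -/

/-- `S0` is contained in the Siegel set `|z|² ≤ 1/3`, `y ≥ 4/5` (since `y² ≥ 2/3 ≥ 16/25` there), and on a
Siegel set the height is comparable with `y`. -/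
theorem siegel_sets (hO : EucOrder O) :
    S0 ⊆ Sieg (1 / 3) (4 / 5) ∧ ∀ {R t : ℝ}, 0 < t → ∀ {w : H3}, w ∈ Sieg R t →
      ht O w ≤ max 1 (1 / t ^ 2) * w.y :=
  ⟨S0_subset, fun ht0 _ hw => hO.ht_le_of_mem ht0 hw⟩

/-- **Siegel finiteness.**  Only finitely many elements of `SL₂(O)` map some point of a Siegel set into the
same Siegel set.  Proof for `g` with rows `(a, b)` and `(c, d)`: if `c ≠ 0`, then `t ≤ y / D c d w` bounds
`y` and the entries `c`, `d`, the same estimate for the inverse bounds `a`, and the determinant bounds `b`;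
if `c = 0`, then `a` and `d` are units, `|a| = |d| = 1`, and the two conditions on `|z|²` bound `b`. -/
theorem siegel_finiteness (hO : EucOrder O) {R t : ℝ} (ht0 : 0 < t) :
    {g : GL (Fin 2) ℂ | g ∈ SLO O ∧ ∃ w ∈ Sieg R t, g • w ∈ Sieg R t}.Finite :=
  hO.finite_Sieg ht0

/-- **Orbits meet a Siegel set in finitely many points**: for every `w` only finitely many `g ∈ SL₂(O)` map
`w` into `Sieg R t`. -/
theorem orbit_finiteness (hO : EucOrder O) {R t : ℝ} (ht0 : 0 < t) (w : H3) :
    {g : GL (Fin 2) ℂ | g ∈ SLO O ∧ g • w ∈ Sieg R t}.Finite :=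
  hO.finite_smul_mem ht0 w

/-- **Finite volume.**  `∫ y^a dz dy / y³` over a Siegel set is finite for `a < 2`. -/
theorem siegel_volume (R : ℝ) {t a : ℝ} (ht0 : 0 < t) (ha : a < 2) :
    ∫⁻ w in Sieg R t, ENNReal.ofReal (w.y ^ a) < ∞ :=
  lintegral_Sieg_lt_top R ht0 ha

/-! ## 4. Subgroups of finite index and cut-off functions -/

/-- *Finite index* (`FinIdx O Γ`): `Γ` is contained in `SL₂(O)`, which is a finite union of cosets
`δ Γ`. -/
theorem finIdx_iff (O : Subring ℂ) (Γ : Subgroup (GL (Fin 2) ℂ)) : FinIdx O Γ ↔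
    Γ ≤ SLO O ∧ ∃ T : Finset (GL (Fin 2) ℂ), (∀ δ ∈ T, δ ∈ SLO O) ∧
      ∀ g ∈ SLO O, ∃ δ ∈ T, ∃ γ ∈ Γ, g = δ * γ := Iff.rfl

/-- **Congruence subgroups have finite index.**  `PrG O N` is the principal congruence subgroup of level
`N ≠ 0`.  Proof: `O/N` is finite (by division with remainder every class has a representative with
`|a|² ≤ |N|²/3`), and matrices which are congruent modulo `N` lie in the same coset. -/
theorem congruence_subgroups (hO : EucOrder O) {N : O} (hN : (N : ℂ) ≠ 0)
    {Γ : Subgroup (GL (Fin 2) ℂ)} (h1 : PrG O N ≤ Γ) (h2 : Γ ≤ SLO O) : FinIdx O Γ :=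
  hO.finIdx_of_le hN h1 h2

/-- **The groups of block (T)**: `Gam N` (the matrices of `SL₂(ℤ[ω])` whose lower left entry is divisible
by `N`) and `GamP m` (the principal congruence subgroup of level `m`) have finite index in
`SL₂(ℤ[ω]) = Gam 1`. -/
theorem finite_index {N m : ℕ} (hN : N ≠ 0) (hm : m ≠ 0) :
    Gam 1 = SLO Eis ∧ FinIdx Eis (Gam N) ∧ FinIdx Eis (GamP m) :=
  ⟨Gam_one, finIdx_Gam hN, finIdx_GamP hm⟩

/-- **Cut-off functions from a set.**  `S` is a measurable set which meets the orbit of every point, for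
which the set of the `γ ∈ Γ` with `γ w ∈ S` is finite for every `w`.  Then the characteristic function of
`S`, divided by the number of these `γ`, is a cut-off function (`IsCutoff`) with values `≤ 1` which
vanishes outside `S`. -/
theorem cutoff_of_set {Γ : Subgroup (GL (Fin 2) ℂ)} [Countable Γ] {S : Set H3}
    (hS : MeasurableSet S) (h1 : ∀ w, ∃ γ : Γ, (γ : GL (Fin 2) ℂ) • w ∈ S)
    (h2 : ∀ w, {γ : Γ | (γ : GL (Fin 2) ℂ) • w ∈ S}.Finite) :
    ∃ χ : H3 → ℝ, IsCutoff Γ χ ∧ (∀ w, χ w ≤ 1) ∧ ∀ w, w ∉ S → χ w = 0 :=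
  exists_cutoff_of_set hS h1 h2

/-- **Existence.**  A subgroup of finite index has a cut-off function with values `≤ 1` which vanishes
outside a finite union of translates of `S0`: apply `cutoff_of_set` to the union of the `δ⁻¹ S0`, `δ` in a
set of representatives of the cosets. -/
theorem exists_cutoff (hO : EucOrder O) {Γ : Subgroup (GL (Fin 2) ℂ)} (hΓ : FinIdx O Γ) :
    ∃ χ : H3 → ℝ, IsCutoff Γ χ ∧ (∀ w, χ w ≤ 1) ∧
      ∃ T : Finset (GL (Fin 2) ℂ), (∀ δ ∈ T, δ ∈ SLO O) ∧ ∀ w, χ w ≠ 0 → ∃ δ ∈ T, δ • w ∈ S0 :=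
  hO.exists_cutoff hΓ

/-! ## 5. Integrability -/

/-- **Comparison.**  `χ` is a cut-off function of the countable group `Γ` and `ψ ≥ 0` a measurable function
with `∑ ψ(γ w) ≥ 1`.  Then `∫ χ F ≤ ∫ ψ F` for every invariant measurable `F ≥ 0`: insert `∑ ψ(γ w)` on the
left and exchange sum and integral, using the invariance of the measure.  With `ψ` the characteristic
function of a set which meets all orbits this reduces integrals against an arbitrary cut-off function to
integrals over the translates of `S0`. -/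
theorem comparison {Γ : Subgroup (GL (Fin 2) ℂ)} [Countable Γ] {χ : H3 → ℝ} (hχ : IsCutoff Γ χ)
    {ψ : H3 → ℝ≥0∞} (hψ : Measurable ψ) (h1 : ∀ w, 1 ≤ ∑' g : Γ, ψ ((g : GL (Fin 2) ℂ) • w))
    {F : H3 → ℝ≥0∞} (hF : Measurable F) (hinv : ∀ g ∈ Γ, ∀ w, F (g • w) = F w) :
    ∫⁻ w, ENNReal.ofReal (χ w) * F w ≤ ∫⁻ w, ψ w * F w :=
  hχ.lintegral_le hψ h1 hF hinv

/-- **Integrals of powers of the height** against a cut-off function are finite for exponents `a < 2`. -/
theorem height_integral (hO : EucOrder O) {Γ : Subgroup (GL (Fin 2) ℂ)} (hΓ : FinIdx O Γ)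
    {χ : H3 → ℝ} (hχ : IsCutoff Γ χ) {a : ℝ} (ha : a < 2) :
    ∫⁻ w, ENNReal.ofReal (χ w) * ENNReal.ofReal (ht O w ^ a) < ∞ :=
  hO.lintegral_cut_lt_top hΓ hχ ha

/-- **Integrability criterion.**  If `|f| ≤ C ht^a` with `a < 2`, then `χ f` is integrable for every
cut-off function `χ` of a subgroup of finite index. -/
theorem integrable_of_height_bound (hO : EucOrder O) {Γ : Subgroup (GL (Fin 2) ℂ)}
    (hΓ : FinIdx O Γ) {χ : H3 → ℝ} (hχ : IsCutoff Γ χ) {f : H3 → ℂ}
    (hf : AEStronglyMeasurable f volume) {a C : ℝ} (ha : a < 2) (hC : ∀ w, ‖f w‖ ≤ C * ht O w ^ a) :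
    Integrable (fun w => χ w • f w) :=
  hO.integrable_cut hΓ hχ hf ha hC

/-- **Rapidly decreasing functions.**  If `|f| ≤ C ht^B exp(-c ht)` with `c > 0` and any `B`, then `χ f` is
integrable (`χ` a cut-off function in the sense of `GuideOctT`, `IsCut`).  This is the form in which the
product of the lifted form, which decays exponentially in the height, and the theta kernel, which grows
polynomially, is integrated. -/
theorem integrable_of_decay {Γ : Subgroup (GL (Fin 2) ℂ)} {χ : H3 → ℝ} (hχ : IsCut Γ χ)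
    (hΓ : FinIdx Eis Γ) {f : H3 → ℂ} (hf : AEStronglyMeasurable f volume) {B C c : ℝ} (hc : 0 < c)
    (hC0 : 0 ≤ C) (hC : ∀ w, ‖f w‖ ≤ C * (ht Eis w ^ B * Real.exp (-(c * ht Eis w)))) :
    Integrable (fun w => (χ w : ℂ) * f w) :=
  hχ.integrable_exp hΓ hf hc hC0 hC

end Fermat.Agent.Guide.SiegelSets
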