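import Fermat.Agent.H26ZCut
import Fermat.Agent.H31I3

/-!
# Reader's guide: reduction theory of `PGL₂(K)`, step by step

(text by helper95; library files by helper58 `H58RMink`, `H58RUnit`, `H58RLines`, `H58RStein`, helper26
`H26ZLat`, `H26ZDet`, `H26ZLift`, `H26ZHt`, `H26ZFin`, `H26ZFin2`, `H26ZSieg`, `H26ZHigh`, `H26ZCut`,
helper2 `H2ZCov`, helper35 `H35BK1`, helper31 `H31I3`)

Companion of `GuideSiegel`, which states the results: `minkowski`, `balance_by_units`,
`translations_cocompact`, `steinitz`, `finitely_many_determinants`, `covering`, `siegel_finite`,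
`high_points`, `congruence_subgroup_fixes`, `balancing`, `finite_volume`, `crude_bound`. This file has
the steps. It does not repeat the steps of the equivariant map to lattices (`GuideLocalLattices`), of
`counting` and of the kernels (`GuideBoundedKernels`) and the geometry of `H3` (`GuideHyperbolic`).
Every theorem of this file is a citation of theorems of the library, with the statement written out, or
the unfolding of a definition. The file is imported only by `Guide`.

**The idea.** A point `x = (z_j, y_j)_j` of `(H3)^J` is a family of hermitian norms on `ℂ²`, one for every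
infinite place; a lattice `Λ` in `K²` gives the finite part.
* *Covering.* A shear, a diagonal matrix and a fractional ideal bring every lattice to one of finitely
  many standard forms `I ⊕ 𝓞`. For these Minkowski's theorem gives `v ≠ 0` in `Λ` whose norms at `x` are
  at most `R` at all places. If `g v = (1, 0)`, the height of `g x` at the place `j` is
  `1 / (|e_j(det g)| ‖v‖)`. Now `g Λ` is brought to standard form again; an inequality for absolute norms
  of ideals shows that the product of the heights stays bounded below. Units make the heights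
  comparable, translations by `I` make the `z_j` bounded; both preserve the standard form.
* *Finiteness.* Let `x`, `Λ`, `Λ'`, `δ` be fixed, `(a, 0)` and `(0, b)` in `Λ'`. A matrix `g` with
  `g Λ = Λ'` and `det g = δ` is determined by the vectors `g⁻¹ (a, 0)` and `g⁻¹ (0, b)` of `Λ`, and
  `|δ|` times their norms at `x` are the norms of `(a, 0)` and `(0, b)` at `g x`. If all `y_j ≥ c` and
  `|z_j| ≤ R` for the coordinates `(z_j, y_j)` of `g x`, the first norm is bounded; as a lattice has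
  finitely many bounded vectors, the `y_j` are also bounded above; then the second norm is bounded.
  Passing from `Λ`, `Λ'` to their classes costs finitely many pairs (ideal, determinant), by the
  determinant ideal, the finiteness of the class number and of the units modulo squares.
* *High points.* If `g Λ' = Λ`, `(a, 0)` is in `Λ'` and `(b, 0)` in `Λ`, the determinant of `g (a, 0)`
  and `(b, 0)` lies in the determinant ideal of `Λ`; so it is `0` or its norm is at least `ε`. If `w` and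
  `g w'` are close, its norm is, by Hadamard's inequality, at most a constant divided by the product of
  all heights of `w` and `w'`.

**Contents.**
1. Hermitian norms (`H26ZHt`, `H58RLines`).
2. Minkowski's theorem (`H58RMink`, `H58RLines`).
3. Units, translations, absolute norms (`H58RUnit`, `H58RLines`, `H26ZHigh`).
4. Splitting of a lattice (`H58RStein`).
5. Lattices, their classes and the determinant ideal (`H26ZLat`, `H26ZDet`, `H26ZLift`).
6. Covering by a Siegel set (`H2ZCov`).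
7. Finiteness and volume of Siegel sets (`H26ZFin`, `H26ZFin2`, `H26ZSieg`).
8. High points (`H26ZHigh`).
9. The model (`H35BK1`, `H26ZCut`, `H31I3`).

**Used for** S47 only, like `GuideSiegel`. References in NOTES.md: [407], [454], [457], [481].

Notation: `𝓞 K` is the ring of integers of `K`, `(I : FractionalIdeal (𝓞 K)⁰ K)ˣ` a nonzero fractional
ideal, `e : J → (K →+* ℂ)` a family of embeddings; under the hypothesis `he` it contains exactly one
embedding for every infinite place (at least one, where `he` is `∀ w, ∃ j, mk (e j) = w`).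
-/

set_option autoImplicit false

open scoped nonZeroDivisors MatrixGroups NumberField ENNReal NNReal ComplexConjugate
open MeasureTheory NumberField Matrix IsDedekindDomain

namespace Fermat.Agent.Guide.SiegelSteps

/-! ## 1. Hermitian norms -/

/-- **The notation of the library** for the hermitian norm of a point `w = (z, y)` of `H3`: as a
function of two numbers `H58R.hn z y a b`, as a function of a vector `H26Z.hh w v`. (`H58RLines`,
`H26ZHt`) -/
theorem norm_notation (w : H3) (v : Fin 2 → ℂ) :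
    H58R.hn w.z w.y (v 0) (v 1) = (‖v 0 - w.z * v 1‖ ^ 2 + w.y ^ 2 * ‖v 1‖ ^ 2) / w.y ∧
      H26Z.hh w v = (Complex.normSq (v 0 - w.z * v 1) + Complex.normSq (v 1) * w.y ^ 2) / w.y :=
  ⟨rfl, rfl⟩

/-- **It is a hermitian form of determinant one**: `‖v‖_w = v* A v`, where `A` is the adjugate of the
matrix `herm w` of `herm_action` in `GuideHyperbolic`. From this and
`herm (g w) = |det g|⁻¹ g (herm w) g*` follows the equivariance `hermitian_norm_smul` of `GuideSiegel`.
(`H26ZHt.hh_eq_herm`) -/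
theorem hermitian_form (w : H3) (v : Fin 2 → ℂ) :
    ((((Complex.normSq (v 0 - w.z * v 1) + Complex.normSq (v 1) * w.y ^ 2) / w.y : ℝ)) : ℂ) =
      star v ⬝ᵥ ((H3.herm w).adjugate *ᵥ v) :=
  H26Z.hh_eq_herm w v

/-- **The norms of the vectors of the coordinate axes**: `‖(c, 0)‖_w = |c|² / y` and
`‖(0, c)‖_w = |c|² (|z|² + y²) / y`. (`H26ZHt.hh_e1`, `hh_e2`) -/
theorem norm_of_axis_vectors (w : H3) (c : ℂ) :
    H26Z.hh w ![c, 0] = Complex.normSq c / w.y ∧
      H26Z.hh w ![0, c] = Complex.normSq c * (Complex.normSq w.z + w.y ^ 2) / w.y :=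
  ⟨H26Z.hh_e1 w c, H26Z.hh_e2 w c⟩

/-- **The coordinates are bounded by the norm**: `|v₁|² ≤ ‖v‖_w / y`, `|v₀ - z v₁|² ≤ y ‖v‖_w` and
`0 ≤ ‖v‖_w`. (`H26ZHt.normSq_one_le`, `normSq_zero_le`, `hh_nonneg`) -/
theorem coordinates_from_norm (w : H3) (v : Fin 2 → ℂ) :
    Complex.normSq (v 1) ≤ H26Z.hh w v / w.y ∧
      Complex.normSq (v 0 - w.z * v 1) ≤ H26Z.hh w v * w.y ∧ 0 ≤ H26Z.hh w v :=
  ⟨H26Z.normSq_one_le w v, H26Z.normSq_zero_le w v, H26Z.hh_nonneg w v⟩

/-! ## 2. Minkowski's theorem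

`mixedSpace K` is the product of the completions at the infinite places, `convexBodyLT K f` the body of
all `x` with `|x_w| < f w` for all `w` (both from Mathlib). -/

/-- **The sheared body.** The set of all `(x, x')` with `x - Z x'` in the body of `f` and `x'` in the
body of `g` is symmetric and convex. (`H58RMink.shearBody_neg`, `shearBody_convex`) -/
theorem shear_body {K : Type*} [Field K] [NumberField K] (f g : InfinitePlace K → ℝ≥0)
    (Z : mixedEmbedding.mixedSpace K) :
    (∀ p, p ∈ H58R.shearBody K f g Z ↔ p.1 - Z * p.2 ∈ mixedEmbedding.convexBodyLT K f ∧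
        p.2 ∈ mixedEmbedding.convexBodyLT K g) ∧
      (∀ p ∈ H58R.shearBody K f g Z, -p ∈ H58R.shearBody K f g Z) ∧
      Convex ℝ (H58R.shearBody K f g Z) :=
  ⟨fun _ => Iff.rfl, H58R.shearBody_neg K f g Z, H58R.shearBody_convex K f g Z⟩

open scoped Classical in
/-- **Its volume** is the product of the two volumes, so it does not depend on `Z`: for fixed `x'` the
set of the `x` is a translate of the body of `f`. (`H58RMink.volume_shearBody`) -/
theorem shear_body_volume {K : Type*} [Field K] [NumberField K] (f g : InfinitePlace K → ℝ≥0)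
    (Z : mixedEmbedding.mixedSpace K) :
    volume {p : mixedEmbedding.mixedSpace K × mixedEmbedding.mixedSpace K |
        p.1 - Z * p.2 ∈ mixedEmbedding.convexBodyLT K f ∧
          p.2 ∈ mixedEmbedding.convexBodyLT K g} =
      volume (mixedEmbedding.convexBodyLT K f) * volume (mixedEmbedding.convexBodyLT K g) :=
  H58R.volume_shearBody K f g Z

/-- **The lattice of `I × I'`**: the integral combinations of the basis `prodBasis` of the real vector
space `mixedSpace K × mixedSpace K` are images of pairs `(a, b)` with `a` in `I` and `b` in `I'`.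
(`H58RMink.mem_span_prodBasis`) -/
theorem lattice_points {K : Type*} [Field K] [NumberField K] (I I' : (FractionalIdeal (𝓞 K)⁰ K)ˣ)
    {p : mixedEmbedding.mixedSpace K × mixedEmbedding.mixedSpace K}
    (hp : p ∈ Submodule.span ℤ (Set.range (H58R.prodBasis K I I'))) :
    ∃ a ∈ (I : FractionalIdeal (𝓞 K)⁰ K), ∃ b ∈ (I' : FractionalIdeal (𝓞 K)⁰ K),
      p = (mixedEmbedding K a, mixedEmbedding K b) :=
  H58R.mem_span_prodBasis K I I' hp

open scoped Classical in
/-- **Minkowski's theorem for `I × I'`, any number field.** There is `C` such that for all `f`, `g` with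
`∏_w (f w · g w)^(n_w) > C` (`n_w = 1` for real and `2` for complex places) and all `Z` there are `a` in
`I`, `b` in `I'`, not both zero, with `|a - Z b|_w < f w` and `|b|_w < g w` for all `w`. This is
Minkowski's theorem (Mathlib) for the sheared body; `C` is larger than the covolume of `I × I'` times
`2^(2n)`, `n = [K : ℚ]`. (`H58RMink.exists_short_aux`) -/
theorem minkowski_general {K : Type*} [Field K] [NumberField K]
    (I I' : (FractionalIdeal (𝓞 K)⁰ K)ˣ) :
    ∃ C : ℝ≥0, 0 < C ∧ ∀ (f g : InfinitePlace K → ℝ≥0) (Z : mixedEmbedding.mixedSpace K),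
      C < ∏ w, (f w * g w) ^ w.mult →
      ∃ a ∈ (I : FractionalIdeal (𝓞 K)⁰ K), ∃ b ∈ (I' : FractionalIdeal (𝓞 K)⁰ K),
        (a ≠ 0 ∨ b ≠ 0) ∧
        mixedEmbedding K a - Z * mixedEmbedding K b ∈ mixedEmbedding.convexBodyLT K f ∧
        mixedEmbedding K b ∈ mixedEmbedding.convexBodyLT K g :=
  H58R.exists_short_aux K I I'

/-- **The two embeddings of a complex place.** The embedding chosen by Mathlib for the place of `φ` is
`φ` or its conjugate. So the general theorem has to be applied with the conjugate of `z_j` at some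
places. (`H58RLines.embedding_mk_cases`) -/
theorem embedding_of_place {K : Type*} [Field K] [NumberField K] (φ : K →+* ℂ) :
    (InfinitePlace.mk φ).embedding = φ ∨ ∀ x, (InfinitePlace.mk φ).embedding x = conj (φ x) :=
  H58R.embedding_mk_cases K φ

/-- **Minkowski's theorem for the hermitian norms**: there is `R` such that for every point
`(z_j, y_j)_j` the lattice `I × I'` has a nonzero vector of norm at most `R` at all places; `minkowski`
of `GuideSiegel` in other words. (`H58RLines.exists_short_hn`) -/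
theorem short_vector {K : Type*} [Field K] [NumberField K] [IsTotallyComplex K] {J : Type*}
    [Fintype J] (e : J → K →+* ℂ) (he : Function.Bijective fun j => InfinitePlace.mk (e j))
    (I I' : (FractionalIdeal (𝓞 K)⁰ K)ˣ) :
    ∃ R : ℝ, 0 < R ∧ ∀ (z : J → ℂ) (y : J → ℝ), (∀ j, 0 < y j) →
      ∃ v : Fin 2 → K, v ≠ 0 ∧ v 0 ∈ (I : FractionalIdeal (𝓞 K)⁰ K) ∧
        v 1 ∈ (I' : FractionalIdeal (𝓞 K)⁰ K) ∧
        ∀ j, (‖e j (v 0) - z j * e j (v 1)‖ ^ 2 + y j ^ 2 * ‖e j (v 1)‖ ^ 2) / y j ≤ R :=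
  H58R.exists_short_hn K e he I I'

/-! ## 3. Units, translations, absolute norms -/

/-- **A lattice is cocompact**: every point of a finite dimensional real vector space is at bounded
distance from a given lattice. Used for the logarithms of units and for ideals.
(`H58RUnit.exists_lattice_near`) -/
theorem point_near_lattice {E : Type*} [NormedAddCommGroup E] [NormedSpace ℝ E]
    [FiniteDimensional ℝ E] (L : Submodule ℤ E) [DiscreteTopology L] [IsZLattice ℝ L] :
    ∃ B : ℝ, 0 ≤ B ∧ ∀ v : E, ∃ l ∈ L, ‖v - l‖ ≤ B :=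
  H58R.exists_lattice_near L

/-- **A power of every unit is congruent to `1`** modulo a given nonzero ideal: the exponent is the
order of the unit group of the finite quotient ring. (`H58RUnit.exists_pow_congr`) -/
theorem unit_power_congruent {K : Type*} [Field K] [NumberField K] (n : Ideal (𝓞 K))
    (hn : n ≠ ⊥) :
    ∃ m : ℕ, 0 < m ∧ ∀ u : (𝓞 K)ˣ, (((u ^ m : (𝓞 K)ˣ) : 𝓞 K) - 1) ∈ n :=
  H58R.exists_pow_congr K n hn

/-- **Balancing by `m`-th powers of units**: by Dirichlet's unit theorem the vectors `(2 m log |u|_w)_w`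
are a lattice in the space of vectors with sum zero, and the vector with the coordinates `log y_w` minus
their mean is at bounded distance from it. (`H58RUnit.exists_unit_pow_balanced`) -/
theorem units_balance {K : Type*} [Field K] [NumberField K] [IsTotallyComplex K] (m : ℕ)
    (hm : 0 < m) :
    ∃ C : ℝ, 1 ≤ C ∧ ∀ y : InfinitePlace K → ℝ, (∀ w, 0 < y w) →
      ∃ u : (𝓞 K)ˣ, ∀ w w' : InfinitePlace K,
        (w ((u ^ m : (𝓞 K)ˣ) : K)) ^ 2 * y w ≤ C * ((w' ((u ^ m : (𝓞 K)ˣ) : K)) ^ 2 * y w') :=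
  H58R.exists_unit_pow_balanced K m hm

/-- **The norm as a product over the places**: `|N(x)| = ∏_j |e_j x|²` for a totally complex field, and
this is `1` for units. (`H58RLines.abs_norm_eq_prod_sq`, `prod_sq_unit'`) -/
theorem norm_as_product {K : Type*} [Field K] [NumberField K] [IsTotallyComplex K] {J : Type*}
    [Fintype J] (e : J → K →+* ℂ) (he : Function.Bijective fun j => InfinitePlace.mk (e j)) :
    (∀ x : K, (|Algebra.norm ℚ x| : ℝ) = ∏ j, ‖e j x‖ ^ 2) ∧
      ∀ u : (𝓞 K)ˣ, ∏ j, ‖e j (u : K)‖ ^ 2 = 1 :=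
  ⟨H58R.abs_norm_eq_prod_sq K e he, H58R.prod_sq_unit' K e he⟩

/-- **Balanced coordinates are comparable to their geometric mean**: if `y_i ≤ C y_j` for all `i`, `j`,
then `y_j^r ≤ C^r ∏ y_i` and `∏ y_i ≤ C^r y_j^r`, where `r = #J`. (`H58RUnit.balanced_geom`) -/
theorem comparable_with_mean {J : Type*} [Fintype J] [Nonempty J] {C : ℝ} {y : J → ℝ}
    (hy : ∀ j, 0 < y j) (h : ∀ i j, y i ≤ C * y j) (j : J) :
    (y j) ^ Fintype.card J ≤ C ^ Fintype.card J * ∏ i, y i ∧
      ∏ i, y i ≤ C ^ Fintype.card J * (y j) ^ Fintype.card J :=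
  H58R.balanced_geom hy h j

/-- **Translations by a fractional ideal**, for the embeddings chosen by Mathlib;
`translations_cocompact` of `GuideSiegel` follows with `embedding_of_place`.
(`H58RLines.exists_translate_aux`) -/
theorem translations_at_all_places {K : Type*} [Field K] [NumberField K] [IsTotallyComplex K]
    (I : (FractionalIdeal (𝓞 K)⁰ K)ˣ) :
    ∃ B : ℝ, 0 ≤ B ∧ ∀ z : InfinitePlace K → ℂ, ∃ a ∈ (I : FractionalIdeal (𝓞 K)⁰ K),
      ∀ w : InfinitePlace K, ‖z w - w.embedding a‖ ≤ B :=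
  H58R.exists_translate_aux K I

/-- **The absolute norm reverses inclusions** of nonzero fractional ideals: `I ⊆ I'` implies
`N(I') ≤ N(I)`. (`H58RLines.absNorm_le_of_le`) -/
theorem absNorm_antitone {K : Type*} [Field K] [NumberField K] {I I' : FractionalIdeal (𝓞 K)⁰ K}
    (hI : I ≠ 0) (h : I ≤ I') :
    FractionalIdeal.absNorm I' ≤ FractionalIdeal.absNorm I :=
  H58R.absNorm_le_of_le hI h

/-- **The nonzero elements of a finitely generated submodule `M` of `K` have norm at least `ε > 0`**: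
with a common denominator `d` of `M` the norm of `d x` is a nonzero integer. (`H26ZHigh.exists_lower`) -/
theorem norm_bounded_below {K : Type*} [Field K] [NumberField K] [IsTotallyComplex K] {J : Type*}
    [Fintype J] (e : J → K →+* ℂ) (he : Function.Bijective fun j => InfinitePlace.mk (e j))
    {M : Submodule (𝓞 K) K} (hM : M.FG) :
    ∃ ε : ℝ, 0 < ε ∧ ∀ x ∈ M, x ≠ 0 → ε ≤ ∏ j, ‖e j x‖ ^ 2 :=
  H26Z.exists_lower e he hM

/-! ## 4. Splitting of a lattice

`R` is a Dedekind domain with fraction field `K`, `L` a submodule of `K²`. -/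

/-- **Multiples of vectors lie in the lattice**: if `v` is in the `K`-span of `L`, then `d v` is in `L`
for some `d ≠ 0` in `R`. (`H58RStein.exists_smul_mem`) -/
theorem multiple_in_lattice {R K V : Type*} [CommRing R] [IsDedekindDomain R] [Field K]
    [Algebra R K] [IsFractionRing R K] [AddCommGroup V] [Module K V] [Module R V]
    [IsScalarTower R K V] (L : Submodule R V) {v : V} (hv : v ∈ Submodule.span K (L : Set V)) :
    ∃ d : R, d ≠ 0 ∧ d • v ∈ L :=
  H58R.exists_smul_mem L hv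

/-- **The coefficient module** `{c : c v ∈ L}` of a vector `v ≠ 0` is finitely generated and nonzero, if
`L` is a lattice. (`H58RStein.mem_coefMod`, `coefMod_fg`, `coefMod_ne_bot`) -/
theorem coefficient_module {R K : Type*} [CommRing R] [IsDedekindDomain R] [Field K]
    [Algebra R K] [IsFractionRing R K] {L : Submodule R (Fin 2 → K)} (hL : L.FG)
    (hs : Submodule.span K (L : Set (Fin 2 → K)) = ⊤) {v : Fin 2 → K} (hv : v ≠ 0) :
    (∀ c : K, c ∈ H58R.coefMod L v ↔ c • v ∈ L) ∧ (H58R.coefMod L v).FG ∧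
      H58R.coefMod L v ≠ ⊥ :=
  ⟨fun _ => H58R.mem_coefMod, H58R.coefMod_fg hL hv, H58R.coefMod_ne_bot hs v⟩

/-- **The module of second coordinates** of the vectors of a lattice is finitely generated and nonzero.
(`H58RStein.mem_secMod`, `secMod_fg`, `secMod_ne_bot`) -/
theorem second_coordinates {R K : Type*} [CommRing R] [IsDedekindDomain R] [Field K]
    [Algebra R K] [IsFractionRing R K] {L : Submodule R (Fin 2 → K)} (hL : L.FG)
    (hs : Submodule.span K (L : Set (Fin 2 → K)) = ⊤) :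
    (∀ c : K, c ∈ H58R.secMod L ↔ ∃ v ∈ L, v 1 = c) ∧ (H58R.secMod L).FG ∧
      H58R.secMod L ≠ ⊥ :=
  ⟨fun _ => H58R.mem_secMod, H58R.secMod_fg hL, H58R.secMod_ne_bot hs⟩

/-- A nonzero finitely generated submodule of `K` is an invertible fractional ideal. In `steinitz` of
`GuideSiegel` the ideal `I` is the coefficient module of `(1, 0)` and `I'` the module of second
coordinates; write `1 = ∑ b_k c_k` with `b_k` in `I'` and `c_k` in its inverse, choose `(m_k, b_k)` in
`L`, then `β = ∑ c_k m_k`. (`H58RStein.exists_fracUnit`) -/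
theorem invertible_ideal {R K : Type*} [CommRing R] [IsDedekindDomain R] [Field K]
    [Algebra R K] [IsFractionRing R K] {M : Submodule R K} (hfg : M.FG) (h0 : M ≠ ⊥) :
    ∃ I : (FractionalIdeal R⁰ K)ˣ, ∀ x : K, x ∈ (I : FractionalIdeal R⁰ K) ↔ x ∈ M :=
  H58R.exists_fracUnit hfg h0

/-- **Representatives of the ideal classes**: if the class number is finite, there is a finite set `S`
of fractional ideals such that every `I` has a multiple `c⁻¹ I` in `S`. (`H58RStein.exists_reps`) -/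
theorem class_representatives (R K : Type*) [CommRing R] [IsDedekindDomain R] [Field K]
    [Algebra R K] [IsFractionRing R K] [Finite (ClassGroup R)] :
    ∃ S : Finset (FractionalIdeal R⁰ K)ˣ, ∀ I : (FractionalIdeal R⁰ K)ˣ, ∃ I₀ ∈ S, ∃ c : Kˣ,
      ∀ x : K, x ∈ (I₀ : FractionalIdeal R⁰ K) ↔ (c : K) * x ∈ (I : FractionalIdeal R⁰ K) :=
  H58R.exists_reps

/-! ## 5. Lattices, their classes and the determinant ideal

`Lat R K` and `LatC R K` are explained in `lattice_def` and `lattice_class_def` of `GuideSiegel`. -/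

/-- **The product of a lattice with a fractional ideal is a lattice**: it is finitely generated and spans
`K²`. (`H26ZLat.fg_smul`, `span_ismul`) -/
theorem product_with_ideal {R K : Type*} [CommRing R] [IsDedekindDomain R] [Field K] [Algebra R K]
    [IsFractionRing R K] (I : (FractionalIdeal R⁰ K)ˣ) {M : Submodule R (Fin 2 → K)} (hM : M.FG)
    (hs : Submodule.span K (M : Set (Fin 2 → K)) = ⊤) :
    (((I : FractionalIdeal R⁰ K) : Submodule R K) • M).FG ∧
      Submodule.span K (((((I : FractionalIdeal R⁰ K) : Submodule R K)) • M :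
        Submodule R (Fin 2 → K)) : Set (Fin 2 → K)) = ⊤ :=
  ⟨H26Z.Lat.fg_smul (FractionalIdeal.fg_of_isUnit _ I.isUnit) hM, H26Z.Lat.span_ismul I hs⟩

/-- **Multiplication by fractional ideals commutes with `GL₂(K)`, and scalar matrices act as principal
ideals**: `g (I Λ) = I (g Λ)` and `c Λ = (c) Λ`. Therefore `PGL₂(K)` acts on the classes.
(`H26ZLat.gl_ismul_comm`, `scalar_smul`) -/
theorem scalars_and_ideals {R K : Type*} [CommRing R] [IsDedekindDomain R] [Field K] [Algebra R K]
    [IsFractionRing R K] (g : GL (Fin 2) K) (c : Kˣ) (I : (FractionalIdeal R⁰ K)ˣ)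
    (Λ : H26Z.Lat R K) :
    g • I • Λ = I • g • Λ ∧
      GeneralLinearGroup.scalar (Fin 2) c • Λ = toPrincipalIdeal R K c • Λ :=
  ⟨H26Z.Lat.gl_ismul_comm g I Λ, H26Z.Lat.scalar_smul c Λ⟩

/-- **Classes**: every class is the class of a lattice, `I Λ` has the class of `Λ`, and `g` maps the
class of `Λ` to the class of `g Λ`. (`H26ZLat.mk_surjective`, `mk_ismul`, `smul_mk`) -/
theorem classes {R K : Type*} [CommRing R] [IsDedekindDomain R] [Field K] [Algebra R K]
    [IsFractionRing R K] :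
    Function.Surjective (H26Z.LatC.mk : H26Z.Lat R K → H26Z.LatC R K) ∧
      (∀ (I : (FractionalIdeal R⁰ K)ˣ) (Λ : H26Z.Lat R K),
        H26Z.LatC.mk (I • Λ) = H26Z.LatC.mk Λ) ∧
      ∀ (g : GL (Fin 2) K) (Λ : H26Z.Lat R K), g • H26Z.LatC.mk Λ = H26Z.LatC.mk (g • Λ) :=
  ⟨H26Z.LatC.mk_surjective, H26Z.LatC.mk_ismul, H26Z.LatC.smul_mk⟩

/-- **A lattice is not contained in a line**: for `v ≠ 0` some `w` in `Λ` has `det (v, w) ≠ 0`. Moreover
`Λ` contains `(a, 0)` and `(0, b)` for some `a, b ≠ 0`, as in `multiple_in_lattice`.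
(`H26ZDet.exists_det2_ne`, `H26ZFin2.exists_e1`, `exists_e2`) -/
theorem vectors_of_a_lattice {R K : Type*} [CommRing R] [IsDedekindDomain R] [Field K] [Algebra R K]
    [IsFractionRing R K] (Λ : H26Z.Lat R K) :
    (∀ v : Fin 2 → K, v ≠ 0 → ∃ w ∈ Λ.M, v 0 * w 1 - v 1 * w 0 ≠ 0) ∧
      (∃ a : K, a ≠ 0 ∧ (![a, 0] : Fin 2 → K) ∈ Λ.M) ∧
      ∃ b : K, b ≠ 0 ∧ (![0, b] : Fin 2 → K) ∈ Λ.M :=
  ⟨fun _ hv => Λ.exists_det2_ne hv, Λ.exists_e1, Λ.exists_e2⟩

/-- **Common denominators**: for a finitely generated submodule `M` of `K²` there is `d ≠ 0` in `R` such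
that `d v` has integral coordinates for all `v` in `M`. (`H26ZDet.exists_den`) -/
theorem common_denominator {R K : Type*} [CommRing R] [IsDedekindDomain R] [Field K] [Algebra R K]
    [IsFractionRing R K] {M : Submodule R (Fin 2 → K)} (hM : M.FG) :
    ∃ d : R, d ≠ 0 ∧ ∀ v ∈ M, ∀ i, ∃ r : R, algebraMap R K r = algebraMap R K d * v i :=
  H26Z.Lat.exists_den hM

/-- **The determinant ideal** `detI Λ` of a lattice is the fractional ideal generated by all
determinants `v₀ w₁ - v₁ w₀` of vectors `v`, `w` of `Λ`. (`H26ZDet.coe_detI`) -/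
theorem determinant_ideal {R K : Type*} [CommRing R] [IsDedekindDomain R] [Field K] [Algebra R K]
    [IsFractionRing R K] (Λ : H26Z.Lat R K) :
    ((Λ.detI : FractionalIdeal R⁰ K) : Submodule R K) =
      Submodule.span R (Set.image2 (fun v w : Fin 2 → K => v 0 * w 1 - v 1 * w 0) Λ.M Λ.M) :=
  Λ.coe_detI.trans (Submodule.map₂_eq_span_image2 _ _ _)

/-- **How the determinant ideal changes**: `D(g Λ) = (det g) D(Λ)` and `D(I Λ) = I² D(Λ)`. So if
`g Λ = I Λ'`, the ideal `(det g)` is `I² D(Λ') D(Λ)⁻¹`. (`H26ZDet.detI_gl`, `detI_ismul`) -/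
theorem determinant_ideal_action {R K : Type*} [CommRing R] [IsDedekindDomain R] [Field K]
    [Algebra R K] [IsFractionRing R K] (g : GL (Fin 2) K) (I : (FractionalIdeal R⁰ K)ˣ)
    (Λ : H26Z.Lat R K) :
    (g • Λ).detI = toPrincipalIdeal R K (GeneralLinearGroup.det g) * Λ.detI ∧
      (I • Λ).detI = I * I * Λ.detI :=
  ⟨H26Z.Lat.detI_gl g Λ, H26Z.Lat.detI_ismul I Λ⟩

/-- **Principal ideals and units**: `(a) = (b)` implies `a = b u` with a unit `u` of `R`.
(`H26ZLift.toPrincipal_eq`) -/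
theorem principal_ideals_and_units {R K : Type*} [CommRing R] [IsDedekindDomain R] [Field K]
    [Algebra R K] [IsFractionRing R K] {a b : Kˣ}
    (h : toPrincipalIdeal R K a = toPrincipalIdeal R K b) :
    ∃ u : Rˣ, (a : K) = b * algebraMap R K u := by
  obtain ⟨u, hu⟩ := H26Z.toPrincipal_eq h
  exact ⟨u, congrArg Units.val hu⟩

/-- **The two finiteness theorems of algebraic number theory** in the form in which they are used for
`finitely_many_determinants` of `GuideSiegel`: every nonzero fractional ideal of a number field is `(a) C`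
with `C` in a finite set, every unit is `t v²` with `t` in a finite set. There, if `g` maps the class of `Λ`
to the class of `Λ'`, then `g Λ = C Λ'` after multiplication of `g` by a scalar. By
`determinant_ideal_action` the ideal `(det g)` is determined by `C`, so `det g` is determined by `C` up
to a unit `t v²`; replace `g` by `v⁻¹ g`, which does not change `g Λ`. (`H26ZLift.exists_class_reps`,
`exists_unit_sq_reps`) -/
theorem two_finiteness_theorems (K : Type*) [Field K] [NumberField K] :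
    (∃ S : Set (FractionalIdeal (𝓞 K)⁰ K)ˣ, S.Finite ∧
      ∀ I, ∃ C ∈ S, ∃ a : Kˣ, I = toPrincipalIdeal (𝓞 K) K a * C) ∧
    ∃ S : Set (𝓞 K)ˣ, S.Finite ∧ ∀ u, ∃ t ∈ S, ∃ v : (𝓞 K)ˣ, u = t * v ^ 2 :=
  ⟨H26Z.exists_class_reps, H26Z.exists_unit_sq_reps⟩

/-! ## 6. Covering by a Siegel set

`nK b = (1 b; 0 1)` and `dK a = (a 0; 0 1)` in `GL₂(K)`. A *standard lattice* for a finite set `S` of
fractional ideals is `I ⊕ 𝓞` with `I` in `S`. -/

/-- **Moving a vector to `(1, 0)`**: for `v ≠ 0` there is `g` in `GL₂(K)` with `g v = (1, 0)` whose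
second row is `(-v₁, v₀) det g`. (`H2ZCov.exists_toE1`) -/
theorem vector_to_axis {K : Type*} [Field K] (v : Fin 2 → K) (hv : v ≠ 0) :
    ∃ g : GL (Fin 2) K, g • v = ![1, 0] ∧
      (g : Matrix (Fin 2) (Fin 2) K) 1 0 = -(v 1) * (g : Matrix (Fin 2) (Fin 2) K).det ∧
      (g : Matrix (Fin 2) (Fin 2) K) 1 1 = v 0 * (g : Matrix (Fin 2) (Fin 2) K).det :=
  H2Z.exists_toE1 v hv

/-- **The height after moving `v` to `(1, 0)`**: for such a `g`, an embedding `φ` and a point `w` of `H3`
the height of `φ(g) w` is `1 / (|φ(det g)| ‖φ(v)‖_w)`. So short vectors give high points.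
(`H2ZCov.toE1_y`) -/
theorem height_after_move {K : Type*} [Field K] (φ : K →+* ℂ) (g : GL (Fin 2) K) (v : Fin 2 → K)
    (h10 : (g : Matrix (Fin 2) (Fin 2) K) 1 0 = -(v 1) * (g : Matrix (Fin 2) (Fin 2) K).det)
    (h11 : (g : Matrix (Fin 2) (Fin 2) K) 1 1 = v 0 * (g : Matrix (Fin 2) (Fin 2) K).det)
    (w : H3) :
    (GeneralLinearGroup.map φ g • w).y *
        ((‖φ (v 0) - w.z * φ (v 1)‖ ^ 2 + w.y ^ 2 * ‖φ (v 1)‖ ^ 2) / w.y) =
      ‖φ (g : Matrix (Fin 2) (Fin 2) K).det‖⁻¹ :=
  H2Z.toE1_y φ g v h10 h11 w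

/-- **Bringing a lattice to standard form**: if `S` represents all ideal classes, then a shear, a
diagonal matrix and a fractional ideal map `Λ` to a standard lattice. With the notation of `steinitz`:
the shear gives `I ⊕ I'`, multiplication by `I'⁻¹` gives `I'⁻¹ I ⊕ 𝓞`, and `diag(c⁻¹, 1)` replaces the
first ideal by its representative `I₀`. (`H2ZCov.exists_std`) -/
theorem standard_form {K : Type*} [Field K] [NumberField K]
    {S : Finset (FractionalIdeal (𝓞 K)⁰ K)ˣ}
    (hS : ∀ I : (FractionalIdeal (𝓞 K)⁰ K)ˣ, ∃ I₀ ∈ S, ∃ c : Kˣ, ∀ x : K,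
      x ∈ (I₀ : FractionalIdeal (𝓞 K)⁰ K) ↔ (c : K) * x ∈ (I : FractionalIdeal (𝓞 K)⁰ K))
    (Λ : H26Z.Lat (𝓞 K) K) :
    ∃ (β : K) (c : Kˣ) (I I' I₀ : (FractionalIdeal (𝓞 K)⁰ K)ˣ), I₀ ∈ S ∧
      (∀ v : Fin 2 → K, v ∈ Λ.M ↔ v 0 - β * v 1 ∈ (I : FractionalIdeal (𝓞 K)⁰ K) ∧
        v 1 ∈ (I' : FractionalIdeal (𝓞 K)⁰ K)) ∧
      (∀ x : K, x ∈ (I₀ : FractionalIdeal (𝓞 K)⁰ K) ↔
        (c : K) * x ∈ ((I'⁻¹ * I : (FractionalIdeal (𝓞 K)⁰ K)ˣ) : FractionalIdeal (𝓞 K)⁰ K)) ∧
      ∀ v : Fin 2 → K, v ∈ (H2Z.dK c⁻¹ • I'⁻¹ • H2Z.nK (-β) • Λ).M ↔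
        v 0 ∈ (I₀ : FractionalIdeal (𝓞 K)⁰ K) ∧ v 1 ∈ (1 : FractionalIdeal (𝓞 K)⁰ K) :=
  H2Z.exists_std hS Λ

/-- There are only finitely many standard lattices for `S`. (`H2ZCov.finite_isStd`) -/
theorem standard_lattices_finite {K : Type*} [Field K] [NumberField K]
    (S : Finset (FractionalIdeal (𝓞 K)⁰ K)ˣ) :
    {Λ : H26Z.Lat (𝓞 K) K | ∃ I ∈ S, ∀ v : Fin 2 → K, v ∈ Λ.M ↔
      v 0 ∈ (I : FractionalIdeal (𝓞 K)⁰ K) ∧ v 1 ∈ (1 : FractionalIdeal (𝓞 K)⁰ K)}.Finite :=
  H2Z.finite_isStd S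

/-- **The ideal inequality.** Let `Λ = I₀ ⊕ 𝓞`, let `g Λ` contain `(1, 0)`, and let `I`, `I'`, `β`, `c`,
`I₁` be the data of `standard_form` for `g Λ`. Then `|N(c)| |N(det g)| N(I₀) N(I₁) ≤ 1`. Proof:
determinants of vectors of `g Λ` lie in `(det g) I₀`, so `I I' ⊆ (det g) I₀`; moreover
`I I'⁻¹ = (c) I₁`, and the product of both is `I² ⊆ (det g) I₀ (c) I₁`; since `1` is in `I`, the ideal
on the right contains `1`, so its norm is at most `1`. (`H2ZCov.norm_bound`) -/
theorem ideal_inequality {K : Type*} [Field K] [NumberField K] {Λ : H26Z.Lat (𝓞 K) K}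
    {I₀ : (FractionalIdeal (𝓞 K)⁰ K)ˣ}
    (h₀ : ∀ v : Fin 2 → K, v ∈ Λ.M ↔
      v 0 ∈ (I₀ : FractionalIdeal (𝓞 K)⁰ K) ∧ v 1 ∈ (1 : FractionalIdeal (𝓞 K)⁰ K))
    (g : GL (Fin 2) K) {β : K} {c : Kˣ} {I I' I₁ : (FractionalIdeal (𝓞 K)⁰ K)ˣ}
    (hsp : ∀ v : Fin 2 → K, v ∈ (g • Λ).M ↔ v 0 - β * v 1 ∈ (I : FractionalIdeal (𝓞 K)⁰ K) ∧
      v 1 ∈ (I' : FractionalIdeal (𝓞 K)⁰ K))
    (hc : ∀ x : K, x ∈ (I₁ : FractionalIdeal (𝓞 K)⁰ K) ↔
      (c : K) * x ∈ ((I'⁻¹ * I : (FractionalIdeal (𝓞 K)⁰ K)ˣ) : FractionalIdeal (𝓞 K)⁰ K))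
    (he1 : (![1, 0] : Fin 2 → K) ∈ (g • Λ).M) :
    |Algebra.norm ℚ (c : K)| * |Algebra.norm ℚ (g : Matrix (Fin 2) (Fin 2) K).det| *
      (FractionalIdeal.absNorm (I₀ : FractionalIdeal (𝓞 K)⁰ K) *
        FractionalIdeal.absNorm (I₁ : FractionalIdeal (𝓞 K)⁰ K)) ≤ 1 :=
  H2Z.norm_bound h₀ g hsp hc he1

/-- **Every point can be moved to a high point over a standard lattice**: there is `c₀ > 0` such that
for all `x` and `Λ` some `g` maps the class of `Λ` to the class of a standard lattice and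
`∏ y_j(g x)² ≥ c₀`. Proof: `g = g₃ g₂ g₁` with `g₁` from `standard_form` for `Λ`, `g₂` from
`short_vector` and `vector_to_axis`, `g₃` from `standard_form` again. By `height_after_move` and
`norm_as_product` the product of the `y_j²` is `1 / (|N(c)| |N(det g₂)| ∏ ‖v‖_j²)`; use
`ideal_inequality`. (`H2ZCov.exists_high`) -/
theorem large_height {K : Type*} [Field K] [NumberField K] [IsTotallyComplex K] {J : Type*}
    [Fintype J] (e : J → K →+* ℂ) (he : Function.Bijective fun j => InfinitePlace.mk (e j))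
    (S : Finset (FractionalIdeal (𝓞 K)⁰ K)ˣ)
    (hS : ∀ I : (FractionalIdeal (𝓞 K)⁰ K)ˣ, ∃ I₀ ∈ S, ∃ c : Kˣ, ∀ x : K,
      x ∈ (I₀ : FractionalIdeal (𝓞 K)⁰ K) ↔ (c : K) * x ∈ (I : FractionalIdeal (𝓞 K)⁰ K)) :
    ∃ c₀ : ℝ, 0 < c₀ ∧ ∀ (x : J → H3) (Λ : H26Z.Lat (𝓞 K) K),
      ∃ (g : GL (Fin 2) K) (Λ' : H26Z.Lat (𝓞 K) K),
        (∃ I ∈ S, ∀ v : Fin 2 → K, v ∈ Λ'.M ↔
          v 0 ∈ (I : FractionalIdeal (𝓞 K)⁰ K) ∧ v 1 ∈ (1 : FractionalIdeal (𝓞 K)⁰ K)) ∧
        H26Z.LatC.mk Λ' = H26Z.LatC.mk (g • Λ) ∧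
        c₀ ≤ ∏ j, (GeneralLinearGroup.map (e j) g • x j).y ^ 2 :=
  H2Z.exists_high e he S hS

/-- **Units and translations preserve `I ⊕ 𝓞`**: the matrices `diag(u, 1)` with a unit `u` (`H2Z.uK u`
is `u` as an element of `Kˣ`) and `(1 b; 0 1)` with `b` in `I`. (`H2ZCov.dK_unit_smul`, `nK_mem_smul`) -/
theorem preserve_standard_lattice {K : Type*} [Field K] [NumberField K] [IsTotallyComplex K]
    {I : (FractionalIdeal (𝓞 K)⁰ K)ˣ} {Λ : H26Z.Lat (𝓞 K) K}
    (h : ∀ v : Fin 2 → K, v ∈ Λ.M ↔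
      v 0 ∈ (I : FractionalIdeal (𝓞 K)⁰ K) ∧ v 1 ∈ (1 : FractionalIdeal (𝓞 K)⁰ K)) :
    (∀ (u : (𝓞 K)ˣ) (v : Fin 2 → K), v ∈ (H2Z.dK (H2Z.uK u) • Λ).M ↔
      v 0 ∈ (I : FractionalIdeal (𝓞 K)⁰ K) ∧ v 1 ∈ (1 : FractionalIdeal (𝓞 K)⁰ K)) ∧
    ∀ b ∈ (I : FractionalIdeal (𝓞 K)⁰ K), ∀ v : Fin 2 → K, v ∈ (H2Z.nK b • Λ).M ↔
      v 0 ∈ (I : FractionalIdeal (𝓞 K)⁰ K) ∧ v 1 ∈ (1 : FractionalIdeal (𝓞 K)⁰ K) :=
  ⟨fun u => H2Z.dK_unit_smul h u, fun _ hb => H2Z.nK_mem_smul h hb⟩

/-- **How these matrices act on `H3`**: `(1 b; 0 1)` is the translation by `φ b`, and `diag(a, 1)`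
multiplies the height by `|φ a|`. (`H2ZCov.nK_act`, `dK_act_y`) -/
theorem action_of_triangular_matrices {K : Type*} [Field K] (φ : K →+* ℂ) (b : K) (a : Kˣ)
    (w : H3) :
    (GeneralLinearGroup.map φ (H2Z.nK b) • w).z = w.z + φ b ∧
      (GeneralLinearGroup.map φ (H2Z.nK b) • w).y = w.y ∧
      (GeneralLinearGroup.map φ (H2Z.dK a) • w).y = ‖φ a‖ * w.y :=
  ⟨congrArg H3.z (H2Z.nK_act φ b w), (congrArg H3.y (H2Z.nK_act φ b w) :), H2Z.dK_act_y φ a w⟩

/-- **A Siegel set for lattices.** There are `c, C, R > 0` such that for all `x` and `Λ` some `g` maps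
the class of `Λ` to the class of a standard lattice and `x` into the Siegel set of `c`, `C`, `R`. Proof:
`large_height`; `diag(u, 1)` with a suitable unit `u` makes the `y_j` comparable and does not change
their product, hence `comparable_with_mean` bounds each `y_j` below; a translation makes the `z_j`
bounded. The theorem `covering` of `GuideSiegel` follows: `Y₀` is the set of the points over the classes
of the standard lattices. (`H2ZCov.exists_siegel`) -/
theorem siegel_set_for_lattices {K : Type*} [Field K] [NumberField K] [IsTotallyComplex K]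
    {J : Type*} [Fintype J] (e : J → K →+* ℂ)
    (he : Function.Bijective fun j => InfinitePlace.mk (e j))
    (S : Finset (FractionalIdeal (𝓞 K)⁰ K)ˣ)
    (hS : ∀ I : (FractionalIdeal (𝓞 K)⁰ K)ˣ, ∃ I₀ ∈ S, ∃ c : Kˣ, ∀ x : K,
      x ∈ (I₀ : FractionalIdeal (𝓞 K)⁰ K) ↔ (c : K) * x ∈ (I : FractionalIdeal (𝓞 K)⁰ K)) :
    ∃ c C R : ℝ, 0 < c ∧ 0 < C ∧ 0 < R ∧ ∀ (x : J → H3) (Λ : H26Z.Lat (𝓞 K) K),
      ∃ (g : GL (Fin 2) K) (Λ' : H26Z.Lat (𝓞 K) K),
        (∃ I ∈ S, ∀ v : Fin 2 → K, v ∈ Λ'.M ↔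
          v 0 ∈ (I : FractionalIdeal (𝓞 K)⁰ K) ∧ v 1 ∈ (1 : FractionalIdeal (𝓞 K)⁰ K)) ∧
        H26Z.LatC.mk Λ' = H26Z.LatC.mk (g • Λ) ∧
        (∀ j, c ≤ (GeneralLinearGroup.map (e j) g • x j).y) ∧
        (∀ j k, (GeneralLinearGroup.map (e j) g • x j).y ≤
          C * (GeneralLinearGroup.map (e k) g • x k).y) ∧
        ∀ j, ‖(GeneralLinearGroup.map (e j) g • x j).z‖ ≤ R :=
  H2Z.exists_siegel e he S hS

/-! ## 7. Finiteness and volume of Siegel sets -/

/-- **All embeddings are bounded if the chosen ones are**: if the family `e` represents every infinite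
place and `|e_j(a)| ≤ B` for all `j`, then `|φ(a)| ≤ B` for every embedding `φ`.
(`H26ZFin.Full.norm_le`) -/
theorem bounded_at_all_embeddings {K : Type*} [Field K] [NumberField K] {J : Type*} [Fintype J]
    {e : J → K →+* ℂ} (he : ∀ w : InfinitePlace K, ∃ j, InfinitePlace.mk (e j) = w) {a : K} {B : ℝ}
    (h : ∀ j, ‖e j a‖ ≤ B) (φ : K →+* ℂ) : ‖φ a‖ ≤ B :=
  H26Z.Full.norm_le he h φ

/-- **Finitely many bounded vectors**: a lattice `Λ` in `K²` contains only finitely many vectors with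
`|e_j(v_i)| ≤ B` for all `j`, `i`. With a common denominator this is the finiteness of the set of
integers all of whose conjugates are bounded (Mathlib). `finite_short` of `GuideSiegel` follows with
`coordinates_from_norm`. (`H26ZFin.finite_le`) -/
theorem bounded_vectors_finite {K : Type*} [Field K] [NumberField K] {J : Type*} [Fintype J]
    {e : J → K →+* ℂ} (he : ∀ w : InfinitePlace K, ∃ j, InfinitePlace.mk (e j) = w)
    (Λ : H26Z.Lat (𝓞 K) K) (B : ℝ) :
    {v : Fin 2 → K | v ∈ Λ.M ∧ ∀ j i, ‖e j (v i)‖ ≤ B}.Finite :=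
  H26Z.finite_le he Λ B

/-- **Norms at a place are equivariant**: `‖g v‖_{g x} = |e_j(det g)| ‖v‖_x` for `g` in `GL₂(K)` and `v`
in `K²`. For `v = g⁻¹ (a, 0)` the left side is `|e_j(a)|² / y`, for `v = g⁻¹ (0, b)` it is
`|e_j(b)|² (|z|² + y²) / y`, where `(z, y)` is the coordinate of `g x` at `j`. (`H26ZFin.hh_actJ`,
`H26ZFin2.hh_inv_e1`, `hh_inv_e2`) -/
theorem norm_of_inverse_image {K : Type*} [Field K] [NumberField K] {J : Type*} [Fintype J]
    (e : J → K →+* ℂ) (g : GL (Fin 2) K) (x : J → H3) (j : J) :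
    (∀ v : Fin 2 → K,
      H26Z.hh (GeneralLinearGroup.map (e j) g • x j) (fun i => e j ((g • v) i)) =
        ‖e j g.1.det‖ * H26Z.hh (x j) (fun i => e j (v i))) ∧
    (∀ a : K, ‖e j g.1.det‖ * H26Z.hh (x j) (fun i => e j ((g⁻¹ • ![a, 0]) i)) =
      Complex.normSq (e j a) / (GeneralLinearGroup.map (e j) g • x j).y) ∧
    ∀ b : K, ‖e j g.1.det‖ * H26Z.hh (x j) (fun i => e j ((g⁻¹ • ![0, b]) i)) =
      Complex.normSq (e j b) * (Complex.normSq (GeneralLinearGroup.map (e j) g • x j).z +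
        (GeneralLinearGroup.map (e j) g • x j).y ^ 2) /
        (GeneralLinearGroup.map (e j) g • x j).y :=
  ⟨fun v => H26Z.hh_actJ e g x v j, fun a => H26Z.hh_inv_e1 e g x a j,
    fun b => H26Z.hh_inv_e2 e g x b j⟩

/-- **A matrix is determined by its values on two axis vectors** `(a, 0)`, `(0, b)` with `a, b ≠ 0`.
(`H26ZFin2.gl_ext_of`) -/
theorem matrix_from_two_vectors {K : Type*} [Field K] {g h : GL (Fin 2) K} {a b : K} (ha : a ≠ 0)
    (hb : b ≠ 0) (h1 : g • ![a, 0] = h • ![a, 0]) (h2 : g • ![0, b] = h • ![0, b]) : g = h :=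
  H26Z.gl_ext_of ha hb h1 h2

/-- **Finiteness for bounded sets**: for two lattices and a determinant `δ` only finitely many `g` with
`g Λ = Λ'` and `det g = δ` map some point of a bounded set (`c ≤ y_j ≤ Y`, `|z_j| ≤ R`) into this set.
(`H26ZFin2.finite_bounded`) -/
theorem finiteness_on_bounded_sets {K : Type*} [Field K] [NumberField K] {J : Type*} [Fintype J]
    {e : J → K →+* ℂ} (he : ∀ w : InfinitePlace K, ∃ j, InfinitePlace.mk (e j) = w)
    (Λ Λ' : H26Z.Lat (𝓞 K) K) (δ : Kˣ) {c : ℝ} (hc : 0 < c) (R Y : ℝ) :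
    {g : GL (Fin 2) K | g • Λ = Λ' ∧ GeneralLinearGroup.det g = δ ∧ ∃ x : J → H3,
      (∀ j, c ≤ (x j).y) ∧ (∀ j, (x j).y ≤ Y) ∧ (∀ j, ‖(x j).z‖ ≤ R) ∧
      (∀ j, c ≤ (GeneralLinearGroup.map (e j) g • x j).y) ∧
      (∀ j, (GeneralLinearGroup.map (e j) g • x j).y ≤ Y) ∧
      (∀ j, ‖(GeneralLinearGroup.map (e j) g • x j).z‖ ≤ R)}.Finite :=
  H26Z.finite_bounded he Λ Λ' δ hc R Y

/-- **Finiteness for one point**: only finitely many `g` with `g Λ = Λ'` and `det g = δ` map a given
point `x` into the unbounded set `y_j ≥ c`, `|z_j| ≤ R`. Proof: for such a `g` the vector `g⁻¹ (a, 0)`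
is one of finitely many nonzero vectors of `Λ`, so its norms at `x` are bounded below and the heights of
`g x` are bounded; now `finiteness_on_bounded_sets`. (`H26ZFin2.finite_point`) -/
theorem finiteness_for_one_point {K : Type*} [Field K] [NumberField K] {J : Type*} [Fintype J]
    {e : J → K →+* ℂ} (he : ∀ w : InfinitePlace K, ∃ j, InfinitePlace.mk (e j) = w)
    (Λ Λ' : H26Z.Lat (𝓞 K) K) (δ : Kˣ) (x : J → H3) {c : ℝ} (hc : 0 < c) (R : ℝ) :
    {g : GL (Fin 2) K | g • Λ = Λ' ∧ GeneralLinearGroup.det g = δ ∧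
      (∀ j, c ≤ (GeneralLinearGroup.map (e j) g • x j).y) ∧
      (∀ j, ‖(GeneralLinearGroup.map (e j) g • x j).z‖ ≤ R)}.Finite :=
  H26Z.finite_point he Λ Λ' δ x hc R

/-- **Finiteness in `PGL₂(K)`**: for two classes of lattices only finitely many `g` in `PGL₂(K)` map the
first to the second and `x` into the set `y_j ≥ c`, `|z_j| ≤ R`. By `finitely_many_determinants` and
`finiteness_for_one_point`. (`H26ZSieg.finite_latC`) -/
theorem finiteness_for_classes {K : Type*} [Field K] [NumberField K] {J : Type*} [Fintype J]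
    {e : J → K →+* ℂ} (he : ∀ w : InfinitePlace K, ∃ j, InfinitePlace.mk (e j) = w)
    (l l' : H26Z.LatC (𝓞 K) K) (x : J → H3) {c : ℝ} (hc : 0 < c) (R : ℝ) :
    {g : PGL(2, K) | g • l = l' ∧
      (∀ j, c ≤ ((ProjGenLinGroup.map (e j) g : PGL(2, ℂ)) • x j).y) ∧
      ∀ j, ‖((ProjGenLinGroup.map (e j) g : PGL(2, ℂ)) • x j).z‖ ≤ R}.Finite :=
  H26Z.finite_latC he l l' x hc R

/-- **The volume of one factor**: the set `y ≥ c`, `|z| ≤ R` of `H3` has finite volume, because `y⁻³` is
integrable at infinity. (`H26ZSieg.volume_box_lt_top`) -/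
theorem volume_of_one_factor {c : ℝ} (hc : 0 < c) (R : ℝ) :
    volume {w : H3 | c ≤ w.y ∧ ‖w.z‖ ≤ R} < ⊤ :=
  H26Z.volume_box_lt_top hc R

/-! ## 8. High points -/

/-- **High points, fixed lattices and determinant.** There is `T` such that `g` is upper triangular
whenever `g Λ' = Λ`, `det g = δ`, `w` and `g w'` are at bounded distance and the product of the heights
of `w` and `w'` is larger than `T`. Proof: let `(a, 0)` be in `Λ'` and `(b, 0)` in `Λ`; the determinant
of `g (a, 0)` and `(b, 0)` is `-g₁₀ a b` and lies in the determinant ideal of `Λ`. The square of its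
absolute value at the place `j` is at most `‖g (a, 0)‖ ‖(b, 0)‖` (norms at `w_j`); here
`‖(b, 0)‖ = |e_j b|² / y_j` and `‖g (a, 0)‖` is at most `2 ch(w_j, g w'_j)` times the norm at `g w'_j`,
which is `|e_j δ| |e_j a|² / y'_j`. Take the product over `j` and compare with `norm_bounded_below`.
(`H26ZHigh.high_one`) -/
theorem high_points_for_lattices {K : Type*} [Field K] [NumberField K] [IsTotallyComplex K]
    {J : Type*} [Fintype J] (e : J → K →+* ℂ)
    (he : Function.Bijective fun j => InfinitePlace.mk (e j)) (Λ Λ' : H26Z.Lat (𝓞 K) K) (δ : Kˣ)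
    (R : ℝ) :
    ∃ T : ℝ, 0 ≤ T ∧ ∀ (g : GL (Fin 2) K) (w w' : J → H3), g • Λ' = Λ →
      GeneralLinearGroup.det g = δ →
      (∀ j, H3.ch (w j) (GeneralLinearGroup.map (e j) g • w' j) ≤ R) →
      T < (∏ j, (w j).y) * ∏ j, (w' j).y → g.1 1 0 = 0 :=
  H26Z.high_one e he Λ Λ' δ R

/-- **High points, classes of lattices**: the same for two classes, by `finitely_many_determinants`. The
theorem `high_points` of `GuideSiegel` follows by taking the largest `T`. (`H26ZHigh.high_latC`) -/
theorem high_points_for_classes {K : Type*} [Field K] [NumberField K] [IsTotallyComplex K]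
    {J : Type*} [Fintype J] (e : J → K →+* ℂ)
    (he : Function.Bijective fun j => InfinitePlace.mk (e j)) (l l' : H26Z.LatC (𝓞 K) K) (R : ℝ) :
    ∃ T : ℝ, 0 ≤ T ∧ ∀ (g : GL (Fin 2) K) (w w' : J → H3), ProjGenLinGroup.mk g • l' = l →
      (∀ j, H3.ch (w j) (GeneralLinearGroup.map (e j) g • w' j) ≤ R) →
      T < (∏ j, (w j).y) * ∏ j, (w' j).y → g.1 1 0 = 0 :=
  H26Z.high_latC e he l l' R

/-! ## 9. The model

Levels `L`, the finite part `XF L.fam`, models `m` and the action `m.actInf` are explained in sections 6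
and 7 of `GuideSiegel`. For a finite place `w` the group `GLw w` consists of the matrices in `GL₂(K)`
with entries integral at `w` and determinant a unit at `w`, and `GLcong w n` of those which are moreover
congruent to `1` modulo `w^n` (`local_groups` of `GuideSiegel`). -/

/-- **Conjugates of congruence subgroups**: for `g` in `GL₂(K)` and `n` there is `N` with
`g⁻¹ h g ≡ 1 mod w^n` for all `h ≡ 1 mod w^N`. Proof: `g⁻¹ h g - 1 = g⁻¹ (h - 1) g`.
(`H35BK1.exists_conj_mem`) -/
theorem conjugate_of_congruence_subgroup {R : Type*} [CommRing R] [IsDedekindDomain R] {K : Type*}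
    [Field K] [Algebra R K] [IsFractionRing R K] (w : HeightOneSpectrum R) (g : GL (Fin 2) K)
    (n : ℕ) :
    ∃ N : ℕ, ∀ h : GL (Fin 2) K, h ∈ H59D.GLcong w N → g⁻¹ * h * g ∈ H59D.GLcong w n :=
  H35BK.exists_conj_mem w g n

/-- **What fixes a finite set of points of the finite part**: there are a finite set `T` of finite
places and `N` such that every `h` in `GL₂(K)` which is congruent to `1` modulo `w^N` for `w` in `T` and
lies in `GLw w` for all `w` fixes the given points. Outside `T` the points are trivial and the level is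
the standard one. With the ideal `n = ∏ w^N` this is `congruence_subgroup_fixes` of `GuideSiegel`.
(`H35BK1.exists_fix_finite`) -/
theorem what_fixes_finitely_many_points {K : Type*} [Field K] [NumberField K]
    (L : H59D.Level (𝓞 K) K) {Y0 : Set (H59XF.XF L.fam)} (hY0 : Y0.Finite) :
    ∃ (T : Finset (HeightOneSpectrum (𝓞 K))) (N : ℕ), ∀ h : GL (Fin 2) K,
      (∀ w ∈ T, h ∈ H59D.GLcong w N) → (∀ w : HeightOneSpectrum (𝓞 K), h ∈ H59D.GLw w) →
        ∀ η ∈ Y0, (ProjGenLinGroup.mk h : PGL(2, K)) • η = η :=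
  H35BK.exists_fix_finite L hY0

/-- **Units and translations act** by `(z_j, y_j) ↦ (e_j(u) z_j, |e_j(u)| y_j)` and
`(z_j, y_j) ↦ (z_j + e_j(b), y_j)`; `dP u` and `nP b` are the classes of `diag(u, 1)` and `(1 b; 0 1)`
in `PGL₂(K)`. (`H35BK1.dP_actInf`, `nP_actInf`) -/
theorem units_and_translations_act {K : Type*} [Field K] [NumberField K] {J : Type*} [Fintype J]
    (m : H59D.Model K J) (u : (𝓞 K)ˣ) (b : 𝓞 K) (w : J → H3) (j : J) :
    (m.actInf (H35BK.dP u) w j).z = m.e j (u : K) * (w j).z ∧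
      (m.actInf (H35BK.dP u) w j).y = ‖m.e j (u : K)‖ * (w j).y ∧
      (m.actInf (H35BK.nP b) w j).z = (w j).z + m.e j (b : K) ∧
      (m.actInf (H35BK.nP b) w j).y = (w j).y :=
  ⟨congrArg H3.z (H35BK.dP_actInf m u w j), congrArg H3.y (H35BK.dP_actInf m u w j),
    congrArg H3.z (congrFun (H35BK.nP_actInf m b w) j),
    (congrArg H3.y (congrFun (H35BK.nP_actInf m b w) j) :)⟩

/-- **Translations fix points of the finite part**: for finitely many points of the finite part there is a
nonzero ideal such that the translations by its elements fix all of them. (`H35BK1.exists_stab`) -/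
theorem translations_fix {K : Type*} [Field K] [NumberField K] (L : H59D.Level (𝓞 K) K)
    {Y0 : Set (H59XF.XF L.fam)} (hY0 : Y0.Finite) :
    ∃ n : Ideal (𝓞 K), n ≠ ⊥ ∧ ∀ b ∈ n, ∀ η ∈ Y0, H35BK.nP b • η = η :=
  H35BK.exists_stab L hY0

/-- **Balancing by units on the model**: for a finite set `Y0` there is `B` such that for all `η` in
`Y0` and all `w` some `g` fixes `η`, preserves the product of the heights and makes them comparable;
then each is at least the geometric mean divided by `B`. One takes `g = diag(u², 1)` for a unit `u ≡ 1`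
modulo the ideal of `congruence_subgroup_fixes`; `|e_j(u²)| = |e_j(u)|²` is the factor in
`balance_by_units` (both in `GuideSiegel`). (`H35BK1.hbal_aux`) -/
theorem balancing_by_units {K : Type*} [Field K] [NumberField K] {J : Type*} [Fintype J] [Nonempty J]
    (m : H59D.Model K J) {Y0 : Set (H59XF.XF m.L.fam)} (hY0 : Y0.Finite) :
    ∃ B : ℝ, 1 ≤ B ∧ ∀ η ∈ Y0, ∀ w : J → H3, ∃ g : PGL(2, K), g • η = η ∧
      ∏ j, (m.actInf g w j).y = ∏ j, (w j).y ∧
      (∀ i j, (m.actInf g w i).y ≤ B * (m.actInf g w j).y) ∧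
      ∀ j, (∏ i, (w i).y) ^ (1 / (Fintype.card J : ℝ)) ≤ B * (m.actInf g w j).y :=
  H35BK.hbal_aux m hY0

/-- **The Siegel set of the model**: the product of a Siegel set with a finite set `Y0` is measurable,
has finite measure and is met by every orbit for only finitely many group elements. (`H26ZCut`) -/
theorem siegel_set_of_the_model {K : Type*} [Field K] [NumberField K] {J : Type*} [Fintype J]
    (m : H59D.Model K J) {c : ℝ} (hc : 0 < c) (C R : ℝ) {Y0 : Set (H59XF.XF m.L.fam)}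
    (hY0 : Y0.Finite) :
    (∀ x : m.X, x ∈ H26Z.sset m c C R Y0 ↔ ((∀ j, c ≤ (x.1 j).y) ∧
      (∀ j k, (x.1 j).y ≤ C * (x.1 k).y) ∧ ∀ j, ‖(x.1 j).z‖ ≤ R) ∧ x.2 ∈ Y0) ∧
    MeasurableSet (H26Z.sset m c C R Y0) ∧ m.μ (H26Z.sset m c C R Y0) < ⊤ ∧
    ∀ x : m.X, {g : PGL(2, K) | g • x ∈ H26Z.sset m c C R Y0}.Finite :=
  ⟨fun _ => Iff.rfl, H26Z.measurableSet_sset m c C R Y0, H26Z.μ_sset_lt_top m hc C R hY0,
    H26Z.finite_sset m hc C R hY0⟩

/-- **The covering theorem for the model**, by `covering` and `exists_equivariant_map_to_lattices` of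
`GuideSiegel`. (`H26ZCut.exists_covers`) -/
theorem covering_of_the_model {K : Type*} [Field K] [NumberField K] {J : Type*} [Fintype J]
    (m : H59D.Model K J) :
    ∃ (Y0 : Set (H59XF.XF m.L.fam)) (c C R : ℝ), Y0.Finite ∧ 0 < c ∧ 0 < C ∧ 0 < R ∧
      ∀ x : m.X, ∃ g : PGL(2, K), g • x ∈ H26Z.sset m c C R Y0 :=
  H26Z.exists_covers m

/-- **The geometric input of the bounded kernel theorem** (`bounded_kernel_abstract` of `GuideTrace`): a
finite set `Y0` of points of the finite part, `B` and `c > 0` such that over `Y0` every point `w` is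
equivalent to a point with the same product of heights and all heights at least the geometric mean
divided by `B`, and every point of the model is equivalent to one over `Y0` with all heights at least
`c`. The hypothesis `hcov` is `covering_of_the_model`. (`H35BK1.geom`) -/
theorem geometric_input {K : Type*} [Field K] [NumberField K] {J : Type*} [Fintype J] [Nonempty J]
    (m : H59D.Model K J)
    (hcov : ∃ Y0 : Set (H59XF.XF m.L.fam), Y0.Finite ∧ ∃ c C R : ℝ, 0 < c ∧ 0 < C ∧ 0 < R ∧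
      ∀ x : m.X, ∃ g : PGL(2, K), ((∀ j, c ≤ ((g • x).1 j).y) ∧
        (∀ j k, ((g • x).1 j).y ≤ C * ((g • x).1 k).y) ∧ ∀ j, ‖((g • x).1 j).z‖ ≤ R) ∧
        (g • x).2 ∈ Y0) :
    ∃ Y0 : Set (H59XF.XF m.L.fam), Y0.Finite ∧ ∃ B c : ℝ, 1 ≤ B ∧ 0 < c ∧
      (∀ η ∈ Y0, ∀ w : J → H3, ∃ w' : J → H3,
        (∃ g : PGL(2, K), (m.actInf g w, g • η) = (w', η)) ∧
        ∏ j, (w' j).y = ∏ j, (w j).y ∧
        ∀ j, (∏ i, (w i).y) ^ (1 / (Fintype.card J : ℝ)) ≤ B * (w' j).y) ∧
      ∀ x : m.X, ∃ w : J → H3, ∃ η ∈ Y0, (∃ g : PGL(2, K), g • x = (w, η)) ∧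
        ∀ j, c ≤ (w j).y :=
  H35BK.geom m hcov

/-- **The hypothesis of the count holds**: every point of the finite part is fixed by the translations
by all multiples of a nonzero element of `𝓞 K` (`H31I.TrStab`, hypothesis of `count_abstract` in
`GuideBoundedKernels`). This gives `counting` of `GuideSiegel`, and proper discontinuity once more: only
finitely many `g` map `η'` to `η` and `w'` to a point at bounded distance from `w`. (`H31I3.trStab`,
`finite_pd`) -/
theorem hypothesis_of_the_count {K : Type*} [Field K] [NumberField K] {J : Type*} [Fintype J]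
    (m : H59D.Model K J) (η η' : H59XF.XF m.L.fam) :
    H31I.TrStab (K := K) η ∧ ∀ (T : ℝ) (w w' : J → H3),
      {g : PGL(2, K) | g • η' = η ∧ ∀ j, H3.ch (w j) (m.actInf g w' j) ≤ T}.Finite :=
  ⟨H31I.trStab m.L η, fun T w w' => H31I.finite_pd m η η' T w w'⟩

/-- **Sums of a kernel over the group are finite.** Let `k` be a bounded kernel of finite range on the
model (hypotheses of `crude_bound` in `GuideSiegel`). Then only finitely many `g` in `PGL₂(K)` have
`k(x, g x') ≠ 0`. (`H31I3.FinRange.finite`) -/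
theorem kernel_sum_is_finite {K : Type*} [Field K] [NumberField K] {J : Type*} [Fintype J]
    {m : H59D.Model K J} {k : (J → H3) × H59XF.XF m.L.fam → (J → H3) × H59XF.XF m.L.fam → ℂ}
    {T B : ℝ} (hB : ∀ x y, ‖k x y‖ ≤ B)
    (hT : ∀ x y, k x y ≠ 0 → ∀ j, H3.ch (x.1 j) (y.1 j) ≤ T)
    (hfin : ∀ η : H59XF.XF m.L.fam,
      {η' : H59XF.XF m.L.fam | ∃ w w' : J → H3, k (w, η) (w', η') ≠ 0}.Finite)
    (w w' : J → H3) (η η' : H59XF.XF m.L.fam) :
    {g : PGL(2, K) | k (w, η) (m.actInf g w', g • η') ≠ 0}.Finite :=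
  H31I.FinRange.finite ⟨hB, hT, hfin⟩ w w' η η'

/-- **The crude bound for finite sums**, uniformly in the finite set `s` of group elements: the sum of
`‖k(x, g x')‖` over `s` is at most `M (ht w · ht w')^4`, `ht w = ∏ y_j`, for heights at least `c` and
finite parts in a finite set. (`H31I3.crude`) -/
theorem crude_bound_for_finite_sums {K : Type*} [Field K] [NumberField K] {J : Type*} [Fintype J]
    {m : H59D.Model K J} {k : (J → H3) × H59XF.XF m.L.fam → (J → H3) × H59XF.XF m.L.fam → ℂ}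
    {T B : ℝ} (hB : ∀ x y, ‖k x y‖ ≤ B)
    (hT : ∀ x y, k x y ≠ 0 → ∀ j, H3.ch (x.1 j) (y.1 j) ≤ T)
    (hfin : ∀ η : H59XF.XF m.L.fam,
      {η' : H59XF.XF m.L.fam | ∃ w w' : J → H3, k (w, η) (w', η') ≠ 0}.Finite)
    {Y0 : Set (H59XF.XF m.L.fam)} (hY0 : Y0.Finite) {c : ℝ} (hc : 0 < c) :
    ∃ M, 0 ≤ M ∧ ∀ η ∈ Y0, ∀ η' ∈ Y0, ∀ w w' : J → H3, (∀ j, c ≤ (w j).y) →
      (∀ j, c ≤ (w' j).y) → ∀ s : Finset PGL(2, K),
        ∑ g ∈ s, ‖k (w, η) (m.actInf g w', g • η')‖ ≤
          M * ((∏ j, (w j).y) * ∏ j, (w' j).y) ^ (4 : ℝ) :=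
  H31I.crude ⟨hB, hT, hfin⟩ hY0 hc

end Fermat.Agent.Guide.SiegelSteps
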