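import Fermat.Agent.S01

/-!
# Guide to the proof: squarefree values of binary quartic forms (companion of `GuideResidualSteps`)

This file contains no new mathematics. Every theorem below is proved by citing theorems of the library;
the statements are written out. It explains the proof of `squarefree_quartic_values` of
`GuideResidualSteps`: in the proof of the residual modularity modulo 3 the curve `E` is replaced by a
member of its Hesse pencil whose discriminant has odd valuations, negative sign and prescribed prime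
divisors. The discriminant of a member is, for an integral model of `E`, that of `E` times the cube of
`l⁴ + b₂ l³ m + 9 b₄ l² m² + 27 b₆ l m³ + 27 b₈ m⁴`. So one needs values of a binary quartic form which
are not divisible by `p²` for any prime `p` outside a given finite set, with `(l, m)` in a given residue
class and in a given cone.

The method. `F(l, m) = a0 l⁴ + a1 l³ m + a2 l² m² + a3 l m³ + a4 m⁴` with `a0 ≠ 0` and without multiple
factors, `f = F(X, 1)`. Enlarge the modulus `M` so that it is divisible by all primes below 50, by the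
primes which divide `a0` and by those which divide `c` in `U f + V f' = c ≠ 0` (`enlarge_modulus`; the
local conditions are put into the residue class). Look at the `Y²` pairs `(l0 + M u, m0 + M v)` with
`(u, v)` in a square of side `Y` inside the cone. The pairs which are not wanted are:
* those with a common prime factor `p ∤ M`: at most `∑ (Y / p + 1)²`, that is less than
  `4 Y² / 49 + O(Y)`;
* those with `p² ∣ F(l, m)` for a `p ≤ K Y`: `f` has at most four roots modulo `p²`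
  (`roots_mod_square`), so for each `v` at most `4 (Y / p² + 1)` values `u` are bad (`row_count`),
  altogether less than `4 Y² / 49 + 4 Y π(K Y)`;
* those with `p² ∣ F(l, m)` for a `p > K Y`: two coprime pairs which give the same root modulo `p²`
  satisfy `l m' = l' m` modulo `p²`, hence `l m' = l' m` because the numbers are small, hence they are
  equal; so there are at most four for every `p` (`large_prime_count`). Since `p² ≤ |F(l, m)| = O(Y⁴)`
  only the primes `p ≤ C Y²` occur, altogether at most `4 π(C Y²)`.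
(The value `0` is excluded as well: it is divisible by the square of a small prime `p ∤ M`.) By
`π(x) = o(x)` the terms with `π` are small compared to `Y²`, and a good pair is left. It is essential that
the degree is at most four: only primes `p ≤ C Y²` occur, for `Y²` pairs. (Squarefree values of more
general forms are treated by Hooley and by Greaves; nothing of this is used.)

Reading order.
1. Roots modulo `p²`: `dehomogenise`, `degree_and_coefficient`, `bezout_identity`, `roots_mod_square`.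
2. Counting: `primes_have_density_zero`, `residue_class_count`, `linear_congruence_count`,
   `sum_of_inverse_squares`, `square_estimate`, `primes_up_to`, `few_primes`, `sum_over_primes`.
3. Values of the form: `common_prime_factor`, `size_of_values`, `first_coordinate`,
   `second_coordinate`, `congruent_values`.
4. The estimates: `row_count`, `large_prime_count`, `good_pair_in_box`.
5. Local conditions and cones: `chinese_remainder`, `enlarge_modulus`, `square_in_cone`,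
   `squarefree_values`.

All theorems cited in this file are used in the proofs of S59, S60, S50, S46, S45, S38, S06, S04, S03
and S01. Files `H74Sv1`, `H74Sv2`, `H74Sv3`, `H74Sv4`, `H74Sv` (helper74). The application to the Hesse
pencil is in `H3LTCurve`, `H3LTPartner`, `H3LTM1` (helper3), see `GuideGoodCurve`. NOTES: [311].
-/

set_option autoImplicit false

open Fermat.Agent Polynomial

noncomputable section

namespace Fermat.Agent.Guide.Sieve

/-! ## 1. Roots modulo the square of a prime -/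

/-- **Dehomogenisation**: if `l = x m` in a commutative ring `R`, then `F(l, m) = f(x) m⁴` in `R`, with
`f = a0 X⁴ + a1 X³ + a2 X² + a3 X + a4`. File `H74Sv1`. -/
theorem dehomogenise {R : Type*} [CommRing R] (a0 a1 a2 a3 a4 l m : ℤ) (x : R)
    (h : (l : R) = x * m) :
    ((a0 * l ^ 4 + a1 * l ^ 3 * m + a2 * l ^ 2 * m ^ 2 + a3 * l * m ^ 3 + a4 * m ^ 4 : ℤ) : R) =
      ((C a0 * X ^ 4 + C a1 * X ^ 3 + C a2 * X ^ 2 + C a3 * X + C a4 : ℤ[X]).map
        (Int.castRingHom R)).eval x * (m : R) ^ 4 :=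
  H74.Sv.cast_qf a0 a1 a2 a3 a4 l m x h

/-- **The polynomial `f`** has degree at most four and its coefficient of degree four is `a0`. File
`H74Sv1`. -/
theorem degree_and_coefficient (a0 a1 a2 a3 a4 : ℤ) :
    (C a0 * X ^ 4 + C a1 * X ^ 3 + C a2 * X ^ 2 + C a3 * X + C a4 : ℤ[X]).natDegree ≤ 4 ∧
      (C a0 * X ^ 4 + C a1 * X ^ 3 + C a2 * X ^ 2 + C a3 * X + C a4 : ℤ[X]).coeff 4 = a0 :=
  ⟨H74.Sv.natDegree_qp_le a0 a1 a2 a3 a4, H74.Sv.coeff_qp a0 a1 a2 a3 a4⟩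

/-- **Bezout identity**: if `f` in `ℤ[X]` is separable over `ℚ`, then `U f + V f' = c` with `U`, `V` in
`ℤ[X]` and an integer `c ≠ 0`. (The resultant is not used.) File `H74Sv1`. -/
theorem bezout_identity {f : ℤ[X]} (hf : (f.map (Int.castRingHom ℚ)).Separable) :
    ∃ (U V : ℤ[X]) (c : ℤ), c ≠ 0 ∧ U * f + V * derivative f = C c :=
  H74.Sv.exists_bezout hf

/-- **At most four roots modulo `p²`**, for a prime `p` which divides neither `a0` nor the number `c` of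
`bezout_identity`. Proof: modulo `p` the polynomial is not zero and has degree at most four; and two
roots modulo `p²` which agree modulo `p` agree, because `f'` is a unit at a root (Hensel). File
`H74Sv1`. -/
theorem roots_mod_square {a0 a1 a2 a3 a4 : ℤ} {U V : ℤ[X]} {c : ℤ}
    (hUV : U * (C a0 * X ^ 4 + C a1 * X ^ 3 + C a2 * X ^ 2 + C a3 * X + C a4) +
      V * derivative (C a0 * X ^ 4 + C a1 * X ^ 3 + C a2 * X ^ 2 + C a3 * X + C a4) = C c)
    {p : ℕ} (hp : p.Prime) (h0 : ¬ (p : ℤ) ∣ a0) (hc : ¬ (p : ℤ) ∣ c) :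
    ∃ S : Finset (ZMod (p ^ 2)), S.card ≤ 4 ∧ ∀ x : ZMod (p ^ 2),
      ((C a0 * X ^ 4 + C a1 * X ^ 3 + C a2 * X ^ 2 + C a3 * X + C a4 : ℤ[X]).map
        (Int.castRingHom (ZMod (p ^ 2)))).eval x = 0 → x ∈ S :=
  H74.Sv.card_roots_sq_le hUV hp h0 hc

/-! ## 2. Counting -/

/-- **The primes have density zero**: `π(x) ≤ ε x` for large `x`. From Chebyshev's upper bound in
Mathlib. File `H74Sv2`. -/
theorem primes_have_density_zero {ε : ℝ} (hε : 0 < ε) :
    ∃ x₀ : ℕ, ∀ x : ℕ, x₀ ≤ x → (Nat.primeCounting x : ℝ) ≤ ε * x :=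
  H74.Sv.primeCounting_small hε

/-- **A residue class in an interval** of length `Y` has at most `Y / n + 1` elements. File `H74Sv2`. -/
theorem residue_class_count (a : ℤ) (Y n : ℕ) (hn : 0 < n) (t : ℤ) :
    ((Finset.Ico a (a + Y)).filter (fun u => u ≡ t [ZMOD n])).card ≤ Y / n + 1 :=
  H74.Sv.card_res_le a Y n hn t

/-- **A linear congruence** `n ∣ b + M u` with `M` prime to `n` has at most `Y / n + 1` solutions in an
interval of length `Y`. File `H74Sv2`. -/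
theorem linear_congruence_count (a : ℤ) (Y n : ℕ) (hn : 0 < n) (M b : ℤ)
    (hM : IsCoprime (M : ℤ) n) :
    ((Finset.Ico a (a + Y)).filter (fun u => (n : ℤ) ∣ b + M * u)).card ≤ Y / n + 1 :=
  H74.Sv.card_lin_le a Y n hn M b hM

/-- **The sum of the inverse squares** of distinct integers between `z ≥ 2` and `Y` is at most
`1 / (z - 1)`. File `H74Sv2`. -/
theorem sum_of_inverse_squares (z Y : ℕ) (hz : 2 ≤ z) (S : Finset ℕ)
    (hS : ∀ p ∈ S, z ≤ p ∧ p ≤ Y) : ∑ p ∈ S, 1 / (p : ℝ) ^ 2 ≤ 1 / (z - 1 : ℝ) :=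
  H74.Sv.sum_inv_sq_le z Y hz S hS

/-- **An estimate**: `([Y / p] + 1)² ≤ 4 Y² / p² + 1`. File `H74Sv4`. -/
theorem square_estimate (Y p : ℕ) (hp : 0 < p) :
    (((Y / p + 1) ^ 2 : ℕ) : ℝ) ≤ 4 * (Y : ℝ) ^ 2 * (1 / (p : ℝ) ^ 2) + 1 :=
  H74.Sv.sq_div_add_one_le Y p hp

/-- **The set `H74.Sv.pr M B`** of the primes up to `B` which do not divide `M`. File `H74Sv4`. -/
theorem primes_up_to {M B p : ℕ} : p ∈ H74.Sv.pr M B ↔ p ≤ B ∧ p.Prime ∧ ¬ p ∣ M :=
  H74.Sv.mem_pr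

/-- **Their number** is at most `π(B)` and at most `B`. File `H74Sv4`. -/
theorem few_primes (M B : ℕ) :
    (H74.Sv.pr M B).card ≤ Nat.primeCounting B ∧ (H74.Sv.pr M B).card ≤ B :=
  ⟨H74.Sv.card_pr_le M B, H74.Sv.card_pr_le' M B⟩

/-- **The sum of their inverse squares** is at most `1 / 49` if `M` is divisible by all primes below 50.
File `H74Sv4`. -/
theorem sum_over_primes (M B : ℕ) (h50 : ∀ p : ℕ, p.Prime → p < 50 → p ∣ M) :
    ∑ p ∈ H74.Sv.pr M B, 1 / (p : ℝ) ^ 2 ≤ 1 / 49 :=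
  H74.Sv.sum_pr_le M B h50

/-! ## 3. Values of the form -/

/-- **Common prime factors**: if `p ∤ a0` divides `F(l, m)` and `m`, then it divides `l`. So for coprime
`(l, m)` with `p² ∣ F(l, m)` the number `m` is a unit modulo `p`, and `l / m` is a root of `f` modulo
`p²` (`dehomogenise`). File `H74Sv4`. -/
theorem common_prime_factor {a0 a1 a2 a3 a4 l m : ℤ} {p : ℕ} (hp : p.Prime)
    (h0 : ¬ (p : ℤ) ∣ a0)
    (h : (p : ℤ) ∣
      a0 * l ^ 4 + a1 * l ^ 3 * m + a2 * l ^ 2 * m ^ 2 + a3 * l * m ^ 3 + a4 * m ^ 4)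
    (hm : (p : ℤ) ∣ m) : (p : ℤ) ∣ l :=
  H74.Sv.dvd_left_of_dvd_right hp h0 h hm

/-- **The size of the values**: `|F(l, m)| ≤ (∑ |a_i|) L⁴` for `|l|, |m| ≤ L`. File `H74Sv4`. -/
theorem size_of_values (a0 a1 a2 a3 a4 l m L : ℤ) (hl : |l| ≤ L) (hm : |m| ≤ L) :
    |a0 * l ^ 4 + a1 * l ^ 3 * m + a2 * l ^ 2 * m ^ 2 + a3 * l * m ^ 3 + a4 * m ^ 4| ≤
      (|a0| + |a1| + |a2| + |a3| + |a4|) * L ^ 4 :=
  H74.Sv.abs_qf_le a0 a1 a2 a3 a4 l m L hl hm

/-- **The first coordinate** `l = l0 + M u` of a pair in the box `A Y ≤ u < (A + 1) Y`,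
`E Y ≤ v < (E + 1) Y` satisfies `|l| ≤ Λ Y`, where `Λ = |l0| + |m0| + M (|A| + E + 2)`. File
`H74Sv4`. -/
theorem first_coordinate (M : ℕ) (l0 m0 A : ℤ) (E Y : ℕ) (hY0 : 0 < Y) (u : ℤ) (h1 : A * Y ≤ u)
    (h2 : u < A * Y + Y) :
    |l0 + M * u| ≤ ((l0.natAbs + m0.natAbs + M * (A.natAbs + E + 2)) * Y : ℕ) :=
  H74.Sv.box_l M l0 m0 A E Y hY0 u h1 h2

/-- **The second coordinate** `m = m0 + M v` satisfies `0 < m ≤ Λ Y`, if `E > 0` and `Y > |m0|`. File
`H74Sv4`. -/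
theorem second_coordinate (M : ℕ) (hM : 0 < M) (l0 m0 A : ℤ) (E Y : ℕ) (hE : 0 < E)
    (hY0 : m0.natAbs < Y) (v : ℤ) (h1 : (E : ℤ) * Y ≤ v) (h2 : v < (E : ℤ) * Y + Y) :
    0 < m0 + M * v ∧
      m0 + M * v ≤ ((l0.natAbs + m0.natAbs + M * (A.natAbs + E + 2)) * Y : ℕ) :=
  H74.Sv.box_m M hM l0 m0 A E Y hE hY0 v h1 h2

/-- **Congruent arguments give congruent values.** File `H74Sv`. -/
theorem congruent_values {a0 a1 a2 a3 a4 l m l' m' n : ℤ} (hl : l ≡ l' [ZMOD n])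
    (hm : m ≡ m' [ZMOD n]) :
    a0 * l ^ 4 + a1 * l ^ 3 * m + a2 * l ^ 2 * m ^ 2 + a3 * l * m ^ 3 + a4 * m ^ 4 ≡
      a0 * l' ^ 4 + a1 * l' ^ 3 * m' + a2 * l' ^ 2 * m' ^ 2 + a3 * l' * m' ^ 3 + a4 * m' ^ 4
      [ZMOD n] :=
  H74.Sv.qf_modEq hl hm

/-! ## 4. The estimates -/

/-- **Bad pairs in a row.** Let `p` divide neither `a0` nor `c`, `M`, `m`. In an interval of length `Y`
there are at most `4 ([Y / p²] + 1)` numbers `u` with `p² ∣ F(l0 + M u, m)`. Proof: `(l0 + M u) / m` is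
one of the at most four roots modulo `p²`, and each gives a linear congruence for `u`. File
`H74Sv3`. -/
theorem row_count {a0 a1 a2 a3 a4 : ℤ} {U V : ℤ[X]} {c : ℤ}
    (hUV : U * (C a0 * X ^ 4 + C a1 * X ^ 3 + C a2 * X ^ 2 + C a3 * X + C a4) +
      V * derivative (C a0 * X ^ 4 + C a1 * X ^ 3 + C a2 * X ^ 2 + C a3 * X + C a4) = C c)
    {p : ℕ} (hp : p.Prime) (h0 : ¬ (p : ℤ) ∣ a0) (hc : ¬ (p : ℤ) ∣ c)
    (M l0 : ℤ) (hM : ¬ (p : ℤ) ∣ M) (m : ℤ) (hm : ¬ (p : ℤ) ∣ m) (a : ℤ) (Y : ℕ) :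
    ((Finset.Ico a (a + Y)).filter (fun u => ((p : ℤ) ^ 2) ∣
      a0 * (l0 + M * u) ^ 4 + a1 * (l0 + M * u) ^ 3 * m + a2 * (l0 + M * u) ^ 2 * m ^ 2 +
        a3 * (l0 + M * u) * m ^ 3 + a4 * m ^ 4)).card ≤ 4 * (Y / p ^ 2 + 1) :=
  H74.Sv.card_bad_row_le hUV hp h0 hc M l0 hM m hm a Y

/-- **Bad pairs for a large prime.** Let `p` divide neither `a0` nor `c`, `M ≠ 0` and `2 L² < p²`. A set
`T` of pairs `(u, v)` for which `l = l0 + M u` and `m = m0 + M v` are coprime, `|l| ≤ L`, `0 < m ≤ L` and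
`p² ∣ F(l, m)` has at most four elements. File `H74Sv3`. -/
theorem large_prime_count {a0 a1 a2 a3 a4 : ℤ} {U V : ℤ[X]} {c : ℤ}
    (hUV : U * (C a0 * X ^ 4 + C a1 * X ^ 3 + C a2 * X ^ 2 + C a3 * X + C a4) +
      V * derivative (C a0 * X ^ 4 + C a1 * X ^ 3 + C a2 * X ^ 2 + C a3 * X + C a4) = C c)
    {p : ℕ} (hp : p.Prime) (h0 : ¬ (p : ℤ) ∣ a0) (hc : ¬ (p : ℤ) ∣ c)
    (M l0 m0 : ℤ) (hM0 : M ≠ 0) (T : Finset (ℤ × ℤ)) (L : ℤ) (hL : 2 * L ^ 2 < (p : ℤ) ^ 2)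
    (hT : ∀ w ∈ T,
      ((p : ℤ) ^ 2 ∣ a0 * (l0 + M * w.1) ^ 4 + a1 * (l0 + M * w.1) ^ 3 * (m0 + M * w.2) +
        a2 * (l0 + M * w.1) ^ 2 * (m0 + M * w.2) ^ 2 +
        a3 * (l0 + M * w.1) * (m0 + M * w.2) ^ 3 + a4 * (m0 + M * w.2) ^ 4) ∧
      IsCoprime (l0 + M * w.1) (m0 + M * w.2) ∧ |l0 + M * w.1| ≤ L ∧ 0 < m0 + M * w.2 ∧
      m0 + M * w.2 ≤ L) : T.card ≤ 4 :=
  H74.Sv.card_large_le hUV hp h0 hc M l0 m0 hM0 T L hL hT

/-- **A good pair in a large box.** Let `M` be divisible by all primes below 50 and by the prime divisors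
of `a0` and `c`, and let `(l0, m0)` be a pair without a common prime divisor which divides `M`. For every
`A`, every `E > 0` and all large `Y` there is `(u, v)` in the box `A Y ≤ u < (A + 1) Y`,
`E Y ≤ v < (E + 1) Y` such that `(l, m) = (l0 + M u, m0 + M v)` is coprime and no `p²` with `p ∤ M`
divides `F(l, m)`. Proof: the count described in the header of this file. File `H74Sv4`. -/
theorem good_pair_in_box {a0 a1 a2 a3 a4 : ℤ} {U V : ℤ[X]} {c : ℤ}
    (hUV : U * (C a0 * X ^ 4 + C a1 * X ^ 3 + C a2 * X ^ 2 + C a3 * X + C a4) +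
      V * derivative (C a0 * X ^ 4 + C a1 * X ^ 3 + C a2 * X ^ 2 + C a3 * X + C a4) = C c)
    (M : ℕ) (hM : 0 < M) (h50 : ∀ p : ℕ, p.Prime → p < 50 → p ∣ M)
    (ha0 : ∀ p : ℕ, p.Prime → (p : ℤ) ∣ a0 → p ∣ M)
    (hc : ∀ p : ℕ, p.Prime → (p : ℤ) ∣ c → p ∣ M)
    (l0 m0 : ℤ) (hcop : ∀ p : ℕ, p.Prime → p ∣ M → ¬ ((p : ℤ) ∣ l0 ∧ (p : ℤ) ∣ m0))
    (A : ℤ) (E : ℕ) (hE : 0 < E) :
    ∃ Y₀ : ℕ, ∀ Y : ℕ, Y₀ ≤ Y → ∃ u v l m : ℤ, A * Y ≤ u ∧ u < A * Y + Y ∧ (E : ℤ) * Y ≤ v ∧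
      v < (E : ℤ) * Y + Y ∧ l = l0 + M * u ∧ m = m0 + M * v ∧ IsCoprime l m ∧
      ∀ p : ℕ, p.Prime → ¬ p ∣ M → ¬ ((p : ℤ) ^ 2 ∣
        a0 * l ^ 4 + a1 * l ^ 3 * m + a2 * l ^ 2 * m ^ 2 + a3 * l * m ^ 3 + a4 * m ^ 4) := by
  obtain ⟨Y₀, h⟩ := H74.Sv.exists_good_in_box hUV M hM h50 ha0 hc l0 m0 hcop A E hE
  refine ⟨Y₀, fun Y hY => ?_⟩
  obtain ⟨u, v, h1, h2, h3, h4, h5, h6⟩ := h Y hY
  exact ⟨u, v, _, _, h1, h2, h3, h4, rfl, rfl, h5, h6⟩

/-! ## 5. Local conditions and cones -/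

/-- **Chinese remainder theorem** for two coprime integers. File `H74Sv`. -/
theorem chinese_remainder {n k : ℤ} (h : IsCoprime n k) (a b : ℤ) :
    ∃ x : ℤ, x ≡ a [ZMOD n] ∧ x ≡ b [ZMOD k] :=
  H74.Sv.exists_crt h a b

/-- **Enlarging the modulus.** Given `M`, a pair `(l0, m0)` without a common prime divisor which divides
`M`, the local hypothesis `hloc` (for every `p ∤ M` some pair, not both divisible by `p`, has
`p² ∤ F(l, m)`), and a finite set `T` of primes, there are a multiple `M'` of `M` which is divisible by the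
primes of `T`, and a pair `(l1, m1)` congruent to `(l0, m0)` modulo `M`, without a common prime divisor
which divides `M'`, such that for the new primes `p` (`p ∣ M'`, `p ∤ M`) one has `p² ∣ M'` and
`p² ∤ F(l1, m1)`: the condition at `p` is then satisfied in the whole residue class modulo `M'`. Proof:
induction over `T`. File `H74Sv`. -/
theorem enlarge_modulus (a0 a1 a2 a3 a4 : ℤ) (M : ℕ) (hM : 0 < M) (l0 m0 : ℤ)
    (hcop : ∀ p : ℕ, p.Prime → p ∣ M → ¬ ((p : ℤ) ∣ l0 ∧ (p : ℤ) ∣ m0))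
    (hloc : ∀ p : ℕ, p.Prime → ¬ p ∣ M → ∃ l m : ℤ, ¬ ((p : ℤ) ∣ l ∧ (p : ℤ) ∣ m) ∧
      ¬ ((p : ℤ) ^ 2 ∣
        a0 * l ^ 4 + a1 * l ^ 3 * m + a2 * l ^ 2 * m ^ 2 + a3 * l * m ^ 3 + a4 * m ^ 4))
    (T : Finset ℕ) (hT : ∀ p ∈ T, p.Prime) :
    ∃ (M' : ℕ) (l1 m1 : ℤ), 0 < M' ∧ M ∣ M' ∧ (∀ p ∈ T, p ∣ M') ∧ l1 ≡ l0 [ZMOD M] ∧
      m1 ≡ m0 [ZMOD M] ∧
      (∀ p : ℕ, p.Prime → p ∣ M' → ¬ ((p : ℤ) ∣ l1 ∧ (p : ℤ) ∣ m1)) ∧
      ∀ p : ℕ, p.Prime → p ∣ M' → ¬ p ∣ M → p ^ 2 ∣ M' ∧ ¬ ((p : ℤ) ^ 2 ∣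
        a0 * l1 ^ 4 + a1 * l1 ^ 3 * m1 + a2 * l1 ^ 2 * m1 ^ 2 + a3 * l1 * m1 ^ 3 +
          a4 * m1 ^ 4) :=
  H74.Sv.exists_enlarge a0 a1 a2 a3 a4 M hM l0 m0 hcop hloc T hT

/-- **A square in the cone** `x0 < u / v < x1`: all four corners of `[A, A + 1] × [E, E + 1]` satisfy
the two inequalities (which are linear, so the whole square does). File `H74Sv`. -/
theorem square_in_cone (x0 x1 : ℝ) (hx : x0 < x1) :
    ∃ (A : ℤ) (E : ℕ), 0 < E ∧ x0 * E < A ∧ x0 * (E + 1) < A ∧ (A + 1 : ℝ) < x1 * E ∧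
      (A + 1 : ℝ) < x1 * (E + 1) :=
  H74.Sv.exists_cell x0 x1 hx

/-- **Squarefree values** (the theorem `squarefree_quartic_values` of `GuideResidualSteps`, repeated
here as the conclusion). Proof: `bezout_identity`, `enlarge_modulus` for the primes below 50 and the
primes dividing `a0 c`, `square_in_cone`, `good_pair_in_box` with a large `Y`. File `H74Sv`. -/
theorem squarefree_values (a0 a1 a2 a3 a4 : ℤ) (ha0 : a0 ≠ 0)
    (hsep : ((C a0 * X ^ 4 + C a1 * X ^ 3 + C a2 * X ^ 2 + C a3 * X + C a4 : ℤ[X]).map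
      (Int.castRingHom ℚ)).Separable)
    (M : ℕ) (hM : 0 < M) (l0 m0 : ℤ)
    (hcop : ∀ p : ℕ, p.Prime → p ∣ M → ¬ ((p : ℤ) ∣ l0 ∧ (p : ℤ) ∣ m0))
    (hloc : ∀ p : ℕ, p.Prime → ¬ p ∣ M → ∃ l m : ℤ, ¬ ((p : ℤ) ∣ l ∧ (p : ℤ) ∣ m) ∧
      ¬ ((p : ℤ) ^ 2 ∣
        a0 * l ^ 4 + a1 * l ^ 3 * m + a2 * l ^ 2 * m ^ 2 + a3 * l * m ^ 3 + a4 * m ^ 4))
    (x0 x1 : ℝ) (hx : x0 < x1) (B : ℕ) :
    ∃ l m : ℤ, (B : ℤ) < m ∧ x0 * m < l ∧ (l : ℝ) < x1 * m ∧ l ≡ l0 [ZMOD M] ∧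
      m ≡ m0 [ZMOD M] ∧ IsCoprime l m ∧
      ∀ p : ℕ, p.Prime → ¬ p ∣ M → ¬ ((p : ℤ) ^ 2 ∣
        a0 * l ^ 4 + a1 * l ^ 3 * m + a2 * l ^ 2 * m ^ 2 + a3 * l * m ^ 3 + a4 * m ^ 4) :=
  H74.Sv.exists_sqfree_quartic a0 a1 a2 a3 a4 ha0 hsep M hM l0 m0 hcop hloc x0 x1 hx B

end Fermat.Agent.Guide.Sieve
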