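import Fermat.Agent.S25

/-!
# Guide to the proof: smooth curves and their two charts (S25, companion of `GuideJacobians`)

This file contains no new mathematics. Every theorem below is proved by citing theorems of the
library; the statements are written out. It shows the steps behind `exists_two_charts` of
`GuideJacobians` (a smooth proper curve `C` over an algebraically closed field `k` is the union of two
affine charts `U`, `V` which are free of the same rank over `k[t]` and `k[t⁻¹]`) and behind section 7
of `GuideSheaves` (coordinate rings and local rings of `C`, the ideal of the diagonal). No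
embedding in a projective space and no normalisation is used, only the valuative criterion.

1. Algebra at a point: `value_at_point`, `cotangent_derivation`, `generator_of_cotangent`,
   `dvr_of_cyclic_differentials`, `dedekind_of_local_rings`.
2. Smooth algebras of relative dimension one: `differentials_generator`, `differentials_cyclic`,
   `not_field`, `curve_algebra_iff`, `curve_algebra`, `dedekind`, `nonconstant_is_transcendental`,
   `points_dense`.
3. Products and the diagonal: `product_domain`, `diagonal_ideal`, `nakayama_generator`,
   `invertible_of_locally_principal`.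
4. Rational functions on an integral scheme: `domain_of_definition`, `section_of_function`,
   `unit_locus`, `domains_cover`.
5. The map to the affine line: `map_to_line`, `preimage_of_basic_open`, `valuative_criterion`,
   `points_closed`, `closed_subsets_finite`, `finite_fibres`, `map_finite`, `domain_affine`.
6. The two charts: `basis_over_polynomials`, `rank_is_degree`, `charts_of_function`,
   `exists_transcendental_function`, `exists_charts`.
7. Points of the curve: `exists_rational_point`, `section_with_value`, `index_of_twist`,
   `finite_quotient_module`, `local_equation_on_affine`.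

All library theorems cited below are used in the proof of S25 and of no other statement. NOTES:
[105], [199] (sections 1 to 3, C1), [126] (sections 4 to 6), [211] (section 7). Files `H51CurveAlg`,
`H51CurveSm`, `H51CurveRing`, `H51Curve` (helper51), `H94TC1` to `H94TC5`, `H94TwoChart` (helper94),
`H25Eff1`, `H25Eff2` (helper25), `H20FinQ`, `H20TwLoc`, `H20Deg3` (helper20).
-/

set_option autoImplicit false
universe u

open CategoryTheory CategoryTheory.Limits AlgebraicGeometry NeronModelInfra TopologicalSpace
open Polynomial IsLocalRing
open Fermat.Agent Fermat.Agent.H25 Fermat.Agent.H21T Fermat.Agent.H94.TC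
open scoped TensorProduct

noncomputable section

namespace Fermat.Agent.Guide.SmoothCurves

/-! ## 1. Algebra at a point

`S` is an algebra of finite type over the algebraically closed field `k` and `m` a maximal ideal. -/

/-- **Nullstellensatz**: `S / m = k`; `H51Curve.ev k m : S → k` is the value at `m`. File
`H51CurveAlg`. -/
theorem value_at_point (k : Type*) [Field k] [IsAlgClosed k] {S : Type*} [CommRing S] [Algebra k S]
    [Algebra.FiniteType k S] (m : Ideal S) [m.IsMaximal] :
    Function.Bijective (algebraMap k (S ⧸ m)) ∧ (∀ s : S, H51Curve.ev k m s = 0 ↔ s ∈ m) ∧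
      ∀ s : S, s - algebraMap k S (H51Curve.ev k m s) ∈ m :=
  ⟨H51Curve.algebraMap_quotient_bijective k m, H51Curve.ev_eq_zero_iff k m, H51Curve.sub_ev_mem k m⟩

/-- **The derivation `S → m / m²`**, `s ↦ s - s(m)`; on `m` it is the residue class modulo `m²`. File
`H51CurveAlg`. -/
theorem cotangent_derivation (k : Type*) [Field k] [IsAlgClosed k] {S : Type*} [CommRing S]
    [Algebra k S] [Algebra.FiniteType k S] (m : Ideal S) [m.IsMaximal] :
    ∃ D : Derivation k S m.Cotangent, ∀ (s : S) (hs : s ∈ m), D s = m.toCotangent ⟨s, hs⟩ :=
  ⟨H51Curve.cotDer k m, fun _ hs => H51Curve.cotDer_apply_of_mem k m hs⟩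

/-- **Generators of `m / m²`.** `CycAt M p` says: there is `ω ∈ M` such that every element of `M` is,
after multiplication with some `s ∉ p`, a multiple of `ω`. If this holds for the differentials
`Ω = Ω_{S/k}` at `m` then `m = (x) + m²` for some `x` (the derivation factors through `Ω`). File
`H51CurveAlg`. -/
theorem generator_of_cotangent (k : Type*) [Field k] [IsAlgClosed k] {S : Type*} [CommRing S]
    [Algebra k S] [Algebra.FiniteType k S] (m : Ideal S) [m.IsMaximal] :
    (H51Curve.CycAt Ω[S⁄k] m ↔ ∃ ω : Ω[S⁄k], ∀ η : Ω[S⁄k], ∃ s ∉ m, ∃ a : S, s • η = a • ω) ∧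
      (H51Curve.CycAt Ω[S⁄k] m → ∃ x ∈ m, m ≤ Ideal.span {x} ⊔ m ^ 2) :=
  ⟨Iff.rfl, H51Curve.exists_le_span_sup k m⟩

/-- **Discrete valuation rings**: if `S` is a domain and not a field, and `Ω` is generated by one
element at `m`, then `S_m` is a discrete valuation ring (Nakayama: `x` generates the maximal ideal of
`S_m`, which is noetherian). File `H51CurveAlg`. -/
theorem dvr_of_cyclic_differentials (k : Type*) [Field k] [IsAlgClosed k] {S : Type*} [CommRing S]
    [IsDomain S] [Algebra k S] [Algebra.FiniteType k S] (hS : ¬ IsField S) (m : Ideal S)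
    [m.IsMaximal] (hΩ : H51Curve.CycAt Ω[S⁄k] m) :
    IsDiscreteValuationRing (Localization.AtPrime m) :=
  H51Curve.isDiscreteValuationRing_localization k hS m hΩ

/-- **Dedekind rings**: a noetherian domain whose localisations at the maximal ideals are discrete
valuation rings is a Dedekind domain. File `H51CurveAlg`. -/
theorem dedekind_of_local_rings {S : Type*} [CommRing S] [IsDomain S] [IsNoetherianRing S]
    (h : ∀ m : Ideal S, m.IsMaximal → ∀ _ : m.IsPrime,
      IsDiscreteValuationRing (Localization.AtPrime m)) : IsDedekindDomain S :=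
  H51Curve.isDedekindDomain_of_localization_maximal h

/-! ## 2. Smooth algebras of relative dimension one -/

/-- The differentials of a standard smooth algebra of relative dimension one are generated by one
element (they are free of rank one). File `H51CurveSm`. -/
theorem differentials_generator (k : Type u) [CommRing k] (T : Type u) [CommRing T] [Algebra k T]
    [Nontrivial T] (h : Algebra.IsStandardSmoothOfRelativeDimension 1 k T) :
    ∃ ω : Ω[T⁄k], ∀ η : Ω[T⁄k], ∃ c : T, η = c • ω :=
  H51Curve.exists_generator_of_isStandardSmooth k T h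

/-- Hence, if `S_t` is standard smooth of relative dimension one and `t ∉ p`, the differentials of `S`
are generated by one element at `p`. File `H51CurveSm`. -/
theorem differentials_cyclic (k : Type u) [CommRing k] {S : Type u} [CommRing S] [Algebra k S]
    (t : S) (h : Algebra.IsStandardSmoothOfRelativeDimension 1 k (Localization.Away t))
    (p : Ideal S) [p.IsPrime] (ht : t ∉ p) : H51Curve.CycAt Ω[S⁄k] p :=
  H51Curve.cycAt_of_isStandardSmooth k t h p ht

/-- And `S` is not a field: otherwise `S = S_t = k`, which has no differentials. File `H51CurveSm`. -/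
theorem not_field (k : Type u) [Field k] [IsAlgClosed k] {S : Type u} [CommRing S] [Algebra k S]
    [Algebra.FiniteType k S] (t : S)
    (h : Algebra.IsStandardSmoothOfRelativeDimension 1 k (Localization.Away t))
    [Nontrivial (Localization.Away t)] : ¬ IsField S :=
  H51Curve.not_isField_of_isStandardSmooth k t h

/-- **The coordinate ring of a smooth affine curve** (`IsCurveAlg k S`): a domain of finite type over
`k`, not a field, with differentials generated by one element at every prime ideal. File
`H51CurveRing`. -/
theorem curve_algebra_iff (k S : Type*) [CommRing k] [CommRing S] [Algebra k S] :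
    H51Curve.IsCurveAlg k S ↔ IsDomain S ∧ Algebra.FiniteType k S ∧ ¬ IsField S ∧
      ∀ p : Ideal S, p.IsPrime → H51Curve.CycAt Ω[S⁄k] p :=
  ⟨fun h => ⟨h.dom, h.ft, h.notField, h.cyc⟩, fun h => ⟨h.1, h.2.1, h.2.2.1, h.2.2.2⟩⟩

/-- **Smooth curves give such algebras**: if `C` is integral and smooth of relative dimension one over
`k` and `U` is a nonempty affine open subset, then `Γ(C, U)` is the coordinate ring of a smooth affine
curve (`strHom c U : k → Γ(C, U)` is the structure map). Files `H51CurveRing`, `H51Curve`. -/
theorem curve_algebra {k : Type u} [Field k] [IsAlgClosed k] {C : Scheme.{u}}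
    (c : C ⟶ Spec (CommRingCat.of k)) [SmoothOfRelativeDimension 1 c] [IsIntegral C] {U : C.Opens}
    (hU : IsAffineOpen U) [Nonempty U] :
    letI := (strHom c U).toAlgebra
    H51Curve.IsCurveAlg k Γ(C, U) :=
  H51Curve.isCurveAlg c hU

/-- **The coordinate ring of a smooth affine curve is a Dedekind domain** (`dvr_of_cyclic_differentials`
and `dedekind_of_local_rings`). File `H51CurveRing`. -/
theorem dedekind {k : Type*} [Field k] [IsAlgClosed k] {S : Type*} [CommRing S] [Algebra k S]
    (h : H51Curve.IsCurveAlg k S) : IsDedekindDomain S :=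
  h.isDedekindDomain

/-- **Nonconstant elements** of this ring are transcendental over `k`, and there are such elements.
File `H51CurveRing`. -/
theorem nonconstant_is_transcendental {k : Type*} [Field k] [IsAlgClosed k] {S : Type*} [CommRing S]
    [Algebra k S] (h : H51Curve.IsCurveAlg k S) :
    (∀ s : S, s ∉ Set.range (algebraMap k S) → Transcendental k s) ∧ ∃ s : S, Transcendental k s :=
  ⟨fun _ hs => h.transcendental_of_notMem_range hs, h.exists_transcendental⟩

/-- **Closed points are dense**: for `f ≠ 0` in this ring there is a maximal ideal which does not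
contain `f`. File `H51CurveRing`. -/
theorem points_dense {k : Type*} [Field k] {S : Type*} [CommRing S] [Algebra k S]
    (h : H51Curve.IsCurveAlg k S) {f : S} (hf : f ≠ 0) : ∃ m : Ideal S, m.IsMaximal ∧ f ∉ m :=
  h.exists_isMaximal_notMem hf

/-! ## 3. Products and the diagonal -/

/-- **Products of integral affine schemes over `k` are integral**: if `A` is of finite type and `A`, `B`
are domains, then `A ⊗ B` is a domain. (Choose a basis of `B` over `k` and evaluate the coordinates,
elements of `A`, at the maximal ideals of `A`.) See also `integral_product` in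
`GuideJacobianGeometry`. File `H51CurveSm`. -/
theorem product_domain (k : Type*) [Field k] [IsAlgClosed k] {A B : Type*} [CommRing A] [IsDomain A]
    [Algebra k A] [Algebra.FiniteType k A] [CommRing B] [IsDomain B] [Algebra k B] :
    IsDomain (A ⊗[k] B) :=
  H51Curve.isDomain_tensorProduct k

/-- **The ideal `I` of the diagonal** of a smooth affine curve: it is not zero, and at every prime ideal
`P` of `S ⊗ S` it is generated modulo `I²` by one element `a` (because `I / I² = Ω`). File
`H51CurveRing`. -/
theorem diagonal_ideal {k : Type*} [Field k] [IsAlgClosed k] {S : Type*} [CommRing S] [Algebra k S]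
    (h : H51Curve.IsCurveAlg k S) : KaehlerDifferential.ideal k S ≠ ⊥ ∧
      ∀ (P : Ideal (S ⊗[k] S)) [P.IsPrime], ∃ a ∈ KaehlerDifferential.ideal k S,
        ∀ b ∈ KaehlerDifferential.ideal k S, ∃ s ∉ P,
          s * b ∈ Ideal.span {a} ⊔ KaehlerDifferential.ideal k S ^ 2 :=
  ⟨h.ideal_ne_bot, fun P _ => h.locally_sq P⟩

/-- **Nakayama's lemma** removes the square if `P` contains the ideal. File `H51CurveSm`. -/
theorem nakayama_generator {R : Type*} [CommRing R] (J P : Ideal R) [P.IsMaximal] (hfg : J.FG)
    (hJP : J ≤ P) (h : ∃ a ∈ J, ∀ b ∈ J, ∃ s ∉ P, s * b ∈ Ideal.span {a} ⊔ J ^ 2) :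
    ∃ a ∈ J, ∀ b ∈ J, ∃ s ∉ P, a ∣ s * b :=
  H51Curve.locally_of_locally_sq J P hfg hJP h

/-- **Locally principal ideals are invertible**: a finitely generated nonzero ideal of a domain which is
generated by one element at every maximal ideal is an invertible module. This gives the
invertibility of the ideal of the diagonal (`GuideSheaves.diagonal_ideal_invertible`). File
`H51CurveSm`. -/
theorem invertible_of_locally_principal {R : Type*} [CommRing R] [IsDomain R] (J : Ideal R)
    (hfg : J.FG) (hJ : J ≠ ⊥)
    (h : ∀ P : Ideal R, P.IsMaximal → ∃ a ∈ J, ∀ b ∈ J, ∃ s ∉ P, a ∣ s * b) :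
    Module.Invertible R J :=
  H51Curve.invertible_of_locally J hfg hJ h

/-! ## 4. Rational functions on an integral scheme

`C` is an integral scheme with function field `K = C.functionField`; the local rings of `C` are
subrings of `K`. -/

/-- **The domain of definition** `dom t` of a rational function `t` is an open subset; it consists of
the points `x` with `t ∈ O_{C,x}` and is not empty. File `H94TC1`. -/
theorem domain_of_definition {C : Scheme.{u}} [IsIntegral C] (t : C.functionField) :
    (∀ x : C, Function.Injective (algebraMap (C.presheaf.stalk x) C.functionField)) ∧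
    (∀ x : C, x ∈ dom t ↔
      ∃ a : C.presheaf.stalk x, algebraMap (C.presheaf.stalk x) C.functionField a = t) ∧
    Nonempty (dom t) :=
  ⟨stalk_injective, mem_dom_iff t, dom_nonempty t⟩

/-- **The function on its domain**: `sec t ∈ Γ(C, dom t)` is the section whose germ at every point of
`dom t` is `t`. File `H94TC1`. -/
theorem section_of_function {C : Scheme.{u}} [IsIntegral C] (t : C.functionField) (x : C)
    (hx : x ∈ dom t) :
    algebraMap (C.presheaf.stalk x) C.functionField (C.presheaf.germ (dom t) x hx (sec t)) = t :=
  sec_spec t x hx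

/-- **Units**: the locus where `t` is invertible is `dom t ∩ dom t⁻¹`, and there the sections `sec t` and
`sec t⁻¹` are inverse to each other. File `H94TC1`. -/
theorem unit_locus {C : Scheme.{u}} [IsIntegral C] (t : C.functionField) (ht : t ≠ 0) :
    C.basicOpen (sec t) = dom t ⊓ dom t⁻¹ ∧ C.basicOpen (sec t⁻¹) = dom t ⊓ dom t⁻¹ ∧
      resO (inf_le_left : dom t ⊓ dom t⁻¹ ≤ dom t) (sec t) *
        resO (inf_le_right : dom t ⊓ dom t⁻¹ ≤ dom t⁻¹) (sec t⁻¹) = 1 :=
  ⟨basicOpen_sec t ht, basicOpen_sec_inv t ht, sec_mul_sec_inv t ht⟩

/-- **If all local rings are valuation rings** (as on a smooth curve), then `C` is the union of `dom t`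
and `dom t⁻¹`. File `H94TC1`. -/
theorem domains_cover {C : Scheme.{u}} [IsIntegral C]
    (hval : ∀ x : C, ValuationRing (C.presheaf.stalk x)) (t : C.functionField) :
    dom t ⊔ dom t⁻¹ = ⊤ :=
  dom_sup_dom_inv hval t

/-! ## 5. The map to the affine line

For an open subset `U` of a scheme `c : C ⟶ Spec k` and `t ∈ Γ(C, U)` let `evHom c U t : k[X] → Γ(C, U)`
be the map `f ↦ f(t)` and `toA1 c U t : U ⟶ Spec k[X]` the map to the affine line given by `t`. -/

/-- **The map to the line** is a map over `k`. File `H94TC2`. -/
theorem map_to_line {C : Scheme.{u}} {k : Type u} [CommRing k] (c : C ⟶ Spec (CommRingCat.of k))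
    (U : C.Opens) (t : Γ(C, U)) :
    toA1 c U t ≫ Spec.map (CommRingCat.ofHom (Polynomial.C : k →+* k[X])) = U.ι ≫ c :=
  toA1_comp c U t

/-- The inverse image of the open set `p ≠ 0` is the locus where `p(t)` is invertible. File
`H94TC4`. -/
theorem preimage_of_basic_open {C : Scheme.{u}} {k : Type u} [Field k]
    (c : C ⟶ Spec (CommRingCat.of k)) (U : C.Opens) (t : Γ(C, U)) (p : k[X]) :
    toA1 c U t ⁻¹ᵁ (PrimeSpectrum.basicOpen p) = U.ι ⁻¹ᵁ (C.basicOpen (evHom c U t p)) :=
  preimage_basicOpen_toA1 c U t p

/-- **The valuative criterion passes from `C` to the chart.** Let `C = U ∪ V`, `t ∈ Γ(C, U)` and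
`s ∈ Γ(C, V)` inverse to each other on `U ∩ V`, and `U ∩ V` the locus in `V` where `s` is invertible. If
`C ⟶ Spec k` satisfies the existence part of the valuative criterion, so does `U ⟶ 𝔸¹`: let `R` be a
valuation ring; the map `Spec R ⟶ C` which exists has its closed point in `U`, for if the closed point
is in `V`, then `s` is a unit there, because `t` has a value in `R` and `s t = 1`. File `H94TC2`. -/
theorem valuative_criterion {C : Scheme.{u}} {k : Type u} [CommRing k]
    (c : C ⟶ Spec (CommRingCat.of k)) {U V : C.Opens} (hcov : U ⊔ V = ⊤) (t : Γ(C, U))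
    (s : Γ(C, V)) (hs : C.basicOpen s = U ⊓ V)
    (hts : resO (inf_le_left : U ⊓ V ≤ U) t * resO (inf_le_right : U ⊓ V ≤ V) s = 1)
    (hc : ValuativeCriterion.Existence c) : ValuativeCriterion.Existence (toA1 c U t) :=
  existence_toA1 c hcov t s hs hts hc

/-- **Points.** Let all local rings of `C` be noetherian valuation rings. Then they have at most two
prime ideals, so all points except the generic one are closed. File `H94TC4`. -/
theorem points_closed {C : Scheme.{u}} [IsIntegral C] [IsLocallyNoetherian C]
    (hval : ∀ x : C, ValuationRing (C.presheaf.stalk x)) {x : C} (hx : x ≠ genericPoint C) :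
    IsClosed ({x} : Set C) :=
  H94.TC.isClosed_singleton hval hx

/-- **Closed sets**: moreover a closed subset which does not contain the generic point is finite (if
`C` is noetherian as a topological space). File `H94TC4`. -/
theorem closed_subsets_finite {C : Scheme.{u}} [IsIntegral C] [IsLocallyNoetherian C]
    [NoetherianSpace C] (hval : ∀ x : C, ValuationRing (C.presheaf.stalk x)) {Z : Set C}
    (hZ : IsClosed Z) (hg : genericPoint C ∉ Z) : Z.Finite :=
  H94.TC.finite_of_isClosed hval hZ hg

/-- **Finite fibres.** Let `t` be transcendental over `k` (`IsTr c t`: a nonzero polynomial in `t` is not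
zero). Then the map `dom t ⟶ 𝔸¹` has finite fibres: over the generic point there is only the generic
point of `C` (closed points have closed images), and a closed point is a zero of some `p ≠ 0`, so the
points over it are zeros of `p(t) ≠ 0`. File `H94TC4`. -/
theorem finite_fibres {C : Scheme.{u}} [IsIntegral C] {k : Type u} [Field k]
    (c : C ⟶ Spec (CommRingCat.of k)) [LocallyOfFiniteType c] [IsLocallyNoetherian C]
    [NoetherianSpace C] (hval : ∀ x : C, ValuationRing (C.presheaf.stalk x)) (t : C.functionField)
    (ht : IsTr c t) (y : Spec (CommRingCat.of k[X])) :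
    ((toA1 c (dom t) (sec t)) ⁻¹' {y}).Finite :=
  finite_fibre c hval t ht y

/-- **The map is finite** if `C` is proper: it is proper by the valuative criterion and has finite
fibres. File `H94TC4`. -/
theorem map_finite {C : Scheme.{u}} [IsIntegral C] {k : Type u} [Field k]
    (c : C ⟶ Spec (CommRingCat.of k)) [IsProper c]
    (hval : ∀ x : C, ValuationRing (C.presheaf.stalk x)) (t : C.functionField) (ht : IsTr c t) :
    IsFinite (toA1 c (dom t) (sec t)) :=
  isFinite_toA1 c hval t ht

/-- **Hence `dom t` is affine**, and its coordinate ring is a finite extension of `k[t]`. File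
`H94TC5`. -/
theorem domain_affine {C : Scheme.{u}} [IsIntegral C] {k : Type u} [Field k]
    (c : C ⟶ Spec (CommRingCat.of k)) [IsProper c]
    (hval : ∀ x : C, ValuationRing (C.presheaf.stalk x)) (t : C.functionField) (ht : IsTr c t) :
    IsAffineOpen (dom t) ∧ (evHom c (dom t) (sec t)).Finite ∧
      Function.Injective (evHom c (dom t) (sec t)) :=
  ⟨isAffineOpen_dom c hval t ht, finite_evHom c hval t ht, injective_evHom c t ht⟩

/-! ## 6. The two charts -/

/-- **Bases**: a domain which is a finite extension of `k[X]` (by the injective map `φ`) is free over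
`k[X]`. File `H94TC3`. -/
theorem basis_over_polynomials {k B : Type*} [Field k] [CommRing B] [IsDomain B] (φ : k[X] →+* B)
    (hinj : Function.Injective φ) (hfin : φ.Finite) :
    ∃ b : Fin (letI := φ.toAlgebra; Module.finrank k[X] B) → B,
      Function.Bijective (fun f : Fin (letI := φ.toAlgebra; Module.finrank k[X] B) → k[X] =>
        ∑ i, φ (f i) * b i) :=
  exists_basis φ hinj hfin

/-- **The rank is the degree of the fraction field `K` over `k(t)`**, so it is the same for `t` and
`t⁻¹`. File `H94TC3`. -/
theorem rank_is_degree {k K B : Type*} [Field k] [Field K] [Algebra k K] [CommRing B] [IsDomain B]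
    [Algebra B K] [IsFractionRing B K] {t : K} (ht : Transcendental k t) (φ : k[X] →+* B)
    (hφ : ∀ p, algebraMap B K (φ p) = Polynomial.aeval t p) :
    (letI := φ.toAlgebra; Module.finrank k[X] B) =
      Module.finrank (IntermediateField.adjoin k {t}) K :=
  finrank_of_eval ht φ hφ

/-- **A transcendental function gives a presentation by two charts** (`TwoChart c`, see
`GuideJacobianCharts`): `U = dom t`, `V = dom t⁻¹`. File `H94TC5`. -/
theorem charts_of_function {C : Scheme.{u}} [IsIntegral C] {k : Type u} [Field k]
    (c : C ⟶ Spec (CommRingCat.of k)) [IsProper c]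
    (hval : ∀ x : C, ValuationRing (C.presheaf.stalk x)) {t : C.functionField} (ht : IsTr c t) :
    ∃ τ : TwoChart c, 0 < τ.n ∧ τ.U = dom t ∧ τ.V = dom t⁻¹ :=
  exists_twoChart_of c hval ht

/-- **On a smooth curve** the local rings are valuation rings, and there are transcendental functions.
Files `H51Curve`, `H94TwoChart`. -/
theorem exists_transcendental_function (k : Type u) [Field k] [IsAlgClosed k] {C : Scheme.{u}}
    (c : C ⟶ Spec (CommRingCat.of k)) [SmoothOfRelativeDimension 1 c] [IsIntegral C] :
    (∀ x : C, ValuationRing (C.presheaf.stalk x)) ∧ ∃ t : C.functionField, IsTr c t :=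
  ⟨H51Curve.valuationRing_stalk c, exists_isTr k c⟩

/-- **Conclusion**: the presentation exists, and a given closed point may be assumed to be in the first
chart (exchange `t` and `t⁻¹`). File `H94TwoChart`. -/
theorem exists_charts (k : Type u) [Field k] [IsAlgClosed k] {C : Scheme.{u}}
    (c : C ⟶ Spec (CommRingCat.of k)) [IsProper c] [SmoothOfRelativeDimension 1 c] [IsIntegral C]
    (e : C) (he : IsClosed {e}) : ∃ τ : TwoChart c, 0 < τ.n ∧ e ∈ τ.U :=
  exists_twoChart k c e he

/-! ## 7. Points of the curve -/

/-- A nonempty scheme locally of finite type over an algebraically closed field has a rational point.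
File `H20Deg3`. -/
theorem exists_rational_point {K : Type u} [Field K] [IsAlgClosed K] {C : Scheme.{u}}
    (c : C ⟶ Spec (CommRingCat.of K)) [LocallyOfFiniteType c] [Nonempty C] :
    Nonempty (SchemeHomOver (𝟙 (Spec (CommRingCat.of K))) c) :=
  H20T.exists_kPoint c

/-- **Sections with nonzero value.** On an affine open subset `W` which contains the image of
`γ : Spec K ⟶ Z` every line bundle has a section whose value at `γ` is not zero. File `H25Eff2`. -/
theorem section_with_value {K : Type u} [Field K] {Z : Scheme.{u}} (γ : Spec (CommRingCat.of K) ⟶ Z)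
    {W : Z.Opens} (hW : IsAffineOpen W) {M : Z.Modules} (hM : Scheme.Modules.IsInvertible M)
    (hγ : γ ⁻¹ᵁ W = ⊤) : ∃ s : Γ(M, W), pb γ M s ≠ 0 :=
  exists_pb_ne_zero γ hW hM hγ

/-- **The cokernel of `M(-γ) → M`** over an affine open subset `W` has dimension `1` if the rational
point `γ` is in `W` and `0` otherwise (`wt γ W` is this number; the map is injective, so its index
`dim ker - dim coker` is minus this number). `H20T.TwHom γ φ` says that `φ` is such a map (it identifies
`L` with the sections of `M` which vanish at `γ`), and `H25.Fred` that kernel and cokernel have finite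
dimension. With the index formula `GuideTwists.index_comp` this gives `χ(M(-γ)) = χ(M) - 1`. Files
`H25Eff1`, `H25Eff2`. -/
theorem index_of_twist {K : Type u} [Field K] {Z : Scheme.{u}} {z : Z ⟶ Spec (CommRingCat.of K)}
    {γ : Spec (CommRingCat.of K) ⟶ Z} (hγ : γ ≫ z = 𝟙 _) {L M : Z.Modules}
    (hM : Scheme.Modules.IsInvertible M) {φ : L ⟶ M} (hφ : H20T.TwHom γ φ) {W : Z.Opens}
    (hW : IsAffineOpen W) : H25.Fred (homS z φ W) ∧ H25.ind (homS z φ W) = - wt γ W :=
  fred_tw hγ hM hφ hW

/-- **Finite quotients**: let `B` be a domain which is finite over the polynomials in `t`, `F` a finite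
`B`-module and `N` a submodule with `b₀ F ⊂ N` for some `b₀ ≠ 0`. Then `F / N` has finite dimension.
(`b₀` divides a nonzero polynomial in `t`.) File `H20FinQ`. -/
theorem finite_quotient_module {K B F : Type*} [Field K] [CommRing B] [IsDomain B] (i : K →+* B)
    (t : B) {n : ℕ} (b : Fin n → B)
    (hb : Function.Surjective (fun f : Fin n → K[X] => ∑ j, (f j).eval₂ i t * b j))
    [AddCommGroup F] [Module B F] [Module.Finite B F] [Module K F]
    (hKF : ∀ (a : K) (m : F), a • m = i a • m) (N : Submodule K F)
    (hN : ∀ (c : B), ∀ m ∈ N, c • m ∈ N) {b₀ : B} (hb₀ : b₀ ≠ 0) (h0 : ∀ m : F, b₀ • m ∈ N) :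
    Module.Finite K (F ⧸ N) :=
  H20T.finite_quot_of_smul_mem i t b hb hKF N hN hb₀ h0

/-- **Local equations on affine open sets**: `e` is a local equation of `γ` on `D(f)` if, up to powers of
`f`, it generates the ideal of the functions which vanish on `γ` and is a nonzerodivisor. This is how
the local equations of the graphs (`GuideTwists.graph_isCart`) are obtained from algebra. File
`H20TwLoc`. -/
theorem local_equation_on_affine {X T : Scheme.{u}} {γ : T ⟶ X} {W : X.Opens} (hW : IsAffineOpen W)
    (hγW : IsAffineOpen (γ ⁻¹ᵁ W)) (f e : Γ(X, W)) (he : γ.app W e = 0)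
    (h1 : ∀ g : Γ(X, W), γ.app W g = 0 → ∃ (n : ℕ) (a : Γ(X, W)), f ^ n * g = a * e)
    (h2 : ∀ x : Γ(X, W), x * e = 0 → ∃ n : ℕ, f ^ n * x = 0) :
    H20T.IsLocEq γ (resO (X.basicOpen_le f) e) :=
  H20T.isLocEq_of_affine hW hγW f e he h1 h2

end Fermat.Agent.Guide.SmoothCurves
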