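import Fermat.Agent.H29Final

/-!
# Guide to the proof: the special fibre of a covering of the line (S48)

This file is a machine-checked table of contents. Every theorem below is a citation of a theorem of
the library, with its statement written out. Nothing imports this file.

**What the block does.** This is a companion of section 6 of `GuideGaloisAction`. There the
`q`-expansion principle and the injectivity of the Kummer map for modular functions are deduced from
a theorem on a finite covering of the projective line over a discrete valuation ring: its special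
fibre is irreducible. Classically this is a part of the theory of the reduction of modular curves
(Igusa, Deligne-Rapoport, Katz-Mazur) together with Zariski's connectedness theorem. Here are the
steps of the proof of the library, which is elementary: no schemes, no completions, no
desingularisation.

**Setting.** `𝔬` is a discrete valuation ring with uniformiser `ϖ`, whose field of fractions `L₀` has
characteristic zero; the residue field is arbitrary (of characteristic `p` in step 4). `K₀ = L₀(s)`
(`H29.IsRatGen L₀ s`: `s` is transcendental and generates `K₀`), and `E` is a finite extension of `K₀`.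
The covering consists of the integral closures of `𝔬[s]` and of `𝔬[s⁻¹]` in `E` (the two charts);
`H29.IntOver 𝔬 s x` says that `x` is integral over `𝔬[s]`. The generic points of the special fibre are
described by the Gauss ring `H29.gaussRing 𝔬 s`, the ring of the quotients of polynomials with nonzero
reduction of the denominator, and by its integral closure `H29.intGauss 𝔬 E s`, the ring of Gauss
integers. See `GuideGaloisAction.gauss_notions`.

**The idea.**
 1. Hypotheses: `E / K₀` is unramified at the Gauss valuation (`H29.SelfDual`), and in characteristic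
    zero it is unramified outside the zeros of a polynomial `f` with squarefree reduction
    (`H29.ChartUnram`, in both charts). For modular functions `f = s (s - c)`.
 2. If the traces of all powers of an element are divisible by a prime with residue characteristic zero,
    a power of the element is. So the dual of a chart for the trace form is contained in `f⁻¹` times the
    radical of the ideal `(f)` (`dual_in_radical`).
 3. Therefore the reduction of a chart is integrally closed in its total ring of fractions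
    (`chart_normal`), and an idempotent of the Gauss integers modulo `ϖ` comes from both charts
    (`lift_idempotent`).
 4. `p^j`-th powers of the two lifts are congruent modulo `ϖ^(j + 1)`. The sections with bounded poles
    form a finitely generated `𝔬`-module (`sections_fg`), and a limit along an ultrafilter of almost
    idempotent sections is `0` or `1` (`GuideGaloisAction.window`).
 5. Connected and unramified: the Gauss integers are a discrete valuation ring
    (`inverse_is_integral`, `gauss_integers_valuation`). If `w ≡ 1 mod ϖ` is not an `m`-th power,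
    `E(w^(1/m))` satisfies the same hypotheses, but its special fibre is not connected
    (`kummer_not_connected`): this is Kummer injectivity (`kummer_injective`).

**Order of the file.** 1. Traces. 2. The reduction of a chart. 3. The Gauss ring. 4. From the charts to
the projective line. 5. Irreducibility. 6. Kummer extensions. 7. Ramification from expansions.

**Where.** NOTES.md, section A.9: [279] (the abstract theorem) and [238] (its application). All theorems
are in the closure of S48 (and of S47, which uses S48). Files `H29ChartA` to `H29Window`; author: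
helper29.
-/

set_option autoImplicit false

open Module nonZeroDivisors Polynomial IsLocalRing
open Fermat.Agent

namespace Fermat.Agent.Guide.SpecialFibre

/-! ## 1. Traces -/

/-- **Traces detect nilpotents** in characteristic zero: an endomorphism of a finite dimensional vector
space is nilpotent if all its positive powers have trace zero. File `H29Trace`. -/
theorem nilpotent_of_traces {κ V : Type*} [Field κ] [CharZero κ] [AddCommGroup V] [Module κ V]
    [FiniteDimensional κ V] (f : Module.End κ V)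
    (h : ∀ n : ℕ, 1 ≤ n → LinearMap.trace κ V (f ^ n) = 0) : IsNilpotent f :=
  H29.isNilpotent_of_trace_pow_eq_zero f h

/-- The same over a ring: let `C` be free of finite rank over `P`, and let `I` be a maximal ideal of `P`
with residue characteristic zero. If the traces of all positive powers of `a` are in `I`, a power of
`a` is in `I C`. File `H29Trace`. -/
theorem power_mem_of_traces {P C : Type*} [CommRing P] [CommRing C] [Algebra P C] [Module.Free P C]
    [Module.Finite P C] (I : Ideal P) [I.IsMaximal] [CharZero (P ⧸ I)] (a : C)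
    (h : ∀ n : ℕ, 1 ≤ n → Algebra.trace P C (a ^ n) ∈ I) :
    ∃ M : ℕ, a ^ M ∈ I.map (algebraMap P C) :=
  H29.exists_pow_mem_of_trace_mem I a h

/-- Conversely, if a power of `u` is in `I B`, `I` a prime ideal, the trace of `u` is in `I`. File
`H29Trace`. -/
theorem trace_mem_of_power {A B : Type*} [CommRing A] [CommRing B] [Algebra A B] [Module.Free A B]
    [Module.Finite A B] (I : Ideal A) [I.IsPrime] (u : B) (M : ℕ)
    (h : u ^ M ∈ I.map (algebraMap A B)) : Algebra.trace A B u ∈ I :=
  H29.trace_mem_of_pow_mem I u M h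

/-- **The dual of an integral closure.** Let `P` be a principal ideal domain with residue fields of
characteristic zero, `C` its integral closure in a finite extension, and let `C / g C` be reduced for
all primes `g` not dividing `f`. If `y` has integral traces `tr(y z)`, `z ∈ C`, then `f y` is in `C`, and
even in the radical of `f C`. (In geometric terms: in characteristic zero the ramification is tame, so
the inverse different at a prime `g` is `g⁻¹` times the radical of `(g)`.) Proof: write `y` locally as a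
quotient `a / (g b)` and apply `power_mem_of_traces` to `a`. File `H29Dual`. -/
theorem dual_in_radical {P K₀ C E : Type*} [CommRing P] [IsDomain P] [IsPrincipalIdealRing P]
    [Field K₀] [Algebra P K₀] [IsFractionRing P K₀] [Field E] [Algebra K₀ E] [Algebra P E]
    [IsScalarTower P K₀ E] [FiniteDimensional K₀ E] [Algebra.IsSeparable K₀ E]
    [CommRing C] [IsDomain C] [Algebra P C] [Algebra C E] [IsScalarTower P C E]
    [IsIntegralClosure C P E] (hP : ¬ IsField P) (f : P)
    (hchar : ∀ g : P, Prime g → CharZero (P ⧸ Ideal.span {g}))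
    (hred : ∀ g : P, Prime g → ¬ g ∣ f → (Ideal.span {algebraMap P C g}).IsRadical) (y : E)
    (hy : ∀ z : C, ∃ p : P, algebraMap P K₀ p = Algebra.trace K₀ E (y * algebraMap C E z)) :
    ∃ u : C, algebraMap C E u = algebraMap P E f * y ∧
      u ∈ (Ideal.span {algebraMap P C f}).radical :=
  H29.dual_mem_radical hP f hchar hred y hy

/-- **Integrality at a prime element.** Let `A` be integrally closed, `π` a prime element and `a` not
divisible by `π`. If `π ^ n z` and `a z` are integral over `A`, then `z` is integral. Proof: the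
coefficients of the minimal polynomial. File `H29Integral`. -/
theorem integral_of_prime {A K₀ E : Type*} [CommRing A] [IsDomain A] [IsIntegrallyClosed A]
    [Field K₀] [Algebra A K₀] [IsFractionRing A K₀] [Field E] [Algebra K₀ E] [Algebra A E]
    [IsScalarTower A K₀ E] {z : E} (hz : IsIntegral K₀ z) {π a : A} (hπ : Prime π) (ha : ¬ π ∣ a)
    (n : ℕ) (h₁ : IsIntegral A (π ^ n • z)) (h₂ : IsIntegral A (a • z)) : IsIntegral A z :=
  H29.isIntegral_of_prime hz hπ ha n h₁ h₂

/-! ## 2. The reduction of a chart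

The setting of this section: `A` is an integrally closed domain with field of fractions `K₀`, `R` its
integral closure in the finite separable extension `E`, finite over `A`; `π` is a prime element of `A`;
`ρA : A → B` and `ρ : R → D` are the reductions modulo `π`, `B = A / π A` and `D = R / π R`. In the
application `A = 𝔬[s]`, `π = ϖ`. -/

section Chart

variable {A K₀ E R B D : Type*} [CommRing A] [IsDomain A] [IsIntegrallyClosed A]
  [Field K₀] [Algebra A K₀] [IsFractionRing A K₀] [Field E] [Algebra K₀ E] [Algebra A E]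
  [IsScalarTower A K₀ E] [FiniteDimensional K₀ E]
  [CommRing R] [IsDomain R] [Algebra A R] [Algebra R E] [IsScalarTower A R E]
  [IsIntegralClosure R A E] [CommRing B] [IsDomain B] [CommRing D] [Algebra B D]
  {π : A} {ρA : A →+* B} {ρ : R →+* D}

/-- **Bases lift** (Nakayama). If `D` is free over `B`, elements `r i` of `R` which lift a basis are a basis
of `E` over `K₀`. File `H29ChartA`. -/
theorem basis_lifts (hπ : Prime π) (hρA : Function.Surjective ρA) (hkA : ∀ a, ρA a = 0 ↔ π ∣ a)
    (hk : ∀ r, ρ r = 0 ↔ algebraMap A R π ∣ r)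
    (hc : ∀ a, ρ (algebraMap A R a) = algebraMap B D (ρA a)) {ι : Type*} [Fintype ι]
    (b : Basis ι B D) (r : ι → R) (hr : ∀ i, ρ (r i) = b i) [WfDvdMonoid A] [Module.Finite A R] :
    ∃ bE : Basis ι K₀ E, ∀ i, bE i = algebraMap R E (r i) :=
  H29.chart_basis hπ hρA hkA hk hc b r hr

/-- **Traces and coordinates commute with the reduction**: for a lifted basis and an element `t ≡ 1` with
`t R ⊂ ∑ A r i`, the reduction of `t tr(z)` is the trace of `ρ z`, and every coordinate of `D` is the
reduction of a map `z ↦ tr(y z)`, for some `y ∈ E`. File `H29ChartA`. -/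
theorem traces_reduce [Algebra.IsSeparable K₀ E]
    (hc : ∀ a, ρ (algebraMap A R a) = algebraMap B D (ρA a)) {ι : Type*} [Fintype ι]
    (b : Basis ι B D) (r : ι → R) (hr : ∀ i, ρ (r i) = b i) {t : A} (ht1 : ρA t = 1)
    (ht : ∀ z : R, ∃ α : ι → A, t • z = ∑ i, α i • r i) (bE : Basis ι K₀ E)
    (hbE : ∀ i, bE i = algebraMap R E (r i)) :
    (∀ z : R, ∃ α : A,
      algebraMap A K₀ α = algebraMap A K₀ t * Algebra.trace K₀ E (algebraMap R E z) ∧
        ρA α = Algebra.trace B D (ρ z)) ∧
    ∀ i, ∃ y : E, ∀ z : R, ∃ α : A,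
      algebraMap A K₀ α = Algebra.trace K₀ E (y * algebraMap R E z) ∧ ρA α = b.repr (ρ z) i :=
  ⟨(H29.chart_trace hc b r hr ht1 ht bE hbE).2,
    fun i => H29.chart_dual hc b r hr ht1 ht bE hbE i⟩

/-- **The reduction of a chart is normal.** Let `B` be a principal ideal domain with field of fractions
`κ`, and `Q = D ⊗ κ`. Suppose that for every `y ∈ E` with integral traces `tr(y z)`, `z ∈ R`, a multiple
`a y` with `π ∤ a` is in `R` (unramified at `π`), and `f y = u ∈ R` with a power of `u` divisible by `f`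
(`dual_in_radical`); and that the reduction of `f` is nonzero and squarefree. Then `D` contains all
elements of `Q` which are integral over `B`. Proof: let `g δ = d ∈ D`, `g` a prime element of `B`, `δ`
integral. A coordinate of `d` is the reduction of a trace `tr(y z)` (`traces_reduce`). As `f y` is
nilpotent modulo `f`, the trace of its product with `δ` is divisible by the squarefree `f`
(`trace_mem_of_power`), so the coordinate is divisible by `g`. Hence `δ ∈ D`. Files `H29ChartA`,
`H29ChartB`. -/
theorem chart_normal [Algebra.IsSeparable K₀ E] (κ : Type*) {Q : Type*} (hπ : Prime π)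
    (hρA : Function.Surjective ρA) (hkA : ∀ a, ρA a = 0 ↔ π ∣ a) (hρ : Function.Surjective ρ)
    (hk : ∀ r, ρ r = 0 ↔ algebraMap A R π ∣ r)
    (hc : ∀ a, ρ (algebraMap A R a) = algebraMap B D (ρA a))
    [Field κ] [Algebra B κ] [IsFractionRing B κ] [CommRing Q] [Algebra κ Q] [Algebra B Q]
    [Algebra D Q] [IsScalarTower B κ Q] [IsScalarTower B D Q]
    [IsLocalization (Algebra.algebraMapSubmonoid D B⁰) Q] [IsPrincipalIdealRing B]
    [WfDvdMonoid A] [Module.Finite A R] (f : A) (hf0 : ρA f ≠ 0)
    (hfrad : (Ideal.span {ρA f}).IsRadical)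
    (Hdual : ∀ y : E, (∀ z : R, ∃ α : A, algebraMap A K₀ α =
        Algebra.trace K₀ E (y * algebraMap R E z)) →
      ∃ (a : A) (w u c : R) (M : ℕ), ¬ π ∣ a ∧ algebraMap R E w = algebraMap A E a * y ∧
        algebraMap R E u = algebraMap A E f * y ∧ u ^ M = algebraMap A R f * c)
    (x : Q) (hx : IsIntegral B x) : ∃ d : D, algebraMap D Q d = x :=
  H29.chart_main κ hπ hρA hkA hρ hk hc f hf0 hfrad Hdual x hx

end Chart

/-! ## 3. The Gauss ring

The setting of the rest of the file is the one of the header. -/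

section Covering

variable {𝔬 L₀ K₀ E : Type*} [CommRing 𝔬] [IsDomain 𝔬] [IsDiscreteValuationRing 𝔬]
  [Field L₀] [CharZero L₀] [Algebra 𝔬 L₀] [IsFractionRing 𝔬 L₀]
  [Field K₀] [Algebra L₀ K₀] [Algebra 𝔬 K₀] [IsScalarTower 𝔬 L₀ K₀]
  [Field E] [Algebra K₀ E] [Algebra L₀ E] [Algebra 𝔬 E] [IsScalarTower L₀ K₀ E]
  [IsScalarTower 𝔬 K₀ E] [FiniteDimensional K₀ E]
  {s : K₀} {ϖ : 𝔬}

omit [CharZero L₀] [IsFractionRing 𝔬 L₀] [Algebra L₀ K₀] [IsScalarTower 𝔬 L₀ K₀]
  [IsScalarTower L₀ K₀ E] [IsScalarTower 𝔬 K₀ E] [FiniteDimensional K₀ E] in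
/-- **The hypotheses.** `SelfDual`: the Gauss integers are their own dual for the trace form, i.e. `E / K₀`
is unramified at the Gauss valuation. `ChartUnram`: in characteristic zero the chart `L₀[s]` is
unramified over all irreducible polynomials `g` not dividing a certain polynomial `f` over `𝔬` with
nonzero squarefree reduction (`RedAt`: an element whose square is divisible by `g` is divisible by `g`).
`GaussConn`: the Gauss integers modulo `ϖ` have only the idempotents `0` and `1`. Files `H29ConnThm`,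
`H29Field`. -/
theorem hypotheses_iff :
    (H29.SelfDual 𝔬 E s ↔ ∀ y : E, (∀ z ∈ H29.intGauss 𝔬 E s,
      Algebra.trace K₀ E (y * z) ∈ H29.gaussRing 𝔬 s) → y ∈ H29.intGauss 𝔬 E s) ∧
    (H29.ChartUnram 𝔬 L₀ E s ↔ ∃ f : 𝔬[X], f.map (residue 𝔬) ≠ 0 ∧
      (Ideal.span {f.map (residue 𝔬)}).IsRadical ∧
      ∀ g : L₀[X], Irreducible g → ¬ g ∣ f.map (algebraMap 𝔬 L₀) →
        ∀ a b : E, H29.IntOver L₀ (algebraMap K₀ E s) a → H29.IntOver L₀ (algebraMap K₀ E s) b →
          a ^ 2 = aeval (algebraMap K₀ E s) g * b →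
          ∃ c : E, H29.IntOver L₀ (algebraMap K₀ E s) c ∧ a = aeval (algebraMap K₀ E s) g * c) ∧
    (H29.GaussConn 𝔬 E s ϖ ↔ ∀ ε σ : E, ε ∈ H29.intGauss 𝔬 E s → σ ∈ H29.intGauss 𝔬 E s →
      ε ^ 2 - ε = algebraMap 𝔬 E ϖ * σ →
      (∃ ρ ∈ H29.intGauss 𝔬 E s, ε = algebraMap 𝔬 E ϖ * ρ) ∨
        (∃ ρ ∈ H29.intGauss 𝔬 E s, ε - 1 = algebraMap 𝔬 E ϖ * ρ)) :=
  ⟨Iff.rfl, Iff.rfl, Iff.rfl⟩

/-- **The Gauss ring** is a discrete valuation ring with field of fractions `K₀` and uniformiser `ϖ`, and
it is the same for `s` and for `s⁻¹`. Files `H29Charts`, `H29Local`. -/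
theorem gauss_ring (hs : H29.IsRatGen L₀ s) (hϖ : Irreducible ϖ) :
    IsDiscreteValuationRing (H29.gaussRing 𝔬 s) ∧ IsFractionRing (H29.gaussRing 𝔬 s) K₀ ∧
      (∃ h : algebraMap 𝔬 K₀ ϖ ∈ H29.gaussRing 𝔬 s,
        Irreducible (⟨algebraMap 𝔬 K₀ ϖ, h⟩ : H29.gaussRing 𝔬 s)) ∧
      H29.gaussRing 𝔬 s⁻¹ = H29.gaussRing 𝔬 s :=
  ⟨H29.gauss_isDVR hs hϖ, H29.gauss_fraction hs hϖ, ⟨_, H29.gaussPi_irreducible hs hϖ⟩,
    H29.gaussRing_inv hs.ne_zero⟩

/-- **Gauss integers are fractions of the chart**: `x` is integral over the Gauss ring if and only if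
`a(s) x` is integral over `𝔬[s]` for some polynomial `a` with nonzero reduction. File `H29Charts`. -/
theorem gauss_integer_iff (hs : H29.IsRatGen L₀ s) (x : E) :
    x ∈ H29.intGauss 𝔬 E s ↔ ∃ a : 𝔬[X], a.map (residue 𝔬) ≠ 0 ∧
      H29.IntOver 𝔬 (algebraMap K₀ E s) (aeval (algebraMap K₀ E s) a * x) :=
  H29.isIntegral_gaussRing_iff hs x

/-- **The special fibre is reduced** (generically): for self-dual `E / K₀`, a Gauss integer a power of which
is divisible by `ϖ` is divisible by `ϖ`. Proof: the traces of its multiples are divisible by `ϖ`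
(`trace_mem_of_power`), so self-duality applies to `y / ϖ`. File `H29Local`. -/
theorem gauss_reduced (hs : H29.IsRatGen L₀ s) (hϖ : Irreducible ϖ) (H1 : H29.SelfDual 𝔬 E s)
    {y : E} (hy : y ∈ H29.intGauss 𝔬 E s) (n : ℕ)
    (h : ∃ w ∈ H29.intGauss 𝔬 E s, y ^ n = algebraMap 𝔬 E ϖ * w) :
    ∃ w ∈ H29.intGauss 𝔬 E s, y = algebraMap 𝔬 E ϖ * w :=
  H29.gauss_reduced hs hϖ H1 hy n h

/-- If `ϖ ^ n z` is integral over `𝔬[s]` and `z` is a Gauss integer, `z` is integral over `𝔬[s]`
(`integral_of_prime` for `A = 𝔬[s]`). File `H29Connected`. -/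
theorem integral_of_gauss (hs : H29.IsRatGen L₀ s) (hϖ : Irreducible ϖ) {z : E} (n : ℕ)
    (h1 : H29.IntOver 𝔬 (algebraMap K₀ E s) (algebraMap 𝔬 E (ϖ ^ n) * z))
    (h2 : z ∈ H29.intGauss 𝔬 E s) : H29.IntOver 𝔬 (algebraMap K₀ E s) z :=
  H29.intOver_of_gauss hs hϖ n h1 h2

/-! ## 4. From the charts to the projective line -/

/-- **Idempotents extend to the charts.** Under `SelfDual` and the hypothesis of `ChartUnram`, let `ε` be
a Gauss integer with `ε² ≡ ε mod ϖ`. There is `x`, integral over `𝔬[s]`, with `x ≡ ε mod ϖ`. Proof: an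
idempotent is integral, so `chart_normal` applies to the class of `ε`. Files `H29ChartC`, `H29ChartD`,
`H29ChartE`, `H29Connected`. -/
theorem lift_idempotent (hs : H29.IsRatGen L₀ s) (hϖ : Irreducible ϖ) (f : 𝔬[X])
    (hf : f.map (residue 𝔬) ≠ 0) (hfrad : (Ideal.span {f.map (residue 𝔬)}).IsRadical)
    (H1 : H29.SelfDual 𝔬 E s)
    (H2 : ∀ g : L₀[X], Irreducible g → ¬ g ∣ f.map (algebraMap 𝔬 L₀) →
      H29.RedAt L₀ (algebraMap K₀ E s) g)
    (ε σ : E) (hε : ε ∈ H29.intGauss 𝔬 E s) (hσ : σ ∈ H29.intGauss 𝔬 E s)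
    (h : ε ^ 2 - ε = algebraMap 𝔬 E ϖ * σ) :
    ∃ x σ₁ : E, H29.IntOver 𝔬 (algebraMap K₀ E s) x ∧ σ₁ ∈ H29.intGauss 𝔬 E s ∧
      x - ε = algebraMap 𝔬 E ϖ * σ₁ :=
  H29.lift_chart hs hϖ f hf hfrad H1 H2 ε σ hε hσ h

omit [Algebra L₀ E] [Algebra K₀ E] [Algebra 𝔬 E] in
/-- **Powers.** In a subring `T` of a field, let `π ∣ p`. If `a ≡ b mod π`, then
`a ^ (p ^ j) ≡ b ^ (p ^ j) mod π ^ (j + 1)`; and if `a² ≡ a mod π`, then `a ^ n ≡ a mod π` for `n ≥ 1`.
So an idempotent modulo `π` lifts to one modulo `π ^ (j + 1)`, without completeness. File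
`H29Connected`. -/
theorem powers_congruent (T : Subring E) {π : E} (hπ : π ∈ T) {p : ℕ}
    (hp : ∃ t ∈ T, (p : E) = π * t) {a b : E} (ha : a ∈ T) (hb : b ∈ T) :
    ((∃ t ∈ T, a - b = π * t) → ∀ j : ℕ,
      ∃ t ∈ T, a ^ (p ^ j) - b ^ (p ^ j) = π ^ (j + 1) * t) ∧
    ((∃ t ∈ T, a ^ 2 - a = π * t) → ∀ n : ℕ, 1 ≤ n → ∃ t ∈ T, a ^ n - a = π * t) :=
  ⟨fun h j => H29.subring_pow_congr T hπ hp ha hb h j,
    fun h n hn => H29.subring_idem_pow T ha h n hn⟩

/-- **Sections with bounded poles** (`H29.secs 𝔬 s M`): the elements `z` of `E` such that `z` is integral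
over `𝔬[s]` and `s⁻ᴹ z` over `𝔬[s⁻¹]`. They are a finitely generated `𝔬`-module. Proof: `z` is
determined by the traces `tr(z x)`, `x` in a finite set of generators of the chart; for a section `z`
they are polynomials in `s` of bounded degree, and `𝔬` is noetherian. File `H29Lattice`. -/
theorem sections_fg (hs : H29.IsRatGen L₀ s) (M : ℕ) :
    (∀ z : E, z ∈ H29.secs 𝔬 (algebraMap K₀ E s) M ↔
      H29.IntOver 𝔬 (algebraMap K₀ E s) z ∧
        H29.IntOver 𝔬 (algebraMap K₀ E s)⁻¹ ((algebraMap K₀ E s)⁻¹ ^ M * z)) ∧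
      (H29.secs 𝔬 (algebraMap K₀ E s) M).FG :=
  ⟨fun _ => Iff.rfl, H29.secs_fg hs M⟩

/-- **Decomposition on the overlap.** There is `m` such that every `z` integral over `𝔬[s, s⁻¹]` (i.e.
`s ^ n z` is integral over `𝔬[s]` for some `n`) is `u + s ^ m v` with `u` integral over `𝔬[s]` and `v`
over `𝔬[s⁻¹]` (a first cohomology group vanishes after a twist). Proof: `z` is a combination of
generators of the chart with Laurent polynomials as coefficients, and a Laurent polynomial is
`p(s) + q(s⁻¹)`. Files `H29Charts`, `H29Lattice`, `H29Connected`. -/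
theorem decomposition (hs : H29.IsRatGen L₀ s) :
    ∃ m : ℕ, ∀ z : E, (∃ n : ℕ, H29.IntOver 𝔬 (algebraMap K₀ E s) (algebraMap K₀ E s ^ n * z)) →
      ∃ u v : E, H29.IntOver 𝔬 (algebraMap K₀ E s) u ∧ H29.IntOver 𝔬 (algebraMap K₀ E s)⁻¹ v ∧
        z = u + algebraMap K₀ E s ^ m * v :=
  H29.exists_decomp hs

omit [CharZero L₀] in
/-- **Infinitesimal sequences.** `H29.bdd 𝔬 L₀` is the ring of the sequences in `L₀` with a common
denominator, `H29.infi hϖ 𝒰` the ideal of the sequences divisible by every power of `ϖ` along the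
ultrafilter `𝒰`. This ideal is prime: the quotient is a domain, in the Laurent series over which the
limit of the almost idempotent sections is `0` or `1`. This is used in `GuideGaloisAction.window`.
File `H29Window`. -/
theorem infinitesimal_prime (hϖ : Irreducible ϖ) (𝒰 : Ultrafilter ℕ) :
    (∀ x : ℕ → L₀, x ∈ H29.bdd 𝔬 L₀ ↔
      ∃ d : 𝔬, d ≠ 0 ∧ ∀ j, ∃ e : 𝔬, algebraMap 𝔬 L₀ d * x j = algebraMap 𝔬 L₀ e) ∧
    (∀ x : H29.bdd 𝔬 L₀, x ∈ H29.infi hϖ 𝒰 ↔ ∀ n : ℕ, ∀ᶠ j in (𝒰 : Filter ℕ),
      ∃ e : 𝔬, (x : ℕ → L₀) j = algebraMap 𝔬 L₀ (ϖ ^ n * e)) ∧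
    (H29.infi (L₀ := L₀) hϖ 𝒰).IsPrime :=
  ⟨fun _ => Iff.rfl, fun _ => Iff.rfl, H29.infi_isPrime hϖ 𝒰⟩

/-! ## 5. Irreducibility -/

/-- **The local ring.** Under `SelfDual` and `GaussConn` a Gauss integer `y` which is not divisible by `ϖ`
is invertible. Proof: a monic equation of `y` is modulo `ϖ` of the form `X ^ r Q` with `Q(0) ≠ 0`; write
`1 = U X ^ (r + 1) + V Q`. Then `e = U(y) y ^ (r + 1)` is idempotent modulo `ϖ`. If `e ≡ 0`, `y` is
nilpotent modulo `ϖ`, which contradicts `gauss_reduced`. So `e ≡ 1`, and `e` and `y` are invertible.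
File `H29Field`. -/
theorem inverse_is_integral (hs : H29.IsRatGen L₀ s) (hϖ : Irreducible ϖ)
    (H1 : H29.SelfDual 𝔬 E s) (H3 : H29.GaussConn 𝔬 E s ϖ) {y : E}
    (hy : y ∈ H29.intGauss 𝔬 E s)
    (hy0 : ¬ ∃ w ∈ H29.intGauss 𝔬 E s, y = algebraMap 𝔬 E ϖ * w) :
    y⁻¹ ∈ H29.intGauss 𝔬 E s :=
  H29.unit_of_not_dvd hs hϖ H1 H3 hy hy0

/-- **The Gauss integers are a valuation ring** (under the same hypotheses): the inverse of an element
which is not a Gauss integer is a Gauss integer, divisible by `ϖ`. File `H29Field`. -/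
theorem gauss_integers_valuation (hs : H29.IsRatGen L₀ s) (hϖ : Irreducible ϖ)
    (H1 : H29.SelfDual 𝔬 E s) (H3 : H29.GaussConn 𝔬 E s ϖ) {x : E}
    (hx : x ∉ H29.intGauss 𝔬 E s) :
    ∃ w ∈ H29.intGauss 𝔬 E s, x⁻¹ = algebraMap 𝔬 E ϖ * w :=
  H29.mem_or_inv hs hϖ H1 H3 hx

/-! ## 6. Kummer extensions

`K = E(h)` is an extension with power basis `1, h, …, h ^ (m - 1)` (`pb`, `h = pb.gen`, `m = pb.dim`), and
`h ^ m = w ∈ E`. -/

/-- **Coordinates are traces**: the `i`-th coordinate of `y`, multiplied by `m`, is the trace of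
`y h ^ (m - i) w⁻¹`. File `H29Kummer`. -/
theorem kummer_coordinates {E K : Type*} [Field E] [Field K] [Algebra E K] (pb : PowerBasis E K)
    {w : E} (hgen : pb.gen ^ pb.dim = algebraMap E K w) (hw : w ≠ 0) (y : K) (i : Fin pb.dim) :
    Algebra.trace E K (y * (pb.gen ^ (pb.dim - (i : ℕ)) * algebraMap E K w⁻¹)) =
      pb.dim * pb.basis.repr y i :=
  H29.kummer_trace_coord pb hgen hw y i

variable {K : Type*} [Field K] [Algebra E K] [Algebra K₀ K] [IsScalarTower K₀ E K]
  [Algebra 𝔬 K] [IsScalarTower 𝔬 K₀ K]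

/-- **Unramified.** Let `m` be a unit of `𝔬` and `w ≡ 1 mod ϖ`. If `E` is self-dual at the Gauss valuation,
so is `K`: if `y ∈ K` has integral traces, its coordinates are Gauss integers by `kummer_coordinates` and
the self-duality of `E` (`w` is invertible in the Gauss integers). File `H29Kummer`. -/
theorem kummer_selfDual (hs : H29.IsRatGen L₀ s) (hϖ : Irreducible ϖ) (H1 : H29.SelfDual 𝔬 E s)
    (pb : PowerBasis E K) {w : E} (hgen : pb.gen ^ pb.dim = algebraMap E K w)
    (hm : IsUnit (pb.dim : 𝔬)) {σ₀ : E} (hσ₀ : σ₀ ∈ H29.intGauss 𝔬 E s)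
    (hw : w - 1 = algebraMap 𝔬 E ϖ * σ₀) : H29.SelfDual 𝔬 K s :=
  H29.kummer_selfDual hs hϖ H1 pb hgen hm hσ₀ hw

/-- **Not connected.** Let moreover `m ≥ 2`. Then the special fibre of `K` is not connected:
`e = (1 + h + ⋯ + h ^ (m - 1)) / m` is idempotent modulo `ϖ`, because `(h - 1) m e = w - 1`; and neither
`e` nor `e - 1` is divisible by `ϖ`, because `tr(e) = 1` and `tr(h (e - 1)) = w`. File `H29Kummer`. -/
theorem kummer_not_connected (hs : H29.IsRatGen L₀ s) (hϖ : Irreducible ϖ) (pb : PowerBasis E K)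
    {w : E} (hgen : pb.gen ^ pb.dim = algebraMap E K w) (hm : IsUnit (pb.dim : 𝔬))
    (hm2 : 2 ≤ pb.dim) {σ₀ : E} (hσ₀ : σ₀ ∈ H29.intGauss 𝔬 E s)
    (hw : w - 1 = algebraMap 𝔬 E ϖ * σ₀) : ¬ H29.GaussConn 𝔬 K s ϖ :=
  H29.kummer_not_conn hs hϖ pb hgen hm hm2 hσ₀ hw

/-- **Kummer injectivity.** Let `ϖ ∣ p`, and let `E` be self-dual, with a rational point `ψ : E → L₀((q))`,
and with complete families of expansions at all values `α ≠ 0, c` of `s`, `c` a unit of `𝔬` (`EmbAt`, see
`GuideGaloisAction.emb_notion`). Let `m` be a prime which is a unit of `𝔬`, `w ≡ 1 mod ϖ`, let the orders of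
`w` in these expansions be divisible by `m`, and let `w` be an `m`-th power at the rational point. Then
`w` is an `m`-th power in `E`. Proof: otherwise `X ^ m - w` is irreducible, and `E(w^(1/m))` satisfies all
hypotheses of the connectedness theorem (`kummer_selfDual`, `kummer_embeddings`), contrary to
`kummer_not_connected`. File `H29KI`. -/
theorem kummer_injective {Υ : Type*} [Field Υ] [CharZero Υ] [IsAlgClosed Υ] [Algebra L₀ Υ]
    (hs : H29.IsRatGen L₀ s) (hϖ : Irreducible ϖ) (p : ℕ) (hp : ϖ ∣ (p : 𝔬)) (hp1 : 1 ≤ p)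
    (H1 : H29.SelfDual 𝔬 E s) (c : 𝔬) (hc : IsUnit c) (ψ : E →+* LaurentSeries L₀)
    (hψ : ∀ c : L₀, ψ (algebraMap L₀ E c) = HahnSeries.C c) {m : ℕ} (hm : m.Prime)
    (hmu : IsUnit (m : 𝔬)) {w : E}
    (hemb : ∀ α : Υ, α ≠ 0 → α ≠ algebraMap L₀ Υ (algebraMap 𝔬 L₀ c) →
      ∃ D : H29.EmbAt L₀ Υ E s α, ∀ i, (m : ℤ) ∣ (D.σ i w).order)
    {σ₀ : E} (hσ₀ : σ₀ ∈ H29.intGauss 𝔬 E s) (hw : w - 1 = algebraMap 𝔬 E ϖ * σ₀)
    (h₀ : LaurentSeries L₀) (hh : h₀ ^ m = ψ w) : ∃ g : E, g ^ m = w :=
  H29.ki_prime hs hϖ p hp hp1 H1 c hc ψ hψ hm hmu hemb hσ₀ hw h₀ hh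

/-! ## 7. Ramification from expansions

`H29.EmbAt L₀ Υ E s α`: an embedding of `K₀` in `Υ((u))` with `s ↦ α + a₁ u + ⋯`, `a₁ ≠ 0`, and `[E : K₀]`
extensions to `E` (`GuideGaloisAction.emb_notion`). -/

/-- **Unramified over the value `α`.** If such data exist and `α` is a root of the irreducible polynomial
`g`, the chart is unramified over `g`. Proof: let `a² = g(s) b` and `c = a / g(s)`. As `g(s)` has order
one, all expansions of `c` are power series; so the coefficients of the minimal polynomial of `c`, which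
are polynomials in `s` divided by powers of `g(s)`, have no denominator, and `c` is integral. File
`H29Emb`. -/
theorem unramified_of_embeddings {Υ : Type*} [Field Υ] [Algebra L₀ Υ] {α : Υ}
    (hs : H29.IsRatGen L₀ s) (g : L₀[X]) (hg : Irreducible g) (hα : aeval α g = 0)
    (D : H29.EmbAt L₀ Υ E s α) : H29.RedAt L₀ (algebraMap K₀ E s) g :=
  H29.redAt_of_emb hs g hg hα D

/-- **The hypotheses in characteristic zero.** If there are expansions at all values `α ≠ 0, c` of `s`, `c`
a unit of `𝔬`, both charts satisfy `ChartUnram`, with `f = s (s - c)` and `f' = s⁻¹ (s⁻¹ - c⁻¹)`. File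
`H29EmbB`. -/
theorem charts_of_embeddings {Υ : Type*} [Field Υ] [Algebra L₀ Υ] [IsAlgClosed Υ]
    (hs : H29.IsRatGen L₀ s) (c : 𝔬) (hc : IsUnit c)
    (h : ∀ α : Υ, α ≠ 0 → α ≠ algebraMap L₀ Υ (algebraMap 𝔬 L₀ c) →
      Nonempty (H29.EmbAt L₀ Υ E s α)) :
    H29.ChartUnram 𝔬 L₀ E s ∧ H29.ChartUnram 𝔬 L₀ E s⁻¹ :=
  ⟨H29.chart_of_emb hs c hc h, H29.chart_of_emb_inv hs c hc h⟩

/-- **Roots of Laurent series**: over an algebraically closed field, a nonzero Laurent series of order
divisible by `m` is an `m`-th power (`m` not zero in the field). File `H29Emb`. -/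
theorem root_of_series {Υ : Type*} [Field Υ] [IsAlgClosed Υ] {m : ℕ} (hm : (m : Υ) ≠ 0)
    (f : LaurentSeries Υ) (hf : f ≠ 0) (hd : (m : ℤ) ∣ f.order) : ∃ g : LaurentSeries Υ, g ^ m = f :=
  H29.exists_root_ls hm f hf hd

/-- **Expansions of a Kummer extension.** If the orders of `w` in the expansions at `α` are divisible by
`m`, then `K = E(w^(1/m))` has a complete family of expansions at `α` too (`root_of_series`). File
`H29EmbB`. -/
theorem kummer_embeddings {Υ : Type*} [Field Υ] [Algebra L₀ Υ] [IsAlgClosed Υ] [CharZero Υ] {α : Υ}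
    (pb : PowerBasis E K) {w : E} (hgen : pb.gen ^ pb.dim = algebraMap E K w) (hw : w ≠ 0)
    (D : H29.EmbAt L₀ Υ E s α) (hD : ∀ i, (pb.dim : ℤ) ∣ (D.σ i w).order) :
    Nonempty (H29.EmbAt L₀ Υ K s α) :=
  H29.kummer_emb pb hgen hw D hD

end Covering

end Fermat.Agent.Guide.SpecialFibre
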