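import Fermat.Agent.H56ZReg
import Fermat.Agent.H59Def2

/-!
# C17: regularity on the model (helper56)

* `noLineP_of_excl`: if no upper triangular element contributes, no contributing element fixes a line;
* `ellReg_E`, `ellReg_F`: the hypotheses (E1), (F1) of `geom` from the exclusion and the shape of the
  kernel at `w0`.
-/

set_option autoImplicit false
set_option linter.unusedSectionVars false

noncomputable section

open Matrix IsDedekindDomain NumberField
open scoped MatrixGroups WithZero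
open Matrix.ProjGenLinGroup (mk mk_surjective)

namespace Fermat.Agent.H56Z

open H20.S47 H59D H59XF

variable {K : Type*} [Field K] [NumberField K] {J : Type*} [Fintype J] {m : Model K J}

/-- a matrix with given first column -/
theorem exists_col {K : Type*} [Field K] {u : Fin 2 → K} (hu : u ≠ 0) :
    ∃ g : GL (Fin 2) K, g 0 0 = u 0 ∧ g 1 0 = u 1 := by
  by_cases h : u 0 = 0
  · have h1 : u 1 ≠ 0 := by
      intro h1
      apply hu
      funext i
      fin_cases i
      · exact h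
      · exact h1
    refine ⟨toGL !![u 0, 1; u 1, 0] ?_, rfl, rfl⟩
    rw [Matrix.det_fin_two_of]
    simpa using h1
  · refine ⟨toGL !![u 0, 0; u 1, 1] ?_, rfl, rfl⟩
    rw [Matrix.det_fin_two_of]
    simpa using h

/-- **From the exclusion of upper triangular elements to the exclusion of all elements fixing a
line.** -/
theorem noLineP_of_excl (a : AutData m) {t : m.X → m.X → ℂ}
    (ht : ∀ (g : PGL(2, K)) x y, t (g • x) (g • y) = t x y)
    (hexcl : ∀ (g : GL (Fin 2) K) x, t x ((mk g : PGL(2, K)) • a.act x) ≠ 0 → g 1 0 ≠ 0)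
    {δ : PGL(2, K)} {x : m.X} (hx : t x (δ • a.act x) ≠ 0) :
    NoLineP (a.s : K →+* K) δ := by
  rintro d rfl u hu c hc
  obtain ⟨γ, h0, h1⟩ := exists_col hu
  set e : GL (Fin 2) K := γ⁻¹ * d * GeneralLinearGroup.map (a.s : K →+* K) γ with he
  have hx' : t ((mk γ⁻¹ : PGL(2, K)) • x) ((mk e : PGL(2, K)) • a.act ((mk γ⁻¹ : PGL(2, K)) • x)) ≠ 0 := by
    rw [a.act_smul, smul_smul]
    have h2 : (mk e : PGL(2, K)) * ProjGenLinGroup.map (a.s : K →+* K) (mk γ⁻¹) =
        mk γ⁻¹ * mk d := by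
      have h3 : ProjGenLinGroup.map (a.s : K →+* K) (mk γ⁻¹) =
          mk (GeneralLinearGroup.map (a.s : K →+* K) γ)⁻¹ := rfl
      rw [h3, ← map_mul, ← map_mul, he, mul_inv_cancel_right]
    rw [h2, mul_smul, ht]
    exact hx
  refine hexcl e _ hx' ?_
  -- the first column
  have hval : (γ : Matrix (Fin 2) (Fin 2) K) * (e : Matrix (Fin 2) (Fin 2) K) =
      (d : Matrix (Fin 2) (Fin 2) K) *
        (γ : Matrix (Fin 2) (Fin 2) K).map (a.s : K →+* K) := by
    have h2 : γ * e = d * GeneralLinearGroup.map (a.s : K →+* K) γ := by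
      rw [he, mul_assoc, mul_inv_cancel_left]
    have h3 := congrArg Units.val h2
    rw [Units.val_mul, Units.val_mul] at h3
    exact h3
  have e0 : γ 0 0 * e 0 0 + γ 0 1 * e 1 0 = c * u 0 := by
    have h4 := congrFun (congrFun hval 0) 0
    have h5 := congrFun hc 0
    simp only [Matrix.mul_apply, Fin.sum_univ_two, Matrix.map_apply] at h4
    simp only [Matrix.mulVec, dotProduct, Fin.sum_univ_two, Pi.smul_apply, smul_eq_mul] at h5
    rw [h4, h0, h1]
    exact h5
  have e1 : γ 1 0 * e 0 0 + γ 1 1 * e 1 0 = c * u 1 := by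
    have h4 := congrFun (congrFun hval 1) 0
    have h5 := congrFun hc 1
    simp only [Matrix.mul_apply, Fin.sum_univ_two, Matrix.map_apply] at h4
    simp only [Matrix.mulVec, dotProduct, Fin.sum_univ_two, Pi.smul_apply, smul_eq_mul] at h5
    rw [h4, h0, h1]
    exact h5
  have hdet : γ 0 0 * γ 1 1 - γ 0 1 * γ 1 0 ≠ 0 := by
    rw [← Matrix.det_fin_two]
    exact det_ne_zero γ
  rw [← h0] at e0
  rw [← h1] at e1
  have h6 : (γ 0 0 * γ 1 1 - γ 0 1 * γ 1 0) * e 1 0 = 0 := by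
    linear_combination γ 0 0 * e1 - γ 1 0 * e0
  exact (mul_eq_zero.mp h6).resolve_left hdet

/-- The coordinate of `s x` at a place fixed by `s`. -/
theorem act_of_fixed (a : AutData m) {w : HeightOneSpectrum (𝓞 K)} (hw : a.σ w = w)
    {x : XF m.L.fam} {g : PGL(2, K)} (hx : x w = (g : PGL(2, K) ⧸ m.L.fam.U w)) :
    a.twist.act x w = (AutData.pmap a.s g : PGL(2, K) ⧸ m.L.fam.U w) := by
  have key : ∀ j (_ : a.twist.σ w = j), a.twist.act x j =
      ((a.twist.s g : PGL(2, K)) : PGL(2, K) ⧸ m.L.fam.U j) := by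
    rintro _ rfl
    rw [Twist.act_apply_σ, hx, Twist.cmap_mk]
  exact key w hw

/-- The shape of a kernel at `w0`: supported in the cell `Iw diag(π^M, 1) Iw`. -/
def CellAt (m : Model K J) (b : GlobKer m.L.fam) (w : HeightOneSpectrum (𝓞 K)) (M : ℕ) : Prop :=
  ∀ g h : PGL(2, K), (b.loc w).k (g : PGL(2, K) ⧸ m.L.fam.U w) (h : PGL(2, K) ⧸ m.L.fam.U w) ≠ 0 →
    g⁻¹ * h ∈ H51Z.cellU (w.valuation K) (WithZero.exp (-(M : ℤ)))

theorem exists_cell (a : AutData m) {b : GlobKer m.L.fam} {κ : (J → ℝ) → ℂ}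
    {w : HeightOneSpectrum (𝓞 K)} (hw : a.σ w = w) {M : ℕ} (hb : CellAt m b w M)
    {δ : PGL(2, K)} {x : m.X} (hx : m.ker κ b.k x (δ • a.act x) ≠ 0) :
    ∃ g : PGL(2, K), g⁻¹ * δ * AutData.pmap a.s g ∈
      H51Z.cellU (w.valuation K) (WithZero.exp (-(M : ℤ))) := by
  have h1 : b.k x.2 ((δ • a.act x).2) ≠ 0 := by
    intro h0
    apply hx
    show κ _ * b.k x.2 ((δ • a.act x).2) = 0
    rw [h0, mul_zero]
  have h2 := (b.k_ne_zero_iff _ _).mp h1 w
  obtain ⟨g, hg⟩ := QuotientGroup.mk_surjective (x.2 w)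
  have h3 : (δ • a.act x).2 w = ((δ * AutData.pmap a.s g : PGL(2, K)) : PGL(2, K) ⧸ m.L.fam.U w) := by
    show δ • (a.twist.act x.2 w) = _
    rw [act_of_fixed a hw hg.symm]
    rfl
  rw [h3, ← hg] at h2
  refine ⟨g, ?_⟩
  rw [mul_assoc]
  exact hb _ _ h2

/-- **(E1)** of `geom`. -/
theorem ellReg_E {F E : Type*} [Field F] [Field E] [NumberField E] [Algebra F E]
    {s : E ≃ₐ[F] E} (h3 : ∀ x, s (s (s x)) = x) {J : Type*} [Fintype J] {m : Model E J}
    (a : AutData m) (hs : ∀ x, a.s x = s x) {b : GlobKer m.L.fam} {κ : (J → ℝ) → ℂ}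
    {w : HeightOneSpectrum (𝓞 E)} (hw : a.σ w = w) {M : ℕ} (hM : 1 ≤ M) (hb : CellAt m b w M)
    (hexcl : ∀ (g : GL (Fin 2) E) x, m.ker κ b.k x ((mk g : PGL(2, E)) • a.act x) ≠ 0 →
      g 1 0 ≠ 0)
    (δ : PGL(2, E)) (x : m.X) (hx : m.ker κ b.k x (δ • a.act x) ≠ 0) : EllReg (nP s δ) := by
  have hsr : (a.s : E →+* E) = (s : E →+* E) := RingHom.ext hs
  have hsP : ∀ g, AutData.pmap a.s g = sP s g := fun g => by
    rw [AutData.pmap_apply, hsr]
    rfl
  obtain ⟨g, hg⟩ := exists_cell a hw hb hx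
  rw [hsP] at hg
  have hl := noLineP_of_excl a (m.ker_smul κ b.k b.k_smul) hexcl hx
  rw [hsr] at hl
  refine ellReg_nP h3 (v := w.valuation E) (fun y => ?_) hM hg hl
  rw [← hs y]
  have := a.val w y
  rwa [hw] at this

/-- The identity as automorphism data. -/
def idAut (m : Model K J) : AutData m where
  s := RingEquiv.refl K
  σ := 1
  val _ _ := rfl
  c := 1
  e_s _ _ := rfl
  U_s w g := by
    have h1 : ((RingEquiv.refl K : K ≃+* K) : K →+* K) = RingHom.id K := rfl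
    rw [h1, ProjGenLinGroup.map_id]
    rfl

theorem idAut_act (x : m.X) : (idAut m).act x = x := by
  refine Prod.ext rfl ?_
  apply XF.ext
  intro w
  obtain ⟨g, hg⟩ := QuotientGroup.mk_surjective (x.2 w)
  have h1 := act_of_fixed (idAut m) (w := w) rfl hg.symm
  have h2 : AutData.pmap (RingEquiv.refl K) g = g := by
    rw [AutData.pmap_apply]
    have h1 : ((RingEquiv.refl K : K ≃+* K) : K →+* K) = RingHom.id K := rfl
    rw [h1, ProjGenLinGroup.map_id]
    rfl
  show (idAut m).twist.act x.2 w = x.2 w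
  rw [h1, ← hg]
  exact congrArg _ h2

/-- **(F1)** of `geom`, first half. -/
theorem ellReg_F {b : GlobKer m.L.fam} {κ : (J → ℝ) → ℂ}
    {w : HeightOneSpectrum (𝓞 K)} {M : ℕ} (hM : 1 ≤ M) (hb : CellAt m b w M)
    (hexcl : ∀ (g : GL (Fin 2) K) x, m.ker κ b.k x ((mk g : PGL(2, K)) • x) ≠ 0 → g 1 0 ≠ 0)
    (γ : PGL(2, K)) (x : m.X) (hx : m.ker κ b.k x (γ • x) ≠ 0) : EllReg γ := by
  have hx' : m.ker κ b.k x (γ • (idAut m).act x) ≠ 0 := by rw [idAut_act]; exact hx
  obtain ⟨g, hg⟩ := exists_cell (idAut m) (w := w) rfl hb hx'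
  have h2 : AutData.pmap (RingEquiv.refl K) g = g := by
    rw [AutData.pmap_apply]
    have h1 : ((RingEquiv.refl K : K ≃+* K) : K →+* K) = RingHom.id K := rfl
    rw [h1, ProjGenLinGroup.map_id]
    rfl
  have hg' : g⁻¹ * γ * g ∈ H51Z.cellU (w.valuation K) (WithZero.exp (-(M : ℤ))) := by
    have h3 : g⁻¹ * γ * AutData.pmap (idAut m).s g = g⁻¹ * γ * g := by
      show g⁻¹ * γ * AutData.pmap (RingEquiv.refl K) g = _
      rw [h2]
    rw [← h3]
    exact hg
  refine ellReg_of_noLine hM hg' ?_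
  have hl := noLineP_of_excl (idAut m) (m.ker_smul κ b.k b.k_smul)
    (fun g x h => hexcl g x (by rwa [idAut_act] at h)) hx'
  exact hl

end Fermat.Agent.H56Z
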