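import Fermat.Agent.H6ZExcl3
import Fermat.Agent.H56ZReg2

/-!
# Guide, block (C) of S47: elements with a stable line, step by step

This file is a machine-checked table of contents. Every theorem below is a citation of a theorem of
the library, with its statement written out. Only `Guide` imports this file. It is a companion of section 2
of `GuideOctCLocal` and of `no_stable_line`, `norm_elliptic` in `GuideOctCGeom`, and gives all steps of
the proofs.

**What is proved.** `K` is a totally complex number field, `s` an automorphism of `K`, `m` a model over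
`K` (the space `m.X` consists of a point `x_j` of `H3` for every infinite place and of a coset
`x_w ∈ PGL₂(K) / U_w` for every finite place `w`), `w₀` a place fixed by `s`, with Iwahori level. In the
trace formula twisted by `s` the element `δ ∈ PGL₂(K)` contributes if the kernel does not vanish at
some `(x, δ s(x))`. The theorem (sections 1-4): if the kernel at `w₀` has its support in the double coset
of `diag(ϖⁿ, 1)`, `n` large (depending only on the supports at the other places and at infinity), then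
no contributing `δ` has a stable line, i.e. `D s(u) ≠ c u` for all representatives `D` of `δ`, all
`u ≠ 0` and all `c`. Consequence (section 5), for `s` of order three: the norms `δ s(δ) s²(δ)` of the
contributing elements are elliptic regular. So there is no "parabolic and hyperbolic part" of the
geometric side, and no truncation is necessary.

**The proof** is the product formula for the Busemann function. For `g` with bottom row `(c, d)` let
`bus_v(g) = max(|c|_v, |d|_v)² / |det g|_v`. It is a function on the tree at `v` which depends on the end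
`∞`: `bus(g h) ≤ bus(g) dis(h)`, where `dis(h) ≥ 1` is the exponential of the distance by which `h` moves
the base vertex, and `bus(b g) = |b₁₁ / b₀₀| bus(g)` for an upper triangular `b`. The analogue at a complex
place is the inverse of the height `y` on `H3`.
 1. If a stable line is given by `u`, translate so that `u` is the first basis vector; `δ` is then upper
    triangular, `δ = b`, and `t = b₁₁ / b₀₀` has absolute value `|c² / det D|⁻¹` at `w₀` (16).
 2. At `w ≠ w₀`: `x_w` and `b s(x)_w` are near to each other (support of the kernel), so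
    `|t|_w bus(s(x)_w)` and `bus(x_w)` differ by a bounded factor (5). The same at infinity (13).
 3. Multiply over all `w ≠ w₀`. The Busemann functions of `x` and `s(x)` cancel because `s` permutes
    these places, so `Π_(w ≠ w₀) |t|_w` is bounded from above and below (11, 12); by the product formula
    `|t|_(w₀)` is bounded (14).
 4. At `w₀` the kernel forces `|c² / det D|_(w₀) = q^n` or `q^(-n)`: contradiction for large `n` (19).
 5. The support at `w₀` also shows that the norm has trace and discriminant `≠ 0` (24); an eigenvalue in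
    `K` would give a stable line (21, 22).

**Notation.** `m : Model K J` is the model (`m.e j` the embeddings of `K` in `ℂ`, `m.L.U w` the groups
`U_w`), `a : AutData m` the data of `s` (`a.s` the automorphism, `a.σ` the permutation of the finite
places, `a.act` the action on `m.X`). `LocKer U`: the invariant kernels on `PGL₂(K) / U` with finitely many
nonzero entries in every row and column; `GlobKer m.L.fam`: families `A.loc w` of such kernels, almost all
of them the unit kernel. `UMat v A`, `IMat v B`: the entries have the values `(< 1, ≤ 1; < 1, = 1)`,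
respectively `(= 1, ≤ 1; < 1, = 1)` (Iwahori matrices).

**Where.** NOTES.md, section 8 and Appendix A.13: [415], 6.4 (overview), [467] (stable lines), [433]
(elliptic regular elements), [456] (the geometric side twisted by `s`). Files `H6ZBus`, `H6ZPgl`,
`H6ZNv`, `H6ZExcl`, `H6ZExcl2`, `H6ZExcl3`, `H80Tree`, `H51ZIw`, `H56ZReg`, `H56ZReg2`. Used in S47 only.
Authors: helper 6 (sections 1-4; text of section 5), helper 56 (library files of section 5).
-/

set_option autoImplicit false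

open Matrix NumberField IsDedekindDomain WithZero
open scoped MatrixGroups NNReal

noncomputable section

namespace Fermat.Agent.Guide.StableLines

open Fermat.Agent.H59XF Fermat.Agent.H59D Fermat.Agent.H80T

/-! ## 1. One place -/

/-- **1. Norms** (`H6ZBus`). For a valuation `v` and `g ∈ GL₂(K)` let `rowN g` be the maximum of `v` on the
bottom row and `matN g` the maximum on all entries. Then `rowN(g h) ≤ rowN(g) matN(h)`,
`matN(g⁻¹) = matN(g) / v(det g)`, and `bus g = rowN(g)² / v(det g)`, `dis g = matN(g)² / v(det g)`. -/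
theorem norms {K : Type*} [Field K] {Γ₀ : Type*} [LinearOrderedCommGroupWithZero Γ₀]
    (v : Valuation K Γ₀) (g h : GL (Fin 2) K) :
    H6.Z.bus v g = H6.Z.rowN v g ^ 2 * (v g.val.det)⁻¹ ∧
      H6.Z.dis v g = H6.Z.matN v g ^ 2 * (v g.val.det)⁻¹ ∧
      H6.Z.rowN v (g * h) ≤ H6.Z.rowN v g * H6.Z.matN v h ∧
      H6.Z.matN v g⁻¹ = H6.Z.matN v g * (v g.val.det)⁻¹ :=
  ⟨rfl, rfl, H6.Z.rowN_mul_le v g h, H6.Z.matN_inv v g⟩

/-- **2. The displacement** (`H6ZBus`). `dis g ≥ 1`, `dis(g⁻¹) = dis g`, and `dis g = 1` if `g` is integral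
with unit determinant. In the tree of `v` the number `dis g` is the exponential of the distance of the
base vertex and its image. -/
theorem displacement {K : Type*} [Field K] {Γ₀ : Type*} [LinearOrderedCommGroupWithZero Γ₀]
    (v : Valuation K Γ₀) (g : GL (Fin 2) K) :
    1 ≤ H6.Z.dis v g ∧ H6.Z.dis v g⁻¹ = H6.Z.dis v g ∧
      ((∀ i j, v (g i j) ≤ 1) → v g.val.det = 1 → H6.Z.dis v g = 1) :=
  ⟨H6.Z.one_le_dis v g, H6.Z.dis_inv v g, H6.Z.dis_eq_one v⟩

/-- **3. On `PGL₂`** (`H6ZPgl`). `bus` and `dis` do not change under scalars; `pbus` and `pdis` are the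
functions on `PGL₂(K)`, with the same inequalities. If `s` is an endomorphism of `K` with
`v'(s x) = v(x)`, then `pbus_(v') (s g) = pbus_v g`. -/
theorem on_pgl2 {K : Type*} [Field K] {Γ₀ : Type*} [LinearOrderedCommGroupWithZero Γ₀]
    (v : Valuation K Γ₀) :
    (∀ g : GL (Fin 2) K, H6.Z.pbus v (ProjGenLinGroup.mk g) = H6.Z.bus v g ∧
      H6.Z.pdis v (ProjGenLinGroup.mk g) = H6.Z.dis v g) ∧
    (∀ g h : PGL(2, K), H6.Z.pbus v (g * h) ≤ H6.Z.pbus v g * H6.Z.pdis v h ∧
      H6.Z.pbus v g ≤ H6.Z.pbus v (g * h) * H6.Z.pdis v h) ∧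
    (∀ b : GL (Fin 2) K, b 1 0 = 0 → ∀ g : PGL(2, K),
      H6.Z.pbus v (ProjGenLinGroup.mk b * g) = v (b 1 1) * (v (b 0 0))⁻¹ * H6.Z.pbus v g) ∧
    ∀ (v' : Valuation K Γ₀) (s : K →+* K), (∀ x, v' (s x) = v x) → ∀ g : PGL(2, K),
      H6.Z.pbus v' (ProjGenLinGroup.map s g) = H6.Z.pbus v g :=
  ⟨fun g => ⟨H6.Z.pbus_mk v g, H6.Z.pdis_mk v g⟩,
    fun g h => ⟨H6.Z.pbus_mul_le v g h, H6.Z.le_pbus_mul v g h⟩,
    fun _ hb g => H6.Z.pbus_upper_mul v hb g, fun _ _ h g => H6.Z.pbus_map v h g⟩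

/-- **4. On coset spaces** (`H6ZPgl`). Let `U ≤ PGL₂(K)` and let `c⁻¹ U c` have trivial displacement. Then
`cbus (g U) = pbus (g c)` is a well defined function on `PGL₂(K) / U`, and an upper triangular `b`
multiplies it by `v(b₁₁ / b₀₀)`. -/
theorem on_cosets {K : Type*} [Field K] {Γ₀ : Type*} [LinearOrderedCommGroupWithZero Γ₀]
    (v : Valuation K Γ₀) {U : Subgroup PGL(2, K)} {c : PGL(2, K)}
    (hU : ∀ g ∈ U, H6.Z.pdis v (c⁻¹ * g * c) = 1) :
    (∀ g : PGL(2, K), H6.Z.cbus v c ((g : PGL(2, K)) : PGL(2, K) ⧸ U) = H6.Z.pbus v (g * c)) ∧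
    ∀ b : GL (Fin 2) K, b 1 0 = 0 → ∀ y : PGL(2, K) ⧸ U,
      H6.Z.cbus v c ((ProjGenLinGroup.mk b : PGL(2, K)) • y) =
        v (b 1 1) * (v (b 0 0))⁻¹ * H6.Z.cbus v c y :=
  ⟨H6.Z.cbus_mk v hU, fun _ hb y => H6.Z.cbus_upper_smul v hU hb y⟩

/-- **5. Kernels of finite range** (`H6ZExcl`). Let `A` be an invariant kernel on `PGL₂(K) / U` with
finitely many nonzero entries in every row and column. There is a constant `D ≥ 1`, equal to `1` for
the unit kernel, such that `A(y, y') ≠ 0` implies that `cbus y` and `cbus y'` differ at most by the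
factor `D`: by invariance only finitely many double cosets occur; use 3. -/
theorem kernels_of_finite_range {K : Type*} [Field K] (v : Valuation K ℝ≥0)
    {U : Subgroup PGL(2, K)} {c : PGL(2, K)} (hU : ∀ g ∈ U, H6.Z.pdis v (c⁻¹ * g * c) = 1)
    (A : LocKer U) :
    ∃ D : ℝ≥0, 1 ≤ D ∧ (A = LocKer.one → D = 1) ∧ ∀ y y', A.k y y' ≠ 0 →
      H6.Z.cbus v c y' ≤ D * H6.Z.cbus v c y ∧ H6.Z.cbus v c y ≤ D * H6.Z.cbus v c y' :=
  H6.Z.locKer_bound v hU A

/-! ## 2. All finite places -/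

/-- **6. Normalised absolute values** (`H6ZNv`). `nv w` is the absolute value `|x|_w` with
`|x|_w = N(w)^n` if the (multiplicative) valuation of `x` is `exp n`; it is Mathlib's
`FinitePlace.mk w`. For `x ≠ 0` it is `1` for almost all `w`. -/
theorem normalised_absolute_values {K : Type*} [Field K] [NumberField K]
    (w : HeightOneSpectrum (𝓞 K)) :
    (∀ (x : K) (n : ℤ), w.valuation K x = exp n →
      H6.Z.nv w x = (Ideal.absNorm w.asIdeal : ℝ≥0) ^ n) ∧
    (∀ x : K, (H6.Z.nv w x : ℝ) = FinitePlace.mk w x) ∧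
    ∀ x : K, x ≠ 0 → {w : HeightOneSpectrum (𝓞 K) | H6.Z.nv w x ≠ 1}.Finite :=
  ⟨fun _ _ h => H6.Z.nv_of_exp h, H6.Z.coe_nv w, fun _ hx => H6.Z.nv_finite hx⟩

/-- **7. The product formula** (`H6ZNv`), from Mathlib. -/
theorem product_formula {K : Type*} [Field K] [NumberField K] {x : K} (hx : x ≠ 0) :
    (∏ w : InfinitePlace K, w x ^ w.mult) *
      ((∏ᶠ w : HeightOneSpectrum (𝓞 K), H6.Z.nv w x : ℝ≥0) : ℝ) = 1 :=
  H6.Z.prod_nv hx

/-- **8. Automorphisms** (`H6ZNv`). If the valuations of `w'` and `w` correspond under an automorphism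
`s` of `K`, the places have the same norm and `|s(x)|_(w') = |x|_w`. -/
theorem absolute_values_and_automorphisms {K : Type*} [Field K] [NumberField K] {s : K ≃+* K}
    {w w' : HeightOneSpectrum (𝓞 K)} (h : ∀ x, w'.valuation K (s x) = w.valuation K x) :
    Ideal.absNorm w'.asIdeal = Ideal.absNorm w.asIdeal ∧
      ∀ x : K, H6.Z.nv w' (s x) = H6.Z.nv w x :=
  ⟨H6.Z.absNorm_eq_of_val h, H6.Z.nv_map_of_val h⟩

/-- **9. The Busemann functions of a model** (`H6ZExcl`). For every finite place `w` there is `mc m w`,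
equal to `1` for almost all `w`, which conjugates the level group `U_w` into elements of trivial
displacement. With it `mB m w` is the function of 4 on `PGL₂(K) / U_w`. It is nowhere zero, `b` upper
triangular multiplies it by `|b₁₁ / b₀₀|_w`, and for a point `x` of the restricted product of the coset
spaces `mB m w (x_w) = 1` for almost all `w`. -/
theorem busemann_functions_of_model {K : Type*} [Field K] [NumberField K] {J : Type*} [Fintype J]
    (m : Model K J) :
    {w | H6.Z.mc m w ≠ 1}.Finite ∧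
    (∀ (w : HeightOneSpectrum (𝓞 K)) (g : PGL(2, K)), g ∈ m.L.fam.U w →
      H6.Z.pdis (H6.Z.nv w) ((H6.Z.mc m w)⁻¹ * g * H6.Z.mc m w) = 1) ∧
    (∀ (w : HeightOneSpectrum (𝓞 K)) (y : PGL(2, K) ⧸ m.L.fam.U w),
      H6.Z.mB m w y = H6.Z.cbus (H6.Z.nv w) (H6.Z.mc m w) y ∧ H6.Z.mB m w y ≠ 0 ∧
      ∀ b : GL (Fin 2) K, b 1 0 = 0 → H6.Z.mB m w ((ProjGenLinGroup.mk b : PGL(2, K)) • y) =
        H6.Z.nv w (b 1 1 / b 0 0) * H6.Z.mB m w y) ∧
    ∀ x : XF m.L.fam, {w | H6.Z.mB m w (x w) ≠ 1}.Finite :=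
  ⟨H6.Z.mc_finite m, H6.Z.mc_spec m,
    fun w y => ⟨rfl, H6.Z.mB_ne m w y, fun _ hb => H6.Z.mB_upper m hb w y⟩, H6.Z.mB_finite m⟩

/-- **10. The action of `s`** (`H6ZExcl`). `a` are the data of an automorphism `s` of `K` acting on the
model: a permutation `a.σ` of the finite places, and the induced map `a.twist.act` of the restricted
product. There are constants `mE a w ≥ 1`, almost all equal to `1`, such that the Busemann function of
`s(x)` at `a.σ w` and that of `x` at `w` differ at most by the factor `mE a w`. -/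
theorem action_on_busemann_functions {K : Type*} [Field K] [NumberField K] {J : Type*}
    [Fintype J] {m : Model K J} (a : AutData m) :
    {w | H6.Z.mE a w ≠ 1}.Finite ∧ (∀ w, 1 ≤ H6.Z.mE a w) ∧
    ∀ (x : XF m.L.fam) (w : HeightOneSpectrum (𝓞 K)),
      H6.Z.mB m (a.σ w) (a.twist.act x (a.σ w)) ≤ H6.Z.mE a w * H6.Z.mB m w (x w) ∧
      H6.Z.mB m w (x w) ≤ H6.Z.mE a w * H6.Z.mB m (a.σ w) (a.twist.act x (a.σ w)) :=
  ⟨H6.Z.mE_finite a, H6.Z.one_le_mE a, H6.Z.mB_act a⟩

/-- **11. Cancellation in the product** (`H6ZExcl`). Let `σ` be a permutation of the index set and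
`f₁, f₂, r, D, E` families of nonnegative real numbers, almost all equal to `1`, `f₁` nowhere zero. If
`f₁(i) ≤ D(i) r(i) f₂(i)` and `f₂(σ i) ≤ E(i) f₁(i)`, then `1 ≤ Π D · Π E · Π r`. Applied to
`f₁ = bus(x)`, `f₂ = bus(s x)`, `r = |t|`, and to the inverses. -/
theorem cancellation {ι : Type*} (σ : Equiv.Perm ι) {f₁ f₂ r D E : ι → ℝ≥0}
    (hf₁ : {i | f₁ i ≠ 1}.Finite) (hf₂ : {i | f₂ i ≠ 1}.Finite) (hr : {i | r i ≠ 1}.Finite)
    (hD : {i | D i ≠ 1}.Finite) (hE : {i | E i ≠ 1}.Finite) (h0 : ∀ i, f₁ i ≠ 0)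
    (h1 : ∀ i, f₁ i ≤ D i * r i * f₂ i) (h2 : ∀ i, f₂ (σ i) ≤ E i * f₁ i) :
    1 ≤ (∏ᶠ i, D i) * (∏ᶠ i, E i) * ∏ᶠ i, r i :=
  H6.Z.finprod_ineq σ hf₁ hf₂ hr hD hE h0 h1 h2

/-- **12. The finite places other than `w₀`** (`H6ZExcl`). There is a constant `C`, depending only on the
Hecke operator `A`, such that for every `x ∈ m.X` and every upper triangular `b` for which the local
kernels of `A` do not vanish at `(x_w, (b s(x))_w)`, `w ≠ w₀`: the numbers `|t|_(w₀)` and `Π_w |t|_w`
(all finite `w`), `t = b₁₁ / b₀₀`, differ at most by the factor `C`. From 5, 9, 10 and 11 for the index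
set of the places `w ≠ w₀`, which is stable because `a.σ w₀ = w₀`. -/
theorem finite_places {K : Type*} [Field K] [NumberField K] {J : Type*} [Fintype J]
    {m : Model K J} (a : AutData m) {w₀ : HeightOneSpectrum (𝓞 K)} (h₀ : a.σ w₀ = w₀)
    (A : GlobKer m.L.fam) :
    ∃ C : ℝ≥0, 1 ≤ C ∧ ∀ (x : m.X) (b : GL (Fin 2) K), b 1 0 = 0 →
      (∀ w ≠ w₀, (A.loc w).k (x.2 w)
        (((ProjGenLinGroup.mk b : PGL(2, K)) • a.act x).2 w) ≠ 0) →
      ∀ P : ℝ≥0, P = ∏ᶠ w, H6.Z.nv w (b 1 1 / b 0 0) →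
        H6.Z.nv w₀ (b 1 1 / b 0 0) ≤ C * P ∧ P ≤ C * H6.Z.nv w₀ (b 1 1 / b 0 0) :=
  H6.Z.fin_bound a h₀ A

/-! ## 3. The infinite places and the product formula -/

/-- **13. The infinite places** (`H6ZExcl2`). If the points `x_j` and `(b s(x))_j` of `H3` have `cosh`
distance at most `R` for all `j`, the product of the `|t|_j`, `t = b₁₁ / b₀₀`, is bounded from above and
below by powers of `2 R`: heights of points of `cosh` distance `≤ R` differ at most by the factor `2 R`,
`b` multiplies the height by `|t|⁻¹`, and the heights of `x` and `s(x)` cancel in the product. (`m.e j` is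
the embedding of `K` which belongs to `j`.) -/
theorem infinite_places {K : Type*} [Field K] [NumberField K] {J : Type*} [Fintype J]
    {m : Model K J} (a : AutData m) (R : ℝ) (x : m.X) (b : GL (Fin 2) K) (hb : b 1 0 = 0)
    (hx : ∀ j, H3.ch (x.1 j) (((ProjGenLinGroup.mk b : PGL(2, K)) • a.act x).1 j) ≤ R) :
    1 ≤ (2 * R.toNNReal) ^ Fintype.card J * (∏ j, ‖m.e j (b 1 1 / b 0 0)‖₊)⁻¹ ∧
      1 ≤ (2 * R.toNNReal) ^ Fintype.card J * ∏ j, ‖m.e j (b 1 1 / b 0 0)‖₊ :=
  H6.Z.arch_bound a R x b hb hx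

/-- **14. Upper triangular elements** (`H6ZExcl2`). For contributing upper triangular `b` (at the places
`w ≠ w₀` and at infinity) the number `|b₁₁ / b₀₀|_(w₀)` is bounded from above and below by a constant
depending only on `A` and `R`: 12, 13 and the product formula, in which the complex places occur with
multiplicity two (second part). -/
theorem upper_triangular_elements {K : Type*} [Field K] [NumberField K] {J : Type*} [Fintype J]
    {m : Model K J} (a : AutData m) {w₀ : HeightOneSpectrum (𝓞 K)} (h₀ : a.σ w₀ = w₀)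
    (A : GlobKer m.L.fam) (R : ℝ) :
    (∃ C : ℝ≥0, ∀ (x : m.X) (b : GL (Fin 2) K), b 1 0 = 0 →
      (∀ j, H3.ch (x.1 j) (((ProjGenLinGroup.mk b : PGL(2, K)) • a.act x).1 j) ≤ R) →
      (∀ w ≠ w₀, (A.loc w).k (x.2 w)
        (((ProjGenLinGroup.mk b : PGL(2, K)) • a.act x).2 w) ≠ 0) →
      H6.Z.nv w₀ (b 1 1 / b 0 0) ≤ C ∧ 1 ≤ C * H6.Z.nv w₀ (b 1 1 / b 0 0)) ∧
    ∀ t : K, ∏ w : InfinitePlace K, w t ^ w.mult = (((∏ j, ‖m.e j t‖₊) ^ 2 : ℝ≥0) : ℝ) :=
  ⟨H6.Z.upper_bound a h₀ A R, H6.Z.prod_infinite m⟩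

/-! ## 4. Stable lines -/

/-- **15. Translation** (`H6ZExcl2`). Replacing `x` by `g x` and `δ` by `g δ s(g)⁻¹` replaces `δ s(x)` by
`g δ s(x)`; kernels and distances are invariant under `g`. Every nonzero vector is the first column of
an invertible matrix. -/
theorem translation {K : Type*} [Field K] [NumberField K] {J : Type*} [Fintype J]
    {m : Model K J} (a : AutData m) :
    (∀ (g δ : PGL(2, K)) (x : m.X),
      (g * δ * (ProjGenLinGroup.map (a.s : K →+* K) g)⁻¹) • a.act (g • x) = g • δ • a.act x) ∧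
    ∀ u : Fin 2 → K, u ≠ 0 → ∃ h : GL (Fin 2) K, ∀ i, h i 0 = u i :=
  ⟨H6.Z.translate a, fun _ hu => H6.Z.exists_first_col hu⟩

/-- **16. The stable line in coordinates** (`H6ZExcl2`). This is 14 for `b = h⁻¹ D s(h)`, where `u` is the
first column of `h` and `D s(u) = c u`: then `b₀₀ = c`, `b₁₀ = 0`, and
`|b₁₁ / b₀₀|_(w₀) = |det D / c²|_(w₀)`, since `|det h|_(w₀) = |s(det h)|_(w₀)`. Only the upper bound is
stated here; both bounds are `line_bound` in `GuideOctCLocal`. -/
theorem stable_line_in_coordinates {K : Type*} [Field K] [NumberField K] {J : Type*} [Fintype J]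
    {m : Model K J} (a : AutData m) {w₀ : HeightOneSpectrum (𝓞 K)} (h₀ : a.σ w₀ = w₀)
    (A : GlobKer m.L.fam) (R : ℝ) : ∃ C : ℝ≥0, ∀ (x : m.X) (D : GL (Fin 2) K),
      (∀ j, H3.ch (x.1 j) (((ProjGenLinGroup.mk D : PGL(2, K)) • a.act x).1 j) ≤ R) →
      (∀ w ≠ w₀, (A.loc w).k (x.2 w)
        (((ProjGenLinGroup.mk D : PGL(2, K)) • a.act x).2 w) ≠ 0) →
      ∀ u : Fin 2 → K, u ≠ 0 → ∀ c : K, D.val *ᵥ (fun i => a.s (u i)) = c • u →
        H6.Z.nv w₀ (c ^ 2 / D.val.det) ≤ C :=
  (H6.Z.line_bound a h₀ A R).imp fun _ h x D h1 h2 u hu c hc =>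
    (h x _ h1 h2 D rfl u hu c hc).1

/-- **17. The condition at `w₀`** (`H6ZExcl2`). `PCell v d g`: some representative `A` of `g` has
`v(A₀₀) < 1`, `v(A₀₁) ≤ 1`, `v(A₁₀) < 1`, `v(A₁₁) = 1` and `v(det A) = d` (so `g` is in the double coset of
`diag(ϖⁿ, 1)` for the Iwahori group, `d = v(ϖⁿ)`). It is stable under right multiplication by the
Iwahori group. -/
theorem condition_at_auxiliary_place {F : Type*} [Field F] {Γ₀ : Type*}
    [LinearOrderedCommGroupWithZero Γ₀] (v : Valuation F Γ₀) {d : Γ₀} {g k : PGL(2, F)} :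
    (H6.Z.PCell v d g ↔ ∃ A : GL (Fin 2) F, ProjGenLinGroup.mk A = g ∧
      UMat v A.val ∧ v A.val.det = d) ∧
    (H6.Z.PCell v d g → (∃ B : GL (Fin 2) F, ProjGenLinGroup.mk B = k ∧ IMat v B.val) →
      H6.Z.PCell v d (g * k)) :=
  ⟨Iff.rfl, H6.Z.PCell.mul_right v⟩

/-- **18. Normal forms** (`H6ZExcl3`). The sets `cellU v c` of block (C) (representatives with
`v(g₀₀), v(g₀₁) ≤ v(g₁₁)`, `v(g₁₀) < v(g₁₁)`, `v(det g) = c v(g₁₁)²`) lie, for `c = exp(-n)`, `n ≥ 1`,
in those of 17 (divide by `g₁₁`); the Iwahori group is `cellU v 1`. -/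
theorem normal_forms {F : Type*} [Field F] {v : Valuation F (WithZero (Multiplicative ℤ))} :
    (∀ n : ℕ, 1 ≤ n → ∀ x ∈ H51Z.cellU v (exp (-(n : ℤ))),
      H6.Z.PCell v (exp (-(n : ℤ))) x) ∧
    ∀ x ∈ H51Z.Iw v, ∃ B : GL (Fin 2) F, ProjGenLinGroup.mk B = x ∧ IMat v B.val :=
  ⟨fun _ hn _ hx => H6.Z.pcell_of_cellU hn hx, fun _ hx => H6.Z.imat_of_mem_Iw hx⟩

/-- **19. The exclusion theorem** (`H6ZExcl2`). Let the level group at `w₀` consist of Iwahori elements.
For all large `n`: if `x_j` and `(δ s(x))_j` have `cosh` distance `≤ R`, the local kernels of `A` do not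
vanish at `(x_w, (δ s(x))_w)` for `w ≠ w₀`, and the pair at `w₀` is in the relation `CellRel` (it has
representatives `g`, `g'` with `PCell (g⁻¹ g')`, `d = exp(-n)`), then `δ` has no stable line. Proof: let
`D s(u) = c u`. With a representative `G` of `g` the matrix `B = z G⁻¹ D s(G)` satisfies the condition of
17 and `B s(u') = z c u'` for `u' = G⁻¹ u`, so `|z c| = 1` or `|z c| = |det B| = q^(-n)`
(`semilinear_eigenvalue` in `GuideOctCLocal`); hence `|c² / det D|` is `q^n` or `q^(-n)`. As soon as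
`q^n > C` this contradicts the upper bound of 16 or the lower bound of `line_bound`. -/
theorem exclusion {K : Type*} [Field K] [NumberField K] {J : Type*} [Fintype J]
    {m : Model K J} (a : AutData m) {w₀ : HeightOneSpectrum (𝓞 K)} (h₀ : a.σ w₀ = w₀)
    (hI : ∀ g ∈ m.L.U w₀, ∃ B : GL (Fin 2) K, ProjGenLinGroup.mk B = g ∧
      IMat (w₀.valuation K) B.val)
    (A : GlobKer m.L.fam) (R : ℝ) : ∃ M₀ : ℕ, ∀ n : ℕ, M₀ ≤ n → ∀ (x : m.X) (δ : PGL(2, K)),
      (∀ j, H3.ch (x.1 j) ((δ • a.act x).1 j) ≤ R) →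
      (∀ w ≠ w₀, (A.loc w).k (x.2 w) ((δ • a.act x).2 w) ≠ 0) →
      H6.Z.CellRel (w₀.valuation K) (exp (-(n : ℤ))) (x.2 w₀) ((δ • a.act x).2 w₀) →
      ∀ D : GL (Fin 2) K, ProjGenLinGroup.mk D = δ → ∀ u : Fin 2 → K, u ≠ 0 → ∀ c : K,
        D.val *ᵥ (fun i => a.s (u i)) ≠ c • u :=
  H6.Z.excl a h₀ hI A R

/-- **20. Upper triangular elements do not contribute** (`H6ZExcl3`). The form of the exclusion theorem
for the kernels of the trace formula (`m.ker κ B.k` is the product of `κ` of the vector of `cosh` of the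
distances and of the local kernels of `B`), for the line of the first basis vector: every contributing
`g` has `g₁₀ ≠ 0`. This is the form used in the comparison of the geometric sides (`H94XFin`): it implies
that the norms of the contributing elements are elliptic regular (section 5) and that the geometric
side converges absolutely (`H94VConv`). The version for all lines is `no_stable_line` in
`GuideOctCGeom`. -/
theorem upper_triangular_excluded {K : Type*} [Field K] [NumberField K] {J : Type*} [Fintype J]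
    {m : Model K J} (a : AutData m) {w₀ : HeightOneSpectrum (𝓞 K)} (h₀ : a.σ w₀ = w₀)
    (hI : ∀ g ∈ m.L.U w₀, g ∈ H51Z.Iw (w₀.valuation K)) (A : GlobKer m.L.fam) (R : ℝ) :
    ∃ M₀ : ℕ, ∀ n : ℕ, M₀ ≤ n → ∀ B : GlobKer m.L.fam,
      (∀ w ≠ w₀, ∀ y y', (B.loc w).k y y' ≠ 0 → (A.loc w).k y y' ≠ 0) →
      (∀ g g' : PGL(2, K), (B.loc w₀).k (g : PGL(2, K) ⧸ m.L.fam.U w₀)
        (g' : PGL(2, K) ⧸ m.L.fam.U w₀) ≠ 0 →
          g⁻¹ * g' ∈ H51Z.cellU (w₀.valuation K) (exp (-(n : ℤ)))) →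
      ∀ κ : (J → ℝ) → ℂ, (∀ t, κ t ≠ 0 → ∀ j, t j ≤ R) → ∀ (x : m.X) (g : GL (Fin 2) K),
        m.ker κ B.k x ((ProjGenLinGroup.mk g : PGL(2, K)) • a.act x) ≠ 0 → g 1 0 ≠ 0 :=
  H6.Z.excl_upper a h₀ hI A R

/-! ## 5. The contributing elements are elliptic regular

How the exclusion theorem is used: over `E` (`s` of order three) the norm of a contributing element, over
`F` (`s = 1`) the contributing element itself is elliptic regular, i.e. it has no eigenvalue in the field
and its trace is `≠ 0` (then the elements of `PGL₂` which commute with it lie in its torus). -/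

/-- **21. The norm of a matrix** (`H56ZReg`). Let `s` be an endomorphism of the field `K` with `s³ = 1` and
`N = A s(A) s²(A)`. Then `A s(N) = N A`. Hence `s` fixes the trace of `N` (if `det A ≠ 0`); it also fixes
the determinant of `N`. -/
theorem norm_of_matrix {K : Type*} [Field K] {s : K →+* K} (h3 : ∀ x, s (s (s x)) = x)
    {A N : Matrix (Fin 2) (Fin 2) K} (hN : N = A * A.map s * (A.map s).map s) :
    A * N.map s = N * A ∧ (A.det ≠ 0 → s N.trace = N.trace) ∧ s N.det = N.det := by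
  subst hN
  exact ⟨H56Z.mul_map_Nm h3 A, H56Z.trace_Nm h3, H56Z.det_Nm h3 A⟩

/-- **22. Eigenvectors** (`H56ZReg`). A root `l ∈ K` of the characteristic polynomial of `N` is an
eigenvalue; if the discriminant of `N` is not zero, its eigenspace is a line. With 21: if `N` is the norm
of `A` and `s l = l`, then `u ↦ A s(u)` maps the eigenspace of `l` to itself. The eigenvalues of `N` in
`K` are fixed by `s` because `s³ = 1`. This gives `norm_elliptic` in `GuideOctCGeom`: if `A` has no stable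
line and the discriminant of `N` is not zero, `N` has no eigenvalue in `K`. -/
theorem eigenvectors {K : Type*} [Field K] {N : Matrix (Fin 2) (Fin 2) K} {l : K} :
    (l ^ 2 - N.trace * l + N.det = 0 → ∃ u : Fin 2 → K, u ≠ 0 ∧ N *ᵥ u = l • u) ∧
    (N.trace ^ 2 - 4 * N.det ≠ 0 → ∀ u w : Fin 2 → K, u ≠ 0 → N *ᵥ u = l • u → N *ᵥ w = l • w →
      ∃ c : K, w = c • u) :=
  ⟨H56Z.exists_eigvec, fun hd _ _ hu h1 h2 => H56Z.eig_unique hd hu h1 h2⟩

/-- **23. Conjugation** (`H56ZReg`). If `A` has no stable line (`A s(u) ≠ c u` for all `u ≠ 0` and all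
`c`), then `z A` with `z ≠ 0` and `B⁻¹ A s(B)` with `det B ≠ 0` have none. -/
theorem no_line_of_conjugate {K : Type*} [Field K] {s : K →+* K} {A : Matrix (Fin 2) (Fin 2) K}
    (h : ∀ u : Fin 2 → K, u ≠ 0 → ∀ c : K, A *ᵥ (fun i => s (u i)) ≠ c • u) :
    (∀ z : K, z ≠ 0 → ∀ u : Fin 2 → K, u ≠ 0 → ∀ c : K,
      (z • A) *ᵥ (fun i => s (u i)) ≠ c • u) ∧
    ∀ B : Matrix (Fin 2) (Fin 2) K, B.det ≠ 0 → ∀ u : Fin 2 → K, u ≠ 0 → ∀ c : K,
      (B⁻¹ * A * B.map s) *ᵥ (fun i => s (u i)) ≠ c • u :=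
  ⟨fun _ hz => H56Z.NoLine.smul h hz, fun _ hB => H56Z.NoLine.conj hB h⟩

/-- **24. Norms of elements of the cell** (`H56ZReg`, `H80Tree`). If `v(g₀₀), v(g₀₁) ≤ v(g₁₁)`,
`v(g₁₀) < v(g₁₁)` and `v(det g) = exp(-m) v(g₁₁)²` with `m ≥ 1`, then `g / g₁₁` satisfies the condition
`UMat` of 17. Products and, if `s` preserves `v`, images under `s` of matrices with this condition
satisfy it again, and it implies `v(tr) = v(tr² - 4 det) = 1`. So the norm of an element of the cell
has trace and discriminant `≠ 0`. -/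
theorem norms_of_the_cell {K : Type*} [Field K] {v : Valuation K (WithZero (Multiplicative ℤ))} :
    (∀ m : ℕ, 1 ≤ m → ∀ g : GL (Fin 2) K, H51Z.Cell v (exp (-(m : ℤ))) g →
      g 1 1 ≠ 0 ∧ UMat v ((g 1 1)⁻¹ • (g : Matrix (Fin 2) (Fin 2) K))) ∧
    (∀ A B : Matrix (Fin 2) (Fin 2) K, UMat v A → UMat v B → UMat v (A * B)) ∧
    (∀ s : K →+* K, (∀ x, v (s x) = v x) → ∀ A : Matrix (Fin 2) (Fin 2) K, UMat v A →
      UMat v (A.map s)) ∧
    ∀ A : Matrix (Fin 2) (Fin 2) K, UMat v A → v A.trace = 1 ∧ v (A.trace ^ 2 - 4 * A.det) = 1 :=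
  ⟨fun _ hm _ hg => H56Z.umat_of_cell hm hg, fun _ _ hA hB => hA.mul hB, fun _ hs _ hA => hA.map hs,
    fun _ hA => ⟨hA.trace, hA.disc⟩⟩

/-- **25. A contributing element is `s`-conjugate to an element of the cell** (`H56ZReg2`). Let `w₀` be
fixed by `s`, and let the kernel of `B` at `w₀` be supported in the cell. If `δ` contributes at `x`, then
`g⁻¹ δ s(g)` is in the cell for the `g` with `x_(w₀) = g U`; the coset of `s(x)` at `w₀` is that of
`s(g)`. -/
theorem contributing_in_cell {K : Type*} [Field K] [NumberField K] {J : Type*} [Fintype J]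
    {m : Model K J} (a : AutData m) {w₀ : HeightOneSpectrum (𝓞 K)} (h₀ : a.σ w₀ = w₀)
    {B : GlobKer m.L.fam} {κ : (J → ℝ) → ℂ} {n : ℕ}
    (hB : ∀ g g' : PGL(2, K), (B.loc w₀).k (g : PGL(2, K) ⧸ m.L.fam.U w₀)
      (g' : PGL(2, K) ⧸ m.L.fam.U w₀) ≠ 0 →
        g⁻¹ * g' ∈ H51Z.cellU (w₀.valuation K) (exp (-(n : ℤ))))
    {δ : PGL(2, K)} {x : m.X} (hx : m.ker κ B.k x (δ • a.act x) ≠ 0) :
    ∃ g : PGL(2, K), g⁻¹ * δ * ProjGenLinGroup.map (a.s : K →+* K) g ∈
      H51Z.cellU (w₀.valuation K) (exp (-(n : ℤ))) :=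
  H56Z.exists_cell a h₀ hB hx

/-- **26. From the first basis vector to all lines** (`H56ZReg2`). Let `t` be an invariant kernel such
that all contributing matrices have `g₁₀ ≠ 0` (as in 20). Then no contributing `δ` has a stable line:
translate the line to the first basis vector (15). -/
theorem no_line_of_upper_excluded {K : Type*} [Field K] [NumberField K] {J : Type*} [Fintype J]
    {m : Model K J} (a : AutData m) {t : m.X → m.X → ℂ}
    (ht : ∀ (g : PGL(2, K)) (x y : m.X), t (g • x) (g • y) = t x y)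
    (hexcl : ∀ (g : GL (Fin 2) K) (x : m.X),
      t x ((ProjGenLinGroup.mk g : PGL(2, K)) • a.act x) ≠ 0 → g 1 0 ≠ 0)
    {δ : PGL(2, K)} {x : m.X} (hx : t x (δ • a.act x) ≠ 0) :
    ∀ D : GL (Fin 2) K, ProjGenLinGroup.mk D = δ → ∀ u : Fin 2 → K, u ≠ 0 → ∀ c : K,
      (D : Matrix (Fin 2) (Fin 2) K) *ᵥ (fun i => a.s (u i)) ≠ c • u :=
  H56Z.noLineP_of_excl a ht hexcl hx

/-- **27. Over `E`** (`H56ZReg2`). Let `s` be an automorphism of `E` over `F` with `s³ = 1`, and let the
kernel `B` be as in 20 and 25, `n ≥ 1`. Then the norm `δ s(δ) s²(δ)` of every contributing `δ ∈ PGL₂(E)` is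
elliptic regular: it has a representative without eigenvalues in `E` and with trace `≠ 0`. From 25, 26
and `norm_elliptic_of_cell` in `GuideOctCLocal` (that is, 21-24). -/
theorem norms_elliptic_regular {F E : Type*} [Field F] [Field E] [NumberField E] [Algebra F E]
    {s : E ≃ₐ[F] E} (h3 : ∀ x, s (s (s x)) = x) {J : Type*} [Fintype J] {m : Model E J}
    (a : AutData m) (hs : ∀ x, a.s x = s x) {w₀ : HeightOneSpectrum (𝓞 E)} (h₀ : a.σ w₀ = w₀)
    {B : GlobKer m.L.fam} {κ : (J → ℝ) → ℂ} {n : ℕ} (hn : 1 ≤ n)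
    (hB : ∀ g g' : PGL(2, E), (B.loc w₀).k (g : PGL(2, E) ⧸ m.L.fam.U w₀)
      (g' : PGL(2, E) ⧸ m.L.fam.U w₀) ≠ 0 →
        g⁻¹ * g' ∈ H51Z.cellU (w₀.valuation E) (exp (-(n : ℤ))))
    (hexcl : ∀ (g : GL (Fin 2) E) (x : m.X),
      m.ker κ B.k x ((ProjGenLinGroup.mk g : PGL(2, E)) • a.act x) ≠ 0 → g 1 0 ≠ 0)
    (δ : PGL(2, E)) (x : m.X) (hx : m.ker κ B.k x (δ • a.act x) ≠ 0) :
    ∃ N : GL (Fin 2) E, ProjGenLinGroup.mk N = δ * ProjGenLinGroup.map (s : E →+* E) δ *
        ProjGenLinGroup.map (s : E →+* E) (ProjGenLinGroup.map (s : E →+* E) δ) ∧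
      (∀ y : E, y ^ 2 - (N : Matrix (Fin 2) (Fin 2) E).trace * y +
        (N : Matrix (Fin 2) (Fin 2) E).det ≠ 0) ∧
      (N : Matrix (Fin 2) (Fin 2) E).trace ≠ 0 :=
  H56Z.ellReg_E h3 a hs h₀ hn hB hexcl δ x hx

/-- **28. Over `F`** (`H56ZReg2`). The same for `s = 1`: every `γ` which contributes to the untwisted trace
formula is itself elliptic regular. -/
theorem elements_elliptic_regular {K : Type*} [Field K] [NumberField K] {J : Type*} [Fintype J]
    {m : Model K J} {B : GlobKer m.L.fam} {κ : (J → ℝ) → ℂ} {v₀ : HeightOneSpectrum (𝓞 K)}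
    {n : ℕ} (hn : 1 ≤ n)
    (hB : ∀ g g' : PGL(2, K), (B.loc v₀).k (g : PGL(2, K) ⧸ m.L.fam.U v₀)
      (g' : PGL(2, K) ⧸ m.L.fam.U v₀) ≠ 0 →
        g⁻¹ * g' ∈ H51Z.cellU (v₀.valuation K) (exp (-(n : ℤ))))
    (hexcl : ∀ (g : GL (Fin 2) K) (x : m.X),
      m.ker κ B.k x ((ProjGenLinGroup.mk g : PGL(2, K)) • x) ≠ 0 → g 1 0 ≠ 0)
    (γ : PGL(2, K)) (x : m.X) (hx : m.ker κ B.k x (γ • x) ≠ 0) :
    ∃ g : GL (Fin 2) K, ProjGenLinGroup.mk g = γ ∧
      (∀ y : K, y ^ 2 - (g : Matrix (Fin 2) (Fin 2) K).trace * y +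
        (g : Matrix (Fin 2) (Fin 2) K).det ≠ 0) ∧
      (g : Matrix (Fin 2) (Fin 2) K).trace ≠ 0 :=
  H56Z.ellReg_F hn hB hexcl γ x hx

end Fermat.Agent.Guide.StableLines
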