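import Fermat.Agent.H75PBound

/-!
# Reader's guide: the local bounds for ordinary lifts (S56, S59)

Every theorem of this file is proved by citing a theorem of the library; nothing here is used by any
other file. This is a companion of `GuideLocalBounds` (its section 5 contains the main results of
sections 1 to 3 below) and of `GuideLiftingGalois` (its theorem `localBound_ordMark` rests on
section 4 below). The bound for flat lifts is in `GuideFlatBound` and `GuideUnitCocycles`.

**The statements.** `p` is an odd prime, `k` a finite field of characteristic `p`, `D` the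
decomposition group of a place of the algebraic numbers above `p`, `r : G_ℚ → GL₂(k)` a representation
with cyclotomic determinant. A lift `R` of `r` to the dual numbers `k[ε]` with the same determinant has
a cocycle `c : D → ad⁰ r`, `R(σ) = (1 + ε c(σ)) r(σ)`. The cocycles of all lifts which are strictly
ordinary at `p` lie in one group with at most `|k|⁴` elements (`strictly_ordinary_bound`). Let `σ₀` be an
element of `D` which moves a `p`-th root of `p`, and let `r(σ₀) = 1`. The cocycles of those lifts of this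
kind with `R(σ₀) = 1` lie in one group with at most `|k|³` elements (`marked_bound`).

**The proof.** On `D` a strictly ordinary lift has the form `(χ z, t; 0, z)` in a suitable basis, with
the cyclotomic character `χ` and `z(σ)² = 1`; so `z(σ) = ± 1` has no `ε`-part and only `t` is unknown.
The line of `r` is unique, since `χ` takes the value `2 ≠ 1` on inertia; hence one basis of `k²` works
for all lifts. The cocycle of `R` is, up to a coboundary, a cocycle with values in the strictly upper
triangular matrices, a `k`-line on which `D` acts by `χ`. So one has to count the cocycles of `D` with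
values in `μ_p`: by Hilbert's theorem 90 such a cocycle is `σ ↦ σ(α) / α` with `α^p ∈ ℚ_p`, its class
depends only on `α^p` modulo `p`-th powers, and `ℚ_pˣ / (ℚ_pˣ)^p` has `p²` elements. This is the only place
of the local bounds where more is used of local fields than the valuation. There is no duality and no
Euler characteristic.

**Order of the file.** 1. Cocycles with values in `μ_p`. 2. Triangular forms. 3. The bound.
4. Marked lifts.

**Where.** The bound of section 3 is used in S56 (`H56S56`) and in S59 (`H20InO`, `H20C1`), that of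
section 4 in S59 (`H75PLocal`); hence both in S60, S38, S45, S46, S50, S03, S04, S06 and S01, but not in
S43, where the lifts are flat at `p`. NOTES.md, Appendix A.10 (NOTES-S56). Modules `H81Ord1`, `H81Ord2`,
`H81Ord3` (helper81), `H75PBound` (helper75), `H33Cyclo` (helper33), `H54PadicGal`, `H54TotRam`
(helper54), `H7LocPowPadic` (helper7).
-/

set_option autoImplicit false
set_option maxSynthPendingDepth 3

namespace Fermat.Agent.Guide.StrictOrdinary

open Fermat.Agent.H53 (M2 MCont ofMatrix)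
open Fermat.Agent.H55 Fermat.Agent.H56 Fermat.Agent.H81 ExtCitation

/-- The field of algebraic numbers. -/
local notation "Qb" => AlgebraicClosure ℚ

/-- The absolute Galois group of the rational numbers. -/
local notation "GQ" => (AlgebraicClosure ℚ ≃ₐ[ℚ] AlgebraicClosure ℚ)

/-! ## 1. Cocycles of the decomposition group with values in `μ_p`

`Dq (pPrime p)` is the decomposition group `D` of the place above `p` given by the fixed embedding
`padicEmbedding p` of the algebraic numbers into `PadicAlgCl p`, the algebraic closure of `ℚ_p`; `Z1`,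
`B1` are the groups of continuous cocycles and of coboundaries, where `Dlev (pPrime p)` are the open
subgroups of `D`. The group `μ_p` is written additively, as `ZMod p`. -/

/-- **The module `μ_p`**: `chiD p` is the representation of `D` on `ZMod p` given by the cyclotomic
character modulo `p`. (`H81Ord1`.) -/
theorem chiD_apply (p : ℕ) [Fact p.Prime] (σ : Dq (pPrime p)) (a : ZMod p) :
    chiD p σ a = (cycloChar p (σ : GQ) : ZMod p) * a :=
  H81.chiD_apply p σ a

/-- **From `ZMod p` to `μ_p`**: for a primitive `p`-th root of unity `ζ` the map `a ↦ ze ζ a = ζ^a` is an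
isomorphism of `ZMod p` onto the group of `p`-th roots of unity. (`H81Ord1`.) -/
theorem roots_of_unity {p : ℕ} [Fact p.Prime] {F : Type*} [Field F] {ζ : F}
    (hζ : IsPrimitiveRoot ζ p) :
    (∀ a : ZMod p, ze ζ a = ζ ^ a.val) ∧ (∀ a b : ZMod p, ze ζ (a + b) = ze ζ a * ze ζ b) ∧
      (∀ a b : ZMod p, ze ζ a = ze ζ b → a = b) ∧ ∀ x : F, x ^ p = 1 → ∃ a : ZMod p, x = ze ζ a :=
  ⟨fun _ => rfl, ze_add hζ.pow_eq_one, fun _ _ h => ze_injective hζ h, fun _ hx => exists_ze hζ hx⟩

/-- The Galois group acts on `μ_p` by the cyclotomic character. (`H81Ord1`.) -/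
theorem galois_on_roots (p : ℕ) [Fact p.Prime] (σ : GQ) {ζ : Qb} (hζ : ζ ^ p = 1) (a : ZMod p) :
    σ (ze ζ a) = ze ζ ((cycloChar p σ : ZMod p) * a) :=
  map_ze p σ hζ a

/-- **Hilbert's theorem 90 for `D`**: a continuous cocycle of `D` with values in `μ_p` has the form
`σ ↦ σ(α) / α` for an algebraic number `α ≠ 0`. (`H81Ord1`.) -/
theorem exists_kummer (p : ℕ) [Fact p.Prime] {ζ : Qb} (hζ : IsPrimitiveRoot ζ p)
    {c : Dq (pPrime p) → ZMod p} (hc : c ∈ Z1 (Dlev (pPrime p)) (chiD p)) :
    ∃ α : Qb, α ≠ 0 ∧ ∀ σ : Dq (pPrime p), (σ : GQ) α = ze ζ (c σ) * α :=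
  H81.exists_kummer p hζ hc

/-- **The decomposition group is the local Galois group**: `locD p` is the restriction of the
automorphisms of the algebraic closure of `ℚ_p` to the algebraic numbers; it maps onto `D` (that is what
is used), and it is compatible with the embedding. By Galois theory an element which is fixed by all
these automorphisms is in `ℚ_p`. (`H81Ord1`, from `H54PadicGal`.) -/
theorem local_galois (p : ℕ) [Fact p.Prime] :
    Function.Surjective (locD p) ∧
      (∀ (τ : PadicAlgCl p ≃ₐ[ℚ_[p]] PadicAlgCl p) (x : Qb),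
        padicEmbedding p (((locD p τ : Dq (pPrime p)) : GQ) x) = τ (padicEmbedding p x)) ∧
      ∀ y : PadicAlgCl p, (∀ τ : PadicAlgCl p ≃ₐ[ℚ_[p]] PadicAlgCl p, τ y = y) →
        ∃ x : ℚ_[p], algebraMap ℚ_[p] (PadicAlgCl p) x = y :=
  ⟨locD_surjective p, padicEmbedding_locD p, exists_algebraMap_eq_of_fixed p⟩

/-- **The Kummer class**: in `exists_kummer` the number `α^p` is fixed by `D`, so it is an element
`u` of `ℚ_pˣ`. (`H81Ord1`.) -/
theorem exists_kummer_padic (p : ℕ) [Fact p.Prime] {ζ : Qb} (hζ : IsPrimitiveRoot ζ p)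
    {c : Dq (pPrime p) → ZMod p} (hc : c ∈ Z1 (Dlev (pPrime p)) (chiD p)) :
    ∃ (u : ℚ_[p]ˣ) (α : Qb), α ≠ 0 ∧ (∀ σ : Dq (pPrime p), (σ : GQ) α = ze ζ (c σ) * α) ∧
      algebraMap ℚ_[p] (PadicAlgCl p) u = padicEmbedding p α ^ p :=
  H81.exists_kummer_padic p hζ hc

/-- **Equal Kummer classes, cohomologous cocycles**: if the classes `u`, `u'` of two cocycles differ by
a `p`-th power, the cocycles differ by a coboundary. (`H81Ord1`.) -/
theorem cohomologous_of_kummer (p : ℕ) [Fact p.Prime] {ζ : Qb} (hζ : IsPrimitiveRoot ζ p)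
    {c c' : Dq (pPrime p) → ZMod p} {u u' : ℚ_[p]ˣ} {α α' : Qb} (hα0 : α ≠ 0)
    (hα : ∀ σ : Dq (pPrime p), (σ : GQ) α = ze ζ (c σ) * α)
    (hα' : ∀ σ : Dq (pPrime p), (σ : GQ) α' = ze ζ (c' σ) * α')
    (hu : algebraMap ℚ_[p] (PadicAlgCl p) u = padicEmbedding p α ^ p)
    (hu' : algebraMap ℚ_[p] (PadicAlgCl p) u' = padicEmbedding p α' ^ p)
    (h : u' * u⁻¹ ∈ (powMonoidHom p : ℚ_[p]ˣ →* ℚ_[p]ˣ).range) : c' - c ∈ B1 (chiD p) :=
  sub_mem_B1_of_kummer p hζ hα0 hα hα' hu hu' h

/-- **No `p`-th roots of unity in `ℚ_p`, `p` odd, and the index of the `p`-th powers is `p²`.** Proof: a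
primitive `p`-th root of unity in `ℚ_p` would be fixed by the local Galois group, but some element of
this group moves it to its square, since the cyclotomic polynomial is irreducible over `ℚ_p`. The
index is then a case of the general formula `#μ_p(E) · p · p^[E : ℚ_p]` (`GuidePoitouTate`,
`GuideLocalNorms`). (`H81Ord1`, from `H54TotRam` and `H7LocPowPadic`.) -/
theorem powers_in_padic (p : ℕ) [Fact p.Prime] (hp2 : p ≠ 2) :
    (powMonoidHom p : ℚ_[p]ˣ →* ℚ_[p]ˣ).ker = ⊥ ∧
      (powMonoidHom p : ℚ_[p]ˣ →* ℚ_[p]ˣ).range.index = p ^ 2 :=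
  ⟨ker_pow_padic p hp2, index_pow_padic p hp2⟩

/-- **The count**: at most `p` coboundaries, hence at most `p² · p` continuous cocycles of `D` with
values in `μ_p`, for `p` odd. (`H81Ord1`.) -/
theorem card_cocycles (p : ℕ) [Fact p.Prime] (hp2 : p ≠ 2) :
    (Finite (B1 (chiD p)) ∧ Nat.card (B1 (chiD p)) ≤ p) ∧
      Finite (Z1 (Dlev (pPrime p)) (chiD p)) ∧
      Nat.card (Z1 (Dlev (pPrime p)) (chiD p)) ≤ p ^ 3 :=
  ⟨card_B1_chiD p, card_Z1_chiD p hp2⟩

/-! ## 2. Triangular forms

`M2 k` are the `2 × 2` matrices, `chik p k` the cyclotomic character modulo `p` with values in `k`,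
`Iq (pPrime p)` the inertia group in `D`; `DetCyc p r` means that `det r` is the cyclotomic character,
`GoodLift r R` that `R` is a continuous lift of `r` to the dual numbers with constant determinant (written
out in `GuideLocalBounds`), `TrivSqZeroExt.inl` is the inclusion of `k` in `k[ε]`. -/

/-- **Signs in the dual numbers**: for `p` odd a square root of `1` in `k[ε]` is a constant, `±1`.
(`H81Ord2`.) -/
theorem square_roots_of_one (p : ℕ) [Fact p.Prime] {k : Type} [Field k] [Algebra (ZMod p) k]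
    (hp2 : p ≠ 2) {z : DualNumber k} (hz : z ^ 2 = 1) :
    z = TrivSqZeroExt.inl z.fst ∧ z.fst ^ 2 = 1 :=
  sq_eq_one_dual p hp2 hz

/-- **Triangular forms**: `Tri p R g` means that in the basis given by the columns of `g` the matrices
`R(σ)`, `σ ∈ D`, are `(χ z, t; 0, z)` with a sign `z = z(σ)` which is `1` on inertia; `Tri0 p r g` is the
same for a representation over `k`. (`H81Ord2`.) -/
theorem tri_iff (p : ℕ) [Fact p.Prime] {k : Type} [Field k] [Algebra (ZMod p) k] :
    (∀ (R : GQ →* M2 (DualNumber k)) (g : M2 (DualNumber k)), Tri p R g ↔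
      IsUnit g ∧ ∀ σ : Dq (pPrime p), ∃ (z : k) (t : DualNumber k), z ^ 2 = 1 ∧
        R (σ : GQ) * g =
          g * !![TrivSqZeroExt.inl (chik p k σ * z), t; 0, TrivSqZeroExt.inl z] ∧
        ((σ : GQ) ∈ Iq (pPrime p) → z = 1)) ∧
    ∀ (r : GQ →* M2 k) (g : M2 k), Tri0 p r g ↔
      IsUnit g ∧ ∀ σ : Dq (pPrime p), ∃ z t : k, z ^ 2 = 1 ∧
        r (σ : GQ) * g = g * !![chik p k σ * z, t; 0, z] ∧ ((σ : GQ) ∈ Iq (pPrime p) → z = 1) :=
  ⟨fun _ _ => Iff.rfl, fun _ _ => Iff.rfl⟩

/-- **A strictly ordinary lift has a triangular form.** Proof: strictly ordinary means that there is a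
line stable under `D`, on which `D` acts by `x`, with `D` acting on the quotient by a character `z` which
is trivial on inertia, and `x = χ z` (over `k[ε]` the condition of the definition says exactly this,
since `p = 0`). The determinant gives `χ z² = x z = χ`, hence `z(σ)² = 1`, and `z(σ) = ± 1` has no
`ε`-part. (`H81Ord2`.) -/
theorem exists_tri (p : ℕ) [Fact p.Prime] {k : Type} [Field k] [Algebra (ZMod p) k] (hp2 : p ≠ 2)
    {r : GQ →* M2 k} (hdet : DetCyc p r) {R : GQ →* M2 (DualNumber k)} (hR : GoodLift r R)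
    (h : MCont (DualNumber k) R) (hord : (ofMatrix R h).IsStrictOrdinaryAt p) :
    ∃ g, Tri p R g :=
  H81.exists_tri p hp2 hdet hR h hord

/-- The reduction of a triangular form is a triangular form; `redM k` reduces the entries of a matrix over
`k[ε]` modulo `ε`. (`H81Ord2`.) -/
theorem reduction_of_tri (p : ℕ) [Fact p.Prime] {k : Type} [Field k] [Algebra (ZMod p) k]
    {r : GQ →* M2 k} {R : GQ →* M2 (DualNumber k)} (hR : ∀ σ, redM k (R σ) = r σ)
    {g : M2 (DualNumber k)} (h : Tri p R g) : Tri0 p r (redM k g) :=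
  Tri.red p hR h

/-- **The cyclotomic character modulo `p` takes every value on inertia at `p`.** (`H33Cyclo`.) -/
theorem exists_inertia_cyclotomic {p : ℕ} [Fact p.Prime] {A : ValuationSubring Qb}
    (hA : A.LiesOverPrime p) (a : ℕ) (ha : ¬ p ∣ a) :
    ∃ σ ∈ A.inertiaSubgroupIn ℚ, ∀ μ : Qb, μ ^ p = 1 → σ μ = μ ^ a :=
  H33.exists_inertia_cyclo hA a ha

/-- **The residual line is unique**: two triangular forms of `r` differ by an upper triangular matrix.
Proof: an element of inertia with `χ = 2` has the different eigenvalues `2` and `1`, and the stable line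
is the eigenspace for `2`. (`H81Ord2`.) -/
theorem residual_line_unique (p : ℕ) [Fact p.Prime] {k : Type} [Field k] [Algebra (ZMod p) k]
    (hp2 : p ≠ 2) {r : GQ →* M2 k} {g g' : M2 k} (h : Tri0 p r g) (h' : Tri0 p r g') :
    ∃ a b d : k, a ≠ 0 ∧ d ≠ 0 ∧ g' = g * !![a, b; 0, d] :=
  Tri0.unique p hp2 h h'

/-- **Adjusting the basis**: a triangular form of `R` whose reduction differs from `g0` by an upper
triangular matrix can be changed into a triangular form with reduction `g0`. So one basis of `k²`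
serves for all strictly ordinary lifts. (`H81Ord2`.) -/
theorem adjust_basis (p : ℕ) [Fact p.Prime] {k : Type} [Field k] [Algebra (ZMod p) k]
    {R : GQ →* M2 (DualNumber k)} {g' : M2 (DualNumber k)} (h : Tri p R g')
    {g0 : M2 k} {a b d : k} (ha : a ≠ 0) (hd : d ≠ 0) (hg : redM k g' = g0 * !![a, b; 0, d]) :
    ∃ g, Tri p R g ∧ redM k g = g0 :=
  Tri.adjust p h ha hd hg

/-! ## 3. The bound

`SL p k` are the matrices of trace zero, `ad p r` the action of `G_ℚ` on them by conjugation with `r`,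
`rhoD (ad p r) (pPrime p)` its restriction to `D`, `d0` the coboundary map `X ↦ (σ ↦ σ X - X)`, `coc R` the
cocycle of a lift `R`; `FinLev r` means that `r` is trivial on an open subgroup. -/

/-- The restriction to `D` of the cocycle of a lift is a continuous cocycle (the same at all primes `q`).
(`H81Ord3`.) -/
theorem cocycle_of_lift (p : ℕ) [Fact p.Prime] {k : Type} [Field k] [Algebra (ZMod p) k]
    {r : GQ →* M2 k} {R : GQ →* M2 (DualNumber k)} (hR : GoodLift r R) (q : Nat.Primes)
    {c : Dq q → SL p k} (hc : ∀ σ, (c σ : M2 k) = coc R (σ : GQ)) :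
    c ∈ Z1 (Dlev q) (rhoD (ad p r) q) :=
  coc_mem_Z1 p hR q hc

/-- **The line `k(1)` in `ad⁰ r`**: `phi p u s = u (0, s; 0, 0) u⁻¹` is injective in `s`, and if `u` gives a
triangular form, `D` acts on these matrices by the cyclotomic character. (`H81Ord3`.) -/
theorem line_of_cyclotomic_type (p : ℕ) [Fact p.Prime] {k : Type} [Field k] [Algebra (ZMod p) k]
    (u : (M2 k)ˣ) :
    (∀ s : k, (phi p u s : M2 k) = (u : M2 k) * !![0, s; 0, 0] * (↑u⁻¹ : M2 k)) ∧
      Function.Injective (phi p u) ∧
      ∀ r : GQ →* M2 k, Tri0 p r (u : M2 k) → ∀ (σ : Dq (pPrime p)) (s : k),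
        rhoD (ad p r) (pPrime p) σ (phi p u s) = phi p u (chik p k σ * s) :=
  ⟨coe_phi p u, phi_injective p u, fun _ h σ s => ad_phi p h σ s⟩

/-- **The cocycles with values in this line**, `MM p r u`, **and their components**: a linear form
`l : k → ZMod p` maps such a cocycle to a cocycle with values in `μ_p`. (`H81Ord3`.) -/
theorem component_is_cocycle (p : ℕ) [Fact p.Prime] {k : Type} [Field k] [Algebra (ZMod p) k]
    {r : GQ →* M2 k} {u : (M2 k)ˣ} :
    (∀ f : Dq (pPrime p) → SL p k, f ∈ MM p r u ↔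
      f ∈ Z1 (Dlev (pPrime p)) (rhoD (ad p r) (pPrime p)) ∧ ∀ σ, ∃ s, phi p u s = f σ) ∧
    (Tri0 p r (u : M2 k) → ∀ f ∈ Z1 (Dlev (pPrime p)) (rhoD (ad p r) (pPrime p)),
      ∀ s : Dq (pPrime p) → k, (∀ σ, phi p u (s σ) = f σ) → ∀ l : k →ₗ[ZMod p] ZMod p,
        (fun σ => l (s σ)) ∈ Z1 (Dlev (pPrime p)) (chiD p)) :=
  ⟨fun _ => H81.mem_MM p, fun h _ hf _ hs l => comp_mem_Z1 p h hf hs l⟩

/-- **First count**: `#MM ≤ |k|³`, from the `[k : ZMod p]` components and `card_cocycles`. (`H81Ord3`.) -/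
theorem card_MM (p : ℕ) [Fact p.Prime] {k : Type} [Field k] [Algebra (ZMod p) k] [Finite k]
    (hp2 : p ≠ 2) {r : GQ →* M2 k} {u : (M2 k)ˣ} (h : Tri0 p r (u : M2 k)) :
    Finite (MM p r u) ∧ Nat.card (MM p r u) ≤ Nat.card k ^ 3 :=
  H81.card_MM p hp2 h

/-- **Coboundaries of upper triangular matrices** have values in the line: `σ X - X` is strictly upper
triangular, because `r(σ)` is upper triangular too. (`H81Ord3`.) -/
theorem coboundary_of_triangular (p : ℕ) [Fact p.Prime] {k : Type} [Field k] [Algebra (ZMod p) k]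
    {r : GQ →* M2 k} (hr : FinLev r) {u : (M2 k)ˣ} (h : Tri0 p r (u : M2 k))
    {X : SL p k} {a b c : k} (hX : (X : M2 k) = (u : M2 k) * !![a, b; 0, c] * (↑u⁻¹ : M2 k)) :
    d0 (rhoD (ad p r) (pPrime p)) X ∈ MM p r u :=
  d0_borel p hr h hX

/-- **The group `LL = MM + B¹`**: by the preceding theorem every element of it is the sum of an element of
`MM` and of the coboundary of a strictly lower triangular matrix `phim p u s = u (0, 0; s, 0) u⁻¹`.
(`H81Ord3`.) -/
theorem elements_of_LL (p : ℕ) [Fact p.Prime] {k : Type} [Field k] [Algebra (ZMod p) k]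
    {r : GQ →* M2 k} (hr : FinLev r) {u : (M2 k)ˣ} (h : Tri0 p r (u : M2 k)) :
    LL p r u = MM p r u ⊔ B1 (rhoD (ad p r) (pPrime p)) ∧
      (∀ s : k, (phim p u s : M2 k) = (u : M2 k) * !![0, 0; s, 0] * (↑u⁻¹ : M2 k)) ∧
      ∀ f ∈ LL p r u, ∃ m ∈ MM p r u, ∃ s : k,
        m + d0 (rhoD (ad p r) (pPrime p)) (phim p u s) = f :=
  ⟨rfl, fun _ => rfl, fun _ hf => exists_of_mem_LL p hr h hf⟩

/-- **Second count**: `#LL ≤ |k|⁴`. (`H81Ord3`.) -/
theorem card_LL (p : ℕ) [Fact p.Prime] {k : Type} [Field k] [Algebra (ZMod p) k] [Finite k]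
    (hp2 : p ≠ 2) {r : GQ →* M2 k} (hr : FinLev r) {u : (M2 k)ˣ} (h : Tri0 p r (u : M2 k)) :
    Finite (LL p r u) ∧ Nat.card (LL p r u) ≤ Nat.card k ^ 4 :=
  H81.card_LL p hp2 hr h

/-- **The cocycle of a strictly ordinary lift is in `LL`.** Proof: write `g = (1 + ε Y) u` and compare the
`ε`-parts of `R(σ) g = g (χ z, t; 0, z)`: the cocycle of `R` plus the coboundary of `Y` has the value
`u (0, z t_ε; 0, 0) u⁻¹`; the scalar part of `Y` has no coboundary and can be removed, `p` being odd.
(`H81Ord3`.) -/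
theorem cocycle_mem_LL (p : ℕ) [Fact p.Prime] {k : Type} [Field k] [Algebra (ZMod p) k]
    (hp2 : p ≠ 2) {r : GQ →* M2 k} (hr : FinLev r) {R : GQ →* M2 (DualNumber k)}
    (hR : GoodLift r R) {u : (M2 k)ˣ} {g : M2 (DualNumber k)} (hg : Tri p R g)
    (hgu : redM k g = u) {c : Dq (pPrime p) → SL p k}
    (hc : ∀ σ, (c σ : M2 k) = coc R (σ : GQ)) : c ∈ LL p r u :=
  coc_mem_LL p hp2 hr hR hg hgu hc

/-- **The strictly ordinary bound** (`LocalBound` written out): for `p` odd and `det r` cyclotomic there is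
one group `L` of continuous cocycles on `D`, which contains the coboundaries, has at most `|k|⁴` elements
and contains the cocycles of all strictly ordinary lifts. It is `LL` if there is such a lift, and the
group of coboundaries (at most `|k|³`) if there is none. (`H81Ord3`; also in `GuideLocalBounds`.) -/
theorem strictly_ordinary_bound (p : ℕ) [Fact p.Prime] {k : Type} [Field k] [Algebra (ZMod p) k]
    [Finite k] (hp2 : p ≠ 2) (r : GQ →* M2 k) (hr : FinLev r) (hdet : DetCyc p r) :
    ∃ L : Submodule (ZMod p) (Dq (pPrime p) → SL p k),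
      B1 (rhoD (ad p r) (pPrime p)) ≤ L ∧
      L ≤ Z1 (Dlev (pPrime p)) (rhoD (ad p r) (pPrime p)) ∧
      Finite L ∧ Nat.card L ≤ Nat.card k ^ 4 ∧
      ∀ R : GQ →* M2 (DualNumber k), GoodLift r R →
        (∃ h : MCont (DualNumber k) R, (ofMatrix R h).IsStrictOrdinaryAt p) →
        ∀ c : Dq (pPrime p) → SL p k, (∀ σ, (c σ : M2 k) = coc R (σ : GQ)) → c ∈ L :=
  statementO p hp2 r hr hdet

/-! ## 4. Marked lifts

Let `σ₀` be an element of `D` (in S59: of inertia) which moves a `p`-th root of `p`. If `r(σ₀) = 1` (see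
`GuideHeckeRings.residual_ordinary_basis`), the residual representation may be flat and ordinary, and the
ordinary lifts of S59 have two *marks* (`GuideLiftingGalois`): `t`, the difference between `z(φ)` at a
Frobenius element `φ` and its residual value, and `y`, the upper right entry of the matrix of `σ₀`. If
both marks are zero, the lift has a triangular form as in section 2 and satisfies `R(σ₀) = 1`. -/

/-- **The cocycle of the `p`-th root of `p`** does not vanish at `σ₀`. (`H75PBound`.) -/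
theorem kummer_cocycle_of_p (p : ℕ) [Fact p.Prime] {σ₀ : Dq (pPrime p)} {π₁ : Qb}
    (hπ : π₁ ^ p = p) (hσ : (σ₀ : GQ) π₁ ≠ π₁) :
    ∃ c ∈ Z1 (Dlev (pPrime p)) (chiD p), c σ₀ ≠ 0 :=
  H75P.exists_kummer_p p hπ hσ

/-- **Hence at most `p²` cocycles with values in `μ_p` vanish at `σ₀`**: together with the multiples of the
preceding cocycle they generate a group which is `p` times as large and has at most `p³` elements.
(`H75PBound`; `H75P.Zv p σ₀` is the group of these cocycles.) -/
theorem card_vanishing (p : ℕ) [Fact p.Prime] (hp2 : p ≠ 2) {σ₀ : Dq (pPrime p)} {π₁ : Qb}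
    (hπ : π₁ ^ p = p) (hσ : (σ₀ : GQ) π₁ ≠ π₁) :
    (∀ c, c ∈ H75P.Zv p σ₀ ↔ c ∈ Z1 (Dlev (pPrime p)) (chiD p) ∧ c σ₀ = 0) ∧
      Finite (H75P.Zv p σ₀) ∧ Nat.card (H75P.Zv p σ₀) ≤ p ^ 2 :=
  ⟨fun _ => H75P.mem_Zv p, H75P.card_Zv p hp2 hπ hσ⟩

/-- **The two counts**, as in section 3, with the groups `MMv`, `LLv` of the cocycles which vanish at `σ₀`
(if `r(σ₀) = 1`, all coboundaries do): at most `|k|²` and `|k|³` elements. (`H75PBound`.) -/
theorem card_LLv (p : ℕ) [Fact p.Prime] {k : Type} [Field k] [Algebra (ZMod p) k] [Finite k]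
    (hp2 : p ≠ 2) {r : GQ →* M2 k} (hr : FinLev r) {u : (M2 k)ˣ} (h : Tri0 p r (u : M2 k))
    {σ₀ : Dq (pPrime p)} {π₁ : Qb} (hπ : π₁ ^ p = p) (hσ : (σ₀ : GQ) π₁ ≠ π₁)
    (hr0 : r (σ₀ : GQ) = 1) :
    (∀ f, f ∈ H75P.MMv p r u σ₀ ↔ f ∈ MM p r u ∧ f σ₀ = 0) ∧
      H75P.LLv p r u σ₀ = H75P.MMv p r u σ₀ ⊔ B1 (rhoD (ad p r) (pPrime p)) ∧
      (Finite (H75P.MMv p r u σ₀) ∧ Nat.card (H75P.MMv p r u σ₀) ≤ Nat.card k ^ 2) ∧
      Finite (H75P.LLv p r u σ₀) ∧ Nat.card (H75P.LLv p r u σ₀) ≤ Nat.card k ^ 3 :=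
  ⟨fun _ => H75P.mem_MMv p, rfl, H75P.card_MMv p hp2 h hπ hσ, H75P.card_LLv p hp2 hr h hπ hσ hr0⟩

/-- The cocycle of a marked lift is in `LLv`. (`H75PBound`.) -/
theorem cocycle_mem_LLv (p : ℕ) [Fact p.Prime] {k : Type} [Field k] [Algebra (ZMod p) k]
    (hp2 : p ≠ 2) {r : GQ →* M2 k} (hr : FinLev r) {R : GQ →* M2 (DualNumber k)}
    (hR : GoodLift r R) {u : (M2 k)ˣ} {g : M2 (DualNumber k)} (hg : Tri p R g)
    (hgu : redM k g = u) {σ₀ : Dq (pPrime p)} (hr0 : r (σ₀ : GQ) = 1)
    (hR0 : R (σ₀ : GQ) = 1) {c : Dq (pPrime p) → SL p k}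
    (hc : ∀ σ, (c σ : M2 k) = coc R (σ : GQ)) : c ∈ H75P.LLv p r u σ₀ :=
  H75P.coc_mem_LLv p hp2 hr hR hg hgu hr0 hR0 hc

/-- **The marked bound**: the cocycles of the lifts `R` which have a triangular form and satisfy
`R(σ₀) = 1` lie in one group (`LLv`, or the coboundaries if there is no such lift) with at most `|k|³`
elements, as many as for unramified lifts. (The marks themselves become variables of the power series
ring, see `GuideLiftingGalois`.) (`H75PBound`.) -/
theorem marked_bound (p : ℕ) [Fact p.Prime] {k : Type} [Field k] [Algebra (ZMod p) k] [Finite k]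
    (hp2 : p ≠ 2) {r : GQ →* M2 k} (hr : FinLev r) {σ₀ : GQ} (hσD : σ₀ ∈ Dq (pPrime p))
    {π₁ : Qb} (hπ : π₁ ^ p = p) (hσ : σ₀ π₁ ≠ π₁) (hr0 : r σ₀ = 1) :
    LocalBound p r (pPrime p) 3 (fun R => (∃ g, Tri p R g) ∧ R σ₀ = 1) :=
  H75P.localBound_mark p hp2 hr hσD hπ hσ hr0

end Fermat.Agent.Guide.StrictOrdinary
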