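import Fermat.Agent.H52Congr3
import Fermat.Agent.H52Switch
import Fermat.Agent.S51
import Fermat.Agent.S52

set_option autoImplicit false

/-!
# Reader's guide: semistable curves (S51) and the 3-5 switch (S52)

Every theorem of this file is a citation of the library (at most three lines), with the statement written
out in full; no other module imports it.  More steps: `GuideIcosahedral` (section 3, why the 5-congruent
family has the same Frobenius matrix), `GuideGoodCurve` (section 4, the pencil and its application).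

**What the block does.**
* **S51** (section 1): a semistable curve `W` has `W[3]` or `W[5]` irreducible.
* **S52** (sections 2, 3), the 3-5 switch: for a semistable `W` there is a semistable `W'` with `W'[3]`
  irreducible and `a_ℓ(W') ≡ a_ℓ(W)` modulo 5 for all common good primes `ℓ ≠ 5`.

The published proofs use the modular curves `X₀(15)` and (twists of) `X(5)` and Hilbert irreducibility; here
there are explicit equations, a Fermat descent, Runge's method, and Klein's icosahedral forms.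

**The proof of S52.**  Let `a = c₄(W)`, `b = c₆(W)`.  The curves `E_t` with `c₄ = C20(a, b, t)`,
`c₆ = C30(a, b, t)` form the family of curves with the same mod 5 representation as `W` (Rubin-Silverberg,
Fisher).  For `t` divisible by all bad primes `E_t` has a semistable model (`family_discriminant`, `bezout`,
`exists_model`), and for some such `t` the mod 3 representation is irreducible (`irreducible_three`, `star`,
`no_polynomial_root`, `runge`, `exists_no_root`).  The congruence modulo 5 is proved over `𝔽_ℓ` by an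
explicit map of Klein parameters, equivariant for the icosahedral group, which transfers relations between
points of order 5 and their images under Frobenius (`klein`, `klein_parameters`, `point_of_order_five`,
`klein_map`, `transfer`, `congruence_five`).  The form used in S01 is `switch_five`.

**Where it is used.**  S51 and the 3-5 switch in the modularity of semistable curves (S50, S59, S60, hence
S01).  The line "Closures: ..." at the end of a docstring names all statements SNN whose proof term depends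
on the library theorem cited (computed by a traversal of the proof terms of the 60 statements).

**Conventions.**  `W.apOfModel ℓ = ℓ + 1 - #W(𝔽_ℓ)`; `W.IsSemistableModel`: a prime dividing `Δ(W)` does not
divide `c₄(W)`; `W.ModRepIsIrreducible p`: `W[p]` is irreducible over `𝔽_p` (`vocabulary`).

**Texts** by helper75 and helper51 (S51), helper98 (section 2), helper52 (sections 3, 4), helper87.
**Prose**: NOTES.md, Appendix A: NOTES-S51 (helper51), NOTES-S52 (helper98), NOTES-S52-CONGRUENCE and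
NOTES-CONGR3 (helper52).
-/

namespace Fermat.Agent.Guide.Switch

open WeierstrassCurve WeierstrassCurve.Affine Polynomial

/-- the field of algebraic numbers -/
local notation "Qbar" => AlgebraicClosure ℚ
/-- its Galois group over `ℚ` -/
local notation "GQ" => AlgebraicClosure ℚ ≃ₐ[ℚ] AlgebraicClosure ℚ

/-- *Irreducibility of `W[p]`* (Prelude: `ModRepIsIrreducible`) is meant over `𝔽_p`; *semistable*
(`IsSemistableModel`) means: a prime dividing `Δ` does not divide `c₄`. -/
theorem vocabulary (W : WeierstrassCurve ℤ) (p : ℕ) :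
    (W.ModRepIsIrreducible p ↔
      Nontrivial (Submodule.torsionBy ℤ ((W.map (Int.castRingHom ℚ))⁄Qbar).Point (p : ℤ)) ∧
      ∀ N : Submodule (ZMod p)
        (Submodule.torsionBy ℤ ((W.map (Int.castRingHom ℚ))⁄Qbar).Point (p : ℤ)),
        (∀ σ : GQ, ∀ x ∈ N, σ • x ∈ N) → N = ⊥ ∨ N = ⊤) ∧
    (W.IsSemistableModel ↔ ∀ q : ℕ, q.Prime → (q : ℤ) ∣ W.Δ → ¬ (q : ℤ) ∣ W.c₄) :=
  ⟨Iff.rfl, Iff.rfl⟩

/-! ## 1. S51: `W[3]` or `W[5]` is irreducible -/

/-- **A point of order five exists** on an elliptic curve over an algebraically closed field of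
characteristic zero. Proof: the division polynomial `ψ₅` (`preΨ' 5` in Mathlib) has positive degree, hence a
root `x = x(P)`; by the duplication formulas `x(4P) = x(P)`, so `4P = ± P`. If `4P = P` then `x(2P) = x(P)`
and `ψ₃(x) = 0`, with `ψ₅(x) = 0` also `ψ₂(P) = 0`, which contradicts `Δ ≠ 0`. Modules `H51Count`,
`H51Points`.
Closures: S01, S03, S04, S06, S38, S45, S46, S50, S51, S59, S60. -/
theorem exists_point_of_order_five {K : Type*} [Field K] [DecidableEq K] [IsAlgClosed K] [CharZero K]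
    (W : WeierstrassCurve K) (hΔ : W.Δ ≠ 0) :
    ∃ (x y : K) (h : W.toAffine.Nonsingular x y),
      (5 : ℕ) • (Affine.Point.some x y h : W.toAffine.Point) = 0 :=
  H51.exists_five_torsion W hΔ

/-- **Counting points by x-coordinates.** At most two points have a given x-coordinate, so if the
x-coordinates of the affine points of a set `T` are roots of the polynomial `p ≠ 0`, then `T` is finite and
has at most `2 deg p + 1` elements. With `ψ₃` and `ψ₅`, of degree 4 and 12, this gives `#W[3] ≤ 9` and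
`#W[5] ≤ 25`; as both groups are not zero, a stable subspace which is neither zero nor everything is a line.
Module `H51Count`.
Closures: S01, S03, S04, S06, S38, S45, S46, S50-S52, S59, S60. -/
theorem count_points {K : Type*} [Field K] [DecidableEq K] (W : WeierstrassCurve K) (p : K[X])
    (hp : p ≠ 0) (T : Set W.toAffine.Point)
    (hT : ∀ (x y : K) (h : W.toAffine.Nonsingular x y),
      (Affine.Point.some x y h : W.toAffine.Point) ∈ T → p.eval x = 0) :
    T.Finite ∧ T.ncard ≤ 2 * p.natDegree + 1 :=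
  H51.finite_and_card_le W p hp T hT

/-- **A stable proper subspace is a line**: let `p` be a prime with `#W[p] < p³` (for `p = 3`, `5` by
`count_points`) and `N` a proper subspace of `W[p]` which is stable under Galois. Then every `σ` maps a
point `P ≠ 0` of `N` to a multiple of `P`. (`H51.TT W p` is `W[p]` over `ℚ̄`, `H51.EK W` the curve over
`ℚ̄`.) Module `H51Extract`.
Closures: S01, S03, S04, S06, S38, S45, S46, S50-S52, S59, S60. -/
theorem stable_line (W : WeierstrassCurve ℤ) {p : ℕ} [Fact p.Prime] (hfin : Finite (H51.TT W p))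
    (hcard : Nat.card (H51.TT W p) < p ^ 3) (N : Submodule (ZMod p) (H51.TT W p)) (hN : N ≠ ⊤)
    (hst : ∀ σ : AlgebraicClosure ℚ ≃ₐ[ℚ] AlgebraicClosure ℚ, ∀ x ∈ N, σ • x ∈ N)
    (P : H51.TT W p) (hP : P ∈ N) (hP0 : P ≠ 0) (σ : AlgebraicClosure ℚ ≃ₐ[ℚ] AlgebraicClosure ℚ) :
    ∃ m : ℕ, m < p ∧ m • (P : (H51.EK W).toAffine.Point) = σ • (P : (H51.EK W).toAffine.Point) :=
  H51.exists_nsmul_eq W hfin hcard N hN hst P hP hP0 σ

/-- **If `W[3]` is reducible**, the 3-division polynomial has a rational root: `2P = -P`, so the stable line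
`{0, P, -P}` has one x-coordinate, fixed by Galois. Module `H51Extract`.
Closures: S01, S03, S04, S06, S38, S45, S46, S50-S52, S59, S60. -/
theorem root_psi_three (W : WeierstrassCurve ℤ) (hΔ : W.Δ ≠ 0) (h : ¬ W.ModRepIsIrreducible 3) :
    ∃ r : ℚ, 3 * r ^ 4 + W.b₂ * r ^ 3 + 3 * W.b₄ * r ^ 2 + 3 * W.b₆ * r + W.b₈ = 0 :=
  H51.three W hΔ h

/-- **If `W[5]` is reducible**, the points of the stable line are `±P`, `±2P`, and `s = x(P) + x(2P)`,
`m = x(P) x(2P)` are rational (Galois permutes the two x-coordinates); `s² ≠ 4 m` because `x(P) ≠ x(2P)`.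
The two equations are the difference (divided by `x(P) - x(2P)`) and the sum of the duplication formulas for
`x(2P)` and `x(4P) = x(P)`. Modules `H51Dup`, `H51Points`, `H51Extract`.
Closures: S01, S03, S04, S06, S38, S45, S46, S50, S51, S59, S60. -/
theorem pair_five (W : WeierstrassCurve ℤ) (hΔ : W.Δ ≠ 0) (h : ¬ W.ModRepIsIrreducible 5) :
    ∃ s m : ℚ, s ^ 2 - 4 * m ≠ 0 ∧
      -s ^ 3 + 6 * m * s + W.b₂ * m + W.b₄ * s + W.b₆ = 0 ∧
      -s ^ 4 + 8 * m * s ^ 2 - 10 * m ^ 2 + W.b₂ * m * s + W.b₄ * (s ^ 2 + 2 * m) +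
        3 * W.b₆ * s + 2 * W.b₈ = 0 :=
  H51.five W hΔ h

/-- **Fermat descent**: there are no positive coprime `a, s` such that `a² + s²` and `a² + 16 s²` are
squares. Strong induction on `a s`, with the parametrisation of Pythagorean triples. Module `H75Descent`.
Closures: S01, S03, S04, S06, S38, S45, S46, S50, S51, S59, S60. -/
theorem no_two_squares (a s b c : ℕ) (ha : 0 < a) (hs : 0 < s) (h : Nat.Coprime a s)
    (h1 : a ^ 2 + s ^ 2 = b ^ 2) (h2 : a ^ 2 + 16 * s ^ 2 = c ^ 2) : False :=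
  H75.descent_aux (a * s) a s b c rfl ha hs h h1 h2

/-- The same over `ℚ`: if `w² + 4` and `w² + 64` are squares, then `w = 0`. Module `H75X15`.
Closures: S01, S03, S04, S06, S38, S45, S46, S50, S51, S59, S60. -/
theorem descent_rat (w u v : ℚ) (h1 : w ^ 2 + 4 = u ^ 2) (h2 : w ^ 2 + 64 = v ^ 2) : w = 0 :=
  H75.descent_rat w u v h1 h2

/-- **Rational points of `Y² = X (X - 9) (X - 25)`**, an equation of `X₀(15)`. For `w = Y / X` one has
`w² + 4 = (X - 15)² / X`, `w² + 64 = (X + 15)² / X`, and `X` or `5 X` is a square. In the first case apply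
`descent_rat`, in the second case add the point `(5, 20)`. Module `H75X15`.
Closures: S01, S03, S04, S06, S38, S45, S46, S50, S51, S59, S60. -/
theorem points_X15 (X Y : ℚ) (h : Y ^ 2 = X * (X - 9) * (X - 25)) :
    X = 0 ∨ X = 9 ∨ X = 25 ∨ X = 5 ∨ X = 45 :=
  H75.X15_points X Y h

/-- **Elimination.** After translation of `x` by `s / 2` the two relations of `pair_five` say
`b₄ = e (4 k - 2)`, `b₆ = β e`, `b₈ = e² (4 k + 3)` with `e = (s² - 4 m) / 4` and `β` the new `b₂` (which is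
`b₂ + 6 s`), and `4 b₈ = b₂ b₆ - b₄²` becomes `β² = 16 e (k² + 1)`. If `ψ₃` has a rational root `ρ`, then
`k` is one of five numbers: `X = 9 ρ² / e` is the first coordinate of a point as in `points_X15`. Here
`Δ = 64 e³ (2 k - 11)`, `c₄ = 16 e (k² - 6 k + 4)`. Module `H75S51Core`.
Closures: S01, S03, S04, S06, S38, S45, S46, S50, S51, S59, S60. -/
theorem five_values (β e k ρ : ℚ) (he : e ≠ 0) (hβ : β ^ 2 = 16 * e * (k ^ 2 + 1))
    (h3 : 3 * ρ ^ 4 + β * ρ ^ 3 + 3 * (e * (4 * k - 2)) * ρ ^ 2 + 3 * (β * e) * ρ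
      + e ^ 2 * (4 * k + 3) = 0) :
    k = -3 / 4 ∨ k = 63 / 16 ∨ k = 1 / 2 ∨ k = 11 / 2 ∨ k = -29 / 2 :=
  H75.x015_k β e k ρ he hβ h3

/-- **The core of S51**: a semistable `W` with `Δ(W) ≠ 0` cannot have both a root `r` of `ψ₃` and a pair
`(s, m)` as in `pair_five`. Of the five values of `k`, `11 / 2` gives `Δ = 0`; the other four are the
non-cuspidal rational points of `X₀(15)` (the curves of conductor 50), with `j = -5·29³/2⁵`, `5·211³/2¹⁵`,
`-25/2`, `-25·241³/2³` for `k = -3/4`, `63/16`, `1/2`, `-29/2`; the 5-adic valuation of `j = c₄³/Δ` is 1 or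
2, so 5 divides `c₄` and then `Δ`, against semistability at 5. Module `H75S51Core`.
Closures: S01, S03, S04, S06, S38, S45, S46, S50, S51, S59, S60. -/
theorem no_root_and_pair (W : WeierstrassCurve ℤ) (hΔ : W.Δ ≠ 0) (hss : W.IsSemistableModel)
    (r s m : ℚ)
    (h3 : 3 * r ^ 4 + (W.b₂ : ℚ) * r ^ 3 + 3 * (W.b₄ : ℚ) * r ^ 2 + 3 * (W.b₆ : ℚ) * r
      + (W.b₈ : ℚ) = 0)
    (hsm : s ^ 2 - 4 * m ≠ 0)
    (h5a : -s ^ 3 + 6 * m * s + (W.b₂ : ℚ) * m + (W.b₄ : ℚ) * s + (W.b₆ : ℚ) = 0)
    (h5b : -s ^ 4 + 8 * m * s ^ 2 - 10 * m ^ 2 + (W.b₂ : ℚ) * m * s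
      + (W.b₄ : ℚ) * (s ^ 2 + 2 * m) + 3 * (W.b₆ : ℚ) * s + 2 * (W.b₈ : ℚ) = 0) : False :=
  H75.core W hΔ hss r s m h3 hsm h5a h5b

/-- **S51**: for a semistable `W` with `Δ ≠ 0`, `W[3]` or `W[5]` is irreducible (`root_psi_three`,
`pair_five`, `no_root_and_pair`).
Closures: S01, S03, S04, S06, S38, S45, S46, S50, S51, S59, S60. -/
theorem S51 (W : WeierstrassCurve ℤ) (hΔ : W.Δ ≠ 0)
    (hW : ∀ q : ℕ, q.Prime → (q : ℤ) ∣ W.Δ → ¬ (q : ℤ) ∣ W.c₄) :
    W.ModRepIsIrreducible 3 ∨ W.ModRepIsIrreducible 5 :=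
  S51.result W hΔ hW

/-! ## 2. S52: the explicit 5-congruent family -/

/-- *The short model*: `short a b` is the curve `y² = x³ - 27 a x - 54 b`. Its discriminant is
`2⁶ 3⁹ (a³ - b²)`; every Weierstrass curve `W` over a field in which 6 is invertible is isomorphic to
`short c₄ c₆`. Module `H98Short`.
Closures: S01, S03, S04, S06, S38, S45, S46, S50, S52, S59, S60. -/
theorem short_def {R : Type*} [CommRing R] (a b : R) :
    H98.short a b = ⟨0, 0, 0, -27 * a, -54 * b⟩ ∧
      (H98.short a b).Δ = 2 ^ 6 * 3 ^ 9 * (a ^ 3 - b ^ 2) :=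
  ⟨rfl, H98.short_Δ a b⟩

/-- *The form `D12`*, of degree 12 in `t` (Klein's form of degree 12 of the icosahedron, twisted), written
out. `C20`, `C30` have degree 20 and 30 in `t`. Module `H98Family`. -/
theorem family_D {R : Type*} [CommRing R] (a b t : R) :
    H98.D12 a b t = 1 - 66*t^2*a + 440*t^3*b - 1485*t^4*a^2 + 3168*t^5*a*b - 10560*t^6*b^2 +
      5940*t^6*a^3 + 4752*t^7*a^2*b + 63360*t^8*a*b^2 - 66825*t^8*a^4 - 140800*t^9*b^3 +
      142560*t^9*a^3*b + 133056*t^10*a^2*b^2 - 133650*t^10*a^5 - 61440*t^11*a*b^3 +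
      61560*t^11*a^4*b + 102400*t^12*b^4 - 193536*t^12*a^3*b^2 + 91125*t^12*a^6 :=
  rfl

/-- *The forms `C20`, `C30` are covariants of `D12`*: with `m = -t`, `d = D12(t)` (`H52.dHat a b m`), `g`,
`e`, `k` (`gHat`, `eHat`, `kHat`) the first three derivatives of `d` with respect to `m`, divided by 12,
12·11 and 12·11·10, `C20 = g² - d e` and `2 C30 = 3 d g e - d² k - 2 g³`. Modules `H52Defs`, `H98Bridge`.
Closures: S01, S03, S04, S06, S38, S45, S46, S50, S52, S59, S60. -/
theorem family_covariants {R : Type*} [CommRing R] (a b t : R) :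
    H98.D12 a b t = H52.dHat a b (-t) ∧
    H98.C20 a b t = H52.gHat a b (-t) ^ 2 - H52.dHat a b (-t) * H52.eHat a b (-t) ∧
    2 * H98.C30 a b t = 3 * H52.dHat a b (-t) * H52.gHat a b (-t) * H52.eHat a b (-t)
      - H52.dHat a b (-t) ^ 2 * H52.kHat a b (-t) - 2 * H52.gHat a b (-t) ^ 3 :=
  ⟨H98.D12_eq_dHat a b t, H98.C20_eq_c4Hat a b t, H98.two_C30_eq_c6Hat2 a b t⟩

/-- **The discriminant of the family** is the given one times a fifth power (a syzygy, an identity of
polynomials), and at `t = 0` the family gives back the curve. Modules `H98Family`, `H98NoRoot`.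
Closures: S01, S03, S04, S06, S38, S45, S46, S50, S52, S59, S60. -/
theorem family_discriminant {R : Type*} [CommRing R] (a b t : R) :
    H98.C20 a b t ^ 3 - H98.C30 a b t ^ 2 = (a ^ 3 - b ^ 2) * H98.D12 a b t ^ 5 ∧
    H98.D12 a b 0 = 1 ∧ H98.C20 a b 0 = a ∧ H98.C30 a b 0 = b :=
  ⟨H98.C20_pow_sub_C30_sq a b t, H98.D12_zero a b, H98.C20_zero a b, H98.C30_zero a b⟩

/-- **Bezout identity**: at a prime not dividing `30 (a³ - b²)` which divides `D12`, `C20` is prime to it;
so the members of the family have multiplicative reduction at the primes dividing `D12`. (The cofactors are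
explicit.) Module `H98Bezout`.
Closures: S01, S03, S04, S06, S38, S45, S46, S50, S52, S59, S60. -/
theorem bezout {R : Type*} [CommRing R] (a b t : R) :
    ∃ u v : R, u * H98.D12 a b t + v * H98.C20 a b t =
      2 ^ 26 * 3 ^ 12 * 5 ^ 5 * (a ^ 3 - b ^ 2) ^ 6 :=
  ⟨_, _, H98.bezout a b t⟩

/-- Over a field in which `6 ≠ 0` a Weierstrass curve has as many points as its short model with `a = c₄`,
`b = c₆`. Module `H98Short`; used to reduce S52 to `congruence_five`.
Closures: S01, S03, S04, S06, S38, S45, S46, S50, S52, S59, S60. -/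
theorem card_short {F : Type*} [Field F] (h6 : (6 : F) ≠ 0) (W : WeierstrassCurve F) :
    Nat.card (H98.short W.c₄ W.c₆).toAffine.Point = Nat.card W.toAffine.Point :=
  H98.card_short h6 W

/-- **Integral models**: an integral equation with `c₄`, `c₆` congruent to those of `W` modulo `48·864·K`,
which agrees with `W` modulo `K`. With `K` divisible by 330 and by the bad primes of `W` this gives
semistability at the primes dividing `K`. Module `H98Model`.
Closures: S01, S03, S04, S06, S38, S45, S46, S50, S52, S59, S60. -/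
theorem exists_model (W : WeierstrassCurve ℤ) (K x y : ℤ) :
    ∃ W' : WeierstrassCurve ℤ, W'.c₄ = W.c₄ + 48 * 864 * K * x ∧
      W'.c₆ = W.c₆ + 48 * 864 * K * y ∧ W'.a₁ = W.a₁ ∧ W'.a₂ = W.a₂ ∧ W'.a₃ = W.a₃ ∧
      K ∣ W'.a₄ - W.a₄ ∧ K ∣ W'.a₆ - W.a₆ :=
  H98.exists_model W K x y

/-- **Criterion for the irreducibility of `W[3]`**: the 3-division polynomial in the variable `12 x + b₂`
has no integral root. From `root_psi_three`; module `H98Model`.
Closures: S01, S03, S04, S06, S38, S45, S46, S50, S52, S59, S60. -/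
theorem irreducible_three (W : WeierstrassCurve ℤ) (hΔ : W.Δ ≠ 0)
    (h : ∀ z : ℤ, z ^ 4 - 6 * W.c₄ * z ^ 2 - 8 * W.c₆ * z - 3 * W.c₄ ^ 2 ≠ 0) :
    W.ModRepIsIrreducible 3 :=
  H98.modRepIsIrreducible_three W hΔ h

/-- **The identity behind the next theorems**: modulo the quartic of `irreducible_three`,
`64 z² (c³ - d²) = (9 c - z²) (z² - c)³`. Module `H98FamilyPoly`.
Closures: S01, S03, S04, S06, S38, S45, S46, S50, S52, S59, S60. -/
theorem star {R : Type*} [CommRing R] (c d z : R) :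
    64 * z ^ 2 * (c ^ 3 - d ^ 2) - (9 * c - z ^ 2) * (z ^ 2 - c) ^ 3 =
      (z ^ 4 - 6 * c * z ^ 2 - 8 * d * z - 3 * c ^ 2) *
        ((z ^ 4 - 6 * c * z ^ 2 - 8 * d * z - 3 * c ^ 2) + 16 * d * z) :=
  H98.star c d z

/-- **Over `ℂ(t)`** the quartic of the family has no polynomial root of degree `≤ 10` (`s` = shift of the
parameter, `n` = scaling). Proof: by `star`, `(9A - P²)(P² - A)³ = const P² D12⁵`; at each of the at least
11 simple zeros of `D12` the first factor vanishes to order 5 since 3 does not divide 5, but its degree is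
at most 20. Module `H98NoRoot`.
Closures: S01, S03, S04, S06, S38, S45, S46, S50, S52, S59, S60. -/
theorem no_polynomial_root (a b s : ℂ) (hab : a ^ 3 - b ^ 2 ≠ 0) (n : ℂ) (hn : n ≠ 0) (P : ℂ[X])
    (hP : P.natDegree ≤ 10)
    (hroot : P ^ 4 - 6 * (C n ^ 2 * H98.C20 (C a) (C b) (X + C s)) * P ^ 2 -
      8 * (C n ^ 3 * H98.C30 (C a) (C b) (X + C s)) * P -
      3 * (C n ^ 2 * H98.C20 (C a) (C b) (X + C s)) ^ 2 = 0) : False :=
  H98.no_poly_root a b s hab n hn P hP hroot

/-- **Runge's argument.** Let `A, B ∈ ℤ[t]` have degrees `≤ 20, 30` and let `z₀` be an integer root of the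
quartic at `t = 0` which is simple modulo the prime `p`. If for every `k ≥ 2` the quartic at `t = M p ^ k`
has an integer root congruent to `z₀` modulo `p`, then up to scaling by some `n ≠ 0` the quartic over `ℤ[t]`
has a polynomial root of degree `≤ 10`. Proof: Newton lift of `z₀` to order 10 in `t`, compared with the
bound `|z| ≤ const |t| ^ 10`. Module `H98Runge`.
Closures: S01, S03, S04, S06, S38, S45, S46, S50, S52, S59, S60. -/
theorem runge (A B : ℤ[X]) (hA : A.natDegree ≤ 20) (hB : B.natDegree ≤ 30) (z₀ M : ℤ) (hM : 1 ≤ M)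
    (p : ℕ) (hp : p.Prime)
    (h0 : z₀ ^ 4 - 6 * A.eval 0 * z₀ ^ 2 - 8 * B.eval 0 * z₀ - 3 * A.eval 0 ^ 2 = 0)
    (hN : ¬ (p : ℤ) ∣ 4 * z₀ ^ 3 - 12 * A.eval 0 * z₀ - 8 * B.eval 0)
    (hroot : ∀ k : ℕ, 2 ≤ k → ∃ z : ℤ, (p : ℤ) ∣ z - z₀ ∧
      z ^ 4 - 6 * A.eval (M * (p : ℤ) ^ k) * z ^ 2 - 8 * B.eval (M * (p : ℤ) ^ k) * z -
        3 * A.eval (M * (p : ℤ) ^ k) ^ 2 = 0) :
    ∃ (P : ℤ[X]) (n : ℤ), n ≠ 0 ∧ P.natDegree ≤ 10 ∧
      P ^ 4 - 6 * (C n ^ 2 * A) * P ^ 2 - 8 * (C n ^ 3 * B) * P - 3 * (C n ^ 2 * A) ^ 2 = 0 :=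
  H98.exists_poly_root A B hA hB z₀ M hM p hp h0 hN hroot

/-- **Some member of the family with parameter divisible by `M` has no rational 3-isogeny** (`M` any
multiple of `330 (a ^ 3 - b ^ 2)`). Proof: choose `s` divisible by `M` and a prime `p` which divides
`D12(s)` exactly once. For `t ≡ s` modulo `p²` the quartic is `(z - 3δ)(z + δ)³` modulo `p`, and by `star`
an integral root is congruent to the simple root `3δ`. So `runge` applies to the family shifted by `s`,
against `no_polynomial_root`. Module `H98NoRoot`.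
Closures: S01, S03, S04, S06, S38, S45, S46, S50, S52, S59, S60. -/
theorem exists_no_root (a b M : ℤ) (hab : a ^ 3 - b ^ 2 ≠ 0) (hM : 1 ≤ M)
    (h330 : 330 * (a ^ 3 - b ^ 2) ∣ M) :
    ∃ t : ℤ, M ∣ t ∧ ∀ z : ℤ, z ^ 4 - 6 * H98.C20 a b t * z ^ 2 - 8 * H98.C30 a b t * z -
      3 * H98.C20 a b t ^ 2 ≠ 0 :=
  H98.exists_no_root a b M hab hM h330

/-! ## 3. The congruence modulo 5 -/

/-- *Klein's icosahedral forms* `D`, `k₄`, `k₆` of degree 12, 20, 30 and their syzygy. A pair `(u, v)` with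
`k₄(u, v) = a`, `k₆(u, v) = b` is called a parameter of the curve `short a b`. Module `H52Klein`.
Closures: S01, S03, S04, S06, S38, S45, S46, S50, S52, S59, S60. -/
theorem klein {R : Type*} [CommRing R] (u v : R) :
    H52.kD u v = u * v * (u ^ 10 - 11 * u ^ 5 * v ^ 5 - v ^ 10) ∧
    H52.k4 u v = u ^ 20 + 228 * u ^ 15 * v ^ 5 + 494 * u ^ 10 * v ^ 10 - 228 * u ^ 5 * v ^ 15 +
      v ^ 20 ∧
    H52.k6 u v = -u ^ 30 + 522 * u ^ 25 * v ^ 5 + 10005 * u ^ 20 * v ^ 10 +
      10005 * u ^ 10 * v ^ 20 - 522 * u ^ 5 * v ^ 25 - v ^ 30 ∧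
    H52.k4 u v ^ 3 - H52.k6 u v ^ 2 = 1728 * H52.kD u v ^ 5 :=
  ⟨rfl, rfl, rfl, H52.k_syzygy u v⟩

/-- **Klein's parameters**: over an algebraically closed field of characteristic `≠ 2, 3, 5` every elliptic
curve has a parameter. This and the next theorems replace the modular curve `X(5)`. Module `H52Par`.
Closures: S01, S03, S04, S06, S38, S45, S46, S50, S52, S59, S60. -/
theorem klein_parameters {K : Type*} [Field K] [IsAlgClosed K] (h2 : (2 : K) ≠ 0)
    (h3 : (3 : K) ≠ 0) (h5 : (5 : K) ≠ 0) (a b : K) (hab : a ^ 3 ≠ b ^ 2) :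
    ∃ u v : K, H52.k4 u v = a ∧ H52.k6 u v = b :=
  H52.exists_param h2 h3 h5 a b hab

/-- **A parameter gives a point of order 5**, by explicit formulas: if `k₄(u, v) = a` and `k₆(u, v) = b`,
the point `(3(α² - 6αβ + β²), -108αβ²)` of `y² = x³ - 27 a x - 54 b` is killed by 5, with `α`, `β` the
quintic forms below (in `(α, β)` this is Tate's normal form of a curve with a point of order 5). Module
`H52Tors`.
Closures: S01, S03, S04, S06, S38, S45, S46, S50, S52, S59, S60. -/
theorem point_of_order_five {K : Type*} [Field K] [DecidableEq K] (h2 : (2 : K) ≠ 0)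
    (h3 : (3 : K) ≠ 0) {a b u v α β : K} (hab : a ^ 3 - b ^ 2 ≠ 0) (h4 : H52.k4 u v = a)
    (h6 : H52.k6 u v = b)
    (hα : α = u * (u ^ 4 + 3 * u ^ 3 * v + 4 * u ^ 2 * v ^ 2 + 2 * u * v ^ 3 + v ^ 4))
    (hβ : β = v * (u ^ 4 - 2 * u ^ 3 * v + 4 * u ^ 2 * v ^ 2 - 3 * u * v ^ 3 + v ^ 4)) :
    ∃ h : (H98.short a b).toAffine.Nonsingular (3 * (α ^ 2 - 6 * α * β + β ^ 2))
        (-108 * α * β ^ 2), (5 : ℤ) • (Point.some _ _ h : (H98.short a b).toAffine.Point) = 0 := by
  subst hα hβ; have h4' := (H52.t4_k u v).trans h4; have h6' := (H52.t6_k u v).trans h6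
  have hn := H52.tpt_nonsing h2 h3 hab h4' h6'
  exact ⟨hn, (congrArg _ (H52.pt_eq hn)).symm.trans (H52.tpt_five h2 h3 hab h4' h6')⟩

/-- **The family is a map of parameters**: if `(u, v)` is a parameter of `(a, b)` then
`(u - m ∂D/∂v, v + m ∂D/∂u)`, `D = u v (u¹⁰ - 11 u⁵ v⁵ - v¹⁰)`, is a parameter of the member of the family
belonging to `m = -t` (`family_covariants`; `H52.c4Hat`, `H52.c6Hat2` are the expressions for `C20`, `2 C30`
there). This map commutes with the icosahedral group. Modules `H52Klein`, `H52Par`.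
Closures: S01, S03, S04, S06, S38, S45, S46, S50, S52, S59, S60. -/
theorem klein_map {K : Type*} [Field K] (h2 : (2 : K) ≠ 0) (h3 : (3 : K) ≠ 0) (u v m : K)
    (hD : u * v * (u ^ 10 - 11 * u ^ 5 * v ^ 5 - v ^ 10) ≠ 0) :
    H52.k4 (u - m * (u * (u ^ 10 - 66 * u ^ 5 * v ^ 5 - 11 * v ^ 10)))
        (v + m * (v * (11 * u ^ 10 - 66 * u ^ 5 * v ^ 5 - v ^ 10))) =
      H52.c4Hat (H52.k4 u v) (H52.k6 u v) m ∧
    2 * H52.k6 (u - m * (u * (u ^ 10 - 66 * u ^ 5 * v ^ 5 - 11 * v ^ 10)))
        (v + m * (v * (11 * u ^ 10 - 66 * u ^ 5 * v ^ 5 - v ^ 10))) =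
      H52.c6Hat2 (H52.k4 u v) (H52.k6 u v) m :=
  ⟨H52.k4_w h2 h3 u v m hD, H52.k6_w h2 h3 u v m hD⟩

/-- **Transfer of Frobenius relations.** `σ` is an endomorphism of `K` fixing `a, b, m` (Frobenius), `Φ` and
`Φ'` the induced maps on the points of `E = short a b` and of the member `E' = short a' b'` of the family.
There are points `P`, `P'`, the order of `Φ' P'` divisible by 5, such that every relation
`Φ²P - s ΦP + t P = 0` transfers to `P'`. Proof: for every word in the generators of the icosahedral group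
the points of order 5 belonging to a parameter are transformed by the same integral matrix on `E` and on
`E'`, because the map `klein_map` is equivariant. Modules `H52Orb`, `H52Transfer`.
Closures: S01, S03, S04, S06, S38, S45, S46, S50, S52, S59, S60. -/
theorem transfer {K : Type*} [Field K] [DecidableEq K] [IsAlgClosed K] (h2 : (2 : K) ≠ 0)
    (h3 : (3 : K) ≠ 0) (h5 : (5 : K) ≠ 0) (σ : K →+* K) {a b a' b' m : K}
    (hab : a ^ 3 - b ^ 2 ≠ 0) (hD : H52.dHat a b m ≠ 0) (ha' : a' = H52.c4Hat a b m)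
    (hb' : 2 * b' = H52.c6Hat2 a b m) (σa : σ a = a) (σb : σ b = b) (σm : σ m = m)
    (Φ : (H98.short a b).toAffine.Point →+ (H98.short a b).toAffine.Point)
    (hΦ : ∀ x y (h : (H98.short a b).toAffine.Nonsingular x y),
      ∃ h', Φ (.some x y h) = .some (σ x) (σ y) h')
    (Φ' : (H98.short a' b').toAffine.Point →+ (H98.short a' b').toAffine.Point)
    (hΦ' : ∀ x y (h : (H98.short a' b').toAffine.Nonsingular x y),
      ∃ h', Φ' (.some x y h) = .some (σ x) (σ y) h') :
    ∃ (P : (H98.short a b).toAffine.Point) (P' : (H98.short a' b').toAffine.Point),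
      (∀ n : ℤ, n • Φ' P' = 0 → (5 : ℤ) ∣ n) ∧
      ∀ s t : ℤ, Φ (Φ P) - s • Φ P + t • P = 0 → Φ' (Φ' P') - s • Φ' P' + t • P' = 0 :=
  H52.transfer h2 h3 h5 σ hab hD ha' hb' σa σb σm rfl rfl Φ hΦ Φ' hΦ'

/-- **The mod 5 congruence**: the members of the family have the same number of points modulo 5 over `𝔽_ℓ`,
`ℓ ∤ 30`. From `transfer` and the characteristic polynomial of Frobenius. Module `H52Congr`.
Closures: S01, S03, S04, S06, S38, S45, S46, S50, S52, S59, S60. -/
theorem congruence_five (ℓ : ℕ) [Fact ℓ.Prime] (a b t : ZMod ℓ) (h30 : (30 : ZMod ℓ) ≠ 0)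
    (hab : a ^ 3 - b ^ 2 ≠ 0) (hD : H98.D12 a b t ≠ 0) :
    (5 : ℤ) ∣ (Nat.card (H98.short (H98.C20 a b t) (H98.C30 a b t)).toAffine.Point : ℤ) -
      (Nat.card (H98.short a b).toAffine.Point : ℤ) :=
  H52.congr5 ℓ a b t h30 hab hD

/-- **S52**, the 3-5 switch. (The hypothesis "`W[5]` irreducible" of S52 is not used.) Combination of
`exists_no_root`, `exists_model`, `bezout` (`H98Model`) and `congruence_five` (`H52Congr`).
Closures: S52. -/
theorem S52 (W : WeierstrassCurve ℤ) (hΔ : W.Δ ≠ 0)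
    (hW : ∀ q : ℕ, q.Prime → (q : ℤ) ∣ W.Δ → ¬ (q : ℤ) ∣ W.c₄) :
    ∃ W' : WeierstrassCurve ℤ, W'.Δ ≠ 0 ∧ (∀ q : ℕ, q.Prime → (q : ℤ) ∣ W'.Δ → ¬ (q : ℤ) ∣ W'.c₄) ∧
      W'.ModRepIsIrreducible 3 ∧ ∀ ℓ : ℕ, ℓ.Prime → ¬ (ℓ : ℤ) ∣ W.Δ → ¬ (ℓ : ℤ) ∣ W'.Δ → ℓ ≠ 5 →
        (5 : ℤ) ∣ (W'.apOfModel ℓ - W.apOfModel ℓ) :=
  H98.s52_of_congr5 H52.congr5 W hΔ hW

/-- **The 3-5 switch with control of the discriminant**, the form used in the proof of S01: in addition
`Δ(W) ∣ Δ(W')`, and `5 ∣ Δ(W')` only if `5 ∣ Δ(W)`. Module `H52Switch`.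
Closures: S01, S03, S04, S06, S38, S45, S46, S50, S59, S60. -/
theorem switch_five (W : WeierstrassCurve ℤ) (hΔ : W.Δ ≠ 0) (hW : W.IsSemistableModel) :
    ∃ W' : WeierstrassCurve ℤ, W.Δ ∣ W'.Δ ∧ ((5 : ℤ) ∣ W'.Δ → (5 : ℤ) ∣ W.Δ) ∧
      W'.Δ ≠ 0 ∧ W'.IsSemistableModel ∧ W'.ModRepIsIrreducible 3 ∧
      ∀ ℓ : ℕ, ℓ.Prime → ¬ (ℓ : ℤ) ∣ W.Δ → ¬ (ℓ : ℤ) ∣ W'.Δ → ℓ ≠ 5 →
        (5 : ℤ) ∣ (W'.apOfModel ℓ - W.apOfModel ℓ) :=
  H52.s52_dvd_five W hΔ hW

/-! ## 4. The congruence modulo 3 -/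

/-- **The mod 3 congruence for the Hesse pencil**: the curves `y² = x³ - 27 a x - 54 b` and
`y² = x³ - 27 a' x - 54 b'`, `(a', b')` the member `(l : m)` of the pencil, have the same number of points
modulo 3. Proof: one explicit projective linear map carries the 3-torsion of the first curve to that of the
second, and so transfers relations between Frobenius and points of order 3. Modules `H3LTFam`, `H52Congr3`;
used for curves 3-congruent to a given one in block LT (residual modularity modulo 3).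
Closures: S01, S03, S04, S06, S38, S45, S46, S50, S59, S60. -/
theorem congruence_three (ℓ : ℕ) [Fact ℓ.Prime] (a b l m a' b' : ZMod ℓ)
    (h6 : (6 : ZMod ℓ) ≠ 0) (hab : a ^ 3 - b ^ 2 ≠ 0)
    (hD : l ^ 4 - 6 * a * l ^ 2 * m ^ 2 - 8 * b * l * m ^ 3 - 3 * a ^ 2 * m ^ 4 ≠ 0)
    (ha' : a' = a * l ^ 4 + 4 * b * l ^ 3 * m + 6 * a ^ 2 * l ^ 2 * m ^ 2 + 4 * a * b * l * m ^ 3 -
      (3 * a ^ 3 - 4 * b ^ 2) * m ^ 4)
    (hb' : b' = b * l ^ 6 + 6 * a ^ 2 * l ^ 5 * m + 15 * a * b * l ^ 4 * m ^ 2 +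
      20 * b ^ 2 * l ^ 3 * m ^ 3 + 15 * a ^ 2 * b * l ^ 2 * m ^ 4 +
      6 * (3 * a ^ 4 - 2 * a * b ^ 2) * l * m ^ 5 + (9 * a ^ 3 * b - 8 * b ^ 3) * m ^ 6) :
    (3 : ℤ) ∣ (Nat.card (H98.short a' b').toAffine.Point : ℤ)
      - (Nat.card (H98.short a b).toAffine.Point : ℤ) := by
  subst ha' hb'; exact H52.congr3 ℓ a b l m h6 hab hD

end Fermat.Agent.Guide.Switch
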