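import Fermat.Agent.H70HH
import Fermat.Agent.H69TWMod

/-!
# Characters at the Taylor–Wiles primes

* `exists_pchar` : `(ZMod q)ˣ ↠ Multiplicative (ZMod (p ^ e))` if `p ^ e ∣ q - 1`.
* `etaU` : the character `(ZMod N)ˣ →* Dlt p e`.
* `exists_unit_component` : units with prescribed component at `q`, trivial modulo `N / q`.
* `Good.map`.
-/

set_option autoImplicit false
set_option linter.style.haveILetI false

open Matrix CongruenceSubgroup IsLocalRing
open scoped MatrixGroups TensorProduct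

namespace Fermat.Agent.H70.Mod

open Fermat.Agent.H70.Coh Fermat.Agent.H59

theorem good_map {R R' : Type} [CommRing R] [CommRing R'] (f : R →+* R') {M : ℕ} (h : Good M R) :
    Good M R' where
  weight := by
    obtain ⟨w⟩ := h.weight
    refine ⟨⟨fun g => f (w.χ₂ g), fun γ g => by rw [w.inv₂], fun g => ?_, fun g => f (w.χ₃ g),
      fun γ g => by rw [w.inv₃], fun g => ?_⟩⟩
    · rw [← map_add, w.sum₂, map_one]
    · rw [← map_add, ← map_add, w.sum₃, map_one]
  two := by
    have := h.two.map f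
    rwa [map_ofNat] at this

/-- the `p`-part character of `(ZMod q)ˣ` -/
theorem exists_pchar {q n : ℕ} (hq : q.Prime) (hn : n ∣ q - 1) :
    ∃ u : (ZMod q)ˣ →* Multiplicative (ZMod n), Function.Surjective u := by
  haveI : Fact q.Prime := ⟨hq⟩
  have hc : Nat.card (ZMod q)ˣ = q - 1 := by rw [Nat.card_eq_fintype_card, ZMod.card_units]
  have E := zmodCyclicMulEquiv (G := (ZMod q)ˣ) inferInstance
  rw [hc] at E
  refine ⟨(AddMonoidHom.toMultiplicative (ZMod.castHom hn (ZMod n)).toAddMonoidHom).comp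
    (E.symm : (ZMod q)ˣ →* Multiplicative (ZMod (q - 1))), ?_⟩
  intro x
  obtain ⟨y, hy⟩ := ZMod.castHom_surjective hn (Multiplicative.toAdd x)
  refine ⟨E (Multiplicative.ofAdd y), ?_⟩
  rw [MonoidHom.comp_apply]
  change Multiplicative.ofAdd ((ZMod.castHom hn (ZMod n))
    (Multiplicative.toAdd (E.symm (E (Multiplicative.ofAdd y))))) = x
  rw [MulEquiv.symm_apply_apply, toAdd_ofAdd, hy]
  rfl

/-- units with prescribed components -/
theorem exists_unit_component {N₁ q : ℕ} [NeZero N₁] [NeZero q] (hcop : N₁.Coprime q)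
    (a : (ZMod N₁)ˣ) (b : (ZMod q)ˣ) :
    ∃ u : (ZMod (N₁ * q))ˣ, ZMod.unitsMap (Dvd.intro q rfl) u = a ∧
      ZMod.unitsMap (Dvd.intro_left N₁ rfl) u = b := by
  let E := ZMod.chineseRemainder hcop
  have hE1 : ∀ x, (E x).1 = ZMod.castHom (Dvd.intro q rfl) (ZMod N₁) x := fun x => by
    have h : (RingHom.fst _ _).comp E.toRingHom = ZMod.castHom (Dvd.intro q rfl) (ZMod N₁) :=
      Subsingleton.elim _ _
    exact congrArg (fun f : ZMod (N₁ * q) →+* ZMod N₁ => f x) h
  have hE2 : ∀ x, (E x).2 = ZMod.castHom (Dvd.intro_left N₁ rfl) (ZMod q) x := fun x => by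
    have h : (RingHom.snd _ _).comp E.toRingHom =
      ZMod.castHom (Dvd.intro_left N₁ rfl) (ZMod q) := Subsingleton.elim _ _
    exact congrArg (fun f : ZMod (N₁ * q) →+* ZMod q => f x) h
  let u : (ZMod (N₁ * q))ˣ := Units.map (E.symm : ZMod N₁ × ZMod q →* ZMod (N₁ * q))
    (MulEquiv.prodUnits.symm (a, b))
  have hu : E (u : ZMod (N₁ * q)) = ((a : ZMod N₁), (b : ZMod q)) := by
    change E (E.symm ((a : ZMod N₁), (b : ZMod q))) = _
    rw [RingEquiv.apply_symm_apply]
  refine ⟨u, Units.ext ?_, Units.ext ?_⟩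
  · rw [ZMod.unitsMap_val]
    have := hE1 u
    rw [hu] at this
    exact this.symm
  · rw [ZMod.unitsMap_val]
    have := hE2 u
    rw [hu] at this
    exact this.symm

section Eta

open Fermat.Agent.H69.EG

variable {p r : ℕ} {e : Fin r → ℕ} {N : ℕ} {Q : Fin r → ℕ} (hQN : ∀ j, Q j ∣ N)
  (u : ∀ j, (ZMod (Q j))ˣ →* Multiplicative (ZMod (p ^ e j)))

/-- the universal character at the Taylor–Wiles primes -/
def etaU : (ZMod N)ˣ →* Dlt p e :=
  MonoidHom.pi fun j => (u j).comp (ZMod.unitsMap (hQN j))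

lemma etaU_apply (a : (ZMod N)ˣ) (j : Fin r) :
    etaU hQN u a j = u j (ZMod.unitsMap (hQN j) a) := rfl

lemma etaU_of_component (hQ : ∀ j, (Q j).Prime) (hinj : Function.Injective Q) {j : Fin r}
    {N₁ : ℕ} (hN : N = N₁ * Q j) (hcop : N₁.Coprime (Q j)) (a : (ZMod N)ˣ)
    (ha : ZMod.unitsMap (hN ▸ Dvd.intro (Q j) rfl) a = (1 : (ZMod N₁)ˣ)) :
    etaU hQN u a = Pi.mulSingle j (u j (ZMod.unitsMap (hQN j) a)) := by
  classical
  funext i
  rw [etaU_apply]
  by_cases hij : i = j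
  · subst hij
    rw [Pi.mulSingle_eq_same]
  · rw [Pi.mulSingle_eq_of_ne hij]
    have h1 : Q i ∣ N₁ := by
      have h2 := hQN i
      rw [hN] at h2
      exact ((Nat.coprime_primes (hQ i) (hQ j)).mpr (hinj.ne hij)).dvd_of_dvd_mul_right h2
    have h3 : ZMod.unitsMap (hQN i) a = ZMod.unitsMap h1
        (ZMod.unitsMap (hN ▸ Dvd.intro (Q j) rfl) a) := by
      have := ZMod.unitsMap_comp h1 (hN ▸ Dvd.intro (Q j) rfl : N₁ ∣ N)
      exact (congrArg (fun f : (ZMod N)ˣ →* (ZMod (Q i))ˣ => f a) this).symm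
    rw [h3, ha, map_one, map_one]

end Eta

end Fermat.Agent.H70.Mod
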