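import Fermat.Agent.H71RSurj
import Fermat.Agent.H70Char

/-!
# Surjectivity of `(tr, ν)` on the localised modules over a field (helper71)
-/

set_option autoImplicit false

open CongruenceSubgroup Matrix.SpecialLinearGroup
open scoped MatrixGroups

namespace Fermat.Agent.H71.R

open Fermat.Agent.H70.Coh Fermat.Agent.H70.Mod Fermat.Agent.H59

section Dual

variable {O k ι H H' : Type} [CommRing O] [Field k] [Algebra O k] [AddCommGroup H] [Module k H]
  [Module O H] [IsScalarTower O k H] [AddCommGroup H'] [Module k H']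
  [Module O H'] [IsScalarTower O k H']

lemma map_smul_tower (f : H' →ₗ[k] H) (a : O) (x : H') : f (a • x) = a • f x := by
  rw [← algebraMap_smul k a x, map_smul, algebraMap_smul]

/-- the action on the dual -/
lemma act_dual_apply (T : ι → Module.End k H) (hT : ∀ i j, T i * T j = T j * T i)
    (T' : ι → Module.End k (Module.Dual k H)) (hT' : ∀ i j, T' i * T' j = T' j * T' i)
    (h : ∀ i L x, T' i L x = L (T i x)) (P : MvPolynomial ι O) (L : Module.Dual k H) (x : H) :
    act T' hT' P L x = L (act T hT P x) := by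
  induction P using MvPolynomial.induction_on generalizing L x with
  | C a =>
    rw [act_C, act_C]
    change (a • L) x = L (a • x)
    rw [← algebraMap_smul k a L, ← algebraMap_smul k a x, map_smul]
    rfl
  | add P Q hP hQ =>
    rw [map_add, map_add, LinearMap.add_apply, LinearMap.add_apply, LinearMap.add_apply, map_add,
      hP, hQ]
  | mul_X P i hP =>
    rw [map_mul, map_mul, act_X, act_X, Module.End.mul_apply, Module.End.mul_apply, hP, h,
      ← Module.End.mul_apply, ← Module.End.mul_apply]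
    have h1 := act_commute (O := O) T hT P (MvPolynomial.X i)
    rw [act_X] at h1
    rw [h1]

theorem surj_of_functional [Module.Finite k H] (T : ι → Module.End k H)
    (hT : ∀ i j, T i * T j = T j * T i) (T' : ι → Module.End k H')
    (hT' : ∀ i j, T' i * T' j = T' j * T' i) (hOk : Function.Surjective (algebraMap O k))
    {θ : MvPolynomial ι O →+* k} (hθ : ∀ a, θ (MvPolynomial.C a) = algebraMap O k a)
    {e : MvPolynomial ι O} (he : IsLocIdem T hT θ e) (f g : H' →ₗ[k] H)
    (hf : ∀ i x, f (T' i x) = T i (f x)) (hg : ∀ i x, g (T' i x) = T i (g x))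
    (hkey : ∀ L₁ L₂ : H →ₗ[k] k, (∀ i x, L₁ (T i x) = θ (MvPolynomial.X i) * L₁ x) →
      (∀ i x, L₂ (T i x) = θ (MvPolynomial.X i) * L₂ x) →
      (∀ z, L₁ (f z) + L₂ (g z) = 0) → L₁ = 0 ∧ L₂ = 0)
    {a b : H} (ha : a ∈ Loc T hT e) (hb : b ∈ Loc T hT e) :
    ∃ x ∈ Loc T' hT' e, f x = a ∧ g x = b := by
  have htr : ∀ (P : MvPolynomial ι O) z, f (act T' hT' P z) = act T hT P (f z) := fun P z =>
    map_act_apply (Λ := k) (Λ' := k) (T := T') (hT := hT') (T' := T) (hT' := hT)
      f.toAddMonoidHom (fun a x => map_smul_tower f a x) (fun i x => hf i x) P z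
  have hnu : ∀ (P : MvPolynomial ι O) z, g (act T' hT' P z) = act T hT P (g z) := fun P z =>
    map_act_apply (Λ := k) (Λ' := k) (T := T') (hT := hT') (T' := T) (hT' := hT)
      g.toAddMonoidHom (fun a x => map_smul_tower g a x) (fun i x => hg i x) P z
  -- operators on `H × H` and on its dual
  let T2 : ι → Module.End k (H × H) := fun i => (T i).prodMap (T i)
  have hT2c : ∀ i j, T2 i * T2 j = T2 j * T2 i := by
    intro i j
    apply LinearMap.ext
    intro z
    have h1 := fun w => LinearMap.congr_fun (hT i j) w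
    exact Prod.ext (h1 z.1) (h1 z.2)
  have hact : ∀ (P : MvPolynomial ι O) (z : H × H),
      act T2 hT2c P z = (act T hT P z.1, act T hT P z.2) := by
    intro P z
    refine Prod.ext ?_ ?_
    · exact map_act_apply (Λ := k) (Λ' := k) (T := T2) (hT := hT2c) (T' := T) (hT' := hT)
        (LinearMap.fst k _ _).toAddMonoidHom (fun _ _ => rfl) (fun _ _ => rfl) P z
    · exact map_act_apply (Λ := k) (Λ' := k) (T := T2) (hT := hT2c) (T' := T) (hT' := hT)
        (LinearMap.snd k _ _).toAddMonoidHom (fun _ _ => rfl) (fun _ _ => rfl) P z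
  let Td : ι → Module.End k (Module.Dual k (H × H)) := fun i => (T2 i).dualMap
  have hTdc : ∀ i j, Td i * Td j = Td j * Td i := by
    intro i j
    apply LinearMap.ext
    intro L
    apply LinearMap.ext
    intro z
    change L (T2 j (T2 i z)) = L (T2 i (T2 j z))
    congr 1
    exact LinearMap.congr_fun (hT2c j i) z
  have hactd : ∀ (P : MvPolynomial ι O) (L : Module.Dual k (H × H)) z,
      act Td hTdc P L z = L (act T2 hT2c P z) :=
    act_dual_apply T2 hT2c Td hTdc (fun i L x => rfl)
  -- the space of functionals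
  let V : Submodule k (Module.Dual k (H × H)) :=
    { carrier := {L | (∀ z, L (act T2 hT2c e z) = L z) ∧ ∀ z, L (f z, g z) = 0}
      add_mem' := by
        rintro L L' ⟨h1, h2⟩ ⟨h1', h2'⟩
        refine ⟨fun z => ?_, fun z => ?_⟩
        · rw [LinearMap.add_apply, LinearMap.add_apply, h1, h1']
        · rw [LinearMap.add_apply, h2, h2', add_zero]
      zero_mem' := ⟨fun z => rfl, fun z => rfl⟩
      smul_mem' := by
        rintro c L ⟨h1, h2⟩
        refine ⟨fun z => ?_, fun z => ?_⟩
        · rw [LinearMap.smul_apply, LinearMap.smul_apply, h1]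
        · rw [LinearMap.smul_apply, h2, smul_zero] }
  have hVmem : ∀ L, L ∈ V ↔ (∀ z, L (act T2 hT2c e z) = L z) ∧
      ∀ z, L (f z, g z) = 0 := fun L => Iff.rfl
  have hbot : V = ⊥ := by
    by_contra hV
    have hst : ∀ i, ∀ L ∈ V, Td i L ∈ V := by
      intro i L hL
      rw [hVmem] at hL ⊢
      refine ⟨fun z => ?_, fun z => ?_⟩
      · change L (T2 i (act T2 hT2c e z)) = L (T2 i z)
        have h1 := act_commute (O := O) T2 hT2c (MvPolynomial.X i) e
        rw [act_X] at h1
        have h3 := LinearMap.congr_fun h1 z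
        change T2 i (act T2 hT2c e z) = act T2 hT2c e (T2 i z) at h3
        rw [h3, hL.1]
      · change L (T i (f z), T i (g z)) = 0
        rw [← hf, ← hg]
        exact hL.2 _
    have hinj : ∀ s, θ s ≠ 0 → ∀ L ∈ V, act Td hTdc s L = 0 → L = 0 := by
      intro s hs L hL h
      obtain ⟨s', hs'⟩ := he.inv s hs
      apply LinearMap.ext
      intro z
      have h1 : act T2 hT2c e z = act T2 hT2c s (act T2 hT2c (s' * e) z) := by
        rw [← Module.End.mul_apply, ← map_mul, ← mul_assoc, hact, hact, hs']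
      rw [← hL.1 z, h1, ← hactd, h]
      rfl
    obtain ⟨L, hL, hL0, hLP⟩ := exists_eigen Td hTdc hOk θ hθ V hV hst hinj
    have hLX : ∀ (i : ι) z, L (T2 i z) = θ (MvPolynomial.X i) * L z := by
      intro i z
      have h1 := LinearMap.congr_fun (hLP (MvPolynomial.X i)) z
      rw [act_X] at h1
      exact h1
    have key := hkey (L ∘ₗ LinearMap.inl k H H) (L ∘ₗ LinearMap.inr k H H)
      (fun i x => by
        have h1 := hLX i (x, 0)
        have h3 : T2 i (x, 0) = (T i x, 0) := Prod.ext rfl (map_zero (T i))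
        rw [h3] at h1
        exact h1)
      (fun i x => by
        have h1 := hLX i (0, x)
        have h3 : T2 i (0, x) = (0, T i x) := Prod.ext (map_zero (T i)) rfl
        rw [h3] at h1
        exact h1)
      (fun z => by
        change L (f z, 0) + L (0, g z) = 0
        rw [← map_add, Prod.mk_add_mk, add_zero, zero_add]
        exact hL.2 z)
    apply hL0
    apply LinearMap.ext
    intro z
    have h1 := LinearMap.congr_fun key.1 z.1
    have h3 := LinearMap.congr_fun key.2 z.2
    change L (z.1, 0) = 0 at h1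
    change L (0, z.2) = 0 at h3
    have h4 : z = (z.1, 0) + (0, z.2) := by
      rw [Prod.mk_add_mk, add_zero, zero_add]
    rw [h4, map_add, h1, h3, add_zero]
    rfl
  -- the image contains `MLoc × MLoc`
  let W : Submodule k (H × H) := (Loc T' hT' e).map (f.prod g)
  by_contra hcon
  have hab : (a, b) ∉ W := by
    rintro ⟨x, hx, hxab⟩
    exact hcon ⟨x, hx, congrArg Prod.fst hxab, congrArg Prod.snd hxab⟩
  obtain ⟨L₀, hL₀, hL₀'⟩ := Submodule.exists_dual_map_eq_bot_of_notMem hab inferInstance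
  have hL₀W : ∀ w ∈ W, L₀ w = 0 := by
    intro w hw
    have : L₀ w ∈ W.map L₀ := Submodule.mem_map_of_mem hw
    rw [hL₀', Submodule.mem_bot] at this
    exact this
  have hmem : L₀ ∘ₗ act T2 hT2c e ∈ V := by
    rw [hVmem]
    refine ⟨fun z => ?_, fun z => ?_⟩
    · change L₀ (act T2 hT2c e (act T2 hT2c e z)) = L₀ (act T2 hT2c e z)
      congr 1
      rw [hact, hact]
      have h1 := fun w => LinearMap.congr_fun he.idem w
      exact Prod.ext (h1 z.1) (h1 z.2)
    · change L₀ (act T2 hT2c e _) = 0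
      rw [hact, ← htr, ← hnu]
      exact hL₀W _ ⟨_, ⟨z, rfl⟩, rfl⟩
  rw [hbot, Submodule.mem_bot] at hmem
  apply hL₀
  have h1 := LinearMap.congr_fun hmem (a, b)
  change L₀ (act T2 hT2c e (a, b)) = 0 at h1
  rw [hact, (mem_loc he.idem).mp ha, (mem_loc he.idem).mp hb] at h1
  exact h1

end Dual

section Field

variable {N M q : ℕ} (hM : N ∣ M) {S : Set ℕ} {O : Type} [CommRing O] {k : Type} [Field k]
  [Algebra O k] [IsAddTorsionFree O] [IsDomain O] [IsPrincipalIdealRing O]

theorem tr_nu_surjective_field [NeZero M] [NeZero q] (hq : q.Prime) (hqM : ¬ q ∣ M)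
    (hS : Away M S) (hS' : Away (M * q) S) (h2 : (2 : k) ≠ 0)
    (hOk : Function.Surjective (algebraMap O k))
    (hg : Good M O) (θ : MvPolynomial (Idx S) O →+* k)
    (hθ : ∀ a, θ (MvPolynomial.C a) = algebraMap O k a) {e : MvPolynomial (Idx S) O}
    (he : IsLocIdem (tw (R := k) hM hS 1 1) (tw_comm hM hS 1 1) θ e)
    (hNE1 : ∃ i : Idx S, (θ (MvPolynomial.X i)) ^ 2 ≠ ((i.1 : k) + 1) ^ 2)
    (hNE2 : ∀ D : ℕ, D ≠ 0 → ∃ i : Idx S, (D : ℤ) ∣ (i.1 : ℤ) - 1 ∧
      θ (MvPolynomial.X i) ≠ (i.1 : k) + 1)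
    {a b : H1 (gam N M hM) (psiRep (1 : (ZMod N)ˣ →* kˣ) k)}
    (ha : a ∈ MLoc (R := k) hM hS 1 1 e) (hb : b ∈ MLoc (R := k) hM hS 1 1 e) :
    ∃ x ∈ MLoc (R := k) (dvd_mul_q (q := q) hM) hS' 1 1 e,
      trL (R := k) hM 1 q x = a ∧ nuL (R := k) hM 1 hq x = b := by
  have hfin : Module.Finite k (H1 (gam N M hM) (psiRep (1 : (ZMod N)ˣ →* kˣ) k)) :=
    h1_finite hM 1 (good_map (algebraMap O k) hg) rfl
  exact surj_of_functional _ (tw_comm (R := k) hM hS 1 1) _
    (tw_comm (R := k) (dvd_mul_q (q := q) hM) hS' 1 1) hOk hθ he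
    (trL (R := k) hM 1 q) (nuL (R := k) hM 1 hq)
    (fun i x => trL_tw (R := k) hM 1 1 hS hS' hq hqM i x)
    (fun i x => nuL_tw (R := k) hM 1 1 hS hS' hq hqM i x)
    (fun L₁ L₂ h₁ h₂ h₃ => functional_eq_zero (k := k) hM hq hqM hS h2 hOk hg θ hNE1 hNE2 L₁ L₂
      (fun i x => by rw [← h₁ i x, tw_one_apply])
      (fun i x => by rw [← h₂ i x, tw_one_apply]) h₃) ha hb

end Field

end Fermat.Agent.H71.R
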