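import Fermat.Agent.H71Key
import Fermat.Agent.H71RGrp
import Fermat.Agent.H71RModK

/-!
# Guide to the proof: integral duality of modular symbols, and Ihara's lemma with coefficients

This file is a machine-checked table of contents. Every theorem below is a citation of a theorem of
the library, with its statement written out. Only `Guide` imports this file.

**What it does.** `GuideLevelsRaising` states two facts about a prime `q ∤ N`: the integral duality between
modular symbols of level `N` and homomorphisms `Γ₀(N) → ℤ` (`perfect_duality`), and its consequence for the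
two maps from level `N` to level `N q` (`duality`). `GuideLiftingHecke` states the same for cohomology with
coefficients in a group ring `O[Δ]`, twisted by a character (`ihara_retraction`, `trace_pair_surjective`).
This file shows how they are proved, in steps which can be checked by hand. (The other steps of level
raising are in `GuideIharaSteps` and `GuideRaisingSteps`.)

**The idea.** Poincaré duality for an open modular curve `Y = X - cusps` says that the relative cohomology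
`H^1(X, cusps; ℤ)` (the invariant symbols) is dual to `H^1(Y, ℤ) = Hom(Γ, ℤ)`, up to the torsion of the
elliptic elements. Here there is no topology. `PSL(2, ℤ)` is the free product of the group generated by `S`
(order 2) and the group generated by `R = S T` (order 3). So both sides are functions on `SL(2, ℤ)` which
are invariant under `Γ` from the left:
 * a `Γ`-invariant symbol `m` is a function `e(g) = m(g 0, g ∞)` with `e(g S) = - e(g)` and
   `e(g) + e(g R) + e(g R²) = 0` (Manin);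
 * a homomorphism `φ` is the class of a function `w` with `w(g S) = - w(g)`: `w(g) = h(g S) - h(g)`,
   where the potential `h` satisfies `h(g R) = h(g)` and `h(γ g) = φ(γ) + h(g)`;
 * the pairing is `⟨m, φ⟩ = ∑ w(g) e(g)`, the sum over `Γ \ SL(2, ℤ)`.
With this description everything over `ℤ` is a finite sum; the only price is a factor `2` (`g` and `g S` give
the same term). The one non-formal point is that the pairing is invariant under `GL(2, ℚ)` with positive
determinant (this gives the adjoints of the Hecke operators): this group does not act on `SL(2, ℤ)`. It is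
proved by rewriting the sum over cosets as a sum over CUSPS (section 4).

**Sections.** 1 the free product. 2 symbols and homomorphisms as functions. 3 the pairing. 4 sums over cusps,
invariance, adjoints; functionals modulo `p`, the steps of `GuideLevelsRaising.duality`. 5 classes of
symbols in `H^1(Γ₀(M), A)`. 6 the residue field: Ihara's lemma and its dual. 7 local rings.

**Where.** NOTES.md: NOTES-S41-DUAL, NOTES-S41-DINV. All citations are in the proof terms of S01, S59, S60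
(checked by machine) and of the other statements listed in `GuideLiftingHecke`, with the exceptions marked
"used for S41". Sections 1 - 4, these theorems included, are in the proof term of the level raising theorem
S41 (checked by machine; only the first part of `values_by_pairing` occurs there in another form). Files:
1 `H71PSL2`, `H71Ext`. 2 `H71Pot`, `H71Perf`. 3 `H71Cosum`, `H71Dual`. 4 `H71Cusp`, `H71Nat`, `H71Adj`,
`H71Key`. 5 `H71RBr`. 6 `H71REig`, `H71RInj`, `H71RDual`, `H71RSurj`, `H71RModK`. 7 `H70Mod`, `H71RMod`,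
`H71RGrp`.
Author: helper71. Modular symbols, Hecke operators and Ihara's lemma for symbols: helper41 (`H41*`,
`GuideLevelsRaising`); cohomology with characters: helper70 (`H70*`); local idempotents: helper59 (`H59Loc`).
-/

set_option autoImplicit false
set_option maxSynthPendingDepth 3

open CongruenceSubgroup Matrix.SpecialLinearGroup ModularGroup
open scoped MatrixGroups

namespace Fermat.Agent.Guide.SymbolDuality

open Fermat.Agent
open Fermat.Agent.H41 (Symb inv slash PG G0 hT hd tr alW dt)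
open Fermat.Agent.H71 (LInv cosum man IsPot dpair bpair IsPos IsGen IsPer csum IsXi IsReps ac ci c0 perHom
  resHom gp)

/-! ## 1. The modular group is a free product -/

/-- **Ping-pong** (`H71PSL2`). The permutations of `P¹(ℚ)` given by `S` (`x ↦ -1/x`, order 2) and `S T`
(`x ↦ -1/(x + 1)`, order 3) generate their free product: the natural homomorphism from the free product of
`ℤ/2` and `ℤ/3` is injective. (`S` maps the negative rational numbers to positive ones, `S T` and its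
square map the positive ones to negative ones.) `H71.cuspPerm` is the action of `SL(2, ℤ)` on `P¹(ℚ)`; the
two factors are `H71.HH b`, the cyclic group (written multiplicatively) of order `H71.ord2 b`, which is `2`
for `b = false` and `3` for `b = true`; `H71.famHom s t` sends their generators to `s` and `t`. -/
theorem pingpong : Function.Injective (Monoid.CoprodI.lift
    (H71.famHom (H71.cuspPerm S) (H71.cuspPerm (S * T)) H71.cuspPerm_S_sq H71.cuspPerm_R_cube)) :=
  H71.freeProd_injective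

/-- **Universal property** (`H71PSL2`). Elements `s`, `t` of a group with `s² = 1`, `t³ = 1` are the images
of `S` and `S T` under a homomorphism from `SL(2, ℤ)`. (`GuideCohomology.modular_group_universal` is the
same statement, proved with the upper half plane.) -/
theorem free_product {K : Type*} [Group K] (s t : K) (hs : s ^ 2 = 1) (ht : t ^ 3 = 1) :
    ∃ Ψ : SL(2, ℤ) →* K, Ψ S = s ∧ Ψ (S * T) = t :=
  H71.exists_hom s t hs ht

/-- **Functions with prescribed differences** (`H71Ext`). Let `σ`, `τ` be functions on `SL(2, ℤ)` with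
values in an abelian group, unchanged under `g ↦ -g`. There is a function `Φ` with `Φ(g S) = Φ(g) + σ(g)`
and `Φ(g R) = Φ(g) + τ(g)` (`R = S T`) as soon as the two obvious conditions hold: the sums of `σ` over
`g, g S` and of `τ` over `g, g R, g R²` vanish. `Φ` is unique up to a constant. (Proof: `free_product` for
the permutations `(p, u) ↦ (p S, u + σ(p))`, `(p, u) ↦ (p R, u + τ(p))` of `PSL(2, ℤ) × A`, with
`PSL(2, ℤ)` realised as permutations of `P¹(ℚ)`.) -/
theorem prescribed_differences {A : Type*} [AddCommGroup A] (σ τ : SL(2, ℤ) → A)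
    (hσn : ∀ g, σ (-g) = σ g) (hτn : ∀ g, τ (-g) = τ g) (hσ : ∀ g, σ g + σ (g * S) = 0)
    (hτ : ∀ g, τ g + τ (g * (S * T)) + τ (g * (S * T) * (S * T)) = 0) :
    (∃ Φ : SL(2, ℤ) → A, Φ 1 = 0 ∧ (∀ g, Φ (g * S) = Φ g + σ g) ∧
      ∀ g, Φ (g * (S * T)) = Φ g + τ g) ∧
    ∀ Φ Φ' : SL(2, ℤ) → A, (∀ g, Φ (g * S) - Φ g = Φ' (g * S) - Φ' g) →
      (∀ g, Φ (g * (S * T)) - Φ g = Φ' (g * (S * T)) - Φ' g) → ∀ g, Φ g - Φ 1 = Φ' g - Φ' 1 :=
  ⟨H71.exists_ext σ τ hσn hτn hσ hτ, fun _ _ h h' g => H71.ext_unique h h' g⟩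

/-! ## 2. Symbols and homomorphisms as functions on `SL(2, ℤ)`

`Symb R X A`: the functions `m(x, y)` with `m(x, y) + m(y, z) = m(x, z)`; `inv R X A H`: those which are
invariant under the group `H` of rational matrices (here the image of `Γ ≤ SL(2, ℤ)`; below also
`G0 N`, the image of `Γ₀(N)`); `X = P¹(ℚ)` for modular symbols. `LInv Γ f`: `f(γ g) = f(g)` for `γ ∈ Γ`. -/

/-- **The Manin function** `man m g = m(g 0, g ∞)` of a modular symbol (`H71Pot`): it is odd for `S`, its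
sum over `g, g R, g R²` vanishes (the triangle `∞, 0, -1`), it is left invariant if `m` is invariant,
and it determines the symbol. -/
theorem manin_function {R A : Type*} [CommRing R] [AddCommGroup A] [Module R A]
    {Γ : Subgroup SL(2, ℤ)} (m : Symb R (OnePoint ℚ) A) :
    (∀ g, man m g = m.1 (mapGL ℚ g • ((0 : ℚ) : OnePoint ℚ)) (mapGL ℚ g • OnePoint.infty)) ∧
    (∀ g, man m (g * S) = - man m g) ∧
    (∀ g, man m g + man m (g * (S * T)) + man m (g * (S * T) * (S * T)) = 0) ∧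
    (m ∈ inv R (OnePoint ℚ) A (Γ.map (mapGL ℚ)) → LInv Γ (man m)) ∧
    ∀ n : Symb R (OnePoint ℚ) A, (∀ g, man m g = man n g) → m = n :=
  ⟨fun _ => rfl, H71.man_S m, H71.man_R m, H71.man_LInv, fun _ => H71.symb_ext_of_man⟩

/-- **Manin's theorem** (`H71Perf`): every left invariant function with the two properties comes from an
invariant modular symbol. (`prescribed_differences` gives a primitive `Φ` with `Φ(g T) = Φ(g)`, that is, a
function of the cusp `g ∞`.) -/
theorem symbol_of_function {R A : Type*} [CommRing R] [AddCommGroup A] [Module R A]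
    (Γ : Subgroup SL(2, ℤ)) (e : SL(2, ℤ) → A) (he : LInv Γ e) (heS : ∀ g, e (g * S) = - e g)
    (heR : ∀ g, e g + e (g * (S * T)) + e (g * (S * T) * (S * T)) = 0) :
    ∃ m ∈ inv R (OnePoint ℚ) A (Γ.map (mapGL ℚ)), ∀ g, man m g = e g :=
  H71.exists_symb_inv Γ e he heS heR

/-- **Potentials** (`H71Pot`). A potential of a homomorphism `φ : Γ → A` is a function `h` on `SL(2, ℤ)`
with `h(g R) = h(g)` and `h(γ g) = φ(γ) + h(g)` (`IsPot Γ φ h`). If `A` has no torsion, every homomorphism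
has one (the elements `γ` with `γ a = a R^k` are of finite order, so `φ(γ) = 0`). -/
theorem potentials {A : Type*} [AddCommGroup A] {Γ : Subgroup SL(2, ℤ)} (φ : Additive Γ →+ A) :
    (∀ h : SL(2, ℤ) → A, IsPot Γ φ h ↔ (∀ g, h (g * (S * T)) = h g) ∧
      ∀ (γ : Γ) (g : SL(2, ℤ)), h (γ * g) = φ (Additive.ofMul γ) + h g) ∧
    (IsAddTorsionFree A → ∃ h, IsPot Γ φ h) :=
  ⟨fun _ => ⟨fun H => ⟨H.mul_R, H.left⟩, fun H => ⟨H.1, H.2⟩⟩, fun _ => H71.exists_isPot φ⟩

/-- **Homomorphisms from odd functions** (`H71Perf`). Every left `Γ`-invariant function `w` with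
`w(g S) = - w(g)` is `h(g S) - h(g)` for a potential `h` of a homomorphism `φ : Γ → A`, and `w` determines
`φ`. This needs no hypothesis on `A`. -/
theorem hom_of_odd_function {A : Type*} [AddCommGroup A] {Γ : Subgroup SL(2, ℤ)} (w : SL(2, ℤ) → A)
    (hw : LInv Γ w) (hwS : ∀ g, w (g * S) = - w g) :
    (∃ (φ : Additive Γ →+ A) (h : SL(2, ℤ) → A), IsPot Γ φ h ∧ ∀ g, h (g * S) - h g = w g) ∧
    ∀ (φ ψ : Additive Γ →+ A) (h k : SL(2, ℤ) → A), IsPot Γ φ h → IsPot Γ ψ k →
      (∀ g, h (g * S) - h g = k (g * S) - k g) → φ = ψ :=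
  ⟨H71.exists_hom_of_odd w hw hwS, fun _ _ _ _ H K e => H71.hom_eq_of_pot H K e⟩

/-! ## 3. The pairing

`cosum Γ f` is the sum of a left `Γ`-invariant function over `Γ \ SL(2, ℤ)`; `dpair R Γ` is the pairing of
invariant symbols with values in `R` and homomorphisms `Γ → R`, for a ring `R` without torsion. -/

/-- **Sums over cosets** (`H71Cosum`): `cosum` can be computed with any system of representatives, is
invariant under right translation, and for `Γ' ≤ Γ` the sum over `Γ' \ SL(2, ℤ)` is the sum over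
`Γ \ SL(2, ℤ)` of the sums over representatives `ρ i` of `Γ' \ Γ`. -/
theorem coset_sums {A : Type*} [AddCommGroup A] {Γ Γ' : Subgroup SL(2, ℤ)} [Finite (SL(2, ℤ) ⧸ Γ)]
    [Finite (SL(2, ℤ) ⧸ Γ')] {ι κ : Type*} [Fintype ι] [Fintype κ] (s : κ → SL(2, ℤ))
    (hs : Function.Bijective fun i => (((s i)⁻¹ : SL(2, ℤ)) : SL(2, ℤ) ⧸ Γ))
    (hle : Γ' ≤ Γ) (ρ : ι → SL(2, ℤ)) (hρ : ∀ i, ρ i ∈ Γ) (hex : ∀ γ ∈ Γ, ∃ i, γ * (ρ i)⁻¹ ∈ Γ')
    (huniq : ∀ i j, ρ i * (ρ j)⁻¹ ∈ Γ' → i = j) :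
    (∀ f : SL(2, ℤ) → A, LInv Γ f → cosum Γ f = ∑ i, f (s i)) ∧
    (∀ f : SL(2, ℤ) → A, LInv Γ f → ∀ h, cosum Γ (fun g => f (g * h)) = cosum Γ f) ∧
    ∀ f : SL(2, ℤ) → A, LInv Γ' f → cosum Γ (fun g => ∑ i, f (ρ i * g)) = cosum Γ' f :=
  ⟨fun _ hf => H71.cosum_eq_sum s hs hf, fun _ hf h => H71.cosum_mul_right hf h,
    fun _ hf => H71.cosum_trace hle ρ hρ hex huniq hf⟩

/-- **The pairing** (`H71Pot`): `⟨m, φ⟩ = ∑ (h(g S) - h(g)) m(g 0, g ∞)`, the sum over `Γ \ SL(2, ℤ)`, for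
every potential `h` of `φ`. (Two potentials of `φ` differ by a left invariant function `u` with
`u(g R) = u(g)`; its contribution is zero by the three term relation and the torsion freeness of `R`.) -/
theorem pairing_formula {R : Type*} [CommRing R] [IsAddTorsionFree R] {Γ : Subgroup SL(2, ℤ)}
    [Finite (SL(2, ℤ) ⧸ Γ)] (m : inv R (OnePoint ℚ) R (Γ.map (mapGL ℚ))) {φ : Additive Γ →+ R}
    {h : SL(2, ℤ) → R} (H : IsPot Γ φ h) :
    dpair R Γ m φ = cosum Γ (fun g => (h (g * S) - h g) * man m.1 g) :=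
  H71.dpair_apply m H

/-- **Values of a symbol by pairing** (`H71RDual`, `H71Perf`): for every `x ∈ SL(2, ℤ)` there is a
homomorphism `φ_x` (the one of the odd function "characteristic function of `Γ x` minus the one of
`Γ x S`") with `⟨m, φ_x⟩ = 2 m(x 0, x ∞)` for all symbols `m`. In particular the pairing is non-degenerate
on the left (second part: used for S41). -/
theorem values_by_pairing {R : Type*} [CommRing R] [IsAddTorsionFree R] {Γ : Subgroup SL(2, ℤ)}
    [Finite (SL(2, ℤ) ⧸ Γ)] (hneg : -1 ∈ Γ) (x : SL(2, ℤ)) :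
    (∃ φ : Additive Γ →+ R, ∀ m : inv R (OnePoint ℚ) R (Γ.map (mapGL ℚ)),
      dpair R Γ m φ = 2 * man m.1 x) ∧
    ∀ m : inv R (OnePoint ℚ) R (Γ.map (mapGL ℚ)), (∀ φ, dpair R Γ m φ = 0) → m = 0 :=
  ⟨H71.R.exists_delta_pair hneg x, fun _ h => H71.dpair_left_injective hneg h⟩

/-- **Functionals on homomorphisms are symbols** (`H71Perf`): for every linear form `λ` on `Hom(Γ, R)`
there is a symbol `m` with `⟨m, φ⟩ = 2 λ(φ)`. (`m(x 0, x ∞) = λ(φ_x)`, where `φ_x` is the homomorphism of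
`values_by_pairing`; the three term relation for `x, x R, x R²` holds because the sum of the three odd
functions is `u(g S) - u(g)` with `u` left invariant and `u(g R) = u(g)`, so its homomorphism is zero.) For
the evaluation at `γ ∈ Γ` this gives a symbol with `⟨m, φ⟩ = 2 φ(γ)` (second part: used for S41). -/
theorem functionals_on_homs {R : Type*} [CommRing R] [IsAddTorsionFree R] {Γ : Subgroup SL(2, ℤ)}
    [Finite (SL(2, ℤ) ⧸ Γ)] (hneg : -1 ∈ Γ) :
    (∀ lam : (Additive Γ →+ R) →ₗ[R] R, ∃ m : inv R (OnePoint ℚ) R (Γ.map (mapGL ℚ)),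
      ∀ φ, dpair R Γ m φ = 2 * lam φ) ∧
    ∀ γ : Γ, ∃ m : inv R (OnePoint ℚ) R (Γ.map (mapGL ℚ)), ∀ φ : Additive Γ →+ R,
      dpair R Γ m φ = 2 * φ (Additive.ofMul γ) :=
  ⟨H71.exists_dpair_eq hneg, H71.exists_symb_ev hneg⟩

/-- **Functionals on symbols are homomorphisms** (`H71Dual`), if `R` is a principal ideal domain: for
every linear form `μ` on symbols there is `φ : Γ → R` with `⟨m, φ⟩ = 2 μ(m)`. (Let `M(λ)` be the symbol of
a linear form `λ` on `Hom(Γ, R)`, by `functionals_on_homs`. `Hom(Γ, R)` is finite and free, hence reflexive,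
so `μ(M(λ)) = λ(φ)` for some `φ`; take `λ = ⟨m, ·⟩`, for which `M(λ) = 2 m`.) Both modules are finite and
free: they embed into functions on finite sets. Used for S41. -/
theorem functionals_on_symbols {R : Type*} [CommRing R] [IsAddTorsionFree R] [IsDomain R]
    [IsPrincipalIdealRing R] {Γ : Subgroup SL(2, ℤ)} [Finite (SL(2, ℤ) ⧸ Γ)] (hneg : -1 ∈ Γ) :
    (∀ μ : inv R (OnePoint ℚ) R (Γ.map (mapGL ℚ)) →ₗ[R] R, ∃ φ : Additive Γ →+ R,
      ∀ m, dpair R Γ m φ = 2 * μ m) ∧
    Module.Finite R (Additive Γ →+ R) ∧ Module.Free R (Additive Γ →+ R) ∧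
    Module.Finite R (inv R (OnePoint ℚ) R (Γ.map (mapGL ℚ))) ∧
    Module.Free R (inv R (OnePoint ℚ) R (Γ.map (mapGL ℚ))) :=
  ⟨H71.exists_hom_repr hneg, H71.finite_hom, H71.free_hom, H71.finite_symb, H71.free_symb⟩

/-- **Parity** (`H71Dual`). Over `ℤ` the pairing is even: the cosets `Γ g` and `Γ g S` give the same term,
and if they coincide the term is zero (`w(g) = w(g S) = - w(g)`). So half of the pairing is a perfect
duality over `ℤ`. Used for S41. -/
theorem parity {Γ : Subgroup SL(2, ℤ)} [Finite (SL(2, ℤ) ⧸ Γ)] (hneg : -1 ∈ Γ)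
    (m : inv ℤ (OnePoint ℚ) ℤ (Γ.map (mapGL ℚ))) (φ : Additive Γ →+ ℤ) :
    ∃ k : ℤ, dpair ℤ Γ m φ = 2 * k :=
  H71.even_dpair hneg m φ

/-! ## 4. Sums over cusps; invariance under `GL(2, ℚ)⁺`; adjoints -/

/-- **Positive generators of the stabilisers of cusps** (`H71Cusp`). `IsPos u`: the rational matrix `u` is
conjugate, by a matrix of positive determinant, to `[1, b; 0, 1]` with `b > 0` (first line: in
coordinates; `dt` is the determinant).
`IsGen H c t`: `t ∈ H` fixes the cusp `c`, is positive, and every positive element of `H` fixing `c` is a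
power of `t`. Then `t` is unique; conjugation by `w` with positive determinant maps generators to
generators; and for `Γ ≤ SL(2, ℤ)` of finite index the generator at `g ∞` is `g T^n g⁻¹`, `n` the width
(`IsPer Γ g n`: `n > 0` is least with `g T^n g⁻¹ ∈ Γ`; it exists). -/
theorem cusp_generators :
    (∀ u : GL (Fin 2) ℚ, IsPos u ↔
      u 0 0 + u 1 1 = 2 ∧ dt u = 1 ∧ 0 ≤ u 0 1 ∧ u 1 0 ≤ 0 ∧ u ≠ 1) ∧
    (∀ (H : Subgroup (GL (Fin 2) ℚ)) (c : OnePoint ℚ) (t : GL (Fin 2) ℚ), IsGen H c t ↔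
      t ∈ H ∧ t • c = c ∧ IsPos t ∧ ∀ u ∈ H, u • c = c → IsPos u → ∃ k : ℕ, u = t ^ k) ∧
    (∀ (H : Subgroup (GL (Fin 2) ℚ)) (c : OnePoint ℚ) (t t' : GL (Fin 2) ℚ), IsGen H c t →
      IsGen H c t' → t = t') ∧
    (∀ (H₁ H₂ : Subgroup (GL (Fin 2) ℚ)) (c : OnePoint ℚ) (t w : GL (Fin 2) ℚ), 0 < dt w →
      (∀ g, g ∈ H₁ ↔ w * g * w⁻¹ ∈ H₂) → IsGen H₁ c t → IsGen H₂ (w • c) (w * t * w⁻¹)) ∧
    ∀ (Γ : Subgroup SL(2, ℤ)) [Finite (SL(2, ℤ) ⧸ Γ)] (g : SL(2, ℤ)), (∃ n, IsPer Γ g n) ∧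
      ∀ n, IsPer Γ g n → IsGen (Γ.map (mapGL ℚ)) (mapGL ℚ g • OnePoint.infty)
        (mapGL ℚ (g * T ^ n * g⁻¹)) :=
  ⟨fun _ => ⟨fun h => ⟨h.tr, h.det, h.pos01, h.neg10, h.ne⟩, fun h => ⟨h.1, h.2.1, h.2.2.1, h.2.2.2.1,
    h.2.2.2.2⟩⟩, fun _ _ _ => ⟨fun h => ⟨h.mem, h.fix, h.pos, h.gen⟩, fun h => ⟨h.1, h.2.1, h.2.2.1,
    h.2.2.2⟩⟩, fun _ _ _ _ h h' => h.unique h', fun _ _ _ _ _ hw hH h => h.conj hw hH,
    fun Γ _ g => ⟨H71.exists_isPer Γ g, fun _ h => H71.isGen_of_isPer h⟩⟩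

/-- **From cosets to cusps** (`H71Cusp`). If `ζ(g T) - ζ(g)` is left invariant and `q` is the function on
cusps with `q(g ∞) = ζ(g T^n) - ζ(g)`, `n` the width of `g ∞`, then the sum of `ζ(g T) - ζ(g)` over
`Γ \ SL(2, ℤ)` is the sum of `q` over the cusps of `Γ`: the cosets over one cusp are
`Γ g, Γ g T, …, Γ g T^(n-1)`, and the sum telescopes. `csum H q` is the sum of `q` over representatives of
the `H`-orbits on `P¹(ℚ)`. -/
theorem cosets_to_cusps {A : Type*} [AddCommGroup A] (Γ : Subgroup SL(2, ℤ)) [Finite (SL(2, ℤ) ⧸ Γ)]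
    (hneg : -1 ∈ Γ) (ζ : SL(2, ℤ) → A) (hζ : LInv Γ (fun g => ζ (g * T) - ζ g)) (q : OnePoint ℚ → A)
    (hq : ∀ g n, IsPer Γ g n → q (mapGL ℚ g • OnePoint.infty) = ζ (g * T ^ n) - ζ g) :
    cosum Γ (fun g => ζ (g * T) - ζ g) = csum (Γ.map (mapGL ℚ)) q :=
  H71.cosum_eq_csum Γ hneg ζ hζ q hq

/-- **The quadratic primitive** (`H71Nat`). For an invariant symbol `m` and a potential `h` of `φ` there is
a function `ζ` with `ζ(g T) - ζ(g) = - (h(g S) - h(g)) m(g 0, g ∞)`, minus the general term of the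
pairing, and `ζ(γ g) = ζ(γ) + ζ(g) + 2 φ(γ) m(g ∞, ∞)` for `γ ∈ Γ`. (`prescribed_differences`, with
`σ = (h(g) + h(g S)) m(g 0, g ∞)` and `τ(g) = 2 h(g) m(g 0, g ∞)`.) -/
theorem quadratic_primitive {R : Type*} [CommRing R] {Γ : Subgroup SL(2, ℤ)}
    {m : Symb R (OnePoint ℚ) R} (hm : m ∈ inv R (OnePoint ℚ) R (Γ.map (mapGL ℚ)))
    {φ : Additive Γ →+ R} {h : SL(2, ℤ) → R} (H : IsPot Γ φ h) :
    ∃ ζ : SL(2, ℤ) → R, (∀ g, ζ (g * T) - ζ g = - ((h (g * S) - h g) * man m g)) ∧
      ∀ (γ : Γ) g, ζ (γ * g) = ζ γ + ζ g +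
        2 * φ (Additive.ofMul γ) * m.1 (mapGL ℚ g • OnePoint.infty) OnePoint.infty :=
  H71.exists_zeta0 hm H

/-- **The pairing as a sum over cusps** (`H71Nat`). Let `Ξ` be any function on `Γ` with
`Ξ(s t) = Ξ(s) + Ξ(t) + 2 φ(s) m(t ∞, ∞)` (`IsXi`; such functions exist, by `quadratic_primitive`), and `b`
any base point. Let `q(c) = Ξ(t) + 2 φ(t) m(c, b)` where `t` is the positive generator of the stabiliser
of `c`. Then `q` is invariant under `Γ` and `⟨m, φ⟩ = - ∑ q(c)`, the sum over the cusps of `Γ`. The right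
side does not mention `SL(2, ℤ)`. -/
theorem pairing_by_cusps {R : Type*} [CommRing R] [IsAddTorsionFree R] {Γ : Subgroup SL(2, ℤ)}
    [Finite (SL(2, ℤ) ⧸ Γ)] (hneg : -1 ∈ Γ) {m : Symb R (OnePoint ℚ) R}
    (hm : m ∈ inv R (OnePoint ℚ) R (Γ.map (mapGL ℚ))) {φ : Additive Γ →+ R} :
    (∀ Ξ : Γ → R, IsXi Γ m φ Ξ ↔ ∀ s t : Γ, Ξ (s * t) = Ξ s + Ξ t +
      2 * φ (Additive.ofMul s) * m.1 (mapGL ℚ (t : SL(2, ℤ)) • OnePoint.infty) OnePoint.infty) ∧
    (∃ Ξ, IsXi Γ m φ Ξ) ∧
    ∀ Ξ : Γ → R, IsXi Γ m φ Ξ → ∀ (b : OnePoint ℚ) (q : OnePoint ℚ → R),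
      (∀ (c : OnePoint ℚ) (t : Γ), IsGen (Γ.map (mapGL ℚ)) c (mapGL ℚ (t : SL(2, ℤ))) →
        q c = Ξ t + 2 * φ (Additive.ofMul t) * m.1 c b) →
      dpair R Γ ⟨m, hm⟩ φ = - csum (Γ.map (mapGL ℚ)) q ∧
        ∀ h ∈ Γ.map (mapGL ℚ), ∀ c, q (h • c) = q c :=
  ⟨fun _ => Iff.rfl, H71.exists_isXi hm φ, fun _ hΞ b q hq => H71.dpair_eq_csum hneg hm hΞ b q hq⟩

/-- **Invariance under rational matrices** (`H71Nat`): if `w` has positive determinant and conjugates `Γ₁`
to `Γ₂` (both of finite index in `SL(2, ℤ)`), then `⟨m | w, φ₁⟩ = ⟨m, φ₂⟩` for corresponding homomorphisms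
`φ₁`, `φ₂`; `slash w m` is `m | w`. (By `pairing_by_cusps`, `H71.csum_conj` and `cusp_generators`.) -/
theorem pairing_invariant {R : Type*} [CommRing R] [IsAddTorsionFree R] {Γ₁ Γ₂ : Subgroup SL(2, ℤ)}
    [Finite (SL(2, ℤ) ⧸ Γ₁)] [Finite (SL(2, ℤ) ⧸ Γ₂)] (hneg₁ : -1 ∈ Γ₁) (hneg₂ : -1 ∈ Γ₂)
    {w : GL (Fin 2) ℚ} (hw : 0 < dt w)
    (hH : ∀ g, g ∈ Γ₁.map (mapGL ℚ) ↔ w * g * w⁻¹ ∈ Γ₂.map (mapGL ℚ))
    {m : Symb R (OnePoint ℚ) R} (hm : m ∈ inv R (OnePoint ℚ) R (Γ₂.map (mapGL ℚ)))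
    (hm' : slash w m ∈ inv R (OnePoint ℚ) R (Γ₁.map (mapGL ℚ)))
    {φ₁ : Additive Γ₁ →+ R} {φ₂ : Additive Γ₂ →+ R}
    (hφ : ∀ (s : Γ₁) (t : Γ₂), mapGL ℚ (t : SL(2, ℤ)) = w * mapGL ℚ (s : SL(2, ℤ)) * w⁻¹ →
      φ₁ (Additive.ofMul s) = φ₂ (Additive.ofMul t)) :
    dpair R Γ₁ ⟨slash w m, hm'⟩ φ₁ = dpair R Γ₂ ⟨m, hm⟩ φ₂ :=
  H71.dpair_slash hneg₁ hneg₂ hw hH hm hm' hφ

/-- **Trace and restriction are adjoint** (`H71Adj`): for `Γ' ≤ Γ` with representatives `ρ i ∈ Γ` of
`Γ' \ Γ` (`IsReps Γ Γ' ρ`), a symbol `m` of level `Γ'` and `φ : Γ → R`, the pairing of the trace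
`∑ m | ρ i` with `φ` is the pairing of `m` with the restriction `resHom H.le φ` of `φ` to `Γ'`.
(`coset_sums`, last part.) -/
theorem trace_adjoint {R : Type*} [CommRing R] [IsAddTorsionFree R] {Γ Γ' : Subgroup SL(2, ℤ)}
    [Finite (SL(2, ℤ) ⧸ Γ)] [Finite (SL(2, ℤ) ⧸ Γ')] {ι : Type*} [Fintype ι] {ρ : ι → SL(2, ℤ)}
    (H : IsReps Γ Γ' ρ) {m : Symb R (OnePoint ℚ) R}
    (hm : m ∈ inv R (OnePoint ℚ) R (Γ'.map (mapGL ℚ)))
    (hm' : (∑ i, slash (mapGL ℚ (ρ i) : GL (Fin 2) ℚ) m) ∈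
      inv R (OnePoint ℚ) R (Γ.map (mapGL ℚ))) (φ : Additive Γ →+ R) :
    dpair R Γ ⟨_, hm'⟩ φ = dpair R Γ' ⟨m, hm⟩ (resHom H.le φ) :=
  H71.dpair_tr_left H hm hm' φ

/-- **The four adjunctions at level `Γ₀(N)`** (`H71Adj`). Homomorphisms are written as period
homomorphisms `γ ↦ f(γ o, o)` of symbols `f` on `PG = PGL(2, ℚ)`, because Hecke operators act on these by
the same formulas; `gp N` is the pairing of level `N` between `m` and the period homomorphism of `f`. For
a prime `q ∤ N`: the trace `tr N q` from level `N q` to level `N` is adjoint to the inclusion, on both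
sides; the Atkin-Lehner matrix at `q` (`alW`) preserves the pairing of level `N q`. For a prime `ℓ ∤ N`
the Hecke operator `hT ℓ = T_ℓ` is self-adjoint. -/
theorem adjunctions {R : Type*} [CommRing R] [IsAddTorsionFree R] {N q : ℕ} [NeZero N] [NeZero q]
    (hq : q.Prime) (hqN : ¬ q ∣ N) (hc : Nat.Coprime q N) {m : Symb R (OnePoint ℚ) R} {f : Symb R PG R} :
    (∀ (hm : m ∈ inv R (OnePoint ℚ) R (G0 (N * q))) (hm' : tr N q m ∈ inv R (OnePoint ℚ) R (G0 N))
      (hf : f ∈ inv R PG R (G0 N)) (hf' : f ∈ inv R PG R (G0 (N * q))),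
      gp N hm' hf = gp (N * q) hm hf') ∧
    (∀ (hm : m ∈ inv R (OnePoint ℚ) R (G0 N)) (hm' : m ∈ inv R (OnePoint ℚ) R (G0 (N * q)))
      (hf : f ∈ inv R PG R (G0 (N * q))) (hf' : tr N q f ∈ inv R PG R (G0 N)),
      gp N hm hf' = gp (N * q) hm' hf) ∧
    (∀ (hm : m ∈ inv R (OnePoint ℚ) R (G0 (N * q))) (hf : f ∈ inv R PG R (G0 (N * q)))
      (hm' : slash (alW hc) m ∈ inv R (OnePoint ℚ) R (G0 (N * q)))
      (hf' : slash (alW hc) f ∈ inv R PG R (G0 (N * q))), gp (N * q) hm' hf' = gp (N * q) hm hf) ∧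
    ∀ ℓ : ℕ, ℓ.Prime → ¬ ℓ ∣ N → ∀ (hm : m ∈ inv R (OnePoint ℚ) R (G0 N))
      (hm' : hT ℓ m ∈ inv R (OnePoint ℚ) R (G0 N)) (hf : f ∈ inv R PG R (G0 N))
      (hf' : hT ℓ f ∈ inv R PG R (G0 N)), gp N hm' hf = gp N hm hf' :=
  ⟨H71.gp_tr_left hq hqN, H71.gp_tr_right hq hqN, H71.gp_alW hc hq.ne_zero,
    fun _ hℓ hℓN => H71.gp_hT hℓ hℓN⟩

/-- **The second trace** (`H71Adj`): `m ↦ tr(m | W)`, `W = alW` the Atkin-Lehner matrix at `q`, is adjoint to
`f ↦ f | diag(q, 1)` (`hd q = diag(q, 1)`). By `adjunctions`, since `f | W = f | diag(q, 1)` for `f` of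
level `N`. -/
theorem second_trace_adjoint {R : Type*} [CommRing R] [IsAddTorsionFree R] {N q : ℕ} [NeZero N]
    [NeZero q] (hq : q.Prime) (hc : Nat.Coprime q N) {m : Symb R (OnePoint ℚ) R} {f : Symb R PG R}
    (hm : m ∈ inv R (OnePoint ℚ) R (G0 (N * q)))
    (hm' : tr N q (slash (alW hc) m) ∈ inv R (OnePoint ℚ) R (G0 N)) (hf : f ∈ inv R PG R (G0 N))
    (hf' : slash (hd q) f ∈ inv R PG R (G0 (N * q))) : gp N hm' hf = gp (N * q) hm hf' :=
  H71.gp_tr_alW_left hq hc hm hm' hf hf'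

/-! The next three theorems are the steps of `GuideLevelsRaising.duality`. There `λ₁`, `λ₂` are
eigenfunctionals modulo `p` on the symbols of level `N` with `λ₁(tr m) + λ₂(tr(m | W)) = 0`. Let `f₁`, `f₂` be
as in `functionals_mod_p`, and `g = f₁ + f₂ | diag(q, 1)`. By `adjunctions` and `second_trace_adjoint`
`⟨m, g⟩ = 2 k` with `k ≡ λ₁(tr m) + λ₂(tr(m | W)) = 0`, so `p` divides all periods of `g` at level `N q`
(`periods_by_pairing`). The reductions of `f₁`, `f₂` are eigenvectors of the `T_ℓ` with the same eigenvalues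
(`eigenfunctionals_mod_p`), and not both are zero (`functionals_mod_p`, last part). -/

/-- **Functionals modulo `p`** (`H71Key`). For every homomorphism `λ` from the integral symbols of level `N`
to `ℤ/p` there is a homomorphism `Γ₀(N) → ℤ`, the period homomorphism of a symbol `f` on `PG`, with
`⟨m, f⟩ = 2 k`, `k ≡ λ(m)` modulo `p`, for all `m`. (Lift `λ` to a functional with values in `ℤ`; the group
of symbols is free, and `functionals_on_symbols` applies.) If `p ≠ 0` divides all periods `f(γ o, o)`,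
then `λ = 0` (the homomorphism is `p` times another one, with an even pairing by `parity`). Used for
S41. -/
theorem functionals_mod_p (p N : ℕ) [NeZero N] (lam : inv ℤ (OnePoint ℚ) ℤ (G0 N) →+ ZMod p) :
    ∃ (f : Symb ℤ PG ℤ) (hf : f ∈ inv ℤ PG ℤ (G0 N)),
      (∀ m (hm : m ∈ inv ℤ (OnePoint ℚ) ℤ (G0 N)), ∃ k : ℤ, gp N hm hf = 2 * k ∧
        (k : ZMod p) = lam ⟨m, hm⟩) ∧
      (p ≠ 0 → (∀ γ ∈ G0 N, (p : ℤ) ∣ f.1 (γ • H71.o) H71.o) → lam = 0) := by
  obtain ⟨f, hf, H⟩ := H71.exists_rep p N lam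
  exact ⟨f, hf, H, fun hp hz => H.eq_zero hp hz⟩

/-- **Periods by pairing** (`H71Key`): if `2 d` divides `⟨m, f⟩` for all integral symbols `m` of level `N`,
then `d` divides all periods `f(γ o, o)`, `γ ∈ Γ₀(N)`. (`functionals_on_homs`, second part: some `m` has
`⟨m, f⟩ = 2 f(γ o, o)`.) Used for S41. -/
theorem periods_by_pairing {N : ℕ} [NeZero N] {f : Symb ℤ PG ℤ} (hf : f ∈ inv ℤ PG ℤ (G0 N)) {d : ℤ}
    (h : ∀ m (hm : m ∈ inv ℤ (OnePoint ℚ) ℤ (G0 N)), 2 * d ∣ gp N hm hf) :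
    ∀ γ ∈ G0 N, d ∣ f.1 (γ • H71.o) H71.o :=
  H71.period_of_pair hf h

/-- **Eigenfunctionals modulo `p`** (`H71Key`). Let `f` represent `λ` as in `functionals_mod_p`. If
`λ(T_ℓ m) = a λ(m)` for all `m`, `ℓ ∤ N` a prime, then `T_ℓ` multiplies the periods of the reduction
`redSymb p f` of `f` modulo `p` by `a`. (`T_ℓ` is self-adjoint; `periods_by_pairing` for `T_ℓ f - a f`.) Used
for S41. -/
theorem eigenfunctionals_mod_p {p N : ℕ} [NeZero N] {lam : inv ℤ (OnePoint ℚ) ℤ (G0 N) →+ ZMod p}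
    {f : Symb ℤ PG ℤ} {hf : f ∈ inv ℤ PG ℤ (G0 N)}
    (H : ∀ m (hm : m ∈ inv ℤ (OnePoint ℚ) ℤ (G0 N)), ∃ k : ℤ, gp N hm hf = 2 * k ∧
      (k : ZMod p) = lam ⟨m, hm⟩) {ℓ : ℕ} (hℓ : ℓ.Prime) (hℓN : ¬ ℓ ∣ N) {a : ZMod p}
    (hlam : ∀ m (hm : m ∈ inv ℤ (OnePoint ℚ) ℤ (G0 N)) (h : hT ℓ m ∈ inv ℤ (OnePoint ℚ) ℤ (G0 N)),
      lam ⟨hT ℓ m, h⟩ = a * lam ⟨m, hm⟩) :
    (∀ x y, (H71.redSymb p f).1 x y = (f.1 x y : ZMod p)) ∧
      ∀ γ ∈ G0 N, (hT ℓ (H71.redSymb p f)).1 (γ • H71.o) H71.o =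
        a * (H71.redSymb p f).1 (γ • H71.o) H71.o :=
  ⟨fun _ _ => rfl, H71.Rep.hecke H hℓ hℓN hlam⟩

/-! ## 5. Classes of symbols in `H^1(Γ₀(M), A)`

The cohomology of `GuideCohomology` and `GuideLiftingHecke`: `DN N` is the semigroup of the integral matrices
of positive determinant with lower left entry divisible by `N` and upper left entry prime to `N`, `gam N M`
the inclusion of `Γ₀(M)`, `H1 (gam N M hM) (psiRep ψ A)` the first cohomology of `Γ₀(M)` with values in `A`
twisted by the character `ψ` of `(ℤ/N)ˣ` (here `ψ = 1`). Hecke operators are given by finite families of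
matrices (`HFam`); `F.opH` is the operator of the family `F` on cohomology. (`dvd_mul_q`: if `N` divides
`M`, it divides `M q`.) -/

open Fermat.Agent.H70.Coh Fermat.Agent.H70.Mod Fermat.Agent.H59 Fermat.Agent.H71.R

/-- **The class of an invariant symbol** (`H71RBr`). `cl hM R x₀ hm` is the class of `γ ↦ m(γ x₀, x₀)`.
It is zero iff all these periods vanish. If `A` has no 2-torsion, every class comes from a symbol on
`PG = PGL(2, ℚ)` (base point `H71.o`). -/
theorem classes_of_symbols {N M : ℕ} (hM : N ∣ M) {R A : Type*} [CommRing R] [AddCommGroup A]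
    [Module R A] {X : Type*} [MulAction (GL (Fin 2) ℚ) X] (x₀ : X) :
    (∀ (m : Symb R X A) (hm : m ∈ inv R X A (G0 M)),
      cl hM R x₀ hm = 0 ↔ ∀ γ ∈ G0 M, m.1 (γ • x₀) x₀ = 0) ∧
    ((∀ a : A, (2 : ℕ) • a = 0 → a = 0) →
      ∀ y : H1 (gam N M hM) (psiRep (1 : (ZMod N)ˣ →* Rˣ) A),
        ∃ (f : Symb R PG A) (hf : f ∈ inv R PG A (G0 M)), y = cl hM R (H71.o : PG) hf) :=
  ⟨fun _ hm => cl_eq_zero_iff hm, fun h2 y => exists_cl_PG hM h2 y⟩

/-- **Operators on classes** (`H71RBr`). On classes of symbols, the Hecke operator `T_ℓ` (`tFam`), the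
restriction to level `M q` (`resFam`), the map `V_q` (`degFam`), the trace from level `M q` to level `M`
(`trFam`) and the second trace `ν` (`nuFam`) are given by `T_ℓ m`, `m`, `m | diag(q, 1)`, the trace of `m`,
and the trace of `m | W`, where `W = alW` is the Atkin-Lehner matrix at `q` (`ν` belongs to the double coset
of `diag(1, q)`, which contains `W`). (Every family of matrices acts on invariant symbols, and
representatives of the same cosets act in the same way; `hd q = diag(q, 1)`.) -/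
theorem operators_on_classes {N M q : ℕ} [NeZero M] [NeZero q] (hM : N ∣ M) {R A : Type*} [CommRing R]
    [AddCommGroup A] [Module R A] {X : Type*} [MulAction (GL (Fin 2) ℚ) X] (x₀ : X) {m : Symb R X A} :
    (∀ (ℓ : ℕ) (hℓ : ℓ.Prime) (hℓM : ¬ ℓ ∣ M) (hm : m ∈ inv R X A (G0 M))
      (hm' : hT ℓ m ∈ inv R X A (G0 M)),
      (tFam hM hℓ hℓM).opH (psiRep (1 : (ZMod N)ˣ →* Rˣ) A) (cl hM R x₀ hm) = cl hM R x₀ hm') ∧
    (∀ (hm : m ∈ inv R X A (G0 M)) (hm' : m ∈ inv R X A (G0 (M * q))),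
      (resFam (q := q) hM).opH (psiRep (1 : (ZMod N)ˣ →* Rˣ) A) (cl hM R x₀ hm) =
        cl (dvd_mul_q hM) R x₀ hm') ∧
    (∀ (hq : q.Prime) (hqN : q.Coprime N) (hm : m ∈ inv R X A (G0 M))
      (hm' : slash (hd q) m ∈ inv R X A (G0 (M * q))),
      (degFam hM hq hqN).opH (psiRep (1 : (ZMod N)ˣ →* Rˣ) A) (cl hM R x₀ hm) =
        cl (dvd_mul_q hM) R x₀ hm') ∧
    (∀ (_ : q.Prime) (_ : ¬ q ∣ M) (hm : m ∈ inv R X A (G0 (M * q)))
      (hm' : tr M q m ∈ inv R X A (G0 M)),
      (trFam (q := q) hM).opH (psiRep (1 : (ZMod N)ˣ →* Rˣ) A) (cl (dvd_mul_q hM) R x₀ hm) =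
        cl hM R x₀ hm') ∧
    ∀ (hq : q.Prime) (hc : Nat.Coprime q M) (hm : m ∈ inv R X A (G0 (M * q)))
      (hm' : tr M q (slash (alW hc) m) ∈ inv R X A (G0 M)),
      (nuFam (q := q) hM hq).opH (psiRep (1 : (ZMod N)ˣ →* Rˣ) A) (cl (dvd_mul_q hM) R x₀ hm) =
        cl hM R x₀ hm' :=
  ⟨fun _ hℓ hℓM hm _ => opH_tFam_cl hM hℓ hℓM x₀ hm, fun hm _ => opH_res_cl hM x₀ hm,
    fun hq hqN hm _ => opH_deg_cl hM hq hqN x₀ hm, fun hq hqM hm _ => opH_tr_cl hM hq hqM x₀ hm,
    fun hq hc hm hm' => opH_nu_cl hM hq hc x₀ hm hm'⟩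

/-! ## 6. Over the residue field

`Idx S` is the set of the primes outside of `S`, `Away M S`: all prime divisors of `M` are in `S`;
`tw hM hS ψ η i = η(ℓ)⁻¹ T_ℓ` for `i = ℓ` (they commute: `tw_comm`); `act T _` is the action of polynomials
through the commuting operators `T`; `MLoc hM hS ψ η e` is the image of the polynomial `e` (`Loc T _ e` for
arbitrary commuting operators `T`), `IsLocIdem … θ e`: `e` acts as the idempotent of the residual
eigensystem `θ` (all this is explained in `GuideLiftingHecke`). -/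

/-- **Joint eigenvectors** (`H71REig`). Let commuting operators `T i` act on a vector space over a field
`k` which is a quotient ring of `O`, and let `θ` be a homomorphism of `O`-algebras from the polynomial ring
over `O` to `k`. If `V ≠ 0` is a finite dimensional stable subspace on which every polynomial `s` with
`θ(s) ≠ 0` is injective, then `V` contains an eigenvector with eigensystem `θ`. (Induction on the dimension
of the cyclic subspace of a vector.) -/
theorem joint_eigenvector {O k ι H : Type*} [CommRing O] [Field k] [Algebra O k] [AddCommGroup H]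
    [Module k H] [Module O H] [IsScalarTower O k H] (T : ι → Module.End k H)
    (hT : ∀ i j, T i * T j = T j * T i) (hOk : Function.Surjective (algebraMap O k))
    (θ : MvPolynomial ι O →+* k) (hθ : ∀ a, θ (MvPolynomial.C a) = algebraMap O k a)
    (V : Submodule k H) [Module.Finite k V] (hV : V ≠ ⊥) (hst : ∀ i, ∀ v ∈ V, T i v ∈ V)
    (hinj : ∀ s, θ s ≠ 0 → ∀ v ∈ V, act T hT s v = 0 → v = 0) :
    ∃ v ∈ V, v ≠ 0 ∧ ∀ P, act T hT P v = θ P • v :=
  exists_eigen T hT hOk θ hθ V hV hst hinj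

/-- **Ihara's lemma for the localised classes** (`H71RInj`). `k` is a field of characteristic `≠ 2`, `θ` a
residual eigensystem which is not Eisenstein (`hNE1`, `hNE2`), `x`, `y` in the part of `H^1(Γ₀(M), k)`
belonging to `θ`. If `res x + V_q y = 0` at level `M q`, then `x = y = 0`. (By `joint_eigenvector` for the
kernel, `x` and `y` may be taken to be eigenclasses; then they are classes of symbols on `PGL(2, ℚ)` whose
periods are eigenvectors, and `GuideIharaSteps.ihara_hom_field` applies.) -/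
theorem old_injective {N M q : ℕ} (hM : N ∣ M) {S : Set ℕ} {k : Type} [Field k] {O : Type} [CommRing O]
    [Algebra O k] [NeZero M] (hq : q.Prime) (hqM : ¬ q ∣ M) (hqN : q.Coprime N) (hS : Away M S)
    (hS' : Away (M * q) S) (h2 : (2 : k) ≠ 0) (hOk : Function.Surjective (algebraMap O k))
    (θ : MvPolynomial (Idx S) O →+* k) (hθ : ∀ a, θ (MvPolynomial.C a) = algebraMap O k a)
    {e : MvPolynomial (Idx S) O}
    (he : IsLocIdem (tw (R := k) hM hS 1 1) (tw_comm hM hS 1 1) θ e)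
    (hfin : Module.Finite k (H1 (gam N M hM) (psiRep (1 : (ZMod N)ˣ →* kˣ) k)))
    (hNE1 : ∃ i : Idx S, (θ (MvPolynomial.X i)) ^ 2 ≠ ((i.1 : k) + 1) ^ 2)
    (hNE2 : ∀ D : ℕ, D ≠ 0 → ∃ i : Idx S, (D : ℤ) ∣ (i.1 : ℤ) - 1 ∧
      θ (MvPolynomial.X i) ≠ (i.1 : k) + 1)
    {x y : H1 (gam N M hM) (psiRep (1 : (ZMod N)ˣ →* kˣ) k)}
    (hx : x ∈ MLoc (R := k) hM hS 1 1 e) (hy : y ∈ MLoc (R := k) hM hS 1 1 e)
    (hxy : (resFam (q := q) hM).opH (psiRep (1 : (ZMod N)ˣ →* kˣ) k) x +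
      (degFam hM hq hqN).opH (psiRep (1 : (ZMod N)ˣ →* kˣ) k) y = 0) : x = 0 ∧ y = 0 :=
  old_injective_field hM hq hqM hqN hS hS' h2 hOk θ hθ he hfin hNE1 hNE2 hx hy hxy

/-- **Lifting to characteristic zero** (`H71RDual`). `O` is a principal ideal domain of characteristic zero
with quotient field `k` (a quotient ring which is a field). (1) A linear form on `Hom(Γ, O)` with values
in `k` is half of the pairing with a symbol over `O`, reduced. (2) If the reduction of the symbol is zero,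
so is the reduced pairing. (3) Every homomorphism `Γ₀(M) → k` lifts to `O`, if `M` is `Good` for `O`
(`2` is a unit of `O`, and the elements of order three do no harm). -/
theorem lifting {O k : Type} [CommRing O] [IsAddTorsionFree O] [IsDomain O] [IsPrincipalIdealRing O]
    [Field k] [Algebra O k] (hOk : Function.Surjective (algebraMap O k)) {Γ : Subgroup SL(2, ℤ)}
    [Finite (SL(2, ℤ) ⧸ Γ)] (hneg : -1 ∈ Γ) :
    (∀ lam : (Additive Γ →+ O) →ₗ[O] k, ∃ m : inv O (OnePoint ℚ) O (Γ.map (mapGL ℚ)), ∀ φ,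
      algebraMap O k (dpair O Γ m φ) = 2 * lam φ) ∧
    (∀ m : inv O (OnePoint ℚ) O (Γ.map (mapGL ℚ)), (∀ x, algebraMap O k (man m.1 x) = 0) →
      ∀ φ : Additive Γ →+ O, algebraMap O k (dpair O Γ m φ) = 0) ∧
    ∀ (M : ℕ) [NeZero M], Good M O → ∀ φ : Additive (Gamma0 M) →+ k,
      ∃ φ' : Additive (Gamma0 M) →+ O, (algebraMap O k).toAddMonoidHom.comp φ' = φ :=
  ⟨exists_symb_of_fun hneg hOk, fun m h φ => dpair_residue_zero (algebraMap O k) m h φ,
    fun _ _ hg φ => exists_hom_lift hg (algebraMap O k) hOk φ⟩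

/-- **Linear forms on cohomology are symbols** (`H71RSurj`). `O`, `k` as in `lifting`, `2 ≠ 0` in `k`, `M` is
`Good` for `O`. For every linear form `L` on `H^1(Γ₀(M), k)` there is a symbol `m` of level `M` over `O` such
that, for all invariant symbols `f` on `PG` over `O`, the pairing `⟨m, f⟩` reduces to `2 L(c)`, `c` the class
of the reduction of `f` (`lifting`, (1)). Let `rs m` be the reduction of `m`. If `L(T_ℓ x) = a L(x)` for all
`x`, then `T_ℓ (rs m) = a (rs m)` (`T_ℓ` is self-adjoint, and a reduced symbol is determined by its pairings: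
`values_by_pairing`). If `rs m = 0` then `L = 0` (`lifting`, (2) and (3)). -/
theorem linear_form_as_symbol {N M : ℕ} (hM : N ∣ M) {O k : Type} [CommRing O] [Field k] [Algebra O k]
    [IsAddTorsionFree O] [IsDomain O] [IsPrincipalIdealRing O] [NeZero M] (h2 : (2 : k) ≠ 0)
    (hOk : Function.Surjective (algebraMap O k)) (hg : Good M O)
    (L : H1 (gam N M hM) (psiRep (1 : (ZMod N)ˣ →* kˣ) k) →ₗ[k] k) :
    ∃ m : inv O (OnePoint ℚ) O (G0 M),
      (∀ f (hf : f ∈ inv O PG O (G0 M)), algebraMap O k (gp M m.2 hf) =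
        2 * L (cl hM k (H71.o : PG)
          (H41.smap_mem_inv (R' := k) (algebraMap O k).toAddMonoidHom hf))) ∧
      (∀ (ℓ : ℕ) (hℓ : ℓ.Prime) (hℓM : ¬ ℓ ∣ M) (a : k),
        (∀ x, L ((tFam hM hℓ hℓM).opH (psiRep (1 : (ZMod N)ˣ →* kˣ) k) x) = a * L x) →
          hT ℓ (rs (k := k) m.1) = a • rs (k := k) m.1) ∧
      (rs (k := k) m.1 = 0 → L = 0) := by
  obtain ⟨m, H⟩ := exists_repK hM hOk L
  exact ⟨m, H, fun ℓ hℓ hℓM a hL => H.hecke hM h2 hOk hℓ hℓM a hL,
    fun h => H.zero_of_rs hM hg h2 hOk h⟩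

/-- **Eigenfunctionals killing both traces** (`H71RSurj`). `L₁`, `L₂` are linear forms on `H^1(Γ₀(M), k)`
which are eigenvectors of all `T_ℓ`, `ℓ ∉ S`, with the eigenvalues of a system `θ` which is not Eisenstein.
If `L₁(tr z) + L₂(ν z) = 0` for all classes `z` of level `M q`, then `L₁ = L₂ = 0`. (By
`linear_form_as_symbol` they are represented by symbols `m₁`, `m₂` over `O`, whose reductions are
eigensymbols; by `adjunctions` and `values_by_pairing` these satisfy `m₁ + m₂ | diag(q, 1) = 0`, so they are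
zero by `GuideLevelsRaising.ihara_symbols`, and then `L₁ = L₂ = 0`.) -/
theorem functionals_vanish {N M q : ℕ} (hM : N ∣ M) {S : Set ℕ} {O : Type} [CommRing O] {k : Type}
    [Field k] [Algebra O k] [IsAddTorsionFree O] [IsDomain O] [IsPrincipalIdealRing O] [NeZero M]
    [NeZero q] (hq : q.Prime) (hqM : ¬ q ∣ M) (hS : Away M S) (h2 : (2 : k) ≠ 0)
    (hOk : Function.Surjective (algebraMap O k)) (hg : Good M O) (θ : MvPolynomial (Idx S) O →+* k)
    (hNE1 : ∃ i : Idx S, (θ (MvPolynomial.X i)) ^ 2 ≠ ((i.1 : k) + 1) ^ 2)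
    (hNE2 : ∀ D : ℕ, D ≠ 0 → ∃ i : Idx S, (D : ℤ) ∣ (i.1 : ℤ) - 1 ∧
      θ (MvPolynomial.X i) ≠ (i.1 : k) + 1)
    (L₁ L₂ : H1 (gam N M hM) (psiRep (1 : (ZMod N)ˣ →* kˣ) k) →ₗ[k] k)
    (hL₁ : ∀ (i : Idx S) x, L₁ ((tFam hM i.2.1 (hS.not_dvd i)).opH (psiRep 1 k) x) =
      θ (MvPolynomial.X i) * L₁ x)
    (hL₂ : ∀ (i : Idx S) x, L₂ ((tFam hM i.2.1 (hS.not_dvd i)).opH (psiRep 1 k) x) =
      θ (MvPolynomial.X i) * L₂ x)
    (hrel : ∀ z, L₁ ((trFam (q := q) hM).opH (psiRep 1 k) z) +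
      L₂ ((nuFam (q := q) hM hq).opH (psiRep 1 k) z) = 0) : L₁ = 0 ∧ L₂ = 0 :=
  functional_eq_zero hM hq hqM hS h2 hOk hg θ hNE1 hNE2 L₁ L₂ hL₁ hL₂ hrel

/-- **Surjectivity from functionals** (`H71RModK`), linear algebra: let `f, g : H' → H` commute with the
operators `T' i`, `T i`, `H` of finite dimension, and suppose that two eigenfunctionals `L₁`, `L₂` on `H`
for `θ` with `L₁ f + L₂ g = 0` are always zero. Then on the parts belonging to `θ` the map `(f, g)` is
surjective. (`joint_eigenvector` for the annihilator of the image in the dual.) -/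
theorem surjective_of_functionals {O k ι H H' : Type} [CommRing O] [Field k] [Algebra O k]
    [AddCommGroup H] [Module k H] [Module O H] [IsScalarTower O k H] [AddCommGroup H'] [Module k H']
    [Module O H'] [IsScalarTower O k H'] [Module.Finite k H] (T : ι → Module.End k H)
    (hT : ∀ i j, T i * T j = T j * T i) (T' : ι → Module.End k H')
    (hT' : ∀ i j, T' i * T' j = T' j * T' i) (hOk : Function.Surjective (algebraMap O k))
    {θ : MvPolynomial ι O →+* k} (hθ : ∀ a, θ (MvPolynomial.C a) = algebraMap O k a)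
    {e : MvPolynomial ι O} (he : IsLocIdem T hT θ e) (f g : H' →ₗ[k] H)
    (hf : ∀ i x, f (T' i x) = T i (f x)) (hg : ∀ i x, g (T' i x) = T i (g x))
    (hkey : ∀ L₁ L₂ : H →ₗ[k] k, (∀ i x, L₁ (T i x) = θ (MvPolynomial.X i) * L₁ x) →
      (∀ i x, L₂ (T i x) = θ (MvPolynomial.X i) * L₂ x) →
      (∀ z, L₁ (f z) + L₂ (g z) = 0) → L₁ = 0 ∧ L₂ = 0)
    {a b : H} (ha : a ∈ Loc T hT e) (hb : b ∈ Loc T hT e) :
    ∃ x ∈ Loc T' hT' e, f x = a ∧ g x = b :=
  surj_of_functional T hT T' hT' hOk hθ he f g hf hg hkey ha hb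

/-- **Both traces, over the residue field** (`H71RModK`): on the parts belonging to a residual eigensystem
`θ` which is not Eisenstein, `(tr, ν)` is surjective from level `M q` to two copies of level `M`.
(`functionals_vanish` and `surjective_of_functionals`.) -/
theorem traces_surjective {N M q : ℕ} (hM : N ∣ M) {S : Set ℕ} {O : Type} [CommRing O] {k : Type}
    [Field k] [Algebra O k] [IsAddTorsionFree O] [IsDomain O] [IsPrincipalIdealRing O] [NeZero M]
    [NeZero q] (hq : q.Prime) (hqM : ¬ q ∣ M) (hS : Away M S) (hS' : Away (M * q) S) (h2 : (2 : k) ≠ 0)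
    (hOk : Function.Surjective (algebraMap O k)) (hg : Good M O) (θ : MvPolynomial (Idx S) O →+* k)
    (hθ : ∀ a, θ (MvPolynomial.C a) = algebraMap O k a) {e : MvPolynomial (Idx S) O}
    (he : IsLocIdem (tw (R := k) hM hS 1 1) (tw_comm hM hS 1 1) θ e)
    (hNE1 : ∃ i : Idx S, (θ (MvPolynomial.X i)) ^ 2 ≠ ((i.1 : k) + 1) ^ 2)
    (hNE2 : ∀ D : ℕ, D ≠ 0 → ∃ i : Idx S, (D : ℤ) ∣ (i.1 : ℤ) - 1 ∧
      θ (MvPolynomial.X i) ≠ (i.1 : k) + 1)
    {a b : H1 (gam N M hM) (psiRep (1 : (ZMod N)ˣ →* kˣ) k)}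
    (ha : a ∈ MLoc (R := k) hM hS 1 1 e) (hb : b ∈ MLoc (R := k) hM hS 1 1 e) :
    ∃ x ∈ MLoc (R := k) (dvd_mul_q (q := q) hM) hS' 1 1 e,
      (trFam (q := q) hM).opH (psiRep 1 k) x = a ∧ (nuFam (q := q) hM hq).opH (psiRep 1 k) x = b :=
  tr_nu_surjective_field hM hq hqM hS hS' h2 hOk hg θ hθ he hNE1 hNE2 ha hb

/-! ## 7. Local rings -/

/-- **Splitting from the residue field** (`H71RMod`). A linear map `l : M → N` of finite modules over a
local ring `R`, `N` free, which is injective modulo the maximal ideal has a retraction. Then its cokernel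
is free, of rank `rank N - rank M` (that `M` is free follows, too; it is a hypothesis of this part). -/
theorem splitting {R M N : Type*} [CommRing R] [IsLocalRing R] [AddCommGroup M] [Module R M]
    [AddCommGroup N] [Module R N] [Module.Finite R M] [Module.Finite R N] [Module.Free R N]
    (l : M →ₗ[R] N) :
    ((∀ z, l z ∈ (IsLocalRing.maximalIdeal R • ⊤ : Submodule R N) →
      z ∈ (IsLocalRing.maximalIdeal R • ⊤ : Submodule R M)) →
        ∃ l' : N →ₗ[R] M, l' ∘ₗ l = LinearMap.id) ∧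
    (Module.Free R M → ∀ r : N →ₗ[R] M, r ∘ₗ l = LinearMap.id →
      Module.Free R (N ⧸ LinearMap.range l) ∧ Module.Finite R (N ⧸ LinearMap.range l) ∧
        Module.finrank R (N ⧸ LinearMap.range l) + Module.finrank R M = Module.finrank R N) :=
  ⟨fun h => exists_retract_of_residue l h, fun _ r h => free_quotient_of_retract l r h⟩

/-- **Reduction of the localised modules** (`H70Mod`). Let `f : R → R'` be a surjective homomorphism of
`O`-algebras, `M` `Good` for `R`, `ψ(-1) = 1`. The map `mS` from the localised module over `R` to the one over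
`R'` (with the characters `f ∘ ψ`, `f ∘ η`) is surjective with kernel `(ker f)` times the module. Applied to
the residue field of a local ring. (For the whole cohomology this is `GuideCohomology.quotient`.) -/
theorem reduction_of_modules {N M : ℕ} [NeZero M] (hM : N ∣ M) {S : Set ℕ} (hS : Away M S)
    {O R R' κ : Type} [CommRing O] [CommRing R] [CommRing R'] [Algebra O R] [Algebra O R'] [Field κ]
    (ψ η : (ZMod N)ˣ →* Rˣ) (hg : Good M R) (hψ : ψ (-1) = 1) {θ : MvPolynomial (Idx S) O →+* κ}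
    {e : MvPolynomial (Idx S) O} (he : IsLocIdem (tw hM hS ψ η) (tw_comm hM hS ψ η) θ e)
    (f : R →+* R') (hf : ∀ a : O, f (algebraMap O R a) = algebraMap O R' a)
    (hfs : Function.Surjective f) :
    Function.Surjective (mS hM hS ψ η e f hf) ∧
      ∀ x : MLoc hM hS ψ η e, mS hM hS ψ η e f hf x = 0 ↔
        x ∈ (RingHom.ker f • ⊤ : Submodule R (MLoc hM hS ψ η e)) :=
  ⟨mS_surjective hM hS ψ η hg hψ he f hf hfs, mS_eq_zero_iff hM hS ψ η hg hψ he f hf hfs⟩

/-- **Both maps modulo the maximal ideal** (`H71RMod`). `R` is a local ring over `O`, `ψ` and `η` are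
characters with values in `Rˣ` which are trivial modulo the maximal ideal (`ResTriv`), `ψ(-1) = 1`, the
levels are `Good`. If `res x + V_q y` (`= oldM … (x, y)`) is in the maximal ideal times the localised
module of level `M q`, then `(x, y)` is in the maximal ideal times the sum of two copies of the one of
level `M`. (By `reduction_of_modules` one may pass to the residue field, and there `old_injective` applies.)
With `splitting` this gives `GuideLiftingHecke.ihara_retraction`. -/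
theorem old_injective_mod {N M q : ℕ} (hM : N ∣ M) {S : Set ℕ} (hS : Away M S) (hS' : Away (M * q) S)
    {O : Type} [CommRing O] [IsLocalRing O] {R : Type} [CommRing R] [IsLocalRing R] [Algebra O R]
    (ψ η : (ZMod N)ˣ →* Rˣ) {θ : MvPolynomial (Idx S) O →+* IsLocalRing.ResidueField O}
    {e : MvPolynomial (Idx S) O}
    (hOR : Function.Surjective (algebraMap O (IsLocalRing.ResidueField R)))
    (hθ : ∀ a, θ (MvPolynomial.C a) = IsLocalRing.residue O a)
    (hg : Good M R) (hg' : Good (M * q) R) (hψ : ψ (-1) = 1) (hψ1 : ResTriv ψ) (hη1 : ResTriv η)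
    (he : IsLocIdem (tw hM hS ψ η) (tw_comm hM hS ψ η) θ e)
    (he' : IsLocIdem (tw (dvd_mul_q (q := q) hM) hS' ψ η)
      (tw_comm (dvd_mul_q (q := q) hM) hS' ψ η) θ e)
    (hNE1 : ∃ i : Idx S, (θ (MvPolynomial.X i)) ^ 2 ≠ ((i.1 : IsLocalRing.ResidueField O) + 1) ^ 2)
    (hNE2 : ∀ D : ℕ, D ≠ 0 → ∃ i : Idx S, (D : ℤ) ∣ (i.1 : ℤ) - 1 ∧
      θ (MvPolynomial.X i) ≠ (i.1 : IsLocalRing.ResidueField O) + 1)
    [NeZero M] [NeZero q] (hq : q.Prime) (hqM : ¬ q ∣ M) (hqN : q.Coprime N)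
    (z : MLoc hM hS ψ η e × MLoc hM hS ψ η e)
    (hz : oldM hM hS hS' ψ η hq hqN z ∈ (IsLocalRing.maximalIdeal R • ⊤ :
      Submodule R (MLoc (dvd_mul_q (q := q) hM) hS' ψ η e))) :
    z ∈ (IsLocalRing.maximalIdeal R • ⊤ : Submodule R (MLoc hM hS ψ η e × MLoc hM hS ψ η e)) :=
  old_mod_injective hM hS hS' ψ η hOR hθ hg hg' hψ hψ1 hη1 he he' hNE1 hNE2 hq hqM hqN z hz

/-- **Both traces modulo the maximal ideal** (`H71RMod`). With the hypotheses of `old_injective_mod`, `O` a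
principal ideal domain of characteristic zero and `M` `Good` for `O`: every pair `z` in two copies of the
localised module of level `M` is congruent to some `(tr x, ν x)` (`= tnM … x`) modulo the maximal ideal. (By
`reduction_of_modules` and `traces_surjective`.) By Nakayama's lemma `(tr, ν)` is surjective, which is
`GuideLiftingHecke.trace_pair_surjective`. -/
theorem traces_surjective_mod {N M q : ℕ} (hM : N ∣ M) {S : Set ℕ} (hS : Away M S)
    (hS' : Away (M * q) S) {O : Type} [CommRing O] [IsLocalRing O] [IsAddTorsionFree O] [IsDomain O]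
    [IsPrincipalIdealRing O] {R : Type} [CommRing R] [IsLocalRing R] [Algebra O R]
    (ψ η : (ZMod N)ˣ →* Rˣ) {θ : MvPolynomial (Idx S) O →+* IsLocalRing.ResidueField O}
    {e : MvPolynomial (Idx S) O}
    (hOR : Function.Surjective (algebraMap O (IsLocalRing.ResidueField R)))
    (hθ : ∀ a, θ (MvPolynomial.C a) = IsLocalRing.residue O a)
    (hg : Good M R) (hg' : Good (M * q) R) (hgO : Good M O) (hψ : ψ (-1) = 1) (hψ1 : ResTriv ψ)
    (hη1 : ResTriv η) (he : IsLocIdem (tw hM hS ψ η) (tw_comm hM hS ψ η) θ e)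
    (he' : IsLocIdem (tw (dvd_mul_q (q := q) hM) hS' ψ η)
      (tw_comm (dvd_mul_q (q := q) hM) hS' ψ η) θ e)
    (hNE1 : ∃ i : Idx S, (θ (MvPolynomial.X i)) ^ 2 ≠ ((i.1 : IsLocalRing.ResidueField O) + 1) ^ 2)
    (hNE2 : ∀ D : ℕ, D ≠ 0 → ∃ i : Idx S, (D : ℤ) ∣ (i.1 : ℤ) - 1 ∧
      θ (MvPolynomial.X i) ≠ (i.1 : IsLocalRing.ResidueField O) + 1)
    [NeZero M] [NeZero q] (hq : q.Prime) (hqM : ¬ q ∣ M) (z : MLoc hM hS ψ η e × MLoc hM hS ψ η e) :
    ∃ x, z - tnM hM hS hS' ψ η hq hqM x ∈ (IsLocalRing.maximalIdeal R • ⊤ :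
      Submodule R (MLoc hM hS ψ η e × MLoc hM hS ψ η e)) :=
  trNu_mod_surjective hM hS hS' ψ η hOR hθ hg hg' hgO hψ hψ1 hη1 he he' hNE1 hNE2 hq hqM z

/-- **The residue field of a group ring** (`H71RGrp`). The hypothesis `hOR` ("`O` maps onto the residue
field of `R`") holds for the group ring `R = O[Δ]` of a finite `p`-group `Δ`, if `p` is in the maximal
ideal of `O`. -/
theorem residue_field_of_group_ring {O Δ : Type} [CommRing O] [IsLocalRing O] [CommGroup Δ] [Finite Δ]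
    {p : ℕ} (hp : p.Prime) (hpm : (p : O) ∈ IsLocalRing.maximalIdeal O) (hΔ : IsPGroup p Δ)
    [IsLocalRing (MonoidAlgebra O Δ)] :
    Function.Surjective (algebraMap O (IsLocalRing.ResidueField (MonoidAlgebra O Δ))) :=
  hOR_grp hp hpm hΔ

end Fermat.Agent.Guide.SymbolDuality
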