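import Fermat.Agent.H81Br3
import Fermat.Agent.H96TAFinal
import Fermat.Agent.H61TE

/-!
# Reader's guide: from a sequence modulo 2 to a local Hecke ring (block TA, steps)

Every theorem of this file is proved by citing a theorem of the library; nothing here is used by any
other file. This is a companion of `GuideResidual` (section 5: `ta_theta_hom`, `ta_hecke_ring`) and of
`GuideResidualTheta`. All theorems are used in S01 through block LT (residual modularity modulo 3 by
means of deformations modulo 2), and so in S59, S60, S50, S46, S45, S38, S03, S04, S06.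

**What is proved.** Given is a sequence `F : ℕ → B` with values in a ring `B` (in the application a group
algebra `𝔽₄[C₂ × μ₂^Q]`, and `F` a combination of theta series modulo 2). It is an eigensequence of the
formal Hecke operators, `F(1)` is a unit, and `F` is a `B`-combination of the `q`-expansions of cusp
forms `f` with integral coefficients and `U_v² f = f` for `v ∈ V`. Then:
* the eigenvalues define a ring homomorphism `Ψ : TT → B` on the Hecke algebra `TT` of the space `X2` of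
  the cusp forms with `U_v² = 1` (sections 2 and 3). Neither multiplicity one nor newforms are needed: a
  relation between Hecke operators on `X2` holds for `F`, because it holds for all `q`-expansions;
* `TT` is finite and free over `ℤ` and reduced, and its points in algebraically closed fields are
  normalised eigenforms in `X2` (section 4);
* over a complete discrete valuation ring `O` with residue field `𝔽₄` there is a local factor `T` of
  `O ⊗ TT` through which `Ψ` factors, because `B` is local (section 5). These are the data `TSide'` of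
  Theorem C (`GuideResidual.c_theorem`).

Section 1 is the analytic input: at squarefree level `T_ℓ - (1 + ℓ)` maps modular forms of weight 2 to
cusp forms. It is applied to products of binary theta series, and makes them cuspidal.

**Order of the file.** 1. Constant terms at the cusps. 2. Hecke operators on sequences. 3. The ring `TT`.
4. Semisimplicity and points. 5. The local factor.

Modules `H81Br1`, `H81Br3`, `H81Pt`, `H81TS`, `H81TSide`, `H81TSide2` (helper81), `H61TA`, `H61TB`,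
`H61TC`, `H61TD`, `H61TE` (helper61), `H16Lower` (helper16), `H82Galois` (helper82), `H70Reduced`
(helper70), `H96TAFinal` (helper96). Notes: NOTES.md, Appendix A.8 [120].
-/

set_option autoImplicit false

noncomputable section

open UpperHalfPlane ModularForm ModularFormClass MatrixGroups Filter Topology CuspForm IsLocalRing
open CongruenceSubgroup (Gamma0)
open scoped NumberField
open Fermat.Agent.LT Fermat.Agent.H61.TA

namespace Fermat.Agent.Guide.TSide

/-! ## 1. Constant terms at the cusps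

For `γ ∈ SL₂(ℤ)` the constant term of `f` at the cusp `γ(∞)` is the limit of `f ∣ γ` at `i∞`. -/

/-- **The constant terms exist**, for every arithmetic group and every weight. (`H16Lower`.) -/
theorem exists_constant_term {Γ : Subgroup (GL (Fin 2) ℝ)} [Γ.IsArithmetic] {k : ℤ}
    (f : ModularForm Γ k) (γ : SL(2, ℤ)) :
    ∃ c : ℂ, Tendsto ((f : ℍ → ℂ) ∣[k] γ) atImInfty (𝓝 c) :=
  H16.Lower.exists_tendsto_slash f γ

/-- **The cusps of `Γ₀(M)`, `M` squarefree**, correspond to divisors of `M`: if the lower left entries of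
`γ` and `γ'` have the same greatest common divisor with `M`, then `γ' ∈ Γ₀(M) γ T^ℤ`. (`H81Br1`.) -/
theorem cusps_of_squarefree_level {M : ℕ} (hM : Squarefree M) (γ γ' : SL(2, ℤ))
    (h : Int.gcd (γ 1 0) M = Int.gcd (γ' 1 0) M) :
    ∃ (j : ℤ) (g : SL(2, ℤ)), g ∈ Gamma0 M ∧ γ' = g * γ * ModularGroup.T ^ j :=
  H81.exists_gamma0_mul_T hM γ γ' h

/-- Hence the constant term of a form of weight 2 and squarefree level depends only on this divisor.
(`H81Br1`.) -/
theorem constant_term_depends_on_gcd {M : ℕ} (hM : Squarefree M)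
    (f : ModularForm (Gamma0 M) 2) {γ γ' : SL(2, ℤ)}
    (h : Int.gcd (γ 1 0) M = Int.gcd (γ' 1 0) M) {c : ℂ}
    (hc : Tendsto ((f : ℍ → ℂ) ∣[(2 : ℤ)] γ) atImInfty (𝓝 c)) :
    Tendsto ((f : ℍ → ℂ) ∣[(2 : ℤ)] γ') atImInfty (𝓝 c) :=
  H81.tendsto_slash_of_gcd_eq hM f h hc

/-- **Triangular matrices**: if `F` has the constant term `c`, then `F ∣ (a b; 0 d)` has the constant term
`(a / d) c` (weight 2). (`H81Br1`.) -/
theorem constant_term_triangular {F : ℍ → ℂ} {c : ℂ} (h : Tendsto F atImInfty (𝓝 c)) {a b d : ℝ}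
    (ha : 0 < a) (hd : 0 < d) (had : a * d ≠ 0) :
    Tendsto (F ∣[(2 : ℤ)] (upperTriangularGL a b d had)) atImInfty (𝓝 (a / d * c)) :=
  H81.tendsto_slash_upper h ha hd had

/-- **An integral matrix `(x z; y w)` of determinant `ℓ`** (a prime) is `g (a b; 0 d)` with `g ∈ SL₂(ℤ)`,
`a d = ℓ`; and `a = ℓ` if and only if `ℓ` divides the first column. (`H81Br1`.) -/
theorem factorisation {ℓ : ℕ} (hℓ : ℓ.Prime) (x y z w : ℤ) (hdet : x * w - z * y = ℓ) :
    ∃ (g : SL(2, ℤ)) (a d : ℕ) (b : ℤ), a * d = ℓ ∧ x = g 0 0 * a ∧ y = g 1 0 * a ∧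
      z = g 0 0 * b + g 0 1 * d ∧ w = g 1 0 * b + g 1 1 * d ∧
      (a = ℓ ↔ (ℓ : ℤ) ∣ x ∧ (ℓ : ℤ) ∣ y) :=
  H81.exists_factor hℓ x y z w hdet

/-- **Constant terms of translates**: let `δ` be an integral matrix of determinant `ℓ`, `ℓ ∤ M` a prime,
whose lower left entry has the same greatest common divisor with `M` as that of `γ`. The constant term of
`f ∣ δ` is that of `f ∣ γ` times `ℓ` or `1/ℓ`. (`H81Br1`.) -/
theorem constant_term_of_translate {M : ℕ} (hM : Squarefree M) (f : ModularForm (Gamma0 M) 2) {ℓ : ℕ}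
    (hℓ : ℓ.Prime) (hℓM : ¬ ℓ ∣ M) {γ : SL(2, ℤ)} {c : ℂ}
    (hc : Tendsto ((f : ℍ → ℂ) ∣[(2 : ℤ)] γ) atImInfty (𝓝 c))
    (δ : GL (Fin 2) ℝ) (x y z w : ℤ)
    (hδ : (δ : Matrix (Fin 2) (Fin 2) ℝ) = !![(x : ℝ), (z : ℝ); (y : ℝ), (w : ℝ)])
    (hdet : x * w - z * y = ℓ) (hgcd : Int.gcd y M = Int.gcd (γ 1 0) M) :
    Tendsto ((f : ℍ → ℂ) ∣[(2 : ℤ)] δ) atImInfty
      (𝓝 ((if (ℓ : ℤ) ∣ x ∧ (ℓ : ℤ) ∣ y then (ℓ : ℂ) else (ℓ : ℂ)⁻¹) * c)) :=
  H81.tendsto_slash_det hM f hℓ hℓM hc δ x y z w hδ hdet hgcd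

/-- **The sum of the `ℓ + 1` factors** `ℓ` or `1/ℓ` for the products of the matrices `(1 j; 0 ℓ)` and
`(ℓ 0; 0 1)` of `T_ℓ` with `γ`, whose first column is `(α, c)`: exactly one factor is `ℓ`, the others are
`1/ℓ`, and the sum is `ℓ + 1`. (`H81Br1`.) -/
theorem sum_of_weights {ℓ : ℕ} (hℓ : ℓ.Prime) (α c : ℤ) (hcop : IsCoprime α c) :
    (∑ j ∈ Finset.range ℓ, if (ℓ : ℤ) ∣ α + j * c ∧ (ℓ : ℤ) ∣ ℓ * c then (ℓ : ℂ) else (ℓ : ℂ)⁻¹) +
      (if (ℓ : ℤ) ∣ ℓ * α ∧ (ℓ : ℤ) ∣ c then (ℓ : ℂ) else (ℓ : ℂ)⁻¹) = ℓ + 1 :=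
  H81.sum_weights hℓ α c hcop

/-- **`T_ℓ` acts on the constant terms at all cusps by `1 + ℓ`** (weight 2, squarefree level prime to
`ℓ`). (`H81Br1`.) -/
theorem hecke_on_constant_terms {M : ℕ} (hM : Squarefree M) (f : ModularForm (Gamma0 M) 2) {ℓ : ℕ}
    (hℓ : ℓ.Prime) (hℓM : ¬ ℓ ∣ M) {γ : SL(2, ℤ)} {c : ℂ}
    (hc : Tendsto ((f : ℍ → ℂ) ∣[(2 : ℤ)] γ) atImInfty (𝓝 c)) :
    Tendsto ((heckeT 2 ℓ f) ∣[(2 : ℤ)] γ) atImInfty (𝓝 ((ℓ + 1) * c)) :=
  H81.tendsto_heckeT hM f hℓ hℓM hc

/-- **`T_r - (1 + r)` makes forms cuspidal.** (`H81Br3`; with `q`-expansions: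
`GuideResidualTheta.hecke_makes_cuspidal`.) -/
theorem cuspidal_of_hecke_sub {M : ℕ} [NeZero M] (hM : Squarefree M) (f : ModularForm (Gamma0 M) 2)
    {r : ℕ} (hr : r.Prime) (hrM : ¬ r ∣ M) :
    ∃ g : CuspForm (Gamma0 M) 2, (g : ℍ → ℂ) = heckeT 2 r f - ((r : ℂ) + 1) • (f : ℍ → ℂ) :=
  H81.exists_cuspForm_heckeT_sub hM f hr hrM

/-! ## 2. Hecke operators on sequences

`opF M hℓ` is the operator `T_ℓ` (`ℓ ∤ M`) or `U_ℓ` (`ℓ ∣ M`) on the cusp forms of weight 2 for `Γ₀(M)`,
`opS M B ℓ` the formal operator with the same name on sequences with values in a ring `B`; `PS S` are the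
primes outside `S`. To a noncommutative polynomial `P ∈ ℤ⟨PS S⟩` belong the operators `actF M S P` on
forms and `actS M S B P` on sequences. `qSeq f` is the sequence of coefficients of `f`. -/

/-- **The formal operators**: `(T_ℓ c)(n) = c(nℓ) + ℓ c(n/ℓ)` (the last term only if `ℓ ∣ n`), and
`(U_ℓ c)(n) = c(nℓ)`; operators for different primes commute. (`H61TA`.) -/
theorem formal_operators (M : ℕ) (B : Type*) [CommRing B] :
    (∀ (ℓ : ℕ) (c : ℕ → B) (n : ℕ), opS M B ℓ c n =
      c (n * ℓ) + if ℓ ∣ M then 0 else if ℓ ∣ n then (ℓ : B) * c (n / ℓ) else 0) ∧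
    ∀ ℓ ℓ' : ℕ, ℓ.Prime → ℓ'.Prime → ℓ ≠ ℓ' → ∀ c : ℕ → B,
      opS M B ℓ (opS M B ℓ' c) = opS M B ℓ' (opS M B ℓ c) :=
  ⟨opS_apply M B, fun _ _ h h' hne c => opS_comm M B h h' hne c⟩

/-- **Polynomials in Hecke operators act on `q`-expansions by the formal operators**, and these
polynomials give exactly the Hecke algebra `heckeAlgebra M 2 S` (generated over `ℤ` by the operators for
the primes outside `S`). (`H61TA`.) -/
theorem polynomials_in_operators (M : ℕ) [NeZero M] (S : Set ℕ) :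
    (∀ (ℓ : PS S), actF M S (FreeAlgebra.ι ℤ ℓ) = opF M ℓ.2.1) ∧
    (∀ (P : FreeAlgebra ℤ (PS S)) (f : CuspForm (Gamma0 M) 2),
      qSeq (actF M S P f) = actS M S ℂ P (qSeq f)) ∧
    (actF M S).range = heckeAlgebra M 2 S :=
  ⟨actF_ι M S, qSeq_actF M S, range_actF M S⟩

/-- **Admissible sequences** for a space `X` of cusp forms: all relations between Hecke operators which
hold on `X` hold for the sequence. (`H61TA`.) -/
theorem mem_Adm_iff {M : ℕ} [NeZero M] {S : Set ℕ} {B : Type*} [CommRing B]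
    {X : Submodule ℂ (CuspForm (Gamma0 M) 2)} {c : ℕ → B} :
    c ∈ Adm M S B X ↔
      ∀ P : FreeAlgebra ℤ (PS S), (∀ f ∈ X, actF M S P f = 0) → actS M S B P c = 0 :=
  Iff.rfl

/-- **Integral `q`-expansions of forms in `X` are admissible**, in every ring `B`. (`H61TA`.) -/
theorem admissible_of_integral {M : ℕ} [NeZero M] {S : Set ℕ} {B : Type*} [CommRing B]
    {X : Submodule ℂ (CuspForm (Gamma0 M) 2)} {f : CuspForm (Gamma0 M) 2} (hf : f ∈ X) {g : ℕ → ℤ}
    (hg : ∀ n, qCoeff f n = g n) : (fun n => (g n : B)) ∈ Adm M S B X :=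
  intCast_mem_Adm hf hg

/-- **Stability**: the admissible sequences form a `B`-module, stable under the operators for the primes
outside `S` if `X` is Hecke stable, and under the operators for the primes in `S`. (`H61TA`.) -/
theorem admissible_stable {M : ℕ} [NeZero M] {S : Set ℕ} {B : Type*} [CommRing B]
    {X : Submodule ℂ (CuspForm (Gamma0 M) 2)} :
    ((∀ (P : FreeAlgebra ℤ (PS S)), ∀ f ∈ X, actF M S P f ∈ X) →
      ∀ (ℓ : ℕ), ℓ.Prime → ℓ ∉ S → ∀ c ∈ Adm M S B X, opS M B ℓ c ∈ Adm M S B X) ∧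
    ∀ v : ℕ, v.Prime → v ∈ S → ∀ c ∈ Adm M S B X, opS M B v c ∈ Adm M S B X :=
  ⟨fun hX _ h hS _ hc => opS_mem_Adm hX h hS hc, fun _ h hS _ hc => opS_mem_Adm' h hS hc⟩

/-- **Eigensequences**: if `F` is an eigensequence with eigenvalues `e(ℓ)`, then every polynomial `P` in
the operators acts on `F` by its value `P(e)`, which is written `evP S e P`. (`H61TA`.) -/
theorem polynomial_on_eigensequence {M : ℕ} [NeZero M] {S : Set ℕ} {B : Type*} [CommRing B]
    {F : ℕ → B} {e : ℕ → B} (hF : ∀ ℓ : ℕ, ℓ.Prime → ℓ ∉ S → opS M B ℓ F = e ℓ • F)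
    (P : FreeAlgebra ℤ (PS S)) : actS M S B P F = evP S e P • F :=
  actS_eigen hF P

/-- **From an eigensequence to a homomorphism of the Hecke algebra.** Let `F` be an admissible
eigensequence with `F(1)` a unit. Then the eigenvalues define a ring homomorphism on the Hecke algebra,
which kills the operators that vanish on `X`. Proof: a relation `P = 0` on `X` gives `P(e) F = 0`, and
the value at `1` gives `P(e) = 0`. (`H61TA`.) -/
theorem exists_ringHom {M : ℕ} [NeZero M] {S : Set ℕ} {B : Type*} [CommRing B]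
    {X : Submodule ℂ (CuspForm (Gamma0 M) 2)} {F : ℕ → B} (hFadm : F ∈ Adm M S B X) {e : ℕ → B}
    (hF : ∀ ℓ : ℕ, ℓ.Prime → ℓ ∉ S → opS M B ℓ F = e ℓ • F) (h1 : IsUnit (F 1)) :
    ∃ Ψ : heckeAlgebra M 2 S →+* B,
      (∀ (ℓ : ℕ) (hℓ : ℓ.Prime) (hℓM : ¬ ℓ ∣ M) (hℓS : ℓ ∉ S),
        Ψ (heckeAlgebra.T hℓ hℓM hℓS) = e ℓ) ∧
      (∀ (q : ℕ) (hq : q.Prime) (hqM : q ∣ M) (hqS : q ∉ S),
        Ψ (heckeAlgebra.U hq hqM hqS) = e q) ∧
      ∀ t : heckeAlgebra M 2 S,
        (∀ f ∈ X, (t : Module.End ℂ (CuspForm (Gamma0 M) 2)) f = 0) → Ψ t = 0 :=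
  H61.TA.exists_ringHom hFadm hF h1

/-! ## 3. The space `X2` and its Hecke ring `TT` -/

/-- **The space `X2 M V`**: the cusp forms of weight 2 for `Γ₀(M)` with `U_v² f = f` for all primes `v ∈ V`
dividing `M`; in terms of coefficients `a(n v²) = a(n)`. It is stable under the Hecke algebra.
(`H61TB`.) -/
theorem mem_X2_iff {M : ℕ} [NeZero M] {V : Set ℕ} {f : CuspForm (Gamma0 M) 2} :
    (f ∈ X2 M V ↔ ∀ v : ℕ, v.Prime → v ∈ V → ∀ hvM : v ∣ M,
      heckeULin 2 hvM (heckeULin 2 hvM f) = f) ∧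
    (f ∈ X2 M V ↔ ∀ v : ℕ, v.Prime → v ∈ V → v ∣ M → ∀ n, qCoeff f (n * v * v) = qCoeff f n) ∧
    (f ∈ X2 M V → ∀ (S : Set ℕ) (t : heckeAlgebra M 2 S),
      (t : Module.End ℂ (CuspForm (Gamma0 M) 2)) f ∈ X2 M V) :=
  ⟨Iff.rfl, mem_X2_iff_qCoeff, fun hf _ t => heckeAlgebra_mem_X2 t f hf⟩

/-- **The ring `TT M S V`**: the image of the Hecke algebra in the endomorphisms of `X2 M V`, i.e. its
quotient by the operators which vanish on `X2`. It is finite and free over `ℤ`, and `U_q² = 1` for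
`q ∈ V`. (`H61TB`.) -/
theorem ring_TT {M : ℕ} [NeZero M] {S V : Set ℕ} :
    Function.Surjective (toTT M S V) ∧
      (∀ t : heckeAlgebra M 2 S, toTT M S V t = 0 ↔
        ∀ f ∈ X2 M V, (t : Module.End ℂ (CuspForm (Gamma0 M) 2)) f = 0) ∧
      Module.Finite ℤ (TT M S V) ∧ Module.Free ℤ (TT M S V) ∧
      ∀ (q : ℕ) (hq : q.Prime) (hqM : q ∣ M) (hqS : q ∉ S), q ∈ V →
        toTT M S V (heckeAlgebra.U hq hqM hqS) ^ 2 = 1 :=
  ⟨toTT_surjective, fun _ => toTT_eq_zero_iff, inferInstance, inferInstance,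
    fun _ hq hqM hqS hqV => toTT_U_sq hq hqM hqS hqV⟩

/-- **Generators**: `TT` is generated by the `T_ℓ` (`ℓ ∤ M`) and the `U_q` (`q ∣ M`), for primes outside
`S`. (`H81TSide`.) -/
theorem generators_TT {M : ℕ} [NeZero M] {S V : Set ℕ} :
    Algebra.adjoin ℤ ({x : TT M S V | ∃ (ℓ : ℕ) (hℓ : ℓ.Prime) (hℓM : ¬ ℓ ∣ M) (hℓS : ℓ ∉ S),
      x = toTT M S V (heckeAlgebra.T hℓ hℓM hℓS)} ∪
      {x : TT M S V | ∃ (q : ℕ) (hq : q.Prime) (hqM : q ∣ M) (hqS : q ∉ S),
      x = toTT M S V (heckeAlgebra.U hq hqM hqS)}) = ⊤ :=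
  H81.adjoin_TT

/-- **Projection to eigensequences of the `U_q`.** `proj M u l` is the product of the operators
`1 + u_q U_q` over the list `l` of primes. If `U_q² c = c` and `u_q² = 1`, then `proj c` is an
eigensequence of `U_q` with eigenvalue `u_q` for `q` in the list; if `c` is an eigensequence of some
operator, then `proj c` too, with the same eigenvalue; and `proj c` is admissible for `X2` if `c` is.
(`H61TB`.) -/
theorem projection {M : ℕ} [NeZero M] {B : Type*} [CommRing B] (u : ℕ → B) (l : List ℕ)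
    (hl : ∀ q ∈ l, q.Prime) {c : ℕ → B} :
    (∀ q ∈ l, u q * u q = 1 → opS M B q (opS M B q c) = c →
      opS M B q (proj M u l c) = u q • proj M u l c) ∧
    (∀ (r : ℕ) (e : B), r.Prime → opS M B r c = e • c →
      opS M B r (proj M u l c) = e • proj M u l c) ∧
    ∀ S V : Set ℕ, c ∈ Adm M S B (X2 M V) → proj M u l c ∈ Adm M S B (X2 M V) :=
  ⟨fun _ hq hu hc => opS_proj u l hl hq hu hc, fun _ _ hr hc => opS_proj_of_eigen u l hl hr hc,
    fun _ _ hc => proj_mem_Adm u l hl hc⟩

/-- The coefficients of the projection: a sum over the sublists `d` of `l`, i.e. over the divisors of the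
product of the primes. For `n = 1` this shows that `F(1)` is a unit in the application. (`H61TB`.) -/
theorem coefficients_of_projection {M : ℕ} [NeZero M] {B : Type*} [CommRing B] (u : ℕ → B) (l : List ℕ)
    (hlM : ∀ q ∈ l, q ∣ M) (c : ℕ → B) (n : ℕ) :
    proj M u l c n = (l.sublists.map fun d => (d.map u).prod * c (n * d.prod)).sum :=
  proj_apply u l hlM c n

/-! ## 4. Semisimplicity and points -/

/-- **`TT` acts faithfully on `X2`.** (`H61TC`.) -/
theorem action_on_X2 {M : ℕ} [NeZero M] {S V : Set ℕ} :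
    (∀ (t : heckeAlgebra M 2 S) (f : X2 M V),
      ((actTT M S V (toTT M S V t) f : X2 M V) : CuspForm (Gamma0 M) 2) =
        (t : Module.End ℂ (CuspForm (Gamma0 M) 2)) f) ∧
      Function.Injective (actTT M S V) :=
  ⟨coe_actTT, actTT_injective⟩

/-- **Every element of the Hecke algebra acts semisimply on `X2`**, if `U_q² = 1` on `X2` for all primes
`q ∣ M` outside `S`: the `T_ℓ` are semisimple by the Petersson product, the `U_q` because `x² - 1` has
distinct roots, and sums and products of commuting semisimple operators are semisimple. (`H61TD`.) -/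
theorem semisimple_action {M : ℕ} [NeZero M] {S V : Set ℕ}
    (hSV : ∀ q : ℕ, q.Prime → q ∣ M → q ∉ S → q ∈ V) (t : heckeAlgebra M 2 S) :
    (actTT M S V (toTT M S V t)).IsSemisimple :=
  isSemisimple_resX2 hSV t

/-- **`TT` is reduced** under the same hypothesis. (`H61TD`.) -/
theorem reduced {M : ℕ} [NeZero M] {S V : Set ℕ}
    (hSV : ∀ q : ℕ, q.Prime → q ∣ M → q ∉ S → q ∈ V) : IsReduced (TT M S V) :=
  isReduced_TT hSV

/-- **Minimal primes and eigenvectors.** Let a commutative ring `A` act faithfully on a finite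
dimensional complex space through a commutative algebra `B` of operators. For every minimal prime `𝔭` of
`A` there is a common eigenvector of `B` whose character has the kernel `𝔭` on `A`. Proof: `𝔭` is the
contraction of a prime of the Artinian ring `B`, and minimal primes of the annihilator (zero) of a
module are associated primes. (`H81Pt`.) -/
theorem eigenvector_of_minimal_prime {V : Type*} [AddCommGroup V] [Module ℂ V]
    [FiniteDimensional ℂ V] {A : Type*} [CommRing A] (B : Subalgebra ℂ (Module.End ℂ V))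
    (hB : ∀ x ∈ B, ∀ y ∈ B, x * y = y * x) (i : A →+* Module.End ℂ V)
    (hi : Function.Injective i) (hiB : ∀ a, i a ∈ B) (p : Ideal A) (hp : p ∈ minimalPrimes A) :
    ∃ (v : V) (χ : B →+* ℂ), v ≠ 0 ∧ (∀ b : B, (b : Module.End ℂ V) v = χ b • v) ∧
      ∀ a : A, a ∈ p ↔ χ ⟨i a, hiB a⟩ = 0 :=
  H81.exists_eigenvector_of_minimalPrime B hB i hi hiB p hp

/-- **Comparison of two points**: let `A` be integral over `ℤ`, `φ : A → F` a point in an algebraically
closed field and `χ : A → ℂ` a point whose kernel is contained in that of `φ`. Then there is a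
homomorphism `ι` from the ring of algebraic integers to `F` with `ι(χ(a)) = φ(a)`. (`H81Pt`, from the
extension of homomorphisms along integral extensions, `H82Galois`.) -/
theorem comparison_of_points {A F : Type*} [CommRing A] [Field F] [IsAlgClosed F]
    (hA : ∀ a : A, IsIntegral ℤ a) (φ : A →+* F) (χ : A →+* ℂ) (hker : ∀ a, χ a = 0 → φ a = 0) :
    ∃ ι : integralClosure ℤ ℂ →+* F,
      ∀ a, ∃ z : integralClosure ℤ ℂ, (z : ℂ) = χ a ∧ ι z = φ a :=
  H81.exists_integralClosure_lift hA φ χ hker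

/-- **The points of `TT` are eigenforms**: for every homomorphism `φ` from `TT` to an algebraically
closed field `F` there are a normalised eigenform `f ∈ X2` and a homomorphism `ι` from the algebraic
integers to `F` such that `φ(T_ℓ) = ι(a_ℓ)`, `φ(U_q) = ι(a_q)`, and `a_v = ±1` for `v ∈ V`, `v ∣ M`.
(`H81TSide`; the general statement, for any Hecke stable space, is in `GuideResidualTheta`.) -/
theorem points_are_eigenforms {M : ℕ} [NeZero M] {S V : Set ℕ} {F : Type*} [Field F]
    [IsAlgClosed F] (φ : TT M S V →+* F) :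
    ∃ f ∈ X2 M V, f.IsNormalizedEigenform ∧ ∃ ι : integralClosure ℤ ℂ →+* F,
      (∀ (ℓ : ℕ) (hℓ : ℓ.Prime) (hℓM : ¬ ℓ ∣ M) (hℓS : ℓ ∉ S), ∃ a : integralClosure ℤ ℂ,
        (a : ℂ) = qCoeff f ℓ ∧ ι a = φ (toTT M S V (heckeAlgebra.T hℓ hℓM hℓS))) ∧
      (∀ (q : ℕ) (hq : q.Prime) (hqM : q ∣ M) (hqS : q ∉ S), ∃ a : integralClosure ℤ ℂ,
        (a : ℂ) = qCoeff f q ∧ ι a = φ (toTT M S V (heckeAlgebra.U hq hqM hqS))) ∧
      ∀ v : ℕ, v.Prime → v ∈ V → v ∣ M → qCoeff f v = 1 ∨ qCoeff f v = -1 :=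
  H81.exists_eigenform_TT φ

/-! ## 5. The local factor

`C2' K` is the quotient `C₂` of the class group of `K` by the classes of odd order (`oddClasses K`),
`C2Q K Q` its product with a group `μ₂` for every `q ∈ Q`, `deltaQ K Q q` the generator of the factor of `q`.
The prime ideals of norm `ℓ` are `primesOver K ℓ` (two if `ℓ` splits, none if `ℓ` is inert), `cls K P` is
the class of `P`, and `CoefRing O` means: `O` is complete of characteristic zero, `2` is a uniformiser,
and the residue field has four elements. -/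

/-- **Units of the group algebra of an abelian 2-group in characteristic 2**: `x` is a unit if and only
if its augmentation is not zero, since `x^(2^n)` is the constant `aug(x)^(2^n)`. The group `C2Q K Q` is
killed by a power of 2. (`H61TE`, `H79TA3`, `H81TS`.) -/
theorem units_of_group_algebra {k : Type*} [Field k] [CharP k 2] :
    (∀ {G : Type*} [CommGroup G] {n : ℕ}, (∀ g : G, g ^ 2 ^ n = 1) → ∀ x : MonoidAlgebra k G,
      (IsUnit x ↔ MonoidAlgebra.lift k k G 1 x ≠ 0)) ∧
    ∀ (K : Type) [Field K] [NumberField K] (Q : Finset ℕ),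
      ∃ n : ℕ, ∀ g : C2Q K Q, g ^ 2 ^ n = 1 :=
  ⟨fun hn x => H61.TE.isUnit_iff hn x, fun K _ _ Q => H61.TE.exists_pow_C2Q K Q⟩

/-- **The local factor.** `O` is a complete discrete valuation ring of characteristic zero, `A` a reduced
ring, finite and free over `ℤ`, `B` an algebra over the residue field `k` with an augmentation such that
the elements of augmentation `≠ 0` are units, and `Ψ : A → B` a homomorphism. Then there is a local ring
`T`, finite, free and reduced over `O`, generated over `O` by the image of `A`, such that `Ψ` is the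
composite of `A → T` and a homomorphism `π : T → B` compatible with `O → k`. Proof: `T` is the
localisation of `O ⊗ A` at the kernel of the augmentation of `Ψ`, a direct factor; for `T` reduced see
`H70Reduced`. (`H81TS`.) -/
theorem exists_local_factor {O : Type} [CommRing O] [IsDomain O] [IsDiscreteValuationRing O]
    [CharZero O] [IsAdicComplete (maximalIdeal O) O]
    {A : Type} [CommRing A] [Module.Finite ℤ A] [Module.Free ℤ A] [IsReduced A]
    {B : Type} [CommRing B] [Algebra (ResidueField O) B]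
    (aug : B →ₐ[ResidueField O] ResidueField O) (haug : ∀ b, aug b ≠ 0 → IsUnit b)
    (Ψ : A →+* B) :
    ∃ (T : Type) (_ : CommRing T) (_ : Algebra O T), Module.Finite O T ∧ Module.Free O T ∧
      IsLocalRing T ∧ IsReduced T ∧ ∃ (j : A →+* T) (π : T →+* B),
        Algebra.adjoin O (Set.range j) = ⊤ ∧
        (∀ a : O, π (algebraMap O T a) = algebraMap _ B (residue O a)) ∧ ∀ x, π (j x) = Ψ x :=
  H81.exists_local_factor aug haug Ψ

/-- **The theta side**: a homomorphism `Ψ` as in `GuideResidual.ta_theta_hom`, with values in the group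
algebra of `C2Q K Q`, gives the data `TSide' O K ψ N Q L` (their list is written out in
`GuideResidual.ta_hecke_ring`): a local ring `T`, finite, free and reduced over `O`, generated by the
images of the `T_ℓ` and of the `U_q`, `q ∈ Q`, with `U_q² = 1`, the homomorphism `π` to the group algebra
(in the application it is surjective, see `GuideDihedral.theta_surjective`), and the points of `T` in
characteristic zero, which are eigenforms. (`H81TSide`, `H81TSide2`.) -/
theorem theta_side {O : Type} [CommRing O] [IsDomain O]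
    [IsDiscreteValuationRing O] [CoefRing O] (K : Type) [Field K] [NumberField K]
    (ψ : ClassGroup (𝓞 K) →* (ResidueField O)ˣ) (N : ℕ) (hN : 2 ∣ N) (Q : Finset ℕ)
    (hQ : ∀ q ∈ Q, q.Prime ∧ ¬ q ∣ N) (L : ℕ) [NeZero L] (hL : L = N * ∏ q ∈ Q, q)
    (V : Set ℕ) (hV : ∀ v, v ∈ V ↔ v = 2 ∨ v ∈ Q)
    (Ψ : heckeAlgebra L 2 {v : ℕ | v ∣ N} →+* MonoidAlgebra (ResidueField O) (C2Q K Q))
    (hΨ : ∀ t : heckeAlgebra L 2 {v : ℕ | v ∣ N},
      (∀ f ∈ X2 L V, (t : Module.End ℂ (CuspForm (Gamma0 L) 2)) f = 0) → Ψ t = 0)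
    (hT : ∀ (ℓ : ℕ) (hℓ : ℓ.Prime) (hℓL : ¬ ℓ ∣ L) (hS : ℓ ∉ {v : ℕ | v ∣ N}),
      Ψ (heckeAlgebra.T hℓ hℓL hS) = ∑ P ∈ primesOver K ℓ,
        MonoidAlgebra.single ((QuotientGroup.mk (cls K P) : C2' K),
          (1 : {q // q ∈ Q} → Multiplicative (ZMod 2)))
          ((ψ (cls K P) : (ResidueField O)ˣ) : ResidueField O))
    (hU : ∀ (q : {q // q ∈ Q}) (hq : (q : ℕ).Prime) (hqL : (q : ℕ) ∣ L)
      (hS : (q : ℕ) ∉ {v : ℕ | v ∣ N}), Ψ (heckeAlgebra.U hq hqL hS) =
        MonoidAlgebra.single (deltaQ K Q q) 1) :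
    Nonempty (TSide' O K ψ N Q L) :=
  H81.nonempty_TSide'_of_heckeAlgebra K ψ N hN Q hQ L hL V hV Ψ hΨ hT hU

end Fermat.Agent.Guide.TSide
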