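import Fermat.Agent.H6TWKill

/-!
# Guide to the proof: the choice of the Taylor-Wiles primes, step by step

This file is a machine-checked table of contents. Every theorem below is a citation of a theorem of
the library, with its statement written out. Only `Guide` imports this file. It is a companion of
`GuideTaylorWiles`, section 2 (and a continuation of `GuideTWSteps`, which treats the vanishing of
`H^1(H, ad⁰(1))` for the image `H` of the representation).

**What is proved.** `ρ : G_ℚ → GL₂(k)` is a continuous representation over a finite field of odd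
characteristic `p` with cyclotomic determinant and eigenvalues in `k`, such that no subgroup of index
`1` or `2` has a common eigenvector over an algebraically closed extension `K` of `k`
(`H6.StrongIrr K ρ`). Let `ψ_1, ..., ψ_s` be cocycles of finite level with values in `ad⁰(1)`, linearly
independent modulo coboundaries. For all `n` and `d ≥ s` there are, outside a given finite set, `d`
different Taylor-Wiles primes of level `p^(n+1)` such that a combination of the `ψ_j` which is trivial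
at Frobenius for all these primes is zero.

**The proof.**
 1. Irreducibility. A non-scalar matrix cannot commute up to sign with the image (3): otherwise its
    centraliser, of index at most two, has a common eigenvector. Hence `ad⁰(1)` contains no stable
    line (5), no stable plane (6) and no invariants (7).
 2. Local classes. For `g ∈ SL₂(k)` non-scalar, the image of `g - 1` on `ad⁰(1)` is the kernel of one
    functional `X ↦ tr(X (g - tr g / 2))` (11). This makes "trivial at `g`" a linear condition, for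
    which passing to powers and conjugates of `g` is harmless (12-14).
 3. The group `N = muFix(p^(n+1))` of the automorphisms which fix the `p^(n+1)`-st roots of unity
    contains all commutators, and `det ρ = 1` on `N` (15-18). A class which is trivial at all `σ ∈ N`
    with distinct eigenvalues is zero (`GuideTaylorWiles.cobound_of_locally_trivial`).
 4. One prime (20). By Frobenius' density theorem (`GuideTaylorWiles.exists_prime_with_frobenius`)
    `σ ∈ N` is, on the level field, a power of a Frobenius `φ` and conversely; this suffices: `φ` has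
    distinct eigenvalues because a power has, fixes the roots of unity because it is a power of
    `σ`, and the functional of `φ` detects the classes which are nontrivial at `σ`.
 5. Induction on the dimension of the space of combinations (21, 22); the version for a finite set of
    cocycles (25) is the one used for the dual Selmer group.

**Where.** NOTES.md, Appendix A.10: [98] NOTES-S56-TWPRIMES. Files `H6TWIrr`, `H6TWIrr2`, `H6TWDist`,
`H6TWLoc`, `H6TWCyc`, `H6TWFrob`, `H6TWSelect`, `H6TWResidual`, `H6TWKill`. Used in S01, S03, S04, S06,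
S38, S43, S45, S46, S50, S56, S59, S60. Author: helper 6.
-/

set_option autoImplicit false

open scoped Pointwise
open Matrix OnePoint Polynomial

namespace Fermat.Agent.Guide.TWChoice

/-- The absolute Galois group of the rational numbers. -/
local notation "GQ" => (AlgebraicClosure ℚ ≃ₐ[ℚ] AlgebraicClosure ℚ)

/-! ## 1. Irreducibility of `ad⁰(1)` -/

/-- **1. Eigenlines** (`H6TWIrr`). A non-scalar `2 × 2` matrix over a field has one-dimensional
eigenspaces. So every matrix which commutes with it preserves its eigenlines. -/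
theorem eigenspace_one_dimensional {K : Type*} [Field K] {A : Matrix (Fin 2) (Fin 2) K}
    (hA : ∀ c : K, A ≠ c • 1) {μ : K} {v w : Fin 2 → K} (hv : v ≠ 0)
    (hAv : A.mulVec v = μ • v) (hAw : A.mulVec w = μ • w) : ∃ c : K, w = c • v :=
  H6.eigen_unique hA hv hAv hAw

/-- **2. From `k` to `K`** (`H6TWIrr`). Under `StrongIrr K ρ` no subgroup of index `1` or `2` has a
common eigenvector with entries in `k`. -/
theorem no_common_eigenvector {k K Γ : Type*} [Field k] [Field K] [Algebra k K] [Group Γ]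
    {ρ : Γ →* GL (Fin 2) k} (h : H6.StrongIrr K ρ) {G2 : Subgroup Γ}
    (hG2 : G2.index = 1 ∨ G2.index = 2) {v : Fin 2 → k} (hv : v ≠ 0) :
    ¬ ∀ σ ∈ G2, ∃ c : k, (ρ σ).val.mulVec v = c • v :=
  fun hc => h.no_eigen_k hG2 hv hc

/-- **3. No commutation up to sign** (`H6TWIrr`). Under `StrongIrr K ρ` there is no non-scalar matrix `A`
over `k` with `ρ(σ) A = ± A ρ(σ)` for all `σ`: the `σ` with sign `+` form a subgroup of index at most
two, which by 1 preserves the line of an eigenvector of `A` over `K`. -/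
theorem no_commutation_up_to_sign {k K Γ : Type*} [Field k] [Field K] [Algebra k K]
    [IsAlgClosed K] [Group Γ] {ρ : Γ →* GL (Fin 2) k} (h : H6.StrongIrr K ρ)
    {A : Matrix (Fin 2) (Fin 2) k} (hA : ∀ c : k, A ≠ c • 1) :
    ¬ ∀ σ, (ρ σ).val * A = A * (ρ σ).val ∨ (ρ σ).val * A = -(A * (ρ σ).val) :=
  fun hs => h.no_sign hA hs

/-- **4. No fixed point on the projective line** (`H6TWIrr`): 2 for the whole group. -/
theorem no_fixed_point {k K Γ : Type*} [Field k] [Field K] [Algebra k K] [Group Γ]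
    [DecidableEq k] {ρ : Γ →* GL (Fin 2) k} (h : H6.StrongIrr K ρ) (x : OnePoint k) :
    ∃ σ, ρ σ • x ≠ x :=
  h.no_line x

/-- **5. No stable line in `ad⁰(1)`** (`H6TWIrr2`). Let `X ≠ 0` have trace zero and
`det ρ(σ) • ρ(σ) X ρ(σ)⁻¹ = c(σ) X` for all `σ`. If `det X = 0`, the kernel of `X` is a stable line,
contradiction to 2. If `det X ≠ 0`, determinants give `c(σ)² = det ρ(σ)²`, so `ρ(σ) X = ± X ρ(σ)`,
contradiction to 3. -/
theorem no_stable_line {k K Γ : Type*} [Field k] [Field K] [Algebra k K] [IsAlgClosed K]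
    [Group Γ] {ρ : Γ →* GL (Fin 2) k} (h : H6.StrongIrr K ρ) (h2 : (2 : k) ≠ 0)
    {X : Matrix (Fin 2) (Fin 2) k} (hX : X.trace = 0) (hX0 : X ≠ 0) :
    ¬ ∀ σ, ∃ c : k, (ρ σ).val.det • ((ρ σ).val * X * ((ρ σ)⁻¹).val) = c • X :=
  fun hc => h.no_line_sl h2 (H6.mem_slSub.mpr hX) hX0 hc

/-- **6. From planes to lines** (`H6TWIrr2`). The commutator of two linearly independent trace-zero
matrices is nonzero and of trace zero. If `A`, `B` is a basis of a stable plane, the commutator
`AB - BA` spans a stable line; so by 5 there is no stable plane either. -/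
theorem commutator_of_basis {k : Type*} [Field k] (h2 : (2 : k) ≠ 0)
    {A B : Matrix (Fin 2) (Fin 2) k} (hA : A.trace = 0) (hB : B.trace = 0)
    (hlin : LinearIndependent k ![A, B]) : A * B - B * A ≠ 0 ∧ (A * B - B * A).trace = 0 :=
  ⟨H6.comm_ne_zero h2 (H6.mem_slSub.mpr hA) (H6.mem_slSub.mpr hB) hlin,
    H6.mem_slSub.mp (H6.comm_mem_sl A B)⟩

/-- **7. No invariants** (`H6TWIrr2`): an invariant `X ≠ 0` would span a stable line. -/
theorem no_invariants {k K Γ : Type*} [Field k] [Field K] [Algebra k K] [IsAlgClosed K]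
    [Group Γ] {ρ : Γ →* GL (Fin 2) k} (h : H6.StrongIrr K ρ) (h2 : (2 : k) ≠ 0)
    {X : Matrix (Fin 2) (Fin 2) k} (hX : X.trace = 0)
    (hinv : ∀ σ, (ρ σ).val.det • ((ρ σ).val * X * ((ρ σ)⁻¹).val) = X) : X = 0 :=
  h.inv_sl h2 (H6.mem_slSub.mpr hX) hinv

/-! ## 2. One element: eigenvalues and local classes -/

/-- **8. Double eigenvalue** (`H6TWDist`). A non-scalar `g ∈ GL₂(k)`, `k` finite, with a double
eigenvalue `α ∈ k` has exactly one fixed point on the projective line, and an element with exactly one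
fixed point has a scalar `#k`-th power. (In `exists_distinct_eigenvalues` of `GuideTaylorWiles` this
shows that the image of `N` in the permutations of the projective line is a `p`-group.) -/
theorem double_eigenvalue {k : Type*} [Field k] [DecidableEq k] [Fintype k] {g : GL (Fin 2) k} :
    ((¬ (g 0 1 = 0 ∧ g 1 0 = 0 ∧ g 0 0 = g 1 1)) → ∀ α : k, g.val.trace = α + α →
      g.val.det = α * α → ∃ x : OnePoint k, ∀ y : OnePoint k, g • y = y ↔ y = x) ∧
    ∀ x : OnePoint k, (∀ y : OnePoint k, g • y = y ↔ y = x) →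
      (g ^ Fintype.card k) 0 1 = 0 ∧ (g ^ Fintype.card k) 1 0 = 0 ∧
        (g ^ Fintype.card k) 0 0 = (g ^ Fintype.card k) 1 1 :=
  ⟨fun hg _ h1 h2 => H6.unique_fix_of_eq hg h1 h2, fun _ hx => H6.pow_card_scal hx⟩

/-- **9. Powers** (`H6TWLoc`). The powers of a matrix with a double eigenvalue `α` have the double
eigenvalue `α^j`. So, if `g` has its eigenvalues in `k` and some power of `g` has distinct eigenvalues,
then `g` has distinct eigenvalues. -/
theorem distinct_of_power {k : Type*} [Field k] {g : GL (Fin 2) k}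
    (hsplit : ∃ α β : k, g.val.trace = α + β ∧ g.val.det = α * β) {j : ℕ}
    (hpow : ∃ α β : k, α ≠ β ∧ (g ^ j).val.trace = α + β ∧ (g ^ j).val.det = α * β) :
    ∃ α β : k, α ≠ β ∧ g.val.trace = α + β ∧ g.val.det = α * β :=
  H6.distinct_of_pow hsplit hpow

/-- **10. The image of `g - 1` is proper** (`H6TWDist`). Let `det g = 1`, `g` not scalar. Then
`(g - 1) ad⁰(1) ≠ ad⁰(1)`, since `g - 1` kills the trace-zero matrix `g - tr g / 2 ≠ 0`. -/
theorem image_proper {k : Type*} [Field k] (g : GL (Fin 2) k) (hd : g.val.det = 1)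
    (hns : ¬ (g 0 1 = 0 ∧ g 1 0 = 0 ∧ g 0 0 = g 1 1)) (h2 : (2 : k) ≠ 0) :
    ∃ Y : Matrix (Fin 2) (Fin 2) k, Y.trace = 0 ∧
      ∀ X : Matrix (Fin 2) (Fin 2) k, X.trace = 0 → H6.ad1 g X - X ≠ Y :=
  (H6.ad1_sub_one_ne_top g hd hns h2).imp fun _ hY =>
    ⟨H6.mem_slSub.mp hY.1, fun X hX => hY.2 X (H6.mem_slSub.mpr hX)⟩

/-- **11. The functional of `g`** (`H6TWLoc`). Let `det g = 1`, `g` not scalar and
`lam g X = tr(X (g - tr g / 2))`. For trace-zero matrices `Y`: `lam g Y = 0` if and only if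
`Y = g X - X` for some `X` of trace zero. Proof: `lam g` is invariant under `g`, nonzero on `ad⁰(1)`,
and the kernel of `g - 1` is the line of `g - tr g / 2` (by 6, a matrix of trace zero commuting with
it is a multiple of it); so image of `g - 1` and kernel of `lam g` are both planes. -/
theorem functional {k : Type*} [Field k] (h2 : (2 : k) ≠ 0) {g : GL (Fin 2) k}
    (hd : g.val.det = 1) (hns : ¬ (g 0 1 = 0 ∧ g 1 0 = 0 ∧ g 0 0 = g 1 1)) :
    (∀ X, H6.lam g X = (X * (g.val - (g.val.trace / 2) • 1)).trace) ∧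
      (∀ X, H6.lam g (H6.ad1 g X - X) = 0) ∧
      ∀ Y : Matrix (Fin 2) (Fin 2) k, Y.trace = 0 → H6.lam g Y = 0 →
        ∃ X : Matrix (Fin 2) (Fin 2) k, X.trace = 0 ∧ Y = H6.ad1 g X - X :=
  ⟨H6.lam_apply g, H6.lam_ad1_sub g hd, fun _ hY h0 =>
    (H6.exists_of_lam_eq_zero h2 hd hns (H6.mem_slSub.mpr hY) h0).imp fun _ h =>
      ⟨H6.mem_slSub.mp h.1, h.2⟩⟩

/-- **12. Elements acting trivially** (`H6TWDist`). If `r(τ) = 1` then `ψ(g τ g⁻¹) = r(g) ψ(τ)`: on the
kernel of the representation a cocycle is an equivariant homomorphism. -/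
theorem equivariance {k Γ M : Type*} [Field k] [Group Γ] [AddCommGroup M] [Module k M]
    {r : Γ →* Module.End k M} {ψ : Γ → M} (hψ : ∀ g h, ψ (g * h) = ψ g + r g (ψ h)) (g : Γ)
    {τ : Γ} (hτ : r τ = 1) : ψ (g * τ * g⁻¹) = r g (ψ τ) :=
  H6.IsCocyc.conj_of_trivial hψ g hτ

/-- **13. Local triviality and powers** (`H6TWLoc`). If `ψ(τ) = τ X - X`, then `ψ(τ^j) = τ^j X - X`: the
value of a cocycle at a power of `τ` is determined by its value at `τ`. -/
theorem trivial_at_powers {k Γ M : Type*} [Field k] [Group Γ] [AddCommGroup M] [Module k M]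
    {r : Γ →* Module.End k M} {ψ : Γ → M} (hψ : ∀ g h, ψ (g * h) = ψ g + r g (ψ h)) {τ : Γ}
    {X : M} (hX : ψ τ = r τ X - X) (j : ℕ) : ψ (τ ^ j) = r (τ ^ j) X - X :=
  H6.IsCocyc.pow_of hψ hX j

/-- **14. Local triviality and conjugation** (`H6TWLoc`). If `ψ(τ) = τ X - X`, then
`ψ(g τ g⁻¹) = g τ g⁻¹ Y - Y` for `Y = g X - ψ(g)`. So triviality at Frobenius does not depend on the
place above the prime. -/
theorem trivial_at_conjugates {k Γ M : Type*} [Field k] [Group Γ] [AddCommGroup M] [Module k M]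
    {r : Γ →* Module.End k M} {ψ : Γ → M} (hψ : ∀ g h, ψ (g * h) = ψ g + r g (ψ h)) {τ : Γ}
    {X : M} (hX : ψ τ = r τ X - X) (g : Γ) :
    ψ (g * τ * g⁻¹) = r (g * τ * g⁻¹) (r g X - ψ g) - (r g X - ψ g) :=
  H6.IsCocyc.conj_of hψ hX g

/-! ## 3. Roots of unity -/

/-- **15. The group `muFix m`** (`H6TWCyc`) of the automorphisms fixing all `m`-th roots of unity is
normal and contains all commutators, because the cyclotomic extension is abelian. -/
theorem muFix_contains_commutators {m : ℕ} (hm : 0 < m) :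
    (∀ σ : GQ, σ ∈ H6.muFix m ↔ ∀ μ : AlgebraicClosure ℚ, μ ^ m = 1 → σ μ = μ) ∧
      (H6.muFix m).Normal ∧ ∀ x y : GQ, x * y * x⁻¹ * y⁻¹ ∈ H6.muFix m :=
  ⟨fun _ => Iff.rfl, H6.muFix_normal m, H6.commutator_mem_muFix hm⟩

/-- **16. The cyclotomic character modulo `m` is surjective** (`H6TWCyc`): for `a` prime to `m` there is
an automorphism with `μ ↦ μ^a` on the `m`-th roots of unity. From the irreducibility of the cyclotomic
polynomials (Mathlib). -/
theorem cyclotomic_surjective {m : ℕ} (hm : 0 < m) {a : ℕ} (ha : a.Coprime m) :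
    ∃ σ : GQ, ∀ μ : AlgebraicClosure ℚ, μ ^ m = 1 → σ μ = μ ^ a :=
  H6.exists_gq_of_coprime hm ha

/-- **17. The order of `det ρ(G_ℚ)`** (`H6TWCyc`). A character `δ` with values in a field of
characteristic `p` which is the cyclotomic character modulo `p` has an image of order `p - 1`. This is
the hypothesis on determinants in `GuideTaylorWiles.vanishing_H1_adjoint`. -/
theorem card_cyclotomic_image {k : Type*} [Field k] (p : ℕ) [Fact p.Prime] [CharP k p]
    {δ : GQ →* kˣ}
    (hδ : ∀ (σ : GQ) (a : ℕ), (∀ μ : AlgebraicClosure ℚ, μ ^ p = 1 → σ μ = μ ^ a) →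
      ((δ σ : kˣ) : k) = a) : Nat.card δ.range = p - 1 :=
  H6.card_range_cyc p hδ

/-- **18. Matrix form of the hypotheses of S56** (`H6TWResidual`). In a basis `b` the representation
`ρbar` is `H6.matRep ρbar b`. Absolute irreducibility, also over the subgroups of index two, gives
`StrongIrr` over the algebraic closure of `k`; the determinant is the cyclotomic character; the kernel
has finite level. -/
theorem matrix_form {k : Type} [Field k] (ρbar : ResidualGaloisRep k)
    (b : Module.Basis (Fin 2) k ρbar.V) (p : ℕ) [Fact p.Prime] [CharP k p]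
    (habs : ρbar.IsAbsolutelyIrreducible)
    (hdet : (GaloisRepAdic.ofResidualGaloisRep ρbar).DetIsCyclotomic p)
    (hTW : ∀ (K : Type) [Field K] [Algebra k K] (G : Subgroup GQ), G.index = 2 →
      ∀ V : Submodule K (ρbar.baseChange K).V,
        (∀ σ ∈ G, ∀ x ∈ V, (ρbar.baseChange K).ρ σ x ∈ V) → V = ⊥ ∨ V = ⊤) :
    (∀ σ : GQ, (H6.matRep ρbar b σ).val = LinearMap.toMatrix b b (ρbar.ρ σ)) ∧
      H6.StrongIrr (AlgebraicClosure k) (H6.matRep ρbar b) ∧
      (∀ (σ : GQ) (a : ℕ), (∀ μ : AlgebraicClosure ℚ, μ ^ p = 1 → σ μ = μ ^ a) →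
        (H6.matRep ρbar b σ).val.det = (a : k)) ∧
      ∃ L : IntermediateField ℚ (AlgebraicClosure ℚ), FiniteDimensional ℚ L ∧
        ∀ σ : GQ, (∀ x ∈ L, σ x = x) → H6.matRep ρbar b σ = 1 :=
  ⟨H6.matRep_val ρbar b, H6.strongIrr_matRep ρbar b habs hTW, H6.det_matRep ρbar b p hdet,
    H6.finite_level_matRep ρbar b⟩

/-! ## 4. The choice -/

/-- **19. Taylor-Wiles primes; local triviality** (`H6TWSelect`). `TWPrime ρ m q`: `q` is a prime with
`q ≡ 1` modulo `m`, unramified for `ρ`, and every Frobenius at `q` has determinant `1` and distinct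
eigenvalues in `k`. `LocTriv ρ f q`: at some Frobenius `φ` above `q` the cocycle `f` has the form
`φ X - X` with `X` of trace zero (if `ρ` and `f` are unramified at `q`, the choice of `φ` and of the
place does not matter, by 14). -/
theorem definitions {k : Type*} [Field k] (ρ : GQ →* GL (Fin 2) k)
    (f : GQ → Matrix (Fin 2) (Fin 2) k) (m q : ℕ) :
    (H6.TWPrime ρ m q ↔ q.Prime ∧ m ∣ q - 1 ∧
      (∀ P : ValuationSubring (AlgebraicClosure ℚ), P.LiesOverPrime q →
        ∀ τ ∈ P.inertiaSubgroupIn ℚ, ρ τ = 1) ∧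
      ∀ P : ValuationSubring (AlgebraicClosure ℚ), P.LiesOverPrime q →
        ∀ φ : GQ, P.IsFrobeniusAt φ q → (ρ φ).val.det = 1 ∧
          ∃ α β : k, α ≠ β ∧ (ρ φ).val.trace = α + β ∧ (ρ φ).val.det = α * β) ∧
    (H6.LocTriv ρ f q ↔ ∃ (P : ValuationSubring (AlgebraicClosure ℚ)) (φ : GQ),
      P.LiesOverPrime q ∧ P.IsFrobeniusAt φ q ∧ ∃ X ∈ H6.slSub k, f φ = H6.ad1 (ρ φ) X - X) :=
  ⟨Iff.rfl, Iff.rfl⟩

/-- **20. One prime** (`H6TWSelect`). Let everything (`ρ`, the cocycles `ψ_j`, the `p^(n+1)`-st roots of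
unity) be defined over the finite normal extension `M`, and let `σ` fix the `p^(n+1)`-st roots of
unity and have distinct eigenvalues. Outside `S` there is a Taylor-Wiles prime `q` of level `p^(n+1)` at
which the `ψ_j` are unramified, with a linear form `Λ` on `k^s` such that: combinations locally trivial
at `q` are in the kernel of `Λ`, and combinations in the kernel are of the form `σ X - X` at `σ`. The
form is `c ↦ lam (ρ φ) (Σ c_j ψ_j(φ))` for a Frobenius `φ` which on `M` is a power of `σ` and has `σ` as a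
power. -/
theorem choice_of_one_prime {k : Type*} [Field k] (p : ℕ) [Fact p.Prime] [CharP k p]
    (hp2 : p ≠ 2) {ρ : GQ →* GL (Fin 2) k}
    (hsplit : ∀ σ, ∃ α β : k, (ρ σ).val.trace = α + β ∧ (ρ σ).val.det = α * β)
    (hdet : ∀ (σ : GQ) (a : ℕ), (∀ μ : AlgebraicClosure ℚ, μ ^ p = 1 → σ μ = μ ^ a) →
      (ρ σ).val.det = (a : k))
    (M : IntermediateField ℚ (AlgebraicClosure ℚ)) [FiniteDimensional ℚ M] [Normal ℚ M]
    (hρM : ∀ σ : GQ, (∀ x ∈ M, σ x = x) → ρ σ = 1)
    {s : ℕ} {ψ : Fin s → GQ → Matrix (Fin 2) (Fin 2) k}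
    (hψ : ∀ j g h, ψ j (g * h) = ψ j g + H6.ad1 (ρ g) (ψ j h))
    (htr : ∀ j σ, (ψ j σ).trace = 0)
    (hψM : ∀ j (g τ : GQ), (∀ x ∈ M, τ x = x) → ψ j (g * τ) = ψ j g)
    (n : ℕ) (hζ : ∀ ζ : AlgebraicClosure ℚ, ζ ^ p ^ (n + 1) = 1 → ζ ∈ M)
    {σ : GQ} (hσ : ∀ μ : AlgebraicClosure ℚ, μ ^ p ^ (n + 1) = 1 → σ μ = μ)
    (hσd : ∃ α β : k, α ≠ β ∧ (ρ σ).val.trace = α + β ∧ (ρ σ).val.det = α * β)
    (S : Finset ℕ) :
    ∃ q : ℕ, q ∉ S ∧ H6.TWPrime ρ (p ^ (n + 1)) q ∧
      (∀ P : ValuationSubring (AlgebraicClosure ℚ), P.LiesOverPrime q →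
        ∀ τ ∈ P.inertiaSubgroupIn ℚ, ∀ j, ψ j τ = 0) ∧
      ∃ Λ : (Fin s → k) →ₗ[k] k,
        (∀ c, H6.LocTriv ρ (fun g => ∑ j, c j • ψ j g) q → Λ c = 0) ∧
        (∀ c, Λ c = 0 → ∃ X ∈ H6.slSub k, ∑ j, c j • ψ j σ = H6.ad1 (ρ σ) X - X) :=
  H6.select_one (ρ := ρ) p hp2 hsplit hdet M hρM hψ htr hψM n hζ hσ hσd S

/-- **21. Induction on the dimension** (`H6TWSelect`). Same data; now `ρ` is strongly irreducible and no
nonzero combination of the `ψ_j` is a coboundary. For a subspace `C` of `k^s` of dimension at most `d`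
there are `d` different Taylor-Wiles primes outside `S` such that a combination with coefficients in
`C` which is locally trivial at all of them is zero. Proof: for `C ≠ 0` some combination in `C` is
nontrivial at some `σ ∈ N` with distinct eigenvalues; the prime of 20 for this `σ` replaces `C` by
`C ∩ ker Λ`. For `C = 0` take any `σ ∈ N` with distinct eigenvalues
(`GuideTaylorWiles.exists_distinct_eigenvalues`). -/
theorem choice_by_induction {k : Type*} [Field k] [Fintype k] [DecidableEq k] (p : ℕ)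
    [Fact p.Prime] [CharP k p] (hp2 : p ≠ 2) {K : Type*} [Field K] [Algebra k K]
    [IsAlgClosed K] {ρ : GQ →* GL (Fin 2) k} (hirr : H6.StrongIrr K ρ)
    (hsplit : ∀ σ, ∃ α β : k, (ρ σ).val.trace = α + β ∧ (ρ σ).val.det = α * β)
    (hdet : ∀ (σ : GQ) (a : ℕ), (∀ μ : AlgebraicClosure ℚ, μ ^ p = 1 → σ μ = μ ^ a) →
      (ρ σ).val.det = (a : k))
    (M : IntermediateField ℚ (AlgebraicClosure ℚ)) [FiniteDimensional ℚ M] [Normal ℚ M]
    (hρM : ∀ σ : GQ, (∀ x ∈ M, σ x = x) → ρ σ = 1)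
    {s : ℕ} {ψ : Fin s → GQ → Matrix (Fin 2) (Fin 2) k}
    (hψ : ∀ j g h, ψ j (g * h) = ψ j g + H6.ad1 (ρ g) (ψ j h))
    (htr : ∀ j σ, (ψ j σ).trace = 0)
    (hψM : ∀ j (g τ : GQ), (∀ x ∈ M, τ x = x) → ψ j (g * τ) = ψ j g)
    (hind : ∀ c : Fin s → k, (∃ m, ∀ g, ∑ j, c j • ψ j g = H6.ad1 (ρ g) m - m) → c = 0)
    (n : ℕ) (hζ : ∀ ζ : AlgebraicClosure ℚ, ζ ^ p ^ (n + 1) = 1 → ζ ∈ M) (d : ℕ)
    (C : Submodule k (Fin s → k)) (hC : Module.finrank k C ≤ d) (S : Finset ℕ) :
    ∃ qv : Fin d → ℕ, Function.Injective qv ∧ (∀ i, qv i ∉ S) ∧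
      (∀ i, H6.TWPrime ρ (p ^ (n + 1)) (qv i)) ∧
      (∀ i, ∀ P : ValuationSubring (AlgebraicClosure ℚ), P.LiesOverPrime (qv i) →
        ∀ τ ∈ P.inertiaSubgroupIn ℚ, ∀ j, ψ j τ = 0) ∧
      ∀ c ∈ C, (∀ i, H6.LocTriv ρ (fun g => ∑ j, c j • ψ j g) (qv i)) → c = 0 :=
  H6.select_all (ρ := ρ) p hp2 hirr hsplit hdet M hρM hψ htr hψM hind n hζ d C hC S

/-- **22. The selection theorem, matrix form** (`H6TWSelect`). 21 with `C = k^s` and for `M` the normal
closure of the compositum of the level fields and the field of the `p^(n+1)`-st roots of unity. With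
18 this is `GuideTaylorWiles.taylorWiles_primes`. -/
theorem selection {k : Type*} [Field k] [Fintype k] [DecidableEq k] (p : ℕ)
    [Fact p.Prime] [CharP k p] (hp2 : p ≠ 2) {K : Type*} [Field K] [Algebra k K]
    [IsAlgClosed K] {ρ : GQ →* GL (Fin 2) k} (hirr : H6.StrongIrr K ρ)
    (hρL : ∃ L : IntermediateField ℚ (AlgebraicClosure ℚ), FiniteDimensional ℚ L ∧
      ∀ σ : GQ, (∀ x ∈ L, σ x = x) → ρ σ = 1)
    (hsplit : ∀ σ, ∃ α β : k, (ρ σ).val.trace = α + β ∧ (ρ σ).val.det = α * β)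
    (hdet : ∀ (σ : GQ) (a : ℕ), (∀ μ : AlgebraicClosure ℚ, μ ^ p = 1 → σ μ = μ ^ a) →
      (ρ σ).val.det = (a : k))
    {s : ℕ} {ψ : Fin s → GQ → Matrix (Fin 2) (Fin 2) k}
    (hψ : ∀ j g h, ψ j (g * h) = ψ j g + H6.ad1 (ρ g) (ψ j h))
    (htr : ∀ j σ, (ψ j σ).trace = 0)
    (hψL : ∀ j, ∃ F : IntermediateField ℚ (AlgebraicClosure ℚ), FiniteDimensional ℚ F ∧
      ∀ g τ : GQ, (∀ x ∈ F, τ x = x) → ψ j (g * τ) = ψ j g)
    (hind : ∀ c : Fin s → k, (∃ m, ∀ g, ∑ j, c j • ψ j g = H6.ad1 (ρ g) m - m) → c = 0)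
    (n d : ℕ) (hd : s ≤ d) (S : Finset ℕ) :
    ∃ qv : Fin d → ℕ, Function.Injective qv ∧ (∀ i, qv i ∉ S) ∧
      (∀ i, H6.TWPrime ρ (p ^ (n + 1)) (qv i)) ∧
      (∀ i, ∀ P : ValuationSubring (AlgebraicClosure ℚ), P.LiesOverPrime (qv i) →
        ∀ τ ∈ P.inertiaSubgroupIn ℚ, ∀ j, ψ j τ = 0) ∧
      ∀ c : Fin s → k, (∀ i, H6.LocTriv ρ (fun g => ∑ j, c j • ψ j g) (qv i)) → c = 0 :=
  H6.tw_selection (ρ := ρ) p hp2 hirr hρL hsplit hdet hψ htr hψL hind n d hd S

/-! ## 5. Finite sets of classes -/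

/-- **23. Levels** (`H6TWKill`). `H6.LevC f`: the function `f` on `G_ℚ` is unchanged by right
multiplication with the automorphisms which fix some finite extension of `ℚ`. -/
theorem level_definition {X : Type*} (f : GQ → X) :
    H6.LevC f ↔ ∃ F : IntermediateField ℚ (AlgebraicClosure ℚ), FiniteDimensional ℚ F ∧
      ∀ g τ : GQ, (∀ x ∈ F, τ x = x) → f (g * τ) = f g :=
  Iff.rfl

/-- **24. Two models of `ad⁰(1)`** (`H6TWKill`). The Selmer groups use the `F_p`-space `SL p k` of the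
trace-zero matrices with the action `adT`; the identity map to `H6.slSub k` with the action of `ad1`
is equivariant. -/
theorem two_models (p : ℕ) [Fact p.Prime] {k : Type} [Field k] [Algebra (ZMod p) k]
    {ρbar : ResidualGaloisRep k} {b : Module.Basis (Fin 2) k ρbar.V} {r : GQ →* H53.M2 k}
    (hr : ∀ σ, r σ = LinearMap.toMatrix b b (ρbar.ρ σ)) (σ : GQ) (X : H56.SL p k) :
    ((H6.toSl p X : H6.slSub k) : Matrix (Fin 2) (Fin 2) k) = (X : H53.M2 k) ∧
      ((H6.toSl p (H51Dual.adT p r σ X) : H6.slSub k) : Matrix (Fin 2) (Fin 2) k) =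
        H6.ad1 (H6.matRep ρbar b σ) (X : H53.M2 k) :=
  ⟨rfl, congrArg Subtype.val (H6.toSl_adT p hr σ X)⟩

/-- **25. Killing a finite set of classes** (`H6TWKill`). For a finite set `D` of cocycles of finite
level with values in a model `N` of `ad⁰(ρbar)(1)` and all large `d` there are, for every `n` and `S`,
`d` different Taylor-Wiles primes outside `S` such that an element of `D` which is locally trivial at
all of them is a coboundary. Proof: apply `GuideTaylorWiles.taylorWiles_primes` to cocycles which form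
a basis of a complement of the coboundaries in the span of `D`. -/
theorem killing_a_finite_set {k : Type} [Field k] [Fintype k] (p : ℕ) [Fact p.Prime]
    [CharP k p] (hp2 : p ≠ 2) (ρbar : ResidualGaloisRep k)
    (habs : ρbar.IsAbsolutelyIrreducible)
    (hdet : (GaloisRepAdic.ofResidualGaloisRep ρbar).DetIsCyclotomic p)
    (hsplit : ∀ σ : GQ, ∃ α β : k, LinearMap.charpoly (ρbar.ρ σ) = (X - C α) * (X - C β))
    (hTW : ∀ (K : Type) [Field K] [Algebra k K] (G : Subgroup GQ), G.index = 2 →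
      ∀ V : Submodule K (ρbar.baseChange K).V,
        (∀ σ ∈ G, ∀ x ∈ V, (ρbar.baseChange K).ρ σ x ∈ V) → V = ⊥ ∨ V = ⊤)
    (b : Module.Basis (Fin 2) k ρbar.V) {N : Type*} [AddCommGroup N] [Module k N]
    (rN : GQ →* Module.End k N) (e : N ≃ₗ[k] H6.slSub k)
    (he : ∀ (σ : GQ) (x : N), ((e (rN σ x) : H6.slSub k) : Matrix (Fin 2) (Fin 2) k) =
      H6.ad1 (H6.matRep ρbar b σ) (e x : H6.slSub k))
    (D : Set (GQ → N)) (hD : D.Finite)
    (hDc : ∀ ψ ∈ D, (∀ g h, ψ (g * h) = ψ g + rN g (ψ h)) ∧ H6.LevC ψ) :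
    ∃ s : ℕ, ∀ d, s ≤ d → ∀ (n : ℕ) (S : Finset ℕ),
      ∃ qv : Fin d → ℕ, Function.Injective qv ∧
      (∀ i, (qv i).Prime ∧ qv i ∉ S ∧ p ^ (n + 1) ∣ qv i - 1) ∧
      (∀ i, ρbar.IsUnramifiedAt (qv i)) ∧
      (∀ i, ∀ P : ValuationSubring (AlgebraicClosure ℚ), P.LiesOverPrime (qv i) →
        ∀ φ : GQ, P.IsFrobeniusAt φ (qv i) → LinearMap.det (ρbar.ρ φ) = 1 ∧
          ∃ α β : k, α ≠ β ∧ LinearMap.charpoly (ρbar.ρ φ) = (X - C α) * (X - C β)) ∧
      ∀ ψ ∈ D, (∀ i, ∃ (P : ValuationSubring (AlgebraicClosure ℚ)) (φ : GQ),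
          P.LiesOverPrime (qv i) ∧ P.IsFrobeniusAt φ (qv i) ∧ ∃ x : N, ψ φ = rN φ x - x) →
        ∃ m : N, ∀ g, ψ g = rN g m - m :=
  H6.kill_set p hp2 ρbar habs hdet hsplit hTW b rN e he D hD hDc

end Fermat.Agent.Guide.TWChoice
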