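import Fermat.Agent.H79C1

/-!
# Guide: the condition of Taylor and Wiles for `W[p]`, all odd `p` (S38)

This file proves nothing new: every theorem is a citation, with all hypotheses written out. All theorems
cited here are used in the proof of S38. In the proof of S01 `GuideCurvesTate.taylor_wiles` is used instead;
of the theorems of this file only `dihedral` and, through S56, the two on tame characters marked (S56) and
the last clause of `tame_character_mul` occur there, too. Library files: `H79C0`, `H79C1` (helper79),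
`H64FVal`, `H64FCore` (helper64), `H73TWAlg`, `H73Quad` (helper73).

**The statement** (section 5; compare `GuideLevels.taylor_wiles_condition`). Let `W` be a semistable
Weierstrass equation over `ℤ`, `p` an odd prime and `W[p]` irreducible. Then `K ⊗ W[p]` stays irreducible
over every subgroup `G` of index two of `Gal(ℚ̄/ℚ)`, `K` any field of characteristic `p`. For `p = 3, 5` this
is `GuideCurvesTate.taylor_wiles` (its steps: `GuideTWDihedral`); the proof for `p ≥ 5` given here is
different at the end.

**The proof.** Suppose that there is a line which is stable under `G`. Then the representation is dihedral: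
in a suitable basis `G` is diagonal and the complement of `G` antidiagonal. A unipotent element of a dihedral
image is trivial; since `W` is semistable, `W[p]` is unramified outside `p`, and there is only one quadratic
field unramified outside `p`. Hence `G` is the kernel of the quadratic character of `det = ω`, `ω` the
cyclotomic character. So an element `τ` of the inertia group `I` at `p` for which `det τ` is not a square
lies outside `G`, and its trace is zero. Now one looks at `W[p]` as a representation of `I`.

* If `W` has multiplicative or good ordinary reduction at `p`, all elements of `I` have eigenvalue `1`.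
  Take `τ ∈ I` such that `det τ = a` is not a square and `a ≠ -1`: then `0 = det(τ - 1) = 1 - 0 + a`, a
  contradiction. (For `p = 3` there is no such `a`.)
* If `W` has good supersingular reduction at `p`, all points of order `p` reduce to zero. Then the
  `x`-coordinates of these points are the roots of a polynomial `p X^d + ... + c`, `d = (p² - 1)/2`, with
  middle coefficients divisible by `p` and `c` prime to `p`, and `I` acts on them through ONE tame character
  whose order is exactly `d` (sections 1 and 2). So, up to signs, the image of `I` in `GL(W[p])` is generated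
  by the image of some `σ ∈ I`, and the order of the image of `σ` does not divide `2 (p - 1)`. Elements
  outside `G` have scalar square, hence order dividing `2 (p - 1)`; so `σ ∈ G`. But an element `τ ∈ I` outside
  `G` acts on `W[p]` like `± σ^k` for some `k`; so `τ σ^(-k)`, which is not in `G`, has trace `± 2 ≠ 0`, a
  contradiction.

Notation: `nm p x` is the absolute value on `ℚ̄` defined by a fixed embedding into an algebraic closure of
`ℚ_p` (`nm p p < 1`), `Dp p` and `Ip p` are its decomposition and inertia groups, `Kap p` is the residue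
field of its valuation ring, `rs x` the residue of `x` (zero if `nm p x > 1`).
-/

set_option autoImplicit false

open Polynomial WeierstrassCurve Fermat.Agent.H64
open scoped TensorProduct

noncomputable section

namespace Fermat.Agent.Guide.TWCondition

variable {p : ℕ} [hp : Fact p.Prime]

/-! ## 1. Tame characters -/

/-- **The tame character of `z ∈ ℚ̄`, `z ≠ 0`** (S56): `σ` is sent to the residue of `σ z / z`. For `σ` in
the decomposition group the element `σ z / z` is a unit. -/
theorem tame_character (z : FQb) (hz : z ≠ 0) (σ : FGQ) (hσ : σ ∈ Dp p) :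
    th p z σ = rs (σ z / z) ∧ nm p (σ z / z) = 1 :=
  ⟨rfl, nm_sigma_div hz hσ⟩

/-- **It is a homomorphism on the inertia group**, with values in the units of the residue field:
`στ z / z = (σ z / z) · σ(τ z / z)`, and `σ` acts trivially on residues. -/
theorem tame_character_mul (z : FQb) (hz : z ≠ 0) (σ τ : FGQ) (hσ : σ ∈ Ip p) (hτ : τ ∈ Ip p) :
    th p z 1 = 1 ∧ th p z (σ * τ) = th p z σ * th p z τ ∧ th p z σ ≠ 0 :=
  ⟨th_one hz, th_mul hz hσ hτ, th_ne_zero hz (Ip_le_Dp hσ)⟩

/-- **It only depends on the absolute value of `z`** (S56): if `z / w` is a unit `u` then `σ u / u` has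
residue `1` for `σ` in the inertia group. -/
theorem tame_character_congr (z w : FQb) (hz : z ≠ 0) (hzw : nm p z = nm p w) (σ : FGQ)
    (hσ : σ ∈ Ip p) : th p z σ = th p w σ :=
  th_congr hz hzw hσ

/-- **The order of a tame character and the absolute value.** Suppose that `σ z` only depends on the value of
the tame character of `z` at `σ ∈ I`, so that the orbit of `z` under `I` is as small as possible. If the
`m`-th power of the tame character is trivial then `|z|^m` is a power of `|p|` with an integral exponent.
Proof: the orbit has `n` elements, `n ∣ m`; their product is fixed by `I`, so its absolute value `|z|^n` is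
a power of `|p|`. -/
theorem tame_order (z : FQb) (hz : z ≠ 0) (m : ℕ) (hm : 0 < m) (hzm : ∀ σ ∈ Ip p, th p z σ ^ m = 1)
    (horb : ∀ σ ∈ Ip p, ∀ τ ∈ Ip p, th p z σ = th p z τ → σ z = τ z) :
    ∃ j : ℤ, nm p z ^ m = nm p (p : FQb) ^ j :=
  orbit_norm hz hm hzm horb

/-! ## 2. Polynomials like the `p`-division polynomial of a supersingular curve -/

/-- **The hypotheses.** `H79C.SSPoly p F e` says: `F = p X^(e+1) + ... + c` is an integral polynomial whose
coefficients except `c` are divisible by `p`, `p ∤ c`, `e + 1` is prime to `p`, and all roots of `F` in `ℚ̄`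
have a pole at the place above `p`. (The hypothesis on the roots is what one knows first; see
`coefficients_from_roots`.) -/
theorem ssPoly_iff (F : ℤ[X]) (e : ℕ) :
    H79C.SSPoly p F e ↔ F.natDegree ≤ e + 1 ∧ F.coeff (e + 1) = p ∧
      (∀ i, (p : ℤ) ∣ F.coeff (i + 1)) ∧ ¬ (p : ℤ) ∣ F.coeff 0 ∧ (e + 1).Coprime p ∧
      ∀ x : FQb, aeval x F = 0 → 1 < nm p x :=
  ⟨fun h => ⟨h.deg, h.lead, h.mid, h.const, h.cop, h.roots⟩,
    fun ⟨h1, h2, h3, h4, h5, h6⟩ => ⟨h1, h2, h3, h4, h5, h6⟩⟩

/-- **Coefficients from roots.** If all roots of the integral polynomial `F ≠ 0` have a pole, all its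
coefficients except the constant one are divisible by `p`; if moreover `F` is not zero modulo `p`, the
constant one is not. Proof: `F = c ∏ (1 - x⁻¹ X)` over the roots `x`, and the `x⁻¹` are in the maximal
ideal. -/
theorem coefficients_from_roots {F : ℤ[X]} (hF : F ≠ 0)
    (hroots : ∀ x : FQb, aeval x F = 0 → 1 < nm p x) :
    (∀ i, (p : ℤ) ∣ F.coeff (i + 1)) ∧
      ((∃ i, ¬ (p : ℤ) ∣ F.coeff i) → ¬ (p : ℤ) ∣ F.coeff 0) :=
  H79C.coeff_of_roots hF hroots

/-- **The size of the roots**: `|p| |x|^(e+1) = 1`, because in `F(x) = 0` the first term `p x^(e+1)` is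
larger than the middle ones, and the constant term is a unit. In particular all roots have the same absolute
value, hence the same tame character. -/
theorem size_of_roots {F : ℤ[X]} {e : ℕ} (h : H79C.SSPoly p F e) {x : FQb} (hx : aeval x F = 0) :
    nm p (p : FQb) * nm p x ^ (e + 1) = 1 ∧ ∀ y : FQb, aeval y F = 0 → nm p y = nm p x :=
  ⟨h.nm_root hx, fun _ hy => h.nm_eq hy hx⟩

/-- **Different roots have different residues**: if the quotient `u = y/x` of two roots has residue `1`, they
are equal. Proof: if not, divide `F(y) - F(x) = 0` by `u - 1`. The middle terms are in the maximal ideal,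
hence `p x^(e+1) (1 + u + ... + u^e)` is too; but this is a unit, since `p x^(e+1) ≡ -c` and the residue of
the sum is `e + 1 ≠ 0`. -/
theorem roots_distinct {F : ℤ[X]} {e : ℕ} (h : H79C.SSPoly p F e) {x y : FQb}
    (hx : aeval x F = 0) (hy : aeval y F = 0) (hxy : rs (p := p) (y / x) = 1) : y = x :=
  h.eq_of_residue hx hy hxy

/-- **The tame character of one root determines the action of inertia on all roots**: the tame characters of
`x` and `y` are equal, so `σ y / τ y` has residue `1`, and `roots_distinct` applies to `τ y` and `σ y`. -/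
theorem action_on_roots {F : ℤ[X]} {e : ℕ} (h : H79C.SSPoly p F e) {x : FQb}
    (hx : aeval x F = 0) {σ τ : FGQ} (hσ : σ ∈ Ip p) (hτ : τ ∈ Ip p)
    (hth : th p x σ = th p x τ) {y : FQb} (hy : aeval y F = 0) : σ y = τ y :=
  h.apply_eq hx hσ hτ hth hy

/-- **The tame character of a root has order exactly `e + 1`**, and its image is cyclic, generated by its
value at some `σ ∈ I`. Its `(e+1)`-st power is trivial since `p x^(e+1) ≡ -c`. If its `m`-th power is
trivial then `|x|^m = |p|^j` by `tame_order`, so `e + 1` divides `m` by `size_of_roots`. -/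
theorem order_of_tame_character {F : ℤ[X]} {e : ℕ} (h : H79C.SSPoly p F e) {x : FQb}
    (hx : aeval x F = 0) :
    (∀ σ ∈ Ip p, th p x σ ^ (e + 1) = 1) ∧ ∃ σ ∈ Ip p, (∀ m : ℕ, th p x σ ^ m = 1 → e + 1 ∣ m) ∧
      ∀ τ ∈ Ip p, ∃ k : ℕ, th p x τ = th p x σ ^ k :=
  ⟨fun _ hσ => h.th_pow_eq_one hx hσ, h.exists_gen hx⟩

/-! ## 3. The action of inertia at `p` on `W[p]`

`W` is a Weierstrass equation with coefficients in `ℤ`, `Δ ≠ 0`; `PtQ W` is the group of its points over
`ℚ̄` and `resZ W hΔ p` the representation `W[p]`. `V1 W p A` is the group of the `P ∈ W[p]` whose reduction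
at the place `A` above `p` is zero, that is `P = 0` or the `x`-coordinate of `P` has a pole. -/

/-- **The roots of the `p`-division polynomial** (`p` odd; `preΨ' p` in Mathlib) are the `x`-coordinates of
the points of order `p` over `ℚ̄`. -/
theorem root_iff_point (W : WeierstrassCurve ℤ) (hΔ : W.Δ ≠ 0) (hodd : ¬ Even p) (x : FQb) :
    aeval x (W.preΨ' p) = 0 ↔
      ∃ y, ∃ h : ((W.map (Int.castRingHom ℚ))⁄(AlgebraicClosure ℚ)).toAffine.Nonsingular x y,
        p • (.some x y h : H44E.PtQ W) = 0 :=
  ⟨H79C.exists_point W hΔ hodd, fun ⟨_, h, hP⟩ => H79C.root_of_point W hodd h hP⟩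

/-- **Supersingular reduction.** If `p ∤ Δ`, `p` odd, and all points of order `p` reduce to zero, then the
`p`-division polynomial satisfies the hypotheses of section 2 with `e + 1 = (p² - 1)/2`. (It is not zero
modulo `p` because it is prime to another division polynomial of the reduced curve.) -/
theorem division_polynomial (W : WeierstrassCurve ℤ) (hΔ : W.Δ ≠ 0) (hp2 : p ≠ 2)
    (hgood : ¬ (p : ℤ) ∣ W.Δ)
    (hss : ∀ P : H44E.PtQ W, p • P = 0 → P ≠ 0 → P ∈ H44E.V1 W p (padicPlace p)) :
    ∃ e : ℕ, 2 * (e + 1) = p ^ 2 - 1 ∧ H79C.SSPoly p (W.preΨ' p) e :=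
  H79C.ssPoly W hΔ hp2 hgood hss

/-- **The other cases.** If `σ P - P` reduces to zero for all `σ ∈ I`, `P ∈ W[p]`, and some point of `W[p]`
does not reduce to zero, then all elements of `I` have the eigenvalue `1`: `σ - 1` is not surjective. (Good
ordinary reduction: inertia acts trivially on the reduced points. Multiplicative reduction: `P₀` reduces to
the node, `H13NodeDiv`, and `σ P - P` reduces to zero by `H44EGlob`.) -/
theorem eigenvalue_one (W : WeierstrassCurve ℤ) (hΔ : W.Δ ≠ 0)
    (h : ∀ σ ∈ Ip p, ∀ P : H44E.PtQ W, p • P = 0 → σ • P - P ∈ H44E.V1 W p (padicPlace p))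
    {P₀ : H44E.PtQ W} (hP₀ : p • P₀ = 0) (hP₀' : P₀ ∉ H44E.V1 W p (padicPlace p)) {σ : FGQ}
    (hσ : σ ∈ Ip p) : LinearMap.det ((H87.Glue.resZ W hΔ p).ρ σ - 1) = 0 :=
  H79C.det_of_V1 W hΔ h hP₀ hP₀' hσ

/-- **From `x`-coordinates to points**: if two automorphisms agree on the `x`-coordinate of the point `P`
they agree on `P` up to sign. -/
theorem agree_up_to_sign (W : WeierstrassCurve ℤ) {σ τ : FGQ} {P : H44E.PtQ W}
    (h : ∀ x y hns, P = WeierstrassCurve.Affine.Point.some x y hns → σ x = τ x) :
    σ • P = τ • P ∨ σ • P = -(τ • P) :=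
  H79C.smul_eq_or_neg W h

/-- **The alternative at `p`**, `p ≥ 5`, `W` semistable at `p`. Either all elements of the inertia group have
the eigenvalue `1` on `W[p]`, or there is an element `σ` of the inertia group with `σ^(2(p-1)) ≠ 1` on `W[p]`
whose powers are, up to sign, all of the image of inertia. In the second case (supersingular) the order of
the tame character, `(p² - 1)/2`, does not divide `2 (p - 1)`. -/
theorem alternative_at_p (W : WeierstrassCurve ℤ) (hΔ : W.Δ ≠ 0) (hp5 : 5 ≤ p)
    (hloc : (p : ℤ) ∣ W.Δ → ¬ (p : ℤ) ∣ W.c₄) :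
    (∀ σ ∈ Ip p, LinearMap.det ((H87.Glue.resZ W hΔ p).ρ σ - 1) = 0) ∨
      ∃ σ ∈ Ip p, (H87.Glue.resZ W hΔ p).ρ σ ^ (2 * (p - 1)) ≠ 1 ∧
        ∀ τ ∈ Ip p, ∃ k : ℕ, (H87.Glue.resZ W hΔ p).ρ τ = (H87.Glue.resZ W hΔ p).ρ σ ^ k ∨
          (H87.Glue.resZ W hΔ p).ρ τ = -(H87.Glue.resZ W hΔ p).ρ σ ^ k :=
  H79C.halt W hΔ hp5 hloc

/-! ## 4. Dihedral representations

`ρ` is a representation of a group `Γ` on a plane `V` over `𝔽_p`, `b` a basis of `K ⊗ V`. -/

/-- **Dihedral form**: `IsDih ρ G b` says that `G` is diagonal and its complement antidiagonal in the basis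
`b`. Then elements outside `G` have trace zero, and unipotent elements are in `G` and act trivially. For the
existence of `b` see `GuideCurvesTate.exists_dihedral_basis`. -/
theorem dihedral {K V Γ : Type*} [Field K] [AddCommGroup V] [Module (ZMod p) V] [Group Γ]
    [Algebra (ZMod p) K] {ρ : Γ →* Module.End (ZMod p) V} {G : Subgroup Γ}
    {b : Module.Basis (Fin 2) K (K ⊗[ZMod p] V)} (hb : H73.TW.IsDih ρ G b)
    (hV : Module.finrank (ZMod p) V = 2) (h2 : (2 : ZMod p) ≠ 0) :
    (∀ g ∉ G, LinearMap.trace (ZMod p) V (ρ g) = 0) ∧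
      ∀ g, IsNilpotent (ρ g - 1) → g ∈ G ∧ ρ g = 1 :=
  have : Module.Finite (ZMod p) V := Module.finite_of_finrank_eq_succ hV
  ⟨fun _ hg => hb.trace_eq_zero hg, fun _ hg => hb.eq_one_of_isNilpotent hV h2 hg⟩

/-- **Elements outside `G` have scalar square**: the square of an antidiagonal matrix is scalar, and the
scalar is in `𝔽_p` because its double is the trace. So their image has order dividing `2 (p - 1)`. -/
theorem order_outside {K V Γ : Type*} [Field K] [AddCommGroup V] [Module (ZMod p) V] [Group Γ]
    [Algebra (ZMod p) K] {ρ : Γ →* Module.End (ZMod p) V} {G : Subgroup Γ}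
    {b : Module.Basis (Fin 2) K (K ⊗[ZMod p] V)} (hb : H73.TW.IsDih ρ G b)
    (hV : Module.finrank (ZMod p) V = 2) (h2 : (2 : ZMod p) ≠ 0) {g : Γ} (hg : g ∉ G) :
    ρ g ^ (2 * (p - 1)) = 1 :=
  H79C.pow_eq_one_of_isDih hb hV h2 hg

/-- **A non-square different from `-1`** exists in `𝔽_p` for `p ≥ 5`: if the given non-square is `-1`, take
`-4`. -/
theorem nonsquare (hp5 : 5 ≤ p) :
    ∃ a : (ZMod p)ˣ, ¬ IsSquare (a : ZMod p) ∧ (a : ZMod p) ≠ -1 :=
  H79C.exists_nonsquare_ne hp5

/-- **The abstract theorem.** `p ≥ 5`, `ρ` an irreducible representation of the group `Γ` on a plane over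
`𝔽_p`, `c` an involution with determinant `-1` (complex conjugation), `S` a set of elements with unipotent
image (the inertia groups outside `p`), `I` a subgroup (inertia at `p`) on which the determinant takes all
values. `huniq`: there is at most one subgroup of index two which contains `S` and the kernel of `ρ`.
`halt`: the alternative of section 3. Then no line of `K ⊗ V` is stable under a subgroup of index two. -/
theorem abstract_condition {K V Γ : Type*} [Field K] [AddCommGroup V] [Module (ZMod p) V]
    [Group Γ] [Algebra (ZMod p) K] (hp5 : 5 ≤ p) (hV : Module.finrank (ZMod p) V = 2)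
    (ρ : Γ →* Module.End (ZMod p) V)
    (hirr : ∀ W : Submodule (ZMod p) V, (∀ σ, ∀ x ∈ W, ρ σ x ∈ W) → W = ⊥ ∨ W = ⊤)
    (c : Γ) (hc : ρ c * ρ c = 1) (hdet : LinearMap.det (ρ c) = -1)
    (S : Set Γ) (hS : ∀ σ ∈ S, IsNilpotent (ρ σ - 1))
    (huniq : ∀ G₁ G₂ : Subgroup Γ, G₁.index = 2 → G₂.index = 2 →
      (∀ σ, ρ σ = 1 → σ ∈ G₁) → (∀ σ, ρ σ = 1 → σ ∈ G₂) → S ⊆ G₁ → S ⊆ G₂ → G₁ = G₂)
    (I : Subgroup Γ) (hI : ∀ a : (ZMod p)ˣ, ∃ σ ∈ I, LinearMap.det (ρ σ) = a)
    (halt : (∀ σ ∈ I, LinearMap.det (ρ σ - 1) = 0) ∨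
      ∃ σ ∈ I, ρ σ ^ (2 * (p - 1)) ≠ 1 ∧ ∀ τ ∈ I, ∃ k : ℕ, ρ τ = ρ σ ^ k ∨ ρ τ = -ρ σ ^ k)
    (G : Subgroup Γ) (hG : G.index = 2) (L : Submodule K (K ⊗[ZMod p] V))
    (hL : ∀ σ ∈ G, ∀ x ∈ L, (ρ σ).baseChange K x ∈ L) : L = ⊥ ∨ L = ⊤ :=
  H79C.core5 hp5 hV ρ hirr c hc hdet S hS huniq I hI halt G hG L hL

/-! ## 5. The condition -/

/-- **The condition of Taylor and Wiles for all odd `p`.** `W` semistable, `W[p]` irreducible, `K` any field
of characteristic `p`, `G` any subgroup of index two of `Gal(ℚ̄/ℚ)`: the representation `K ⊗ W[p]` of `G` is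
irreducible. (For a representation over another field which is isomorphic to an extension of scalars of
`W[p]` see `GuideLevels.taylor_wiles_condition`.) -/
theorem condition (W : WeierstrassCurve ℤ) (hΔ : W.Δ ≠ 0) (hp2 : p ≠ 2)
    (hW : W.IsSemistableModel) (hirr : W.ModRepIsIrreducible p)
    {K : Type*} [Field K] [Algebra (ZMod p) K] (G : Subgroup FGQ) (hG : G.index = 2)
    (L : Submodule K (K ⊗[ZMod p] (H87.Glue.resZ W hΔ p).V))
    (hL : ∀ σ ∈ G, ∀ x ∈ L, ((H87.Glue.resZ W hΔ p).ρ σ).baseChange K x ∈ L) :
    L = ⊥ ∨ L = ⊤ :=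
  H79C.hTW_resZ W hΔ hp2 hW hirr G hG L hL

end Fermat.Agent.Guide.TWCondition
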