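import Fermat.Agent.H73TW

/-!
# Reader's guide: the Taylor-Wiles condition for `p = 3` and `p = 5`, step by step

Companion of `GuideCurvesTate`, section 4 (there: `exists_dihedral_basis`, `unique_quadratic_field`, the
result `taylor_wiles`), and of `GuideTWCondition`, section 4 (trace zero and unipotent elements of a
dihedral representation); no theorem of these files is repeated. Every theorem is proved by citing theorems
of the library; no other file imports this one.

**What is proved.** Let `W` be a semistable Weierstrass equation over `ℤ`, `p = 3` or `p = 5`, and `W[p]`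
irreducible. Then the restriction of `K ⊗ W[p]` to `G` is irreducible, for every subgroup `G` of index two
of `Gal(Q̄/ℚ)` and every field `K` of characteristic `p`. (Taylor and Wiles need this only for the quadratic
field contained in the `p`-th cyclotomic field; S56 asks for it for all subgroups of index two, also for
those which are not open.)

**The proof.** Suppose that there is a `G`-stable line.
* Then there is a basis in which `G` is diagonal and its complement antidiagonal (`IsDih`, section 2). So
  the elements of `G` commute, and unipotent elements are trivial.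
* Inertia at the primes `q ≠ p` is unipotent, since `W` is semistable, hence trivial. So `W[p]` is
  unramified outside `p`, and so is the quadratic field of `G`. There is only one quadratic field which is
  unramified outside `p` (section 1). In the language of groups: `G` is the only subgroup of index two
  which contains the kernel of the representation.
* The image is a 2-group. For `p = 3`: the order of `GL₂(𝔽₃)` is 48, so `σ^16` has order 1 or 3, hence is
  unipotent, hence trivial. For `p = 5`: `G` is the kernel of the quadratic character of the determinant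
  (section 4). It contains complex conjugation, since `-1 = 2²` in `𝔽₅`. So all elements of `G` commute with
  complex conjugation, hence are diagonal over `𝔽₅` in a basis of its eigenvectors, hence have fourth power
  one; the other elements have eighth power one.
* A 2-group with only one subgroup of index two is cyclic (section 3). So everything commutes with complex
  conjugation, and the eigenlines of complex conjugation are stable: a contradiction.

**Where it is used.** The result is the hypothesis `hTW` of S56, for the representations `W[3]` and `W[5]`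
in the theorem that semistable curves are modular. All theorems cited here are in the closures of exactly
S01, S03, S04, S06, S38, S45, S46, S50, S59 and S60. For every odd `p`, as needed for S38:
`GuideTWCondition.condition`. Notes: NOTES-EC10-TW (helper73). Files `H73TWAlg`, `H73TW`, `H73Quad`
(helper73).
-/

set_option autoImplicit false

noncomputable section

open scoped TensorProduct

namespace Fermat.Agent.Guide.TWDihedral

local notation "Qbar" => AlgebraicClosure ℚ
local notation "GQ" => (AlgebraicClosure ℚ ≃ₐ[ℚ] AlgebraicClosure ℚ)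

/-! ## 1. Inertia groups and square roots of integers -/

section Inertia

variable {p : ℕ} {A : ValuationSubring Qbar}

/-- **Square roots of units.** `A` is a place above the odd prime `p`, `σ` an element of its inertia group,
`z` a unit at `A` with `σ z = ± z`. Then `σ z = z`, since `-2 z` is a unit and `σ z - z` is not. File
`H73Quad`. -/
theorem unit_is_fixed (hp : p.Prime) (hp2 : p ≠ 2) (hA : A.LiesOverPrime p) {z : Qbar}
    (hz : A.valuation z = 1) {σ : GQ} (hσ : σ ∈ A.inertiaSubgroupIn ℚ) (h : σ z = z ∨ σ z = -z) :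
    σ z = z :=
  H73.Quad.fix_of_unit hp hp2 hA hz hσ h

/-- **Even valuation.** `x² = m` is an integer and `p` divides `m` exactly `2 j` times. Then `x / pʲ` is a
unit, so inertia at `p` fixes `x`. File `H73Quad`. -/
theorem even_valuation (hp : p.Prime) (hp2 : p ≠ 2) (hA : A.LiesOverPrime p) {x : Qbar} {m : ℤ}
    (hx : x ^ 2 = (m : Qbar)) (hm : m ≠ 0) {j : ℕ} (hj : padicValInt p m = 2 * j) {σ : GQ}
    (hσ : σ ∈ A.inertiaSubgroupIn ℚ) (h : σ x = x ∨ σ x = -x) : σ x = x :=
  H73.Quad.inertia_sqrt_even hp hp2 hA hx hm hj hσ h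

/-- **Two odd valuations.** If `x² = m` and `y² = n` have odd valuation at `p`, then inertia at `p` fixes
the product `x y`. This gives `GuideCurvesTate.unique_quadratic_field`: let `G₁`, `G₂` be the stabilisers of
`x` and `y` (`GuideAbsGal`), both containing all inertia groups outside `p`. The valuations of `m` and `n`
at `p` are odd, since otherwise all inertia groups fix `x` (or `y`), and `ℚ` has no unramified extension
`≠ ℚ`. So all inertia groups fix `x y`, hence `x y` is rational, and `G₁ = G₂`. File `H73Quad`. -/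
theorem odd_valuations (hp : p.Prime) (hp2 : p ≠ 2) (hA : A.LiesOverPrime p) {x y : Qbar}
    {m n : ℤ} (hx : x ^ 2 = (m : Qbar)) (hy : y ^ 2 = (n : Qbar)) (hm : m ≠ 0) (hn : n ≠ 0)
    (hmo : Odd (padicValInt p m)) (hno : Odd (padicValInt p n)) {σ : GQ}
    (hσ : σ ∈ A.inertiaSubgroupIn ℚ) (h : σ x = x ∨ σ x = -x) (h' : σ y = y ∨ σ y = -y) :
    σ (x * y) = x * y :=
  H73.Quad.inertia_sqrt_mul hp hp2 hA hx hy hm hn hmo hno hσ h h'

end Inertia

/-! ## 2. Dihedral form -/

section Dihedral

variable {k K V Γ : Type*} [Field k] [Field K] [Algebra k K] [AddCommGroup V] [Module k V]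
  [Group Γ] {ρ : Γ →* Module.End k V} {G : Subgroup Γ}
  {b : Module.Basis (Fin 2) K (K ⊗[k] V)}

/-- **The definition.** `IsDih ρ G b`: in the basis `b` of `K ⊗ V` the elements of `G` are diagonal and the
other elements antidiagonal. File `H73TWAlg`. -/
theorem isDih_iff :
    H73.TW.IsDih ρ G b ↔
      (∀ g ∈ G, ∃ x y : K, (ρ g).baseChange K (b 0) = x • b 0 ∧
        (ρ g).baseChange K (b 1) = y • b 1) ∧
      ∀ g ∉ G, ∃ x y : K, (ρ g).baseChange K (b 0) = x • b 1 ∧
        (ρ g).baseChange K (b 1) = y • b 0 :=
  Iff.rfl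

/-- **The elements of `G` commute**: diagonal matrices over `K`, and the extension of scalars from `End V`
to `End (K ⊗ V)` is injective. File `H73TWAlg`. -/
theorem elements_commute (hb : H73.TW.IsDih ρ G b) {g h : Γ} (hg : g ∈ G) (hh : h ∈ G) :
    ρ g * ρ h = ρ h * ρ g :=
  hb.commute hg hh

end Dihedral

/-! ## 3. A cyclicity criterion -/

/-- **A finite 2-group with only one subgroup of index two is cyclic**, stated for the image of a
homomorphism `f : Γ → M` whose order is `2ᵐ`. `G` is the only subgroup of index two of `Γ` which contains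
the kernel. Then every element `h` outside `G` generates the image: the subgroup generated by `f h` is
otherwise contained in a subgroup of index two (Sylow), and this is the image of `G`. File `H73TWAlg`. -/
theorem image_is_cyclic {Γ M : Type*} [Group Γ] [Group M] (f : Γ →* M) [Finite f.range] {m : ℕ}
    (hcard : Nat.card f.range = 2 ^ m) (G : Subgroup Γ)
    (huniq : ∀ G' : Subgroup Γ, f.ker ≤ G' → G'.index = 2 → G' = G) {h : Γ} (hh : h ∉ G) (σ : Γ) :
    ∃ n : ℤ, f σ = f h ^ n :=
  H73.TW.exists_zpow_eq f hcard G huniq hh σ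

/-! ## 4. Linear algebra -/

/-- **Commuting with an involution.** If `C` has the eigenvectors `b₀`, `b₁` with the eigenvalues `1`, `-1`,
then every `T` which commutes with `C` is diagonal in this basis, in characteristic different from two. File
`H73TWAlg`. -/
theorem diagonal_of_commute {k V : Type*} [Field k] [AddCommGroup V] [Module k V]
    (h2 : (2 : k) ≠ 0) {b : Module.Basis (Fin 2) k V} {C T : Module.End k V} (h0 : C (b 0) = b 0)
    (h1 : C (b 1) = - b 1) (hCT : C * T = T * C) :
    ∃ x y : k, T (b 0) = x • b 0 ∧ T (b 1) = y • b 1 :=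
  H73.TW.exists_eig h2 h0 h1 hCT

/-- **Irreducible representations do not commute with complex conjugation.** `ρ` is irreducible on a plane
(characteristic not two), `ρ(c)² = 1` and `det ρ(c) = -1`. Then `ρ(c)` does not commute with all `ρ(σ)`,
since otherwise its eigenlines are stable (`diagonal_of_commute`). File `H73TWAlg`. -/
theorem not_all_commute {k V Γ : Type*} [Field k] [AddCommGroup V] [Module k V] [Group Γ]
    (h2 : (2 : k) ≠ 0) (hV : Module.finrank k V = 2) (ρ : Γ →* Module.End k V)
    (hirr : ∀ W : Submodule k V, (∀ σ, ∀ x ∈ W, ρ σ x ∈ W) → W = ⊥ ∨ W = ⊤)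
    (c : Γ) (hc : ρ c * ρ c = 1) (hdet : LinearMap.det (ρ c) = -1)
    (hcomm : ∀ σ, ρ c * ρ σ = ρ σ * ρ c) : False :=
  H73.TW.false_of_commute h2 hV ρ hirr c hc hdet hcomm

/-- **Order of diagonal elements.** An invertible `T` which is diagonal over `𝔽_p` satisfies
`T ^ (p - 1) = 1` (the small theorem of Fermat). Used for `p = 5`. File `H73TWAlg`. -/
theorem power_of_diagonal {p : ℕ} [Fact p.Prime] {V : Type*} [AddCommGroup V] [Module (ZMod p) V]
    {b : Module.Basis (Fin 2) (ZMod p) V} {T T' : Module.End (ZMod p) V} (hT : T' * T = 1)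
    (h : ∃ x y : ZMod p, T (b 0) = x • b 0 ∧ T (b 1) = y • b 1) : T ^ (p - 1) = 1 :=
  H73.TW.pow_eq_one_of_eig hT h

/-- **The order of `GL₂(𝔽₃)` is 48.** Used for `p = 3`. File `H73TWAlg`. -/
theorem order_for_three {V : Type*} [AddCommGroup V] [Module (ZMod 3) V]
    (hV : Module.finrank (ZMod 3) V = 2) (u : (Module.End (ZMod 3) V)ˣ) : u ^ 48 = 1 :=
  H73.TW.pow_48 hV u

/-- **The quadratic character of the determinant** `qdet ρ : Γ → {1, -1}`. If it is not trivial, its kernel
has index two. File `H73TWAlg`. -/
theorem determinant_character {p : ℕ} [Fact p.Prime] {V Γ : Type*} [AddCommGroup V]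
    [Module (ZMod p) V] [Group Γ] (ρ : Γ →* Module.End (ZMod p) V) :
    (∀ σ, ((H73.TW.qdet ρ σ : ℤˣ) : ℤ) = quadraticChar (ZMod p) (LinearMap.det (ρ σ))) ∧
    ∀ τ : Γ, H73.TW.qdet ρ τ ≠ 1 → (H73.TW.qdet ρ).ker.index = 2 :=
  ⟨H73.TW.qdet_apply ρ, fun _ hτ => H73.TW.index_ker_qdet ρ hτ⟩

/-! ## 5. The theorem -/

/-- **The theorem for abstract groups.** `p = 3` or `p = 5`; `ρ` is an irreducible representation of the
group `Γ` on a plane over `𝔽_p`, `c` an involution with determinant `-1`, some determinant is not a square,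
and `S` is a set of elements with unipotent image such that there is at most one subgroup of index two which
contains `S` and the kernel of `ρ` (`huniq`). Then `K ⊗ V` has no line which is stable under a subgroup `G`
of index two. For the proof see the header. File `H73TWAlg`. -/
theorem abstract_theorem {p : ℕ} [Fact p.Prime] {V Γ : Type*} [AddCommGroup V] [Module (ZMod p) V]
    [Group Γ] {K : Type*} [Field K] [Algebra (ZMod p) K] (h35 : p = 3 ∨ p = 5)
    (hV : Module.finrank (ZMod p) V = 2) (ρ : Γ →* Module.End (ZMod p) V)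
    (hirr : ∀ W : Submodule (ZMod p) V, (∀ σ, ∀ x ∈ W, ρ σ x ∈ W) → W = ⊥ ∨ W = ⊤)
    (c : Γ) (hc : ρ c * ρ c = 1) (hdet : LinearMap.det (ρ c) = -1)
    (hτ : ∃ τ, H73.TW.qdet ρ τ ≠ 1)
    (S : Set Γ) (hS : ∀ σ ∈ S, IsNilpotent (ρ σ - 1))
    (huniq : ∀ G₁ G₂ : Subgroup Γ, G₁.index = 2 → G₂.index = 2 →
      (∀ σ, ρ σ = 1 → σ ∈ G₁) → (∀ σ, ρ σ = 1 → σ ∈ G₂) → S ⊆ G₁ → S ⊆ G₂ → G₁ = G₂)
    (G : Subgroup Γ) (hG : G.index = 2) (L : Submodule K (K ⊗[ZMod p] V))
    (hL : ∀ σ ∈ G, ∀ x ∈ L, (ρ σ).baseChange K x ∈ L) : L = ⊥ ∨ L = ⊤ :=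
  H73.TW.core h35 hV ρ hirr c hc hdet hτ S hS huniq G hG L hL

/-- **The cyclotomic character is surjective**: for `a` prime to `n` some `σ` raises all `n`-th roots of
unity to the power `a`, because the cyclotomic polynomials are irreducible over `ℚ`. With `a = 2` and the
determinant of `W[p]` (the cyclotomic character) it gives the hypothesis `hτ`, since 2 is not a square
modulo 3 and modulo 5. File `H73TW`. -/
theorem cyclotomic_surjective :
    (∀ {n a : ℕ}, 0 < n → a.Coprime n → ∃ σ : GQ, ∀ μ : Qbar, μ ^ n = 1 → σ μ = μ ^ a) ∧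
    (∀ r : ZMod 3, ((2 : ℕ) : ZMod 3) ≠ r * r) ∧ ∀ r : ZMod 5, ((2 : ℕ) : ZMod 5) ≠ r * r :=
  ⟨H73.TW.exists_cyclo, H73.TW.not_sq_three, H73.TW.not_sq_five⟩

/-- **Inertia outside `p` is unipotent** on `W[p]`, if `W` is semistable. `inertiaSet p`, the union of the
inertia groups of all places above primes `q ≠ p`, is the set `S` of `abstract_theorem`. The hypothesis
`huniq` is `GuideCurvesTate.unique_quadratic_field`: a subgroup which contains the kernel is open. File
`H73TW`. -/
theorem inertia_unipotent (W : WeierstrassCurve ℤ) (hΔ : W.Δ ≠ 0) {p : ℕ} [Fact p.Prime] :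
    (∀ σ : GQ, σ ∈ H73.TW.inertiaSet p ↔ ∃ q : ℕ, q.Prime ∧ q ≠ p ∧ ∃ A : ValuationSubring Qbar,
      A.LiesOverPrime q ∧ σ ∈ A.inertiaSubgroupIn ℚ) ∧
    (W.IsSemistableModel → ∀ σ ∈ H73.TW.inertiaSet p,
      IsNilpotent ((H87.Glue.resZ W hΔ p).ρ σ - 1)) :=
  ⟨fun _ => Iff.rfl, fun hW _ hσ => H73.TW.isNilpotent_resZ W hΔ hW hσ⟩

/-- **Isomorphic representations.** The condition "only `0` and `K ⊗ V` are stable under `S`" carries over
to every `K`-vector space `U` with an action of `Γ` which is isomorphic to `K ⊗ V`. File `H73TW`. -/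
theorem transport {k K V U Γ : Type*} [Field k] [Field K] [Algebra k K] [AddCommGroup V]
    [Module k V] [AddCommGroup U] [Module K U] (ρ : Γ → Module.End k V) (r : Γ → Module.End K U)
    (e : (K ⊗[k] V) ≃ₗ[K] U) (he : ∀ σ x, e ((ρ σ).baseChange K x) = r σ (e x)) (S : Set Γ)
    (h : ∀ L : Submodule K (K ⊗[k] V), (∀ σ ∈ S, ∀ x ∈ L, (ρ σ).baseChange K x ∈ L) →
      L = ⊥ ∨ L = ⊤)
    (L : Submodule K U) (hL : ∀ σ ∈ S, ∀ x ∈ L, r σ x ∈ L) : L = ⊥ ∨ L = ⊤ :=
  H73.TW.hTW_transport ρ r e he S h L hL

/-- **The hypothesis `hTW` of S56**, for every residual representation `ρbar` over a field `k` which is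
isomorphic to `k ⊗ W[p]`. File `H73TW`. -/
theorem condition_of_S56 (W : WeierstrassCurve ℤ) (hΔ : W.Δ ≠ 0) {p : ℕ} [Fact p.Prime]
    (h35 : p = 3 ∨ p = 5) (hW : W.IsSemistableModel) (hirr : W.ModRepIsIrreducible p) {k : Type}
    [Field k] (φ : ZMod p →+* k) (ρbar : ResidualGaloisRep k)
    (hρ : ((H87.Glue.resZ W hΔ p).baseChangeAlong φ).IsEquiv ρbar)
    (K : Type) [Field K] [Algebra k K] (G : Subgroup GQ) (hG : G.index = 2)
    (L : Submodule K (ρbar.baseChange K).V)
    (hL : ∀ σ ∈ G, ∀ x ∈ L, (ρbar.baseChange K).ρ σ x ∈ L) : L = ⊥ ∨ L = ⊤ :=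
  H73.TW.hTW_of_isEquiv W hΔ h35 hW hirr φ ρbar hρ K G hG L hL

end Fermat.Agent.Guide.TWDihedral
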