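import Fermat.Agent.H70Lev11

/-!
# Guide: the modules of Taylor-Wiles levels (sequel to `GuideCohomology`)

Statements served: S38, S43 (through the theorem called LL, `H59LL6`), S59, S60, and through them S01,
S03, S04, S06, S45, S46, S50 (`specialisation_hecke` not for S43). The patching argument takes as input,
for every set `Q` of auxiliary primes, a "module part" (`TWModPart`): a module over the deformation ring,
free over `O[Δ]` where `Δ` is a finite quotient of the units modulo the primes of `Q`, of rank bounded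
independently of `Q`, together with relations which come from the local conditions. This file shows how
it is obtained from `H¹(Γ₀(M), R_ψ)` (notation of `GuideCohomology`). Reading order:

1. characters: `O[Δ]`-valued characters `η` of `(ℤ/N)ˣ`, their specialisations at characters of `Δ`
   (`H70Grp`, `H70Char`, `H70Chars`, `H70Lev6`);
2. the operators `T'_ℓ = η(ℓ)⁻¹ T_ℓ` for `ψ = η²`, local idempotents, and the localised module `MLoc`:
   free over the local coefficient ring, of rank independent of ring and character, compatible with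
   congruences (`H70Mod`, `H70Mod2`, `H70HH`, `H70Lev7`);
3. the Hecke algebra of cusp forms of weight two and level `L = M N` acts on it, since twisting by `η`
   embeds the cohomology over fields in the one of `Γ₀(L)` with trivial character (`H70Lev2`, `H70Lev3`);
4. old and new: traces to lower level vanish if the localised module of lower level is zero
   (`H70Pt`, `H70Lev7`);
5. points: eigenvectors over extensions `O'` of `O` are eigenclasses in `H¹(Γ₀(M), O'_{χη²})`
   (`H70Pt`, `H70Lev5`, `H70Lev7`, `H70Lev8`, `H70Lev9`);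
6. the final theorem `exists_module_part` (`H70Lev10`, `H70Lev11`).

The final theorem is used for theorem LL (`GuideLevelsIhara`; the points of its levels:
`GuideLevelsPoints`), that is, for S38, S43, S45, S03, S01. The levels of S59 and S60 (`GuideLifting`,
`GuideLiftingHecke`, which has the twist embedding and the localised module under the names
`twist_embedding`, `localised_part`, `isLocIdem_iff`) use the other steps (but neither
`exists_hecke_action` nor `point_of_smaller_conductor`), applied to chains of levels (`H21MDesc`,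
`H21MLev`, `H41Step`). The eigenclasses of 5 are translated into cusp forms and Galois representations in
`GuideEigen` and `GuideHeckeRings`. Notes: NOTES.md, sections 3.5 and 3.7, and NOTES-MODLIFT-MODULES [201]
(helper70).

**Notation.** `S` is a set of primes, `Idx S` the type of primes outside `S`, and `Away M S` says that `S`
contains the primes dividing `M`; `MvPolynomial (Idx S) O` is the polynomial ring over `O` in the symbols
`T_ℓ`, `ℓ ∉ S`; `H59.act T hT P` is the value of the polynomial `P` at commuting operators `T`. An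
eigensystem is a ring homomorphism `θ` from it to a field `κ`. `H37.Rank.HH O M` is `H¹(Γ₀(M), O)` for the
trivial character (auxiliary level `1`), and `H37.Rank.TT O hS` the family of its operators `T_ℓ`.
`psiMap f η` is the composition of a character `η : (ℤ/N)ˣ → Rˣ` with `f : R → R'`. `Dlt p e` is the
product of the cyclic groups of order `p ^ e j`.
-/

set_option autoImplicit false

open CongruenceSubgroup IsLocalRing CuspForm
open scoped MatrixGroups TensorProduct

namespace Fermat.Agent.Guide.TWModules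

open Fermat.Agent.H70 Fermat.Agent.H70.Coh Fermat.Agent.H70.Mod
open Fermat.Agent.H59 (IsLocIdem Loc act)
open Fermat.Agent.H37.Rank (TT TT_comm Adm)
open Fermat.Agent.H69.EG (Dlt TWModPart)
open Fermat.Agent.H30 (thetaPoly toLocal TIdx)

/-! ## 1. Characters -/

/-- **Group rings**: for a local ring `O` with `p ∈ 𝔪_O` and a finite commutative `p`-group `Δ` the ring
`O[Δ]` is local (`H70Grp`: every maximal ideal is the kernel of the augmentation to the residue field,
since `g - 1` is nilpotent modulo `p` for `g ∈ Δ`). -/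
theorem group_ring_local {O Δ : Type} [CommRing O] [CommGroup Δ] [IsLocalRing O] [Finite Δ] {p : ℕ}
    (hp : p.Prime) (hpm : (p : O) ∈ maximalIdeal O) (hΔ : IsPGroup p Δ) :
    IsLocalRing (MonoidAlgebra O Δ) :=
  Grp.isLocalRing hp hpm hΔ

/-- **Specialisation at a character `x : Δ → Kˣ`** is the map `evS` from `K ⊗ H¹(Γ₀(M), O[Δ]_ψ)` to
`H¹(Γ₀(M), K_{xψ})` induced by the ring homomorphism `evC x : O[Δ] → K`, `g ↦ x(g)`; it commutes with all
Hecke families (`H70Chars`). Here `xpsi ψ x` is the composition of `ψ` with `evC x`. -/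
theorem specialisation_hecke {N M M' : ℕ} (hM : N ∣ M) {hM' : N ∣ M'} {O K Δ : Type} [CommRing O]
    [CommRing K] [Algebra O K] [CommGroup Δ] (ψ : (ZMod N)ˣ →* (MonoidAlgebra O Δ)ˣ)
    (h : HFam (gam N M hM) (gam N M' hM')) (x : Δ →* Kˣ)
    (v : K ⊗[O] H1 (gam N M hM) (psiRep ψ (MonoidAlgebra O Δ))) :
    evS hM' ψ x (((h.opH (psiRep ψ (MonoidAlgebra O Δ))).restrictScalars O).baseChange K v) =
      h.opH (psiRep (xpsi ψ x) K) (evS hM ψ x v) :=
  evS_opH hM ψ h x v

/-- **The specialisations at all characters of a finite group `Δ` are jointly injective** on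
`K ⊗ H¹(Γ₀(M), O[Δ]_ψ)`, for a field `K` of characteristic zero with enough roots of unity
(`H70Chars`; idempotents of `K[Δ]` and base change). -/
theorem specialisations_injective {N M : ℕ} (hM : N ∣ M) {O Δ : Type} [CommRing O] [CommGroup Δ]
    (ψ : (ZMod N)ˣ →* (MonoidAlgebra O Δ)ˣ) (hg : Good M (MonoidAlgebra O Δ)) (hψ : ψ (-1) = 1)
    {K : Type} [Field K] [Algebra O K] [NeZero M] [Finite Δ] [CharZero K]
    [HasEnoughRootsOfUnity K (Monoid.exponent Δ)]
    (v : K ⊗[O] H1 (gam N M hM) (psiRep ψ (MonoidAlgebra O Δ)))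
    (hv : ∀ x : Δ →* Kˣ, evS hM ψ x v = 0) : v = 0 :=
  eq_zero_of_evS hM ψ hg hψ v hv

/-- **The universal character at the auxiliary primes `Q j`** is `etaL hQN u τ`. It maps `a ∈ (ℤ/N)ˣ` to
`[u_j(a mod Q_j)]_j τ(a)` in `O[Δ]`, where `Δ = Dlt p e`, `u_j` is a homomorphism from `(ℤ/Q_j)ˣ` to the
cyclic group of order `p ^ e j` (in the applications surjective; a surjective one exists if `p ^ e j`
divides `Q j - 1`), and `τ` has values in `Oˣ` (`H70Lev6`). -/
theorem universal_character {O : Type} [CommRing O] {p r : ℕ} {e : Fin r → ℕ} {N : ℕ} {Q : Fin r → ℕ}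
    (hQN : ∀ j, Q j ∣ N) (u : ∀ j, (ZMod (Q j))ˣ →* Multiplicative (ZMod (p ^ e j)))
    (τ : (ZMod N)ˣ →* Oˣ) (a : (ZMod N)ˣ) :
    ((etaL hQN u τ a : (MonoidAlgebra O (Dlt p e))ˣ) : MonoidAlgebra O (Dlt p e)) =
      MonoidAlgebra.of O (Dlt p e) (fun j => u j (ZMod.unitsMap (hQN j) a)) *
        algebraMap O _ ((τ a : Oˣ) : O) :=
  rfl

/-- **A character `τ` with `τ^p = 1`, ramified exactly at given primes** `qT t ≡ 1 (mod p)`, built from a
`p`-th root of unity `ζ ≠ 1` of `O` (`H70Lev6`). `TrivAt N q τ` says that `τ(a) = 1` for all `a` which are `1`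
modulo `N / q` (by definition it holds if `q` does not divide `N`). As `ζ ≡ 1` modulo the maximal ideal,
the cohomology with and without `τ` are congruent (`congruence` below); with `τ` the eigensystems are
twists of forms with a local condition at `qT t` (trick of Taylor to avoid Ihara's lemma). -/
theorem exists_ramified_character {O : Type} [CommRing O] {p N : ℕ} [NeZero N] (hsq : Squarefree N)
    {T : Type} [Finite T] (qT : T → ℕ) (hqT : ∀ t, (qT t).Prime) (hinj : Function.Injective qT)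
    (hdvd : ∀ t, qT t ∣ N) (hp : ∀ t, p ∣ qT t - 1) (ζ : Oˣ) (hζ : ζ ^ p = 1) (hζ1 : ζ ≠ 1) :
    ∃ τ : (ZMod N)ˣ →* Oˣ, τ ^ p = 1 ∧ (∀ t, ¬ TrivAt N (qT t) τ) ∧
      ∀ q : ℕ, q.Prime → (∀ t, qT t ≠ q) → TrivAt N q τ :=
  exists_tau hsq qT hqT hinj hdvd hp ζ hζ hζ1

/-- **The specialisation at `χ` of the universal character is unramified at all `Q j` if and only if
`χ = 1`**, for `τ` unramified at the `Q j` (`H70Lev6`). So the characters of `Δ` see exactly the
ramification at the auxiliary primes. -/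
theorem unramified_iff {O O' : Type} [CommRing O] [CommRing O'] [Algebra O O'] {p r : ℕ}
    {e : Fin r → ℕ} {N : ℕ} [NeZero N] (hsq : Squarefree N) {Q : Fin r → ℕ} (hQ : ∀ j, (Q j).Prime)
    (hinj : Function.Injective Q) (hQN : ∀ j, Q j ∣ N)
    {u : ∀ j, (ZMod (Q j))ˣ →* Multiplicative (ZMod (p ^ e j))} (hu : ∀ j, Function.Surjective (u j))
    {τ : (ZMod N)ˣ →* Oˣ} (hτ : ∀ j, TrivAt N (Q j) τ) (χ : Dlt p e →* O'ˣ) :
    (∀ j, TrivAt N (Q j) (psiMap (evC (O := O) χ).toRingHom (etaL hQN u τ))) ↔ ∀ g, χ g = 1 :=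
  trivAt_iff hsq hQ hinj hQN hu hτ χ

/-! ## 2. The localised module -/

/-- **The twisted operators** `tw hM hS ψ η ℓ = η(ℓ)⁻¹ T_ℓ` on `H¹(Γ₀(M), R_ψ)`, `ℓ ∉ S` (`H70Mod`). In all
applications `ψ = η²`; then an eigenclass of `T'_ℓ` with eigenvalue `λ_ℓ` belongs to the eigensystem
`η(ℓ) λ_ℓ` with nebentype `η²`, a twist of an eigensystem with trivial nebentype. -/
theorem twisted_operator {N M : ℕ} (hM : N ∣ M) {S : Set ℕ} (hS : Away M S) {R : Type} [CommRing R]
    (ψ η : (ZMod N)ˣ →* Rˣ) (i : Idx S) (x : H1 (gam N M hM) (psiRep ψ R)) :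
    tw hM hS ψ η i x = (((η (ZMod.unitOfCoprime i.1
      (coprime_of_not_dvd i.2.1 (hS.not_dvd i) hM)))⁻¹ : Rˣ) : R) •
        (tFam hM i.2.1 (hS.not_dvd i)).opH (psiRep ψ R) x :=
  rfl

/-- **The twisted operators commute** (`H70Mod`, from `Guide.Cohomology.T_comm`). -/
theorem twisted_operators_commute {N M : ℕ} (hM : N ∣ M) {S : Set ℕ} (hS : Away M S) {R : Type}
    [CommRing R] (ψ η : (ZMod N)ˣ →* Rˣ) (i j : Idx S) :
    tw hM hS ψ η i * tw hM hS ψ η j = tw hM hS ψ η j * tw hM hS ψ η i :=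
  tw_comm hM hS ψ η i j

/-- **Local idempotents** (`H59Loc`). A polynomial `e` with coefficients in `O` is a local idempotent for
commuting operators `T` and the eigensystem `θ` if `θ(e) = 1`, `e(T)` is idempotent, and every
polynomial `s` with `θ(s) ≠ 0` is invertible on the image of `e(T)`. The localised module
`MLoc hM hS ψ η e` is the image of `e(T')` on `H¹(Γ₀(M), R_ψ)`. -/
theorem local_idempotent_iff {N M : ℕ} (hM : N ∣ M) {S : Set ℕ} (hS : Away M S) {R : Type} [CommRing R]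
    (ψ η : (ZMod N)ˣ →* Rˣ) {O : Type} [CommRing O] [Algebra O R] {κ : Type} [Field κ]
    (θ : MvPolynomial (Idx S) O →+* κ) (e : MvPolynomial (Idx S) O) :
    IsLocIdem (tw hM hS ψ η) (tw_comm hM hS ψ η) θ e ↔
      θ e = 1 ∧ act (tw hM hS ψ η) (tw_comm hM hS ψ η) e * act (tw hM hS ψ η) (tw_comm hM hS ψ η) e =
        act (tw hM hS ψ η) (tw_comm hM hS ψ η) e ∧
      ∀ s, θ s ≠ 0 → ∃ s', act (tw hM hS ψ η) (tw_comm hM hS ψ η) (s * s' * e) =
        act (tw hM hS ψ η) (tw_comm hM hS ψ η) e :=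
  ⟨fun h => ⟨h.residue, h.idem, h.inv⟩, fun h => ⟨h.1, h.2.1, h.2.2⟩⟩

/-- **One idempotent for all modules.** Let `O` be a complete noetherian local ring, `Λ` a finite
`O`-algebra and `θ` an eigensystem with values in the residue field. There is one polynomial `e`
which is a local idempotent for two pairs of characters `ψ, η` at level `M`, for one pair at level `M'`,
and for the cohomology with trivial character at all levels dividing `L` (`H70Lev7`; idempotents of the
finite `O`-algebra generated by all these operators together). -/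
theorem exists_common_idempotent {N M N' M' : ℕ} (hM : N ∣ M) (hM' : N' ∣ M') {S : Set ℕ}
    (hS : Away M S) (hS' : Away M' S) {O : Type} [CommRing O] [IsLocalRing O] [IsNoetherianRing O]
    [IsAdicComplete (maximalIdeal O) O] {Λ : Type} [CommRing Λ] [Algebra O Λ] [Module.Finite O Λ]
    (hg : Good M Λ) (hg' : Good M' Λ) {κ : Type} [Field κ] (θ : MvPolynomial (Idx S) O →+* κ)
    (hθs : ∀ x : κ, ∃ a, θ (MvPolynomial.C a) = x) [NeZero M] [NeZero M'] {L : ℕ} [NeZero L]
    (hL : Away L S) (ψ η : Bool → ((ZMod N)ˣ →* Λˣ)) (hψ : ∀ b, ψ b (-1) = 1)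
    (ψ' η' : (ZMod N')ˣ →* Λˣ) (hψ' : ψ' (-1) = 1) :
    ∃ e : MvPolynomial (Idx S) O,
      (∀ b, IsLocIdem (tw hM hS (ψ b) (η b)) (tw_comm hM hS (ψ b) (η b)) θ e) ∧
      (∀ (L' : ℕ) (hL' : Adm S L'), L' ∣ L → IsLocIdem (TT O hL') (TT_comm hL') θ e) ∧
      IsLocIdem (tw hM' hS' ψ' η') (tw_comm hM' hS' ψ' η') θ e :=
  exists_common_idem₂ hM hM' hS hS' hg hg' θ hθs hL ψ η hψ ψ' η' hψ'

/-- **The localised module is free of finite rank** over a local ring `R`, if the characters are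
residually trivial and `θ` is not Eisenstein at one prime `ℓ = i₀`: `θ(T_ℓ) ≠ 1 + ℓ` (`H70Mod`, from
`Guide.Cohomology.summand_projective`: `T_ℓ - (ψ(ℓ) + ℓ)` is invertible on `MLoc` by Nakayama's lemma). -/
theorem localised_module_free {N M : ℕ} (hM : N ∣ M) {S : Set ℕ} (hS : Away M S) {R : Type}
    [CommRing R] (ψ η : (ZMod N)ˣ →* Rˣ) {O : Type} [CommRing O] [Algebra O R] (hg : Good M R)
    (hψ : ψ (-1) = 1) {κ : Type} [Field κ] {θ : MvPolynomial (Idx S) O →+* κ}
    {e : MvPolynomial (Idx S) O} [NeZero M] [IsLocalRing R]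
    (he : IsLocIdem (tw hM hS ψ η) (tw_comm hM hS ψ η) θ e)
    (hψ1 : ∀ u, ((ψ u : Rˣ) : R) - 1 ∈ maximalIdeal R)
    (hη1 : ∀ u, ((η u : Rˣ) : R) - 1 ∈ maximalIdeal R)
    (i₀ : Idx S) (hi₀ : θ (MvPolynomial.X i₀) ≠ 1 + (i₀.1 : κ)) :
    Module.Free R (MLoc hM hS ψ η e) ∧ Module.Finite R (MLoc hM hS ψ η e) :=
  loc_free hM hS ψ η hg hψ he hψ1 hη1 i₀ hi₀

/-- **The rank does not depend on the ring and the characters**: over a local `O`-algebra `R` it is
the rank of the localisation of `H¹(Γ₀(M), O)` with trivial characters, since both are the dimension over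
a residue field (`H70Mod2`, base change). -/
theorem rank_eq {N M : ℕ} (hM : N ∣ M) {S : Set ℕ} (hS : Away M S) {O : Type} [CommRing O]
    [IsLocalRing O] {κ : Type} [Field κ] {θ : MvPolynomial (Idx S) O →+* κ}
    {e : MvPolynomial (Idx S) O} (i₀ : Idx S) (hi₀ : θ (MvPolynomial.X i₀) ≠ 1 + (i₀.1 : κ))
    {R : Type} [CommRing R] [IsLocalRing R] [Algebra O R] (ψ η : (ZMod N)ˣ →* Rˣ) [NeZero M]
    (hgO : Good M O) (hgR : Good M R) (hψ : ψ (-1) = 1)
    (heO : IsLocIdem (tw (R := O) hM hS 1 1) (tw_comm hM hS 1 1) θ e)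
    (heR : IsLocIdem (tw hM hS ψ η) (tw_comm hM hS ψ η) θ e) (hψ1 : ResTriv ψ) (hη1 : ResTriv η) :
    Module.finrank R (MLoc hM hS ψ η e) = Module.finrank O (MLoc (R := O) hM hS 1 1 e) :=
  finrank_mloc_eq hM hS i₀ hi₀ ψ η hgO hgR hψ heO heR hψ1 hη1

/-- **A basis over `O[Δ]`**, written as an `O`-basis `b(i, g) = ⟨g⟩ b(i, 1)`: for `ψ, η` with values in
`O[Δ]ˣ` and of `p`-power order the localised module is free over `O[Δ]` of rank `d`, the rank of the
localisation of `H¹(Γ₀(M), O)`; `diam` is multiplication by the elements of `Δ` (`H70Lev4`). -/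
theorem exists_basis {N M : ℕ} [NeZero M] (hM : N ∣ M) {S : Set ℕ} (hS : Away M S) {O : Type}
    [CommRing O] [IsLocalRing O] {Δ : Type} [CommGroup Δ] [Finite Δ]
    {ψ η : (ZMod N)ˣ →* (MonoidAlgebra O Δ)ˣ} {κ : Type} [Field κ]
    {θ : MvPolynomial (Idx S) O →+* κ} {e : MvPolynomial (Idx S) O} {p : ℕ} (hp : p.Prime)
    (hpO : (p : O) ∈ maximalIdeal O) (hΔ : IsPGroup p Δ) (hgΛ : Good M (MonoidAlgebra O Δ))
    (hψ1 : ψ (-1) = 1) (heΛ : IsLocIdem (tw hM hS ψ η) (tw_comm hM hS ψ η) θ e) (i₀ : Idx S)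
    (hi₀ : θ (MvPolynomial.X i₀) ≠ 1 + (i₀.1 : κ)) {s : ℕ} (hψs : ψ ^ p ^ s = 1)
    (hηs : η ^ p ^ s = 1) (hgO : Good M O) (hSM : Adm S M)
    (he : IsLocIdem (TT O hSM) (TT_comm hSM) θ e) {d : ℕ}
    (hd : Module.finrank O (Loc (TT O hSM) (TT_comm hSM) e) = d) :
    ∃ b : Module.Basis (Fin d × Δ) O (MLoc hM hS ψ η e),
      ∀ i g, b (i, g) = diam hM hS ψ η e g (b (i, 1)) :=
  exists_mloc_basis hM hS hp hpO hΔ hgΛ hψ1 heΛ i₀ hi₀ hψs hηs hgO hSM he hd

/-- **Congruent characters have congruent localised modules**: if `ψ ≡ ψ₂` and `η ≡ η₂` modulo `ϖ`,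
there is a surjection from the first module to the second modulo `ϖ`, with kernel `ϖ` times the first
module, and compatible with all polynomials in the operators (`H70Mod2`, from `Guide.Cohomology.quotient`;
`piSub ϖ` is the submodule of multiples of `ϖ`). -/
theorem congruence {N M : ℕ} (hM : N ∣ M) {S : Set ℕ} (hS : Away M S) {R : Type} [CommRing R]
    (ψ η ψ₂ η₂ : (ZMod N)ˣ →* Rˣ) {O : Type} [CommRing O] [Algebra O R] (hg : Good M R)
    (hψ : ψ (-1) = 1) (hψ₂ : ψ₂ (-1) = 1) {κ : Type} [Field κ]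
    {θ : MvPolynomial (Idx S) O →+* κ} {e : MvPolynomial (Idx S) O} [NeZero M]
    (he : IsLocIdem (tw hM hS ψ η) (tw_comm hM hS ψ η) θ e)
    (he₂ : IsLocIdem (tw hM hS ψ₂ η₂) (tw_comm hM hS ψ₂ η₂) θ e) (ϖ : O)
    (hψψ : ∀ u, ∃ r : R, ((ψ u : Rˣ) : R) - ((ψ₂ u : Rˣ) : R) = ϖ • r)
    (hηη : ∀ u, ∃ r : R, ((η u : Rˣ) : R) - ((η₂ u : Rˣ) : R) = ϖ • r) :
    ∃ F : MLoc hM hS ψ η e →ₗ[R] (MLoc hM hS ψ₂ η₂ e ⧸ (piSub ϖ : Submodule R (MLoc hM hS ψ₂ η₂ e))),
      Function.Surjective F ∧ (∀ x, F x = 0 ↔ ∃ y, x = ϖ • y) ∧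
      ∀ (P : MvPolynomial (Idx S) O) (x : MLoc hM hS ψ η e) (y : MLoc hM hS ψ₂ η₂ e),
        F x = Submodule.Quotient.mk y →
        F (mact hM hS ψ η e P x) = Submodule.Quotient.mk (mact hM hS ψ₂ η₂ e P y) :=
  exists_congr hM hS ψ η ψ₂ η₂ hg hψ hψ₂ he he₂ ϖ hψψ hηη

/-! ## 3. The action of the Hecke algebra of cusp forms -/

/-- **The twist embedding.** Let `K` be a field of characteristic zero, `η : (ℤ/N)ˣ → Kˣ` with
`η ^ m = 1`, `m` odd, `N` squarefree, and no `q² ∣ M` for primes `q ∣ N`. Twisting by `η` embeds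
`H¹(Γ₀(M), K_{η²})` in `H¹(Γ₀(M N), K)` (trivial character), and `η(ℓ)⁻¹ T_ℓ` becomes `T_ℓ` (`H70Lev2`; the
construction is `H21J.exists_twist_embedding` of helper21, one prime of the conductor after the
other). -/
theorem twist_embedding {N M L : ℕ} (hM : N ∣ M) {S : Set ℕ} (hS : Away M S) (hSL : Adm S L)
    {K : Type} [Field K] [CharZero K] (ψ η : (ZMod N)ˣ →* Kˣ) (hsq : Squarefree N) (hM0 : 0 < M)
    (hex : ∀ q : ℕ, q.Prime → q ∣ N → ¬ q * q ∣ M) (hL : L = M * N) (hψ : ψ = η ^ 2) {m : ℕ}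
    (hm : Odd m) (hη : η ^ m = 1) :
    ∃ E : H1 (gam N M hM) (psiRep ψ K) →ₗ[K]
        H1 (gam 1 L (one_dvd L)) (psiRep (1 : (ZMod 1)ˣ →* Kˣ) K),
      Function.Injective E ∧ ∀ i x, E (tw hM hS ψ η i x) = TT K hSL i (E x) :=
  exists_emb' hM hS hSL ψ η hsq hM0 hex hL hψ hm hη

/-- **Relations between Hecke operators on cusp forms kill the localised module.** If an integral
polynomial `P` vanishes in the Hecke algebra of `S₂(Γ₀(L))`, `L = M N` (`H59.evHA` is the evaluation), its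
value on the twisted operators is zero on `MLoc`. Proof (`H70Lev2`): specialise at the characters of `Δ`
over an algebraic closure (`specialisations_injective`), embed by `twist_embedding`, and use that the
non-Eisenstein part of `H¹(Γ₀(L), K)` is cuspidal (Eichler-Shimura); the prime `i₀ ≡ 1 (mod L)`
with `θ(T) ≠ 1 + i₀` excludes the Eisenstein part. -/
theorem relations_kill {N M L : ℕ} (hM : N ∣ M) {S : Set ℕ} (hS : Away M S) (hSL : Adm S L)
    {O : Type} [CommRing O] [IsDomain O] [CharZero O] {Δ : Type} [CommGroup Δ]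
    {ψ η : (ZMod N)ˣ →* (MonoidAlgebra O Δ)ˣ} {κ : Type} [Field κ]
    {θ : MvPolynomial (Idx S) O →+* κ} {e : MvPolynomial (Idx S) O} [Finite Δ] [NeZero M] [NeZero L]
    (hsq : Squarefree N) (hex : ∀ q : ℕ, q.Prime → q ∣ N → ¬ q * q ∣ M) (hL : L = M * N)
    (hψ : ψ = η ^ 2) {m : ℕ} (hm : Odd m) (hη : η ^ m = 1) (hgΛ : Good M (MonoidAlgebra O Δ))
    (hψ1 : ψ (-1) = 1) (hgL : Good L O) (heΛ : IsLocIdem (tw hM hS ψ η) (tw_comm hM hS ψ η) θ e)
    (he : IsLocIdem (TT O hSL) (TT_comm hSL) θ e) [Module.Free O (MLoc hM hS ψ η e)]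
    (i₀ : Idx S) (hi₀1 : (L : ℤ) ∣ (i₀.1 : ℤ) - 1)
    (hi₀ : θ (MvPolynomial.X i₀) ≠ 1 + (i₀.1 : κ)) {P : MvPolynomial (H37.Rank.Pr S) ℤ}
    (hP : H59.evHA hSL P = 0) {x : H1 (gam N M hM) (psiRep ψ (MonoidAlgebra O Δ))}
    (hx : x ∈ MLoc hM hS ψ η e) :
    act (tw hM hS ψ η) (tw_comm hM hS ψ η) (P.map (Int.castRingHom O)) x = 0 :=
  act_rel_eq_zero hM hS hSL hsq hex hL hψ hm hη hgΛ hψ1 hgL heΛ he i₀ hi₀1 hi₀ hP hx

/-- **The local Hecke algebra acts on the localised module.** Here `θ` is a maximal ideal of the Hecke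
algebra of `S₂(Γ₀(L))` away from `S`, given by its residue map, and `heckeLocal L S O θ` is the
completed localisation over `O`; the class of the polynomial `P` acts as `P` (`H70Lev3`, from
`relations_kill` by the general statement `GuideHeckeRings.localised_module`; for the levels of S59, with
`M N ∣ L` instead of `L = M N`, see `H21M.exists_hecke_act_desc`). -/
theorem exists_hecke_action {N M L : ℕ} [NeZero M] [NeZero L] (hM : N ∣ M) {S : Set ℕ}
    (hS : Away M S) (hSL : ∀ q : ℕ, q.Prime → q ∣ L → q ∈ S) {O : Type} [CommRing O] [IsDomain O]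
    [IsDiscreteValuationRing O] [IsAdicComplete (maximalIdeal O) O] [CharZero O] {Δ : Type}
    [CommGroup Δ] [Finite Δ] {ψ η : (ZMod N)ˣ →* (MonoidAlgebra O Δ)ˣ}
    (θ : heckeAlgebra L 2 S →+* ResidueField O) {e : MvPolynomial (Idx S) O} (hsq : Squarefree N)
    (hex : ∀ q : ℕ, q.Prime → q ∣ N → ¬ q * q ∣ M) (hL : L = M * N) (hψ : ψ = η ^ 2) {m : ℕ}
    (hm : Odd m) (hη : η ^ m = 1) (hgΛ : Good M (MonoidAlgebra O Δ)) (hψ1 : ψ (-1) = 1)
    (hgL : Good L O)
    (heΛ : IsLocIdem (tw hM hS ψ η) (tw_comm hM hS ψ η) (thetaPoly L S hSL O θ) e)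
    (he : IsLocIdem (TT (S := S) (M := L) O hSL) (TT_comm hSL) (thetaPoly L S hSL O θ) e)
    [Module.Free O (MLoc hM hS ψ η e)] (i₀ : Idx S) (hi₀1 : (L : ℤ) ∣ (i₀.1 : ℤ) - 1)
    (hi₀ : θ (TIdx L S hSL i₀) ≠ 1 + (i₀.1 : ResidueField O)) :
    ∃ Φ : heckeLocal L S O θ →ₐ[O] Module.End O (MLoc hM hS ψ η e),
      ∀ P, Φ (toLocal L S hSL O θ P) = mactO hM hS ψ η e P :=
  exists_hecke_act hM hS hSL θ hsq hex hL hψ hm hη hgΛ hψ1 hgL heΛ he i₀ hi₀1 hi₀

/-! ## 4. Traces -/

/-- **The traces map the localised module of level `M q` to the one of level `M`** (`H70Pt`), since they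
commute with `T_ℓ` for `ℓ ∤ M q`. -/
theorem traces_mem {N M q : ℕ} (hM : N ∣ M) [NeZero M] [NeZero q] {S : Set ℕ} (hS : Away (M * q) S)
    {R : Type} [CommRing R] (ψ η : (ZMod N)ˣ →* Rˣ) {O : Type} [CommRing O] [Algebra O R]
    (e : MvPolynomial (Idx S) O) (hq : q.Prime) (hqM : ¬ q ∣ M)
    {x : H1 (gam N (M * q) (hM.mul_right q)) (psiRep ψ R)}
    (hx : x ∈ MLoc (hM.mul_right q) hS ψ η e) :
    (trFam hM).opH (psiRep ψ R) x ∈ MLoc hM hS.left ψ η e ∧
      (nuFam hM hq).opH (psiRep ψ R) x ∈ MLoc hM hS.left ψ η e :=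
  ⟨tr_mem hM hS ψ η e hq hqM hx, nu_mem hM hS ψ η e hq hqM hx⟩

/-- **Vanishing**: if the localised module with trivial characters has rank zero at level `M`, it is
zero for all residually trivial characters (`H70Pt`, from `localised_module_free` and `rank_eq`). -/
theorem localised_module_eq_bot {N M : ℕ} (hM : N ∣ M) {S : Set ℕ} (hS : Away M S) {O : Type}
    [CommRing O] [IsLocalRing O] {κ : Type} [Field κ] {θ : MvPolynomial (Idx S) O →+* κ}
    {e : MvPolynomial (Idx S) O} (i₀ : Idx S) (hi₀ : θ (MvPolynomial.X i₀) ≠ 1 + (i₀.1 : κ))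
    {R : Type} [CommRing R] [IsLocalRing R] [Algebra O R] (ψ η : (ZMod N)ˣ →* Rˣ) [NeZero M]
    (hgO : Good M O) (hgR : Good M R) (hψ : ψ (-1) = 1)
    (heO : IsLocIdem (tw (R := O) hM hS 1 1) (tw_comm hM hS 1 1) θ e)
    (heR : IsLocIdem (tw hM hS ψ η) (tw_comm hM hS ψ η) θ e) (hψ1 : ResTriv ψ) (hη1 : ResTriv η)
    (h0 : Module.finrank O (MLoc (R := O) hM hS 1 1 e) = 0) : MLoc hM hS ψ η e = ⊥ :=
  mloc_eq_bot hM hS i₀ hi₀ ψ η hgO hgR hψ heO heR hψ1 hη1 h0

/-- **New classes**: if the localised module is zero at level `M`, both traces of a class `x = e x` of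
level `M q` vanish (`H70Lev7`). By section 5 of `GuideCohomology` the corresponding eigenform is then new
at `q`; this gives the relation `(trace of Frobenius)² = (q + 1)²` at `q`. -/
theorem traces_zero {N M q : ℕ} (hM : N ∣ M) [NeZero M] [NeZero q] {S : Set ℕ}
    (hS : Away (M * q) S) (hq : q.Prime) (hqM : ¬ q ∣ M) {R : Type} [CommRing R]
    (ψ η : (ZMod N)ˣ →* Rˣ) {O : Type} [CommRing O] [Algebra O R] {e : MvPolynomial (Idx S) O}
    (h0 : MLoc hM hS.left ψ η e = ⊥) (x : H1 (gam N (M * q) (hM.mul_right q)) (psiRep ψ R))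
    (hx : act (tw (hM.mul_right q) hS ψ η) (tw_comm (hM.mul_right q) hS ψ η) e x = x) :
    (trFam hM).opH (psiRep ψ R) x = 0 ∧ (nuFam hM hq).opH (psiRep ψ R) x = 0 :=
  traces_eq_zero hM hS hq hqM ψ η h0 x hx

/-! ## 5. Points -/

/-- **Points** of a localised module over `O'`: non-torsion classes `y` of `H¹(Γ₀(M), O'_{η²})` with
`η(ℓ)⁻¹ T_ℓ y = λ_ℓ y` for all `ℓ ∉ S` (`H70Lev5`). -/
theorem isPt_iff {N M : ℕ} (hM : N ∣ M) {S : Set ℕ} (hS : Away M S) {O' : Type} [CommRing O']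
    (η : (ZMod N)ˣ →* O'ˣ) (lam : Idx S → O') (y : H1 (gam N M hM) (psiRep (η ^ 2) O')) :
    IsPt hM hS η lam y ↔
      (∀ c : O', c ≠ 0 → c • y ≠ 0) ∧ ∀ i, tw hM hS (η ^ 2) η i y = lam i • y :=
  ⟨fun h => ⟨h.smul_ne, h.eigen⟩, fun h => ⟨h.1, h.2⟩⟩

/-- **Eigenvectors give points.** Let `v ≠ 0` in `O' ⊗ MLoc` (coefficients `O[Δ]`) be an eigenvector of
`Δ` with character `χ` and of the twisted operators with eigenvalues `λ`. Then there is a point over
`O'` for the specialised character `χ ∘ η`, with the same eigenvalues and fixed by `e` (`H70Pt`,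
`H70Lev5`; the specialisation at `χ` of `v` is not zero: otherwise the sum of the `χ(g)⁻¹ g v`, which is
`|Δ| v`, would be zero in `O' ⊗ H¹`, but `MLoc` is a direct summand). -/
theorem exists_point_of_eigenvector {N M : ℕ} [NeZero M] (hM : N ∣ M) {S : Set ℕ} (hS : Away M S)
    {O : Type} [CommRing O] {Δ : Type} [CommGroup Δ] [Finite Δ]
    {η : (ZMod N)ˣ →* (MonoidAlgebra O Δ)ˣ} {κ : Type} [Field κ]
    {θ : MvPolynomial (Idx S) O →+* κ} {e : MvPolynomial (Idx S) O} {p : ℕ} (hp : p.Prime)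
    (hgΛ : Good M (MonoidAlgebra O Δ))
    (heΛ : IsLocIdem (tw hM hS (η ^ 2) η) (tw_comm hM hS (η ^ 2) η) θ e)
    (i₀ : Idx S) (hi₀ : θ (MvPolynomial.X i₀) ≠ 1 + (i₀.1 : κ))
    {O' : Type} [CommRing O'] [IsDomain O'] [IsLocalRing O'] [CharZero O'] [Algebra O O']
    (hpO' : (p : O') ∈ maximalIdeal O') {s : ℕ} (hη : η ^ p ^ s = 1)
    [Module.Free O (MLoc hM hS (η ^ 2) η e)] (v : O' ⊗[O] MLoc hM hS (η ^ 2) η e) (hv : v ≠ 0)
    (χ : Δ →* O'ˣ)
    (hχ : ∀ g, (diam hM hS (η ^ 2) η e g).baseChange O' v = ((χ g : O'ˣ) : O') • v)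
    (lam : MvPolynomial (Idx S) O → O')
    (hlam : ∀ P, (mactO hM hS (η ^ 2) η e P).baseChange O' v = lam P • v) :
    ∃ z : H1 (gam N M hM) (psiRep ((psiMap (evC (O := O) χ).toRingHom η) ^ 2) O'),
      IsPt hM hS (psiMap (evC (O := O) χ).toRingHom η) (fun i => lam (MvPolynomial.X i)) z ∧
      act (tw hM hS ((psiMap (evC (O := O) χ).toRingHom η) ^ 2)
        (psiMap (evC (O := O) χ).toRingHom η)) (tw_comm hM hS _ _) e z = z :=
  exists_pt hM hS hp hgΛ heΛ i₀ hi₀ hpO' hη v hv χ hχ lam hlam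

/-- **Points and the auxiliary level**: if `η₁ : (ℤ/N₁)ˣ → Rˣ` factors through `η₂ : (ℤ/N₂)ˣ → Rˣ`, a
point for `η₁` is a point for `η₂` (`H70Lev7`, from `Guide.Cohomology.auxiliary_level`). It is used for
`τ = 1`, where the primes `qT t` can be removed from the conductor. -/
theorem point_of_smaller_conductor {N₁ N₂ M : ℕ} (hN : N₂ ∣ N₁) (hM₁ : N₁ ∣ M) (hM₂ : N₂ ∣ M)
    {S : Set ℕ} (hS : Away M S) {R : Type} [CommRing R] {η₁ : (ZMod N₁)ˣ →* Rˣ}
    {η₂ : (ZMod N₂)ˣ →* Rˣ} {O : Type} [CommRing O] [Algebra O R] {e : MvPolynomial (Idx S) O}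
    (hη : η₁ = η₂.comp (ZMod.unitsMap hN)) (lam : Idx S → R)
    (z : H1 (gam N₁ M hM₁) (psiRep (η₁ ^ 2) R)) (hz : IsPt hM₁ hS η₁ lam z)
    (hez : act (tw hM₁ hS (η₁ ^ 2) η₁) (tw_comm hM₁ hS (η₁ ^ 2) η₁) e z = z) :
    ∃ y : H1 (gam N₂ M hM₂) (psiRep (η₂ ^ 2) R), IsPt hM₂ hS η₂ lam y ∧
      act (tw hM₂ hS (η₂ ^ 2) η₂) (tw_comm hM₂ hS (η₂ ^ 2) η₂) e y = y :=
  exists_pt_lev hN hM₁ hM₂ hS hη lam z hz hez

/-! ## 6. The module part of a Taylor-Wiles level -/

/-- **The module part of a Taylor-Wiles level.** Input: a deformation ring `R` with a map `π` to the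
local Hecke algebra of level `L = M₀ q₀ N₁`; elements `1 + c j` of `R` with `(1 + c j)^(p ^ e j) = 1` (the
diamond operators, defined through the Galois side) and a lower bound `n` for the exponents `e j` (it
tends to infinity in the patching argument); auxiliary primes `Q j ≡ 1 (mod p ^ e j)` and primes
`qT t ≡ 1 (mod p)`; a non-Eisenstein prime `i₀`; for every polynomial which is a local idempotent at all
levels dividing `L`, the rank at level `M₀ q₀` is positive and at most `D` and the rank at level `M₀` is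
zero (`hrk`); and two statements on eigenclasses over extensions `O'`: if `η` is ramified at all `qT t`,
the elements `prodElt t` act as zero, and `η` is unramified at `Q j` exactly if `1 + c j` acts as `1`
(`hA`); if both traces of the class to level `M₀` are zero, `hElt` acts as zero (`hA3`). Output
(`TWModPart`): an `R`-module `M` with a basis over `O[[X_j]] / ((1 + X_j)^(p ^ e j) - 1)`, `X_j ↦ c j`, of
rank between `1` and `D`, killed by the `prodElt t`, and with `hElt M ⊆ ϖ M`. Proof (`H70Lev11`): `M` is the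
localised module for the universal character with `τ` ramified at the `qT t`; sections 1 to 5 give a
basis over the group ring of the diamond operators, the action of `R`, and points. By `hA` the norm
element of the diamond operators and the one of the operators `1 + c j` agree on `M` (on every
eigenvector both are the order of the group or `0`), hence the same elements are a basis for the second
action (`H69TWMod`: `exists_modPart`, from `exists_basis_of_norm` and `rel_of_rank`). Finally `hElt` kills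
the module for `τ = 1`, which is congruent to `M` modulo `ϖ`. An operator is zero if it is zero on all
eigenvectors because the local Hecke algebra is reduced (`H70Reduced`, `H70Lev10`). Used in `H59LL6`
(theorem LL, for S38, S43, S45, S03, S01). (The step from the two norms to the basis is
`free_through_galois` in `GuidePatching`, the packing `module_part` there.) -/
theorem exists_module_part {O : Type} [CommRing O] [IsDomain O] [IsDiscreteValuationRing O]
    [IsAdicComplete (maximalIdeal O) O] [Finite (ResidueField O)] [CharZero O]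
    {p : ℕ} [Fact p.Prime] [CharP (ResidueField O) p] (hp2 : p ≠ 2)
    {R : Type} [CommRing R] [IsLocalRing R] [Algebra O R] [IsAdicComplete (maximalIdeal R) R]
    {L : ℕ} [NeZero L] {S : Set ℕ} (hSL : ∀ q : ℕ, q.Prime → q ∣ L → q ∈ S)
    {θ : heckeAlgebra L 2 S →+* ResidueField O} (π : R →ₐ[O] heckeLocal L S O θ)
    {ϖ : O} (hϖ : maximalIdeal O = Ideal.span {ϖ})
    {r n D : ℕ} {T : Type} [Finite T] {prodElt : T → R} {hElt : R}
    -- the diamond operators on the Galois side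
    (e : Fin r → ℕ) (hne : ∀ j, n ≤ e j) (c : Fin r → R) (hcm : ∀ j, c j ∈ maximalIdeal R)
    (hc : ∀ j, (1 + c j) ^ (p ^ e j) = 1)
    -- the Taylor–Wiles primes
    (Q : Fin r → ℕ) (hQ : ∀ j, (Q j).Prime) (hQinj : Function.Injective Q)
    (hQe : ∀ j, p ^ e j ∣ Q j - 1)
    -- the primes of `T`
    (qT : T → ℕ) (hqT : ∀ t, (qT t).Prime) (hqTinj : Function.Injective qT)
    (hqTp : ∀ t, p ∣ qT t - 1) (hQT : ∀ j t, Q j ≠ qT t)
    (ζ : Oˣ) (hζ : ζ ^ p = 1) (hζ1 : ζ ≠ 1)
    -- the levels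
    {M₀ q₀ N1 N2 : ℕ} [NeZero M₀] [NeZero q₀] (hq₀ : q₀.Prime) (hqM₀ : ¬ q₀ ∣ M₀)
    (hN2 : N2 ∣ M₀) (hQN2 : ∀ j, Q j ∣ N2) (hN1 : N1 ∣ M₀ * q₀) (hN21 : N2 ∣ N1)
    (hTN1 : ∀ t, qT t ∣ N1) (hsq : Squarefree N1)
    (hex : ∀ q : ℕ, q.Prime → q ∣ N1 → ¬ q * q ∣ M₀ * q₀) (hL : L = M₀ * q₀ * N1)
    (hSM : Away (M₀ * q₀) S)
    (hg : ∀ M' : ℕ, M₀ ∣ M' → Good M' O)
    -- a non-Eisenstein prime
    (i₀ : Idx S) (hi₀1 : (L : ℤ) ∣ (i₀.1 : ℤ) - 1)
    (hi₀ : θ (TIdx L S hSL i₀) ≠ 1 + (i₀.1 : ResidueField O))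
    -- ranks
    (hrk : ∀ e : MvPolynomial (Idx S) O,
      (∀ (L' : ℕ) (hL' : Adm S L'), L' ∣ L →
        IsLocIdem (TT O hL') (TT_comm hL') (thetaPoly L S hSL O θ) e) →
      ∀ (h₁ : Adm S (M₀ * q₀)) (h₀ : Adm S M₀),
        0 < Module.finrank O (Loc (TT O h₁) (TT_comm h₁) e) ∧
        Module.finrank O (Loc (TT O h₁) (TT_comm h₁) e) ≤ D ∧
        Module.finrank O (Loc (TT O h₀) (TT_comm h₀) e) = 0)
    -- eigenclasses: the non-trivial character
    (hA : ∀ (O' : Type) [CommRing O'] [IsDomain O'] [IsDiscreteValuationRing O']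
      [IsAdicComplete (maximalIdeal O') O'] [Finite (ResidueField O')] [CharZero O']
      [Algebra O O'] [Module.Finite O O'] [IsLocalHom (algebraMap O O')],
      Function.Injective (algebraMap O O') → ∀ (lam : heckeLocal L S O θ →ₐ[O] O')
      (η : (ZMod N1)ˣ →* O'ˣ) (x : H1 (gam N1 (M₀ * q₀) hN1) (psiRep (η ^ 2) O')),
      (∃ m, Odd m ∧ η ^ m = 1) → (∀ t, ¬ TrivAt N1 (qT t) η) → (∀ c : O', c ≠ 0 → c • x ≠ 0) →
      (∀ i, tw hN1 hSM (η ^ 2) η i x = lam (heckeLocal.π L S O θ (TIdx L S hSL i)) • x) →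
      (∀ t, lam (π (prodElt t)) = 0) ∧ ∀ j, (TrivAt N1 (Q j) η ↔ lam (π (1 + c j)) = 1))
    -- eigenclasses: the trivial character
    (hA3 : ∀ (O' : Type) [CommRing O'] [IsDomain O'] [IsDiscreteValuationRing O']
      [IsAdicComplete (maximalIdeal O') O'] [Finite (ResidueField O')] [CharZero O']
      [Algebra O O'] [Module.Finite O O'] [IsLocalHom (algebraMap O O')],
      Function.Injective (algebraMap O O') → ∀ (lam : heckeLocal L S O θ →ₐ[O] O')
      (η : (ZMod N2)ˣ →* O'ˣ)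
      (x : H1 (gam N2 (M₀ * q₀) (hN2.mul_right q₀)) (psiRep (η ^ 2) O')),
      (∃ m, Odd m ∧ η ^ m = 1) → (∀ c : O', c ≠ 0 → c • x ≠ 0) →
      (∀ i, tw (hN2.mul_right q₀) hSM (η ^ 2) η i x =
        lam (heckeLocal.π L S O θ (TIdx L S hSL i)) • x) →
      (trFam hN2).opH (psiRep (η ^ 2) O') x = 0 → (nuFam hN2 hq₀).opH (psiRep (η ^ 2) O') x = 0 →
      lam (π hElt) = 0) :
    Nonempty (TWModPart O ϖ p r n D R prodElt hElt) :=
  exists_twModPart hp2 hSL π hϖ e hne c hcm hc Q hQ hQinj hQe qT hqT hqTinj hqTp hQT ζ hζ hζ1 hq₀ hqM₀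
    hN2 hQN2 hN1 hN21 hTN1 hsq hex hL hSM hg i₀ hi₀1 hi₀ hrk hA hA3

end Fermat.Agent.Guide.TWModules
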