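import Fermat.Agent.H6TWH1c

/-!
# Guide to the proof: the vanishing of `H^1(H, ad⁰(1))`, step by step

This file is a machine-checked table of contents. Every theorem below is a citation of a theorem of
the library, with its statement written out. Only `Guide` imports this file. It is a companion of
`GuideTaylorWiles`, section 1, and gives the steps of the proof of `vanishing_H1_adjoint`; the
steps of section 2 (choice of the Taylor-Wiles primes) are in `GuideTWChoice`.

**The theorem.** Let `k` be a finite field of characteristic `p > 2` and `H` a subgroup of `GL₂(k)`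
(written as an injective homomorphism `ρ : H → GL₂(k)`) whose elements have their eigenvalues in `k`,
whose determinants form a group of order `p - 1`, and which has no fixed point on the projective
line. Then every cocycle of `H` with values in `ad⁰(1)` is a coboundary. The classical proof uses
Dickson's list of the subgroups of `PGL₂(k)`; here no list is needed.

**Notation.** `ur b = [1 b; 0 1]`. For `G ≤ GL₂(k)`: `trans G = {b : ur b ∈ G}`, of order `q`;
`scalG G` the scalar matrices in `G`, of order `z`; `B` the stabiliser of `∞` in `G` (the upper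
triangular matrices); `nuHom G : B → kˣ`, `g ↦ g₀₀ / g₁₁`, with an image of order `e`; `w` the size of the
orbit of `∞`. `H6.ad1 g X = det g • g X g⁻¹`.

**The proof.**
 1. If `p ∤ #H`, average. Otherwise an element of order `p` fixes a point of the projective line (8);
    after a conjugation (3) the point is `∞`, and `G = ρ(H)` contains some `ur b`, `b ≠ 0`. If a scalar
    of `G` has determinant `≠ 1`, use Sah's lemma (`GuideTaylorWiles.cobound_of_central_scalar`).
 2. Count the pairs (non-scalar `g ∈ G`, fixed point of `g`). A non-scalar `g` has one or two fixed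
    points (5), exactly `w z (q - 1)` elements have one (18), `#B = z q e` (12) and `w = 1 + q f` with
    `f ≥ 1` (17). So there is exactly one further orbit with non-scalar stabilisers, and
    `1 + f (q - 2)` divides `2 e` (15, 16). Result: `q - 1 ≤ 2 e`.
 3. Apply this to `G ∩ SL₂(k)`, which has the same `q` and the same `z` (all scalars of `G` have
    determinant `1` by step 1), and `e₁ = e / (p - 1)` by the Frattini argument (19, 20). As `B` acts
    freely on the nonzero translations through its image under `nuHom`, one has `e ≤ q - 1` (21).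
    Hence `(p - 1) e₁ ≤ q - 1 ≤ 2 e₁`: `p = 3` and `e = q - 1`.
 4. Let `p = 3`. For `q = 3` the coboundary is written down (26). For `q > 3` make a generator of the
    torus diagonal and subtract a coboundary so that the cocycle vanishes on the diagonal matrices
    (27); then its entries at `ur b` vanish one after the other (24, 25), and it is a coboundary
    because the matrices `ur b` form a Sylow `p`-subgroup (9, 23).

**Where.** NOTES.md, Appendix A.10: [98] NOTES-S56-TWPRIMES. Files `H6TWCoh`, `H6TWGL2`, `H6TWBorel`,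
`H6TWCount`, `H6TWCountGL`, `H6TWNum`, `H6TWH1`, `H6TWH1b`, `H6TWH1c`. Used in S01, S03, S04, S06, S38,
S43, S45, S46, S50, S56, S59, S60. Author: helper 6.
-/

set_option autoImplicit false

open Matrix OnePoint

namespace Fermat.Agent.Guide.TWSteps

/-! ## 1. Cocycles as functions -/

/-- **1. Rules for cocycles** (`H6TWCoh`). Let `ψ(gh) = ψ(g) + r(g) ψ(h)`. Then `ψ(1) = 0`,
`ψ(g⁻¹) = -r(g⁻¹) ψ(g)`, and if `ψ(t) = 0` then `ψ(t g t⁻¹) = r(t) ψ(g)` for all `g`: expand the product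
and use the second rule for `t⁻¹`. -/
theorem cocycle_rules {k H M : Type*} [Field k] [Group H] [AddCommGroup M] [Module k M]
    {r : H →* Module.End k M} {ψ : H → M} (hψ : ∀ g h, ψ (g * h) = ψ g + r g (ψ h)) :
    ψ 1 = 0 ∧ (∀ g, ψ g⁻¹ = -r g⁻¹ (ψ g)) ∧
      ∀ t, ψ t = 0 → ∀ g, ψ (t * g * t⁻¹) = r t (ψ g) :=
  ⟨H6.IsCocyc.one hψ, H6.IsCocyc.inv hψ, fun _ ht g => H6.IsCocyc.conj_eq hψ ht g⟩

/-- **2. Subgroups of order prime to `p`** (`H6TWH1`). On a finite subgroup `K` whose order is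
invertible in `k` every cocycle of `H` is of the form `t ↦ r(t)m - m` (average over `K`). After
subtracting the coboundary of `m` it vanishes on `K`. Applied to the diagonal matrices. -/
theorem cobound_on_subgroup {k H M : Type*} [Field k] [Group H] [AddCommGroup M] [Module k M]
    {r : H →* Module.End k M} {ψ : H → M} (hψ : ∀ g h, ψ (g * h) = ψ g + r g (ψ h))
    (K : Subgroup H) [Finite K] (hK : ((Nat.card K : ℕ) : k) ≠ 0) :
    ∃ m : M, ∀ t ∈ K, ψ t = r t m - m :=
  H6.IsCocyc.exists_of_card hψ K hK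

/-- **3. Conjugation** (`H6TWH1`). Let `ψ` be a cocycle for `ρ` with values in the `2 × 2` matrices and
`c ∈ GL₂(k)`. Then `h ↦ ad1 c (ψ h)` is a cocycle for `c ρ c⁻¹`, and if it is a coboundary, so is `ψ`.
So the theorem may be proved after a conjugation. -/
theorem conjugation {k H : Type*} [Field k] [Group H] {ρ : H →* GL (Fin 2) k}
    {ψ : H → Matrix (Fin 2) (Fin 2) k} (hψ : ∀ g h, ψ (g * h) = ψ g + H6.ad1 (ρ g) (ψ h))
    (c : GL (Fin 2) k) :
    (∀ g h, H6.ad1 c (ψ (g * h)) =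
      H6.ad1 c (ψ g) + H6.ad1 (c * ρ g * c⁻¹) (H6.ad1 c (ψ h))) ∧
    ((∃ m, ∀ g, H6.ad1 c (ψ g) = H6.ad1 (c * ρ g * c⁻¹) m - m) →
      ∃ m, ∀ g, ψ g = H6.ad1 (ρ g) m - m) :=
  ⟨H6.conj_cocyc (ρ := ρ) hψ c, H6.conj_cobound (ρ := ρ) c⟩

/-! ## 2. Matrices and their fixed points -/

/-- **4. The fixed point equation** (`H6TWGL2`). The projective line is `OnePoint k = k ∪ {∞}`, on which
`GL₂(k)` acts by `x ↦ (g₀₀ x + g₀₁) / (g₁₀ x + g₁₁)`. The point `∞` is fixed if and only if `g` is upper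
triangular, and `x ∈ k` if and only if `g₁₀ x² + (g₁₁ - g₀₀) x - g₀₁ = 0`. -/
theorem fixed_points {k : Type*} [Field k] [DecidableEq k] (g : GL (Fin 2) k) :
    (g • (∞ : OnePoint k) = ∞ ↔ g 1 0 = 0) ∧
      ∀ x : k, g • (x : OnePoint k) = x ↔ g 1 0 * x ^ 2 + (g 1 1 - g 0 0) * x - g 0 1 = 0 :=
  ⟨H6.smul_infty_iff g, H6.smul_some_iff g⟩

open scoped Classical in
/-- **5. One or two fixed points** (`H6TWGL2`). A non-scalar matrix over a finite field `k` with
eigenvalues `α, β ∈ k` has exactly one fixed point on the projective line if `α = β`, and exactly two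
if `α ≠ β`: the eigenlines. For `g₁₀ ≠ 0` they are the points `(α - g₁₁) / g₁₀`, `(β - g₁₁) / g₁₀`. -/
theorem card_fixed_points {k : Type*} [Field k] [DecidableEq k] [Fintype k] (g : GL (Fin 2) k)
    (hg : ¬ (g 0 1 = 0 ∧ g 1 0 = 0 ∧ g 0 0 = g 1 1)) {α β : k}
    (htr : g 0 0 + g 1 1 = α + β) (hdet : g 0 0 * g 1 1 - g 0 1 * g 1 0 = α * β) :
    (Finset.univ.filter (fun x : OnePoint k => g • x = x)).card = if α = β then 1 else 2 :=
  H6.card_fix g hg htr hdet

/-- **6. Powers of `[a b; 0 a]`** (`H6TWGL2`). The `#k`-th power of a matrix `g = [a b; 0 a]` is the scalar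
matrix `a`: its entry above the diagonal is `#k • a^(#k - 1) b = 0`, and `a^#k = a`. -/
theorem power_card {k : Type*} [Field k] [Fintype k] {g : GL (Fin 2) k} (h10 : g 1 0 = 0)
    (hd : g 0 0 = g 1 1) :
    ((g ^ Fintype.card k) 0 1 = 0 ∧ (g ^ Fintype.card k) 1 0 = 0 ∧
      (g ^ Fintype.card k) 0 0 = (g ^ Fintype.card k) 1 1) ∧ (g ^ Fintype.card k) 0 0 = g 0 0 :=
  H6.upper_pow_card h10 hd

/-- **7. The unipotent part** (`H6TWBorel`). Let `x` be the only fixed point of `g`. Then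
`u = g (g^#k)⁻¹` satisfies `u^p = 1`, and `x` is the only fixed point of `u`. Proof: move `x` to `∞`; by 4
and 5 the matrix is `[a b; 0 a]`, `b ≠ 0`, and by 6 the matrix `u` is `[1 b/a; 0 1]`. -/
theorem unipotent_part {k : Type*} [Field k] [DecidableEq k] [Fintype k] (p : ℕ) [Fact p.Prime]
    [CharP k p] {g : GL (Fin 2) k} {x : OnePoint k} (hx : ∀ y : OnePoint k, g • y = y ↔ y = x) :
    (g * (g ^ Fintype.card k)⁻¹) ^ p = 1 ∧
      ∀ y : OnePoint k, (g * (g ^ Fintype.card k)⁻¹) • y = y ↔ y = x :=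
  H6.unip_part p hx

/-! ## 3. Sylow subgroup, Borel subgroup -/

/-- **8. A `p`-group fixes a point** (`H6TWBorel`). The projective line over a finite field `k` of
characteristic `p` has `#k + 1` points, a number prime to `p`, and the orbits of a `p`-group have
`p`-power order. -/
theorem pGroup_fixes_point {k : Type*} [Field k] [Fintype k] (p : ℕ) [Fact p.Prime] [CharP k p]
    {H : Type*} [Group H] [Finite H] [MulAction H (OnePoint k)] (hH : IsPGroup p H) :
    ∃ x : OnePoint k, ∀ g : H, g • x = x :=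
  H6.pgroup_fix p hH

/-- **9. The Sylow subgroup** (`H6TWBorel`). Let `G ≤ GL₂(k)` contain some `ur b`, `b ≠ 0`. The elements of
`G` of the form `[1 b; 0 1]` form a Sylow `p`-subgroup of `G`. Proof: a `p`-group containing them fixes
some point, which can only be `∞`; so it consists of upper triangular matrices, whose diagonal entries
have `p`-power order and are therefore `1`. -/
theorem sylow_subgroup {k : Type*} [Field k] [DecidableEq k] [Fintype k] (p : ℕ) [Fact p.Prime]
    [CharP k p] (G : Subgroup (GL (Fin 2) k)) (hU : ∃ b : k, b ≠ 0 ∧ H6.ur b ∈ G) :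
    ∃ S : Sylow p G, ∀ g : G, g ∈ S ↔
      (g : GL (Fin 2) k) 1 0 = 0 ∧ (g : GL (Fin 2) k) 0 0 = 1 ∧ (g : GL (Fin 2) k) 1 1 = 1 :=
  (H6.exists_sylow p G hU).imp fun _ hS _ => ⟨fun hg => hS.le hg, fun hg => hS.ge hg⟩

/-- **10. Unique fixed points** (`H6TWBorel`). If `G` contains some `ur b`, `b ≠ 0`, and `g ∈ G` has exactly
one fixed point `x`, then `x` is in the orbit of `∞` under `G`. Proof: the unipotent part of `g` (7)
lies in a Sylow `p`-subgroup, which is conjugate to that of 9. -/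
theorem unique_fixed_point_in_orbit {k : Type*} [Field k] [DecidableEq k] [Fintype k] (p : ℕ)
    [Fact p.Prime] [CharP k p] (G : Subgroup (GL (Fin 2) k))
    (hU : ∃ b : k, b ≠ 0 ∧ H6.ur b ∈ G) {g : G} {x : OnePoint k}
    (hx : ∀ y : OnePoint k, g • y = y ↔ y = x) : x ∈ MulAction.orbit G (∞ : OnePoint k) :=
  H6.mem_orbit_of_unique p G hU hx

/-- **11. Translations** (`H6TWGL2`, `H6TWBorel`, `H6TWNum`). `ur (a + b) = ur a * ur b`; for `b ≠ 0` the
only fixed point of `ur b` is `∞`; `trans G` is the additive group of all `b` with `ur b ∈ G`; an upper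
triangular `g` acts on the translations through `g₀₀ / g₁₁`. -/
theorem translations {k : Type*} [Field k] [DecidableEq k] (G : Subgroup (GL (Fin 2) k)) :
    (∀ a b : k, H6.ur (a + b) = H6.ur a * H6.ur b) ∧
      (∀ b : k, b ≠ 0 → ∀ x : OnePoint k, H6.ur b • x = x ↔ x = ∞) ∧
      (∀ b : k, b ∈ H6.trans G ↔ H6.ur b ∈ G) ∧
      ∀ g : GL (Fin 2) k, g 1 0 = 0 → ∀ b : k, g * H6.ur b * g⁻¹ = H6.ur (g 0 0 / g 1 1 * b) :=
  ⟨H6.ur_add, fun _ hb => H6.ur_fix hb, fun _ => H6.mem_trans, fun _ => H6.conj_ur⟩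

/-- **12. The order of the Borel subgroup** (`H6TWBorel`). The character `nuHom G` of the stabiliser `B`
of `∞` is `g ↦ g₀₀ / g₁₁`; its kernel, the matrices `[a b; 0 a]` in `G`, is the product of `scalG G` and
the translations (by 6, `[a b; 0 a] ∈ G` implies `a ∈ G`). So `#B = z q e`. -/
theorem card_borel {k : Type*} [Field k] [DecidableEq k] [Fintype k]
    (G : Subgroup (GL (Fin 2) k)) :
    (∀ g : MulAction.stabilizer G (∞ : OnePoint k), ((H6.nuHom G g : kˣ) : k) =
      ((g : G) : GL (Fin 2) k) 0 0 / ((g : G) : GL (Fin 2) k) 1 1) ∧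
    Nat.card (MulAction.stabilizer G (∞ : OnePoint k)) =
      Nat.card (H6.scalG G) * Nat.card (H6.trans G) * Nat.card (H6.nuHom G).range :=
  ⟨H6.nuHom_apply G, H6.card_stab G⟩

/-! ## 4. The count -/

open scoped Classical in
/-- **13. The sum over an orbit** (`H6TWCount`). Let a finite group `G` act on a finite set and let the
subgroup `Z` act trivially. Then
`Σ_(y in the orbit of x) #{g ∉ Z : g y = y} + #Z • #(orbit) = #G` (orbit-stabiliser formula). -/
theorem orbit_sum {G X : Type*} [Group G] [Fintype G] [Fintype X] [MulAction G X]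
    (Z : Subgroup G) (hZ : ∀ z ∈ Z, ∀ x : X, z • x = x) (x : X) :
    ∑ y ∈ (MulAction.orbit G x).toFinset,
        (Finset.univ.filter (fun g : G => g ∉ Z ∧ g • y = y)).card +
      Nat.card Z * (MulAction.orbit G x).ncard = Nat.card G :=
  H6.sum_dfun_orbit Z hZ x

open scoped Classical in
/-- **14. The total sum** (`H6TWCount`). Suppose that the elements of `Q` (disjoint from `Z`) have one
fixed point and all other elements outside `Z` have two. Counting pairs by their first component,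
`Σ_x #{g ∉ Z : g x = x} + 2 #Z + #Q = 2 #G`. -/
theorem total_sum {G X : Type*} [Group G] [Fintype G] [Fintype X] [MulAction G X]
    (Z : Subgroup G) (Q : Finset G) (hQZ : ∀ g ∈ Q, g ∉ Z)
    (hQ : ∀ g ∈ Q, (Finset.univ.filter (fun x : X => g • x = x)).card = 1)
    (hnQ : ∀ g, g ∉ Z → g ∉ Q → (Finset.univ.filter (fun x : X => g • x = x)).card = 2) :
    ∑ x : X, (Finset.univ.filter (fun g : G => g ∉ Z ∧ g • x = x)).card +
      2 * Nat.card Z + Q.card = 2 * Nat.card G :=
  H6.sum_dfun Z Q hQZ hQ hnQ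

open scoped Classical in
/-- **15. The abstract count** (`H6TWCount`). In the situation of 14 let `x₀` be a point with an orbit of
`w = 1 + q f` elements, `#Q = w z (q - 1)` and `#Stab(x₀) = z q e`, where `z = #Z`, `q ≥ 3`, `f ≥ 1`. Then
`q - 1 ≤ 2 e`. Proof: by 13 and 14 the orbits other than that of `x₀` contribute
`#G - 2 z - w z (q - 2)`. An orbit whose stabilisers are larger than `Z` contributes at least `#G / 2`,
so there is exactly one such orbit, with `2 + w (q - 2)` elements; `c (2 + w (q - 2)) = w q e` for the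
index `c` of `Z` in its stabiliser, and 16 applies. -/
theorem abstract_count {G X : Type*} [Group G] [Fintype G] [Fintype X] [MulAction G X]
    (Z : Subgroup G) (hZ : ∀ z ∈ Z, ∀ x : X, z • x = x) (Q : Finset G) (hQZ : ∀ g ∈ Q, g ∉ Z)
    (hQ : ∀ g ∈ Q, (Finset.univ.filter (fun x : X => g • x = x)).card = 1)
    (hnQ : ∀ g, g ∉ Z → g ∉ Q → (Finset.univ.filter (fun x : X => g • x = x)).card = 2)
    (x₀ : X) {q e f : ℕ} (hq : 3 ≤ q) (hf : 1 ≤ f)
    (hw : (MulAction.orbit G x₀).ncard = 1 + q * f)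
    (hQcard : Q.card = (MulAction.orbit G x₀).ncard * (Nat.card Z * (q - 1)))
    (hstab : Nat.card (MulAction.stabilizer G x₀) = Nat.card Z * q * e) :
    q - 1 ≤ 2 * e :=
  H6.count_abs Z hZ Q hQZ hQ hnQ x₀ hq hf hw hQcard hstab

/-- **16. The arithmetic of the count** (`H6TWCount`). `w = 1 + q f` and `c (2 + w (q - 2)) = w q e` imply
`q - 1 ≤ 2 e`: since `2 + w (q - 2) = q (1 + f (q - 2))`, the number `1 + f (q - 2)` divides
`w e = (1 + f (q - 2)) e + 2 e f`; it is prime to `f`, so it divides `2 e`. -/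
theorem arithmetic_of_count {q e f c w : ℕ} (hq : 3 ≤ q) (he : 1 ≤ e) (hf : 1 ≤ f)
    (hw : w = 1 + q * f) (h : c * (2 + w * (q - 2)) = w * q * e) : q - 1 ≤ 2 * e :=
  H6.arith_count hq he hf hw h

open scoped Classical in
/-- **17. The orbit of `∞`** (`H6TWCountGL`). If `G` does not fix `∞`, the orbit of `∞` has `1 + q f`
elements with `f ≥ 1`: without `∞` it is a nonempty union of cosets of `trans G` in `k`. -/
theorem card_orbit_infinity {k : Type*} [Field k] [DecidableEq k] [Fintype k]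
    (G : Subgroup (GL (Fin 2) k)) (hne : ∃ g ∈ G, (g : GL (Fin 2) k) 1 0 ≠ 0) :
    ∃ f : ℕ, 1 ≤ f ∧ (MulAction.orbit G (∞ : OnePoint k)).ncard =
      1 + Nat.card (H6.trans G) * f :=
  H6.card_orbit G hne

open scoped Classical in
/-- **18. The elements with one fixed point** (`H6TWCountGL`). `Qset G` is the set of the non-scalar
elements of `G` with exactly one fixed point. If `G` contains some `ur b`, `b ≠ 0`, their number is
`w z (q - 1)`: the fixed point is in the orbit of `∞` (10), and the elements whose only fixed point is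
`∞` are the products of a scalar in `G` and a nontrivial translation. -/
theorem elements_with_one_fixed_point {k : Type*} [Field k] [DecidableEq k] [Fintype k]
    (G : Subgroup (GL (Fin 2) k)) (p : ℕ) [Fact p.Prime] [CharP k p]
    (hU : ∃ b : k, b ≠ 0 ∧ H6.ur b ∈ G) :
    (∀ g : G, g ∈ H6.Qset G ↔
      g ∉ H6.scalG G ∧ ∃ x : OnePoint k, ∀ y : OnePoint k, g • y = y ↔ y = x) ∧
    (H6.Qset G).card = (MulAction.orbit G (∞ : OnePoint k)).ncard *
      (Nat.card (H6.scalG G) * (Nat.card (H6.trans G) - 1)) :=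
  ⟨fun _ => H6.mem_Qset G, H6.card_Q G p hU⟩

/-! ## 5. The determinant -/

/-- **19. The Frattini argument** (`H6TWNum`). `G ∩ SL₂(k)` is already transitive on the orbit of `∞` under
`G`: for `g ∈ G` the matrix `g (ur b) g⁻¹` has determinant `1` and the only fixed point `g∞`, so `g∞` is
in the orbit of `∞` under `G ∩ SL₂(k)` by 10. -/
theorem frattini_argument {k : Type*} [Field k] [DecidableEq k] [Fintype k]
    (G : Subgroup (GL (Fin 2) k)) (p : ℕ) [Fact p.Prime] [CharP k p]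
    (hU : ∃ b : k, b ≠ 0 ∧ H6.ur b ∈ G) {g : GL (Fin 2) k} (hg : g ∈ G) :
    ∃ n ∈ G, n 0 0 * n 1 1 - n 0 1 * n 1 0 = 1 ∧ n • (∞ : OnePoint k) = g • ∞ :=
  (H6.frattini G p hU hg).imp fun _ h => ⟨((H6.mem_G1 G).1 h.1).1, ((H6.mem_G1 G).1 h.1).2, h.2⟩

/-- **20. Orders of the stabilisers** (`H6TWNum`). `H6.G1 G = G ∩ SL₂(k)` has the same translations as
`G`, and the stabiliser of `∞` in `G` is larger than that in `G1 G` by the factor `# det G`: by 19 the
determinant maps the stabiliser onto `det G`. -/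
theorem card_stabilisers {k : Type*} [Field k] [DecidableEq k] [Fintype k]
    (G : Subgroup (GL (Fin 2) k)) (p : ℕ) [Fact p.Prime] [CharP k p]
    (hU : ∃ b : k, b ≠ 0 ∧ H6.ur b ∈ G) :
    (∀ g : GL (Fin 2) k, g ∈ H6.G1 G ↔ g ∈ G ∧ g 0 0 * g 1 1 - g 0 1 * g 1 0 = 1) ∧
    H6.trans (H6.G1 G) = H6.trans G ∧
    Nat.card (MulAction.stabilizer G (∞ : OnePoint k)) =
      Nat.card (MulAction.stabilizer (H6.G1 G) (∞ : OnePoint k)) *
        Nat.card (G.map (Matrix.GeneralLinearGroup.det (n := Fin 2) (R := k))) :=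
  ⟨fun _ => H6.mem_G1 G, H6.trans_G1 G, H6.card_stab_eq G p hU⟩

/-- **21. The torus acts on the translations** (`H6TWNum`). Let `b₀ ∈ trans G` be nonzero. By 11 the map
`ν ↦ ν b₀` is an injection of the image of `nuHom G` into the nonzero translations, so `e ≤ q - 1`; if
`e = q - 1`, every nonzero translation in `G` is `(g₀₀ / g₁₁) b₀` for some upper triangular `g ∈ G`. -/
theorem torus_on_translations {k : Type*} [Field k] [DecidableEq k] [Fintype k]
    (G : Subgroup (GL (Fin 2) k)) {b₀ : k} (hb₀ : b₀ ≠ 0) (hb₀G : b₀ ∈ H6.trans G) :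
    Nat.card (H6.nuHom G).range ≤ Nat.card (H6.trans G) - 1 ∧
      (Nat.card (H6.nuHom G).range = Nat.card (H6.trans G) - 1 →
        ∀ b ∈ H6.trans G, b ≠ 0 →
          ∃ g ∈ G, (g : GL (Fin 2) k) 1 0 = 0 ∧ b = g 0 0 / g 1 1 * b₀) :=
  H6.card_range_nu_le G hb₀ hb₀G

/-! ## 6. Cocycles on the Borel subgroup in characteristic three -/

/-- **22. The action in coordinates** (`H6TWH1`). `ad1` of a scalar matrix is multiplication by the
determinant; for a trace-zero matrix `X` the matrix `ad1 (ur b) X` is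
`[X₀₀ + b X₁₀, X₀₁ - 2 b X₀₀ - b² X₁₀; X₁₀, -X₀₀ - b X₁₀]`; a diagonal `g` multiplies the entries by
`det g`, `det g • g₀₀/g₁₁` (above the diagonal), `det g • g₁₁/g₀₀` (below) and `det g`. -/
theorem action_in_coordinates {k : Type*} [Field k] (X : Matrix (Fin 2) (Fin 2) k) :
    (∀ g : GL (Fin 2) k, g 0 1 = 0 ∧ g 1 0 = 0 ∧ g 0 0 = g 1 1 →
      H6.ad1 g X = g.val.det • X) ∧
    (X 1 1 = -X 0 0 → ∀ b : k, H6.ad1 (H6.ur b) X =
      !![X 0 0 + b * X 1 0, X 0 1 - 2 * b * X 0 0 - b ^ 2 * X 1 0;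
        X 1 0, -X 0 0 - b * X 1 0]) ∧
    ∀ g : GL (Fin 2) k, g 0 1 = 0 → g 1 0 = 0 → H6.ad1 g X =
      g.val.det • !![X 0 0, g 0 0 / g 1 1 * X 0 1; g 1 1 / g 0 0 * X 1 0, X 1 1] :=
  ⟨fun _ hg => H6.ad1_scal hg X, fun hX b => H6.ad1_ur b X hX, fun _ h01 h10 =>
    H6.ad1_diag h01 h10 X⟩

/-- **23. The Sylow subgroup decides** (`H6TWH1`). If `ρ(H)` contains some `ur b`, `b ≠ 0`, and the cocycle
`ψ` vanishes at all `h` for which `ρ(h)` is of the form `ur b`, then `ψ` is a coboundary. Proof: by 9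
these `h` form a subgroup of index prime to `p`; average. -/
theorem cobound_of_vanishing_on_translations {k H : Type*} [Field k] [Group H] [Fintype k]
    (p : ℕ) [Fact p.Prime] [CharP k p] {ρ : H →* GL (Fin 2) k}
    (hU : ∃ b : k, b ≠ 0 ∧ H6.ur b ∈ ρ.range) {ψ : H → Matrix (Fin 2) (Fin 2) k}
    (hψ : ∀ g h, ψ (g * h) = ψ g + H6.ad1 (ρ g) (ψ h))
    (h0 : ∀ h : H, ρ h = H6.ur ((ρ h) 0 1) → ψ h = 0) :
    ∃ m, ∀ g, ψ g = H6.ad1 (ρ g) m - m :=
  H6.cobound_of_upG (ρ := ρ) p hU hψ h0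

/-- **24. The entry below the diagonal** (`H6TWH1`). Let `p = 3`, let `ψ` be a cocycle with values in
trace-zero matrices and `ρ(u) = ur b`, `b ≠ 0`. Then `ψ(u)₁₀ = 0`: from `u³ = 1` one gets
`ψ(u) + u ψ(u) + u² ψ(u) = 0`, and the entry of this sum above the diagonal is
`3 ψ(u)₀₁ - 6 b ψ(u)₀₀ - 5 b² ψ(u)₁₀ = b² ψ(u)₁₀` modulo `3`. -/
theorem lower_entry_vanishes {k H : Type*} [Field k] [Group H] [CharP k 3]
    {ρ : H →* GL (Fin 2) k} (hinj : Function.Injective ρ) {ψ : H → Matrix (Fin 2) (Fin 2) k}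
    (hψ : ∀ g h, ψ (g * h) = ψ g + H6.ad1 (ρ g) (ψ h))
    (htr : ∀ h, (ψ h) 1 1 = -(ψ h) 0 0) {u : H} {b : k} (hb : b ≠ 0) (hu : ρ u = H6.ur b) :
    (ψ u) 1 0 = 0 :=
  H6.cocyc_ur_10 (ρ := ρ) hinj hψ htr hb hu

/-- **25. The heart of the argument** (`H6TWH1b`). Let `p = 3`. Assume that `ψ` vanishes on the diagonal
matrices, that all determinants are `±1`, that some diagonal `t` has determinant `-1` and
`ν = t₀₀ / t₁₁ ≠ -1`, and that the diagonal matrices are transitive on the nonzero translations. Then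
`ψ` vanishes at all `u` with `ρ(u) = ur b`. Proof: let `β(b) = ψ(u)₀₀`, `α(b) = ψ(u)₀₁`. By 24, `β` is
additive; `β(ν c) = -β(c)` (conjugation by `t`, rule 1), and every `b` is `ν c + c`, so `β = 0`. Now `α`
is additive too and `α(ν b) = -ν α(b)`; a diagonal `τ` with `τ₀₀ / τ₁₁ = 1 + ν` gives
`α((1 + ν) b) = ±(1 + ν) α(b)`, while additivity gives `(1 - ν) α(b)`. Hence `2 ν α(b) = 0` or
`2 α(b) = 0`. -/
theorem heart_of_the_argument {k H : Type*} [Field k] [Group H] [Fintype k] [CharP k 3]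
    {ρ : H →* GL (Fin 2) k} (hinj : Function.Injective ρ) {ψ : H → Matrix (Fin 2) (Fin 2) k}
    (hψ : ∀ g h, ψ (g * h) = ψ g + H6.ad1 (ρ g) (ψ h))
    (htr : ∀ h, (ψ h) 1 1 = -(ψ h) 0 0)
    (hT : ∀ t : H, (ρ t) 0 1 = 0 → (ρ t) 1 0 = 0 → ψ t = 0)
    (hdet1 : ∀ t : H, (ρ t).val.det = 1 ∨ (ρ t).val.det = -1)
    {t : H} (ht01 : (ρ t) 0 1 = 0) (ht10 : (ρ t) 1 0 = 0) (htd : (ρ t).val.det = -1)
    (htν : (ρ t) 0 0 / (ρ t) 1 1 ≠ -1)
    (htrans : ∀ b b' : k, b ≠ 0 → b' ≠ 0 → b ∈ H6.trans ρ.range → b' ∈ H6.trans ρ.range →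
      ∃ τ : H, (ρ τ) 0 1 = 0 ∧ (ρ τ) 1 0 = 0 ∧ b' = (ρ τ) 0 0 / (ρ τ) 1 1 * b) :
    ∀ h : H, ρ h = H6.ur ((ρ h) 0 1) → ψ h = 0 :=
  H6.core_vanish (ρ := ρ) hinj hψ htr hT hdet1 ht01 ht10 htd htν htrans

/-- **26. Sylow subgroup of order three** (`H6TWH1b`). Let `p = 3` and let the translations in `ρ(H)` be
`0, b₀, -b₀`. Then every cocycle with values in trace-zero matrices is a coboundary: by 24 one can write
down a matrix `m` whose coboundary agrees with `ψ` at the element `u₀` with `ρ(u₀) = ur b₀` (here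
`m₁₀ = ψ(u₀)₀₀ / b₀`); then use 23. -/
theorem sylow_of_order_three {k H : Type*} [Field k] [Group H] [Fintype k] [CharP k 3]
    {ρ : H →* GL (Fin 2) k} (hinj : Function.Injective ρ) {ψ : H → Matrix (Fin 2) (Fin 2) k}
    (hψ : ∀ g h, ψ (g * h) = ψ g + H6.ad1 (ρ g) (ψ h))
    (htr : ∀ h, (ψ h) 1 1 = -(ψ h) 0 0) {u₀ : H} {b₀ : k} (hb₀ : b₀ ≠ 0)
    (hu₀ : ρ u₀ = H6.ur b₀) (hcard : Nat.card (H6.trans ρ.range) = 3) :
    ∃ m, ∀ g, ψ g = H6.ad1 (ρ g) m - m :=
  H6.small_case (ρ := ρ) hinj hψ htr hb₀ hu₀ hcard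

/-- **27. Normalisation on the diagonal matrices** (`H6TWH1b`). The group of the `h` with diagonal
`ρ(h)` has an order prime to `p`, as it embeds into `kˣ × kˣ`. If a cocycle with values in trace-zero
matrices is given on a subset `K` by a coboundary, the matrix `m` may be chosen of trace zero: replace
`m` by `m - (tr m / 2)`, and note that `tr m = 0` unless `det ρ = 1` on `K`. -/
theorem normalisation_on_diagonal {k H : Type*} [Field k] [Group H] [Fintype k] (p : ℕ)
    [Fact p.Prime] [CharP k p] (h2 : (2 : k) ≠ 0) {ρ : H →* GL (Fin 2) k}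
    (hinj : Function.Injective ρ) {K : Set H} {ψ : H → Matrix (Fin 2) (Fin 2) k}
    (htr : ∀ h, (ψ h).trace = 0) :
    (((Nat.card ((H6.diagSub k).comap ρ) : ℕ) : k) ≠ 0 ∧
      ∀ g : GL (Fin 2) k, g ∈ H6.diagSub k ↔ g 0 1 = 0 ∧ g 1 0 = 0) ∧
    ((∃ m, ∀ t ∈ K, ψ t = H6.ad1 (ρ t) m - m) →
      ∃ m : Matrix (Fin 2) (Fin 2) k, m.trace = 0 ∧ ∀ t ∈ K, ψ t = H6.ad1 (ρ t) m - m) :=
  ⟨⟨H6.card_diag_prime p hinj, fun _ => Iff.rfl⟩, H6.trace_fix (ρ := ρ) h2 htr⟩

/-- **28. Diagonal parts** (`H6TWH1c`). Let the diagonal matrix `ρ(t₀)` generate the torus: for every upper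
triangular `ρ(h)` the quotient of the diagonal entries is a power of that of `ρ(t₀)`. Then the diagonal
part of every upper triangular matrix in `ρ(H)` is in `ρ(H)`: divide by the power of `ρ(t₀)` and apply
6 to the matrix `[a b; 0 a]` which remains. -/
theorem diagonal_parts {k H : Type*} [Field k] [Group H] [Fintype k] {ρ : H →* GL (Fin 2) k}
    {t₀ : H} (ht01 : (ρ t₀) 0 1 = 0) (ht10 : (ρ t₀) 1 0 = 0)
    (hgen : ∀ h : H, (ρ h) 1 0 = 0 → ∃ n : ℤ,
      (ρ h) 0 0 / (ρ h) 1 1 = ((ρ t₀) 0 0 / (ρ t₀) 1 1) ^ n) {h : H} (h10 : (ρ h) 1 0 = 0) :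
    ∃ τ : H, (ρ τ) 0 1 = 0 ∧ (ρ τ) 1 0 = 0 ∧ (ρ τ) 0 0 = (ρ h) 0 0 ∧ (ρ τ) 1 1 = (ρ h) 1 1 :=
  H6.exists_diag_part ht01 ht10 hgen h10

/-- **29. The main case** (`H6TWH1c`). `p = 3`, `q ≠ 3`, a diagonal `ρ(t₀)` generates the torus, and all
scalars in `ρ(H)` have determinant `1`. By 28 and the numerical consequence `e = q - 1` the diagonal
matrices are transitive on the nonzero translations (21). There is a diagonal `t` with determinant `-1`
and `t₀₀ / t₁₁ ≠ -1`, since otherwise `nuHom` would take at most the values `±1` and `q = e + 1 ≤ 3`.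
Normalise by 2 and 27, apply 25 and 23. -/
theorem main_case {k H : Type*} [Field k] [Group H] [DecidableEq k] [Fintype k] [CharP k 3]
    {ρ : H →* GL (Fin 2) k} (hinj : Function.Injective ρ)
    (hsplit : ∀ h, ∃ α β : k, (ρ h).val.trace = α + β ∧ (ρ h).val.det = α * β)
    (hdet : Nat.card
      ((Matrix.GeneralLinearGroup.det (n := Fin 2) (R := k)).comp ρ).range = 2)
    (hne : ∃ h, (ρ h) 1 0 ≠ 0) (hU : ∃ b : k, b ≠ 0 ∧ H6.ur b ∈ ρ.range)
    (hsc : ∀ z, (ρ z) 0 1 = 0 ∧ (ρ z) 1 0 = 0 ∧ (ρ z) 0 0 = (ρ z) 1 1 → (ρ z).val.det = 1)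
    {t₀ : H} (ht01 : (ρ t₀) 0 1 = 0) (ht10 : (ρ t₀) 1 0 = 0)
    (hgen : ∀ h : H, (ρ h) 1 0 = 0 → ∃ n : ℤ,
      (ρ h) 0 0 / (ρ h) 1 1 = ((ρ t₀) 0 0 / (ρ t₀) 1 1) ^ n)
    (hq : Nat.card (H6.trans ρ.range) ≠ 3)
    {ψ : H → Matrix (Fin 2) (Fin 2) k} (hψ : ∀ g h, ψ (g * h) = ψ g + H6.ad1 (ρ g) (ψ h))
    (htr : ∀ h, (ψ h).trace = 0) : ∃ m, ∀ g, ψ g = H6.ad1 (ρ g) m - m :=
  H6.h1_diag (ρ := ρ) hinj hsplit hdet hne hU hsc ht01 ht10 hgen hq hψ htr

/-- **30. The normalised theorem** (`H6TWH1c`): the vanishing theorem for a group which contains some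
`ur b`, `b ≠ 0`, and does not fix `∞`. Scalars of determinant `≠ 1` are treated by Sah's lemma; otherwise
`p = 3` and `e = q - 1`; for `q = 3` use 26, for `q > 3` conjugate a generator of the (cyclic) torus into
diagonal form by some `ur x` and use 29. -/
theorem normalised_theorem {k H : Type*} [Field k] [Group H] [DecidableEq k] [Fintype k]
    (p : ℕ) [Fact p.Prime] [CharP k p] (hp2 : p ≠ 2) {ρ : H →* GL (Fin 2) k}
    (hinj : Function.Injective ρ)
    (hsplit : ∀ h, ∃ α β : k, (ρ h).val.trace = α + β ∧ (ρ h).val.det = α * β)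
    (hdet : Nat.card
      ((Matrix.GeneralLinearGroup.det (n := Fin 2) (R := k)).comp ρ).range = p - 1)
    (hne : ∃ h, (ρ h) 1 0 ≠ 0) (hU : ∃ b : k, b ≠ 0 ∧ H6.ur b ∈ ρ.range)
    {ψ : H → Matrix (Fin 2) (Fin 2) k} (hψ : ∀ g h, ψ (g * h) = ψ g + H6.ad1 (ρ g) (ψ h))
    (htr : ∀ h, (ψ h).trace = 0) : ∃ m, ∀ g, ψ g = H6.ad1 (ρ g) m - m :=
  H6.h1_normal (ρ := ρ) p hp2 hinj hsplit hdet hne hU hψ htr

end Fermat.Agent.Guide.TWSteps
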