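import Fermat.Agent.H95S27

/-!
# Reader's guide: multiplication tables and first order predicates (S27)

Every theorem of this file is proved by citing a theorem of the library; nothing here is used by any
other file. Companion of `GuideTorsion`, sections 1 and 3: the steps of `exists_table`, `exists_model`,
`isSmooth_iff_dedekind`, `lefschetz` and `transfer` there. Weights and ideals without a table are in
`GuideWeights`; the count of torsion classes by equations is in `GuideTorsionTools`. Editor: helper77;
the library files are by helper95 (`H95Defs`), helper77 (`H77*`), helper3 (`H3S27Smooth`) and helper68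
(`H68ThetaFO`).

**The idea.** A curve with a point `∞` over a field `K` is replaced by its affine ring `B` (the functions
regular outside `∞`) together with the weight `wt : B → ℕ ∪ {-∞}` (the order of the pole at `∞`). Take
`x ∈ B` of a large weight `a`, and for every residue class modulo `a` an element `y i` of minimal weight.
The `y i` are a basis of `B` over `K[x]`, so `B` is described by the finitely many coefficients of the
products `y i * y j`, a *multiplication table*. Everything which is needed about `B` is a statement about
these coefficients in the first order language of rings, the same for all fields: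

* the table is the table of a weighted algebra (`IsTable`);
* the algebra is a Dedekind domain (`IsSmooth`, a Jacobian criterion);
* there are `M` ideal classes killed by `n` (`ThetaB`), with explicit bounds for all degrees.

By the completeness of the theory of algebraically closed fields of characteristic zero (Mathlib) such a
statement holds in characteristic zero if it holds over the algebraic closures of infinitely many prime
fields. No Jacobian variety, no scheme, no resultant and no Hilbert scheme is used.

**Order.** 1. Tables. 2. From a table to an algebra. 3. Smooth tables and Dedekind domains. 4. First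
order predicates. 5. The predicates of tables, and the transfer.

**Where it is used.** S27 and, through `H95.S27_main`, S19, S32, S38, S43, S45, S46, S50, S59, S60, S03,
S04, S06 and S01. `NOTES.md`, Appendix A.3, notes [85] and [135], and Appendix A.12, note [285].
-/

set_option autoImplicit false

namespace Fermat.Agent.Guide.Tables

open Polynomial
open Fermat.Agent.H95 (IsWeight Shape FO)

universe u

/-! ## 1. Tables

A shape `s` is a number `s.a > 0` with weights `s.w 0 = 0`, ..., `s.w (a - 1)`. A table of shape `s` is a
vector `c : s.Idx → K`. Elements of the algebra are written as vectors `u : Fin s.a → K[X]`, which stand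
for `∑ k, u k(x) * y k`. The notions `IsTable` and `IsModel` are written out in `GuideTorsion`. -/

section Tables

/-- **Shapes and tables.** The weights of a shape are distinct modulo `a`; the coefficients of a table are
`c (i, j, k, e)`, `e < s.N = 2 ∑ w i + 1`; `s.C c i j k` is the polynomial with these coefficients; and
`s.tmul c` is the bilinear multiplication for which the product of the basis vectors `i` and `j` is the
vector `s.C c i j`. File `H95Defs`. -/
theorem shape_and_product (s : Shape) {R : Type*} [CommRing R] (c : s.Idx → R)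
    (f g : Fin s.a → R[X]) (i j k : Fin s.a) :
    s.w 0 = 0 ∧ (∀ i j, s.w i ≡ s.w j [MOD s.a] → i = j) ∧ s.N = 2 * (∑ i, s.w i) + 1 ∧
      s.C c i j k = ∑ e : Fin s.N, Polynomial.C (c (i, j, k, e)) * X ^ (e : ℕ) ∧
      s.tmul c f g k = ∑ i, ∑ j, f i * g j * s.C c i j k :=
  ⟨s.w_zero, s.w_inj, rfl, rfl, rfl⟩

/-- **The numbers `a e + w k`** are pairwise different. Every residue class modulo `a` contains exactly one
`w k`, and a number `n` congruent to `w k` is of the form `a e + w k'` if and only if `w k ≤ n`. So
`∑ ⌊w k / a⌋` numbers are not of this form; this sum is called `s.g`. Files `H77Vwt`, `H77Table`. -/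
theorem positions (s : Shape) :
    (∀ (k k' : Fin s.a) (e e' : ℕ), s.a * e + s.w k = s.a * e' + s.w k' → k = k' ∧ e = e') ∧
    (∀ n : ℕ, ∃ k, s.w k ≡ n [MOD s.a]) ∧
    (∀ (n : ℕ) (k : Fin s.a), s.w k ≡ n [MOD s.a] →
      ((∃ k' e, s.a * e + s.w k' = n) ↔ s.w k ≤ n)) ∧
    ({n : ℕ | ∃ k e, s.a * e + s.w k = n}ᶜ).ncard = ∑ k, s.w k / s.a :=
  ⟨fun _ _ _ _ h => H77.M.pos_inj s h, H77.M.exists_modEq s, fun _ _ h => H77.M.mem_posSet_iff s h,
    H77.M.ncard_compl_posSet s⟩

variable {s : Shape} {K B : Type*} [Field K] [CommRing B] [Algebra K B] {wt : B → WithBot ℕ}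
  {c : s.Idx → K} {x : B} {y : Fin s.a → B}

/-- **Coordinates.** Let `x` have the weight `a`, the `y k` the weights `w k`, and let every weight of `B`
be of the form `a e + w k`. Then every element of `B` is `∑ k, u k(x) * y k` for exactly one vector `u` of
polynomials: the weights of the terms are different, and the image of `K[X]^a` has all weights of `B`, so it
is `B` (`GuideWeights.eq_of_same_weights`). File `H77ExTable`. -/
theorem coordinates (hw : IsWeight K wt) (hx : wt x = (s.a : WithBot ℕ))
    (hy : ∀ i, wt (y i) = (s.w i : WithBot ℕ))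
    (hmin : ∀ n : ℕ, (∃ f ∈ (Set.univ : Set B), wt f = (n : WithBot ℕ)) →
      ∃ k e, s.a * e + s.w k = n) :
    Function.Bijective fun u : Fin s.a → K[X] => ∑ k, aeval x (u k) * y k :=
  H77.M.ev_bijective_of hw hx hy hmin

/-- **From elements to a table.** If in addition `y 0 = 1`, the coordinates of the products `y i * y j` form
a table of the given shape. With `x` of large weight and `y k` of minimal weight in their classes modulo `a`
this gives `GuideTorsion.exists_table`. File `H77ExTable`. -/
theorem exists_table_of_elements (hw : IsWeight K wt) (hx : wt x = (s.a : WithBot ℕ))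
    (hy : ∀ i, wt (y i) = (s.w i : WithBot ℕ)) (hy0 : y 0 = 1)
    (hmin : ∀ n : ℕ, (∃ f ∈ (Set.univ : Set B), wt f = (n : WithBot ℕ)) →
      ∃ k e, s.a * e + s.w k = n) :
    ∃ c : s.Idx → K, s.IsModel c wt x y :=
  H77.M.exists_model_of hw hx hy hy0 hmin

/-- **Weights by coordinates.** In a weighted algebra with the table `c` the element with the coordinates
`u` has weight `n` if and only if `n` is the largest of the numbers `a e + w k` with a nonzero coefficient
of `X ^ e` in `u k`. (These numbers are pairwise different.) Files `H77Vwt`, `H77Table`. -/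
theorem weight_by_coordinates (h : s.IsModel c wt x y) (f : Fin s.a → K[X]) (n : ℕ) :
    wt (∑ k, aeval x (f k) * y k) = (n : WithBot ℕ) ↔
      (∀ k e, n < s.a * e + s.w k → (f k).coeff e = 0) ∧
        ∃ k e, s.a * e + s.w k = n ∧ (f k).coeff e ≠ 0 := by
  rw [← H77.M.ev_apply, H77.M.wt_ev h]; exact H77.M.vwt_eq_iff s

/-- **Products by coordinates**: `s.tmul c` is the multiplication of the algebra. File `H77Table`. -/
theorem product_by_coordinates (h : s.IsModel c wt x y) (f g : Fin s.a → K[X]) :
    ∑ k, aeval x (s.tmul c f g k) * y k =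
      (∑ k, aeval x (f k) * y k) * ∑ k, aeval x (g k) * y k :=
  H77.M.ev_mul h f g

/-- **The weights and the genus of a model**: the weights are the numbers `a e + w k`, and the number of
gaps is `s.g = ∑ ⌊w k / a⌋`. File `H77Table`. -/
theorem genus_of_model (h : s.IsModel c wt x y) :
    {n : ℕ | ∃ f ∈ (Set.univ : Set B), wt f = (n : WithBot ℕ)} = {n | ∃ k e, s.a * e + s.w k = n} ∧
      H95.genus wt = ∑ k, s.w k / s.a :=
  ⟨H77.M.wts_univ_eq h, H77.M.genus_eq h⟩

/-- **The table of a model is valid.** File `H77Table`. -/
theorem isTable_of_model (h : s.IsModel c wt x y) : s.IsTable c :=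
  H77.M.isTable h

end Tables

/-! ## 2. From a table to an algebra -/

section Algebra

variable {s : Shape} {K : Type u} [Field K] {c : s.Idx → K}

/-- **Weights of vectors.** `H77.M.vwt s u` is the largest number `a e + w k` with a nonzero coefficient of
`X ^ e` in `u k`, and `-∞` for `u = 0`. File `H77Vwt`. -/
theorem vwt_iff (u : Fin s.a → K[X]) :
    (∀ n : ℕ, H77.M.vwt s u = (n : WithBot ℕ) ↔
      (∀ k e, n < s.a * e + s.w k → (u k).coeff e = 0) ∧
        ∃ k e, s.a * e + s.w k = n ∧ (u k).coeff e ≠ 0) ∧
      (H77.M.vwt s u = ⊥ ↔ u = 0) :=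
  ⟨fun _ => H77.M.vwt_eq_iff s, H77.M.vwt_eq_bot_iff s⟩

/-- **Leading terms.** The weight of a sum is at most the maximum of the weights, and of two vectors of the
same weight one is a multiple of the other modulo smaller weight, since the numbers `a e + w k` are
different. Files `H77Vwt`, `H77ExModel`. -/
theorem vwt_leading :
    (∀ u v : Fin s.a → K[X], H77.M.vwt s (u + v) ≤ max (H77.M.vwt s u) (H77.M.vwt s v)) ∧
      ∀ u v : Fin s.a → K[X], u ≠ 0 → H77.M.vwt s u = H77.M.vwt s v →
        ∃ r : K, H77.M.vwt s (u - r • v) < H77.M.vwt s u :=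
  ⟨H77.M.vwt_add_le s, H77.M.vwt_exists_sub_lt⟩

/-- **Products of monomials.** `Pi.single i (X ^ e)` is the vector of `x ^ e * y i`. If the table is valid,
the product of two such vectors has the sum of the weights: `y i * y j` has the weight `w i + w j` by the
last two conditions of `GuideTorsion.isTable_iff`. File `H77ExModel`. -/
theorem vwt_product_of_monomials (h : s.IsTable c) (i j : Fin s.a) (e f : ℕ) :
    H77.M.vwt s (s.tmul c (Pi.single i (X ^ e)) (Pi.single j (X ^ f))) =
      (((s.a * e + s.w i) + (s.a * f + s.w j) : ℕ) : WithBot ℕ) :=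
  H77.M.vwt_mono_tmul_mono h i j e f

/-- **The algebra of a valid table.** The multiplication `s.tmul c` is commutative and associative, the
first basis vector is the unit, and the weight is additive for all products (consider leading terms). So
the vectors form a weighted algebra, over every field: `GuideTorsion.exists_model`. File `H77ExModel`. -/
theorem algebra_of_table (h : s.IsTable c) :
    (∀ f g, s.tmul c f g = s.tmul c g f) ∧
      (∀ f g k, s.tmul c (s.tmul c f g) k = s.tmul c f (s.tmul c g k)) ∧
      (∀ f, s.tmul c (Pi.single 0 1) f = f) ∧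
      ∀ f g, H77.M.vwt s (s.tmul c f g) = H77.M.vwt s f + H77.M.vwt s g :=
  ⟨H77.M.tmul_comm h, H77.M.tmul_assoc h, H77.M.one_tmul h, H77.M.vwt_tmul h⟩

end Algebra

/-! ## 3. Smooth tables and Dedekind domains -/

/-- **Points and tangent vectors of a table**, written out. A point is `(x₀, η)`, a tangent vector at it is
`(ξ, τ)`, and the table is smooth if any two tangent vectors at a point are proportional. File
`H95Defs`. -/
theorem smooth_iff (s : Shape) {K : Type*} [Field K] (c : s.Idx → K) :
    (∀ (x₀ : K) (η : Fin s.a → K), s.IsPoint c x₀ η ↔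
      η 0 = 1 ∧ ∀ i j, η i * η j = ∑ k, (s.C c i j k).eval x₀ * η k) ∧
    (∀ (x₀ : K) (η : Fin s.a → K) (ξ : K) (τ : Fin s.a → K), s.IsTangent c x₀ η ξ τ ↔
      τ 0 = 0 ∧ ∀ i j, τ i * η j + η i * τ j =
        ∑ k, ((s.C c i j k).derivative.eval x₀ * ξ * η k + (s.C c i j k).eval x₀ * τ k)) ∧
    (s.IsSmooth c ↔ ∀ x₀ η, s.IsPoint c x₀ η → ∀ ξ τ ξ' τ', s.IsTangent c x₀ η ξ τ →
      s.IsTangent c x₀ η ξ' τ' → (∀ i, ξ * τ' i = ξ' * τ i) ∧ ∀ i j, τ i * τ' j = τ' i * τ j) :=
  ⟨fun _ _ => Iff.rfl, fun _ _ _ _ => Iff.rfl, Iff.rfl⟩

section Smooth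

variable {s : Shape} {K B : Type*} [Field K] [CommRing B] [Algebra K B] {wt : B → WithBot ℕ}
  {c : s.Idx → K} {x : B} {y : Fin s.a → B}

/-- **Points are homomorphisms** `P : B → K` over `K`: the values of `x` and of the `y i`. File
`H3S27Smooth`. -/
theorem point_iff_homomorphism (h : s.IsModel c wt x y) (x₀ : K) (η : Fin s.a → K) :
    s.IsPoint c x₀ η ↔ ∃ P : B →ₐ[K] K, P x = x₀ ∧ ∀ i, P (y i) = η i := by
  refine ⟨H3S27.exists_algHom h, ?_⟩
  rintro ⟨P, rfl, hP⟩
  exact funext hP ▸ H3S27.isPoint_of_algHom h P

/-- **Tangent vectors are derivations** `D : B → K` at `P`: the values of `D` at `x` and at the `y i`.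
File `H3S27Smooth`. -/
theorem tangent_iff_derivation (h : s.IsModel c wt x y) (P : B →ₐ[K] K) (ξ : K) (τ : Fin s.a → K) :
    s.IsTangent c (P x) (fun i => P (y i)) ξ τ ↔
      ∃ D : B →ₗ[K] K, (∀ f g, D (f * g) = P f * D g + P g * D f) ∧ D x = ξ ∧
        ∀ i, D (y i) = τ i := by
  constructor
  · intro ht
    obtain ⟨D, hD, h1, h2⟩ := H3S27.exists_der h ht
    exact ⟨D, hD.leibniz, h1, h2⟩
  · rintro ⟨D, hD, rfl, h2⟩
    exact funext h2 ▸ H3S27.isTangent_of_isDer h ⟨hD⟩

/-- **In a Dedekind domain any two derivations at a point are proportional.** (They vanish on the square of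
the maximal ideal, and the maximal ideal is generated by one element modulo its square.) File
`H3S27Smooth`. -/
theorem derivations_of_dedekind [IsDedekindDomain B] (P : B →ₐ[K] K) (D D' : B →ₗ[K] K)
    (hD : ∀ f g, D (f * g) = P f * D g + P g * D f)
    (hD' : ∀ f g, D' (f * g) = P f * D' g + P g * D' f) (f g : B) : D f * D' g = D' f * D g :=
  H3S27.der_of_isDedekindDomain P D D' ⟨hD⟩ ⟨hD'⟩ f g

/-- **Conversely**, if any two derivations at the point `P` are proportional, then the maximal ideal
`ker P` is generated by one element modulo its square. File `H3S27Smooth`. -/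
theorem generator_of_derivations (P : B →ₐ[K] K)
    (hder : ∀ D D' : B →ₗ[K] K, (∀ f g, D (f * g) = P f * D g + P g * D f) →
      (∀ f g, D' (f * g) = P f * D' g + P g * D' f) → ∀ f g, D f * D' g = D' f * D g) :
    ∃ v ∈ RingHom.ker P, RingHom.ker P ≤ Ideal.span {v} ⊔ (RingHom.ker P) ^ 2 :=
  H3S27.exists_gen_of_der P fun D D' hD hD' => hder D D' hD.leibniz hD'.leibniz

/-- **Maximal ideals are points**, if `K` is algebraically closed: a nonzero maximal ideal of a weighted
algebra is the kernel of a homomorphism to `K` over `K` (its residue field is finite over `K`). File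
`H3S27Smooth`. -/
theorem maximal_ideal_is_point [IsAlgClosed K] (hw : IsWeight K wt) {m : Ideal B} [m.IsMaximal]
    (hm : m ≠ ⊥) : ∃ P : B →ₐ[K] K, RingHom.ker P = m :=
  H3S27.exists_algHom_ker hw hm

/-- **Nakayama**: a nonzero prime ideal `m` of a noetherian domain which is generated by one element modulo
its square has a localisation which is a discrete valuation ring. (With the preceding theorems: a smooth
table is the table of a Dedekind domain; statement in `GuideTorsion.isSmooth_iff_dedekind`.) File
`H3S27Smooth`. -/
theorem dvr_of_generator [IsDomain B] [IsNoetherianRing B] {m : Ideal B} [m.IsPrime]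
    (hm : m ≠ ⊥) {v : B} (hv : m ≤ Ideal.span {v} ⊔ m ^ 2) (hvm : v ∈ m) :
    IsDiscreteValuationRing (Localization.AtPrime m) :=
  H3S27.isDVR_of_gen hm hv hvm

end Smooth

/-! ## 4. First order predicates

A predicate `P K c` of vectors `c : α → K` over fields `K` is *first order* (`FO P`, written out in
`GuideTorsion.fo_iff`) if one formula of the language of rings expresses it over all algebraically closed
fields `K`. The following rules allow to see this from the form of the definition of `P`, without writing
down formulas. `Pred α`, `Fun α` and `UFun α` are the types of such predicates, of functions with values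
in `K`, and of functions with values in `K[X]`. -/

section FirstOrder

open Fermat.Agent.H77.FOL

/-- **Closure properties**: negation, conjunction, implication, quantifiers over a finite set, quantifiers
over vectors with entries in `K`, and statements which do not depend on the field. File `H77FO`. -/
theorem fo_closure {α β : Type} [Finite β] :
    (∀ P : Pred.{u} α, FO P → FO fun K _ v => ¬ P K v) ∧
    (∀ P Q : Pred.{u} α, FO P → FO Q → FO fun K _ v => P K v ∧ Q K v) ∧
    (∀ P Q : Pred.{u} α, FO P → FO Q → FO fun K _ v => P K v → Q K v) ∧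
    (∀ P : β → Pred.{u} α, (∀ i, FO (P i)) → FO fun K _ v => ∀ i, P i K v) ∧
    (∀ P : β → Pred.{u} α, (∀ i, FO (P i)) → FO fun K _ v => ∃ i, P i K v) ∧
    (∀ P : Pred.{u} (α ⊕ β), FO P → FO fun K _ v => ∀ w : β → K, P K (Sum.elim v w)) ∧
    (∀ P : Pred.{u} (α ⊕ β), FO P → FO fun K _ v => ∃ w : β → K, P K (Sum.elim v w)) ∧
    ∀ p : Prop, FO.{u} (α := α) fun _ _ _ => p :=
  ⟨fun _ => fo_not, fun _ _ => fo_and, fun _ _ => fo_imp, fun _ => fo_forall, fun _ => fo_exists,
    fun _ => fo_all, fun _ => fo_ex, fo_const⟩

/-- **Polynomial functions.** `PF f`: the function `f` of vectors is given by one polynomial with integral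
coefficients, for all fields; `UF g`: the same for a function with values in `K[X]` (a polynomial whose
coefficients are polynomials in the entries of the vector). File `H77FO`. -/
theorem pf_and_uf {α : Type} (f : Fun.{u} α) (g : UFun.{u} α) :
    (PF f ↔ ∃ p : MvPolynomial α ℤ, ∀ (K : Type u) [Field K] (w : α → K),
      f K w = MvPolynomial.aeval w p) ∧
    (UF g ↔ ∃ p : (MvPolynomial α ℤ)[X], ∀ (K : Type u) [Field K] (w : α → K),
      g K w = p.map ((MvPolynomial.aeval w : MvPolynomial α ℤ →ₐ[ℤ] K) :
        MvPolynomial α ℤ →+* K)) :=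
  ⟨Iff.rfl, Iff.rfl⟩

/-- **Rules for them**: the entries of the vector; sums and products; constant polynomials; products and
derivatives of polynomials; values of polynomials. File `H77FO`. -/
theorem pf_rules {α : Type} :
    (∀ i : α, PF.{u} fun _ _ (w : α → _) => w i) ∧
    (∀ f g : Fun.{u} α, PF f → PF g → PF fun K _ w => f K w + g K w) ∧
    (∀ f g : Fun.{u} α, PF f → PF g → PF fun K _ w => f K w * g K w) ∧
    (∀ f : Fun.{u} α, PF f → UF fun K _ w => C (f K w)) ∧
    (∀ f g : UFun.{u} α, UF f → UF g → UF fun K _ w => f K w * g K w) ∧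
    (∀ f : UFun.{u} α, UF f → UF fun K _ w => derivative (f K w)) ∧
    ∀ (f : UFun.{u} α) (g : Fun.{u} α), UF f → PF g → PF fun K _ w => (f K w).eval (g K w) :=
  ⟨PF.var, fun _ _ => PF.add, fun _ _ => PF.mul, fun _ => UF.C, fun _ _ => UF.mul,
    fun _ => UF.derivative, fun _ _ hf hg => PF.eval hf hg⟩

/-- **Equations are first order**: between polynomial functions with values in `K`, and between such
functions with values in `K[X]`. File `H77FO`. -/
theorem fo_equation {α : Type} :
    (∀ f g : Fun.{u} α, PF f → PF g → FO fun K _ w => f K w = g K w) ∧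
      ∀ f g : UFun.{u} α, UF f → UF g → FO fun K _ w => f K w = g K w :=
  ⟨fun _ _ => fo_eq, fun _ _ => fo_ueq⟩

/-! ## 5. The predicates of tables, and the transfer -/

/-- **The multiplication is polynomial**: the entries of the product of two vectors are polynomial
functions of the entries of the table and of the coefficients of the vectors. File `H77FOTheta`. -/
theorem uf_product (s : Shape) {α : Type} {c : ∀ (K : Type u) [Field K], (α → K) → s.Idx → K}
    (hc : ∀ t, PF fun K _ v => c K v t)
    {f g : ∀ (K : Type u) [Field K], (α → K) → Fin s.a → K[X]}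
    (hf : ∀ i, UF fun K _ v => f K v i) (hg : ∀ i, UF fun K _ v => g K v i) (k : Fin s.a) :
    UF fun K _ v => s.tmul (c K v) (f K v) (g K v) k :=
  UF.tmul s hc hf hg k

/-- **Valid tables and smooth tables are first order** (compare `GuideTorsion.isTable_iff` and `smooth_iff`
with the rules). File `H77FOTheta`. -/
theorem fo_table_and_smooth (s : Shape) :
    (FO.{u} fun K _ (c : s.Idx → K) => s.IsTable c) ∧
      FO.{u} fun K _ (c : s.Idx → K) => s.IsSmooth c :=
  ⟨fo_isTable s, fo_isSmooth s⟩

/-- **The formula for torsion classes**, written out; its meaning is explained in `GuideTorsionTools`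
(`torsion_element_iff`, `equivalent_iff`). Elements of `B` with coordinates of degree `< D` are arrays
`A : Fin a × Fin D → K`; `toP s A` is the vector of polynomials of the array, `HasWt s A m` says that its
weight is `m`, `tpow s c v n` is the `n`-th power of the vector `v` in the algebra of the table. Files
`H77ThetaDef`, `H68ThetaFO`. -/
theorem thetaB_unfold (s : Shape) (n D M : ℕ) {K : Type*} [Field K] (c : s.Idx → K) :
    (∀ f : Fin s.a × Fin D → K, H68.TorsB s n D c f ↔
      ∃ (e : Fin D) (u : Fin s.a → Fin D), n * (e : ℕ) < D ∧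
        (∀ i j, (u i : ℕ) ≡ u j [MOD s.a] → i = j) ∧ (∑ j, (u j : ℕ) = ∑ j, s.w j + s.a * e) ∧
        HasWt s f (n * e) ∧ ∃ z t : Fin s.a × (Fin s.a × Fin D) → K,
          (∀ j, HasWt s (fun p => z (j, p)) (u j)) ∧
          ∀ j, tpow s c (toP s fun p => z (j, p)) n =
            s.tmul c (toP s f) (toP s fun p => t (j, p))) ∧
    (∀ f f' : Fin s.a × Fin D → K, EquivF s n D c f f' ↔ ∃ v : Fin s.a × Fin D → K,
      tpow s c (toP s v) n = s.tmul c (toP s f) (tpow s c (toP s f') (n - 1))) ∧
    (H68.ThetaB s n D M c ↔ ∃ F : Fin M × (Fin s.a × Fin D) → K,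
      (∀ i, H68.TorsB s n D c fun p => F (i, p)) ∧
        ∀ i j, i ≠ j → ¬ EquivF s n D c (fun p => F (i, p)) fun p => F (j, p)) :=
  ⟨fun _ => Iff.rfl, fun _ _ => Iff.rfl, Iff.rfl⟩

/-- **The statement which is transferred.** For all `n`, `D` and `M` the predicate "if the table `c` is
valid and smooth, the formula `ThetaB` holds for `M`, but not for `M + 1`" is first order. For `n > 0`,
`D = n (3 g + a) + 2` and an algebraically closed field it says: if the algebra of the table is a Dedekind
domain, exactly `M` ideal classes are killed by `n` (`GuideTorsion.torsion_count_is_first_order`). Files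
`H77FO`, `H77FOTheta`, `H68ThetaFO`. -/
theorem fo_transferred (s : Shape) (n D M : ℕ) :
    FO.{u} fun K _ (c : s.Idx → K) => s.IsTable c → s.IsSmooth c →
      H68.ThetaB s n D M c ∧ ¬ H68.ThetaB s n D (M + 1) c :=
  fo_imp (fo_isTable s) (fo_imp (fo_isSmooth s)
    (fo_and (H68.fo_thetaB s n D M) (fo_not (H68.fo_thetaB s n D (M + 1)))))

/-- **Counting with two formulas.** For `M > 0` exactly `M` elements are killed by `n` if and only if there
are at least `M`, but not at least `M + 1`. File `H77Transfer`. -/
theorem natCard_iff {G : Type*} [CommMonoid G] (n M : ℕ) (hM : 0 < M) :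
    Nat.card {κ : G // κ ^ n = 1} = M ↔ (∃ S : Finset G, S.card = M ∧ ∀ κ ∈ S, κ ^ n = 1) ∧
      ¬ ∃ S : Finset G, S.card = M + 1 ∧ ∀ κ ∈ S, κ ^ n = 1 :=
  ⟨exists_of_natCard n M hM, fun h => natCard_eq_of n M hM h.1 h.2⟩

/-- **Fields for the transfer**: in every universe there is an algebraically closed field of characteristic
`p` every element of which lies in a finite field. Over such a field the number of torsion classes is known
(`GuideTorsion.card_torsion_char_p`); the transfer itself is `GuideTorsion.lefschetz` and
`GuideTorsion.transfer`. File `H77Transfer`. -/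
theorem exists_locally_finite_field (p : ℕ) [Fact p.Prime] :
    ∃ (K : Type u) (_ : Field K) (_ : IsAlgClosed K) (_ : CharP K p),
      ∀ c : K, ∃ m, 0 < m ∧ c ^ p ^ m = c :=
  exists_locallyFinite.{u} p

end FirstOrder

end Fermat.Agent.Guide.Tables
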