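import Fermat.Agent.H57FullIdx

/-!
# Reader's guide: modularity lifting (S59SQ), the proofs behind `GuideLiftingAlgebra`

This file is a companion of `GuideLiftingAlgebra` (sections A, B, C and E there). It lists the steps of the
proofs that the rings of the components are domains of the right dimension, the passage from matrices to the
relations of the components, and the tools of the endgame. All theorems are used in the closures of S01, S03,
S04, S06, S38, S45, S46, S50, S59 and S60, many of them also in S43.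

**The rings.** At a prime `t` with scalar residual Frobenius a deformation is given by a pair of matrices
`Σ = s + N` (tame inertia), `Φ = u + F` (Frobenius), `N = (x, y; z, -x)`, `F = (a, b; c, -a)`, with
`Φ Σ = Σ ^ q Φ`. There are three types of pairs (`GuideLiftingAlgebra.tame_types`): `nr` (`N = 0`), `st`
(Steinberg) and `chi` (principal series with two tame characters of `p`-power order). Over a complete
noetherian local domain `A`, with elements `κ, η` of the maximal ideal, `2 κ ≠ 0`, `2 η ≠ 0`, each type has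
a ring with six coordinates, and the point is that this ring is a *domain*. In the literature this follows
from local models and Cohen-Macaulay properties; here it is proved by explicit charts:

* the quadric cone `β γ = α (ε - α)` is a subring of `A⟦γ⟧⟦v⟧` by `α = γ v`, `β = v (ε - γ v)`
  (`cone_chart`);
* the ring of type `chi` is the Rees algebra of the ideal `(γ, β, κ - α)` of the cone with `ε = 2 κ`: the
  matrix `F` is proportional to `N` (`rees_three`, `ring_of_type_chi`);
* the ring of type `st` is a subring of `A⟦γ⟧⟦v⟧⟦w⟧`: kernel and image of the nilpotent matrix `N` are the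
  line `(v : 1)`, the eigenline of `Φ` with eigenvalue `q` (`steinberg_chart`, `ring_of_type_st`);
* the ring of type `nr` is `A⟦a, b, c⟧` (`ring_of_type_nr`).

Since `A` is an arbitrary complete noetherian local domain, the construction can be repeated at all primes
(`ring_of_all_primes`), with mixed types; this is why no completed tensor products are needed.

**Order of the file.** 1. Power series. 2. Cone and Rees algebras. 3. The rings of the three types. 4. From
matrices to relations. 5. Dimension and components. 6. Limits, levels and the endgame.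

Of `H57NMLevel` and `H57NMMain` only small tools are used (change of scalars along a surjection of rings;
the infinite pigeonhole principle). Their main theorems `exists_flevel_nm` and `no_nm_levels`, the endgame
without raising primes, are an earlier version of section 6 and are in no closure.

References: NOTES.md, Appendix A.11, [165] NOTES-S59-ENDGAME, and A.10, [164]. Author of the library files:
helper57 (`H57*`). Literature: Taylor 2008 and Shotton 2016 (the local rings), Bruns-Vetter
(determinantal ideals).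
-/

set_option autoImplicit false

open IsLocalRing PowerSeries

namespace Fermat.Agent.Guide.TameRings

open Fermat.Agent Fermat.Agent.H57.Tame Fermat.Agent.H57.Full Fermat.Agent.H57.NM
open Fermat.Agent.H57 (IsULim)
open Fermat.Agent.H69.KP (FLevel Θ)

/-! ### 1. Power series -/

/-- **Evaluation.** Let `W` be complete for the topology of the ideal `I` and `w ∈ I`. A ring homomorphism
`f : B → W` (without continuity) extends to `B⟦X⟧ → W` with `X ↦ w`, and the extension is unique.
(Module `H57PSEval`.) -/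
theorem evaluation {B W : Type} [CommRing B] [CommRing W] (f : B →+* W) (I : Ideal W)
    [IsAdicComplete I W] (w : W) (hw : w ∈ I) :
    (∃ E : B⟦X⟧ →+* W, (∀ b, E (C b) = f b) ∧ E X = w) ∧
    ∀ E E' : B⟦X⟧ →+* W, (∀ b, E (C b) = f b) → E X = w → (∀ b, E' (C b) = f b) → E' X = w →
      E = E' :=
  ⟨exists_eval f I w hw, fun _ _ h1 h2 h3 h4 =>
    eval_unique I (fun b => (h1 b).trans (h3 b).symm) (h2.trans h4.symm) (h2 ▸ hw)⟩

/-- **Division with remainder in a local ring** (Nakayama). `R` noetherian local, `t` in the maximal ideal: if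
every element of the ideal `K` is the sum of an element of `J` and of `t` times an element of `K`, then
`K ≤ J`. All the following kernels are computed in this way. (Module `H57TameCone`.) -/
theorem le_of_division {R : Type} [CommRing R] [IsLocalRing R] [IsNoetherianRing R]
    {K J : Ideal R} {t : R} (ht : t ∈ maximalIdeal R)
    (h : ∀ f ∈ K, ∃ j ∈ J, ∃ g ∈ K, f = j + t * g) : K ≤ J :=
  le_of_forall_exists ht h

/-! ### 2. The quadric cone and Rees algebras -/

/-- **The chart of the cone** (module `H57TameCone`). For a complete noetherian local domain `A` and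
`ε ≠ 0` the kernel of the homomorphism `A⟦γ⟧⟦α⟧⟦β⟧ → A⟦γ⟧⟦v⟧`, `γ ↦ γ`, `α ↦ v γ`, `β ↦ v (ε - v γ)`, is
generated by `β γ - α (ε - α)`. (In Lean the variables are written `X` with the required number of `C`;
`rescale X` is `α ↦ v γ`.) -/
theorem cone_chart {A : Type} [CommRing A] [IsLocalRing A] [IsNoetherianRing A]
    [IsAdicComplete (maximalIdeal A) A] [IsDomain A] {ε : A} (hε : ε ≠ 0) :
    ∃ E : A⟦X⟧⟦X⟧⟦X⟧ →+* A⟦X⟧⟦X⟧, (∀ b, E (C b) = rescale (X : A⟦X⟧) b) ∧
      E X = X * (C (C ε) - X * C X) ∧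
      RingHom.ker E = Ideal.span {X * C (C X) - C (X * (C (C ε) - X))} :=
  ⟨coneChart ε, coneChart_C ε, coneChart_X ε, ker_coneChart hε⟩

/-- **The cone is a domain with a regular sequence of length three** (module `H57TameConeB`). `Cone ε` is the
quotient of `A⟦γ⟧⟦α⟧⟦β⟧` by `β γ - α (ε - α)`, with the classes `cγ ε`, `cα ε`, `cβ ε` of the variables and
the structure map `coneC ε`. It is a domain by `cone_chart`. Modulo `γ` the relation is `α (ε - α) = 0`; it
does not contain the variable `β`, so `β` is not a zero divisor. Modulo `γ` and `β`, for `ε = 2 κ`, the ring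
is the quotient of `A⟦α⟧` by `α (2 κ - α) = κ² - (κ - α)²`, and `κ - α` is not a zero divisor, since in
`A⟦α⟧` it divides `κ² s` only if it divides `s`. -/
theorem cone_regular {A : Type} [CommRing A] [IsLocalRing A] [IsNoetherianRing A]
    [IsAdicComplete (maximalIdeal A) A] [IsDomain A] {ε : A} (hε : ε ≠ 0) :
    IsDomain (A⟦X⟧⟦X⟧⟦X⟧ ⧸ Ideal.span {(X * C (C X) - C (X * (C (C ε) - X)) : A⟦X⟧⟦X⟧⟦X⟧)}) ∧
      ∀ c : Cone ε, (cγ ε * c = 0 → c = 0) ∧ (cγ ε ∣ cβ ε * c → cγ ε ∣ c) ∧
        ∀ κ, κ ≠ 0 → ε = κ + κ → (coneC ε κ - cα ε) * c ∈ Ideal.span {cγ ε, cβ ε} →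
          c ∈ Ideal.span {cγ ε, cβ ε} :=
  ⟨isDomain_cone hε, fun c => ⟨cone_R1 hε c, cone_R2 hε c, fun _ h1 h2 h3 => cone_R3 h1 h2 c h3⟩⟩

/-- **The chart for `v = 0`** (module `H57TameConeB`). The homomorphism `coneChart ε` of `cone_chart` maps `α`
and `β` to multiples of `v`; so for `f (γ, α, β)` the constant coefficient in `v` of the image is
`f (γ, 0, 0)`, and an element of the cone whose image under the induced homomorphism `coneE` has constant
coefficient `0` is in the ideal `(α, β)`. -/
theorem cone_boundary {A : Type} [CommRing A] [IsLocalRing A] [IsNoetherianRing A]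
    [IsAdicComplete (maximalIdeal A) A] [IsDomain A] (ε : A) :
    (∀ f : A⟦X⟧⟦X⟧⟦X⟧, constantCoeff (coneChart ε f) = constantCoeff (constantCoeff f)) ∧
      ∀ c : Cone ε, constantCoeff (coneE c) = 0 → ∃ s t, c = cα ε * s + cβ ε * t :=
  ⟨constantCoeff_coneChart ε, fun _ h => mem_of_coneE h⟩

/-- **The cone** (structure `ConeRing`, module `H57TameConeC`, properties in `H57TameConeB`). For `ε ≠ 0`
there is a complete noetherian local domain `R` over `A` with elements `α, β, γ` and `β γ = α (ε - α)`,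
contained in `A⟦γ⟧⟦v⟧` by the chart `E`; if `E c` has constant coefficient `0` (in `v`) then `c` is in the
ideal `(α, β)`; and, if `ε = 2 κ` with `κ ≠ 0`, `γ, β, κ - α` is a regular sequence. -/
theorem cone_exists {A : Type} [CommRing A] [IsLocalRing A] [IsNoetherianRing A]
    [IsAdicComplete (maximalIdeal A) A] [IsDomain A] {ε : A} (hε : ε ≠ 0) :
    ∃ (R : Type) (_ : CommRing R) (_ : IsDomain R) (_ : IsLocalRing R) (_ : IsNoetherianRing R)
      (_ : IsAdicComplete (maximalIdeal R) R) (i : A →+* R) (α β γ : R) (E : R →+* A⟦X⟧⟦X⟧),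
      β * γ = α * (i ε - α) ∧ Function.Injective E ∧ (∀ a, E (i a) = C (C a)) ∧ E α = X * C X ∧
      E β = X * (C (C ε) - X * C X) ∧ E γ = C X ∧
      (∀ c, constantCoeff (E c) = 0 → ∃ s t, c = α * s + β * t) ∧
      (∀ c, γ * c = 0 → c = 0) ∧ (∀ c, γ ∣ β * c → γ ∣ c) ∧
      ∀ κ, κ ≠ 0 → ε = κ + κ → ∀ c, (i κ - α) * c ∈ Ideal.span {γ, β} → c ∈ Ideal.span {γ, β} :=
  have ⟨K⟩ := exists_coneRing (A := A) hε
  ⟨K.R, K.cr, K.dom, K.loc, K.noeth, K.compl, K.i, K.α, K.β, K.γ, K.E, K.rel, K.E_injective,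
    K.E_i, K.E_α, K.E_β, K.E_γ, K.V, K.R1, K.R2, K.R3⟩

/-- **Rees algebra of a regular sequence of length two** (module `H57TameRees`). `C₀` a complete noetherian
local ring, `x₂, x₃` a regular sequence: the kernel of `C₀⟦X₃⟧⟦X₂⟧ → C₀⟦w⟧`, `X_i ↦ w x_i`, is
generated by `x₂ X₃ - x₃ X₂`. -/
theorem rees_two {C₀ : Type} [CommRing C₀] [IsLocalRing C₀] [IsNoetherianRing C₀]
    [IsAdicComplete (maximalIdeal C₀) C₀] {x₂ x₃ : C₀} (hx₂ : ∀ c, x₂ * c = 0 → c = 0)
    (hx₃ : ∀ c, x₂ ∣ x₃ * c → x₂ ∣ c) :
    ∃ E : C₀⟦X⟧⟦X⟧ →+* C₀⟦X⟧, (∀ b, E (C b) = rescale x₃ b) ∧ E X = X * C x₂ ∧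
      RingHom.ker E = Ideal.span {C (C x₂ * X) - X * C (C x₃)} :=
  ⟨rees2 x₂ x₃, fun b => ext_C _ _ b, ext_X _ _, le_antisymm (ker_rees2 hx₂ hx₃)
    ((Ideal.span_singleton_le_iff_mem _).mpr (RingHom.mem_ker.mpr (rees2_rel x₂ x₃)))⟩

/-- **Rees algebra of a regular sequence of length three** (module `H57TameRees`). `x₁, x₂, x₃` a regular
sequence in the complete noetherian local ring `C₀`, `x₁` in the maximal ideal: the kernel of
`C₀⟦X₃⟧⟦X₂⟧⟦X₁⟧ → C₀⟦w⟧`, `X_i ↦ w x_i`, is generated by the three minors `x_i X_j - x_j X_i`. The proof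
is by reduction modulo `x₁` to `rees_two`. -/
theorem rees_three {C₀ : Type} [CommRing C₀] [IsLocalRing C₀] [IsNoetherianRing C₀]
    [IsAdicComplete (maximalIdeal C₀) C₀] {x₁ x₂ x₃ : C₀} (hx₁m : x₁ ∈ maximalIdeal C₀)
    (hx₁ : ∀ c, x₁ * c = 0 → c = 0) (hx₂ : ∀ c, x₁ ∣ x₂ * c → x₁ ∣ c)
    (hx₃ : ∀ c, x₃ * c ∈ Ideal.span {x₁, x₂} → c ∈ Ideal.span {x₁, x₂}) :
    ∃ E : C₀⟦X⟧⟦X⟧⟦X⟧ →+* C₀⟦X⟧, (∀ c, E (C (C (C c))) = C c) ∧ E X = X * C x₁ ∧
      E (C X) = X * C x₂ ∧ E (C (C X)) = X * C x₃ ∧
      RingHom.ker E = Ideal.span {C (C (C x₂ * X) - X * C (C x₃)),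
        C (C (C x₁) * X) - X * C (C (C x₂)), C (C (C x₁ * X)) - X * C (C (C x₃))} :=
  ⟨rees3 x₁ x₂ x₃, rees3_C _ _ _, rees3_X₁ _ _ _, rees3_X₂ _ _ _, rees3_X₃ _ _ _,
    ker_rees3 hx₁m hx₁ hx₂ hx₃⟩

/-! ### 3. The rings of the three types

`Typ` has the three elements `nr`, `st`, `chi`, and `TRel κ η d τ` are the relations of type `τ` between the
six coordinates `d 0, …, d 5 = x, y, z, a, b, c` (written out in `GuideLiftingAlgebra.tame_types`). -/

/-- **Type `nr`** (module `H57TameStep`): the ring is `A⟦a, b, c⟧`. The statement is the universal property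
which is used for all types: a complete noetherian local domain `R` over `A` with six elements of the maximal
ideal satisfying the relations, such that every solution `d` of the relations in an `A`-algebra `D`, complete
for an ideal `I` which contains `d j` and the images of `κ`, `η`, is the image of these elements. -/
theorem ring_of_type_nr (A : Type) [CommRing A] [IsLocalRing A] [IsNoetherianRing A]
    [IsAdicComplete (maximalIdeal A) A] [IsDomain A] (κ η : A) :
    ∃ (R : Type) (_ : CommRing R) (_ : IsDomain R) (_ : IsLocalRing R) (_ : IsNoetherianRing R)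
      (_ : IsAdicComplete (maximalIdeal R) R) (i : A →+* R) (e : Fin 6 → R),
      Function.Injective i ∧ (∀ a ∈ maximalIdeal A, i a ∈ maximalIdeal R) ∧
      (∀ j, e j ∈ maximalIdeal R) ∧ TRel (i κ) (i η) e .nr ∧
      ∀ (D : Type) [CommRing D] (I : Ideal D) [IsAdicComplete I D] (f : A →+* D) (d : Fin 6 → D),
        (∀ j, d j ∈ I) → f κ ∈ I → f η ∈ I → TRel (f κ) (f η) d .nr →
        ∃ F : R →+* D, (∀ a, F (i a) = f a) ∧ ∀ j, F (e j) = d j :=
  have ⟨K⟩ := exists_nrStep A κ η
  ⟨K.R, K.cr, K.dom, K.loc, K.noeth, K.compl, K.i, K.e, K.i_injective, K.i_mem, K.e_mem, K.rel,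
    K.univ⟩

/-- **Type `chi`** (module `H57TameStep`): for `2 κ ≠ 0` the ring with the universal property for the
relations `x² + y z = κ²`, `F` proportional to `N`, exists and is a domain. It is the Rees algebra of the
regular sequence `(γ, β, κ - α) = (z, y, x)` of the cone with `ε = 2 κ`: `F = w N`. -/
theorem ring_of_type_chi {A : Type} [CommRing A] [IsLocalRing A] [IsNoetherianRing A]
    [IsAdicComplete (maximalIdeal A) A] [IsDomain A] {κ : A} (η : A) (hκ : κ ≠ 0)
    (h2 : κ + κ ≠ 0) (hκm : κ ∈ maximalIdeal A) :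
    ∃ (R : Type) (_ : CommRing R) (_ : IsDomain R) (_ : IsLocalRing R) (_ : IsNoetherianRing R)
      (_ : IsAdicComplete (maximalIdeal R) R) (i : A →+* R) (e : Fin 6 → R),
      Function.Injective i ∧ (∀ a ∈ maximalIdeal A, i a ∈ maximalIdeal R) ∧
      (∀ j, e j ∈ maximalIdeal R) ∧ TRel (i κ) (i η) e .chi ∧
      ∀ (D : Type) [CommRing D] (I : Ideal D) [IsAdicComplete I D] (f : A →+* D) (d : Fin 6 → D),
        (∀ j, d j ∈ I) → f κ ∈ I → f η ∈ I → TRel (f κ) (f η) d .chi →
        ∃ F : R →+* D, (∀ a, F (i a) = f a) ∧ ∀ j, F (e j) = d j :=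
  have ⟨K⟩ := exists_chiStep η hκ h2 hκm
  ⟨K.R, K.cr, K.dom, K.loc, K.noeth, K.compl, K.i, K.e, K.i_injective, K.i_mem, K.e_mem, K.rel,
    K.univ⟩

/-- **The chart of the Steinberg ring** (module `H57TameStep`). Let `K` be the cone over `A` for `ε` (in the
application `ε = 2 η`, `α = η + a`, `β = b`, `γ = c`: the relation says `a² + b c = η²`). The kernel of
`K⟦z⟧⟦x⟧⟦y⟧ → A⟦γ⟧⟦v⟧⟦w⟧`, `z ↦ w`, `x ↦ w v`, `y ↦ - w v²` (the nilpotent matrices with kernel the
line `v`) is generated by the five equations `α z = γ x`, `α x + γ y = 0`, `β z = (ε - α) x`,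
`β x + (ε - α) y = 0` and `x² + y z = 0`. -/
theorem steinberg_chart {A : Type} [CommRing A] [IsLocalRing A] [IsNoetherianRing A]
    [IsAdicComplete (maximalIdeal A) A] [IsDomain A] {ε : A} (K : ConeRing A ε) :
    ∃ G : (K.R)⟦X⟧⟦X⟧⟦X⟧ →+* A⟦X⟧⟦X⟧⟦X⟧,
      (∀ f, G (C (C f)) = PowerSeries.map K.E f) ∧ G (C X) = X * C X ∧ G X = -(X * C (X ^ 2)) ∧
      RingHom.ker G = Ideal.span {C (C (C K.α)) * C (C X) - C (C (C K.γ)) * C X,
        C (C (C K.α)) * C X + C (C (C K.γ)) * X,
        C (C (C K.β)) * C (C X) - C (C (C (K.i ε - K.α))) * C X,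
        C (C (C K.β)) * C X + C (C (C (K.i ε - K.α))) * X, C X ^ 2 + X * C (C X)} :=
  ⟨stChart K, stChart_CC K, stChart_CX K, stChart_X K, ker_stChart K⟩

/-- **Type `st`** (module `H57TameStep`): for `2 η ≠ 0` the ring with the universal property for the
Steinberg relations exists and is a domain, by `steinberg_chart`. -/
theorem ring_of_type_st {A : Type} [CommRing A] [IsLocalRing A] [IsNoetherianRing A]
    [IsAdicComplete (maximalIdeal A) A] [IsDomain A] (κ : A) {η : A} (h2 : η + η ≠ 0)
    (hηm : η ∈ maximalIdeal A) :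
    ∃ (R : Type) (_ : CommRing R) (_ : IsDomain R) (_ : IsLocalRing R) (_ : IsNoetherianRing R)
      (_ : IsAdicComplete (maximalIdeal R) R) (i : A →+* R) (e : Fin 6 → R),
      Function.Injective i ∧ (∀ a ∈ maximalIdeal A, i a ∈ maximalIdeal R) ∧
      (∀ j, e j ∈ maximalIdeal R) ∧ TRel (i κ) (i η) e .st ∧
      ∀ (D : Type) [CommRing D] (I : Ideal D) [IsAdicComplete I D] (f : A →+* D) (d : Fin 6 → D),
        (∀ j, d j ∈ I) → f κ ∈ I → f η ∈ I → TRel (f κ) (f η) d .st →
        ∃ F : R →+* D, (∀ a, F (i a) = f a) ∧ ∀ j, F (e j) = d j :=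
  have ⟨K⟩ := exists_stStep κ h2 hηm
  ⟨K.R, K.cr, K.dom, K.loc, K.noeth, K.compl, K.i, K.e, K.i_injective, K.i_mem, K.e_mem, K.rel,
    K.univ⟩

/-- **The ring of all primes** (module `H57TameMulti`). For a finite set `T` of primes with types `τ t` and
`k` free variables there is a complete noetherian local domain over `O` with the universal property for the
relations at all `t`. Induction on `T`: the ring for one more prime is the ring of type `τ t` over the ring
already constructed. `tame_ring_is_domain` in `GuideLiftingAlgebra` is the translation to a quotient of the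
power series ring in `6 |T| + k` variables (module `H57TameAll`). -/
theorem ring_of_all_primes {O : Type} [CommRing O] [IsLocalRing O] [IsNoetherianRing O]
    [IsAdicComplete (maximalIdeal O) O] [IsDomain O] (T : Type) [Finite T] (k : ℕ) (κ η : T → O)
    (hκ : ∀ t, κ t + κ t ≠ 0) (hη : ∀ t, η t + η t ≠ 0) (hκm : ∀ t, κ t ∈ maximalIdeal O)
    (hηm : ∀ t, η t ∈ maximalIdeal O) (τ : T → Typ) :
    ∃ (R : Type) (_ : CommRing R) (_ : IsDomain R) (_ : IsLocalRing R) (_ : IsNoetherianRing R)
      (_ : IsAdicComplete (maximalIdeal R) R) (i : O →+* R) (e : T → Fin 6 → R) (z : Fin k → R),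
      (∀ t j, e t j ∈ maximalIdeal R) ∧ (∀ j, z j ∈ maximalIdeal R) ∧
      (∀ t, TRel (i (κ t)) (i (η t)) (e t) (τ t)) ∧
      ∀ (D : Type) [CommRing D] (I : Ideal D) [IsAdicComplete I D] (f : O →+* D)
        (d : T → Fin 6 → D) (w : Fin k → D), (∀ t j, d t j ∈ I) → (∀ j, w j ∈ I) →
        (∀ t, f (κ t) ∈ I) → (∀ t, f (η t) ∈ I) →
        (∀ t, TRel (f (κ t)) (f (η t)) (d t) (τ t)) →
        ∃ F : R →+* D, (∀ a, F (i a) = f a) ∧ (∀ t j, F (e t j) = d t j) ∧ ∀ j, F (z j) = w j :=
  have ⟨M⟩ := exists_multi T k κ η hκ hη hκm hηm τ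
  ⟨M.R, M.cr, M.dom, M.loc, M.noeth, M.compl, M.i, M.e, M.z, M.e_mem, M.z_mem, M.rel, M.univ⟩

/-! ### 4. From matrices to relations -/

/-- **Unipotent pairs** (module `H57NMLocal`). `Σ = s + N` with `det Σ = 1` and `s = 1` (trace `2`),
`Φ = u + F` with `det Φ = q`, and `Φ Σ = Σ ^ q Φ`. Then `N² = 0` and `Φ N = q N Φ`; `URel` are these
equations in coordinates (written out in `uRel_iff`). Indeed `(1 + N) ^ q = 1 + q N`. -/
theorem unipotent_pair {A : Type} [CommRing A] {x y z a b c s u : A} {q : ℕ}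
    (hs : s ^ 2 = 1 + (x ^ 2 + y * z)) (hs1 : s = 1) (hu : u ^ 2 = q + (a ^ 2 + b * c))
    (htame : (!![u + a, b; c, u - a] : Matrix (Fin 2) (Fin 2) A) * !![s + x, y; z, s - x] =
      !![s + x, y; z, s - x] ^ q * !![u + a, b; c, u - a]) :
    URel (q : A) u ![x, y, z, a, b, c] :=
  uRel_of_tame hs hs1 hu htame

/-- The equations `URel` written out (module `H57TameUni`): `det Φ = q`, `N² = 0`, and the four entries of
`Φ N = q N Φ`, where `Φ = u + F`. -/
theorem uRel_iff {D : Type} [CommRing D] (q u : D) (d : Fin 6 → D) :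
    URel q u d ↔ u ^ 2 = q + (d 3 ^ 2 + d 4 * d 5) ∧ d 0 ^ 2 + d 1 * d 2 = 0 ∧
      (u + d 3) * d 0 + d 4 * d 2 = q * (d 0 * (u + d 3) + d 1 * d 5) ∧
      (u + d 3) * d 1 - d 4 * d 0 = q * (d 0 * d 4 + d 1 * (u - d 3)) ∧
      d 5 * d 0 + (u - d 3) * d 2 = q * (d 2 * (u + d 3) - d 0 * d 5) ∧
      d 5 * d 1 - (u - d 3) * d 0 = q * (d 2 * d 4 - d 0 * (u - d 3)) :=
  Iff.rfl

/-- **A ramified unipotent pair over a domain is Steinberg** (module `H57NMLocal`): if `N ≠ 0` and the trace
`2 u` of `Φ` is not `-(1 + q)` then the pair has type `st`, with `q = 1 + 2 η` (so `u = 1 + η`). Key step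
(`H57.Tame.uni_sq`): `(tr Φ)² = (1 + q)²`. -/
theorem steinberg_of_ramified {D : Type} [CommRing D] [IsDomain D] {q u η : D} {d : Fin 6 → D}
    (h : URel q u d) (hη : q = 1 + 2 * η) (h2 : (2 : D) ≠ 0) (hη0 : η ≠ 0) (hq : q ≠ 0)
    (hq1 : 1 + q ≠ 0) (hu : 2 * u + (1 + q) ≠ 0) (hN : ¬ (d 0 = 0 ∧ d 1 = 0 ∧ d 2 = 0)) (κ : D) :
    (2 * u) ^ 2 = (1 + q) ^ 2 ∧ TRel κ η d .st := by
  refine ⟨?_, H57.NM.URel.st_of_ne h hη h2 hη0 hq hq1 hu hN κ⟩
  refine uni_sq h (by rw [hη, add_sub_cancel_left]; exact mul_ne_zero h2 hη0) hq ?_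
  by_contra hne
  push Not at hne
  have h0 := h.2.1
  rw [hne.1, zero_mul, add_zero] at h0
  exact hN ⟨pow_eq_zero_iff two_ne_zero |>.mp h0, hne.1, hne.2⟩

/-- **Principal series pairs over a domain** (helper69, module `H69Tame`). If `Σ` has the distinct eigenvalues
`ζ, ζ'` with `ζ ζ' = 1`, `ζ ^ (q - 1) = 1` then `Σ ^ q = Σ`, so `Φ` commutes with `Σ` and `F` is
proportional to `N`. Together with `N² = κ²`, `κ = (ζ - ζ') / 2`, these are the relations of type
`chi` (module `H57NMLift`). -/
theorem commuting_pair {A : Type} [CommRing A] [IsDomain A] (h2 : (2 : A) ≠ 0)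
    {x y z a b c s u ζ ζ' : A} {q : ℕ} (hq : 1 ≤ q) (h1 : ζ * ζ' = 1) (hne : ζ ≠ ζ')
    (hpow : ζ ^ (q - 1) = 1) (hs : s ^ 2 = 1 + (x ^ 2 + y * z)) (hs2 : 2 * s = ζ + ζ')
    (htame : (!![u + a, b; c, u - a] : Matrix (Fin 2) (Fin 2) A) * !![s + x, y; z, s - x] =
      !![s + x, y; z, s - x] ^ q * !![u + a, b; c, u - a]) :
    x * b = y * a ∧ x * c = z * a ∧ y * c = z * b :=
  H69.EG.comm_of_tame h2 hq h1 hne hpow hs hs2 htame

/-! ### 5. Dimension and components

`compIdeal k κ η τ cb γ` is the ideal of the component with types `τ t : Typ` at the primes of `T`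
(coordinates `x, y, z, a, b, c`) and `γ b : CTyp` at the `s` raising primes (coordinates `t, y, z`), with `k`
free variables. `CTyp` has the elements `nr` (`y = z = 0`), `su` (`t = z = 0`), `sm` (`t + cb b = 0 = y`) and
`zz` (`t = y = z = 0`): `GuideLiftingAlgebra.raising_types`, `relations_of_component`. -/

/-- **Three parameters for each type** (module `H57TameDim`). Modulo the maximal ideal of the base
(`κ = η = 0`) the following three elements are contained in no prime ideal except the maximal ideal: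
`a, b, c` (type `nr`), `y, c, z - b` (type `st`), `a, b + z, c + y` (type `chi`). So the rings have dimension
at most `1 + 3 |T| + k` if the maximal ideal of `O` is principal. -/
theorem parameters {D : Type} [CommRing D] [IsDomain D] (d : Fin 6 → D) :
    (TRel 0 0 d .nr → d 3 = 0 → d 4 = 0 → d 5 = 0 → ∀ j, d j = 0) ∧
    (TRel 0 0 d .st → d 1 = 0 → d 5 = 0 → d 2 - d 4 = 0 → ∀ j, d j = 0) ∧
    (TRel 0 0 d .chi → d 3 = 0 → d 4 + d 2 = 0 → d 5 + d 1 = 0 → ∀ j, d j = 0) := by
  refine ⟨fun h h0 h1 h2 => eq_zero_of_par h fun j => ?_,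
    fun h h0 h1 h2 => eq_zero_of_par h fun j => ?_,
    fun h h0 h1 h2 => eq_zero_of_par h fun j => ?_⟩ <;> fin_cases j <;> assumption

/-- **A prime of large dimension is the component** (module `H57TameDim`): `J ≤ P` with `J` prime and
`dim B / J ≤ n ≤ dim B / P` implies `P = J`. -/
theorem prime_of_large_dimension {B : Type} [CommRing B] {J P : Ideal B} [J.IsPrime] (hJP : J ≤ P)
    {n : ℕ} (h1 : ringKrullDim (B ⧸ J) ≤ (n : WithBot ℕ∞))
    (h2 : (n : WithBot ℕ∞) ≤ ringKrullDim (B ⧸ P)) : P = J :=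
  eq_of_le_of_ringKrullDim hJP h1 h2

/-- **The raising primes only add a free variable** (module `H57FullGeo`). The ideal of a component in the
variables at `T` and at the `s` raising primes is the inverse image, under a substitution, of the ideal of the
types `τ` in the variables at `T` and `s + k` free variables; the substitution is surjective if no type is
`zz`. This reduces the components to `ring_of_all_primes`. -/
theorem component_by_substitution {O : Type} [CommRing O] [IsLocalRing O] [IsNoetherianRing O]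
    [IsAdicComplete (maximalIdeal O) O] [IsDomain O] {T : Type} [Finite T] {s : ℕ} (k : ℕ)
    {κ η : T → O} (hκm : ∀ t, κ t ∈ maximalIdeal O) (hηm : ∀ t, η t ∈ maximalIdeal O)
    (τ : T → Typ) (cb : Fin s → O) (γ : Fin s → CTyp)
    (hγ : ∀ b, γ b = .sm → cb b ∈ maximalIdeal O) :
    ∃ ξ : MvPowerSeries ((T × Fin 6) ⊕ ((Fin s × Fin 3) ⊕ Fin k)) O →+*
        MvPowerSeries ((T × Fin 6) ⊕ Fin (s + k)) O,
      compIdeal k κ η τ cb γ = (relIdeal (s + k) κ η τ).comap ξ ∧
      ((∀ b, γ b ≠ .zz) → Function.Surjective ξ) :=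
  compIdeal_eq_comap k hκm hηm τ cb γ hγ

/-- **Nonzero constants are not in the ideal of a component** (module `H57FullGeo`): every component has a
point with values in `O`. -/
theorem constant_in_component {O : Type} [CommRing O] [IsLocalRing O] [IsNoetherianRing O]
    [IsAdicComplete (maximalIdeal O) O] [IsDomain O] {T : Type} [Finite T] {s : ℕ} (k : ℕ)
    {κ η : T → O} (hκm : ∀ t, κ t ∈ maximalIdeal O) (hηm : ∀ t, η t ∈ maximalIdeal O)
    (τ : T → Typ) (cb : Fin s → O) (γ : Fin s → CTyp)
    (hγ : ∀ b, γ b = .sm → cb b ∈ maximalIdeal O) {a : O}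
    (ha : (MvPowerSeries.C a : MvPowerSeries ((T × Fin 6) ⊕ ((Fin s × Fin 3) ⊕ Fin k)) O) ∈
      compIdeal k κ η τ cb γ) : a = 0 :=
  C_mem_compIdeal k hκm hηm τ cb γ hγ ha

/-- **Ihara avoidance, the geometric fact** (module `H57FullGeo`). Let `θ` be the test homomorphism of
arbitrary types `σ` at `T`, and of type `nr` at the raising primes (`GuideLiftingAlgebra.test_homomorphism`);
it has values in a domain of characteristic `p` and kills the maximal ideal of `O`. Then `θ` kills the ideal
of type `chi`: modulo the maximal ideal of `O` the irreducible ring of type `chi` sees all the components of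
the unipotent ring. -/
theorem chi_specialises_to_all_types {O : Type} [CommRing O] [IsLocalRing O] {T : Type} [Finite T]
    {s k : ℕ} {κ η : T → O} {σ : T → Typ} {cb : Fin s → O} {γ : Fin s → CTyp}
    {θ : MvPowerSeries ((T × Fin 6) ⊕ ((Fin s × Fin 3) ⊕ Fin k)) O →+*
      MvPowerSeries (T ⊕ Fin s) (ResidueField O)}
    (hC : ∀ a, θ (MvPowerSeries.C a) = MvPowerSeries.C (residue O a))
    (hx : ∀ t j, θ (MvPowerSeries.X (Sum.inl (t, j))) =
      match σ t, j with
      | .nr, j => if j = 3 then MvPowerSeries.X (Sum.inl t) else 0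
      | .st, j => if j = 1 then MvPowerSeries.X (Sum.inl t) else 0
      | .chi, _ => 0)
    (hy : ∀ b j, θ (MvPowerSeries.X (Sum.inr (Sum.inl (b, j)))) =
      match γ b, j with
      | .nr, j => if j = 0 then MvPowerSeries.X (Sum.inr b) else 0
      | .su, j => if j = 1 then MvPowerSeries.X (Sum.inr b) else 0
      | .sm, j => if j = 2 then MvPowerSeries.X (Sum.inr b) else 0
      | .zz, _ => 0)
    (hκm : ∀ t, κ t ∈ maximalIdeal O) (hγ : ∀ b, γ b = .nr) :
    compIdeal k κ η (fun _ => Typ.chi) cb γ ≤ RingHom.ker θ :=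
  test_kills_chi hC hx hy hκm hγ

/-- **A test homomorphism detects its component** (module `H57FullGeo`). `θ` is the test homomorphism of types
`σ`, `γ`, where no `σ t` is `chi`. If it kills the ideal of a component of types `σ'`, `γ'` (no `σ' t` is
`chi`, no `γ' b` is `zz`) then `σ' = σ`, and `γ' b = γ b` wherever `γ b` is `nr` or `su` (also where it is
`sm`, but this is not needed). -/
theorem component_detected {O : Type} [CommRing O] [IsLocalRing O] {T : Type} [Finite T]
    {s k : ℕ} {κ η : T → O} {σ : T → Typ} {cb : Fin s → O} {γ : Fin s → CTyp}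
    {θ : MvPowerSeries ((T × Fin 6) ⊕ ((Fin s × Fin 3) ⊕ Fin k)) O →+*
      MvPowerSeries (T ⊕ Fin s) (ResidueField O)}
    (hC : ∀ a, θ (MvPowerSeries.C a) = MvPowerSeries.C (residue O a))
    (hx : ∀ t j, θ (MvPowerSeries.X (Sum.inl (t, j))) =
      match σ t, j with
      | .nr, j => if j = 3 then MvPowerSeries.X (Sum.inl t) else 0
      | .st, j => if j = 1 then MvPowerSeries.X (Sum.inl t) else 0
      | .chi, _ => 0)
    (hy : ∀ b j, θ (MvPowerSeries.X (Sum.inr (Sum.inl (b, j)))) =
      match γ b, j with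
      | .nr, j => if j = 0 then MvPowerSeries.X (Sum.inr b) else 0
      | .su, j => if j = 1 then MvPowerSeries.X (Sum.inr b) else 0
      | .sm, j => if j = 2 then MvPowerSeries.X (Sum.inr b) else 0
      | .zz, _ => 0)
    (hηm : ∀ t, η t ∈ maximalIdeal O) (hσ : ∀ t, σ t ≠ .chi) {σ' : T → Typ}
    (hσ' : ∀ t, σ' t ≠ .chi) {γ' : Fin s → CTyp} (hγ' : ∀ b, γ' b ≠ .zz)
    (h : compIdeal k κ η σ' cb γ' ≤ RingHom.ker θ) :
    σ' = σ ∧ ∀ b, (γ b = .nr → γ' b = .nr) ∧ (γ b = .su → γ' b = .su) :=
  test_detect hC hx hy hηm hσ hσ' hγ' h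

/-! ### 6. Limits, levels and the endgame

Patching levels `FLevel S B d I` (modules `N τ` over `B`, free over `S / I` with bases of `d τ` elements), the
entries `Θ L.toK τ f i j` of the matrix of `f : B`, and the levels `FullLevel` of the endgame are explained in
`GuideLiftingAlgebra`, sections (C) and (E). -/

/-- **Limits along an ultrafilter** (module `H57AdicLimit`). `IsULim I U x z` says that for every `k` the
difference `x n - z` is in `I ^ k Z` for `U`-almost all `n`. In a complete module with finite quotients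
`Z / I ^ k Z` every sequence has a limit. -/
theorem limits_exist {B : Type} [CommRing B] {I : Ideal B} {Z : Type} [AddCommGroup Z] [Module B Z]
    (U : Ultrafilter ℕ) (x : ℕ → Z) :
    (∀ z, IsULim I U x z ↔
      ∀ k, ∀ᶠ n in (U : Filter ℕ), x n - z ∈ (I ^ k • ⊤ : Submodule B Z)) ∧
    (∀ [IsPrecomplete I Z], (∀ k, Finite (Z ⧸ (I ^ k • ⊤ : Submodule B Z))) →
      ∃ z, IsULim I U x z) :=
  ⟨fun _ => Iff.rfl, fun hfin => H57.exists_isULim U hfin x⟩

/-- **The witness in the limit** (module `H57FreeLimit`). The property that `f n` maps the module `N τ` of the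
`n`-th level into `K` times itself passes to the limit, for a converging sequence of elements `f n`. -/
theorem multiplication_in_limit {S B : Type} [CommRing S] [CommRing B] {ι : Type} {d : ι → ℕ}
    [IsLocalRing S] [IsNoetherianRing S] [IsAdicComplete (maximalIdeal S) S]
    [Finite (ResidueField S)] [IsLocalRing B] [IsNoetherianRing B]
    [IsAdicComplete (maximalIdeal B) B] [Finite (ResidueField B)]
    {I : ℕ → Ideal S} (hI : ∀ n, I n ≤ maximalIdeal S ^ n) (L : ∀ n, FLevel S B d (I n))
    (U : Ultrafilter ℕ) (hU : ∀ k, ∀ᶠ n in (U : Filter ℕ), k ≤ n)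
    (L' : FLevel S B d (⊥ : Ideal S))
    (hΘ : ∀ τ f i j, IsULim (maximalIdeal S) U (fun n => Θ (L n).toK τ f i j)
      (Θ L'.toK τ f i j)) (τ : ι) (K : Ideal S) {f : ℕ → B} {f' : B}
    (hf : IsULim (maximalIdeal B) U f f')
    (h : ∀ n (x : (L n).N τ), f n • x ∈ (K.map (L n).φ • ⊤ : Submodule B ((L n).N τ)))
    (x : L'.N τ) : f' • x ∈ (K.map L'.φ • ⊤ : Submodule B (L'.N τ)) :=
  mulLe_of_ulimit hI L U hU L' hΘ τ K hf h x

/-- **Isomorphisms in the limit** (module `H57FreeLimit`): if at every level the modules of index `τ` and `τ'`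
are isomorphic modulo `K` then so are the limit modules. Applied to `K = (ϖ)` and the modules with trivial
and non-trivial characters at `T`. -/
theorem isomorphisms_in_limit {S B : Type} [CommRing S] [CommRing B] {ι : Type} {d : ι → ℕ}
    [IsLocalRing S] [IsNoetherianRing S] [IsAdicComplete (maximalIdeal S) S]
    [Finite (ResidueField S)] [IsLocalRing B] [IsNoetherianRing B]
    [IsAdicComplete (maximalIdeal B) B] [Finite (ResidueField B)]
    {I : ℕ → Ideal S} (hI : ∀ n, I n ≤ maximalIdeal S ^ n) (L : ∀ n, FLevel S B d (I n))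
    (U : Ultrafilter ℕ) (hU : ∀ k, ∀ᶠ n in (U : Filter ℕ), k ≤ n)
    (L' : FLevel S B d (⊥ : Ideal S))
    (hΘ : ∀ τ f i j, IsULim (maximalIdeal S) U (fun n => Θ (L n).toK τ f i j)
      (Θ L'.toK τ f i j)) (τ τ' : ι) (K : Ideal S)
    (h : ∀ n, Nonempty (((L n).N τ ⧸ (K.map (L n).φ • ⊤ : Submodule B ((L n).N τ))) ≃ₗ[B]
      ((L n).N τ' ⧸ (K.map (L n).φ • ⊤ : Submodule B ((L n).N τ'))))) :
    Nonempty ((L'.N τ ⧸ (K.map L'.φ • ⊤ : Submodule B (L'.N τ))) ≃ₗ[B]
      (L'.N τ' ⧸ (K.map L'.φ • ⊤ : Submodule B (L'.N τ')))) :=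
  nonempty_equiv_of_ulimit hI L U hU L' hΘ τ τ' K h

/-- **Approximate solutions of linear equations** (module `H57FullLimit`). A system of `d` linear equations
over a noetherian local ring which has a solution modulo every power of the maximal ideal has a solution
(Krull's intersection theorem for the cokernel; neither completeness nor the finiteness of the residue field
is needed). This is how divisibility by `t` passes to the limit
(`GuideLiftingAlgebra.divisibility_in_limit`). -/
theorem approximate_solutions {S : Type} [CommRing S] [IsLocalRing S] [IsNoetherianRing S]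
    [IsAdicComplete (maximalIdeal S) S] [Finite (ResidueField S)] {d : ℕ}
    (A : Fin d → Fin d → S) (w : Fin d → S)
    (h : ∀ k, ∃ v : Fin d → S, ∀ i, w i - ∑ l, A i l * v l ∈ maximalIdeal S ^ k) :
    ∃ v : Fin d → S, ∀ i, w i = ∑ l, A i l * v l :=
  exists_of_approx A w h

/-- **Cayley-Hamilton** (module `H57Endgame`): `N` a finite module, `𝔮` a prime which contains `K` and the
annihilator of `N`. If `h N ⊆ K N` then `h ∈ 𝔮`. Applied at the end to the witness, with `𝔮` the kernel
of the point and `K` generated by the diamond variables. -/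
theorem witness_in_prime {B : Type} [CommRing B] {N : Type} [AddCommGroup N] [Module B N]
    [Module.Finite B N] {K 𝔮 : Ideal B} (hq : 𝔮.IsPrime) (hKq : K ≤ 𝔮)
    (hann : ∀ f : B, (∀ x : N, f • x = 0) → f ∈ 𝔮) {h : B}
    (hh : ∀ x : N, h • x ∈ (K • ⊤ : Submodule B N)) : h ∈ 𝔮 :=
  mem_of_smul_mem hq hKq hann hh

section Levels

attribute [local instance] RPart.instCommRing RPart.instLocal RPart.instAlgebra
  FullLevel.instAddCommGroup FullLevel.instModule

/-- **The matrices over the power series ring** (module `H57NMLift`; for level lowering `matrices_of_level` in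
`GuidePatchingSteps`). `L` is the ring part of a level (`GuideLiftingAlgebra.ring_of_level`), with
presentation `β : B → R` and coordinates `X t = (x, y, z, a, b, c)`. Let `s² = 1 + (x² + y z)`, `s ≡ 1` and
`u² = q + (a² + b c)`, `u ≡ v t` modulo the maximal ideal of `B`. Then `2 s` is mapped to the trace of `Σ_t`,
the matrices `(s + x, y; z, s - x)` and `(u + a, b; c, u - a)` are mapped to `Σ_t` and `Φ_t`, and so `β` kills
the entries of `Φ Σ - Σ ^ q Φ`. (Two square roots of an element which are congruent to the same unit modulo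
the maximal ideal are equal: `unique_square_root` in `GuidePatchingSteps`.) -/
theorem matrices_over_power_series {O : Type} [CommRing O] [IsLocalRing O] {T : Type} {B : Type}
    [CommRing B] [Algebra O B] [IsLocalRing B] {X : T → Fin 6 → B} {q : T → ℕ} {v : T → O}
    (L : RPart O B X q v) (h2 : IsUnit (2 : B)) {s u : B} {t : T} (hv : IsUnit (v t))
    (hs : s ^ 2 = 1 + (X t 0 ^ 2 + X t 1 * X t 2)) (hs1 : s - 1 ∈ maximalIdeal B)
    (hu : u ^ 2 = q t + (X t 3 ^ 2 + X t 4 * X t 5))
    (hu1 : u - algebraMap O B (v t) ∈ maximalIdeal B) :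
    2 * L.β s = L.Sg t 0 0 + L.Sg t 1 1 ∧
    (L.β : B →+* L.R).mapMatrix !![s + X t 0, X t 1; X t 2, s - X t 0] = L.Sg t ∧
    (L.β : B →+* L.R).mapMatrix !![u + X t 3, X t 4; X t 5, u - X t 3] = L.Ph t ∧
    ∀ i j, L.β ((!![u + X t 3, X t 4; X t 5, u - X t 3] *
        !![s + X t 0, X t 1; X t 2, s - X t 0] -
      !![s + X t 0, X t 1; X t 2, s - X t 0] ^ q t *
        !![u + X t 3, X t 4; X t 5, u - X t 3]) i j) = 0 :=
  ⟨two_mul_β_s L h2 hs hs1, map_sgB L h2 hs hs1, map_phB L h2 hv hu hu1,
    β_gB L h2 hv hs hs1 hu hu1⟩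

/-- **The product of the conditions on the trace** (module `H57NMLift`). On the module with non-trivial
characters the product over the roots of unity `ζ ∈ Z t` of `tr Σ_t - (ζ + ζ⁻¹)` is zero. In coordinates, with
`2 κ_ζ = ζ - ζ⁻¹`: the product of the elements `4 (x² + y z - κ_ζ²)` of `B` is mapped by `β` to a multiple of
this product, since `4 (x² + y z - κ_ζ²) = (2 s)² - (ζ + ζ⁻¹)²`. So (`4` is a unit) a prime of `B` which
contains the annihilator of this module contains one of the elements `x² + y z - κ_ζ²`, `ζ ∈ Z t`. -/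
theorem product_of_conditions {O : Type} [CommRing O] [IsLocalRing O] {T : Type} {B : Type}
    [CommRing B] [Algebra O B] {X : T → Fin 6 → B} {q : T → ℕ} {v : T → O} (L : RPart O B X q v)
    (Z : T → Finset Oˣ) (κ : Oˣ → O) (hκ : ∀ ζ : Oˣ, 2 * κ ζ = (ζ : O) - (ζ⁻¹ : Oˣ)) (t : T) :
    L.β (∏ ζ ∈ Z t, (4 * (X t 0 ^ 2 + X t 1 * X t 2 - algebraMap O B (κ ζ) ^ 2))) =
      (∏ ζ ∈ Z t, (L.Sg t 0 0 + L.Sg t 1 1 + algebraMap O L.R ((ζ : O) + (ζ⁻¹ : Oˣ)))) *
      ∏ ζ ∈ Z t, (L.Sg t 0 0 + L.Sg t 1 1 - algebraMap O L.R ((ζ : O) + (ζ⁻¹ : Oˣ))) :=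
  β_prod L Z κ hκ t

/-- **From a homomorphism to the relations** (module `H57NMLift`). Let `π : B → D` kill the entries of
`Φ Σ - Σ ^ q Φ` (`matrices_over_power_series`). (1) If `π s = 1` then the images of the coordinates satisfy
`URel` (`unipotent_pair`). (2) Let `D` be a local domain in which `2` is a unit, `π` and `O → B` local,
`ζ ^ (q - 1) = 1`, `ζ` congruent to `1`, `2 κ = ζ - ζ⁻¹`, and `ζ ≠ ζ⁻¹` in `D`. If `π` kills
`x² + y z - κ²` (`product_of_conditions`) then the images satisfy the relations of type `chi`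
(`commuting_pair`). Part (1) is applied to the points of the levels, with `D = O`, and both parts to the
quotients of `B` by the primes which contain the annihilator of a limit module. -/
theorem relations_from_homomorphism {O : Type} [CommRing O] [IsLocalRing O] {T : Type} {B : Type}
    [CommRing B] [Algebra O B] [IsLocalRing B] {X : T → Fin 6 → B} {q : T → ℕ} {D : Type}
    [CommRing D] (π : B →+* D) {s u : B} {t : T}
    (hs : s ^ 2 = 1 + (X t 0 ^ 2 + X t 1 * X t 2)) (hs1 : s - 1 ∈ maximalIdeal B)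
    (hu : u ^ 2 = q t + (X t 3 ^ 2 + X t 4 * X t 5))
    (hπ : ∀ i j, π ((!![u + X t 3, X t 4; X t 5, u - X t 3] *
        !![s + X t 0, X t 1; X t 2, s - X t 0] -
      !![s + X t 0, X t 1; X t 2, s - X t 0] ^ q t *
        !![u + X t 3, X t 4; X t 5, u - X t 3]) i j) = 0) :
    (π s = 1 → URel (q t : D) (π u) (fun j => π (X t j))) ∧
    ∀ [IsDomain D] [IsLocalRing D], (∀ x ∈ maximalIdeal B, π x ∈ maximalIdeal D) →
      IsUnit (2 : D) → (∀ x ∈ maximalIdeal O, algebraMap O B x ∈ maximalIdeal B) → 1 ≤ q t →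
      ∀ (ζ : Oˣ) (κ η : O), 2 * κ = (ζ : O) - (ζ⁻¹ : Oˣ) → ζ ^ (q t - 1) = 1 →
        (ζ : O) - 1 ∈ maximalIdeal O → π (algebraMap O B ((ζ : O) - (ζ⁻¹ : Oˣ))) ≠ 0 →
        π (X t 0 ^ 2 + X t 1 * X t 2 - algebraMap O B κ ^ 2) = 0 →
        TRel (π (algebraMap O B κ)) (π (algebraMap O B η)) (fun j => π (X t j)) .chi :=
  ⟨uRel_of_hom π hs hu hπ, fun h1 h2 h3 h4 _ _ _ h5 h6 h7 h8 h9 =>
    tRel_chi_of_hom π h1 h2 h3 h4 hs hs1 hπ h5 h6 h7 h8 h9⟩

/-- **The three steps at a raising prime, for one level** (module `H57FullLevel`). `quo : M → Q` is the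
surjective map to the new quotient, `low : M → A` the map to the module of lower level; `c A` is in the image
of `low`, and `low` maps the kernel of `quo` into `t A`. If `g M ⊆ K M` then `g Q ⊆ K Q` and `c g A ⊆ K A`; if
`g Q ⊆ K Q` then `c g A ⊆ t A + K A`. In the limit: what kills `M` kills `Q`, and if `g` kills `Q` then
`c g A ⊆ t A`, the last hypothesis of `GuideLiftingAlgebra.raising_in_limit`. (The inclusion `c g A ⊆ K A` is
not needed in the endgame.) -/
theorem raising_at_one_level {B M A Q : Type} [CommRing B] [AddCommGroup M] [Module B M]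
    [AddCommGroup A] [Module B A] [AddCommGroup Q] [Module B Q] (quo : M →ₗ[B] Q)
    (hquo : Function.Surjective quo) (low : M →ₗ[B] A) (c t : B)
    (hlow : ∀ a, ∃ y, low y = c • a) (hold : ∀ y, quo y = 0 → ∃ a, low y = t • a)
    (K : Ideal B) (g : B) :
    ((∀ y : M, g • y ∈ (K • ⊤ : Submodule B M)) →
      (∀ x : Q, g • x ∈ (K • ⊤ : Submodule B Q)) ∧
      ∀ a : A, (c * g) • a ∈ (K • ⊤ : Submodule B A)) ∧
    ((∀ x : Q, g • x ∈ (K • ⊤ : Submodule B Q)) →
      ∀ a : A, ∃ a' : A, (c * g) • a - t • a' ∈ (K • ⊤ : Submodule B A)) :=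
  ⟨fun h => ⟨new_of_maps quo hquo K h, low_of_maps low c hlow K h⟩,
    fun h => div_of_maps quo hquo low c t hlow hold K h⟩

/-- **A level as a patching level over `B`** (module `H57FullLevel`). The modules of a level are modules over
the deformation ring `R`, hence over `B` by `β : B → R`, and the homomorphism `φ : O⟦S_1, …, S_r⟧ → R` of the
diamond operators lifts to `B`. The result is a patching level `F` (`GuideLiftingAlgebra`, section (C)): the
modules are free over the quotient of `O⟦S_1, …, S_r⟧` by the elements `(1 + S_j) ^ (p ^ e j) - 1`. The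
properties of the level become properties over `B`: an element whose image in `R` kills `N τ` kills the module
of index `τ` of `F`; an element whose image multiplies the last module into the ideal of the diamond variables
(the witness) does the same for `F`; the modules of index `chi` and `mod 0` are isomorphic modulo `ϖ`; and the
three steps of `raising_at_one_level` hold at every raising prime, with `t` the coordinate `Y i 0`. -/
theorem patching_level_of_level {O : Type} [CommRing O] [IsLocalRing O] {ϖ c' : O}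
    {p r n D m s : ℕ} {T : Type} {B : Type} [CommRing B] [Algebra O B] {X : T → Fin 6 → B}
    {Y : Fin s → Fin 3 → B} {q : T → ℕ} {v : T → O} {Z : T → Finset Oˣ} {cb : Fin s → O}
    (L : FullLevel O ϖ c' p r n D m s B X Y q v Z cb) [IsLocalRing B]
    [IsAdicComplete (maximalIdeal B) B] [IsNoetherianRing B] :
    ∃ F : FLevel (MvPowerSeries (Fin r) O) B L.d (Ideal.span (Set.range fun j =>
        ((1 + MvPowerSeries.X j) ^ (p ^ L.e j) - 1 : MvPowerSeries (Fin r) O))),
      (∀ x, F.φ (MvPowerSeries.C x) = algebraMap O B x) ∧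
      (∀ j, L.β (F.φ (MvPowerSeries.X j)) = L.φ (MvPowerSeries.X j)) ∧
      (∀ τ (f : B), (∀ x : L.N τ, L.β f • x = 0) → ∀ x : F.N τ, f • x = 0) ∧
      (∀ f : B, (∀ x : L.N (.mod (Fin.last s)), L.β f • x ∈
        (Ideal.span (Set.range fun j => L.φ (MvPowerSeries.X j)) • ⊤ :
          Submodule L.R (L.N (.mod (Fin.last s))))) →
        ∀ x : F.N (.mod (Fin.last s)), f • x ∈
          ((Ideal.span (Set.range MvPowerSeries.X)).map F.φ • ⊤ :
            Submodule B (F.N (.mod (Fin.last s))))) ∧
      Nonempty ((F.N .chi ⧸ ((Ideal.span {MvPowerSeries.C ϖ}).map F.φ • ⊤ :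
          Submodule B (F.N .chi))) ≃ₗ[B]
        (F.N (.mod 0) ⧸ ((Ideal.span {MvPowerSeries.C ϖ}).map F.φ • ⊤ :
          Submodule B (F.N (.mod 0))))) ∧
      ∀ (i : Fin s) (K : Ideal (MvPowerSeries (Fin r) O)) (g : B),
        ((∀ x : F.N (.mod i.succ), g • x ∈ (K.map F.φ • ⊤ : Submodule B (F.N (.mod i.succ)))) →
          (∀ x : F.N (.new i), g • x ∈ (K.map F.φ • ⊤ : Submodule B (F.N (.new i)))) ∧
          ∀ x : F.N (.mod i.castSucc), (algebraMap O B c' * g) • x ∈
            (K.map F.φ • ⊤ : Submodule B (F.N (.mod i.castSucc)))) ∧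
        ((∀ x : F.N (.new i), g • x ∈ (K.map F.φ • ⊤ : Submodule B (F.N (.new i)))) →
          ∀ a : F.N (.mod i.castSucc), ∃ a' : F.N (.mod i.castSucc),
            (algebraMap O B c' * g) • a - Y i 0 • a' ∈
              (K.map F.φ • ⊤ : Submodule B (F.N (.mod i.castSucc)))) :=
  have ⟨F, h1, h2, h3, h4, h5, h6, h7, h8⟩ := exists_flevel_full L rfl
  ⟨F, h1, h2, fun τ f hf x => by
      have h : f • x ∈ ((⊥ : Ideal (MvPowerSeries (Fin r) O)).map F.φ • ⊤ :
        Submodule B (F.N τ)) := h3 τ f hf x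
      rwa [Ideal.map_bot, Submodule.bot_smul, Submodule.mem_bot] at h,
    h4, h5, fun i K g => ⟨fun h => ⟨h6 i K g h, h7 i K g h⟩, h8 i K g⟩⟩

/-- **Twist by quadratic characters** (module `H57FullMain`): the signs `v t = ± 1` of the residual Frobenius
elements can be removed by multiplying the matrices `Φ t` and three of the coordinates by `v t`. -/
theorem remove_signs {O : Type} [CommRing O] [IsLocalRing O] [IsNoetherianRing O]
    [IsAdicComplete (maximalIdeal O) O] {T : Type} [Finite T] {ϖ c' : O} {p r n D m s k : ℕ}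
    {q : T → ℕ} {v : T → O} (hv : ∀ t, v t * v t = 1) {Z : T → Finset Oˣ} {cb : Fin s → O}
    (L : FullLevel O ϖ c' p r n D m s
      (MvPowerSeries ((T × Fin 6) ⊕ ((Fin s × Fin 3) ⊕ Fin k)) O)
      (fun t j => MvPowerSeries.X (Sum.inl (t, j)))
      (fun i j => MvPowerSeries.X (Sum.inr (Sum.inl (i, j)))) q v Z cb) :
    Nonempty (FullLevel O ϖ c' p r n D m s
      (MvPowerSeries ((T × Fin 6) ⊕ ((Fin s × Fin 3) ⊕ Fin k)) O)
      (fun t j => MvPowerSeries.X (Sum.inl (t, j)))
      (fun i j => MvPowerSeries.X (Sum.inr (Sum.inl (i, j)))) q (fun _ => 1) Z cb) :=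
  nonempty_untwist2 hv L

/-- **The endgame, with its proof** (module `H57FullMain`; `GuideLiftingAlgebra.endgame` is the same for an
arbitrary index type). Suppose levels exist for all `n`; remove the signs.

1. The point of a level satisfies the unipotent relations at `T` and `t = z = 0` at the raising primes; so it
   lies on a component with types `σ` in `{nr, st}` and `su` (`steinberg_of_ramified`). By the pigeonhole
   principle `σ` and the ranks are independent of `n`. Take the limit: modules free over `O⟦S_1, …, S_r⟧`,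
   a point `x'` on the component `(σ, su)`, a witness `f'` with `x' f' ≠ 0`.
2. Claim: the annihilator of the limit of `N (mod i)` is in the ideal of the component with types `σ` at `T`,
   `su` at the first `i` raising primes, `nr` at the others. For `i = 0` by
   `GuideLiftingAlgebra.support_of_unipotent_module`, `commuting_pair`, `chi_specialises_to_all_types`.
3. The step from `i` to `i + 1` is `GuideLiftingAlgebra.raising_in_limit`, with `𝔮` of type `zz` at the
   `i`-th prime: a prime `P ≤ 𝔮` in the support of the new quotient, of dimension `1 + r`, is a component by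
   `prime_of_large_dimension`, and by `component_detected` it is the required one.
4. For `i = s` the annihilator is in the kernel of `x'`, so `x' f' = 0` by `witness_in_prime`. -/
theorem endgame_main {O : Type} [CommRing O] [IsDomain O] [IsDiscreteValuationRing O]
    [IsAdicComplete (maximalIdeal O) O] [Finite (ResidueField O)]
    {ϖ c' : O} (hϖ : maximalIdeal O = Ideal.span {ϖ}) (hc' : c' ≠ 0)
    {p k D m s : ℕ} (hpO : (p : O) ∈ maximalIdeal O) (h2 : IsUnit (2 : O))
    {T : Type} [Finite T]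
    {q : T → ℕ} (hq0 : ∀ t, 1 ≤ q t) (hq : ∀ t, (q t : O) - 1 ∈ maximalIdeal O)
    (hq1 : ∀ t, (q t : O) ≠ 1) {v : T → O} (hv : ∀ t, v t * v t = 1)
    {Z : T → Finset Oˣ} (hZ1 : ∀ t, ∀ ζ ∈ Z t, ζ ≠ 1) (hZ2 : ∀ t, ∀ ζ ∈ Z t, ζ ^ (q t - 1) = 1)
    (hZ3 : ∀ t, ∀ ζ ∈ Z t, (ζ : O) - 1 ∈ maximalIdeal O)
    {cb : Fin s → O} (hcb : ∀ i, cb i ≠ 0)
    (L : ∀ n, Nonempty (FullLevel O ϖ c' p (3 * Nat.card T + (s + k)) n D m s
      (MvPowerSeries ((T × Fin 6) ⊕ ((Fin s × Fin 3) ⊕ Fin k)) O)
      (fun t j => MvPowerSeries.X (Sum.inl (t, j)))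
      (fun i j => MvPowerSeries.X (Sum.inr (Sum.inl (i, j)))) q v Z cb)) : False :=
  no_full_levels hϖ hc' hpO h2 hq0 hq hq1 hv hZ1 hZ2 hZ3 hcb L

end Levels

end Fermat.Agent.Guide.TameRings
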