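import Fermat.Agent.H30Main
import Fermat.Agent.H35LTTop

/-!
# Guide: the Tate module of `J_0(N)`, step by step

Companion of GuideGalois (sections 2, 4 and 5: it ends with the representations attached to
eigenforms, S30), of GuideEigen and GuideRealisation (which compare `T_p J_0(N)` with group
cohomology and with the representation of a Hecke-Galois datum) and of GuideFrobeniusAtP.  Those
files USE the Tate module; this one shows how it is defined, why it is a finite free
`ℤ_p`-module, and how the properties of the torsion points of `J_0(N)` become properties of the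
lattice `T_p J_0(N)` and of the eigenvectors in it.  (For elliptic curves see GuideTateModule.)
GuideLatticeReps shows the steps from a lattice to the representation, and the transfer of the
properties at the primes dividing `N` (S34, S35, S36); GuideEigenModules the same for general `T`.

**Statements served** (checked on the proof terms; every library theorem cited here is used in the
proof of S01).  Section 1: S01, S03, S04, S06, S09, S12, S15, S29, S30, S33, S35, S36, S38, S42,
S43, S45, S46, S50, S58, S59, S60 (`lift_up_to_bounded_index` not S09, S12, S15; `tateMap` not S29,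
S30, S42).  Section 2: the same without S09, S12, S15 (the inputs also S31, S32, S34, S39, S40,
S44, but the finiteness not S32; `lattice_inertia`: as section 3).  Sections 3 and 4: S01, S03,
S04, S06, S29, S30, S38, S42, S43, S45, S46, S50, S59, S60.  Exceptions: `exists_eigenvector` also
S33, S35, S36, S58; `relations_of_faithful` also S35, S36, S58, but not S29, S30, S42, S43 (it is
the first step of the proofs explained in GuideNewforms; in the proof of S30 the same computation
is repeated); the second half of `statementS30` not S29, S30, S42.  Section 5: S01, S03, S04, S06,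
S38, S45, S46, S50, S59, S60 (block M7 of GuideResidual).

**Reading order.**
1. The Tate module of an abelian group `J`: sequences `x_0 = 0`, `p x_{n+1} = x_n`.  No hypothesis
   on `J` is needed for the structure of a torsion free, separated `ℤ_p`-module; it is finite free
   as soon as `J[p]` is finite.  The elements of `J[p^n]` need not lift to `T_p J` if `J` is not
   divisible, but a fixed power of `p` times each of them does.  (That is enough: nothing in this
   file uses that `J_0(N)(ℚ̄)` is divisible.)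
2. The Galois and the Hecke action on `T_p J_0(N)`: continuous, unramified outside `N p`,
   `φ² - T_ℓ φ + ℓ = 0`, faithful.
3. From the lattice to S30: linear relations between Hecke operators, eigenvectors, the
   eigenlattice, two-dimensional representations.
4. The same for any abelian group `J` with the properties used in 3: `J[p]` finite, unramified
   outside `N p`, Frobenius relation, finite level, faithful.
5. From a congruence between a Hecke eigensystem and integers `a_ℓ` modulo `p^(n+1)` to a torsion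
   point of `J_0(N)` of order `p^(n+1)` on which `T_ℓ` is multiplication by `a_ℓ`.

**Files.**  `H30Tate`, `H30Mid`, `H30Final`, `H30Main` (helper30), `H31Mod`, `H31JZero`,
`H31Inputs` (helper31, helper30), `H35Cyclo`, `H35Eigen`, `H35Sub`, `H35S30`, `H35VChi`,
`H35VFinal`, `H35LTTop` (helper35).  NOTES.md: [80] NOTES-GALREP-S30, [254] NOTES-GALREP.

**Vocabulary.**  `JZero N` is the group `J_0(N)(ℚ̄)` (divisor classes of degree 0 of the function
field of `X_0(N)` over `ℚ̄`), `HeckeAlg = ℤ[T_ℓ : ℓ prime]` acts on it by `heckeModuleBar N`.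
`GoodPrimes N S` is the set of the primes `ℓ ∤ N`, `ℓ ∉ S`.  A polynomial `P` in the `T_ℓ`, `ℓ` in
`GoodPrimes N S`, has a value `inclHecke N S P` in `HeckeAlg` and a value `evHecke N S P` in the
Hecke algebra of the cusp forms `S_2(Γ_0(N))`.
-/

set_option autoImplicit false

open Polynomial IsLocalRing AlgebraicCurve ModularCurve TensorProduct Matrix
open Fermat.Agent.H30 Fermat.Agent.H31

namespace Fermat.Agent.Guide.TateJacobian

/-- An algebraic closure of `ℚ`. -/
local notation "Qb" => AlgebraicClosure ℚ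

/-- The absolute Galois group of `ℚ`. -/
local notation "Gℚ" => AlgebraicClosure ℚ ≃ₐ[ℚ] AlgebraicClosure ℚ

/-! ## 1. The Tate module of an abelian group -/

/-- **Definition.**  `T_p J` is the group of the sequences `(x_n)` in `J` with `x_0 = 0` and
`p x_{n+1} = x_n`.  Definition in `H30Tate`. -/
theorem mem_tateMod (p : ℕ) {J : Type*} [AddCommGroup J] (x : ℕ → J) :
    x ∈ TateMod p J ↔ x 0 = 0 ∧ ∀ n, p • x (n + 1) = x n :=
  Iff.rfl

/-- **Components.**  `TateMod.proj n` is the `n`-th component; `p^k x_{n+k} = x_n` and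
`p^n x_n = 0`; two elements of `T_p J` are equal if all their components are.  (`H30Tate`) -/
theorem components {p : ℕ} {J : Type*} [AddCommGroup J] (x : TateMod p J) :
    (∀ n, TateMod.proj n x = (x : ℕ → J) n) ∧
    (∀ n k, p ^ k • TateMod.proj (n + k) x = TateMod.proj n x) ∧
    (∀ n, p ^ n • TateMod.proj n x = 0) ∧
    ∀ y : TateMod p J, (∀ n, TateMod.proj n x = TateMod.proj n y) → x = y :=
  ⟨fun _ => rfl, TateMod.pow_smul_proj_add x, TateMod.pow_smul_proj x, fun _ h => TateMod.ext h⟩

/-- **Multiples by residue classes.**  If `N x = 0` then `m x` depends only on `m` modulo `N`.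
(`H30Tate`) -/
theorem smul_congr {J : Type*} [AddCommGroup J] {N m m' : ℕ} {x : J} (hx : N • x = 0)
    (h : (m : ZMod N) = (m' : ZMod N)) : m • x = m' • x :=
  nsmul_congr hx h

/-- **`T_p J` is a `ℤ_p`-module.**  Because `p^n x_n = 0`, the `n`-th component of `a x` can be
defined as `m x_n` for any natural number `m ≡ a` modulo `p^n`.  (The topology of `J` plays no
role.)  The module axioms are checked component by component.  (`H30Tate`) -/
theorem padic_smul {p : ℕ} [Fact p.Prime] {J : Type*} [AddCommGroup J] (a : ℤ_[p])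
    (x : TateMod p J) (n m : ℕ) (h : PadicInt.toZModPow n a = (m : ZMod (p ^ n))) :
    TateMod.proj n (a • x) = m • TateMod.proj n x :=
  TateMod.proj_smul_eq a x n m h

/-- **The kernel of the `n`-th component is `p^n T_p J`**: if `x_n = 0` then `x = p^n y` with
`y_k = x_{k+n}`.  Both ways of writing `p^n T_p J` are used.  (`H30Tate`) -/
theorem kernel_of_component {p : ℕ} [Fact p.Prime] {J : Type*} [AddCommGroup J] (n : ℕ)
    (x : TateMod p J) :
    ((∃ y : TateMod p J, x = (p : ℤ_[p]) ^ n • y) ↔ TateMod.proj n x = 0) ∧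
    (x ∈ (Ideal.span {(p : ℤ_[p])} ^ n • ⊤ : Submodule ℤ_[p] (TateMod p J)) ↔
      TateMod.proj n x = 0) :=
  ⟨TateMod.mem_pow_smul_iff n x, TateMod.mem_smul_top_iff n x⟩

/-- **Torsion free**: if `p x = 0` then `x_n = p x_{n+1} = 0` for all `n`; and every nonzero
`a ∈ ℤ_p` is a unit times a power of `p`.  (`H30Tate`) -/
theorem torsion_free {p : ℕ} [Fact p.Prime] {J : Type*} [AddCommGroup J] :
    (∀ x : TateMod p J, (p : ℤ_[p]) • x = 0 → x = 0) ∧
    ∀ (a : ℤ_[p]) (x : TateMod p J), a • x = 0 → a = 0 ∨ x = 0 :=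
  ⟨fun _ h => TateMod.p_smul_injective h, fun _ _ h => smul_eq_zero.mp h⟩

/-- **Separated**: an element which is divisible by all powers of `p` is zero, because all its
components are zero.  (`H30Tate`) -/
theorem separated {p : ℕ} [Fact p.Prime] {J : Type*} [AddCommGroup J] (x : TateMod p J)
    (h : ∀ n, ∃ y : TateMod p J, x = (p : ℤ_[p]) ^ n • y) : x = 0 :=
  TateMod.ext fun n => by rw [(TateMod.mem_pow_smul_iff n x).mp (h n), map_zero]

/-- **`T_p J` is finite free over `ℤ_p` if `J[p]` is finite.**  Proof: `T/pT` embeds in `J[p]` by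
the first component, hence is finite; lifts of its elements generate `T`, because `ℤ_p^s` is
complete and `T` is separated; and a finite torsion free module over a principal ideal domain is
free.  (`H30Tate`) -/
theorem finite_free {p : ℕ} [Fact p.Prime] {J : Type*} [AddCommGroup J]
    (h : {x : J | p • x = 0}.Finite) :
    Module.Finite ℤ_[p] (TateMod p J) ∧ Module.Free ℤ_[p] (TateMod p J) :=
  ⟨TateMod.finite_of_finite_torsion h, TateMod.free_of_finite_torsion h⟩

/-- **Lifting from a divisible set.**  Let `D` be a set of elements of `J` in which every element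
is `p` times an element of `D`.  Then every `x ∈ D` with `p^n x = 0` is the `n`-th component of an
element of `T_p J`: its other components are `p^(n-k) x` for `k ≤ n` and successively chosen
quotients by `p` in `D` for `k > n`.  (`H30Tate`) -/
theorem lift_of_divisible {p : ℕ} [Fact p.Prime] {J : Type*} [AddCommGroup J] (D : Set J)
    (hD : ∀ x ∈ D, ∃ y ∈ D, p • y = x) (n : ℕ) (x : J) (hx : x ∈ D) (hn : p ^ n • x = 0) :
    ∃ t : TateMod p J, TateMod.proj n t = x :=
  TateMod.exists_of_divisible D hD n x hx hn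

/-- **Lifting up to a fixed power of `p`.**  If `J[p]` is finite there is `m` such that for all `n`
and all `x ∈ J[p^n]` the element `p^m x` is the `n`-th component of an element of `T_p J`.
Proof: let `D_k` be the set of the `p^k z`, `z` of `p`-power order.  The finite sets `D_k ∩ J[p]`
decrease, so they are all equal for `k ≥ m`; from this `D_m = D_{m+1}`, so that `D_m` is
`p`-divisible and `lift_of_divisible` applies.  (`H30Tate`) -/
theorem lift_up_to_bounded_index {p : ℕ} [Fact p.Prime] {J : Type*} [AddCommGroup J]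
    (h : {x : J | p • x = 0}.Finite) :
    ∃ m : ℕ, ∀ (n : ℕ) (x : J), p ^ n • x = 0 →
      ∃ t : TateMod p J, TateMod.proj n t = p ^ m • x :=
  TateMod.exists_lift_bound h

/-- **Homomorphisms.**  A homomorphism `f : J → J₁` acts on Tate modules component by component;
for endomorphisms this is a ring homomorphism from `End J` to `End T_p J` (`TateMod.map`).
(`H30Tate`, `H35S35`) -/
theorem induced_map {p : ℕ} [Fact p.Prime] {J J₁ : Type*} [AddCommGroup J] [AddCommGroup J₁] :
    (∀ (f : J →+ J₁) (x : TateMod p J) (n : ℕ),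
      TateMod.proj n (H35.tateMap (p := p) f x) = f (TateMod.proj n x)) ∧
    (∀ (f : AddMonoid.End J) (x : TateMod p J) (n : ℕ),
      TateMod.proj n (TateMod.map f x) = f (TateMod.proj n x)) ∧
    ∀ f g : AddMonoid.End J, (TateMod.map (f * g) : Module.End ℤ_[p] (TateMod p J)) =
      TateMod.map f * TateMod.map g :=
  ⟨fun _ _ _ => rfl, fun _ _ _ => rfl, fun f g => map_mul _ f g⟩

/-! ## 2. The Galois-Hecke lattice `T_p J_0(N)` -/

/-- **The actions.**  Let the Galois group and the polynomial ring `HeckeAlg` act on `J`.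
`galTate p J` is the action of the Galois group on `T_p J`, `heckeTate p J` the action of
`HeckeAlg`, `actTate p J N S` the action of the polynomials in the `T_ℓ`, `ℓ ∤ N`, `ℓ ∉ S`.  All of
them act component by component.  (`H30Mid`) -/
theorem actions {p : ℕ} [Fact p.Prime] {J : Type*} [AddCommGroup J] [Module HeckeAlg J]
    [DistribMulAction Gℚ J] (x : TateMod p J) (n : ℕ) :
    (∀ σ : Gℚ, TateMod.proj n (galTate p J σ x) = σ • TateMod.proj n x) ∧
    (∀ P : HeckeAlg, TateMod.proj n (heckeTate p J P x) = P • TateMod.proj n x) ∧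
    ∀ (N : ℕ) (S : Set ℕ) (P : MvPolynomial (GoodPrimes N S) ℤ),
      TateMod.proj n (actTate p J N S P x) = inclHecke N S P • TateMod.proj n x :=
  ⟨fun σ => proj_galTate σ x n, fun _ => rfl, fun N S P => proj_actTate N S P x n⟩

/-- **The inputs.**  Everything that is used about `J_0(N)` in this file, for all primes `p`:
functions have divisors (a), the `p`-power torsion is finite (b), Galois and Hecke operators
commute (c), specialisation at the good primes (d, see `specialisation` in GuideGalois), the Hecke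
algebra acts faithfully (e, see `hecke_faithful` there).  `JZeroInputs N` is the structure with
these fields, and `H31.jzeroInputs` proves it for every `N ≥ 1`.  (`H30Final`, `H31Inputs`) -/
theorem inputs (N : ℕ) [NeZero N] :
    HasPrincipalDivisors Qb (modularFunctionFieldBar N) ∧
    (∀ p n : ℕ, p.Prime → {x : JZero N | p ^ n • x = 0}.Finite) ∧
    ∃ hc : (letI := heckeModuleBar N; SMulCommClass Gℚ HeckeAlg (JZero N)),
      (∀ p : ℕ, p.Prime → letI := heckeModuleBar N; haveI := hc;
        SpecializationExists (K := ℚ) (L := Qb) N p (JZero N)) ∧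
      ∀ (p : ℕ) (S : Finset ℕ), p.Prime → p ∈ S → (∀ q : ℕ, q.Prime → q ∣ N → q ∈ S) →
        letI := heckeModuleBar N; HeckeFaithful N (↑S : Set ℕ) p (JZero N) :=
  ⟨(jzeroInputs N).principal, (jzeroInputs N).finite, (jzeroInputs N).comm,
    (jzeroInputs N).spec, (jzeroInputs N).faithful⟩

/-- **`T_p J_0(N)` is a finite free `ℤ_p`-module.** -/
theorem lattice_finite_free (p : ℕ) [Fact p.Prime] (N : ℕ) [NeZero N] :
    Module.Finite ℤ_[p] (TateMod p (JZero N)) ∧ Module.Free ℤ_[p] (TateMod p (JZero N)) :=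
  finite_free (by simpa using (jzeroInputs N).finite p 1 Fact.out)

/-- **Continuity.**  For every `n` there is a number field `L` such that the Galois elements which
fix `L` act trivially on `T_p J_0(N)` modulo `p^n`: they fix the finite group `J_0(N)[p^n]`.
(`H30Mid`, `H31JZero`, `H31Level`) -/
theorem lattice_continuous (p : ℕ) [Fact p.Prime] (N : ℕ) [NeZero N] (n : ℕ) :
    ∃ L : IntermediateField ℚ Qb, FiniteDimensional ℚ L ∧
      ∀ σ : Gℚ, (∀ x ∈ L, σ x = x) → ∀ x : TateMod p (JZero N), ∃ y : TateMod p (JZero N),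
        galTate p (JZero N) σ x - x = (p : ℤ_[p]) ^ n • y :=
  letI := heckeModuleBar N
  haveI := (jzeroInputs N).principal
  galTate_continuous (finiteLevel_JZero N p fun n => (jzeroInputs N).finite p n Fact.out) n

/-- **The Hecke operators and the Galois group commute** on `T_p J_0(N)`.  (`H30Mid`) -/
theorem lattice_commute (p : ℕ) [Fact p.Prime] (N : ℕ) [NeZero N] (S : Set ℕ)
    (P : MvPolynomial (GoodPrimes N S) ℤ) (σ : Gℚ) :
    letI := heckeModuleBar N
    Commute (actTate p (JZero N) N S P) (galTate p (JZero N) σ) :=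
  letI := heckeModuleBar N
  haveI := (jzeroInputs N).comm
  actTate_commute N S P σ

/-- **The Eichler-Shimura relation on the Tate module**: `φ² - T_ℓ φ + ℓ = 0` for every Frobenius
element `φ` at a prime `ℓ ∤ N p`.  The relation holds in the special fibre, the specialisation map
is injective on `p`-power torsion, so it holds for every component.  (`H30Mid`, `H31JZero`) -/
theorem lattice_frobenius (p : ℕ) [Fact p.Prime] (N : ℕ) [NeZero N] {ℓ : ℕ} (hℓ : ℓ.Prime)
    (hℓN : ¬ ℓ ∣ N * p) {A : ValuationSubring Qb} (hA : A.LiesOverPrime ℓ) {φ : Gℚ}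
    (hφ : A.IsFrobeniusAt φ ℓ) :
    letI := heckeModuleBar N
    galTate p (JZero N) φ * galTate p (JZero N) φ -
      heckeTate p (JZero N) (heckeGen ⟨ℓ, hℓ⟩) * galTate p (JZero N) φ +
      ℓ • (1 : Module.End ℤ_[p] (TateMod p (JZero N))) = 0 :=
  letI := heckeModuleBar N
  haveI := (jzeroInputs N).comm
  galTate_frobenius (frobeniusQuadratic_of_specializationExists
    ((jzeroInputs N).spec p Fact.out)) hℓ hℓN hA hφ

/-- **Unramified outside `N p`**: inertia at a prime `q ∤ N p` acts trivially on `T_p J_0(N)`.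
(`H30Mid`, `H31JZero`) -/
theorem lattice_inertia (p : ℕ) [Fact p.Prime] (N : ℕ) [NeZero N] {q : ℕ} (hq : q.Prime)
    (hqN : ¬ q ∣ N * p) {A : ValuationSubring Qb} (hA : A.LiesOverPrime q) {τ : Gℚ}
    (hτ : τ ∈ A.inertiaSubgroupIn ℚ) : galTate p (JZero N) τ = 1 :=
  letI := heckeModuleBar N
  haveI := (jzeroInputs N).comm
  galTate_inertia (unramifiedOutside_of_specializationExists
    ((jzeroInputs N).spec p Fact.out)) hq hqN hA hτ

/-- **Faithfulness passes to the Tate module.**  Let `J[p]` be finite and suppose that a polynomial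
`P` in the good Hecke operators which kills `J[p^n]` is, up to the factor `u` prime to `p`, divisible
by `p^(n-c)` in the Hecke algebra of cusp forms (`HeckeFaithful`).  Then the same holds, with
another constant `c`, for the `P` which map `T_p J` into `p^n T_p J`: by
`lift_up_to_bounded_index` the operator `p^m P` kills `J[p^n]`, and the Hecke algebra is torsion
free.  (`H30Mid`) -/
theorem faithful_of_torsion {p : ℕ} [Fact p.Prime] {J : Type*} [AddCommGroup J]
    [Module HeckeAlg J] {N : ℕ} [NeZero N] {S : Set ℕ} (hfin : {x : J | p • x = 0}.Finite)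
    (hfaith : HeckeFaithful N S p J) :
    ∃ c u : ℕ, ¬ p ∣ u ∧ ∀ (n : ℕ) (P : MvPolynomial (GoodPrimes N S) ℤ),
      (∀ x : TateMod p J, ∃ y : TateMod p J, actTate p J N S P x = (p : ℤ_[p]) ^ n • y) →
        ∃ y : CuspForm.heckeAlgebra N 2 S, (u : CuspForm.heckeAlgebra N 2 S) * evHecke N S P =
          (p : CuspForm.heckeAlgebra N 2 S) ^ (n - c) * y :=
  actTate_faithful hfin hfaith

/-! ## 3. Eigenvectors in `O ⊗ T_p J_0(N)` and the proof of S30

`O` is a complete discrete valuation ring of characteristic zero whose maximal ideal contains `p`,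
with finite residue field; `χ` is a character of the Hecke algebra with values in `O`. -/

/-- **`ℤ_p → O`.**  A complete local ring `O` whose maximal ideal contains `p` receives a unique
compatible system of maps `ℤ/p^n → O/𝔪^n`, hence a ring homomorphism `padicToAdic` from `ℤ_p`; it
is injective if `O` is a domain of characteristic zero.  (`H35Cyclo`, `H35S30`) -/
theorem padic_coefficients (O : Type*) [CommRing O] [IsLocalRing O] {p : ℕ} [Fact p.Prime]
    (hp : (p : O) ∈ maximalIdeal O) [IsAdicComplete (maximalIdeal O) O] [IsDomain O]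
    [CharZero O] : Function.Injective (H35.padicToAdic O hp) :=
  H35.padicToAdic_injective O hp

/-- **Eigenvectors and linear relations.**  A commutative ring `A` acts on `Z^m` by matrices,
`Z` a principal ideal domain contained in a noetherian domain `O`, and `χ : A → O` is a ring
homomorphism such that every `Z`-linear relation between the operators holds for the numbers
`χ(P)`.  Then there is a nonzero vector `v` in `O^m` with `P v = χ(P) v` for all `P`.
Proof: let `R` be the `Z`-algebra generated by the operators.  By the relations `χ` is defined on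
`R`, hence on the finite `O`-algebra `O ⊗ R`, which acts faithfully on `O^m` (`O` is flat over
`Z`).  The kernel of `χ` on `O ⊗ R` lies over the zero ideal of `O`, so it is a minimal prime, so it
is the annihilator of a vector in `O^m`.  (`H35Eigen`) -/
theorem exists_eigenvector {Z O A : Type*} [CommRing Z] [IsDomain Z] [IsPrincipalIdealRing Z]
    [CommRing O] [IsDomain O] [IsNoetherianRing O] [Algebra Z O]
    (hinj : Function.Injective (algebraMap Z O)) [CommRing A] {m : ℕ}
    (act : A →+* Matrix (Fin m) (Fin m) Z) (χ : A →+* O)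
    (hker : ∀ S : Finset (Z × A), ∑ i ∈ S, i.1 • act i.2 = 0 →
      ∑ i ∈ S, algebraMap Z O i.1 * χ i.2 = 0) :
    ∃ v : Fin m → O, v ≠ 0 ∧ ∀ a : A, ((act a).map (algebraMap Z O)) *ᵥ v = χ a • v :=
  H35.exists_eigenvector_matrix hinj act χ hker

/-- **The relations hold for `χ`.**  `T` is a `ℤ_p`-module with an action of the polynomials in the
good Hecke operators which is faithful in the sense of `faithful_of_torsion`.  If
`∑ a_i P_i = 0` on `T` with `a_i ∈ ℤ_p`, then `∑ a_i χ(P_i) = 0`.
Proof: for each `n` replace the `a_i` by natural numbers `k_i ≡ a_i` modulo `p^n`.  The polynomial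
`P = ∑ k_i P_i` maps `T` into `p^n T`, so `u P` is divisible by `p^(n-c)` in the Hecke algebra of
cusp forms and `u ∑ a_i χ(P_i) ∈ 𝔪^(n-c)`.  Let `n → ∞`.  (`H35VFinal`; in `H35S30` the same
computation is part of the proof of `attached_of_lattice`, GuideGalois.) -/
theorem relations_of_faithful {p : ℕ} [Fact p.Prime] {N : ℕ} [NeZero N] {S : Finset ℕ}
    {𝒪' : Type*} [CommRing 𝒪'] [IsDomain 𝒪'] [IsLocalRing 𝒪']
    [IsHausdorff (maximalIdeal 𝒪') 𝒪'] [CharZero 𝒪'] (hp𝒪' : (p : 𝒪') ∈ maximalIdeal 𝒪')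
    (ι : ℤ_[p] →+* 𝒪') (χ : CuspForm.heckeAlgebra N 2 (↑S : Set ℕ) →+* 𝒪')
    {T : Type*} [AddCommGroup T] [Module ℤ_[p] T]
    (act : MvPolynomial (GoodPrimes N (↑S : Set ℕ)) ℤ →+* Module.End ℤ_[p] T)
    (hfaith : ∃ c u : ℕ, u ≠ 0 ∧ ∀ (n : ℕ) (P : MvPolynomial (GoodPrimes N (↑S : Set ℕ)) ℤ),
      (∀ x : T, ∃ y : T, act P x = (p : ℤ_[p]) ^ n • y) →
        ∃ y : CuspForm.heckeAlgebra N 2 (↑S : Set ℕ),
          (u : CuspForm.heckeAlgebra N 2 (↑S : Set ℕ)) * evHecke N (↑S : Set ℕ) P =
            (p : CuspForm.heckeAlgebra N 2 (↑S : Set ℕ)) ^ (n - c) * y)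
    (U : Finset (ℤ_[p] × MvPolynomial (GoodPrimes N (↑S : Set ℕ)) ℤ))
    (hU : ∑ i ∈ U, i.1 • act i.2 = 0) :
    ∑ i ∈ U, ι i.1 * χ (evHecke N (↑S : Set ℕ) i.2) = 0 :=
  H35.rel_of_faithful hp𝒪' ι χ act hfaith U hU

/-- **Saturated submodules have bases and projections.**  `W ≠ 0` is a submodule of `O^m`, `O` a
principal ideal domain, with `a w ∈ W → w ∈ W` for `a ≠ 0`.  Then `O^m/W` is torsion free, hence
free, and `W` is a direct summand: there are a matrix `Q` whose columns are a basis of `W` and a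
matrix `L` with `L Q = 1`, `Q L w = w` for `w ∈ W`.  (`H35Sub`) -/
theorem basis_of_saturated {O : Type*} [CommRing O] [IsDomain O] [IsPrincipalIdealRing O]
    {m : ℕ} (W : Submodule O (Fin m → O)) (hW0 : W ≠ ⊥)
    (hsat : ∀ (a : O) (w : Fin m → O), a ≠ 0 → a • w ∈ W → w ∈ W) :
    ∃ (r : ℕ) (_ : 0 < r) (Q : Matrix (Fin m) (Fin r) O) (L : Matrix (Fin r) (Fin m) O),
      L * Q = 1 ∧ (∀ x, Q *ᵥ x ∈ W) ∧ ∀ w ∈ W, Q *ᵥ (L *ᵥ w) = w :=
  H35.exists_basis_of_saturated W hW0 hsat

/-- **The representation on a stable saturated submodule.**  If `W` is moreover stable under a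
continuous representation `ρ` of the Galois group by matrices, then `R = L ρ Q` is a continuous
representation by `r × r` matrices with `ρ(g) Q = Q R(g)`.  Applied to the lattice `W` of the
eigenvectors of `χ`, which is saturated and Galois stable.  (`H35Sub`) -/
theorem representation_on_saturated {O : Type} [CommRing O] [IsDomain O]
    [IsPrincipalIdealRing O] [IsLocalRing O] {m : ℕ} (ρ : Gℚ →* Matrix (Fin m) (Fin m) O)
    (hρ : ∀ n : ℕ, ∃ L : IntermediateField ℚ Qb, FiniteDimensional ℚ L ∧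
      ∀ σ : Gℚ, (∀ x ∈ L, σ x = x) →
        ∀ i j, ρ σ i j - (1 : Matrix (Fin m) (Fin m) O) i j ∈ maximalIdeal O ^ n)
    (W : Submodule O (Fin m → O)) (hW0 : W ≠ ⊥)
    (hsat : ∀ (a : O) (w : Fin m → O), a ≠ 0 → a • w ∈ W → w ∈ W)
    (hst : ∀ g, ∀ w ∈ W, ρ g *ᵥ w ∈ W) :
    ∃ (r : ℕ) (_ : 0 < r) (Q : Matrix (Fin m) (Fin r) O) (L : Matrix (Fin r) (Fin m) O)
      (R : Gℚ →* Matrix (Fin r) (Fin r) O),
      L * Q = 1 ∧ (∀ g, ρ g * Q = Q * R g) ∧
      (∀ n : ℕ, ∃ L : IntermediateField ℚ Qb, FiniteDimensional ℚ L ∧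
        ∀ σ : Gℚ, (∀ x ∈ L, σ x = x) →
          ∀ i j, R σ i j - (1 : Matrix (Fin r) (Fin r) O) i j ∈ maximalIdeal O ^ n) ∧
      ∀ x, Q *ᵥ x ∈ W :=
  H35.exists_matrixRep_sub ρ hρ W hW0 hsat hst

/-- **The conclusion of S30** (`H35.S30Conclusion`, written out): over a finite extension `𝒪''` of
`𝒪'` there is a continuous two-dimensional representation, unramified outside `N p`, whose
characteristic polynomial at the Frobenius elements at `ℓ ∤ N`, `ℓ ∉ S`, is
`X² - χ(T_ℓ) X + ℓ`.  (`H35S30`) -/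
theorem S30Conclusion_iff (p N : ℕ) [NeZero N] (S : Finset ℕ) (𝒪' : Type) [CommRing 𝒪']
    [IsDomain 𝒪'] [IsDiscreteValuationRing 𝒪']
    (χ : CuspForm.heckeAlgebra N 2 (↑S : Set ℕ) →+* 𝒪') :
    H35.S30Conclusion p N S 𝒪' χ ↔
      ∃ (𝒪'' : Type) (_ : CommRing 𝒪'') (_ : IsDomain 𝒪'') (_ : IsDiscreteValuationRing 𝒪'')
        (_ : IsAdicComplete (maximalIdeal 𝒪'') 𝒪'') (_ : Finite (ResidueField 𝒪''))
        (_ : CharZero 𝒪'') (_ : Algebra 𝒪' 𝒪'') (_ : Module.Finite 𝒪' 𝒪'')
        (_ : IsLocalHom (algebraMap 𝒪' 𝒪'')),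
      Function.Injective (algebraMap 𝒪' 𝒪'') ∧
      ∃ ρ : GaloisRepAdic 𝒪'',
        (∀ (ℓ : ℕ) (hℓ : ℓ.Prime) (hℓN : ¬ ℓ ∣ N) (hℓS : ℓ ∉ (↑S : Set ℕ)),
          ∀ A : ValuationSubring Qb, A.LiesOverPrime ℓ → ∀ σ : Gℚ, A.IsFrobeniusAt σ ℓ →
            LinearMap.charpoly (ρ.ρ σ) =
              X ^ 2 - C (algebraMap 𝒪' 𝒪'' (χ (CuspForm.heckeAlgebra.T hℓ hℓN hℓS))) * X
                + C ((ℓ : 𝒪''))) ∧
        (∀ q : ℕ, q.Prime → ¬ q ∣ N → q ≠ p → ρ.IsUnramifiedAt q) :=
  Iff.rfl

/-- **From an eigenlattice of any rank to dimension two.**  Let `R` be a continuous representation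
by `r × r` matrices over `𝒪'`, `r > 0`, unramified outside `N p`, with
`R(φ)² - χ(T_ℓ) R(φ) + ℓ = 0` for the Frobenius elements `φ` at the `ℓ ∤ N`, `ℓ ∉ S`.  Then `χ`
satisfies the conclusion of S30.  By `quadratic_of_frobenius` and `exists_integral_model` of
GuideGalois, with the cyclotomic character as determinant.  (`H35S30`) -/
theorem attached_of_matrices {p : ℕ} [Fact p.Prime] {N : ℕ} [NeZero N] {S : Finset ℕ}
    (hpS : p ∈ S) (hNS : ∀ q : ℕ, q.Prime → q ∣ N → q ∈ S)
    (𝒪' : Type) [CommRing 𝒪'] [IsDomain 𝒪'] [IsDiscreteValuationRing 𝒪']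
    [IsAdicComplete (maximalIdeal 𝒪') 𝒪'] [Finite (ResidueField 𝒪')]
    [CharZero 𝒪'] (hp𝒪' : (p : 𝒪') ∈ maximalIdeal 𝒪')
    (χ : CuspForm.heckeAlgebra N 2 (↑S : Set ℕ) →+* 𝒪')
    {r : ℕ} (hr : 0 < r) (R : Gℚ →* Matrix (Fin r) (Fin r) 𝒪')
    (hR : ∀ n : ℕ, ∃ L : IntermediateField ℚ Qb, FiniteDimensional ℚ L ∧
      ∀ σ : Gℚ, (∀ x ∈ L, σ x = x) →
        ∀ i j, R σ i j - (1 : Matrix (Fin r) (Fin r) 𝒪') i j ∈ maximalIdeal 𝒪' ^ n)
    (hfrob : ∀ (ℓ : ℕ) (hℓ : ℓ.Prime) (hℓN : ¬ ℓ ∣ N) (hℓS : ℓ ∉ (↑S : Set ℕ)),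
      ∀ A : ValuationSubring Qb, A.LiesOverPrime ℓ → ∀ φ : Gℚ, A.IsFrobeniusAt φ ℓ →
        R φ * R φ - χ (CuspForm.heckeAlgebra.T hℓ hℓN hℓS) • R φ
          + (ℓ : 𝒪') • (1 : Matrix (Fin r) (Fin r) 𝒪') = 0)
    (hunr : ∀ q : ℕ, q.Prime → ¬ q ∣ N → q ≠ p → ∀ A : ValuationSubring Qb,
      A.LiesOverPrime q → ∀ τ ∈ A.inertiaSubgroupIn ℚ, R τ = 1) :
    H35.S30Conclusion p N S 𝒪' χ :=
  H35.s30_of_matrixRep hpS hNS 𝒪' hp𝒪' χ hr R hR hfrob hunr

/-- **From a Hecke-Galois lattice with relations to S30.**  `T` is a finite free `ℤ_p`-module with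
commuting actions of the Galois group (continuous, unramified outside `N p`) and of the polynomials
in the good Hecke operators, `φ² - T_ℓ φ + ℓ = 0` for Frobenius elements, such that all linear
relations between the operators hold for `χ`.  Proof: choose a basis of `T`; by
`exists_eigenvector` the lattice of the `χ`-eigenvectors in `𝒪' ⊗ T` is not zero, it is saturated
and Galois stable; apply `representation_on_saturated` and `attached_of_matrices`.  (`H35S30`) -/
theorem attached_of_relations {p : ℕ} [Fact p.Prime] {N : ℕ} [NeZero N] {S : Finset ℕ}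
    (hpS : p ∈ S) (hNS : ∀ q : ℕ, q.Prime → q ∣ N → q ∈ S)
    (𝒪' : Type) [CommRing 𝒪'] [IsDomain 𝒪'] [IsDiscreteValuationRing 𝒪']
    [IsAdicComplete (maximalIdeal 𝒪') 𝒪'] [Finite (ResidueField 𝒪')]
    [CharZero 𝒪'] (hp𝒪' : (p : 𝒪') ∈ maximalIdeal 𝒪')
    (χ : CuspForm.heckeAlgebra N 2 (↑S : Set ℕ) →+* 𝒪')
    {T : Type*} [AddCommGroup T] [Module ℤ_[p] T] [Module.Free ℤ_[p] T] [Module.Finite ℤ_[p] T]
    (ρT : Gℚ →* Module.End ℤ_[p] T)
    (hcont : ∀ n : ℕ, ∃ L : IntermediateField ℚ Qb, FiniteDimensional ℚ L ∧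
      ∀ σ : Gℚ, (∀ x ∈ L, σ x = x) → ∀ x : T, ∃ y : T, ρT σ x - x = (p : ℤ_[p]) ^ n • y)
    (act : MvPolynomial (GoodPrimes N (↑S : Set ℕ)) ℤ →+* Module.End ℤ_[p] T)
    (hcomm : ∀ P σ, Commute (act P) (ρT σ))
    (hfrob : ∀ (a : GoodPrimes N (↑S : Set ℕ)) (A : ValuationSubring Qb),
      A.LiesOverPrime (a.1 : ℕ) → ∀ φ : Gℚ, A.IsFrobeniusAt φ (a.1 : ℕ) →
        ∀ x : T, ρT φ (ρT φ x) - act (MvPolynomial.X a) (ρT φ x) + (a.1 : ℕ) • x = 0)
    (hunr : ∀ q : ℕ, q.Prime → ¬ q ∣ N → q ≠ p → ∀ A : ValuationSubring Qb,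
      A.LiesOverPrime q → ∀ τ ∈ A.inertiaSubgroupIn ℚ, ρT τ = 1)
    (hrel : ∀ U : Finset (ℤ_[p] × MvPolynomial (GoodPrimes N (↑S : Set ℕ)) ℤ),
      ∑ i ∈ U, i.1 • act i.2 = 0 →
        ∑ i ∈ U, H35.padicToAdic 𝒪' hp𝒪' i.1 * χ (evHecke N (↑S : Set ℕ) i.2) = 0) :
    H35.S30Conclusion p N S 𝒪' χ :=
  H35.s30_of_relations hpS hNS 𝒪' hp𝒪' χ ρT hcont act hcomm hfrob hunr hrel

/-! ## 4. S30 for any group with these properties -/

/-- **S30 from a Galois-Hecke module.**  `J` is any abelian group with commuting actions of the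
Galois group and of the Hecke operators such that `J[p]` is finite and: the `p`-power torsion is
unramified outside `N p`; Frobenius elements satisfy `φ² - T_ℓ φ + ℓ = 0` on it; the action on
`J[p^n]` is of finite level; the Hecke algebra acts faithfully up to a bounded error.  Then the
conclusion of S30 holds for every `χ`: the theorems of section 2 for `T = T_p J` are the hypotheses
of `attached_of_lattice` (GuideGalois).  (`H30Final`) -/
theorem attached_of_module {p : ℕ} [Fact p.Prime] {N : ℕ} [NeZero N] {S : Finset ℕ}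
    (hpS : p ∈ S) (hNS : ∀ q : ℕ, q.Prime → q ∣ N → q ∈ S)
    (𝒪' : Type) [CommRing 𝒪'] [IsDomain 𝒪'] [IsDiscreteValuationRing 𝒪']
    [IsAdicComplete (maximalIdeal 𝒪') 𝒪'] [Finite (ResidueField 𝒪')]
    [CharZero 𝒪'] (hp𝒪' : (p : 𝒪') ∈ maximalIdeal 𝒪')
    (χ : CuspForm.heckeAlgebra N 2 (↑S : Set ℕ) →+* 𝒪')
    {J : Type*} [AddCommGroup J] [Module HeckeAlg J] [DistribMulAction Gℚ J]
    [SMulCommClass Gℚ HeckeAlg J] (hfin : {x : J | p • x = 0}.Finite)
    (hU : UnramifiedOutside (K := ℚ) (L := Qb) N p J)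
    (hF : FrobeniusQuadratic (K := ℚ) (L := Qb) N p J)
    (hlev : FiniteLevel p J) (hfaith : HeckeFaithful N (↑S : Set ℕ) p J) :
    H35.S30Conclusion p N S 𝒪' χ :=
  S30_of_module hpS hNS 𝒪' hp𝒪' χ hfin hU hF hlev hfaith

/-- **S30 for all levels** from the inputs of section 2 for all levels (`H96.StatementS30` is the
statement of S30 as a proposition), and, with `H31.jzeroInputs`, unconditionally.  In this form S30
is used in the construction of the representation over the Hecke ring (`exists_heckeDatum`, see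
GuideHeckeRings).  (`H30Final`, `H30Main`) -/
theorem statementS30 : ((∀ (N : ℕ) [NeZero N], JZeroInputs N) → H96.StatementS30) ∧
    H96.StatementS30 :=
  ⟨fun h => statementS30_of h, H30.statementS30⟩

/-! ## 5. From congruences to torsion points

`O` as in section 3, `T` a `ℤ_p`-module, `β` a basis of `O` over `ℤ_p`. -/

/-- **`O` is a finite `ℤ_p`-algebra** (its residue field is finite): `O/p` is finite.
(`H35LTTop`) -/
theorem finite_over_padic {p : ℕ} [Fact p.Prime] (O : Type) [CommRing O] [IsDomain O]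
    [IsDiscreteValuationRing O] [IsAdicComplete (maximalIdeal O) O] [Finite (ResidueField O)]
    [CharZero O] [Algebra ℤ_[p] O] (hpO : (p : O) ∈ maximalIdeal O) : Module.Finite ℤ_[p] O :=
  H35.finite_padic O hpO

/-- **Coordinates.**  Every `v ∈ O ⊗ T` is `∑ β_j ⊗ v_j` with `v_j = coordT β j v ∈ T`; the
coordinates are compatible with endomorphisms of `T`; if all `v_j` are divisible by `p`, so is
`v`.  (`H35LTTop`) -/
theorem coordinates {p : ℕ} [Fact p.Prime] {O : Type} [CommRing O] [Algebra ℤ_[p] O]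
    {T : Type*} [AddCommGroup T] [Module ℤ_[p] T] {ι : Type*} [Fintype ι]
    (β : Module.Basis ι ℤ_[p] O) (v : O ⊗[ℤ_[p]] T) :
    ∑ j, β j ⊗ₜ[ℤ_[p]] H35.coordT β j v = v ∧
    (∀ (j : ι) (F : Module.End ℤ_[p] T),
      H35.coordT β j (F.baseChange O v) = F (H35.coordT β j v)) ∧
    ((∀ j, ∃ t : T, H35.coordT β j v = (p : ℤ_[p]) • t) →
      ∃ w : O ⊗[ℤ_[p]] T, v = (p : O) • w) :=
  ⟨H35.sum_tmul_coordT β v, fun j F => H35.coordT_baseChange β j F v,
    H35.exists_p_smul_of_coordT β⟩

/-- **Primitive vectors.**  A nonzero `v ∈ O ⊗ T`, `T` finite over `ℤ_p`, is `p^k w` with `w` not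
divisible by `p` (`O ⊗ T` is separated).  (`H35LTTop`) -/
theorem exists_primitive {p : ℕ} [Fact p.Prime] {O : Type} [CommRing O] [IsDomain O]
    [IsDiscreteValuationRing O] [IsAdicComplete (maximalIdeal O) O] [Finite (ResidueField O)]
    [CharZero O] [Algebra ℤ_[p] O] (hpO : (p : O) ∈ maximalIdeal O) {T : Type*}
    [AddCommGroup T] [Module ℤ_[p] T] [Module.Finite ℤ_[p] T] {v : O ⊗[ℤ_[p]] T} (hv : v ≠ 0) :
    ∃ (k : ℕ) (w : O ⊗[ℤ_[p]] T), v = (p : O) ^ k • w ∧ ∀ u, w ≠ (p : O) • u :=
  H35.exists_primitive hpO hv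

/-- **From a congruence to a torsion point.**  `J` is a Hecke module with `J[p]` finite on which
the Hecke algebra acts faithfully, `χ` a character with values in `O` and
`χ(T_ℓ) ≡ a_ℓ` modulo `p^(n+1)` with integers `a_ℓ`.  Then there is `y ∈ J` of exact order
`p^(n+1)` with `T_ℓ y = a_ℓ y` for all good primes `ℓ`.
Proof: take a primitive eigenvector `w ∈ O ⊗ T_p J` of `χ`; one of its coordinates
`t ∈ T_p J` is not divisible by `p`, and `T_ℓ t ≡ a_ℓ t` modulo `p^(n+1)`; so `y = t_{n+1}` is the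
point.  (`H35LTTop`) -/
theorem torsion_point_of_congruence {p : ℕ} [Fact p.Prime] {O : Type} [CommRing O] [IsDomain O]
    [IsDiscreteValuationRing O] [IsAdicComplete (maximalIdeal O) O] [Finite (ResidueField O)]
    [CharZero O] (hpO : (p : O) ∈ maximalIdeal O) {N : ℕ} [NeZero N] {S : Finset ℕ}
    {J : Type*} [AddCommGroup J] [Module HeckeAlg J] (hfin : {x : J | p • x = 0}.Finite)
    (hfaith : HeckeFaithful N (↑S : Set ℕ) p J)
    (χ : CuspForm.heckeAlgebra N 2 (↑S : Set ℕ) →+* O) (a : ℕ → ℤ) (n : ℕ)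
    (hχ : ∀ (ℓ : ℕ) (hℓ : ℓ.Prime) (hℓN : ¬ ℓ ∣ N) (hℓS : ℓ ∉ (↑S : Set ℕ)),
      χ (CuspForm.heckeAlgebra.T hℓ hℓN hℓS) - ((a ℓ : ℤ) : O) ∈
        Ideal.span {((p : O) ^ (n + 1))}) :
    ∃ y : J, p ^ (n + 1) • y = 0 ∧ p ^ n • y ≠ 0 ∧
      ∀ r : GoodPrimes N (↑S : Set ℕ), heckeGen r.1 • y = a (r.1 : ℕ) • y :=
  H35.exists_torsion_of_congr hpO hfin hfaith χ a n hχ

/-- **The same for `J_0(N)`**: a point `y` of `p`-power order with `p^n y ≠ 0` and
`T_ℓ y = a_ℓ y` for the primes `ℓ ∤ R` (`H35.LevelPoint`, written out); all primes in `S` divide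
`R` (hypothesis `hR`).  Used for `p = 2` and the numbers `a_ℓ` of an elliptic curve: such points for
all `n`, at levels with auxiliary primes, are moved to the level of the curve by Mazur's principle
with a bounded loss (`m7_modular` in GuideResidual, and GuideLevelsMazur).  (`H35LTTop`) -/
theorem torsion_point_of_jacobian {p : ℕ} [Fact p.Prime] {O : Type} [CommRing O] [IsDomain O]
    [IsDiscreteValuationRing O] [IsAdicComplete (maximalIdeal O) O] [Finite (ResidueField O)]
    [CharZero O] (hpO : (p : O) ∈ maximalIdeal O) {N : ℕ} [NeZero N] {S : Finset ℕ}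
    (hpS : p ∈ S) (hNS : ∀ q : ℕ, q.Prime → q ∣ N → q ∈ S)
    (χ : CuspForm.heckeAlgebra N 2 (↑S : Set ℕ) →+* O) (a : ℕ → ℤ) (n : ℕ)
    (hχ : ∀ (ℓ : ℕ) (hℓ : ℓ.Prime) (hℓN : ¬ ℓ ∣ N) (hℓS : ℓ ∉ (↑S : Set ℕ)),
      χ (CuspForm.heckeAlgebra.T hℓ hℓN hℓS) - ((a ℓ : ℤ) : O) ∈
        Ideal.span {((p : O) ^ (n + 1))})
    {R : ℕ} (hR : ∀ ℓ : ℕ, ℓ.Prime → ¬ ℓ ∣ R → ℓ ∉ S) :
    letI := heckeModuleBar N
    ∃ y : JZero N, (∃ K, p ^ K • y = 0) ∧ p ^ n • y ≠ 0 ∧
      ∀ ℓ : Nat.Primes, ¬ (ℓ : ℕ) ∣ R → heckeGen ℓ • y = a ℓ • y :=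
  H35.levelPoint_of_congr hpO hpS hNS χ a n hχ hR

end Fermat.Agent.Guide.TateJacobian
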