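import Fermat.Agent.H87S58

set_option autoImplicit false

/-!
# Reader's guide: from the torsion points of an elliptic curve to its Tate module, step by step

**What this file is.**  Companion of `GuideCurvesTate`, where the results are stated; here are the steps of
the proofs of its sections 1 and 3.  Every theorem is *proved by citing the library* (at most three lines);
no other module imports this file.

**The problem.**  Modularity lifting speaks about a `GaloisRepAdic A`: a free module of rank two over a local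
ring `A` with an adically continuous action of `Gal(Q̄/ℚ)`.  An elliptic curve gives the finite groups
`W[p^n]`.  The library never forms the inverse limit `T_p W = lim W[p^n]`.  It chooses bases of the groups
`W[p^n]` over `ℤ/p^n` which are compatible (`p b_{n+1} = b_n`, section 1); then the matrices of `σ` are
compatible, and their limit is a matrix over `ℤ_p`.  The Tate module is `ℤ_p²` with these matrices (section
2).  Every statement about it is checked modulo `p^n` for all `n`, that is on `W[p^n]`: characteristic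
polynomials, ramification, determinant (section 3), flatness (section 4), and the filtration at a
multiplicative prime `p` (section 5).  Section 6: extension of coefficients.  Section 7: complex conjugation
and absolute irreducibility.  Section 8: comparison with the representation of a newform, the tools for S58.

**Notation.**  `W` is a Weierstrass equation over `ℚ` with `Δ(W) ≠ 0`, `Tor W m` the group of its `m`-torsion
points over `Q̄`, `rep W m σ` the action of `σ` on it (`vocabulary`), `tate W hΔ p` the Tate module,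
`tateMat W hΔ p` the homomorphism `Gal(Q̄/ℚ) → GL₂(ℤ_p)` (all in the namespace `H87.Tate`).  For an equation
`W` over `ℤ`, `H87.Glue.tateZ W hΔ p` and `H87.Glue.resZ W hΔ p` of `GuideCurvesTate` are `tate` of the
equation over `ℚ` and the representation `W[p]`.  `toZModPow n` is the map `ℤ_p → ℤ/p^n`.  The properties
`IsUnramifiedAt`, `IsUnipotentOnInertiaAt`, `DetIsCyclotomic`, `IsStrictOrdinaryAt`, `IsFlatAt` of a
`GaloisRepAdic` are written out in `GuideNotionsGalois`, `H53.MCont` and `H53.ofMatrix` in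
`GuideDeformations` (a continuous homomorphism to `GL₂(A)` and the representation on `A²` defined by it).

**Where it is used.**  In S01, S03, S04, S06, S38, S45, S46, S50, S59, S60, most of it also in S58; section 7
also in S39-S41, S43, S44, S47, S56; section 8 in S58, partly also in the others.  The line "Closures: ..."
at the end of a docstring names all statements SNN whose proof term depends on the library theorems cited.

**Texts** by helper87; matrices of Galois representations (`H53Matrix`): helper53.  **Prose**: NOTES.md,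
Appendix A, NOTES-ECLIB (helper87).
-/

namespace Fermat.Agent.Guide.TateModule

open WeierstrassCurve WeierstrassCurve.Affine WeierstrassCurve.Affine.Point Polynomial PadicInt
open H87.Tate (Tor rep tate tateMat tateBasis)

/-- the field of algebraic numbers -/
local notation "Qbar" => AlgebraicClosure ℚ
/-- its Galois group over `ℚ` -/
local notation "GQ" => AlgebraicClosure ℚ ≃ₐ[ℚ] AlgebraicClosure ℚ

/-! ## 1. Compatible bases and limits of matrices -/

/-- **A compatible sequence of residues is a `p`-adic integer**, and `p`-adic integers (and matrices of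
`p`-adic integers) with the same residues modulo all `p^n` are equal. Nothing else is used of "`ℤ_p` is the
inverse limit of the rings `ℤ/p^n`". Module `H87Tate`.
Closures: S01, S03, S04, S06, S38, S45, S46, S50, S58-S60. -/
theorem padic_limit {p : ℕ} [Fact p.Prime] {ι κ : Type*} :
    (∀ f : ∀ n : ℕ, ZMod (p ^ n),
      (∀ n, ZMod.castHom (pow_dvd_pow p n.le_succ) (ZMod (p ^ n)) (f (n + 1)) = f n) →
        ∃ z : ℤ_[p], ∀ n, toZModPow n z = f n) ∧
    (∀ x y : ℤ_[p], (∀ n, toZModPow n x = toZModPow n y) → x = y) ∧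
    ∀ M N : Matrix ι κ ℤ_[p], (∀ n, M.map (toZModPow n) = N.map (toZModPow n)) → M = N :=
  ⟨H87.Tate.exists_padic_of_compat, fun _ _ => H87.Tate.padic_ext, fun _ _ => H87.Tate.matrix_ext⟩

/-- **Compatible bases adapted to divisible subsets.** Let `A` be an abelian group and `b₁` a basis of
`A[p]` over `ℤ/p` with `b₁ i` in a subset `D i` of `A` in which every element is `p` times an element of
`D i`. Divide `b₁ i` successively by `p` inside `D i`; this gives bases of the groups `A[p^n]` over `ℤ/p^n`.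
(Independence and generation at level `n + 1` follow from level `n` and level `1`.) Module `H87Tate`.
Closures: S01, S03, S04, S06, S38, S45, S46, S50, S58-S60. -/
theorem compatible_bases_adapted {A ι : Type*} [AddCommGroup A] [Fintype ι] {p : ℕ} [Fact p.Prime]
    [∀ n : ℕ, Module (ZMod n) (Submodule.torsionBy ℤ A (n : ℤ))] (D : ι → Set A)
    (hsurj : ∀ i, ∀ x ∈ D i, ∃ y ∈ D i, p • y = x)
    (b₁ : Module.Basis ι (ZMod p) (Submodule.torsionBy ℤ A (p : ℤ))) (hb₁ : ∀ i, (b₁ i : A) ∈ D i) :
    ∃ b : ∀ n : ℕ, Module.Basis ι (ZMod (p ^ n)) (Submodule.torsionBy ℤ A ((p ^ n : ℕ) : ℤ)),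
      (∀ n i, p • (b (n + 1) i : A) = b n i) ∧ (∀ i, (b 1 i : A) = b₁ i) ∧
      ∀ n i, (b (n + 1) i : A) ∈ D i :=
  H87.Tate.exists_compat_basis_adapted D hsurj b₁ hb₁

/-- **The matrices are compatible**: if `t : V_{n+1} → V_n` maps the basis `b_{n+1}` to `b_n` and commutes
with the endomorphisms `g'` and `g`, then the matrix of `g` is the matrix of `g'` modulo `p^n`. Module
`H87Tate`.
Closures: S01, S03, S04, S06, S38, S45, S46, S50, S58-S60. -/
theorem matrix_levels {p : ℕ} {V : ℕ → Type*} [∀ n, AddCommGroup (V n)]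
    [∀ n, Module (ZMod (p ^ n)) (V n)] (t : ∀ n, V (n + 1) →+ V n) {ι : Type*} [Fintype ι]
    [DecidableEq ι] (b : ∀ n, Module.Basis ι (ZMod (p ^ n)) (V n))
    (hb : ∀ n i, t n (b (n + 1) i) = b n i) (n : ℕ)
    (g' : Module.End (ZMod (p ^ (n + 1))) (V (n + 1))) (g : Module.End (ZMod (p ^ n)) (V n))
    (h : ∀ x, t n (g' x) = g (t n x)) :
    (LinearMap.toMatrix (b (n + 1)) (b (n + 1)) g').map
      (ZMod.castHom (pow_dvd_pow p n.le_succ) (ZMod (p ^ n))) = LinearMap.toMatrix (b n) (b n) g :=
  H87.Tate.toMatrix_castHom t b hb n g' g h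

/-- **Two compatible bases differ by an invertible matrix over `ℤ_p`.** Module `H87Tate`.
Closures: S01, S03, S04, S06, S38, S45, S46, S50, S59, S60. -/
theorem change_of_basis {p : ℕ} [Fact p.Prime] {V : ℕ → Type*} [∀ n, AddCommGroup (V n)]
    [∀ n, Module (ZMod (p ^ n)) (V n)] (t : ∀ n, V (n + 1) →+ V n) {ι : Type*} [Fintype ι]
    [DecidableEq ι] (b b' : ∀ n, Module.Basis ι (ZMod (p ^ n)) (V n))
    (hb : ∀ n i, t n (b (n + 1) i) = b n i) (hb' : ∀ n i, t n (b' (n + 1) i) = b' n i) :
    ∃ U U' : Matrix ι ι ℤ_[p], U * U' = 1 ∧ U' * U = 1 ∧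
      (∀ n, U.map (toZModPow n) = (b' n).toMatrix (b n)) ∧
      (∀ n, U'.map (toZModPow n) = (b n).toMatrix (b' n)) :=
  H87.Tate.exists_change_of_basis t b b' hb hb'

/-! ## 2. The Tate module -/

/-- *Vocabulary*: `Tor W m` is the group of `m`-torsion points over `Q̄`, and `rep W m σ` is the action of
`σ` on it. -/
theorem vocabulary (W : WeierstrassCurve ℚ) (m : ℕ) (σ : GQ) (x : Tor W m) :
    Tor W m = Submodule.torsionBy ℤ (W⁄Qbar).Point (m : ℤ) ∧
      (rep W m σ x : (W⁄Qbar).Point) = σ • (x : (W⁄Qbar).Point) :=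
  ⟨rfl, rfl⟩

/-- **The matrices of the Tate module**: there are bases of the groups `W[p^n]` with `p b_{n+1} = b_n` and a
homomorphism `r` to the matrices over `ℤ_p` which reduces modulo `p^n` to the matrices of the action on
`W[p^n]`. From `compatible_bases_adapted` (multiplication by `p` is surjective on the points over `Q̄`) and
`GuideCurvesTate.padic_representation`. Module `H87TateEC`.
Closures: S01, S03, S04, S06, S38, S45, S46, S50, S58-S60. -/
theorem exists_tate (W : WeierstrassCurve ℚ) (hΔ : W.Δ ≠ 0) (p : ℕ) [Fact p.Prime] :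
    ∃ (b : ∀ n : ℕ, Module.Basis (Fin 2) (ZMod (p ^ n)) (Tor W (p ^ n)))
      (r : GQ →* Matrix (Fin 2) (Fin 2) ℤ_[p]),
      (∀ n i, p • (b (n + 1) i : (W⁄Qbar).Point) = b n i) ∧
      ∀ n σ, (r σ).map (toZModPow n) = LinearMap.toMatrix (b n) (b n) (rep W (p ^ n) σ) :=
  H87.Tate.exists_tate W hΔ p

/-- **The Tate module** `tate W hΔ p` is `ℤ_p²` on which `σ` acts by the matrix `tateMat W hΔ p σ`, chosen
together with the bases `tateBasis W hΔ p n` of `W[p^n]` by `exists_tate`. Module `H87TateEC`.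
Closures: S01, S03, S04, S06, S38, S45, S46, S50, S58-S60. -/
theorem tate_matrix (W : WeierstrassCurve ℚ) (hΔ : W.Δ ≠ 0) (p : ℕ) [Fact p.Prime] (σ : GQ) :
    (tate W hΔ p).V = (Fin 2 → ℤ_[p]) ∧ (tate W hΔ p).ρ σ = Matrix.toLin' (tateMat W hΔ p σ) ∧
      ∀ n, (tateMat W hΔ p σ).map (toZModPow n) =
        LinearMap.toMatrix (tateBasis W hΔ p n) (tateBasis W hΔ p n) (rep W (p ^ n) σ) :=
  ⟨rfl, H87.Tate.tate_ρ W hΔ p σ, fun n => H87.Tate.tateMat_map W hΔ p n σ⟩

/-- **Continuity**: modulo `p^n` the matrix of `σ` is the identity if `σ` fixes a certain finite extension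
of `ℚ` (the field generated by the coordinates of the points of `W[p^n]`). This is the condition in the
definition of `GaloisRepAdic`. Module `H87TateEC`.
Closures: S01, S03, S04, S06, S38, S45, S46, S50, S58-S60. -/
theorem tate_continuous (W : WeierstrassCurve ℚ) (hΔ : W.Δ ≠ 0) (p : ℕ) [Fact p.Prime] (n : ℕ) :
    ∃ L : IntermediateField ℚ Qbar, FiniteDimensional ℚ L ∧ ∀ σ : GQ, (∀ x ∈ L, σ x = x) →
      ∀ i j, tateMat W hΔ p σ i j - (1 : Matrix (Fin 2) (Fin 2) ℤ_[p]) i j ∈
        IsLocalRing.maximalIdeal ℤ_[p] ^ n :=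
  H87.Tate.mcont_tateMat W hΔ p n

/-- **Independence of the choices**: every compatible system of bases gives matrices, and the representation
on `ℤ_p²` defined by them (`H53.ofMatrix`) is isomorphic to `tate W hΔ p`. So for each question one may take
the bases which are best adapted to it (section 5). From `change_of_basis`. Module `H87TateEC`.
Closures: S01, S03, S04, S06, S38, S45, S46, S50, S59, S60. -/
theorem tate_of_bases (W : WeierstrassCurve ℚ) (hΔ : W.Δ ≠ 0) (p : ℕ) [Fact p.Prime]
    (b : ∀ n : ℕ, Module.Basis (Fin 2) (ZMod (p ^ n)) (Tor W (p ^ n)))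
    (hb : ∀ n i, p • (b (n + 1) i : (W⁄Qbar).Point) = b n i) :
    ∃ (r : GQ →* Matrix (Fin 2) (Fin 2) ℤ_[p]) (hr : H53.MCont ℤ_[p] r),
      (∀ n σ, (r σ).map (toZModPow n) = LinearMap.toMatrix (b n) (b n) (rep W (p ^ n) σ)) ∧
      (tate W hΔ p).IsEquiv (H53.ofMatrix r hr) :=
  H87.Tate.exists_ofMatrix_of_compat W hΔ p b hb

/-! ## 3. Characteristic polynomials, ramification, determinant -/

/-- **Determinant and trace** on the Tate module reduce modulo `p^n` to determinant and trace on `W[p^n]`.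
Module `H87TateEC`.
Closures: S01, S03, S04, S06, S38, S45, S46, S50, S58-S60. -/
theorem det_trace_levels (W : WeierstrassCurve ℚ) (hΔ : W.Δ ≠ 0) (p : ℕ) [Fact p.Prime] (n : ℕ)
    (σ : GQ) :
    toZModPow n (LinearMap.det ((tate W hΔ p).ρ σ)) = LinearMap.det (rep W (p ^ n) σ) ∧
      toZModPow n (tateMat W hΔ p σ).trace =
        LinearMap.trace (ZMod (p ^ n)) (Tor W (p ^ n)) (rep W (p ^ n) σ) :=
  ⟨H87.Tate.det_tate_map W hΔ p n σ, H87.Tate.trace_tateMat_map W hΔ p n σ⟩

/-- **The trace of an invertible matrix is determined by a quadratic relation and the determinant**, over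
every commutative ring: `M² - a M + d = 0` and `det M = d` imply `tr M = a`. (Subtract the theorem of Cayley
and Hamilton: `(tr M - a) M = 0`.) Module `H87TateEC`.
Closures: S01, S03, S04, S06, S38, S45, S46, S50, S58-S60. -/
theorem trace_of_relation {R : Type*} [CommRing R] {M : Matrix (Fin 2) (Fin 2) R} (hM : IsUnit M)
    {a d : R} (h : M * M - a • M + d • 1 = 0) (hd : M.det = d) : M.trace = a :=
  H87.Tate.trace_eq_of_quadratic hM h hd

/-- **Characteristic polynomial from a relation on the torsion points**: if `σ² x - a σ x + d x = 0` on all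
groups `W[p^n]` and the determinant is `d` there, then the characteristic polynomial of `σ` on the Tate
module is `X² - a X + d`. Module `H87TateEC`.
Closures: S01, S03, S04, S06, S38, S45, S46, S50, S58-S60. -/
theorem charpoly_of_relation (W : WeierstrassCurve ℚ) (hΔ : W.Δ ≠ 0) (p : ℕ) [Fact p.Prime] {σ : GQ}
    {a d : ℤ} (ha : ∀ n, ∀ x : Tor W (p ^ n), σ • σ • x - a • (σ • x) + d • x = 0)
    (hd : ∀ n, LinearMap.det (rep W (p ^ n) σ) = (d : ZMod (p ^ n))) :
    LinearMap.charpoly ((tate W hΔ p).ρ σ) = X ^ 2 - C (a : ℤ_[p]) * X + C (d : ℤ_[p]) :=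
  H87.Tate.charpoly_tate_eq_of_relation W hΔ p ha hd

/-- **The determinant on `W[m]`** of an element `σ` which acts on the `m`-th roots of unity by `μ ↦ μ ^ a`
is `a` (Weil pairing, `GuideCurves`, `GuideWeil`). Module `H87TateDet`.
Closures: S01, S03, S04, S06, S38, S43, S45, S46, S50, S58-S60. -/
theorem det_torsion (W : WeierstrassCurve ℚ) (hΔ : W.Δ ≠ 0) {m : ℕ} (hm : m ≠ 0) (σ : GQ) (a : ℕ)
    (ha : ∀ μ : Qbar, μ ^ m = 1 → σ μ = μ ^ a) : LinearMap.det (rep W m σ) = (a : ZMod m) :=
  H87.Tate.det_rep_eq W hΔ hm σ a ha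

/-- **Inertia and Frobenius** at a prime `q ∤ m` fix the `m`-th roots of unity, respectively raise them to
the power `q`; so their determinants on `W[m]` are `1` and `q`. Module `H87TateDet`.
Closures: S01, S03, S04, S06, S38, S45, S46, S50, S58-S60. -/
theorem det_inertia_frobenius (W : WeierstrassCurve ℚ) (hΔ : W.Δ ≠ 0) {q m : ℕ} (hm : Nat.Coprime q m)
    (hm0 : m ≠ 0) {A : ValuationSubring Qbar} (hA : A.LiesOverPrime q) {σ : GQ} :
    (σ ∈ A.inertiaSubgroupIn ℚ → LinearMap.det (rep W m σ) = 1) ∧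
      (A.IsFrobeniusAt σ q → LinearMap.det (rep W m σ) = (q : ZMod m)) :=
  ⟨H87.Tate.det_rep_inertia W hΔ hm hm0 hA, H87.Tate.det_rep_frobenius W hΔ hm hm0 hA⟩

/-- **Frobenius**: at a prime `ℓ ≠ p` the relation `σ² - a σ + ℓ = 0` on the torsion points gives the
characteristic polynomial. For good `ℓ` and `a = a_ℓ(W)` the relation is `GuideCurves.frobenius_relation`.
Module `H87TateDet`.
Closures: S01, S03, S04, S06, S38, S45, S46, S50, S58-S60. -/
theorem charpoly_frobenius (W : WeierstrassCurve ℚ) (hΔ : W.Δ ≠ 0) (p : ℕ) [Fact p.Prime] {ℓ : ℕ}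
    (hℓ : ℓ.Prime) (hℓp : ℓ ≠ p) {A : ValuationSubring Qbar} (hA : A.LiesOverPrime ℓ) {σ : GQ}
    (hσ : A.IsFrobeniusAt σ ℓ) {a : ℤ}
    (ha : ∀ n, ∀ x : Tor W (p ^ n), σ • σ • x - a • (σ • x) + (ℓ : ℤ) • x = 0) :
    LinearMap.charpoly ((tate W hΔ p).ρ σ) = X ^ 2 - C (a : ℤ_[p]) * X + C (ℓ : ℤ_[p]) :=
  H87.Tate.charpoly_tate_frobenius W hΔ p hℓ hℓp hA hσ ha

/-- **Ramification from the finite levels.** (1) If inertia at `q` acts trivially on all `W[p^n]`, it acts
trivially on the Tate module. (2) If it acts with trace `2` and determinant `1` on all `W[p^n]`, its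
characteristic polynomial on the Tate module is `(X - 1)²`. Module `H87TateEC`.
Closures: S01, S03, S04, S06, S38, S45, S46, S50, S58-S60. -/
theorem ramification_levels (W : WeierstrassCurve ℚ) (hΔ : W.Δ ≠ 0) (p : ℕ) [Fact p.Prime] {q : ℕ} :
    ((∀ n, GaloisRepUnramifiedAt (K := Qbar) ℚ W (p ^ n) q) → (tate W hΔ p).IsUnramifiedAt q) ∧
      ((∀ n, ∀ A : ValuationSubring Qbar, A.LiesOverPrime q → ∀ σ ∈ A.inertiaSubgroupIn ℚ,
        LinearMap.trace (ZMod (p ^ n)) (Tor W (p ^ n)) (rep W (p ^ n) σ) = 2 ∧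
        LinearMap.det (rep W (p ^ n) σ) = 1) → (tate W hΔ p).IsUnipotentOnInertiaAt q) :=
  ⟨H87.Tate.isUnramifiedAt_tate W hΔ p, H87.Tate.isUnipotentOnInertiaAt_tate W hΔ p⟩

/-- **Inertia at a multiplicative prime `q ∤ n`** has trace `2` and determinant `1` on `W[n]`: it satisfies
`(σ - 1)² = 0` (`GuideCurvesLocal.inertia_unipotent`), the determinant is `1` by `det_inertia_frobenius`,
and the trace follows as in `trace_of_relation`. Here `W` is an equation over `ℤ`. Module `H87Glue2`.
Closures: S01, S03, S04, S06, S38, S45, S46, S50, S58-S60. -/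
theorem inertia_multiplicative (W : WeierstrassCurve ℤ) (hΔ : W.Δ ≠ 0) {q n : ℕ} (hq : q.Prime)
    (hn0 : n ≠ 0) (hqn : ¬ q ∣ n) (hbad : (q : ℤ) ∣ W.Δ) (hc : ¬ (q : ℤ) ∣ W.c₄)
    {A : ValuationSubring Qbar} (hA : A.LiesOverPrime q) {σ : GQ} (hσ : σ ∈ A.inertiaSubgroupIn ℚ) :
    LinearMap.trace (ZMod n) (Tor (W.map (Int.castRingHom ℚ)) n)
        (rep (W.map (Int.castRingHom ℚ)) n σ) = 2 ∧
      LinearMap.det (rep (W.map (Int.castRingHom ℚ)) n σ) = 1 :=
  H87.Glue.trace_det_inertia_mult W hΔ hq hn0 hqn hbad hc hA hσ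

/-- **The determinant of the Tate module is the cyclotomic character** if the determinant on every `W[p^n]`
is; this hypothesis is `det_torsion` for `m = p^n`. Module `H87TateEC`.
Closures: S01, S03, S04, S06, S38, S45, S46, S50, S59, S60. -/
theorem determinant_levels (W : WeierstrassCurve ℚ) (hΔ : W.Δ ≠ 0) (p : ℕ) [Fact p.Prime]
    (h : ∀ n (σ : GQ) (a : ℕ), (∀ μ : Qbar, μ ^ p ^ n = 1 → σ μ = μ ^ a) →
      LinearMap.det (rep W (p ^ n) σ) = (a : ZMod (p ^ n))) : (tate W hΔ p).DetIsCyclotomic p :=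
  H87.Tate.detIsCyclotomic_tate W hΔ p h

/-! ## 4. Quotients of the Tate module; the residual representation; flatness -/

/-- **`T / p^n T` is `W[p^n]`**, with the Galois action. (`levelAction I` is the action on `T / I T`; `I` is
the kernel of `ℤ_p → ℤ/p^n`.) Module `H87TateEC`.
Closures: S01, S03, S04, S06, S38, S45, S46, S50, S59, S60. -/
theorem level_quotient (W : WeierstrassCurve ℚ) (hΔ : W.Δ ≠ 0) (p : ℕ) [Fact p.Prime] (n : ℕ)
    (I : Ideal ℤ_[p]) (hI : I = RingHom.ker (toZModPow n : ℤ_[p] →+* ZMod (p ^ n))) :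
    ∃ e : ((tate W hΔ p).V ⧸ (I • (⊤ : Submodule ℤ_[p] (tate W hΔ p).V))) ≃+ Tor W (p ^ n),
      ∀ (σ : GQ) v, e ((tate W hΔ p).levelAction I σ v) = σ • e v :=
  H87.Tate.exists_levelEquiv W hΔ p n I hI

/-- **Ideals of finite index of `ℤ_p`** are the kernels of the maps to `ℤ/p^n`. Module `H87TateEC`.
Closures: S01, S03, S04, S06, S38, S45, S46, S50, S59, S60. -/
theorem ideal_finite_index (p : ℕ) [Fact p.Prime] (I : Ideal ℤ_[p]) (hI : Finite (ℤ_[p] ⧸ I)) :
    ∃ n, I = RingHom.ker (toZModPow n : ℤ_[p] →+* ZMod (p ^ n)) :=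
  H87.Tate.exists_eq_ker_toZModPow p I hI

/-- **Flatness from the finite levels**: if every `W[p^n]` is the group of `Q̄`-points of a finite flat
cocommutative Hopf algebra over `ℤ_(p)`, the Tate module is flat at `p`, by `level_quotient` and
`ideal_finite_index`. The models exist for odd good `p`: `GuideCurvesTate.exists_flat_model`. Module
`H87TateEC`.
Closures: S01, S03, S04, S06, S38, S45, S46, S50, S59, S60. -/
theorem flat_levels (W : WeierstrassCurve ℚ) (hΔ : W.Δ ≠ 0) (p : ℕ) [Fact p.Prime]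
    (h : ∀ n, ∃ (H : Type) (_ : CommRing H) (_ : HopfAlgebra (GaloisRep.ratLocalizedAt p) H),
      Module.Finite (GaloisRep.ratLocalizedAt p) H ∧
      Module.Flat (GaloisRep.ratLocalizedAt p) H ∧
      Coalgebra.IsCocomm (GaloisRep.ratLocalizedAt p) H ∧
      ∃ e : WithConv (H →ₐ[GaloisRep.ratLocalizedAt p] Qbar) ≃ Tor W (p ^ n),
        (∀ f g : WithConv (H →ₐ[GaloisRep.ratLocalizedAt p] Qbar), e (f * g) = e f + e g) ∧
        ∀ (σ : GQ) (f g : WithConv (H →ₐ[GaloisRep.ratLocalizedAt p] Qbar)),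
          (∀ h : H, g h = σ (f h)) → e g = σ • e f) :
    (tate W hΔ p).IsFlatAt p :=
  H87.Tate.isFlatAt_tate W hΔ p h

/-- **Uniqueness of the residual homomorphism**: two homomorphisms from `ℤ_p` to a ring in which `p = 0` are
equal. So in `GuideCurvesTate.residual_tate` the maps `ℤ_p → O → k` and `ℤ_p → 𝔽_p → k` agree. Module
`H87TateEC`.
Closures: S01, S03, S04, S06, S38, S45, S46, S50, S59, S60. -/
theorem padic_ringHom_unique (p : ℕ) [Fact p.Prime] {R : Type*} [CommRing R] (hR : (p : R) = 0)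
    (f g : ℤ_[p] →+* R) : f = g :=
  H87.Tate.padic_ringHom_ext p hR f g

/-! ## 5. The filtration at a multiplicative prime `p` -/

/-- **Strictly ordinary, in terms of a basis**: if for every place above `p` there is a basis in which the
decomposition group acts by matrices `(x, y; 0, z)` with `z = 1` on inertia and `x = χ z` modulo every `p^n`
(`χ` the cyclotomic character), then `ρ` is strictly ordinary at `p`. Module `H87Ord`.
Closures: S01, S03, S04, S06, S38, S45, S46, S50, S59, S60. -/
theorem ordinary_of_basis {A : Type} [CommRing A] [IsLocalRing A] (ρ : GaloisRepAdic A) {p : ℕ}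
    (hp : (p : A) ∈ IsLocalRing.maximalIdeal A)
    (h : ∀ P : ValuationSubring Qbar, P.LiesOverPrime p →
      ∃ b : Module.Basis (Fin 2) A ρ.V, ∀ σ ∈ P.decompositionSubgroup ℚ, ∃ x y z : A,
        ρ.ρ σ (b 0) = x • b 0 ∧ ρ.ρ σ (b 1) = y • b 0 + z • b 1 ∧
        (σ ∈ P.inertiaSubgroupIn ℚ → z = 1) ∧
        ∀ (n a : ℕ), (∀ μ : Qbar, μ ^ p ^ n = 1 → σ μ = μ ^ a) →
          x - (a : A) * z ∈ Ideal.span {((p ^ n : ℕ) : A)}) : ρ.IsStrictOrdinaryAt p :=
  H87.Ord.isStrictOrdinaryAt_of_basis ρ hp h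

/-- **Outside a subgroup `D`**: let `s₁, s₂, …` be elements with `p s_{n+1} = s_n`, `p s₁ = 0` and `s₁ ∉ D`.
If `c s_n ∈ D` then `p^n ∣ c`. So in a compatible basis with first vectors in `D` and second vectors `s_n`
the elements of `D ∩ A[p^n]` are the multiples of the first vector. Module `H87Ord`.
Closures: S01, S03, S04, S06, S38, S45, S46, S50, S59, S60. -/
theorem outside_divisible {A : Type*} [AddCommGroup A] (D : AddSubgroup A) {p : ℕ} (hp : p.Prime)
    (s : ℕ → A) (hs : ∀ n, p • s (n + 1) = s n) (h1 : p • s 1 = 0) (h1D : s 1 ∉ D) (n : ℕ) (c : ℤ)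
    (hc : c • s n ∈ D) : (p : ℤ) ^ n ∣ c :=
  H87.Ord.dvd_of_zsmul_mem D hp s hs h1 h1D n c hc

/-- **The Tate module is strictly ordinary** if for every place above `p` there is a `p`-divisible subgroup
`D` of the group of points, stable under the decomposition group, with `0 ≠ D[p] ≠ W[p]`, such that the
decomposition group acts on `W[p^∞] / D[p^∞]` by a sign and inertia acts trivially there. (Take
`compatible_bases_adapted` for `D` and the whole group, `tate_of_bases`, `outside_divisible`; the upper left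
entry of the matrices is determined by the determinant.) For a multiplicative prime `p` the subgroup `D` is
given by `GuideCurvesLocal.exists_divisible_subgroup`. Module `H87Ord`.
Closures: S01, S03, S04, S06, S38, S45, S46, S50, S59, S60. -/
theorem ordinary_of_divisible (W : WeierstrassCurve ℚ) (hΔ : W.Δ ≠ 0) (p : ℕ) [Fact p.Prime]
    (h : ∀ P : ValuationSubring Qbar, P.LiesOverPrime p →
      ∃ D : AddSubgroup (W⁄Qbar).Point, (∀ x ∈ D, ∃ y ∈ D, p • y = x) ∧
        (∃ x ∈ D, x ≠ 0 ∧ p • x = 0) ∧ (∃ y : (W⁄Qbar).Point, p • y = 0 ∧ y ∉ D) ∧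
        (∀ σ ∈ P.decompositionSubgroup ℚ, (∀ x ∈ D, σ • x ∈ D) ∧
          ((∀ (n : ℕ) (x : (W⁄Qbar).Point), p ^ n • x = 0 → σ • x - x ∈ D) ∨
            (∀ (n : ℕ) (x : (W⁄Qbar).Point), p ^ n • x = 0 → σ • x + x ∈ D))) ∧
        (∀ σ ∈ P.inertiaSubgroupIn ℚ, ∀ (n : ℕ) (x : (W⁄Qbar).Point),
          p ^ n • x = 0 → σ • x - x ∈ D)) : (tate W hΔ p).IsStrictOrdinaryAt p :=
  H87.Ord.isStrictOrdinaryAt_tate W hΔ p h

/-! ## 6. Extension of coefficients

`ρ.baseChangeAlong φ hφ` is `B ⊗ ρ` for a local homomorphism `φ : A → B`.  In the applications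
`A = ℤ_p`, and `B` is the ring `𝒪` of modularity lifting. -/

/-- **Characteristic polynomials, unramified, unipotent inertia, cyclotomic determinant** are preserved.
Module `H87BC`.
Closures: S01, S03, S04, S06, S38, S45, S46, S50, S59, S60. -/
theorem base_change {A B : Type} [CommRing A] [IsLocalRing A] [CommRing B] [IsLocalRing B]
    (φ : A →+* B) (hφ : IsLocalHom φ) (ρ : GaloisRepAdic A) {p q : ℕ} (hp : p ≠ 0) :
    (∀ σ : GQ, LinearMap.charpoly ((ρ.baseChangeAlong φ hφ).ρ σ) =
      (LinearMap.charpoly (ρ.ρ σ)).map φ) ∧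
    (ρ.IsUnramifiedAt q → (ρ.baseChangeAlong φ hφ).IsUnramifiedAt q) ∧
    (ρ.IsUnipotentOnInertiaAt q → (ρ.baseChangeAlong φ hφ).IsUnipotentOnInertiaAt q) ∧
    (ρ.DetIsCyclotomic p → (ρ.baseChangeAlong φ hφ).DetIsCyclotomic p) :=
  ⟨H87.BC.charpoly_baseChangeAlong φ hφ, H87.BC.isUnramifiedAt_baseChangeAlong φ hφ,
    H87.BC.isUnipotentOnInertiaAt_baseChangeAlong φ hφ,
    H87.BC.detIsCyclotomic_baseChangeAlong φ hφ hp⟩

/-- **Strictly ordinary and flat** are preserved (for flat the residue field of `B` must be finite; let `I`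
be an ideal of finite index of `B` and `J` its preimage in `A`; then a finite flat model for `A/J ⊗ ρ` gives
one for `B/I ⊗ ρ`). Modules `H87Ord`, `H87BC`.
Closures: S01, S03, S04, S06, S38, S45, S46, S50, S59, S60. -/
theorem base_change_at_p {A B : Type} [CommRing A] [IsLocalRing A] [CommRing B] [IsLocalRing B]
    (φ : A →+* B) (hφ : IsLocalHom φ) (ρ : GaloisRepAdic A) {p : ℕ} [Fact p.Prime] :
    (ρ.IsStrictOrdinaryAt p → (ρ.baseChangeAlong φ hφ).IsStrictOrdinaryAt p) ∧
    (Finite (IsLocalRing.ResidueField B) → ρ.IsFlatAt p → (ρ.baseChangeAlong φ hφ).IsFlatAt p) :=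
  ⟨H87.Ord.isStrictOrdinaryAt_baseChangeAlong φ hφ, H87.BC.isFlatAt_baseChangeAlong φ hφ⟩

/-! ## 7. Complex conjugation and absolute irreducibility

`K` is an algebraically closed field in which `2 ≠ 0`, `c` an automorphism of `K` with `c² = 1`, `c ≠ 1`
(`c γ ≠ γ`), and `K₀` the field of its fixed points (`c x = x`). -/

/-- **`-1` is not a square in `K₀`.** (If `x² = -1`, `x ∈ K₀`, let `α = γ - c γ`, so `c α = -α`, and
`β² = α`; then `N = β c(β)` is in `K₀` and `N² = -α² = (x α)²`, but `± x α` is not in `K₀`.) Module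
`H87Invol`.
Closures: S01, S03, S04, S06, S38-S41, S43-S47, S50, S56, S58-S60. -/
theorem neg_one_not_square {K : Type*} [Field K] [IsAlgClosed K] (h2 : (2 : K) ≠ 0) (c : K ≃+* K)
    (hc : ∀ x, c (c x) = x) {γ : K} (hγ : c γ ≠ γ) {x : K} (hx : c x = x) : x * x ≠ -1 :=
  H87.Invol.neg_one_not_sq h2 c hc hγ hx

/-- **A sum of squares of `K₀` is a square of `K₀`**: `x² + y² = N(x + i y) = N(β)²` for `β² = x + i y`,
where `N(z) = z c(z)` (`c i = -i` by `neg_one_not_square`). Module `H87Invol`.
Closures: S01, S03, S04, S06, S38-S41, S43-S47, S50, S56, S58-S60. -/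
theorem sum_of_squares {K : Type*} [Field K] [IsAlgClosed K] (h2 : (2 : K) ≠ 0) (c : K ≃+* K)
    (hc : ∀ x, c (c x) = x) {γ : K} (hγ : c γ ≠ γ) {ι : Type*} (s : Finset ι) (f : ι → K)
    (hf : ∀ i ∈ s, c (f i) = f i) : ∃ z, c z = z ∧ ∑ i ∈ s, f i ^ 2 = z ^ 2 :=
  H87.Invol.exists_sum_sq h2 c hc hγ s f hf

/-- **`K₀` has no root of unity `ζ ≠ 1` of odd order**: in `-1 = ζ + ζ² + … + ζ^(2m)` the right hand side
would be a sum of squares of `K₀`, the order being odd. Hence `GuideCurvesTate.fixed_rootOfUnity` and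
`involution_rootOfUnity`. Module `H87Invol`.
Closures: S01, S03, S04, S06, S38-S41, S43-S47, S50, S56, S58-S60. -/
theorem rootOfUnity_odd {K : Type*} [Field K] [IsAlgClosed K] (h2 : (2 : K) ≠ 0) (c : K ≃+* K)
    (hc : ∀ x, c (c x) = x) {γ : K} (hγ : c γ ≠ γ) {n : ℕ} (hn : Odd n) {ζ : K} (hζ : ζ ^ n = 1)
    (hcζ : c ζ = ζ) : ζ = 1 :=
  H87.Invol.eq_one_of_odd h2 c hc hγ hn hζ hcζ

/-- **The cyclotomic character of an involution is `-1`**; and the complex conjugation of the Prelude (the
restriction of complex conjugation along an embedding `Q̄ → ℂ`, so an involution) is not the identity.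
Modules `H87Invol`, `H87Res`.
Closures: S01, S03, S04, S06, S38-S41, S43-S47, S50, S56, S58-S60. -/
theorem cyclotomic_involution {c : GQ} (hc : c * c = 1) (hc1 : c ≠ 1) {n : ℕ} [NeZero n]
    (hn : Nat.card (rootsOfUnity n Qbar) = n) :
    modularCyclotomicCharacter Qbar hn (c : Qbar ≃+* Qbar) = -1 ∧ complexConjugation ≠ 1 :=
  ⟨H87.Res.cyclotomic_involution hc hc1 hn, H87.Res.complexConjugation_ne_one⟩

/-- **Stable subspaces over an extension field**: `V` is a plane over a field `k` in which `2 ≠ 0`, `ρ` a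
family of endomorphisms without stable line, one of them an involution with determinant `-1`. Then `k' ⊗ V`
has no stable line for every extension `k'` of `k`. (Let `e₀, e₁` be the eigenvectors of the involution in
`V`. A stable `W ≠ 0` contains a `w ≠ 0`, hence `w ± c w`, hence `e₀` or `e₁`; since `e_i` does not span a
stable line of `V`, some `ρ σ` maps it out of this line, so `W` contains both.) Module `H87AbsIrr`.
Closures: S01, S03, S04, S06, S38-S40, S43-S46, S50, S58-S60. -/
theorem stable_extension {k k' V G : Type*} [Field k] [Field k'] [Algebra k k'] [AddCommGroup V]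
    [Module k V] (h2 : (2 : k) ≠ 0) (hV : Module.finrank k V = 2) (ρ : G → Module.End k V)
    (hirr : ∀ W : Submodule k V, (∀ σ, ∀ x ∈ W, ρ σ x ∈ W) → W = ⊥ ∨ W = ⊤) (c : G)
    (hC : ρ c * ρ c = 1) (hdet : LinearMap.det (ρ c) = -1) (W : Submodule k' (TensorProduct k k' V))
    (hW : ∀ σ, ∀ x ∈ W, (ρ σ).baseChange k' x ∈ W) : W = ⊥ ∨ W = ⊤ :=
  H87.AbsIrr.stable_baseChange h2 hV ρ hirr c hC hdet W hW

/-! ## 8. Comparison with the representation of a newform

`W` is an equation over `ℤ`, `O` a complete local ring with `p` in its maximal ideal, and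
`H87.S58.tO W hΔ hO` is `O ⊗ T_p W`.  S58 says that a semistable curve which is modular of some level is
modular of level the product of its bad primes.  Its proof (`GuideLifting`, section 5) compares the
representation of a newform `g` with `O ⊗ T_p W`; here are the tools. -/

/-- **The coefficients of a newform in a complete ring**: for a homomorphism `χ` from a Hecke algebra to `ℂ`
and a prime `p` there are a complete discrete valuation ring `O` of characteristic zero with finite residue
field and `p` in its maximal ideal, and an injective homomorphism from the image of `χ` to `O`. (The image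
lies in the ring of integers of a number field, because the Hecke algebra is finite over `ℤ`.) Module
`H87S58`.
Closures: S01, S03, S04, S06, S38, S45, S46, S50, S58-S60. -/
theorem coefficients_embed {M : ℕ} [NeZero M] {S : Set ℕ} (χ : CuspForm.heckeAlgebra M 2 S →+* ℂ)
    {p : ℕ} (hp : p.Prime) :
    ∃ (O : Type) (_ : CommRing O) (_ : IsDomain O) (_ : IsDiscreteValuationRing O)
      (_ : IsAdicComplete (IsLocalRing.maximalIdeal O) O) (_ : Finite (IsLocalRing.ResidueField O))
      (_ : CharZero O) (iota : χ.range →+* O), (p : O) ∈ IsLocalRing.maximalIdeal O ∧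
        Function.Injective iota :=
  H87.S58.exists_iota χ hp

/-- **Equal Frobenius polynomials imply equal characteristic polynomials**: if almost all Frobenius elements
act on `ρ` with the characteristic polynomial `X² - a_ℓ(W) X + ℓ`, then all `σ` have the same characteristic
polynomial on `ρ` and on `O ⊗ T_p W` (density theorem of Frobenius, `GuideGalois`). Module `H87S58`.
Closures: S01, S03, S04, S06, S38, S45, S46, S50, S58-S60. -/
theorem same_charpoly (W : WeierstrassCurve ℤ) (hΔ : W.Δ ≠ 0) {p : ℕ} [Fact p.Prime] {O : Type}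
    [CommRing O] [IsLocalRing O] [IsAdicComplete (IsLocalRing.maximalIdeal O) O]
    (hO : (p : O) ∈ IsLocalRing.maximalIdeal O) {S : Finset ℕ} {ρ : GaloisRepAdic O}
    (h : ∀ ℓ : ℕ, ℓ.Prime → ℓ ∉ S → ℓ ≠ p → W.IsGoodPrimeFor ℓ →
      ∀ A : ValuationSubring Qbar, A.LiesOverPrime ℓ → ∀ σ : GQ, A.IsFrobeniusAt σ ℓ →
        LinearMap.charpoly (ρ.ρ σ) = X ^ 2 - C (W.apOfModel ℓ : O) * X + C (ℓ : O)) (σ : GQ) :
    (ρ.ρ σ).charpoly = ((H87.S58.tO W hΔ hO).ρ σ).charpoly :=
  H87.S58.charpoly_eq_tO hΔ hO h σ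

/-- **The residual representation of such a `ρ`** is absolutely irreducible and odd if `p` is odd and `W[p]`
irreducible: it has the same characteristic polynomials as `W[p]`, which is absolutely irreducible by
`stable_extension`. Module `H87S58`.
Closures: S58. -/
theorem residual_of_same_charpoly (W : WeierstrassCurve ℤ) (hΔ : W.Δ ≠ 0) {p : ℕ} [Fact p.Prime]
    {O : Type} [CommRing O] [IsLocalRing O] [IsAdicComplete (IsLocalRing.maximalIdeal O) O]
    (hO : (p : O) ∈ IsLocalRing.maximalIdeal O) (hp2 : p ≠ 2) (hirr : W.ModRepIsIrreducible p)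
    {S : Finset ℕ} {ρ : GaloisRepAdic O}
    (h : ∀ ℓ : ℕ, ℓ.Prime → ℓ ∉ S → ℓ ≠ p → W.IsGoodPrimeFor ℓ →
      ∀ A : ValuationSubring Qbar, A.LiesOverPrime ℓ → ∀ σ : GQ, A.IsFrobeniusAt σ ℓ →
        LinearMap.charpoly (ρ.ρ σ) = X ^ 2 - C (W.apOfModel ℓ : O) * X + C (ℓ : O)) :
    ρ.residual.IsAbsolutelyIrreducible ∧ ρ.residual.IsOdd :=
  H87.S58.residual_of_frobAt hΔ hO hp2 hirr h

/-- **`a_q² ≠ (q + 1)²` at a good prime `q`**, because `a_q² ≤ 4 q` (`GuideCurves.hasse_inequality`). At a
prime which divides the level of `g` exactly once, a Frobenius element has the trace `± (q + 1)` on the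
representation of `g` (S35); so such a prime is a bad prime of `W`. Module `H87S58`.
Closures: S01, S03, S04, S06, S38, S45, S46, S50, S58-S60. -/
theorem trace_ne_good_prime {W : WeierstrassCurve ℤ} {q : ℕ} (hq : q.Prime)
    (hgood : ¬ (q : ℤ) ∣ W.Δ) : W.apOfModel q ^ 2 ≠ ((q : ℤ) + 1) ^ 2 :=
  H87.S58.ap_ne_add_one hq hgood

end Fermat.Agent.Guide.TateModule
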