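import Fermat.Agent.H53Selmer

set_option autoImplicit false
set_option maxSynthPendingDepth 3
set_option linter.style.haveILetI false
set_option linter.unusedSectionVars false

/-!
# Counting the Selmer group: coboundary conditions with weights
-/

noncomputable section

open IsLocalRing Module ExtCitation Polynomial
open Fermat.Agent.H55 Fermat.Agent.H56

namespace Fermat.Agent.H53

variable {p : ℕ} [Fact p.Prime] {k : Type} [Field k] [Finite k] [Algebra (ZMod p) k]

/-- **Selmer groups over Taylor-Wiles primes**, with a set `T` of primes where the classes are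
required to be coboundaries. -/
theorem selmer_bound_gen (hp2 : p ≠ 2) (GW : GWIneq p) (ρbar : ResidualGaloisRep k)
    (habs : ρbar.IsAbsolutelyIrreducible)
    (hdet : (GaloisRepAdic.ofResidualGaloisRep ρbar).DetIsCyclotomic p)
    (hsplit : ∀ σ : AlgebraicClosure ℚ ≃ₐ[ℚ] AlgebraicClosure ℚ,
      ∃ α β : k, LinearMap.charpoly (ρbar.ρ σ) = (X - C α) * (X - C β))
    (hTW : ∀ (K : Type) [Field K] [Algebra k K]
      (G : Subgroup (AlgebraicClosure ℚ ≃ₐ[ℚ] AlgebraicClosure ℚ)), G.index = 2 →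
      ∀ V : Submodule K (ρbar.baseChange K).V,
        (∀ σ ∈ G, ∀ x ∈ V, (ρbar.baseChange K).ρ σ x ∈ V) → V = ⊥ ∨ V = ⊤)
    (b : Module.Basis (Fin 2) k ρbar.V) {r : H91.GQ →* M2 k}
    (hr : ∀ σ, r σ = LinearMap.toMatrix b b (ρbar.ρ σ)) (hrdet : DetCyc p r) (hfl : FinLev r)
    (A T : Finset Nat.Primes) (hpT : pPrime p ∉ T)
    (hAram : ∀ q ∈ A, ∃ σ ∈ Iq q, r σ ≠ 1)
    (hAunip : ∀ q ∈ A, ∀ σ ∈ Iq q, (r σ).charpoly = (X - 1) ^ 2)
    (hur : ∀ q, q ∉ A → q ≠ pPrime p → ∀ σ ∈ Iq q, r σ = 1)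
    (w : Nat.Primes → ℕ)
    (hT : ∀ t ∈ T, finrank (ZMod p) (B1 (rhoD (ad p r) t)) + w t * finrank (ZMod p) k ≤
      3 * finrank (ZMod p) k)
    (Condp : (H91.GQ →* M2 (DualNumber k)) → Prop) (Np : ℕ) (hNp : 1 ≤ Np)
    (hp : LocalBound p r (pPrime p) Np Condp) :
    ∃ s : ℕ, ∀ d, s ≤ d → ∀ (n : ℕ) (S : Finset ℕ), ∃ qv : Fin d → Nat.Primes,
      Function.Injective qv ∧
      (∀ i, ((qv i : Nat.Primes) : ℕ) ∉ S ∧ p ^ (n + 1) ∣ ((qv i : Nat.Primes) : ℕ) - 1) ∧
      (∀ i, qv i ∉ A ∧ qv i ∉ T ∧ qv i ≠ pPrime p) ∧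
      (∀ i, ρbar.IsUnramifiedAt (qv i)) ∧
      (∀ i, ∀ P : ValuationSubring (AlgebraicClosure ℚ), P.LiesOverPrime (qv i) →
        ∀ φ : AlgebraicClosure ℚ ≃ₐ[ℚ] AlgebraicClosure ℚ, P.IsFrobeniusAt φ (qv i) →
          LinearMap.det (ρbar.ρ φ) = 1 ∧
          ∃ α β : k, α ≠ β ∧ LinearMap.charpoly (ρbar.ρ φ) = (X - C α) * (X - C β)) ∧
      ∃ Z : Set (H91.GQ → M2 k), Z.Finite ∧
        Z.ncard ≤ Nat.card k ^ (d + (Np - 1) - ∑ t ∈ T, w t) ∧
        (∀ c ∈ Z, ∀ X : M2 k, X.trace = 0 → c + cob r X ∈ Z) ∧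
        ∀ R : H91.GQ →* M2 (DualNumber k), GoodLift r R → Condp R →
          (∀ q ∈ A, ∀ σ ∈ Iq q, (R σ).charpoly = (X - 1) ^ 2) →
          (∀ q, q ∉ A → q ∉ T → q ≠ pPrime p → (∀ i, q ≠ qv i) → ∀ σ ∈ Iq q, R σ = 1) →
          (∀ t ∈ T, ∃ X : M2 k, X.trace = 0 ∧ ∀ σ ∈ Dq t, coc R σ = cob r X σ) →
            coc R ∈ Z := by
  classical
  have hfk : Module.Finite (ZMod p) k := Module.Finite.of_finite
  obtain ⟨S₁, perp, hperp, hGW⟩ := GW (SL p k) (ad p r) (H28.smooth_ad hfl)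
  set f := finrank (ZMod p) k with hf
  have hM : finrank (ZMod p) (SL p k) = 3 * f := H51Dual.finrank_SL p k
  let S₀ : Finset Nat.Primes := S₁ ∪ A ∪ T ∪ {pPrime p}
  have hS₁ : S₁ ⊆ S₀ := fun q hq => by simp [S₀, hq]
  have hAS : A ⊆ S₀ := fun q hq => by simp [S₀, hq]
  have hTS : T ⊆ S₀ := fun q hq => by simp [S₀, hq]
  have hpS : pPrime p ∈ S₀ := by simp [S₀]
  have hurS : ∀ q, q ∉ S₀ → ∀ σ ∈ Iq q, r σ = 1 := by
    intro q hq
    refine hur q (fun h => hq (hAS h)) fun h => ?_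
    rw [h] at hq
    exact hq hpS
  -- local conditions
  have hL : ∀ q, LocalBound p r q (if q = pPrime p then Np else 3) (fun R =>
      if q = pPrime p then Condp R else
        if q ∈ A then (∀ σ ∈ Iq q, (R σ).charpoly = (X - 1) ^ 2) else ∀ σ ∈ Iq q, R σ = 1) := by
    intro q
    by_cases h1 : q = pPrime p
    · subst h1
      simpa using hp
    · have hqp : (q : ℕ) ≠ p := fun h => h1 (Subtype.ext h)
      simp only [h1, if_false]
      by_cases h2 : q ∈ A
      · simp only [h2, if_true]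
        exact H61.S56S.statementS hp2 r hfl q hqp (hAram q h2) (hAunip q h2)
      · simp only [h2, if_false]
        exact H28.statementU p r hfl q (hur q h2 h1)
  choose L hLB hLZ hLfin hLcard hLmem using hL
  -- the dual classes to be killed
  obtain ⟨-, hfinD, -⟩ := hGW S₀ hS₁
  haveI hfinSL : Finite (SL p k) := inferInstance
  haveI : NeZero p := ⟨(Fact.out : p.Prime).ne_zero⟩
  haveI hfinDual : Finite (Module.Dual (ZMod p) (SL p k)) :=
    Finite.of_injective (fun g : Module.Dual (ZMod p) (SL p k) => (g : SL p k → ZMod p))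
      DFunLike.coe_injective
  set ρd := dtw (cycloChar p) (ad p r) with hρd
  let D : Set (H91.GQ → Module.Dual (ZMod p) (SL p k)) := {c | c ∈ Z1 (ramLevels S₀) ρd}
  have hDfin : D.Finite := by
    have : Finite (Z1 (ramLevels S₀) ρd) := Module.finite_of_finite (ZMod p)
    exact this
  obtain ⟨s, hs⟩ := H6.kill_dtw p hp2 ρbar habs hdet hsplit hTW b hr hrdet
    D hDfin (fun c hc => H51Dual.Z1_ramLevels_le_krull S₀ hc)
  refine ⟨max s (∑ t ∈ T, w t), fun d hd n S => ?_⟩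
  obtain ⟨qv, hinj, hqS, hqur, hqF, hkill⟩ := hs d (le_trans (le_max_left _ _) hd) n
    (S ∪ S₀.image (fun q : Nat.Primes => (q : ℕ)))
  have hqS₀ : ∀ i, qv i ∉ S₀ := fun i hi => (hqS i).1
    (Finset.mem_union_right _ (Finset.mem_image_of_mem _ hi))
  have hqA : ∀ i, qv i ∉ A ∧ qv i ∉ T ∧ qv i ≠ pPrime p := fun i =>
    ⟨fun h => hqS₀ i (hAS h), fun h => hqS₀ i (hTS h), fun h => hqS₀ i (by rw [h]; exact hpS)⟩
  refine ⟨qv, hinj, fun i => ⟨fun h => (hqS i).1 (Finset.mem_union_left _ h), (hqS i).2⟩, hqA,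
    hqur, hqF, ?_⟩
  -- the Taylor-Wiles primes
  let Q : Finset Nat.Primes := Finset.univ.image qv
  have hQ : ∀ q, q ∈ Q ↔ ∃ i, qv i = q := fun q => by simp [Q]
  have hQcard : Q.card = d := by
    rw [Finset.card_image_of_injective _ hinj, Finset.card_univ, Fintype.card_fin]
  have hdisj : Disjoint S₀ Q := by
    rw [Finset.disjoint_right]
    intro q hq
    obtain ⟨i, rfl⟩ := (hQ q).mp hq
    exact hqS₀ i
  have hTWloc : ∀ q ∈ Q, Finite (Z1 (Dlev q) (rhoD (ad p r) q)) ∧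
      Nat.card (Z1 (Dlev q) (rhoD (ad p r) q)) ≤ Nat.card k ^ 4 := by
    intro q hq
    obtain ⟨i, rfl⟩ := (hQ q).mp hq
    have hqp : ((qv i : Nat.Primes) : ℕ) ≠ p := fun h => (hqA i).2.2 (Subtype.ext h)
    refine H28.statementT p r hfl (qv i) hqp ?_ (hur _ (hqA i).1 (hqA i).2.2) ?_
    · exact dvd_trans (dvd_pow_self p (Nat.succ_ne_zero n)) (hqS i).2
    · obtain ⟨φ, hφ⟩ := H54.exists_isFrobeniusAt (qv i).2 (H28.primeLocalPlace_liesOver (qv i))
      obtain ⟨-, α, β, hαβ, hch⟩ := hqF i _ (H28.primeLocalPlace_liesOver (qv i)) φ hφ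
      refine ⟨φ, hφ, α, β, hαβ, ?_⟩
      rw [hr, LinearMap.charpoly_toMatrix]
      exact hch
  let L' : ∀ q : Nat.Primes, Submodule (ZMod p) (Dq q → SL p k) := fun q =>
    if q ∈ T then B1 (rhoD (ad p r) q) else if q ∈ Q then Z1 (Dlev q) (rhoD (ad p r) q) else L q
  have hL'T : ∀ q ∈ T, L' q = B1 (rhoD (ad p r) q) := fun q hq => by simp only [L', hq, if_true]
  have hL'Q : ∀ q ∈ Q, L' q = Z1 (Dlev q) (rhoD (ad p r) q) := fun q hq => by
    have : q ∉ T := by
      obtain ⟨i, rfl⟩ := (hQ q).mp hq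
      exact (hqA i).2.1
    simp only [L', this, hq, if_true, if_false]
  have hL'o : ∀ q, q ∉ T → q ∉ Q → L' q = L q := fun q h1 h2 => by
    simp only [L', h1, h2, if_false]
  have hL'fin : ∀ q, Finite (L' q) := by
    intro q
    by_cases h1 : q ∈ T
    · rw [hL'T q h1]
      exact Finite.of_surjective (fun a : SL p k => (⟨d0 (rhoD (ad p r) q) a, a, rfl⟩ :
        B1 (rhoD (ad p r) q))) (by rintro ⟨_, a, rfl⟩; exact ⟨a, rfl⟩)
    · by_cases h2 : q ∈ Q
      · rw [hL'Q q h2]; exact (hTWloc q h2).1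
      · rw [hL'o q h1 h2]; exact hLfin q
  have hL'B : ∀ q, B1 (rhoD (ad p r) q) ≤ L' q ∧ L' q ≤ Z1 (Dlev q) (rhoD (ad p r) q) := by
    intro q
    by_cases h1 : q ∈ T
    · rw [hL'T q h1]
      exact ⟨le_rfl, H28.B1_le_Z1 hfl q⟩
    · by_cases h2 : q ∈ Q
      · rw [hL'Q q h2]; exact ⟨H28.B1_le_Z1 hfl q, le_rfl⟩
      · rw [hL'o q h1 h2]; exact ⟨hLB q, hLZ q⟩
  set S' := S₀ ∪ Q with hS'
  have hS₀S' : S₀ ⊆ S' := Finset.subset_union_left
  obtain ⟨hfin1, hfin2, hineq⟩ := hGW S' (hS₁.trans hS₀S')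
  have hineq' := hineq L' (fun q _ => ⟨(hL'B q).1, (hL'B q).2, by
    haveI := hL'fin q
    exact Module.Finite.of_finite⟩)
  -- the dual Selmer group consists of coboundaries
  have hdual : SelZ S' ρd (fun q => perp q (L' q)) ≤ B1 ρd := by
    intro c hc
    rw [mem_SelZ] at hc
    obtain ⟨hc1, hc2⟩ := hc
    have hres : ∀ q ∈ Q, resD p _ q c ∈ B1 (rhoD ρd q) := by
      intro q hq
      have h1 := hc2 q (Finset.mem_union_right _ hq)
      rw [hL'Q q hq] at h1
      exact hperp q h1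
    have hcS : c ∈ Z1 (ramLevels S₀) ρd := by
      refine H51Dual.mem_Z1_ramLevels (H51Dual.smooth_dtw_ad hfl) S₀ S' ?_ hc1 ?_
      · intro q hq σ hσ
        refine H51Dual.dtw_ad_eq_one ?_ hσ (hurS q hq σ hσ)
        intro h
        apply hq
        have : q = pPrime p := Subtype.ext h
        rw [this]; exact hpS
      · intro q hq hqS
        exact hres q ((Finset.mem_union.mp hq).resolve_left hqS)
    exact hkill c hcS fun i => hres _ ((hQ _).mpr ⟨i, rfl⟩)
  have hdual2 : finrank (ZMod p) (SelZ S' ρd (fun q => perp q (L' q))) ≤ 3 * f := by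
    haveI : Module.Finite (ZMod p) (B1 ρd) := by
      haveI : Finite (B1 ρd) := Finite.of_surjective (fun a => (⟨d0 ρd a, a, rfl⟩ : B1 ρd))
        (by rintro ⟨_, a, rfl⟩; exact ⟨a, rfl⟩)
      exact Module.Finite.of_finite
    refine (Submodule.finrank_mono hdual).trans ?_
    refine (LinearMap.finrank_range_le (d0 ρd)).trans ?_
    rw [Subspace.dual_finrank_eq, hM]
  -- the local terms
  have hsumS : ∑ q ∈ S₀, finrank (ZMod p) (L' q) + (∑ t ∈ T, w t) * f + 3 * f ≤
      3 * f * S₀.card + Np * f := by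
    have h1 : ∀ q ∈ S₀, finrank (ZMod p) (L' q) + (if q ∈ T then w q * f else 0) +
        (if q = pPrime p then 3 * f else 0) ≤ 3 * f + (if q = pPrime p then Np * f else 0) := by
      intro q hq
      by_cases h1 : q ∈ T
      · have h2 : q ≠ pPrime p := fun h => hpT (h ▸ h1)
        rw [hL'T q h1]
        simp only [h1, if_true, h2, if_false, add_zero]
        exact hT q h1
      · have h3 : q ∉ Q := Finset.disjoint_left.mp hdisj hq
        rw [hL'o q h1 h3]
        simp only [h1, if_false, add_zero]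
        haveI := hLfin q
        have h4 := finrank_le_of_card_le (p := p) (L q) (hLcard q)
        rw [← hf] at h4
        by_cases h2 : q = pPrime p
        · simp only [h2, if_true] at h4 ⊢
          omega
        · simp only [h2, if_false, add_zero] at h4 ⊢
          exact h4
    have h2 := Finset.sum_le_sum h1
    rw [Finset.sum_add_distrib, Finset.sum_add_distrib, Finset.sum_add_distrib, Finset.sum_const,
      smul_eq_mul, Finset.sum_ite_eq', if_pos hpS, Finset.sum_ite_eq', if_pos hpS,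
      ← Finset.sum_filter] at h2
    have h3 : S₀.filter (fun q => q ∈ T) = T := by
      ext q
      rw [Finset.mem_filter]
      exact ⟨fun h => h.2, fun h => ⟨hTS h, h⟩⟩
    rw [h3, ← Finset.sum_mul] at h2
    calc _ = _ := rfl
      _ ≤ _ := h2
      _ = _ := by ring
  have hsumQ : ∑ q ∈ Q, finrank (ZMod p) (L' q) ≤ 4 * f * d := by
    have h1 : ∀ q ∈ Q, finrank (ZMod p) (L' q) ≤ 4 * f := by
      intro q hq
      haveI := (hTWloc q hq).1
      have h2 := finrank_le_of_card_le (p := p) (Z1 (Dlev q) (rhoD (ad p r) q)) (hTWloc q hq).2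
      rw [hL'Q q hq]
      exact h2
    refine (Finset.sum_le_card_nsmul Q _ _ h1).trans ?_
    rw [hQcard, smul_eq_mul, mul_comm]
  have hsum : ∑ q ∈ S', finrank (ZMod p) (L' q) =
      ∑ q ∈ S₀, finrank (ZMod p) (L' q) + ∑ q ∈ Q, finrank (ZMod p) (L' q) :=
    Finset.sum_union hdisj
  have hcardS : S'.card = S₀.card + d := by
    rw [hS', Finset.card_union_of_disjoint hdisj, hQcard]
  have hreal : finrank (ZMod p) (realInv ρd) = 2 * f := H51Dual.finrank_realInv hp2 hrdet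
  have hfinal : finrank (ZMod p) (SelZ S' (ad p r) L') + (∑ t ∈ T, w t) * f + f ≤
      f * d + Np * f := by
    rw [hsum, hcardS, hreal, hM] at hineq'
    have e1 : (S₀.card + d + 1) * (3 * f) = 3 * f * S₀.card + 3 * (f * d) + 3 * f := by ring
    have e2 : 4 * f * d = 4 * (f * d) := by ring
    rw [e1] at hineq'
    rw [e2] at hsumQ
    omega
  -- the Selmer group is finite
  haveI hSelfin : Finite (SelZ S' (ad p r) L') := by
    haveI : Finite (Z1 (ramLevels S') (ad p r)) := Module.finite_of_finite (ZMod p)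
    exact Finite.of_injective (fun c : SelZ S' (ad p r) L' =>
      (⟨c.1, (mem_SelZ.mp c.2).1⟩ : Z1 (ramLevels S') (ad p r)))
      fun c c' h => Subtype.ext (congrArg (fun x : Z1 (ramLevels S') (ad p r) => x.1) h)
  have h3T : ∑ t ∈ T, w t ≤ d := le_trans (le_max_right _ _) hd
  let F : SelZ S' (ad p r) L' → (H91.GQ → M2 k) := fun c σ => (c.1 σ : M2 k)
  refine ⟨Set.range F, Set.finite_range F, ?_, ?_, ?_⟩
  · have h1 : (Set.range F).ncard ≤ Nat.card (SelZ S' (ad p r) L') := by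
      rw [← Set.image_univ]
      refine (Set.ncard_image_le Set.finite_univ).trans ?_
      rw [Set.ncard_univ]
    refine h1.trans ?_
    rw [card_eq_pow_finrank' (p := p) (SelZ S' (ad p r) L'), card_eq_pow_finrank' (p := p) k,
      ← pow_mul]
    refine Nat.pow_le_pow_right (Fact.out : p.Prime).pos ?_
    rw [← hf]
    obtain ⟨e, he⟩ := Nat.exists_eq_add_of_le h3T
    obtain ⟨N', rfl⟩ := Nat.exists_eq_add_of_le hNp
    have h2 : d + (1 + N' - 1) - ∑ t ∈ T, w t = e + N' := by omega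
    rw [h2]
    rw [he] at hfinal
    have h4 : f * (∑ t ∈ T, w t + e) + (1 + N') * f = (∑ t ∈ T, w t) * f + f + f * (e + N') := by
      ring
    omega
  · rintro _ ⟨c, rfl⟩ Y hY
    have hd0 : d0 (ad p r) ⟨Y, hY⟩ ∈ SelZ S' (ad p r) L' := by
      rw [mem_SelZ]
      refine ⟨(H51Dual.smooth_ad_ram hfl S' fun q hq =>
        hurS q fun h => hq (hS₀S' h)).d0_mem_Z1 _, fun q _ => (hL'B q).1 ⟨⟨Y, hY⟩, rfl⟩⟩
    exact ⟨c + ⟨_, hd0⟩, rfl⟩
  · intro R hR hCp hCA hCu hCT
    let c : H91.GQ → SL p k := fun σ => ⟨coc R σ, trace_coc hR σ⟩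
    have hc : ∀ σ, (c σ : M2 k) = coc R σ := fun σ => rfl
    have hcur : ∀ q, q ∉ S' → ∀ σ ∈ Iq q, c σ = 0 := by
      intro q hq σ hσ
      have h1 : q ∉ S₀ := fun h => hq (hS₀S' h)
      have h2 : ∀ i, q ≠ qv i := fun i h => hq (Finset.mem_union_right _ ((hQ q).mpr ⟨i, h.symm⟩))
      have h3 : R σ = 1 := hCu q (fun h => h1 (hAS h)) (fun h => h1 (hTS h))
        (fun h => h1 (h ▸ hpS)) h2 σ hσ
      ext1
      rw [hc, coc, h3, sndM_one, zero_mul]
      rfl
    refine ⟨⟨c, mem_SelZ.mpr ⟨?_, ?_⟩⟩, rfl⟩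
    · refine H51Dual.mem_Z1_ramLevels_of_inertia (H28.smooth_ad hfl) S' ?_
        (coc_mem_Z1_krull hR hc) hcur
      intro q hq σ hσ
      exact H51Dual.ad_eq_one (hurS q (fun h => hq (hS₀S' h)) σ hσ)
    · intro q hq
      by_cases h1 : q ∈ T
      · rw [hL'T q h1]
        obtain ⟨X, hX, hXc⟩ := hCT q h1
        refine ⟨⟨X, hX⟩, ?_⟩
        funext σ
        ext1
        exact (hXc σ σ.2).symm
      · by_cases h2 : q ∈ Q
        · rw [hL'Q q h2]
          exact H28.coc_mem_Z1 hR (c := resD p _ q c) fun σ => rfl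
        · rw [hL'o q h1 h2]
          refine hLmem q R hR ?_ _ fun σ => rfl
          by_cases h3 : q = pPrime p
          · simp only [h3, if_true]
            exact hCp
          · simp only [h3, if_false]
            by_cases h4 : q ∈ A
            · simp only [h4, if_true]
              exact hCA q h4
            · simp only [h4, if_false]
              exact hCu q h4 h1 h3 fun i h => h2 ((hQ q).mpr ⟨i, h.symm⟩)

end Fermat.Agent.H53
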