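import Fermat.Agent.S56
import Fermat.Agent.H53SelmerB
import Fermat.Agent.H53Gen4
import Fermat.Agent.H53Level

/-!
# Guide to the proof: Taylor-Wiles primes, Selmer groups and presentations (S56)

This file is a machine-checked table of contents. Every theorem below is a citation of a theorem of
the library, with its statement written out. Nothing imports this file.

**What the block proves.** S56: let `ρbar` be absolutely irreducible over a finite field `k` of odd
characteristic `p`, with cyclotomic determinant and eigenvalues in `k`, and still absolutely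
irreducible over every subgroup of index two. There is an `r` such that for every `n` there are `r`
primes `q_i ≡ 1` modulo `p^(n+1)`, at which Frobenius has distinct eigenvalues, such that the
universal ring for deformations (strictly ordinary or flat at `p`, unipotent where `ρbar` is ramified)
in which ramification at the `q_i` is allowed is a quotient of the power series ring
`O[[X_1, ..., X_r]]`: as many variables as primes. The same method with other local conditions gives
the Galois side of S43 (`selmer_bound`, `presentation_with_tame_matrices`) and of S59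
(`selmer_bound_weights`, `presentation_with_marks`), hence of S01; the statement S56 itself is used in
no other statement.

**The steps.**
 1. Cohomology of the image of `ρbar` with values in `ad⁰(1)`: it vanishes. The classical proof uses
   Dickson's list of the subgroups of `GL₂(k)`; here one counts pairs (element, fixed point on the
   projective line).
 2. Primes: a cocycle with values in `ad⁰(1)` which is not a coboundary is nontrivial at a Galois
   element fixing the `p^(n+1)`-st roots of unity, with distinct eigenvalues; by Frobenius density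
   there is a prime at which it is nontrivial. Finitely many such primes kill the dual Selmer group.
 3. Selmer groups: the inequality of Greenberg and Wiles (`GuideEulerChar`) with the local bounds of
   `GuideLocalBounds` and `GuideFlatBound` (3 at ramified primes, 4 at `p` and at Taylor-Wiles primes)
   bounds the Selmer group by `#k^r`, since the dual term vanishes. All numbers are orders of finite
   sets of cocycles.
 4. Presentations: generators of a complete local ring are counted by homomorphisms to the dual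
   numbers, and these by cocycles.

Only an upper bound for the number of generators is needed, therefore only the inequality in 3.

**The steps of the proofs** are in `GuideTWSteps` (section 1), `GuideTWChoice` (section 2) and
`GuideGaloisPoints` (section 4, in the form relative to an ideal).

**Where.** NOTES.md, Appendix A.10: [296] (overview of S56), [297], [98] NOTES-S56-TWPRIMES; Appendix
A.7: [244] NOTES-MODLIFT-S43; A.11: [247]. Sections 1-3 are also used in S43, S59 and through them in S01,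
S03, S04, S06, S38, S45, S46, S50, S60 (of the two bounds `selmer_bound` serves S56 and S43,
`selmer_bound_weights` serves S59; S47 uses only `exists_prime_with_frobenius`); `generators_of_count`,
`quotient_of_power_series`, `presentation_by_counting` and section 5 only in S56. Authors: helpers 6, 56,
53, 28, 51.
-/

set_option autoImplicit false
set_option maxSynthPendingDepth 3

open scoped Pointwise
open IsLocalRing GaloisRep Module Matrix Polynomial OnePoint ExtCitation
open Fermat.Agent.H53 Fermat.Agent.H55 Fermat.Agent.H56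

namespace Fermat.Agent.Guide.TaylorWiles

/-- The absolute Galois group of the rational numbers. -/
local notation "GQ" => (AlgebraicClosure ℚ ≃ₐ[ℚ] AlgebraicClosure ℚ)

/-! ## 1. The module `ad⁰(1)` and its cohomology -/

/-- **The twisted adjoint action** (`H6TWH1`). For `g ∈ GL₂(k)` the map `H6.ad1 g` sends a `2 × 2` matrix
`X` to `det g • (g X g⁻¹)`. If `g = ρbar(σ)` and `det ρbar` is the cyclotomic character modulo `p`, its
restriction to the matrices of trace zero is the module `ad⁰(ρbar)(1)`. -/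
theorem twistedAdjoint_apply {k : Type*} [Field k] (g : GL (Fin 2) k)
    (X : Matrix (Fin 2) (Fin 2) k) :
    H6.ad1 g X = g.val.det • (g.val * X * (g⁻¹).val) :=
  H6.ad1_apply g X

/-- **Sah's lemma** (`H6TWCoh`). If some central element `z` of `H` acts on the representation `r` by a
scalar `c ≠ 1`, then every cocycle `ψ` is a coboundary: compare `ψ(gz)` and `ψ(zg)`; then
`ψ(g) = r(g)m - m` for `m = (c-1)⁻¹ψ(z)`. -/
theorem cobound_of_central_scalar {k H M : Type*} [Field k] [Group H] [AddCommGroup M] [Module k M]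
    {r : H →* Module.End k M} {ψ : H → M} (hψ : ∀ g h, ψ (g * h) = ψ g + r g (ψ h))
    {z : H} (hz : ∀ g, g * z = z * g) {c : k} (hc : c ≠ 1) (hr : ∀ m, r z m = c • m) :
    ∃ m : M, ∀ g, ψ g = r g m - m :=
  H6.IsCocyc.isCobound_of_central hψ hz hc hr

/-- **Averaging** (`H6TWCoh`). A cocycle which vanishes on a subgroup `K` whose finite index is
invertible in `k` is a coboundary. (Restriction to a Sylow `p`-subgroup is injective on `H^1`; here in
the elementary form with functions.) -/
theorem cobound_of_index {k H M : Type*} [Field k] [Group H] [AddCommGroup M] [Module k M]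
    {r : H →* Module.End k M} {ψ : H → M} (hψ : ∀ g h, ψ (g * h) = ψ g + r g (ψ h))
    (K : Subgroup H) [K.FiniteIndex] (hidx : (K.index : k) ≠ 0) (hK : ∀ h ∈ K, ψ h = 0) :
    ∃ m : M, ∀ g, ψ g = r g m - m :=
  H6.IsCocyc.isCobound_of_index hψ K hidx hK

/-- **The count in `GL₂(k)`** (`H6TWCountGL`; elements and the Borel subgroup: `H6TWGL2`, `H6TWBorel`; the
abstract double counting is in `H6TWCount`). `k` is finite of characteristic `p > 2`, `G` a subgroup whose
elements have their eigenvalues in `k`, which contains a nontrivial matrix `ur b = [1 b; 0 1]` and does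
not fix the point `∞` of the projective line. Let `trans G = {b : ur b ∈ G}` and let `nuHom G` be the
character `g ↦ g₀₀ / g₁₁` of the stabiliser of `∞`. Then `#trans G - 1 ≤ 2 · #(image of nuHom G)`. Proof:
count the pairs (element, fixed point on the projective line); non-scalar elements have one or two fixed
points. -/
theorem count_in_GL2 {k : Type*} [Field k] [DecidableEq k] [Fintype k]
    (G : Subgroup (GL (Fin 2) k)) (p : ℕ) [Fact p.Prime] [CharP k p] (hp2 : p ≠ 2)
    (hsplit : ∀ g ∈ G, ∃ α β : k, (g : GL (Fin 2) k) 0 0 + g 1 1 = α + β ∧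
      (g : GL (Fin 2) k) 0 0 * g 1 1 - g 0 1 * g 1 0 = α * β)
    (hU : ∃ b : k, b ≠ 0 ∧ H6.ur b ∈ G) (hne : ∃ g ∈ G, (g : GL (Fin 2) k) 1 0 ≠ 0) :
    Nat.card (H6.trans G) - 1 ≤ 2 * Nat.card (H6.nuHom G).range :=
  H6.count_GL2 G p hp2 hsplit hU hne

/-- **Numerical consequence** (`H6TWNum`). If in addition `det G` has order `p - 1` (the image of a
representation with cyclotomic determinant) and every scalar matrix in `G` (`H6.IsScal`) has
determinant `1` (otherwise Sah's lemma applies), then `p = 3` and `nuHom G` has the maximal possible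
image, of order `#trans G - 1`. Proof: the count is applied to `G ∩ SL₂(k)`, and `#(stabiliser of ∞)` is
multiplied by `p - 1` in passing to `G`, by the Frattini argument. -/
theorem numerical_consequence {k : Type*} [Field k] [DecidableEq k] [Fintype k]
    (G : Subgroup (GL (Fin 2) k)) (p : ℕ) [Fact p.Prime] [CharP k p] (hp2 : p ≠ 2)
    (hsplit : ∀ g ∈ G, ∃ α β : k, (g : GL (Fin 2) k) 0 0 + g 1 1 = α + β ∧
      (g : GL (Fin 2) k) 0 0 * g 1 1 - g 0 1 * g 1 0 = α * β)
    (hU : ∃ b : k, b ≠ 0 ∧ H6.ur b ∈ G) (hne : ∃ g ∈ G, (g : GL (Fin 2) k) 1 0 ≠ 0)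
    (hdet : Nat.card (G.map (Matrix.GeneralLinearGroup.det (n := Fin 2) (R := k))) = p - 1)
    (hsc : ∀ g ∈ G, H6.IsScal g → g 0 0 * g 1 1 - g 0 1 * g 1 0 = 1) :
    p = 3 ∧ Nat.card (H6.nuHom G).range = Nat.card (H6.trans G) - 1 :=
  H6.num_main G p hp2 hsplit hU hne hdet hsc

/-- **Vanishing of `H^1(H, ad⁰(1))`** (`H6TWH1c`). `k` is finite of characteristic `p > 2`, `H` a group with
a faithful representation `ρ : H → GL₂(k)` with eigenvalues in `k`, whose determinant has an image of
order `p - 1`, without fixed point on the projective line over `k`. Then every cocycle of `H` with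
values in the trace-zero matrices with the twisted adjoint action is a coboundary. Proof: if `p` does
not divide `#H`, average; if some scalar matrix of the image has determinant different from `1`, use
Sah's lemma. Otherwise conjugate a subgroup of order `p` into the upper unipotent matrices; the count
leaves only `p = 3`, where a computation with the entries of the cocycle on the Borel subgroup
finishes (`H6TWH1`, `H6TWH1b`). -/
theorem vanishing_H1_adjoint {k H : Type*} [Field k] [Group H] [DecidableEq k] [Fintype k]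
    (p : ℕ) [Fact p.Prime] [CharP k p] (hp2 : p ≠ 2)
    {ρ : H →* GL (Fin 2) k} (hinj : Function.Injective ρ)
    (hsplit : ∀ h, ∃ α β : k, (ρ h).val.trace = α + β ∧ (ρ h).val.det = α * β)
    (hdet : Nat.card
      ((Matrix.GeneralLinearGroup.det (n := Fin 2) (R := k)).comp ρ).range = p - 1)
    (hirr : ∀ x : OnePoint k, ∃ h, ρ h • x ≠ x)
    {ψ : H → Matrix (Fin 2) (Fin 2) k}
    (hψ : ∀ g h, ψ (g * h) = ψ g + (ρ g).val.det • ((ρ g).val * ψ h * ((ρ g)⁻¹).val))
    (htr : ∀ h, (ψ h).trace = 0) :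
    ∃ m : Matrix (Fin 2) (Fin 2) k, ∀ g,
      ψ g = (ρ g).val.det • ((ρ g).val * m * ((ρ g)⁻¹).val) - m :=
  H6.h1_vanish p hp2 hinj hsplit hdet hirr hψ htr

/-! ## 2. The choice of the primes -/

/-- **The irreducibility hypothesis for Taylor-Wiles primes** (`H6TWIrr`). `H6.StrongIrr K ρ`: no subgroup
of index `1` or `2` has a common eigenvector over the algebraically closed field `K`. S56 has this
hypothesis for all quadratic extensions of `ℚ` (the classical one concerns the quadratic subfield of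
`ℚ(μ_p)`). -/
theorem strongIrr_iff {k K Γ : Type*} [Field k] [Field K] [Algebra k K] [Group Γ]
    (ρ : Γ →* GL (Fin 2) k) :
    H6.StrongIrr K ρ ↔ ∀ G2 : Subgroup Γ, (G2.index = 1 ∨ G2.index = 2) →
      ∀ v : Fin 2 → K, v ≠ 0 →
        ¬ ∀ σ ∈ G2, ∃ c : K, ((ρ σ).val.map (algebraMap k K)).mulVec v = c • v :=
  Iff.rfl

/-- **`ad⁰(1)` is irreducible** (`H6TWIrr2`) under this hypothesis. Proof: let `kX` be a stable line. If
`det X = 0`, the kernel of `X` is stable under the image; if `det X ≠ 0`, comparison of determinants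
shows that `X` commutes up to sign with the image, and the centraliser of `X`, of index at most two,
has a common eigenvector. If `A`, `B` is a basis of a stable plane, the commutator `AB - BA` is nonzero
and spans a stable line. -/
theorem adjoint_irreducible {k K Γ : Type*} [Field k] [Field K] [Algebra k K] [IsAlgClosed K]
    [Group Γ] {ρ : Γ →* GL (Fin 2) k} (h : H6.StrongIrr K ρ) (h2 : (2 : k) ≠ 0)
    (W : Submodule k (Matrix (Fin 2) (Fin 2) k)) (hW : ∀ X ∈ W, X.trace = 0)
    (hst : ∀ σ, ∀ X ∈ W, (ρ σ).val.det • ((ρ σ).val * X * ((ρ σ)⁻¹).val) ∈ W) :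
    W = ⊥ ∨ ∀ X, X ∈ W ↔ X.trace = 0 := by
  rcases H6.StrongIrr.irr_sl h h2 W (fun X hX => H6.mem_slSub.mpr (hW X hX)) hst with h1 | h1
  exacts [Or.inl h1, Or.inr fun X => h1 ▸ H6.mem_slSub]

/-- **An element with distinct eigenvalues** (`H6TWDist`). Let `N` be a normal subgroup of `Γ` containing
all commutators, on which `det ρ = 1` (for the Galois group: the automorphisms fixing the `p^(n+1)`-st
roots of unity). Then some `σ ∈ N` has two distinct eigenvalues in `k`. Proof: otherwise every element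
of `ρ(N)` is scalar or has exactly one fixed point on the projective line. If all are scalar, a
non-scalar `ρ(g)` commutes up to sign with the image. If not, the image of `N` in the permutations of
the `#k + 1` points of the line is a `p`-group and fixes a point, which is the only one because some
element has exactly one fixed point; so it is stable under `Γ`. -/
theorem exists_distinct_eigenvalues {k K Γ : Type*} [Field k] [Field K] [Algebra k K]
    [IsAlgClosed K] [Group Γ] [DecidableEq k] [Fintype k] {ρ : Γ →* GL (Fin 2) k}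
    (h : H6.StrongIrr K ρ) (p : ℕ) [Fact p.Prime] [CharP k p]
    (hsplit : ∀ σ, ∃ α β : k, (ρ σ).val.trace = α + β ∧ (ρ σ).val.det = α * β)
    (N : Subgroup Γ) [N.Normal] (hab : ∀ x y : Γ, x * y * x⁻¹ * y⁻¹ ∈ N)
    (hdet : ∀ σ ∈ N, (ρ σ).val.det = 1) :
    ∃ σ ∈ N, ∃ α β : k, α ≠ β ∧ (ρ σ).val.trace = α + β ∧ (ρ σ).val.det = α * β :=
  h.exists_distinct p hsplit N hab hdet

/-- **Cocycles trivial at the elements with distinct eigenvalues are coboundaries** (`H6TWDist`). With `N`
as before, let `ψ` be a cocycle with values in trace-zero matrices such that for every `σ ∈ N` with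
distinct eigenvalues `ψ(σ)` is of the form `σX - X`. Then `ψ` is a coboundary. Proof: on `N ∩ ker ρ`
the cocycle is a homomorphism; its values span a stable subspace contained in the proper subspace
`(σ - 1) ad⁰(1)`, hence zero. For `h ∈ ker ρ` and `x ∈ Γ` the commutator lies in `N`, so `ψ(h)` is
invariant under `x`, and `ψ(h) = 0` because `ad⁰(1)` has no invariants. So `ψ` comes from the image of
`ρ`, where the vanishing theorem applies. -/
theorem cobound_of_locally_trivial {k K Γ : Type*} [Field k] [Field K] [Algebra k K]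
    [IsAlgClosed K] [Group Γ] [DecidableEq k] [Fintype k] {ρ : Γ →* GL (Fin 2) k}
    (h : H6.StrongIrr K ρ) (p : ℕ) [Fact p.Prime] [CharP k p] (hp2 : p ≠ 2)
    (hsplit : ∀ σ, ∃ α β : k, (ρ σ).val.trace = α + β ∧ (ρ σ).val.det = α * β)
    (hdetr : Nat.card
      ((Matrix.GeneralLinearGroup.det (n := Fin 2) (R := k)).comp ρ).range = p - 1)
    (N : Subgroup Γ) [N.Normal] (hab : ∀ x y : Γ, x * y * x⁻¹ * y⁻¹ ∈ N)
    (hdet : ∀ σ ∈ N, (ρ σ).val.det = 1) {ψ : Γ → Matrix (Fin 2) (Fin 2) k}
    (hψ : ∀ g h, ψ (g * h) = ψ g + (ρ g).val.det • ((ρ g).val * ψ h * ((ρ g)⁻¹).val))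
    (htr : ∀ σ, (ψ σ).trace = 0)
    (hloc : ∀ σ ∈ N, (∃ α β : k, α ≠ β ∧ (ρ σ).val.trace = α + β ∧ (ρ σ).val.det = α * β) →
      ∃ X ∈ H6.slSub k, ψ σ = H6.ad1 (ρ σ) X - X) :
    ∃ m : Matrix (Fin 2) (Fin 2) k, ∀ g,
      ψ g = (ρ g).val.det • ((ρ g).val * m * ((ρ g)⁻¹).val) - m :=
  h.cobound_of_local p hp2 hsplit hdetr N hab hdet hψ htr hloc

/-- **Primes with prescribed Frobenius** (`H6TWFrob`; from Frobenius' density theorem, `H86DensityFinal`, a
weak form of Chebotarev's theorem). Let `M` be a finite normal extension of `ℚ` and `σ` an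
automorphism. Outside any finite set there is a prime `ℓ`, unramified in `M`, with a Frobenius `φ` at
some place above `ℓ` such that on `M` each of `σ`, `φ` is a power of the other; all Frobenius
elements above `ℓ` are conjugate to `φ` on `M`. -/
theorem exists_prime_with_frobenius (M : IntermediateField ℚ (AlgebraicClosure ℚ))
    [FiniteDimensional ℚ M] [Normal ℚ M]
    (σ : GQ) (S : Finset ℕ) :
    ∃ ℓ : ℕ, ℓ.Prime ∧ ℓ ∉ S ∧
      (∀ P : ValuationSubring (AlgebraicClosure ℚ), P.LiesOverPrime ℓ →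
        ∀ τ ∈ P.inertiaSubgroupIn ℚ, ∀ x ∈ M, τ x = x) ∧
      ∃ (A : ValuationSubring (AlgebraicClosure ℚ))
        (φ : GQ),
        A.LiesOverPrime ℓ ∧ A.IsFrobeniusAt φ ℓ ∧
        (∃ j : ℕ, ∀ x ∈ M, σ x = (φ ^ j) x) ∧ (∃ j : ℕ, ∀ x ∈ M, φ x = (σ ^ j) x) ∧
        ∀ P : ValuationSubring (AlgebraicClosure ℚ), P.LiesOverPrime ℓ →
          ∀ φ' : GQ, P.IsFrobeniusAt φ' ℓ →
          ∃ g : GQ,
            ∀ x ∈ M, φ' x = (g * φ * g⁻¹) x :=
  H6.good_prime M σ S

/-- **Taylor-Wiles primes detecting given classes** (`H6TWSelect`, `H6TWResidual`, with `H6TWLoc` and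
`H6TWCyc`). `N` is any model of `ad⁰(ρbar)(1)`: a `k`-space with a Galois action `rN` and an equivariant
isomorphism `e` onto the trace-zero matrices with the action `H6.ad1`. Let `ψ₁, ..., ψ_s` be cocycles of
finite level with values in `N`, linearly independent modulo coboundaries. For every `d ≥ s`, `n` and
finite set `S` there are `d` primes `q_i ∉ S`, `q_i ≡ 1` modulo `p^(n+1)`, unramified for `ρbar` and for
the `ψ_j`, at which Frobenius has distinct eigenvalues in `k`, such that a combination of the `ψ_j` which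
is trivial at Frobenius for all `q_i` is zero. Induction on the dimension; one prime for each dimension.
(`H6TWKill`: the same for a finite set of cocycles; applied to the dual Selmer group in
`selmer_bound`.) -/
theorem taylorWiles_primes {k : Type} [Field k] [Fintype k] (p : ℕ) [Fact p.Prime] [CharP k p]
    (hp2 : p ≠ 2) (ρbar : ResidualGaloisRep k)
    (habs : ρbar.IsAbsolutelyIrreducible)
    (hdet : (GaloisRepAdic.ofResidualGaloisRep ρbar).DetIsCyclotomic p)
    (hsplit : ∀ σ : GQ,
      ∃ α β : k, LinearMap.charpoly (ρbar.ρ σ) = (X - C α) * (X - C β))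
    (hTW : ∀ (K : Type) [Field K] [Algebra k K]
      (G : Subgroup GQ), G.index = 2 →
      ∀ V : Submodule K (ρbar.baseChange K).V,
        (∀ σ ∈ G, ∀ x ∈ V, (ρbar.baseChange K).ρ σ x ∈ V) → V = ⊥ ∨ V = ⊤)
    (b : Module.Basis (Fin 2) k ρbar.V)
    {N : Type*} [AddCommGroup N] [Module k N]
    (rN : GQ →* Module.End k N)
    (e : N ≃ₗ[k] H6.slSub k)
    (he : ∀ (σ : GQ) (x : N),
      ((e (rN σ x) : H6.slSub k) : Matrix (Fin 2) (Fin 2) k) =
        H6.ad1 (H6.matRep ρbar b σ) (e x : H6.slSub k))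
    {s : ℕ} (ψ : Fin s → GQ → N)
    (hψ : ∀ j g h, ψ j (g * h) = ψ j g + rN g (ψ j h))
    (hψL : ∀ j, ∃ F : IntermediateField ℚ (AlgebraicClosure ℚ), FiniteDimensional ℚ F ∧
      ∀ g τ : GQ,
        (∀ x ∈ F, τ x = x) → ψ j (g * τ) = ψ j g)
    (hind : ∀ c : Fin s → k, (∃ m : N, ∀ σ, ∑ j, c j • ψ j σ = rN σ m - m) → c = 0)
    (n d : ℕ) (hd : s ≤ d) (S : Finset ℕ) :
    ∃ qv : Fin d → ℕ, Function.Injective qv ∧
      (∀ i, (qv i).Prime ∧ qv i ∉ S ∧ p ^ (n + 1) ∣ qv i - 1) ∧
      (∀ i, ρbar.IsUnramifiedAt (qv i)) ∧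
      (∀ i, ∀ P : ValuationSubring (AlgebraicClosure ℚ), P.LiesOverPrime (qv i) →
        ∀ φ : GQ, P.IsFrobeniusAt φ (qv i) →
          LinearMap.det (ρbar.ρ φ) = 1 ∧
          ∃ α β : k, α ≠ β ∧ LinearMap.charpoly (ρbar.ρ φ) = (X - C α) * (X - C β)) ∧
      (∀ i, ∀ P : ValuationSubring (AlgebraicClosure ℚ), P.LiesOverPrime (qv i) →
        ∀ τ ∈ P.inertiaSubgroupIn ℚ, ∀ j, ψ j τ = 0) ∧
      ∀ c : Fin s → k,
        (∀ i, ∃ (P : ValuationSubring (AlgebraicClosure ℚ))
            (φ : GQ), P.LiesOverPrime (qv i) ∧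
          P.IsFrobeniusAt φ (qv i) ∧ ∃ x : N, ∑ j, c j • ψ j φ = rN φ x - x) → c = 0 :=
  H6.tw_primes p hp2 ρbar habs hdet hsplit hTW b rN e he ψ hψ hψL hind n d hd S

/-! ## 3. Selmer groups

Notation as in `GuideLocalBounds`: `M2 k` are the `2 × 2` matrices, `SL p k` those of trace zero, as a
vector space over `F_p`; `ad p r` the adjoint representation; `dtw (cycloChar p) ρ` the Cartier dual
`M'` of a module `M`; `Dq q`, `Iq q` decomposition and inertia group of a fixed place above `q`;
`Z1`, `B1` cocycles and coboundaries, `ramLevels S` the open subgroups for "unramified outside `S`".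
`FinLev r`: `r` is trivial on an open subgroup; `DetCyc p r`: its determinant is the cyclotomic character
modulo `p`; `Smooth`: every vector is fixed by an open subgroup. -/

/-- **The dual of `ad⁰` is `ad⁰(1)`** (`H51Dual`): for `p` odd and `det r` cyclotomic the trace form
`(X, Y) ↦ Tr_{k/F_p} tr(XY)` is an isomorphism `Φ` from the trace-zero matrices onto their dual, with
`Φ(det r(σ) • r(σ) X r(σ)⁻¹) = σ Φ(X)`. -/
theorem dual_of_adjoint {p : ℕ} [Fact p.Prime] {k : Type} [Field k] [Algebra (ZMod p) k] [Finite k]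
    (hp2 : p ≠ 2) {r : GQ →* M2 k} (hr : DetCyc p r) :
    ∃ Φ : SL p k ≃ₗ[ZMod p] Module.Dual (ZMod p) (SL p k),
      (∀ X Y : SL p k, Φ X Y = Algebra.trace (ZMod p) k ((X : M2 k) * (Y : M2 k)).trace) ∧
      ∀ (σ : GQ) (X : SL p k), ∃ Y : SL p k,
        (Y : M2 k) = (r σ).det • (r σ * X * r σ⁻¹) ∧ Φ Y = dtw (cycloChar p) (ad p r) σ (Φ X) :=
  ⟨H51Dual.Phi p k hp2, fun X Y => H51Dual.Phi_apply hp2 X Y, fun σ X =>
    ⟨H51Dual.adT p r σ X, H51Dual.coe_adT r σ X, H51Dual.Phi_equivar hp2 hr σ X⟩⟩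

/-- **The real place** (`H51Dual`): `dim H^0(ℝ, ad⁰(1)) = 2 [k : F_p]`, and `dim ad⁰ = 3 [k : F_p]`; here
`r` is odd, complex conjugation has determinant `-1`. -/
theorem real_place {p : ℕ} [Fact p.Prime] {k : Type} [Field k] [Algebra (ZMod p) k] [Finite k]
    (hp2 : p ≠ 2) {r : GQ →* M2 k} (hr : DetCyc p r) :
    finrank (ZMod p) (realInv (dtw (cycloChar p) (ad p r))) = 2 * finrank (ZMod p) k ∧
      finrank (ZMod p) (SL p k) = 3 * finrank (ZMod p) k :=
  ⟨H51Dual.finrank_realInv hp2 hr, H51Dual.finrank_SL p k⟩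

/-- **Cocycles of lifts** (`H53Selmer`). If `R` is a lift of `r` to the dual numbers with the same
determinant, `R(σ) = (1 + ε c(σ)) r(σ)`, then the matrices `c(σ)` have trace zero and `c` is a continuous
cocycle with values in the adjoint representation. -/
theorem cocycle_of_goodLift {p : ℕ} [Fact p.Prime] {k : Type} [Field k] [Algebra (ZMod p) k]
    {r : GQ →* M2 k} {R : GQ →* M2 (DualNumber k)} (hR : GoodLift r R) :
    (∀ σ, (coc R σ).trace = 0) ∧
      ∀ c : GQ → SL p k, (∀ σ, (c σ : M2 k) = coc R σ) → c ∈ Z1 krullLevels (ad p r) :=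
  ⟨fun σ => trace_coc hR σ, fun _ hc => coc_mem_Z1_krull hR hc⟩

/-- **The Selmer group in cocycle form** `SelZ S ρ L` (`H56Defs`): the cocycles of `G_ℚ` with values in
`M`, unramified outside `S`, whose restriction to the decomposition group at `q` lies in `L q` for all
`q ∈ S`. The Greenberg-Wiles inequality for these groups is in `GuideEulerChar`. -/
theorem selmer_group {p : ℕ} [Fact p.Prime] {M : Type} [AddCommGroup M] [Module (ZMod p) M]
    {S : Finset Nat.Primes} {ρ : Representation (ZMod p) GQ M}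
    {L : ∀ q : Nat.Primes, Submodule (ZMod p) (Dq q → M)} {c : GQ → M} :
    c ∈ SelZ S ρ L ↔ c ∈ Z1 (ramLevels S) ρ ∧ ∀ q ∈ S, (fun σ : Dq q => c σ) ∈ L q :=
  mem_SelZ

/-- **Locally trivial outside `S` implies unramified outside `S`** (`H51Dual`): let `ρ` be unramified outside
`S`, `c` a cocycle of level `T` whose restriction `resD p M q c` to the decomposition group at every
`q ∈ T`, `q ∉ S` is a coboundary. Then `c` is a cocycle of level `S`. In the application `T` contains the
Taylor-Wiles primes: the dual Selmer group for `T` is contained in the finite group for `S`, which the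
Taylor-Wiles primes kill. -/
theorem unramified_of_locally_trivial {p : ℕ} [Fact p.Prime] {M : Type} [AddCommGroup M]
    [Module (ZMod p) M] [Finite M] {ρ : Representation (ZMod p) GQ M} (hs : Smooth krullLevels ρ)
    (S T : Finset Nat.Primes) (hur : ∀ q, q ∉ S → ∀ σ ∈ Iq q, ρ σ = 1) {c : GQ → M}
    (hc : c ∈ Z1 (ramLevels T) ρ) (hres : ∀ q ∈ T, q ∉ S → resD p M q c ∈ B1 (rhoD ρ q)) :
    c ∈ Z1 (ramLevels S) ρ :=
  H51Dual.mem_Z1_ramLevels hs S T hur hc hres

/-- **Taylor-Wiles primes and the Selmer bound** (`H53Selmer`). `r` is the matrix form of `ρbar`; `ρbar` is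
unipotently ramified at the primes of `A`, unramified outside `A` and `p`; at the primes of `T` the
decomposition group acts by scalars; `Condp` is a condition at `p` with local bound `4`. For all
large `d`, every `n` and every finite `S` there are `d` Taylor-Wiles primes `q_i` outside `S` such
that the cocycles of the lifts which satisfy `Condp`, are unipotent at `A`, unramified outside
`A, T, p, q_i` and have trivial cocycle at `T`, lie in a finite set `Z` which is stable under adding
coboundaries and has at most `#k^(d - 3 #T + 3)` elements. Used for S43 (`H53TWL3`), with `T` the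
auxiliary primes at which `ρbar` is scalar, and for S56, with `T = ∅`. -/
theorem selmer_bound {p : ℕ} [Fact p.Prime] {k : Type} [Field k] [Finite k] [Algebra (ZMod p) k]
    (hp2 : p ≠ 2) (GW : GWIneq p) (ρbar : ResidualGaloisRep k)
    (habs : ρbar.IsAbsolutelyIrreducible)
    (hdet : (GaloisRepAdic.ofResidualGaloisRep ρbar).DetIsCyclotomic p)
    (hsplit : ∀ σ : GQ, ∃ α β : k, LinearMap.charpoly (ρbar.ρ σ) = (X - C α) * (X - C β))
    (hTW : ∀ (K : Type) [Field K] [Algebra k K] (G : Subgroup GQ), G.index = 2 →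
      ∀ V : Submodule K (ρbar.baseChange K).V,
        (∀ σ ∈ G, ∀ x ∈ V, (ρbar.baseChange K).ρ σ x ∈ V) → V = ⊥ ∨ V = ⊤)
    (b : Module.Basis (Fin 2) k ρbar.V) {r : GQ →* M2 k}
    (hr : ∀ σ, r σ = LinearMap.toMatrix b b (ρbar.ρ σ)) (hrdet : DetCyc p r) (hfl : FinLev r)
    (A T : Finset Nat.Primes) (hpT : pPrime p ∉ T)
    (hAram : ∀ q ∈ A, ∃ σ ∈ Iq q, r σ ≠ 1)
    (hAunip : ∀ q ∈ A, ∀ σ ∈ Iq q, (r σ).charpoly = (X - 1) ^ 2)
    (hur : ∀ q, q ∉ A → q ≠ pPrime p → ∀ σ ∈ Iq q, r σ = 1)
    (hT : ∀ t ∈ T, ∀ σ ∈ Dq t, ∃ u : k, r σ = u • (1 : M2 k))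
    (Condp : (GQ →* M2 (DualNumber k)) → Prop) (hp : LocalBound p r (pPrime p) 4 Condp) :
    ∃ s : ℕ, ∀ d, s ≤ d → ∀ (n : ℕ) (S : Finset ℕ), ∃ qv : Fin d → Nat.Primes,
      Function.Injective qv ∧
      (∀ i, ((qv i : Nat.Primes) : ℕ) ∉ S ∧ p ^ (n + 1) ∣ ((qv i : Nat.Primes) : ℕ) - 1) ∧
      (∀ i, qv i ∉ A ∧ qv i ∉ T ∧ qv i ≠ pPrime p) ∧
      (∀ i, ρbar.IsUnramifiedAt (qv i)) ∧
      (∀ i, ∀ P : ValuationSubring (AlgebraicClosure ℚ), P.LiesOverPrime (qv i) →
        ∀ φ : GQ, P.IsFrobeniusAt φ (qv i) → LinearMap.det (ρbar.ρ φ) = 1 ∧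
          ∃ α β : k, α ≠ β ∧ LinearMap.charpoly (ρbar.ρ φ) = (X - C α) * (X - C β)) ∧
      3 * T.card ≤ d ∧
      ∃ Z : Set (GQ → M2 k), Z.Finite ∧
        Z.ncard ≤ Nat.card k ^ (d - 3 * T.card + 3) ∧
        (∀ c ∈ Z, ∀ X : M2 k, X.trace = 0 → c + cob r X ∈ Z) ∧
        ∀ R : GQ →* M2 (DualNumber k), GoodLift r R → Condp R →
          (∀ q ∈ A, ∀ σ ∈ Iq q, (R σ).charpoly = (X - 1) ^ 2) →
          (∀ q, q ∉ A → q ∉ T → q ≠ pPrime p → (∀ i, q ≠ qv i) → ∀ σ ∈ Iq q, R σ = 1) →
          (∀ t ∈ T, ∀ σ ∈ Dq t, coc R σ = 0) → coc R ∈ Z :=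
  H53.selmer_bound hp2 GW ρbar habs hdet hsplit hTW b hr hrdet hfl A T hpT hAram hAunip hur hT
    Condp hp

/-- **The Selmer bound with weights** (`H53SelmerB`), for S59 (`H53TWB2`): `T` is a finite set of primes
where the coboundaries of the decomposition group have dimension at most `3 - w(t)` over `k` (`w = 3`
if `ρbar` is scalar there, `w = 1` if it is unramified with non-scalar Frobenius: `H53LocB`), `Condp` a
condition at `p` with local bound `Np`. The cocycles of the lifts which are coboundaries at the primes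
of `T` now lie in a finite set with at most `#k^(d + Np - 1 - Σ w(t))` elements, stable under adding
coboundaries. -/
theorem selmer_bound_weights {p : ℕ} [Fact p.Prime] {k : Type} [Field k] [Finite k] [Algebra (ZMod p) k]
    (hp2 : p ≠ 2) (GW : GWIneq p) (ρbar : ResidualGaloisRep k)
    (habs : ρbar.IsAbsolutelyIrreducible)
    (hdet : (GaloisRepAdic.ofResidualGaloisRep ρbar).DetIsCyclotomic p)
    (hsplit : ∀ σ : GQ, ∃ α β : k, LinearMap.charpoly (ρbar.ρ σ) = (X - C α) * (X - C β))
    (hTW : ∀ (K : Type) [Field K] [Algebra k K] (G : Subgroup GQ), G.index = 2 →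
      ∀ V : Submodule K (ρbar.baseChange K).V,
        (∀ σ ∈ G, ∀ x ∈ V, (ρbar.baseChange K).ρ σ x ∈ V) → V = ⊥ ∨ V = ⊤)
    (b : Module.Basis (Fin 2) k ρbar.V) {r : GQ →* M2 k}
    (hr : ∀ σ, r σ = LinearMap.toMatrix b b (ρbar.ρ σ)) (hrdet : DetCyc p r) (hfl : FinLev r)
    (A T : Finset Nat.Primes) (hpT : ExtCitation.pPrime p ∉ T)
    (hAram : ∀ q ∈ A, ∃ σ ∈ H56.Iq q, r σ ≠ 1)
    (hAunip : ∀ q ∈ A, ∀ σ ∈ H56.Iq q, (r σ).charpoly = (X - 1) ^ 2)
    (hur : ∀ q, q ∉ A → q ≠ ExtCitation.pPrime p → ∀ σ ∈ H56.Iq q, r σ = 1)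
    (w : Nat.Primes → ℕ)
    (hT : ∀ t ∈ T, Module.finrank (ZMod p) (H55.B1 (H56.rhoD (H56.ad p r) t)) +
      w t * Module.finrank (ZMod p) k ≤ 3 * Module.finrank (ZMod p) k)
    (Condp : (GQ →* M2 (DualNumber k)) → Prop) (Np : ℕ) (hNp : 1 ≤ Np)
    (hp : LocalBound p r (ExtCitation.pPrime p) Np Condp) :
    ∃ s : ℕ, ∀ d, s ≤ d → ∀ (n : ℕ) (S : Finset ℕ), ∃ qv : Fin d → Nat.Primes,
      Function.Injective qv ∧
      (∀ i, ((qv i : Nat.Primes) : ℕ) ∉ S ∧ p ^ (n + 1) ∣ ((qv i : Nat.Primes) : ℕ) - 1) ∧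
      (∀ i, qv i ∉ A ∧ qv i ∉ T ∧ qv i ≠ ExtCitation.pPrime p) ∧
      (∀ i, ρbar.IsUnramifiedAt (qv i)) ∧
      (∀ i, ∀ P : ValuationSubring (AlgebraicClosure ℚ), P.LiesOverPrime (qv i) →
        ∀ φ : GQ, P.IsFrobeniusAt φ (qv i) → LinearMap.det (ρbar.ρ φ) = 1 ∧
          ∃ α β : k, α ≠ β ∧ LinearMap.charpoly (ρbar.ρ φ) = (X - C α) * (X - C β)) ∧
      ∃ Z : Set (GQ → M2 k), Z.Finite ∧
        Z.ncard ≤ Nat.card k ^ (d + (Np - 1) - ∑ t ∈ T, w t) ∧
        (∀ c ∈ Z, ∀ X : M2 k, X.trace = 0 → c + cob r X ∈ Z) ∧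
        ∀ R : GQ →* M2 (DualNumber k), GoodLift r R → Condp R →
          (∀ q ∈ A, ∀ σ ∈ H56.Iq q, (R σ).charpoly = (X - 1) ^ 2) →
          (∀ q, q ∉ A → q ∉ T → q ≠ ExtCitation.pPrime p → (∀ i, q ≠ qv i) →
            ∀ σ ∈ H56.Iq q, R σ = 1) →
          (∀ t ∈ T, ∃ X : M2 k, X.trace = 0 ∧ ∀ σ ∈ H56.Dq t, coc R σ = cob r X σ) →
            coc R ∈ Z :=
  H53.selmer_bound_gen hp2 GW ρbar habs hdet hsplit hTW b hr hrdet hfl A T hpT hAram hAunip hur w hT
    Condp Np hNp hp

/-! ## 4. From cocycles to generators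

`mapMat f r` applies the ring homomorphism `f` to all entries of the matrices `r(σ)`; `toMat ρ b` is
the matrix form of `ρ` in the basis `b`; `redM k` the reduction of matrices over the dual numbers `k[ε]`;
`coc R` the cocycle of a lift `R`; `cob r X` a coboundary; `H69.algDual O` the structure of an `O`-algebra
on the dual numbers over the residue field. -/

/-- **Equal classes, conjugate lifts** (`H56Tangent`). If the cocycles of two lifts `R`, `R'` of `r` to the
dual numbers differ by the coboundary of `X`, then `R'` and `R` are conjugate by `1 - ε X`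
(`onePlus (-X)`). So the deformations of `r` to the dual numbers are classes of cocycles. -/
theorem conjugate_of_cocycles {k : Type} [Field k] {G : Type} [Group G] {r : G →* M2 k}
    {R R' : G →* M2 (DualNumber k)} (hR : ∀ σ, redM k (R σ) = r σ)
    (hR' : ∀ σ, redM k (R' σ) = r σ) {X : M2 k} (h : coc R = coc R' + cob r X) (σ : G) :
    onePlus (-X) * R' σ = R σ * onePlus (-X) :=
  conj_of_coc hR hR' h σ

/-- **Generators, by counting homomorphisms to the dual numbers** (`H56TangentAlg`). `O` is local with finite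
residue field `k`, `P` an `O`-algebra, `π : P → k` an `O`-algebra homomorphism. If there are at most
`#k^N` homomorphisms `f : P → k[ε]` over `O` lifting `π`, the kernel of `π` is generated by `N` elements,
the maximal ideal of `O` and the square of the kernel. -/
theorem generators_of_count {O P : Type*} [CommRing O] [IsLocalRing O] [CommRing P] [Algebra O P]
    (π : P →+* ResidueField O) (hπ : ∀ c, π (algebraMap O P c) = residue O c)
    [Finite (ResidueField O)] (N : ℕ)
    (hfin : {f : P →+* DualNumber (ResidueField O) |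
      (∀ c, f (algebraMap O P c) = TrivSqZeroExt.inl (residue O c)) ∧
      ∀ p, TrivSqZeroExt.fst (f p) = π p}.Finite)
    (hcard : {f : P →+* DualNumber (ResidueField O) |
      (∀ c, f (algebraMap O P c) = TrivSqZeroExt.inl (residue O c)) ∧
      ∀ p, TrivSqZeroExt.fst (f p) = π p}.ncard ≤ Nat.card (ResidueField O) ^ N) :
    ∃ x : Fin N → P, (∀ i, π (x i) = 0) ∧
      RingHom.ker π ≤ Ideal.span (Set.range x) ⊔ (maximalIdeal O).map (algebraMap O P) ⊔
        (RingHom.ker π) ^ 2 :=
  exists_generators π hπ N hfin hcard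

/-- **Quotients of power series rings** (`H56PowerSeries`). A complete Noetherian local `O`-algebra `R` (`O`
complete local with the same residue field) whose maximal ideal is generated by `x_1, ..., x_r`, the
maximal ideal of `O` and `m_R²` is a quotient of `O[[X_1, ..., X_r]]`, by `X_i ↦ x_i`. -/
theorem quotient_of_power_series {O R : Type*} [CommRing O] [IsLocalRing O]
    [IsAdicComplete (maximalIdeal O) O] [CommRing R] [IsLocalRing R] [IsNoetherianRing R]
    [IsAdicComplete (maximalIdeal R) R] [Algebra O R] [IsLocalHom (algebraMap O R)]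
    (hres : Function.Surjective (residue R ∘ algebraMap O R))
    {r : ℕ} (x : Fin r → R) (hx : ∀ i, x i ∈ maximalIdeal R)
    (hgen : maximalIdeal R ≤
      Ideal.span (Set.range x) ⊔ (maximalIdeal O).map (algebraMap O R) ⊔ maximalIdeal R ^ 2) :
    ∃ γ : MvPowerSeries (Fin r) O →ₐ[O] R, (∀ i, γ (MvPowerSeries.X i) = x i) ∧
      Function.Surjective γ :=
  exists_mvPowerSeries_surjective hres x hx hgen

/-- **A presentation by counting cocycles** (`H56Tangent`). `DQ` is the universal ring of the deformation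
condition `𝒟`. If the cocycles of the lifts of type `𝒟` to the dual numbers lie in a finite set `Z`,
stable under adding coboundaries, with at most `#k^(N+3)` elements, then `DQ.R` is a quotient of
`O[[X_1, ..., X_N]]`. (The `3` is the dimension of the space of coboundaries: `hcent`.) -/
theorem presentation_by_counting {O : Type} [CommRing O] [IsDomain O]
    [IsDiscreteValuationRing O] [IsAdicComplete (maximalIdeal O) O] [Finite (ResidueField O)]
    {ρbar : ResidualGaloisRep (ResidueField O)}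
    {D : ∀ ⦃A : Type⦄ [CommRing A] [IsLocalRing A] [Algebra O A], GaloisRepAdic A → Prop}
    (hD : IsDeformationCondition O D)
    (b : Module.Basis (Fin 2) (ResidueField O) ρbar.V)
    (hcent : ∀ X : M2 (ResidueField O), X.trace = 0 →
      (∀ σ, toMat ρbar.ρ b σ * X = X * toMat ρbar.ρ b σ) → X = 0)
    (DQ : DeformationRingData O ρbar D)
    (N : ℕ) (Z : Set (GQ → M2 (ResidueField O))) (hZfin : Z.Finite)
    (hcard : Z.ncard ≤ Nat.card (ResidueField O) ^ (N + 3))
    (hcob : ∀ c ∈ Z, ∀ X : M2 (ResidueField O), X.trace = 0 → c + cob (toMat ρbar.ρ b) X ∈ Z)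
    (hZ : ∀ (R : GQ →* M2 (DualNumber (ResidueField O))) (h : MCont _ R),
      (∀ σ, redM _ (R σ) = toMat ρbar.ρ b σ) →
      (letI := H69.algDual O; D (ofMatrix R h)) → coc R ∈ Z) :
    ∃ γ : MvPowerSeries (Fin N) O →ₐ[O] DQ.R, Function.Surjective γ :=
  exists_surjective_of_card ρbar D hD b hcent DQ N Z hZfin hcard hcob hZ

/-- **The presentation for S43** (`H53Level`). `q_t`, `t ∈ τ`, are primes `≡ 1` modulo `p` with a place, a
Frobenius element `φ_t` and a tame generator `σ_t` (`PlaceData`), at which `ρbar` is unramified and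
`ρbar(φ_t)` is a scalar `u_t = ±1`. If the cocycles of the lifts of type `D` which vanish at all `φ_t`
and `σ_t` lie in a set `Z` as above, then the universal ring is a quotient of a power series ring in
`N + 6 #τ` variables: the six variables for `t` are mapped to the entries of the trace zero parts of
the matrices of `σ_t` and `φ_t` in the universal representation (the first and the fourth to half the
difference of the diagonal entries). -/
theorem presentation_with_tame_matrices {O : Type} [CommRing O] [IsDomain O]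
    [IsDiscreteValuationRing O] [IsAdicComplete (maximalIdeal O) O] [Finite (ResidueField O)]
    {ρbar : ResidualGaloisRep (ResidueField O)}
    {D : ∀ ⦃A : Type⦄ [CommRing A] [IsLocalRing A] [Algebra O A], GaloisRepAdic A → Prop}
    (U : DeformationRingData O ρbar D) {p : ℕ} [Fact p.Prime]
    (b : Module.Basis (Fin 2) (ResidueField O) ρbar.V) (b₁ : Module.Basis (Fin 2) U.R U.ρ.V)
    (hb₁ : mapMat (residue U.R) (toMat U.ρ.ρ b₁) =
      mapMat (ResidueField.map (algebraMap O U.R)) (toMat ρbar.ρ b))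
    (hD : IsDeformationCondition O D) (hdet : U.ρ.DetIsCyclotomic p) (hp2 : p ≠ 2)
    (hcent : ∀ X : M2 (ResidueField O), X.trace = 0 →
      (∀ σ, toMat ρbar.ρ b σ * X = X * toMat ρbar.ρ b σ) → X = 0)
    {τ : Type} [Finite τ] (q : τ → ℕ) (hq : ∀ t, (q t).Prime) (hpq : ∀ t, p ∣ q t - 1)
    (pl : ∀ t, PlaceData p (q t)) (u : τ → O) (hu : ∀ t, u t ^ 2 = 1)
    (hφ : ∀ t, toMat ρbar.ρ b (pl t).φ = residue O (u t) • (1 : M2 (ResidueField O)))
    (hσ : ∀ t, toMat ρbar.ρ b (pl t).σ = 1)
    (N : ℕ) (Z : Set (GQ → M2 (ResidueField O))) (hZfin : Z.Finite)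
    (hcard : Z.ncard ≤ Nat.card (ResidueField O) ^ (N + 3))
    (hcob : ∀ c ∈ Z, ∀ X : M2 (ResidueField O), X.trace = 0 → c + cob (toMat ρbar.ρ b) X ∈ Z)
    (hZ : ∀ (R : GQ →* M2 (DualNumber (ResidueField O))) (h : MCont _ R),
      (∀ σ, redM _ (R σ) = toMat ρbar.ρ b σ) →
      (letI := H69.algDual O; D (ofMatrix R h)) → (∀ t, coc R (pl t).φ = 0) →
      (∀ t, coc R (pl t).σ = 0) → coc R ∈ Z) :
    ∃ β : MvPowerSeries ((τ × Fin 6) ⊕ Fin N) O →ₐ[O] U.R, Function.Surjective β ∧ ∀ t,
      2 * β (MvPowerSeries.X (Sum.inl (t, 0))) =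
        toMat U.ρ.ρ b₁ (pl t).σ 0 0 - toMat U.ρ.ρ b₁ (pl t).σ 1 1 ∧
      β (MvPowerSeries.X (Sum.inl (t, 1))) = toMat U.ρ.ρ b₁ (pl t).σ 0 1 ∧
      β (MvPowerSeries.X (Sum.inl (t, 2))) = toMat U.ρ.ρ b₁ (pl t).σ 1 0 ∧
      2 * β (MvPowerSeries.X (Sum.inl (t, 3))) =
        toMat U.ρ.ρ b₁ (pl t).φ 0 0 - toMat U.ρ.ρ b₁ (pl t).φ 1 1 ∧
      β (MvPowerSeries.X (Sum.inl (t, 4))) = toMat U.ρ.ρ b₁ (pl t).φ 0 1 ∧
      β (MvPowerSeries.X (Sum.inl (t, 5))) = toMat U.ρ.ρ b₁ (pl t).φ 1 0 :=
  exists_beta U b b₁ hb₁ hD hdet hp2 hcent q hq hpq pl u hu hφ hσ N Z hZfin hcard hcob hZ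

/-- **The presentation for S59** (`H53Gen4`): the same with arbitrary *marks* `y_i` (`GuideLifting`),
finitely many elements of the maximal ideal of the universal ring. If the cocycles of the lifts given
by the homomorphisms `f` which kill the marks lie in a set `Z` as above, then the universal ring is a
quotient of `O[[Y_i, Z_1, .., Z_N]]` with `Y_i ↦ y_i`. No relative tangent spaces, no framed
deformations. -/
theorem presentation_with_marks {O : Type} [CommRing O] [IsDomain O]
    [IsDiscreteValuationRing O] [IsAdicComplete (maximalIdeal O) O] [Finite (ResidueField O)]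
    (ρbar : ResidualGaloisRep (ResidueField O))
    (D : ∀ ⦃A : Type⦄ [CommRing A] [IsLocalRing A] [Algebra O A], GaloisRepAdic A → Prop)
    (hD : IsDeformationCondition O D) (b : Module.Basis (Fin 2) (ResidueField O) ρbar.V)
    (hcent : ∀ X : M2 (ResidueField O), X.trace = 0 →
      (∀ σ, toMat ρbar.ρ b σ * X = X * toMat ρbar.ρ b σ) → X = 0)
    (U : DeformationRingData O ρbar D) (b₁ : Module.Basis (Fin 2) U.R U.ρ.V)
    (hb₁ : mapMat (residue U.R) (toMat U.ρ.ρ b₁) =
      mapMat (ResidueField.map (algebraMap O U.R)) (toMat ρbar.ρ b))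
    (N : ℕ) (Z : Set (GQ → M2 (ResidueField O))) (hZfin : Z.Finite)
    (hcard : Z.ncard ≤ Nat.card (ResidueField O) ^ (N + 3))
    (hcob : ∀ c ∈ Z, ∀ X : M2 (ResidueField O), X.trace = 0 → c + cob (toMat ρbar.ρ b) X ∈ Z)
    {ι : Type} [Finite ι] (y : ι → U.R) (hy : ∀ i, y i ∈ maximalIdeal U.R)
    (hZ : ∀ (f : U.R →+* DualNumber (ResidueField O)) (_ : IsLocalHom f)
      (_ : ∀ c, f (algebraMap O U.R c) = TrivSqZeroExt.inl (residue O c)) (_ : ∀ i, f (y i) = 0)
      (h : MCont _ (mapMat f (toMat U.ρ.ρ b₁))),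
      (∀ σ, redM _ (mapMat f (toMat U.ρ.ρ b₁) σ) = toMat ρbar.ρ b σ) →
      (letI := H69.algDual O; D (ofMatrix (mapMat f (toMat U.ρ.ρ b₁)) h)) →
      coc (mapMat f (toMat U.ρ.ρ b₁)) ∈ Z) :
    ∃ β : MvPowerSeries (ι ⊕ Fin N) O →ₐ[O] U.R, Function.Surjective β ∧
      ∀ i, β (MvPowerSeries.X (Sum.inl i)) = y i :=
  H53.exists_beta_gen ρbar D hD b hcent U b₁ hb₁ N Z hZfin hcard hcob y hy hZ

/-! ## 5. S56 -/

/-- **Translation of the hypotheses** (`H56Final`). For `p` odd and `ρbar` absolutely irreducible with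
cyclotomic determinant, in matrix form with respect to a basis `b`: the determinant is the cyclotomic
character, some open subgroup acts trivially, and no nonzero matrix of trace zero commutes with the
image (`hcent` in section 4). -/
theorem hypotheses_in_matrix_form {p : ℕ} [Fact p.Prime] {k : Type} [Field k]
    [Algebra (ZMod p) k] (ρbar : ResidualGaloisRep k) (b : Module.Basis (Fin 2) k ρbar.V)
    (hp2 : p ≠ 2) (habs : ρbar.IsAbsolutelyIrreducible)
    (hdet : (GaloisRepAdic.ofResidualGaloisRep ρbar).DetIsCyclotomic p) :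
    DetCyc p (toMat ρbar.ρ b) ∧ FinLev (toMat ρbar.ρ b) ∧
      ∀ X : M2 k, X.trace = 0 → (∀ σ, toMat ρbar.ρ b σ * X = X * toMat ρbar.ρ b σ) → X = 0 :=
  ⟨detCyc_of ρbar b hdet, finLev_of ρbar b, fun X hX hc => hcent_of ρbar b hp2 habs X hX hc⟩

/-- **S56 for one condition at `p`** (`H56Final`). `Cond` is a condition at `p` which together with the
other conditions is a deformation condition for every finite set `Q` of primes at which ramification is
allowed, with local bound `4`. Proof: `selmer_bound` with `T = ∅`, `A = Smin` without `p`, `d = r`, and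
`presentation_by_counting` with `N = r`. (If `ρbar` is not unipotent on inertia at some prime of `A`
there are no deformations of this type, and `r = 0` will do.) -/
theorem taylorWiles_for_condition {O : Type} [CommRing O] [IsDomain O]
    [IsDiscreteValuationRing O] [Finite (ResidueField O)] [IsAdicComplete (maximalIdeal O) O]
    {p : ℕ} [Fact p.Prime] [Algebra (ZMod p) (ResidueField O)] (hp2 : p ≠ 2) (GW : GWIneq p)
    (ρbar : ResidualGaloisRep (ResidueField O))
    (habs : ρbar.IsAbsolutelyIrreducible)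
    (hdet : (GaloisRepAdic.ofResidualGaloisRep ρbar).DetIsCyclotomic p)
    (hsplit : ∀ σ : GQ,
      ∃ α β : ResidueField O, LinearMap.charpoly (ρbar.ρ σ) = (X - C α) * (X - C β))
    (hTW : ∀ (K : Type) [Field K] [Algebra (ResidueField O) K] (G : Subgroup GQ), G.index = 2 →
      ∀ V : Submodule K (ρbar.baseChange K).V,
        (∀ σ ∈ G, ∀ x ∈ V, (ρbar.baseChange K).ρ σ x ∈ V) → V = ⊥ ∨ V = ⊤)
    (S Smin : Finset ℕ) (hpSmin : p ∈ Smin) (hSmin : Smin ⊆ S) (hS : ∀ q ∈ S, q.Prime)
    (hmin : ∀ q : ℕ, q.Prime → q ≠ p → (q ∈ Smin ↔ ¬ ρbar.IsUnramifiedAt q))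
    (b : Module.Basis (Fin 2) (ResidueField O) ρbar.V)
    (Cond : ∀ ⦃A : Type⦄ [CommRing A] [IsLocalRing A], GaloisRepAdic A → Prop)
    (hDef : ∀ Q : Finset ℕ, IsDeformationCondition O (fun _A _ _ _ ρ =>
      (ρ.DetIsCyclotomic p ∧ Cond ρ ∧ ∀ q : ℕ, q.Prime → q ∉ Q → ρ.IsUnramifiedAt q) ∧
        ∀ q ∈ Smin, q.Prime → q ≠ p → ρ.IsUnipotentOnInertiaAt q))
    (hloc : LocalBound p (toMat ρbar.ρ b) (pPrime p) 4
      (fun R => ∃ h : MCont (DualNumber (ResidueField O)) R, Cond (ofMatrix R h))) :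
    ∃ r : ℕ, ∀ n : ℕ, ∃ qv : Fin r → ℕ, Function.Injective qv ∧
      (∀ i, (qv i).Prime ∧ qv i ∉ S ∧ p ^ (n + 1) ∣ qv i - 1) ∧
      (∀ i, ∀ P : ValuationSubring (AlgebraicClosure ℚ), P.LiesOverPrime (qv i) →
        ∀ φ : GQ, P.IsFrobeniusAt φ (qv i) →
          ∃ α β : ResidueField O, α ≠ β ∧ LinearMap.charpoly (ρbar.ρ φ) = (X - C α) * (X - C β)) ∧
      ∀ DQ : GaloisRep.DeformationRingData O ρbar (fun _A _ _ _ ρ =>
          (ρ.DetIsCyclotomic p ∧ Cond ρ ∧
            ∀ q : ℕ, q.Prime → q ∉ (Smin ∪ Finset.univ.image qv) → ρ.IsUnramifiedAt q) ∧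
            ∀ q ∈ Smin, q.Prime → q ≠ p → ρ.IsUnipotentOnInertiaAt q),
        ∃ γ : MvPowerSeries (Fin r) O →ₐ[O] DQ.R, Function.Surjective γ :=
  H56.clause p hp2 GW ρbar habs hdet hsplit hTW S Smin hpSmin hSmin hS hmin b Cond hDef hloc

/-- **S56** (`S56`, `H56S56`): the preceding theorem for the two conditions "strictly ordinary at `p`" and
"flat at `p`". They are deformation conditions by the theorems of `GuideDeformations`, the local bounds
at `p` are those of `GuideLocalBounds` and `GuideFlatBound`, and the inequality `GWIneq p` is proved in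
`H75EC4` (`GuideEulerChar`). -/
theorem taylorWiles_presentations {O : Type} [CommRing O] [IsDomain O]
    [IsDiscreteValuationRing O] [IsAdicComplete (maximalIdeal O) O] [Finite (ResidueField O)]
    (p : ℕ) [Fact p.Prime] (hp2 : p ≠ 2) (hpO : (p : O) ∈ maximalIdeal O)
    (ρbar : ResidualGaloisRep (ResidueField O)) (habs : ρbar.IsAbsolutelyIrreducible)
    (hdet : (GaloisRepAdic.ofResidualGaloisRep ρbar).DetIsCyclotomic p)
    (hsplit : ∀ σ : GQ,
      ∃ α β : ResidueField O, LinearMap.charpoly (ρbar.ρ σ) = (X - C α) * (X - C β))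
    (hTW : ∀ (K : Type) [Field K] [Algebra (ResidueField O) K] (G : Subgroup GQ), G.index = 2 →
      ∀ V : Submodule K (ρbar.baseChange K).V,
        (∀ σ ∈ G, ∀ x ∈ V, (ρbar.baseChange K).ρ σ x ∈ V) → V = ⊥ ∨ V = ⊤)
    (S Smin : Finset ℕ) (hpSmin : p ∈ Smin) (hSmin : Smin ⊆ S) (hS : ∀ q ∈ S, q.Prime)
    (hmin : ∀ q : ℕ, q.Prime → q ≠ p → (q ∈ Smin ↔ ¬ ρbar.IsUnramifiedAt q)) :
    (∃ r : ℕ, ∀ n : ℕ, ∃ qv : Fin r → ℕ, Function.Injective qv ∧
      (∀ i, (qv i).Prime ∧ qv i ∉ S ∧ p ^ (n + 1) ∣ qv i - 1) ∧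
      (∀ i, ∀ P : ValuationSubring (AlgebraicClosure ℚ), P.LiesOverPrime (qv i) →
        ∀ φ : GQ, P.IsFrobeniusAt φ (qv i) →
          ∃ α β : ResidueField O, α ≠ β ∧ LinearMap.charpoly (ρbar.ρ φ) = (X - C α) * (X - C β)) ∧
      ∀ DQ : GaloisRep.DeformationRingData O ρbar (fun _A _ _ _ ρ =>
          GaloisRep.strictOrdinaryCondition O p (Smin ∪ Finset.univ.image qv) ρ ∧
            ∀ q ∈ Smin, q.Prime → q ≠ p → ρ.IsUnipotentOnInertiaAt q),
        ∃ γ : MvPowerSeries (Fin r) O →ₐ[O] DQ.R, Function.Surjective γ) ∧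
    (∃ r : ℕ, ∀ n : ℕ, ∃ qv : Fin r → ℕ, Function.Injective qv ∧
      (∀ i, (qv i).Prime ∧ qv i ∉ S ∧ p ^ (n + 1) ∣ qv i - 1) ∧
      (∀ i, ∀ P : ValuationSubring (AlgebraicClosure ℚ), P.LiesOverPrime (qv i) →
        ∀ φ : GQ, P.IsFrobeniusAt φ (qv i) →
          ∃ α β : ResidueField O, α ≠ β ∧ LinearMap.charpoly (ρbar.ρ φ) = (X - C α) * (X - C β)) ∧
      ∀ DQ : GaloisRep.DeformationRingData O ρbar (fun _A _ _ _ ρ =>
          GaloisRep.flatCondition O p (Smin ∪ Finset.univ.image qv) ρ ∧
            ∀ q ∈ Smin, q.Prime → q ≠ p → ρ.IsUnipotentOnInertiaAt q),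
        ∃ γ : MvPowerSeries (Fin r) O →ₐ[O] DQ.R, Function.Surjective γ) :=
  S56.result p hp2 hpO ρbar habs hdet hsplit hTW S Smin hpSmin hSmin hS hmin

end Fermat.Agent.Guide.TaylorWiles
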