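import Fermat.Agent.H64ThaineC

/-!
# Guide to the proof: Thaine's theorem for `1 - ζ`, step by step (companion of `GuideFermatSmall`)

This file is a machine-checked table of contents. Every theorem below is a citation of a theorem of
the library (one of them of Mathlib), with its statement written out. Nothing imports this file.

**What it contains.** The steps behind `GuideFermatSmall.thaine` (step 3b of the proof of S14: an extension
of `μ_p` by `ℤ/p` which is unramified outside `p` and split at `p` is split). Step 3a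
(`GuideFermatSmall.norm_one_sub_zeta`) and step 3b itself are not repeated. The use of step 3b (the class
group of `ℚ(ζ_p)` has no character of a certain type, `GuideFermatSmall.no_eigencharacter`) is in
`GuideExtensionSteps`.

**The idea.** Let `p` be a prime, `q` a prime with `q ≡ 1` modulo `p`, `K = ℚ(ζ_p)`, `F = K(ζ_q)`, `z = ζ_p`
and `m = ζ_q`. Then `F / K` is cyclic of degree `q - 1`; let `τ`, with `τ(m) = m^g`, be a generator of its
Galois group. The number `ξ = 1 - z m` has norm `1` from `F` to `K`, so it is a unit, and by Hilbert's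
Theorem 90 there is an integer `β ≠ 0` of `F` with `ξ τ(β) = β`. Put `κ = N(β)`.
 * All conjugates of `β` differ from `β` by units. So `κ` is `β^(q - 1)`, up to a unit of `F`.
 * Let `P` be a prime of `F` over `r`. Comparing exponents, `(q - 1) v_P(β) = e(P / r) v_r(κ)`.
 * If `r` does not divide `q`, then `e(P / r) = 1` and `q - 1` divides `v_r(κ)`.
 * If `r` divides `q`, then `e(P / r) = q - 1` and `v_P(β) = v_r(κ)`. Call it `v`. Since `m - 1` generates `P`
   locally at `P`, one has `β y = (m - 1)^v x` with `x` and `y` not in `P`. Now `τ` acts trivially modulo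
   `m - 1`, and `τ(m - 1) / (m - 1) = 1 + m + ⋯ + m^(g - 1)` is congruent to `g` modulo `m - 1`. So
   `ξ τ(β) = β` gives `(1 - z) g^v ≡ 1` modulo `P`, and the same modulo `r = P ∩ 𝓞_K`.
In words: the residue field of `r` is `𝔽_q`, and the discrete logarithm of `1 - z` modulo `r`, with respect
to `g⁻¹`, is the exponent of `r` in `κ`. So the logarithms of `1 - z` modulo the primes above `q` are the
exponents of a principal ideal, up to a `p`-th power of an ideal (`factorisation`): a relation in the
class group. There are no Gauss sums and no Stickelberger elements here.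

**Exponents.** `multiplicity P I` is the exponent of the prime ideal `P` in the ideal `I`, and
`P.ramificationIdx R` the ramification index of `P` over `R`, both as in Mathlib. Completions do not occur.

**Order of the file.** 1. The field `F`. 2. Ramification. 3. Exponents. 4. The element `κ`.

**Where.** NOTES.md, note [287] (NOTES-S14), part [C]. Used in S14 and through it in S15, S12, S09, S03,
S01; `prime_below` and `rational_integers_in_prime` are also used elsewhere. Author: helper64.
-/

set_option autoImplicit false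

open NumberField Polynomial

namespace Fermat.Agent.Guide.Thaine

/-! ## 1. The field `F`

`p` and `q` are different primes, `K` is the field of `p`-th roots of unity over `ℚ` and `F` the field of
`q`-th roots of unity over `K`. -/

section

variable {p q : ℕ} {K F : Type*} [Field K] [NumberField K] [Field F] [NumberField F]
  [Algebra K F]

/-- **`F` is the field of `p q`-th roots of unity over `ℚ`** (`H64Thaine`). -/
theorem cyclotomic_mul [Fact p.Prime] [Fact q.Prime] (hpq : p ≠ q)
    [IsCyclotomicExtension {p} ℚ K] [IsCyclotomicExtension {q} K F] :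
    IsCyclotomicExtension {p * q} ℚ F :=
  H64.isCyclotomicExtension_mul (K := K) hpq

/-- **The degree of `F` over `K` is `q - 1`** (`H64Thaine`): `φ(p q) = (p - 1) (q - 1)`. -/
theorem degree [Fact p.Prime] [Fact q.Prime] (hpq : p ≠ q)
    [IsCyclotomicExtension {p} ℚ K] [IsCyclotomicExtension {q} K F] :
    Module.finrank K F = q - 1 :=
  H64.finrank_KF hpq

/-- **The Galois group of `F` over `K` is `(ℤ / q)ˣ`** (`H64Thaine`), by `σ(μ) = μ^a`: the map `autToPow` of
Mathlib, which is always injective, is bijective by `degree`. So a generator of `(ℤ / q)ˣ` gives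
a generator `τ` of the Galois group. -/
theorem galois_group [Fact p.Prime] [Fact q.Prime] (hpq : p ≠ q)
    [IsCyclotomicExtension {p} ℚ K] [IsCyclotomicExtension {q} K F]
    {μ : F} (hμ : IsPrimitiveRoot μ q) :
    Function.Bijective (hμ.autToPow K) :=
  H64.autToPow_bijective hpq hμ

/-- **A product over the Galois group** (`H64Thaine`) of values at the conjugates of `μ` is the product over
all primitive `q`-th roots of unity. With `f(x) = 1 - z x` one gets the norm of `1 - z μ`, which is
`(1 - z^q) / (1 - z) = 1` for `q ≡ 1` modulo `p` (`GuideFermatSmall.norm_one_sub_zeta`). -/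
theorem product_over_conjugates [Fact p.Prime] [Fact q.Prime] (hpq : p ≠ q)
    [IsCyclotomicExtension {p} ℚ K] [IsCyclotomicExtension {q} K F]
    {μ : F} (hμ : IsPrimitiveRoot μ q) (f : F → F) :
    ∏ σ : Gal(F/K), f (σ μ) = ∏ x ∈ primitiveRoots q F, f x :=
  H64.prod_aut hpq hμ f

/-- **Hilbert's Theorem 90 for integers** (Mathlib): let `F / K` be Galois with a Galois group generated
by `τ`, and `ξ` an integer of `F` of norm `1`. There is an integer `β ≠ 0` of `F` with `ξ τ(β) = β`.
(`galRestrict` is the action of the Galois group on the integers.) -/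
theorem hilbert_ninety {K F : Type} [Field K] [NumberField K] [Field F] [NumberField F]
    [Algebra K F] [IsGalois K F] [IsCyclic Gal(F/K)] {τ : Gal(F/K)}
    (hτ : ∀ σ, σ ∈ Subgroup.zpowers τ) {ξ : 𝓞 F} (hξ : Algebra.norm K (ξ : F) = 1) :
    ∃ β : 𝓞 F, β ≠ 0 ∧ ξ * galRestrict (𝓞 K) K F (𝓞 F) τ β = β :=
  groupCohomology.exists_mul_galRestrict_of_norm_eq_one (A := 𝓞 K) (K := K) (L := F) (B := 𝓞 F) hτ hξ

end

/-! ## 2. Ramification

The primes of `F` above `q` are totally ramified over `K`, the others are unramified over `K`. Both follow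
from the ramification indices of cyclotomic fields over `ℚ`, which are in Mathlib, and from
multiplicativity in towers. -/

/-- **Every nonzero prime of a number field lies over a rational prime** (`H64Ram`). -/
theorem prime_below {L : Type*} [Field L] [NumberField L] (P : Ideal (𝓞 L)) [P.IsPrime]
    (h0 : P ≠ ⊥) :
    ∃ ℓ : ℕ, ℓ.Prime ∧ P.LiesOver (Ideal.span {(ℓ : ℤ)}) :=
  H64.exists_prime_liesOver P h0

/-- **The natural numbers in a prime above `ℓ`** are the multiples of `ℓ` (`H64Ram`). -/
theorem rational_integers_in_prime {L : Type*} [Field L] [NumberField L] (P : Ideal (𝓞 L)) (ℓ : ℕ)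
    [P.LiesOver (Ideal.span {(ℓ : ℤ)})] (m : ℕ) :
    (m : 𝓞 L) ∈ P ↔ ℓ ∣ m :=
  H64.natCast_mem_iff_of_liesOver P ℓ m

section

variable {p q : ℕ} {K F : Type*} [Field K] [NumberField K] [Field F] [NumberField F]
  [Algebra K F]

/-- **Outside `q` the extension `F / K` is unramified** (`H64Ram`). At the primes above `p` one has
`p - 1 = (p - 1) e`, at the others `e` divides `1`. -/
theorem unramified_outside_q [Fact p.Prime] [Fact q.Prime] (hpq : p ≠ q)
    [IsCyclotomicExtension {p} ℚ K] [IsCyclotomicExtension {q} K F]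
    (P : Ideal (𝓞 F)) [P.IsPrime] (hP0 : P ≠ ⊥) (hq : (q : 𝓞 F) ∉ P) :
    P.ramificationIdx (𝓞 K) = 1 :=
  H64.ramificationIdx_of_not_mem hpq P hP0 hq

/-- **At `q` it is totally ramified** (`H64Ram`): the ramification index of `P` over `ℚ` and over `K` is
`q - 1`. -/
theorem ramified_at_q [Fact p.Prime] [Fact q.Prime] (hpq : p ≠ q)
    [IsCyclotomicExtension {p} ℚ K] [IsCyclotomicExtension {q} K F]
    (P : Ideal (𝓞 F)) [P.IsPrime] (hP0 : P ≠ ⊥) (hq : (q : 𝓞 F) ∈ P) :
    P.ramificationIdx ℤ = q - 1 ∧ P.ramificationIdx (𝓞 K) = q - 1 :=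
  H64.ramificationIdx_of_mem hpq P hP0 hq

/-- **`(m - 1)^(q - 1)` is `q` up to a unit** (`H64ThaineMain`), for a primitive `q`-th root of unity `m` of
any domain: `q` is the value at `1` of the cyclotomic polynomial, the product of all `1 - m^i` with `i`
prime to `q`, and these factors differ by units. -/
theorem prime_power_of_uniformizer {R : Type*} [CommRing R] [IsDomain R] {q : ℕ}
    (hq : q.Prime) {m : R} (hm : IsPrimitiveRoot m q) :
    Associated ((m - 1) ^ (q - 1)) (q : R) :=
  H64.associated_sub_one_pow_prime hq hm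

/-- **`m - 1` generates each prime above `q` locally** (`H64ThaineMain`): its exponent `v` at `P` satisfies
`(q - 1) v = e(P / q) = q - 1`. -/
theorem uniformizer_at_q [Fact p.Prime] [Fact q.Prime] (hpq : p ≠ q)
    [IsCyclotomicExtension {p} ℚ K] [IsCyclotomicExtension {q} K F]
    {m : 𝓞 F} (hm : IsPrimitiveRoot m q) (P : Ideal (𝓞 F)) [P.IsPrime] (hq : (q : 𝓞 F) ∈ P) :
    multiplicity P (Ideal.span {m - 1}) = 1 :=
  H64.multiplicity_sub_one (K := K) hpq hm P hq

/-- **The Galois group acts trivially modulo `m - 1`** (`H64ThaineMain`): the ring of integers of `F` is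
generated by `z m` (Mathlib), and `T(z m) - z m = z (m^g - m)` is divisible by `m - 1`; pass to sums and
products with `T(a b) - a b = T(a) (T(b) - b) + b (T(a) - a)`. -/
theorem trivial_modulo_uniformizer [Fact p.Prime] [Fact q.Prime] (hpq : p ≠ q)
    [IsCyclotomicExtension {p} ℚ K] [IsCyclotomicExtension {q} K F]
    {m : 𝓞 F} (hm : IsPrimitiveRoot m q) {z : 𝓞 K} (hz : IsPrimitiveRoot z p)
    (T : 𝓞 F →ₐ[𝓞 K] 𝓞 F) {g : ℕ} (hg : T m = m ^ g) (x : 𝓞 F) :
    m - 1 ∣ T x - x :=
  H64.sub_one_dvd_map_sub hpq hm hz T hg x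

/-! ## 3. Exponents -/

/-- **Exponents of an element of `K` which becomes an `n`-th power** (`H64ThaineMain`), up to a unit of `F`:
if `κ = β^n` in this sense, then `n v_P(β) = e(P / r) v_r(κ)` for `r = P ∩ 𝓞_K`. -/
theorem compare_exponents {κ : 𝓞 K} (hκ : κ ≠ 0) {β : 𝓞 F} {n : ℕ}
    (h : Associated (algebraMap (𝓞 K) (𝓞 F) κ) (β ^ n))
    (P : Ideal (𝓞 F)) [P.IsPrime] (hP0 : P ≠ ⊥) :
    n * multiplicity P (Ideal.span {β}) =
      P.ramificationIdx (𝓞 K) * multiplicity (P.under (𝓞 K)) (Ideal.span {κ}) :=
  H64.multiplicity_of_associated hκ h P hP0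

end

/-- **Local form of an element** (`H64Ram`): let `P` be a nonzero prime of a Dedekind domain and `π` an
element of exponent one at `P`. Then `β y = π^v x` with the exponent `v` of `β` and with `x` and `y` not
in `P`. (`(π) = P B` and `(β) = P^v C` with `B` and `C` prime to `P`; choose `y` in `B^v`, not in `P`.) -/
theorem local_form {R : Type*} [CommRing R] [IsDedekindDomain R] (P : Ideal R) [P.IsPrime]
    (hP0 : P ≠ ⊥) {π β : R} (hπ : multiplicity P (Ideal.span {π}) = 1) (hπ0 : π ≠ 0)
    (hβ : β ≠ 0) :
    ∃ x y : R, x ∉ P ∧ y ∉ P ∧ β * y = π ^ (multiplicity P (Ideal.span {β})) * x :=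
  H64.exists_mul_eq_pow_mul P hP0 hπ hπ0 hβ

/-- **Collecting `p`-th powers** (`H64ThaineC`): if the exponents of `I` at all primes outside a finite set
`S` are divisible by `p`, then `I` is the `p`-th power of an ideal times the product of the powers of the
primes of `S` which occur in `I`. -/
theorem factorisation {R : Type*} [CommRing R] [IsDedekindDomain R] {I : Ideal R} (hI : I ≠ ⊥)
    (S : Finset (Ideal R)) (hS : ∀ P ∈ S, P.IsPrime ∧ P ≠ ⊥) (p : ℕ)
    (hp : ∀ P : Ideal R, P.IsPrime → P ≠ ⊥ → P ∉ S → p ∣ multiplicity P I) :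
    ∃ B : Ideal R, I = B ^ p * ∏ P ∈ S, P ^ multiplicity P I :=
  H64.factor_split hI S hS p hp

/-! ## 4. The element `κ` -/

/-- **The element `κ = N(β)`** (`H64ThaineMain`). Let `q ≡ 1` modulo `p` and let `g` generate `(ℤ / q)ˣ`.
There is `κ ≠ 0` in `𝓞_K` such that
 * the exponent of `κ` at every prime which does not divide `q` is divisible by `q - 1`;
 * `(1 - z) g^v ≡ 1` modulo `r` for each prime `r` above `q`, where `v` is the exponent of `κ` at `r`.
The proof is the one in the header. `GuideFermatSmall.thaine` follows from this and `factorisation` (since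
`p` divides `q - 1`), with `F = CyclotomicField q K` and with `g⁻¹` in the place of `g`. -/
theorem exists_kappa {p q : ℕ} [Fact p.Prime] [Fact q.Prime] (hpq : q ≡ 1 [MOD p])
    {K F : Type} [Field K] [NumberField K] [Field F] [NumberField F]
    [Algebra K F] [IsCyclotomicExtension {p} ℚ K] [IsCyclotomicExtension {q} K F]
    {z : 𝓞 K} (hz : IsPrimitiveRoot z p) (g : (ZMod q)ˣ) (hg : ∀ x, x ∈ Subgroup.zpowers g) :
    ∃ κ : 𝓞 K, κ ≠ 0 ∧
      (∀ r : Ideal (𝓞 K), r.IsPrime → r ≠ ⊥ → (q : 𝓞 K) ∉ r →
        (q - 1) ∣ multiplicity r (Ideal.span {κ})) ∧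
      (∀ r : Ideal (𝓞 K), r.IsPrime → (q : 𝓞 K) ∈ r →
        (1 - z) * ((g : ZMod q).val : 𝓞 K) ^ multiplicity r (Ideal.span {κ}) - 1 ∈ r) :=
  H64.thaine_aux (F := F) hpq hz g hg

end Fermat.Agent.Guide.Thaine
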