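import Fermat.Agent.H96TIface

/-!
# The action of `Γ₀(N)` on Hermitian vectors, invariance of the theta kernel in `w` (helper96)
-/

set_option autoImplicit false

noncomputable section

open MeasureTheory
open scoped ComplexConjugate Real

namespace Fermat.Agent.S47T

/-! ### integers in `ℤ[ω]` -/

/-- The norm of an element of `ℤ[ω]`, an integer. -/
theorem exists_norm (x : Eis) : ∃ n : ℤ, (x : ℂ) * conj (x : ℂ) = n := by
  obtain ⟨_, a, b, rfl⟩ := x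
  refine ⟨a ^ 2 - a * b + b ^ 2, ?_⟩
  rw [Complex.mul_conj, normSq_eis]
  push_cast
  ring

/-- `Tr(x / √-3)` is an integer. -/
theorem exists_trace (x : Eis) : ∃ n : ℤ, (x : ℂ) / sq3 + conj ((x : ℂ) / sq3) = n := by
  obtain ⟨_, a, b, rfl⟩ := x
  refine ⟨b, ?_⟩
  have h := sq3_ne_zero
  rw [map_div₀, conj_sq3, map_add, map_mul, conj_om, map_intCast, map_intCast]
  field_simp
  rw [sq3_eq]
  ring

/-- The Hermitian matrix of an index. -/
def hm (x : Lat) : Matrix (Fin 2) (Fin 2) ℂ := hmat x.1 ((x.2.1 : ℂ) / sq3) x.2.2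

theorem hm_injective : Function.Injective hm := by
  rintro ⟨a, β, d⟩ ⟨a', β', d'⟩ h
  have h00 := congrFun (congrFun h 0) 0
  have h01 := congrFun (congrFun h 0) 1
  have h11 := congrFun (congrFun h 1) 1
  simp only [hm, hmat, Matrix.of_apply, Matrix.cons_val', Matrix.cons_val_one,
    Matrix.cons_val_zero, Matrix.cons_val_fin_one] at h00 h01 h11
  have e1 : a = a' := by exact_mod_cast h00
  have e2 : β = β' := Subtype.ext ((div_left_inj' sq3_ne_zero).mp h01)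
  have e3 : d = d' := by exact_mod_cast h11
  rw [e1, e2, e3]

/-- A matrix is the Hermitian matrix of an index. -/
structure IsHm (X : Matrix (Fin 2) (Fin 2) ℂ) : Prop where
  h00 : ∃ a : ℤ, X 0 0 = a
  h11 : ∃ d : ℤ, X 1 1 = d
  h01 : ∃ β : Eis, X 0 1 = (β : ℂ) / sq3
  h10 : X 1 0 = conj (X 0 1)

theorem isHm_hm (x : Lat) : IsHm (hm x) :=
  ⟨⟨x.1, by simp [hm, hmat]⟩, ⟨x.2.2, by simp [hm, hmat]⟩, ⟨x.2.1, by simp [hm, hmat]⟩,
    by simp [hm, hmat]⟩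

theorem IsHm.exists {X : Matrix (Fin 2) (Fin 2) ℂ} (h : IsHm X) : ∃ x : Lat, hm x = X := by
  obtain ⟨a, ha⟩ := h.h00
  obtain ⟨d, hd⟩ := h.h11
  obtain ⟨β, hβ⟩ := h.h01
  refine ⟨(a, β, d), ?_⟩
  ext i j
  fin_cases i <;> fin_cases j
  · simp [hm, hmat, ha]
  · simp [hm, hmat, hβ]
  · simp [hm, hmat, h.h10, hβ]
  · simp [hm, hmat, hd]

/-- Conjugating the Hermitian matrix of an index by a matrix with entries in `ℤ[ω]`. -/
theorem isHm_conj (g : Matrix (Fin 2) (Fin 2) ℂ) (hg : ∀ i j, g i j ∈ Eis) (x : Lat) :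
    IsHm (g * hm x * g.conjTranspose) := by
  obtain ⟨a, β, d⟩ := x
  have key : ∀ i j, (g * hm (a, β, d) * g.conjTranspose) i j =
      g i 0 * a * conj (g j 0) + g i 0 * ((β : ℂ) / sq3) * conj (g j 1) +
      g i 1 * conj ((β : ℂ) / sq3) * conj (g j 0) + g i 1 * d * conj (g j 1) := by
    intro i j
    rw [Matrix.mul_apply, Fin.sum_univ_two, Matrix.mul_apply, Matrix.mul_apply,
      Fin.sum_univ_two, Fin.sum_univ_two]
    simp only [hm, hmat, Matrix.of_apply, Matrix.cons_val', Matrix.cons_val_one,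
      Matrix.cons_val_zero, Matrix.cons_val_fin_one, Matrix.conjTranspose_apply, Complex.star_def,
      Complex.ofReal_intCast]
    ring
  have diag : ∀ i, ∃ n : ℤ, (g * hm (a, β, d) * g.conjTranspose) i i = n := by
    intro i
    obtain ⟨n1, h1⟩ := exists_norm ⟨g i 0, hg i 0⟩
    obtain ⟨n2, h2⟩ := exists_norm ⟨g i 1, hg i 1⟩
    obtain ⟨n3, h3⟩ := exists_trace (⟨g i 0, hg i 0⟩ * β * conjE ⟨g i 1, hg i 1⟩)
    simp only [Subring.coe_mul, coe_conjE] at h1 h2 h3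
    refine ⟨n1 * a + n2 * d + n3, ?_⟩
    rw [key]
    push_cast
    rw [← h1, ← h2, ← h3]
    simp only [map_mul, map_div₀, Complex.conj_conj]
    ring
  refine ⟨diag 0, diag 1, ?_, ?_⟩
  · refine ⟨sq3E * (⟨g 0 0, hg 0 0⟩ * (a : Eis) * conjE ⟨g 1 0, hg 1 0⟩) +
      ⟨g 0 0, hg 0 0⟩ * β * conjE ⟨g 1 1, hg 1 1⟩ -
      ⟨g 0 1, hg 0 1⟩ * conjE β * conjE ⟨g 1 0, hg 1 0⟩ +
      sq3E * (⟨g 0 1, hg 0 1⟩ * (d : Eis) * conjE ⟨g 1 1, hg 1 1⟩), ?_⟩
    rw [key]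
    have h := sq3_ne_zero
    simp only [Subring.coe_mul, coe_conjE, Subring.coe_add, AddSubgroupClass.coe_sub, coe_sq3E,
      SubringClass.coe_intCast, map_div₀, conj_sq3]
    field_simp
    ring
  · rw [key, key]
    simp only [map_add, map_mul, Complex.conj_conj, map_intCast]
    ring

/-- The action of a matrix with entries in `ℤ[ω]` on the index set. -/
def gL (g : Matrix (Fin 2) (Fin 2) ℂ) (hg : ∀ i j, g i j ∈ Eis) (x : Lat) : Lat :=
  (isHm_conj g hg x).exists.choose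

theorem hm_gL (g : Matrix (Fin 2) (Fin 2) ℂ) (hg : ∀ i j, g i j ∈ Eis) (x : Lat) :
    hm (gL g hg x) = g * hm x * g.conjTranspose :=
  (isHm_conj g hg x).exists.choose_spec

/-- Explicit formula for the last coordinate. -/
theorem gL_d (g : Matrix (Fin 2) (Fin 2) ℂ) (hg : ∀ i j, g i j ∈ Eis) (x : Lat) :
    ((gL g hg x).2.2 : ℂ) =
      g 1 0 * conj (g 1 0) * x.1 + (g 1 0 * ((x.2.1 : ℂ) / sq3) * conj (g 1 1) +
        conj (g 1 0 * ((x.2.1 : ℂ) / sq3) * conj (g 1 1))) + g 1 1 * conj (g 1 1) * x.2.2 := by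
  have h := congrFun (congrFun (hm_gL g hg x) 1) 1
  rw [Matrix.mul_apply, Fin.sum_univ_two, Matrix.mul_apply, Matrix.mul_apply,
      Fin.sum_univ_two, Fin.sum_univ_two] at h
  simp only [hm, hmat, Matrix.of_apply, Matrix.cons_val', Matrix.cons_val_one,
      Matrix.cons_val_zero, Matrix.cons_val_fin_one, Matrix.conjTranspose_apply, Complex.star_def,
      Complex.ofReal_intCast] at h
  rw [h]
  simp only [map_mul, Complex.conj_conj]
  ring

/-- Explicit formula for the middle coordinate. -/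
theorem gL_b (g : Matrix (Fin 2) (Fin 2) ℂ) (hg : ∀ i j, g i j ∈ Eis) (x : Lat) :
    ((gL g hg x).2.1 : ℂ) =
      sq3 * (g 0 0 * conj (g 1 0)) * x.1 + g 0 0 * conj (g 1 1) * x.2.1 -
        g 0 1 * conj (g 1 0) * conj (x.2.1 : ℂ) + sq3 * (g 0 1 * conj (g 1 1)) * x.2.2 := by
  have h := congrFun (congrFun (hm_gL g hg x) 0) 1
  rw [Matrix.mul_apply, Fin.sum_univ_two, Matrix.mul_apply, Matrix.mul_apply,
      Fin.sum_univ_two, Fin.sum_univ_two] at h
  simp only [hm, hmat, Matrix.of_apply, Matrix.cons_val', Matrix.cons_val_one,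
      Matrix.cons_val_zero, Matrix.cons_val_fin_one, Matrix.conjTranspose_apply, Complex.star_def,
      Complex.ofReal_intCast, map_div₀, conj_sq3] at h
  have h3 := sq3_ne_zero
  rw [div_eq_iff h3] at h
  rw [h]
  field_simp
  ring

theorem det_hm (x : Lat) : (hm x).det = ((-qL x : ℝ) : ℂ) := det_hmat _ _ _

theorem trace_hm (x : Lat) (w : H3) :
    (hm x * (H3.herm w).adjugate).trace = ((2 * pL x w : ℝ) : ℂ) := trace_hmat _ _ _ w

theorem qL_gL {g : Matrix (Fin 2) (Fin 2) ℂ} (hg : ∀ i j, g i j ∈ Eis) (hdet : g.det = 1)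
    (x : Lat) : qL (gL g hg x) = qL x := by
  have h := det_hm (gL g hg x)
  rw [hm_gL, Matrix.det_mul, Matrix.det_mul, Matrix.det_conjTranspose, hdet, star_one, one_mul,
    mul_one, det_hm] at h
  have h' : -qL x = -qL (gL g hg x) := by exact_mod_cast h
  linarith

/-- The general transformation formula of the pairing. -/
theorem pL_smul (g : GL (Fin 2) ℂ)
    (hg : ∀ i j, (g : Matrix (Fin 2) (Fin 2) ℂ).adjugate i j ∈ Eis) (x : Lat) (w : H3) :
    ‖(g : Matrix (Fin 2) (Fin 2) ℂ).det‖ * pL x (g • w) =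
      pL (gL (g : Matrix (Fin 2) (Fin 2) ℂ).adjugate hg x) w := by
  set G := (g : Matrix (Fin 2) (Fin 2) ℂ) with hG
  have hn : ((‖G.det‖ : ℝ) : ℂ) ≠ 0 := by
    exact_mod_cast (norm_pos_iff.mpr g.det.ne_zero).ne'
  have h1 := trace_hm x (g • w)
  have h2 := trace_hm (gL G.adjugate hg x) w
  rw [hm_gL] at h2
  rw [H3.herm_smul, Matrix.adjugate_smul, Fintype.card_fin, pow_one, Matrix.mul_smul,
    Matrix.trace_smul, smul_eq_mul, Matrix.adjugate_mul_distrib, Matrix.adjugate_mul_distrib]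
    at h1
  have e : (hm x * ((G.conjTranspose).adjugate * ((H3.herm w).adjugate * G.adjugate))).trace =
      (G.adjugate * hm x * G.adjugate.conjTranspose * (H3.herm w).adjugate).trace := by
    rw [← Matrix.adjugate_conjTranspose]
    rw [← Matrix.mul_assoc, ← Matrix.mul_assoc, Matrix.trace_mul_comm]
    simp only [Matrix.mul_assoc]
  rw [e, h2] at h1
  have h3 : ((‖G.det‖ : ℝ) : ℂ) * ((2 * pL x (g • w) : ℝ) : ℂ) =
      ((2 * pL (gL G.adjugate hg x) w : ℝ) : ℂ) := by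
    rw [← h1, ← mul_assoc, hG] at *
    rw [mul_inv_cancel₀ hn, one_mul]
  have h4 : ‖G.det‖ * (2 * pL x (g • w)) = 2 * pL (gL G.adjugate hg x) w := by exact_mod_cast h3
  linarith

theorem coe_inv_eq_adjugate {g : GL (Fin 2) ℂ} (hg : (g : Matrix (Fin 2) (Fin 2) ℂ).det = 1) :
    ((g⁻¹ : GL (Fin 2) ℂ) : Matrix (Fin 2) (Fin 2) ℂ) =
      (g : Matrix (Fin 2) (Fin 2) ℂ).adjugate := by
  rw [Matrix.coe_units_inv, Matrix.inv_def, hg, Ring.inverse_one, one_smul]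

theorem gL_gL_inv {g : GL (Fin 2) ℂ} (hg : ∀ i j, (g : Matrix (Fin 2) (Fin 2) ℂ) i j ∈ Eis)
    (hi : ∀ i j, ((g⁻¹ : GL (Fin 2) ℂ) : Matrix (Fin 2) (Fin 2) ℂ) i j ∈ Eis) (x : Lat) :
    gL g hg (gL (g⁻¹ : GL (Fin 2) ℂ) hi x) = x := by
  apply hm_injective
  rw [hm_gL, hm_gL]
  have h1 : (g : Matrix (Fin 2) (Fin 2) ℂ) * ((g⁻¹ : GL (Fin 2) ℂ) : Matrix (Fin 2) (Fin 2) ℂ) =
      1 := by rw [← Units.val_mul, mul_inv_cancel, Units.val_one]
  calc (g : Matrix (Fin 2) (Fin 2) ℂ) * (((g⁻¹ : GL (Fin 2) ℂ) : Matrix (Fin 2) (Fin 2) ℂ) *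
        hm x * ((g⁻¹ : GL (Fin 2) ℂ) : Matrix (Fin 2) (Fin 2) ℂ).conjTranspose) *
        (g : Matrix (Fin 2) (Fin 2) ℂ).conjTranspose
      = ((g : Matrix (Fin 2) (Fin 2) ℂ) * ((g⁻¹ : GL (Fin 2) ℂ) : Matrix (Fin 2) (Fin 2) ℂ)) *
        hm x * ((g : Matrix (Fin 2) (Fin 2) ℂ) *
          ((g⁻¹ : GL (Fin 2) ℂ) : Matrix (Fin 2) (Fin 2) ℂ)).conjTranspose := by
        rw [Matrix.conjTranspose_mul]
        simp only [Matrix.mul_assoc]
    _ = hm x := by rw [h1, Matrix.one_mul, Matrix.conjTranspose_one, Matrix.mul_one]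

/-- The permutation of the index set attached to an invertible matrix over `ℤ[ω]`. -/
def gLE (g : GL (Fin 2) ℂ) (hg : ∀ i j, (g : Matrix (Fin 2) (Fin 2) ℂ) i j ∈ Eis)
    (hi : ∀ i j, ((g⁻¹ : GL (Fin 2) ℂ) : Matrix (Fin 2) (Fin 2) ℂ) i j ∈ Eis) : Lat ≃ Lat where
  toFun := gL g hg
  invFun := gL (g⁻¹ : GL (Fin 2) ℂ) hi
  left_inv x := by
    have h := gL_gL_inv (g := g⁻¹) hi (by rw [inv_inv]; exact hg) x
    simpa only [inv_inv] using h
  right_inv x := gL_gL_inv hg hi x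

@[simp] theorem gLE_apply (g : GL (Fin 2) ℂ)
    (hg : ∀ i j, (g : Matrix (Fin 2) (Fin 2) ℂ) i j ∈ Eis)
    (hi : ∀ i j, ((g⁻¹ : GL (Fin 2) ℂ) : Matrix (Fin 2) (Fin 2) ℂ) i j ∈ Eis) (x : Lat) :
    gLE g hg hi x = gL g hg x := rfl

/-- Invariance of a theta kernel under a matrix of determinant one preserving the test
function. -/
theorem Theta_smul (n : ℕ) (φ : Lat → ℂ) (τ : ℂ) (w : H3) (g : GL (Fin 2) ℂ)
    (hdet : (g : Matrix (Fin 2) (Fin 2) ℂ).det = 1)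
    (hg : ∀ i j, (g : Matrix (Fin 2) (Fin 2) ℂ) i j ∈ Eis)
    (hi : ∀ i j, ((g⁻¹ : GL (Fin 2) ℂ) : Matrix (Fin 2) (Fin 2) ℂ) i j ∈ Eis)
    (hφ : ∀ x, φ (gL g hg x) = φ x) :
    Theta n φ τ (g • w) = Theta n φ τ w := by
  rw [Theta, Theta]
  congr 1
  rw [← (gLE g hg hi).tsum_eq]
  refine tsum_congr fun x => ?_
  rw [gLE_apply, hφ, qL_gL hg hdet]
  have hadj : ∀ i j, (g : Matrix (Fin 2) (Fin 2) ℂ).adjugate i j ∈ Eis := by
    rw [← coe_inv_eq_adjugate hdet]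
    exact hi
  have h1 := pL_smul g hadj (gL g hg x) w
  rw [hdet, norm_one, one_mul] at h1
  have h2 : gL (g : Matrix (Fin 2) (Fin 2) ℂ).adjugate hadj (gL g hg x) = x := by
    have h := (gLE g hg hi).symm_apply_apply x
    have h3 : (gLE g hg hi).symm (gLE g hg hi x) =
        gL (g⁻¹ : GL (Fin 2) ℂ) hi (gL g hg x) := rfl
    rw [h3] at h
    simp only [coe_inv_eq_adjugate hdet] at h
    exact h
  rw [h1, h2]

/-! ### invariance of the test function -/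

theorem isCoprime_entry {N : ℕ} {p q : Eis} {x : Eis} {r s : Eis} (h : p * s - q * r = 1)
    (hr : r = N * x) : IsCoprime p (N : Eis) ∧ IsCoprime s (N : Eis) := by
  constructor
  · exact ⟨s, -(q * x), by rw [hr] at h; linear_combination h⟩
  · exact ⟨p, -(q * x), by rw [hr] at h; linear_combination h⟩

theorem isCoprime_conjE {N : ℕ} {x : Eis} (h : IsCoprime x (N : Eis)) :
    IsCoprime (conjE x) (N : Eis) := by
  have := h.map conjE
  rwa [map_natCast] at this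

theorem phiN_gL_aux {N : ℕ} {g : GL (Fin 2) ℂ} (hg : g ∈ Gam N) (x : Lat)
    (hx : (N : ℤ) ∣ x.2.2 ∧ IsCoprime x.2.1 (N : Eis)) :
    (N : ℤ) ∣ (gL g hg.2.1 x).2.2 ∧ IsCoprime (gL g hg.2.1 x).2.1 (N : Eis) := by
  obtain ⟨hdet, hE, y, hy, hgy⟩ := hg
  set G := (g : Matrix (Fin 2) (Fin 2) ℂ) with hG
  obtain ⟨⟨d, hd⟩, hcop⟩ := hx
  have hcop2 : IsCoprime (⟨G 0 0, hE 0 0⟩ : Eis) (N : Eis) ∧
      IsCoprime (⟨G 1 1, hE 1 1⟩ : Eis) (N : Eis) := by
    refine isCoprime_entry (q := ⟨G 0 1, hE 0 1⟩) (r := ⟨G 1 0, hE 1 0⟩) (x := ⟨y, hy⟩) ?_ ?_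
    · apply Subtype.ext
      rw [Matrix.det_fin_two] at hdet
      simpa using hdet
    · apply Subtype.ext
      simpa using hgy
  constructor
  · -- the last coordinate
    have h1 := gL_d G hE x
    rw [hgy] at h1
    obtain ⟨n1, h2⟩ := exists_norm ⟨y, hy⟩
    obtain ⟨n2, h3⟩ := exists_norm ⟨G 1 1, hE 1 1⟩
    obtain ⟨n3, h4⟩ := exists_trace (⟨y, hy⟩ * x.2.1 * conjE ⟨G 1 1, hE 1 1⟩)
    simp only [Subring.coe_mul, coe_conjE] at h2 h3 h4
    refine ⟨n1 * N * x.1 + n3 + n2 * d, ?_⟩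
    have h5 : ((gL G hE x).2.2 : ℂ) = ((N * (n1 * N * x.1 + n3 + n2 * d) : ℤ) : ℂ) := by
      rw [h1, hd]
      push_cast
      rw [← h2, ← h3, ← h4]
      simp only [map_mul, map_div₀, Complex.conj_conj, map_natCast]
      ring
    exact_mod_cast h5
  · -- the middle coordinate
    have h1 := gL_b G hE x
    have h2 : (gL G hE x).2.1 = (⟨G 0 0, hE 0 0⟩ * conjE ⟨G 1 1, hE 1 1⟩ * x.2.1 : Eis) +
        N * (sq3E * (⟨G 0 0, hE 0 0⟩ * conjE ⟨y, hy⟩) * (x.1 : Eis) -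
          ⟨G 0 1, hE 0 1⟩ * conjE ⟨y, hy⟩ * conjE x.2.1 +
          sq3E * (⟨G 0 1, hE 0 1⟩ * conjE ⟨G 1 1, hE 1 1⟩) * (d : Eis)) := by
      apply Subtype.ext
      rw [h1, hgy, hd]
      simp only [Subring.coe_mul, coe_conjE, Subring.coe_add, AddSubgroupClass.coe_sub, coe_sq3E,
        SubringClass.coe_intCast, SubringClass.coe_natCast, map_mul, map_natCast]
      push_cast
      ring
    rw [h2]
    have h3 : IsCoprime (⟨G 0 0, hE 0 0⟩ * conjE ⟨G 1 1, hE 1 1⟩ * x.2.1 : Eis) (N : Eis) :=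
      (hcop2.1.mul_left (isCoprime_conjE hcop2.2)).mul_left hcop
    exact h3.add_mul_left_left _

theorem phiN_gL {N : ℕ} {g : GL (Fin 2) ℂ} (hg : g ∈ Gam N) (x : Lat) :
    phiN N (gL g hg.2.1 x) = phiN N x := by
  have hi : g⁻¹ ∈ Gam N := (Gam N).inv_mem hg
  have h2 : gL (g⁻¹ : GL (Fin 2) ℂ) hi.2.1 (gL g hg.2.1 x) = x :=
    (gLE g hg.2.1 hi.2.1).symm_apply_apply x
  unfold phiN
  by_cases h : (N : ℤ) ∣ x.2.2 ∧ IsCoprime x.2.1 (N : Eis)
  · rw [if_pos h, if_pos (phiN_gL_aux hg x h)]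
  · rw [if_neg h, if_neg]
    intro h'
    have := phiN_gL_aux hi _ h'
    rw [h2] at this
    exact h this

/-- (T1c). -/
theorem t1c (N : ℕ) : T1c N := by
  intro g hg τ w
  exact Theta_smul 1 (phiN N) τ w g hg.1 hg.2.1 ((Gam N).inv_mem hg).2.1 (phiN_gL hg)

end Fermat.Agent.S47T
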