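import Fermat.Agent.H98U3
import Fermat.Agent.H96TC

/-!
# S47 block (T), [T1-U], part 4: invariance of the classes, and `T1a` with this conjunct
(helper98)
-/

set_option autoImplicit false

noncomputable section

open scoped ComplexConjugate Real

namespace Fermat.Agent.H98U

open Fermat.Agent.S47T
open Fermat.Agent.H8T (actL hmatL hmatL_actL hmatL_injective)

local notation "LL" => Fermat.Agent.S47T.Lat

theorem gL_eq_actL {g : GL (Fin 2) ℂ} (hg : g ∈ Gam 1)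
    (hE : ∀ i j, (g : Matrix (Fin 2) (Fin 2) ℂ) i j ∈ Eis) (x : LL) :
    gL (g : Matrix (Fin 2) (Fin 2) ℂ) hE x = actL hg x := by
  apply hmatL_injective
  rw [hmatL_actL]
  exact hm_gL _ hE x

/-- the entries of an element of `GamP m` -/
theorem GamP_entries (m : ℕ) {g : GL (Fin 2) ℂ} (hg : g ∈ GamP m) :
    ∀ i j, (g : Matrix (Fin 2) (Fin 2) ℂ) i j ∈ Eis := (GamP_le m hg).2.1

theorem mk_gL (n : ℕ) [NeZero n] {g : GL (Fin 2) ℂ} (hg : g ∈ GamP (3 * n ^ 2))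
    (hE : ∀ i j, (g : Matrix (Fin 2) (Fin 2) ℂ) i j ∈ Eis) (x : LL) :
    ((gL (g : Matrix (Fin 2) (Fin 2) ℂ) hE x : LL) : DD n) = (x : DD n) := by
  rw [gL_eq_actL (GamP_le _ hg) hE, actL_GamP n hg]

/-- the classes are invariant under `GamP (3 n²)` -/
theorem cls_gL (n : ℕ) [NeZero n] {g : GL (Fin 2) ℂ} (hg : g ∈ GamP (3 * n ^ 2))
    (hE : ∀ i j, (g : Matrix (Fin 2) (Fin 2) ℂ) i j ∈ Eis) (h : DD n) (x : LL) :
    cls n h (gL (g : Matrix (Fin 2) (Fin 2) ℂ) hE x) = cls n h x := by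
  rw [cls, cls, mk_gL n hg hE]

theorem cls_actL (n : ℕ) [NeZero n] {g : GL (Fin 2) ℂ} (hg : g ∈ GamP (3 * n ^ 2)) (h : DD n)
    (x : LL) : cls n h (actL (GamP_le _ hg) x) = cls n h x := by
  rw [cls, cls, actL_GamP n hg]

/-- `GamP` of a multiple -/
theorem GamP_anti {m m' : ℕ} (h : m ∣ m') : GamP m' ≤ GamP m := by
  rintro g ⟨hg1, hg2⟩
  refine ⟨hg1, fun i j => ?_⟩
  obtain ⟨x, hx, hgx⟩ := hg2 i j
  obtain ⟨k, rfl⟩ := h
  refine ⟨k * x, Eis.mul_mem (natCast_mem _ _) hx, ?_⟩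
  rw [hgx]
  push_cast
  ring

/-- **`T1a N`** with the invariance of the test functions -/
theorem t1a_inv (N : ℕ) (hN : 0 < N) :
    ∃ (m : ℕ) (_ : 0 < m) (I : Type) (_ : Fintype I) (_ : DecidableEq I) (φs : I → LL → ℂ)
    (A B : Matrix I I ℂ) (a : I → ℂ), 3 ∣ m ∧ N ∣ m ∧
    A ∈ Matrix.unitaryGroup I ℂ ∧ B ∈ Matrix.unitaryGroup I ℂ ∧
    (∀ i x, ‖φs i x‖ ≤ 1) ∧
    (∀ g ∈ GamP m, ∀ (hE : ∀ i j, (g : Matrix (Fin 2) (Fin 2) ℂ) i j ∈ Eis) i x,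
      φs i (gL (g : Matrix (Fin 2) (Fin 2) ℂ) hE x) = φs i x) ∧
    (∀ g ∈ GamP m, ∀ i τ w, 0 < τ.im → Theta N (φs i) τ (g • w) = Theta N (φs i) τ w) ∧
    (∀ i τ w, 0 < τ.im → Theta N (φs i) (τ + 1) w = ∑ j, A i j * Theta N (φs j) τ w) ∧
    (∀ i τ w, 0 < τ.im → Theta N (φs i) (-1 / τ) w = τ * ∑ j, B i j * Theta N (φs j) τ w) ∧
    (∀ τ w, 0 < τ.im → Theta 1 (phiN N) τ w = ∑ i, a i * Theta N (φs i) τ w) := by
  have : NeZero N := ⟨hN.ne'⟩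
  obtain ⟨a, -, ha⟩ := theta_sum N (up_phiN N)
  refine ⟨3 * N ^ 2, by positivity, DD N, inferInstance, inferInstance, cls N, Amat N,
    Bmat N (kap N), a, Dvd.intro _ rfl, ⟨3 * N, by ring⟩, Amat_mem N, Bmat_unitary N,
    norm_cls_le N, ?_, ?_, ?_, ?_, ?_⟩
  · intro g hg hE i x
    exact cls_gL N hg hE i x
  · intro g hg h τ w _
    exact theta_w N hg h τ w
  · intro h τ w _
    rw [theta_T]
    rw [Finset.sum_eq_single h]
    · rw [Amat, Matrix.diagonal_apply_eq]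
    · intro k _ hk
      rw [Amat, Matrix.diagonal_apply_ne' _ hk, zero_mul]
    · intro h; exact absurd (Finset.mem_univ _) h
  · intro h τ w hτ
    exact theta_S N h hτ w
  · intro τ w hτ
    rw [theta_up N, ha hτ]

end Fermat.Agent.H98U
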