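import Fermat.Agent.H98T1
import Fermat.Agent.H98U4

/-!
# Reader's guide: block (T) of S47, the theta kernels of lattice classes and theta integrals

**Statement served:** S47, block (T) (and nothing else). Companion of `GuideOctT`: sections 1-5 give the
steps of the proof of `GuideOctT.theta_unitary_family` (a finite family of theta kernels on which the
modular group acts by unitary matrices), section 6 the differentiation of theta integrals, which is used
for `GuideOctT.lift_holomorphic`. Prose: NOTES [410]. No proof depends on this file, and it contains no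
new mathematics.

**The idea of sections 1-5.** Let `L` be the lattice of Hermitian `2 × 2` matrices over `ℤ[ω]`. Its dual
lattice `L'` consists of the matrices with diagonal `a, d ∈ ℤ` and upper entry `β/√-3`, `β ∈ ℤ[ω]`; on `L'`
the form `3 q(x) = |β|² - 3 a d` is integral. For `n ≥ 1` let `D_n = L' / n² L`. On `D_n` there is a
perfect pairing with values in `ℤ/3n²`. The kernel `Θ_h` of a class `h ∈ D_n` is the sum of the terms of
the theta kernel over `h`. Then:

* `Θ_h(τ + 1)` is `Θ_h(τ)` times a root of unity, which depends on `h` only;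
* `Θ_h(-1/τ)` is `τ` times the finite Fourier transform of the family `Θ_k(τ)`, by Poisson summation;
* the Fourier transform is unitary: this is the orthogonality of characters and the value `3 n⁸` of the
  order of `D_n`. The order is not counted. It is found by applying `τ ↦ -1/τ` twice at `τ = i`;
* `g ∈ SL₂(ℤ[ω])` with `g ≡ 1` modulo `3 n²` fixes all classes, so all `Θ_h` are invariant under `g`;
* the kernel which is used in block (T) is a linear combination of the `Θ_h` for `n = N`.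

Only the generators `τ ↦ τ + 1` and `τ ↦ -1/τ` occur; the Weil representation of the modular group is
neither defined nor needed.

**The idea of section 6.** A theta lift is an integral `g(τ) = ∫ A(y) θ(q(y), m(y), τ)` over some space.
Its derivatives are computed under the integral sign, in an abstract setting: the only hypothesis is that
the integrals of `‖A‖ exp(-ε m)` are finite. If `A` contains an eigenfunction of the Laplace operator with
eigenvalue `-1`, then the conjugate of `v ∂g/∂τ̄` is holomorphic.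

**Reading order.** 1. the lattice and its classes; 2. the kernels of the classes and their two laws;
3. unitarity; 4. invariance under a congruence subgroup; 5. the kernel of level `N`; 6. theta integrals
(independent of 1-5).

**Notation.** Indices are triples `x = (a, β, d) ∈ ℤ × ℤ[ω] × ℤ` (`Eis = ℤ[ω]`, `sq3 = √-3`); `w = (z, y)` is
a point of hyperbolic three-space `H3`; `Theta n φ τ w` is the theta kernel of the test function `φ` on
the lattice scaled by `1/n` (`GuideOctT.theta_kernel_eq`). `ZMod.stdAddChar` is the character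
`k ↦ exp(2πik/m)` of `ℤ/m`. Every cited theorem is in the proof term of S47.
-/

set_option autoImplicit false

noncomputable section

open Complex MeasureTheory Real
open scoped ComplexConjugate
open Fermat.Agent Fermat.Agent.S47T

namespace Fermat.Agent.Guide.ThetaClasses

/-! ## 1. The lattice and its classes -/

/-- **The integral form.** `3 (|β/√-3|² - a d) = |β|² - 3 a d` is an integer `qI x`, and the associated
bilinear form is `bI x x' = 2 Re(β conj β') - 3 (a d' + a' d)`. (`H98U1`.) -/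
theorem integral_form (x y : ℤ × Eis × ℤ) :
    Complex.normSq ((x.2.1 : ℂ) / sq3) - x.1 * x.2.2 = H98U.qI x / 3 ∧
      H98U.qI (x + y) = H98U.qI x + H98U.qI y + H98U.bI x y ∧
      (H98U.bI x y : ℝ) = 2 * ((x.2.1 : ℂ) * conj (y.2.1 : ℂ)).re - 3 * (x.1 * y.2.2 + y.1 * x.2.2) :=
  ⟨H98U.qL_eq x, H98U.qI_add x y, by rw [H98U.two_re_mul_conj, H98U.bI]; push_cast; ring⟩

/-- The form `bI` is symmetric and additive. (`H98U1`.) -/
theorem bilinear (x y z : ℤ × Eis × ℤ) : H98U.bI x y = H98U.bI y x ∧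
    H98U.bI x (y + z) = H98U.bI x y + H98U.bI x z :=
  ⟨H98U.bI_comm x y, H98U.bI_add_right x y z⟩

/-- **The sublattice `n² L`** is the image of the injective additive map `lam n`,
`(a, β, d) ↦ (n² a, n² √-3 β, n² d)`; it is the set of all `x` for which `bI x y` is divisible by `3 n²` for
all `y`. (`H98U1`, `H98U2`.) -/
theorem sublattice (n : ℕ) [NeZero n] (x : ℤ × Eis × ℤ) :
    (∀ y : ℤ × Eis × ℤ, H98U.lam n y = ((n : ℤ) ^ 2 * y.1, (((n : ℤ) ^ 2 : ℤ) : Eis) * (sq3E * y.2.1),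
      (n : ℤ) ^ 2 * y.2.2)) ∧ Function.Injective (H98U.lam n) ∧
    ((∃ y, H98U.lam n y = x) ↔ ∀ y, (3 * (n : ℤ) ^ 2) ∣ H98U.bI x y) :=
  ⟨H98U.lam_apply n, H98U.lam_injective n, fun ⟨z, hz⟩ y => by
    rw [← hz, H98U.bI_comm]; exact H98U.bI_lam n y z, fun h => H98U.mem_range_lam h⟩

/-- **The discriminant group** `D_n` is the quotient by the image of `lam n`. It is finite; the form `qI`
(with values in `ℤ/3n²`) and the pairing `bD`, induced by `bI`, are functions of the classes. (`H98U1`.) -/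
theorem discriminant_group (n : ℕ) [NeZero n] :
    H98U.DD n = ((ℤ × Eis × ℤ) ⧸ (H98U.lam n).range) ∧ Finite (H98U.DD n) ∧
    (∀ x : ℤ × Eis × ℤ, H98U.qD n (x : H98U.DD n) = ((H98U.qI x : ℤ) : ZMod (3 * n ^ 2))) ∧
    ∀ x y : ℤ × Eis × ℤ,
      H98U.bD n (x : H98U.DD n) (y : H98U.DD n) = ((H98U.bI x y : ℤ) : ZMod (3 * n ^ 2)) :=
  ⟨rfl, inferInstance, H98U.qD_mk n, H98U.bD_mk n⟩

/-- **The pairing is perfect:** a class which is orthogonal to all classes is zero. Proof: the criterion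
of `sublattice`. (`H98U1`.) -/
theorem pairing_perfect (n : ℕ) {h : H98U.DD n} (hh : ∀ k : H98U.DD n, H98U.bD n h k = 0) : h = 0 :=
  H98U.bD_eq_zero hh

/-- **Orthogonality of characters.** The sum of `e(B(h, k))` over all classes `k` is the order of `D_n`
for `h = 0` and zero otherwise. (`H98U1`.) -/
theorem character_sum (n : ℕ) [NeZero n] (h : H98U.DD n) :
    ∑ k, (ZMod.stdAddChar (H98U.bD n h k) : ℂ) = if h = 0 then (Fintype.card (H98U.DD n) : ℂ) else 0 :=
  H98U.sum_stdAddChar n h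

/-! ## 2. The kernels of the classes -/

/-- **The terms.** The term of index `x` of the theta kernel at scale `1/n` is
`tm n τ w x = √v e(τ q(x)/n²) exp(-4π v (p(x, w)/n)²)`, `v = Im τ`, where `q(x) = |β|²/3 - a d` and
`p(x, w) = (a - 2 Re(β/√-3 · z̄) + d (|z|² + y²)) / (2 y)`; the theta kernel of a test function `φ` is
the sum of `φ(x) tm n τ w x`. (`H98U2`.) -/
theorem theta_terms (n : ℕ) (φ : ℤ × Eis × ℤ → ℂ) (τ : ℂ) (w : H3) :
    Theta n φ τ w = ∑' x : ℤ × Eis × ℤ, φ x * H98U.tm n τ w x ∧ ∀ x : ℤ × Eis × ℤ,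
      H98U.tm n τ w x = (√τ.im : ℝ) * (cexp (2 * π * I *
        (τ * ((Complex.normSq ((x.2.1 : ℂ) / sq3) - x.1 * x.2.2) / n ^ 2 : ℝ))) *
        (rexp (-4 * π * τ.im * ((x.1 - 2 * (((x.2.1 : ℂ) / sq3) * conj w.z).re +
          x.2.2 * (Complex.normSq w.z + w.y ^ 2)) / (2 * w.y) / n) ^ 2) : ℝ)) :=
  ⟨H98U.Theta_eq n φ τ w, H98U.tm_eq n τ w⟩

/-- The theta series of a bounded test function converges absolutely. Proof: this is one of the series of
the inversion formula (`GuideOctT.theta_inversion`), which are summable. (`H98U2`, `H45TC`.) -/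
theorem theta_summable (n : ℕ) [NeZero n] {τ : ℂ} (hτ : 0 < τ.im) (w : H3) {φ : ℤ × Eis × ℤ → ℂ}
    {M : ℝ} (hφ : ∀ x, ‖φ x‖ ≤ M) : Summable fun x => φ x * H98U.tm n τ w x :=
  H98U.summable_tm n hτ w hφ

open Classical in
/-- **The kernel of a class** `h` is the theta kernel of the characteristic function `cls n h` of `h`; if
`h` is the class of `x₀`, it is the sum of the terms of index `x₀ + lam n y`. (`H98U2`.) -/
theorem class_kernel (n : ℕ) [NeZero n] (x₀ : ℤ × Eis × ℤ) (τ : ℂ) (w : H3) :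
    (∀ x : ℤ × Eis × ℤ, H98U.cls n (x₀ : H98U.DD n) x =
      if (x : H98U.DD n) = (x₀ : H98U.DD n) then 1 else 0) ∧
    Theta n (H98U.cls n (x₀ : H98U.DD n)) τ w =
      ∑' y : ℤ × Eis × ℤ, H98U.tm n τ w (x₀ + H98U.lam n y) :=
  ⟨fun x => by rw [H98U.cls], by rw [H98U.Theta_eq]; exact H98U.tsum_cls n x₀ _⟩

/-- **The law under `τ ↦ τ + 1`.** Every term is multiplied by `e(qI(x) / (3 n²))`, which depends on the
class of `x` only; so the kernel of a class is multiplied by this root of unity. (`H98U2`.) -/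
theorem theta_add_one (n : ℕ) [NeZero n] (x₀ : ℤ × Eis × ℤ) (τ : ℂ) (w : H3) :
    (∀ x : ℤ × Eis × ℤ, H98U.tm n (τ + 1) w x =
      ZMod.stdAddChar ((H98U.qI x : ℤ) : ZMod (3 * n ^ 2)) * H98U.tm n τ w x) ∧
    Theta n (H98U.cls n (x₀ : H98U.DD n)) (τ + 1) w =
      ZMod.stdAddChar ((H98U.qI x₀ : ℤ) : ZMod (3 * n ^ 2)) *
        Theta n (H98U.cls n (x₀ : H98U.DD n)) τ w :=
  ⟨H98U.tm_add_one n τ w, H98U.theta_T n (x₀ : H98U.DD n) τ w⟩

/-- **The law under `τ ↦ -1/τ`:** `Θ_h(-1/τ) = τ ∑_k κ e(-B(h, k)) Θ_k(τ)` with `κ = -i / (√3 n⁴)`. Proof: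
`GuideOctT.theta_inversion` (Poisson summation in signature (3, 1)) for the lattice `n L`, translated
by `x₀/n`; the dual lattice is `(1/n) L'`, and the sum over it is divided into the classes.
(`H98U2`, by `H45.TK.poissonV`.) -/
theorem theta_inversion (n : ℕ) [NeZero n] (h : H98U.DD n) {τ : ℂ} (hτ : 0 < τ.im) (w : H3) :
    Theta n (H98U.cls n h) (-1 / τ) w = τ * ∑ k : H98U.DD n,
      (-I / (√3 * n ^ 4 : ℝ)) * ZMod.stdAddChar (-(H98U.bD n h k)) * Theta n (H98U.cls n k) τ w :=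
  H98U.theta_S n h hτ w

/-! ## 3. Unitarity -/

/-- **Positivity.** At `τ = i` all terms of the theta kernel are positive real numbers; so the kernel of
the class `0` does not vanish there. (`H98U3`.) -/
theorem positive_at_i (n : ℕ) [NeZero n] (w : H3) :
    (∀ x : ℤ × Eis × ℤ, ∃ r : ℝ, 0 < r ∧ H98U.tm n I w x = r) ∧
      Theta n (H98U.cls n 0) I w ≠ 0 :=
  ⟨H98U.tm_I n w, H98U.theta_zero_I_ne n w⟩

/-- **The number of classes** is `3 n⁸`, in the form `(i κ)² |D_n| = 1`. Proof: apply the inversion twice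
to the kernel of the class `0` at `τ = i = -1/i`. By `character_sum` the result is
`(i κ)² |D_n| Θ_0(i)`; but it is `Θ_0(i) ≠ 0`. (`H98U3`.) -/
theorem number_of_classes (n : ℕ) [NeZero n] :
    (I * (-I / (√3 * n ^ 4 : ℝ))) ^ 2 * Fintype.card (H98U.DD n) = 1 :=
  H98U.card_DD n

/-- **The matrix of the inversion is unitary.** For every `κ` the product of the matrix
`(κ e(-B(h, k)))` and its adjoint is `|κ|² |D_n|`, by `character_sum`; for `κ = -i / (√3 n⁴)` this is `1`
by `number_of_classes`. (`H98U1`, `H98U3`.) -/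
theorem inversion_unitary (n : ℕ) [NeZero n] :
    (Matrix.of fun h k : H98U.DD n => (-I / (√3 * n ^ 4 : ℝ)) * ZMod.stdAddChar (-(H98U.bD n h k))) ∈
      Matrix.unitaryGroup (H98U.DD n) ℂ :=
  H98U.Bmat_unitary n

/-- The matrix of `τ ↦ τ + 1`, the diagonal matrix of the roots of unity `e(qI(h) / (3 n²))`, is
unitary. (`H98U1`, `H98U3`.) -/
theorem translation_unitary (n : ℕ) [NeZero n] :
    (Matrix.diagonal fun h : H98U.DD n => (ZMod.stdAddChar (H98U.qD n h) : ℂ)) ∈
      Matrix.unitaryGroup (H98U.DD n) ℂ :=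
  H98U.Amat_mem n

/-! ## 4. Invariance under a congruence subgroup -/

/-- The terms are invariant: `g ∈ SL₂(ℤ[ω])` acts on the indices by `X ↦ g X g^*`
(`GuideOctT.action_on_lattice`), and the term of `g X` at `g w` is the term of `X` at `w`.
(`H98U3`, `H98U4`; `Gam 1` is `SL₂(ℤ[ω])`.) -/
theorem terms_invariant (n : ℕ) (τ : ℂ) {g : GL (Fin 2) ℂ} (hg : g ∈ Gam 1)
    (hE : ∀ i j, (g : Matrix (Fin 2) (Fin 2) ℂ) i j ∈ Eis) (w : H3) (x : ℤ × Eis × ℤ) :
    H98U.tm n τ (g • w) (gL (g : Matrix (Fin 2) (Fin 2) ℂ) hE x) = H98U.tm n τ w x := by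
  rw [H98U.gL_eq_actL hg hE]; exact H98U.tm_actL n τ hg w x

/-- **The classes are fixed** by the elements `g ≡ 1` modulo `3 n²` of `SL₂(ℤ[ω])`: if `g = 1 + 3 n² u`,
then `g X g^* - X = 3 n² (u X + X u^*) + 9 n⁴ u X u^*` lies in `n² L`. (`H98U3`, `H98U4`.) -/
theorem classes_fixed (n : ℕ) [NeZero n] {g : GL (Fin 2) ℂ}
    (hdet : (g : Matrix (Fin 2) (Fin 2) ℂ).det = 1)
    (hg : ∀ i j, ∃ x ∈ Eis, (g : Matrix (Fin 2) (Fin 2) ℂ) i j =
      (1 : Matrix (Fin 2) (Fin 2) ℂ) i j + (3 * n ^ 2 : ℕ) * x)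
    (hE : ∀ i j, (g : Matrix (Fin 2) (Fin 2) ℂ) i j ∈ Eis) (x : ℤ × Eis × ℤ) :
    ((gL (g : Matrix (Fin 2) (Fin 2) ℂ) hE x : ℤ × Eis × ℤ) : H98U.DD n) = (x : H98U.DD n) :=
  H98U.mk_gL n (show g ∈ GamP (3 * n ^ 2) from ⟨hdet, hg⟩) hE x

/-- **Invariance in `w`.** So the kernel of every class is invariant under these `g`. (`H98U3`.) -/
theorem theta_invariant (n : ℕ) [NeZero n] {g : GL (Fin 2) ℂ}
    (hdet : (g : Matrix (Fin 2) (Fin 2) ℂ).det = 1)
    (hg : ∀ i j, ∃ x ∈ Eis, (g : Matrix (Fin 2) (Fin 2) ℂ) i j =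
      (1 : Matrix (Fin 2) (Fin 2) ℂ) i j + (3 * n ^ 2 : ℕ) * x) (h : H98U.DD n) (τ : ℂ) (w : H3) :
    Theta n (H98U.cls n h) τ (g • w) = Theta n (H98U.cls n h) τ w :=
  H98U.theta_w n (show g ∈ GamP (3 * n ^ 2) from ⟨hdet, hg⟩) h τ w

/-! ## 5. The kernel of level `N` -/

/-- **Sums over classes.** The kernel of a test function `φ` which is constant on the classes is the sum
of the kernels of the classes, with the values of `φ` as coefficients. (`H98U3`.) -/
theorem sum_of_classes (n : ℕ) [NeZero n] {φ : ℤ × Eis × ℤ → ℂ}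
    (hφ : ∀ x y, φ (x + H98U.lam n y) = φ x) :
    ∃ a : H98U.DD n → ℂ, (∀ x : ℤ × Eis × ℤ, a (x : H98U.DD n) = φ x) ∧ ∀ {τ : ℂ}, 0 < τ.im → ∀ w,
      Theta n φ τ w = ∑ h, a h * Theta n (H98U.cls n h) τ w :=
  H98U.theta_sum n hφ

/-- **Change of scale.** The kernel of `φ` at scale `1` is the kernel at scale `1/n` of the function
`up n φ` which is zero at the indices which are not divisible by `n` (outside of `n L'`) and has the
value `φ(y)` at `n y`. (`H98U3`.) -/
theorem change_of_scale (n : ℕ) [NeZero n] (φ : ℤ × Eis × ℤ → ℂ) (τ : ℂ) (w : H3) :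
    Theta 1 φ τ w = Theta n (H98U.up n φ) τ w ∧
      (∀ y : ℤ × Eis × ℤ, H98U.up n φ ((n : ℤ) * y.1, (n : Eis) * y.2.1, (n : ℤ) * y.2.2) = φ y) ∧
      ∀ x : ℤ × Eis × ℤ, (¬ ∃ y : ℤ × Eis × ℤ, ((n : ℤ) * y.1, (n : Eis) * y.2.1,
        (n : ℤ) * y.2.2) = x) → H98U.up n φ x = 0 :=
  ⟨H98U.theta_up n φ τ w, H98U.up_nsm n φ, fun _ h => H98U.up_of_not n φ h⟩

/-- **Periodicity.** The test function of level `N` (`GuideOctT.test_function_eq`: `N` divides `d` and `β`
is prime to `N`) does not change if `(N a', N √-3 β', N d')`, an element of `N L`, is added to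
`(a, β, d)`. So `up N` of it is invariant under `N² L`, that is constant on the classes for `n = N`.
(`H98U3`.) -/
theorem test_function_periodic (N : ℕ) [NeZero N] (x y : ℤ × Eis × ℤ) :
    phiN N (x + ((N : ℤ) * y.1, (N : Eis) * (sq3E * y.2.1), (N : ℤ) * y.2.2)) = phiN N x ∧
      H98U.up N (phiN N) (x + H98U.lam N y) = H98U.up N (phiN N) x :=
  ⟨H98U.phiN_mu N x y, H98U.up_phiN N x y⟩

/-- **Conclusion:** the kernel of level `N` is a linear combination of the kernels of the classes for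
`n = N` (`H98U3`). With sections 2-4 this is `GuideOctT.theta_unitary_family`, with `m = 3 N²`
(`H98U4`). -/
theorem kernel_of_level (N : ℕ) [NeZero N] : ∃ a : H98U.DD N → ℂ, ∀ (τ : ℂ) (w : H3), 0 < τ.im →
    Theta 1 (phiN N) τ w = ∑ h, a h * Theta N (H98U.cls N h) τ w :=
  let ⟨a, _, ha⟩ := H98U.theta_sum N (H98U.up_phiN N)
  ⟨a, fun τ w hτ => by rw [H98U.theta_up N, ha hτ]⟩

/-! ## 6. Theta integrals

`Y` is a measure space with measure `M`, `A : Y → ℂ` the amplitude, `q, m : Y → ℝ` the quadratic form and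
its majorant, `|q| ≤ m`; the integrals `∫ ‖A‖ exp(-ε m)` are finite for all `ε > 0`. In the application
`Y` is the product of the lattice and `H3`, with the cut-off function in the measure, and `A(x, w)` is
the product of a test function of `x` and an automorphic function of `w` (`H23TI`); or `Y` is the
lattice alone and `A` a test function, for the theta kernel itself. -/

/-- **The term of weight one** `θ = √v e(q τ) exp(-2 π v (m - q))` and its absolute value
`√v exp(-2 π v m)`. (`H98T1`.) -/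
theorem weight_one_term (q m : ℝ) (τ : ℂ) :
    H98T.th q m τ = (√τ.im : ℂ) * cexp (2 * π * I * q * τ) * cexp (-(2 * π * τ.im * (m - q))) ∧
      ‖H98T.th q m τ‖ = √τ.im * rexp (-(2 * π * τ.im * m)) :=
  ⟨rfl, H98T.norm_th q m τ⟩

/-- **Real derivatives of a term:** `dθ = aT dτ + bT dv` with `aT = 2πi q θ`, and `(i/2) bT = xt / v`, where
`xt = (i/2) (1/2 - 2π v (m - q)) θ`. So `∂θ/∂τ̄ = xt / v`. (`H98T1`; `imC` is `z ↦ Im z`.) -/
theorem derivative_of_term (q m : ℝ) {τ : ℂ} (hτ : 0 < τ.im) :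
    HasFDerivAt (H98T.th q m)
      (H98T.aT q m τ • ContinuousLinearMap.id ℝ ℂ + H98T.bT q m τ • H98T.imC) τ ∧
    H98T.aT q m τ = 2 * π * I * q * H98T.th q m τ ∧
    I / 2 * H98T.bT q m τ = H98T.xt q m τ / τ.im ∧
    H98T.xt q m τ = (I / 2) * (1 / 2 - 2 * π * τ.im * (m - q)) * H98T.th q m τ :=
  ⟨H98T.hasFDerivAt_th' q m hτ, rfl, H98T.bT_eq q m hτ, rfl⟩

/-- **The Laplace equation of a term.** Let `aX dτ + bX dv` be the derivative of `xt`. Then
`aX - (i/2) bX`, the derivative of `xt = v ∂θ/∂τ̄` with respect to `τ`, is `(16 v)⁻¹` times the polynomial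
below times `θ`; on `H3` this product is `(Δ + 1) θ`. (`GuideOctT.laplace_theta_term`, where the
polynomial is not written out. `H98T1`.) -/
theorem laplace_of_term (q m : ℝ) {τ : ℂ} (hτ : 0 < τ.im) :
    HasFDerivAt (H98T.xt q m)
      (H98T.aX q m τ • ContinuousLinearMap.id ℝ ℂ + H98T.bX q m τ • H98T.imC) τ ∧
    H98T.aX q m τ - I / 2 * H98T.bX q m τ = 1 / (16 * τ.im) * ((1 - 8 * π * τ.im * q +
      32 * π ^ 2 * τ.im ^ 2 * q * (m - q) - 16 * π * τ.im * (m - q) +
      16 * π ^ 2 * τ.im ^ 2 * (m - q) ^ 2) * H98T.th q m τ) :=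
  ⟨H98T.hasFDerivAt_xt q m hτ, H98T.aX_sub_bX q m hτ⟩

/-- **Theta integrals:** `g = gT` is the integral of `A θ`, and `ξ = xiT` the integral of `A xt`, written
out. (`H98T1`.) -/
theorem theta_integrals {Y : Type*} [MeasurableSpace Y] (M : Measure Y) (A : Y → ℂ) (q m : Y → ℝ)
    (τ : ℂ) :
    H98T.gT M A q m τ = ∫ y, A y * H98T.th (q y) (m y) τ ∂M ∧
      H98T.xiT M A q m τ = ∫ y, A y * ((I / 2) * (1 / 2 - 2 * π * τ.im * (m y - q y)) *
        H98T.th (q y) (m y) τ) ∂M :=
  ⟨rfl, rfl⟩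

/-- **Differentiation under the integral sign:** the derivative of `g` is
`dτ ∫ A 2πi q θ + dv (2/i) ξ/v`; that is, `∂g/∂τ̄ = ξ/v`. Proof: for `τ` near `τ₀` all integrands are at
most a constant times `‖A‖ exp(-ε m)`, because a polynomial in `m` is at most a constant times
`exp(δ m)`. (`H98T1`.) -/
theorem derivative_of_integral {Y : Type*} [MeasurableSpace Y] {M : Measure Y} {A : Y → ℂ}
    {q m : Y → ℝ} (hA : AEStronglyMeasurable A M) (hq : AEStronglyMeasurable q M)
    (hm : AEStronglyMeasurable m M) (hle : ∀ y, |q y| ≤ m y)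
    (hint : ∀ ε : ℝ, 0 < ε → Integrable (fun y => ‖A y‖ * rexp (-(ε * m y))) M)
    {τ : ℂ} (hτ : 0 < τ.im) :
    HasFDerivAt (H98T.gT M A q m)
      ((∫ y, A y * (2 * π * I * q y * H98T.th (q y) (m y) τ) ∂M) • ContinuousLinearMap.id ℝ ℂ +
        (2 / I * (H98T.xiT M A q m τ / τ.im)) • ofRealCLM.comp imCLM) τ :=
  H98T.hasFDerivAt_gT' ⟨hA, hq, hm, hle, hint⟩ hτ

/-- **Criterion.** If the real derivative of `f` at `τ` is `a dτ + b dv` with `a - (i/2) b = 0` (that is,
`∂f/∂τ = 0`), then the complex conjugate of `f` is complex differentiable at `τ`. (`H98T1`.) -/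
theorem conj_holomorphic {f : ℂ → ℂ} {τ a b : ℂ}
    (h : HasFDerivAt f (a • ContinuousLinearMap.id ℝ ℂ + b • ofRealCLM.comp imCLM) τ)
    (h0 : a - I / 2 * b = 0) : HasDerivAt (fun z => conj (f z)) (conj (I / 2 * b)) τ :=
  H98T.hasDerivAt_conj_of_fderiv h h0

/-- **The conjugate of `ξ` is holomorphic** if `∫ A (Δ + 1) θ = 0`, written out as the integral of a
polynomial times `θ`. In the application `A` contains an eigenfunction `F` with `Δ F = -F`, and the
hypothesis is the symmetry of `Δ`. Here the eigenvalue of the octahedral form enters.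
(`H98T1`; used in `H23TI`.) -/
theorem conj_xi_holomorphic {Y : Type*} [MeasurableSpace Y] {M : Measure Y} {A : Y → ℂ}
    {q m : Y → ℝ} (hA : AEStronglyMeasurable A M) (hq : AEStronglyMeasurable q M)
    (hm : AEStronglyMeasurable m M) (hle : ∀ y, |q y| ≤ m y)
    (hint : ∀ ε : ℝ, 0 < ε → Integrable (fun y => ‖A y‖ * rexp (-(ε * m y))) M)
    (h0 : ∀ τ : ℂ, 0 < τ.im → ∫ y, A y * ((1 - 8 * π * τ.im * q y +
      32 * π ^ 2 * τ.im ^ 2 * q y * (m y - q y) - 16 * π * τ.im * (m y - q y) +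
      16 * π ^ 2 * τ.im ^ 2 * (m y - q y) ^ 2) * H98T.th (q y) (m y) τ) ∂M = 0) :
    DifferentiableOn ℂ (fun z => conj (H98T.xiT M A q m z)) {τ : ℂ | 0 < τ.im} :=
  H98T.differentiableOn_conj_xiT ⟨hA, hq, hm, hle, hint⟩ h0

/-- **Exponential decay:** if the amplitude vanishes where `m < m₀`, then for `v ≥ v₁` the integral `g` is
at most `√v exp(-π m₀ v)` times a constant, and similarly `ξ`. With the laws of sections 2 and 3 the sum
of the `g_i conj(ξ_i)` over the family has weight two, its `∂/∂τ̄` is `∑ |ξ_i|² / v`, and Green's formula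
on the truncated fundamental domain of `SL₂(ℤ)` gives `ξ_i = 0`; so the theta lift is holomorphic
(`GuideOctT.holomorphy_criterion`). (`H98T1`.) -/
theorem decay {Y : Type*} [MeasurableSpace Y] {M : Measure Y} {A : Y → ℂ}
    {q m : Y → ℝ} (hA : AEStronglyMeasurable A M) (hq : AEStronglyMeasurable q M)
    (hm : AEStronglyMeasurable m M) (hle : ∀ y, |q y| ≤ m y)
    (hint : ∀ ε : ℝ, 0 < ε → Integrable (fun y => ‖A y‖ * rexp (-(ε * m y))) M)
    {m₀ v₁ : ℝ} (hv₁ : 0 < v₁) (hm₀ : 0 ≤ m₀) (hA0 : ∀ y, A y ≠ 0 → m₀ ≤ m y) {τ : ℂ}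
    (hτ : v₁ ≤ τ.im) :
    ‖H98T.gT M A q m τ‖ ≤ √τ.im * rexp (-(π * m₀ * τ.im)) *
        (∫ y, ‖A y‖ * rexp (-(π * v₁ * m y)) ∂M) ∧
      ‖H98T.xiT M A q m τ‖ ≤ 4 * √τ.im * rexp (-(π / 2 * m₀ * τ.im)) *
        ∫ y, ‖A y‖ * rexp (-(π * v₁ * m y)) ∂M :=
  ⟨H98T.norm_gT_le ⟨hA, hq, hm, hle, hint⟩ hv₁ hm₀ hA0 hτ,
    H98T.norm_xiT_le ⟨hA, hq, hm, hle, hint⟩ hv₁ hm₀ hA0 hτ⟩

end Fermat.Agent.Guide.ThetaClasses
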