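import Fermat.Agent.H16D8

/-!
# Reader's guide: block (D) of S47, the finite places of the theta kernel

**Statement served:** S47, block (D).  Companion of `GuideOctDTheta`, where the theta kernel of a
quadratic extension `B/E` of number fields is defined and its invariance under small lower unipotent
elements is stated (`theta_invariant`).  This file shows how the contribution of the finite places
is computed, without adeles, completions or the Weil representation; `GuidePoisson` does the same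
for the infinite places.  Every library theorem cited below is in the proof term of S47.  In prose:
NOTES [468] (sections 1-5), [444], [478] (Gauss sums), [464] (volumes), [405] (places of `S`), [408]
(infinite places).  Nothing imports this file and it contains no new mathematics.

**The idea.**  A function on the finite adeles of `B` which is locally constant with compact support
is determined by its restriction to the dense subgroup `B`.  So we only consider functions on `B`,
and the integral becomes a normalised finite sum (`haar_eq`).  The function to be transformed is the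
product of a function of the components at the places above `S` (characteristic function of the
neighbourhood `VS` of `1`) and of `psS(u N x)` on a lattice outside `S` (`kernel_notions`).  By strong
approximation its integral is the product of three factors (`haar_product`):

* a volume (`haar_of_ideal`, `norm_of_lattice`);
* a mean value at `S`, which is never computed: only its support is used (`support_at_S`);
* a mean value outside `S`, which is a product of Gauss sums of the norm form at unramified places,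
  one place at a time (`mean_local`, `gauss_product`).  How it depends on the argument of the Fourier
  transform (the transformation law of these means) is shown step by step in `GuideThetaGauss`.

The same unknown mean value at `S` occurs for the two kernels which have to be compared; therefore
no computation at the bad places is needed.

**Reading order.**  1. Functions on a rational vector space; 2. mean values; 3. lattices given by
valuations and the product formula; 4. Gauss sums of the norm form; 5. the kernel function and the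
criterion for invariance.  Sections 1, 2 and 4 are independent of each other.

**Notation.**  As in `GuideOctD` and `GuideOctDTheta`: `P.valuation B x ≤ exp (-n)` says that `x` has
order at least `n` at `P`; `psi w` is the additive character at `w`, `psS S` the part outside `S` of
`z ↦ e(-tr z)`; `aboveSet B S` the set of the places of `B` above `S`; `mean L L' f` the mean of `f`
over `L / L'`.  `Λ.map (nsmulAddMonoidHom m)` is the subgroup `m Λ`, and `L'.relIndex L` is the
index `[L : L ∩ L']` (`0` if it is infinite).  `d : H71D.DD E B J` are the data of `good_iff` in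
`GuideOctD` (the conjugation `d.tau`, the places `d.S`, the neighbourhood `d.VS` of `1`);
`H71D.FI E` is the group of the fractional ideals of `E`, `H71D.cE A w` the order of `A` at `w`,
`H71D.aN A` the absolute norm of `A`, and `H71D.om B S D` the product of the signs `(-1)^(ord_w D)`
over the non split places `w` outside `S`.  There are no hidden hypotheses.
-/

set_option autoImplicit false

noncomputable section

namespace Fermat.Agent.Guide.ThetaFinite

open IsDedekindDomain NumberField WithZero FractionalIdeal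
open scoped nonZeroDivisors
open Fermat.Agent
open Fermat.Agent.H47 (smulPlace below)
open Fermat.Agent.H82 (above aboveSet NonSplit congr)
open Fermat.Agent.H7.Z (psi)

/-! ## 1. Functions on a rational vector space -/

/-- **Full lattices.**  A subgroup `Λ` of a rational vector space `V` is *full* if every `x ∈ V` has a
positive multiple in `Λ`, and `m Λ` has finite index in `Λ` for all `m ≠ 0`.  In `H66DSch`. -/
theorem isFull_iff (V : Type*) [AddCommGroup V] [Module ℚ V] (Λ : AddSubgroup V) :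
    H66D.IsFull Λ ↔ (∀ x : V, ∃ m : ℕ, m ≠ 0 ∧ m • x ∈ Λ) ∧
      ∀ m : ℕ, m ≠ 0 → (Λ.map (nsmulAddMonoidHom m)).relIndex Λ ≠ 0 :=
  ⟨fun h => ⟨h.span, h.idx⟩, fun h => ⟨h.1, h.2⟩⟩

/-- **Schwartz functions and the Haar functional.**  `SF Λ` is the space of the functions `φ` on `V` for
which there is a *level*, that is an integer `m ≠ 0` such that `φ` has support in `m⁻¹ Λ` and period
`m Λ`.  For every level `m` the number `HIfun Λ φ` is `[Λ : m Λ]⁻¹ ∑_{x ∈ V / m Λ} φ(x)`: it does not
depend on the level.  For `Λ = 𝓞_B` this is the integral over the finite adeles of `B`, normalised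
by the value `1` at the characteristic function of `𝓞_B`.  In `H66DSch`. -/
theorem haar_eq (V : Type*) [AddCommGroup V] [Module ℚ V] (Λ : AddSubgroup V) (φ : V → ℂ) :
    (φ ∈ H66D.SF Λ ↔ ∃ m : ℕ, m ≠ 0 ∧ (∀ x, φ x ≠ 0 → m • x ∈ Λ) ∧
      ∀ x, ∀ y ∈ Λ, φ (x + m • y) = φ x) ∧
    (H66D.IsFull Λ → ∀ m : ℕ, m ≠ 0 → (∀ x, φ x ≠ 0 → m • x ∈ Λ) →
      (∀ x, ∀ y ∈ Λ, φ (x + m • y) = φ x) →
      H66D.HIfun Λ φ = ((Λ.map (nsmulAddMonoidHom m)).relIndex Λ : ℂ)⁻¹ *
        ∑ᶠ q : V ⧸ Λ.map (nsmulAddMonoidHom m), φ q.out) :=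
  ⟨Iff.rfl, fun h _ hm h1 h2 => H66D.HIfun_eq h ⟨hm, h1, h2⟩⟩

/-- **Linearity and invariance** of the Haar functional on the Schwartz functions.  In `H66DSch`
(`HI` is `HIfun` as a linear map). -/
theorem haar_invariant (V : Type*) [AddCommGroup V] [Module ℚ V] (Λ : AddSubgroup V)
    (hΛ : H66D.IsFull Λ) (φ ψ : V → ℂ) (hφ : φ ∈ H66D.SF Λ) (hψ : ψ ∈ H66D.SF Λ) (a : ℂ) (q : V) :
    H66D.HIfun Λ (fun x => a * φ x + ψ x) = a * H66D.HIfun Λ φ + H66D.HIfun Λ ψ ∧
      H66D.HIfun Λ (fun x => φ (x + q)) = H66D.HIfun Λ φ := by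
  refine ⟨?_, H66D.HI_trans hΛ q ⟨φ, hφ⟩⟩
  have h := (H66D.HI hΛ).map_add (a • ⟨φ, hφ⟩) ⟨ψ, hψ⟩
  rw [map_smul] at h; exact h

open Classical in
/-- **Decomposition.**  A Schwartz function of level `m` is a finite linear combination of
characteristic functions of cosets of `m Λ`.  So a statement which is linear in the function has
only to be proved for the characteristic functions of cosets of the lattices `m Λ`: this is used for
Poisson summation (`induction` in `GuidePoisson`).  In `H66DSch`. -/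
theorem schwartz_decomposition (V : Type*) [AddCommGroup V] [Module ℚ V] (Λ : AddSubgroup V)
    (hΛ : H66D.IsFull Λ) (φ : V → ℂ) (m : ℕ) (hm : m ≠ 0) (h1 : ∀ x, φ x ≠ 0 → m • x ∈ Λ)
    (h2 : ∀ x, ∀ y ∈ Λ, φ (x + m • y) = φ x) :
    ∃ F : Finset (V ⧸ Λ.map (nsmulAddMonoidHom m)), ∀ x, φ x =
      ∑ q ∈ F, φ q.out * (if x + -q.out ∈ Λ.map (nsmulAddMonoidHom m) then 1 else 0) := by
  have hl : H66D.IsLevel Λ φ m := ⟨hm, h1, h2⟩
  refine ⟨(hl.finite_support hΛ hm).toFinset, fun x =>
    (congrFun (congrArg Subtype.val (H66D.decomp hΛ ⟨φ, m, hl⟩ hl)) x).trans ?_⟩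
  rw [Submodule.coe_sum, Finset.sum_apply]
  exact Finset.sum_congr rfl fun q _ => by
    rw [Submodule.coe_smul, Pi.smul_apply, H66D.trans_apply, H66D.ind_apply, smul_eq_mul]; rfl

open Classical in
/-- **Volume of a lattice.**  If `m Λ ⊂ L ⊂ m⁻¹ Λ`, then the Haar functional of the characteristic
function of `L` is `[L : m Λ] / [Λ : m Λ]`.  In `H97DVol`. -/
theorem haar_of_lattice (V : Type*) [AddCommGroup V] [Module ℚ V] (Λ L : AddSubgroup V)
    (hΛ : H66D.IsFull Λ) (m : ℕ) (hm : m ≠ 0) (h1 : Λ.map (nsmulAddMonoidHom m) ≤ L)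
    (h2 : ∀ x ∈ L, m • x ∈ Λ) :
    H66D.HIfun Λ (fun x => if x ∈ L then (1 : ℂ) else 0) =
      ((Λ.map (nsmulAddMonoidHom m)).relIndex Λ : ℂ)⁻¹ *
        ((Λ.map (nsmulAddMonoidHom m)).relIndex L : ℂ) :=
  H97D.HIfun_ind hΛ hm h1 h2

/-- **The ring of integers.**  `OLat B` is the subgroup `𝓞_B` of the number field `B`; it is full.  In
`H66DNum`. -/
theorem integers_full (B : Type*) [Field B] [NumberField B] :
    (∀ x : B, x ∈ H66D.OLat B ↔ IsIntegral ℤ x) ∧ H66D.IsFull (H66D.OLat B) :=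
  ⟨fun _ => H66D.mem_OLat, H66D.isFull_OLat⟩

open Classical in
/-- **Volume of a fractional ideal**: the inverse of its absolute norm.  In `H97DVol`. -/
theorem haar_of_ideal (B : Type*) [Field B] [NumberField B] (I : FractionalIdeal (𝓞 B)⁰ B)
    (hI : I ≠ 0) :
    H66D.HIfun (H66D.OLat B) (fun x => if x ∈ I then (1 : ℂ) else 0) = ((absNorm I : ℚ) : ℂ)⁻¹ :=
  H97D.HIfun_frac hI

/-! ## 2. Mean values

`H78G.Per L L' f` says that `f (l + l') = f l` for `l ∈ L`, `l' ∈ L'`; the means of a periodic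
function are means over the finite group `L / L'`.  All Gauss sums of block (D) are written in this
way. -/

/-- **Rules for mean values.**  Let `f` be a function on `L` with period `L' ⊂ L`.  The mean does not
change if `L'` is replaced by a smaller lattice, if `f` is translated by an element of `L`, or if
`L` is replaced by `L₀ ⊂ L` with `L₀ + L' = L`; and it vanishes if some translation multiplies `f` by
a constant `c ≠ 1`.  In `H78Key`. -/
theorem mean_rules (B : Type*) [AddCommGroup B] (L L' : AddSubgroup B) (f : B → ℂ)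
    (h : ∀ l ∈ L, ∀ l' ∈ L', f (l + l') = f l) (hfin : Finite (L ⧸ L'.addSubgroupOf L)) :
    (∀ L'' ≤ L', Finite (L ⧸ L''.addSubgroupOf L) → H78G.mean L L'' f = H78G.mean L L' f) ∧
    (∀ η ∈ L, H78G.mean L L' (fun x => f (x + η)) = H78G.mean L L' f) ∧
    (∀ L₀ ≤ L, (∀ l ∈ L, ∃ l₀ ∈ L₀, l - l₀ ∈ L') → H78G.mean L₀ L' f = H78G.mean L L' f) ∧
    ∀ η ∈ L, ∀ c : ℂ, c ≠ 1 → (∀ l ∈ L, f (l + η) = c * f l) → H78G.mean L L' f = 0 :=
  ⟨fun _ hle _ => H78G.mean_of_le h hle, fun _ hη => H78G.mean_shift h hη,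
    fun _ hle hsup => H78G.mean_of_sup h hle hsup, fun _ hη _ hc hf => H78G.mean_eq_zero h hη hc hf⟩

/-- **Independent periods.**  If `f` has the period `L₁`, `g` the period `L₂` and `L = L₁ + L₂`, then the
mean of `f g` is the product of the means: the Chinese remainder theorem.  In `H88GS1`. -/
theorem mean_mul (B : Type*) [AddCommGroup B] (L L₁ L₂ : AddSubgroup B) (h₁ : L₁ ≤ L)
    (hsup : ∀ l ∈ L, ∃ a ∈ L₁, l - a ∈ L₂) (_ : Finite (L ⧸ L₁.addSubgroupOf L))
    (_ : Finite (L ⧸ L₂.addSubgroupOf L)) (f g : B → ℂ)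
    (hf : ∀ l ∈ L, ∀ l' ∈ L₁, f (l + l') = f l) (hg : ∀ l ∈ L, ∀ l' ∈ L₂, g (l + l') = g l) :
    H78G.mean L (L₁ ⊓ L₂) (fun x => f x * g x) = H78G.mean L L₁ f * H78G.mean L L₂ g :=
  H88T.mean_mul h₁ hsup hf hg

/-- **Isotropic subgroups.**  Let `I, J ⊂ L` be such that `f` is invariant under translation by `I` at
the points of `J`, while for every `x ∈ L` outside `J` some translation by an element of `I`
multiplies `f` by a constant `≠ 1` on the coset `x + I`.  Then only `J` contributes to the mean: it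
is `[L : J]⁻¹` times the mean over `J`.  (For `f = κ(N x)`, `N` a quadratic form, `I` is isotropic and
`J` its orthogonal.)  In `H88GS1`. -/
theorem mean_isotropic (B : Type*) [AddCommGroup B] (I J L L' : AddSubgroup B) (hIL : I ≤ L)
    (hL'J : L' ≤ J) (hJL : J ≤ L) (_ : Finite (L ⧸ L'.addSubgroupOf L))
    (_ : Finite (I ⧸ L'.addSubgroupOf I)) (f : B → ℂ)
    (h : ∀ l ∈ L, ∀ l' ∈ L', f (l + l') = f l) (hJ : ∀ x ∈ J, ∀ y ∈ I, f (x + y) = f x)
    (hn : ∀ x ∈ L, x ∉ J → ∃ y₀ ∈ I, ∃ c : ℂ, c ≠ 1 ∧ ∀ y ∈ I, f (x + (y + y₀)) = c * f (x + y)) :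
    H78G.mean L L' f = (J.relIndex L : ℂ)⁻¹ * H78G.mean J L' f :=
  H88T.mean_isotropic hIL hL'J hJL h hJ hn

/-! ## 3. Lattices given by valuations, and the product formula -/

/-- **Notation for lattices.**  `T` is a set of places of the number field `B`.  `LV B T d` is the group
of the `x ∈ B` with order at least `d P` at all `P ∈ T`; `RS T c` is the group of the `x` with order
at least `c P` at all `P ∉ T` (the notation `RB` of `GuideOctDTheta` is the case `T = aboveSet B S`);
`LB T c k` is the group of the `x ∈ RS T c` with order at least `k` at all `P ∈ T`; and `cut L g` is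
`g` on `L` and `0` elsewhere.  In `H66TLat`, `H66TCut`, `H66TMean`. -/
theorem lattice_notions (B : Type*) [Field B] [NumberField B] (T : Set (HeightOneSpectrum (𝓞 B)))
    (c : HeightOneSpectrum (𝓞 B) → ℤ) (k : ℤ) (L : AddSubgroup B) (g : B → ℂ) (x : B) :
    (x ∈ H66T.LV B T c ↔ ∀ P ∈ T, P.valuation B x ≤ exp (-c P)) ∧
    (x ∈ H66T.RS T c ↔ ∀ P ∉ T, P.valuation B x ≤ exp (-c P)) ∧
    (x ∈ H66T.LB T c k ↔ x ∈ H66T.RS T c ∧ ∀ P ∈ T, P.valuation B x ≤ exp (-k)) ∧
    (x ∈ L → H66T.cut L g x = g x) ∧ (x ∉ L → H66T.cut L g x = 0) :=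
  ⟨Iff.rfl, Iff.rfl, H66T.mem_LB, fun h => if_pos h, fun h => if_neg h⟩

/-- **Strong approximation** for lattices: if `d ≤ d₁` and `d ≤ d₂`, and if `d` is equal to `d₁` or to
`d₂` at every place, then the lattice of `d` is the sum of the lattices of `d₁` and `d₂`.  In
`H66TLat`. -/
theorem lattice_sum (B : Type*) [Field B] [NumberField B]
    (d d₁ d₂ : HeightOneSpectrum (𝓞 B) → ℤ) (h₁ : ∀ P, d P ≤ d₁ P) (h₂ : ∀ P, d P ≤ d₂ P)
    (h : ∀ P, d₁ P = d P ∨ d₂ P = d P) (hf : {P | d P ≠ 0 ∨ d₁ P ≠ 0 ∨ d₂ P ≠ 0}.Finite) (x : B)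
    (hx : ∀ P, P.valuation B x ≤ exp (-d P)) :
    ∃ a : B, (∀ P, P.valuation B a ≤ exp (-d₁ P)) ∧ ∀ P, P.valuation B (x - a) ≤ exp (-d₂ P) :=
  (H66T.LV_sup (K := B) h₁ h₂ h hf x fun P _ => hx P).imp fun _ h =>
    ⟨fun P => h.1 P trivial, fun P => h.2 P trivial⟩

/-- **Commensurability.**  If `d` has finite support, then `m 𝓞_B ⊂ L ⊂ n⁻¹ 𝓞_B` for the lattice `L` of
`d` and some `m, n ≠ 0`.  In `H66TLat`. -/
theorem lattice_commensurable (B : Type*) [Field B] [NumberField B]
    (d : HeightOneSpectrum (𝓞 B) → ℤ) (hf : {P | d P ≠ 0}.Finite) :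
    (∃ m : ℕ, m ≠ 0 ∧ ∀ x ∈ H66T.LV B Set.univ d, m • x ∈ H66D.OLat B) ∧
      ∃ m : ℕ, m ≠ 0 ∧ (H66D.OLat B).map (nsmulAddMonoidHom m) ≤ H66T.LV B Set.univ d :=
  H66T.Comm_LV hf

/-- **Integral = volume times mean.**  If `L` is commensurable with `Λ` and `g` is a function on `L`
with period `L' ⊂ L`, `m Λ ⊂ L'`, then the Haar functional of `g` on `L` is the volume of `L` times
the mean of `g` over `L / L'`.  In `H66TMean`. -/
theorem haar_cut (V : Type*) [AddCommGroup V] [Module ℚ V] (Λ L L' : AddSubgroup V)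
    (hΛ : H66D.IsFull Λ) (h1 : ∃ m : ℕ, m ≠ 0 ∧ ∀ x ∈ L, m • x ∈ Λ) (hle : L' ≤ L)
    (h2 : ∃ m : ℕ, m ≠ 0 ∧ Λ.map (nsmulAddMonoidHom m) ≤ L') (g : V → ℂ)
    (hg : ∀ l ∈ L, ∀ l' ∈ L', g (l + l') = g l) :
    H66D.HIfun Λ (H66T.cut L g) =
      H66D.HIfun Λ (H66T.cut L fun _ => 1) * H78G.mean L L' g :=
  H66T.HIfun_cut hΛ ⟨h1, h2.imp fun _ h => ⟨h.1, h.2.trans hle⟩⟩ hg hle h2

/-- **The two factors do not see each other.**  (a) If `f` depends only on the components at `T`
(integral support, period `P ^ k`), then its mean over the elements of `RS T c` which are integral at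
`T` does not depend on `c`.  (b) If `g` has period `RS T c'` on `RS T c`, `c ≤ c'`, then its mean over
`RS T c` can be computed on the elements which are integral at `T`.  In `H66TCut`. -/
theorem mean_independent (B : Type*) [Field B] [NumberField B]
    (T : Set (HeightOneSpectrum (𝓞 B))) (hT : T.Finite) (c c' : HeightOneSpectrum (𝓞 B) → ℤ)
    (hc : {P | P ∉ T ∧ c P ≠ 0}.Finite) (hc' : {P | P ∉ T ∧ c' P ≠ 0}.Finite) :
    (∀ (k : ℕ) (f : B → ℂ), (∀ x, f x ≠ 0 → ∀ P ∈ T, P.valuation B x ≤ 1) →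
      (∀ x y, (∀ P ∈ T, P.valuation B y ≤ exp (-(k : ℤ))) → f (x + y) = f x) →
      H78G.mean (H66T.LB T c 0) (H66T.LB T c k) f =
        H78G.mean (H66T.LB T c' 0) (H66T.LB T c' k) f) ∧
    ((∀ P ∉ T, c P ≤ c' P) → ∀ g : B → ℂ,
      (∀ x ∈ H66T.RS T c, ∀ y ∈ H66T.RS T c', g (x + y) = g x) →
      H78G.mean (H66T.LB T c 0) (H66T.LB T c' 0) g =
        H78G.mean (H66T.RS T c) (H66T.RS T c') g) :=
  ⟨fun _ _ h1 h2 => H66T.mean_SFun hT ⟨h1, h2⟩ hc hc',
    fun hle _ hg => H66T.mean_RS hT hc hc' hle hg⟩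

open Classical in
/-- **Product formula.**  `T` a finite set of places of `B`; `f` depends only on the components at
`T` (integral support, period `P ^ k`), and `g` is a function on `RS T c` with period `RS T c'`,
`c ≤ c'`.  Then the Haar functional of `f g` on `RS T c` is the product of the volume of the
elements of `RS T c` which are integral at `T`, of the mean of `f` over `𝓞_B` and of the mean of `g`
over `RS T c / RS T c'`.  (Both factors are functions of the same variable `x ∈ B`, one through its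
components at `T`, the other one through its components outside `T`.)  Proved in `H66TCut` from
`haar_cut`, `mean_mul`, `lattice_sum` and `mean_independent`. -/
theorem haar_product (B : Type*) [Field B] [NumberField B] (T : Set (HeightOneSpectrum (𝓞 B)))
    (hT : T.Finite) (k : ℕ) (f : B → ℂ) (hsupp : ∀ x, f x ≠ 0 → ∀ P ∈ T, P.valuation B x ≤ 1)
    (hper : ∀ x y, (∀ P ∈ T, P.valuation B y ≤ exp (-(k : ℤ))) → f (x + y) = f x)
    (c c' : HeightOneSpectrum (𝓞 B) → ℤ) (hc : {P | P ∉ T ∧ c P ≠ 0}.Finite)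
    (hc' : {P | P ∉ T ∧ c' P ≠ 0}.Finite) (hle : ∀ P ∉ T, c P ≤ c' P) (g : B → ℂ)
    (hg : ∀ x ∈ H66T.RS T c, ∀ y ∈ H66T.RS T c', g (x + y) = g x) :
    H66D.HIfun (H66D.OLat B) (fun x => if x ∈ H66T.RS T c then f x * g x else 0) =
      H66D.HIfun (H66D.OLat B) (H66T.cut (H66T.LB T c 0) fun _ => 1) *
        H78G.mean (H66T.LB T (fun _ => 0) 0) (H66T.LB T (fun _ => 0) k) f *
        H78G.mean (H66T.RS T c) (H66T.RS T c') g :=
  H66T.HIfun_SFun_mul hT ⟨hsupp, hper⟩ hc hc' hle hg

/-- **Norm of the lattice `D h̄⁻¹`.**  `FI B d` is the fractional ideal `∏ P ^ (d P)`.  If the ideal `h`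
of `B` has norm `A D` (outside `S`), then the ideal `D h̄⁻¹` has absolute norm `N(A)⁻¹ N(D)`, so its
volume is `N(A/D)`.  (The product of this ideal and its conjugate is the extension of `A⁻¹ D` to `B`,
and the absolute norm of an extended ideal is the square of the absolute norm.)  In `H97DVol2`. -/
theorem norm_of_lattice (E B J : Type) [Field E] [NumberField E] [Field B] [NumberField B]
    [Algebra E B] [Fintype J] (d : H71D.DD E B J) (hdeg : Module.finrank E B = 2)
    (hunr : ∀ w ∉ d.S, ∀ P ∈ above B w, w.asIdeal.ramificationIdx' P.asIdeal = 1)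
    (A D : H71D.FI E) (h : H71D.FI B) (hAD : ∀ w ∈ d.S, H71D.cE A w = 0 ∧ H71D.cE D w = 0)
    (hh : H71D.IsNm d.S d.tau h (H71D.cE (A * D))) :
    absNorm (H97D.FI B (d.dlt D h)) = (absNorm (A : FractionalIdeal (𝓞 E)⁰ E))⁻¹ *
      absNorm (D : FractionalIdeal (𝓞 E)⁰ E) :=
  H97D.absNorm_dlt d hdeg hunr hAD hh

/-! ## 4. Gauss sums of the norm form at unramified places

One place at a time, in a ring `S` with an involution `σ` over a subring `R` of invariants. -/

/-- **The local situation.**  `UnrQ R S σ N tr w`: `R ⊂ S` are rings, `σ` is an involution of `S` over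
`R`, `N x = x σ(x)` and `tr x = x + σ(x)` are in `R`, `w` is a maximal ideal of `R` with finite residue
field, `w S ≠ S`, the trace form is non degenerate modulo `w` (the place is unramified), and
`[S : w S] = [R : w]²`.  In `H88GS2`. -/
theorem unrQ_iff (R S : Type*) [CommRing R] [CommRing S] [Algebra R S] (σ : S ≃ₐ[R] S)
    (N tr : S → R) (w : Ideal R) :
    H88T.UnrQ R S σ N tr w ↔ Function.Injective (algebraMap R S) ∧
      (∀ x, algebraMap R S (N x) = x * σ x) ∧ (∀ x, algebraMap R S (tr x) = x + σ x) ∧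
      (∀ x, σ (σ x) = x) ∧ w.IsPrime ∧ w.IsMaximal ∧ w.map (algebraMap R S) ≠ ⊤ ∧
      Finite (R ⧸ w) ∧ (∀ x : S, (∀ y, tr (x * y) ∈ w) → x ∈ w.map (algebraMap R S)) ∧
      Finite (S ⧸ w.map (algebraMap R S)) ∧
      Nat.card (S ⧸ w.map (algebraMap R S)) = Nat.card (R ⧸ w) ^ 2 :=
  ⟨fun ⟨a, b, c, d, e, f, g, h, i, j, k⟩ => ⟨a, b, c, d, e, f, g, h, i, j, k⟩,
    fun ⟨a, b, c, d, e, f, g, h, i, j, k⟩ => ⟨a, b, c, d, e, f, g, h, i, j, k⟩⟩

/-- **Unramified places give the local situation**: `B/E` a quadratic extension of number fields with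
conjugation `τ`, `w` a place of `E` which is unramified in `B` and such that the additive characters
of `B` at the places above `w` are unramified.  Moreover `w 𝓞_B` is prime if and only if there is only
one place above `w`.  (`sg τ`, `nI E`, `tI E` are the conjugation, the norm and the trace on the
integers.)  In `H88GS6`, `H88GS7`. -/
theorem unrQ_of_unramified (E B : Type) [Field E] [NumberField E] [Field B] [NumberField B]
    [Algebra E B] [IsGalois E B] (τ : B ≃ₐ[E] B) (hτ : τ ≠ 1) (h2 : Module.finrank E B = 2)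
    (w : HeightOneSpectrum (𝓞 E))
    (hunr : ∀ P ∈ above B w, w.asIdeal.ramificationIdx' P.asIdeal = 1)
    (hB : ∀ P ∈ above B w, H7.Z.Unram P) :
    H88T.UnrQ (𝓞 E) (𝓞 B) (H88T.sg τ) (H88T.nI E) (H88T.tI E) w.asIdeal ∧
      (∀ x, ((H88T.sg τ x : 𝓞 B) : B) = τ x) ∧
      (∀ x : 𝓞 B, ((H88T.nI E x : 𝓞 E) : E) = Algebra.norm E (x : B)) ∧
      (∀ x : 𝓞 B, ((H88T.tI E x : 𝓞 E) : E) = Algebra.trace E B (x : B)) ∧
      ((w.asIdeal.map (algebraMap (𝓞 E) (𝓞 B))).IsPrime ↔ NonSplit B w) :=
  ⟨H88T.unrQ τ hτ h2 hunr hB, H88T.sg_coe τ, fun _ => rfl, fun _ => rfl,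
    H88T.isPrime_iff_nonSplit τ hτ h2 hunr hB⟩

/-- **Finite fields.**  For a quadratic extension `K/k` of finite fields and a non trivial additive
character `κ` of `k` the sum of `κ(N x)` over `x ∈ K` is `-|k|`: the norm is surjective on units with
fibres of order `|k| + 1`.  In `H88GS3`. -/
theorem norm_sum_finite_fields (k K : Type*) [Field k] [Field K] [Fintype k] [Fintype K]
    [Algebra k K] (hd : Fintype.card K = Fintype.card k ^ 2) (s : K ≃ₐ[k] K) (hs : s ≠ 1)
    (N : K → k) (hN : ∀ x, algebraMap k K (N x) = x * s x) (κ : AddChar k ℂ) (hκ : κ ≠ 1) :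
    ∑ x, κ (N x) = -(Fintype.card k : ℂ) :=
  H88T.inert_sum hd s hs N hN κ hκ

/-- **Conductor one.**  Let `κ` be an additive character of `R`, trivial on `w` and not on `R`.  The
mean of `κ(N x)` over `S / w S` is `-q⁻¹` if `w S` is prime and `q⁻¹` if it is not (`q = |R/w|`).  In
`H88GS4`, `H88GS5`. -/
theorem mean_conductor_one (R S : Type*) [CommRing R] [CommRing S] [Algebra R S] (σ : S ≃ₐ[R] S)
    (N tr : S → R) (w : Ideal R) (h : H88T.UnrQ R S σ N tr w) (κ : AddChar R ℂ)
    (hκ : ∀ a ∈ w, κ a = 1) (hκ' : ∃ a, κ a ≠ 1) :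
    ((w.map (algebraMap R S)).IsPrime →
      H78G.mean ⊤ (w.map (algebraMap R S)).toAddSubgroup (fun x => κ (N x)) =
        -(Nat.card (R ⧸ w) : ℂ)⁻¹) ∧
    (¬ (w.map (algebraMap R S)).IsPrime →
      H78G.mean ⊤ (w.map (algebraMap R S)).toAddSubgroup (fun x => κ (N x)) =
        (Nat.card (R ⧸ w) : ℂ)⁻¹) :=
  ⟨fun hw => h.mean_inert hw hκ hκ', fun hw => h.mean_split hw hκ hκ'⟩

/-- **Descent by two.**  Let `π ∈ w` with `w = (π) + w²`.  If `κ` is trivial on `w ^ (k + 2)` and not
on `w ^ (k + 1)`, the mean of `κ(N x)` over `S / w ^ (k + 2) S` is `q⁻²` times the mean of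
`κ(π² N x)` over `S / w ^ k S`.  (`mean_isotropic` with `I = w ^ (k + 1) S`, `J = w S`; then
`x = π x'`.)  In `H88GS5`. -/
theorem mean_descent (R S : Type*) [CommRing R] [CommRing S] [Algebra R S] (σ : S ≃ₐ[R] S)
    (N tr : S → R) (w : Ideal R) (h : H88T.UnrQ R S σ N tr w)
    (hfin : ∀ k, Finite (S ⧸ (w ^ k).map (algebraMap R S))) (π : R) (hπw : π ∈ w)
    (hπ : w ≤ Ideal.span {π} ⊔ w ^ 2) (hπ0 : ∀ x : S, algebraMap R S π * x = 0 → x = 0)
    (κ : AddChar R ℂ) (k : ℕ) (hκ : ∀ a ∈ w ^ (k + 2), κ a = 1)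
    (hκ' : ∃ a ∈ w ^ (k + 1), κ a ≠ 1) :
    H78G.mean ⊤ ((w ^ (k + 2)).map (algebraMap R S)).toAddSubgroup (fun x => κ (N x)) =
      ((Nat.card (R ⧸ w) : ℂ) ^ 2)⁻¹ *
        H78G.mean ⊤ ((w ^ k).map (algebraMap R S)).toAddSubgroup
          (fun x => κ.mulShift (π ^ 2) (N x)) :=
  h.mean_step hfin hπw hπ hπ0 hκ hκ'

open Classical in
/-- **The Gauss sum at one place.**  If `κ` has conductor `w ^ k`, the mean of `κ(N x)` over
`S / w ^ k S` is `(ε/q) ^ k`, `ε = -1` if `w S` is prime and `ε = 1` otherwise.  By induction on `k`,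
from `mean_conductor_one` and `mean_descent`.  In `H88GS5`. -/
theorem mean_local (R S : Type*) [CommRing R] [CommRing S] [Algebra R S] (σ : S ≃ₐ[R] S)
    (N tr : S → R) (w : Ideal R) (h : H88T.UnrQ R S σ N tr w)
    (hfin : ∀ k, Finite (S ⧸ (w ^ k).map (algebraMap R S))) (π : R) (hπw : π ∈ w)
    (hπ : w ≤ Ideal.span {π} ⊔ w ^ 2) (hπ0 : ∀ x : S, algebraMap R S π * x = 0 → x = 0)
    (κ : AddChar R ℂ) (k : ℕ) (hκ : ∀ a ∈ w ^ k, κ a = 1)
    (hκ' : k = 0 ∨ ∃ a ∈ w ^ (k - 1), κ a ≠ 1) :
    H78G.mean ⊤ ((w ^ k).map (algebraMap R S)).toAddSubgroup (fun x => κ (N x)) =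
      ((if (w.map (algebraMap R S)).IsPrime then -1 else 1) / (Nat.card (R ⧸ w) : ℂ)) ^ k :=
  h.mean_local hfin hπw hπ hπ0 k hκ hκ'

/-- **Independence of the places.**  Let `κ_w` be additive characters of `𝓞_E` such that `κ_w(N x)` has
the period `w ^ (k w) 𝓞_B`, for `w` in the finite set `T`.  Then the mean of `∏_w κ_w(N x)` over `𝓞_B`
modulo the product of these ideals is the product of the means: `mean_mul`.  In `H88GS7`. -/
theorem mean_of_places (E B : Type) [Field E] [NumberField E] [Field B] [NumberField B]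
    [Algebra E B] (κ : HeightOneSpectrum (𝓞 E) → AddChar (𝓞 E) ℂ)
    (k : HeightOneSpectrum (𝓞 E) → ℕ) (T : Finset (HeightOneSpectrum (𝓞 E)))
    (hper : ∀ w ∈ T, ∀ l ∈ (⊤ : AddSubgroup (𝓞 B)),
      ∀ l' ∈ ((w.asIdeal ^ k w).map (algebraMap (𝓞 E) (𝓞 B))).toAddSubgroup,
        κ w (H88T.nI E (l + l')) = κ w (H88T.nI E l)) :
    H78G.mean ⊤ ((∏ w ∈ T, w.asIdeal ^ k w).map (algebraMap (𝓞 E) (𝓞 B))).toAddSubgroup
        (fun x => ∏ w ∈ T, κ w (H88T.nI E x)) =
      ∏ w ∈ T, H78G.mean ⊤ ((w.asIdeal ^ k w).map (algebraMap (𝓞 E) (𝓞 B))).toAddSubgroup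
        (fun x => κ w (H88T.nI E x)) :=
  (H88T.mean_prod_nI κ k T hper).2

open Classical in
/-- **The Gauss sum of all places.**  `L = RB B S c` a lattice of `B` outside `S` with `c P + c P̄ = n w`
(so `N x` has order at least `n w` for `x ∈ L`), `u ∈ E`, and `k w = max(0, -(ord u + n w))` the
exponent of the denominator of `u N x`, which is `0` outside the finite set `T`.  The mean of
`psS(u N x)` over `L` modulo any sublattice of periods is `∏_{w ∈ T} (ε_w / q_w) ^ (k w)`, where
`ε_w = -1` if there is only one place above `w` and `1` otherwise.  Steps: take `β ∈ B` of order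
`c P` at the `P` above `T` and of order at least `c P` at the other `P` not above `S` (`H88GS8`), and
substitute `x = β x'`, `x' ∈ 𝓞_B` (`H88GS9`); with `z = u N β` the function becomes the product over
`w ∈ T` of the `psi w (z N x')` (`H88GS8`); apply `mean_of_places`; apply `mean_local` to the
characters `r ↦ psi w (z r)` of `𝓞_E`, which are trivial on `w ^ (k w)` and, if `k w > 0`, not trivial
on `w ^ (k w - 1)`, since `psi w` is unramified (`H88GS7`).  Here `𝓞_B` over `𝓞_E` has the properties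
`UnrQ` at `w` (`H88GS6`), and `w 𝓞_B` is prime if and only if there is only one place above `w`
(`H88GS7`).  With `prod_eq_om` (`H88GS10`) this gives `gauss_sum_value` of `GuideOctDTheta`. -/
theorem gauss_product (E B : Type) [Field E] [NumberField E] [Field B] [NumberField B]
    [Algebra E B] (τ : B ≃ₐ[E] B) (hτ : τ ≠ 1) (hdeg : Module.finrank E B = 2)
    (S : Finset (HeightOneSpectrum (𝓞 E))) (c : HeightOneSpectrum (𝓞 B) → ℤ)
    (n : HeightOneSpectrum (𝓞 E) → ℤ) (u : E) (k : HeightOneSpectrum (𝓞 E) → ℕ)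
    (T : Finset (HeightOneSpectrum (𝓞 E)))
    (hram : ∀ P : HeightOneSpectrum (𝓞 B), below E P ∉ S →
      (below E P).asIdeal.ramificationIdx' P.asIdeal = 1)
    (hE : ∀ w ∉ S, H7.Z.Unram w)
    (hB : ∀ P : HeightOneSpectrum (𝓞 B), below E P ∉ S → H7.Z.Unram P)
    (hc : {P | below E P ∉ S ∧ c P ≠ 0}.Finite)
    (hn : ∀ P, below E P ∉ S → c P + c (smulPlace τ P) = n (below E P))
    (hk : ∀ w ∉ S, exp (k w : ℤ) = max 1 (w.valuation E u * exp (-n w)))
    (hT : ∀ w ∈ T, w ∉ S) (hT' : ∀ w ∉ S, w ∉ T → k w = 0) (L₂ : AddSubgroup B)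
    (hper : ∀ x ∈ H71D.RB B S c, ∀ y ∈ L₂, H71D.psS S (u * Algebra.norm E (x + y)) =
      H71D.psS S (u * Algebra.norm E x))
    (_ : Finite (H71D.RB B S c ⧸ L₂.addSubgroupOf (H71D.RB B S c))) :
    H78G.mean (H71D.RB B S c) L₂ (fun x => H71D.psS S (u * Algebra.norm E x)) =
      ∏ w ∈ T, ((if NonSplit B w then -1 else 1) / (Nat.card (𝓞 E ⧸ w.asIdeal) : ℂ)) ^ k w :=
  H88T.LatU.mean_lattice ⟨hτ, hdeg, hram, hE, hB, hc, hn, hk, hT, hT'⟩ hper

/-! ## 5. The kernel function and the criterion for invariance -/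

open Classical in
/-- **The functions of this section.**  `phi` is the coefficient function of the theta kernel
(`GuideOctDTheta.theta_eq`): a constant times `psS(u N y)` for `y ∈ VS` in the lattice
`D h̄⁻¹` (outside `S`).  `gS d x` is the part at `S` of `phi` times the part at `S` of the additive
character `y ↦ e(tr(x τ y))`; `gO d u x` is the part outside `S`.  `MS d k x` is the mean of `gS d x`
over `𝓞_B` modulo the elements of order at least `k` above `S`.  In `H71UDefs`, `H66TPhi`,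
`H66TMain`. -/
theorem kernel_notions (E B J : Type) [Field E] [NumberField E] [Field B] [NumberField B]
    [Algebra E B] [Fintype J] (d : H71D.DD E B J) (A D : H71D.FI E) (u : E) (h : H71D.FI B)
    (k : ℕ) (x y : B) :
    d.phi A D u h y = (if y ∈ d.VS ∧ y ∈ H71D.RB B d.S (d.dlt D h) then
      H71D.om B d.S D * (((H71D.aN (A * D⁻¹)) ^ (-(1 / 2) : ℝ) : ℝ) : ℂ) *
        H71D.psS d.S (u * Algebra.norm E y) else 0) ∧
    H66T.gS d x y = (if y ∈ d.VS then
      ∏ w ∈ d.S, psi w (-(Algebra.trace E B (x * d.tau y))) else 0) ∧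
    H66T.gO d u x y = H71D.psS d.S (u * Algebra.norm E y - Algebra.trace E B (x * d.tau y)) ∧
    H66T.MS d k x =
      H78G.mean (H66T.LB (aboveSet B (d.S : Set (HeightOneSpectrum (𝓞 E)))) (fun _ => 0) 0)
        (H66T.LB (aboveSet B (d.S : Set (HeightOneSpectrum (𝓞 E)))) (fun _ => 0) k)
        (H66T.gS d x) :=
  ⟨rfl, rfl, rfl, rfl⟩

/-- **The part outside `S` has a period.**  For the lattice `D h̄⁻¹` (outside `S`), `u ∈ E` and `ξ ∈ B`
there is a sublattice, given by orders `δ`, on which `u N`, its polar form with the whole lattice and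
the form `tr(x τ ξ)` are integral outside `S`: so all means of this section are over finite
groups, and `key_identity` of `GuideThetaGauss` applies to them.  In `H78RLd`. -/
theorem exists_period (E B J : Type) [Field E] [NumberField E] [Field B] [NumberField B]
    [Algebra E B] [Fintype J] (d : H71D.DD E B J) (hd : d.Good) (D : H71D.FI E) (h : H71D.FI B)
    (u : E) (ξ : B) :
    ∃ δ : HeightOneSpectrum (𝓞 B) → ℤ, {P | δ P ≠ 0}.Finite ∧ (∀ P, d.dlt D h P ≤ δ P) ∧
      ∀ x ∈ H71D.RB B d.S δ, (∀ y ∈ H71D.RB B d.S (d.dlt D h), ∀ w ∉ d.S,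
          w.valuation E (u * Algebra.trace E B (x * d.tau y)) ≤ 1) ∧
        (∀ w ∉ d.S, w.valuation E (u * Algebra.norm E x) ≤ 1) ∧
        ∀ w ∉ d.S, w.valuation E (Algebra.trace E B (x * d.tau ξ)) ≤ 1 :=
  H78R.exists_period hd D h u ξ

open Classical in
/-- **Factorisation.**  The function whose integral is the Fourier transform of `phi` at `x` is a
constant times the product of `gS d x` and `gO d u x` on the lattice `D h̄⁻¹` (outside `S`): the
additive character `e(tr(x τ y))` is the product of its parts at `S` and outside `S`.  With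
`haar_product` this gives `fourier_transform` of `GuideOctDTheta`.  In `H66TPhi`. -/
theorem kernel_factorisation (E B J : Type) [Field E] [NumberField E] [Field B] [NumberField B]
    [Algebra E B] [Fintype J] (d : H71D.DD E B J) (A D : H71D.FI E) (u : E) (h : H71D.FI B)
    (x y : B) :
    H13Z.er (((Algebra.trace ℚ B (x * d.tau y) : ℚ)) : ℝ) * d.phi A D u h y =
      (H71D.om B d.S D * (((H71D.aN (A * D⁻¹)) ^ (-(1 / 2) : ℝ) : ℝ) : ℂ)) *
        (if y ∈ H66T.RS (aboveSet B (d.S : Set (HeightOneSpectrum (𝓞 E)))) (d.dlt D h) then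
          H66T.gS d x y * H66T.gO d u x y else 0) :=
  H66T.phi_mul d A D u h x y

/-- **The part at `S` has a level, and `phi` is a Schwartz function.**  For every `x` the function
`gS d x` has the period `P ^ k` above `S` for all large `k` (and support in the integral elements);
therefore `phi` is in `SF 𝓞_B`.  In `H66TPhi`, `H66TMain`, `H13ZA`. -/
theorem kernel_schwartz (E B J : Type) [Field E] [NumberField E] [Field B] [NumberField B]
    [Algebra E B] [Fintype J] (d : H71D.DD E B J) (hd : d.Good) :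
    (∀ x : B, ∃ k₁ : ℕ, ∀ k ≥ k₁,
      (∀ y, H66T.gS d x y ≠ 0 → ∀ P ∈ aboveSet B (d.S : Set (HeightOneSpectrum (𝓞 E))),
        P.valuation B y ≤ 1) ∧
      ∀ y z, (∀ P ∈ aboveSet B (d.S : Set (HeightOneSpectrum (𝓞 E))),
        P.valuation B z ≤ exp (-(k : ℤ))) → H66T.gS d x (y + z) = H66T.gS d x y) ∧
    ∀ (A D : H71D.FI E) (u : E) (h : H71D.FI B), d.phi A D u h ∈ H66D.SF (H66D.OLat B) := by
  obtain ⟨k₀, hk₀⟩ := H13Z.exists_VS_add hd
  exact ⟨fun x => (H66T.sfun_gS d hd hk₀ x).imp fun _ h k hk => ⟨(h k hk).supp, (h k hk).per⟩,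
    fun A D u h => (H66T.sfun_gS d hd hk₀ 0).elim fun _ H => H66T.phi_mem d hd A D u h (H _ le_rfl)⟩

/-- **Periods of `VS`.**  If `US` contains the elements congruent to `1` modulo `w ^ (n_w)` for
`w ∈ S`, `n_w ≥ n2`, then `VS` is stable under translation by the `y` with order at least
`e(P/w) n_w` at all `P` above `w ∈ S`: the elements `x` of `VS` are units above `S`, and
`N(x + y) = N(x) N(1 + y/x)` with `N(1 + y/x)` congruent to `1` modulo `w ^ (n_w)`.  In `H13ZB`. -/
theorem period_of_VS (E B J : Type) [Field E] [NumberField E] [Field B] [NumberField B]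
    [Algebra E B] [Fintype J] (d : H71D.DD E B J) (hd : d.Good)
    (n : HeightOneSpectrum (𝓞 E) → ℕ) (hn : ∀ α : Eˣ, (∀ w ∈ d.S, α ∈ congr w (n w)) → α ∈ d.US)
    (hn2 : ∀ w ∈ d.S, d.n2 ≤ n w) (x : B) (hx : x ∈ d.VS) (y : B)
    (hy : ∀ w ∈ d.S, ∀ P ∈ above B w, P.valuation B y ≤
      exp (-((w.asIdeal.ramificationIdx' P.asIdeal * n w : ℕ) : ℤ))) : x + y ∈ d.VS :=
  H13Z.VS_add' hd hn hn2 hx hy

/-- **The support of the part at `S`.**  If `VS` is stable under translation by the `y` with order at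
least `m_P` at the `P` above `S`, and if `MS d k x ≠ 0`, then `∏_{w ∈ S} psi w (tr(x τ y)) = 1` for
all these `y` (otherwise a translation multiplies `gS d x` by a constant `≠ 1`, `mean_rules`).  In
`H66TMain`. -/
theorem support_at_S (E B J : Type) [Field E] [NumberField E] [Field B] [NumberField B]
    [Algebra E B] [Fintype J] (d : H71D.DD E B J) (hd : d.Good)
    (m : HeightOneSpectrum (𝓞 B) → ℕ)
    (hper : ∀ x ∈ d.VS, ∀ y : B, (∀ P ∈ aboveSet B (d.S : Set (HeightOneSpectrum (𝓞 E))),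
      P.valuation B y ≤ exp (-(m P : ℤ))) → x + y ∈ d.VS) (k : ℕ) (x : B)
    (hk : (∀ y, H66T.gS d x y ≠ 0 → ∀ P ∈ aboveSet B (d.S : Set (HeightOneSpectrum (𝓞 E))),
        P.valuation B y ≤ 1) ∧
      ∀ y z, (∀ P ∈ aboveSet B (d.S : Set (HeightOneSpectrum (𝓞 E))),
        P.valuation B z ≤ exp (-(k : ℤ))) → H66T.gS d x (y + z) = H66T.gS d x y)
    (hMS : H66T.MS d k x ≠ 0) (y : B)
    (hy : ∀ P ∈ aboveSet B (d.S : Set (HeightOneSpectrum (𝓞 E))),
      P.valuation B y ≤ exp (-(m P : ℤ))) :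
    ∏ w ∈ d.S, psi w (Algebra.trace E B (x * d.tau y)) = 1 :=
  H66T.psi_eq_one_of_MS d hd hper ⟨hk.1, hk.2⟩ hMS y hy

/-- **Orthogonal elements are bounded** (duality for the trace form, without completions).  There is
`c₁`, depending on `E`, `B`, `S` only, such that: if `∏_{w ∈ S} psi w (tr(x τ y)) = 1` for all `y` with
order at least `k_P` at the `P` above `S`, then `x` has order at least `-(k_{P'} + c₁)` at the `P`
above `S`, `P' = τ⁻¹ P`.  With `k_P = e(P/w) n_w` this gives `norm_support` of `GuideOctDTheta`, and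
`c N x` is integral at `S` as soon as `c` has order at least `2 n_w` plus a constant.  In `H53Z8`. -/
theorem orthogonal_bounded (E B : Type) [Field E] [NumberField E] [Field B] [NumberField B]
    [Algebra E B] (S : Finset (HeightOneSpectrum (𝓞 E))) :
    ∃ c₁ : ℕ, ∀ (τ : B ≃ₐ[E] B) (k : HeightOneSpectrum (𝓞 B) → ℕ) (x : B),
      (∀ y : B, (∀ P ∈ aboveSet B (S : Set (HeightOneSpectrum (𝓞 E))),
        P.valuation B y ≤ exp (-(k P : ℤ))) →
        ∏ w ∈ S, psi w (Algebra.trace E B (x * τ y)) = 1) →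
      ∀ P ∈ aboveSet B (S : Set (HeightOneSpectrum (𝓞 E))),
        P.valuation B x ≤ exp ((k (smulPlace τ⁻¹ P) : ℤ) + c₁) :=
  H53Z.exists_supp_gen S

/-- **The constants agree.**  If `A D = A₁ D₁` and `Q/A = Q₁/A₁`, then the constant
`ω(D) N(A/D)^(-1/2) N(A/D) ω(Q)/N(Q)` in the Fourier transform is the same for `(A, D, Q)` and
`(A₁, D₁, Q₁)`.  (`D₁ Q₁ = D₁ Q A₁ / A = D Q`, and the number is `ω(D Q) N(A D)^(1/2) / N(D Q)`; in
`H82W1`: `ω` and the norm of fractional ideals are multiplicative, and the orders at all places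
determine the ideal.)  In `H66TMain`. -/
theorem constants_agree (E B J : Type) [Field E] [NumberField E] [Field B] [NumberField B]
    [Algebra E B] [Fintype J] (d : H71D.DD E B J) (A D A₁ D₁ Q Q₁ : H71D.FI E)
    (h1 : A * D = A₁ * D₁) (h2 : Q * A₁ = Q₁ * A) :
    H71D.om B d.S D * (((H71D.aN (A * D⁻¹)) ^ (-(1 / 2) : ℝ) : ℝ) : ℂ) *
        ((H71D.aN (A * D⁻¹) : ℝ) : ℂ) * (H71D.om B d.S Q * ((H71D.aN Q : ℝ) : ℂ)⁻¹) =
      H71D.om B d.S D₁ * (((H71D.aN (A₁ * D₁⁻¹)) ^ (-(1 / 2) : ℝ) : ℝ) : ℂ) *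
        ((H71D.aN (A₁ * D₁⁻¹) : ℝ) : ℂ) * (H71D.om B d.S Q₁ * ((H71D.aN Q₁ : ℝ) : ℂ)⁻¹) :=
  H66T.cst_eq d h1 h2

/-- **Criterion for invariance.**  `m` periods of `VS`, and `CS` a set of elements `c ∈ E` such that
`c N x` is integral at `S` for all `x` which are orthogonal at `S` to the periods.  Then the theta
kernel is invariant under `n̄(c)` for `c ∈ CS`.  Proof: by `exists_auxiliary` and `fourier_transform`
of `GuideOctDTheta` and `constants_agree` the Fourier transforms of the two kernels at `x` are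
`C MS(x) psS(u₂ N x)` and `C MS(x) psS((u₂ - c) N x)` on the same lattice, with the same unknown
factor `MS(x)`.  Where `MS(x) ≠ 0`, `c N x` is integral at `S` by `support_at_S`, so
`psS(-c N x) = e(tr(c N x))`, and the transform of the first kernel is `e(-tr(c N x))` times the one
of the second: this is the hypothesis of `poisson` in `GuideOctDTheta`.  In `H66TMain`;
`theta_invariant` of `GuideOctDTheta` follows with `period_of_VS` and `norm_support`. -/
theorem invariance_criterion (E B J : Type) [Field E] [NumberField E] [Field B] [NumberField B]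
    [Algebra E B] [Fintype J] (d : H71D.DD E B J) (hd : d.Good)
    (hB : ∀ P ∉ aboveSet B (d.S : Set (HeightOneSpectrum (𝓞 E))), H7.Z.Unram P)
    (hE : ∀ w ∉ d.S, H7.Z.Unram w) (m : HeightOneSpectrum (𝓞 B) → ℕ) (CS : Set E)
    (hper : ∀ x ∈ d.VS, ∀ y : B, (∀ P ∈ aboveSet B (d.S : Set (HeightOneSpectrum (𝓞 E))),
      P.valuation B y ≤ exp (-(m P : ℤ))) → x + y ∈ d.VS)
    (hsupp : ∀ x : B, (∀ y : B, (∀ P ∈ aboveSet B (d.S : Set (HeightOneSpectrum (𝓞 E))),
      P.valuation B y ≤ exp (-(m P : ℤ))) →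
        ∏ w ∈ d.S, psi w (Algebra.trace E B (x * d.tau y)) = 1) →
      ∀ c ∈ CS, ∀ w ∈ d.S, w.valuation E (c * Algebra.norm E x) ≤ 1) :
    ∀ c ∈ CS, ∀ (A D : H71D.FI E) (u : E) (A₁ D₁ : H71D.FI E) (u₁ : E) (h : H71D.FI B),
      (∀ w ∈ d.S, H71D.cE A w = 0 ∧ H71D.cE D w = 0 ∧ H71D.cE A₁ w = 0 ∧ H71D.cE D₁ w = 0) →
      H71D.REL d.S c A D u A₁ D₁ u₁ → H71D.IsNm d.S d.tau h (H71D.cE (A * D)) →
      H71D.IsNm d.S d.tau h (H71D.cE (A₁ * D₁)) → ∀ (w : J → H3) (s : J → ℝ),
        d.theta A₁ D₁ u₁ h (d.nbAct c w) s = d.theta A D u h w s :=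
  H66T.nbarTheta_of d hd hB (H88T.gsProp d hd hE hB) hper hsupp

end Fermat.Agent.Guide.ThetaFinite
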