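import Fermat.Agent.H36Psi
import Fermat.Agent.H47TClass

/-!
# Unramified places and the additive characters in towers (helper78, S47 block (D))

If `w` is prime to the different of `E/ℚ` and `P | w` is unramified then `P` is prime to the
different of `B/ℚ`.
-/

set_option autoImplicit false

noncomputable section

open IsDedekindDomain HeightOneSpectrum WithZero NumberField

namespace Fermat.Agent.H78R

open Fermat.Agent.H7.Z
open Fermat.Agent.H47 (below)

variable {E B : Type*} [Field E] [NumberField E] [Field B] [NumberField B] [Algebra E B]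

theorem not_dvd_relDifferent {P : HeightOneSpectrum (𝓞 B)}
    (hr : (below E P).asIdeal.ramificationIdx' P.asIdeal = 1) :
    ¬ P.asIdeal ∣ differentIdeal (𝓞 E) (𝓞 B) := by
  rw [not_dvd_differentIdeal_iff]
  have hmax : (P.asIdeal.under (𝓞 E)).IsMaximal := (below E P).isMaximal
  have hmaxP := P.isMaximal
  let := Localization.AtPrime.algebraOfLiesOver (P.asIdeal.under (𝓞 E)) P.asIdeal
  rw [Algebra.isUnramifiedAt_iff_map_eq (p := P.asIdeal.under (𝓞 E))]
  constructor
  · have hfin : Finite ((𝓞 E) ⧸ (P.asIdeal.under (𝓞 E))) :=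
      Ideal.finiteQuotientOfFreeOfNeBot _ (below E P).ne_bot
    let := Ideal.Quotient.field (P.asIdeal.under (𝓞 E))
    let := Ideal.Quotient.field P.asIdeal
    suffices Algebra.IsSeparable ((𝓞 E) ⧸ (P.asIdeal.under (𝓞 E))) ((𝓞 B) ⧸ P.asIdeal) by
      infer_instance
    infer_instance
  · rw [← Ideal.IsDedekindDomain.ramificationIdx'_eq_one_iff P.ne_bot Ideal.map_comap_le]
    exact hr

/-- **Unramified places in towers.** -/
theorem unramB {P : HeightOneSpectrum (𝓞 B)} (hE : Unram (below E P))
    (hr : (below E P).asIdeal.ramificationIdx' P.asIdeal = 1) : Unram P := by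
  apply H36.Psi.unram_of_not_dvd
  intro h
  rw [differentIdeal_eq_differentIdeal_mul_differentIdeal ℤ (𝓞 E) (𝓞 B)] at h
  rcases P.prime.dvd_or_dvd h with h1 | h1
  · exact not_dvd_relDifferent hr h1
  · rw [H36.Psi.unram_iff, H36.Psi.dexp_eq_zero_iff] at hE
    apply hE
    rw [Ideal.dvd_iff_le] at h1 ⊢
    exact Ideal.map_le_iff_le_comap.1 h1

end Fermat.Agent.H78R
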