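import Fermat.Agent.H78RLd
import Fermat.Agent.H78Unr

/-!
# Reader's guide: block (D) of S47, the transformation law of the unramified Gauss sums

**Statement served:** S47, block (D). Companion of `GuideOctDTheta` (`quadratic_means`,
`lattice_duality`, `gauss_sum_identity`) and of `GuideThetaFinite`. Nothing is proved in this file:
every theorem is the exact statement of a theorem of the library, or a conjunction of such
statements, followed by a citation. No file imports this one.

## What is explained here

`B/E` is a quadratic extension of number fields with conjugation `τ`, `N x = x τ(x)` its norm form and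
`T(x, y) = tr(x τ y)` the polar form of `N`. Let `S` be a finite set of places of `E` such that the
extension and the additive characters are unramified outside `S`, and let `b` be a lattice of elements
`x ∈ B` with given orders outside `S`. The invariance of the theta kernel rests on one identity: the
Fourier transform of the function `x ↦ psS(u N x)` on `b` is a constant times a function of the same
form on another lattice, with an approximate inverse `-1/u` in place of `u` (`key_identity`). In the
literature this is the action of the matrix `(0 -1; 1 0) (1 u; 0 1)` on the unramified vector of the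
Weil representation, place by place. Here the constant is the mean of `psS(u N x)` over a finite
quotient of `b`, the value of the transform at `ξ` is the mean of `psS(u N x - tr(x τ ξ))` over the same
quotient, and the two means are compared by completing the square. Only the lattice and its dual enter,
all places outside `S` are treated at the same time, and the residue characteristic `2` is not an
exception. The value of the constant is not needed for this; it is computed in `GuideThetaFinite`
(`gauss_product`).

## Plan (reading order of this file)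

1. *The different and the additive characters* (`dual_of_integers` to `relative_different`).
2. *Lattices and characters outside `S`* (`lattices` to `valuations`).
3. *Quadratic forms* (`quadratic_form` to `degenerate_elements`).
4. *The key identity* (`lattice_with_norm` to `key_identity`).
5. *The lattice of the theta kernel* (`notation_of_theta`, `theta_data`).

## References

NOTES.md: [444] NOTES-S47-DE2, files `H78Gauss`, `H78Key`, `H78RL`, `H78RLd`, `H78Unr` (helper78);
section 1: [473] NOTES-S47-PSI, `H36Psi` (helper36). All library theorems cited here are in the proof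
term of S47, and of no other statement.

## Notation

`w.valuation K x ≤ exp (-n)` says that `x` has order at least `n` at the place `w`. `psi w` is the
standard additive character at `w`, and `psS S` the part outside `S` of the additive character
`z ↦ exp(-2πi tr z)` (`GuideOctD.psS_eq`). `H7.Z.Unram w` says that `psi w` is unramified: the dual of the
integers at `w` is not larger than the integers. `below E P` is the place of `E` below the place `P` of
`B`, `aboveSet B S` the set of the places of `B` above `S`, `smulPlace τ P` the image of the place `P`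
under `τ`. `mean L L' f` is the mean of `f` over `L / L'` (`GuideOctDTheta.mean_eq`). There are no hidden
hypotheses.
-/

set_option autoImplicit false

open IsDedekindDomain HeightOneSpectrum WithZero NumberField
open scoped nonZeroDivisors
open Fermat.Agent.H47 (smulPlace below)
open Fermat.Agent.H82 (above aboveSet)
open Fermat.Agent.H78G (NT mean ker)
open Fermat.Agent.H78R (RL RR ntd Lat2 Upair)

noncomputable section

namespace Fermat.Agent.Guide.ThetaGauss

/-! ## 1. The different and the additive characters -/

/-- **The dual of the ring of integers.** The dual of `𝓞_K` for the trace form over `ℚ` consists of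
the `x` such that `tr(x y) ∈ ℤ` for all integers `y`, and also of the `x` of order at least `-d_w` at
all places `w`, where `d_w` is the exponent of the different at `w` (`H36.Psi.dexp w`; see
`GuideLatticeTypes.dexp_eq`). File `H36Psi`. -/
theorem dual_of_integers {K : Type*} [Field K] [NumberField K] (x : K) :
    (x ∈ FractionalIdeal.dual ℤ ℚ (1 : FractionalIdeal (𝓞 K)⁰ K) ↔
      ∀ y : 𝓞 K, ∃ n : ℤ, Algebra.trace ℚ K (x * (y : K)) = n) ∧
    (x ∈ FractionalIdeal.dual ℤ ℚ (1 : FractionalIdeal (𝓞 K)⁰ K) ↔
      ∀ w : HeightOneSpectrum (𝓞 K), w.valuation K x ≤ exp (H36.Psi.dexp w : ℤ)) :=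
  ⟨H36.Psi.mem_dual_iff_trace x, H36.Psi.mem_dual_iff_val x⟩

/-- **Unramified characters.** The character `psi w` is unramified if and only if `w` does not divide the
different. Indeed `psi w (x r) = 1` for all integers `r` at `w` if and only if `x` has order at least
`-d_w` at `w`: replace `x` by its `w`-part and use `dual_of_integers` (`GuideLatticeTypes.psi_duality`).
File `H36Psi`. -/
theorem unramified_iff {K : Type*} [Field K] [NumberField K] (w : HeightOneSpectrum (𝓞 K)) :
    (H7.Z.Unram w ↔ H36.Psi.dexp w = 0) ∧
    (H36.Psi.dexp w = 0 ↔ ¬ w.asIdeal ∣ differentIdeal ℤ (𝓞 K)) :=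
  ⟨H36.Psi.unram_iff w, H36.Psi.dexp_eq_zero_iff w⟩

/-- **The trace of an integral element is integral**, at one place `v` of the base field: if `x` is
integral at all places above `v`, then `tr x` is integral at `v`. (Multiply `x` by an integer of the
base field which is a unit at `v`, so that it becomes integral everywhere.) This is used for
`dual_lattice`. File `H36Psi`. -/
theorem trace_integral {F E : Type*} [Field F] [NumberField F] [Field E] [NumberField E]
    [Algebra F E] {v : HeightOneSpectrum (𝓞 F)} {x : E}
    (hx : ∀ w ∈ above E v, w.valuation E x ≤ 1) : v.valuation F (Algebra.trace F E x) ≤ 1 :=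
  H36.Psi.trace_le_one hx

/-- **The relative different** is not divisible by `P` if `P` is unramified over `E`. Since the different
is multiplicative in towers, `psi P` is unramified if `P` is unramified over `E` and `psi w` is
unramified for the place `w` below `P` (`GuideOctDTheta.psi_unramified_above`). File `H78Unr`. -/
theorem relative_different {E B : Type*} [Field E] [NumberField E] [Field B] [NumberField B]
    [Algebra E B] {P : HeightOneSpectrum (𝓞 B)}
    (hr : (below E P).asIdeal.ramificationIdx' P.asIdeal = 1) :
    ¬ P.asIdeal ∣ differentIdeal (𝓞 E) (𝓞 B) :=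
  H78R.not_dvd_relDifferent hr

/-! ## 2. Lattices and characters outside `S` -/

/-- **The lattice of a divisor.** `RL S δ` consists of the `x` of order at least `δ w` at all `w ∉ S`, and
`RR S` is the ring of the elements which are integral outside `S`. For a finite set `S` the character
`psS S` is trivial on `RR S` (`GuideOctD.psS_eq`); if the characters are unramified outside `S`, the
dual of `RL S δ` for `psS S` is `RL S (-δ)` (`GuideOctDTheta.lattice_duality`). File `H78RL`. -/
theorem lattices {K : Type*} [Field K] [NumberField K] (S : Set (HeightOneSpectrum (𝓞 K)))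
    (δ : HeightOneSpectrum (𝓞 K) → ℤ) (x : K) :
    (x ∈ RL S δ ↔ ∀ w ∉ S, w.valuation K x ≤ exp (-δ w)) ∧
    (x ∈ RR S ↔ ∀ w ∉ S, w.valuation K x ≤ 1) :=
  ⟨Iff.rfl, Iff.rfl⟩

/-- **The characters in an extension.** Let `SB` be the set of the places of `B` above `S`. Then
`psS S (tr b) = psS SB b`, because the product of the `psi P`, `P` above `w`, is `psi w` composed with the
trace (`GuideOctCGeom.psi_trace`). File `H78RL`. -/
theorem psS_trace {E B : Type*} [Field E] [NumberField E] [Field B] [NumberField B] [Algebra E B]
    {S : Finset (HeightOneSpectrum (𝓞 E))} {SB : Finset (HeightOneSpectrum (𝓞 B))}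
    (hSB : ∀ P, P ∈ SB ↔ below E P ∈ S) (b : B) :
    H71D.psS S (Algebra.trace E B b) = H71D.psS SB b :=
  H78R.psS_trace hSB b

/-- **Valuations.** Let `B/E` be quadratic with conjugation `τ`, and let the place `P` of `B` be unramified
over the place `w` of `E` below. The order at `P` of an element of `E` is its order at `w`; the order of
`τ x` at `P` is the order of `x` at `τ P`; the order of `N x` at `w` is the sum of the orders of `x` at
`P` and at `τ P` (this is also true if `τ P = P`). File `H78RL`. -/
theorem valuations {E B : Type*} [Field E] [NumberField E] [Field B] [NumberField B] [Algebra E B]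
    [IsGalois E B] (hdeg : Module.finrank E B = 2) {τ : B ≃ₐ[E] B} (hτ : τ ≠ 1)
    {P : HeightOneSpectrum (𝓞 B)} (hP : (below E P).asIdeal.ramificationIdx' P.asIdeal = 1) :
    (∀ z : E, P.valuation B (algebraMap E B z) = (below E P).valuation E z) ∧
    (∀ x : B, P.valuation B (τ x) = (smulPlace τ P).valuation B x) ∧
    (∀ x : B, (below E P).valuation E (Algebra.norm E x) =
      P.valuation B x * (smulPlace τ P).valuation B x) ∧
    smulPlace τ (smulPlace τ P) = P ∧ below E (smulPlace τ P) = below E P :=
  ⟨H78R.val_algebraMap hP, H78R.val_tau hdeg hτ P, H78R.val_norm hdeg hτ hP,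
    H78R.smulPlace_smulPlace hdeg hτ P, H78R.below_smulPlace P⟩

/-! ## 3. Quadratic forms -/

/-- **Quadratic forms.** `NT E B` is the type of the pairs `(N, T)` of a quadratic form `N : B → E` and its
polar form `T`. The properties are written out; division by `2` is never used. File `H78Gauss`. -/
theorem quadratic_form {E B : Type*} [Field E] [Field B] [Algebra E B] (D : NT E B) :
    (∀ x y, D.N (x + y) = D.N x + D.T x y + D.N y) ∧
    (∀ x y z, D.T x (y + z) = D.T x y + D.T x z) ∧ (∀ x y, D.T x y = D.T y x) ∧
    (∀ (e : E) (x : B), D.N (e • x) = e ^ 2 * D.N x) ∧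
    (∀ (e : E) (x y : B), D.T x (e • y) = e * D.T x y) ∧ ∀ x, D.T x x = 2 * D.N x :=
  ⟨D.N_add, D.T_add, D.T_comm, D.N_smul, D.T_smul, D.T_self⟩

/-- **The norm form** of a quadratic extension: `N x` is the norm, and the polar form is `tr(x τ y)`. File
`H78RL`. -/
theorem norm_form {E B : Type*} [Field E] [NumberField E] [Field B] [NumberField B] [Algebra E B]
    [IsGalois E B] (hdeg : Module.finrank E B = 2) {τ : B ≃ₐ[E] B} (hτ : τ ≠ 1) (x y : B) :
    (ntd hdeg hτ).N x = Algebra.norm E x ∧ (ntd hdeg hτ).T x y = Algebra.trace E B (x * τ y) :=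
  ⟨H78R.ntd_N hdeg hτ x, H78R.ntd_T hdeg hτ x y⟩

/-- **Completing the square**, without division by `u`: if `ξ = u η + δ`, the substitution `x + η` for `x`
in `u N(x) - T(x, ξ)` removes the part `u η` of the linear term. This is the proof of
`GuideOctDTheta.quadratic_means`: there `T(x, δ)` is integral on the lattice, and the constant term
`-u N(η) - T(η, δ)` is congruent to `u' N(ξ)` modulo integers if `u'` is an approximate inverse `-1/u`.
File `H78Key`. -/
theorem completing_the_square {E B : Type*} [Field E] [Field B] [Algebra E B] {D : NT E B} {u : E}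
    (x η δ : B) :
    u * D.N (x + η) - D.T (x + η) (u • η + δ) =
      -(u * D.N η) + (u * D.N x - D.T x δ - D.T η δ) :=
  H78G.phase_key x η δ

/-- **The degenerate elements.** For a ring `R` (the integers outside `S`), a lattice `b` and `u ∈ E` let
`ker D R b u` be the subgroup of the `x ∈ b` such that `u N(x) ∈ R` and `u T(x, y) ∈ R` for all `y ∈ b`. If
the additive character `ψ` is trivial on `R`, the function `x ↦ ψ(u N(x))` on `b` is periodic modulo
this subgroup. File `H78Key`. -/
theorem degenerate_elements {E B : Type*} [Field E] [Field B] [Algebra E B] (D : NT E B)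
    (R : Subring E) (b : AddSubgroup B) (u : E) (x : B) :
    x ∈ ker D R b u ↔ x ∈ b ∧ (∀ y ∈ b, u * D.T x y ∈ R) ∧ u * D.N x ∈ R :=
  Iff.rfl

/-! ## 4. The key identity

`S` is a finite set of places of `E` and `SB` the set of the places of `B` above `S`. -/

/-- **A lattice with a norm.** `Lat2 τ S SB c n`: `SB` is the set of the places above `S`; outside `SB` the
extension and the characters `psi P` are unramified; `c` is a divisor of `B` with almost all values
outside `SB` equal to `0`; and its norm is the divisor `n` of `E`, that is `c P + c (τ P) = n w` for all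
`P ∉ SB` with place `w` below. (If `τ P = P`, this means `2 c P = n w`.) The lattice is `b = RL SB c`. File
`H78RL`. -/
theorem lattice_with_norm {E B : Type*} [Field E] [NumberField E] [Field B] [NumberField B]
    [Algebra E B] (τ : B ≃ₐ[E] B) (S : Finset (HeightOneSpectrum (𝓞 E)))
    (SB : Finset (HeightOneSpectrum (𝓞 B))) (c : HeightOneSpectrum (𝓞 B) → ℤ)
    (n : HeightOneSpectrum (𝓞 E) → ℤ) :
    Lat2 τ S SB c n ↔ (∀ P, P ∈ SB ↔ below E P ∈ S) ∧
      (∀ P ∉ SB, (below E P).asIdeal.ramificationIdx' P.asIdeal = 1) ∧
      (∀ P ∉ SB, H7.Z.Unram P) ∧ {P | P ∉ SB ∧ c P ≠ 0}.Finite ∧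
      ∀ P ∉ SB, c P + c (smulPlace τ P) = n (below E P) :=
  ⟨fun h => ⟨h.hSB, h.ram, h.unB, h.cfin, h.nrm⟩, fun h => ⟨h.1, h.2.1, h.2.2.1, h.2.2.2.1, h.2.2.2.2⟩⟩

/-- **An approximate inverse.** `Upair S n g u u'`: for all `w ∉ S` the number `-g w` is the larger one of
`-ord u` and `n w`; `u'` has order at least `n w`; `u u'` is integral; and `(1 + u u') u` has order at
least `-n w`. If `u` has order at least `-n w` one can take `u' = 0` at `w`, otherwise `u' = -1/u`; one
`u'` for all places exists by approximation (`GuideOctDTheta.exists_auxiliary`). File `H78RL`. -/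
theorem approximate_inverse {E : Type*} [Field E] [NumberField E]
    (S : Finset (HeightOneSpectrum (𝓞 E))) (n g : HeightOneSpectrum (𝓞 E) → ℤ) (u u' : E) :
    Upair S n g u u' ↔ (∀ w ∉ S, exp (-g w) = max (w.valuation E u) (exp (n w))) ∧
      (∀ w ∉ S, w.valuation E u' ≤ exp (-n w)) ∧ (∀ w ∉ S, w.valuation E (u * u') ≤ 1) ∧
      ∀ w ∉ S, w.valuation E ((1 + u * u') * u) ≤ exp (n w) :=
  ⟨fun h => ⟨h.hg, h.h1, h.h2, h.h3⟩, fun h => ⟨h.1, h.2.1, h.2.2.1, h.2.2.2⟩⟩

/-- **Finiteness.** Outside `SB` almost all values of `n` and of `g` are `0`: those of `n` because `c` has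
this property, those of `g` because almost all values of `n` and almost all orders of `u ≠ 0` are `0`
(for `u = 0` one has `g = -n`). So all lattices of this section are commensurable, and approximation
can be applied. File `H78RL`. -/
theorem finite_support {E B : Type*} [Field E] [NumberField E] [Field B] [NumberField B]
    [Algebra E B] [IsGalois E B] (hdeg : Module.finrank E B = 2) {τ : B ≃ₐ[E] B} (hτ : τ ≠ 1)
    {S : Finset (HeightOneSpectrum (𝓞 E))} {SB : Finset (HeightOneSpectrum (𝓞 B))}
    {c : HeightOneSpectrum (𝓞 B) → ℤ} {n g : HeightOneSpectrum (𝓞 E) → ℤ} {u u' : E}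
    (h : Lat2 τ S SB c n) (hu : Upair S n g u u') :
    {P | P ∉ SB ∧ n (below E P) ≠ 0}.Finite ∧ {P | P ∉ SB ∧ g (below E P) ≠ 0}.Finite :=
  ⟨h.nfin (hdeg := hdeg) (hτ := hτ), h.gfin (hdeg := hdeg) (hτ := hτ) hu⟩

/-- **The dual lattice.** The lattice dual to `b` for the form `tr(x τ y)` is `b' = RL SB (c - n)`: the
form is integral outside `S` on `b × b'`. The norm has order at least `n w` on `b` and at least `-n w`
on `b'`. File `H78RL`. -/
theorem dual_lattice {E B : Type*} [Field E] [NumberField E] [Field B] [NumberField B] [Algebra E B]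
    [IsGalois E B] {hdeg : Module.finrank E B = 2} {τ : B ≃ₐ[E] B} {hτ : τ ≠ 1}
    {S : Finset (HeightOneSpectrum (𝓞 E))} {SB : Finset (HeightOneSpectrum (𝓞 B))}
    {c : HeightOneSpectrum (𝓞 B) → ℤ} {n : HeightOneSpectrum (𝓞 E) → ℤ} (h : Lat2 τ S SB c n) :
    (∀ x ∈ RL (SB : Set (HeightOneSpectrum (𝓞 B))) c,
      ∀ y ∈ RL (SB : Set (HeightOneSpectrum (𝓞 B))) (fun P => c P - n (below E P)),
        (ntd hdeg hτ).T x y ∈ RR (S : Set (HeightOneSpectrum (𝓞 E)))) ∧
    (∀ x ∈ RL (SB : Set (HeightOneSpectrum (𝓞 B))) c, ∀ w ∉ S,
      w.valuation E ((ntd hdeg hτ).N x) ≤ exp (-n w)) ∧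
    ∀ x ∈ RL (SB : Set (HeightOneSpectrum (𝓞 B))) (fun P => c P - n (below E P)), ∀ w ∉ S,
      w.valuation E ((ntd hdeg hτ).N x) ≤ exp (n w) :=
  ⟨fun _ hx _ hy => h.T_mem hx hy, fun _ hx _ hw => h.N_mem hx hw, fun _ hx _ hw => h.N_mem' hx hw⟩

/-- **The sum of lattices.** The lattice of the divisor `c + g` is `u b + b'`: every `ξ` in it is `u η + δ`
with `η ∈ b` and `δ ∈ b'`. At each place one of the two summands is enough; one `η` for all places exists
by approximation. File `H78RL`. -/
theorem decomposition {E B : Type*} [Field E] [NumberField E] [Field B] [NumberField B] [Algebra E B]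
    [IsGalois E B] (hdeg : Module.finrank E B = 2) {τ : B ≃ₐ[E] B} (hτ : τ ≠ 1)
    {S : Finset (HeightOneSpectrum (𝓞 E))} {SB : Finset (HeightOneSpectrum (𝓞 B))}
    {c : HeightOneSpectrum (𝓞 B) → ℤ} {n g : HeightOneSpectrum (𝓞 E) → ℤ} {u u' : E}
    (h : Lat2 τ S SB c n) (hu : Upair S n g u u') {ξ : B}
    (hξ : ξ ∈ RL (SB : Set (HeightOneSpectrum (𝓞 B))) (fun P => c P + g (below E P))) :
    ∃ η ∈ RL (SB : Set (HeightOneSpectrum (𝓞 B))) c,
      ξ - u • η ∈ RL (SB : Set (HeightOneSpectrum (𝓞 B))) (fun P => c P - n (below E P)) :=
  h.exists_decomp (hdeg := hdeg) (hτ := hτ) hu hξ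

/-- **A test element.** If `ξ` is not in the lattice of the divisor `c + g`, there is a degenerate element
`x ∈ b` with `psS(tr(x τ ξ)) ≠ 1`, by duality: the degenerate elements contain the lattice dual to the
lattice of `c + g`. So `GuideOctDTheta.quadratic_means_zero` can be applied, and the Fourier transform
vanishes at `ξ`. File `H78RL`. -/
theorem test_element {E B : Type*} [Field E] [NumberField E] [Field B] [NumberField B] [Algebra E B]
    [IsGalois E B] (hdeg : Module.finrank E B = 2) {τ : B ≃ₐ[E] B} (hτ : τ ≠ 1)
    {S : Finset (HeightOneSpectrum (𝓞 E))} {SB : Finset (HeightOneSpectrum (𝓞 B))}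
    {c : HeightOneSpectrum (𝓞 B) → ℤ} {n g : HeightOneSpectrum (𝓞 E) → ℤ} {u u' : E}
    (h : Lat2 τ S SB c n) (hu : Upair S n g u u') {ξ : B}
    (hξ : ξ ∉ RL (SB : Set (HeightOneSpectrum (𝓞 B))) (fun P => c P + g (below E P))) :
    ∃ x ∈ ker (ntd hdeg hτ) (RR (S : Set (HeightOneSpectrum (𝓞 E))))
        (RL (SB : Set (HeightOneSpectrum (𝓞 B))) c) u,
      H71D.psS S (Algebra.trace E B (x * τ ξ)) ≠ 1 :=
  h.exists_ker hu hξ

open Classical in
/-- **The key identity.** Let `L'` be a subgroup of finite index of `b` consisting of degenerate elements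
on which `x ↦ tr(x τ ξ)` is integral outside `S`. The mean over `b / L'` of `psS(u N x - tr(x τ ξ))` is
`psS(u' N ξ)` times the mean of `psS(u N x)` if `ξ` is in the lattice of the divisor `c + g`, and `0`
otherwise. The first case follows from `decomposition`, `dual_lattice` and
`GuideOctDTheta.quadratic_means`, the second one from `test_element`. File `H78RL`. -/
theorem key_identity {E B : Type*} [Field E] [NumberField E] [Field B] [NumberField B] [Algebra E B]
    [IsGalois E B] (hdeg : Module.finrank E B = 2) {τ : B ≃ₐ[E] B} (hτ : τ ≠ 1)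
    {S : Finset (HeightOneSpectrum (𝓞 E))} {SB : Finset (HeightOneSpectrum (𝓞 B))}
    {c : HeightOneSpectrum (𝓞 B) → ℤ} {n g : HeightOneSpectrum (𝓞 E) → ℤ} {u u' : E}
    (h : Lat2 τ S SB c n) (hu : Upair S n g u u') {L' : AddSubgroup B}
    (hL' : L' ≤ ker (ntd hdeg hτ) (RR (S : Set (HeightOneSpectrum (𝓞 E))))
      (RL (SB : Set (HeightOneSpectrum (𝓞 B))) c) u)
    (hfin : Finite (RL (SB : Set (HeightOneSpectrum (𝓞 B))) c ⧸
      L'.addSubgroupOf (RL (SB : Set (HeightOneSpectrum (𝓞 B))) c)))
    {ξ : B} (hξ : ∀ x ∈ L', Algebra.trace E B (x * τ ξ) ∈ RR (S : Set (HeightOneSpectrum (𝓞 E)))) :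
    mean (RL (SB : Set (HeightOneSpectrum (𝓞 B))) c) L'
        (fun x => H71D.psS S (u * Algebra.norm E x - Algebra.trace E B (x * τ ξ))) =
      if ξ ∈ RL (SB : Set (HeightOneSpectrum (𝓞 B))) (fun P => c P + g (below E P)) then
        H71D.psS S (u' * Algebra.norm E ξ) *
          mean (RL (SB : Set (HeightOneSpectrum (𝓞 B))) c) L'
            (fun x => H71D.psS S (u * Algebra.norm E x))
      else 0 :=
  h.key hu hL' hξ

/-! ## 5. The lattice of the theta kernel -/

/-- **The notation of `GuideOctDTheta`.** `SBf B S` is the finite set of the places of `B` above `S`, and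
`RB B S δ` is the lattice `RL (SBf B S) δ`. File `H78RLd`. -/
theorem notation_of_theta {E B : Type*} [Field E] [NumberField E] [Field B] [NumberField B]
    [Algebra E B] (S : Finset (HeightOneSpectrum (𝓞 E))) (δ : HeightOneSpectrum (𝓞 B) → ℤ) :
    (∀ P, P ∈ H78R.SBf B S ↔ below E P ∈ S) ∧
    H71D.RB B S δ = RL (H78R.SBf B S : Set (HeightOneSpectrum (𝓞 B))) δ :=
  ⟨fun _ => H78R.mem_SBf, H78R.RB_eq S δ⟩

/-- **The lattice of the theta kernel** satisfies the hypothesis of `key_identity`. `d : DD E B J`, `A`,
`D`, `h` are the data of `GuideOctDTheta.theta_eq`: `A`, `D` are ideals of `E` and `h` is an ideal of `B`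
of norm `A D` outside `S`. The ideal `D h̄⁻¹` with the divisor `d.dlt D h` has the norm
`D² / (A D) = D / A`. So `key_identity` becomes `GuideOctDTheta.gauss_sum_identity`; a lattice `L'` for
given `u`, `ξ` is provided by `GuideThetaFinite.exists_period`. File `H78RLd`. -/
theorem theta_data {E B J : Type*} [Field E] [NumberField E] [Field B] [NumberField B] [Algebra E B]
    [Fintype J] {d : H71D.DD E B J} {A D : H71D.FI E} {h : H71D.FI B} (hd : d.Good)
    (hunB : ∀ P ∉ aboveSet B (d.S : Set (HeightOneSpectrum (𝓞 E))), H7.Z.Unram P)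
    (hh : H71D.IsNm d.S d.tau h (H71D.cE (A * D))) :
    Lat2 d.tau d.S (H78R.SBf B d.S) (d.dlt D h) (fun w => H71D.cE D w - H71D.cE A w) :=
  H78R.lat2_of hd hunB hh

end Fermat.Agent.Guide.ThetaGauss
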