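import Fermat.Agent.H8T7

/-!
# Reader's guide: block (T) of S47, growth of the theta kernel and decay of the automorphic function

**Statement served:** S47, block (T) (and nothing else). Companion of `GuideOctT`, sections 3, 4 and 6: the
steps of the proofs of `GuideOctT.theta_growth`, `GuideOctT.decay` and `GuideOctT.constant_term_zero`.
Nothing imports this file, and it contains no new mathematics. Every cited theorem is in the proof term of
S47. Text and library files `H8T1`-`H8T7`: helper8. Prose: NOTES [400], [424].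

**The question.** The theta lift is the integral over `Γ₀(N) \ H3` of `F(w) Θ(τ, w)`. The kernel `Θ` grows
at the cusps of hyperbolic three-space `H3`, the function `F` must decrease faster. Both are measured by
one function, the *height* `ht w`: the largest `y`-coordinate in the orbit of `w` under `SL₂(ℤ[ω])`.

**The growth of the kernel (sections 1, 2).** The term of index `X` in `Θ(τ, w)` is, up to a factor of
absolute value `1`, the product of its coefficient (which is `0` or `1`) and `√v exp(-2π v Q_w(X))`, where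
`Q_w(X) = -det X + 2 (X, w)²` is positive definite. It is a sum of three squares; so for `w = (z, y)` in a
Siegel set (`|z| ≤ R`, `y ≥ y₀`) the entries of `X` are at most `C y Q_w(X)^(1/2)`, and the sum over the
lattice, which has rank four, is at most `C' y⁸`. As the sum over all `X` is invariant under
`SL₂(ℤ[ω])`, it is at most `C' ht(w)⁸` for all `w`. (The exponent `8` is not the best one; any power is
good enough.)

**The decay of `F` (sections 3, 4).** All that is known of `F` is an integral equation: the radial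
kernels act by their spherical transform at the parameter zero. This number is also the eigenvalue of the
kernel on the function `w ↦ y`, which satisfies `Δ y = -y`; so `F` is smooth and `Δ F = -F`. A bounded
function with this equation and with periods `m ℤ[ω]` in `z` has the Fourier expansion with the terms
`y K₀(c y)`, `c > 0`, and the constant term is zero, because it would be a combination of `y` and
`y log y`. So `F` is at most `C M exp(-c y)`, with constants `C`, `c` which depend only on `m` and `y₀`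
(`M` is the bound of `F`). As the translates `w ↦ F(g w)`, `g ∈ SL₂(ℤ[ω])`, have the same properties, the
estimate holds at all cusps with the same constants, hence `|F(w)| ≤ C exp(-c ht w)`.

**Notation.** Indices are triples `x = (a, β, d) ∈ ℤ × ℤ[ω] × ℤ`, for the matrix `X` with diagonal `a`, `d`
and upper right entry `β/√-3` (`Eis = ℤ[ω]`, `sq3 = √-3`); `Gam 1` is `SL₂(ℤ[ω])`; `H3.ch w w'` is the
hyperbolic cosine of the distance; `H3.nMat b` is the matrix `(1, b; 0, 1)`, `(z, y) ↦ (z + b, y)`.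
-/

set_option autoImplicit false

noncomputable section

open MeasureTheory Set
open scoped ComplexConjugate Real Matrix

namespace Fermat.Agent.Guide.ThetaGrowth

open Fermat.Agent.S47T Fermat.Agent.H47.Red

/-! ## 1. The majorant -/

/-- **The majorant** `Q_w(X) = -det X + 2 (X, w)²` for the Hermitian matrix with diagonal `a`, `d` and upper
right entry `b`, at the point `w = (z, y)`: `H8T.mf z y a d b` for real `a`, `d` and complex `b`, and
`H8T.QW x w` for an index `x` of the lattice. (`H8T1`, `H8T2`.) -/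
theorem majorant_eq (z b : ℂ) (y a d : ℝ) (x : ℤ × Eis × ℤ) (w : H3) :
    H8T.mf z y a d b = ‖b‖ ^ 2 - a * d +
      2 * ((2 * (conj b * z).re - a - d * (‖z‖ ^ 2 + y ^ 2)) / (2 * y)) ^ 2 ∧
    H8T.QW x w = H8T.mf w.z w.y x.1 x.2.2 ((x.2.1 : ℂ) / sq3) :=
  ⟨rfl, H8T.QW_eq x w⟩

/-- **The majorant is a sum of squares**, and `|det X| ≤ Q_w(X)`. (`H8T1`.) -/
theorem majorant_squares {z : ℂ} {y : ℝ} (hy : 0 < y) (a d : ℝ) (b : ℂ) :
    H8T.mf z y a d b = ‖b - d * z‖ ^ 2 +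
      (a - 2 * (conj b * z).re + d * ‖z‖ ^ 2) ^ 2 / (2 * y ^ 2) + d ^ 2 * y ^ 2 / 2 ∧
    |‖b‖ ^ 2 - a * d| ≤ H8T.mf z y a d b :=
  ⟨H8T.mf_eq hy a d b, H8T.neg_qf_le_mf hy a d b⟩

/-- **The size of the entries in a Siegel set:** `|a| + |d| + |b| ≤ C y Q_w(X)^(1/2)` for `|z| ≤ R` and
`y ≥ y₀`. Proof: the third square bounds `d`, the first then `b`, the second `a`. (`H8T1`.) -/
theorem size_of_entries {R y₀ : ℝ} (hy₀ : 0 < y₀) :
    ∃ C : ℝ, ∀ (z : ℂ) (y : ℝ), ‖z‖ ≤ R → y₀ ≤ y → ∀ (a d : ℝ) (b : ℂ),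
      |a| + |d| + ‖b‖ ≤ C * y * √(H8T.mf z y a d b) :=
  ⟨_, fun _ _ hz hy a d b => H8T.nf_le hy₀ hy hz a d b⟩

/-- **The bound of one term.** Proof: `(1 + Q)^(j+4) exp(-ε Q)` is bounded, and
`1 + (|a| + |d| + |b|)² ≤ C y² (1 + Q)` by `size_of_entries`. (`H8T1`.) -/
theorem bound_of_term {R y₀ : ℝ} (hy₀ : 0 < y₀) (j : ℕ) {ε : ℝ} (hε : 0 < ε) :
    ∃ C : ℝ, 0 < C ∧ ∀ (z : ℂ) (y : ℝ), ‖z‖ ≤ R → y₀ ≤ y → ∀ (a d : ℝ) (b : ℂ),
      (1 + H8T.mf z y a d b) ^ j * Real.exp (-(ε * H8T.mf z y a d b)) ≤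
        C * y ^ 8 * ((1 + (|a| + |d| + ‖b‖) ^ 2) ^ 4)⁻¹ :=
  ⟨_, H8T.cT_pos hy₀ j hε, fun _ _ hz hy a d b => H8T.term_le hy₀ hy hz j hε a d b⟩

/-- **The sum over the lattice** of the right hand side converges: the coordinates of `x` in `ℤ⁴` are at
most `4 (|a| + |d| + |β/√-3|)`, and `∑ 1/(1 + n²)` converges. (`H8T1`, `H8T2`.) -/
theorem lattice_sum : Summable fun x : ℤ × Eis × ℤ =>
    ((1 + (|(x.1 : ℝ)| + |(x.2.2 : ℝ)| + ‖(x.2.1 : ℂ) / sq3‖) ^ 2) ^ 4)⁻¹ :=
  H8T.isLatt_Lat.summable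

/-- **Growth in a Siegel set.** (`H8T1`, `H8T2`.) -/
theorem growth_in_siegel_set (j : ℕ) {ε : ℝ} (hε : 0 < ε) (R : ℝ) {y₀ : ℝ} (hy₀ : 0 < y₀) :
    ∃ C : ℝ, 0 < C ∧ ∀ w : H3, ‖w.z‖ ≤ R → y₀ ≤ w.y →
      Summable (fun x : ℤ × Eis × ℤ => (1 + H8T.QW x w) ^ j * Real.exp (-(ε * H8T.QW x w))) ∧
      ∑' x : ℤ × Eis × ℤ, (1 + H8T.QW x w) ^ j * Real.exp (-(ε * H8T.QW x w)) ≤ C * w.y ^ 8 :=
  H8T.maj j hε R hy₀

/-! ## 2. Invariance and heights -/

/-- **Invariance.** `g ∈ SL₂(ℤ[ω])` maps the index `x` of the matrix `X` to the index `actL _ x` of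
`g X g^*`; this does not change the majorant, if `w` is replaced by `g w`; so every sum over the whole
lattice of a function of `Q_w(X)` is an invariant function of `w`. (`H8T2`.) -/
theorem invariance {g : GL (Fin 2) ℂ} (hg : g ∈ Gam 1) (x : ℤ × Eis × ℤ) (f : ℝ → ℝ) (w : H3) :
    !![(((H8T.actL hg x).1 : ℝ) : ℂ), ((H8T.actL hg x).2.1 : ℂ) / sq3;
        conj (((H8T.actL hg x).2.1 : ℂ) / sq3), (((H8T.actL hg x).2.2 : ℝ) : ℂ)] =
      (g : Matrix (Fin 2) (Fin 2) ℂ) * !![((x.1 : ℝ) : ℂ), (x.2.1 : ℂ) / sq3;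
        conj ((x.2.1 : ℂ) / sq3), ((x.2.2 : ℝ) : ℂ)] * (g : Matrix (Fin 2) (Fin 2) ℂ)ᴴ ∧
    H8T.QW (H8T.actL hg x) (g • w) = H8T.QW x w ∧
    ∑' x : ℤ × Eis × ℤ, f (H8T.QW x (g • w)) = ∑' x : ℤ × Eis × ℤ, f (H8T.QW x w) :=
  ⟨H8T.hmatL_actL hg x, H8T.QW_actL hg x w, H8T.tsum_QW_smul hg f w⟩

/-- **The height** `ht Eis w` is the largest `y`-coordinate in the orbit of `w` under `SL₂(ℤ[ω])`. It is
attained at a point of the orbit with `|z|² ≤ 1/3` and `y ≥ 4/5`. (`H47RBase`, `H47RSiegel`.) -/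
theorem height_attained (w : H3) : (∀ g ∈ Gam 1, (g • w).y ≤ ht Eis w) ∧
    ∃ g ∈ Gam 1, (g • w).y = ht Eis w ∧ Complex.normSq (g • w).z ≤ 1 / 3 ∧ 4 / 5 ≤ (g • w).y := by
  obtain ⟨g, hg, h1, h2⟩ := eucOrder_Eis.exists_mem_S0 w
  exact ⟨fun g hg => eucOrder_Eis.le_ht (H8T.mem_SLO_iff.mpr hg) w, g, H8T.mem_SLO_iff.mp hg, h2,
    (S0_subset h1).1, (S0_subset h1).2⟩

/-- **Properties of the height:** it is positive, invariant, and between `y` and `max(y, 1/y)`.
(`H47RBase`, `H47RSiegel`.) -/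
theorem height_bounds (w : H3) : 0 < ht Eis w ∧ (∀ g ∈ Gam 1, ht Eis (g • w) = ht Eis w) ∧
    w.y ≤ ht Eis w ∧ ht Eis w ≤ max w.y (1 / w.y) :=
  ⟨eucOrder_Eis.ht_pos w, fun _ hg => ht_smul (H8T.mem_SLO_iff.mpr hg) w, eucOrder_Eis.y_le_ht w,
    eucOrder_Eis.ht_le w⟩

/-- **Exponential decay beats growth:** `ht(w)^k exp(-c ht(w))` is bounded. With
`GuideOctT.theta_growth` (the sum is at most `C ht(w)⁸`; proof: `growth_in_siegel_set` at the point of
`height_attained`, and `invariance`) this gives `product_bounded` below. (`H8T3`.) -/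
theorem height_exponential (k : ℕ) {c : ℝ} (hc : 0 < c) : ∃ C : ℝ, 0 < C ∧
    ∀ w : H3, ht Eis w ^ k * Real.exp (-(c * ht Eis w)) ≤ C :=
  H8T.ht_pow_mul_exp_le eucOrder_Eis k hc

/-! ## 3. The function `F` -/

/-- **The eigenfunction property** `H8T.Eig F`: every smooth radial kernel of compact support acts on `F`
by its spherical transform at the parameter zero (the fifth condition of `GuideOctT.ict_iff`).
(`H8T4`.) -/
theorem eig_iff (F : H3 → ℂ) : H8T.Eig F ↔ ∀ κ : ℝ → ℝ,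
    ContDiff ℝ ((⊤ : ℕ∞) : WithTop ℕ∞) κ → HasCompactSupport κ → ∀ w,
      ∫ w', (κ (H3.ch w w') : ℂ) * F w' =
        ((2 * ∫ u in Ioi (0 : ℝ), 2 * π * ∫ t in Ioi (Real.cosh u), κ t : ℝ) : ℂ) * F w :=
  Iff.rfl

/-- **The Laplace equation** `Δ F = -F` for a continuous function with the eigenfunction property
(`H74.C3.Lap` is written out in `GuideOctT.laplace_eq`). Proof: the kernels act on `F` by the same numbers
as on the function `y` (`kap0_eq_integral_height` in `GuideEigenfunctions`); so the converse theorem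
`laplace_equation_of_kernels` of that file applies, for one variable. (`H8T5`, with `H74C3a`-`H74C3c`.) -/
theorem laplace_equation {F : H3 → ℂ} (hc : Continuous F) (h : H8T.Eig F) (w : H3) :
    H74.C3.Lap F w = -F w :=
  h.lap hc w

/-- **Translates** of an eigenfunction are eigenfunctions (the measure and the distance of `H3` are
invariant); and if `F` is invariant under the principal congruence subgroup of level `N`, all translates
by elements of `SL₂(ℤ[ω])` have the periods `N ℤ[ω]` (the subgroup is normal). (`H8T4`.) -/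
theorem translates {F : H3 → ℂ} : (H8T.Eig F → ∀ g : GL (Fin 2) ℂ, H8T.Eig fun w => F (g • w)) ∧
    ∀ N : ℕ, (∀ g : GL (Fin 2) ℂ, (g : Matrix (Fin 2) (Fin 2) ℂ).det = 1 →
        (∀ i j, ∃ x ∈ Eis, (g : Matrix (Fin 2) (Fin 2) ℂ) i j =
          (1 : Matrix (Fin 2) (Fin 2) ℂ) i j + N * x) → ∀ w, F (g • w) = F w) →
      ∀ g ∈ Gam 1, ∀ (β : Eis) (w : H3), F (g • (H3.nMat (N * β) • w)) = F (g • w) :=
  ⟨fun h g => h.smul g, fun _ hinv _ hg β w =>
    H8T.periodic_smul (fun γ hγ => hinv γ hγ.1 hγ.2) hg β w⟩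

/-! ## 4. Decay -/

/-- **The uniform estimate.** For every period `m` and `y₀ > 0` there are `C`, `c > 0` such that every
continuous eigenfunction with `|F| ≤ M` and with the periods `m ℤ[ω]` is at most `C M exp(-c y)` for
`y ≥ y₀`. Proof: the Fourier expansion of `GuideEigenfunctions`. (`H8T6`, from `H22ZFEd`.) -/
theorem uniform_decay {m : ℕ} (hm : 0 < m) {y₀ : ℝ} (hy₀ : 0 < y₀) :
    ∃ C c : ℝ, 0 < C ∧ 0 < c ∧ ∀ (F : H3 → ℂ) (M : ℝ), Continuous F → H8T.Eig F →
      (∀ w, ‖F w‖ ≤ M) → (∀ (β : Eis) (w : H3), F (H3.nMat (m * β) • w) = F w) →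
      ∀ w : H3, y₀ ≤ w.y → ‖F w‖ ≤ C * M * Real.exp (-(c * w.y)) :=
  H8T.exists_decay hm hy₀

/-- **The constant term is zero:** the integral of a bounded eigenfunction over a fundamental domain of
its periods `m ℤ[ω]` (`H60T.eisB m` is the basis `m`, `m ω`; `H74.C3.pt z y` is the point `(z, y)`).
(`H8T6`, from `H22ZFEd`.) -/
theorem constant_term {F : H3 → ℂ} (hc : Continuous F) (h : H8T.Eig F) {M : ℝ}
    (hM : ∀ w, ‖F w‖ ≤ M) {m : ℕ} (hm : 0 < m)
    (hper : ∀ (β : Eis) (w : H3), F (H3.nMat (m * β) • w) = F w) {y : ℝ} (hy : 0 < y) :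
    ∫ z in ZSpan.fundamentalDomain (H60T.eisB m hm), F (H74.C3.pt z y) = 0 :=
  H8T.integral_fd_eq_zero hc h hM hm hper hy

/-- **Decay at all cusps** for functions invariant under the principal congruence subgroup `GamP m` (the
subgroup of `translates`): by `translates` and `uniform_decay`. (`H8T6`.) -/
theorem decay_at_cusps {F : H3 → ℂ} (hc : Continuous F) (h : H8T.Eig F) (hb : ∃ M, ∀ w, ‖F w‖ ≤ M)
    {m : ℕ} (hm : 0 < m) (hinv : ∀ g ∈ GamP m, ∀ w, F (g • w) = F w) {y₀ : ℝ} (hy₀ : 0 < y₀) :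
    ∃ C c : ℝ, 0 < C ∧ 0 < c ∧ ∀ g ∈ Gam 1, ∀ w : H3, y₀ ≤ w.y →
      ‖F (g • w)‖ ≤ C * Real.exp (-(c * w.y)) :=
  H8T.decay_of_GamP hc h hb hm hinv hy₀

/-- **Decay in terms of the height**, by `decay_at_cusps` at the point of `height_attained`. (`H8T3`,
`H8T6`.) -/
theorem decay_in_height {F : H3 → ℂ} (hc : Continuous F) (h : H8T.Eig F) (hb : ∃ M, ∀ w, ‖F w‖ ≤ M)
    {m : ℕ} (hm : 0 < m) (hinv : ∀ g ∈ GamP m, ∀ w, F (g • w) = F w) :
    ∃ C c : ℝ, 0 < C ∧ 0 < c ∧ ∀ w : H3, ‖F w‖ ≤ C * Real.exp (-(c * ht Eis w)) :=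
  H8T.decay_ht_of_GamP hc h hb hm hinv

/-- **Finitely many cusps.** `SL₂(ℤ[ω])` is the union of finitely many cosets of the principal congruence
subgroup `GamP N`, because two matrices which are congruent modulo `N` are in the same coset. So decay
at each cusp, with constants depending on the cusp, is uniform. (`H8T3`.) -/
theorem finitely_many_cosets (N : ℕ) (hN : 0 < N) :
    (∃ S : Finset (GL (Fin 2) ℂ), (∀ s ∈ S, s ∈ Gam 1) ∧
      ∀ g ∈ Gam 1, ∃ s ∈ S, ∃ γ ∈ GamP N, g = γ * s) ∧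
    ∀ F : H3 → ℂ, (∀ g ∈ Gam 1, ∃ C c : ℝ, 0 < c ∧ ∀ w : H3, 4 / 5 ≤ w.y →
        ‖F (g • w)‖ ≤ C * Real.exp (-(c * w.y))) →
      (∀ g ∈ GamP N, ∀ w, F (g • w) = F w) → ∃ C c : ℝ, 0 < C ∧ 0 < c ∧
        ∀ g ∈ Gam 1, ∀ w : H3, 4 / 5 ≤ w.y → ‖F (g • w)‖ ≤ C * Real.exp (-(c * w.y)) :=
  ⟨H8T.exists_finset N hN, fun _ hF hinv => H8T.Decays.unif hN hF hinv⟩

/-- **Conclusion:** `|F(w)|` times the majorant series times any power of the height is bounded; as
`Γ₀(N) \ H3` has finite volume, the theta lift and its derivatives in `τ` converge absolutely.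
(`H8T3`; used in `H81T5e`; `H23TH`, `H23TI`, `H29T7` use the bound of the series and the decay
separately.) -/
theorem product_bounded {F : H3 → ℂ} {C c : ℝ} (hc : 0 < c) (hC : 0 < C)
    (hF : ∀ w, ‖F w‖ ≤ C * Real.exp (-(c * ht Eis w))) (j k : ℕ) {ε : ℝ} (hε : 0 < ε) :
    ∃ B : ℝ, 0 < B ∧ ∀ w, ‖F w‖ * (∑' x : ℤ × Eis × ℤ, (1 + H8T.QW x w) ^ j *
      Real.exp (-(ε * H8T.QW x w))) * ht Eis w ^ k ≤ B :=
  H8T.bound_ht eucOrder_Eis hc hC hF j k hε

/-- **For the form of block (T)** (`ICT N c F`, written out in `GuideOctT.ict_iff`; invariant under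
`Γ₀(N)`, so under `GamP N`). (`H8T6`.) -/
theorem form_decays {N : ℕ} {c : Eis → ℝ} {F : H3 → ℂ} (hF : ICT N c F) :
    ∃ C c' : ℝ, 0 < C ∧ 0 < c' ∧ ∀ w : H3, ‖F w‖ ≤ C * Real.exp (-(c' * ht Eis w)) :=
  H8T.ict_decay_ht hF

end Fermat.Agent.Guide.ThetaGrowth
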