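import Fermat.Agent.H45TC

/-!
# Reader's guide: the inversion formula of the theta kernel of signature (3, 1)

Every theorem of this file is proved by citing a theorem of the library; nothing here is used by any other
file. Editor: helper45. Companion of `GuideOctT`, section 4 (block (T) of S47). Notes: [134], [396]. All
theorems are in the closure of S47.

**What is proved.** For `τ` in the upper half plane, `z ∈ ℂ`, `y > 0` and a vector `X = (a, b, d)` (`a`, `d`
real, `b` complex: a Hermitian matrix) let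

`f(τ; a, b, d) = √v e(τ (|b|² - a d)) exp(-4π v t²)`, `t = (a - 2 Re(b z̄) + d (|z|² + y²)) / (2y)`,

`v = Im τ`, `e(x) = exp(2πi x)`. This is one term of Siegel's theta function of the quadratic form
`|b|² - a d` of signature `(3, 1)`. The sum of these terms over the lattice `L = α ℤ + Λ + δ ℤ`, with two real
characteristics, is transformed by `τ ↦ -1/τ` into the sum over the dual lattice `δ⁻¹ ℤ + Λ' + α⁻¹ ℤ`, with
the factor `-i τ / (α δ vol Λ)` (`vol` for the pairing `2 Re(b k̄)`: twice the Euclidean area): this is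
`theta_inversion` of `GuideOctT` (`poissonV` of `H45TC`), not repeated here.

**Proof.** Neither a Poisson formula in four variables nor the theory of the Weil representation is used; only
Poisson summation in one variable and in two variables (a positive definite form, `GuideQuaternaryTheta`,
section 1).

(1) As a function of `a` alone, the term is a Gaussian `exp(-π v a²/y²)` times a linear exponential. Its
Fourier transform in `a` is `y g(τ; c, b, d)` with

`g(τ; c, b, d) = exp(-π y² |c + d τ|² / v) e(τ |b - d z|²) e(c (d |z|² - (b, z)))`, `(b, z) = 2 Re(b z̄)`.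

(2) In this form the inversion can be seen. The first factor depends on `|c + d τ|² / Im τ`, and
`|c - d/τ|² / Im(-1/τ) = |-d + c τ|² / Im τ`: the inversion takes `(c, d)` to `(-d, c)`. The second factor is
a Gaussian for the positive definite form `|b|²` on `ℂ`, with the shift `- d z`; the third one is a character
in `b` with the frequency `- c z`. Poisson summation over `b ∈ Λ` exchanges the two, which gives
`g(τ; -d, b', c)` with `b'` in the dual lattice `Λ'`.

(3) Now the first variable is `-d`, which runs over a translate of `δ ℤ`; the formula of (1), read backwards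
for `δ⁻¹` in place of `α`, gives the terms `f(τ; a', b', d')`, where `a'` runs over a translate of `δ⁻¹ ℤ` and
`d' = c` over a translate of `α⁻¹ ℤ`.

(4) To interchange the summations one needs the absolute convergence of all these series. The absolute value
of `f` is `√v exp(-2π v Q_w(X))`, where the *majorant* `Q_w(X) = |b|² - a d + 2 t²` is a positive definite sum
of squares; the absolute value of `g` is `exp` of minus another positive definite form. Both forms are at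
least `ε (a² + |b|² + d²)` (with `c` in place of `a` for `g`), and the Gaussian for this last form is the
product of one over `α ℤ`, one over `Λ` and one over `δ ℤ`.

The formula is used for the classes of a lattice modulo its dual lattice (`GuideThetaClasses`, `H98U2`) and
for theta functions with characteristics (`GuideThetaCongruence`, `H49T4`).

Notation. `ip b k = 2 Re(b k̄)`; `emb e x = x₀ e₀ + x₁ e₁`; `B : Bin` is a real basis `B.e` of `ℂ` together
with the dual basis `B.f` for `ip`; `B.dualB` is the same with `e` and `f` exchanged; `e1 x = exp(2πi x)`;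
`Qv a b d = |b|² - a d`; `tw z y a b d` is the number `t` above, `Qw` the majorant; `fK`, `gK` are `f`, `g`.
-/

set_option autoImplicit false

noncomputable section

namespace Fermat.Agent.Guide.ThetaInversion

open Complex Real Matrix
open Fermat.Agent.H45.TK

local notation "conj" => starRingEnd ℂ

/-! ## 1. Lattices of rank two in `ℂ` -/

/-- **The pairing** `ip b k = 2 Re(b k̄)` on `ℂ`: symmetric, additive and real linear in both arguments, and
`ip b b = 2 |b|²`. File `H45TA`. -/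
theorem pairing (a b k : ℂ) (x : ℝ) :
    ip b k = 2 * (b * conj k).re ∧ ip b k = ip k b ∧ ip (a + b) k = ip a k + ip b k ∧
      ip (a - b) k = ip a k - ip b k ∧ ip ((x : ℂ) * b) k = x * ip b k ∧
      ip b ((x : ℂ) * k) = x * ip b k ∧ ip b b = 2 * ‖b‖ ^ 2 :=
  ⟨rfl, ip_comm b k, ip_add_left a b k, ip_sub_left a b k, ip_real_mul_left x b k,
    ip_real_mul_right x b k, ip_self b⟩

/-- **Dual bases**: `ip (e_i) (f_j)` is `1` for `i = j` and `0` otherwise; so `ip` of `∑ x_i e_i` and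
`∑ y_i f_i` is `∑ x_i y_i`. File `H45TA`. -/
theorem dual_bases (B : Bin) (x y : Fin 2 → ℝ) :
    (∀ i j, ip (B.e i) (B.f j) = if i = j then 1 else 0) ∧
      emb B.e x = x 0 * B.e 0 + x 1 * B.e 1 ∧ emb B.f y = y 0 * B.f 0 + y 1 * B.f 1 ∧
      ip (emb B.e x) (emb B.f y) = x ⬝ᵥ y :=
  ⟨B.dual, rfl, rfl, B.ip_emb x y⟩

/-- **The dual lattice** has the basis `f`, and its dual basis is `e`. File `H45TA`. -/
theorem dual_of_dual (B : Bin) : B.dualB.e = B.f ∧ B.dualB.f = B.e :=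
  ⟨rfl, rfl⟩

/-- **Coordinates**: `b = ∑ ip b (f_i) e_i`, and the coordinates are unique. File `H45TA`. -/
theorem coordinates (B : Bin) :
    (∀ b : ℂ, emb B.e (fun i => ip b (B.f i)) = b) ∧ ∀ x : Fin 2 → ℝ, emb B.e x = 0 → x = 0 :=
  ⟨B.emb_co, fun _ h => B.emb_eq_zero h⟩

/-- **The Gram matrix** `G = (ip e_i e_j)` is positive definite, with `x G x = 2 |∑ x_i e_i|²`, and the Gram
matrix of the dual basis is its inverse. File `H45TA`. -/
theorem gram_matrix (B : Bin) :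
    (∀ i j, B.gr i j = ip (B.e i) (B.e j)) ∧ B.gr.PosDef ∧
      (∀ x : Fin 2 → ℝ, x ⬝ᵥ (B.gr *ᵥ x) = 2 * ‖emb B.e x‖ ^ 2) ∧
      B.gr * B.dualB.gr = 1 ∧ B.gr⁻¹ = B.dualB.gr :=
  ⟨fun _ _ => rfl, B.gr_posDef, B.qf_gr, B.gr_mul, B.gr_inv⟩

/-- **The volume** `√(det G)` of the lattice (twice the Euclidean area of a fundamental parallelogram) is
positive; the product of the volumes of a lattice and of its dual lattice is `1`. File `H45TA`. -/
theorem volume (B : Bin) : B.vol = √B.gr.det ∧ 0 < B.vol ∧ B.vol * B.dualB.vol = 1 :=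
  ⟨rfl, B.vol_pos, B.vol_mul⟩

/-- **Binary theta series**: the term with the shift `β` and the frequency `κ` is
`e(τ |λ + β|² + (κ, λ + β))`, its absolute value is `exp(-2π Im(τ) |λ + β|²)`, and the series over the lattice
converges. Files `H45TA`, `H45TC`. -/
theorem binary_series (B : Bin) {τ : ℂ} (hτ : 0 < τ.im) (β κ : ℂ) :
    (∀ x : Fin 2 → ℤ, Bin.bt B.e τ β κ x =
      cexp (2 * π * I * τ * ((‖emb B.e (fun i => x i) + β‖ ^ 2 : ℝ) : ℂ) +
        2 * π * I * ((ip κ (emb B.e (fun i => x i) + β) : ℝ) : ℂ))) ∧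
    (∀ x : Fin 2 → ℤ, ‖Bin.bt B.e τ β κ x‖ =
      Real.exp (-(2 * π * τ.im * ‖emb B.e (fun i => x i) + β‖ ^ 2))) ∧
    Summable (Bin.bt B.e τ β κ) :=
  ⟨fun _ => rfl, fun x => B.norm_bt τ β κ x, B.summable_bt hτ β κ⟩

/-- **Poisson summation over a lattice in `ℂ`**: the formula in two variables of `GuideQuaternaryTheta`
(`poisson_n_variables`), in coordinates; the exponent `1/2` of `-iτ` occurs twice, so no root remains. File
`H45TA`. -/
theorem binary_poisson (B : Bin) {τ : ℂ} (hτ : 0 < τ.im) (β κ : ℂ) :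
    ∑' x : Fin 2 → ℤ, Bin.bt B.e τ β κ x = 1 / (-I * τ) * (1 / (B.vol : ℂ)) *
      ∑' k : Fin 2 → ℤ, cexp (-(2 * π * I / τ) * ((‖emb B.f (fun i => k i) - κ‖ ^ 2 : ℝ) : ℂ) +
        2 * π * I * ((ip (emb B.f (fun i => k i)) β : ℝ) : ℂ)) :=
  B.poisson hτ β κ

/-! ## 2. The kernel and its partial Fourier transform -/

/-- **The function `e1 x = exp(2πi x)`** of a real number. File `H45TB`. -/
theorem character (x y : ℝ) :
    e1 x = cexp (2 * π * I * (x : ℂ)) ∧ e1 (x + y) = e1 x * e1 y ∧ e1 0 = 1 ∧ ‖e1 x‖ = 1 :=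
  ⟨rfl, e1_add x y, e1_zero, norm_e1 x⟩

/-- **The form and the majorant.** `Qv = |b|² - a d` is the form of signature `(3, 1)`; `tw` is the coordinate
of the vector `(a, b, d)` along the negative line which belongs to the point `(z, y)` of hyperbolic space; the
majorant is `Qw = Qv + 2 tw²`. File `H45TB`. -/
theorem form_and_majorant (z b : ℂ) (y a d : ℝ) :
    Qv a b d = ‖b‖ ^ 2 - a * d ∧
      tw z y a b d = (a - 2 * (b * conj z).re + d * (‖z‖ ^ 2 + y ^ 2)) / (2 * y) ∧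
      Qw z y a b d = Qv a b d + 2 * tw z y a b d ^ 2 :=
  ⟨rfl, rfl, rfl⟩

/-- **The majorant is a sum of squares.** File `H45TB`. -/
theorem majorant_eq {z : ℂ} {y : ℝ} (hy : 0 < y) (a : ℝ) (b : ℂ) (d : ℝ) :
    Qw z y a b d = ‖b - d * z‖ ^ 2 + (a - ip b z + d * ‖z‖ ^ 2) ^ 2 / (2 * y ^ 2) +
      d ^ 2 * y ^ 2 / 2 :=
  Qw_eq hy a b d

/-- **Absolute value of a term** `f(τ; a, b, d)` of the kernel: `√v exp(-2π v Q_w)`, `v = Im τ`. Files
`H45TB`, `H45TC`. -/
theorem kernel_norm (τ z : ℂ) (y : ℝ) (a : ℝ) (b : ℂ) (d : ℝ) :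
    fK τ z y a b d = ((√τ.im : ℝ) : ℂ) * cexp (2 * π * I * τ * (Qv a b d : ℂ)) *
        cexp (-(4 * π * τ.im * tw z y a b d ^ 2 : ℝ)) ∧
      ‖fK τ z y a b d‖ = √τ.im * Real.exp (-(2 * π * τ.im * Qw z y a b d)) :=
  ⟨rfl, norm_fK τ z y a b d⟩

/-- **The partial Fourier transform** `g(τ; c, b, d)` and its absolute value. Files `H45TB`, `H45TC`. -/
theorem transform_norm (τ z : ℂ) (y : ℝ) (c : ℝ) (b : ℂ) (d : ℝ) :
    gK τ z y c b d = cexp (-(π * y ^ 2 * ‖(c : ℂ) + d * τ‖ ^ 2 / τ.im : ℝ)) *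
        cexp (2 * π * I * τ * ((‖b - d * z‖ ^ 2 : ℝ) : ℂ)) * e1 (c * (d * ‖z‖ ^ 2 - ip b z)) ∧
      ‖gK τ z y c b d‖ = Real.exp (-(π * y ^ 2 * ‖(c : ℂ) + d * τ‖ ^ 2 / τ.im +
        2 * π * τ.im * ‖b - d * z‖ ^ 2)) :=
  ⟨rfl, norm_gK τ z y c b d⟩

/-- **Two identities** for the exponents: `|b - d z|²` and `|c + d τ|²` written out. File `H45TB`. -/
theorem exponents (b z τ : ℂ) (c d : ℝ) :
    ‖b - d * z‖ ^ 2 = ‖b‖ ^ 2 - d * ip b z + d ^ 2 * ‖z‖ ^ 2 ∧
      ‖(c : ℂ) + d * τ‖ ^ 2 = (c + d * τ.re) ^ 2 + (d * τ.im) ^ 2 :=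
  ⟨norm_b_sub b z d, norm_c_add c d τ⟩

/-- **Poisson summation in the first variable** (steps (1) and (3) of the header): the sum of
`f(τ; a, b, d) e(-a c₀)` over `a ∈ a₀ + α ℤ` is `y/α` times the sum of `g(τ; c, b, d) e(a₀ (c - c₀))` over
`c ∈ c₀ + α⁻¹ ℤ`. By `poisson_one_variable` of `GuideQuaternaryTheta`, after completing the square in `a`.
File `H45TB`. -/
theorem poisson_in_a {α : ℝ} (hα : 0 < α) {τ : ℂ} (hτ : 0 < τ.im) (z : ℂ) {y : ℝ} (hy : 0 < y)
    (a0 c0 : ℝ) (b : ℂ) (d : ℝ) :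
    ∑' m : ℤ, fK τ z y (a0 + α * m) b d * e1 (-(a0 + α * m) * c0) =
      ((y / α : ℝ) : ℂ) * ∑' m : ℤ, gK τ z y (c0 + m / α) b d * e1 (a0 * (m / α)) :=
  step1 hα hτ z hy a0 c0 b d

/-- **Poisson summation in the second variable and inversion** (step (2) of the header): the sum of
`g(-1/τ; c, b, d) e((b, b₁))` over `b ∈ b₀ + Λ` is `-iτ / vol Λ` times the sum of
`g(τ; -d, b', c) e(-(b₀, b' - b₁))` over `b' ∈ b₁ + Λ'`. File `H45TB`. -/
theorem poisson_in_b (B : Bin) {τ : ℂ} (hτ : 0 < τ.im) (z : ℂ) (y : ℝ) (c d : ℝ) (b0 b1 : ℂ) :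
    ∑' x : Fin 2 → ℤ, gK (-1 / τ) z y c (b0 + emb B.e fun i => x i) d *
        e1 (ip (b0 + emb B.e fun i => x i) b1) =
      (-I * τ / B.vol) * ∑' k : Fin 2 → ℤ, gK τ z y (-d) (b1 + emb B.f fun i => k i) c *
        e1 (-ip b0 (emb B.f fun i => k i)) :=
  step2 B hτ z y c d b0 b1

/-! ## 3. Absolute convergence -/

/-- **Three inequalities** used for the lower bounds. File `H45TC`. -/
theorem inequalities (x z b : ℂ) (d : ℝ) :
    ‖x + z‖ ^ 2 ≤ 2 * ‖x‖ ^ 2 + 2 * ‖z‖ ^ 2 ∧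
      ‖b‖ ^ 2 ≤ 2 * ‖b - d * z‖ ^ 2 + 2 * (d ^ 2 * ‖z‖ ^ 2) ∧
      ip b z ^ 2 ≤ 4 * (‖b‖ ^ 2 * ‖z‖ ^ 2) :=
  ⟨norm_sq_add_le x z, norm_b_le b z d, ip_sq_le b z⟩

/-- **The majorant is positive definite**, at a fixed point `(z, y)`: `Q_w(a, b, d) ≥ ε (a² + |b|² + d²)`.
From `majorant_eq`. File `H45TC`. -/
theorem majorant_lower {z : ℂ} {y : ℝ} (hy : 0 < y) : ∃ ε : ℝ, 0 < ε ∧ ∀ (a : ℝ) (b : ℂ) (d : ℝ),
    ε * (a ^ 2 + (‖b‖ ^ 2 + d ^ 2)) ≤ Qw z y a b d :=
  Qw_lower hy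

/-- **The exponent of the transform** is positive definite too. File `H45TC`. -/
theorem transform_lower {τ z : ℂ} (hτ : 0 < τ.im) {y : ℝ} (hy : 0 < y) :
    ∃ ε : ℝ, 0 < ε ∧ ∀ (c : ℝ) (b : ℂ) (d : ℝ), ε * (c ^ 2 + (‖b‖ ^ 2 + d ^ 2)) ≤
      π * y ^ 2 * ‖(c : ℂ) + d * τ‖ ^ 2 / τ.im + 2 * π * τ.im * ‖b - d * z‖ ^ 2 :=
  gK_lower hτ hy

/-- **A Gaussian over a translate of `α ℤ + Λ + δ ℤ`** has a finite sum, as a product of three sums. File
`H45TC`. -/
theorem gaussian_summable (B : Bin) {α δ ε : ℝ} (hα : 0 < α) (hδ : 0 < δ) (hε : 0 < ε)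
    (a0 d0 : ℝ) (b0 : ℂ) :
    Summable fun p : ℤ × (Fin 2 → ℤ) × ℤ => Real.exp (-(ε * ((a0 + α * p.1) ^ 2 +
      (‖b0 + emb B.e fun i => p.2.1 i‖ ^ 2 + (d0 + δ * p.2.2) ^ 2)))) :=
  summable_gauss3 B hα hδ hε a0 d0 b0

/-- **Comparison**: a function on the lattice which is bounded by a constant times the Gaussian has an
absolutely convergent sum. File `H45TC`. -/
theorem comparison (B : Bin) {α δ ε C : ℝ} (hα : 0 < α) (hδ : 0 < δ) (hε : 0 < ε)
    (a0 d0 : ℝ) (b0 : ℂ) {F : ℤ × (Fin 2 → ℤ) × ℤ → ℂ}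
    (h : ∀ p, ‖F p‖ ≤ C * Real.exp (-(ε * ((a0 + α * p.1) ^ 2 +
      (‖b0 + emb B.e fun i => p.2.1 i‖ ^ 2 + (d0 + δ * p.2.2) ^ 2))))) : Summable F :=
  summable_of_gauss3 B hα hδ hε a0 d0 b0 h

/-- **The theta kernel converges absolutely**, also with a bounded function `ψ` as coefficients (a character,
or the characteristic function of a class). File `H45TC`. -/
theorem kernel_summable (B : Bin) {α δ : ℝ} (hα : 0 < α) (hδ : 0 < δ) (a0 d0 : ℝ) (b0 : ℂ)
    {τ : ℂ} (hτ : 0 < τ.im) (z : ℂ) {y : ℝ} (hy : 0 < y) {ψ : ℤ × (Fin 2 → ℤ) × ℤ → ℂ} {M : ℝ}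
    (hψ : ∀ p, ‖ψ p‖ ≤ M) :
    Summable fun p : ℤ × (Fin 2 → ℤ) × ℤ =>
      fK τ z y (a0 + α * p.1) (b0 + emb B.e fun i => p.2.1 i) (d0 + δ * p.2.2) * ψ p :=
  summable_fK B hα hδ a0 d0 b0 hτ z hy hψ

/-- **The same for the partial Fourier transform.** File `H45TC`. -/
theorem transform_summable (B : Bin) {α δ : ℝ} (hα : 0 < α) (hδ : 0 < δ) (a0 d0 : ℝ) (b0 : ℂ)
    {τ : ℂ} (hτ : 0 < τ.im) (z : ℂ) {y : ℝ} (hy : 0 < y) {ψ : ℤ × (Fin 2 → ℤ) × ℤ → ℂ} {M : ℝ}
    (hψ : ∀ p, ‖ψ p‖ ≤ M) :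
    Summable fun p : ℤ × (Fin 2 → ℤ) × ℤ =>
      gK τ z y (a0 + α * p.1) (b0 + emb B.e fun i => p.2.1 i) (d0 + δ * p.2.2) * ψ p :=
  summable_gK B hα hδ a0 d0 b0 hτ z hy hψ

/-- **Orders of summation**: an absolutely convergent sum over triples `(m, x, n)` is an iterated sum in each
of the three orders which occur in the proof. File `H45TC`. -/
theorem orders_of_summation {ι : Type*} {F : ℤ × ι × ℤ → ℂ} (h : Summable F) :
    ∑' p, F p = ∑' m, ∑' x, ∑' n, F (m, x, n) ∧ ∑' p, F p = ∑' m, ∑' n, ∑' x, F (m, x, n) ∧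
      ∑' p, F p = ∑' n, ∑' x, ∑' m, F (m, x, n) :=
  ⟨tsum_mxn h, tsum_mnx h, tsum_nxm h⟩

end Fermat.Agent.Guide.ThetaInversion
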