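import Fermat.Agent.H15S47T3

/-!
# Reader's guide: block (T) of S47, companion: unfolding, isotropic vectors, decay of the lift

**Statement served:** S47, block (T). This file contains the steps behind the decay in
`lift_laplace` of `GuideOctT` and behind `isotropic_vector`, `mean_value_zero` there. Every theorem
is proved by citing the library; every library theorem cited below is used in the proof of S47.
Files: `H60TUnf`, `H60TB`, `H60TIso`, `H60THdec` (helper60), `H34T1`-`H34T4` (helper34). NOTES: [484]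
(sections 1-3, 5), [394] (section 4).

**What this is about.** The theta lift is the sum over the Hermitian matrices `X` of a lattice of
`√v φ(X) e(τ q(X)) ∫ χ(w) F(w) exp(-4π v (X, w)²) dw`, `q = -det`, `v = im τ`, `χ` a cut-off function
of `Γ` (see below). The absolute value of `e(τ q(X)) exp(-4π v (X, w)²)` is `exp(-2π v m)` with
`m = q(X) + 2 (X, w)² ≥ |q(X)|`, and the values of `q` are multiples of `1/(3 n²)` (the lattice is
`Lat` divided by the level `n` of `φ`), so all terms with `q(X) ≠ 0` decrease exponentially for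
`v → ∞`. What has to be shown is that the others contribute *zero* altogether:

* an isotropic vector `X ≠ 0`, `q(X) = 0`, corresponds to a cusp: `X = g diag(t, 0) g^*`,
  `g ∈ SL₂(ℤ[ω])`. The function `w ↦ (X, w)` is constant on the horospheres at this cusp, and the sum
  over the orbit of `X` under `Γ` of the integrals over `Γ \ H3` is an integral over `Γ_X \ H3`,
  `Γ_X` the group of the translations of `Γ` at the cusp; integrating first over a horosphere one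
  meets the constant term of `F` at the cusp, which is zero (`constant_term_zero` in `GuideOctT`);
* the vector `X = 0` contributes a multiple of `∫_{Γ \ H3} F`, which is zero, because `F` and the
  constant function have different eigenvalues for a radial kernel.

There are no quotients: integrals over `Γ \ H3` are integrals over `H3` against cut-off functions
`χ ≥ 0` with `∑_{γ ∈ Γ} χ(γ w) = 1`, and `Γ = Γ(m)` (`GamP m`) is the principal congruence subgroup of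
level `m ≥ 3`: there the stabiliser of an isotropic vector consists of translations, while in
`SL₂(ℤ[ω])` it contains units. Absolute convergence comes from the growth of the theta kernel
(`theta_growth` in `GuideOctT`, steps in `GuideThetaGrowth`) and the decay of `F`; differentiation
under the integral sign and the kernels `Φ` of section 5: `GuideThetaClasses`, `GuideThetaLaplace`.

Sections: 1 unfolding over one orbit; 2 the lattice `m ℤ[ω]`; 3 isotropic vectors; 4 the vector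
zero; 5 splitting of the sum, decay.
-/

set_option autoImplicit false

noncomputable section

open MeasureTheory Set Matrix
open scoped ComplexConjugate Real ENNReal

namespace Fermat.Agent.Guide.ThetaIsotropic

open Fermat.Agent.S47T Fermat.Agent.H47.Red

/-! ## 1. Unfolding over one orbit -/

/-- **Unfolding, nonnegative functions** (`H60TUnf`). A countable group `G` acts on a set `S` and, by
measure preserving maps, on `X`. Let `χ` be a cut-off function of `G`, `χ₀` one of the stabiliser of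
`s₀ ∈ S`, and `f(s, x)` invariant under the simultaneous action. Then the sum over the orbit of `s₀`
of the integrals of `χ f(s, ·)` is the integral of `χ₀ f(s₀, ·)`. Proof: insert
`1 = ∑_{δ ∈ G_{s₀}} χ₀(δ γ x)`, `s = γ⁻¹ s₀`; the sum over `s` and `δ` is a sum over `G`, and after
`x ↦ γ⁻¹ x` the sum of the `χ(γ⁻¹ x)` is `1`. -/
theorem unfolding_nonneg {G S X : Type*} [Group G] [MulAction G S] [MulAction G X]
    [MeasurableSpace X] {μ : Measure X} [Countable G]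
    (hG : ∀ g : G, MeasurePreserving (fun x : X => g • x) μ μ) {χ χ₀ : X → ℝ≥0∞}
    (hχm : Measurable χ) (hχ₀m : Measurable χ₀) (hχ : ∀ x, ∑' g : G, χ (g • x) = 1) (s₀ : S)
    (hχ₀ : ∀ x, ∑' g : MulAction.stabilizer G s₀, χ₀ ((g : G) • x) = 1) {f : S → X → ℝ≥0∞}
    (hfm : ∀ s, Measurable (f s)) (hf : ∀ (g : G) s x, f (g • s) (g • x) = f s x) :
    ∑' s : MulAction.orbit G s₀, ∫⁻ x, χ x * f s x ∂μ = ∫⁻ x, χ₀ x * f s₀ x ∂μ :=
  (H60T.lintegral_unfold hG hχm hχ₀m hχ s₀ hχ₀ hfm hf).2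

/-- **Unfolding, complex functions** (`H60TUnf`). The same for complex functions, provided that
`χ₀ f(s₀, ·)` is integrable; the sum over the orbit converges absolutely. -/
theorem unfolding {G S X : Type*} [Group G] [MulAction G S] [MulAction G X]
    [MeasurableSpace X] {μ : Measure X} [Countable G]
    (hG : ∀ g : G, MeasurePreserving (fun x : X => g • x) μ μ) {χ χ₀ : X → ℝ}
    (hχm : Measurable χ) (hχ₀m : Measurable χ₀) (hχn : ∀ x, 0 ≤ χ x) (hχ₀n : ∀ x, 0 ≤ χ₀ x)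
    (hχ : ∀ x, HasSum (fun g : G => χ (g • x)) 1) (s₀ : S)
    (hχ₀ : ∀ x, HasSum (fun g : MulAction.stabilizer G s₀ => χ₀ ((g : G) • x)) 1)
    {f : S → X → ℂ} (hfm : ∀ s, Measurable (f s))
    (hf : ∀ (g : G) s x, f (g • s) (g • x) = f s x)
    (hfin : Integrable (fun x => (χ₀ x : ℂ) * f s₀ x) μ) :
    HasSum (fun s : MulAction.orbit G s₀ => ∫ x, (χ x : ℂ) * f s x ∂μ)
      (∫ x, (χ₀ x : ℂ) * f s₀ x ∂μ) :=
  H60T.hasSum_unfold hG hχm hχ₀m hχn hχ₀n hχ s₀ hχ₀ hfm hf hfin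

/-! ## 2. The lattice `m ℤ[ω]` -/

/-- The real basis `m`, `m ω` of `ℂ` (`H60T.eisB m`) spans the lattice `m ℤ[ω]`. (`H60TB`.) -/
theorem lattice_basis (m : ℕ) (hm : 0 < m) :
    H60T.eisB m hm 0 = m ∧
      H60T.eisB m hm 1 = m * ((-1 + Complex.I * (Real.sqrt 3 : ℝ)) / 2) ∧
      ∀ z : ℂ, z ∈ Submodule.span ℤ (Set.range (H60T.eisB m hm)) ↔ ∃ x ∈ Eis, z = m * x :=
  ⟨H60T.eisB_zero m hm, H60T.eisB_one m hm, fun _ => H60T.mem_span_eisB hm⟩

/-- For every `z ∈ ℂ` there is exactly one `x ∈ ℤ[ω]` such that `z + m x` is in the half-open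
fundamental parallelogram of `m ℤ[ω]`. (`H60TB`.) -/
theorem existsUnique_translation {m : ℕ} (hm : 0 < m) (z : ℂ) :
    ∃! x : Eis, z + m * (x : ℂ) ∈ ZSpan.fundamentalDomain (H60T.eisB m hm) :=
  H60T.existsUnique_eisB hm z

/-! ## 3. Isotropic vectors

The index set `Lat = ℤ × ℤ[ω] × ℤ` of the theta kernel: `x = (a, β, d)` stands for the Hermitian matrix
`hm x = (a, b; b̄, d)`, `b = β/√-3`; `qL x = |b|² - a d = -det (hm x)`, and
`pL x w = (a - 2 Re(b z̄) + d (|z|² + y²)) / (2 y)` is the pairing with the point `w = (z, y)`. -/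

/-- **The notions.** (`H96TDef`, `H96TC`.) -/
theorem notions (a d : ℤ) (β : Eis) (w : H3) :
    hm (a, β, d) = !![((a : ℝ) : ℂ), (β : ℂ) / sq3; conj ((β : ℂ) / sq3), ((d : ℝ) : ℂ)] ∧
    qL (a, β, d) = Complex.normSq ((β : ℂ) / sq3) - a * d ∧
    pL (a, β, d) w = (a - 2 * (((β : ℂ) / sq3) * conj w.z).re +
      d * (Complex.normSq w.z + w.y ^ 2)) / (2 * w.y) :=
  ⟨rfl, rfl, rfl⟩

/-- **The action of `Γ(m)` on the lattice**: `X ↦ g X g^*`; it preserves `q`, and the pairing is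
invariant. (`H60TIso`, `H60THdec`.) -/
theorem action {m : ℕ} (g : GamP m) (x : S47T.Lat) (w : H3) :
    hm (g • x) = ((g : GL (Fin 2) ℂ) : Matrix (Fin 2) (Fin 2) ℂ) * hm x *
      (((g : GL (Fin 2) ℂ) : Matrix (Fin 2) (Fin 2) ℂ))ᴴ ∧
    qL (g • x) = qL x ∧ pL (g • x) (g • w) = pL x w ∧ (g • x = 0 ↔ x = 0) :=
  ⟨H60T.hm_smul g x, H60T.qL_smul g x, H60T.pL_smul' g x w, H60T.smul_eq_zero_iff_lat g x⟩

/-- **Normal form of isotropic vectors**: `X = g diag(t, 0) g^*` with `g ∈ SL₂(ℤ[ω])`, `t ≠ 0` real.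
`X` has rank one; `ℤ[ω]` is euclidean, so the image of `X` is spanned by a primitive vector, and this
is the first column of some `g`. The pairing of `X` with `g w` is `t / (2 y)`, `y` the height of `w`.
(`H60TIso`.) -/
theorem normal_form {x : S47T.Lat} (hx : x ≠ 0) (hq : qL x = 0) :
    ∃ g ∈ Gam 1, ∃ t : ℝ, t ≠ 0 ∧ hm x = (g : Matrix (Fin 2) (Fin 2) ℂ) * !![(t : ℂ), 0; 0, 0] *
      (g : Matrix (Fin 2) (Fin 2) ℂ)ᴴ ∧ ∀ w : H3, pL x (g • w) = t / (2 * w.y) := by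
  obtain ⟨g, hg, t, ht, h⟩ := H60T.exists_iso hx hq
  exact ⟨g, H8T.mem_SLO_iff.mp hg, t, ht, h, H60T.pL_iso hg h⟩

/-- **`Γ(m)` is normal in `SL₂(ℤ[ω])`**, and contains the translations by `m ℤ[ω]`. (`H60TIso`.) -/
theorem normal_and_translations {m : ℕ} :
    (∀ g ∈ Gam 1, ∀ γ ∈ GamP m, g⁻¹ * γ * g ∈ GamP m ∧ g * γ * g⁻¹ ∈ GamP m) ∧
    ∀ b : Eis, H3.nMat (m * (b : ℂ)) ∈ GamP m :=
  ⟨fun _ hg _ hγ => ⟨H60T.inv_mul_mul_mem (H8T.mem_SLO_iff.mpr hg) hγ,
    H60T.mul_mul_inv_mem (H8T.mem_SLO_iff.mpr hg) hγ⟩, H60T.nMat_mem m⟩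

/-- **The stabiliser of an isotropic vector** in `Γ(m)`, `3 ≤ m`, consists of the elements
`g n(m b) g⁻¹`, `b ∈ ℤ[ω]`, where `n(z)` is the translation `(1, z; 0, 1)`. (An element of `Γ(m)`
which fixes `diag(t, 0)` is upper triangular with diagonal entries `u`, `u⁻¹`, `|u| = 1`, and
`|u - 1| ≤ 2 < m`, `u ≡ 1` modulo `m`, so `u = 1`.) (`H60TIso`.) -/
theorem stabiliser {m : ℕ} (hm3 : 3 ≤ m) {x : S47T.Lat} {g : GL (Fin 2) ℂ} (hg : g ∈ Gam 1)
    {t : ℝ} (ht : t ≠ 0)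
    (hx : hm x = (g : Matrix (Fin 2) (Fin 2) ℂ) * !![(t : ℂ), 0; 0, 0] *
      (g : Matrix (Fin 2) (Fin 2) ℂ)ᴴ) :
    ∃ e : Eis ≃ MulAction.stabilizer (GamP m) x,
      ∀ b : Eis, ((e b : GamP m) : GL (Fin 2) ℂ) = g * H3.nMat (m * (b : ℂ)) * g⁻¹ :=
  ⟨H60T.stabEquiv hm3 (H8T.mem_SLO_iff.mpr hg) ht hx, fun _ => rfl⟩

/-- **The cut-off function of the stabiliser**: the characteristic function of the set of the `w` such
that the `z`-coordinate of `g⁻¹ w` is in the fundamental parallelogram of `m ℤ[ω]` (a cylinder over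
the cusp). (`H60TIso`.) -/
theorem cut_off_of_stabiliser {m : ℕ} (hm3 : 3 ≤ m) {x : S47T.Lat} {g : GL (Fin 2) ℂ}
    (hg : g ∈ Gam 1) {t : ℝ} (ht : t ≠ 0)
    (hx : hm x = (g : Matrix (Fin 2) (Fin 2) ℂ) * !![(t : ℂ), 0; 0, 0] *
      (g : Matrix (Fin 2) (Fin 2) ℂ)ᴴ) (hm0 : 0 < m) (w : H3) :
    HasSum (fun δ : MulAction.stabilizer (GamP m) x =>
      (ZSpan.fundamentalDomain (H60T.eisB m hm0)).indicator (fun _ => (1 : ℝ))
        ((g⁻¹ • ((δ : GamP m) • w)).z)) 1 :=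
  H60T.hasSum_chi0 hm3 (H8T.mem_SLO_iff.mpr hg) ht hx w

/-- **The integral over the cylinder** is an integral of constant terms of `F` at the cusp `g ∞`,
weighted by a function of the height; so it is zero if the constant terms are. (Fubini; `h` is any
function, in the application `exp(-4π v p²)` up to polynomial factors.) (`H60TIso`.) -/
theorem cylinder_integral_zero {m : ℕ} (hm0 : 0 < m) {x : S47T.Lat} {g : GL (Fin 2) ℂ}
    (hg : g ∈ Gam 1) {t : ℝ}
    (hx : hm x = (g : Matrix (Fin 2) (Fin 2) ℂ) * !![(t : ℂ), 0; 0, 0] *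
      (g : Matrix (Fin 2) (Fin 2) ℂ)ᴴ) {F : H3 → ℂ} {c : ℂ} {h : ℝ → ℂ}
    (hct : ∀ (y : ℝ) (hy : 0 < y),
      ∫ z in ZSpan.fundamentalDomain (H60T.eisB m hm0), F (g • (⟨z, y, hy⟩ : H3)) = 0) :
    ∫ w : H3, (((ZSpan.fundamentalDomain (H60T.eisB m hm0)).indicator (fun _ => (1 : ℝ))
      ((g⁻¹ • w).z) : ℝ) : ℂ) * (c * F w * h (pL x w)) = 0 :=
  H60T.integral_chi0_eq_zero hm0 (H8T.mem_SLO_iff.mpr hg) hx hct

/-- **One orbit of isotropic vectors contributes zero.** `F` is invariant under `Γ(m)` and its constant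
terms at all cusps are zero; `φ` is an invariant function on the lattice, `h` a measurable
function of the pairing, `X₀ ≠ 0` isotropic. If everything converges absolutely, the sum over the
orbit of `X₀` of `∫ χ φ(X) F h((X, ·))` is zero. From `unfolding` and the two previous theorems.
(`H60TIso`.) -/
theorem orbit_zero {m : ℕ} (hm3 : 3 ≤ m) (hm0 : 0 < m) {χ : H3 → ℝ} (hχ : IsCut (GamP m) χ)
    {F : H3 → ℂ} (hFm : Measurable F) (hF : ∀ g ∈ GamP m, ∀ w, F (g • w) = F w)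
    (hct : ∀ g ∈ Gam 1, ∀ (y : ℝ) (hy : 0 < y),
      ∫ z in ZSpan.fundamentalDomain (H60T.eisB m hm0), F (g • (⟨z, y, hy⟩ : H3)) = 0)
    {φ : S47T.Lat → ℂ} (hφ : ∀ (g : GamP m) (x : S47T.Lat), φ (g • x) = φ x) {h : ℝ → ℂ}
    (hh : Measurable h)
    (hM : ∑' x : S47T.Lat, ∫⁻ w, ‖(χ w : ℂ) * (φ x * F w * h (pL x w))‖ₑ < ∞)
    {x₀ : S47T.Lat} (hx₀ : x₀ ≠ 0) (hq : qL x₀ = 0) :
    HasSum (fun s : MulAction.orbit (GamP m) x₀ =>
      ∫ w, (χ w : ℂ) * (φ s * F w * h (pL s w))) 0 :=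
  H60T.hasSum_orbit hm3 hχ hFm hF (fun g hg => hct g (H8T.mem_SLO_iff.mp hg)) hφ hh hM hx₀ hq

/-- **All isotropic vectors together contribute zero** (sum over the orbits). (`H60TIso`.) -/
theorem isotropic_zero {m : ℕ} (hm3 : 3 ≤ m) (hm0 : 0 < m) {χ : H3 → ℝ}
    (hχ : IsCut (GamP m) χ) {F : H3 → ℂ} (hFm : Measurable F)
    (hF : ∀ g ∈ GamP m, ∀ w, F (g • w) = F w)
    (hct : ∀ g ∈ Gam 1, ∀ (y : ℝ) (hy : 0 < y),
      ∫ z in ZSpan.fundamentalDomain (H60T.eisB m hm0), F (g • (⟨z, y, hy⟩ : H3)) = 0)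
    {φ : S47T.Lat → ℂ} (hφ : ∀ (g : GamP m) (x : S47T.Lat), φ (g • x) = φ x) {h : ℝ → ℂ}
    (hh : Measurable h)
    (hM : ∑' x : S47T.Lat, ∫⁻ w, ‖(χ w : ℂ) * (φ x * F w * h (pL x w))‖ₑ < ∞) :
    HasSum (fun x : {x : S47T.Lat // x ≠ 0 ∧ qL x = 0} =>
      ∫ w, (χ w : ℂ) * (φ x * F w * h (pL x w))) 0 :=
  H60T.hasSum_iso hm3 hχ hFm hF (fun g hg => hct g (H8T.mem_SLO_iff.mp hg)) hφ hh hM

/-! ## 4. The vector zero

General facts on integrals against cut-off functions (`X` any measure space with a measure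
preserving action of a countable group `G`), and radial kernels on `H3`; `H3.ch w w'` is `cosh` of
the distance. -/

/-- **Symmetry.** For an invariant function `Φ(x, y)` the cut-off may be moved from one variable to the
other: this replaces the self-adjointness of invariant integral operators on the quotient.
(`H34T2`, from the independence of the cut-off function, `H34T1`, on `X × X`.) -/
theorem cut_symmetry {G X : Type*} [Group G] [Countable G] [MeasurableSpace X] [MulAction G X]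
    [MeasurableConstSMul G X] {μ : Measure X} [SFinite μ] [SMulInvariantMeasure G X μ]
    {χ : X → ℝ} (hχ : Measurable χ) (hχ0 : ∀ x, 0 ≤ χ x)
    (hχ1 : ∀ x, HasSum (fun g : G => χ (g • x)) 1) {Φ : X × X → ℂ}
    (hm : AEStronglyMeasurable Φ (μ.prod μ)) (hinv : ∀ (g : G) x y, Φ (g • x, g • y) = Φ (x, y))
    (hi : Integrable (fun p => χ p.1 • Φ p) (μ.prod μ)) :
    ∫ x, χ x • ∫ y, Φ (x, y) ∂μ ∂μ = ∫ y, χ y • ∫ x, Φ (x, y) ∂μ ∂μ :=
  H34T.integral_swap (G := G) ⟨hχ, hχ0, hχ1⟩ hm (fun g p => hinv g p.1 p.2) hi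

/-- **Different eigenvalues.** `k ≥ 0` is an invariant kernel of total mass `c₁` in the first
variable, and `F` an invariant function with `∫ k(x, y) F(y) dy = c₀ F(x)`, `c₀ ≠ c₁`. Then the
integral of `F` over the quotient is zero: by symmetry it is multiplied by `c₀` and by `c₁`.
(If `χ F` is not integrable, its integral is zero by convention.) (`H34T4`.) -/
theorem integral_zero_of_eigenvalue {G X : Type*} [Group G] [Countable G] [MeasurableSpace X]
    [MulAction G X] [MeasurableConstSMul G X] {μ : Measure X} [SFinite μ]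
    [SMulInvariantMeasure G X μ] {χ : X → ℝ} (hχ : Measurable χ) (hχ0 : ∀ x, 0 ≤ χ x)
    (hχ1 : ∀ x, HasSum (fun g : G => χ (g • x)) 1) {k : X × X → ℝ}
    (hk : AEStronglyMeasurable k (μ.prod μ)) (hk0 : ∀ p, 0 ≤ k p)
    (hkinv : ∀ (g : G) x y, k (g • x, g • y) = k (x, y)) {c₀ c₁ : ℝ} (hc : c₀ ≠ c₁)
    (hki : ∀ y, Integrable (fun x => k (x, y)) μ) (h1 : ∀ y, ∫ x, k (x, y) ∂μ = c₁) {F : X → ℂ}
    (hF : AEStronglyMeasurable F μ) (hFinv : ∀ (g : G) x, F (g • x) = F x)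
    (h0 : ∀ x, ∫ y, (k (x, y) : ℂ) * F y ∂μ = c₀ * F x) : ∫ x, χ x • F x ∂μ = 0 :=
  H34T.integral_eq_zero' (G := G) ⟨hχ, hχ0, hχ1⟩ hk hk0 (fun g p => hkinv g p.1 p.2) hc hki h1 hF
    hFinv h0

/-- **Integration of radial functions**: `∫_{H3} κ(ch(w, w')) dw' = ∫_1^∞ 4π √(t² - 1) κ(t) dt`.
(`H34T3`.) -/
theorem radial_integral (w : H3) {κ : ℝ → ℂ} (hκ : StronglyMeasurable κ) :
    ∫ w' : H3, κ (H3.ch w w') = ∫ t in Ioi (1 : ℝ), (4 * π * √(t ^ 2 - 1)) • κ t :=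
  H34T.integral_ch_sqrt w hκ

/-- **The eigenvalue at the spectral parameter zero** of the kernel `κ(ch(w, w'))` is
`∫_1^∞ 4π arcosh(t) κ(t) dt` (exchange of the integrations). (`H34T4`.) -/
theorem eigenvalue_eq {κ : ℝ → ℝ} (hκ : StronglyMeasurable κ)
    (hi : IntegrableOn (fun t => Real.arcosh t * κ t) (Ioi 1)) :
    2 * ∫ u in Ioi (0 : ℝ), 2 * π * ∫ t in Ioi (Real.cosh u), κ t =
      ∫ t in Ioi (1 : ℝ), (4 * π * Real.arcosh t) * κ t :=
  H34T.kap0_eq hκ hi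

/-- **The two eigenvalues are different.** Since `arcosh t < √(t² - 1)` for `t > 1`, the eigenvalue at
the spectral parameter zero of a nonnegative kernel is smaller than its mass, the eigenvalue of
the constant function, unless `κ = 0` on `(1, ∞)`. With `integral_zero_of_eigenvalue` this gives
`mean_value_zero` of `GuideOctT`. (`H34T4`.) -/
theorem eigenvalue_lt_mass {κ : ℝ → ℝ} (hκ : Continuous κ) (hs : HasCompactSupport κ)
    (h0 : ∀ t, 0 ≤ κ t) {t₀ : ℝ} (ht₀ : 1 < t₀) (hpos : 0 < κ t₀) :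
    2 * ∫ u in Ioi (0 : ℝ), 2 * π * ∫ t in Ioi (Real.cosh u), κ t <
      ∫ t in Ioi (1 : ℝ), (4 * π * √(t ^ 2 - 1)) * κ t :=
  H34T.kap0_lt_mass hκ hs h0 ht₀ hpos

/-! ## 5. Splitting of the sum, decay of the lift

The lift is an integral over `Lat × H3` for the measure `counting × χ(w) dw` (written out below).
`H23T.TData (GamP m) χ F n φ` collects the hypotheses: `χ` is a cut-off function of `Γ(m)`, `F` is
continuous, `Γ(m)`-invariant, decreases exponentially at the cusps and is an eigenfunction of all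
radial kernels with the eigenvalue at the spectral parameter zero, `φ` is bounded, the theta kernel
is `Γ(m)`-invariant (`tdata_fields`). -/

/-- **The hypotheses.** `H23T.TData` field by field; `ht Eis w` is the height of `w` over all cusps,
and `FinIdx Eis Γ` says that `Γ` has finite index in `SL₂(ℤ[ω])`. (`H23TI`.) -/
theorem tdata_fields {Γ : Subgroup (GL (Fin 2) ℂ)} {χ : H3 → ℝ} {F : H3 → ℂ} {n : ℕ}
    {φ : S47T.Lat → ℂ} : H23T.TData Γ χ F n φ ↔
      FinIdx Eis Γ ∧ IsCut Γ χ ∧ Continuous F ∧ (∀ g ∈ Γ, ∀ w, F (g • w) = F w) ∧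
      (∀ κ : ℝ → ℝ, ContDiff ℝ ((⊤ : ℕ∞) : WithTop ℕ∞) κ → HasCompactSupport κ →
        ∀ w, ∫ w', (κ (H3.ch w w') : ℂ) * F w' =
          ((2 * ∫ u in Ioi (0 : ℝ), 2 * π * ∫ t in Ioi (Real.cosh u), κ t : ℝ) : ℂ) * F w) ∧
      (∃ C c : ℝ, 0 < C ∧ 0 < c ∧ ∀ w, ‖F w‖ ≤ C * Real.exp (-(c * ht Eis w))) ∧ 0 < n ∧
      (∃ C, ∀ x, ‖φ x‖ ≤ C) ∧
      ∀ g ∈ Γ, ∀ τ : ℂ, 0 < τ.im → ∀ w, Theta n φ τ (g • w) = Theta n φ τ w :=
  ⟨fun h => ⟨h.1, h.2, h.3, h.4, h.5, h.6, h.7, h.8, h.9⟩,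
    fun h => ⟨h.1, h.2.1, h.2.2.1, h.2.2.2.1, h.2.2.2.2.1, h.2.2.2.2.2.1, h.2.2.2.2.2.2.1,
      h.2.2.2.2.2.2.2.1, h.2.2.2.2.2.2.2.2⟩⟩

/-- **Fubini** for the measure `counting × χ(w) dw`: an absolutely convergent integral over
`Lat × H3` is the sum over `X` of the integrals against `χ`. (`H60THdec`.) -/
theorem sum_of_integrals {χ : H3 → ℝ} (hm : Measurable χ) (h0 : ∀ w, 0 ≤ χ w)
    {f : S47T.Lat × H3 → ℂ} (hf : Integrable f
      ((Measure.count : Measure S47T.Lat).prod (volume.withDensity fun w => ENNReal.ofReal (χ w)))) :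
    HasSum (fun x : S47T.Lat => ∫ w, (χ w : ℂ) * f (x, w))
      (∫ p, f p ∂((Measure.count : Measure S47T.Lat).prod
        (volume.withDensity fun w => ENNReal.ofReal (χ w)))) :=
  H60T.hasSum_MC hm h0 hf

/-- **The vectors with `q(X) = 0` contribute zero** to the integral of `φ F Φ`, where the kernel
`Φ(q, m, τ)` depends on `X`, `w` only through `q = q(X)/n²` and `m = (q(X) + 2 (X, w)²)/n²` and is
admissible (continuous, and bounded by `C (1 + m)³ exp(-π v₀ m)` for `im τ` near `v₀`). By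
`isotropic_zero`, `constant_term_zero` and `mean_value_zero` (`GuideOctT`). The two kernels needed are
the one of the theta series and its derivative `v ∂/∂τ̄`. (`H60THdec`.) -/
theorem null_vectors_zero {m : ℕ} {χ : H3 → ℝ} {F : H3 → ℂ} {n : ℕ} {φ : S47T.Lat → ℂ}
    (hm3 : 3 ≤ m) (h : H23T.TData (GamP m) χ F n φ)
    (hφ : ∀ (g : GamP m) (x : S47T.Lat), φ (g • x) = φ x) {Φ : ℝ → ℝ → ℂ → ℂ}
    (hΦ : ∀ τ, Continuous fun p : ℝ × ℝ => Φ p.1 p.2 τ)
    (hΦ' : ∀ v₀ : ℝ, 0 < v₀ → ∃ C : ℝ, 0 ≤ C ∧ ∀ (q m : ℝ) (τ : ℂ), |q| ≤ m → v₀ / 2 ≤ τ.im →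
      τ.im ≤ 3 * v₀ / 2 → ‖Φ q m τ‖ ≤ C * (1 + m) ^ 3 * Real.exp (-(π * v₀ * m)))
    {τ : ℂ} (hτ : 0 < τ.im) :
    ∫ y : S47T.Lat × H3, (({x : S47T.Lat | qL x = 0}).indicator φ y.1 * F y.2) *
      Φ (qL y.1 / (n : ℝ) ^ 2) (qL y.1 / (n : ℝ) ^ 2 + 2 * (pL y.1 y.2 / n) ^ 2) τ
      ∂((Measure.count : Measure S47T.Lat).prod
        (volume.withDensity fun w => ENNReal.ofReal (χ w))) = 0 :=
  H60T.integral_Q_zero hm3 h hφ ⟨hΦ, hΦ'⟩ hτ

/-- **Lower bound of the majorant**: `q(X) ∈ (1/3) ℤ`, so for `q(X) ≠ 0` the exponent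
`(q(X) + 2 (X, w)²)/n² ≥ |q(X)|/n²` is at least `1/(3 n²)`. (`H60THdec`.) -/
theorem majorant_bound {n : ℕ} (hn : 0 < n) {x : S47T.Lat} (hx : qL x ≠ 0) (w : H3) :
    1 / (3 * (n : ℝ) ^ 2) ≤ qL x / (n : ℝ) ^ 2 + 2 * (pL x w / n) ^ 2 :=
  H60T.abs_qn_ge hn hx w

/-- **Decay of the lift.** Under the hypotheses above, with `3 ≤ m` and `φ` invariant under `Γ(m)`, the
lift and its derivative `ξ = v ∂/∂τ̄` (`H23T.xiL`, see `lift_laplace` in `GuideOctT`) are at most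
`C √v exp(-c v)`, `c = π/(6 n²)`, for `v = im τ ≥ 1/2`. From the two previous theorems and the
bounds `|Φ| ≤ C √v exp(-2π v m)`, resp. `C √v (1 + v m) exp(-2π v m)`, for the two kernels.
(`H60THdec`.) -/
theorem lift_decay {m : ℕ} {χ : H3 → ℝ} {F : H3 → ℂ} {n : ℕ} {φ : S47T.Lat → ℂ}
    (hm3 : 3 ≤ m) (h : H23T.TData (GamP m) χ F n φ)
    (hφ : ∀ (g : GamP m) (x : S47T.Lat), φ (g • x) = φ x) :
    ∃ C : ℝ, 0 ≤ C ∧ ∀ τ : ℂ, 1 / 2 ≤ τ.im →
      ‖lift χ F n φ τ‖ ≤ C * (√τ.im * Real.exp (-(π / 2 * (1 / (3 * (n : ℝ) ^ 2)) * τ.im))) ∧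
      ‖H23T.xiL χ F n φ τ‖ ≤
        C * (√τ.im * Real.exp (-(π / 2 * (1 / (3 * (n : ℝ) ^ 2)) * τ.im))) :=
  H60T.hdec hm3 h hφ

/-- **The hypotheses hold**, with `n = N`, for every function `F` of block (C) (`ICT N c F`, see
`ict_iff` in `GuideOctT`), every level `m` divisible by `N` and every `φ` which is invariant under
`Γ(m)`, `|φ| ≤ 1`. (`H93TFin`.) -/
theorem tdata_of_ict {N m : ℕ} {c : Eis → ℝ} {F : H3 → ℂ} (hI : ICT N c F) (hm : 0 < m)
    (hNm : N ∣ m) {φ : S47T.Lat → ℂ} {χ : H3 → ℝ} (hφ : ∀ x, ‖φ x‖ ≤ 1)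
    (hinv : ∀ g ∈ GamP m, ∀ (hE : ∀ i j, (g : Matrix (Fin 2) (Fin 2) ℂ) i j ∈ Eis) x,
      φ (gL (g : Matrix (Fin 2) (Fin 2) ℂ) hE x) = φ x) (hχ : IsCut (GamP m) χ) :
    H23T.TData (GamP m) χ F N φ :=
  H93.TAsm.tdata hI hm hNm hφ hinv hχ

end Fermat.Agent.Guide.ThetaIsotropic
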