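import Fermat.Agent.H23TJ

/-!
# Reader's guide: the Laplace equation of the theta lift, step by step (block (T) of S47)

Every theorem of this file is proved by citing a theorem of the library; nothing here is used by any
other file. Editor: helper23. Companion of GuideOctT, section 5 (there `lift_laplace` is the result in
the form used in S47). Files: `H98T1` (helper98), `H23TB`-`H23TE`, `H23TG`-`H23TJ` (helper23), with
`H75Y3` (Green's formula for radial kernels), `H74C3a` (the Laplace operator).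

**The statement.** `H3` is hyperbolic 3-space, `F` a bounded automorphic function on `H3` for a group
`Γ` of finite index in `SL₂(ℤ[ω])` which is an eigenfunction of all smooth radial kernels with the
eigenvalues `kap0 κ` of spectral parameter zero and decays exponentially. The lift is
`g(τ) = ∫_{Γ \ H3} F Θ(τ, ·)`, where `Θ(τ, w) = ∑_x φ(x) θ(q(x), m(x, w), τ)`, `v = Im τ`,
`θ(q, m, τ) = √v exp(2 π i q τ) exp(-2 π v (m - q))`, `q` the quadratic form of signature (3, 1) and `m`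
its majorant at `w`. Claim: `g` is real differentiable, and if `ξ = v ∂g/∂τ̄`, then the conjugate of
`ξ` is holomorphic (weight one Laplace equation with eigenvalue zero). Later this gives `ξ = 0`.

**The classical proof** moves the Laplace operator from `Θ` to `F` by Green's formula on `Γ \ H3`; it
needs a fundamental domain with boundary terms and bounds for the derivatives of `F`. Here `F` is never
differentiated and there is no Laplace operator on the quotient: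
1. termwise, `(Δ_w + 1) θ = pT = 16 v ∂/∂τ (v ∂θ/∂τ̄)`; so the claim is `∫ F ∑_x φ(x) pT_x = 0` (star);
2. let `R(κ)` be the operator with the radial kernel `κ`, smooth with compact support; for invariant
   functions `⟨R(κ) F, G⟩ = ⟨F, R(κ) G⟩` (cut-off functions instead of a fundamental domain);
3. Green's formula on `H3` for one term: `R(κ) (Δ + 1) θ = R(κ₁) θ` with
   `κ₁ = (t² - 1) κ'' + 3 t κ' + κ` (no boundary terms, since `κ` has compact support);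
4. hence `kap0 κ ⟨F, ∑ φ pT⟩ = ⟨F, R(κ) ∑ φ pT⟩ = ⟨F, R(κ₁) Θ⟩ = kap0 κ₁ ⟨F, Θ⟩ = 0`, because
   `kap0 κ₁ = 0`; and `kap0 κ ≠ 0` for a bump function `κ ≥ 0`.

**Notation.** `w = (z, y)` with `w.z`, `w.y`; `H3.ch w w' = cosh d(w, w')`; `hQ a b d = |b|² - a d` and
`pair a b d w = (a - 2 Re(b z̄) + d (|z|² + y²)) / (2 y)`; `ht Eis w` is the largest `y`-coordinate of
the `SL₂(ℤ[ω])`-orbit of `w`; `Theta`, `lift`, `IsCut`, `kap0`, `ICT`: see GuideOctT, sections 1 to 4;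
`(a, β, d) ∈ ℤ × ℤ[ω] × ℤ` stands for the vector with the entries `a`, `b = β/√-3`, `d`, and `qL`, `pL`
are its `hQ` and `pair`. Details: NOTES.md, Appendix A.13, note [423]. Further steps of block (T):
GuideThetaClasses (theta kernel), GuideHolomorphy (from the Laplace equation to holomorphy).
-/

set_option autoImplicit false
set_option linter.unusedSectionVars false

namespace Fermat.Agent.Guide.ThetaLaplace

open Complex MeasureTheory Set
open scoped ComplexConjugate Real ENNReal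
open Fermat.Agent.S47T Fermat.Agent.H8T Fermat.Agent.H47.Red
open Fermat.Agent.H74.C3 (Lap Lop)
open Fermat.Agent.H23T (qn mn sumU bk L1 TData nuC MC AF xiL trm ptrm)

/-! ## 1. One term of the theta kernel -/

/-- **Notions.** `th q m τ` is the term of weight one, `xt` is `v ∂/∂τ̄` of it and `pT` is its image
under `Δ + 1` and also `16 v ∂/∂τ` of `xt` (next theorems). File `H98T1`. -/
theorem term_notions (q m : ℝ) (τ : ℂ) :
    H98T.th q m τ = (√τ.im : ℂ) * cexp (2 * π * I * q * τ) * cexp (-(2 * π * τ.im * (m - q))) ∧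
    H98T.xt q m τ = (I / 2) * (1 / 2 - 2 * π * τ.im * (m - q)) * H98T.th q m τ ∧
    H98T.pT q m τ = (1 - 8 * π * τ.im * q + 32 * π ^ 2 * τ.im ^ 2 * q * (m - q) -
      16 * π * τ.im * (m - q) + 16 * π ^ 2 * τ.im ^ 2 * (m - q) ^ 2) * H98T.th q m τ :=
  ⟨rfl, rfl, rfl⟩

/-- **Derivatives in `τ`.** If the real derivative of a function is `A dτ + B dv`, then its `∂/∂τ̄` is
`(i/2) B` and its `∂/∂τ` is `A - (i/2) B`. So the first part says `v ∂θ/∂τ̄ = xt` and the second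
`∂(xt)/∂τ = pT / (16 v)`. File `H98T1`. -/
theorem term_derivatives (q m : ℝ) {τ : ℂ} (hτ : 0 < τ.im) :
    (∃ A B : ℂ, HasFDerivAt (H98T.th q m)
      (A • ContinuousLinearMap.id ℝ ℂ + B • ofRealCLM.comp imCLM) τ ∧
        I / 2 * B = H98T.xt q m τ / τ.im) ∧
    ∃ A B : ℂ, HasFDerivAt (H98T.xt q m)
      (A • ContinuousLinearMap.id ℝ ℂ + B • ofRealCLM.comp imCLM) τ ∧
        A - I / 2 * B = 1 / (16 * τ.im) * H98T.pT q m τ :=
  ⟨⟨_, _, H98T.hasFDerivAt_th' q m hτ, H98T.bT_eq q m hτ⟩,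
    ⟨_, _, H98T.hasFDerivAt_xt q m hτ, H98T.aX_sub_bX q m hτ⟩⟩

/-- **The Laplace operator on functions of the pairing**: for `t = pair a b d w`,
`Δ κ(t) = (|b|² - a d + t²) κ''(t) + 3 t κ'(t)`. File `H23TC`. -/
theorem laplace_of_pairing {κ : ℝ → ℂ} (hκ : ContDiff ℝ 2 κ) (a d : ℝ) (b : ℂ) (w : H3) :
    Lap (fun w => κ (pair a b d w)) w =
      ((hQ a b d + pair a b d w ^ 2 : ℝ) : ℂ) * deriv (deriv κ) (pair a b d w) +
        3 * pair a b d w * deriv κ (pair a b d w) :=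
  H23T.Lap_pair hκ a d b w

/-- **`(Δ + 1) θ = pT`** for `q = r (|b|² - a d)` and `m = q + 2 r t²` (apply the last theorem to a
Gaussian function of `t`). File `H23TC`. -/
theorem laplace_of_term (r a d : ℝ) (b : ℂ) (τ : ℂ) (w : H3) :
    Lap (fun w => H98T.th (r * hQ a b d) (r * hQ a b d + 2 * (r * pair a b d w ^ 2)) τ) w +
      H98T.th (r * hQ a b d) (r * hQ a b d + 2 * (r * pair a b d w ^ 2)) τ =
    H98T.pT (r * hQ a b d) (r * hQ a b d + 2 * (r * pair a b d w ^ 2)) τ :=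
  H23T.Lap_th r a d b τ w

/-! ## 2. Integrals of terms: the abstract form

`(Y, M)` is a measure space, `q, m : Y → ℝ` with `|q| ≤ m`, `A : Y → ℂ` an amplitude. Later `Y` is the
product of the lattice with `H3`. -/

/-- **Notions.** `Dat M A q m`: measurability, `|q| ≤ m`, and `A exp(-ε m)` is integrable for every
`ε > 0`. `Adm Φ`: `Φ q m τ` is continuous in `(q, m)` and bounded by `C (1 + m)³ exp(-π v₀ m)` for
`|q| ≤ m` and `v₀ / 2 ≤ v ≤ 3 v₀ / 2`; the functions `th`, `xt`, `pT` are admissible. Files `H98T1`,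
`H23TH`. -/
theorem abstract_notions {Y : Type*} [MeasurableSpace Y] (M : Measure Y) (A : Y → ℂ) (q m : Y → ℝ)
    (Φ : ℝ → ℝ → ℂ → ℂ) :
    (H98T.Dat M A q m ↔ AEStronglyMeasurable A M ∧ AEStronglyMeasurable q M ∧
      AEStronglyMeasurable m M ∧ (∀ y, |q y| ≤ m y) ∧
      ∀ ε : ℝ, 0 < ε → Integrable (fun y => ‖A y‖ * rexp (-(ε * m y))) M) ∧
    (H98T.Adm Φ ↔ (∀ τ, Continuous fun p : ℝ × ℝ => Φ p.1 p.2 τ) ∧
      ∀ v₀ : ℝ, 0 < v₀ → ∃ C : ℝ, 0 ≤ C ∧ ∀ (q m : ℝ) (τ : ℂ), |q| ≤ m → v₀ / 2 ≤ τ.im →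
        τ.im ≤ 3 * v₀ / 2 → ‖Φ q m τ‖ ≤ C * (1 + m) ^ 3 * rexp (-(π * v₀ * m))) ∧
    H98T.Adm H98T.th ∧ H98T.Adm H98T.xt ∧ H98T.Adm H98T.pT :=
  ⟨⟨fun h => ⟨h.measA, h.measq, h.measm, h.le, h.int⟩,
    fun h => ⟨h.1, h.2.1, h.2.2.1, h.2.2.2.1, h.2.2.2.2⟩⟩, Iff.rfl,
    H98T.adm_th, H98T.adm_xt, H23T.adm_pT⟩

/-- **Differentiation under the integral.** The integral `g(τ) = ∫ A θ(q, m, τ)` is real
differentiable and its `v ∂g/∂τ̄` is `∫ A xt(q, m, τ)` (the coefficient of `dv` is `-2i ∂g/∂τ̄`). File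
`H98T1`. (This and the next theorem also occur in GuideThetaClasses, section 6.) -/
theorem integral_derivative {Y : Type*} [MeasurableSpace Y] {M : Measure Y} {A : Y → ℂ}
    {q m : Y → ℝ} (D : H98T.Dat M A q m) {τ : ℂ} (hτ : 0 < τ.im) :
    ∃ a : ℂ, HasFDerivAt (fun τ => ∫ y, A y * H98T.th (q y) (m y) τ ∂M)
      (a • ContinuousLinearMap.id ℝ ℂ + (2 / I * ((∫ y, A y * H98T.xt (q y) (m y) τ ∂M) / τ.im)) •
        ofRealCLM.comp imCLM) τ :=
  ⟨_, H98T.hasFDerivAt_gT' D hτ⟩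

/-- **Reduction to (star)**: if `∫ A pT(q, m, τ) = 0` for all `τ`, then the conjugate of
`∫ A xt(q, m, τ)` is holomorphic. File `H98T1`. -/
theorem conj_holomorphic_of_star {Y : Type*} [MeasurableSpace Y] {M : Measure Y} {A : Y → ℂ}
    {q m : Y → ℝ} (D : H98T.Dat M A q m)
    (h0 : ∀ τ : ℂ, 0 < τ.im → ∫ y, A y * H98T.pT (q y) (m y) τ ∂M = 0) :
    DifferentiableOn ℂ (fun τ => conj (∫ y, A y * H98T.xt (q y) (m y) τ ∂M)) {τ | 0 < τ.im} :=
  H98T.differentiableOn_conj_xiT D h0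

/-! ## 3. Cut-off functions and adjunction

A countable group `Γ` acts on a measure space `(X, μ)` by measure preserving maps. A cut-off function is
`χ ≥ 0` with `∑_g χ(g x) = 1` for all `x`; then `∫ χ f` is the integral of the invariant function `f`
over `Γ \ X` (up to a constant factor if elements of `Γ` act trivially). -/

section CutOff

variable {X Γ : Type*} [Group Γ] [Countable Γ] [MulAction Γ X] [MeasurableSpace X] {μ : Measure X}

/-- **Independence of the cut-off function**, for the Bochner integral and without any hypothesis of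
integrability. File `H23TB`. -/
theorem integral_independent_of_cutoff
    (hμ : ∀ g : Γ, MeasurePreserving (fun x : X => g • x) μ μ) {χ χ' : X → ℝ≥0∞}
    (hχ : Measurable χ) (hχ' : Measurable χ') (h1 : ∀ x, ∑' g : Γ, χ (g • x) = 1)
    (h1' : ∀ x, ∑' g : Γ, χ' (g • x) = 1) {f : X → ℂ} (hf : Measurable f)
    (hinv : ∀ (g : Γ) x, f (g • x) = f x) :
    ∫ x, f x ∂(μ.withDensity χ) = ∫ x, f x ∂(μ.withDensity χ') :=
  H23T.cut_integral hμ hχ hχ' h1 h1' hf hinv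

/-- **The two cut-off functions on the product**: for a function `H` on `X × X` invariant under the
diagonal action one can cut off the first or the second variable. This is the adjunction of invariant
kernels. File `H23TB`. -/
theorem cutoff_on_product [SFinite μ] (hμ : ∀ g : Γ, MeasurePreserving (fun x : X => g • x) μ μ)
    {χ : X → ℝ≥0∞} (hχ : Measurable χ) (h1 : ∀ x, ∑' g : Γ, χ (g • x) = 1)
    {H : X × X → ℂ} (hH : Measurable H) (hinv : ∀ (g : Γ) x y, H (g • x, g • y) = H (x, y)) :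
    ∫ p, H p ∂((μ.withDensity χ).prod μ) = ∫ p, H p ∂(μ.prod (μ.withDensity χ)) ∧
    (Integrable H ((μ.withDensity χ).prod μ) ↔ Integrable H (μ.prod (μ.withDensity χ))) :=
  H23T.cut_prod hμ hχ h1 hH hinv

/-- **The abstract vanishing theorem.** Let `F` be an invariant function with eigenvalue `c ≠ 0` for an
invariant kernel `k` and eigenvalue zero for a second kernel `k'`; let `G = ∑_i u_i`, `G' = ∑_i u'_i`
be invariant (the single terms need not be) with `∫ k(x, y) u_i(y) = ∫ k'(x, y) u'_i(y)` for all `i`.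
Then `∫_{Γ \ X} F G = 0`, because `c ⟨F, G⟩ = ⟨F, R(k) G⟩ = ⟨F, R(k') G'⟩ = 0`. `hint`, `hint'`:
absolute convergence. File `H23TG`. -/
theorem abstract_vanishing {ι : Type*} [Countable ι] [MeasurableSpace ι]
    [MeasurableSingletonClass ι] [SFinite μ]
    (hμ : ∀ g : Γ, MeasurePreserving (fun x : X => g • x) μ μ)
    {χ : X → ℝ≥0∞} (hχ : Measurable χ) (h1 : ∀ x, ∑' g : Γ, χ (g • x) = 1)
    {F : X → ℂ} (hF : Measurable F) (hFi : ∀ (g : Γ) x, F (g • x) = F x)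
    {k k' : X → X → ℂ} (hk : Measurable (Function.uncurry k))
    (hk' : Measurable (Function.uncurry k'))
    (hki : ∀ (g : Γ) x y, k (g • x) (g • y) = k x y)
    (hki' : ∀ (g : Γ) x y, k' (g • x) (g • y) = k' x y)
    {c : ℂ} (hc : c ≠ 0) (hkF : ∀ y, ∫ x, k x y * F x ∂μ = c * F y)
    (hkF' : ∀ y, ∫ x, k' x y * F x ∂μ = 0)
    {u u' : ι → X → ℂ} (hu : ∀ i, Measurable (u i)) (hu' : ∀ i, Measurable (u' i))
    (hG : ∀ (g : Γ) x, ∑' i, u i (g • x) = ∑' i, u i x)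
    (hG' : ∀ (g : Γ) x, ∑' i, u' i (g • x) = ∑' i, u' i x)
    (hgreen : ∀ i x, ∫ y, k x y * u i y ∂μ = ∫ y, k' x y * u' i y ∂μ)
    (hint : ∫⁻ x, ‖F x‖ₑ * (∫⁻ y, ‖k x y‖ₑ * ∑' i, ‖u i y‖ₑ ∂μ) ∂(μ.withDensity χ) < ∞)
    (hint' : ∫⁻ x, ‖F x‖ₑ * (∫⁻ y, ‖k' x y‖ₑ * ∑' i, ‖u' i y‖ₑ ∂μ) ∂(μ.withDensity χ) < ∞) :
    ∫ x, F x * ∑' i, u i x ∂(μ.withDensity χ) = 0 :=
  H23T.star_abs₂ hμ hχ h1 hF hFi hk hk' hki hki' hc hkF hkF' hu hu' hG hG' hgreen hint hint'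

end CutOff

/-! ## 4. The kernels -/

/-- **The bump function** `bk` is smooth, nonnegative, supported in `[2, 4]`, and its eigenvalue
`kap0 bk = 4 π ∫_1^∞ bk(t) arcosh(t) dt` is positive; `L1 κ = (t² - 1) κ'' + 3 t κ' + κ` has eigenvalue
zero for every smooth `κ` with compact support: it is the derivative of `(t² - 1) κ' + t κ`, and this
function at `t = cosh u` is the derivative of `sinh u κ(cosh u)`. File `H23TE`. -/
theorem kernels :
    (∀ t : ℝ, 0 ≤ bk t) ∧ (∀ t : ℝ, t ≤ 2 → bk t = 0) ∧ (∀ t : ℝ, 4 ≤ t → bk t = 0) ∧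
      0 < kap0 (bk : ℝ → ℝ) ∧
      (∀ (κ : ℝ → ℝ) (t : ℝ), L1 κ t = (t ^ 2 - 1) * deriv (deriv κ) t + 3 * t * deriv κ t + κ t) ∧
      ∀ κ : ℝ → ℝ, ContDiff ℝ ((⊤ : ℕ∞) : WithTop ℕ∞) κ → HasCompactSupport κ → kap0 (L1 κ) = 0 :=
  ⟨fun _ => bk.nonneg, fun _ h => H23T.bk_zero_of_le h, fun _ h => H23T.bk_zero_of_ge h,
    H23T.kap0_bk_pos, fun _ _ => rfl, fun _ h hs => H23T.kap0_L1 h hs⟩

/-- **Green's formula for radial kernels** on `H3`: for `κ` of class `C²` and of compact support and a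
function `f` of class `C²`, `∫ κ(cosh d(w, ·)) Δf = ∫ (Lop κ)(cosh d(w, ·)) f` with
`Lop κ = (t² - 1) κ'' + 3 t κ'`. File `H75Y3` (helper75). -/
theorem green_radial {κ : ℝ → ℂ} (hκ : ContDiff ℝ 2 κ) {R : ℝ} (hR : ∀ t, R ≤ t → κ t = 0)
    {f : H3 → ℂ}
    (hf : ContDiffOn ℝ 2 (fun p : ℂ × ℝ => f (H74.C3.pt p.1 p.2)) {p | 0 < p.2}) (w : H3) :
    ∫ w', κ (H3.ch w w') * Lap f w' =
      ∫ w', (((H3.ch w w' : ℝ) : ℂ) ^ 2 - 1) * deriv (deriv κ) (H3.ch w w') * f w' +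
        3 * (H3.ch w w' : ℝ) * deriv κ (H3.ch w w') * f w' := by
  rw [(H75Y.green_ch hκ hR hf w).2.2]
  exact integral_congr_ae (Filter.Eventually.of_forall fun w' => by simp only [Lop]; ring)

/-! ## 5. The theta kernel -/

/-- **Parameters.** `qn n x = q(x)/n²`, `mn n x w = q(x)/n² + 2 (p(x, w)/n)²`; then `|qn| ≤ mn` and the
theta kernel is `∑_x φ(x) θ(qn n x, mn n x w, τ)`. File `H23TH`. -/
theorem theta_parameters (n : ℕ) (φ : ℤ × Eis × ℤ → ℂ) (τ : ℂ) (w : H3) :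
    (∀ x, qn n x = qL x / (n : ℝ) ^ 2) ∧
      (∀ x, mn n x w = qL x / (n : ℝ) ^ 2 + 2 * (pL x w / n) ^ 2) ∧
      (∀ x, |qn n x| ≤ mn n x w) ∧
      Theta n φ τ w = ∑' x, φ x * H98T.th (qn n x) (mn n x w) τ :=
  ⟨fun _ => rfl, fun _ => rfl, fun x => H23T.abs_qn_le n x w, H23T.Theta_eq n φ τ w⟩

/-- **Majorant.** For bounded `φ` and admissible `Φ` the sum of the absolute values of
`φ(x) Φ(qn n x, mn n x w, τ)` is at most `K ht(w)⁸`. File `H23TH`. -/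
theorem majorant {Φ : ℝ → ℝ → ℂ → ℂ} (h : H98T.Adm Φ) {n : ℕ} (hn : 0 < n)
    {φ : ℤ × Eis × ℤ → ℂ} {C : ℝ} (hφ : ∀ x, ‖φ x‖ ≤ C) {τ : ℂ} (hτ : 0 < τ.im) :
    ∃ K : ℝ, 0 ≤ K ∧ ∀ w : H3, ∑' x, ‖φ x * Φ (qn n x) (mn n x w) τ‖ₑ ≤
      ENNReal.ofReal (K * ht Eis w ^ 8) :=
  H23T.maj_adm h hn hφ hτ

/-- **Heights under kernels**: `ht(w') ≤ 2 cosh d(w, w') ht(w)`; so a bounded radial kernel of compact
support maps functions `≤ K ht⁸` to functions `≤ K' ht⁸`. File `H23TH`. -/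
theorem heights_under_kernels :
    (∀ w w' : H3, ht Eis w' ≤ 2 * H3.ch w w' * ht Eis w) ∧
    ∀ {κ : ℝ → ℂ}, Measurable κ → ∀ {M R : ℝ}, 1 ≤ R → (∀ t, ‖κ t‖ ≤ M) →
      (∀ t, R < t → κ t = 0) → ∀ {f : H3 → ℝ≥0∞} {K : ℝ}, 0 ≤ K →
      (∀ w, f w ≤ ENNReal.ofReal (K * ht Eis w ^ 8)) →
      ∃ K' : ℝ, 0 ≤ K' ∧ ∀ w, ∫⁻ y : H3, ‖κ (H3.ch w y)‖ₑ * f y ≤
        ENNReal.ofReal (K' * ht Eis w ^ 8) :=
  ⟨H23T.ht_le_ch, fun hm _ _ hR hM h0 _ _ hK hf => H23T.dom1 hm hR hM h0 hK hf⟩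

/-- **Green's formula for one term** (section 4 with `κ = bk`, and `laplace_of_term`). File `H23TI`. -/
theorem green_term (n : ℕ) (x : ℤ × Eis × ℤ) (τ : ℂ) (w : H3) :
    ∫ w', (bk (H3.ch w w') : ℂ) * H98T.pT (qn n x) (mn n x w') τ =
      ∫ w', (L1 bk (H3.ch w w') : ℂ) * H98T.th (qn n x) (mn n x w') τ :=
  H23T.green_term n x τ w

/-- **Invariance of `∑ φ pT`.** If `Θ(τ, w') = Θ(τ, w)` for all `τ`, then the same holds for the sum of
the `φ(x) pT`: this sum is obtained from `Θ` by differentiation in `τ`. So no action of `Γ` on the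
lattice has to be considered. File `H23TI`. -/
theorem sum_invariant {n : ℕ} (hn : 0 < n) {φ : ℤ × Eis × ℤ → ℂ} {C : ℝ}
    (hφ : ∀ x, ‖φ x‖ ≤ C) {w w' : H3}
    (h : ∀ τ : ℂ, 0 < τ.im → Theta n φ τ w' = Theta n φ τ w) {τ : ℂ} (hτ : 0 < τ.im) :
    ∑' x, φ x * H98T.pT (qn n x) (mn n x w') τ = ∑' x, φ x * H98T.pT (qn n x) (mn n x w) τ :=
  H23T.sumU_ptrm_inv hn hφ h hτ

/-! ## 6. The lift -/

/-- **The hypotheses** (`TData`): `Γ` of finite index in `SL₂(ℤ[ω])`; `χ` a cut-off function for `Γ`;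
`F` continuous, invariant, an eigenfunction of the smooth radial kernels of compact support with the
eigenvalues `kap0 κ`, and exponentially decreasing in the height; `φ` bounded; `Θ` invariant. File
`H23TI`. -/
theorem hypotheses_iff (Γ : Subgroup (GL (Fin 2) ℂ)) (χ : H3 → ℝ) (F : H3 → ℂ) (n : ℕ)
    (φ : ℤ × Eis × ℤ → ℂ) : TData Γ χ F n φ ↔ FinIdx Eis Γ ∧ IsCut Γ χ ∧ Continuous F ∧
      (∀ g ∈ Γ, ∀ w, F (g • w) = F w) ∧
      (∀ κ : ℝ → ℝ, ContDiff ℝ ((⊤ : ℕ∞) : WithTop ℕ∞) κ → HasCompactSupport κ →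
        ∀ w, ∫ w', (κ (H3.ch w w') : ℂ) * F w' = kap0 κ * F w) ∧
      (∃ C c : ℝ, 0 < C ∧ 0 < c ∧ ∀ w, ‖F w‖ ≤ C * Real.exp (-(c * ht Eis w))) ∧
      0 < n ∧ (∃ C, ∀ x, ‖φ x‖ ≤ C) ∧
      ∀ g ∈ Γ, ∀ τ : ℂ, 0 < τ.im → ∀ w, Theta n φ τ (g • w) = Theta n φ τ w :=
  ⟨fun h => ⟨h.fin, h.cut, h.cont, h.inv, h.eig, h.decay, h.npos, h.bdd, h.theta⟩,
    fun h => ⟨h.1, h.2.1, h.2.2.1, h.2.2.2.1, h.2.2.2.2.1, h.2.2.2.2.2.1, h.2.2.2.2.2.2.1,
      h.2.2.2.2.2.2.2.1, h.2.2.2.2.2.2.2.2⟩⟩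

/-- **The lift as an integral over lattice times `H3`** with the amplitude `φ(x) F(w)` and the measure
`MC χ` = counting measure times `χ dw`; these data satisfy `Dat`. File `H23TI`. -/
theorem lift_as_integral {Γ : Subgroup (GL (Fin 2) ℂ)} {χ : H3 → ℝ} {F : H3 → ℂ} {n : ℕ}
    {φ : ℤ × Eis × ℤ → ℂ} (h : TData Γ χ F n φ) :
    MC χ = (Measure.count : Measure (ℤ × Eis × ℤ)).prod
      (volume.withDensity fun w => ENNReal.ofReal (χ w)) ∧
    H98T.Dat (MC χ) (fun y => φ y.1 * F y.2) (fun y => qn n y.1) (fun y => mn n y.1 y.2) ∧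
    ∀ τ : ℂ, 0 < τ.im → lift χ F n φ τ =
      ∫ y, φ y.1 * F y.2 * H98T.th (qn n y.1) (mn n y.1 y.2) τ ∂(MC χ) :=
  ⟨rfl, h.dat, fun _ hτ => h.lift_eq hτ⟩

/-- **(star)**: the integral of `F (Δ + 1) Θ` over `Γ \ H3` is zero (`abstract_vanishing` with the
kernels `bk` and `L1 bk`). File `H23TI`. -/
theorem star {Γ : Subgroup (GL (Fin 2) ℂ)} {χ : H3 → ℝ} {F : H3 → ℂ} {n : ℕ} {φ : ℤ × Eis × ℤ → ℂ}
    (h : TData Γ χ F n φ) {τ : ℂ} (hτ : 0 < τ.im) :
    ∫ y, φ y.1 * F y.2 * H98T.pT (qn n y.1) (mn n y.1 y.2) τ ∂(MC χ) = 0 :=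
  h.star hτ

/-- **The Laplace equation of the lift** `g`: with `ξ = xiL χ F n φ = v ∂g/∂τ̄` the real derivative of
`g` is `a dτ + (2/i) (ξ/v) dv`, and the conjugate of `ξ` is holomorphic. File `H23TI`; used in
`H93TFin` (holomorphy of the lift). -/
theorem laplace_of_lift {Γ : Subgroup (GL (Fin 2) ℂ)} {χ : H3 → ℝ} {F : H3 → ℂ} {n : ℕ}
    {φ : ℤ × Eis × ℤ → ℂ} (h : TData Γ χ F n φ) :
    (∀ τ : ℂ, 0 < τ.im → ∃ a : ℂ, HasFDerivAt (lift χ F n φ) (a • ContinuousLinearMap.id ℝ ℂ +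
      (2 / I * (xiL χ F n φ τ / τ.im)) • ofRealCLM.comp imCLM) τ) ∧
    DifferentiableOn ℂ (fun τ => conj (xiL χ F n φ τ)) {τ | 0 < τ.im} :=
  ⟨fun _ hτ => h.hasFDerivAt_lift hτ, h.differentiableOn_conj_xiL⟩

/-- **Verification of the hypotheses** for the function of block (C): `ICT N c F` and exponential decay
at all cusps (`Decays F`: for every `g` in `SL₂(ℤ[ω])` there are `C` and `c > 0` with
`|F(g w)| ≤ C exp(-c y)` for `y ≥ 4/5`; proved from `ICT`, see `decay` in GuideOctT) give `TData` for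
every `Γ` of finite index contained in `Gam N`, if `φ` is bounded and `Θ` is `Γ`-invariant. File
`H23TJ`. -/
theorem hypotheses_of_ict {N : ℕ} {c : Eis → ℝ} {F : H3 → ℂ} (hF : ICT N c F) (hd : Decays F)
    {Γ : Subgroup (GL (Fin 2) ℂ)} (hΓ : FinIdx Eis Γ) (hΓN : Γ ≤ Gam N) {χ : H3 → ℝ}
    (hχ : IsCut Γ χ) {n : ℕ} (hn : 0 < n) {φ : ℤ × Eis × ℤ → ℂ} {C : ℝ} (hφ : ∀ x, ‖φ x‖ ≤ C)
    (hθ : ∀ g ∈ Γ, ∀ τ : ℂ, 0 < τ.im → ∀ w, Theta n φ τ (g • w) = Theta n φ τ w) :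
    TData Γ χ F n φ :=
  H23T.TData.of_ict hF hd hΓ hΓN hχ hn hφ hθ

end Fermat.Agent.Guide.ThetaLaplace
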