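import Fermat.Agent.H53Z5
import Fermat.Agent.H74C3w
import Fermat.Agent.H9ZEig

/-!
# The explicit series is an eigenfunction of all radial kernels (helper53, S47 block D, part A6)
-/

set_option autoImplicit false

open MeasureTheory Set Filter Topology
open scoped ComplexConjugate Real

noncomputable section

namespace Fermat.Agent.H53Z

open Fermat.Agent Fermat.Agent.H22Z Fermat.Agent.H5Z

variable {J : Type*} [Fintype J] {X : Type*}

/-- points close to `w` are bounded below -/
theorem exists_lower_bound (w : J → H3) (T : ℝ) : ∃ c : ℝ, 0 < c ∧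
    ∀ w' : J → H3, (∀ j, H3.ch (w j) (w' j) ≤ T) → ∀ j, c ≤ (w' j).y := by
  obtain ⟨c₀, -, hc₀, hw, -⟩ := exists_bounds w (0 : J → ℝ)
  refine ⟨c₀ / (2 * max T 1), by positivity, fun w' h j => ?_⟩
  have hT : H3.ch (w j) (w' j) ≤ max T 1 := (h j).trans (le_max_left _ _)
  obtain ⟨-, h2, -⟩ := H9Z.bounds_of_ch_le hT
  have h1 : (0 : ℝ) < max T 1 := lt_of_lt_of_le one_pos (le_max_right _ _)
  rw [div_le_iff₀ (by positivity)]
  have := hw j
  nlinarith

theorem Rk_ser [Countable X] {a : X → ℂ} {v : X → J → ℂ} (h : KSum a v)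
    {κ : (J → ℝ) → ℂ} (hκ : H9Z.Ker κ) (w : J → H3) :
    Rk κ (ser a v) w = H9Z.hat κ * ser a v w := by
  classical
  obtain ⟨T, hT⟩ := hκ.supp
  obtain ⟨c, hc, hcw⟩ := exists_lower_bound w T
  refine H74.C3.Rk_hasSum (f := fun x w => a x * kterm (v x) w) (fun x => ?_)
    (fun w => hasSum_ser h w) hκ (fun x w => ?_) w
    ((h.sum _ (two_pi_pos_mul hc)).mul_left (((2 * π) ^ Fintype.card J)⁻¹)) hT
    (fun x w' hw' => norm_ser_term_le h (hcw w' hw') x)
  · by_cases hx : a x = 0
    · simp only [hx, zero_mul]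
      exact continuous_const
    · exact continuous_const.mul (continuous_kterm (h.ne x hx))
  · by_cases hx : a x = 0
    · simp only [hx, zero_mul, Rk, mul_zero, integral_zero]
    · have h1 := H74.C3.Rk_kterm (h.ne x hx) hκ w
      simp only [Rk] at h1 ⊢
      rw [mul_left_comm, ← h1, ← integral_const_mul]
      refine integral_congr_ae (Eventually.of_forall fun w' => ?_)
      simp only
      ring

theorem isEig_ser [Countable X] {a : X → ℂ} {v : X → J → ℂ} (h : KSum a v) :
    H9Z.IsEig (ser a v) :=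
  ⟨(continuous_ser h).locallyIntegrable, fun _ hκ w => Rk_ser h hκ w⟩

end Fermat.Agent.H53Z
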