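import Fermat.Agent.H53Z7

/-!
# Support of the Fourier transform at `S`, uniform version (helper53, S47 block D, [L-SUPP'])
-/

set_option autoImplicit false

open IsDedekindDomain NumberField WithZero FractionalIdeal
open scoped nonZeroDivisors Pointwise

noncomputable section

namespace Fermat.Agent.H53Z

open Fermat.Agent Fermat.Agent.H71D Fermat.Agent.H7.Z
open Fermat.Agent.H47 (smulPlace below)
open Fermat.Agent.H82 (above aboveSet NonSplit congr)

variable {E B : Type*} [Field E] [NumberField E] [Field B] [NumberField B] [Algebra E B]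

/-- An element of `B` with prescribed orders at the places of `T` and very small outside. -/
theorem exists_test' (T : Finset (HeightOneSpectrum (𝓞 B)))
    (kk : HeightOneSpectrum (𝓞 B) → ℕ) (x : B) :
    ∃ z : B, (∀ P ∈ T, P.valuation B z = exp (-(kk P : ℤ))) ∧
      ∀ P ∉ T, P.valuation B (x * z) ≤ 1 := by
  classical
  choose ϖ hϖ using fun P : HeightOneSpectrum (𝓞 B) =>
    H36.Psi.exists_val_eq_exp P (-(kk P : ℤ))
  choose m hm using fun P : HeightOneSpectrum (𝓞 B) => exists_le_exp P x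
  set W := (finite_not_integral x).toFinset with hW
  obtain ⟨z, h1, h2⟩ := exists_approx (R := 𝓞 B) (T ∪ W)
    (fun P => if P ∈ T then (ϖ P : B) else 0) (fun P => if P ∈ T then kk P + 1 else m P)
  refine ⟨z, fun P hP => ?_, fun P hP => ?_⟩
  · have h3 := h1 P (Finset.mem_union_left _ hP)
    simp only [if_pos hP] at h3
    have h4 : P.valuation B (z - ϖ P) < P.valuation B (ϖ P) := by
      refine h3.trans_lt ?_
      rw [hϖ, exp_lt_exp]
      push_cast
      linarith
    rw [← hϖ P]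
    exact Valuation.map_eq_of_sub_lt _ h4
  · rw [map_mul]
    by_cases hPW : P ∈ W
    · have h3 := h1 P (Finset.mem_union_right _ hPW)
      simp only [if_neg hP, sub_zero] at h3
      calc _ ≤ exp (m P : ℤ) * exp (-(m P : ℤ)) := mul_le_mul' (hm P) h3
        _ = 1 := by rw [← exp_add]; simp
    · have h3 := h2 P (by simp [hP, hPW])
      have h4 : P.valuation B x ≤ 1 := by
        by_contra hcon
        exact hPW ((finite_not_integral x).mem_toFinset.mpr hcon)
      exact mul_le_one' h4 h3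

theorem smulPlace_inv_smulPlace (σ : B ≃ₐ[E] B) (P : HeightOneSpectrum (𝓞 B)) :
    smulPlace σ (smulPlace σ⁻¹ P) = P := by
  apply HeightOneSpectrum.ext
  rw [H47.smulPlace_asIdeal, H47.smulPlace_asIdeal, smul_inv_smul]

theorem valuation_aut (σ : B ≃ₐ[E] B) (P : HeightOneSpectrum (𝓞 B)) (x : B) :
    P.valuation B (σ x) = (smulPlace σ⁻¹ P).valuation B x := by
  have h := H47.valuation_smulPlace σ (smulPlace σ⁻¹ P) x
  rwa [smulPlace_inv_smulPlace] at h

/-- **[L-SUPP']**, bound for the element -/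
theorem exists_supp_gen (S : Finset (HeightOneSpectrum (𝓞 E))) : ∃ c₁ : ℕ,
    ∀ (τ : B ≃ₐ[E] B) (kk : HeightOneSpectrum (𝓞 B) → ℕ) (x : B),
    (∀ y : B, (∀ P ∈ aboveSet B (S : Set (HeightOneSpectrum (𝓞 E))),
      P.valuation B y ≤ exp (-(kk P : ℤ))) →
      ∏ w ∈ S, psi w (Algebra.trace E B (x * τ y)) = 1) →
    ∀ P ∈ aboveSet B (S : Set (HeightOneSpectrum (𝓞 E))),
      P.valuation B x ≤ exp ((kk (smulPlace τ⁻¹ P) : ℤ) + c₁) := by
  classical
  have hSBfin : (aboveSet B (S : Set (HeightOneSpectrum (𝓞 E)))).Finite :=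
    H65.finite_aboveSet S.finite_toSet
  set SB := hSBfin.toFinset with hSB
  have hmem : ∀ P, P ∈ SB ↔ P ∈ aboveSet B (S : Set (HeightOneSpectrum (𝓞 E))) := fun P =>
    hSBfin.mem_toFinset
  obtain ⟨m, hm0, hm⟩ := (H66D.wdata E B (1 : B ≃ₐ[E] B) (fun _ => rfl)).dual
  have hmB : (m : B) ≠ 0 := Nat.cast_ne_zero.mpr hm0
  choose c hc using fun P : HeightOneSpectrum (𝓞 B) => exists_exp_le P hmB
  refine ⟨∑ P ∈ SB, c P, fun τ kk x hx => ?_⟩
  have hst : ∀ P, smulPlace τ⁻¹ P ∈ SB ↔ P ∈ SB := fun P => by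
    rw [hmem, hmem]
    exact H47.smulPlace_mem_aboveSet_iff τ⁻¹
  -- the test element
  obtain ⟨z, hz1, hz2⟩ := exists_test' SB kk (τ⁻¹ x)
  have hττ : ∀ y : B, τ (τ⁻¹ y) = y := fun y => by
    rw [← AlgEquiv.mul_apply, mul_inv_cancel, AlgEquiv.one_apply]
  have hz3 : ∀ P ∉ SB, P.valuation B (x * τ z) ≤ 1 := by
    intro P hP
    have e : x * τ z = τ (τ⁻¹ x * z) := by rw [map_mul, hττ]
    rw [e, valuation_aut]
    exact hz2 _ (fun h => hP ((hst P).1 h))
  have key : m • (x * τ z) ∈ H66D.OLat B := by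
    refine hm _ fun r hr => ?_
    have hrI : IsIntegral ℤ r := H66D.mem_OLat.1 hr
    have hr1 : ∀ P : HeightOneSpectrum (𝓞 B), P.valuation B r ≤ 1 := by
      intro P
      exact P.valuation_le_one (K := B) ⟨r, hrI⟩
    have hr2 : ∀ P : HeightOneSpectrum (𝓞 B), P.valuation B (τ⁻¹ r) ≤ 1 := by
      intro P
      rw [valuation_aut]
      exact hr1 _
    have h1 := hx (z * τ⁻¹ r) (fun P hP => by
      rw [map_mul, hz1 P ((hmem P).2 hP)]
      exact mul_le_of_le_one_right' (hr2 P))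
    have e1 : x * τ (z * τ⁻¹ r) = x * τ z * r := by rw [map_mul, hττ, mul_assoc]
    rw [e1, prod_psi S] at h1
    · show H66D.bch (1 : B ≃ₐ[E] B) (x * τ z) r = 1
      rw [Algebra.trace_trace] at h1
      rw [H66D.bch, ← h1, ee, AlgEquiv.one_apply]
      congr 1
      push_cast
      ring
    · intro w hw
      refine H36.Psi.trace_le_one fun Q hQ => ?_
      have hQS : Q ∉ SB := by
        rw [hmem]
        rintro ⟨v, hv, hQv⟩
        have := (H47.eq_below_of_mem_above hQ).trans (H47.eq_below_of_mem_above hQv).symm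
        exact hw (this ▸ hv)
      rw [map_mul]
      exact mul_le_one' (hz3 Q hQS) (hr1 _)
  intro P hP'
  have hP := (hmem P).2 hP'
  have h1 : P.valuation B (m • (x * τ z)) ≤ 1 :=
    P.valuation_le_one (K := B) ⟨_, H66D.mem_OLat.1 key⟩
  rw [nsmul_eq_mul, map_mul, map_mul, valuation_aut, hz1 _ ((hst P).2 hP)] at h1
  set k := kk (smulPlace τ⁻¹ P)
  have h2 : exp (-(c P : ℤ)) * (P.valuation B x * exp (-(k : ℤ))) ≤ 1 :=
    (mul_le_mul' (hc P) le_rfl).trans h1
  have h3 : P.valuation B x ≤ exp ((k + c P : ℕ) : ℤ) := by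
    calc P.valuation B x
        = exp ((k + c P : ℕ) : ℤ) * (exp (-(c P : ℤ)) * (P.valuation B x * exp (-(k : ℤ)))) := by
          rw [mul_comm (P.valuation B x), ← mul_assoc, ← mul_assoc, ← exp_add, ← exp_add]
          have : ((k + c P : ℕ) : ℤ) + -(c P : ℤ) + -(k : ℤ) = 0 := by push_cast; ring
          rw [this, exp_zero, one_mul]
      _ ≤ exp ((k + c P : ℕ) : ℤ) * 1 := mul_le_mul' le_rfl h2
      _ = _ := mul_one _
  refine h3.trans ?_
  rw [exp_le_exp]
  have : c P ≤ ∑ P ∈ SB, c P := Finset.single_le_sum (f := c) (fun _ _ => Nat.zero_le _) hP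
  push_cast
  have h5 : (c P : ℤ) ≤ ∑ P ∈ SB, (c P : ℤ) := by exact_mod_cast this
  linarith

/-- **[L-SUPP']**, bound for the norm -/
theorem exists_supp_norm (S : Finset (HeightOneSpectrum (𝓞 E)))
    (hdeg : Module.finrank E B = 2) : ∃ c₂ : ℕ,
    ∀ (τ : B ≃ₐ[E] B), τ ≠ 1 → ∀ (m : HeightOneSpectrum (𝓞 E) → ℕ) (a : ℕ) (x : B),
    (∀ y : B, (∀ P ∈ aboveSet B (S : Set (HeightOneSpectrum (𝓞 E))),
      P.valuation B y ≤ exp (-(((below E P).asIdeal.ramificationIdx' P.asIdeal *
        m (below E P) + a : ℕ) : ℤ))) →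
      ∏ w ∈ S, psi w (Algebra.trace E B (x * τ y)) = 1) →
    ∀ w ∈ S, w.valuation E (Algebra.norm E x) ≤ exp (2 * (m w : ℤ) + 2 * (a : ℤ) + c₂) := by
  obtain ⟨c₁, hc₁⟩ := exists_supp_gen (B := B) S
  refine ⟨2 * c₁, fun τ hτ m a x hx w hw => ?_⟩
  have hgal : IsGalois E B := H73U.isGalois τ hτ hdeg
  have htt : τ * τ = 1 := H77.Z.aut_mul_self hdeg hτ
  have hinv : τ⁻¹ = τ := inv_eq_of_mul_eq_one_left htt
  have h0 := hc₁ τ (fun P => (below E P).asIdeal.ramificationIdx' P.asIdeal * m (below E P) + a)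
    x hx
  obtain ⟨P, hP⟩ := H47.above_nonempty (L := B) w
  have hPS : P ∈ aboveSet B (S : Set (HeightOneSpectrum (𝓞 E))) := ⟨w, hw, hP⟩
  have hP' : smulPlace τ P ∈ above B w := H47.smulPlace_mem_above τ hP
  have hPS' : smulPlace τ P ∈ aboveSet B (S : Set (HeightOneSpectrum (𝓞 E))) := ⟨w, hw, hP'⟩
  have hb : below E P = w := (H47.eq_below_of_mem_above hP).symm
  have hb' : below E (smulPlace τ P) = w := (H47.eq_below_of_mem_above hP').symm
  set e := w.asIdeal.ramificationIdx' P.asIdeal with he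
  have he0 : e ≠ 0 := H82.ramificationIdx'_ne_zero hP
  -- the two ramification indices agree
  have he' : w.asIdeal.ramificationIdx' (smulPlace τ P).asIdeal = e := by
    obtain ⟨t, ht⟩ := H36.Psi.exists_val_eq_exp w (-1)
    have h1 := H82.valuation_above hP (t : E)
    have h2 := H82.valuation_above hP' (t : E)
    have h3 : (smulPlace τ P).valuation B (algebraMap E B (t : E)) =
        P.valuation B (algebraMap E B (t : E)) := by
      have := H47.valuation_smulPlace τ P (algebraMap E B (t : E))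
      rwa [AlgEquiv.commutes] at this
    rw [h3, h1, ht, ← exp_nsmul, ← exp_nsmul, exp_inj] at h2
    simp only [nsmul_eq_mul] at h2
    have h4 : ((w.asIdeal.ramificationIdx' P.asIdeal : ℕ) : ℤ) =
        ((w.asIdeal.ramificationIdx' (smulPlace τ P).asIdeal : ℕ) : ℤ) := by linarith
    rw [he]
    exact_mod_cast h4.symm
  have h1 := h0 P hPS
  have h2 := h0 (smulPlace τ P) hPS'
  rw [hinv] at h1 h2
  have hss : smulPlace τ (smulPlace τ P) = P := by
    have := smulPlace_inv_smulPlace τ P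
    rwa [hinv] at this
  rw [hss] at h2
  simp only [hb, hb', he'] at h1 h2
  have h3 : P.valuation B (algebraMap E B (Algebra.norm E x)) ≤
      exp (2 * ((e * m w + a : ℕ) : ℤ) + 2 * c₁) := by
    rw [H77.Z.algebraMap_norm hdeg hτ, map_mul, valuation_aut, hinv]
    calc _ ≤ exp (((e * m w + a : ℕ) : ℤ) + c₁) * exp (((e * m w + a : ℕ) : ℤ) + c₁) :=
          mul_le_mul' h1 h2
      _ = _ := by rw [← exp_add]; congr 1; ring
  rw [H82.valuation_above hP, ← he] at h3
  by_cases h4 : w.valuation E (Algebra.norm E x) ≤ exp (2 * (m w : ℤ))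
  · refine h4.trans ?_
    rw [exp_le_exp]
    push_cast
    linarith [Int.natCast_nonneg a, Int.natCast_nonneg c₁]
  · push Not at h4
    have hne : w.valuation E (Algebra.norm E x) ≠ 0 := (lt_of_le_of_lt zero_le h4).ne'
    obtain ⟨g, hg⟩ : ∃ g : ℤ, w.valuation E (Algebra.norm E x) = exp g :=
      ⟨log (w.valuation E (Algebra.norm E x)), (exp_log hne).symm⟩
    rw [hg] at h3 h4 ⊢
    rw [exp_lt_exp] at h4
    rw [← exp_nsmul, exp_le_exp, nsmul_eq_mul] at h3
    rw [exp_le_exp]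
    push_cast at h3 ⊢
    have h5 : (1 : ℤ) ≤ e := by exact_mod_cast Nat.one_le_iff_ne_zero.mpr he0
    nlinarith [Int.natCast_nonneg a, Int.natCast_nonneg c₁, Int.natCast_nonneg (m w)]

end Fermat.Agent.H53Z
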