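import Fermat.Agent.H73U1

/-!
# Lattice sums over number fields (packages N1, N2, N3 of D4-AN, S47)
-/

set_option autoImplicit false

open NumberField NumberField.InfinitePlace Module

namespace Fermat.Agent.H73U

section Pi

theorem summable_pi_fin (f : ℤ → ℝ) (hf0 : ∀ k, 0 ≤ f k) (hf : Summable f) (d : ℕ) :
    Summable (fun n : Fin d → ℤ => ∏ i, f (n i)) ∧
      ∑' n : Fin d → ℤ, ∏ i, f (n i) = (∑' k, f k) ^ d := by
  induction d with
  | zero =>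
    refine ⟨Summable.of_finite, ?_⟩
    simp
  | succ d ih =>
    let E : ℤ × (Fin d → ℤ) ≃ (Fin (d + 1) → ℤ) := Fin.consEquiv (fun _ => ℤ)
    have hE : ∀ p : ℤ × (Fin d → ℤ), ∏ i, f (E p i) = f p.1 * ∏ i, f (p.2 i) := by
      intro p
      rw [Fin.prod_univ_succ]
      rfl
    have hs : Summable (fun p : ℤ × (Fin d → ℤ) => f p.1 * ∏ i, f (p.2 i)) :=
      hf.mul_of_nonneg ih.1 hf0 (fun n => Finset.prod_nonneg fun i _ => hf0 _)
    refine ⟨?_, ?_⟩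
    · rw [← E.summable_iff]
      exact hs.congr fun p => (hE p).symm
    · rw [← E.tsum_eq]
      calc ∑' p, ∏ i, f (E p i) = ∑' p : ℤ × (Fin d → ℤ), f p.1 * ∏ i, f (p.2 i) :=
            tsum_congr hE
        _ = (∑' k, f k) * ∑' n : Fin d → ℤ, ∏ i, f (n i) :=
            (hf.tsum_mul_tsum ih.1 hs).symm
        _ = (∑' k, f k) ^ (d + 1) := by rw [ih.2, pow_succ, mul_comm]

theorem summable_pi {ι : Type*} [Fintype ι] (f : ℤ → ℝ) (hf0 : ∀ k, 0 ≤ f k) (hf : Summable f) :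
    Summable (fun n : ι → ℤ => ∏ i, f (n i)) ∧
      ∑' n : ι → ℤ, ∏ i, f (n i) = (∑' k, f k) ^ Fintype.card ι := by
  let e := Fintype.equivFin ι
  let E : (ι → ℤ) ≃ (Fin (Fintype.card ι) → ℤ) := e.arrowCongr (Equiv.refl ℤ)
  obtain ⟨h1, h2⟩ := summable_pi_fin f hf0 hf (Fintype.card ι)
  have hE : ∀ n : ι → ℤ, ∏ i, f (E n i) = ∏ i, f (n i) := by
    intro n
    exact Equiv.prod_comp e.symm (fun i => f (n i))
  refine ⟨?_, ?_⟩
  · exact ((E.summable_iff).2 h1).congr fun n => hE n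
  · rw [← h2, ← E.tsum_eq]
    exact tsum_congr fun n => (hE n).symm

theorem summable_exp_abs (a : ℝ) (ha : 0 < a) :
    Summable (fun k : ℤ => Real.exp (-(a * |(k : ℝ)|))) ∧
      ∑' k : ℤ, Real.exp (-(a * |(k : ℝ)|)) ≤ 1 + 2 / a := by
  set q := Real.exp (-a) with hq
  have hq0 : 0 < q := Real.exp_pos _
  have hq1 : q < 1 := by rw [hq, Real.exp_lt_one_iff]; linarith
  have hgeo := hasSum_geometric_of_lt_one hq0.le hq1
  have h1 : HasSum (fun n : ℕ => Real.exp (-(a * |(((n : ℕ) : ℤ) : ℝ)|))) (1 - q)⁻¹ := by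
    have h : (fun n : ℕ => Real.exp (-(a * |(((n : ℕ) : ℤ) : ℝ)|))) = fun n : ℕ => q ^ n := by
      funext n
      rw [hq, ← Real.exp_nat_mul]
      congr 1
      rw [Int.cast_natCast, Nat.abs_cast]; ring
    rw [h]; exact hgeo
  have h2 : HasSum (fun n : ℕ => Real.exp (-(a * |((-((n : ℤ) + 1) : ℤ) : ℝ)|)))
      (q * (1 - q)⁻¹) := by
    have h : (fun n : ℕ => Real.exp (-(a * |((-((n : ℤ) + 1) : ℤ) : ℝ)|))) =
        fun n : ℕ => q * q ^ n := by
      funext n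
      rw [← pow_succ', hq, ← Real.exp_nat_mul]
      congr 1
      have : |((-((n : ℤ) + 1) : ℤ) : ℝ)| = (n : ℝ) + 1 := by
        push_cast
        rw [abs_neg, abs_of_nonneg (by positivity)]
      rw [this]; push_cast; ring
    rw [h]; exact hgeo.mul_left q
  have h3 := HasSum.of_nat_of_neg_add_one (f := fun k : ℤ => Real.exp (-(a * |(k : ℝ)|))) h1 h2
  refine ⟨h3.summable, ?_⟩
  rw [h3.tsum_eq]
  have h4 : q * (1 + a) ≤ 1 := by
    have h5 : 1 + a ≤ Real.exp a := by linarith [Real.add_one_le_exp a]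
    calc q * (1 + a) ≤ q * Real.exp a := mul_le_mul_of_nonneg_left h5 hq0.le
      _ = 1 := by rw [hq, ← Real.exp_add]; simp
  have h6 : 0 < 1 - q := by linarith
  have h7 : (1 - q)⁻¹ + q * (1 - q)⁻¹ = 1 + 2 * (q * (1 - q)⁻¹) := by
    field_simp; ring
  rw [h7]
  have h8 : q * (1 - q)⁻¹ ≤ 1 / a := by
    rw [← div_eq_mul_inv, div_le_div_iff₀ h6 ha]
    nlinarith
  calc 1 + 2 * (q * (1 - q)⁻¹) ≤ 1 + 2 * (1 / a) := by linarith
    _ = 1 + 2 / a := by ring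

end Pi

section Field

variable {K : Type*} [Field K] [NumberField K]

/-- coordinates in an integral basis are bounded by the absolute values of the embeddings -/
theorem exists_coord_bound (K : Type*) [Field K] [NumberField K] :
    ∃ C : ℝ, 0 < C ∧ ∀ (y : 𝓞 K) (i : Free.ChooseBasisIndex ℤ (𝓞 K)) (T : ℝ),
      (∀ φ : K →+* ℂ, ‖φ (y : K)‖ ≤ T) →
      |((RingOfIntegers.basis K).repr y i : ℝ)| ≤ C * T := by
  let L := (canonicalEmbedding.latticeBasis K).equivFun.toContinuousLinearEquiv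
  refine ⟨‖(L : ((K →+* ℂ) → ℂ) →L[ℂ] (Free.ChooseBasisIndex ℤ (𝓞 K) → ℂ))‖ + 1, by positivity,
    fun y i T hT => ?_⟩
  have hT0 : 0 ≤ T := (norm_nonneg _).trans (hT (Classical.arbitrary _))
  have h1 : ‖canonicalEmbedding K (y : K)‖ ≤ T := (canonicalEmbedding.norm_le_iff _ _).2 hT
  have h2 : (canonicalEmbedding.latticeBasis K).repr (canonicalEmbedding K (y : K)) i =
      (((RingOfIntegers.basis K).repr y i : ℤ) : ℂ) := by
    rw [canonicalEmbedding.integralBasis_repr_apply]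
    have := integralBasis_repr_apply K y i
    rw [this]
    simp
  have h3 : ‖(((RingOfIntegers.basis K).repr y i : ℤ) : ℂ)‖ ≤
      ‖(L : ((K →+* ℂ) → ℂ) →L[ℂ] (Free.ChooseBasisIndex ℤ (𝓞 K) → ℂ))‖ * T := by
    rw [← h2]
    calc _ ≤ ‖L (canonicalEmbedding K (y : K))‖ :=
          norm_le_pi_norm (L (canonicalEmbedding K (y : K))) i
      _ ≤ ‖(L : ((K →+* ℂ) → ℂ) →L[ℂ] (Free.ChooseBasisIndex ℤ (𝓞 K) → ℂ))‖ *
          ‖canonicalEmbedding K (y : K)‖ :=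
          (L : ((K →+* ℂ) → ℂ) →L[ℂ] (Free.ChooseBasisIndex ℤ (𝓞 K) → ℂ)).le_opNorm _
      _ ≤ _ := mul_le_mul_of_nonneg_left h1 (ContinuousLinearMap.opNorm_nonneg _)
  rw [Complex.norm_intCast] at h3
  calc _ ≤ _ := h3
    _ ≤ _ := mul_le_mul_of_nonneg_right (by linarith) hT0

/-- **main lemma**: summation of exponentials over the lattice `m⁻¹ 𝓞 K` -/
theorem exists_sum_bound (m : ℤ) (hm : m ≠ 0) :
    ∃ c : ℝ, 0 < c ∧ ∀ (T : K → ℝ),
      (∀ x : K, IsIntegral ℤ ((m : K) * x) → ∀ φ : K →+* ℂ, ‖φ x‖ ≤ T x) → ∀ δ : ℝ, 0 < δ →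
      Summable (fun x : {x : K // IsIntegral ℤ ((m : K) * x)} => Real.exp (-(δ * T x))) ∧
      ∑' x : {x : K // IsIntegral ℤ ((m : K) * x)}, Real.exp (-(δ * T x)) ≤
        (1 + 2 / (δ * c)) ^ Fintype.card (Free.ChooseBasisIndex ℤ (𝓞 K)) := by
  classical
  obtain ⟨C, hC, hcoord⟩ := exists_coord_bound K
  set ι := Free.ChooseBasisIndex ℤ (𝓞 K)
  set d : ℝ := (Fintype.card ι : ℝ) with hd
  have hmR : 0 < |(m : ℝ)| := by simpa using hm
  set c : ℝ := 1 / (d * (C * |(m : ℝ)|) + 1) with hc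
  have hden : 0 < d * (C * |(m : ℝ)|) + 1 := by positivity
  have hc0 : 0 < c := by positivity
  refine ⟨c, hc0, fun T hT δ hδ => ?_⟩
  let κ : {x : K // IsIntegral ℤ ((m : K) * x)} → (ι → ℤ) := fun x i =>
    (RingOfIntegers.basis K).repr (⟨(m : K) * x, x.2⟩ : 𝓞 K) i
  have hκ : Function.Injective κ := by
    intro x y hxy
    have h1 : (⟨(m : K) * x, x.2⟩ : 𝓞 K) = ⟨(m : K) * y, y.2⟩ := by
      apply (RingOfIntegers.basis K).repr.injective
      ext i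
      exact congrFun hxy i
    have h2 : (m : K) * x = (m : K) * y := congrArg (fun z : 𝓞 K => (z : K)) h1
    exact Subtype.ext (mul_left_cancel₀ (by exact_mod_cast hm) h2)
  have hT0 : ∀ x : {x : K // IsIntegral ℤ ((m : K) * x)}, 0 ≤ T x := fun x =>
    (norm_nonneg _).trans (hT x x.2 (Classical.arbitrary _))
  have hle : ∀ x : {x : K // IsIntegral ℤ ((m : K) * x)},
      c * ∑ i, |(κ x i : ℝ)| ≤ T x := by
    intro x
    have h1 : ∀ i, |(κ x i : ℝ)| ≤ C * (|(m : ℝ)| * T x) := by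
      intro i
      refine hcoord ⟨(m : K) * x, x.2⟩ i _ fun φ => ?_
      show ‖φ ((m : K) * x)‖ ≤ _
      rw [map_mul, norm_mul, map_intCast, Complex.norm_intCast]
      exact mul_le_mul_of_nonneg_left (hT x x.2 φ) (abs_nonneg _)
    have h2 : ∑ i, |(κ x i : ℝ)| ≤ d * (C * (|(m : ℝ)| * T x)) := by
      calc _ ≤ ∑ i : ι, C * (|(m : ℝ)| * T x) := Finset.sum_le_sum fun i _ => h1 i
        _ = _ := by rw [Finset.sum_const, nsmul_eq_mul, hd]; rfl
    rw [hc, one_div, inv_mul_le_iff₀ hden]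
    nlinarith [hT0 x]
  obtain ⟨hs1, hs2⟩ := summable_exp_abs (δ * c) (mul_pos hδ hc0)
  obtain ⟨hp1, hp2⟩ := summable_pi (ι := ι) (fun k : ℤ => Real.exp (-(δ * c * |(k : ℝ)|)))
    (fun k => (Real.exp_pos _).le) hs1
  have hprod0 : ∀ n : ι → ℤ, 0 ≤ ∏ i, Real.exp (-(δ * c * |(n i : ℝ)|)) := fun n =>
    Finset.prod_nonneg fun i _ => (Real.exp_pos _).le
  have hterm : ∀ x : {x : K // IsIntegral ℤ ((m : K) * x)},
      Real.exp (-(δ * T x)) ≤ ∏ i, Real.exp (-(δ * c * |(κ x i : ℝ)|)) := by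
    intro x
    rw [← Real.exp_sum]
    apply Real.exp_le_exp.2
    rw [Finset.sum_neg_distrib, neg_le_neg_iff, ← Finset.mul_sum, mul_assoc]
    exact mul_le_mul_of_nonneg_left (hle x) hδ.le
  have hcomp : Summable (fun x => ∏ i, Real.exp (-(δ * c * |(κ x i : ℝ)|))) :=
    hp1.comp_injective hκ
  have hsum := hcomp.of_nonneg_of_le (fun x => (Real.exp_pos _).le) hterm
  refine ⟨hsum, ?_⟩
  calc _ ≤ ∑' x, ∏ i, Real.exp (-(δ * c * |(κ x i : ℝ)|)) := hsum.tsum_le_tsum hterm hcomp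
    _ ≤ ∑' n : ι → ℤ, ∏ i, Real.exp (-(δ * c * |(n i : ℝ)|)) :=
        tsum_comp_le_tsum_of_inj hp1 hprod0 hκ
    _ = (∑' k : ℤ, Real.exp (-(δ * c * |(k : ℝ)|))) ^ Fintype.card ι := hp2
    _ ≤ _ := pow_le_pow_left₀ (tsum_nonneg fun _ => (Real.exp_pos _).le) hs2 _

/-- summability of a function supported on `m⁻¹ 𝓞 K` -/
theorem summable_of_lattice {m : ℤ} {g : K → ℝ} (hg : ∀ x, g x ≠ 0 → IsIntegral ℤ ((m : K) * x))
    (h : Summable (fun x : {x : K // IsIntegral ℤ ((m : K) * x)} => g x)) : Summable g :=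
  (Function.Injective.summable_iff Subtype.val_injective fun x hx => by
    by_contra hne
    exact hx ⟨⟨x, hg x hne⟩, rfl⟩).1 h

theorem tsum_of_lattice {m : ℤ} {g : K → ℝ} (hg : ∀ x, g x ≠ 0 → IsIntegral ℤ ((m : K) * x)) :
    ∑' x, g x = ∑' x : {x : K // IsIntegral ℤ ((m : K) * x)}, g x :=
  (Function.Injective.tsum_eq Subtype.val_injective fun x hx => ⟨⟨x, hg x hx⟩, rfl⟩).symm

/-- a nonzero element of `m⁻¹ 𝓞 K` is not small at all places -/
theorem exists_one_le_norm {m : ℤ} (hm : m ≠ 0) {x : K} (hx : x ≠ 0)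
    (h : IsIntegral ℤ ((m : K) * x)) : ∃ φ : K →+* ℂ, 1 / |(m : ℝ)| ≤ ‖φ x‖ := by
  by_contra hcon
  push Not at hcon
  have hm' : (m : K) ≠ 0 := by exact_mod_cast hm
  have hmR : 0 < |(m : ℝ)| := by simpa using hm
  have h1 : ∀ w : InfinitePlace K, w ((m : K) * x) < 1 := by
    intro w
    rw [← mk_embedding w, InfinitePlace.apply, map_mul, norm_mul, map_intCast,
      Complex.norm_intCast]
    calc |(m : ℝ)| * ‖w.embedding x‖ < |(m : ℝ)| * (1 / |(m : ℝ)|) :=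
          mul_lt_mul_of_pos_left (hcon _) hmR
      _ = 1 := by field_simp
  have h2 : |Algebra.norm ℚ ((m : K) * x)| < 1 := by
    rw [← Rat.cast_lt (K := ℝ), ← prod_eq_abs_norm]
    have : ∏ w : InfinitePlace K, w ((m : K) * x) ^ w.mult < ∏ w : InfinitePlace K, (1 : ℝ) := by
      apply Finset.prod_lt_prod_of_nonempty
      · intro w _
        exact pow_pos (pos_iff.2 (mul_ne_zero hm' hx)) _
      · intro w _
        exact pow_lt_one₀ (apply_nonneg _ _) (h1 w) mult_ne_zero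
      · exact Finset.univ_nonempty
    simpa using this
  have h3 : IsIntegral ℤ (Algebra.norm ℚ ((m : K) * x)) := Algebra.isIntegral_norm ℚ h
  obtain ⟨n, hn⟩ := IsIntegrallyClosed.isIntegral_iff.1 h3
  have hn0 : n ≠ 0 := by
    rintro rfl
    have : Algebra.norm ℚ ((m : K) * x) = 0 := by rw [← hn]; simp
    exact mul_ne_zero hm' hx ((Algebra.norm_eq_zero_iff).1 this)
  rw [← hn] at h2
  have h4 : (1 : ℚ) ≤ |(algebraMap ℤ ℚ n)| := by
    rw [eq_intCast, ← Int.cast_abs]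
    exact_mod_cast Int.one_le_abs hn0
  linarith

end Field

section Pow

/-- `t^n e^{-εt} ≤ n! (2/ε)^n e^{-εt/2}` -/
theorem pow_mul_exp_le (n : ℕ) {ε t : ℝ} (hε : 0 < ε) (ht : 0 ≤ t) :
    t ^ n * Real.exp (-(ε * t)) ≤ n.factorial * (2 / ε) ^ n * Real.exp (-(ε / 2 * t)) := by
  have h1 : (ε / 2 * t) ^ n / n.factorial ≤ Real.exp (ε / 2 * t) :=
    Real.pow_div_factorial_le_exp _ (by positivity) n
  have h2 : t ^ n ≤ n.factorial * (2 / ε) ^ n * Real.exp (ε / 2 * t) := by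
    have h3 : (2 / ε) ^ n * (ε / 2 * t) ^ n = t ^ n := by
      rw [← mul_pow]; congr 1; field_simp
    have hf : (0 : ℝ) < n.factorial := by exact_mod_cast n.factorial_pos
    rw [div_le_iff₀ hf] at h1
    calc t ^ n = (2 / ε) ^ n * (ε / 2 * t) ^ n := h3.symm
      _ ≤ (2 / ε) ^ n * (Real.exp (ε / 2 * t) * n.factorial) :=
          mul_le_mul_of_nonneg_left h1 (by positivity)
      _ = _ := by ring
  calc t ^ n * Real.exp (-(ε * t))
      ≤ (n.factorial * (2 / ε) ^ n * Real.exp (ε / 2 * t)) * Real.exp (-(ε * t)) :=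
        mul_le_mul_of_nonneg_right h2 (Real.exp_pos _).le
    _ = _ := by
        rw [mul_assoc, ← Real.exp_add]
        congr 2
        ring

end Pow

section N1

variable {E B : Type*} [Field E] [NumberField E] [Field B] [NumberField B] [Algebra E B]
  {J : Type*} [Fintype J] (e : J → (E →+* ℂ)) (b : J → (B →+* ℂ)) (τ : B ≃ₐ[E] B)
  (hb : ∀ j, (b j).comp (algebraMap E B) = e j)
  (he : Function.Bijective fun j => InfinitePlace.mk (e j))

include hb he in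
theorem norm_le_sum_B (hτ : τ ≠ 1) (h2 : Module.finrank E B = 2) (φ : B →+* ℂ) (x : B) :
    ∃ j, ‖φ x‖ = ‖b j x‖ ∨ ‖φ x‖ = ‖b j (τ x)‖ := by
  obtain ⟨j, h | h⟩ := place_cases e b τ hb he hτ h2 (mk φ)
  · exact ⟨j, Or.inl (by rw [← InfinitePlace.apply φ, h, InfinitePlace.apply])⟩
  · exact ⟨j, Or.inr (by rw [← InfinitePlace.apply φ, h, InfinitePlace.apply]; rfl)⟩

include hb he in
theorem norm_le_sumB (hτ : τ ≠ 1) (h2 : Module.finrank E B = 2) (φ : B →+* ℂ) (x : B) :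
    ‖φ x‖ ≤ ∑ j, (‖b j x‖ + ‖b j (τ x)‖) := by
  obtain ⟨j, h⟩ := norm_le_sum_B e b τ hb he hτ h2 φ x
  have h1 : ‖b j x‖ + ‖b j (τ x)‖ ≤ ∑ j, (‖b j x‖ + ‖b j (τ x)‖) :=
    Finset.single_le_sum (f := fun j => ‖b j x‖ + ‖b j (τ x)‖) (fun j _ => by positivity)
      (Finset.mem_univ j)
  rcases h with h | h <;> rw [h] <;> linarith [norm_nonneg (b j x), norm_nonneg (b j (τ x))]

include hb he in
/-- **(N1)** -/
theorem summable_gauss (hτ : τ ≠ 1) (h2 : Module.finrank E B = 2)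
    (φ : B → ℂ) (M : ℝ) (m : ℤ) (hm : m ≠ 0)
    (hφ : ∀ x, φ x ≠ 0 → IsIntegral ℤ ((m : B) * x)) (hM : ∀ x, ‖φ x‖ ≤ M) (ε : ℝ) (hε : 0 < ε) :
    Summable fun x : B => ‖φ x‖ * Real.exp (-ε * ∑ j, (‖b j x‖ ^ 2 + ‖b j (τ x)‖ ^ 2)) := by
  obtain ⟨c, hc, h⟩ := exists_sum_bound (K := B) m hm
  have hs := (h (fun x => ∑ j, (‖b j x‖ + ‖b j (τ x)‖))
    (fun x _ φ => norm_le_sumB e b τ hb he hτ h2 φ x) ε hε).1
  have hM0 : 0 ≤ M := (norm_nonneg _).trans (hM 0)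
  apply summable_of_lattice (m := m)
  · intro x hx
    apply hφ
    intro h0
    apply hx
    rw [h0]; simp
  · refine Summable.of_nonneg_of_le (fun x => by positivity) (fun x => ?_)
      (hs.mul_left (M * Real.exp (ε * (2 * Fintype.card J))))
    have h1 : ∑ j, (‖b j (x : B)‖ + ‖b j (τ x)‖) - 2 * Fintype.card J ≤
        ∑ j, (‖b j (x : B)‖ ^ 2 + ‖b j (τ x)‖ ^ 2) := by
      have : (2 * Fintype.card J : ℝ) = ∑ _j : J, (2 : ℝ) := by
        rw [Finset.sum_const, nsmul_eq_mul, Finset.card_univ]; ring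
      rw [this, ← Finset.sum_sub_distrib]
      refine Finset.sum_le_sum fun j _ => ?_
      nlinarith [sq_nonneg (‖b j (x : B)‖ - 1), sq_nonneg (‖b j (τ x)‖ - 1),
        norm_nonneg (b j (x : B)), norm_nonneg (b j (τ x)), sq_nonneg (‖b j (x : B)‖ - 1 / 2),
        sq_nonneg (‖b j (τ x)‖ - 1 / 2)]
    calc ‖φ x‖ * Real.exp (-ε * ∑ j, (‖b j (x : B)‖ ^ 2 + ‖b j (τ x)‖ ^ 2))
        ≤ M * Real.exp (ε * (2 * Fintype.card J) -
            (ε * ∑ j, (‖b j (x : B)‖ + ‖b j (τ x)‖))) := by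
          refine mul_le_mul (hM x) (Real.exp_le_exp.2 ?_) (Real.exp_pos _).le hM0
          nlinarith
      _ = _ := by
          rw [sub_eq_add_neg, Real.exp_add]; ring

include hb he in
/-- **(N3)** discreteness for `B` -/
theorem le_sum_sq (hτ : τ ≠ 1) (h2 : Module.finrank E B = 2) {m : ℤ} (hm : m ≠ 0) {x : B}
    (hx : x ≠ 0) (h : IsIntegral ℤ ((m : B) * x)) :
    (1 / |(m : ℝ)|) ^ 2 ≤ ∑ j, (‖b j x‖ ^ 2 + ‖b j (τ x)‖ ^ 2) := by
  obtain ⟨φ, hφ⟩ := exists_one_le_norm hm hx h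
  obtain ⟨j, hj⟩ := norm_le_sum_B e b τ hb he hτ h2 φ x
  have h1 : ‖b j x‖ ^ 2 + ‖b j (τ x)‖ ^ 2 ≤ ∑ j, (‖b j x‖ ^ 2 + ‖b j (τ x)‖ ^ 2) :=
    Finset.single_le_sum (f := fun j => ‖b j x‖ ^ 2 + ‖b j (τ x)‖ ^ 2) (fun j _ => by positivity)
      (Finset.mem_univ j)
  have h3 : (1 / |(m : ℝ)|) ^ 2 ≤ ‖φ x‖ ^ 2 := pow_le_pow_left₀ (by positivity) hφ 2
  rcases hj with hj | hj <;> rw [hj] at h3 <;>
    linarith [sq_nonneg ‖b j x‖, sq_nonneg ‖b j (τ x)‖]

theorem b_ne_zero {x : B} (hx : x ≠ 0) (j : J) : b j x ≠ 0 ∧ b j (τ x) ≠ 0 := by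
  refine ⟨by simpa using hx, by simpa using hx⟩

end N1

section N2

variable {E : Type*} [Field E] [NumberField E]
  {J : Type*} [Fintype J] (e : J → (E →+* ℂ))
  (he : Function.Bijective fun j => InfinitePlace.mk (e j))

include he in
theorem norm_eq_E (φ : E →+* ℂ) (x : E) : ∃ j, ‖φ x‖ = ‖e j x‖ := by
  obtain ⟨j, hj⟩ := he.2 (mk φ)
  refine ⟨j, ?_⟩
  rw [← InfinitePlace.apply φ, ← hj, InfinitePlace.apply]

include he in
theorem norm_le_sumE (φ : E →+* ℂ) (x : E) : ‖φ x‖ ≤ ∑ j, ‖e j x‖ := by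
  obtain ⟨j, hj⟩ := norm_eq_E e he φ x
  rw [hj]
  exact Finset.single_le_sum (f := fun j => ‖e j x‖) (fun j _ => norm_nonneg _)
    (Finset.mem_univ j)

include he in
theorem le_sumE {m : ℤ} (hm : m ≠ 0) {x : E} (hx : x ≠ 0) (h : IsIntegral ℤ ((m : E) * x)) :
    1 / |(m : ℝ)| ≤ ∑ j, ‖e j x‖ := by
  obtain ⟨φ, hφ⟩ := exists_one_le_norm hm hx h
  exact hφ.trans (norm_le_sumE e he φ x)

include he in
theorem abs_norm_eq_prod [IsTotallyComplex E] (x : E) :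
    (|Algebra.norm ℚ x| : ℝ) = (∏ j, ‖e j x‖) ^ 2 := by
  rw [← Rat.cast_abs, ← prod_eq_abs_norm]
  simp only [IsTotallyComplex.mult_eq]
  rw [Finset.prod_pow]
  congr 1
  rw [← he.prod_comp (fun w : InfinitePlace E => w x)]
  rfl

theorem one_le_norm_mul {m : ℤ} (hm : m ≠ 0) {x : E} (hx : x ≠ 0)
    (h : IsIntegral ℤ ((m : E) * x)) :
    1 ≤ |(m : ℝ)| ^ Module.finrank ℚ E * (|Algebra.norm ℚ x| : ℝ) := by
  have hm' : (m : E) ≠ 0 := by exact_mod_cast hm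
  have h3 : IsIntegral ℤ (Algebra.norm ℚ ((m : E) * x)) := Algebra.isIntegral_norm ℚ h
  obtain ⟨n, hn⟩ := IsIntegrallyClosed.isIntegral_iff.1 h3
  have hn0 : n ≠ 0 := by
    rintro rfl
    have : Algebra.norm ℚ ((m : E) * x) = 0 := by rw [← hn]; simp
    exact mul_ne_zero hm' hx ((Algebra.norm_eq_zero_iff).1 this)
  have h4 : (1 : ℚ) ≤ |Algebra.norm ℚ ((m : E) * x)| := by
    rw [← hn, eq_intCast, ← Int.cast_abs]
    exact_mod_cast Int.one_le_abs hn0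
  have h5 : Algebra.norm ℚ (m : E) = (m : ℚ) ^ Module.finrank ℚ E := by
    have := Algebra.norm_algebraMap (R := ℚ) (S := E) (m : ℚ)
    simpa using this
  rw [map_mul, h5, abs_mul, abs_pow] at h4
  have h6 : ((1 : ℚ) : ℝ) ≤ ((|(m : ℚ)| ^ Module.finrank ℚ E * |Algebra.norm ℚ x| : ℚ) : ℝ) :=
    Rat.cast_le.2 h4
  simpa using h6

include he in
/-- **(N2)** -/
theorem exists_series_bound [IsTotallyComplex E] (a : E → ℂ) (h0 : a 0 = 0) (m : ℤ) (hm : m ≠ 0)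
    (ha : ∀ x, a x ≠ 0 → IsIntegral ℤ ((m : E) * x)) (C : ℝ) (k : ℕ)
    (hk : ∀ x, ‖a x‖ ≤ C * (|Algebra.norm ℚ x| : ℝ) ^ k) :
    ∃ A D : ℝ, 0 ≤ A ∧ ∀ ε, 0 < ε → ε ≤ 1 →
      Summable (fun x : E => ‖a x‖ * (∏ j, ‖e j x‖⁻¹) * Real.exp (-ε * ∑ j, ‖e j x‖)) ∧
      ∑' x : E, ‖a x‖ * (∏ j, ‖e j x‖⁻¹) * Real.exp (-ε * ∑ j, ‖e j x‖) ≤ D * ε ^ (-A) := by
  classical
  obtain ⟨c, hc, hsum⟩ := exists_sum_bound (K := E) m hm
  set d := Module.finrank ℚ E
  set dι := Fintype.card (Free.ChooseBasisIndex ℤ (𝓞 E))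
  set n : ℕ := Fintype.card J * (2 * k)
  have hmR : 0 < |(m : ℝ)| := by simpa using hm
  have hm1 : 1 ≤ |(m : ℝ)| := by
    rw [← Int.cast_abs]; exact_mod_cast Int.one_le_abs hm
  set W : ℝ := |C| * |(m : ℝ)| ^ d with hW
  have hW0 : 0 ≤ W := by positivity
  refine ⟨(n + dι : ℕ), W * (n.factorial * 2 ^ n) * (1 + 4 / c) ^ dι, by positivity,
    fun ε hε hε1 => ?_⟩
  -- termwise bound
  have hterm : ∀ x : {x : E // IsIntegral ℤ ((m : E) * x)},
      ‖a x‖ * (∏ j, ‖e j (x : E)‖⁻¹) * Real.exp (-ε * ∑ j, ‖e j (x : E)‖) ≤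
      (W * (n.factorial * (2 / ε) ^ n)) * Real.exp (-(ε / 2 * ∑ j, ‖e j (x : E)‖)) := by
    rintro ⟨x, hx⟩
    show ‖a x‖ * (∏ j, ‖e j x‖⁻¹) * Real.exp (-ε * ∑ j, ‖e j x‖) ≤
      (W * (n.factorial * (2 / ε) ^ n)) * Real.exp (-(ε / 2 * ∑ j, ‖e j x‖))
    by_cases hx0 : x = 0
    · rw [hx0, h0, norm_zero, zero_mul, zero_mul]; positivity
    set T := ∑ j, ‖e j x‖ with hT
    have hT0 : 0 ≤ T := Finset.sum_nonneg fun j _ => norm_nonneg _
    set P := ∏ j, ‖e j x‖ with hP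
    have hPpos : 0 < P := Finset.prod_pos fun j _ => by simpa using hx0
    have hPT : P ≤ T ^ Fintype.card J := by
      calc P ≤ ∏ _j : J, T := Finset.prod_le_prod (fun j _ => norm_nonneg _) fun j _ =>
            Finset.single_le_sum (f := fun j => ‖e j x‖) (fun j _ => norm_nonneg _)
              (Finset.mem_univ j)
        _ = T ^ Fintype.card J := by rw [Finset.prod_const, Finset.card_univ]
    have hN := abs_norm_eq_prod e he x
    have hN1 : 1 ≤ |(m : ℝ)| ^ d * P ^ 2 := by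
      have := one_le_norm_mul hm hx0 hx
      rwa [hN] at this
    have hPinv : (∏ j, ‖e j x‖⁻¹) ≤ |(m : ℝ)| ^ d := by
      rw [Finset.prod_inv_distrib, ← hP]
      rw [inv_le_iff_one_le_mul₀ hPpos]
      have h5 : 1 ≤ |(m : ℝ)| ^ d := one_le_pow₀ hm1
      by_contra hlt
      push Not at hlt
      have h6 : (|(m : ℝ)| ^ d * P) * (|(m : ℝ)| ^ d * P) < 1 := by
        calc _ ≤ (|(m : ℝ)| ^ d * P) * 1 :=
              mul_le_mul_of_nonneg_left hlt.le (by positivity)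
          _ < 1 := by rw [mul_one]; exact hlt
      have h7 : |(m : ℝ)| ^ d * P ^ 2 ≤ (|(m : ℝ)| ^ d * P) * (|(m : ℝ)| ^ d * P) := by
        have : (|(m : ℝ)| ^ d * P) * (|(m : ℝ)| ^ d * P) =
          |(m : ℝ)| ^ d * (|(m : ℝ)| ^ d * P ^ 2) := by ring
        rw [this]
        exact le_mul_of_one_le_left (by positivity) h5
      linarith
    have ha1 : ‖a x‖ ≤ |C| * T ^ n := by
      calc ‖a x‖ ≤ C * (|Algebra.norm ℚ x| : ℝ) ^ k := hk x
        _ ≤ |C| * (|Algebra.norm ℚ x| : ℝ) ^ k :=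
            mul_le_mul_of_nonneg_right (le_abs_self C) (by positivity)
        _ = |C| * P ^ (2 * k) := by rw [hN, ← pow_mul]
        _ ≤ |C| * (T ^ Fintype.card J) ^ (2 * k) :=
            mul_le_mul_of_nonneg_left (pow_le_pow_left₀ hPpos.le hPT _) (abs_nonneg _)
        _ = |C| * T ^ n := by rw [← pow_mul]
    calc ‖a x‖ * (∏ j, ‖e j x‖⁻¹) * Real.exp (-ε * T)
        ≤ (|C| * T ^ n) * |(m : ℝ)| ^ d * Real.exp (-ε * T) := by
          refine mul_le_mul_of_nonneg_right ?_ (Real.exp_pos _).le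
          exact mul_le_mul ha1 hPinv (Finset.prod_nonneg fun j _ => by positivity) (by positivity)
      _ = W * (T ^ n * Real.exp (-(ε * T))) := by rw [hW, neg_mul]; ring
      _ ≤ W * (n.factorial * (2 / ε) ^ n * Real.exp (-(ε / 2 * T))) :=
          mul_le_mul_of_nonneg_left (pow_mul_exp_le n hε hT0) hW0
      _ = _ := by ring
  obtain ⟨hs1, hs2⟩ := hsum (fun x => ∑ j, ‖e j x‖) (fun x _ φ => norm_le_sumE e he φ x)
    (ε / 2) (by positivity)
  have hsup : ∀ x : E, ‖a x‖ * (∏ j, ‖e j x‖⁻¹) * Real.exp (-ε * ∑ j, ‖e j x‖) ≠ 0 →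
      IsIntegral ℤ ((m : E) * x) := by
    intro x hx
    apply ha
    intro h
    apply hx
    rw [h]; simp
  have hs3 : Summable (fun x : {x : E // IsIntegral ℤ ((m : E) * x)} =>
      ‖a x‖ * (∏ j, ‖e j (x : E)‖⁻¹) * Real.exp (-ε * ∑ j, ‖e j (x : E)‖)) :=
    Summable.of_nonneg_of_le (fun x => mul_nonneg (mul_nonneg (norm_nonneg _)
      (Finset.prod_nonneg fun j _ => by positivity)) (Real.exp_pos _).le) hterm
      (hs1.mul_left _)
  refine ⟨summable_of_lattice hsup hs3, ?_⟩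
  rw [tsum_of_lattice hsup]
  have hfin : (1 + 2 / (ε / 2 * c)) ^ dι ≤ (1 + 4 / c) ^ dι * (1 / ε) ^ dι := by
    rw [← mul_pow]
    refine pow_le_pow_left₀ (by positivity) ?_ _
    have h1 : 2 / (ε / 2 * c) = 4 / c * (1 / ε) := by field_simp; ring
    rw [h1, add_mul]
    have h2 : 1 ≤ 1 * (1 / ε) := by rw [one_mul, le_div_iff₀ hε]; linarith
    linarith
  calc _ ≤ ∑' x : {x : E // IsIntegral ℤ ((m : E) * x)},
        (W * (n.factorial * (2 / ε) ^ n)) * Real.exp (-(ε / 2 * ∑ j, ‖e j (x : E)‖)) :=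
        hs3.tsum_le_tsum hterm (hs1.mul_left _)
    _ = (W * (n.factorial * (2 / ε) ^ n)) * ∑' x : {x : E // IsIntegral ℤ ((m : E) * x)},
        Real.exp (-(ε / 2 * ∑ j, ‖e j (x : E)‖)) := tsum_mul_left
    _ ≤ (W * (n.factorial * (2 / ε) ^ n)) * ((1 + 4 / c) ^ dι * (1 / ε) ^ dι) :=
        mul_le_mul_of_nonneg_left (hs2.trans hfin) (by positivity)
    _ = W * (n.factorial * 2 ^ n) * (1 + 4 / c) ^ dι * ε ^ (-((n + dι : ℕ) : ℝ)) := by
        rw [Real.rpow_neg hε.le, Real.rpow_natCast, pow_add, div_pow, div_pow, one_pow]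
        field_simp

end N2

end Fermat.Agent.H73U
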