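import Fermat.Agent.H71UDefs
import Fermat.Agent.H31Hyp2
import Fermat.Agent.H73U2

/-!
# S47, block (D), DE5 output 3: the relation `REL`, the diagonal action on the explicit series and
the passage from (NBAR-theta) to (NBAR-ser).
-/

set_option autoImplicit false
set_option linter.unusedSectionVars false

open IsDedekindDomain NumberField WithZero FractionalIdeal
open scoped nonZeroDivisors

noncomputable section

namespace Fermat.Agent.H87V

open Fermat.Agent Fermat.Agent.H71D Fermat.Agent.H53Z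
open Fermat.Agent.H47 (smulPlace below)
open Fermat.Agent.H82 (above aboveSet NonSplit congr)

section Rel

variable {E : Type*} [Field E] [NumberField E]

/-- the principal fractional ideal -/
def pE (α : Eˣ) : FI E := toPrincipalIdeal (𝓞 E) E α

theorem coe_pE (α : Eˣ) : ((pE α : FI E) : FractionalIdeal (𝓞 E)⁰ E) =
    spanSingleton (𝓞 E)⁰ (α : E) := coe_toPrincipalIdeal α

theorem pE_mul (α β : Eˣ) : pE (α * β) = pE α * pE β := map_mul _ _ _

theorem valuation_eq (w : HeightOneSpectrum (𝓞 E)) (α : Eˣ) :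
    w.valuation E (α : E) = exp (-(cE (pE α) w)) := by
  rw [H47.valuation_eq_exp_ordHom, H47.ordHom_eq_count, cE, coe_pE]

theorem exists_val (w : HeightOneSpectrum (𝓞 E)) (k : ℤ) :
    ∃ x : E, w.valuation E x = exp (-k) := by
  obtain ⟨π, hπ⟩ := w.valuation_exists_uniformizer E
  refine ⟨π ^ k, ?_⟩
  rw [map_zpow₀, hπ, ← exp_zsmul]
  congr 1
  simp

/-- An element of a fractional ideal with exact order at one place. -/
theorem exists_elt (A : FI E) (w0 : HeightOneSpectrum (𝓞 E)) :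
    ∃ a : E, (∀ w, w.valuation E a ≤ exp (-(cE A w))) ∧ w0.valuation E a = exp (-(cE A w0)) := by
  classical
  have hfin : {w : HeightOneSpectrum (𝓞 E) | cE A w ≠ 0}.Finite := by
    have h := FractionalIdeal.finite_factors (R := 𝓞 E) (K := E)
      (A : FractionalIdeal (𝓞 E)⁰ E)
    rw [Filter.eventually_cofinite] at h
    exact h
  obtain ⟨x0, hx0⟩ := exists_val w0 (cE A w0)
  obtain ⟨β, hβ1, hβ2⟩ := H7.Z.exists_approx (K := E) (insert w0 hfin.toFinset)
    (fun w => if w = w0 then x0 else 0) (fun w => (cE A w).toNat + 1)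
  have hlt : ∀ w : HeightOneSpectrum (𝓞 E),
      exp (-(((cE A w).toNat + 1 : ℕ) : ℤ)) < exp (-(cE A w)) := by
    intro w
    rw [exp_lt_exp]
    have := Int.self_le_toNat (cE A w)
    push_cast
    linarith
  have hw0 : w0.valuation E β = exp (-(cE A w0)) := by
    have h1 := hβ1 w0 (Finset.mem_insert_self _ _)
    rw [if_pos rfl] at h1
    have h2 : w0.valuation E (β - x0) < w0.valuation E x0 := by
      rw [hx0]; exact h1.trans_lt (hlt w0)
    have h3 := Valuation.map_add_eq_of_lt_right (w0.valuation E) h2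
    rw [sub_add_cancel] at h3
    rw [h3, hx0]
  refine ⟨β, fun w => ?_, hw0⟩
  by_cases hw : w = w0
  · rw [hw]; exact hw0.le
  · by_cases hT : w ∈ insert w0 hfin.toFinset
    · have h1 := hβ1 w hT
      rw [if_neg hw, sub_zero] at h1
      exact h1.trans (hlt w).le
    · have h1 := hβ2 w hT
      have h2 : cE A w = 0 := by
        by_contra h
        exact hT (Finset.mem_insert_of_mem (hfin.mem_toFinset.2 h))
      rw [h2, neg_zero, exp_zero]
      exact h1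

variable {S : Finset (HeightOneSpectrum (𝓞 E))} {c : E} {A D : FI E} {u : E} {A₁ D₁ : FI E}
  {u₁ : E}

theorem _root_.Fermat.Agent.H71D.REL.symm (h : REL S c A D u A₁ D₁ u₁) :
    REL S (-c) A₁ D₁ u₁ A D u := by
  intro x y
  have h1 := h x (-c * x + y)
  have h2 : c * x + (-c * x + y) = y := by ring
  rw [h2] at h1
  exact h1.symm

theorem _root_.Fermat.Agent.H71D.REL.cE_le (h : REL S c A D u A₁ D₁ u₁)
    {w : HeightOneSpectrum (𝓞 E)} (hw : w ∉ S) : cE (A₁ * D₁) w ≤ cE (A * D) w := by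
  obtain ⟨a, ha, haw⟩ := exists_elt A w
  obtain ⟨d, hd, hdw⟩ := exists_elt D w
  have h1 := (h a 0).1 ⟨(RE S (cE D)).zero_mem, by
    rw [mul_zero, sub_zero]; exact fun v _ => ha v⟩
  have h2 := (h (u * d) d).1 ⟨fun v _ => hd v, by
    rw [sub_self]; exact (RE S (cE A)).zero_mem⟩
  have p1 := h1.2 w hw
  have q1 := h1.1 w hw
  have p2 := h2.2 w hw
  have q2 := h2.1 w hw
  have hdet : a * d = (a - u₁ * (c * a + 0)) * (c * (u * d) + d) -
      (u * d - u₁ * (c * (u * d) + d)) * (c * a + 0) := by ring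
  have h3 : w.valuation E (a * d) ≤ exp (-(cE (A₁ * D₁) w)) := by
    rw [hdet]
    refine (Valuation.map_sub _ _ _).trans (max_le ?_ ?_)
    · rw [map_mul, cE_mul, neg_add, exp_add]
      exact mul_le_mul' p1 q2
    · rw [map_mul, cE_mul, neg_add, exp_add]
      exact mul_le_mul' p2 q1
  rw [map_mul, haw, hdw, ← exp_add, exp_le_exp, ← neg_add, ← cE_mul] at h3
  linarith

/-- (R1) -/
theorem _root_.Fermat.Agent.H71D.REL.cE_eq (h : REL S c A D u A₁ D₁ u₁)
    {w : HeightOneSpectrum (𝓞 E)} (hw : w ∉ S) : cE (A * D) w = cE (A₁ * D₁) w :=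
  le_antisymm (h.symm.cE_le hw) (h.cE_le hw)

theorem smul_mem_RE (α : Eˣ) (A : FI E) (x : E) :
    (α : E) * x ∈ RE S (cE (pE α * A)) ↔ x ∈ RE S (cE A) := by
  rw [mem_RE, mem_RE]
  refine forall₂_congr fun w _ => ?_
  rw [map_mul, valuation_eq, cE_mul, neg_add, exp_add]
  exact mul_le_mul_iff_right₀ exp_pos

/-- (R2) -/
theorem _root_.Fermat.Agent.H71D.REL.smul (h : REL S c A D u A₁ D₁ u₁) (α : Eˣ) :
    REL S ((α⁻¹ : Eˣ) * c) (pE α * A) D (α * u) (pE α * A₁) D₁ (α * u₁) := by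
  intro x y
  have h1 := h ((α⁻¹ : Eˣ) * x) y
  have hx : ((α⁻¹ : Eˣ) : E) * c * x = c * ((α⁻¹ : Eˣ) * x) := by ring
  have hy : ∀ t y' : E, x - (α : E) * t * y' = α * ((α⁻¹ : Eˣ) * x - t * y') := by
    intro t y'
    rw [mul_sub, ← mul_assoc, ← mul_assoc, Units.mul_inv, one_mul]
  rw [hx, hy, hy, smul_mem_RE, smul_mem_RE]
  exact h1

end Rel

section Diag

variable {E B : Type*} [Field E] [NumberField E] [Field B] [NumberField B] [Algebra E B]
  {J : Type*} [Fintype J] (d : DD E B J)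

/-- the action of `diag(α, 1)` on `J → ℍ³` -/
def dgAct (α : Eˣ) (w : J → H3) : J → H3 :=
  fun j => Matrix.GeneralLinearGroup.map (d.e j) (H76U.dM α) • w j

theorem dgAct_nbAct (α : Eˣ) (c : E) (w : J → H3) :
    dgAct d α (d.nbAct c w) = d.nbAct ((α⁻¹ : Eˣ) * c) (dgAct d α w) := by
  funext j
  rw [dgAct, DD.nbAct, DD.nbAct, dgAct, ← mul_smul, ← mul_smul, ← map_mul, ← map_mul]
  congr 2
  ext i k
  rw [Units.val_mul, Units.val_mul, H76U.coe_dM, H76U.coe_lM, H76U.coe_lM]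
  have hα : (α : E) ≠ 0 := α.ne_zero
  fin_cases i <;> fin_cases k <;> simp [Matrix.mul_apply, Fin.sum_univ_two]
  field_simp

theorem dgAct_apply (α : Eˣ) (w : J → H3) (j : J) :
    (dgAct d α w j).z = d.e j α * (w j).z ∧ (dgAct d α w j).y = ‖d.e j α‖ * (w j).y := by
  have hα : d.e j (α : E) ≠ 0 := (_root_.map_ne_zero _).2 α.ne_zero
  have h1 : Matrix.GeneralLinearGroup.map (d.e j) (H76U.dM α) = H3.dMat (d.e j α) hα := by
    ext i k
    fin_cases i <;> fin_cases k <;>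
      simp [H76U.coe_dM, H3.dMat, Matrix.GeneralLinearGroup.mkOfDetNeZero]
  have h2 : dgAct d α w j = H3.dMat (d.e j α) hα • w j := by rw [dgAct, h1]
  rw [h2, H3.dMat_smul]
  exact ⟨rfl, rfl⟩

theorem kt1_dg (ν a : ℂ) (w w' : H3) (hz : w'.z = a * w.z) (hy : w'.y = ‖a‖ * w.y) :
    kt1 ν w' = (‖a‖ : ℂ) * kt1 (ν * a) w := by
  rw [kt1, kt1, hz, hy, norm_mul]
  have h1 : 4 * Real.pi * ‖ν‖ * (‖a‖ * w.y) = 4 * Real.pi * (‖ν‖ * ‖a‖) * w.y := by ring
  have h2 : ν * (a * w.z) = ν * a * w.z := by ring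
  rw [h1, h2]
  push_cast
  ring

theorem kterm_dg (ν : J → ℂ) (α : Eˣ) (w : J → H3) :
    kterm ν (dgAct d α w) =
      ((∏ j, ‖d.e j α‖ : ℝ) : ℂ) * kterm (fun j => ν j * d.e j α) w := by
  rw [kterm, kterm, Complex.ofReal_prod, ← Finset.prod_mul_distrib]
  refine Finset.prod_congr rfl fun j _ => ?_
  exact kt1_dg _ _ _ _ (dgAct_apply d α w j).1 (dgAct_apply d α w j).2

theorem kterm_congr' {ν ν' : J → ℂ} (h : ∀ j, ν j = ν' j) (w : J → H3) :
    kterm ν w = kterm ν' w := by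
  rw [show ν = ν' from funext h]

variable {d}

theorem sco_smul {α : Eˣ} (hα : α ∈ d.US) (a : FI E) (u : E) (β : Eˣ) :
    d.sco (pE α * a) (α * u) β = d.sco a u (β * α) := by
  rw [DD.sco, DD.sco]
  have h1 : β * α ∈ d.US ↔ β ∈ d.US := Subgroup.mul_mem_cancel_right _ hα
  by_cases hβ : β ∈ d.US
  · rw [if_pos hβ, if_pos (h1.2 hβ)]
    congr 2
    · rw [Units.val_mul, coe_pE, ← mul_assoc, spanSingleton_mul_spanSingleton, Units.val_mul]
    · rw [Units.val_mul]; ring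
  · rw [if_neg hβ, if_neg fun h => hβ (h1.1 h)]

theorem aN_smul (hG : d.Good) (α : Eˣ) (a : FI E) :
    aN (pE α * a) = (∏ j, ‖d.e j α‖) ^ 2 * aN a := by
  have := hG.tcE
  rw [aN, aN, Units.val_mul, map_mul, coe_pE, absNorm_span_singleton]
  rw [Rat.cast_mul, Rat.cast_abs, H73U.abs_norm_eq_prod d.e hG.he]

theorem aN_nonneg (a : FI E) : 0 ≤ aN a := by
  rw [aN]; exact_mod_cast absNorm_nonneg _

/-- invariance of the explicit series under `diag(α, 1)` -/
theorem ser_smul (hG : d.Good) {α : Eˣ} (hα : α ∈ d.US) (a : FI E) (u : E) (w : J → H3) :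
    d.ser (pE α * a) (α * u) (dgAct d α w) = d.ser a u w := by
  have hP : 0 < ∏ j, ‖d.e j α‖ := Finset.prod_pos fun j _ =>
    norm_pos_iff.2 ((_root_.map_ne_zero _).2 α.ne_zero)
  rw [DD.ser, DD.ser]
  have h1 : ∀ β : Eˣ, d.sco (pE α * a) (α * u) β * kterm (fun j => d.e j β) (dgAct d α w) =
      ((∏ j, ‖d.e j α‖ : ℝ) : ℂ) * (d.sco a u (β * α) * kterm (fun j => d.e j ((β * α : Eˣ) : E)) w) := by
    intro β
    rw [sco_smul hα, kterm_dg]
    have h2 : kterm (fun j => d.e j β * d.e j α) w = kterm (fun j => d.e j ((β * α : Eˣ) : E)) w :=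
      kterm_congr' (fun j => by rw [Units.val_mul, map_mul]) w
    rw [h2]; ring
  have h4 : ∑' β : Eˣ, d.sco a u (β * α) * kterm (fun j => d.e j ((β * α : Eˣ) : E)) w =
      ∑' β : Eˣ, d.sco a u β * kterm (fun j => d.e j (β : E)) w :=
    (Equiv.mulRight α).tsum_eq (fun β : Eˣ => d.sco a u β * kterm (fun j => d.e j (β : E)) w)
  simp only [h1]
  rw [tsum_mul_left, h4, ← mul_assoc]
  congr 1
  rw [aN_smul hG, ← Complex.ofReal_mul]
  congr 1
  rw [Real.mul_rpow (by positivity) (aN_nonneg a), ← Real.rpow_natCast, ← Real.rpow_mul hP.le]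
  have h3 : ((2 : ℕ) : ℝ) * -(1 / 2) = -1 := by norm_num
  rw [h3, Real.rpow_neg_one]
  field_simp

end Diag

/-! ### (NBAR-theta) implies (NBAR-ser) -/

section Main

variable {E B : Type*} [Field E] [NumberField E] [Field B] [NumberField B] [Algebra E B]
  {J : Type*} [Fintype J]

theorem not_mem_of_not_mem_aboveSet {S : Finset (HeightOneSpectrum (𝓞 E))}
    {P : HeightOneSpectrum (𝓞 B)} (hP : P ∉ aboveSet B (S : Set (HeightOneSpectrum (𝓞 E)))) :
    below E P ∉ S := fun h => hP ⟨_, h, H47.mem_above_below P⟩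

theorem _root_.Fermat.Agent.H71D.IsNm.congr {S : Finset (HeightOneSpectrum (𝓞 E))}
    {τ : B ≃ₐ[E] B} {h : FI B} {n n' : HeightOneSpectrum (𝓞 E) → ℤ} (hN : IsNm S τ h n)
    (hn : ∀ w ∉ S, n w = n' w) : IsNm S τ h n' :=
  ⟨hN.prime, fun P hP => (hN.norm P hP).trans (hn _ (not_mem_of_not_mem_aboveSet hP))⟩

/-- (UNFOLD): for ideals `A`, `D` prime to `S` with `A D` of given orders `n` outside `S`, `n` the
orders of a norm, the explicit series is a combination of integrals of theta kernels, where the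
ideals `h i`, the coefficients and the cut-off only depend on `n`. -/
def Unfold (d : DD E B J) : Prop :=
  ∀ n : HeightOneSpectrum (𝓞 E) → ℤ, (∃ h₀ : FI B, IsNm d.S d.tau h₀ n) →
    ∃ (ι : Type) (_ : Fintype ι) (h : ι → FI B) (g : ι → ℂ) (c : (J → ℝ) → ℝ),
      (∀ i, IsNm d.S d.tau (h i) n) ∧
      ∀ A D : FI E, (∀ w ∈ d.S, cE A w = 0 ∧ cE D w = 0) → (∀ w ∉ d.S, cE (A * D) w = n w) →
        ∀ (u : E) (w : J → H3), d.ser (A * D⁻¹) u w =
          ∑ i, g i * ∫ s, (c s : ℂ) * d.theta A D u (h i) w s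

/-- (ZERO): if no multiple of `A D` by an element of `US` is a norm, then the series vanishes. -/
def ZeroSer (d : DD E B J) : Prop :=
  ∀ A D : FI E, (∀ w ∈ d.S, cE A w = 0 ∧ cE D w = 0) →
    (∀ α ∈ d.US, ∀ h : FI B, ¬ IsNm d.S d.tau h (cE (pE α * (A * D)))) →
      ∀ (u : E) (w : J → H3), d.ser (A * D⁻¹) u w = 0

theorem cE_pE_of_US {d : DD E B J} (hG : d.Good) {α : Eˣ} (hα : α ∈ d.US)
    {w : HeightOneSpectrum (𝓞 E)} (hw : w ∈ d.S) : cE (pE α) w = 0 := by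
  have h1 := hG.US_unit α hα w hw
  rw [valuation_eq, ← exp_zero, exp_inj] at h1
  linarith

/-- (R3), the case of norms -/
theorem ser_eq_of_norm {d : DD E B J} {CS : Set E} (hθ : NbarTheta d CS) (hU : Unfold d)
    {c : E} (hc : c ∈ CS) {A D : FI E} {u : E} {A₁ D₁ : FI E} {u₁ : E}
    (hS : ∀ w ∈ d.S, cE A w = 0 ∧ cE D w = 0 ∧ cE A₁ w = 0 ∧ cE D₁ w = 0)
    (hR : REL d.S c A D u A₁ D₁ u₁) (hn : ∃ h₀ : FI B, IsNm d.S d.tau h₀ (cE (A * D)))
    (w : J → H3) :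
    d.ser (A₁ * D₁⁻¹) u₁ (d.nbAct c w) = d.ser (A * D⁻¹) u w := by
  obtain ⟨ι, _, h, g, χ, hh, hser⟩ := hU _ hn
  rw [hser A D (fun v hv => ⟨(hS v hv).1, (hS v hv).2.1⟩) (fun v _ => rfl) u w,
    hser A₁ D₁ (fun v hv => ⟨(hS v hv).2.2.1, (hS v hv).2.2.2⟩) (fun v hv => (hR.cE_eq hv).symm)
      u₁ (d.nbAct c w)]
  refine Finset.sum_congr rfl fun i _ => ?_
  congr 2
  ext s
  rw [hθ c hc A D u A₁ D₁ u₁ (h i) hS hR (hh i) ((hh i).congr fun v hv => hR.cE_eq hv) w s]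

/-- **(R3)**: (NBAR-ser) from (NBAR-theta), (UNFOLD) and (ZERO). -/
theorem nbarSer_of {d : DD E B J} (hG : d.Good) {CS : Set E}
    (hCS : ∀ α ∈ d.US, ∀ c ∈ CS, ((α⁻¹ : Eˣ) : E) * c ∈ CS)
    (hθ : NbarTheta d CS) (hU : Unfold d) (hZ : ZeroSer d) : NbarSer d CS := by
  intro c hc A D u A₁ D₁ u₁ hS hR w
  by_cases hex : ∃ α ∈ d.US, ∃ h : FI B, IsNm d.S d.tau h (cE (pE α * (A * D)))
  · obtain ⟨α, hα, h₀, hh₀⟩ := hex
    have h1 := ser_smul hG hα (A₁ * D₁⁻¹) u₁ (d.nbAct c w)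
    have h2 := ser_smul hG hα (A * D⁻¹) u w
    rw [dgAct_nbAct, ← mul_assoc] at h1
    rw [← mul_assoc] at h2
    rw [← h1, ← h2]
    have hα0 : ∀ v ∈ d.S, cE (pE α) v = 0 := fun v hv => cE_pE_of_US hG hα hv
    refine ser_eq_of_norm hθ hU (hCS α hα c hc) (fun v hv => ?_) (hR.smul α) ⟨h₀, ?_⟩ _
    · obtain ⟨h3, h4, h5, h6⟩ := hS v hv
      rw [cE_mul, cE_mul, hα0 v hv, h3, h4, h5, h6]
      exact ⟨rfl, rfl, rfl, rfl⟩
    · rw [mul_assoc]; exact hh₀
  · push Not at hex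
    rw [hZ A D (fun v hv => ⟨(hS v hv).1, (hS v hv).2.1⟩) hex,
      hZ A₁ D₁ (fun v hv => ⟨(hS v hv).2.2.1, (hS v hv).2.2.2⟩) ?_]
    intro α hα h hh
    refine hex α hα h (hh.congr fun v hv => ?_)
    rw [cE_mul, cE_mul (pE α) (A * D), hR.cE_eq hv]

end Main

end Fermat.Agent.H87V
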