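import Fermat.Agent.H16D8
import Fermat.Agent.H53Z6
import Fermat.Agent.H53Z8
import Fermat.Agent.H74C3w
import Fermat.Agent.H87VRel

/-!
# Reader's guide: block (D) of S47, convergence, unfolding and growth

Every theorem of this file is proved by citing a theorem of the library; nothing here is used by any
other file.  Editor: helper53.

**Statement served:** S47, block (D).  Companion of `GuideOctDTheta` (theta kernel; this file gives the
analysis behind its parts (a) and (b)) and of `GuideOctD` (Fourier series); the other companions are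
`GuidePoisson` and `GuideThetaFinite`.  Every library theorem cited below is used in the proof of
S47.  In prose: `NOTES.md`, Appendix A, notes [405], [447], [461], [477].

**What is proved here.**  The form of block (D) is, on each component, a Fourier series
`∑_α a(α) ∏_j y_j K₀(4π|α_j| y_j) e(2 Re(α_j z_j))` over the nonzero `α` of a totally complex field
`E`, and it is also a finite sum of integrals, over `s ∈ ℝ^J`, of theta kernels
`∑_x φ(x) g(w, s; x, τ x)`, sums over the elements `x` of the quadratic extension `B` of Gaussian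
functions.  Five facts are needed:

1. the Gaussian terms and the Bessel terms have uniform majorants (section 1);
2. the resulting sums over `B` and over `E` converge, the second one with at most polynomial growth
   when the parameter tends to zero (section 2);
3. the sum over `x ∈ B` of the integrals over a fundamental domain for the relative units is the sum
   over `x` modulo units of the integrals over `ℝ^J` (section 3: unfolding);
4. the Fourier series is continuous, an eigenfunction of the radial integral operators, and of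
   moderate growth (section 4); the coefficients satisfy the hypotheses (section 5);
5. at the bad places, the Fourier transform of a small neighbourhood is supported on elements of
   bounded denominator (`GuideThetaFinite`; section 6 has two steps of the proof).

Section 7 has steps of two theorems of `GuideOctDTheta`: the auxiliary element for the invariance of the
theta kernel (`exists_auxiliary`), and the passage from the theta kernel to the series
(`series_of_theta`).

**Conventions.**  `J` is the set of infinite places of `E`, all of them complex; `J → H3` is a product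
of hyperbolic spaces with coordinates `(z_j, y_j)`, `y_j > 0`; `H3.base = (0, 1)` is the base point of
`H3`, and `H3.ch w w'` is the hyperbolic cosine of the distance.  `H22Z.K0` is the Bessel function
`K₀(x) = ∫_0^∞ exp(-x cosh t) dt`.  No theorem uses the Poisson formula or the functional equation.

**Reading order.**  Sections 1 - 6 in order; then `GuideOctDTheta`, with section 7.
-/

set_option autoImplicit false

noncomputable section

namespace Fermat.Agent.Guide.ThetaSeries

open IsDedekindDomain NumberField WithZero MeasureTheory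
open scoped nonZeroDivisors ENNReal
open Fermat.Agent
open Fermat.Agent.H47 (smulPlace)

/-! ## 1. The Gaussian terms and the Bessel terms -/

/-- **Notions.**  `gt1 w s p q = y exp(-2π y (|p|² e^(2s) + |q|² e^(-2s))) e(2 Re(p q z))` is the
Gaussian term at one complex place (`w = (z, y)`), `kt1 ν w = y K₀(4π|ν| y) e(2 Re(ν z))` the Bessel
term; `gterm` and `kterm` are their products over the places.  Definitions in `H53Z1`. -/
theorem term_notions {J : Type} [Fintype J] (w : J → H3) (s : J → ℝ) (p q ν : J → ℂ) :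
    H53Z.gterm w s p q = ∏ j, (((w j).y * Real.exp (-(2 * Real.pi * (w j).y *
        (‖p j‖ ^ 2 * Real.exp (2 * s j) + ‖q j‖ ^ 2 * Real.exp (-2 * s j)))) : ℝ) : ℂ) *
        Complex.exp (2 * Real.pi * Complex.I * ((2 * (p j * q j * (w j).z).re : ℝ) : ℂ)) ∧
    H53Z.kterm ν w = ∏ j, (((w j).y * H22Z.K0 (4 * Real.pi * ‖ν j‖ * (w j).y) : ℝ) : ℂ) *
        Complex.exp (2 * Real.pi * Complex.I * ((2 * (ν j * (w j).z).re : ℝ) : ℂ)) :=
  ⟨rfl, rfl⟩

/-- **The Bessel integral in logarithmic coordinates**: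
`∫_ℝ exp(-(a e^(2s) + b e^(-2s))) ds = K₀(2 √(ab))`.  This is the reason why the integral of the
Gaussian term over `s` is the Bessel term (`GuideOctDTheta`, `integral_gterm`).  File `H53Z1`. -/
theorem bessel_integral {a b : ℝ} (ha : 0 < a) (hb : 0 < b) :
    ∫ s : ℝ, Real.exp (-(a * Real.exp (2 * s) + b * Real.exp (-2 * s))) = H22Z.K0 (2 * √(a * b)) :=
  H53Z.integral_exp_two ha hb

/-- **Bound for the Bessel function**: `K₀(x) ≤ (2/x) e^(-x/2)`.  (From `cosh t ≥ 1/2 + t/2`; the bound
has the correct exponential form at infinity up to the constant in the exponent, and a pole instead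
of a logarithm at `0`, which is good enough.)  File `H53Z1`. -/
theorem bessel_bound {x : ℝ} (hx : 0 < x) : H22Z.K0 x ≤ 2 / x * Real.exp (-(x / 2)) :=
  H53Z.K0_le_exp hx

/-- **Majorant of the Gaussian term**, uniform for `y_j ≥ c` and `|s_j| ≤ S`, apart from the factor
`∏_j y_j`.  File `H53Z1`. -/
theorem gaussian_term_le {J : Type} [Fintype J] {w : J → H3} {s : J → ℝ} {c S : ℝ}
    (hw : ∀ j, c ≤ (w j).y) (hs : ∀ j, |s j| ≤ S) (p q : J → ℂ) :
    ‖H53Z.gterm w s p q‖ ≤ (∏ j, (w j).y) *
      Real.exp (-((2 * Real.pi * c * Real.exp (-2 * S)) * ∑ j, (‖p j‖ ^ 2 + ‖q j‖ ^ 2))) :=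
  H53Z.norm_gterm_le hw hs p q

/-- **Majorant of the Bessel term.**  File `H53Z1`. -/
theorem bessel_term_le {J : Type} [Fintype J] {ν : J → ℂ} (hν : ∀ j, ν j ≠ 0) (w : J → H3) :
    ‖H53Z.kterm ν w‖ ≤ (∏ j, (2 * Real.pi * ‖ν j‖)⁻¹) *
      Real.exp (-(2 * Real.pi * ∑ j, ‖ν j‖ * (w j).y)) :=
  H53Z.norm_kterm_le hν w

/-! ## 2. Sums over a number field -/

/-- **Coordinates of algebraic integers.**  The coordinates of `y ∈ 𝓞_K` in an integral basis are
bounded by a constant times the largest absolute value of a conjugate.  (The integral basis is a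
basis of the space `ℂ^(Hom(K, ℂ))`.)  File `H73U2`. -/
theorem coordinates_bounded (K : Type) [Field K] [NumberField K] :
    ∃ C : ℝ, 0 < C ∧ ∀ (y : 𝓞 K) (i : Module.Free.ChooseBasisIndex ℤ (𝓞 K)) (T : ℝ),
      (∀ φ : K →+* ℂ, ‖φ (y : K)‖ ≤ T) → |((RingOfIntegers.basis K).repr y i : ℝ)| ≤ C * T :=
  H73U.exists_coord_bound K

/-- **Summation of exponentials over the lattice `m⁻¹ 𝓞_K`.**  If `T(x)` bounds the absolute values of
all conjugates of `x`, the sum of `exp(-δ T(x))` over the lattice is at most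
`(1 + 2/(δ c))^[K:ℚ]` (the exponent is the number of elements of an integral basis): compare with a
product of geometric series in the coordinates.  File `H73U2`. -/
theorem lattice_sum_bounded (K : Type) [Field K] [NumberField K] (m : ℤ) (hm : m ≠ 0) :
    ∃ c : ℝ, 0 < c ∧ ∀ (T : K → ℝ),
      (∀ x : K, IsIntegral ℤ ((m : K) * x) → ∀ φ : K →+* ℂ, ‖φ x‖ ≤ T x) → ∀ δ : ℝ, 0 < δ →
      Summable (fun x : {x : K // IsIntegral ℤ ((m : K) * x)} => Real.exp (-(δ * T x))) ∧
      ∑' x : {x : K // IsIntegral ℤ ((m : K) * x)}, Real.exp (-(δ * T x)) ≤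
        (1 + 2 / (δ * c)) ^ Fintype.card (Module.Free.ChooseBasisIndex ℤ (𝓞 K)) :=
  H73U.exists_sum_bound m hm

/-- **Gaussian sums over `B`.**  `B/E` quadratic with conjugation `τ`; the absolute values of the
conjugates of `x ∈ B` are the numbers `|b_j(x)|`, `|b_j(τ x)|`.  If `φ` is bounded and supported on a
lattice, then `∑_x |φ(x)| exp(-ε ∑_j (|b_j(x)|² + |b_j(τ x)|²))` is finite for all `ε > 0`.  From
`lattice_sum_bounded`.  File `H73U2`. -/
theorem gaussian_sum_converges {E B J : Type} [Field E] [NumberField E] [Field B] [NumberField B]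
    [Algebra E B] [Fintype J] (e : J → (E →+* ℂ)) (b : J → (B →+* ℂ)) (τ : B ≃ₐ[E] B)
    (hb : ∀ j, (b j).comp (algebraMap E B) = e j)
    (he : Function.Bijective fun j => InfinitePlace.mk (e j)) (hτ : τ ≠ 1)
    (h2 : Module.finrank E B = 2) (φ : B → ℂ) (M : ℝ) (m : ℤ) (hm : m ≠ 0)
    (hφ : ∀ x, φ x ≠ 0 → IsIntegral ℤ ((m : B) * x)) (hM : ∀ x, ‖φ x‖ ≤ M) (ε : ℝ) (hε : 0 < ε) :
    Summable fun x : B => ‖φ x‖ * Real.exp (-ε * ∑ j, (‖b j x‖ ^ 2 + ‖b j (τ x)‖ ^ 2)) :=
  H73U.summable_gauss e b τ hb he hτ h2 φ M m hm hφ hM ε hε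

/-- **The lattice of the theta kernel.**  Let `d : DD E B J` be the data of block (D) (`good_iff` in
`GuideOctD`), `D` and `h` fractional ideals (`FI`) of `E` and `B`.  The elements of `VS` (congruent to `1`
modulo `P ^ n2` for `P` above `S`, with norm in `US`) which belong to the ideal `D h̄⁻¹` outside `S`
(`RB B S (dlt D h)`, see `lattice_notions` in `GuideOctDTheta`) have a common denominator.  With the
preceding theorem and `gaussian_term_le` the theta kernel of `GuideOctDTheta` is an absolutely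
convergent sum, uniformly for `y_j ≥ c`, `|s_j| ≤ S`.  File `H71U2`. -/
theorem common_denominator {E B J : Type} [Field E] [NumberField E] [Field B] [NumberField B]
    [Algebra E B] [Fintype J] (d : H71D.DD E B J) (D : H71D.FI E) (h : H71D.FI B) :
    ∃ m : ℤ, m ≠ 0 ∧ ∀ x : B, x ∈ d.VS → x ∈ H71D.RB B d.S (d.dlt D h) →
      IsIntegral ℤ ((m : B) * x) :=
  H71D.exists_denominator D h

/-- **Sums over `E`.**  Let `E` be totally complex, `a` a function on `E` with `a(0) = 0`, supported on a
lattice and bounded by a power of the norm.  Then the majorant of the Fourier series (see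
`bessel_term_le`) converges, and it is bounded by a power of `1/ε` for `ε → 0`.  (The product
`∏_j |e_j(x)|⁻¹ = |N x|^(-1/2)` is bounded, because `m x` is integral.)  File `H73U2`. -/
theorem majorant_converges {E J : Type} [Field E] [NumberField E] [Fintype J] (e : J → (E →+* ℂ))
    (he : Function.Bijective fun j => InfinitePlace.mk (e j)) [IsTotallyComplex E] (a : E → ℂ)
    (h0 : a 0 = 0) (m : ℤ) (hm : m ≠ 0) (ha : ∀ x, a x ≠ 0 → IsIntegral ℤ ((m : E) * x)) (C : ℝ)
    (k : ℕ) (hk : ∀ x, ‖a x‖ ≤ C * (|Algebra.norm ℚ x| : ℝ) ^ k) :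
    ∃ A D : ℝ, 0 ≤ A ∧ ∀ ε, 0 < ε → ε ≤ 1 →
      Summable (fun x : E => ‖a x‖ * (∏ j, ‖e j x‖⁻¹) * Real.exp (-ε * ∑ j, ‖e j x‖)) ∧
      ∑' x : E, ‖a x‖ * (∏ j, ‖e j x‖⁻¹) * Real.exp (-ε * ∑ j, ‖e j x‖) ≤ D * ε ^ (-A) :=
  H73U.exists_series_bound e he a h0 m hm ha C k hk

/-! ## 3. Relative units and unfolding -/

/-- **The logarithms of the relative units span `ℝ^J`.**  `U1 τ m` is the group of the units `u` of `B`
with `u τ(u) = 1` and `u ≡ 1` modulo `m`, and `lg b u = (log |b_j(u)|)_j`.  Proof: otherwise there is a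
linear form `f ≠ 0` which vanishes on the vectors of the units `(v τ(v)⁻¹)^k`, where `k` is chosen such
that they are `1` modulo `m`.  This is a linear relation, valid for all units `v` of `B`, between the
logarithms at the places of `B`, with the coefficients `c_j` at `b_j` and `-c_j` at `b_j τ`.  Choose a
place with the largest coefficient and a unit which is smaller than `1` at all other places (Mathlib's
proof of Dirichlet's unit theorem): with the product formula all coefficients are equal, hence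
`0`.  File `H73U1`. -/
theorem logarithms_span {E B J : Type} [Field E] [NumberField E] [Field B] [NumberField B]
    [Algebra E B] (e : J → (E →+* ℂ)) (b : J → (B →+* ℂ)) (τ : B ≃ₐ[E] B)
    (hb : ∀ j, (b j).comp (algebraMap E B) = e j)
    (he : Function.Bijective fun j => InfinitePlace.mk (e j)) [Fintype J] [IsTotallyComplex E]
    [IsTotallyComplex B] (hτ : τ ≠ 1) (h2 : Module.finrank E B = 2) (m : Ideal (𝓞 B)) (hm : m ≠ ⊥) :
    Submodule.span ℝ {s : J → ℝ | ∃ u ∈ H73U.U1 τ m, H73U.lg b u = s} = ⊤ :=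
  H73U.span_lg e b τ hb he hτ h2 m hm

/-- **A subgroup which spans is cocompact** (rounding of the coordinates in a basis taken from the
subgroup).  File `H73U1`. -/
theorem cocompact_of_span {J : Type} [Fintype J] (L : AddSubgroup (J → ℝ))
    (h : Submodule.span ℝ (L : Set (J → ℝ)) = ⊤) :
    ∃ C : ℝ, 0 ≤ C ∧ ∀ s : J → ℝ, ∃ l ∈ L, ∀ j, |s j + l j| ≤ C :=
  H73U.exists_bound_of_span L h

/-- **Cut-off functions.**  Let a group `Γ` act on `ℝ^J` by the translations `Λ(u)`, cocompactly, and
such that only finitely many `u` have `Λ(u)` in a given bounded set.  Then there is a continuous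
function `c ≥ 0` with compact support with `∑_u c(s + Λ(u)) = 1` for all `s`.  This replaces a
fundamental domain.  File `H87UFold`. -/
theorem exists_cutoff {Γ J : Type} [Group Γ] [Fintype J] {Λ : Γ → J → ℝ}
    (hΛ : ∀ a b, Λ (a * b) = Λ a + Λ b)
    (ha : ∃ C : ℝ, ∀ s : J → ℝ, ∃ u, ∀ j, |s j + Λ u j| ≤ C)
    (hb : ∀ C : ℝ, {u | ∀ j, |Λ u j| ≤ C}.Finite) :
    ∃ (c : (J → ℝ) → ℝ) (R : ℝ), Continuous c ∧ (∀ s, 0 ≤ c s) ∧ (∀ s, c s ≤ 1) ∧
      (∀ s, (∃ j, R < |s j|) → c s = 0) ∧ HasCompactSupport c ∧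
      ∀ s, HasSum (fun u => c (s + Λ u)) 1 :=
  H87U.exists_cutoff hΛ ha hb

/-- **Unfolding, abstractly.**  `Γ` acts freely on a set `X` with representatives `r : I → X`, and `f x s`
is a family of functions on `ℝ^J` with `f(u x)(s) = f(x)(s + Λ(u))`.  If the integrals of the absolute
values over the representatives have a finite sum, the integral of `c(s) ∑_{x ∈ X} f(x)(s)` is the
sum over the representatives of the integrals of `f(r i)` over `ℝ^J`.  File `H87UFold`. -/
theorem unfolding_abstract {Γ X I J F : Type} [Group Γ] [MulAction Γ X] [Fintype J] [Countable Γ]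
    [Countable I] [NormedAddCommGroup F] [NormedSpace ℝ F] [CompleteSpace F] {r : I → X}
    {Λ : Γ → J → ℝ} (hΛ : ∀ a b, Λ (a * b) = Λ a + Λ b)
    (hr : Function.Bijective fun p : Γ × I => p.1 • r p.2)
    {c : (J → ℝ) → ℝ} (hc : Measurable c) (hc0 : ∀ s, 0 ≤ c s)
    (hsum : ∀ s, HasSum (fun u : Γ => c (s + Λ u)) 1)
    {f : X → (J → ℝ) → F} (hf : ∀ x, AEStronglyMeasurable (f x) volume)
    (hinv : ∀ (u : Γ) x s, f (u • x) s = f x (s + Λ u))
    (hfin : ∑' i, ∫⁻ s, ‖f (r i) s‖ₑ ≠ ∞) :
    Integrable (fun s => c s • ∑' x, f x s) volume ∧ Summable (fun i => ∫ s, f (r i) s) ∧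
      ∫ s, c s • ∑' x, f x s = ∑' i, ∫ s, f (r i) s :=
  H87U.integral_unfold_log hΛ hr hc hc0 hsum hf hinv hfin

/-- **The Gaussian term and the relative units**: multiplication of `x` by a relative unit `u` is the
translation of `s` by `(log |b_j(u)|)_j`, because `|b_j(τ u)| = |b_j(u)|⁻¹` and
`b_j(u x) b_j(τ(u x)) = b_j(x) b_j(τ x)`.  (`incl τ m : U1 τ m → Bˣ` is the inclusion.)  File `H71U1`. -/
theorem gaussian_term_of_unit {E B J : Type} [Field E] [NumberField E] [Field B] [NumberField B]
    [Algebra E B] [Fintype J] (b : J → (B →+* ℂ)) (τ : B ≃ₐ[E] B) (m : Ideal (𝓞 B)) (w : J → H3)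
    (s : J → ℝ) (u : H73U.U1 τ m) (x : Bˣ) :
    H53Z.gterm w s (fun j => b j ((H71U.incl τ m u * x : Bˣ) : B))
        (fun j => b j (τ ((H71U.incl τ m u * x : Bˣ) : B))) =
      H53Z.gterm w (s + H73U.lg b (u : (𝓞 B)ˣ)) (fun j => b j (x : B)) (fun j => b j (τ (x : B))) :=
  H71U.gterm_incl_mul b τ m w s u x

/-- **Unfolding of the theta integral.**  Let `c` be a cut-off function for the relative units and `F` a
function on `Bˣ`, invariant under the relative units, for which the Gaussian sums converge.  The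
integral of `c(s) ∑_{x ∈ Bˣ} F(x) g(w, s; x, τ x)` is the sum over the classes `x ∈ Bˣ / U1` of
`F(x)` times the Bessel term at `x τ(x)`.  From `unfolding_abstract` and `integral_gterm`.  File
`H71U1`; the hypotheses `hc` and `hG` are the notions `IsCut` and `GSum` of `H53Z2`, the left side is
`thetaInt` there, and `H53Z3` compares the sums over `B` and over `Bˣ` (they agree if `F(0) = 0`). -/
theorem unfolding_theta {E B J : Type} [Field E] [NumberField E] [Field B] [NumberField B]
    [Algebra E B] [Fintype J] (b : J → (B →+* ℂ)) (τ : B ≃ₐ[E] B) (m : Ideal (𝓞 B))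
    {c : (J → ℝ) → ℝ} {S : ℝ}
    (hc : Continuous c ∧ (∀ s, 0 ≤ c s) ∧ ∀ s, (∃ j, S < |s j|) → c s = 0)
    (hsum : ∀ s, HasSum (fun u : H73U.U1 τ m => c (s + H73U.lg b (u : (𝓞 B)ˣ))) 1)
    {F : Bˣ → ℂ} (hF : ∀ (u : H73U.U1 τ m) (x : Bˣ), F (H71U.incl τ m u * x) = F x)
    (hG : ∀ ε : ℝ, 0 < ε → Summable fun x : Bˣ =>
      ‖F x‖ * Real.exp (-ε * ∑ j, (‖b j (x : B)‖ ^ 2 + ‖b j (τ (x : B))‖ ^ 2))) (w : J → H3) :
    Summable (fun x : Bˣ ⧸ (H71U.incl τ m).range => F x.out *
      H53Z.kterm (fun j => b j ((x.out : Bˣ) : B) * b j (τ ((x.out : Bˣ) : B))) w) ∧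
    (∫ s : J → ℝ, (c s : ℂ) * ∑' x : Bˣ, F x * H53Z.gterm w s (fun j => b j (x : B))
        (fun j => b j (τ (x : B)))) =
      ∑' x : Bˣ ⧸ (H71U.incl τ m).range, F x.out *
        H53Z.kterm (fun j => b j ((x.out : Bˣ) : B) * b j (τ ((x.out : Bˣ) : B))) w :=
  H71U.unfold_one b τ m ⟨hc.1, hc.2.1, hc.2.2⟩ hsum hF hG w

open Classical in
/-- **Summation over the norms.**  `B` is quadratic over `E`, and `e_j` is the restriction of `b_j` to
`E`.  Let `L_i ⊂ Bˣ` be finitely many sets which are stable under the relative units, `g_i` constants,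
and suppose that for every `α ∈ Eˣ` the sum of the `g_i` over the classes `x ∈ L_i / U1` of norm `α` is
`a(α)`.  Then the sum over `i` of the theta integrals with the weight `wt g L ψ i` (`g_i ψ(N x)` on
`L_i`, and `0` outside; `nmU` is the norm `Bˣ → Eˣ`) is the Fourier series with the coefficients
`a(α) ψ(α)`, if the theta sums converge absolutely (`hG`).  Apply `unfolding_theta` for every `i`, use
`b_j(x) b_j(τ x) = e_j(N x)`, and collect the terms of the same norm.  With `coefficient_identity` of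
`GuideOctDTheta` this gives `unfolding` there.  File `H71U1` (text: helper71). -/
theorem summation_over_norms {E B J ι : Type} [Field E] [NumberField E] [Field B] [NumberField B]
    [Algebra E B] [Fintype J] [Fintype ι] (b : J → (B →+* ℂ)) (τ : B ≃ₐ[E] B) (m : Ideal (𝓞 B))
    (e : J → (E →+* ℂ)) (hb : ∀ j, (b j).comp (algebraMap E B) = e j) (hτ : τ ≠ 1)
    (h2 : Module.finrank E B = 2) {c : (J → ℝ) → ℝ} {S : ℝ}
    (hc : Continuous c ∧ (∀ s, 0 ≤ c s) ∧ ∀ s, (∃ j, S < |s j|) → c s = 0)
    (hsum : ∀ s, HasSum (fun u : H73U.U1 τ m => c (s + H73U.lg b (u : (𝓞 B)ˣ))) 1)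
    {g : ι → ℂ} {L : ι → Set Bˣ} {ψ : Eˣ → ℂ}
    (hL : ∀ i (u : H73U.U1 τ m) (x : Bˣ), H71U.incl τ m u * x ∈ L i ↔ x ∈ L i)
    (hG : ∀ i, ∀ ε : ℝ, 0 < ε → Summable fun x : Bˣ => ‖H71U.wt g L ψ i x‖ *
      Real.exp (-ε * ∑ j, (‖b j (x : B)‖ ^ 2 + ‖b j (τ (x : B))‖ ^ 2)))
    {a : Eˣ → ℂ} (hcoef : ∀ α : Eˣ, HasSum (fun p : {p : ι × (Bˣ ⧸ (H71U.incl τ m).range) //
      p.2.out ∈ L p.1 ∧ H71U.nmU E B p.2.out = α} => g p.1.1) (a α)) (w : J → H3) :
    (∀ i x, H71U.wt g L ψ i x = if x ∈ L i then g i * ψ (H71U.nmU E B x) else 0) ∧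
    HasSum (fun α : Eˣ => a α * ψ α * H53Z.kterm (fun j => e j α) w)
      (∑ i, ∫ s : J → ℝ, (c s : ℂ) * ∑' x : Bˣ, H71U.wt g L ψ i x *
        H53Z.gterm w s (fun j => b j (x : B)) (fun j => b j (τ (x : B)))) :=
  ⟨fun _ _ => rfl,
    H71U.hasSum_unfold_norm b τ m e hb hτ h2 ⟨hc.1, hc.2.1, hc.2.2⟩ hsum hL hG hcoef w⟩

/-- **Stability under the relative units.**  `d : H71D.DD E B J` is the data of block (D)
(`GuideOctDTheta`), with the set `S` of bad places, and `u` belongs to the group `U1` of `d.tau` and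
`d.idm`, the intersection of the `P^n2` for the places `P` of `B` above `S`.  Multiplication by `u` does
not change the norm to `E`, and it preserves the set `VS` (the `x ≡ 1` modulo `P^n2` for all `P` above
`S`, with norm in `US`) and the sets `RB B S δ` (the `x` with `v_P(x) ≥ δ_P` for all `P` not above `S`).
The sets `L_i` of `summation_over_norms` are intersections of such sets, so they are stable.  File
`H71U2` (text: helper71). -/
theorem stability_under_units {E B J : Type} [Field E] [NumberField E] [Field B] [NumberField B]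
    [Algebra E B] [Fintype J] {d : H71D.DD E B J} (hd : d.Good) (u : H73U.U1 d.tau d.idm) (x : B)
    (δ : HeightOneSpectrum (𝓞 B) → ℤ) :
    Algebra.norm E ((((u : (𝓞 B)ˣ) : 𝓞 B) : B) * x) = Algebra.norm E x ∧
    ((((u : (𝓞 B)ˣ) : 𝓞 B) : B) * x ∈ d.VS ↔ x ∈ d.VS) ∧
    ((((u : (𝓞 B)ˣ) : 𝓞 B) : B) * x ∈ H71D.RB B d.S δ ↔ x ∈ H71D.RB B d.S δ) :=
  ⟨H71D.norm_unit_mul hd u x, H71D.unit_mul_mem_VS_iff hd u, H71D.unit_mul_mem_RB_iff u δ⟩

/-! ## 4. The Fourier series -/

/-- **Notions.**  For coefficients `a(x)` and frequencies `v(x) ∈ ℂ^J`, `x ∈ X`: `ser a v w` is the sum of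
`a(x)` times the Bessel term of frequency `v(x)`; `KSum a v` says that the majorant converges for all
`ε > 0` (and that no frequency with `a(x) ≠ 0` has a zero coordinate); `KGrow a v A D` says that the
majorant is at most `D ε^(-A)` for `ε ≤ 1`.  Definitions in `H53Z4`. -/
theorem series_notions {J X : Type} [Fintype J] (a : X → ℂ) (v : X → J → ℂ) (w : J → H3)
    (A D : ℝ) :
    H53Z.ser a v w = ∑' x, a x * H53Z.kterm (v x) w ∧
    (H53Z.KSum a v ↔ (∀ x, a x ≠ 0 → ∀ j, v x j ≠ 0) ∧ ∀ ε : ℝ, 0 < ε → Summable fun x =>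
      ‖a x‖ * (∏ j, ‖v x j‖⁻¹) * Real.exp (-ε * ∑ j, ‖v x j‖)) ∧
    (H53Z.KGrow a v A D ↔ 0 ≤ A ∧ ∀ ε : ℝ, 0 < ε → ε ≤ 1 →
      ∑' x, ‖a x‖ * (∏ j, ‖v x j‖⁻¹) * Real.exp (-ε * ∑ j, ‖v x j‖) ≤ D * ε ^ (-A)) :=
  ⟨rfl, ⟨fun h => ⟨h.ne, h.sum⟩, fun h => ⟨h.1, h.2⟩⟩, Iff.rfl⟩

/-- **Bound** of the series for `y_j ≥ c`.  File `H53Z4`. -/
theorem series_le {J X : Type} [Fintype J] {a : X → ℂ} {v : X → J → ℂ} (h : H53Z.KSum a v)
    {w : J → H3} {c : ℝ} (hc : 0 < c) (hw : ∀ j, c ≤ (w j).y) :
    ‖H53Z.ser a v w‖ ≤ ((2 * Real.pi) ^ Fintype.card J)⁻¹ *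
      ∑' x, ‖a x‖ * (∏ j, ‖v x j‖⁻¹) * Real.exp (-(2 * Real.pi * c) * ∑ j, ‖v x j‖) :=
  H53Z.norm_ser_le h hc hw

/-- **Continuity** of the series.  File `H53Z4`. -/
theorem series_continuous {J X : Type} [Fintype J] {a : X → ℂ} {v : X → J → ℂ}
    (h : H53Z.KSum a v) : Continuous fun w => H53Z.ser a v w :=
  H53Z.continuous_ser h

/-- **Moderate growth**: the series is bounded by a power of `∏_j (y_j + 1/y_j)`.  (Take
`c = ∏_j (y_j + 1/y_j)⁻¹` in `series_le`.)  Rapid decay at the cusps is not needed: block (D) only has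
to produce a form of moderate growth (`isDForm_iff` in `GuideOctDForm`).  File `H53Z4`. -/
theorem series_moderate_growth {J X : Type} [Fintype J] {a : X → ℂ} {v : X → J → ℂ}
    (h : H53Z.KSum a v) {A D : ℝ} (hg : H53Z.KGrow a v A D) :
    ∃ (n : ℕ) (C : ℝ), 0 ≤ C ∧ ∀ w, ‖H53Z.ser a v w‖ ≤ C * (∏ j, ((w j).y + ((w j).y)⁻¹)) ^ n :=
  H53Z.exists_norm_ser_le_pow h hg

/-- **The Bessel term is an eigenfunction** of the integral operators with radial kernels, with the
same eigenvalue as `∏_j y_j`.  (It is an eigenfunction of the Laplace operators, see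
`GuideEigenfunctions`, and Green's formula.)  File `H74C3w`. -/
theorem bessel_term_radial {J : Type} [Fintype J] {ν : J → ℂ} (hν : ∀ j, ν j ≠ 0)
    {κ : (J → ℝ) → ℂ} (hκ : ContinuousOn κ {t | ∀ j, 1 ≤ t j})
    (hT : ∃ T : ℝ, ∀ t : J → ℝ, (∀ j, 1 ≤ t j) → (∃ j, T < t j) → κ t = 0) (w : J → H3) :
    ∫ v : J → H3, κ (fun j => H3.ch (w j) (v j)) * H53Z.kterm ν v =
      (∫ v : J → H3, κ (fun j => H3.ch H3.base (v j)) * ∏ j, ((v j).y : ℂ)) * H53Z.kterm ν w :=
  letI := Classical.decEq J
  H74.C3.Rk_kterm hν ⟨hκ, hT⟩ w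

/-- **The series is an eigenfunction**: integration term by term, by the uniform majorant.  File
`H53Z6`. -/
theorem series_radial {J X : Type} [Fintype J] [Countable X] {a : X → ℂ} {v : X → J → ℂ}
    (h : H53Z.KSum a v) {κ : (J → ℝ) → ℂ} (hκ : ContinuousOn κ {t | ∀ j, 1 ≤ t j})
    (hT : ∃ T : ℝ, ∀ t : J → ℝ, (∀ j, 1 ≤ t j) → (∃ j, T < t j) → κ t = 0) (w : J → H3) :
    ∫ u : J → H3, κ (fun j => H3.ch (w j) (u j)) * H53Z.ser a v u =
      (∫ u : J → H3, κ (fun j => H3.ch H3.base (u j)) * ∏ j, ((u j).y : ℂ)) * H53Z.ser a v w :=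
  H53Z.Rk_ser h ⟨hκ, hT⟩ w

/-- **The Bessel term under a diagonal matrix**: for `α ∈ Eˣ`, `dM α = diag(α, 1)` and
`w' = dM α • w = (α z, |α| y)` the Bessel term of frequency `ν` at `w'` is `∏_j |α_j|` times the one of
frequency `ν α` at `w` (`α_j = d.e j α`, the embeddings in the data `d`).  So the translates of the
Fourier series by diagonal matrices are Fourier series of the same kind.  File `H87VRel`. -/
theorem bessel_term_diagonal {E B J : Type} [Field E] [NumberField E] [Field B] [NumberField B]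
    [Algebra E B] [Fintype J] (d : H71D.DD E B J) (ν : J → ℂ) (α : Eˣ) (w : J → H3) :
    H53Z.kterm ν (fun j => Matrix.GeneralLinearGroup.map (d.e j) (H76U.dM α) • w j) =
      ((∏ j, ‖d.e j α‖ : ℝ) : ℂ) * H53Z.kterm (fun j => ν j * d.e j α) w :=
  H87V.kterm_dg d ν α w

/-! ## 5. The coefficients -/

/-- **Number of ideals**: `𝓞_K` has at most `C n` ideals of norm at most `n`.  (From the asymptotic
formula in Mathlib.)  File `H53Z5`. -/
theorem number_of_ideals (K : Type) [Field K] [NumberField K] :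
    ∃ C : ℝ, 0 ≤ C ∧ ∀ n : ℕ, 0 < n →
      (Nat.card {I : Ideal (𝓞 K) // (Ideal.absNorm I : ℝ) ≤ n} : ℝ) ≤ C * n :=
  H53Z.exists_card_le K

/-- **The coefficients are polynomially bounded.**  `cf χ I` is the sum of the `χ(𝔟)` over the ideals `𝔟`
of `B` of relative norm `I` if `I` is an integral ideal of `E`, and `0` otherwise.  File `H53Z5`. -/
theorem coefficients_le (E B : Type) [Field E] [NumberField E] [Field B] [NumberField B]
    [Algebra E B] :
    ∃ C : ℝ, 0 ≤ C ∧ ∀ χ : Ideal (𝓞 B) →*₀ ℂ, (∀ I, ‖χ I‖ ≤ 1) →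
      ∀ I : FractionalIdeal (𝓞 E)⁰ E, ‖H33D.cf χ I‖ ≤ C * (FractionalIdeal.absNorm I : ℝ) :=
  H53Z.exists_norm_cf_le E B

/-- **The dihedral Fourier series satisfies the hypotheses of section 4**: the coefficients are
`a(x) = f(x) cf(x c)` for a bounded function `f` (a product of additive characters and of the
characteristic function of `US`) and a fractional ideal `c`.  File `H53Z5`. -/
theorem coefficients_summable {E B J : Type} [Field E] [NumberField E] [Field B] [NumberField B]
    [Algebra E B] [Fintype J] [IsTotallyComplex E] (e : J → (E →+* ℂ))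
    (he : Function.Bijective fun j => InfinitePlace.mk (e j)) {χ : Ideal (𝓞 B) →*₀ ℂ}
    (hχ : ∀ I, ‖χ I‖ ≤ 1) {c : FractionalIdeal (𝓞 E)⁰ E} (hc : c ≠ 0) {f : E → ℂ} {M : ℝ}
    (hf : ∀ x, ‖f x‖ ≤ M) :
    H53Z.KSum (fun x : E => f x * H33D.cf χ (FractionalIdeal.spanSingleton (𝓞 E)⁰ x * c))
      (fun x j => e j x) ∧
    ∃ A D : ℝ, H53Z.KGrow
      (fun x : E => f x * H33D.cf χ (FractionalIdeal.spanSingleton (𝓞 E)⁰ x * c))
      (fun x j => e j x) A D :=
  H53Z.ksum_cf e he hχ hc hf

/-! ## 6. The bad places: two steps of the proof of `orthogonal_bounded` in `GuideThetaFinite` -/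

/-- **Test elements.**  For a finite set `T` of places of `B`, integers `k(P) ≥ 0` and `x ∈ B` there is
`z ∈ B` with order exactly `k(P)` at all `P ∈ T` and such that `x z` is integral at all other places
(strong approximation).  File `H53Z8`.

This is used as follows.  Suppose that `∏_{w ∈ S} psi w (tr(x τ(y))) = 1` for all `y` of order at least
`k(P)` at the places `P` above `S`.  Take the test element `z` for the orders `k` and the element
`τ⁻¹(x)`.  For every integer `r` of `B` the element `y = z τ⁻¹(r)` satisfies the condition, and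
`x τ(y) = x τ(z) r` is integral at the places not above `S`; by the product formula for the additive
characters `tr_{B/ℚ}(x τ(z) r)` is an integer.  So `x τ(z)` belongs to the dual of `𝓞_B` for the trace
form, which is contained in `m⁻¹ 𝓞_B` for an integer `m` depending on `B` only (bound for the orders
of `m`: `H53Z7`).  This bounds the denominator of `x` above `S` without completions. -/
theorem exists_test_element {B : Type} [Field B] [NumberField B]
    (T : Finset (HeightOneSpectrum (𝓞 B))) (k : HeightOneSpectrum (𝓞 B) → ℕ) (x : B) :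
    ∃ z : B, (∀ P ∈ T, P.valuation B z = exp (-(k P : ℤ))) ∧
      ∀ P ∉ T, P.valuation B (x * z) ≤ 1 :=
  H53Z.exists_test' T k x

/-- **Valuations and automorphisms**: the order of `σ x` at `P` is the order of `x` at `σ⁻¹ P`
(`smulPlace σ⁻¹ P`).  With this and `N x = x τ(x)` the bound for `x` gives the bound for `N x`
(`norm_support` in `GuideOctDTheta`).  File `H53Z8`. -/
theorem valuation_of_automorphism {E B : Type} [Field E] [NumberField E] [Field B] [NumberField B]
    [Algebra E B] (σ : B ≃ₐ[E] B) (P : HeightOneSpectrum (𝓞 B)) (x : B) :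
    P.valuation B (σ x) = (smulPlace σ⁻¹ P).valuation B x :=
  H53Z.valuation_aut σ P x

/-! ## 7. Steps of `exists_auxiliary` and `series_of_theta` in `GuideOctDTheta`

The other steps are stated there: `relation_at_one_place` (the local lattice `Q w a d u c` at the place
`w`), `auxiliary_condition` (the condition `Cnd` on the auxiliary element), `relation_rules`,
`series_and_diagonal`, `unfolding` and `series_zero`; for the notation see also `lattice_notions` there.
Below `|x|` is `w.valuation E x`, and `G` is the maximum of `|u|` and `exp(d - a)`, the absolute value of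
the ideal `A/D + (u)` if `a` and `d` are the orders of `A` and `D` at `w`. -/

/-- **Two invariants of the local lattice** `Q w a d u c`.  The vectors `(0, y)` in it are those with
`|y| G ≤ exp(-a)`.  The first coordinates `x` of its vectors satisfy `|x| ≤ exp(-d) G`, with equality for
some vector.  So `exp(-a) / G` and `exp(-d) G` depend only on the lattice, hence they are the same for
`(A, D, u, 0)` and `(A₁, D₁, u₁, c)` if these are related (`relation_at_one_place`).  This gives the two
equalities of orders in `exists_auxiliary`.  File `H12Rel`. -/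
theorem local_invariants {E : Type} [Field E] [NumberField E] (w : HeightOneSpectrum (𝓞 E)) (a d : ℤ)
    (u c : E) :
    (∀ y : E, H12R.Q w a d u c 0 y ↔
      w.valuation E y * max (w.valuation E u) (exp (d - a)) ≤ exp (-a)) ∧
    (∀ x y : E, H12R.Q w a d u c x y →
      w.valuation E x ≤ exp (-d) * max (w.valuation E u) (exp (d - a))) ∧
    ∃ x y : E, H12R.Q w a d u c x y ∧
      w.valuation E x = exp (-d) * max (w.valuation E u) (exp (d - a)) :=
  ⟨fun _ => H12R.zero_mem_iff, fun _ _ h => H12R.val_le h, H12R.exists_val_eq w a d u c⟩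

/-- **The auxiliary element at one place.**  `|u₂| G ≤ 1` and `|1 + u u₂| G ≤ exp(d - a)` imply the
condition `Cnd` for `c = 0`, since `y + u₂ x = (1 + u u₂) y + u₂ (x - u y)`.  There is a solution `t`: `0`
if `|u| ≤ exp(d - a)`, and `-1/u` otherwise.  By strong approximation one `u₂` satisfies both
inequalities at all places (`auxiliary_condition`).  For related data `u₂ - c` satisfies the condition
for `(A₁, D₁, u₁)`: if `n̄(c)` maps `(x, y)` to `(x, y₁)`, then `y₁ + (u₂ - c) x = y + u₂ x`, and the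
bound `exp(-a) / G` is the same by `local_invariants`.  File `H12Rel`. -/
theorem auxiliary_at_one_place {E : Type} [Field E] [NumberField E] (w : HeightOneSpectrum (𝓞 E))
    (a d : ℤ) (u : E) :
    (∀ u₂ : E, w.valuation E u₂ * max (w.valuation E u) (exp (d - a)) ≤ 1 →
      w.valuation E (1 + u * u₂) * max (w.valuation E u) (exp (d - a)) ≤ exp (d - a) →
      H12R.Cnd w a d u 0 u₂) ∧
    ∃ t : E, w.valuation E t * max (w.valuation E u) (exp (d - a)) ≤ 1 ∧
      w.valuation E (1 + u * t) * max (w.valuation E u) (exp (d - a)) ≤ exp (d - a) :=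
  ⟨fun _ h1 h2 => H12R.Cnd.of h1 h2, H12R.exists_local w a d u⟩

/-- **The case of norms.**  Let the theta kernels be invariant under `n̄(c)` for all `c ∈ CS` (`hθ`), and
let `A D` be the norm of an ideal of `B` outside `S`.  Then
`ser(A₁/D₁, u₁, n̄(c) w) = ser(A/D, u, w)` for related data prime to `S`: `unfolding` expresses both sides
by integrals of theta kernels, with the same ideals `h_i`, constants and cut-off function, since `A D`
and `A₁ D₁` have the same orders outside `S` (`relation_rules`).  If only `α A D`, `α ∈ US`, is a norm,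
one applies this to the data multiplied by `diag(α, 1)`, with `α⁻¹ c ∈ CS`, and uses
`series_and_diagonal`.  Files `H87VRel`, `H71U3`. -/
theorem series_of_norms {E B J : Type} [Field E] [NumberField E] [Field B] [NumberField B]
    [Algebra E B] [Fintype J] {d : H71D.DD E B J} (hd : d.Good) {CS : Set E}
    (hθ : ∀ c ∈ CS, ∀ (A D : H71D.FI E) (u : E) (A₁ D₁ : H71D.FI E) (u₁ : E) (h : H71D.FI B),
      (∀ w ∈ d.S, H71D.cE A w = 0 ∧ H71D.cE D w = 0 ∧ H71D.cE A₁ w = 0 ∧ H71D.cE D₁ w = 0) →
      H71D.REL d.S c A D u A₁ D₁ u₁ → H71D.IsNm d.S d.tau h (H71D.cE (A * D)) →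
      H71D.IsNm d.S d.tau h (H71D.cE (A₁ * D₁)) → ∀ (w : J → H3) (s : J → ℝ),
        d.theta A₁ D₁ u₁ h (d.nbAct c w) s = d.theta A D u h w s)
    {c : E} (hc : c ∈ CS) {A D : H71D.FI E} {u : E} {A₁ D₁ : H71D.FI E} {u₁ : E}
    (hS : ∀ w ∈ d.S, H71D.cE A w = 0 ∧ H71D.cE D w = 0 ∧ H71D.cE A₁ w = 0 ∧ H71D.cE D₁ w = 0)
    (hR : H71D.REL d.S c A D u A₁ D₁ u₁)
    (hn : ∃ h₀ : H71D.FI B, H71D.IsNm d.S d.tau h₀ (H71D.cE (A * D))) (w : J → H3) :
    d.ser (A₁ * D₁⁻¹) u₁ (d.nbAct c w) = d.ser (A * D⁻¹) u w :=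
  H87V.ser_eq_of_norm hθ (H71D.unfold_of hd fun _ h0 h1 => H87V.hcoef hd h0 h1) hc hS hR hn w

end Fermat.Agent.Guide.ThetaSeries
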