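import Fermat.Agent.H99Three8

/-!
# Reader's guide to the block CARAYOL: the expansions of the functions on `X₀(q² m)`, step by step

Companion of `GuideCarayolModel`, sections A, B and D (the other companions of `GuideCarayol` are
`GuideCarayolTools`, `GuideCarayolSteps`, `GuideTwoComponents` (level `q m`), `GuideCharts` and
`GuideFunctionLifting`). It contains the intermediate statements between the notions explained there
and the construction of the three-component data (theorem 18 of `GuideCarayol`).

**The idea.** The special fibre of the normal model of `X₀(q² m)` at `q` has three components, and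
each of them is given by ONE embedding of the function field into a field of Laurent series
`K'((t))`, `K' = K(ζ)`, `ζ` a primitive `q`-th root of unity, followed by the Gauss valuation.
Everything which has to be known about the components, the residues of functions, the residues of
norms and traces, the multiplicities, becomes a statement on Laurent series, and these statements
use only three facts: `j(d z)` and the coordinate `X` have coefficients in `ℤ`; the substitutions
`t ↦ t^d` and `t ↦ ζ t` are compatible with reduction, the second one is the identity modulo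
`ζ - 1`; and `(X(ζ t) - X(t))/(ζ - 1)` reduces to `t dX/dt`.

**Sections.** 1 the Gauss ring and homomorphisms of Laurent series; 2 extension of the constants:
bases, norms and traces; 3 the embeddings of the function field of `X₀(q² m)`, norms and traces as
products and sums; 4 the functions regular outside the cusps; 5 the ramified extension `K(ζ)` and
the middle component; 6 norms and traces along the components; 7 the degeneracy maps and the
residues of chart functions.

## Notation

`A` is a valuation ring of the field `K` with a residue map `π : A → k`, `H99.Unif A π ϖ`: `A` is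
discrete with uniformizer `ϖ`; `H99.GR A π ⊂ K((t))` is the Gauss ring, `H99.gres A π` the residue
map to `k((t))` (with the value `0` outside of the Gauss ring).
`FX L N = L(j(d z) : d ∣ N) ⊂ L((t))` is the function field of `X₀(N)` over `L`, `J L d` the series
of `j(d z)`; `α = heckeAlphaBar L N ℓ` and `β = heckeBetaBar L N ℓ` are the degeneracy maps
`f(t) ↦ f(t)`, `f(t) ↦ f(t^ℓ)` from level `N` to level `N ℓ`; `w : AL L m q` and `w₂ : AL2 L m q w`
are the Atkin-Lehner involutions of the levels `q m` and `q² m`; `qExpand K d` is `t ↦ t^d`,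
`twist v` is `t ↦ v t`, `H61.theta = t d/dt`, and `coeffMap f` applies `f` to the coefficients.

The library theorems cited in this file are in the proof terms of S01, S03, S04, S06, S36, S38, S43,
S45, S46, S50, S58, S59 and S60 (some of them also of other statements). `NOTES.md`: [104] (C4).
Library files: `H99Gauss`, `H99Gauss2`, `H99Emb1`, `H99Emb2`, `H99Emb3`, `H99Base`, `H99Base2`,
`H99Hor`, `H99Cyclo`, `H99Three1` to `H99Three8` (helper99). Text: helper99. The file is imported by
no other file except the list `Guide`.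
-/

set_option autoImplicit false

noncomputable section

open ModularCurve AlgebraicCurve Polynomial IntermediateField Module
open Fermat.Agent.H60 (twist normAlong)
open Fermat.Agent.H66 (J HasRoots)
open Fermat.Agent.H99 (FX AL AL2 GR gres Unif Bdd bddRing RamData SeriesHom horX jX)

namespace Fermat.Agent.Guide.ThreeSheets

/-! ## 1. The Gauss ring and homomorphisms of Laurent series -/

section Gauss

variable {K : Type*} [Field K] {A : ValuationSubring K} {k : Type*} [Field k] {π : A →+* k}

/-- **1. Rules for residues.** `gres` is additive and multiplicative on the Gauss ring, it is `π` on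
constants of `A`, and an element with nonzero residue is a unit of the Gauss ring, with the inverse
residue. (So `GR A π` is a local ring.) File: `H99Gauss`. -/
theorem residue_rules {x y : LaurentSeries K} (hx : x ∈ GR A π) (hy : y ∈ GR A π) (a : A) :
    gres A π (x + y) = gres A π x + gres A π y ∧ gres A π (x * y) = gres A π x * gres A π y ∧
      gres A π (algebraMap K (LaurentSeries K) a) = algebraMap k (LaurentSeries k) (π a) ∧
      (gres A π x ≠ 0 → x⁻¹ ∈ GR A π ∧ gres A π x⁻¹ = (gres A π x)⁻¹) :=
  ⟨H99.gres_add hx hy, H99.gres_mul hx hy, H99.gres_const a,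
    fun h => ⟨H99.inv_mem_gr h, H99.gres_inv h⟩⟩

/-- **2. Content.** `bddRing A` consists of the series with bounded denominators: `c x` has
coefficients in `A` for some constant `c ≠ 0`. Such a series, if it is not zero, is a power of `ϖ`
times a series with coefficients in `A` and nonzero reduction. (Divide by the maximal power of `ϖ`
which divides all coefficients; it exists, because one nonzero coefficient bounds it.) File:
`H99Gauss`. -/
theorem content {ϖ : A} (hϖ : Unif A π ϖ) (x : LaurentSeries K) :
    (x ∈ bddRing A ↔ ∃ (c : K) (y : LaurentSeries A), c ≠ 0 ∧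
        algebraMap K (LaurentSeries K) c * x = coeffMap A.subtype y) ∧
      (x ∈ bddRing A → x ≠ 0 → ∃ (n : ℤ) (y : LaurentSeries A), coeffMap π y ≠ 0 ∧
        x = algebraMap K (LaurentSeries K) ((ϖ : K) ^ n) * coeffMap A.subtype y) :=
  ⟨Iff.rfl, fun hx h0 => H99.exists_content hϖ hx h0⟩

/-- **3. The field `Bdd A`** of the quotients of such series: each of its nonzero elements is a
power of `ϖ` times a quotient `y/z` of series with nonzero reductions; so the power of `ϖ` is the
Gauss valuation. File: `H99Gauss2`. -/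
theorem bounded_quotients {ϖ : A} (hϖ : Unif A π ϖ) (x : LaurentSeries K) :
    (x ∈ Bdd A ↔ ∃ y ∈ bddRing A, ∃ z ∈ bddRing A, x = y / z) ∧
      (x ∈ Bdd A → x ≠ 0 → ∃ (n : ℤ) (y z : LaurentSeries A), coeffMap π y ≠ 0 ∧
        coeffMap π z ≠ 0 ∧ x * coeffMap A.subtype z =
          algebraMap K (LaurentSeries K) ((ϖ : K) ^ n) * coeffMap A.subtype y) :=
  ⟨H99.mem_Bdd_iff A, fun hx h0 => H99.exists_eq_of_mem_Bdd hϖ hx h0⟩

/-- **4. Residue zero means divisible by `ϖ`.** File: `H99Gauss`. -/
theorem div_of_residue_zero {ϖ : A} (hϖ : Unif A π ϖ) {x : LaurentSeries K} (hx : x ∈ GR A π)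
    (h0 : gres A π x = 0) : x / algebraMap K (LaurentSeries K) ϖ ∈ GR A π :=
  H99.div_mem_of_gres_eq_zero hϖ hx h0

/-- **5. A valuation ring from an embedding.** If the field `F` is embedded into `K((t))` with
values in `Bdd A`, then the elements whose expansion is in the Gauss ring form a valuation ring `gV`
of `F`, with the residue map `gρ`. This is how the components are defined. File: `H99Gauss2`. -/
theorem valuation_of_embedding {ϖ : A} (hϖ : Unif A π ϖ) {F : Type*} [Field F]
    (e : F →+* LaurentSeries K) (he : ∀ x, e x ∈ Bdd A) :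
    (∀ x, x ∈ H99.gV hϖ e he ↔ e x ∈ GR A π) ∧
      ∀ x : H99.gV hϖ e he, H99.gρ hϖ e he x = gres A π (e x) ∧
        (H99.gρ hϖ e he x ≠ 0 → IsUnit x) :=
  ⟨fun _ => Iff.rfl, fun x => ⟨rfl, H99.gρ_unit hϖ e he x⟩⟩

/-- **6. Homomorphisms compatible with reduction.** `G : SeriesHom A π A' π'` consists of
homomorphisms `K((t)) → K'((t))`, `A((t)) → A'((t))`, `k((t)) → k'((t))` which commute with the
inclusions and the reductions. The first one maps the Gauss ring to the Gauss ring, commutes with
residues, and a series in `Bdd A` is in the Gauss ring if its image is. Files: `H99Gauss2`,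
`H99Three4`. -/
theorem compatible_homomorphism {K' : Type*} [Field K'] {A' : ValuationSubring K'} {k' : Type*}
    [Field k'] {π' : A' →+* k'} (G : SeriesHom A π A' π') (x : LaurentSeries K) :
    (∀ y, G.g (coeffMap A.subtype y) = coeffMap A'.subtype (G.gA y)) ∧
      (∀ y, G.gk (coeffMap π y) = coeffMap π' (G.gA y)) ∧
      (x ∈ GR A π → G.g x ∈ GR A' π' ∧ gres A' π' (G.g x) = G.gk (gres A π x)) ∧
      ∀ {ϖ : A}, Unif A π ϖ → x ∈ Bdd A → (G.g x ∈ GR A' π' ↔ x ∈ GR A π) :=
  ⟨G.comm, G.comm', fun h => ⟨G.mem h, G.gres h⟩, fun hϖ hx => H99.SeriesHom.mem_iff hϖ G hx⟩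

/-- **7. The substitutions** `t ↦ t^d` and `t ↦ u t` with a unit `u ≡ 1`: the residue of `x(t^d)` is
`x̄(t^d)`, and the residue of `x(u t)` is `x̄`. Files: `H99Gauss2`, `H99Three4`. -/
theorem substitutions {x : LaurentSeries K} (hx : x ∈ GR A π) (d : ℕ) [NeZero d] (u : Aˣ)
    (hu : π u = 1) {v : Kˣ} (hv : (v : K) = (u : A)) :
    (qExpand K d x ∈ GR A π ∧ gres A π (qExpand K d x) = qExpand k d (gres A π x)) ∧
      twist v x ∈ GR A π ∧ gres A π (twist v x) = gres A π x :=
  ⟨⟨H99.expand_mem d hx, H99.gres_expand d hx⟩, H99.twist_mem u hu hv hx,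
    H99.gres_twist u hu hv hx⟩

/-- **8. Series with integral coefficients**, for instance `j(d z)`: they are in the Gauss ring, and
the residue is the same series with coefficients in `k`. File: `H99Gauss2`. -/
theorem integral_series (y : LaurentSeries ℤ) (d : ℕ) :
    (coeffMap (Int.castRingHom K) y ∈ GR A π ∧
      gres A π (coeffMap (Int.castRingHom K) y) = coeffMap (Int.castRingHom k) y) ∧
    J K d ∈ GR A π ∧ gres A π (J K d) = J k d ∧ J K d ∈ Bdd A :=
  ⟨⟨H99.intSeries_mem y, H99.gres_intSeries y⟩, H99.J_mem_GR d, H99.gres_J d, H99.J_mem_Bdd A d⟩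

end Gauss

/-!
## 2. Extension of the constants: bases, norms and traces

The function fields over `L` are obtained from those over `ℚ` by extension of the constants, inside
`L((t))`: `laurentBaseChange L A` is generated over `L` by the series of `A ⊂ ℚ((t))`.
-/

/-- **9. Bases of subfields.** `IsBas A B b`, for subfields `A`, `B` of a field `E`: the finite
family `b` of elements of `B` is independent over `A` and spans `B`. File: `H99Base`. -/
theorem isBas_iff {K E : Type*} [Field K] [Field E] [Algebra K E] {A B : IntermediateField K E}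
    {ι : Type*} [Fintype ι] {b : ι → E} : H99.IsBas A B b ↔
      (∀ i, b i ∈ B) ∧ (∀ x : ι → E, (∀ i, x i ∈ A) → ∑ i, x i * b i = 0 → x = 0) ∧
        ∀ f ∈ B, ∃ x : ι → E, (∀ i, x i ∈ A) ∧ f = ∑ i, x i * b i :=
  ⟨fun h => ⟨h.1, h.2, h.3⟩, fun h => ⟨h.1, h.2.1, h.2.2⟩⟩

/-- **10. Base change of bases.** A basis of `B` over `A`, `A, B ⊂ ℚ((t))`, is also a basis of `L B`
over `L A` for every field `L ⊃ ℚ`. (Independence: after multiplication by a common denominator the
coefficients of a relation are in the ring `L[A]`; a `ℚ`-linear map `L → ℚ`, applied to the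
coefficients of the series, maps `L[A]` to `A` and the relation to a relation over `A`.) File:
`H99Base`. -/
theorem baseChange_basis {A B : IntermediateField ℚ (LaurentSeries ℚ)} {ι : Type*} [Fintype ι]
    {b : ι → LaurentSeries ℚ} (L : Type*) [Field L] [Algebra ℚ L] (hb : H99.IsBas A B b) :
    H99.IsBas (laurentBaseChange L A) (laurentBaseChange L B) (fun i => coeffEmb L (b i)) :=
  hb.baseChange L

/-- **11. Degrees do not depend on the field of constants.** If `B` is finite over `A`, then
`[L B : L A] = [B : A]`; and `B` is finite over `A` if `L B` is finite over `L A` for one `L` (the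
degree `relfinrank` is `0` for infinite extensions). `L ℚ(j) = L(j)`. Together with the case of an
algebraically closed field (`degree_with_roots`) this gives theorem 6 of `GuideCarayolModel`. File:
`H99Base`. -/
theorem degree_baseChange {A B : IntermediateField ℚ (LaurentSeries ℚ)} (L : Type*) [Field L]
    [Algebra ℚ L] (hAB : A ≤ B) :
    (relfinrank (laurentBaseChange L A) (laurentBaseChange L B) ≠ 0 →
        FiniteDimensional A (extendScalars hAB)) ∧
      (FiniteDimensional A (extendScalars hAB) →
        relfinrank (laurentBaseChange L A) (laurentBaseChange L B) = relfinrank A B) ∧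
      laurentBaseChange L ℚ⟮jq⟯ = L⟮jqModC L⟯ :=
  ⟨H99.finite_of_baseChange L hAB, fun _ => H99.relfinrank_baseChange L hAB,
    H99.laurentBaseChange_adjoin_jq L⟩

/-- **12. The degree.** If `L` contains the roots of unity of all prime orders, the function field of
`X₀(N)` has the degree `ψ(N)` over `L(j)`. Files: `H99Emb1`, `H66Degree`. -/
theorem degree_with_roots {L : Type*} [Field L] [CharZero L] [Fact (HasRoots L)] (N : ℕ) [NeZero N] :
    relfinrank L⟮jqModC L⟯ (modularFunctionFieldFullC L N) = dedekindPsi N :=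
  H99.degreeFact_of_hasRoots N

/-- **13. Norms and traces under a homomorphism of extensions.** `σ : S → S'` over `ρ : R → R'` maps
a basis of `S` over `R` to a basis of `S'` over `R'`; then `σ` commutes with norms and traces. File:
`H99Base2`. -/
theorem norm_trace_map {R S R' S' ι : Type*} [CommRing R] [CommRing S] [CommRing R'] [CommRing S']
    [Algebra R S] [Algebra R' S'] [Fintype ι] [DecidableEq ι] (ρ : R →+* R') (σ : S →+* S')
    (h : ∀ r, σ (algebraMap R S r) = algebraMap R' S' (ρ r)) (b : Basis ι R S)
    (b' : Basis ι R' S') (hb : ∀ i, σ (b i) = b' i) (z : S) :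
    Algebra.norm R' (σ z) = ρ (Algebra.norm R z) ∧
      Algebra.trace R' S' (σ z) = ρ (Algebra.trace R S z) :=
  ⟨H99.norm_map ρ σ h b b' hb z, H99.trace_map ρ σ h b b' hb z⟩

section BaseChange

variable {L L' : Type*} [Field L] [Field L'] [Algebra ℚ L] [Algebra ℚ L'] [Algebra L L']

/-- **14. Base change of the degeneracy maps, norms and traces.** `H90.baseIncl L L'` is the
inclusion of the function field over `L` into the one over `L' ⊃ L`. It commutes with `α`, `β` and
with the norm and the trace along `α` (by theorems 10 and 13: a basis over `ℚ` is a basis over `L`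
and over `L'`). File: `H99Base2`. -/
theorem baseChange_norm (N ℓ : ℕ) [NeZero N] [NeZero ℓ] (x : FX L N) (z : FX L (N * ℓ)) :
    H90.baseIncl L L' _ (heckeAlphaBar L N ℓ x) = heckeAlphaBar L' N ℓ (H90.baseIncl L L' _ x) ∧
      H90.baseIncl L L' _ (heckeBetaBar L N ℓ x) = heckeBetaBar L' N ℓ (H90.baseIncl L L' _ x) ∧
      normAlong (heckeAlphaBar L' N ℓ) (H90.baseIncl L L' _ z) =
        H90.baseIncl L L' _ (normAlong (heckeAlphaBar L N ℓ) z) ∧
      H34.Two.traceAlong (heckeAlphaBar L' N ℓ) (H90.baseIncl L L' _ z) =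
        H90.baseIncl L L' _ (H34.Two.traceAlong (heckeAlphaBar L N ℓ) z) :=
  ⟨H99.baseIncl_alpha N ℓ x, H99.baseIncl_beta N ℓ x, H99.baseIncl_normAlong N ℓ z,
    H99.baseIncl_traceAlong N ℓ z⟩

/-- **15. Base change of the involutions.** Both Atkin-Lehner involutions commute with the extension
of the constants: compare the values at the `j(d z)`, resp. at the images of `α` and `β`. File:
`H99Base2`. -/
theorem baseChange_involutions {m q : ℕ} [NeZero m] [NeZero q] (hq : q.Prime) (w : AL L m q)
    (w' : AL L' m q) (w₂ : AL2 L m q w) (w₂' : AL2 L' m q w') (x : FX L (m * q))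
    (y : FX L (m * q * q)) :
    H90.baseIncl L L' _ (w.W x) = w'.W (H90.baseIncl L L' _ x) ∧
      H90.baseIncl L L' _ (w₂.W₂ y) = w₂'.W₂ (H90.baseIncl L L' _ y) :=
  ⟨H99.baseIncl_W hq w w' x, H99.baseIncl_W₂ hq w w' w₂ w₂' y⟩

end BaseChange

/-! ## 3. The embeddings of the function field of `X₀(q² m)` -/

/-- **16. Homomorphisms of simple extensions.** `A ⊂ B` are subfields of `E`, `B` is generated over
`A` by an integral element `x`, and `y ∈ E` is a root of the minimal polynomial of `x` over `A`.
There is a homomorphism `B → E` which is the identity on `A` and maps `x` to `y`. File: `H99Emb1`.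
-/
theorem exists_homomorphism {K E : Type*} [Field K] [Field E] [Algebra K E]
    {A B : IntermediateField K E} (h : A ≤ B) {x : E} (hx : x ∈ B)
    (hgen : ∀ F : IntermediateField K E, A ≤ F → x ∈ F → B ≤ F) (hint : IsIntegral A x)
    (y : E) (hy : aeval y (minpoly A x) = 0) :
    ∃ σ : B →ₐ[K] E, (∀ a : A, σ (IntermediateField.inclusion h a) = (a : E)) ∧ σ ⟨x, hx⟩ = y :=
  H99.exists_algHom_of_gen h hx hgen hint y hy

/-- **17. The conjugates of `j(q² z)` over level `q m`.** Let the modular polynomial at `j(p z)` be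
the product of the `X - y_a`, where `y_a` is `j(p² z)` or one of the `p` series `j(u^i t)`,
`0 ≤ i < p` (`H66.jf`; in the application `u` is a primitive `p`-th root of unity). Let `F` be a
field which contains `j(z)` and `j(p z)`, and over which `j(p² z)` has degree at least `p`. Then all
`y_a` except `j(z)` are roots of its minimal polynomial over `F`. (The minimal polynomial is a
product of `X - y_a` over a set of indices `a` with at least `p` elements; `j(z) ∈ F` is not a
root.) File: `H99Emb1`. -/
theorem conjugates_of_j {K : Type*} [Field K] {p : ℕ} [Fact p.Prime] {u : Kˣ} {Φ : K[X][X]}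
    (hmon : Φ.Monic) (hΦ : H66.phiAt K Φ (J K p) = ∏ a, (X - C (H66.jf K p u a)))
    (F : IntermediateField K (LaurentSeries K)) (hJ1 : J K 1 ∈ F) (hJp : J K p ∈ F)
    (hd : p ≤ (minpoly F (J K (p * p))).natDegree) (a : Option (Fin p)) (ha : a ≠ some 0) :
    aeval (H66.jf K p u a) (minpoly F (J K (p * p))) = 0 :=
  H99.root_minpoly hmon hΦ F hJ1 hJp hd a ha

section Generation

variable {L : Type*} [Field L] [Algebra ℚ L]

/-- **18. Generation.** The function field of `X₀(N ℓ)`, `ℓ` prime, is generated by the images of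
the two degeneracy maps; so homomorphisms (not necessarily linear over `L`) which agree on these
images are equal, and if the values on the images are in a subfield, all values are. Files:
`H99Emb2`, `H99Base2`, `H99Three2`. -/
theorem generation (N ℓ : ℕ) [NeZero N] [NeZero ℓ] (hℓ : ℓ.Prime) :
    (∀ F : IntermediateField L (LaurentSeries L), FX L N ≤ F →
      (∀ x : FX L N, qExpand L ℓ (x : LaurentSeries L) ∈ F) → FX L (N * ℓ) ≤ F) ∧
    (∀ {E : Type*} [Field E] (φ ψ : FX L (N * ℓ) →+* E),
      (∀ x, φ (heckeAlphaBar L N ℓ x) = ψ (heckeAlphaBar L N ℓ x)) →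
      (∀ x, φ (heckeBetaBar L N ℓ x) = ψ (heckeBetaBar L N ℓ x)) → φ = ψ) ∧
    ∀ {E : Type*} [Field E] [Algebra L E] (φ : FX L (N * ℓ) →ₐ[L] E) (G : IntermediateField L E),
      (∀ x, φ (heckeAlphaBar L N ℓ x) ∈ G) → (∀ x, φ (heckeBetaBar L N ℓ x) ∈ G) → ∀ x, φ x ∈ G :=
  ⟨fun F h1 h2 => H99.full_le_of N ℓ hℓ F h1 h2, fun φ ψ h1 h2 => H99.ringHom_ext' N ℓ hℓ φ ψ h1 h2,
    fun φ G h1 h2 => H99.forall_mem_of_alpha_beta N ℓ hℓ φ G h1 h2⟩

/-- **19. The involution `w_q` on the generators**: it exchanges `j(d z)` and `j(q d z)`, `d ∣ m`.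
File: `H99Emb3`. -/
theorem involution_on_generators {m q : ℕ} [NeZero m] [NeZero q] (w : AL L m q) {d : ℕ}
    (hd : d ∣ m) (h : J L d ∈ FX L (m * q)) (h' : J L (q * d) ∈ FX L (m * q)) :
    w.W ⟨J L d, h⟩ = ⟨J L (q * d), h'⟩ ∧ w.W ⟨J L (q * d), h'⟩ = ⟨J L d, h⟩ :=
  ⟨w.W_J hd h h', w.W_Jq hd h h'⟩

end Generation

section Embeddings

variable {L : Type*} [Field L] [Algebra ℚ L] [Fact (HasRoots L)] [CharZero L] {m q : ℕ} [NeZero m]
  [NeZero q] (hq : q.Prime) (hqm : ¬ q ∣ m) (w : AL L m q)

/-- **20. The middle embedding** `midEmb v` of the function field of `X₀(q² m)` for a primitive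
`q`-th root of unity `v` (theorem 20 of `GuideCarayolModel`): `α x ↦ x`, `β x ↦ (w x)(v t)`, and
`j(q² z) ↦ j(v t)`. Its values are in `Bdd A`. (First one constructs it with `α x ↦ x` and
`j(q² z) ↦ j(v t)`, from theorems 16 and 17; then the formula for `β` is checked at the `j(d z)`.)
Files: `H99Emb1`, `H99Emb2`, `H99Three2`. -/
theorem middle_embedding {v : Lˣ} (hv : IsPrimitiveRoot v q) (x : FX L (m * q)) :
    H99.midEmb hq hqm w hv (heckeAlphaBar L (m * q) q x) = (x : LaurentSeries L) ∧
      H99.midEmb hq hqm w hv (heckeBetaBar L (m * q) q x) = twist v (w.W x : LaurentSeries L) ∧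
      (∀ h : J L (q * q) ∈ FX L (m * q * q),
        H99.midEmb hq hqm w hv ⟨J L (q * q), h⟩ = twist v (J L 1)) ∧
      ∀ (A : ValuationSubring L) (u : Aˣ), (v : L) = (u : A) → ∀ y : FX L (m * q * q),
        H99.midEmb hq hqm w hv y ∈ Bdd A :=
  ⟨H99.midEmb_alpha hq hqm w hv x, H99.midEmb_beta hq hqm w hv x, H99.midEmb_J hq hqm w hv,
    fun A u hu y => H99.midEmb_mem_Bdd hq hqm w A hv u hu y⟩

/-- **21. The middle embeddings and `w_{q²}`**: `midEmb v ∘ w₂` is `midEmb v⁻¹` followed by
`t ↦ v t`. So `w₂` maps the middle component to itself. (Compare the values at the images of `α` and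
`β`.) File: `H99Emb3`. -/
theorem middle_embedding_involution (w₂ : AL2 L m q w) {v : Lˣ} (hv : IsPrimitiveRoot v q)
    (x : FX L (m * q * q)) :
    H99.midEmb hq hqm w hv (w₂.W₂ x) = twist v (H99.midEmb hq hqm w hv.inv x) :=
  H99.midEmb_W₂ hq hqm w w₂ hv x

/-- **22. All embeddings over level `q m`.** `u` is a primitive `q`-th root of unity. `allEmb 0` is
the inclusion and `allEmb i` is the middle embedding for `u ^ i`, `0 < i < q`: these are
`[F_{q² m} : F_{q m}] = q` different extensions of the inclusion of the function field of `X₀(q m)`.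
Hence the norm and the trace along `α` are the product and the sum over them. Files: `H99Emb2`,
`H99Three2`. -/
theorem all_embeddings {u : Lˣ} (hu : IsPrimitiveRoot u q) :
    ((∀ (i : Fin q) (z : FX L (m * q * q)), (i : ℕ) = 0 →
        H99.allEmb hq hqm w hu i z = (z : LaurentSeries L)) ∧
      (∀ i : Fin q, (i : ℕ) ≠ 0 → ∀ hv : IsPrimitiveRoot (u ^ (i : ℕ)) q,
        H99.allEmb hq hqm w hu i = H99.midEmb hq hqm w hv)) ∧
    (∀ (i : Fin q) (x : FX L (m * q)),
      H99.allEmb hq hqm w hu i (heckeAlphaBar L (m * q) q x) = (x : LaurentSeries L)) ∧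
    Function.Injective (H99.allEmb hq hqm w hu) ∧ finrankAlong L (heckeAlphaBar L (m * q) q) = q ∧
    ∀ z : FX L (m * q * q),
      ((normAlong (heckeAlphaBar L (m * q) q) z : FX L (m * q)) : LaurentSeries L) =
        ∏ i, H99.allEmb hq hqm w hu i z ∧
      ((H34.Two.traceAlong (heckeAlphaBar L (m * q) q) z : FX L (m * q)) : LaurentSeries L) =
        ∑ i, H99.allEmb hq hqm w hu i z :=
  ⟨⟨fun i z h => by rw [H99.allEmb, dif_pos h]; rfl, fun i h hv => by rw [H99.allEmb, dif_neg h]⟩,
    fun i x => H99.allEmb_alpha hq hqm w hu i x, H99.allEmb_injective hq hqm w hu,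
    H99.finrank_alpha_q hq, fun z => ⟨H99.coe_normAlong_alpha hq hqm w hu z,
      H99.coe_traceAlong_alpha hq hqm w hu z⟩⟩

/-- **23. Norm and trace on the other side.** `w_q (N_α z)`, after `t ↦ t^q`, is the product of the
`q` series `(w₂ z)(u^i t)`; the same for the trace and the sum. (The `q` homomorphisms
`z ↦ (w₂ z)(u^i t)` extend `x ↦ (w_q x)(t^q)`, because `w₂ (α x) = β (w_q x)` is a series in `t^q`;
they are different, because `w₂` maps `j(q² z)` to `j(z)`.) Files: `H99Emb3`, `H99Three2`. -/
theorem norm_other_side {w : AL L m q} (w₂ : AL2 L m q w) (hq : q.Prime) {u : Lˣ}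
    (hu : IsPrimitiveRoot u q) (z : FX L (m * q * q)) :
    qExpand L q ((w.W (normAlong (heckeAlphaBar L (m * q) q) z) : FX L (m * q)) :
        LaurentSeries L) =
      ∏ i : Fin q, twist (u ^ (i : ℕ)) ((w₂.W₂ z : FX L (m * q * q)) : LaurentSeries L) ∧
    qExpand L q ((w.W (H34.Two.traceAlong (heckeAlphaBar L (m * q) q) z) : FX L (m * q)) :
        LaurentSeries L) =
      ∑ i : Fin q, twist (u ^ (i : ℕ)) ((w₂.W₂ z : FX L (m * q * q)) : LaurentSeries L) :=
  ⟨H99.qExpand_W_normAlong_alpha hq w w₂ hu z, H99.qExpand_W_traceAlong_alpha hq w₂ hu z⟩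

end Embeddings

/-!
## 4. Functions regular outside the cusps

`horX K N` is the ring of the functions on `X₀(N)` which are integral over `K[j]`.
-/

section Regular

variable {K : Type*} [Field K] [Algebra ℚ K] {N : ℕ} [NeZero N]

/-- **24. Regularity can be tested on series**: `x` is integral over `K[j]` in the function field if
and only if its expansion is integral over `K[j]` in `K((t))`; and the ring `horX` is integrally
closed in the function field. File: `H99Hor`. -/
theorem regular_iff (x : FX K N) :
    (x ∈ horX K N ↔ IsIntegral (Algebra.adjoin K {jX K N}) x) ∧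
      (x ∈ horX K N ↔ IsIntegral (Algebra.adjoin K {J K 1}) (x : LaurentSeries K)) ∧
      (IsIntegral (horX K N) x → x ∈ horX K N) :=
  ⟨Iff.rfl, H99.mem_horX_iff, H99.horX_closed⟩

/-- **25. `j(d z)` is integral over `K[j]`.** Over a field with enough roots of unity `j(p d z)` is
a root of the modular polynomial of level `p` at `j(d z)`, which is monic, for every prime `p`;
induction on the number of prime factors gives the result over such a field. In general one passes
to the algebraic closure `L` of `K`: a series over `K` which is integral over `L[j]` is integral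
over `K[j]`. File: `H99Hor`. -/
theorem j_integral {d : ℕ} (hd : d ≠ 0) :
    IsIntegral (Algebra.adjoin K {J K 1}) (J K d) ∧
      (∀ {L : Type*} [Field L] [CharZero L], HasRoots L → ∀ {p : ℕ}, p.Prime → ∀ (d : ℕ) [NeZero d],
        IsIntegral (Algebra.adjoin L {J L d}) (J L (p * d))) ∧
      ∀ {L : Type*} [Field L] [Algebra ℚ L] [Algebra K L] [Algebra.IsAlgebraic K L]
        {x : LaurentSeries K}, IsIntegral (Algebra.adjoin L {J L 1}) (coeffMap (algebraMap K L) x) →
          IsIntegral (Algebra.adjoin K {J K 1}) x :=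
  ⟨H99.J_mem_horS hd, fun hL _ hp d _ => H99.isIntegral_J_aux hL hp d,
    fun h => H99.mem_horS_of_coeffMap h⟩

/-- **26. The degeneracy maps preserve regular functions**, and a function of level `N ℓ` which is
integral over `K[j]` is integral over the regular functions of level `N` (along `α`); so its norm
and its trace are regular. File: `H99Hor`. -/
theorem regular_degeneracy {ℓ : ℕ} [NeZero ℓ] :
    (∀ x ∈ horX K N, heckeAlphaBar K N ℓ x ∈ horX K (N * ℓ) ∧
      heckeBetaBar K N ℓ x ∈ horX K (N * ℓ)) ∧
    ∀ x ∈ horX K (N * ℓ), ((heckeAlphaBar K N ℓ : FX K N →+* FX K (N * ℓ)).comp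
        (horX K N).subtype).IsIntegralElem x ∧
      normAlong (heckeAlphaBar K N ℓ) x ∈ horX K N ∧
      H34.Two.traceAlong (heckeAlphaBar K N ℓ) x ∈ horX K N :=
  ⟨fun _ hx => ⟨H99.alpha_mem_horX hx, H99.beta_mem_horX hx⟩, fun _ hx =>
    ⟨H99.isIntegral_horX hx, H99.normAlong_mem_horX hx, H99.traceAlong_mem_horX hx⟩⟩

/-- **27. The Atkin-Lehner involutions preserve regular functions**: `w_q j = j(q z)` and
`w_{q²} j = j(q² z)` are integral over `K[j]`. File: `H99Hor`. -/
theorem regular_involutions {m q : ℕ} [NeZero m] [NeZero q] (w : AL K m q) (w₂ : AL2 K m q w) :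
    (∀ x ∈ horX K (m * q), w.W x ∈ horX K (m * q)) ∧
      ∀ x ∈ horX K (m * q * q), w₂.W₂ x ∈ horX K (m * q * q) :=
  ⟨fun _ hx => H99.W_mem_horX w hx, fun _ hx => H99.W₂_mem_horX w w₂ hx⟩

end Regular

/-!
## 5. The extension `K(ζ)` and the middle component

`D : RamData A π A' π' q`: `K' ⊃ K` contains a primitive `q`-th root of unity `D.ζ`, `q` is a
uniformizer of `A`, `D.ϖ = D.ζ - 1` is a uniformizer of `A'`, the residue fields are the same
(theorem 22 of `GuideCarayolModel`).
-/

section Ramified

variable {K K' k : Type*} [Field K] [Field K'] [Algebra K K'] [Field k] {A : ValuationSubring K}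
  {π : A →+* k} {A' : ValuationSubring K'} {π' : A' →+* k} {q : ℕ} (D : RamData A π A' π' q)

/-- **28. Powers of `ζ - 1`.** (a) `(ζ - 1)^(q-1) = q v` with `v ≡ -1`. (b) `ζ^n - 1 = (ζ - 1) g`
with `g ≡ n`, for all integers `n`; `D.u` is `ζ` as a unit of `A'`. From (b), applied to the
coefficients, one gets theorem 24 of `GuideCarayolModel`. Files: `H99Cyclo`, `H99Three1`. -/
theorem powers_of_zeta [CharP k q] (hq : q.Prime) (n : ℤ) :
    ((D.u : A') : K') = D.ζ ∧ π' D.u = 1 ∧
      (∃ v : A', π' v = -1 ∧ D.ϖ ^ (q - 1) = (q : A') * v) ∧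
      ∃ g : A', π' g = (n : k) ∧ ((D.u ^ n : A'ˣ) : A') - 1 = D.ϖ * g :=
  ⟨D.coe_u, D.map_u, D.exists_pow_eq hq, D.exists_zpow_sub_one n⟩

include D in
/-- **29. Series over `K` in `K'((t))`**: for `x` in `Bdd A` the residue does not change, and `x` is
in the Gauss ring of `A'` if and only if it is in the one of `A`. File: `H99Three1`. -/
theorem coefficient_extension {x : LaurentSeries K} (hx : x ∈ Bdd A) :
    (coeffMap (algebraMap K K') x ∈ GR A' π' ↔ x ∈ GR A π) ∧
      gres A' π' (coeffMap (algebraMap K K') x) = gres A π x :=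
  ⟨D.coeff_mem_iff hx, D.gres_coeff' hx⟩

/-- **30. The Galois group**: `D.Gal` says that for `i` prime to `q` there is an endomorphism `σ` of
`K'` over `K` which preserves `A'`, is the identity on the residue field, and maps `ζ` to `ζ^i`. (For
the inertia field such data `D` are constructed in `GuideCharts`, section 7.) File: `H99Three3`. -/
theorem gal_iff : D.Gal ↔ ∀ i : ℕ, ¬ q ∣ i → ∃ (σ : K' →+* K') (σA : A' →+* A'),
    (∀ c : K, σ (algebraMap K K' c) = algebraMap K K' c) ∧ (∀ a : A', ((σA a : A') : K') = σ a) ∧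
      (∀ a, π' (σA a) = π' a) ∧ σ (D.ζ : K') = (D.ζ : K') ^ i :=
  Iff.rfl

variable [Algebra ℚ K] [Algebra ℚ K'] [CharZero K'] [Fact (HasRoots K')] {m : ℕ} [NeZero m]
  [NeZero q] (hq : q.Prime) (hqm : ¬ q ∣ m) {w : AL K m q} (w' : AL K' m q)

/-- **31. The conjugates of the middle embedding.** `midK v` is the middle embedding of theorem 20
over `K'`, restricted to functions over `K`. For `v = ζ^i`, `i` prime to `q`, it is `σ ∘ midK ζ`
(`σ` as in theorem 30, applied to the coefficients), so it defines the same valuation ring and the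
same residues: the `q - 1` middle embeddings give ONE component. File: `H99Three3`. -/
theorem conjugate_embeddings (hG : D.Gal) (w : AL K m q) {v : K'ˣ} (hv : IsPrimitiveRoot v q)
    {i : ℕ} (hi : v = D.ζ ^ i) (hi' : ¬ q ∣ i) (x : FX K (m * q * q)) :
    H99.midK hq hqm w' hv x = H99.midEmb hq hqm w' hv (H90.baseIncl K K' _ x) ∧
      (∃ G : SeriesHom A' π' A' π', (∀ x, G.gk x = x) ∧ ∀ x : FX K (m * q * q),
        H99.midK hq hqm w' hv x = G.g (H99.midK hq hqm w' D.prim x)) ∧
      (H99.midK hq hqm w' D.prim x ∈ GR A' π' → H99.midK hq hqm w' hv x ∈ GR A' π' ∧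
        gres A' π' (H99.midK hq hqm w' hv x) = gres A' π' (H99.midK hq hqm w' D.prim x)) :=
  ⟨rfl, H99.midK_conj hq hqm w' D hG w hv hi hi', fun hx =>
    ⟨H99.midK_mem hq hqm w' D hG w hv hi hi' hx, H99.gres_midK hq hqm w' D hG w hv hi hi' hx⟩⟩

/-- **32. `w_{q²}` and the middle component**: it preserves the valuation ring and the residues.
(From theorems 21 and 31, and `t ↦ ζ t` does not change residues.) File: `H99Three3`. -/
theorem middle_component_involution (hG : D.Gal) (w₂ : AL2 K m q w) (w₂' : AL2 K' m q w')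
    {x : FX K (m * q * q)} (hx : H99.midK hq hqm w' D.prim x ∈ GR A' π') :
    H99.midK hq hqm w' D.prim (w₂.W₂ x) ∈ GR A' π' ∧
      gres A' π' (H99.midK hq hqm w' D.prim (w₂.W₂ x)) =
        gres A' π' (H99.midK hq hqm w' D.prim x) :=
  H99.midK_W₂_mem hq hqm w' w₂ D hG w₂' hx

/-- **33. Multiplicities.** `emb3 0`, `emb3 1`, `emb3 2` are the expansion of `x`, `midK ζ x` and
the expansion of `w₂ x`; all values are in `Bdd A'`. The multiplicities are `1, q - 1, 1`: a
function over `K` with residue `0` at `∞` is divisible by `q`, because `q` is a uniformizer of `A`;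
at the middle component only its `(q-1)`-th power is, by theorems 4 and 28. File: `H99Three3`. -/
theorem three_embeddings_bounded (w₂ : AL2 K m q w) (x : FX K (m * q * q)) :
    (∀ i, H99.emb3 hq hqm w' w₂ D i x ∈ Bdd A') ∧
      (H99.e3 q 0 = 1 ∧ H99.e3 q 1 = q - 1 ∧ H99.e3 q 2 = 1) ∧
      (coeffMap (algebraMap K K') (x : LaurentSeries K) ∈ GR A' π' →
        gres A' π' (coeffMap (algebraMap K K') (x : LaurentSeries K)) = 0 →
        coeffMap (algebraMap K K') (x : LaurentSeries K) / (q : LaurentSeries K') ∈ GR A' π') :=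
  ⟨fun i => H99.emb3_mem hq hqm w' w₂ D i x, ⟨rfl, rfl, rfl⟩,
    H99.coeff_div_q_mem D (NeZero.ne _)⟩

/-! ## 6. Norms and traces along the components -/

include hq in
/-- **34. Norms along `α` and `β`.** `normHom φ` is the norm along `φ` as a homomorphism of monoids;
`N_β = w_q ∘ N_α ∘ w₂`, and `N_α (α x) = x^q`, `N_β (β x) = x^q` for functions `x` of level `q m`.
File: `H99Three4`. -/
theorem norms_and_involutions (w₂ : AL2 K m q w) (z : FX K (m * q * q)) (x : FX K (m * q)) :
    H99.normHom (heckeAlphaBar K (m * q) q) z = normAlong (heckeAlphaBar K (m * q) q) z ∧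
      H99.normHom (heckeBetaBar K (m * q) q) z =
        w.W (H99.normHom (heckeAlphaBar K (m * q) q) (w₂.W₂ z)) ∧
      H99.normHom (heckeAlphaBar K (m * q) q) (heckeAlphaBar K (m * q) q x) = x ^ q ∧
      H99.normHom (heckeBetaBar K (m * q) q) (heckeBetaBar K (m * q) q x) = x ^ q :=
  ⟨rfl, H99.normHom_beta w₂ z, H99.normHom_alpha_self hq x, H99.normHom_beta_self w₂ hq x⟩

/-- **35. Norm and trace at the component `0` of level `q m`.** If `x` is integral along the
components `0` and `1` of level `q² m`, with residues `x₀`, `x₁`, then the norm and the trace of `x`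
are integral at the component `0`, with residues `x₀ x₁^(q-1)` and `x₀ - x₁`. (Theorem 22 over `K'`:
one embedding of type `0` and `q - 1` conjugates of the middle one, which by theorem 31 have the same
residue; and `q - 1 = -1` in `k`.) File: `H99Three5`. -/
theorem norm_trace_zero (hG : D.Gal) (w : AL K m q) [CharP k q] {x : FX K (m * q * q)}
    (h0 : coeffMap (algebraMap K K') (x : LaurentSeries K) ∈ GR A' π')
    (h1 : H99.midK hq hqm w' D.prim x ∈ GR A' π') :
    (coeffMap (algebraMap K K') ((H99.normHom (heckeAlphaBar K (m * q) q) x :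
        FX K (m * q)) : LaurentSeries K) ∈ GR A' π' ∧
      gres A' π' (coeffMap (algebraMap K K') ((H99.normHom (heckeAlphaBar K (m * q) q) x :
        FX K (m * q)) : LaurentSeries K)) =
        gres A' π' (coeffMap (algebraMap K K') (x : LaurentSeries K)) *
          gres A' π' (H99.midK hq hqm w' D.prim x) ^ (q - 1)) ∧
    coeffMap (algebraMap K K') ((H34.Two.traceAlong (heckeAlphaBar K (m * q) q) x :
        FX K (m * q)) : LaurentSeries K) ∈ GR A' π' ∧
      gres A' π' (coeffMap (algebraMap K K') ((H34.Two.traceAlong (heckeAlphaBar K (m * q) q) x :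
        FX K (m * q)) : LaurentSeries K)) =
        gres A' π' (coeffMap (algebraMap K K') (x : LaurentSeries K)) -
          gres A' π' (H99.midK hq hqm w' D.prim x) :=
  ⟨H99.normHom_alpha_zero hq hqm (w := w) w' D hG h0 h1,
    H99.trace_alpha_zero hq hqm (w := w) w' D hG h0 h1⟩

include hq D in
/-- **36. Norm and trace at the component `1` of level `q m`.** If `x` is integral along the
component `2` with residue `x₂`, then norm and trace are integral at the component `1`, and the
residue of the norm, after `t ↦ t^q`, is `x₂^q`. (Theorem 23: all `q` factors have the residue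
`x₂`.) File: `H99Three5`. -/
theorem norm_trace_one (w₂ : AL2 K m q w) (w₂' : AL2 K' m q w') {x : FX K (m * q * q)}
    (h2 : coeffMap (algebraMap K K') (w₂.W₂ x : LaurentSeries K) ∈ GR A' π') :
    coeffMap (algebraMap K K') (w.W (H99.normHom (heckeAlphaBar K (m * q) q) x) :
        LaurentSeries K) ∈ GR A' π' ∧
      qExpand k q (gres A' π' (coeffMap (algebraMap K K')
        (w.W (H99.normHom (heckeAlphaBar K (m * q) q) x) : LaurentSeries K))) =
        gres A' π' (coeffMap (algebraMap K K') (w₂.W₂ x : LaurentSeries K)) ^ q ∧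
      coeffMap (algebraMap K K') (w.W (H34.Two.traceAlong (heckeAlphaBar K (m * q) q) x) :
        LaurentSeries K) ∈ GR A' π' :=
  have h := H99.normHom_alpha_one hq w' w₂ w₂' D h2
  ⟨h.1, h.2, H99.trace_alpha_one hq w' w₂ w₂' D h2⟩

/-!
## 7. The degeneracy maps and the residues of chart functions

`T : H83.TwoData R (FX K (m * q))` is the two-component system of level `q m`, `S = H99.threeSys …`
the three-component system of level `q² m`, given by the three embeddings; `B` is the chart ring,
`V i` the valuation ring, `res i` the residue along the component `i` (`0` outside of `V i`), `R.C`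
the ring of functions on the special fibre of `X₀(m)` regular outside the cusps, a Dedekind ring.
-/

/-- **37. What is used about level `q m`.** `TwoSpec T w π X₀`: `T` is given by the regular functions
`H68.hor` and the expansions of `x` and of `w_q x`, `T.X` is a series `X₀` with coefficients in `ℤ`,
`w_q X = X(t^q)`, the derivation of `T` is `θ(·)/θ(X)`, `θ(X₀)` is not zero in `k((t))`, and `R.Φ` is
`t ↦ t^q`. For the data of theorem 13 of `GuideCarayol` it holds with `X₀ = H1.Xc c ℤ`
(`twoSpec_twoData` in `H99Three7`). File: `H99Three4`. -/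
theorem twoSpec_iff {R : H83.ResData k (LaurentSeries k) q} {T : H83.TwoData R (FX K (m * q))}
    {X₀ : LaurentSeries ℤ} : H99.TwoSpec T w π X₀ ↔
      T.hor = H68.hor K (m * q) ∧ (∀ x : FX K (m * q), x ∈ T.V 0 ↔ (x : LaurentSeries K) ∈ GR A π) ∧
      (∀ x : FX K (m * q), T.toCompSys.res 0 x = gres A π (x : LaurentSeries K)) ∧
      (∀ x, T.W x = w.W x) ∧ (T.X : LaurentSeries K) = coeffMap (Int.castRingHom K) X₀ ∧
      (w.W T.X : LaurentSeries K) = qExpand K q (coeffMap (Int.castRingHom K) X₀) ∧
      (∀ x, (T.der x : LaurentSeries K) * H61.theta (T.X : LaurentSeries K) =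
        H61.theta (x : LaurentSeries K)) ∧
      H61.theta (coeffMap (Int.castRingHom k) X₀) ≠ 0 ∧ ∀ x, R.Φ x = qExpand k q x :=
  ⟨fun h => ⟨h.1, h.2, h.3, h.4, h.5, h.6, h.7, h.8, h.9⟩,
    fun ⟨h1, h2, h3, h4, h5, h6, h7, h8, h9⟩ => ⟨h1, h2, h3, h4, h5, h6, h7, h8, h9⟩⟩

variable (w₂ : AL2 K m q w) [CharP k q] [CharZero K] {R : H83.ResData k (LaurentSeries k) q}
  {T : H83.TwoData R (FX K (m * q))} {X₀ : LaurentSeries ℤ} (hT : H99.TwoSpec T w π X₀)

local notation "S" => H99.threeSys hq hqm w' w₂ D

include hT

/-- **38. The degeneracy maps and the components.** The component `0`, `1`, `2` of level `q² m` lies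
over the component `0`, `0`, `1` of level `q m` along `α`, and over `0`, `1`, `1` along `β`. (The
residues: theorem 27 of `GuideCarayolModel`.) Both maps send the chart ring to the chart ring. File:
`H99Three6`. -/
theorem components_over (x : FX K (m * q)) :
    ((heckeAlphaBar K (m * q) q x ∈ (S).V 0 ↔ x ∈ T.V 0) ∧
      (heckeAlphaBar K (m * q) q x ∈ (S).V 1 ↔ x ∈ T.V 0) ∧
      (heckeAlphaBar K (m * q) q x ∈ (S).V 2 ↔ x ∈ T.V 1)) ∧
    ((heckeBetaBar K (m * q) q x ∈ (S).V 0 ↔ x ∈ T.V 0) ∧
      (heckeBetaBar K (m * q) q x ∈ (S).V 1 ↔ x ∈ T.V 1) ∧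
      (heckeBetaBar K (m * q) q x ∈ (S).V 2 ↔ x ∈ T.V 1)) ∧
    (x ∈ T.B → heckeAlphaBar K (m * q) q x ∈ (S).B ∧ heckeBetaBar K (m * q) q x ∈ (S).B) :=
  ⟨⟨H99.alpha_V0 hq hqm w' w₂ D hT x, H99.alpha_V1 hq hqm w' w₂ D hT x,
    H99.alpha_V2 hq hqm w' w₂ D hT x⟩, ⟨H99.beta_V0 hq hqm w' w₂ D hT x,
    H99.beta_V1 hq hqm w' w₂ D hT x, H99.beta_V2 hq hqm w' w₂ D hT x⟩,
    fun hx => ⟨H99.alpha_mem_B hq hqm w' w₂ D hT hx, H99.beta_mem_B hq hqm w' w₂ D hT hx⟩⟩

/-- **39. Lifting.** Every element of `R.C` is the residue along the component `i` of an element of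
the chart ring of level `q² m`: lift it to level `q m` and apply `α` (for `i = 0, 1`) or `β` (for
`i = 2`). File: `H99Three6`. -/
theorem lifting (i : Fin 3) (c : LaurentSeries k) (hc : c ∈ R.C) : ∃ b : (S).B, (S).r i b = c :=
  H99.r_surj3 hq hqm w' w₂ D hT i c hc

/-- **40. The function `w = X(q² z) - X(z)`** (`wElt T = β (w_q X) - α X`; here and in 41 to 43 the
letter `w` denotes this function, the involution is `w_q`) is in the chart ring; its residues along
the components `0` and `1` are `X^(q²) - X`, which is not zero, and `0`. File: `H99Three6`. -/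
theorem auxiliary_function :
    H99.wElt T = heckeBetaBar K (m * q) q (T.W T.X) - heckeAlphaBar K (m * q) q T.X ∧
      H99.wElt T ∈ (S).B ∧ (S).res 0 (H99.wElt T) = R.X ^ (q * q) - R.X ∧
      R.X ^ (q * q) - R.X ≠ 0 ∧ (S).res 1 (H99.wElt T) = 0 :=
  ⟨rfl, H99.wElt_mem hq hqm w' w₂ D hT, H99.res_wElt_zero hq hqm w' w₂ D hT,
    H99.X_pow_ne R (by rw [← map_natCast (algebraMap k (LaurentSeries k)), CharP.cast_eq_zero k q,
      map_zero]), H99.res_wElt_one hq hqm w' w₂ D hT⟩

/-- **41. `w` at the middle component**: the middle expansion of `w` is `(ζ - 1) Y`, `Y` with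
coefficients in `A'` and reduction `θ X`; so `w^(q-1)/q` has the residue `-(θ X)^(q-1)`, which is
also minus the residue of `(1/q) dX(q z)/dX(z)`. File: `H99Three6`. -/
theorem auxiliary_function_middle :
    (∃ Y : LaurentSeries A', H99.emb3 hq hqm w' w₂ D 1 (H99.wElt T) =
        algebraMap K' (LaurentSeries K') (D.ϖ : K') * coeffMap A'.subtype Y ∧
      coeffMap π' Y = H61.theta (coeffMap (Int.castRingHom k) X₀)) ∧
    (H99.emb3 hq hqm w' w₂ D 1 (H99.wElt T ^ (q - 1) / (q : FX K (m * q * q))) ∈ GR A' π' ∧
      gres A' π' (H99.emb3 hq hqm w' w₂ D 1 (H99.wElt T ^ (q - 1) / (q : FX K (m * q * q)))) =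
        - H61.theta (coeffMap (Int.castRingHom k) X₀) ^ (q - 1)) ∧
    T.res 0 (T.der (T.W T.X) / (q : FX K (m * q))) =
      H61.theta (coeffMap (Int.castRingHom k) X₀) ^ (q - 1) :=
  ⟨H99.emb_wElt hq hqm w' w₂ D hT, H99.w_pow_aux hq hqm w' w₂ D hT, H99.res_der_WX hq D hT⟩

variable (w₂' : AL2 K' m q w') (hG : D.Gal)

include w₂' hG

/-- **42. Traces.** If `b` is in the chart ring of level `q² m`, then its trace along `α` is in the
chart ring of level `q m` (theorems 26, 35, 36); so `res 0 b - res 1 b`, the residue of the trace,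
is in `R.C`; and `w_{q²} b` is in the chart ring. File: `H99Three6`. -/
theorem traces {b : FX K (m * q * q)} (hb : b ∈ (S).B) :
    H34.Two.traceAlong (heckeAlphaBar K (m * q) q) b ∈ T.B ∧ (S).res 0 b - (S).res 1 b ∈ R.C ∧
      w₂.W₂ b ∈ (S).B :=
  ⟨H99.trace_mem_B hq hqm w' w₂ w₂' D hG hT hb, H99.res_sub_mem hq hqm w' w₂ w₂' D hG hT hb,
    H99.W₂_mem_B hq hqm w' w₂ w₂' D hG hT hb⟩

/-- **43. Residues of chart functions are regular.** If `b` is in the chart ring, all three residues
of `b` are in `R.C`. Proof: for the component `0` apply theorem 42 to `w b^n`: its residue along the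
component `1` is zero, so `(X^(q²) - X) (res 0 b)^n` is in the Dedekind ring `R.C` for all `n`, and
this implies that `res 0 b` is in `R.C` (`mem_of_almost`); for the component `1` use theorem 42
again, and for the component `2` the involution. Files: `H99Three5`, `H99Three6`. -/
theorem residues_regular (i : Fin 3) (b : (S).B) : (S).r i b ∈ R.C ∧
    ∀ (C : Subalgebra k (LaurentSeries k)) [IsDedekindDomain C] {a x : LaurentSeries k}, a ∈ C →
      a ≠ 0 → (∀ n : ℕ, a * x ^ n ∈ C) → x ∈ C :=
  ⟨H99.r_mem3 hq hqm w' w₂ w₂' D hG hT i b, fun C _ _ _ ha h0 h => H99.mem_of_almost C ha h0 h⟩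

end Ramified

end Fermat.Agent.Guide.ThreeSheets
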