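import Fermat.Agent.S27

/-!
# Reader's guide: torsion of `Pic⁰` in characteristic zero (S27)

Every theorem of this file is proved by citing a theorem of the library; nothing here is used by any
other file. Texts by helper95 (zeta functions), helper68 (duality, transfer), helper77 (tables);
editor: helper10. See also the guides FunctionField (Riemann-Roch) and MordellWeil (a second proof
over `ℂ`).

**Statement S27.** `F` a function field in one variable of genus `g` over an algebraically closed
field of characteristic zero: `Pic⁰` of `F` has exactly `ℓ^(2gk)` elements killed by `ℓ^k`.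
The same theorem (`H95.S27_main`) serves S19 (`J₀(N)[ℓ^k]` is finite, `H19Final`), and through it
S32, S38, S43, S45, S46, S50, S59, S60, S03, S04, S06 and S01. (Two other torsion counts:
`card_torsion_complex` in the guide MordellWeil, over `ℂ`, and `card_torsion` in the guide Abelian,
S26.) There is no Jacobian variety, no topology and no Riemann hypothesis in the proof:

1. **Affine models.** The functions regular outside one place form a Dedekind domain `B` with a
   weight (order of the pole); `Pic⁰` is its class group, the genus is the number of gaps. `B` is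
   given by a finite multiplication table over a polynomial ring; "valid table" and "smooth" are
   polynomial conditions on the coefficients.
2. **Characteristic `p`.** Over an algebraic closure of a finite field, `B` has a Frobenius
   automorphism. Riemann-Roch (with duality) counts invariant divisors in invariant classes; zeta and
   `L`-functions of characters give the number of rational classes as `∏ (1 - β^m)` and the
   surjectivity of the norm maps; from these two facts the torsion prime to `p` follows.
3. **Transfer.** The number of classes killed by `n` is a first order property of the table, so the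
   count passes to characteristic zero (Lefschetz principle, Mathlib).

Companion files, with the proofs step by step: the guides AffineModel (helper3:
`exists_weighted_model`), Weights (helper95: calculus of weights, power series), ZetaData (helper63:
the counting behind `exists_zetaData`), TorsionGrowth (helper57: `torsion_of_growth`), TorsionTools
(helper68: duality, torsion classes by equations), Tables (helper77: tables, first order formulas).

Details: NOTES.md, Appendix A.3, notes [85], [135], [166]. Reference for the classical facts: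
H. Stichtenoth, *Algebraic function fields and codes*, chapter V.
-/

set_option autoImplicit false

namespace Fermat.Agent.Guide.Torsion

open AlgebraicCurve IsDedekindDomain Polynomial
open Fermat.Agent.H95 (IsWeight Shape ZetaData FO wts nset)
open scoped nonZeroDivisors

universe u v

/-! ## 1. Affine models and multiplication tables -/

/-- **Weights.** `IsWeight K wt` for a commutative algebra `B` over `K` and `wt : B → ℕ ∪ {-∞}`:
the algebraic properties of "order of the pole at the only point at infinity". -/
theorem isWeight_iff {K B : Type*} [Field K] [CommRing B] [Algebra K B] (wt : B → WithBot ℕ) :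
    IsWeight K wt ↔ (∀ f, wt f = ⊥ ↔ f = 0) ∧ (∀ f g, wt (f * g) = wt f + wt g) ∧
      (∀ f g, wt (f + g) ≤ max (wt f) (wt g)) ∧ (∀ c : K, c ≠ 0 → wt (algebraMap K B c) = 0) ∧
      (∀ f g, f ≠ 0 → wt f = wt g → ∃ c : K, wt (f - c • g) < wt f) ∧
      {n : ℕ | ∀ f, wt f ≠ (n : WithBot ℕ)}.Finite :=
  ⟨fun h => ⟨h.1, h.2, h.3, h.4, h.5, h.6⟩,
    fun h => ⟨h.1, h.2.1, h.2.2.1, h.2.2.2.1, h.2.2.2.2.1, h.2.2.2.2.2⟩⟩

/-- **Genus and weight sets.** `H95.genus wt` is the number of gaps (numbers which are not the weight
of an element); `nset K wt J`, for an ideal `J`, is the set of the numbers `n` for which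
`n + dim_K (B / J)` is the weight of an element of `J`. -/
theorem genus_and_nset {K B : Type*} [Field K] [CommRing B] [Algebra K B] (wt : B → WithBot ℕ)
    (J : Ideal B) :
    H95.genus wt = ({n : ℕ | ∃ f ∈ (Set.univ : Set B), wt f = (n : WithBot ℕ)}ᶜ).ncard ∧
      nset K wt J = {n : ℕ | ∃ f ∈ J, wt f = ((n + Module.finrank K (B ⧸ J) : ℕ) : WithBot ℕ)} :=
  ⟨rfl, rfl⟩

/-- **Affine model with one point at infinity.** Let `F/K` be a function field in one variable over
an algebraically closed field of characteristic zero. There is a Dedekind domain `B` (the functions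
regular outside one place) with a weight function (order of the pole at that place) whose number of
gaps is the genus, and `Pic⁰` of `F` is the class group of `B`. (`n` is the order of a pole at `P`
exactly when `dim L(n P) = dim L((n - 1) P) + 1`; so by Riemann-Roch there are `g` gaps, all less
than `2g`: `H3S27Gaps`. `H3S27FF`: a curve in the sense of the Prelude is a function field in one
variable.) File `H3S27Weight`. -/
theorem exists_weighted_model (K : Type u) (F : Type v) [Field K] [Field F] [Algebra K F]
    [IsAlgClosed K] [CharZero K] [IsCurveOver K F] [Algebra.EssFiniteType K F] :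
    ∃ (B : Type v) (_ : CommRing B) (_ : Algebra K B) (_ : IsDedekindDomain B)
      (wt : B → WithBot ℕ), IsWeight K wt ∧
        ({n : ℕ | ∃ f ∈ (Set.univ : Set B), wt f = (n : WithBot ℕ)}ᶜ).ncard = genusFF K F ∧
        Nonempty (Multiplicative (Pic0 K F) ≃* ClassGroup B) :=
  H3S27.exists_weightAlg K F

/-- **Multiplication tables.** A `Shape` is a number `a` and weights `w 0 = 0`, `w 1, ..., w (a - 1)`,
different modulo `a`; a table `c` of this shape gives polynomials `s.C c i j k` in one variable of
bounded degree. `s.IsModel c wt x y`: `x` has weight `a`, `y i` weight `w i`, `y 0 = 1`, the `y i` are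
a basis of `B` over `K[x]` and `y i * y j = ∑ k, C_{ijk}(x) * y k`. -/
theorem isModel_iff {K B : Type*} [Field K] [CommRing B] [Algebra K B] (s : Shape)
    (c : s.Idx → K) (wt : B → WithBot ℕ) (x : B) (y : Fin s.a → B) :
    s.IsModel c wt x y ↔ IsWeight K wt ∧ wt x = (s.a : WithBot ℕ) ∧
      (∀ i, wt (y i) = (s.w i : WithBot ℕ)) ∧ y 0 = 1 ∧
      (∀ i j, y i * y j = ∑ k, Polynomial.aeval x (s.C c i j k) * y k) ∧
      Function.Bijective (fun u : Fin s.a → Polynomial K => ∑ k, Polynomial.aeval x (u k) * y k) :=
  ⟨fun h => ⟨h.1, h.2, h.3, h.4, h.5, h.6⟩,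
    fun h => ⟨h.1, h.2.1, h.2.2.1, h.2.2.2.1, h.2.2.2.2.1, h.2.2.2.2.2⟩⟩

/-- **Every weighted algebra has a table**: take `x` of large weight `a` (all numbers `≥ a - 1` are
weights) and `y i` of minimal weight in its class modulo `a`. So a curve with a point is a finite
sequence of elements of `K`. File `H77ExTable`. -/
theorem exists_table {K B : Type*} [Field K] [IsAlgClosed K] [CommRing B] [Algebra K B]
    {wt : B → WithBot ℕ} (hw : IsWeight K wt) :
    ∃ (s : Shape) (c : s.Idx → K) (x : B) (y : Fin s.a → B), s.IsModel c wt x y :=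
  H77.M.exists_table hw

/-- **Valid tables.** `s.IsTable c`: the algebra with the multiplication table `c` is commutative and
associative, has the unit `y 0`, and the weights of products are right. -/
theorem isTable_iff {K : Type*} [Field K] (s : Shape) (c : s.Idx → K) :
    s.IsTable c ↔ (∀ i j k, s.C c i j k = s.C c j i k) ∧
      (∀ j k, s.C c 0 j k = if j = k then 1 else 0) ∧
      (∀ i j k m, ∑ l, s.C c i j l * s.C c l k m = ∑ l, s.C c j k l * s.C c i l m) ∧
      (∀ i j k (e : Fin s.N), s.w i + s.w j < s.a * e + s.w k → c (i, j, k, e) = 0) ∧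
      ∀ i j, ∃ k, ∃ e : Fin s.N, s.w i + s.w j = s.a * e + s.w k ∧ c (i, j, k, e) ≠ 0 :=
  ⟨fun h => ⟨h.1, h.2, h.3, h.4, h.5⟩, fun h => ⟨h.1, h.2.1, h.2.2.1, h.2.2.2.1, h.2.2.2.2⟩⟩

/-- **Every valid table over every field is the table of a weighted algebra.** File `H77ExModel`. -/
theorem exists_model {s : Shape} {K : Type u} [Field K] {c : s.Idx → K} (h : s.IsTable c) :
    ∃ (B : Type u) (_ : CommRing B) (_ : Algebra K B) (wt : B → WithBot ℕ) (x : B)
      (y : Fin s.a → B), s.IsModel c wt x y :=
  H77.M.exists_model h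

/-- **Jacobian criterion by hand.** `s.IsSmooth c`: at every point `(x₀, η)` of the table (`η 0 = 1`,
`η i η j = ∑ k C_{ijk}(x₀) η k`) the space of the solutions of the linearised equations has dimension
at most one. This holds if and only if the algebra is a Dedekind domain. File `H3S27Smooth`. -/
theorem isSmooth_iff_dedekind {s : Shape} {K B : Type*} [Field K] [IsAlgClosed K] [CommRing B]
    [Algebra K B] {wt : B → WithBot ℕ} {c : s.Idx → K} {x : B} {y : Fin s.a → B}
    (h : s.IsModel c wt x y) : s.IsSmooth c ↔ IsDedekindDomain B :=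
  H3S27.isSmooth_iff h

/-! ## 2. Characteristic `p`: zeta functions -/

/-- **Duality.** The set `nset K wt J` of the numbers `wt f - dim_K (B / J)`, `0 ≠ f ∈ J`, depends only
on the class of the ideal `J`. For a weighted Dedekind domain with `g` gaps there is exactly one ideal
class for which `2g - 1` is missing in this set: the part of the theorem of Riemann and Roch which is
proved with Weil differentials. (If `g = 0` the condition is empty, and the theorem says that the
class group is trivial.) File `H68Duality`. -/
theorem duality {K B : Type*} [Field K] [CommRing B] [Algebra K B] [IsDedekindDomain B]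
    {wt : B → WithBot ℕ} (hw : IsWeight K wt) :
    ∃! κ : ClassGroup B, ∀ J : (Ideal B)⁰, ClassGroup.mk0 J = κ →
      ∀ n ∈ nset K wt (J : Ideal B), n + 1 ≠ 2 * H95.genus wt :=
  H68.duality hw

/-- **Frobenius.** Over an algebraic closure `K` of a finite field the coefficients of the table lie
in a finite field with `p^e` elements, so there is an automorphism `φ` of `B` with
`φ (c f) = c^(p^e) φ f` which fixes a function of every weight. File `H1Frob`. -/
theorem exists_frobenius {K B : Type*} [Field K] [CommRing B] [Algebra K B] {wt : B → WithBot ℕ}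
    [IsAlgClosed K] (p : ℕ) [Fact p.Prime] [CharP K p] (hK : ∀ c : K, ∃ m, 0 < m ∧ c ^ p ^ m = c)
    {s : Shape} {c : s.Idx → K} {x : B} {y : Fin s.a → B} (h : s.IsModel c wt x y) :
    ∃ (e : ℕ) (_ : 0 < e) (φ : B ≃+* B), (∀ (c : K) (f : B), φ (c • f) = c ^ (p ^ e) • φ f) ∧
      ∀ n ∈ wts wt Set.univ, ∃ f : B, wt f = (n : WithBot ℕ) ∧ φ f = f := by
  obtain ⟨e, he, φ, hφ⟩ := H1.exists_frob h p hK
  exact ⟨e, he, φ, hφ.1, hφ.2⟩

/-- **Zeta data.** Over the algebraic closure of a finite field a semilinear automorphism `φ` of the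
weighted Dedekind algebra `B` (`φ (c f) = c^(p^e) φ f`, with enough fixed elements) gives a `ZetaData`
on the class group `G` and the set `X` of maximal ideals: `φ` on `G`, `σ` on `X`, `S κ` = normalised
set of weights of the ideals in the class `κ` (its complement has `g` elements, it contains all
`n ≥ 2g`, and exactly one class has the gap `2g - 1`: duality), and the number of `φ^m`-invariant
effective divisors of degree `n` in a class `κ` with `φ^m κ = κ`, which is
`(q^m)^#{i < n, i ∈ S κ⁻¹}` if `n ∈ S κ⁻¹` and `0` otherwise (proof: guide ZetaData). Files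
`H63S27Zeta`, `H68Duality`. -/
theorem exists_zetaData {K B : Type*} [Field K] [CommRing B] [Algebra K B] {wt : B → WithBot ℕ}
    [IsAlgClosed K] [IsDedekindDomain B] (p : ℕ) [Fact p.Prime] [CharP K p] (e : ℕ) (he : 0 < e)
    (hK : ∀ c : K, ∃ m, 0 < m ∧ c ^ p ^ m = c) (hw : IsWeight K wt) (φ : B ≃+* B)
    (hφ : ∀ (c : K) (f : B), φ (c • f) = c ^ (p ^ e) • φ f)
    (hfix : ∀ n ∈ wts wt Set.univ, ∃ f : B, wt f = (n : WithBot ℕ) ∧ φ f = f) :
    ∃ Z : ZetaData (ClassGroup B) (HeightOneSpectrum B), Z.q = p ^ e ∧ Z.g = H95.genus wt :=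
  H63.exists_zetaData p e he hK hw φ ⟨hφ, hfix⟩

/-- **Euler recursion** = "the logarithmic derivative of the zeta function counts fixed points".
`σ` a permutation of `X` whose powers have finitely many fixed points, `χ` a multiplicative function
on divisors: `n · Σ_{D invariant, deg D = n} χ(D) = Σ_{r = 1..n} (Σ_{σ^r x = x} χ(x + σx + ... +
σ^{r-1}x)) · Σ_{D invariant, deg D = n - r} χ(D)`. File `H95Z1`. -/
theorem euler_recursion {X : Type*} {σ : Equiv.Perm X}
    (hfin : ∀ m, 0 < m → {x | (σ ^ m) x = x}.Finite) {R : Type*} [CommRing R] (χ : (X →₀ ℕ) → R)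
    (hχ : ∀ D D', (∀ x, D (σ x) = D x) → (∀ x, D' (σ x) = D' x) → χ (D + D') = χ D * χ D')
    (n : ℕ) :
    (n : R) * (∑ᶠ D ∈ {D : X →₀ ℕ | (∀ x, D (σ x) = D x) ∧ (D.sum fun _ k => k) = n}, χ D) =
      ∑ r ∈ Finset.Icc 1 n, (∑ᶠ x ∈ {x | (σ ^ r) x = x},
        χ (∑ i ∈ Finset.range r, Finsupp.single ((σ ^ i) x) 1)) *
        (∑ᶠ D ∈ {D : X →₀ ℕ | (∀ x, D (σ x) = D x) ∧ (D.sum fun _ k => k) = n - r}, χ D) :=
  H95.Euler.euler_recursion hfin χ hχ n

/-- **Number of rational classes.** There are complex numbers `β` (the inverse roots of the numerator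
of the zeta function, a multiset) with `#G^{φ^m} = ∏ (1 - β^m)` for all `m ≥ 1`. File `H95Zeta`
(from the twisted `L`-polynomials of all characters). -/
theorem card_eq_prod {G X : Type*} [CommGroup G] (Z : ZetaData G X) {m : ℕ} (hm : 0 < m) :
    (Nat.card {κ : G // (Z.φ ^ m) κ = κ} : ℂ) =
      ((Z.Lp 1 1).reverse.roots.map fun β => (1 - β ^ m)).prod :=
  ZetaData.card_eq_prod hm

/-- **Surjectivity of the norms** (replaces the theorem of Lang): every class fixed by `φ^m` is
`y · φ^m y ⋯ φ^{m(r-1)} y` for a class `y` fixed by `φ^{mr}`. Otherwise a nontrivial character `χ` of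
`G^{φ^m}` is trivial on all norms from `G^{φ^{mr}}`. Its `L`-polynomial vanishes at `1` (the sum of
the values of `χ` is zero), so `1` is an inverse root of it, hence (`r`-th powers of the inverse
roots) also of the `L`-polynomial of the trivial character over the extension of degree `r`, whose
value at `1` is `#G^{φ^{mr}} ≠ 0`. File `H95Zeta`. -/
theorem norm_surjective {G X : Type*} [CommGroup G] (Z : ZetaData G X) {m r : ℕ} (hm : 0 < m)
    (hr : 0 < r) {κ : G} (hκ : (Z.φ ^ m) κ = κ) :
    ∃ y : G, (Z.φ ^ (m * r)) y = y ∧ ∏ i ∈ Finset.range r, (Z.φ ^ (m * i)) y = κ :=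
  ZetaData.norm_surj hm hr hκ

/-- **Growth.** `Q` a monic integral polynomial, `ℓ` a prime not dividing `Q(0)`, and
`h m = ∏_α (1 - α^m)` (roots `α` of `Q`) positive integers: for all multiples `m` of some `m₀` the
`ℓ`-adic valuation of `h (m ℓ)` is `deg Q` more than the one of `h m`. Proof: `h m = det (1 - M^m)`
for an integral matrix `M`, and `M^m ≡ 1` modulo a power of `ℓ`. File `H57Growth`. -/
theorem growth (Q : Polynomial ℤ) (hQ : Q.Monic) (ℓ : ℕ) [Fact ℓ.Prime]
    (hℓ : ¬ (ℓ : ℤ) ∣ Q.coeff 0) (h : ℕ → ℕ) (hh : ∀ m, 0 < m → ((h m : ℕ) : ℂ) =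
      ((Q.map (Int.castRingHom ℂ)).roots.map fun α => 1 - α ^ m).prod)
    (hpos : ∀ m, 0 < m → h m ≠ 0) :
    ∃ m₀, 0 < m₀ ∧ ∀ m, 0 < m → m₀ ∣ m →
      padicValNat ℓ (h (m * ℓ)) = padicValNat ℓ (h m) + Q.natDegree :=
  H57.TG.growth Q hQ ℓ hℓ h hh hpos

/-- **Torsion from growth and norms.** `G` an abelian group, `φ` an automorphism, every element fixed
by a power of `φ`, fixed groups finite, norms surjective, and the `ℓ`-part of `#G^{φ^{mℓ}}` is `ℓ^d`
times the `ℓ`-part of `#G^{φ^m}` for all multiples `m` of some `m₀`. Then `G` has exactly `ℓ^{dk}`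
elements killed by `ℓ^k`. File `H57TorsGrowth`. -/
theorem torsion_of_growth {G : Type*} [CommGroup G] (φ : MulAut G) (ℓ : ℕ) [Fact ℓ.Prime] (d : ℕ)
    (hfix : ∀ κ : G, ∃ m, 0 < m ∧ (φ ^ m) κ = κ)
    (hfin : ∀ m, 0 < m → {κ : G | (φ ^ m) κ = κ}.Finite)
    (hnorm : ∀ m r, 0 < m → 0 < r → ∀ κ : G, (φ ^ m) κ = κ →
      ∃ κ' : G, (φ ^ (m * r)) κ' = κ' ∧ (∏ i ∈ Finset.range r, (φ ^ (m * i)) κ') = κ)
    (hgrow : ∃ m₀, 0 < m₀ ∧ ∀ m, 0 < m → m₀ ∣ m →
      padicValNat ℓ (Nat.card {κ : G // (φ ^ (m * ℓ)) κ = κ}) =
        padicValNat ℓ (Nat.card {κ : G // (φ ^ m) κ = κ}) + d)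
    (k : ℕ) : Nat.card {x : G // x ^ (ℓ ^ k) = 1} = ℓ ^ (d * k) :=
  H57.TG.endgame φ ℓ d hfix hfin hnorm hgrow k

/-- **Torsion count from zeta data**: `#G[ℓ^k] = ℓ^{2gk}` for every prime `ℓ` not dividing `q`
(`card_eq_prod`, `norm_surjective`, `growth`, `torsion_of_growth`). File `H95Zeta`. -/
theorem card_torsion_zetaData {G X : Type*} [CommGroup G] (Z : ZetaData G X) (ℓ : ℕ)
    [Fact ℓ.Prime] (hℓ : ¬ ℓ ∣ Z.q) (k : ℕ) :
    Nat.card {x : G // x ^ (ℓ ^ k) = 1} = ℓ ^ (2 * Z.g * k) :=
  Z.card_torsion ℓ hℓ k

/-- **Torsion count in characteristic `p`.** `K` an algebraic closure of the field with `p` elements,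
`ℓ ≠ p` prime: exactly `ℓ^(2gk)` ideal classes of `B` are killed by `ℓ^k` (`s.g = ∑ ⌊w i / a⌋` is the
number of gaps). File `H95S27`. -/
theorem card_torsion_char_p {K B : Type*} [Field K] [CommRing B] [Algebra K B]
    {wt : B → WithBot ℕ} [IsAlgClosed K] [IsDedekindDomain B] (p : ℕ) [Fact p.Prime] [CharP K p]
    (hK : ∀ c : K, ∃ m, 0 < m ∧ c ^ p ^ m = c) {s : Shape} {c : s.Idx → K} {x : B}
    {y : Fin s.a → B} (h : s.IsModel c wt x y) (ℓ : ℕ) [Fact ℓ.Prime] (hℓ : ℓ ≠ p) (k : ℕ) :
    Nat.card {κ : ClassGroup B // κ ^ (ℓ ^ k) = 1} = ℓ ^ (2 * s.g * k) :=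
  H95.card_torsion_classGroup p hK h ℓ hℓ k

/-! ## 3. Transfer to characteristic zero -/

/-- **First order predicates.** `FO P`: the property `P` of vectors over algebraically closed fields
is given by one formula of the language of rings, the same for all fields. -/
theorem fo_iff {α : Type} (P : ∀ (K : Type u) [Field K], (α → K) → Prop) :
    FO P ↔ ∃ φ : FirstOrder.Language.ring.Formula α, ∀ (K : Type u) [Field K] [IsAlgClosed K]
      [FirstOrder.Ring.CompatibleRing K] (v : α → K), φ.Realize v ↔ P K v :=
  Iff.rfl

/-- **Lefschetz principle.** If a first order predicate holds for all vectors over some algebraically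
closed field of characteristic `p`, for infinitely many primes `p`, then it holds for all vectors over
every algebraically closed field of characteristic zero. File `H77Transfer` (Mathlib's theorem on the
theory of algebraically closed fields). -/
theorem lefschetz {α : Type} [Finite α] {P : ∀ (K : Type u) [Field K], (α → K) → Prop}
    (hP : FO P)
    (hp : {p : Nat.Primes | ∃ (K : Type u) (_ : Field K) (_ : IsAlgClosed K) (_ : CharP K p),
      ∀ c : α → K, P K c}.Infinite)
    (K : Type u) [Field K] [IsAlgClosed K] [CharZero K] (c : α → K) : P K c :=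
  H77.FOL.lefschetz hP hp K c

/-- **The torsion count is first order.** There is a first order predicate of the coefficients of a
table which holds if and only if the algebra (assumed to be a Dedekind domain) has at least `M` ideal
classes killed by `n`: such a class is represented by an ideal `I` of colength `≤ g` with
`I^n = (f)`, and all elements involved have bounded weight. Files `H68ThetaFO`, `H68ThetaIff`. -/
theorem torsion_count_is_first_order (s : Shape) (n M : ℕ) (hn : 0 < n) :
    ∃ P : ∀ (K : Type u) [Field K], (s.Idx → K) → Prop, FO P ∧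
      ∀ (K : Type u) [Field K] [IsAlgClosed K] (B : Type v) [CommRing B] [Algebra K B]
        [IsDedekindDomain B] (wt : B → WithBot ℕ) (x : B) (y : Fin s.a → B) (c : s.Idx → K),
        s.IsModel c wt x y →
          (P K c ↔ ∃ S : Finset (ClassGroup B), S.card = M ∧ ∀ κ ∈ S, κ ^ n = 1) :=
  ⟨fun _ _ c => H68.ThetaB s n (n * (3 * s.g + s.a) + 2) M c, H68.fo_thetaB s n _ M,
    fun _ _ _ _ _ _ _ _ _ _ _ h => H68.thetaB_iff h n hn M⟩

/-- **Transfer of torsion counts.** Fix a shape, `n > 0` and `M > 0`. If for infinitely many primes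
`p` every Dedekind domain of this shape over an algebraic closure of the field with `p` elements has
exactly `M` ideal classes killed by `n`, then the same holds over every algebraically closed field of
characteristic zero. File `H68Transfer`. -/
theorem transfer (s : Shape) (n M : ℕ) (hn : 0 < n) (hM : 0 < M)
    (hp : {p : Nat.Primes | ∀ (K : Type u) [Field K] [IsAlgClosed K] [CharP K p],
      (∀ c : K, ∃ m, 0 < m ∧ c ^ (p : ℕ) ^ m = c) →
      ∀ (B : Type u) [CommRing B] [Algebra K B] [IsDedekindDomain B] (wt : B → WithBot ℕ)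
        (x : B) (y : Fin s.a → B) (c : s.Idx → K), s.IsModel c wt x y →
        Nat.card {κ : ClassGroup B // κ ^ n = 1} = M}.Infinite)
    (K : Type u) [Field K] [IsAlgClosed K] [CharZero K] (B : Type v) [CommRing B] [Algebra K B]
    [IsDedekindDomain B] (wt : B → WithBot ℕ) (x : B) (y : Fin s.a → B) (c : s.Idx → K)
    (h : s.IsModel c wt x y) : Nat.card {κ : ClassGroup B // κ ^ n = 1} = M :=
  H68.transferB_of.{u, v} s n M hn hM (fun _ _ _ hc => H77.M.exists_model hc)
    (fun _ _ _ _ _ _ _ _ _ _ hB hs => (H3S27.isSmooth_iff hB).1 hs) hp K B wt x y c h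
    ((H3S27.isSmooth_iff h).2 inferInstance)

/-- **Torsion count in characteristic zero** for the class group of a weighted Dedekind algebra of
genus `g` (number of gaps), by `card_torsion_char_p` and `transfer`. File `H95S27`. -/
theorem card_torsion_classGroup {K B : Type*} [Field K] [IsAlgClosed K] [CharZero K]
    [CommRing B] [Algebra K B] [IsDedekindDomain B] {wt : B → WithBot ℕ} (hw : IsWeight K wt)
    (ℓ : ℕ) [Fact ℓ.Prime] (k : ℕ) :
    Nat.card {κ : ClassGroup B // κ ^ (ℓ ^ k) = 1} = ℓ ^ (2 * H95.genus wt * k) :=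
  H95.card_torsion_of_charZero hw ℓ k

/-- **S27**: `#Pic⁰[ℓ^k] = ℓ^{2gk}` for a function field (`IsCurveOver`) of genus `g` over an
algebraically closed field of characteristic zero. -/
theorem card_torsion_pic0 (K F : Type*) [Field K] [Field F] [Algebra K F] [IsAlgClosed K]
    [CharZero K] [IsCurveOver K F] [Algebra.EssFiniteType K F] (ℓ : ℕ) [Fact ℓ.Prime] (k : ℕ) :
    Nat.card (Pic0.torsion K F (ℓ ^ k)) = ℓ ^ (2 * genusFF K F * k) :=
  S27.result K F ℓ k

end Fermat.Agent.Guide.Torsion
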