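import Fermat.Agent.H57Growth

/-!
# Guide to the proof: torsion from the growth of fixed points (companion of GuideTorsion, for S27)

This file is a machine-checked table of contents. Every theorem below is a citation of a theorem of
the library, with its statement written out. Nothing imports this file, except the list `Guide`.

**What it does.** `GuideTorsion.torsion_of_growth` counts the torsion of order prime to `p` of the
Jacobian of a curve over an algebraic closure of a finite field, without abelian varieties. Here are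
the steps of its proof. It is a theorem on abelian groups: only the numbers of rational classes over the
finite fields and the surjectivity of the norms are used.

**The situation.** `G` is an abelian group (written additively), `φ` an endomorphism of `G` (Frobenius),
`P_m` the subgroup of the elements fixed by `φ^m`, `N : P_(mr) → P_m` the norm
`x ↦ x + φ^m x + ... + φ^(m(r-1)) x`, `G[ℓ^k]` the group of the elements killed by `ℓ^k`, `ℓ` a prime.
Hypotheses: every element is fixed by a power of `φ`, all `P_m` are finite, all norms are onto, and for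
all multiples `m` of some `m_0` the `ℓ`-part of `#P_(mℓ)` is `ℓ^n` times the `ℓ`-part of `#P_m`.
Result: `#G[ℓ^k] = ℓ^(nk)`. For the Jacobian of a curve of genus `g` one has `n = 2g`.

**The steps.**
 (a) *The kernel of the norm.* The norm `P_(mℓ) → P_m` is onto, so its kernel has order
   `#P_(mℓ) / #P_m = ℓ^n u` with `u` prime to `ℓ`, if `m_0` divides `m`.
 (b) *Upper bound.* On `P_m` the norm is multiplication by `ℓ`. So the elements of `G[ℓ]` which are fixed
   by `φ^m` are in the kernel, and there are at most `ℓ^n` of them; this holds for all multiples `m` of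
   `m_0`, and every finite set of elements is fixed by such a `φ^m`. Hence `G[ℓ]` is finite, with at most
   `ℓ^n` elements, and all groups `G[ℓ^k]` are finite. So each of them is contained in some `P_m`.
 (c) *The norm lowers the order by exactly one step.* Let `m` be a multiple of `m_0` such that `φ^m` is
   the identity on `G[ℓ²]` (by (b) it exists). If `ℓ^(k+2) y = 0`, then `ℓ^k y` is fixed by `φ^m`, so
   `ℓ^k N(y) = ℓ · ℓ^k y`. It follows (`GuideWeights.norm_lowers_order`) that an element `y` of `ℓ`-power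
   order with `ℓ^k N(y) = 0` is killed by `ℓ^(k+1)`. In particular the `ℓ`-part of the kernel of the norm
   is killed by `ℓ`. It has `ℓ^n` elements, so `#G[ℓ] = ℓ^n`.
 (d) *Divisibility.* Let `x ∈ G[ℓ^k]`, and `m` such that `φ^m` is the identity on `G[ℓ^(k+2)]`. Then
   `x = N(y)` for some `y ∈ P_(mℓ)`, and one can take `y` of `ℓ`-power order (multiply by an integer
   which is `1` modulo `ℓ^k` and `0` modulo the part of `#P_(mℓ)` prime to `ℓ`). By (c) `y` is killed
   by `ℓ^(k+1)`, so it is fixed by `φ^m`, and `x = N(y) = ℓ y`. Hence `ℓ : G[ℓ^(k+1)] → G[ℓ^k]` is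
   onto, with kernel `G[ℓ]`, and `#G[ℓ^k] = ℓ^(nk)` by induction.

**Where the hypotheses come from.** Finiteness, growth and norms for the class group of a curve:
`GuideTorsion` (`card_eq_prod`, `norm_surjective`, `growth`); the growth of the determinants
`det (1 - M^m)` is in `GuideWeights`, section 6 (`exists_matrix`, `det_aeval`, `det_growth`).

**Where.** NOTES.md, Appendix A.3: [166] (the torsion count; [85] is the whole of S27). Everything is in
the proof terms of S27, S01, S03, S04, S06, S19, S32, S38, S43, S45, S46, S50, S59, S60.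
Author: helper57 (`H57TorsGrowth`, `H57Growth`).
-/

set_option autoImplicit false

namespace Fermat.Agent.Guide.TorsionGrowth

open Fermat.Agent

/-! ## 1. Fixed points and norms

In all of this file `P φ m` is the group `P_m` of the elements which are fixed by `φ^m`, `N φ m r` the
endomorphism `∑_(i < r) (φ^m)^i` of `G`, and `T G ℓ k` the group `G[ℓ^k]`. -/

/-- **The three notions** (`H57TorsGrowth`): the elements fixed by `φ^m`, the norm, and the elements
killed by `ℓ^k`. -/
theorem definitions {G : Type*} [AddCommGroup G] (φ : Module.End ℤ G) (m r ℓ k : ℕ) (x : G) :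
    (x ∈ H57.TG.P φ m ↔ (φ ^ m) x = x) ∧
      H57.TG.N φ m r x = ∑ i ∈ Finset.range r, ((φ ^ m) ^ i) x ∧
      (x ∈ H57.TG.T G ℓ k ↔ ℓ ^ k • x = 0) :=
  ⟨H57.TG.mem_P, H57.TG.N_apply m r x, H57.TG.mem_T⟩

/-- **Fixed points and divisibility** (`H57TorsGrowth`): `P_m ≤ P_(m')` if `m` divides `m'`. -/
theorem fixed_points_mono {G : Type*} [AddCommGroup G] {φ : Module.End ℤ G} {m m' : ℕ}
    (h : m ∣ m') : H57.TG.P φ m ≤ H57.TG.P φ m' :=
  H57.TG.P_mono_of_dvd h

/-- **Finite sets are fixed** (`H57TorsGrowth`): if every element is fixed by a positive power of `φ`,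
then for every `m_0 > 0` each finite set of elements is fixed by `φ^m` for a positive multiple `m` of
`m_0`. (Take the product of the exponents.) -/
theorem finite_sets_are_fixed {G : Type*} [AddCommGroup G] {φ : Module.End ℤ G}
    (hfix : ∀ x : G, ∃ m > 0, x ∈ H57.TG.P φ m) {m0 : ℕ} (hm0 : 0 < m0) {s : Set G}
    (hs : s.Finite) : ∃ m > 0, m0 ∣ m ∧ ∀ x ∈ s, x ∈ H57.TG.P φ m :=
  H57.TG.exists_le_P_of_finite hfix hm0 hs

/-- **The norm on fixed points** (`H57TorsGrowth`): it maps `P_(mr)` to `P_m` (because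
`(φ^m - 1) (1 + φ^m + ... + φ^(m(r-1))) = φ^(mr) - 1`), and on `P_m` it is multiplication by `r`. -/
theorem norm_of_fixed_points {G : Type*} [AddCommGroup G] {φ : Module.End ℤ G} {m : ℕ} (r : ℕ)
    {x : G} :
    (x ∈ H57.TG.P φ (m * r) → H57.TG.N φ m r x ∈ H57.TG.P φ m) ∧
      (x ∈ H57.TG.P φ m → H57.TG.N φ m r x = r • x) :=
  ⟨fun h => H57.TG.N_mem h, fun h => H57.TG.N_apply_of_mem h r⟩

/-- **The norm as a map** (`H57TorsGrowth`): `Nres φ m r` is the norm from `P_(mr)` to `P_m`. If it is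
onto, the order of `P_(mr)` is the product of the orders of its kernel and of `P_m`. -/
theorem card_fixed_points {G : Type*} [AddCommGroup G] {φ : Module.End ℤ G} {m r : ℕ} :
    (∀ x : H57.TG.P φ (m * r), (H57.TG.Nres φ m r x : G) = H57.TG.N φ m r x) ∧
      (Function.Surjective (H57.TG.Nres φ m r) →
        Nat.card (H57.TG.P φ (m * r)) =
          Nat.card (LinearMap.ker (H57.TG.Nres φ m r)) * Nat.card (H57.TG.P φ m)) :=
  ⟨H57.TG.coe_Nres m r, H57.TG.card_P_mul⟩

/-- **The norm lowers the order by one step** (`H57TorsGrowth`), the identity behind step (c): suppose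
that `φ^m` is the identity on `G[ℓ²]`, and let `y` be killed by `ℓ^(k+2)`. Then
`ℓ^k N(y) = ℓ^(k+1) y`. Proof: `ℓ^k y` is killed by `ℓ²`, so all `ℓ` summands `ℓ^k φ^(mi) y` of
`ℓ^k N(y)` are equal to `ℓ^k y`. (The consequence "`ℓ^k N(y) = 0` implies `ℓ^(k+1) y = 0`" for all `y`
of `ℓ`-power order is `GuideWeights.norm_lowers_order`.) -/
theorem norm_one_step {G : Type*} [AddCommGroup G] {φ : Module.End ℤ G} {ℓ m k : ℕ}
    (h2 : ∀ x : G, ℓ ^ 2 • x = 0 → x ∈ H57.TG.P φ m) {y : G} (hy : ℓ ^ (k + 2) • y = 0) :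
    ℓ ^ k • H57.TG.N φ m ℓ y = ℓ ^ (k + 1) • y :=
  H57.TG.pow_smul_N_eq h2 hy

/-! ## 2. The groups `G[ℓ^k]` -/

/-- **Inclusions** (`H57TorsGrowth`): `G[ℓ^k] ≤ G[ℓ^(k')]` for `k ≤ k'`. -/
theorem torsion_mono (G : Type*) [AddCommGroup G] {ℓ k k' : ℕ} (h : k ≤ k') :
    H57.TG.T G ℓ k ≤ H57.TG.T G ℓ k' :=
  H57.TG.T_mono h

/-- **Multiplication by `ℓ`** (`H57TorsGrowth`): `mulT G ℓ k` is the map `x ↦ ℓ x` from `G[ℓ^(k+1)]` to
`G[ℓ^k]`, and its kernel has as many elements as `G[ℓ]`. -/
theorem multiplication {G : Type*} [AddCommGroup G] {ℓ k : ℕ} :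
    (∀ x : H57.TG.T G ℓ (k + 1), (H57.TG.mulT G ℓ k x : G) = ℓ • (x : G)) ∧
      Nat.card (LinearMap.ker (H57.TG.mulT G ℓ k)) = Nat.card (H57.TG.T G ℓ 1) :=
  ⟨H57.TG.coe_mulT, H57.TG.card_ker_mulT⟩

/-- **Finiteness** (`H57TorsGrowth`): if `G[ℓ]` is finite, so are all groups `G[ℓ^k]`. -/
theorem finite_torsion {G : Type*} [AddCommGroup G] {ℓ : ℕ} (h : Finite (H57.TG.T G ℓ 1)) (k : ℕ) :
    Finite (H57.TG.T G ℓ k) :=
  H57.TG.finite_T h k

/-! ## 3. The count -/

/-- **The hypotheses** (`H57TorsGrowth`). `Data φ n ℓ` says: `ℓ` is a prime, every element is fixed by a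
positive power of `φ`, all `P_m` with `m > 0` are finite, all norms `P_(mr) → P_m` are onto, and the
`ℓ`-adic valuation of `#P_(mℓ)` is `n` more than the one of `#P_m`, for all positive multiples `m` of
some `m_0 > 0`. -/
theorem data_iff {G : Type*} [AddCommGroup G] (φ : Module.End ℤ G) (n ℓ : ℕ) :
    H57.TG.Data φ n ℓ ↔ ℓ.Prime ∧ (∀ x : G, ∃ m > 0, x ∈ H57.TG.P φ m) ∧
      (∀ m > 0, Finite (H57.TG.P φ m)) ∧
      (∀ m r, 0 < m → 0 < r → Function.Surjective (H57.TG.Nres φ m r)) ∧
      ∃ m0 > 0, ∀ m > 0, m0 ∣ m → padicValNat ℓ (Nat.card (H57.TG.P φ (m * ℓ))) =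
        padicValNat ℓ (Nat.card (H57.TG.P φ m)) + n :=
  ⟨fun h => ⟨h.1, h.2, h.3, h.4, h.5⟩, fun h => ⟨h.1, h.2.1, h.2.2.1, h.2.2.2.1, h.2.2.2.2⟩⟩

/-- **The kernel of the norm** (`H57TorsGrowth`), step (a): for all positive multiples `m` of some
`m_0 > 0` the kernel of `N : P_(mℓ) → P_m` has `ℓ^n u` elements, with `u` prime to `ℓ`. -/
theorem card_kernel_of_norm {G : Type*} [AddCommGroup G] {φ : Module.End ℤ G} {n ℓ : ℕ}
    (D : H57.TG.Data φ n ℓ) : ∃ m0 > 0, ∀ m > 0, m0 ∣ m →
      ∃ u : ℕ, ¬ ℓ ∣ u ∧ Nat.card (LinearMap.ker (H57.TG.Nres φ m ℓ)) = ℓ ^ n * u :=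
  D.card_ker

/-- **Fixed elements of `G[ℓ]`** (`H57TorsGrowth`), step (b): at most `ℓ^n` elements of `G[ℓ]` are fixed
by `φ^m`, for all positive multiples `m` of some `m_0 > 0`. They form an `ℓ`-group which is contained in
the kernel of the norm `P_(mℓ) → P_m`, so their number divides `ℓ^n`. -/
theorem card_fixed_torsion_le {G : Type*} [AddCommGroup G] {φ : Module.End ℤ G} {n ℓ : ℕ}
    (D : H57.TG.Data φ n ℓ) :
    ∃ m0 > 0, ∀ m > 0, m0 ∣ m → Nat.card ↥(H57.TG.P φ m ⊓ H57.TG.T G ℓ 1) ≤ ℓ ^ n :=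
  D.card_inf_le

/-- **`G[ℓ]` is finite** (`H57TorsGrowth`), step (b): otherwise there are `ℓ^n + 1` elements in it, and
they are fixed by `φ^m` for some multiple `m` of `m_0`. -/
theorem torsion_is_finite {G : Type*} [AddCommGroup G] {φ : Module.End ℤ G} {n ℓ : ℕ}
    (D : H57.TG.Data φ n ℓ) : Finite (H57.TG.T G ℓ 1) :=
  D.finite_T_one

/-- **The groups `G[ℓ^k]` are fixed** (`H57TorsGrowth`): for every `m_0 > 0` the group `G[ℓ^k]` is
contained in `P_m` for some positive multiple `m` of `m_0`, since it is finite. -/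
theorem torsion_is_fixed {G : Type*} [AddCommGroup G] {φ : Module.End ℤ G} {n ℓ : ℕ}
    (D : H57.TG.Data φ n ℓ) {m0 : ℕ} (hm0 : 0 < m0) (k : ℕ) :
    ∃ m > 0, m0 ∣ m ∧ H57.TG.T G ℓ k ≤ H57.TG.P φ m :=
  D.exists_T_le hm0 k

/-- **The order of `G[ℓ]`** (`H57TorsGrowth`), step (c): it is `ℓ^n`. At most: `card_fixed_torsion_le`
and `torsion_is_fixed`. At least: by Sylow's theorem the kernel of the norm has a subgroup of order
`ℓ^n`; its elements have `ℓ`-power order and norm `0`, so they are killed by `ℓ`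
(`GuideWeights.norm_lowers_order` with `k = 0`). -/
theorem card_torsion_one {G : Type*} [AddCommGroup G] {φ : Module.End ℤ G} {n ℓ : ℕ}
    (D : H57.TG.Data φ n ℓ) : Nat.card (H57.TG.T G ℓ 1) = ℓ ^ n :=
  D.card_T_one

/-- **Divisibility** (`H57TorsGrowth`), step (d): multiplication by `ℓ` from `G[ℓ^(k+1)]` to `G[ℓ^k]` is
onto. -/
theorem divisibility {G : Type*} [AddCommGroup G] {φ : Module.End ℤ G} {n ℓ : ℕ}
    (D : H57.TG.Data φ n ℓ) (k : ℕ) : Function.Surjective (H57.TG.mulT G ℓ k) :=
  D.surjective_mulT k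

/-- **The count** (`H57TorsGrowth`): `#G[ℓ^k] = ℓ^(nk)`, by induction on `k` from `multiplication`,
`card_torsion_one` and `divisibility`. `GuideTorsion.torsion_of_growth` is the same theorem for a group
written multiplicatively and an automorphism `φ`. -/
theorem card_torsion {G : Type*} [AddCommGroup G] {φ : Module.End ℤ G} {n ℓ : ℕ}
    (D : H57.TG.Data φ n ℓ) (k : ℕ) : Nat.card (H57.TG.T G ℓ k) = ℓ ^ (n * k) :=
  D.card_T k

/-! ## 4. The growth of the determinants -/

/-- **A unit modulo `ℓ`** (`H57TorsGrowth`): `det (1 + ℓ C)` is prime to `ℓ`, for an integral matrix `C`.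
This is why the factor `u` in `GuideWeights.det_growth` is prime to `ℓ`: if `M^m ≡ 1` modulo `ℓ²`, then
`1 + M^m + ... + M^(m(ℓ-1))` is `ℓ (1 + ℓ C)` for an integral matrix `C`, of determinant
`ℓ^n det (1 + ℓ C)`. -/
theorem det_one_add_smul {n ℓ : ℕ} (hℓ : ℓ.Prime) (C : Matrix (Fin n) (Fin n) ℤ) :
    ¬ (ℓ : ℤ) ∣ (1 + (ℓ : ℤ) • C).det :=
  H57.TG.det_one_add_smul hℓ C

/-- **The numbers as determinants** (`H57Growth`). For a monic integral polynomial `Q` there is an
integral matrix `M` of size `deg Q`, with characteristic polynomial `Q`, such that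
`det (1 - M^m) = ∏ (1 - α^m)`, the product over the complex roots `α` of `Q` (with multiplicities); and
`det M = ± Q(0)`, so a prime `ℓ` which does not divide `Q(0)` does not divide `det M`, and
`GuideWeights.det_growth` applies. In `GuideTorsion.growth` the numbers `h m` are given by such
products; for a curve, `Q` is the reversed numerator of the zeta function, and `h m = #P_m` the number of
the classes which are fixed by `φ^m`. -/
theorem numbers_as_determinants (Q : Polynomial ℤ) (hQ : Q.Monic) :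
    ∃ M : Matrix (Fin Q.natDegree) (Fin Q.natDegree) ℤ, M.charpoly = Q ∧
      (∀ m : ℕ, (((1 - M ^ m).det : ℤ) : ℂ) =
        ((Q.map (Int.castRingHom ℂ)).roots.map fun α => 1 - α ^ m).prod) ∧
      ∀ ℓ : ℕ, ¬ (ℓ : ℤ) ∣ Q.coeff 0 → ¬ (ℓ : ℤ) ∣ M.det := by
  obtain ⟨M, hM⟩ := H57.TG.exists_matrix Q hQ
  refine ⟨M, hM, fun m => ?_, fun ℓ hℓ hd => hℓ ?_⟩
  · have h := H57.TG.det_aeval (M.map (Int.castRingHom ℂ)) (1 - Polynomial.X ^ m)
    rw [Matrix.charpoly_map, hM] at h
    have h2 : (((1 - M ^ m).det : ℤ) : ℂ) =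
        (Polynomial.aeval (M.map (Int.castRingHom ℂ)) (1 - Polynomial.X ^ m : Polynomial ℂ)).det := by
      have h3 := (Int.castRingHom ℂ).map_det (1 - M ^ m)
      rw [map_sub, map_one, map_pow] at h3
      simpa using h3
    rw [h2, h]
    simp
  · rw [Matrix.det_eq_sign_charpoly_coeff, hM] at hd
    rcases neg_one_pow_eq_or ℤ (Fintype.card (Fin Q.natDegree)) with h1 | h1 <;> rw [h1] at hd
    · simpa using hd
    · simpa using hd

end Fermat.Agent.Guide.TorsionGrowth
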