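import Fermat.Agent.H77FOTheta

/-!
# S27: bounded variant of `Theta` (helper68)

Same as `H77.FOL.Tors` and `H77.FOL.Theta`, with the extra condition `n * e < D` (which makes sure
that the witness in `EquivF` fits into the box).
-/

set_option autoImplicit false

open FirstOrder FirstOrder.Language Polynomial
open Fermat.Agent.H95 Fermat.Agent.H77.FOL

namespace Fermat.Agent.H68

universe u

/-- `H77.FOL.Tors` with the extra bound `n * e < D`. -/
def TorsB (s : Shape) (n D : ℕ) {K : Type*} [Field K] (c : s.Idx → K)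
    (f : Fin s.a × Fin D → K) : Prop :=
  ∃ (e : Fin D) (u : Fin s.a → Fin D), n * (e : ℕ) < D ∧
    (∀ i j, (u i : ℕ) ≡ u j [MOD s.a] → i = j) ∧ (∑ j, (u j : ℕ) = ∑ j, s.w j + s.a * e) ∧
    HasWt s f (n * e) ∧
    ∃ z t : Fin s.a × (Fin s.a × Fin D) → K,
      (∀ j, HasWt s (fun p => z (j, p)) (u j)) ∧
      ∀ j, tpow s c (toP s (fun p => z (j, p))) n =
        s.tmul c (toP s f) (toP s (fun p => t (j, p)))

/-- `H77.FOL.Theta` with the extra bound `n * e < D`. -/
def ThetaB (s : Shape) (n D M : ℕ) {K : Type*} [Field K] (c : s.Idx → K) : Prop :=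
  ∃ F : Fin M × (Fin s.a × Fin D) → K, (∀ i, TorsB s n D c (fun p => F (i, p))) ∧
    ∀ i j, i ≠ j → ¬ EquivF s n D c (fun p => F (i, p)) (fun p => F (j, p))

variable {α : Type} (s : Shape)

theorem fo_torsB {c : ∀ (K : Type u) [Field K], (α → K) → s.Idx → K} (n : ℕ) {D : ℕ}
    (hc : ∀ t, PF (fun K _ v => c K v t))
    {f : ∀ (K : Type u) [Field K], (α → K) → Fin s.a × Fin D → K}
    (hf : ∀ p, PF (fun K _ v => f K v p)) :
    FO (fun K _ v => TorsB s n D (c K v) (f K v)) := by
  unfold TorsB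
  refine fo_exists fun e => fo_exists fun w => fo_and_const _ fun _ => fo_and_const _ fun _ =>
    fo_and_const _ fun _ => fo_and (fo_hasWt s hf _) ?_
  refine fo_ex' (β := Fin s.a × (Fin s.a × Fin D)) ?_
  refine fo_ex' (β := Fin s.a × (Fin s.a × Fin D)) ?_
  refine fo_and (fo_forall fun j => fo_hasWt s (fun p => PF.var _) _) (fo_forall fun j => ?_)
  refine fo_funext ?_ ?_
  · intro i
    exact UF.tpow s (fun t => ((hc t).comp Sum.inl).comp Sum.inl)
      (fun i => UF.toP s (fun p => PF.var _) i) n i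
  · intro i
    exact UF.tmul s (fun t => ((hc t).comp Sum.inl).comp Sum.inl)
      (fun i => UF.toP s (fun p => ((hf p).comp Sum.inl).comp Sum.inl) i)
      (fun i => UF.toP s (fun p => PF.var _) i) i

theorem fo_thetaB (n D M : ℕ) : FO.{u} (fun K _ (c : s.Idx → K) => ThetaB s n D M c) := by
  unfold ThetaB
  refine fo_ex' (β := Fin M × (Fin s.a × Fin D)) ?_
  refine fo_and (fo_forall fun i => fo_torsB s n (fun t => PF.var _) (fun p => PF.var _))
    (fo_forall fun i => fo_forall fun j => fo_imp_const _ fun _ =>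
      fo_not (fo_equivF s n (fun t => PF.var _) (fun p => PF.var _) (fun p => PF.var _)))

end Fermat.Agent.H68
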