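import Fermat.Agent.H95W1
set_option autoImplicit false

namespace Fermat.Agent.H63

open Fermat.Agent.H95 Module
open scoped nonZeroDivisors

section W2
variable {K : Type*} {B : Type*} [Field K] [CommRing B] [Algebra K B] {wt : B → WithBot ℕ}

theorem not_isField (hw : IsWeight K wt) : ¬ IsField B := by
  intro hB
  have h0 : ∀ f : B, f ≠ 0 → wt f = 0 := by
    intro f hf
    obtain ⟨g, hg⟩ := hB.mul_inv_cancel hf
    have h1 := hw.mul f g
    rw [hg, hw.wt_one] at h1
    have hg0 : g ≠ 0 := by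
      rintro rfl
      rw [mul_zero] at hg
      have := hw.wt_one
      rw [← hg, hw.wt_zero] at this
      exact absurd this (by simp)
    obtain ⟨m, hm⟩ := hw.exists_nat hf
    obtain ⟨n, hn⟩ := hw.exists_nat hg0
    rw [hm, hn] at h1
    have : (0 : ℕ) = m + n := by exact_mod_cast h1
    rw [hm]
    have : m = 0 := by omega
    rw [this]; rfl
  have hsub : Set.Ici 1 ⊆ {n : ℕ | ∀ f, wt f ≠ (n : WithBot ℕ)} := by
    intro n hn f hf
    have hn' : 1 ≤ n := hn
    rw [h0 f (hw.ne_zero_of_wt hf)] at hf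
    have : (0 : ℕ) = n := by exact_mod_cast hf
    omega
  exact (Set.Ici_infinite 1) (hw.finite_gaps.subset hsub)

theorem ne_bot_of_isMaximal (hw : IsWeight K wt) {I : Ideal B} (hI : I.IsMaximal) : I ≠ ⊥ := by
  rintro rfl
  have := hw.isDomain
  exact not_isField hw (Ring.isField_iff_maximal_bot.mpr hI)

variable [IsAlgClosed K]

theorem exists_sub_mem_of_isMaximal (hw : IsWeight K wt) {P : Ideal B} (hP : P.IsMaximal) (b : B) :
    ∃ c : K, b - algebraMap K B c ∈ P := by
  have h1 := hw.finite_quot (ne_bot_of_isMaximal hw hP)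
  have h2 : Algebra.IsIntegral K (B ⧸ P) := inferInstance
  have h3 := (IsAlgClosed.algebraMap_bijective_of_isIntegral (k := K) (K := B ⧸ P)).2
  obtain ⟨c, hc⟩ := h3 (Ideal.Quotient.mk P b)
  refine ⟨c, ?_⟩
  rw [← Ideal.Quotient.eq, ← hc]
  rfl

/-- residue fields have degree one. -/
theorem cdeg_maximal (hw : IsWeight K wt) {I : Ideal B} (hI : I.IsMaximal) : cdeg K I = 1 := by
  have h1 := hw.finite_quot (ne_bot_of_isMaximal hw hI)
  have h2 : Algebra.IsIntegral K (B ⧸ I) := inferInstance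
  have h3 := IsAlgClosed.algebraMap_bijective_of_isIntegral (k := K) (K := B ⧸ I)
  rw [cdeg]
  exact (LinearEquiv.finrank_eq (LinearEquiv.ofBijective (Algebra.linearMap K (B ⧸ I)) h3)).symm.trans
    (Module.finrank_self K)

variable [IsDedekindDomain B]

theorem cdeg_maximal_mul (hw : IsWeight K wt) {P J : Ideal B} (hP : P.IsMaximal) (hJ : J ≠ ⊥) :
    cdeg K (P * J) = 1 + cdeg K J := by
  have hPbot := ne_bot_of_isMaximal hw hP
  have hPJ : P * J ≠ ⊥ := by
    rw [Ne, Ideal.mul_eq_bot]; tauto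
  have hle : P * J ≤ J := Ideal.mul_le_right
  have hlt : P * J < J := by
    refine lt_of_le_of_ne hle ?_
    intro h
    apply hP.ne_top
    have h2 : P * J = ⊤ * J := by rw [h, Ideal.top_mul]
    exact mul_right_cancel₀ hJ h2
  obtain ⟨x, hxJ, hx⟩ := Set.exists_of_ssubset hlt
  have hxJ' : x ∈ J := hxJ
  have hx' : x ∉ P * J := hx
  -- `(x) + P J = J`
  have hsup : Ideal.span {x} ⊔ P * J = J := by
    have h1 : Ideal.span {x} ⊔ P * J ≤ J :=
      sup_le ((Ideal.span_singleton_le_iff_mem J).mpr hxJ') hle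
    obtain ⟨Q, hQ⟩ := Ideal.dvd_iff_le.mpr h1
    have h2 : P ≤ Q := by
      rw [← Ideal.dvd_iff_le]
      have h3 : J * Q ∣ J * P := by
        rw [← hQ, Ideal.dvd_iff_le, mul_comm J P]
        exact le_sup_right
      exact (mul_dvd_mul_iff_left hJ).mp h3
    by_cases hQt : Q = ⊤
    · rw [hQ, hQt, Ideal.mul_top]
    · exfalso
      have := hP.eq_of_le hQt h2
      apply hx'
      rw [this, mul_comm, ← hQ]
      exact Ideal.mem_sup_left (Ideal.mem_span_singleton_self x)
  have hfin := hw.finite_quot hPJ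
  let f : (B ⧸ P * J) →ₐ[K] (B ⧸ J) := Ideal.Quotient.factorₐ K hle
  have hfsurj : Function.Surjective f := Ideal.Quotient.factor_surjective hle
  have hker : LinearMap.ker f.toLinearMap = Submodule.span K {Ideal.Quotient.mk (P * J) x} := by
    apply le_antisymm
    · intro z hz
      obtain ⟨j, rfl⟩ := Ideal.Quotient.mk_surjective z
      have hj : Ideal.Quotient.mk J j = 0 := hz
      rw [Ideal.Quotient.eq_zero_iff_mem, ← hsup, Submodule.mem_sup] at hj
      obtain ⟨u, hu, y, hy, rfl⟩ := hj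
      obtain ⟨b, rfl⟩ := Ideal.mem_span_singleton'.mp hu
      obtain ⟨c, hc⟩ := exists_sub_mem_of_isMaximal hw hP b
      rw [Submodule.mem_span_singleton]
      refine ⟨c, ?_⟩
      have h1 : c • Ideal.Quotient.mk (P * J) x = Ideal.Quotient.mk (P * J) (algebraMap K B c * x) := by
        rw [Algebra.smul_def, map_mul]; rfl
      rw [h1, eq_comm, Ideal.Quotient.eq]
      have h2 : b * x + y - algebraMap K B c * x = (b - algebraMap K B c) * x + y := by ring
      rw [h2]
      exact (P * J).add_mem (Ideal.mul_mem_mul hc hxJ') hy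
    · rw [Submodule.span_le, Set.singleton_subset_iff]
      change Ideal.Quotient.mk J x = 0
      rw [Ideal.Quotient.eq_zero_iff_mem]
      exact hxJ'
  have hne : Ideal.Quotient.mk (P * J) x ≠ 0 := by
    rw [Ne, Ideal.Quotient.eq_zero_iff_mem]; exact hx'
  have h3 := LinearMap.finrank_range_add_finrank_ker f.toLinearMap
  rw [hker, finrank_span_singleton hne, LinearMap.range_eq_top.mpr hfsurj, finrank_top] at h3
  rw [cdeg, cdeg, ← h3, add_comm]

/-- The colength is additive. -/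
theorem cdeg_mul (hw : IsWeight K wt) {I J : Ideal B} (hI : I ≠ ⊥) (hJ : J ≠ ⊥) :
    cdeg K (I * J) = cdeg K I + cdeg K J := by
  induction I using UniqueFactorizationMonoid.induction_on_prime with
  | h₁ => exact absurd rfl hI
  | h₂ x hx =>
    rw [Ideal.isUnit_iff] at hx
    rw [hx, Ideal.top_mul, hw.cdeg_top_wts, zero_add]
  | h₃ a p ha hp ih =>
    have hpm : p.IsMaximal := (Ideal.isPrime_of_prime hp).isMaximal hp.ne_zero
    have haJ : a * J ≠ ⊥ := by
      rw [Ne, Ideal.mul_eq_bot]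
      rintro (h | h)
      · exact ha h
      · exact hJ h
    rw [mul_assoc, cdeg_maximal_mul hw hpm haJ, cdeg_maximal_mul hw hpm ha, ih ha, add_assoc]

omit [IsAlgClosed K] [IsDedekindDomain B] in
theorem nset_span_mul (hw : IsWeight K wt) {x : B} (hx : x ≠ 0) {J : Ideal B} (hJ : J ≠ ⊥) :
    nset K wt (Ideal.span {x} * J) = nset K wt J := by
  obtain ⟨w, hw'⟩ := hw.exists_nat hx
  ext n
  change n + cdeg K (Ideal.span {x} * J) ∈ wts wt _ ↔ n + cdeg K J ∈ wts wt (J : Set B)
  rw [hw.wts_span_mul hw', hw.cdeg_span_mul' hw' hJ]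
  constructor
  · rintro ⟨m, hm, hmn⟩
    have h1 : m + w = n + (w + cdeg K J) := hmn
    have : m = n + cdeg K J := by omega
    rwa [← this]
  · intro h
    exact ⟨_, h, by change n + cdeg K J + w = n + (w + cdeg K J); omega⟩

omit [IsAlgClosed K] in
theorem nset_eq (hw : IsWeight K wt) (I J : (Ideal B)⁰) (h : ClassGroup.mk0 I = ClassGroup.mk0 J) :
    nset K wt (I : Ideal B) = nset K wt (J : Ideal B) := by
  obtain ⟨x, y, hx, hy, hxy⟩ := (ClassGroup.mk0_eq_mk0_iff (I := I) (J := J)).mp h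
  rw [← nset_span_mul hw hx (nonZeroDivisors.coe_ne_zero I), hxy,
    nset_span_mul hw hy (nonZeroDivisors.coe_ne_zero J)]

omit [IsAlgClosed K] in
theorem zero_mem_nset_iff (hw : IsWeight K wt) (J : (Ideal B)⁰) :
    0 ∈ nset K wt (J : Ideal B) ↔ ClassGroup.mk0 J = 1 := by
  have hJ : (J : Ideal B) ≠ ⊥ := nonZeroDivisors.coe_ne_zero J
  rw [ClassGroup.mk0_eq_one_iff]
  change 0 + cdeg K (J : Ideal B) ∈ wts wt ((J : Ideal B) : Set B) ↔ _
  rw [zero_add]
  constructor
  · rintro ⟨f, hf, hfw⟩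
    have hf0 := hw.ne_zero_of_wt hfw
    have h1 : Ideal.span {f} = (J : Ideal B) := by
      apply hw.eq_of_le_of_cdeg_le ((Ideal.span_singleton_le_iff_mem _).mpr hf)
      · rwa [Ne, Ideal.span_singleton_eq_bot]
      · rw [hw.cdeg_span' hfw]
    exact ⟨f, h1.symm⟩
  · rintro ⟨f, hf⟩
    have hf' : (J : Ideal B) = Ideal.span {f} := hf
    have hf0 : f ≠ 0 := by
      rintro rfl
      apply hJ
      rw [hf']; simp
    obtain ⟨w, hw'⟩ := hw.exists_nat hf0
    refine ⟨f, ?_, ?_⟩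
    · rw [hf']; exact Ideal.mem_span_singleton_self f
    · rw [hf', hw.cdeg_span' hw', hw']

/-- Reduced ideals. -/
theorem exists_reduced (hw : IsWeight K wt) (κ : ClassGroup B) :
    ∃ J : (Ideal B)⁰, ClassGroup.mk0 J = κ ∧ cdeg K (J : Ideal B) ≤ genus wt ∧
      ∀ J' : (Ideal B)⁰, ClassGroup.mk0 J' = κ → cdeg K (J' : Ideal B) ≤ cdeg K (J : Ideal B) →
        J' = J := by
  classical
  obtain ⟨A, hA⟩ := ClassGroup.mk0_surjective κ⁻¹
  have hA0 : (A : Ideal B) ≠ ⊥ := nonZeroDivisors.coe_ne_zero A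
  obtain ⟨f₀, hf₀, hf₀0, n₀, hn₀, hn₀le⟩ := hw.exists_wt_le hA0
  have hex : ∃ n, n ∈ wts wt ((A : Ideal B) : Set B) := ⟨n₀, f₀, hf₀, hn₀⟩
  set m := Nat.find hex with hm
  obtain ⟨f, hfA, hfm⟩ := Nat.find_spec hex
  have hmin : ∀ n, n ∈ wts wt ((A : Ideal B) : Set B) → m ≤ n := fun n hn => Nat.find_min' hex hn
  have hmle : m ≤ genus wt + cdeg K (A : Ideal B) := (hmin n₀ ⟨f₀, hf₀, hn₀⟩).trans hn₀le
  have hf0 : f ≠ 0 := hw.ne_zero_of_wt hfm
  have hle : Ideal.span {f} ≤ (A : Ideal B) := (Ideal.span_singleton_le_iff_mem _).mpr hfA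
  obtain ⟨J, hJ⟩ := Ideal.dvd_iff_le.mpr hle
  have hspan0 : Ideal.span {f} ≠ ⊥ := by rwa [Ne, Ideal.span_singleton_eq_bot]
  have hJ0 : J ≠ ⊥ := by
    rintro rfl
    rw [Ideal.mul_bot] at hJ
    exact hspan0 hJ
  set J₀ : (Ideal B)⁰ := ⟨J, mem_nonZeroDivisors_iff_ne_zero.mpr hJ0⟩ with hJ₀
  have hcdeg : cdeg K (A : Ideal B) + cdeg K J = m := by
    rw [← cdeg_mul hw hA0 hJ0, ← hJ, hw.cdeg_span' hfm]
  have hcl : ClassGroup.mk0 J₀ = κ := by
    have h1 : ClassGroup.mk0 (A * J₀) = 1 := by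
      rw [ClassGroup.mk0_eq_one_iff]
      exact ⟨f, hJ.symm⟩
    rw [map_mul, hA] at h1
    exact (inv_mul_eq_one.mp h1).symm
  refine ⟨J₀, hcl, ?_, ?_⟩
  · change cdeg K J ≤ _
    omega
  · intro J' hJ' hle'
    have hJ'0 : (J' : Ideal B) ≠ ⊥ := nonZeroDivisors.coe_ne_zero J'
    have h1 : ClassGroup.mk0 (A * J') = 1 := by
      rw [map_mul, hA, hJ', inv_mul_cancel]
    rw [ClassGroup.mk0_eq_one_iff] at h1
    obtain ⟨f', hf'⟩ := h1
    have hf'' : (A : Ideal B) * (J' : Ideal B) = Ideal.span {f'} := hf'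
    have hf'0 : f' ≠ 0 := by
      rintro rfl
      rw [Set.singleton_zero, Ideal.span_zero, Ideal.mul_eq_bot] at hf''
      tauto
    obtain ⟨w, hw'⟩ := hw.exists_nat hf'0
    have hwm : w ≤ m := by
      have h2 := cdeg_mul hw hA0 hJ'0
      rw [hf'', hw.cdeg_span' hw'] at h2
      have h3 : cdeg K (J' : Ideal B) ≤ cdeg K J := hle'
      omega
    have hf'A : f' ∈ (A : Ideal B) := by
      have : f' ∈ (A : Ideal B) * (J' : Ideal B) := by
        rw [hf'']; exact Ideal.mem_span_singleton_self f'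
      exact Ideal.mul_le_left this
    have hwm' : w = m := le_antisymm hwm (hmin w ⟨f', hf'A, hw'⟩)
    obtain ⟨c, hc⟩ := hw.exists_sub_lt f' f hf'0 (by rw [hw', hfm, hwm'])
    have heq : f' - c • f = 0 := by
      by_contra hne
      obtain ⟨v, hv⟩ := hw.exists_nat hne
      have hmem : f' - c • f ∈ (A : Ideal B) := by
        refine (A : Ideal B).sub_mem hf'A ?_
        rw [Algebra.smul_def]
        exact Ideal.mul_mem_left _ _ hfA
      have h2 := hmin v ⟨_, hmem, hv⟩
      rw [hv, hw', hwm'] at hc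
      have : v < m := by exact_mod_cast hc
      omega
    have hc0 : c ≠ 0 := by
      rintro rfl
      rw [zero_smul, sub_zero] at heq
      exact hf'0 heq
    have hspan : Ideal.span {f'} = Ideal.span {f} := by
      rw [sub_eq_zero.mp heq, Algebra.smul_def]
      have hu : IsUnit (algebraMap K B c) := (IsUnit.mk0 c hc0).map _
      exact Ideal.span_singleton_mul_left_unit hu f
    apply Subtype.ext
    change (J' : Ideal B) = J
    rw [hspan, hJ] at hf''
    exact mul_left_cancel₀ hA0 hf''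

end W2

end Fermat.Agent.H63
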