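import Fermat.Agent.H77Vwt

/-!
# S27 (M1): weighted algebras and tables
-/

set_option autoImplicit false

open Polynomial Fermat.Agent.H95

namespace Fermat.Agent.H77.M

section Ev

variable {s : Shape} {K B : Type*} [Field K] [CommRing B] [Algebra K B]

/-- the element of `B` given by a coordinate vector -/
noncomputable def ev (x : B) (y : Fin s.a → B) : (Fin s.a → K[X]) →ₗ[K] B where
  toFun u := ∑ k, aeval x (u k) * y k
  map_add' u v := by
    simp only [Pi.add_apply, map_add, add_mul, Finset.sum_add_distrib]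
  map_smul' r u := by
    simp only [Pi.smul_apply, map_smul, RingHom.id_apply, Finset.smul_sum, smul_mul_assoc]

theorem ev_apply (x : B) (y : Fin s.a → B) (u : Fin s.a → K[X]) :
    ev x y u = ∑ k, aeval x (u k) * y k := rfl

theorem ev_single (x : B) (y : Fin s.a → B) (k : Fin s.a) (p : K[X]) :
    ev x y (Pi.single k p) = aeval x p * y k := by
  rw [ev_apply, Finset.sum_eq_single k]
  · rw [Pi.single_eq_same]
  · intro b _ hb
    rw [Pi.single_eq_of_ne hb, map_zero, zero_mul]
  · intro h
    exact absurd (Finset.mem_univ _) h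

theorem ev_mono (x : B) (y : Fin s.a → B) (k : Fin s.a) (e : ℕ) :
    ev (K := K) x y (mono s k e) = x ^ e * y k := by
  rw [mono, ev_single, map_pow, aeval_X]

theorem ev_psmul (x : B) (y : Fin s.a → B) (p : K[X]) (u : Fin s.a → K[X]) :
    ev x y (p • u) = aeval x p * ev x y u := by
  simp only [ev_apply, Pi.smul_apply, smul_eq_mul, map_mul, Finset.mul_sum, mul_assoc]

theorem ev_tmul {c : s.Idx → K} {x : B} {y : Fin s.a → B}
    (hmul : ∀ i j, y i * y j = ∑ k, aeval x (s.C c i j k) * y k) (u v : Fin s.a → K[X]) :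
    ev x y (s.tmul c u v) = ev x y u * ev x y v := by
  simp only [ev_apply, Shape.tmul, map_sum, map_mul, Finset.sum_mul, Finset.mul_sum]
  rw [Finset.sum_comm]
  conv_rhs => rw [Finset.sum_comm]
  refine Finset.sum_congr rfl fun i _ => ?_
  rw [Finset.sum_comm]
  refine Finset.sum_congr rfl fun j _ => ?_
  rw [show aeval x (u i) * y i * (aeval x (v j) * y j) =
    aeval x (u i) * aeval x (v j) * (y i * y j) by ring, hmul, Finset.mul_sum]
  refine Finset.sum_congr rfl fun k _ => ?_
  ring

end Ev

section Coeff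

variable (s : Shape) {R : Type*} [CommRing R]

theorem coeff_C (c : s.Idx → R) (i j k : Fin s.a) (e : ℕ) :
    (s.C c i j k).coeff e = if h : e < s.N then c (i, j, k, ⟨e, h⟩) else 0 := by
  unfold Shape.C
  rw [finsetSum_coeff]
  simp only [coeff_C_mul, coeff_X_pow, mul_ite, mul_one, mul_zero]
  split_ifs with h
  · rw [Finset.sum_eq_single (⟨e, h⟩ : Fin s.N)]
    · simp
    · intro b _ hb
      rw [if_neg]
      intro h'
      exact hb (Fin.ext h'.symm)
    · intro h'
      exact absurd (Finset.mem_univ _) h'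
  · apply Finset.sum_eq_zero
    intro b _
    rw [if_neg]
    intro h'
    exact h (h' ▸ b.2)

theorem coeff_C_fin (c : s.Idx → R) (i j k : Fin s.a) (e : Fin s.N) :
    (s.C c i j k).coeff e = c (i, j, k, e) := by
  rw [coeff_C, dif_pos e.2]

end Coeff

section Model

variable {s : Shape} {K B : Type*} [Field K] [CommRing B] [Algebra K B]
  {wt : B → WithBot ℕ} {c : s.Idx → K} {x : B} {y : Fin s.a → B}

theorem wt_pow (hw : IsWeight K wt) {f : B} {m : ℕ} (hf : wt f = (m : WithBot ℕ)) (e : ℕ) :
    wt (f ^ e) = ((m * e : ℕ) : WithBot ℕ) := by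
  induction e with
  | zero => rw [pow_zero, hw.wt_one, mul_zero]; rfl
  | succ e ih =>
    rw [pow_succ, hw.mul, ih, hf]
    exact_mod_cast congrArg _ (by ring)

theorem wt_ev_of (hw : IsWeight K wt) (hx : wt x = (s.a : WithBot ℕ))
    (hy : ∀ i, wt (y i) = (s.w i : WithBot ℕ)) (u : Fin s.a → K[X]) :
    wt (ev x y u) = vwt s u := by
  have hwf : WellFounded (fun u v : Fin s.a → K[X] => vwt s u < vwt s v) :=
    InvImage.wf _ wellFounded_lt
  induction u using hwf.induction with
  | _ u ih =>
    by_cases hu : u = 0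
    · rw [hu, map_zero, hw.wt_zero, vwt_zero]
    · obtain ⟨k, e, r, u', hr, hu', hlt, hm⟩ := exists_split s hu
      have h1 : wt (r • (x ^ e * y k)) = ((pos s k e : ℕ) : WithBot ℕ) := by
        rw [hw.wt_smul hr, hw.mul, wt_pow hw hx, hy]
        rfl
      have h2 : ev x y u = r • (x ^ e * y k) + ev x y u' := by
        conv_lhs => rw [hu']
        rw [map_add, map_smul, ev_mono]
      rw [h2, hw.wt_add_eq_of_lt, h1, hm]
      rw [h1, ih u' hlt, ← hm]
      exact hlt

theorem wt_ev (h : s.IsModel c wt x y) (u : Fin s.a → K[X]) : wt (ev x y u) = vwt s u :=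
  wt_ev_of h.isWeight h.wt_x h.wt_y u

theorem ev_bijective (h : s.IsModel c wt x y) :
    Function.Bijective (ev x y : (Fin s.a → K[X]) →ₗ[K] B) := h.bijective

theorem ev_mul (h : s.IsModel c wt x y) (u v : Fin s.a → K[X]) :
    ev x y (s.tmul c u v) = ev x y u * ev x y v := ev_tmul h.mul u v

theorem ev_one (h : s.IsModel c wt x y) : ev x y (Pi.single 0 (1 : K[X])) = 1 := by
  rw [ev_single, map_one, one_mul, h.y_zero]

theorem isTable (h : s.IsModel c wt x y) : s.IsTable c := by
  have hinj := (ev_bijective h).1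
  have hC : ∀ i j, ev x y (s.C c i j) = y i * y j := fun i j => (h.mul i j).symm
  have hvwt : ∀ i j, vwt s (s.C c i j) = ((s.w i + s.w j : ℕ) : WithBot ℕ) := by
    intro i j
    rw [← wt_ev h, hC, h.isWeight.mul, h.wt_y, h.wt_y]
    rfl
  have hpsum : ∀ (p : Fin s.a → K[X]) (q : Fin s.a → Fin s.a → K[X]),
      ev x y (fun m => ∑ l, p l * q l m) = ∑ l, aeval x (p l) * ev x y (q l) := by
    intro p q
    have : (fun m => ∑ l, p l * q l m) = ∑ l, p l • q l := by
      funext m
      simp
    rw [this, map_sum]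
    exact Finset.sum_congr rfl fun l _ => ev_psmul x y _ _
  refine ⟨fun i j k => ?_, fun j k => ?_, fun i j k m => ?_, fun i j k e he => ?_, fun i j => ?_⟩
  · have : s.C c i j = s.C c j i := hinj (by rw [hC, hC, mul_comm])
    rw [this]
  · have : s.C c 0 j = Pi.single j 1 := hinj (by
      rw [hC, ev_single, h.y_zero, map_one])
    rw [this, Pi.single_apply]
    simp only [eq_comm]
  · have : (fun m => ∑ l, s.C c i j l * s.C c l k m) = fun m => ∑ l, s.C c j k l * s.C c i l m := by
      apply hinj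
      rw [hpsum, hpsum]
      have e1 : ∑ l, aeval x (s.C c i j l) * ev x y (s.C c l k) = (y i * y j) * y k := by
        rw [← hC i j, ev_apply, Finset.sum_mul]
        exact Finset.sum_congr rfl fun l _ => by rw [hC, mul_assoc]
      have e2 : ∑ l, aeval x (s.C c j k l) * ev x y (s.C c i l) = y i * (y j * y k) := by
        rw [← hC j k, ev_apply, Finset.mul_sum]
        exact Finset.sum_congr rfl fun l _ => by rw [hC]; ring
      rw [e1, e2, mul_assoc]
    exact congrFun this m
  · have h1 := ((vwt_eq_iff s).1 (hvwt i j)).1 k e he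
    rwa [coeff_C_fin] at h1
  · obtain ⟨k, e, he, hne⟩ := ((vwt_eq_iff s).1 (hvwt i j)).2
    rw [coeff_C] at hne
    split_ifs at hne with hlt
    · exact ⟨k, ⟨e, hlt⟩, he.symm, hne⟩
    · exact absurd rfl hne

end Model

/-! ### The set of weights of a model -/

section Genus

variable (s : Shape)

theorem a_pos : 0 < s.a := Nat.pos_of_ne_zero (NeZero.ne _)

/-- each residue class contains one `w i`. -/
theorem exists_modEq (n : ℕ) : ∃ i, s.w i ≡ n [MOD s.a] := by
  have ha := a_pos s
  have hinj : Function.Injective (fun i : Fin s.a => (⟨s.w i % s.a, Nat.mod_lt _ ha⟩ : Fin s.a)) := by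
    intro i j hij
    exact s.w_inj i j (by simpa [Nat.ModEq] using hij)
  obtain ⟨i, hi⟩ := (Finite.injective_iff_surjective.1 hinj) ⟨n % s.a, Nat.mod_lt _ ha⟩
  refine ⟨i, ?_⟩
  simpa [Nat.ModEq] using hi

/-- the set of positions -/
def posSet : Set ℕ := {n | ∃ k e, pos s k e = n}

theorem mem_posSet_iff {n : ℕ} {i : Fin s.a} (hi : s.w i ≡ n [MOD s.a]) :
    n ∈ posSet s ↔ s.w i ≤ n := by
  constructor
  · rintro ⟨k, e, rfl⟩
    have : s.w i ≡ s.w k [MOD s.a] := by
      refine hi.trans ?_
      unfold pos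
      exact ((Nat.modEq_iff_dvd' (by omega)).2 ⟨e, by omega⟩).symm
    rw [s.w_inj i k this]
    unfold pos
    omega
  · intro hle
    obtain ⟨e, he⟩ := (Nat.modEq_iff_dvd' hle).1 hi
    exact ⟨i, e, by unfold pos; omega⟩

theorem compl_posSet : (posSet s)ᶜ =
    ((Finset.univ : Finset (Fin s.a)).sigma fun i => Finset.range (s.w i / s.a)).image
      (fun p => s.w p.1 % s.a + s.a * p.2) := by
  have ha := a_pos s
  ext n
  rw [Set.mem_compl_iff, Finset.mem_coe, Finset.mem_image]
  constructor
  · intro hn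
    obtain ⟨i, hi⟩ := exists_modEq s n
    rw [mem_posSet_iff s hi, not_le] at hn
    refine ⟨⟨i, n / s.a⟩, ?_, ?_⟩
    · rw [Finset.mem_sigma, Finset.mem_range]
      refine ⟨Finset.mem_univ _, ?_⟩
      show n / s.a < s.w i / s.a
      have h1 := Nat.div_add_mod n s.a
      have h2 := Nat.div_add_mod (s.w i) s.a
      have h3 : s.w i % s.a = n % s.a := hi
      rw [h3] at h2
      by_contra hcon
      rw [not_lt] at hcon
      have := Nat.mul_le_mul_left s.a hcon
      omega
    · show s.w i % s.a + s.a * (n / s.a) = n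
      have h3 : s.w i % s.a = n % s.a := hi
      rw [h3]
      exact Nat.mod_add_div n s.a
  · rintro ⟨⟨i, t⟩, hmem, rfl⟩
    rw [Finset.mem_sigma, Finset.mem_range] at hmem
    have ht : t < s.w i / s.a := hmem.2
    have hi : s.w i ≡ s.w i % s.a + s.a * t [MOD s.a] := by
      simp [Nat.ModEq]
    show ¬ (s.w i % s.a + s.a * t ∈ posSet s)
    rw [mem_posSet_iff s hi, not_le]
    have h2 := Nat.div_add_mod (s.w i) s.a
    have := Nat.mul_lt_mul_of_pos_left ht ha
    omega

theorem ncard_compl_posSet : (posSet s)ᶜ.ncard = s.g := by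
  have ha := a_pos s
  rw [compl_posSet, Set.ncard_coe_finset, Finset.card_image_of_injOn, Finset.card_sigma]
  · simp [Shape.g]
  · rintro ⟨i, t⟩ _ ⟨j, t'⟩ _ h
    have h' : s.w i % s.a + s.a * t = s.w j % s.a + s.a * t' := h
    have hij : i = j := by
      apply s.w_inj
      have := congrArg (· % s.a) h'
      simpa [Nat.ModEq] using this
    subst hij
    have : t = t' := Nat.eq_of_mul_eq_mul_left ha (by omega)
    rw [this]

theorem finite_compl_posSet : (posSet s)ᶜ.Finite := by
  rw [compl_posSet]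
  exact Finset.finite_toSet _

end Genus

section Model

variable {s : Shape} {K B : Type*} [Field K] [CommRing B] [Algebra K B]
  {wt : B → WithBot ℕ} {c : s.Idx → K} {x : B} {y : Fin s.a → B}

theorem wts_univ_eq (h : s.IsModel c wt x y) : wts wt (Set.univ : Set B) = posSet s := by
  ext n
  constructor
  · rintro ⟨f, -, hf⟩
    obtain ⟨u, rfl⟩ := (ev_bijective h).2 f
    rw [wt_ev h, vwt_eq_iff] at hf
    obtain ⟨k, e, he, _⟩ := hf.2
    exact ⟨k, e, he⟩
  · rintro ⟨k, e, rfl⟩
    exact ⟨ev (K := K) x y (mono s k e), trivial, by rw [wt_ev h, vwt_mono]⟩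

theorem genus_eq (h : s.IsModel c wt x y) : genus wt = s.g := by
  rw [genus, wts_univ_eq h, ncard_compl_posSet]

end Model

end Fermat.Agent.H77.M
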