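import Mathlib
import Fermat.Agent.H63S27W2
import Fermat.Agent.H77Table

/-!
# S27-FO2, algebraic part: `n`-torsion ideal classes in terms of elements (helper68)
-/

set_option autoImplicit false

open scoped nonZeroDivisors Pointwise

namespace Fermat.Agent.H68

open Fermat.Agent.H95

/-! ### Gaps of `⋃ (u j + a ℕ)` -/

section Comb

/-- The set `⋃ j, (u j + a ℕ)`. -/
def aperySet {a : ℕ} (u : Fin a → ℕ) : Set ℕ := {n | ∃ (j : Fin a) (e : ℕ), u j + a * e = n}

variable {a : ℕ} [NeZero a] {u : Fin a → ℕ}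

lemma exists_modEq_of_inj (hu : ∀ i j, u i ≡ u j [MOD a] → i = j) (n : ℕ) :
    ∃ i, u i ≡ n [MOD a] := by
  have ha : 0 < a := Nat.pos_of_ne_zero (NeZero.ne _)
  have hinj : Function.Injective (fun i : Fin a => (⟨u i % a, Nat.mod_lt _ ha⟩ : Fin a)) := by
    intro i j hij
    exact hu i j (by simpa [Nat.ModEq] using hij)
  obtain ⟨i, hi⟩ := (Finite.injective_iff_surjective.1 hinj) ⟨n % a, Nat.mod_lt _ ha⟩
  refine ⟨i, ?_⟩
  simpa [Nat.ModEq] using hi

omit [NeZero a] in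
lemma mem_aperySet_iff (hu : ∀ i j, u i ≡ u j [MOD a] → i = j) {n : ℕ} {i : Fin a}
    (hi : u i ≡ n [MOD a]) : n ∈ aperySet u ↔ u i ≤ n := by
  constructor
  · rintro ⟨k, e, rfl⟩
    have : u i ≡ u k [MOD a] := by
      refine hi.trans ?_
      exact ((Nat.modEq_iff_dvd' (by omega)).2 ⟨e, by omega⟩).symm
    rw [hu i k this]
    omega
  · intro hle
    obtain ⟨e, he⟩ := (Nat.modEq_iff_dvd' hle).1 hi
    exact ⟨i, e, by omega⟩

lemma compl_aperySet (hu : ∀ i j, u i ≡ u j [MOD a] → i = j) : (aperySet u)ᶜ =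
    ((Finset.univ : Finset (Fin a)).sigma fun i => Finset.range (u i / a)).image
      (fun p => u p.1 % a + a * p.2) := by
  have ha : 0 < a := Nat.pos_of_ne_zero (NeZero.ne _)
  ext n
  rw [Set.mem_compl_iff, Finset.mem_coe, Finset.mem_image]
  constructor
  · intro hn
    obtain ⟨i, hi⟩ := exists_modEq_of_inj hu n
    rw [mem_aperySet_iff hu hi, not_le] at hn
    refine ⟨⟨i, n / a⟩, ?_, ?_⟩
    · rw [Finset.mem_sigma, Finset.mem_range]
      refine ⟨Finset.mem_univ _, ?_⟩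
      show n / a < u i / a
      have h1 := Nat.div_add_mod n a
      have h2 := Nat.div_add_mod (u i) a
      have h3 : u i % a = n % a := hi
      rw [h3] at h2
      by_contra hcon
      rw [not_lt] at hcon
      have := Nat.mul_le_mul_left a hcon
      omega
    · show u i % a + a * (n / a) = n
      have h3 : u i % a = n % a := hi
      rw [h3]
      exact Nat.mod_add_div n a
  · rintro ⟨⟨i, t⟩, hmem, rfl⟩
    rw [Finset.mem_sigma, Finset.mem_range] at hmem
    have ht : t < u i / a := hmem.2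
    have hi : u i ≡ u i % a + a * t [MOD a] := by
      simp [Nat.ModEq]
    show ¬ (u i % a + a * t ∈ aperySet u)
    rw [mem_aperySet_iff hu hi, not_le]
    have h2 := Nat.div_add_mod (u i) a
    have := Nat.mul_lt_mul_of_pos_left ht ha
    omega

lemma ncard_compl_aperySet (hu : ∀ i j, u i ≡ u j [MOD a] → i = j) :
    (aperySet u)ᶜ.ncard = ∑ i, u i / a := by
  have ha : 0 < a := Nat.pos_of_ne_zero (NeZero.ne _)
  rw [compl_aperySet hu, Set.ncard_coe_finset, Finset.card_image_of_injOn, Finset.card_sigma]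
  · simp
  · rintro ⟨i, t⟩ _ ⟨j, t'⟩ _ h
    have h' : u i % a + a * t = u j % a + a * t' := h
    have hij : i = j := by
      apply hu
      have := congrArg (· % a) h'
      simpa [Nat.ModEq] using this
    subst hij
    have : t = t' := Nat.eq_of_mul_eq_mul_left ha (by omega)
    rw [this]

lemma finite_compl_aperySet (hu : ∀ i j, u i ≡ u j [MOD a] → i = j) :
    (aperySet u)ᶜ.Finite := by
  rw [compl_aperySet hu]
  exact Finset.finite_toSet _

lemma sum_mod_eq (hu : ∀ i j, u i ≡ u j [MOD a] → i = j) :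
    ∑ i, u i % a = ∑ i : Fin a, (i : ℕ) := by
  have ha : 0 < a := Nat.pos_of_ne_zero (NeZero.ne _)
  have hinj : Function.Injective (fun i : Fin a => (⟨u i % a, Nat.mod_lt _ ha⟩ : Fin a)) := by
    intro i j hij
    exact hu i j (by simpa [Nat.ModEq] using hij)
  exact (Finite.injective_iff_bijective.1 hinj).sum_comp (fun i : Fin a => (i : ℕ))

lemma sum_eq_mul_ncard (hu : ∀ i j, u i ≡ u j [MOD a] → i = j) :
    ∑ i, u i = a * (aperySet u)ᶜ.ncard + ∑ i : Fin a, (i : ℕ) := by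
  rw [ncard_compl_aperySet hu, ← sum_mod_eq hu, Finset.mul_sum, ← Finset.sum_add_distrib]
  exact Finset.sum_congr rfl fun i _ => (Nat.div_add_mod _ _).symm

end Comb

section

variable {K : Type*} {B : Type*} [Field K] [CommRing B] [Algebra K B] {wt : B → WithBot ℕ}

/-- Units of a weighted algebra are constants. -/
lemma exists_eq_algebraMap_of_isUnit (hw : IsWeight K wt) {v : B} (hv : IsUnit v) :
    ∃ c : K, c ≠ 0 ∧ v = algebraMap K B c := by
  obtain ⟨v, rfl⟩ := hv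
  have := hw.isDomain
  have h1 : wt ((v : B) * ((v⁻¹ : Bˣ) : B)) = 0 := by rw [Units.mul_inv, hw.wt_one]
  rw [hw.mul] at h1
  obtain ⟨m, hm⟩ := hw.exists_nat (Units.ne_zero v)
  obtain ⟨m', hm'⟩ := hw.exists_nat (Units.ne_zero v⁻¹)
  rw [hm, hm'] at h1
  have h2 : m + m' = 0 := by exact_mod_cast h1
  have h3 : m = 0 := by omega
  subst h3
  obtain ⟨c, hc⟩ := hw.exists_sub_lt (v : B) 1 (Units.ne_zero v) (by rw [hm, hw.wt_one]; rfl)
  have h4 : (v : B) - c • (1 : B) = 0 := by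
    rw [← hw.eq_bot_iff]
    rw [hm] at hc
    by_contra hne
    obtain ⟨k, hk⟩ := WithBot.ne_bot_iff_exists.1 hne
    rw [← hk] at hc
    exact Nat.not_lt_zero k (WithBot.coe_lt_coe.1 hc)
  have h5 : (v : B) = algebraMap K B c := by
    rw [sub_eq_zero] at h4
    rw [h4, Algebra.smul_def, mul_one]
  refine ⟨c, ?_, h5⟩
  rintro rfl
  rw [map_zero] at h5
  exact Units.ne_zero v h5

/-- In an integrally closed domain, `zⱼⁿ ∈ (f)` for all `j` implies `(zⱼ)ⁿ ≤ (f)`. -/
lemma span_pow_le_span [IsDomain B] [IsIntegrallyClosed B] {ι : Type*} (z t : ι → B) (f : B)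
    {n : ℕ} (hn : 0 < n) (h : ∀ j, z j ^ n = f * t j) :
    Ideal.span (Set.range z) ^ n ≤ Ideal.span {f} := by
  have h1 : Ideal.span (Set.range z) ^ n = Submodule.span B (Set.range z ^ n) :=
    Submodule.span_pow (Set.range z) n
  rw [h1, Submodule.span_le]
  intro m hm
  obtain ⟨φ, rfl⟩ := Set.mem_pow.1 hm
  rw [List.prod_ofFn]
  have h2 : ∀ i, ∃ j, z j = (φ i : B) := fun i => (φ i).2
  choose ψ hψ using h2
  rw [SetLike.mem_coe, Ideal.mem_span_singleton,
    ← IsIntegrallyClosed.pow_dvd_pow_iff (n := n) hn.ne']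
  refine ⟨∏ i, t (ψ i), ?_⟩
  rw [← Finset.prod_pow]
  have h3 : ∀ i ∈ (Finset.univ : Finset (Fin n)), (φ i : B) ^ n = f * t (ψ i) := by
    intro i _
    rw [← hψ i, h]
  rw [Finset.prod_congr rfl h3, Finset.prod_mul_distrib, Finset.prod_const, Finset.card_univ,
    Fintype.card_fin]

end

section Model

variable {s : Shape} {K : Type*} {B : Type*} [Field K] [CommRing B] [Algebra K B]
  {wt : B → WithBot ℕ} {c : s.Idx → K} {x : B} {y : Fin s.a → B}

/-- If `z j ∈ J` has weight `u j` then `⋃ (u j + a ℕ) ⊆ wts J`. -/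
lemma aperySet_subset_wts (h : s.IsModel c wt x y) {J : Ideal B} {u : Fin s.a → ℕ}
    {z : Fin s.a → B} (hz : ∀ j, wt (z j) = (u j : WithBot ℕ)) (hzJ : ∀ j, z j ∈ J) :
    aperySet u ⊆ wts wt (J : Set B) := by
  rintro _ ⟨j, e, rfl⟩
  refine ⟨x ^ e * z j, J.mul_mem_left _ (hzJ j), ?_⟩
  rw [h.isWeight.mul, H77.M.wt_pow h.isWeight h.wt_x, hz, ← Nat.cast_add]
  congr 1
  omega

lemma ncard_compl_aperySet_eq (h : s.IsModel c wt x y) {u : Fin s.a → ℕ} {e : ℕ}
    (hu : ∀ i j, u i ≡ u j [MOD s.a] → i = j) :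
    (∑ j, u j = ∑ j, s.w j + s.a * e) ↔ (aperySet u)ᶜ.ncard = genus wt + e := by
  have ha : 0 < s.a := Nat.pos_of_ne_zero (NeZero.ne _)
  have h1 := sum_eq_mul_ncard hu
  have h2 := sum_eq_mul_ncard s.w_inj
  have h3 : aperySet s.w = H77.M.posSet s := by
    ext n
    constructor
    · rintro ⟨j, e, rfl⟩
      exact ⟨j, e, by unfold H77.M.pos; omega⟩
    · rintro ⟨j, e, rfl⟩
      exact ⟨j, e, by unfold H77.M.pos; omega⟩
  have h4 : (aperySet s.w)ᶜ.ncard = genus wt := by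
    rw [h3, H77.M.ncard_compl_posSet, H77.M.genus_eq h]
  rw [h4] at h2
  constructor
  · intro h5
    have h6 : s.a * (aperySet u)ᶜ.ncard = s.a * (genus wt + e) := by
      rw [Nat.mul_add]
      omega
    exact Nat.eq_of_mul_eq_mul_left ha h6
  · intro h5
    rw [h1, h2, h5, Nat.mul_add]
    omega

variable [IsAlgClosed K] [IsDedekindDomain B]

lemma cdeg_pow (hw : IsWeight K wt) {I : Ideal B} (hI : I ≠ ⊥) (n : ℕ) :
    cdeg K (I ^ n) = n * cdeg K I := by
  induction n with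
  | zero => rw [pow_zero, Ideal.one_eq_top, hw.cdeg_top_wts, zero_mul]
  | succ n ih =>
    rw [pow_succ, H63.cdeg_mul hw (pow_ne_zero n hI) hI, ih]
    ring

/-- The data in `Tors` give an ideal `I` with `Iⁿ = (f)`. -/
theorem exists_ideal_of_tors (h : s.IsModel c wt x y) {n : ℕ} (hn : 0 < n) {f : B} {e : ℕ}
    {u : Fin s.a → ℕ} {z t : Fin s.a → B} (hu : ∀ i j, u i ≡ u j [MOD s.a] → i = j)
    (hsum : ∑ j, u j = ∑ j, s.w j + s.a * e) (hf : wt f = ((n * e : ℕ) : WithBot ℕ))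
    (hz : ∀ j, wt (z j) = (u j : WithBot ℕ)) (hzt : ∀ j, z j ^ n = f * t j) :
    ∃ I : Ideal B, I ≠ ⊥ ∧ I ^ n = Ideal.span {f} ∧ cdeg K I = e := by
  have hw := h.isWeight
  set I : Ideal B := Ideal.span (Set.range z) with hI
  have hzI : ∀ j, z j ∈ I := fun j => Ideal.subset_span ⟨j, rfl⟩
  have hI0 : I ≠ ⊥ := by
    intro h0
    have := hzI 0
    rw [h0, Ideal.mem_bot] at this
    exact hw.ne_zero_of_wt (hz 0) this
  have hgap := (ncard_compl_aperySet_eq h hu).1 hsum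
  have hle : cdeg K I ≤ e := by
    have h1 := hw.ncard_compl_wts hI0
    have h2 : (wts wt (I : Set B))ᶜ.ncard ≤ (aperySet u)ᶜ.ncard :=
      Set.ncard_le_ncard (Set.compl_subset_compl.2 (aperySet_subset_wts h hz hzI))
        (finite_compl_aperySet hu)
    omega
  have hIn : I ^ n ≤ Ideal.span {f} := span_pow_le_span z t f hn hzt
  have hIn0 : I ^ n ≠ ⊥ := pow_ne_zero n hI0
  have h1 : cdeg K (I ^ n) = n * cdeg K I := cdeg_pow hw hI0 n
  have h2 : cdeg K (Ideal.span {f}) = n * e := hw.cdeg_span' hf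
  have h3 : cdeg K (I ^ n) ≤ cdeg K (Ideal.span {f}) := by
    rw [h1, h2]
    exact Nat.mul_le_mul_left n hle
  have h4 := hw.eq_of_le_of_cdeg_le hIn hIn0 h3
  refine ⟨I, hI0, h4, ?_⟩
  have h5 : n * cdeg K I = n * e := by rw [← h1, ← h2, h4]
  exact Nat.eq_of_mul_eq_mul_left hn h5

/-- Every class killed by `n` comes from data as in `Tors`, with explicit bounds. -/
theorem exists_tors_of_class (h : s.IsModel c wt x y) {n : ℕ} (κ : ClassGroup B)
    (hκ : κ ^ n = 1) : ∃ (I : (Ideal B)⁰) (f : B) (e : ℕ) (u : Fin s.a → ℕ) (z t : Fin s.a → B),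
      ClassGroup.mk0 I = κ ∧ (I : Ideal B) ^ n = Ideal.span {f} ∧ e ≤ s.g ∧
      cdeg K (I : Ideal B) = e ∧
      (∀ i j, u i ≡ u j [MOD s.a] → i = j) ∧
      (∑ j, u j = ∑ j, s.w j + s.a * e) ∧ wt f = ((n * e : ℕ) : WithBot ℕ) ∧
      (∀ j, wt (z j) = (u j : WithBot ℕ)) ∧ (∀ j, z j ^ n = f * t j) ∧
      (∀ j, u j < 3 * s.g + s.a) ∧ (∀ j, wt (t j) ≤ ((n * u j : ℕ) : WithBot ℕ)) := by
  have hw := h.isWeight
  have ha : 0 < s.a := Nat.pos_of_ne_zero (NeZero.ne _)
  obtain ⟨I, hI, hIg, -⟩ := H63.exists_reduced hw κ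
  rw [H77.M.genus_eq h] at hIg
  have hI0 : (I : Ideal B) ≠ ⊥ := nonZeroDivisors.ne_zero I.2
  -- a generator of `I ^ n`
  have hprin : ((I : Ideal B) ^ n).IsPrincipal := by
    have h1 : ClassGroup.mk0 (I ^ n) = 1 := by rw [map_pow, hI, hκ]
    have h2 := (ClassGroup.mk0_eq_one_iff (I ^ n).2).1 h1
    exact h2
  obtain ⟨f, hf⟩ := hprin.principal
  have hf' : (I : Ideal B) ^ n = Ideal.span {f} := hf
  have hIn0 : (I : Ideal B) ^ n ≠ ⊥ := pow_ne_zero n hI0
  have hf0 : f ≠ 0 := by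
    rintro rfl
    rw [hf', Ideal.span_singleton_eq_bot.2 rfl] at hIn0
    exact hIn0 rfl
  set e := cdeg K (I : Ideal B) with he
  have hwf : wt f = ((n * e : ℕ) : WithBot ℕ) := by
    rw [← hw.cdeg_span hf0, ← hf', cdeg_pow hw hI0]
  -- minimal weights
  have hlarge : ∀ m : ℕ, 2 * s.g + e ≤ m → m ∈ wts wt ((I : Ideal B) : Set B) := by
    intro m hm
    have h1 : m - e ∈ nset K wt (I : Ideal B) := hw.mem_nset hI0 (by
      rw [H77.M.genus_eq h]; omega)
    have h2 : m - e + e ∈ wts wt ((I : Ideal B) : Set B) := h1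
    rwa [Nat.sub_add_cancel (by omega)] at h2
  have hex : ∀ j : Fin s.a, ∃ m, m ∈ wts wt ((I : Ideal B) : Set B) ∧ s.w j ≡ m [MOD s.a] := by
    intro j
    refine ⟨s.w j + s.a * (2 * s.g + e), hlarge _ ?_, ?_⟩
    · have := Nat.le_mul_of_pos_left (2 * s.g + e) ha
      omega
    · simp [Nat.ModEq]
  classical
  set u : Fin s.a → ℕ := fun j => Nat.find (hex j) with hudef
  have hu1 : ∀ j, u j ∈ wts wt ((I : Ideal B) : Set B) := fun j => (Nat.find_spec (hex j)).1
  have hu2 : ∀ j, s.w j ≡ u j [MOD s.a] := fun j => (Nat.find_spec (hex j)).2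
  have hu3 : ∀ j m, m ∈ wts wt ((I : Ideal B) : Set B) → s.w j ≡ m [MOD s.a] → u j ≤ m :=
    fun j m h1 h2 => Nat.find_min' (hex j) ⟨h1, h2⟩
  have huinj : ∀ i j, u i ≡ u j [MOD s.a] → i = j := fun i j hij =>
    s.w_inj i j (((hu2 i).trans hij).trans (hu2 j).symm)
  choose z hzI hzu using hu1
  have hap : aperySet u = wts wt ((I : Ideal B) : Set B) := by
    refine Set.Subset.antisymm (aperySet_subset_wts h hzu hzI) ?_
    intro m hm
    obtain ⟨j, hj⟩ := exists_modEq_of_inj s.w_inj m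
    have h1 : u j ≡ m [MOD s.a] := (hu2 j).symm.trans hj
    rw [mem_aperySet_iff huinj h1]
    exact hu3 j m hm hj
  have hsum : ∑ j, u j = ∑ j, s.w j + s.a * e := by
    rw [ncard_compl_aperySet_eq h huinj, hap, hw.ncard_compl_wts hI0]
  have hzt : ∀ j, ∃ t, z j ^ n = f * t := by
    intro j
    have h1 : z j ^ n ∈ (I : Ideal B) ^ n := Ideal.pow_mem_pow (hzI j) n
    rw [hf', Ideal.mem_span_singleton] at h1
    exact h1
  choose t ht using hzt
  have hulog : ∀ j, u j < 3 * s.g + s.a := by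
    intro j
    -- the interval `[2g + e, 2g + e + a)` contains an element of the right residue
    set m := 2 * s.g + e + (s.w j + s.a * (2 * s.g + e) - (2 * s.g + e)) % s.a with hm
    have h0 : 2 * s.g + e ≤ s.w j + s.a * (2 * s.g + e) := by
      have := Nat.le_mul_of_pos_left (2 * s.g + e) ha
      omega
    have h1 : (s.w j + s.a * (2 * s.g + e) - (2 * s.g + e)) % s.a < s.a := Nat.mod_lt _ ha
    have h2 : s.w j ≡ m [MOD s.a] := by
      have h3 : m ≡ 2 * s.g + e + (s.w j + s.a * (2 * s.g + e) - (2 * s.g + e)) [MOD s.a] :=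
        Nat.ModEq.add_left _ (Nat.mod_modEq _ _)
      rw [Nat.add_sub_cancel' h0] at h3
      refine Nat.ModEq.trans ?_ h3.symm
      simp [Nat.ModEq]
    have h4 := hu3 j m (hlarge m (by omega)) h2
    omega
  refine ⟨I, f, e, u, z, t, hI, hf', hIg, rfl, huinj, hsum, hwf, hzu, ht, hulog, fun j => ?_⟩
  rcases eq_or_ne (t j) 0 with h0 | h0
  · rw [h0, hw.wt_zero]
    exact bot_le
  · obtain ⟨k, hk⟩ := hw.exists_nat h0
    have h1 := congrArg wt (ht j)
    rw [H77.M.wt_pow hw (hzu j), hw.mul, hwf, hk, ← Nat.cast_add] at h1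
    have h2 : u j * n = n * e + k := by exact_mod_cast h1
    rw [hk]
    have h3 : k ≤ n * u j := by
      rw [Nat.mul_comm n (u j)]
      omega
    exact_mod_cast h3

/-- If `Iⁿ = (f)`, `I'ⁿ = (f')` and `vⁿ = f f'ⁿ⁻¹` then `I` and `I'` are in the same class. -/
theorem mk0_eq_of_pow_eq {I I' : (Ideal B)⁰} {n : ℕ} (hn : 0 < n) {f f' v : B}
    (hI : (I : Ideal B) ^ n = Ideal.span {f}) (hI' : (I' : Ideal B) ^ n = Ideal.span {f'})
    (hv : v ^ n = f * f' ^ (n - 1)) : ClassGroup.mk0 I = ClassGroup.mk0 I' := by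
  have h1 : (Ideal.span {v}) ^ n = ((I : Ideal B) * (I' : Ideal B) ^ (n - 1)) ^ n := by
    rw [Ideal.span_singleton_pow, hv, mul_pow, hI, ← pow_mul, mul_comm (n - 1) n, pow_mul, hI',
      Ideal.span_singleton_pow, Ideal.span_singleton_mul_span_singleton]
  have h2 : Ideal.span {v} = (I : Ideal B) * (I' : Ideal B) ^ (n - 1) := by
    apply dvd_antisymm
    · rw [← UniqueFactorizationMonoid.pow_dvd_pow_iff_dvd hn.ne', h1]
    · rw [← UniqueFactorizationMonoid.pow_dvd_pow_iff_dvd hn.ne', h1]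
  have h3 : ClassGroup.mk0 (I * I' ^ (n - 1)) = 1 := by
    have := (ClassGroup.mk0_eq_one_iff (I * I' ^ (n - 1)).2).2
      (show (((I * I' ^ (n - 1) : (Ideal B)⁰)) : Ideal B).IsPrincipal from ⟨⟨v, h2.symm⟩⟩)
    exact this
  have h4 : ClassGroup.mk0 (I' ^ n) = 1 := by
    have := (ClassGroup.mk0_eq_one_iff (I' ^ n).2).2
      (show (((I' ^ n : (Ideal B)⁰)) : Ideal B).IsPrincipal from ⟨⟨f', hI'⟩⟩)
    exact this
  rw [map_mul, map_pow] at h3
  rw [map_pow] at h4
  have h5 : ClassGroup.mk0 I' ^ (n - 1) * ClassGroup.mk0 I' = 1 := by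
    rw [← pow_succ, Nat.sub_add_cancel hn, h4]
  have h6 : ClassGroup.mk0 I * ClassGroup.mk0 I' ^ (n - 1) =
      ClassGroup.mk0 I' ^ (n - 1) * ClassGroup.mk0 I' := by rw [h3, h5]
  rw [mul_comm] at h6
  exact mul_left_cancel h6

/-- Conversely, if `I` and `I'` are in the same class then `f f'ⁿ⁻¹` is an `n`-th power. -/
theorem exists_pow_eq (hw : IsWeight K wt) {I I' : (Ideal B)⁰} {n : ℕ} (hn : 0 < n) {f f' : B}
    (hI : (I : Ideal B) ^ n = Ideal.span {f}) (hI' : (I' : Ideal B) ^ n = Ideal.span {f'})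
    (h : ClassGroup.mk0 I = ClassGroup.mk0 I') : ∃ v : B, v ^ n = f * f' ^ (n - 1) := by
  have h4 : ClassGroup.mk0 (I' ^ n) = 1 := by
    have := (ClassGroup.mk0_eq_one_iff (I' ^ n).2).2
      (show (((I' ^ n : (Ideal B)⁰)) : Ideal B).IsPrincipal from ⟨⟨f', hI'⟩⟩)
    exact this
  have h5 : ClassGroup.mk0 (I * I' ^ (n - 1)) = 1 := by
    rw [map_mul, map_pow, h, ← pow_succ', Nat.sub_add_cancel hn, ← map_pow, h4]
  obtain ⟨v, hv⟩ := ((ClassGroup.mk0_eq_one_iff (I * I' ^ (n - 1)).2).1 h5).principal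
  have hv' : (I : Ideal B) * (I' : Ideal B) ^ (n - 1) = Ideal.span {v} := hv
  have h1 : Ideal.span {v ^ n} = Ideal.span {f * f' ^ (n - 1)} := by
    rw [← Ideal.span_singleton_pow, ← hv', mul_pow, hI, ← pow_mul, mul_comm (n - 1) n, pow_mul,
      hI', Ideal.span_singleton_pow, Ideal.span_singleton_mul_span_singleton]
  rw [Ideal.span_singleton_eq_span_singleton] at h1
  obtain ⟨ε, hε⟩ := h1
  obtain ⟨r, hr0, hr⟩ := exists_eq_algebraMap_of_isUnit hw ε.isUnit
  obtain ⟨r', hr'⟩ := IsAlgClosed.exists_pow_nat_eq r hn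
  refine ⟨v * algebraMap K B r', ?_⟩
  rw [mul_pow, ← map_pow, hr', ← hr, hε]

end Model

end Fermat.Agent.H68
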