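import Mathlib
import Fermat.Agent.H68ThetaAlg
import Fermat.Agent.H68ThetaFO

/-!
# S27-FO2: `Theta` counts the ideal classes killed by `n` (helper68)
-/

set_option autoImplicit false

open scoped nonZeroDivisors
open Polynomial

namespace Fermat.Agent.H68

open Fermat.Agent.H95 Fermat.Agent.H77.FOL Fermat.Agent.H77.M

section Array

variable {s : Shape} {K : Type*} [Field K] {D : ℕ}

lemma coeff_toP (A : Fin s.a × Fin D → K) (i : Fin s.a) (e : ℕ) :
    (toP s A i).coeff e = if h : e < D then A (i, ⟨e, h⟩) else 0 := by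
  unfold toP
  rw [finsetSum_coeff]
  simp only [coeff_C_mul, coeff_X_pow, mul_ite, mul_one, mul_zero]
  split_ifs with h
  · rw [Finset.sum_eq_single (⟨e, h⟩ : Fin D)]
    · simp
    · intro b _ hb
      rw [if_neg]
      intro h'
      exact hb (Fin.ext h'.symm)
    · intro h'
      exact absurd (Finset.mem_univ _) h'
  · apply Finset.sum_eq_zero
    intro b _
    rw [if_neg]
    intro h'
    exact h (h' ▸ b.2)

lemma hasWt_iff (A : Fin s.a × Fin D → K) (m : ℕ) :
    HasWt s A m ↔ vwt s (toP s A) = (m : WithBot ℕ) := by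
  rw [vwt_eq_iff]
  unfold HasWt pos
  constructor
  · rintro ⟨h1, i, e, he, hne⟩
    refine ⟨fun k e' h => ?_, i, e, he, ?_⟩
    · rw [coeff_toP]
      split_ifs with h2
      · exact h1 k ⟨e', h2⟩ h
      · rfl
    · rw [coeff_toP, dif_pos e.2]
      exact hne
  · rintro ⟨h1, i, e, he, hne⟩
    rw [coeff_toP] at hne
    split_ifs at hne with h2
    · refine ⟨fun k e' h => ?_, i, ⟨e, h2⟩, he, hne⟩
      have := h1 k e' h
      rwa [coeff_toP, dif_pos e'.2] at this
    · exact absurd rfl hne

/-- Coordinate vectors of small weight come from arrays. -/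
lemma exists_toP_eq (v : Fin s.a → K[X]) (hv : vwt s v < (D : WithBot ℕ)) :
    ∃ A : Fin s.a × Fin D → K, toP s A = v := by
  have ha : 0 < s.a := Nat.pos_of_ne_zero (NeZero.ne _)
  refine ⟨fun p => (v p.1).coeff p.2, ?_⟩
  funext i
  ext e
  rw [coeff_toP]
  split_ifs with h
  · rfl
  · by_contra hne
    have h1 := (le_vwt s (u := v) (k := i) (e := e) (Ne.symm hne)).trans_lt hv
    have h2 : pos s i e < D := by exact_mod_cast h1
    unfold pos at h2
    have h3 := Nat.le_mul_of_pos_left e ha
    omega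

end Array

section Model

variable {s : Shape} {K : Type*} {B : Type*} [Field K] [CommRing B] [Algebra K B]
  {wt : B → WithBot ℕ} {c : s.Idx → K} {x : B} {y : Fin s.a → B} {D : ℕ}

/-- The element of `B` given by an array. -/
noncomputable def el (x : B) (y : Fin s.a → B) (A : Fin s.a × Fin D → K) : B :=
  ev x y (toP s A)

lemma wt_el (h : s.IsModel c wt x y) (A : Fin s.a × Fin D → K) (m : ℕ) :
    HasWt s A m ↔ wt (el x y A) = (m : WithBot ℕ) := by
  rw [hasWt_iff, el, wt_ev h]

lemma exists_el_eq (h : s.IsModel c wt x y) (b : B) (hb : wt b < (D : WithBot ℕ)) :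
    ∃ A : Fin s.a × Fin D → K, el x y A = b := by
  obtain ⟨v, rfl⟩ := (ev_bijective h).2 b
  rw [wt_ev h] at hb
  obtain ⟨A, hA⟩ := exists_toP_eq v hb
  exact ⟨A, by rw [el, hA]⟩

lemma ev_tpow (h : s.IsModel c wt x y) (v : Fin s.a → K[X]) (n : ℕ) :
    ev x y (tpow s c v n) = ev x y v ^ n := by
  induction n with
  | zero => rw [tpow, ev_one h, pow_zero]
  | succ n ih => rw [tpow, ev_mul h, ih, pow_succ]

lemma torsB_iff (h : s.IsModel c wt x y) (n : ℕ) (f : Fin s.a × Fin D → K) :
    TorsB s n D c f ↔ ∃ (e : Fin D) (u : Fin s.a → Fin D), n * (e : ℕ) < D ∧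
      (∀ i j, (u i : ℕ) ≡ u j [MOD s.a] → i = j) ∧ (∑ j, (u j : ℕ) = ∑ j, s.w j + s.a * e) ∧
      wt (el x y f) = ((n * e : ℕ) : WithBot ℕ) ∧
      ∃ z t : Fin s.a × (Fin s.a × Fin D) → K,
        (∀ j, wt (el x y (fun p => z (j, p))) = ((u j : ℕ) : WithBot ℕ)) ∧
        ∀ j, el x y (fun p => z (j, p)) ^ n = el x y f * el x y (fun p => t (j, p)) := by
  unfold TorsB
  simp only [wt_el h]
  refine exists_congr fun e => exists_congr fun u => and_congr Iff.rfl (and_congr Iff.rfl
    (and_congr Iff.rfl (and_congr Iff.rfl (exists_congr fun z => exists_congr fun t =>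
      and_congr Iff.rfl (forall_congr' fun j => ?_)))))
  rw [← (ev_bijective h).1.eq_iff, ev_tpow h, ev_mul h]
  rfl

lemma equivF_iff (h : s.IsModel c wt x y) (n : ℕ) (f f' : Fin s.a × Fin D → K) :
    EquivF s n D c f f' ↔ ∃ v : Fin s.a × Fin D → K,
      el x y v ^ n = el x y f * el x y f' ^ (n - 1) := by
  unfold EquivF
  refine exists_congr fun v => ?_
  rw [← (ev_bijective h).1.eq_iff, ev_tpow h, ev_mul h, ev_tpow h]
  rfl

theorem thetaB_iff [IsAlgClosed K] [IsDedekindDomain B] (h : s.IsModel c wt x y) (n : ℕ) (hn : 0 < n) (M : ℕ) :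
    ThetaB s n (n * (3 * s.g + s.a) + 2) M c ↔
      ∃ S : Finset (ClassGroup B), S.card = M ∧ ∀ κ ∈ S, κ ^ n = 1 := by
  classical
  have hw := h.isWeight
  set D := n * (3 * s.g + s.a) + 2 with hD
  have ha : 0 < s.a := Nat.pos_of_ne_zero (NeZero.ne _)
  constructor
  · rintro ⟨F, hF, hFF⟩
    have key : ∀ i, ∃ (I : (Ideal B)⁰) (e : ℕ), n * e < D ∧
        (I : Ideal B) ^ n = Ideal.span {el x y (fun p => F (i, p))} ∧
        wt (el x y (fun p => F (i, p))) = ((n * e : ℕ) : WithBot ℕ) := by
      intro i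
      obtain ⟨e, u, hne, hu, hsum, hf, z, t, hz, hzt⟩ := (torsB_iff h n _).1 (hF i)
      obtain ⟨I, hI0, hI, -⟩ := exists_ideal_of_tors h hn (u := fun j => (u j : ℕ)) hu hsum hf
        hz hzt
      exact ⟨⟨I, mem_nonZeroDivisors_of_ne_zero hI0⟩, e, hne, hI, hf⟩
    choose I e hne hI hf using key
    have hinj : Function.Injective fun i => ClassGroup.mk0 (I i) := by
      intro i j hij
      by_contra hcon
      refine hFF i j hcon ?_
      rw [equivF_iff h]
      obtain ⟨v, hv⟩ := exists_pow_eq hw hn (hI i) (hI j) hij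
      have hfi := hw.ne_zero_of_wt (hf i)
      have hfj := hw.ne_zero_of_wt (hf j)
      have := hw.isDomain
      have hv0 : v ≠ 0 := by
        rintro rfl
        rw [zero_pow hn.ne'] at hv
        exact mul_ne_zero hfi (pow_ne_zero _ hfj) hv.symm
      obtain ⟨k, hk⟩ := hw.exists_nat hv0
      have h1 := congrArg wt hv
      rw [wt_pow hw hk, hw.mul, hf i, wt_pow hw (hf j), ← Nat.cast_add] at h1
      have h2 : k * n = n * e i + n * e j * (n - 1) := by exact_mod_cast h1
      have h3 : k = e i + e j * (n - 1) := by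
        refine Nat.eq_of_mul_eq_mul_right hn ?_
        rw [h2]
        ring
      have h4 : k < D := by
        have h5 := hne i
        have h6 := hne j
        rcases le_total (e i) (e j) with hle | hle
        · have : k ≤ n * e j := by
            rw [h3]
            calc e i + e j * (n - 1) ≤ e j + e j * (n - 1) := by omega
              _ = e j * (n - 1 + 1) := by ring
              _ = n * e j := by rw [Nat.sub_add_cancel hn, mul_comm]
          omega
        · have : k ≤ n * e i := by
            rw [h3]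
            calc e i + e j * (n - 1) ≤ e i + e i * (n - 1) := by
                  have := Nat.mul_le_mul_right (n - 1) hle
                  omega
              _ = e i * (n - 1 + 1) := by ring
              _ = n * e i := by rw [Nat.sub_add_cancel hn, mul_comm]
          omega
      obtain ⟨V, hV⟩ := exists_el_eq (D := D) h v (by rw [hk]; exact_mod_cast h4)
      exact ⟨V, by rw [hV]; exact hv⟩
    refine ⟨Finset.univ.image fun i => ClassGroup.mk0 (I i), ?_, ?_⟩
    · rw [Finset.card_image_of_injective _ hinj, Finset.card_univ, Fintype.card_fin]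
    · intro κ hκ
      obtain ⟨i, -, rfl⟩ := Finset.mem_image.1 hκ
      have := (ClassGroup.mk0_eq_one_iff (I i ^ n).2).2
        (show (((I i ^ n : (Ideal B)⁰)) : Ideal B).IsPrincipal from ⟨⟨_, hI i⟩⟩)
      rw [← map_pow]
      exact this
  · rintro ⟨S, hS, hSn⟩
    -- enumerate `S`
    let ψ : Fin M ≃ S := (finCongr hS.symm).trans S.equivFin.symm
    have key := fun i : Fin M => exists_tors_of_class h (n := n) (ψ i : ClassGroup B)
      (hSn _ (ψ i).2)
    choose I f e u z t hI hIf heg hce hu hsum hwf hwz hzt hub hwt using key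
    have hn1 : ∀ m, m ≤ 3 * s.g + s.a → m < D := by
      intro m hm
      have := Nat.le_mul_of_pos_left (3 * s.g + s.a) hn
      omega
    have hnm : ∀ m, m ≤ 3 * s.g + s.a → n * m < D := by
      intro m hm
      have := Nat.mul_le_mul_left n hm
      omega
    have hfA : ∀ i, ∃ A : Fin s.a × Fin D → K, el x y A = f i := fun i =>
      exists_el_eq h _ (by rw [hwf]; exact_mod_cast hnm _ (by have := heg i; omega))
    have hzA : ∀ i j, ∃ A : Fin s.a × Fin D → K, el x y A = z i j := fun i j =>
      exists_el_eq h _ (by rw [hwz]; exact_mod_cast hn1 _ (hub i j).le)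
    have htA : ∀ i j, ∃ A : Fin s.a × Fin D → K, el x y A = t i j := fun i j =>
      exists_el_eq h _ ((hwt i j).trans_lt (by exact_mod_cast hnm _ (hub i j).le))
    choose F hF using hfA
    choose Z hZ using hzA
    choose T hT using htA
    refine ⟨fun p => F p.1 p.2, fun i => ?_, fun i j hij => ?_⟩
    · rw [torsB_iff h]
      refine ⟨⟨e i, hn1 _ (by have := heg i; omega)⟩, fun j => ⟨u i j, hn1 _ (hub i j).le⟩,
        hnm (e i) (by have := heg i; omega), hu i, hsum i, ?_, fun p => Z i p.1 p.2,
        fun p => T i p.1 p.2, fun j => ?_, fun j => ?_⟩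
      · show wt (el x y (F i)) = _
        rw [hF, hwf]
      · show wt (el x y (Z i j)) = _
        rw [hZ, hwz]
      · show el x y (Z i j) ^ n = el x y (F i) * el x y (T i j)
        rw [hZ, hF, hT, hzt]
    · rw [equivF_iff h]
      rintro ⟨v, hv⟩
      have hv' : el x y v ^ n = f i * f j ^ (n - 1) := by
        rw [← hF, ← hF]
        exact hv
      have h1 := mk0_eq_of_pow_eq hn (hIf i) (hIf j) hv'
      rw [hI, hI] at h1
      exact hij (ψ.injective (Subtype.ext h1))

end Model

end Fermat.Agent.H68
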