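import Fermat.Agent.H68Duality
import Fermat.Agent.H68ThetaIff
import Fermat.Agent.H68ThetaFO

/-!
# Guide: tools for the torsion of `Pic⁰` (S27): duality and torsion classes by elements

(helper68; language by helper95, tables by helper77)

Companion of `GuideTorsion`; it explains the steps of the proofs of two theorems there: `duality`
(sections 1 to 3) and `torsion_count_is_first_order` (sections 4 to 6). As in the other guides
nothing is new, every theorem is proved by citing the library. All of them are in the proof terms of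
S27, S19, S32, S38, S43, S45, S46, S50, S59, S60, S03, S04, S06 and S01 (through `H95.S27_main`).
Tables, the smoothness criterion and the rules for first order predicates are in `GuideTables`, the
calculus of weights in `GuideWeights`. Notes: [85], [135], [166].

**Setting.** `K` is a field and `B` a commutative `K`-algebra with a weight `wt : B → ℕ ∪ {-∞}`
(`IsWeight`, see `isWeight_iff` in `GuideTorsion`): `B` is the ring of functions on a curve which
are regular outside one rational point, and the weight is the order of the pole at this point. For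
an ideal `J ≠ 0`, `cdeg K J` is the dimension of `B / J` over `K` and `wts wt J` the set of weights
of the nonzero elements of `J`; the numbers not in this set are the gaps of `J`. `genus wt` is the
number `g` of gaps of `B`, and `J` has `g + cdeg K J` gaps. `nset K wt J` is the set `wts wt J` moved
down by `cdeg K J`; it depends only on the class of `J`.

**Duality.** For the divisor `D` which belongs to `J`, `wts wt J` describes the jumps of
`n ↦ dim L(n ∞ - D)`. By Riemann's inequality all `n ≥ 2g + cdeg K J` are in `wts wt J`. The theorem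
says that (for `g > 0`) `2g - 1 + cdeg K J` is a gap for the ideals of exactly one class (it
corresponds to the class of the canonical divisors). The proof uses Weil differentials in the
following form: `K`-linear maps `l : F → K` on the field of fractions `F` of `B` which vanish on a
nonzero ideal `J` and on all elements of small value. No repartitions, no residues and no duality
for finite morphisms are used.

**Torsion classes.** A class killed by `n` is given by an ideal `I` with `I ^ n = (f)`. To count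
these classes by a first order formula in the coefficients of a multiplication table one describes
`I` by elements `z_j` whose weights `u_j` are minimal in the residue classes modulo `a`; the
conditions `wt f = n e`, `z_j ^ n = f t_j` and `∑ u_j = ∑ w_j + a e` guarantee that `I = (z_j)` has
colength `e` and `I ^ n = (f)`.
-/

set_option autoImplicit false

open scoped nonZeroDivisors
open Polynomial
open Fermat.Agent.H95 (IsWeight Shape genus cdeg nset wts FO)
open Fermat.Agent.H68

noncomputable section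

namespace Fermat.Agent.Guide.TorsionTools

/-! ## 1. Values on the field of fractions -/

/-- **The valuation at infinity.** `fval F hw` extends the weight to the field of fractions `F` of
`B`: it is a valuation (written multiplicatively, values `0` and `exp n`) with
`fval (b) = exp (wt b)`, and it takes all values. File: `H68Duality`. -/
theorem value_at_infinity {K B : Type*} [Field K] [CommRing B] [Algebra K B]
    {wt : B → WithBot ℕ} [IsDomain B] (F : Type*) [Field F] [Algebra B F] [IsFractionRing B F]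
    (hw : IsWeight K wt) :
    (∀ (b : B) (n : ℕ), fval F hw (algebraMap B F b) = WithZero.exp (n : ℤ) ↔ wt b = n) ∧
      ∀ n : ℤ, ∃ f : F, fval F hw f = WithZero.exp n :=
  ⟨fval_algebraMap_eq_iff F hw, exists_fval_eq F hw⟩

/-- **Leading coefficients.** If `f ≠ 0` and `g` have the same value, there is a constant `c` such
that `f - c g` has a smaller value (the point at infinity is rational). File: `H68Duality`. -/
theorem leading_coefficient {K B : Type*} [Field K] [CommRing B] [Algebra K B]
    {wt : B → WithBot ℕ} [IsDomain B] (F : Type*) [Field F] [Algebra B F] [IsFractionRing B F]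
    [Algebra K F] [IsScalarTower K B F] (hw : IsWeight K wt) {f g : F} (hf : f ≠ 0)
    (h : fval F hw f = fval F hw g) : ∃ c : K, fval F hw (f - c • g) < fval F hw f :=
  exists_fval_sub_lt F hw hf h

/-- **Large weights.** A nonzero ideal contains elements of every large weight. File: `H68Duality`. -/
theorem exists_mem_of_large_weight {K B : Type*} [Field K] [CommRing B] [Algebra K B]
    {wt : B → WithBot ℕ} (hw : IsWeight K wt) {J : Ideal B} (hJ : J ≠ ⊥) :
    ∃ N : ℕ, ∀ n : ℕ, N ≤ n → ∃ b ∈ J, wt b = n :=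
  exists_mem_wt_eq hw hJ

/-! ## 2. Differentials -/

/-- **When a functional is zero.** A linear map `μ : F → K` which kills all elements of value
`≤ exp s`, and for every `k > s` one element of value `exp k`, is zero: subtract leading terms.
File: `H68Duality`. -/
theorem functional_eq_zero {K B : Type*} [Field K] [CommRing B] [Algebra K B]
    {wt : B → WithBot ℕ} [IsDomain B] (F : Type*) [Field F] [Algebra B F] [IsFractionRing B F]
    [Algebra K F] [IsScalarTower K B F] (hw : IsWeight K wt) (μ : F →ₗ[K] K) (s : ℤ)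
    (h : ∀ f, fval F hw f ≤ WithZero.exp s → μ f = 0)
    (h' : ∀ k : ℤ, s < k → ∃ e, fval F hw e = WithZero.exp k ∧ μ e = 0) : μ = 0 :=
  eq_zero_of_exists F hw μ s h h'

/-- **Linear algebra.** `m₁ + m₂` vectors in `K ^ t`, `t < m₁ + m₂`, have a nontrivial relation.
File: `H68Duality`. -/
theorem exists_relation {K : Type*} [Field K] (m₁ m₂ t : ℕ) (h : t < m₁ + m₂)
    (A₁ : Fin m₁ → Fin t → K) (A₂ : Fin m₂ → Fin t → K) :
    ∃ (c₁ : Fin m₁ → K) (c₂ : Fin m₂ → K), (c₁ ≠ 0 ∨ c₂ ≠ 0) ∧
      ∀ j, ∑ i, c₁ i * A₁ i j = ∑ i, c₂ i * A₂ i j :=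
  exists_nontrivial_relation m₁ m₂ t h A₁ A₂

/-- **Weil differentials are proportional.** Let `l₁ ≠ 0`, `l₂ ≠ 0` vanish on nonzero ideals `J₁`,
`J₂` and on the elements of value `≤ exp s₁`, `≤ exp s₂`. Then `l₂(z) = l₁(f z)` for some `f ≠ 0` in
`F`. Proof: for large `N` there are about `N + s_i` elements `b` of `B`, of different weights
`≤ N + s_i`. The functional `z ↦ l₁(b₁ z) - l₂(b₂ z)`, `b_i` a linear combination of these elements,
kills all `z` of value `≤ exp (-N)`, and the elements of `J₁ J₂`, in particular elements of every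
value `> exp M`, `M` independent of `N`. For it to be zero there remain `N + M` linear conditions
(`functional_eq_zero`), fewer than the `2N + s₁ + s₂ + O(1)` unknown coefficients of `b₁`, `b₂`. So
`l₁(b₁ z) = l₂(b₂ z)` for some `(b₁, b₂) ≠ 0`, and both `b_i` are not zero. File: `H68Duality`
(`twist_eq_of_relation`). -/
theorem differentials_proportional {K B : Type*} [Field K] [CommRing B] [Algebra K B]
    {wt : B → WithBot ℕ} [IsDomain B] (F : Type*) [Field F] [Algebra B F] [IsFractionRing B F]
    [Algebra K F] [IsScalarTower K B F] (hw : IsWeight K wt) {l₁ l₂ : F →ₗ[K] K} (h₁ : l₁ ≠ 0)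
    (h₂ : l₂ ≠ 0) {J₁ J₂ : Ideal B} (hJ₁ : J₁ ≠ ⊥) (hJ₂ : J₂ ≠ ⊥)
    (hk₁ : ∀ z ∈ J₁, l₁ (algebraMap B F z) = 0) (hk₂ : ∀ z ∈ J₂, l₂ (algebraMap B F z) = 0)
    {s₁ s₂ : ℤ} (hs₁ : ∀ f, fval F hw f ≤ WithZero.exp s₁ → l₁ f = 0)
    (hs₂ : ∀ f, fval F hw f ≤ WithZero.exp s₂ → l₂ f = 0) :
    ∃ f : F, f ≠ 0 ∧ ∀ z, l₂ z = l₁ (f * z) :=
  exists_twist_eq F hw h₁ h₂ hJ₁ hJ₂ hk₁ hk₂ hs₁ hs₂

/-- **Every gap gives a differential.** If `m` is a gap of `J`, there is a linear map `l : F → K`
which kills `J` and all elements of value `< exp m`, and is not zero at any element of value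
`exp m`. (Such an element is not in the sum of these two subspaces.) File: `H68Duality`. -/
theorem exists_differential {K B : Type*} [Field K] [CommRing B] [Algebra K B]
    {wt : B → WithBot ℕ} [IsDomain B] (F : Type*) [Field F] [Algebra B F] [IsFractionRing B F]
    [Algebra K F] [IsScalarTower K B F] (hw : IsWeight K wt) (J : Ideal B) (m : ℕ)
    (hm : ∀ z ∈ J, wt z ≠ m) :
    ∃ l : F →ₗ[K] K, (∀ z ∈ J, l (algebraMap B F z) = 0) ∧
      (∀ f, fval F hw f < WithZero.exp (m : ℤ) → l f = 0) ∧
      (∀ f, fval F hw f = WithZero.exp (m : ℤ) → l f ≠ 0) :=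
  exists_diff F hw J m hm

/-- **Maximal gaps.** Let `m` be a gap of `J` with `m - cdeg K J` maximal among all ideals and their
gaps, and `l` as above. Then `J` is the set of all `f` with `l(f B) = 0`. Proof: if `f = a / d` is in
this set, `m + wt d` is a gap of `(d) J + (a)`; by maximality this ideal has the same colength as
`(d) J`, so it is equal to `(d) J`, and `a ∈ (d) J`. File: `H68Duality`. -/
theorem ideal_of_maximal_gap {K B : Type*} [Field K] [CommRing B] [Algebra K B]
    {wt : B → WithBot ℕ} [IsDomain B] (F : Type*) [Field F] [Algebra B F] [IsFractionRing B F]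
    [Algebra K F] (hw : IsWeight K wt) {J : Ideal B} (hJ : J ≠ ⊥) {m : ℕ}
    (hmax : ∀ J' : Ideal B, J' ≠ ⊥ → ∀ n : ℕ, (∀ z ∈ J', wt z ≠ n) →
      (n : ℤ) - cdeg K J' ≤ m - cdeg K J)
    {l : F →ₗ[K] K} (hl : ∀ z ∈ J, l (algebraMap B F z) = 0)
    (hlm : ∀ f, fval F hw f = WithZero.exp (m : ℤ) → l f ≠ 0) (f : F)
    (hf : ∀ b : B, l (f * algebraMap B F b) = 0) : ∃ z ∈ J, algebraMap B F z = f :=
  mem_of_forall_eq_zero F hw hJ hmax hl hlm f hf

/-! ## 3. Duality -/

/-- **Riemann's inequality for gaps**: a gap `n` of `J` satisfies `n + 1 ≤ 2 g + cdeg K J`; and if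
`g > 0`, a gap with maximal `n - cdeg K J` exists. File: `H68Duality`. -/
theorem gap_bound {K B : Type*} [Field K] [CommRing B] [Algebra K B] {wt : B → WithBot ℕ}
    (hw : IsWeight K wt) :
    (∀ {J : Ideal B}, J ≠ ⊥ → ∀ {n : ℕ}, (∀ z ∈ J, wt z ≠ n) →
      n + 1 ≤ 2 * genus wt + cdeg K J) ∧
    (genus wt ≠ 0 → ∃ J : Ideal B, J ≠ ⊥ ∧ ∃ m : ℕ, (∀ z ∈ J, wt z ≠ m) ∧
      ∀ J' : Ideal B, J' ≠ ⊥ → ∀ n : ℕ, (∀ z ∈ J', wt z ≠ n) →
        (n : ℤ) - cdeg K J' ≤ m - cdeg K J) :=
  ⟨fun hJ _ hn => gap_le hw hJ hn, exists_max_gap hw⟩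

/-- **Gaps and weights.** If `m` is a maximal gap of `J`, every gap `n` of `J` is of the form
`m - wt b` with `b ∈ B`. Proof: let `l`, `μ` be differentials for the gaps `m` and `n`; then
`μ(z) = l(f z)`, so `f J ⊂ J` by `ideal_of_maximal_gap`, and `f` is in `B` because `B` is integrally
closed. Compare the values. File: `H68Duality`. -/
theorem gaps_of_maximal_gap {K B : Type*} [Field K] [CommRing B] [Algebra K B]
    {wt : B → WithBot ℕ} [IsDomain B] [IsNoetherianRing B] [IsIntegrallyClosed B]
    (hw : IsWeight K wt) {J : Ideal B} (hJ : J ≠ ⊥) {m : ℕ}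
    (hmax : ∀ J' : Ideal B, J' ≠ ⊥ → ∀ n : ℕ, (∀ z ∈ J', wt z ≠ n) →
      (n : ℤ) - cdeg K J' ≤ m - cdeg K J)
    (hm : ∀ z ∈ J, wt z ≠ m) (n : ℕ) (hn : ∀ z ∈ J, wt z ≠ n) :
    ∃ (b : B) (k : ℕ), wt b = k ∧ k + n = m :=
  exists_wt_add_eq hw hJ hmax hm n hn

/-- **Two ideals with maximal gaps are in the same class**: the `f` with `l₂(z) = l₁(f z)` satisfies
`f J₂ = J₁`. File: `H68Duality`. -/
theorem same_class {K B : Type*} [Field K] [CommRing B] [Algebra K B] {wt : B → WithBot ℕ}
    [IsDomain B] (hw : IsWeight K wt) {J₁ J₂ : Ideal B} (hJ₁ : J₁ ≠ ⊥) (hJ₂ : J₂ ≠ ⊥)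
    {m₁ m₂ : ℕ}
    (hmax₁ : ∀ J' : Ideal B, J' ≠ ⊥ → ∀ n : ℕ, (∀ z ∈ J', wt z ≠ n) →
      (n : ℤ) - cdeg K J' ≤ m₁ - cdeg K J₁)
    (hmax₂ : ∀ J' : Ideal B, J' ≠ ⊥ → ∀ n : ℕ, (∀ z ∈ J', wt z ≠ n) →
      (n : ℤ) - cdeg K J' ≤ m₂ - cdeg K J₂)
    (hm₁ : ∀ z ∈ J₁, wt z ≠ m₁) (hm₂ : ∀ z ∈ J₂, wt z ≠ m₂) :
    ∃ (x y : B) (_ : x ≠ 0) (_ : y ≠ 0), Ideal.span {x} * J₁ = Ideal.span {y} * J₂ :=
  exists_mul_eq_mul hw hJ₁ hJ₂ hmax₁ hmax₂ hm₁ hm₂

/-- **The maximal gap is `2g - 1`** (plus `cdeg K J`). Proof: multiply `J` by an element so that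
`m ≥ 2g`. By `gaps_of_maximal_gap`, `n ↦ m - n` maps the `g + cdeg K J` gaps of `J` injectively to
the weights `≤ m` of elements of `B`, and there are `m + 1 - g` of these because all `g` gaps of `B`
are less than `2g`. Hence `m + 1 ≥ 2g + cdeg K J`; the other inequality is `gap_bound`.
File: `H68Duality`. -/
theorem maximal_gap {K B : Type*} [Field K] [CommRing B] [Algebra K B] {wt : B → WithBot ℕ}
    [IsDomain B] [IsNoetherianRing B] [IsIntegrallyClosed B] (hw : IsWeight K wt) {J : Ideal B}
    (hJ : J ≠ ⊥) {m : ℕ}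
    (hmax : ∀ J' : Ideal B, J' ≠ ⊥ → ∀ n : ℕ, (∀ z ∈ J', wt z ≠ n) →
      (n : ℤ) - cdeg K J' ≤ m - cdeg K J)
    (hm : ∀ z ∈ J, wt z ≠ m) : m + 1 = 2 * genus wt + cdeg K J :=
  max_gap_eq hw hJ hmax hm

/-- **`nset` depends only on the class** of the ideal. With the previous theorems this gives the
duality theorem of `GuideTorsion` (`H68.duality`). File: `H68Duality`. -/
theorem nset_of_class {K B : Type*} [Field K] [CommRing B] [Algebra K B] {wt : B → WithBot ℕ}
    [IsDedekindDomain B] (hw : IsWeight K wt) {I J : (Ideal B)⁰}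
    (h : ClassGroup.mk0 I = ClassGroup.mk0 J) :
    nset K wt (I : Ideal B) = nset K wt (J : Ideal B) :=
  nset_eq_of_mk0_eq hw h

/-! ## 4. Ideals given by elements of minimal weight

`s : Shape` is the shape of a multiplication table, `s.a` a weight and `s.w j` the minimal weights in
the residue classes modulo `s.a`; `h : s.IsModel c wt x y` says that `B` has the table with the
coefficients `c : s.Idx → K` (`s.Idx` is the set of indices), with `x` of weight `s.a` and `y j` of
weight `s.w j` (see `isModel_iff` in `GuideTorsion`). -/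

/-- **Sets of weights.** `aperySet u` is the union of the sets `u_j + a ℕ`. If the `u_j`, `j < a`, are
different modulo `a`, its complement is finite, with `∑ ⌊u_j / a⌋` elements, and
`∑ u_j = a · #(complement) + (0 + 1 + ... + (a - 1))`. File: `H68ThetaAlg`. -/
theorem apery {a : ℕ} [NeZero a] {u : Fin a → ℕ} (hu : ∀ i j, u i ≡ u j [MOD a] → i = j) :
    (∀ n, n ∈ aperySet u ↔ ∃ (j : Fin a) (e : ℕ), u j + a * e = n) ∧
      (aperySet u)ᶜ.Finite ∧ (aperySet u)ᶜ.ncard = ∑ i, u i / a ∧
      ∑ i, u i = a * (aperySet u)ᶜ.ncard + ∑ i : Fin a, (i : ℕ) :=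
  ⟨fun _ => Iff.rfl, finite_compl_aperySet hu, ncard_compl_aperySet hu, sum_eq_mul_ncard hu⟩

/-- **The number of gaps read off from the sum of the minimal weights**: `∑ u_j = ∑ w_j + a e` if and
only if the complement of `aperySet u` has `g + e` elements. File: `H68ThetaAlg`. -/
theorem sum_eq_iff {s : Shape} {K B : Type*} [Field K] [CommRing B] [Algebra K B]
    {wt : B → WithBot ℕ} {c : s.Idx → K} {x : B} {y : Fin s.a → B} (h : s.IsModel c wt x y)
    {u : Fin s.a → ℕ} {e : ℕ} (hu : ∀ i j, u i ≡ u j [MOD s.a] → i = j) :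
    (∑ j, u j = ∑ j, s.w j + s.a * e) ↔ (aperySet u)ᶜ.ncard = genus wt + e :=
  ncard_compl_aperySet_eq h hu

/-- If `z_j ∈ J` has the weight `u_j` for all `j`, all elements of `aperySet u` are weights of
elements of `J` (take `x ^ k z_j`). So if `∑ u_j = ∑ w_j + a e`, the ideal `J` has at most `g + e`
gaps, that is, colength at most `e`. File: `H68ThetaAlg`. -/
theorem apery_subset {s : Shape} {K B : Type*} [Field K] [CommRing B] [Algebra K B]
    {wt : B → WithBot ℕ} {c : s.Idx → K} {x : B} {y : Fin s.a → B} (h : s.IsModel c wt x y)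
    {J : Ideal B} {u : Fin s.a → ℕ} {z : Fin s.a → B}
    (hz : ∀ j, wt (z j) = (u j : WithBot ℕ)) (hzJ : ∀ j, z j ∈ J) :
    aperySet u ⊆ wts wt (J : Set B) :=
  aperySet_subset_wts h hz hzJ

/-- **Powers of ideals from powers of generators.** If `B` is integrally closed and
`z_j ^ n ∈ (f)` for all `j`, then `(z_j)_j ^ n ⊂ (f)`: the `n`-th power of a product of `n` of the
`z_j` is divisible by `f ^ n`. File: `H68ThetaAlg`. -/
theorem power_le {B : Type*} [CommRing B] [IsDomain B] [IsIntegrallyClosed B] {ι : Type*}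
    (z t : ι → B) (f : B) {n : ℕ} (hn : 0 < n) (h : ∀ j, z j ^ n = f * t j) :
    Ideal.span (Set.range z) ^ n ≤ Ideal.span {f} :=
  span_pow_le_span z t f hn h

/-- **Colengths of powers**: `cdeg (I ^ n) = n cdeg I`. File: `H68ThetaAlg`. -/
theorem colength_power {K B : Type*} [Field K] [CommRing B] [Algebra K B] {wt : B → WithBot ℕ}
    [IsAlgClosed K] [IsDedekindDomain B] (hw : IsWeight K wt) {I : Ideal B} (hI : I ≠ ⊥) (n : ℕ) :
    cdeg K (I ^ n) = n * cdeg K I :=
  cdeg_pow hw hI n

/-! ## 5. Classes killed by `n` -/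

/-- **From elements to classes.** Given `f`, `z_j`, `t_j` with `z_j ^ n = f t_j`, `wt f = n e`,
`wt z_j = u_j`, the `u_j` different modulo `a` with `∑ u_j = ∑ w_j + a e`, there is an ideal `I` of
colength `e` with `I ^ n = (f)`. Proof: `I = (z_j)` has colength `≤ e` (`apery_subset`), and
`I ^ n ⊂ (f)` (`power_le`); compare the colengths. File: `H68ThetaAlg`. -/
theorem exists_ideal {s : Shape} {K B : Type*} [Field K] [CommRing B] [Algebra K B]
    {wt : B → WithBot ℕ} {c : s.Idx → K} {x : B} {y : Fin s.a → B} [IsAlgClosed K]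
    [IsDedekindDomain B] (h : s.IsModel c wt x y) {n : ℕ} (hn : 0 < n) {f : B} {e : ℕ}
    {u : Fin s.a → ℕ} {z t : Fin s.a → B} (hu : ∀ i j, u i ≡ u j [MOD s.a] → i = j)
    (hsum : ∑ j, u j = ∑ j, s.w j + s.a * e) (hf : wt f = ((n * e : ℕ) : WithBot ℕ))
    (hz : ∀ j, wt (z j) = (u j : WithBot ℕ)) (hzt : ∀ j, z j ^ n = f * t j) :
    ∃ I : Ideal B, I ≠ ⊥ ∧ I ^ n = Ideal.span {f} ∧ cdeg K I = e :=
  exists_ideal_of_tors h hn hu hsum hf hz hzt

/-- **From classes to elements, with bounds.** Every class killed by `n` comes from such data, with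
`e ≤ g`, `u_j < 3 g + a` and `wt t_j ≤ n u_j`. Proof: by Riemann's inequality every class contains an
ideal of colength `≤ g`; take for `z_j` an element of `I` of minimal weight in its residue class
modulo `a`. File: `H68ThetaAlg`. -/
theorem exists_elements {s : Shape} {K B : Type*} [Field K] [CommRing B] [Algebra K B]
    {wt : B → WithBot ℕ} {c : s.Idx → K} {x : B} {y : Fin s.a → B} [IsAlgClosed K]
    [IsDedekindDomain B] (h : s.IsModel c wt x y) {n : ℕ} (κ : ClassGroup B) (hκ : κ ^ n = 1) :
    ∃ (I : (Ideal B)⁰) (f : B) (e : ℕ) (u : Fin s.a → ℕ) (z t : Fin s.a → B),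
      ClassGroup.mk0 I = κ ∧ (I : Ideal B) ^ n = Ideal.span {f} ∧ e ≤ s.g ∧
      cdeg K (I : Ideal B) = e ∧
      (∀ i j, u i ≡ u j [MOD s.a] → i = j) ∧
      (∑ j, u j = ∑ j, s.w j + s.a * e) ∧ wt f = ((n * e : ℕ) : WithBot ℕ) ∧
      (∀ j, wt (z j) = (u j : WithBot ℕ)) ∧ (∀ j, z j ^ n = f * t j) ∧
      (∀ j, u j < 3 * s.g + s.a) ∧ (∀ j, wt (t j) ≤ ((n * u j : ℕ) : WithBot ℕ)) :=
  exists_tors_of_class h κ hκ

/-- **The units of `B` are the constants** `≠ 0` (weight `0`). File: `H68ThetaAlg`. -/
theorem units_are_constants {K B : Type*} [Field K] [CommRing B] [Algebra K B]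
    {wt : B → WithBot ℕ} (hw : IsWeight K wt) {v : B} (hv : IsUnit v) :
    ∃ c : K, c ≠ 0 ∧ v = algebraMap K B c :=
  exists_eq_algebraMap_of_isUnit hw hv

/-- **When two such ideals are in the same class.** If `I ^ n = (f)` and `I' ^ n = (f')`, then `I`
and `I'` are in the same class if and only if `f f' ^ (n - 1)` is an `n`-th power in `B` (`K` is
algebraically closed, so that constants are `n`-th powers). File: `H68ThetaAlg`. -/
theorem same_class_iff {K B : Type*} [Field K] [CommRing B] [Algebra K B] {wt : B → WithBot ℕ}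
    [IsAlgClosed K] [IsDedekindDomain B] (hw : IsWeight K wt) {I I' : (Ideal B)⁰} {n : ℕ}
    (hn : 0 < n) {f f' : B} (hI : (I : Ideal B) ^ n = Ideal.span {f})
    (hI' : (I' : Ideal B) ^ n = Ideal.span {f'}) :
    ClassGroup.mk0 I = ClassGroup.mk0 I' ↔ ∃ v : B, v ^ n = f * f' ^ (n - 1) :=
  ⟨exists_pow_eq hw hn hI hI', fun ⟨_, hv⟩ => mk0_eq_of_pow_eq hn hI hI' hv⟩

/-! ## 6. The formula

An array `A i k`, `i < a`, `k < D`, stands for the element `el x y A = ∑ A i k x^k y_i` of `B`
(`H77.FOL.toP` is the vector of polynomials `∑ A i k X^k`). All conditions of section 5 are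
equations and inequations between the entries of such arrays and the coefficients of the table,
because there are bounds for all weights. -/

/-- **Elements and arrays.** `HasWt s A m` (conditions on the entries of the array) says that the
element has the weight `m`; every element of weight `< D` comes from an array with `D` columns.
File: `H68ThetaIff`. -/
theorem element_of_array {s : Shape} {K B : Type*} [Field K] [CommRing B] [Algebra K B]
    {wt : B → WithBot ℕ} {c : s.Idx → K} {x : B} {y : Fin s.a → B} {D : ℕ}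
    (h : s.IsModel c wt x y) :
    (∀ A : Fin s.a × Fin D → K,
      el x y A = ∑ i, Polynomial.aeval x (∑ k : Fin D, C (A (i, k)) * X ^ (k : ℕ)) * y i) ∧
    (∀ (A : Fin s.a × Fin D → K) (m : ℕ),
      ((∀ (i : Fin s.a) (k : Fin D), m < s.a * k + s.w i → A (i, k) = 0) ∧
        ∃ (i : Fin s.a) (k : Fin D), s.a * k + s.w i = m ∧ A (i, k) ≠ 0) ↔
      wt (el x y A) = (m : WithBot ℕ)) ∧
    ∀ b : B, wt b < (D : WithBot ℕ) → ∃ A : Fin s.a × Fin D → K, el x y A = b :=
  ⟨fun _ => rfl, wt_el h, exists_el_eq h⟩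

/-- **The formula for one class.** `TorsB s n D c f` is the first order condition on the array `f`;
it says that the element `f` belongs to data as in `exists_ideal`. File: `H68ThetaIff`. -/
theorem torsion_element_iff {s : Shape} {K B : Type*} [Field K] [CommRing B] [Algebra K B]
    {wt : B → WithBot ℕ} {c : s.Idx → K} {x : B} {y : Fin s.a → B} {D : ℕ}
    (h : s.IsModel c wt x y) (n : ℕ) (f : Fin s.a × Fin D → K) :
    TorsB s n D c f ↔ ∃ (e : Fin D) (u : Fin s.a → Fin D), n * (e : ℕ) < D ∧
      (∀ i j, (u i : ℕ) ≡ u j [MOD s.a] → i = j) ∧ (∑ j, (u j : ℕ) = ∑ j, s.w j + s.a * e) ∧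
      wt (el x y f) = ((n * e : ℕ) : WithBot ℕ) ∧
      ∃ z t : Fin s.a × (Fin s.a × Fin D) → K,
        (∀ j, wt (el x y (fun p => z (j, p))) = ((u j : ℕ) : WithBot ℕ)) ∧
        ∀ j, el x y (fun p => z (j, p)) ^ n = el x y f * el x y (fun p => t (j, p)) :=
  torsB_iff h n f

/-- **The formula for equivalence.** `EquivF` says that `f f' ^ (n - 1)` is an `n`-th power (see
`same_class_iff`). So "there are `M` arrays with `TorsB` which are pairwise not equivalent" says that
`B` has at least `M` ideal classes killed by `n` (for `D` large enough, by the bounds of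
`exists_elements`); this is the formula `H68.ThetaB` of `torsion_count_is_first_order` in
`GuideTorsion`. Files: `H68ThetaIff`, `H68ThetaFO`. -/
theorem equivalent_iff {s : Shape} {K B : Type*} [Field K] [CommRing B] [Algebra K B]
    {wt : B → WithBot ℕ} {c : s.Idx → K} {x : B} {y : Fin s.a → B} {D : ℕ}
    (h : s.IsModel c wt x y) (n M : ℕ) (f f' : Fin s.a × Fin D → K) :
    (H77.FOL.EquivF s n D c f f' ↔ ∃ v : Fin s.a × Fin D → K,
      el x y v ^ n = el x y f * el x y f' ^ (n - 1)) ∧
    (ThetaB s n D M c ↔ ∃ F : Fin M × (Fin s.a × Fin D) → K,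
      (∀ i, TorsB s n D c (fun p => F (i, p))) ∧
        ∀ i j, i ≠ j → ¬ H77.FOL.EquivF s n D c (fun p => F (i, p)) (fun p => F (j, p))) :=
  ⟨equivF_iff h n f f', Iff.rfl⟩

end Fermat.Agent.Guide.TorsionTools
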