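import Mathlib

/-!
# Integral operators with bounded kernels on finite measure spaces (helper32, S47 block C-ABS)
-/

set_option autoImplicit false

noncomputable section

open MeasureTheory Complex Filter
open scoped ENNReal InnerProductSpace ComplexConjugate Topology

namespace Fermat.Agent.H32Z

variable {X : Type*} [MeasurableSpace X]

/-- bounded measurable kernel -/
structure BK (K : X → X → ℂ) : Prop where
  meas : Measurable (Function.uncurry K)
  bdd : ∃ B : ℝ, 0 ≤ B ∧ ∀ x y, ‖K x y‖ ≤ B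

variable {ν : Measure X} [IsFiniteMeasure ν]

namespace BK

variable {K : X → X → ℂ} (hK : BK K)

include hK in
theorem meas_left (y : X) : Measurable fun x => K x y :=
  hK.meas.comp (measurable_id.prodMk measurable_const)

include hK in
theorem meas_right (x : X) : Measurable fun y => K x y :=
  hK.meas.comp (measurable_const.prodMk measurable_id)

/-- the bound -/
def B : ℝ := hK.bdd.choose

theorem B_nonneg : 0 ≤ hK.B := hK.bdd.choose_spec.1

theorem le_B (x y : X) : ‖K x y‖ ≤ hK.B := hK.bdd.choose_spec.2 x y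

include hK in
theorem memLp_row (x : X) (p : ℝ≥0∞) : MemLp (fun y => conj (K x y)) p ν :=
  MemLp.of_bound ((continuous_conj.measurable.comp (hK.meas_right x)).aestronglyMeasurable) hK.B
    (Eventually.of_forall fun y => by simpa using hK.le_B x y)

/-- the row of the kernel as a vector of `L²` -/
def row (ν : Measure X) [IsFiniteMeasure ν] (x : X) : Lp ℂ 2 ν := (hK.memLp_row (ν := ν) x 2).toLp

theorem coeFn_row (x : X) : hK.row ν x =ᵐ[ν] fun y => conj (K x y) := MemLp.coeFn_toLp _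

theorem inner_row (x : X) (f : Lp ℂ 2 ν) : ⟪hK.row ν x, f⟫_ℂ = ∫ y, K x y * f y ∂ν := by
  rw [L2.inner_def]
  refine integral_congr_ae ?_
  filter_upwards [hK.coeFn_row (ν := ν) x] with y hy
  rw [hy]
  simp [mul_comm]

/-- norm bound of the rows -/
def C (ν : Measure X) [IsFiniteMeasure ν] : ℝ := (measureUnivNNReal ν : ℝ) ^ (2⁻¹ : ℝ) * hK.B

theorem C_nonneg : 0 ≤ hK.C ν := mul_nonneg (by positivity) hK.B_nonneg

theorem norm_row_le (x : X) : ‖hK.row ν x‖ ≤ hK.C ν := by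
  have := Lp.norm_le_of_ae_bound (f := hK.row ν x) hK.B_nonneg (by
    filter_upwards [hK.coeFn_row (ν := ν) x] with y hy
    rw [hy]
    simpa using hK.le_B x y)
  simpa [C] using this

include hK in
theorem stronglyMeasurable_apply {f : X → ℂ} (hf : StronglyMeasurable f) :
    StronglyMeasurable fun x => ∫ y, K x y * f y ∂ν := by
  apply StronglyMeasurable.integral_prod_right (f := fun x y => K x y * f y)
  exact hK.meas.stronglyMeasurable.mul (hf.comp_measurable measurable_snd)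

theorem stronglyMeasurable_inner_row (f : Lp ℂ 2 ν) :
    StronglyMeasurable fun x => ⟪hK.row ν x, f⟫_ℂ := by
  simp_rw [hK.inner_row]
  exact hK.stronglyMeasurable_apply (Lp.stronglyMeasurable f)

theorem norm_inner_row_le (x : X) (f : Lp ℂ 2 ν) : ‖⟪hK.row ν x, f⟫_ℂ‖ ≤ hK.C ν * ‖f‖ :=
  (norm_inner_le_norm _ _).trans (mul_le_mul_of_nonneg_right (hK.norm_row_le x) (norm_nonneg _))

theorem memLp_apply (f : Lp ℂ 2 ν) (p : ℝ≥0∞) : MemLp (fun x => ⟪hK.row ν x, f⟫_ℂ) p ν :=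
  MemLp.of_bound (hK.stronglyMeasurable_inner_row f).aestronglyMeasurable _
    (Eventually.of_forall fun x => hK.norm_inner_row_le x f)

/-- The integral operator of the kernel `K`. -/
def op (ν : Measure X) [IsFiniteMeasure ν] : Lp ℂ 2 ν →L[ℂ] Lp ℂ 2 ν :=
  LinearMap.mkContinuous
    { toFun := fun f => (hK.memLp_apply f 2).toLp
      map_add' := fun f g => by
        rw [← MemLp.toLp_add]
        congr 1
        funext x
        simp [inner_add_right]
      map_smul' := fun c f => by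
        rw [RingHom.id_apply, ← MemLp.toLp_const_smul]
        congr 1
        funext x
        simp [inner_smul_right] }
    ((measureUnivNNReal ν : ℝ) ^ (2⁻¹ : ℝ) * hK.C ν) (fun f => by
      have := Lp.norm_le_of_ae_bound (f := (hK.memLp_apply f 2).toLp)
        (mul_nonneg hK.C_nonneg (norm_nonneg f)) (by
        filter_upwards [(hK.memLp_apply f 2).coeFn_toLp] with x hx
        rw [hx]
        exact hK.norm_inner_row_le x f)
      refine this.trans (le_of_eq ?_)
      simp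
      ring)

theorem coeFn_op (f : Lp ℂ 2 ν) : hK.op ν f =ᵐ[ν] fun x => ⟪hK.row ν x, f⟫_ℂ :=
  (hK.memLp_apply f 2).coeFn_toLp

theorem coeFn_op' (f : Lp ℂ 2 ν) : hK.op ν f =ᵐ[ν] fun x => ∫ y, K x y * f y ∂ν := by
  filter_upwards [hK.coeFn_op f] with x hx
  rw [hx, hK.inner_row]

end BK

omit [IsFiniteMeasure ν] in
theorem norm_sq_eq_integral (g : Lp ℂ 2 ν) : ‖g‖ ^ 2 = ∫ x, ‖g x‖ ^ 2 ∂ν := by
  have h := inner_self_eq_norm_sq_to_K (𝕜 := ℂ) g
  rw [L2.inner_def] at h
  have h2 : ∫ a, ⟪g a, g a⟫_ℂ ∂ν = ((∫ x, ‖g x‖ ^ 2 ∂ν : ℝ) : ℂ) := by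
    rw [← integral_complex_ofReal]
    refine integral_congr_ae (Eventually.of_forall fun x => ?_)
    simp only
    rw [inner_self_eq_norm_sq_to_K]
    simp
  rw [h2] at h
  have h3 : (((‖g‖ ^ 2 : ℝ)) : ℂ) = ((∫ x, ‖g x‖ ^ 2 ∂ν : ℝ) : ℂ) := by
    rw [h]; simp
  exact_mod_cast h3

theorem countable_of_orthonormal {E : Type*} [NormedAddCommGroup E] [InnerProductSpace ℂ E]
    [TopologicalSpace.SeparableSpace E] {ι : Type*} {v : ι → E} (hv : Orthonormal ℂ v) :
    Countable ι := by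
  have hd : (Set.univ : Set ι).PairwiseDisjoint fun i => Metric.ball (v i) (1 / 2) := by
    intro i _ j _ hij
    apply Metric.ball_disjoint_ball
    rw [dist_eq_norm]
    have h1 : ‖v i - v j‖ ^ 2 = 2 := by
      have := @norm_sub_sq ℂ _ _ _ _ (v i) (v j)
      rw [this, hv.1 i, hv.1 j, hv.2 hij]
      norm_num
    nlinarith [norm_nonneg (v i - v j)]
  have := hd.countable_of_isOpen (fun i _ => Metric.isOpen_ball)
    (fun i _ => ⟨v i, Metric.mem_ball_self (by norm_num)⟩)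
  exact Set.countable_univ_iff.mp this

section proj

variable {E : Type*} [NormedAddCommGroup E] [InnerProductSpace ℂ E]
  {ι : Type*} (b : HilbertBasis ι ℂ E)

/-- finite partial projections of a Hilbert basis -/
def hbP (s : Finset ι) : E →L[ℂ] E :=
  ∑ i ∈ s, ContinuousLinearMap.smulRight (innerSL ℂ (b i)) (b i)

theorem hbP_apply (s : Finset ι) (f : E) : hbP b s f = ∑ i ∈ s, ⟪b i, f⟫_ℂ • b i := by
  simp [hbP]

theorem inner_hbP (s : Finset ι) (u f : E) : ⟪u, hbP b s f⟫_ℂ = ⟪hbP b s u, f⟫_ℂ := by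
  rw [hbP_apply, hbP_apply, inner_sum, sum_inner]
  refine Finset.sum_congr rfl fun i _ => ?_
  rw [inner_smul_left, inner_smul_right, inner_conj_symm, mul_comm]

theorem inner_self_hbP (s : Finset ι) (u : E) :
    ⟪u, hbP b s u⟫_ℂ = ((∑ i ∈ s, ‖⟪b i, u⟫_ℂ‖ ^ 2 : ℝ) : ℂ) := by
  rw [hbP_apply, inner_sum, ofReal_sum]
  refine Finset.sum_congr rfl fun i _ => ?_
  rw [inner_smul_right, ← inner_conj_symm u (b i), mul_conj, normSq_eq_norm_sq]

theorem norm_hbP_sq (s : Finset ι) (u : E) : ‖hbP b s u‖ ^ 2 = ∑ i ∈ s, ‖⟪b i, u⟫_ℂ‖ ^ 2 := by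
  have h := inner_self_eq_norm_sq_to_K (𝕜 := ℂ) (hbP b s u)
  rw [hbP_apply, b.orthonormal.inner_sum] at h
  have h2 : ∑ i ∈ s, (starRingEnd ℂ) ⟪b i, u⟫_ℂ * ⟪b i, u⟫_ℂ =
      ((∑ i ∈ s, ‖⟪b i, u⟫_ℂ‖ ^ 2 : ℝ) : ℂ) := by
    rw [ofReal_sum]
    refine Finset.sum_congr rfl fun i _ => ?_
    rw [mul_comm, mul_conj, normSq_eq_norm_sq]
  rw [h2, ← hbP_apply] at h
  have h3 : ((∑ i ∈ s, ‖⟪b i, u⟫_ℂ‖ ^ 2 : ℝ) : ℂ) = ((‖hbP b s u‖ ^ 2 : ℝ) : ℂ) := by
    rw [h]; simp
  exact_mod_cast h3.symm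

theorem norm_sub_hbP_sq (s : Finset ι) (u : E) :
    ‖u - hbP b s u‖ ^ 2 = ‖u‖ ^ 2 - ∑ i ∈ s, ‖⟪b i, u⟫_ℂ‖ ^ 2 := by
  rw [@norm_sub_sq ℂ, inner_self_hbP, norm_hbP_sq, RCLike.re_eq_complex_re, ofReal_re]
  ring

theorem tendsto_norm_sub_hbP (u : E) :
    Tendsto (fun s : Finset ι => ‖u‖ ^ 2 - ∑ i ∈ s, ‖⟪b i, u⟫_ℂ‖ ^ 2) atTop (𝓝 0) := by
  have h := b.hasSum_inner_mul_inner u u
  have h1 : HasSum (fun i => ((‖⟪b i, u⟫_ℂ‖ ^ 2 : ℝ) : ℂ)) ((‖u‖ ^ 2 : ℝ) : ℂ) := by
    have e : ⟪u, u⟫_ℂ = ((‖u‖ ^ 2 : ℝ) : ℂ) := by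
      rw [inner_self_eq_norm_sq_to_K]; simp
    rw [e] at h
    have e2 : (fun i => ⟪u, b i⟫_ℂ * ⟪b i, u⟫_ℂ) = fun i => ((‖⟪b i, u⟫_ℂ‖ ^ 2 : ℝ) : ℂ) := by
      funext i
      rw [← inner_conj_symm u (b i), mul_comm, mul_conj, normSq_eq_norm_sq]
    rwa [e2] at h
  rw [Complex.hasSum_ofReal] at h1
  have h2 : Tendsto (fun s : Finset ι => ∑ i ∈ s, ‖⟪b i, u⟫_ℂ‖ ^ 2) atTop (𝓝 (‖u‖ ^ 2)) := h1
  have h3 := h2.const_sub (‖u‖ ^ 2)
  rwa [sub_self] at h3

theorem isCompactOperator_hbP (s : Finset ι) : IsCompactOperator (hbP b s) := by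
  classical
  unfold hbP
  induction s using Finset.induction_on with
  | empty => simpa using isCompactOperator_zero
  | insert i s hi ih =>
    rw [Finset.sum_insert hi]
    refine IsCompactOperator.add ?_ ih
    have h1 : IsCompactOperator (innerSL ℂ (b i) : E →L[ℂ] ℂ) :=
      isCompactOperator_of_locallyCompactSpace_dom _
    exact h1.clm_comp (ContinuousLinearMap.smulRight (1 : ℂ →L[ℂ] ℂ) (b i))

end proj

section compact

variable {K : X → X → ℂ} (hK : BK K)

namespace BK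

theorem measurable_norm_row_sq : Measurable fun x => ‖hK.row ν x‖ ^ 2 := by
  have h : ∀ x, ‖hK.row ν x‖ ^ 2 = ∫ y, ‖K x y‖ ^ 2 ∂ν := by
    intro x
    rw [norm_sq_eq_integral]
    refine integral_congr_ae ?_
    filter_upwards [hK.coeFn_row (ν := ν) x] with y hy
    rw [hy]
    simp
  simp_rw [h]
  refine StronglyMeasurable.measurable ?_
  apply StronglyMeasurable.integral_prod_right (f := fun x y => ‖K x y‖ ^ 2)
  exact (hK.meas.norm.pow_const 2).stronglyMeasurable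

variable {ι : Type*} (b : HilbertBasis ι ℂ (Lp ℂ 2 ν))

/-- the square of the distance of a row to its partial projection -/
def rem (s : Finset ι) (x : X) : ℝ :=
  ‖hK.row ν x‖ ^ 2 - ∑ i ∈ s, ‖⟪b i, hK.row ν x⟫_ℂ‖ ^ 2

theorem rem_eq (s : Finset ι) (x : X) :
    hK.rem b s x = ‖hK.row ν x - hbP b s (hK.row ν x)‖ ^ 2 := (norm_sub_hbP_sq b s _).symm

theorem rem_nonneg (s : Finset ι) (x : X) : 0 ≤ hK.rem b s x := by
  rw [rem_eq]; positivity

theorem rem_le (s : Finset ι) (x : X) : hK.rem b s x ≤ hK.C ν ^ 2 := by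
  unfold rem
  have h1 : 0 ≤ ∑ i ∈ s, ‖⟪b i, hK.row ν x⟫_ℂ‖ ^ 2 := by positivity
  have h2 : ‖hK.row ν x‖ ^ 2 ≤ hK.C ν ^ 2 := by
    have := hK.norm_row_le (ν := ν) x
    gcongr
  linarith

theorem measurable_rem (s : Finset ι) : Measurable (hK.rem b s) := by
  unfold rem
  refine hK.measurable_norm_row_sq.sub (Finset.measurable_sum _ fun i _ => ?_)
  have : (fun x => ‖⟪b i, hK.row ν x⟫_ℂ‖ ^ 2) = fun x => ‖⟪hK.row ν x, b i⟫_ℂ‖ ^ 2 := by
    funext x; rw [← inner_conj_symm, RCLike.norm_conj]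
  rw [this]
  exact (hK.stronglyMeasurable_inner_row (b i)).measurable.norm.pow_const 2

theorem tendsto_integral_rem [Countable ι] :
    Tendsto (fun s : Finset ι => ∫ x, hK.rem b s x ∂ν) atTop (𝓝 0) := by
  have h := tendsto_integral_filter_of_dominated_convergence (μ := ν) (l := atTop)
    (F := fun s : Finset ι => hK.rem b s) (f := fun _ => (0 : ℝ)) (fun _ => hK.C ν ^ 2)
    (Eventually.of_forall fun s => (hK.measurable_rem b s).aestronglyMeasurable)
    (Eventually.of_forall fun s => Eventually.of_forall fun x => by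
      rw [Real.norm_of_nonneg (hK.rem_nonneg b s x)]; exact hK.rem_le b s x)
    (integrable_const _)
    (Eventually.of_forall fun x => tendsto_norm_sub_hbP b _)
  simpa using h

theorem norm_op_sub_le (s : Finset ι) :
    ‖hK.op ν - (hK.op ν).comp (hbP b s)‖ ≤ Real.sqrt (∫ x, hK.rem b s x ∂ν) := by
  refine ContinuousLinearMap.opNorm_le_bound _ (Real.sqrt_nonneg _) fun f => ?_
  have hint : Integrable (hK.rem b s) ν := by
    refine Integrable.mono' (integrable_const (hK.C ν ^ 2))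
      (hK.measurable_rem b s).aestronglyMeasurable (Eventually.of_forall fun x => ?_)
    rw [Real.norm_of_nonneg (hK.rem_nonneg b s x)]; exact hK.rem_le b s x
  have h1 : ‖(hK.op ν - (hK.op ν).comp (hbP b s)) f‖ ^ 2 ≤ (∫ x, hK.rem b s x ∂ν) * ‖f‖ ^ 2 := by
    rw [norm_sq_eq_integral, ← integral_mul_const]
    refine integral_mono_ae ?_ (hint.mul_const _) ?_
    · have := (Lp.memLp ((hK.op ν - (hK.op ν).comp (hbP b s)) f)).norm.integrable_sq
      exact this
    · have e1 := Lp.coeFn_sub (hK.op ν f) (hK.op ν (hbP b s f))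
      filter_upwards [e1, hK.coeFn_op f, hK.coeFn_op (hbP b s f)] with x h1 h2 h3
      have e : ((hK.op ν - (hK.op ν).comp (hbP b s)) f) x =
          ⟪hK.row ν x - hbP b s (hK.row ν x), f⟫_ℂ := by
        rw [inner_sub_left, ← inner_hbP, ← h2, ← h3]
        exact h1
      rw [e, rem_eq, ← mul_pow]
      gcongr
      exact norm_inner_le_norm _ _
  have h2 := Real.sqrt_le_sqrt h1
  rw [Real.sqrt_sq (norm_nonneg _), Real.sqrt_mul' _ (by positivity),
    Real.sqrt_sq (norm_nonneg _)] at h2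
  exact h2

/-- Integral operators with bounded kernels on finite measure spaces are compact. -/
theorem isCompactOperator [MeasurableSpace.CountablyGenerated X] : IsCompactOperator (hK.op ν) := by
  obtain ⟨w, b, hb⟩ := exists_hilbertBasis ℂ (Lp ℂ 2 ν)
  have : Fact ((2 : ℝ≥0∞) ≠ ∞) := ⟨by norm_num⟩
  have : Countable w := countable_of_orthonormal b.orthonormal
  refine isCompactOperator_of_tendsto (l := atTop)
    (F := fun s : Finset w => (hK.op ν).comp (hbP b s)) ?_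
    (Eventually.of_forall fun s => (isCompactOperator_hbP b s).clm_comp (hK.op ν))
  rw [tendsto_iff_norm_sub_tendsto_zero]
  have h0 : Tendsto (fun s : Finset w => Real.sqrt (∫ x, hK.rem b s x ∂ν)) atTop (𝓝 0) := by
    have := (hK.tendsto_integral_rem b).sqrt
    simpa using this
  refine squeeze_zero (fun _ => norm_nonneg _) (fun s => ?_) h0
  rw [norm_sub_rev]
  exact hK.norm_op_sub_le b s

end BK

end compact

section adjoint

variable {K M : X → X → ℂ}

/-- the adjoint kernel -/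
def adjK (M : X → X → ℂ) : X → X → ℂ := fun x y => conj (M y x)

theorem BK.adj (hM : BK M) : BK (adjK M) where
  meas := continuous_conj.measurable.comp (hM.meas.comp measurable_swap)
  bdd := ⟨hM.B, hM.B_nonneg, fun x y => by simpa [adjK] using hM.le_B y x⟩

omit [IsFiniteMeasure ν] in
theorem BK.integrable_prod (hM : BK M) {f g : X → ℂ} (hf : Integrable f ν) (hg : Integrable g ν) :
    Integrable (fun z : X × X => M z.1 z.2 * (f z.1 * g z.2)) (ν.prod ν) := by
  refine Integrable.bdd_mul (c := hM.B) (hf.mul_prod hg) hM.meas.aestronglyMeasurable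
    (Eventually.of_forall fun z => hM.le_B z.1 z.2)

theorem BK.inner_op_adj (hM : BK M) (u v : Lp ℂ 2 ν) :
    ⟪hM.adj.op ν u, v⟫_ℂ = ⟪u, hM.op ν v⟫_ℂ := by
  have hu : Integrable u ν := (Lp.memLp u).integrable (by norm_num)
  have hv : Integrable v ν := (Lp.memLp v).integrable (by norm_num)
  have hu' : Integrable (fun x => conj (u x)) ν := by
    have := hu.norm
    refine (integrable_norm_iff ?_).mp (by simpa using hu.norm)
    exact continuous_conj.comp_aestronglyMeasurable hu.aestronglyMeasurable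
  rw [L2.inner_def, L2.inner_def]
  have h1 : ∫ a, ⟪hM.adj.op ν u a, v a⟫_ℂ ∂ν = ∫ x, ∫ y, M y x * (conj (u y) * v x) ∂ν ∂ν := by
    refine integral_congr_ae ?_
    filter_upwards [hM.adj.coeFn_op' u] with x hx
    rw [hx, RCLike.inner_apply, ← integral_conj, mul_comm, ← integral_mul_const]
    refine integral_congr_ae (Eventually.of_forall fun y => ?_)
    simp [adjK]; ring
  have h2 : ∫ a, ⟪u a, hM.op ν v a⟫_ℂ ∂ν = ∫ y, ∫ x, M y x * (conj (u y) * v x) ∂ν ∂ν := by
    refine integral_congr_ae ?_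
    filter_upwards [hM.coeFn_op' v] with y hy
    rw [hy, RCLike.inner_apply, mul_comm, ← integral_const_mul]
    refine integral_congr_ae (Eventually.of_forall fun x => ?_)
    simp only; ring
  rw [h1, h2, integral_integral_swap]
  exact (hM.integrable_prod hu' hv).swap

theorem BK.isSymmetric (hK : BK K) (hsym : ∀ x y, K y x = conj (K x y)) :
    (hK.op ν).IsSymmetric := by
  intro u v
  have h := hK.inner_op_adj (ν := ν) u v
  have e : hK.adj.op ν = hK.op ν := by
    have e1 : adjK K = K := by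
      funext x y; simp only [adjK]; rw [hsym x y, Complex.conj_conj]
    congr 1
  rw [e] at h
  exact h

end adjoint

section trace

variable {K M : X → X → ℂ} {ι : Type*} (b : HilbertBasis ι ℂ (Lp ℂ 2 ν))

theorem BK.summable_integral_inner_sq (hK : BK K) :
    Summable fun i => ∫ x, ‖⟪hK.row ν x, b i⟫_ℂ‖ ^ 2 ∂ν := by
  have hint : ∀ i, Integrable (fun x => ‖⟪hK.row ν x, b i⟫_ℂ‖ ^ 2) ν := fun i =>
    (hK.memLp_apply (b i) 2).norm.integrable_sq
  refine summable_of_sum_le (c := ∫ _x : X, hK.C ν ^ 2 ∂ν)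
    (fun i => integral_nonneg fun x => by positivity) fun s => ?_
  rw [← integral_finsetSum _ fun i _ => hint i]
  refine integral_mono (integrable_finsetSum _ fun i _ => hint i) (integrable_const _) fun x => ?_
  have h1 := hK.rem_nonneg b s x
  unfold BK.rem at h1
  have h2 : ‖hK.row ν x‖ ^ 2 ≤ hK.C ν ^ 2 := by
    have := hK.norm_row_le (ν := ν) x
    gcongr
  have h3 : ∑ i ∈ s, ‖⟪hK.row ν x, b i⟫_ℂ‖ ^ 2 = ∑ i ∈ s, ‖⟪b i, hK.row ν x⟫_ℂ‖ ^ 2 := by
    refine Finset.sum_congr rfl fun i _ => ?_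
    rw [← inner_conj_symm, RCLike.norm_conj]
  simp only
  rw [h3]
  linarith

/-- The trace of a product of two operators with bounded kernels, in any countable Hilbert basis. -/
theorem BK.hasSum_trace [Countable ι] (hK : BK K) (hM : BK M) :
    HasSum (fun i => ⟪b i, hM.op ν (hK.op ν (b i))⟫_ℂ) (∫ x, ∫ y, K x y * M y x ∂ν ∂ν) := by
  set F : ι → X → ℂ := fun i x => ⟪hK.row ν x, b i⟫_ℂ * ⟪b i, hM.adj.row ν x⟫_ℂ with hF
  have hmeasF : ∀ i, AEStronglyMeasurable (F i) ν := fun i => by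
    refine (hK.stronglyMeasurable_inner_row (b i)).aestronglyMeasurable.mul ?_
    have : (fun x => ⟪b i, hM.adj.row ν x⟫_ℂ) = fun x => conj ⟪hM.adj.row ν x, b i⟫_ℂ := by
      funext x; rw [inner_conj_symm]
    rw [this]
    exact continuous_conj.comp_aestronglyMeasurable
      (hM.adj.stronglyMeasurable_inner_row (b i)).aestronglyMeasurable
  have hnorm : ∀ i x, ‖F i x‖ ≤
      2⁻¹ * (‖⟪hK.row ν x, b i⟫_ℂ‖ ^ 2 + ‖⟪hM.adj.row ν x, b i⟫_ℂ‖ ^ 2) := fun i x => by
    have e : ‖⟪b i, hM.adj.row ν x⟫_ℂ‖ = ‖⟪hM.adj.row ν x, b i⟫_ℂ‖ := by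
      rw [← inner_conj_symm, RCLike.norm_conj]
    simp only [hF, norm_mul, e]
    nlinarith [sq_nonneg (‖⟪hK.row ν x, b i⟫_ℂ‖ - ‖⟪hM.adj.row ν x, b i⟫_ℂ‖)]
  have hi1 : ∀ i, Integrable (fun x => ‖⟪hK.row ν x, b i⟫_ℂ‖ ^ 2) ν := fun i =>
    (hK.memLp_apply (b i) 2).norm.integrable_sq
  have hi2 : ∀ i, Integrable (fun x => ‖⟪hM.adj.row ν x, b i⟫_ℂ‖ ^ 2) ν := fun i =>
    (hM.adj.memLp_apply (b i) 2).norm.integrable_sq
  have hi3 : ∀ i, Integrable (fun x =>
      2⁻¹ * (‖⟪hK.row ν x, b i⟫_ℂ‖ ^ 2 + ‖⟪hM.adj.row ν x, b i⟫_ℂ‖ ^ 2)) ν := fun i =>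
    ((hi1 i).add (hi2 i)).const_mul _
  have hFint : ∀ i, Integrable (F i) ν := fun i =>
    Integrable.mono' (hi3 i) (hmeasF i) (Eventually.of_forall (hnorm i))
  have hsum : Summable fun i => ∫ x, ‖F i x‖ ∂ν := by
    refine Summable.of_nonneg_of_le (fun i => integral_nonneg fun x => norm_nonneg _)
      (fun i => integral_mono (hFint i).norm (hi3 i) (hnorm i)) ?_
    have : (fun i => ∫ x, 2⁻¹ * (‖⟪hK.row ν x, b i⟫_ℂ‖ ^ 2 +
        ‖⟪hM.adj.row ν x, b i⟫_ℂ‖ ^ 2) ∂ν) = fun i => 2⁻¹ *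
        ((∫ x, ‖⟪hK.row ν x, b i⟫_ℂ‖ ^ 2 ∂ν) + ∫ x, ‖⟪hM.adj.row ν x, b i⟫_ℂ‖ ^ 2 ∂ν) := by
      funext i
      rw [integral_const_mul, integral_add (hi1 i) (hi2 i)]
    rw [this]
    exact ((hK.summable_integral_inner_sq b).add (hM.adj.summable_integral_inner_sq b)).mul_left _
  have h := hasSum_integral_of_summable_integral_norm hFint hsum
  have e1 : (fun i => ∫ x, F i x ∂ν) = fun i => ⟪b i, hM.op ν (hK.op ν (b i))⟫_ℂ := by
    funext i
    rw [← hM.inner_op_adj, L2.inner_def]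
    refine integral_congr_ae ?_
    filter_upwards [hM.adj.coeFn_op (b i), hK.coeFn_op (b i)] with x h1 h2
    rw [h1, h2, RCLike.inner_apply, inner_conj_symm]
  have e2 : ∫ x, ∑' i, F i x ∂ν = ∫ x, ∫ y, K x y * M y x ∂ν ∂ν := by
    refine integral_congr_ae (Eventually.of_forall fun x => ?_)
    have h1 := b.tsum_inner_mul_inner (hK.row ν x) (hM.adj.row ν x)
    simp only [hF]
    rw [h1, hK.inner_row]
    refine integral_congr_ae ?_
    filter_upwards [hM.adj.coeFn_row (ν := ν) x] with y hy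
    rw [hy]
    simp [adjK]
  rw [e1, e2] at h
  exact h

end trace

end Fermat.Agent.H32Z
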