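import Mathlib.MeasureTheory.Group.Action
import Mathlib.MeasureTheory.Measure.WithDensity
import Mathlib.MeasureTheory.Integral.Bochner.SumMeasure
import Mathlib.MeasureTheory.Integral.Bochner.Set
import Mathlib.Topology.Algebra.InfiniteSum.ENNReal
import Mathlib.MeasureTheory.Constructions.Polish.Basic

/-!
# Cut-off functions for group actions: independence and unfolding

`G` acts on `X`, `μ` is an invariant measure. A cut-off is a measurable `χ : X → [0, ∞]` with
`∑_g χ (g x) = 1`; `∫ χ f dμ` plays the role of the integral of the invariant function `f` over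
`G \ X`.

* `lintegral_transfer`, `integral_transfer` : comparison of two families of weights on `D × X`, `D` a `G`-set;
* `IsCutoff.lintegral_eq`, `IsCutoff.integral_eq`: independence of the cut-off;
* `IsCutoff.exists_subgroup`: cut-offs for subgroups;
* `IsCutoff.exists_of_set`: cut-offs from sets;
* `unfold_lintegral`, `unfold_integral`: unfolding over orbits.
-/

set_option autoImplicit false
set_option linter.unusedSectionVars false

noncomputable section

open MeasureTheory ENNReal

namespace Fermat.Agent.H94U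

section Def

/-- A cut-off function for the action of `G` on `X`. -/
structure IsCutoff (G : Type*) {X : Type*} [Group G] [MulAction G X] [MeasurableSpace X]
    (χ : X → ℝ≥0∞) : Prop where
  meas : Measurable χ
  sum : ∀ x, ∑' g : G, χ (g • x) = 1

variable {G X : Type*} [Group G] [MulAction G X] [MeasurableSpace X]

theorem IsCutoff.le_one {χ : X → ℝ≥0∞} (h : IsCutoff G χ) (x : X) : χ x ≤ 1 := by
  rw [← h.sum x]
  simpa using ENNReal.le_tsum (f := fun g : G => χ (g • x)) (1 : G)

/-- Cut-offs from fundamental sets with finite multiplicities. -/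
theorem IsCutoff.exists_of_set [Countable G] [MeasurableConstSMul G X] {S : Set X}
    (hS : MeasurableSet S) (hfin : ∀ x, {g : G | g • x ∈ S}.Finite) (hex : ∀ x, ∃ g : G, g • x ∈ S) :
    ∃ χ : X → ℝ≥0∞, IsCutoff G χ ∧ ∀ x, χ x ≤ S.indicator 1 x := by
  classical
  let n : X → ℝ≥0∞ := fun x => ∑' g : G, S.indicator 1 (g • x)
  have hn : Measurable n := Measurable.tsum fun g =>
    (measurable_one.indicator hS).comp (measurable_const_smul g)
  have hinv : ∀ (g : G) x, n (g • x) = n x := by
    intro g x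
    show ∑' h : G, S.indicator (1 : X → ℝ≥0∞) (h • g • x) = ∑' h : G, S.indicator 1 (h • x)
    rw [← (Equiv.mulRight g).tsum_eq (fun h : G => S.indicator (1 : X → ℝ≥0∞) (h • x))]
    exact tsum_congr fun h => by rw [Equiv.coe_mulRight, mul_smul]
  have hone : ∀ x, 1 ≤ n x := by
    intro x
    obtain ⟨g, hg⟩ := hex x
    calc (1 : ℝ≥0∞) = S.indicator 1 (g • x) := by rw [Set.indicator_of_mem hg]; rfl
      _ ≤ n x := ENNReal.le_tsum (f := fun g : G => S.indicator (1 : X → ℝ≥0∞) (g • x)) g
  have htop : ∀ x, n x ≠ ⊤ := by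
    intro x
    have h1 : n x = ∑ g ∈ (hfin x).toFinset, S.indicator (1 : X → ℝ≥0∞) (g • x) := by
      apply tsum_eq_sum
      intro g hg
      rw [Set.Finite.mem_toFinset] at hg
      exact Set.indicator_of_notMem (s := S) (a := g • x) hg (1 : X → ℝ≥0∞)
    rw [h1]
    refine (ENNReal.sum_lt_top.mpr fun g _ => ?_).ne
    refine lt_of_le_of_lt ?_ ENNReal.one_lt_top
    by_cases hg : g • x ∈ S
    · rw [Set.indicator_of_mem hg]; exact le_refl _
    · rw [Set.indicator_of_notMem hg]; exact (zero_le_one : (0 : ℝ≥0∞) ≤ 1)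
  refine ⟨fun x => S.indicator (1 : X → ℝ≥0∞) x / n x, ⟨?_, ?_⟩, ?_⟩
  · exact (measurable_one.indicator hS).div hn
  · intro x
    have h1 : ∀ g : G, S.indicator (1 : X → ℝ≥0∞) (g • x) / n (g • x) =
        S.indicator 1 (g • x) * (n x)⁻¹ := fun g => by rw [hinv, div_eq_mul_inv]
    rw [tsum_congr h1, ENNReal.tsum_mul_right]
    exact ENNReal.mul_inv_cancel (zero_lt_one.trans_le (hone x)).ne' (htop x)
  · intro x
    exact ENNReal.div_le_of_le_mul (by
      calc S.indicator (1 : X → ℝ≥0∞) x = S.indicator 1 x * 1 := (mul_one _).symm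
        _ ≤ S.indicator 1 x * n x := by gcongr; exact hone x)

/-- Cut-offs for subgroups. -/
theorem IsCutoff.exists_subgroup [Countable G] [MeasurableConstSMul G X] {χ : X → ℝ≥0∞}
    (h : IsCutoff G χ) (H : Subgroup G) : ∃ χ' : X → ℝ≥0∞, IsCutoff H χ' := by
  have hc : Countable (G ⧸ H) := Quotient.countable
  refine ⟨fun x => ∑' q : G ⧸ H, χ (q.out • x), ?_, ?_⟩
  · exact Measurable.tsum fun q => h.meas.comp (measurable_const_smul _)
  · intro x
    let e : (G ⧸ H) × H ≃ G :=
      { toFun := fun p => p.1.out * p.2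
        invFun := fun g => ((g : G ⧸ H), ⟨((g : G ⧸ H)).out⁻¹ * g,
          QuotientGroup.eq.mp (Quotient.out_eq' _)⟩)
        left_inv := by
          rintro ⟨q, k⟩
          have h1 : ((q.out * (k : G) : G) : G ⧸ H) = q := by
            rw [QuotientGroup.mk_mul_of_mem _ k.2]
            exact Quotient.out_eq' q
          refine Prod.ext h1 (Subtype.ext ?_)
          show (((q.out * (k : G) : G) : G ⧸ H)).out⁻¹ * (q.out * k) = k
          rw [h1, inv_mul_cancel_left]
        right_inv := fun g => by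
          show ((g : G ⧸ H)).out * (((g : G ⧸ H)).out⁻¹ * g) = g
          rw [mul_inv_cancel_left] }
    rw [← h.sum x, ENNReal.tsum_comm, ← ENNReal.tsum_prod, ← e.tsum_eq (fun g : G => χ (g • x))]
    refine tsum_congr fun p => ?_
    congr 1
    rw [Subgroup.smul_def, smul_smul]
    rfl

end Def

section Transfer

variable {G X D : Type*} [Group G] [Countable G] [MulAction G X] [MulAction G D]
  [MeasurableSpace X] [MeasurableConstSMul G X] (μ : Measure X) [SMulInvariantMeasure G X μ]

include G in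
/-- **Comparison of two weights.** -/
theorem lintegral_transfer {w w' : D → X → ℝ≥0∞} (hw : ∀ d, Measurable (w d))
    (hw' : ∀ d, Measurable (w' d)) {F : D → X → ℝ≥0∞} (hF : ∀ d, Measurable (F d))
    (hinv : ∀ (g : G) d x, F (g • d) (g • x) = F d x)
    (h1 : ∀ d x, F d x ≠ 0 → ∑' g : G, w (g • d) (g • x) = 1)
    (h1' : ∀ d x, F d x ≠ 0 → ∑' g : G, w' (g • d) (g • x) = 1) :
    ∑' d, ∫⁻ x, w d x * F d x ∂μ = ∑' d, ∫⁻ x, w' d x * F d x ∂μ := by
  have key : ∀ {u u' : D → X → ℝ≥0∞}, (∀ d, Measurable (u d)) → (∀ d, Measurable (u' d)) →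
      (∀ d x, F d x ≠ 0 → ∑' g : G, u' (g • d) (g • x) = 1) →
      ∑' d, ∫⁻ x, u d x * F d x ∂μ =
        ∑' g : G, ∑' d, ∫⁻ x, u d x * F d x * u' (g • d) (g • x) ∂μ := by
    intro u u' hu hu' h
    rw [ENNReal.tsum_comm]
    refine tsum_congr fun d => ?_
    rw [← lintegral_tsum (f := fun (g : G) x => u d x * F d x * u' (g • d) (g • x))
      fun g => (((hu d).mul (hF d)).mul ((hu' _).comp (measurable_const_smul g))).aemeasurable]
    refine lintegral_congr fun x => ?_
    rw [ENNReal.tsum_mul_left]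
    by_cases hz : F d x = 0
    · rw [hz, mul_zero, zero_mul]
    · rw [h d x hz, mul_one]
  rw [key hw hw' h1', key hw' hw h1, ← (Equiv.inv G).tsum_eq]
  refine tsum_congr fun g => ?_
  rw [← (MulAction.toPerm (g : G)).tsum_eq]
  refine tsum_congr fun d => ?_
  simp only [Equiv.inv_apply, MulAction.toPerm_apply, inv_smul_smul]
  rw [← (measurePreserving_smul g μ).lintegral_comp
    (f := fun x => w (g • d) x * F (g • d) x * w' d (g⁻¹ • x)) (((hw _).mul (hF _)).mul
    ((hw' _).comp (measurable_const_smul (g⁻¹))))]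
  refine lintegral_congr fun x => ?_
  rw [inv_smul_smul, hinv]
  ring

variable {E : Type*} [NormedAddCommGroup E] [NormedSpace ℝ E] [MeasurableSpace E] [BorelSpace E]
  [SecondCountableTopology E]

omit [Countable G] [MulAction G X] [MeasurableConstSMul G X] [SMulInvariantMeasure G X μ]
  [MulAction G D] [Group G] in
theorem hasSum_push {w : D → X → ℝ≥0∞} (hw : ∀ d, Measurable (w d)) {f : D → X → E}
    (hf : ∀ d, Measurable (f d)) (hint : ∑' d, ∫⁻ x, w d x * ‖f d x‖ₑ ∂μ ≠ ⊤) :
    (∀ d, Integrable (f d) (μ.withDensity (w d))) ∧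
    HasSum (fun d => ∫ x, f d x ∂(μ.withDensity (w d)))
      (∫ y in ({0}ᶜ : Set E), y ∂(Measure.sum fun d => (μ.withDensity (w d)).map (f d))) := by
  have h1 : Integrable (fun y : E => y) (Measure.sum fun d => (μ.withDensity (w d)).map (f d)) := by
    refine ⟨aestronglyMeasurable_id, ?_⟩
    rw [HasFiniteIntegral, lintegral_sum_measure]
    refine lt_of_le_of_lt (le_of_eq (tsum_congr fun d => ?_)) (lt_top_iff_ne_top.mpr hint)
    rw [lintegral_map measurable_enorm (hf d),
      lintegral_withDensity_eq_lintegral_mul _ (hw d) (hf d).enorm]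
    rfl
  have h2 := hasSum_integral_measure h1
  constructor
  · intro d
    have h3 := h1.mono_measure (Measure.le_sum (fun d => (μ.withDensity (w d)).map (f d)) d)
    exact (integrable_map_measure aestronglyMeasurable_id (hf d).aemeasurable).mp h3
  · rw [setIntegral_eq_integral_of_forall_compl_eq_zero (fun y hy => by simpa using hy)]
    convert h2 using 1
    funext d
    exact (integral_map (hf d).aemeasurable (f := fun y : E => y) aestronglyMeasurable_id).symm

/-- **Comparison of two weights**, for functions with values in a Banach space. -/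
theorem integral_transfer {w w' : D → X → ℝ≥0∞} (hw : ∀ d, Measurable (w d))
    (hw' : ∀ d, Measurable (w' d)) {f : D → X → E} (hf : ∀ d, Measurable (f d))
    (hinv : ∀ (g : G) d x, f (g • d) (g • x) = f d x)
    (h1 : ∀ d x, f d x ≠ 0 → ∑' g : G, w (g • d) (g • x) = 1)
    (h1' : ∀ d x, f d x ≠ 0 → ∑' g : G, w' (g • d) (g • x) = 1)
    (hint : ∑' d, ∫⁻ x, w d x * ‖f d x‖ₑ ∂μ ≠ ⊤) :
    (∀ d, Integrable (f d) (μ.withDensity (w' d))) ∧
    ∃ I : E, HasSum (fun d => ∫ x, f d x ∂(μ.withDensity (w d))) I ∧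
      HasSum (fun d => ∫ x, f d x ∂(μ.withDensity (w' d))) I := by
  have hint' : ∑' d, ∫⁻ x, w' d x * ‖f d x‖ₑ ∂μ ≠ ⊤ := by
    rwa [← lintegral_transfer (G := G) μ hw hw' (F := fun d x => ‖f d x‖ₑ)
      (fun d => (hf d).enorm) (fun g d x => by rw [hinv])
      (fun d x h => h1 d x (by simpa using h)) (fun d x h => h1' d x (by simpa using h))]
  obtain ⟨-, h3⟩ := hasSum_push μ hw hf hint
  obtain ⟨h4, h5⟩ := hasSum_push μ hw' hf hint'
  refine ⟨h4, _, h3, ?_⟩
  convert h5 using 2
  ext B hB
  rw [Measure.restrict_apply hB, Measure.restrict_apply hB,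
    Measure.sum_apply _ (hB.inter (measurableSet_singleton 0).compl),
    Measure.sum_apply _ (hB.inter (measurableSet_singleton 0).compl)]
  set C : Set E := B ∩ {0}ᶜ with hC
  have hCm : MeasurableSet C := hB.inter (measurableSet_singleton 0).compl
  have h6 : ∀ {u : D → X → ℝ≥0∞}, (∀ d, Measurable (u d)) → ∀ d,
      (μ.withDensity (u d)).map (f d) C = ∫⁻ x, u d x * C.indicator 1 (f d x) ∂μ := by
    intro u hu d
    rw [Measure.map_apply (hf d) hCm, withDensity_apply _ (hf d hCm),
      ← lintegral_indicator (hf d hCm)]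
    refine lintegral_congr fun x => ?_
    by_cases hx : f d x ∈ C
    · rw [Set.indicator_of_mem (show x ∈ f d ⁻¹' C from hx), Set.indicator_of_mem hx,
        Pi.one_apply, mul_one]
    · rw [Set.indicator_of_notMem (show x ∉ f d ⁻¹' C from hx), Set.indicator_of_notMem hx,
        mul_zero]
  rw [tsum_congr (h6 hw), tsum_congr (h6 hw')]
  have h7 : ∀ d x, C.indicator (1 : E → ℝ≥0∞) (f d x) ≠ 0 → f d x ≠ 0 := by
    intro d x h h0
    apply h
    apply Set.indicator_of_notMem
    rw [hC]
    rintro ⟨-, h8⟩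
    exact h8 h0
  exact lintegral_transfer (G := G) μ hw hw' (F := fun d x => C.indicator 1 (f d x))
    (fun d => (measurable_one.indicator hCm).comp (hf d)) (fun g d x => by rw [hinv])
    (fun d x h => h1 d x (h7 d x h)) (fun d x h => h1' d x (h7 d x h))

end Transfer

/-! ### Independence of the cut-off -/

section Indep

variable {G X : Type*} [Group G] [Countable G] [MulAction G X]
  [MeasurableSpace X] [MeasurableConstSMul G X] (μ : Measure X) [SMulInvariantMeasure G X μ]

/-- **Independence of the cut-off**, non-negative functions. -/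
theorem IsCutoff.lintegral_eq {χ χ' : X → ℝ≥0∞} (h : IsCutoff G χ) (h' : IsCutoff G χ')
    {F : X → ℝ≥0∞} (hF : Measurable F) (hinv : ∀ (g : G) x, F (g • x) = F x) :
    ∫⁻ x, F x ∂(μ.withDensity χ) = ∫⁻ x, F x ∂(μ.withDensity χ') := by
  let : MulAction G Unit :=
    { smul := fun _ _ => ()
      one_smul := fun _ => rfl
      mul_smul := fun _ _ _ => rfl }
  have h1 := lintegral_transfer (G := G) μ (D := Unit) (w := fun _ => χ) (w' := fun _ => χ')
    (fun _ => h.meas) (fun _ => h'.meas) (F := fun _ => F) (fun _ => hF) (fun g _ x => hinv g x)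
    (fun _ x _ => h.sum x) (fun _ x _ => h'.sum x)
  rw [tsum_fintype, tsum_fintype] at h1
  simp only [Finset.univ_unique, Finset.sum_singleton] at h1
  rw [lintegral_withDensity_eq_lintegral_mul _ h.meas hF,
    lintegral_withDensity_eq_lintegral_mul _ h'.meas hF]
  exact h1

variable {E : Type*} [NormedAddCommGroup E] [NormedSpace ℝ E] [MeasurableSpace E] [BorelSpace E]
  [SecondCountableTopology E]

/-- **Independence of the cut-off**. -/
theorem IsCutoff.integral_eq {χ χ' : X → ℝ≥0∞} (h : IsCutoff G χ) (h' : IsCutoff G χ')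
    {f : X → E} (hf : Measurable f) (hinv : ∀ (g : G) x, f (g • x) = f x) :
    ∫ x, f x ∂(μ.withDensity χ) = ∫ x, f x ∂(μ.withDensity χ') := by
  have h1 : (μ.withDensity χ).map f = (μ.withDensity χ').map f := by
    ext B hB
    rw [Measure.map_apply hf hB, Measure.map_apply hf hB, ← lintegral_indicator_one (hf hB),
      ← lintegral_indicator_one (hf hB)]
    refine h.lintegral_eq μ h' (measurable_one.indicator (hf hB)) fun g x => ?_
    by_cases hx : f x ∈ B
    · rw [Set.indicator_of_mem (show g • x ∈ f ⁻¹' B by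
        rw [Set.mem_preimage, hinv]; exact hx), Set.indicator_of_mem (show x ∈ f ⁻¹' B from hx)]
      rfl
    · rw [Set.indicator_of_notMem (show g • x ∉ f ⁻¹' B by
        rw [Set.mem_preimage, hinv]; exact hx), Set.indicator_of_notMem (show x ∉ f ⁻¹' B from hx)]
  have h2 : ∀ ν : Measure X, ∫ x, f x ∂ν = ∫ y, y ∂(ν.map f) := fun ν =>
    (integral_map hf.aemeasurable (f := fun y : E => y) aestronglyMeasurable_id).symm
  rw [h2, h2, h1]

theorem IsCutoff.integrable_iff {χ χ' : X → ℝ≥0∞} (h : IsCutoff G χ) (h' : IsCutoff G χ')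
    {f : X → E} (hf : Measurable f) (hinv : ∀ (g : G) x, f (g • x) = f x) :
    Integrable f (μ.withDensity χ) ↔ Integrable f (μ.withDensity χ') := by
  rw [Integrable, Integrable, HasFiniteIntegral, HasFiniteIntegral,
    h.lintegral_eq μ h' hf.enorm fun g x => by rw [hinv]]
  exact and_congr_left fun _ => ⟨fun _ => hf.aestronglyMeasurable, fun _ => hf.aestronglyMeasurable⟩

end Indep

/-! ### Unfolding over orbits -/

section Unfold

variable {G X D I : Type*} [Group G] [Countable G] [MulAction G X] [MulAction G D]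
  [MeasurableSpace X] [MeasurableConstSMul G X] (μ : Measure X) [SMulInvariantMeasure G X μ]

open Classical in
/-- the weight on `D × X` given by cut-offs of the stabilisers of the representatives -/
def orbW (r : I → D) (χ : I → X → ℝ≥0∞) (d : D) (x : X) : ℝ≥0∞ :=
  if h : ∃ i, r i = d then χ h.choose x else 0

theorem orbW_of (r : I → D) (hr : Function.Injective r) (χ : I → X → ℝ≥0∞) (i : I) (x : X) :
    orbW r χ (r i) x = χ i x := by
  classical
  have h : ∃ j, r j = r i := ⟨i, rfl⟩
  rw [orbW, dif_pos h, hr h.choose_spec]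

theorem orbW_sum' (r : I → D) (hr : Function.Injective r) (χ : I → X → ℝ≥0∞)
    (huniq : ∀ i j, (∃ g : G, g • r i = r j) → i = j) {d : D} {i : I} {g₀ : G}
    (hg₀ : g₀ • d = r i) {x : X}
    (hχ : ∑' k : MulAction.stabilizer G (r i), χ i (k • g₀ • x) = 1) :
    ∑' g : G, orbW r χ (g • d) (g • x) = 1 := by
  classical
  rw [← hχ]
  have h1 : ∀ g : G, orbW r χ (g • d) (g • x) ≠ 0 → g * g₀⁻¹ ∈ MulAction.stabilizer G (r i) := by
    intro g hg
    rw [orbW] at hg
    split_ifs at hg with h
    · have h2 := h.choose_spec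
      have h3 : i = h.choose := huniq _ _ ⟨g * g₀⁻¹, by
        rw [← hg₀, smul_smul, inv_mul_cancel_right, h2]⟩
      rw [MulAction.mem_stabilizer_iff]
      nth_rewrite 1 [← hg₀]
      rw [smul_smul, inv_mul_cancel_right, ← h2, ← h3]
    · exact absurd rfl hg
  let e : MulAction.stabilizer G (r i) → G := fun k => k * g₀
  have he : Function.Injective e := fun k k' h => Subtype.ext (mul_right_cancel h)
  rw [← he.tsum_eq (f := fun g : G => orbW r χ (g • d) (g • x))]
  · refine tsum_congr fun k => ?_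
    show orbW r χ (((k : G) * g₀) • d) (((k : G) * g₀) • x) = _
    rw [mul_smul, hg₀, MulAction.mem_stabilizer_iff.mp k.2, mul_smul, orbW_of r hr]
    rfl
  · intro g hg
    exact ⟨⟨g * g₀⁻¹, h1 g hg⟩, inv_mul_cancel_right _ _⟩

theorem orbW_sum (r : I → D) (hr : Function.Injective r) (χ : I → X → ℝ≥0∞)
    (hχ : ∀ i, IsCutoff (MulAction.stabilizer G (r i)) (χ i))
    (huniq : ∀ i j, (∃ g : G, g • r i = r j) → i = j) {d : D} {i : I}
    (hd : ∃ g : G, g • d = r i) (x : X) : ∑' g : G, orbW r χ (g • d) (g • x) = 1 := by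
  obtain ⟨g₀, hg₀⟩ := hd
  exact orbW_sum' r hr χ huniq hg₀ ((hχ i).sum _)

theorem measurable_orbW (r : I → D) (χ : I → X → ℝ≥0∞) (hχ : ∀ i, Measurable (χ i)) (d : D) :
    Measurable (orbW r χ d) := by
  classical
  by_cases h : ∃ i, r i = d
  · have : orbW r χ d = χ h.choose := by funext x; rw [orbW, dif_pos h]
    rw [this]; exact hχ _
  · have : orbW r χ d = fun _ => 0 := by funext x; rw [orbW, dif_neg h]
    rw [this]; exact measurable_const

/-- **Unfolding over orbits**, non-negative functions. -/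
theorem unfold_lintegral {χ : X → ℝ≥0∞} (hχ : IsCutoff G χ) (r : I → D) (χr : I → X → ℝ≥0∞)
    (hχr : ∀ i, IsCutoff (MulAction.stabilizer G (r i)) (χr i))
    (huniq : ∀ i j, (∃ g : G, g • r i = r j) → i = j)
    {F : D → X → ℝ≥0∞} (hF : ∀ d, Measurable (F d))
    (hinv : ∀ (g : G) d x, F (g • d) (g • x) = F d x)
    (hex : ∀ d x, F d x ≠ 0 → ∃ i, ∃ g : G, g • d = r i) :
    ∑' d, ∫⁻ x, F d x ∂(μ.withDensity χ) = ∑' i, ∫⁻ x, F (r i) x ∂(μ.withDensity (χr i)) := by
  have hr : Function.Injective r := fun i j h => huniq i j ⟨1, by rw [one_smul, h]⟩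
  have h1 := lintegral_transfer (G := G) μ (D := D) (w := fun _ => χ) (w' := orbW r χr)
    (fun _ => hχ.meas) (measurable_orbW r χr fun i => (hχr i).meas) hF hinv
    (fun _ x _ => hχ.sum x) (fun d x h => by
      obtain ⟨i, hi⟩ := hex d x h
      exact orbW_sum r hr χr hχr huniq hi x)
  rw [← hr.tsum_eq (f := fun d => ∫⁻ x, orbW r χr d x * F d x ∂μ)] at h1
  · rw [tsum_congr fun d => lintegral_withDensity_eq_lintegral_mul _ hχ.meas (hF d),
      tsum_congr fun i => lintegral_withDensity_eq_lintegral_mul _ (hχr i).meas (hF (r i))]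
    refine h1.trans (tsum_congr fun i => lintegral_congr fun x => ?_)
    rw [orbW_of r hr]
    rfl
  · intro d hd
    by_contra h
    apply hd
    have h2 : ∀ x, orbW r χr d x * F d x = 0 := fun x => by
      rw [orbW, dif_neg (fun ⟨i, hi⟩ => h ⟨i, hi⟩), zero_mul]
    show ∫⁻ x, orbW r χr d x * F d x ∂μ = 0
    rw [lintegral_congr h2, lintegral_zero]

variable {E : Type*} [NormedAddCommGroup E] [NormedSpace ℝ E] [MeasurableSpace E] [BorelSpace E]
  [SecondCountableTopology E]

/-- **Unfolding over orbits.** -/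
theorem unfold_integral {χ : X → ℝ≥0∞} (hχ : IsCutoff G χ) (r : I → D) (χr : I → X → ℝ≥0∞)
    (hχr : ∀ i, IsCutoff (MulAction.stabilizer G (r i)) (χr i))
    (huniq : ∀ i j, (∃ g : G, g • r i = r j) → i = j)
    {f : D → X → E} (hf : ∀ d, Measurable (f d))
    (hinv : ∀ (g : G) d x, f (g • d) (g • x) = f d x)
    (hex : ∀ d x, f d x ≠ 0 → ∃ i, ∃ g : G, g • d = r i)
    (hint : ∑' d, ∫⁻ x, ‖f d x‖ₑ ∂(μ.withDensity χ) ≠ ⊤) :
    (∀ i, Integrable (f (r i)) (μ.withDensity (χr i))) ∧
    ∃ J : E, HasSum (fun d => ∫ x, f d x ∂(μ.withDensity χ)) J ∧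
      HasSum (fun i => ∫ x, f (r i) x ∂(μ.withDensity (χr i))) J := by
  have hr : Function.Injective r := fun i j h => huniq i j ⟨1, by rw [one_smul, h]⟩
  obtain ⟨h0, J, h1, h2⟩ := integral_transfer (G := G) μ (D := D) (w := fun _ => χ)
    (w' := orbW r χr)
    (fun _ => hχ.meas) (measurable_orbW r χr fun i => (hχr i).meas) hf hinv
    (fun _ x _ => hχ.sum x) (fun d x h => by
      obtain ⟨i, hi⟩ := hex d x h
      exact orbW_sum r hr χr hχr huniq hi x) (by
      refine ne_of_eq_of_ne (tsum_congr fun d => ?_) hint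
      rw [lintegral_withDensity_eq_lintegral_mul _ hχ.meas (hf d).enorm]
      rfl)
  have h3 : ∀ i, orbW r χr (r i) = χr i := fun i => funext fun x => orbW_of r hr χr i x
  refine ⟨fun i => ?_, J, h1, ?_⟩
  · have := h0 (r i)
    rwa [h3] at this
  · rw [← hr.hasSum_iff (f := fun d => ∫ x, f d x ∂(μ.withDensity (orbW r χr d)))] at h2
    · convert h2 using 2 with i
      show _ = ∫ x, f (r i) x ∂(μ.withDensity (orbW r χr (r i)))
      rw [h3]
    · intro d hd
      have h4 : orbW r χr d = 0 := by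
        funext x
        rw [orbW, dif_neg (fun ⟨i, hi⟩ => hd ⟨i, hi⟩)]
        rfl
      rw [h4, withDensity_zero, integral_zero_measure]

/-- **Unfolding over orbits**, with weights which are cut-offs only on the support. -/
theorem unfold_integral' {χ : X → ℝ≥0∞} (hχ : IsCutoff G χ) (r : I → D) (χr : I → X → ℝ≥0∞)
    (hχm : ∀ i, Measurable (χr i))
    (huniq : ∀ i j, (∃ g : G, g • r i = r j) → i = j)
    {f : D → X → E} (hf : ∀ d, Measurable (f d))
    (hinv : ∀ (g : G) d x, f (g • d) (g • x) = f d x)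
    (hex : ∀ d x, f d x ≠ 0 → ∃ i, ∃ g : G, g • d = r i)
    (hχr : ∀ i x, f (r i) x ≠ 0 → ∑' k : MulAction.stabilizer G (r i), χr i (k • x) = 1)
    (hint : ∑' d, ∫⁻ x, ‖f d x‖ₑ ∂(μ.withDensity χ) ≠ ⊤) :
    (∀ i, Integrable (f (r i)) (μ.withDensity (χr i))) ∧
    ∃ J : E, HasSum (fun d => ∫ x, f d x ∂(μ.withDensity χ)) J ∧
      HasSum (fun i => ∫ x, f (r i) x ∂(μ.withDensity (χr i))) J := by
  have hr : Function.Injective r := fun i j h => huniq i j ⟨1, by rw [one_smul, h]⟩
  obtain ⟨h0, J, h1, h2⟩ := integral_transfer (G := G) μ (D := D) (w := fun _ => χ)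
    (w' := orbW r χr)
    (fun _ => hχ.meas) (measurable_orbW r χr hχm) hf hinv
    (fun _ x _ => hχ.sum x) (fun d x h => by
      obtain ⟨i, g₀, hg₀⟩ := hex d x h
      refine orbW_sum' r hr χr huniq hg₀ (hχr i _ ?_)
      rwa [← hg₀, hinv]) (by
      refine ne_of_eq_of_ne (tsum_congr fun d => ?_) hint
      rw [lintegral_withDensity_eq_lintegral_mul _ hχ.meas (hf d).enorm]
      rfl)
  have h3 : ∀ i, orbW r χr (r i) = χr i := fun i => funext fun x => orbW_of r hr χr i x
  refine ⟨fun i => ?_, J, h1, ?_⟩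
  · have := h0 (r i)
    rwa [h3] at this
  · rw [← hr.hasSum_iff (f := fun d => ∫ x, f d x ∂(μ.withDensity (orbW r χr d)))] at h2
    · convert h2 using 2 with i
      show _ = ∫ x, f (r i) x ∂(μ.withDensity (orbW r χr (r i)))
      rw [h3]
    · intro d hd
      have h4 : orbW r χr d = 0 := by
        funext x
        rw [orbW, dif_neg (fun ⟨i, hi⟩ => hd ⟨i, hi⟩)]
        rfl
      rw [h4, withDensity_zero, integral_zero_measure]

end Unfold

end Fermat.Agent.H94U
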