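import Fermat.Agent.H17S1
import Fermat.Agent.H32ZCut
import Fermat.Agent.H32ZHS
import Fermat.Agent.H94UCut

/-!
# S47, block (C): automorphic kernels of controlled kernels (helper17, C-OPS)

* `CK.autK_eq_sum`, `CK.measurable_autK`, `CK.lb_autK`;
* `CK.integral_autK`: `∫ autK k x y * f y dν = act k f x`;
* `autK_comp_right`, `autK_comp_left`, `autK_comp`;
* `BK` statements for compositions;
* `Tw`: twists; `Tw.integral_comp`, `Tw.integral_autK`, `Tw.BK_autK`, trace integrals.
-/

set_option autoImplicit false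
set_option linter.unusedSectionVars false

noncomputable section

open MeasureTheory Set Filter
open scoped ENNReal ComplexConjugate

namespace Fermat.Agent.H17S

open Fermat.Agent.H32Z Fermat.Agent.H32Z.CutOff

variable {G X : Type*} [Group G] [MulAction G X] [MeasurableSpace X] {μ : Measure X}
  {𝒞 : Coarse G μ} {k l m : X → X → ℂ}

/-! ### Finiteness of the sums -/

theorem CK.finite_supp (hk : CK 𝒞 k) (p q : X) : {g : G | k p (g • q) ≠ 0}.Finite := by
  obtain ⟨S, hS, h⟩ := hk.ctl
  exact (𝒞.fin hS p q).subset fun g hg => h p (g • q) hg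

theorem CK.autK_eq_sum (k : X → X → ℂ) (p q : X) {F : Finset G}
    (hF : ∀ g, k p (g • q) ≠ 0 → g ∈ F) : autK G k p q = ∑ g ∈ F, k p (g • q) := by
  unfold autK
  refine tsum_eq_sum fun g hg => ?_
  by_contra h
  exact hg (hF g h)

theorem CK.summable_autK (hk : CK 𝒞 k) (p q : X) : Summable fun g : G => k p (g • q) :=
  summable_of_hasFiniteSupport (hk.finite_supp p q)

theorem autK_add (hk : CK 𝒞 k) (hl : CK 𝒞 l) (p q : X) :
    autK G (fun p q => k p q + l p q) p q = autK G k p q + autK G l p q :=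
  (hk.summable_autK p q).tsum_add (hl.summable_autK p q)

theorem autK_const_mul (a : ℂ) (k : X → X → ℂ) (p q : X) :
    autK G (fun p q => a * k p q) p q = a * autK G k p q := tsum_mul_left

theorem autK_sum {ι : Type*} (s : Finset ι) {k : ι → X → X → ℂ} (hk : ∀ i ∈ s, CK 𝒞 (k i))
    (p q : X) : autK G (fun p q => ∑ i ∈ s, k i p q) p q = ∑ i ∈ s, autK G (k i) p q := by
  unfold autK
  exact Summable.tsum_finsetSum fun i hi => (hk i hi).summable_autK p q

/-! ### Symmetries -/

theorem autK_star (hk : ∀ (g : G) p q, k (g • p) (g • q) = k p q) (p q : X) :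
    conj (autK G k q p) = autK G (fun p q => conj (k q p)) p q := by
  unfold autK
  rw [Complex.conj_tsum, ← (Equiv.inv G).tsum_eq (fun g : G => conj (k q (g • p)))]
  refine tsum_congr fun g => ?_
  rw [← hk g q]
  simp

theorem autK_tr (hk : ∀ (g : G) p q, k (g • p) (g • q) = k p q) (p q : X) :
    autK G k q p = autK G (fun p q => k q p) p q := by
  unfold autK
  rw [← (Equiv.inv G).tsum_eq (fun g : G => k q (g • p))]
  refine tsum_congr fun g => ?_
  rw [← hk g q]
  simp

section

variable [Countable G] [MeasurableConstSMul G X]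

theorem CK.measurable_autK (hk : CK 𝒞 k) : Measurable (Function.uncurry (autK G k)) :=
  Measurable.tsum fun g : G => hk.meas.comp
    (measurable_fst.prodMk ((measurable_const_smul g).comp measurable_snd))

theorem CK.measurable_autK_left (hk : CK 𝒞 k) (r : X) : Measurable fun q => autK G k q r :=
  hk.measurable_autK.comp (measurable_id.prodMk measurable_const)

theorem CK.measurable_autK_right (hk : CK 𝒞 k) (p : X) : Measurable fun q => autK G k p q :=
  hk.measurable_autK.comp (measurable_const.prodMk measurable_id)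

/-- the automorphic kernel is locally bounded in the first variable -/
theorem CK.lb_autK (hk : CK 𝒞 k) (r : X) : LB 𝒞 (fun q => autK G k q r) where
  meas := hk.measurable_autK_left r
  lb S hS p := by
    classical
    obtain ⟨T, hT, hs⟩ := hk.ctl
    obtain ⟨U, hU, hSTU⟩ := 𝒞.comp hS hT
    obtain ⟨B, hB, hkB⟩ := hk.bdd
    have hfin := 𝒞.fin hU p r
    refine ⟨hfin.toFinset.card * B, by positivity, fun q hq => ?_⟩
    rw [CK.autK_eq_sum k q r (F := hfin.toFinset) fun g hg => by
      rw [Set.Finite.mem_toFinset]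
      exact hSTU p q (g • r) hq (hs q (g • r) hg)]
    refine (norm_sum_le _ _).trans ((Finset.sum_le_sum fun g _ => hkB q (g • r)).trans ?_)
    rw [Finset.sum_const, nsmul_eq_mul]

/-- the automorphic kernel is locally bounded in the second variable -/
theorem CK.lb_autK_right (hk : CK 𝒞 k) (r : X) : LB 𝒞 (fun q => autK G k r q) := by
  have h := hk.tr.lb_autK r
  refine ⟨hk.measurable_autK_right r, fun S hS p => ?_⟩
  obtain ⟨B, hB, h1⟩ := h.lb S hS p
  exact ⟨B, hB, fun q hq => by rw [autK_tr hk.inv q r]; exact h1 q hq⟩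

end

/-! ### Integrals -/

section

variable [Countable G] [MeasurableConstSMul G X] [SMulInvariantMeasure G X μ] (c : CutOff G X)

/-- Integrals of invariant functions against the automorphic kernel. -/
theorem CK.integral_autK (hk : CK 𝒞 k) {f : X → ℂ} (hf : LB 𝒞 f)
    (hinv : ∀ (g : G) x, f (g • x) = f x) (x : X) :
    ∫ y, autK G k x y * f y ∂(c.ν μ) = act μ k f x :=
  (c.integral_autK hinv (hk.integrable_mul x hf)).symm

theorem CK.integrable_autK (hk : CK 𝒞 k) {f : X → ℂ} (hf : LB 𝒞 f)
    (hinv : ∀ (g : G) x, f (g • x) = f x) (x : X) :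
    Integrable (fun y => autK G k x y * f y) (c.ν μ) :=
  c.integrable_autK hinv (hk.integrable_mul x hf)

omit [Countable G] [MeasurableConstSMul G X] [SMulInvariantMeasure G X μ] in
theorem autK_comp_right (hk : CK 𝒞 k) (hl : CK 𝒞 l) (p r : X) :
    autK G (comp μ k l) p r = act μ k (fun q => autK G l q r) p := by
  classical
  obtain ⟨S, hS, hks⟩ := hk.ctl
  obtain ⟨T, hT, hls⟩ := hl.ctl
  obtain ⟨U, hU, hSTU⟩ := 𝒞.comp hS hT
  have hfin := 𝒞.fin hU p r
  have h0 : ∀ g : G, g ∉ hfin.toFinset → ∀ q, k p q * l q (g • r) = 0 := by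
    intro g hg q
    by_contra h
    apply hg
    rw [Set.Finite.mem_toFinset]
    exact hSTU p q (g • r) (hks p q (left_ne_zero_of_mul h)) (hls q (g • r) (right_ne_zero_of_mul h))
  rw [CK.autK_eq_sum (comp μ k l) p r (F := hfin.toFinset) fun g hg => by
    by_contra hcon
    apply hg
    unfold comp
    simp [h0 g hcon]]
  unfold act comp
  rw [← integral_finsetSum]
  · refine integral_congr_ae (Filter.Eventually.of_forall fun q => ?_)
    show ∑ g ∈ hfin.toFinset, k p q * l q (g • r) = k p q * autK G l q r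
    unfold autK
    rw [← tsum_mul_left]
    exact (tsum_eq_sum fun g hg => h0 g hg q).symm
  · intro g _
    exact hk.integrable_mul p (hl.lb_left (g • r))

omit [Countable G] in
theorem autK_comp_left (hk : CK 𝒞 k) (hl : CK 𝒞 l) (p r : X) :
    autK G (comp μ k l) p r = ∫ q, autK G k p q * l q r ∂μ := by
  classical
  obtain ⟨S, hS, hks⟩ := hk.ctl
  obtain ⟨T, hT, hls⟩ := hl.ctl
  obtain ⟨U, hU, hSTU⟩ := 𝒞.comp hS hT
  have hfin := 𝒞.fin hU p r
  have h0 : ∀ g : G, g ∉ hfin.toFinset → ∀ q, k p (g • q) * l q r = 0 := by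
    intro g hg q
    by_contra h
    apply hg
    rw [Set.Finite.mem_toFinset]
    refine hSTU p (g • q) (g • r) (hks p _ (left_ne_zero_of_mul h)) (hls (g • q) (g • r) ?_)
    rw [hl.inv]
    exact right_ne_zero_of_mul h
  have h1 : ∀ g : G, comp μ k l p (g • r) = ∫ q, k p (g • q) * l q r ∂μ := by
    intro g
    unfold comp
    rw [← integral_smul_eq_self (μ := μ) (fun q => k p q * l q (g • r)) (g := g)]
    refine integral_congr_ae (Filter.Eventually.of_forall fun q => ?_)
    show k p (g • q) * l (g • q) (g • r) = _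
    rw [hl.inv]
  rw [CK.autK_eq_sum (comp μ k l) p r (F := hfin.toFinset) fun g hg => by
    by_contra hcon
    apply hg
    rw [h1]
    simp [h0 g hcon]]
  simp only [h1]
  rw [← integral_finsetSum]
  · refine integral_congr_ae (Filter.Eventually.of_forall fun q => ?_)
    show ∑ g ∈ hfin.toFinset, k p (g • q) * l q r = autK G k p q * l q r
    unfold autK
    rw [← tsum_mul_right]
    exact (tsum_eq_sum fun g hg => h0 g hg q).symm
  · intro g _
    have h2 := integrable_smul (hk.integrable_mul p (hl.lb_left (g • r))) g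
    refine h2.congr (Filter.Eventually.of_forall fun q => ?_)
    show k p (g • q) * l (g • q) (g • r) = _
    rw [hl.inv]

/-- **Composition of automorphic kernels.** -/
theorem autK_comp' (hk : CK 𝒞 k) (hl : CK 𝒞 l) (p r : X) :
    autK G (comp μ k l) p r = ∫ q, autK G k p q * autK G l q r ∂(c.ν μ) := by
  rw [autK_comp_right hk hl, hk.integral_autK c (hl.lb_autK r)
    fun g x => autK_smul_left hl.inv x r g]

/-! ### Boundedness -/

/-- the automorphic kernel is bounded -/
def Bd (G : Type*) {X : Type*} [Group G] [MulAction G X] (k : X → X → ℂ) : Prop :=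
  ∃ B : ℝ, 0 ≤ B ∧ ∀ p q, ‖autK G k p q‖ ≤ B

theorem Bd.BK (hk : CK 𝒞 k) (h : Bd G k) : BK (autK G k) := ⟨hk.measurable_autK, h⟩

omit [Countable G] [MeasurableConstSMul G X] [SMulInvariantMeasure G X μ] in
theorem Bd.tr (hk : CK 𝒞 k) (h : Bd G k) : Bd G (fun p q => k q p) := by
  obtain ⟨B, hB, h1⟩ := h
  exact ⟨B, hB, fun p q => by rw [← autK_tr hk.inv]; exact h1 q p⟩

omit [Countable G] [MeasurableConstSMul G X] [SMulInvariantMeasure G X μ] in
theorem Bd.add (hk : CK 𝒞 k) (hl : CK 𝒞 l) (h : Bd G k) (h' : Bd G l) :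
    Bd G (fun p q => k p q + l p q) := by
  obtain ⟨B, hB, h1⟩ := h
  obtain ⟨B', hB', h1'⟩ := h'
  refine ⟨B + B', add_nonneg hB hB', fun p q => ?_⟩
  rw [autK_add hk hl]
  exact (norm_add_le _ _).trans (add_le_add (h1 p q) (h1' p q))

omit [Countable G] [MeasurableConstSMul G X] [SMulInvariantMeasure G X μ] in
theorem Bd.const_mul (h : Bd G k) (a : ℂ) : Bd G (fun p q => a * k p q) := by
  obtain ⟨B, hB, h1⟩ := h
  refine ⟨‖a‖ * B, by positivity, fun p q => ?_⟩
  rw [autK_const_mul, norm_mul]
  exact mul_le_mul_of_nonneg_left (h1 p q) (norm_nonneg _)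

omit [Countable G] in
/-- `K_{k l}` is bounded if `K_k` is. -/
theorem Bd.comp_left (hk : CK 𝒞 k) (hl : CK 𝒞 l) (h : Bd G k) : Bd G (comp μ k l) := by
  obtain ⟨B, hB, h1⟩ := h
  obtain ⟨C, hC, h2⟩ := hl.exists_col_le
  refine ⟨B * C, by positivity, fun p r => ?_⟩
  rw [autK_comp_left hk hl]
  refine (norm_integral_le_of_norm_le ((hl.integrable_left r).norm.const_mul B)
    (Filter.Eventually.of_forall fun q => ?_)).trans ?_
  · rw [norm_mul]
    exact mul_le_mul_of_nonneg_right (h1 p q) (norm_nonneg _)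
  · rw [integral_const_mul]
    exact mul_le_mul_of_nonneg_left (h2 r) hB

omit [Countable G] [MeasurableConstSMul G X] [SMulInvariantMeasure G X μ] in
/-- `K_{l k}` is bounded if `K_k` is. -/
theorem Bd.comp_right (hk : CK 𝒞 k) (hl : CK 𝒞 l) (h : Bd G k) : Bd G (comp μ l k) := by
  obtain ⟨B, hB, h1⟩ := h
  obtain ⟨C, hC, h2⟩ := hl.exists_row_le
  refine ⟨B * C, by positivity, fun p r => ?_⟩
  rw [autK_comp_right hl hk]
  refine (norm_integral_le_of_norm_le ((hl.integrable p).norm.const_mul B)
    (Filter.Eventually.of_forall fun q => ?_)).trans ?_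
  · show ‖l p q * autK G k q r‖ ≤ B * ‖l p q‖
    rw [norm_mul, mul_comm]
    exact mul_le_mul_of_nonneg_right (h1 q r) (norm_nonneg _)
  · rw [integral_const_mul]
    exact mul_le_mul_of_nonneg_left (h2 p) hB

end

/-! ### Twists -/

/-- A twist: a measure preserving bijection of `X`, semilinear with respect to an automorphism of
`G`. -/
structure Tw (G : Type*) {X : Type*} [Group G] [MulAction G X] [MeasurableSpace X]
    (μ : Measure X) where
  /-- the bijection -/
  s : X ≃ᵐ X
  /-- the automorphism -/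
  σ : G ≃* G
  smul : ∀ (g : G) (x : X), s (g • x) = σ g • s x
  mp : MeasurePreserving s μ μ

namespace Tw

variable (t : Tw G μ)

theorem symm_smul (g : G) (x : X) : t.s.symm (g • x) = t.σ.symm g • t.s.symm x := by
  apply t.s.injective
  rw [t.smul]
  simp

/-- the trivial twist -/
def refl (G : Type*) {X : Type*} [Group G] [MulAction G X] [MeasurableSpace X]
    (μ : Measure X) : Tw G μ where
  s := MeasurableEquiv.refl X
  σ := MulEquiv.refl G
  smul _ _ := rfl
  mp := MeasurePreserving.id μ

@[simp] theorem refl_s (x : X) : (refl G μ).s x = x := rfl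

@[simp] theorem refl_symm_s (x : X) : (refl G μ).s.symm x = x := rfl

/-- the transported cut-off -/
def cut (c : CutOff G X) : CutOff G X where
  χ x := c.χ (t.s.symm x)
  meas := c.meas.comp t.s.symm.measurable
  sum_eq x := by
    rw [← c.sum_eq (t.s.symm x), ← t.σ.symm.toEquiv.tsum_eq (fun g : G => c.χ (g • t.s.symm x))]
    refine tsum_congr fun g => ?_
    rw [t.symm_smul]
    rfl

variable [Countable G] [MeasurableConstSMul G X] [SMulInvariantMeasure G X μ] (c : CutOff G X)

/-- Integrals of invariant functions are invariant under the twist. -/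
theorem integral_comp {F : X → ℂ} (hF : Measurable F) (hinv : ∀ (g : G) x, F (g • x) = F x) :
    ∫ x, F (t.s x) ∂(c.ν μ) = ∫ x, F x ∂(c.ν μ) := by
  have h1 : ∫ x, F x ∂(c.ν μ) = ∫ x, F x ∂((t.cut c).ν μ) :=
    H94U.IsCutoff.integral_eq (G := G) μ (χ := c.χ) (χ' := (t.cut c).χ) ⟨c.meas, c.sum_eq⟩
      ⟨(t.cut c).meas, (t.cut c).sum_eq⟩ hF hinv
  rw [h1, c.integral_ν, (t.cut c).integral_ν,
    ← t.mp.integral_comp t.s.measurableEmbedding (fun x => ((t.cut c).χ x).toReal • F x)]
  refine integral_congr_ae (Filter.Eventually.of_forall fun x => ?_)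
  show (c.χ x).toReal • F (t.s x) = ((t.cut c).χ (t.s x)).toReal • F (t.s x)
  unfold cut
  simp

omit [Countable G] [MeasurableConstSMul G X] [SMulInvariantMeasure G X μ] in
theorem comp_symm_invariant {f : X → ℂ} (hf : ∀ (g : G) x, f (g • x) = f x) (g : G) (x : X) :
    f (t.s.symm (g • x)) = f (t.s.symm x) := by
  rw [t.symm_smul, hf]

/-- The kernel `M(x, y) = K_k(x, s y)` represents `f ↦ k (f ∘ s⁻¹)`. -/
theorem integral_autK (hk : CK 𝒞 k) {f : X → ℂ} (hf : Measurable f)
    (hinv : ∀ (g : G) x, f (g • x) = f x) (hlb : LB 𝒞 (fun x => f (t.s.symm x))) (x : X) :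
    ∫ y, autK G k x (t.s y) * f y ∂(c.ν μ) = act μ k (fun x => f (t.s.symm x)) x := by
  rw [← hk.integral_autK c hlb (t.comp_symm_invariant hinv) x,
    ← t.integral_comp c (F := fun y => autK G k x y * f (t.s.symm y))
      ((hk.measurable_autK_right x).mul (hf.comp t.s.symm.measurable)) (fun g y => by
        rw [t.comp_symm_invariant hinv, autK_smul_right])]
  refine integral_congr_ae (Filter.Eventually.of_forall fun y => ?_)
  show _ = autK G k x (t.s y) * f (t.s.symm (t.s y))
  rw [t.s.symm_apply_apply]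

omit [SMulInvariantMeasure G X μ] in
theorem BK_autK (hk : CK 𝒞 k) (h : Bd G k) : BK (fun x y => autK G k x (t.s y)) where
  meas := hk.measurable_autK.comp (measurable_fst.prodMk (t.s.measurable.comp measurable_snd))
  bdd := by
    obtain ⟨B, hB, h1⟩ := h
    exact ⟨B, hB, fun x y => h1 x (t.s y)⟩

/-- **The trace integral.** -/
theorem trace_integral (hk : CK 𝒞 k) (hl : CK 𝒞 l) :
    ∫ x, ∫ y, autK G k x y * autK G l y (t.s x) ∂(c.ν μ) ∂(c.ν μ) =
      ∫ x, autK G (comp μ k l) x (t.s x) ∂(c.ν μ) := by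
  refine integral_congr_ae (Filter.Eventually.of_forall fun x => ?_)
  exact (autK_comp' c hk hl x (t.s x)).symm

end Tw

end Fermat.Agent.H17S
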