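import Fermat.Agent.H86B1
import Fermat.Agent.H31I3
import Fermat.Agent.H26ZCut
import Fermat.Agent.H17S2
import Fermat.Agent.H56ZRad3

/-!
# Bounded kernel on the model (helper86)

`m : Model K J`, `a` a Lipschitz radial kernel (class `H95S.Ker`), `c` a kernel on `m.X` of finite
range.  The automorphic kernel of `R(a)^k c` is bounded for `k ≥ 8 * card J` provided the constant
terms of the automorphic kernel of `R(a) c` vanish.

* `actJ`, `isoM`, `pdM`: the action on `J → H3` and its properties;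
* `TK.ofRange`: kernels of finite range are of class `TK`;
* `CuspAll`: vanishing of constant terms in the shape used by the consumers;
* `bd_cn`: the bounded kernel theorem on the model;
* `PK`: finite sums of pure kernels, `cn_PK`: iterates, `bd_PK`.
-/

set_option autoImplicit false
set_option linter.unusedSectionVars false

noncomputable section

open MeasureTheory NumberField Matrix
open scoped ComplexConjugate Real MatrixGroups

namespace Fermat.Agent.H86B

open Fermat.Agent.H3 Fermat.Agent.H95S Fermat.Agent.H59D Fermat.Agent.H59XF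

variable {K : Type*} [Field K] [NumberField K] {J : Type*} [Fintype J] (m : Model K J)

/-- the action of `PGL₂(K)` on `J → H3` attached to the model -/
@[reducible] def actJ : MulAction PGL(2, K) (J → H3) where
  smul g x := m.actInf g x
  one_smul x := funext fun j => by
    show ProjGenLinGroup.map (m.e j) (1 : PGL(2, K)) • x j = _
    rw [map_one, one_smul]
  mul_smul g h x := funext fun j => by
    show ProjGenLinGroup.map (m.e j) (g * h) • x j = _
    rw [map_mul, mul_smul]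
    rfl

theorem isoM : @Iso PGL(2, K) _ J _ (actJ m) :=
  let _ := actJ m
  { ch_smul := fun _ _ _ _ => H59D.ch_smul _ _ _
    mp := fun g => m.measurePreserving_actInf g }

theorem pdM : @PD PGL(2, K) _ J _ (XF m.L.fam) (actJ m) _ := by
  let _ := actJ m
  intro η ξ w w' T
  exact H31I.finite_pd m ξ η T w w'

variable {m}

theorem TK.ofRange {c : (J → H3) × XF m.L.fam → (J → H3) × XF m.L.fam → ℂ} {Tc Bc : ℝ}
    (hc : H31I.FinRange m c Tc Bc)
    (hinv : ∀ (g : PGL(2, K)) (x y : m.X), c (g • x) (g • y) = c x y)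
    (hmeas : ∀ η y, Measurable fun v => c (v, η) y) :
    @TK J (XF m.L.fam) PGL(2, K) _ (actJ m) _ c :=
  let _ := actJ m
  { inv := hinv
    meas := hmeas
    bdd := ⟨|Bc|, abs_nonneg _, fun x y => (hc.bdd x y).trans (le_abs_self _)⟩
    loc := fun R => ⟨3 * max Tc 1 * R, fun x y hx hne =>
      mem_D_of_box (le_max_right _ _) hx fun j => (hc.ch_le x y hne j).trans (le_max_left _ _)⟩
    fin := hc.fin }

/-- All constant terms (at all points of `XF`) of the automorphic kernel of `k` vanish. -/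
def CuspAll (m : Model K J) (k : m.X → m.X → ℂ) : Prop :=
  ∀ η : XF m.L.fam, ∃ δ : ℝ, ∀ x' : m.X, ∃ P : Set (J → ℂ), MeasurableSet P ∧ 0 < volume P ∧
    (∀ u ∈ P, ∀ j, ‖u j‖ ≤ δ) ∧
    ∀ w : J → H3, ∫ u in P, H32Z.CutOff.autK PGL(2, K) k ((tr u w, η) : m.X) x' = 0

theorem nonemptyJ (m : Model K J) : Nonempty J :=
  ⟨(m.e_bij.2 (Classical.arbitrary (InfinitePlace K))).choose⟩

/-- **Bounded kernel theorem on the model.** -/
theorem bd_cn {κ : (J → ℝ) → ℂ} {T L M : ℝ} (h : Ker κ T L M)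
    {c : (J → H3) × XF m.L.fam → (J → H3) × XF m.L.fam → ℂ} {Tc Bc : ℝ}
    (hc : H31I.FinRange m c Tc Bc)
    (hinv : ∀ (g : PGL(2, K)) (x y : m.X), c (g • x) (g • y) = c x y)
    (hmeas : ∀ η y, Measurable fun v => c (v, η) y) (k : ℕ)
    (hs : ∀ x y, cn κ c k y x = conj (cn κ c k x y)) (hcusp : CuspAll m (cn κ c 1))
    (hk : 8 * Fintype.card J ≤ k) : H17S.Bd PGL(2, K) (X := m.X) (cn κ c k) := by
  let _ := actJ m
  have hTC := H35BK.isTotallyComplex m
  have hJ : Nonempty J := nonemptyJ m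
  have hJ0 : 0 < Fintype.card J := Fintype.card_pos
  obtain ⟨Y0, c0, C0, R0, hY0, hc0, hC0, hR0, hcov⟩ := H26Z.exists_covers m
  obtain ⟨Y1, hY1, B, c1, hB, hc1, hbal, hred⟩ :=
    H35BK.geom m ⟨Y0, hY0, c0, C0, R0, hc0, hC0, hR0, fun x => hcov x⟩
  choose δ hδ using hcusp
  have hcusp' : ∀ x' : (J → H3) × XF m.L.fam, Cusp Y1 (∑ η ∈ hY1.toFinset, |δ η|)
      fun x => H86B.K PGL(2, K) (cn κ c 1) x x' := by
    intro x' η hη
    obtain ⟨P, hPm, hP0, hPδ, hP⟩ := hδ η x'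
    refine ⟨P, hPm, hP0, fun u hu j => (hPδ u hu j).trans ((le_abs_self _).trans ?_), hP⟩
    exact Finset.single_le_sum (f := fun η => |δ η|) (fun _ _ => abs_nonneg _)
      (hY1.mem_toFinset.2 hη)
  have hk' : 2 * (4 : ℝ) * Fintype.card J ≤ k := by
    have : ((8 * Fintype.card J : ℕ) : ℝ) ≤ k := by exact_mod_cast hk
    push_cast at this
    linarith
  obtain ⟨S, hS⟩ := bounded (isoM m) (pdM m) (TK.ofRange hc hinv hmeas) h Y1 hJ0 k hs hcusp' hc1
    hbal hred (by norm_num : (0 : ℝ) ≤ 4) (H31I.crude_tsum hc hY1) hk' (by omega)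
  exact ⟨max S 0, le_max_right _ _, fun p q => (hS p q).trans (le_max_left _ _)⟩

/-! ### Finite sums of pure kernels -/

theorem isRC_of_ker {κ : (J → ℝ) → ℂ} {T L M : ℝ} (h : Ker κ T L M) : H56Z.IsRC κ :=
  ⟨h.continuous, ⟨M, h.bdd⟩, ⟨T, h.zero⟩⟩

theorem RC_ker (κ κ' : (J → ℝ) → ℂ) (f : XF m.L.fam → XF m.L.fam → ℂ) :
    RC κ (m.ker κ' f) = m.ker (H56Z.conv κ κ') f := by
  funext x y
  show ∫ v : J → H3, κ (fun j => ch (x.1 j) (v j)) * (κ' (Model.chJ v y.1) * f x.2 y.2) = _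
  have h1 := H56Z.conv_apply κ κ' x.1 y.1
  show _ = H56Z.conv κ κ' (H5Z.chv x.1 y.1) * f x.2 y.2
  rw [h1, ← integral_mul_const]
  refine integral_congr_ae (Filter.Eventually.of_forall fun v => ?_)
  show κ (fun j => ch (x.1 j) (v j)) * (κ' (Model.chJ v y.1) * f x.2 y.2) =
    κ (H5Z.chv x.1 v) * κ' (H5Z.chv v y.1) * f x.2 y.2
  rw [mul_assoc]
  rfl

theorem measurable_chJ_left (y : J → H3) : Measurable fun v : J → H3 => Model.chJ v y := by
  refine measurable_pi_lambda _ fun j => ?_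
  exact (continuous_ch.comp (continuous_id.prodMk continuous_const)).measurable.comp
    (measurable_pi_apply j)

variable (m) in
/-- Finite sums of pure kernels. -/
def PK {ι : Type*} (s : Finset ι) (α : ι → ℂ) (κ : ι → (J → ℝ) → ℂ)
    (f : ι → XF m.L.fam → XF m.L.fam → ℂ) (x y : m.X) : ℂ :=
  ∑ i ∈ s, α i * m.ker (κ i) (f i) x y

variable {ι : Type*} {s : Finset ι} {α : ι → ℂ} {κs : ι → (J → ℝ) → ℂ}
  {f : ι → XF m.L.fam → XF m.L.fam → ℂ}

theorem RC_PK {κ : (J → ℝ) → ℂ} {T L M : ℝ} (h : Ker κ T L M)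
    (hκ : ∀ i ∈ s, H56Z.IsRC (κs i)) :
    RC κ (PK m s α κs f) = PK m s α (fun i => H56Z.conv κ (κs i)) f := by
  funext x y
  have e1 : RC κ (PK m s α κs f) x y = ∫ v : J → H3, ∑ i ∈ s,
      α i * (κ (fun j => ch (x.1 j) (v j)) * m.ker (κs i) (f i) (v, x.2) y) := by
    show ∫ v : J → H3, κ (fun j => ch (x.1 j) (v j)) * PK m s α κs f (v, x.2) y = _
    congr 1
    funext v
    show κ (fun j => ch (x.1 j) (v j)) * (∑ i ∈ s, α i * m.ker (κs i) (f i) (v, x.2) y) = _
    rw [Finset.mul_sum]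
    exact Finset.sum_congr rfl fun i _ => by ring
  rw [e1, integral_finsetSum]
  · refine Finset.sum_congr rfl fun i _ => ?_
    rw [integral_const_mul]
    have := congrFun (congrFun (RC_ker (m := m) κ (κs i) (f i)) x) y
    rw [← this]
    rfl
  · intro i hi
    obtain ⟨Bi, hBi⟩ := (hκ i hi).bdd
    refine Integrable.const_mul ?_ _
    refine h.integrable (S := Bi * ‖f i x.2 y.2‖) ?_ fun v _ => ?_
    · show Measurable fun v : J → H3 => κs i (Model.chJ v y.1) * f i x.2 y.2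
      exact ((hκ i hi).cont.measurable.comp (measurable_chJ_left y.1)).mul_const _
    · show ‖κs i (Model.chJ v y.1) * f i x.2 y.2‖ ≤ _
      rw [norm_mul]
      exact mul_le_mul_of_nonneg_right (hBi _) (norm_nonneg _)

theorem isRC_iterate {κ : (J → ℝ) → ℂ} (h : H56Z.IsRC κ) {κ' : (J → ℝ) → ℂ}
    (h' : H56Z.IsRC κ') (k : ℕ) : H56Z.IsRC ((H56Z.conv κ)^[k] κ') := by
  induction k with
  | zero => exact h'
  | succ k ih =>
    rw [Function.iterate_succ_apply']
    exact h.conv ih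

theorem cn_PK {κ : (J → ℝ) → ℂ} {T L M : ℝ} (h : Ker κ T L M)
    (hκ : ∀ i ∈ s, H56Z.IsRC (κs i)) (k : ℕ) :
    cn κ (PK m s α κs f) k = PK m s α (fun i => (H56Z.conv κ)^[k] (κs i)) f := by
  induction k with
  | zero => rfl
  | succ k ih =>
    show RC κ (cn κ (PK m s α κs f) k) = _
    rw [ih, RC_PK h fun i hi => isRC_iterate (isRC_of_ker h) (hκ i hi) k]
    congr 1
    funext i
    rw [Function.iterate_succ_apply']

/-- convolution preserves real kernels -/
theorem conj_conv {κ κ' : (J → ℝ) → ℂ} (h : ∀ t, conj (κ t) = κ t) (h' : ∀ t, conj (κ' t) = κ' t)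
    (t : J → ℝ) : conj (H56Z.conv κ κ' t) = H56Z.conv κ κ' t := by
  rw [H56Z.conv, ← integral_conj]
  congr 1
  funext v
  rw [map_mul, h, h']

theorem conj_iterate {κ κ' : (J → ℝ) → ℂ} (h : ∀ t, conj (κ t) = κ t)
    (h' : ∀ t, conj (κ' t) = κ' t) (k : ℕ) (t : J → ℝ) :
    conj ((H56Z.conv κ)^[k] κ' t) = (H56Z.conv κ)^[k] κ' t := by
  induction k generalizing t with
  | zero => exact h' t
  | succ k ih =>
    rw [Function.iterate_succ_apply']
    exact conj_conv h ih t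

theorem chJ_comm (x y : J → H3) : Model.chJ x y = Model.chJ y x :=
  funext fun _ => ch_comm _ _

theorem PK_symm (hα : ∀ i ∈ s, conj (α i) = α i) (hκ : ∀ i ∈ s, ∀ t, conj (κs i t) = κs i t)
    (hf : ∀ i ∈ s, ∀ η ξ, f i ξ η = conj (f i η ξ)) (x y : m.X) :
    PK m s α κs f y x = conj (PK m s α κs f x y) := by
  rw [PK, PK, map_sum]
  refine Finset.sum_congr rfl fun i hi => ?_
  rw [map_mul, hα i hi, Model.ker, Model.ker, map_mul, hκ i hi, chJ_comm, hf i hi]

theorem PK_smul (hf : ∀ i ∈ s, ∀ (g : PGL(2, K)) η ξ, f i (g • η) (g • ξ) = f i η ξ)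
    (g : PGL(2, K)) (x y : m.X) : PK m s α κs f (g • x) (g • y) = PK m s α κs f x y := by
  rw [PK, PK]
  exact Finset.sum_congr rfl fun i hi => by rw [m.ker_smul _ _ (hf i hi)]

theorem PK_finRange (hκ : ∀ i ∈ s, H56Z.IsRC (κs i))
    (hrow : ∀ i ∈ s, ∀ η, {ξ | f i η ξ ≠ 0}.Finite)
    (hbd : ∀ i ∈ s, ∃ B : ℝ, ∀ η ξ, ‖f i η ξ‖ ≤ B) :
    ∃ T B : ℝ, H31I.FinRange m (PK m s α κs f) T B := by
  classical
  choose! T hT using fun i (hi : i ∈ s) => (hκ i hi).supp
  choose! M hM using fun i (hi : i ∈ s) => (hκ i hi).bdd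
  choose! B hB using hbd
  refine ⟨∑ i ∈ s, |T i|, ∑ i ∈ s, ‖α i‖ * (M i * B i), ?_, ?_, ?_⟩
  · intro x y
    refine (norm_sum_le _ _).trans (Finset.sum_le_sum fun i hi => ?_)
    rw [norm_mul]
    refine mul_le_mul_of_nonneg_left ?_ (norm_nonneg _)
    show ‖κs i _ * f i _ _‖ ≤ _
    rw [norm_mul]
    exact mul_le_mul (hM i hi _) (hB i hi _ _) (norm_nonneg _)
      ((norm_nonneg _).trans (hM i hi 0))
  · intro x y hne j
    obtain ⟨i, hi, h1⟩ := Finset.exists_ne_zero_of_sum_ne_zero hne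
    have h2 : κs i (Model.chJ x.1 y.1) ≠ 0 :=
      left_ne_zero_of_mul (right_ne_zero_of_mul h1)
    have h3 : ch (x.1 j) (y.1 j) ≤ T i := by
      by_contra hcon
      exact h2 (hT i hi _ ⟨j, not_le.1 hcon⟩)
    refine h3.trans ((le_abs_self _).trans ?_)
    exact Finset.single_le_sum (f := fun i => |T i|) (fun _ _ => abs_nonneg _) hi
  · intro η
    refine (s.finite_toSet.biUnion fun i hi => hrow i hi η).subset ?_
    rintro ξ ⟨w, w', hne⟩
    obtain ⟨i, hi, h1⟩ := Finset.exists_ne_zero_of_sum_ne_zero hne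
    exact Set.mem_biUnion (x := i) hi (right_ne_zero_of_mul (right_ne_zero_of_mul h1))

theorem measurable_PK (hκ : ∀ i ∈ s, H56Z.IsRC (κs i)) (η : XF m.L.fam) (y : m.X) :
    Measurable fun v : J → H3 => PK m s α κs f (v, η) y := by
  unfold PK
  refine Finset.measurable_fun_sum _ fun i hi => Measurable.const_mul ?_ _
  show Measurable fun v : J → H3 => κs i (Model.chJ v y.1) * f i η y.2
  exact ((hκ i hi).cont.measurable.comp (measurable_chJ_left y.1)).mul_const _

/-- **Bounded kernel theorem** for finite sums of pure kernels: the automorphic kernel of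
`R(a)^k C`, `C = ∑ α_i κ_i ⊗ f_i`, is bounded as soon as the constant terms of the automorphic
kernel of `R(a) C` vanish and `8 * card J ≤ k`. -/
theorem bd_PK {a : (J → ℝ) → ℂ} {T L M : ℝ} (h : Ker a T L M) (ha : ∀ t, conj (a t) = a t)
    (hκ : ∀ i ∈ s, H56Z.IsRC (κs i)) (hκr : ∀ i ∈ s, ∀ t, conj (κs i t) = κs i t)
    (hα : ∀ i ∈ s, conj (α i) = α i)
    (hinv : ∀ i ∈ s, ∀ (g : PGL(2, K)) η ξ, f i (g • η) (g • ξ) = f i η ξ)
    (hrow : ∀ i ∈ s, ∀ η, {ξ | f i η ξ ≠ 0}.Finite)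
    (hbd : ∀ i ∈ s, ∃ B : ℝ, ∀ η ξ, ‖f i η ξ‖ ≤ B)
    (hf : ∀ i ∈ s, ∀ η ξ, f i ξ η = conj (f i η ξ))
    (hcusp : CuspAll m (PK m s α (fun i => H56Z.conv a (κs i)) f)) {k : ℕ}
    (hk : 8 * Fintype.card J ≤ k) :
    H17S.Bd PGL(2, K) (PK m s α (fun i => (H56Z.conv a)^[k] (κs i)) f) := by
  obtain ⟨Tc, Bc, hc⟩ := PK_finRange (α := α) hκ hrow hbd
  have h1 : cn a (PK m s α κs f) 1 = PK m s α (fun i => H56Z.conv a (κs i)) f := RC_PK h hκ
  have h2 := bd_cn (m := m) h hc (PK_smul hinv) (measurable_PK hκ) k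
    (fun x y => by
      rw [cn_PK h hκ k]
      exact PK_symm hα (fun i hi => conj_iterate ha (hκr i hi) k) hf x y)
    (by rw [h1]; exact hcusp) hk
  rw [cn_PK h hκ k] at h2
  exact h2

end Fermat.Agent.H86B
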