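import Fermat.Agent.H32ZTw
import Fermat.Agent.H32ZEig
import Fermat.Agent.H34T4
import Fermat.Agent.H86B2
import Fermat.Agent.H95S5

/-!
# Reader's guide: integration over quotients, the trace identity, bounded automorphic kernels

(editor helper26; texts by helper32, helper34, helper86, helper95, helper26; library files by helper32,
helper34, helper95, helper86, helper31, helper35, helper26)

Every theorem of this file is a citation of theorems of the library, with the statement written out, or the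
unfolding of a definition. The file is imported by no other file. Everything cited is used in the proof of
S47 (the octahedral case of the theorem of Langlands and Tunnell), not in the proof of S01. The modules
behind it depend only on Mathlib and on each other. It continues `GuideHyperbolic`, `GuideEigenfunctions`
and `GuideSiegel`. The steps of the proofs are in `GuideTraceSteps` (sections 1 to 3) and in
`GuideBoundedKernels` (section 4).

**What the block does.** It contains the analytic part of the trace comparison of block (C), in a form which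
knows nothing about number theory. Instead of a quotient `G \ X` one works with a *cut-off* `χ` on `X`: a
measurable function `χ ≥ 0` with `∑_{g ∈ G} χ(g x) = 1`. The total mass of the measure `ν = χ μ` on `X` is the
covolume (finite in the applications), and invariant functions have a well defined integral `∫ F dν`.
Automorphic kernels `K(x, y) = ∑_g k(x, g y)` are kernels on the finite measure space `(X, ν)`. If `K` is
bounded and hermitian, its operator is compact, the eigenspaces for eigenvalues `c ≠ 0` are spaces of honest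
bounded functions of finite dimension, and the trace identity `∑_c c² tr(B_c) = ∫∫ K(x, y) M(y, x)` holds.
There is no continuous spectrum and no truncation: the test functions are chosen such that all constant terms
of the automorphic kernel vanish (a condition at one auxiliary place), and the bounded kernel theorem says
that after composing with the operator of a radial kernel sufficiently often (8 times the number of infinite
places) the automorphic kernel is bounded.

**Contents.**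
1. Cut-offs (`H32ZCut`, `H32ZTw`, `H34T1` - `H34T4`).
2. Automorphic kernels (`H32ZCut`).
3. Bounded kernels on a finite measure space and the trace identity (`H32ZHS`, `H32ZEig`).
4. Bounded automorphic kernels (`H95S1` - `H95S5`, `H86B1`, `H86B2`).

**Used for** S47: sections 1 - 3 and `bounded_kernel_model` in block (C), the end of section 1 in block (T),
`bounded_of_eigenfunction` for the dihedral form of block (D).
References in NOTES.md: [393], [394], [431], [454], [486].
-/

set_option autoImplicit false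

open MeasureTheory Fermat.Agent.H32Z NumberField
open scoped ENNReal ComplexConjugate MatrixGroups

namespace Fermat.Agent.Guide.Trace

/-! ## 1. Cut-offs

`G` is a countable group acting by measurable maps on the measurable space `X`, and `μ` is a `G`-invariant
measure on `X`. No topology on `X` is used. -/

/-- **Cut-offs.** A cut-off for the action of `G` on `X` is a measurable function `χ : X → [0, ∞]` with
`∑_{g ∈ G} χ(g x) = 1` for every point `x`; by this condition all values are at most `1`.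
(structure `CutOff`, `H32ZCut`) -/
theorem cutOff_def {G X : Type*} [Group G] [MulAction G X] [MeasurableSpace X] (χ : X → ℝ≥0∞) :
    (∃ c : CutOff G X, c.χ = χ) ↔ Measurable χ ∧ ∀ x : X, ∑' g : G, χ (g • x) = 1 :=
  ⟨fun ⟨c, h⟩ => h ▸ ⟨c.meas, c.sum_eq⟩, fun h => ⟨⟨χ, h.1, h.2⟩, rfl⟩⟩

/-- **The measure of `G \ X`.** `c.ν μ` is the measure `χ μ` on `X`. Its total mass is the covolume. -/
theorem cutOff_measure {G X : Type*} [Group G] [MulAction G X] [MeasurableSpace X]
    (c : CutOff G X) (μ : Measure X) : c.ν μ = μ.withDensity c.χ :=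
  rfl

/-- **Existence of cut-offs.** If a measurable set `S` meets every orbit and every point has only finitely
many translates in `S`, then `χ = 1_S / #{g | g x ∈ S}` is a cut-off; it vanishes outside `S`, and the
covolume is at most `μ S`. It is used with Siegel sets: reduction theory has to deliver nothing else.
(`H32ZCut`) -/
theorem exists_cutOff {G X : Type*} [Group G] [MulAction G X] [MeasurableSpace X] [Countable G]
    [MeasurableConstSMul G X] (S : Set X) (hS : MeasurableSet S)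
    (hcov : ∀ x : X, ∃ g : G, g • x ∈ S) (hfin : ∀ x : X, {g : G | g • x ∈ S}.Finite)
    (μ : Measure X) : ∃ c : CutOff G X, (∀ x ∉ S, c.χ x = 0) ∧ c.ν μ Set.univ ≤ μ S :=
  ⟨CutOff.ofSet S hS hcov hfin, fun _ hx => CutOff.ofSet_χ_eq_zero hx, CutOff.ofSet_ν_univ_le μ⟩

/-- **Unfolding.** `∫_X F dμ = ∫_{G \ X} ∑_{g ∈ G} F(g x)` for every integrable function with values in a real
normed space. (`H32ZCut`; the version for values in `[0, ∞]` is `CutOff.lintegral_unfold`) -/
theorem unfolding {G X : Type*} [Group G] [MulAction G X] [MeasurableSpace X] [Countable G]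
    [MeasurableConstSMul G X] {μ : Measure X} [SMulInvariantMeasure G X μ]
    {E : Type*} [NormedAddCommGroup E] [NormedSpace ℝ E] (c : CutOff G X) {F : X → E}
    (hF : Integrable F μ) : ∫ x, F x ∂μ = ∫ x, ∑' g : G, F (g • x) ∂(c.ν μ) :=
  c.integral_unfold hF

/-- **Independence of the cut-off.** The integral over `G \ X` of a `G`-invariant function does not depend on
the cut-off. No integrability is assumed: both sides are zero if the function is not integrable.
(`H32ZTw`) -/
theorem integral_independent {G X : Type*} [Group G] [MulAction G X] [MeasurableSpace X] [Countable G]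
    [MeasurableConstSMul G X] {μ : Measure X} [SMulInvariantMeasure G X μ]
    {E : Type*} [NormedAddCommGroup E] [NormedSpace ℝ E] (c c' : CutOff G X) {F : X → E}
    (hm : AEStronglyMeasurable F μ) (hinv : ∀ (g : G) x, F (g • x) = F x) :
    ∫ x, F x ∂(c.ν μ) = ∫ x, F x ∂(c'.ν μ) :=
  c.integral_indep c' hm hinv

/-- **Automorphisms.** If `s : X → X` preserves `μ` and `s(g x) = σ(g) s(x)` for an automorphism `σ` of `G`,
then the integral over `G \ X` of an invariant function is invariant under `s`. It is used for the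
automorphism of the cyclic extension in the twisted trace identity. (`H32ZTw`) -/
theorem integral_automorphism {G X : Type*} [Group G] [MulAction G X] [MeasurableSpace X]
    [Countable G] [MeasurableConstSMul G X] {μ : Measure X} [SMulInvariantMeasure G X μ]
    {E : Type*} [NormedAddCommGroup E] [NormedSpace ℝ E] (c : CutOff G X) {s : X → X}
    (hs : MeasurePreserving s μ μ) {σ : G ≃* G} (hσ : ∀ (g : G) x, s (g • x) = σ g • s x)
    {F : X → E} (hF : AEStronglyMeasurable F μ) (hinv : ∀ (g : G) x, F (g • x) = F x) :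
    ∫ x, F (s x) ∂(c.ν μ) = ∫ x, F x ∂(c.ν μ) :=
  c.integral_twist hs hσ hF hinv

/-- **The cut-off may be moved from one variable to the other** (here in the language of block (T): a
cut-off is a real function). If `Φ(g x, g y) = Φ(x, y)` and `χ(x) Φ(x, y)` is integrable on `X × X`, then
`∫ χ(x) ∫ Φ(x, y) dy dx = ∫ χ(y) ∫ Φ(x, y) dx dy`, because `χ(x)` and `χ(y)` are both cut-offs for the
diagonal action on `X × X`. (`H34T2`) -/
theorem cutOff_swap {G X : Type*} [Group G] [Countable G] [MeasurableSpace X]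
    [MulAction G X] [MeasurableConstSMul G X] {μ : Measure X} [SFinite μ]
    [SMulInvariantMeasure G X μ] {E : Type*} [NormedAddCommGroup E] [NormedSpace ℝ E]
    {χ : X → ℝ} (hχm : Measurable χ) (hχ0 : ∀ x, 0 ≤ χ x)
    (hχ : ∀ x, HasSum (fun g : G => χ (g • x)) 1)
    {Φ : X × X → E} (hm : AEStronglyMeasurable Φ (μ.prod μ))
    (hinv : ∀ (g : G) x y, Φ (g • x, g • y) = Φ (x, y))
    (hi : Integrable (fun p => χ p.1 • Φ p) (μ.prod μ)) :
    ∫ x, χ x • ∫ y, Φ (x, y) ∂μ ∂μ = ∫ y, χ y • ∫ x, Φ (x, y) ∂μ ∂μ :=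
  H34T.integral_swap (G := G) ⟨hχm, hχ0, hχ⟩ hm (fun g p => hinv g p.1 p.2) hi

/-- **Eigenfunctions whose eigenvalue is not the mass of the kernel have integral zero.** Let `k ≥ 0` be an
invariant kernel of mass `c₁` in the first variable, and `F` an invariant function with
`∫ k(x, y) F(y) dy = c₀ F(x)`, `c₀ ≠ c₁`. Then `∫ χ F = 0`; nothing is assumed on the size of `F`. Proof:
`c₀ ∫ χ F = ∫ χ(x) ∫ k(x, y) F(y) = ∫ χ(y) F(y) ∫ k(x, y) dx = c₁ ∫ χ F`. With `hat_lt_mass` of
`GuideEigenfunctions` this applies to all functions with spectral parameter zero. (`H34T4`) -/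
theorem integral_eigenfunction_eq_zero {G X : Type*} [Group G] [Countable G] [MeasurableSpace X]
    [MulAction G X] [MeasurableConstSMul G X] {μ : Measure X} [SFinite μ]
    [SMulInvariantMeasure G X μ] {χ : X → ℝ} (hχm : Measurable χ) (hχ0 : ∀ x, 0 ≤ χ x)
    (hχ : ∀ x, HasSum (fun g : G => χ (g • x)) 1)
    {k : X × X → ℝ} (hk : AEStronglyMeasurable k (μ.prod μ)) (hk0 : ∀ p, 0 ≤ k p)
    (hkinv : ∀ (g : G) x y, k (g • x, g • y) = k (x, y)) {c₀ c₁ : ℝ} (hc : c₀ ≠ c₁)
    (hki : ∀ y, Integrable (fun x => k (x, y)) μ) (h1 : ∀ y, ∫ x, k (x, y) ∂μ = c₁)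
    {F : X → ℂ} (hF : AEStronglyMeasurable F μ) (hFinv : ∀ (g : G) x, F (g • x) = F x)
    (h0 : ∀ x, ∫ y, (k (x, y) : ℂ) * F y ∂μ = c₀ * F x) :
    ∫ x, χ x • F x ∂μ = 0 :=
  H34T.integral_eq_zero' (G := G) ⟨hχm, hχ0, hχ⟩ hk hk0 (fun g p => hkinv g p.1 p.2) hc hki h1 hF
    hFinv h0

/-! ## 2. Automorphic kernels -/

/-- **The automorphic kernel** of a kernel `k` on `X` is `K(x, y) = ∑_{g ∈ G} k(x, g y)`. (`H32ZCut`) -/
theorem automorphic_kernel_def {G X : Type*} [Group G] [MulAction G X] (k : X → X → ℂ) (x y : X) :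
    CutOff.autK G k x y = ∑' g : G, k x (g • y) :=
  rfl

/-- It is invariant in the second variable; if `k(g x, g y) = k(x, y)`, then it is invariant in both
variables, and hermitian if `k` is. (`H32ZCut`: `autK_smul_left`, `autK_smul_right`, `autK_symm`) -/
theorem automorphic_kernel_invariant {G X : Type*} [Group G] [MulAction G X] {k : X → X → ℂ}
    (hk : ∀ (g : G) x y, k (g • x) (g • y) = k x y) (x y : X) (h : G) :
    CutOff.autK G k x (h • y) = CutOff.autK G k x y ∧
      CutOff.autK G k (h • x) y = CutOff.autK G k x y ∧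
      ((∀ x y, k y x = conj (k x y)) → CutOff.autK G k y x = conj (CutOff.autK G k x y)) :=
  ⟨CutOff.autK_smul_right k x y h, CutOff.autK_smul_left hk x y h, fun hs => CutOff.autK_symm hk hs x y⟩

/-- **The operator of `k` on invariant functions is integration against the automorphic kernel over
`G \ X`.** (`H32ZCut.integral_autK`) -/
theorem operator_eq_integral_automorphic_kernel {G X : Type*} [Group G] [MulAction G X]
    [MeasurableSpace X] [Countable G] [MeasurableConstSMul G X] {μ : Measure X}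
    [SMulInvariantMeasure G X μ] (c : CutOff G X) {k : X → X → ℂ} {x : X} {f : X → ℂ}
    (hf : ∀ (g : G) y, f (g • y) = f y) (hi : Integrable (fun y => k x y * f y) μ) :
    ∫ y, k x y * f y ∂μ = ∫ y, CutOff.autK G k x y * f y ∂(c.ν μ) :=
  c.integral_autK hf hi

/-! ## 3. Bounded kernels on a finite measure space and the trace identity -/

/-- **Bounded kernels.** `BK K` says that `K : X × X → ℂ` is measurable and bounded. (`H32ZHS`) -/
theorem boundedKernel_iff {X : Type*} [MeasurableSpace X] {K : X → X → ℂ} :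
    BK K ↔ Measurable (Function.uncurry K) ∧ ∃ B : ℝ, 0 ≤ B ∧ ∀ x y, ‖K x y‖ ≤ B :=
  ⟨fun h => ⟨h.meas, h.bdd⟩, fun h => ⟨h.1, h.2⟩⟩

/-- **The operator of a bounded kernel** on `L²(X, ν)`: `(op K f)(x) = ∫ K(x, y) f(y) dν(y)` for almost every
`x`. (`H32ZHS`) -/
theorem operator_apply {X : Type*} [MeasurableSpace X] {ν : Measure X} [IsFiniteMeasure ν]
    {K : X → X → ℂ} (hK : BK K) (f : Lp ℂ 2 ν) : hK.op ν f =ᵐ[ν] fun x => ∫ y, K x y * f y ∂ν :=
  hK.coeFn_op' f

/-- **Compactness** of this operator, if the `σ`-algebra of `X` is countably generated (Hilbert-Schmidt).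
(`H32ZHS.isCompactOperator`) -/
theorem operator_compact {X : Type*} [MeasurableSpace X] {ν : Measure X} [IsFiniteMeasure ν]
    [MeasurableSpace.CountablyGenerated X] {K : X → X → ℂ} (hK : BK K) :
    IsCompactOperator (hK.op ν) :=
  hK.isCompactOperator

/-- **Trace of a product of two kernels** in a countable Hilbert basis of `L²(X, ν)`:
`∑_i ⟨b_i, M K b_i⟩ = ∫∫ K(x, y) M(y, x)`. (`H32ZHS.hasSum_trace`) -/
theorem trace_of_product {X : Type*} [MeasurableSpace X] {ν : Measure X} [IsFiniteMeasure ν]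
    {K M : X → X → ℂ} {ι : Type*} [Countable ι] (b : HilbertBasis ι ℂ (Lp ℂ 2 ν)) (hK : BK K)
    (hM : BK M) : HasSum (fun i => inner ℂ (b i) (hM.op ν (hK.op ν (b i))))
      (∫ x, ∫ y, K x y * M y x ∂ν ∂ν) :=
  BK.hasSum_trace b hK hM

/-- **Eigenfunctions.** `Eig hK ν c` is the space of the bounded measurable functions `f` with
`c f(x) = ∫ K(x, y) f(y) dν(y)` for EVERY `x` (functions, not classes; for `c ≠ 0` they are automatically
invariant if `K` is). (`H32ZEig`) -/
theorem mem_eigenspace_iff {X : Type*} [MeasurableSpace X] {ν : Measure X} [IsFiniteMeasure ν]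
    {K : X → X → ℂ} (hK : BK K) (c : ℝ) (f : X → ℂ) : f ∈ Eig hK ν c ↔
    Measurable f ∧ (∃ C : ℝ, ∀ x, ‖f x‖ ≤ C) ∧ ∀ x, (c : ℂ) * f x = ∫ y, K x y * f y ∂ν :=
  Iff.rfl

/-- The spaces of eigenfunctions with nonzero eigenvalue are finite dimensional. (`H32ZEig`) -/
theorem eigenspace_finite {X : Type*} [MeasurableSpace X] {ν : Measure X} [IsFiniteMeasure ν]
    [MeasurableSpace.CountablyGenerated X] {K : X → X → ℂ} (hK : BK K) {c : ℝ} (hc : c ≠ 0) :
    Module.Finite ℂ (Eig hK ν c) :=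
  finite_Eig hK hc

/-- **The trace identity** (spectral side of the trace formula). `K` is a bounded hermitian kernel on the
finite measure space `(X, ν)`, `M` a bounded kernel, and for every real `c ≠ 0` the operator of `M` maps
`f ∈ Eig c` to `c B_c f`. Then `∑_c c² tr(B_c) = ∫∫ K(x, y) M(y, x)`, the sum over the real numbers `c`
(absolutely convergent; a term is zero unless `c` is an eigenvalue). In block (C) of S47 `K` is an
automorphic kernel, and `M` the automorphic kernel of a product of the same operator with Hecke operators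
and with the automorphism of the extension; `M = K`, `B = 1` gives `∑ c² dim Eig c < ∞`. Proof: the
spectral theorem for compact symmetric operators and Parseval's formula for the rows of `K`.
(`H32ZEig.hasSum_trace_Eig`) -/
theorem trace_identity {X : Type*} [MeasurableSpace X] {ν : Measure X} [IsFiniteMeasure ν]
    [MeasurableSpace.CountablyGenerated X] {K M : X → X → ℂ} (hK : BK K)
    (hsym : ∀ x y, K y x = conj (K x y)) (hM : BK M)
    (B : ∀ c : ℝ, Eig hK ν c →ₗ[ℂ] Eig hK ν c)
    (hB : ∀ c : ℝ, c ≠ 0 → ∀ (f : Eig hK ν c) (x : X),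
      ∫ y, M x y * (f : X → ℂ) y ∂ν = (c : ℂ) * (B c f : X → ℂ) x) :
    HasSum (fun c : ℝ => (c : ℂ) ^ 2 * LinearMap.trace ℂ _ (B c))
      (∫ x, ∫ y, K x y * M y x ∂ν ∂ν) :=
  hasSum_trace_Eig hK hsym hM B hB

/-! ## 4. Bounded automorphic kernels

`J` is a finite set, `H3` hyperbolic 3-space, `H3.ch w v` the hyperbolic cosine of the distance. For
`w = (z_j, y_j)_j` in `J → H3` and `u` in `ℂ^J` the horospherical translate `tr u w` is
`(z_j + u_j, y_j)_j`. The height of `w` is `∏ y_j`. -/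

/-- The translates, and the class `Ker κ T L M` of radial kernels used for smoothing: `κ` is a function of the
vector `(ch(w_j, v_j))_j`, Lipschitz with constant `L`, bounded by `M`, and zero as soon as one coordinate
exceeds `T`. (`H95S1`) -/
theorem kernel_class_iff {J : Type*} [Fintype J] (κ : (J → ℝ) → ℂ) (T L M : ℝ) (u : J → ℂ)
    (w : J → H3) (j : J) :
    (H95S.Ker κ T L M ↔ 1 ≤ T ∧ 0 ≤ L ∧ (∀ t, (∃ j, T < t j) → κ t = 0) ∧
      (∀ t t', ‖κ t - κ t'‖ ≤ L * ∑ j, |t j - t' j|) ∧ ∀ t, ‖κ t‖ ≤ M) ∧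
    (H95S.tr u w j).z = (w j).z + u j ∧ (H95S.tr u w j).y = (w j).y :=
  ⟨⟨fun h => ⟨h.1, h.2, h.3, h.4, h.5⟩, fun h => ⟨h.1, h.2.1, h.2.2.1, h.2.2.2.1, h.2.2.2.2⟩⟩,
    rfl, rfl⟩

/-- **First order mean value inequality along horospheres.** If `|u_j| ≤ q y_j`, `q ≤ Q`, and `|g| ≤ S` on
the two sets of the `v` with `ch(w_j, v_j) ≤ T` for all `j`, respectively `ch((tr u w)_j, v_j) ≤ T` for all
`j`, then the smoothed function `R(κ) g(w) = ∫ κ(ch(w, v)) g(v) dv` satisfies
`|R(κ) g(tr u w) - R(κ) g(w)| ≤ C q S` with `C` depending only on `κ` and `Q`; `volT T` is the volume of the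
ball `ch(o, v) ≤ T` of `H3`, which does not depend on the centre. (`H95S1`) -/
theorem mean_value {J : Type*} [Fintype J] {κ : (J → ℝ) → ℂ} {T L M : ℝ} (h : H95S.Ker κ T L M)
    {w : J → H3} {u : J → ℂ} {q Q : ℝ} (hq : 0 ≤ q) (hqQ : q ≤ Q) (hu : ∀ j, ‖u j‖ ≤ q * (w j).y)
    {g : (J → H3) → ℂ} (hg : Measurable g) {S : ℝ}
    (hS : ∀ v, ((∀ j, H3.ch (w j) (v j) ≤ T) ∨ ∀ j, H3.ch (H95S.tr u w j) (v j) ≤ T) → ‖g v‖ ≤ S) :
    ‖(∫ v, κ (fun j => H3.ch (H95S.tr u w j) (v j)) * g v) -
        ∫ v, κ (fun j => H3.ch (w j) (v j)) * g v‖ ≤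
      L * (Fintype.card J * (4 * T ^ 2 * (1 + Q))) *
        (2 * (H95S.volT T).toReal ^ Fintype.card J) * q * S :=
  H95S.norm_RK_sub_le h hq hqQ hu hg hS

/-- **Cuspidal functions gain a power of the height.** Functions on `X = (J → H3) × Y`, `r = #J`: `F 0` of
growth `ht^s` at the points of `Y0`, `F (n+1) = R(κ) (F n)` with vanishing constant terms (mean zero over a
bounded set of translations), and every point can be balanced without changing the functions and the height
(`balancing` in `GuideSiegel`). Then `F k` has growth `ht^(s - k/r)`. (`H95S2`, `H95S4`) -/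
theorem decay {J : Type*} [Fintype J] {Y : Type*} {κ : (J → ℝ) → ℂ} {T L M : ℝ}
    (hκ : H95S.Ker κ T L M) (Y0 : Set Y) (hJ : 0 < Fintype.card J) {s : ℝ}
    (F : ℕ → (J → H3) × Y → ℂ) (k : ℕ)
    (hbase : ∀ c > 0, ∃ A, ∀ η ∈ Y0, ∀ w : J → H3, (∀ j, c ≤ (w j).y) →
      ‖F 0 (w, η)‖ ≤ A * (∏ j, (w j).y) ^ s)
    (hmeas : ∀ n < k, ∀ η ∈ Y0, Measurable fun v => F n (v, η))
    (hsucc : ∀ n < k, ∀ η ∈ Y0, ∀ w,
      F (n + 1) (w, η) = ∫ v, κ (fun j => H3.ch (w j) (v j)) * F n (v, η))
    {δ : ℝ} (hcusp : ∀ n < k, ∀ η ∈ Y0, ∃ P : Set (J → ℂ), MeasurableSet P ∧ 0 < volume P ∧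
      (∀ u ∈ P, ∀ j, ‖u j‖ ≤ δ) ∧ ∀ w, ∫ u in P, F (n + 1) (H95S.tr u w, η) = 0)
    {B : ℝ}
    (hbal : ∀ n < k, ∀ η ∈ Y0, ∀ w, ∃ w', F (n + 1) (w', η) = F (n + 1) (w, η) ∧
      ∏ j, (w' j).y = ∏ j, (w j).y ∧
      ∀ j, (∏ i, (w i).y) ^ (1 / (Fintype.card J : ℝ)) ≤ B * (w' j).y) :
    ∀ c > 0, ∃ A, 0 ≤ A ∧ ∀ η ∈ Y0, ∀ w : J → H3, (∀ j, c ≤ (w j).y) →
      ‖F k (w, η)‖ ≤ A * (∏ j, (w j).y) ^ (s - k / Fintype.card J) :=
  H95S.decay_of_iterate hκ Y0 hJ F k hbase hmeas hsucc hcusp hbal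

/-- **Integers in a box.** At most `∏ (4 T_j + 2)²` integers `a` of a number field satisfy `|e_j a| ≤ T_j`
for all `j`, if the family `e` hits every infinite place; only `|N a| ≥ 1` for `a ≠ 0` is used. Input of
`counting` in `GuideSiegel`. (`H95S3`) -/
theorem integers_in_box {K : Type*} [Field K] [NumberField K] {J : Type*} [Fintype J]
    (e : J → K →+* ℂ) (he : ∀ v : InfinitePlace K, ∃ j, InfinitePlace.mk (e j) = v)
    (T : J → ℝ) (hT : ∀ j, 0 ≤ T j) :
    ({a : 𝓞 K | ∀ j, ‖e j a‖ ≤ T j}).Finite ∧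
      (({a : 𝓞 K | ∀ j, ‖e j a‖ ≤ T j}).ncard : ℝ) ≤ ∏ j, (4 * T j + 2) ^ 2 :=
  H95S.finite_box e he T hT

/-- **Bounded kernel theorem, abstract form.** `F n (x, x')` is a sequence of functions of two variables of
`X = (J → H3) × Y` with `F (n+1) (·, x') = R(κ) F n (·, x')`, invariant under the relation `rel` (orbits of an
arithmetic group) in the first variable, and `|F k (x, x')| = |F k (x', x)|`. (I1) the constant terms of
`F 1, ..., F k` vanish; (I2) reduction theory: balancing and a Siegel set; (I3) crude bound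
`|F 0| ≤ A' (ht w · ht w')^A`. If `k ≥ 2 A #J`, then `F k` is bounded on `X × X`. Proof: by `decay` in the
first variable `|F k (x, x')| ≤ C ht(w)^(A - k/r) ht(w')^A` on the Siegel set, `r = #J`, and
`A - k/r ≤ -A`; by symmetry the same with `x`, `x'` exchanged; take the bound in which the larger height has
the negative exponent. (`H95S2`) -/
theorem bounded_kernel_abstract {J : Type*} [Fintype J] {Y : Type*} {κ : (J → ℝ) → ℂ}
    {T L M : ℝ} (hκ : H95S.Ker κ T L M) (Y0 : Set Y) (hJ : 0 < Fintype.card J)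
    (rel : (J → H3) × Y → (J → H3) × Y → Prop)
    (F : ℕ → (J → H3) × Y → (J → H3) × Y → ℂ) (k : ℕ)
    (hmeas : ∀ n < k, ∀ x', ∀ η ∈ Y0, Measurable fun v => F n (v, η) x')
    (hsucc : ∀ n < k, ∀ x', ∀ η ∈ Y0, ∀ w,
      F (n + 1) (w, η) x' = ∫ v, κ (fun j => H3.ch (w j) (v j)) * F n (v, η) x')
    (hinv : ∀ n, 0 < n → n ≤ k → ∀ x y x', rel x y → F n x x' = F n y x')
    (hsymm : ∀ x x', ‖F k x x'‖ = ‖F k x' x‖)
    {δ : ℝ} (hcusp : ∀ n < k, ∀ x', ∀ η ∈ Y0, ∃ P : Set (J → ℂ), MeasurableSet P ∧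
      0 < volume P ∧ (∀ u ∈ P, ∀ j, ‖u j‖ ≤ δ) ∧ ∀ w, ∫ u in P, F (n + 1) (H95S.tr u w, η) x' = 0)
    {B c : ℝ} (hc : 0 < c)
    (hbal : ∀ η ∈ Y0, ∀ w, ∃ w', rel (w, η) (w', η) ∧ ∏ j, (w' j).y = ∏ j, (w j).y ∧
      ∀ j, (∏ i, (w i).y) ^ (1 / (Fintype.card J : ℝ)) ≤ B * (w' j).y)
    (hred : ∀ x, ∃ w, ∃ η ∈ Y0, rel x (w, η) ∧ ∀ j, c ≤ (w j).y)
    {A : ℝ} (hA : 0 ≤ A)
    (hbase : ∀ c' > 0, ∃ A', ∀ η ∈ Y0, ∀ η' ∈ Y0, ∀ w w' : J → H3, (∀ j, c' ≤ (w j).y) →
      (∀ j, c' ≤ (w' j).y) →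
      ‖F 0 (w, η) (w', η')‖ ≤ A' * ((∏ j, (w j).y) * ∏ j, (w' j).y) ^ A)
    (hk : 2 * A * Fintype.card J ≤ k) (hk0 : 0 < k) :
    ∃ S, ∀ x x', ‖F k x x'‖ ≤ S :=
  H95S.bounded_kernel hκ Y0 hJ rel F k hmeas hsucc hinv hsymm hcusp hc hbal hred hA hbase hk hk0

/-- The iterates `cn κ c n = R(κ)^n c`, `R(κ)` acting on the first variable of the kernel `c` on
`(J → H3) × Y`. (`H86B1`) -/
theorem iterates_def {J : Type*} [Fintype J] {Y : Type*} (κ : (J → ℝ) → ℂ)
    (c : (J → H3) × Y → (J → H3) × Y → ℂ) (n : ℕ) (w : J → H3) (η : Y) (y : (J → H3) × Y) :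
    H86B.cn κ c 0 = c ∧ H86B.cn κ c (n + 1) (w, η) y =
      ∫ v : J → H3, κ (fun j => H3.ch (w j) (v j)) * H86B.cn κ c n (v, η) y :=
  ⟨rfl, rfl⟩

/-- **Bounded kernel theorem on the model.** `m` is a model of `PGL₂` over a number field `K` (`H59D.Model`,
see `GuideSiegel`, section 7; `m.X = (J → H3) × X_f`, and `K` is totally complex); `c` an invariant bounded
kernel with support of bounded radius at infinity and finitely many neighbours in `X_f`; the iterate
`R(κ)^k c` is hermitian; all constant terms of the automorphic kernel of `R(κ) c` vanish. If `k ≥ 8 #J`,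
then the automorphic kernel of `R(κ)^k c` is bounded on `m.X`. No geometric hypothesis is left. (`H86B2`) -/
theorem bounded_kernel_model {K : Type*} [Field K] [NumberField K] {J : Type*} [Fintype J]
    {m : H59D.Model K J} {κ : (J → ℝ) → ℂ} {T L M : ℝ} (h : H95S.Ker κ T L M)
    {c : m.X → m.X → ℂ} {Tc Bc : ℝ} (hb : ∀ x y, ‖c x y‖ ≤ Bc)
    (hsupp : ∀ x y, c x y ≠ 0 → ∀ j, H3.ch (x.1 j) (y.1 j) ≤ Tc)
    (hfin : ∀ η : H59XF.XF m.L.fam,
      {η' : H59XF.XF m.L.fam | ∃ w w' : J → H3, c (w, η) (w', η') ≠ 0}.Finite)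
    (hinv : ∀ (g : PGL(2, K)) (x y : m.X), c (g • x) (g • y) = c x y)
    (hmeas : ∀ η y, Measurable fun v => c (v, η) y) (k : ℕ)
    (hs : ∀ x y : m.X, H86B.cn κ c k y x = conj (H86B.cn κ c k x y))
    (hcusp : ∀ η : H59XF.XF m.L.fam, ∃ δ : ℝ, ∀ x' : m.X, ∃ P : Set (J → ℂ), MeasurableSet P ∧
      0 < volume P ∧ (∀ u ∈ P, ∀ j, ‖u j‖ ≤ δ) ∧ ∀ w : J → H3,
        ∫ u in P, CutOff.autK (X := m.X) PGL(2, K) (H86B.cn κ c 1) (H95S.tr u w, η) x' = 0)
    (hk : 8 * Fintype.card J ≤ k) :
    ∃ B : ℝ, 0 ≤ B ∧ ∀ p q : m.X, ‖CutOff.autK (X := m.X) PGL(2, K) (H86B.cn κ c k) p q‖ ≤ B :=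
  H86B.bd_cn h ⟨hb, hsupp, hfin⟩ hinv hmeas k hs hcusp hk

/-- **Cuspidal eigenfunctions of moderate growth are bounded.** `Φ` is a function on `(J → H3) × Y`,
invariant under `rel`, with `R(κ) Φ = c₁ Φ`, `c₁ ≠ 0`, vanishing constant terms at the points of the finite
set `Y0`, moderate growth (exponent depending on the point of `Y0`), and reduction theory holds as before.
The theorem is applied to the dihedral form of block (D). (`H95S4`, `H95S5`) -/
theorem bounded_of_eigenfunction {J : Type*} [Fintype J] {Y : Type*} {κ : (J → ℝ) → ℂ} {T L M : ℝ}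
    (hκ : H95S.Ker κ T L M) {Y0 : Set Y} (hY0 : Y0.Finite) (hJ : 0 < Fintype.card J)
    (Φ : (J → H3) × Y → ℂ)
    (hgrow : ∀ η ∈ Y0, ∃ A : ℝ, ∀ c > 0, ∃ A', ∀ w : J → H3, (∀ j, c ≤ (w j).y) →
      ‖Φ (w, η)‖ ≤ A' * (∏ j, (w j).y) ^ A)
    (hmeas : ∀ η ∈ Y0, Measurable fun v => Φ (v, η)) {c₁ : ℂ} (hc₁ : c₁ ≠ 0)
    (heig : ∀ η ∈ Y0, ∀ w,
      ∫ v, κ (fun j => H3.ch (w j) (v j)) * Φ (v, η) = c₁ * Φ (w, η))
    {δ : ℝ} (hcusp : ∀ η ∈ Y0, ∃ P : Set (J → ℂ), MeasurableSet P ∧ 0 < volume P ∧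
      (∀ u ∈ P, ∀ j, ‖u j‖ ≤ δ) ∧ ∀ w, ∫ u in P, Φ (H95S.tr u w, η) = 0)
    (rel : (J → H3) × Y → (J → H3) × Y → Prop) (hinv : ∀ x y, rel x y → Φ x = Φ y)
    {B c : ℝ} (hc : 0 < c)
    (hbal : ∀ η ∈ Y0, ∀ w, ∃ w', rel (w, η) (w', η) ∧ ∏ j, (w' j).y = ∏ j, (w j).y ∧
      ∀ j, (∏ i, (w i).y) ^ (1 / (Fintype.card J : ℝ)) ≤ B * (w' j).y)
    (hred : ∀ x, ∃ w, ∃ η ∈ Y0, rel x (w, η) ∧ ∀ j, c ≤ (w j).y) :
    ∃ S, ∀ x, ‖Φ x‖ ≤ S :=
  H95S.bounded_of_eigen' hκ hY0 hJ Φ hgrow hmeas hc₁ heig hcusp rel hinv hc hbal hred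

end Fermat.Agent.Guide.Trace
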