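import Fermat.Agent.H32ZTw
import Fermat.Agent.H32ZEig

/-!
# Reader's guide: cut-offs, compact operators and the trace identity, step by step (S47)

Every theorem of this file is proved by citing a theorem of the library; nothing here is used by any
other file. Companion of `GuideTrace`, sections 1 to 3: there are the statements, here the steps of their
proofs. Library: `H32ZCut`, `H32ZTw` (sections 1 and 2), `H32ZHS` (sections 3 to 5),
`H32ZEig` (section 6); these files depend only on Mathlib. Text and library: helper32. Notes in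
NOTES.md: [393] NOTES-S47-C9.

**Sections 1 and 2.** `G` is a countable group acting on `X`, `μ` a `G`-invariant measure. A cut-off `c` is a
measurable function `c.χ : X → [0, ∞]` with `∑_{g ∈ G} c.χ(g x) = 1` for all `x`, and `c.ν μ` is the measure
`χ μ`; it plays the role of the measure of `G \ X`. Everything follows from Tonelli's theorem (the sum over
`G` and the integral may be exchanged), the invariance of `μ` and the substitution `g ↦ g⁻¹`. There is no
fundamental domain and no quotient space, the action need not be free, and `X` has no topology.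

**Sections 3 to 6.** `ν` is a finite measure on `X` and `K` a bounded measurable function on `X × X`. The
value of the integral operator at a class `f` in `L²` is the scalar product of `f` with the row
`y ↦ conj K(x, y)`, so it is defined at EVERY point `x`, and this is used throughout: compactness is
Parseval's formula for the rows and dominated convergence; the trace of a product of two such operators is
Parseval's formula for two rows; and the eigenvectors with eigenvalue `c ≠ 0` are honest bounded functions.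
The trace identity `GuideTrace.trace_identity` then is the comparison of two ways to compute
`∑_i ⟨b_i, M K b_i⟩` (end of section 6).

**Where it is used.** All of it in S47 (block (C): the two sides of the trace comparison), not in the proof
of S01.
-/

set_option autoImplicit false

noncomputable section

namespace Fermat.Agent.Guide.TraceSteps

open MeasureTheory Filter Fermat.Agent.H32Z
open scoped ENNReal ComplexConjugate Topology

/-! ## 1. Cut-offs and unfolding -/

section CutOffs

variable {G X : Type*} [Group G] [MulAction G X] [MeasurableSpace X] (c : CutOff G X) (μ : Measure X)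
  {E : Type*} [NormedAddCommGroup E] [NormedSpace ℝ E]

/-- The values of a cut-off are at most `1` (the condition at `x`, term `g = 1`), in particular finite; so
`χ μ` is at most `μ`, and sets of `μ`-measure zero have `χ μ`-measure zero. File `H32ZCut`. -/
theorem cutOff_values (x : X) :
    c.χ x ≤ 1 ∧ c.χ x < ∞ ∧ c.ν μ ≤ μ ∧ (c.ν μ).AbsolutelyContinuous μ :=
  ⟨c.χ_le_one x, c.χ_lt_top x, c.ν_le μ, c.ν_ac μ⟩

/-- **Integrals with respect to `χ μ`** are integrals of `χ F`: for functions `F` with values in a normed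
space (first formula, and integrability), and for functions with values in `[0, ∞]`. File `H32ZCut`. -/
theorem quotient_integral {μ : Measure X} (F : X → E) {F' : X → ℝ≥0∞} (hF' : AEMeasurable F' μ) :
    ∫ x, F x ∂(c.ν μ) = ∫ x, (c.χ x).toReal • F x ∂μ ∧
      (Integrable F (c.ν μ) ↔ Integrable (fun x => (c.χ x).toReal • F x) μ) ∧
      ∫⁻ x, F' x ∂(c.ν μ) = ∫⁻ x, c.χ x * F' x ∂μ :=
  ⟨c.integral_ν μ F, c.integrable_ν_iff, c.lintegral_ν μ hF'⟩

/-- **Partition of a vector.** The condition in real numbers: `∑ χ(g x) = 1`, and for a vector `v` the sum of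
`χ(g⁻¹ x) v` over `G` is `v` (absolutely convergent). File `H32ZCut`. -/
theorem partition_of_vector (x : X) (v : E) :
    Summable (fun g : G => (c.χ (g • x)).toReal) ∧ ∑' g : G, (c.χ (g • x)).toReal = 1 ∧
      HasSum (fun g : G => (c.χ (g⁻¹ • x)).toReal • v) v :=
  ⟨c.summable_toReal x, c.tsum_toReal x, c.hasSum_smul x v⟩

variable {μ} [MeasurableConstSMul G X] [SMulInvariantMeasure G X μ]

/-- **Invariance of `μ`**: `∫ F(g x) dμ = ∫ F(x) dμ` for functions with values in `[0, ∞]` (no
measurability needed, because `x ↦ g x` is invertible), and `F(g x)` is integrable if `F` is. File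
`H32ZCut`. -/
theorem invariance (g : G) (F : X → ℝ≥0∞) {E : Type*} [NormedAddCommGroup E] {F' : X → E}
    (hF' : Integrable F' μ) :
    ∫⁻ x, F (g • x) ∂μ = ∫⁻ x, F x ∂μ ∧ Integrable (fun x => F' (g • x)) μ :=
  ⟨CutOff.lintegral_smul g F, CutOff.integrable_smul hF' g⟩

/-- **Unfolding, functions with values in `[0, ∞]`**: `∫ F dμ = ∫ ∑_g F(g x) d(χ μ)`. Proof: the right side
is `∑_g ∫ χ(x) F(g x) dμ = ∑_g ∫ χ(g⁻¹ x) F(x) dμ = ∫ (∑_g χ(g⁻¹ x)) F(x) dμ`. File `H32ZCut`. -/
theorem unfolding_nonnegative [Countable G] {F : X → ℝ≥0∞} (hF : AEMeasurable F μ) :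
    ∫⁻ x, F x ∂μ = ∫⁻ x, ∑' g : G, F (g • x) ∂(c.ν μ) :=
  c.lintegral_unfold hF

/-- **The terms of the unfolding**, for functions with values in a normed space:
`∫ F(g x) d(χ μ) = ∫ χ(g⁻¹ x) F(x) dμ`, and these functions are integrable if `F` is. File `H32ZCut`. -/
theorem translated_integrals (F : X → E) (g : G) :
    ∫ x, F (g • x) ∂(c.ν μ) = ∫ x, (c.χ (g⁻¹ • x)).toReal • F x ∂μ ∧
      (Integrable F μ → Integrable (fun x => (c.χ (g⁻¹ • x)).toReal • F x) μ) :=
  ⟨c.integral_smul_ν F g, fun hF => c.integrable_χ_smul hF g⟩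

/-- **Absolute convergence**: the sum over `G` of the integrals of `‖F(g x)‖` is finite (it is `∫ ‖F‖ dμ` by
`unfolding_nonnegative`). This permits the exchange of sum and integral in `GuideTrace.unfolding`. File
`H32ZCut`. -/
theorem summable_norms [Countable G] {E : Type*} [NormedAddCommGroup E] {F : X → E}
    (hF : Integrable F μ) :
    Summable fun g : G => ∫ x, ‖F (g • x)‖ ∂(c.ν μ) :=
  c.summable_integral_norm hF

/-- **Independence, functions with values in `[0, ∞]`**: for invariant `F` one has
`∫ F d(χ μ) = ∫ F d(χ' μ)`; unfold `χ F` with `χ'`. File `H32ZCut`. -/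
theorem independence_nonnegative [Countable G] (c' : CutOff G X) {F : X → ℝ≥0∞}
    (hF : AEMeasurable F μ) (hinv : ∀ (g : G) x, F (g • x) = F x) :
    ∫⁻ x, F x ∂(c.ν μ) = ∫⁻ x, F x ∂(c'.ν μ) :=
  c.lintegral_indep c' hF hinv

/-- **Integrability over `G \ X`** of an invariant function does not depend on the cut-off (apply the
previous statement to `‖F‖`). This is why `GuideTrace.integral_independent` needs no integrability: if `F`
is not integrable both integrals are zero by definition. File `H32ZTw`. -/
theorem integrability_independent [Countable G] (c' : CutOff G X) {F : X → E}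
    (hm : AEStronglyMeasurable F μ) (hinv : ∀ (g : G) x, F (g • x) = F x) :
    Integrable F (c.ν μ) ↔ Integrable F (c'.ν μ) :=
  c.integrable_indep c' hm hinv

end CutOffs

/-! ## 2. Existence, automorphisms -/

section Existence

variable {G X : Type*} [Group G] [MulAction G X]

/-- **Sums over orbits.** `∑_g φ(g x)` depends only on the orbit of `x`. For the characteristic function of a
set `S` it is not zero if `S` meets the orbit, and finite if `g x` is in `S` for only finitely many `g`.
File `H32ZCut`. -/
theorem orbit_sums (S : Set X) (x : X) :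
    (∀ (φ : X → ℝ≥0∞) (h : G), ∑' g : G, φ (g • h • x) = ∑' g : G, φ (g • x)) ∧
      ((∃ g : G, g • x ∈ S) →
        ∑' g : G, S.indicator (fun _ => (1 : ℝ≥0∞)) (g • x) ≠ 0) ∧
      ({g : G | g • x ∈ S}.Finite →
        ∑' g : G, S.indicator (fun _ => (1 : ℝ≥0∞)) (g • x) ≠ ∞) :=
  ⟨fun φ h => CutOff.tsum_smul_smul φ h x, CutOff.tsum_indicator_ne_zero S x,
    CutOff.tsum_indicator_ne_top S x⟩

/-- **Normalisation.** A measurable function `φ` whose sums over the orbits are neither `0` nor `∞` gives the
cut-off `φ(x) / ∑_g φ(g x)`. With `orbit_sums` one gets the cut-off of a set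
(`GuideTrace.exists_cutOff`). File `H32ZCut`. -/
theorem cutOff_of_function [MeasurableSpace X] [Countable G] [MeasurableConstSMul G X]
    (φ : X → ℝ≥0∞) (hφ : Measurable φ) (h0 : ∀ x, ∑' g : G, φ (g • x) ≠ 0)
    (h1 : ∀ x, ∑' g : G, φ (g • x) ≠ ∞) (x : X) :
    (CutOff.ofFun φ hφ h0 h1).χ x = φ x / ∑' g : G, φ (g • x) :=
  rfl

variable [MeasurableSpace X] (c : CutOff G X)

/-- **Pull back of a cut-off** along a measurable map `s` with `s(g x) = σ(g) s(x)`, `σ` an automorphism of
`G`: the function `χ(s(x))`; it is a cut-off because `σ` permutes the terms of the sum. File `H32ZTw`. -/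
theorem pull_back {s : X → X} (hs : Measurable s) {σ : G ≃* G}
    (hσ : ∀ (g : G) x, s (g • x) = σ g • s x) (x : X) : (c.pull hs hσ).χ x = c.χ (s x) :=
  rfl

/-- **Automorphisms preserve the integral over `G \ X`**, functions with values in `[0, ∞]`; and
integrability. Proof: `∫ F(s x) χ(x) dμ = ∫ F(s x) χ(s x) dμ` by the independence of the cut-off, and `s`
preserves `μ`. (Functions with values in a normed space: `GuideTrace.integral_automorphism`.) File
`H32ZTw`. -/
theorem automorphism_nonnegative [Countable G] [MeasurableConstSMul G X] {μ : Measure X}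
    [SMulInvariantMeasure G X μ] {E : Type*} [NormedAddCommGroup E] [NormedSpace ℝ E] {s : X → X}
    (hs : MeasurePreserving s μ μ) {σ : G ≃* G} (hσ : ∀ (g : G) x, s (g • x) = σ g • s x) :
    (∀ F : X → ℝ≥0∞, AEMeasurable F μ → (∀ (g : G) x, F (g • x) = F x) →
      ∫⁻ x, F (s x) ∂(c.ν μ) = ∫⁻ x, F x ∂(c.ν μ)) ∧
    ∀ F : X → E, AEStronglyMeasurable F μ → (∀ (g : G) x, F (g • x) = F x) →
      (Integrable (fun x => F (s x)) (c.ν μ) ↔ Integrable F (c.ν μ)) :=
  ⟨fun _ hF hinv => c.lintegral_twist hs hσ hF hinv,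
    fun _ hF hinv => c.integrable_twist hs hσ hF hinv⟩

end Existence

/-! ## 3. The rows of a bounded kernel

`ν` is a finite measure on `X`; `hK : BK K` says that `K : X × X → ℂ` is measurable and bounded. -/

section Rows

variable {X : Type*} [MeasurableSpace X] {ν : Measure X} [IsFiniteMeasure ν] {K : X → X → ℂ}

/-- **The constants.** `hK.B` is a bound for `|K|`, and `hK.C ν = ν(X) ^ (1/2) * hK.B` a bound for the norms
of the rows in `L²`. File `H32ZHS`. -/
theorem constants (hK : BK K) :
    0 ≤ hK.B ∧ (∀ x y, ‖K x y‖ ≤ hK.B) ∧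
      hK.C ν = (measureUnivNNReal ν : ℝ) ^ (2⁻¹ : ℝ) * hK.B ∧ 0 ≤ hK.C ν :=
  ⟨hK.B_nonneg, hK.le_B, rfl, hK.C_nonneg⟩

/-- **Rows.** `hK.row ν x` is the class of `y ↦ conj K(x, y)` in `L²`. Its scalar product with `f` (conjugate
linear in the first variable) is `∫ K(x, y) f(y) dν(y)`, and its norm is at most `hK.C ν`, for EVERY `x`.
File `H32ZHS`. -/
theorem rows (hK : BK K) (x : X) :
    (hK.row ν x =ᵐ[ν] fun y => conj (K x y)) ∧
      (∀ f : Lp ℂ 2 ν, inner ℂ (hK.row ν x) f = ∫ y, K x y * f y ∂ν) ∧ ‖hK.row ν x‖ ≤ hK.C ν :=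
  ⟨hK.coeFn_row x, hK.inner_row x, hK.norm_row_le x⟩

/-- **Values of the operator.** The function `x ↦ ⟨row x, f⟩` represents `op K f`, it is measurable, and it is
bounded by `hK.C ν * ‖f‖`. More generally `x ↦ ∫ K(x, y) f(y) dν(y)` is measurable for measurable `f`
(Fubini). File `H32ZHS`. -/
theorem operator_values (hK : BK K) (f : Lp ℂ 2 ν) :
    (hK.op ν f =ᵐ[ν] fun x => inner ℂ (hK.row ν x) f) ∧
      (∀ x, ‖inner ℂ (hK.row ν x) f‖ ≤ hK.C ν * ‖f‖) ∧
      (StronglyMeasurable fun x => inner ℂ (hK.row ν x) f) ∧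
      ∀ g : X → ℂ, StronglyMeasurable g → StronglyMeasurable fun x => ∫ y, K x y * g y ∂ν :=
  ⟨hK.coeFn_op f, fun x => hK.norm_inner_row_le x f, hK.stronglyMeasurable_inner_row f,
    fun _ hg => hK.stronglyMeasurable_apply hg⟩

/-- The square of the norm of an element `g` of `L²` is `∫ |g|²`. File `H32ZHS`. -/
theorem norm_square {ν : Measure X} (g : Lp ℂ 2 ν) : ‖g‖ ^ 2 = ∫ x, ‖g x‖ ^ 2 ∂ν :=
  norm_sq_eq_integral g

end Rows

/-! ## 4. Compactness -/

section Projections

variable {E : Type*} [NormedAddCommGroup E] [InnerProductSpace ℂ E] {ι : Type*}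
  (b : HilbertBasis ι ℂ E)

/-- **Finite partial projections.** For a Hilbert basis `b` and a finite set `s` of indices `hbP b s` is the
orthogonal projection to the span of the `b_i`, `i ∈ s`. It is symmetric and compact (finite rank). File
`H32ZHS`. -/
theorem partial_projection (s : Finset ι) (u f : E) :
    hbP b s f = ∑ i ∈ s, inner ℂ (b i) f • b i ∧
      inner ℂ u (hbP b s f) = inner ℂ (hbP b s u) f ∧ IsCompactOperator (hbP b s) :=
  ⟨hbP_apply b s f, inner_hbP b s u f, isCompactOperator_hbP b s⟩

/-- **Distances** to the partial projections: `‖u - P u‖² = ‖u‖² - ∑_{i ∈ s} |⟨b_i, u⟩|²`; they tend to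
zero when `s` grows (Parseval). File `H32ZHS`. -/
theorem distance_to_projection (u : E) :
    (∀ s : Finset ι, ‖u - hbP b s u‖ ^ 2 = ‖u‖ ^ 2 - ∑ i ∈ s, ‖inner ℂ (b i) u‖ ^ 2) ∧
      Tendsto (fun s : Finset ι => ‖u‖ ^ 2 - ∑ i ∈ s, ‖inner ℂ (b i) u‖ ^ 2) atTop (𝓝 0) :=
  ⟨fun s => norm_sub_hbP_sq b s u, tendsto_norm_sub_hbP b u⟩

/-- **Orthonormal families of a separable space are countable**: the balls of radius `1/2` about the vectors
are disjoint, since the distances are `√2`. Needed because dominated convergence is for countable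
families. File `H32ZHS`. -/
theorem orthonormal_countable {E : Type*} [NormedAddCommGroup E] [InnerProductSpace ℂ E]
    [TopologicalSpace.SeparableSpace E] {ι : Type*} {v : ι → E} (hv : Orthonormal ℂ v) :
    Countable ι :=
  countable_of_orthonormal hv

end Projections

section Compactness

variable {X : Type*} [MeasurableSpace X] {ν : Measure X} [IsFiniteMeasure ν] {K : X → X → ℂ}
  {ι : Type*} (b : HilbertBasis ι ℂ (Lp ℂ 2 ν))

/-- **The remainder** `hK.rem b s x` is the square of the distance of the row of `x` to its partial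
projection; it is between `0` and `(hK.C ν)²`, and measurable in `x`. File `H32ZHS`. -/
theorem remainder (hK : BK K) (s : Finset ι) (x : X) :
    hK.rem b s x = ‖hK.row ν x‖ ^ 2 - ∑ i ∈ s, ‖inner ℂ (b i) (hK.row ν x)‖ ^ 2 ∧
      hK.rem b s x = ‖hK.row ν x - hbP b s (hK.row ν x)‖ ^ 2 ∧ 0 ≤ hK.rem b s x ∧
      hK.rem b s x ≤ hK.C ν ^ 2 ∧ Measurable (hK.rem b s) :=
  ⟨rfl, hK.rem_eq b s x, hK.rem_nonneg b s x, hK.rem_le b s x, hK.measurable_rem b s⟩

/-- **Dominated convergence**: the integral of the remainder tends to zero. File `H32ZHS`. -/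
theorem remainder_tends_to_zero [Countable ι] (hK : BK K) :
    Tendsto (fun s : Finset ι => ∫ x, hK.rem b s x ∂ν) atTop (𝓝 0) :=
  hK.tendsto_integral_rem b

/-- **Approximation by operators of finite rank**: the norm of `op K - op K ∘ P_s` is at most the square root
of the integral of the remainder (`(op K - op K P) f` has the value `⟨row x - P row x, f⟩` at `x`). With the
previous theorem the operator is a limit of compact operators, hence compact
(`GuideTrace.operator_compact`). File `H32ZHS`. -/
theorem finite_rank_approximation (hK : BK K) (s : Finset ι) :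
    ‖hK.op ν - (hK.op ν).comp (hbP b s)‖ ≤ Real.sqrt (∫ x, hK.rem b s x ∂ν) :=
  hK.norm_op_sub_le b s

end Compactness

/-! ## 5. Adjoint kernels and traces -/

section Adjoint

variable {X : Type*} [MeasurableSpace X] {ν : Measure X} [IsFiniteMeasure ν] {K M : X → X → ℂ}

/-- **The adjoint** of the operator of `M` is the operator of the kernel `conj M(y, x)` (Fubini: the function
`M(x, y) f(x) g(y)` is integrable on `X × X` for integrable `f` and `g`). File `H32ZHS`. -/
theorem adjoint_kernel (hM : BK M) (u v : Lp ℂ 2 ν) :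
    (∀ x y, adjK M x y = conj (M y x)) ∧ BK (adjK M) ∧
      inner ℂ (hM.adj.op ν u) v = inner ℂ u (hM.op ν v) ∧
      ∀ f g : X → ℂ, Integrable f ν → Integrable g ν →
        Integrable (fun z : X × X => M z.1 z.2 * (f z.1 * g z.2)) (ν.prod ν) :=
  ⟨fun _ _ => rfl, hM.adj, hM.inner_op_adj u v, fun _ _ hf hg => hM.integrable_prod hf hg⟩

/-- The operator of a hermitian kernel is symmetric. File `H32ZHS`. -/
theorem operator_symmetric (hK : BK K) (hsym : ∀ x y, K y x = conj (K x y)) :
    (hK.op ν).IsSymmetric :=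
  hK.isSymmetric hsym

/-- **The operator is Hilbert-Schmidt**: the sum over a Hilbert basis of the integrals of
`|⟨row x, b_i⟩|²` (this is `∑ ‖op K b_i‖²`) converges. Hence
`∑_i ⟨b_i, op M op K b_i⟩ = ∑_i ∫ ⟨row_K x, b_i⟩ ⟨b_i, row_{M*} x⟩ dν(x)` may be integrated term by term, and
Parseval's formula gives `∫∫ K(x, y) M(y, x)`, the formula `GuideTrace.trace_of_product`. File
`H32ZHS`. -/
theorem hilbert_schmidt {ι : Type*} (b : HilbertBasis ι ℂ (Lp ℂ 2 ν)) (hK : BK K) :
    Summable fun i => ∫ x, ‖inner ℂ (hK.row ν x) (b i)‖ ^ 2 ∂ν :=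
  hK.summable_integral_inner_sq b

end Adjoint

/-! ## 6. Eigenfunctions and the trace identity

`Eig hK ν c` is the space of the bounded measurable functions `f` with
`c f(x) = ∫ K(x, y) f(y) dν(y)` for every `x`. -/

section Eigenfunctions

variable {X : Type*} [MeasurableSpace X] {ν : Measure X} [IsFiniteMeasure ν] {K M : X → X → ℂ}

/-- The class in `L²` of an eigenfunction, `Eig.toL2 hK ν c f`, is an eigenvector of the operator. File
`H32ZEig`. -/
theorem eigenfunction_class {hK : BK K} {c : ℝ} (f : Eig hK ν c) :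
    (Eig.toL2 hK ν c f =ᵐ[ν] (f : X → ℂ)) ∧
      hK.op ν (Eig.toL2 hK ν c f) = (c : ℂ) • Eig.toL2 hK ν c f :=
  ⟨Eig.coeFn_toL2 f, Eig.op_toL2 f⟩

/-- **Eigenvectors are eigenfunctions.** For `c ≠ 0` this is a bijection from `Eig hK ν c` to the eigenspace
of the operator on `L²`: the eigenvector `φ` is the class of the bounded function
`x ↦ c⁻¹ ⟨row x, φ⟩`; and an eigenfunction which is zero almost everywhere is zero, because
`c f(x) = ∫ K(x, y) f(y)`. File `H32ZEig`. -/
theorem eigenvectors_are_functions (hK : BK K) {c : ℝ} (hc : c ≠ 0) :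
    ∃ e : Eig hK ν c ≃ₗ[ℂ]
        Module.End.eigenspace (hK.op ν : Module.End ℂ (Lp ℂ 2 ν)) (c : ℂ),
      ∀ f : Eig hK ν c, (e f : Lp ℂ 2 ν) = Eig.toL2 hK ν c f :=
  ⟨eigEquiv hK ν hc, coe_eigEquiv hK hc⟩

/-- **Two kernels.** If `∫ M(x, y) f(y) dν(y) = c g(x)` for all `x`, with `f`, `g` in `Eig hK ν c`, the same
holds for the classes in `L²`. File `H32ZEig`. -/
theorem second_kernel {hK : BK K} (hM : BK M) {c : ℝ} {f g : Eig hK ν c}
    (h : ∀ x, ∫ y, M x y * (f : X → ℂ) y ∂ν = (c : ℂ) * (g : X → ℂ) x) :
    hM.op ν (Eig.toL2 hK ν c f) = (c : ℂ) • Eig.toL2 hK ν c g :=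
  op_of_Eig hM h

variable [MeasurableSpace.CountablyGenerated X]

/-- **Finite dimension** of the eigenspaces in `L²` with nonzero eigenvalue, because the operator is
compact. File `H32ZEig`. -/
theorem eigenspace_finite (hK : BK K) {c : ℝ} (hc : c ≠ 0) :
    FiniteDimensional ℂ
      (Module.End.eigenspace (hK.op ν : Module.End ℂ (Lp ℂ 2 ν)) (c : ℂ)) :=
  finite_eigenspace hK hc

/-- **The orthonormal family of eigenvectors.** `Jdx hK ν` is the set of the pairs `j = (c, i)`, `c ≠ 0` real
and `i` smaller than the dimension of the eigenspace of `c`; `phi hK ν (c, i)` is the `i`-th vector of an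
orthonormal basis of this eigenspace. For hermitian `K` the family is orthonormal. File `H32ZEig`. -/
theorem orthonormal_eigenvectors (hK : BK K) (hsym : ∀ x y, K y x = conj (K x y)) :
    (∀ j : Jdx hK ν, phi hK ν j ∈
      Module.End.eigenspace (hK.op ν : Module.End ℂ (Lp ℂ 2 ν)) ((j.1 : ℝ) : ℂ)) ∧
      Orthonormal ℂ (phi hK ν) :=
  ⟨fun j => (eigBasis hK ν j.1 j.2).2, orthonormal_phi hK hsym⟩

/-- **Completeness.** A vector which is orthogonal to all these eigenvectors is killed by the operator: by
the spectral theorem for compact symmetric operators (Mathlib) it is enough that `op K v` is orthogonal to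
all eigenspaces (for the eigenvalue `0` this is clear by symmetry). Now complete the family to a Hilbert
basis `b`: the new vectors contribute nothing to `∑_i ⟨b_i, op M op K b_i⟩`, and the vector `phi (c, i)`
contributes `c ⟨phi, op M phi⟩`, which is `c² ⟨phi, B_c phi⟩` by `second_kernel`; the sum over `i` is
`c² tr(B_c)`. On the other hand the whole sum is `∫∫ K(x, y) M(y, x)` (`hilbert_schmidt`). This is
`GuideTrace.trace_identity`. File `H32ZEig`. -/
theorem completeness (hK : BK K) (hsym : ∀ x y, K y x = conj (K x y)) {v : Lp ℂ 2 ν}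
    (hv : ∀ j, inner ℂ (phi hK ν j) v = 0) : hK.op ν v = 0 :=
  op_eq_zero_of_orthogonal hK hsym hv

end Eigenfunctions

end Fermat.Agent.Guide.TraceSteps
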