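import Fermat.Agent.H4EATr
import Fermat.Agent.H21JIter

/-!
# Guide: twist embeddings

Companion of `GuideEigen` and `GuideEigenSteps`. A class with character `χ²` in the cohomology of `Γ₀(M)`
is mapped injectively to a class without character of a higher level `Γ₀(M N)` by twisting with `χ`. This
makes it possible to use only the curves `X₀(N)` in the lifting theorems.

* section 1: the twist by a character of prime conductor `q` (matrices `(q, u; 0, q)`): Hecke operators,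
  injectivity, vanishing of the push-forwards;
* section 2: embeddings that are compatible with `T_ℓ`, `U_n` and the Atkin-Lehner operators; iteration;
* section 3: classes killed by both traces from level `M q` to level `M`, and their behaviour under
  embeddings.

**Statements served.** S01, S03, S04, S06, S38, S43, S45, S46, S50, S59, S60. Every library theorem cited
here occurs in the proof term of S01. NOTES: [158] NOTES-EIGEN-ANALYSIS. Authors of the library files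
cited here: `H21J*` helper21, `H4EATr` helper4, `H37Tr*` helper37, `H70*` helper70.

**Conventions.** `DN N` is the monoid of the integral matrices `(a, b; c, d)` of positive determinant with
`N ∣ c` and `a` prime to `N`. A *coefficient system* of level `N` is a homomorphism `ρ` from `DN N` to the
opposite ring of `End V` (a right action `slash ρ α v` on `V`). For `N ∣ M` the homomorphism
`gam N M hM : Γ₀(M) → DN N` is the inclusion, and `H1 (gam N M hM) ρ` is `H¹(Γ₀(M), V)`; `psiRep ψ W` is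
the module `W` on which `α` acts by `ψ(a)`, `a` the upper left entry. A *family* `h : HFam _ _` is a finite
set of matrices `α_i` permuted up to left multiplication by the groups (see `GuideEigen`, section 1);
`h.opH ρ` is the operator on `H¹` given by it. `tFam`, `uFam` are the families of `T_ℓ`, `U_n`;
`H70.Coh.trFam` and `nuFam` those of the two traces from level `M q` to level `M` (`H37.Tr.trFam w` is the
first one for `q ∤ M`, with explicit representatives); `resFam` is the restriction from level `M` to a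
higher level, and `wFam` the Atkin-Lehner matrix `(q x, y; M q z, q t)` of determinant `q` (`w : AL M q`
consists of integers with `q x t - M y z = 1`).
-/

set_option autoImplicit false

noncomputable section

open CongruenceSubgroup Matrix.SpecialLinearGroup
open scoped MatrixGroups

namespace Fermat.Agent.Guide.TwistEmbedding

open H70.Coh H37.Tr H21J H4

/-! ## 1. The twist by a character of prime conductor

`q` is a prime, `q ∤ N`, `χ : (ℤ/q)ˣ → Rˣ` a character, `ρ` a coefficient system of level `N`, and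
`rTw χ ρ` the coefficient system of level `N q` with `α` acting as `χ(a)² ρ(α)`. The twist
`tw : H¹(Γ₀(L), ρ ⊗ χ²) → H¹(Γ₀(L'), ρ)`, `L q ∣ L'`, is the operator of the family of the matrices
`(q, u; 0, q)`, `u ∈ (ℤ/q)ˣ`, with the weights `χ(u)`; on the Fourier coefficients of a modular form this
family acts as `a_n ↦ g(χ) χ(n)⁻¹ a_n`, `g(χ)` the Gauss sum. Files `H21JTw`, `H21JAbs`. -/

section Twist

variable {R : Type*} [CommRing R] {V : Type*} [AddCommGroup V] [Module R V] {N q : ℕ}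
  (χ : (ZMod q)ˣ →* Rˣ) (ρ : DN N →* (Module.End R V)ᵐᵒᵖ) (hq : q.Prime) (hqN : ¬ q ∣ N)
  {L L' : ℕ} (hL : N * q ∣ L) (hL' : N ∣ L') (hLL' : L * q ∣ L')

/-- The matrices of the twist and their weights. File `H21JTw`. -/
theorem twist_matrices (u : (ZMod q)ˣ) :
    ((twFam hq hqN χ hL hL' hLL').α u).1.1 = !![(q : ℤ), ((u : ZMod q).val : ℤ); 0, (q : ℤ)] ∧
      ((twFam hq hqN χ hL hL' hLL').α u).2 = χ u :=
  ⟨twRep_val hq hqN u, rfl⟩

/-- **Invariance**: for `γ ∈ Γ₀(L)`, `q² ∣ L`, with upper left entry `a` there is `δ ∈ Γ₀(L)` with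
`(q, u; 0, q) γ = δ (q, u'; 0, q)`, `u' = u / a²`, and `δ` has the same upper left entry modulo `q`. This
is used for the level `L'` of the target; it is why the coefficients change by `χ(a)²`. (`twRep N hq hqN u`
is the matrix `(q, u; 0, q)`, `aU q hqL γ` the class of `a` modulo `q`.) File `H21JTw`. -/
theorem twist_invariance (hqL : q ∣ L) (hqq : q * q ∣ L) (γ : Gamma0 L) (u : (ZMod q)ˣ) :
    ∃ δ : Gamma0 L, (twRep N hq hqN u).1 * ((γ : SL(2, ℤ)) : Matrix (Fin 2) (Fin 2) ℤ) =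
      ((δ : SL(2, ℤ)) : Matrix (Fin 2) (Fin 2) ℤ) *
        (twRep N hq hqN (u * (aU q hqL γ ^ 2)⁻¹ : (ZMod q)ˣ)).1 ∧ aU q hqL δ = aU q hqL γ :=
  tw_core hq hqN hqL hqq γ u

/-- **Hecke operators**: `tw (T_ℓ x) = χ(ℓ) T_ℓ (tw x)` for primes `ℓ ∤ L'`. File `H21JEq`. -/
theorem twist_hecke {ℓ : ℕ} (hℓ : ℓ.Prime) (hℓL : ¬ ℓ ∣ L) (hℓL' : ¬ ℓ ∣ L')
    (x : H1 (gam (N * q) L hL) (rTw χ ρ)) :
    tw hq hqN χ ρ hL hL' hLL' ((tFam hL hℓ hℓL).opH (rTw χ ρ) x) =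
      ((χ (ZMod.unitOfCoprime ℓ (coprime_q_of hL hℓ hℓL)) : Rˣ) : R) •
        (tFam hL' hℓ hℓL').opH ρ (tw hq hqN χ ρ hL hL' hLL' x) :=
  tw_tFam χ ρ hq hqN hL' hLL' hℓ hℓL hℓL' x

/-- `tw (U_n x) = χ(n) U_n (tw x)` for `n ∣ L` prime to `q`. File `H21JEq`. -/
theorem twist_U {n : ℕ} (hn : 0 < n) (hnq : n.Coprime q) (hnL : n ∣ L) (hnL' : n ∣ L')
    (x : H1 (gam (N * q) L hL) (rTw χ ρ)) :
    tw hq hqN χ ρ hL hL' hLL' ((uFam hL hn hnL).opH (rTw χ ρ) x) =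
      ((χ (ZMod.unitOfCoprime n hnq) : Rˣ) : R) •
        (uFam hL' hn hnL').opH ρ (tw hq hqN χ ρ hL hL' hLL' x) :=
  tw_uFam χ ρ hq hqN hL' hLL' hn hnq hnL hnL' x

/-- **Atkin-Lehner families** (`IsAL r h`, written out): `h` consists of one matrix
`(r x, y; L z, r t)` of determinant `r`. File `H21JAL`. -/
theorem isAL_iff {N L r : ℕ} {hL : N ∣ L} (h : HFam (gam N L hL) (gam N L hL)) :
    IsAL r h ↔ Nonempty (h.J ≃ Unit) ∧ ∀ i, ∃ x y z t : ℤ, (h.α i).1 = !![r * x, y; L * z, r * t] ∧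
      (r : ℤ) * x * (r * t) - y * (L * z) = r :=
  ⟨fun H => ⟨H.uni, H.mat⟩, fun H => ⟨H.1, H.2⟩⟩

/-- `tw (w_r x) = χ(r) w_r (tw x)` for `r ∣ L` prime to `q`. File `H21JAL`. -/
theorem twist_atkinLehner {r : ℕ} (hr : 0 < r) (hrL : r ∣ L) (hrq : r.Coprime q)
    {t : HFam (gam (N * q) L hL) (gam (N * q) L hL)} {s : HFam (gam N L' hL') (gam N L' hL')}
    (ht : IsAL r t) (hs : IsAL r s) (x : H1 (gam (N * q) L hL) (rTw χ ρ)) :
    tw hq hqN χ ρ hL hL' hLL' (t.opH (rTw χ ρ) x) =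
      ((χ (ZMod.unitOfCoprime r hrq) : Rˣ) : R) • s.opH ρ (tw hq hqN χ ρ hL hL' hLL' x) :=
  tw_AL χ ρ hq hqN hL hL' hLL' hr hrL hrq ht hs x

/-- **Twists are killed by `U_q`** if `χ` is not trivial (`Σ χ(u) = 0`). File `H21JNew`. -/
theorem twist_U_q [NeZero q] (hχ : ∑ u, ((χ u : Rˣ) : R) = 0) (hqL' : q ∣ L')
    (x : H1 (gam (N * q) L hL) (rTw χ ρ)) :
    (uFam hL' hq.pos hqL').opH ρ (tw hq hqN χ ρ hL hL' hLL' x) = 0 :=
  uFam_tw χ ρ hq hqN hL' hLL' hχ hqL' x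

/-- **The twist is injective** on `H¹(Γ₀(M q), ρ ⊗ χ²)`, `q ∤ M`, with target of level `M q²`, if `χ²` is
not trivial, `q (q - 1)` is invertible in `R` and the scalar matrix `q²` (`scq`) acts by a unit `κ`. Proof:
twist back with `χ⁻¹` and take the trace to level `M q`; the result is `χ(-1) q (q - 1)` times the action of
`q²`, plus terms with `Σ χ(u)⁻² = 0`. File `H21JInj`. -/
theorem twist_injective {M : ℕ} (hqM : ¬ q ∣ M) (hM : 0 < M) [NeZero q]
    (hχ2 : ∑ u, ((((χ u) ^ 2)⁻¹ : Rˣ) : R) = 0) (hu : IsUnit (((q - 1 : ℕ) : R) * q))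
    (hLM : N * q ∣ M * q) (hLe : L' = M * q * q) (hLM' : M * q * q ∣ L') (κ : Rˣ)
    (hκ : ∀ v, slash ρ (scq hq hqN) v = (κ : R) • v) :
    Function.Injective (tw hq hqN χ ρ hLM hL' hLM') :=
  tw_injective χ ρ hq hqN hqM hM hχ2 hu hLM hLe hL' hLM' κ hκ

end Twist

/-! ### The twist is new at `q`

The push-forwards of a twist to lower levels vanish. From `lower_sum_of_twist` on, `L = M q` with `q ∤ M`;
`w` is an Atkin-Lehner operator of determinant `q²` at level `M q²`. -/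

section TwistNew

variable {R : Type*} [CommRing R] {V : Type*} [AddCommGroup V] [Module R V] {N M q : ℕ}
  (χ : (ZMod q)ˣ →* Rˣ) (ρ : DN N →* (Module.End R V)ᵐᵒᵖ) (hq : q.Prime) (hqN : ¬ q ∣ N)

/-- **Sums over the matrices `(1, j; 0, q)`**, `j` modulo `q` (`uRep`), kill twists if `Σ χ(u) = 0`, for every
level `L''` of the target: `(q, u; 0, q) (1, j; 0, q) = (1, t; 0, 1) (q, q w; 0, q²)` with `w = u + j` modulo
`q`, and for fixed `w` the weights are the `χ(u)`. Special cases: `twist_U_q` and the push-forward `betaFam`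
(see `isQNew_iff`). File `H21JNew`. -/
theorem upper_sum_of_twist [NeZero q] (hχ : ∑ u, ((χ u : Rˣ) : R) = 0) {L L' L'' : ℕ}
    {hL : N * q ∣ L} (hL' : N ∣ L') (hLL' : L * q ∣ L') {hL'' : N ∣ L''}
    (s : HFam (gam N L' hL') (gam N L'' hL'')) (es : s.J ≃ ZMod q)
    (hs : ∀ i, s.α i = uRep N hq.pos (es i)) (x : H1 (gam (N * q) L hL) (rTw χ ρ)) :
    s.opH ρ (tw hq hqN χ ρ hL hL' hLL' x) = 0 :=
  u_tw χ ρ hq hqN hL' hLL' hχ s es hs x

/-- **Lower triangular matrices**: `(q, u; 0, q) (1, 0; M q j, 1) = δ (q, 1; 0, q) (1, 0; M q k, 1)` with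
`δ ∈ Γ₀(M q)` of upper left entry `u` modulo `q`, if `M k u = M j u + 1 - u` modulo `q`. (`lo L j` is the
matrix `(1, 0; L j, 1)`.) File `H21JNew`. -/
theorem lower_matrices (u : (ZMod q)ˣ) (j k : ZMod q)
    (hk : (M : ZMod q) * k * u = (M : ZMod q) * j * u + 1 - u) :
    ∃ δ : Gamma0 (M * q), (twRep N hq hqN u).1 *
        ((lo (M * q) (j.val : ℤ) : SL(2, ℤ)) : Matrix (Fin 2) (Fin 2) ℤ) =
      ((δ : SL(2, ℤ)) : Matrix (Fin 2) (Fin 2) ℤ) * ((twRep N hq hqN 1).1 *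
        ((lo (M * q) (k.val : ℤ) : SL(2, ℤ)) : Matrix (Fin 2) (Fin 2) ℤ)) ∧
      aU q (dvd_mul_left q M) δ = u :=
  tr_core hq hqN u j k hk

variable [NeZero q] (hqM : ¬ q ∣ M) (hχ' : ∑ u, (((χ u)⁻¹ : Rˣ) : R) = 0) (hL : N * q ∣ M * q)
  {L' : ℕ} (hNL' : N ∣ L') (hLL' : M * q * q ∣ L')

include hqM hχ' in
/-- **Sums over the matrices `(1, 0; M q k, 1) B`**, `k` modulo `q`, `B` fixed, kill twists if
`Σ χ(u)⁻¹ = 0`: in `lower_matrices` (with `k = j + (u⁻¹ - 1) / M`) the matrix `δ` acts with the weight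
`χ(u)²`, so that for fixed `k` the weights are `χ(u) χ(u)⁻² = χ(u)⁻¹`. For `B = 1` this is the trace to level
`M q` (`ctrFam`, see `isQNew_iff`). File `H21JNew`. -/
theorem lower_sum_of_twist (hNL : N ∣ M * q) {L'' : ℕ} {hNL'' : N ∣ L''}
    (s : HFam (gam N L' hNL') (gam N L'' hNL'')) (B : DN N) (es : s.J ≃ ZMod q)
    (hs : ∀ i, s.α i = gam N (M * q) hNL (lo (M * q) ((es i).val : ℤ)) * B)
    (x : H1 (gam (N * q) (M * q) hL) (rTw χ ρ)) :
    s.opH ρ (tw hq hqN χ ρ hL hNL' hLL' x) = 0 :=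
  tr_tw_aux χ ρ hq hqN hqM hχ' hL hNL hNL' hLL' s B es hs x

include hqM hχ' in
/-- **`U_q w` kills twists**, `w` given by one matrix `(q² a, b; M q² c, q² d)` of determinant `q²`. Proof:
up to `Γ₀(M q²)` on the left, `w (1, j; 0, q)` is `(1, 0; M q k, 1) w (1, 0; 0, q)` with
`k = - M c² j` modulo `q`, and `M c²` is prime to `q`; use `lower_sum_of_twist`. File `H21JNew`. -/
theorem twist_U_w (hLe : L' = M * q * q) (hqL' : q ∣ L')
    (w : HFam (gam N L' hNL') (gam N L' hNL')) (ew : w.J ≃ Unit) (a b c d : ℤ)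
    (hW : ∀ i, (w.α i).1 = !![q * q * a, b; M * (q * q) * c, q * q * d])
    (hdet : q * q * a * d - M * b * c = 1) (x : H1 (gam (N * q) (M * q) hL) (rTw χ ρ)) :
    (uFam hNL' hq.pos hqL').opH ρ (w.opH ρ (tw hq hqN χ ρ hL hNL' hLL' x)) = 0 :=
  uFam_w_tw χ ρ hq hqN hqM hχ' hL hNL' hLL' hLe hqL' w ew a b c d hW hdet x

end TwistNew

/-! ## 2. Embeddings and their iteration -/

section Embeddings

variable {R : Type*} [CommRing R] {V : Type*} [AddCommGroup V] [Module R V]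

/-- **Embeddings** (`TwEmb hM hM' ρ ρ' κ E`, written out): `E : H¹(Γ₀(M), ρ) → H¹(Γ₀(M'), ρ')` is an
injective linear map with `M ∣ M'`, `N' ∣ N`, `E T_ℓ = κ(ℓ) T_ℓ E`, `E U_n = κ(n) U_n E` and
`E w_r = κ(r) w_r E` for `ℓ`, `n`, `r` prime to `N`. File `H21JEmb`. -/
theorem twEmb_iff {N M N' M' : ℕ} (hM : N ∣ M) (hM' : N' ∣ M')
    (ρ : DN N →* (Module.End R V)ᵐᵒᵖ) (ρ' : DN N' →* (Module.End R V)ᵐᵒᵖ)
    (κ : (ZMod N)ˣ →* Rˣ) (E : H1 (gam N M hM) ρ →ₗ[R] H1 (gam N' M' hM') ρ') :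
    TwEmb hM hM' ρ ρ' κ E ↔ M ∣ M' ∧ N' ∣ N ∧ Function.Injective E ∧
      (∀ {ℓ : ℕ} (hℓ : ℓ.Prime) (hℓM : ¬ ℓ ∣ M) (hℓM' : ¬ ℓ ∣ M') (hc : ℓ.Coprime N)
        (x : H1 (gam N M hM) ρ), E ((tFam hM hℓ hℓM).opH ρ x) =
          ((κ (ZMod.unitOfCoprime ℓ hc) : Rˣ) : R) • (tFam hM' hℓ hℓM').opH ρ' (E x)) ∧
      (∀ {n : ℕ} (hn : 0 < n) (hnM : n ∣ M) (hnM' : n ∣ M') (hc : n.Coprime N)
        (x : H1 (gam N M hM) ρ), E ((uFam hM hn hnM).opH ρ x) =
          ((κ (ZMod.unitOfCoprime n hc) : Rˣ) : R) • (uFam hM' hn hnM').opH ρ' (E x)) ∧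
      (∀ {r : ℕ} (_ : 0 < r) (_ : r ∣ M) (hc : r.Coprime N)
        {t : HFam (gam N M hM) (gam N M hM)} {s : HFam (gam N' M' hM') (gam N' M' hM')}
        (_ : IsAL r t) (_ : IsAL r s) (x : H1 (gam N M hM) ρ), E (t.opH ρ x) =
          ((κ (ZMod.unitOfCoprime r hc) : Rˣ) : R) • s.opH ρ' (E x)) :=
  ⟨fun h => ⟨h.dvdM, h.dvdN, h.inj, h.T, h.U, h.AL⟩,
    fun h => ⟨h.1, h.2.1, h.2.2.1, h.2.2.2.1, h.2.2.2.2.1, h.2.2.2.2.2⟩⟩

/-- **The twist is an embedding.** File `H21JEmb`. -/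
theorem twist_is_embedding {N M q : ℕ} (hq : q.Prime) (hqN : ¬ q ∣ N) (χ : (ZMod q)ˣ →* Rˣ)
    (ρ : DN N →* (Module.End R V)ᵐᵒᵖ) (hqM : ¬ q ∣ M) (hM : 0 < M) [NeZero q]
    (hχ2 : ∑ u, ((((χ u) ^ 2)⁻¹ : Rˣ) : R) = 0) (hu : IsUnit (((q - 1 : ℕ) : R) * q))
    (hL : N * q ∣ M * q) {L' : ℕ} (hLe : L' = M * q * q) (hNL' : N ∣ L')
    (hLL' : M * q * q ∣ L') (κ : Rˣ) (hκ : ∀ v, slash ρ (scq hq hqN) v = (κ : R) • v) :
    TwEmb hL hNL' (rTw χ ρ) ρ (χ.comp (ZMod.unitsMap (dvd_mul_left q N)))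
      (tw hq hqN χ ρ hL hNL' hLL') :=
  twEmb_tw hq hqN χ ρ hqM hM hχ2 hu hL hLe hNL' hLL' κ hκ

/-- **Composition** of embeddings: the characters are multiplied. File `H21JEmb`. -/
theorem embedding_comp {N M N' M' N'' M'' : ℕ} {hM : N ∣ M} {hM' : N' ∣ M'} {hM'' : N'' ∣ M''}
    {ρ : DN N →* (Module.End R V)ᵐᵒᵖ} {ρ' : DN N' →* (Module.End R V)ᵐᵒᵖ}
    {ρ'' : DN N'' →* (Module.End R V)ᵐᵒᵖ} {κ : (ZMod N)ˣ →* Rˣ} {κ' : (ZMod N')ˣ →* Rˣ}
    {E : H1 (gam N M hM) ρ →ₗ[R] H1 (gam N' M' hM') ρ'}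
    {E' : H1 (gam N' M' hM') ρ' →ₗ[R] H1 (gam N'' M'' hM'') ρ''}
    (h : TwEmb hM hM' ρ ρ' κ E) (h' : TwEmb hM' hM'' ρ' ρ'' κ' E') :
    TwEmb hM hM'' ρ ρ'' (κ * κ'.comp (ZMod.unitsMap h.dvdN)) (E' ∘ₗ E) :=
  h.comp h'

/-- **`q`-new classes** (`IsQNew`, written out) at level `M`: `U_q y = 0`, `U_q w y = 0` for the
Atkin-Lehner operators `w` of determinant `q²`, and both push-forwards to level `M/q` (if `q² ∣ M`) are 0
(`betaFam`, `ctrFam`: explicit families of the matrices `(1, j; 0, q)` and `(1, 0; Lj, 1)`). The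
eigen-analysis uses the last two properties. File `H21JCrt`. -/
theorem isQNew_iff {N M : ℕ} (hM : N ∣ M) (ρ : DN N →* (Module.End R V)ᵐᵒᵖ) (q : ℕ) (hq : 0 < q)
    (y : H1 (gam N M hM) ρ) :
    IsQNew hM ρ q hq y ↔ (∀ hqM : q ∣ M, (uFam hM hq hqM).opH ρ y = 0) ∧
      (∀ (hqM : q ∣ M) (w : HFam (gam N M hM) (gam N M hM)), IsAL (q * q) w →
        (uFam hM hq hqM).opH ρ (w.opH ρ y) = 0) ∧
      (∀ {L : ℕ} (hL : N ∣ L) (h : M = L * q) (hqL : q ∣ L),
        (betaFam hM hL h hq hqL).opH ρ y = 0) ∧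
      (∀ {L : ℕ} (hL : N ∣ L) (h : M = L * q) (hL0 : 0 < L) (hqL : q ∣ L),
        (ctrFam hM hL h hL0 hq hqL).opH ρ y = 0) :=
  ⟨by rintro ⟨h1, h2, h3, h4⟩; exact ⟨h1, h2, h3, h4⟩, fun h => ⟨h.1, h.2.1, h.2.2.1, h.2.2.2⟩⟩

/-- **Twists are `q`-new**: the image of the twist from level `M q` to level `M q²` consists of `q`-new
classes, if `q ∤ M` and `Σ χ(u) = Σ χ(u)⁻¹ = 0`. By `upper_sum_of_twist`, `lower_sum_of_twist` and
`twist_U_w`. File `H21JCrt`. -/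
theorem twist_is_new {N M q : ℕ} (χ : (ZMod q)ˣ →* Rˣ) (ρ : DN N →* (Module.End R V)ᵐᵒᵖ)
    (hq : q.Prime) (hqN : ¬ q ∣ N) (hqM : ¬ q ∣ M) [NeZero q]
    (hχ : ∑ u, ((χ u : Rˣ) : R) = 0) (hχ' : ∑ u, (((χ u)⁻¹ : Rˣ) : R) = 0)
    (hL : N * q ∣ M * q) {L' : ℕ} (hNL' : N ∣ L') (hLL' : M * q * q ∣ L')
    (hLe : L' = M * q * q) (x : H1 (gam (N * q) (M * q) hL) (rTw χ ρ)) :
    IsQNew hNL' ρ q hq.pos (tw hq hqN χ ρ hL hNL' hLL' x) :=
  isQNew_tw χ ρ hq hqN hqM hχ hχ' hL hNL' hLL' hLe x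

/-- **The restriction is an embedding** with trivial character, from level `M` to level `M' = M q` with
`q ∣ M` and `q` invertible in `R`. The coefficients are a system `ρ` of level `N' ∣ N`, regarded at level
`M` as a system of level `N` by the inclusion `inc h : DN N → DN N'`; `rs` is the restriction map. It is
injective because the trace of a restriction is multiplication by `q`. File `H21JRes`. -/
theorem restriction_is_embedding {N N' M M' q : ℕ} (ρ : DN N' →* (Module.End R V)ᵐᵒᵖ) (h : N' ∣ N)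
    (hM : N ∣ M) (hM' : N' ∣ M') (hMM' : M ∣ M') (hMq : M' = M * q) (hM0 : 0 < M) (hq : 0 < q)
    (hqM : q ∣ M) (hu : IsUnit (q : R)) :
    TwEmb hM hM' (ρ.comp (inc h)) ρ 1 (rs ρ h hM hM' hMM') :=
  twEmb_rs ρ h hM hM' hMM' hMq hM0 hq hqM hu

/-- **Decomposition of characters**: for coprime `m`, `n` every homomorphism from `(ℤ/mn)ˣ` to a commutative
group is a product of homomorphisms of `(ℤ/m)ˣ` and `(ℤ/n)ˣ`, of orders dividing its order. File
`H21JCrt`. -/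
theorem character_decomposition {m n : ℕ} {G : Type*} [CommGroup G] (h : m.Coprime n)
    (χ : (ZMod (m * n))ˣ →* G) :
    ∃ (χ₁ : (ZMod m)ˣ →* G) (χ₂ : (ZMod n)ˣ →* G),
      χ₁.comp (ZMod.unitsMap (Dvd.intro n rfl)) * χ₂.comp (ZMod.unitsMap (Dvd.intro_left m rfl)) =
        χ ∧ ∀ k : ℕ, χ ^ k = 1 → χ₁ ^ k = 1 ∧ χ₂ ^ k = 1 :=
  exists_crt h χ

/-- **The coefficients**: the module with the character `ψ χ²`, `ψ` a character of `(ℤ/N)ˣ` and `χ` one of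
`(ℤ/q)ˣ`, is the twist `rTw χ` of the module with the character `ψ`; the one with the character `ψ`
regarded modulo a multiple `N₁` of `N` is the restriction of the module with the character `ψ` to
`DN N₁`. File `H21JCrt`. -/
theorem coefficients_of_character {K : Type*} [Field K] {W : Type*} [AddCommGroup W] [Module K W]
    {N q N₁ : ℕ} (ψ : (ZMod N)ˣ →* Kˣ) (χ : (ZMod q)ˣ →* Kˣ) (h : N ∣ N₁) :
    psiRep (ψ.comp (ZMod.unitsMap (Dvd.intro q rfl)) *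
      (χ ^ 2).comp (ZMod.unitsMap (Dvd.intro_left N rfl))) W = rTw χ (psiRep ψ W) ∧
    psiRep (ψ.comp (ZMod.unitsMap h)) W = (psiRep ψ W).comp (inc h) :=
  ⟨psiRep_rTw ψ χ, psiRep_comp_inc h ψ⟩

/-- **Characters of odd order**: if `χ ≠ 1` and `χ ^ m = 1` with `m` odd then `χ² ≠ 1`, and the sums of
`χ(u)`, `χ(u)⁻¹`, `χ(u)⁻²` over `(ℤ/q)ˣ` vanish. File `H21JCrt`. -/
theorem odd_order {K : Type*} [Field K] {q m : ℕ} [NeZero q] {χ : (ZMod q)ˣ →* Kˣ} (hm : Odd m)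
    (h : χ ^ m = 1) (h1 : χ ≠ 1) :
    χ ^ 2 ≠ 1 ∧ ∑ u, ((χ u : Kˣ) : K) = 0 ∧ ∑ u, (((χ u)⁻¹ : Kˣ) : K) = 0 ∧
      ∑ u, ((((χ u) ^ 2)⁻¹ : Kˣ) : K) = 0 :=
  ⟨sq_ne_one hm h h1, sum_eq h1, sum_inv h1, sum_sq_inv (sq_ne_one hm h h1)⟩

/-- **One step.** `q ∤ N'`, `q ∤ M₀`, `χ` a character of `(ℤ/N'q)ˣ` of odd order with values in a field of
characteristic 0. It is a product of a character `χ₁` of `(ℤ/N')ˣ` and a character `χ₂` of `(ℤ/q)ˣ`, and
there is an embedding of `H¹(Γ₀(M₀ q), χ²)` in `H¹(Γ₀(M₀ q²), χ₁²)` with character `χ₂`; if `χ₂` is not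
trivial, its image consists of `q`-new classes. (For `χ₂ = 1` the embedding is a restriction, for
`χ₂ ≠ 1` the twist; then `χ₂² ≠ 1` because the order is odd.) By `character_decomposition`,
`coefficients_of_character`, `restriction_is_embedding`, `odd_order`, `twist_is_embedding` and
`twist_is_new`. File `H21JIter`. -/
theorem one_step {K : Type*} [Field K] [CharZero K] {W : Type*} [AddCommGroup W] [Module K W]
    {N' q M₀ : ℕ} (hq : q.Prime) (hqN : ¬ q ∣ N') (hqM : ¬ q ∣ M₀) (hM₀ : 0 < M₀)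
    (hL : N' * q ∣ M₀ * q) (hL' : N' ∣ M₀ * q * q) (χ : (ZMod (N' * q))ˣ →* Kˣ) {m : ℕ}
    (hm : Odd m) (hχ : χ ^ m = 1) :
    ∃ (χ₁ : (ZMod N')ˣ →* Kˣ) (χ₂ : (ZMod q)ˣ →* Kˣ)
      (E : H1 (gam (N' * q) (M₀ * q) hL) (psiRep (χ ^ 2) W) →ₗ[K]
        H1 (gam N' (M₀ * q * q) hL') (psiRep (χ₁ ^ 2) W)),
      χ₁ ^ m = 1 ∧ χ₁.comp (ZMod.unitsMap (Dvd.intro q rfl)) *
        χ₂.comp (ZMod.unitsMap (Dvd.intro_left N' rfl)) = χ ∧
      TwEmb hL hL' (psiRep (χ ^ 2) W) (psiRep (χ₁ ^ 2) W)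
        (χ₂.comp (ZMod.unitsMap (Dvd.intro_left N' rfl))) E ∧
      (χ₂ ≠ 1 → ∀ x, IsQNew hL' (psiRep (χ₁ ^ 2) W) q hq.pos (E x)) :=
  exists_step hq hqN hqM hM₀ hL hL' χ hm hχ

/-- **The embedding, new at `q`.** `N = N₁ q` squarefree, every prime of `N` divides `M` exactly once, `χ` a
character of `(ℤ/N)ˣ` of odd order which is ramified at `q`. There is an embedding with character `χ` of
`H¹(Γ₀(M), χ²)` in `H¹(Γ₀(M N), 1)` whose image consists of `q`-new classes. (Without the last property: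
`GuideEigen.twist_embedding`.) File `H21JIter`. -/
theorem embedding_new {K : Type*} [Field K] [CharZero K] {W : Type*} [AddCommGroup W] [Module K W]
    {N₁ q N M L : ℕ} (hq : q.Prime) (hN : N = N₁ * q) (hsq : Squarefree N) (hM0 : 0 < M)
    (hex : ∀ q : ℕ, q.Prime → q ∣ N → ¬ q * q ∣ M) (hM : N ∣ M) (hL : L = M * N)
    (χ : (ZMod N)ˣ →* Kˣ) {m : ℕ} (hm : Odd m) (hχ : χ ^ m = 1) (u : (ZMod N)ˣ)
    (hu1 : ZMod.unitsMap (hN ▸ Dvd.intro q rfl) u = (1 : (ZMod N₁)ˣ)) (hu : χ u ≠ 1) :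
    ∃ E : H1 (gam N M hM) (psiRep (χ ^ 2) W) →ₗ[K]
        H1 (gam 1 L (one_dvd L)) (psiRep (1 : (ZMod 1)ˣ →* Kˣ) W),
      TwEmb hM (one_dvd L) (psiRep (χ ^ 2) W) (psiRep 1 W) χ E ∧
      ∀ x, IsQNew (one_dvd L) (psiRep 1 W) q hq.pos (E x) :=
  exists_twist_new hq hN hsq hM0 hex hM hL χ hm hχ u hu1 hu

end Embeddings

/-! ## 3. Classes killed by both traces -/

section Traces

variable {N M q : ℕ} {R : Type*} [CommRing R] {V : Type*} [AddCommGroup V] [Module R V]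
  {ρ : DN N →* (Module.End R V)ᵐᵒᵖ}

/-- For `q ∣ M` the two push-forwards from level `M q` to level `M` in the definition of `q`-new classes
are the traces `trFam` and `nuFam`. File `H4EATr`. -/
theorem pushforwards_eq [NeZero M] [NeZero q] (hNM : N ∣ M) (hq : q.Prime) (hqM : q ∣ M) :
    (ctrFam (hNM.mul_right q) hNM rfl (Nat.pos_of_ne_zero (NeZero.ne M)) hq.pos hqM).opH ρ =
      (H70.Coh.trFam hNM).opH ρ ∧
    (betaFam (hNM.mul_right q) hNM rfl hq.pos hqM).opH ρ = (nuFam hNM hq).opH ρ :=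
  ⟨ctrFam_eq hNM hq.pos hqM, betaFam_eq hNM hq hqM⟩

/-- The scalar matrix `n` (`scal N hn hnN`) acts by the scalar `σ` on the coefficients (`ScalBy`), for
instance `σ = ψ(n)`. File `H4EATr`. -/
theorem scalBy_iff {n : ℕ} (hn : 0 < n) (hnN : n.Coprime N) (σ : R) :
    ScalBy ρ hn hnN σ ↔ ∀ v, slash ρ (scal N hn hnN) v = σ • v :=
  Iff.rfl

/-- `w² = σ` for the Atkin-Lehner operator at `q ∥ M q`. File `H4EATr`. -/
theorem w_squared (hNM : N ∣ M) (hq : 0 < q) (hqN : q.Coprime N) (w : AL M q) {σ : R}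
    (hs : ScalBy ρ hq hqN σ) (x : H1 (gam N (M * q) (hNM.mul_right q)) ρ) :
    (wFam hNM hq w).opH ρ ((wFam hNM hq w).opH ρ x) = σ • x :=
  wFam_wFam_by hNM hq hqN w hs x

/-- **Restriction after trace**: `res tr x = x + g x`, where `g` (family `gFam`) is the sum over the `q`
nontrivial cosets of `Γ₀(M q)` in `Γ₀(M)`, and `U_q w x = σ g x`. Files `H4EATr`, `H37TrRel`. -/
theorem res_tr (w : AL M q) (hNM : N ∣ M) (hq : q.Prime) (hqM : ¬ q ∣ M) (hqN : q.Coprime N) {σ : R}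
    (hs : ScalBy ρ hq.pos hqN σ) (x : H1 (gam N (M * q) (hNM.mul_right q)) ρ) :
    (resFam hNM (dvd_mul_right M q)).opH ρ ((H37.Tr.trFam w hNM hq hqM).opH ρ x) =
      x + (gFam w hNM hq hqM).opH ρ x ∧
    (uFam (hNM.mul_right q) hq.pos (dvd_mul_left q M)).opH ρ ((wFam hNM hq.pos w).opH ρ x) =
      σ • (gFam w hNM hq hqM).opH ρ x :=
  ⟨resFam_trFam_g w hNM hq hqM x, uFam_wFam_by w hNM hq hqM hqN hs x⟩

/-- **Classes killed by both traces** (`q ∤ M`, level `M q`, `σ` a unit): `U_q w x = - σ x` and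
`U_q x = - w x`. File `H4EATr`. -/
theorem u_w_of_traces [NeZero M] [NeZero q] (w : AL M q) (hNM : N ∣ M) (hq : q.Prime)
    (hqM : ¬ q ∣ M) (hqN : q.Coprime N) {σ : R} (hσ : IsUnit σ) (hs : ScalBy ρ hq.pos hqN σ)
    (x : H1 (gam N (M * q) (hNM.mul_right q)) ρ)
    (h1 : (H70.Coh.trFam hNM).opH ρ x = 0) (h2 : (nuFam hNM hq).opH ρ x = 0) :
    (uFam (hNM.mul_right q) hq.pos (dvd_mul_left q M)).opH ρ ((wFam hNM hq.pos w).opH ρ x) =
      - (σ • x) ∧
    (uFam (hNM.mul_right q) hq.pos (dvd_mul_left q M)).opH ρ x = - (wFam hNM hq.pos w).opH ρ x :=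
  u_w_of_traces_by w hNM hq hqM hqN hσ hs x h1 h2

/-- **Embeddings preserve the condition "killed by both traces"** at a prime `q ∤ M₀ M₀'`, level `M₀ q`,
over a field of characteristic 0, where the scalar matrix `q` acts by `κ(q)²` for `ρ` and trivially for
`ρ'` (`ScalTriv`). Proof: the two equations of `u_w_of_traces` are preserved by the embedding; they say that
the restrictions of both traces vanish, and restriction is injective because `tr res = q + 1`.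
File `H4EATr`. -/
theorem traces_of_embedding {K : Type*} [Field K] [CharZero K] {V : Type*} [AddCommGroup V]
    [Module K V] {N N' M₀ M₀' q : ℕ} [NeZero M₀] [NeZero M₀'] [NeZero q] (hN : N ∣ M₀)
    (hN' : N' ∣ M₀') (hq : q.Prime) (hqM : ¬ q ∣ M₀) (hqM' : ¬ q ∣ M₀')
    {ρ : DN N →* (Module.End K V)ᵐᵒᵖ} {ρ' : DN N' →* (Module.End K V)ᵐᵒᵖ}
    {κ : (ZMod N)ˣ →* Kˣ} (hqN : q.Coprime N) (hqN' : q.Coprime N')
    {E : H1 (gam N (M₀ * q) (hN.mul_right q)) ρ →ₗ[K] H1 (gam N' (M₀' * q) (hN'.mul_right q)) ρ'}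
    (h : TwEmb (hN.mul_right q) (hN'.mul_right q) ρ ρ' κ E)
    (hs : ScalBy ρ hq.pos hqN (((κ (ZMod.unitOfCoprime q hqN)) ^ 2 : Kˣ) : K))
    (hs' : ScalTriv ρ' hq.pos hqN') (x : H1 (gam N (M₀ * q) (hN.mul_right q)) ρ)
    (h1 : (H70.Coh.trFam hN).opH ρ x = 0) (h2 : (nuFam hN hq).opH ρ x = 0) :
    (H70.Coh.trFam hN').opH ρ' (E x) = 0 ∧ (nuFam hN' hq).opH ρ' (E x) = 0 :=
  traces_of_twEmb hN hN' hq hqM hqM' hqN hqN' h hs hs' x h1 h2

end Traces

end Fermat.Agent.Guide.TwistEmbedding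

end
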