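import Fermat.Agent.H22TwMain

/-!
# Reader's guide: twisted modular forms and the Galois action on characters, step by step

(editor helper22; library files by helper22; `H80Dual` by helper80, `H50*` by helper50, `H78Ring` by helper78,
`H90TwistedEis` and `H90DescentLin` by helper90, `H4Root` by helper4, `H20VMF` by helper20, `H48Defs` and
`H48Gal` by helper48, `H58Dia` by helper58)

Companion of `GuideGaloisAction`, sections 1 to 3. There the results are stated: forms with a parabolic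
character, the decomposition `Δ = ∑ F_i G_i`, roots of modular forms, conjugation of forms and characters by
automorphisms of `ℂ`, the Galois action, the Hecke operators, unramifiedness and the Eichler-Shimura relation.
This file shows the steps of the proofs; what is stated there is not repeated, and the two inputs of section 3
(`q`-expansion principle, Kummer injectivity) are hypotheses `QEIn`, `KIIn` here. Every theorem is a
citation of a theorem of the library with the statement written out, or the unfolding of a definition. The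
file is imported by no other file except the list `Guide`. Everything cited is used in the proof of S48, hence
of S47, and of no other statement (only the definitions `H20.IsVMF`, `H20.IsFreeBasis` and `H48.IsPE` are used
for other statements as well, among them S01).

**The argument.** Let `Γ` be a subgroup of finite index of `SL(2, ℤ)` (the precise hypotheses are in
`hyp_iff`), `χ` a parabolic character of `Γ` with values in the `n`-th roots of unity, `n` odd, and `σ` a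
homomorphism `ℂ → ℂ`.
(a) *There are enough forms with character `χ`.* Eisenstein series with coefficients `χ(γ)⁻¹` give for every
cusp a form with limit `1` there; a general combination vanishes at no cusp (section 3). With vector valued
forms for the kernel of `χ` one gets `Δ = ∑ F_i G_i`, `F_i` with character `χ`, `G_i` with character `χ⁻¹`
(section 4).
(b) *Roots.* If `f` has character `χ`, then `f ^ n` is a modular form, and it has a conjugate `G` by `σ`. The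
orders of `G` at the points of the upper half plane are divisible by `n`: at a given point some conjugate
`D_i` of `F_i G_i` is not zero, because `∑ D_i = Δ`; so the conjugate `H` of `G_i ^ n` is not zero there, and
`G H` is the `n`-th power of the conjugate of the modular form `f G_i`. So `G` is the `n`-th power of a form
with some character `χ'` (sections 5, 6).
(c) *`χ'` depends only on `χ` and `σ`*, and it is parabolic: for a form which does not vanish at the cusps the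
conjugate of `f ^ n` does not vanish there either, by the norm to level one (section 6).
(d) `χ ↦ χ'` is an action of the automorphisms of `ℂ`. The coefficients of a canonical form with character `χ`
have finitely many conjugates, so they are algebraic, and the action is an action of the Galois group of the
algebraic numbers (section 8).
(e) The product over the representatives of a Hecke correspondence has the transferred character, and its
expansion is a product over the `p`-th roots of unity; modulo a place above `p` these are all `1`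
(sections 9, 10).

**Contents.** 1 expansions (`H22TwQ`); 2 forms with character (`H22TwForms`); 3 Eisenstein series
(`H22TwEis`); 4 decomposition of `Δ` (`H22TwDual`); 5 equal powers and orders (`H22TwRoot`); 6 conjugation
(`H22TwConj`); 7 the group `±Γ₁(M)` (`H22TwPm`); 8 the action (`H22TwCanon`, `H22TwGal`); 9 Hecke operators
(`H22TwHecke`, `H22TwNP`, `H22TwEqv`); 10 reduction modulo `p` (`H22TwES`, `H22TwMain`).

**Notation.** `IsM Γ k f`, `IsTw Γ χ k f`, `parChar Γ n`, `pmG M`: see `GuideGaloisAction.twisted_notions`.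
`𝕢 h τ` is `exp (2 π i τ / h)`. `σ_d` is `H58.sig M d`, for `d` prime to `M` a matrix in `Γ₀(M)` with lower
right entry `d`. `vnEquiv`, `hV`: see `GuideGaloisAction.characters_pm` and
`GuideGaloisAction.gal_hecke`. Reference in NOTES.md: [145].
-/

set_option autoImplicit false

open Filter Topology Function CongruenceSubgroup UpperHalfPlane
open scoped MatrixGroups ModularForm Manifold

namespace Fermat.Agent.Guide.TwistedForms

local notation "Qb" => AlgebraicClosure ℚ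
local notation "Gq" => (AlgebraicClosure ℚ ≃ₐ[ℚ] AlgebraicClosure ℚ)
local notation "𝕢" => Function.Periodic.qParam

/-! ## 1. Expansions -/

/-- **Functions with an expansion**: `IsQ h f P` says that `f` has period `h > 0`, is holomorphic, bounded at
`i∞`, and that its expansion in `𝕢 h` is the power series `P`. (`H22TwQ`) -/
theorem isQ_iff (h : ℝ) (f : ℍ → ℂ) (P : PowerSeries ℂ) :
    H22.Tw.IsQ h f P ↔ 0 < h ∧ Function.Periodic (f ∘ ofComplex) h ∧ MDiff f ∧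
      IsBoundedAtImInfty f ∧ qExpansion h f = P :=
  ⟨fun H => ⟨H.pos, H.per, H.holo, H.bdd, H.eq⟩, fun H => ⟨H.1, H.2.1, H.2.2.1, H.2.2.2.1, H.2.2.2.2⟩⟩

/-- **Convergence**: `IsQ h f P` implies `f(τ) = ∑ P_m (𝕢 h τ)^m` for all `τ`; conversely a holomorphic
function given by such a series has the expansion `P`. (`H22TwQ`) -/
theorem isQ_iff_hasSum {h : ℝ} {f : ℍ → ℂ} {P : PowerSeries ℂ} (hh : 0 < h) (hf : MDiff f) :
    H22.Tw.IsQ h f P ↔ ∀ τ : ℍ, HasSum (fun m : ℕ => P.coeff m * 𝕢 h τ ^ m) (f τ) :=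
  ⟨fun H τ => H.hasSum τ, fun H => H22.Tw.IsQ.of_hasSum' hh hf H⟩

/-- The function determines the series, the series determines the function. (`H22TwQ`) -/
theorem isQ_unique {h : ℝ} {f g : ℍ → ℂ} {P Q : PowerSeries ℂ} :
    (H22.Tw.IsQ h f P → H22.Tw.IsQ h f Q → P = Q) ∧
      (H22.Tw.IsQ h f P → H22.Tw.IsQ h g P → f = g) :=
  ⟨fun h₁ h₂ => h₁.unique h₂, fun h₁ h₂ => h₁.ext h₂⟩

/-- Sums, products and powers. (`H22TwQ`) -/
theorem isQ_algebra {h : ℝ} {f g : ℍ → ℂ} {P Q : PowerSeries ℂ} (hf : H22.Tw.IsQ h f P)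
    (hg : H22.Tw.IsQ h g Q) (n : ℕ) :
    H22.Tw.IsQ h (f + g) (P + Q) ∧ H22.Tw.IsQ h (f * g) (P * Q) ∧ H22.Tw.IsQ h (f ^ n) (P ^ n) :=
  ⟨hf.add hg, hf.mul hg, hf.pow n⟩

/-- The limit of `f` at `i∞` is the constant term. (`H22TwQ`) -/
theorem isQ_limit {h : ℝ} {f : ℍ → ℂ} {P : PowerSeries ℂ} (hf : H22.Tw.IsQ h f P) :
    Tendsto f atImInfty (𝓝 (P.coeff 0)) :=
  hf.tendsto

/-- **Substitutions.** `mulArg n _ τ = n τ` and `divArg n _ j τ = (τ + j) / n`. The expansion of `f(n τ)` is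
`P(X ^ n)`, that of `f((τ + j) / n)`, in `𝕢 n`, is `P(ζ X)` with `ζ = exp (2πi j / n)`. (`H22TwQ`) -/
theorem isQ_substitutions {f : ℍ → ℂ} {P : PowerSeries ℂ} (hf : H22.Tw.IsQ 1 f P) {n : ℕ}
    (hn : n ≠ 0) (j : ℤ) :
    H22.Tw.IsQ 1 (f ∘ H22.Tw.mulArg n hn) (P.expand n hn) ∧
      H22.Tw.IsQ n (f ∘ H22.Tw.divArg n hn j)
        (P.rescale (Complex.exp (2 * Real.pi * Complex.I * j / n))) :=
  ⟨hf.comp_mulArg hn, hf.comp_divArg hn j⟩

/-- **Change of width**: with the width `n h` instead of `h` the expansion `P` becomes `P(X ^ n)`; and a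
function with an expansion `R` for the width `n h` which has the period `h` has an expansion for the width
`h`, and `R` is a series in `X ^ n`. (`H22TwQ`) -/
theorem isQ_width {h : ℝ} {f : ℍ → ℂ} {P R : PowerSeries ℂ} {n : ℕ} (hn : n ≠ 0) (hh : 0 < h) :
    (H22.Tw.IsQ h f P → H22.Tw.IsQ (n * h) f (P.expand n hn)) ∧
      (H22.Tw.IsQ (n * h) f R → Function.Periodic (f ∘ ofComplex) h →
        ∃ P : PowerSeries ℂ, H22.Tw.IsQ h f P ∧ R = P.expand n hn) :=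
  ⟨fun H => H.expand hn, fun H hper => H22.Tw.IsQ.exists_expand hn hh H hper⟩

/-! ## 2. Forms with character -/

/-- **Products and powers** of forms with characters have the product of the characters. (`H22TwForms`) -/
theorem isTw_mul_pow {Γ : Subgroup SL(2, ℤ)} {χ ψ : Γ →* ℂˣ} {k l : ℤ} {f g : ℍ → ℂ}
    (hf : H22.Tw.IsTw Γ χ k f) (hg : H22.Tw.IsTw Γ ψ l g) (n : ℕ) :
    H22.Tw.IsTw Γ (χ * ψ) (k + l) (f * g) ∧ H22.Tw.IsTw Γ (χ ^ n) ((n : ℤ) * k) (f ^ n) :=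
  ⟨hf.mul hg, hf.pow n⟩

/-- If `χ ^ n = 1`, the `n`-th power of a form with character `χ` is a modular form on `Γ`; if `χ ψ = 1`, the
product of forms with characters `χ` and `ψ` is a modular form on `Γ`. (`H22TwForms`) -/
theorem isM_of_isTw {Γ : Subgroup SL(2, ℤ)} {χ ψ : Γ →* ℂˣ} {k l : ℤ} {f g : ℍ → ℂ} {n : ℕ}
    (hf : H22.Tw.IsTw Γ χ k f) (hg : H22.Tw.IsTw Γ ψ l g) :
    (χ ^ n = 1 → H22.Tw.IsM Γ ((n : ℤ) * k) (f ^ n)) ∧ (χ * ψ = 1 → H22.Tw.IsM Γ (k + l) (f * g)) :=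
  ⟨fun h => hf.isM_of_pow h, fun h => hf.isM_of_mul hg h⟩

/-- **A nonzero form determines its character.** (`H22TwForms`) -/
theorem character_unique {Γ : Subgroup SL(2, ℤ)} {χ ψ : Γ →* ℂˣ} {k : ℤ} {f : ℍ → ℂ}
    (hf : H22.Tw.IsTw Γ χ k f) (hf' : H22.Tw.IsTw Γ ψ k f) (h0 : f ≠ 0) : χ = ψ :=
  hf.char_unique hf' h0

/-- **Expansion**: if `T ∈ Γ` and `χ` is trivial on the conjugates of powers of `T`, a form with character
`χ` has period one and an expansion at `i∞`. (`H22TwForms`) -/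
theorem isTw_expansion {Γ : Subgroup SL(2, ℤ)} {χ : Γ →* ℂˣ} {k : ℤ} {f : ℍ → ℂ}
    (hf : H22.Tw.IsTw Γ χ k f) (hT : ModularGroup.T ∈ Γ)
    (hχ : ∀ (γ : Γ) (g : SL(2, ℤ)) (m : ℤ),
      (γ : SL(2, ℤ)) = g * ModularGroup.T ^ m * g⁻¹ → χ γ = 1) :
    H22.Tw.IsQ 1 f (qExpansion 1 f) :=
  hf.isQ hT hχ

/-! ## 3. Eisenstein series with character

`χ` is trivial on the elements of `Γ` with lower left entry zero. For an integral row `v` let
`cCoeff χ v = χ(γ)⁻¹` if `v` is the lower row of some `γ ∈ Γ`, and `0` otherwise. The series is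
`½ ∑_v cCoeff χ v (v₀ τ + v₁)^(-k)`; convergence, boundedness and the limit at `i∞` are in `H90TwistedEis`. -/

/-- **The coefficients**: the value at a lower row; multiplication of the row by `γ⁻¹` multiplies the
coefficient by `χ(γ)`; the part with `v₀ = 0` of the series is `2` (`v₁ = ± 1`, `k` even). (`H22TwEis`) -/
theorem eisenstein_coefficients {Γ : Subgroup SL(2, ℤ)} {χ : Γ →* ℂˣ}
    (hpar : ∀ γ : Γ, (γ : SL(2, ℤ)) 1 0 = 0 → χ γ = 1) :
    (∀ α : Γ, H22.Tw.cCoeff χ ((α : SL(2, ℤ)) 1) = (((χ α)⁻¹ : ℂˣ) : ℂ)) ∧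
      (∀ (γ : Γ) (v : Fin 2 → ℤ), H22.Tw.cCoeff χ
        (Matrix.vecMul v (((γ : SL(2, ℤ))⁻¹ : SL(2, ℤ)) : Matrix (Fin 2) (Fin 2) ℤ)) =
          (χ γ : ℂ) * H22.Tw.cCoeff χ v) ∧
      ((-1 : SL(2, ℤ)) ∈ Γ → ∀ k : ℤ, Even k →
        ∑' v : Fin 2 → ℤ, (if v 0 = 0 then H22.Tw.cCoeff χ v * (v 1 : ℂ) ^ (-k) else 0) = 2) :=
  ⟨fun α => H22.Tw.cCoeff_bottom hpar α, fun γ v => H22.Tw.cCoeff_mul_inv hpar γ v,
    fun hneg _ hk => H22.Tw.cCoeff_const_term hpar hneg hk⟩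

/-- **The series at `i∞`**: a form of even weight `k ≥ 4` with character `χ` and limit `1` at `i∞`.
(`H22TwEis`) -/
theorem eisenstein_at_infinity {Γ : Subgroup SL(2, ℤ)} {χ : Γ →* ℂˣ} {k : ℤ}
    (hneg : (-1 : SL(2, ℤ)) ∈ Γ) (h1 : ∀ γ, ‖(χ γ : ℂ)‖ = 1)
    (hpar : ∀ γ : Γ, (γ : SL(2, ℤ)) 1 0 = 0 → χ γ = 1) (hk : Even k) (hk4 : 4 ≤ k) :
    ∃ E : ℍ → ℂ, H22.Tw.IsTw Γ χ k E ∧ Tendsto E atImInfty (𝓝 1) :=
  H22.Tw.exists_tw_infty hneg h1 hpar hk hk4

/-- **The series at the cusp `g ∞`**: apply the preceding theorem to `g⁻¹ Γ g` and the conjugated character.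
(`H22TwEis`) -/
theorem eisenstein_at_cusp {Γ : Subgroup SL(2, ℤ)} {χ : Γ →* ℂˣ} {k : ℤ}
    (hneg : (-1 : SL(2, ℤ)) ∈ Γ) (h1 : ∀ γ, ‖(χ γ : ℂ)‖ = 1)
    (hpar : ∀ (γ : Γ) (g : SL(2, ℤ)) (m : ℤ),
      (γ : SL(2, ℤ)) = g * ModularGroup.T ^ m * g⁻¹ → χ γ = 1)
    (hχneg : χ ⟨-1, hneg⟩ = 1) (hk : Even k) (hk4 : 4 ≤ k) (g : SL(2, ℤ)) :
    ∃ E : ℍ → ℂ, H22.Tw.IsTw Γ χ k E ∧ Tendsto (E ∣[k] g) atImInfty (𝓝 1) :=
  H22.Tw.exists_tw_cusp hneg h1 hpar hχneg hk hk4 g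

/-- **Values at the cusps**: a form with parabolic character on a group of finite index has a limit at every
cusp (some power `T ^ n` has all its conjugates in `Γ`, so `f ∣ g` has period `n`). A combination
`E + t E'` with `t` outside a finite set of values does not vanish at the cusps where `E` or `E'` does not
vanish; this gives `GuideGaloisAction.exists_nonvanishing_at_cusps`. (`H22TwEis`) -/
theorem values_at_cusps {Γ : Subgroup SL(2, ℤ)} {χ : Γ →* ℂˣ} {k : ℤ} {f : ℍ → ℂ}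
    [Γ.FiniteIndex] (hf : H22.Tw.IsTw Γ χ k f)
    (hχ : ∀ (γ : Γ) (g : SL(2, ℤ)) (m : ℤ),
      (γ : SL(2, ℤ)) = g * ModularGroup.T ^ m * g⁻¹ → χ γ = 1) :
    (∃ n : ℕ, n ≠ 0 ∧ ∀ g : SL(2, ℤ), g * ModularGroup.T ^ n * g⁻¹ ∈ Γ) ∧
      ∀ g : SL(2, ℤ), ∃ c : ℂ, Tendsto (f ∣[k] g) atImInfty (𝓝 c) :=
  ⟨H22.Tw.exists_T_pow Γ, fun g => hf.exists_tendsto hχ g⟩

/-! ## 4. Decomposition of `Δ`

`kerG χ` is the kernel of `χ`, as a subgroup of `SL(2, ℤ)`. A vector valued form (`H20.IsVMF`) of weight `k`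
on a finite set `X` with action of `SL(2, ℤ)` is a family `F : X → ℍ → ℂ` of holomorphic functions, bounded at
`i∞`, with `F x ∣[k] g = F (g⁻¹ x)`. See `GuideVectorForms` for the free bases `H20.IsFreeBasis` and for the
dual basis. -/

/-- The kernel of a character of finite order has finite index in `SL(2, ℤ)`, and a form with character `χ`
is a modular form on the kernel. (`H22TwDual`) -/
theorem kernel_of_character {Γ : Subgroup SL(2, ℤ)} {χ : Γ →* ℂˣ} [Γ.FiniteIndex] {n : ℕ}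
    (hn : n ≠ 0) (hχ : χ ^ n = 1) :
    (∀ x : SL(2, ℤ), x ∈ H22.Tw.kerG χ ↔ ∃ h : x ∈ Γ, χ ⟨x, h⟩ = 1) ∧
      (H22.Tw.kerG χ).FiniteIndex ∧
      ∀ (k : ℤ) (f : ℍ → ℂ), H22.Tw.IsTw Γ χ k f → H22.Tw.IsM (H22.Tw.kerG χ) k f :=
  ⟨fun _ => H22.Tw.mem_kerG, H22.Tw.finiteIndex_kerG hn hχ, fun _ _ hf => hf.isM_kerG⟩

/-- **Separating forms.** `HasSep Γ`: `Γ` is the stabiliser of a nonzero modular form of weight `2 w ≥ 4`.
(`H22TwDual`) -/
theorem hasSep_iff (Γ : Subgroup SL(2, ℤ)) :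
    H22.Tw.HasSep Γ ↔ ∃ (w : ℕ) (G : ℍ → ℂ), 2 ≤ w ∧ H22.Tw.IsM Γ (2 * w) G ∧ G ≠ 0 ∧
      ∀ γ : SL(2, ℤ), G ∣[(2 * w : ℤ)] γ = G → γ ∈ Γ := Iff.rfl

/-- **The kernel is a stabiliser as well**: if `Γ` is the stabiliser of `G` and `E ≠ 0` has character `χ`,
then for almost all `t` the kernel of `χ` is the stabiliser of `G C + t E B`, where `B`, `C` are forms of
level one with limit `1` at `i∞` which make the weights equal. (`H22TwDual`) -/
theorem kernel_is_stabiliser {Γ : Subgroup SL(2, ℤ)} {χ : Γ →* ℂˣ} [Γ.FiniteIndex]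
    (hsep : H22.Tw.HasSep Γ) {n : ℕ} (hn : n ≠ 0) (hχ : χ ^ n = 1) {l : ℕ} (hl : 2 ≤ l) {E : ℍ → ℂ}
    (hE : H22.Tw.IsTw Γ χ (2 * l) E) (hE0 : E ≠ 0) : H22.Tw.HasSep (H22.Tw.kerG χ) :=
  hsep.kerG hn hχ hl hE hE0

/-- **The vector valued form of a modular form** on a subgroup `K`: the family of the `f ∣ g⁻¹`, indexed by
`SL(2, ℤ) / K`. If `K` is the stabiliser of `f`, the components are pairwise different; this is the
hypothesis of the theorem on free bases. (`H22TwDual`) -/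
theorem vector_of_form {K : Subgroup SL(2, ℤ)} {k : ℤ} {f : ℍ → ℂ} (hf : H22.Tw.IsM K k f) :
    (∀ g : SL(2, ℤ), H22.Tw.vecForm K k f hf.slash (g : SL(2, ℤ) ⧸ K) = f ∣[k] g⁻¹) ∧
      H20.IsVMF (SL(2, ℤ) ⧸ K) k (H22.Tw.vecForm K k f hf.slash) :=
  ⟨fun g => H22.Tw.vecForm_mk hf.slash g, H22.Tw.vecForm_isVMF hf⟩

/-- **Projection to the character `χ`**: if `c(γ x) = χ(γ) c(x)` for `γ ∈ Γ`, the combination
`∑ c(x) F x` of the components of a vector valued form has character `χ`. (`H22TwDual`) -/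
theorem projection {Γ : Subgroup SL(2, ℤ)} {χ : Γ →* ℂˣ} {k : ℤ} {X : Type*}
    [MulAction SL(2, ℤ) X] [Fintype X] {F : X → ℍ → ℂ} (hF : H20.IsVMF X k F) (c : X → ℂ)
    (hc : ∀ (γ : Γ) (x : X), c ((γ : SL(2, ℤ)) • x) = χ γ * c x) :
    H22.Tw.IsTw Γ χ k (∑ x, c x • F x) :=
  H22.Tw.isTw_of_vmf hF c hc

/-- **Decomposition from a free basis.** Let `F` be a free basis on `X`, `-1` acting trivially, and `c ≠ 0` a
function as in `projection`. Then `Δ` is a sum of products of forms with characters `χ` and `χ⁻¹`: multiply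
`∑_i F_i(x) F_i*(y) = δ_{xy} Δ` (`F_i*` the dual basis) by `c(x) c(y)⁻¹` and sum over `x`, `y`; the factor of
`Δ` is the number of `x` with `c(x) ≠ 0`. (`H22TwDual`) -/
theorem decomposition_from_basis {Γ : Subgroup SL(2, ℤ)} {χ : Γ →* ℂˣ} {X : Type*}
    [MulAction SL(2, ℤ) X] [Fintype X] [DecidableEq X] {kk : X → ℤ} {F : X → X → ℍ → ℂ}
    (hB : H20.IsFreeBasis X kk F) (hnegX : ∀ x : X, (-1 : SL(2, ℤ)) • x = x) (c : X → ℂ)
    (hc : ∀ (γ : Γ) (x : X), c ((γ : SL(2, ℤ)) • x) = χ γ * c x) (hc0 : ∃ x, c x ≠ 0) :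
    ∃ (m : ℕ) (kk : Fin m → ℤ) (F G : Fin m → ℍ → ℂ),
      (∀ i, Even (kk i)) ∧ (∀ i, H22.Tw.IsTw Γ χ (kk i) (F i)) ∧
      (∀ i, H22.Tw.IsTw Γ χ⁻¹ (12 - kk i) (G i)) ∧
      ∀ τ, ∑ i, F i τ * G i τ = ModularForm.discriminant τ :=
  H22.Tw.disc_decomp_aux hB hnegX c hc hc0

/-- **The function `c` on the cosets of the kernel**: `χ(γ)` on the coset of `γ ∈ Γ`, zero outside `Γ`.
(`H22TwDual`) -/
theorem coset_function {Γ : Subgroup SL(2, ℤ)} (χ : Γ →* ℂˣ) :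
    ∃ c : SL(2, ℤ) ⧸ H22.Tw.kerG χ → ℂ,
      (∀ γ : Γ, c ((γ : SL(2, ℤ)) : SL(2, ℤ) ⧸ H22.Tw.kerG χ) = χ γ) ∧
      ∀ (γ : Γ) (x : SL(2, ℤ) ⧸ H22.Tw.kerG χ), c ((γ : SL(2, ℤ)) • x) = χ γ * c x :=
  ⟨H22.Tw.cosetC χ, H22.Tw.cosetC_mk χ, H22.Tw.cosetC_smul χ⟩

/-! ## 5. Equal powers and orders -/

/-- **Equal `n`-th powers**: two holomorphic functions with equal `n`-th powers differ by an `n`-th root of
unity (`0 = f ^ n - g ^ n = ∏ (f - ζ g)`, and holomorphic functions form a domain); the same for power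
series. (`H22TwRoot`) -/
theorem equal_powers {n : ℕ} (hn : n ≠ 0) :
    (∀ f g : ℍ → ℂ, MDiff f → MDiff g → f ^ n = g ^ n → ∃ ζ : ℂ, ζ ^ n = 1 ∧ f = ζ • g) ∧
      ∀ P Q : PowerSeries ℂ, P ^ n = Q ^ n → ∃ ζ : ℂ, ζ ^ n = 1 ∧ P = ζ • Q :=
  ⟨fun _ _ hf hg h => H22.Tw.exists_root_of_pow_eq hn hf hg h,
    fun _ _ h => H22.Tw.exists_root_of_pow_eq_ps hn h⟩

/-- **Orders**: if `G H = F ^ n` and `H(τ) ≠ 0`, then `n` divides the order of `G` at `τ`. (`H22TwRoot`) -/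
theorem order_divisible {n : ℕ} {F G H : ℍ → ℂ} (hF : MDiff F) (hG : MDiff G) (hH : MDiff H)
    (h : G * H = F ^ n) {τ : ℍ} (hτ : H τ ≠ 0) :
    n ∣ analyticOrderNatAt (G ∘ ofComplex) (τ : ℂ) :=
  H22.Tw.dvd_order hF hG hH h hτ

/-! ## 6. Conjugation

`IsConj σ f f'`: the expansion of `f'` is that of `f` with `σ` applied to the coefficients
(`GuideGaloisAction.conjugate_form`). `ConjStable Γ σ`: every modular form of even weight on `Γ` has a
conjugate which is a modular form on `Γ`. -/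

/-- **Rules**: conjugates of products and powers; the conjugate is unique, and `f` is determined by its
conjugate; the limit at `i∞` of the conjugate is the conjugate of the limit. (`H22TwConj`) -/
theorem isConj_rules {σ : ℂ →+* ℂ} {f g f' g' : ℍ → ℂ} (hf : H22.Tw.IsConj σ f f') :
    (H22.Tw.IsConj σ g g' → H22.Tw.IsConj σ (f * g) (f' * g')) ∧
      (∀ n : ℕ, H22.Tw.IsConj σ (f ^ n) (f' ^ n)) ∧
      (H22.Tw.IsConj σ f g' → f' = g') ∧ (H22.Tw.IsConj σ g f' → f = g) ∧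
      ∀ c : ℂ, Tendsto f atImInfty (𝓝 c) → Tendsto f' atImInfty (𝓝 (σ c)) :=
  ⟨fun hg => hf.mul hg, fun n => hf.pow n, fun h => hf.unique h, fun h => hf.injective h,
    fun _ hc => hf.tendsto hc⟩

/-- Finite sums, and the discriminant (integral coefficients) is its own conjugate. (`H22TwConj`) -/
theorem isConj_sum_disc {σ : ℂ →+* ℂ} :
    (∀ {ι : Type} (s : Finset ι) {F F' : ι → ℍ → ℂ}, (∀ i ∈ s, H22.Tw.IsConj σ (F i) (F' i)) →
      H22.Tw.IsConj σ (∑ i ∈ s, F i) (∑ i ∈ s, F' i)) ∧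
      H22.Tw.IsConj σ ModularForm.discriminant ModularForm.discriminant :=
  ⟨fun s _ _ h => H22.Tw.IsConj.sum s h, H22.Tw.isConj_disc⟩

/-- **Level one**: modular forms on `SL(2, ℤ)` have conjugates. Induction on the weight: if `a` is the
constant term of `f`, then `f - a E_k` is `Δ` times a form of weight `k - 12`, and `E_k`, `Δ` have rational
coefficients. (`H78Ring`, `H22TwConj`) -/
theorem conjugate_level_one (σ : ℂ →+* ℂ) (k : ℤ) (f : ℍ → ℂ) (hk : Even k)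
    (hf : H22.Tw.IsM ⊤ k f) : ∃ f', H22.Tw.IsM ⊤ k f' ∧ H22.Tw.IsConj σ f f' :=
  H22.Tw.conjStable_top σ k f hk hf

/-- **The conjugate of an `n`-th power is an `n`-th power.** Let `f ≠ 0` have the parabolic character `χ`,
`χ ^ n = 1`, and weight `k`, `n` odd and `k` even. The conjugate `G'` of the modular form `f ^ n` is the
`n`-th power of a form `g` of weight `k` with a character `χ'`, `χ' ^ n = 1`. Argument (b) of the header.
(`H22TwConj`) -/
theorem conjugate_power_is_power {Γ : Subgroup SL(2, ℤ)} {χ : Γ →* ℂˣ} {k : ℤ} {f : ℍ → ℂ}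
    {σ : ℂ →+* ℂ} [Γ.FiniteIndex] (hneg : (-1 : SL(2, ℤ)) ∈ Γ) (hsep : H22.Tw.HasSep Γ)
    (hσ : ∀ (k : ℤ) (f : ℍ → ℂ), Even k → H22.Tw.IsM Γ k f →
      ∃ f', H22.Tw.IsM Γ k f' ∧ H22.Tw.IsConj σ f f') {n : ℕ} (hodd : Odd n) (hχ : χ ^ n = 1)
    (hpar : ∀ (γ : Γ) (g : SL(2, ℤ)) (m : ℤ),
      (γ : SL(2, ℤ)) = g * ModularGroup.T ^ m * g⁻¹ → χ γ = 1) (hk : Even k)
    (hf : H22.Tw.IsTw Γ χ k f) (hf0 : f ≠ 0) :
    ∃ (χ' : Γ →* ℂˣ) (g G' : ℍ → ℂ), H22.Tw.IsM Γ ((n : ℤ) * k) G' ∧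
      H22.Tw.IsConj σ (f ^ n) G' ∧ χ' ^ n = 1 ∧ H22.Tw.IsTw Γ χ' k g ∧ g ^ n = G' :=
  H22.Tw.exists_conj_root hneg hsep hσ hodd hχ hpar hk hf hf0

/-- **The character of the root does not depend on the form**: let `f₁`, `f₂` have the same character, and
let `g₁`, `g₂` be forms with characters `χ₁`, `χ₂` whose `n`-th powers are the conjugates of `f₁ ^ n`,
`f₂ ^ n`. Then `χ₁ = χ₂`: compare `g₁ g₂ ^ (n - 1)` with the conjugate of the modular form
`f₁ f₂ ^ (n - 1)`; both have the same `n`-th power, so they differ by a root of unity. (`H22TwConj`) -/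
theorem root_characters_agree {Γ : Subgroup SL(2, ℤ)} {χ : Γ →* ℂˣ} {k l : ℤ} {σ : ℂ →+* ℂ}
    (hσ : ∀ (k : ℤ) (f : ℍ → ℂ), Even k → H22.Tw.IsM Γ k f →
      ∃ f', H22.Tw.IsM Γ k f' ∧ H22.Tw.IsConj σ f f') {n : ℕ} (hn : n ≠ 0)
    (hχ : χ ^ n = 1) {f₁ f₂ g₁ g₂ : ℍ → ℂ} (hk : Even k) (hl : Even l)
    (hf₁ : H22.Tw.IsTw Γ χ k f₁) (hf₂ : H22.Tw.IsTw Γ χ l f₂) (h₁0 : f₁ ≠ 0) (h₂0 : f₂ ≠ 0)
    {χ₁ χ₂ : Γ →* ℂˣ} (hχ₂ : χ₂ ^ n = 1)
    (hg₁ : H22.Tw.IsTw Γ χ₁ k g₁) (hg₂ : H22.Tw.IsTw Γ χ₂ l g₂)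
    (hc₁ : H22.Tw.IsConj σ (f₁ ^ n) (g₁ ^ n)) (hc₂ : H22.Tw.IsConj σ (f₂ ^ n) (g₂ ^ n)) :
    χ₁ = χ₂ :=
  H22.Tw.char_root_unique hσ hn hχ hk hl hf₁ hf₂ h₁0 h₂0 hχ₂ hg₁ hg₂ hc₁ hc₂

/-- **The norm to level one**: for a modular form `G` on `Γ` of even weight which does not vanish at any
cusp, the product `N` of all `G ∣ g` over the cosets is a modular form of level one with a nonzero limit at
`i∞`, and `N = G B` with a modular form `B` on `Γ`. (`H22TwConj`) -/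
theorem norm_to_level_one {Γ : Subgroup SL(2, ℤ)} [Γ.FiniteIndex] {w : ℤ} {G : ℍ → ℂ}
    (hG : H22.Tw.IsM Γ w G)
    (hNV : ∀ g : SL(2, ℤ), ∃ c : ℂ, c ≠ 0 ∧ Tendsto (G ∣[w] g) atImInfty (𝓝 c)) (hw : Even w) :
    ∃ (v : ℤ) (B N : ℍ → ℂ), Even v ∧ H22.Tw.IsM Γ v B ∧ H22.Tw.IsM ⊤ (w + v) N ∧ G * B = N ∧
      ∃ c : ℂ, c ≠ 0 ∧ Tendsto N atImInfty (𝓝 c) :=
  H22.Tw.exists_norm hG hNV hw

/-- Conversely, if `G B = N` with modular forms `G`, `B` on `Γ` and `N` of level one with a nonzero limit at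
`i∞`, then `G` does not vanish at any cusp. Since `G B = N` is preserved by conjugation, the conjugate of
a form which does not vanish at the cusps does not vanish there either. (`H22TwConj`) -/
theorem nonvanishing_of_norm {Γ : Subgroup SL(2, ℤ)} [Γ.FiniteIndex] {w v : ℤ} {G B N : ℍ → ℂ}
    (hG : H22.Tw.IsM Γ w G) (hB : H22.Tw.IsM Γ v B) (hN : H22.Tw.IsM ⊤ (w + v) N)
    (h : G * B = N) {c : ℂ} (hc : c ≠ 0) (hlim : Tendsto N atImInfty (𝓝 c)) :
    ∀ g : SL(2, ℤ), ∃ c : ℂ, c ≠ 0 ∧ Tendsto (G ∣[w] g) atImInfty (𝓝 c) :=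
  H22.Tw.NV_of_mul hG hB hN h hc hlim

/-- **The character of the root is parabolic**: let `g` have the character `χ` with `χ ^ n = 1`, and let
`g ^ n` vanish at no cusp. For `γ = A T^m A⁻¹ ∈ Γ` the function `g ∣ A` has a nonzero limit at `i∞`, and its
translate by `m` is `χ(γ)` times it; so `χ(γ) = 1`. (`H22TwConj`) -/
theorem parabolic_of_nonvanishing {Γ : Subgroup SL(2, ℤ)} {χ : Γ →* ℂˣ} {k : ℤ} [Γ.FiniteIndex]
    {n : ℕ} (hn : n ≠ 0) {g : ℍ → ℂ} (hg : H22.Tw.IsTw Γ χ k g) (hχ : χ ^ n = 1)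
    (hNV : ∀ A : SL(2, ℤ), ∃ c : ℂ, c ≠ 0 ∧
      Tendsto ((g ^ n) ∣[(n : ℤ) * k] A) atImInfty (𝓝 c)) :
    ∀ (γ : Γ) (A : SL(2, ℤ)) (m : ℤ), (γ : SL(2, ℤ)) = A * ModularGroup.T ^ m * A⁻¹ → χ γ = 1 :=
  H22.Tw.isPar_of_NV hn hg hχ hNV

/-! ## 7. The group `±Γ₁(M)` -/

/-- **`±Γ₁(M)` is the stabiliser of a modular form of even weight**, for `M ≥ 3`. There is a form `g` on
`Γ₁(M)` with stabiliser exactly `Γ₁(M)` (`H50Prim1`); its weight is odd, because `-1 ∉ Γ₁(M)`. Then `g² Δ^m`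
has the stabiliser `±Γ₁(M)`: if `γ` fixes it, `(g ∣ γ - g) (g ∣ γ + g) = 0`. (`H22TwPm`) -/
theorem stabiliser_pm {M : ℕ} [NeZero M] (hM : 3 ≤ M) :
    ∃ (w : ℕ) (G : ℍ → ℂ), 2 ≤ w ∧ H22.Tw.IsM (H22.Tw.pmG M) (2 * w) G ∧ G ≠ 0 ∧
      ∀ γ : SL(2, ℤ), G ∣[(2 * w : ℤ)] γ = G → γ ∈ H22.Tw.pmG M :=
  H22.Tw.hasSep_pmG hM

/-- **Forms of even weight** on `±Γ₁(M)` and on `Γ₁(M)` are the same; `resC ψ` is the restriction of the
character `ψ` to `Γ₁(M)`. (`H22TwPm`) -/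
theorem forms_pm {M : ℕ} {k : ℤ} {f : ℍ → ℂ} (hk : Even k) :
    (H22.Tw.IsM (H22.Tw.pmG M) k f ↔ H22.Tw.IsM (Gamma1 M) k f) ∧
      ∀ ψ : H22.Tw.pmG M →* ℂˣ, ψ ⟨-1, H22.Tw.neg_mem_pmG⟩ = 1 →
        (H22.Tw.IsTw (H22.Tw.pmG M) ψ k f ↔ H22.Tw.IsTw (Gamma1 M) (H22.Tw.resC ψ) k f) :=
  ⟨H22.Tw.isM_pmG_iff hk, fun _ hψ => H22.Tw.isTw_pmG_iff hk hψ⟩

/-- **Extension of characters**: for `M ≥ 3` every character `χ` of `Γ₁(M)` has exactly one extension to
`±Γ₁(M)` which is trivial on `-1`, called `extC hM χ`. (`H22TwPm`) -/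
theorem extension_of_characters {M : ℕ} (hM : 3 ≤ M) (χ : Gamma1 M →* ℂˣ) :
    ∃! ψ : H22.Tw.pmG M →* ℂˣ, H22.Tw.resC ψ = χ ∧ ψ ⟨-1, H22.Tw.neg_mem_pmG⟩ = 1 :=
  ⟨H22.Tw.extC hM χ, ⟨H22.Tw.resC_extC hM χ, H22.Tw.extC_neg_one hM χ⟩, fun _ h =>
    H22.Tw.ext_pmG (h.1.trans (H22.Tw.resC_extC hM χ).symm)
      (h.2.trans (H22.Tw.extC_neg_one hM χ).symm)⟩

/-- **Matrices with trace `± 2`** are, up to sign, conjugate in `SL(2, ℤ)` to powers of `T`. (`H22TwPm`) -/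
theorem parabolic_matrices (γ : SL(2, ℤ)) (h : ((γ : Matrix (Fin 2) (Fin 2) ℤ)).trace ^ 2 = 4) :
    ∃ (δ : SL(2, ℤ)) (m : ℤ), γ = δ * ModularGroup.T ^ m * δ⁻¹ ∨
      -γ = δ * ModularGroup.T ^ m * δ⁻¹ :=
  H22.Tw.exists_eq_conj_T γ h

/-- **The two groups of characters**: let `n ≥ 5` be prime. A parabolic character of `±Γ₁(M)` of order
dividing `n` is trivial on all `γ ∈ Γ₁(M)` with `(tr γ)² ≤ 4` (elliptic elements have order dividing `12`;
the property is called `H48.IsPE`); conversely a character of `Γ₁(M)` with this property and values in the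
`n`-th roots of unity extends to a parabolic character of `±Γ₁(M)`. (`H22TwPm`) -/
theorem parabolic_elliptic {M n : ℕ} (hM : 3 ≤ M) (hn : n.Prime) (hn5 : 5 ≤ n) :
    (∀ ψ : H22.Tw.pmG M →* ℂˣ, ψ ∈ H22.Tw.parChar (H22.Tw.pmG M) n →
      H48.IsPE (MonoidHom.toAdditive (H22.Tw.resC ψ))) ∧
      ∀ χ : Gamma1 M →* ℂˣ, H48.IsPE (MonoidHom.toAdditive χ) → (∀ γ, χ γ ^ n = 1) →
        H22.Tw.extC hM χ ∈ H22.Tw.parChar (H22.Tw.pmG M) n :=
  ⟨fun _ hψ => H22.Tw.isPE_resC hn hn5 hψ, fun _ h₁ h₂ => H22.Tw.extC_mem hM h₁ h₂⟩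

/-! ## 8. The action on characters, canonical forms

Let `hΓ : Hyp Γ` and `n` odd. `cj hΓ hodd σ χ` is the conjugate of the character `χ ∈ parChar Γ n` by
`σ : ℂ → ℂ`, given by `GuideGaloisAction.conjugate_character`. -/

/-- **The standing hypotheses** on `Γ`: finite index, `T, -1 ∈ Γ`, a separating form (`hasSep_iff`), and
conjugates of modular forms of even weight. They hold for `±Γ₁(M)`, `M ≥ 3`. (`H22TwCanon`, `H22TwPm`) -/
theorem hyp_iff (Γ : Subgroup SL(2, ℤ)) :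
    (H22.Tw.Hyp Γ ↔ Γ.FiniteIndex ∧ ModularGroup.T ∈ Γ ∧ (-1 : SL(2, ℤ)) ∈ Γ ∧ H22.Tw.HasSep Γ ∧
      ∀ (σ : ℂ →+* ℂ) (k : ℤ) (f : ℍ → ℂ), Even k → H22.Tw.IsM Γ k f →
        ∃ f', H22.Tw.IsM Γ k f' ∧ H22.Tw.IsConj σ f f') ∧
      ∀ (M : ℕ) [NeZero M], 3 ≤ M → H22.Tw.Hyp (H22.Tw.pmG M) :=
  ⟨⟨fun h => ⟨h.fin, h.T_mem, h.neg_mem, h.sep, h.conj⟩, fun h => ⟨h.1, h.2.1, h.2.2.1, h.2.2.2.1,
    h.2.2.2.2⟩⟩, fun _ _ hM => H22.Tw.hyp_pmG hM⟩

/-- **The conjugate character** is determined by one nonzero form of even weight and its conjugate.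
(`H22TwCanon`) -/
theorem conjugate_unique {Γ : Subgroup SL(2, ℤ)} (hΓ : H22.Tw.Hyp Γ) {n : ℕ} (hodd : Odd n)
    (σ : ℂ →+* ℂ) (χ : H22.Tw.parChar Γ n) {k : ℤ} {f f' : ℍ → ℂ} (hk : Even k)
    (hf : H22.Tw.IsTw Γ χ k f) (hf0 : f ≠ 0) {ψ : Γ →* ℂˣ} (hf' : H22.Tw.IsTw Γ ψ k f')
    (hc : H22.Tw.IsConj σ f f') : ψ = H22.Tw.cj hΓ hodd σ χ :=
  H22.Tw.cj_unique hΓ hodd σ χ hk hf hf0 hf' hc

/-- **An action by automorphisms**: `χ ↦ χ^σ` is compatible with composition in `σ` and with products of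
characters. (`H22TwCanon`) -/
theorem conjugate_action {Γ : Subgroup SL(2, ℤ)} (hΓ : H22.Tw.Hyp Γ) {n : ℕ} (hodd : Odd n)
    (σ τ : ℂ →+* ℂ) (χ ψ : H22.Tw.parChar Γ n) :
    H22.Tw.cj hΓ hodd (σ.comp τ) χ = H22.Tw.cj hΓ hodd σ (H22.Tw.cj hΓ hodd τ χ) ∧
      H22.Tw.cj hΓ hodd (RingHom.id ℂ) χ = χ ∧
      H22.Tw.cj hΓ hodd σ (χ * ψ) = H22.Tw.cj hΓ hodd σ χ * H22.Tw.cj hΓ hodd σ ψ :=
  ⟨H22.Tw.cj_comp hΓ hodd σ τ χ, H22.Tw.cj_id hΓ hodd χ, H22.Tw.cj_mul hΓ hodd σ χ ψ⟩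

/-- **A bound of Sturm type**, uniform in the character: a form of weight `k` with character in `parChar Γ n`
whose first coefficients vanish is zero (apply the bound for modular forms to `f ^ n`). (`H22TwCanon`) -/
theorem sturm_bound {Γ : Subgroup SL(2, ℤ)} [Γ.FiniteIndex] (hT : ModularGroup.T ∈ Γ) {n : ℕ}
    (hn : n ≠ 0) (k : ℤ) :
    ∃ B : ℕ, ∀ χ : Γ →* ℂˣ, χ ∈ H22.Tw.parChar Γ n → ∀ (f : ℍ → ℂ) (P : PowerSeries ℂ),
      H22.Tw.IsTw Γ χ k f → H22.Tw.IsQ 1 f P → (∀ i ≤ B, P.coeff i = 0) → f = 0 :=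
  H22.Tw.exists_sturm hT hn k

/-- **Canonical forms**: `IsCan Γ χ m f P` says that `f` is a form of weight `4` with character `χ` and
expansion `P = X^m + …`, and that no nonzero form of weight `4` with character `χ` vanishes to higher order
than `m` at `i∞`. (`H22TwCanon`) -/
theorem isCan_iff (Γ : Subgroup SL(2, ℤ)) (χ : Γ →* ℂˣ) (m : ℕ) (f : ℍ → ℂ)
    (P : PowerSeries ℂ) :
    H22.Tw.IsCan Γ χ m f P ↔ H22.Tw.IsTw Γ χ 4 f ∧ H22.Tw.IsQ 1 f P ∧
      (∀ i < m, P.coeff i = 0) ∧ P.coeff m = 1 ∧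
      ∀ g Q, H22.Tw.IsTw Γ χ 4 g → H22.Tw.IsQ 1 g Q → (∀ i ≤ m, Q.coeff i = 0) → g = 0 :=
  ⟨fun h => ⟨h.tw, h.q, h.low, h.lead, h.max⟩, fun h => ⟨h.1, h.2.1, h.2.2.1, h.2.2.2.1, h.2.2.2.2⟩⟩

/-- A canonical form exists and is unique. (`H22TwCanon`) -/
theorem canonical_form {Γ : Subgroup SL(2, ℤ)} (hΓ : H22.Tw.Hyp Γ) {n : ℕ} (hodd : Odd n)
    {χ : Γ →* ℂˣ} (hχ : χ ∈ H22.Tw.parChar Γ n) :
    (∃ m f P, H22.Tw.IsCan Γ χ m f P) ∧
      ∀ (m m' : ℕ) (f f' : ℍ → ℂ) (P P' : PowerSeries ℂ), H22.Tw.IsCan Γ χ m f P →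
        H22.Tw.IsCan Γ χ m' f' P' → m = m' ∧ f = f' ∧ P = P' :=
  ⟨H22.Tw.exists_can hΓ hodd hχ, fun _ _ _ _ _ _ h h' => h.unique h'⟩

/-- **An automorphism maps the canonical form of `χ` to that of `χ^σ`.** (`H22TwCanon`) -/
theorem canonical_form_conjugate {Γ : Subgroup SL(2, ℤ)} (hΓ : H22.Tw.Hyp Γ) {n : ℕ}
    (hodd : Odd n) (σ : ℂ ≃+* ℂ) {χ : H22.Tw.parChar Γ n} {m : ℕ} {f : ℍ → ℂ}
    {P : PowerSeries ℂ} (h : H22.Tw.IsCan Γ χ m f P) :
    ∃ f', H22.Tw.IsCan Γ (H22.Tw.cj hΓ hodd (σ : ℂ →+* ℂ) χ) m f' (P.map (σ : ℂ →+* ℂ)) :=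
  h.conj hΓ hodd σ

/-- There are only finitely many characters in `parChar Γ n`, because `Γ` is finitely generated.
(`H22TwGal`) -/
theorem finitely_many_characters {Γ : Subgroup SL(2, ℤ)} [Γ.FiniteIndex] {n : ℕ} (hn : n ≠ 0) :
    Finite (H22.Tw.parChar Γ n) :=
  H22.Tw.finite_parChar hn

/-- **The coefficients of a canonical form are algebraic**: the automorphisms of `ℂ` which fix `χ` form a
subgroup of finite index and fix the coefficients; so these have finitely many conjugates. Here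
`ι : ℚ̄ → ℂ` is an embedding. (`H22TwGal`, `H90DescentLin`) -/
theorem coefficients_algebraic {Γ : Subgroup SL(2, ℤ)} (hΓ : H22.Tw.Hyp Γ) {n : ℕ} (hodd : Odd n)
    (ι : Qb →+* ℂ) {χ : H22.Tw.parChar Γ n} {m : ℕ} {f : ℍ → ℂ} {P : PowerSeries ℂ}
    (h : H22.Tw.IsCan Γ χ m f P) (i : ℕ) : ∃ b, P.coeff i = ι b :=
  h.algebraic hΓ hodd ι i

/-- **Extension of automorphisms** from `ℚ̄` to `ℂ`, by a transcendence basis. (`H22TwGal`) -/
theorem automorphisms_extend (ι : Qb →+* ℂ) (s : Gq) :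
    ∃ σ : ℂ ≃+* ℂ, ∀ x, σ (ι x) = ι (s x) :=
  H22.Tw.exists_lift ι s

/-- **`χ^σ` depends only on the restriction of `σ` to `ℚ̄`**: compare the conjugates of the canonical form.
(`H22TwGal`) -/
theorem conjugate_depends_on_restriction {Γ : Subgroup SL(2, ℤ)} (hΓ : H22.Tw.Hyp Γ) {n : ℕ}
    (hodd : Odd n) (ι : Qb →+* ℂ) {σ τ : ℂ →+* ℂ} (h : ∀ x, σ (ι x) = τ (ι x))
    (χ : H22.Tw.parChar Γ n) : H22.Tw.cj hΓ hodd σ χ = H22.Tw.cj hΓ hodd τ χ :=
  H22.Tw.cj_congr hΓ hodd ι h χ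

/-! ## 9. Hecke operators -/

/-- **The product over a Hecke correspondence.** Let `H` be a Hecke correspondence (`H48.HeckeSys Γ`:
matrices `α_i` with `α_i γ = γ_i α_{γ i}`, `γ_i ∈ Γ`), `f` a form with character `χ` such that the
functions `f ∣ α_i` are bounded at the cusps. Then `∏ f ∣ α_i` has the character `γ ↦ ∏ χ(γ_i)`.
(`H22TwHecke`) -/
theorem product_over_correspondence {Γ : Subgroup SL(2, ℤ)} {χ : Γ →* ℂˣ} {k : ℤ} {f : ℍ → ℂ}
    (H : H48.HeckeSys Γ) (hf : H22.Tw.IsTw Γ χ k f)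
    (hb : ∀ (i : H.ι) (g : SL(2, ℤ)), IsBoundedAtImInfty ((f ∣[k] H.α i) ∣[k] g)) :
    H22.Tw.IsTw Γ (H22.Tw.hChar H χ) ((Fintype.card H.ι : ℤ) * k) (∏ i : H.ι, f ∣[k] H.α i) :=
  H22.Tw.isTw_nrm H hf hb

/-- **The product for `T_p`**, called `nrm (sysT M p _ _) k f`, is up to a nonzero constant
`NP p _ f g = g(p τ) ∏_{j < p} f((τ + j) / p)` with `g = f ∣ σ_p`. (`H22TwHecke`) -/
theorem product_for_T {M p : ℕ} (hp : p.Prime) (hpM : ¬ p ∣ M) (k : ℤ) (f : ℍ → ℂ) :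
    ∃ c : ℂ, c ≠ 0 ∧ H22.Tw.nrm (H48.sysT M p hp hpM) k f =
      c • ((((f ∣[k] H58.sig M p) ∘ H22.Tw.mulArg p hp.ne_zero) *
        ∏ j ∈ Finset.range p, (f ∘ H22.Tw.divArg p hp.ne_zero j))) :=
  H22.Tw.nrm_sysT hp hpM k f

/-- **The diamond operator**: `f ∣ σ_d` has the character transferred by `⟨d⟩` (`H48.sysDia M d`, the
correspondence with the single matrix `σ_d`, see `GuideDeligneSerre`). (`H22TwHecke`) -/
theorem product_for_diamond {M : ℕ} {k : ℤ} {f : ℍ → ℂ} {χ : Gamma1 M →* ℂˣ}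
    (hf : H22.Tw.IsTw (Gamma1 M) χ k f) (d : ℤ) :
    H22.Tw.IsTw (Gamma1 M) (H22.Tw.hChar (H48.sysDia M d) χ) k (f ∣[k] H58.sig M d) :=
  H22.Tw.isTw_dia hf d

/-- **Expansion of the product**: if `f`, `g` have the expansions `P`, `Q` and the product
`g(p τ) ∏ f((τ + j) / p)` has period one, it has an expansion `R` with
`R(X^p) = Q(X^(p²)) ∏ P(ζ X)`, `ζ` through the `p`-th roots of unity (this relation is `IsNP p _ P Q R`).
(`H22TwNP`) -/
theorem product_expansion {p : ℕ} {f g : ℍ → ℂ} {P Q : PowerSeries ℂ} (hp : p ≠ 0)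
    (hf : H22.Tw.IsQ 1 f P) (hg : H22.Tw.IsQ 1 g Q)
    (hper : Function.Periodic (H22.Tw.NP p hp f g ∘ ofComplex) (1 : ℝ)) :
    ∃ R, H22.Tw.IsQ 1 (H22.Tw.NP p hp f g) R ∧
      R.expand p hp = (Q.expand p hp).expand p hp *
        ∏ ζ ∈ Polynomial.nthRootsFinset p (1 : ℂ), PowerSeries.rescale ζ P :=
  H22.Tw.IsQ.exists_NP hp hf hg hper

/-- **The relation descends**: if `P`, `Q` have coefficients in a subring `S` which contains all `p`-th roots
of unity, so has `R`, with the same relation over `S`. (`H22TwNP`) -/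
theorem relation_descends {S T : Type*} [CommRing S] [IsDomain S] [CommRing T] [IsDomain T]
    {p : ℕ} (φ : S →+* T) (hφ : Function.Injective φ) (hp : p ≠ 0)
    (hS : (Polynomial.nthRootsFinset p (1 : S)).card = p) {P Q : PowerSeries S}
    {R : PowerSeries T} (h : H22.Tw.IsNP p hp (P.map φ) (Q.map φ) R) :
    ∃ R' : PowerSeries S, R = R'.map φ ∧ H22.Tw.IsNP p hp P Q R' :=
  H22.Tw.IsNP.descend φ hφ hp hS h

/-- **The product is compatible with conjugation.** (`H22TwNP`) -/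
theorem product_conjugate {p : ℕ} {f g f' g' : ℍ → ℂ} {σ : ℂ →+* ℂ} (hp : p ≠ 0)
    (hf : H22.Tw.IsConj σ f f') (hg : H22.Tw.IsConj σ g g')
    (hper : Function.Periodic (H22.Tw.NP p hp f g ∘ ofComplex) (1 : ℝ)) :
    H22.Tw.IsConj σ (H22.Tw.NP p hp f g) (H22.Tw.NP p hp f' g') :=
  H22.Tw.IsConj.NP hp hf hg hper

/-- **Conjugation and the diamond operators**: if `f'` is the conjugate of `f`, then up to a nonzero constant
`f' ∣ σ_d` is the conjugate of `f ∣ σ_d`. For the `n`-th powers, which are modular forms on `Γ₁(M)`, this is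
`H50.conj_slashM`; the roots differ by a root of unity (`equal_powers`). (`H22TwEqv`) -/
theorem diamond_conjugate {M n : ℕ} [NeZero M] (hM : 3 ≤ M) (hn : n.Prime) (hn5 : 5 ≤ n)
    {k : ℤ} (hk : Even k) {σ : ℂ →+* ℂ} {ψ : H22.Tw.parChar (H22.Tw.pmG M) n} {f f' : ℍ → ℂ}
    (hf : H22.Tw.IsTw (H22.Tw.pmG M) ψ k f)
    (hf' : H22.Tw.IsTw (H22.Tw.pmG M)
      (H22.Tw.cj (H22.Tw.hyp_pmG hM) (H22.Tw.odd_of_prime hn hn5) σ ψ) k f')
    (hc : H22.Tw.IsConj σ f f') (d : ℤ) :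
    ∃ c : ℂ, c ≠ 0 ∧ H22.Tw.IsConj σ (f ∣[k] H58.sig M d) (c • (f' ∣[k] H58.sig M d)) :=
  H22.Tw.exists_conj_dia hM hn hn5 hk hf hf' hc d

/-! ## 10. Reduction modulo `p`

`A` is a place (valuation ring) of `ℚ̄` above the prime `p`, `ι : ℚ̄ → ℂ` an embedding, `φA A ι : A → ℂ` its
restriction to `A`. For an automorphism `s` of `ℚ̄` which maps `A` to itself, `rA A s _ : A → A` is its
restriction. -/

/-- **Roots of unity** lie in every place. (`H22TwES`) -/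
theorem roots_of_unity_in_place {A : ValuationSubring Qb} {p : ℕ} {ζ : Qb} (hp : p ≠ 0)
    (h : ζ ^ p = 1) : ζ ∈ A :=
  H22.Tw.mem_of_pow_eq_one hp h

/-- **Inertia and Frobenius on residues**: an element of the inertia group induces the identity on the
residue field of `A`, a Frobenius element the `p`-th power. (`H22TwES`) -/
theorem inertia_and_frobenius {A : ValuationSubring Qb} {p : ℕ} {s : Gq} :
    (∀ (hs : s ∈ A.inertiaSubgroupIn ℚ) (a : A), IsLocalRing.residue A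
        (H22.Tw.rA A s (H22.Tw.inertia_mem_iff hs) a) = IsLocalRing.residue A a) ∧
      ∀ (hs : A.IsFrobeniusAt s p) (a : A), IsLocalRing.residue A
        (H22.Tw.rA A s (H22.Tw.decomp_mem_iff hs.mem_decompositionSubgroup) a) =
          IsLocalRing.residue A a ^ p :=
  ⟨fun hs a => H22.Tw.inertia_residue hs a, fun hs a => H22.Tw.frob_residue hs a⟩

/-- **Normalised forms**: for every character `ψ` there is a form `f ≠ 0` of weight `4` with character `ψ`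
such that `f ^ n` has coefficients in `A` and a nonzero reduction. Take the canonical form; among the
coefficients of its `n`-th power there is one of largest absolute value at `A` (`H50.exists_max_coeff`);
divide by an `n`-th root of it. (`H22TwES`) -/
theorem normalised_form {M n : ℕ} [NeZero M] (hM : 3 ≤ M) (hodd : Odd n)
    (A : ValuationSubring Qb) (ι : Qb →+* ℂ) (ψ : H22.Tw.parChar (H22.Tw.pmG M) n) :
    ∃ (f : ℍ → ℂ) (a : PowerSeries A), H22.Tw.IsTw (H22.Tw.pmG M) ψ 4 f ∧ f ≠ 0 ∧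
      H22.Tw.IsQ 1 (f ^ n) (a.map (H22.Tw.φA A ι)) ∧ a.map (IsLocalRing.residue A) ≠ 0 :=
  H22.Tw.exists_normalised hM hodd A ι ψ

/-- **The diamond operators preserve normalised forms**: let `G` be a modular form of even weight on
`Γ₁(M)` with coefficients in `A` and nonzero reduction, `δ ∈ Γ₀(M)`, `p ∤ M`. Then `G ∣ δ` has the same
property. The `q`-expansion principle `QEIn M` gives integrality; if the reduction of `G ∣ δ` were zero,
divide by its largest coefficient and apply `QEIn M` to `δ⁻¹`. (`H22TwES`) -/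
theorem diamond_normalised {M p : ℕ} {A : ValuationSubring Qb} (hQE : H22.Tw.QEIn M)
    (hp : p.Prime) (hpM : ¬ p ∣ M) (hA : A.LiesOverPrime p) (ι : Qb →+* ℂ) [NeZero M] {k : ℤ}
    (hk : Even k) {G : ℍ → ℂ} (hG : H22.Tw.IsM (Gamma1 M) k G) {a : PowerSeries A}
    (ha : H22.Tw.IsQ 1 G (a.map (H22.Tw.φA A ι))) (ha0 : a.map (IsLocalRing.residue A) ≠ 0)
    {δ : SL(2, ℤ)} (hδ : δ ∈ Gamma0 M) :
    ∃ b : PowerSeries A, H22.Tw.IsQ 1 (G ∣[k] δ) (b.map (H22.Tw.φA A ι)) ∧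
      b.map (IsLocalRing.residue A) ≠ 0 :=
  H22.Tw.exists_dia_normalised hQE hp hpM hA ι hk hG ha ha0 hδ

/-- **Conjugation of normalised forms**: if `f` has the character `ψ` and `f ^ n` the expansion `a` over `A`,
and `s` maps `A` to itself, there is a form with character `gal s ψ` the `n`-th power of which has the
expansion `s(a)`. (`H22TwES`) -/
theorem conjugate_normalised {M n : ℕ} [NeZero M] (hM : 3 ≤ M) (hodd : Odd n) {k : ℤ}
    (hk : Even k) {A : ValuationSubring Qb} {ι : Qb →+* ℂ} {f : ℍ → ℂ}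
    {ψ : H22.Tw.parChar (H22.Tw.pmG M) n} (hf : H22.Tw.IsTw (H22.Tw.pmG M) ψ k f)
    {a : PowerSeries A} (ha : H22.Tw.IsQ 1 (f ^ n) (a.map (H22.Tw.φA A ι))) (s : Gq)
    (hs : ∀ x, s x ∈ A ↔ x ∈ A) :
    ∃ f', H22.Tw.IsTw (H22.Tw.pmG M) (H22.Tw.gal (H22.Tw.hyp_pmG hM) hodd ι s ψ) k f' ∧
      H22.Tw.IsQ 1 (f' ^ n) ((a.map (H22.Tw.rA A s hs)).map (H22.Tw.φA A ι)) :=
  H22.Tw.exists_conj_normalised hM hodd hk hf ha s hs

/-- **Kummer injectivity for power series over `A`**: forms `x`, `y` of the same even weight whose `n`-th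
powers have expansions over `A` with the same nonzero reduction have the same character. With
`inertia_and_frobenius` this gives unramifiedness at once; for the Eichler-Shimura relation `x` is the product
of section 9 and `y = f' g' ^ p`, where `f'` is the conjugate of `f` by the Frobenius element and `g'` that of
`f ∣ σ_p` by its inverse. (`H22TwES`) -/
theorem kummer_injectivity_series {M n p : ℕ} {A : ValuationSubring Qb} (hKI : H22.Tw.KIIn M n)
    (hp : p.Prime) (hpM : ¬ p ∣ M) (hpn : ¬ p ∣ n) (hA : A.LiesOverPrime p) (ι : Qb →+* ℂ)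
    {k : ℤ} (hk : Even k) {ψ₁ ψ₂ : H22.Tw.parChar (H22.Tw.pmG M) n} {x y : ℍ → ℂ}
    (hx : H22.Tw.IsTw (H22.Tw.pmG M) ψ₁ k x) (hy : H22.Tw.IsTw (H22.Tw.pmG M) ψ₂ k y)
    {a b : PowerSeries A} (ha : H22.Tw.IsQ 1 (x ^ n) (a.map (H22.Tw.φA A ι)))
    (hb : H22.Tw.IsQ 1 (y ^ n) (b.map (H22.Tw.φA A ι)))
    (hab : a.map (IsLocalRing.residue A) = b.map (IsLocalRing.residue A))
    (h0 : a.map (IsLocalRing.residue A) ≠ 0) : ψ₁ = ψ₂ :=
  H22.Tw.apply_KI hKI hp hpM hpn hA ι hk hx hy ha hb hab h0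

/-- **Transport to `Γ₁(M)`**: `galV` is the action on the group `H48.Vn (Gamma1 M) n` of the characters of
`Γ₁(M)`, which is isomorphic to `parChar (±Γ₁(M)) n` by restriction of characters (`vnEquiv`). It commutes
with a Hecke correspondence `H` if the action on `parChar (±Γ₁(M)) n` does; `H` acts on `parChar` by `hV` and
on `H48.Vn` by `H.homV n` (the transfer of characters, as in `GuideDeligneSerre`). (`H22TwMain`) -/
theorem transport_to_Gamma1 {M n : ℕ} [NeZero M] (hM : 3 ≤ M) (hn : n.Prime) (hn5 : 5 ≤ n)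
    (ι : Qb →+* ℂ) (s : Gq) :
    (∀ ψ : H22.Tw.parChar (H22.Tw.pmG M) n,
      H22.Tw.galV hM hn hn5 ι s (H22.Tw.vnEquiv hM hn hn5 (Additive.ofMul ψ)) =
        H22.Tw.vnEquiv hM hn hn5 (Additive.ofMul
          (H22.Tw.gal (H22.Tw.hyp_pmG hM) (H22.Tw.odd_of_prime hn hn5) ι s ψ))) ∧
      ∀ H : H48.HeckeSys (Gamma1 M), (∀ ψ : H22.Tw.parChar (H22.Tw.pmG M) n,
        H22.Tw.gal (H22.Tw.hyp_pmG hM) (H22.Tw.odd_of_prime hn hn5) ι s
            (H22.Tw.hV hM hn hn5 H ψ) =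
          H22.Tw.hV hM hn hn5 H
            (H22.Tw.gal (H22.Tw.hyp_pmG hM) (H22.Tw.odd_of_prime hn hn5) ι s ψ)) →
        ∀ χ : H48.Vn (Gamma1 M) n, H22.Tw.galV hM hn hn5 ι s (H.homV n χ) =
          H.homV n (H22.Tw.galV hM hn hn5 ι s χ) :=
  ⟨H22.Tw.galV_apply hM hn hn5 ι s, fun H hH χ => H22.Tw.galV_homV hM hn hn5 ι H s hH χ⟩

end Fermat.Agent.Guide.TwistedForms
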