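import Fermat.Agent.S25

/-!
# Guide to the proof: divisors and degrees on a curve in families (S25, companion of `GuideJacobians`)

This file contains no new mathematics. Every theorem below is proved by citing a theorem of the
library; the statements are written out. It explains section 7 of `GuideJacobians`: how the proof of
S25 works with the line bundles `L(-x)`, `x` a point of the curve, over an arbitrary base and without
a theory of divisors, and how the theorem of Riemann-Roch is replaced.

Let `k` be algebraically closed and `c : C ⟶ Spec k` a smooth curve (separated or proper, `C`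
integral). For a `k`-scheme `T` a morphism `y : T ⟶ C` is a section of `C_T = C ×_k T ⟶ T`; its graph
`T ⟶ C_T` plays the role of the point. The steps:

1. Twists. For a morphism `γ : T ⟶ X` which is locally given by one nonzerodivisor, every line bundle
   `M` on `X` has a subsheaf `M(-γ)`, the sections whose pull back to `T` vanishes; it is again a line
   bundle. Existence, uniqueness, inverse, base change: `exists_twist`, `exists_inverse_twist`,
   `factor_through_twist`, `twist_baseChange`.
2. Points. The graph of every `y : T ⟶ C` is such a `γ`: `graph_isCart` (from the invertibility of the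
   ideal of the diagonal, `diagonal_equation_injective`, `diagonal_equation_surjective`). Its class in
   the Picard group is compatible with base change: `point_twist_baseChange`, `point_class`,
   `chain_of_twists`.
3. Euler characteristics. The Euler characteristic of a line bundle is the index of a linear map, and
   the index is additive: `index_comp`, `euler_char_eq_index`, `euler_char_diff`. Hence
   `χ(L) = χ(L(-x)) + 1` (`euler_char_twist`, `euler_char_points`), and the source of a nonzero
   morphism of line bundles is obtained from the target by removing points (`finite_cokernel`,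
   `morphism_is_twist`).
4. General points and points at infinity: `euler_char_le`, `remove_general_point`,
   `exists_rational_point_nonzero`, `remove_points`, `bundle_of_unit`, `vanishing_of_large_twist`,
   `shift_of_section`. They give `exists_twisting_classes` of `GuideJacobians`: the `H¹` of a class
   vanishes after adding a large multiple of infinity, and then `h⁰` is lowered to zero with general
   points.

All library theorems cited below are used in the proof of S25 and of no other statement. NOTES: [105],
[211], [182]. Files `H20Tw*`, `H20Idx`, `H20Deg`, `H20Deg2`, `H20K3a` to `H20K3d`. Author: helper20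
(design of S25: helper25).
-/

set_option autoImplicit false
universe u

open CategoryTheory CategoryTheory.Limits AlgebraicGeometry AlgebraicGeometry.RelPicard
open NeronModelInfra TopologicalSpace Module Polynomial
open Fermat.Agent Fermat.Agent.H25 Fermat.Agent.H21T
open scoped TensorProduct

noncomputable section

namespace Fermat.Agent.Guide.Twists

/-! ## 1. Twisting a line bundle by an effective Cartier divisor

`Γ(M, U)` is the group of sections over `U` of the sheaf of modules `M`; `res` and `resO` are the
restrictions of sections and of functions; `pb γ M s` is the pull back of the section `s` of `M` along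
`γ`, a section of `γ^* M`; `M.IsInvertible` says that `M` is a line bundle. -/

/-- `e` is a local equation of `γ : T ⟶ X` on the open set `W`: on every smaller open set the functions
which vanish on `T` are the multiples of `e`, and `e` is a nonzerodivisor. Defined in `H20Tw`. -/
theorem isLocEq_iff {X T : Scheme.{u}} (γ : T ⟶ X) {W : X.Opens} (e : Γ(X, W)) :
    H20T.IsLocEq γ e ↔ ∀ (V : X.Opens) (h : V ≤ W),
      (∀ f : Γ(X, V), γ.app V f = 0 ↔ ∃ g : Γ(X, V), f = g * resO h e) ∧
      ∀ g : Γ(X, V), g * resO h e = 0 → g = 0 :=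
  Iff.rfl

/-- `γ : T ⟶ X` is an effective Cartier divisor if it has local equations near every point of `X`; and
`L` is a twist `M(-γ)` if there is a morphism `L ⟶ M` which identifies the sections of `L` over every
open set with the sections of `M` whose pull back to `T` is zero. Defined in `H20Tw`. -/
theorem isCart_isTw_iff {X T : Scheme.{u}} (γ : T ⟶ X) (L M : X.Modules) :
    (H20T.IsCart γ ↔ ∀ p : X, ∃ (W : X.Opens) (_ : p ∈ W) (e : Γ(X, W)), H20T.IsLocEq γ e) ∧
    (H20T.IsTw γ L M ↔ ∃ φ : L ⟶ M, ∀ U : X.Opens, Function.Injective (φ.app U) ∧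
      ∀ s : Γ(M, U), (∃ l, φ.app U l = s) ↔ pb γ M s = 0) :=
  ⟨Iff.rfl, Iff.rfl⟩

/-- **Existence and uniqueness of `M(-γ)`**: it is a line bundle, and unique up to isomorphism.
Proved in `H20Tw` (a sheaf of modules constructed from its groups of sections). -/
theorem exists_twist {X T : Scheme.{u}} {γ : T ⟶ X} (hγ : H20T.IsCart γ) {M : X.Modules}
    (hM : M.IsInvertible) : ∃ L : X.Modules, L.IsInvertible ∧ H20T.IsTw γ L M ∧
      ∀ L' : X.Modules, H20T.IsTw γ L' M → Nonempty (L ≅ L') := by
  obtain ⟨L, hL, h⟩ := H20T.exists_isTw hγ hM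
  exact ⟨L, hL, h, fun _ h' => h.uniq h'⟩

/-- **The inverse twist**: every line bundle `L` is `M(-γ)` for a line bundle `M`. Proved in `H20Tw`
by glueing: locally `M` is `L` and the morphism is multiplication by a local equation. -/
theorem exists_inverse_twist {X T : Scheme.{u}} {γ : T ⟶ X} (hγ : H20T.IsCart γ) {L : X.Modules}
    (hL : L.IsInvertible) : ∃ M : X.Modules, M.IsInvertible ∧ H20T.IsTw γ L M :=
  H20T.exists_isTw_inv hγ hL

/-- **Factorisation**: if `φ : L ⟶ M` is the morphism of a twist `L = M(-γ)` (`H20T.TwHom γ φ`), then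
every morphism `ψ : N ⟶ M` whose values vanish on `γ` factors through `φ`. Proved in `H20Tw`; used
for `morphism_is_twist`. -/
theorem factor_through_twist {X T : Scheme.{u}} {γ : T ⟶ X} {L M N : X.Modules} {φ : L ⟶ M}
    (h : ∀ U : X.Opens, Function.Injective (φ.app U) ∧
      ∀ s : Γ(M, U), (∃ l, φ.app U l = s) ↔ pb γ M s = 0) (ψ : N ⟶ M)
    (hψ : ∀ (U : X.Opens) (n : Γ(N, U)), pb γ M (ψ.app U n) = 0) : ∃ χ : N ⟶ L, χ ≫ φ = ψ :=
  H20T.TwHom.exists_lift h ψ hψ

/-- **Base change of twists** along `g : X' ⟶ X`, from `γ : T ⟶ X` to `γ' : T' ⟶ X'`: if near every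
point of `X'` there is a local equation of `γ` whose pull back is a local equation of `γ'`, then
`g^*(M(-γ)) = (g^* M)(-γ')`. Proved in `H20Tw`. -/
theorem twist_baseChange {X X' T T' : Scheme.{u}} {g : X' ⟶ X} {γ : T ⟶ X} {γ' : T' ⟶ X'}
    (hloc : ∀ p : X', ∃ (W : X.Opens) (_ : g p ∈ W) (e : Γ(X, W)),
      H20T.IsLocEq γ e ∧ H20T.IsLocEq γ' (g.app W e))
    {L M : X.Modules} (hM : M.IsInvertible) (h : H20T.IsTw γ L M) :
    H20T.IsTw γ' ((Scheme.Modules.pullback g).obj L) ((Scheme.Modules.pullback g).obj M) :=
  h.baseChange hloc hM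

/-! ## 2. Points of a smooth curve

`SchemeHomOver t c` is the type of morphisms `y : T ⟶ C` over `Spec k`, for `t : T ⟶ Spec k`;
`pullback c t` is `C_T`, and `baseChangeSnd c ψ : C_T' ⟶ C_T` the morphism induced by `ψ : T' ⟶ T`. -/

/-- The graph of `y : T ⟶ C`, as a morphism `T ⟶ C_T`: its components are `y` and the identity.
Defined in `H20TwCurve`. -/
theorem graph_components {k : Type u} [Field k] {C T : Scheme.{u}}
    {c : C ⟶ Spec (CommRingCat.of k)} {t : T ⟶ Spec (CommRingCat.of k)} (y : SchemeHomOver t c) :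
    H20T.graph y ≫ pullback.fst c t = y.1 ∧ H20T.graph y ≫ pullback.snd c t = 𝟙 T :=
  ⟨H20T.graph_fst y, H20T.graph_snd y⟩

/-- **Graph ideals, injectivity** (algebra). `I ⊂ B ⊗ B` is the ideal of the diagonal, `e ∈ I`, and
`ψ : I ⟶ B ⊗ B` a linear form with `ψ(e) = f`. For every `y : B ⟶ A`, if the image of `e` in `B ⊗ A`
kills `x`, then the image of `f` kills `x`; so where `f` is invertible, `e` is a nonzerodivisor.
Proved in `H20TwAlg`. -/
theorem diagonal_equation_injective {k B A : Type*} [CommRing k] [CommRing B] [CommRing A]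
    [Algebra k B] [Algebra k A] (y : B →ₐ[k] A) {f : B ⊗[k] B}
    {e : KaehlerDifferential.ideal k B} {ψ : KaehlerDifferential.ideal k B →ₗ[B ⊗[k] B] B ⊗[k] B}
    (he : ψ e = f) (x : B ⊗[k] A)
    (hx : x * Algebra.TensorProduct.map (AlgHom.id k B) y e.1 = 0) :
    Algebra.TensorProduct.map (AlgHom.id k B) y f * x = 0 :=
  H20T.graph_inj y he x hx

/-- **Graph ideals, generation** (algebra). If moreover `f x = ψ(x) e` for all `x ∈ I` (locally on the
spectrum of `B ⊗ B` there are such `e`, `f`, `ψ`, because `I` is an invertible module), then `f g` is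
a multiple of `e` in `B ⊗ A` for every `g` which is zero on the graph of `y`: where `f` is
invertible, `e` is a local equation of the graph. Proved in `H20TwAlg`. -/
theorem diagonal_equation_surjective {k B A : Type*} [CommRing k] [CommRing B] [CommRing A]
    [Algebra k B] [Algebra k A] (y : B →ₐ[k] A) {f : B ⊗[k] B}
    {e : KaehlerDifferential.ideal k B} {ψ : KaehlerDifferential.ideal k B →ₗ[B ⊗[k] B] B ⊗[k] B}
    (hψ : ∀ x : KaehlerDifferential.ideal k B, f • x = ψ x • e) (g : B ⊗[k] A)
    (hg : Algebra.TensorProduct.lift y (AlgHom.id k A) (fun _ _ => Commute.all _ _) g = 0) :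
    ∃ a : B ⊗[k] A, Algebra.TensorProduct.map (AlgHom.id k B) y f * g =
      a * Algebra.TensorProduct.map (AlgHom.id k B) y e.1 :=
  H20T.graph_surj y hψ g hg

/-- **Graphs are Cartier divisors**: for a smooth separated curve `C` and EVERY `k`-scheme `T` (not
necessarily reduced or noetherian) the graph of every morphism `T ⟶ C` has local equations, the pull
backs of the local equations of the diagonal. Proved in `H20TwLoc`, `H20TwCurve`. -/
theorem graph_isCart {k : Type u} [Field k] [IsAlgClosed k] {C T : Scheme.{u}}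
    {c : C ⟶ Spec (CommRingCat.of k)} [IsSeparated c] [SmoothOfRelativeDimension 1 c] [IsIntegral C]
    {t : T ⟶ Spec (CommRingCat.of k)} (y : SchemeHomOver t c) : H20T.IsCart (H20T.graph y) :=
  H20T.isCart_graph y

/-- **Base change of points**: if `L = M(-y)` on `C_T`, then `ψ^* L = (ψ^* M)(-(y ∘ ψ))` on `C_T'`
for every `ψ : T' ⟶ T`. Proved in `H20TwCurve`. -/
theorem point_twist_baseChange {k : Type u} [Field k] [IsAlgClosed k] {C T T' : Scheme.{u}}
    {c : C ⟶ Spec (CommRingCat.of k)} [IsSeparated c] [SmoothOfRelativeDimension 1 c] [IsIntegral C]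
    {t : T ⟶ Spec (CommRingCat.of k)} {t' : T' ⟶ Spec (CommRingCat.of k)}
    {L M : (pullback c t).Modules} {y : SchemeHomOver t c} (h : H20T.IsTw (H20T.graph y) L M)
    (hM : M.IsInvertible) (ψ : SchemeHomOver t' t) :
    H20T.IsTw (H20T.graph (postComp y ψ)) ((Scheme.Modules.pullback (baseChangeSnd c ψ)).obj L)
      ((Scheme.Modules.pullback (baseChangeSnd c ψ)).obj M) :=
  h.graph_baseChange hM ψ

/-- **Classes of points.** In the Picard group `SPic (pullback c t)` of `C_T` there is for every point
`x : T ⟶ C` a class `O(x)` (`H20T.ptCl x`) with `[M] = [L] O(x)` whenever `L = M(-x)`; it is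
compatible with base change. Proved in `H20K3a`. -/
theorem point_class {k : Type u} [Field k] [IsAlgClosed k] {C T T' : Scheme.{u}}
    {c : C ⟶ Spec (CommRingCat.of k)} [IsSeparated c] [SmoothOfRelativeDimension 1 c] [IsIntegral C]
    {t : T ⟶ Spec (CommRingCat.of k)} {t' : T' ⟶ Spec (CommRingCat.of k)} (x : SchemeHomOver t c) :
    (∀ (L M : (pullback c t).Modules) (hL : L.IsInvertible) (hM : M.IsInvertible),
      H20T.IsTw (H20T.graph x) L M → SPic.mk M hM = SPic.mk L hL * H20T.ptCl x) ∧
    ∀ ψ : SchemeHomOver t' t,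
      SPic.map (baseChangeSnd c ψ) (H20T.ptCl x) = H20T.ptCl (postComp x ψ) :=
  ⟨fun _ _ hL hM h => H20T.mk_of_isTw hL hM h, H20T.map_ptCl x⟩

/-- **Chains of twists.** `L = M(-y₁ - … - y_d)` for a list of points `y_i : T ⟶ C`
(`H20T.TwL [y₁, …, y_d] L M`), by recursion; in the Picard group, `[M] = [L] O(y₁) … O(y_d)`.
Defined in `H20TwFam`, the formula is in `H20K3a`. -/
theorem chain_of_twists {k : Type u} [Field k] [IsAlgClosed k] {C T : Scheme.{u}}
    {c : C ⟶ Spec (CommRingCat.of k)} [IsSeparated c] [SmoothOfRelativeDimension 1 c] [IsIntegral C]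
    {t : T ⟶ Spec (CommRingCat.of k)} (y : SchemeHomOver t c) (ys : List (SchemeHomOver t c))
    (L M : (pullback c t).Modules) :
    (H20T.TwL [] L M ↔ Nonempty (L ≅ M)) ∧
    (H20T.TwL (y :: ys) L M ↔ ∃ L' : (pullback c t).Modules, L'.IsInvertible ∧ H20T.TwL ys L' M ∧
      H20T.IsTw (H20T.graph y) L L') ∧
    ∀ (hL : L.IsInvertible) (hM : M.IsInvertible), H20T.TwL ys L M →
      SPic.mk M hM = SPic.mk L hL * (ys.map H20T.ptCl).prod :=
  ⟨Iff.rfl, Iff.rfl, fun hL hM h => H20T.mk_of_twL hL hM h⟩

/-! ## 3. Euler characteristics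

`TwoChart z`: two affine charts `U`, `V` of a curve `z : Z ⟶ Spec K`, free over polynomial rings
(`exists_two_charts` of `GuideJacobians`); `Sec z L W` is `Γ(L, W)` as a vector space over `K`,
`Sec.resL z L h` the restriction to a smaller open set, `H20T.Sec.mapL z φ W` the map `Γ(L, W) → Γ(M, W)`
given by `φ : L ⟶ M`, and `chiL τ L hL` the Euler characteristic of `L` computed with the charts of `τ`
(`euler_char_of_line_bundle` of `GuideJacobians`). -/

/-- **The index** of a linear map with finite dimensional kernel and cokernel (`H20T.Fred f`),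
`ind f = dim ker f - dim coker f`, is additive for compositions. Proved in `H20Idx`. -/
theorem index_comp {K A B C : Type*} [Field K] [AddCommGroup A] [Module K A] [AddCommGroup B]
    [Module K B] [AddCommGroup C] [Module K C] {f : A →ₗ[K] B} {g : B →ₗ[K] C}
    (hf : H20T.Fred f) (hg : H20T.Fred g) :
    (H20T.ind f = (finrank K (LinearMap.ker f) : ℤ) - finrank K (B ⧸ LinearMap.range f)) ∧
      H20T.ind (g ∘ₗ f) = H20T.ind f + H20T.ind g :=
  ⟨rfl, H20T.ind_comp hf hg⟩

/-- **The Euler characteristic is an index**, of the map `L(U) × L(V) ⟶ L(U ∩ V)` (sum of the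
restrictions). Proved in `H20Deg`. -/
theorem euler_char_eq_index {K : Type u} [Field K] {Z : Scheme.{u}}
    {z : Z ⟶ Spec (CommRingCat.of K)} (τ : TwoChart z) {L : Z.Modules} (hL : L.IsInvertible) :
    H20T.Fred ((Sec.resL z L inf_le_left).coprod (Sec.resL z L inf_le_right) :
      (Sec z L τ.U × Sec z L τ.V) →ₗ[K] Sec z L (τ.U ⊓ τ.V)) ∧
    chiL τ L hL = H20T.ind ((Sec.resL z L inf_le_left).coprod (Sec.resL z L inf_le_right) :
      (Sec z L τ.U × Sec z L τ.V) →ₗ[K] Sec z L (τ.U ⊓ τ.V)) :=
  H20T.chiL_eq_ind τ hL

/-- **Comparison of two Euler characteristics.** Let `φ : L ⟶ M` be injective on `U`, `V`, `U ∩ V` with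
cokernels of finite dimensions `a`, `b`, `c` there (`H20T.cok`). Then `χ(M) = χ(L) + a + b - c`.
Proved in `H20Deg` from the two previous theorems. -/
theorem euler_char_diff {K : Type u} [Field K] {Z : Scheme.{u}} {z : Z ⟶ Spec (CommRingCat.of K)}
    (τ : TwoChart z) {L M : Z.Modules} (hL : L.IsInvertible) (hM : M.IsInvertible) (φ : L ⟶ M)
    (hU : Function.Injective (φ.app τ.U)) (hV : Function.Injective (φ.app τ.V))
    (hUV : Function.Injective (φ.app (τ.U ⊓ τ.V)))
    (fU : Module.Finite K (Sec z M τ.U ⧸ LinearMap.range (H20T.Sec.mapL z φ τ.U)))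
    (fV : Module.Finite K (Sec z M τ.V ⧸ LinearMap.range (H20T.Sec.mapL z φ τ.V)))
    (fUV : Module.Finite K (Sec z M (τ.U ⊓ τ.V) ⧸
      LinearMap.range (H20T.Sec.mapL z φ (τ.U ⊓ τ.V)))) :
    chiL τ M hM = chiL τ L hL + H20T.cok z φ τ.U + H20T.cok z φ τ.V - H20T.cok z φ (τ.U ⊓ τ.V) :=
  H20T.chiL_diff τ hL hM φ hU hV hUV fU fV fUV

/-- **A point lowers the Euler characteristic by one**: `χ(M) = χ(M(-x)) + 1` for a rational point
`x`. Proved in `H20Deg`: the cokernels are zero on the open sets which do not contain `x` and of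
dimension one on the others. -/
theorem euler_char_twist {K : Type u} [Field K] {Z : Scheme.{u}}
    {z : Z ⟶ Spec (CommRingCat.of K)} (τ : TwoChart z) {x : Spec (CommRingCat.of K) ⟶ Z}
    (hx : x ≫ z = 𝟙 _) {L M : Z.Modules} (hL : L.IsInvertible) (hM : M.IsInvertible)
    (h : H20T.IsTw x L M) : chiL τ M hM = chiL τ L hL + 1 :=
  H20T.chiL_tw τ hx hL hM h.choose_spec

/-- The same for classes in the Picard group and several points `x_i`, which are added here:
`χ(α O(x₁) … O(x_d)) = χ(α) + d`. Proved in `H20K3a`. -/
theorem euler_char_points {k : Type u} [Field k] [IsAlgClosed k] {C : Scheme.{u}}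
    {c : C ⟶ Spec (CommRingCat.of k)} [IsSeparated c] [SmoothOfRelativeDimension 1 c] [IsIntegral C]
    (τ : TwoChart c) {K : Type u} [Field K]
    {z : Spec (CommRingCat.of K) ⟶ Spec (CommRingCat.of k)} (xs : List (SchemeHomOver z c))
    (α : SPic (pullback c z)) :
    chiP τ z (α * (xs.map H20T.ptCl).prod) = chiP τ z α + xs.length :=
  H20T.chiP_mul_prod τ xs α

/-- **Finite cokernels.** A nonzero morphism of line bundles on an integral curve is injective on
sections, and its cokernel on each chart has finite dimension (`O(U)` is finite over `K[t]`, so every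
nonzero function on `U` divides a nonzero polynomial in `t`). Proved in `H20FinQ`, `H20Deg2`. -/
theorem finite_cokernel {K : Type u} [Field K] {Z : Scheme.{u}} [IsIntegral Z]
    {z : Z ⟶ Spec (CommRingCat.of K)} (τ : TwoChart z) {L M : Z.Modules} (hL : L.IsInvertible)
    (hM : M.IsInvertible) {φ : L ⟶ M} (hφ : φ ≠ 0) :
    (∀ U : Z.Opens, Function.Injective (φ.app U)) ∧
    Module.Finite K (Sec z M τ.U ⧸ LinearMap.range (H20T.Sec.mapL z φ τ.U)) ∧
    Module.Finite K (Sec z M τ.V ⧸ LinearMap.range (H20T.Sec.mapL z φ τ.V)) :=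
  ⟨H20T.app_injective_of_ne_zero hL hM hφ, H20T.finite_cokU τ hL hM hφ,
    H20T.finite_cokV τ hL hM hφ⟩

/-- **Nonzero morphisms are twists**: if there is a nonzero morphism `L ⟶ M` of line bundles on a
proper smooth curve over an algebraically closed field, then `L = M(-x₁ - … - x_d)` for rational
points `x_i`. (Induction on the dimensions of the cokernels: a morphism which is not an isomorphism
vanishes at a rational point `x`, so it factors through `M(-x)`.) Proved in `H20Deg2`. -/
theorem morphism_is_twist {K : Type u} [Field K] [IsAlgClosed K] {C : Scheme.{u}}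
    {c : C ⟶ Spec (CommRingCat.of K)} [IsProper c] [SmoothOfRelativeDimension 1 c] [IsIntegral C]
    (τ : TwoChart (pullback.snd c (𝟙 (Spec (CommRingCat.of K)))))
    {L M : (pullback c (𝟙 (Spec (CommRingCat.of K)))).Modules} (hL : L.IsInvertible)
    (hM : M.IsInvertible) {φ : L ⟶ M} (hφ : φ ≠ 0) :
    ∃ xs : List (SchemeHomOver (𝟙 (Spec (CommRingCat.of K))) c), H20T.TwL xs L M :=
  H20T.exists_twL_of_ne_zero τ hL hM hφ

/-! ## 4. General points and multiples of infinity -/

/-- **Global sections.** `Γ(L, Z)` has finite dimension `h⁰ ≥ χ(L)`, and `χ(L) = h⁰` if and only if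
`H¹(L) = 0`, that is `L(U ∩ V) = L(U) + L(V)`. (`latOf τ L hL` is the lattice of `L`, its submodules
`P`, `Q` are the images of `L(U)`, `L(V)` in `L(U ∩ V)`.) Proved in `H20K3b`. -/
theorem euler_char_le {K : Type u} [Field K] {Z : Scheme.{u}} {z : Z ⟶ Spec (CommRingCat.of K)}
    (τ : TwoChart z) {L : Z.Modules} (hL : L.IsInvertible) :
    Module.Finite K (Sec z L ⊤) ∧ chiL τ L hL ≤ finrank K (Sec z L ⊤) ∧
    ((latOf τ L hL).P ⊔ (latOf τ L hL).Q = ⊤ ↔ chiL τ L hL = finrank K (Sec z L ⊤)) :=
  ⟨(H20T.finrank_top τ hL).1, H20T.chiL_le τ hL, H20T.sup_eq_top_iff τ hL⟩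

/-- **Removing a point** at which some section of `M` does not vanish lowers `h⁰`:
`h⁰(M(-x)) < h⁰(M)`. With `euler_char_twist` and `euler_char_le`: if `H¹(M) = 0`, then
`H¹(M(-x)) = 0`. Proved in `H20K3b`. -/
theorem remove_general_point {K : Type u} [Field K] {Z : Scheme.{u}}
    {z : Z ⟶ Spec (CommRingCat.of K)} (τ : TwoChart z) {x : Spec (CommRingCat.of K) ⟶ Z}
    {L M : Z.Modules} (hM : M.IsInvertible) (h : H20T.IsTw x L M) {s : Γ(M, ⊤)}
    (hs : pb x M s ≠ 0) : finrank K (Sec z L ⊤) < finrank K (Sec z M ⊤) :=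
  H20T.finrank_tw_lt τ hM h.choose_spec hs

/-- **Rational points are dense enough**: `K` is any field over the algebraically closed field `k`. Two
nonzero sections of line bundles on `C_K` are nonzero at one and the same point of `C(k)`
(`H20T.liftPt z x` is the point `x ∈ C(k)` seen as a point of `C(K)`). Proved in `H20K3b`. -/
theorem exists_rational_point_nonzero {k : Type u} [Field k] [IsAlgClosed k] {C : Scheme.{u}}
    {c : C ⟶ Spec (CommRingCat.of k)} [IsProper c] [SmoothOfRelativeDimension 1 c] [IsIntegral C]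
    {K : Type u} [Field K] {z : Spec (CommRingCat.of K) ⟶ Spec (CommRingCat.of k)}
    {L M : (pullback c z).Modules} (hL : L.IsInvertible) (hM : M.IsInvertible) {s : Γ(L, ⊤)}
    {s' : Γ(M, ⊤)} (hs : s ≠ 0) (hs' : s' ≠ 0) :
    ∃ x : SchemeHomOver (𝟙 (Spec (CommRingCat.of k))) c,
      pb (H20T.graph (H20T.liftPt z x)) L s ≠ 0 ∧ pb (H20T.graph (H20T.liftPt z x)) M s' ≠ 0 :=
  H20T.exists_pt_ne_zero hL hM hs hs'

/-- **Removing `n` points.** Let `L`, `M` be line bundles on `C_K` with `h⁰ = χ = n`
(`H51Pb.baseChange τ z`: the charts of `C_K` given by the charts `τ` of `C`). There are points of `C(k)`,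
the same for both (`n` of them, by `euler_char_twist`), such that the bundles `L'`, `M'` obtained by
removing them have no cohomology: `L'(U ∩ V)` is the direct sum of `L'(U)` and `L'(V)`. Proved in
`H20K3b` by induction, with the two previous theorems. -/
theorem remove_points {k : Type u} [Field k] [IsAlgClosed k] {C : Scheme.{u}}
    {c : C ⟶ Spec (CommRingCat.of k)} [IsProper c] [SmoothOfRelativeDimension 1 c] [IsIntegral C]
    {K : Type u} [Field K] {z : Spec (CommRingCat.of K) ⟶ Spec (CommRingCat.of k)}
    (τ : TwoChart c) (n : ℕ) {L M : (pullback c z).Modules} (hL : L.IsInvertible)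
    (hM : M.IsInvertible) (h1 : finrank K (Sec (pullback.snd c z) L ⊤) = n)
    (h2 : chiL (H51Pb.baseChange τ z) L hL = n)
    (h3 : finrank K (Sec (pullback.snd c z) M ⊤) = n)
    (h4 : chiL (H51Pb.baseChange τ z) M hM = n) :
    ∃ (xs : List (SchemeHomOver (𝟙 (Spec (CommRingCat.of k))) c))
      (L' M' : (pullback c z).Modules) (hL' : L'.IsInvertible) (hM' : M'.IsInvertible),
      H20T.TwL (xs.map (H20T.liftPt z)) L' L ∧ H20T.TwL (xs.map (H20T.liftPt z)) M' M ∧
      IsCompl (latOf (H51Pb.baseChange τ z) L' hL').P (latOf (H51Pb.baseChange τ z) L' hL').Q ∧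
      IsCompl (latOf (H51Pb.baseChange τ z) M' hM').P (latOf (H51Pb.baseChange τ z) M' hM').Q :=
  H20T.exists_subtract τ n hL hM h1 h2 h3 h4

/-- **Line bundles from units**: a unit `g` on `U ∩ V` defines a line bundle on `X = U ∪ V` with
generators `a`, `b` on `U`, `V` such that `a = g b`. (`IsGen N a`: multiplication by `a` is a bijection
from the functions to the sections of `N`, on every smaller open set.) With `g = s^m`, `s = 1/t` the
coordinate of the second chart, these are the multiples of infinity. Proved in `H20K3d`. -/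
theorem bundle_of_unit {X : Scheme.{u}} {U V : X.Opens} (hc : U ⊔ V = ⊤) (g : (Γ(X, U ⊓ V))ˣ) :
    ∃ (N : X.Modules) (_ : N.IsInvertible) (a : Γ(N, U)) (b : Γ(N, V)), IsGen N a ∧ IsGen N b ∧
      res N inf_le_left a = (g : Γ(X, U ⊓ V)) • res N inf_le_right b :=
  H20T.exists_two_cocycle hc g

/-- **Large multiples of infinity have no `H¹`**: for every line bundle `L` there is an `m₀` such that
the tensor product `T` of `L` with the bundle of the unit `s^m`, `m ≥ m₀`, has `H¹(T) = 0`. (`τ.sr` is
the restriction of the coordinate `s` of the second chart to `U ∩ V`; a `Tens L N T` exhibits `T` as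
the tensor product of `L` and `N`.) Proved in `H20K3d`. -/
theorem vanishing_of_large_twist {K : Type u} [Field K] {Z : Scheme.{u}}
    {z : Z ⟶ Spec (CommRingCat.of K)} (τ : TwoChart z) {L : Z.Modules} (hL : L.IsInvertible) :
    ∃ m₀ : ℕ, ∀ m ≥ m₀, ∀ (N T : Z.Modules) (_ : N.IsInvertible) (hT : T.IsInvertible)
      (_ : Tens L N T) (a : Γ(N, τ.U)) (b : Γ(N, τ.V)), IsGen N a →
      res N inf_le_left a = τ.sr ^ m • res N inf_le_right b →
        (latOf τ T hT).P ⊔ (latOf τ T hT).Q = ⊤ :=
  H20T.exists_vanishing τ hL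

/-- **A line bundle with a nonzero section shifts all Euler characteristics by a constant**, also over
all extension fields `K` of `k`: by `morphism_is_twist` it is `O(x₁ + … + x_e)`. (`uMod C` is the
structure sheaf, `bcl z` the pull back of classes from `C` to `C_K`.) Proved in `H20K3c`. Without
Riemann-Roch this is the way to control the Euler characteristics of the multiples of infinity. -/
theorem shift_of_section {k : Type u} [Field k] [IsAlgClosed k] {C : Scheme.{u}}
    {c : C ⟶ Spec (CommRingCat.of k)} [IsProper c] [SmoothOfRelativeDimension 1 c] [IsIntegral C]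
    (τ : TwoChart c) {N : C.Modules} (hN : N.IsInvertible) {φ : uMod C ⟶ N} (hφ : φ ≠ 0) :
    ∃ e : ℤ, ∀ (K : Type u) [Field K] (z : Spec (CommRingCat.of K) ⟶ Spec (CommRingCat.of k))
      (α : SPic (pullback c z)), chiP τ z (α * bcl z (SPic.mk N hN)) = chiP τ z α + e :=
  H20T.exists_shift τ hN hφ

end Fermat.Agent.Guide.Twists
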