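import Fermat.Agent.H73LTEData
import Fermat.Agent.H73LTAux
import Fermat.Agent.H73M8c

/-!
# Reader's guide: the 2-adic representation of a good curve, step by step

Companion of `GuideResidual`, section 3 (block E, theorem `e_two_adic`), and of the section "E" of
`GuideResidualSteps`; no theorem of these files is repeated. Every theorem is proved by citing theorems of
the library; no other file imports this one.

**The situation.** `W` is a good curve (`GuideResidual.goodCurve_iff`): a Weierstrass equation over `ℤ`,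
semistable, with negative even discriminant, whose valuations at the bad primes are odd. (The last
condition of `GoodCurve`, a bad prime `r ≡ 23 (mod 24)`, is not used in this file; the choice of the curve,
step M1, is in `GuideGoodCurve`.) `N` is the product of the bad primes and `K = ℚ(√-N)`. Block E collects
what the later blocks use of the curve: the representation `r : G_ℚ → GL₂(ℤ₂)` on its 2-adic Tate module
and the properties `EData` (`GuideResidual.eData_iff`).

**How they are proved.**
* Modulo 2 (sections 1 to 3). The three points of order two have the roots of a cubic polynomial as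
  `x`-coordinates, and the discriminant `Δ` of `W` is the square of the product of their differences, up to
  a constant. So `σ` is an even permutation of them if and only if it fixes `√Δ`, that is, if `σ ∈ G_K`. No
  root is rational, by an argument with valuations: here all three conditions on `Δ` are used. Inertia at a
  bad prime, and every element of order two of `G_ℚ`, move `√Δ`. So the image modulo 2 is all of
  `GL₂(𝔽₂) = S₃`.
* At the bad primes, 2 included (sections 4, 5). The points which do not reduce to the node form a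
  2-divisible group, stable under the decomposition group; Frobenius acts on the quotient by a sign, which
  says whether the tangents at the node are rational. The Tate curve is not used. All of this is proved for
  the `p`-adic Tate module, `p` any prime.
* At the good primes and for the determinant the general theorems on Tate modules suffice (`H87Glue`, see
  `GuideCurvesTate`).

Section 6 contains consequences modulo `2ⁿ` for block C: at an auxiliary prime the representation modulo
`2ⁿ` is of Steinberg type with either sign. Section 7 contains the linear algebra of block M8 by which the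
local type is read off from one functional (`GuideResidualSteps.type_of_functional`, `GuideTypeAtTwo`).

**Where it is used.** All theorems cited here are in the closures of exactly S01, S03, S04, S06, S38, S45,
S46, S50, S59 and S60. Notes: Appendix A.8 [251]. Files: `H73LTTwo`, `H73LTSqrt`, `H73LTArith`, `H73LTNode`,
`H73LTType`, `H73LTEData`, `H73LTAux`, `H73M8c` (helper73); `H73LTBasis` is in `GuideResidualSteps`.

**Notation** as in `GuideResidual` and `GuideResidualSteps`: `Qb = AlgebraicClosure ℚ`, `GQ` its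
automorphism group, `M2 A` the ring of 2 by 2 matrices, `mapMat f r` the representation `r` with `f` applied
to the entries, `cond W = N`, `GK N` the subgroup of `GQ` which fixes `√-N`, `UnrAt ℓ r`: `r` is unramified
at `ℓ`; `H87.Tate.tateMat W hΔ p σ` is the matrix of `σ` on the `p`-adic Tate module in a fixed basis,
`H87.Tate.Tor W n` the group of the points killed by `n`, and `H87.Tate.rep W n σ` the action of `σ` on it.
-/

set_option autoImplicit false

noncomputable section

open WeierstrassCurve WeierstrassCurve.Affine WeierstrassCurve.Affine.Point IsLocalRing Matrix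
open scoped WeierstrassCurve.Affine

namespace Fermat.Agent.Guide.TwoAdicCurve

open Fermat.Agent.H53 (GQ M2 mapMat MCont)
open Fermat.Agent.LT (GoodCurve EData AuxPrime TypeAt UnrAt GK Qb)
open Fermat.Agent.H13 (NodeData GoodNode Near)

/-! ## 1. The points of order two and the square root of the discriminant -/

/-- **Points of order two.** `H73LT.xc P` is the `x`-coordinate of `P`, and zero for the point at infinity.
It is compatible with the Galois group; for a point of order two it is a root of the cubic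
`4 x³ + b₂ x² + 2 b₄ x + b₆`, and it determines the point. File `H73LTTwo`. -/
theorem points_of_order_two {W : WeierstrassCurve ℚ} :
    (∀ (σ : GQ) (P : (W⁄Qb).Point), H73LT.xc (σ • P) = σ (H73LT.xc P)) ∧
    (∀ P : (W⁄Qb).Point, P ≠ 0 → 2 • P = 0 → 4 * (H73LT.xc P) ^ 3 + (W⁄Qb).b₂ * (H73LT.xc P) ^ 2 +
      2 * (W⁄Qb).b₄ * (H73LT.xc P) + (W⁄Qb).b₆ = 0) ∧
    ∀ P Q : (W⁄Qb).Point, P ≠ 0 → Q ≠ 0 → 2 • P = 0 → H73LT.xc P = H73LT.xc Q → P = Q :=
  ⟨H73LT.xc_smul, fun _ => H73LT.two_torsion_eq, fun _ _ => H73LT.eq_of_xc_eq⟩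

/-- **The discriminant** is `(4 (e₀ - e₁) (e₀ - e₂) (e₁ - e₂))²`, if `e₀`, `e₁`, `e₂` are three different
roots of the cubic. File `H73LTTwo`. -/
theorem discriminant_of_roots {F : Type*} [Field F] (V : WeierstrassCurve F) (h4 : (4 : F) ≠ 0)
    {e₀ e₁ e₂ : F} (h₀ : 4 * e₀ ^ 3 + V.b₂ * e₀ ^ 2 + 2 * V.b₄ * e₀ + V.b₆ = 0)
    (h₁ : 4 * e₁ ^ 3 + V.b₂ * e₁ ^ 2 + 2 * V.b₄ * e₁ + V.b₆ = 0)
    (h₂ : 4 * e₂ ^ 3 + V.b₂ * e₂ ^ 2 + 2 * V.b₄ * e₂ + V.b₆ = 0)
    (h01 : e₀ ≠ e₁) (h02 : e₀ ≠ e₂) (h12 : e₁ ≠ e₂) :
    (4 * (e₀ - e₁) * (e₀ - e₂) * (e₁ - e₂)) ^ 2 = V.Δ :=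
  H73LT.disc_of_roots V h4 h₀ h₁ h₂ h01 h02 h12

/-- **The sign of a matrix over `𝔽₂`.** `H73LT.sgn2 M` is `1` if `M = 1` or `tr M = 1`, and `-1` otherwise.
For the six matrices of determinant one it is the sign of the permutation of the three nonzero vectors (the
elements of order three are those of trace one). File `H73LTTwo`. -/
theorem sgn2_def (M : Matrix (Fin 2) (Fin 2) (ZMod 2)) :
    H73LT.sgn2 M = (if M = 1 ∨ M.trace = 1 then 1 else -1) ∧
      (M.det = 1 → M = !![1, 0; 0, 1] ∨ M = !![0, 1; 1, 0] ∨ M = !![1, 1; 0, 1] ∨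
        M = !![1, 0; 1, 1] ∨ M = !![0, 1; 1, 1] ∨ M = !![1, 1; 1, 0]) :=
  ⟨rfl, H73LT.gl2_cases M⟩

/-- **Permutations of the roots.** Let `f (i, j)` be the root which belongs to the vector `(i, j)` of `𝔽₂²`,
and let the homomorphism `σ` permute the three roots as the matrix `M` permutes the nonzero vectors. Then
`σ` multiplies the product of the differences by the sign of `M`. File `H73LTTwo`. -/
theorem permutation_of_roots {F : Type*} [Field F] (σ : F →+* F) {e₀ e₁ e₂ : F}
    (f : ZMod 2 → ZMod 2 → F) (h10 : f 1 0 = e₀) (h01 : f 0 1 = e₁) (h11 : f 1 1 = e₂)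
    (M : Matrix (Fin 2) (Fin 2) (ZMod 2)) (hM : M.det = 1)
    (h₀ : σ e₀ = f (M 0 0) (M 1 0)) (h₁ : σ e₁ = f (M 0 1) (M 1 1))
    (h₂ : σ e₂ = f (M 0 0 + M 0 1) (M 1 0 + M 1 1)) :
    σ (4 * (e₀ - e₁) * (e₀ - e₂) * (e₁ - e₂)) =
      (H73LT.sgn2 M : F) * (4 * (e₀ - e₁) * (e₀ - e₂) * (e₁ - e₂)) :=
  H73LT.sqrt_of_perm σ f h10 h01 h11 M hM h₀ h₁ h₂

/-- **The representation modulo 2.** `H73LT.rbar W hΔ σ` is the matrix of `σ` on the 2-adic Tate module,
reduced modulo 2; it is the matrix of the action of `σ` on `W[2]` in a basis, and its determinant is one.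
(The three theorems before give `GuideResidualSteps.galois_on_sqrt_disc`: `σ √Δ = sgn2 (rbar σ) √Δ`.) File
`H73LTTwo`. -/
theorem representation_mod_two (W : WeierstrassCurve ℚ) (hΔ : W.Δ ≠ 0) :
    (∀ σ : GQ, H73LT.rbar W hΔ σ = (H87.Tate.tateMat W hΔ 2 σ).map (PadicInt.toZMod (p := 2))) ∧
    (∃ b : Module.Basis (Fin 2) (ZMod 2) (H87.Tate.Tor W 2), ∀ σ,
      H73LT.rbar W hΔ σ = LinearMap.toMatrix b b (H87.Tate.rep W 2 σ)) ∧
    ∀ σ : GQ, (H73LT.rbar W hΔ σ).det = 1 :=
  ⟨fun _ => rfl, H73LT.exists_basis_rbar W hΔ, H73LT.rbar_det W hΔ⟩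

/-! ## 2. Square roots and Galois groups -/

/-- **Ramification of a quadratic field at `q`**, `q = 2` allowed: for `q ∤ m` the inertia groups above `q`
do not all fix the square roots of `q m`. Otherwise `q` would be unramified in the field `ℚ(√(q m))`; but
`q` lies in the square of every prime ideal above it, since `q m` does. File `H73LTSqrt`. -/
theorem inertia_moves_some_root {q : ℕ} (hq : q.Prime) {m : ℤ} (hm : ¬ (q : ℤ) ∣ m) :
    ∃ A : ValuationSubring Qb, A.LiesOverPrime q ∧ ∃ σ ∈ A.inertiaSubgroupIn ℚ,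
      ∃ π : Qb, π ^ 2 = (q * m : ℤ) ∧ σ π ≠ π := by
  by_contra h
  push Not at h
  exact H73LT.not_forall_inertia_fix_sqrt hq hm h

/-- **Fixed elements are rational**, and a square root of an integer is fixed or multiplied by `-1`. Files
`H73LTArith`, `H73LTSqrt`. -/
theorem fixed_elements :
    (∀ x : Qb, (∀ g : GQ, g x = x) → ∃ q : ℚ, algebraMap ℚ Qb q = x) ∧
    ∀ (d : ℤ) (δ : Qb), δ ^ 2 = d → ∀ σ : GQ, σ δ = δ ∨ σ δ = -δ :=
  ⟨fun _ => H73LT.exists_rat_of_fixed, fun _ _ => H73LT.map_sqrt⟩

/-- **Elements of order two** of the Galois group of `ℚ` (no embedding into `ℂ` is used). Such an element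
`c` maps `i` to `-i`, and in its fixed field every sum of two squares is a square. Proof: if `c` fixed `i`,
take `α ≠ 0` with `c α = -α` and `β² = α`; then `(β · c β)² = -α² = (i α)²`, but `β · c β` is fixed by `c`
and `i α` is not. For `a`, `b` in the fixed field and `z² = a + b i` the element `z · c z` is fixed, and its
square is `a² + b²`. File `H73LTArith`. -/
theorem involutions {c : GQ} (hc : c * c = 1) (hc1 : c ≠ 1) :
    (∀ i : Qb, i ^ 2 = -1 → c i = -i) ∧
    ∀ a b : Qb, c a = a → c b = b → ∃ u : Qb, c u = u ∧ u ^ 2 = a ^ 2 + b ^ 2 :=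
  ⟨fun _ => H73LT.involution_I hc hc1, fun _ _ => H73LT.involution_sum_sq hc hc1⟩

/-- **They move `√-n`** for every natural number `n ≠ 0`: `n` is a sum of four squares (Lagrange), so it is
the square of a fixed element `w`, and `c` maps `√-n / w = ± i` to its negative. File `H73LTArith`. -/
theorem involution_moves_sqrt {c : GQ} (hc : c * c = 1) (hc1 : c ≠ 1) {n : ℕ} (hn : n ≠ 0) {δ : Qb}
    (hδ : δ ^ 2 = -(n : Qb)) : c δ = -δ :=
  H73LT.involution_sqrt hc hc1 hn hδ

/-! ## 3. The representation modulo 2 of a good curve -/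

/-- **No rational point of order two.** A root `x` of the cubic would give an integral root `r = 4 x` of
`X³ + b₂ X² + 8 b₄ X + 16 b₆`. Put `A = 3 r + b₂` and `B = 3 r² + 2 b₂ r + 8 b₄`; then `A² - 3 B = c₄` and
`B² (A² - 4 B) = 256 Δ`. A prime `ℓ` which divides `B` divides `Δ` (for `ℓ = 2` because `Δ` is even), so not
`c₄`, so not `A² - 4 B`, and `Δ` would have an even valuation at `ℓ`. Hence `B = ± 1`. As `Δ < 0`, we have
`A² < 4 B`, so `B = 1` and `|A| ≤ 1`. But `c₄ = A² - 3` is odd, so `A = 0` and `256 Δ = -4`, which is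
absurd. File `H73LTArith`. -/
theorem no_rational_two_torsion {W : WeierstrassCurve ℤ} (hW : GoodCurve W) :
    (∀ r : ℤ, r ^ 3 + W.b₂ * r ^ 2 + 8 * W.b₄ * r + 16 * W.b₆ ≠ 0) ∧
      ∀ x : ℚ, 4 * x ^ 3 + W.b₂ * x ^ 2 + 2 * W.b₄ * x + W.b₆ ≠ 0 :=
  ⟨H73LT.no_int_root hW, H73LT.no_rat_root hW⟩

/-- **`G_K` is the stabiliser of `√Δ`**, since `Δ = -N m²`
(`GuideResidualSteps.disc_eq_neg_conductor_mul_sq`). File `H73LTArith`. -/
theorem stabiliser_of_sqrt_disc {W : WeierstrassCurve ℤ} (hW : GoodCurve W) {δ : Qb}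
    (hδ : δ ^ 2 = ((W.Δ : ℤ) : Qb)) (g : GQ) : g ∈ GK (LT.cond W) ↔ g δ = δ :=
  H73LT.mem_GK_iff hW hδ g

/-- **The objects of block E**: `r = H73LT.rE hW` is the representation on the 2-adic Tate module of `W`,
and `s v = H73LT.sE W v` is the sign of the node modulo `v` (section 4). File `H73LTEData`. -/
theorem objects {W : WeierstrassCurve ℤ} (hW : GoodCurve W) :
    H73LT.rE hW = H87.Tate.tateMat (W.map (Int.castRingHom ℚ))
      (H87.EC.map_int_Δ_ne_zero hW.neg.ne) 2 ∧
    ∀ v, H73LT.sE W v = H73LT.nodeSign W v :=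
  ⟨rfl, fun _ => rfl⟩

/-- **Even elements.** The elements of `G_K` are those which act on `W[2]` by even permutations. File
`H73LTEData`. -/
theorem mem_GK_iff_even {W : WeierstrassCurve ℤ} (hW : GoodCurve W) (g : GQ) :
    g ∈ GK (LT.cond W) ↔ H73LT.sgn2 (mapMat PadicInt.toZMod (H73LT.rE hW) g) = 1 :=
  H73LT.mem_GK_iff_sgn2 hW g

/-- **Inertia at a bad prime contains odd elements**, because the valuation of `Δ` is odd
(`GuideResidualSteps.inertia_moves_sqrt`). File `H73LTEData`. -/
theorem odd_elements_of_inertia {W : WeierstrassCurve ℤ} (hW : GoodCurve W) {v : ℕ} (hv : v.Prime)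
    (hvΔ : (v : ℤ) ∣ W.Δ) {P : ValuationSubring Qb} (hP : P.LiesOverPrime v) :
    ∃ g ∈ P.inertiaSubgroupIn ℚ, H73LT.sgn2 (mapMat PadicInt.toZMod (H73LT.rE hW) g) = -1 :=
  H73LT.exists_inertia_odd hW hv hvΔ hP

/-- **No vector `≠ 0` of `𝔽₂²` is fixed by all of `G_ℚ`** (`no_rational_two_torsion`). File `H73LTEData`. -/
theorem no_fixed_vector {W : WeierstrassCurve ℤ} (hW : GoodCurve W) (w : Fin 2 → ZMod 2)
    (hw : w ≠ 0) : ∃ g, (mapMat PadicInt.toZMod (H73LT.rE hW) g).mulVec w ≠ w :=
  H73LT.no_fixed_vector hW w hw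

/-- **`GL₂(𝔽₂)`.** An odd element `t` fixes exactly one nonzero vector; if `h` does not fix this vector,
then `h` or `t h` has trace one (order three); an odd element and an element `u` of trace one generate the
group. Proof: computation. File `H73LTEData`. -/
theorem group_of_order_six (t : Matrix (Fin 2) (Fin 2) (ZMod 2)) (ht : t.det = 1)
    (hs : H73LT.sgn2 t = -1) :
    (∃ w : Fin 2 → ZMod 2, w ≠ 0 ∧ t.mulVec w = w ∧
      ∀ w' : Fin 2 → ZMod 2, w' ≠ 0 → t.mulVec w' = w' → w' = w) ∧
    (∀ h : Matrix (Fin 2) (Fin 2) (ZMod 2), h.det = 1 →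
      (∀ w : Fin 2 → ZMod 2, w ≠ 0 → t.mulVec w = w → h.mulVec w ≠ w) →
        h.trace = 1 ∨ (t * h).trace = 1) ∧
    ∀ u : Matrix (Fin 2) (Fin 2) (ZMod 2), u.det = 1 → u.trace = 1 →
      ∀ M : Matrix (Fin 2) (Fin 2) (ZMod 2), M.det = 1 →
        M = 1 ∨ M = u ∨ M = u * u ∨ M = t ∨ M = t * u ∨ M = t * (u * u) := by
  refine ⟨?_, fun h hh => H73LT.gl2_three t h ht hh hs, fun u hu => H73LT.gl2_gen t u ht hu hs⟩
  obtain ⟨w, hw, htw⟩ := H73LT.gl2_fixed t ht hs
  exact ⟨w, hw, htw, fun w' => H73LT.gl2_fixed_unique t ht hs w w' hw htw⟩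

/-- **Surjectivity.** A homomorphism to the matrices of determinant one over `𝔽₂` which has an odd value and
no common fixed vector is onto; so the representation of a good curve modulo 2 is onto. File `H73LTEData`.
-/
theorem surjective_mod_two :
    (∀ {G : Type} [Group G] (r : G →* Matrix (Fin 2) (Fin 2) (ZMod 2)), (∀ g, (r g).det = 1) →
      (∃ t, H73LT.sgn2 (r t) = -1) → (∀ w : Fin 2 → ZMod 2, w ≠ 0 → ∃ g, (r g).mulVec w ≠ w) →
        ∀ M : Matrix (Fin 2) (Fin 2) (ZMod 2), M.det = 1 → ∃ g, r g = M) ∧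
    ∀ {W : WeierstrassCurve ℤ} (hW : GoodCurve W) (M : M2 (ZMod 2)), M.det ≠ 0 →
      ∃ g, mapMat PadicInt.toZMod (H73LT.rE hW) g = M :=
  ⟨fun r hdet ⟨_, ht⟩ hfix M hM => H73LT.surj_of_no_fixed r hdet ht hfix M hM,
    fun hW M hM => H73LT.surj_rE hW M hM⟩

/-! ## 4. The node and its sign

`A` is a valuation ring of the field `K`, `W` a Weierstrass equation over `A`, `x₀`, `y₀` the coordinates of
a lift of the node, `α`, `β` the slopes of the two tangents (`GuideNode.goodNode_iff`); a point is near the
node, `Near A x₀ P`, if the reduction of its `x`-coordinate is that of the node. -/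

/-- **Over a field** the node is unique, if the two tangents are different, and the slopes are the same two
elements (stated for `α'`; the sum of the two is `-a₁`). (`NodeData W x₀ y₀ α β 0`: the curve has the
singular point `(x₀, y₀)` with the slopes `α`, `β` of the tangents.) It holds in all characteristics. File
`H73LTNode`. -/
theorem node_is_unique {k : Type*} [Field k] {W : WeierstrassCurve k} {x₀ y₀ α β x₁ y₁ α' β' : k}
    (h : NodeData W x₀ y₀ α β 0) (h' : NodeData W x₁ y₁ α' β' 0) (hαβ : α ≠ β) :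
    x₁ = x₀ ∧ y₁ = y₀ ∧ (α' = α ∨ α' = β) := by
  obtain ⟨hx, hy⟩ := H73LT.node_unique h h' hαβ
  subst hx hy
  exact ⟨rfl, rfl, H73LT.slope_mem h h'⟩

/-- **The sign of the node** of `W` modulo `q` is `1` or `-1`, and it is `1` if and only if the curve modulo
`q` has a singular point whose coordinates and slopes are in `𝔽_q` (at a prime of multiplicative reduction:
split reduction). File `H73LTNode`. -/
theorem nodeSign_iff (W : WeierstrassCurve ℤ) (q : ℕ) :
    (H73LT.nodeSign W q = 1 ∨ H73LT.nodeSign W q = -1) ∧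
      (H73LT.nodeSign W q = 1 ↔
        ∃ x y α β : ZMod q, NodeData (W.map (Int.castRingHom (ZMod q))) x y α β 0) := by
  refine ⟨H73LT.nodeSign_eq W q, ?_⟩
  unfold H73LT.nodeSign
  split_ifs with h
  · exact ⟨fun _ => h, fun _ => rfl⟩
  · exact ⟨fun h' => absurd h' (by norm_num), fun h' => absurd h' h⟩

/-- **Frobenius and the sign.** A Frobenius element above `q` fixes the lift `α` of a slope if and only if
the sign of the node is `1`. (It fixes or exchanges `α` and `β`, and their reductions are fixed by the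
`q`-th power if and only if they are in `𝔽_q`.) File `H73LTType`. -/
theorem frobenius_fixes_slope_iff {S K : Type*} [Field S] [Field K] [DecidableEq K] [Algebra S K]
    [Algebra.IsAlgebraic S K] {A : ValuationSubring K} {W : WeierstrassCurve ℤ}
    {x₀ y₀ α β g : A} (hN : GoodNode (W.map (Int.castRingHom A)) x₀ y₀ α β g) {q : ℕ} (hq : q.Prime)
    (hA : A.LiesOverPrime q) {σ : K ≃ₐ[S] K} (hσ : A.IsFrobeniusAt σ q) :
    (σ (α : K) = α ↔ H73LT.nodeSign W q = 1) :=
  H73LT.frobenius_fix_iff hN hq hA hσ

section Node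

variable {K : Type*} [Field K] {A : ValuationSubring K} {W : WeierstrassCurve A}
  {x₀ y₀ α β g : A} {EL : Affine K} [DecidableEq K]

/-- **The points away from the node** form a subgroup. File `H73LTNode`. -/
theorem away_from_node (hN : GoodNode W x₀ y₀ α β g) (hL : W.map A.subtype = EL) (P : EL.Point) :
    P ∈ H73LT.awayFromNode hN hL ↔ ¬ Near A x₀ P :=
  Iff.rfl

/-- **It is `p`-divisible**, `p` any prime, if multiplication by `p` is onto on all points and if there is a
`p`-torsion point `T` near the node. Let `p P` be away from the node. The index of `P` (its component, a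
number modulo `p`; `GuideNodeSteps`) need not be zero, but that of `P - m T` is, for a suitable `m`, and
`p (P - m T) = p P`. File `H73LTNode`. -/
theorem away_from_node_divisible (hN : GoodNode W x₀ y₀ α β g) (hL : W.map A.subtype = EL)
    {p : ℕ} (hp : p.Prime) (hnear : ∃ T : EL.Point, p • T = 0 ∧ Near A x₀ T)
    (hdiv : ∀ Q : EL.Point, ∃ P : EL.Point, p • P = Q) {Q : EL.Point} (hQ : ¬ Near A x₀ Q) :
    ∃ P : EL.Point, ¬ Near A x₀ P ∧ p • P = Q :=
  H73LT.exists_nsmul_eq_of_not_near hN hL hp hnear hdiv hQ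

end Node

/-- **It contains `p`-torsion points other than zero**: there are `p²` points killed by `p` and only `p`
values of the index, so two of them have the same index; take the difference. File `H73LTNode`. -/
theorem exists_torsion_away_from_node {R K : Type*} [CommRing R] [Field K] [Algebra R K]
    {W : WeierstrassCurve ℤ} {E : Affine R} {A : ValuationSubring K} {x₀ y₀ α β g : A}
    [DecidableEq K] (hN : GoodNode (W.map (Int.castRingHom A)) x₀ y₀ α β g)
    (hE : W.map (Int.castRingHom R) = E) {p : ℕ} (hp : p.Prime)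
    (hcard : Nat.card (Submodule.torsionBy ℤ (E⁄K).Point (p : ℤ)) = p ^ 2) :
    ∃ P : (E⁄K).Point, ¬ Near A x₀ P ∧ P ≠ 0 ∧ p • P = 0 :=
  H73LT.exists_ne_zero_not_near hN hE hp hcard

/-! ## 5. The local type at a prime of multiplicative reduction -/

/-- **Triangular form.** Let `q ∣ Δ`, `q ∤ c₄`, and let `P` be a place above `q`; `p = q` is allowed. In a
suitable basis of the `p`-adic Tate module (with respect to the given one: conjugation by `U`) all elements
`g` of the decomposition group are upper triangular with the sign `s(g)` as lower right entry. The sign is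
`1` if `g` fixes the slope `α` and `-1` if it exchanges `α` and `β`; so it is `1` on the inertia group, and
the sign of the node for a Frobenius element. Proof: `GuideResidualSteps.exists_adapted_basis` for the group
of the points away from the node, for which `x ↦ g x - s(g) x` maps all points to this group
(`GuideNode.decomposition_sub_or_add`). File `H73LTType`. -/
theorem triangular_form {W : WeierstrassCurve ℤ} (hΔ : W.Δ ≠ 0) {q p : ℕ} [Fact p.Prime]
    (hq : q.Prime) (hbad : (q : ℤ) ∣ W.Δ) (hc : ¬ (q : ℤ) ∣ W.c₄)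
    (P : ValuationSubring Qb) (hP : P.LiesOverPrime q) :
    ∃ s : GQ → ℤ, (∀ g, s g = 1 ∨ s g = -1) ∧
      (∀ g ∈ P.decompositionSubgroup ℚ, ∀ h ∈ P.decompositionSubgroup ℚ, s (g * h) = s g * s h) ∧
      (∀ g ∈ P.inertiaSubgroupIn ℚ, s g = 1) ∧
      (∀ g, P.IsFrobeniusAt g q → s g = H73LT.nodeSign W q) ∧
      ∃ U : (M2 ℤ_[p])ˣ, ∀ g ∈ P.decompositionSubgroup ℚ,
        ((U : M2 ℤ_[p]) * H87.Tate.tateMat (W.map (Int.castRingHom ℚ))
          (H87.EC.map_int_Δ_ne_zero hΔ) p g * ((U⁻¹ : (M2 ℤ_[p])ˣ) : M2 ℤ_[p])) 1 0 = 0 ∧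
        ((U : M2 ℤ_[p]) * H87.Tate.tateMat (W.map (Int.castRingHom ℚ))
          (H87.EC.map_int_Δ_ne_zero hΔ) p g * ((U⁻¹ : (M2 ℤ_[p])ˣ) : M2 ℤ_[p])) 1 1 = s g :=
  H73LT.exists_triangular hΔ hq hbad hc P hP

section LocType

variable {R : Type*} [CommRing R]

/-- **The closed form of the type.** If `m` and `m'` are upper triangular with the lower right entries `c`
and `c'`, and `c² = 1`, then `det m · c` is the upper left entry of `m`, so `(m - det m · c) (m' - c') = 0`.
File `H73LTType`. -/
theorem relation_of_triangular {m m' : Matrix (Fin 2) (Fin 2) R} {c c' : R} (h : m 1 0 = 0)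
    (h' : m' 1 0 = 0) (hc : m 1 1 = c) (hc' : m' 1 1 = c') (hcc : c * c = 1) :
    (m - (m.det * c) • (1 : Matrix (Fin 2) (Fin 2) R)) *
      (m' - c' • (1 : Matrix (Fin 2) (Fin 2) R)) = 0 :=
  H73LT.rel_of_triangular h h' hc hc' hcc

/-- **`H73LT.LocType r P s`**, written out: `s` is an unramified sign on the decomposition group of `P`, and
the relation of `relation_of_triangular` holds for all pairs of its elements. File `H73LTType`. -/
theorem locType_iff (r : GQ →* Matrix (Fin 2) (Fin 2) R) (P : ValuationSubring Qb) (s : GQ → ℤ) :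
    H73LT.LocType r P s ↔
      (∀ g ∈ P.decompositionSubgroup ℚ, s g = 1 ∨ s g = -1) ∧
      (∀ g ∈ P.decompositionSubgroup ℚ, ∀ h ∈ P.decompositionSubgroup ℚ, s (g * h) = s g * s h) ∧
      (∀ g ∈ P.inertiaSubgroupIn ℚ, s g = 1) ∧
      ∀ g ∈ P.decompositionSubgroup ℚ, ∀ h ∈ P.decompositionSubgroup ℚ,
        (r g - ((r g).det * (s g : R)) • (1 : Matrix (Fin 2) (Fin 2) R)) *
          (r h - (s h : R) • (1 : Matrix (Fin 2) (Fin 2) R)) = 0 :=
  ⟨fun h => ⟨h.sign, h.mul, h.inertia, h.rel⟩, fun h => ⟨h.1, h.2.1, h.2.2.1, h.2.2.2⟩⟩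

/-- **It does not depend on the basis** and passes to every ring `S` to which `R` maps (in particular to
`ℤ/2ⁿ`). With `triangular_form` this gives `GuideResidualSteps.local_type_multiplicative`. File
`H73LTType`. -/
theorem locType_conj_map {S : Type*} [CommRing S] {r : GQ →* Matrix (Fin 2) (Fin 2) R}
    {P : ValuationSubring Qb} {s : GQ → ℤ} (h : H73LT.LocType r P s) :
    (∀ (U : (Matrix (Fin 2) (Fin 2) R)ˣ) (r' : GQ →* Matrix (Fin 2) (Fin 2) R),
      (∀ g, r' g = U * r g * ((U⁻¹ : (Matrix (Fin 2) (Fin 2) R)ˣ) : Matrix (Fin 2) (Fin 2) R)) →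
        H73LT.LocType r' P s) ∧
    ∀ f : R →+* S, H73LT.LocType ((f.mapMatrix : Matrix (Fin 2) (Fin 2) R →+*
      Matrix (Fin 2) (Fin 2) S).toMonoidHom.comp r) P s :=
  ⟨fun U _ hr' => h.conj U hr', fun f => h.map f⟩

end LocType

/-- **All data together**: `r = rE`, `s = sE` satisfy the conditions of `GuideResidual.eData_iff`. File
`H73LTEData`. -/
theorem data_of_good_curve {W : WeierstrassCurve ℤ} (hW : GoodCurve W) :
    EData W (H73LT.rE hW) (H73LT.sE W) :=
  H73LT.eData hW

/-! ## 6. Auxiliary primes and bad primes modulo `2ⁿ`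

`r` is a 2-adic representation with the properties `EData W r s` of a good curve `W`. -/

section Aux

variable {W : WeierstrassCurve ℤ} {r : GQ →* M2 ℤ_[2]} {s : ℕ → ℤ} {n q : ℕ}

/-- **The primes dividing `N`** are the bad primes, 2 among them; `r` is unramified at all others. File
`H73LTAux`. -/
theorem good_primes (hW : GoodCurve W) (hE : EData W r s) :
    (∀ ℓ : ℕ, ℓ.Prime → (ℓ ∣ LT.cond W ↔ (ℓ : ℤ) ∣ W.Δ)) ∧
    ∀ ℓ : ℕ, ℓ.Prime → ¬ ℓ ∣ LT.cond W → ℓ ≠ 2 ∧ UnrAt ℓ r :=
  ⟨fun _ => H73LT.prime_dvd_cond_iff hW.neg.ne, fun _ hℓ h =>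
    ⟨H73LT.ne_two_of_not_dvd_cond hW h, H73LT.unrAt_of_not_dvd hW hE hℓ h⟩⟩

/-- **At an unramified prime** a representation of finite level maps every element of the decomposition
group to a power of the image of a Frobenius element. File `H73LTAux`. -/
theorem power_of_frobenius {A : Type} [CommRing A] {ρ : GQ →* M2 A}
    (hlev : ∃ L : IntermediateField ℚ (AlgebraicClosure ℚ), FiniteDimensional ℚ L ∧
      ∀ τ : GQ, (∀ x ∈ L, τ x = x) → ρ τ = 1)
    (hq : q.Prime) {P : ValuationSubring (AlgebraicClosure ℚ)} (hP : P.LiesOverPrime q)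
    (hI : ∀ τ ∈ P.inertiaSubgroupIn ℚ, ρ τ = 1) {φ : GQ} (hφ : P.IsFrobeniusAt φ q) {g : GQ}
    (hg : g ∈ P.decompositionSubgroup ℚ) : ∃ k : ℕ, ρ g = ρ φ ^ k :=
  H73LT.exists_pow_frob hlev hq hP hI hφ hg

/-- **At an auxiliary prime** (`GuideResidual.auxPrime_iff`) an element of the decomposition group acts
modulo `2ⁿ` as the identity or as the Frobenius element `φ`; the latter has the square one, the trace zero
and therefore the determinant `-1`. File `H73LTAux`. -/
theorem auxiliary_prime (hW : GoodCurve W) (hE : EData W r s) (hq : AuxPrime r (LT.cond W) n q)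
    {P : ValuationSubring (AlgebraicClosure ℚ)} (hP : P.LiesOverPrime q) {φ : GQ}
    (hφ : P.IsFrobeniusAt φ q) :
    (∀ g ∈ P.decompositionSubgroup ℚ, mapMat (PadicInt.toZModPow n) r g = 1 ∨
      mapMat (PadicInt.toZModPow n) r g = mapMat (PadicInt.toZModPow n) r φ) ∧
    (mapMat (PadicInt.toZModPow n) r φ).det = -1 := by
  refine ⟨fun g hg => H73LT.aux_cases hW hE hq hP hφ hg, ?_⟩
  refine H73LT.det_eq_neg_one ?_ (hq.sq P hP φ hφ).2.1
  rw [← map_mul]
  exact (hq.sq P hP φ hφ).1

/-- **Steinberg type with either sign.** Let `f : ℤ₂ → A` be a homomorphism to a ring with `2ⁿ = 0`. At an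
auxiliary prime of level `n` the representation `f ∘ r` is of Steinberg type with sign `e`, for EVERY `e`
with `e² = 1`. (The character is `1` at the elements which act trivially and `e` at the others; the only
relation which is not obvious is `(R + e) (R - e) = 0` for the image `R` of the Frobenius element, which
holds as `R² = 1` and `det R = -1`.) Block C uses it with `e = 1`, to see that the curve modulo `2ⁿ`
satisfies the local conditions at all primes of the level `N ∏ Q` (`H55LTH`). File `H73LTAux`. -/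
theorem type_at_auxiliary_prime (hW : GoodCurve W) (hE : EData W r s)
    (hq : AuxPrime r (LT.cond W) n q) {A : Type} [CommRing A] (f : ℤ_[2] →+* A)
    (hf : (2 : A) ^ n = 0) (e : A) (he : e ^ 2 = 1) : TypeAt q e (mapMat f r) :=
  H73LT.typeAt_aux_of_map hW hE hq f hf e he

/-- **At a bad prime** the representation modulo 2 is unipotent on the decomposition group, and the inertia
group is not contained in `G_K`: an element of `G_K` with unipotent image is trivial modulo 2, but the
representation modulo 2 is ramified. (So `v` is ramified in `K`; block C uses that no decomposition group at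
a prime of the level lies in `G_K`: `GuideDihedral.decomposition_groups`.) File `H73LTAux`. -/
theorem bad_prime (hE : EData W r s) {v : ℕ} (hv : v.Prime) (hvΔ : (v : ℤ) ∣ W.Δ)
    {P : ValuationSubring (AlgebraicClosure ℚ)} (hP : P.LiesOverPrime v) :
    (∀ g ∈ P.decompositionSubgroup ℚ, ∀ g' ∈ P.decompositionSubgroup ℚ,
      (mapMat PadicInt.toZMod r g - 1) * (mapMat PadicInt.toZMod r g' - 1) = 0) ∧
    ∃ σ ∈ P.inertiaSubgroupIn ℚ, σ ∉ GK (LT.cond W) :=
  ⟨fun _ hg _ hg' => H73LT.unipotent_of_bad hE hv hvΔ hP hg hg',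
    H73LT.exists_not_mem_GK_bad hE hv hvΔ hP⟩

end Aux

/-! ## 7. The local type from one functional

`A` is a domain, `w` a row vector with entries in `A`. -/

/-- **The relation from an eigenvector.** If `w ≠ 0` is a left eigenvector of `M` with the eigenvalue `c`,
`c² = 1`, and `w Z = 0`, then `(M - det M · c) Z = 0`: the columns of `Z` are orthogonal to `w`, hence
multiples over the field of fractions of one vector, and `det M · c` is the eigenvalue of `M` on it. File
`H73M8c`. -/
theorem relation_of_eigenvector {A : Type} [CommRing A] [IsDomain A] {w : Fin 2 → A} (hw : w ≠ 0)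
    {M Z : M2 A} {c : A} (hM : w ᵥ* M = c • w) (hc : c ^ 2 = 1) (hZ : w ᵥ* Z = 0) :
    (M - (M.det * c) • (1 : M2 A)) * Z = 0 :=
  H73.M8c.mul_eq_zero_of_vecMul hw hM hc hZ

section Functional

variable {v : ℕ} {A : Type} [CommRing A] [IsDomain A] [IsLocalRing A] {r : GQ →* M2 A}
  {P : ValuationSubring Qb}

/-- **Eigenvectors of the decomposition group.** `v` is any prime, the residue characteristic of `A`
allowed, and the intersection of the powers of the maximal ideal is zero. If `w` is fixed by the inertia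
group and an eigenvector of one Frobenius element with the eigenvalue `s`, `s² = 1`, then it is an
eigenvector of every element of the decomposition group, with the eigenvalue `1` or `s`: modulo `𝔪ⁿ` the
element acts as a power of the Frobenius element times an element of the inertia group. File `H73M8c`. -/
theorem eigenvector_of_decomposition_group (hv : v.Prime) (hP : P.LiesOverPrime v) (hr : MCont A r)
    (hA : ∀ x : A, (∀ n, x ∈ maximalIdeal A ^ n) → x = 0) {s : A} (hs : s ^ 2 = 1)
    {w : Fin 2 → A} (hI : ∀ σ ∈ P.inertiaSubgroupIn ℚ, w ᵥ* r σ = w) {φ : GQ}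
    (hφ : P.IsFrobeniusAt φ v) (hw : w ᵥ* r φ = s • w) {g : GQ}
    (hg : g ∈ P.decompositionSubgroup ℚ) : ∃ c : A, (c = 1 ∨ c = s) ∧ w ᵥ* r g = c • w :=
  H73.M8c.exists_eig hv hP hr hA hs hI hφ hw hg

/-- **Steinberg type from row vectors.** If for every place above `v` there is such a vector `w ≠ 0`, then
`r` is of Steinberg type with sign `s` at `v`; the character is the eigenvalue on `w`. (For a functional `l`
the vector is `(l(e₀), l(e₁))`; this gives `GuideResidualSteps.type_of_functional`.) File `H73M8c`. -/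
theorem type_of_row_vectors (hv : v.Prime) (hr : MCont A r)
    (hA : ∀ x : A, (∀ n, x ∈ maximalIdeal A ^ n) → x = 0) {s : A} (hs : s ^ 2 = 1)
    (h : ∀ P : ValuationSubring Qb, P.LiesOverPrime v → ∃ w : Fin 2 → A, w ≠ 0 ∧
      (∀ σ ∈ P.inertiaSubgroupIn ℚ, w ᵥ* r σ = w) ∧
      ∃ φ : GQ, P.IsFrobeniusAt φ v ∧ w ᵥ* r φ = s • w) : TypeAt v s r :=
  H73.M8c.typeAt_of_vecMul hv hr hA hs h

end Functional

end Fermat.Agent.Guide.TwoAdicCurve
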