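import Fermat.Agent.H54TRecipB

/-!
# Reader's guide: reciprocity for cocycles with values in `E[2]` (block M6 of block LT)

Companion of `GuideResidualSteps`, section M6: the proof of `GuideResidualSteps.reciprocity`, step by step
(how reciprocity is used: `GuideSelmerTwo`).
All cited theorems are in the closures of S01, S03, S04, S06, S38, S45, S46, S50, S59, S60. Notes: section 3.6
and Appendix A.8 [97], [264]. No file of the library imports this one; every proof is the citation of theorems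
of the library.

**What is proved.** `rb : Gal(ℚ̄/ℚ) → GL₂(𝔽₂)` is the representation on the 2-torsion `V` of an elliptic
curve, on which complex conjugation and the decomposition groups at the bad primes act non-trivially;
`q ≡ 7 mod 8` is an auxiliary prime at which Frobenius has order two; `b` and `b'` are 1-cocycles with values
in `V` which satisfy the local condition of a line at the bad primes and are unramified at all others except
`q`; `b` is unramified at `q` and not a coboundary at the Frobenius elements, and `b'` satisfies the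
condition of the line at `q`. Then `b'` is unramified at `q`. In the language of duality theory: the sum of
the local terms of the cup product `b ∪ b'` is zero, all terms but the one at `q` are zero, hence this one
too. Here there are no local invariants and no theorem of Poitou and Tate (in this library duality is
available only for odd `p`, GuidePoitouTate). Instead:

1. the cup product is a class of order two in `H²(ℚ, ℚ̄ˣ)`, trivial at all places `≠ q` (section 5);
2. at `q` it is the product of the unramified quadratic character, that of `ℚ_q(i)`, and of a character `n`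
   which is ramified if `b'` is (section 6); it becomes trivial over `ℚ_q(√-q)` (section 4);
3. so it is trivial at all places of the field `ℚ(√-q)`, which is totally complex, and by the Hasse principle
   (from the Hasse norm theorem, section 2) it is trivial over `ℚ(√-q)`: it is described by one rational
   number `t`, modulo norms from `ℚ(√-q)`;
4. triviality at a place means that `t` is a local norm: `t = x² + q y²` over `ℚ_ℓ` for all `ℓ ≠ q`, and
   `t > 0`. By quadratic reciprocity (section 1) this holds at `q` too (section 3);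
5. so the class is trivial at `q`; but then `n` is unramified (section 4): otherwise its Kummer generator
   would be a norm from `ℚ_q(i)` of odd valuation.

**Notation.** `GQ = Gal(ℚ̄/ℚ)`, `Qb = ℚ̄`. For a prime number `ℓ` the group `primeLocalGaloisGroup ℓ` is
`Gal(ℚ̄_ℓ/ℚ_ℓ)`, `PadicAlgCl ℓ` is `ℚ̄_ℓ`, with its absolute value. A place of `ℚ̄` above `ℓ` is given by
`g ∈ GQ`: the embedding `Qb → ℚ̄_ℓ` is the fixed one composed with `g`. The groups `ℚ̄ˣ` and `ℚ̄_ℓˣ` are
written additively (`Additive Qbˣ`), and `uval` is the map from this group to the field. Classes are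
represented by cocycles of finite level; `LevC f` and `krullFam.IsConst₁ f` say that `f` is of finite level,
`krullFam.restrict U` and `krullFam.comap (rloc ℓ g)` are the corresponding notions for a subgroup `U` and for
the local groups. `E : ZMod 2 →+ Additive (ℚ̄_ℓ)ˣ` with `uval (E 1) = -1` is the isomorphism of `ZMod 2` with
`{±1}`. `V2 = Fin 2 → ZMod 2`.

Authors of the library files: helper54 (`H54T*`), helper91 (`H91*`), helper82 (class field theory of prime
degree), helper65. Text: helper54.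
-/

set_option autoImplicit false

noncomputable section

open IsDedekindDomain NumberField Module ExtCitation
open groupCohomology (IsCocycle₂)
open scoped Pointwise Matrix

namespace Fermat.Agent.Guide.TwoReciprocity

open Fermat.Agent Fermat.Agent.H54 Fermat.Agent.H91 Fermat.Agent.H6.MD

attribute [local instance] factNatPrimes

/-! ## 1. The form `x² + q y²` and quadratic reciprocity -/

/-- **Norms from an inert extension.** If `-q` is not a square modulo `ℓ` and `q` is a unit at `ℓ`, then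
`|x² + q y²| = max(|x|, |y|)²` for `x, y ∈ ℚ_ℓ`. File `H54TNum`. -/
theorem norm_form_norm {ℓ : ℕ} [Fact ℓ.Prime] {q : ℕ} (hqℓ : ‖(q : ℚ_[ℓ])‖ = 1)
    (hns : ¬ IsSquare (-(q : ZMod ℓ))) (x y : ℚ_[ℓ]) :
    ‖x ^ 2 + q * y ^ 2‖ = (max ‖x‖ ‖y‖) ^ 2 :=
  H54T.norm_form_eq hqℓ hns x y

/-- **Even valuations.** Hence, in this case, a natural number which is of the form `x² + q y²` over `ℚ_ℓ`
is divisible by `ℓ` an even number of times. File `H54TNum`. -/
theorem even_valuation {ℓ : ℕ} [Fact ℓ.Prime] {q : ℕ} (hqℓ : ‖(q : ℚ_[ℓ])‖ = 1)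
    (hns : ¬ IsSquare (-(q : ZMod ℓ))) {n : ℕ} (hn : n ≠ 0) {x y : ℚ_[ℓ]}
    (h : (n : ℚ_[ℓ]) = x ^ 2 + q * y ^ 2) : Even (padicValNat ℓ n) :=
  H54T.even_padicValNat hqℓ hns hn h

/-- **Quadratic reciprocity for `-q`**, `q ≡ 3 mod 4`: if `-q` is a square modulo the odd prime `ℓ ≠ q`, then
`ℓ` is a square modulo `q`. File `H54TNum`. -/
theorem reciprocity_neg {q ℓ : ℕ} [Fact q.Prime] [Fact ℓ.Prime] (hq4 : q % 4 = 3) (hℓ2 : ℓ ≠ 2)
    (hne : q ≠ ℓ) (h : IsSquare (-(q : ZMod ℓ))) : IsSquare (ℓ : ZMod q) :=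
  H54T.isSquare_of_neg hq4 hℓ2 hne h

/-- **Product formula for natural numbers.** Let `q ≡ 7 mod 8` and let `n ≠ 0` be of the form `x² + q y²` over
`ℚ_ℓ` for all primes `ℓ ≠ 2, q`. Then the part of `n` prime to `q` is a square modulo `q`. Proof: it is a
product of primes `ℓ` which are squares modulo `q` (for `ℓ = 2` because `q ≡ 7 mod 8`) and of even powers of
the others (`even_valuation`, `reciprocity_neg`). File `H54TNum`. -/
theorem product_formula_nat {q : ℕ} [Fact q.Prime] (hq8 : q % 8 = 7) {n : ℕ} (hn : n ≠ 0)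
    (h : ∀ (ℓ : ℕ) [Fact ℓ.Prime], ℓ ≠ q → ℓ ≠ 2 →
      ∃ x y : ℚ_[ℓ], (n : ℚ_[ℓ]) = x ^ 2 + q * y ^ 2) :
    IsSquare ((n / q ^ (padicValNat q n) : ℕ) : ZMod q) :=
  H54T.isSquare_of_local hq8 hn h

/-- **Product formula.** `q ≡ 7 mod 8`: a rational number `t > 0` which is of the form `x² + q y²` over `ℚ_ℓ`
for all primes `ℓ ≠ 2, q` has this form over `ℚ_q`. (The symbol `(t, -q)` is trivial at `2` because `-q` is a
square in `ℚ₂`, and trivial at infinity because `t > 0`.) File `H54TNum`. -/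
theorem product_formula {q : ℕ} [Fact q.Prime] (hq8 : q % 8 = 7) {t : ℚ} (ht : 0 < t)
    (h : ∀ (ℓ : ℕ) [Fact ℓ.Prime], ℓ ≠ q → ℓ ≠ 2 →
      ∃ x y : ℚ_[ℓ], (t : ℚ_[ℓ]) = x ^ 2 + q * y ^ 2) :
    ∃ x y : ℚ_[q], (t : ℚ_[q]) = x ^ 2 + q * y ^ 2 :=
  H54T.exists_norm_form hq8 ht h

/-! ## 2. Local and global classes; the Hasse principle -/

/-- **Finite level.** A function `f` on `GQ` is of finite level (`krullFam.IsConst₁ f`) if it is invariant
under right translation by the Galois group of a number field; the same for functions of two variables. -/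
theorem finite_level_iff {X : Type*} (f : GQ → X) (f₂ : GQ × GQ → X) :
    (krullFam.IsConst₁ f ↔ ∃ F : IntermediateField ℚ Qb, FiniteDimensional ℚ F ∧
      ∀ g, ∀ s ∈ F.fixingSubgroup, f (g * s) = f g) ∧
    (krullFam.IsConst₂ f₂ ↔ ∃ F : IntermediateField ℚ Qb, FiniteDimensional ℚ F ∧
      ∀ g g', ∀ s ∈ F.fixingSubgroup, ∀ s' ∈ F.fixingSubgroup, f₂ (g * s, g' * s') = f₂ (g, g')) :=
  ⟨⟨by rintro ⟨_, ⟨F, hF, rfl⟩, h⟩; exact ⟨F, hF, h⟩, by rintro ⟨F, hF, h⟩; exact ⟨_, ⟨F, hF, rfl⟩, h⟩⟩,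
    ⟨by rintro ⟨_, ⟨F, hF, rfl⟩, h⟩; exact ⟨F, hF, h⟩, by rintro ⟨F, hF, h⟩; exact ⟨_, ⟨F, hF, rfl⟩, h⟩⟩⟩

/-- **The place `(ℓ, g)`**: the homomorphism of groups is `rloc ℓ g : x ↦ g⁻¹ loc(x) g`, where `loc` is the
restriction of automorphisms from `ℚ̄_ℓ` to `ℚ̄`, and the map of units is `jloc ℓ g : a ↦ ι_ℓ(g a)`, `ι_ℓ` the
fixed embedding. They are compatible. File `H91Arith`. -/
theorem place_maps (ℓ : Nat.Primes) (g : GQ) :
    (∀ x : primeLocalGaloisGroup ℓ, rloc ℓ g x = g⁻¹ * primeLocalToGlobal ℓ x * g) ∧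
      (∀ a : Additive Qbˣ, uval (jloc ℓ g a) = padicEmbedding (ℓ : ℕ) (g (uval a))) ∧
      ∀ (x : primeLocalGaloisGroup ℓ) (a : Additive Qbˣ), jloc ℓ g (rloc ℓ g x • a) = x • jloc ℓ g a :=
  ⟨fun _ => rfl, fun _ => rfl, H54T.jloc_smul ℓ g⟩

/-- **Decomposition groups.** The image of `rloc ℓ g` is in the decomposition group of the place
`g⁻¹ • padicPlace ℓ` of `ℚ̄`, which lies above `ℓ`. File `H54TRecip`. -/
theorem image_in_decomposition_group (ℓ : Nat.Primes) (g : GQ) :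
    (g⁻¹ • padicPlace (ℓ : ℕ)).LiesOverPrime (ℓ : ℕ) ∧
      ∀ x : primeLocalGaloisGroup ℓ, rloc ℓ g x ∈ (g⁻¹ • padicPlace (ℓ : ℕ)).decompositionSubgroup ℚ :=
  ⟨H54T.liesOver_place ℓ g, H54T.rloc_mem_dec ℓ g⟩

/-- **Local triviality.** `arithLoc.TrivAt (ℓ, g) U F`: the restriction of the cocycle `F` with values in
`ℚ̄ˣ` to the group `U`, at the place `(ℓ, g)`, is the coboundary of a cochain `y` of finite level with
values in `ℚ̄_ℓˣ`. (`U.comap (rloc ℓ g)` is the Galois group of the completion of the field of `U`.) -/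
theorem locally_trivial_iff (ℓ : Nat.Primes) (g : GQ) (U : Subgroup GQ) (F : GQ × GQ → Additive Qbˣ) :
    arithLoc.TrivAt (ℓ, g) U F ↔ ∃ y : U.comap (rloc ℓ g) → Additive (PadicAlgCl (ℓ : ℕ))ˣ,
      ((krullFam.comap (rloc ℓ g)).restrict (U.comap (rloc ℓ g))).IsConst₁ y ∧
        ∀ x x', x • y x' - y (x * x') + y x = jloc ℓ g (F (rloc ℓ g x, rloc ℓ g x')) :=
  Iff.rfl

/-- **One place above `ℓ` is enough**, if `U` is normal: the cocycle `(a, b) ↦ g F(g⁻¹ a g, g⁻¹ b g)` differs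
from `F` by the coboundary of `a ↦ F(g, g⁻¹ a g) - F(a, g)`. File `H54TGlob`. -/
theorem one_place_suffices {ℓ : Nat.Primes} {U : Subgroup GQ} (hU : U.Normal)
    {F : GQ × GQ → Additive Qbˣ} (hF : IsCocycle₂ F) (hc : krullFam.IsConst₂ F)
    (h : arithLoc.TrivAt (ℓ, 1) U F) (g : GQ) : arithLoc.TrivAt (ℓ, g) U F :=
  H54T.trivAt_of_one hU hF hc h g

/-- **The Hasse norm theorem in terms of groups.** Let `U₀` be a group which fixes a primitive `p`-th root of
unity and a square root of a negative integer (so its field is totally complex). For all open subgroups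
`H ≤ U ≤ U₀`, `H` normal in `U` of index `p` (so `U`, `H` are the Galois groups of number fields `K`, `L`): an
element `x ∈ Kˣ` which is a norm at every place which does not split in `L` is a norm from `L`, that is
`x = Σ_{k < p} σ^k a` (written additively) with `a ∈ Lˣ`, `σ ∈ U` outside of `H`. File `H54TPrinc`, from
`GuideQuadRec.hasse_norm` (`H54THasse`). -/
theorem hasse_norm_groups {p : ℕ} (hp : p.Prime) {U₀ : Subgroup GQ} {ζ : Qb} (hζ : IsPrimitiveRoot ζ p)
    (hU₀ : ∀ u ∈ U₀, u ζ = ζ) {s : Qb} {n : ℕ} (hn0 : 0 < n) (hs : s ^ 2 = -(n : Qb))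
    (hU₀s : ∀ u ∈ U₀, u s = s) (U H : Subgroup GQ) (hU : U ≤ U₀) (hUo : krullFam.IsOpenSubgroup U)
    (hHo : krullFam.IsOpenSubgroup H) (hle : H ≤ U) (hn : (H.subgroupOf U).Normal)
    (hi : H.relIndex U = p) (x : Additive Qbˣ) (hx : ∀ u ∈ U, u • x = x)
    (hloc : ∀ i : Nat.Primes × GQ, (∃ s : primeLocalGaloisGroup i.1, rloc i.1 i.2 s ∈ U ∧
        rloc i.1 i.2 s ∉ H) →
      ∃ s : primeLocalGaloisGroup i.1, rloc i.1 i.2 s ∈ U ∧ rloc i.1 i.2 s ∉ H ∧
        ∃ b : Additive (PadicAlgCl (i.1 : ℕ))ˣ, (∀ h : primeLocalGaloisGroup i.1,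
          rloc i.1 i.2 h ∈ H → h • b = b) ∧ jloc i.1 i.2 x = ∑ k ∈ Finset.range p, s ^ k • b)
    (σ : GQ) (hσU : σ ∈ U) (hσH : σ ∉ H) :
    ∃ a : Additive Qbˣ, (∀ h ∈ H, h • a = a) ∧ x = ∑ k ∈ Finset.range p, σ ^ k • a :=
  H54T.hasseNorm_arith hp hζ hU₀ hn0 hs hU₀s U H hU hUo hHo hle hn hi x hx hloc σ hσU hσH

/-- **The Hasse principle.** With `U₀` as in `hasse_norm_groups`: let `U ≤ U₀` be open, and let `f` be a
2-cocycle on `U` of finite level with values in `ℚ̄ˣ`, whose class is killed by `p`. If `f` is trivial at all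
places `(ℓ, g)`, it is the coboundary of a cochain of finite level (`Triv₂`). Proof: by restriction to a Sylow
subgroup one may climb through normal subgroups of index `p`; a class which is trivial on such a subgroup
`H` is given by one element of `Kˣ` modulo norms, which is a norm at all places; so it is a norm. File
`H91Hasse`, see `GuideLocalGlobal.abstract_hasse_principle`. -/
theorem hasse_principle {p : ℕ} [hp : Fact p.Prime] {U₀ : Subgroup GQ} {ζ : Qb}
    (hζ : IsPrimitiveRoot ζ p) (hU₀ : ∀ u ∈ U₀, u ζ = ζ) {s : Qb} {n : ℕ} (hn0 : 0 < n)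
    (hs : s ^ 2 = -(n : Qb)) (hU₀s : ∀ u ∈ U₀, u s = s) {U : Subgroup GQ} (hU : U ≤ U₀)
    (hUo : krullFam.IsOpenSubgroup U) {f : GQ × GQ → Additive Qbˣ}
    (hf : ∀ a b c : U, f (a * b, c) + f (a, b) = (a : GQ) • f (b, c) + f (a, b * c))
    (hc : (krullFam.restrict U).IsConst₂ fun x : U × U => f (x.1, x.2))
    (hpf : (krullFam.restrict U).Triv₂ fun x : U × U => p • f (x.1, x.2))
    (hloc : ∀ i, arithLoc.TrivAt i U f) :
    (krullFam.restrict U).Triv₂ fun x : U × U => f (x.1, x.2) :=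
  arithLoc.triv₂_of_forall_trivAt smooth_krullFam (fun H _ => (faithfulOn_krullFam.restrict H).h90)
    (H54T.hasseNorm_arith hp.out hζ hU₀ hn0 hs hU₀s) hU hUo hf hc hpf hloc

/-! ## 3. From classes to the form: reciprocity for classes of order two -/

/-- **The Galois group of `ℚ(√-q)`** is `kumSub ⊤ s`, where `s ∈ ℚ̄`, `s² = -q`: the group of the `u` which
fix `s`. It is open and (some `u`, for example complex conjugation, moves `s`) of index 2. Files `H91IsoB`,
`H54TRec`. -/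
theorem quadratic_subgroup {q : Nat.Primes} {s : Qb} (hs : s ^ 2 = -((q : ℕ) : Qb)) (u : GQ) :
    (u ∈ kumSub ⊤ s ↔ u ∈ (⊤ : Subgroup GQ) ∧ u s = s) ∧ (u s = s ∨ u s = -s) ∧
      krullFam.IsOpenSubgroup (kumSub ⊤ s) ∧ ((∃ u : GQ, u s ≠ s) → (kumSub ⊤ s).relIndex ⊤ = 2) :=
  ⟨mem_kumSub, H54T.apply_s hs u, kumSub_open H7.isOpenSubgroup_top s, H54T.kumSub_s_relIndex hs⟩

/-- **Local norms are values of the form.** Let `s² = -q` and let `d` be an element of the local group which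
moves `s` at the place `(ℓ, g)`. If `t = B · d(B)` with `B ∈ ℚ̄_ℓ` fixed by all `h` which fix `s` (that is
`B ∈ ℚ_ℓ(√-q)`), then `t = x² + q y²` over `ℚ_ℓ`, with `x = (B + d(B))/2`, `y = (B - d(B))/(2s)`. File
`H54TRec`. -/
theorem form_of_norm {q : Nat.Primes} {s : Qb} (hs : s ^ 2 = -((q : ℕ) : Qb)) (ℓ : Nat.Primes) (g : GQ)
    {t : ℚ} {d : primeLocalGaloisGroup ℓ} (hd : rloc ℓ g d s ≠ s) {B : PadicAlgCl (ℓ : ℕ)}
    (hB : ∀ h : primeLocalGaloisGroup ℓ, rloc ℓ g h s = s → h • B = B)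
    (ht : ((t : ℚ_[(ℓ : ℕ)]) : PadicAlgCl (ℓ : ℕ)) = B * d • B) :
    ∃ x y : ℚ_[(ℓ : ℕ)], (t : ℚ_[(ℓ : ℕ)]) = x ^ 2 + (q : ℕ) * y ^ 2 :=
  H54T.exists_form_of_norm hs ℓ g (fun h => hd h.2) (fun h hh => hB h hh.2)
    ((H54T.embComp_rat ℓ g t).trans ht)

/-- **The split case.** If the whole local group fixes `s`, then `-q` is a square in `ℚ_ℓ`, and every rational
number is of the form `x² + q y²` over `ℚ_ℓ`. File `H54TRec`. -/
theorem form_of_split {q : Nat.Primes} {s : Qb} (hs : s ^ 2 = -((q : ℕ) : Qb)) (ℓ : Nat.Primes) (g : GQ)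
    (t : ℚ) (h : ∀ d : primeLocalGaloisGroup ℓ, rloc ℓ g d s = s) :
    ∃ x y : ℚ_[(ℓ : ℕ)], (t : ℚ_[(ℓ : ℕ)]) = x ^ 2 + (q : ℕ) * y ^ 2 :=
  H54T.exists_form_of_fixed hs ℓ g t fun d => ⟨trivial, h d⟩

/-- **Values of the form are local norms**: if `t = a² + q b² ≠ 0` over `ℚ_ℓ`, then `t = B · d(B)` for
`B = a + b s`, for every `d` which moves `s` (written additively). File `H54TRec`. -/
theorem norm_of_form {q : Nat.Primes} {s : Qb} (hs : s ^ 2 = -((q : ℕ) : Qb)) (ℓ : Nat.Primes) (g : GQ)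
    {t : ℚ} {T : Additive Qbˣ} (ht : algebraMap ℚ Qb t = uval T) (ht0 : t ≠ 0) {a b : ℚ_[(ℓ : ℕ)]}
    (hab : (t : ℚ_[(ℓ : ℕ)]) = a ^ 2 + (q : ℕ) * b ^ 2) {d : primeLocalGaloisGroup ℓ}
    (hd : rloc ℓ g d s ≠ s) :
    ∃ B : Additive (PadicAlgCl (ℓ : ℕ))ˣ, (∀ h : primeLocalGaloisGroup ℓ, rloc ℓ g h s = s → h • B = B) ∧
      jloc ℓ g T = ∑ k ∈ Finset.range 2, d ^ k • B :=
  (H54T.exists_nrm_of_form hs ℓ g ht ht0 hab (d := d) fun h => hd h.2).imp
    fun _ hB => ⟨fun h hh => hB.1 h ⟨trivial, hh⟩, hB.2⟩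

/-- **Reciprocity for classes of order two.** Let `q ≡ 7 mod 8`, `s² = -q`, and let `F` be a 2-cocycle of
finite level on `GQ` with values in `{±1} ⊂ ℚ̄ˣ` (`2 • F = 0`), trivial at all places `(ℓ, g)` with `ℓ ≠ q`,
over `ℚ(√-q)` also at `q`, and at infinity: `F(c, c) = F(1, 1)` for a complex conjugation `c`. Then `F` is
trivial at `q`. Proof: by the Hasse principle over `ℚ(√-q)`, `F` is, up to a coboundary `dx`, inflated from
`Gal(ℚ(√-q)/ℚ) = {1, c}`, and it is described by `t = (F - dx)(c, c) ∈ ℚˣ`; it is trivial at `(ℓ, g)` if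
and only if `t` is a norm from `ℚ_ℓ(√-q)`. Since `F(c, c) = F(1, 1)`, `t = (z · c(z))⁻¹` with `z = x(c)`, so
`t > 0`. By `form_of_norm` and `form_of_split` `t` is of the form `x² + q y²` over `ℚ_ℓ` for `ℓ ≠ q`; by
`product_formula` it has this form over `ℚ_q`, and `norm_of_form` gives the triviality at `q`. File
`H54TRec`. -/
theorem reciprocity_order_two (q : Nat.Primes) (hq8 : (q : ℕ) % 8 = 7) {s : Qb}
    (hs : s ^ 2 = -((q : ℕ) : Qb)) {F : GQ × GQ → Additive Qbˣ}
    (hF : IsCocycle₂ F) (hc : krullFam.IsConst₂ F) (h2 : ∀ x, (2 : ℕ) • F x = 0)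
    (hloc : ∀ (ℓ : Nat.Primes) (g : GQ), ℓ ≠ q → arithLoc.TrivAt (ℓ, g) ⊤ F)
    (hlocq : ∀ g, arithLoc.TrivAt (q, g) (kumSub ⊤ s) F)
    {c : GQ} {ι : Qb →+* ℂ} (hcι : ∀ x, ι (c x) = starRingEnd ℂ (ι x))
    (hinf : F (c, c) = F (1, 1)) (g : GQ) : arithLoc.TrivAt (q, g) ⊤ F :=
  H54T.trivAt_of_rec q hq8 hs hF hc h2 hloc hlocq hcι hinf g

/-! ## 4. At the prime `q`: an unramified and a ramified character

In this section `i, S ∈ ℚ̄_q` with `i² = -1`, `S² = -q`; `lam` (the unramified character) and `n` are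
homomorphisms from the local group at `q` to `ZMod 2`, and `E` is as in the header. -/

/-- **Inertia.** `x` is in `inert q` if it acts trivially modulo the maximal ideal of the ring of integers of
`ℚ̄_q`; this holds if its image in `GQ` is in the inertia group of the place `padicPlace q` of `ℚ̄`. Files
`H54TLoc`, `H54TRecip`. -/
theorem inert_iff (q : Nat.Primes) (x : primeLocalGaloisGroup q) :
    (x ∈ H54T.inert q ↔ ∀ z : PadicAlgCl (q : ℕ), ‖z‖ ≤ 1 → ‖x • z - z‖ < 1) ∧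
      (rloc q 1 x ∈ (padicPlace (q : ℕ)).inertiaSubgroupIn ℚ → x ∈ H54T.inert q) :=
  ⟨Iff.rfl, H54T.mem_inert⟩

/-- **Norms from a quadratic extension.** Let `S ≠ 0`, `S² = -m` with `m ∈ ℕ`, and let `d` move `S`. If `B` is
fixed by all `h` which fix `S`, then `B · d(B) = x² + m y²` with `x, y ∈ ℚ_q`. File `H54TLoc`. -/
theorem norm_eq_form {q : Nat.Primes} {m : ℕ} {S : PadicAlgCl (q : ℕ)} (hS0 : S ≠ 0)
    (hS : S ^ 2 = -(m : PadicAlgCl (q : ℕ))) {d : primeLocalGaloisGroup q} (hd : d • S ≠ S)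
    {B : PadicAlgCl (q : ℕ)} (hB : ∀ h : primeLocalGaloisGroup q, h • S = S → h • B = B) :
    ∃ x y : ℚ_[(q : ℕ)], B * d • B = ((x ^ 2 + m * y ^ 2 : ℚ_[(q : ℕ)]) : PadicAlgCl (q : ℕ)) :=
  H54T.exists_form_gen hS0 hS hd hB

/-- **Norms from the unramified quadratic extension `ℚ_q(i)`** have even valuation (`q ≡ 3 mod 4`):
`|x² + y²|` is the square of the absolute value of an element of `ℚ_q`; and `|z|² = q |w|²` is impossible
for `z, w ∈ ℚ_q`, `w ≠ 0`. File `H54TLoc`. -/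
theorem unramified_norm_even {q : Nat.Primes} (hq4 : (q : ℕ) % 4 = 3) :
    (∀ x y : ℚ_[(q : ℕ)], ∃ z : ℚ_[(q : ℕ)], ‖x ^ 2 + ((1 : ℕ) : ℚ_[(q : ℕ)]) * y ^ 2‖ = ‖z‖ ^ 2) ∧
      ∀ z w : ℚ_[(q : ℕ)], w ≠ 0 → ‖z‖ ^ 2 = (q : ℝ) * ‖w‖ ^ 2 → False :=
  ⟨H54T.norm_form_one hq4, fun _ _ => H54T.norm_parity⟩

/-- **Kummer generator.** By Hilbert's theorem 90 a homomorphism `n` of finite level from the local group to
`ZMod 2` is given by `x(β) = (-1)^{n(x)} β` for some `β ∈ ℚ̄_qˣ`; then `β² ∈ ℚ_qˣ`. File `H54TLoc`. -/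
theorem kummer_generator {q : Nat.Primes} {E : ZMod 2 →+ Additive (PadicAlgCl (q : ℕ))ˣ}
    (hE1 : uval (E 1) = -1) {n : primeLocalGaloisGroup q → ZMod 2} (hn : ∀ x y, n (x * y) = n x + n y)
    (hnc : (krullFam.comap (rloc q 1)).IsConst₁ n) :
    ∃ β : Additive (PadicAlgCl (q : ℕ))ˣ, ∀ x, E (n x) = x • β - β :=
  H54T.exists_beta hE1 hn hnc

/-- **Ramified quadratic characters**, `q ≡ 3 mod 4`: if `n` is not zero on inertia, then `β² = ∓ q w²` with
`w ∈ ℚ_qˣ`. For `β² ∈ ℚ_qˣ` cannot have even valuation (otherwise `β` times a power of `q` is a unit, which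
inertia fixes modulo the maximal ideal, so it fixes `β`), and for every unit `u` of `ℤ_q` one of `±u` is a
square modulo `q`, hence a square (`H54T.isSquare_padicInt`). File `H54TLoc`. -/
theorem ramified_generator {q : Nat.Primes} (hq4 : (q : ℕ) % 4 = 3)
    {E : ZMod 2 →+ Additive (PadicAlgCl (q : ℕ))ˣ} (hE1 : uval (E 1) = -1)
    {n : primeLocalGaloisGroup q → ZMod 2} {β : Additive (PadicAlgCl (q : ℕ))ˣ}
    (hβ : ∀ x, E (n x) = x • β - β) (hram : ∃ x ∈ H54T.inert q, n x ≠ 0) :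
    ∃ w : ℚ_[(q : ℕ)], w ≠ 0 ∧
      (uval β ^ 2 = -((q : ℕ) : PadicAlgCl (q : ℕ)) * (w : PadicAlgCl (q : ℕ)) ^ 2 ∨
        uval β ^ 2 = ((q : ℕ) : PadicAlgCl (q : ℕ)) * (w : PadicAlgCl (q : ℕ)) ^ 2) :=
  H54T.exists_sq_of_ramified hq4 hE1 hβ hram

/-- **The product is trivial over `ℚ_q(√-q)`.** Let `lam` be the character of `ℚ_q(i)` and let `n` be
ramified. Then on the stabiliser of `S = √-q` the cocycle `(x, y) ↦ (-1)^{lam(x) n(y)}` is the coboundary of
a cochain of finite level with values in `ℚ̄_qˣ`. Proof: by `ramified_generator` `β = ±S w` or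
`β = ±i S w`, so on this stabiliser `n = 0` or `n = lam`. In the second case use that `-1 = a² + c²` is the
norm of `a + c i`: the cochain is `1` on the kernel of `lam` and `a + c i` outside. File `H54TLocB`. -/
theorem trivial_over_sqrt {q : Nat.Primes} (hq4 : (q : ℕ) % 4 = 3) {i S : PadicAlgCl (q : ℕ)}
    (hi : i ^ 2 = -1) (hS : S ^ 2 = -((q : ℕ) : PadicAlgCl (q : ℕ)))
    {E : ZMod 2 →+ Additive (PadicAlgCl (q : ℕ))ˣ} (hE1 : uval (E 1) = -1)
    {lam n : primeLocalGaloisGroup q → ZMod 2} (hlamc : (krullFam.comap (rloc q 1)).IsConst₁ lam)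
    (hlam : ∀ x y, lam (x * y) = lam x + lam y) (hlami : ∀ x, lam x = 0 ↔ x • i = i)
    {β : Additive (PadicAlgCl (q : ℕ))ˣ} (hβ : ∀ x, E (n x) = x • β - β)
    (hram : ∃ x ∈ H54T.inert q, n x ≠ 0) :
    ∃ Y : primeLocalGaloisGroup q → Additive (PadicAlgCl (q : ℕ))ˣ,
      (krullFam.comap (rloc q 1)).IsConst₁ Y ∧
        ∀ x y, x • S = S → y • S = S → x • Y y - Y (x * y) + Y x = E (lam x * n y) :=
  H54T.exists_cochain_of_sq hq4 hi hS hE1 hlamc hlam hlami hβ hram

/-- **If the product is trivial, the generator is a norm.** If `(x, y) ↦ (-1)^{lam(x) n(y)}` is the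
coboundary of a cochain `Y` of finite level on the whole local group, `lam ≠ 0`, then `β⁻² = x² + y²` over
`ℚ_q`. Proof: by Hilbert's theorem 90 one may assume `Y = 1` (written multiplicatively) on the kernel of
`lam`; for `σ` with `lam(σ) = 1` the element `Y(σ) β⁻¹` is then in `ℚ_q(i)`, and its norm is `β⁻²`. File
`H54TLocB`. -/
theorem generator_is_norm {q : Nat.Primes} {i : PadicAlgCl (q : ℕ)} (hi : i ^ 2 = -1)
    {E : ZMod 2 →+ Additive (PadicAlgCl (q : ℕ))ˣ} (hE1 : uval (E 1) = -1)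
    {lam n : primeLocalGaloisGroup q → ZMod 2} (hlam : ∀ x y, lam (x * y) = lam x + lam y)
    (hlami : ∀ x, lam x = 0 ↔ x • i = i) (hne : ∃ x, lam x ≠ 0) (hn : ∀ x y, n (x * y) = n x + n y)
    {β : Additive (PadicAlgCl (q : ℕ))ˣ} (hβ : ∀ x, E (n x) = x • β - β)
    {Y : primeLocalGaloisGroup q → Additive (PadicAlgCl (q : ℕ))ˣ}
    (hYc : (krullFam.comap (rloc q 1)).IsConst₁ Y)
    (hY : ∀ x y, x • Y y - Y (x * y) + Y x = E (lam x * n y)) :
    ∃ x y : ℚ_[(q : ℕ)],
      (uval β ^ 2)⁻¹ = ((x ^ 2 + (1 : ℕ) * y ^ 2 : ℚ_[(q : ℕ)]) : PadicAlgCl (q : ℕ)) :=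
  H54T.exists_norm_of_triv hi hE1 hlam hlami hne hn hβ hYc hY

/-- **Conclusion at `q`.** Let `q ≡ 7 mod 8` and let `f` be a 2-cocycle of finite level on `GQ` with values
in `ZMod 2`, which is trivial at all places `ℓ ≠ q` (as a cocycle `sgnc f` with values `±1` in `ℚ̄ˣ`, see
`cup_apply`) and at infinity. Suppose that at `q` it is `lam(x) n(y)` up to the coboundary of `Y`, where
`lam ≠ 0` is the character of `ℚ_q(i)`. Then `n` is unramified. Proof: otherwise `f` is trivial over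
`ℚ_q(√-q)` (`trivial_over_sqrt`), so at `q` (`reciprocity_order_two`); by `generator_is_norm` and
`unramified_norm_even` the valuation of `β²` is even, but it is odd by `ramified_generator`. File
`H54TGlob`. -/
theorem unramified (q : Nat.Primes) (hq8 : (q : ℕ) % 8 = 7) {f : GQ × GQ → ZMod 2}
    (hf : ∀ a b c, f (a * b, c) + f (a, b) = f (b, c) + f (a, b * c)) (hfc : krullFam.IsConst₂ f)
    (hloc : ∀ (ℓ : Nat.Primes) (g : GQ), ℓ ≠ q → arithLoc.TrivAt (ℓ, g) ⊤ (H54T.sgnc f))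
    {c : GQ} {ι : Qb →+* ℂ} (hcι : ∀ x, ι (c x) = starRingEnd ℂ (ι x))
    (hinf : f (c, c) = f (1, 1)) {i : Qb} (hi : i ^ 2 = -1)
    {lam n Y : primeLocalGaloisGroup q → ZMod 2}
    (hlamc : (krullFam.comap (rloc q 1)).IsConst₁ lam)
    (hlam : ∀ x y, lam (x * y) = lam x + lam y)
    (hlami : ∀ x, lam x = 0 ↔ rloc q 1 x i = i) (hne : ∃ x, lam x ≠ 0)
    (hnc : (krullFam.comap (rloc q 1)).IsConst₁ n) (hn : ∀ x y, n (x * y) = n x + n y)
    (hYc : (krullFam.comap (rloc q 1)).IsConst₁ Y)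
    (hfq : ∀ x y, f (rloc q 1 x, rloc q 1 y) = lam x * n y + (Y y - Y (x * y) + Y x)) :
    ∀ x ∈ H54T.inert q, n x = 0 :=
  H54T.unramified_of_rec q hq8 hf hfc hloc hcι hinf hi hlamc hlam hlami hne hnc hn hYc hfq

/-! ## 5. The cup product and its local terms away from `q` -/

/-- **The cup product.** `e2 u v = u₀ v₁ + u₁ v₀` is the alternating form on `V = 𝔽₂²` (the Weil pairing); the
cup product of two cocycles `b`, `b'` is `cup rb b b' : (g, h) ↦ e2(b(g), g b'(h))`, with values in `ZMod 2`;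
`sgnc` changes the values `0`, `1` into `1, -1 ∈ ℚ̄ˣ`. Files `H54TCup`, `H54TGlob`. -/
theorem cup_apply {rb : GQ →* GL (Fin 2) (ZMod 2)} (b b' : GQ → V2) (u v : V2) (g h : GQ)
    (f : GQ × GQ → ZMod 2) :
    H54T.e2 u v = u 0 * v 1 + u 1 * v 0 ∧ H54T.cup rb b b' (g, h) = H54T.e2 (b g) ((rb g).val *ᵥ b' h) ∧
      (f (g, h) = 0 → uval (H54T.sgnc f (g, h)) = 1) ∧ (f (g, h) = 1 → uval (H54T.sgnc f (g, h)) = -1) :=
  ⟨rfl, rfl, fun e => by rw [H54T.sgnc_apply, e, map_zero, uval_zero],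
    fun e => by rw [H54T.sgnc_apply, e, H7.zi_one, uval_umk]⟩

/-- The form is invariant under `GL₂(𝔽₂)`, and two vectors fixed by the same `A ≠ 1` are orthogonal. File
`H54TCup`. -/
theorem form_invariant (A : GL (Fin 2) (ZMod 2)) (u v : V2) :
    H54T.e2 (A.val *ᵥ u) (A.val *ᵥ v) = H54T.e2 u v ∧
      (A ≠ 1 → A.val *ᵥ u = u → A.val *ᵥ v = v → H54T.e2 u v = 0) :=
  ⟨H54T.e2_mv A u v, fun hA => H54T.e2_eq_zero_of_fixed hA⟩

/-- **The line of an involution.** If `A ∈ GL₂(𝔽₂)` has order two, there is a vector `t ≠ 0` fixed by `A` such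
that `e2(u, t) ≠ 0` for all `u` which are not of the form `A w - w`. File `H54TCup`. -/
theorem line_of_involution {A : GL (Fin 2) (ZMod 2)} (hA : A ≠ 1) (hA2 : A * A = 1) :
    ∃ t : V2, t ≠ 0 ∧ A.val *ᵥ t = t ∧ ∀ u : V2, (∀ w : V2, u ≠ A.val *ᵥ w - w) → H54T.e2 u t ≠ 0 :=
  H54T.exists_fixed_line hA hA2

/-- **The cup product is a cocycle.** File `H54TCup`. -/
theorem cup_cocycle {rb : GQ →* GL (Fin 2) (ZMod 2)} {b b' : GQ → V2}
    (hb : ∀ g h, b (g * h) = b g + (rb g).val *ᵥ b h)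
    (hb' : ∀ g h, b' (g * h) = b' g + (rb g).val *ᵥ b' h) (g h j : GQ) :
    H54T.cup rb b b' (g * h, j) + H54T.cup rb b b' (g, h) =
      H54T.cup rb b b' (h, j) + H54T.cup rb b b' (g, h * j) :=
  H54T.cup_cocycle hb hb' g h j

/-- **Two classes in the condition of the line.** Let `D` be a subgroup which does not act trivially on `V`,
`w, w' ∈ V` such that the values on `D` of `b(g) - (g w - w)` and of `b'(g) - (g w' - w')` are fixed by `D`.
These values lie on one line, hence are orthogonal, and on `D` the cup product is the coboundary of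
`Y(g) = e2(b(g), g w') + e2(w, b'(g) - (g w' - w'))`. File `H54TCup`. -/
theorem cup_of_line {rb : GQ →* GL (Fin 2) (ZMod 2)} {D : Subgroup GQ} (hD : ∃ g ∈ D, rb g ≠ 1)
    {b b' : GQ → V2} (hb : ∀ g h, b (g * h) = b g + (rb g).val *ᵥ b h)
    (hb' : ∀ g h, b' (g * h) = b' g + (rb g).val *ᵥ b' h) {w w' : V2}
    (h : ∀ g ∈ D, ∀ h ∈ D,
      (rb h).val *ᵥ (b g - ((rb g).val *ᵥ w - w)) = b g - ((rb g).val *ᵥ w - w))
    (h' : ∀ g ∈ D, ∀ h ∈ D,
      (rb h).val *ᵥ (b' g - ((rb g).val *ᵥ w' - w')) = b' g - ((rb g).val *ᵥ w' - w'))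
    {Y : GQ → ZMod 2} (hY : ∀ g, Y g = H54T.e2 (b g) ((rb g).val *ᵥ w') +
      H54T.e2 w (b' g - ((rb g).val *ᵥ w' - w'))) {g₁ g₂ : GQ} (hg₁ : g₁ ∈ D) (hg₂ : g₂ ∈ D) :
    H54T.cup rb b b' (g₁, g₂) = Y g₂ - Y (g₁ * g₂) + Y g₁ := by
  rw [hY, hY, hY]; exact H54T.cup_inL hD hb hb' h h' hg₁ hg₂

/-- **The bad primes.** If `b` and `b'` satisfy the condition of the line at a place above `ℓ` whose
decomposition group acts non-trivially on `V`, the cup product is trivial at this place (by `cup_of_line`).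
File `H54TRecip`. -/
theorem trivial_at_bad {rb : GQ →* GL (Fin 2) (ZMod 2)} {b b' : GQ → V2}
    (hb : ∀ g h, b (g * h) = b g + (rb g).val *ᵥ b h)
    (hb' : ∀ g h, b' (g * h) = b' g + (rb g).val *ᵥ b' h) (hl : LevC b) (hl' : LevC b')
    (hrb : LevC (fun g => rb g)) {ℓ : Nat.Primes} (g : GQ) {P : ValuationSubring Qb}
    (hP : P = g⁻¹ • padicPlace (ℓ : ℕ)) (hbad : ∃ x ∈ P.decompositionSubgroup ℚ, rb x ≠ 1)
    (h : ∃ w : V2, ∀ g ∈ P.decompositionSubgroup ℚ, ∀ h ∈ P.decompositionSubgroup ℚ,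
      (rb h).val *ᵥ (b g - ((rb g).val *ᵥ w - w)) = b g - ((rb g).val *ᵥ w - w))
    (h' : ∃ w : V2, ∀ g ∈ P.decompositionSubgroup ℚ, ∀ h ∈ P.decompositionSubgroup ℚ,
      (rb h).val *ᵥ (b' g - ((rb g).val *ᵥ w - w)) = b' g - ((rb g).val *ᵥ w - w)) :
    arithLoc.TrivAt (ℓ, g) ⊤ (H54T.sgnc (H54T.cup rb b b')) := by
  subst hP; exact H54T.trivAt_bad hb hb' hl hl' hrb g hbad h h'

/-- **The unramified primes.** `S` is a finite set of primes containing 2. If the inertia groups at all primes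
outside `S` are killed by `b`, `b'` and act trivially on the values of `b'`, the cup product is trivial at
the places above every `ℓ ∉ S` (an unramified 2-cocycle with values in `ZMod 2` is a coboundary over `ℚ_ℓ`).
File `H54TRecip`, from the theorem `locTriv` of `H47LocTriv`. -/
theorem trivial_at_unramified {rb : GQ →* GL (Fin 2) (ZMod 2)} {b b' : GQ → V2}
    (hb : ∀ g h, b (g * h) = b g + (rb g).val *ᵥ b h)
    (hb' : ∀ g h, b' (g * h) = b' g + (rb g).val *ᵥ b' h) (hl : LevC b) (hl' : LevC b')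
    {S : Finset Nat.Primes} (h2S : ∀ ℓ : Nat.Primes, (ℓ : ℕ) = 2 → ℓ ∈ S)
    (hunr : ∀ ℓ : Nat.Primes, ℓ ∉ S → ∀ P : ValuationSubring Qb, P.LiesOverPrime (ℓ : ℕ) →
      ∀ τ ∈ P.inertiaSubgroupIn ℚ, b τ = 0 ∧ b' τ = 0 ∧ ∀ h, (rb τ).val *ᵥ b' h = b' h)
    {ℓ : Nat.Primes} (hℓ : ℓ ∉ S) (g : GQ) :
    arithLoc.TrivAt (ℓ, g) ⊤ (H54T.sgnc (H54T.cup rb b b')) :=
  H54T.trivAt_unram hb hb' hl hl' h2S hunr hℓ g

/-! ## 6. The cup product at `q`

Let `φ` be a Frobenius element at the place `padicPlace q`, with `rb(φ)` of order two, `t` its line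
(`line_of_involution`) and `D` the decomposition group. The condition of the line for `b'` at `q` gives `w'`
such that `b₁(g) = b'(g) - (g w' - w')` is fixed by `D` for `g ∈ D`; so it is orthogonal to `t`, and
`b₁(g) = n(g) t` (`orthogonal_to_line`). Then `n` is a homomorphism on `D`, and so is `lam(g) = e2(b(g), t)`.
Since `b` is unramified, `D` is generated by `φ`, inertia and any open subgroup
(`GuideLocalBounds.decomposition_generated`), and `lam(φ) = 1` because `b` is not a coboundary at `φ`, `lam`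
is the character of `ℚ_q(i)` (`action_on_i`). By `cup_with_coboundary` the cup product is `lam(g) n(h)` up to
a coboundary on `D`. At infinity `rb(c) ≠ 1` by hypothesis, and `b(c)` and `b'(c)` are fixed by `c`, so
`e2(b(c), b'(c)) = 0` (`form_invariant`). Now `unramified` gives `n = 0`, that is `b' = 0`, on the inertia
group: this is `GuideResidualSteps.reciprocity`. -/

/-- **Changing a cocycle by a coboundary**: `(g, h) ↦ e2(b(g), g (h w - w))` is the coboundary of
`g ↦ e2(b(g), g w)`. File `H54TCup`. -/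
theorem cup_with_coboundary {rb : GQ →* GL (Fin 2) (ZMod 2)} {b : GQ → V2}
    (hb : ∀ g h, b (g * h) = b g + (rb g).val *ᵥ b h) (w : V2) (g h : GQ) :
    H54T.e2 (b g) ((rb g).val *ᵥ ((rb h).val *ᵥ w - w)) =
      H54T.e2 (b h) ((rb h).val *ᵥ w) - H54T.e2 (b (g * h)) ((rb (g * h)).val *ᵥ w) +
        H54T.e2 (b g) ((rb g).val *ᵥ w) :=
  H54T.cup_dw_right hb w g h

/-- A vector orthogonal to `t ≠ 0` is `0` or `t`. File `H54TCup`. -/
theorem orthogonal_to_line {u t : V2} (ht : t ≠ 0) (h : H54T.e2 u t = 0) : u = 0 ∨ u = t :=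
  H54T.mem_line ht h

/-- **The character of `ℚ_q(i)`**, `q ≡ 3 mod 4`: the inertia group at `q` fixes `i = √-1`, Frobenius elements
send it to `-i`. File `H54TRecipB`. -/
theorem action_on_i {i : Qb} (hi : i ^ 2 = -1) {q : Nat.Primes} (hq4 : (q : ℕ) % 4 = 3) :
    (∀ τ ∈ (padicPlace (q : ℕ)).inertiaSubgroupIn ℚ, τ i = i) ∧
      ∀ φ : GQ, (padicPlace (q : ℕ)).IsFrobeniusAt φ (q : ℕ) → φ i = -i :=
  ⟨fun _ => H54T.inertia_i hi fun h => by omega, fun _ => H54T.frobenius_i hi hq4⟩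

end Fermat.Agent.Guide.TwoReciprocity
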