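import Fermat.Agent.H97InfH
import Fermat.Agent.H97MdL

/-!
# Guide: the semistable model of `X_0(mq)` from its two sheets over `X_0(m)`, step by step

Companion of `GuideReduction` (sections 5 and 6), where the results are stated: `cusp_reduction`,
`sheets_degrees`, `sheets_data`, `norm_value`, `norm_reduction`, `model_rules`.  This file shows the
steps of the proofs; for the analysis at the nodes see `GuideNodeParameters` (the local equation)
and `GuideNodeAnalysis`.  No scheme and no model over a ring of integers occurs: a curve is its
function field, a component of the special fibre is a valuation with a reduction map, and the points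
of the special fibre are classes of places.

**The situation.**  `K` is algebraically closed of characteristic `0` (for instance `ℚ̄`) with a
valuation `vK` of rank one, `k` its residue field, algebraically closed of characteristic `q`.
`φ : F₀ → F` is an extension of function fields over `K` (in the application it belongs to
`X_0(mq) → X_0(m)`, `q ∤ m`, and has degree `q + 1`).  `F₀` has good reduction `κ`: a valuation `v₀`
of `F₀`, a reduction map `ρ₀`, and a reduction of places `r`.  `v₀` has two extensions `v false`,
`v true` to `F`; both have reductions `ρ false`, `ρ true` with values in `κ`; on `F₀` they induce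
`ρ₀`, resp. `Φ ∘ ρ₀` with `Φ` the substitution `t ↦ t ^ q` (in the application).  The norm from `F`
to `F₀` is, on values and reductions, the product of the contribution of the first sheet and of the
one of the second sheet.  These are the data of the structure `H97.Sheets` (`sheets_rules`).

**The aim.**  A specialisation map `sp` from the places of `F` to the points of two copies of the
special fibre of `F₀`, glued at the nodes, such that the degree of `div f` over a point is the order
of the reduction of `f` at this point.  The difficulty is to decide to which sheet a place `P` over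
a point `x` belongs, and to split the sum of the two degrees over `x`, which is all the norm gives.

**Steps.**
1. Expansions with bounded coefficients (`completely_integrally_closed` to `bounded_of_regular`).
2. The cusps of level `N ℓ` (`places_above_infinity`, `trace_regular`, `pull_back_poles`).
3. Components: from valuation rings with a residue map to valuations (`valuation_by_scaling`,
   `component_of_valuationRing`).
4. Two sheets: the data (`sheets_rules`), the semilocal ring over a point and the values of its
   elements (`values_of_F₀` to `value_small`), every place is on one of the sheets (`dichotomy`),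
   and on one only outside the nodes (`separating_function`, `sheet_unique`, `specialisation`).
5. Degrees: over a point of `F₀` (`degree_over_point`), an inequality on each sheet (`degree_le`),
   equality for units (`degree_eq_of_units`), for functions of the semilocal ring (`degree_eq`), and
   in general (`clear_poles`, then `GuideReduction.sheets_degrees`); the model (`model_data`).
6. The data for `X_0(mq)`: integral relations from norms (`coefficient_of_values`, `norm_regular`,
   `integral_relation`), and lifting of functions at the good level (`lift_regular`,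
   `good_level_valuation`).

**Closures:** steps 1 and 2: S01, S03, S04, S06, S09, S12, S15, S33-S35, S38-S40, S43-S46, S50,
S58-S60 (through the reductions of `GuideBadRed` and `GuideOrdinary`); steps 3 to 6: S01, S03, S04,
S06, S38-S40, S43-S46, S50, S59, S60 (through S44 and Mazur's principle).  Reference in NOTES.md:
[220].  Editor: helper97.
-/

set_option autoImplicit false

noncomputable section

open AlgebraicCurve ModularCurve IntermediateField Module WithZero Polynomial
open Fermat.Agent.H99 (FX)

namespace Fermat.Agent.Guide.TwoSheets

/-! ### 1. Expansions with bounded coefficients -/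

section Bounded

variable {L : Type*} [Field L] {A : ValuationSubring L}

/-- **`A((t))` is completely integrally closed** for a valuation ring `A` of rank one (hypothesis
`hA`; `H97.intL A` is the ring of the series with coefficients in `A`): if `c g ^ n` is in `A((t))`
for all `n`, `c ≠ 0`, then `g` is.  Proof: subtract the part of `g` before the first coefficient not
in `A`, and look at leading coefficients.  Proved in `H97InfA`. -/
theorem completely_integrally_closed (hA : ∀ a b : A, ¬ IsUnit a → b ≠ 0 → ∃ n : ℕ, b ∣ a ^ n)
    {c g : LaurentSeries L} (hc : c ≠ 0) (h : ∀ n : ℕ, c * g ^ n ∈ H97.intL A) : g ∈ H97.intL A :=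
  H97.mem_intL_of_pow hA hc h

/-- **Bounded series, unfolded**: `H97.bddL A` is the algebra of the Laurent series over `L` which
become integral after multiplication by a constant `c ≠ 0` of `A`.  Defined in `H97InfB`. -/
theorem bounded_iff {g : LaurentSeries L} : g ∈ H97.bddL A ↔
    ∃ c : A, c ≠ 0 ∧ algebraMap L (LaurentSeries L) c * g ∈ H97.intL A :=
  Iff.rfl

/-- **Roots of monic equations with bounded coefficients are bounded**, if they are quotients of
integral series (as all modular functions).  Proof: after multiplication by a constant the
coefficients are integral, and the powers of the root have a common denominator; then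
`completely_integrally_closed`.  Proved in `H97InfB`. -/
theorem bounded_of_relation (hA : ∀ a b : A, ¬ IsUnit a → b ≠ 0 → ∃ n : ℕ, b ∣ a ^ n)
    {f : LaurentSeries L} {d : ℕ} (a : ℕ → LaurentSeries L) (ha : ∀ i, a i ∈ H97.bddL A)
    (hf : f ^ d = ∑ i ∈ Finset.range d, a i * f ^ i)
    (hfrac : ∃ y z : LaurentSeries L, y ∈ H97.intL A ∧ z ∈ H97.intL A ∧ z ≠ 0 ∧ f * z = y) :
    f ∈ H97.bddL A :=
  H97.mem_bddL_of_rel hA a ha hf hfrac

/-- **Functions with poles only where `x` has poles.**  `F` is a field of modular functions of level
`N` over `L`, `x ∈ F` has a bounded expansion, and `f ∈ F` is regular at all places where `x` is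
regular.  Then the expansion of `f` is bounded: `f` is integral over `L[x]`.  With `x = j` this
applies to the functions with poles only at the cusps, with `x = 1/j` to those with poles only at
the zeros of `j`.  Proved in `H97InfB`. -/
theorem bounded_of_regular (hA : ∀ a b : A, ¬ IsUnit a → b ≠ 0 → ∃ n : ℕ, b ∣ a ^ n) (N : ℕ)
    (F : IntermediateField L (LaurentSeries L)) (hF : F ≤ modularFunctionFieldFullC L N)
    [H3RR.IsFF L F] {x f : F} (hx : (x : LaurentSeries L) ∈ H97.bddL A)
    (h : ∀ v : Place L F, x ∈ v.toValuationSubring → f ∈ v.toValuationSubring) :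
    (f : LaurentSeries L) ∈ H97.bddL A :=
  H97.mem_bddL_of_regular hA N F hF hx h

end Bounded

/-! ### 2. The cusps of level `N ℓ`

`W` is the involution of the function field of `X_0(N ℓ)` which exchanges the two degeneracy maps,
`P₀` the cusp `∞` of level `N`, `P₁` the cusp `∞` of level `N ℓ` (the order of a function at it is
the order of its expansion) and `P₂ = W P₁`. -/

section Cusps

variable {L : Type*} [Field L] [Algebra ℚ L] [CharZero L] [IsAlgClosed L] {N ℓ : ℕ} [NeZero N]
  [NeZero ℓ] {W : FX L (N * ℓ) ≃ₐ[L] FX L (N * ℓ)} {P₀ : Place L (FX L N)}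
  {P₁ P₂ : Place L (FX L (N * ℓ))} (hα : ∀ x, W (heckeAlphaBar L N ℓ x) = heckeBetaBar L N ℓ x)
  (hWW : ∀ x, W (W x) = x) (hP₀ : ∀ f : FX L N, P₀.ord f = (f : LaurentSeries L).order)
  (hP₁ : ∀ f : FX L (N * ℓ), P₁.ord f = (f : LaurentSeries L).order)
  (hP₂ : ∀ f : FX L (N * ℓ), P₂.ord f = P₁.ord (W f))

include hα hWW hP₀ hP₁ hP₂

/-- **Ramification at the two cusps**: for a function `x` of level `N` the orders of `α x` at `P₁`,
`P₂` are `ord x` and `ℓ ord x` (`ord` = order at the cusp `∞` of level `N`).  In `H97InfE`. -/
theorem cusp_orders (x : FX L N) : P₁.ord (heckeAlphaBar L N ℓ x) = P₀.ord x ∧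
    P₂.ord (heckeAlphaBar L N ℓ x) = ℓ * P₀.ord x :=
  have h : H97.SwapData L N ℓ W P₀ P₁ P₂ := ⟨hα, hWW, hP₀, hP₁, hP₂⟩
  ⟨h.ord_alpha x, h.ord_alpha' x⟩

/-- **There are no other places above `∞`**, if the degree of the first degeneracy map `α` is at
most `ℓ + 1`: if `y` has no poles outside the cusp `∞` of level `N`, every pole of `α y` is `P₁` or
`P₂`.  Proof: the degree of the pole divisor of `α y` is at most `ℓ + 1` times the one of `y`, and
this is already the contribution of the two cusps.  Proved in `H97InfG`. -/
theorem places_above_infinity [H3RR.IsFF L (FX L (N * ℓ))] [H3RR.IsFF L (FX L N)] (hℓ : 1 < ℓ)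
    (hfin : FiniteAlong L (heckeAlphaBar L N ℓ))
    (hfr : finrankAlong L (heckeAlphaBar L N ℓ) ≤ ℓ + 1) {y : FX L N}
    (hy : ∀ v : Place L (FX L N), v ≠ P₀ → y ∈ v.toValuationSubring)
    {w : Place L (FX L (N * ℓ))} (hw : heckeAlphaBar L N ℓ y ∉ w.toValuationSubring) :
    w = P₁ ∨ w = P₂ :=
  have h : H97.SwapData L N ℓ W P₀ P₁ P₂ := ⟨hα, hWW, hP₀, hP₁, hP₂⟩
  h.eq_or_eq hℓ hfin hfr hy hw

/-- **Pull-backs**: if `f` has a pole of order at most `i` at the cusp `∞` of level `N` and no other
poles, then `α f` has poles of order at most `i` at `P₁`, `ℓ i` at `P₂`, and no others.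
Proved in `H97InfG`. -/
theorem pull_back_poles [H3RR.IsFF L (FX L (N * ℓ))] [H3RR.IsFF L (FX L N)] (hℓ : 1 < ℓ)
    (hfin : FiniteAlong L (heckeAlphaBar L N ℓ))
    (hfr : finrankAlong L (heckeAlphaBar L N ℓ) ≤ ℓ + 1) {i : ℤ} {f : FX L N}
    (hf : f ∈ riemannRochSpace (Finsupp.single P₀ i : Divisor L (FX L N))) :
    heckeAlphaBar L N ℓ f ∈ riemannRochSpace
      (Finsupp.single P₁ i + Finsupp.single P₂ (ℓ * i) : Divisor L (FX L (N * ℓ))) :=
  have h : H97.SwapData L N ℓ W P₀ P₁ P₂ := ⟨hα, hWW, hP₀, hP₁, hP₂⟩
  h.alpha_mem_L hℓ hfin hfr hf

/-- **Traces**: if `f` is regular outside `P₁`, `P₂`, its trace to level `N` is regular outside the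
cusp `∞`.  With `GuideReduction.trace_expansion` (the trace is congruent to `f` modulo `ℓ`) and the
good reduction of level `N` this proves that poles specialise (`GuideReduction.cusp_reduction`).
Proved in `H97InfD`, `H97InfF`. -/
theorem trace_regular [H3RR.IsFF L (FX L (N * ℓ))] (hfin : FiniteAlong L (heckeAlphaBar L N ℓ))
    {f : FX L (N * ℓ)}
    (hf : ∀ v : Place L (FX L (N * ℓ)), v ≠ P₁ → v ≠ P₂ → f ∈ v.toValuationSubring)
    {v : Place L (FX L N)} (hv : v ≠ P₀) :
    H97.traceAlong (heckeAlphaBar L N ℓ) f ∈ v.toValuationSubring :=
  have h : H97.SwapData L N ℓ W P₀ P₁ P₂ := ⟨hα, hWW, hP₀, hP₁, hP₂⟩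
  h.trace_mem hfin hf hv

end Cusps

/-! ### 3. Components: from valuation rings with residue maps to valuations -/

section Components

variable {K k F κ : Type*} [Field K] [Field k] {A : ValuationSubring K} {π : A →+* k} [Field F]
  [Algebra K F] [Field κ] [Algebra k κ] {C : H84.Comp A π F κ} (hπ : Function.Surjective π)
  (hC : C.Scalable)

/-- **The valuation of a component by scaling.**  `C : H84.Comp A π F κ` is a component in the sense
of `GuideFrames` (valuation ring `C.V`, reduction map `C.red`) in which every nonzero function can
be scaled by a constant to have nonzero reduction (`C.Scalable`).  `H97.compVal` is its valuation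
with values in the value group of the constants: it extends the valuation of `A`, its ring is `C.V`,
and if `c f` has nonzero reduction then the value of `f` is the one of `c⁻¹`.  Proved in
`H97MdF`. -/
theorem valuation_by_scaling :
    (∀ c : K, H97.compVal C hπ hC (algebraMap K F c) = A.valuation c) ∧
    (∀ f : F, H97.compVal C hπ hC f ≤ 1 ↔ f ∈ C.V) ∧
    ∀ (f : F) (c : K), c ≠ 0 → C.red (algebraMap K F c * f) ≠ 0 →
      H97.compVal C hπ hC f = (A.valuation c)⁻¹ :=
  ⟨H97.compVal_algebraMap hπ hC, fun _ => H97.compVal_le_one_iff hπ hC,
    fun _ _ hc h => H97.compVal_of_scale hπ hC hc h⟩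

/-- **It is a component in the sense of `GuideReduction.comp_iff`** (`H97.resK π` is `π`, extended
by zero to all constants), if some function `x` has a transcendental reduction.  The only property
which is not formal is the best approximation of a nonconstant function `w` by constants: if it
failed, all polynomials in `w` would have constant reductions after scaling, and by an equation
between `x` and `w` the reduction of `x` would be algebraic.  Proved in `H97MdF` with `H84Value`. -/
theorem component_of_valuationRing [IsAlgClosed K] [CharZero K] [H3RR.IsFF K F] {x : F}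
    (hx : x ∈ C.V) (hxt : Transcendental k (C.red x)) :
    H97.Comp A.valuation (H97.resK π) (H97.compVal C hπ hC) C.red :=
  H97.comp_of_H84 hπ hC hx hxt

end Components

/-! ### 4. Two sheets -/

section Sheets

variable {K F₀ F k κ Γ : Type*} [Field K] [Field F₀] [Field F] [Algebra K F₀] [Algebra K F]
  [Field k] [Field κ] [Algebra k κ] [LinearOrderedCommGroupWithZero Γ] {q : ℕ}
  (S : H97.Sheets K F₀ F k κ Γ q)

/-- **The data, unfolded** (main part of the structure `H97.Sheets`).  Level `F₀`: the degree of
`div f` over `x` is the order of the reduction (`v₀ f = 1`), and every function on the special fibre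
which is regular at `x` is the reduction of a function regular at all places over `x`.  Sheets:
`v false`, `v true` extend `v₀`; on `F₀` the first reduction is `ρ₀`, the second one `Φ ρ₀`.  Norms:
`v₀(N f) = v false (f) · v true (f) ^ q`, and the reduction of `N f` is `ρ false f · σ (ρ true f)`
if both values are `1`.  Here `Φ (σ h) = h ^ q`, `σ` is the Frobenius and `Φ` the identity on
constants, and `tw` is the map on places given by `σ`.  The remaining fields say that the pairs
`(v i, ρ i)` and `(v₀, ρ₀)` are components, that `vK` has rank one, that the residue map `res` of the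
constants is onto `k`, and give the monic equations of `integral_relation`.  Defined in `H97MdA`. -/
theorem sheets_rules :
    (∀ f : F₀, f ≠ 0 → S.v₀ f = 1 → ∀ D : Divisor K F₀, (∀ P, D P = P.ord f) →
      ∀ x, D.mapDomain S.r x = x.ord (S.ρ₀ f)) ∧
    (∀ (x : Place k κ) (h : κ), x.adicValuation h ≤ 1 → ∃ b : F₀, S.v₀ b ≤ 1 ∧
      (∀ P, S.r P = x → P.adicValuation b ≤ 1) ∧ S.ρ₀ b = h) ∧
    (∀ i b, S.v i (S.φ b) = S.v₀ b) ∧
    (∀ b, S.v₀ b ≤ 1 → S.ρ false (S.φ b) = S.ρ₀ b ∧ S.ρ true (S.φ b) = S.Φ (S.ρ₀ b)) ∧
    (∀ f, S.v₀ (H60.normAlong S.φ f) = S.v false f * S.v true f ^ q) ∧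
    (∀ f, S.v false f = 1 → S.v true f = 1 →
      S.ρ₀ (H60.normAlong S.φ f) = S.ρ false f * S.σ (S.ρ true f)) ∧
    (∀ h, S.Φ (S.σ h) = h ^ q) ∧ ∀ x h, x.adicValuation (S.σ h) = (S.tw x).adicValuation h :=
  ⟨S.deg₀, S.lift₀, S.v_φ, fun b hb => ⟨S.ρ_false b hb, S.ρ_true b hb⟩, S.norm_val, S.norm_red,
    S.Φσ, S.tw_val⟩

variable [IsAlgClosed K] [CharZero K] [H3RR.IsFF K F₀] [H3RR.IsFF K F]
  [IsAlgClosed k] [H3RR.IsFF k κ] [H94.FunField K F₀] [H94.FunField K F]

/-- **Values at level `F₀`.**  Let `b` be integral for `v₀` and regular at all places over `x`, and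
let `b` have the value `c` at a place `P` over `x`.  Then `c` is integral and the value of the
reduction of `b` at `x` is the residue of `c`.  Proof: apply the rule for degrees to `b - c` (to
`b/c - 1` if `c` were not integral).  Proved in `H97MdA`. -/
theorem values_of_F₀ {x : Place k κ} {b : F₀} (hb : S.v₀ b ≤ 1)
    (hreg : ∀ P, S.r P = x → P.adicValuation b ≤ 1) {P : Place K F₀} (hP : S.r P = x) {c : K}
    (hc : P.adicValuation (b - algebraMap K F₀ c) < 1) :
    S.vK c ≤ 1 ∧ x.adicValuation (S.ρ₀ b - algebraMap k κ (S.res c)) < 1 :=
  S.val₀ hb hreg hP hc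

/-- **The semilocal ring over a point** `x` of the special fibre of `F₀`: the functions which are
integral for both valuations and regular at all places `P` over `x` (`S.red P = x`).  Their
reductions are regular at the two points `S.pt i x` over `x`.  Proof: such a function satisfies a
monic equation with coefficients in the corresponding ring of `F₀` (`integral_relation`); reduce it.
Proved in `H97MdA`. -/
theorem reduction_regular {x : Place k κ} {f : F} (hf : ∀ i, S.v i f ≤ 1)
    (hreg : ∀ P, S.red P = x → P.adicValuation f ≤ 1) (i : Bool) :
    (S.pt i x).adicValuation (S.ρ i f) ≤ 1 :=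
  S.reg ⟨hf, hreg⟩ i

/-- **Values of its elements are integral**: if `f` is in the semilocal ring over `x`, its value
`c` at a place `P` over `x` is integral.  Proof: evaluate the monic equation.
Proved in `H97MdB`. -/
theorem value_integral {x : Place k κ} {f : F} (hf : ∀ i, S.v i f ≤ 1)
    (hreg : ∀ P, S.red P = x → P.adicValuation f ≤ 1) {P : Place K F} (hP : S.red P = x) {c : K}
    (hc : P.adicValuation (f - algebraMap K F c) < 1) : S.vK c ≤ 1 :=
  H97.Sheets.InR.val_le (S := S) ⟨hf, hreg⟩ hP hc

variable [Fact q.Prime] [CharP k q]

/-- **Functions which vanish on both sheets are small**: if `v i (f) < 1` for both `i`, the values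
of `f` at the places over `x` have absolute value `< 1`.  Proof: divide `f` by a constant whose
value is the larger one of the two values and apply `value_integral`.  Proved in `H97MdB`. -/
theorem value_small {x : Place k κ} {f : F} (hf : ∀ i, S.v i f < 1)
    (hreg : ∀ P, S.red P = x → P.adicValuation f ≤ 1) {P : Place K F} (hP : S.red P = x) {c : K}
    (hc : P.adicValuation (f - algebraMap K F c) < 1) : S.vK c < 1 :=
  H97.Sheets.val_lt_of_zero (S := S) ⟨fun i => (hf i).le, hreg⟩ hf hP hc

/-- **Every place is on one of the two sheets.**  `S.On i P`: for all functions `f` of the semilocal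
ring over `x = S.red P`, the value of the reduction `ρ i f` at the point `S.pt i x` is the residue
of the value of `f` at `P`.  Proof: if `f` contradicts this for the first sheet and `g` for the
second one, subtract from `f` a function of `F₀` with the same first reduction, and from `g ^ q` a
function of `F₀` with the same second reduction (a lift of `σ (ρ true g)`).  The product of the two
differences vanishes on both sheets, but its value at `P` is a unit: contradiction to `value_small`.
Proved in `H97MdB`. -/
theorem dichotomy (P : Place K F) : S.On false P ∨ S.On true P :=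
  S.on_false_or_true P

/-- **Separating functions.**  If `x` is not a node (`GuideReduction.node_iff`), there is for each
sheet `i` a function of the semilocal ring over `x` which vanishes on the sheet `i` and whose
reduction on the other sheet does not vanish at the point over `x`.  (Same subtraction as above.)
Proved in `H97MdC`. -/
theorem separating_function {x : Place k κ} (hx : ¬ S.Node x) (i : Bool) :
    ∃ e, ((∀ j, S.v j e ≤ 1) ∧ ∀ P, S.red P = x → P.adicValuation e ≤ 1) ∧ S.ρ i e = 0 ∧
      (S.pt (!i) x).adicValuation (S.ρ (!i) e) = 1 :=
  S.exists_sep hx i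

/-- **The sheet is unique outside the nodes.**  Proved in `H97MdC`. -/
theorem sheet_unique {x : Place k κ} (hx : ¬ S.Node x) {P : Place K F} (hP : S.red P = x)
    {i : Bool} (h1 : S.On i P) (h2 : S.On (!i) P) : False :=
  S.on_unique hx hP h1 h2

/-- **The specialisation map.**  A place `P` specialises to the node `s` iff it lies over `s`; if
`x` is not a node, `P` specialises to the point over `x` on the sheet `i` iff `P` lies over `x` and
is on the sheet `i`.  Proved in `H97MdC`. -/
theorem specialisation (P : Place K F) :
    (∀ s : {x : Place k κ // S.Node x}, S.sp P = Sum.inr s ↔ S.red P = s.1) ∧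
    ∀ x : Place k κ, ¬ S.Node x → ∀ i,
      (S.sp P = Sum.inl (i, S.pt i x) ↔ S.red P = x ∧ S.On i P) :=
  ⟨fun _ => S.sp_eq_inr, fun _ hx _ => S.sp_eq_inl hx⟩

/-! ### 5. Degrees -/

omit [Fact q.Prime] [CharP k q] in
/-- **The degree over a point of `F₀`**, if `f` is a unit for both valuations: the degree of `div f`
on the places over `x` is the sum of the orders of the two reductions at the two points over `x`.
Proof: `div (N f)` is the push-forward of `div f`; apply the rule of level `F₀` to `N f` and the
second norm formula.  At a node this is already the final statement.  Proved in `H97MdC`. -/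
theorem degree_over_point {f : F} (hf : f ≠ 0) (h : ∀ i, S.v i f = 1) {D : Divisor K F}
    (hD : ∀ P, D P = P.ord f) (x : Place k κ) :
    D.mapDomain S.red x = x.ord (S.ρ false f) + (S.tw x).ord (S.ρ true f) :=
  S.deg_red hf h hD x

/-- **An inequality on each sheet.**  `x` not a node, `f` in the semilocal ring over `x` with
`v i (f) = 1`: the number of zeros of `f` in the class of the sheet `i` is at most the order of the
reduction.  Proof: let `e` be a separating function which vanishes on the sheet `i`, and `E` the
product of `e` and of the powers `(e - e(P)) ^ ord_P f` for the zeros `P` of `f` in the class.  For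
suitable constants `l` the function `f + l E` has at least the zeros of `f` in the class, the same
reduction on the sheet `i`, and a reduction on the other sheet which does not vanish at the other
point over `x`; compare with `degree_over_point`.
Proved in `H97MdD`. -/
theorem degree_le {x : Place k κ} (hx : ¬ S.Node x) (i : Bool) {f : F} (hf : ∀ j, S.v j f ≤ 1)
    (hreg : ∀ P, S.red P = x → P.adicValuation f ≤ 1) (hv : S.v i f = 1) {D : Divisor K F}
    (hD : ∀ P, D P = P.ord f) :
    D.mapDomain S.sp (Sum.inl (i, S.pt i x)) ≤ (S.pt i x).ord (S.ρ i f) :=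
  S.le_ord hx i ⟨hf, hreg⟩ hv hD

/-- **Equality for functions which are units for both valuations**: the two inequalities add up to
the equality `degree_over_point`.  Proved in `H97MdD`. -/
theorem degree_eq_of_units {x : Place k κ} (hx : ¬ S.Node x) (i : Bool) {f : F}
    (hv : ∀ j, S.v j f = 1) (hreg : ∀ P, S.red P = x → P.adicValuation f ≤ 1) {D : Divisor K F}
    (hD : ∀ P, D P = P.ord f) :
    D.mapDomain S.sp (Sum.inl (i, S.pt i x)) = (S.pt i x).ord (S.ρ i f) :=
  S.eq_ord₁ hx i ⟨fun j => (hv j).le, hreg⟩ hv hD

/-- **Equality in the semilocal ring.**  If `f` is small on the other sheet, with the value of the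
constant `c`, multiply it by `g = 1 + e ^ n / c`, where `e` vanishes on the sheet `i` and is a unit
on the other one: for large `n` the product is a unit for both valuations, `g` has reduction `1` on
the sheet `i`, and `g` has no zeros and poles in the class (this uses a second separating function
and the rank one of `vK`).  Proved in `H97MdE`. -/
theorem degree_eq {x : Place k κ} (hx : ¬ S.Node x) (i : Bool) {f : F} (hf : ∀ j, S.v j f ≤ 1)
    (hreg : ∀ P, S.red P = x → P.adicValuation f ≤ 1) (hv : S.v i f = 1) {D : Divisor K F}
    (hD : ∀ P, D P = P.ord f) :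
    D.mapDomain S.sp (Sum.inl (i, S.pt i x)) = (S.pt i x).ord (S.ρ i f) :=
  S.eq_ord₂ hx i ⟨hf, hreg⟩ hv hD

/-- **Poles can be cleared by a function of `F₀`** which is a unit for `v₀` and regular over `x`.
The general case (`GuideReduction.sheets_degrees`) follows: multiply `f` by this function and by a
high power of a function which is a unit at the point on the sheet `i` and small on the other sheet.
Proved in `H97MdE`. -/
theorem clear_poles {x : Place k κ} {f : F} (hf0 : f ≠ 0) :
    ∃ b : F₀, S.v₀ b = 1 ∧ (∀ P, S.r P = x → P.adicValuation b ≤ 1) ∧
      ∀ P, S.red P = x → P.adicValuation (f * S.φ b) ≤ 1 :=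
  S.exists_clear hf0

open Classical in
/-- **The model.**  Its valuations and reductions are those of the sheets, the branches of the node
`s` are the two points over `s`, and the specialisation map is `S.sp`.  The rules
`GuideReduction.model_rules` are `sheets_degrees` and the definition of a node.
Defined in `H97MdE`. -/
theorem model_data : S.model.v = S.v ∧ S.model.ρ = S.ρ ∧ S.model.sp = S.sp ∧
    ∀ s : {x : Place k κ // S.Node x}, S.model.br s = {(false, s.1), (true, S.tw s.1)} :=
  ⟨rfl, rfl, rfl, fun _ => rfl⟩

end Sheets

/-! ### 6. The data for `X_0(mq)` -/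

/-- **Coefficients from values.**  `O` is a subring of a field `E`, `P` a polynomial over `E` of
degree `< n` whose values at `n` elements of `O` with unit differences are in `O`.  Then `P` has
coefficients in `O` (interpolation).  Proved in `H97MdG`. -/
theorem coefficient_of_values {E : Type*} [Field E] (O : Subring E) {n : ℕ} {P : E[X]}
    (hP : P.degree < n) (c : Fin n → E) (hc : ∀ i, c i ∈ O)
    (hd : ∀ i j, i ≠ j → (c i - c j)⁻¹ ∈ O) (hcd : Function.Injective c)
    (h : ∀ i, P.eval (c i) ∈ O) (m : ℕ) : P.coeff m ∈ O :=
  H97.coeff_mem_of_eval O hP c hc hd hcd h m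

section Relations

variable {K F₀ F Γ : Type*} [Field K] [Field F₀] [Field F] [Algebra K F₀] [Algebra K F]
  [LinearOrderedCommGroupWithZero Γ] [IsAlgClosed K] [CharZero K] [H3RR.IsFF K F₀]
  [H3RR.IsFF K F] [H94.FunField K F₀] [H94.FunField K F]

/-- **Norms of regular functions are regular**: if `f` is regular at all places above `P'`, its norm
is regular at `P'`.  Proved in `H97MdG`. -/
theorem norm_regular (φ : F₀ →ₐ[K] F) {P' : Place K F₀} {f : F}
    (h : ∀ P : Place K F, (∀ b : F₀, b ∈ P'.toValuationSubring ↔ φ b ∈ P.toValuationSubring) →
      f ∈ P.toValuationSubring) : H60.normAlong φ f ∈ P'.toValuationSubring :=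
  H97.norm_mem φ h

/-- **Integral equations from norms.**  `v₀` a valuation of `F₀`, `v false`, `v true` valuations of
`F`, with the same restriction `vK` to the constants, such that the norm of a function which is
integral for both `v i` is integral for `v₀`.  Then every such `f` satisfies a monic equation over
`F₀` with coefficients integral for `v₀` and regular at all places `P'` such that `f` is regular
above `P'`.  Proof: the characteristic polynomial of `f` has the values `N(c - f)` at constants `c`;
`coefficient_of_values` with constants with unit differences.  Proved in `H97MdG`; for `X_0(mq)` the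
hypothesis on norms is the formula `GuideReduction.norm_value`. -/
theorem integral_relation (φ : F₀ →ₐ[K] F) {vK : Valuation K Γ} {v₀ : Valuation F₀ Γ}
    (hv₀ : ∀ c : K, v₀ (algebraMap K F₀ c) = vK c) {v : Bool → Valuation F Γ}
    (hv : ∀ i (c : K), v i (algebraMap K F c) = vK c)
    (hN : ∀ f, (∀ i, v i f ≤ 1) → v₀ (H60.normAlong φ f) ≤ 1)
    (hc : ∀ n : ℕ, ∃ c : Fin n → K, (∀ i, vK (c i) ≤ 1) ∧ ∀ i j, i ≠ j → vK (c i - c j) = 1)
    (f : F) (hf : ∀ i, v i f ≤ 1) : ∃ (n : ℕ) (a : ℕ → F₀), (∀ i, v₀ (a i) ≤ 1) ∧
      f ^ n = ∑ i ∈ Finset.range n, φ (a i) * f ^ i ∧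
      ∀ P' : Place K F₀, (∀ P : Place K F, (∀ b : F₀, b ∈ P'.toValuationSubring ↔
        φ b ∈ P.toValuationSubring) → f ∈ P.toValuationSubring) →
          ∀ i, a i ∈ P'.toValuationSubring :=
  H97.rel_of_norm φ hv₀ hv hN hc f hf

end Relations

/-- **Lifting at a good level.**  `R` is a reduction of the function field `F/K` to `E/k` (a
reduction datum as in `GuideDeuring`) and `r` a surjective reduction of places such that for
divisors `D` of large degree `r D` has the same degree and the reduction of `L(D)` is `L(r D)`.
Then every function `e` on the special fibre which is regular at `x` is the reduction of an integral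
function which is regular at all places over `x`.
Proof: lift the pole divisor of `e` by choosing one place over every pole, and enlarge it by a
multiple of one place not over `x`.  Proved in `H97MdK`. -/
theorem lift_regular {K F k E : Type*} [Field K] [Field F] [Algebra K F] [Field k] [Field E]
    [Algebra k E] [IsAlgClosed K] [CharZero K] [H3RR.IsFF K F] [IsAlgClosed k] [H3RR.IsFF k E]
    (R : H40.ReductionData K F k E) {r : Place K F → Place k E} (hsurj : Function.Surjective r)
    {c : ℕ}
    (h : ∀ D : Divisor K F, (c : ℤ) < Divisor.degree D →
      Divisor.degree (Finsupp.mapDomain r D : Divisor k E) = Divisor.degree D ∧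
        R.red (riemannRochSpace D) = riemannRochSpace (Finsupp.mapDomain r D))
    (hdF : ∀ v : Place K F, v.deg = 1) (x : Place k E) (e : E) (he : x.adicValuation e ≤ 1) :
    ∃ b : R.B, R.ρ b = e ∧ ∀ P, r P = x → P.adicValuation (b : F) ≤ 1 :=
  H97.lift_of_isRed R hsurj h hdF x e he

/-- **The two descriptions of the good reduction of level `m` agree**: the valuation `H97.v0` (from
the Gauss valuation ring) has as its ring the ring `B` of the reduction `H42.modReductionData` of
`GuideReduction.exists_orthonormal_basis`, with the same reduction map.  This connects the theorems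
on Riemann-Roch spaces with the ones on valuations.  (`w : H99.AL L m q` is an Atkin-Lehner
involution, `GuideReduction.exists_atkinLehner`; for `hD`, `hdeg` see
`GuideReduction.degree_hypotheses`.)  Proved in `H97MdK`. -/
theorem good_level_valuation {L : Type*} [Field L] [Algebra ℚ L] (A : ValuationSubring L)
    {k : Type*} [Field k] (π : A →+* k) {m q : ℕ} [NeZero m] [NeZero q] [Fact q.Prime] [CharP k q]
    [IsAlgClosed k] [Infinite k] (w : H99.AL L m q) (hπ : Function.Surjective π)
    (hD : H67.DegreeFact L) (hdeg : H42.DegLE L k m) (hqm : ¬ q ∣ m) [IsLocalHom π] :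
    (∀ f : FX L m, H97.v0 A π w hπ hD hdeg hqm f ≤ 1 →
      ∃ h : f ∈ (H42.modReductionData A π m hπ hdeg).B,
        (H42.modReductionData A π m hπ hdeg).ρ ⟨f, h⟩ =
          (H97.comp0 A π w hπ hD hdeg hqm).red f) ∧
    ∀ b : (H42.modReductionData A π m hπ hdeg).B,
      H97.v0 A π w hπ hD hdeg hqm (b : FX L m) ≤ 1 :=
  ⟨fun _ hf => H97.mem_R_of_v0 A π w hπ hD hdeg hqm hf, H97.v0_le_of_mem_R A π w hπ hD hdeg hqm⟩

end Fermat.Agent.Guide.TwoSheets

end
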