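import Fermat.Agent.H33Final

/-!
# Cases D and C: good reduction (helper33)
-/

set_option autoImplicit false

open ModularCurve AlgebraicCurve

namespace Fermat.Agent.H33

local notation "Qb" => AlgebraicClosure ℚ
local notation "Gq" => AlgebraicClosure ℚ ≃ₐ[ℚ] AlgebraicClosure ℚ

section Main

variable {p : ℕ} [Fact p.Prime] [NeZero p] {M : ℕ} [NeZero M]

/-- Kummer functions and the Hecke operator `T_p`. -/
theorem isKum_hecke (hpM : ¬ p ∣ M) {ζ : Qbˣ} (hζ : IsPrimitiveRoot ζ p) {n : ℕ} {x : JZero M}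
    {f : H99.FX Qb M} (hf : IsKum n x f) :
    ∃ g : H99.FX Qb M, IsKum n (heckeOperatorAlong Qb M p x) g ∧
      (g : LaurentSeries Qb) =
        qExpand Qb p (f : LaurentSeries Qb) * normOp p ζ (f : LaurentSeries Qb) := by
  have hH := H42.heckeData M p Fact.out hpM
  obtain ⟨hα, hβ, hPD, hfin, hFI, hNF⟩ := hH.inputs
  refine ⟨_, ?_, coe_heckeNorm hpM hζ f⟩
  rw [heckeOperatorAlong_eq hα hβ hFI hfin hNF]
  exact hf.correspondence _ _ hβ hα hFI hfin hNF

variable {A : ValuationSubring Qb}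

theorem mem_fieldE_of_fixed {H' : Subgroup Gq} {f : H99.FX Qb M}
    (h : ∀ σ ∈ H', coeffMap (σ : Qb →+* Qb) (f : LaurentSeries Qb) = f) :
    (f : LaurentSeries Qb) ∈ fieldE (fixL A H') M := by
  rw [mem_fieldE_iff]
  refine ⟨?_, fun n => ?_⟩
  · rw [← H99.FX_eq]
    exact f.2
  · rw [mem_fixL]
    intro σ _ hσ
    have := congrArg (fun z : LaurentSeries Qb => z.coeff n) (h σ hσ)
    exact this

/-- The reductions condition in terms of the discretely valued field. -/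
theorem close_one_of_red {k : Type*} [Field k] [IsAlgClosed k] [CharP k p] {π : A →+* k}
    {ζA : Aˣ} (hζ' : IsPrimitiveRoot (Units.map (A.subtype : A →* Qb) ζA) p)
    (hζ1 : Units.map (π : A →* k) ζA = 1) (hπ : Function.Surjective π)
    (D : DiscCtx (locCtx (π := π) hζ' hζ1)) {ϖ : Qb} (hϖ : D.ϖ = cst ϖ) {f : LaurentSeries Qb}
    (hf : f ∈ D.E) {ω : LaurentSeries k} (hred : Red A π f (ω ^ p)) : D.Close 1 f := by
  have hp : p.Prime := Fact.out
  obtain ⟨a, ha, ha0⟩ := D.discr f hf hred.ne_zero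
  have hϖ0 : ϖ ≠ 0 := by
    rintro rfl
    exact D.ϖ_ne (by rw [hϖ]; exact map_zero _)
  have h1 : Red A π (D.ϖ ^ a * f) (ω ^ p) := by
    rw [hϖ, ← cst_zpow]
    exact hred.const_mul (zpow_ne_zero a hϖ0)
  have h2 : Red A π (D.ϖ ^ a * f) ((locCtx (π := π) hζ' hζ1).res (D.ϖ ^ a * f)) :=
    Red.of_mem ha ((locCtx (π := π) hζ' hζ1).res_eq ha).symm ha0
  obtain ⟨c, hc, hcs⟩ := h1.unique hπ h2
  obtain ⟨d, hd⟩ := IsAlgClosed.exists_pow_nat_eq c hp.pos
  refine D.close_one_of_res hf a ha ha0 (algebraMap k (LaurentSeries k) d * ω) ?_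
  rw [hcs, mul_pow, ← map_pow, hd]

/-- **Case D.** -/
theorem case_D (hp2 : 2 < p) (hA : A.LiesOverPrime p) (F : InertiaFacts p A) (hpM : ¬ p ∣ M)
    (hCL : CLp p M A) {W : Type*} [Finite W] (T : W ≃ W) (x : W → JZero M)
    (hT : ∀ w, heckeOperatorAlong Qb M p (x w) = x (T w)) (hpx : ∀ w, p • x w = 0)
    (hred : ∀ w, ∀ f : H99.FX Qb M, IsKum p (x w) f →
      ∃ ω, Red A (IsLocalRing.residue A) (f : LaurentSeries Qb) (ω ^ p))
    {ζ : Qb} (hζ : IsPrimitiveRoot ζ p) {σ : Gq} (hσ : σ ∈ A.inertiaSubgroupIn ℚ) {a : ℕ}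
    (hσζ : σ ζ = ζ ^ a) (w : W) : σ • x w = a • x w := by
  classical
  have hp : p.Prime := Fact.out
  obtain ⟨ζA, hζA, hζ', hζ1⟩ := exists_unit_of_root hA hζ
  have : CharP (IsLocalRing.ResidueField A) p := H60.charP_residue hp hA
  have : IsAlgClosed (IsLocalRing.ResidueField A) := H18.isAlgClosed_residueField A
  have hFX : H94.FunField Qb (H99.FX Qb M) := funFieldFX M
  have hπ := IsLocalRing.residue_surjective (R := A)
  -- Kummer functions
  choose G hG using fun w => IsKum.exists_of_nsmul (hpx w)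
  choose T' hT' hT'q using fun w => isKum_hecke hpM hζ' (hG w)
  have hTG : ∀ w, IsKum p (x (T w)) (T' w) := fun w => by rw [← hT w]; exact hT' w
  choose H hH0 hH using fun w => (hTG w).unique hp.ne_zero (hG (T w))
  have hrel : ∀ w, qExpand Qb p (G w : LaurentSeries Qb) *
      normOp p (Units.map (A.subtype : A →* Qb) ζA) (G w : LaurentSeries Qb) =
      1 * (G (T w) : LaurentSeries Qb) * (H w : LaurentSeries Qb) ^ p := by
    intro w
    rw [← hT'q w, hH w, one_mul]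
    rfl
  -- the field of definition
  have hopen : H31.Openly (fun σ : Gq => (∀ w, coeffMap (σ : Qb →+* Qb) (G w : LaurentSeries Qb) = G w)
      ∧ (∀ w, coeffMap (σ : Qb →+* Qb) (H w : LaurentSeries Qb) = H w) ∧ σ ζ = ζ) := by
    have : Algebra.IsAlgebraic ℚ Qb := AlgebraicClosure.isAlgebraic ℚ
    exact (H31.openly_forall_finite _ fun w => H31.openly_coeffMap (G w).2).and
      ((H31.openly_forall_finite _ fun w => H31.openly_coeffMap (H w).2).and (H31.openly_fix ζ))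
  obtain ⟨K', hK', hfix⟩ := hopen
  set H' := K'.fixingSubgroup with hH'
  have hfixG : ∀ σ ∈ H', _ := fun σ hσ => hfix σ (fun a ha => (IntermediateField.mem_fixingSubgroup_iff K' σ).mp hσ a ha)
  have hfin : H'.FiniteIndex := by
    have : Algebra.IsAlgebraic ℚ Qb := AlgebraicClosure.isAlgebraic ℚ
    have : IsAlgClosure ℚ Qb := ⟨inferInstance, inferInstance⟩
    have : Normal ℚ Qb := IsAlgClosure.normal ℚ Qb
    have : IsGalois ℚ Qb := ⟨⟩
    have h1 := IntermediateField.finrank_eq_fixingSubgroup_index (F := ℚ) Qb K'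
    refine ⟨?_⟩
    rw [← h1]
    exact Module.finrank_pos.ne'
  obtain ⟨ϖ, D⟩ := exists_discFld F hA hp (H' := H')
  obtain ⟨hlA, hl0⟩ := sub_one_mem hA hζ
  have hζL : ζ ∈ fixL A H' := mem_fixL.mpr fun σ _ hσ => (hfixG σ hσ).2.2
  obtain ⟨e₀, he₀, ⟨ε, hε, hpε⟩, η, hη, hϖe⟩ := D.exists_e0 hπ hp hζ hlA hl0 hζL
  set DC := discCtx (M := M) hp2 hpM hζ' hζ1 hπ D (by rw [hζA]; exact hζL) e₀ he₀ ε hε hpε with hDC
  have hGE : ∀ w, (G w : LaurentSeries Qb) ∈ DC.E := fun w =>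
    mem_fieldE_of_fixed fun σ hσ => (hfixG σ hσ).1 w
  have hHE : ∀ w, (H w : LaurentSeries Qb) ∈ DC.E := fun w =>
    mem_fieldE_of_fixed fun σ hσ => (hfixG σ hσ).2.1 w
  have hclose := DC.close_all T (fun w => (G w : LaurentSeries Qb))
    (fun w => (H w : LaurentSeries Qb)) (fun _ => 1) hGE hHE
    (fun w h => hH0 w (Subtype.ext h)) (fun _ => one_mem _) (fun _ => one_ne_zero) hrel
    (fun w => by
      obtain ⟨ω, hω⟩ := hred w _ (hG w)
      exact close_one_of_red hζ' hζ1 hπ DC (ϖ := ϖ) rfl (hGE w) hω)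
    (p * e₀) (Nat.mul_pos hp.pos he₀) le_rfl w
  obtain ⟨U, hU, hU0, c, ⟨c', hc'L, rfl⟩, hc0, u, hu, heq⟩ := hclose
  have hUF : U ∈ H99.FX Qb M := by
    rw [H99.FX_eq]
    exact fieldE_le hU
  have hc'0 : c' ≠ 0 := fun h => hc0 (by rw [h]; exact map_zero _)
  -- `ϖ^(p e₀) = η^p λ^p`
  have hηV : cst (η ^ p) * u ∈ valRing A (IsLocalRing.residue A) :=
    mul_mem (cst_mem (pow_mem hη p)) hu
  refine smul_eq_of_close hA hCL hζ hσ hσζ (hG w) (U := ⟨U, hUF⟩)
    (fun h => hU0 (congrArg Subtype.val h)) hc'0 hηV ?_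
  have h1 : DC.ϖ ^ (p * e₀) = cst ((ζ - 1) ^ p) * cst (η ^ p) := by
    show (cst ϖ : LaurentSeries Qb) ^ (p * e₀) = _
    rw [← cst_pow, ← cst_mul, mul_comm p, pow_mul, hϖe, mul_pow, mul_comm]
  rw [← mul_assoc, ← h1]
  exact heq

end Main

end Fermat.Agent.H33
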