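import Fermat.Agent.H33CaseN
import Fermat.Agent.H33CaseD
import Fermat.Agent.H35S35

/-!
# The reduction filtration `Δ` on the Tate module of `J₀(N)` (helper67)

`A` a place of `ℚ̄` above `p` (any prime, `2` included), `k` its residue field.

* `InDl A n x` (`x ∈ J₀(N)`) : some (equivalently every) Kummer function of level `p^n` of `x`
  has Gauss reduction a `p^n`-th power up to constants;
* `Delta A N : Submodule ℤ_[p] (TateMod p (JZero N))` : all components in `InDl`.
-/

set_option autoImplicit false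
set_option linter.unusedSectionVars false
set_option linter.style.haveILetI false

noncomputable section

open ModularCurve AlgebraicCurve Fermat.Agent.H33 Fermat.Agent.H30 Fermat.Agent.H31

namespace Fermat.Agent.H67.Dl

local notation "Qb" => AlgebraicClosure ℚ
local notation "Gq" => AlgebraicClosure ℚ ≃ₐ[ℚ] AlgebraicClosure ℚ

section Red

variable {K : Type*} [Field K] {A : ValuationSubring K} {k : Type*} [Field k] {π : A →+* k}
  {f g : LaurentSeries K} {r s : LaurentSeries k}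

/-- semilinear automorphisms and reductions -/
theorem map_mem_valRing' {τ : K →+* K} {τk : k →+* k} (hτ : ∀ a ∈ A, τ a ∈ A)
    (hτπ : ∀ (a : A), π ⟨τ a, hτ a a.2⟩ = τk (π a)) {f : LaurentSeries K} (hf : f ∈ valRing A π) :
    ∃ h : coeffMap τ f ∈ valRing A π,
      valRes A π ⟨_, h⟩ = coeffMap τk (valRes A π ⟨f, hf⟩) := by
  let τA : A →+* A := (τ.comp A.subtype).codRestrict A.toSubring (fun a => hτ a a.2)
  have h1 : ∀ g : LaurentSeries A, coeffMap τ (H33.incl A g) = H33.incl A (coeffMap τA g) := by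
    intro g
    rw [H33.incl, coeffMap_coeffMap, coeffMap_coeffMap]
    rfl
  have h2 : ∀ g : LaurentSeries A, coeffMap π (coeffMap τA g) = coeffMap τk (coeffMap π g) := by
    intro g
    rw [coeffMap_coeffMap, coeffMap_coeffMap]
    refine coeffMap_congr (RingHom.ext fun a => ?_) g
    exact hτπ a
  have h3 := map_mem (A := A) (π := π) (Φ := ((coeffMap τ : LaurentSeries K →+* LaurentSeries K) :
    LaurentSeries K →* LaurentSeries K)) (ΦA := coeffMap τA)
    (Φk := ((coeffMap τk : LaurentSeries k →+* LaurentSeries k) :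
      LaurentSeries k →* LaurentSeries k)) h1 h2
    (fun x hx => (map_ne_zero (coeffMap τk)).mpr hx) hf
  refine ⟨h3, ?_⟩
  exact valRes_map (A := A) (π := π) (Φ := ((coeffMap τ : LaurentSeries K →+* LaurentSeries K) :
    LaurentSeries K →* LaurentSeries K)) (ΦA := coeffMap τA)
    (Φk := ((coeffMap τk : LaurentSeries k →+* LaurentSeries k) :
      LaurentSeries k →* LaurentSeries k)) h1 h2
    (fun x hx => (map_ne_zero (coeffMap τk)).mpr hx) hf h3

theorem red_map {τ : K →+* K} {τk : k →+* k} (hτ : ∀ a ∈ A, τ a ∈ A)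
    (hτπ : ∀ (a : A), π ⟨τ a, hτ a a.2⟩ = τk (π a)) (hf : Red A π f r) :
    Red A π (coeffMap τ f) (coeffMap τk r) := by
  obtain ⟨hr, c, hc0, hc, rfl⟩ := hf
  obtain ⟨h, hres⟩ := map_mem_valRing' hτ hτπ hc
  have he : coeffMap τ (cst c * f) = cst (τ c) * coeffMap τ f := by
    rw [map_mul, coeffMap_algebraMap]
  have hm : cst (τ c) * coeffMap τ f ∈ valRing A π := by rw [← he]; exact h
  refine ⟨(map_ne_zero (coeffMap τk)).mpr hr, τ c, (map_ne_zero τ).mpr hc0, hm, ?_⟩
  rw [← hres]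
  congr 1
  exact Subtype.ext he.symm

variable {p : ℕ} [Fact p.Prime] [NeZero p]

theorem red_qExpand (hf : Red A π f r) : Red A π (qExpand K p f) (qExpand k p r) := by
  obtain ⟨hr, c, hc0, hc, rfl⟩ := hf
  have h1 : ∀ g : LaurentSeries A, ((qExpand K p : LaurentSeries K →+* LaurentSeries K) :
      LaurentSeries K →* LaurentSeries K) (H33.incl A g) = H33.incl A (qExpand A p g) :=
    fun g => (H60.coeffMap_qExpand_H60 _ _ _).symm
  have h2 : ∀ g : LaurentSeries A, coeffMap π (qExpand A p g) =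
      ((qExpand k p : LaurentSeries k →+* LaurentSeries k) :
      LaurentSeries k →* LaurentSeries k) (coeffMap π g) :=
    fun g => H60.coeffMap_qExpand_H60 _ _ _
  have hne : ∀ x : LaurentSeries k, x ≠ 0 → ((qExpand k p : LaurentSeries k →+* LaurentSeries k) :
      LaurentSeries k →* LaurentSeries k) x ≠ 0 := fun x hx => (map_ne_zero (qExpand k p)).mpr hx
  have h3 := map_mem (A := A) (π := π) h1 h2 hne hc
  have h4 := valRes_map (A := A) (π := π) h1 h2 hne hc h3
  have he : qExpand K p (cst c * f) = cst c * qExpand K p f := by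
    rw [map_mul]
    congr 1
    exact qExpand_algebraMap p c
  have hm : cst c * qExpand K p f ∈ valRing A π := by rw [← he]; exact h3
  refine ⟨hne _ hr, c, hc0, hm, ?_⟩
  refine Eq.trans ?_ h4
  congr 1
  exact Subtype.ext he.symm

theorem normOp_cst {ζ : Kˣ} (hζ : IsPrimitiveRoot ζ p) (c : K) :
    normOp p ζ (cst c) = cst (c ^ p) := by
  apply qExpand_injective p
  rw [qExpand_normOp p hζ, prodTwist]
  simp only [twist_cst, Finset.prod_const, Finset.card_range]
  rw [← cst_pow]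
  exact (qExpand_algebraMap p (c ^ p)).symm

variable [CharP k p]

theorem red_normOp {ζ : Aˣ} (hζ : IsPrimitiveRoot (Units.map (A.subtype : A →* K) ζ) p)
    (hζ1 : Units.map (π : A →* k) ζ = 1) (hf : Red A π f r) :
    Red A π (normOp p (Units.map (A.subtype : A →* K) ζ) f) (coeffMap (frobenius k p) r) := by
  obtain ⟨hr, c, hc0, hc, rfl⟩ := hf
  have hne : ∀ x : LaurentSeries k, x ≠ 0 →
      ((coeffMap (frobenius k p) : LaurentSeries k →+* LaurentSeries k) :
      LaurentSeries k →* LaurentSeries k) x ≠ 0 :=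
    fun x hx => (map_ne_zero (coeffMap (frobenius k p))).mpr hx
  have h3 := map_mem (A := A) (π := π) (normHom_incl hζ) (coeffMap_normOp_res π hζ1) hne hc
  have h4 := valRes_map (A := A) (π := π) (normHom_incl hζ) (coeffMap_normOp_res π hζ1) hne hc h3
  have he : normHom hζ (cst c * f) = cst (c ^ p) *
      normOp p (Units.map (A.subtype : A →* K) ζ) f := by
    rw [map_mul]
    congr 1
    exact normOp_cst hζ c
  have hm : cst (c ^ p) * normOp p (Units.map (A.subtype : A →* K) ζ) f ∈ valRing A π := by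
    rw [← he]; exact h3
  refine ⟨hne _ hr, c ^ p, pow_ne_zero p hc0, hm, ?_⟩
  refine Eq.trans ?_ h4
  congr 1
  exact Subtype.ext he.symm

end Red

section PowRed

variable {p : ℕ} [Fact p.Prime] [NeZero p] {A : ValuationSubring Qb}

/-- the reduction of `f` is an `m`-th power (up to constants) -/
def PowRed (A : ValuationSubring Qb) (m : ℕ) (f : LaurentSeries Qb) : Prop :=
  ∃ ω, Red A (IsLocalRing.residue A) f (ω ^ m)

variable {m : ℕ} {f g : LaurentSeries Qb}

theorem PowRed.ne_zero (h : PowRed A m f) : f ≠ 0 := h.choose_spec.ne_zero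

theorem PowRed.mul (hf : PowRed A m f) (hg : PowRed A m g) : PowRed A m (f * g) := by
  obtain ⟨ω, hω⟩ := hf
  obtain ⟨η, hη⟩ := hg
  exact ⟨ω * η, by rw [mul_pow]; exact hω.mul hη⟩

theorem PowRed.inv (hf : PowRed A m f) : PowRed A m f⁻¹ := by
  obtain ⟨ω, hω⟩ := hf
  exact ⟨ω⁻¹, by rw [inv_pow]; exact hω.inv⟩

theorem PowRed.div (hf : PowRed A m f) (hg : PowRed A m g) : PowRed A m (f / g) := by
  rw [div_eq_mul_inv]; exact hf.mul hg.inv

theorem PowRed.one : PowRed A m 1 := ⟨1, by rw [one_pow]; exact red_one⟩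

theorem PowRed.of_dvd {m' : ℕ} (h : m' ∣ m) (hf : PowRed A m f) : PowRed A m' f := by
  obtain ⟨d, rfl⟩ := h
  obtain ⟨ω, hω⟩ := hf
  exact ⟨ω ^ d, by rw [← pow_mul, mul_comm d]; exact hω⟩

theorem exists_red_FX {N : ℕ} {f : H99.FX Qb N} (hf : f ≠ 0) :
    ∃ r, Red A (IsLocalRing.residue A) (f : LaurentSeries Qb) r := by
  have h1 : (f : LaurentSeries Qb) ∈ modularFunctionFieldFullC Qb N := by
    rw [← H99.FX_eq]
    exact f.2
  exact exists_red IsLocalRing.residue_surjective N h1 (fun h => hf (Subtype.ext h))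

theorem PowRed.pow_self {N : ℕ} {h : H99.FX Qb N} (hh : h ≠ 0) :
    PowRed A m ((h : LaurentSeries Qb) ^ m) := by
  obtain ⟨r, hr⟩ := exists_red_FX (A := A) hh
  exact ⟨r, hr.pow m⟩

/-- if one reduction is an `m`-th power so are all. -/
theorem PowRed.of_red (hm : m ≠ 0) {r ω : LaurentSeries
    (IsLocalRing.ResidueField A)} (hr : Red A (IsLocalRing.residue A) f r)
    (h : Red A (IsLocalRing.residue A) f (ω ^ m)) : ∃ η, r = η ^ m := by
  have : IsAlgClosed (IsLocalRing.ResidueField A) := H18.isAlgClosed_residueField A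
  obtain ⟨c, hc, hcs⟩ := h.unique IsLocalRing.residue_surjective hr
  obtain ⟨d, hd⟩ := IsAlgClosed.exists_pow_nat_eq c (Nat.pos_of_ne_zero hm)
  refine ⟨algebraMap _ _ d * ω, ?_⟩
  rw [hcs, mul_pow, ← map_pow, hd]

end PowRed

section InDl

variable {p : ℕ} [Fact p.Prime] [NeZero p] {N : ℕ} [NeZero N] {A : ValuationSubring Qb}

/-- some Kummer function of level `p ^ n` of `x` has reduction a `p ^ n`-th power. -/
def InDl (p : ℕ) (A : ValuationSubring Qb) (n : ℕ) {N : ℕ} [NeZero N] (x : JZero N) : Prop :=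
  ∃ f : H99.FX Qb N, IsKum (p ^ n) x f ∧ PowRed A (p ^ n) (f : LaurentSeries Qb)

variable {n : ℕ} {x y : JZero N}

theorem InDl.pow_smul (h : InDl p A n x) : p ^ n • x = 0 := by
  obtain ⟨f, hf, -⟩ := h
  exact hf.nsmul_eq_zero

theorem InDl.forall_kum (h : InDl p A n x) {f : H99.FX Qb N} (hf : IsKum (p ^ n) x f) :
    PowRed A (p ^ n) (f : LaurentSeries Qb) := by
  have hFX : H94.FunField Qb (H99.FX Qb N) := funFieldFX N
  obtain ⟨g, hg, hgr⟩ := h
  obtain ⟨h, hh0, rfl⟩ := hf.unique (pow_ne_zero n (NeZero.ne p)) hg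
  exact hgr.mul (PowRed.pow_self hh0)

theorem InDl.of_forall (hx : p ^ n • x = 0) (h : ∀ f : H99.FX Qb N, IsKum (p ^ n) x f →
    PowRed A (p ^ n) (f : LaurentSeries Qb)) : InDl p A n x := by
  obtain ⟨f, hf⟩ := IsKum.exists_of_nsmul hx
  exact ⟨f, hf, h f hf⟩

theorem InDl.zero : InDl p A n (0 : JZero N) := ⟨1, IsKum.one Qb, PowRed.one⟩

theorem InDl.add (hx : InDl p A n x) (hy : InDl p A n y) : InDl p A n (x + y) := by
  obtain ⟨f, hf, hfr⟩ := hx
  obtain ⟨g, hg, hgr⟩ := hy
  exact ⟨f * g, hf.mul hg, hfr.mul hgr⟩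

theorem InDl.neg (hx : InDl p A n x) : InDl p A n (-x) := by
  obtain ⟨f, hf, hfr⟩ := hx
  exact ⟨f⁻¹, hf.inv, hfr.inv⟩

theorem InDl.sub (hx : InDl p A n x) (hy : InDl p A n y) : InDl p A n (x - y) := by
  rw [sub_eq_add_neg]; exact hx.add hy.neg

theorem InDl.nsmul (hx : InDl p A n x) (a : ℕ) : InDl p A n (a • x) := by
  induction a with
  | zero => rw [zero_nsmul]; exact InDl.zero
  | succ a ih => rw [succ_nsmul]; exact ih.add hx

/-- change of level -/
theorem InDl.level (hx : InDl p A (n + 1) x) : InDl p A n (p • x) := by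
  obtain ⟨f, hf, hfr⟩ := hx
  rw [pow_succ] at hf hfr
  exact ⟨f, hf.level, hfr.of_dvd (Dvd.intro _ rfl)⟩

/-- saturation -/
theorem InDl.of_nsmul (hA : A.LiesOverPrime p) (hx : p ^ (n + 1) • x = 0)
    (h : InDl p A (n + 1) (p • x)) : InDl p A n (p • x) := by
  have hp : p.Prime := Fact.out
  have : IsAlgClosed (IsLocalRing.ResidueField A) := H18.isAlgClosed_residueField A
  have hk : CharP (IsLocalRing.ResidueField A) p := H60.charP_residue hp hA
  have : CharP (LaurentSeries (IsLocalRing.ResidueField A)) p :=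
    charP_of_injective_algebraMap (algebraMap (IsLocalRing.ResidueField A)
      (LaurentSeries (IsLocalRing.ResidueField A))).injective p
  obtain ⟨f, hf⟩ := IsKum.exists_of_nsmul hx
  have h1 := h.forall_kum (hf.pow p)
  obtain ⟨ω, hω⟩ := h1
  obtain ⟨r, hr⟩ := exists_red_FX (A := A) hf.ne_zero
  obtain ⟨η, hη⟩ := PowRed.of_red (pow_ne_zero (n + 1) hp.ne_zero) (hr.pow p) hω
  have h2 : r = η ^ p ^ n := by
    rw [pow_succ, pow_mul] at hη
    have h3 : (r - η ^ p ^ n) ^ p = 0 := by rw [sub_pow_char, hη, sub_self]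
    exact sub_eq_zero.mp (pow_eq_zero_iff hp.ne_zero |>.mp h3)
  rw [pow_succ] at hf
  exact ⟨f, hf.level, η, by rw [← h2]; exact hr⟩

/-- `σ x - x ∈ Dl` for `σ` in inertia -/
theorem InDl.inertia (hx : p ^ n • x = 0) {σ : Gq} (hσ : σ ∈ A.inertiaSubgroupIn ℚ) :
    InDl p A n (σ • x - x) := by
  obtain ⟨f, hf⟩ := IsKum.exists_of_nsmul hx
  obtain ⟨r, hr⟩ := exists_red_FX (A := A) hf.ne_zero
  refine ⟨arithmeticGalois (modularFunctionFieldFull N) σ • f / f,
    (hf.smul (arithmeticGalois (modularFunctionFieldFull N) σ)).div hf, 1, ?_⟩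
  rw [one_pow, ← div_self hr.res_ne]
  exact (hr.map (τ := (σ : Qb →+* Qb)) (fun a ha => inertia_mem hσ ha)
    (inertia_res hσ)).div hr

theorem dec_mem {σ : Gq} (hσ : σ ∈ A.decompositionSubgroup ℚ) {a : Qb} (ha : a ∈ A) :
    σ a ∈ A := by
  have h1 : (⟨σ, hσ⟩ : A.decompositionSubgroup ℚ) • (⟨a, ha⟩ : A) ∈ (⊤ : Set A) := trivial
  exact ((⟨σ, hσ⟩ : A.decompositionSubgroup ℚ) • (⟨a, ha⟩ : A)).2

/-- the action of a decomposition element on the residue field -/
def resAut {σ : Gq} (hσ : σ ∈ A.decompositionSubgroup ℚ) :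
    IsLocalRing.ResidueField A →+* IsLocalRing.ResidueField A :=
  MulSemiringAction.toRingHom (A.decompositionSubgroup ℚ) (IsLocalRing.ResidueField A) ⟨σ, hσ⟩

theorem residue_dec {σ : Gq} (hσ : σ ∈ A.decompositionSubgroup ℚ) (a : A) :
    IsLocalRing.residue A ⟨(σ : Qb →+* Qb) a, dec_mem hσ a.2⟩ =
      resAut hσ (IsLocalRing.residue A a) := rfl

theorem InDl.smul_dec {σ : Gq} (hσ : σ ∈ A.decompositionSubgroup ℚ) (hx : InDl p A n x) :
    InDl p A n (σ • x) := by
  obtain ⟨f, hf, ω, hω⟩ := hx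
  refine ⟨arithmeticGalois (modularFunctionFieldFull N) σ • f,
    hf.smul (arithmeticGalois (modularFunctionFieldFull N) σ), coeffMap (resAut hσ) ω, ?_⟩
  rw [← map_pow]
  exact red_map (fun a ha => dec_mem hσ ha) (residue_dec hσ) hω

end InDl

section Rel

variable {p : ℕ} [Fact p.Prime] [NeZero p] {M : ℕ} [NeZero M] {A : ValuationSubring Qb} {n : ℕ}

theorem residue_frob {σ : Gq} (hσ : A.IsFrobeniusAt σ p) (hk : CharP (IsLocalRing.ResidueField A) p)
    (a : A) : IsLocalRing.residue A ⟨(σ : Qb →+* Qb) a,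
      dec_mem hσ.mem_decompositionSubgroup a.2⟩ =
      frobenius (IsLocalRing.ResidueField A) p (IsLocalRing.residue A a) := by
  obtain ⟨h1, h2⟩ := hσ
  rw [residue_dec h1, frobenius_def]
  exact h2 _

/-- Kummer functions of `φ x` -/
theorem red_frob {σ : Gq} (hσ : A.IsFrobeniusAt σ p) (hk : CharP (IsLocalRing.ResidueField A) p)
    {f : LaurentSeries Qb} {r : LaurentSeries (IsLocalRing.ResidueField A)}
    (hr : Red A (IsLocalRing.residue A) f r) :
    Red A (IsLocalRing.residue A) (coeffMap (σ : Qb →+* Qb) f)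
      (coeffMap (frobenius (IsLocalRing.ResidueField A) p) r) :=
  red_map (fun _ ha => dec_mem hσ.mem_decompositionSubgroup ha) (residue_frob hσ hk) hr

/-- **New part**: `α_* x = 0` implies `x + φ (w x) ∈ Dl`. -/
theorem InDl.new (hA : A.LiesOverPrime p) (hpM : ¬ p ∣ M) (w : H99.AL Qb M p)
    {x : JZero (M * p)} (hx : p ^ n • x = 0)
    (hα : H67.pushP (heckeAlphaBar Qb M p) x = 0) {σ : Gq} (hσ : A.IsFrobeniusAt σ p) :
    InDl p A n (x + σ • H67.pushP w.W.toAlgHom x) := by
  have hp : p.Prime := Fact.out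
  have : IsAlgClosed (IsLocalRing.ResidueField A) := H18.isAlgClosed_residueField A
  have hk : CharP (IsLocalRing.ResidueField A) p := H60.charP_residue hp hA
  have hFX : H94.FunField Qb (H99.FX Qb M) := funFieldFX M
  have hFX' : H94.FunField Qb (H99.FX Qb (M * p)) := funFieldFX (M * p)
  obtain ⟨ζ, hζ⟩ : ∃ ζ : Qb, IsPrimitiveRoot ζ p := by
    haveI : NeZero (p : Qb) := ⟨by exact_mod_cast hp.ne_zero⟩
    exact HasEnoughRootsOfUnity.exists_primitiveRoot Qb p
  obtain ⟨ζA, hζA, hζ', hζ1⟩ := exists_unit_of_root hA hζ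
  obtain ⟨f, hf⟩ := IsKum.exists_of_nsmul hx
  obtain ⟨r, hr⟩ := exists_red_FX (A := A) hf.ne_zero
  have hW := hf.atkin w
  obtain ⟨s, hs⟩ := exists_red_FX (A := A) hW.ne_zero
  have hpush := hf.pushP (heckeAlphaBar Qb M p)
  rw [hα] at hpush
  obtain ⟨b, hb0, hb⟩ := hpush.unique (pow_ne_zero n hp.ne_zero) (IsKum.one Qb)
  have h1 := coe_normAlong_alpha w hpM hζ' f
  have h2 : ((H60.normAlong (heckeAlphaBar Qb M p) f : H99.FX Qb M) : LaurentSeries Qb) =
      (b : LaurentSeries Qb) ^ p ^ n := by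
    rw [hb, one_mul]; rfl
  rw [h2] at h1
  -- the two reductions
  have h3 : Red A (IsLocalRing.residue A) ((b : LaurentSeries Qb) ^ p ^ n)
      (r * coeffMap (frobenius (IsLocalRing.ResidueField A) p) s) := by
    rw [h1]
    exact hr.mul (red_normOp hζ' hζ1 hs)
  obtain ⟨ω, hω⟩ := PowRed.pow_self (A := A) (m := p ^ n) hb0
  obtain ⟨η, hη⟩ := PowRed.of_red (pow_ne_zero n hp.ne_zero) h3 hω
  refine ⟨f * arithmeticGalois (modularFunctionFieldFull (M * p)) σ • w.W f,
    hf.mul (hW.smul (arithmeticGalois (modularFunctionFieldFull (M * p)) σ)), η, ?_⟩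
  rw [← hη]
  exact hr.mul (red_frob hσ hk hs)

/-- **Good reduction**: Eichler–Shimura, `φ x + p φ⁻¹ x - T_p x ∈ Dl`. -/
theorem InDl.old (hA : A.LiesOverPrime p) (hpM : ¬ p ∣ M)
    {x : JZero M} (hx : p ^ n • x = 0) {σ : Gq} (hσ : A.IsFrobeniusAt σ p) :
    InDl p A n (σ • x + p • (σ⁻¹ • x) - heckeOperatorAlong Qb M p x) := by
  have hp : p.Prime := Fact.out
  have : IsAlgClosed (IsLocalRing.ResidueField A) := H18.isAlgClosed_residueField A
  have hk : CharP (IsLocalRing.ResidueField A) p := H60.charP_residue hp hA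
  obtain ⟨ζ, hζ⟩ : ∃ ζ : Qb, IsPrimitiveRoot ζ p := by
    haveI : NeZero (p : Qb) := ⟨by exact_mod_cast hp.ne_zero⟩
    exact HasEnoughRootsOfUnity.exists_primitiveRoot Qb p
  obtain ⟨ζA, hζA, hζ', hζ1⟩ := exists_unit_of_root hA hζ
  obtain ⟨f, hf⟩ := IsKum.exists_of_nsmul hx
  obtain ⟨r, hr⟩ := exists_red_FX (A := A) hf.ne_zero
  obtain ⟨g, hg, hgq⟩ := isKum_hecke hpM hζ' hf
  -- a Kummer function of `φ⁻¹ x` and its reduction
  set f' : H99.FX Qb M := arithmeticGalois (modularFunctionFieldFull M) σ⁻¹ • f with hf'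
  have hfK' : IsKum (p ^ n) (σ⁻¹ • x) f' :=
    hf.smul (arithmeticGalois (modularFunctionFieldFull M) σ⁻¹)
  obtain ⟨s, hs⟩ := exists_red_FX (A := A) hfK'.ne_zero
  have hff' : coeffMap (σ : Qb →+* Qb) (f' : LaurentSeries Qb) = (f : LaurentSeries Qb) := by
    have h1 : arithmeticGalois (modularFunctionFieldFull M) σ • f' = f := by
      rw [hf', map_inv, smul_inv_smul]
    exact congrArg Subtype.val h1
  have h1 : Red A (IsLocalRing.residue A) (f : LaurentSeries Qb)
      (coeffMap (frobenius (IsLocalRing.ResidueField A) p) s) := by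
    have := red_frob hσ hk hs
    rwa [hff'] at this
  -- the reduction of `T_p f`
  have h2 : Red A (IsLocalRing.residue A) (g : LaurentSeries Qb)
      (s ^ p * coeffMap (frobenius (IsLocalRing.ResidueField A) p)
        (coeffMap (frobenius (IsLocalRing.ResidueField A) p) s)) := by
    rw [hgq]
    refine Red.mul ?_ (red_normOp hζ' hζ1 h1)
    rw [H60.laurent_pow_char p s]
    exact red_qExpand h1
  have h3 := ((hfK'.pow p).mul (hf.smul (arithmeticGalois (modularFunctionFieldFull M) σ))).div hg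
  refine ⟨_, by rw [add_comm (σ • x)]; exact h3, 1, ?_⟩
  rw [one_pow]
  have h4 : Red A (IsLocalRing.residue A) ((f' : LaurentSeries Qb) ^ p *
      coeffMap (σ : Qb →+* Qb) (f : LaurentSeries Qb))
      (s ^ p * coeffMap (frobenius (IsLocalRing.ResidueField A) p)
        (coeffMap (frobenius (IsLocalRing.ResidueField A) p) s)) :=
    (hs.pow p).mul (red_frob hσ hk h1)
  have h5 := h4.div h2
  rwa [div_self h4.res_ne] at h5

end Rel

section Delta

variable {p : ℕ} [Fact p.Prime] [NeZero p] {N : ℕ} [NeZero N] {A : ValuationSubring Qb}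

/-- The reduction submodule of the Tate module. -/
def Delta (p : ℕ) [Fact p.Prime] [NeZero p] (A : ValuationSubring Qb) (N : ℕ) [NeZero N] :
    Submodule ℤ_[p] (TateMod p (JZero N)) where
  carrier := {x | ∀ n, InDl p A n (TateMod.proj n x)}
  zero_mem' := fun n => by rw [map_zero]; exact InDl.zero
  add_mem' := fun hx hy n => by rw [map_add]; exact (hx n).add (hy n)
  smul_mem' := fun a x hx n => by rw [TateMod.proj_smul]; exact (hx n).nsmul _

theorem mem_Delta {x : TateMod p (JZero N)} :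
    x ∈ Delta p A N ↔ ∀ n, InDl p A n (TateMod.proj n x) := Iff.rfl

/-- saturation at `p` -/
theorem Delta.sat_p (hA : A.LiesOverPrime p) {x : TateMod p (JZero N)}
    (h : (p : ℤ_[p]) • x ∈ Delta p A N) : x ∈ Delta p A N := by
  intro n
  have h1 := h (n + 1)
  rw [TateMod.natCast_smul, map_nsmul] at h1
  have h2 := InDl.of_nsmul hA (TateMod.pow_smul_proj x (n + 1)) h1
  rwa [TateMod.smul_proj_succ] at h2

theorem Delta.sat_pow (hA : A.LiesOverPrime p) (n : ℕ) {x : TateMod p (JZero N)}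
    (h : (p : ℤ_[p]) ^ n • x ∈ Delta p A N) : x ∈ Delta p A N := by
  induction n with
  | zero => rwa [pow_zero, one_smul] at h
  | succ n ih =>
    rw [pow_succ', mul_smul] at h
    exact ih (Delta.sat_p hA h)

/-- saturation -/
theorem Delta.sat (hA : A.LiesOverPrime p) {a : ℤ_[p]} (ha : a ≠ 0) {x : TateMod p (JZero N)}
    (h : a • x ∈ Delta p A N) : x ∈ Delta p A N := by
  obtain ⟨u, n, rfl⟩ : ∃ (u : ℤ_[p]ˣ) (n : ℕ), a = u * (p : ℤ_[p]) ^ n :=
    ⟨_, _, PadicInt.unitCoeff_spec ha⟩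
  refine Delta.sat_pow hA n ?_
  have h2 := (Delta p A N).smul_mem ((u⁻¹ : ℤ_[p]ˣ) : ℤ_[p]) h
  rwa [← mul_smul, ← mul_assoc, Units.inv_mul, one_mul] at h2

theorem Delta.isTorsionFree (hA : A.LiesOverPrime p) :
    Module.IsTorsionFree ℤ_[p] (TateMod p (JZero N) ⧸ Delta p A N) :=
  Module.IsTorsionFree.of_smul_eq_zero fun a x h => by
    by_cases ha : a = 0
    · exact Or.inl ha
    · right
      obtain ⟨x, rfl⟩ := Submodule.Quotient.mk_surjective _ x
      rw [← Submodule.Quotient.mk_smul, Submodule.Quotient.mk_eq_zero] at h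
      rw [Submodule.Quotient.mk_eq_zero]
      exact Delta.sat hA ha h

/-- inertia -/
theorem Delta.inertia {σ : Gq} (hσ : σ ∈ A.inertiaSubgroupIn ℚ) (x : TateMod p (JZero N)) :
    galTate p (JZero N) σ x - x ∈ Delta p A N := fun n => by
  rw [map_sub, proj_galTate]
  exact InDl.inertia (TateMod.pow_smul_proj x n) hσ

/-- the decomposition group preserves `Δ`. -/
theorem Delta.dec {σ : Gq} (hσ : σ ∈ A.decompositionSubgroup ℚ) {x : TateMod p (JZero N)}
    (hx : x ∈ Delta p A N) : galTate p (JZero N) σ x ∈ Delta p A N := fun n => by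
  rw [proj_galTate]
  exact (hx n).smul_dec hσ

/-- the elements of `Δ` modulo `p` : all Kummer functions have reduction a `p`-th power. -/
theorem Delta.red {x : TateMod p (JZero N)} (hx : x ∈ Delta p A N) {f : H99.FX Qb N}
    (hf : IsKum p (TateMod.proj 1 x) f) :
    ∃ ω, Red A (IsLocalRing.residue A) (f : LaurentSeries Qb) (ω ^ p) := by
  have h1 : IsKum (p ^ 1) (TateMod.proj 1 x) f := by rwa [pow_one]
  have h2 := (hx 1).forall_kum h1
  rwa [pow_one] at h2

variable {M : ℕ} [NeZero M]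

/-- **New part**, `w : H99.AL`. -/
theorem Delta.new' (hA : A.LiesOverPrime p) (hpM : ¬ p ∣ M) (w : H99.AL Qb M p)
    {x : TateMod p (JZero (M * p))}
    (hα : H35.tateMap (p := p) (H67.pushP (heckeAlphaBar Qb M p)) x = 0)
    {σ : Gq} (hσ : A.IsFrobeniusAt σ p) :
    x + galTate p (JZero (M * p)) σ (H35.tateMap (p := p) (H67.pushP w.W.toAlgHom) x) ∈
      Delta p A (M * p) := fun n => by
  have h1 : H67.pushP (heckeAlphaBar Qb M p) (TateMod.proj n x) = 0 := by
    have := congrArg (TateMod.proj n) hα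
    rwa [map_zero] at this
  exact InDl.new hA hpM w (TateMod.pow_smul_proj x n) h1 hσ

/-- the Atkin–Lehner automorphism as `H99.AL` -/
def alAtkin (M p : ℕ) [NeZero M] [NeZero p] (hc : M.Coprime p) : H99.AL Qb M p where
  W := atkin (L := Qb) embQbar M p rfl hc
  invol x := (isAL_atkin embQbar M p rfl hc).involutive rfl hc x
  alpha x := by
    have h := (isAL_atkin (L := Qb) embQbar M p rfl hc).comp_dg_one hc
      (by rw [mul_one]; exact dvd_mul_right M p) dvd_rfl
    rw [← alpha_eq_dg, ← beta_eq_dg] at h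
    exact DFunLike.congr_fun h x
  beta x := by
    have h := (isAL_atkin (L := Qb) embQbar M p rfl hc).comp_dg_Q hc
      (by rw [mul_one]; exact dvd_mul_right M p) dvd_rfl
    rw [← alpha_eq_dg, ← beta_eq_dg] at h
    exact DFunLike.congr_fun h x

theorem degPush_one_eq (h1 : M * 1 ∣ M * p) (x : JZero (M * p)) :
    degPush (M := M) (N := M * p) 1 h1 x = H67.pushP (heckeAlphaBar Qb M p) x := by
  rw [alpha_eq_dg]
  rfl

theorem wJ_eq (hc : M.Coprime p) (x : JZero (M * p)) :
    wJ M p rfl hc x = H67.pushP (alAtkin M p hc).W.toAlgHom x := rfl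

/-- **New part**: if `α_* x = 0` then `x + φ (w x) ∈ Δ`. -/
theorem Delta.new (hA : A.LiesOverPrime p) (hpM : ¬ p ∣ M) (hc : M.Coprime p)
    {x : TateMod p (JZero (M * p))} (h1 : M * 1 ∣ M * p)
    (hα : H35.tateMap (p := p) (degPush (M := M) (N := M * p) 1 h1) x = 0)
    {σ : Gq} (hσ : A.IsFrobeniusAt σ p) :
    x + galTate p (JZero (M * p)) σ (H35.tateMap (p := p) (wJ M p rfl hc) x) ∈
      Delta p A (M * p) := fun n => by
  have h2 : H67.pushP (heckeAlphaBar Qb M p) (TateMod.proj n x) = 0 := by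
    have := congrArg (TateMod.proj n) hα
    rw [map_zero, H35.proj_tateMap, degPush_one_eq] at this
    exact this
  have h3 := InDl.new (n := n) hA hpM (alAtkin M p hc) (TateMod.pow_smul_proj x n) h2 hσ
  rw [map_add, proj_galTate, H35.proj_tateMap, wJ_eq]
  exact h3

/-- **Good reduction** (Eichler–Shimura), general operator. -/
theorem Delta.old' (hA : A.LiesOverPrime p) (hpM : ¬ p ∣ M) (t : JZero M →+ JZero M)
    (ht : ∀ x, t x = heckeOperatorAlong Qb M p x)
    (x : TateMod p (JZero M)) {σ : Gq} (hσ : A.IsFrobeniusAt σ p) :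
    galTate p (JZero M) σ x + p • galTate p (JZero M) σ⁻¹ x -
      H35.tateMap (p := p) t x ∈ Delta p A M := by
  intro n
  have h1 := InDl.old (n := n) hA hpM (TateMod.pow_smul_proj x n) hσ
  rw [← ht] at h1
  rw [map_sub, map_add, map_nsmul]
  exact h1

/-- **Good reduction** (Eichler–Shimura). -/
theorem Delta.old (hA : A.LiesOverPrime p) (hpM : ¬ p ∣ M) (hp : p.Prime)
    (x : TateMod p (JZero M)) {σ : Gq} (hσ : A.IsFrobeniusAt σ p) :
    galTate p (JZero M) σ x + p • galTate p (JZero M) σ⁻¹ x -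
      H35.tateMap (p := p) (heckeOperatorBar M (⟨p, hp⟩ : Nat.Primes)) x ∈ Delta p A M :=
  Delta.old' hA hpM _ (fun x => heckeOperatorBar_apply M (⟨p, hp⟩ : Nat.Primes) x) x hσ

end Delta

end Fermat.Agent.H67.Dl

end
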