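import Fermat.Agent.H79V2End
import Fermat.Agent.H67Delta

/-!
# Guide: the prime 2 exactly dividing the level of a two-adic representation

This file proves nothing new: every theorem is a citation, with all hypotheses written out. All constants
cited here are used in the proof of S01 (and of S03, S04, S06, S38, S45, S46, S50, S59, S60). Library files:
`H79V2Alg`, `H79V2Delta`, `H79V2`, `H79V2End` (helper79), `H88RealD` (helper88), `H33CaseN` (helper33),
`H84SSp` (helper84), `H73M8c` (helper73). Companions: `GuideResidual`, section 8 (theorem `m8_ramified`, of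
which this file explains the case `v = 2`), `GuideResidualSteps.type_of_functional`, `GuideOrdinary` (Kummer
functions, case N), `GuideFrobeniusAtP` (the submodule `Δ`, and the analogous theorem for odd `p`).

**The statement** (last theorem). Let `f` be a normalised eigenform of weight 2 on `Γ₀(2 M)`, `M` odd, with
`a_2(f) = s = ± 1`, and let `r` be a representation with coefficients in a discrete valuation ring `O'` of
residue characteristic 2 attached to `f`, residually irreducible and residually RAMIFIED at 2. Then `r` is of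
Steinberg type with sign `1` or `-1` at 2. (Used in block LT for eigenforms congruent modulo powers of 2 to
the given representation; `f` and `O'` vary with the power.)

**The proof.** `r` is realised in `O' ⊗ T_2 J₀(2 M)`, killed by both degeneracy maps to level `M`, and the
Atkin-Lehner involution `w` at 2 acts by `-s` (section 3). Let `A` be a place of `ℚ̄` above 2 and
`Δ ⊆ T_2 J₀(2 M)` the submodule of the elements all of whose Kummer functions have reductions at `A` which
are `2ⁿ`-th powers. The quotient `T_2 / Δ` is torsion free; inertia acts trivially on it; and for an element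
`x` killed by the degeneracy map one has `φ(w x) = -x` modulo `Δ`, `φ` a Frobenius element. Now there are two
cases.

* A coordinate of the realisation is not in `Δ`. Then some linear functional `c` on `T_2` which vanishes on
  `Δ` gives a nonzero functional `l` on `O'²` with `l(r(σ) x) = l(x)` for `σ` in the inertia group, and
  `l(r(φ) x) = s l(x)`. The type follows from `GuideResidualSteps.type_of_functional`.
* All coordinates are in `Δ`. Then the Kummer functions of the points of order 2 which occur in the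
  realisation have reductions which are squares, and case N of `GuideOrdinary` says that inertia acts on
  these points through the cyclotomic character modulo 2, which is trivial. So `r` modulo the maximal ideal is
  unramified at 2, which is excluded.
-/

set_option autoImplicit false

open IsLocalRing Matrix ModularCurve AlgebraicCurve
open scoped TensorProduct
open Fermat.Agent.H30 Fermat.Agent.H35 Fermat.Agent.H31 Fermat.Agent.H67 Fermat.Agent.H33

noncomputable section

namespace Fermat.Agent.Guide.TypeAtTwo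

open Fermat.Agent.H53 (M2 mapMat)

local notation "Qb" => AlgebraicClosure ℚ
local notation "Gq" => AlgebraicClosure ℚ ≃ₐ[ℚ] AlgebraicClosure ℚ

/-! ## 1. The submodule `Δ`

`p` is any prime, `A` a place of `ℚ̄` above `p`, `T_p J` is `TateMod p J`, `galTate` the action of the Galois
group on it and `tateMap u` the map induced by `u`. -/

/-- **The submodule** of the `x ∈ T_p J₀(N)` such that for all `n` a Kummer function of level `pⁿ` of the
component `x_n` reduces at `A` to a `pⁿ`-th power. It is the submodule `Δ` of `GuideFrobeniusAtP`. -/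
theorem mem_T0_iff {p : ℕ} [Fact p.Prime] [NeZero p] {A : ValuationSubring Qb} {N : ℕ} [NeZero N]
    (x : TateMod p (JZero N)) :
    (x ∈ H79.V2.T0 p A N ↔ ∀ n, ∃ f : H99.FX Qb N, IsKum (p ^ n) (TateMod.proj n x) f ∧
      ∃ ω, H33.Red A (residue A) (f : LaurentSeries Qb) (ω ^ p ^ n)) ∧
    (x ∈ H79.V2.T0 p A N ↔ x ∈ H67.Dl.Delta p A N) :=
  ⟨Iff.rfl, Iff.rfl⟩

/-- **The four facts about `Δ`**, `p ∤ M`, also for `p = 2` (compare `GuideFrobeniusAtP`, 14 to 17):
(1) `T_p / Δ` has no `p`-torsion; (2) inertia acts trivially on `T_p / Δ`; (3) `φ(w x) = -x` modulo `Δ` if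
`x` is killed by the degeneracy map `α_*` to level `M`, `φ` a Frobenius element at `A`, `w` the Atkin-Lehner
involution at `p`; (4) for `x ∈ Δ` every Kummer function of level `p` of the component `x_1` reduces to a
`p`-th power. -/
theorem facts {p M : ℕ} [Fact p.Prime] [NeZero M] [NeZero p] [NeZero (M * p)]
    {A : ValuationSubring Qb} (hA : A.LiesOverPrime p) (hpM : ¬ p ∣ M) (hc : M.Coprime p) :
    (∀ x, (p : ℤ_[p]) • x ∈ H79.V2.T0 p A (M * p) → x ∈ H79.V2.T0 p A (M * p)) ∧
    (∀ σ ∈ A.inertiaSubgroupIn ℚ, ∀ x,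
      galTate p (JZero (M * p)) σ x - x ∈ H79.V2.T0 p A (M * p)) ∧
    (∀ φ : Gq, A.IsFrobeniusAt φ p → ∀ (h : M * 1 ∣ M * p) (x : TateMod p (JZero (M * p))),
      tateMap (degPush (M := M) (N := M * p) 1 h) x = 0 →
        galTate p (JZero (M * p)) φ (tateMap (wJ (R := M * p) M p rfl hc) x) + x ∈
          H79.V2.T0 p A (M * p)) ∧
    (∀ x ∈ H79.V2.T0 p A (M * p), ∀ f : H99.FX Qb (M * p),
      IsKum p (TateMod.proj 1 x : JZero (M * p)) f →
        ∃ ω, H33.Red A (residue A) (f : LaurentSeries Qb) (ω ^ p)) :=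
  have D := H79.V2.deltaFacts hA hpM hc
  ⟨D.sat, D.iner, D.frob, D.red⟩

/-- **The input of (3) on `q`-expansions** (for `p = 2` too). Let `r` be the reduction of `f`. The norm
operator, `(N f)(q^p) = ∏ f(ζ^i q)`, changes `r` by raising all coefficients to the power `p`. So does a
Frobenius element: second part, for an automorphism `τ` which preserves `A` and acts by `τk` on the residue
field, with `τk(a) = a^p`. -/
theorem reductions {K : Type*} [Field K] {A : ValuationSubring K} {k : Type*} [Field k]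
    {π : A →+* k} {f : LaurentSeries K} {r : LaurentSeries k} (hf : H33.Red A π f r) :
    (∀ {p : ℕ} [Fact p.Prime] [NeZero p] [CharP k p] {ζ : Aˣ},
      IsPrimitiveRoot (Units.map (A.subtype : A →* K) ζ) p → Units.map (π : A →* k) ζ = 1 →
        H33.Red A π (normOp p (Units.map (A.subtype : A →* K) ζ) f)
          (coeffMap (frobenius k p) r)) ∧
    ∀ {τ : K →+* K} {τk : k →+* k} (hτ : ∀ a ∈ A, τ a ∈ A),
      (∀ a : A, π ⟨τ a, hτ a a.2⟩ = τk (π a)) →
        H33.Red A π (coeffMap τ f) (coeffMap τk r) :=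
  ⟨fun hζ hζ1 => H79.V2.red_normOp hζ hζ1 hf, fun hτ hτπ => H79.V2.red_map hτ hτπ hf⟩

/-! ## 2. Functionals and coordinates

`O` is an algebra over `ℤ_p` with a finite basis `b`. -/

/-- **The coordinates** `co b i : O ⊗ T → T` of the elements of `O ⊗ T`: every `z` is the sum of the
`b_i ⊗ z_i`, and linear maps `T → T'` act on the coordinates. -/
theorem coordinates {Z O : Type*} [CommRing Z] [CommRing O] [Algebra Z O] {T T' : Type*}
    [AddCommGroup T] [Module Z T] [AddCommGroup T'] [Module Z T'] {ι : Type*} [Fintype ι]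
    (b : Module.Basis ι Z O) (f : T →ₗ[Z] T') (z : O ⊗[Z] T) :
    ∑ i, b i ⊗ₜ[Z] H79.V2.co b i z = z ∧
      ∀ i, H79.V2.co b i (f.baseChange O z) = f (H79.V2.co b i z) :=
  ⟨H79.V2.sum_co b z, fun i => H79.V2.co_baseChange b f i z⟩

/-- **A relation passes to `O ⊗ T`.** `c` a linear map on `T` with `c(φ(w t)) = -c(t)` on the kernel of `α`:
the same holds after tensoring with `O`. -/
theorem relation_baseChange {Z O : Type*} [CommRing Z] [CommRing O] [Algebra Z O]
    {T T' T₁ : Type*} [AddCommGroup T] [Module Z T] [AddCommGroup T'] [Module Z T']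
    [AddCommGroup T₁] [Module Z T₁] {ι : Type*} [Fintype ι] (b : Module.Basis ι Z O)
    (c : T →ₗ[Z] T') (φ w : T →ₗ[Z] T) (α : T →ₗ[Z] T₁) (h : ∀ t, α t = 0 → c (φ (w t)) = - c t)
    {z : O ⊗[Z] T} (hα : α.baseChange O z = 0) :
    c.baseChange O (φ.baseChange O (w.baseChange O z)) = - c.baseChange O z :=
  H79.V2.baseChange_rel b c φ w α h hα

/-- **Separation by functionals.** `T_p J` finitely generated, `T₀` a submodule such that `T_p J / T₀` has no
`p`-torsion; then it is free, and every `x` outside `T₀` is detected by a functional vanishing on `T₀`. -/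
theorem separation {p : ℕ} [Fact p.Prime] {J : Type*} [AddCommGroup J]
    [Module.Finite ℤ_[p] (TateMod p J)] (T₀ : Submodule ℤ_[p] (TateMod p J))
    (hsat : ∀ x, (p : ℤ_[p]) • x ∈ T₀ → x ∈ T₀) {x : TateMod p J} (hx : x ∉ T₀) :
    ∃ c : TateMod p J →ₗ[ℤ_[p]] ℤ_[p], (∀ t ∈ T₀, c t = 0) ∧ c x ≠ 0 :=
  H79.V2.exists_functional T₀ hsat hx

/-- **The two cases.** For a map `Φ : V → O ⊗ T_p J` either some functional which vanishes on `T₀` is not zero
on the image of `Φ`, or all coordinates of all `Φ(x)` are in `T₀`. -/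
theorem dichotomy {p : ℕ} [Fact p.Prime] {J : Type*} [AddCommGroup J] {O : Type*} [CommRing O]
    [Algebra ℤ_[p] O] {ι : Type*} [Fintype ι] (b : Module.Basis ι ℤ_[p] O)
    [Module.Finite ℤ_[p] (TateMod p J)] (T₀ : Submodule ℤ_[p] (TateMod p J))
    (hsat : ∀ x, (p : ℤ_[p]) • x ∈ T₀ → x ∈ T₀) {V : Type*} (Φ : V → O ⊗[ℤ_[p]] TateMod p J) :
    (∃ c : TateMod p J →ₗ[ℤ_[p]] ℤ_[p], (∀ t ∈ T₀, c t = 0) ∧
      ∃ x, c.baseChange O (Φ x) ≠ 0) ∨ ∀ x i, H79.V2.co b i (Φ x) ∈ T₀ :=
  H79.V2.dichotomy b T₀ hsat Φ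

/-- **Congruences can be checked on the components in `J[p]`.** If an endomorphism `g` of `T_p J` fixes the
component in `J[p]` of every coordinate of `z ∈ O ⊗ T_p J`, then `g z ≡ z` modulo `I (O ⊗ T_p J)` for every
ideal `I` which contains `p`. -/
theorem congruence {p : ℕ} [Fact p.Prime] {J : Type*} [AddCommGroup J] {O : Type*} [CommRing O]
    [Algebra ℤ_[p] O] {ι : Type*} [Fintype ι] (b : Module.Basis ι ℤ_[p] O) {I : Ideal O}
    (hpI : (p : O) ∈ I) (g : Module.End ℤ_[p] (TateMod p J)) {z : O ⊗[ℤ_[p]] TateMod p J}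
    (h : ∀ i, TateMod.proj 1 (g (H79.V2.co b i z) - H79.V2.co b i z) = 0) :
    g.baseChange O z - z ∈ (I • ⊤ : Submodule O (O ⊗[ℤ_[p]] TateMod p J)) :=
  H79.V2.sub_mem_of_proj_one b hpI g h

/-! ## 3. The realisation -/

/-- **Realisation of `r` with the action of `w`** (helper88, `H88RealD`). `r` is attached to an eigenform `f`
of level `M q`, `q ∤ M` prime, with `a_q(f) = s = ± 1`, and the image of `r` spans `M₂(O')`, where `O'` is a
discrete valuation ring of residue characteristic `p` (`q = p` is allowed). Then `r` embeds equivariantly in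
`O' ⊗ T_p J₀(M q)`, as a saturated submodule, killed by both degeneracy maps to level `M`, and `w_q = -s` on
it. Proof: `f | W_q = -s f` and both traces of `f` to level `M` vanish, so there is an eigenvector with these
properties (`H88RealC`); by the Eichler-Shimura relations and since the image of `r` spans `M₂(O')`, the
Galois module which it generates contains a copy of `r` (`H88RealD1`). -/
theorem realisation {p q M : ℕ} [Fact p.Prime] [NeZero M] [NeZero q] [NeZero (M * q)]
    (hq : q.Prime) (hqM : ¬ q ∣ M) (hc : M.Coprime q) {f : CuspForm (CongruenceSubgroup.Gamma0 (M * q)) 2}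
    (hf : f.IsNormalizedEigenform) {s : ℤ} (hs : s = 1 ∨ s = -1)
    (hfs : ModularFormClass.qCoeff f q = (s : ℂ))
    {O' : Type} [CommRing O'] [IsDomain O'] [IsDiscreteValuationRing O'] [CharZero O']
    [Algebra ℤ_[p] O'] (hp : (p : O') ∈ maximalIdeal O') {F : Type} [Field F] [CharZero F]
    {j : O' →+* F} {ι : integralClosure ℤ ℂ →+* F} {S : Finset ℕ} {r : Gq →* M2 O'}
    (hr : H19LT.Attached f S j ι r) (hspan : Submodule.span O' (Set.range r) = ⊤) :
    ∃ Φ : (Fin 2 → O') →ₗ[O'] O' ⊗[ℤ_[p]] TateMod p (JZero (M * q)), Function.Injective Φ ∧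
      (∀ x, Φ x ∈ (maximalIdeal O' • ⊤ : Submodule O' (O' ⊗[ℤ_[p]] TateMod p (JZero (M * q)))) →
        ∀ i, x i ∈ maximalIdeal O') ∧
      (∀ (g : Gq) x, Φ ((r g).mulVec x) =
        (galTate p (JZero (M * q)) g).baseChange O' (Φ x)) ∧
      (∀ (h : M * 1 ∣ M * q) x,
        (tateMap (degPush (M := M) (N := M * q) 1 h)).baseChange O' (Φ x) = 0) ∧
      (∀ (h : M * q ∣ M * q) x,
        (tateMap (degPush (M := M) (N := M * q) q h)).baseChange O' (Φ x) = 0) ∧
      (∀ x, (tateMap (wJ (R := M * q) M q rfl hc)).baseChange O' (Φ x) =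
        ((-s : ℤ) : O') • Φ x) :=
  H88.RealP.real_plus hq hqM hc hf hs hfs hp hr hspan

/-! ## 4. The second case: all coordinates are in `Δ` -/

/-- **The second case.** `Φ : V → O ⊗ T_p J₀(M p)` is equivariant for an action `R` of the Galois group,
killed by `α_*`, `w` acts on its image by a scalar, and all coordinates of its values are in `Δ`. Then an
element `σ` of the inertia group with `σ ζ = ζ^a` multiplies the components in `J₀(M p)[p]` of all
coordinates by `a`. Proof: these components generate a finite group `W` stable under the Galois group and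
`w`, killed by `α_*`, whose Kummer functions reduce to `p`-th powers: apply case N (`GuideOrdinary.caseN`)
to `W`. -/
theorem second_case {p M : ℕ} [Fact p.Prime] [NeZero M] [NeZero p] [NeZero (M * p)]
    {hc : M.Coprime p} {A : ValuationSubring Qb} (hA : A.LiesOverPrime p) (hpM : ¬ p ∣ M)
    (hfin : {x : JZero (M * p) | p • x = 0}.Finite) {O : Type*} [CommRing O] [Algebra ℤ_[p] O]
    {ι : Type*} (b : Module.Basis ι ℤ_[p] O) {V : Type*} [AddCommGroup V] [Module O V]
    (Φ : V →ₗ[O] O ⊗[ℤ_[p]] TateMod p (JZero (M * p))) (R : Gq → V → V)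
    (hgal : ∀ g x, Φ (R g x) = (galTate p (JZero (M * p)) g).baseChange O (Φ x))
    (hpush : ∀ (h : M * 1 ∣ M * p) x,
      (tateMap (degPush (M := M) (N := M * p) 1 h)).baseChange O (Φ x) = 0)
    {s : O} (hw : ∀ x, (tateMap (wJ (R := M * p) M p rfl hc)).baseChange O (Φ x) = s • Φ x)
    (hB : ∀ x i, H79.V2.co b i (Φ x) ∈ H79.V2.T0 p A (M * p)) {ζ : Qb}
    (hζ : IsPrimitiveRoot ζ p) {σ : Gq} (hσ : σ ∈ A.inertiaSubgroupIn ℚ) {a : ℕ}
    (hσζ : σ ζ = ζ ^ a) (x : V) (i : ι) :
    σ • TateMod.proj 1 (H79.V2.co b i (Φ x)) = a • TateMod.proj 1 (H79.V2.co b i (Φ x)) :=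
  H79.V2.smul_proj_one hA hpM (H79.V2.deltaFacts hA hpM hc)
    (H84.ss2p Fact.out hpM hA (H79.V2.alOf hc)) hfin b Φ R hgal hpush hw hB hζ hσ hσζ x i

/-! ## 5. The functional and the type -/

/-- **The functional.** `O` is finite and free over `ℤ_2`, local, with `2` in the maximal ideal; `r` has
values in `M₂(O)` and is realised by `Φ` in `O ⊗ T_2 J₀(2 M)`, saturated, killed by `α_*`, with `w = -s`,
`s = ± 1`. If `r` is residually ramified at `A`, then there is a nonzero functional `l` on `O²` with
`l(r(σ) x) = l(x)` for `σ` in the inertia group at `A` and `l(r(φ) x) = s l(x)` for a Frobenius element `φ`.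
(By `dichotomy`: in the second case `second_case` with `ζ = -1`, `a = 1` and `congruence` show that inertia
acts trivially modulo the maximal ideal. In the first case `l = c ∘ Φ`, and `s` is found from
`relation_baseChange`: `-s · l(r(φ) x) = -l(x)`.) -/
theorem functional {M : ℕ} [NeZero M] [NeZero (M * 2)] {hc : M.Coprime 2}
    {A : ValuationSubring Qb} [Fact (Nat.Prime 2)] (hA : A.LiesOverPrime 2) (h2M : ¬ 2 ∣ M)
    (hfin : {x : JZero (M * 2) | 2 • x = 0}.Finite)
    {O : Type} [CommRing O] [IsDomain O] [IsLocalRing O] [Algebra ℤ_[2] O]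
    [Module.Finite ℤ_[2] O] [Module.Free ℤ_[2] O] (h2O : (2 : O) ∈ maximalIdeal O)
    {r : Gq →* M2 O} (Φ : (Fin 2 → O) →ₗ[O] O ⊗[ℤ_[2]] TateMod 2 (JZero (M * 2)))
    (hsat : ∀ x, Φ x ∈
      (maximalIdeal O • ⊤ : Submodule O (O ⊗[ℤ_[2]] TateMod 2 (JZero (M * 2)))) →
        ∀ i, x i ∈ maximalIdeal O)
    (hgal : ∀ (g : Gq) x, Φ ((r g).mulVec x) =
        (galTate 2 (JZero (M * 2)) g).baseChange O (Φ x))
    (hpush : ∀ (h : M * 1 ∣ M * 2) x,
      (tateMap (degPush (M := M) (N := M * 2) 1 h)).baseChange O (Φ x) = 0)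
    {s : ℤ} (hs : s = 1 ∨ s = -1)
    (hw : ∀ x, (tateMap (wJ (R := M * 2) M 2 rfl hc)).baseChange O (Φ x) =
      ((-s : ℤ) : O) • Φ x)
    (hram : ∃ σ ∈ A.inertiaSubgroupIn ℚ, mapMat (residue O) r σ ≠ 1) :
    ∃ l : (Fin 2 → O) →ₗ[O] O, l ≠ 0 ∧
      (∀ σ ∈ A.inertiaSubgroupIn ℚ, ∀ x, l (r σ *ᵥ x) = l x) ∧
      ∃ φ : Gq, A.IsFrobeniusAt φ 2 ∧ ∀ x, l (r φ *ᵥ x) = ((s : ℤ) : O) * l x :=
  H79.V2.exists_l hA h2M (H79.V2.deltaFacts hA h2M hc)
    (H84.ss2p Nat.prime_two h2M hA (H79.V2.alOf hc)) hfin h2O Φ hsat hgal hpush hs hw hram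

/-- **The type at 2** (the case `v = 2` of `GuideResidual.m8_ramified`). `f` a normalised eigenform of level
`L`, `2 ∥ L`, `a_2(f) = ± 1`; `r` attached to `f` with coefficients in a discrete valuation ring of residue
characteristic 2, residually irreducible, and residually ramified at every place above 2. Then `r` is of
Steinberg type at 2 with sign `1` or `-1`. -/
theorem type_at_two (L : ℕ) [NeZero L] (f : CuspForm (CongruenceSubgroup.Gamma0 L) 2)
    (hf : f.IsNormalizedEigenform) (h2L : 2 ∣ L) (h4L : ¬ 2 ^ 2 ∣ L)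
    (ha : ModularFormClass.qCoeff f 2 = 1 ∨ ModularFormClass.qCoeff f 2 = -1)
    (O' : Type) [CommRing O'] [IsDomain O'] [IsDiscreteValuationRing O'] [LT.TwoRing O']
    (F : Type) [Field F] [IsAlgClosed F] [CharZero F] (j : O' →+* F)
    (ι : integralClosure ℤ ℂ →+* F) (S : Finset ℕ) (r : Gq →* M2 O')
    (hr : H19LT.Attached f S j ι r) (hirr : H19LT.ResIrr r)
    (hram : ∀ P : ValuationSubring (AlgebraicClosure ℚ), P.LiesOverPrime 2 →
      ∃ σ ∈ P.inertiaSubgroupIn ℚ, mapMat (residue O') r σ ≠ 1) :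
    LT.TypeAt 2 (1 : O') r ∨ LT.TypeAt 2 (-1 : O') r :=
  H79.V2.m8Ram_two L f hf Nat.prime_two h2L h4L (fun _ => ha) O' F j ι S r hr hirr hram

end Fermat.Agent.Guide.TypeAtTwo
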