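import Fermat.Agent.H27Global

/-!
# Reader's guide: the complex uniformisation of `Pic⁰`, step by step (library)

Every theorem of this file is proved by citing a theorem of the library; nothing here is used by any
other file. Editor: helper10; the library files are those of helper27 (`H27*`).

Companion of section 1 of the guide MordellWeil, which states the results: analytic discs, limits of
ultrafilters of places, the abstract exponential map, and the following theorem with its corollary
`#Pic⁰[n] = n^(2g)`.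

**Theorem.** Let `F` be a function field in one variable over `ℂ`, of genus `g`. There is a
homomorphism `e : ℂ^g → Pic⁰(F)`, injective near `0`, such that every class is the image of a vector
of bounded norm. (So `Pic⁰(F) = ℂ^g / Λ` with a lattice `Λ`.)

The classical proof (Abel, Jacobi, Riemann) uses integrals of differential forms and the topology of
the Riemann surface. Here there are neither integrals nor a surface: the group law itself, written in
coordinates near a nonspecial divisor of degree `g`, determines `e`.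

**Proof.**
1. *Discs.* Near a place `P` with uniformiser `t` the field is `F = ℂ(t, u)` with `H(t, u) = 0` and
   `∂H/∂Y (0, u(P)) ≠ 0` (Newton's approximation of a generator). The implicit function theorem gives
   an analytic `η` with `H(z, η(z)) = 0`; the functions `a(t, u) / b(t, u)` with `b(z₀, η(z₀)) ≠ 0`
   form a valuation ring, the point `σ z₀` of the disc.
2. *Compactness.* Every ultrafilter of places has a limit, so finitely many discs cover all places.
3. *Residual lemma.* If `m` points of a divisor of degree `m + g` move, `g` other points can be moved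
   in exactly one way (analytically) such that the class does not change, provided the `g` points are
   not special. (The function of `L(E)` which vanishes at the moving points depends analytically on
   them: Cramer's rule and the implicit function theorem.)
4. *Local group law.* So `Φ(x) = [Q₁(x₁) + ... + Q_g(x_g)] - [Q₁ + ... + Q_g]` is injective near `0`
   and `Φ(x) + Φ(y) = Φ(M(x, y))` with `M` analytic; doubling has an inverse near `0`, "halving", and
   `2^n` times the `n`-th half of `x` converges to the logarithm of `x`.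
5. *Global.* The image of `e` is an open subgroup; by the maximum principle it contains all classes
   `Q - P`, by compactness these come from bounded vectors, and every class is the sum of `g` of them.

**Where it is used.** All cited theorems are in the proofs of S01, S03, S04, S06, S09, S12, S15, S17,
S38, S39, S40, S43, S45, S46, S50, S59, S60 (through the number of torsion points over `ℂ` and the
divisibility of `J₀(N)`).

**Order of this file.** 1 values; 2 the equation at a place; 3 the implicit function and the division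
step; 4 discs; 5 compactness; 6 moving divisors; 7 the local group law and the exponential map; 8 the
global statement. Details: NOTES.md, Appendix A.3, note [83]. References for the classical facts:
P. Griffiths and J. Harris, *Principles of algebraic geometry*, chapter 2; J.-P. Serre, *Lie algebras
and Lie groups*, part II (local groups, exponential map).
-/

set_option autoImplicit false

namespace Fermat.Agent.Guide.Uniformisation

open AlgebraicCurve WithZero Polynomial Topology Filter Metric
open Fermat.Agent.H3RR (IsFF ell)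

/-! ## 1. Values, and polynomials in two functions

`IsFF K F`: `F` is a function field in one variable over `K`. `v.adicValuation f` is the absolute value
of `f` at the place `v`, with values in `{0} ∪ exp(ℤ)` (so `≤ 1` means regular, `< 1` means zero and
`exp (-1)` means simple zero), and `v.ord f` the order. `H27.val v f` is the value `f(v) ∈ K` of a
regular function, `K` algebraically closed (and `0` if `f` has a pole). For `a ∈ K[X][Y]` and elements
`x, y` of a `K`-algebra `H27.ee x y a` is `a(x, y)`; the inner variable of `K[X][X]` is replaced by `x`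
and the outer one by `y`, and `derivative` is the derivative by the outer variable. -/

section Values

variable {K F : Type*} [Field K] [Field F] [Algebra K F] [IsAlgClosed K] [IsFF K F]

/-- **The value** of a regular function `f` is the only `c` for which `f - c` vanishes at `v`. File
`H27Val`. -/
theorem value_unique (v : Place K F) {f : F} (hf : v.adicValuation f ≤ 1) :
    v.adicValuation (f - algebraMap K F (H27.val v f)) < 1 ∧
      ∀ c : K, v.adicValuation (f - algebraMap K F c) < 1 → c = H27.val v f :=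
  ⟨H27.sub_val_lt_one v hf, fun _ hc => (H27.val_eq_of_lt v hc).symm⟩

/-- **Values of sums and products** of regular functions. File `H27Val`. -/
theorem value_add_mul (v : Place K F) {f g : F} (hf : v.adicValuation f ≤ 1)
    (hg : v.adicValuation g ≤ 1) :
    H27.val v (f + g) = H27.val v f + H27.val v g ∧
      H27.val v (f * g) = H27.val v f * H27.val v g :=
  ⟨H27.val_add v hf hg, H27.val_mul v hf hg⟩

/-- **Units**: a regular function is a unit at `v` if and only if its value is not zero. File
`H27Val`. -/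
theorem value_ne_zero_iff (v : Place K F) {f : F} (hf : v.adicValuation f ≤ 1) :
    H27.val v f ≠ 0 ↔ v.adicValuation f = 1 :=
  H27.val_ne_zero_iff v hf

/-- **Values of polynomials**: `a(x, y)` is regular where `x` and `y` are, with value
`a(x(v), y(v))`. File `H27Val`. -/
theorem value_of_polynomial (v : Place K F) {x y : F} (hx : v.adicValuation x ≤ 1)
    (hy : v.adicValuation y ≤ 1) (a : K[X][X]) :
    v.adicValuation (H27.ee x y a) ≤ 1 ∧
      H27.val v (H27.ee x y a) = H27.ee (H27.val v x) (H27.val v y) a :=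
  ⟨H27.ee_mem v hx hy a, H27.val_ee v hx hy a⟩

end Values

/-! ## 2. A simple equation at a place

`H27.IsUnif τ ev`: `S` is a `K`-algebra, `ev : S → K` a homomorphism of `K`-algebras with
`ev(τ) = 0` whose kernel is `τ S`, and `τ` is not a zero divisor. The example is the valuation ring of
a place with a uniformiser (`H27.unifElt P t ht` is `t` as an element of it and `H27.valHom P` the map
`f ↦ f(P)`). -/

section SimpleEquation

variable {K : Type*} [Field K]

/-- **The valuation ring of a place**, with the value at `P` and a uniformiser, is an example. File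
`H27Simple`. -/
theorem isUnif_place {F : Type*} [Field F] [Algebra K F] [IsAlgClosed K] [IsFF K F] (P : Place K F)
    (t : F) (ht : P.adicValuation t = exp (-1 : ℤ)) :
    H27.IsUnif (H27.unifElt P t ht) (H27.valHom P) :=
  H27.isUnif_place P t ht

/-- **Taylor polynomials**: every `f ∈ S` is congruent to a polynomial `p(τ)` modulo `τ^n`. File
`H27Simple`. -/
theorem taylor {S : Type*} [CommRing S] [Algebra K S] {τ : S} {ev : S →ₐ[K] K}
    (h : H27.IsUnif τ ev) (n : ℕ) (f : S) : ∃ p : K[X], τ ^ n ∣ f - aeval τ p :=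
  h.exists_poly n f

/-- **Newton's approximation.** Let `h(τ, y) = 0` and let `k` be the exact order of `∂h/∂Y (τ, y)`.
Then `y = p(τ) + τ^(k+1) u` where `u` is a root of a polynomial `H(τ, Y)` with
`∂H/∂Y (0, ev u) ≠ 0`. Proof: `p` is the Taylor polynomial of `y`. In the expansion
`h(X, p + X^(k+1) Y) = h(X, p) + h_Y(X, p) X^(k+1) Y + κ X^(2k+2) Y²` the middle term is divisible by
exactly `X^(2k+1)`; substitution of `τ` and `u` shows that `h(X, p)` is divisible by `X^(2k+1)` too.
Dividing gives `H = a + c Y + κ X Y²` with `c(0) ≠ 0`. File `H27Simple`. -/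
theorem newton_approximation {S : Type*} [CommRing S] [Algebra K S] {τ : S} {ev : S →ₐ[K] K}
    (hU : H27.IsUnif τ ev) (y : S) (h : K[X][X]) (hy : H27.ee τ y h = 0) (k : ℕ)
    (hk : τ ^ k ∣ H27.ee τ y (derivative h)) (hk' : ¬ τ ^ (k + 1) ∣ H27.ee τ y (derivative h)) :
    ∃ (p : K[X]) (u : S) (H : K[X][X]), y = aeval τ p + τ ^ (k + 1) * u ∧ H27.ee τ u H = 0 ∧
      H27.ee (0 : K) (ev u) (derivative H) ≠ 0 :=
  hU.exists_newton y h hy k hk hk'

variable {F : Type*} [Field F] [Algebra K F] [IsAlgClosed K] [IsFF K F]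

/-- **Separable relations** (characteristic zero): if `t` is transcendental over `K`, every `y ∈ F`
is a root of some `h(t, Y)` with `∂h/∂Y (t, y) ≠ 0` (take `h ≠ 0` of minimal degree in `Y`). File
`H27Simple`. -/
theorem exists_separable_relation [CharZero K] (t y : F) (ht : Transcendental K t) :
    ∃ h : K[X][X], H27.ee t y h = 0 ∧ H27.ee t y (derivative h) ≠ 0 :=
  H27.exists_separable_rel t y ht

/-- **A simple equation at a place.** Let `t` be a uniformiser at `P`. There is a function `u`,
regular at `P`, with `F = K(t, u)` and an equation `H(t, u) = 0` with `∂H/∂Y (0, u(P)) ≠ 0`. (A model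
of the curve which is smooth at `P` and on which `t` is a local coordinate.) Proof: a primitive
element of `F/K(t)`, multiplied by a power of `t`, is regular at `P`; `newton_approximation` in the
valuation ring of `P`. File `H27Simple`. -/
theorem exists_simple_equation [CharZero K] (P : Place K F) (t : F)
    (ht : P.adicValuation t = exp (-1 : ℤ)) :
    ∃ (u : F) (H : K[X][X]), P.adicValuation u ≤ 1 ∧ H27.ee t u H = 0 ∧
      H27.ee (0 : K) (H27.val P u) (derivative H) ≠ 0 ∧
      ∀ f : F, ∃ a b : K[X][X], H27.ee t u b ≠ 0 ∧ f * H27.ee t u b = H27.ee t u a :=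
  H27.exists_simple P t ht

end SimpleEquation

/-! ## 3. The implicit function and the division step

`H27.Branch P` consists of `t`, `u`, `H` as in `exists_simple_equation`, a radius `ρ` and a function `η`
as in `exists_branch`. For `a ∈ ℂ[X][Y]` the analytic function `z ↦ a(z, η(z))` is `B.til a`; below it
is written `ã`. `H27.gg H w` is the quotient of `H(X, Y)` by `Y - w`, and `B.G z₀` the quotient of `H`
by `Y - η(z₀)`. -/

section Division

/-- **Implicit function theorem** for a polynomial: if `H(0, u₀) = 0` and `∂H/∂Y (0, u₀) ≠ 0`, then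
near `(0, u₀)` the zeros of `H` are the points `(z, η(z))` for an analytic function `η` (deduced
from Mathlib). File `H27Implicit`. -/
theorem implicit_function (H : ℂ[X][X]) (u₀ : ℂ) (h0 : H27.ee 0 u₀ H = 0)
    (h1 : H27.ee 0 u₀ (derivative H) ≠ 0) :
    ∃ η : ℂ → ℂ, AnalyticAt ℂ η 0 ∧ η 0 = u₀ ∧
      ∀ᶠ p : ℂ × ℂ in 𝓝 (0, u₀), (H27.ee p.1 p.2 H = 0 ↔ η p.1 = p.2) :=
  H27.exists_implicit H u₀ h0 h1

/-- **The branch at a place.** The data of `exists_simple_equation` for some uniformiser `t` at `P`,
with an analytic function `η` on `‖z‖ < ρ` such that `η(0) = u(P)`, `H(z, η(z)) = 0`,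
`∂H/∂Y (z, η(z)) ≠ 0`, and all zeros of `H` near `(0, u(P))` are `(z, η(z))`. File `H27Branch`. -/
theorem exists_branch {F : Type*} [Field F] [Algebra ℂ F] [IsFF ℂ F] (P : Place ℂ F) :
    ∃ (t u : F) (H : ℂ[X][X]) (η : ℂ → ℂ) (ρ : ℝ), 0 < ρ ∧ P.adicValuation t = exp (-1 : ℤ) ∧
      P.adicValuation u ≤ 1 ∧ H27.ee t u H = 0 ∧
      (∀ f : F, ∃ a b : ℂ[X][X], H27.ee t u b ≠ 0 ∧ f * H27.ee t u b = H27.ee t u a) ∧
      η 0 = H27.val P u ∧
      (∀ z : ℂ, ‖z‖ < ρ → AnalyticAt ℂ η z ∧ H27.ee z (η z) H = 0 ∧
        H27.ee z (η z) (derivative H) ≠ 0) ∧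
      ∀ᶠ p : ℂ × ℂ in 𝓝 (0, H27.val P u), H27.ee p.1 p.2 H = 0 → η p.1 = p.2 := by
  obtain ⟨B⟩ := H27.exists_branch P
  exact ⟨B.t, B.u, B.H, B.η, B.ρ, B.ρ_pos, B.t_unif, B.u_reg, B.rel, B.gen, B.η_zero,
    fun z hz => ⟨B.η_an z hz, B.η_rel z hz, B.η_der z hz⟩, B.η_uniq⟩

/-- **The quotient by `Y - w`** has the value `∂H/∂Y (z, w)` at `(z, w)`. File `H27Branch`. -/
theorem quotient_value {K : Type*} [Field K] (H : K[X][X]) (z w : K) :
    H27.ee z w (H27.gg H w) = H27.ee z w (derivative H) :=
  H27.ee_gg H z w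

/-- **Division in a point of a curve.** If `H` and `a` vanish at `(z, w)`, then
`a G = (X - z) a₁ + H q`, where `G` is the quotient of `H` by `Y - w`. Proof: write
`a = (X - z) a₀ + (Y - w) a'` and `H = (X - z) h₀ + (Y - w) G`; then
`a G - H a' = (X - z) (a₀ G - a' h₀)`. So on the curve, where `H = 0`, a function vanishing at a point
with `∂H/∂Y ≠ 0` is divisible by `X - z` up to the function `G`, which is not zero there. File
`H27Branch`. -/
theorem division {K : Type*} [Field K] (H a : K[X][X]) (z w : K) (hH : H27.ee z w H = 0)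
    (ha : H27.ee z w a = 0) :
    ∃ a₁ q : K[X][X], a * H27.gg H w = C (X - C z) * a₁ + H * q :=
  H27.descent H a z w hH ha

variable {F : Type*} [Field F] [Algebra ℂ F] [IsFF ℂ F] {P : Place ℂ F} (B : H27.Branch P)

/-- **The division step.** If `ã(z₀) = 0`, then `a(t, u) G(t, u) = (t - z₀) a₁(t, u)` and at the same
time `ã G̃ = (z - z₀) ã₁`, where `G̃(z₀) ≠ 0`. So the order of `ã` at `z₀` is one more than that of
`ã₁`. This step is the only relation between algebra and analysis in the construction. File
`H27Branch`. -/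
theorem division_step {z₀ : ℂ} (hz : ‖z₀‖ < B.ρ) {a : ℂ[X][X]} (ha : B.til a z₀ = 0) :
    ∃ a₁ : ℂ[X][X],
      H27.ee B.t B.u a * H27.ee B.t B.u (B.G z₀) =
        (B.t - algebraMap ℂ F z₀) * H27.ee B.t B.u a₁ ∧
      (∀ z : ℂ, ‖z‖ < B.ρ → B.til a z * B.til (B.G z₀) z = (z - z₀) * B.til a₁ z) ∧
      B.til (B.G z₀) z₀ ≠ 0 ∧
      analyticOrderAt (B.til a) z₀ = analyticOrderAt (B.til a₁) z₀ + 1 := by
  obtain ⟨a₁, h1, h2⟩ := B.step hz ha
  exact ⟨a₁, h1, h2, B.til_G hz, B.order_step hz h2⟩

/-- **Functions and their expansions**: `a(t, u) = 0` in `F` if and only if `ã = 0` on the disc. Proof: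
if `ã = 0`, the division step at `0` shows by induction that the order of `a(t, u)` at `P` is larger
than any integer; if `ã` has order `n` at `0`, induction on `n` shows `a(t, u) ≠ 0` (for `n = 0` the
value at `P` is `ã(0)`). File `H27Branch`. -/
theorem eq_zero_iff (a : ℂ[X][X]) :
    H27.ee B.t B.u a = 0 ↔ ∀ z : ℂ, ‖z‖ < B.ρ → B.til a z = 0 :=
  B.ee_eq_zero_iff a

/-- **Orders are finite**: if `a(t, u) ≠ 0`, then `ã` has a finite order at every point of the disc
(`eq_zero_iff` and the identity theorem). File `H27Branch`. -/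
theorem order_finite {a : ℂ[X][X]} (ha : H27.ee B.t B.u a ≠ 0) {z₀ : ℂ} (hz : ‖z₀‖ < B.ρ) :
    analyticOrderAt (B.til a) z₀ ≠ ⊤ :=
  B.order_ne_top ha hz

/-- **Denominators.** Let `f = a(t, u) / b(t, u)`, the order of `b̃` at `z₀` being `n`. Then `f` or
`f⁻¹` has a representation whose denominator does not vanish at `z₀`. Proof by induction on `n`: if
`b̃(z₀) ≠ 0`, this is `f = a/b`; if `ã(z₀) ≠ 0`, it is `f⁻¹ = b/a`; if both vanish, the division step
replaces `(a, b)` by `(a₁, b₁)`, and the order of the denominator by `n - 1`. File `H27Branch`. -/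
theorem regular_or_inverse_regular {z₀ : ℂ} (hz : ‖z₀‖ < B.ρ) (n : ℕ) (f : F) (a b : ℂ[X][X])
    (hb : H27.ee B.t B.u b ≠ 0) (hf : f * H27.ee B.t B.u b = H27.ee B.t B.u a)
    (hn : analyticOrderAt (B.til b) z₀ = n) :
    (∃ a b : ℂ[X][X], B.til b z₀ ≠ 0 ∧ f * H27.ee B.t B.u b = H27.ee B.t B.u a) ∨
    (∃ a b : ℂ[X][X], B.til b z₀ ≠ 0 ∧ f⁻¹ * H27.ee B.t B.u b = H27.ee B.t B.u a) :=
  B.dichotomy hz n f a b hb hf hn

end Division

/-! ## 4. Discs of places

By `regular_or_inverse_regular` the functions `a(t, u) / b(t, u)` with `b̃(z) ≠ 0` form a valuation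
ring of `F`; `B.σ z` is the corresponding place (`‖z‖ < ρ`). An *analytic disc* `H27.AnDisc P` is a map
`z ↦ D.σ z` from complex numbers to places with `D.σ 0 = P`, a radius `D.r` and a coordinate `D.t`,
with the properties of `MordellWeil.exists_analytic_disc`; `B` defines one
(`H27.Branch.toAnDisc`). -/

section Discs

variable {F : Type*} [Field F] [Algebra ℂ F] [IsFF ℂ F]

/-- **The points of the disc**: `f` is regular at `σ z` if and only if it can be written with a
denominator which does not vanish at `z`. File `H27Branch`. -/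
theorem regular_iff {P : Place ℂ F} (B : H27.Branch P) {z : ℂ} (hz : ‖z‖ < B.ρ) (f : F) :
    (B.σ z).adicValuation f ≤ 1 ↔
      ∃ a b : ℂ[X][X], B.til b z ≠ 0 ∧ f * H27.ee B.t B.u b = H27.ee B.t B.u a :=
  B.σ_le_one_iff hz f

/-- **Values on the disc**: `f = a(t, u) / b(t, u)` with `b̃(z) ≠ 0` has the value `ã(z) / b̃(z)` at
`σ z`. So regular functions are analytic on the disc. File `H27Branch`. -/
theorem value_on_disc {P : Place ℂ F} (B : H27.Branch P) {z : ℂ} (hz : ‖z‖ < B.ρ) {f : F}
    {a b : ℂ[X][X]} (hf : f * H27.ee B.t B.u b = H27.ee B.t B.u a) (hb : B.til b z ≠ 0) :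
    (B.σ z).adicValuation f ≤ 1 ∧ H27.val (B.σ z) f = B.til a z / B.til b z :=
  B.val_σ_of_frac hz hf hb

/-- **Which places are on the disc**: a place at which `t` has the value `z` and `u` the value `η(z)`
is `σ z` (its valuation ring contains that of `σ z`). So the disc contains all places near `P`. File
`H27Branch`. -/
theorem eq_point_of_values {P : Place ℂ F} (B : H27.Branch P) {z : ℂ} (hz : ‖z‖ < B.ρ)
    (Q : Place ℂ F) (ht : Q.adicValuation B.t ≤ 1) (hu : Q.adicValuation B.u ≤ 1)
    (htv : H27.val Q B.t = z) (huv : H27.val Q B.u = B.η z) : B.σ z = Q :=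
  B.eq_σ hz Q ht hu htv huv

/-- **The coordinate**: `t - z` has a simple zero at `σ z`. Proof: it vanishes there; and the numerator
of a uniformiser at `σ z` vanishes at `z`, so by the division step the uniformiser is `t - z` times a
regular function. File `H27Branch`. -/
theorem coordinate_simple_zero {P : Place ℂ F} (B : H27.Branch P) {z : ℂ} (hz : ‖z‖ < B.ρ) :
    (B.σ z).ord (B.t - algebraMap ℂ F z) = 1 :=
  B.ord_t hz

/-- **The points of a disc are distinct** (`t(σ z) = z`). File `H27DiscDef`. -/
theorem disc_injective {P : Place ℂ F} (D : H27.AnDisc P) {z w : ℂ} (hz : ‖z‖ < D.r)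
    (hw : ‖w‖ < D.r) (h : D.σ z = D.σ w) : z = w :=
  D.σ_inj hz hw h

/-- **Functions separate places**: for `P ≠ Q` some function has a zero at `P` and a pole at `Q`. File
`H27Pts`. -/
theorem exists_separating_function {P Q : Place ℂ F} (h : P ≠ Q) :
    ∃ f : F, f ≠ 0 ∧ P.adicValuation f < 1 ∧ Q.adicValuation f⁻¹ < 1 :=
  H27.exists_sep h

/-- **Discs with different centres are disjoint near the centres** (a separating function is small on
the one and large on the other). File `H27Pts`. -/
theorem discs_disjoint {P P' : Place ℂ F} (D : H27.AnDisc P) (D' : H27.AnDisc P') (h : P ≠ P') :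
    ∀ᶠ p : ℂ × ℂ in 𝓝 (0, 0), D.σ p.1 ≠ D'.σ p.2 :=
  D.eventually_ne D' h

/-- **Simple zeros**: if `h` has a simple zero at `P`, the function `z ↦ h(σ z)` has a derivative `≠ 0`
at `0` (`h / t` is a unit at `P`). File `H27Pts`. -/
theorem simple_zero_derivative {P : Place ℂ F} (D : H27.AnDisc P) {h : F}
    (hh : P.adicValuation h = exp (-1 : ℤ)) :
    ∃ c : ℂ, c ≠ 0 ∧ HasDerivAt (fun z => H27.val (D.σ z) h) c 0 :=
  D.hasDerivAt_val_of_ord_one hh

end Discs

/-! ## 5. Compactness

`U` is an ultrafilter on the set of places; `∀ᶠ Q in U` means "for `U`-almost all places". -/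

section Compactness

variable {F : Type*} [Field F] [Algebra ℂ F] [IsFF ℂ F] (U : Ultrafilter (Place ℂ F))

/-- **Functions bounded along `U`** form a valuation ring `limRing U` (either `f` is regular and
`|f| ≤ 1` at `U`-almost all places, or `f⁻¹` is). Its place is the limit `lim U`. File `H27Compact`. -/
theorem mem_limRing (f : F) : f ∈ H27.limRing U ↔
    ∃ B : ℝ, ∀ᶠ Q in (U : Filter (Place ℂ F)), Q.adicValuation f ≤ 1 ∧ ‖H27.val Q f‖ ≤ B :=
  Iff.rfl

/-- **Their values converge** along `U` (closed discs in `ℂ` are compact). File `H27Compact`. -/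
theorem exists_limit_value {f : F} (hf : f ∈ H27.limRing U) :
    ∃ c : ℂ, Tendsto (fun Q : Place ℂ F => H27.val Q f) U (𝓝 c) :=
  H27.exists_lim U hf

/-- **Functions with limit zero are not units**: if `f ≠ 0` tends to `0` along `U`, then `f⁻¹` is not
bounded along `U`. So the value of `f` at `lim U` is the limit of its values. File `H27Compact`. -/
theorem inverse_not_bounded {f : F} (hf0 : f ≠ 0)
    (hf : ∀ᶠ Q in (U : Filter (Place ℂ F)), Q.adicValuation f ≤ 1)
    (hlim : Tendsto (fun Q : Place ℂ F => H27.val Q f) U (𝓝 0)) :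
    ¬ ∃ B : ℝ, ∀ᶠ Q in (U : Filter (Place ℂ F)), Q.adicValuation f⁻¹ ≤ 1 ∧ ‖H27.val Q f⁻¹‖ ≤ B :=
  H27.not_bounded_inv U hf0 hf hlim

/-- **Discs around the limit**: `U`-almost all places are on every disc around `lim U`, with a small
parameter. File `H27Global`. -/
theorem almost_all_on_disc (D : H27.AnDisc (H27.lim U)) {ε : ℝ} (hε : 0 < ε) :
    ∀ᶠ Q in (U : Filter (Place ℂ F)), ∃ z : ℂ, ‖z‖ < ε ∧ ‖z‖ < D.r ∧ D.σ z = Q :=
  H27.lim_nhds U D hε

/-- **Compactness**: given a disc `D P` around every place and radii `r' P > 0`, finitely many of the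
discs of radius `r' P` contain all places. (Otherwise some ultrafilter contains the complements of all
discs; look at its limit.) File `H27Compact`. -/
theorem finite_cover (D : ∀ P : Place ℂ F, H27.AnDisc P) (r' : Place ℂ F → ℝ)
    (hr' : ∀ P, 0 < r' P) :
    ∃ S : Finset (Place ℂ F), ∀ Q : Place ℂ F, ∃ P ∈ S, ∃ z : ℂ, ‖z‖ < r' P ∧ ‖z‖ < (D P).r ∧
      (D P).σ z = Q :=
  H27.exists_finite_cover D r' hr'

end Compactness

/-! ## 6. Moving divisors and the residual lemma

Let `Q k` be finitely many places with discs `D k`. For parameters `p = (p_k)` the moving points are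
`H27.pt D p k = (D k).σ (p k)`, and `H27.dd D p` is the divisor `Σ_k (D k).σ (p k)`; so `dd D 0` is the
sum `E` of the `Q k`. `riemannRochSpace E` is `L(E)` and `ell E` its dimension, `genusFF ℂ F` is the
genus `g`, `Divisor.principal` the group of principal divisors. A divisor of degree `g` which is a
sum of `g` distinct points is nonspecial if `ell = 1`. -/

section MovingDivisors

variable {F : Type*} [Field F] [Algebra ℂ F] [IsFF ℂ F]

/-- **Simple zeros at given places** (weak approximation). File `H27Residual`. -/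
theorem exists_simple_zeros {m : Type*} [Fintype m] (Q : m → Place ℂ F) :
    ∃ h : F, ∀ k, (Q k).adicValuation h = exp (-1 : ℤ) :=
  H27.exists_simple_zeros Q

/-- **Nonspecial divisors**: outside any finite set of places there are `g` distinct places whose sum
has `ell = 1`. File `H27Chart` (from the theorem of Riemann and Roch, `H3RR.exists_nonspecial`). -/
theorem exists_nonspecial_family (S : Finset (Place ℂ F)) :
    ∃ Q : Fin (genusFF ℂ F) → Place ℂ F, Function.Injective Q ∧ (∀ j, Q j ∉ S) ∧
      ell (∑ j, Finsupp.single (Q j) 1 : Divisor ℂ F) = 1 :=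
  H27.exists_family S

/-- **A basis of `L(E)`.** Let `E = Σ Q_i + Σ Q_j` with distinct places, `i ∈ ι`, `j ∈ κ`, where
`#κ = g` and `Σ Q_j` is nonspecial, and let `h` have simple zeros at all of them. The "residues"
`(h f)(Q_i)`, `i ∈ ι`, of `f ∈ L(E)` determine `f` up to constants, and they are arbitrary: `L(E)` has
the basis `1`, `s_i` with `(h s_i)(Q_i') = δ`. Proof: the kernel of `f ↦ ((h f)(Q_i))` is
`L(Σ Q_j) = ℂ`, and `ell E = #ι + 1`. File `H27Residual`. -/
theorem riemannRoch_basis {ι κ : Type*} [Fintype ι] [Fintype κ] [DecidableEq ι]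
    {Q : ι ⊕ κ → Place ℂ F} (hQ : Function.Injective Q) (hcard : Fintype.card κ = genusFF ℂ F)
    (hell : ell (∑ j, Finsupp.single (Q (Sum.inr j)) 1 : Divisor ℂ F) = 1)
    {h : F} (hh : ∀ k, (Q k).adicValuation h = exp (-1 : ℤ)) :
    ∃ s : ι → F, (∀ i, s i ∈ riemannRochSpace (∑ k, Finsupp.single (Q k) 1 : Divisor ℂ F)) ∧
      (∀ i i', H27.val (Q (Sum.inl i')) (h * s i) = if i' = i then 1 else 0) ∧
      ∀ f ∈ riemannRochSpace (∑ k, Finsupp.single (Q k) 1 : Divisor ℂ F),
        ∃ a : ℂ, f = algebraMap ℂ F a + ∑ i, H27.val (Q (Sum.inl i)) (h * f) • s i :=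
  H27.exists_basis hQ hcard hell hh

/-- **Principal divisors from functions.** Let `p` be so small that the points `P_k = (D k).σ (p k)`
are distinct and `h` has at `P_k` the order given by `E = dd D 0`. If `S ≠ 0` is in `L(E)` and `h S`
vanishes at all `P_k`, then `dd D p - E = div S` (`E + div S - dd D p` is effective of degree `0`).
File `H27Residual`. -/
theorem principal_of_vanish {m : Type*} [Fintype m] {Q : m → Place ℂ F}
    (D : ∀ k, H27.AnDisc (Q k)) {h : F} (hh0 : h ≠ 0) {p : m → ℂ}
    (hinj : Function.Injective (H27.pt D p))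
    (hord : ∀ k, (H27.pt D p k).ord h = H27.dd D 0 (H27.pt D p k))
    {S : F} (hS0 : S ≠ 0) (hSL : S ∈ riemannRochSpace (H27.dd D 0))
    (hlt : ∀ k, (H27.pt D p k).adicValuation (h * S) < 1) :
    H27.dd D p - H27.dd D 0 ∈ Divisor.principal (K := ℂ) (F := F) :=
  H27.principal_of_vanish D hh0 hinj hord hS0 hSL hlt

/-- **Functions from principal divisors** (the converse): if `dd D p - E = div S`, then `S ∈ L(E)` and
`h S` vanishes at the moving points. File `H27Residual`. -/
theorem vanish_of_principal {m : Type*} [Fintype m] {Q : m → Place ℂ F}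
    (D : ∀ k, H27.AnDisc (Q k)) {h : F} (hh0 : h ≠ 0) {p : m → ℂ}
    (hord : ∀ k, (H27.pt D p k).ord h = H27.dd D 0 (H27.pt D p k))
    {S : F} (hS0 : S ≠ 0) (hdiv : ∀ v : Place ℂ F, (H27.dd D p - H27.dd D 0) v = v.ord S) :
    S ∈ riemannRochSpace (H27.dd D 0) ∧ ∀ k, (H27.pt D p k).adicValuation (h * S) < 1 :=
  H27.vanish_of_principal D hh0 hord hS0 hdiv

/-- **The conditions on `p` hold near `0`**: the moving points stay distinct, and along the discs the
order of `h` is that of `E` (`h` has no other zeros near `Q k`). Files `H27Pts`, `H27Residual`. -/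
theorem conditions_hold {m : Type*} [Fintype m] {Q : m → Place ℂ F} (D : ∀ k, H27.AnDisc (Q k))
    (hQ : Function.Injective Q) {h : F} (hh : ∀ k, (Q k).adicValuation h = exp (-1 : ℤ)) :
    (∀ᶠ p : m → ℂ in 𝓝 0, Function.Injective (H27.pt D p)) ∧
      ∀ k, ∀ᶠ z in 𝓝 (0 : ℂ), ((D k).σ z).ord h = H27.dd D 0 ((D k).σ z) :=
  ⟨H27.eventually_injective D hQ, H27.eventually_ord D hQ hh⟩

/-- **Linear systems with parameters**: if the matrix `A(z)` and the right hand side `b(z)` are
analytic at `x` and `det A(x) ≠ 0`, the system has a solution `c(z)` analytic at `x`. File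
`H27Anal`. -/
theorem linear_system {E : Type*} [NormedAddCommGroup E] [NormedSpace ℂ E] {ι : Type*} [Fintype ι]
    [DecidableEq ι] {A : E → Matrix ι ι ℂ} {b : E → ι → ℂ} {x : E}
    (hA : ∀ i j, ContDiffAt ℂ ⊤ (fun z => A z i j) x)
    (hb : ∀ i, ContDiffAt ℂ ⊤ (fun z => b z i) x) (hdet : (A x).det ≠ 0) :
    ∃ c : E → ι → ℂ, (∀ i, ContDiffAt ℂ ⊤ (fun z => c z i) x) ∧
      (∀ᶠ z in 𝓝 x, (A z).det ≠ 0 ∧ (A z).mulVec (c z) = b z) :=
  H27.exists_solution hA hb hdet

/-- **Implicit functions with parameters** in a Banach space. File `H27Anal`. -/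
theorem implicit_function_parameters {E : Type*} [NormedAddCommGroup E] [NormedSpace ℂ E]
    [CompleteSpace E] (G : E × ℂ → ℂ) (hG : ContDiffAt ℂ ⊤ G 0) (h0 : G 0 = 0) (c : ℂ) (hc : c ≠ 0)
    (hd : HasDerivAt (fun w => G (0, w)) c 0) :
    ∃ U : E → ℂ, ContDiffAt ℂ ⊤ U 0 ∧ U 0 = 0 ∧
      ∀ᶠ p : E × ℂ in 𝓝 0, (G p = 0 ↔ U p.1 = p.2) :=
  H27.exists_implicit_gen G hG h0 c hc hd

/-- **The residual lemma.** Let `E = Σ Q_i + Σ Q_j` be as in `riemannRoch_basis`. There is a map
`U : ℂ^ι → ℂ^κ`, analytic at `0`, `U(0) = 0`, such that for small `z` the divisor with the parameters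
`(z, U(z))` is equivalent to `E`, and for small `(z, w)` the divisor with the parameters `(z, w)` is
equivalent to `E` only if `w = U(z)`. Proof: the function is `S = 1 + Σ c_i s_i`. That `h S` vanishes
at the moving `Q_i` is a linear system for the `c_i` with matrix `1` at `z = 0` (`linear_system`), so
`c_i(z)` is analytic with `c_i(0) = 0`; that it vanishes at the moving `Q_j` is an equation for `w_j`
with derivative `≠ 0` (`simple_zero_derivative`, `implicit_function_parameters`). Conversely every
function of `L(E)` with these zeros is a multiple of `S`, by `riemannRoch_basis`. File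
`H27Residual`. -/
theorem residual_lemma {ι κ : Type*} [Fintype ι] [Fintype κ] {Q : ι ⊕ κ → Place ℂ F}
    (D : ∀ k, H27.AnDisc (Q k)) (hQ : Function.Injective Q)
    (hcard : Fintype.card κ = genusFF ℂ F)
    (hell : ell (∑ j, Finsupp.single (Q (Sum.inr j)) 1 : Divisor ℂ F) = 1) :
    ∃ U : (ι → ℂ) → (κ → ℂ), ContDiffAt ℂ ⊤ U 0 ∧ U 0 = 0 ∧
      (∀ᶠ z in 𝓝 (0 : ι → ℂ), H27.dd D (Sum.elim z (U z)) - H27.dd D 0 ∈
        Divisor.principal (K := ℂ) (F := F)) ∧
      (∀ᶠ p in 𝓝 (0 : (ι → ℂ) × (κ → ℂ)), H27.dd D (Sum.elim p.1 p.2) - H27.dd D 0 ∈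
        Divisor.principal (K := ℂ) (F := F) → p.2 = U p.1) :=
  H27.residual D hQ hcard hell

end MovingDivisors

/-! ## 7. The local group law and the exponential map

`H27.cls X` is the class of a divisor `X` of degree `0` (and `0` otherwise), `H27.pp P P'` the class of
`P - P'`. `H27.disc P` is a chosen disc around `P`, and `H27.mv Q p` the moving divisor for the chosen
discs around the places `Q k`. -/

section GroupLaw

/-- **Classes** of divisors of degree zero are equal if and only if the difference is principal, and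
classes add. File `H27Chart`. -/
theorem class_eq_iff {F : Type*} [Field F] [Algebra ℂ F] [IsFF ℂ F] {X Y : Divisor ℂ F}
    (hX : Divisor.degree X = 0) (hY : Divisor.degree Y = 0) :
    (H27.cls X = H27.cls Y ↔ X - Y ∈ Divisor.principal (K := ℂ) (F := F)) ∧
      H27.cls (X + Y) = H27.cls X + H27.cls Y :=
  ⟨H27.cls_eq_iff hX hY, H27.cls_add hX hY⟩

/-- **Residual lemma for two families** `Q₁` (any number of places) and `Q₂` (`g` places, nonspecial),
all distinct: a small movement `z` of `Q₁` is compensated by exactly one small movement `U(z)` of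
`Q₂`. File `H27Chart`. -/
theorem compensation {F : Type*} [Field F] [Algebra ℂ F] [IsFF ℂ F] {ι κ : Type*} [Fintype ι]
    [Fintype κ] (Q₁ : ι → Place ℂ F) (Q₂ : κ → Place ℂ F)
    (hQ : Function.Injective (Sum.elim Q₁ Q₂)) (hcard : Fintype.card κ = genusFF ℂ F)
    (hell : ell (∑ j, Finsupp.single (Q₂ j) 1 : Divisor ℂ F) = 1) :
    ∃ U : (ι → ℂ) → (κ → ℂ), ContDiffAt ℂ ⊤ U 0 ∧ U 0 = 0 ∧
      (∀ᶠ z in 𝓝 (0 : ι → ℂ), (H27.mv Q₁ z + H27.mv Q₂ (U z)) - (H27.mv Q₁ 0 + H27.mv Q₂ 0) ∈
        Divisor.principal (K := ℂ) (F := F)) ∧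
      (∀ᶠ p in 𝓝 (0 : (ι → ℂ) × (κ → ℂ)),
        (H27.mv Q₁ p.1 + H27.mv Q₂ p.2) - (H27.mv Q₁ 0 + H27.mv Q₂ 0) ∈
          Divisor.principal (K := ℂ) (F := F) → p.2 = U p.1) :=
  H27.residual' Q₁ Q₂ hQ hcard hell

/-- **Second order terms**: a map which is `C²` at `0` with derivative `0` there satisfies
`‖f x - f y‖ ≤ C max(‖x‖, ‖y‖) ‖x - y‖` near `0`. File `H27LogExp`. -/
theorem quadratic_bound {V W : Type*} [NormedAddCommGroup V] [NormedSpace ℝ V]
    [NormedAddCommGroup W] [NormedSpace ℝ W] (f : V → W) (hf : ContDiffAt ℝ 2 f 0)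
    (hf' : fderiv ℝ f 0 = 0) :
    ∃ C r : ℝ, 0 < r ∧ 0 ≤ C ∧ ∀ x ∈ ball (0 : V) r, ∀ y ∈ ball (0 : V) r,
      ‖f x - f y‖ ≤ C * max ‖x‖ ‖y‖ * ‖x - y‖ :=
  H27.exists_quadratic_lipschitz f hf hf'

/-- **A local group law is addition up to a bilinear error**: if `M` is `C²` at `0`, `M(x, 0) = x` and
`M(0, y) = y` near `0`, then `‖M(x, y) - x - y‖ ≤ C ‖x‖ ‖y‖`. File `H27LogExp`. -/
theorem bilinear_error {V : Type*} [NormedAddCommGroup V] [NormedSpace ℝ V] (M : V × V → V)
    (hM : ContDiffAt ℝ 2 M 0) (h1 : ∀ᶠ x in 𝓝 (0 : V), M (x, 0) = x)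
    (h2 : ∀ᶠ y in 𝓝 (0 : V), M (0, y) = y) :
    ∃ C r : ℝ, 0 < r ∧ 0 ≤ C ∧ ∀ x y : V, ‖x‖ < r → ‖y‖ < r →
      ‖M (x, y) - x - y‖ ≤ C * ‖x‖ * ‖y‖ :=
  H27.exists_bilinear_remainder M hM h1 h2

/-- **The logarithm.** Let `H` ("halving", the inverse of `x ↦ M(x, x)`) be `1/2` up to a second order
error. Then `H^k(x)` tends to `0` like `(3/4)^k`, `2^k H^k(x)` is bounded by `2 ‖x‖` and converges to
some `L(x)`, and `L` is the identity up to an error with Lipschitz constant `1/4`; so `L` is
invertible near `0`. File `H27LogExp`. -/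
theorem exists_logarithm {V : Type*} [NormedAddCommGroup V] [NormedSpace ℝ V] (H : V → V)
    [CompleteSpace V] (C r : ℝ) (hr : 0 < r) (hC : 0 ≤ C) (hCr : C * r ≤ 1 / 64) (H0 : H 0 = 0)
    (hH : ∀ x ∈ closedBall (0 : V) r, ∀ y ∈ closedBall (0 : V) r,
      ‖H x - H y - (2 : ℝ)⁻¹ • (x - y)‖ ≤ C * max ‖x‖ ‖y‖ * ‖x - y‖) :
    (∀ x ∈ closedBall (0 : V) r, ∀ k : ℕ, ‖H^[k] x‖ ≤ (3 / 4) ^ k * ‖x‖) ∧
    (∀ x ∈ closedBall (0 : V) r, ∀ k : ℕ, 2 ^ k * ‖H^[k] x‖ ≤ 2 * ‖x‖) ∧
    ∃ L : V → V, (∀ x ∈ closedBall (0 : V) r,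
        Tendsto (fun k : ℕ => (2 : ℝ) ^ k • H^[k] x) atTop (𝓝 (L x))) ∧
      (∀ x ∈ closedBall (0 : V) r, ∀ y ∈ closedBall (0 : V) r,
        ‖L x - L y - (x - y)‖ ≤ (1 / 4) * ‖x - y‖) :=
  H27.exists_log H C r hr hC hCr H0 hH

/-- **Extension**: a map `f : V → A` which is additive on a ball extends to a homomorphism
(`e(v) = 2^n f(v / 2^n)` for large `n`). With `f = Φ ∘ L⁻¹` this gives
`MordellWeil.abstract_exponential`: halving commutes with `M`, since `Φ` is injective near `0`, so
`L(M(x, y)) = L(x) + L(y)` by `bilinear_error`. File `H27LogExp`. -/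
theorem extend_additive {V A : Type*} [NormedAddCommGroup V] [NormedSpace ℝ V] [AddCommGroup A]
    (f : V → A) (ε : ℝ) (hε : 0 < ε)
    (hf : ∀ v w : V, ‖v‖ < ε → ‖w‖ < ε → f (v + w) = f v + f w) :
    ∃ e : V →+ A, ∀ v : V, ‖v‖ < ε → e v = f v :=
  H27.exists_extend f ε hε hf

/-- **The exponential map of `Pic⁰`**: a homomorphism `e : ℂ^g → Pic⁰`, injective near `0`, such that
the class of `σ z - P` is the image of a small vector for `z` small, for every place `P`. Proof: take
three disjoint nonspecial families `Q`, `T`, `T'` and `Φ(x)` = the class of `Q(x) - Q(0)`. By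
`compensation` a movement `x` of `Q` is compensated by `T(U₃(x))` and `y` by `T'(U₁(y))`; a movement
of `T` and `T'` together is compensated by one of `Q`, given by `U₄`. So `Φ(x) + Φ(y) = Φ(M(x, y))`
with `M(x, y) = U₄(U₃(x), U₁(y))`, and the uniqueness of `U₄` gives `M(x, 0) = x`, `M(0, y) = y` and
the injectivity of `Φ`. Now `MordellWeil.abstract_exponential`. For the last assertion a movement of
`P` is compensated first by a fourth family and then by `Q`. File `H27Chart`. -/
theorem exponential_of_pic (F : Type*) [Field F] [Algebra ℂ F] [IsFF ℂ F] :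
    ∃ e : (Fin (genusFF ℂ F) → ℂ) →+ Pic0 ℂ F,
      (∃ ε > 0, Set.InjOn e (ball (0 : Fin (genusFF ℂ F) → ℂ) ε)) ∧
      ∀ P : Place ℂ F, ∀ δ > 0, ∀ᶠ z in 𝓝 (0 : ℂ), ∃ v : Fin (genusFF ℂ F) → ℂ,
        ‖v‖ < δ ∧ e v = H27.pp ((H27.disc P).σ z) P :=
  H27.exists_exp_pic0 F

end GroupLaw

/-! ## 8. The global statement -/

section Global

variable {F : Type*} [Field F] [Algebra ℂ F] [IsFF ℂ F]

/-- **A function with one pole**: for every place `P₀` there is a nonconstant function regular at all
other places (Riemann's inequality for `(g + 1) P₀`). File `H27Global`. -/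
theorem exists_function_one_pole (P₀ : Place ℂ F) :
    ∃ f : F, (∀ c : ℂ, f ≠ algebraMap ℂ F c) ∧ ∀ P, P ≠ P₀ → P.adicValuation f ≤ 1 :=
  H27.exists_nonconst P₀

/-- **Connectedness.** A subgroup `H` of `Pic⁰` which contains, for every place `P`, the classes of
`σ z - P` for all small `z`, contains the classes of all differences of two places. Proof: if
`P₁ - P₀` is not in `H`, let `C` be the set of places `Q` with `Q - P₁ ∈ H`. It is open and closed (in
the sense of discs) and does not contain `P₀`, so `f` of `exists_function_one_pole` is regular on `C`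
and `|f|` has a maximum on `C` (section 5); by the maximum principle `f` is constant on a disc, so
`f - c` has infinitely many zeros. File `H27Global`. -/
theorem contains_differences (H : AddSubgroup (Pic0 ℂ F))
    (hH : ∀ P : Place ℂ F, ∀ᶠ z in 𝓝 (0 : ℂ), H27.pp ((H27.disc P).σ z) P ∈ H)
    (P₁ P₀ : Place ℂ F) : H27.pp P₁ P₀ ∈ H :=
  H27.pp_mem_of_open H hH P₁ P₀

/-- **Bounded vectors.** If all classes of `Q - P₀` are images of vectors of norm `≤ B`, then the class
of `E - n P₀` is, for effective `E` of degree `n`, the image of a vector of norm `≤ n B`. Every class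
of degree `0` has this form with `n = g` (`H3RR.exists_effective_sub`, from Riemann's inequality), and
`B` exists by `contains_differences` and `finite_cover`. This is
`MordellWeil.exists_uniformisation`. File `H27Global`. -/
theorem effective_classes {V : Type*} [NormedAddCommGroup V] (e : V →+ Pic0 ℂ F) (P₀ : Place ℂ F)
    (B : ℝ) (hB : ∀ Q, ∃ v : V, ‖v‖ ≤ B ∧ e v = H27.pp Q P₀) (n : ℕ) (E : Divisor ℂ F)
    (hE : 0 ≤ E) (hd : Divisor.degree E = n) :
    ∃ v : V, ‖v‖ ≤ n * B ∧ e v = H27.cls (E - Finsupp.single P₀ (n : ℤ)) :=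
  H27.cls_effective e P₀ B hB n E hE hd

/-- **Torsion of `V/Λ`.** Let `V` be a real vector space of finite dimension and `e : V → A` a
homomorphism, injective near `0`, such that every `a ∈ A` is the image of a vector of bounded norm.
Then `#A[n] = n^(dim V)`. Proof: the kernel `Λ` is discrete, and it spans `V`, since a linear form
which vanishes on `Λ` is bounded; so it is a lattice, and `v ↦ e(v / n)` induces `Λ / n Λ = A[n]`.
File `H27Lattice`. -/
theorem card_torsion_quotient {V A : Type*} [NormedAddCommGroup V] [NormedSpace ℝ V]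
    [FiniteDimensional ℝ V] [AddCommGroup A] (e : V →+ A)
    (hinj : ∃ ε > 0, Set.InjOn e (ball (0 : V) ε)) (R : ℝ)
    (hR : ∀ a : A, ∃ v : V, ‖v‖ ≤ R ∧ e v = a) (n : ℕ) (hn : n ≠ 0) :
    Nat.card {a : A // n • a = 0} = n ^ Module.finrank ℝ V :=
  H27.natCard_torsion_of_exp e hinj R hR n hn

end Global

end Fermat.Agent.Guide.Uniformisation
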