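import Fermat.Agent.H12TW

/-!
# Guide: the unipotent group on the finite part, and functions invariant under it

Companion of `GuideConstantTerms` (block (C) of the octahedral case, S47, step C5) and of
`GuideOctCForms`; the operators on `X_f` are in `GuideOctCLevel`. Every theorem of this file is proved by
citing a theorem of the library; no other file imports this file. All constants cited are in the closure
of S47 and of no other statement. Author: helper12; files `H12TW` (helper12), `H7ZApprox`, `H7ZWhit`,
`H7ZMod` (helper7), `H59Def`, `H59XF` (helper59), `H51ZLoc`, `H51ZOp` (helper51). Notes: [474], [470].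

**What is shown.** `K` is a number field, `X_f` the finite part: a point `y` is a family of cosets
`y v ∈ PGL₂(K) / U_v`, one for every finite place `v` of `K`, almost all trivial; `PGL₂(K)` acts on all
components at the same time. `n b` and `d a` are the classes of `(1 b; 0 1)` and `(a 0; 0 1)`. The
constant term of an invariant function is a function `f` on `X_f` (with values in functions of the
heights) which is invariant under all `n b`, `b ∈ K`. Then:

* `f` is invariant under `n x` at *one* place, with `x ∈ K` (`invariant_at_one_place`), because of strong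
  approximation for the additive group of `K` (`orbit_of_local_orbits`). No adeles are needed: `n x`
  at the place `w` alone agrees on the point `y` with `n b` for some `b ∈ K`;
* the Hecke operator at a place `w` with maximal `U_w`, a sum over `q + 1` neighbours, has only two
  different terms on `f` (`hecke_on_invariant`): `q f(d ϖ y) + f((d ϖ)⁻¹ y)`, with `d ϖ` at `w` alone;
* if `a ∈ Kˣ` is close to `1` outside a finite set `W` of places, then `d a` at all places has on `f`
  the same effect as `d a` at the places of `W` alone (`dilation_near_one`).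

The last two facts are the steps `step_finite` and `fixed_point` of `GuideConstantTerms`: the product of
the operators `d a` at the places `w_i` alone is the action of a global element, which is trivial on
constant terms up to a dilation of the heights.

**Reading order.** 1 the groups at one place; 2 approximation; 3 orbits of `n(K)` on `X_f`; 4 invariant
functions.
-/

set_option autoImplicit false

open IsDedekindDomain HeightOneSpectrum WithZero NumberField Matrix
open scoped MatrixGroups
open scoped Classical

noncomputable section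

namespace Fermat.Agent.Guide.Unipotent

open Fermat.Agent.H59XF Fermat.Agent.H59D Fermat.Agent.H7.Z
open Fermat.Agent.H51Z (bm lop)
open Fermat.Agent.H12TW (updW NInv)

/-! ## 1. The groups at one place

`R` is a Dedekind domain with field of fractions `K` and `w` a maximal ideal; the valuation
`w.valuation K` is written multiplicatively, with `exp (-1)` the value of a uniformiser. -/

section Place

variable {R : Type*} [CommRing R] [IsDedekindDomain R] {K : Type*} [Field K] [Algebra R K]
  [IsFractionRing R K]

/-- **The groups.** `U0 w` is the image in `PGL₂(K)` of the group `GLw w` of the matrices with entries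
integral at `w` and determinant a unit at `w`; `Gam w n` is the image of the group `GLcong w n` of the
matrices in `GLw w` which are congruent to `1` modulo `w^n`. (Definitions of `H59Def`.) -/
theorem groups (w : HeightOneSpectrum R) (n : ℕ) :
    (∀ g : GL (Fin 2) K, g ∈ GLw w ↔ (∀ i j, w.valuation K (g i j) ≤ 1) ∧
      w.valuation K (g : Matrix (Fin 2) (Fin 2) K).det = 1) ∧
    (∀ g : GL (Fin 2) K, g ∈ GLcong w n ↔ g ∈ GLw w ∧ ∀ i j, w.valuation K
      ((g : Matrix (Fin 2) (Fin 2) K) i j - (1 : Matrix (Fin 2) (Fin 2) K) i j) ≤
        exp (-(n : ℤ))) ∧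
    (∀ x : PGL(2, K), x ∈ U0 w ↔ ∃ g ∈ GLw w, ProjGenLinGroup.mk g = x) ∧
    ∀ x : PGL(2, K), x ∈ Gam w n ↔ ∃ g ∈ GLcong w n, ProjGenLinGroup.mk g = x :=
  ⟨fun _ => Iff.rfl, fun _ => Iff.rfl, fun _ => Iff.rfl, fun _ => Iff.rfl⟩

/-- **The congruence subgroups are normal in `U0 w`.** File `H12TW`. -/
theorem congruence_conj {w : HeightOneSpectrum R} {n : ℕ} {g k : PGL(2, K)} (hg : g ∈ Gam w n)
    (hk : k ∈ U0 w) : k⁻¹ * g * k ∈ Gam w n :=
  H12TW.Gam_conj hg hk

/-- **The elements `n b` and `d a`** of `PGL₂(K)`, and their relation `d a · n b = n (a b) · d a`.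
(`borP K`, definition of `H7ZMod`; `bm a b` is the matrix `(a b; 0 1)`.) -/
theorem borel (K : Type*) [Field K] (a : Kˣ) (b : K) :
    ((bm a b : GL (Fin 2) K) : Matrix (Fin 2) (Fin 2) K) = !![(a : K), b; 0, 1] ∧
    (borP K).n b = ProjGenLinGroup.mk (bm 1 b) ∧ (borP K).d a = ProjGenLinGroup.mk (bm a 0) ∧
    (borP K).d a * (borP K).n b = (borP K).n ((a : K) * b) * (borP K).d a :=
  ⟨rfl, rfl, rfl, (borP K).conj a b⟩

/-- **Diagonal matrices close to `1`**: if `a` is a unit at `w` and `a ≡ 1` modulo `w^n`, then `d a` is in
`Gam w n`. File `H12TW`. -/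
theorem diagonal_close_to_one {w : HeightOneSpectrum R} {n : ℕ} {a : Kˣ}
    (ha : w.valuation K (a : K) = 1)
    (ha' : w.valuation K ((a : K) - 1) ≤ exp (-(n : ℤ))) : (borP K).d a ∈ Gam w n :=
  H12TW.d_mem_Gam ha ha'

end Place

variable {K : Type*} [Field K] [NumberField K]

/-- **Iwasawa decomposition**: if the level is maximal at `w`, every coset is the one of `n β · d a`. File
`H7ZMod`. -/
theorem iwasawa {w : HeightOneSpectrum (𝓞 K)} {U : Subgroup PGL(2, K)} (hU : U = U0 w)
    (x : PGL(2, K) ⧸ U) :
    ∃ (β : K) (a : Kˣ), x = (((borP K).n β * (borP K).d a : PGL(2, K)) : PGL(2, K) ⧸ U) :=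
  exists_borel_rep' hU x

/-! ## 2. Approximation -/

/-- **Strong approximation for the additive group of `K`**: for a finite set `T` of places, elements
`x w ∈ K` and exponents `n w` there is `β ∈ K` with `β ≡ x w` modulo `w^(n w)` for `w ∈ T`, integral at
all other places. (Chinese remainder theorem, after multiplication by a common denominator, whose
prime factors are added to `T`.) File `H7ZApprox`. -/
theorem strong_approximation (T : Finset (HeightOneSpectrum (𝓞 K)))
    (x : HeightOneSpectrum (𝓞 K) → K) (n : HeightOneSpectrum (𝓞 K) → ℕ) :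
    ∃ β : K, (∀ w ∈ T, w.valuation K (β - x w) ≤ exp (-(n w : ℤ))) ∧
      ∀ w ∉ T, w.valuation K β ≤ 1 :=
  exists_approx T x n

/-- **The levels** `L : Level (𝓞 K) K` of the block: a family of subgroups `L.U w`, equal to `U0 w` for
almost all `w`, each of which contains a congruence subgroup and is contained in a conjugate of `U0 w`.
They are compatible with the unipotent group: every conjugate of a small `n b` is in `L.U w`, and for
almost all `w` all integral `n b` are in `L.U w` (`BLevel`). Files `H59Def`, `H7ZMod`. -/
theorem levels (L : Level (𝓞 K) K) :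
    ({w | L.U w ≠ U0 w}.Finite ∧ (∀ w, ∃ n : ℕ, Gam w n ≤ L.U w) ∧
      ∀ w, ∃ c : PGL(2, K), ∀ g ∈ L.U w, c⁻¹ * g * c ∈ U0 w) ∧
    (∀ (w : HeightOneSpectrum (𝓞 K)) (g : PGL(2, K)), ∃ m : ℕ, ∀ b : K,
      w.valuation K b ≤ exp (-(m : ℤ)) → g⁻¹ * (borP K).n b * g ∈ L.fam.U w) ∧
    {w : HeightOneSpectrum (𝓞 K) |
      ¬ ∀ b : K, w.valuation K b ≤ 1 → (borP K).n b ∈ L.fam.U w}.Finite :=
  ⟨⟨L.fin, L.isOpen, L.bdd⟩, (bLevel L).small, (bLevel L).good⟩

/-! ## 3. Orbits of `n(K)` on the finite part -/

/-- **Points.** A point `y` of `XF L` is a family of cosets, almost all trivial; the group acts on all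
components. `XF.upd y w c` replaces the component at `w` by `c`, and `updW y W g` lets `g` act on the
components at the places of the finite set `W` only. (Definitions of `H59XF`, `H12TW`.) -/
theorem points {G ι : Type*} [Group G] {L : LevelFam G ι} (y : XF L) (g : G) (W : Finset ι) (w v : ι)
    (c : G ⧸ L.U w) :
    {i | y i ≠ ((1 : G) : G ⧸ L.U i)}.Finite ∧ (g • y) v = g • y v ∧
      XF.upd y w c w = c ∧ (v ≠ w → XF.upd y w c v = y v) ∧
      (v ∈ W → updW y W g v = g • y v) ∧ (v ∉ W → updW y W g v = y v) :=
  ⟨y.fin, rfl, XF.upd_same _ _ _, fun h => XF.upd_ne _ h _, fun h => H12TW.updW_mem _ _ h,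
    fun h => H12TW.updW_not_mem _ _ h⟩

/-- **Local orbits and global orbits.** If at every place `v` the component of `y'` is `n x · y v` for
some `x = x(v) ∈ K`, then `y' = n b · y` for one `b ∈ K`. Proof: outside a finite set `T` both
components are trivial and the integral `n b` are in the level; approximate the `x(v)`, `v ∈ T`, by
one `b`, integral outside `T` (`strong_approximation`, `levels`). File `H12TW`. -/
theorem orbit_of_local_orbits {G : Type*} [Group G] {B : Bor K G}
    {L : LevelFam G (HeightOneSpectrum (𝓞 K))} (hL : BLevel B L) (y y' : XF L)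
    (h : ∀ v, ∃ x : K, y' v = B.n x • y v) : ∃ b : K, y' = B.n b • y :=
  H12TW.exists_n_smul hL y y' h

/-! ## 4. Functions invariant under `n(K)` -/

section Invariant

variable {L : Level (𝓞 K) K} {E : Type*} {f : XF L.fam → E}

/-- **Definition of `NInv`** (`H12TW`). -/
theorem nInv_iff : NInv f ↔ ∀ (b : K) (y : XF L.fam), f ((borP K).n b • y) = f y :=
  Iff.rfl

/-- **`f` is constant on the fibres** of the map which forgets `n(K)` at every place separately. File
`H12TW`. -/
theorem invariant_under_local_orbits (hf : NInv f) {y y' : XF L.fam}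
    (h : ∀ v, ∃ x : K, y' v = (borP K).n x • y v) : f y' = f y :=
  hf.congr h

/-- **Invariance at one place**: `f` does not change if `n x` acts on the component at `w` only. The
second statement has an arbitrary component `c` at `w`. File `H12TW`. -/
theorem invariant_at_one_place (hf : NInv f) (y : XF L.fam) (w : HeightOneSpectrum (𝓞 K)) (x : K)
    (c : PGL(2, K) ⧸ L.fam.U w) :
    f (XF.upd y w ((borP K).n x • y w)) = f y ∧
      f (XF.upd y w ((borP K).n x • c)) = f (XF.upd y w c) :=
  ⟨hf.loc y w x, hf.upd_n y w x c⟩

/-- **The Hecke operator on `n(K)`-invariant functions.** The level is maximal at `w`, `R` represents the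
residue field (so `R.card = q`), and `T` is the local Hecke operator, the sum over the `q + 1`
neighbours `g n(b) d(ϖ)`, `b ∈ R`, and `g d(ϖ)⁻¹` of `g` (hypothesis `hT`; `lop w T` is `T` acting on the
component at `w`). On an invariant `f` it is `q f(d ϖ y) + f((d ϖ)⁻¹ y)`, with `d ϖ` acting on the
component at `w` only. Proof: take `g = n β · d a` (`iwasawa`); then `g n(b) d(ϖ) = n(β + a b) d(ϖ a)`. File
`H12TW`. -/
theorem hecke_on_invariant [AddCommGroup E] [Module ℂ E] {w : HeightOneSpectrum (𝓞 K)}
    (hU : L.U w = U0 w) (ϖ : Kˣ) (R : Finset K) (T : LocKer (L.fam.U w))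
    (hT : ∀ (F : XF L.fam → E) (y : XF L.fam) (g : PGL(2, K)),
      y w = (g : PGL(2, K) ⧸ L.fam.U w) →
      lop w T F y = ∑ b ∈ R, F (XF.upd y w
          ((g * (borP K).n b * (borP K).d ϖ : PGL(2, K)) : PGL(2, K) ⧸ L.fam.U w)) +
        F (XF.upd y w ((g * ((borP K).d ϖ)⁻¹ : PGL(2, K)) : PGL(2, K) ⧸ L.fam.U w)))
    (hf : NInv f) (y : XF L.fam) :
    lop w T f y = (R.card : ℂ) • f (XF.upd y w ((borP K).d ϖ • y w)) +
      f (XF.upd y w (((borP K).d ϖ)⁻¹ • y w)) :=
  hf.lop hU ϖ R T hT y

/-- **Elements close to `1` outside `W`.** If `a ∈ Kˣ` is a unit at every place `v ∉ W` and so close to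
`1` there that `d a` is in a congruence subgroup contained in the level, then `d a` acting on all
components and `d a` acting on the components in `W` only have the same effect on `f`. Proof: at
`v ∉ W` write the component as `n β · d c · k`, `k ∈ U0 v`; then
`d a · n β · d c · k = n(a β - β) · n β · d c · k · (k⁻¹ d a k)`, and `k⁻¹ d a k` is in the level
(`congruence_conj`, `diagonal_close_to_one`); so both components are in one orbit of `n(K)`. File
`H12TW`. -/
theorem dilation_near_one (hf : NInv f) (y : XF L.fam) (W : Finset (HeightOneSpectrum (𝓞 K)))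
    (a : Kˣ) (hW : ∀ v ∉ W, v.valuation K (a : K) = 1 ∧ ∃ n : ℕ, Gam v n ≤ L.U v ∧
      v.valuation K ((a : K) - 1) ≤ exp (-(n : ℤ))) :
    f ((borP K).d a • y) = f (updW y W ((borP K).d a)) :=
  hf.d_smul y W a hW

end Invariant

end Fermat.Agent.Guide.Unipotent
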