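import Fermat.Agent.H95K3Final

/-!
# Reader's guide: unit cocycles, the flat local bound in the ordinary case (S56, S43, S59)

Every theorem of this file is proved by citing a theorem of the library; nothing here is used by any
other file. Text and modules `H95K3*`: helper95; section 1: modules of helper64. This is a companion
of `GuideFlatBound` (the flat bound at `p`): that guide contains the coordinates of finite flat group
schemes, the reduction to two cases (`case_division`) and the second case (its sections 6, 7); this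
one contains the first case, from the coordinates on. Read by helper55, helper64 and helper75.

**The statement.** `p` an odd prime, `k` a finite field of characteristic `p`, `r : G_ℚ → GL₂(k)` with
cyclotomic determinant and upper triangular on the decomposition group `D` at `p`, with lower right
entry trivial on inertia. The lifts of `r` to the dual numbers `k[ε]` which are flat at `p` have
cocycles `D → ad⁰ r`; all these cocycles lie in one group with at most `|k|⁴` elements
(`ordinary_flat_bound`). Classically this is part of the theorem `dim H¹_f(D, ad⁰ r) ≤ 1 + dim H⁰`,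
proved with Fontaine-Laffaille modules or with the theorems of Raynaud; references: F. Diamond,
M. Flach, L. Guo, *The Tamagawa number conjecture of adjoint motives of modular forms*; H. Darmon,
F. Diamond, R. Taylor, *Fermat's Last Theorem*, section 2.4.

**The proof.** A flat lift is again upper triangular (`case_division`), so its cocycle is upper
triangular up to the coboundary of a lower triangular matrix (at most `|k|` possibilities). The
diagonal part of an upper triangular cocycle is a homomorphism which is trivial on inertia (`|k|`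
possibilities). There remains the upper right entry `b : D → k(θ)`, where `θ` is a character with
`θ = χ` (cyclotomic) on inertia. Flatness says that the Kummer classes hidden in `b` are classes of
units: for every additive character `ψ` of `k` there is a unit `α` with `σ α = ψ(b σ) α` for `σ` in the
inertia group (unit lemma of `GuideFlatBound`). There are at most `|k|²` such `b`: the element `α^p`
is a unit fixed by inertia, so `α^p = τ (1 + p w)` with a Teichmüller element `τ`; the residue class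
`U(ψ)` of `w` is additive in `ψ`, and the action of Frobenius on `b` gives `U(m ψ) = U(ψ)^p` for a
fixed `m ∈ k`. There are at most `|k|` additive maps with this property, and `U = 0` means that `b` is
a coboundary (`|k|` possibilities). No `p`-adic Hodge theory and no local fields are used.

Reading order: 1. The place above `p`. 2. Units modulo `p`-th powers. 3. Additive maps with
`U (m c) = U (c)^p`. 4. The count of unit cocycles. 5. The local bound.

Used in S56 (`H56Flat`) and, through `H64StatementF`, in S01, S03, S04, S06, S38, S43, S45, S46, S50,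
S59 and S60. Details: NOTES.md, Appendix A.2, note [86], and Appendix A.10, NOTES-S56.
-/

set_option autoImplicit false
set_option maxSynthPendingDepth 3

namespace Fermat.Agent.Guide.UnitCocycles

open Fermat.Agent.H55 Fermat.Agent.H56 Fermat.Agent.H64 ExtCitation
open Fermat.Agent.H53 (M2 MCont ofMatrix)
open H95.K3 (IsDL Kum UC TriK OrdFlat MM cj th)

/-! ## 1. The place above `p`

`FQb` is the algebraic closure of `ℚ`, `FGQ` its Galois group, `nm p x` the absolute value of `x` for
the fixed embedding of `FQb` into the algebraic closure of `ℚ_p`. `Dp p` is the group of the `σ` which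
preserve the absolute value, `Ip p` the inertia group, `Kap p` the residue field, and `rs x` the
residue class of an element with `nm p x ≤ 1`. -/

/-- **Inertia group**: the elements of the decomposition group which act trivially on residue classes.
File `H64FVal`. -/
theorem mem_inertia_iff {p : ℕ} [Fact p.Prime] {σ : FGQ} :
    σ ∈ Ip p ↔ σ ∈ Dp p ∧ ∀ x, nm p x ≤ 1 → nm p (σ x - x) < 1 :=
  H64.mem_Ip_iff

/-- **Frobenius**: `frob p` is an element of the decomposition group which acts as the `p`-th power on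
residue classes. File `H64FVal`. -/
theorem frobenius (p : ℕ) [Fact p.Prime] :
    frob p ∈ Dp p ∧ ∀ x, nm p x ≤ 1 → nm p (frob p x - x ^ p) < 1 :=
  ⟨H64.frob_mem, fun _ hx => H64.nm_frob hx⟩

/-- **Teichmüller elements** `IsTeich p ζ`: `ζ^(p^m) = ζ` for some `m > 0`. Every residue class
contains exactly one of them, and inertia fixes them. File `H64FVal`. -/
theorem teichmueller {p : ℕ} [Fact p.Prime] :
    (∀ ζ : FQb, IsTeich p ζ ↔ ∃ m : ℕ, 0 < m ∧ ζ ^ p ^ m = ζ) ∧
    (∀ u : FQb, nm p u ≤ 1 → ∃ ζ, IsTeich p ζ ∧ nm p (u - ζ) < 1) ∧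
    (∀ ζ ξ : FQb, IsTeich p ζ → IsTeich p ξ → nm p (ζ - ξ) < 1 → ζ = ξ) ∧
    ∀ ζ : FQb, IsTeich p ζ → ∀ σ ∈ Ip p, σ ζ = ζ :=
  ⟨fun _ => Iff.rfl, fun _ hu => H64.exists_teich hu, fun _ _ h h' hlt => h.eq_of_nm_sub_lt h' hlt,
    fun _ h _ hσ => h.inertia hσ⟩

/-- **The field fixed by inertia is unramified**: the absolute values of its elements are powers of
`|p|`; so `|x| < 1` implies `|x| ≤ |p|`. File `H64FLayer2` (from the theory of number fields: the
ramification index is the order of the inertia group). -/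
theorem value_group {p : ℕ} [Fact p.Prime] {x : FQb} (hx : ∀ σ ∈ Ip p, σ x = x) :
    (x ≠ 0 → ∃ k : ℤ, nm p x = nm p (p : FQb) ^ k) ∧
      (nm p x < 1 → nm p x ≤ nm p (p : FQb)) :=
  ⟨fun h => FixI.exists_zpow hx h, fun h => FixI.nm_le_p_of_lt hx h⟩

/-! ## 2. Units modulo `p`-th powers -/

/-- **The class of a unit.** `IsDL κ u`: `κ = τ (1 + p w)` with a Teichmüller element `τ ≠ 0` and an
integral `w` with residue class `u`. (`u` is the discrete logarithm of `κ` modulo Teichmüller elements
and modulo the elements `1 + p x`, `|x| < 1`; if they are fixed by inertia, these are the `1 + p² x`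
with integral `x`.) File `H95K3Unit`. -/
theorem isDL_iff {p : ℕ} [Fact p.Prime] {κ : FQb} {u : Kap p} :
    IsDL κ u ↔ ∃ τ w : FQb, IsTeich p τ ∧ τ ≠ 0 ∧ nm p w ≤ 1 ∧ κ = τ * (1 + p * w) ∧ rs w = u :=
  Iff.rfl

/-- **Every unit fixed by inertia has a class**: let `τ` be the Teichmüller element in its residue
class; then `κ / τ - 1` has absolute value `< 1`, hence `≤ |p|` by `value_group`.
File `H95K3Unit`. -/
theorem exists_isDL {p : ℕ} [Fact p.Prime] {κ : FQb} (hκ : ∀ σ ∈ Ip p, σ κ = κ)
    (h1 : nm p κ = 1) : ∃ u : Kap p, IsDL κ u :=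
  H95.K3.FixI.exists_isDL hκ h1

/-- **Rules for the class.** It is unique; it is additive in products; Frobenius raises it to the
`p`-th power; the class of a `p`-th power is `0`. File `H95K3Unit`. -/
theorem isDL_rules {p : ℕ} [Fact p.Prime] :
    (∀ (κ : FQb) (u u' : Kap p), IsDL κ u → IsDL κ u' → u = u') ∧
    (∀ (κ κ' : FQb) (u u' : Kap p), IsDL κ u → IsDL κ' u' → IsDL (κ * κ') (u + u')) ∧
    (∀ (κ : FQb) (u : Kap p), IsDL κ u → IsDL (frob p κ) (u ^ p)) ∧
    ∀ (γ : FQb) (u : Kap p), IsDL γ u → IsDL (γ ^ p) (0 : Kap p) :=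
  ⟨fun _ _ _ h h' => h.unique h', fun _ _ _ _ h h' => h.mul h', fun _ _ h => h.map_frob,
    fun _ _ h => h.pow_p⟩

/-- **Roots of unity are not too near to `1`**: `|p| ≤ |1 - ω|^(p-1)` for a `p`-th root of unity
`ω ≠ 1`, because `p = ∏ (1 - ω^i)`, `i = 1, ..., p-1`, and `|1 - ω^i| ≤ |1 - ω|`.
File `H95K3Unit`. -/
theorem root_of_unity_bound {p : ℕ} [Fact p.Prime] {ω : FQb} (hω : ω ^ p = 1) (hω1 : ω ≠ 1) :
    nm p (p : FQb) ≤ nm p (1 - ω) ^ (p - 1) :=
  H95.K3.nm_p_le_of_root hω hω1

/-- **`p`-th roots of elements near `1`.** `p` odd, `|ε| ≤ |p|²`, `δ^p = 1 + ε`. An element of the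
decomposition group which fixes `ε` and the `p`-th roots of unity fixes `δ`. (Otherwise `σ δ = ω δ`
with `ω ≠ 1`, all the roots `ζ δ` have distance at least `|1 - ω|` from `1`, and
`|ε| = ∏ |1 - ζ δ| ≥ |1 - ω|^p` gives, with the previous theorem, `|1 - ω| ≤ |p|`, which contradicts
this theorem since `p > 2`.) File `H95K3Unit`. -/
theorem apply_root_eq {p : ℕ} [Fact p.Prime] (hp2 : p ≠ 2) {σ : FGQ} (hσ : σ ∈ Dp p)
    (hμ : ∀ ω : FQb, ω ^ p = 1 → σ ω = ω) {ε δ : FQb} (hε : σ ε = ε)
    (hle : nm p ε ≤ nm p (p : FQb) ^ 2) (hδ : δ ^ p = 1 + ε) : σ δ = δ :=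
  H95.K3.apply_root_eq hp2 hσ hμ hε hle hδ

/-! ## 3. Additive maps with `U (m c) = U (c)^p` -/

/-- **Additive polynomials.** If `U : k → κ` is additive with `U (m c) = U (c)^p`, and
`P = ∑ a_j X^j` has coefficients in the prime field, then `∑ a_j U(c)^(p^j) = U (P(m) c)`. With the
minimal polynomial of `m` this shows that the values of `U` are roots of a polynomial of degree
`p^(deg P)`. File `H95K3Count`. -/
theorem additive_polynomial {p : ℕ} [Fact p.Prime] {k κ : Type*} [Field k] [Field κ] [CharP k p]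
    [CharP κ p] {m : k} {U : k →+ κ} (hU : ∀ c, U (m * c) = U c ^ p) (P : Polynomial (ZMod p))
    (c : k) :
    (P.sum fun j a => ZMod.castHom (dvd_refl p) κ a * U c ^ p ^ j) =
      U (P.eval₂ (ZMod.castHom (dvd_refl p) k) m * c) :=
  (H95.K3.eval_addPoly P (U c)).symm.trans (H95.K3.SL.eval_addPoly_eq hU P c)

/-- **Count.** `k` a finite field of characteristic `p`, `m ∈ k`, `κ` a field of characteristic `p`:
there are at most `|k|` additive maps `U : k → κ` with `U (m c) = U (c)^p`. Such a map is determined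
by its values on a basis of `k` over `F_p(m)`, and each value is a root of the additive polynomial of
the minimal polynomial of `m`. File `H95K3Count`. -/
theorem card_semilinear_le {p : ℕ} [Fact p.Prime] {k κ : Type*} [Field k] [Field κ] [CharP k p]
    [CharP κ p] [Finite k] (m : k) :
    {U : k →+ κ | ∀ c, U (m * c) = U c ^ p}.Finite ∧
      Nat.card {U : k →+ κ | ∀ c, U (m * c) = U c ^ p} ≤ Nat.card k :=
  H95.K3.finite_and_card_SL_le (p := p) m

/-! ## 4. The count of unit cocycles -/

/-- **Unit classes.** `Kum p f α`: `α` is a unit and `σ α = f(σ) α` for `σ` in the inertia group. The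
function `f : D → μ_p` is then the Kummer cocycle of `α^p` on inertia. File `H95K3Coc`. -/
theorem kum_iff {p : ℕ} [Fact p.Prime] {f : Dp p → FQb} {α : FQb} :
    Kum p f α ↔ nm p α = 1 ∧ ∀ σ : Dp p, (σ : FGQ) ∈ Ip p → (σ : FGQ) α = f σ * α :=
  Iff.rfl

/-- **The class depends only on `f`**: `α^p` has a class, and `α`, `α'` with the same `f` give the same
class, because `α / α'` is fixed by inertia and the class of its `p`-th power is `0`.
File `H95K3Coc`. -/
theorem class_of_kum {p : ℕ} [Fact p.Prime] {f : Dp p → FQb} (hf : ∀ σ, f σ ^ p = 1) {α : FQb}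
    (h : Kum p f α) :
    (∃ u : Kap p, IsDL (α ^ p) u) ∧ ∀ (α' : FQb) (u u' : Kap p), Kum p f α' → IsDL (α ^ p) u →
      IsDL (α' ^ p) u' → u = u' :=
  ⟨h.exists_isDL hf, fun _ _ _ h' hu hu' => h.unique hf h' hu hu'⟩

/-- **Injectivity.** `p` odd. If the class is `0`, then `f(σ) = 1` for the elements `σ` of inertia which
fix the `p`-th roots of unity: `α^p = τ (1 + p w)` with `|w| ≤ |p|`, apply `apply_root_eq` to
`δ = α / τ^(1/p)`. File `H95K3Coc`. -/
theorem kum_eq_one {p : ℕ} [Fact p.Prime] (hp2 : p ≠ 2) {f : Dp p → FQb}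
    (hf : ∀ σ, f σ ^ p = 1) {α : FQb} (h : Kum p f α) (h0 : IsDL (α ^ p) (0 : Kap p)) {σ : Dp p}
    (hσ : (σ : FGQ) ∈ Ip p) (hμ : ∀ ω : FQb, ω ^ p = 1 → (σ : FGQ) ω = ω) : f σ = 1 :=
  h.eq_one hp2 hf h0 hσ hμ

/-- **Additive characters** of `k` with values in the `p`-th roots of unity: there is a nontrivial
one, and `σ ∈ G_ℚ` acts on the values by `σ (ψ x) = ψ (χ(σ) x)`, `χ` the cyclotomic character
modulo `p`. File `H95K3Coc`. -/
theorem additive_characters (p : ℕ) [Fact p.Prime] (k : Type) [Field k] [Algebra (ZMod p) k] :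
    (∃ ψ : AddChar k FQb, ∃ x, ψ x ≠ 1) ∧
      ∀ (ψ : AddChar k FQb) (σ : FGQ) (x : k),
        σ (ψ x) = ψ (algebraMap (ZMod p) k (cycloChar p σ : ZMod p) * x) :=
  ⟨H95.K3.exists_char p k, fun ψ σ x => H95.K3.apply_char ψ σ x⟩

/-- **Groups of unit cocycles.** `UC p k θ Z`: `θ : D → kˣ` is a character which is equal to `χ` on
inertia, and `Z` is a group of cocycles `b : D → k(θ)` such that for all `b ∈ Z` and all additive
characters `ψ` of `k` the function `ψ ∘ b` is given by a unit. File `H95K3Coc`. -/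
theorem uc_iff {p : ℕ} [Fact p.Prime] {k : Type} [Field k] [Algebra (ZMod p) k] {θ : Dp p → k}
    {Z : AddSubgroup (Dp p → k)} :
    UC p k θ Z ↔ (∀ σ, θ σ ≠ 0) ∧ (∀ σ τ, θ (σ * τ) = θ σ * θ τ) ∧
      (∀ σ : Dp p, (σ : FGQ) ∈ Ip p →
        θ σ = algebraMap (ZMod p) k (cycloChar p (σ : FGQ) : ZMod p)) ∧
      (∀ b ∈ Z, ∀ σ τ, b (σ * τ) = θ σ * b τ + b σ) ∧
      ∀ b ∈ Z, ∀ ψ : AddChar k FQb, ∃ α, Kum p (fun σ => ψ (b σ)) α :=
  ⟨fun h => ⟨h.1, h.2, h.3, h.4, h.5⟩, fun h => ⟨h.1, h.2.1, h.2.2.1, h.2.2.2.1, h.2.2.2.2⟩⟩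

/-- **Frobenius.** If the unit `α` belongs to `ψ ∘ b`, then a root of unity times `frob p α` belongs to
`σ ↦ ψ (m b(σ))` with `m = χ(Frob) / θ(Frob)`. Hence `U (m ψ) = U (ψ)^p` for the classes.
File `H95K3Coc`. -/
theorem frobenius_transport {p : ℕ} [Fact p.Prime] {k : Type} [Field k] [Algebra (ZMod p) k]
    {θ : Dp p → k} {Z : AddSubgroup (Dp p → k)} (h : UC p k θ Z) {b : Dp p → k} (hb : b ∈ Z)
    (ψ : AddChar k FQb) {α : FQb} (hα : Kum p (fun σ => ψ (b σ)) α) {m : k}
    (hm : m = algebraMap (ZMod p) k (cycloChar p (frob p) : ZMod p) / θ ⟨frob p, frob_mem⟩) :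
    Kum p (fun σ => ψ (m * b σ)) (ψ (-m * b ⟨frob p, frob_mem⟩) * frob p α) := by
  subst hm
  exact h.kum_frob hb ψ hα

/-- **Coboundaries.** `p` odd. A cocycle in `Z` which vanishes on the elements of inertia with `χ = 1`
is `b(σ) = (θ(σ) - 1) x` for some `x ∈ k`: inertia contains an `s` with `χ(s) ≠ 1`; compare `b (σ s)`
with `b (σ s σ⁻¹ · σ)`. File `H95K3Coc`. -/
theorem exists_coboundary {p : ℕ} [Fact p.Prime] {k : Type} [Field k] [Algebra (ZMod p) k]
    {θ : Dp p → k} {Z : AddSubgroup (Dp p → k)} (hp2 : p ≠ 2) (h : UC p k θ Z) {b : Dp p → k}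
    (hb : b ∈ Z) (h0 : ∀ σ : Dp p, (σ : FGQ) ∈ Ip p →
      algebraMap (ZMod p) k (cycloChar p (σ : FGQ) : ZMod p) = 1 → b σ = 0) :
    ∃ x, ∀ σ, b σ = (θ σ - 1) * x :=
  h.exists_coboundary hp2 hb h0

/-- **The count.** A group of unit cocycles has at most `|k|²` elements (`p` odd): the map `b ↦ U` has
at most `|k|` values (`card_semilinear_le`) and its fibres have at most `|k|` elements
(`kum_eq_one`, `exists_coboundary`). Classically: the classes of units form a subspace of
`H¹(D, k(θ))` of dimension at most `1` over `k` (if `θ = χ` and `k = F_p`, the units of `ℤ_p` modulo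
`p`-th powers), and the coboundaries have dimension `1`. File `H95K3Coc`. -/
theorem card_unit_cocycles {p : ℕ} [Fact p.Prime] {k : Type} [Field k] [Finite k]
    [Algebra (ZMod p) k] (hp2 : p ≠ 2) {θ : Dp p → k} {Z : AddSubgroup (Dp p → k)}
    (h : UC p k θ Z) : Finite Z ∧ Nat.card Z ≤ Nat.card k ^ 2 :=
  h.card_le hp2

/-! ## 5. The local bound

`Dq (pPrime p)` and `Iq (pPrime p)` are the same groups as `Dp p` and `Ip p`; `ad p r` is the
representation of `G_ℚ` on the matrices of trace zero (`SL p k`) by conjugation with `r`, `Z1` and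
`B1` are continuous cocycles and coboundaries (see `GuideLocalBounds`, section 3). -/

/-- **Triangular form.** `cj u X = u⁻¹ X u`. `TriK p r u`: on the decomposition group
`u⁻¹ r u = (a t; 0 z)` with `z = 1` on inertia. Then `θ = a / z` is a character of `D` with values in
`kˣ`, equal to `χ` on inertia if `det r = χ`. File `H95K3Final`. -/
theorem triK_iff {p : ℕ} [Fact p.Prime] {k : Type} [Field k] [Algebra (ZMod p) k]
    {r : FGQ →* M2 k} {u : (M2 k)ˣ} :
    (∀ X : M2 k, cj u X = (↑u⁻¹ : M2 k) * X * u) ∧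
    (TriK p r u ↔ ∀ σ : Dq (pPrime p), ∃ a t z : k, r (σ : FGQ) * (u : M2 k) = u * !![a, t; 0, z] ∧
      ((σ : FGQ) ∈ Iq (pPrime p) → z = 1)) ∧
    ∀ σ : Dp p, th r u σ = cj u (r (σ : FGQ)) 0 0 / cj u (r (σ : FGQ)) 1 1 :=
  ⟨fun _ => rfl, Iff.rfl, fun _ => rfl⟩

/-- **The cocycles with unit corner.** `MM r u` is the group of the cocycles `f : D → ad⁰ r` which in
the basis `u` are upper triangular, with diagonal trivial on inertia, and whose upper right entry is
given by units. File `H95K3Final`. -/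
theorem mem_MM {p : ℕ} [Fact p.Prime] {k : Type} [Field k] [Algebra (ZMod p) k]
    {r : FGQ →* M2 k} {u : (M2 k)ˣ} {f : Dq (pPrime p) → H56.SL p k} :
    f ∈ MM r u ↔ f ∈ Z1 (Dlev (pPrime p)) (rhoD (ad p r) (pPrime p)) ∧
      (∀ σ, cj u (f σ : M2 k) 1 0 = 0) ∧
      (∀ σ : Dq (pPrime p), (σ : FGQ) ∈ Iq (pPrime p) → cj u (f σ : M2 k) 1 1 = 0) ∧
      ∀ ψ : AddChar k FQb, ∃ α : FQb, Kum p (fun σ => ψ (cj u (f σ : M2 k) 0 1)) α :=
  Iff.rfl

/-- **The diagonal part.** For `f ∈ MM r u` the lower right entry of `u⁻¹ f u` is a homomorphism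
`D → k` (the upper left one is its negative); it is trivial on inertia, so it is `0` as soon as it
is `0` at a Frobenius element. File `H95K3Final`. -/
theorem diagonal_part {p : ℕ} [Fact p.Prime] {k : Type} [Field k] [Algebra (ZMod p) k]
    {r : FGQ →* M2 k} {u : (M2 k)ˣ} (h : TriK p r u) (hdet : DetCyc p r)
    {f : Dq (pPrime p) → H56.SL p k} (hf : f ∈ MM r u) :
    (∀ σ τ : Dq (pPrime p), cj u (f (σ * τ) : M2 k) 1 1 =
      cj u (f τ : M2 k) 1 1 + cj u (f σ : M2 k) 1 1) ∧
    ∀ (φ : FGQ) (hφD : φ ∈ Dq (pPrime p)),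
      (primeLocalPlace (pPrime p)).IsFrobeniusAt φ (pPrime p) →
      cj u (f ⟨φ, hφD⟩ : M2 k) 1 1 = 0 → ∀ σ : Dq (pPrime p), cj u (f σ : M2 k) 1 1 = 0 :=
  ⟨H95.K3.w_mul h hdet hf, fun _ hφD hφ h0 => H95.K3.w_eq_zero h hdet hφ hφD hf h0⟩

/-- **The corner.** If the diagonal part of a cocycle is zero, its upper right entry is a cocycle with
values in `k(θ)`, `θ = a / z`. File `H95K3Final`. -/
theorem corner_is_cocycle {p : ℕ} [Fact p.Prime] {k : Type} [Field k] [Algebra (ZMod p) k]
    {r : FGQ →* M2 k} {u : (M2 k)ˣ} (h : TriK p r u) (hdet : DetCyc p r)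
    {f : Dq (pPrime p) → H56.SL p k}
    (hf : f ∈ Z1 (Dlev (pPrime p)) (rhoD (ad p r) (pPrime p)))
    (hw : ∀ σ, cj u (f σ : M2 k) 1 1 = 0) (σ τ : Dq (pPrime p)) :
    cj u (f (σ * τ) : M2 k) 0 1 =
      th (p := p) r u σ * cj u (f τ : M2 k) 0 1 + cj u (f σ : M2 k) 0 1 :=
  H95.K3.s_mul h hf hw hdet σ τ

/-- **At most `|k|³` such cocycles**: `|k|²` for the corner (`card_unit_cocycles`), `|k|` for the value
of the diagonal part at a Frobenius element. File `H95K3Final`. -/
theorem card_MM {p : ℕ} [Fact p.Prime] {k : Type} [Field k] [Algebra (ZMod p) k] [Finite k]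
    {r : FGQ →* M2 k} {u : (M2 k)ˣ} (hp2 : p ≠ 2) (h : TriK p r u) (hdet : DetCyc p r) :
    Finite (MM (p := p) r u) ∧ Nat.card (MM (p := p) r u) ≤ Nat.card k ^ 3 :=
  H95.K3.card_MM hp2 h hdet

/-- **Coboundaries of upper triangular matrices** lie in `MM r u`, provided that the corner of `r`
itself is given by units (hypothesis `hu`; it holds if there is at least one flat lift).
File `H95K3Final`. -/
theorem coboundary_mem {p : ℕ} [Fact p.Prime] {k : Type} [Field k] [Algebra (ZMod p) k]
    {r : FGQ →* M2 k} {u : (M2 k)ˣ} (hr : FinLev r) (h : TriK p r u) (hdet : DetCyc p r)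
    (hu : ∀ ψ : AddChar k FQb, ∃ α : FQb, Kum p (fun σ => ψ (cj u (r (σ : FGQ)) 0 1)) α)
    {X : H56.SL p k} (hX : cj u (X : M2 k) 1 0 = 0) :
    d0 (rhoD (ad p r) (pPrime p)) X ∈ MM r u :=
  H95.K3.d0_borel hr h hdet hu hX

/-- **The group of the bound.** `MM r u` and all coboundaries generate a group with at most `|k|⁴`
elements: modulo `MM r u` a coboundary depends only on the lower left entry of the matrix.
File `H95K3Final`. -/
theorem card_LL {p : ℕ} [Fact p.Prime] {k : Type} [Field k] [Algebra (ZMod p) k] [Finite k]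
    {r : FGQ →* M2 k} {u : (M2 k)ˣ} (hp2 : p ≠ 2) (hr : FinLev r) (h : TriK p r u)
    (hdet : DetCyc p r)
    (hu : ∀ ψ : AddChar k FQb, ∃ α : FQb, Kum p (fun σ => ψ (cj u (r (σ : FGQ)) 0 1)) α) :
    Finite (MM r u ⊔ B1 (rhoD (ad p r) (pPrime p)) : Submodule (ZMod p) _) ∧
      Nat.card (MM r u ⊔ B1 (rhoD (ad p r) (pPrime p)) : Submodule (ZMod p) _) ≤ Nat.card k ^ 4 :=
  H95.K3.card_LL hp2 hr h hdet hu

/-- **The corner of a flat lift is given by units.** `R` a representation over `k[ε]` whose points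
have coordinates as in `GuideFlatBound` (`FData`), triangular on inertia in the basis `g` with
diagonal `(χ, 1)` and corner `T`. For every `k`-linear form `l` on `k[ε]` and every additive
character `ψ` of `k` there is a unit `α` with `σ α = ψ (l (T σ)) α` on inertia: the unit lemma for the
line spanned by the first basis vector. File `H95K3Final`. -/
theorem corner_of_flat {p : ℕ} [Fact p.Prime] {k : Type} [Field k] [Algebra (ZMod p) k]
    [Finite k] {R : FGQ →* M2 (DualNumber k)} {n : ℕ} {e : Fin n → (Fin 2 → DualNumber k) → FQb}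
    {a : Fin n → Fin n → Fin n → ℚ}
    (hF : FData p (fun σ (x : Fin 2 → DualNumber k) => (R σ).mulVec x) n e a)
    (g : (M2 (DualNumber k))ˣ) (A T : FGQ → DualNumber k)
    (hT : ∀ σ ∈ Ip p, R σ * (g : M2 (DualNumber k)) = g * !![A σ, T σ; 0, 1])
    (hA : ∀ σ ∈ Ip p,
      A σ = TrivSqZeroExt.inl (algebraMap (ZMod p) k (cycloChar p σ : ZMod p)))
    (l : DualNumber k →+ k) (hl : ∀ x c, l (TrivSqZeroExt.inl x * c) = x * l c)
    (ψ : AddChar k FQb) :
    ∃ α : FQb, nm p α = 1 ∧ ∀ σ ∈ Ip p, σ α = ψ (l (T σ)) * α :=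
  H95.K3.exists_kum hF g A T hT hA l hl ψ

/-- **Ordinary flat lifts.** `OrdFlat p R u`: `R` is triangular on the decomposition group in a basis
which lifts `u`, with lower right entry trivial on inertia, and its points have coordinates over
`ℤ_(p)`. These are the only consequences of flatness which are used. File `H95K3Final`. -/
theorem ordFlat_iff {p : ℕ} [Fact p.Prime] {k : Type} [Field k] [Algebra (ZMod p) k]
    {R : FGQ →* M2 (DualNumber k)} {u : (M2 k)ˣ} :
    OrdFlat p R u ↔
      (∃ g : M2 (DualNumber k), IsUnit g ∧ redM k g = u ∧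
        ∀ σ : Dq (pPrime p), ∃ A T Z : DualNumber k,
          R (σ : FGQ) * g = g * !![A, T; 0, Z] ∧ ((σ : FGQ) ∈ Iq (pPrime p) → Z = 1)) ∧
      ∃ (n : ℕ) (e : Fin n → (Fin 2 → DualNumber k) → FQb) (a : Fin n → Fin n → Fin n → ℚ),
        FData p (fun σ (x : Fin 2 → DualNumber k) => (R σ).mulVec x) n e a :=
  ⟨fun h => ⟨h.1, h.2⟩, fun h => ⟨h.1, h.2⟩⟩

/-- **The cocycle of an ordinary flat lift** lies in the group of the bound. After a coboundary (change
of the basis `g`) it is upper triangular with diagonal trivial on inertia; its corner is the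
`ε`-component of the corner of `R`, given by units by `corner_of_flat`. File `H95K3Final`. -/
theorem cocycle_mem {p : ℕ} [Fact p.Prime] {k : Type} [Field k] [Algebra (ZMod p) k] [Finite k]
    {r : FGQ →* M2 k} {u : (M2 k)ˣ} {R : FGQ →* M2 (DualNumber k)} (hp2 : p ≠ 2)
    (hr : FinLev r) (hdet : DetCyc p r) (htri : TriK p r u) (hR : GoodLift r R)
    (h : OrdFlat p R u) {c : Dq (pPrime p) → H56.SL p k}
    (hc : ∀ σ, (c σ : M2 k) = coc R (σ : FGQ)) :
    c ∈ MM r u ⊔ B1 (rhoD (ad p r) (pPrime p)) :=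
  H95.K3.coc_mem_LL hp2 hr hdet htri hR h hc

/-- **The flat local bound in the ordinary case.** `p` odd, `r` of finite level with cyclotomic
determinant, triangular on the decomposition group; every flat lift is an ordinary flat lift
(`case_division` of `GuideFlatBound`, case (I)). Then there is one group `L` of cocycles which
contains the coboundaries and the cocycles of all flat lifts and has at most `|k|⁴` elements.
File `H95K3Final`; used in `H56Flat0` (`statementF_of_count`), that is in `flat_local_bound` of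
`GuideFlatBound`. -/
theorem ordinary_flat_bound {p : ℕ} [Fact p.Prime] {k : Type} [Field k] [Algebra (ZMod p) k]
    [Finite k] {r : FGQ →* M2 k} {u : (M2 k)ˣ} (hp2 : p ≠ 2) (hr : FinLev r)
    (hdet : DetCyc p r) (htri : TriK p r u)
    (hR : ∀ R : FGQ →* M2 (DualNumber k), GoodLift r R →
      (∃ h : MCont (DualNumber k) R, (ofMatrix R h).IsFlatAt p) → OrdFlat p R u) :
    ∃ L : Submodule (ZMod p) (Dq (pPrime p) → H56.SL p k),
      B1 (rhoD (ad p r) (pPrime p)) ≤ L ∧
      L ≤ Z1 (Dlev (pPrime p)) (rhoD (ad p r) (pPrime p)) ∧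
      Finite L ∧ Nat.card L ≤ Nat.card k ^ 4 ∧
      ∀ R : FGQ →* M2 (DualNumber k), GoodLift r R →
        (∃ h : MCont (DualNumber k) R, (ofMatrix R h).IsFlatAt p) →
        ∀ c : Dq (pPrime p) → H56.SL p k, (∀ σ, (c σ : M2 k) = coc R (σ : FGQ)) → c ∈ L :=
  H95.K3.caseI_localBound hp2 hr hdet htri hR

end Fermat.Agent.Guide.UnitCocycles
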