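import Fermat.Agent.H7P1b
import Fermat.Agent.H75R6

/-!
# Guide: the unit root of Frobenius at `p` and the eigenvalue of `T_p`

Companion of `GuideRealisation`, `GuideOrdinary` and `GuideLifting`; it serves the lifting theorem
`GuideLifting.squarefree_lifting`, hence `S01`, `S03`, `S04`, `S06`, `S38`, `S45`, `S46`, `S50`, `S59`
and `S60`.  In this theorem `p` itself may be a prime at which the level is raised.  The deformation
ring `R` of ordinary deformations contains an element `t` (the mark at `p`): a Frobenius element acts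
on the unramified quotient of the universal representation by `z = w + t`, `w = ± 1`.  The operator
`T_p` does not belong to the Hecke algebra, and the comparison of `R` with the Hecke modules needs the
following two facts.

* At a point of level prime to `p`, with `T_p`-eigenvalue `μ`, the unit root relation
  `z² - μ z + p = 0` holds (`unit_root_point`), so `μ = z + p z⁻¹`.
* At a point of level `M p` which is new at `p`, `z² = 1` (`new_root_point`), so `t = 0`.

The second fact is in `GuideFrobeniusAtP`; this file contains the proof of the first.  The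
representation is realised in `O ⊗ T_p J_0(N)` (`GuideRealisation`, `GuideEigen.realisation_good`).
Let `s : J_0(N) → J_0(N)(k)` be the reduction at a place above `p`, `k` algebraically closed of
characteristic `p`.  The Eichler-Shimura relation at `p` for `s` (Theorem `eichler_shimura_at_p`) is
applied to two Frobenius elements, `φ` and `φ σ` with `σ` in inertia; if `s` is not zero on the
representation, elimination gives the unit root relation (`elimination`).  That `s` is not zero is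
shown as in `S33`: otherwise inertia would act through the cyclotomic character
(`reduction_ne_zero`), which contradicts the existence of an unramified quotient.  The argument works
for arbitrary torsion; neither `p`-divisible groups nor the connected-étale sequence are used.

**Files.**  Section 1: `H7PRed`, `H7P1`.  Sections 2, 3: `H7PFin`, `H7PReal`, `H7PAbs`, `H7PAbs2`,
`H7P1b` (written by helper7).  Section 4: `H7P1b`, `H75R3`, `H75R4`.  Section 5: `H75R1`.  Section 6:
`H75R1`, `H75R3` - `H75R6` (written by helper75).  `NOTES.md`: [170] NOTES-ORDP-P1, [299]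
NOTES-S59-MARKS-AT-P.

1. Reduction at `p`.                                          `eichler_shimura_at_p` …
2. Representations with an unramified quotient.               `trace_det_of_line` …
3. The unit root relation in a Galois-Hecke module.           `hecke_unit` …
4. The unit root relation in `J_0(N)` and at points.          `unit_root_functional` …
5. The element `τ = z + p z⁻¹` of the deformation ring.       `tau_of_root` …
6. The mark at `p` at the points of the deformation ring.     `functional_at_point` …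
-/

set_option autoImplicit false

noncomputable section

namespace Fermat.Agent.Guide.UnitRoot

open IsLocalRing Module TensorProduct ModularCurve AlgebraicCurve

local notation "Qb" => AlgebraicClosure ℚ

/-! ## 1. Reduction at `p` -/

/-- **The Eichler-Shimura relation at `p` itself.**  Let `p ∤ N`, let `A` be a place of `Qbar` above
`p` and `s` the reduction map from `J_0(N)` to the Jacobian of `X_0(N)` over the residue field of
`A`.  There is an additive map `F` (the action of the Frobenius automorphism on the coefficients) such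
that `s` is invariant under inertia, `s(φ x) = F(s(x))` for all Frobenius elements `φ` at `A`, and
`F²(s(x)) - F(s(T_p x)) + p s(x) = 0`.  There is no restriction on the torsion of `x`.  (Reduction at
a prime `ℓ ≠ p` is injective on the `p`-power torsion; reduction at `p` is not.)  (File `H7PRed.lean`,
from the computation of `T_p` on divisors in characteristic `p` in `H60*`; see `GuideHecke`.) -/
theorem eichler_shimura_at_p (N : ℕ) [NeZero N] {p : ℕ} (hp : p.Prime) (hpN : ¬ p ∣ N)
    (A : ValuationSubring Qb) (hA : A.LiesOverPrime p) :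
    ∃ F : JZeroC (ResidueField A) N →+ JZeroC (ResidueField A) N,
      (∀ σ ∈ A.inertiaSubgroupIn ℚ, ∀ x : JZero N,
        reductionModL A N (σ • x) = reductionModL A N x) ∧
      (∀ φ : Qb ≃ₐ[ℚ] Qb, A.IsFrobeniusAt φ p → ∀ x : JZero N,
        reductionModL A N (φ • x) = F (reductionModL A N x)) ∧
      ∀ x : JZero N, F (F (reductionModL A N x)) -
        F (reductionModL A N (heckeOperatorBar N ⟨p, hp⟩ x)) + p • reductionModL A N x = 0 := by
  obtain ⟨F, h⟩ := H7.P.exists_isRedP N hp hpN A hA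
  exact ⟨F, h.inertia, h.frob, h.relation⟩

/-- **Kummer functions of classes in the kernel of reduction.**  Let `x ∈ J_0(N)` be a class with
reduction zero and `f` a Kummer function of level `n` for `x` (`div f = n D`, `x = [D]`).  Then the
Gauss reduction of `f`, a Laurent series over the residue field, is an `n`-th power up to a constant.
Here `r` is the reduction of places of the function field, and principal divisors are generated by
those of functions with good reduction (`GuideFunctionField`).  Proof: `n D` is the divisor of a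
function `g` whose reduction has the divisor `n r(D)`; this reduction is a Kummer function of the
class zero, so an `n`-th power; and `f = g hⁿ`, because Kummer functions of a class are unique up to
`n`-th powers.  (File `H7PRed.lean`; notions: `GuideOrdinary.isKum_iff`, `red_iff`.) -/
theorem kummer_of_kernel {N : ℕ} [NeZero N] {A : ValuationSubring Qb} {k : Type*} [Field k]
    {π : A →+* k} [IsAlgClosed k] (hπ : Function.Surjective π) (hN : (N : k) ≠ 0) {n : ℕ}
    (hn : n ≠ 0)
    {r : Place Qb (laurentBaseChange Qb (modularFunctionFieldFull N)) →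
      Place k (modularFunctionFieldFullC k N)}
    (hr : IsPlaceReductionAlong A π N r) (hgen : PrincipalGeneratedByIntegral A π N)
    {x : JZero N} (hx : reductionPic0Along r hr hgen x = 0) {f : H99.FX Qb N}
    (hf : H33.IsKum n x f) :
    ∃ ω : LaurentSeries k, H33.Red A π (f : LaurentSeries Qb) (ω ^ n) :=
  H7.P.red_pow hπ hN hn hr hgen hx hf

/-- **The kernel of reduction is of multiplicative type**, in the form used here: let `p` be odd,
`p ∤ N`, and `(x_w)` a finite family of classes in `J_0(N)[p]` with reduction zero which are permuted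
by `T_p`.  Then inertia at `A` acts on them through the cyclotomic character.  Proof: their Kummer
functions reduce to `p`-th powers (`kummer_of_kernel`), and `GuideOrdinary.caseD` applies; the local
analysis behind it is in `GuideOrdinaryLocal`.  (File `H7P1.lean`.) -/
theorem kernel_multiplicative {p : ℕ} [Fact p.Prime] {N : ℕ} [NeZero N] {A : ValuationSubring Qb}
    (hp2 : p ≠ 2) (hpN : ¬ p ∣ N) (hA : A.LiesOverPrime p) (W : Type) [Finite W] (T : W ≃ W)
    (x : W → JZero N) (hT : ∀ w, heckeOperatorBar N ⟨p, Fact.out⟩ (x w) = x (T w))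
    (hpx : ∀ w, p • x w = 0) (hs : ∀ w, reductionModL A N (x w) = 0) (ζ : Qb)
    (hζ : IsPrimitiveRoot ζ p) (σ : Qb ≃ₐ[ℚ] Qb) (hσ : σ ∈ A.inertiaSubgroupIn ℚ) (a : ℕ)
    (hσζ : σ ζ = ζ ^ a) (w : W) : σ • x w = a • x w :=
  H7.P.caseD_JZero hp2 hpN hA (H84.clp Fact.out hpN hA) W T x hT hpx hs ζ hζ σ hσ a hσζ w

/-- The other case: a class `x ∈ J_0(N)[p]` with `T_p x = 0` which is fixed by all elements of inertia
at `A` fixing `ζ_p` is zero (`GuideOrdinary.caseC`, for the operator `T_p` of `J_0(N)`).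
(File `H7P1.lean`.) -/
theorem kernel_of_hecke {p : ℕ} [Fact p.Prime] {N : ℕ} [NeZero N] {A : ValuationSubring Qb}
    (hp2 : p ≠ 2) (hpN : ¬ p ∣ N) (hA : A.LiesOverPrime p) (ζ : Qb) (hζ : IsPrimitiveRoot ζ p)
    (x : JZero N) (hpx : p • x = 0) (hTx : heckeOperatorBar N ⟨p, Fact.out⟩ x = 0)
    (hfix : ∀ σ ∈ A.inertiaSubgroupIn ℚ, σ ζ = ζ → σ • x = x) : x = 0 :=
  H7.P.caseC_JZero hp2 hpN hA (H84.clp Fact.out hpN hA) ζ hζ x hpx hTx hfix

/-! ## 2. Representations with an unramified quotient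

`ρ` is a representation over a local ring `O` with basis `b₀`, `b₁`, such that inertia at `A` acts
trivially on `V / O b₀`. -/

/-- If `ρ(σ)` preserves the line `O b₀` then its trace is the sum, and its determinant the product of
the two diagonal entries: the character on the line and the character on the quotient.
(File `H7PAbs.lean`.) -/
theorem trace_det_of_line {O : Type} [CommRing O] [IsLocalRing O] (ρ : GaloisRepAdic O)
    (b : Module.Basis (Fin 2) O ρ.V) (σ : Qb ≃ₐ[ℚ] Qb)
    (hσ : ρ.ρ σ (b 0) ∈ Submodule.span O {b 0}) :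
    LinearMap.trace O ρ.V (ρ.ρ σ) = b.repr (ρ.ρ σ (b 0)) 0 + b.repr (ρ.ρ σ (b 1)) 1 ∧
      LinearMap.det (ρ.ρ σ) = b.repr (ρ.ρ σ (b 0)) 0 * b.repr (ρ.ρ σ (b 1)) 1 :=
  H7.P.trace_det hσ

/-- If inertia acts trivially on `V / O b₀`, then `σ` in inertia acts on `b₀` by its determinant.
(File `H7PAbs2.lean`.) -/
theorem inertia_on_line {O : Type} [CommRing O] [IsDomain O] [IsDiscreteValuationRing O]
    [IsAdicComplete (maximalIdeal O) O] [Finite (ResidueField O)] [CharZero O] (ρ : GaloisRepAdic O)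
    (b : Module.Basis (Fin 2) O ρ.V) (A : ValuationSubring Qb)
    (hb : ∀ σ ∈ A.inertiaSubgroupIn ℚ, ∀ v : ρ.V, ρ.ρ σ v - v ∈ Submodule.span O {b 0})
    (σ : Qb ≃ₐ[ℚ] Qb) (hσ : σ ∈ A.inertiaSubgroupIn ℚ) :
    b.repr (ρ.ρ σ (b 0)) 0 = LinearMap.det (ρ.ρ σ) :=
  H7.P.OrdAt.subC_inertia hb hσ

/-- If `φ` preserves the line and `σ` is in inertia, then `φ σ` acts on the line by the product of the
two scalars, and on the quotient by the same scalar as `φ`.  (File `H7PAbs.lean`; used for the two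
Frobenius elements `φ`, `φ σ`.) -/
theorem frobenius_times_inertia {O : Type} [CommRing O] [IsLocalRing O] (ρ : GaloisRepAdic O)
    (b : Module.Basis (Fin 2) O ρ.V) (A : ValuationSubring Qb)
    (hb : ∀ σ ∈ A.inertiaSubgroupIn ℚ, ∀ v : ρ.V, ρ.ρ σ v - v ∈ Submodule.span O {b 0})
    (φ σ : Qb ≃ₐ[ℚ] Qb) (hφ : ρ.ρ φ (b 0) ∈ Submodule.span O {b 0})
    (hσ : σ ∈ A.inertiaSubgroupIn ℚ) :
    b.repr (ρ.ρ (φ * σ) (b 0)) 0 = b.repr (ρ.ρ φ (b 0)) 0 * b.repr (ρ.ρ σ (b 0)) 0 ∧
      b.repr (ρ.ρ (φ * σ) (b 1)) 1 = b.repr (ρ.ρ φ (b 1)) 1 :=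
  H7.P.OrdAt.mul_inertia hb hφ hσ

/-- If the determinant of `ρ` is cyclotomic and `σ ζ_p = ζ_p^a`, then `det ρ(σ) ≡ a` modulo `p`.
(File `H7PAbs2.lean`.) -/
theorem det_mod_p {p : ℕ} [Fact p.Prime] {O : Type} [CommRing O] [IsDomain O]
    [IsDiscreteValuationRing O] [IsAdicComplete (maximalIdeal O) O] [Finite (ResidueField O)]
    [CharZero O] [Algebra ℤ_[p] O] (ρ : GaloisRepAdic O) (hdet : ρ.DetIsCyclotomic p) (ζ : Qb)
    (hζ : IsPrimitiveRoot ζ p) (σ : Qb ≃ₐ[ℚ] Qb) (a : ℕ) (h : σ ζ = ζ ^ a) :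
    ∃ c : O, LinearMap.det (ρ.ρ σ) - a = p * c :=
  H7.P.det_sub_one_mem hdet hζ h

/-- A functional `l ≠ 0` on a free module of rank two over a principal ideal domain is, in a suitable
basis, a multiple of the second coordinate.  (File `H7P1b.lean`; it translates an inertia-invariant
functional into a line with unramified quotient.) -/
theorem adapted_basis {O : Type*} [CommRing O] [IsDomain O] [IsPrincipalIdealRing O] {W : Type*}
    [AddCommGroup W] [Module O W] (b : Module.Basis (Fin 2) O W) (l : W →ₗ[O] O) (hl : l ≠ 0) :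
    ∃ (b' : Module.Basis (Fin 2) O W) (c : O), c ≠ 0 ∧ l (b' 0) = 0 ∧ l (b' 1) = c :=
  H7.P.exists_adapted_basis b l hl

/-- A complete discrete valuation ring of characteristic zero with finite residue field and with `p`
in its maximal ideal is a finite free `ℤ_p`-module.  (File `H7PFin.lean`.) -/
theorem finite_free_padic {p : ℕ} [Fact p.Prime] {O : Type} [CommRing O] [IsDomain O]
    [IsDiscreteValuationRing O] [IsAdicComplete (maximalIdeal O) O] [Finite (ResidueField O)]
    [CharZero O] [Algebra ℤ_[p] O] (hp : (p : O) ∈ maximalIdeal O) :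
    Module.Finite ℤ_[p] O ∧ Module.Free ℤ_[p] O :=
  ⟨H7.P.finite_padic hp, H7.P.free_padic hp⟩

/-- A vector `u` of `O ⊗ T`, `O` finite and free over `ℤ_p`, is divisible by `p^n` if all its
contractions `(l ⊗ 1)(u) ∈ T` with functionals `l : O → ℤ_p` are divisible by `p^n`.
(File `H7PAbs.lean`; it replaces coefficients in `O` by coefficients in `ℤ_p`, so that the results on
`J_0(N)[p]` can be applied.) -/
theorem divisible_of_contractions {p : ℕ} [Fact p.Prime] {O : Type*} [CommRing O]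
    [Algebra ℤ_[p] O] {T : Type*} [AddCommGroup T] [Module ℤ_[p] T] [Module.Free ℤ_[p] O]
    [Module.Finite ℤ_[p] O] (n : ℕ) (u : O ⊗[ℤ_[p]] T)
    (h : ∀ l : O →ₗ[ℤ_[p]] ℤ_[p], ∃ t,
      TensorProduct.lid ℤ_[p] T (LinearMap.rTensor T l u) = (p : ℤ_[p]) ^ n • t) :
    ∃ w, u = (p : O) ^ n • w :=
  H7.P.exists_smul_of_ev n u h

/-! ## 3. The unit root relation in a Galois-Hecke module -/

/-- **`T_p` acts by a unit.**  Let `F : V → O ⊗ T_p J` be an equivariant embedding with saturated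
image on which `T_p = a`; let inertia at `A` act trivially on `V / O b₀`, and suppose that a class
`x ∈ J[p]` with `T_p x = 0`, fixed by the inertia elements which fix `ζ_p`, is zero.  Then `a` is a
unit.  Proof: let `a = ϖ a'`, `p = ϖ c`.  The images `x` of `c b₀` in `J[p]` satisfy `T_p x = 0` and
are fixed by the inertia elements fixing `ζ_p`, because these act on `b₀` by their determinant, which
is `1` modulo `p`.  So `x = 0`, `c b₀` is divisible by `p = ϖ c` and `b₀` by `ϖ`: a contradiction.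
(File `H7PAbs2.lean`.) -/
theorem hecke_unit {p : ℕ} [Fact p.Prime] {O : Type} [CommRing O] [IsDomain O]
    [IsDiscreteValuationRing O] [IsAdicComplete (maximalIdeal O) O] [Finite (ResidueField O)]
    [CharZero O] [Algebra ℤ_[p] O] {J : Type} [AddCommGroup J] [DistribMulAction H31.GQ J]
    {A : ValuationSubring Qb} {ρ : GaloisRepAdic O} {b : Module.Basis (Fin 2) O ρ.V}
    {F : ρ.V →ₗ[O] O ⊗[ℤ_[p]] H30.TateMod p J} (hpO : (p : O) ∈ maximalIdeal O)
    (hsat : ∀ (c : O) (v : ρ.V) (w : O ⊗[ℤ_[p]] H30.TateMod p J), F v = c • w → ∃ v', v = c • v')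
    (hF : ∀ g v, F (ρ.ρ g v) = (H30.galTate p J g).baseChange O (F v)) {Tp : J →+ J} {a : O}
    (hTp : ∀ v, (H35.tateMap Tp).baseChange O (F v) = a • F v) (hdet : ρ.DetIsCyclotomic p)
    (hb : ∀ σ ∈ A.inertiaSubgroupIn ℚ, ∀ v : ρ.V, ρ.ρ σ v - v ∈ Submodule.span O {b 0})
    (hC : ∀ ζ : Qb, IsPrimitiveRoot ζ p → ∀ x : J, p • x = 0 → Tp x = 0 →
      (∀ σ ∈ A.inertiaSubgroupIn ℚ, σ ζ = ζ → σ • x = x) → x = 0) : IsUnit a :=
  H7.P.isUnit_of_caseC hpO hsat hF hTp hdet hb hC

/-- **The reduction is not zero on `V`.**  In the same situation let `a` be a unit and let `s : J → M`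
be an additive map such that inertia acts through the cyclotomic character on every finite family of
classes in `J[p]` in the kernel of `s` which is permuted by `T_p`.  Then `s` is not zero on `F(V)`.
Proof: otherwise inertia would act on `V / p V` through the cyclotomic character; take `σ` with
`σ ζ_p = ζ_p²` (`p` is odd): on the quotient `V / (p V + O b₀)` it acts trivially and by `2`.
(File `H7PAbs2.lean`.) -/
theorem reduction_ne_zero {p : ℕ} [Fact p.Prime] {O : Type} [CommRing O] [IsDomain O]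
    [IsDiscreteValuationRing O] [IsAdicComplete (maximalIdeal O) O] [Finite (ResidueField O)]
    [CharZero O] [Algebra ℤ_[p] O] {J : Type} [AddCommGroup J] [DistribMulAction H31.GQ J]
    {A : ValuationSubring Qb} {ρ : GaloisRepAdic O} {b : Module.Basis (Fin 2) O ρ.V}
    {F : ρ.V →ₗ[O] O ⊗[ℤ_[p]] H30.TateMod p J} (hp2 : p ≠ 2) (hpO : (p : O) ∈ maximalIdeal O)
    (hA : A.LiesOverPrime p)
    (hsat : ∀ (c : O) (v : ρ.V) (w : O ⊗[ℤ_[p]] H30.TateMod p J), F v = c • w → ∃ v', v = c • v')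
    (hF : ∀ g v, F (ρ.ρ g v) = (H30.galTate p J g).baseChange O (F v)) {Tp : J →+ J} {a : O}
    (hTp : ∀ v, (H35.tateMap Tp).baseChange O (F v) = a • F v)
    (hb : ∀ σ ∈ A.inertiaSubgroupIn ℚ, ∀ v : ρ.V, ρ.ρ σ v - v ∈ Submodule.span O {b 0})
    {M : Type} [AddCommGroup M] {s : J →+ M}
    (hD : ∀ (W : Type) [Finite W] (T : W ≃ W) (x : W → J), (∀ w, Tp (x w) = x (T w)) →
      (∀ w, p • x w = 0) → (∀ w, s (x w) = 0) →
      ∀ ζ : Qb, IsPrimitiveRoot ζ p → ∀ σ ∈ A.inertiaSubgroupIn ℚ, ∀ a : ℕ,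
        σ ζ = ζ ^ a → ∀ w, σ • x w = a • x w)
    (ha : IsUnit a) : ¬ ∀ v, (H35.tateMap s).baseChange O (F v) = 0 :=
  fun hs => H7.P.false_of_caseD hp2 hpO hA hsat hF hTp hb hD ha hs

/-- **Elimination.**  Let `v ≠ 0` and `w` be vectors of a free module over a domain,
`(X + Y - a) w = (X Y - q) v` and `(X c + Y - a) w = (X c Y - q) v` with `X ≠ 0`, `c ≠ 1`.  Then
`Y² - a Y + q = 0`.  Proof: the difference of the equations gives `w = Y v`.
(File `H7PAbs2.lean`; `X`, `Y` are the scalars of `φ` on the line and on the quotient, `c` is the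
determinant of the inertia element `σ`, `v` the reduction of a vector, and `w` that of its image under
`φ`, which is also that of its image under `φ σ`.) -/
theorem elimination {O : Type} [CommRing O] [IsDomain O] [IsDiscreteValuationRing O]
    [IsAdicComplete (maximalIdeal O) O] [Finite (ResidueField O)] [CharZero O] {W : Type*}
    [AddCommGroup W] [Module O W] [Module.Free O W] {a X Y c q : O} {v w : W} (hv : v ≠ 0)
    (hX : X ≠ 0) (hc : c ≠ 1)
    (h1 : (X + Y - a) • w = (X * Y - q) • v)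
    (h2 : (X * c + Y - a) • w = (X * c * Y - q) • v) : Y ^ 2 - a * Y + q = 0 :=
  H7.P.unitRoot_alg hv hX hc h1 h2

/-- **The unit root relation, abstract form.**  Let `J` be an abelian group with Galois action and
finite `p`-torsion, `s : J → M` an inertia-invariant map with the Eichler-Shimura relation at `p`,
such that the hypotheses `hC` of `hecke_unit` and `hD` of `reduction_ne_zero` hold.  Let `E ≠ 0` be a
stable saturated submodule of `O ⊗ T_p J` on which `T_p = a` and on which the quadratic relations of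
`ρ` hold; let the operators of `ρ` span `End(V)`, its determinant be cyclotomic and `V / O b₀`
unramified.  Let `φ` be a Frobenius element which preserves the line, and `z` the scalar by which it
acts on the quotient.  Then `a` is a unit and `z² - a z + p = 0`.  Proof: embed `V` in `E`
(`GuideRealisation.embedding_lattice`); subtract the quadratic relation of `ρ` from the relation of
Eichler and Shimura, for `φ` and for `φ σ`, and apply `elimination`.  (File `H7PAbs2.lean`.) -/
theorem unit_root_abstract {p : ℕ} [Fact p.Prime] {O : Type} [CommRing O] [IsDomain O]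
    [IsDiscreteValuationRing O] [IsAdicComplete (maximalIdeal O) O] [Finite (ResidueField O)]
    [CharZero O] [Algebra ℤ_[p] O] {J : Type} [AddCommGroup J] [DistribMulAction H31.GQ J]
    {A : ValuationSubring Qb} {ρ : GaloisRepAdic O} {b : Module.Basis (Fin 2) O ρ.V}
    (hp2 : p ≠ 2) (hA : A.LiesOverPrime p) (hfin : {x : J | p • x = 0}.Finite)
    {M : Type} [AddCommGroup M] (s : J →+ M) (Fr : M →+ M) (Tp : J →+ J)
    (hin : ∀ σ ∈ A.inertiaSubgroupIn ℚ, ∀ x : J, s (σ • x) = s x)
    (hfr : ∀ σ : H31.GQ, A.IsFrobeniusAt σ p → ∀ x : J, s (σ • x) = Fr (s x))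
    (hrel : ∀ x : J, Fr (Fr (s x)) - Fr (s (Tp x)) + p • s x = 0)
    (E : Submodule O (O ⊗[ℤ_[p]] H30.TateMod p J)) (hE : E ≠ ⊥)
    (hsat : ∀ c : O, c ≠ 0 → ∀ w, c • w ∈ E → w ∈ E)
    (hst : ∀ g, ∀ w ∈ E, (H30.galTate p J g).baseChange O w ∈ E)
    {a : O} (hTp : ∀ w ∈ E, (H35.tateMap Tp).baseChange O w = a • w)
    (hspan : Submodule.span O (Set.range ρ.ρ) = ⊤)
    (hquad : ∀ g, ∀ w ∈ E, (H30.galTate p J g).baseChange O ((H30.galTate p J g).baseChange O w) -
      LinearMap.trace O ρ.V (ρ.ρ g) • (H30.galTate p J g).baseChange O w +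
        LinearMap.det (ρ.ρ g) • w = 0)
    (hdet : ρ.DetIsCyclotomic p)
    (hb : ∀ σ ∈ A.inertiaSubgroupIn ℚ, ∀ v : ρ.V, ρ.ρ σ v - v ∈ Submodule.span O {b 0})
    (hC : ∀ ζ : Qb, IsPrimitiveRoot ζ p → ∀ x : J, p • x = 0 → Tp x = 0 →
      (∀ σ ∈ A.inertiaSubgroupIn ℚ, σ ζ = ζ → σ • x = x) → x = 0)
    (hD : ∀ (W : Type) [Finite W] (T : W ≃ W) (x : W → J), (∀ w, Tp (x w) = x (T w)) →
      (∀ w, p • x w = 0) → (∀ w, s (x w) = 0) →
      ∀ ζ : Qb, IsPrimitiveRoot ζ p → ∀ σ ∈ A.inertiaSubgroupIn ℚ, ∀ a : ℕ,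
        σ ζ = ζ ^ a → ∀ w, σ • x w = a • x w)
    (hFrobI : ∀ φ σ : H31.GQ, A.IsFrobeniusAt φ p → σ ∈ A.inertiaSubgroupIn ℚ →
      A.IsFrobeniusAt (φ * σ) p)
    {φ : H31.GQ} (hφ : A.IsFrobeniusAt φ p) (hφb : ρ.ρ φ (b 0) ∈ Submodule.span O {b 0}) :
    IsUnit a ∧ b.repr (ρ.ρ φ (b 1)) 1 ^ 2 - a * b.repr (ρ.ρ φ (b 1)) 1 + p = 0 :=
  H7.P.unitRoot_abs hp2 hA hfin s Fr Tp hin hfr hrel E hE hsat hst hTp hspan hquad hdet hb hC hD
    hFrobI hφ hφb

/-! ## 4. The unit root relation in `J_0(N)` and at points -/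

/-- **The unit root relation in `T_p J_0(N)`.**  Let `p` be odd, `p ∤ N`, and `ρ` a representation
over a complete discrete valuation ring `O` of characteristic zero with finite residue field, with
cyclotomic determinant and with operators spanning `End(V)`.  Let `Φ : V → O ⊗ T_p J_0(N)` be an
equivariant embedding with `T_p Φ(v) = μ Φ(v)`, and `l ≠ 0` a functional on `V` which is invariant
under inertia at `A` and on which the Frobenius element `φ` acts by `z`.  Then `μ` is a unit and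
`z² - μ z + p = 0`.  (File `H7P1b.lean`, from `unit_root_abstract` for the saturation of `Φ(V)`; used
in `H75R3.lean`.) -/
theorem unit_root_functional {p : ℕ} [Fact p.Prime] {N : ℕ} [NeZero N] {A : ValuationSubring Qb}
    {O : Type} [CommRing O] [IsDomain O] [IsDiscreteValuationRing O]
    [IsAdicComplete (maximalIdeal O) O] [Finite (ResidueField O)] [CharZero O] [Algebra ℤ_[p] O]
    {ρ : GaloisRepAdic O} (hp2 : p ≠ 2) (hpN : ¬ p ∣ N) (hA : A.LiesOverPrime p)
    (hspan : Submodule.span O (Set.range ρ.ρ) = ⊤) (hdet : ρ.DetIsCyclotomic p)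
    (Φ : ρ.V →ₗ[O] O ⊗[ℤ_[p]] H30.TateMod p (JZero N)) (hΦ : Function.Injective Φ)
    (hgal : ∀ g v, Φ (ρ.ρ g v) = (H30.galTate p (JZero N) g).baseChange O (Φ v))
    {μ : O} (hTp : ∀ v, (H35.tateMap (heckeOperatorBar N ⟨p, Fact.out⟩ :
      JZero N →+ JZero N)).baseChange O (Φ v) = μ • Φ v)
    {φ : H31.GQ} (hφ : A.IsFrobeniusAt φ p) (l : ρ.V →ₗ[O] O) (hl : l ≠ 0)
    (hlI : ∀ σ ∈ A.inertiaSubgroupIn ℚ, ∀ v, l (ρ.ρ σ v) = l v)
    {z : O} (hz : ∀ v, l (ρ.ρ φ v) = z * l v) : IsUnit μ ∧ z ^ 2 - μ * z + p = 0 :=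
  H7.P.unitRoot_functional hp2 hpN hA hspan hdet Φ hΦ hgal hTp hφ l hl hlI hz

/-- **The eigenvalue of `T_p` at a modular point of level prime to `p`.**  Let `ρ` over a complete
discrete valuation ring `𝒪'` of characteristic zero be attached to the eigenvalues `lam ℓ` of a class
`x ∈ H¹(Γ₀(M), 𝒪'_{η²})` (no multiple `c x`, `c ≠ 0`, vanishes), residually irreducible with
cyclotomic determinant, and `T_p x = η(p) μ x`, `p ∤ M`; here `η` is a character of odd order modulo a
squarefree divisor `N'` of `M` whose primes divide `M` exactly once, and `S` contains `p` and the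
primes dividing `M` (`H70.Mod.Away`).  If `l` is a nonzero linear form on `ρ` which is invariant
under inertia at a place above `p` and on which a Frobenius element acts by `z`, then `μ` is a unit
and `z² - μ z + p = 0`, i.e. `μ = z + p z⁻¹`.  (Text: helper75.  File `H75R3.lean`, from
`GuideEigen.realisation_good` and `unit_root_functional`.) -/
theorem unit_root_point {p : ℕ} [Fact p.Prime] {S : Finset ℕ} {𝒪' : Type} [CommRing 𝒪']
    [IsDomain 𝒪'] [IsDiscreteValuationRing 𝒪'] [IsAdicComplete (maximalIdeal 𝒪') 𝒪']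
    [Finite (ResidueField 𝒪')] [CharZero 𝒪'] (hp2 : p ≠ 2) (hpS : p ∈ S)
    (hp𝒪' : (p : 𝒪') ∈ maximalIdeal 𝒪') {N' M : ℕ} (hsq : Squarefree N') (hM0 : 0 < M)
    (hex : ∀ r : ℕ, r.Prime → r ∣ N' → ¬ r * r ∣ M) (hM : N' ∣ M)
    (hS : H70.Mod.Away M (↑S : Set ℕ))
    (η : (ZMod N')ˣ →* 𝒪'ˣ) {m : ℕ} (hm : Odd m) (hη : η ^ m = 1)
    {lam : ℕ → 𝒪'} (ρ : GaloisRepAdic 𝒪') (hρ : H62.IsAttached S lam ρ)
    (hirr : ρ.residual.IsIrreducible) (hdet : ρ.DetIsCyclotomic p)
    {x : H70.Coh.H1 (H70.Coh.gam N' M hM) (H70.Coh.psiRep (η ^ 2) 𝒪')}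
    (hx : ∀ c : 𝒪', c ≠ 0 → c • x ≠ 0)
    (hT : ∀ i : H70.Mod.Idx (↑S : Set ℕ), H70.Mod.tw hM hS (η ^ 2) η i x = lam i.1 • x)
    (hp : p.Prime) (hpM : ¬ p ∣ M) (hc : p.Coprime N') {μ : 𝒪'}
    (hμ : (H70.Coh.tFam hM hp hpM).opH (H70.Coh.psiRep (η ^ 2) 𝒪') x =
      (((η (ZMod.unitOfCoprime p hc) : 𝒪'ˣ) : 𝒪') * μ) • x)
    {A : ValuationSubring Qb} (hA : A.LiesOverPrime p)
    {φ : Qb ≃ₐ[ℚ] Qb} (hφ : A.IsFrobeniusAt φ p) (l : Module.Dual 𝒪' ρ.V) (hl : l ≠ 0)
    (hlI : ∀ σ ∈ A.inertiaSubgroupIn ℚ, ∀ v, l (ρ.ρ σ v) = l v)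
    {z : 𝒪'} (hz : ∀ v, l (ρ.ρ φ v) = z * l v) :
    IsUnit μ ∧ z ^ 2 - μ * z + p = 0 :=
  H75R.unitRoot_int hp2 hpS hp𝒪' hsq hM0 hex hM hS η hm hη ρ hρ hirr hdet hx hT hp hpM hc hμ hA hφ
    l hl hlI hz

/-- **New points.**  The same at a point of level `M₀ p`, `p ∤ M₀`, which is new at `p` (both traces
to level `M₀` vanish): Frobenius acts on the inertia-invariant form by `z` with `z² = 1`, so `t = 0`.
(Text: helper75.  File `H75R4.lean`, from `GuideEigen.realisation_new` and
`GuideFrobeniusAtP.frobenius_new`.) -/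
theorem new_root_point {p : ℕ} [Fact p.Prime] {S : Finset ℕ} {𝒪' : Type} [CommRing 𝒪']
    [IsDomain 𝒪'] [IsDiscreteValuationRing 𝒪'] [IsAdicComplete (maximalIdeal 𝒪') 𝒪']
    [Finite (ResidueField 𝒪')] [CharZero 𝒪'] (hp2 : p ≠ 2) (hpS : p ∈ S)
    (hp𝒪' : (p : 𝒪') ∈ maximalIdeal 𝒪') {N' M₀ : ℕ} [NeZero M₀] [NeZero p] (hsq : Squarefree N')
    (hex : ∀ r : ℕ, r.Prime → r ∣ N' → ¬ r * r ∣ M₀) (hM : N' ∣ M₀)
    (hS : H70.Mod.Away (M₀ * p) (↑S : Set ℕ))
    (η : (ZMod N')ˣ →* 𝒪'ˣ) {m : ℕ} (hm : Odd m) (hη : η ^ m = 1)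
    {lam : ℕ → 𝒪'} (ρ : GaloisRepAdic 𝒪') (hρ : H62.IsAttached S lam ρ)
    (hirr : ρ.residual.IsIrreducible) (hdet : ρ.DetIsCyclotomic p)
    {x : H70.Coh.H1 (H70.Coh.gam N' (M₀ * p) (hM.mul_right p)) (H70.Coh.psiRep (η ^ 2) 𝒪')}
    (hx : ∀ c : 𝒪', c ≠ 0 → c • x ≠ 0)
    (hT : ∀ i : H70.Mod.Idx (↑S : Set ℕ),
      H70.Mod.tw (hM.mul_right p) hS (η ^ 2) η i x = lam i.1 • x)
    (hp : p.Prime) (hpM : ¬ p ∣ M₀)
    (h1 : (H70.Coh.trFam hM).opH (H70.Coh.psiRep (η ^ 2) 𝒪') x = 0)
    (h2 : (H70.Coh.nuFam hM hp).opH (H70.Coh.psiRep (η ^ 2) 𝒪') x = 0)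
    {A : ValuationSubring Qb} (hA : A.LiesOverPrime p)
    {φ : Qb ≃ₐ[ℚ] Qb} (hφ : A.IsFrobeniusAt φ p) (l : Module.Dual 𝒪' ρ.V) (hl : l ≠ 0)
    (hlI : ∀ σ ∈ A.inertiaSubgroupIn ℚ, ∀ v, l (ρ.ρ σ v) = l v)
    {z : 𝒪'} (hz : ∀ v, l (ρ.ρ φ v) = z * l v) : z ^ 2 = 1 :=
  H75R.newRoot_int hp2 hpS hp𝒪' hsq hex hM hS η hm hη ρ hρ hirr hdet hx hT hp hpM h1 h2 hA hφ
    l hl hlI hz

/-! ## 5. The element `τ = z + p z⁻¹` of the deformation ring -/

/-- The unit root determines the eigenvalue: if `z` is a unit with `z² - μ z + p = 0` then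
`z + p z⁻¹ = μ`.  (File `H75R1.lean`.) -/
theorem tau_of_root (p : ℕ) {R : Type*} [CommRing R] {z μ : R} (hz : IsUnit z)
    (h : z ^ 2 - μ * z + (p : R) = 0) : z + (p : R) * Ring.inverse z = μ :=
  H75R.tauR_of_quadratic p hz h

/-- **The mark `t` is the level raising element at `p`.**  For `w² = 1` and `t` in the maximal ideal of
a local ring with odd residue characteristic `p` the element `τ = z + p z⁻¹`, `z = w + t` (in the
deformation ring it plays the role of `T_p`), satisfies `(p + 1)² - τ² = unit · t`.  This has the same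
shape as at the raising primes `q ≠ p`.  (Text: helper75.  File `H75R1.lean`.) -/
theorem tau_sq {p : ℕ} [Fact p.Prime] {R : Type} [CommRing R] [IsLocalRing R] (hp2 : p ≠ 2)
    (hpm : (p : R) ∈ maximalIdeal R) {w : R} (hw : w ^ 2 = 1) {t : R} (ht : t ∈ maximalIdeal R) :
    IsUnit (w + t) ∧ ∃ v v' : R, v * v' = 1 ∧
      ((p : R) + 1) ^ 2 - ((w + t) + (p : R) * Ring.inverse (w + t)) ^ 2 = v * t :=
  H75R.tau_sq hp2 hpm hw ht

/-- The same with a further unit factor `t + c`, in the form used for the level raising modules: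
`(p + 1)² - τ² = unit · t (t + c)` for every unit `c`.  (File `H75R1.lean`.) -/
theorem tau_sq_mul {p : ℕ} [Fact p.Prime] {R : Type} [CommRing R] [IsLocalRing R] (hp2 : p ≠ 2)
    (hpm : (p : R) ∈ maximalIdeal R) {w : R} (hw : w ^ 2 = 1) {t : R} (ht : t ∈ maximalIdeal R)
    {c : R} (hc : IsUnit c) :
    ∃ v v' : R, v * v' = 1 ∧
      ((p : R) + 1) ^ 2 - ((w + t) + (p : R) * Ring.inverse (w + t)) ^ 2 = v * (t * (t + c)) :=
  H75R.tau_sq_mul hp2 hpm hw ht hc

/-! ## 6. The mark at `p` at the points of the deformation ring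

The texts of this section are by helper75.  `E` is the Galois side of a level of ordinary type
(`H53.GalLevelB`; `galLevel_fields`, `pData_ordinary` in GuideLiftingGalois): `E.D.R` is the
universal deformation ring, `φ` a Frobenius element and `σ₀` an element of inertia at the
distinguished place above `p` (`markElts_iff` there); `t = E.mB (inr ()) 0` and `y = E.mB (inr ()) 1`
are the marks at `p` (`ordMark_iff` there: in a suitable basis of the universal representation
`w + t` is the scalar of `φ` on the unramified quotient, `y` the upper right entry of `σ₀`), the third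
mark is zero; `w = ± 1` is the residual value of `φ` on the quotient: the lower right entry of
`g₀⁻¹ r(φ) g₀` (`H75P.cj g₀ r`), `r` the matrices of `ρbar`.  For the other primes `q` of the type
`PlaceData p q` is a place above `q` with a Frobenius element and a tame generator.  `Away M S`: the
primes dividing `M` are in `S`.  `π : R → 𝕋` is a surjection to a localised Hecke algebra which
carries the universal representation to the representation over `𝕋`, and `lam : 𝕋 → O'` a point.
Theorems `eigenvalue_at_point`, `t_at_new_point`, `y_at_point` are, for `q = p`, the facts about the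
points on which the comparison of the deformation rings with the Hecke modules is based
(`H86InFa.lean`, `MarkFacts`; `H75R6.lean`). -/

section Points

open GaloisRep CuspForm Fermat.Agent.H30 Fermat.Agent.H35
open Fermat.Agent.H70.Coh Fermat.Agent.H70.Mod Fermat.Agent.H53 Fermat.Agent.H86.In

variable {O : Type} [CommRing O] [IsDomain O] [IsDiscreteValuationRing O]
  [IsAdicComplete (maximalIdeal O) O] [Finite (ResidueField O)] {p : ℕ} [Fact p.Prime]
  (hp2 : p ≠ 2) {ρbar : ResidualGaloisRep (ResidueField O)}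
  {b : Module.Basis (Fin 2) (ResidueField O) ρbar.V}
  (hdet : (GaloisRepAdic.ofResidualGaloisRep ρbar).DetIsCyclotomic p)
  (hord : (GaloisRepAdic.ofResidualGaloisRep ρbar).IsOrdinaryAt p)
  {φ σ₀ : AlgebraicClosure ℚ ≃ₐ[ℚ] AlgebraicClosure ℚ} (hm : H75P.MarkElts p φ σ₀)
  (hr0 : toMat ρbar.ρ b σ₀ = 1) (w : ℤ) (hw : w ^ 2 = 1) {g₀ : (M2 (ResidueField O))ˣ}
  (hg₀ : H75P.OrdI p (H75P.cj g₀ (toMat ρbar.ρ b)))
  (hu : H75P.cj g₀ (toMat ρbar.ρ b) φ 1 1 = (w : ResidueField O)) {A : Finset ℕ}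
  {T B : Type} [Fintype T] [Fintype B] {qT : T → ℕ} {pl : ∀ t, PlaceData p (qT t)} {u : T → O}
  {qB : B → ℕ} {plB : ∀ i, PlaceData p (qB i)} {uB : B → O} {k n : ℕ} {S₀ : Finset ℕ}
  (E : GalLevelB p ρbar b (PData.ord hp2 ρbar b hdet hord hm hr0 w hw hg₀ hu) A qT pl u qB plB
    uB k n S₀)

/-- **The unramified quotient at a point of the deformation ring.**  The representation at
`f : R → O'` (a local homomorphism) has a nonzero linear form which is invariant under inertia at the
distinguished place above `p` and on which `φ` acts by `f(w + t)`.  (File `H75R1.lean`; it provides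
the functional in `unit_root_point` and `new_root_point`.) -/
theorem functional_at_point {O' : Type} [CommRing O'] [IsLocalRing O'] [Algebra O O']
    (f : E.D.R →ₐ[O] O') (hf : IsLocalHom (f : E.D.R →+* O')) :
    ∃ l : Module.Dual O' (H68.Tw.ptRep E.D f hf).V, l ≠ 0 ∧
      (∀ σ ∈ (padicPlace p).inertiaSubgroupIn ℚ, ∀ v, l ((H68.Tw.ptRep E.D f hf).ρ σ v) = l v) ∧
      ∀ v, l ((H68.Tw.ptRep E.D f hf).ρ φ v) = f ((w : E.D.R) + E.mB (Sum.inr ()) 0) * l v :=
  H75R.exists_functional hp2 hdet hord hm hr0 w hw hg₀ hu E f hf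

variable {L : ℕ} [NeZero L] {S : Finset ℕ} (hpS : p ∈ S) (hLS : ∀ q : ℕ, q.Prime → q ∣ L → q ∈ S)
  {θ : heckeAlgebra L 2 (↑S : Set ℕ) →+* ResidueField O}
  (π : E.D.R →ₐ[O] heckeLocal L (↑S : Set ℕ) O θ) (hπ : Function.Surjective π)
  {H : HeckeGaloisRepDatum L (↑S : Set ℕ) O θ (heckeLocal L (↑S : Set ℕ) O θ)}
  (hH : H.π = heckeLocal.π L (↑S : Set ℕ) O θ)
  (b₂ : Module.Basis (Fin 2) (heckeLocal L (↑S : Set ℕ) O θ) H.ρ.V)
  (hb₂ : toMat H.ρ.ρ b₂ =
    mapMat (π : E.D.R →+* heckeLocal L (↑S : Set ℕ) O θ) (toMat E.D.ρ.ρ E.b₁))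
  {O' : Type} [CommRing O'] [IsDomain O'] [IsDiscreteValuationRing O']
  [IsAdicComplete (maximalIdeal O') O'] [Finite (ResidueField O')] [CharZero O']
  [Algebra O O'] [Module.Finite O O'] [IsLocalHom (algebraMap O O')]

include hpS hπ hH hb₂

/-- **The eigenvalue of `T_p` at a point of level prime to `p`.**  Let `x` be a non-torsion class in
`H¹(Γ₀(M), O'_{η²})`, `p ∤ M`, with the eigenvalues of `lam` and with `T_p x = η(p) μ x`.  Then `μ` is
the value at the point of `τ = z + p z⁻¹`, `z = w + t`: by `functional_at_point` `φ` acts on the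
unramified quotient by `z`, and `z` is a root of `X² - μ X + p` (`unit_root_point`).
(File `H75R3.lean`.) -/
theorem eigenvalue_at_point [CharZero O] {N M : ℕ} (hsq : Squarefree N) (hM0 : 0 < M)
    (hex : ∀ r : ℕ, r.Prime → r ∣ N → ¬ r * r ∣ M) (hM : N ∣ M) (hS : Away M (↑S : Set ℕ))
    (hp : p.Prime) (hpM : ¬ p ∣ M) (hpN : p.Coprime N)
    (lam : heckeLocal L (↑S : Set ℕ) O θ →ₐ[O] O') (η : (ZMod N)ˣ →* O'ˣ)
    (x : H1 (gam N M hM) (psiRep (η ^ 2) O')) (hη : ∃ m, Odd m ∧ η ^ m = 1)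
    (hx : ∀ c : O', c ≠ 0 → c • x ≠ 0)
    (hT : ∀ i, tw hM hS (η ^ 2) η i x =
      lam (heckeLocal.π L (↑S : Set ℕ) O θ (TIdx L (↑S : Set ℕ) hLS i)) • x)
    (μ : O') (hμ : (tFam hM hp hpM).opH (psiRep (η ^ 2) O') x =
      (((η (ZMod.unitOfCoprime p hpN) : O'ˣ) : O') * μ) • x) :
    lam (π (((w : E.D.R) + E.mB (Sum.inr ()) 0) +
      (p : E.D.R) * Ring.inverse ((w : E.D.R) + E.mB (Sum.inr ()) 0))) = μ :=
  H75R.lam_tauP_eq hp2 hdet hord hm hr0 w hw hg₀ hu E hpS hLS π hπ hH b₂ hb₂ rfl hsq hM0 hex hM hS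
    hp hpM hpN lam η x hη ⟨hx, hT⟩ μ hμ

/-- **At a `p`-new point the mark `t` vanishes.**  Let `x` have level `M p`, `p ∤ M`, and let both its
traces to level `M` be zero; then `(w + t)² = 1` at the point (`new_root_point`), and `t = 0` because
`t` is in the maximal ideal and `2 w + t` is a unit.  (File `H75R4.lean`.) -/
theorem t_at_new_point [CharZero O] {N M : ℕ} [NeZero M] [NeZero p] (hsq : Squarefree N)
    (hex : ∀ r : ℕ, r.Prime → r ∣ N → ¬ r * r ∣ M) (hM : N ∣ M)
    (hS : Away (M * p) (↑S : Set ℕ)) (hp : p.Prime) (hpM : ¬ p ∣ M)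
    (lam : heckeLocal L (↑S : Set ℕ) O θ →ₐ[O] O') (η : (ZMod N)ˣ →* O'ˣ)
    (x : H1 (gam N (M * p) (hM.mul_right p)) (psiRep (η ^ 2) O'))
    (hη : ∃ m, Odd m ∧ η ^ m = 1) (hx : ∀ c : O', c ≠ 0 → c • x ≠ 0)
    (hT : ∀ i, tw (hM.mul_right p) hS (η ^ 2) η i x =
      lam (heckeLocal.π L (↑S : Set ℕ) O θ (TIdx L (↑S : Set ℕ) hLS i)) • x)
    (h1 : (trFam hM).opH (psiRep (η ^ 2) O') x = 0)
    (h2 : (nuFam hM hp).opH (psiRep (η ^ 2) O') x = 0) :
    lam (π (E.mB (Sum.inr ()) 0)) = 0 :=
  H75R.lam_t_eq_zero hp2 hdet hord hm hr0 w hw hg₀ hu E hpS hLS π hπ hH b₂ hb₂ rfl hsq hex hM hS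
    hp hpM lam η x hη ⟨hx, hT⟩ h1 h2

/-- **At a point of level prime to `p` the marks `y` and `z` vanish** (for the third mark `z` this is
always true).  The representation at the point is flat at `p` (helper80's theorem on the points, file
`H80FlatPt.lean`, from `S19`), and flat points have `y = 0`
(`GuideLiftingGalois.ordMark_point_flat`).  (File `H75R5.lean`.) -/
theorem y_at_point [CharZero O] {N M : ℕ} (hsq : Squarefree N) (hM0 : 0 < M)
    (hex : ∀ r : ℕ, r.Prime → r ∣ N → ¬ r * r ∣ M) (hM : N ∣ M) (hS : Away M (↑S : Set ℕ))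
    (hpM : ¬ p ∣ M) (lam : heckeLocal L (↑S : Set ℕ) O θ →ₐ[O] O') (η : (ZMod N)ˣ →* O'ˣ)
    (x : H1 (gam N M hM) (psiRep (η ^ 2) O')) (hη : ∃ m, Odd m ∧ η ^ m = 1)
    (hx : ∀ c : O', c ≠ 0 → c • x ≠ 0)
    (hT : ∀ i, tw hM hS (η ^ 2) η i x =
      lam (heckeLocal.π L (↑S : Set ℕ) O θ (TIdx L (↑S : Set ℕ) hLS i)) • x) :
    lam (π (E.mB (Sum.inr ()) 1)) = 0 ∧ lam (π (E.mB (Sum.inr ()) 2)) = 0 :=
  H75R.lam_y_eq_zero hp2 hdet hord hm hr0 w hw hg₀ hu E hpS hLS π hπ hH b₂ hb₂ hsq hM0 hex hM hS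
    hpM lam η x hη ⟨hx, hT⟩

end Points

end Fermat.Agent.Guide.UnitRoot
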