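import Fermat.Agent.S31

/-!
# Guide: the Galois representation of a Hecke algebra is unramified outside `S` (S31)

(helper31; library files by helper31, helper82, helper86, helper32, helper90; read by
helper32, helper84, helper89, helper55, helper14)

Statement served: S31. Companion of GuideGalois (sections 2, 3 and 6), which explains the jacobian
`J_0(N)` as a Galois-Hecke module, Frobenius density and the structure `HeckeGaloisRepDatum`.
NOTES.md: Section 3.4, [88] NOTES-S31. Every cited library theorem is used in the proof term of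
S31. S31 itself is not needed for S01; sections 1 to 5 are.

**What the block does.** `T` is a local component of the Hecke algebra of weight two and level `N`,
completed at `p`, and `ρ : Gal(ℚ̄/ℚ) → GL₂(T)` is ANY continuous representation, residually
absolutely irreducible, such that the Frobenius elements at almost all primes `ℓ` have the
characteristic polynomial `X² - T_ℓ X + ℓ`. Nothing else is known about `ρ`; in particular it is not
given as a subquotient of the Tate module of `J_0(N)`. The claim is that `ρ` is unramified at every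
prime `q` outside `S`, where `S` is a finite set of primes containing `p` and the prime divisors of
`N`.

**Idea.** Let `τ` be in an inertia group at `q`. The reduction of `ρ` is absolutely irreducible, so
that by Burnside's theorem and Nakayama's lemma the endomorphisms `ρ(g)` span `End(V)`, and
`ρ(τ) = 1` if and only if `tr ρ(g τ) = tr ρ(g)` for all `g`. Fix `n`. By Frobenius' density theorem
`g` and `g τ` agree, on a number field which is large enough, with powers `φ^j`, `φ'^j'` of
Frobenius elements at good primes `ℓ`, `ℓ'`. So the two traces are, modulo `𝔪^n`, the polynomials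
`t` in `T_ℓ` and `t'` in `T_ℓ'` which describe the trace of the `j`-th and of the `j'`-th power.
Both `φ^j` and `φ'^j'` act on `J_0(N)[p^m]` like `g`, because `τ` acts trivially there. By the
Eichler-Shimura relation this one automorphism `x` satisfies two quadratic equations
`x² - t x + ℓ^j = 0` and `x² - t' x + ℓ'^j' = 0`, and `ℓ^j ≡ ℓ'^j'` modulo `p^m` (action on the
roots of unity). Hence `(t - t') x = 0` on `J_0(N)[p^m]` with `x` invertible, so `t - t'` kills
`J_0(N)[p^m]`, and, because the Hecke algebra acts faithfully, `u (t - t')` is divisible by `p^n` in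
the Hecke algebra, with `u` prime to `p`. (The same method, with `(τ - 1)² = 0` instead of `τ = 1`,
gives S34; see GuideNewforms.)

**Contents.** 1. Traces and quadratic equations of powers. 2. Roots of unity. 3. Every torsion point
is defined over a number field. 4. Frobenius density. 5. Traces and congruences of representations.
6. The congruence between Hecke operators. 7. S31.
-/

set_option autoImplicit false

open IsLocalRing AlgebraicCurve ModularCurve

namespace Fermat.Agent.Guide.Unramified

/-- An algebraic closure of `ℚ`. -/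
local notation "Qb" => AlgebraicClosure ℚ

/-- The absolute Galois group of `ℚ`. -/
local notation "Gℚ" => AlgebraicClosure ℚ ≃ₐ[ℚ] AlgebraicClosure ℚ

/-! ## 1. Traces and quadratic equations of powers -/

/-- **The sequence `x^j + y^j`.** `H31.luc t d j` is defined by the recursion below. If
`x + y = t` and `x y = d`, it is `x^j + y^j`, since `x` and `y` are the roots of `X² - t X + d`. So
`luc T_ℓ ℓ j` is the polynomial in `T_ℓ` which describes the trace of the `j`-th power of a
Frobenius element. (`H31Lucas`) -/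
theorem luc_def {R : Type*} [CommRing R] (t d : R) :
    H31.luc t d 0 = 2 ∧ H31.luc t d 1 = t ∧
      ∀ n, H31.luc t d (n + 2) = t * H31.luc t d (n + 1) - d * H31.luc t d n :=
  ⟨H31.luc_zero t d, H31.luc_one t d, H31.luc_add_two t d⟩

/-- **Trace of a power.** If the endomorphism `f` of a free module of rank two has the
characteristic polynomial `X² - t X + d`, then `tr (f^j) = luc t d j`. (`H31Lucas`) -/
theorem trace_of_power {T : Type*} [CommRing T] [Nontrivial T] {V : Type*} [AddCommGroup V]
    [Module T V] [Module.Free T V] [Module.Finite T V] (hr : Module.finrank T V = 2)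
    (f : Module.End T V) (t d : T)
    (h : LinearMap.charpoly f =
      Polynomial.X ^ 2 - Polynomial.C t * Polynomial.X + Polynomial.C d) (j : ℕ) :
    LinearMap.trace T V (f ^ j) = H31.luc t d j :=
  H31.trace_pow_of_charpoly hr f t d h j

/-- **Quadratic equation of a power.** If `x² - t x + d = 0` in an `R`-algebra which need not be
commutative, then `(x^j)² - (luc t d j) x^j + d^j = 0`. Applied to a Frobenius element acting on
`J_0(N)[p^m]`, with `R` the Hecke algebra. (`H31Lucas`) -/
theorem quadratic_equation_of_power {R E : Type*} [CommRing R] [Ring E] [Algebra R E] (t d : R)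
    (x : E) (h : x * x - algebraMap R E t * x + algebraMap R E d = 0) (j : ℕ) :
    x ^ j * x ^ j - algebraMap R E (H31.luc t d j) * x ^ j + algebraMap R E (d ^ j) = 0 :=
  H31.quadratic_pow t d x h j

/-- **Two quadratic equations of the same element**: `(t - t') x = d - d'`. (`H31Mod`) -/
theorem two_quadratic_equations {R E : Type*} [CommRing R] [Ring E] [Algebra R E] (t t' d d' : R)
    (x : E) (h1 : x * x - algebraMap R E t * x + algebraMap R E d = 0)
    (h2 : x * x - algebraMap R E t' * x + algebraMap R E d' = 0) :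
    algebraMap R E (t - t') * x = algebraMap R E (d - d') :=
  H31.sub_mul_eq_of_quadratic t t' d d' x h1 h2

/-! ## 2. Roots of unity -/

/-- **Frobenius and inertia on roots of unity of order prime to the residue characteristic.** `A` is
a place of `ℚ̄` over `ℓ`, `n` is prime to `ℓ`. A Frobenius element at `A` raises the `n`-th roots of
unity to the power `ℓ`, and the inertia group of `A` fixes them. (`H31Cyclo`) -/
theorem frobenius_inertia_rootOfUnity (A : ValuationSubring Qb) {ℓ n : ℕ}
    (hA : A.LiesOverPrime ℓ) (h : Nat.Coprime ℓ n) (hn : 0 < n) {ζ : Qb} (hζ : ζ ^ n = 1) :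
    (∀ φ : Gℚ, A.IsFrobeniusAt φ ℓ → φ ζ = ζ ^ ℓ) ∧ ∀ τ ∈ A.inertiaSubgroupIn ℚ, τ ζ = ζ :=
  ⟨fun _ hφ => H31.frobenius_apply_rootOfUnity A hA h hn hφ hζ,
    fun _ hτ => H31.inertia_apply_rootOfUnity A hA h hn hτ hζ⟩

/-! ## 3. Every torsion point is defined over a number field -/

/-- **Places of the function field.** `F₀` is a field of Laurent series over `ℚ` (here the function
field of `X_0(N)`), `laurentBaseChange L F₀` the field generated by it and `L`. For every place `v`
there is a number field `K'` in `L` such that all automorphisms of `L` which are the identity on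
`K'` fix `v`: take a uniformiser and, for each other zero of it, a function which is regular at `v`
but not at this zero; these finitely many functions have expansions with coefficients in a number
field `K'`. (`H31Level`) -/
theorem place_over_number_field {L : Type*} [Field L] [Algebra ℚ L] [Algebra.IsAlgebraic ℚ L]
    {F₀ : IntermediateField ℚ (LaurentSeries ℚ)}
    [HasPrincipalDivisors L (laurentBaseChange L F₀)] (v : Place L (laurentBaseChange L F₀)) :
    ∃ K' : IntermediateField ℚ L, FiniteDimensional ℚ K' ∧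
      ∀ σ : L ≃ₐ[ℚ] L, (∀ a ∈ K', σ a = a) → arithmeticGalois F₀ σ • v = v :=
  H31.openly_smul_place v

/-- **Finitely many points of `J_0(N)(ℚ̄)` are defined over one number field.** `JZero N` is the
group of divisor classes of degree zero of the function field of `X_0(N)` over `ℚ̄`. (`H31Level`) -/
theorem points_over_number_field (N : ℕ)
    [HasPrincipalDivisors Qb (modularFunctionFieldBar N)] (s : Set (JZero N)) (hs : s.Finite) :
    ∃ K' : IntermediateField ℚ Qb, FiniteDimensional ℚ K' ∧
      ∀ σ : Gℚ, (∀ a ∈ K', σ a = a) → ∀ x ∈ s, σ • x = x :=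
  H31.exists_level_JZero_of_finite N s hs

/-! ## 4. Frobenius density -/

/-- **Frobenius density, weak form.** For a number field `L` in `ℚ̄`, a finite set `S` of primes and
`g` in the Galois group there are a prime `ℓ ∉ S` and a Frobenius element `φ` at a place over `ℓ`
such that `g` agrees on `L` with a power of `φ`. See GuideGalois for the proof. (`H31Wire`, from
`H82FrobDensity` and `H86Density`) -/
theorem frobenius_density (L : IntermediateField ℚ Qb) (hL : FiniteDimensional ℚ L)
    (S : Finset ℕ) (g : Gℚ) :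
    ∃ ℓ : ℕ, ℓ.Prime ∧ ℓ ∉ S ∧ ∃ A : ValuationSubring Qb, A.LiesOverPrime ℓ ∧
      ∃ φ : Gℚ, A.IsFrobeniusAt φ ℓ ∧ ∃ j : ℕ, ∀ x ∈ L, g x = (φ ^ j) x :=
  H31.weakFrobeniusDensity L hL S g

/-! ## 5. Traces and congruences of representations -/

/-- **Agreement on a number field and traces.** `ρ` is a representation over the local ring `R` on
the free module `V`, `L` a number field such that the elements which fix `L` act trivially modulo
`𝔪^n`. If `σ` and `τ` agree on `L` then `tr ρ(σ) ≡ tr ρ(τ)` modulo `𝔪^n`. (`H31Glue`) -/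
theorem trace_congruent {R : Type} [CommRing R] [IsLocalRing R] (ρ : GaloisRepAdic R) (n : ℕ)
    (L : IntermediateField ℚ Qb)
    (hL : ∀ σ : Gℚ, (∀ x ∈ L, σ x = x) →
      ∀ v : ρ.V, ρ.ρ σ v - v ∈ (maximalIdeal R ^ n) • (⊤ : Submodule R ρ.V))
    (σ τ : Gℚ) (h : ∀ x ∈ L, σ x = τ x) :
    LinearMap.trace R ρ.V (ρ.ρ σ) - LinearMap.trace R ρ.V (ρ.ρ τ) ∈ maximalIdeal R ^ n :=
  H31.trace_sub_mem_of_agree ρ n L hL σ τ h

/-- **The trace form is nondegenerate.** If the residual representation is absolutely irreducible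
and `x` is an endomorphism of `V` with `tr (ρ(g) x) = 0` for all `g` in the Galois group, then
`x = 0`. By Burnside's theorem over the residue field and Nakayama's lemma the `ρ(g)` span `End V`.
(`H31Wire`, `H32Burnside`) -/
theorem trace_form_nondegenerate {R : Type} [CommRing R] [IsLocalRing R] (ρ : GaloisRepAdic R)
    (h : ρ.residual.IsAbsolutelyIrreducible) (x : Module.End R ρ.V)
    (hx : ∀ g : Gℚ, LinearMap.trace R ρ.V (ρ.ρ g * x) = 0) : x = 0 :=
  H31.traceFormNondegenerate ρ h x hx

/-! ## 6. The congruence between Hecke operators -/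

/-- **The properties of `J_0(N)` which are used**, as they are stated for an abelian group `J` with
commuting actions of the Galois group and of the polynomial ring `HeckeAlg = ℤ[T_ℓ : ℓ prime]`:
the `p`-power torsion is unramified outside `N p`; Frobenius elements satisfy
`σ² - T_ℓ σ + ℓ = 0` on it; the action on `J[p^n]` is of finite level; the Hecke action is faithful
up to a bounded error. `H31.inclHecke` and `H31.evHecke` send a polynomial in the good Hecke
operators to `HeckeAlg` and to the Hecke algebra of cusp forms. For `J_0(N)` the four properties are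
shown in GuideGalois, section 2. -/
theorem properties_of_the_torsion {N p : ℕ} [NeZero N] {S : Set ℕ} {J : Type*} [AddCommGroup J]
    [Module HeckeAlg J] [DistribMulAction Gℚ J] [SMulCommClass Gℚ HeckeAlg J] :
    (UnramifiedOutside (K := ℚ) (L := Qb) N p J ↔ ∀ ℓ : ℕ, ℓ.Prime → ¬ ℓ ∣ N * p →
      ∀ A : ValuationSubring Qb, A.LiesOverPrime ℓ → ∀ σ ∈ A.inertiaSubgroupIn ℚ, ∀ x : J,
        (∃ n : ℕ, p ^ n • x = 0) → σ • x = x) ∧
    (FrobeniusQuadratic (K := ℚ) (L := Qb) N p J ↔ ∀ ℓ : ℕ, ∀ hℓ : ℓ.Prime, ¬ ℓ ∣ N * p →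
      ∀ A : ValuationSubring Qb, A.LiesOverPrime ℓ → ∀ σ : Gℚ, A.IsFrobeniusAt σ ℓ → ∀ x : J,
        (∃ n : ℕ, p ^ n • x = 0) → σ • σ • x - heckeGen ⟨ℓ, hℓ⟩ • (σ • x) + ℓ • x = 0) ∧
    (H31.FiniteLevel p J ↔ ∀ n : ℕ, ∃ L : IntermediateField ℚ Qb, FiniteDimensional ℚ L ∧
      ∀ σ : Gℚ, (∀ x ∈ L, σ x = x) → ∀ x : J, p ^ n • x = 0 → σ • x = x) ∧
    (H31.HeckeFaithful N S p J ↔ ∃ c u : ℕ, ¬ p ∣ u ∧
      ∀ (n : ℕ) (P : MvPolynomial (H31.GoodPrimes N S) ℤ),
        (∀ x : J, p ^ n • x = 0 → H31.inclHecke N S P • x = 0) →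
          ∃ y : CuspForm.heckeAlgebra N 2 S,
            (u : CuspForm.heckeAlgebra N 2 S) * H31.evHecke N S P =
              (p : CuspForm.heckeAlgebra N 2 S) ^ (n - c) * y) :=
  ⟨Iff.rfl, Iff.rfl, Iff.rfl, Iff.rfl⟩

/-- **The congruence** (`H31.CongInput N S p q` written out): for every `n` there are an integer `u`
prime to `p` and a number field `L` such that, whenever `τ` lies in an inertia group at `q` and `g`,
`g τ` agree on `L` with the powers `φ^j` and `φ'^j'` of Frobenius elements at good primes `ℓ` and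
`ℓ'`, the operator `u (luc T_ℓ ℓ j - luc T_ℓ' ℓ' j')` is divisible by `p^n` in the Hecke algebra of
cusp forms. (`H31Glue`) -/
theorem congruence_def (N : ℕ) [NeZero N] (S : Finset ℕ) (p q : ℕ) :
    H31.CongInput N S p q ↔ ∀ n : ℕ, ∃ (u : ℕ) (L : IntermediateField ℚ Qb), ¬ p ∣ u ∧
      FiniteDimensional ℚ L ∧ ∀ (B : ValuationSubring Qb), B.LiesOverPrime q →
      ∀ τ ∈ B.inertiaSubgroupIn ℚ, ∀ g : Gℚ,
      ∀ (ℓ : ℕ) (hℓ : ℓ.Prime) (hℓN : ¬ ℓ ∣ N) (hℓS : ℓ ∉ (↑S : Set ℕ))
        (A : ValuationSubring Qb) (_ : A.LiesOverPrime ℓ) (φ : Gℚ)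
        (_ : A.IsFrobeniusAt φ ℓ) (j : ℕ) (_ : ∀ x ∈ L, g x = (φ ^ j) x)
        (ℓ' : ℕ) (hℓ' : ℓ'.Prime) (hℓN' : ¬ ℓ' ∣ N) (hℓS' : ℓ' ∉ (↑S : Set ℕ))
        (A' : ValuationSubring Qb) (_ : A'.LiesOverPrime ℓ') (φ' : Gℚ)
        (_ : A'.IsFrobeniusAt φ' ℓ') (j' : ℕ) (_ : ∀ x ∈ L, (g * τ) x = (φ' ^ j') x),
        ∃ y : CuspForm.heckeAlgebra N 2 (↑S : Set ℕ),
          (u : CuspForm.heckeAlgebra N 2 (↑S : Set ℕ)) *
            (H31.luc (CuspForm.heckeAlgebra.T hℓ hℓN hℓS)
                (ℓ : CuspForm.heckeAlgebra N 2 (↑S : Set ℕ)) j -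
              H31.luc (CuspForm.heckeAlgebra.T hℓ' hℓN' hℓS')
                (ℓ' : CuspForm.heckeAlgebra N 2 (↑S : Set ℕ)) j') =
            (p : CuspForm.heckeAlgebra N 2 (↑S : Set ℕ)) ^ n * y :=
  Iff.rfl

/-- **Proof of the congruence** from the properties of `J` listed in `properties_of_the_torsion`,
for every prime `q ∤ N p`. With `m = n + c`: on `J[p^m]` the elements `g`, `g τ`, `φ^j` and `φ'^j'`
act in the same way; use `quadratic_equation_of_power`, `two_quadratic_equations`,
`frobenius_inertia_rootOfUnity` (for `ℓ^j ≡ ℓ'^j'` modulo `p^m`) and faithfulness.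
(`H31Mod.congInput_of_module`) -/
theorem congruence_of_torsion {N p q : ℕ} [NeZero N] {S : Finset ℕ} {J : Type*}
    [AddCommGroup J] [Module HeckeAlg J] [DistribMulAction Gℚ J] [SMulCommClass Gℚ HeckeAlg J]
    (hp : p.Prime) (hpS : p ∈ S) (hq : q.Prime) (hqN : ¬ q ∣ N * p)
    (hU : UnramifiedOutside (K := ℚ) (L := Qb) N p J)
    (hF : FrobeniusQuadratic (K := ℚ) (L := Qb) N p J)
    (hfin : H31.FiniteLevel p J) (hfaith : H31.HeckeFaithful N (↑S : Set ℕ) p J) :
    H31.CongInput N S p q :=
  H31.congInput_of_module hp hpS hq hqN hU hF hfin hfaith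

/-- **The congruence for `J_0(N)`**: it holds for every prime `q` which does not divide `N p`, if
`S` contains `p` and the prime divisors of `N`. (`H31Mod` with the inputs of `H31JZero`,
`H31Level`, `H31Inputs`) -/
theorem congruence_of_jacobian {N p q : ℕ} [NeZero N] {S : Finset ℕ} (hp : p.Prime)
    (hpS : p ∈ S) (hNS : ∀ r : ℕ, r.Prime → r ∣ N → r ∈ S) (hq : q.Prime) (hqN : ¬ q ∣ N * p) :
    H31.CongInput N S p q := by
  let _ := heckeModuleBar N
  have := H31.smulCommClass N
  have := (H31.jzeroInputs N).principal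
  have h := H31.specializationExists N p
  exact H31.congInput_of_module hp hpS hq hqN (H31.unramifiedOutside_of_specializationExists h)
    (H31.frobeniusQuadratic_of_specializationExists h)
    (H31.finiteLevel_JZero N p fun n => (H31.jzeroInputs N).finite p n hp)
    ((H31.jzeroInputs N).faithful p S hp hpS hNS)

/-! ## 7. S31 -/

/-- **From the congruences to unramifiedness.** `H` is a `HeckeGaloisRepDatum` (see GuideGalois):
`T` is a finite free local `𝒪`-algebra with a map `H.π` from the Hecke algebra, and `H.ρ` a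
representation over `T` with `X² - T_ℓ X + ℓ` as characteristic polynomial of Frobenius at `ℓ`. If
the trace form of `H.ρ` is nondegenerate and the congruences hold at `q`, then `H.ρ` is
unramified at `q`. By `frobenius_density`, `trace_congruent`, `trace_of_power` and the congruence,
`tr ρ(g τ) ≡ tr ρ(g)` modulo `𝔪^n` for all `n`, so that `tr (ρ(g) (ρ(τ) - 1)) = 0` for all `g`.
(`H31Glue.isUnramifiedAt_of_congInput`) -/
theorem unramified_of_congruence {p N : ℕ} [NeZero N] {S : Finset ℕ}
    {𝒪 : Type} [CommRing 𝒪] [IsDomain 𝒪] [IsDiscreteValuationRing 𝒪]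
    [IsAdicComplete (maximalIdeal 𝒪) 𝒪]
    {θ : CuspForm.heckeAlgebra N 2 (↑S : Set ℕ) →+* ResidueField 𝒪}
    {T : Type} [CommRing T] [IsLocalRing T] [IsNoetherianRing T]
    [IsAdicComplete (maximalIdeal T) T] [Algebra 𝒪 T] [IsLocalHom (algebraMap 𝒪 T)]
    [Module.Finite 𝒪 T] [Module.Free 𝒪 T] (hp : p.Prime) (hp𝒪 : (p : 𝒪) ∈ maximalIdeal 𝒪)
    (hNS : ∀ r : ℕ, r.Prime → r ∣ N → r ∈ S)
    (H : CuspForm.HeckeGaloisRepDatum N (↑S : Set ℕ) 𝒪 θ T)
    (hnd : ∀ x : Module.End T H.ρ.V,
      (∀ g : Gℚ, LinearMap.trace T H.ρ.V (H.ρ.ρ g * x) = 0) → x = 0)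
    (q : ℕ) (hcong : H31.CongInput N S p q) : H.ρ.IsUnramifiedAt q :=
  H31.isUnramifiedAt_of_congInput H31.weakFrobeniusDensity hp hp𝒪 hNS H hnd q hcong

/-- **S31.** `S` is a finite set of primes which contains `p` and the prime divisors of `N`. The
representation of a Hecke-Galois datum of level `N` is unramified at every prime `q ∉ S`.
(`H31JZero.S31_of_JZero`, `H31Wire`) -/
theorem S31_statement {p N : ℕ} [NeZero N] {S : Finset ℕ}
    {𝒪 : Type} [CommRing 𝒪] [IsDomain 𝒪] [IsDiscreteValuationRing 𝒪]
    [IsAdicComplete (maximalIdeal 𝒪) 𝒪]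
    {θ : CuspForm.heckeAlgebra N 2 (↑S : Set ℕ) →+* ResidueField 𝒪}
    {T : Type} [CommRing T] [IsLocalRing T] [IsNoetherianRing T]
    [IsAdicComplete (maximalIdeal T) T] [Algebra 𝒪 T] [IsLocalHom (algebraMap 𝒪 T)]
    [Module.Finite 𝒪 T] [Module.Free 𝒪 T] (hp : p.Prime) (hp𝒪 : (p : 𝒪) ∈ maximalIdeal 𝒪)
    (hpS : p ∈ S) (hNS : ∀ r : ℕ, r.Prime → r ∣ N → r ∈ S)
    (H : CuspForm.HeckeGaloisRepDatum N (↑S : Set ℕ) 𝒪 θ T) (q : ℕ) (hq : q.Prime)
    (hqS : q ∉ S) : H.ρ.IsUnramifiedAt q :=
  S31.result hp hp𝒪 hpS hNS H q hq hqS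

end Fermat.Agent.Guide.Unramified
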