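import Fermat.Agent.H80S20

/-!
# Guide: vector valued modular forms, the steps behind the dimension formula

Companion of `GuideModularForms`, section 1, where the results are stated (`exists_freeBasis`,
`det_freeBasis`, `sum_weights`, `card_fixedBy`, `exists_dual`, `card_weight_ten`,
`finrank_eq_card_weight_ten`, `finrank_cuspForm` = statement S20). This file shows the steps of the
proofs. It contains no new mathematics; every theorem is a citation of a theorem of the library.
Nothing imports this file.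

**The idea.** The dimension of `S₂(Γ₀(N))` is usually computed with Riemann surfaces. Here all work is
done in level ONE: for a finite `SL(2, ℤ)`-set `X` one studies families `F_x` (`x ∈ X`) of functions
with `F_x ∣[k] g = F_{g⁻¹ x}` ("vector valued forms"). They form a graded module `M` over the ring
`R = ℂ[E₄, E₆]` of modular forms of level one. `M` is free of rank `|X|`; the determinant of a basis
is a power of `Δ^(1/12)`; its behaviour at `i∞`, at `i` and at the fixed point of `S T` gives linear
equations for the degrees of the basis, and `Δ` times the inverse matrix is a basis for the cusp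
forms. Riemann-Roch, residues, contour integrals and the modular curve are not used.

**Steps.**
1. Level one and vectors of small weight (`small_weights` to `pairing`).
2. Freeness: `E₄, E₆` is a regular sequence on `M` (`regular_sequence`); families which are
   independent modulo `(E₄, E₆)` are independent over `R` (`independent_over_R`) and have at most `|X|`
   members (`number_of_members`); a maximal one spans (`maximal_family_spans`).
3. The separating form `Δ(Nτ)` (`triangular_form` to `stabiliser_of_delta_N`).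
4. The determinant (`matrix_transformation` to `derivative_of_determinant`).
5. Behaviour at `i∞` (`expansion_at_infinity` to `leading_matrix_invertible`).
6. Elliptic points and duality (`elliptic_traces` to `weights_lt_twelve`).
7. From `S₂(Γ₀(N))` to vectors and back (`vector_of_cusp_form`, `basis_of_cusp_forms`).

**Used for** S20, S21 and, through the real Eichler-Shimura isomorphism (`GuidePeriods`) and the genus
of `X₀(N)` (`H39Poles`), S01; steps 1 (without the statement on cusp forms of weight `≤ 0`), 2, 4, the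
leading coefficients of 5 and the dual basis of 6 also for the twisted forms of S48 (`H22TwDual`).
References in NOTES.md: [159], [210]. Files: `H20VMF`, `H20Mat`, `H20Inf`, `H20Inf2` (helper20),
`H80Level1`, `H80Free`, `H80Stab`, `H80Gamma0X`, `H80Det`, `H80Count`, `H80Dual`, `H80S20` (helper80).
Editor: helper80.
-/

set_option autoImplicit false

open UpperHalfPlane ModularForm MatrixGroups CongruenceSubgroup Filter Asymptotics Derivative
open scoped Manifold Topology Matrix

noncomputable section

namespace Fermat.Agent.Guide.VectorForms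

open Fermat.Agent.H20 Fermat.Agent.H80

/-! ## 1. Level one, and vectors of small weight

`H20.IsL1 k G` (`GuideModularForms.isL1_iff`): `G` is a modular form of level one and weight `k`.
`H20.IsVMF X k F`, `H20.IsVCF X k F` (`isVMF_iff`, `isVCF_iff` there): vector valued forms and cusp
forms. -/

/-- **Level one, small weights**: there are no modular forms of negative weight and of weight two, and
those of weight zero are constant. (Mathlib; in this form in `H20VMF`, `H80Level1`.) -/
theorem small_weights (k : ℤ) (G : ℍ → ℂ) : (IsL1 k G → k < 0 → G = 0) ∧ (IsL1 2 G → G = 0) ∧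
    (IsL1 0 G → ∃ c : ℂ, G = Function.const ℍ c) :=
  ⟨fun h hk => h.eq_zero_of_neg hk, l1_two, fun h => h.const_of_zero⟩

/-- **Division by `Δ`**: a modular form of level one which tends to zero at `i∞` is `Δ` times a modular
form of level one. (Mathlib; `H80Level1`.) -/
theorem divide_by_delta {k : ℤ} {G : ℍ → ℂ} (hG : IsL1 k G) (h0 : Tendsto G atImInfty (𝓝 0)) :
    ∃ H, IsL1 (k - 12) H ∧ G = discriminant * H :=
  l1_div_disc hG h0

/-- In every even weight `2 m ≥ 0` except `2` there is a modular form of level one with limit `1` at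
`i∞`, a monomial in `E₄` and `E₆`. Proved in `H80Level1`. -/
theorem form_with_limit_one (m : ℕ) (hm : m ≠ 1) :
    ∃ G, IsL1 (2 * m) G ∧ Tendsto G atImInfty (𝓝 1) :=
  exists_l1_tendsto_one m hm

/-- **Vectors, small weights**: on a finite set `X` there are no vector valued forms of negative weight
and no vector valued cusp forms of weight `≤ 0`. The component `F_x` is a modular form for the
stabiliser of `x`, a subgroup of finite index, so this is the same fact for such subgroups (Mathlib).
Proved in `H20VMF`. -/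
theorem vectors_small_weights {X : Type*} [MulAction SL(2, ℤ) X] [Finite X] {k : ℤ}
    {F : X → ℍ → ℂ} :
    (IsVMF X k F → k < 0 → ∀ x, F x = 0) ∧ (IsVCF X k F → k ≤ 0 → ∀ x, F x = 0) :=
  ⟨fun h hk => h.eq_zero_of_neg hk, fun h hk => h.eq_zero_of_nonpos hk⟩

/-- **The pairing**: `∑ x, F x · F' x` is a modular form of level one; its weight is the sum of the
weights. Proved in `H20VMF`. -/
theorem pairing {X : Type*} [MulAction SL(2, ℤ) X] [Fintype X] {k l : ℤ} {F F' : X → ℍ → ℂ}
    (hF : IsVMF X k F) (hF' : IsVMF X l F') : IsL1 (k + l) (∑ x, F x * F' x) :=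
  hF.pairing hF'

/-! ## 2. Freeness -/

section Free

variable {X : Type*} [MulAction SL(2, ℤ) X]

/-- **`E₄, E₆` is a regular sequence** on vector valued forms: if `E₄ F = E₆ G` then `G = E₄ H` with a
vector valued form `H`. Proof: `1728 Δ = E₄³ - E₆²` gives `1728 Δ G = E₄ (E₄² G - E₆ F)`; as `Δ` has no
zeros, `H = (E₄² G - E₆ F) / (1728 Δ)` is holomorphic, and near `i∞` it is `G / E₄`, hence bounded.
Proved in `H80Free`. -/
theorem regular_sequence {k : ℤ} {F G : X → ℍ → ℂ} (hF : IsVMF X (k - 4) F)
    (hG : IsVMF X (k - 6) G) (h : ∀ x, (E₄ : ℍ → ℂ) * F x = (E₆ : ℍ → ℂ) * G x) :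
    ∃ H, IsVMF X (k - 10) H ∧ ∀ x, G x = (E₄ : ℍ → ℂ) * H x :=
  regular hF hG h

/-- **Families independent modulo `(E₄, E₆)`** (`H80.Good`): homogeneous vectors `f i` of weight `k i`
such that a complex combination of the members of weight `w` is of the form `E₄ A + E₆ B` only if all
coefficients are zero. Defined in `H80Free`. -/
theorem good_iff {m : ℕ} {k : Fin m → ℤ} {f : Fin m → X → ℍ → ℂ} :
    Good X k f ↔ (∀ i, IsVMF X (k i) (f i)) ∧
      ∀ (w : ℤ) (c : Fin m → ℂ) (A B : X → ℍ → ℂ), (∀ i, k i ≠ w → c i = 0) →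
        IsVMF X (w - 4) A → IsVMF X (w - 6) B →
        (∀ x z, ∑ i, c i * f i x z = E₄ z * A x z + E₆ z * B x z) → ∀ i, c i = 0 :=
  ⟨fun h => ⟨h.1, h.2⟩, fun h => ⟨h.1, h.2⟩⟩

/-- **Divisibility**: if a combination `∑ G_i f_i` of such a family, `G_i` of level one, is divisible by
`E₄`, then all `G_i` are. Proof by induction on the weight: write `G_i = c_i + E₄ A_i + E₆ B_i`; then
`c_i = 0`, and `∑ B_i f_i` is divisible by `E₄` by `regular_sequence`. Proved in `H80Free`. -/
theorem coefficients_divisible [Finite X] {m : ℕ} {k : Fin m → ℤ} {f : Fin m → X → ℍ → ℂ}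
    (h : Good X k f) (w : ℤ) (G : Fin m → ℍ → ℂ) (hG : ∀ i, IsL1 (w - k i) (G i))
    (A : X → ℍ → ℂ) (hA : IsVMF X (w - 4) A)
    (hs : ∀ x, ∑ i, G i * f i x = (E₄ : ℍ → ℂ) * A x) (i : Fin m) :
    ∃ G', IsL1 (w - k i - 4) G' ∧ G i = (E₄ : ℍ → ℂ) * G' :=
  h.dvd (w + 1).toNat w (by omega) G hG A hA hs i

/-- **Independence over level one**: for such a family `∑ G_i f_i = 0` implies `G_i = 0`. Proof: divide
by `E₄` with the previous theorem, the weight goes down. Proved in `H80Free`. -/
theorem independent_over_R [Finite X] {m : ℕ} {k : Fin m → ℤ} {f : Fin m → X → ℍ → ℂ}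
    (h : Good X k f) (w : ℤ) (G : Fin m → ℍ → ℂ) (hG : ∀ i, IsL1 (w - k i) (G i))
    (hs : ∀ x, ∑ i, G i * f i x = 0) (i : Fin m) : G i = 0 :=
  h.indep' w G hG hs i

/-- **Vandermonde**: if `P` is a vector valued form whose components are pairwise different functions,
the determinant of the matrix `(P_x(τ)^j)`, `j < |X|`, is not identically zero: it is the product of
the differences. Proved in `H80Free`. -/
theorem vandermonde_not_zero {P : X → ℍ → ℂ} {p : ℤ} (hP : IsVMF X p P)
    (hinj : ∀ x y, P x = P y → x = y) {n : ℕ} (e : Fin n ≃ X) :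
    (fun τ => (Matrix.vandermonde fun i => P (e i) τ).det) ≠ 0 :=
  vandermonde_ne hP hinj e

/-- **Moments**: a holomorphic vector `T` with `∑ x, P_x^j T_x = 0` for all `j < |X|` is zero. Proved in
`H80Free`. -/
theorem zero_of_moments [Fintype X] {P : X → ℍ → ℂ} {p : ℤ} (hP : IsVMF X p P)
    (hinj : ∀ x y, P x = P y → x = y) {n : ℕ} (e : Fin n ≃ X) {T : X → ℍ → ℂ}
    (hT : ∀ x, MDiff (T x)) (h : ∀ j < n, ∑ x, P x ^ j * T x = 0) (x : X) : T x = 0 :=
  eq_zero_of_moments hP hinj e hT h x

/-- **The number of members**: a family of vector valued forms which is independent over level one has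
at most `|X|` members, if some vector valued form `P` has pairwise different components. Proof: the
minors of the matrix `(∑ x, P_x^j f_{i,x})`, `j < |X|`, are modular forms of level one. Take a
nonvanishing minor of maximal size; if there are more than `|X|` members, add a member outside of it.
The expansion of the larger minors, which are zero, gives coefficients `C_i` of level one with
`∑ x, P_x^j (∑ C_i f_{i,x}) = 0` for all `j`, so `∑ C_i f_i = 0` by `zero_of_moments`; but one of the
`C_i` is the nonvanishing minor. Proved in `H80Free`. -/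
theorem number_of_members [Fintype X] {P : X → ℍ → ℂ} {p : ℤ} (hP : IsVMF X p P)
    (hinj : ∀ x y, P x = P y → x = y) {m : ℕ} {k : Fin m → ℤ} {f : Fin m → X → ℍ → ℂ}
    (hf : ∀ i, IsVMF X (k i) (f i))
    (h : ∀ (w : ℤ) (G : Fin m → ℍ → ℂ), (∀ i, IsL1 (w - k i) (G i)) →
      (∀ x, ∑ i, G i * f i x = 0) → ∀ i, G i = 0) : m ≤ Fintype.card X :=
  card_le_of_indep hP hinj hf h

/-- **Enlarging a family**: if `H` is not a complex combination of members of its weight modulo
`(E₄, E₆)`, then `H` can be added to the family. Proved in `H80Free`. -/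
theorem enlarge_family {m : ℕ} {k : Fin m → ℤ} {f : Fin m → X → ℍ → ℂ} (h : Good X k f)
    {w : ℤ} {H : X → ℍ → ℂ} (hH : IsVMF X w H)
    (hn : ¬ ∃ (c : Fin m → ℂ) (A B : X → ℍ → ℂ), (∀ i, k i ≠ w → c i = 0) ∧
      IsVMF X (w - 4) A ∧ IsVMF X (w - 6) B ∧
      ∀ x z, H x z = ∑ i, c i * f i x z + E₄ z * A x z + E₆ z * B x z) :
    Good X (Fin.cons w k : Fin (m + 1) → ℤ) (Fin.cons H f : Fin (m + 1) → X → ℍ → ℂ) :=
  good_cons h hH hn

/-- **A maximal family spans** (induction on the weight). With `|X|` powers of `P`, which are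
combinations of the members, the Vandermonde determinant shows that there are exactly `|X|` members:
this is `GuideModularForms.exists_freeBasis`. Proved in `H80Free`. -/
theorem maximal_family_spans [Finite X]
    (hsep : ∃ (w : ℤ) (H : X → ℍ → ℂ), IsVMF X w H ∧ ∀ x y, H x = H y → x = y) :
    ∃ (m : ℕ) (k : Fin m → ℤ) (f : Fin m → X → ℍ → ℂ), m ≤ Nat.card X ∧
      (∀ i, IsVMF X (k i) (f i)) ∧
      ∀ (w : ℤ) (H : X → ℍ → ℂ), IsVMF X w H →
        ∃ G : Fin m → ℍ → ℂ, (∀ i, IsL1 (w - k i) (G i)) ∧ ∀ x, H x = ∑ i, G i * f i x :=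
  exists_spanning hsep

end Free

/-! ## 3. The separating form for `X = SL(2, ℤ) / Γ₀(N)`

It is `Δ(Nτ)`, in the form `Δ ∣[12] diag(N, 1)` (`heckeDiagMatrix N` is `diag(N, 1)`); the component
at the coset of `g` is its translate by `g⁻¹`. -/

/-- **Triangular form**: for `g ∈ SL(2, ℤ)` there are `δ ∈ SL(2, ℤ)` and an upper triangular matrix `u`
with diagonal `(G, e)`, `G e = N`, `G > 0`, such that `diag(N, 1) g = δ u`; and `G` divides the lower
left entry of `g`. Proved in `H80Stab`. -/
theorem triangular_form (N : ℕ) [NeZero N] (g : SL(2, ℤ)) :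
    ∃ (δ : SL(2, ℤ)) (G e : ℤ) (u : GL (Fin 2) ℝ), 0 < G ∧ G * e = N ∧ G ∣ g 1 0 ∧
      heckeDiagMatrix N * (Matrix.SpecialLinearGroup.mapGL ℝ g) =
        Matrix.SpecialLinearGroup.mapGL ℝ δ * u ∧ u 1 0 = 0 ∧ u 0 0 = G ∧ u 1 1 = e :=
  exists_upper N g

/-- **Growth at `i∞`**: if `Δ ∣ u = Δ ∣ diag(N, 1)` with such a `u`, then `e = 1`. Proof: the left side
decays like `exp(-2π (G/e) Im τ)`, the right side like `exp(-2π N Im τ)`. Proved in `H80Stab`. -/
theorem growth_of_delta (N : ℕ) [NeZero N] {G e : ℤ} (hG : 0 < G) (hGe : G * e = N)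
    {u : GL (Fin 2) ℝ} (h10 : u 1 0 = 0) (h00 : u 0 0 = G) (h11 : u 1 1 = e)
    (h : (discriminant : ℍ → ℂ) ∣[(12 : ℤ)] u =
      (discriminant : ℍ → ℂ) ∣[(12 : ℤ)] (heckeDiagMatrix N)) : e = 1 :=
  eq_one_of_slash_eq N hG hGe h10 h00 h11 h

/-- **The stabiliser of `Δ(Nτ)`** in `SL(2, ℤ)` is contained in `Γ₀(N)`: `e = 1`, so `G = N` divides the
lower left entry. Hence the translates separate the cosets. Proved in `H80Stab`, `H80Gamma0X`. -/
theorem stabiliser_of_delta_N (N : ℕ) [NeZero N] (g : SL(2, ℤ))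
    (h : ((discriminant : ℍ → ℂ) ∣[(12 : ℤ)] (heckeDiagMatrix N)) ∣[(12 : ℤ)] g =
      (discriminant : ℍ → ℂ) ∣[(12 : ℤ)] (heckeDiagMatrix N)) : g ∈ Gamma0 N :=
  mem_Gamma0_of_dN_slash N h

/-! ## 4. The determinant of a basis

`X` is finite, `(k, F)` a homogeneous basis (`H20.IsFreeBasis`, see `GuideModularForms.isFreeBasis_iff`),
and `H20.fmat F τ` is the matrix `(F i x (τ))`, rows `x`, columns `i`. -/

section Det

variable {X : Type*} [MulAction SL(2, ℤ) X] [Fintype X] [DecidableEq X] {k : X → ℤ}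
  {F : X → X → ℍ → ℂ}

/-- **Transformation of the matrix**: `Φ(g τ) = P(g) Φ(τ) D`, where `P(g)` is the permutation matrix of
`g⁻¹` on `X` and `D` is diagonal with entries `(c τ + d)^(k i)`. Proved in `H20Inf2`. -/
theorem matrix_transformation (h : IsFreeBasis X k F) (g : SL(2, ℤ)) (τ : ℍ) :
    fmat F (g • τ) = (Matrix.of fun x y => if g⁻¹ • x = y then (1 : ℂ) else 0) * fmat F τ *
      Matrix.diagonal (fun i => denom (g : GL (Fin 2) ℝ) τ ^ (k i)) :=
  fmat_smul (fun i => (h.vmf i).slash) g τ

omit [Fintype X] [DecidableEq X] in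
/-- **The Serre derivative** `D F - (w/12) E₂ F` maps vector valued forms of weight `w` to vector valued
forms of weight `w + 2`. (Cauchy's estimate gives the boundedness.) Proved in `H80Det`. -/
theorem serre_derivative {w : ℤ} {H : X → ℍ → ℂ} (hH : IsVMF X w H) :
    IsVMF X (w + 2) (fun x => serreDerivative w (H x)) :=
  vmf_serre hH

/-- **The Serre derivative of the members of a basis**: `D F_i = ∑ j, a_{ij} F_j + (k i/12) E₂ F_i` with
`a_{ij}` of level one and weight `k i + 2 - k j`; and `a_{ii} = 0`, because there is no form of level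
one and weight two. Proved in `H80Det`. -/
theorem serre_on_basis (h : IsFreeBasis X k F) :
    ∃ a : X → X → ℍ → ℂ, (∀ i j, IsL1 (k i + 2 - k j) (a i j)) ∧ (∀ i, a i i = 0) ∧
      ∀ i x τ, normalizedDerivOfComplex (F i x) τ =
        ∑ j, a i j τ * F j x τ + (k i : ℂ) / 12 * EisensteinSeries.E2 τ * F i x τ :=
  serre_basis h

/-- **The derivative of the determinant** `d`: `D d = (∑ k i / 12) E₂ d`, as for `Δ^(∑ k i / 12)`. So
`d¹² / Δ^(∑ k i)` is constant, and `d` has no zeros. Proved in `H80Det`. -/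
theorem derivative_of_determinant (h : IsFreeBasis X k F) (τ : ℍ) :
    normalizedDerivOfComplex (fun τ => (fmat F τ).det) τ =
      ((∑ i, k i : ℤ) : ℂ) / 12 * EisensteinSeries.E2 τ * (fmat F τ).det :=
  deriv_det h τ

/-! ## 5. Behaviour at `i∞`

`T = (1, 1; 0, 1)`, `T^n` acts trivially on `X`; `qParam n τ = exp(2πiτ/n)`. -/

omit [Fintype X] [DecidableEq X] in
/-- **Expansion at `i∞`**: `F_x = ∑_{m < n} c_{x,m} q^{m/n} + O(q)`, and `c_{T⁻¹ x, m} = ζ^m c_{x,m}`
with `ζ = exp(2πi/n)` (`H20.zt n`). Proved in `H20Inf`. -/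
theorem expansion_at_infinity {n : ℕ} [NeZero n] (hT : ∀ x : X, (ModularGroup.T ^ n) • x = x)
    {w : ℤ} {H : X → ℍ → ℂ} (hH : IsVMF X w H) :
    ∃ c : X → ℕ → ℂ, (∀ x, (fun τ : ℍ =>
        H x τ - ∑ m ∈ Finset.range n, c x m * (Function.Periodic.qParam n τ) ^ m)
      =O[atImInfty] (fun τ : ℍ => ‖Function.Periodic.qParam n τ‖ ^ n)) ∧
      ∀ x, ∀ m < n, c (ModularGroup.T⁻¹ • x) m =
        Complex.exp (2 * Real.pi * Complex.I / n) ^ m * c x m :=
  exists_coeffs hT hH

/-- **The matrix `Q(τ)`** (`H20.Qt`): it multiplies the component of a vector in the eigenspace of `T`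
with number `a`, `0 ≤ a < n`, by `q^{-a/n}`. The determinant of `Q(τ)` satisfies `det² = q^{-|X| + c}`,
where `c` is the number of orbits of `T` (the cusps). Proved in `H20Inf`, `H20Mat`, `H20Inf2`. -/
theorem matrix_Q (n : ℕ) [NeZero n] (hT : ∀ x : X, (ModularGroup.T ^ n) • x = x) (τ : ℍ)
    (H : X → ℍ → ℂ) (x : X) :
    (∑ y, Qt n hT τ x y * H y τ = ∑ a : ZMod n, ((Function.Periodic.qParam n (τ : ℂ)) ^ a.val)⁻¹ *
      ((n : ℂ)⁻¹ * ∑ j : ZMod n, ZMod.stdAddChar (-(a * j)) *
        H ((ModularGroup.T ^ j.val)⁻¹ • x) τ)) ∧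
    (Qt n hT τ).det ^ 2 = ((Function.Periodic.qParam 1 (τ : ℂ))⁻¹) ^ (Fintype.card X) *
      (Function.Periodic.qParam 1 (τ : ℂ)) ^
        Nat.card (MulAction.orbitRel.Quotient (Subgroup.zpowers ModularGroup.T) X) :=
  ⟨Qt_mulVec n hT τ H x, det_Qt_sq n hT τ⟩

/-- **Leading coefficients**: for a vector valued form `H` the vector `Q(τ) H(τ)` has a limit `v` at
`i∞`, and if `v = 0` then `H = O(q)`. Proved in `H20Inf`. -/
theorem leading_coefficients {n : ℕ} [NeZero n] (hT : ∀ x : X, (ModularGroup.T ^ n) • x = x)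
    {w : ℤ} {H : X → ℍ → ℂ} (hH : IsVMF X w H) :
    ∃ v : X → ℂ, (∀ x, Tendsto (fun τ : ℍ => ∑ y, Qt n hT τ x y * H y τ) atImInfty (𝓝 (v x))) ∧
      ((∀ x, v x = 0) → ∀ x, H x =O[atImInfty] fun τ : ℍ => Real.exp (-2 * Real.pi * τ.im)) :=
  exists_lead hT hH

/-- **The matrix of the leading coefficients of a basis is invertible**, if `-1` acts trivially. Proof:
let `c` be in the kernel and `G_i` of level one with limit `1` such that `H = ∑ c_i G_i F_i` is
homogeneous (the weights `k i` are even because `-1` acts trivially; `form_with_limit_one`). Its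
leading coefficient is zero, so `H = Δ H'` with a vector valued form `H' = ∑ G'_i F_i`; then
`c_i G_i = Δ G'_i`, and the limit is `c_i = 0`. With `matrix_Q` this gives
`GuideModularForms.sum_weights`. Proved in `H20Inf2`. -/
theorem leading_matrix_invertible {n : ℕ} [NeZero n]
    {hT : ∀ x : X, (ModularGroup.T ^ n) • x = x} (h : IsFreeBasis X k F)
    (hneg : ∀ x : X, (-1 : SL(2, ℤ)) • x = x) {v : X → X → ℂ}
    (hv : ∀ i x, Tendsto (fun τ : ℍ => ∑ y, Qt n hT τ x y * F i y τ) atImInfty (𝓝 (v i x))) :
    (Matrix.of fun x i => v i x).det ≠ 0 :=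
  lead_det_ne h h.det_ne_zero hneg hv

/-! ## 6. Elliptic points and duality -/

/-- **The two elliptic points**: the numbers of fixed points of `S` and `S T` on `X` are
`∑ i^(-k i)` and `∑ (ρ + 1)^(-k i)`, `ρ = exp(2πi/3)`. Proved in `H80Count`. -/
theorem elliptic_traces (h : IsFreeBasis X k F) :
    (Nat.card (MulAction.fixedBy X ModularGroup.S) : ℂ) = ∑ i, Complex.I ^ (-(k i)) ∧
    (Nat.card (MulAction.fixedBy X (ModularGroup.S * ModularGroup.T)) : ℂ) =
      ∑ i, ((UpperHalfPlane.ρ : ℂ) + 1) ^ (-(k i)) :=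
  ⟨trace_S h, trace_ST h⟩

/-- **Transformation of the inverse matrix**: its rows transform like vectors of weight `-k i`, so the
rows of `Δ Φ⁻¹` have weight `12 - k i` (`H80.dualF`). Proved in `H80Dual`. -/
theorem inverse_matrix_transformation (h : IsFreeBasis X k F) (g : SL(2, ℤ)) (τ : ℍ) (i x : X) :
    (fmat F (g • τ))⁻¹ i x =
        denom (g : GL (Fin 2) ℝ) τ ^ (-(k i)) * (fmat F τ)⁻¹ i (g⁻¹ • x) ∧
      dualF F i x τ = discriminant τ * (fmat F τ)⁻¹ i x :=
  ⟨fmat_inv_smul_apply h g τ i x, rfl⟩

omit [Fintype X] in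
/-- **`Δ Q(τ)` tends to zero at `i∞`**, because `Δ` is of the order of `q` and the exponents of `Q` are
greater than `-1`. As `Φ⁻¹ = (Q Φ)⁻¹ Q` and `Q Φ` has an invertible limit, `Δ Φ⁻¹` tends to zero at `i∞`:
the dual basis consists of cusp forms. Proved in `H80Dual`. -/
theorem delta_times_Q (n : ℕ) [NeZero n] (hT : ∀ x : X, (ModularGroup.T ^ n) • x = x) (x y : X) :
    Tendsto (fun τ : ℍ => discriminant τ * Qt n hT τ x y) atImInfty (𝓝 0) :=
  tendsto_disc_mul_Qt n hT x y

/-- **All weights of a basis are less than `12`** if `-1` acts trivially, because the dual vectors are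
nonzero cusp forms of weight `12 - k i`. Proved in `H80Dual`. -/
theorem weights_lt_twelve (h : IsFreeBasis X k F) (hneg : ∀ x : X, (-1 : SL(2, ℤ)) • x = x)
    (i : X) : k i < 12 :=
  weight_lt h hneg i

end Det

/-! ## 7. From cusp forms on `Γ₀(N)` to vectors and back -/

/-- **The vector of a cusp form**: for a cusp form `f` on `Γ₀(N)` the family with component `f ∣ g⁻¹` at
the coset of `g` (`H80.cfVCF`) is a vector valued cusp form on `SL(2, ℤ) / Γ₀(N)`; its component at the
coset of `1` is `f`. Proved in `H80S20`. -/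
theorem vector_of_cusp_form {N : ℕ} [NeZero N] {w : ℤ} (f : CuspForm (Gamma0 N) w) :
    IsVCF (SL(2, ℤ) ⧸ Gamma0 N) w (cfVCF f) ∧
      ∀ g : SL(2, ℤ), cfVCF f (g : SL(2, ℤ) ⧸ Gamma0 N) = (f : ℍ → ℂ) ∣[w] g⁻¹ :=
  ⟨cfVCF_isVCF f, fun g => cfVCF_mk f g⟩

/-- **A basis of `S₂(Γ₀(N))`**: the components `phi h i`, at the base point of `XN N = SL(2, ℤ) / Γ₀(N)`,
of the dual vectors of the members of weight `10`. They are independent because of the duality. They
span: for a cusp form `f` of weight two the pairing of its vector with `F_i` is of level one and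
vanishes at `i∞`, so it is `Δ H_i` with `H_i` of weight `k i - 10`, constant if `k i = 10` and zero
otherwise (then `k i < 10`, by `weights_lt_twelve` and parity); and `f = ∑ H_i F'_i` with the dual
vectors `F'_i`. Proved in `H80S20`. -/
theorem basis_of_cusp_forms {N : ℕ} [NeZero N] {k : XN N → ℤ} {F : XN N → XN N → ℍ → ℂ}
    (h : IsFreeBasis (XN N) k F) :
    LinearIndependent ℂ (phi h) ∧
      (∀ f : CuspForm (Gamma0 N) 2, ∃ c : {i : XN N // k i = 10} → ℂ, f = ∑ i, c i • phi h i) ∧
      ∀ (i : {i : XN N // k i = 10}) (τ : ℍ), phi h i τ = dualF F i ((1 : SL(2, ℤ)) : XN N) τ :=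
  ⟨phi_linearIndependent h, phi_span h, fun _ _ => rfl⟩

end Fermat.Agent.Guide.VectorForms
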