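import Fermat.Agent.H05_VeluInt

/-!
# Reader's guide: the node without Tate curves, step by step (companion of `GuideModuliPoint`)

`GuideModuliPoint`, section 3, states the component homomorphism of a curve with multiplicative reduction
and the valuation of `veluQ W ⟨P⟩ = Δ(W)/Δ(W/⟨P⟩)` for a point `P` of odd prime order (used for S15, hence
for S12, S09, S03, S01). Usually one takes the Tate curve `K^×/q^ℤ`. The library has no Tate curve; `A` is an
arbitrary valuation ring (of any rank and any residue characteristic, also two) of a field `K` which need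
not be complete. This file contains the steps of the elementary proof:

* Section 1: three points of a Weierstrass curve with sum zero are on a line; the sum and the product of
  `x(P + Q)` and `x(P - Q)`.
* Section 2: points in the kernel of reduction: `x(P)/x(nP) ≡ n²`, so torsion of order prime to the residue
  characteristic is integral. This replaces the formal group.
* Section 3: the additive valuation `lg` and the rules for estimates.
* Section 4: the component of a point of `y² + xy = x³ + a₄x + a₆` as an element of the value group modulo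
  `lg(a₆)`, and its additivity: three collinear points, distinguished by the number of points at the node.
* Section 5: the valuation of `ψ₂(iP)` and a sum over residues modulo `p` give the valuation of `veluQ`.
* Section 6: from an integral model with multiplicative reduction to the normal form.

Authors: helper5 (all modules `H05_*`; `H74.pointEquiv` is by helper74). NOTES: [243] MAZUR-MODPLACE. Term
closure: S15, S12, S09, S03, S01; `sum_and_product`, `duplication` and section 2 also S05 and S45. (For S05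
see `GuideFrey`; there `H72Ord` contains the rules of section 3 for `ord = -lg`, and `H72Good` the
integrality of the coefficients.)

**Notation.** `A : ValuationSubring K`, `A.nonunits` is its maximal ideal, `H05.VG A` the value group written
additively; *large* elements have large `lg`, so `x ∈ A.nonunits` if and only if `x = 0` or `lg A x < 0`.
`tateW a₄ a₆` is the curve `y² + xy = x³ + a₄x + a₆`; `TateCoeffs A a₄ a₆` says `a₆ ≠ 0`, `lg(a₆) < 0` and
`|a₄| ≤ |a₆|` (`GuideModuliPoint.tateCoeffs_iff`); its only singular point modulo the maximal ideal is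
`(0, 0)`, with tangents `y = 0` and `y + x = 0`.
-/

set_option autoImplicit false

noncomputable section

namespace Fermat.Agent.Guide.Velu

open WeierstrassCurve WeierstrassCurve.Affine
open Fermat.Agent.H05 (lg Bd Sm tateW TateCoeffs IsComp CoeffsIn veluQ veluC4 psi2 q2)

/-! ## 1. Three collinear points -/

/-- **The line through three points with sum zero** `y = ℓx + ν`, and the three elementary symmetric
functions of the abscissas (which are the roots of the equation of the curve restricted to the line).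
File `H05_Line`. -/
theorem collinear {K : Type*} [Field K] [DecidableEq K] {W : Affine K} {x₁ y₁ x₂ y₂ x₃ y₃ : K}
    {h₁ : W.Nonsingular x₁ y₁} {h₂ : W.Nonsingular x₂ y₂} {h₃ : W.Nonsingular x₃ y₃}
    (h : Point.some x₁ y₁ h₁ + Point.some x₂ y₂ h₂ + Point.some x₃ y₃ h₃ = 0) :
    ∃ ℓ ν : K, y₁ = ℓ * x₁ + ν ∧ y₂ = ℓ * x₂ + ν ∧ y₃ = ℓ * x₃ + ν ∧
      x₁ + x₂ + x₃ = ℓ ^ 2 + W.a₁ * ℓ - W.a₂ ∧
      x₁ * x₂ + x₁ * x₃ + x₂ * x₃ = W.a₄ - 2 * ℓ * ν - W.a₃ * ℓ - W.a₁ * ν ∧
      x₁ * x₂ * x₃ = ν ^ 2 + W.a₃ * ν - W.a₆ :=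
  H05.exists_line h

/-- **The sum and the product of `x(P + Q)` and `x(P - Q)`** are rational functions of `x = x(P)` and
`X = x(Q)`; the coefficients are `b₂`, `b₄`, `b₆`, `b₈`. File `H05_Line`. -/
theorem sum_and_product {K : Type*} [Field K] [DecidableEq K] {W : Affine K} {x y X Y : K}
    (h1 : W.Equation x y) (h2 : W.Equation X Y) (hx : x ≠ X) :
    (W.addX x X (W.slope x X y Y) + W.addX x X (W.slope x X y (W.negY X Y))) * (x - X) ^ 2 =
        2 * x * X * (x + X) + (W.a₁ ^ 2 + 4 * W.a₂) * x * X +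
          (2 * W.a₄ + W.a₁ * W.a₃) * (x + X) + (W.a₃ ^ 2 + 4 * W.a₆) ∧
      (W.addX x X (W.slope x X y Y) * W.addX x X (W.slope x X y (W.negY X Y))) * (x - X) ^ 2 =
        (x * X) ^ 2 - (2 * W.a₄ + W.a₁ * W.a₃) * (x * X) - (W.a₃ ^ 2 + 4 * W.a₆) * (x + X) -
          (W.a₁ ^ 2 * W.a₆ + 4 * W.a₂ * W.a₆ - W.a₁ * W.a₃ * W.a₄ + W.a₂ * W.a₃ ^ 2 -
            W.a₄ ^ 2) :=
  ⟨H05.addX_add_addX h1 h2 hx, H05.addX_mul_addX h1 h2 hx⟩

/-- **The duplication formula** `x(2P) (4X³ + b₂X² + 2b₄X + b₆) = X⁴ - b₄X² - 2b₆X - b₈`, and the factor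
on the left is `ψ₂(P)²` (`Y - (-P)_Y = 2Y + a₁X + a₃`). File `H05_Line`. -/
theorem duplication {K : Type*} [Field K] [DecidableEq K] {W : Affine K} {X Y : K}
    (h : W.Equation X Y) (hy : Y ≠ W.negY X Y) :
    W.addX X X (W.slope X X Y Y) *
        (4 * X ^ 3 + (W.a₁ ^ 2 + 4 * W.a₂) * X ^ 2 + 2 * (2 * W.a₄ + W.a₁ * W.a₃) * X +
          (W.a₃ ^ 2 + 4 * W.a₆)) =
        X ^ 4 - (2 * W.a₄ + W.a₁ * W.a₃) * X ^ 2 - 2 * (W.a₃ ^ 2 + 4 * W.a₆) * X -
          (W.a₁ ^ 2 * W.a₆ + 4 * W.a₂ * W.a₆ - W.a₁ * W.a₃ * W.a₄ + W.a₂ * W.a₃ ^ 2 -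
            W.a₄ ^ 2) ∧
      4 * X ^ 3 + (W.a₁ ^ 2 + 4 * W.a₂) * X ^ 2 + 2 * (2 * W.a₄ + W.a₁ * W.a₃) * X +
        (W.a₃ ^ 2 + 4 * W.a₆) = (Y - W.negY X Y) ^ 2 :=
  ⟨H05.addX_self h hy, H05.psi_two_sq h⟩

/-! ## 2. The kernel of reduction -/

/-- The relation `Rel A X Q c`: the quotient `X/x(Q)` (zero for `Q = 0`) is in `A` and congruent to `c`.
File `H05_Kernel`. -/
theorem rel_iff {K : Type*} [Field K] {A : ValuationSubring K} {W : Affine K} {X : K}
    {c : IsLocalRing.ResidueField A} :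
    (H05.Rel A X (0 : W.Point) c ↔ c = 0) ∧
      ∀ (x y : K) (h : W.Nonsingular x y), H05.Rel A X (Point.some x y h) c ↔
        ∃ r : A, IsLocalRing.residue A r = c ∧ (r : K) * x = X :=
  ⟨H05.rel_zero, fun _ _ _ => H05.rel_some⟩

/-- **Multiples of a point of the kernel of reduction**: if `x(P) = X` is not in `A`, then
`X/x(nP) ≡ n²`. Induction from `n - 1`, `n` to `n + 1` by `sum_and_product`; from `1` to `2` by
`duplication`. (`GuideFrey.kernel_of_reduction_multiples` is the same result with homogeneous coordinates.)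
File `H05_Kernel`. -/
theorem multiples_in_kernel {K : Type*} [Field K] [DecidableEq K] {A : ValuationSubring K}
    {W : Affine K} (h₁ : W.a₁ ∈ A) (h₂ : W.a₂ ∈ A) (h₃ : W.a₃ ∈ A) (h₄ : W.a₄ ∈ A)
    (h₆ : W.a₆ ∈ A) {X Y : K} (hP : W.Nonsingular X Y) (hX : X ∉ A) (n : ℕ) :
    H05.Rel A X (n • Point.some X Y hP) ((n : IsLocalRing.ResidueField A) ^ 2) :=
  H05.rel_nsmul ⟨h₁, h₂, h₃, h₄, h₆⟩ hP hX n

/-- **Torsion points are integral**: if `nP = 0` and `n` is nonzero in the residue field, then `x(P) ∈ A`;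
and then `y(P) ∈ A` from the equation. Files `H05_Kernel`, `H05_Good`. -/
theorem torsion_integral {K : Type*} [Field K] [DecidableEq K] {A : ValuationSubring K}
    {W : Affine K} (h₁ : W.a₁ ∈ A) (h₂ : W.a₂ ∈ A) (h₃ : W.a₃ ∈ A) (h₄ : W.a₄ ∈ A)
    (h₆ : W.a₆ ∈ A) {X Y : K} (hP : W.Nonsingular X Y) :
    (∀ n : ℕ, (n : IsLocalRing.ResidueField A) ≠ 0 → n • Point.some X Y hP = 0 → X ∈ A) ∧
      (X ∈ A → Y ∈ A) :=
  ⟨fun _ hn h => H05.mem_of_nsmul_eq_zero ⟨h₁, h₂, h₃, h₄, h₆⟩ hP hn h,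
    fun hX => H05.y_mem ⟨h₁, h₂, h₃, h₄, h₆⟩ hP.1 hX⟩

/-! ## 3. Estimates -/

/-- **Estimates**: `Bd A x g` means `|x| ≤ g` and `Sm A x g` means `|x| < g` for `g` in the value group,
where `x = 0` satisfies both; for `g = 0` they say that `x` is in `A`, and in the maximal ideal.
File `H05_Log`. -/
theorem bounds_iff {K : Type*} [Field K] {A : ValuationSubring K} {x : K} (g : H05.VG A) :
    (Bd A x g ↔ x = 0 ∨ lg A x ≤ g) ∧ (Sm A x g ↔ x = 0 ∨ lg A x < g) ∧
      (Bd A x 0 ↔ x ∈ A) ∧ (Sm A x 0 ↔ x ∈ A.nonunits) :=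
  ⟨Iff.rfl, Iff.rfl, H05.bd_zero_iff, H05.sm_zero_iff⟩

/-- The rules for sums and products. File `H05_Log`. -/
theorem bound_rules {K : Type*} [Field K] {A : ValuationSubring K} {x y : K} {g h : H05.VG A} :
    (Bd A x g → Bd A y g → Bd A (x + y) g) ∧ (Sm A x g → Sm A y g → Sm A (x + y) g) ∧
      (Bd A x g → Bd A y h → Bd A (x * y) (g + h)) ∧
      (Sm A x g → Bd A y h → Sm A (x * y) (g + h)) :=
  ⟨H05.Bd.add, H05.Sm.add, H05.Bd.mul, H05.Sm.mul_bd⟩

/-- The rules for `lg`. File `H05_Log`. -/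
theorem lg_rules {K : Type*} [Field K] {A : ValuationSubring K} {x y : K} (hx : x ≠ 0)
    (hy : y ≠ 0) (n : ℕ) : lg A (1 : K) = 0 ∧ lg A (-x) = lg A x ∧
      lg A (x / y) = lg A x - lg A y ∧ lg A (x ^ n) = n • lg A x :=
  ⟨H05.lg_one, H05.lg_neg x, H05.lg_div hx hy, H05.lg_pow hx n⟩

/-- **The dominant term**: a sum (or difference) of a nonzero element and a smaller one is nonzero and has
the value of the larger one. File `H05_Log`. -/
theorem dominant_term {K : Type*} [Field K] {A : ValuationSubring K} {x y : K} (hx : x ≠ 0) :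
    (Sm A y (lg A x) → x + y ≠ 0 ∧ lg A (x + y) = lg A x) ∧
      (Sm A y (lg A x) → x - y ≠ 0 ∧ lg A (x - y) = lg A x) ∧ ¬ Sm A x (lg A x) :=
  ⟨H05.lg_add_eq hx, H05.lg_sub_eq hx, H05.not_sm_self hx⟩

/-! ## 4. The component of a point

`E : y (y + x) = x³ + a₄x + a₆` with `TateCoeffs A a₄ a₆`. A point reduces to the node if and only if its
abscissa is in the maximal ideal; then `y` and `y + x` are in the maximal ideal, too. -/

/-- **The component** `c` of an affine point, as a relation `IsComp A x y c`: `0` if the point does not reduce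
to the node; `lg(y + x)` if `|y| < |y + x|` (near one branch); `-lg(y)` if `|y + x| < |y|` (near the other
branch); `lg(y)` if `|y| = |y + x|` (the middle). File `H05_Comp`. -/
theorem isComp_iff {K : Type*} [Field K] {A : ValuationSubring K} {x y : K} {c : H05.VG A} :
    IsComp A x y c ↔ (x ∉ A.nonunits ∧ c = 0) ∨
      (x ∈ A.nonunits ∧ y + x ≠ 0 ∧ Sm A y (lg A (y + x)) ∧ c = lg A (y + x)) ∨
      (x ∈ A.nonunits ∧ y ≠ 0 ∧ Sm A (y + x) (lg A y) ∧ c = -lg A y) ∨
      (x ∈ A.nonunits ∧ y ≠ 0 ∧ y + x ≠ 0 ∧ lg A y = lg A (y + x) ∧ c = lg A y) :=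
  ⟨fun h => by rcases h with h | ⟨a, b, c⟩ | ⟨a, b, c⟩ | ⟨a, b, c, d⟩ <;> simp_all,
    by rintro (⟨a, rfl⟩ | ⟨a, b, c, rfl⟩ | ⟨a, b, c, rfl⟩ | ⟨a, b, c, d, rfl⟩)
       exacts [.zero a, .pos a b c, .neg a b c, .mid a b c d]⟩

/-- **Every point has exactly one component.** File `H05_CompHom`. -/
theorem component_unique_exists {K : Type*} [Field K] {A : ValuationSubring K} {x y : K} :
    (∀ c c' : H05.VG A, IsComp A x y c → IsComp A x y c' → c = c') ∧
      ∀ a₄ a₆ : K, TateCoeffs A a₄ a₆ → y * (y + x) = x ^ 3 + a₄ * x + a₆ →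
        ∃ c, IsComp A x y c :=
  ⟨fun _ _ => H05.IsComp.unique, fun _ _ => H05.exists_isComp⟩

/-- **Sizes at the node.** Near a branch, `|x|` is the larger one of `|y|` and `|y + x|`, and
`|a₆| < |x|² < 1`. In the middle `|y|² = |a₆|` and `|x| ≤ |y|`. So the value `c` of the component satisfies
`lg(a₆) < 2c < -lg(a₆)` or `2c = lg(a₆)`: it is the representative of smallest absolute value of its class
modulo `lg(a₆)`. File `H05_Comp`. -/
theorem sizes_at_node {K : Type*} [Field K] {A : ValuationSubring K} {a₄ a₆ x y : K}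
    (hT : TateCoeffs A a₄ a₆) (he : y * (y + x) = x ^ 3 + a₄ * x + a₆) (hx : x ∈ A.nonunits) :
    (y + x ≠ 0 → Sm A y (lg A (y + x)) →
        x ≠ 0 ∧ lg A x = lg A (y + x) ∧ lg A a₆ < lg A x + lg A x ∧ lg A x < 0) ∧
      (y ≠ 0 → Sm A (y + x) (lg A y) →
        x ≠ 0 ∧ lg A x = lg A y ∧ lg A a₆ < lg A x + lg A x ∧ lg A x < 0) ∧
      (y ≠ 0 → y + x ≠ 0 → lg A y = lg A (y + x) →
        lg A y + lg A y = lg A a₆ ∧ Bd A x (lg A y) ∧ lg A y < 0) :=
  ⟨H05.pos_facts hT he hx, H05.neg_facts hT he hx, H05.mid_facts hT he hx⟩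

/-- **Hence the class of the component of a point at the node is not zero.** File `H05_CompHom`. -/
theorem component_nontrivial {K : Type*} [Field K] {A : ValuationSubring K} {a₄ a₆ x y : K}
    (hT : TateCoeffs A a₄ a₆) (he : y * (y + x) = x ^ 3 + a₄ * x + a₆) (hx : x ∈ A.nonunits)
    {c : H05.VG A} (hc : IsComp A x y c) :
    (QuotientAddGroup.mk c : H05.VG A ⧸ AddSubgroup.zmultiples (lg A a₆)) ≠ 0 :=
  H05.IsComp.ne_zero hT he hx hc

/-- **Negation**: the components of `(x, y)` and of `-(x, y) = (x, -(y + x))` have the sum `0` or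
`lg(a₆)`. File `H05_Comp`. -/
theorem component_of_negative {K : Type*} [Field K] {A : ValuationSubring K} {a₄ a₆ x y : K}
    (hT : TateCoeffs A a₄ a₆) (he : y * (y + x) = x ^ 3 + a₄ * x + a₆) {c : H05.VG A}
    (h : IsComp A x y c) :
    ∃ c', IsComp A x (-(y + x)) c' ∧ (c + c' = 0 ∨ c + c' = lg A a₆) :=
  h.negate hT he

/-- **Three points of `E` on the line `y = lx + n`**: the relations of `collinear` as a structure `Col`.
File `H05_Comp`. -/
theorem col_iff {K : Type*} [Field K] {a₄ a₆ x₁ y₁ x₂ y₂ x₃ y₃ l n : K} :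
    H05.Col a₄ a₆ x₁ y₁ x₂ y₂ x₃ y₃ l n ↔
      y₁ = l * x₁ + n ∧ y₂ = l * x₂ + n ∧ y₃ = l * x₃ + n ∧ x₁ + x₂ + x₃ = l ^ 2 + l ∧
        x₁ * x₂ + x₁ * x₃ + x₂ * x₃ = a₄ - (2 * l + 1) * n ∧ x₁ * x₂ * x₃ = n ^ 2 - a₆ :=
  ⟨fun h => ⟨h.h1, h.h2, h.h3, h.s1, h.s2, h.s3⟩, fun ⟨a, b, c, d, e, f⟩ => ⟨a, b, c, d, e, f⟩⟩

/-- It is symmetric, compatible with negation, and the points are on `E`. **The mixed product formula** is
the identity `n (y₁x₂ + (y₂ + x₂)x₁) = a₄x₁x₂ - (x₁x₂)² + a₆(x₁ + x₂)`, by which the valuation of `n` is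
compared with those of two of the points. File `H05_Comp`. -/
theorem col_consequences {K : Type*} [Field K] {a₄ a₆ x₁ y₁ x₂ y₂ x₃ y₃ l n : K}
    (c : H05.Col a₄ a₆ x₁ y₁ x₂ y₂ x₃ y₃ l n) :
    H05.Col a₄ a₆ x₂ y₂ x₃ y₃ x₁ y₁ l n ∧ H05.Col a₄ a₆ x₂ y₂ x₁ y₁ x₃ y₃ l n ∧
      H05.Col a₄ a₆ x₁ (-(y₁ + x₁)) x₂ (-(y₂ + x₂)) x₃ (-(y₃ + x₃)) (-1 - l) (-n) ∧
      y₁ * (y₁ + x₁) = x₁ ^ 3 + a₄ * x₁ + a₆ ∧
      n * (y₁ * x₂ + (y₂ + x₂) * x₁) = a₄ * (x₁ * x₂) - (x₁ * x₂) ^ 2 + a₆ * (x₁ + x₂) :=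
  ⟨c.rot, c.swap12, c.negate, c.eq1, c.star⟩

/-- **Case III: exactly one point at the node** is impossible. The second symmetric function gives
`|x₂x₃| = |(2l + 1)n|`, so `l ∉ A` (otherwise `n = y₁ - lx₁` is in the maximal ideal); the first one gives
`|l|² ≤ max(|x₂|, |x₃|)`; hence `|x₂x₃| ≤ |n|²`, and `|x₁| ≥ 1` by the third one. File `H05_Comp`. -/
theorem one_point_at_node {K : Type*} [Field K] {A : ValuationSubring K}
    {a₄ a₆ x₁ y₁ x₂ y₂ x₃ y₃ l n : K} (hT : TateCoeffs A a₄ a₆)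
    (c : H05.Col a₄ a₆ x₁ y₁ x₂ y₂ x₃ y₃ l n) (h1 : x₁ ∈ A.nonunits) (h2 : x₂ ∉ A.nonunits)
    (h3 : x₃ ∉ A.nonunits) : False :=
  H05.caseIII hT c h1 h2 h3

/-- **Case II: exactly two points at the node.** The slope satisfies `|l| = |l + 1| ≥ 1`, i.e. the reduced
line is not a tangent of the node. The two points are near different branches with `|x₁| = |x₂|`, or both in
the middle (the other cases are excluded by the mixed product formula); so their components have the sum `0`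
or `lg(a₆)`. File `H05_Comp`. -/
theorem two_points_at_node {K : Type*} [Field K] {A : ValuationSubring K}
    {a₄ a₆ x₁ y₁ x₂ y₂ x₃ y₃ l n : K} (hT : TateCoeffs A a₄ a₆)
    (c : H05.Col a₄ a₆ x₁ y₁ x₂ y₂ x₃ y₃ l n) (h1 : x₁ ∈ A.nonunits) (h2 : x₂ ∈ A.nonunits)
    (h3 : x₃ ∉ A.nonunits) {c₁ c₂ : H05.VG A} (k1 : IsComp A x₁ y₁ c₁)
    (k2 : IsComp A x₂ y₂ c₂) :
    (l ≠ 0 ∧ l + 1 ≠ 0 ∧ 0 ≤ lg A l ∧ lg A (l + 1) = lg A l) ∧
      (c₁ + c₂ = 0 ∨ c₁ + c₂ = lg A a₆) :=
  ⟨H05.slope_II c h1 h2 h3, H05.caseII hT c h1 h2 h3 k1 k2⟩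

/-- **Case I: all three points at the node.** Then `l (l + 1) = x₁ + x₂ + x₃` is in the maximal ideal, so `l`
or `-1 - l` (the slope after negation) is: the reduced line is a tangent of the node. Let `l` be in the
maximal ideal. Every point has one of three positions with respect to the line: `P`: near the branch
`y = 0`, `|n| < |x|`, component `lg(x)`; `N`: near the other one, `|n| = |x|`, component `-lg(x)`; `M`: in
the middle, component `lg(n)`. File `H05_Comp`. -/
theorem position_of_point {K : Type*} [Field K] {A : ValuationSubring K} {a₄ a₆ : K}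
    (hT : TateCoeffs A a₄ a₆) {x y l n : K} (he : y * (y + x) = x ^ 3 + a₄ * x + a₆)
    (hy : y = l * x + n) (hl : l ∈ A.nonunits) (hx : x ∈ A.nonunits) {c : H05.VG A}
    (h : IsComp A x y c) :
    (x ≠ 0 ∧ c = lg A x ∧ lg A a₆ < lg A x + lg A x ∧ lg A x < 0 ∧ Sm A n (lg A x)) ∨
      (x ≠ 0 ∧ n ≠ 0 ∧ c = -lg A x ∧ lg A a₆ < lg A x + lg A x ∧ lg A x < 0 ∧
        lg A n = lg A x) ∨
      (n ≠ 0 ∧ c = lg A n ∧ lg A n + lg A n = lg A a₆ ∧ Bd A x (lg A n) ∧ lg A n < 0) := by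
  rcases H05.kind_of_isComp hT he hy hl hx h with ⟨a, b, c, d, e⟩ | ⟨a, b, c, d, e, f⟩ | ⟨a, b, c, d, e⟩
  exacts [.inl ⟨a, b, c, d, e⟩, .inr (.inl ⟨a, b, c, d, e, f⟩), .inr (.inr ⟨a, b, c, d, e⟩)]

/-- **Case I, conclusion**: the three components have the sum `0` or `lg(a₆)`, by the second and the third
symmetric function of `x₁`, `x₂`, `x₃` (`H05.Kind` is the alternative of the last theorem).
File `H05_Comp`. -/
theorem three_points_at_node {K : Type*} [Field K] {A : ValuationSubring K} {a₄ a₆ : K}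
    (hT : TateCoeffs A a₄ a₆) {x₁ x₂ x₃ l n : K} (hl : l ∈ A.nonunits)
    (s2 : x₁ * x₂ + x₁ * x₃ + x₂ * x₃ = a₄ - (2 * l + 1) * n)
    (s3 : x₁ * x₂ * x₃ = n ^ 2 - a₆) {c₁ c₂ c₃ : H05.VG A} (h1 : x₁ ∈ A.nonunits)
    (h2 : x₂ ∈ A.nonunits) (h3 : x₃ ∈ A.nonunits) (k1 : H05.Kind A a₆ n x₁ c₁)
    (k2 : H05.Kind A a₆ n x₂ c₂) (k3 : H05.Kind A a₆ n x₃ c₃) :
    c₁ + c₂ + c₃ = 0 ∨ c₁ + c₂ + c₃ = lg A a₆ :=
  H05.caseI_kinds hT hl s2 s3 h1 h2 h3 k1 k2 k3

/-- **The component is additive**: `compFun hT P` is the class of the component of `P` in `H05.CG A a₆`,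
the value group modulo `lg(a₆)` (zero for `P = 0`); three points with the sum zero have classes with the
sum zero. So it is a homomorphism from the group of points to `H05.CG A a₆`: `H05.compHom hT`.
File `H05_CompHom`. -/
theorem components_sum_zero {K : Type*} [Field K] [DecidableEq K] {A : ValuationSubring K}
    {a₄ a₆ : K} (hT : TateCoeffs A a₄ a₆) :
    (∀ (x y : K) (h : (tateW a₄ a₆).Nonsingular x y) (c : H05.VG A), IsComp A x y c →
      H05.compFun hT (.some x y h) = QuotientAddGroup.mk c) ∧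
      ∀ P₁ P₂ P₃ : (tateW a₄ a₆).Point, P₁ + P₂ + P₃ = 0 →
        H05.compFun hT P₁ + H05.compFun hT P₂ + H05.compFun hT P₃ = 0 :=
  ⟨fun _ _ h _ hc => H05.compFun_some hT h hc, H05.compFun_sum hT⟩

/-! ## 5. The valuation of `veluQ` for the normal form -/

/-- **A cyclic subgroup** `⟨P⟩` of order `n`: `veluQ` and `veluC4` as a product and a sum over the
multiples `iP`, `0 ≤ i < n`. File `H05_Velu`. -/
theorem velu_of_cyclic {K : Type*} [Field K] [DecidableEq K] {W : WeierstrassCurve K}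
    {P : W.toAffine.Point} {n : ℕ} (hn : 0 < n) (hP : addOrderOf P = n) :
    veluQ W (AddSubgroup.zmultiples P) =
        (∏ i ∈ Finset.range n, psi2 W (i • P)) ^ 4 / W.Δ ^ (n - 1) ∧
      veluC4 W (AddSubgroup.zmultiples P) =
        W.c₄ + 120 * ∑ i ∈ Finset.range n, q2 W (i • P) :=
  ⟨H05.veluQ_zmultiples hn hP, H05.veluC4_zmultiples hn hP⟩

/-- **The discriminant of `tateW a₄ a₆`** has the value of `a₆`. File `H05_VeluLocal`. -/
theorem discriminant_of_normal_form {K : Type*} [Field K] {A : ValuationSubring K} {a₄ a₆ : K}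
    (hT : TateCoeffs A a₄ a₆) :
    (tateW a₄ a₆).Δ = -a₆ + (a₄ ^ 2 - 64 * a₄ ^ 3 - 432 * a₆ ^ 2 + 72 * a₄ * a₆) ∧
      (tateW a₄ a₆).Δ ≠ 0 ∧ lg A (tateW a₄ a₆).Δ = lg A a₆ :=
  ⟨H05.tateW_Δ_eq, H05.lg_tateW_Δ hT⟩

/-- **`ψ₂ = 2y + x` at a point near a branch**: its value is `-|c|`, where `c` is the component
(`2y + x = y + (y + x)`, and one term dominates). File `H05_VeluLocal`. -/
theorem psi2_at_node {K : Type*} [Field K] {A : ValuationSubring K} {a₄ a₆ : K}
    (hT : TateCoeffs A a₄ a₆) {x y : K} (h : (tateW a₄ a₆).Nonsingular x y) {c : H05.VG A}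
    (hx : x ∈ A.nonunits) (hc : IsComp A x y c) (hmid : c + c ≠ lg A a₆) :
    2 * y + x ≠ 0 ∧ lg A (2 * y + x) = -|c| ∧ |c| + |c| < -lg A a₆ :=
  H05.lg_psi2_of_isComp hT h hx hc hmid

/-- **`ψ₂` at an integral point `P` with nonsingular reduction** is a unit, if `2P` is not zero and integral
(by the duplication formula). File `H05_VeluLocal`. -/
theorem psi2_outside_node {K : Type*} [Field K] [DecidableEq K] {A : ValuationSubring K}
    {a₄ a₆ : K} (hT : TateCoeffs A a₄ a₆) {x y : K} (h : (tateW a₄ a₆).Nonsingular x y)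
    (hx : x ∈ A) (hx' : x ∉ A.nonunits)
    (h2 : ∀ (u w : K) (h' : (tateW a₄ a₆).Nonsingular u w),
      (2 : ℕ) • Point.some x y h = Point.some u w h' → u ∈ A)
    (h0 : (2 : ℕ) • Point.some x y h ≠ 0) : 2 * y + x ∈ A ∧ 2 * y + x ∉ A.nonunits :=
  H05.psi2_notMem_nonunits hT h hx hx' h2 h0

/-- **A sum over residues**: let `p` be an odd prime, `p ∤ m`, and `r i` the residue of `im` modulo `p` of
absolute value `< p/2`. Then `4 Σ |r i| = p² - 1`. File `H05_VeluLocal`. -/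
theorem sum_of_residues {p : ℕ} (hp : p.Prime) (hp2 : p ≠ 2) {m : ℤ} (hm : ¬ (p : ℤ) ∣ m)
    (r : ℕ → ℤ) (hr : ∀ i ∈ Finset.range p, (p : ℤ) ∣ r i - i * m ∧ 2 * |r i| < p) :
    4 * ∑ i ∈ Finset.range p, |r i| = (p : ℤ) ^ 2 - 1 :=
  H05.four_mul_sum_natAbs hp hp2 hm r hr

/-- **The value of `veluQ`, the component of `P` not zero.** Since `p` times the class of the component is
zero, `p c(iP) = r_i lg(a₆)` with `r_i` as in the last theorem; so `4p lg(Π ψ₂(iP)) = (p² - 1) lg(a₆)` and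
`p lg(veluQ) = (p - 1) lg(a₆) < 0`. File `H05_VeluLocal`. -/
theorem velu_component_nonzero {K : Type*} [Field K] [DecidableEq K] {A : ValuationSubring K}
    {a₄ a₆ : K} (hT : TateCoeffs A a₄ a₆) {P : (tateW a₄ a₆).Point} {p : ℕ} (hp : p.Prime)
    (hp2 : p ≠ 2) (hP : addOrderOf P = p) (hc : H05.compHom hT P ≠ 0) :
    veluQ (tateW a₄ a₆) (AddSubgroup.zmultiples P) ≠ 0 ∧
      veluQ (tateW a₄ a₆) (AddSubgroup.zmultiples P) ∈ A.nonunits :=
  H05.veluQ_node hT hp hp2 hP hc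

/-- **The value of `veluQ`, the component of `P` zero**: all `ψ₂(iP)` are units (`torsion_integral`,
`psi2_outside_node`), so `lg(veluQ) = -(p - 1) lg(a₆) > 0`. File `H05_VeluLocal`. -/
theorem velu_component_zero {K : Type*} [Field K] [DecidableEq K] {A : ValuationSubring K}
    {a₄ a₆ : K} (hT : TateCoeffs A a₄ a₆) {P : (tateW a₄ a₆).Point} {p : ℕ} (hp : p.Prime)
    (hp2 : p ≠ 2) (hpA : (p : IsLocalRing.ResidueField A) ≠ 0) (hP : addOrderOf P = p)
    (hc : H05.compHom hT P = 0) :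
    veluQ (tateW a₄ a₆) (AddSubgroup.zmultiples P) ≠ 0 ∧
      (veluQ (tateW a₄ a₆) (AddSubgroup.zmultiples P))⁻¹ ∈ A.nonunits :=
  H05.veluQ_zeroComp hT hp hp2 hpA hP hc

/-! ## 6. Other models

The normal form of a curve with invariant `j` is `tateW (-36/(j - 1728)) (-1/(j - 1728))`; here `|j| > 1`.
(`GuideModuliPoint.normal_form`; `c₄ = j/(j - 1728)` and `Δ = j²/(j - 1728)³` for this curve.) -/

/-- **A change of variables with `u ∈ A` between two integral models is integral** (`CoeffsIn A W`: the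
coefficients of `W` are in `A`). File `H05_VeluMult`. -/
theorem integral_change_of_variables {K : Type*} [Field K] {A : ValuationSubring K}
    {W : WeierstrassCurve K} {C : VariableChange K} (hW : CoeffsIn A W)
    (hT : CoeffsIn A (C • W)) (hu : (C.u : K) ∈ A) : C.r ∈ A ∧ C.s ∈ A ∧ C.t ∈ A :=
  H05.vc_integral hW hT hu

/-- **`ψ₂` and `q₂` have the weights `3` and `4`** under a change of variables `C`, `H74.pointEquiv W C` the
bijection of the points. File `H05_Velu`. -/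
theorem weights {K : Type*} [Field K] [DecidableEq K] {W : WeierstrassCurve K}
    (C : VariableChange K) {P : (C • W).toAffine.Point} (hP : P ≠ 0) :
    psi2 W (H74.pointEquiv W C P) = (C.u : K) ^ 3 * psi2 (C • W) P ∧
      q2 W (H74.pointEquiv W C P) = (C.u : K) ^ 4 * q2 (C • W) P :=
  ⟨H05.psi2_pointEquiv C hP, H05.q2_pointEquiv C hP⟩

/-- **Points with nonsingular reduction**: `ZeroComp A W P` says that one of the two partial derivatives of
the equation is a unit at `P`, if `P` is an integral affine point. For the normal form this means that the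
component of `P` is zero, and it is invariant under integral changes of variables with `u` a unit.
File `H05_VeluMult`. -/
theorem nonsingular_reduction {K : Type*} [Field K] [DecidableEq K] {A : ValuationSubring K} :
    (∀ (W : WeierstrassCurve K) (P : W.toAffine.Point), H05.ZeroComp A W P ↔
      ∀ (x y : K) (h : W.toAffine.Nonsingular x y), P = .some x y h → x ∈ A →
        (2 * y + W.a₁ * x + W.a₃ ∉ A.nonunits ∨
          3 * x ^ 2 + 2 * W.a₂ * x + W.a₄ - W.a₁ * y ∉ A.nonunits)) ∧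
      (∀ (a₄ a₆ : K) (hT : TateCoeffs A a₄ a₆) (P : (tateW a₄ a₆).Point),
        H05.ZeroComp A (tateW a₄ a₆) P ↔ H05.compHom hT P = 0) ∧
      ∀ (W : WeierstrassCurve K) (C : VariableChange K), (C.u : K) ∈ A → (C.u : K) ∉ A.nonunits →
        C.r ∈ A → C.s ∈ A → ∀ P : (C • W).toAffine.Point,
        (H05.ZeroComp A W (H74.pointEquiv W C P) ↔ H05.ZeroComp A (C • W) P) :=
  ⟨fun _ _ => Iff.rfl, fun _ _ hT P => H05.zeroComp_tateW hT P,
    fun _ _ hu hu' hr hs P => H05.zeroComp_vc hu hu' hr hs P⟩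

/-- **The condition of the statement S15** (`InZeroComponentAt`, Prelude) for a curve over `ℤ` and a place
`A` of `ℚ̄` is `ZeroComp` for the base change `H05.WQ W` of `W` to `ℚ̄`. File `H05_VeluInt`. -/
theorem inZeroComponentAt_iff {W : WeierstrassCurve ℤ} {A : ValuationSubring (AlgebraicClosure ℚ)}
    (P : ((W.map (Int.castRingHom ℚ))⁄(AlgebraicClosure ℚ)).Point) :
    W.InZeroComponentAt A P ↔ H05.ZeroComp A (H05.WQ W) P :=
  H05.inZeroComponentAt_iff P

end Fermat.Agent.Guide.Velu
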