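import Fermat.Agent.H72WPDisc

/-!
# Reader's guide: the Weierstrass function, step by step (companion of `GuideModuliPoint`)

`GuideModuliPoint`, section 1, lists the results on the Weierstrass function `℘` of a lattice `L ⊂ ℂ`
which are used for S15 (hence for S12, S09, S03 and S01): the addition theorem, the homomorphism
`ℂ/L → E(ℂ)`, and the invariants `g₂` and `Δ` of the lattice `(1/p)ℤ + ℤτ`. This file contains the steps
of the proofs. Mathlib provides the series of `℘` and `℘'`, their analyticity outside `L`, periodicity,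
the pole of order two at the lattice points, and the differential equation
`℘'² = 4℘³ - g₂℘ - g₃`. Liouville's theorem for elliptic functions, residues, the number of zeros and
the `σ`-function are not used. They are replaced by one principle:

> the complement of a countable set in `ℂ` is connected, so a function whose derivative is zero
> outside a countable closed set is constant there.

Authors: helper72 (`H72WPBasic`, `H72WPDup`, `H72WPAdd`, `H72WPG2`, `H72WPDisc`), helper4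
(`H4WPEis`), helper5 (`H05_WPDefs`). NOTES: MAZUR (B1a-B1d). Term closure of all theorems: S15, S12,
S09, S03, S01.

**Notation.** `L : PeriodPair` is a lattice with basis `L.ω₁`, `L.ω₂`; `L.weierstrassP` is `℘`,
`L.derivWeierstrassP` is `℘'`, `L.G k` the sum of the `l^(-k)` over the nonzero `l ∈ L`;
`wpCurve L` the curve `y² = x³ - (g₂/4) x - g₃/4`, `latT τ = ℤ + ℤτ`, `latT' p τ = (1/p)ℤ + ℤτ`.
-/

set_option autoImplicit false

noncomputable section

open Filter Topology PeriodPair UpperHalfPlane WeierstrassCurve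
open Fermat.Agent.H05 (wpCurve latT latT')

namespace Fermat.Agent.Guide.Weierstrass

/-! ## 1. The principle -/

/-- **The complement of a countable set is connected** in `ℂ`. File `H72WPBasic` (from Mathlib: the real
dimension of `ℂ` is larger than one). -/
theorem complement_connected {S : Set ℂ} (hS : S.Countable) : IsPreconnected Sᶜ :=
  H72.isPreconnected_compl hS

/-- A lattice is countable, its complement is open and connected. File `H72WPBasic`. -/
theorem lattice_complement (L : PeriodPair) : (L.lattice : Set ℂ).Countable ∧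
    IsOpen (L.lattice : Set ℂ)ᶜ ∧ IsPreconnected (L.lattice : Set ℂ)ᶜ :=
  ⟨H72.countable_lattice L, H72.isOpen_compl_lattice L, H72.isPreconnected_compl_lattice L⟩

/-- **Zeros are countable**: an analytic function on a connected set which is not identically zero has
only countably many zeros (they are isolated, and `ℂ` is hereditarily Lindelöf). File `H72WPBasic`. -/
theorem zeros_countable {V : Set ℂ} {h : ℂ → ℂ} (hV : IsPreconnected V) (hh : AnalyticOnNhd ℂ h V)
    {z₀ : ℂ} (hz₀ : z₀ ∈ V) (h0 : h z₀ ≠ 0) : {z | z ∈ V ∧ h z = 0}.Countable :=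
  H72.countable_zeros hV hh hz₀ h0

/-- `℘` is not constant, even outside a countable set `S`; it tends to infinity at `0`; and each of its
fibres is countable. Files `H72WPBasic`, `H72WPAdd`. -/
theorem wp_not_constant (L : PeriodPair) (c : ℂ) {S : Set ℂ} (hS : S.Countable) :
    (∃ z, z ∉ S ∧ z ∉ L.lattice ∧ L.weierstrassP z ≠ c) ∧
      Tendsto ℘[L] (𝓝[≠] 0) (Bornology.cobounded ℂ) ∧
      {u | u ∉ L.lattice ∧ L.weierstrassP u = c}.Countable :=
  ⟨H72.exists_wp_ne L c hS, H72.tendsto_wp L, H72.countable_level L c⟩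

/-- **The derivatives** `(℘)' = ℘'` and `(℘')' = 6℘² - g₂/2` outside the lattice. The second one: the
derivative of `℘'² = 4℘³ - g₂℘ - g₃` is `℘' (2℘'' - 12℘² + g₂) = 0`, and `℘'` is not identically zero.
File `H72WPBasic`. -/
theorem derivatives (L : PeriodPair) {z : ℂ} (hz : z ∉ L.lattice) :
    HasDerivAt L.weierstrassP (L.derivWeierstrassP z) z ∧
      HasDerivAt L.derivWeierstrassP (6 * L.weierstrassP z ^ 2 - L.g₂ / 2) z :=
  ⟨H72.hasDerivAt_wp L hz, H72.hasDerivAt_wp' L hz⟩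

/-! ## 2. The addition theorem

For `z ∉ L` the point `Ψ(z) = (℘(z), ℘'(z)/2)` is on the curve. Fix `w ∉ L`. The line through `Ψ(z + w)`
and `-Ψ(z)` has the slope `λ = (℘'(z + w) + ℘'(z)) / (2 (℘(z + w) - ℘(z)))`, and `Ψ(z + w) - Ψ(z)` has
the coordinates `X = λ² - ℘(z + w) - ℘(z)` and `Y`. -/

/-- The equation of the curve. File `H72WPAdd`. -/
theorem point_on_curve {L : PeriodPair} {z : ℂ} (hz : z ∉ L.lattice) :
    (wpCurve L).toAffine.Equation (L.weierstrassP z) (L.derivWeierstrassP z / 2) :=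
  H72.equation_wp hz

/-- The slope `λ = lam L w z` and the coordinates `X = X3 L w z`, `Y = Y3 L w z`, the definitions; and
the set `Ugen L w` of the `z` for which they make sense. File `H72WPAdd`. -/
theorem coordinates_eq (L : PeriodPair) (w z : ℂ) :
    H72.lam L w z = (L.derivWeierstrassP (z + w) / 2 + L.derivWeierstrassP z / 2) /
        (L.weierstrassP (z + w) - L.weierstrassP z) ∧
      H72.X3 L w z = H72.lam L w z ^ 2 - L.weierstrassP (z + w) - L.weierstrassP z ∧
      H72.Y3 L w z = -(H72.lam L w z * (H72.X3 L w z - L.weierstrassP (z + w)) +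
        L.derivWeierstrassP (z + w) / 2) ∧
      (z ∈ H72.Ugen L w ↔ z ∉ L.lattice ∧ z + w ∉ L.lattice ∧
        L.weierstrassP (z + w) ≠ L.weierstrassP z) :=
  ⟨rfl, rfl, rfl, Iff.rfl⟩

/-- **The derivatives with respect to `z` are** `λ' = ℘(z + w) - ℘(z)`, `X' = 0`, `Y' = 0`: a
computation with the two differential equations. File `H72WPAdd`. -/
theorem coordinates_derivative {L : PeriodPair} {w z : ℂ} (h : z ∈ H72.Ugen L w) :
    HasDerivAt (H72.lam L w) (L.weierstrassP (z + w) - L.weierstrassP z) z ∧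
      HasDerivAt (H72.X3 L w) 0 z ∧ HasDerivAt (H72.Y3 L w) 0 z :=
  ⟨H72.hasDerivAt_lam h, H72.hasDerivAt_X3 h, H72.hasDerivAt_Y3 h⟩

/-- The set `Ugen L w` is open, connected, and its complement is countable, if `w ∉ L`.
File `H72WPAdd`. -/
theorem generic_set {L : PeriodPair} {w : ℂ} (hw : w ∉ L.lattice) :
    IsOpen (H72.Ugen L w) ∧ IsPreconnected (H72.Ugen L w) ∧ ((H72.Ugen L w)ᶜ).Countable :=
  ⟨H72.isOpen_Ugen w, H72.isPreconnected_Ugen hw, H72.countable_compl_Ugen hw⟩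

/-- **So `X` and `Y` are constant** on `Ugen L w`. File `H72WPAdd`. -/
theorem coordinates_constant {L : PeriodPair} {w : ℂ} (hw : w ∉ L.lattice) :
    (∃ a, ∀ z ∈ H72.Ugen L w, H72.X3 L w z = a) ∧ ∃ a, ∀ z ∈ H72.Ugen L w, H72.Y3 L w z = a :=
  ⟨H72.X3_const hw, H72.Y3_const hw⟩

/-- **The value of `X`** is `℘(w)`: let `z` tend to `0`. One needs `℘'(z)/℘(z)² → 0`.
File `H72WPAdd`. -/
theorem coordinate_limit {L : PeriodPair} {w : ℂ} (hw : w ∉ L.lattice) :
    Tendsto (H72.X3 L w) (𝓝[≠] 0) (𝓝 (L.weierstrassP w)) ∧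
      Tendsto (fun z => L.derivWeierstrassP z / L.weierstrassP z ^ 2) (𝓝[≠] 0) (𝓝 0) :=
  ⟨H72.X3_limit hw, H72.tendsto_s⟩

/-- **The parametrisation** `Ψ = wpt L hΔ`: it is `0` on the lattice and `(℘(z), ℘'(z)/2)` outside, odd
and periodic. File `H72WPAdd`. -/
theorem parametrisation (L : PeriodPair) (hΔ : (wpCurve L).Δ ≠ 0) :
    (∀ z ∈ L.lattice, H72.wpt L hΔ z = 0) ∧
      (∀ z, z ∉ L.lattice → ∃ h, H72.wpt L hΔ z =
        .some (L.weierstrassP z) (L.derivWeierstrassP z / 2) h) ∧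
      (∀ z, H72.wpt L hΔ (-z) = -H72.wpt L hΔ z) ∧
      ∀ z, ∀ l ∈ L.lattice, H72.wpt L hΔ (z + l) = H72.wpt L hΔ z :=
  ⟨fun _ h => H72.wpt_of_mem L hΔ h, fun _ h => H72.wpt_of_notMem L hΔ h, H72.wpt_neg L hΔ,
    fun z _ h => H72.wpt_add_coe L hΔ z h⟩

/-- **The difference is constant up to the exceptional set**: there is a point `C`, equal to `Ψ(w)` or to
`-Ψ(w)`, with `Ψ(z + w) = Ψ(z) + C` for all `z ∈ Ugen L w` (its first coordinate is `℘(w)`).
File `H72WPAdd`. -/
theorem difference_constant [DecidableEq ℂ] (L : PeriodPair) (hΔ : (wpCurve L).Δ ≠ 0) {w : ℂ}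
    (hw : w ∉ L.lattice) : ∃ C : (wpCurve L).toAffine.Point,
      (C = H72.wpt L hΔ w ∨ C = -H72.wpt L hΔ w) ∧
        ∀ z ∈ H72.Ugen L w, H72.wpt L hΔ (z + w) = H72.wpt L hΔ z + C :=
  H72.exists_wpt_const L hΔ hw

/-- **The addition theorem** `Ψ(z + w) = Ψ(z) + Ψ(w)` for all `z`, `w`. The constants `C(w)` of the
previous result are additive in `w`; so one may enlarge `Ugen L w` to all `z` with `z`, `z + w ∉ L` (write
`w` as a sum of two general numbers). The sign: for the half period `h = ω₁/2` both signs agree,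
`C(h) = Ψ(h)`, and `Ψ(w) = Ψ(h) + C(w - h) = C(h) + C(w - h) = C(w)`. File `H72WPAdd`. -/
theorem addition [DecidableEq ℂ] (L : PeriodPair) (hΔ : (wpCurve L).Δ ≠ 0) (z w : ℂ) :
    H72.wpt L hΔ (z + w) = H72.wpt L hΔ z + H72.wpt L hΔ w :=
  H72.wpt_add L hΔ z w

/-! ## 3. Consequences -/

/-- `Ψ` is injective modulo `L`. File `H72WPDup`. -/
theorem injective_mod_lattice {L : PeriodPair} (hΔ : (wpCurve L).Δ ≠ 0) {z w : ℂ}
    (h : H72.wpt L hΔ z = H72.wpt L hΔ w) : z - w ∈ L.lattice :=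
  H72.wpt_inj hΔ h

/-- **The zeros of `℘'`** are the half periods: for `z ∉ L`, `℘'(z) = 0` implies `2z ∈ L`
(`Ψ(z) = -Ψ(z) = Ψ(-z)`), and conversely. File `H72WPDup`. -/
theorem zeros_of_derivative {L : PeriodPair} (hΔ : (wpCurve L).Δ ≠ 0) {z : ℂ}
    (hz : z ∉ L.lattice) : L.derivWeierstrassP z = 0 ↔ 2 * z ∈ L.lattice :=
  ⟨H72.two_mul_mem_of_wp'_eq_zero hΔ hz, H72.wp'_eq_zero_of_two_mul_mem⟩

/-- **The duplication formula** `℘(2z) = (℘''(z)/(2℘'(z)))² - 2℘(z)`, from the group law.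
File `H72WPDup`. -/
theorem duplication {L : PeriodPair} (hΔ : (wpCurve L).Δ ≠ 0) {z : ℂ} (hz : z ∉ L.lattice)
    (h2 : 2 * z ∉ L.lattice) : L.weierstrassP (2 * z) =
      ((6 * L.weierstrassP z ^ 2 - L.g₂ / 2) / (2 * L.derivWeierstrassP z)) ^ 2 -
        2 * L.weierstrassP z :=
  H72.wp_two_mul hΔ hz h2

/-- **Translation by a half period** `w`: `℘'(z + w) (℘(z) - ℘(w))² = -℘'(z) (3℘(w)² - g₂/4)`.
The product formula `GuideModuliPoint.wp_half_period_product` is the product of these formulas over the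
three half periods. File `H72WPDup`. -/
theorem translation_by_half_period {L : PeriodPair} (hΔ : (wpCurve L).Δ ≠ 0) {z w : ℂ}
    (hz : z ∉ L.lattice) (hw : w ∉ L.lattice) (hzw : z + w ∉ L.lattice) (h2 : 2 * w ∈ L.lattice) :
    L.weierstrassP z - L.weierstrassP w ≠ 0 ∧
      L.derivWeierstrassP (z + w) * (L.weierstrassP z - L.weierstrassP w) ^ 2 =
        -L.derivWeierstrassP z * (3 * L.weierstrassP w ^ 2 - L.g₂ / 4) :=
  H72.wp'_add_half hΔ hz hw hzw h2

/-! ## 4. The lattice `(1/p)ℤ + ℤτ`: sums -/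

/-- The two lattices, and which `m/p + nτ` lie in the small one. File `H72WPG2`. -/
theorem mem_lattices (p : ℕ) [NeZero p] (τ : ℍ) :
    (∀ x : ℂ, x ∈ (latT τ).lattice ↔ ∃ m n : ℤ, (m : ℂ) + n * τ = x) ∧
      (∀ x : ℂ, x ∈ (latT' p τ).lattice ↔ ∃ m n : ℤ, (m : ℂ) / p + n * τ = x) ∧
      ∀ m n : ℤ, (m : ℂ) / p + n * τ ∈ (latT τ).lattice ↔ (p : ℤ) ∣ m :=
  ⟨fun _ => H72.mem_latT, fun _ => H72.mem_latT', fun _ _ => H72.div_add_mem_latT_iff⟩

/-- **Cosets**: every element of the big lattice is `a/p + l` with a unique `0 ≤ a < p` and a unique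
`l ∈ ℤ + ℤτ` (`decomp p τ (a, l) = a/p + l`). File `H72WPG2`. -/
theorem cosets (p : ℕ) [NeZero p] (τ : ℍ) : Function.Bijective (H72.decomp p τ) ∧
    ∀ (a : Fin p) (l : (latT τ).lattice),
      ((H72.decomp p τ (a, l) : (latT' p τ).lattice) : ℂ) = (a : ℕ) / (p : ℂ) + l :=
  ⟨H72.decomp_bijective, fun _ _ => rfl⟩

/-- **`℘''` as a series**: `℘''(x) = 6 Σ_{l ∈ L} (x - l)^(-4)`, in Mathlib's notation
`6 * L.sumInvPow x 4`. File `H72WPG2`. -/
theorem second_derivative_series (L : PeriodPair) {x : ℂ} (hx : x ∉ L.lattice) :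
    deriv L.derivWeierstrassP x = 6 * L.sumInvPow x 4 :=
  H72.deriv_wp'_eq L hx

/-- **The Eisenstein sums of the big lattice** are sums over the cosets:
`G_r((1/p)ℤ + ℤτ) = Σ_{0 ≤ a < p} Σ_{l ∈ ℤ + ℤτ} (-a/p - l)^(-r)` for `r > 2` (the term `l = 0`, `a = 0`
is left out). For `r = 4` this and the last theorem give the formula for `g₂`. File `H72WPG2`. -/
theorem eisenstein_sum_of_big_lattice (p : ℕ) [NeZero p] (τ : ℍ) {r : ℕ} (hr : 2 < r) :
    (latT' p τ).G r = ∑ a ∈ Finset.range p, (latT τ).sumInvPow (-((a : ℂ) / p)) r :=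
  H72.G_latT' p τ hr

/-- **The Eisenstein series**: `G_k(ℤ + ℤτ) = 2 ζ(k) E_k(τ)` (`k ≥ 3`), `g₂ = (4/3) π⁴ E₄`,
`g₃ = (8/27) π⁶ E₆`. (For `ζ(6) = π⁶/945` see the file.) File `H4WPEis`. -/
theorem eisenstein_series (τ : ℍ) :
    (∀ (k : ℕ) (hk : 3 ≤ k), (latT τ).G k = 2 * riemannZeta k * ModularForm.E hk τ) ∧
      (latT τ).g₂ = 4 / 3 * Real.pi ^ 4 * ModularForm.E₄ τ ∧
      (latT τ).g₃ = 8 / 27 * Real.pi ^ 6 * ModularForm.E₆ τ :=
  ⟨fun _ hk => H4.latT_G τ hk, H4.latT_g₂ τ, H4.latT_g₃ τ⟩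

/-- **Homogeneity**: `(1/p)ℤ + ℤτ = (1/p)(ℤ + ℤpτ)`, so `G_k((1/p)ℤ + ℤτ) = p^k G_k(ℤ + ℤpτ)`; and the
discriminants of both lattices are nonzero (`Δ(τ) ≠ 0`). Files `H4WPEis`, `H72WPDisc`. -/
theorem homogeneity (p : ℕ) [NeZero p] (τ τ' : ℍ) (h : (τ' : ℂ) = p * τ) (k : ℕ) :
    (latT' p τ).G k = (p : ℂ) ^ k * (latT τ').G k ∧ (wpCurve (latT τ)).Δ ≠ 0 ∧
      (wpCurve (latT' p τ)).Δ ≠ 0 :=
  ⟨H4.latT'_G p τ τ' h k, H72.latT_Δ_ne_zero τ, H72.latT'_Δ_ne_zero p τ⟩

/-! ## 5. The lattice `(1/p)ℤ + ℤτ`: products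

`p` is odd; `res a = a/p` for `a ∈ ZMod p`, `0 ≤ a < p`. `L` is the small and `L'` the big lattice. The aim
is `Π_a ℘'_L(z - a/p) = c ℘'_{L'}(z)` with an explicit constant `c`. -/

/-- **`℘'` is additive**: `℘'_{L'}(x) = Σ_a ℘'_L(x - a/p)` (rearrangement of an absolutely convergent
series), and `Σ_a ℘_L(z - a/p) - ℘_{L'}(z)` is constant (its derivative is zero). File `H72WPDisc`. -/
theorem additivity (p : ℕ) [NeZero p] (τ : ℍ) :
    (∀ x : ℂ, (latT' p τ).derivWeierstrassP x =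
      ∑ a : ZMod p, (latT τ).derivWeierstrassP (x - H72.res a)) ∧
      ∃ c, ∀ z, z ∉ (latT' p τ).lattice →
        ∑ a : ZMod p, (latT τ).weierstrassP (z - H72.res a) - (latT' p τ).weierstrassP z = c :=
  ⟨fun x => H72.wp'_sum x, H72.wp_sum_const p τ⟩

/-- **The logarithmic derivative** `ell = ℘''/℘'` of `℘'` has the derivative `4℘(z) - 4℘(2z)`, by the
duplication formula. File `H72WPDisc`. -/
theorem log_derivative {L : PeriodPair} (hΔ : (wpCurve L).Δ ≠ 0) {z : ℂ}
    (h2 : 2 * z ∉ L.lattice) :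
    H72.ell L z = (6 * L.weierstrassP z ^ 2 - L.g₂ / 2) / L.derivWeierstrassP z ∧
      HasDerivAt (H72.ell L) (4 * L.weierstrassP z - 4 * L.weierstrassP (2 * z)) z :=
  ⟨rfl, H72.hasDerivAt_ell hΔ h2⟩

/-- **It is additive, too**: `Σ_a ell_L(z - a/p) = ell_{L'}(z)` if `2z ∉ L'`. The difference has the
derivative zero by the two previous theorems (multiplication by `2` permutes the `a`, because `p` is
odd), and it is an odd function of `z`. File `H72WPDisc`. -/
theorem log_derivative_additive (p : ℕ) [NeZero p] (τ : ℍ) (hp : Odd p) {z : ℂ}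
    (hz : 2 * z ∉ (latT' p τ).lattice) :
    ∑ a : ZMod p, H72.ell (latT τ) (z - H72.res a) = H72.ell (latT' p τ) z :=
  H72.ell_sum hp hz

/-- **So the quotient of the products is constant.** File `H72WPDisc`. -/
theorem product_ratio_constant (p : ℕ) [NeZero p] (τ : ℍ) (hp : Odd p) :
    ∃ c, ∀ z, 2 * z ∉ (latT' p τ).lattice →
      (∏ a : ZMod p, (latT τ).derivWeierstrassP (z - H72.res a)) /
        (latT' p τ).derivWeierstrassP z = c :=
  H72.prod_ratio_const hp

/-- **The constant**: `Π_a ℘'_L(z - a/p) = (Π_{0 < a < p} ℘'_L(-a/p)) ℘'_{L'}(z)`. Let `z` tend to `0`: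
`z³ ℘'(z) → -2` for both lattices. With `GuideModuliPoint.wp_half_period_product` for both lattices one
gets `GuideModuliPoint.discriminant_of_quotient`. File `H72WPDisc`. -/
theorem product_formula (p : ℕ) [NeZero p] (τ : ℍ) (hp : Odd p) {z : ℂ}
    (hz : 2 * z ∉ (latT' p τ).lattice) :
    ∏ a : ZMod p, (latT τ).derivWeierstrassP (z - H72.res a) =
        (∏ a ∈ Finset.Ico 1 p, (latT τ).derivWeierstrassP (-((a : ℂ) / p))) *
          (latT' p τ).derivWeierstrassP z ∧
      Tendsto (fun z => z ^ 3 * (latT τ).derivWeierstrassP z) (𝓝[≠] 0) (𝓝 (-2)) :=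
  ⟨H72.prod_eq hp hz, H72.tendsto_cube_wp' (latT τ)⟩

end Fermat.Agent.Guide.Weierstrass
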