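import Fermat.Agent.H50QEIn
import Fermat.Agent.H58WtOneH

/-!
# Reader's guide: arithmetic of modular forms on `Γ₁(N)`, and weight one modulo `ℓ` (S48)

Nothing is proved in this file. Every theorem is the exact statement of a theorem of the library,
with all hypotheses written out, followed by a citation. Only `Guide` imports it. It is a companion
of `Fermat.Agent.GuideDeligneSerre`: it shows the steps behind the theorems `eigenvalues_integral`,
`exists_conjugate` and `exists_character` there. The case of `Γ₀(N)` is section 2 of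
`Fermat.Agent.GuideModularForms`.

## What it is about

For `f ∈ S_1(Γ₁(N))` the usual proofs that the Hecke eigenvalues are algebraic integers, and that
conjugates of eigenforms are eigenforms, use models of modular curves over `ℤ`, or periods (which do
not exist in weight one). Here everything is deduced, by algebra, from level one, where both facts
are obvious from `M_*(SL₂(ℤ)) = ℂ[E₄, E₆]` and the expansions of `E₄`, `E₆`. The only input about
`Γ₁(N)` is ONE form with an integral expansion whose stabiliser in `SL₂(ℤ)` is exactly `Γ₁(N)`.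

1. *Eisenstein series with periodic coefficients* (`line_sum` to `odd_weight`): expansions in all
   weights `≥ 3`, in particular the series of weight three on `Γ₁(N)` with integral coefficients.
2. *A form with stabiliser `Γ₁(N)`* (`combination` to `primitive_form`).
3. *From level one to `Γ`* (`integral_equation` to `integral_forms_span`): integral equations and
   Lagrange interpolation; conjugation of coefficients; rational forms span; bounded denominators.
4. *Diamond operators and the Hecke algebra* (`diamond_translates` to `operator_of_relations`): the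
   translates under `Γ₀(N)` commute with conjugation; the lattice of forms all of whose translates are
   integral is finitely generated, spans, and is stable under the Hecke operators, in every weight `k ≥ 1`.
5. *Normalisation at a valuation* (`coefficients_fg` to `scale`): the coefficients of a form lie in a
   finitely generated group; the `q`-expansion principle for forms from that for functions (steps of
   `GuideGaloisAction.qExpansion_principle`); common denominators depending only on level and weight.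
6. *Weight one modulo `ℓ`* (`good_iff` to `residual_character_of_weight_one`): a form of weight two
   whose diamond translates reduce to multiples of one eigensystem defines a character of the Hecke
   algebra; it is applied to `f E` with `E` of weight one on `Γ₁(ℓ)` and `E ≡ 1`.

## References

NOTES.md, section A.9: [161] arithmetic of forms on `Γ₁(N)`, files `H50*` (helper50), [278] files
`H58*` (helper58), [173] overview of S48 (helper48). Level one and `Γ₀(N)`: files `H23*`, `H78*`, `H79*`.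
All theorems are in the closures of S47 and S48 only.

## Notation

`qExpansion 1 f` is the expansion `∑ a_n q^n` of `f` with respect to `q = exp(2πiτ)`, `qCoeff f n` its
coefficient `a_n`. The hypothesis `1 ∈ strictPeriods` says that `Γ` contains `T = (1, 1; 0, 1)`. `𝒮ℒ`
is the image of `SL₂(ℤ)` in `GL₂(ℝ)`, so `ModularForm 𝒮ℒ k` is the space of forms of level one.
`H58.dia N k d` is the diamond operator `⟨d⟩` and `H58.T1L N k p hp hpN` the Hecke operator `T_p`,
`p ∤ N`, on `S_k(Γ₁(N))` (described in `GuideDeligneSerre.hecke_operators`).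
-/

set_option autoImplicit false

open UpperHalfPlane hiding I
open Complex EisensteinSeries MatrixGroups CongruenceSubgroup ModularForm ModularFormClass
open scoped Real Manifold

namespace Fermat.Agent.Guide.WeightOne

/-! ## 1. Eisenstein series with periodic coefficients -/

section

open scoped Nat

/-- **Lipschitz formula with periodic coefficients.** For `k ≥ 3`, `u` periodic modulo `N`, `m > 0` and
`q_N = exp(2πiz/N)`: the sum of `u(n) (m z + n)^{-k}` over `n ∈ ℤ` is the constant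
`(-2πi)^k / ((k-1)! N^k)` times the sum of `d^{k-1} û(d) q_N^{m d}` over `d ≥ 1`, where
`û(d) = ∑_b u(b) exp(2πi b d / N)`. Proof: `n = t N + b`, and the Lipschitz formula of Mathlib at
the point `(m z + b) / N` for every residue `b`. File `H50EisQ`. -/
theorem line_sum {N : ℕ} [NeZero N] {k : ℕ} (hk : 3 ≤ k) (u : ℤ → ℂ)
    (hu : ∀ n, u (n + N) = u n) {m : ℕ} (hm : 0 < m) (z : ℍ) :
    ∑' n : ℤ, u n * ((m : ℂ) * z + n) ^ (-(k : ℤ)) =
      (-2 * π * I) ^ k / ((k - 1)! * (N : ℂ) ^ k) *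
        ∑' d : ℕ+, (d : ℂ) ^ (k - 1) *
          (∑ b : Fin N, u b * cexp (2 * π * I * ((b * d : ℤ) : ℂ) / N)) *
            Function.Periodic.qParam N z ^ (m * d : ℕ) :=
  H50.hasSum_line hk u hu hm z

/-- **Expansion of a general Eisenstein series.** Let `c` be a bounded function on `ℤ²`, periodic
modulo `N` in the second variable, and `k ≥ 3`. Then `∑ c(v) (v₀ z + v₁)^{-k}` (all `v ∈ ℤ²`; the term
`v = 0` is zero) is the sum of a power series in `q_N` whose constant term is the sum over the line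
`v₀ = 0` and whose coefficient at `r ≥ 1` is a sum over the factorisations `r = m d`, with the two
lines `v₀ = m` and `v₀ = -m` together. Used for `eisenstein_of_level` with `N = 1`. File `H50EisQ`
(`H90TwistedEis` for convergence, translates and holomorphy: `GuideKummerSteps`, `series` and
`series_slash`). -/
theorem eisenstein_expansion {N : ℕ} [NeZero N] {k : ℕ} (hk : 3 ≤ k) {c : (Fin 2 → ℤ) → ℂ} {C : ℝ}
    (hc : ∀ v, ‖c v‖ ≤ C) (hper : ∀ m n, c ![m, n + N] = c ![m, n]) (z : ℍ) :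
    HasSum (fun r : ℕ =>
        (if r = 0 then ∑' n : ℤ, c ![0, n] * (n : ℂ) ^ (-(k : ℤ))
          else (-2 * π * I) ^ k / ((k - 1)! * (N : ℂ) ^ k) *
            ∑ p ∈ r.divisorsAntidiagonal, (p.2 : ℂ) ^ (k - 1) *
              ∑ b : Fin N, (c ![p.1, b] + (-1) ^ k * c ![-p.1, -b]) *
                cexp (2 * π * I * ((b * p.2 : ℤ) : ℂ) / N)) *
          Function.Periodic.qParam N z ^ r)
      (∑' v : Fin 2 → ℤ, c v * ((v 0 : ℂ) * z + v 1) ^ (-(k : ℤ))) :=
  H50.hasSum_genEis hk hc hper z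

/-- **The Eisenstein series `H50.eisG N k hk u` on `Γ₁(N)`**, for a function `u` on `ℤ/N` and `k ≥ 3`:
the sum of `u(v₀) (v₀ z + v₁)^{-k}` over `v ∈ ℤ²`, divided by `(-2πi)^k / (k-1)!`. It is a modular form
of weight `k` on `Γ₁(N)`; a matrix in `Γ₀(N)` with lower right entry `d` replaces `u(x)` by `u(x d)`;
the coefficient of `q^r`, `r ≥ 1`, is `∑_{m d = r} d^{k-1} (u(m) + (-1)^k u(-m))`. The function depends
on `v₀` only, so the expansion is in `q` and not only in `q_N`. File `H50Gamma1Eis`. -/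
theorem eisenstein_of_level {N : ℕ} [NeZero N] {k : ℕ} (hk : 3 ≤ k) (u : ZMod N → ℂ) :
    (∀ z : ℍ, H50.eisG N k hk u z = ((-2 * π * I) ^ k / ((k - 1)! * ((1 : ℕ) : ℂ) ^ k))⁻¹ *
      ∑' v : Fin 2 → ℤ, u ((v 0 : ℤ) : ZMod N) * ((v 0 : ℂ) * z + v 1) ^ (-(k : ℤ))) ∧
    (∀ δ ∈ Gamma0 N, (H50.eisG N k hk u : ℍ → ℂ) ∣[(k : ℤ)] δ =
      H50.eisG N k hk fun x => u (x * (δ 1 1 : ℤ))) ∧
    ∀ r : ℕ, 0 < r → (qExpansion 1 (H50.eisG N k hk u)).coeff r =
      ∑ p ∈ r.divisorsAntidiagonal, (p.2 : ℂ) ^ (k - 1) * (u p.1 + (-1) ^ k * u (-p.1)) :=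
  ⟨fun _ => rfl, fun _ hδ => H50.eisG_slash hk u hδ, fun r hr => by
    rw [H50.qExpansion_eisG, H50.coefG, if_neg hr.ne']⟩

/-- **Odd weight.** For odd `k ≥ 3` the constant term is zero, because it contains the sum of `n^{-k}`
over all integers `n`; hence for integral `u` all coefficients are integers, and this holds for
all diamond translates at the same time (they are again of this form). With `k = 3` and `u` the
characteristic function of `1`, the coefficient of `q` is `1` when `N ≥ 3`. File `H50Gamma1Eis`. -/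
theorem odd_weight {N : ℕ} [NeZero N] {k : ℕ} (hodd : Odd k) (hk : 3 ≤ k) (u : ZMod N → ℤ) (r : ℕ) :
    (qExpansion 1 (H50.eisG N k hk (fun x => (u x : ℂ)))).coeff 0 = 0 ∧
    (∃ a : ℤ, (qExpansion 1 (H50.eisG N k hk (fun x => (u x : ℂ)))).coeff r = a) ∧
    (qExpansion 1 (H50.eisG N k hk (fun x => (u x : ℂ)))).coeff 1 =
      u 1 + (-1) ^ k * u (-1) := by
  simp only [H50.qExpansion_eisG]
  exact ⟨H50.coefG_zero_of_odd hodd hk _, H50.coefG_int_of_odd hodd hk u r, H50.coefG_one _⟩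

end

/-! ## 2. A form with stabiliser `Γ₁(N)` -/

/-- **One form instead of two.** Let `a`, `b` be forms of the same weight on `Γ` (of finite index) such
that an element of `SL₂(ℤ)` which fixes both lies in `Γ`. Then for some natural number `t` an element
which fixes `a + t b` lies in `Γ`. Proof: otherwise for every `t` there is `γ_t ∉ Γ` which fixes
`a + t b`; by finiteness of the index `γ_s` and `γ_t` are in the same right coset of `Γ` for some
`s ≠ t`, so that `γ_t` fixes `a + s b` and `a + t b`, hence `a` and `b`. File `H50Prim1`. -/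
theorem combination {Γ : Subgroup SL(2, ℤ)} [Γ.FiniteIndex] {w : ℤ} (a b : ModularForm Γ w)
    (hst : ∀ γ : SL(2, ℤ), (⇑a : ℍ → ℂ) ∣[w] γ = ⇑a → (⇑b : ℍ → ℂ) ∣[w] γ = ⇑b → γ ∈ Γ) :
    ∃ t : ℕ, ∀ γ : SL(2, ℤ),
      (⇑(a + (t : ℂ) • b) : ℍ → ℂ) ∣[w] γ = ⇑(a + (t : ℂ) • b) → γ ∈ Γ :=
  H50.exists_comb_stab a b hst

/-- **The two forms for `Γ₁(N)`, `N ≥ 3`**: `F^5` and `E^3 F` of weight 15, where `F` is the Eisenstein
series of weight three with `u` the characteristic function of `1`, and `E = E₄(Nτ)`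
(`H78.E4N N`). If `γ` fixes both, then `(E ∣ γ)^15 F^5 = E^15 F^5`, so `(E ∣ γ)^15 = E^15`; the value of
`E ∣ γ` at the cusp is a positive real number, so it is `1`, which implies `γ ∈ Γ₀(N)` (as in
`H78EisN`). Hence `E ∣ γ = E` and `F ∣ γ = F`; the coefficient of `q` of `F ∣ γ` is `1` only if the lower
right entry of `γ` is `1` modulo `N`. File `H50Prim1`. -/
theorem joint_stabiliser (N : ℕ) [NeZero N] (hN : 3 ≤ N) (γ : SL(2, ℤ))
    (h1 : ((H50.eisG N 3 le_rfl (fun x => if x = 1 then 1 else 0) : ℍ → ℂ) ∣[((3 : ℕ) : ℤ)] γ) ^ 5 =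
      (H50.eisG N 3 le_rfl (fun x => if x = 1 then 1 else 0) : ℍ → ℂ) ^ 5)
    (h2 : ((H78.E4N N : ℍ → ℂ) ∣[(4 : ℤ)] γ) ^ 3 *
      ((H50.eisG N 3 le_rfl (fun x => if x = 1 then 1 else 0) : ℍ → ℂ) ∣[((3 : ℕ) : ℤ)] γ) =
      (H78.E4N N : ℍ → ℂ) ^ 3 *
        (H50.eisG N 3 le_rfl (fun x => if x = 1 then 1 else 0) : ℍ → ℂ)) : γ ∈ Gamma1 N :=
  H50.stab_aux N hN γ h1 h2

/-- **The primitive form.** There is a modular form `g` on `Γ₁(N)` such that `g ∣ δ` has an integral
`q`-expansion for every `δ ∈ Γ₀(N)`, and whose stabiliser in `SL₂(ℤ)` is `Γ₁(N)`. (For `N ≤ 2` one has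
`Γ₁(N) = Γ₀(N)` and takes `E₄(Nτ)`.) The library calls this `H50.HasPrimN N (Gamma1 N)`; the weaker
`H50.HasPrim Γ` asks for an integral expansion of `g` only. File `H50Prim1`. -/
theorem primitive_form (N : ℕ) [NeZero N] :
    ∃ (w : ℤ) (g : ModularForm (Gamma1 N) w),
      (∀ δ ∈ Gamma0 N, ∀ m, ∃ z : ℤ, (qExpansion 1 ((g : ℍ → ℂ) ∣[w] δ)).coeff m = z) ∧
      ∀ γ : SL(2, ℤ), (⇑g : ℍ → ℂ) ∣[w] γ = ⇑g → γ ∈ Gamma1 N :=
  H50.hasPrimN_Gamma1 N

/-! ## 3. From level one to `Γ`

In this section `Γ` is a subgroup of finite index of `SL₂(ℤ)` which contains `T`, and which has a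
modular form `g` with integral expansion and stabiliser `Γ` (hypothesis `hp`). -/

/-- **Integral equation.** A modular form `f` of weight `k` on an arithmetic group `𝒢` satisfies
`f^n + c₁ f^{n-1} + ... + c_n = 0` with forms `c_i` of level one and weight `i k`: up to sign the
symmetric functions of the translates `f ∣ γ`. (The version for cusp forms, with cusp forms `c_i`, is
`GuideModularForms.integral_over_levelOne`.) File `H50Arith`. -/
theorem integral_equation {𝒢 : Subgroup (GL (Fin 2) ℝ)} [𝒢.IsArithmetic] {k : ℤ}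
    (f : ModularForm 𝒢 k) :
    ∃ n : ℕ, 0 < n ∧ ∃ c : (i : ℕ) → ModularForm 𝒮ℒ ((i : ℤ) * k),
      ∀ τ, f τ ^ n + ∑ i ∈ Finset.Icc 1 n, c i τ * f τ ^ (n - i) = 0 :=
  H50.modForm_integral f

/-- **Lagrange interpolation over level one.** With `g` as above there is a form `D ≠ 0`, a polynomial
in `g` over level one, such that `D f` is a polynomial in `g` over level one for every form `f` on
`Γ` of every weight. (`D` is the value at `g` of the derivative of `∏ (X - g ∣ γ)`; it is not zero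
because the `g ∣ γ` are distinct.) File `H50Arith`, from `H78Lagrange`. -/
theorem lagrange {Γ : Subgroup SL(2, ℤ)} [Γ.FiniteIndex]
    (hp : ∃ (w : ℤ) (g : ModularForm Γ w), (∀ m, ∃ z : ℤ, (qExpansion 1 g).coeff m = z) ∧
      ∀ γ : SL(2, ℤ), (⇑g : ℍ → ℂ) ∣[w] γ = ⇑g → γ ∈ Γ) :
    ∃ (w : ℤ) (n : ℕ) (g : ModularForm Γ w) (D : ModularForm Γ (w * ((n : ℤ) - 1))),
      (∀ m, ∃ z : ℤ, (qExpansion 1 g).coeff m = z) ∧ D ≠ 0 ∧
      (∃ G : (i : ℕ) → ModularForm 𝒮ℒ (w * ((n : ℤ) - 1 - i)),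
        ∀ τ, D τ = ∑ i ∈ Finset.range n, G i τ * g τ ^ i) ∧
      ∀ (k : ℤ) (f : ModularForm Γ k),
        ∃ G : (i : ℕ) → ModularForm 𝒮ℒ (k + w * ((n : ℤ) - 1 - i)),
          ∀ τ, D τ * f τ = ∑ i ∈ Finset.range n, G i τ * g τ ^ i :=
  H50.lagrange_of_hasPrim hp

/-- **Integral quotients of modular forms are modular forms.** If `A ≠ 0` and `B / A` satisfies an
equation as in `integral_equation` (multiplied by `A^n`), then `B = A F` with a modular form `F`: the
equation bounds the quotient, which extends over the zeros of `A`, and bounds its translates at the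
cusps. File `H50ConjM` (`H79GalStab` for cusp forms). -/
theorem integral_quotient (Γ : Subgroup SL(2, ℤ)) [Γ.FiniteIndex] {k w : ℤ}
    (A : ModularForm Γ w) (hA : A ≠ 0) (B : ModularForm Γ (w + k)) {n : ℕ}
    (c : (i : ℕ) → ModularForm 𝒮ℒ ((i : ℤ) * k))
    (h : ∀ τ : ℍ, B τ ^ n + ∑ i ∈ Finset.Icc 1 n, c i τ * A τ ^ i * B τ ^ (n - i) = 0) :
    ∃ F : ModularForm Γ k, ∀ τ, A τ * F τ = B τ :=
  H50.exists_modForm_mul_eq Γ A hA B c h

/-- **Conjugation.** For every ring endomorphism `σ` of `ℂ` the conjugate `∑ σ(a_n) q^n` of a modular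
form (a cusp form) on `Γ` is a modular form (a cusp form) on `Γ` of the same weight. Proof: conjugate
the coefficients of level one in `D` and in `D f`; this gives forms `A` and `B` (as `g` is fixed by
`σ`), and `B / A` satisfies the conjugate of the integral equation of `f`. Files `H50Arith`,
`H50ConjM`, `H79Conj`. -/
theorem exists_conjugate {Γ : Subgroup SL(2, ℤ)} [Γ.FiniteIndex]
    (hT : (1 : ℝ) ∈ (Γ : Subgroup (GL (Fin 2) ℝ)).strictPeriods)
    (hp : ∃ (w : ℤ) (g : ModularForm Γ w), (∀ m, ∃ z : ℤ, (qExpansion 1 g).coeff m = z) ∧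
      ∀ γ : SL(2, ℤ), (⇑g : ℍ → ℂ) ∣[w] γ = ⇑g → γ ∈ Γ) {k : ℤ} (σ : ℂ →+* ℂ) :
    (∀ f : ModularForm Γ k, ∃ f' : ModularForm Γ k, qExpansion 1 f' = (qExpansion 1 f).map σ) ∧
    ∀ f : CuspForm Γ k, ∃ f' : CuspForm Γ k, qExpansion 1 f' = (qExpansion 1 f).map σ :=
  ⟨H50.exists_conj_mod hT hp σ, H50.exists_conj_cusp hT hp σ⟩

/-- **Sturm bound.** A form on `Γ` of weight `k` whose coefficients `a_n` with
`n ≤ k [SL₂(ℤ) : Γ] / 12` vanish is zero (the index is written as a relative index in `GL₂(ℝ)`). Hence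
all these spaces are finite-dimensional. The bound is
`Fermat/Prelude/Thm_ModularForm_sturm_bound_of_isArithmetic`. File `H50Arith`. -/
theorem sturm {Γ : Subgroup SL(2, ℤ)} [Γ.FiniteIndex] (k : ℤ)
    (hT : (1 : ℝ) ∈ (Γ : Subgroup (GL (Fin 2) ℝ)).strictPeriods) :
    (∀ f : ModularForm Γ k,
      (∀ n ≤ (k * (Γ : Subgroup (GL (Fin 2) ℝ)).relIndex 𝒮ℒ).toNat / 12,
        (qExpansion 1 f).coeff n = 0) → f = 0) ∧
    FiniteDimensional ℂ (ModularForm Γ k) ∧ FiniteDimensional ℂ (CuspForm Γ k) :=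
  ⟨H50.mod_eq_zero_of_coeff Γ k hT, H50.finiteDimensional_mod Γ k hT,
    H50.finiteDimensional_cusp Γ k hT⟩

/-- **Bounded denominators.** A modular form on `Γ` with rational coefficients has bounded
denominators: by `integral_equation` and `lagrange` an integral multiple of its expansion is almost
integral (its powers have a common denominator in `ℤ⟦q⟧`), and `ℤ⟦q⟧` is completely integrally closed
in `ℚ⟦q⟧` (`GuideModularForms.coeff_of_almostIntegral`). File `H50Arith` (`H23Denom`). -/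
theorem bounded_denominators {Γ : Subgroup SL(2, ℤ)} [Γ.FiniteIndex]
    (hT : (1 : ℝ) ∈ (Γ : Subgroup (GL (Fin 2) ℝ)).strictPeriods)
    (hp : ∃ (w : ℤ) (g : ModularForm Γ w), (∀ m, ∃ z : ℤ, (qExpansion 1 g).coeff m = z) ∧
      ∀ γ : SL(2, ℤ), (⇑g : ℍ → ℂ) ∣[w] γ = ⇑g → γ ∈ Γ) (k : ℤ)
    (f : ModularForm Γ k) (hf : ∀ n, ∃ q : ℚ, (qExpansion 1 f).coeff n = (q : ℂ)) :
    ∃ D : ℤ, D ≠ 0 ∧ ∀ n, ∃ z : ℤ, (D : ℂ) * (qExpansion 1 f).coeff n = z :=
  H50.bddDen_mod hT hp k f hf

/-- **Integral forms span** `M_k(Γ)` and `S_k(Γ)`. Proof: rational forms span by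
`exists_conjugate` and descent (`GuideModularForms.descent_to_rational`), and a multiple of a
rational form is integral. File `H50Arith`. -/
theorem integral_forms_span {Γ : Subgroup SL(2, ℤ)} [Γ.FiniteIndex]
    (hT : (1 : ℝ) ∈ (Γ : Subgroup (GL (Fin 2) ℝ)).strictPeriods)
    (hp : ∃ (w : ℤ) (g : ModularForm Γ w), (∀ m, ∃ z : ℤ, (qExpansion 1 g).coeff m = z) ∧
      ∀ γ : SL(2, ℤ), (⇑g : ℍ → ℂ) ∣[w] γ = ⇑g → γ ∈ Γ) (k : ℤ) :
    Submodule.span ℂ {f : ModularForm Γ k |
      ∀ n, ∃ z : ℤ, (qExpansion 1 f).coeff n = (z : ℂ)} = ⊤ ∧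
    Submodule.span ℂ {f : CuspForm Γ k |
      ∀ n, ∃ z : ℤ, (qExpansion 1 f).coeff n = (z : ℂ)} = ⊤ :=
  ⟨H50.integral_span_mod hT hp k, H50.integral_span_cusp hT hp k⟩

/-! ## 4. Diamond operators and the Hecke algebra -/

/-- **Translates under `Γ₀(N)`.** `H50.slashM N f δ` is the modular form `f ∣ δ` on `Γ₁(N)`, for `f` on
`Γ₁(N)` and `δ ∈ Γ₀(N)`, and `H50.slashS` the same for cusp forms. It depends only on the lower right
entry of `δ` modulo `N` (`Gamma0Map N δ`), and `⟨d⟩ f` is `f ∣ δ` for the chosen matrix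
`δ = H58.sig N d`, whose lower right entry is `d` if `d` is prime to `N`. Files `H50Diamond`,
`H50Hecke1`. -/
theorem diamond_translates {N : ℕ} [NeZero N] {k : ℤ} (f : CuspForm (Gamma1 N) k)
    {δ ε : Gamma0 N} (h : Gamma0Map N δ = Gamma0Map N ε) (d : ℤ) :
    (H50.slashS N f δ : ℍ → ℂ) = (f : ℍ → ℂ) ∣[k] (δ : SL(2, ℤ)) ∧
    H50.slashS N f δ = H50.slashS N f ε ∧
    H58.dia N k d f = H50.slashS N f ⟨H58.sig N d, H58.sig_mem N d⟩ :=
  ⟨H50.coe_slashS N f δ, H50.slashS_eq_of_map_eq N f h, H50.dia_eq_slashS d f⟩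

/-- **Translates commute with conjugation**: if `f'` is the conjugate of `f` under `σ`, then `f' ∣ δ` is
the conjugate of `f ∣ δ`, for `δ ∈ Γ₀(N)`. (False for general `δ ∈ SL₂(ℤ)`, where roots of unity occur.)
Proof: write `D` and `D f` as polynomials in the primitive form `g` over level one, and let `A`, `B` be
the polynomials with the conjugate coefficients, so that `A f' = B`. Apply `δ`: the coefficients of
level one are fixed, and `g ∣ δ` has an integral expansion by `primitive_form`; so `A ∣ δ`, `B ∣ δ` are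
the conjugates of `D ∣ δ` and `(D f) ∣ δ`. Divide. File `H50Diamond`. -/
theorem conjugate_translate (N : ℕ) [NeZero N] (σ : ℂ →+* ℂ) {k : ℤ}
    (f f' : ModularForm (Gamma1 N) k) (h : qExpansion 1 f' = (qExpansion 1 f).map σ)
    (δ : Gamma0 N) :
    qExpansion 1 (H50.slashM N f' δ) = (qExpansion 1 (H50.slashM N f δ)).map σ :=
  H50.conj_slashM N σ f f' h δ

/-- **The integral lattice** `H50.diaLattice N k` consists of the cusp forms all of whose translates
under `Γ₀(N)` have integral coefficients. It spans `S_k(Γ₁(N))` (a rational form has rational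
translates by `conjugate_translate`, there are only finitely many of them, and each has bounded
denominators), it is finitely generated (by `sturm` it embeds into a finite product of copies of
`ℤ`), and for `k ≥ 1` it is stable under `T_p` and `⟨d⟩`: the coefficients of `T_p f ∣ δ` are those of
`f ∣ δ` at `p n` plus `p^{k-1}` times those of `f ∣ δ σ_p` at `n / p`. Without the condition on the
translates it would not be clear that the lattice is stable. Files `H50Diamond`, `H50Hecke1`. -/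
theorem integral_lattice (N : ℕ) [NeZero N] (k : ℤ) :
    (∀ f : CuspForm (Gamma1 N) k, f ∈ H50.diaLattice N k ↔
      ∀ (δ : Gamma0 N) (n : ℕ), ∃ z : ℤ, (qExpansion 1 (H50.slashS N f δ)).coeff n = z) ∧
    Submodule.span ℂ (H50.diaLattice N k : Set (CuspForm (Gamma1 N) k)) = ⊤ ∧
    Module.Finite ℤ (H50.diaLattice N k) ∧
    (1 ≤ k → ∀ f ∈ H50.diaLattice N k, (∀ d : ℤ, H58.dia N k d f ∈ H50.diaLattice N k) ∧
      ∀ (p : ℕ) (hp : p.Prime) (hpN : ¬ p ∣ N), H58.T1L N k p hp hpN f ∈ H50.diaLattice N k) :=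
  ⟨fun _ => Iff.rfl, H50.span_diaLattice N k, H50.diaLattice_fg N k, fun hk _ hf =>
    ⟨fun d => H50.diaLattice_dia hf d, fun _ hp hpN => H50.diaLattice_T1L hk hp hpN hf⟩⟩

/-- **The Hecke algebra of `S_k(Γ₁(N))` is finite over `ℤ`** for every `k ≥ 1`, in particular in weight
one. It is the `ℤ`-algebra generated by the `T_p` (`p ∤ N` prime) and the `⟨d⟩` (`d` prime to `N`); it
acts faithfully on the lattice of `integral_lattice`. File `H50Hecke1`. -/
theorem hecke_algebra_finite {N : ℕ} [NeZero N] {k : ℤ} (hk : 1 ≤ k) :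
    Module.Finite ℤ (Algebra.adjoin ℤ {T : Module.End ℂ (CuspForm (Gamma1 N) k) |
      (∃ (p : ℕ) (hp : p.Prime) (hpN : ¬ p ∣ N), T = H58.T1L N k p hp hpN) ∨
        ∃ d : ℤ, IsCoprime d (N : ℤ) ∧ T = H58.dia N k d}) :=
  H50.moduleFinite_hecke1 hk

/-- **The character of an eigenform.** An eigenform `f ≠ 0` of all `T_p` and `⟨d⟩` defines a ring
homomorphism `χ` from this Hecke algebra (`H50.hecke1 N k`) to `ℂ` with `t f = χ(t) f`. File
`H50Inputs`. -/
theorem eigencharacter {N : ℕ} [NeZero N] {k : ℤ} (f : CuspForm (Gamma1 N) k) (hf : f ≠ 0)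
    (e : ℤ → ℂ) (a : ℕ → ℂ)
    (hdia : ∀ d : ℤ, IsCoprime d (N : ℤ) → H58.dia N k d f = e d • f)
    (hT : ∀ (p : ℕ) (hp : p.Prime) (hpN : ¬ p ∣ N), H58.T1L N k p hp hpN f = a p • f) :
    ∃ χ : H50.hecke1 N k →+* ℂ, (∀ t : H50.hecke1 N k, t.1 f = χ t • f) ∧
      (∀ (p : ℕ) (hp : p.Prime) (hpN : ¬ p ∣ N),
        χ ⟨H58.T1L N k p hp hpN, H50.T1L_mem_hecke1 hp hpN⟩ = a p) ∧
      (∀ (d : ℤ) (hd : IsCoprime d (N : ℤ)),
        χ ⟨H58.dia N k d, H50.dia_mem_hecke1 hd⟩ = e d) :=
  H50.exists_eigenchar f hf e a hdia hT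

/-- **Eigenvalues are algebraic integers in a number field**: immediate from
`hecke_algebra_finite`. Together with `eigencharacter` and the next theorem this is
`GuideDeligneSerre.eigenvalues_integral`. File `H50Inputs`. -/
theorem eigenvalues {N : ℕ} [NeZero N] {k : ℤ} (hk : 1 ≤ k) (χ : H50.hecke1 N k →+* ℂ) :
    (∀ t : H50.hecke1 N k, IsIntegral ℤ (χ t)) ∧
    ∃ K : IntermediateField ℚ ℂ, FiniteDimensional ℚ K ∧ ∀ t, χ t ∈ K :=
  ⟨H50.isIntegral_eigenchar hk χ, H50.exists_numberField hk χ⟩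

/-- **Relations between coefficients are an equation between forms.** If `f` of weight one has
nebentypus `ε` and satisfies the Hecke relation at `p` with eigenvalue `a`, then `T_p f = a f`: both
sides have the same coefficients. (The nebentypus itself follows from the relations:
`GuideDeligneSerre.nebentypus`.) File `H50Inputs`. -/
theorem operator_of_relations {N : ℕ} [NeZero N] (ε : DirichletCharacter ℂ N)
    (f : CuspForm (Gamma1 N) 1)
    (hε : ∀ γ : SL(2, ℤ), γ ∈ Gamma0 N → ⇑f ∣[(1 : ℤ)] γ = ε ((γ 1 1 : ℤ) : ZMod N) • ⇑f)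
    {p : ℕ} (hp : p.Prime) (hpN : ¬ p ∣ N) (a : ℂ)
    (hT : ∀ n : ℕ,
      qCoeff f (p * n) + ε (p : ZMod N) * (if p ∣ n then qCoeff f (n / p) else 0) =
        a * qCoeff f n) : H58.T1L N 1 p hp hpN f = a • f :=
  H50.T1L_eq_of_qCoeff ε f hε hp hpN a hT

/-! ## 5. Normalisation at a valuation -/

/-- **The coefficients of a modular form lie in a finitely generated group**, because
`integral_forms_span` gives a finite basis of integral forms. File `H50Inputs`. -/
theorem coefficients_fg {Γ : Subgroup SL(2, ℤ)} [Γ.FiniteIndex]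
    (hT : (1 : ℝ) ∈ (Γ : Subgroup (GL (Fin 2) ℝ)).strictPeriods)
    (hp : ∃ (w : ℤ) (g : ModularForm Γ w), (∀ m, ∃ z : ℤ, (qExpansion 1 g).coeff m = z) ∧
      ∀ γ : SL(2, ℤ), (⇑g : ℍ → ℂ) ∣[w] γ = ⇑g → γ ∈ Γ) {k : ℤ} (f : ModularForm Γ k) :
    (Submodule.span ℤ (Set.range fun n => (qExpansion 1 f).coeff n)).FG :=
  H50.fg_span_coeffM hT hp f

/-- **Largest coefficient.** Let `f ≠ 0` be a form whose coefficients are the images of elements `b_n`
of a field `K ⊆ ℂ`, and `A` a valuation ring of `K`, of any rank. Then some `b_{n₀} ≠ 0` divides all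
`b_n` in `A`: the value of an element of a finitely generated group is at most the largest value of
a generator, and the generators can be chosen among the `b_n`. Used to normalise translates of
algebraic forms in the construction of the Galois action (`GuideGaloisAction`). File
`H50Inputs`. -/
theorem largest_coefficient {Γ : Subgroup SL(2, ℤ)} [Γ.FiniteIndex]
    (hT : (1 : ℝ) ∈ (Γ : Subgroup (GL (Fin 2) ℝ)).strictPeriods)
    (hp : ∃ (w : ℤ) (g : ModularForm Γ w), (∀ m, ∃ z : ℤ, (qExpansion 1 g).coeff m = z) ∧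
      ∀ γ : SL(2, ℤ), (⇑g : ℍ → ℂ) ∣[w] γ = ⇑g → γ ∈ Γ)
    {K : Type*} [Field K] (ι : K →+* ℂ) (A : ValuationSubring K) {k : ℤ}
    (f : ModularForm Γ k) (hf : f ≠ 0) (b : ℕ → K)
    (hb : ∀ n, (qExpansion 1 f).coeff n = ι (b n)) :
    ∃ n0, b n0 ≠ 0 ∧ ∀ n, b n / b n0 ∈ A :=
  H50.exists_max_coeff hT hp ι A f hf b hb

/-- **Translates over a subfield.** Let `ι : K → ℂ` be an embedding of a field. If the coefficients of a
form `f` on `Γ₁(N)` lie in `ι(K)`, so do the coefficients of its translates `f ∣ δ`, `δ ∈ Γ₀(N)`. Proof: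
in a basis of integral forms (`integral_forms_span`) the coordinates of `f` lie in `ι(K)` (apply a
`K`-linear left inverse of `ι` to the coefficients), and the translates of integral forms have
coefficients fixed by all endomorphisms of `ℂ` (`conjugate_translate`), hence rational. This theorem
and the next three are the steps of `GuideGaloisAction.qExpansion_principle`. File `H50QEIn`. -/
theorem translates_over_subfield {N : ℕ} [NeZero N] {K : Type*} [Field K] (ι : K →+* ℂ) {k : ℤ}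
    (f : ModularForm (Gamma1 N) k) (hf : ∀ n, ∃ a, (qExpansion 1 f).coeff n = ι a) (δ : Gamma0 N)
    (n : ℕ) : ∃ a, (qExpansion 1 (H50.slashM N f δ)).coeff n = ι a :=
  H50.slashM_algebraic ι f hf δ n

/-- **Matrices.** `GG M r = ±Γ₁(M) ∩ Γ₀(r)`. (1) Every `δ ∈ Γ₀(M)` has the same lower right entry modulo
`M` as some `δ' ∈ Γ₀(M) ∩ Γ₀(r)`, so `f ∣ δ = f ∣ δ'` for `f` on `Γ₁(M)` (`(ℤ/Mr)ˣ → (ℤ/M)ˣ` is
surjective). (2) `γ T^{Mr} γ⁻¹ ∈ GG M r` for all `γ ∈ SL₂(ℤ)`, as `Γ(Mr)` is normal: all expansions are in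
`q^{1/(Mr)}`. (3) `δ T δ⁻¹ ∈ GG M r` for `δ ∈ Γ₀(M) ∩ Γ₀(r)`: the expansion of a translate under such a
`δ` is in powers of `q`. File `H50QEIn`. -/
theorem matrices {M r : ℕ} [NeZero (M * r)] :
    (∀ δ ∈ Gamma0 M, ∃ δ' ∈ Gamma0 M, δ' ∈ Gamma0 r ∧
      ((δ' 1 1 : ℤ) : ZMod M) = ((δ 1 1 : ℤ) : ZMod M)) ∧
    (∀ γ : SL(2, ℤ), γ * ModularGroup.T ^ (M * r) * γ⁻¹ ∈ H78.KI.GG M r) ∧
    ∀ δ ∈ Gamma0 M, δ ∈ Gamma0 r → δ * ModularGroup.T * δ⁻¹ ∈ H78.KI.GG M r :=
  ⟨fun _ h => H50.exists_delta h, H50.T_pow_conj_mem, fun _ h h' => H50.T_conj_mem_GG h h'⟩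

/-- **A product with a unit coefficient.** Let `A` be a valuation ring of `K`, and let `u` have
coefficients in `A` and leading coefficient `1`. If the Laurent series `y` has a coefficient outside
the maximal ideal of `A`, so has `y u`: take the first such coefficient of `y` and the first one of
`u`. File `H50QEIn`. -/
theorem unit_coefficient {K : Type*} [Field K] (A : ValuationSubring K) {y u : LaurentSeries K}
    (hy : ∃ n, y.coeff n ∉ A.nonunits) (hu : ∀ n, u.coeff n ∈ A) {m : ℤ}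
    (hm : u.coeff m = 1 ∧ ∀ n < m, u.coeff n = 0) : ∃ n, (y * u).coeff n ∉ A.nonunits :=
  H50.exists_unit_coeff A hy hu hm

/-- **The `q`-expansion principle: from functions to forms.** Suppose that it holds for the modular
functions for `GG M r` (hypothesis `hC`, which is `GuideGaloisAction.qExpansion_principle_functions`
for `M ≥ 2` and `r = 2, 3`; `HasExpC`, `ev` and `GoodAlg` are written out in
`GuideGaloisAction.expansion_notions`). Then it holds for the forms of even weight on `Γ₁(M)` and the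
places `A` of `ℚ̄` above `p ∤ M`, `p ≠ r`: if `f` has coefficients in `A`, so has `f ∣ δ`, `δ ∈ Γ₀(M)`.
Proof: by `matrices` one may take `δ ∈ Γ₀(M) ∩ Γ₀(r)`. The coefficients `b_n` of `f ∣ δ` are algebraic
(`translates_over_subfield`); if `f ∣ δ ≠ 0`, some `b_{n₀} ≠ 0` divides all of them in `A`
(`largest_coefficient`). Those of `f` lie in a number field `L` (`coefficients_fg`). Let
`U = E₄ᵃ E₆ᵇ Δ⁻ˢ` be a multiplier of weight `-k` (`multiplier`, `form_to_function` and
`translate_expansion` of `GuideDivisionValues`) and `x = f U`: the expansion of `x ∘ δ = (f ∣ δ) U` is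
`b_{n₀} X`, where `X` has coefficients in `A`, not all in the maximal ideal (`unit_coefficient`). So
`b_{n₀} ∈ A` by `hC`, and all `b_n ∈ A`. File `H50QEIn`. -/
theorem from_functions_to_forms {M r : ℕ} [NeZero M] [NeZero (M * r)] {p : ℕ} (hp : p.Prime)
    (hpM : ¬ p ∣ M) (hpr : p ≠ r)
    (hC : ∀ p : ℕ, p.Prime → ¬ p ∣ M → p ≠ r → ∀ A : ValuationSubring (AlgebraicClosure ℚ),
      A.LiesOverPrime p → ∀ [Algebra (AlgebraicClosure ℚ) ℂ]
      (L : IntermediateField ℚ (AlgebraicClosure ℚ)), FiniteDimensional ℚ L →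
      ∀ x ∈ H78.FF.GoodAlg (AlgebraicClosure ℚ) (H78.KI.GG M r) (M * r),
        (∀ i, x.coeff i ∈ L) → (∀ i, x.coeff i ∈ A) → ∀ δ ∈ Gamma0 r,
        ∀ (X : LaurentSeries (AlgebraicClosure ℚ)) (c : AlgebraicClosure ℚ),
          (∀ i, X.coeff i ∈ A) → (∃ i, X.coeff i ∉ A.nonunits) →
          H24.HasExpC (fun τ : ℍ => Function.Periodic.qParam ((M * r : ℕ) : ℝ) τ)
            (fun τ => H24.ev (AlgebraicClosure ℚ) x (δ • τ))
            (ModularCurve.coeffMap (algebraMap (AlgebraicClosure ℚ) ℂ) (HahnSeries.C c * X)) →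
          c ∈ A)
    (A : ValuationSubring (AlgebraicClosure ℚ)) (hA : A.LiesOverPrime p)
    (ι : AlgebraicClosure ℚ →+* ℂ) {k : ℤ} (hk : Even k) {f : ℍ → ℂ}
    (hf : H22.Tw.IsM (Gamma1 M) k f) (hcoef : ∀ i, ∃ a ∈ A, (qExpansion 1 f).coeff i = ι a)
    {δ : SL(2, ℤ)} (hδ : δ ∈ Gamma0 M) :
    ∀ i, ∃ a ∈ A, (qExpansion 1 (f ∣[k] δ)).coeff i = ι a :=
  H50.QEIn_aux hC hp hpM hpr A hA ι hk hf hcoef hδ

/-- **A common denominator for all forms.** There is an integer `D ≠ 0`, depending only on `N` and `k`,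
such that for every cusp form `g` and every subring `A` of `ℂ`: if the coefficients of `g` up to the
Sturm bound lie in `A`, then `D a_n(g) ∈ A` for all `n`. Proof: the matrix of the first coefficients
of a basis of integral forms is integral with independent columns; it has a left inverse with
denominator `D`. (`H50.stB N k` is the bound in `sturm` for `Γ = Γ₁(N)`.)
`GuideDeligneSerre.exists_character` is stated for the primes `ℓ ∤ D`. File `H50Theta`. -/
theorem common_denominator (N : ℕ) [NeZero N] (k : ℤ) :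
    ∃ D : ℤ, D ≠ 0 ∧ ∀ (g : CuspForm (Gamma1 N) k) (A : Subring ℂ),
      (∀ n ≤ H50.stB N k, (qExpansion 1 g).coeff n ∈ A) →
        ∀ n, (D : ℂ) * (qExpansion 1 g).coeff n ∈ A :=
  H50.exists_den N k

/-- **Scaling.** If `D` is invertible in the valuation ring `𝒱` of `ℂ`, every cusp form `f ≠ 0` has a
multiple `c f` with coefficients in `𝒱`, one of them equal to `1`: divide by a coefficient of
largest value among those up to the Sturm bound. File `H50Theta`. -/
theorem scale {N : ℕ} [NeZero N] {k : ℤ} (𝒱 : ValuationSubring ℂ) {D : ℤ}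
    (hD𝒱 : ((D : ℂ))⁻¹ ∈ 𝒱) (hD0 : D ≠ 0)
    (hD : ∀ (g : CuspForm (Gamma1 N) k) (A : Subring ℂ),
      (∀ n ≤ H50.stB N k, (qExpansion 1 g).coeff n ∈ A) →
        ∀ n, (D : ℂ) * (qExpansion 1 g).coeff n ∈ A)
    {f : CuspForm (Gamma1 N) k} (hf : f ≠ 0) :
    ∃ c : ℂ, c ≠ 0 ∧ (∀ n, (qExpansion 1 (c • f : CuspForm (Gamma1 N) k)).coeff n ∈ 𝒱) ∧
      ∃ n, (qExpansion 1 (c • f : CuspForm (Gamma1 N) k)).coeff n = 1 :=
  H50.exists_scale 𝒱 hD𝒱 hD0 hD hf

/-! ## 6. Weight one modulo `ℓ` -/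

/-- **Forms which reduce to an eigensystem.** Let `φ : R → F` be a homomorphism from a subring of `ℂ`.
`H58.RedTo φ z c` says `z ∈ R` and `φ z = c`. For a function `χ` on the integers and a sequence `ā` in `F`,
`H58.Good φ χ ā h c` says that for all `d` prime to `M` the coefficients of `⟨d⟩ h` lie in `R` and reduce
to `χ(d) c ā_n`. File `H58Red`. -/
theorem good_iff {F : Type*} [CommRing F] {S : Type*} [SetLike S ℂ] [SubringClass S ℂ] {R : S}
    (φ : R →+* F) {M : ℕ} [NeZero M] {k : ℤ} (χ : ℤ → F) (abar : ℕ → F)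
    (h : CuspForm (Gamma1 M) k) (c : F) :
    H58.Good φ χ abar h c ↔ ∀ d : ℤ, IsCoprime d (M : ℤ) → ∀ n : ℕ,
      ∃ hz : qCoeff (H58.dia M k d h) n ∈ R,
        φ ⟨qCoeff (H58.dia M k d h) n, hz⟩ = χ d * c * abar n :=
  Iff.rfl

/-- **The operators on `Γ₁(M)`**: `⟨d e⟩ = ⟨d⟩ ⟨e⟩` for `d`, `e` prime to `M`, and `T_p` commutes with
the `⟨d⟩` and with `T_q` (`p`, `q ∤ M` prime). Proof: `⟨d⟩ f` is the translate of `f` by any element of
`Γ₀(M)` with lower right entry congruent to `d`; for `T_p T_q` compare coefficients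
(`GuideDeligneSerre.hecke_operators`). Files `H58Dia`, `H58Hecke1`. -/
theorem operators_commute {M : ℕ} [NeZero M] {k : ℤ} :
    (∀ {d e : ℤ}, IsCoprime d (M : ℤ) → IsCoprime e (M : ℤ) →
      H58.dia M k (d * e) = H58.dia M k d * H58.dia M k e) ∧
    (∀ {p : ℕ} (hp : p.Prime) (hpM : ¬ p ∣ M) (d : ℤ),
      Commute (H58.T1L M k p hp hpM) (H58.dia M k d)) ∧
    ∀ {p : ℕ} (hp : p.Prime) (hpM : ¬ p ∣ M) {q : ℕ} (hq : q.Prime) (hqM : ¬ q ∣ M),
      Commute (H58.T1L M k p hp hpM) (H58.T1L M k q hq hqM) :=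
  ⟨fun hd he => H58.dia_mul hd he, fun hp hpM d => H58.T1L_dia_comm hp hpM d,
    fun hp hpM _ hq hqM => H58.T1L_T1L_comm hp hpM hq hqM⟩

/-- **Operators on reductions.** Let `h`, of weight `k ≥ 1`, reduce to `c` times the eigensystem
(`Good φ χ ā h c`), `χ` multiplicative. Then `h + h'` reduces to `c + c'` times it if `h'` reduces to
`c'` times it, `m h` to `m c` times it for `m ∈ ℤ`, `⟨e⟩ h` to `χ(e) c` times it, and `T_p h` to `λ c`
times it if `ā` satisfies the Hecke relation at `p` with eigenvalue `λ`: the `n`-th coefficient of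
`⟨d⟩ T_p h = T_p ⟨d⟩ h` is `a_{pn}(⟨d⟩ h) + p^(k-1) a_{n/p}(⟨p d⟩ h)`. If `χ(1) = 1` and some `ā_{m₀}` is a
unit, `c` is determined by `h`. File `H58Red`. -/
theorem operators_on_reductions {F : Type*} [CommRing F] {S : Type*} [SetLike S ℂ]
    [SubringClass S ℂ] {R : S} (φ : R →+* F) {M : ℕ} [NeZero M] {k : ℤ} {χ : ℤ → F} {abar : ℕ → F}
    (hχ : ∀ d e : ℤ, IsCoprime d (M : ℤ) → IsCoprime e (M : ℤ) → χ (d * e) = χ d * χ e)
    (hk : 1 ≤ k) {h : CuspForm (Gamma1 M) k} {c : F} (hh : H58.Good φ χ abar h c) :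
    (∀ {h' : CuspForm (Gamma1 M) k} {c' : F}, H58.Good φ χ abar h' c' →
      H58.Good φ χ abar (h + h') (c + c')) ∧
    (∀ m : ℤ, H58.Good φ χ abar (m • h) (m * c)) ∧
    (∀ {e : ℤ}, IsCoprime e (M : ℤ) → H58.Good φ χ abar (H58.dia M k e h) (χ e * c)) ∧
    (∀ {p : ℕ} (hp : p.Prime) (hpM : ¬ p ∣ M) {lam : F},
      (∀ n, abar (p * n) + (p : F) ^ (k - 1).toNat * χ p *
        (if p ∣ n then abar (n / p) else 0) = lam * abar n) →
      H58.Good φ χ abar (H58.T1L M k p hp hpM h) (lam * c)) ∧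
    ∀ {m₀ : ℕ} {c' : F}, χ 1 = 1 → IsUnit (abar m₀) → H58.Good φ χ abar h c' → c = c' :=
  ⟨fun h' => hh.add h', fun m => hh.intSmul m, fun he => hh.diaOp hχ he,
    fun hp hpM _ hT => hh.heckeOp hχ hk hp hpM hT, fun h1 ha h' => hh.unique h1 ha h'⟩

/-- **All operators of the Hecke algebra.** Let `χ` be multiplicative and let `ā` satisfy the Hecke
relations of weight `k ≥ 1` with character `χ` and eigenvalues `λ_p`, for all `p ∤ M`. For every `t` in the
Hecke algebra `H58.hecke1 M k`, the `ℤ`-algebra generated by the `T_p` (`p ∤ M` prime) and the `⟨d⟩` (`d`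
prime to `M`), there is `c ∈ F` such that `t h` reduces to `c c'` times the eigensystem whenever `h`
reduces to `c'` times it. Induction, with the preceding theorem. File `H58Red`. -/
theorem action_on_reductions {F : Type*} [CommRing F] {S : Type*} [SetLike S ℂ]
    [SubringClass S ℂ] {R : S} (φ : R →+* F) {M : ℕ} [NeZero M] {k : ℤ} {χ : ℤ → F} {abar : ℕ → F}
    (hχ : ∀ d e : ℤ, IsCoprime d (M : ℤ) → IsCoprime e (M : ℤ) → χ (d * e) = χ d * χ e)
    (hk : 1 ≤ k) {lam : ℕ → F}
    (hT : ∀ p : ℕ, p.Prime → ¬ p ∣ M → ∀ n, abar (p * n) +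
      (p : F) ^ (k - 1).toNat * χ p * (if p ∣ n then abar (n / p) else 0) = lam p * abar n)
    (t : Module.End ℂ (CuspForm (Gamma1 M) k))
    (ht : t ∈ Algebra.adjoin ℤ
      ({t | ∃ (p : ℕ) (hp : p.Prime) (hpM : ¬ p ∣ M), t = H58.T1L M k p hp hpM} ∪
        {t | ∃ d : ℤ, IsCoprime d (M : ℤ) ∧ t = H58.dia M k d})) :
    ∃ c : F, ∀ (h : CuspForm (Gamma1 M) k) (c' : F), H58.Good φ χ abar h c' →
      H58.Good φ χ abar (t h) (c * c') :=
  H58.exists_eigen hχ hk hT t ht

/-- **The Hecke algebra acts on such forms by a character.** In the same situation, with `χ(1) = 1`: if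
some form `h₀` reduces to the eigensystem itself (`c = 1`), and some `ā_{m₀}` is a unit, then the numbers
`c` of `action_on_reductions` are determined by `t` and form a ring homomorphism `ψ` with `T_p ↦ λ_p` and
`⟨d⟩ ↦ χ(d)` on `H58.hecke1 M k` (the same algebra as `H50.hecke1 M k`). File `H58Red`. -/
theorem residual_character {F : Type*} [CommRing F] {S : Type*} [SetLike S ℂ] [SubringClass S ℂ]
    {R : S} (φ : R →+* F) {M : ℕ} [NeZero M] {k : ℤ} {χ : ℤ → F} {abar : ℕ → F} (hχ1 : χ 1 = 1)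
    {m₀ : ℕ} (ha1 : IsUnit (abar m₀))
    (hχ : ∀ d e : ℤ, IsCoprime d (M : ℤ) → IsCoprime e (M : ℤ) → χ (d * e) = χ d * χ e)
    (hk : 1 ≤ k) {lam : ℕ → F}
    (hT : ∀ p : ℕ, p.Prime → ¬ p ∣ M → ∀ n, abar (p * n) +
      (p : F) ^ (k - 1).toNat * χ p * (if p ∣ n then abar (n / p) else 0) = lam p * abar n)
    {h₀ : CuspForm (Gamma1 M) k} (h0 : H58.Good φ χ abar h₀ 1) :
    ∃ ψ : H58.hecke1 M k →+* F,
      (∀ (p : ℕ) (hp : p.Prime) (hpM : ¬ p ∣ M),
        ψ ⟨H58.T1L M k p hp hpM, H58.T1L_mem M k p hp hpM⟩ = lam p) ∧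
      (∀ (d : ℤ) (hd : IsCoprime d (M : ℤ)),
        ψ ⟨H58.dia M k d, H58.dia_mem M k hd⟩ = χ d) ∧
      ∀ t : H58.hecke1 M k, H58.Good φ χ abar (t.1 h₀) (ψ t) :=
  H58.exists_residual_char' hχ1 ha1 hχ hk hT h0

/-- **The product `f E`.** `H58.fE hNM hℓM f u hu` is the form `f E` of weight two on `Γ₁(M)`, `N ∣ M` and
`ℓ ∣ M`, where `E = H58.Et ℓ u hu` is the Eisenstein series of weight one on `Γ₁(ℓ)` congruent to `1`
(`GuideDeligneSerre.eisenstein_congruent_one`). If the coefficients of `f` reduce to `ā_n`, so do those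
of `f E`. File `H58WtOne`. -/
theorem product_reduces {N : ℕ} [NeZero N] {ℓ : ℕ} [Fact ℓ.Prime] {M : ℕ} [NeZero M]
    {F : Type*} [Field F] [CharP F ℓ] {S : Type*} [SetLike S ℂ] [SubringClass S ℂ] {R : S}
    (hR : ∀ z : ℂ, IsIntegral ℤ z → z ∈ R) (φ : R →+* F) (hℓ : ℓ ≠ 2) (hNM : N ∣ M) (hℓM : ℓ ∣ M)
    (f : CuspForm (Gamma1 N) 1) {abar : ℕ → F} (hf : ∀ n, H58.RedTo φ (qCoeff f n) (abar n))
    (u : ℤ) (hu : ¬ (ℓ : ℤ) ∣ u) (n : ℕ) :
    ⇑(H58.fE hNM hℓM f u hu) = ⇑f * ⇑(H58.Et ℓ u hu) ∧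
    H58.RedTo φ (qCoeff (H58.fE hNM hℓM f u hu) n) (abar n) :=
  ⟨rfl, H58.redTo_fE hR φ hℓ hNM hℓM f hf u hu n⟩

/-- **The character of weight two attached to a form of weight one.** Let `R` be a subring of `ℂ` which
contains the algebraic integers, `φ : R → k` a homomorphism to a field of characteristic `ℓ ≠ 2`, and
`g` a form of weight one on `Γ₁(N)` with nebentypus `ε`, with coefficients in `R`, one of them not in
the kernel of `φ`, and with eigenvalues `a_p`, `p ∤ M`. Then the Hecke algebra of `S_2(Γ₁(M))`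
(`H48.HAlg M`) has a character with `T_p ↦ φ(a_p)` and `⟨d⟩ ↦ φ(ε(d)) d⁻¹`. Proof: let `E` be the
Eisenstein series with `u = 1`. Then `⟨d⟩ (g E)` is a multiple of `g E'`, `E'` the series with `u = d`,
by a factor which reduces to `φ(ε(d)) d⁻¹`, and `E ≡ E' ≡ 1`; the Hecke relation of weight one with
`ε(p)` is the relation of weight two with `χ(p) = ε(p) p⁻¹`. Then `residual_character` gives the
character on `H58.hecke1 M 2` (`H58.weightOne_residual'`). Applied with `R` a valuation ring above `ℓ`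
and `g = c f` as in `scale`. Files `H58WtOne`, `H58WtOneH`. -/
theorem residual_character_of_weight_one {N : ℕ} [NeZero N] {ℓ : ℕ} [Fact ℓ.Prime] {M : ℕ}
    [NeZero M] {k : Type*} [Field k] [CharP k ℓ] {S : Type*} [SetLike S ℂ]
    [SubringClass S ℂ] {R : S} (hR : ∀ z : ℂ, IsIntegral ℤ z → z ∈ R) (φ : R →+* k)
    (hℓ : ℓ ≠ 2) (hNM : N ∣ M) (hℓM : ℓ ∣ M)
    (ε : DirichletCharacter ℂ N) (g : CuspForm (Gamma1 N) 1)
    (hint : ∀ n, qCoeff g n ∈ R) {m₀ : ℕ} (hm₀ : φ ⟨qCoeff g m₀, hint m₀⟩ ≠ 0)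
    (hε : ∀ γ : SL(2, ℤ), γ ∈ Gamma0 N → ⇑g ∣[(1 : ℤ)] γ = ε ((γ 1 1 : ℤ) : ZMod N) • ⇑g)
    (a : ℕ → ℂ) (ha : ∀ p : ℕ, p.Prime → ¬ p ∣ M → a p ∈ R)
    (hT : ∀ p : ℕ, p.Prime → ¬ p ∣ M → ∀ n : ℕ,
        qCoeff g (p * n) + ε (p : ZMod N) * (if p ∣ n then qCoeff g (n / p) else 0) =
          a p * qCoeff g n) :
    ∃ θ : H48.HAlg M →+* k,
      (∀ (p : ℕ) (hp : p.Prime) (hpM : ¬ p ∣ M), θ (H48.HAlg.T hp hpM) = φ ⟨a p, ha p hp hpM⟩) ∧
      ∀ (d : ℤ) (hd : IsCoprime d (M : ℤ)), ∃ h : ε (d : ZMod N) ∈ R,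
        θ (H48.HAlg.dia hd) = φ ⟨ε (d : ZMod N), h⟩ * (d : k)⁻¹ := by
  obtain ⟨θ, h1, h2⟩ := H58.exists_theta hR φ hℓ hNM hℓM ε g hint hm₀ hε a ha hT
  exact ⟨θ, h1, fun d hd => ⟨hR _ (H58.isIntegral_dirichlet ε _), h2 d hd⟩⟩

end Fermat.Agent.Guide.WeightOne
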