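import Fermat.Agent.H45FormFun

/-!
# Reader's guide: forms of weight two as functions with bounded poles

Every theorem of this file is proved by citing a theorem of the library; nothing here is used by any other
file. Editor: helper45. Companion of `GuideCusps`, `GuideLogForm` and `GuideDlog`. Notes: [134], [179] (good
functions, charts), [192] (`H90Deg`). All theorems are in the closures of S12, S15, S44, hence of S01, S03,
S09, S43, S45.

**What is proved** (`weight_two_form`). Let `F` be a modular form of weight two for `Γ₀(N)` whose expansion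
`X` at infinity has coefficients in an algebraically closed field `K` inside `ℂ`. Then `X = x · θ(j)`,
`θ = t d/dt`, with a function `x` of the function field of `X₀(N)` over `K`; and `ord_v(x) ≥ 1 - ord_v(j - c)`
at the places over a finite value `c` of `j`, `ord_v(x) ≥ - ord_v(j)` at the cusps. In other words: the
differential `F dt/t = x dj` is holomorphic outside the cusps and has at most simple poles at the cusps.

**Idea.** No analytic differentials and no ramification indices are used. Two forms of weight 12,
`F E₄ E₆` and `F⁶`, are divided by `Δ`; a quotient (weight 12)/`Δ` is a function `y` or `f` in the function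
field (it is holomorphic, invariant, and has expansions at all cusps), regular where `j` is finite, and with
`ord ≥ ord j` at the cusps. Since `θ(j) = - E₄² E₆ / Δ`, `j = E₄³/Δ`, `j - 1728 = E₆²/Δ`, one has
`x = - y / (j (j - 1728))` and `y⁶ = f j² (j - 1728)³`. Hence `6 ord x = ord f - 4 ord j - 3 ord (j - 1728)`,
which gives the bound at every finite place, elliptic or not (`-4/6 > -1`, `-3/6 > -1`).

Used for the divisor of a form modulo `p` (`H39Poles`, S44) and for logarithmic differentials (`H72F1cMod`,
`H98Diff`: S12, S15).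

Notation. `modularFunctionFieldFullC K N` is the field generated over `K` by the series `j(t^d)`, `d ∣ N`,
inside the Laurent series in `t`; `jF K N` is `j`. `IsConv F` says that the Laurent series `F` over `ℂ`
converges for `0 < |t| < 1`, `evalAt w F` is its value at `t = w`, `HasExpC z f F` that `F` is the expansion
of the function `f` in the chart `z`. For a series `x` over `K` the series `incl K x` is `x` with coefficients
in `ℂ`, and `ev K x` is the function on the upper half plane with the expansion `x`;
`qParam h τ = exp(2πi τ/h)`; `deltaInvL` is the expansion of `1/Δ`. `Good K N x` (helper24, `H24Ring`) means: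
the series `x` converges for `0 < |t| < 1` to a holomorphic function on the upper half plane, invariant under
`Γ₀(N)`, whose translates by `SL₂(ℤ)` have Laurent expansions in `exp(2πi τ/N)`.
-/

set_option autoImplicit false

noncomputable section

open UpperHalfPlane hiding I
open Complex MatrixGroups ModularGroup ModularCurve
open Fermat.Agent.H24 Fermat.Agent.H94 Fermat.Agent.H61 Fermat.Agent.H28
open CongruenceSubgroup AlgebraicCurve Filter Topology ModularForm EisensteinSeries
open scoped Manifold

namespace Fermat.Agent.Guide.WeightTwoFunctions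

open Fermat.Agent.H45.FF (Wt12)
open Function.Periodic (qParam)

/-! ## 1. Orders and bounds -/

/-- **Bounded near zero means no negative terms**: a Laurent series which converges for `0 < |w| < 1` and is
bounded near `0` has no terms of negative degree. File `H45FormFunA`. -/
theorem order_nonneg_of_bounded {F : LaurentSeries ℂ} (hF : IsConv F) {ε C : ℝ} (hε : 0 < ε)
    (hb : ∀ w : ℂ, w ≠ 0 → ‖w‖ < ε → ‖evalAt w F‖ ≤ C) : 0 ≤ F.order :=
  H45.FF.order_nonneg_of_bounded hF hε hb

/-- **Places over `j = ∞`**: for each such place `v` there is a matrix `γ` and an integer `m > 0` such that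
for every good `x` the order at `v` times `m` is the order of the expansion of `x ∘ γ` in `exp(2πi τ/N)`.
File `H45FormFunA`, from the theory of charts (`GuideCusps`). -/
theorem place_at_a_cusp {K : Type*} [Field K] [Algebra K ℂ] {N : ℕ} [NeZero N] [IsAlgClosed K]
    (v : Place K (modularFunctionFieldFullC K N)) (hj : v.ord (jF K N) < 0) :
    ∃ (γ : SL(2, ℤ)) (m : ℕ), 0 < m ∧ ∀ x : modularFunctionFieldFullC K N,
      Good K N (x : LaurentSeries K) → ∃ X : LaurentSeries ℂ,
        HasExpC (fun τ : ℍ => qParam (N : ℝ) τ) (fun τ => ev K (x : LaurentSeries K) (γ • τ)) X ∧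
          X.order = m * v.ord x :=
  H45.FF.cusp_chart v hj

/-- **Good functions are regular at the places where `j` is finite.** File `H45FormFunA`. -/
theorem regular_of_good {K : Type*} [Field K] [Algebra K ℂ] {N : ℕ} [NeZero N]
    (v : Place K (modularFunctionFieldFullC K N)) (hj : 0 ≤ v.ord (jF K N))
    (x : modularFunctionFieldFullC K N) (hx : Good K N (x : LaurentSeries K)) : 0 ≤ v.ord x :=
  H45.FF.ord_nonneg_of_good v hj x hx

/-! ## 2. Weight 12 divided by `Δ` -/

/-- **Functions of weight 12**: holomorphic, with `A(γ τ) = (c τ + d)¹² A(τ)` for `γ` in `Γ₀(N)`, and bounded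
at all cusps. File `H45FormFun`. -/
theorem wt12_iff (N : ℕ) (A : ℍ → ℂ) : Wt12 N A ↔ MDiff A ∧
    (∀ γ ∈ Gamma0 N, ∀ τ, A (γ • τ) = denom γ τ ^ 12 * A τ) ∧
      ∀ γ : SL(2, ℤ), IsBoundedAtImInfty fun τ => A (γ • τ) / denom γ τ ^ 12 :=
  ⟨fun h => ⟨h.hol, h.inv, h.bdd⟩, fun h => ⟨h.1, h.2.1, h.2.2⟩⟩

/-- **Bounds**: `t/Δ` is bounded at infinity, `t = exp(2πi τ)`; so `(A/Δ)(γ τ)` times
`exp(2πi τ/N)^N` is bounded at infinity for every `γ` in `SL₂(ℤ)`. File `H45FormFun`. -/
theorem bounds {N : ℕ} [NeZero N] {A : ℍ → ℂ} (hA : Wt12 N A) (γ : SL(2, ℤ)) :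
    (IsBoundedAtImInfty fun τ : ℍ => qParam (1 : ℝ) τ / ModularForm.discriminant τ) ∧
      IsBoundedAtImInfty fun τ : ℍ =>
        A (γ • τ) / ModularForm.discriminant (γ • τ) * qParam (N : ℝ) τ ^ N :=
  ⟨H45.FF.isBounded_q_div_disc, hA.bdd_div γ⟩

/-- **The series `1/Δ`** with coefficients in `K` represents the function `1/Δ`. File `H45FormFun`. -/
theorem inverse_discriminant {K : Type*} [Field K] [Algebra K ℂ] (τ : ℍ) :
    ev K (deltaInvL K) τ = (ModularForm.discriminant τ)⁻¹ :=
  H45.FF.ev_deltaInvL τ

/-- **Quotients by `Δ` are good**: if `A` has weight 12 and the expansion `a` has coefficients in `K`, then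
`a/Δ` is good and represents `A/Δ`. Therefore it belongs to the function field of `X₀(N)` (`H90Deg`). File
`H45FormFun`. -/
theorem quotient_is_good {K : Type*} [Field K] [Algebra K ℂ] {N : ℕ} [NeZero N] {A : ℍ → ℂ}
    (hA : Wt12 N A) {a : LaurentSeries K} (ha : IsConv (incl K a)) (hev : ev K a = A) :
    Good K N (a * deltaInvL K) ∧
      ∀ τ, ev K (a * deltaInvL K) τ = A τ / ModularForm.discriminant τ :=
  hA.good ha hev

/-- **Good series are modular functions**: they belong to the field generated by the `j(t^d)`, `d ∣ N`.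
(helper90, `H90Deg`: the degree of the field over `K(j)` is the index of `Γ₀(N)`.) -/
theorem mem_of_good {K : Type*} [Field K] [Algebra K ℂ] [IsAlgClosed K] {N : ℕ} [NeZero N]
    {x : LaurentSeries K} (hx : Good K N x) : x ∈ modularFunctionFieldFullC K N :=
  H90.mem_full_of_good hx

/-- **Poles at the cusps**: the order of `A/Δ` at a cusp is at least the order of `j` (which is negative).
File `H45FormFun`. -/
theorem order_at_cusps {K : Type*} [Field K] [Algebra K ℂ] {N : ℕ} [NeZero N] {A : ℍ → ℂ}
    [IsAlgClosed K] (hA : Wt12 N A) {a : LaurentSeries K} (ha : IsConv (incl K a))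
    (hev : ev K a = A) (x : modularFunctionFieldFullC K N)
    (hx : (x : LaurentSeries K) = a * deltaInvL K) (v : Place K (modularFunctionFieldFullC K N))
    (hj : v.ord (jF K N) < 0) : v.ord (jF K N) ≤ v.ord x :=
  hA.ord_le ha hev x hx v hj

/-! ## 3. Forms of weight two -/

/-- **Two functions of weight 12** from a form `F` of weight two: `F⁶` and `F E₄ E₆`. File `H45FormFun`. -/
theorem two_forms {N : ℕ} [NeZero N] (F : ModularForm (Gamma0 N) 2) :
    Wt12 N (fun τ => F τ ^ 6) ∧ Wt12 N (fun τ => F τ * E₄ τ * E₆ τ) :=
  ⟨H45.FF.wt12_pow F, H45.FF.wt12_mul F⟩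

/-- **Expansions**: the series with the coefficients of `F` represents `F`, and a series which represents a
function in this sense converges. File `H45FormFun`. -/
theorem expansion {N : ℕ} [NeZero N] (F : ModularForm (Gamma0 N) 2) {X : LaurentSeries ℂ}
    (hX : ∀ n : ℕ, X.coeff n = ModularFormClass.qCoeff F n) (hneg : ∀ n < (0 : ℤ), X.coeff n = 0) :
    IsConv X ∧ ∀ τ : ℍ, evalAt (qParam (1 : ℝ) τ) X = F τ :=
  ⟨H45.FF.isConv_of_hasExp (H45.FF.hasExp_form F hX hneg),
    H45.FF.evalAt_of_hasExp (H45.FF.hasExp_form F hX hneg)⟩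

/-- **Orders of `j - c`**: a constant has order zero; a place with `ord_v(j - c) > 0` is finite, and
`ord_v(j - c') = 0` for `c' ≠ c`; at a cusp `ord_v(j - c) ≤ ord_v(j)`. File `H45FormFun`. -/
theorem orders_of_j {K : Type*} [Field K] [Algebra K ℂ] {N : ℕ} [NeZero N]
    (v : Place K (modularFunctionFieldFullC K N)) (c : K) :
    v.ord (algebraMap K (modularFunctionFieldFullC K N) c) = 0 ∧
      (0 < v.ord (jF K N - algebraMap K _ c) → 0 ≤ v.ord (jF K N)) ∧
      (∀ c' : K, c' ≠ c → 0 < v.ord (jF K N - algebraMap K _ c) →
        v.ord (jF K N - algebraMap K _ c') = 0) ∧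
      (v.ord (jF K N) < 0 → v.ord (jF K N - algebraMap K _ c) ≤ v.ord (jF K N)) :=
  ⟨H45.FF.ord_const v c, H45.FF.ord_jF_nonneg v, fun _ hne h => H45.FF.ord_sub_of_ne v hne h,
    fun h => H45.FF.ord_sub_le v h c⟩

/-- **The theorem.** A form `F` of weight two with expansion `X` over `K` is `x θ(j)` with a function `x` of
`X₀(N)` such that (if `x ≠ 0`) `ord_v(x) ≥ -ord_v(j)` at the cusps and `ord_v(x) ≥ 1 - ord_v(j - c)` at the
places over `j = c`: the differential `x dj` is holomorphic outside the cusps and has at most simple poles at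
the cusps. File `H45FormFun`. -/
theorem weight_two_form {K : Type*} [Field K] [Algebra K ℂ] [IsAlgClosed K] {N : ℕ} [NeZero N]
    (F : ModularForm (Gamma0 N) 2) (X : LaurentSeries K)
    (hX : ∀ n : ℕ, algebraMap K ℂ (X.coeff n) = ModularFormClass.qCoeff F n)
    (hneg : ∀ n < (0 : ℤ), X.coeff n = 0) :
    ∃ x : modularFunctionFieldFullC K N,
      (x : LaurentSeries K) * theta (jqModC K) = X ∧
      (x ≠ 0 →
        (∀ v : Place K (modularFunctionFieldFullC K N), v.ord (jF K N) < 0 →
          -(v.ord (jF K N)) ≤ v.ord x) ∧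
        (∀ (v : Place K (modularFunctionFieldFullC K N)) (c : K),
          0 < v.ord (jF K N - algebraMap K _ c) →
            1 - v.ord (jF K N - algebraMap K _ c) ≤ v.ord x)) :=
  H45.FF.exists_function_of_form F X hX hneg

end Fermat.Agent.Guide.WeightTwoFunctions
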