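import Mathlib
import Fermat.Agent.H3RR_Special
import Fermat.Prelude.Def_AlgebraicCurve_BaseChangeGalois

/-!
# Degree zero class groups of curves over the algebraic closure of a finite field are torsion

`exists_nsmul_eq_zero`: if a function field `F / K` has a semilinear automorphism `t` ("Frobenius")
fixing a transcendental element such that every element of `K` is fixed by a power of `t` and every
nontrivial power of `t` has only finitely many fixed points on `K`, then `Pic0 K F` is a torsion
group.
-/

set_option autoImplicit false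
set_option linter.unusedSectionVars false

open AlgebraicCurve WithZero

namespace Fermat.Agent.H95.Tors

open Fermat.Agent.H3RR SemilinearAut

variable {K F : Type*} [Field K] [Field F] [Algebra K F] [IsAlgClosed K] [IsFF K F]

theorem lt_one_iff_ord_pos {v : Place K F} {f : F} (hf : f ≠ 0) :
    v.adicValuation f < 1 ↔ 0 < v.ord f := by
  rw [v.adicValuation_eq_exp_neg_ord hf, ← exp_zero, exp_lt_exp]
  omega

theorem finite_setOf_ord_pos {f : F} (hf : f ≠ 0) : {v : Place K F | 0 < v.ord f}.Finite :=
  (finite_support_ord (K := K) hf).subset fun v hv => by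
    rw [Function.mem_support]
    exact (ne_of_lt hv).symm

/-- every place has a value -/
theorem exists_value (x : F) (hx : x ≠ 0) (hx' : ∀ c : K, x - algebraMap K F c ≠ 0)
    (v : Place K F) : 0 < v.ord x⁻¹ ∨ ∃ c : K, 0 < v.ord (x - algebraMap K F c) := by
  rcases le_or_gt (v.adicValuation x) 1 with h | h
  · right
    obtain ⟨c, hc⟩ := exists_const_sub_lt_one v h
    exact ⟨c, (lt_one_iff_ord_pos (hx' c)).mp hc⟩
  · left
    rw [← lt_one_iff_ord_pos (inv_ne_zero hx), map_inv₀]
    exact inv_lt_one_of_one_lt₀ h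

theorem value_unique {x : F} (hx' : ∀ c : K, x - algebraMap K F c ≠ 0)
    {v : Place K F} {c d : K} (hc : 0 < v.ord (x - algebraMap K F c))
    (hd : 0 < v.ord (x - algebraMap K F d)) : c = d := by
  by_contra hne
  rw [← lt_one_iff_ord_pos (hx' _)] at hc hd
  have h3 : v.adicValuation (algebraMap K F (d - c)) < 1 := by
    have : algebraMap K F (d - c) = (x - algebraMap K F c) - (x - algebraMap K F d) := by
      rw [map_sub]; ring
    rw [this]
    exact lt_of_le_of_lt (Valuation.map_sub _ _ _) (max_lt hc hd)
  rw [adicValuation_algebraMap v (sub_ne_zero.mpr (Ne.symm hne))] at h3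
  exact lt_irrefl _ h3

section Frob

variable (t : SemilinearAut K F) {x : F} (htx : t • x = x)

include htx in
theorem pow_smul_x (m : ℕ) : t ^ m • x = x := by
  induction m with
  | zero => simp
  | succ m ih => rw [pow_succ, mul_smul, htx, ih]

include htx in
theorem pow_smul_sub (m : ℕ) (c : K) :
    t ^ m • (x - algebraMap K F c) = x - algebraMap K F (baseAut (t ^ m) c) := by
  rw [smul_sub, pow_smul_x t htx, SemilinearAut.smul_algebraMap]

/-- an element of a finite set stable under `g` is fixed by a power of `g` -/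
theorem exists_pow_smul_eq {G X : Type*} [Group G] [MulAction G X] (g : G) (S : Set X)
    (hS : S.Finite) (hg : ∀ v ∈ S, g • v ∈ S) (v : X) (hv : v ∈ S) :
    ∃ n, 0 < n ∧ g ^ n • v = v := by
  have hmem : ∀ n : ℕ, g ^ n • v ∈ S := by
    intro n
    induction n with
    | zero => simpa using hv
    | succ n ih => rw [pow_succ', mul_smul]; exact hg _ ih
  have : Finite S := hS
  obtain ⟨a, b, hab, h⟩ := Finite.exists_ne_map_eq_of_infinite (fun n : ℕ => (⟨_, hmem n⟩ : S))
  have h' : g ^ a • v = g ^ b • v := congrArg Subtype.val h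
  rcases lt_or_gt_of_ne hab with hlt | hlt
  · refine ⟨b - a, by omega, ?_⟩
    have : g ^ b = g ^ a * g ^ (b - a) := by rw [← pow_add]; congr 1; omega
    rw [this, mul_smul] at h'
    exact (MulAction.injective _ h').symm
  · refine ⟨a - b, by omega, ?_⟩
    have : g ^ a = g ^ b * g ^ (a - b) := by rw [← pow_add]; congr 1; omega
    rw [this, mul_smul] at h'
    exact MulAction.injective _ h'

theorem ord_pow_smul (m : ℕ) (v : Place K F) (f : F) : (t ^ m • v).ord (t ^ m • f) = v.ord f :=
  ord_smul _ _ _

include htx in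
/-- every place is fixed by a power of Frobenius -/
theorem exists_pow_smul_place (hx : Transcendental K x)
    (hfix : ∀ c : K, ∃ m, 0 < m ∧ baseAut (t ^ m) c = c) (v : Place K F) :
    ∃ m, 0 < m ∧ t ^ m • v = v := by
  have hx0 : x ≠ 0 := transcendental_ne_zero hx
  have hx' : ∀ c : K, x - algebraMap K F c ≠ 0 := fun c =>
    transcendental_ne_zero (transcendental_sub_const hx c)
  rcases exists_value x hx0 hx' v with h | ⟨c, hc⟩
  · obtain ⟨n, hn, h⟩ := exists_pow_smul_eq t {v : Place K F | 0 < v.ord x⁻¹}
      (finite_setOf_ord_pos (inv_ne_zero hx0)) (fun w hw => by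
        have := ord_smul t w x⁻¹
        rw [smul_inv'', htx] at this
        rw [Set.mem_ofPred_eq, this]
        exact hw) v h
    exact ⟨n, hn, h⟩
  · obtain ⟨m, hm, hmc⟩ := hfix c
    obtain ⟨n, hn, h⟩ := exists_pow_smul_eq (t ^ m)
      {v : Place K F | 0 < v.ord (x - algebraMap K F c)}
      (finite_setOf_ord_pos (hx' c)) (fun w hw => by
        have := ord_smul (t ^ m) w (x - algebraMap K F c)
        rw [pow_smul_sub t htx, hmc] at this
        rw [Set.mem_ofPred_eq, this]
        exact hw) v hc
    exact ⟨m * n, Nat.mul_pos hm hn, by rw [pow_mul]; exact h⟩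

include htx in
/-- finitely many places are fixed by a given power of Frobenius -/
theorem finite_fixed_places (hx : Transcendental K x) (m : ℕ)
    (hfin : {c : K | baseAut (t ^ m) c = c}.Finite) :
    {v : Place K F | t ^ m • v = v}.Finite := by
  have hx0 : x ≠ 0 := transcendental_ne_zero hx
  have hx' : ∀ c : K, x - algebraMap K F c ≠ 0 := fun c =>
    transcendental_ne_zero (transcendental_sub_const hx c)
  refine ((finite_setOf_ord_pos (K := K) (inv_ne_zero hx0)).union
    (hfin.biUnion fun c _ => finite_setOf_ord_pos (hx' c))).subset ?_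
  intro v hv
  rcases exists_value x hx0 hx' v with h | ⟨c, hc⟩
  · exact Or.inl h
  · right
    rw [Set.mem_iUnion₂]
    refine ⟨c, ?_, hc⟩
    have := ord_smul (t ^ m) v (x - algebraMap K F c)
    rw [pow_smul_sub t htx, show t ^ m • v = v from hv] at this
    exact value_unique hx' (by rw [this]; exact hc) hc

theorem card_support_le {E : Divisor K F} (hE : 0 ≤ E) : (E.support.card : ℤ) ≤ E.degree := by
  rw [degree_eq_sum, Finset.card_eq_sum_ones, Nat.cast_sum]
  refine Finset.sum_le_sum fun v hv => ?_
  have h1 := hE v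
  have h2 := Finsupp.mem_support_iff.mp hv
  simp only [Finsupp.coe_zero, Pi.zero_apply] at h1
  push_cast
  omega

theorem apply_le_degree {E : Divisor K F} (hE : 0 ≤ E) (v : Place K F) : E v ≤ E.degree := by
  by_cases hv : v ∈ E.support
  · rw [degree_eq_sum]
    exact Finset.single_le_sum (f := fun v => E v) (fun w _ => hE w) hv
  · rw [Finsupp.notMem_support_iff.mp hv]
    have := card_support_le hE
    have h0 : (0 : ℤ) ≤ E.support.card := Int.natCast_nonneg _
    omega

/-- the period of a point in the support of an invariant effective divisor divides `g!` -/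
theorem pow_factorial_smul {G : SemilinearAut K F} {E : Divisor K F} (hE : 0 ≤ E)
    (hGE : G • E = E) {g : ℕ} (hg : E.degree ≤ g) {v : Place K F} (hv : v ∈ E.support) :
    G ^ (g.factorial) • v = v := by
  have hmem : ∀ n : ℕ, G ^ n • v ∈ E.support := by
    intro n
    induction n with
    | zero => simpa using hv
    | succ n ih =>
      rw [pow_succ', mul_smul, Finsupp.mem_support_iff]
      rw [← hGE, divisor_smul_apply_smul]
      exact Finsupp.mem_support_iff.mp ih
  have hcard : E.support.card < (Finset.range (g + 1)).card := by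
    have := card_support_le hE
    rw [Finset.card_range]
    omega
  obtain ⟨a, ha, b, hb, hab, h⟩ := Finset.exists_ne_map_eq_of_card_lt_of_maps_to hcard
    (f := fun n => G ^ n • v) (fun n _ => hmem n)
  have hdvd : ∀ n, 0 < n → n ≤ g → G ^ n • v = v → G ^ (g.factorial) • v = v := by
    intro n hn hng h
    obtain ⟨m, hm⟩ := Nat.dvd_factorial hn hng
    rw [hm, pow_mul]
    clear hm
    induction m with
    | zero => simp
    | succ m ih => rw [pow_succ, mul_smul, h, ih]
  rw [Finset.mem_range] at ha hb
  rcases lt_or_gt_of_ne hab with hlt | hlt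
  · refine hdvd (b - a) (by omega) (by omega) ?_
    have : G ^ b = G ^ a * G ^ (b - a) := by rw [← pow_add]; congr 1; omega
    rw [this, mul_smul] at h
    exact (MulAction.injective _ h).symm
  · refine hdvd (a - b) (by omega) (by omega) ?_
    have : G ^ a = G ^ b * G ^ (a - b) := by rw [← pow_add]; congr 1; omega
    rw [this, mul_smul] at h
    exact MulAction.injective _ h

include htx in
/-- finitely many effective divisors of bounded degree are fixed by a given power of Frobenius -/
theorem finite_fixed_divisors (hx : Transcendental K x)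
    (hfin : ∀ m, 0 < m → {c : K | baseAut (t ^ m) c = c}.Finite) (m : ℕ) (hm : 0 < m) (g : ℕ) :
    {E : Divisor K F | 0 ≤ E ∧ E.degree ≤ g ∧ t ^ m • E = E}.Finite := by
  classical
  have hS := finite_fixed_places t htx hx (m * g.factorial)
    (hfin _ (Nat.mul_pos hm g.factorial_pos))
  set S : Finset (Place K F) := hS.toFinset with hSdef
  refine (Set.finite_Icc (0 : Divisor K F) (∑ v ∈ S, Finsupp.single v (g : ℤ))).subset ?_
  rintro E ⟨hE, hEg, hfix⟩
  refine ⟨hE, fun v => ?_⟩
  rw [Finsupp.finsetSum_apply]
  by_cases hv : v ∈ E.support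
  · have hvS : v ∈ S := by
      rw [hSdef, Set.Finite.mem_toFinset, Set.mem_ofPred_eq, pow_mul]
      exact pow_factorial_smul hE hfix hEg hv
    rw [Finset.sum_eq_single v (fun w _ hw => by rw [Finsupp.single_apply, if_neg hw])
      (fun h => absurd hvS h), Finsupp.single_eq_same]
    exact (apply_le_degree hE v).trans hEg
  · rw [Finsupp.notMem_support_iff.mp hv]
    refine Finset.sum_nonneg fun w _ => ?_
    rw [Finsupp.single_apply]
    split_ifs
    · exact Int.natCast_nonneg g
    · exact le_rfl

theorem smul_divOf (G : SemilinearAut K F) {f : F} (hf : f ≠ 0) :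
    G • (divOf f : Divisor K F) = divOf (G • f) := by
  have hGf : G • f ≠ 0 := by simpa using hf
  ext w
  rw [divisor_smul_apply, divOf_apply hf, divOf_apply hGf]
  have h := ord_smul G (G⁻¹ • w) f
  rw [smul_inv_smul] at h
  exact h.symm

theorem smul_mem_L (G : SemilinearAut K F) {f : F} {D : Divisor K F}
    (hf : f ∈ riemannRochSpace D) : G • f ∈ riemannRochSpace (G • D) := by
  rw [mem_riemannRochSpace_iff] at hf ⊢
  intro w
  rcases hf (G⁻¹ • w) with h | h
  · left; rw [h, smul_zero]
  · right
    rw [divisor_smul_apply]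
    have h2 := ord_smul G (G⁻¹ • w) f
    rw [smul_inv_smul] at h2
    rw [h2]
    exact h

theorem divOf_smul_const {f : F} (hf : f ≠ 0) {c : K} (hc : c ≠ 0) :
    (divOf (c • f) : Divisor K F) = divOf f := by
  have hcf : c • f ≠ 0 := smul_ne_zero hc hf
  ext v
  rw [divOf_apply hf, divOf_apply hcf]
  have h1 : v.adicValuation (c • f) = v.adicValuation f := by
    rw [Algebra.smul_def, map_mul, adicValuation_algebraMap v hc, one_mul]
  rw [v.adicValuation_eq_exp_neg_ord hf, v.adicValuation_eq_exp_neg_ord hcf, exp_inj] at h1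
  omega

/-- the unique effective divisor in an invariant class with one-dimensional space of sections is
invariant -/
theorem smul_eq_of_ell_one {G : SemilinearAut K F} {D : Divisor K F} (hD : G • D = D)
    (h1 : ell D = 1) {f : F} (hf : f ≠ 0) (hfL : f ∈ riemannRochSpace D) :
    G • (divOf f : Divisor K F) = divOf f := by
  have hGL : G • f ∈ riemannRochSpace D := by
    have := smul_mem_L G hfL
    rwa [hD] at this
  obtain ⟨c, hc⟩ := (finrank_eq_one_iff_of_nonzero'
    (⟨f, hfL⟩ : riemannRochSpace D) (fun h => hf (congrArg Subtype.val h))).mp h1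
      ⟨G • f, hGL⟩
  have hc' : c • f = G • f := congrArg Subtype.val hc
  have hc0 : c ≠ 0 := by
    rintro rfl
    rw [zero_smul] at hc'
    have : G • f ≠ 0 := by simpa using hf
    exact this hc'.symm
  rw [smul_divOf G hf, ← hc', divOf_smul_const hf hc0]

include htx in
/-- the classes of degree zero over the algebraic closure of a finite field are torsion:
divisor form -/
theorem exists_nsmul_divOf (hx : Transcendental K x)
    (hfix : ∀ c : K, ∃ m, 0 < m ∧ baseAut (t ^ m) c = c)
    (hfin : ∀ m, 0 < m → {c : K | baseAut (t ^ m) c = c}.Finite)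
    (D : Divisor K F) (hD : D.degree = 0) :
    ∃ n : ℕ, n ≠ 0 ∧ ∃ f : F, f ≠ 0 ∧ n • D = divOf f := by
  classical
  obtain ⟨P₀⟩ := exists_place K F
  -- a power of Frobenius fixing `D` and `P₀`
  have hper : ∀ S : Finset (Place K F), ∃ m, 0 < m ∧ ∀ v ∈ S, t ^ m • v = v := by
    intro S
    induction S using Finset.induction with
    | empty => exact ⟨1, one_pos, fun v hv => absurd hv (Finset.notMem_empty v)⟩
    | insert w S hw ih =>
      obtain ⟨m, hm, hmS⟩ := ih
      obtain ⟨n, hn, hnw⟩ := exists_pow_smul_place t htx hx hfix w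
      have aux : ∀ (G : SemilinearAut K F) (v : Place K F), G • v = v → ∀ k : ℕ,
          G ^ k • v = v := by
        intro G v h k
        induction k with
        | zero => simp
        | succ k ih => rw [pow_succ, mul_smul, h, ih]
      refine ⟨m * n, Nat.mul_pos hm hn, fun v hv => ?_⟩
      rcases Finset.mem_insert.mp hv with rfl | hv
      · rw [mul_comm, pow_mul]; exact aux _ _ hnw _
      · rw [pow_mul]; exact aux _ _ (hmS v hv) _
  obtain ⟨m, hm, hmS⟩ := hper (insert P₀ D.support)
  set G := t ^ m with hG
  have hGP : G • P₀ = P₀ := hmS _ (Finset.mem_insert_self _ _)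
  have hGD : G • D = D := by
    rw [divisor_smul_def]
    conv_rhs => rw [← Finsupp.mapDomain_id (v := D)]
    exact Finsupp.mapDomain_congr fun v hv => hmS v (Finset.mem_insert_of_mem hv)
  set g := genusFF K F with hg
  let Di : ℕ → ℕ → Divisor K F := fun i n => i • D + Finsupp.single P₀ (n : ℤ)
  have hdeg : ∀ i n, (Di i n).degree = n := by
    intro i n
    show (i • D + Finsupp.single P₀ (n : ℤ)).degree = n
    rw [map_add, map_nsmul, hD, Divisor.degree_single, deg_eq_one]
    simp
  have hex : ∀ i, ∃ n, 0 < ell (Di i n) := fun i => ⟨g, by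
    have := riemann_inequality (Di i g)
    rw [hdeg] at this
    omega⟩
  let n : ℕ → ℕ := fun i => Nat.find (hex i)
  have hn : ∀ i, 0 < ell (Di i (n i)) := fun i => Nat.find_spec (hex i)
  have hng : ∀ i, n i ≤ g := fun i => Nat.find_min' (hex i) (by
    have := riemann_inequality (Di i g)
    rw [hdeg] at this
    omega)
  have hn1 : ∀ i, ell (Di i (n i)) = 1 := by
    intro i
    have h1 := ell_le_sub_add_one (Di i (n i)) P₀
    have h2 : ell (Di i (n i) - Finsupp.single P₀ 1) = 0 := by
      rcases Nat.eq_zero_or_pos (n i) with h0 | h0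
      · apply ell_eq_zero_of_degree_neg
        rw [map_sub, hdeg, Divisor.degree_single, deg_eq_one, h0]
        norm_num
      · have h3 : Di i (n i) - Finsupp.single P₀ 1 = Di i (n i - 1) := by
          show i • D + Finsupp.single P₀ ((n i : ℕ) : ℤ) - Finsupp.single P₀ 1 =
            i • D + Finsupp.single P₀ ((n i - 1 : ℕ) : ℤ)
          rw [Nat.cast_sub h0, add_sub_assoc, ← Finsupp.single_sub, Nat.cast_one]
        rw [h3]
        exact Nat.eq_zero_of_not_pos (Nat.find_min (hex i) (by
          show n i - 1 < n i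
          omega))
    have := hn i
    omega
  choose f hf hfL using fun i => exists_mem_L_of_ell_pos (hn i)
  let E : ℕ → Divisor K F := fun i => Di i (n i) + divOf (f i)
  have hE0 : ∀ i, 0 ≤ E i := fun i =>
    le_add_divOf_of_mem (D := 0) (hf i) (by rw [sub_zero]; exact hfL i)
  have hEdeg : ∀ i, (E i).degree = n i := by
    intro i
    show (Di i (n i) + divOf (f i)).degree = (n i : ℤ)
    rw [map_add, hdeg, degree_divOf (hf i), add_zero]
  have hGDi : ∀ i, G • Di i (n i) = Di i (n i) := by
    intro i
    show G • (i • D + Finsupp.single P₀ ((n i : ℕ) : ℤ)) = _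
    rw [smul_add, smul_single, hGP, smul_comm, hGD]
  have hGE : ∀ i, G • E i = E i := by
    intro i
    show G • (Di i (n i) + divOf (f i)) = _
    rw [smul_add, hGDi, smul_eq_of_ell_one (hGDi i) (hn1 i) (hf i) (hfL i)]
  have hfinE := finite_fixed_divisors t htx hx hfin m hm g
  have : Finite {E : Divisor K F | 0 ≤ E ∧ E.degree ≤ g ∧ t ^ m • E = E} := hfinE
  obtain ⟨a, b, hab, h⟩ := Finite.exists_ne_map_eq_of_infinite
    (fun i : ℕ => (⟨E i, hE0 i, by rw [hEdeg]; exact_mod_cast hng i, hGE i⟩ :
      {E : Divisor K F | 0 ≤ E ∧ E.degree ≤ g ∧ t ^ m • E = E}))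
  have hEab : E a = E b := congrArg Subtype.val h
  have hnab : n a = n b := by
    have h1 := hEdeg a
    rw [hEab, hEdeg b] at h1
    exact_mod_cast h1.symm
  have key : ∀ a b : ℕ, a < b → E a = E b → n a = n b →
      ∃ n : ℕ, n ≠ 0 ∧ ∃ f : F, f ≠ 0 ∧ n • D = divOf f := by
    intro a b hlt hEab hnab
    refine ⟨b - a, by omega, f a * (f b)⁻¹, mul_ne_zero (hf a) (inv_ne_zero (hf b)), ?_⟩
    rw [divOf_mul (hf a) (inv_ne_zero (hf b)), divOf_inv (hf b)]
    have h1 : a • D + Finsupp.single P₀ ((n a : ℕ) : ℤ) + divOf (f a) =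
        b • D + Finsupp.single P₀ ((n b : ℕ) : ℤ) + divOf (f b) := hEab
    rw [hnab] at h1
    have h2 : b • D = a • D + (b - a) • D := by rw [← add_smul]; congr 1; omega
    rw [h2] at h1
    have h3 : (b - a) • D = (a • D + Finsupp.single P₀ ((n b : ℕ) : ℤ) + divOf (f a)) -
        (a • D + Finsupp.single P₀ ((n b : ℕ) : ℤ)) - divOf (f b) := by
      rw [h1]; abel
    rw [h3]; abel
  rcases lt_or_gt_of_ne hab with hlt | hlt
  · exact key a b hlt hEab hnab
  · exact key b a hlt hEab.symm hnab.symm

include htx in
/-- `Pic0` is a torsion group -/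
theorem exists_nsmul_eq_zero (hx : Transcendental K x)
    (hfix : ∀ c : K, ∃ m, 0 < m ∧ baseAut (t ^ m) c = c)
    (hfin : ∀ m, 0 < m → {c : K | baseAut (t ^ m) c = c}.Finite) (z : Pic0 K F) :
    ∃ n : ℕ, n ≠ 0 ∧ n • z = 0 := by
  obtain ⟨D, rfl⟩ := QuotientAddGroup.mk_surjective z
  obtain ⟨n, hn, f, hf, h⟩ := exists_nsmul_divOf t htx hx hfix hfin D.1
    ((Divisor.mem_degZero).mp D.2)
  refine ⟨n, hn, ?_⟩
  have h1 : (n • (QuotientAddGroup.mk D : Pic0 K F)) = QuotientAddGroup.mk (n • D) := rfl
  rw [h1]
  refine (QuotientAddGroup.eq_zero_iff _).mpr ?_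
  rw [AddSubgroup.mem_addSubgroupOf]
  refine ⟨f, hf, fun v => ?_⟩
  have h2 : ((n • D : Divisor.degZero) : Divisor K F) = n • (D : Divisor K F) := rfl
  rw [h2, h, divOf_apply hf]

end Frob

end Fermat.Agent.H95.Tors
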