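import Mathlib
import Fermat.Agent.H15Defs
import Fermat.Agent.H95TorsFin
import Fermat.Agent.H3RR_Bridge
import Fermat.Agent.H60S37
import Fermat.Agent.H42Inputs
import Fermat.Agent.H1Inertia

/-!
# The reduction of `J₀(N)` at a good place is a torsion group (MZ-J3)
-/

set_option autoImplicit false

noncomputable section

open AlgebraicCurve ModularCurve

namespace Fermat.Agent.H95

/-- `J₀(N)` over an algebraic closure of a finite field is a torsion group. -/
theorem jZeroC_torsion (k : Type*) [Field k] [IsAlgClosed k] (ℓ : ℕ) (hℓ : ℓ.Prime)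
    (τ : k ≃+* k) (hτ : ∀ x, τ x = x ^ ℓ)
    (hroot : ∀ x : k, x ≠ 0 → ∃ n, 0 < n ∧ Nat.Coprime ℓ n ∧ x ^ n = 1) (N : ℕ)
    [H94.FunField k (modularFunctionFieldFullC k N)] (z : JZeroC k N) :
    ∃ m : ℕ, m ≠ 0 ∧ m • z = 0 := by
  set t := H60.coeffAut N τ with ht
  have hbase : ∀ (m : ℕ) (c : k), SemilinearAut.baseAut (t ^ m) c = c ^ (ℓ ^ m) := by
    intro m
    induction m with
    | zero => intro c; simp
    | succ m ih =>
      intro c
      rw [pow_succ, SemilinearAut.baseAut_mul]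
      show SemilinearAut.baseAut (t ^ m) (τ c) = _
      rw [ih, hτ, ← pow_mul, pow_succ, mul_comm ℓ]
  refine Tors.exists_nsmul_eq_zero t
    (x := (⟨jqModC k, jqModC_mem_full k N⟩ : modularFunctionFieldFullC k N)) ?_
    (H42.transcendental_jFull k N) ?_ ?_ z
  · refine Subtype.ext ?_
    rw [H60.coe_coeffAut_smul]
    exact coeffMap_jqModC _
  · intro c
    rcases eq_or_ne c 0 with rfl | hc
    · exact ⟨1, one_pos, map_zero _⟩
    · obtain ⟨n, hn, hcop, h1⟩ := hroot c hc
      refine ⟨n.totient, Nat.totient_pos.mpr hn, ?_⟩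
      rw [hbase]
      have h2 : ℓ ^ n.totient ≡ 1 [MOD n] := Nat.ModEq.pow_totient hcop
      have h3 : 1 ≤ ℓ ^ n.totient := Nat.one_le_pow _ _ hℓ.pos
      obtain ⟨d, hd⟩ := (Nat.modEq_iff_dvd' h3).mp h2.symm
      have h4 : ℓ ^ n.totient = n * d + 1 := by omega
      rw [h4, pow_succ, pow_mul, h1, one_pow, one_mul]
  · intro m hm
    have hlt : 1 < ℓ ^ m := Nat.one_lt_pow hm.ne' hℓ.one_lt
    have hne : (Polynomial.X ^ (ℓ ^ m) - Polynomial.X : Polynomial k) ≠ 0 :=
      FiniteField.X_pow_card_sub_X_ne_zero k hlt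
    refine ((Polynomial.X ^ (ℓ ^ m) - Polynomial.X : Polynomial k).rootSet_finite k).subset ?_
    intro c hc
    rw [Set.mem_ofPred_eq, hbase] at hc
    rw [Polynomial.mem_rootSet]
    refine ⟨hne, ?_⟩
    simp [hc]

set_option synthInstance.maxHeartbeats 400000 in
/-- **MZ-J3**: the reduction is a torsion group -/
theorem torsRed : H15.T_torsRed := by
  intro N _ ℓ hℓ hℓN A hA x
  have hF := H42.funField_res hℓ hA hℓN
  have hk : IsAlgClosed (IsLocalRing.ResidueField A) := H18.isAlgClosed_residueField A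
  have : Fact ℓ.Prime := ⟨hℓ⟩
  obtain ⟨τ, hτ⟩ := H60.exists_frobAut hℓ hA
  have halg : @Algebra.IsAlgebraic ℚ (AlgebraicClosure ℚ) _ _ DivisionRing.toRatAlgebra := by
    have h1 : @Algebra.IsAlgebraic ℚ (AlgebraicClosure ℚ) _ _
      (AlgebraicClosure.instAlgebra (k := ℚ)) := AlgebraicClosure.isAlgebraic ℚ
    convert h1
    exact Subsingleton.elim _ _
  obtain ⟨m, hm, h⟩ := jZeroC_torsion (IsLocalRing.ResidueField A) ℓ hℓ τ hτ
    (fun x hx => H1.exists_pow_eq_one_residue A hA (IsLocalRing.residue A)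
      IsLocalRing.residue_surjective x hx) N (reductionModL A N x)
  refine ⟨m, hm, ?_⟩
  show reductionModL A N (m • x) = 0
  rw [map_nsmul]
  exact h

end Fermat.Agent.H95
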