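import Mathlib

/-!
# S27: definitions shared by the zeta-function route (helper95)

* `IsWeight K wt` : `wt : B → WithBot ℕ` is "pole order at the unique place at infinity".
* `wts`, `genus`, `cdeg`, `nset`.
* `IsFrob` : semilinear Frobenius with a fixed basis.
* `ZetaData` : abstract package from which the torsion count follows.
* `Shape`, `tmul`, `IsTable`, `IsModel` : multiplication tables.
* `FO` : uniformly first order predicates.
-/

set_option autoImplicit false

namespace Fermat.Agent.H95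

/-! ### Weights -/

/-- `wt f` = pole order of `f` at the unique (rational) place at infinity. -/
structure IsWeight (K : Type*) {B : Type*} [Field K] [CommRing B] [Algebra K B]
    (wt : B → WithBot ℕ) : Prop where
  eq_bot_iff : ∀ f, wt f = ⊥ ↔ f = 0
  mul : ∀ f g, wt (f * g) = wt f + wt g
  add_le : ∀ f g, wt (f + g) ≤ max (wt f) (wt g)
  algebraMap : ∀ c : K, c ≠ 0 → wt (algebraMap K B c) = 0
  exists_sub_lt : ∀ f g, f ≠ 0 → wt f = wt g → ∃ c : K, wt (f - c • g) < wt f
  finite_gaps : {n : ℕ | ∀ f, wt f ≠ (n : WithBot ℕ)}.Finite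

/-- The set of weights of the nonzero elements of `V`. -/
def wts {B : Type*} (wt : B → WithBot ℕ) (V : Set B) : Set ℕ :=
  {n | ∃ f ∈ V, wt f = (n : WithBot ℕ)}

/-- The number of gaps. -/
noncomputable def genus {B : Type*} (wt : B → WithBot ℕ) : ℕ :=
  (wts wt Set.univ)ᶜ.ncard

/-- The colength of an ideal. -/
noncomputable def cdeg (K : Type*) {B : Type*} [Field K] [CommRing B] [Algebra K B]
    (J : Ideal B) : ℕ :=
  Module.finrank K (B ⧸ J)

/-- Normalised set of weights of an ideal; it only depends on the ideal class. -/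
def nset (K : Type*) {B : Type*} [Field K] [CommRing B] [Algebra K B]
    (wt : B → WithBot ℕ) (J : Ideal B) : Set ℕ :=
  {n | n + cdeg K J ∈ wts wt (J : Set B)}

/-- `φ` is a `q`-power Frobenius on the coefficients and there are `φ`-fixed elements of every
possible weight. -/
structure IsFrob (K : Type*) {B : Type*} [Field K] [CommRing B] [Algebra K B] (q : ℕ)
    (wt : B → WithBot ℕ) (φ : B ≃+* B) : Prop where
  map_smul : ∀ (c : K) (f : B), φ (c • f) = c ^ q • φ f
  exists_fixed : ∀ n ∈ wts wt Set.univ, ∃ e : B, wt e = (n : WithBot ℕ) ∧ φ e = e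

/-! ### Zeta data -/

/-- Abstract data: `G` = class group, `X` = points of the affine curve, `φ, σ` = Frobenius,
`S κ` = normalised set of weights of an ideal in the class `κ`. -/
structure ZetaData (G : Type*) [CommGroup G] (X : Type*) where
  φ : MulAut G
  σ : Equiv.Perm X
  cl : X → G
  cl_σ : ∀ x, cl (σ x) = φ (cl x)
  g : ℕ
  q : ℕ
  one_lt_q : 1 < q
  S : G → Set ℕ
  fix_finite : ∀ m, 0 < m → {x | (σ ^ m) x = x}.Finite
  cls_finite : ∀ m, 0 < m → {κ | (φ ^ m) κ = κ}.Finite
  exists_fix : ∀ κ, ∃ m, 0 < m ∧ (φ ^ m) κ = κ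
  S_φ : ∀ κ, S (φ κ) = S κ
  compl_finite : ∀ κ, (S κ)ᶜ.Finite
  compl_ncard : ∀ κ, (S κ)ᶜ.ncard = g
  zero_mem_iff : ∀ κ, 0 ∈ S κ ↔ κ = 1
  mem_of_le : ∀ κ n, 2 * g ≤ n → n ∈ S κ
  exists_unique : ∃! κ, ∀ n ∈ S κ, n + 1 ≠ 2 * g
  count : ∀ m, 0 < m → ∀ κ, (φ ^ m) κ = κ → ∀ n,
    Nat.card {D : X →₀ ℕ // (∀ x, D ((σ ^ m) x) = D x) ∧ (D.sum fun _ k => k) = n ∧
        (D.prod fun x k => cl x ^ k) = κ} =
      (open Classical in if n ∈ S κ⁻¹ then (q ^ m) ^ (S κ⁻¹ ∩ Set.Iio n).ncard else 0)

/-! ### Multiplication tables -/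

/-- Shape of a table: `a` generators with weights `w`. -/
structure Shape where
  a : ℕ
  [ne : NeZero a]
  w : Fin a → ℕ
  w_zero : w 0 = 0
  w_inj : ∀ i j, w i ≡ w j [MOD a] → i = j

attribute [instance] Shape.ne

namespace Shape

variable (s : Shape)

/-- bound for the degrees of structure polynomials -/
def N : ℕ := 2 * (∑ i, s.w i) + 1

/-- index set of the coefficients of a table -/
abbrev Idx : Type := Fin s.a × Fin s.a × Fin s.a × Fin s.N

/-- the genus attached to the shape: number of gaps of `⋃ (w i + a ℕ)` -/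
def g : ℕ := ∑ i, s.w i / s.a

open Polynomial in
/-- structure polynomial `C_{ij}^k` -/
noncomputable def C {R : Type*} [CommRing R] (c : s.Idx → R) (i j k : Fin s.a) : R[X] :=
  ∑ e : Fin s.N, Polynomial.C (c (i, j, k, e)) * Polynomial.X ^ (e : ℕ)

open Polynomial in
/-- multiplication of coordinate vectors -/
noncomputable def tmul {R : Type*} [CommRing R] (c : s.Idx → R) (u v : Fin s.a → R[X]) :
    Fin s.a → R[X] :=
  fun k => ∑ i, ∑ j, u i * v j * s.C c i j k

open Polynomial in
/-- validity of a table over a field -/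
structure IsTable {K : Type*} [Field K] (c : s.Idx → K) : Prop where
  comm : ∀ i j k, s.C c i j k = s.C c j i k
  one : ∀ j k, s.C c 0 j k = if j = k then 1 else 0
  assoc : ∀ i j k m, ∑ l, s.C c i j l * s.C c l k m = ∑ l, s.C c j k l * s.C c i l m
  bound : ∀ i j k (e : Fin s.N), s.w i + s.w j < s.a * e + s.w k → c (i, j, k, e) = 0
  lead : ∀ i j, ∃ k, ∃ e : Fin s.N, s.w i + s.w j = s.a * e + s.w k ∧ c (i, j, k, e) ≠ 0

open Polynomial in
/-- a weighted algebra `B` with `x : B`, `y : Fin a → B` realising the table `c` -/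
structure IsModel {K : Type*} [Field K] (c : s.Idx → K) {B : Type*} [CommRing B] [Algebra K B]
    (wt : B → WithBot ℕ) (x : B) (y : Fin s.a → B) : Prop where
  isWeight : IsWeight K wt
  wt_x : wt x = (s.a : WithBot ℕ)
  wt_y : ∀ i, wt (y i) = (s.w i : WithBot ℕ)
  y_zero : y 0 = 1
  mul : ∀ i j, y i * y j = ∑ k, Polynomial.aeval x (s.C c i j k) * y k
  bijective : Function.Bijective
    (fun u : Fin s.a → K[X] => ∑ k, Polynomial.aeval x (u k) * y k)

/-- the tangent spaces at all `K`-points are at most one-dimensional. A point is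
`(x₀, η)`, a tangent vector is `(ξ, τ)`. -/
def IsPoint {K : Type*} [Field K] (c : s.Idx → K) (x₀ : K) (η : Fin s.a → K) : Prop :=
  η 0 = 1 ∧ ∀ i j, η i * η j = ∑ k, (s.C c i j k).eval x₀ * η k

def IsTangent {K : Type*} [Field K] (c : s.Idx → K) (x₀ : K) (η : Fin s.a → K) (ξ : K)
    (τ : Fin s.a → K) : Prop :=
  τ 0 = 0 ∧ ∀ i j, τ i * η j + η i * τ j =
    ∑ k, ((s.C c i j k).derivative.eval x₀ * ξ * η k + (s.C c i j k).eval x₀ * τ k)

def IsSmooth {K : Type*} [Field K] (c : s.Idx → K) : Prop :=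
  ∀ x₀ η, s.IsPoint c x₀ η → ∀ ξ τ ξ' τ', s.IsTangent c x₀ η ξ τ → s.IsTangent c x₀ η ξ' τ' →
    (∀ i, ξ * τ' i = ξ' * τ i) ∧ (∀ i j, τ i * τ' j = τ' i * τ j)

end Shape

/-! ### First order predicates -/

open FirstOrder in
/-- `P` is (uniformly in the algebraically closed field `K : Type u`) given by a first order
formula in the language of rings. -/
def FO.{u} {α : Type} (P : ∀ (K : Type u) [Field K], (α → K) → Prop) : Prop :=
  ∃ φ : Language.ring.Formula α, ∀ (K : Type u) [Field K] [IsAlgClosed K]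
    [FirstOrder.Ring.CompatibleRing K] (v : α → K), φ.Realize v ↔ P K v

end Fermat.Agent.H95
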