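import Mathlib
import Fermat.Agent.H95Defs

set_option autoImplicit false

set_option linter.style.haveILetI false
set_option linter.unusedSectionVars false

namespace Fermat.Agent.H95

open Module

section W
variable {K : Type*} {B : Type*} [Field K] [CommRing B] [Algebra K B] {wt : B → WithBot ℕ}

namespace IsWeight

theorem wt_zero (hw : IsWeight K wt) : wt 0 = ⊥ := (hw.eq_bot_iff 0).2 rfl

theorem wt_one (hw : IsWeight K wt) : wt 1 = 0 := by
  have := hw.algebraMap 1 one_ne_zero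
  rwa [map_one] at this

theorem isDomain (hw : IsWeight K wt) : IsDomain B := by
  have : Nontrivial B := ⟨⟨1, 0, fun h => by
    have h1 := hw.wt_one
    rw [h, hw.wt_zero] at h1
    exact absurd h1 (by simp)⟩⟩
  have : NoZeroDivisors B := ⟨fun {a b} h => by
    have h1 := hw.mul a b
    rw [h, hw.wt_zero] at h1
    rcases WithBot.add_eq_bot.1 h1.symm with h2 | h2
    · exact Or.inl ((hw.eq_bot_iff a).1 h2)
    · exact Or.inr ((hw.eq_bot_iff b).1 h2)⟩
  exact NoZeroDivisors.to_isDomain B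

theorem exists_nat (hw : IsWeight K wt) {f : B} (hf : f ≠ 0) : ∃ n : ℕ, wt f = (n : WithBot ℕ) := by
  have h : wt f ≠ ⊥ := fun h => hf ((hw.eq_bot_iff f).1 h)
  obtain ⟨n, hn⟩ := WithBot.ne_bot_iff_exists.1 h
  exact ⟨n, hn.symm⟩

theorem ne_zero_of_wt (hw : IsWeight K wt) {f : B} {n : ℕ} (h : wt f = (n : WithBot ℕ)) :
    f ≠ 0 := fun h0 => by
  rw [h0, hw.wt_zero] at h
  exact absurd h (by simp)

theorem wt_smul (hw : IsWeight K wt) {c : K} (hc : c ≠ 0) (f : B) : wt (c • f) = wt f := by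
  rw [Algebra.smul_def, hw.mul, hw.algebraMap c hc, zero_add]

theorem wt_smul_le (hw : IsWeight K wt) (c : K) (f : B) : wt (c • f) ≤ wt f := by
  rcases eq_or_ne c 0 with rfl | hc
  · rw [zero_smul, hw.wt_zero]; exact bot_le
  · exact (hw.wt_smul hc f).le

theorem wt_neg (hw : IsWeight K wt) (f : B) : wt (-f) = wt f := by
  have := hw.wt_smul (c := (-1 : K)) (by simp) f
  simpa using this

theorem sub_le (hw : IsWeight K wt) (f g : B) : wt (f - g) ≤ max (wt f) (wt g) := by
  rw [sub_eq_add_neg, ← hw.wt_neg g]; exact hw.add_le f (-g)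

theorem wt_add_eq_of_lt (hw : IsWeight K wt) {f g : B} (h : wt g < wt f) :
    wt (f + g) = wt f := by
  apply le_antisymm
  · exact (hw.add_le f g).trans (by rw [max_eq_left h.le])
  · by_contra hcon
    rw [not_le] at hcon
    have h1 : wt f ≤ max (wt (f + g)) (wt g) := by
      have := hw.sub_le (f + g) g
      simpa using this
    exact absurd (h1.trans_lt (max_lt hcon h)) (lt_irrefl _)

theorem wt_sum_le (hw : IsWeight K wt) {ι : Type*} (s : Finset ι) (f : ι → B) (n : WithBot ℕ)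
    (h : ∀ i ∈ s, wt (f i) ≤ n) : wt (∑ i ∈ s, f i) ≤ n := by
  classical
  induction s using Finset.induction_on with
  | empty => rw [Finset.sum_empty, hw.wt_zero]; exact bot_le
  | insert a s ha ih =>
    rw [Finset.sum_insert ha]
    exact (hw.add_le _ _).trans (max_le (h a (Finset.mem_insert_self a s))
      (ih fun i hi => h i (Finset.mem_insert_of_mem hi)))

theorem wt_sum_lt (hw : IsWeight K wt) {ι : Type*} (s : Finset ι) (f : ι → B) (n : ℕ)
    (h : ∀ i ∈ s, wt (f i) < (n : WithBot ℕ)) : wt (∑ i ∈ s, f i) < (n : WithBot ℕ) := by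
  classical
  induction s using Finset.induction_on with
  | empty => rw [Finset.sum_empty, hw.wt_zero]; exact WithBot.bot_lt_coe n
  | insert a s ha ih =>
    rw [Finset.sum_insert ha]
    exact (hw.add_le _ _).trans_lt (max_lt (h a (Finset.mem_insert_self a s))
      (ih fun i hi => h i (Finset.mem_insert_of_mem hi)))

/-- The filtration by weight. -/
def fil (hw : IsWeight K wt) (n : WithBot ℕ) : Submodule K B where
  carrier := {f | wt f ≤ n}
  add_mem' := fun {a b} ha hb => (hw.add_le a b).trans (max_le ha hb)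
  zero_mem' := by
    show wt 0 ≤ n
    rw [hw.wt_zero]; exact bot_le
  smul_mem' := fun c f hf => (hw.wt_smul_le c f).trans hf

@[simp] theorem mem_fil (hw : IsWeight K wt) {n : WithBot ℕ} {f : B} :
    f ∈ hw.fil n ↔ wt f ≤ n := Iff.rfl

/-- A family of elements of pairwise distinct weights, indexed by the weights. -/
theorem wt_linearCombination (hw : IsWeight K wt) {s : Set ℕ} (b : s → B)
    (hb : ∀ i : s, wt (b i) = ((i : ℕ) : WithBot ℕ)) (l : s →₀ K) (hl : l ≠ 0) :
    ∃ i : s, l i ≠ 0 ∧ wt (Finsupp.linearCombination K b l) = ((i : ℕ) : WithBot ℕ) := by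
  classical
  have hne : l.support.Nonempty := Finsupp.support_nonempty_iff.2 hl
  set i := l.support.max' hne with hi
  have hmem : i ∈ l.support := Finset.max'_mem _ _
  refine ⟨i, Finsupp.mem_support_iff.1 hmem, ?_⟩
  rw [Finsupp.linearCombination_apply, Finsupp.sum, ← Finset.add_sum_erase _ _ hmem]
  have h1 : wt (l i • b i) = ((i : ℕ) : WithBot ℕ) := by
    rw [hw.wt_smul (Finsupp.mem_support_iff.1 hmem), hb]
  rw [hw.wt_add_eq_of_lt, h1]
  rw [h1]
  apply hw.wt_sum_lt
  intro j hj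
  have hj' := Finset.mem_erase.1 hj
  rw [hw.wt_smul (Finsupp.mem_support_iff.1 hj'.2), hb]
  have : j < i := lt_of_le_of_ne (Finset.le_max' _ _ hj'.2) hj'.1
  exact_mod_cast this

theorem linearIndependent (hw : IsWeight K wt) {s : Set ℕ} (b : s → B)
    (hb : ∀ i : s, wt (b i) = ((i : ℕ) : WithBot ℕ)) : LinearIndependent K b := by
  rw [linearIndependent_iff]
  intro l hl
  by_contra hl0
  obtain ⟨i, -, hi⟩ := hw.wt_linearCombination b hb l hl0
  rw [hl, hw.wt_zero] at hi
  exact absurd hi (by simp)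

/-- An element of a subspace `V` is in `W` as soon as `W ≤ V` has all the weights of `V`. -/
theorem eq_of_wts_subset (hw : IsWeight K wt) {V W : Submodule K B} (h : V ≤ W)
    (h' : wts wt (W : Set B) ⊆ wts wt (V : Set B)) : V = W := by
  refine le_antisymm h ?_
  have key : ∀ n : ℕ, ∀ f ∈ W, wt f < (n : WithBot ℕ) → f ∈ V := by
    intro n
    induction n with
    | zero =>
      intro f _ hf
      have : f = 0 := by
        rw [← hw.eq_bot_iff]
        by_contra hne
        obtain ⟨m, hm⟩ := WithBot.ne_bot_iff_exists.1 hne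
        rw [← hm] at hf
        exact Nat.not_lt_zero m (WithBot.coe_lt_coe.1 hf)
      rw [this]; exact V.zero_mem
    | succ n ih =>
      intro f hf hfn
      rcases eq_or_ne f 0 with rfl | hf0
      · exact V.zero_mem
      obtain ⟨m, hm⟩ := hw.exists_nat hf0
      obtain ⟨g, hg, hgm⟩ := h' ⟨f, hf, hm⟩
      obtain ⟨c, hc⟩ := hw.exists_sub_lt f g hf0 (hm.trans hgm.symm)
      have h1 : f - c • g ∈ V := by
        apply ih _ (W.sub_mem hf (W.smul_mem c (h hg)))
        refine hc.trans_le ?_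
        rw [hm] at hfn ⊢
        have : m < n + 1 := by exact_mod_cast hfn
        exact_mod_cast Nat.lt_succ_iff.1 this
      have := V.add_mem h1 (V.smul_mem c hg)
      simpa using this
  intro f hf
  rcases eq_or_ne f 0 with rfl | hf0
  · exact V.zero_mem
  obtain ⟨m, hm⟩ := hw.exists_nat hf0
  exact key (m + 1) f hf (by rw [hm]; exact_mod_cast Nat.lt_succ_self m)

/-- Basis of a subspace adapted to the weights. -/
theorem exists_basis (hw : IsWeight K wt) (V : Submodule K B) (b : wts wt (V : Set B) → B)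
    (hbV : ∀ i, b i ∈ V) (hb : ∀ i : wts wt (V : Set B), wt (b i) = ((i : ℕ) : WithBot ℕ)) :
    LinearIndependent K b ∧ Submodule.span K (Set.range b) = V := by
  refine ⟨hw.linearIndependent b hb, ?_⟩
  apply hw.eq_of_wts_subset
  · rw [Submodule.span_le]
    rintro _ ⟨i, rfl⟩
    exact hbV i
  · intro n hn
    exact ⟨b ⟨n, hn⟩, Submodule.subset_span ⟨_, rfl⟩, hb ⟨n, hn⟩⟩

theorem exists_rep (V : Set B) :
    ∃ b : wts wt V → B, (∀ i, b i ∈ V) ∧ ∀ i : wts wt V, wt (b i) = ((i : ℕ) : WithBot ℕ) :=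
  ⟨fun i => i.2.choose, fun i => i.2.choose_spec.1, fun i => i.2.choose_spec.2⟩

theorem finrank_eq_ncard_wts (hw : IsWeight K wt) (V : Submodule K B)
    (hfin : (wts wt (V : Set B)).Finite) :
    Module.Finite K V ∧ Module.finrank K V = (wts wt (V : Set B)).ncard := by
  obtain ⟨b, hbV, hb⟩ := exists_rep (wt := wt) (V : Set B)
  obtain ⟨hli, hspan⟩ := hw.exists_basis V b hbV hb
  haveI : Fintype (wts wt (V : Set B)) := hfin.fintype
  let e : Module.Basis (wts wt (V : Set B)) K V :=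
    (Module.Basis.span hli).map (LinearEquiv.ofEq _ _ hspan)
  refine ⟨Module.Finite.of_basis e, ?_⟩
  rw [Module.finrank_eq_card_basis e, Set.ncard_eq_toFinset_card', Set.toFinset_card]

theorem wts_inf_fil (hw : IsWeight K wt) (V : Submodule K B) (n : ℕ) :
    wts wt ((V ⊓ hw.fil n : Submodule K B) : Set B) = wts wt (V : Set B) ∩ Set.Iic n := by
  ext m
  constructor
  · rintro ⟨f, hf, hm⟩
    have h2 : wt f ≤ (n : WithBot ℕ) := hf.2
    rw [hm] at h2
    exact ⟨⟨f, hf.1, hm⟩, by exact_mod_cast h2⟩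
  · rintro ⟨⟨f, hf, hm⟩, hmn⟩
    refine ⟨f, ⟨hf, ?_⟩, hm⟩
    show wt f ≤ _
    rw [hm]
    exact_mod_cast (show m ≤ n from hmn)

theorem finrank_inf_fil (hw : IsWeight K wt) (V : Submodule K B) (n : ℕ) :
    Module.Finite K (V ⊓ hw.fil n : Submodule K B) ∧
    Module.finrank K (V ⊓ hw.fil n : Submodule K B) =
      (wts wt (V : Set B) ∩ Set.Iic n).ncard := by
  have hfin : (wts wt ((V ⊓ hw.fil n : Submodule K B) : Set B)).Finite := by
    rw [wts_inf_fil]
    exact (Set.finite_Iic n).subset Set.inter_subset_right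
  have := hw.finrank_eq_ncard_wts (V ⊓ hw.fil n) hfin
  rwa [wts_inf_fil] at this

theorem finrank_fil (hw : IsWeight K wt) (V : Submodule K B) (n : ℕ) :
    ∃ U : Submodule K B, (∀ f, f ∈ U ↔ f ∈ V ∧ wt f ≤ (n : WithBot ℕ)) ∧
      Module.Finite K U ∧ Module.finrank K U = (wts wt (V : Set B) ∩ Set.Iic n).ncard :=
  ⟨V ⊓ hw.fil n, fun _ => Iff.rfl, hw.finrank_inf_fil V n⟩

theorem wts_mono {V W : Set B} (h : V ⊆ W) : wts wt V ⊆ wts wt W :=
  fun _ ⟨f, hf, hn⟩ => ⟨f, h hf, hn⟩

/-- the dimension of a quotient is the number of missing weights. -/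
theorem finrank_quot_eq (hw : IsWeight K wt) (V : Submodule K B)
    (hfin : (wts wt Set.univ \ wts wt (V : Set B)).Finite) :
    Module.Finite K (B ⧸ V) ∧
    Module.finrank K (B ⧸ V) = (wts wt Set.univ \ wts wt (V : Set B)).ncard := by
  classical
  set T : Set ℕ := wts wt Set.univ \ wts wt (V : Set B) with hT
  have hex : ∀ i : T, ∃ f : B, wt f = ((i : ℕ) : WithBot ℕ) := fun i => by
    obtain ⟨f, -, hf⟩ := i.2.1
    exact ⟨f, hf⟩
  choose b hb using hex
  have hli := hw.linearIndependent b hb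
  haveI : Fintype T := hfin.fintype
  set C : Submodule K B := Submodule.span K (Set.range b) with hC
  have hCfin : Module.finrank K C = T.ncard := by
    rw [hC, finrank_span_eq_card hli, Set.ncard_eq_toFinset_card', Set.toFinset_card]
  have hcompl : IsCompl V C := by
    constructor
    · rw [Submodule.disjoint_def]
      intro f hfV hfC
      by_contra hf0
      rw [hC] at hfC
      obtain ⟨l, hl⟩ := (Finsupp.mem_span_range_iff_exists_finsupp (R := K) (v := b)).1 hfC
      have hl0 : l ≠ 0 := by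
        rintro rfl
        apply hf0
        rw [← hl]; simp
      obtain ⟨i, -, hi⟩ := hw.wt_linearCombination b hb l hl0
      have : Finsupp.linearCombination K b l = f := by
        rw [← hl]; rfl
      rw [this] at hi
      exact i.2.2 ⟨f, hfV, hi⟩
    · rw [codisjoint_iff]
      apply hw.eq_of_wts_subset le_top
      intro n hn
      by_cases hnV : n ∈ wts wt (V : Set B)
      · exact wts_mono (fun _ h => Submodule.mem_sup_left h) hnV
      · have hnT : n ∈ T := ⟨wts_mono (fun _ _ => trivial) hn, hnV⟩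
        exact ⟨b ⟨n, hnT⟩, Submodule.mem_sup_right (Submodule.subset_span ⟨_, rfl⟩), hb ⟨n, hnT⟩⟩
  have e := Submodule.quotientEquivOfIsCompl V C hcompl
  haveI : Module.Finite K C := by
    rw [hC]
    exact Module.Finite.span_of_finite K (Set.finite_range b)
  exact ⟨Module.Finite.equiv e.symm, by rw [e.finrank_eq, hCfin]⟩

theorem mem_wts_univ_of_zero (hw : IsWeight K wt) : 0 ∈ wts wt (Set.univ : Set B) :=
  ⟨1, trivial, by rw [hw.wt_one]; rfl⟩

theorem add_mem_wts (hw : IsWeight K wt) {J : Ideal B} {m n : ℕ}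
    (hm : m ∈ wts wt (Set.univ : Set B)) (hn : n ∈ wts wt (J : Set B)) :
    m + n ∈ wts wt (J : Set B) := by
  obtain ⟨f, -, hf⟩ := hm
  obtain ⟨g, hg, hgn⟩ := hn
  exact ⟨f * g, J.mul_mem_left f hg, by rw [hw.mul, hf, hgn]; rfl⟩

theorem finite_compl_univ (hw : IsWeight K wt) : (wts wt (Set.univ : Set B))ᶜ.Finite := by
  refine hw.finite_gaps.subset ?_
  intro n hn f hf
  exact hn ⟨f, trivial, hf⟩

theorem finite_compl_wts (hw : IsWeight K wt) {J : Ideal B} (hJ : J ≠ ⊥) :
    (wts wt (J : Set B))ᶜ.Finite := by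
  obtain ⟨f, hf, hf0⟩ := Submodule.exists_mem_ne_zero_of_ne_bot hJ
  obtain ⟨w, hw'⟩ := hw.exists_nat hf0
  have hsub : (wts wt (J : Set B))ᶜ ⊆ Set.Iio w ∪ (fun n => n + w) '' (wts wt Set.univ)ᶜ := by
    intro n hn
    by_cases hnw : n < w
    · exact Or.inl hnw
    · right
      refine ⟨n - w, fun hc => hn ?_, by show n - w + w = n; omega⟩
      have := hw.add_mem_wts hc (⟨f, hf, hw'⟩ : w ∈ wts wt (J : Set B))
      rwa [Nat.sub_add_cancel (not_lt.1 hnw)] at this
  exact ((Set.finite_Iio w).union (hw.finite_compl_univ.image _)).subset hsub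

theorem finite_quot_and (hw : IsWeight K wt) {J : Ideal B} (hJ : J ≠ ⊥) :
    Module.Finite K (B ⧸ J) ∧
    cdeg K J = (wts wt Set.univ \ wts wt (J : Set B)).ncard := by
  have h := hw.finrank_quot_eq (J.restrictScalars K)
    ((hw.finite_compl_wts hJ).subset (fun n hn => hn.2))
  exact h

theorem finite_quot (hw : IsWeight K wt) {J : Ideal B} (hJ : J ≠ ⊥) :
    Module.Finite K (B ⧸ J) := (hw.finite_quot_and hJ).1

theorem ncard_compl_wts (hw : IsWeight K wt) {J : Ideal B} (hJ : J ≠ ⊥) :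
    (wts wt (J : Set B))ᶜ.ncard = genus wt + cdeg K J := by
  rw [(hw.finite_quot_and hJ).2, genus]
  have hfin := hw.finite_compl_wts hJ
  have h1 : (wts wt (J : Set B))ᶜ = (wts wt (Set.univ : Set B))ᶜ ∪
      (wts wt Set.univ \ wts wt (J : Set B)) := by
    ext n
    simp only [Set.mem_compl_iff, Set.mem_union, Set.mem_sdiff]
    constructor
    · intro h
      by_cases h2 : n ∈ wts wt (Set.univ : Set B)
      · exact Or.inr ⟨h2, h⟩
      · exact Or.inl h2
    · rintro (h | h)
      · exact fun h' => h (wts_mono (fun _ _ => trivial) h')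
      · exact h.2
  rw [h1, Set.ncard_union_eq _ hw.finite_compl_univ (hfin.subset fun n hn => hn.2)]
  rw [Set.disjoint_left]
  intro n hn hn'
  exact hn hn'.1

theorem ncard_compl_shift (S : Set ℕ) (hS : Sᶜ.Finite) (w : ℕ) :
    ((fun n => n + w) '' S)ᶜ.Finite ∧ ((fun n => n + w) '' S)ᶜ.ncard = w + Sᶜ.ncard := by
  have h1 : ((fun n => n + w) '' S)ᶜ = Set.Iio w ∪ (fun n => n + w) '' Sᶜ := by
    ext n
    simp only [Set.mem_compl_iff, Set.mem_image, Set.mem_union, Set.mem_Iio, not_exists, not_and]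
    constructor
    · intro h
      by_cases hn : n < w
      · exact Or.inl hn
      · right
        refine ⟨n - w, fun hc => h (n - w) hc (by omega), by omega⟩
    · rintro (h | ⟨m, hm, rfl⟩) k hk hkn
      · omega
      · have : k = m := by omega
        exact hm (this ▸ hk)
  have hf2 : ((fun n => n + w) '' Sᶜ).Finite := hS.image _
  refine ⟨by rw [h1]; exact (Set.finite_Iio w).union hf2, ?_⟩
  rw [h1, Set.ncard_union_eq _ (Set.finite_Iio w) hf2]
  · rw [Set.ncard_image_of_injective _ (add_left_injective w)]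
    congr 1
    rw [Set.ncard_eq_toFinset_card']
    simp
  · rw [Set.disjoint_left]
    rintro n hn ⟨m, -, rfl⟩
    have : m + w < w := hn
    omega

theorem wts_span_mul (hw : IsWeight K wt) {f : B} {w : ℕ} (hf : wt f = (w : WithBot ℕ))
    (J : Ideal B) : wts wt ((Ideal.span {f} * J : Ideal B) : Set B) =
      (fun n => n + w) '' wts wt (J : Set B) := by
  ext n
  constructor
  · rintro ⟨h, hh, hn⟩
    rw [SetLike.mem_coe, Ideal.mem_span_singleton_mul] at hh
    obtain ⟨z, hz, rfl⟩ := hh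
    rw [hw.mul, hf] at hn
    have hz0 : z ≠ 0 := by
      rintro rfl
      rw [hw.wt_zero, WithBot.add_bot] at hn
      exact absurd hn (by simp)
    obtain ⟨m, hm⟩ := hw.exists_nat hz0
    refine ⟨m, ⟨z, hz, hm⟩, ?_⟩
    rw [hm] at hn
    have : w + m = n := by exact_mod_cast hn
    show m + w = n
    omega
  · rintro ⟨m, ⟨z, hz, hm⟩, rfl⟩
    refine ⟨f * z, ?_, ?_⟩
    · rw [SetLike.mem_coe, Ideal.mem_span_singleton_mul]
      exact ⟨z, hz, rfl⟩
    · rw [hw.mul, hf, hm, add_comm]; rfl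

theorem cdeg_top_wts (hw : IsWeight K wt) : cdeg K (⊤ : Ideal B) = 0 := by
  haveI := hw.isDomain
  have h := (hw.finite_quot_and (J := (⊤ : Ideal B)) top_ne_bot).2
  rw [h, Submodule.top_coe, Set.sdiff_self, Set.ncard_empty]

theorem cdeg_span_mul' (hw : IsWeight K wt) {f : B} {w : ℕ} (hf : wt f = (w : WithBot ℕ))
    {J : Ideal B} (hJ : J ≠ ⊥) : cdeg K (Ideal.span {f} * J) = w + cdeg K J := by
  haveI := hw.isDomain
  have hf0 : f ≠ 0 := hw.ne_zero_of_wt hf
  have hne : Ideal.span {f} * J ≠ ⊥ := by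
    rw [Ne, Ideal.mul_eq_bot]
    rintro (h | h)
    · rw [Ideal.span_singleton_eq_bot] at h
      exact hf0 h
    · exact hJ h
  have h1 := hw.ncard_compl_wts hne
  rw [hw.wts_span_mul hf, (ncard_compl_shift _ (hw.finite_compl_wts hJ) w).2,
    hw.ncard_compl_wts hJ] at h1
  omega

theorem cdeg_span' (hw : IsWeight K wt) {f : B} {w : ℕ} (hf : wt f = (w : WithBot ℕ)) :
    cdeg K (Ideal.span {f}) = w := by
  haveI := hw.isDomain
  have h := hw.cdeg_span_mul' hf (J := ⊤) top_ne_bot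
  rwa [Ideal.mul_top, hw.cdeg_top_wts, add_zero] at h

theorem cdeg_span (hw : IsWeight K wt) {f : B} (hf : f ≠ 0) :
    ((cdeg K (Ideal.span {f}) : ℕ) : WithBot ℕ) = wt f := by
  obtain ⟨w, hw'⟩ := hw.exists_nat hf
  rw [hw.cdeg_span' hw', hw']

theorem cdeg_span_mul (hw : IsWeight K wt) {f : B} (hf : f ≠ 0) {J : Ideal B}
    (hJ : J ≠ ⊥) : cdeg K (Ideal.span {f} * J) = cdeg K (Ideal.span {f}) + cdeg K J := by
  obtain ⟨w, hw'⟩ := hw.exists_nat hf
  rw [hw.cdeg_span' hw', hw.cdeg_span_mul' hw' hJ]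

theorem cdeg_anti (hw : IsWeight K wt) {I J : Ideal B} (h : I ≤ J) (hI : I ≠ ⊥) :
    cdeg K J ≤ cdeg K I := by
  have hJ : J ≠ ⊥ := fun hJ => hI (le_bot_iff.1 (hJ ▸ h))
  rw [(hw.finite_quot_and hI).2, (hw.finite_quot_and hJ).2]
  refine Set.ncard_le_ncard ?_ ((hw.finite_compl_wts hI).subset (fun n hn => hn.2))
  exact Set.sdiff_subset_sdiff_right (wts_mono h)

theorem eq_of_le_of_cdeg_le (hw : IsWeight K wt) {I J : Ideal B} (h : I ≤ J) (hI : I ≠ ⊥)
    (hc : cdeg K I ≤ cdeg K J) : I = J := by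
  have hJ : J ≠ ⊥ := fun hJ => hI (le_bot_iff.1 (hJ ▸ h))
  have hc' : cdeg K I = cdeg K J := le_antisymm hc (hw.cdeg_anti h hI)
  rw [(hw.finite_quot_and hI).2, (hw.finite_quot_and hJ).2] at hc'
  have hsub : wts wt Set.univ \ wts wt (J : Set B) ⊆ wts wt Set.univ \ wts wt (I : Set B) :=
    Set.sdiff_subset_sdiff_right (wts_mono h)
  have heq := Set.eq_of_subset_of_ncard_le hsub hc'.le
    ((hw.finite_compl_wts hI).subset (fun n hn => hn.2))
  have hW : wts wt (J : Set B) ⊆ wts wt (I : Set B) := by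
    intro n hn
    by_contra hnI
    have : n ∈ wts wt Set.univ \ wts wt (I : Set B) := ⟨wts_mono (fun _ _ => trivial) hn, hnI⟩
    rw [← heq] at this
    exact this.2 hn
  have := hw.eq_of_wts_subset (V := I.restrictScalars K) (W := J.restrictScalars K) h hW
  ext x
  exact ⟨fun hx => h hx, fun hx => by
    have h2 : x ∈ J.restrictScalars K := hx
    rw [← this] at h2
    exact h2⟩

theorem cdeg_le (hw : IsWeight K wt) {J : Ideal B} {f : B} (hf : f ∈ J) (hf0 : f ≠ 0) :
    ((cdeg K J : ℕ) : WithBot ℕ) ≤ wt f := by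
  rw [← hw.cdeg_span hf0]
  have h1 : Ideal.span {f} ≤ J := (Ideal.span_singleton_le_iff_mem J).2 hf
  have h2 : Ideal.span {f} ≠ ⊥ := by rwa [Ne, Ideal.span_singleton_eq_bot]
  exact_mod_cast hw.cdeg_anti h1 h2

theorem cdeg_le_of_mem_wts (hw : IsWeight K wt) {J : Ideal B} {n : ℕ}
    (hn : n ∈ wts wt (J : Set B)) : cdeg K J ≤ n := by
  obtain ⟨f, hf, hfn⟩ := hn
  have := hw.cdeg_le hf (hw.ne_zero_of_wt hfn)
  rw [hfn] at this
  exact_mod_cast this

theorem wts_eq_image_nset (hw : IsWeight K wt) (J : Ideal B) :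
    wts wt (J : Set B) = (fun n => n + cdeg K J) '' nset K wt J := by
  ext n
  constructor
  · intro hn
    have h := hw.cdeg_le_of_mem_wts hn
    refine ⟨n - cdeg K J, ?_, by show n - cdeg K J + cdeg K J = n; omega⟩
    show n - cdeg K J + cdeg K J ∈ wts wt (J : Set B)
    rwa [Nat.sub_add_cancel h]
  · rintro ⟨m, hm, rfl⟩
    exact hm

theorem nset_compl_finite (hw : IsWeight K wt) {J : Ideal B} (hJ : J ≠ ⊥) :
    (nset K wt J)ᶜ.Finite := by
  have h := hw.finite_compl_wts hJ
  have h2 : (nset K wt J)ᶜ = (fun n => n + cdeg K J) ⁻¹' (wts wt (J : Set B))ᶜ := rfl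
  rw [h2]
  exact h.preimage (Set.injOn_of_injective (add_left_injective _))

theorem nset_compl_ncard (hw : IsWeight K wt) {J : Ideal B} (hJ : J ≠ ⊥) :
    (nset K wt J)ᶜ.ncard = genus wt := by
  have h := hw.ncard_compl_wts hJ
  rw [hw.wts_eq_image_nset J, (ncard_compl_shift _ (hw.nset_compl_finite hJ) _).2] at h
  omega

theorem ncard_inter_Iio (S : Set ℕ) (hS : Sᶜ.Finite) {n : ℕ} (hn : ∀ m, n ≤ m → m ∈ S) :
    (S ∩ Set.Iio n).ncard + Sᶜ.ncard = n := by
  have h1 : Sᶜ ⊆ Set.Iio n := fun m hm => by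
    by_contra hc
    exact hm (hn m (not_lt.1 hc))
  have h2 : (S ∩ Set.Iio n) ∪ Sᶜ = Set.Iio n := by
    ext m
    constructor
    · rintro (h | h)
      · exact h.2
      · exact h1 h
    · intro h
      by_cases hm : m ∈ S
      · exact Or.inl ⟨hm, h⟩
      · exact Or.inr hm
  rw [← Set.ncard_union_eq _ ((Set.finite_Iio n).subset Set.inter_subset_right) hS, h2,
    Set.ncard_eq_toFinset_card']
  · simp
  · rw [Set.disjoint_left]
    intro m hm hm'
    exact hm' hm.1

theorem mem_of_gaps {H S : Set ℕ} (hH : Hᶜ.Finite) (hS : Sᶜ.Finite)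
    (hadd : ∀ a ∈ H, ∀ b ∈ S, a + b ∈ S) {g : ℕ} (hHg : Hᶜ.ncard ≤ g) (hSg : Sᶜ.ncard ≤ g)
    {n : ℕ} (hn : 2 * g ≤ n) : n ∈ S := by
  by_contra hnS
  have h1 : (S ∩ Set.Iic n).ncard ≤ Hᶜ.ncard := by
    refine Set.ncard_le_ncard_of_injOn (fun s => n - s) ?_ ?_ hH
    · rintro s ⟨hs, hsn⟩ hc
      apply hnS
      have := hadd _ hc s hs
      rwa [Nat.sub_add_cancel hsn] at this
    · rintro s ⟨-, hs⟩ t ⟨-, ht⟩ hst
      have h1 : s ≤ n := hs
      have h2 : t ≤ n := ht
      have h3 : n - s = n - t := hst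
      omega
  have h2 : n + 1 ≤ (S ∩ Set.Iic n).ncard + Sᶜ.ncard := by
    have h3 : Set.Iic n ⊆ (S ∩ Set.Iic n) ∪ Sᶜ := by
      intro m hm
      by_cases h : m ∈ S
      · exact Or.inl ⟨h, hm⟩
      · exact Or.inr h
    have h4 : (Set.Iic n).ncard = n + 1 := by
      rw [Set.ncard_eq_toFinset_card']; simp
    rw [← h4]
    refine (Set.ncard_le_ncard h3 ?_).trans (Set.ncard_union_le _ _)
    exact ((Set.finite_Iic n).subset Set.inter_subset_right).union hS
  omega

theorem mem_nset (hw : IsWeight K wt) {J : Ideal B} (hJ : J ≠ ⊥) {n : ℕ}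
    (hn : 2 * genus wt ≤ n) : n ∈ nset K wt J := by
  refine mem_of_gaps (H := wts wt (Set.univ : Set B)) (S := nset K wt J) hw.finite_compl_univ
    (hw.nset_compl_finite hJ) ?_ le_rfl (hw.nset_compl_ncard hJ).le hn
  intro a ha b hb
  show a + b + cdeg K J ∈ wts wt (J : Set B)
  rw [add_assoc]
  exact hw.add_mem_wts ha hb

/-- Riemann's inequality. -/
theorem exists_wt_le (hw : IsWeight K wt) {J : Ideal B} (hJ : J ≠ ⊥) :
    ∃ f ∈ J, f ≠ 0 ∧ ∃ n : ℕ, wt f = (n : WithBot ℕ) ∧ n ≤ genus wt + cdeg K J := by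
  have h := hw.nset_compl_ncard hJ
  have : ∃ n : ℕ, n ≤ genus wt ∧ n ∈ nset K wt J := by
    by_contra hcon
    push Not at hcon
    have h1 : Set.Iic (genus wt) ⊆ (nset K wt J)ᶜ := fun n hn => hcon n hn
    have h2 := Set.ncard_le_ncard h1 (hw.nset_compl_finite hJ)
    rw [h] at h2
    have h4 : (Set.Iic (genus wt)).ncard = genus wt + 1 := by
      rw [Set.ncard_eq_toFinset_card']; simp
    omega
  obtain ⟨n, hn, f, hf, hfn⟩ := this
  exact ⟨f, hf, hw.ne_zero_of_wt hfn, n + cdeg K J, hfn, by omega⟩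

end IsWeight

end W

end Fermat.Agent.H95
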