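import Fermat.Agent.H95Zeta
import Fermat.Agent.H95W1
import Fermat.Agent.H95TorsRed

/-!
# Reader's guide: the calculus of weights and the zeta argument (companion of `GuideTorsion`, S27)

Every theorem of this file is proved by citing a theorem of the library; nothing here is used by any
other file. Text and modules: helper95. `GuideTorsion` gives the proof of S27 in large steps; this
file writes out the intermediate steps of its second part (characteristic `p`) which are elementary
algebra and combinatorics, and adds a theorem of the same kind which is used for `J₀(N)`.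

**The point of view.** A curve with a rational point at infinity is replaced by the ring `B` of the
functions regular outside this point, with the order of the pole as a *weight*. Divisors become
ideals, degrees become dimensions `dim_K (B / J)`, and the spaces of the theorem of Riemann and Roch
become the subspaces `{f ∈ J | wt f ≤ n}`. Everything about such spaces is counting of weights:
elements of different weights are linearly independent, and two subspaces `V ⊆ W` with the same
weights are equal. So all dimensions can be read off from the set of the weights of an ideal, a set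
of natural numbers with finite complement which is stable under addition of weights of `B`.

Reading order:

1. *Weights and dimensions* (`H95W1`).
2. *Ideals* (`H95W1`): colength, Riemann's inequality, gaps. This is the input of the construction of
   the zeta data (`H63S27W2` - `H63S27Zeta`, guide `GuideZetaData`) and of duality (`H68Duality`,
   guide `GuideTorsionTools`).
3. *Invariant divisors* (`H95Z1`): a permutation with finitely many fixed points for each power.
4. *Power series with a given logarithmic derivative* (`H95Z2`) and what they say about polynomials.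
5. *`L`-polynomials of characters of the group of rational classes* (`H95Zeta`): value at `1`, degree,
   integrality. `GuideTorsion` continues from here (`card_eq_prod`, `norm_surjective`).
6. *Integral matrices and norms* (`H57Growth`, `H57TorsGrowth`, by helper57): from the numbers of
   rational classes to the number of torsion points.
7. *`Pic⁰` over an algebraic closure of a finite field is a torsion group* (`H95TorsFin`,
   `H95TorsRed`). This section does not use the others. It is used in S15: the reduction of `J₀(N)` at
   a good prime is a torsion group.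

Sections 1 - 6 belong to S27 (and, through S27, to S01, S03, S04, S06, S19, S32, S38, S43, S45, S46,
S50, S59 and S60). Read by helper1, helper57, helper68 and helper77. Tables, the smoothness criterion
and the rules for first order predicates are in `GuideTables`. Details: NOTES.md, Appendix A.3 and
notes [85], [86], [135], [166]. Reference: H. Stichtenoth, *Algebraic function fields and codes*,
chapters I and V.
-/

set_option autoImplicit false

namespace Fermat.Agent.Guide.Weights

open Fermat.Agent.H95 (IsWeight ZetaData wts nset)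
open AlgebraicCurve Polynomial

/-! ## 1. Weights and dimensions -/

/-- **Notions.** `wts wt V` is the set of the weights of the non-zero elements of `V`, `H95.genus wt`
the number of gaps (numbers which are not the weight of an element of `B`), `nset K wt J` the set of
weights of an ideal `J`, shifted down by its colength `dim_K (B / J)`. For `IsWeight` see
`GuideTorsion` (`isWeight_iff`): `wt (f g) = wt f + wt g`, `wt (f + g) ≤ max`, constants have weight
`0`, two elements of the same weight are proportional modulo smaller weight, finitely many gaps. -/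
theorem notions {K B : Type*} [Field K] [CommRing B] [Algebra K B] (wt : B → WithBot ℕ)
    (V : Set B) (J : Ideal B) :
    wts wt V = {n : ℕ | ∃ f ∈ V, wt f = (n : WithBot ℕ)} ∧
      H95.genus wt = ({n : ℕ | ∃ f ∈ (Set.univ : Set B), wt f = (n : WithBot ℕ)}ᶜ).ncard ∧
      nset K wt J = {n : ℕ | n + Module.finrank K (B ⧸ J) ∈ wts wt (J : Set B)} :=
  ⟨rfl, rfl, rfl⟩

/-- **Different weights are independent.** Elements `b i` of weight `i`, for `i` in a set of natural
numbers, are linearly independent: the weight of a linear combination is the largest index which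
occurs. File `H95W1`. -/
theorem linearIndependent {K B : Type*} [Field K] [CommRing B] [Algebra K B] {wt : B → WithBot ℕ}
    (hw : IsWeight K wt) {s : Set ℕ} (b : s → B)
    (hb : ∀ i : s, wt (b i) = ((i : ℕ) : WithBot ℕ)) : LinearIndependent K b :=
  hw.linearIndependent b hb

/-- **Subspaces with the same weights are equal.** If `V ⊆ W` and every weight of `W` is a weight of
`V`, then `V = W`: subtract from an element of `W` a multiple of an element of `V` of the same weight,
and repeat; the weights are natural numbers. File `H95W1`. -/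
theorem eq_of_same_weights {K B : Type*} [Field K] [CommRing B] [Algebra K B]
    {wt : B → WithBot ℕ} (hw : IsWeight K wt) {V W : Submodule K B} (h : V ≤ W)
    (h' : ∀ f ∈ W, ∀ n : ℕ, wt f = (n : WithBot ℕ) → ∃ g ∈ V, wt g = (n : WithBot ℕ)) : V = W :=
  hw.eq_of_wts_subset h fun n ⟨f, hf, hn⟩ => h' f hf n hn

/-- **Dimension of a quotient.** If `V` has only finitely many weights less than `B`, then `B / V` has
finite dimension, equal to the number of the missing weights: elements of the missing weights span a
complement of `V`. File `H95W1`. -/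
theorem finrank_quotient {K B : Type*} [Field K] [CommRing B] [Algebra K B] {wt : B → WithBot ℕ}
    (hw : IsWeight K wt) (V : Submodule K B)
    (hfin : (wts wt Set.univ \ wts wt (V : Set B)).Finite) :
    Module.Finite K (B ⧸ V) ∧
      Module.finrank K (B ⧸ V) = (wts wt Set.univ \ wts wt (V : Set B)).ncard :=
  hw.finrank_quot_eq V hfin

/-! ## 2. Ideals -/

/-- **Missing weights of an ideal.** A non-zero ideal `J` has finite colength, and the number of the
natural numbers which are not weights of `J` is `g + dim_K (B / J)`, `g` the number of gaps of `B`.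
(If `f ∈ J` has weight `w`, every `n + w`, `n` a weight of `B`, is a weight of `J`; so only finitely
many numbers are missing.) File `H95W1`. -/
theorem missing_weights {K B : Type*} [Field K] [CommRing B] [Algebra K B] {wt : B → WithBot ℕ}
    (hw : IsWeight K wt) {J : Ideal B} (hJ : J ≠ ⊥) :
    Module.Finite K (B ⧸ J) ∧
      (wts wt (J : Set B))ᶜ.ncard = H95.genus wt + Module.finrank K (B ⧸ J) :=
  ⟨hw.finite_quot hJ, hw.ncard_compl_wts hJ⟩

/-- **A function has as many zeros as poles**: `dim_K (B / fB)` is the weight of `f`. Here this is a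
count: the weights of `fB` are the weights of `B` shifted by `wt f`. File `H95W1`. -/
theorem colength_principal {K B : Type*} [Field K] [CommRing B] [Algebra K B]
    {wt : B → WithBot ℕ} (hw : IsWeight K wt) {f : B} (hf : f ≠ 0) :
    ((Module.finrank K (B ⧸ Ideal.span {f}) : ℕ) : WithBot ℕ) = wt f :=
  hw.cdeg_span hf

/-- **Degrees add**, for the product with a principal ideal: if `f` has weight `w`, then
`dim_K (B / fJ) = w + dim_K (B / J)`. (For products of arbitrary ideals of a Dedekind domain see
`GuideZetaData`.) File `H95W1`. -/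
theorem colength_mul {K B : Type*} [Field K] [CommRing B] [Algebra K B] {wt : B → WithBot ℕ}
    (hw : IsWeight K wt) {f : B} {w : ℕ} (hf : wt f = (w : WithBot ℕ)) {J : Ideal B}
    (hJ : J ≠ ⊥) : Module.finrank K (B ⧸ Ideal.span {f} * J) = w + Module.finrank K (B ⧸ J) :=
  hw.cdeg_span_mul' hf hJ

/-- **The colength is at most the weight of every non-zero element**, so `nset K wt J` describes all
weights of `J`. File `H95W1`. -/
theorem colength_le_weight {K B : Type*} [Field K] [CommRing B] [Algebra K B]
    {wt : B → WithBot ℕ} (hw : IsWeight K wt) {J : Ideal B} {f : B} (hf : f ∈ J) (hf0 : f ≠ 0) :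
    ((Module.finrank K (B ⧸ J) : ℕ) : WithBot ℕ) ≤ wt f :=
  hw.cdeg_le hf hf0

/-- **Inclusion and equal colength imply equality.** This is how ideals are recognised in the proof of
duality (`H68Duality`, guide `GuideTorsionTools`) and in the transfer of the torsion count
(`H68ThetaAlg`). File `H95W1`. -/
theorem eq_of_colength_le {K B : Type*} [Field K] [CommRing B] [Algebra K B]
    {wt : B → WithBot ℕ} (hw : IsWeight K wt) {I J : Ideal B} (h : I ≤ J) (hI : I ≠ ⊥)
    (hc : Module.finrank K (B ⧸ I) ≤ Module.finrank K (B ⧸ J)) : I = J :=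
  hw.eq_of_le_of_cdeg_le h hI hc

/-- **A lemma on sets of natural numbers.** Let `H` and `S` have at most `g` missing numbers and
`H + S ⊆ S`. Then every `n ≥ 2g` lies in `S`: otherwise `s ↦ n - s` maps the elements `s ≤ n` of `S`,
at least `n + 1 - g > g` of them, into the complement of `H`. File `H95W1`. -/
theorem mem_of_few_gaps {H S : Set ℕ} (hH : Hᶜ.Finite) (hS : Sᶜ.Finite)
    (hadd : ∀ a ∈ H, ∀ b ∈ S, a + b ∈ S) {g : ℕ} (hHg : Hᶜ.ncard ≤ g) (hSg : Sᶜ.ncard ≤ g)
    {n : ℕ} (hn : 2 * g ≤ n) : n ∈ S :=
  H95.IsWeight.mem_of_gaps hH hS hadd hHg hSg hn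

/-- **The gaps of an ideal.** For every ideal `J ≠ 0` exactly `g` numbers are missing in
`nset K wt J`, as for `B` itself, and no `n ≥ 2g` is missing (previous lemma). This is Riemann-Roch
for divisors of degree `≥ 2g - 1`; the statement about the number `2g - 1` itself is duality
(`GuideTorsion`). File `H95W1`. -/
theorem gaps_of_ideal {K B : Type*} [Field K] [CommRing B] [Algebra K B] {wt : B → WithBot ℕ}
    (hw : IsWeight K wt) {J : Ideal B} (hJ : J ≠ ⊥) :
    (nset K wt J)ᶜ.ncard = H95.genus wt ∧ ∀ n, 2 * H95.genus wt ≤ n → n ∈ nset K wt J :=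
  ⟨hw.nset_compl_ncard hJ, fun _ hn => hw.mem_nset hJ hn⟩

/-- **Riemann's inequality.** Every ideal `J ≠ 0` contains a function `f ≠ 0` of weight at most
`g + dim_K (B / J)`. So every ideal class contains the inverse of an ideal of colength `≤ g`; over an
algebraic closure of a finite field the classes fixed by a power of Frobenius are finite in number,
and a class killed by `n` is described by bounded data (`GuideTorsion`,
`torsion_count_is_first_order`). File `H95W1`. -/
theorem riemann {K B : Type*} [Field K] [CommRing B] [Algebra K B] {wt : B → WithBot ℕ}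
    (hw : IsWeight K wt) {J : Ideal B} (hJ : J ≠ ⊥) :
    ∃ f ∈ J, f ≠ 0 ∧ ∃ n : ℕ, wt f = (n : WithBot ℕ) ∧
      n ≤ H95.genus wt + Module.finrank K (B ⧸ J) :=
  hw.exists_wt_le hJ

/-! ## 3. Invariant divisors -/

open Classical in
/-- **Multiplicities are counts.** `σ` a permutation of `X`, `D ≥ 0` a `σ`-invariant divisor of degree
`n`. The multiplicity `D x` is the number of `r` in `1, ..., n` with `σ^r x = x` and
`x + σ x + ... + σ^(r-1) x ≤ D`. Summing over `x` gives the Euler recursion (`GuideTorsion`,
`euler_recursion`) without Euler products. File `H95Z1`. -/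
theorem multiplicity {X : Type*} {σ : Equiv.Perm X} {n : ℕ} {D : X →₀ ℕ}
    (hD : ∀ x, D (σ x) = D x) (hn : (D.sum fun _ k => k) = n) (x : X) :
    D x = ((Finset.Icc 1 n).filter fun r =>
      (σ ^ r) x = x ∧ (∑ i ∈ Finset.range r, Finsupp.single ((σ ^ i) x) 1) ≤ D).card :=
  H95.Euler.card_filter ⟨hD, hn⟩ x

/-- **Finiteness.** If every power of `σ` (positive exponent) has finitely many fixed points, there are
only finitely many invariant effective divisors of degree `n`. File `H95Z1`. -/
theorem finite_invariant {X : Type*} {σ : Equiv.Perm X}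
    (hfin : ∀ r, 0 < r → {x | (σ ^ r) x = x}.Finite) (n : ℕ) :
    {D : X →₀ ℕ | (∀ x, D (σ x) = D x) ∧ (D.sum fun _ k => k) = n}.Finite :=
  H95.Euler.finite_inv hfin n

/-! ## 4. Power series with a given logarithmic derivative -/

/-- **Logarithmic derivatives.** `H95.IsLogD E S` says that the power series `E` has constant term `1`
and `n e_n = ∑_{r=1}^n S_r e_{n-r}` for its coefficients, i.e. `T E' = (∑ S_r T^r) E`, i.e.
`E = exp (∑ S_r T^r / r)`. File `H95Z2`. -/
theorem isLogD_iff {E : PowerSeries ℂ} {S : ℕ → ℂ} :
    (H95.IsLogD E S ↔ PowerSeries.constantCoeff E = 1 ∧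
      ∀ n : ℕ, (n : ℂ) * PowerSeries.coeff n E =
        ∑ r ∈ Finset.Icc 1 n, S r * PowerSeries.coeff (n - r) E) ∧
    (H95.IsLogD E S ↔ PowerSeries.constantCoeff E = 1 ∧
      PowerSeries.X * PowerSeries.derivative ℂ E =
        PowerSeries.mk (fun r => if r = 0 then 0 else S r) * E) :=
  ⟨Iff.rfl, H95.isLogD_iff⟩

/-- **Rules.** Products of series belong to sums of sequences; `∏ (1 - β T)` belongs to
`- ∑ β^r`; the series determines the numbers `S_r`, `r ≥ 1`, and is determined by them.
File `H95Z2`. -/
theorem logD_rules :
    (∀ (E E' : PowerSeries ℂ) (S S' : ℕ → ℂ), H95.IsLogD E S → H95.IsLogD E' S' →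
      H95.IsLogD (E * E') (S + S')) ∧
    (∀ s : Multiset ℂ,
      H95.IsLogD (s.map fun β => (1 - PowerSeries.C β * PowerSeries.X : PowerSeries ℂ)).prod
        (fun r => - (s.map (· ^ r)).sum)) ∧
    (∀ (E E' : PowerSeries ℂ) (S S' : ℕ → ℂ), H95.IsLogD E S → H95.IsLogD E' S' →
      (∀ r, 0 < r → S r = S' r) → E = E') ∧
    (∀ (E : PowerSeries ℂ) (S S' : ℕ → ℂ), H95.IsLogD E S → H95.IsLogD E S' →
      ∀ r, 0 < r → S r = S' r) :=
  ⟨fun _ _ _ _ h h' => h.mul h', H95.isLogD_prod, fun _ _ _ _ h h' hS => h.ext h' hS,
    fun _ _ _ h h' => h.eq h'⟩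

/-- **Power operation.** Let the polynomial `L` with constant term `1` belong to the sequence `S` and
the polynomial `L'` to the sequence `j ↦ S (r j)`. If `L = ∏ (1 - β T)`, then
`L' (1) = ∏ (1 - β^r)`. (Typical case: `L` and `L'` are the numerators of the zeta functions over the
constant field and over its extension of degree `r`.) File `H95Z2`. -/
theorem eval_one_of_power {L L' : ℂ[X]} (h0 : L.coeff 0 = 1) {S : ℕ → ℂ}
    (h : H95.IsLogD (L : PowerSeries ℂ) S) {r : ℕ} (hr : 0 < r)
    (h' : H95.IsLogD (L' : PowerSeries ℂ) (fun j => S (r * j))) :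
    L'.eval 1 = (L.reverse.roots.map fun β => (1 - β ^ r)).prod :=
  H95.eval_one_eq_prod h0 h hr h'

/-- **Zeros at `1` persist.** In the same situation `L (1) = 0` implies `L' (1) = 0`: one of the `β`
is `1`. This step replaces the theorem of Lang in the proof of the surjectivity of the norms
(`GuideTorsion`, `norm_surjective`): if a nontrivial character `χ` of the classes fixed by `φ^m` kills
all norms from `φ^(mr)`, take for `L` the `L`-polynomial of `χ` (with `L (1) = 0`) and for `L'` the one
of the trivial character over the extension of degree `r`, whose value at `1` is a number of classes,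
hence not `0`. File `H95Z2`. -/
theorem zero_at_one_persists {L L' : ℂ[X]} (h0 : L.coeff 0 = 1) {S : ℕ → ℂ}
    (h : H95.IsLogD (L : PowerSeries ℂ) S) (hL : L.eval 1 = 0) {r : ℕ} (hr : 0 < r)
    (h' : H95.IsLogD (L' : PowerSeries ℂ) (fun j => S (r * j))) : L'.eval 1 = 0 :=
  H95.eval_one_eq_zero h0 h hL hr h'

/-! ## 5. `L`-polynomials -/

/-- **The `L`-polynomial of a character.** `Z` zeta data (`GuideTorsion`, `exists_zetaData`) with class
group `G` and points `X`, `χ : G → ℂ`. For `m ≥ 1` the polynomial `Z.Lp m χ` is
`(1 - q^m T) ∑_n (∑ χ(class of D)) T^n`, the inner sum over the `σ^m`-invariant effective divisors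
`D` of degree `n`. (There is no factor `1 - T` because the point at infinity is left out.) The degree
is at most `2g`, because for `n ≥ 2g` every fixed class has `(q^m)^(n-g)` such divisors.
File `H95Zeta`. -/
theorem Lp_eq {G X : Type*} [CommGroup G] (Z : ZetaData G X) {m : ℕ} (hm : 0 < m) (χ : G → ℂ) :
    (Z.Lp m χ : PowerSeries ℂ) = (1 - PowerSeries.C ((Z.q : ℂ) ^ m) * PowerSeries.X) *
      PowerSeries.mk (fun n => ∑ᶠ D ∈ {D : X →₀ ℕ | (∀ x, D ((Z.σ ^ m) x) = D x) ∧
        (D.sum fun _ k => k) = n}, χ (D.prod fun x k => Z.cl x ^ k)) :=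
  (ZetaData.coe_Lp m χ).trans
    (congrArg (_ * PowerSeries.mk ·) (funext fun n => (ZetaData.finsum_eq_A hm χ n).symm))

/-- **Value at `1`.** It is the sum of `χ` over the classes fixed by `φ^m`; hence the number of these
classes for `χ = 1`, and `0` for a nontrivial character of the group of the fixed classes.
File `H95Zeta`. -/
theorem Lp_eval_one {G X : Type*} [CommGroup G] (Z : ZetaData G X) {m : ℕ} (hm : 0 < m)
    (χ : G → ℂ) :
    (∃ P : Finset G, (∀ κ, κ ∈ P ↔ (Z.φ ^ m) κ = κ) ∧ (Z.Lp m χ).eval 1 = ∑ κ ∈ P, χ κ) ∧
      (Z.Lp m 1).eval 1 = (Nat.card {κ : G // (Z.φ ^ m) κ = κ} : ℂ) :=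
  ⟨⟨Z.Pf m, fun _ => ZetaData.mem_Pf hm, ZetaData.eval_one_Lp m χ⟩,
    ZetaData.eval_one_Lp_one hm⟩

/-- **Logarithmic derivative of an `L`-polynomial.** For `χ` multiplicative on the group of the classes
fixed by `φ^m`, `Z.Lp m χ` belongs to the sequence
`j ↦ ∑_{σ^{mj} x = x} χ (norm of the class of x) - q^{mj}`. By the Euler recursion.
File `H95Zeta`. -/
theorem Lp_isLogD {G X : Type*} [CommGroup G] (Z : ZetaData G X) {m : ℕ} (hm : 0 < m)
    {χ : G → ℂ} (h1 : χ 1 = 1) (hmul : ∀ a b : G, (Z.φ ^ m) a = a → (Z.φ ^ m) b = b →
      χ (a * b) = χ a * χ b) :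
    H95.IsLogD (Z.Lp m χ : PowerSeries ℂ) (fun j =>
      (∑ᶠ x ∈ {x | ((Z.σ ^ m) ^ j) x = x},
        χ (∏ i ∈ Finset.range j, (Z.φ ^ (m * i)) (Z.cl x))) - ((Z.q : ℂ) ^ m) ^ j) :=
  ZetaData.isLogD_Lp hm ⟨h1, hmul⟩

/-- **Integrality.** For the trivial character and `m = 1` the reversed polynomial is monic with
integral coefficients, of degree `2g`, with constant term `q^g`. The constant term is `q^g` because
exactly one class has the gap `2g - 1` (duality); so it is prime to every prime `ℓ` different from the
characteristic, which is needed in section 6. File `H95Zeta`. -/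
theorem Lp_integral {G X : Type*} [CommGroup G] (Z : ZetaData G X) :
    ∃ Q : ℤ[X], Q.Monic ∧ Q.natDegree = 2 * Z.g ∧ Q.coeff 0 = (Z.q : ℤ) ^ Z.g ∧
      Q.map (Int.castRingHom ℂ) = (Z.Lp 1 1).reverse :=
  ⟨_, ZetaData.reverse_Lint⟩

/-! ## 6. Integral matrices, and the order of torsion points -/

/-- **Every monic integral polynomial is the characteristic polynomial of an integral matrix**
(multiplication by `T` on `ℤ[T] / Q`). File `H57Growth` (helper57), as the rest of this section. -/
theorem exists_matrix (Q : ℤ[X]) (hQ : Q.Monic) :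
    ∃ M : Matrix (Fin Q.natDegree) (Fin Q.natDegree) ℤ, M.charpoly = Q :=
  H57.TG.exists_matrix Q hQ

/-- **Spectral mapping for determinants**: `det P(A) = ∏ P(α)`, `α` the eigenvalues of `A`. With
`P = 1 - T^m` the number of the classes fixed by `φ^m` is `det (1 - M^m)` for an integral matrix `M`
of size `2g` with `det M = q^g`. File `H57Growth`. -/
theorem det_aeval {n : Type*} [Fintype n] [DecidableEq n] {K : Type*} [Field K] [IsAlgClosed K]
    (A : Matrix n n K) (p : K[X]) :
    (aeval A p).det = (A.charpoly.roots.map fun α => p.eval α).prod :=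
  H57.TG.det_aeval A p

/-- **Growth of the determinant.** Let `ℓ` be a prime which does not divide `det M`. Some power of
`M` is `1` modulo `ℓ²`; and if `M^m ≡ 1` modulo `ℓ²`, then
`det (1 - M^(mℓ)) = det (1 - M^m) · ℓ^n · u` with `u` prime to `ℓ`, because
`1 + M^m + ... + M^(m(ℓ-1)) = ℓ (1 + ℓ C)`. So the `ℓ`-part of the number of the rational classes
grows by `ℓ^(2g)` with every step `m ↦ mℓ`. File `H57TorsGrowth`. -/
theorem det_growth {n ℓ : ℕ} (hℓ : ℓ.Prime) {M : Matrix (Fin n) (Fin n) ℤ}
    (hdet : ¬ (ℓ : ℤ) ∣ M.det) :
    (∃ m > 0, ∃ B : Matrix (Fin n) (Fin n) ℤ, M ^ m = 1 + ((ℓ : ℤ) ^ 2) • B) ∧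
      ∀ (m : ℕ) (B : Matrix (Fin n) (Fin n) ℤ), M ^ m = 1 + ((ℓ : ℤ) ^ 2) • B →
        ∃ u : ℤ, ¬ (ℓ : ℤ) ∣ u ∧ (1 - M ^ (m * ℓ)).det = (1 - M ^ m).det * ((ℓ : ℤ) ^ n * u) :=
  ⟨H57.TG.exists_pow_eq hℓ hdet, fun _ _ hM => H57.TG.exists_det_eq hℓ hM⟩

/-- **The norm lowers the order by exactly one step.** `φ` an endomorphism of an abelian group for
which `φ^m` is the identity on the elements killed by `ℓ²`, `N = 1 + φ^m + ... + φ^(m(ℓ-1))` the norm.
If `y` has `ℓ`-power order and `ℓ^k N y = 0`, then `ℓ^(k+1) y = 0`. With the surjectivity of the norms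
this gives the divisibility of the `ℓ`-part and, with the growth of the orders, `#G[ℓ^k] = ℓ^(dk)`
(`GuideTorsion`, `torsion_of_growth`). File `H57TorsGrowth`. -/
theorem norm_lowers_order {G : Type*} [AddCommGroup G] {φ : Module.End ℤ G} {ℓ m k : ℕ}
    (h2 : ∀ x : G, ℓ ^ 2 • x = 0 → (φ ^ m) x = x) (j : ℕ) (y : G) (hy : ℓ ^ j • y = 0)
    (hN : ℓ ^ k • (∑ i ∈ Finset.range ℓ, (φ ^ m) ^ i) y = 0) : ℓ ^ (k + 1) • y = 0 :=
  H57.TG.mem_torsion_of_N h2 j y hy hN

/-! ## 7. `Pic⁰` over an algebraic closure of a finite field is a torsion group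

`F / K` a function field in one variable over an algebraically closed field (`H3RR.IsFF`), `t` a
semilinear automorphism of `F` (a field automorphism which maps `K` to itself, by `baseAut t`) which
fixes a transcendental element `x`. Think of `K` as an algebraic closure of a field with `q` elements,
of `F = K(x, y)` with an equation of `y` over that field, and of `t` as the automorphism which raises
the constants to the power `q`. `riemannRochSpace D` is the space `L(D)`, `H3RR.ell D` its dimension
and `H3RR.divOf f` the divisor of `f`. -/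

/-- **Fixed places.** If every constant is fixed by a power of `t`, so is every place: let `x` have the
value `c` at the place, fixed by `t^m`; then `t^m` permutes the places at which `x` has the value `c`,
and they are finitely many (for a pole of `x`: `t` permutes the poles). If `t^m` fixes only finitely
many constants, it fixes only finitely many places, because it fixes the value of `x` at such a place.
File `H95TorsFin`. -/
theorem fixed_places {K F : Type*} [Field K] [Field F] [Algebra K F] [IsAlgClosed K]
    [H3RR.IsFF K F] (t : SemilinearAut K F) {x : F} (htx : t • x = x) (hx : Transcendental K x) :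
    ((∀ c : K, ∃ m, 0 < m ∧ SemilinearAut.baseAut (t ^ m) c = c) →
      ∀ v : Place K F, ∃ m, 0 < m ∧ t ^ m • v = v) ∧
    ∀ m : ℕ, {c : K | SemilinearAut.baseAut (t ^ m) c = c}.Finite →
      {v : Place K F | t ^ m • v = v}.Finite :=
  ⟨H95.Tors.exists_pow_smul_place t htx hx, H95.Tors.finite_fixed_places t htx hx⟩

/-- **Invariant divisors.** Let `G` be a semilinear automorphism of `F`. (1) If `E` is an effective
divisor of degree at most `g` with `G E = E`, then `G^(g!)` fixes every point of `E`: `G` permutes
these points, and there are at most `g`. (2) If `G D = D`, `dim L(D) = 1` and `f ∈ L(D)`, `f ≠ 0`, then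
the divisor of `f` is fixed by `G`: `G f` is in `L(D)`, so it is a constant times `f`. File
`H95TorsFin`. -/
theorem invariant_divisors {K F : Type*} [Field K] [Field F] [Algebra K F] [IsAlgClosed K]
    [H3RR.IsFF K F] (G : SemilinearAut K F) :
    (∀ E : Divisor K F, 0 ≤ E → G • E = E → ∀ g : ℕ, E.degree ≤ g →
      ∀ v ∈ E.support, G ^ g.factorial • v = v) ∧
    ∀ D : Divisor K F, G • D = D → H3RR.ell D = 1 → ∀ f : F, f ≠ 0 → f ∈ riemannRochSpace D →
      G • (H3RR.divOf f : Divisor K F) = H3RR.divOf f :=
  ⟨fun _ h h' _ hg _ hv => H95.Tors.pow_factorial_smul h h' hg hv,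
    fun _ h h1 _ hf hL => H95.Tors.smul_eq_of_ell_one h h1 hf hL⟩

/-- **Finitely many invariant effective divisors.** For `m ≥ 1` and `g` there are only finitely many
effective divisors of degree at most `g` which are fixed by `t^m`, if `t^m` and its powers fix only
finitely many constants: the points of such a divisor are fixed by `t^(m g!)` (`invariant_divisors`),
so they belong to a finite set (`fixed_places`), and the multiplicities are at most `g`. File
`H95TorsFin`. -/
theorem finite_fixed_divisors {K F : Type*} [Field K] [Field F] [Algebra K F] [IsAlgClosed K]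
    [H3RR.IsFF K F] (t : SemilinearAut K F) {x : F} (htx : t • x = x) (hx : Transcendental K x)
    (hfin : ∀ m, 0 < m → {c : K | SemilinearAut.baseAut (t ^ m) c = c}.Finite) (m : ℕ)
    (hm : 0 < m) (g : ℕ) : {E : Divisor K F | 0 ≤ E ∧ E.degree ≤ g ∧ t ^ m • E = E}.Finite :=
  H95.Tors.finite_fixed_divisors t htx hx hfin m hm g

/-- **Torsion.** Every class of degree `0` has finite order. Let `D` be a divisor in the class and `P` a
place. Some power `T = t^m` fixes `P` and the points of `D` (`fixed_places`). For each `i` take the
smallest `n` with `dim L(i D + n P) > 0`; then `n ≤ g` (the genus), the space is a line, and if `f` spans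
it, the effective divisor `i D + n P + (f)` is `T`-invariant (`invariant_divisors`). Two of these
divisors are equal, for `i < i'` (`finite_fixed_divisors`); comparing degrees they have the same `n`,
so `(i' - i) D` is principal. File `H95TorsFin`. -/
theorem pic0_torsion {K F : Type*} [Field K] [Field F] [Algebra K F] [IsAlgClosed K]
    [H3RR.IsFF K F] (t : SemilinearAut K F) {x : F} (htx : t • x = x) (hx : Transcendental K x)
    (hfix : ∀ c : K, ∃ m, 0 < m ∧ SemilinearAut.baseAut (t ^ m) c = c)
    (hfin : ∀ m, 0 < m → {c : K | SemilinearAut.baseAut (t ^ m) c = c}.Finite) (z : Pic0 K F) :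
    ∃ n : ℕ, n ≠ 0 ∧ n • z = 0 :=
  H95.Tors.exists_nsmul_eq_zero t htx hx hfix hfin z

/-- **`J₀(N)` over an algebraic closure `k` of a finite field is a torsion group** (`JZeroC k N` is the
group `Pic⁰` of the field of modular functions of level `N` over `k`, generated by the series `j(q^d)`,
`d ∣ N`; `H94.FunField` says that this field is finite over `k(x)` for a transcendental `x`, true if
`N` is prime to the characteristic). `τ` is the Frobenius automorphism of
`k`; `hroot` says that all non-zero elements of `k` are roots of unity of order prime to `ℓ`.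
File `H95TorsRed`. -/
theorem jZero_torsion (k : Type*) [Field k] [IsAlgClosed k] (ℓ : ℕ) (hℓ : ℓ.Prime)
    (τ : k ≃+* k) (hτ : ∀ x, τ x = x ^ ℓ)
    (hroot : ∀ x : k, x ≠ 0 → ∃ n, 0 < n ∧ Nat.Coprime ℓ n ∧ x ^ n = 1) (N : ℕ)
    [H94.FunField k (ModularCurve.modularFunctionFieldFullC k N)] (z : ModularCurve.JZeroC k N) :
    ∃ m : ℕ, m ≠ 0 ∧ m • z = 0 :=
  H95.jZeroC_torsion k ℓ hℓ τ hτ hroot N z

/-- **The reduction of `J₀(N)` at a good place is a torsion group.** `A` a place of the field of
algebraic numbers above a prime `ℓ` which does not divide `N`: every point has a positive multiple in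
the kernel of reduction. Used in S15 (step 4 of the note on the Eisenstein ideal, NOTES.md A.2: the
rational points have bounded image in the reduction, because `1 + ℓ - T_ℓ` kills this image) and,
through S15, in S01. File `H95TorsRed`. -/
theorem reduction_torsion (N : ℕ) [NeZero N] (ℓ : ℕ) (hℓ : ℓ.Prime) (hℓN : ¬ ℓ ∣ N)
    (A : ValuationSubring (AlgebraicClosure ℚ)) (hA : A.LiesOverPrime ℓ)
    (x : ModularCurve.JZero N) :
    ∃ m : ℕ, m ≠ 0 ∧ ModularCurve.reductionModL A N (m • x) = 0 :=
  H95.torsRed N ℓ hℓ hℓN A hA x

end Fermat.Agent.Guide.Weights
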