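import Fermat.Agent.H39WeilDet

/-!
# Guide: the Weil pairing without divisors

Companion of `GuideCurves` (section 2 there states the result).  It shows the steps of the construction
of the Weil pairing, which Mathlib does not have.  The construction is the one of Mumford's theta group.
For a point `S` of order dividing `n` the translation by `S` does not preserve the space `L(n·O)` of the
functions with at most an `n`-fold pole at infinity, but it does after multiplication by a function
`f_S`; the resulting operator `A_S` on `L(n·O)` is unique up to a constant, so the operators `A_S` and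
`A_T` commute up to a constant, and this constant is `e(S, T)`.

**Why it is convenient here.**
* Bilinearity is formal, since `A_S A_{S'}` is an operator for `S + S'`; `e(S, S) = 1` is trivial.
* Equivariance is formal: conjugate the operators by the automorphism.
* Nondegeneracy is a count of zeros: if `e(S, T) = 1`, the operators have a common eigenvector.
* There is no divisor theory of the curve, no Weil reciprocity, no choice of auxiliary divisors, and no
  separate treatment of the points where functions have zeros or poles: all identities are required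
  only for all but finitely many points.
The only inputs are the coordinate ring and the class group map of Mathlib
(`WeierstrassCurve.Affine.Point.toClass`, which is injective) and explicit formulas for `P + S`.

**Reading order** of the modules: `H39WeilBasic` (section 1), `H39WeilTranslate`, `H39WeilLift` (section 2),
`H39WeilPairing` (section 3), `H39WeilNondeg`, `H39WeilMain` (section 4), `H39WeilGalois`, `H6Det`,
`H39WeilDet` (section 5).

**Serves** all statements in which the Weil pairing or the determinant of `E[n]` occurs: S01, S03, S04,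
S06, S09 and S12 (only the pairing), S38-S41, S43-S46, S50, S58-S60.  **Notes**: NOTES.md [236].

**Notation.**  `W` is an affine Weierstrass curve over a field `F`, `W.CoordinateRing` its ring of functions
(Mathlib), `H39.evalPt h r` the value of `r` at a point `(x, y)` with equation `h`, and
`H39.fn r : W.Point → F` the function on points defined by `r`, with the value `0` at infinity.
`CoordinateRing.mk W` maps polynomials in two variables to functions, `C X` to `x` and `Y` to `y`;
`CoordinateRing.XYIdeal W x (C y)` is the ideal of the point `(x, y)`.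
`∀ᶠ P in cofinite` means: for all but finitely many points `P`.

Text by helper39.
-/

set_option autoImplicit false

open WeierstrassCurve WeierstrassCurve.Affine Polynomial Filter
open scoped nonZeroDivisors Polynomial.Bivariate WeierstrassCurve.Affine

noncomputable section

namespace Fermat.Agent.Guide.Weil

/-! ## 1. Degree of functions -/

/-- Every function is `p(x) + q(x) y`, and its norm to `F[x]` has degree `max (2 deg p, 2 deg q + 3)`.
This number `H39.deg` is the order of the pole at infinity.  It is additive, and a function of degree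
zero is constant.  (File `H39WeilBasic`.) -/
theorem degree {F : Type*} [Field F] {W : Affine F} (r s : W.CoordinateRing) :
    H39.deg r = (Algebra.norm F[X] r).natDegree ∧
      (r ≠ 0 → s ≠ 0 → H39.deg (r * s) = H39.deg r + H39.deg s) ∧
      (H39.deg r = 0 → ∃ c : F, r = algebraMap F W.CoordinateRing c) :=
  ⟨rfl, H39.deg_mul, H39.eq_algebraMap_of_deg_eq_zero⟩

/-- The space `L(n·O)`: `H39.Ldeg W n`.  It has finite dimension.  (File `H39WeilBasic`.) -/
theorem mem_Ldeg_iff {F : Type*} [Field F] {W : Affine F} (n : ℕ) :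
    (∀ r : W.CoordinateRing, r ∈ H39.Ldeg W n ↔ H39.deg r ≤ n) ∧
      Module.Finite F (H39.Ldeg W n) :=
  ⟨fun _ => H39.mem_Ldeg_iff, inferInstance⟩

/-- In coordinates: `p(x) + q(x) y` is in `L(n·O)` if and only if `2 deg p ≤ n` and `2 deg q + 3 ≤ n`
(the degree of the polynomial `0` is `-∞`).  (File `H39WeilBasic`.) -/
theorem coordinates_mem_Ldeg {F : Type*} [Field F] {W : Affine F} (n : ℕ) (p q : F[X]) :
    p • (1 : W.CoordinateRing) + q • CoordinateRing.mk W Y ∈ H39.Ldeg W n ↔
      2 • p.degree ≤ n ∧ 2 • q.degree + 3 ≤ n :=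
  H39.smul_basis_mem_Ldeg_iff p q

/-- **The norm is the product with the conjugate**: `N(r)(x) = r(x, y) r(x, -y - a₁ x - a₃)`.  Hence the
norm and the degree do not change under `P ↦ -P`, and a root of the norm gives a zero of `r`.
(File `H39WeilBasic`.) -/
theorem norm_eq {F : Type*} [Field F] {W : Affine F} {x y : F} (h : W.Equation x y)
    (h' : W.Equation x (W.negY x y)) (r : W.CoordinateRing) :
    (Algebra.norm F[X] r).eval x = H39.evalPt h r * H39.evalPt h' r := by
  rw [← H39.evalPt_conj h h', ← map_mul, ← H39.coe_norm, H39.evalPt_algebraMap_poly]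

/-- **Few zeros**: a function `r ≠ 0` has at most `deg r` zeros.  Proof: the ring of functions modulo `r`
has dimension `deg r` over `F`, and the evaluations at the zeros of `r` are distinct homomorphisms from
it to `F`, hence linearly independent.  (File `H39WeilBasic`.) -/
theorem card_zeros_le {F : Type*} [Field F] [DecidableEq F] {W : Affine F}
    {r : W.CoordinateRing} (hr : r ≠ 0) (s : Finset W.Point)
    (hs : ∀ P ∈ s, P ≠ 0 ∧ H39.fn r P = 0) : s.card ≤ H39.deg r :=
  H39.card_zeros_le hr s hs

/-! ## 2. Translations and the function with multiplier -/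

/-- **The coordinates of `P + S`** for `S = (xs, ys)`.  `H39.rxP`, `H39.ryP` are the numerators of `x(P + S)`
and `y(P + S)` with the denominators `(x - xs)²` and `(x - xs)³`.  As functions on the curve they are in
`L(4·O)` and `L(6·O)`, and in the second and third power of the ideal of the point `S`, which is generated
by `x - xs` and `y - ys`.  (File `H39WeilTranslate`.) -/
theorem translated_coordinates {F : Type*} [Field F] [DecidableEq F] {W : Affine F} {xs ys : F}
    (hS : W.Nonsingular xs ys) :
    (CoordinateRing.mk W (H39.rxP W xs ys) ∈ CoordinateRing.XYIdeal W xs (C ys) ^ 2 ∧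
      CoordinateRing.mk W (H39.rxP W xs ys) ∈ H39.Ldeg W 4 ∧
      ∀ (x y : F) (h : W.Nonsingular x y), x ≠ xs →
        H39.evalPt h.1 (CoordinateRing.mk W (H39.rxP W xs ys)) = (x - xs) ^ 2 *
          H39.fn (CoordinateRing.mk W (C X)) (Point.some x y h + Point.some xs ys hS)) ∧
    (CoordinateRing.mk W (H39.ryP W xs ys) ∈ CoordinateRing.XYIdeal W xs (C ys) ^ 3 ∧
      CoordinateRing.mk W (H39.ryP W xs ys) ∈ H39.Ldeg W 6 ∧
      ∀ (x y : F) (h : W.Nonsingular x y), x ≠ xs →
        H39.evalPt h.1 (CoordinateRing.mk W (H39.ryP W xs ys)) = (x - xs) ^ 3 *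
          H39.fn (CoordinateRing.mk W Y) (Point.some x y h + Point.some xs ys hS)) :=
  ⟨⟨H39.mk_rxP_mem_ideal xs ys, H39.mk_rxP_mem xs ys, fun _ _ h hx => H39.evalPt_rxP hS h hx⟩,
    ⟨H39.mk_ryP_mem_ideal xs ys, H39.mk_ryP_mem xs ys, fun _ _ h hx => H39.evalPt_ryP hS h hx⟩⟩

/-- **The functions which can be translated.**  `H39.Tr hS n` is the space of the functions `φ` for which the
conclusion of the next theorem holds.  The product of functions in `Tr m` and `Tr n` is in `Tr (m + n)`;
`1` is in `Tr 1` (take `s = x - xs`), so `Tr m` is contained in `Tr n` for `m ≤ n`.  By the last theorem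
`x` is in `Tr 2` and `y` in `Tr 3`, so `x^i` is in `Tr (2 i)` and `x^i y` in `Tr (2 i + 3)`, and `L(n·O)`
is spanned by such functions (`coordinates_mem_Ldeg`).  (File `H39WeilTranslate`.) -/
theorem mem_Tr_iff {F : Type*} [Field F] [DecidableEq F] {W : Affine F} {xs ys : F}
    (hS : W.Nonsingular xs ys) (m n : ℕ) :
    (∀ φ : W.CoordinateRing, φ ∈ H39.Tr hS n ↔
      ∃ s : W.CoordinateRing, s ∈ CoordinateRing.XYIdeal W xs (C ys) ^ n ∧
        s ∈ H39.Ldeg W (2 * n) ∧ ∀ (x y : F) (h : W.Nonsingular x y), x ≠ xs →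
          H39.evalPt h.1 s = (x - xs) ^ n *
            H39.fn φ (Point.some x y h + Point.some xs ys hS)) ∧
      (∀ a b : W.CoordinateRing, a ∈ H39.Tr hS m → b ∈ H39.Tr hS n →
        a * b ∈ H39.Tr hS (m + n)) ∧
      (1 : W.CoordinateRing) ∈ H39.Tr hS 1 ∧ (m ≤ n → H39.Tr hS m ≤ H39.Tr hS n) :=
  ⟨fun _ => Iff.rfl, fun _ _ ha hb => H39.mul_mem_Tr hS ha hb, H39.one_mem_Tr_one hS,
    H39.Tr_mono hS⟩

/-- **Translation by `S = (xs, ys)`**: for `φ` in `L(n·O)` there is `s` in `L(2n·O)`, in the `n`-th power
of the ideal of the point `S`, with `s(P) = (x(P) - xs)^n φ(P + S)`.  Proof: for `x` and `y` by the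
formulas for `x(P + S)` and `y(P + S)` (`translated_coordinates`), then products and sums (`mem_Tr_iff`).
(File `H39WeilTranslate`.) -/
theorem exists_translate {F : Type*} [Field F] [DecidableEq F] {W : Affine F} {xs ys : F}
    (hS : W.Nonsingular xs ys) {n : ℕ} {φ : W.CoordinateRing} (hφ : φ ∈ H39.Ldeg W n) :
    ∃ s : W.CoordinateRing, s ∈ CoordinateRing.XYIdeal W xs (C ys) ^ n ∧
      s ∈ H39.Ldeg W (2 * n) ∧ ∀ (x y : F) (h : W.Nonsingular x y), x ≠ xs →
        H39.evalPt h.1 s = (x - xs) ^ n *
          H39.fn φ (Point.some x y h + Point.some xs ys hS) :=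
  H39.Ldeg_le_Tr hS n hφ

/-- **The ideals of `P` and `-P`**: the conjugation `H39.conj W`, `y ↦ -y - a₁ x - a₃`, exchanges them, and
the product of their `n`-th powers is generated by `(x - x(P))^n`.  (File `H39WeilLift`.) -/
theorem ideal_neg {F : Type*} [Field F] {W : Affine F} {x y : F} (h : W.Nonsingular x y) (n : ℕ) :
    (CoordinateRing.XYIdeal W x (C y)).map (H39.conj W) =
        CoordinateRing.XYIdeal W x (C (W.negY x y)) ∧
      CoordinateRing.XYIdeal W x (C (W.negY x y)) ^ n * CoordinateRing.XYIdeal W x (C y) ^ n =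
        Ideal.span {CoordinateRing.XClass W x ^ n} :=
  ⟨H39.map_conj_XYIdeal x y, H39.XYIdeal_pow_mul h n⟩

/-- **The function with divisor `n P - n O`**: if `n P = 0`, the `n`-th power of the ideal of `P` is
generated by a function `f` of degree `n`, without other zeros.  Proof: the `n`-th power of the class of
`P` in the class group is trivial; for the degree, `f` times its conjugate generates the ideal of
`(x - x(P))^n` (`ideal_neg`).  (File `H39WeilLift`.) -/
theorem exists_generator {F : Type*} [Field F] [DecidableEq F] {W : Affine F} {x y : F}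
    (h : W.Nonsingular x y) {n : ℕ} (hn : n • Point.some x y h = 0) :
    ∃ f : W.CoordinateRing, f ≠ 0 ∧ CoordinateRing.XYIdeal W x (C y) ^ n = Ideal.span {f} ∧
      H39.deg f = n ∧ ∀ (x' y' : F) (h' : W.Nonsingular x' y'),
        Point.some x' y' h' ≠ Point.some x y h → H39.evalPt h'.1 f ≠ 0 :=
  H39.exists_generator h hn

/-- **Multiplier.**  For `n S = 0` there is a function `f` of degree `n`, without zeros except at `-S`,
such that `P ↦ f(P) φ(P + S)` is in `L(n·O)` for every `φ` in `L(n·O)`.  Proof: let `f` generate the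
`n`-th power of the ideal of `-S`; the product of this ideal with the one of `S` is generated by
`x - xs`; so `f s`, with `s` as in `exists_translate`, is divisible by `(x - xs)^n`.
(File `H39WeilLift`.) -/
theorem exists_multiplier {F : Type*} [Field F] [DecidableEq F] {W : Affine F} {xs ys : F}
    (hS : W.Nonsingular xs ys) {n : ℕ} (hn : n • Point.some xs ys hS = 0) :
    ∃ f : W.CoordinateRing, f ≠ 0 ∧ H39.deg f = n ∧
      (∀ (x' y' : F) (h' : W.Nonsingular x' y'),
        Point.some x' y' h' ≠ -Point.some xs ys hS → H39.evalPt h'.1 f ≠ 0) ∧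
      ∀ φ ∈ H39.Ldeg W n, ∃ ψ ∈ H39.Ldeg W n, ∀ (x y : F) (h : W.Nonsingular x y), x ≠ xs →
        H39.evalPt h.1 ψ = H39.evalPt h.1 f *
          H39.fn φ (Point.some x y h + Point.some xs ys hS) :=
  H39.exists_multiplier hS hn

/-! ## 3. Lifts and the pairing -/

/-- The space of functions on the set of points defined by `L(n·O)` is `H39.LL W n`; `H39.oneLL n` is the
constant function `1` in it.  A *lift* of the translation by `S` is an operator `A ≠ 0` on this space with
`(A φ)(P) = (A 1)(P) φ(P + S)` for all but finitely many `P`.  (File `H39WeilPairing`.) -/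
theorem isLift_iff {F : Type*} [Field F] [DecidableEq F] [IsAlgClosed F] {W : Affine F}
    [W.IsElliptic] (n : ℕ) (S : W.Point) (A : H39.LL W n →ₗ[F] H39.LL W n) :
    (∀ φ : W.Point → F, φ ∈ H39.LL W n ↔ ∃ r ∈ H39.Ldeg W n, H39.fn r = φ) ∧
      (H39.IsLift n S A ↔ A ≠ 0 ∧ ∀ φ : H39.LL W n, ∀ᶠ P in cofinite,
        (A φ).1 P = (A (H39.oneLL n)).1 P * φ.1 (P + S)) :=
  ⟨fun _ => Iff.rfl, Iff.rfl⟩

/-- **Existence of lifts** for `n S = 0`, from `exists_multiplier`.  (File `H39WeilPairing`.) -/
theorem exists_lift {F : Type*} [Field F] [DecidableEq F] [IsAlgClosed F] {W : Affine F}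
    [W.IsElliptic] {n : ℕ} {S : W.Point} (hn : n • S = 0) :
    ∃ A : H39.LL W n →ₗ[F] H39.LL W n, H39.IsLift n S A :=
  H39.exists_lift hn

/-- **Uniqueness of lifts** up to a constant.  Proof: let `α = A 1`, `β = B 1` and `C = B A⁻¹`.  Then
`α (C ψ) = β ψ` for all `ψ`, hence `α^k γ = β^k` with `γ = C^k 1` in `L(n·O)`, for all `k`.  The degree of
`γ` is at most `n` for every `k`, and `k = n + 1` gives `deg α = deg β`.  So `γ` is constant for `k = 1`.
(File `H39WeilPairing`.) -/
theorem lift_unique {F : Type*} [Field F] [DecidableEq F] [IsAlgClosed F] {W : Affine F}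
    [W.IsElliptic] {n : ℕ} {S : W.Point} {A B : H39.LL W n →ₗ[F] H39.LL W n}
    (hA : H39.IsLift n S A) (hB : H39.IsLift n S B) : ∃ c : F, c ≠ 0 ∧ B = c • A :=
  hA.unique hB

/-- **Composition**: if `A` lifts `S` and `B` lifts `T`, then `A B` lifts `S + T`; lifts are injective.
(File `H39WeilPairing`.) -/
theorem lift_comp {F : Type*} [Field F] [DecidableEq F] [IsAlgClosed F] {W : Affine F}
    [W.IsElliptic] {n : ℕ} {S T : W.Point} {A B : H39.LL W n →ₗ[F] H39.LL W n}
    (hA : H39.IsLift n S A) (hB : H39.IsLift n T B) :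
    H39.IsLift n (S + T) (A ∘ₗ B) ∧ Function.Injective A :=
  ⟨hA.comp hB, hA.injective⟩

/-- **The pairing.**  `H39.WeilRel n S T c` says that some lifts `A` of `S` and `B` of `T` satisfy
`A B = c B A`.  For `n S = n T = 0` there is exactly one such constant `c`, it is not zero, and the relation
holds for all lifts.  (File `H39WeilPairing`.) -/
theorem existsUnique_pairing {F : Type*} [Field F] [DecidableEq F] [IsAlgClosed F] {W : Affine F}
    [W.IsElliptic] {n : ℕ} {S T : W.Point} (hS : n • S = 0) (hT : n • T = 0) :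
    (∀ c : F, H39.WeilRel n S T c ↔ ∃ A B : H39.LL W n →ₗ[F] H39.LL W n,
      H39.IsLift n S A ∧ H39.IsLift n T B ∧ A ∘ₗ B = c • (B ∘ₗ A)) ∧
    ∃ c : F, c ≠ 0 ∧ H39.WeilRel n S T c ∧ (∀ d : F, H39.WeilRel n S T d → d = c) ∧
      ∀ A B : H39.LL W n →ₗ[F] H39.LL W n, H39.IsLift n S A → H39.IsLift n T B →
        A ∘ₗ B = c • (B ∘ₗ A) :=
  ⟨fun _ => Iff.rfl, let ⟨c, hc⟩ := H39.exists_weilRel hS hT
    ⟨c, hc.ne_zero, hc, fun _ hd => hd.unique hc, fun _ _ hA hB => hc.of_lifts hA hB⟩⟩

/-- **Bilinear and alternating.**  (Files `H39WeilPairing`, `H39WeilMain`.) -/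
theorem pairing_bilinear {F : Type*} [Field F] [DecidableEq F] [IsAlgClosed F] {W : Affine F}
    [W.IsElliptic] {n : ℕ} {S S' T : W.Point} {c d : F} (hS : n • S = 0)
    (h : H39.WeilRel n S T c) (h' : H39.WeilRel n S' T d) :
    H39.WeilRel n (S + S') T (c * d) ∧ H39.WeilRel n T S c⁻¹ ∧ H39.WeilRel n S S 1 :=
  ⟨h.add_left h', h.symm, H39.weilRel_self hS⟩

/-- **Equivariance**: let `σ` be an automorphism of the field `F` and `s` the corresponding automorphism of
the group of points (`W` has coefficients in a subfield fixed by `σ`).  Then `e(s S, s T) = σ e(S, T)`: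
conjugation by `σ` maps lifts to lifts.  (File `H39WeilMain`.) -/
theorem pairing_equivariant {F : Type*} [Field F] [DecidableEq F] [IsAlgClosed F] {W : Affine F}
    [W.IsElliptic] {n : ℕ} {S T : W.Point} (σ : F ≃+* F) (s : W.Point ≃+ W.Point)
    (hs : ∀ (x y : F) (h : W.Nonsingular x y),
      ∃ h', s (Point.some x y h) = Point.some (σ x) (σ y) h') {c : F}
    (h : H39.WeilRel n S T c) : H39.WeilRel n (s S) (s T) (σ c) :=
  h.conj hs

/-! ## 4. Nondegeneracy -/

/-- Two commuting lifts have a common eigenvector in `L(n·O)`, since this space is not zero and has finite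
dimension over the algebraically closed field `F`.  (File `H39WeilNondeg`.) -/
theorem exists_common_eigenvector {F : Type*} [Field F] [DecidableEq F] [IsAlgClosed F]
    {W : Affine F} [W.IsElliptic] {n : ℕ} {A B : H39.LL W n →ₗ[F] H39.LL W n}
    (h : A ∘ₗ B = B ∘ₗ A) : ∃ φ : H39.LL W n, φ ≠ 0 ∧ ∃ a b : F, A φ = a • φ ∧ B φ = b • φ :=
  H39.exists_common_eigenvector h

/-- **Counting.**  If `e(S, T) = 1` and `S`, `T` are not both zero, there are at most `n + 2` points of the
form `i S + j T`.  Proof: let `φ` be a common eigenvector of lifts of `S` and `T`, hence of the lifts of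
all `R = i S + j T`.  It is not constant, because the multiplier `f` of a point `R ≠ 0` has degree
`n ≥ 1`; so it has a zero `P₀`.  Then `P₀ + R` is a zero for all these `R ≠ ± P₀`, and there are at most
`n` zeros.  (File `H39WeilNondeg`.) -/
theorem card_le_of_trivial_pairing {F : Type*} [Field F] [DecidableEq F] [IsAlgClosed F]
    {W : Affine F} [W.IsElliptic] {n : ℕ} {S T : W.Point} (hn : 1 ≤ n) (hS : n • S = 0)
    (hT : n • T = 0) (h : H39.WeilRel n S T 1) (hne : S ≠ 0 ∨ T ≠ 0) (s : Finset W.Point)
    (hs : ∀ P ∈ s, ∃ i j : ℕ, P = i • S + j • T) : s.card ≤ n + 2 :=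
  H39.card_le_of_weilRel_one hn hS hT h hne s hs

/-- **The function `e`**: `H39.weil n S T` is the constant of `existsUnique_pairing` for `n S = n T = 0`.
(File `H39WeilMain`.) -/
theorem weil_rules {F : Type*} [Field F] [DecidableEq F] [IsAlgClosed F] {W : Affine F}
    [W.IsElliptic] {n : ℕ} {S S' T : W.Point} (hS : n • S = 0) (hS' : n • S' = 0)
    (hT : n • T = 0) :
    (∀ c : F, H39.weil n S T = c ↔ H39.WeilRel n S T c) ∧
      H39.weil n (S + S') T = H39.weil n S T * H39.weil n S' T ∧
      H39.weil n T (S + S') = H39.weil n T S * H39.weil n T S' ∧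
      H39.weil n S S = 1 ∧ H39.weil n T S = (H39.weil n S T)⁻¹ ∧ H39.weil n S T ^ n = 1 ∧
      ∀ k : ℕ, H39.weil n S (k • T) = H39.weil n S T ^ k :=
  ⟨fun _ => H39.weil_eq_iff hS hT, H39.weil_add_left hS hS' hT, H39.weil_add_right hT hS hS',
    H39.weil_self hS, H39.weil_symm hS hT, H39.weil_pow_eq_one hS hT,
    H39.weil_nsmul_right hS hT⟩

/-- **Primitive root of unity.**  Let `n ≥ 3` and let the points `i S + j T`, `0 ≤ i, j < n`, be distinct.
Then `e(S, T)` is a primitive `n`-th root of unity.  Proof: if its order is `d < n`, then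
`e(S, d T) = 1`, and there are `n (n/d) ≥ 2 n > n + 2` points of the form `i S + j (d T)`.
(File `H39WeilMain`.) -/
theorem isPrimitiveRoot {F : Type*} [Field F] [DecidableEq F] [IsAlgClosed F] {W : Affine F}
    [W.IsElliptic] {n : ℕ} {S T : W.Point} (hn : 3 ≤ n) (hS : n • S = 0) (hT : n • T = 0)
    (hinj : ∀ i j i' j' : ℕ, i < n → j < n → i' < n → j' < n →
      i • S + j • T = i' • S + j' • T → i = i' ∧ j = j') :
    IsPrimitiveRoot (H39.weil n S T) n ∧ H39.WeilRel n S T (H39.weil n S T) :=
  ⟨H39.isPrimitiveRoot_weil hn hS hT hinj, H39.weilRel_weil hS hT⟩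

/-! ## 5. The pairing on `E[n]` and the determinant -/

/-- **The pairing on `E[n]`** is the function `H39.weilTors E n`, the restriction of `H39.weil n`.  The
rules above hold for it; equivariance is the one of section 3 for the action of `σ` on the points, and
a basis of `E[n]` over `ℤ/n` satisfies the condition of `isPrimitiveRoot`.  (File `H39WeilGalois`.) -/
theorem pairing_on_torsion {R S K : Type*} [CommRing R] [Field S] [Field K] [DecidableEq K]
    [Algebra R S] [Algebra S K] [Algebra R K] [IsScalarTower R S K] [IsAlgClosed K] (E : Affine R)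
    [WeierstrassCurve.IsElliptic (E⁄K)] {n : ℕ} (P Q : Submodule.torsionBy ℤ (E⁄K).Point n) :
    H39.weilTors E n P Q = H39.weil n (P : (E⁄K).Point) (Q : (E⁄K).Point) ∧
      (∀ σ : K ≃ₐ[S] K, H39.weilTors E n (σ • P) (σ • Q) = σ (H39.weilTors E n P Q)) ∧
      (3 ≤ n → ∀ b : Module.Basis (Fin 2) (ZMod n) (Submodule.torsionBy ℤ (E⁄K).Point n),
        IsPrimitiveRoot (H39.weilTors E n (b 0) (b 1)) n) :=
  ⟨rfl, fun σ => H39.weilTors_smul σ P Q, H39.isPrimitiveRoot_weilTors_basis⟩

/-- **The Weil pairing on `E[n]`** (the theorem of `GuideCurves`).  (File `H39WeilDet`.) -/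
theorem exists_weilPairing {R S K : Type*} [CommRing R] [Field S] [Field K] [DecidableEq K]
    [Algebra R S] [Algebra S K] [Algebra R K] [IsScalarTower R S K] [IsAlgClosed K] (E : Affine R)
    (hΔ : algebraMap R K E.Δ ≠ 0) {n : ℕ} (hn : 3 ≤ n) :
    ∃ e : Submodule.torsionBy ℤ (E⁄K).Point n → Submodule.torsionBy ℤ (E⁄K).Point n → K,
      (∀ x y z, e (x + y) z = e x z * e y z) ∧ (∀ x y z, e x (y + z) = e x y * e x z) ∧
      (∀ x, e x x = 1) ∧ (∀ x y, e x y ^ n = 1) ∧
      (∀ b : Module.Basis (Fin 2) (ZMod n) (Submodule.torsionBy ℤ (E⁄K).Point n),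
        IsPrimitiveRoot (e (b 0) (b 1)) n) ∧
      (∀ (σ : K ≃ₐ[S] K) x y, e (σ • x) (σ • y) = σ (e x y)) :=
  H39.exists_weilPairing E hΔ hn

/-- **Determinants from pairings** (helper6).  If there is an alternating bilinear pairing on `E[n]` with
values in `K`, equivariant for `σ`, with `e(b₀, b₁)` of order `n` for a basis `b`, then the determinant of
`σ` on `E[n]` is the cyclotomic character: `e(σ b₀, σ b₁) = e(b₀, b₁)^det`.  (File `H6Det`.) -/
theorem det_of_pairing {R S K : Type*} [CommRing R] [Field S] [Field K] [DecidableEq K]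
    [Algebra R S] [Algebra S K] [Algebra R K] [IsScalarTower R S K] {E : Affine R} {n : ℕ}
    [NeZero n]
    (e : Submodule.torsionBy ℤ (E⁄K).Point n → Submodule.torsionBy ℤ (E⁄K).Point n → K)
    (hl : ∀ x y z, e (x + y) z = e x z * e y z) (hr : ∀ x y z, e x (y + z) = e x y * e x z)
    (ha : ∀ x, e x x = 1)
    (b : Module.Basis (Fin 2) (ZMod n) (Submodule.torsionBy ℤ (E⁄K).Point n))
    (hb : orderOf (e (b 0) (b 1)) = n) (σ : K ≃ₐ[S] K)
    (hσ : ∀ x y, e (σ • x) (σ • y) = σ (e x y)) (hn : Nat.card (rootsOfUnity n K) = n) :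
    LinearMap.det (Point.galoisRepModuleEnd S E n σ) =
      (modularCyclotomicCharacter K hn (σ : K ≃+* K) : (ZMod n)ˣ) :=
  H6.det_galoisRepModuleEnd_of_pairing_basis e hl hr ha b hb σ hσ hn

/-- **The determinant of `E[n]` is the cyclotomic character**, for all `n ≥ 1` with `n ≠ 0` in `K`.  For
`n ≤ 2` the group `(ℤ/n)ˣ` is trivial; for `n ≥ 3` use the two theorems above and a basis of `E[n]`
(`Fermat.Agent.H87.EC.exists_basis_torsionBy`).  (File `H39WeilDet`.) -/
theorem det_eq_cyclotomic {R S K : Type*} [CommRing R] [Field S] [Field K] [DecidableEq K]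
    [Algebra R S] [Algebra S K] [Algebra R K] [IsScalarTower R S K] [IsAlgClosed K] (E : Affine R)
    (hΔ : algebraMap R K E.Δ ≠ 0) {n : ℕ} [NeZero n] (hn : (n : K) ≠ 0)
    (hr : Nat.card (rootsOfUnity n K) = n) (σ : K ≃ₐ[S] K) :
    LinearMap.det (Point.galoisRepModuleEnd S E n σ) =
      ((modularCyclotomicCharacter K hr (σ : K ≃+* K) : (ZMod n)ˣ) : ZMod n) :=
  H39.det_galoisRepModuleEnd_eq_cyclotomic E hΔ hn hr σ

end Fermat.Agent.Guide.Weil
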