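import Fermat.Agent.H19W7
import Fermat.Agent.H7ZMod

/-!
# Guide, block (C) of S47: Fourier expansions over a number field and Whittaker functions

Statement served: S47 (blocks (C) and (D)). Companion of `GuideOctCForms`, sections 1 and 2; used also in
`GuideOctCOutput` and `GuideOuterSpace`. Library: `H19W2` to `H19W7` (helper19, also the text). Notes:
[482] NOTES-S47-EXP. This file is imported only by `Guide`; every proof is the citation of theorems of
the library; all of them are in the closure of S47.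

**What is proved here.** Let `K` be a totally complex number field with complex embeddings `e_j`, `j ∈ J`
(one for each place), `H3` hyperbolic 3-space, its points `(z, y)` with `z ∈ ℂ`, `y > 0`. A function `Φ`
on `(H3)^J × Y`, `Y` a space with an action of the matrices `(a b; 0 1)` over `K`, is given, invariant
under these matrices, such that every `Φ(·, y)` has a Fourier expansion. Then all coefficients are values
of one function `κ` on `Y`, the *Whittaker function*:

  `Φ(x, y) = ∑_{α ≠ 0} κ(d(α) y) ∏_j ω(|α_j| y_j) exp(2πi Tr(α z))`, `d(α) = (α 0; 0 1)`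

(`x = (z_j, y_j)_j` in `(H3)^J` with heights `y_j`, and `y` a point of `Y`).

In the application `Y = X_f` is the restricted product over the finite places `w` of the
`PGL₂(K)/U_w` (section 7) and `ω(u) = u K₀(4πu)`. Linear relations between values of `Φ` at finitely
many `y` (Hecke operators) become the same relations for `κ`. The expansion itself comes from the
analytic theorem of helper22 (`GuideOctCForms.exists_expansion`: for a lattice in `ℂ^J`, over the dual
lattice); the passage from the dual lattice in `ℂ^J` to elements of `K` is section 6.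

**Reading order**: 1 uniqueness of multiple Fourier series; 2 expansions with coefficients indexed by
`K`; 3 behaviour under translations, dilations and automorphisms; 4 Whittaker functions, `Y` arbitrary;
5 the trace and the matrices `(a b; 0 1)`; 6 dual lattices; 7 the model `X(K)`.

**Notation.** `H19W.trans e b x` and `H19W.dil e a x`: the actions of `(1 b; 0 1)` and `(a 0; 0 1)` on
`(H3)^J`; `H19W.wt e ω α x` the weight `∏_j ω(|α_j| y_j)`; `H19W.chi e α z` the character
`exp(2πi Tr(α z))`; `H19W.nP b`, `H19W.dP a` the classes of `(1 b; 0 1)`, `(a 0; 0 1)` in `PGL₂(K)`. See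
`notions`.
-/

set_option autoImplicit false

noncomputable section

open NumberField Matrix Module IsDedekindDomain HeightOneSpectrum WithZero
open scoped MatrixGroups

namespace Fermat.Agent.Guide.Whittaker

open Fermat.Agent (H3)
open Fermat.Agent.H59D Fermat.Agent.H59XF
open Fermat.Agent.H7.Z (ee Whit)

/-! ## 1. Uniqueness of multiple Fourier series -/

/-- **Multiple Fourier series.** If `∑ a_n` is absolutely convergent (`n` in `ℤ^d`) and the sum of the
Fourier series `∑ a_n exp(2πi n·x)` is zero at every point of the torus, then all `a_n` are zero (scalar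
product with the character `m` in `L²`). File `H19W2`. -/
theorem torus_uniqueness {d : Type*} [Fintype d] {a : (d → ℤ) → ℂ} (ha : Summable a)
    (h : ∀ x : UnitAddTorus d, ∑' n, a n * UnitAddTorus.mFourier n x = 0) (m : d → ℤ) : a m = 0 :=
  H19W.torus_coeff_eq_zero ha h m

/-- The same for a family of different frequencies `m_j`, in real coordinates. File `H19W2`. -/
theorem family_uniqueness {d : Type*} [Fintype d] {I : Type*} {m : I → d → ℤ}
    (hm : Function.Injective m) {a : I → ℂ} (ha : Summable a)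
    (h : ∀ x : d → ℝ,
      ∑' j, a j * Complex.exp (2 * Real.pi * Complex.I * ∑ i, (m j i : ℂ) * x i) = 0) (j : I) :
    a j = 0 :=
  H19W.family_coeff_eq_zero hm ha h j

/-! ## 2. Expansions with coefficients indexed by a field

`K` is a field of characteristic zero with embeddings `e_j : K → ℂ`, `j ∈ J`, `J` finite. (Nothing else
is needed here. In the application `∑_j 2 Re e_j(x)` is the trace of `x`, see `trace_eq`.) -/

/-- **Notions** of `H19W3`: the pairing of `K` and `ℂ^J`, the trace, the characters, the weight, and the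
actions of `(1 b; 0 1)` and `(a 0; 0 1)` on `(H3)^J`. -/
theorem notions {K : Type*} [Field K] {J : Type*} [Fintype J] (e : J → K →+* ℂ) (ω : ℝ → ℝ) (α b : K)
    (a : Kˣ) (z : J → ℂ) (x : J → H3) :
    H19W.pair e α z = ∑ j, 2 * (e j α * z j).re ∧ H19W.trr e α = ∑ j, 2 * (e j α).re ∧
      H19W.chi e α z = Complex.exp (2 * Real.pi * Complex.I * (H19W.pair e α z : ℂ)) ∧
      H19W.psi e α = Complex.exp (2 * Real.pi * Complex.I * (H19W.trr e α : ℂ)) ∧
      H19W.wt e ω α x = ∏ j, ω (‖e j α‖ * (x j).y) ∧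
      (∀ j, (H19W.trans e b x j).z = (x j).z + e j b ∧ (H19W.trans e b x j).y = (x j).y) ∧
      ∀ j, (H19W.dil e a x j).z = e j a * (x j).z ∧ (H19W.dil e a x j).y = ‖e j a‖ * (x j).y :=
  ⟨rfl, rfl, rfl, rfl, rfl, fun _ => ⟨rfl, rfl⟩, fun _ => ⟨rfl, rfl⟩⟩

section Expansions

variable {K : Type*} [Field K] [CharZero K] {J : Type*} [Fintype J] {e : J → K →+* ℂ}

/-- **Expansions.** `Expands e ω Φ c`: `c(0) = 0`; the support of `c` lies in a lattice (`LatSupp`: there
is a finite set `B` which spans `K` over `ℚ` such that `Tr(α b)` is an integer for `b ∈ B`, if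
`c(α) ≠ 0`); and `Φ(x) = ∑_α c(α) ∏_j ω(|α_j| y_j) exp(2πi Tr(α z))` for all `x = (z, y)`. (Completely
unfolded in `GuideOctCForms.expands_iff`.) -/
theorem expands_iff (ω : ℝ → ℝ) (Φ : (J → H3) → ℂ) (c : K → ℂ) :
    (H19W.Expands e ω Φ c ↔ c 0 = 0 ∧ H19W.LatSupp e c ∧ ∀ x : J → H3,
      HasSum (fun α => c α * H19W.wt e ω α x * H19W.chi e α (fun j => (x j).z)) (Φ x)) ∧
    (H19W.LatSupp e c ↔ ∃ B : Finset K, Submodule.span ℚ (B : Set K) = ⊤ ∧
      ∀ α, c α ≠ 0 → ∀ b ∈ B, ∃ n : ℤ, H19W.trr e (α * b) = n) :=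
  ⟨⟨fun h => ⟨h.1, h.2, h.3⟩, fun h => ⟨h.1, h.2.1, h.2.2⟩⟩, Iff.rfl⟩

/-- **The trace form is nondegenerate**: an element `α` is determined by the numbers `Tr(α b)`, `b` in
a set which spans `K` over `ℚ` (if `δ ≠ 0` then `Tr(δ · δ⁻¹) = 2 #J ≠ 0`). File `H19W3`. -/
theorem trace_form_nondegenerate [Nonempty J] {B : Finset K}
    (hB : Submodule.span ℚ (B : Set K) = ⊤) {α β : K}
    (h : ∀ b ∈ B, H19W.trr e (α * b) = H19W.trr e (β * b)) : α = β :=
  H19W.eq_of_trr_eq e hB h

/-- **Two lattices are commensurable**: the supports of two families of coefficients lie in a common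
lattice. Therefore two expansions of the same function can be compared by `family_uniqueness` on the
real torus with coordinates `u_b`, `z = ∑_b u_b b` (`b ∈ B`); this gives the uniqueness of the
coefficients, `GuideOctCForms.expansion_unique`. File `H19W3`. -/
theorem common_lattice {c c' : K → ℂ} (h : H19W.LatSupp e c) (h' : H19W.LatSupp e c') :
    ∃ B : Finset K, Submodule.span ℚ (B : Set K) = ⊤ ∧
      ∀ α, (c α ≠ 0 ∨ c' α ≠ 0) → ∀ b ∈ B, ∃ m : ℤ, H19W.trr e (α * b) = m :=
  H19W.exists_common_lattice e h h'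

/-! ## 3. Sums, translations, dilations, automorphisms -/

/-- **Linearity** of expansions. File `H19W4`. -/
theorem expands_linear {ω : ℝ → ℝ} {Φ Φ' : (J → H3) → ℂ} {c c' : K → ℂ}
    (h : H19W.Expands e ω Φ c) (h' : H19W.Expands e ω Φ' c') (a : ℂ) :
    H19W.Expands e ω (fun x => Φ x + Φ' x) (fun α => c α + c' α) ∧
      H19W.Expands e ω (fun x => a * Φ x) (fun α => a * c α) :=
  ⟨h.add h', h.smul a⟩

/-- **Translation** by `b ∈ K` multiplies the coefficient of `α` by `exp(2πi Tr(α b))`. File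
`H19W4`. -/
theorem expands_translation {ω : ℝ → ℝ} {Φ : (J → H3) → ℂ} {c : K → ℂ}
    (h : H19W.Expands e ω Φ c) (b : K) :
    H19W.Expands e ω (fun x => Φ (H19W.trans e b x)) (fun α => c α * H19W.psi e (α * b)) :=
  h.trans b

/-- **Dilation** by `a ∈ Kˣ` moves the coefficients: the coefficient of `Φ(a x)` at `α` is `c(α/a)`.
File `H19W4`. -/
theorem expands_dilation {ω : ℝ → ℝ} {Φ : (J → H3) → ℂ} {c : K → ℂ}
    (h : H19W.Expands e ω Φ c) (a : Kˣ) :
    H19W.Expands e ω (fun x => Φ (H19W.dil e a x)) (fun α => c (α * ↑a⁻¹)) :=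
  h.dil a

/-- **Automorphisms.** An automorphism `s` of `K` which permutes the embeddings by `σ` acts on the
expansions: the coefficient of `Φ(x_{σ(j)})` at `α` is `c(s⁻¹ α)`. File `H19W4`. -/
theorem expands_automorphism {ω : ℝ → ℝ} {Φ : (J → H3) → ℂ} {c : K → ℂ}
    (h : H19W.Expands e ω Φ c) (s : K ≃+* K) (σ : Equiv.Perm J)
    (hσ : ∀ j (α : K), e j α = e (σ j) (s α)) :
    H19W.Expands e ω (fun x => Φ (fun j => x (σ j))) (fun α => c (s.symm α)) :=
  h.perm s σ hσ

/-! ## 4. Whittaker functions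

`Y` is a set with maps `d(a) : Y → Y` for `a ∈ Kˣ` (`dY` in the library), `Φ` a function on
`(H3)^J × Y`. -/

/-- **The definition** (`IsW`). `κ : Y → ℂ` is a Whittaker function of `Φ` if for every `y` the
coefficients of `Φ(·, y)` are `κ(d(α) y)` for `α ≠ 0`, and `0` for `α = 0` (`coef`). -/
theorem isW_iff {Y : Type*} (dY : Kˣ → Y → Y) (ω : ℝ → ℝ) (Φ : (J → H3) → Y → ℂ) (κ : Y → ℂ) :
    (H19W.IsW e dY ω Φ κ ↔ ∀ y, H19W.Expands e ω (fun x => Φ x y) (H19W.coef dY κ y)) ∧
      (∀ y, H19W.coef dY κ y (0 : K) = 0) ∧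
      ∀ y (a : Kˣ), H19W.coef dY κ y (a : K) = κ (dY a y) :=
  ⟨Iff.rfl, H19W.coef_zero dY κ, H19W.coef_unit dY κ⟩

/-- **Existence.** If `Φ(a x, d(a) y) = Φ(x, y)` and `Φ(·, y)` has the coefficients `c_y`, then
`κ(y) = c_y(1)` is a Whittaker function: comparing the two expansions of `Φ(·, y)` one gets
`c_y(α) = c_{d(a) y}(α/a)`; put `a = α`. File `H19W4`. -/
theorem exists_isW [Nonempty J] {Y : Type*} {dY : Kˣ → Y → Y} {ω : ℝ → ℝ}
    {Φ : (J → H3) → Y → ℂ} (hω : ∀ u, 0 < u → ω u ≠ 0)
    (hdil : ∀ (a : Kˣ) x y, Φ (H19W.dil e a x) (dY a y) = Φ x y) (c : Y → K → ℂ)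
    (hc : ∀ y, H19W.Expands e ω (fun x => Φ x y) (c y)) :
    H19W.IsW e dY ω Φ (fun y => c y 1) :=
  H19W.exists_isW hω hdil c hc

/-- **Translations.** If moreover `Φ(x + b, n(b) y) = Φ(x, y)` (`tY b` is `n(b)`), then
`κ(n(b) y) exp(2πi Tr b) = κ(y)`. (`h1`: `d(1)` is the identity.) File `H19W4`. -/
theorem whittaker_translation [Nonempty J] {Y : Type*} {dY : Kˣ → Y → Y} {ω : ℝ → ℝ}
    {Φ : (J → H3) → Y → ℂ} {κ : Y → ℂ} (hω : ∀ u, 0 < u → ω u ≠ 0) (h1 : ∀ y, dY 1 y = y)
    (h : H19W.IsW e dY ω Φ κ) {tY : K → Y → Y}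
    (htr : ∀ (b : K) x y, Φ (H19W.trans e b x) (tY b y) = Φ x y) (b : K) (y : Y) :
    κ (tY b y) * H19W.psi e b = κ y :=
  h.trans hω h1 htr b y

/-- **Operators.** If `Φ'(·, y) = ∑_i a_i Φ(·, f_i)` for some `y` and finitely many points `f_i` of `Y`,
then `κ'(y) = ∑_i a_i κ(f_i)`. With this all Hecke equations and the types pass from `Φ` to `κ`. File
`H19W4`. -/
theorem whittaker_operator [Nonempty J] {Y : Type*} {dY : Kˣ → Y → Y} {ω : ℝ → ℝ}
    {Φ Φ' : (J → H3) → Y → ℂ} {κ κ' : Y → ℂ} (hω : ∀ u, 0 < u → ω u ≠ 0)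
    (h1 : ∀ y, dY 1 y = y) (h : H19W.IsW e dY ω Φ κ) (h' : H19W.IsW e dY ω Φ' κ') {T : Type*}
    (s : Finset T) (a : T → ℂ) (f : T → Y) (y : Y)
    (hy : ∀ x, Φ' x y = ∑ i ∈ s, a i * Φ x (f i)) : κ' y = ∑ i ∈ s, a i * κ (f i) :=
  h.operator hω h1 h' s a f y hy

/-- **Automorphisms.** `s` and `σ` as in `expands_automorphism`, `sY` a map of `Y` with
`sY(d(a) y) = d(s⁻¹ a) sY(y)`. Then `κ(sY(y))` is a Whittaker function of `Φ(x_{σ(j)}, sY(y))`. Used for
the automorphism of the cubic extension in the positivity argument (`GuideOctCForms.positivity_on_X`).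
File `H19W4`. -/
theorem whittaker_automorphism {Y : Type*} {dY : Kˣ → Y → Y} {ω : ℝ → ℝ}
    {Φ : (J → H3) → Y → ℂ} {κ : Y → ℂ} (h : H19W.IsW e dY ω Φ κ) (s : K ≃+* K)
    (σ : Equiv.Perm J) (hσ : ∀ j (α : K), e j α = e (σ j) (s α)) (sY : Y → Y)
    (hs : ∀ (a : Kˣ) (y : Y), sY (dY a y) = dY (Units.map (s.symm : K →* K) a) (sY y)) :
    H19W.IsW e dY ω (fun x y => Φ (fun j => x (σ j)) (sY y)) (fun y => κ (sY y)) :=
  h.perm s σ hσ sY hs

end Expansions

/-! ## 5. The trace and the matrices `(a b; 0 1)`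

From now on `K` is a totally complex number field and `m : Model K J` the data of the space `X(K)`: the
embeddings `m.e j`, one for each complex place, and the level `m.L`. -/

section Trace

variable {K : Type*} [Field K] [NumberField K] {J : Type*} [Fintype J] (m : Model K J)

/-- **All embeddings** of `K` in `ℂ` are the `e_j` and their conjugates; so
`Tr(x) = ∑_j 2 Re e_j(x)` and `[K : ℚ] = 2 #J`. File `H19W5`. -/
theorem trace_eq (x : K) :
    Function.Bijective (fun p : J × Bool =>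
      if p.2 then m.e p.1 else ComplexEmbedding.conjugate (m.e p.1)) ∧
    ∑ j, 2 * (m.e j x).re = ((Algebra.trace ℚ K x : ℚ) : ℝ) ∧
      2 * Fintype.card J = Module.finrank ℚ K :=
  ⟨H19W.emb_bijective m, H19W.trr_eq_trace' m x, H19W.two_mul_card m⟩

/-- **Relations** of `n(b) = (1 b; 0 1)` and `d(a) = (a 0; 0 1)` in `PGL₂(K)` (`nP`, `dP`; the same
elements are called `(borP K).n b`, `(borP K).d a` in other files). File `H19W5`. -/
theorem borel_relations {K : Type*} [Field K] (a a' : Kˣ) (b b' : K) :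
    (H19W.nP (b + b') : PGL(2, K)) = H19W.nP b * H19W.nP b' ∧
      (H19W.dP (a * a') : PGL(2, K)) = H19W.dP a * H19W.dP a' ∧
      (H19W.dP a : PGL(2, K)) * H19W.nP b = H19W.nP (a * b) * H19W.dP a ∧
      (H7.Z.borP K).n b = H19W.nP b ∧ (H7.Z.borP K).d a = H19W.dP a :=
  ⟨H19W.nP_add b b', H19W.dP_mul a a', H19W.dP_mul_nP a b, rfl, rfl⟩

/-- **Their action on `(H3)^J`** (`m.actInf` is the action of `PGL₂(K)` through the embeddings): `n(b)`
is the translation by `(e_j b)_j`, `d(a)` the dilation `(z_j, y_j) ↦ (e_j(a) z_j, |e_j(a)| y_j)`. File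
`H19W5`. -/
theorem borel_action (a : Kˣ) (b : K) (x : J → H3) :
    m.actInf (H19W.nP b) x = H19W.trans m.e b x ∧ m.actInf (H19W.dP a) x = H19W.dil m.e a x :=
  ⟨H19W.actInf_nP m b x, H19W.actInf_dP m a x⟩

/-! ## 6. Dual lattices

`ℂ^J` has the real pairing `⟨ν, z⟩ = ∑_j 2 Re(ν_j z_j)` (`H19W.rp`), and `K` is embedded in `ℂ^J` by
`α ↦ (e_j α)_j` (`H19W.eV`); so `⟨α, β⟩ = Tr(α β)`. -/

/-- **The pairing is nondegenerate**, and on `K` it is the trace form. File `H19W6`. -/
theorem pairing (ν : J → ℂ) (h : ∀ z : J → ℂ, ∑ j, 2 * (ν j * z j).re = 0) (α β : K) :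
    ν = 0 ∧ ∑ j, 2 * (m.e j α * m.e j β).re = ((Algebra.trace ℚ K (α * β) : ℚ) : ℝ) :=
  ⟨H19W.eq_zero_of_rp h, H19W.rp_eV m α β⟩

/-- **Dual basis** of a `ℚ`-basis of `K` for the trace form. File `H19W6`. -/
theorem dual_basis {κ : Type*} [Fintype κ] [DecidableEq κ] (bs : Basis κ ℚ K) (i k : κ) :
    Algebra.trace ℚ K (H19W.dualB bs i * bs k) = if k = i then 1 else 0 :=
  H19W.trace_dualB bs i k

/-- **A `ℚ`-basis of `K` is an `ℝ`-basis of `ℂ^J`**: it is linearly independent (pair with the dual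
basis), and the dimensions agree. File `H19W6`. -/
theorem basis_of_space [Nonempty J] {κ : Type*} [Fintype κ] (bs : Basis κ ℚ K) :
    ∃ b : Basis κ ℝ (J → ℂ), ∀ i, b i = fun j => m.e j (bs i) :=
  ⟨H19W.embBasis m bs, H19W.embBasis_apply m bs⟩

/-- **The dual lattice lies in `K`.** Let `bs` be a `ℚ`-basis of `K`. A vector `ν` in `ℂ^J` with
integral pairings with all basis vectors is the image of an element of `K` (an integral combination of
the dual basis). File `H19W6`. -/
theorem dual_lattice_in_K [Nonempty J] {κ : Type*} [Fintype κ] (bs : Basis κ ℚ K) {ν : J → ℂ}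
    (h : ∀ i, ∃ n : ℤ, ∑ j, 2 * (ν j * m.e j (bs i)).re = n) : ∃ β : K, ν = fun j => m.e j β :=
  H19W.exists_dual m bs h

/-- **Conversion.** An expansion of `F` over the dual of the lattice spanned by the image of a `ℚ`-basis
of `K`, with the terms `c(ν) ∏_j y_j k₀(|ν_j| y_j) exp(2πi ⟨ν, z⟩)`, is an expansion with coefficients
`c(α) / ∏_j |α_j|`, `α ∈ K`, in the sense of section 2, with `ω(u) = u k₀(u)`. File `H19W6`. -/
theorem conversion [Nonempty J] {κ : Type*} [Fintype κ] (bs : Basis κ ℚ K) (k0 : ℝ → ℝ)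
    {F : (J → H3) → ℂ} (c : (J → ℂ) → ℂ) (h0 : c 0 = 0)
    (hsupp : ∀ ν, c ν ≠ 0 → ∀ i, ∃ n : ℤ, ∑ j, 2 * (ν j * m.e j (bs i)).re = n)
    (hsum : ∀ x : J → H3, HasSum (fun ν => c ν *
      ((∏ j, ((x j).y * k0 (‖ν j‖ * (x j).y)) : ℝ) : ℂ) *
        Complex.exp (2 * Real.pi * Complex.I * ((∑ j, 2 * (ν j * (x j).z).re : ℝ) : ℂ))) (F x)) :
    H19W.Expands m.e (fun u => u * k0 u) F
      (fun α => c (fun j => m.e j α) / ((∏ j, ‖m.e j α‖ : ℝ) : ℂ)) :=
  H19W.expands_of_fe m bs k0 c h0 hsupp hsum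

end Trace

/-! ## 7. The model `X(K)`

`Y = X_f = XF m.L.fam`: the families `(y_w)` of classes in `PGL₂(K)/U_w`, `w` the finite places, almost
all of them the class of `1`; the `U_w` are the groups of the level (`U0 w` for almost all `w`). -/

section Model

variable {K : Type*} [Field K] [NumberField K] {J : Type*} [Fintype J]

/-- **Small unipotent elements.** `n(b)` is in the group `U0 w` (the classes of the matrices in `GL₂` of
the local ring at `w`) if `b` is integral at `w`; and for every `g` and `n` the conjugates `g⁻¹ n(b) g`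
are in the congruence group `Gam w n` (matrices congruent to `1` modulo the `n`-th power of `w`) if `b` is
small enough. File `H19W7`. -/
theorem small_unipotent (w : HeightOneSpectrum (𝓞 K)) :
    (∀ b : K, w.valuation K b ≤ 1 → (H19W.nP b : PGL(2, K)) ∈ U0 w) ∧
      ∀ (n : ℕ) (g : PGL(2, K)), ∃ k : ℕ, ∀ b : K, w.valuation K b ≤ exp (-(k : ℤ)) →
        g⁻¹ * H19W.nP b * g ∈ Gam w n :=
  ⟨fun _ hb => H19W.nP_mem_U0 hb, H19W.conj_nP_mem_Gam w⟩

/-- **Stabilisers contain a lattice**: for every point `y` of `X_f` there is a `ℚ`-basis of `K`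
consisting of elements `b` with `n(b) y = y` (a multiple `N` of the integral basis, `N` divisible by high
powers of the finitely many places where `y_w` is not the class of `1` or the level is not maximal). So
`Φ(·, y)` is periodic under a lattice. (`L : Level (𝓞 K) K` is a family of subgroups `L.U w`, equal to
`U0 w` for almost all `w`, see `levels` in `GuideUnipotent`; `XF L.fam` is the corresponding `X_f`.)
File `H19W7`. -/
theorem stabiliser (L : Level (𝓞 K) K) (y : XF L.fam) :
    ∃ bs : Basis (Fin (Fintype.card (Module.Free.ChooseBasisIndex ℤ (𝓞 K)))) ℚ K,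
      ∀ i, (H19W.nP (bs i) : PGL(2, K)) • y = y :=
  H19W.exists_stab (H19W.bLevel L) y

/-- **Existence on `X(K)`.** Let `k₀` be a function without zeros on `u > 0` and `P` a property of
functions on `(H3)^J` for which there is an expansion theorem (`hFE`: functions with the property `P`
which are periodic under a lattice of `ℂ^J` have expansions over the dual lattice, without constant
term). Then every function on `X(K)`, invariant under `PGL₂(K)` and with the property `P` in the first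
variable, has a Whittaker function. `P` is "bounded, twice differentiable, `Δ_j Φ = -Φ`" in the
application, where `hFE` is `GuideOctCForms.exists_expansion`. File `H19W7`. -/
theorem exists_whittaker [Nonempty J] (m : Model K J) {k0 : ℝ → ℝ}
    (hk0 : ∀ u, 0 < u → k0 u ≠ 0) {P : ((J → H3) → ℂ) → Prop}
    (hFE : ∀ (κ : Type) [Fintype κ] (b : Basis κ ℝ (J → ℂ)) (F : (J → H3) → ℂ), P F →
      (∀ i x, F (fun j => ⟨(x j).z + b i j, (x j).y, (x j).pos⟩) = F x) →
      ∃ c : (J → ℂ) → ℂ, c 0 = 0 ∧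
        (∀ ν, c ν ≠ 0 → ∀ i, ∃ n : ℤ, ∑ j, 2 * (ν j * b i j).re = n) ∧
        ∀ x : J → H3, HasSum (fun ν => c ν *
          ((∏ j, ((x j).y * k0 (‖ν j‖ * (x j).y)) : ℝ) : ℂ) *
          Complex.exp (2 * Real.pi * Complex.I *
            ((∑ j, 2 * (ν j * (x j).z).re : ℝ) : ℂ))) (F x))
    (Φ : m.X → ℂ) (hG : ∀ (g : PGL(2, K)) (x : m.X), Φ (g • x) = Φ x)
    (hP : ∀ y : XF m.L.fam, P fun x => Φ (x, y)) :
    ∃ κ : XF m.L.fam → ℂ, H19W.IsW m.e (fun (a : Kˣ) (y : XF m.L.fam) => H19W.dP a • y)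
      (fun u => u * k0 u) (fun x y => Φ (x, y)) κ :=
  H19W.exists_kappa m hk0 hFE Φ hG hP

/-- **Equivariance on `X(K)`**: `κ(n(b) y) = exp(-2πi Tr b) κ(y)` (`ee q = exp(2πi q)`); this is the
hypothesis of all theorems in section 3 of `GuideOctCForms`. (`H19W.IsWM m k0 Φ κ` is the conclusion of
`exists_whittaker`: `κ` is a Whittaker function of `Φ`.) File `H19W7`. -/
theorem whittaker_equivariant [Nonempty J] {m : Model K J} {k0 : ℝ → ℝ} {Φ : m.X → ℂ}
    {κ : XF m.L.fam → ℂ} (hk0 : ∀ u, 0 < u → k0 u ≠ 0) (h : H19W.IsWM m k0 Φ κ)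
    (hG : ∀ (g : PGL(2, K)) (x : m.X), Φ (g • x) = Φ x) (b : K) (y : XF m.L.fam) :
    κ ((H19W.nP b : PGL(2, K)) • y) = ee (-Algebra.trace ℚ K b) * κ y :=
  (h.whit hk0 hG).eqv b y

end Model

end Fermat.Agent.Guide.Whittaker
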