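import Fermat.Agent.H63S27Zeta

/-!
# Reader's guide: invariant divisors over an algebraic closure of a finite field (S27)

Every theorem of this file is proved by citing a theorem of the library; nothing here is used by any
other file.  Editor: helper63.  Companion of `GuideTorsion`, section 2 (there: the affine models `B`, the
duality theorem, and what follows from the zeta data).

**What the block does.**  `K` is an algebraic closure of a finite field and `B` a Dedekind domain over `K`
with a weight `wt : B → ℕ ∪ {-∞}`: the ring of the functions on a curve which are regular outside one point,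
and the order of the pole at this point.  Let `φ` be a Frobenius automorphism of `B`.  The zeta function of
the curve and its `L`-functions count the effective divisors which are invariant under `φ^m`, in a given
ideal class.  The guide shows how this number is computed without cohomology and without the theorem of
Riemann and Roch for curves over finite fields, only with weights:

1. the normalised set of weights `nset J` of an ideal `J` depends only on the class of `J`; it has exactly `g`
   gaps (`GuideWeights`), and every class contains exactly one ideal of minimal colength, which is at most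
   `g`;
2. a `φ`-stable ideal contains a fixed element of every possible weight (Hilbert's theorem 90 for the additive
   group of `K`), so the fixed elements of weight smaller than `n` can be counted;
3. hence the number of stable ideals of colength `n` in a class;
4. translation into divisors: the zeta data of `GuideTorsion`.

**Where it is used.**  S27 (`Pic⁰[ℓ^k]` has `ℓ^(2gk)` elements), and with it in S01, S03, S04, S06, S19, S32,
S38, S43, S45, S46, S50, S59, S60.  `NOTES.md`, Appendix A, notes [155] (item 8), [85], [135], [166].

**References.**  H. Stichtenoth, *Algebraic function fields and codes*, chapter V; F. K. Schmidt, Math. Z. 33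
(1931).
-/

set_option autoImplicit false

namespace Fermat.Agent.Guide.ZetaData

open IsDedekindDomain
open Fermat.Agent.H95 (IsWeight IsFrob wts cdeg nset)
open Fermat.Agent.H63
open scoped nonZeroDivisors

/-! ## 1. Weights, colengths, reduced ideals

`IsWeight K wt` is written out in `GuideTorsion.isWeight_iff`.  In sections 1 to 3 the hypotheses on `K` and
`B` are those of the `variable` lines: `K` is algebraically closed and `B` is a Dedekind domain from the line
on where it is said. -/

/-- **Sets of weights.**  `wts wt V` is the set of the weights of the nonzero elements of `V`, `cdeg K J` the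
dimension of `B / J` over `K`, and `nset K wt J` the set of the numbers `wt f - cdeg K J ≥ 0`, `f ∈ J`,
`f ≠ 0`.  The genus `H95.genus wt` is the number of gaps of `wts wt B`.  File `H95Defs`. -/
theorem definitions {K B : Type*} [Field K] [CommRing B] [Algebra K B] (wt : B → WithBot ℕ) (V : Set B)
    (J : Ideal B) :
    wts wt V = {n : ℕ | ∃ f ∈ V, wt f = (n : WithBot ℕ)} ∧ cdeg K J = Module.finrank K (B ⧸ J) ∧
      nset K wt J = {n : ℕ | n + cdeg K J ∈ wts wt (J : Set B)} ∧
      H95.genus wt = (wts wt (Set.univ : Set B))ᶜ.ncard :=
  ⟨rfl, rfl, rfl, rfl⟩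

section Ideals

variable {K B : Type*} [Field K] [IsAlgClosed K] [CommRing B] [Algebra K B] [IsDedekindDomain B]
  {wt : B → WithBot ℕ}

/-- **The colength is additive** (all residue fields are `K`, because `K` is algebraically closed).  File
`H63S27W2`. -/
theorem colength_mul (hw : IsWeight K wt) {I J : Ideal B} (hI : I ≠ ⊥) (hJ : J ≠ ⊥) :
    cdeg K (I * J) = cdeg K I + cdeg K J :=
  cdeg_mul hw hI hJ

omit [IsAlgClosed K] in
/-- **The normalised set of weights depends only on the ideal class** (multiplication by `x` adds `wt x` to
the weights and to the colength), and it contains `0` only for the principal ideals.  `K` is any field.  File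
`H63S27W2`. -/
theorem nset_of_class (hw : IsWeight K wt) :
    (∀ I J : (Ideal B)⁰, ClassGroup.mk0 I = ClassGroup.mk0 J →
      nset K wt (I : Ideal B) = nset K wt (J : Ideal B)) ∧
      ∀ J : (Ideal B)⁰, 0 ∈ nset K wt (J : Ideal B) ↔ ClassGroup.mk0 J = 1 :=
  ⟨nset_eq hw, zero_mem_nset_iff hw⟩

/-- **Reduced ideals**: every ideal class contains exactly one ideal of minimal colength, and this colength is
at most the genus.  (Let `A` be an ideal in the inverse class and `f ∈ A` an element of minimal weight; it is
unique up to constants; take `J = f A⁻¹`.)  File `H63S27W2`. -/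
theorem exists_reduced_ideal (hw : IsWeight K wt) (κ : ClassGroup B) :
    ∃ J : (Ideal B)⁰, ClassGroup.mk0 J = κ ∧ cdeg K (J : Ideal B) ≤ H95.genus wt ∧
      ∀ J' : (Ideal B)⁰, ClassGroup.mk0 J' = κ → cdeg K (J' : Ideal B) ≤ cdeg K (J : Ideal B) → J' = J :=
  exists_reduced hw κ

end Ideals

/-! ## 2. Fixed elements of stable ideals -/

section Fixed

variable {K B : Type*} [Field K] [CommRing B] [Algebra K B] {wt : B → WithBot ℕ} {q : ℕ} {ψ : B ≃+* B}

/-- **Frobenius automorphisms** (`IsFrob K q wt ψ`): an automorphism `ψ` of the ring `B` with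
`ψ(c f) = c^q ψ(f)` for `c ∈ K`, which fixes an element of every weight.  (Its existence, for a power `q` of
`p`: `GuideTorsion.exists_frobenius`.)  The powers of a Frobenius automorphism are Frobenius automorphisms.
Files `H95Defs`, `H63S27W4`. -/
theorem isFrob_iff : (IsFrob K q wt ψ ↔ (∀ (c : K) (f : B), ψ (c • f) = c ^ q • ψ f) ∧
      ∀ n ∈ wts wt Set.univ, ∃ e : B, wt e = (n : WithBot ℕ) ∧ ψ e = e) ∧
    (IsFrob K q wt ψ → ∀ m : ℕ, IsFrob K (q ^ m) wt ((ψ : RingAut B) ^ m)) :=
  ⟨⟨fun h => ⟨h.1, h.2⟩, fun h => ⟨h.1, h.2⟩⟩, fun h m => isFrob_pow h m⟩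

/-- **A Frobenius automorphism preserves the weights.**  File `H63S27W4a`. -/
theorem frobenius_preserves_weight (hw : IsWeight K wt) (hψ : IsFrob K q wt ψ) (f : B) :
    wt (ψ f) = wt f :=
  frob_wt hw hψ f

/-- **Hilbert's theorem 90**: over an algebraically closed field the equation `a^q - a = c` has a solution.
And the elements with `c^(p^k) = c` are `p^k` in number, if `p` is the characteristic.  File `H63S27W4a`. -/
theorem hilbert_ninety {K : Type*} [Field K] [IsAlgClosed K] :
    (∀ (q : ℕ) (_ : 1 < q) (c : K), ∃ a : K, a ^ q - a = c) ∧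
      ∀ (p k : ℕ) [Fact p.Prime] [CharP K p], 0 < k →
        {c : K | c ^ p ^ k = c}.Finite ∧ {c : K | c ^ p ^ k = c}.ncard = p ^ k :=
  ⟨fun _ hq c => exists_pow_sub_eq hq c, fun _ _ _ _ hk => card_fixed hk⟩

variable [IsAlgClosed K]

/-- **A stable ideal contains a fixed element of every possible weight** (`wts wt J`: the weights of its
elements).  Proof by induction on the weight: let `g ∈ J` have the weight `n` and the same leading coefficient
as a fixed element of `B`.  Then `t = g - ψ(g) ∈ J` has smaller weight, and `ψ(w) - w = t` has a solution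
`w ∈ J` of smaller weight, by the theorem for smaller weights and Hilbert's theorem 90; the element `g + w` is
fixed.  File `H63S27W4a`. -/
theorem exists_fixed_element (hw : IsWeight K wt) (hψ : IsFrob K q wt ψ) (hq : 1 < q) {J : Ideal B}
    (hJ : ∀ f ∈ J, ψ f ∈ J) (n : ℕ) (hn : n ∈ wts wt (J : Set B)) :
    ∃ f ∈ J, ψ f = f ∧ wt f = (n : WithBot ℕ) :=
  exists_fixed_mem hw hψ hq hJ n hn

/-- **The number of fixed elements** of weight smaller than `n` in a stable ideal `J` is `q^k`, `k` the number
of weights of `J` smaller than `n`.  The hypothesis `hK` says that `K` contains a field with `q` elements.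
File `H63S27W4a`. -/
theorem card_fixed_elements (hw : IsWeight K wt) (hψ : IsFrob K q wt ψ) (hq : 1 < q)
    (hK : {c : K | c ^ q = c}.Finite ∧ {c : K | c ^ q = c}.ncard = q) {J : Ideal B}
    (hJ : ∀ f ∈ J, ψ f ∈ J) (n : ℕ) :
    {f | f ∈ J ∧ ψ f = f ∧ wt f < (n : WithBot ℕ)}.Finite ∧
      {f | f ∈ J ∧ ψ f = f ∧ wt f < (n : WithBot ℕ)}.ncard =
        q ^ (wts wt (J : Set B) ∩ Set.Iio n).ncard :=
  card_fixLt hw hψ hq hK hJ n

/-! ## 3. Stable ideals in a class -/

variable [IsDedekindDomain B]

/-- **A stable ideal in a stable class**: a class `κ` which is invariant under `ψ` contains a `ψ`-stable ideal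
of colength at most `g`, namely the reduced ideal.  (`clAut ψ` is the action of `ψ` on the class group.)  File
`H63S27W4`. -/
theorem exists_stable_ideal (hw : IsWeight K wt) (hψ : IsFrob K q wt ψ) {κ : ClassGroup B}
    (hκ : clAut (ψ : RingAut B) κ = κ) :
    ∃ J : (Ideal B)⁰, ClassGroup.mk0 J = κ ∧ cdeg K (J : Ideal B) ≤ H95.genus wt ∧
      (J : Ideal B).map (ψ : B →+* B) = J :=
  exists_stable_reduced hw hψ hκ

/-- **The number of stable ideals of colength `n` in the class `κ`**: let `J` be a stable ideal in the class
`κ⁻¹`.  There are no such ideals if `n` is not in `nset J`; otherwise their number is `q^k`, `k` the number of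
elements of `nset J` smaller than `n`.  (An ideal `I` of this kind is `f J⁻¹` with a fixed `f ∈ J` of weight
`n + cdeg J`, unique up to the `q - 1` constants `c` with `c^(q-1) = 1`.)  File `H63S27W4b`. -/
theorem card_stable_ideals (hw : IsWeight K wt) (hψ : IsFrob K q wt ψ) (hq : 1 < q)
    (hK : {c : K | c ^ q = c}.Finite ∧ {c : K | c ^ q = c}.ncard = q) (κ : ClassGroup B)
    (J : (Ideal B)⁰) (hJ : (J : Ideal B).map (ψ : B →+* B) = J) (hJκ : ClassGroup.mk0 J = κ⁻¹) (n : ℕ) :
    {I : (Ideal B)⁰ | (I : Ideal B).map (ψ : B →+* B) = I ∧ ClassGroup.mk0 I = κ ∧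
        cdeg K (I : Ideal B) = n}.Finite ∧
      {I : (Ideal B)⁰ | (I : Ideal B).map (ψ : B →+* B) = I ∧ ClassGroup.mk0 I = κ ∧
        cdeg K (I : Ideal B) = n}.ncard =
        (open Classical in if n ∈ nset K wt (J : Ideal B) then
          q ^ (nset K wt (J : Ideal B) ∩ Set.Iio n).ncard else 0) :=
  card_stableIdeals hw hψ hq hK κ J hJ hJκ n

/-- **Finiteness**: a Frobenius automorphism fixes only finitely many maximal ideals and only finitely many
ideal classes.  (A stable ideal of bounded colength contains a fixed element of bounded weight, and there are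
only finitely many such elements.)  File `H63S27W4`. -/
theorem finitely_many_fixed (hw : IsWeight K wt) (hψ : IsFrob K q wt ψ) (hq : 1 < q)
    (hK : {c : K | c ^ q = c}.Finite ∧ {c : K | c ^ q = c}.ncard = q) :
    {x : HeightOneSpectrum B | ptMap ψ x = x}.Finite ∧
      {κ : ClassGroup B | clAut (ψ : RingAut B) κ = κ}.Finite :=
  ⟨finite_fixed_points hw hψ hq hK, finite_fixed_classes hw hψ hq hK⟩

end Fixed

/-! ## 4. Divisors and the zeta data

A maximal ideal of `B` is an element of `HeightOneSpectrum B`; an effective divisor is a finitely supported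
function `D` from the maximal ideals to `ℕ`. -/

section Divisors

variable {B : Type*} [CommRing B] [IsDedekindDomain B]

/-- **Ideals and effective divisors**: `idl D = ∏ v^(D v)` is a bijection from the effective divisors to the
nonzero ideals; `idl D` is stable under the automorphism `ψ` if and only if `D` is invariant under the
permutation `ptMap ψ : v ↦ ψ(v)` of the maximal ideals.  File `H63S27W4c`. -/
theorem divisors_and_ideals :
    (∀ D : HeightOneSpectrum B →₀ ℕ, (idl D : Ideal B) = (D.toMultiset.map fun v => v.asIdeal).prod) ∧
      Function.Bijective (idl (B := B)) ∧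
      ∀ (ψ : B ≃+* B) (D : HeightOneSpectrum B →₀ ℕ),
        (idl D : Ideal B).map (ψ : B →+* B) = idl D ↔ ∀ v, D (ptMap ψ v) = D v :=
  ⟨coe_idl, ⟨idl_injective, idl_surjective⟩, idl_stable_iff⟩

/-- **The colength is the degree of the divisor.**  File `H63S27W4`. -/
theorem colength_is_degree {K : Type*} [Field K] [IsAlgClosed K] [Algebra K B] {wt : B → WithBot ℕ}
    (hw : IsWeight K wt) (D : HeightOneSpectrum B →₀ ℕ) :
    cdeg K (idl D : Ideal B) = D.sum fun _ k => k :=
  cdeg_idl hw D

/-- **Every class is fixed by a power of the Frobenius automorphism**, if every element of `K` lies in a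
finite field.  (Every element of `B` is a combination of fixed elements with coefficients in `K`, so a finite
set of generators of an ideal is fixed by a power.)  File `H63S27W4`. -/
theorem exists_power_fixing_class {K : Type*} [Field K] [IsAlgClosed K] [Algebra K B]
    {wt : B → WithBot ℕ} (hw : IsWeight K wt) {p e : ℕ} {φ : B ≃+* B} (hφ : IsFrob K (p ^ e) wt φ)
    (hK : ∀ c : K, ∃ m, 0 < m ∧ c ^ p ^ m = c) (κ : ClassGroup B) :
    ∃ m, 0 < m ∧ clAut ((φ : RingAut B) ^ m) κ = κ :=
  exists_fix_class hw hφ hK κ

/-- **The zeta data** of a weighted Dedekind algebra over an algebraic closure of a finite field, with a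
Frobenius automorphism `φ`: all the facts above together, and duality (`GuideTorsion.duality`).  The fields of
the structure `H95.ZetaData` are explained in `GuideTorsion.exists_zetaData`; the main one is the number of
`φ^m`-invariant effective divisors of degree `n` in a class fixed by `φ^m`.  File `H63S27Zeta`. -/
theorem exists_zeta_data {K : Type*} [Field K] [IsAlgClosed K] [Algebra K B] {wt : B → WithBot ℕ}
    (p : ℕ) [Fact p.Prime] [CharP K p] (e : ℕ) (he : 0 < e)
    (hK : ∀ c : K, ∃ m, 0 < m ∧ c ^ p ^ m = c) (hw : IsWeight K wt) (φ : B ≃+* B)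
    (hφ : IsFrob K (p ^ e) wt φ) :
    ∃ Z : H95.ZetaData (ClassGroup B) (HeightOneSpectrum B), Z.q = p ^ e ∧ Z.g = H95.genus wt :=
  exists_zetaData p e he hK hw φ hφ

end Divisors

end Fermat.Agent.Guide.ZetaData
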