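import Fermat.Agent.GuideAbelian
import Fermat.Agent.GuideAbelianScheme
import Fermat.Agent.GuideAbelianTools
import Fermat.Agent.GuideAbelianTorsion
import Fermat.Agent.GuideAbsGal
import Fermat.Agent.GuideAffineModel
import Fermat.Agent.GuideAtkinLehner
import Fermat.Agent.GuideBadRed
import Fermat.Agent.GuideBadRedSteps
import Fermat.Agent.GuideBessel
import Fermat.Agent.GuideBoundedKernels
import Fermat.Agent.GuideBoundedRank
import Fermat.Agent.GuideBridge
import Fermat.Agent.GuideBridgeSteps
import Fermat.Agent.GuideCarayol
import Fermat.Agent.GuideCarayolModel
import Fermat.Agent.GuideCarayolSteps
import Fermat.Agent.GuideCarayolTools
import Fermat.Agent.GuideChartModules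
import Fermat.Agent.GuideCharts
import Fermat.Agent.GuideChebotarev
import Fermat.Agent.GuideClassBound
import Fermat.Agent.GuideClassField
import Fermat.Agent.GuideCoefficients
import Fermat.Agent.GuideCohomology
import Fermat.Agent.GuideCongruenceRelation
import Fermat.Agent.GuideConnectedness
import Fermat.Agent.GuideConstantTerms
import Fermat.Agent.GuideCube
import Fermat.Agent.GuideCubicCharacter
import Fermat.Agent.GuideCurves
import Fermat.Agent.GuideCurvesLocal
import Fermat.Agent.GuideCurvesSteps
import Fermat.Agent.GuideCurvesTate
import Fermat.Agent.GuideCuspidalHecke
import Fermat.Agent.GuideCuspidalSteps
import Fermat.Agent.GuideCusps
import Fermat.Agent.GuideDecomposition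
import Fermat.Agent.GuideDeformationSteps
import Fermat.Agent.GuideDeformations
import Fermat.Agent.GuideDeligneSerre
import Fermat.Agent.GuideDeligneSerreSteps
import Fermat.Agent.GuideDensity
import Fermat.Agent.GuideDeuring
import Fermat.Agent.GuideDihedral
import Fermat.Agent.GuideDivisionValues
import Fermat.Agent.GuideDlog
import Fermat.Agent.GuideEigen
import Fermat.Agent.GuideEigenLifting
import Fermat.Agent.GuideEigenModules
import Fermat.Agent.GuideEigenSteps
import Fermat.Agent.GuideEigenfunctions
import Fermat.Agent.GuideEigensystems
import Fermat.Agent.GuideEisenstein
import Fermat.Agent.GuideEisensteinIndex
import Fermat.Agent.GuideEisensteinOne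
import Fermat.Agent.GuideEisensteinSizes
import Fermat.Agent.GuideEisensteinSteps
import Fermat.Agent.GuideEisensteinTate
import Fermat.Agent.GuideEllipticPoints
import Fermat.Agent.GuideEndgame
import Fermat.Agent.GuideEulerChar
import Fermat.Agent.GuideEulerSteps
import Fermat.Agent.GuideEvaluation
import Fermat.Agent.GuideExtensionSteps
import Fermat.Agent.GuideFermatSmall
import Fermat.Agent.GuideFixedFunctions
import Fermat.Agent.GuideFlat
import Fermat.Agent.GuideFlatBound
import Fermat.Agent.GuideFlatCurve
import Fermat.Agent.GuideFlatDescent
import Fermat.Agent.GuideFlatOrder
import Fermat.Agent.GuideFlatOrders
import Fermat.Agent.GuideFlatOrdinary
import Fermat.Agent.GuideFlatSteps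
import Fermat.Agent.GuideFlatTorsion
import Fermat.Agent.GuideFormalEigensystems
import Fermat.Agent.GuideFourier
import Fermat.Agent.GuideFrames
import Fermat.Agent.GuideFramesSteps
import Fermat.Agent.GuideFrey
import Fermat.Agent.GuideFreySteps
import Fermat.Agent.GuideFrobeniusAtP
import Fermat.Agent.GuideFunctionField
import Fermat.Agent.GuideFunctionLifting
import Fermat.Agent.GuideGalois
import Fermat.Agent.GuideGaloisAction
import Fermat.Agent.GuideGaloisPoints
import Fermat.Agent.GuideGaussSeries
import Fermat.Agent.GuideGenus
import Fermat.Agent.GuideGluing
import Fermat.Agent.GuideGoodCurve
import Fermat.Agent.GuideHasseH2
import Fermat.Agent.GuideHecke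
import Fermat.Agent.GuideHeckeReduction
import Fermat.Agent.GuideHeckeRings
import Fermat.Agent.GuideHeights
import Fermat.Agent.GuideHeightsGlobal
import Fermat.Agent.GuideHeightsSteps
import Fermat.Agent.GuideHolomorphy
import Fermat.Agent.GuideHyperbolic
import Fermat.Agent.GuideIcosahedral
import Fermat.Agent.GuideIgusa
import Fermat.Agent.GuideIgusaModel
import Fermat.Agent.GuideIharaSteps
import Fermat.Agent.GuideIntegralForms
import Fermat.Agent.GuideJacobianCharts
import Fermat.Agent.GuideJacobianGeometry
import Fermat.Agent.GuideJacobianSteps
import Fermat.Agent.GuideJacobians
import Fermat.Agent.GuideKernel
import Fermat.Agent.GuideKummerFunctions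
import Fermat.Agent.GuideKummerSteps
import Fermat.Agent.GuideKummerTheory
import Fermat.Agent.GuideKummerUnits
import Fermat.Agent.GuideLargeImage
import Fermat.Agent.GuideLatticeReps
import Fermat.Agent.GuideLatticeTypes
import Fermat.Agent.GuideLattices
import Fermat.Agent.GuideLayers
import Fermat.Agent.GuideLevelCohomology
import Fermat.Agent.GuideLevelSequences
import Fermat.Agent.GuideLevelThree
import Fermat.Agent.GuideLevelTwo
import Fermat.Agent.GuideLevels
import Fermat.Agent.GuideLevelsAtP
import Fermat.Agent.GuideLevelsAtPSteps
import Fermat.Agent.GuideLevelsIhara
import Fermat.Agent.GuideLevelsMazur
import Fermat.Agent.GuideLevelsMazurSteps
import Fermat.Agent.GuideLevelsOdd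
import Fermat.Agent.GuideLevelsPoints
import Fermat.Agent.GuideLevelsRaising
import Fermat.Agent.GuideLevelsS44
import Fermat.Agent.GuideLifting
import Fermat.Agent.GuideLiftingAlgebra
import Fermat.Agent.GuideLiftingComposition
import Fermat.Agent.GuideLiftingGalois
import Fermat.Agent.GuideLiftingHecke
import Fermat.Agent.GuideLiftingSteps
import Fermat.Agent.GuideLocalBounds
import Fermat.Agent.GuideLocalGlobal
import Fermat.Agent.GuideLocalLattices
import Fermat.Agent.GuideLocalNorms
import Fermat.Agent.GuideLogForm
import Fermat.Agent.GuideLogFormTrace
import Fermat.Agent.GuideMazur
import Fermat.Agent.GuideMazurDescent
import Fermat.Agent.GuideMazurJacobian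
import Fermat.Agent.GuideMazurSteps
import Fermat.Agent.GuideModularCurves
import Fermat.Agent.GuideModularEquation
import Fermat.Agent.GuideModularForms
import Fermat.Agent.GuideModuliPoint
import Fermat.Agent.GuideModuliSteps
import Fermat.Agent.GuideMordellWeil
import Fermat.Agent.GuideNewforms
import Fermat.Agent.GuideNode
import Fermat.Agent.GuideNodeAnalysis
import Fermat.Agent.GuideNodeParameters
import Fermat.Agent.GuideNodeSteps
import Fermat.Agent.GuideNonEisenstein
import Fermat.Agent.GuideNotions
import Fermat.Agent.GuideNotionsCurves
import Fermat.Agent.GuideNotionsDeformations
import Fermat.Agent.GuideNotionsForms
import Fermat.Agent.GuideNotionsGalois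
import Fermat.Agent.GuideNotionsSchemes
import Fermat.Agent.GuideOctC
import Fermat.Agent.GuideOctCBad
import Fermat.Agent.GuideOctCForms
import Fermat.Agent.GuideOctCGeom
import Fermat.Agent.GuideOctCInert
import Fermat.Agent.GuideOctCInfinity
import Fermat.Agent.GuideOctCKernels
import Fermat.Agent.GuideOctCLevel
import Fermat.Agent.GuideOctCLocal
import Fermat.Agent.GuideOctCOperator
import Fermat.Agent.GuideOctCOrbital
import Fermat.Agent.GuideOctCOutput
import Fermat.Agent.GuideOctCSeparation
import Fermat.Agent.GuideOctCSetup
import Fermat.Agent.GuideOctCSpec
import Fermat.Agent.GuideOctCSpecSteps
import Fermat.Agent.GuideOctCSplit
import Fermat.Agent.GuideOctCSteps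
import Fermat.Agent.GuideOctCTarget
import Fermat.Agent.GuideOctCTwists
import Fermat.Agent.GuideOctD
import Fermat.Agent.GuideOctDForm
import Fermat.Agent.GuideOctDTheta
import Fermat.Agent.GuideOctN
import Fermat.Agent.GuideOctT
import Fermat.Agent.GuideOctT2
import Fermat.Agent.GuideOctT2Steps
import Fermat.Agent.GuideOctZ
import Fermat.Agent.GuideOctahedral
import Fermat.Agent.GuideOctahedralGal
import Fermat.Agent.GuideOrderPPoints
import Fermat.Agent.GuideOrdinary
import Fermat.Agent.GuideOrdinaryLocal
import Fermat.Agent.GuideOuterSpace
import Fermat.Agent.GuideParabolic
import Fermat.Agent.GuidePatching
import Fermat.Agent.GuidePatchingSteps
import Fermat.Agent.GuidePeriod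
import Fermat.Agent.GuidePeriodLattice
import Fermat.Agent.GuidePeriodSteps
import Fermat.Agent.GuidePeriods
import Fermat.Agent.GuidePetersson
import Fermat.Agent.GuidePoisson
import Fermat.Agent.GuidePoitouTate
import Fermat.Agent.GuideProRep
import Fermat.Agent.GuideProjectiveLine
import Fermat.Agent.GuideQuadRec
import Fermat.Agent.GuideQuarticCharacter
import Fermat.Agent.GuideQuaternaryTheta
import Fermat.Agent.GuideRadial
import Fermat.Agent.GuideRaisingSteps
import Fermat.Agent.GuideRamification
import Fermat.Agent.GuideRealEisenstein
import Fermat.Agent.GuideRealisation
import Fermat.Agent.GuideRedPic
import Fermat.Agent.GuideReduction
import Fermat.Agent.GuideResidual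
import Fermat.Agent.GuideResidualFlat
import Fermat.Agent.GuideResidualSteps
import Fermat.Agent.GuideResidualTheta
import Fermat.Agent.GuideResidualThree
import Fermat.Agent.GuideRiemannRoch
import Fermat.Agent.GuideS44Classes
import Fermat.Agent.GuideS44Steps
import Fermat.Agent.GuideSaturation
import Fermat.Agent.GuideSelmerTwo
import Fermat.Agent.GuideSemilocal
import Fermat.Agent.GuideSeparation
import Fermat.Agent.GuideShaTwo
import Fermat.Agent.GuideSheaves
import Fermat.Agent.GuideSiegel
import Fermat.Agent.GuideSiegelSets
import Fermat.Agent.GuideSiegelSteps
import Fermat.Agent.GuideSieve
import Fermat.Agent.GuideSmoothCurves
import Fermat.Agent.GuideSmoothPoints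
import Fermat.Agent.GuideSpecialFibre
import Fermat.Agent.GuideStableLines
import Fermat.Agent.GuideStrictOrdinary
import Fermat.Agent.GuideSwitch
import Fermat.Agent.GuideSymbolDuality
import Fermat.Agent.GuideTSide
import Fermat.Agent.GuideTWChoice
import Fermat.Agent.GuideTWCondition
import Fermat.Agent.GuideTWDihedral
import Fermat.Agent.GuideTWModules
import Fermat.Agent.GuideTWSteps
import Fermat.Agent.GuideTables
import Fermat.Agent.GuideTameRings
import Fermat.Agent.GuideTateJacobian
import Fermat.Agent.GuideTateModule
import Fermat.Agent.GuideTaylorWiles
import Fermat.Agent.GuideThaine
import Fermat.Agent.GuideThetaClasses
import Fermat.Agent.GuideThetaCongruence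
import Fermat.Agent.GuideThetaFinite
import Fermat.Agent.GuideThetaGauss
import Fermat.Agent.GuideThetaGrowth
import Fermat.Agent.GuideThetaInversion
import Fermat.Agent.GuideThetaIsotropic
import Fermat.Agent.GuideThetaLaplace
import Fermat.Agent.GuideThetaSeries
import Fermat.Agent.GuideThreeSheets
import Fermat.Agent.GuideTorsion
import Fermat.Agent.GuideTorsionGrowth
import Fermat.Agent.GuideTorsionTools
import Fermat.Agent.GuideTrace
import Fermat.Agent.GuideTraceSteps
import Fermat.Agent.GuideTwistEmbedding
import Fermat.Agent.GuideTwistedForms
import Fermat.Agent.GuideTwists
import Fermat.Agent.GuideTwoAdicCurve
import Fermat.Agent.GuideTwoComponents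
import Fermat.Agent.GuideTwoReciprocity
import Fermat.Agent.GuideTwoSheets
import Fermat.Agent.GuideTypeAtTwo
import Fermat.Agent.GuideUniformisation
import Fermat.Agent.GuideUnipotent
import Fermat.Agent.GuideUnitCocycles
import Fermat.Agent.GuideUnitRoot
import Fermat.Agent.GuideUnramified
import Fermat.Agent.GuideVectorForms
import Fermat.Agent.GuideVelu
import Fermat.Agent.GuideWeierstrass
import Fermat.Agent.GuideWeightOne
import Fermat.Agent.GuideWeightTwoFunctions
import Fermat.Agent.GuideWeights
import Fermat.Agent.GuideWeil
import Fermat.Agent.GuideWhittaker
import Fermat.Agent.GuideZetaData

/-!
# Reader's guide: table of contents

The files `Fermat/Agent/Guide*.lean` are a reader's guide to the proof which is checked by Lean.  Every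
theorem in them is the exact statement of a theorem of the library, or of a definition which is unfolded, with
all hypotheses written out.  Its proof is a citation, and its docstring says what the statement means, how it
is proved and in which module.  There are 298 files with 8712 theorems.  They contain no new mathematics, and
nothing in the rest of the library depends on them.

This file has no declarations.  It imports all files of the guide, and no other file imports any of them
(where a header says that nothing imports the file, the present one is not counted).  So

    lake build Fermat.Agent.Guide

checks the whole guide (on a machine with 16 GiB of memory set `LEAN_NUM_THREADS=3`); the statements can then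
be inspected with `#check` and `#print axioms`.  The theorems of the file `GuideX` are in the namespace
`Fermat.Agent.Guide.X`.

**The proof in ten steps.** Every name is a theorem of the guide: `Endgame.level_two` is the theorem
`Fermat.Agent.Guide.Endgame.level_two` of the file `GuideEndgame`.

1. The cases `n = 3` and `n = 4` are in Mathlib. A solution with a prime exponent `p ≥ 5` gives a Frey
   package and its Frey curve `E` (`Endgame.frey_package_of_solution`, `Endgame.fermat_of_no_frey_package`).
2. `E` is semistable with even discriminant (`Endgame.frey_semistable_even`), and `E[p]` is unramified
   outside `2 p` (`Frey.S05`).
3. `E[p]` is irreducible (`Endgame.frey_irreducible`). Otherwise it has a cofixed line (`Frey.S13`). For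
   `p ≤ 13` there are no Frey packages at all (`FermatSmall.no_freyPackage_small`). For `p ≥ 17` a quotient
   of `E` would have a rational point of order `p`, and this is excluded by Mazur's descent on `J₀(p)`
   (`Mazur.s12_of_s15`, `Mazur.s15_of`, `MazurDescent.abstract_core`).
4. If `W` is semistable with even discriminant, `W[3]` is modular (`Residual.even_discriminant`): `W` is
   congruent modulo 3 to a curve with dihedral 2-torsion (`Residual.m1_partner`), and this curve is modular
   by a 2-adic argument (`Residual.goodCurve_modular`).
5. Modularity lifting for `p = 3` and `p = 5` by one patching argument (`Lifting.squarefree_lifting`).
6. `W[3]` or `W[5]` is irreducible (`Switch.S51`), and `W` is congruent modulo 5 to a semistable curve `W'`,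
   with even discriminant if `W` has, such that `W'[3]` is irreducible (`Switch.switch_five`).
7. By 4, 5 and 6 the semistable curves with even discriminant are modular (`Endgame.even_modular_of`,
   `Endgame.even_modular`); in particular `E` and `E[p]` are modular (`Endgame.frey_modular`,
   `Endgame.frey_modular_mod_p`).
8. Level lowering for `E[p]`. The prime `p` is removed from the level by `LevelsS44.level_lowering_at_p`,
   the odd primes `q ≠ p` by `Levels.S43_level_lowering`: Mazur's principle (`LevelsMazur.mazur_principle`),
   and where it does not decide, a patching argument (`Levels.LL`, `LevelsIhara.no_patching`).
9. So there is a cusp form `≠ 0` of weight two and level 2 (`Endgame.level_two`); but there is none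
   (`ModularForms.no_forms_of_level_one_and_two`).
10. Hence there is no Frey package (`Endgame.no_frey_package`), and Fermat's Last Theorem is true
    (`Endgame.fermat_last_theorem`).

Steps 3, 4, 5 and 8 rest on the theory of `X₀(N)` and `J₀(N)`, here as function fields and divisor class
groups, and of their Galois representations (parts 4 and 5 below).

**The main line.**  A reader who reads only the following 40 files, in this order, sees the whole proof of
Fermat's Last Theorem (S01):

* the endgame, Frey curves: `GuideEndgame`, `GuideFermatSmall`, `GuideFrey`, `GuideCurves`,
  `GuideCurvesTate`, `GuideSwitch`.
* Mazur's theorem: `GuideMazur`, `GuideMazurDescent`, `GuideMazurJacobian`, `GuideEisenstein`.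
* modular forms, `X₀(N)` and `J₀(N)`: `GuideModularForms`, `GuidePeriods`, `GuideModularCurves`,
  `GuideFunctionField`, `GuideHecke`, `GuideReduction`, `GuideTorsion`, `GuideFlatTorsion`, `GuideBridge`.
* Galois representations: `GuideGalois`, `GuideEigen`, `GuideFlat`, `GuideFrames`, `GuideOrdinary`,
  `GuideBadRed`, `GuideNewforms`, `GuideCarayol`.
* change of level: `GuideLevels`, `GuideLevelsMazur`, `GuideLevelsIhara`, `GuideLevelsS44`.
* residual modularity at 3: `GuideResidual`.
* modularity lifting: `GuidePoitouTate`, `GuideDeformations`, `GuideTaylorWiles`, `GuideHeckeRings`,
  `GuideLifting`, `GuideLiftingGalois`, `GuideLiftingHecke`, `GuideLiftingAlgebra`.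

For the statements which are not used for S01, or only in part, the main line is:

* S16: `GuideEisensteinIndex`.
* S17: `GuideMordellWeil`.
* S25: `GuideJacobians`.
* S26: `GuideAbelian`.
* S39, S40: `GuideLevelsAtP`.
* S41: `GuideLevelsRaising`.
* S46, S50, S60: `GuideResidualThree`.
* S47: `GuideOctahedral`, `GuideOctD`, `GuideOctC`, `GuideOctN`, `GuideOctT`, `GuideOctT2`, `GuideOctZ`.
* S48, S49: `GuideDeligneSerre`.

**How to read the list.**  The files are in reading order.  The files of the main line are in bold type;
companions, which contain the steps of the proofs, are indented below the file to which they belong.  Part 0
explains the notions which occur in the frozen statements.  The prose is in `NOTES.md`: sections 2, 3 and 8,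
and the notes of the authors in Appendix A, to which the headers of the guide files point.  In the list, the
numbers are the frozen statements which a file serves directly (`library`: used for many of them).

## 0. The notions of the frozen statements

The definitions of `Fermat/Prelude` unfolded; no mathematics. A reader who wants to know what the 60
statements say starts here.

* `GuideNotions` (S01 - S13, S15, S38 - S45, S50 - S52, S58 - S60): Frey packages, torsion points, inertia,
  eigenforms, modularity.
* `GuideNotionsForms` (S16, S20 - S24, S30 - S36, S46 - S49, S54): Hecke algebras, integral structures,
  periods, genus formula, Eisenstein ideal, weight one.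
* `GuideNotionsGalois` (S29 - S36, S38, S53, S54, S56): Galois representations over fields and local rings,
  local conditions.
* `GuideNotionsDeformations` (S14, S31 - S34, S53 - S57): deformation rings, Hecke rings, patching,
  cohomology, extensions.
* `GuideNotionsCurves` (S17 - S19, S24, S27, S37): places, divisors, genus, `J₀(N)`, Galois action,
  correspondences, reduction.
* `GuideNotionsSchemes` (S25, S26, S28): group laws, line bundles, the Jacobian, the Igusa scheme.

## 1. The endgame (NOTES, section 2)

The proof on one page: how Fermat's Last Theorem follows from the main theorems.

* **`GuideEndgame`** (S01 - S13, S43 - S45, S51, S52, S59): Fermat's Last Theorem from the main theorems: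
  Frey curve, torsion, level lowering, even semistable curves, lifting.
* **`GuideFermatSmall`** (S02, S10, S11, S14): Frey packages; the exponents 5, 7, 11, 13; extensions of
  `μ_p` by `ℤ/p`.
  * `GuideExtensionSteps` (S14): the steps of S14: the cocycle of an extension of `μ_p` by `ℤ/p`, its Kummer
    generator, the local computation at `1 - ζ`, characters of the class group and the theorem of Thaine,
    eigenspaces of the units.
  * `GuideThaine` (S14): Thaine's theorem for `1 - ζ` step by step: a unit of norm one, Hilbert 90,
    exponents and discrete logarithms at the primes above `q`.

## 2. Frey curves and elliptic curves over `ℚ` (NOTES, 3.1)

* **`GuideCurves`** (library): group law, division polynomials, `E[n]`, Weil pairing, finite fields,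
  reduction.
  * `GuideCurvesSteps` (library): steps of the proofs of `GuideCurves`.
  * `GuideWeil` (library): the Weil pairing on `E[n]` without divisors (lifts of translations to `L(nO)`)
    and the determinant of `E[n]`.
* `GuideCurvesLocal` (library): multiplicative primes (results), kernel of reduction, points of order two.
* `GuideNode` (library): elliptic curves at a prime of multiplicative reduction, without Tate curves.
  * `GuideNodeSteps` (library): more steps of the proofs of `GuideNode`.
* **`GuideCurvesTate`** (library): `W[p]` and `T_p W`: flat, ordinary, odd, absolutely irreducible,
  Taylor-Wiles condition.
  * `GuideTateModule` (library): from the groups `W[p^n]` to the Tate module: compatible bases, limits of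
    matrices, determinant, ramification, flatness, strictly ordinary, absolutely irreducible.
  * `GuideFlatCurve` (library): finite flat models of the torsion of a curve with good reduction, step by
    step.
  * `GuideNonEisenstein` (S38 - S41, S43, S44): why an irreducible `W[p]` is not Eisenstein: linear algebra
    in a plane, two lemmas of group theory, density of Frobenius elements, change of equation.
* **`GuideFrey`** (S05, S13): the Frey curve: `E[p]` is unramified outside `2p`; reducible implies a cofixed
  line.
  * `GuideFreySteps` (S02, S05, S13): from a solution of the Fermat equation to the Frey curve, step by
    step: Frey packages, integral model, semistability, exponents of the discriminant, places over odd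
    primes.
* **`GuideSwitch`** (S51, S52): `W[3]` or `W[5]` is irreducible; the 3-5 switch.
  * `GuideIcosahedral` (S52): Klein's icosahedral forms, the points of order five and their addition, why
    the 5-congruent family has the same Frobenius matrix.

## 3. Mazur's theorem (NOTES, 3.2)

* **`GuideMazur`** (S09, S12, S15): the statements; S12 from S15; cusps, cuspidal class, S15 from its
  inputs.
* `GuideModuliPoint` (S15): from an elliptic curve with a point of order `p` to a place of `X₀(p)`.
  * `GuideWeierstrass` (S15): the Weierstrass function: addition theorem, duplication formula, division by
    `p`, step by step.
  * `GuideVelu` (S15): the node without Tate curves: components of points and the quotient of discriminants,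
    step by step.
  * `GuideModuliSteps` (S15): from a curve with a point of order `p` to a place of `X₀(p)`, step by step:
    modular unit, analytic point, specialisation, conjugate valuation rings.
* **`GuideMazurDescent`** (S15): the Eisenstein descent: the abstract core of S15.
  * `GuideMazurSteps` (S09, S12, S15): details for `GuideMazur`, `GuideMazurDescent` and `GuideEisenstein`:
    points near a node, the quotient curve, the minimal model and the odd primes, dévissage and Kummer
    classes, pairs of cusp forms, the Tate module of the Eisenstein part, commutation of the Hecke
    correspondences.
  * `GuideKummerUnits` (S15): the Kummer classes at `r` in the Eisenstein descent are units (norms from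
    unramified extensions instead of finite flatness); counting Kummer classes over `ℚ`.
  * `GuideCuspidalSteps` (S15): the cusps of `X₀(p)`, the modular unit and its divisor, the order of the
    cuspidal class.
  * `GuideCuspidalHecke` (S15): Hecke operators on the cuspidal class of `X₀(p)`, by places of function
    fields.
* **`GuideMazurJacobian`** (S15): the general facts on `J₀(N)` which the descent needs.
  * `GuideKernel` (S12, S15, S39, S40): kernel of reduction of `J₀(N)` at a good place: orbit sums,
    divisibility, norms, Hecke correspondences.
  * `GuideHeckeReduction` (S15, S39, S40): Hecke operators preserve the kernel of reduction of `J₀(N)`.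
* **`GuideEisenstein`** (S15): the Eisenstein part of the torsion of `J₀(N)`.
  * `GuideEisensteinTate` (S15): the `r`-adic Galois representations of the Eisenstein part of `J₀(N)`.
  * `GuideEisensteinSizes` (S15): the sizes of the Eisenstein parts: the steps of `GuideEisenstein`, section
    1.
* `GuideLogForm` (S15): cusp forms modulo `r` as logarithmic differentials.
  * `GuideKummerFunctions` (S15): Kummer functions of torsion classes, logarithmic derivatives,
    multiplicative Hecke operator.
  * `GuideLogFormTrace` (S15): the divisor of a logarithmic cusp form modulo `r` is divisible by `r`.
* **`GuideEisensteinIndex`** (S16): the index of the Eisenstein ideal.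
  * `GuideEisensteinSteps` (S16): the steps of the proof of S16: duality, quaternary lattice and theta
    series, finite Weil representation, Sturm bound at both cusps, auxiliary forms.

## 4. Modular forms, modular curves and `J₀(N)` (NOTES, 3.3)

* **`GuideModularForms`** (S07, S08, S20, S23): dimension formula, rationality and integrality of cusp
  forms.
  * `GuideVectorForms` (S20): vector valued modular forms of level one, step by step.
  * `GuideIntegralForms` (S23): cusp forms with integral coefficients, step by step.
  * `GuideProjectiveLine` (S20, S21, S24, S28): the cosets of `Γ₀(N)`: index, fixed points, cusps, genus
    formula.
* **`GuidePeriods`** (S21, S22): periods of cusp forms, cohomology of `Γ₀(N)`, Hecke algebras.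
  * `GuidePeriodSteps` (S22): periods in all weights, step by step: primitives, finiteness, Hecke operators,
    Eichler integrals.
  * `GuideParabolic` (S21, S24): homomorphisms from `Γ₀(N)` which kill the parabolic elements: the bound by
    numbers of orbits, step by step.
  * `GuidePeriodLattice` (S43): the lattice of periods of `Γ₀(N)` and its Hecke operators: functionals, full
    lattice, characteristic polynomials.
* `GuidePetersson` (library): Petersson product by weights, `T_p` self-adjoint, Hecke algebras away from the
  level are semisimple and reduced.
* **`GuideModularCurves`** (S24, S28): the function field of `X₀(N)`: genus, Igusa's theorem.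
  * `GuideModularEquation` (library): `[F_N : K(j)] = ψ(N)` in every characteristic: modular equations, step
    by step.
  * `GuideCusps` (S24, S36): expansions of modular functions and embeddings of `F_N` in `ℂ((z))`; modular
    polynomial over `ℤ`; the cusps of `X₀(q² m)`.
  * `GuideWeightTwoFunctions` (S12, S15, S44): a form of weight two as a function with bounded poles,
    through weight 12 divided by `Δ`.
  * `GuideRamification` (S24): places, differentials, the theorem of Riemann and Hurwitz, the two genera in
    characteristic zero.
  * `GuideIgusaModel` (S28, S36): the Igusa model of `X₀(N)` over `ℤ_(ℓ)` and its fibre; integral functions
    and derivations.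
  * `GuideSaturation` (S28): the fibre of `X₀(N)` at a prime not dividing `N` in detail: the chart rings are
    saturated.
* **`GuideFunctionField`** (S18): Riemann-Roch, reduction of function fields and of `Pic⁰`, function field
  of `X₀(N)`.
  * `GuideRiemannRoch` (library): the proof of the theorem of Riemann and Roch.
  * `GuideDeuring` (S18): reduction of divisors after Deuring and lifting of roots, step by step; the
    reduction datum of `X₀(N)`.
  * `GuideRedPic` (S15, S17, S19, S32): reduction of divisor classes, coordinates on the kernel,
    inertia-invariant lifts; the fibre identity.
* **`GuideHecke`** (S37): correspondences, Hecke operators on `J₀(N)`, congruence relation of Eichler and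
  Shimura.
  * `GuideCongruenceRelation` (S37): the relation of Eichler and Shimura step by step: norm of `f(q^ℓ)` by
    `ℓ + 1` embeddings, reduction, divisors, `Pic⁰`, Hecke module.
* **`GuideReduction`** (library): from `q`-expansions to reductions: Gauss valuations, good reduction of
  `X₀(m)`, the two components of `X₀(mq)`, reduction of divisors, semistable models.
  * `GuideIgusa` (library): Igusa's theorem in genus form: good reduction of the function field of `X₀(N)`.
  * `GuideGaussSeries` (library): Gauss norms of Laurent series and the components of `X₀(mq)`: steps of the
    proofs of `GuideReduction`, sections 2 - 4.
  * `GuideTwoSheets` (S33 - S35, S43, S44): the steps of the proofs: cusps, regular functions of the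
    components, the two sheets over `X₀(m)`, the semistable model of `X₀(mq)`.
* **`GuideTorsion`** (S27): torsion of `Pic⁰` in characteristic zero: duality, zeta functions, transfer.
  * `GuideTorsionTools` (S27): duality for weights and torsion classes by elements: the steps of two
    theorems of `GuideTorsion`.
  * `GuideAffineModel` (S27): the affine model of a curve with one point at infinity: gaps, genus, `Pic⁰` =
    class group.
  * `GuideTables` (S27): multiplication tables of affine curves, the Jacobian criterion, first order
    predicates.
  * `GuideWeights` (S15, S27): the calculus of weights, zeta and L-polynomials; `Pic⁰` over an algebraic
    closure of a finite field is torsion.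
  * `GuideTorsionGrowth` (S27): torsion from the growth of fixed points: the kernel of the norm, the norm
    lowers the order by one step, divisibility.
  * `GuideZetaData` (S27): counting invariant divisors over an algebraic closure of a finite field by
    weights.
* **`GuideFlatTorsion`** (S19): the `ℓ`-power torsion of `J₀(N)` is finite flat at `ℓ ∤ N`.
  * `GuideFlatSteps` (S19, S32): the addition lemma for residue discs: values, zeros in a disc, expansions,
    analytic functions on a finite set, the function with given zeros.
  * `GuideFlatOrder` (S19): the analytic order on a finite group of divisor classes: coordinates of classes,
    analytic maps, generators, transport by the decomposition group, assembly of S19.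
  * `GuideFlatDescent` (S19): from a place above `ℓ` to `ℤ_(ℓ)`: rank one, decomposition and inertia at a
    finite level, traces, functions equivariant for the whole Galois group.
* **`GuideMordellWeil`** (S17): the theorem of Mordell and Weil for `J₀(N)`.
  * `GuideHeights` (S17): heights on a curve over `ℚ̄` without Jacobians: all absolute values, sections,
    Siegel's lemma, positivity.
  * `GuideHeightsSteps` (S17): local heights on a curve, step by step (section formula).
  * `GuideHeightsGlobal` (S17): global heights on a curve, step by step (Northcott, pairing, linear
    equations).
  * `GuideUniformisation` (library): the complex uniformisation of `Pic⁰`: analytic discs from Newton and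
    implicit functions, compactness by ultrafilters, residual lemma, exponential map of a local group,
    maximum principle.
* **`GuideJacobians`** (S25): the Jacobian of a smooth proper curve over an algebraically closed field: two
  charts, lattices on the projective line, charts of the Picard functor, gluing, smoothness and properness.
  * `GuideSheaves` (S25): the calculus of line bundles on schemes: generators, pull back, gluing, base
    change of sections, Picard group.
  * `GuideSmoothCurves` (S25): smooth curves over an algebraically closed field: local rings, Dedekind
    rings, the diagonal, rational functions, finite maps to the line, the presentation by two charts.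
  * `GuideLattices` (S25): vector bundles on the projective line as lattices: Horrocks, finiteness, base
    change, openness, Euler characteristic.
  * `GuideJacobianCharts` (S25): the charts of the Picard functor.
  * `GuideTwists` (S25): divisors and degrees on a curve in families: the line bundles `L(-x)`.
  * `GuideChartModules` (S25): modules given by matrices over a curve are invertible: determinants and the
    fibre lemma.
  * `GuideJacobianSteps` (S25): the assembly of the Jacobian: lattices of line bundles, Euler
    characteristics of classes, charts twisted by classes, the scheme which represents good bundles,
    effective classes, the map from `C^d`, algebraic equivalence.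
  * `GuideJacobianGeometry` (S25): nilpotent thickenings, the infinitesimal criterion, geometry from points
    and covers, the line bundle of a matrix.
* **`GuideAbelian`** (S26): the `n`-torsion points of an abelian variety: abstract varieties, heights on
  curves, theorems of the square and of the cube by specialisation, evaluation lemma, count.
  * `GuideAbelianScheme` (S26): from an abelian scheme to an abstract variety.
  * `GuideEvaluation` (S26): the evaluation lemma: reduction at places, generic points as sums of curves,
    vanishing on a grid.
  * `GuideAbelianTools` (S26): tools: smooth points and power series, curves through a point, constant field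
    extensions of function fields and their reduction.
  * `GuideCube` (S26): the theorems of the square and of the cube for heights, step by step.
  * `GuideSmoothPoints` (S26): smooth points: factorial power series rings, homomorphism from a smooth
    algebra to power series, colon ideals, curves through a point.
  * `GuideAbelianTorsion` (S26): division points of abelian varieties and the calculus of divisors, step by
    step.

## 5. Galois representations and their local behaviour (NOTES, 3.4)

* `GuideAbsGal` (library): `Gal(ℚ̄/ℚ)`: places, inertia, Frobenius, theorems of Minkowski and Hermite.
  * `GuideDecomposition` (S43, S55, S56, S59): decomposition groups, completions and places of number fields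
    as subfields and embeddings in the algebraic closure of `ℚ_q`.
* **`GuideGalois`** (S29 - S32, S42): representations attached to eigenforms; Frobenius density;
  Hecke-Galois data.
  * `GuideTateJacobian` (library): the Tate module of `J₀(N)` step by step: `ℤ_p`-module, finite free,
    Galois and Hecke action, eigenvectors, S30; from congruences to torsion points.
  * `GuideDensity` (S14, S47, S48): densities of primes and sums over ideals: the steps of the theorem of
    Frobenius, of the auxiliary prime of S14, and of the bounded L-series.
  * `GuideChebotarev` (S47, S48): from bounded zeta functions to the theorem of Chebotarev (symmetric form).
  * `GuideUnramified` (S31): the representation over a Hecke algebra is unramified outside `S`.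
* `GuideRealisation` (library): realisation of two-dimensional representations in Tate modules and torsion:
  Burnside, Boston-Lenstra-Ribet, Carayol, existence of eigenvectors.
* **`GuideBridge`** (library): characters of `Γ₀(N)` and torsion classes of `J₀(N)`: the Kummer bridge.
  * `GuideBridgeSteps` (library): steps of the proofs in `GuideBridge`: the cocycle identity on `P¹(F_ℓ)`,
    sums over cycles, roots of holomorphic functions, periods under `T_ℓ`, norms, Eisenstein primes.
  * `GuideKummerSteps` (library): the steps of the Kummer bridge.
* **`GuideEigen`** (library): from eigenclasses in the cohomology of `Γ₀(M)` to local properties.
  * `GuideEigenSteps` (library): the steps of `GuideEigen`: from the points of `J₀(N)` to attached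
    representations, eigenclasses, realisations.
  * `GuideEigenModules` (library): the eigenlattice and local properties of attached representations:
    vectors killed by degeneracy maps, uniqueness of the trace, unipotent, Steinberg and Carayol cases;
    characters of finite algebras.
  * `GuideTwistEmbedding` (library): twist embeddings: classes with character `χ²` at level `M` embed in
    classes without character at level `M N`.
* **`GuideFlat`** (S32): finite flat group schemes over `ℤ_(p)`, flat representations.
  * `GuideFlatOrders` (S32, S56): orders of functions and the trace argument, step by step.
  * `GuideResidualFlat` (S38, S43, S59, S60): `E[p]` is flat at `p` if it is modular of a level prime to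
    `p`: descent and extension of the coefficient field.
* **`GuideOrdinary`** (S33): ordinary at `p`, `p` exactly dividing the level.
  * `GuideOrdinaryLocal` (S33): the local analysis at `p` behind S33: powers near 1, the critical level, the
    operators `V` and `N`, cases N, D, C.
* `GuideFrobeniusAtP` (S59): Frobenius at `p` on the `p`-new part of `T_p J₀(Mp)`.
* `GuideUnitRoot` (S59): the unit root of Frobenius at `p` and the eigenvalue of `T_p`, points of the
  deformation ring at `p`.
* **`GuideBadRed`** (S34, S35): the reduction of `X₀(mq)` at `q`: two components, unipotent inertia and the
  Steinberg relation.
  * `GuideBadRedSteps` (S34, S35): approximation over a valuation ring, the glued curve, dimensions, toric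
    coordinates, the operator `U` (the transpose of `U_q`).
* **`GuideFrames`** (S33, S44): components, frames and Kummer covers; no modular curve occurs.
  * `GuideFramesSteps` (S33, S44): steps of the proofs behind `GuideFrames`: value groups, approximation,
    orthonormal bases, integral equations, connectedness of the special fibre, Kummer covers, gluing, curves
    with two components.
* **`GuideNewforms`** (S34, S35, S36): the representations of newforms at the primes `q` with `q ∥ N` and
  `q² ∣ N`: Atkin-Lehner involution, absence from the lower levels, eigenlattice.
  * `GuideLatticeReps` (S30, S34 - S36): from quadratic equations to two-dimensional representations over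
    complete discrete valuation rings, eigenlattices, Steinberg and Carayol data, strong multiplicity one.
  * `GuideEigenLifting` (library): Hecke eigenvectors and normalised eigenforms; the lemma of Deligne and
    Serre.
  * `GuideAtkinLehner` (S38, S50, S59): the operator `W_q` at a prime `q` exactly dividing the level, trace
    to level `M`, descent of old forms, realisation in the Tate module of `J₀(M q)`.
* **`GuideCarayol`** (S36, S58): `X₀(q² m)` at `q`: inertia invariants, three components, factorial local
  rings, windings, connectedness.
  * `GuideCarayolModel` (S36): the components of `X₀(q m)` and `X₀(q² m)` from `q`-expansions; chart rings
    as integral closures.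
  * `GuideTwoComponents` (S36): the two components of `X₀(q m)` step by step: Kronecker function, degrees,
    derivation `d/dX`, chain rule.
  * `GuideThreeSheets` (S36): the expansions of the functions on `X₀(q² m)`, step by step: Gauss rings,
    extension of the constants, the three embeddings, norms and traces, residues of chart functions.
  * `GuideCarayolTools` (S36): points of `J₀` and functions, component systems, local structure, cusps,
    charts.
  * `GuideFixedFunctions` (S36): from inertia invariants of `J₀(q² m)` to functions over the inertia field,
    step by step.
  * `GuideCarayolSteps` (S36, S58): points, local rings, values at points and the two charts, step by step.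
  * `GuideCharts` (S36, S58): chart rings are integral closures: all components of the model by counting
    degrees; the ramified extension of the inertia field.
  * `GuideFunctionLifting` (S36, S58): lifting functions on `X₀(m)` from characteristic `q`: Riemann-Roch,
    Galois descent, coordinate rings.
  * `GuideConnectedness` (S36, S58): the special fibre is connected, and functions with trivial windings are
    `d`-th powers: the steps of the elementary proof.

## 6. Level raising and lowering (NOTES, 3.5)

* **`GuideLevels`** (S38, S43): vocabulary, local facts, residual modularity and `J₀(N)`; theorem LL and
  S43; overview of S38 - S44.
* **`GuideLevelsMazur`** (S38, S43): Mazur's principle at a prime `q ≠ p`, by Kummer functions and a node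
  formula, no Néron models.
  * `GuideLevelsMazurSteps` (S38, S43, S59, S60): the principle of Mazur, steps: Hecke operators on series,
    Gauss values, Kummer functions of torsion classes, the map `n`, the node formula and its descent to
    other levels, the map `δ`, the geometric input.
* **`GuideLevelsIhara`** (S38, S43): proof of theorem LL: level lowering by Ihara avoidance (patching with
  characters of order `p` at the scalar primes).
  * `GuideLevelsPoints` (S38, S43): points of a Taylor-Wiles level: Galois representation of an eigenvector,
    the tame alternative, assembly of the level of theorem LL.
  * `GuideLargeImage` (S43, S45): transvections, the condition of Taylor and Wiles and the image of the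
    representation modulo `p`.
* `GuideLevelsOdd` (S38): level lowering for all odd `p`, the modules of a level, marks at `p`, the cases at
  `p`.
  * `GuideTWCondition` (S38): the condition of Taylor and Wiles for `W[p]`, `p` odd: tame characters, the
    `p`-division polynomial of a supersingular curve, dihedral representations.
  * `GuideTWDihedral` (S38): the condition of Taylor and Wiles for `p = 3` and `5`, step by step: inertia
    and square roots, dihedral form, 2-groups.
* **`GuideLevelsS44`** (S44): `p` out of the level for the Frey curve: Kummer functions on the two
  components, node analysis, dlog.
  * `GuideS44Steps` (S44): functions instead of models: reduction of `q`-expansions, Kummer functions, the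
    Hecke operator on functions, the modular unit `Δ(q^p)/Δ(q)` and its reduction, assembly.
  * `GuideS44Classes` (S39, S40, S44): Kummer functions and constants, the norm operator on `X₀(Mp)` from
    its expansions: the remaining steps of `GuideLevelsS44`, section 5.
  * `GuideOrderPPoints` (S39, S40, S44): points of order `p` at a place above `p`, without formal groups and
    Tate curves: kernel of reduction, distances, uniformiser, Kummer functions.
  * `GuideNodeAnalysis` (S39, S40, S44): functions on the residue classes of the semistable model of
    `X₀(mq)`: invariant generators of divisors, slopes at the double points, lifts invariant under inertia.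
  * `GuideNodeParameters` (S39, S40, S44): the local equation of `X₀(m q)` at a node.
  * `GuideDlog` (S44): dlog of Kummer functions in characteristic `p`: from a class of order `p` of `J₀(N)`
    to a congruence of modular forms.
* **`GuideLevelsAtP`** (S39, S40): level lowering at `p` in general: supersingular points, descent of the
  auxiliary level, constants.
  * `GuideLevelsAtPSteps` (S39, S40): level lowering at `p`, step by step: auxiliary level, Hecke relation
    on the reduction of a Kummer function, supersingular points, back to characteristic zero.
  * `GuideLevelThree` (S38 - S40, S43, S59, S60): the prime 3 in the change of level: pure cubic extensions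
    and the node formula; elliptic points of order three and rotations of the upper half plane.
  * `GuideEllipticPoints` (S39, S40): elliptic points of order three in characteristic 3 and the Hecke
    operators (`p = 3`).
* **`GuideLevelsRaising`** (S41): level raising: modular symbols, Ihara's lemma by group theory, duality,
  congruence module.
  * `GuideIharaSteps` (S41, S59): steps of the proof of Ihara's lemma (congruence subgroups of
    `SL₂(ℤ[1/q])`, germs, boundary symbols), the algebra of level raising.
  * `GuideRaisingSteps` (S41, S59): operators on modular symbols, coefficients, the new eigenspace and the
    bound of the eigenvalues, quotients of Hecke modules and points with vanishing traces, the steps of the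
    theorem on complex symbols and cusp forms.
  * `GuideSymbolDuality` (S41, S59): modular symbols and the perfect pairing, Ihara's lemma over the residue
    field and local rings.

## 7. Residual modularity at 3 without the theorem of Langlands and Tunnell (NOTES, 3.6)

Block LT; all files serve S01, S03, S04, S06, S38, S45, S46, S50, S59, S60.

* **`GuideResidual`**: the spine: residual modularity at 3 of the semistable curves with even discriminant,
  by a 2-adic method.
  * `GuideResidualSteps`: inside the blocks: auxiliary curve, types, auxiliary primes, class groups,
    torsion.
  * `GuideGoodCurve`: step M1: the Hesse pencil and the 3-torsion, the criterion of Kraus, local conditions,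
    squarefree sieve for quartic forms, auxiliary primes.
  * `GuideSieve`: squarefree values of binary quartic forms in a residue class and a cone.
  * `GuideTwoAdicCurve`: block E: the 2-adic representation of a good curve (2-torsion and `√Δ`, node and
    sign, local type, auxiliary primes).
  * `GuideSelmerTwo`: killing the Selmer group of `E[2]` with auxiliary primes (block M6), step by step.
  * `GuideTwoReciprocity`: reciprocity for Selmer cocycles with values in `E[2]` without Poitou-Tate
    duality: Hasse principle over `ℚ(√-q)` and quadratic reciprocity.
  * `GuideGenus`: block M5: genus theory of `ℚ(√-N)`.
  * `GuideClassBound`: the first inequality for unramified cyclic 2-extensions of imaginary quadratic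
    fields: the steps.
  * `GuideCubicCharacter`: step M5b: the 2-torsion of a good curve and the cubic character of the class
    group of `ℚ(√-N)`, without a reciprocity law.
  * `GuideTypeAtTwo`: the prime 2 exactly dividing the level of a 2-adic representation: classes with
    trivial reductions, functionals, realisation.
* `GuideResidualTheta`: binary theta series modulo 2 and the homomorphism of the Hecke algebra.
  * `GuideTSide`: from a sequence modulo 2 to a local Hecke ring: constant terms at the cusps, Hecke
    operators on sequences, the ring `TT`, the local factor.
  * `GuideQuaternaryTheta`: quaternary theta series are modular forms: Poisson summation, Gauss sums, cusps.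
* `GuideGluing`: block C: gluing of Galois representations over Hecke rings, any residue characteristic;
  local types.
  * `GuideDihedral`: theorems B and C step by step: dihedral deformations in characteristic two, the count,
    the ring of the pairs, surjectivity of `π`.
* **`GuideResidualThree`**: residual modularity at 3 of all semistable curves (3-switch, 5-switch at 2), S50
  and S46.

## 8. Modularity lifting (NOTES, 3.7)

* `GuideQuadRec` (S43, S47, S55, S56, S59): class field theory of cyclic extensions of prime degree without
  ideles: Frobenius density, first and second inequality, Hasse norm theorem, quadratic reciprocity.
  * `GuideLocalNorms` (S43, S47, S55, S56, S59): the two index computations behind it: norm index of cyclic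
    extensions of local fields, Herbrand quotient of the T-units.
  * `GuideClassField` (S43, S47, S55, S56, S59): the steps of the proofs of `GuideQuadRec`.
* **`GuidePoitouTate`** (S55): cohomology with levels, Euler characteristics, local fields, the arithmetic
  input of S55, local and global duality.
  * `GuideLevelCohomology` (S55): level cohomology: the formal part of S55 in detail.
  * `GuideLevelSequences` (S55, S56): locally constant cochains and long exact sequences in terms of
    cochains.
  * `GuideFourier` (S43, S55, S56, S59): the cokernel of localisation for `μ_p` is one dimensional and is
    hit isomorphically by every local `H²`: the steps, by Fourier decomposition.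
* `GuideHasseH2` (S55): class field theory with 2-cocycles: class field axioms, local cohomology, Hasse
  principle.
  * `GuideLocalGlobal` (S43, S55, S56, S59): from local to global classes in degree two: local groups as
    subgroups, nonsplit places, local norms, descent, the relation between the local components.
* `GuideEulerChar` (S55, S56): S-units, Hasse norm theorem, `Sha²` of `F_p`, Euler characteristic for large
  `S`, the Greenberg-Wiles inequality.
  * `GuideKummerTheory` (S55, S56): Kummer theory with restricted ramification: the order of
    `H¹(G_{K,S}, ℤ/p)`.
  * `GuideShaTwo` (S55, S56): T-units, Selmer groups and `Sha²`: kernel of inflation in degree two, divisors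
    modulo `p`, capitulation.
  * `GuideEulerSteps` (S43, S56, S59): steps of Tate's Euler characteristic formula over `ℚ` for large `S`:
    lattices and characters, Artin induction, the `S`-unit lattice, equivariant Kummer theory.
* **`GuideDeformations`** (S53, S54, S57): universal deformation rings, deformation conditions, the map to
  the Hecke algebra, S57.
  * `GuideDeformationSteps` (S53, S56): steps of S53 and of the deformation conditions: matrices, generic
    ring, matrix identities.
  * `GuideProRep` (S43, S53, S59): complete noetherian rings from families of ideals, power series rings,
    Chevalley: the steps of pro-representability.
* `GuideLocalBounds` (S43, S56, S59): tame structure at `q`, Taylor-Wiles primes, local bounds away from `p`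
  and strictly ordinary.
  * `GuideStrictOrdinary` (S56, S59): the local bounds for ordinary lifts: Kummer classes over `ℚ_p`,
    triangular forms, the bounds `|k|⁴` and `|k|³`.
* `GuideFlatBound` (S43, S56, S59): the flat local bound at `p`: coordinates of finite flat group schemes,
  connected part, Kummer classes of units, the count.
  * `GuideUnitCocycles` (S43, S56, S59): case (I) of the flat local bound: unit cocycles.
  * `GuideLevelTwo` (S43, S56, S59): case (II) of the local bound at `p`: tame characters of algebraic
    numbers, image of inertia, fundamental characters of level two, good homomorphisms on the tame group.
  * `GuideLayers` (S43, S56, S59): the field of the tame level at `p`: inertia and layers inside the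
    algebraic numbers, the derivation `d/dπ`, residues of Kummer classes modulo powers of `π`.
  * `GuideFlatOrdinary` (S59): flat and residually ordinary implies ordinary, step by step: connected
    points, translation by a connected point of order `p`, socle argument.
* **`GuideTaylorWiles`** (S56): cohomology of the image, Taylor-Wiles primes, Selmer bounds, presentations
  of deformation rings.
  * `GuideTWSteps` (S43, S56, S59): the vanishing of `H¹(H, ad⁰(1))` without the classification of Dickson,
    step by step: cocycles, fixed points on the projective line, counting, the case `p = 3`.
  * `GuideTWChoice` (S43, S56, S59): the choice of the Taylor-Wiles primes, step by step: irreducibility of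
    `ad⁰(1)`, the linear form of a regular element, one prime, induction.
* `GuideCohomology` (S38, S43, S59, S60): `H¹(Γ₀(M), V)` by cocycles: Hecke families, `PSL₂(ℤ)` as a free
  product, lifting of cocycles, projectivity of non-Eisenstein summands, traces.
  * `GuideTWModules` (S38, S43, S59, S60): the modules of Taylor-Wiles levels: characters of `Δ`, local
    idempotents, freeness over `O[Δ]`, action of the Hecke algebra, points.
  * `GuideEigensystems` (S38, S43, S59): local idempotents, eigenvalues decide, relations of cusp forms on
    non-Eisenstein cohomology, from characters to modular residual representations, the last step of theorem
    LL.
  * `GuideBoundedRank` (S38, S43, S59): bounded rank of the cohomology at Taylor-Wiles levels; a residual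
    eigensystem that does not occur at level `M` does not occur at level `M Q`.
* **`GuideHeckeRings`** (S43, S50, S59): representations over Hecke rings, the types, the map `R → T`.
* **`GuideLifting`** (S58, S59, S60): modularity lifting: statements and frame.
* **`GuideLiftingGalois`** (S59): the Galois side of the levels.
  * `GuideGaloisPoints` (S43, S59): the deformation rings of the levels, step by step: tame inertia in
    matrices, Taylor-Wiles primes, points of universal rings, generators by counting, construction of the
    marks, points of the ring of a level.
* **`GuideLiftingHecke`** (S59): the Hecke modules of the levels.
* **`GuideLiftingAlgebra`** (S59): commutative algebra, patching, endgame.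
  * `GuidePatching` (S38, S43, S59): the bookkeeping of the patching argument: levels, group rings, products
    of local rings.
  * `GuidePatchingSteps` (S38, S43, S53, S59, S60): steps of the patching argument: limits along an
    ultrafilter and matrices, power series ring and group of the diamond operators, congruences of Hecke
    modules and points of eigenvectors, from a level to the equations of the local rings (level lowering),
    beginning and end of modularity lifting.
  * `GuideTameRings` (S43, S59): the rings at the scalar primes are domains, by explicit charts (quadric
    cone, Rees algebras); dimension, limits, from a level to a patching level over the power series ring.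
* `GuideLiftingComposition` (S59): composition of the levels: the Galois side and the Hecke side together.
  * `GuideLiftingSteps` (S59, S60): steps of the composition: bookkeeping of the levels, points and Tate
    module, the witness and the removal of Taylor-Wiles primes, from eigenvectors to eigenclasses, ranks,
    the types at `p`, the curve at the primes of the partition, levels are good and the eigensystem is not
    Eisenstein, density theorem for representations.

## 9. The octahedral case of the theorem of Langlands and Tunnell (S47; NOTES, section 8)

Everything in this part serves S47 and no other statement (except some notions on places, and theorems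
quoted from the other parts); S47 is not used for S01. Block (D): a quartic Hecke character of a quadratic
extension of the sextic field `E` (totally complex, cubic over `ℚ(ω)`) gives a form over `E`. Block (C):
cubic descent of this form from `E` to `ℚ(ω)`. Block (T): its theta lift, a cusp form of weight one over
`ℚ`. Block (N): a Dirichlet series is unbounded, so the lift is not zero. Block (Z): from the lift to S47.
The class field theory for blocks (C) and (D) is in `GuideQuadRec`, the theorem of Deligne and Serre in part
10.

* **`GuideOctahedral`** (overview): S47 on one page: the border statements of the blocks (D), (C), (N), (T),
  (Z) written out, and the assembly.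
* `GuideOctahedralGal` (overview): the fields `M`, `E`, `B`, `B'`, `K` of `ρ` (quaternion tower), places and
  Frobenius elements, the numbers `a_w`.
* `GuideHyperbolic` (all blocks): hyperbolic 3-space, radial kernels, Abel transform.
  * `GuideRadial` (all blocks): radial kernels on products of hyperbolic 3-spaces: horospherical
    coordinates, algebra of kernels, Abel transform, exponential eigenfunctions.
* **`GuideOctD`** (D): the quaternion tower, the quartic Hecke character, its Fourier series on
  `(H3)³ × X_f`.
  * `GuideQuarticCharacter` (D): the quartic Hecke character of a quaternion tower, without class field
    theory of degree four.
  * `GuideCoefficients` (D): the coefficients of the dihedral form and the unfolding bijection: sums of a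
    Hecke character over ideals of given norm.
  * `GuideOuterSpace` (D): coordinates on `X_f`, Whittaker functions, Hecke relation, Fourier expansion of
    the explicit form.
* `GuideOctDTheta` (D): invariance under lower unipotent matrices by theta kernels, Poisson summation, Gauss
  sums.
  * `GuidePoisson` (D): Poisson summation for the theta kernel (the infinite places).
  * `GuideThetaGauss` (D): the transformation law of the Gauss sums outside `S`: different, lattices of
    divisors, norm form, approximate inverse, completing the square.
  * `GuideThetaSeries` (D): Gaussian and Bessel terms, unfolding over relative units, convergence, growth;
    the series of a theta function and the auxiliary element of `GuideOctDTheta`, step by step.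
  * `GuideThetaFinite` (D): the theta kernel at the finite places without adeles: volumes, mean values,
    Gauss sums.
* `GuideOctDForm` (D): types at the bad places, extension to the whole space, statement of the block.
* `GuideSemilocal` (D, C): types and the semilocal machine.
  * `GuideLatticeTypes` (D, C): the lattice types at the bad places.
* **`GuideOctC`** (C): cubic descent: overview, the language, the spectral side.
  * `GuideOctCSetup` (C): construction of the setup: places, bad integer, levels from types, models, `ℤ[ω]`.
* `GuideSiegel` (C): reduction theory of `PGL₂` over a totally complex field, finite volume, counting.
  * `GuideSiegelSteps` (C): reduction theory of `PGL₂(K)`, step by step.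
  * `GuideLocalLattices` (C): lattices and their localisations: gluing, fractional ideals with given
    valuations, the lattice class of a point of the finite part, finite fibres.
* `GuideEigenfunctions` (C): functions with spectral parameter zero, Laplace equation, `K₀`, Fourier
  expansion.
  * `GuideBessel` (C): the Bessel function `K₀` and the Fourier expansion of bounded eigenfunctions, step by
    step.
* `GuideTrace` (C): cut-offs, automorphic kernels, trace identity, bounded kernels.
  * `GuideTraceSteps` (C): cut-offs, compact operators and the trace identity, step by step.
  * `GuideBoundedKernels` (C): bounded automorphic kernels: first order mean value inequality, decay of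
    cuspidal functions, bounded kernel theorem, step by step.
* `GuideOctCSpec` (C): operators, traces and the operator `C`.
  * `GuideOctCSpecSteps` (C): operators on bounded invariant functions step by step: eigenspaces of a
    kernel, unfolding with a second variable, bounds and adjoints, operator of the automorphic kernel,
    `W P U` at the auxiliary place, operator data.
  * `GuideOctCOperator` (C): the kernel of the operator `C` step by step: the space `X`, transport by the
    automorphism, hermitian kernels, radial kernels, the aleph polynomial, the family, the auxiliary prime.
  * `GuideOctCSeparation` (C): separation of eigenvalues, joint eigenspaces and a permutation, the trace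
    identity step by step; how the comparison is composed.
  * `GuideConstantTerms` (C): the comparison operator kills constant terms: heights, aleph polynomial, fixed
    point relation, kernels.
  * `GuideUnipotent` (C): functions on the finite part invariant under the unipotent group: approximation,
    invariance at one place, two-term Hecke operator.
  * `GuideOctCKernels` (C): controlled kernels and the trace integral, boundedness of the form over `E`, the
    family of the operator `C`.
* `GuideOctCGeom` (C): the geometric side of the comparison of traces.
  * `GuideOctCInfinity` (C): the infinite places in the comparison of traces, step by step.
  * `GuideOctCOrbital` (C): from matchings at all places to the equality of the integrals: restricted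
    products, third level, norm pairs, one class.
  * `GuideOctCSteps` (C): norms, convergence, the auxiliary place, the form over `F`, step by step.
  * `GuideOctCLocal` (C): local computations behind the geometric comparison.
  * `GuideStableLines` (C): contributing elements have no stable line and are elliptic regular, step by
    step: Busemann functions and product formula.
  * `GuideOctCSplit` (C): the local comparison at the places which split.
  * `GuideOctCBad` (C): the bad places with one place above them: lattices of the self-dual basis, norm
    roots, Hilbert 90, bijection of cosets, transfer from the completion.
  * `GuideOctCInert` (C): good places with one place above them: norms of units, quadratic orders, twisted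
    fixed points, matching.
* `GuideOctCTarget` (C): the form over `E` and the target index.
  * `GuideOctCLevel` (C): operators on coset spaces, the Iwahori algebra.
* `GuideOctCForms` (C): Fourier coefficients and positivity.
  * `GuideWhittaker` (C, D): Fourier expansions over a number field and Whittaker functions, step by step.
* `GuideOctCOutput` (C): the output on hyperbolic space, part 1: the Fourier coefficients.
  * `GuideOctCTwists` (C): the output on hyperbolic space, part 2: the classical steps.
* **`GuideOctN`** (N): the series `∑ c(n) n^(-s)` tends to infinity at `s = 1`: local comparison, densities,
  mean square.
* **`GuideOctT`** (T): theta lift from `H3` to weight one: kernel, decay, Laplace equation, constant terms,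
  holomorphy.
  * `GuideSiegelSets` (T): reduction theory for `SL₂(ℤ[ω])` on hyperbolic 3-space: height, Siegel sets,
    cut-off functions, integrability.
  * `GuideThetaGrowth` (T): growth of the theta kernel on `H3` (majorant, heights) and decay of the
    automorphic function at all cusps.
  * `GuideThetaLaplace` (T): the Laplace equation of the theta lift in weight one, step by step.
  * `GuideThetaIsotropic` (T): decay of the theta lift: isotropic vectors and the vector zero contribute
    nothing (unfolding with cut-off functions).
  * `GuideThetaClasses` (T): theta kernels of lattice classes, unitary action of `SL₂(ℤ)`; derivatives of
    theta integrals.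
  * `GuideThetaInversion` (T): the inversion formula of the theta kernel of signature `(3, 1)`.
  * `GuideThetaCongruence` (T): transformation law of the theta kernel under `Γ(6N²)`, step by step.
  * `GuideHolomorphy` (T): why the theta lift is holomorphic: `∂̄` calculus, Green's formula on the
    fundamental domain, vector valued forms of weight one.
* **`GuideOctT2`** (T): theta lift, second part: Hecke operators, non-vanishing (period over `Γ₀(N) × ℝ`,
  unfolding), assembly.
  * `GuideOctT2Steps` (T): Hecke operators on the lattice of Hermitian matrices, vectors of norm 1/3,
    unfolding over a subgroup.
  * `GuidePeriod` (T): the period on `H3 = ℍ × ℝ` in detail: volume formula, integrals of `K₀`, the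
    archimedean factor, Fourier expansion on planes.
  * `GuideRealEisenstein` (T): the Eisenstein series of `Γ₀(N)` for real `s → 1` by elementary estimates:
    sums against integrals, heights, coprime pairs, unfolding.
* **`GuideOctZ`** (Z): from the theta lift to the statement.

## 10. Weight one (S48, S49)

* **`GuideDeligneSerre`** (S48, S49): the theorem of Deligne and Serre; the lifting lemma.
  * `GuideFormalEigensystems` (S46, S49): formal eigensystems, the steps of S46 and S49, the lifting lemma
    of Deligne and Serre in five steps, from torsion points to eigenforms.
  * `GuideDeligneSerreSteps` (S47, S48): finite subgroups of `GL(2)`, bounded images, and the passage from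
    characteristic `ℓ` to characteristic zero, step by step.
  * `GuideWeightOne` (S48): arithmetic of modular forms on `Γ₁(N)` in all weights from level one, Hecke
    algebra in weight one, weight one modulo `ℓ`.
  * `GuideEisensteinOne` (S48): Eisenstein series of weight one from the zeta function; changing the level
    of an eigenform.
* `GuideGaloisAction` (S48): the Galois action on the characters of `Γ₁(M)`.
  * `GuideTwistedForms` (S47, S48): twisted modular forms and the Galois action on characters, step by step.
  * `GuideSeparation` (S48): function fields of subgroups of `SL₂(ℤ)` by elementary means (Laurent
    expansions and their embeddings), the Hauptmoduln of level 2 and 3 as functions, the covering of the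
    `t`-line, two principles over a number field.
  * `GuideSpecialFibre` (S48): the special fibre of a covering of the line over a discrete valuation ring is
    irreducible, with elementary algebra only.
  * `GuideDivisionValues` (S48): division values of the Weierstrass function, separating generator, forms
    and functions.
-/
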