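import Fermat.Agent.S26

/-!
# Guide to the proof: torsion points of an abelian variety (statement S26)

Let `K` be algebraically closed, `f : A ⟶ Spec K` smooth of relative dimension `g`, proper and connected,
with a commutative group law, and let `n` be nonzero in `K`. Then exactly `n ^ (2 g)` points of `A` are
killed by `n` (`card_torsion_abelian_scheme`, the last theorem). The proof uses no line bundles or
cohomology on `A`, no intersection theory, no duality, no projectivity: only points of `A` with values in
local rings, Riemann-Roch for function fields of ONE variable, and specialisation.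

Idea. A divisor `D` on `A` and a point `X` of `A` with values in a function field `E` of one variable (a
map from a curve to `A`) give a number `D.ht k X`, the degree of `X^* D`. By specialisation of generic
points one proves that `X ↦ D.ht k X` is invariant under translations, then the theorem of the square,
then the theorem of the cube: the height is a quadratic function (sections 3-5). On the other hand a
section of `O(D)` is determined by its values at the `n`-division points of a grid of
`∏ (M_i + 1)` points, as soon as the heights of `D` on `g` fixed curves are smaller than `n² (M_i + 1)`.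
This bounds `dim H⁰(O(D))` by `#A[n] ∏ (M_i + 1)`; applied to two divisors with many explicit sections it
shows that `#A[n]` and `n ^ (2 g)` bound each other up to a constant (section 6), and group theory
(section 2) gives equality.

Reading order.
1. Abelian schemes as abstract varieties: `abstract_variety`, `good_iff`, `local_point`,
   `integral_of_smooth_connected`, `abelian_scheme_as_abstract_variety`.
2. Division points: `tangent_vectors`, `field_of_division_point`, `divisible`, `torsion_finite`,
   `torsion_structure`.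
3. Divisors and heights: `mem_sections`, `height_def`, `height_calculus`, `card_zeros_le_height`.
4. Specialisation: `specialisation_of_points`, `height_constant_extension`, `exists_generic_point`,
   `specialise_generic_point`.
5. The height is quadratic: `height_add_const`, `square`, `height_cube`, `height_nsmul`.
6. The count: `vanishing_step`, `evaluation`, `torsion_bounds`, `card_torsion_of_bounds`,
   `card_torsion`, `card_torsion_abelian_scheme`.
The tools (smooth points, constant field extensions of function fields and their reduction) are in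
`GuideAbelianTools` (steps: `GuideSmoothPoints`). Companion files with more steps: `GuideAbelianScheme`
(helper87: from the scheme to the abstract variety; for section 1), `GuideAbelianTorsion` (helper98:
division points, calculus of divisors; for sections 2 and 3), `GuideCube` (helper26: specialisation of
points, the theorems of the square and of the cube step by step; for sections 4 and 5) and
`GuideEvaluation` (helper98: reduction at places, points of the grid, evaluation of sections; for
section 6). The notions of the statement: `GuideNotionsSchemes`.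

All theorems cited in this file are used in the proof of S26 (85 modules, 20700 lines); no other statement
uses S26. NOTES: [261] (overview, helper26), [195] (helper87), [102] (helper98), [219] (helper76).
Authors: helper26 (design, sections 3-5), helper98 (sections 2, 6), helper87 (section 1), helper76 (the
bounds), helper43 (curves through a point); helper74 (this file, from snippets of helper98, helper76).

Notation: `IsFF k E` (file `H3RR_FF`): `E` is a function field of one variable over `k`, that is a finite
extension of `k(x)`, `x` transcendental. A `Place k E` is a discrete valuation ring `v` with quotient field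
`E` which contains `k`, `v.ord` its valuation, `plV K v` the same ring as a `K`-algebra for a subfield `K`
of `k`. `Divisor k E` are the finitely supported functions from places to the integers, `divOf f` is the
divisor of `f`.
-/

set_option autoImplicit false

noncomputable section

open CategoryTheory CategoryTheory.Limits AlgebraicGeometry NeronModelInfra GoodReductionJacobian
open GoodReductionJacobian.RelativeGroupLaw
open AlgebraicCurve Polynomial
open Fermat.Agent.H26 Fermat.Agent.H3RR

namespace Fermat.Agent.Guide.Abelian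

universe u

/-! ## 1. Abelian schemes as abstract varieties

A term `𝒜 : AV K` (`H26AV`) is an abelian variety seen through its points: a function field `𝒜.F` over
`K`; for every `K`-algebra `R` the abelian group `𝒜.Pt R` of `R`-valued points, functorial by `𝒜.map`;
for a point `P` with values in a LOCAL ring `R` the local ring `𝒜.dom P ⊆ 𝒜.F` of its centre (the image
of the closed point) and the evaluation of functions `𝒜.ev P : 𝒜.dom P → R`, a local homomorphism;
`𝒜.η` is the generic point, with values in `𝒜.F`. `𝒜.val P w` is `𝒜.ev P w` for `w ∈ 𝒜.dom P`. -/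

/-- **The axioms of an abstract variety**, written out (the fields of the structure `AV K`, besides
the functor of groups): the evaluation is a local homomorphism; the centre of the image of `P` under
`ι : R → S` is the localisation of `𝒜.dom P` at the elements which become invertible in `S`, and
functions are evaluated by composing with `ι`; the generic point; the tautological point `T` with values
in `𝒜.dom P`; a point is determined by its centre and the evaluation, and points with values in a ring
which is contained in a field inject into the points over the field (separatedness); a point with values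
in a field `L` extends uniquely to every valuation ring of `L` (properness); the local rings are
essentially of finite type. File `H26AV`. -/
theorem abstract_variety {K : Type u} [Field K] (𝒜 : AV K) :
    (∀ (R : Type u) [CommRing R] [Algebra K R] [IsLocalRing R] (P : 𝒜.Pt R) (w : 𝒜.dom P),
      IsUnit (𝒜.ev P w) → IsUnit w) ∧
    (∀ (R S : Type u) [CommRing R] [Algebra K R] [IsLocalRing R] [CommRing S] [Algebra K S]
      [IsLocalRing S] (ι : R →ₐ[K] S) (P : 𝒜.Pt R),
      (∀ w, w ∈ 𝒜.dom (𝒜.map ι P) ↔ ∃ a b : 𝒜.dom P, IsUnit (ι (𝒜.ev P b)) ∧ w * b = a) ∧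
      ∀ (a : 𝒜.dom P) (h : (a : 𝒜.F) ∈ 𝒜.dom (𝒜.map ι P)),
        𝒜.ev (𝒜.map ι P) ⟨a, h⟩ = ι (𝒜.ev P a)) ∧
    (𝒜.dom 𝒜.η = ⊤ ∧ ∀ w : 𝒜.dom 𝒜.η, 𝒜.ev 𝒜.η w = w) ∧
    (∀ (R : Type u) [CommRing R] [Algebra K R] [IsLocalRing R] (P : 𝒜.Pt R),
      ∃ T : 𝒜.Pt (𝒜.dom P), 𝒜.map (𝒜.ev P) T = P ∧ 𝒜.map (𝒜.dom P).val T = 𝒜.η) ∧
    (∀ (R : Type u) [CommRing R] [Algebra K R] [IsLocalRing R] (P Q : 𝒜.Pt R), 𝒜.dom P = 𝒜.dom Q →
      (∀ w (h : w ∈ 𝒜.dom P) (h' : w ∈ 𝒜.dom Q), 𝒜.ev P ⟨w, h⟩ = 𝒜.ev Q ⟨w, h'⟩) → P = Q) ∧
    (∀ (R L : Type u) [CommRing R] [Algebra K R] [Field L] [Algebra K L] (ι : R →ₐ[K] L),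
      Function.Injective ι → Function.Injective (𝒜.map ι)) ∧
    (∀ (L : Type u) [Field L] [Algebra K L] (V : Subalgebra K L), (∀ x : L, x ∈ V ∨ x⁻¹ ∈ V) →
      Function.Bijective (𝒜.map V.val)) ∧
    ∀ (R : Type u) [CommRing R] [Algebra K R] [IsLocalRing R] (P : 𝒜.Pt R),
      Algebra.EssFiniteType K (𝒜.dom P) := by
  refine ⟨fun _ _ _ _ P w => 𝒜.isUnit_of_ev P w, fun _ _ _ _ _ _ _ _ ι P => ⟨𝒜.mem_dom_map ι P,
    𝒜.ev_map ι P⟩, ⟨𝒜.dom_η, 𝒜.ev_η⟩, fun _ _ _ _ P => 𝒜.exists_taut P, fun _ _ _ _ => 𝒜.ext',
    fun _ _ _ _ _ _ => 𝒜.map_injective, fun _ _ _ => 𝒜.bij_of_valuation, fun _ _ _ _ => 𝒜.essFiniteType_dom⟩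

/-- **The geometric input** `𝒜.Good g`, written out: every function is a section of `O(D)` for an
effective divisor `D` (see `mem_sections`); the transcendence degree is at least `g`; the local ring of
the origin has dimension at most `g`; and for every nonzero function `φ` regular at the origin there is
a curve (a point `f` with values in a function field `E` of one variable) through the origin (at the
place `c`) on which `φ` does not vanish identically. File `H26CDiv`. -/
theorem good_iff {K : Type u} [Field K] (𝒜 : AV K) (g : ℕ) :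
    𝒜.Good g ↔
      (∀ φ : 𝒜.F, ∃ D : 𝒜.CDiv, (1 : 𝒜.F) ∈ D.sections ∧ φ ∈ D.sections) ∧
      (∃ φ : Fin g → 𝒜.F, AlgebraicIndependent K φ) ∧
      ringKrullDim (𝒜.dom (0 : 𝒜.Pt K)) ≤ g ∧
      ∀ φ ∈ 𝒜.dom (0 : 𝒜.Pt K), φ ≠ 0 →
        ∃ (E : Type u) (_ : Field E) (_ : Algebra K E) (_ : IsFF K E) (c : Place K E)
          (f : 𝒜.Pt E) (π : (plV K c).toSubalgebra →ₐ[K] K),
          𝒜.map π (𝒜.lift (plV K c) f) = 0 ∧ 𝒜.val f φ ≠ 0 :=
  ⟨fun h => ⟨h.exists_pole, h.exists_algInd, h.dim_le, h.exists_curve⟩,
    fun h => ⟨h.1, h.2.1, h.2.2.1, h.2.2.2⟩⟩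

/-- **A morphism from the spectrum of a local ring** `R` to an integral scheme `A` is the same as a point
`x` of `A` (the image of the closed point) and a local homomorphism from the local ring of `x` to `R`.
Here `lr f x` is the local ring of `x` as a subring of the function field, `T f x : Spec (lr f x) ⟶ A` is
the tautological morphism and `evR f P` the evaluation. File `H87Sch1` (helper87). -/
theorem local_point {K : Type u} [Field K] {A : Scheme.{u}} (f : A ⟶ Spec (CommRingCat.of K))
    [IsIntegral A] {R : Type u} [CommRing R] [IsLocalRing R] (P : Spec (CommRingCat.of R) ⟶ A) :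
    Spec.map (CommRingCat.ofHom (H87Sch.evR f P)) ≫ H87Sch.T f (P (IsLocalRing.closedPoint R)) = P ∧
      IsLocalHom (H87Sch.evR f P) :=
  ⟨H87Sch.specMap_evR_T f P, H87Sch.isLocalHom_evR f P⟩

/-- **A connected smooth scheme over a field is integral.** Proof: an étale algebra over a polynomial ring
is locally a domain (lift the idempotents of the total quotient ring to the integral closure); no theory
of regular rings. Files `H87Smooth`, `H87Sch4` (helper87). -/
theorem integral_of_smooth_connected {K : Type u} [Field K] {A : Scheme.{u}}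
    (f : A ⟶ Spec (CommRingCat.of K)) [Smooth f] [ConnectedSpace A] : IsIntegral A :=
  H87Sch.isIntegral_of_smooth f

/-- **An abelian scheme of relative dimension `g` is an abstract variety with `Good g`**, with the same
`n`-torsion points. `AbelianSchemePropertyBundle K f`: `f` is smooth and proper with connected fibres and
has a group law; `L.IsTorsionPoint t n x`: the `n`-fold sum of `x` is the zero point. Files
`H87AVScheme`, `H87Pole`, `H87AVGood` (helper87). -/
theorem abelian_scheme_as_abstract_variety (K : Type u) [Field K] [IsAlgClosed K] {A : Scheme.{u}}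
    (f : A ⟶ Spec (CommRingCat.of K)) (L : RelativeGroupLaw K f) (hc : L.IsCommutative)
    (hA : AbelianSchemePropertyBundle K f) (g : ℕ) [SmoothOfRelativeDimension g f] :
    ∃ 𝒜 : AV K, 𝒜.Good g ∧ ∀ n : ℕ,
      Nonempty ({x : SchemeHomOver (𝟙 (Spec (CommRingCat.of K))) f //
        L.IsTorsionPoint (𝟙 (Spec (CommRingCat.of K))) n x} ≃ {x : 𝒜.Pt K // n • x = 0}) :=
  ⟨AV.ofScheme K f L hc hA, AV.good_ofScheme K f L hc hA g, AV.exists_equiv_ofScheme K f L hc hA⟩

/-! ## 2. Division points -/

/-- **An `n`-torsion tangent vector is zero**: a point with values in the dual numbers `L[ε]` over `0`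
which is killed by `n` is `0`. Proof: addition of tangent vectors at `0` is addition of derivations, so
multiplication by `n` on them is multiplication by the number `n`. File `H98AV1` (helper98). -/
theorem tangent_vectors {K : Type u} [Field K] {𝒜 : AV K} {L : Type u} [Field L] [Algebra K L] (n : ℕ)
    (hn : (n : K) ≠ 0) (x : 𝒜.Pt (DualNumber L)) (h0 : 𝒜.map (TrivSqZeroExt.fstHom K L L) x = 0)
    (hx : n • x = 0) : x = 0 :=
  AV.dual_eq_zero n hn x h0 hx

/-- **Division points of `L₀`-points generate finite separable extensions** of `L₀`. Proof: the field of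
definition has no derivation over `L₀`, by `tangent_vectors`. File `H98AV2` (helper98). -/
theorem field_of_division_point {K : Type u} [Field K] {𝒜 : AV K} {L : Type u} [Field L]
    [Algebra K L] (L₀ : Type u) [Field L₀] [Algebra K L₀] [Algebra L₀ L] [IsScalarTower K L₀ L]
    (n : ℕ) (hn : (n : K) ≠ 0) (x : 𝒜.Pt L) (y : 𝒜.Pt L₀)
    (hx : n • x = 𝒜.map (IsScalarTower.toAlgHom K L₀ L) y) :
    FiniteDimensional L₀ (IntermediateField.adjoin L₀ (Set.range (𝒜.ev x))) ∧
      Algebra.IsSeparable L₀ (IntermediateField.adjoin L₀ (Set.range (𝒜.ev x))) :=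
  AV.finite_separable_fieldOver L₀ n hn x y hx

/-- **Multiplication by `n` is dominant and surjective on points** over an algebraically closed field:
`n` times the generic point is generic (by `field_of_division_point` the generic point is algebraic over
the field of definition of its `n`-fold), and every point is `n` times a point. Proof of the second
part: divide the generic point, extend the specialisation of the generic point to the given point to a
valuation ring, and use properness. Files `H98AV3`, `H98AV4` (helper98). -/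
theorem divisible {K : Type u} [Field K] {𝒜 : AV K} [IsAlgClosed K] (n : ℕ) (hn : (n : K) ≠ 0) :
    𝒜.dom (n • 𝒜.η) = ⊤ ∧ ∀ P : 𝒜.Pt K, ∃ Q : 𝒜.Pt K, n • Q = P :=
  ⟨AV.isGeneric_nsmul_eta n hn, AV.exists_nsmul_eq n hn⟩

/-- **The torsion group is finite**, and the translations by torsion points are linearly independent over
the image of the function field under multiplication by `n` (Artin): with `N = #A[n]` there are `N`
functions `u x` with `∑ₓ [n]^*(aₓ) u x = 0` only for `a = 0`. Here `[n]^* = 𝒜.nStar n hn` is evaluation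
at the point `n • 𝒜.η`. File `H98AV4` (helper98). -/
theorem torsion_finite {K : Type u} [Field K] [IsAlgClosed K] (𝒜 : AV K) (n : ℕ) (hn : (n : K) ≠ 0) :
    Finite {x : 𝒜.Pt K // n • x = 0} ∧
      ∃ u : {x : 𝒜.Pt K // n • x = 0} → 𝒜.F, ∀ c : {x : 𝒜.Pt K // n • x = 0} →₀ 𝒜.F,
        (c.sum fun i a => 𝒜.nStar n hn a * u i) = 0 → c = 0 :=
  ⟨AV.finite_torsion 𝒜 n hn, AV.exists_linearIndependent_nStar 𝒜 n hn⟩

/-- **Group theory**: `#A[mn] = #A[m] #A[n]` for coprime `m, n`, and for a prime `ℓ` there is `r` with
`#A[ℓᵏ] = ℓ ^ (k r)` for all `k`. So only the growth of `#A[ℓᵏ]` has to be found. File `H98AV5`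
(helper98). -/
theorem torsion_structure {K : Type u} [Field K] [IsAlgClosed K] (𝒜 : AV K) :
    (∀ m n : ℕ, m.Coprime n → ((m * n : ℕ) : K) ≠ 0 →
      Nat.card {x : 𝒜.Pt K // (m * n) • x = 0} =
        Nat.card {x : 𝒜.Pt K // m • x = 0} * Nat.card {x : 𝒜.Pt K // n • x = 0}) ∧
    ∀ ℓ : ℕ, ℓ.Prime → (ℓ : K) ≠ 0 →
      ∃ r : ℕ, ∀ k : ℕ, Nat.card {x : 𝒜.Pt K // ℓ ^ k • x = 0} = ℓ ^ (k * r) :=
  ⟨fun _ _ h => AV.card_torsion_mul 𝒜 h, AV.exists_card_torsion_pow 𝒜⟩

/-! ## 3. Divisors and heights

A `D : 𝒜.CDiv` (`H26CDiv`) is a Cartier divisor: an element `D.eqn B` of `𝒜.F` for every subalgebra `B`,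
nonzero, such that for a homomorphism `R → S` of local rings and an `R`-valued point with centres `B` and
`B'` the quotient `D.eqn B / D.eqn B'` is a unit of `B'`, and with a finiteness condition. `𝒜.lift V X` is
the extension of a point `X` with values in a field to a valuation ring `V` (see `abstract_variety`). -/

/-- **The sections of `O(D)`**: functions `φ` such that `φ` times the local equation of `D` is regular at
every point. File `H26CDiv`. -/
theorem mem_sections {K : Type u} [Field K] {𝒜 : AV K} (D : 𝒜.CDiv) (φ : 𝒜.F) :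
    φ ∈ D.sections ↔ ∀ {R : Type u} [CommRing R] [Algebra K R] [IsLocalRing R] (P : 𝒜.Pt R),
      φ * D.eqn (𝒜.dom P) ∈ 𝒜.dom P :=
  Iff.rfl

/-- **The height** is the degree of the divisor `D.pull k X = X^* D` on the curve with function field `E`,
whose multiplicity at a place `v` is the order of the local equation of `D` at the reduction of `X` at
`v`, divided by the equation at the centre of `X`. File `H26Height`. -/
theorem height_def {K : Type u} [Field K] {𝒜 : AV K} (k : Type u) {E : Type u} [Field k] [Field E]
    [Algebra K k] [Algebra K E] [Algebra k E] [IsScalarTower K k E] [IsAlgClosed k] [IsFF k E]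
    (D : 𝒜.CDiv) (X : 𝒜.Pt E) :
    D.ht k X = Divisor.degree (D.pull k X) ∧ ∀ v : Place k E, D.pull k X v =
      v.ord (𝒜.val X (D.eqn (𝒜.dom (𝒜.lift (plV K v) X)) / D.eqn (𝒜.dom X))) :=
  ⟨rfl, fun _ => rfl⟩

/-- **Calculus of heights**: additive in `D`, compatible with the pull-back `D.comap α` of divisors by an
endomorphism `α` (`𝒜.Endo`: endomorphisms of the functor of points which map the generic point to a generic
point), zero on constant points, and multiplied by the degree in finite extensions of `E`. File
`H98Calc` (helper98). -/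
theorem height_calculus {K : Type u} [Field K] {𝒜 : AV K} (k : Type u) {E : Type u} [Field k]
    [Field E] [Algebra K k] [Algebra K E] [Algebra k E] [IsScalarTower K k E] [IsAlgClosed k]
    [IsFF k E] (D D' : 𝒜.CDiv) (α : 𝒜.Endo) (X : 𝒜.Pt E) (P : 𝒜.Pt k) :
    (D.add D').ht k X = D.ht k X + D'.ht k X ∧ (D.comap α).ht k X = D.ht k (α.toHom E X) ∧
      D.ht k (𝒜.map (IsScalarTower.toAlgHom K k E) P) = 0 ∧
      ∀ (E' : Type u) [Field E'] [Algebra K E'] [Algebra k E'] [Algebra E E'] [IsScalarTower K k E']
        [IsScalarTower K E E'] [IsScalarTower k E E'] [FiniteDimensional E E'] [IsFF k E'],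
        D.ht k (𝒜.map (IsScalarTower.toAlgHom K E E') X) = Module.finrank E E' * D.ht k X :=
  ⟨AV.CDiv.ht_add k D D' X, AV.CDiv.ht_comap k α D X, AV.CDiv.ht_const k D P, fun E' => by
    intros; exact AV.CDiv.ht_finite k D X E'⟩

/-- **The number of zeros is bounded by the height**: a section `φ` of `O(D)` which does not vanish at `X`
vanishes at the reductions of `X` in at most `ht_D(X)` places. File `H98Calc` (helper98). -/
theorem card_zeros_le_height {K : Type u} [Field K] {𝒜 : AV K} (k : Type u) {E : Type u} [Field k]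
    [Field E] [Algebra K k] [Algebra K E] [Algebra k E] [IsScalarTower K k E] [IsAlgClosed k]
    [IsFF k E] (D : 𝒜.CDiv) (X : 𝒜.Pt E) {φ : 𝒜.F} (hφ : φ ∈ D.sections)
    (h0 : 𝒜.val X (φ * D.eqn (𝒜.dom X)) ≠ 0) (S : Finset (Place k E))
    (hS : ∀ v ∈ S, ¬ IsUnit (𝒜.val (𝒜.lift (plV K v) X)
      (φ * D.eqn (𝒜.dom (𝒜.lift (plV K v) X))))) :
    (S.card : ℤ) ≤ D.ht k X :=
  AV.CDiv.card_le_ht k D X hφ h0 S hS

/-! ## 4. Specialisation

See `GuideAbelianTools` for constant field extensions (`IsCE k k₁ E E₁`: `E₁` is the quotient field of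
`E ⊗_k k₁`), the divisor maps `IsCE.con`, and the data `c : RedCtx k k₁ κ E E₁ Eκ` of the reduction of
`E₁ / k₁` along a valuation ring `A` of `k₁` with residue field `κ`: a valuation ring of `E₁` with residue
map to the constant field extension `Eκ` of `E` to `κ`, and the map `c.push` on divisors. `LinEq D D'`
is linear equivalence of divisors. -/

/-- **Specialisation of points.** A `k₁`-valued point `P` extends to the valuation ring `A` and reduces to
the `κ`-valued point `c.sp P`. The point `X + P` with values in `E₁` (`X` a point with values in `E`, that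
is a map from the curve to `𝒜`; `P` a constant) specialises to `X + c.sp P`: the divisors which `D` cuts
out on them correspond to each other up to linear equivalence, and the heights are equal. File `H26SP`. -/
theorem specialisation_of_points {K : Type u} [Field K] {𝒜 : AV K} {k k₁ κ E E₁ Eκ : Type u} [Field k]
    [Field k₁] [Field κ] [Field E] [Field E₁] [Field Eκ] [Algebra k k₁] [Algebra k E] [Algebra k₁ E₁]
    [Algebra E E₁] [Algebra k E₁] [IsScalarTower k k₁ E₁] [IsScalarTower k E E₁] [IsCE k k₁ E E₁]
    [Algebra k κ] [Algebra κ Eκ] [Algebra E Eκ] [Algebra k Eκ] [IsScalarTower k κ Eκ]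
    [IsScalarTower k E Eκ] [IsCE k κ E Eκ] [IsAlgClosed k] [IsAlgClosed k₁] [IsAlgClosed κ]
    [IsFF k E] [IsFF k₁ E₁] [IsFF κ Eκ] [Algebra K k] [Algebra K k₁] [Algebra K κ]
    [Algebra K E] [Algebra K E₁] [Algebra K Eκ] [IsScalarTower K k k₁] [IsScalarTower K k κ]
    [IsScalarTower K k E] [IsScalarTower K k₁ E₁] [IsScalarTower K E E₁] [IsScalarTower K κ Eκ]
    [IsScalarTower K E Eκ]
    (c : RedCtx k k₁ κ E E₁ Eκ) (D : 𝒜.CDiv) (X : 𝒜.Pt E) (P : 𝒜.Pt k₁) :
    LinEq (c.push (D.pull k₁ (𝒜.map (IsScalarTower.toAlgHom K E E₁) X +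
        𝒜.map (IsScalarTower.toAlgHom K k₁ E₁) P)))
      (D.pull κ (𝒜.map (IsScalarTower.toAlgHom K E Eκ) X +
        𝒜.map (IsScalarTower.toAlgHom K κ Eκ) (c.sp P))) ∧
    D.ht k₁ (𝒜.map (IsScalarTower.toAlgHom K E E₁) X + 𝒜.map (IsScalarTower.toAlgHom K k₁ E₁) P) =
      D.ht κ (𝒜.map (IsScalarTower.toAlgHom K E Eκ) X +
        𝒜.map (IsScalarTower.toAlgHom K κ Eκ) (c.sp P)) :=
  have h := (c.spec_fun X).add (c.spec_const P)
  ⟨RedCtx.push_pull D h, RedCtx.ht_eq D h⟩

/-- **Heights do not change under constant field extensions** `E' / k'` of `E / k`, and the divisor which `D`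
cuts out on the curve is the extension of the same divisor over `k`. File `H26Pt`. -/
theorem height_constant_extension {K : Type u} [Field K] {𝒜 : AV K} {k E k' E' : Type u} [Field k]
    [Field E] [Algebra K k] [Algebra K E] [Algebra k E] [IsScalarTower K k E] [IsAlgClosed k]
    [IsFF k E] [Field k'] [Field E'] [Algebra K k'] [Algebra K E'] [Algebra k' E']
    [IsScalarTower K k' E'] [IsAlgClosed k'] [IsFF k' E'] [Algebra k k'] [Algebra E E'] [Algebra k E']
    [IsScalarTower k k' E'] [IsScalarTower k E E'] [IsCE k k' E E'] [IsScalarTower K E E']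
    (D : 𝒜.CDiv) (X : 𝒜.Pt E) :
    D.pull k' (𝒜.map (IsScalarTower.toAlgHom K E E') X) = IsCE.con k' E' (D.pull k X) ∧
      D.ht k' (𝒜.map (IsScalarTower.toAlgHom K E E') X) = D.ht k X :=
  ⟨D.pull_CE X, D.ht_CE X⟩

/-- **Generic points over a field.** For every extension field `k` of `K` there are an algebraically closed
field `k₁` containing `k` and a `k₁`-valued point `Y` which is generic over `k`: every function is defined
at `Y`, and functions which are linearly independent over `K` have values at `Y` which are linearly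
independent over `k`. File `H26Gen`. -/
theorem exists_generic_point {K : Type u} [Field K] (𝒜 : AV K) (k : Type u) [IsAlgClosed K] [Field k]
    [Algebra K k] :
    ∃ (k₁ : Type u) (_ : Field k₁) (_ : Algebra k k₁) (_ : Algebra K k₁)
      (_ : IsScalarTower K k k₁) (_ : IsAlgClosed k₁) (Y : 𝒜.Pt k₁), 𝒜.dom Y = ⊤ ∧
      ∀ (ι : Type u) (w : ι → 𝒜.F), LinearIndependent K w →
        LinearIndependent k fun i => 𝒜.val Y (w i) := by
  obtain ⟨k₁, i1, i2, i3, i4, i5, Y, hY⟩ := AV.exists_genOver 𝒜 k
  exact ⟨k₁, i1, i2, i3, i4, i5, Y, hY.gen, fun _ => hY.linInd⟩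

/-- **A generic point `Y` specialises to every point** `P` with values in `k`: there is a reduction `c` of
`E₁ / k₁` for which `c.sp Y = P` (considered with values in the residue field `κ`). Proof: extend the
local ring of `P`, with scalars extended to `k`, to a valuation ring of `k₁`. File `H26Gen`. -/
theorem specialise_generic_point {K : Type u} [Field K] {𝒜 : AV K} (k k₁ E E₁ : Type u) [Field k]
    [Field k₁] [Field E] [Field E₁] [Algebra k k₁] [Algebra k E] [Algebra k₁ E₁] [Algebra E E₁]
    [Algebra k E₁] [IsScalarTower k k₁ E₁] [IsScalarTower k E E₁] [IsCE k k₁ E E₁] [IsAlgClosed k]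
    [IsAlgClosed k₁] [IsFF k E] [IsFF k₁ E₁] [Algebra K k] [Algebra K k₁] [Algebra K E]
    [Algebra K E₁] [IsScalarTower K k k₁] [IsScalarTower K k E] [IsScalarTower K k₁ E₁]
    [IsScalarTower K E E₁] {Y : 𝒜.Pt k₁} (hY : 𝒜.dom Y = ⊤)
    (hYk : ∀ (ι : Type u) (w : ι → 𝒜.F), LinearIndependent K w →
      LinearIndependent k fun i => 𝒜.val Y (w i)) (P : 𝒜.Pt k) :
    ∃ (κ Eκ : Type u) (_ : Field κ) (_ : Field Eκ) (_ : Algebra k κ) (_ : Algebra κ Eκ)
      (_ : Algebra E Eκ) (_ : Algebra k Eκ) (_ : IsScalarTower k κ Eκ) (_ : IsScalarTower k E Eκ)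
      (_ : IsCE k κ E Eκ) (_ : IsAlgClosed κ) (_ : IsFF κ Eκ) (_ : Algebra K κ)
      (_ : Algebra K Eκ) (_ : IsScalarTower K k κ) (_ : IsScalarTower K κ Eκ)
      (_ : IsScalarTower K E Eκ) (c : RedCtx k k₁ κ E E₁ Eκ),
      c.sp Y = 𝒜.map (IsScalarTower.toAlgHom K k κ) P :=
  AV.GenOver.exists_redCtx k k₁ E E₁ ⟨hY, fun {ι} => hYk ι⟩ P

/-! ## 5. The height is quadratic -/

/-- **Translation invariance of heights**: adding a constant point does not change the height. Proof: the
height of `X + P` is the height of `X + Y` for a generic point `Y` (`specialise_generic_point`,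
`specialisation_of_points`), for every `P`. File `H26Rig`. -/
theorem height_add_const {K : Type u} [Field K] {𝒜 : AV K} (k : Type u) {E : Type u} [Field k]
    [Field E] [Algebra K k] [Algebra K E] [Algebra k E] [IsScalarTower K k E] [IsAlgClosed k]
    [IsFF k E] [IsAlgClosed K] (D : 𝒜.CDiv) (X : 𝒜.Pt E) (P : 𝒜.Pt k) :
    D.ht k (X + 𝒜.map (IsScalarTower.toAlgHom K k E) P) = D.ht k X :=
  AV.ht_add_const k D X P

/-- **Theorem of the square.** For a map `X` from a curve to `𝒜` and constant points `P`, `Q` the
divisor `(X+P+Q)^* D - (X+P)^* D - (X+Q)^* D + X^* D` of the curve is linearly equivalent to zero. Proof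
(Weil): for independent generic points `η₁`, `η₂` add a nonspecial effective divisor `D₀` of degree the
genus, with `l(D₀) = 1`; the sum is equivalent to an effective divisor. Specialising `η₁` to `0` (where
the alternating sum is zero) shows that its places are defined over the field of `η₁`, that is, they do
not depend on `η₂`; specialising `η₂` to `0` shows that it is `D₀`. Then specialise `η₂` to `Q` and `η₁`
to `P`. File `H26Square`. -/
theorem square {K : Type u} [Field K] {𝒜 : AV K} [IsAlgClosed K] (k : Type u) {E : Type u} [Field k]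
    [Field E] [Algebra K k] [Algebra K E] [Algebra k E] [IsScalarTower K k E] [IsAlgClosed k]
    [IsFF k E] (D : 𝒜.CDiv) (X : 𝒜.Pt E) (P Q : 𝒜.Pt k) :
    LinEq (D.pull k (X + 𝒜.map (IsScalarTower.toAlgHom K k E) (P + Q)) -
      D.pull k (X + 𝒜.map (IsScalarTower.toAlgHom K k E) P) -
      D.pull k (X + 𝒜.map (IsScalarTower.toAlgHom K k E) Q) + D.pull k X) 0 := by
  simpa only [AV.CDiv.sq, AV.tr, map_zero, add_zero] using AV.square k D X P Q

/-- **Theorem of the cube for heights**: `ht_D` is a quadratic function. Proof: over the algebraic closure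
`k₁` of `E` the points `Y`, `Z` are constants, so by `square` there is a function `Φ` on the curve over
`k₁` whose divisor is the alternating sum of the theorem of the square; compare its residues at the
diagonal place and at a constant place: the quotient is an algebraic function over `E`, and its degree is
zero. File `H26Cube`. -/
theorem height_cube {K : Type u} [Field K] {𝒜 : AV K} (k : Type u) {E : Type u} [Field k] [Field E]
    [Algebra K k] [Algebra K E] [Algebra k E] [IsScalarTower K k E] [IsAlgClosed k] [IsFF k E]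
    [IsAlgClosed K] (D : 𝒜.CDiv) (X Y Z : 𝒜.Pt E) :
    D.ht k (X + Y + Z) - D.ht k (X + Y) - D.ht k (X + Z) - D.ht k (Y + Z) +
      D.ht k X + D.ht k Y + D.ht k Z = 0 :=
  AV.ht_cube k D X Y Z

/-- **Multiplication by `n`**: `ht_D(nX) = n² ht_D(X)` if `ht_D(-Y) = ht_D(Y)` for all `Y`. File
`H26Cube`. -/
theorem height_nsmul {K : Type u} [Field K] {𝒜 : AV K} (k : Type u) {E : Type u} [Field k] [Field E]
    [Algebra K k] [Algebra K E] [Algebra k E] [IsScalarTower K k E] [IsAlgClosed k] [IsFF k E]
    [IsAlgClosed K] (D : 𝒜.CDiv) (X : 𝒜.Pt E) (hD : ∀ Y : 𝒜.Pt E, D.ht k (-Y) = D.ht k Y) (n : ℕ) :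
    D.ht k (n • X) = (n : ℤ) ^ 2 * D.ht k X :=
  AV.ht_nsmul k D X hD n

/-! ## 6. The count -/

/-- **The vanishing step.** `f₀` a point over `E₀` (a curve in the variety), `x` an `n`-division point of
`f₀ + P`, `P` constant, `φ` a section of `O(D)`, `D` with `ht(nY) = n² ht(Y)`. If `φ` vanishes at all
`n`-division points of `f₀(c) + P` for more than `ht(f₀) / n²` places `c`, then it vanishes at `x`.
(`f₀(c)`, in Lean `AV.redPt f₀ c`, is the reduction of `f₀` at the place `c`.)
Proof: `x` is defined over a finite separable extension of degree `d` (`field_of_division_point`); every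
place `c` has `d` places above it, since the `d` conjugates of `x` differ by constant torsion points; so
`φ` has at least `d` zeros above each `c`, in total more than the height `d ht(f₀) / n²` of `x`, against
`card_zeros_le_height`. Files `H98Ev1` to `H98Ev3` (helper98). -/
theorem vanishing_step {K : Type u} [Field K] {𝒜 : AV K} [IsAlgClosed K] {k E₀ L : Type u} [Field k]
    [Field E₀] [Field L] [Algebra K k] [Algebra K E₀] [Algebra K L] [Algebra k E₀] [Algebra k L]
    [Algebra E₀ L] [IsScalarTower K k E₀] [IsScalarTower K k L] [IsScalarTower K E₀ L]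
    [IsScalarTower k E₀ L] [IsAlgClosed k] [IsFF k E₀] (n : ℕ) (hn : (n : K) ≠ 0) (D : 𝒜.CDiv)
    {φ : 𝒜.F} (hφ : φ ∈ D.sections)
    (hquad : ∀ (E' : Type u) [Field E'] [Algebra K E'] [Algebra k E'] [IsScalarTower K k E']
      [IsFF k E'] (Y : 𝒜.Pt E'), (n ^ 2 : ℤ) * D.ht k Y = D.ht k (n • Y))
    (f₀ : 𝒜.Pt E₀) (P : 𝒜.Pt k)
    (hadd : D.ht k (f₀ + 𝒜.map (IsScalarTower.toAlgHom K k E₀) P) = D.ht k f₀)
    (x : 𝒜.Pt L) (hx : n • x = 𝒜.map (IsScalarTower.toAlgHom K E₀ L)
      (f₀ + 𝒜.map (IsScalarTower.toAlgHom K k E₀) P))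
    (S₀ : Finset (Place k E₀))
    (hvan : ∀ c ∈ S₀, ∀ z : 𝒜.Pt k, n • z = AV.redPt f₀ c + P →
      𝒜.val z (φ * D.eqn (𝒜.dom z)) = 0)
    (hht : D.ht k f₀ < (n ^ 2 : ℤ) * S₀.card) :
    𝒜.val x (φ * D.eqn (𝒜.dom x)) = 0 :=
  AV.step_vanish n hn D hφ hquad f₀ P hadd x hx S₀ hvan hht

/-- **The evaluation lemma**: there are `r ≤ g` curves `C i` through `0` (a `𝒜.Curve0` is a function field of
one variable `E` with a place `c` and a point `f` over `E` which reduces to `0` at `c`), independent of `n`
and `D`, with
`dim H⁰(O(D)) ≤ #A[n] · ∏ (M i + 1)` as soon as `ht_D(n X) = n² ht_D(X)` for all points `X` and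
`ht_D(C i) < n² (M i + 1)` for all `i`. Proof: the sum of the curves is a generic point; choose `M i + 1`
places on `C i`; a section which vanishes at all `n`-division points of the `∏ (M i + 1)` sums of points
vanishes at an `n`-division point of the generic point (`vanishing_step`, `r` times), which is generic,
so it is `0`. The steps of the proof are in `GuideEvaluation`. Files `H98Ev4` to `H98Ev8` (helper98). -/
theorem evaluation {K : Type u} [Field K] [IsAlgClosed K] {𝒜 : AV K} {g : ℕ} (hG : 𝒜.Good g) :
    ∃ (r : ℕ) (_ : r ≤ g) (C : Fin r → 𝒜.Curve0), ∀ n : ℕ, (n : K) ≠ 0 →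
      ∀ (D : 𝒜.CDiv) (M : Fin r → ℕ),
      (∀ (k E : Type u) [Field k] [Field E] [Algebra K k] [Algebra K E] [Algebra k E]
        [IsScalarTower K k E] [IsAlgClosed k] [IsFF k E] (X : 𝒜.Pt E),
        (n ^ 2 : ℤ) * D.ht k X = D.ht k (n • X)) →
      (∀ i, D.ht K (C i).f < (n ^ 2 : ℤ) * (M i + 1)) →
      ∀ U ≤ D.sections, FiniteDimensional K U ∧
        Module.finrank K U ≤ Nat.card {x : 𝒜.Pt K // n • x = 0} * ∏ i, (M i + 1) :=
  AV.evaluation' (AV.htAdd 𝒜) (AV.htCE 𝒜) hG

/-- **The bounds** from `evaluation` and the quadratic growth of heights. `H D i` stands for the height of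
`D` on the curve `C i` of `evaluation`, `i < r ≤ g`: it is additive in `D`, and multiplied by `n²` under
pull-back by multiplication by `n` for symmetric `D`; `heval` is the conclusion of `evaluation`. Then
`n^(2g) ≤ C #A[n]` and `#A[n] ≤ C n^(2g)` for a constant `C`. Proof: let `D` be symmetric (`D.Sym`: `-X` and
`X` have the same height) such that `1` and
`g` algebraically independent functions are sections. Lower bound: the `(n² + 1)^g` monomials of degree
at most `n²` in each function are independent sections of `g n² D`. Upper bound: `evaluation` for the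
number `1` and `[n]^*(g m D) + D'`, whose sections contain the `#A[n] (m + 1)^g` products of pull-backs of
monomials and the functions `u x` of `torsion_finite`. File `H76Card` (helper76). -/
theorem torsion_bounds {K : Type u} [Field K] [IsAlgClosed K] {𝒜 : AV K} {g : ℕ}
    (hG : 𝒜.Good g) {r : ℕ} (hr : r ≤ g) (H : 𝒜.CDiv → Fin r → ℤ)
    (hadd : ∀ D D' i, H (D.add D') i = H D i + H D' i)
    (hsmul : ∀ (m : ℕ) D i, H (D.smul m) i = m * H D i)
    (hcomap : ∀ (n : ℕ) (hn : (n : K) ≠ 0) (D : 𝒜.CDiv), D.Sym →
      ∀ i, H (D.comap (AV.Endo.nsmul 𝒜 n hn)) i = (n : ℤ) ^ 2 * H D i)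
    (heval : ∀ (n : ℕ) (_ : (n : K) ≠ 0) (D : 𝒜.CDiv) (M : Fin r → ℕ), (n = 1 ∨ D.Sym) →
      (∀ i, H D i < ((n : ℤ) ^ 2) * (M i + 1)) → ∀ U : Submodule K 𝒜.F, U ≤ D.sections →
        FiniteDimensional K U ∧
        Module.finrank K U ≤ Nat.card {x : 𝒜.Pt K // n • x = 0} * ∏ i, (M i + 1)) :
    ∃ C : ℕ, ∀ n : ℕ, (n : K) ≠ 0 →
      n ^ (2 * g) ≤ C * Nat.card {x : 𝒜.Pt K // n • x = 0} ∧
      Nat.card {x : 𝒜.Pt K // n • x = 0} ≤ C * n ^ (2 * g) :=
  AV.exists_bounds hG hr H hadd hsmul hcomap heval

/-- **Two bounds suffice**: if `#A[n]` and `n ^ (2 g)` bound each other up to a constant, they are equal,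
because `#A[ℓ^k] = ℓ^(k r)` for a prime `ℓ`, and `#A[mn] = #A[m] #A[n]` for coprime `m`, `n`
(`torsion_structure`). File `H76Card` (helper76). -/
theorem card_torsion_of_bounds {K : Type u} [Field K] {𝒜 : AV K} [IsAlgClosed K] {g : ℕ}
    (h : ∃ C : ℕ, ∀ n : ℕ, (n : K) ≠ 0 → n ^ (2 * g) ≤ C * Nat.card {x : 𝒜.Pt K // n • x = 0} ∧
      Nat.card {x : 𝒜.Pt K // n • x = 0} ≤ C * n ^ (2 * g))
    (n : ℕ) (hn : (n : K) ≠ 0) : Nat.card {x : 𝒜.Pt K // n • x = 0} = n ^ (2 * g) :=
  AV.card_torsion_of_bounds h n hn

/-- **The torsion count for abstract varieties**, from `evaluation`, `height_nsmul`, `torsion_bounds` and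
`card_torsion_of_bounds`. File `H26Final`. -/
theorem card_torsion {K : Type u} [Field K] [IsAlgClosed K] {𝒜 : AV K} {g : ℕ} (hG : 𝒜.Good g)
    (n : ℕ) (hn : (n : K) ≠ 0) : Nat.card {x : 𝒜.Pt K // n • x = 0} = n ^ (2 * g) :=
  AV.card_torsion hG n hn

/-- **The number of torsion points of an abelian scheme** (statement S26 written out). `K` is
algebraically closed, `f : A ⟶ Spec K` smooth of relative dimension `g` and proper, with connected
fibres and a commutative group law `L` (a functorial group structure on the sets of morphisms over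
`Spec K` from all schemes to `A`), `n` is nonzero in `K`. Exactly `n^(2g)` of the `K`-points `x` of `A`
satisfy `n x = 0`. -/
theorem card_torsion_abelian_scheme (K : Type u) [Field K] [IsAlgClosed K] {A : Scheme.{u}}
    (f : A ⟶ Spec (CommRingCat.of K)) (L : RelativeGroupLaw K f) (hc : L.IsCommutative)
    (hA : AbelianSchemePropertyBundle K f) (g : ℕ) [SmoothOfRelativeDimension g f] (n : ℕ)
    (hn : (n : K) ≠ 0) :
    Nat.card {x : SchemeHomOver (𝟙 (Spec (CommRingCat.of K))) f //
      L.nsmul (𝟙 (Spec (CommRingCat.of K))) n x = L.one (𝟙 (Spec (CommRingCat.of K)))} =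
        n ^ (2 * g) :=
  S26.result K f L hc hA g n hn

end Fermat.Agent.Guide.Abelian
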