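import Fermat.Agent.H98ChartTensor

/-!
# Reader's guide: statement S25, modules of matrices over a curve are invertible

**Statement served:** S25 (and nothing else). Companion of `GuideJacobians`, section 5: the steps of the
proof of `GuideJacobians.invertible_chart`. The application to line bundles (second chart, glueing,
rigidification) is in `GuideJacobianGeometry`, sections 6 and 7; the other direction, from line bundles to
matrices, in `GuideJacobianCharts`. No proof depends on this file, and it contains no new mathematics:
all proofs are citations of the library, and all cited theorems are in the proof term of S25. Files: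
`H98Inv`, `H98Fiber`, `H98Chart`, `H98ChartTensor` (helper98). Notes: NOTES.md [102], block D5.

**The problem.** `k` is algebraically closed, `U` an affine open subset of a smooth curve, and `B = O(U)` is
free over `k[t]` with a basis `β_1, ..., β_n`. A point of a chart of the Picard functor over a `k`-algebra
`A` gives a homomorphism `ρ : B → M_n(A[X])` over `k` with `ρ(t) = X`. So `A[X]^n` is a module over
`A ⊗ B`. Both the ring and the module are free of rank `n` over `A[X]`; the claim is that then the module
is INVERTIBLE, for every `A`, also with nilpotent elements.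

**The steps.**
1. A criterion with determinants (section 1) reduces the claim to the following: the determinants of the
   maps `b ↦ ρ(b) e`, `e ∈ A[X]^n`, generate the unit ideal of `A[X]`.
2. For `A = k` this is a statement about each point `a` of the line: there is `e` such that the
   determinant does not vanish at `a` (`fibre_lemma`). Here one uses that `B` is a Dedekind domain.
3. For `A` of finite type over `k` a maximal ideal of `A[X]` is the kernel of a homomorphism to `k`
   (Nullstellensatz), and one applies 2; the general case follows, because `ρ` is defined over the algebra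
   generated by finitely many coefficients (section 3).

**Notation.** `orb ρ β e` is the matrix whose `j`-th column is `ρ(β_j) e`; `orbitMat bS bM e` the matrix of
`s ↦ s e` in bases of a ring and of a module over it.
-/

set_option autoImplicit false

open Polynomial
open Fermat.Agent
open scoped Matrix TensorProduct

namespace Fermat.Agent.Guide.ChartModules

/-! ## 1. Criteria for invertible modules -/

/-- **A local criterion.** Let `M` be a module over `S`, `f_i` elements of `S` which generate the unit ideal,
`e_i ∈ M` and `ψ_i : M → S` linear with `ψ_i(x) e_i = f_i x` and `ψ_i(e_i) = f_i`. Then `M` is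
invertible. (If `f_i` becomes a unit, `e_i` becomes a basis.) Proof: the contraction `M^* ⊗ M → S` is
surjective, because `f_i = ψ_i(e_i)` is in the image, and injective, because `f_i² T` is
`f_i` times the contraction of `T`, times `ψ_i ⊗ e_i`. File `H98Inv`. -/
theorem invertible_of_local {S M : Type*} [CommRing S] [AddCommGroup M] [Module S M] {ι : Type*}
    (f : ι → S) (e : ι → M) (ψ : ι → (M →ₗ[S] S)) (h1 : Ideal.span (Set.range f) = ⊤)
    (h2 : ∀ i x, ψ i x • e i = f i • x) (h3 : ∀ i, ψ i (e i) = f i) : Module.Invertible S M :=
  H98.invertible_of_local f e ψ h1 h2 h3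

/-- **The matrix of an orbit map.** `S` is a ring and `M` an `S`-module, both free over `R` with bases indexed
by the same finite set; `orbitMat bS bM e` is the matrix of `S → M`, `s ↦ s e`. File `H98Inv`. -/
theorem orbit_matrix {R S M : Type*} [CommRing R] [CommRing S] [Algebra R S] [AddCommGroup M]
    [Module R M] [Module S M] [IsScalarTower R S M] {n : Type*} [Fintype n] [DecidableEq n]
    (bS : Module.Basis n R S) (bM : Module.Basis n R M) (e : M) (i j : n) :
    H98.orbitMat bS bM e i j = bM.repr (bS j • e) i :=
  H98.orbitMat_apply bS bM e i j

/-- **The determinant criterion.** In this situation, if the determinants of the maps `s ↦ s e`, for all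
`e ∈ M`, generate the unit ideal of `R`, then `M` is an invertible `S`-module. Proof: let `d_e` be the
determinant and `ψ_e : M → S` the map with the adjugate matrix. Then `ψ_e(x) e = d_e x` and
`ψ_e(s e) = d_e s`; after multiplication by `d_e` the map `ψ_e` is linear over `S`. Apply
`invertible_of_local` with `f_e = d_e²`. File `H98Inv`. -/
theorem invertible_of_determinants {R S M : Type*} [CommRing R] [CommRing S] [Algebra R S]
    [AddCommGroup M] [Module R M] [Module S M] [IsScalarTower R S M] {n : Type*} [Fintype n]
    [DecidableEq n] (bS : Module.Basis n R S) (bM : Module.Basis n R M)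
    (h : Ideal.span (Set.range fun e : M => (H98.orbitMat bS bM e).det) = ⊤) :
    Module.Invertible S M :=
  H98.invertible_of_det bS bM h

/-! ## 2. The fibre lemma -/

/-- **The action in coordinates.** Let `ρ : B → M_n(A[X])` be a homomorphism over `k` with `ρ(t) = X`. A
polynomial `p(t)` acts as multiplication by `p(X)`, and `b = ∑ f_i(t) β_i` maps the vector `e` to the product
of the matrix `orb ρ β e` with the columns `ρ(β_j) e` and the vector of the `f_i`. File `H98Fiber`. -/
theorem action_in_coordinates {k B A : Type*} [CommRing k] [CommRing B] [Algebra k B] [CommRing A]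
    [Algebra k A] {n : ℕ} (ρ : B →ₐ[k] Matrix (Fin n) (Fin n) A[X]) (t : B) (β : Fin n → B)
    (hρ : ρ t = (X : A[X]) • (1 : Matrix (Fin n) (Fin n) A[X])) (e : Fin n → A[X]) :
    (∀ i j, H98.orb ρ β e i j = (ρ (β j) *ᵥ e) i) ∧
      (∀ p : k[X], ρ (aeval t p) =
        (p.map (algebraMap k A)) • (1 : Matrix (Fin n) (Fin n) A[X])) ∧
      ∀ f : Fin n → k[X], ρ (∑ i, aeval t (f i) * β i) *ᵥ e =
        H98.orb ρ β e *ᵥ fun i => (f i).map (algebraMap k A) :=
  ⟨fun _ _ => rfl, H98.rho_aeval ρ t hρ, fun f => H98.rho_sum_mulVec ρ t β hρ f e⟩

/-- **Consequences of the basis.** If `B` is a domain (here: a Dedekind domain) with the basis `β_i` over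
`k[t]`, then `n > 0`, `t` is transcendental over `k`, and every `b ≠ 0` divides a nonzero polynomial in
`t`, because `B` is integral over `k[t]`. File `H98Fiber`. -/
theorem basis_consequences {k B : Type*} [Field k] [CommRing B] [IsDedekindDomain B] [Algebra k B]
    {n : ℕ} (t : B) (β : Fin n → B)
    (hβ : Function.Bijective (fun f : Fin n → k[X] => ∑ i, aeval t (f i) * β i)) :
    0 < n ∧ Function.Injective (aeval t : k[X] →ₐ[k] B) ∧
      ∀ b : B, b ≠ 0 → ∃ (r : k[X]) (c : B), r ≠ 0 ∧ c * b = aeval t r :=
  ⟨H98.pos_of_basis t β hβ, H98.aeval_inj_of_basis t β hβ, fun _ hb =>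
    H98.exists_mul_eq_aeval t β hβ hb⟩

/-- **The fibre lemma.** `B` is a Dedekind domain over the field `k`, free over `k[t]` with the basis `β_i`,
and `ρ : B → M_n(k[X])` a homomorphism with `ρ(t) = X`. For every `a ∈ k` there is a vector `e` such that
the determinant of `orb ρ β e` does not vanish at `a`. Proof. `P = k[X]^n` is a torsion free `B`-module, since
every `b ≠ 0` divides a polynomial in `t`. For `e₁ = (1, ..., 1)` the determinant `d` is not zero, and `P`
is isomorphic to the ideal `I` of the `b` with `b e₁ ∈ d P`, by `b ↦ b e₁ / d` (Cramer's rule gives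
the surjectivity). In a Dedekind domain the ideal `I` is generated by the ideal `(t - a) I` and one
element `b₀`. So `P` is generated by `(t - a) P` and one element `e₀` as a `B`-module, hence
`b ↦ b e₀` is surjective modulo `t - a`, and its determinant does not vanish at `a`. File `H98Fiber`. -/
theorem fibre_lemma {k B : Type*} [Field k] [CommRing B] [IsDedekindDomain B] [Algebra k B] {n : ℕ}
    (t : B) (β : Fin n → B)
    (hβ : Function.Bijective (fun f : Fin n → k[X] => ∑ i, aeval t (f i) * β i))
    (ρ : B →ₐ[k] Matrix (Fin n) (Fin n) k[X])
    (hρ : ρ t = (X : k[X]) • (1 : Matrix (Fin n) (Fin n) k[X])) (a : k) :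
    ∃ e : Fin n → k[X], (H98.orb ρ β e).det.eval a ≠ 0 :=
  H98.fiber_lemma t β hβ ρ hρ a

/-! ## 3. The determinants generate the unit ideal -/

/-- **Base change of orbit matrices** along a homomorphism `φ : A → A'`: the matrix of `φ ρ` and `φ e` is the
image of the matrix of `ρ` and `e`, and so is its determinant. File `H98Chart`. -/
theorem orbit_matrix_base_change {k B A A' : Type*} [CommRing k] [CommRing B] [Algebra k B]
    [CommRing A] [Algebra k A] [CommRing A'] [Algebra k A'] {n : ℕ} (φ : A →ₐ[k] A')
    (ρ : B →ₐ[k] Matrix (Fin n) (Fin n) A[X]) (β : Fin n → B) (e : Fin n → A[X]) :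
    H98.orb ((Polynomial.mapAlgHom φ).mapMatrix.comp ρ) β (fun i => (e i).map (φ : A →+* A')) =
      (H98.orb ρ β e).map (Polynomial.mapAlgHom φ) ∧
    (H98.orb ((Polynomial.mapAlgHom φ).mapMatrix.comp ρ) β
      (fun i => (e i).map (φ : A →+* A'))).det = (H98.orb ρ β e).det.map (φ : A →+* A') :=
  ⟨H98.orb_map φ ρ β e, H98.det_orb_map φ ρ β e⟩

/-- **Nullstellensatz**: a maximal ideal of an algebra of finite type over the algebraically closed field `k`
is the kernel of a homomorphism to `k`. File `H98Chart`. -/
theorem maximal_ideal_is_kernel {k : Type*} [Field k] [IsAlgClosed k] {B : Type*} [CommRing B]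
    [Algebra k B] [Algebra.FiniteType k B] (m : Ideal B) [m.IsMaximal] :
    ∃ φ : B →ₐ[k] k, RingHom.ker φ = m :=
  H98.exists_algHom_of_isMaximal m

/-- **The unit ideal.** `k` is algebraically closed, `B` a Dedekind domain over `k`, free over `k[t]` with the
basis `β_i`, and `A` ANY commutative `k`-algebra. For `ρ : B → M_n(A[X])` with `ρ(t) = X` the
determinants of the matrices `orb ρ β e`, `e ∈ A[X]^n`, generate the unit ideal of `A[X]`. Proof for `A`
of finite type: otherwise they are in a maximal ideal of `A[X]`, the kernel of a homomorphism
`φ : A[X] → k`; put `a = φ(X)` and apply `fibre_lemma` to the composition of `ρ` with `A → k`. In general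
`ρ` comes from the subalgebra of `A` which is generated by the coefficients of the entries of the
`ρ(β_i)`. With `invertible_of_determinants` one obtains `GuideJacobians.invertible_chart`. File
`H98Chart`. -/
theorem unit_ideal {k B A : Type*} [Field k] [IsAlgClosed k] [CommRing B] [IsDedekindDomain B]
    [Algebra k B] [CommRing A] [Algebra k A] {n : ℕ} (t : B) (β : Fin n → B)
    (hβ : Function.Bijective (fun f : Fin n → k[X] => ∑ i, aeval t (f i) * β i))
    (ρ : B →ₐ[k] Matrix (Fin n) (Fin n) A[X])
    (hρ : ρ t = (X : A[X]) • (1 : Matrix (Fin n) (Fin n) A[X])) :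
    Ideal.span (Set.range fun e : Fin n → A[X] => (H98.orb ρ β e).det) = ⊤ :=
  H98.orb_span_top t β hβ ρ hρ

/-! ## 4. The tensor product acts -/

/-- **The ring of the first chart acts.** A homomorphism `ρ : B → M_n(A[X])` over `k` extends to
`A ⊗ B → M_n(A[X])`, `a ⊗ b ↦ a ρ(b)`. This makes `A[X]^n` a module over the functions on the first chart
`U_A`; by `unit_ideal` and `invertible_of_determinants` it is invertible. The second chart and the glueing
are in `GuideJacobianGeometry`, sections 6 and 7. File `H98ChartTensor`. -/
theorem tensor_product_acts {k A B : Type*} [Field k] [CommRing A] [CommRing B] [Algebra k A]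
    [Algebra k B] {n : ℕ} (ρ : B →ₐ[k] Matrix (Fin n) (Fin n) A[X]) (a : A) (b : B) :
    H98.tensorHom ρ (a ⊗ₜ[k] b) = (C a : A[X]) • ρ b :=
  H98.tensorHom_tmul ρ a b

end Fermat.Agent.Guide.ChartModules
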