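import Fermat.Agent.H54HasseNorm
import Fermat.Agent.H54RootsUnity
import Fermat.Agent.H54TotRam

/-!
# Reader's guide: decomposition groups, completions and places inside `ℚ̄_q`

Companion of GuidePoitouTate, GuideEulerChar and GuideLocalNorms. The statements of the Prelude describe the
local Galois groups by `Gal(ℚ̄_q/ℚ_q)` and its restriction map to `Gal(ℚ̄/ℚ)`, the arithmetic of number
fields is about prime ideals of rings of integers, and group cohomology is about open subgroups and double
cosets. Here are the theorems which connect the three languages. All cited theorems are in the closures of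
S01, S03, S04, S06, S38, S43, S45, S46, S50, S55, S56, S59, S60 (except `local_to_global`, `mem_image_iff`,
`image_is_decomposition_group` and `place_below`, which are not used for S55). Notes: Appendix A.10 [262],
[263]. No file of the library imports this one; every proof is the citation of theorems of the library.

**The method.** No completion of a number field is formed. The fixed embedding `ι = padicEmbedding q` of
`ℚ̄` into `ℚ̄_q = PadicAlgCl q` defines one place `padicPlace q` of `ℚ̄`, all others are its conjugates.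

* Two embeddings of a field `K` in `ℚ̄_q` define the same place if and only if they are conjugate under
  `Gal(ℚ̄_q/ℚ_q)` (section 1): the norm of a linear combination of elements of `K` with coefficients in
  `ℚ_q` depends only on the norm on `K`. For `K = ℚ̄` this says that the image of `Gal(ℚ̄_q/ℚ_q)` in
  `Gal(ℚ̄/ℚ)` is the decomposition group (section 3); the map is injective by Krasner's lemma (section 2).
* The completion of a number field `K` at the place defined by `j : K → ℚ̄_q` is the subfield `ℚ_q(j(K))`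
  of `ℚ̄_q` (section 4).
* So the places of a number field `K ⊂ ℚ̄` above `q` are the classes of embeddings, that is the double
  cosets of `Gal(ℚ̄_q/ℚ_q)` and `Gal(ℚ̄/K)` in `Gal(ℚ̄/ℚ)` (sections 5, 6), and local conditions at the place
  of `g` are conditions on the group `{x | g⁻¹ x g ∈ Gal(ℚ̄/K)}`, the Galois group of the completion.

Sections 7 and 8: open subgroups and number fields; roots of unity in local fields. These theorems are used
in the proofs of GuideLocalGlobal, GuideHasseH2, GuideEulerChar, GuideFourier, GuideLocalBounds and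
GuideFlatBound.

Authors: helper54 (library files `H54PadicGal`, `H54EmbField`, `H54Place`, `H54Levels`, `H54RootsUnity`,
`H54TotRam`, `H54HasseNorm` and text); helper55 (`H55Defs`, `H55Fam`: double cosets and levels).
-/

set_option autoImplicit false

noncomputable section

open IsDedekindDomain NumberField Module ExtCitation
open scoped IntermediateField Pointwise

namespace Fermat.Agent.Guide.Decomposition

open Fermat.Agent Fermat.Agent.H55

local notation "Qb" => AlgebraicClosure ℚ
local notation "GQ" => (AlgebraicClosure ℚ ≃ₐ[ℚ] AlgebraicClosure ℚ)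

/-! ## 1. Embeddings in `ℚ̄_q` -/

/-- **The norm of `ℚ̄_q`** extends the norm of `ℚ_q`: `|q| = 1/q`; it is invariant under `Gal(ℚ̄_q/ℚ_q)`, and
algebraic integers have norm `≤ 1`. Files `H54PadicGal`, `H54Place`. -/
theorem norm_facts (q : ℕ) [Fact q.Prime] :
    ‖(q : PadicAlgCl q)‖ = (q : ℝ)⁻¹ ∧
      (∀ (τ : PadicAlgCl q ≃ₐ[ℚ_[q]] PadicAlgCl q) (y : PadicAlgCl q), ‖τ y‖ = ‖y‖) ∧
      ∀ y : PadicAlgCl q, IsIntegral ℤ y → ‖y‖ ≤ 1 :=
  ⟨H54.norm_prime_padicAlgCl q, H54.norm_padicAlgCl_algEquiv, fun _ => H54.norm_le_one_of_isIntegral⟩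

/-- **The norm is determined by its maximal ideal.** Two embeddings `j`, `j'` of a field in `ℚ̄_q` such that
`|j(x)| < 1` implies `|j'(x)| < 1` have the same norm: equivalent absolute values are powers of each other,
and `|q| = 1/q` for both. File `H54PadicGal`. -/
theorem norm_determined {q : ℕ} [Fact q.Prime] {K : Type*} [Field K] (j j' : K →+* PadicAlgCl q)
    (h : ∀ x, ‖j x‖ < 1 → ‖j' x‖ < 1) (x : K) : ‖j x‖ = ‖j' x‖ :=
  H54.norm_eq_of_norm_lt_one_imp j j' h x

/-- **Linear combinations over `ℚ_q`.** If `j` and `j'` have the same norm on `K`, then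
`|Σ cᵢ j(xᵢ)| = |Σ cᵢ j'(xᵢ)|` for all `xᵢ ∈ K`, `cᵢ ∈ ℚ_q`: approximate the `cᵢ` by rational numbers. File
`H54PadicGal`. -/
theorem norm_of_combination {q : ℕ} [Fact q.Prime] {K : Type*} [Field K] {j j' : K →+* PadicAlgCl q}
    (h : ∀ x, ‖j x‖ = ‖j' x‖) {I : Type*} [Fintype I] (x : I → K) (c : I → ℚ_[q]) :
    ‖∑ i, (c i : PadicAlgCl q) * j (x i)‖ = ‖∑ i, (c i : PadicAlgCl q) * j' (x i)‖ :=
  H54.norm_sum_eq h x c

/-- **Embeddings which define the same place are conjugate** under `Gal(ℚ̄_q/ℚ_q)`. By
`norm_of_combination` `Σ cᵢ j(xᵢ) ↦ Σ cᵢ j'(xᵢ)` is well defined; it is an isomorphism from the compositum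
`ℚ_q · j(K)` to `ℚ_q · j'(K)` over `ℚ_q`, and extends to `ℚ̄_q`. File `H54PadicGal`. -/
theorem conjugate_embeddings {q : ℕ} [Fact q.Prime] {K : Type*} [Field K] {j j' : K →+* PadicAlgCl q}
    (h : ∀ x, ‖j x‖ < 1 → ‖j' x‖ < 1) :
    ∃ τ : PadicAlgCl q ≃ₐ[ℚ_[q]] PadicAlgCl q, ∀ x, j' x = τ (j x) :=
  H54.exists_algEquiv_of_norm_lt_one_imp h

/-! ## 2. Krasner's lemma -/

/-- **Approximation by algebraic numbers.** Every `y ∈ ℚ̄_q` is arbitrarily close to an `ι(α)`, `α ∈ ℚ̄`,
which generates the same extension of `ℚ_q`: approximate the minimal polynomial of `y` by a polynomial with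
rational coefficients, and use Krasner's lemma. File `H54PadicGal`. -/
theorem approximation (q : ℕ) [Fact q.Prime] (y : PadicAlgCl q) {η : ℝ} (hη : 0 < η) :
    ∃ α : Qb, ‖y - padicEmbedding q α‖ < η ∧ ℚ_[q]⟮y⟯ = ℚ_[q]⟮padicEmbedding q α⟯ :=
  H54.exists_padicEmbedding_near q y hη

/-- **Every finite extension of `ℚ_q` is generated by an algebraic number.** File `H54PadicGal`. -/
theorem generated_by_algebraic_number (q : ℕ) [Fact q.Prime]
    (E : IntermediateField ℚ_[q] (PadicAlgCl q)) [FiniteDimensional ℚ_[q] E] :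
    ∃ α : Qb, E = ℚ_[q]⟮padicEmbedding q α⟯ :=
  H54.exists_adjoin_padicEmbedding_eq q E

/-! ## 3. The decomposition group -/

/-- **The place `padicPlace q`** of `ℚ̄`: its maximal ideal consists of the `x` with `|ι(x)| < 1`, and it lies
above `q`. File `H54Place`. -/
theorem place_of_embedding (q : ℕ) [Fact q.Prime] :
    (∀ x : Qb, x ∈ (padicPlace q).nonunits ↔ ‖padicEmbedding q x‖ < 1) ∧
      (padicPlace q).LiesOverPrime q :=
  ⟨H54.mem_nonunits_padicPlace_iff, H54.liesOverPrime_padicPlace q⟩

/-- **From the local to the global Galois group**: `localGaloisToGlobal q` is the restriction of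
automorphisms of `ℚ̄_q` to `ℚ̄` along `ι`; it is injective, because the elements `ι(α)` generate all finite
extensions of `ℚ_q`. File `H54PadicGal`. -/
theorem local_to_global (q : ℕ) [Fact q.Prime] :
    (∀ (τ : PadicAlgCl q ≃ₐ[ℚ_[q]] PadicAlgCl q) (x : Qb),
        padicEmbedding q (localGaloisToGlobal q τ x) = τ (padicEmbedding q x)) ∧
      Function.Injective (localGaloisToGlobal q) :=
  ⟨padicEmbedding_localGaloisToGlobal q, H54.localGaloisToGlobal_injective q⟩

/-- An automorphism `σ` of `ℚ̄` comes from `Gal(ℚ̄_q/ℚ_q)` if and only if it maps the maximal ideal of the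
place into itself (`conjugate_embeddings` for `ι` and `ι ∘ σ`). File `H54PadicGal`. -/
theorem mem_image_iff (q : ℕ) [Fact q.Prime] (σ : GQ) :
    σ ∈ (localGaloisToGlobal q).range ↔
      ∀ x, ‖padicEmbedding q x‖ < 1 → ‖padicEmbedding q (σ x)‖ < 1 :=
  H54.mem_range_localGaloisToGlobal_iff q σ

/-- **The image of `Gal(ℚ̄_q/ℚ_q)` is the decomposition group** of `padicPlace q`. File `H54PadicGal`. -/
theorem image_is_decomposition_group (q : ℕ) [Fact q.Prime] :
    (localGaloisToGlobal q).range = (padicPlace q).decompositionSubgroup ℚ :=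
  H54.range_localGaloisToGlobal q

/-! ## 4. Completions as subfields of `ℚ̄_q` -/

/-- **The compositum `ℚ_q · ι(F)`** (`locField q F`), `F ⊂ ℚ̄`: `τ` fixes it if and only if the restriction of
`τ` to `ℚ̄` fixes `F`; so its Galois group is the preimage of `Gal(ℚ̄/F)`. File `H54PadicGal`. -/
theorem galois_group_of_compositum (q : ℕ) [Fact q.Prime] (F : IntermediateField ℚ Qb) :
    (∀ τ : PadicAlgCl q ≃ₐ[ℚ_[q]] PadicAlgCl q,
        τ ∈ (H54.locField q F).fixingSubgroup ↔ localGaloisToGlobal q τ ∈ F.fixingSubgroup) ∧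
      F.fixingSubgroup.comap (localGaloisToGlobal q) = (H54.locField q F).fixingSubgroup :=
  ⟨H54.mem_fixingSubgroup_locField_iff q F, H54.comap_fixingSubgroup q F⟩

/-- **Generators**: the compositum of `ℚ_q` and `ℚ(s)` is generated by `ι(s)`. File `H54PadicGal`. -/
theorem compositum_adjoin (q : ℕ) [Fact q.Prime] (s : Set Qb) :
    H54.locField q (IntermediateField.adjoin ℚ s) =
      IntermediateField.adjoin ℚ_[q] (padicEmbedding q '' s) :=
  H54.locField_adjoin q s

/-- **Number fields and local fields.** The compositum of `ℚ_q` and a number field is finite over `ℚ_q`, and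
every finite extension of `ℚ_q` is of this form. File `H54PadicGal`. -/
theorem local_fields_are_completions (q : ℕ) [Fact q.Prime] :
    (∀ F : IntermediateField ℚ Qb, FiniteDimensional ℚ F → FiniteDimensional ℚ_[q] (H54.locField q F)) ∧
      ∀ E : IntermediateField ℚ_[q] (PadicAlgCl q), FiniteDimensional ℚ_[q] E →
        ∃ F : IntermediateField ℚ Qb, FiniteDimensional ℚ F ∧ H54.locField q F = E :=
  ⟨fun F _ => H54.finiteDimensional_locField q F, fun E _ => H54.exists_locField_eq q E⟩

/-- **The completion of a number field `K` at the place of `j : K → ℚ̄_q`** is `embField j = ℚ_q(j(K))`. For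
every field `K` it contains `j(K)`, its Galois group is the stabiliser of `j`, and `j(K)` is dense in it. File
`H54EmbField`. -/
theorem completion_at_embedding {q : ℕ} [Fact q.Prime] {K : Type*} [Field K] (j : K →+* PadicAlgCl q) :
    (∀ x, j x ∈ H54.embField j) ∧
      (∀ τ : PadicAlgCl q ≃ₐ[ℚ_[q]] PadicAlgCl q,
        τ ∈ (H54.embField j).fixingSubgroup ↔ ∀ x, τ (j x) = j x) ∧
      ∀ y ∈ H54.embField j, ∀ ε : ℝ, 0 < ε → ∃ x : K, ‖y - j x‖ < ε :=
  ⟨H54.apply_mem_embField j, H54.mem_fixingSubgroup_embField_iff j, fun _ hy _ => H54.exists_near j hy⟩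

/-- **Galois theory of `ℚ̄_q`**: an element fixed by the Galois group of `E` is in `E`; finite extensions of
`ℚ_q` are complete and locally compact. File `H54EmbField`. -/
theorem local_fields {q : ℕ} [Fact q.Prime] (E : IntermediateField ℚ_[q] (PadicAlgCl q)) :
    (∀ y : PadicAlgCl q, (∀ τ ∈ E.fixingSubgroup, τ y = y) → y ∈ E) ∧
      (FiniteDimensional ℚ_[q] E → CompleteSpace E ∧ ProperSpace E) :=
  ⟨fun _ => H54.mem_of_forall_fixingSubgroup E,
    fun _ => ⟨H54.completeSpace_intermediateField E, H54.properSpace_intermediateField E⟩⟩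

/-! ## 5. The places of a number field -/

/-- **The place of an embedding.** For a number field `K` and `j : K → ℚ̄_q`, `placeOf j` is the prime ideal
of the integers `x` with `|j(x)| < 1`; it contains `q`. File `H54Place`. -/
theorem placeOf_iff {q : ℕ} [Fact q.Prime] {K : Type*} [Field K] [NumberField K]
    (j : K →+* PadicAlgCl q) :
    (∀ x : 𝓞 K, x ∈ (H54.placeOf j).asIdeal ↔ ‖j (algebraMap (𝓞 K) K x)‖ < 1) ∧
      (q : 𝓞 K) ∈ (H54.placeOf j).asIdeal :=
  ⟨fun _ => H54.mem_placeOf, H54.prime_mem_placeOf j⟩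

/-- **The valuation and the norm are equivalent**: they order the elements of `K` in the same way. File
`H54Place`. -/
theorem valuation_and_norm {q : ℕ} [Fact q.Prime] {K : Type*} [Field K] [NumberField K]
    (j : K →+* PadicAlgCl q) (x y : K) :
    ((H54.placeOf j).valuation K x ≤ (H54.placeOf j).valuation K y ↔ ‖j x‖ ≤ ‖j y‖) ∧
      ((H54.placeOf j).valuation K x < (H54.placeOf j).valuation K y ↔ ‖j x‖ < ‖j y‖) ∧
      ((H54.placeOf j).valuation K x = (H54.placeOf j).valuation K y ↔ ‖j x‖ = ‖j y‖) :=
  ⟨H54.valuation_le_iff_norm j x y, H54.valuation_lt_iff_norm j x y, H54.valuation_eq_iff_norm j x y⟩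

/-- **The norm is a power of the valuation**: `|j(x)| = c^{v(x)}` for some `c` with `0 < c < 1`, where `v(x)`
is the order of `x` at `placeOf j`. So `embField j` is a model of the completion of `K` at this place
(`H54.locModel_embField`). Files `H54Place`, `H54EmbField`. -/
theorem norm_formula {q : ℕ} [Fact q.Prime] {K : Type*} [Field K] [NumberField K]
    (j : K →+* PadicAlgCl q) : ∃ c : ℝ, 0 < c ∧ c < 1 ∧
      ∀ x : K, x ≠ 0 → ‖j x‖ = c ^ (-(WithZero.log ((H54.placeOf j).valuation K x))) :=
  H54.exists_norm_eq_zpow j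

/-- **Every place above `q` comes from an embedding.** Proof: extend the prime ideal to a valuation ring of
`ℚ̄` above `q`; it is conjugate to `padicPlace q`. File `H54Place`. -/
theorem every_place_from_embedding {q : ℕ} [Fact q.Prime] {K : Type*} [Field K] [NumberField K]
    (v : HeightOneSpectrum (𝓞 K)) (hv : (q : 𝓞 K) ∈ v.asIdeal) :
    ∃ j : K →+* PadicAlgCl q, H54.placeOf j = v :=
  H54.exists_placeOf_eq v hv

/-- **Places are conjugacy classes of embeddings** (`conjugate_embeddings`). File `H54Place`. -/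
theorem same_place_iff {q : ℕ} [Fact q.Prime] {K : Type*} [Field K] [NumberField K]
    (j j' : K →+* PadicAlgCl q) :
    H54.placeOf j = H54.placeOf j' ↔
      ∃ τ : PadicAlgCl q ≃ₐ[ℚ_[q]] PadicAlgCl q, ∀ x, j' x = τ (j x) :=
  H54.placeOf_eq_iff j j'

/-- **Restriction**: the place of `K` below the place of `j : L → ℚ̄_q` is that of the restriction of `j` to
`K`. File `H54Place`. -/
theorem place_below {q : ℕ} [Fact q.Prime] {K L : Type*} [Field K] [NumberField K] [Field L]
    [NumberField L] [Algebra K L] (j : L →+* PadicAlgCl q) :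
    (H54.placeOf j).asIdeal.under (𝓞 K) = (H54.placeOf (j.comp (algebraMap K L))).asIdeal :=
  H54.under_placeOf j

/-! ## 6. Places as double cosets -/

/-- **Double cosets.** Let `f : H → G` be a homomorphism, `U ≤ G`. `dec f U g = {x | g⁻¹ f(x) g ∈ U}` is the
stabiliser in `H` of the coset `gU`, and `place f U g` is the double coset `f(H) g U`. File `H55Defs`. -/
theorem double_cosets {G H : Type*} [Group G] [Group H] (f : H →* G) (U : Subgroup G) (g g' : G) :
    (∀ x, x ∈ dec f U g ↔ g⁻¹ * f x * g ∈ U) ∧
      (place f U g = place f U g' ↔ ∃ x : H, ∃ u ∈ U, f x * g * u = g') :=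
  ⟨fun _ => mem_dec, place_eq_iff⟩

/-- **The group of a double coset is the Galois group of a completion.** For `K ⊂ ℚ̄` and `g ∈ Gal(ℚ̄/ℚ)` let
`embAt q K g : K → ℚ̄_q` be `x ↦ ι(g x)`; every embedding is of this form, and the Galois group of the
completion of `K` at its place is `{x | g⁻¹ x g ∈ Gal(ℚ̄/K)}`. File `H54Levels`. -/
theorem galois_group_at_double_coset (q : ℕ) [Fact q.Prime] (K : IntermediateField ℚ Qb) :
    (∀ g (x : K), H54.embAt q K g x = padicEmbedding q (g x)) ∧
      (∀ j : K →+* PadicAlgCl q, ∃ g, H54.embAt q K g = j) ∧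
      ∀ g, dec (localGaloisToGlobal q) K.fixingSubgroup g =
        (H54.embField (H54.embAt q K g)).fixingSubgroup :=
  ⟨H54.embAt_apply q K, H54.exists_embAt_eq q K, H54.dec_fixingSubgroup q K⟩

/-- **Double cosets are places**: `g` and `g'` are in the same double coset of `Gal(ℚ̄_q/ℚ_q)` and
`Gal(ℚ̄/K)` if and only if `ι ∘ g` and `ι ∘ g'` define the same place of the number field `K`, and all places
above `q` occur. File `H54Levels`. -/
theorem double_cosets_are_places (q : ℕ) [Fact q.Prime] (K : IntermediateField ℚ Qb) [NumberField K] :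
    (∀ g g', place (localGaloisToGlobal q) K.fixingSubgroup g =
          place (localGaloisToGlobal q) K.fixingSubgroup g' ↔
        H54.placeOf (H54.embAt q K g) = H54.placeOf (H54.embAt q K g')) ∧
      ∀ v : HeightOneSpectrum (𝓞 K), (q : 𝓞 K) ∈ v.asIdeal → ∃ g, H54.placeOf (H54.embAt q K g) = v :=
  ⟨H54.place_eq_iff_placeOf q K, H54.exists_placeOf_embAt_eq q K⟩

/-- **The number of places of `K` above `q`** is the number `nPl` of double cosets. File `H54Levels`. -/
theorem number_of_places (q : ℕ) [Fact q.Prime] (K : IntermediateField ℚ Qb) [NumberField K] :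
    nPl (localGaloisToGlobal q) K.fixingSubgroup =
      {v : HeightOneSpectrum (𝓞 K) | (q : 𝓞 K) ∈ v.asIdeal}.ncard :=
  H54.nPl_eq q K

/-- **The number of places of `K` above a finite set `S` of primes** is the number `nPlaces` attached to the
local data `DS S` of GuidePoitouTate (`#S(K)` in the formulas for the dimensions of cohomology groups). File
`H54Levels`. -/
theorem number_of_places_above (S : Finset Nat.Primes) (K : IntermediateField ℚ Qb) [NumberField K] :
    (DS S).nPlaces K.fixingSubgroup =
      {v : HeightOneSpectrum (𝓞 K) | ∃ q ∈ S, ((q : ℕ) : 𝓞 K) ∈ v.asIdeal}.ncard :=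
  H54.nPlaces_eq S K

/-! ## 7. Open subgroups and number fields -/

/-- **Subgroups of an infinite Galois group which contain an open one**: if `U` contains the group of a finite
extension `F` of `k`, it is the group of a field `F' ⊆ F`. File `H54Levels`. -/
theorem subgroup_of_field {k L : Type*} [Field k] [Field L] [Algebra k L] [IsGalois k L]
    (F : IntermediateField k L) [FiniteDimensional k F] (U : Subgroup (L ≃ₐ[k] L))
    (h : F.fixingSubgroup ≤ U) :
    ∃ F' : IntermediateField k L, F' ≤ F ∧ FiniteDimensional k F' ∧ F'.fixingSubgroup = U :=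
  H54.exists_eq_fixingSubgroup F U h

/-- **Global levels.** The subgroups in `krullLevels` are the Galois groups `Gal(ℚ̄/F)` of the number fields
`F`, those in `ramLevels S` the groups of the number fields which are unramified outside `S`. File
`H54Levels`. -/
theorem global_levels (S : Finset Nat.Primes) (U : Subgroup GQ) :
    (krullLevels.op U ↔ ∃ F : IntermediateField ℚ Qb, FiniteDimensional ℚ F ∧ F.fixingSubgroup = U) ∧
      ((ramLevels S).op U ↔
        ∃ F : IntermediateField ℚ Qb, F.IsUnramifiedOutside S ∧ F.fixingSubgroup = U) :=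
  ⟨H54.op_krullLevels_iff U, H54.op_ramLevels_iff S U⟩

/-- **Local levels.** The level structure on `Gal(ℚ̄_q/ℚ_q)` which is induced from `Gal(ℚ̄/ℚ)` consists of the
Galois groups of all finite extensions of `ℚ_q` (by `local_fields_are_completions`). So cochains of finite
level on the local group are the same as locally constant functions. File `H54Levels`. -/
theorem local_levels (q : ℕ) [Fact q.Prime] (V : Subgroup (PadicAlgCl q ≃ₐ[ℚ_[q]] PadicAlgCl q)) :
    (krullLevels.comap (localGaloisToGlobal q)).op V ↔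
      ∃ E : IntermediateField ℚ_[q] (PadicAlgCl q), FiniteDimensional ℚ_[q] E ∧ E.fixingSubgroup = V :=
  H54.op_comap_localGaloisToGlobal_iff q V

/-- **Index and degree.** File `H54HasseNorm`. -/
theorem index_eq_degree (K : IntermediateField ℚ Qb) : K.fixingSubgroup.index = finrank ℚ K :=
  H54.finrank_eq_index K

/-! ## 8. Roots of unity in local fields -/

/-- **Roots of unity are not too close to 1**: if `ζ ≠ 1` and `ζ^{pⁿ} = 1`, then `|p| ≤ |1 - ζ|`. File
`H54RootsUnity`. -/
theorem root_of_unity_norm {q : ℕ} [Fact q.Prime] {p n : ℕ} (hp : p.Prime) {ζ : PadicAlgCl q}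
    (h : ζ ^ p ^ n = 1) (h1 : ζ ≠ 1) : ‖(p : PadicAlgCl q)‖ ≤ ‖1 - ζ‖ :=
  H54.norm_prime_le_norm_one_sub hp h h1

/-- **A finite extension `E` of `ℚ_q` contains only finitely many roots of unity of `p`-power order**
(a sequence of them would have a convergent subsequence, against `root_of_unity_norm`); so for large `m` some
element of its Galois group moves a given primitive `pᵐ`-th root of unity. File `H54RootsUnity`. -/
theorem few_roots_of_unity {q : ℕ} [Fact q.Prime] (E : IntermediateField ℚ_[q] (PadicAlgCl q))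
    [FiniteDimensional ℚ_[q] E] {p : ℕ} (hp : p.Prime) :
    (∃ M : ℕ, ∀ m, M ≤ m → ∀ ζ : PadicAlgCl q, IsPrimitiveRoot ζ (p ^ m) → ζ ∉ E) ∧
      ∃ M : ℕ, ∀ m, M ≤ m → ∀ ζ : PadicAlgCl q, IsPrimitiveRoot ζ (p ^ m) →
        ∃ s ∈ E.fixingSubgroup, s ζ ≠ ζ :=
  ⟨H54.exists_primitiveRoot_notMem E hp, H54.exists_fixing_move E hp⟩

/-- **Eisenstein's criterion**: `Φ_{pⁿ⁺¹}(X + 1)` is irreducible over `ℚ_p`; so all primitive `pⁿ⁺¹`-th roots
of unity are conjugate over `ℚ_p`. File `H54TotRam`. -/
theorem conjugate_roots_of_unity (p : ℕ) [Fact p.Prime] (n : ℕ) :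
    Irreducible ((Polynomial.cyclotomic (p ^ (n + 1)) ℚ_[p]).comp (Polynomial.X + 1)) ∧
      ∀ ζ ζ' : PadicAlgCl p, IsPrimitiveRoot ζ (p ^ (n + 1)) → IsPrimitiveRoot ζ' (p ^ (n + 1)) →
        ∃ τ : PadicAlgCl p ≃ₐ[ℚ_[p]] PadicAlgCl p, τ ζ = ζ' :=
  ⟨H54.irreducible_cyclotomic_comp_padic p n, fun _ _ => H54.exists_algEquiv_primitiveRoot p⟩

/-- **`ℚ(μ_{pⁿ⁺¹})` has only one place above `p`**, of full local degree (and it is totally ramified, by the
Eisenstein polynomial): the local Galois group at `p` acts on the `pⁿ⁺¹`-th roots of unity of `ℚ̄` like the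
whole of `Gal(ℚ̄/ℚ)`. In particular (`n = 0`) the mod `p` cyclotomic character takes all its values on it.
File `H54TotRam`. -/
theorem totally_ramified (p : ℕ) [Fact p.Prime] (g : GQ) :
    (∀ (n : ℕ) (ζ : Qb), IsPrimitiveRoot ζ (p ^ (n + 1)) →
        ∃ τ, localGaloisToGlobal p τ ζ = g ζ) ∧
      ∃ τ, cycloChar p (localGaloisToGlobal p τ) = cycloChar p g :=
  ⟨fun _ _ hζ => H54.exists_localGaloisToGlobal_apply_eq p hζ g,
    H54.exists_cycloChar_localGaloisToGlobal_eq p g⟩

end Fermat.Agent.Guide.Decomposition
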