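import Fermat.Agent.S48
import Fermat.Agent.H58Newform

/-!
# Reader's guide: Eisenstein series of weight one, and changing the level of an eigenform

Nothing is proved in this file. Every theorem is the exact statement of a theorem of the library,
with all hypotheses written out, followed by a citation. No file imports this one.

## What the block does

Sections 1 to 3 are a companion of `Fermat.Agent.GuideDeligneSerre` and
`Fermat.Agent.GuideWeightOne` (S48). They give the construction of the Eisenstein series of weight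
one and the definition of the Hecke operators which are used there:

* for an odd prime `ℓ` there is an Eisenstein series `E` of weight one on `Γ₁(ℓ)` which is congruent
  to `1` modulo all primes above `ℓ` (theorem `eisenstein_congruent_one` of `GuideDeligneSerre`), so
  that a form `f` of weight one and the form `f E` of weight two have the same reduction (section 6
  of `GuideWeightOne`);
* the operators `T_p` on `S_k(Γ₁(N))` are well defined and commute.

Section 4 is independent: how the level of an eigenform of weight two on `Γ₀(N)` is changed.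

## The method

The Weierstrass zeta function of the lattice `ℤ τ + ℤ` is used in multiplicative form, as a series
in `q = exp(2πiτ)` and `w = exp(2πiz)` which converges absolutely. Its behaviour under `z ↦ z + 1`,
`z ↦ z + τ`, `τ ↦ τ + 1` is read off from the series. The behaviour under `τ ↦ -1/τ` is the maximum
principle on a period parallelogram; no conditionally convergent double series (Eisenstein
summation, Hecke's trick) and no Poisson formula. Its values at `z = x τ + y` (`x`, `y` real, not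
both integers) are forms of weight one; they are permuted by `SL₂(ℤ)` through the right action on
the rows `(x, y)`. Their expansions at `∞` are explicit.

## References

NOTES.md, section A.9, [278], files `H58Zeta`, `H58Eis1` to `H58Eis3`, `H58E1`, `H58Dia`,
`H58Hecke1`, `H58Stab`, `H58Newform` (helper58). Sections 1 to 3 are in the closure of S48 (and of
S47, which uses S48), section 4 in the closure of S01, S03, S04, S06, S38, S45, S46, S50, S59, S60
and, without the last two theorems, of S58. The division values of the Weierstrass `℘`-function,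
which also belong to S48, are in `Fermat.Agent.GuideDivisionValues`.

## Notation

`H58.nm z = exp(2πiz)`. `𝕢 h τ` is `exp(2πiτ/h)`. `f ∣[k] γ` is the slash action of weight `k`.
`H58.RedTo φ z c`, for a homomorphism `φ` from a subring `R` of `ℂ` to a field `F`, says that
`z ∈ R` and `φ z = c`.
-/

set_option autoImplicit false

open UpperHalfPlane hiding I
open ModularForm CongruenceSubgroup ModularFormClass
open scoped MatrixGroups ModularForm Manifold

namespace Fermat.Agent.Guide.EisensteinOne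

local notation "𝕢" => Function.Periodic.qParam

/-! ## 1. The zeta function of a lattice in multiplicative form -/

/-- **Definition.** With `q = exp(2πiτ)`, `w = exp(2πiz)` put
`Z(z, τ) = πi ((w + 1)/(w - 1) + 2 ∑_{n ≥ 1} (qⁿ/(w - qⁿ) - qⁿ w/(1 - qⁿ w)))`. For `w ≠ 0`,
`|q| < 1` the series converges absolutely. (`Z` is the Weierstrass zeta function of the lattice
`ℤ τ + ℤ` up to a linear function of `z`; this is not used.) File `H58Zeta`. -/
theorem zeta_definition (z τ : ℂ) :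
    H58.Zf z τ = Real.pi * Complex.I * ((H58.nm z + 1) / (H58.nm z - 1) + 2 * ∑' n : ℕ,
      (H58.nm τ ^ (n + 1) / (H58.nm z - H58.nm τ ^ (n + 1)) -
        H58.nm τ ^ (n + 1) * H58.nm z / (1 - H58.nm τ ^ (n + 1) * H58.nm z))) ∧
    H58.nm z = Complex.exp (2 * Real.pi * Complex.I * z) ∧
    ∀ q w : ℂ, ‖q‖ < 1 → w ≠ 0 → Summable fun n : ℕ =>
      q ^ (n + 1) / (w - q ^ (n + 1)) - q ^ (n + 1) * w / (1 - q ^ (n + 1) * w) :=
  ⟨rfl, rfl, fun _ _ hq hw => H58.summable_zt hq hw⟩

/-- **The easy symmetries.** `Z` is odd in `z`, has period `1` in `z` and in `τ`, and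
`Z(z + τ, τ) = Z(z, τ) - 2πi` if neither `z` nor `z + τ` is an integer: multiplying `w` by `q`
shifts the index of the series. File `H58Zeta`. -/
theorem zeta_symmetries (z τ : ℂ) :
    H58.Zf (-z) τ = -H58.Zf z τ ∧ H58.Zf (z + 1) τ = H58.Zf z τ ∧
    H58.Zf z (τ + 1) = H58.Zf z τ ∧
    (0 < τ.im → (¬ ∃ n : ℤ, z = n) → (¬ ∃ n : ℤ, z + τ = n) →
      H58.Zf (z + τ) τ = H58.Zf z τ - 2 * Real.pi * Complex.I) :=
  ⟨H58.Zf_neg z τ, H58.Zf_add_one z τ, H58.Zf_tau_add_one z τ, fun h h1 h2 => H58.Zf_add_tau h h1 h2⟩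

/-- **Holomorphy and the pole.** `Z(·, τ)` is holomorphic in the strip `|Im z| < Im τ` outside the
integers, and has a simple pole with residue `1` at the origin. File `H58Zeta`. -/
theorem zeta_holomorphic {τ : ℂ} (hτ : 0 < τ.im) :
    (∀ z : ℂ, |z.im| < τ.im → (¬ ∃ n : ℤ, z = n) →
      DifferentiableAt ℂ (fun z => H58.Zf z τ) z) ∧
    Filter.Tendsto (fun z => z * H58.Zf z τ) (nhdsWithin 0 {0}ᶜ) (nhds 1) :=
  ⟨fun _ h h1 => H58.differentiableAt_Zf hτ h h1, H58.tendsto_mul_Zf hτ⟩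

/-- **The transformation under `τ ↦ -1/τ`.** For `z ≠ 0` in the open parallelogram
`{a τ + b : |a| < 1, |b| < 1}` (which is described by the two inequalities):
`Z(z/τ, -1/τ) = τ Z(z, τ) + 2πi z`. Proof: the difference `D` of the two sides, divided by `τ`, is
holomorphic on the parallelogram also at the origin, because the residues cancel. It takes the same
value at points which differ by `1` or `τ`, so the values on the compact parallelogram
`|a|, |b| ≤ 1/2` are all its values; `|D|` has a maximum, hence `D` is constant. It is odd, so it is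
zero. File `H58Zeta`. -/
theorem zeta_transformation {τ : ℂ} (hτ : 0 < τ.im) {z : ℂ} (h1 : |z.im| < τ.im)
    (h2 : |(z / τ).im| < (-1 / τ).im) (hz0 : z ≠ 0) :
    H58.Zf (z / τ) (-1 / τ) = τ * H58.Zf z τ + 2 * Real.pi * Complex.I * z :=
  H58.Zf_S hτ ⟨h1, h2⟩ hz0

/-! ## 2. Eisenstein series of weight one -/

/-- **Definition.** `E_{x,y}(τ) = Z(x τ + y, τ) + 2πi x` for real numbers `x`, `y`; the linear term
makes it periodic: it depends only on `x`, `y` modulo `ℤ`, if they are not both integers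
(`H58.NI x y`). File `H58Eis1`. -/
theorem weightOne_definition (x y : ℝ) (τ : ℍ) :
    H58.Ev x y τ = H58.Zf (x * τ + y) τ + 2 * Real.pi * Complex.I * x ∧
    (H58.NI x y ↔ ¬ ((∃ m : ℤ, x = m) ∧ ∃ n : ℤ, y = n)) ∧
    (H58.NI x y → ∀ m n : ℤ, H58.Ev (x + m) (y + n) τ = H58.Ev x y τ) :=
  ⟨rfl, Iff.rfl, fun h m n => H58.Ev_add_int h m n τ⟩

/-- **The transformation law** `E_{x,y} |₁ γ = E_{(x,y) γ}` for all `γ ∈ SL₂(ℤ)`. For the two
generators `T` and `S` of `SL₂(ℤ)` this is `zeta_symmetries` and `zeta_transformation` (after moving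
`x`, `y` to the interval `[0, 1)`). File `H58Eis1`. -/
theorem weightOne_slash (γ : SL(2, ℤ)) {x y : ℝ}
    (h : ¬ ((∃ m : ℤ, x = m) ∧ ∃ n : ℤ, y = n)) :
    (H58.Ev x y) ∣[(1 : ℤ)] γ = H58.Ev (x * γ 0 0 + y * γ 1 0) (x * γ 0 1 + y * γ 1 1) :=
  H58.Ev_slash γ h

/-- **Holomorphy and boundedness at all cusps.** By `weightOne_slash` it is enough to bound the
series for `0 ≤ x < 1` and `Im τ ≥ δ`: the `n`-th term is at most `C exp(-2πδ)ⁿ`. File `H58Eis2`. -/
theorem weightOne_holomorphic_bounded {x y : ℝ} (h : ¬ ((∃ m : ℤ, x = m) ∧ ∃ n : ℤ, y = n))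
    (γ : SL(2, ℤ)) : MDiff (H58.Ev x y) ∧ IsBoundedAtImInfty ((H58.Ev x y) ∣[(1 : ℤ)] γ) :=
  ⟨H58.mdifferentiable_Ev h, H58.isBoundedAtImInfty_Ev_slash h γ⟩

/-- **The expansion** of `E_{0,y}`, with `ζ = exp(2πiy)`: constant term `πi (ζ + 1)/(ζ - 1)`, and
`n`-th coefficient `2πi ∑_{d ∣ n} (ζ⁻ᵈ - ζᵈ)`. File `H58Eis3`. -/
theorem weightOne_expansion (y : ℝ) (τ : ℍ) :
    HasSum (fun n : ℕ => (if n = 0 then
        Real.pi * Complex.I * ((H58.nm y + 1) / (H58.nm y - 1)) else
        2 * Real.pi * Complex.I * ∑ d ∈ n.divisors, ((H58.nm y)⁻¹ ^ d - H58.nm y ^ d)) •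
      𝕢 1 τ ^ n) (H58.Ev 0 y τ) :=
  H58.hasSum_Ev y τ

/-- **Level `N`.** For `u` not divisible by `N` the function `E_{0,u/N}` is a modular form
`H58.E1 N u` of weight one on `Γ₁(N)`, and `γ ∈ Γ₀(N)` with lower right entry `d` maps it to
`E_{0,ud/N}`. Its coefficients are those of `weightOne_expansion` (`H58.cE w n` is the number there,
with `w = ζ`). File `H58E1`. -/
theorem weightOne_level (N : ℕ) [NeZero N] (u : ℤ) (hu : ¬ (N : ℤ) ∣ u) {γ : SL(2, ℤ)}
    (hγ : γ ∈ Gamma0 N) (n : ℕ) :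
    ⇑(H58.E1 N u hu) = H58.Ev 0 ((u : ℝ) / N) ∧
    (H58.Ev 0 ((u : ℝ) / N)) ∣[(1 : ℤ)] γ = H58.Ev 0 (((u * γ 1 1 : ℤ) : ℝ) / N) ∧
    qCoeff (H58.E1 N u hu) n = H58.cE (H58.nm ((u : ℝ) / N : ℝ)) n :=
  ⟨rfl, H58.Ev_slash_Gamma0 hu hγ, H58.qCoeff_E1 u hu n⟩

/-- **The constant term modulo `ℓ`.** Let `ℓ` be a prime, `ζ = exp(2πi/ℓ)` (`H58.zl ℓ`), and
`φ : R → F` a homomorphism from a subring `R` of `ℂ` which contains the algebraic integers to a
field of characteristic `ℓ`. `H58.RedTo φ z c` says that `z ∈ R` and `φ z = c`. Then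
`(ζᵃ - 1)/(ζᵇ - 1)` is in `R` and reduces to `a/b` (it is `1 + ζᵇ + ... + ζ^{b(e-1)}` with
`b e ≡ a`, and `φ ζ = 1`). For `u` not divisible by `ℓ` the constant term of `E_{0,u/ℓ}` is
`κ(u) = πi (ζᵘ + 1)/(ζᵘ - 1) = πi (ζ²ᵘ - 1)/(ζᵘ - 1)²` (`H58.kap ℓ u`), and it is not zero if `ℓ` is
odd. Since `2πi/κ(u) = 2 (ζᵘ - 1)²/(ζ²ᵘ - 1)` reduces to `0`, the coefficients of `E_{0,u/ℓ}/κ(u)`
are `1` and numbers which reduce to `0`. File `H58E1`. -/
theorem constant_term_modulo {ℓ : ℕ} [Fact ℓ.Prime] {F : Type*} [Field F] [CharP F ℓ]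
    {S : Type*} [SetLike S ℂ] [SubringClass S ℂ] {R : S} (hR : ∀ z : ℂ, IsIntegral ℤ z → z ∈ R)
    (φ : R →+* F) {a b u : ℤ} (hb : ¬ (ℓ : ℤ) ∣ b) (hu : ¬ (ℓ : ℤ) ∣ u) :
    H58.RedTo φ ((H58.zl ℓ ^ a - 1) / (H58.zl ℓ ^ b - 1)) ((a : F) / b) ∧
    H58.kap ℓ u = Real.pi * Complex.I * ((H58.zl ℓ ^ (2 * u) - 1) / (H58.zl ℓ ^ u - 1) ^ 2) ∧
    (ℓ ≠ 2 → H58.kap ℓ u ≠ 0) :=
  ⟨H58.redTo_ratio hR φ hb, H58.kap_eq hu, fun hℓ => H58.kap_ne_zero hℓ hu⟩

/-!
## 3. Hecke operators on forms on `Γ₁(N)`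

`H58.dia N k d` is the diamond operator `⟨d⟩` and `H58.T1L N k p hp hpN` the Hecke operator `T_p`,
`p ∤ N`, on `S_k(Γ₁(N))`; their effect on coefficients is theorem `hecke_operators` of
`GuideDeligneSerre`.
-/

/-- **The Hecke operators exist and commute.** `T_p f` is the sum of `U_p f` (a sum over the
matrices `(1 j; 0 p)`, `j` modulo `p`) and of `⟨p⟩ f` acted on by `diag(p, 1)`. The operator, on
functions (`H58.T1`), commutes with the action of `Γ₀(N)`: a matrix `γ` permutes the `p + 1`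
summands, which are indexed by the projective line over `𝔽_p`. Hence it maps forms on `Γ₁(N)` to
forms on `Γ₁(N)`. The `T_p` commute with each other because their effects on coefficients do. Files
`H58Dia`, `H58Hecke1`. -/
theorem hecke_operators_commute {N : ℕ} [NeZero N] {k : ℤ} {p q : ℕ} (hp : p.Prime) (hpN : ¬ p ∣ N)
    (hq : q.Prime) (hqN : ¬ q ∣ N) (f : CuspForm (Gamma1 N) k) {g : SL(2, ℤ)} (hg : g ∈ Gamma0 N) :
    ⇑(H58.T1L N k p hp hpN f) = heckeU k p ⇑f + (⇑(H58.dia N k p f)) ∣[k] heckeDiagMatrix p ∧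
    (H58.T1 N k p ⇑f) ∣[k] g = H58.T1 N k p (⇑f ∣[k] g) ∧
    Commute (H58.T1L N k p hp hpN) (H58.T1L N k q hq hqN) := by
  have : Fact p.Prime := ⟨hp⟩
  exact ⟨H58.coe_T1L hp hpN f, H58.T1_slash hpN (H58.inv1_of_class f) hg,
    H58.T1L_T1L_comm hp hpN hq hqN⟩

/-!
## 4. Changing the level of an eigenform

Normalised eigenforms of weight two on `Γ₀(N)` are defined in the Prelude through relations between
their coefficients.
-/

/-- **Inclusion and multiplication of the variable.** For `M q ∣ N` there are linear maps from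
`S_k(Γ₀(M))` to `S_k(Γ₀(N))`: the inclusion `H58.levelIncl`, and `H58.slashDiagLin`, the action of
`diag(q, 1)`, which is `q^{k-1} f(q τ)`. The inclusion of a normalised eigenform is a normalised
eigenform if `N` has no other primes than `M`. File `H58Stab`. -/
theorem level_maps {M N : ℕ} [NeZero M] [NeZero N] {k : ℤ} {q : ℕ} (hq : q ≠ 0) (h : M * q ∣ N)
    (h' : M ∣ N) (f : CuspForm (Gamma0 M) k) (n : ℕ) :
    ⇑(H58.levelIncl k h' f) = ⇑f ∧
    qCoeff ⇑(H58.slashDiagLin k hq h f) n =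
      (if q ∣ n then (q : ℂ) ^ (k - 1) * qCoeff ⇑f (n / q) else 0) ∧
    ((∀ p : ℕ, p.Prime → p ∣ N → p ∣ M) → ∀ g : CuspForm (Gamma0 M) 2, g.IsNormalizedEigenform →
      (H58.levelIncl 2 h' g).IsNormalizedEigenform) :=
  ⟨rfl, H58.qCoeff_slashDiagLin hq h f n,
    fun hpr _ hg => H58.isNormalizedEigenform_levelIncl h' hg hpr⟩

/-- **Stabilisation at a prime.** Let `M q ∣ N`. For `f ∈ S₂(Γ₀(M))` the function `f(τ) - c f(q τ)`
is a form of level `N` (`H58.stab`) with coefficients `a_n - c a_{n/q}`. Let `q ∤ M` be a prime, `f`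
a normalised eigenform, and `α`, `β` the roots of `X² - a_q X + q`. If `N` has no other primes than
`M q`, then `f(τ) - β f(q τ)` is a normalised eigenform of level `N` with eigenvalue `α` of `U_q`.
File `H58Stab`. -/
theorem stabilisation {M N : ℕ} [NeZero M] [NeZero N] {q : ℕ} (hq : q.Prime) (hqM : ¬ q ∣ M)
    (h : M * q ∣ N) (hpr : ∀ p : ℕ, p.Prime → p ∣ N → p ∣ M * q) {f : CuspForm (Gamma0 M) 2}
    (hf : f.IsNormalizedEigenform) {α β : ℂ} (hsum : α + β = qCoeff ⇑f q) (hprod : α * β = q)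
    (n : ℕ) :
    qCoeff ⇑(H58.stab hq.ne_zero h β f) n =
      qCoeff ⇑f n - (if q ∣ n then β * qCoeff ⇑f (n / q) else 0) ∧
    (H58.stab hq.ne_zero h β f).IsNormalizedEigenform ∧
      qCoeff ⇑(H58.stab hq.ne_zero h β f) q = α :=
  ⟨H58.qCoeff_stab hq.ne_zero h β f n, H58.isNormalizedEigenform_stab hq hqM h hpr hf hsum hprod⟩

/-- **Raising the level.** A normalised eigenform of level `M` gives, for every nonzero multiple `N`
of `M`, a normalised eigenform of level `N` with the same `a_ℓ` for all primes `ℓ` not dividing `N`: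
one stabilisation for each prime of `N` which does not divide `M`. File `H58Stab`. -/
theorem raise_level {M N : ℕ} (hN : N ≠ 0) (h : M ∣ N) {f : CuspForm (Gamma0 M) 2}
    (hf : f.IsNormalizedEigenform) :
    ∃ g : CuspForm (Gamma0 N) 2, g.IsNormalizedEigenform ∧
      ∀ ℓ : ℕ, ℓ.Prime → ¬ ℓ ∣ N → qCoeff ⇑g ℓ = qCoeff ⇑f ℓ :=
  H58.exists_isNormalizedEigenform_of_dvd' hN h hf

/-- **Descent to a newform.** Every normalised eigenform `f` of level `N` has a newform `g` of some
level `M ∣ N` with the same `a_ℓ` for all primes `ℓ ∤ N`. (`IsNewform` of the Prelude says that the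
eigensystem of `g` away from its level occurs at no proper divisor of the level, so one takes the
smallest level.) File `H58Newform`. -/
theorem newform_descent {N : ℕ} (hN : N ≠ 0) {f : CuspForm (Gamma0 N) 2}
    (hf : f.IsNormalizedEigenform) :
    ∃ M : ℕ, M ∣ N ∧ ∃ g : CuspForm (Gamma0 M) 2, g.IsNewform ∧
      ∀ ℓ : ℕ, ℓ.Prime → ¬ ℓ ∣ N → qCoeff g ℓ = qCoeff f ℓ :=
  H58.exists_isNewform hN hf

/-- **Recursions for the coefficients.** For a normalised eigenform of level `N` and `n ≥ 1`: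
`a_{ℓn} + ℓ a_{n/ℓ} = a_ℓ a_n` for a prime `ℓ ∤ N`, and `a_{qn} = a_q a_n` for a prime `q ∣ N`; by
multiplicativity and induction on the power of the prime in `n`. File `H58Newform`. -/
theorem coefficient_relations {N : ℕ} {f : CuspForm (Gamma0 N) 2} (hf : f.IsNormalizedEigenform)
    {ℓ q : ℕ} (hℓ : ℓ.Prime) (hℓN : ¬ ℓ ∣ N) (hq : q.Prime) (hqN : q ∣ N) (n : ℕ) (hn : n ≠ 0) :
    qCoeff ⇑f (ℓ * n) + (if ℓ ∣ n then (ℓ : ℂ) * qCoeff ⇑f (n / ℓ) else 0) =
      qCoeff ⇑f ℓ * qCoeff ⇑f n ∧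
    qCoeff ⇑f (q * n) = qCoeff ⇑f q * qCoeff ⇑f n :=
  ⟨H58.qCoeff_mul_add hf hℓ hℓN n hn, H58.qCoeff_mul_of_dvd hf hq hqN n hn⟩

/-- **Eigenforms and the Hecke algebra.** Let `f` be a normalised eigenform of level `N`. It is an
eigenvector of the operators `T_ℓ`, `ℓ ∤ N`, and `U_q`, `q ∣ N`, of the Prelude, by comparison of
all coefficients, so every element `t` of the Hecke algebra (generated by those with index not in
`S`) acts on `f` by a scalar, which is the first coefficient of `t f`; `H58.eigenChar hf S` is this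
ring homomorphism. File `H58Newform`. -/
theorem eigencharacter {N : ℕ} [NeZero N] {f : CuspForm (Gamma0 N) 2}
    (hf : f.IsNormalizedEigenform) {S : Set ℕ} (t : CuspForm.heckeAlgebra N 2 S) :
    (∀ (ℓ : ℕ) (hℓ : ℓ.Prime) (hℓN : ¬ ℓ ∣ N), CuspForm.heckeTLin 2 hℓ hℓN f = qCoeff ⇑f ℓ • f) ∧
    (∀ (q : ℕ) (_ : q.Prime) (hqN : q ∣ N), CuspForm.heckeULin 2 hqN f = qCoeff ⇑f q • f) ∧
    (t : Module.End ℂ (CuspForm (Gamma0 N) 2)) f =
      qCoeff ⇑((t : Module.End ℂ (CuspForm (Gamma0 N) 2)) f) 1 • f ∧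
    (∀ (ℓ : ℕ) (hℓ : ℓ.Prime) (hℓN : ¬ ℓ ∣ N) (hℓS : ℓ ∉ S),
      H58.eigenChar hf S (CuspForm.heckeAlgebra.T hℓ hℓN hℓS) = qCoeff ⇑f ℓ) ∧
    (∀ (q : ℕ) (hq : q.Prime) (hqN : q ∣ N) (hqS : q ∉ S),
      H58.eigenChar hf S (CuspForm.heckeAlgebra.U hq hqN hqS) = qCoeff ⇑f q) :=
  ⟨fun _ hℓ hℓN => H58.heckeTLin_eq_smul hf hℓ hℓN, fun _ hq hqN => H58.heckeULin_eq_smul hf hq hqN,
    H58.heckeAlgebra_apply_eq hf t, fun _ hℓ hℓN hℓS => H58.eigenChar_T hf hℓ hℓN hℓS,
    fun _ hq hqN hqS => H58.eigenChar_U hf hq hqN hqS⟩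

end Fermat.Agent.Guide.EisensteinOne
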