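import Fermat.Agent.S19

/-!
# Guide: the addition lemma for residue discs, step by step (statement S19)

This file is a companion of `GuideFlatTorsion` (the `ℓ`-power torsion of `J₀(N)` is finite flat at
`ℓ ∤ N`).  It contains no new mathematics: every theorem below is a theorem of the library, its
statement is written out in full, and its proof is a reference to the library.  The docstrings say
what the statement means, how it is proved and where.  Only `Guide` imports this file.

## What is proved

`GuideFlatTorsion` states the *addition lemma* (`addition_lemma` there): the coordinates of the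
points `P_i` of a relation `∑ P_i ~ ∑ R_i` between points in residue discs are analytic functions of
those among them which lie outside a nonspecial set of discs.  It replaces the formal group law of
the Jacobian.  This file gives the steps of its proof.

1. *Values* (section 1).  The value of a function of a function field at a place, over any
   algebraically closed field of constants.
2. *Residue discs* (section 2).  Let `S` be a good reduction of the function field `F/K` to `E/k`.
   The places `P` of `F` with `S.r P = Q` form the residue disc of `Q`.  The number of zeros of an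
   integral function in the disc is at most the order of its reduction at `Q`; hence values on the
   disc are integral and reduce to the value of the reduction, a coordinate takes every value at most
   once, functions can be divided by the coordinate, and every function which is integral and
   without poles in the disc has an expansion in powers of the coordinate with integral coefficients.
3. *Analytic functions on a finite set* (section 3).  Tools for a ring `H` of equivariant integral
   functions on a finite set `X` (`H19.IsAnAlg`): it spans all functions, it contains the inverses of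
   its elements with unit values, it is closed under limits, and it contains the values of invariant
   functions along an analytic family of points of a disc.
4. *The function with given zeros* (section 4).  If `∑ P_i - ∑ R_i` is principal, the function `f`
   with this divisor and `f(∞) = 1` is integral with reduction `1`, and `f = 1 + ∑ s_j e_j` with
   `e_j` an invariant good basis of `L(∑ R_i - ∞)` and `s_j` in the maximal ideal.  The equations
   `f(P_i) = 0` are linear in the `s_j`; their matrix is injective modulo the maximal ideal when the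
   other discs are nonspecial.  So the `s_j` are analytic functions of the known points, and the
   other points are found by `implicit_function` of `GuideFlatTorsion`.

The companion `GuideFlatOrder` contains the next part: systems of discs, coordinates of divisor
classes, and the analytic order on a finite group of classes.

## Vocabulary

* `Place K F`: a discrete valuation ring of `F` containing the constants `K`; `v.ord f` is the order
  of `f` at `v` (with `v.ord 0 = 0`); `f ∈ P.toValuationSubring` means `f = 0` or `0 ≤ P.ord f`.
  `Divisor K F` is `Place K F →₀ ℤ`, `riemannRochSpace D` is `L(D)`.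
* `H94.FunField K F`: `F` is a function field in one variable over `K`.
* `SemilinearAut K F`: pairs of automorphisms of `F` and of `K` compatible with `K → F`; `γ • f` is
  the action on `F`, `SemilinearAut.baseAut γ` the automorphism of `K`; it acts on places.
* `S : H19.GoodRed K F k E` is a good reduction: a valuation ring `S.A` of `K` with `S.π : S.A → k`
  surjective with kernel the nonunits, a ring `S.B ⊆ F` of integral functions with a reduction map
  `S.ρ : S.B → E`, a map `S.r` on places, the genus `S.g`; see `goodRed_content` in
  `GuideFlatTorsion`.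
* `I : H19.InertiaAction S Γ`: the group `Γ` of semilinear automorphisms of `F/K` acts trivially on
  the reduction, it fixes the place `I.Pinf`, every residue class of constants contains an invariant
  constant, and stable finite dimensional spaces have invariant good bases; see
  `inertiaAction_content` in `GuideFlatTorsion`.
* `C : H19.Coord S Q` is a coordinate on the disc of `Q`: an integral function `C.z` without poles in
  the disc, with a zero at the centre `C.P0`, whose reduction has order `1` at `Q` (`coord_content`
  in `GuideFlatTorsion`).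
* "Small" means: in the maximal ideal of `S.A`, written `∃ ha : a ∈ S.A, S.π ⟨a, ha⟩ = 0`
  (`S.IsSmall a` in the library).

## Where it is used

Only through the addition lemma, in S19; through S19 and its companion for Hecke algebras in S32,
S38, S43, S46, S50, S59, S60, S45, S06, S04, S03 and S01.  Sections 1 and 2 (without expansions) are
also used for the invariant lift of places in S09, S12, S15, S39 and S40 (file H23RedPic).
NOTES.md: [141] (NOTES-S19-S32), [148] (NOTES-REDPIC).
Reading order of the library: H19Setting, H19Value, H19Disc, H19Closure, H19Add, H19Norm, H19AddMain.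
-/

set_option autoImplicit false

open AlgebraicCurve

namespace Fermat.Agent.Guide.FlatSteps

/-! ### 1. Values of functions at places -/

/-- **Definition unfolded: value at a place.**  The function `f` takes the value `c` at the place `P`
(`H19.HasVal P f c`) if `f - c` is zero or has positive order at `P`.  File H19Setting. -/
theorem hasVal_def (K F : Type) [Field K] [Field F] [Algebra K F] (P : Place K F) (f : F) (c : K) :
    H19.HasVal P f c ↔ f - algebraMap K F c = 0 ∨ 0 < P.ord (f - algebraMap K F c) :=
  Iff.rfl

/-- **The value is unique.**  Proof: the difference of two values is a constant of positive order,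
hence zero.  File H19Value (`HasVal.eq`). -/
theorem value_unique (K F : Type) [Field K] [Field F] [Algebra K F] (P : Place K F) (f : F)
    (c c' : K) (h : H19.HasVal P f c) (h' : H19.HasVal P f c') : c = c' :=
  h.eq h'

/-- **The value exists** if `f` has no pole at `P` and the field of constants is algebraically closed;
it is called `H19.pval P f`.  Reason: the residue field of `P` is finite over `K`, hence equal to
`K`.  File H19Value (`exists_hasVal`, `hasVal_pval`), H94FunField. -/
theorem value_exists (K F : Type) [Field K] [Field F] [Algebra K F] [IsAlgClosed K]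
    [H94.FunField K F] (P : Place K F) (f : F) (hf : 0 ≤ P.ord f) :
    H19.HasVal P f (H19.pval P f) :=
  H19.hasVal_pval (H19.mem_iff_ord.mpr hf)

/-- **Values are compatible with sums and products.**  File H19Value (`HasVal.add`, `HasVal.mul`). -/
theorem value_add_mul (K F : Type) [Field K] [Field F] [Algebra K F] (P : Place K F) (f g : F)
    (c d : K) (hf : H19.HasVal P f c) (hg : H19.HasVal P g d) :
    H19.HasVal P (f + g) (c + d) ∧ H19.HasVal P (f * g) (c * d) :=
  ⟨hf.add hg, hf.mul hg⟩

/-- **Values and semilinear automorphisms.**  The value of `γ • f` at `γ • P` is the image under `γ`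
of the value of `f` at `P`.  So for an invariant function `f` the value at `γ • P` is the conjugate
of the value at `P`.  File H19Value (`pval_smul_aut`). -/
theorem value_semilinear (K F : Type) [Field K] [Field F] [Algebra K F] [IsAlgClosed K]
    [H94.FunField K F] (P : Place K F) (f : F) (hf : 0 ≤ P.ord f) (γ : SemilinearAut K F) :
    H19.pval (γ • P) (γ • f) = SemilinearAut.baseAut γ (H19.pval P f) :=
  H19.pval_smul_aut (H19.mem_iff_ord.mpr hf) γ

/-! ### 2. Residue discs -/

/-- **Scaling.**  Every nonzero function is a constant times an integral function with nonzero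
reduction.  Proof: a good basis of the line generated by the function.
File H19Disc (`GoodRed.exists_scale`). -/
theorem scaling (K F k E : Type) [Field K] [Field F] [Algebra K F] [Field k] [Field E]
    [Algebra k E] (S : H19.GoodRed K F k E) (h : F) (hh : h ≠ 0) :
    ∃ (a : K) (b : S.B), a ≠ 0 ∧ S.ρ b ≠ 0 ∧ h = algebraMap K F a * b :=
  S.exists_scale hh

/-- **Division by a function with nonzero reduction.**  If `y` is integral with nonzero reduction and
`y h` is integral, then `h` is integral; in particular such `y` are units of the ring of integral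
functions (take `h = y⁻¹`).  Proof: scale `h` and compare reductions.
File H19Disc (`GoodRed.mem_B_of_mul`). -/
theorem integral_of_mul (K F k E : Type) [Field K] [Field F] [Algebra K F] [Field k] [Field E]
    [Algebra k E] (S : H19.GoodRed K F k E) (y : S.B) (hy : S.ρ y ≠ 0) (h : F)
    (hyh : (y : F) * h ∈ S.B) : h ∈ S.B :=
  S.mem_B_of_mul hy hyh

/-- **Zeros in a residue disc.**  Let `x` be an integral function with nonzero reduction and without
poles in the disc of `Q`.  The sum of the orders of `x` at finitely many places of the disc is at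
most the order of the reduction of `x` at `Q`.  Reason: the divisor of the reduction is the image of
the divisor of `x`.  File H19Disc (`GoodRed.sum_ord_le`). -/
theorem zeros_in_disc (K F k E : Type) [Field K] [Field F] [Algebra K F] [Field k] [Field E]
    [Algebra k E] (S : H19.GoodRed K F k E) (x : S.B) (hx : S.ρ x ≠ 0) (Q : Place k E)
    (hreg : ∀ P, S.r P = Q → 0 ≤ P.ord (x : F)) (T : Finset (Place K F))
    (hT : ∀ P ∈ T, S.r P = Q) : ∑ P ∈ T, P.ord (x : F) ≤ Q.ord (S.ρ x) :=
  S.sum_ord_le hx hreg T hT

/-- **Values on a residue disc.**  Let `f` be integral without poles in the disc of `Q`.  The value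
`c` of `f` at a place of the disc is integral, and its reduction is the value at `Q` of the reduction
of `f`.  Proof: if `c` were not integral, `c⁻¹ f - 1` would have reduction `-1` and a zero in the
disc, against `zeros_in_disc`; then apply `zeros_in_disc` to `f - c`.
File H19Disc (`GoodRed.hasVal_red`). -/
theorem values_on_disc (K F k E : Type) [Field K] [Field F] [Algebra K F] [Field k] [Field E]
    [Algebra k E] (S : H19.GoodRed K F k E) (Q : Place k E) (f : F)
    (hf : f ∈ S.B ∧ ∀ P, S.r P = Q → f ∈ P.toValuationSubring) (P : Place K F) (hP : S.r P = Q)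
    (c : K) (hc : H19.HasVal P f c) :
    ∃ hcA : c ∈ S.A, H19.HasVal Q (S.ρ ⟨f, hf.1⟩) (S.π ⟨c, hcA⟩) :=
  H19.GoodRed.hasVal_red hf hP hc

/-- **Division in a residue disc.**  Let `f` be integral without poles in the disc of `Q` and let `y`
be integral with nonzero reduction, with order at most that of `f` at every place of the disc.  Then
`f / y` is integral without poles in the disc.  File H19Disc (`GoodRed.div_mem_discRing`). -/
theorem division_in_disc (K F k E : Type) [Field K] [Field F] [Algebra K F] [Field k] [Field E]
    [Algebra k E] (S : H19.GoodRed K F k E) (Q : Place k E) (f y : F)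
    (hf : f ∈ S.B ∧ ∀ P, S.r P = Q → f ∈ P.toValuationSubring) (hy : y ∈ S.B)
    (hρy : S.ρ ⟨y, hy⟩ ≠ 0) (h : ∀ P, S.r P = Q → f = 0 ∨ P.ord y ≤ P.ord f) :
    f / y ∈ S.B ∧ ∀ P, S.r P = Q → f / y ∈ P.toValuationSubring :=
  H19.GoodRed.div_mem_discRing hf hy hρy h

/-- **A coordinate separates the points of the disc.**  Let `z` be a coordinate on the disc of `Q`
and `a` its value at a place `P` of the disc.  Then `a` is small, `z - a` has order `1` at `P` and
order `0` at every other place of the disc.  Proof: `z - a` has the same reduction as `z`, of order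
`1` at `Q`; apply `zeros_in_disc`.  File H19Disc (`Coord.isSmall`, `Coord.ord_sub`,
`Coord.ord_sub_of_ne`). -/
theorem coordinate_values (K F k E : Type) [Field K] [Field F] [Algebra K F] [Field k] [Field E]
    [Algebra k E] (S : H19.GoodRed K F k E) (Q : Place k E) (C : H19.Coord S Q) (P : Place K F)
    (hP : S.r P = Q) (a : K) (ha : H19.HasVal P C.z a) :
    (∃ h : a ∈ S.A, S.π ⟨a, h⟩ = 0) ∧ P.ord (C.z - algebraMap K F a) = 1 ∧
      ∀ P', S.r P' = Q → P ≠ P' → P'.ord (C.z - algebraMap K F a) = 0 :=
  ⟨C.isSmall hP ha, C.ord_sub hP ha, fun _ hP' hne => C.ord_sub_of_ne hP hP' hne ha⟩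

/-- **One step of the expansion.**  Let `f` be integral without poles in the disc of `Q`.  Then
`f = f(P0) + z f₁` where `f₁` (`C.shift f` in the library) is again integral without poles in the
disc.  Proof: `f - f(P0)` vanishes at the centre, so it can be divided by `z`.  Iterating this one
gets the Taylor coefficients `C.coeff f n` and `taylor_expansion` of `GuideFlatTorsion`.
File H19Disc (`Coord.shift_mem`, `Coord.eq_add_shift`). -/
theorem expansion_step (K F k E : Type) [Field K] [Field F] [Algebra K F] [Field k] [Field E]
    [Algebra k E] [IsAlgClosed K] [H94.FunField K F] (S : H19.GoodRed K F k E) (Q : Place k E)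
    (C : H19.Coord S Q) (f : F) (hf : f ∈ S.B ∧ ∀ P, S.r P = Q → f ∈ P.toValuationSubring) :
    (C.shift f ∈ S.B ∧ ∀ P, S.r P = Q → C.shift f ∈ P.toValuationSubring) ∧
      f = algebraMap K F (H19.pval C.P0 f) + C.z * C.shift f :=
  ⟨C.shift_mem hf, C.eq_add_shift f⟩

/-- **The Taylor coefficients of an invariant function are invariant**, if the centre and the
coordinate are.  File H19Disc (`Coord.baseAut_coeff`). -/
theorem coefficients_invariant (K F k E : Type) [Field K] [Field F] [Algebra K F] [Field k]
    [Field E] [Algebra k E] [IsAlgClosed K] [H94.FunField K F] (S : H19.GoodRed K F k E)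
    (Q : Place k E) (C : H19.Coord S Q) (γ : SemilinearAut K F) (hP0 : γ • C.P0 = C.P0)
    (hz : γ • C.z = C.z) (f : F) (hf : f ∈ S.B ∧ ∀ P, S.r P = Q → f ∈ P.toValuationSubring)
    (hγf : γ • f = f) (n : ℕ) : SemilinearAut.baseAut γ (C.coeff f n) = C.coeff f n :=
  C.baseAut_coeff hP0 hz hf hγf n

/-! ### 3. Analytic functions on a finite set: tools -/

/-- **`H` spans all functions.**  Let `H` be an algebra of analytic functions on the finite set `X`
(`H19.IsAnAlg A σ τ H`: a ring of `A`-valued functions, equivariant for the symmetries `σ i` of `K`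
and `τ i` of `X`, containing the invariant integral constants and separating points; see
`isAnAlg_def` in `GuideFlatTorsion`).  Then every function `X → K` is a `K`-linear combination of
elements of `H`.  Proof: the span is a ring and contains the indicator functions of points (products
of functions separating two points).  File H19Closure (`IsAnAlg.span_eq_top`). -/
theorem span_all_functions (K : Type) [Field K] (A : ValuationSubring K) (ι X : Type) [Finite X]
    (σ : ι → K ≃+* K) (τ : ι → X → X) (H : Subring (X → K)) (h : H19.IsAnAlg A σ τ H) :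
    Submodule.span K (H : Set (X → K)) = ⊤ :=
  h.span_eq_top

/-- **Inverses.**  An element of `H` whose values are units of `A` has its inverse in `H`.
Proof: `P(X) = ∏ (X - f x)` has invariant integral coefficients and `P(0)` is a unit; so
`f⁻¹ = - P(0)⁻¹ (P(f) - P(0)) / f` is a polynomial in `f` with coefficients invariant constants.
File H19Closure (`IsAnAlg.inv_mem`). -/
theorem inverse_mem (K : Type) [Field K] (A : ValuationSubring K) (ι X : Type) [Finite X]
    (σ : ι → K ≃+* K) (τ : ι → X → X) (H : Subring (X → K)) (h : H19.IsAnAlg A σ τ H)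
    (f : X → K) (hf : f ∈ H) (hu : ∀ x, (f x)⁻¹ ∈ A) (h0 : ∀ x, f x ≠ 0) :
    (fun x => (f x)⁻¹) ∈ H :=
  h.inv_mem hf hu h0

/-- **What the rank one hypothesis says** (`H19.RankOne S Γ`): there is an invariant
pseudo-uniformizer `ϖ ≠ 0` in `S.A`: every `x ∈ K` satisfies `ϖ^n x ∈ A` for some `n`, and every small
`t` has a power divisible by `ϖ`.  In the application `ϖ = ℓ`.  File H19Add. -/
theorem rankOne_content (K F k E : Type) [Field K] [Field F] [Algebra K F] [Field k] [Field E]
    [Algebra k E] (S : H19.GoodRed K F k E) (Γ : Subgroup (SemilinearAut K F))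
    (R1 : H19.RankOne S Γ) :
    R1.ϖ ≠ 0 ∧ R1.ϖ ∈ S.A ∧ (∀ γ ∈ Γ, SemilinearAut.baseAut γ R1.ϖ = R1.ϖ) ∧
      (∀ x : K, ∃ n : ℕ, R1.ϖ ^ n * x ∈ S.A) ∧
      ∀ t : K, (∃ ht : t ∈ S.A, S.π ⟨t, ht⟩ = 0) → ∃ m : ℕ, ∃ a ∈ S.A, t ^ m = R1.ϖ * a :=
  ⟨R1.ne_zero, R1.mem, R1.fixed, R1.rank, R1.small⟩

/-- **A common small factor.**  Finitely many small constants are multiples of one small constant:
the one of largest absolute value.  File H19Add (`exists_theta`). -/
theorem common_small_factor (K F k E : Type) [Field K] [Field F] [Algebra K F] [Field k] [Field E]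
    [Algebra k E] (S : H19.GoodRed K F k E) (J : Type) [Finite J] (u : J → K)
    (hu : ∀ x, ∃ h : u x ∈ S.A, S.π ⟨u x, h⟩ = 0) :
    ∃ θ : K, (∃ h : θ ∈ S.A, S.π ⟨θ, h⟩ = 0) ∧ ∀ x, ∃ a ∈ S.A, u x = θ * a :=
  H19.exists_theta u hu

/-- **Limits.**  Let `θ` be small.  An equivariant function which is approximated by elements of `H`
modulo every power of `θ` belongs to `H`.  From `closed_under_limits` of `GuideFlatTorsion`, since a
power of `θ` is divisible by `ϖ`.  File H19Add (`mem_of_approx_theta`). -/
theorem closed_under_small_limits (K F k E : Type) [Field K] [Field F] [Algebra K F] [Field k]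
    [Field E] [Algebra k E] (S : H19.GoodRed K F k E) (Γ : Subgroup (SemilinearAut K F))
    (R1 : H19.RankOne S Γ) (X : Type) [Finite X] (act : Γ → X → X) (H : Subring (X → K))
    (hH : H19.IsAnAlg S.A (fun γ : Γ => SemilinearAut.baseAut (γ : SemilinearAut K F)) act H)
    (φ : X → K)
    (hφ : ∀ γ x, φ (act γ x) = SemilinearAut.baseAut (γ : SemilinearAut K F) (φ x))
    (θ : K) (hθ : ∃ h : θ ∈ S.A, S.π ⟨θ, h⟩ = 0)
    (happ : ∀ m : ℕ, ∃ f ∈ H, ∀ x, ∃ a ∈ S.A, φ x - f x = θ ^ m * a) : φ ∈ H :=
  H19.mem_of_approx_theta R1 hH hφ hθ happ

/-- **Values of invariant functions along an analytic family of points.**  Let `P x` (`x ∈ X`) be an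
equivariant family of points of the disc of `Q`, with invariant centre and coordinate `z`.  If
`x ↦ z(P x)` belongs to `H`, then `x ↦ h(P x)` belongs to `H` for every invariant function `h` which
is integral without poles in the disc.  Proof: Taylor expansion of `h` and
`closed_under_small_limits`, with `θ` a common factor of the `z(P x)`.
File H19Add (`pval_mem_of_coord`). -/
theorem values_along_family (K F k E : Type) [Field K] [Field F] [Algebra K F] [Field k]
    [Field E] [Algebra k E] [IsAlgClosed K] [H94.FunField K F] (S : H19.GoodRed K F k E)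
    (Γ : Subgroup (SemilinearAut K F)) (R1 : H19.RankOne S Γ) (X : Type) [Finite X]
    (act : Γ → X → X) (H : Subring (X → K))
    (hH : H19.IsAnAlg S.A (fun γ : Γ => SemilinearAut.baseAut (γ : SemilinearAut K F)) act H)
    (Q : Place k E) (C : H19.Coord S Q) (hP0 : ∀ γ ∈ Γ, γ • C.P0 = C.P0)
    (hz : ∀ γ ∈ Γ, γ • C.z = C.z) (P : X → Place K F) (hP : ∀ x, S.r (P x) = Q)
    (hPe : ∀ (γ : Γ) x, P (act γ x) = (γ : SemilinearAut K F) • P x)
    (ht : (fun x => H19.pval (P x) C.z) ∈ H) (h : F)
    (hh : h ∈ S.B ∧ ∀ P', S.r P' = Q → h ∈ P'.toValuationSubring)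
    (hhΓ : ∀ γ ∈ Γ, γ • h = h) : (fun x => H19.pval (P x) h) ∈ H :=
  H19.pval_mem_of_coord R1 hH C hP0 hz hP hPe ht hh hhΓ

/-! ### 4. The function with given zeros -/

/-- **A function without poles is constant.**  If moreover it takes the value `c` at some place, it is
`c`.  Proof: otherwise `f - c` would have a zero and no pole, but its divisor has degree `0`.
File H19Add (`eq_const_of_regular`). -/
theorem regular_is_constant (K F : Type) [Field K] [Field F] [Algebra K F] [IsAlgClosed K]
    [H94.FunField K F] [HasPrincipalDivisors K F] (f : F) (h : ∀ v : Place K F, 0 ≤ v.ord f)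
    (P : Place K F) (c : K) (hc : H19.HasVal P f c) : f = algebraMap K F c :=
  H19.eq_const_of_regular h hc

/-- **What a system of discs consists of** (`Y : H19.DSys S I ι`): pairwise different places `Y.Q i`
of `E`, none of them the reduction of `∞ = I.Pinf`, and on every disc a coordinate `Y.C i` with
invariant centre and invariant function `z`.  File H19Add. -/
theorem disc_system_content (K F k E : Type) [Field K] [Field F] [Algebra K F] [Field k] [Field E]
    [Algebra k E] (S : H19.GoodRed K F k E) (Γ : Subgroup (SemilinearAut K F))
    (I : H19.InertiaAction S Γ) (ι : Type) (Y : H19.DSys S I ι) :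
    Function.Injective Y.Q ∧ (∀ i, Y.Q i ≠ S.r I.Pinf) ∧
      (∀ γ ∈ Γ, ∀ i, γ • (Y.C i).P0 = (Y.C i).P0) ∧ ∀ γ ∈ Γ, ∀ i, γ • (Y.C i).z = (Y.C i).z :=
  ⟨Y.Q_inj, Y.ne_inf, Y.smul_P0, Y.smul_z⟩

/-- **The normalised function of a relation.**  Let `P i` be points of the discs of the system and
suppose that `∑ P_i - ∑ R_i` is principal, `R_i = (Y.C i).P0` the centres.  Then there is an integral
function `f` with this divisor, with reduction `1` and with value `1` at `∞`.  Proof: normalise the
value at `∞`, which is neither zero nor a pole; the reduction of a suitable multiple has trivial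
divisor, so it is constant, and its value at the reduction of `∞` shows that the factor is a unit.
File H19Norm (`DSys.exists_NF`). -/
theorem normalised_function (K F k E : Type) [Field K] [Field F] [Algebra K F] [Field k] [Field E]
    [Algebra k E] [IsAlgClosed K] [H94.FunField K F] [IsAlgClosed k] [H94.FunField k E]
    (S : H19.GoodRed K F k E) (Γ : Subgroup (SemilinearAut K F)) (I : H19.InertiaAction S Γ)
    (ι : Type) [Fintype ι] (Y : H19.DSys S I ι) (P : ι → Place K F) (hP : ∀ i, S.r (P i) = Y.Q i)
    (h : ∃ f : F, f ≠ 0 ∧ ∀ v : Place K F, v.ord f =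
      (∑ i, Finsupp.single (P i) (1 : ℤ)) v - (∑ i, Finsupp.single (Y.C i).P0 (1 : ℤ)) v) :
    ∃ f : S.B, S.ρ f = 1 ∧ H19.HasVal I.Pinf (f : F) 1 ∧ ∀ v : Place K F, v.ord (f : F) =
      (∑ i, Finsupp.single (P i) (1 : ℤ)) v - (∑ i, Finsupp.single (Y.C i).P0 (1 : ℤ)) v := by
  obtain ⟨f, hf⟩ := Y.exists_NF hP h
  exact ⟨⟨f, hf.mem⟩, hf.ρ_eq, hf.val, hf.ord⟩

/-- **The space `L(∑ R_i - ∞)`.**  A function `f ≠ 0` belongs to it if and only if it has at most
simple poles at the centres `R_i`, no other poles, and vanishes at `∞`.
File H19Norm (`DSys.mem_V_iff`; the space is called `Y.V`). -/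
theorem space_V (K F k E : Type) [Field K] [Field F] [Algebra K F] [Field k] [Field E]
    [Algebra k E] (S : H19.GoodRed K F k E) (Γ : Subgroup (SemilinearAut K F))
    (I : H19.InertiaAction S Γ) (ι : Type) [Fintype ι] (Y : H19.DSys S I ι) (f : F) (hf : f ≠ 0) :
    f ∈ riemannRochSpace
        ((∑ i, Finsupp.single (Y.C i).P0 (1 : ℤ)) - Finsupp.single I.Pinf (1 : ℤ)) ↔
      (∀ v, v ≠ I.Pinf → -(∑ i, Finsupp.single (Y.C i).P0 (1 : ℤ)) v ≤ v.ord f) ∧
        0 < I.Pinf.ord f :=
  Y.mem_V_iff hf

/-- **An invariant good basis.**  The space `L(∑ R_i - ∞)` is stable under `Γ`, so it has a basis of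
invariant integral functions `e_j` with linearly independent reductions (`H19.DSys.Bas` in the
library).  Files H19Norm (`DSys.smul_mem_V`), H19AddMain (`DSys.exists_bas`). -/
theorem invariant_basis (K F k E : Type) [Field K] [Field F] [Algebra K F] [Field k] [Field E]
    [Algebra k E] [IsAlgClosed K] [H94.FunField K F] (S : H19.GoodRed K F k E)
    (Γ : Subgroup (SemilinearAut K F)) (I : H19.InertiaAction S Γ) (ι : Type) [Fintype ι]
    (Y : H19.DSys S I ι) :
    ∃ (n : ℕ) (e : Fin n → S.B), (∀ j, ∀ γ ∈ Γ, γ • (e j : F) = e j) ∧
      Submodule.span K (Set.range fun j => (e j : F)) = riemannRochSpace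
        ((∑ i, Finsupp.single (Y.C i).P0 (1 : ℤ)) - Finsupp.single I.Pinf (1 : ℤ)) ∧
      LinearIndependent k fun j => S.ρ (e j) := by
  obtain ⟨b⟩ := Y.exists_bas
  exact ⟨b.n, b.e, b.fixed, b.span, b.li⟩

/-- **The coefficients of the normalised function are small.**  If `f` is the normalised function of
a relation (`normalised_function`) and `e_j` a good basis of `L(∑ R_i - ∞)`, then
`f = 1 + ∑ s_j e_j` with small `s_j`.  Proof: `f - 1` belongs to the space; its coefficients in a good
basis are integral, and their reductions are the coefficients of the reduction of `f - 1`, which is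
`0`.  Files H19Norm (`DSys.NF.sub_one_mem_V`), H19AddMain (`DSys.Bas.exists_coeff`). -/
theorem small_coefficients (K F k E : Type) [Field K] [Field F] [Algebra K F] [Field k] [Field E]
    [Algebra k E] (S : H19.GoodRed K F k E) (Γ : Subgroup (SemilinearAut K F))
    (I : H19.InertiaAction S Γ) (ι : Type) [Fintype ι] (Y : H19.DSys S I ι)
    (n : ℕ) (e : Fin n → S.B) (hfix : ∀ j, ∀ γ ∈ Γ, γ • (e j : F) = e j)
    (hspan : Submodule.span K (Set.range fun j => (e j : F)) = riemannRochSpace
      ((∑ i, Finsupp.single (Y.C i).P0 (1 : ℤ)) - Finsupp.single I.Pinf (1 : ℤ)))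
    (hli : LinearIndependent k fun j => S.ρ (e j))
    (P : ι → Place K F) (f : S.B) (hρ : S.ρ f = 1) (hval : H19.HasVal I.Pinf (f : F) 1)
    (hord : ∀ v : Place K F, v.ord (f : F) =
      (∑ i, Finsupp.single (P i) (1 : ℤ)) v - (∑ i, Finsupp.single (Y.C i).P0 (1 : ℤ)) v) :
    ∃ s : Fin n → K, (f : F) = 1 + ∑ j, s j • (e j : F) ∧
      ∀ j, ∃ h : s j ∈ S.A, S.π ⟨s j, h⟩ = 0 :=
  H19.DSys.Bas.exists_coeff (Y := Y) ⟨n, e, hfix, hspan, hli⟩ (P := P) ⟨f.2, hρ, hval, hord⟩

/-- **The functions `z_i e` are integral without poles in the `i`-th disc**, for an integral function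
`e` of `L(∑ R_i - ∞)`: the simple zero of the coordinate `z_i` at `R_i` compensates the pole.
File H19AddMain (`DSys.z_mul_mem`). -/
theorem coordinate_times_basis (K F k E : Type) [Field K] [Field F] [Algebra K F] [Field k]
    [Field E] [Algebra k E] (S : H19.GoodRed K F k E) (Γ : Subgroup (SemilinearAut K F))
    (I : H19.InertiaAction S Γ) (ι : Type) [Fintype ι] (Y : H19.DSys S I ι) (e : S.B)
    (he : (e : F) ∈ riemannRochSpace
      ((∑ i, Finsupp.single (Y.C i).P0 (1 : ℤ)) - Finsupp.single I.Pinf (1 : ℤ))) (i : ι) :
    (Y.C i).z * (e : F) ∈ S.B ∧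
      ∀ P, S.r P = Y.Q i → (Y.C i).z * (e : F) ∈ P.toValuationSubring :=
  Y.z_mul_mem he e.2 i

/-- **The equations.**  If `f` is the normalised function of the relation `∑ P_i ~ ∑ R_i`, then
`z_i f` has the value `0` at `P_i`.  With `f = 1 + ∑ s_j e_j` this is the equation
`z_i(P_i) + ∑ s_j (z_i e_j)(P_i) = 0`, which makes sense also when `P_i = R_i`.
File H19AddMain (`DSys.NF.hasVal_mul`). -/
theorem vanishing_at_point (K F k E : Type) [Field K] [Field F] [Algebra K F] [Field k] [Field E]
    [Algebra k E] (S : H19.GoodRed K F k E) (Γ : Subgroup (SemilinearAut K F))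
    (I : H19.InertiaAction S Γ) (ι : Type) [Fintype ι] (Y : H19.DSys S I ι) (P : ι → Place K F)
    (hP : ∀ i, S.r (P i) = Y.Q i) (f : S.B) (hρ : S.ρ f = 1)
    (hval : H19.HasVal I.Pinf (f : F) 1) (hord : ∀ v : Place K F, v.ord (f : F) =
      (∑ i, Finsupp.single (P i) (1 : ℤ)) v - (∑ i, Finsupp.single (Y.C i).P0 (1 : ℤ)) v)
    (i : ι) : H19.HasVal (P i) ((Y.C i).z * (f : F)) 0 :=
  H19.DSys.NF.hasVal_mul Y hP (f := f) ⟨f.2, hρ, hval, hord⟩ i

/-- **Reduction of `L(∑ R_i - ∞)`.**  The reduction of an integral function of this space, if it is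
not zero, has at most simple poles at the `Q_i`, no other poles, and vanishes at the reduction of
`∞`.  Reason: the divisor of the reduction is the image of the divisor of the function.
File H19AddMain (`DSys.ord_ρ_ge`). -/
theorem reduction_of_V (K F k E : Type) [Field K] [Field F] [Algebra K F] [Field k] [Field E]
    [Algebra k E] (S : H19.GoodRed K F k E) (Γ : Subgroup (SemilinearAut K F))
    (I : H19.InertiaAction S Γ) (ι : Type) [Fintype ι] (Y : H19.DSys S I ι) (f : S.B)
    (hf : (f : F) ∈ riemannRochSpace
      ((∑ i, Finsupp.single (Y.C i).P0 (1 : ℤ)) - Finsupp.single I.Pinf (1 : ℤ)))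
    (hρ : S.ρ f ≠ 0) (w : Place k E) :
    -(∑ i, Finsupp.single (Y.Q i) (1 : ℤ)) w ≤ w.ord (S.ρ f) ∧
      0 < (S.r I.Pinf).ord (S.ρ f) :=
  Y.ord_ρ_ge hf hρ w

/-- **The residual matrix is injective.**  Let `ι = p ∪ q` and suppose that the sum of the `Q_i`,
`i ∈ q`, is nonspecial in the sense that its space `L` consists of constants.  If a vector `c` is
killed by the rows `i ∈ p` of the matrix of the values at `Q_i` of the reductions of `z_i e_j`, then
`c = 0`.  Proof: the combination of the reductions of the `e_j` with coefficients `c_j` has no pole at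
the `Q_i`, `i ∈ p`, so it is constant; it vanishes at the reduction of `∞`, so it is `0`; the
reductions of the `e_j` are linearly independent, so `c = 0`.
File H19AddMain (`DSys.Bas.eq_zero_of_Mbar`). -/
theorem residual_matrix_injective (K F k E : Type) [Field K] [Field F] [Algebra K F] [Field k]
    [Field E] [Algebra k E] [IsAlgClosed K] [H94.FunField K F] (S : H19.GoodRed K F k E)
    (Γ : Subgroup (SemilinearAut K F)) (I : H19.InertiaAction S Γ) (ι : Type) [Fintype ι]
    (Y : H19.DSys S I ι) (n : ℕ) (e : Fin n → S.B) (hfix : ∀ j, ∀ γ ∈ Γ, γ • (e j : F) = e j)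
    (hspan : Submodule.span K (Set.range fun j => (e j : F)) = riemannRochSpace
      ((∑ i, Finsupp.single (Y.C i).P0 (1 : ℤ)) - Finsupp.single I.Pinf (1 : ℤ)))
    (hli : LinearIndependent k fun j => S.ρ (e j)) (p q : Finset ι) (hpq : ∀ i, i ∈ p ∨ i ∈ q)
    (hns : ∀ f ∈ riemannRochSpace (∑ i ∈ q, Finsupp.single (Y.Q i) (1 : ℤ)),
      ∃ c : k, f = algebraMap k E c)
    (c : Fin n → k)
    (hc : ∀ i ∈ p, ∑ j, H19.pval (Y.Q i) (S.ρ (⟨(Y.C i).z, (Y.C i).hz.1⟩ * e j)) * c j = 0) :
    c = 0 :=
  H19.DSys.Bas.eq_zero_of_Mbar (Y := Y) ⟨n, e, hfix, hspan, hli⟩ p q hpq hns c hc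

/-- **Solving a linear system in `H`, first half.**  A matrix over a field with trivial kernel has a
left inverse.  Applied to the residual matrix; the entries of the left inverse are lifted to
invariant constants.  File H19AddMain (`exists_leftInverse_matrix`). -/
theorem left_inverse_matrix (k : Type) [Field k] (m n : Type) [Fintype m] [Fintype n]
    [DecidableEq n] [DecidableEq m] (M : Matrix m n k)
    (hM : ∀ c : n → k, M.mulVec c = 0 → c = 0) : ∃ N : Matrix n m k, N * M = 1 :=
  H19.exists_leftInverse_matrix M hM

/-- **Solving a linear system in `H`, second half.**  An element of `H` whose values have nonzero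
residue is a unit of the ring `H`.  Applied to the determinant of `N M`, `M` the matrix of the values
`(z_i e_j)(P_i)`, `i ∈ p`, and `N` the lifted left inverse: so the `s_j` belong to `H`.  This is the
point where the addition lemma follows.  File H19AddMain (`IsAnAlg.isUnit_of_red`,
`DSys.coord_mem_of_known`). -/
theorem isUnit_of_residues (K : Type) [Field K] (A : ValuationSubring K) (ι X : Type) [Finite X]
    (σ : ι → K ≃+* K) (τ : ι → X → X) (H : Subring (X → K)) (h : H19.IsAnAlg A σ τ H)
    (k : Type) [Field k] (π : A →+* k) (hπ : ∀ a : A, π a ≠ 0 → (a : K)⁻¹ ∈ A) (f : H)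
    (hf : ∀ x, π ⟨(f : X → K) x, h.int f f.2 x⟩ ≠ 0) : IsUnit f :=
  h.isUnit_of_red π hπ f hf

end Fermat.Agent.Guide.FlatSteps
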