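import Fermat.Agent.S37
import Fermat.Agent.H67J
import Fermat.Agent.H67Galois
import Fermat.Agent.H17Basic

/-!
# Reader's guide: correspondences on `J₀(N)`, Hecke operators, Eichler-Shimura (S37, library)

Every theorem of this file is proved by citing a theorem of the library; nothing here is used by any
other file. Texts by helper67 (section 1), helper60 (section 2), helper37 (section 3); editor:
helper10. Prerequisites: `GuideFunctionField` (places, `Pic⁰`, reduction).

**What the block does.** `F_N(L) = laurentBaseChange L (modularFunctionFieldFull N)` is the function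
field of `X₀(N)` over a field `L` of characteristic zero: the subfield of the Laurent series `L((q))`
generated by `L` and all `j(q^d)`, `d ∣ N`; `modularFunctionFieldFullC k N` is the same subfield of
`k((q))` for any field `k`. `JZero N` is `Pic⁰` of `F_N(ℚ̄)`. Double cosets, moduli and complex tori
are not used:

1. *Calculus of correspondences* (needed for S01, S03, S04, S06, S09, S12, S15, S29-S40, S42-S46,
   S50, S58-S60): norm formula, base change and commuting squares for the degeneracy maps
   `f(q) ↦ f(q^d)`; commuting Hecke operators; Atkin-Lehner involutions; `U_q + w_q = β^* α_*`.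
2. *The congruence relation* of Eichler and Shimura for `T_ℓ`, `ℓ ∤ N`, on divisors of degree zero,
   from one identity of `q`-expansions for a norm.
3. *S37*: the relation `F² - T_ℓ F + ℓ = 0` for Frobenius on a Hecke module which is the target of a
   specialization map of `J₀(N)`.

**Reading order.** 1, 2, 3. Section 1 is used in all of the proof. Details: `GuideCongruenceRelation`
(helper60: sections 2 and 3 step by step); NOTES.md, Appendix A.3, notes [294] (calculus), [175],
[202], [83].

**References.** M. Eichler (1954), G. Shimura (1958; *Introduction to the arithmetic theory of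
automorphic functions*, ch. 7), M. Deuring (1942).
-/

set_option autoImplicit false

namespace Fermat.Agent.Guide.Hecke

open AlgebraicCurve ModularCurve IntermediateField HahnSeries Fermat.Agent.H67

-- instance priorities (they only make the file faster)
attribute [-instance] IsLocalRing.ResidueField.algebra
attribute [local instance 5000] SubalgebraClass.toAlgebra

/-! ## 1. Correspondences on function fields and on `J₀(N)` -/

section Calculus

/-- **Norm formula.** `F'/F` a finite extension of fields which contain a field `K` of characteristic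
zero (in the applications function fields in one variable; `K` need not be algebraically closed). If
`D` is the divisor of `f ∈ F'`, `f ≠ 0`, then the push-forward `π_* D = Σ_w D(w) f(w|v) v` is the
divisor of the norm `N_{F'/F}(f)`. Proof: the places `w | v` are the maximal ideals of the integral
closure of the valuation ring of `v`, and the formula is multiplicativity of the ideal norm.
`H67Norm`; used for all push-forwards on `J₀(N)`. -/
theorem norm_formula {K F F' : Type*} [Field K] [Field F] [Field F'] [Algebra K F] [Algebra K F']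
    [Algebra F F'] [IsScalarTower K F F'] [Module.Finite F F'] [CharZero K]
    (f : F') (hf : f ≠ 0) (D : Divisor K F') (hD : ∀ w, D w = w.ord f) (v : Place K F) :
    Divisor.pushforward F D v = v.ord (Algebra.norm F f) :=
  pushforwardNormFormula f hf D hD v

/-- **Fundamental identity** `Σ_{w | v} e(w|v) f(w|v) = [F' : F]`. `H67Norm`. -/
theorem sum_e_f {K F F' : Type*} [Field K] [Field F] [Field F'] [Algebra K F] [Algebra K F']
    [Algebra F F'] [IsScalarTower K F F'] [Module.Finite F F'] [CharZero K] (v : Place K F) :
    ∑ w ∈ above F' v, (w.ramificationIndex F : ℤ) * (w.inertiaDeg F : ℤ) =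
      (Module.finrank F F' : ℤ) :=
  sum_ramificationIndex_mul_inertiaDeg v

/-- **Degree of a correspondence.** For a homomorphism `φ : F → F'` of function fields over an
algebraically closed field of characteristic zero (a covering `π` of curves) and `x ∈ Pic⁰(F)`:
`π_* π^* x = [F' : φ F] x`. `pushP φ = π_*`, `pullP φ = π^*` on `Pic⁰`. `H67Calc`. -/
theorem push_pull {K F F' : Type*} [Field K] [IsAlgClosed K] [CharZero K] [Field F] [Field F']
    [Algebra K F] [Algebra K F'] [H94.FunField K F] [H94.FunField K F'] (φ : F →ₐ[K] F')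
    (x : Pic0 K F) : pushP φ (pullP φ x) = finrankAlong K φ • x :=
  pushP_pullP φ x

/-- **The degeneracy maps.** For `M d | N` the map `dg d : F_M → F_N` of function fields of modular
curves (subfields of Laurent series in `q` over `L`) is `f(q) ↦ f(q^d)`, that is `f(τ) ↦ f(dτ)`.
`H67Deg`. -/
theorem degeneracy_apply {L : Type*} [Field L] [Algebra ℚ L] {M N : ℕ} [NeZero M] [NeZero N]
    (d : ℕ) [NeZero d] (h : M * d ∣ N) (x : FB L M) :
    ((dg L d h x : FB L N) : LaurentSeries L) = qExpand L d (x : LaurentSeries L) := rfl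

/-- **Degree of the degeneracy maps**: `[F_N : dg d (F_M)] · ψ(M) = ψ(N)` for every `d` with
`M d | N`, `ψ` the index of `Γ_0`. `L` is an algebraically closed field of characteristic zero which
embeds in the complex numbers. For `d > 1` the Fricke involution is used. `H67Deg`. -/
theorem degeneracy_degree {L : Type*} [Field L] [Algebra ℚ L] [IsAlgClosed L] [CharZero L]
    (f : L →+* ℂ) {M N : ℕ} [NeZero M] [NeZero N] (d : ℕ) [NeZero d] (h : M * d ∣ N) :
    finrankAlong L (dg L d h) * dedekindPsi M = dedekindPsi N :=
  finrank_dg f d h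

/-- **The squares of degeneracy maps generate.** `p ≠ r` primes, `a ∈ {1, p}`, `b ∈ {1, r}`: the
function field of level `M p r` is generated by the images of the function fields of level `M r`
(under `dg a`) and `M p` (under `dg b`). Proof: `j(p e τ)` is the only common root of two modular
polynomials (leading terms of `q`-expansions); no `SL_2(ℤ)`, no double cosets. `H67Gen`, `H67Deg`. -/
theorem degeneracy_square_generates {L : Type*} [Field L] [Algebra ℚ L] [IsAlgClosed L] [CharZero L]
    {M p r a b : ℕ} [NeZero M] [NeZero (M * p)] [NeZero (M * r)] [NeZero (M * p * r)] [NeZero a]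
    [NeZero b] (hp : p.Prime) (hr : r.Prime) (hpr : p ≠ r) (ha : a = 1 ∨ a = p)
    (hb : b = 1 ∨ b = r) (h1 : M * r * a ∣ M * p * r) (h2 : M * p * b ∣ M * p * r) :
    Subfield.closure (Set.range (dg L a h1) ∪ Set.range (dg L b h2)) = ⊤ :=
  square_gen hp hr hpr ha hb h1 h2

/-- **Base change.** In the square of degeneracy maps between the levels `M p`, `M`, `M r`, `M p r`
one has `(dg b)^* (dg a)_* = (dg a)_* (dg b)^*` on `Pic⁰`. Proof: generation (previous theorem) and
equality of degrees give the norm identity `N(g) = N(g)` for the square, which determines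
push-forward after pull-back; no fibre products. `H67Deg` (general squares: `H67Square`). -/
theorem degeneracy_base_change {L : Type*} [Field L] [Algebra ℚ L] [IsAlgClosed L] [CharZero L]
    (f : L →+* ℂ) {M p r a b : ℕ} [NeZero M] [NeZero (M * p)] [NeZero (M * r)]
    [NeZero (M * p * r)] [NeZero a] [NeZero b] (hp : p.Prime) (hr : r.Prime) (hpr : p ≠ r)
    (ha : a = 1 ∨ a = p) (hb : b = 1 ∨ b = r) (hMa : M * a ∣ M * p) (hMb : M * b ∣ M * r)
    (h1 : M * r * a ∣ M * p * r) (h2 : M * p * b ∣ M * p * r) (x : Pic0 L (FB L (M * p))) :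
    pullP (dg L b hMb) (pushP (dg L a hMa) x) = pushP (dg L a h1) (pullP (dg L b h2) x) :=
  pullP_pushP_dg f hp hr hpr ha hb hMa hMb h1 h2 x

/-- **The Hecke correspondence** `T_ℓ = (dg 1)_* (dg ℓ)^*` through level `N ℓ` (this is the
definition of the Prelude, in the notation of the calculus; for `ℓ | N` it is `U_ℓ`). `H67Deg`. -/
theorem hecke_is_correspondence {L : Type*} [Field L] [Algebra ℚ L] [IsAlgClosed L] [CharZero L]
    {N M ℓ : ℕ} [NeZero N] [NeZero M] [NeZero ℓ] (hM : M = N * ℓ) (h1 : N * 1 ∣ M)
    (h2 : N * ℓ ∣ M) (x : Pic0 L (FB L N)) :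
    heckeOperatorAlong L N ℓ x = pushP (dg L 1 h1) (pullP (dg L ℓ h2) x) :=
  heckeOperatorAlong_eq_dg hM h1 h2 x

/-- **The Hecke operators on `J₀(N)(Q̄)` commute** (all primes `ℓ`, `ℓ'`, those dividing `N`
included). From base change for the squares of degeneracy maps. `H67Comm`; this makes `J₀(N)(Q̄)` a
module over `HeckeAlg = ℤ[T_ℓ]`. -/
theorem hecke_commute (N : ℕ) [NeZero N] (ℓ ℓ' : Nat.Primes) :
    heckeOperatorBar N ℓ * heckeOperatorBar N ℓ' = heckeOperatorBar N ℓ' * heckeOperatorBar N ℓ :=
  heckeOperatorsCommuteBar N ℓ ℓ'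

/-- **The Galois group commutes with the Hecke operators** on `J₀(N)(Q̄)`. `H67Galois`. -/
theorem galois_hecke_commute (N : ℕ) [NeZero N] (ℓ : Nat.Primes)
    (σ : AlgebraicClosure ℚ ≃ₐ[ℚ] AlgebraicClosure ℚ) (x : JZero N) :
    heckeOperatorBar N ℓ (σ • x) = σ • heckeOperatorBar N ℓ x :=
  heckeOperatorBar_smul N ℓ σ x

/-- **Degeneracy maps and Hecke operators**: the push-forwards `J₀(Mq) → J₀(M)` along `f(τ) ↦ f(τ)`
and `f(τ) ↦ f(qτ)` commute with `T_r`, `r ≠ q`. `H67J`. -/
theorem degeneracy_hecke {M q a : ℕ} [NeZero M] [NeZero (M * q)] [NeZero a] (hq : q.Prime)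
    (ha : a = 1 ∨ a = q) (h : M * a ∣ M * q) (r : Nat.Primes) (hr : (r : ℕ) ≠ q)
    (x : JZero (M * q)) :
    degPush a h (heckeOperatorBar (M * q) r x) = heckeOperatorBar M r (degPush a h x) :=
  degPush_hecke hq ha h r hr x

/-- **Atkin-Lehner automorphisms.** `R = A Q`, `A` prime to `Q`. There is an automorphism `W` of the
function field of level `R` with `W(j(q^m)) = j(q^{m'})` for all `m | R`, where `m = m₁ m₂`,
`m₁ | A`, `m₂ | Q` and `m' = m₁ (Q / m₂)` (`H42.swapDiv A Q m`). `H67AL`, with helper42's `H42Swap`. -/
theorem exists_atkin_lehner {L : Type*} [Field L] [Algebra ℚ L] [IsAlgClosed L] [CharZero L]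
    (f : L →+* ℂ) {R A Q : ℕ} [NeZero R] (hR : R = A * Q) (hc : A.Coprime Q) :
    ∃ W : FB L R ≃ₐ[L] FB L R, ∀ (m : ℕ) (hm : m ∣ R),
      ((W ⟨H66.J L m, J_mem_FB hm⟩ : FB L R) : LaurentSeries L) = H66.J L (H42.swapDiv A Q m) :=
  exists_isAL f hR hc

/-- The Atkin-Lehner involution `w_Q` of `J₀(R)`, `R = A Q`, commutes with `T_r` for `r` prime to
`Q`. `H67J`. -/
theorem atkin_lehner_hecke {R A Q : ℕ} [NeZero R] (hR : R = A * Q) (hc : A.Coprime Q)
    (r : Nat.Primes) (hr : (r : ℕ).Coprime Q) (x : JZero R) :
    wJ A Q hR hc (heckeOperatorBar R r x) = heckeOperatorBar R r (wJ A Q hR hc x) :=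
  wJ_hecke hR hc r hr x

/-- **`U_q + w_q = β^* α_*` on `J₀(Mq)`, `q ∤ M`**, where `α_* : J₀(Mq) → J₀(M)` is the
push-forward along `f(τ) ↦ f(τ)` and `β^*` the pull-back along `f(τ) ↦ f(qτ)`. Proof:
`F_{Mq} ⊗_{F_M} F_{Mq}` (`F_M` is embedded by `α` in one factor and by `β` in the other) is the
product of the fields `F_{Mq²}` and `F_{Mq}` (a norm identity with two terms). `H67Uq`.
Consequences: on the `q`-new part (`α_* = β_* = 0`) one has `U_q = - w_q`, hence `U_q² = 1`. -/
theorem Uq_add_wq {M : ℕ} [NeZero M] (q : Nat.Primes) [NeZero (M * q)] [NeZero (q : ℕ)]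
    (hqM : ¬ (q : ℕ) ∣ M) (hc : M.Coprime q) (h1 : M * 1 ∣ M * q) (h2 : M * q ∣ M * q)
    (x : JZero (M * q)) :
    heckeOperatorBar (M * q) q x + wJ M q rfl hc x = degPull (q : ℕ) h2 (degPush 1 h1 x) :=
  heckeOperatorBar_add_wJ q hqM hc h1 h2 x

end Calculus

/-! ## 2. The congruence relation

`qExpand R l` is the substitution `q ↦ q^l`, `H60.twist u` the substitution `q ↦ u q`, `coeffMap f`
applies a ring homomorphism to all coefficients. `heckeAlphaBar L N l` and `heckeBetaBar L N l` are
the degeneracy maps `F_N(L) → F_{Nl}(L)`: the inclusion and `x ↦ x(q^l)`. `A` is a valuation ring of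
`L`, `π : A → k` a homomorphism (the residue map); `r` is the reduction of places, so
`Finsupp.mapDomain r` is the reduction of divisors. -/

section Congruence

/-- **Bounded homomorphisms vanish in degree zero** (the trick). Let `δ` be a homomorphism from the
divisors of a curve to a free abelian group `ℤ[X]`. If `δ` kills all principal divisors and the
coefficients of `δ(P)` are bounded, uniformly in the point `P`, then `δ` kills all divisors of degree
zero. Idea: for points `P`, `Q` and every `n` the divisor `n P - n Q + c Q` is linearly equivalent to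
an effective divisor of degree `c` (Riemann's inequality), so `n (δ P - δ Q)` is bounded independently
of `n`, hence `δ P = δ Q`.
Proved in `H60Trick`; used below for the Hecke correspondence and for the Galois action, which
reduces both statements from classes of divisors to divisors of single functions. -/
theorem hom_eq_zero_of_bounded {K F : Type*} [Field K] [Field F] [Algebra K F]
    [HasPrincipalDivisors K F]
    (hR : ∃ c : ℤ, ∀ D : Divisor K F, c ≤ Divisor.degree D →
      ∃ f : F, f ≠ 0 ∧ ∀ v : Place K F, 0 ≤ D v + v.ord f)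
    (hdeg : ∀ v : Place K F, v.deg = 1) {X : Type*} (δ : Divisor K F →+ (X →₀ ℤ))
    (hδ : ∀ D ∈ Divisor.principal (K := K) (F := F), δ D = 0)
    {C : ℤ} (hC : ∀ (P : Place K F) (x : X), |δ (Finsupp.single P 1) x| ≤ C)
    (D : Divisor K F) (hD : D ∈ Divisor.degZero (K := K) (F := F)) : δ D = 0 :=
  H60.hom_eq_zero_of_bounded hR hdeg δ hδ hC D hD

/-- **The norm as a product over embeddings.** Let `F'` be a finite separable extension of `F` and
`j : F → E` a homomorphism of fields. If a family of different extensions `σ i : F' → E` of `j` has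
at least `[F' : F]` members, then `j (Norm z)` is the product of the `σ i z`. (The field `E` is not
assumed algebraically closed.) Proved in `H60Norm`; used for `F_{Nl} / F_N` with `l + 1` embeddings in
the Laurent series. -/
theorem norm_eq_prod {F F' E : Type*} [Field F] [Field F'] [Field E] [Algebra F F']
    [FiniteDimensional F F'] [Algebra.IsSeparable F F'] (j : F →+* E) {ι : Type*} [Fintype ι]
    (σ : ι → (F' →+* E)) (hj : ∀ i x, σ i (algebraMap F F' x) = j x)
    (hσ : Function.Injective σ) (hcard : Module.finrank F F' ≤ Fintype.card ι) (z : F') :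
    j (Algebra.norm F z) = ∏ i, σ i z :=
  H60.map_norm_eq_prod j σ hj hσ hcard z

/-- **The `q`-expansion of the norm defining the Hecke correspondence.** Let `w` be an embedding of
`F_{Nl}(L)` in `L((q))` which exchanges the two degeneracy maps (it exists by the Atkin-Lehner
involution) and `ζ` a primitive `l`-th root of unity. If the degree of `F_{Nl}` over `F_N` is at most
`l + 1`, then the norm `z` of `x(q^l)` from `F_{Nl}` to `F_N`, `x ∈ F_N(L)`, satisfies
`z(q^l) = x(q^{l²}) ∏_{i < l} x(ζ^i q)`. `H60.normAlong φ` is the norm for the field extension given by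
the homomorphism `φ`. Proved in `H60Norm` (`qExpand_normAlong`). -/
theorem norm_qExpansion {L : Type*} [Field L] [Algebra ℚ L] [CharZero L] {N l : ℕ} [NeZero N]
    [NeZero l] {w : laurentBaseChange L (modularFunctionFieldFull (N * l)) →+* LaurentSeries L}
    (hwα : ∀ x : laurentBaseChange L (modularFunctionFieldFull N),
      w (heckeAlphaBar L N l x) = qExpand L l (x : LaurentSeries L))
    (hwβ : ∀ x : laurentBaseChange L (modularFunctionFieldFull N),
      w (heckeBetaBar L N l x) = (x : LaurentSeries L))
    (hl : 1 < l) {ζ : Lˣ} (hζ : IsPrimitiveRoot ζ l)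
    (hfin : FiniteAlong L (heckeAlphaBar L N l))
    (hdeg : finrankAlong L (heckeAlphaBar L N l) ≤ l + 1)
    (x : laurentBaseChange L (modularFunctionFieldFull N)) :
    qExpand L l ((H60.normAlong (heckeAlphaBar L N l) (heckeBetaBar L N l x) :
        laurentBaseChange L (modularFunctionFieldFull N)) : LaurentSeries L) =
      qExpand L l (qExpand L l (x : LaurentSeries L)) *
        ∏ i ∈ Finset.range l, H60.twist (ζ ^ i) (x : LaurentSeries L) :=
  H60.qExpand_normAlong ⟨hwα, hwβ⟩ hl hζ hfin hdeg x

/-- **Frobenius on Laurent series.** In characteristic `p`: `f^p = f^φ(q^p)`, where `f^φ` has the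
`p`-th powers of the coefficients of `f` as coefficients. Proved in `H60Series`. -/
theorem pow_char {R : Type*} [CommRing R] (p : ℕ) [Fact p.Prime] [NeZero p] [CharP R p]
    (f : LaurentSeries R) : f ^ p = qExpand R p (coeffMap (frobenius R p) f) :=
  H60.laurent_pow_char p f

/-- **The product modulo `l`.** In characteristic `p` (where the root of unity `ζ` becomes `1`) the
product `y(q^{p²}) ∏_{i<p} y(q)` is the value at `q^p` of the series `y(q^p) y^φ(q)`. Proved in
`H60Series`; this is the point where "`T_l = Frobenius + Verschiebung`" comes from. -/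
theorem norm_series_mod {R : Type*} [CommRing R] (p : ℕ) [Fact p.Prime] [NeZero p] [CharP R p]
    (y : LaurentSeries R) :
    qExpand R p (qExpand R p y) * ∏ i ∈ Finset.range p, H60.twist ((1 : Rˣ) ^ i) y =
      qExpand R p (qExpand R p y * coeffMap (frobenius R p) y) :=
  H60.normSeries_one p y

/-- **Reduction of the norm.** Let `A` be a valuation ring of `L`, `π : A → k` a homomorphism to a
field of characteristic `l` which sends the primitive `l`-th root of unity `ζ` to `1`. If
`x ∈ F_N(L)` has coefficients in `A` and reduction `π x`, then the norm of `x(q^l)` has coefficients in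
`A` and its reduction is `(π x)(q^l) · (π x)^φ`. Proved in `H60Hecke` (`exists_norm_reduction`). -/
theorem norm_reduction {L : Type*} [Field L] [Algebra ℚ L] [CharZero L] {A : ValuationSubring L}
    {k : Type*} [Field k] {π : A →+* k} {N l : ℕ} [NeZero N] [NeZero l] [Fact l.Prime] [CharP k l]
    {w : laurentBaseChange L (modularFunctionFieldFull (N * l)) →+* LaurentSeries L}
    (hwα : ∀ x : laurentBaseChange L (modularFunctionFieldFull N),
      w (heckeAlphaBar L N l x) = qExpand L l (x : LaurentSeries L))
    (hwβ : ∀ x : laurentBaseChange L (modularFunctionFieldFull N),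
      w (heckeBetaBar L N l x) = (x : LaurentSeries L))
    {ζ : Aˣ} (hζ : IsPrimitiveRoot (Units.map (A.subtype : A →* L) ζ) l)
    (hζ1 : Units.map (π : A →* k) ζ = 1)
    (hfin : FiniteAlong L (heckeAlphaBar L N l))
    (hdeg : finrankAlong L (heckeAlphaBar L N l) ≤ l + 1)
    (y : LaurentSeries A)
    (hy : coeffMap A.subtype y ∈ laurentBaseChange L (modularFunctionFieldFull N)) :
    ∃ y' : LaurentSeries A,
      coeffMap A.subtype y' = ((H60.normAlong (heckeAlphaBar L N l)
        (heckeBetaBar L N l ⟨coeffMap A.subtype y, hy⟩) :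
          laurentBaseChange L (modularFunctionFieldFull N)) : LaurentSeries L) ∧
      coeffMap π y' = qExpand k l (coeffMap π y) * coeffMap (frobenius k l) (coeffMap π y) :=
  H60.exists_norm_reduction ⟨hwα, hwβ⟩ hζ hζ1 hfin hdeg y hy

/-- **Eichler-Shimura congruence on divisors.** For every divisor `D` of degree zero on `X₀(N)`
the reduction of `T_l D` is `t (red D) + l t⁻¹ (red D)`, an equality of divisors (not only
of divisor classes) on the reduced curve. Here `t = H60.coeffAut N τ` is the automorphism of the
special fibre raising the coefficients of `q`-expansions to the `l`-th power (`τ x = x^l`),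
`heckeDivBar` is the correspondence `T_l` on divisors,
`IsPlaceReductionAlong A π N r` says that `r` preserves degrees and that `r_* (div f)` is the divisor
of the reduction of `f` for `f` with coefficients in `A` and nonzero reduction (in the function field
of the special fibre), and `PrincipalGeneratedByIntegral A π N` that the divisors of these functions
generate all principal divisors. The remaining hypotheses are Riemann's inequality (`hR`), that
all places of `X₀(N)` have degree one (`hdeg1`), and
standard facts on the degeneracy maps (integrality, fundamental identity, norm formula, degree).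
Proof: for divisors of integral functions this is `norm_reduction`; the general case follows
by `hom_eq_zero_of_bounded`. Proved in `H60Hecke` (`eichlerShimura_of_degZero`). No Hecke
correspondence in characteristic `l` and no moduli interpretation is used. -/
theorem congruence_on_divisors {L : Type*} [Field L] [Algebra ℚ L] [CharZero L] {A : ValuationSubring L}
    {k : Type*} [Field k] {π : A →+* k} {N l : ℕ} [NeZero N] [NeZero l] [Fact l.Prime] [CharP k l]
    [HasPrincipalDivisors L (laurentBaseChange L (modularFunctionFieldFull N))]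
    [HasPrincipalDivisors L (laurentBaseChange L (modularFunctionFieldFull (N * l)))]
    {r : Place L (laurentBaseChange L (modularFunctionFieldFull N)) →
      Place k (modularFunctionFieldFullC k N)}
    {w : laurentBaseChange L (modularFunctionFieldFull (N * l)) →+* LaurentSeries L}
    (hwα : ∀ x : laurentBaseChange L (modularFunctionFieldFull N),
      w (heckeAlphaBar L N l x) = qExpand L l (x : LaurentSeries L))
    (hwβ : ∀ x : laurentBaseChange L (modularFunctionFieldFull N),
      w (heckeBetaBar L N l x) = (x : LaurentSeries L))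
    {ζ : Aˣ} (hζ : IsPrimitiveRoot (Units.map (A.subtype : A →* L) ζ) l)
    (hζ1 : Units.map (π : A →* k) ζ = 1)
    (hα : HeckeAlphaBarIntegral L N l) (hβ : HeckeBetaBarIntegral L N l)
    (hFI : FundamentalIdentityAlong L (heckeBetaBar L N l) hβ)
    (hfin : FiniteAlong L (heckeAlphaBar L N l))
    (hN : NormFormulaAlong L (heckeAlphaBar L N l) hfin)
    (hdeg : finrankAlong L (heckeAlphaBar L N l) ≤ l + 1)
    (hR : ∃ c : ℤ, ∀ D : Divisor L (laurentBaseChange L (modularFunctionFieldFull N)),
      c ≤ Divisor.degree D →
        ∃ f : laurentBaseChange L (modularFunctionFieldFull N), f ≠ 0 ∧ ∀ v, 0 ≤ D v + v.ord f)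
    (hdeg1 : ∀ v : Place L (laurentBaseChange L (modularFunctionFieldFull N)), v.deg = 1)
    (hr : IsPlaceReductionAlong A π N r) (hgen : PrincipalGeneratedByIntegral A π N)
    {τ : k ≃+* k} (hτ : ∀ x, τ x = x ^ l)
    {D : Divisor L (laurentBaseChange L (modularFunctionFieldFull N))}
    (hD : D ∈ Divisor.degZero (K := L) (F := laurentBaseChange L (modularFunctionFieldFull N))) :
    Finsupp.mapDomain r (heckeDivBar hα hβ D) =
      H60.coeffAut N τ • Finsupp.mapDomain r D
        + (l : ℤ) • ((H60.coeffAut N τ)⁻¹ • Finsupp.mapDomain r D) :=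
  H60.eichlerShimura_of_degZero ⟨hwα, hwβ⟩ hζ hζ1 hα hβ hFI hfin hN hdeg hR hdeg1 hr hgen hτ hD

/-- **Galois equivariance of the reduction, on divisors.** Let `σ ∈ Gal(L/ℚ)` preserve the valuation
ring `A` (acting on it by `s`) and induce `τ` on `k`. Then the reduction of `σ D` is the image of
the reduction of `D` under the coefficientwise action of `τ`, for every divisor `D` of degree zero. For
`τ = 1` this says that inertia acts trivially on the reduction, for `τ x = x^l` that Frobenius elements
act as `t`. Proved in `H60Galois` (`mapDomain_smul_of_degZero`). -/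
theorem reduction_galois {L : Type*} [Field L] [Algebra ℚ L] {A : ValuationSubring L}
    {k : Type*} [Field k] {π : A →+* k} {N : ℕ}
    [HasPrincipalDivisors L (laurentBaseChange L (modularFunctionFieldFull N))]
    (hR : ∃ c : ℤ, ∀ D : Divisor L (laurentBaseChange L (modularFunctionFieldFull N)),
      c ≤ Divisor.degree D →
        ∃ f : laurentBaseChange L (modularFunctionFieldFull N), f ≠ 0 ∧ ∀ v, 0 ≤ D v + v.ord f)
    (hdeg : ∀ v : Place L (laurentBaseChange L (modularFunctionFieldFull N)), v.deg = 1)
    {r : Place L (laurentBaseChange L (modularFunctionFieldFull N)) →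
      Place k (modularFunctionFieldFullC k N)}
    (hr : IsPlaceReductionAlong A π N r) (hgen : PrincipalGeneratedByIntegral A π N)
    {σ : L ≃ₐ[ℚ] L} {s : A →+* A} {τ : k ≃+* k}
    (hs : ∀ a : A, ((s a : A) : L) = σ (a : L)) (hτ : ∀ a : A, π (s a) = τ (π a))
    (D : Divisor L (laurentBaseChange L (modularFunctionFieldFull N)))
    (hD : D ∈ Divisor.degZero (K := L) (F := laurentBaseChange L (modularFunctionFieldFull N))) :
    Finsupp.mapDomain r (arithmeticGalois (modularFunctionFieldFull N) σ • D) =
      H60.coeffAut N τ • Finsupp.mapDomain r D :=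
  H60.mapDomain_smul_of_degZero hR hdeg hr hgen ⟨hs, hτ⟩ D hD

end Congruence

/-! ## 3. `J₀(N)` and S37 -/

section S37

/-- **Eichler-Shimura on `J₀(N)`.** At a place `A` above `ℓ ∤ N` there is an endomorphism `F` of
`Pic⁰` over the residue field such that a Frobenius element `σ` of `A` acts on reductions through `F`
and `F² x̄ - F (T_ℓ x)‾ + ℓ x̄ = 0` for all `x ∈ J₀(N)(ℚ̄)` (`x̄ = reductionModL A N x`).
(From `congruence_on_divisors` and `reduction_galois` with `F = t`.) File `H17Basic`, same proof as
`H60S37.exists_core`; used in S12, S15, S39, S40 (and so in S09, S03, S01). -/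
theorem eichler_shimura (N : ℕ) [NeZero N] {ℓ : ℕ} (hℓ : ℓ.Prime) (hℓN : ¬ ℓ ∣ N)
    (A : ValuationSubring (AlgebraicClosure ℚ)) (hA : A.LiesOverPrime ℓ) :
    ∃ F : JZeroC (IsLocalRing.ResidueField A) N →+ JZeroC (IsLocalRing.ResidueField A) N,
      (∀ σ : AlgebraicClosure ℚ ≃ₐ[ℚ] AlgebraicClosure ℚ, A.IsFrobeniusAt σ ℓ →
        ∀ x : JZero N, reductionModL A N (σ • x) = F (reductionModL A N x)) ∧
      ∀ x : JZero N, F (F (reductionModL A N x)) -
        F (reductionModL A N (heckeOperatorBar N ⟨ℓ, hℓ⟩ x)) + ℓ • reductionModL A N x = 0 :=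
  H17.exists_core_modL N hℓ hℓN A hA

/-- **S37 from minimal data** (helper37). Suppose that at every place `A` of `ℚ̄` above a prime `ℓ`
not dividing `N p` there are ONE additive map `s : J₀(N) → M` and ONE additive endomorphism `F` of
`M` such that `s` is trivial on inertia, a Frobenius element acts through `F`, `s` is injective on
`p`-power torsion and `F² (s x) - F (s (T_ℓ x)) + ℓ s x = 0` for all `x`. Then `J₀(N)` has
specializations in the sense of S37: Hecke modules `J'` with a Hecke-equivariant map `J₀(N) → J'` and
the relation on ALL of `J'`. Proof: `J'` is a submodule of `Hom(HeckeAlg, M)`, `x` goes to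
`T ↦ s (T x)`. File `H37Glue`. -/
theorem specialization_of_core (N p : ℕ) [NeZero N] (hcomm : HeckeOperatorsCommuteBar N)
    (h : ∀ ℓ : ℕ, (hℓ : ℓ.Prime) → ¬ ℓ ∣ N * p →
      ∀ A : ValuationSubring (AlgebraicClosure ℚ), A.LiesOverPrime ℓ →
        ∃ (M : Type) (_ : AddCommGroup M) (s : JZero N →+ M) (F : M →+ M),
          (∀ σ ∈ A.inertiaSubgroupIn ℚ, ∀ x : JZero N, s (σ • x) = s x) ∧
          (∀ σ : AlgebraicClosure ℚ ≃ₐ[ℚ] AlgebraicClosure ℚ, A.IsFrobeniusAt σ ℓ →
            ∀ x : JZero N, s (σ • x) = F (s x)) ∧
          (∀ x : JZero N, (∃ n : ℕ, p ^ n • x = 0) → s x = 0 → x = 0) ∧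
          (∀ x : JZero N, F (F (s x)) - F (s (heckeOperatorBar N ⟨ℓ, hℓ⟩ x)) + ℓ • s x = 0)) :
    letI := heckeModuleBar N
    ∀ (_ : SMulCommClass (AlgebraicClosure ℚ ≃ₐ[ℚ] AlgebraicClosure ℚ) HeckeAlg (JZero N)),
      SpecializationExists (K := ℚ) (L := AlgebraicClosure ℚ) N p (JZero N) :=
  H37.S37_of_core N p hcomm fun ℓ hℓ hN A hA => by
    obtain ⟨M, i, s, F, h1, h2, h3, h4⟩ := h ℓ hℓ hN A hA
    exact ⟨M, i, s, F, ⟨h1, h2, h3, h4⟩⟩

/-- **S37 written out.** `J₀(N)` is a module over `HeckeAlg` through the commuting operators `T_ℓ`.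
For every `p`, every prime `ℓ ∤ N p` and every place `A` of `ℚ̄` above `ℓ` there are a Hecke module
`J'`, a Hecke-equivariant homomorphism `sp : J₀(N)(ℚ̄) → J'`, trivial on inertia and injective on
`p`-power torsion, and an endomorphism `F` of `J'` through which the Frobenius elements of `A` act,
with `F² y - T_ℓ F y + ℓ y = 0` for all `y ∈ J'`. -/
theorem eichler_shimura_specialization (N p : ℕ) [NeZero N] (hcomm : HeckeOperatorsCommuteBar N) :
    letI := heckeModuleBar N
    ∀ (_ : SMulCommClass (AlgebraicClosure ℚ ≃ₐ[ℚ] AlgebraicClosure ℚ) HeckeAlg (JZero N)),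
      ∀ ℓ : ℕ, (hℓ : ℓ.Prime) → ¬ ℓ ∣ N * p →
        ∀ A : ValuationSubring (AlgebraicClosure ℚ), A.LiesOverPrime ℓ →
          ∃ (J' : Type) (_ : AddCommGroup J') (_ : Module HeckeAlg J') (sp : JZero N →+ J')
            (F : J' →+ J'),
            (∀ (T : HeckeAlg) (x : JZero N), sp (T • x) = T • sp x) ∧
            (∀ σ ∈ A.inertiaSubgroupIn ℚ, ∀ x : JZero N, sp (σ • x) = sp x) ∧
            (∀ σ : AlgebraicClosure ℚ ≃ₐ[ℚ] AlgebraicClosure ℚ, A.IsFrobeniusAt σ ℓ →
              ∀ x : JZero N, sp (σ • x) = F (sp x)) ∧
            (∀ x : JZero N, (∃ n : ℕ, p ^ n • x = 0) → sp x = 0 → x = 0) ∧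
            ∀ y : J', F (F y) - heckeGen ⟨ℓ, hℓ⟩ • F y + ℓ • y = 0 := by
  let _ := heckeModuleBar N; intro h ℓ hℓ hN A hA
  obtain ⟨J', i1, i2, sp, F, h1, h2⟩ := S37.result N p hcomm h ℓ hℓ hN A hA
  exact ⟨J', i1, i2, sp, F, h1.1, h1.2, h1.3, h1.4, h2⟩

end S37

end Fermat.Agent.Guide.Hecke
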