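import Fermat.Agent.H12FHecke

/-!
# Guide: Kummer functions of torsion classes, logarithmic derivatives and Hecke operators

Companion of `GuideLogForm`, section 4 (multiplicity one for the Eisenstein part, S15); section 1 is
also used in `GuideOrdinary` and `GuideFrobeniusAtP` (see also `GuideS44Steps`, section 2). Every
theorem of this file is proved by citing a theorem of the library; no other file imports this file.
Sections 2 to 5 are used in S01, S03, S09, S12, S15, most of section 1 in S33 and other statements, too
(not in S09, S12, S15: `kummer_level`, `kummer_change` and the powers in `kummer_mul`).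
Author: helper12; files `H33Kummer`, `H33Laurent` (helper33), `H9LogT` (helper9), `H12FRel`, `H12FRed`,
`H12FHecke` (helper12). Notes: [82].

**What is shown.** `F` is a function field over `K`, `x` a class of divisors of degree zero such that
`n x = 0`. A *Kummer function* of level `n` of `x` is a function with divisor `n D`, where `D` belongs to
the class `x`. It always exists, and if `K` is algebraically closed it is unique up to factors `h^n`.
Therefore in characteristic `r` the logarithmic derivative `θs / s` of a Kummer function `s` of level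
`r` depends on the class only: the derivative of an `r`-th power is zero. This is the map from the
`r`-torsion of the Jacobian of `X₀(N)` in characteristic `r` to differential forms, `H12F.Rel r y f` in
the library: "the form `f` is attached to the class `y`". It is additive, injective, compatible with
Frobenius, and, the aim of this file, compatible with Hecke operators (`hecke`): *if `x` is an
`r`-torsion class of `J₀(N)` in characteristic zero, and `f` is attached to the reduction of `x`, then
`T_q f` is attached to the reduction of `T_q x`* (`q` a prime, `q ∤ N r`). Here `T_q x` is formed in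
characteristic zero, and no Hecke operators on the Jacobian in characteristic `r` are needed.

**Proof of the last point.** Let `u` be a Kummer function of `x`. Then the norm along `α` of `β(u)` is
one of `T_q x` (`kummer_correspondence`; `T_q = α_* β^*` on divisors). Its `q`-expansion is
`Tmul u = u(X^q) · N(u)`, where `N(u)` is the series with `N(u)(X^q) = ∏ u(ζ^i X)`, `0 ≤ i < q`, `ζ` a
primitive `q`-th root of unity (`GuideOrdinary.hecke_norm_qExpansion`). This formula makes sense for
all Laurent series and commutes with the reduction of coefficients, and if `s` is a reduction of `u`,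
then `Tmul s` is a reduction of the norm (`reduction_of_norm`). Finally `θs = f s` implies
`θ(Tmul s) = (T_q f) Tmul s` (`theta_Tmul`).

**Reading order.** 1 Kummer functions; 2 the derivation `θ`; 3 the form attached to a class;
4 reductions; 5 the multiplicative Hecke operator.
-/

set_option autoImplicit false

noncomputable section

open ModularCurve AlgebraicCurve

namespace Fermat.Agent.Guide.KummerFunctions

local notation "Qb" => AlgebraicClosure ℚ
local notation "FF" N => laurentBaseChange (AlgebraicClosure ℚ) (modularFunctionFieldFull N)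

/-! ## 1. Kummer functions -/

section Kummer

variable {K F : Type*} [Field K] [Field F] [Algebra K F]

/-- **Definition of Kummer functions** (`H33.IsKum`): `f` has the divisor `n D`, where `D` is a divisor of
degree zero in the class `x`. -/
theorem isKum_iff (n : ℕ) (x : Pic0 K F) (f : F) :
    H33.IsKum n x f ↔ f ≠ 0 ∧ ∃ D : Divisor.degZero (K := K) (F := F), Pic0.mk D = x ∧
      ∀ v, (n : ℤ) * (D : Divisor K F) v = v.ord f :=
  Iff.rfl

/-- **Existence**: the classes with a Kummer function of level `n` are the classes with `n x = 0`. File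
`H33Kummer`. -/
theorem kummer_exists (n : ℕ) (x : Pic0 K F) : (∃ f, H33.IsKum n x f) ↔ n • x = 0 :=
  ⟨fun h => h.choose_spec.nsmul_eq_zero, H33.IsKum.exists_of_nsmul⟩

/-- **Kummer functions multiply like the classes**: products, inverses, the function `1`, powers. File
`H33Kummer`. -/
theorem kummer_mul {n : ℕ} {x y : Pic0 K F} {f g : F} (hf : H33.IsKum n x f) (hg : H33.IsKum n y g) :
    H33.IsKum n (x + y) (f * g) ∧ H33.IsKum n (-x) f⁻¹ ∧ H33.IsKum n (0 : Pic0 K F) (1 : F) ∧
      ∀ m : ℕ, H33.IsKum n (m • x) (f ^ m) :=
  ⟨hf.mul hg, hf.inv, H33.IsKum.one K, fun m => hf.pow m⟩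

/-- **Change of level**: a Kummer function of level `n m` of `x` is one of level `n` of `m x`. File
`H33Kummer`. -/
theorem kummer_level {n m : ℕ} {x : Pic0 K F} {f : F} (hf : H33.IsKum (n * m) x f) :
    H33.IsKum n (m • x) f :=
  hf.level

/-- **Constants and `n`-th powers**: a Kummer function may be multiplied by a constant and by the `n`-th
power of a function (whose divisor has degree zero). File `H33Kummer`. -/
theorem kummer_change [HasPrincipalDivisors K F] {n : ℕ} {x : Pic0 K F} {f : F} (hf : H33.IsKum n x f)
    {c : K} (hc : c ≠ 0) {h : F} (hh : h ≠ 0) :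
    H33.IsKum n x (algebraMap K F c * f) ∧ H33.IsKum n x (f * h ^ n) :=
  ⟨hf.const_mul hc, hf.mul_pow hh⟩

/-- **Uniqueness** (`K` algebraically closed): two Kummer functions of level `n > 0` of the same class
differ by an `n`-th power. Proof: the difference of the two divisors `D` is the divisor of a function
`h`, so the functions differ by `h^n` and a constant, which is an `n`-th power. File `H33Kummer`. -/
theorem kummer_unique [IsAlgClosed K] [H94.FunField K F] {n : ℕ} {x : Pic0 K F} {f g : F} (hn : n ≠ 0)
    (hf : H33.IsKum n x f) (hg : H33.IsKum n x g) : ∃ h : F, h ≠ 0 ∧ f = g * h ^ n :=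
  hf.unique hn hg

/-- **The trivial class**: if a Kummer function of `x` is an `n`-th power up to a constant, then `x = 0`.
File `H33Kummer`. -/
theorem kummer_trivial {n : ℕ} {x : Pic0 K F} {f : F} (hn : n ≠ 0) (hf : H33.IsKum n x f) {c : K} {h : F}
    (hfh : f = algebraMap K F c * h ^ n) : x = 0 :=
  hf.eq_zero hn hfh

/-- **Semilinear automorphisms** of `F` (for example the Galois group acting on the coefficients of
`q`-expansions) act compatibly on classes and Kummer functions. File `H33Kummer`. -/
theorem kummer_galois {n : ℕ} {x : Pic0 K F} {f : F} (hf : H33.IsKum n x f) (τ : SemilinearAut K F) :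
    H33.IsKum n (τ • x) (τ • f) :=
  hf.smul τ

/-- **Correspondences.** `φ`, `ψ` are two embeddings of `F` in `F'`; the correspondence `ψ_* φ^*` acts on
divisors and, because of the norm formula `hN` and the fundamental identity `hFI`, on classes. On
Kummer functions it is `f ↦ N_ψ(φ f)`, the norm along `ψ`. File `H33Kummer`. -/
theorem kummer_correspondence {F' : Type*} [Field F'] [Algebra K F'] [HasPrincipalDivisors K F']
    (φ ψ : F →ₐ[K] F') (hφ : φ.toRingHom.IsIntegral) (hψ : ψ.toRingHom.IsIntegral)
    (hFI : FundamentalIdentityAlong K φ hφ) (hfin : FiniteAlong K ψ) (hN : NormFormulaAlong K ψ hfin)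
    {n : ℕ} {x : Pic0 K F} {f : F} (hf : H33.IsKum n x f) :
    H33.IsKum n (Pic0.correspondence φ ψ hφ hψ hFI hfin hN x) (H60.normAlong ψ (φ f)) :=
  H33.IsKum.correspondence φ ψ hφ hψ hFI hfin hN hf

end Kummer

/-! ## 2. The derivation `θ`

`θ` is the derivation `X d/dX` of Laurent series. The logarithmic derivative of `s` is `f` if
`θs = f s`. -/

/-- **`θ`** multiplies the coefficient of `X^n` by `n`, and it is a derivation. File `H61Formal`. -/
theorem theta_rules {R : Type*} [CommRing R] (a b : LaurentSeries R) (n : ℤ) :
    (H61.theta a).coeff n = (n : R) * a.coeff n ∧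
      H61.theta (a * b) = H61.theta a * b + a * H61.theta b :=
  ⟨H61.coeff_theta a n, H61.theta_mul a b⟩

/-- **Logarithmic derivatives** of products are sums, and the one of `s⁻¹` is the negative of the one of
`s`. File `H12FRel`. -/
theorem log_derivative {k : Type*} [Field k] {s s' f f' : LaurentSeries k} (hs : s ≠ 0)
    (h : H61.theta s = f * s) (h' : H61.theta s' = f' * s') :
    H61.theta (s * s') = (f + f') * (s * s') ∧ H61.theta s⁻¹ = -f * s⁻¹ :=
  ⟨H12F.theta_mul_of h h', H12F.theta_inv_of hs h⟩

/-- **The kernel of `θ` in characteristic `r`**, `k` algebraically closed: `θs = 0` if and only if `s` is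
an `r`-th power of a Laurent series. (All exponents of `s` are divisible by `r`, and all coefficients
are `r`-th powers.) File `H12FRel`. -/
theorem theta_kernel {k : Type*} [Field k] [IsAlgClosed k] (r : ℕ) [Fact r.Prime] [CharP k r]
    (s : LaurentSeries k) : H61.theta s = 0 ↔ ∃ g : LaurentSeries k, g ^ r = s :=
  ⟨H12F.exists_pow_of_theta_eq_zero r,
    fun h => (congrArg H61.theta h.choose_spec).symm.trans (H12F.theta_pow_char r _)⟩

/-! ## 3. The form attached to a class

`k` is a field, `N` a level, and the function field of `X₀(N)` over `k` is a field of Laurent series over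
`k`. -/

section Attached

variable {k : Type*} [Field k] {N : ℕ} {r : ℕ} {y y' : JZeroC k N} {f f' : LaurentSeries k}

/-- **Definition of `H12F.Rel`**: `f` is attached to the class `y` if a Kummer function `s` of level `r`
of `y` has the logarithmic derivative `f`. (Also `GuideLogForm.rel_iff`.) -/
theorem rel_iff (r : ℕ) (y : JZeroC k N) (f : LaurentSeries k) : H12F.Rel r y f ↔
    ∃ s : modularFunctionFieldFullC k N, H33.IsKum r y s ∧
      H61.theta (s : LaurentSeries k) = f * (s : LaurentSeries k) :=
  Iff.rfl

/-- **Additivity.** File `H12FRel`. -/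
theorem rel_add (h : H12F.Rel r y f) (h' : H12F.Rel r y' f') :
    H12F.Rel r (y + y') (f + f') ∧ H12F.Rel r (-y) (-f) ∧ H12F.Rel r (y - y') (f - f') ∧
      H12F.Rel r (0 : JZeroC k N) 0 :=
  ⟨h.add h', h.neg, h.sub h', H12F.rel_zero⟩

/-- **Every Kummer function of `y` has the same logarithmic derivative**, if `r` is the characteristic of
`k`: by `kummer_unique` another one is `s g^r`, and `θ(g^r) = 0`. In particular `f` is determined by
`y`. File `H12FRel`. -/
theorem rel_every_function [Fact r.Prime] [CharP k r] [IsAlgClosed k]
    [H94.FunField k (modularFunctionFieldFullC k N)] (h : H12F.Rel r y f) :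
    (∀ s : modularFunctionFieldFullC k N, H33.IsKum r y s →
      H61.theta (s : LaurentSeries k) = f * (s : LaurentSeries k)) ∧
    (H12F.Rel r y f' → f = f') :=
  ⟨fun _ hs => h.theta_eq hs, fun h' => h.unique h'⟩

/-- **Injectivity.** A class `y` to which the form `0` is attached is zero, if `N ≠ 0` in `k`: by
`theta_kernel` a Kummer function of `y` is the `r`-th power of a Laurent series `g`, and `g` is in the
function field of `X₀(N)` again; now use `kummer_trivial`. File `H12FRel`. -/
theorem rel_injective [Fact r.Prime] [CharP k r] [IsAlgClosed k]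
    [H94.FunField k (modularFunctionFieldFullC k N)] [NeZero N] (hN : (N : k) ≠ 0)
    (h : H12F.Rel r y 0) : y = 0 :=
  h.eq_zero hN

/-- **Automorphisms `τ` of `k`** act on the coefficients of `q`-expansions, hence on classes, and the
form attached to `τ y` is the form with the coefficients `τ(a_n)`. For the Frobenius of `k` this is the
compatibility with `T_r` (`GuideLogForm.rel_frobenius`). File `H12FHecke`. -/
theorem rel_automorphism (h : H12F.Rel r y f) (τ : k ≃+* k) :
    H12F.Rel r (H60.coeffAut N τ • y : JZeroC k N) (coeffMap (τ : k →+* k) f) :=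
  h.frob τ

end Attached

/-! ## 4. Reductions

`A` is a valuation ring of `ℚ̄` with a homomorphism `π` to a field `k`; `ρ` is the reduction of places
(`hr`), and principal divisors are generated by the divisors of integral series with nonzero reduction
(`hgen`). `H12F.RedOf π N u s` says that the function `s` over `k` is a reduction of a constant multiple of
`u` (`GuideLogForm.redOf_iff`, `GuideHeckeReduction.redOf_iff`). -/

section Reduction

variable {A : ValuationSubring Qb} {k : Type*} [Field k] {π : A →+* k} {N : ℕ}
  {ρ : Place Qb (FF N) → Place k (modularFunctionFieldFullC k N)}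

/-- **Reductions of Kummer functions** are Kummer functions of the reduction of the class, because the
divisor of a reduction is the reduction of the divisor (`GuideHeckeReduction.divisor_of_reduction`).
File `H12FRed`. -/
theorem reduction_of_kummer [HasPrincipalDivisors Qb (FF N)] (hr : IsPlaceReductionAlong A π N ρ)
    (hgen : PrincipalGeneratedByIntegral A π N) {u : FF N} {s : modularFunctionFieldFullC k N}
    (h : H12F.RedOf π N u s) {n : ℕ} {x : Pic0 Qb (FF N)} (hx : H33.IsKum n x u) :
    H33.IsKum n (reductionPic0Along ρ hr hgen x) s :=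
  h.isKum hr hgen hx

/-- **The reduction maps are surjective**: on places, and so on classes of divisors of degree zero.
Proof for a place `Q` over `k`: a uniformiser of `Q` is a quotient of two reductions of integral series,
and one of them has order `≠ 0` at `Q`; the divisor of this reduction is the reduction of a divisor, so
some place reduces to `Q`. File `H12FRed`. -/
theorem reduction_surjective [HasPrincipalDivisors Qb (FF N)] (hπ : Function.Surjective π)
    (hr : IsPlaceReductionAlong A π N ρ) (hgen : PrincipalGeneratedByIntegral A π N) :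
    Function.Surjective ρ ∧ Function.Surjective (reductionPic0Along ρ hr hgen) :=
  ⟨H12F.surjective_place hπ hr, H12F.surjective_pic hπ hr hgen⟩

end Reduction

/-! ## 5. The multiplicative Hecke operator -/

section Operator

variable {R : Type*} [CommRing R] (q : ℕ) [NeZero q]

/-- **The operator `Tmul`** on Laurent series: `Tmul f = f(X^q) · N(f)`. Here `qExpand R q f` is `f(X^q)`,
and `N(f) = H33.normOp q ζ f` is the series with `N(f)(X^q) = ∏ f(ζ^i X)`, where `ζ` is a primitive
`q`-th root of unity (`H60.twist u f` is `f(u X)`); it exists because the product is invariant under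
`X ↦ ζ X`. Files `H9LogT`, `H33Laurent`. -/
theorem Tmul_def [IsDomain R] {ζ : Rˣ} (hζ : IsPrimitiveRoot ζ q) (f : LaurentSeries R) :
    H9.Tmul q ζ f = qExpand R q f * H33.normOp q ζ f ∧
      qExpand R q (H33.normOp q ζ f) = ∏ i ∈ Finset.range q, H60.twist (ζ ^ i) f :=
  ⟨rfl, H33.qExpand_normOp q hζ f⟩

/-- **`Tmul` is multiplicative**, commutes with homomorphisms of the coefficients, maps a constant `c` to
`c^(q + 1)` and nonzero series over a field to nonzero series. File `H12FHecke`. -/
theorem Tmul_rules {k : Type*} [Field k] {ζ : kˣ} (hζ : IsPrimitiveRoot ζ q) (f g : LaurentSeries k)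
    (c : k) :
    H9.Tmul q ζ (f * g) = H9.Tmul q ζ f * H9.Tmul q ζ g ∧
      H9.Tmul q ζ (H33.cst c) = H33.cst (c ^ (q + 1)) ∧ (f ≠ 0 → H9.Tmul q ζ f ≠ 0) ∧
      ∀ {S : Type*} [CommRing S] (h : k →+* S),
        coeffMap h (H9.Tmul q ζ f) = H9.Tmul q (Units.map (h : k →* S) ζ) (coeffMap h f) :=
  ⟨H12F.tmul_mul q hζ f g, H12F.tmul_cst q hζ c, fun h => H12F.tmul_ne_zero q hζ h,
    fun h => H12F.coeffMap_tmul q h ζ f⟩

/-- **`T_q` on Laurent series** in weight two: `H9.TL q f = q f(X^q) + U_q f`; for a power series
`f = ∑ a_n X^n` the coefficient of `X^n` is `a_(q n) + q a_(n/q)`. File `H9LogT`. -/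
theorem TL_ofPowerSeries (f : PowerSeries R) :
    H9.TL q (HahnSeries.ofPowerSeries ℤ R f) = HahnSeries.ofPowerSeries ℤ R (PowerSeries.mk fun n =>
      PowerSeries.coeff (q * n) f + if q ∣ n then (q : R) * PowerSeries.coeff (n / q) f else 0) :=
  H9.TL_ofPowerSeries q f

/-- **Logarithmic derivatives under `Tmul`**: if `θh = f h`, then `θ(Tmul h) = (T_q f) Tmul h`, where
`q ≠ 0` in `R`. Proof: the logarithmic derivative of `h(X^q)` is `q f(X^q)`, the one of `∏ h(ζ^i X)` is
`∑ f(ζ^i X)`, which is `q (U_q f)(X^q)`, so the one of `N(h)` is `U_q f`. (Also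
`GuideLogForm.theta_norm`.) File `H9LogT`. -/
theorem theta_Tmul [IsDomain R] (hq : (q : R) ≠ 0) {ζ : Rˣ} (hζ : IsPrimitiveRoot ζ q)
    {f h : LaurentSeries R} (hf : H61.theta h = f * h) :
    H61.theta (H9.Tmul q ζ h) = H9.TL q f * H9.Tmul q ζ h :=
  H9.theta_Tmul q hq hζ hf

end Operator

section Hecke

variable {A : ValuationSubring Qb} {k : Type*} [Field k] [IsAlgClosed k] {π : A →+* k}
  {N q : ℕ} [NeZero N] [Fact q.Prime] [NeZero q]

/-- **Integral modular functions** (series over `A` which are modular functions of level `N` and whose
reductions are modular functions over `k`) are preserved by `Tmul`, `q ∤ N`. File `H12FHecke`. -/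
theorem integral_Tmul (hπ : Function.Surjective π) (hN : (N : k) ≠ 0) (hqN : ¬ q ∣ N) {ζ : Aˣ}
    (hζ : IsPrimitiveRoot (Units.map (A.subtype : A →* Qb) ζ) q) {g : LaurentSeries A}
    (hg : H18.IsInt π N g) : H18.IsInt π N (H9.Tmul q ζ g) :=
  H12F.IsInt.tmul hπ hN hqN hζ hg

/-- **The reduction of the norm.** If `s` is a reduction of `u`, then the norm along `α` of `β(u)` has a
reduction with the `q`-expansion `Tmul s`. Here `ζ` is a primitive `q`-th root of unity in `A` the image
of which in `k` is primitive, too (so `q ≠ 0` in `k`). Proof: apply `Tmul` to the representation of `u`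
as `c g / h` with integral `g`, `h`, and use `Tmul_rules`, `integral_Tmul`. File `H12FHecke`. -/
theorem reduction_of_norm (hπ : Function.Surjective π) (hN : (N : k) ≠ 0) (hqN : ¬ q ∣ N) {ζ : Aˣ}
    (hζ : IsPrimitiveRoot (Units.map (A.subtype : A →* Qb) ζ) q)
    (hζk : IsPrimitiveRoot (Units.map (π : A →* k) ζ) q) {u : FF N}
    {s : modularFunctionFieldFullC k N} (h : H12F.RedOf π N u s) :
    ∃ s' : modularFunctionFieldFullC k N,
      H12F.RedOf π N (H60.normAlong (heckeAlphaBar Qb N q) (heckeBetaBar Qb N q u)) s' ∧
      (s' : LaurentSeries k) = H9.Tmul q (Units.map (π : A →* k) ζ) (s : LaurentSeries k) :=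
  h.hecke hπ hN hqN hζ hζk

/-- **Hecke operators and attached forms** (see the header). `x` is an `r`-torsion class of `J₀(N)` over
`ℚ̄`, `f` is attached to its reduction; then `T_q f` is attached to the reduction of `T_q x`. The hypotheses
`hα` to `hNF` belong to the definition of the action of `T_q` on classes. In the library the theorem is
applied in the form `GuideLogForm.rel_hecke`. File `H12FHecke`. -/
theorem hecke {r : ℕ} [Fact r.Prime] [CharP k r] [H94.FunField k (modularFunctionFieldFullC k N)]
    {ρ : Place Qb (FF N) → Place k (modularFunctionFieldFullC k N)}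
    [H94.FunField Qb (FF N)] [HasPrincipalDivisors Qb (FF N)] [HasPrincipalDivisors Qb (FF (N * q))]
    (hπ : Function.Surjective π) (hN : (N : k) ≠ 0) (hqN : ¬ q ∣ N) {ζ : Aˣ}
    (hζ : IsPrimitiveRoot (Units.map (A.subtype : A →* Qb) ζ) q)
    (hζk : IsPrimitiveRoot (Units.map (π : A →* k) ζ) q) (hqk : (q : k) ≠ 0)
    (hr : IsPlaceReductionAlong A π N ρ) (hgen : PrincipalGeneratedByIntegral A π N)
    (hα : HeckeAlphaBarIntegral Qb N q) (hβ : HeckeBetaBarIntegral Qb N q)
    (hFI : FundamentalIdentityAlong Qb (heckeBetaBar Qb N q) hβ)
    (hfin : FiniteAlong Qb (heckeAlphaBar Qb N q))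
    (hNF : NormFormulaAlong Qb (heckeAlphaBar Qb N q) hfin)
    {x : Pic0 Qb (FF N)} (hx : r • x = 0) {f : LaurentSeries k}
    (hf : H12F.Rel r (reductionPic0Along ρ hr hgen x) f) :
    H12F.Rel r (reductionPic0Along ρ hr hgen (heckePic0Bar hα hβ hFI hfin hNF x)) (H9.TL q f) :=
  hf.hecke hπ hN hqN hζ hζk hqk hr hgen hα hβ hFI hfin hNF hx

end Hecke

end Fermat.Agent.Guide.KummerFunctions
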