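import Fermat.Agent.H2C38O

/-!
# Guide: level lowering for all odd primes `p` (S38): the levels and the cases at `p`

Companion of `GuideLevels`, section 5: the steps of the proof of `LL_all_odd`. (`GuideLevelsIhara` explains
the same argument for `p ≥ 5` and levels prime to `p`, as it is used for S43.)

**The theorem.** `p` is odd, `W` semistable, `W[p]` irreducible and residually modular of the squarefree
level `M`; every `t ∈ T` divides `M`, is `1` modulo `p`, and `W[p]` is unramified at `t` with scalar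
Frobenius `± 1`; if `p ∣ M`, then `W[p]` is not modular of level `M / p`; for `p = 3` there is an auxiliary
prime `s ∣ M`. Then `W[p]` is modular of level `M / t₀` for every `t₀ ∈ T`.

**The proof** is by contradiction: let `t₀` be in `T` and `W[p]` not modular of level `M / t₀`.
* *Outer part* (`GuidePatching`, section 4: `outer_part`, `no_system`; `LevelsIhara.no_patching_marks`). For a
  deformation condition `pd` at `p` and every `n` there are Taylor-Wiles primes `Q` and a universal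
  deformation ring `R` with its presentation (the Galois side of a level, `GLev`, see `GuideLiftingGalois`).
  There is a contradiction as soon as each of them carries a suitable module: the *inner statement*.
* *Inner statement* (sections 1-3). The module is the part belonging to `W[p]` of `H¹(Γ₀(M ∏ Q), Λ(ψ²))`;
  `Λ` is the group ring of the `p`-parts of the groups `(ℤ/q)ˣ`, `q ∈ Q` (the diamond operators), and the
  character `ψ` is universal at the `q ∈ Q` and of order `p` at every `t ∈ T`. New against the case of S43: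
  for `p = 3` the auxiliary prime makes the elliptic elements harmless; for `p ∣ M` the marks `t`, `z` at `p`
  kill the module, because all its eigenclasses are new at `p`.
* *What is needed at `p`* (section 4): the condition `pd` has to contain the representations over the Hecke
  rings. Flat (`p ∤ M`), strictly ordinary, or ordinary with marks (`p ∣ M`).
* *The cases* (section 5), and the removal of `p` from the level when `W` has good reduction at `p`.

**Notation.** `resZ W hΔ p` is the representation on `W[p]`, `toMat ρ b` the matrices of `ρ` in the basis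
`b`; `O` is a complete discrete valuation ring with finite residue field, `CoeffChoice p T O ϖ a ζ` the
choice of `LevelsIhara.exists_coefficient_ring`; `Tset T` is `T` as a type, `Zset O p T t` the set of the
`z ≠ 1` in `Oˣ` whose order is a power of `p` dividing `t - 1`, `PlaceData p t` a place above `t` with a
Frobenius `φ` and a generator `σ` of tame inertia; `heckeLocal L S O θ` is the completion at `θ` of the Hecke
algebra of level `L` outside `S`, `Away L S` says that `S` contains the primes dividing `L`;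
`cj g r = g⁻¹ r g`; `PData p ρ b` is a deformation condition `pd.𝒟p` at `p` with marks indexed by `pd.ε` (the
marks `t, y, z` of `j` are `G.mB (Sum.inr j) i`, `i = 0, 1, 2`); for `G : GLev …` (`GalLevelB …` in the case
of `W[p]`) the ring is `G.D.R`, the representation `G.r`, the Taylor-Wiles primes `G.qv j`; `HSide …` relates
a map `π` to `heckeLocal …` to the representations (`LiftingComposition.heckeSide_iff`, see there also
`isPt_iff`).
`TWModPart O ϖ p r n D R prodElt hElt` is an `R`-module, free of rank `d`, `0 < d ≤ D`, over the group ring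
of `r` cyclic groups of `p`-power orders `≥ p^n` (which acts through `R`), on which the elements `prodElt t`
are zero and `hElt` is divisible by `ϖ` (`GuidePatching`).

**Files** `H85C0` to `H85C5`, `H75D1`, `H75D2` (helper75), `H65C1` (helper65), `H20C1` (helper20), `H69C0`,
`H69C2`, `H69C3` (helper69), `H2C38N`, `H2C38O` (helper2). **Serves** S38. **Notes** [315], [317], [318],
[320], [322], [324], [327], [329], [339]. Written by helper85.
-/

set_option autoImplicit false

noncomputable section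

open IsLocalRing GaloisRep CuspForm ExtCitation
open Fermat.Agent.H53 (GQ M2 toMat mapMat PData PlaceData GalLevelB numB)
open Fermat.Agent.H59 (Tset CoeffChoice Zset)
open Fermat.Agent.H87.Glue (resZ)
open Fermat.Agent.H69.EG (TWModPart)
open Fermat.Agent.H69C (InnerLLK)
open Fermat.Agent.H86.In (GLev HSide VanishAt)
open Fermat.Agent.H75P (MarkElts OrdI cj)
open Fermat.Agent.H37.Rank Fermat.Agent.H70.Coh Fermat.Agent.H70.Mod Fermat.Agent.H30

namespace Fermat.Agent.Guide.LevelsOdd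

/-! ### 1. The data -/

/-- **The auxiliary prime** (`H30.S59.Aux W p s`): for `p = 3` a prime `s ≡ 2` modulo `3` of good
reduction with `3 ∤ a_s(W)`; for `p ≠ 3` none is needed (`s = 1`). -/
theorem auxiliary_prime_iff (W : WeierstrassCurve ℤ) (p s : ℕ) : H30.S59.Aux W p s ↔
    (p = 3 → s.Prime ∧ s % 3 = 2 ∧ W.IsGoodPrimeFor s ∧ ¬ (3 : ℤ) ∣ W.apOfModel s) ∧
      (p ≠ 3 → s = 1) :=
  Iff.rfl

/-- **The hypotheses of the theorem** (`H2C.LLData`, a structure). `H57.S59.ResHypB W hΔ p A T ∅ _` are the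
properties of `A` and `T` (`hA_prime` to `hT_scalar` in `Levels.LL_all_odd`). -/
theorem levelData_iff (W : WeierstrassCurve ℤ) (hΔ : W.Δ ≠ 0) (p : ℕ) [Fact p.Prime] (M s : ℕ)
    (A T : Finset ℕ) : H2C.LLData W hΔ p M s A T ↔
      (Squarefree M ∧ W.IsResiduallyModularOfLevel p M ∧
        H57.S59.ResHypB W hΔ p A T ∅ (fun _ => 1)) ∧
      (H30.S59.Aux W p s ∧ (p = 3 → s ∣ M) ∧ s ≠ p ∧ s ∉ A ∧ s ∉ T) ∧
      (∀ q : ℕ, q.Prime → q ∣ M → q ∈ A ∨ q ∈ T ∨ q = s ∨ q = p) ∧
      (∀ q ∈ A, q ∣ M) ∧ (∀ q ∈ T, q ∣ M ∧ q ≠ p) ∧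
      (p ∣ M → ¬ W.IsResiduallyModularOfLevel p (M / p)) :=
  ⟨fun h => ⟨⟨h.sq, h.mod, h.res⟩, ⟨h.aux, h.aux_dvd, h.s_ne, h.s_A, h.s_T⟩, h.cover, h.A_dvd,
      h.T_dvd, h.min_p⟩,
    fun ⟨⟨a, b, c⟩, ⟨d, e, f, g, i⟩, j, k, l, m⟩ => ⟨a, b, c, d, e, f, g, i, j, k, l, m⟩⟩

/-- **Levels with harmless elliptic elements** (`H70.Coh.Good M R`, from the structure
`H70.OrbitWeight`): `2` is a unit of `R`, and there are `Γ₀(M)`-invariant functions `χ₂`, `χ₃` on
`SL₂(ℤ)` with `χ₂(g) + χ₂(gS) = 1` and `χ₃(g) + χ₃(gU) + χ₃(gU²) = 1`, `U = ST`. With them cocycles of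
`Γ₀(M)` lift along surjective maps of coefficients, that is, `H²(Γ₀(M), -)` vanishes. -/
theorem good_iff (M : ℕ) (R : Type*) [CommRing R] : Good M R ↔
    (∃ χ₂ χ₃ : Matrix.SpecialLinearGroup (Fin 2) ℤ → R,
      (∀ (γ : CongruenceSubgroup.Gamma0 M) g, χ₂ (γ * g) = χ₂ g) ∧
      (∀ g, χ₂ g + χ₂ (g * ModularGroup.S) = 1) ∧
      (∀ (γ : CongruenceSubgroup.Gamma0 M) g, χ₃ (γ * g) = χ₃ g) ∧
      ∀ g, χ₃ g + χ₃ (g * (ModularGroup.S * ModularGroup.T)) +
        χ₃ (g * (ModularGroup.S * ModularGroup.T * (ModularGroup.S * ModularGroup.T))) = 1) ∧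
      IsUnit (2 : R) :=
  ⟨fun ⟨⟨w⟩, h⟩ => ⟨⟨w.χ₂, w.χ₃, w.inv₂, w.sum₂, w.inv₃, w.sum₃⟩, h⟩,
    fun ⟨⟨a, b, c, d, e, f⟩, h⟩ => ⟨⟨⟨a, c, d, b, e, f⟩⟩, h⟩⟩

/-- **The levels of the system are good**: `p ≥ 5` is clear, since `2` and `3` are units; for `p = 3` the
level is divisible by the auxiliary prime `s ≡ 2` modulo `3`, `x² - x + 1` has no root modulo `s`, and so
`Γ₀(M)` has no element of order `3` modulo `±1`. (`H85C1`, from `H70Free`.) -/
theorem level_is_good {W : WeierstrassCurve ℤ} {p : ℕ} [Fact p.Prime] {s₁ : ℕ}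
    (haux : H30.S59.Aux W p s₁) (hp2 : p ≠ 2) {R : Type*} [CommRing R] [IsLocalRing R]
    [CharP (ResidueField R) p] (M : ℕ) (hM : p = 3 → s₁ ∣ M) : Good M R :=
  H85.C.good_of_aux haux hp2 M hM

/-- **Elements which vanish at the points of level `M`** (`H86.In.VanishAt p hSL π M a`). A point is a
homomorphism `lam` from the Hecke ring `heckeLocal L S O θ` to an extension `O'` of `O` which is realised
by a class `x` in `H¹(Γ₀(M), O'(η²))`: no non-zero multiple of `x` is zero, and the twisted Hecke operators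
act on `x` by `lam` (`IsPt`). The element `a` of `R` vanishes if `lam (π a) = 0` at all points of level
`M` with a character `η` of `p`-power order and conductor prime to `p`. (The same as
`LiftingComposition.vanishAt_iff`.) -/
theorem vanishAt_iff {O : Type} [CommRing O] [IsDomain O] [IsDiscreteValuationRing O]
    [IsAdicComplete (maximalIdeal O) O] [Finite (ResidueField O)] [CharZero O] (p : ℕ) {R : Type}
    [CommRing R] [Algebra O R] {L : ℕ} [NeZero L] {S : Set ℕ}
    (hSL : ∀ q : ℕ, q.Prime → q ∣ L → q ∈ S) {θ : heckeAlgebra L 2 S →+* ResidueField O}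
    (π : R →ₐ[O] heckeLocal L S O θ) (M : ℕ) (a : R) : VanishAt p hSL π M a ↔
      ∀ (O' : Type) [CommRing O'] [IsDomain O'] [IsDiscreteValuationRing O']
        [IsAdicComplete (maximalIdeal O') O'] [Finite (ResidueField O')] [CharZero O']
        [Algebra O O'] [Module.Finite O O'] [IsLocalHom (algebraMap O O')],
        Function.Injective (algebraMap O O') → ∀ {N : ℕ} (hN : N ∣ M) (_ : ¬ p ∣ N)
        (hS : Away M S) (lam : heckeLocal L S O θ →ₐ[O] O') (η : (ZMod N)ˣ →* O'ˣ)
        (x : H1 (gam N M hN) (psiRep (η ^ 2) O')), (∃ k, η ^ p ^ k = 1) →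
        IsPt hN hS η (fun i => lam (heckeLocal.π L S O θ (TIdx L S hSL i))) x → lam (π a) = 0 :=
  Iff.rfl

/-! ### 2. One level -/

/-- **The trace of Frobenius at the new points.** Let `lam` be a point of level `M t`, `t ∤ M`, with character
`η` of odd order and of squarefree modulus `N ∣ M`, no prime of which divides `M` twice, realised by a class
`x` which is killed by both trace maps to level `M` (`x` is new at the prime `t ∈ T`). Then at this point
`(tr Φ_t)² = (t + 1)²`, `Φ_t` the Frobenius at `t` of the universal representation: the representation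
belonging to the point is Steinberg at `t`, or its unramified quadratic twist. (`H85C1`, from `H79PtB` and
`H4EA`.) -/
theorem trace_at_new_points {𝒪 : Type} [CommRing 𝒪] [IsDomain 𝒪] [IsDiscreteValuationRing 𝒪]
    [IsAdicComplete (maximalIdeal 𝒪) 𝒪] [Finite (ResidueField 𝒪)] [CharZero 𝒪]
    {p : ℕ} [Fact p.Prime] {ρbar : ResidualGaloisRep (ResidueField 𝒪)}
    {b : Module.Basis (Fin 2) (ResidueField 𝒪) ρbar.V} {pd : PData p ρbar b} {A : Finset ℕ}
    {τ ι : Type} [Fintype τ] [Fintype ι] {qT : τ → ℕ} {pl : ∀ t, PlaceData p (qT t)} {u : τ → 𝒪}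
    {qB : ι → ℕ} {plB : ∀ i, PlaceData p (qB i)} {uB : ι → 𝒪} {k n : ℕ} {S₀ : Finset ℕ}
    (E : GalLevelB p ρbar b pd A qT pl u qB plB uB k n S₀)
    {L : ℕ} [NeZero L] {S : Finset ℕ} (hpS : p ∈ S) (hLS : ∀ q : ℕ, q.Prime → q ∣ L → q ∈ S)
    {θ : heckeAlgebra L 2 (↑S : Set ℕ) →+* ResidueField 𝒪}
    (π : E.D.R →ₐ[𝒪] heckeLocal L (↑S : Set ℕ) 𝒪 θ) (hπ : Function.Surjective π)
    {H : HeckeGaloisRepDatum L (↑S : Set ℕ) 𝒪 θ (heckeLocal L (↑S : Set ℕ) 𝒪 θ)}
    (hH : H.π = heckeLocal.π L (↑S : Set ℕ) 𝒪 θ)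
    (b₂ : Module.Basis (Fin 2) (heckeLocal L (↑S : Set ℕ) 𝒪 θ) H.ρ.V)
    (hb₂ : toMat H.ρ.ρ b₂ =
      mapMat (π : E.D.R →+* heckeLocal L (↑S : Set ℕ) 𝒪 θ) (toMat E.D.ρ.ρ E.b₁))
    {O' : Type} [CommRing O'] [IsDomain O'] [IsDiscreteValuationRing O']
    [IsAdicComplete (maximalIdeal O') O'] [Finite (ResidueField O')] [CharZero O']
    [Algebra 𝒪 O'] [Module.Finite 𝒪 O'] [IsLocalHom (algebraMap 𝒪 O')]
    (hp2 : p ≠ 2) (t : τ) {N M : ℕ} [NeZero M] [NeZero (qT t)]
    (hsq : Squarefree N) (hex : ∀ r : ℕ, r.Prime → r ∣ N → ¬ r * r ∣ M) (hM : N ∣ M)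
    (hqT : (qT t).Prime) (hqp : qT t ≠ p) (hqM : ¬ qT t ∣ M)
    (hS : Away (M * qT t) (↑S : Set ℕ))
    (lam : heckeLocal L (↑S : Set ℕ) 𝒪 θ →ₐ[𝒪] O') (η : (ZMod N)ˣ →* O'ˣ)
    (x : H1 (gam N (M * qT t) (hM.mul_right (qT t))) (psiRep (η ^ 2) O'))
    (hη : ∃ m, Odd m ∧ η ^ m = 1) (hx : ∀ c : O', c ≠ 0 → c • x ≠ 0)
    (hlam : ∀ i : Idx (↑S : Set ℕ), tw (hM.mul_right (qT t)) hS (η ^ 2) η i x =
      lam (heckeLocal.π L (↑S : Set ℕ) 𝒪 θ (TIdx L (↑S : Set ℕ) hLS i)) • x)
    (h1 : (trFam hM).opH (psiRep (η ^ 2) O') x = 0)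
    (h2 : (nuFam hM hqT).opH (psiRep (η ^ 2) O') x = 0) :
    lam (π ((E.r (pl t).φ 0 0 + E.r (pl t).φ 1 1) ^ 2 - ((qT t : E.D.R) + 1) ^ 2)) = 0 :=
  H85.C.lam_hElt E hpS hLS π hπ hH b₂ hb₂ hp2 (H4.geomInputs Fact.out) t hsq hex hM hqT hqp hqM hS
    lam η x hη hx hlam h1 h2

/-- **Additional elements which kill the module.** The elements `a ∈ U` are added to the family `prodElt`;
a module for the larger family is a module for `prodElt` which is killed by `U` (`H69C.Kills mp a`: `a` is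
zero on the module `mp.M`). So everything proved for the elements `prodElt t` (they vanish at the points,
hence kill the module) applies to `U`. (`H85C3`.) -/
theorem killing_elements {O : Type} [CommRing O] [IsLocalRing O] {ϖ : O} {p r n D : ℕ} {T : Type}
    {R : Type} [CommRing R] [IsLocalRing R] [Algebra O R] {prodElt : T → R} {hElt : R} {U : Set R}
    (h : Nonempty (TWModPart O ϖ p r n D R (Sum.elim prodElt (fun a : U => (a : R))) hElt)) :
    ∃ mp : TWModPart O ϖ p r n D R prodElt hElt, ∀ a ∈ U, H69C.Kills mp a :=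
  H85.C.exists_of_sum h

/-- **The module of a level.** The situation of the theorem, `W[p]` not modular of level `M / t₀`; `hD`: the
representations over the Hecke rings of the levels `L` with `p² ∤ L` and (`p ∣ L ↔ p ∣ M`) satisfy the
condition `pd` at `p`; `G` is the Galois side of a level without raising primes, whose Taylor-Wiles primes
are outside of `S₀` (which contains `p`, the primes dividing `M` and those of bad reduction); `U` is a set
of elements of its ring which vanish at all points of level `M ∏ Q`. Then there is a module for `G`, of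
rank bounded independently of `n` (`H35.Rk.bnd`), on which `∏_z (tr Σ_t - z - z⁻¹)` is zero for `t ∈ T` (`z`
runs over non-trivial `p`-power roots of unity) and `(tr Φ)² - (t₀ + 1)²`, at `t₀`, is divisible by `ϖ`, and
which is killed by `U`. Proof (step by step: `GuideTWModules`, up to `exists_module_part`): the module is
the summand of `H¹(Γ₀(M ∏ Q), Λ(ψ²))` at the eigensystem of `W[p]`. It is free over `Λ`, and then over the
diamond operators of the Galois side (`LevelsIhara.norm_trick`). An element of the Hecke ring whose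
eigenvalues on the module are all zero kills it, since the Hecke ring is reduced; and eigenvectors give
points of level `M ∏ Q` (`H70Lev8`, `H70Lev9`): this is the first relation, and `U`. Modulo `ϖ` the module
agrees with the one for the character without the part at `T`; the corresponding summand of level
`(M / t₀) ∏ Q` is zero, so the points are new at `t₀` and `trace_at_new_points` applies (`H70Lev10`).
(`H85C4`; `H85C1` for `U` empty. Localised cohomology and freeness: `H85C3`, `H70Mod`, `H70Lev*`; ranks: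
`H35Rk`, `H59LL4`; points: `H79PtB`.) -/
theorem module_of_level {W : WeierstrassCurve ℤ} {p : ℕ} [Fact p.Prime] (hΔ : W.Δ ≠ 0)
    {O : Type} [CommRing O] [IsDomain O] [IsDiscreteValuationRing O]
    [IsAdicComplete (maximalIdeal O) O] [CharZero O] [Finite (ResidueField O)]
    [CharP (ResidueField O) p] [Algebra (ZMod p) (ResidueField O)]
    (hp2 : p ≠ 2) (hirrp : W.ModRepIsIrreducible p)
    (hirr : ((resZ W hΔ p).baseChange (ResidueField O)).IsIrreducible)
    {A T : Finset ℕ} {ϖ : O} {a : ℕ} {ζ : O} (hO : CoeffChoice p T O ϖ a ζ)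
    (hA : ∀ q ∈ A, q.Prime) (hAT : ∀ q ∈ A, q ∉ T) (hTp : ∀ t ∈ T, t.Prime)
    (hTd : ∀ t ∈ T, p ∣ t - 1) (hTu : ∀ t ∈ T, (resZ W hΔ p).IsUnramifiedAt t)
    {s₁ : ℕ} (haux : H30.S59.Aux W p s₁)
    {M : ℕ} (hM : Squarefree M) (hmod : W.IsResiduallyModularOfLevel p M)
    (hMpr : ∀ q : ℕ, q.Prime → q ∣ M → q = p ∨ q ∈ A ∨ q ∈ T ∨ q = s₁)
    (hTM : ∀ t ∈ T, t ∣ M) (hsM : p = 3 → s₁ ∣ M)
    (t₀ : Tset T) (hnot : ¬ W.IsResiduallyModularOfLevel p (M / t₀.1))
    {b : Module.Basis (Fin 2) (ResidueField O) ((resZ W hΔ p).baseChange (ResidueField O)).V}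
    {pd : PData p ((resZ W hΔ p).baseChange (ResidueField O)) b}
    {pl : ∀ t : Tset T, PlaceData p t.1} {u : Tset T → O}
    {plB : ∀ i : Tset (∅ : Finset ℕ), PlaceData p i.1}
    (hD : ∀ {L : ℕ} [NeZero L] {S : Finset ℕ}, p ∈ S → (∀ q : ℕ, q.Prime → q ∣ L → q ∈ S) →
      ¬ p ^ 2 ∣ L → (p ∣ L ↔ p ∣ M) → ∀ {θ : heckeAlgebra L 2 (↑S : Set ℕ) →+* ResidueField O}
      (H : HeckeGaloisRepDatum L (↑S : Set ℕ) O θ (heckeLocal L (↑S : Set ℕ) O θ)),
      H.ρ.residual.IsEquiv (((resZ W hΔ p).baseChange (ResidueField O)).baseChangeAlong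
        (ResidueField.map (algebraMap O (heckeLocal L (↑S : Set ℕ) O θ)))) → pd.𝒟p H.ρ)
    {S₀ : Finset ℕ} (hpS₀ : p ∈ S₀) (hMS₀ : ∀ q : ℕ, q.Prime → q ∣ M → q ∈ S₀)
    (hWS₀ : ∀ q : ℕ, q.Prime → q ∉ S₀ → W.IsGoodPrimeFor q)
    {k n : ℕ} (G : GLev hΔ pd A pl u plB k n S₀) (U : Set G.D.R)
    (hU : ∀ (L : ℕ) [NeZero L] (S : Finset ℕ)
      (θ : heckeAlgebra L 2 (↑S : Set ℕ) →+* ResidueField O)
      (π : G.D.R →ₐ[O] heckeLocal L (↑S : Set ℕ) O θ) (hs : HSide p G.D G.b₁ π),
      (∀ ℓ : ℕ, ℓ.Prime → ℓ ∉ S → W.IsGoodPrimeFor ℓ) →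
      (∀ i : Idx (↑S : Set ℕ), θ (TIdx L (↑S : Set ℕ) hs.hLS i) =
        ((W.apOfModel i.1 : ℤ) : ResidueField O)) → ∀ x ∈ U,
      VanishAt p hs.hLS π (M * ∏ j, G.qv j) x) :
    ∃ mp : TWModPart O ϖ p (numB (Tset T) (Tset (∅ : Finset ℕ)) pd.ε k) n
      (H35.Rk.bnd O (numB (Tset T) (Tset (∅ : Finset ℕ)) pd.ε k) M) G.D.R
      (fun t : Tset T => ∏ z ∈ Zset O p T t, (G.r (pl t).σ 0 0 + G.r (pl t).σ 1 1 -
        algebraMap O G.D.R ((z : O) + (z⁻¹ : Oˣ))))
      ((G.r (pl t₀).φ 0 0 + G.r (pl t₀).φ 1 1) ^ 2 - ((t₀.1 : G.D.R) + 1) ^ 2),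
      ∀ x ∈ U, H69C.Kills mp x :=
  H85.C.level_kill hΔ hp2 hirrp hirr S29.result S34.result (H4.geomInputs Fact.out) hO hA hAT hTp
    hTd hTu haux hM hmod hMpr hTM hsM t₀ hnot hD hpS₀ hMS₀ hWS₀ G U hU

/-! ### 3. The inner statement -/

/-- **The inner statement without marks** (`H85.C.InnerLL`): for all coefficient rings `O` and places there
are a condition `pd` at `p` without marks and, for every number `k` of additional variables, a bound `D` of
the ranks, such that for every `n` all levels `G` (with Taylor-Wiles primes outside of a finite set `S₀`,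
which may depend on `k` and `n`) carry a module. `InnerLLK` is the same with marks at `p` which kill the
module (`Patching.inner_statement_iff`). (`H85C0`, `H69C0`.) -/
theorem innerLL_iff (W : WeierstrassCurve ℤ) (hΔ : W.Δ ≠ 0) (p : ℕ) [Fact p.Prime]
    (A T : Finset ℕ) (t₀ : Tset T) : H85.C.InnerLL W hΔ p A T t₀ ↔
      ∀ (O : Type) [CommRing O] [IsDomain O] [IsDiscreteValuationRing O]
        [IsAdicComplete (maximalIdeal O) O] [CharZero O] [Finite (ResidueField O)]
        [CharP (ResidueField O) p] [Algebra (ZMod p) (ResidueField O)] (ϖ : O) (a : ℕ) (ζ : O)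
        (_ : CoeffChoice p T O ϖ a ζ)
        (b : Module.Basis (Fin 2) (ResidueField O) ((resZ W hΔ p).baseChange (ResidueField O)).V)
        (pl : ∀ t : Tset T, PlaceData p t.1)
        (_ : ∀ (t : Tset T) (ht : t.1.Prime), (pl t).P = primeLocalPlace ⟨t.1, ht⟩)
        (u : Tset T → O) (_ : ∀ t, u t ^ 2 = 1)
        (_ : ∀ t, toMat ((resZ W hΔ p).baseChange (ResidueField O)).ρ b (pl t).φ =
          residue O (u t) • (1 : M2 (ResidueField O)))
        (plB : ∀ i : Tset (∅ : Finset ℕ), PlaceData p i.1),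
        ∃ (pd : PData p ((resZ W hΔ p).baseChange (ResidueField O)) b), IsEmpty pd.ε ∧
          ∀ k : ℕ, ∃ D : ℕ, ∀ n : ℕ, ∃ S₀ : Finset ℕ, ∀ G : GLev hΔ pd A pl u plB k n S₀,
            Nonempty (TWModPart O ϖ p (numB (Tset T) (Tset (∅ : Finset ℕ)) pd.ε k) n D G.D.R
              (fun t : Tset T => ∏ z ∈ Zset O p T t, (G.r (pl t).σ 0 0 + G.r (pl t).σ 1 1 -
                algebraMap O G.D.R ((z : O) + (z⁻¹ : Oˣ))))
              ((G.r (pl t₀).φ 0 0 + G.r (pl t₀).φ 1 1) ^ 2 - ((t₀.1 : G.D.R) + 1) ^ 2)) :=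
  Iff.rfl

/-- **The inner statement from a condition at `p` without marks** (`hP`: there is a condition `pd` at `p`
without marks satisfied by the representations over the Hecke rings of all levels `L` with `p² ∤ L` and
(`p ∣ L ↔ p ∣ M`)). This is `module_of_level` for all levels. (`H85C2`.) -/
theorem inner_without_marks {W : WeierstrassCurve ℤ} (hΔ : W.Δ ≠ 0) {p : ℕ} [Fact p.Prime]
    (hp2 : p ≠ 2) (hirrp : W.ModRepIsIrreducible p)
    {A T : Finset ℕ} (hA : ∀ q ∈ A, q.Prime) (hAT : ∀ q ∈ A, q ∉ T) (hTp : ∀ t ∈ T, t.Prime)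
    (hTd : ∀ t ∈ T, p ∣ t - 1) (hTu : ∀ t ∈ T, (resZ W hΔ p).IsUnramifiedAt t)
    {s₁ : ℕ} (haux : H30.S59.Aux W p s₁)
    {M : ℕ} (hM : Squarefree M) (hmod : W.IsResiduallyModularOfLevel p M)
    (hMpr : ∀ q : ℕ, q.Prime → q ∣ M → q = p ∨ q ∈ A ∨ q ∈ T ∨ q = s₁)
    (hTM : ∀ t ∈ T, t ∣ M) (hsM : p = 3 → s₁ ∣ M)
    (t₀ : Tset T) (hnot : ¬ W.IsResiduallyModularOfLevel p (M / t₀.1))
    (hP : ∀ (O : Type) [CommRing O] [IsDomain O] [IsDiscreteValuationRing O]
      [IsAdicComplete (maximalIdeal O) O] [CharZero O] [Finite (ResidueField O)]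
      [CharP (ResidueField O) p] [Algebra (ZMod p) (ResidueField O)] (ϖ : O) (a : ℕ) (ζ : O)
      (_ : CoeffChoice p T O ϖ a ζ)
      (b : Module.Basis (Fin 2) (ResidueField O) ((resZ W hΔ p).baseChange (ResidueField O)).V),
      ∃ pd : PData p ((resZ W hΔ p).baseChange (ResidueField O)) b, IsEmpty pd.ε ∧
        ∀ {L : ℕ} [NeZero L] {S : Finset ℕ}, p ∈ S → (∀ q : ℕ, q.Prime → q ∣ L → q ∈ S) →
          ¬ p ^ 2 ∣ L → (p ∣ L ↔ p ∣ M) →
          ∀ {θ : heckeAlgebra L 2 (↑S : Set ℕ) →+* ResidueField O}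
          (H : HeckeGaloisRepDatum L (↑S : Set ℕ) O θ (heckeLocal L (↑S : Set ℕ) O θ)),
          H.ρ.residual.IsEquiv (((resZ W hΔ p).baseChange (ResidueField O)).baseChangeAlong
            (ResidueField.map (algebraMap O (heckeLocal L (↑S : Set ℕ) O θ)))) → pd.𝒟p H.ρ) :
    H85.C.InnerLL W hΔ p A T t₀ :=
  H85.C.innerLL_of hΔ hp2 hirrp S29.result S34.result (H4.geomInputs Fact.out) hA hAT hTp hTd hTu
    haux hM hmod hMpr hTM hsM t₀ hnot hP

/-- **The Hecke representations are of type `pd` at `p`** (`H75.D.HeckeType hΔ pd`): for every level `L` with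
`p² ∤ L` the representation over the localised Hecke algebra with residual representation `W[p]` satisfies
the condition `pd` at `p`. (`H75D2`.) -/
theorem heckeType_iff {W : WeierstrassCurve ℤ} (hΔ : W.Δ ≠ 0) {p : ℕ} [Fact p.Prime]
    {O : Type} [CommRing O] [IsDomain O] [IsDiscreteValuationRing O]
    [IsAdicComplete (maximalIdeal O) O] [CharZero O] [Finite (ResidueField O)]
    [Algebra (ZMod p) (ResidueField O)]
    {b : Module.Basis (Fin 2) (ResidueField O) ((resZ W hΔ p).baseChange (ResidueField O)).V}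
    (pd : PData p ((resZ W hΔ p).baseChange (ResidueField O)) b) : H75.D.HeckeType hΔ pd ↔
      ∀ {L : ℕ} [NeZero L] {S : Finset ℕ}, p ∈ S → (∀ q : ℕ, q.Prime → q ∣ L → q ∈ S) →
        ¬ p ^ 2 ∣ L → ∀ {θ : heckeAlgebra L 2 (↑S : Set ℕ) →+* ResidueField O}
        (H : HeckeGaloisRepDatum L (↑S : Set ℕ) O θ (heckeLocal L (↑S : Set ℕ) O θ)),
        H.ρ.residual.IsEquiv (((resZ W hΔ p).baseChange (ResidueField O)).baseChangeAlong
          (ResidueField.map (algebraMap O (heckeLocal L (↑S : Set ℕ) O θ)))) → pd.𝒟p H.ρ :=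
  Iff.rfl

/-- **The marks `t` and `z` vanish at the points** (`H75.D.KillsAt hΔ pd j₀`): for every Galois side `G` of a
level of type `pd`, with Taylor-Wiles primes `Q`, and every squarefree `M₁` prime to `p` and to `Q`, all of
whose multiples are good (`good_iff`), such that `W[p]` is not modular of level `M₁`, the marks `t` and `z`
at `p` vanish at all points of level `M₁ p ∏ Q` (points of a Hecke ring with `θ(T_ℓ) = a_ℓ(W)`). (`H75D2`.) -/
theorem killsAt_iff {W : WeierstrassCurve ℤ} (hΔ : W.Δ ≠ 0) {p : ℕ} [Fact p.Prime]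
    {O : Type} [CommRing O] [IsDomain O] [IsDiscreteValuationRing O]
    [IsAdicComplete (maximalIdeal O) O] [CharZero O] [Finite (ResidueField O)]
    [Algebra (ZMod p) (ResidueField O)]
    {b : Module.Basis (Fin 2) (ResidueField O) ((resZ W hΔ p).baseChange (ResidueField O)).V}
    (pd : PData p ((resZ W hΔ p).baseChange (ResidueField O)) b) (j₀ : pd.ε) :
    H75.D.KillsAt hΔ pd j₀ ↔
      ∀ (A T B : Finset ℕ) (pl : ∀ t : Tset T, PlaceData p t.1) (u : Tset T → O)
        (plB : ∀ i : Tset B, PlaceData p i.1) (k n : ℕ) (S₀ : Finset ℕ)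
        (G : GLev hΔ pd A pl u plB k n S₀) (M₁ : ℕ), Squarefree M₁ → ¬ p ∣ M₁ →
        (∀ M' : ℕ, M₁ ∣ M' → Good M' O) → ¬ W.IsResiduallyModularOfLevel p M₁ →
        (∀ j, ¬ G.qv j ∣ M₁) → ∀ (L : ℕ) [NeZero L] (S : Finset ℕ)
        (θ : heckeAlgebra L 2 (↑S : Set ℕ) →+* ResidueField O)
        (π : G.D.R →ₐ[O] heckeLocal L (↑S : Set ℕ) O θ) (hs : HSide p G.D G.b₁ π),
        (∀ ℓ : ℕ, ℓ.Prime → ℓ ∉ S → W.IsGoodPrimeFor ℓ) →
        (∀ i : Pr (↑S : Set ℕ), θ (TIdx L (↑S : Set ℕ) hs.hLS i) =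
          ((W.apOfModel i.1 : ℤ) : ResidueField O)) →
        VanishAt p hs.hLS π (M₁ * p * ∏ j, G.qv j) (G.mB (Sum.inr j₀) 0) ∧
          VanishAt p hs.hLS π (M₁ * p * ∏ j, G.qv j) (G.mB (Sum.inr j₀) 2) :=
  Iff.rfl

/-- **The inner statement for levels divisible by `p`**, `W[p]` not modular of level `M / p`: it holds if
there is a condition at `p` with one triple of marks which satisfies `HeckeType` and `KillsAt`. Proof:
`module_of_level` with `U` the set of the marks `t`, `z`, and `M₁ = M / p`. (`H85C5`.) -/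
theorem inner_with_marks {W : WeierstrassCurve ℤ} (hΔ : W.Δ ≠ 0) {p : ℕ} [Fact p.Prime]
    (hp2 : p ≠ 2) (hirrp : W.ModRepIsIrreducible p)
    {A T : Finset ℕ} (hA : ∀ q ∈ A, q.Prime) (hAT : ∀ q ∈ A, q ∉ T) (hTp : ∀ t ∈ T, t.Prime)
    (hTd : ∀ t ∈ T, p ∣ t - 1) (hTu : ∀ t ∈ T, (resZ W hΔ p).IsUnramifiedAt t)
    {s₁ : ℕ} (haux : H30.S59.Aux W p s₁)
    {M : ℕ} (hM : Squarefree M) (hmod : W.IsResiduallyModularOfLevel p M)
    (hMpr : ∀ q : ℕ, q.Prime → q ∣ M → q = p ∨ q ∈ A ∨ q ∈ T ∨ q = s₁)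
    (hTM : ∀ t ∈ T, t ∣ M) (hsM : p = 3 → s₁ ∣ M)
    (hpM : p ∣ M) (hnotp : ¬ W.IsResiduallyModularOfLevel p (M / p))
    (t₀ : Tset T) (hnot : ¬ W.IsResiduallyModularOfLevel p (M / t₀.1))
    (hP : ∀ (O : Type) [CommRing O] [IsDomain O] [IsDiscreteValuationRing O]
      [IsAdicComplete (maximalIdeal O) O] [CharZero O] [Finite (ResidueField O)]
      [CharP (ResidueField O) p] [Algebra (ZMod p) (ResidueField O)] (ϖ : O) (a : ℕ) (ζ : O)
      (_ : CoeffChoice p T O ϖ a ζ)
      (b : Module.Basis (Fin 2) (ResidueField O) ((resZ W hΔ p).baseChange (ResidueField O)).V),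
      ∃ (pd : PData p ((resZ W hΔ p).baseChange (ResidueField O)) b) (j₀ : pd.ε),
        (∀ j, j = j₀) ∧ H75.D.HeckeType hΔ pd ∧ H75.D.KillsAt hΔ pd j₀) :
    InnerLLK W hΔ p A T t₀ :=
  H85.C.innerLLK_of_marks hΔ hp2 hirrp S29.result S34.result (H4.geomInputs Fact.out) hA hAT hTp
    hTd hTu haux hM hmod hMpr hTM hsM hpM hnotp t₀ hnot hP

/-! ### 4. The condition at `p`

`MarkElts p φ σ₀`: `φ` is a Frobenius element at the distinguished place above `p` and `σ₀` an element of
its inertia group which fixes the `p`-power roots of the units of the maximal unramified extension of `ℚ_p`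
(in particular the roots of unity) and moves a `p`-th root of `p`. If `W[p]` is ordinary and flat at `p`,
it is trivial at `σ₀`. -/

section AtP

variable {W : WeierstrassCurve ℤ} (hΔ : W.Δ ≠ 0) {p : ℕ} [Fact p.Prime]
  {O : Type} [CommRing O] [IsDomain O] [IsDiscreteValuationRing O]
  [IsAdicComplete (maximalIdeal O) O] [CharZero O] [Finite (ResidueField O)]
  [Algebra (ZMod p) (ResidueField O)]

/-- **Type F.** If `W[p]` is flat at `p` (for example if it is modular of a level prime to `p`,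
`Levels.residual_flat`), the condition "flat at `p`", without marks, contains the representations over the
Hecke rings of all levels prime to `p` (S32). (`hroots` is a property of `CoeffChoice`; `H65C1`.) -/
theorem flat_type
    (b : Module.Basis (Fin 2) (ResidueField O) ((resZ W hΔ p).baseChange (ResidueField O)).V)
    (hpO : (p : O) ∈ maximalIdeal O) (hp2 : p ≠ 2)
    (hroots : ∀ t d : ℤ, ∃ α β : ResidueField O, α + β = t ∧ α * β = d)
    (hflat : (GaloisRepAdic.ofResidualGaloisRep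
      ((resZ W hΔ p).baseChange (ResidueField O))).IsFlatAt p) {inc : Prop} (hinc : ¬ inc) :
    ∃ pd : PData p ((resZ W hΔ p).baseChange (ResidueField O)) b, IsEmpty pd.ε ∧
      ∀ {L : ℕ} [NeZero L] {S : Finset ℕ}, p ∈ S → (∀ q : ℕ, q.Prime → q ∣ L → q ∈ S) →
        ¬ p ^ 2 ∣ L → (p ∣ L ↔ inc) →
        ∀ {θ : heckeAlgebra L 2 (↑S : Set ℕ) →+* ResidueField O}
          (H : HeckeGaloisRepDatum L (↑S : Set ℕ) O θ (heckeLocal L (↑S : Set ℕ) O θ)),
          H.ρ.residual.IsEquiv (((resZ W hΔ p).baseChange (ResidueField O)).baseChangeAlong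
            (ResidueField.map (algebraMap O (heckeLocal L (↑S : Set ℕ) O θ)))) → pd.𝒟p H.ρ :=
  H65.C.letterF_of_flat hΔ b hpO hp2 hroots hflat hinc

/-- **Strictly ordinary.** A residual representation with cyclotomic determinant which is ordinary at `p`
and not trivial at `σ₀` is strictly ordinary: the ratio of the two characters of the decomposition group
is the cyclotomic character. (`H20C1`.) -/
theorem strictly_ordinary_of_mark {k : Type} [Field k] [Finite k] (ρbar : ResidualGaloisRep k)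
    (b : Module.Basis (Fin 2) k ρbar.V)
    (hdet : (GaloisRepAdic.ofResidualGaloisRep ρbar).DetIsCyclotomic p)
    (hord : (GaloisRepAdic.ofResidualGaloisRep ρbar).IsOrdinaryAt p)
    {φ σ₀ : GQ} (hm : MarkElts p φ σ₀) (hne : toMat ρbar.ρ b σ₀ ≠ 1) :
    (GaloisRepAdic.ofResidualGaloisRep ρbar).IsStrictOrdinaryAt p :=
  H20.C.isStrictOrdinaryAt_residual ρbar b hdet hord hm hne

/-- **Type O.** `W` multiplicative at `p` and `W[p]` not trivial at `σ₀`: the condition "strictly ordinary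
at `p`", without marks, contains the representations over the Hecke rings of all levels exactly divisible
by `p` (S33). (`H20C1`.) -/
theorem strict_type
    (b : Module.Basis (Fin 2) (ResidueField O) ((resZ W hΔ p).baseChange (ResidueField O)).V)
    (hpO : (p : O) ∈ maximalIdeal O) (hp2 : p ≠ 2) (hss : W.IsSemistableModel)
    (hbad : (p : ℤ) ∣ W.Δ)
    {φ σ₀ : GQ} (hm : MarkElts p φ σ₀) (hne : (resZ W hΔ p).ρ σ₀ ≠ 1) {inc : Prop} (hinc : inc) :
    ∃ pd : PData p ((resZ W hΔ p).baseChange (ResidueField O)) b, IsEmpty pd.ε ∧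
      ∀ {L : ℕ} [NeZero L] {S : Finset ℕ}, p ∈ S → (∀ q : ℕ, q.Prime → q ∣ L → q ∈ S) →
        ¬ p ^ 2 ∣ L → (p ∣ L ↔ inc) →
        ∀ {θ : heckeAlgebra L 2 (↑S : Set ℕ) →+* ResidueField O}
          (H : HeckeGaloisRepDatum L (↑S : Set ℕ) O θ (heckeLocal L (↑S : Set ℕ) O θ)),
          H.ρ.residual.IsEquiv (((resZ W hΔ p).baseChange (ResidueField O)).baseChangeAlong
            (ResidueField.map (algebraMap O (heckeLocal L (↑S : Set ℕ) O θ)))) → pd.𝒟p H.ρ :=
  H20.C.letterO hΔ b hpO hp2 hss hbad hm hne hinc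

/-- **The marks vanish.** `W[p]` ordinary at `p` and trivial at `σ₀`, with the data `g₀`, `w` of the
ordinary condition with marks (`PData.ord`, see `GuideLiftingGalois`); `M₁` squarefree, prime to `p` and to
the Taylor-Wiles primes `Q`, its multiples good, and `W[p]` not modular of level `M₁`. Then the marks `t` and
`z` vanish at all points of level `M₁ p ∏ Q`. Proof:
`z = 0` for this type. Since `W[p]` is not modular of level `M₁`, the localised cohomology of level `M₁ ∏ Q`
is zero (S29 and the comparison of ranks at Taylor-Wiles primes, `H35InB1`, `H35Rk`), so both traces of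
every eigenclass of level `M₁ p ∏ Q` to level `M₁ ∏ Q` vanish; then the eigenvalue `w + t` of Frobenius on
the unramified quotient satisfies `(w + t)² = 1` (`H75R4`, see `UnitRoot.new_root_point` and
`UnitRoot.t_at_new_point`), and so `t = 0`. (`H75D1`; text helper75.) -/
theorem marks_vanish
    {b : Module.Basis (Fin 2) (ResidueField O) ((resZ W hΔ p).baseChange (ResidueField O)).V}
    {A T B : Finset ℕ} (hpO : (p : O) ∈ maximalIdeal O) [CharP (ResidueField O) p] (hp2 : p ≠ 2)
    (hdet : (GaloisRepAdic.ofResidualGaloisRep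
      ((resZ W hΔ p).baseChange (ResidueField O))).DetIsCyclotomic p)
    (hord : (GaloisRepAdic.ofResidualGaloisRep
      ((resZ W hΔ p).baseChange (ResidueField O))).IsOrdinaryAt p)
    {φ σ₀ : GQ} (hm : MarkElts p φ σ₀)
    (hr0 : toMat ((resZ W hΔ p).baseChange (ResidueField O)).ρ b σ₀ = 1) (w : ℤ) (hw : w ^ 2 = 1)
    {g₀ : (M2 (ResidueField O))ˣ}
    (hg₀ : OrdI p (cj g₀ (toMat ((resZ W hΔ p).baseChange (ResidueField O)).ρ b)))
    (hu : cj g₀ (toMat ((resZ W hΔ p).baseChange (ResidueField O)).ρ b) φ 1 1 =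
      (w : ResidueField O))
    (hirr : W.ModRepIsIrreducible p)
    (hirrk : ((resZ W hΔ p).baseChange (ResidueField O)).IsIrreducible)
    {M₁ : ℕ} (hsq : Squarefree M₁) (hpM₁ : ¬ p ∣ M₁)
    (hg : ∀ M' : ℕ, M₁ ∣ M' → Good M' O) (hno : ¬ W.IsResiduallyModularOfLevel p M₁)
    {pl : ∀ t : Tset T, PlaceData p t.1} {u : Tset T → O} {plB : ∀ i : Tset B, PlaceData p i.1}
    {k n : ℕ} {S₀ : Finset ℕ}
    (G : GLev hΔ (PData.ord hp2 ((resZ W hΔ p).baseChange (ResidueField O)) b hdet hord hm hr0 w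
      hw hg₀ hu) A pl u plB k n S₀)
    (hQ : ∀ j, ¬ G.qv j ∣ M₁)
    {L : ℕ} [NeZero L] {S : Finset ℕ}
    {θ : heckeAlgebra L 2 (↑S : Set ℕ) →+* ResidueField O}
    (π : G.D.R →ₐ[O] heckeLocal L (↑S : Set ℕ) O θ) (hs : HSide p G.D G.b₁ π)
    (hSW : ∀ ℓ : ℕ, ℓ.Prime → ℓ ∉ S → W.IsGoodPrimeFor ℓ)
    (hθ : ∀ i : Pr (↑S : Set ℕ), θ (TIdx L (↑S : Set ℕ) hs.hLS i) =
      ((W.apOfModel i.1 : ℤ) : ResidueField O)) :
    VanishAt p hs.hLS π (M₁ * p * ∏ j, G.qv j) (G.mB (Sum.inr ()) 0) ∧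
      VanishAt p hs.hLS π (M₁ * p * ∏ j, G.qv j) (G.mB (Sum.inr ()) 2) :=
  H75.D.vanishAt_marks hpO hp2 hdet hord hm hr0 w hw hg₀ hu hirr hirrk hsq hpM₁ hg hno G hQ π hs
    hSW hθ

/-- **Type P (at a level divisible by `p`).** `W` multiplicative at `p`, so that `W[p]` is strictly ordinary,
and `W[p]` trivial at `σ₀`: the ordinary condition with one triple of marks at `p` satisfies `HeckeType`
(levels prime to `p`: flat and residually ordinary implies ordinary, S32; levels exactly divisible by `p`: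
S33) and `KillsAt` (`marks_vanish`). (`H75D2`; `H85InA1` for the strict ordinarity.) -/
theorem marked_type
    (b : Module.Basis (Fin 2) (ResidueField O) ((resZ W hΔ p).baseChange (ResidueField O)).V)
    [CharP (ResidueField O) p] (hpO : (p : O) ∈ maximalIdeal O)
    (hp2 : p ≠ 2) (hirr : W.ModRepIsIrreducible p) (hss : W.IsSemistableModel)
    (hbad : (p : ℤ) ∣ W.Δ) {φ σ₀ : GQ} (hm : MarkElts p φ σ₀) (h1 : (resZ W hΔ p).ρ σ₀ = 1) :
    ∃ (pd : PData p ((resZ W hΔ p).baseChange (ResidueField O)) b) (j₀ : pd.ε),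
      (∀ j, j = j₀) ∧ H75.D.HeckeType hΔ pd ∧ H75.D.KillsAt hΔ pd j₀ :=
  H75.D.exists_pd_of_multiplicative hΔ b hpO hp2 hirr hss hbad hm h1

end AtP

/-! ### 5. The cases

`H69C.TWCond W hΔ p` is the Taylor-Wiles condition (`Levels.taylor_wiles_condition`). -/

section Cases

variable {W : WeierstrassCurve ℤ} {hΔ : W.Δ ≠ 0} {p : ℕ} [Fact p.Prime] {M s : ℕ}
  {A T : Finset ℕ}

/-- **Level prime to `p`** (type F, all `W`). (`H2C38N`.) -/
theorem case_level_prime_to_p (hp2 : p ≠ 2) (hTW : H69C.TWCond W hΔ p)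
    (hirr : W.ModRepIsIrreducible p) (D : H2C.LLData W hΔ p M s A T) (hpM : ¬ p ∣ M) {t₀ : ℕ}
    (ht₀ : t₀ ∈ T) : W.IsResiduallyModularOfLevel p (M / t₀) :=
  by_contra fun hnot => H2C.false_flat hp2 hTW hirr D hpM ht₀ hnot

/-- **`p ∣ M`, `W` multiplicative at `p`, `W[p]` not trivial at `σ₀`** (type O). (`H2C38N`.) -/
theorem case_strict (hp2 : p ≠ 2) (hTW : H69C.TWCond W hΔ p) (hss : W.IsSemistableModel)
    (hirr : W.ModRepIsIrreducible p) (D : H2C.LLData W hΔ p M s A T) (hpM : p ∣ M) {t₀ : ℕ}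
    (ht₀ : t₀ ∈ T) (hbad : (p : ℤ) ∣ W.Δ) {φ σ₀ : GQ} (hm : MarkElts p φ σ₀)
    (hne : (resZ W hΔ p).ρ σ₀ ≠ 1) : W.IsResiduallyModularOfLevel p (M / t₀) :=
  by_contra fun hnot => H2C.false_strict hp2 hTW hss hirr D hpM ht₀ hnot hbad hm hne

/-- **`p ∣ M`, `W` multiplicative at `p`, `W[p]` trivial at `σ₀`** (marks). (`H2C38O`.) -/
theorem case_marks (hp2 : p ≠ 2) (hTW : H69C.TWCond W hΔ p) (hss : W.IsSemistableModel)
    (hirr : W.ModRepIsIrreducible p) (D : H2C.LLData W hΔ p M s A T) (hpM : p ∣ M) {t₀ : ℕ}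
    (ht₀ : t₀ ∈ T) (hbad : (p : ℤ) ∣ W.Δ) {φ σ₀ : GQ} (hm : MarkElts p φ σ₀)
    (h1 : (resZ W hΔ p).ρ σ₀ = 1) : W.IsResiduallyModularOfLevel p (M / t₀) :=
  by_contra fun hnot => H2C.false_marks hp2 hTW hss hirr D hpM ht₀ hnot hbad hm h1

/-- **The theorem for levels prime to `p`** (`H69C.NoLLF`, in contrapositive form), which needs no
hypothesis on the reduction of `W`; it is used to treat `p ∣ M` when `W` is good at `p`. (`H69C3`.) -/
theorem levels_prime_to_p (hp2 : p ≠ 2) (hTW : H69C.TWCond W hΔ p)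
    (hirr : W.ModRepIsIrreducible p) (hM : Squarefree M) (hpM : ¬ p ∣ M)
    (hmod : W.IsResiduallyModularOfLevel p M) (H : H57.S59.ResHypB W hΔ p A T ∅ (fun _ => 1))
    (haux : H30.S59.Aux W p s) (hs : p = 3 → s ∣ M)
    (hcov : ∀ q : ℕ, q.Prime → q ∣ M → q ∈ A ∨ q ∈ T ∨ q = s) (hT : ∀ q ∈ T, q ∣ M) {t₀ : ℕ}
    (ht₀ : t₀ ∈ T) : W.IsResiduallyModularOfLevel p (M / t₀) :=
  by_contra fun hnot =>
    H69C.noLLF hp2 hTW hirr M s A T hM hpM hmod H haux hs hcov hT t₀ ht₀ hnot

/-- **Removal of one unramified prime** `q ≠ p` from a squarefree level prime to `p`, `W` semistable: the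
statement of S38 for these levels, by Mazur's principle and the previous theorem (as in
`Levels.lower_of_noLL`). (`H69C3`.) -/
theorem lower_prime_to_p (hp2 : p ≠ 2) (hTW : H69C.TWCond W hΔ p) (hW : W.IsSemistableModel)
    (hirr : W.ModRepIsIrreducible p) {q : ℕ} (hq : q.Prime) (hqp : q ≠ p) (hqM : q ∣ M)
    (hM : Squarefree M) (hpM : ¬ p ∣ M) (hunr : (resZ W hΔ p).IsUnramifiedAt q)
    (hres : W.IsResiduallyModularOfLevel p M) : W.IsResiduallyModularOfLevel p (M / q) :=
  H69C.lower_F (H69C.noLLF hp2 hTW hirr) hp2 hW hirr hq hqp hqM hM hpM hunr hres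

/-- **Removal of all unramified primes.** If `W[p]` is modular of a squarefree level `N` prime to `p`, then
also of a level `N' ∣ N` such that `W[p]` is ramified at all primes dividing `N'`. For `W` good at `p` this
is applied to `N` = the product of the bad primes of `W` (`W` is modular of this level, as in S60) and gives
`Levels.level_div_p_of_good`: `p` can be removed from the level. (`H69C3`.) -/
theorem exists_ramified_level (hp2 : p ≠ 2) (hTW : H69C.TWCond W hΔ p) (hW : W.IsSemistableModel)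
    (hirr : W.ModRepIsIrreducible p) (N : ℕ) (hN : Squarefree N) (hpN : ¬ p ∣ N)
    (hmod : W.IsResiduallyModularOfLevel p N) :
    ∃ N' : ℕ, N' ∣ N ∧ W.IsResiduallyModularOfLevel p N' ∧
      ∀ q : ℕ, q.Prime → q ∣ N' → ¬ (resZ W hΔ p).IsUnramifiedAt q :=
  H69C.exists_ramified_level (H69C.noLLF hp2 hTW hirr) hp2 hW hirr N hN hpN hmod

/-- **The four cases together** (`H2C.NoLL W hΔ p`, unfolded in `Levels.noLL_iff`): `p ∤ M`; `p ∣ M` and `W`
multiplicative at `p`, two cases by the value of `W[p]` at `σ₀`; `p ∣ M` and `W` good at `p`, which by the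
removal of `p` contradicts the hypothesis on the level `M / p` (`hmin` of `Levels.LL_all_odd`). (`H2C38O`.) -/
theorem all_cases (hp2 : p ≠ 2) (hTW : H69C.TWCond W hΔ p) (hss : W.IsSemistableModel)
    (hirr : W.ModRepIsIrreducible p) : H2C.NoLL W hΔ p :=
  H2C.noLL_of_tw hp2 hTW hss hirr

end Cases

end Fermat.Agent.Guide.LevelsOdd
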