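import Fermat.Agent.S15

/-!
# Reader's guide: the Jacobian `J₀(N)` in the proof of S15 (general facts)

Every theorem of this file is a citation of a theorem of the library with its statement written out.

**What the block does.**  The abstract descent (`GuideMazurDescent`) needs a list of properties of the group
`J = J₀(N)(ℚ̄)`, of its Galois and Hecke action and of the kernels of reduction.  This file contains those
which hold for all classes; the properties of the Eisenstein part of the torsion (its size, its part in the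
kernel of reduction, its inertia invariants) are in `GuideEisenstein`.  `heckeGen_smul`,
`galois_hecke_comm`, `reduction_exists`, `eichler_shimura`, `kernel_hecke_stable` and `kernel_divisible` are
also used in other blocks, in particular in the level lowering (S38-S40).  The proofs of `kernel_divisible`
and `kernel_norm` are explained in `GuideKernel`, that of `kernel_hecke_stable` in `GuideHeckeReduction`.

**Conventions.**
* `J₀(N)` is `JZero N`, the divisor classes of degree zero of the field `modularFunctionFieldBar N` of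
  modular functions over `ℚ̄`, inside `ℚ̄((q))`.  No varieties and no schemes occur.
* For a place `A` of `ℚ̄` (a valuation ring) with residue field `k`, `reductionModL A N` is the reduction map
  from `JZero N` to the divisor classes of the function field of `X₀(N)` over `k`, inside `k((q))`, and
  `H15.KJ N A` is its kernel.
* `HeckeAlg = ℤ[X_ℓ]` acts on `JZero N` by the Hecke correspondences; `GQ` is the Galois group of `ℚ`.

**Reading order.**  Section 1: the objects.  Section 2: the facts used in S15.  NOTES [129]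
(overview), [119], [153] (kernel of reduction), [128], [117] (S18), [294]; compare `GuideFunctionField`.
Everything is in the closure of S15 (hence of S12, S09, S03, S01).
-/

set_option autoImplicit false

namespace Fermat.Agent.Guide.MazurJacobian

open ModularCurve AlgebraicCurve
open Fermat.Agent.H15 (Qb GQ)

/-! ## Section 1.  The objects

The Hecke action `heckeModuleBar N` is not a global instance; it is made a local instance here, as well as
the theorem that it commutes with the Galois action. -/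

attribute [local instance] heckeModuleBar H67.smulCommClass_heckeAlg

/-- **The function field.**  `modularFunctionFieldBar N` is generated over `ℚ̄` by the image of the field
`ℚ(j(q^d) : d ∣ N)` of Laurent series with rational coefficients; `jq` is the `q`-expansion of `j`, and
`qExpand ℚ d` substitutes `q^d` for `q`. -/
theorem functionField_eq (N : ℕ) : modularFunctionFieldBar N = IntermediateField.adjoin Qb
    (coeffEmb Qb '' (IntermediateField.adjoin ℚ
      {x : LaurentSeries ℚ | ∃ (d : ℕ) (_ : NeZero d), d ∣ N ∧ x = qExpand ℚ d jq})) :=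
  rfl

/-- **Hecke action.**  The Hecke operators of all primes commute, and the variable `heckeGen ℓ` acts as the
Hecke correspondence `T_ℓ` (`U_ℓ` if `ℓ ∣ N`).  File `H67Comm`; steps in `GuideMazurSteps`, section 8. -/
theorem heckeGen_smul (N : ℕ) [NeZero N] (ℓ : Nat.Primes) (x : JZero N) :
    (∀ ℓ' : Nat.Primes, heckeOperatorBar N ℓ * heckeOperatorBar N ℓ' =
      heckeOperatorBar N ℓ' * heckeOperatorBar N ℓ) ∧ heckeGen ℓ • x = heckeOperatorBar N ℓ x :=
  ⟨fun ℓ' => H67.heckeOperatorsCommuteBar N ℓ ℓ',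
    heckeModuleBar_heckeGen_smul (H67.heckeOperatorsCommuteBar N) ℓ x⟩

/-- **Hecke and Galois commute.**  File `H67Galois`. -/
theorem galois_hecke_comm (N : ℕ) [NeZero N] (σ : GQ) (t : HeckeAlg) (x : JZero N) :
    σ • t • x = t • σ • x :=
  (H67.smulCommClass_heckeAlg N).smul_comm σ t x

/-- Unfolding of `H15.KJ`: the kernel of the reduction map. -/
theorem mem_kernel_iff (N : ℕ) [NeZero N] (A : ValuationSubring Qb) (x : JZero N) :
    x ∈ H15.KJ N A ↔ reductionModL A N x = 0 :=
  Iff.rfl

set_option synthInstance.maxHeartbeats 400000 in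
/-- **The reduction exists** at every place `A` above a prime `ℓ ∤ N`: there is a map from the places over
`ℚ̄` to the places over the residue field `k` which preserves degrees and the divisors of all functions with
integral, nonzero reduction, and such functions generate all principal divisors.  (The map `reductionModL`
of the Prelude is then the induced map on divisor classes, and not the zero map.)  File `H17Unr`. -/
theorem reduction_exists (N : ℕ) [NeZero N] {ℓ : ℕ} (hℓ : ℓ.Prime) (hℓN : ¬ ℓ ∣ N)
    (A : ValuationSubring Qb) (hA : A.LiesOverPrime ℓ) :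
    ∃ r : Place Qb (modularFunctionFieldBar N) →
        Place (IsLocalRing.ResidueField A) (modularFunctionFieldFullC (IsLocalRing.ResidueField A) N),
      IsPlaceReductionAlong A (IsLocalRing.residue A) N r ∧
        PrincipalGeneratedByIntegral A (IsLocalRing.residue A) N :=
  H17.reductionInputs N hℓ hℓN A hA

/-! ## Section 2.  General facts

The first five theorems contain the seven fields of `H15.BasicInputs`, proved in `H17Basic`. -/

/-- Every class is defined over a number field: its stabiliser is open. -/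
theorem smooth (N : ℕ) [NeZero N] (x : JZero N) : IsOpen {σ : GQ | σ • x = x} :=
  (H17.basic N).smooth x

/-- Torsion: `J₀(N)(ℚ̄)[m]` is finite (because `Γ₀(N)` is finitely generated; `H90Exist`), and `J₀(N)(ℚ̄)`
is divisible (by uniformisation over `ℂ`; `H17DivMod`). -/
theorem torsion_finite_divisible (N : ℕ) [NeZero N] (m : ℕ) (hm : m ≠ 0) :
    {x : JZero N | m • x = 0}.Finite ∧ ∀ x : JZero N, ∃ y : JZero N, m • y = x :=
  ⟨(H17.basic N).torsion_finite m hm, (H17.basic N).divisible m hm⟩

/-- Inertia at a place above `ℓ ∤ N` acts trivially on the reduction; the decomposition group preserves the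
kernel of reduction. -/
theorem inertia_decomposition (N : ℕ) [NeZero N] {ℓ : ℕ} (hℓ : ℓ.Prime) (hℓN : ¬ ℓ ∣ N)
    (A : ValuationSubring Qb) (hA : A.LiesOverPrime ℓ) :
    (∀ σ ∈ A.inertiaSubgroupIn ℚ, ∀ x : JZero N, σ • x - x ∈ H15.KJ N A) ∧
      ∀ σ ∈ A.decompositionSubgroup ℚ, ∀ x ∈ H15.KJ N A, σ • x ∈ H15.KJ N A :=
  ⟨(H17.basic N).inertia ℓ hℓ hℓN A hA, (H17.basic N).galois ℓ hℓ hℓN A hA⟩

/-- **Eichler-Shimura.**  For `ℓ ∤ N`, `A` above `ℓ` and a Frobenius element `σ` at `A`, the operator
`σ² - T_ℓ σ + ℓ` maps `J₀(N)` into the kernel of reduction.  File `H17Basic` (`exists_core_modL`), by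
`q`-expansions. -/
theorem eichler_shimura (N : ℕ) [NeZero N] {ℓ : ℕ} (hℓ : ℓ.Prime) (hℓN : ¬ ℓ ∣ N)
    (A : ValuationSubring Qb) (hA : A.LiesOverPrime ℓ) (σ : GQ) (hσ : A.IsFrobeniusAt σ ℓ) (x : JZero N) :
    σ • σ • x - heckeGen ⟨ℓ, hℓ⟩ • σ • x + ℓ • x ∈ H15.KJ N A :=
  (H17.basic N).frob ℓ hℓ hℓN A hA σ hσ x

/-- **Injectivity on torsion prime to `ℓ`** (S18): a class in the kernel of reduction at a place above
`ℓ ∤ N`, killed by an integer prime to `ℓ`, is zero. -/
theorem torsion_injective (N : ℕ) [NeZero N] {ℓ : ℕ} (hℓ : ℓ.Prime) (hℓN : ¬ ℓ ∣ N)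
    (A : ValuationSubring Qb) (hA : A.LiesOverPrime ℓ) (m : ℕ) (hm : ¬ ℓ ∣ m) (x : JZero N)
    (hx : x ∈ H15.KJ N A) (hmx : m • x = 0) : x = 0 :=
  (H17.basic N).torsion_inj ℓ hℓ hℓN A hA m hm x hx hmx

/-- The kernels of reduction are stable under all Hecke operators.  File `H18HkTop`. -/
theorem kernel_hecke_stable (N : ℕ) [NeZero N] {ℓ : ℕ} (hℓ : ℓ.Prime) (hℓN : ¬ ℓ ∣ N)
    (A : ValuationSubring Qb) (hA : A.LiesOverPrime ℓ) (t : HeckeAlg) :
    ∀ x ∈ H15.KJ N A, t • x ∈ H15.KJ N A :=
  H18.heckeRed N ℓ hℓ hℓN A hA t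

/-- Every class is congruent modulo the kernel of reduction to a class fixed by inertia.  File
`H17SurjRed`. -/
theorem lift_inertia_invariant (N : ℕ) [NeZero N] {ℓ : ℕ} (hℓ : ℓ.Prime) (hℓN : ¬ ℓ ∣ N)
    (A : ValuationSubring Qb) (hA : A.LiesOverPrime ℓ) (x : JZero N) :
    ∃ y : JZero N, (∀ σ ∈ A.inertiaSubgroupIn ℚ, σ • y = y) ∧ x - y ∈ H15.KJ N A :=
  H17.surjRed N ℓ hℓ hℓN A hA x

/-- **The kernels of reduction are divisible** by every prime `p`, including `p = ℓ`.  (Replaces the formal
group: for every large `m` there are `ξ` in the kernel and elements `γ_i` of inertia with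
`x = ∑_{i<m} γ_i ξ`; if `p ∣ m` and `ξ = p η`, then `y = ∑ γ_i η` is in the kernel.)  File `H17DivRed`. -/
theorem kernel_divisible (N : ℕ) [NeZero N] {ℓ : ℕ} (hℓ : ℓ.Prime) (hℓN : ¬ ℓ ∣ N)
    (A : ValuationSubring Qb) (hA : A.LiesOverPrime ℓ) (p : ℕ) (hp : p.Prime) :
    ∀ x ∈ H15.KJ N A, ∃ y ∈ H15.KJ N A, p • y = x :=
  H17.divRed N ℓ hℓ hℓN A hA p hp

/-- The reduction is a torsion group (class groups of function fields over finite fields are finite).  File
`H95TorsRed`. -/
theorem reduction_torsion (N : ℕ) [NeZero N] {ℓ : ℕ} (hℓ : ℓ.Prime) (hℓN : ¬ ℓ ∣ N)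
    (A : ValuationSubring Qb) (hA : A.LiesOverPrime ℓ) (x : JZero N) :
    ∃ m : ℕ, m ≠ 0 ∧ m • x ∈ H15.KJ N A :=
  H95.torsRed N ℓ hℓ hℓN A hA x

/-- **Norms.**  An inertia invariant class `x` in the kernel of reduction at a good place is, for every `m`, a
norm `∑_{j<m} φ^{sj} y` of an inertia invariant class `y` of the kernel, `φ` a Frobenius element, `s` as
divisible as one likes.  Files `H17NrmKer`, `H17NrmMain` (`H17Norm3` puts them together). -/
theorem kernel_norm (N : ℕ) [NeZero N] {ℓ : ℕ} (hℓ : ℓ.Prime) (hℓN : ¬ ℓ ∣ N)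
    (A : ValuationSubring Qb) (hA : A.LiesOverPrime ℓ) (φ : GQ) (hφ : A.IsFrobeniusAt φ ℓ) (x : JZero N)
    (hx : x ∈ H15.KJ N A) (hinv : ∀ σ ∈ A.inertiaSubgroupIn ℚ, σ • x = x)
    (m s₀ : ℕ) (hm : 0 < m) (hs₀ : 0 < s₀) :
    ∃ s : ℕ, 0 < s ∧ s₀ ∣ s ∧ ∃ y ∈ H15.KJ N A, (∀ σ ∈ A.inertiaSubgroupIn ℚ, σ • y = y) ∧
      x = ∑ j ∈ Finset.range m, (φ ^ (s * j)) • y :=
  H17.t_norm N ℓ hℓ hℓN A hA φ hφ x hx hinv m s₀ hm hs₀

/-- **`1 + q - T_q` is almost invertible** on torsion, `q ∤ N` (as the eigenvalues of `T_q` on cusp forms have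
absolute value `< q + 1`): some Hecke operator `t` satisfies `t (1 + q - T_q) = m ≠ 0` on all torsion
classes.  File `H94NoEis`. -/
theorem not_eisenstein (N : ℕ) [NeZero N] (hN : N.Prime) (q : Nat.Primes) (hq : ¬ (q : ℕ) ∣ N) :
    ∃ (t : HeckeAlg) (m : ℕ), m ≠ 0 ∧ ∀ x : JZero N, (∃ d : ℕ, d ≠ 0 ∧ d • x = 0) →
      t • ((1 + (q : ℕ)) • x - heckeGen q • x) = m • x :=
  H94.NE.noEis N hN q hq

/-- **Semistability at `N`.**  If `d R` is fixed by the inertia group `I` at a place above `N`, `N ∤ d`, then
`(τ - 1)(σ - 1) R = 0` for `σ, τ ∈ I`.  From the reduction of `X₀(N)` with two components (`GuideBadRed`,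
`GuideTwoSheets`).  Files `H80SS`, `H80SSAbs`, `H89Inst`. -/
theorem semistable (N : ℕ) [NeZero N] (hN : N.Prime) (A : ValuationSubring Qb) (hA : A.LiesOverPrime N)
    (σ : GQ) (hσ : σ ∈ A.inertiaSubgroupIn ℚ) (τ : GQ) (hτ : τ ∈ A.inertiaSubgroupIn ℚ)
    (d : ℕ) (hd : ¬ N ∣ d) (R : JZero N) (hR : ∀ ρ ∈ A.inertiaSubgroupIn ℚ, ρ • (d • R) = d • R) :
    τ • (σ • R - R) = σ • R - R :=
  H80.SS.ss N hN A hA σ hσ τ hτ d hd R hR

end Fermat.Agent.Guide.MazurJacobian
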