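import Mathlib
import Fermat.Prelude.Def_GaloisRep_Flat
import Fermat.Prelude.Def_GaloisRep_StrictOrdinary

/-!
# Guide to the notions of the frozen statements, part 3: Galois representations

Continuation of `GuideNotions` and `GuideNotionsForms`.  Section 1: representations over fields (S29,
S31 - S34, S36, S38, S53, S54, S56).  Section 2: representations over local rings (S30 - S36, S53, S54, S56).
Section 3: local conditions (S30 - S34, S36, S56).  Deformations and cohomology are in part 4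
(`GuideNotionsDeformations`); theorems about places, inertia and Frobenius elements in `GuideAbsGal`.

In all sections `Qb` is the fixed algebraic closure of `ℚ` and `Qb ≃ₐ[ℚ] Qb` its Galois group; `A` or `P` is a
place of `Qb` (a valuation subring, see section 2 of `GuideNotions`).
-/

set_option autoImplicit false

open Polynomial IsLocalRing
open scoped TensorProduct WeierstrassCurve.Affine

namespace Fermat.Agent.Guide.NotionsGalois

/-- An algebraic closure of `ℚ`. -/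
local notation "Qb" => AlgebraicClosure ℚ

/-! ## Section 1: two-dimensional representations over a field -/

/-- **A `ResidualGaloisRep k`** is a vector space `V` of dimension two over `k` with a homomorphism `ρ` from
the Galois group to its endomorphisms which is trivial on the automorphisms fixing some finite extension `L`
of `ℚ`: its constituents have these properties, and every such `V` and `ρ` define one. -/
theorem residual_rep (k : Type) [Field k] :
    (∀ ρ : ResidualGaloisRep k, Module.finrank k ρ.V = 2 ∧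
      ∃ L : IntermediateField ℚ Qb, FiniteDimensional ℚ L ∧
        ∀ σ : Qb ≃ₐ[ℚ] Qb, (∀ x ∈ L, σ x = x) → ρ.ρ σ = 1) ∧
    ∀ (V : Type) [AddCommGroup V] [Module k V] (r : (Qb ≃ₐ[ℚ] Qb) →* Module.End k V),
      Module.finrank k V = 2 →
      (∃ L : IntermediateField ℚ Qb, FiniteDimensional ℚ L ∧
        ∀ σ : Qb ≃ₐ[ℚ] Qb, (∀ x ∈ L, σ x = x) → r σ = 1) →
      ∃ ρ : ResidualGaloisRep k, ∃ e : V ≃ₗ[k] ρ.V, ∀ σ v, e (r σ v) = ρ.ρ σ (e v) :=
  ⟨fun ρ => ⟨ρ.finrank_eq, ρ.factorsThroughFiniteLevel⟩,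
    fun V _ _ r h2 hL => ⟨⟨V, h2, r, hL⟩, LinearEquiv.refl k V, fun _ _ => rfl⟩⟩

/-- **Unramified at `q`** (S29, S38, S56): the inertia groups at all places over `q` act trivially. -/
theorem residual_unramified_iff {k : Type} [Field k] (ρ : ResidualGaloisRep k) (q : ℕ) :
    ρ.IsUnramifiedAt q ↔ ∀ A : ValuationSubring Qb, A.LiesOverPrime q →
      ∀ σ ∈ A.inertiaSubgroupIn ℚ, ρ.ρ σ = 1 :=
  Iff.rfl

/-- **Attached to an eigenform** `f` of level `N` (S29), for a homomorphism `φ` from the ring of all algebraic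
integers to `k`: for the primes `ℓ ∤ N`, `ℓ ≠ 0` in `k`, the characteristic polynomial of the Frobenius
elements at `ℓ` is `X² - φ(a_ℓ(f)) X + ℓ` (in particular `a_ℓ(f)` is an algebraic integer). -/
theorem attached_iff {k : Type} [Field k] (ρ : ResidualGaloisRep k) {N : ℕ}
    (f : CuspForm (CongruenceSubgroup.Gamma0 N) 2) (φ : integralClosure ℤ ℂ →+* k) :
    ρ.IsAttachedTo f φ ↔ ∀ ℓ : ℕ, ℓ.Prime → ¬ ℓ ∣ N → (ℓ : k) ≠ 0 →
      ∀ A : ValuationSubring Qb, A.LiesOverPrime ℓ → ∀ σ : Qb ≃ₐ[ℚ] Qb, A.IsFrobeniusAt σ ℓ →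
        ∃ a : integralClosure ℤ ℂ, (a : ℂ) = ModularFormClass.qCoeff f ℓ ∧
          LinearMap.charpoly (ρ.ρ σ) = X ^ 2 - C (φ a) * X + C ((ℓ : k)) :=
  Iff.rfl

/-- **Odd** (S36): the automorphisms of order two (the complex conjugations) have determinant `-1` (which is
`1` in characteristic two). -/
theorem odd_iff {k : Type} [Field k] (ρ : ResidualGaloisRep k) :
    ρ.IsOdd ↔ ∀ c : Qb ≃ₐ[ℚ] Qb, c * c = 1 → c ≠ 1 → LinearMap.det (ρ.ρ c) = -1 :=
  Iff.rfl

/-- **Base change** of a representation along a field extension `k'` of `k`: the space is `k' ⊗ V`. -/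
theorem base_change_apply {k : Type} [Field k] (k' : Type) [Field k'] [Algebra k k']
    (ρ : ResidualGaloisRep k) (σ : Qb ≃ₐ[ℚ] Qb) (c : k') (v : ρ.V) :
    (ρ.baseChange k').V = (k' ⊗[k] ρ.V) ∧ (ρ.baseChange k').ρ σ (c ⊗ₜ v) = c ⊗ₜ (ρ.ρ σ v) :=
  ⟨rfl, rfl⟩

/-- **Base change along a homomorphism** `φ : k → k'` of fields (S53, S54, S56) is the base change `k' ⊗ V`
for the algebra structure given by `φ`. -/
theorem residual_base_change_along {k k' : Type} [Field k] [Field k'] (φ : k →+* k')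
    (ρ : ResidualGaloisRep k) :
    ρ.baseChangeAlong φ = (letI : Algebra k k' := φ.toAlgebra; ρ.baseChange k') :=
  rfl

/-- **Absolutely irreducible** (S31 - S34, S36, S53, S54, S56): over an algebraic closure of `k` there are no
stable subspaces except `0` and the whole space. -/
theorem absolutely_irreducible_iff {k : Type} [Field k] (ρ : ResidualGaloisRep k) :
    ρ.IsAbsolutelyIrreducible ↔ ∀ W : Submodule (AlgebraicClosure k) (AlgebraicClosure k ⊗[k] ρ.V),
      (∀ σ : Qb ≃ₐ[ℚ] Qb, ∀ x ∈ W, (ρ.ρ σ).baseChange (AlgebraicClosure k) x ∈ W) →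
        W = ⊥ ∨ W = ⊤ :=
  Iff.rfl

/-- **Isomorphism** of representations over a field. -/
theorem residual_equiv_iff {k : Type} [Field k] (ρ₁ ρ₂ : ResidualGaloisRep k) :
    ρ₁.IsEquiv ρ₂ ↔ ∃ e : ρ₁.V ≃ₗ[k] ρ₂.V, ∀ (σ : Qb ≃ₐ[ℚ] Qb) (x : ρ₁.V),
      e (ρ₁.ρ σ x) = ρ₂.ρ σ (e x) :=
  ⟨fun ⟨e⟩ => ⟨e.1, e.2⟩, fun ⟨e, h⟩ => ⟨⟨e, h⟩⟩⟩

/-- **The representation on the `p`-torsion of an elliptic curve** (S38): the space is `W[p]` over an
algebraic closure with the Galois action on the points. -/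
theorem residual_rep_of_curve (W : WeierstrassCurve ℚ) (p : ℕ) [Fact p.Prime]
    (hcard : Nat.card (Submodule.torsionBy ℤ (W⁄Qb).Point p) = p ^ 2)
    (hker : GaloisFactorsThroughFiniteLevel
      (WeierstrassCurve.Affine.Point.galoisRepModuleEnd (K := Qb) ℚ W p))
    (σ : Qb ≃ₐ[ℚ] Qb) (x : Submodule.torsionBy ℤ (W⁄Qb).Point p) :
    (W.residualGaloisRepOf p hcard hker).V = Submodule.torsionBy ℤ (W⁄Qb).Point p ∧
      (W.residualGaloisRepOf p hcard hker).ρ σ x = σ • x :=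
  ⟨rfl, rfl⟩

/-! ## Section 2: two-dimensional representations over a local ring -/

/-- **A `GaloisRepAdic A`**, `A` a local ring with maximal ideal `𝔪`, is a free module `V` of rank two with a
homomorphism `ρ` from the Galois group to its endomorphisms which is continuous: for every `n` there is a
finite extension `L` of `ℚ` such that the automorphisms fixing `L` act trivially on `V / 𝔪ⁿ V`. -/
theorem adic_rep {A : Type} [CommRing A] [IsLocalRing A] (ρ : GaloisRepAdic A) :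
    Module.Free A ρ.V ∧ Module.Finite A ρ.V ∧ Module.finrank A ρ.V = 2 ∧
      ∀ n : ℕ, ∃ L : IntermediateField ℚ Qb, FiniteDimensional ℚ L ∧
        ∀ σ : Qb ≃ₐ[ℚ] Qb, (∀ x ∈ L, σ x = x) →
          ∀ v : ρ.V, ρ.ρ σ v - v ∈ (maximalIdeal A ^ n) • (⊤ : Submodule A ρ.V) :=
  ⟨inferInstance, inferInstance, ρ.finrank_eq, ρ.isAdicContinuous⟩

/-- **Residual representation** (S31 - S34, S36, S53, S54, S56): the space is `V ⊗ A/𝔪`. -/
theorem residual_apply {A : Type} [CommRing A] [IsLocalRing A] (ρ : GaloisRepAdic A)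
    (σ : Qb ≃ₐ[ℚ] Qb) (c : ResidueField A) (v : ρ.V) :
    ρ.residual.V = (ResidueField A ⊗[A] ρ.V) ∧ ρ.residual.ρ σ (c ⊗ₜ v) = c ⊗ₜ (ρ.ρ σ v) :=
  ⟨rfl, rfl⟩

/-- **Base change along a local homomorphism** `φ : A → B`: the space is `B ⊗ V`. -/
theorem base_change_along {A B : Type} [CommRing A] [IsLocalRing A] [CommRing B] [IsLocalRing B]
    (φ : A →+* B) (hφ : IsLocalHom φ) (ρ : GaloisRepAdic A) (σ : Qb ≃ₐ[ℚ] Qb) :
    letI : Algebra A B := φ.toAlgebra
    (ρ.baseChangeAlong φ hφ).V = (B ⊗[A] ρ.V) ∧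
      ∀ (c : B) (v : ρ.V), (ρ.baseChangeAlong φ hφ).ρ σ (c ⊗ₜ[A] v) = c ⊗ₜ[A] (ρ.ρ σ v) :=
  ⟨rfl, fun _ _ => rfl⟩

/-- A representation over a field `k` is a representation over the local ring `k` (S33, S53, S56). -/
theorem of_residual {k : Type} [Field k] (ρ : ResidualGaloisRep k) (σ : Qb ≃ₐ[ℚ] Qb) :
    (GaloisRepAdic.ofResidualGaloisRep ρ).V = ρ.V ∧
      (GaloisRepAdic.ofResidualGaloisRep ρ).ρ σ = ρ.ρ σ :=
  ⟨rfl, rfl⟩

/-- **Isomorphism** of representations over a local ring. -/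
theorem adic_equiv_iff {A : Type} [CommRing A] [IsLocalRing A] (ρ₁ ρ₂ : GaloisRepAdic A) :
    ρ₁.IsEquiv ρ₂ ↔ ∃ e : ρ₁.V ≃ₗ[A] ρ₂.V, ∀ (σ : Qb ≃ₐ[ℚ] Qb) (x : ρ₁.V),
      e (ρ₁.ρ σ x) = ρ₂.ρ σ (e x) :=
  ⟨fun ⟨e⟩ => ⟨e.1, e.2⟩, fun ⟨e, h⟩ => ⟨⟨e, h⟩⟩⟩

/-! ## Section 3: local conditions -/

/-- **Unramified at `q`** (S30, S31, S56): the inertia groups at all places over `q` act trivially. -/
theorem unramified_iff {A : Type} [CommRing A] [IsLocalRing A] (ρ : GaloisRepAdic A) (q : ℕ) :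
    ρ.IsUnramifiedAt q ↔ ∀ P : ValuationSubring Qb, P.LiesOverPrime q →
      ∀ σ ∈ P.inertiaSubgroupIn ℚ, ρ.ρ σ = 1 :=
  Iff.rfl

/-- **Unipotent on inertia at `q`** (S34, S36, S56): the elements of the inertia groups at the places over `q`
have characteristic polynomial `(X - 1)²`. -/
theorem unipotent_iff {A : Type} [CommRing A] [IsLocalRing A] (ρ : GaloisRepAdic A) (q : ℕ) :
    ρ.IsUnipotentOnInertiaAt q ↔ ∀ P : ValuationSubring Qb, P.LiesOverPrime q →
      ∀ σ ∈ P.inertiaSubgroupIn ℚ, LinearMap.charpoly (ρ.ρ σ) = (X - 1) ^ 2 :=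
  Iff.rfl

/-- **Cyclotomic determinant** (S56): `p` is in the maximal ideal, and if `σ` acts on the `pⁿ`-th roots of
unity by `μ ↦ μ ^ a`, then `det ρ(σ) ≡ a` modulo `pⁿ`. -/
theorem det_cyclotomic_iff {A : Type} [CommRing A] [IsLocalRing A] (ρ : GaloisRepAdic A) (p : ℕ) :
    ρ.DetIsCyclotomic p ↔ (p : A) ∈ maximalIdeal A ∧
      ∀ (n : ℕ) (σ : Qb ≃ₐ[ℚ] Qb) (a : ℕ), (∀ μ : Qb, μ ^ p ^ n = 1 → σ μ = μ ^ a) →
        LinearMap.det (ρ.ρ σ) - (a : A) ∈ Ideal.span {((p ^ n : ℕ) : A)} :=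
  Iff.rfl

/-- **Ordinary at `p`** (S33): for every place over `p` the space has a basis whose first vector spans a line
`L`, stable under the decomposition group, such that inertia acts trivially on `V / L`. -/
theorem ordinary_iff {A : Type} [CommRing A] [IsLocalRing A] (ρ : GaloisRepAdic A) (p : ℕ) :
    ρ.IsOrdinaryAt p ↔ ∀ P : ValuationSubring Qb, P.LiesOverPrime p → ∃ L : Submodule A ρ.V,
      (∃ b : Module.Basis (Fin 2) A ρ.V, L = Submodule.span A {b 0}) ∧
      (∀ σ ∈ P.decompositionSubgroup ℚ, ∀ v ∈ L, ρ.ρ σ v ∈ L) ∧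
      (∀ σ ∈ P.inertiaSubgroupIn ℚ, ∀ v : ρ.V, ρ.ρ σ v - v ∈ L) :=
  Iff.rfl

/-- **Strictly ordinary at `p`** (S56): `p` is in the maximal ideal, and the representation is ordinary such
that for `σ` in the decomposition group the scalars `x`, `z` by which `σ` acts on `L` and on `V / L` satisfy
`x = χ(σ) z`, `χ` the cyclotomic character: `x ≡ a z` modulo `pⁿ` if `σ` acts on the `pⁿ`-th roots of unity by
`μ ↦ μ ^ a`. -/
theorem strict_ordinary_iff {A : Type} [CommRing A] [IsLocalRing A] (ρ : GaloisRepAdic A) (p : ℕ) :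
    ρ.IsStrictOrdinaryAt p ↔ (p : A) ∈ maximalIdeal A ∧
      ∀ P : ValuationSubring Qb, P.LiesOverPrime p → ∃ L : Submodule A ρ.V,
        (∃ b : Module.Basis (Fin 2) A ρ.V, L = Submodule.span A {b 0}) ∧
        (∀ σ ∈ P.decompositionSubgroup ℚ, ∀ v ∈ L, ρ.ρ σ v ∈ L) ∧
        (∀ σ ∈ P.inertiaSubgroupIn ℚ, ∀ v : ρ.V, ρ.ρ σ v - v ∈ L) ∧
        (∀ σ ∈ P.decompositionSubgroup ℚ, ∃ x z : A,
          (∀ w ∈ L, ρ.ρ σ w = x • w) ∧ (∀ v : ρ.V, ρ.ρ σ v - z • v ∈ L) ∧
          ∀ (n a : ℕ), (∀ μ : Qb, μ ^ p ^ n = 1 → σ μ = μ ^ a) →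
            x - (a : A) * z ∈ Ideal.span {((p ^ n : ℕ) : A)}) :=
  Iff.rfl

/-- **The ring `ℤ_(p)`** (S19, S28, S32, S56): the rational numbers with denominator prime to `p`. -/
theorem mem_rat_localized_iff (p : ℕ) (x : ℚ) : x ∈ GaloisRep.ratLocalizedAt p ↔ x.den.Coprime p :=
  Iff.rfl

/-- **The action on `V / I V`** in the next definition is the one induced by the action on `V`. -/
theorem level_action_mk {A : Type} [CommRing A] [IsLocalRing A] (ρ : GaloisRepAdic A) (I : Ideal A)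
    (σ : Qb ≃ₐ[ℚ] Qb) (v : ρ.V) :
    ρ.levelAction I σ (Submodule.Quotient.mk v) = Submodule.Quotient.mk (ρ.ρ σ v) :=
  rfl

/-- **Flat at `p`** (S32, S56): the residue field of `A` is finite and for all ideals `I` with `A/I` finite
the Galois module `V / I V` is the group of points `H → Qb` of a commutative finite flat group scheme over
`ℤ_(p)`, that is of a cocommutative Hopf algebra `H` which is finite and flat as a module.  The group law is
the convolution product, the Galois action is composition with `σ`. -/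
theorem flat_iff {A : Type} [CommRing A] [IsLocalRing A] (ρ : GaloisRepAdic A) (p : ℕ) :
    ρ.IsFlatAt p ↔ Finite (ResidueField A) ∧ ∀ I : Ideal A, Finite (A ⧸ I) →
      ∃ (H : Type) (_ : CommRing H) (_ : HopfAlgebra (GaloisRep.ratLocalizedAt p) H),
        Module.Finite (GaloisRep.ratLocalizedAt p) H ∧
        Module.Flat (GaloisRep.ratLocalizedAt p) H ∧
        Coalgebra.IsCocomm (GaloisRep.ratLocalizedAt p) H ∧
        ∃ e : WithConv (H →ₐ[GaloisRep.ratLocalizedAt p] Qb) ≃ (ρ.V ⧸ (I • (⊤ : Submodule A ρ.V))),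
          (∀ f g : WithConv (H →ₐ[GaloisRep.ratLocalizedAt p] Qb), e (f * g) = e f + e g) ∧
          ∀ (σ : Qb ≃ₐ[ℚ] Qb) (f g : WithConv (H →ₐ[GaloisRep.ratLocalizedAt p] Qb)),
            (∀ h : H, g h = σ (f h)) → e g = ρ.levelAction I σ (e f) :=
  Iff.rfl

/-- **The two deformation conditions of S56**, for `p` and a finite set `S` of primes: cyclotomic determinant,
strictly ordinary (respectively flat) at `p`, unramified outside `S`. -/
theorem conditions_iff {𝒪 A : Type} [CommRing 𝒪] [CommRing A] [IsLocalRing A] [Algebra 𝒪 A] (p : ℕ)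
    (S : Finset ℕ) (ρ : GaloisRepAdic A) :
    (GaloisRep.strictOrdinaryCondition 𝒪 p S ρ ↔ ρ.DetIsCyclotomic p ∧ ρ.IsStrictOrdinaryAt p ∧
      ∀ q : ℕ, q.Prime → q ∉ S → ρ.IsUnramifiedAt q) ∧
    (GaloisRep.flatCondition 𝒪 p S ρ ↔ ρ.DetIsCyclotomic p ∧ ρ.IsFlatAt p ∧
      ∀ q : ℕ, q.Prime → q ∉ S → ρ.IsUnramifiedAt q) :=
  ⟨Iff.rfl, Iff.rfl⟩

end Fermat.Agent.Guide.NotionsGalois
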