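import Fermat.Agent.H43ZFin
import Fermat.Agent.H79SCmp

/-!
# Guide, block (C) of S47: norms, convergence, the auxiliary place and the form over `F`, step by step

Companion of `GuideOctCGeom` (theorems `exists_norm`, `contributing`, `matching_v0`), of `GuideOctCLocal`
(section 6, the auxiliary place) and of `GuideOctCSpec` (theorem `form_over_F`); nothing of these files is
repeated, every theorem below is a step of their proofs. It only contains citations of theorems in the
closure of `S47`.

**Order.**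
1. The norm theorem for an elliptic torus: the quadratic algebras `F[γ]`, `E[γ]`, their places, local
   norms, Hasse.
2. Which elements contribute, and absolute convergence.
3. The auxiliary place over a complete field.
4. From the operator equations to the form over `F`.
5. The eigenvalue of the operator of the kernel.

Library files: `H20S6`, `H20S7`, `H20S8` (helper20); `H94VConv`, `H94WNorm`, `H94XFin`, `H94YSetup`
(helper94); `H25ZV0`, `H25ZV0b` (helper25); `H44ZMF`, `H44ZOut`, `H44ZExt1` (helper44); `H56ZTgt3`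
(helper56). Notes: [445] (norms), [456] (convergence, norm condition), [458] (auxiliary place), [480]
(form over `F`).

Notation as in `GuideOctC` (section 1) and `GuideOctCGeom`: `m : Model K J` is a model with space `m.X`,
`a : AutData m` an automorphism (`a.act` its action on `m.X`; `GuideOctCSetup`), `b : GlobKer m.L.fam` a
product of local kernels (`GuideOctCLevel`), `m.ker κ b.k` the test kernel, `above E v` the set of the places
of `E` above `v`, `NonSplit E v` means that it has exactly one element.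
-/

set_option autoImplicit false

open IsDedekindDomain HeightOneSpectrum WithZero NumberField Matrix MeasureTheory
open scoped MatrixGroups ENNReal ComplexConjugate

noncomputable section

namespace Fermat.Agent.Guide.OctCSteps

open Fermat.Agent.H59XF Fermat.Agent.H59D Fermat.Agent.H79S
open Fermat.Agent.H82 (above NonSplit Deep locNorm)
open Fermat.Agent.H20.S47 (QF QE rt mapFE sQ qpol inc lin nm LocOK LocOKP EllReg nP incP)

/-! ## 1. The norm theorem for an elliptic torus

`c` is a matrix over `F` with trace `τ`, determinant `Δ` and no eigenvalue in `F`. The algebra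
`F[c]` is the field `QF τ Δ = F[X] / (X² - τ X + Δ)`, with the root `rt τ Δ`; `QE E τ Δ` is the same
field over `E`, `mapFE` the inclusion of the first in the second, and `sQ s` the automorphism of the
second which is `s` on `E` and fixes the root. (`Fact (Irreducible ...)`: the polynomial is
irreducible.) -/

/-- **The quadratic algebras.** Every element of `K[X] / (X² - τ X + Δ)` is `x + y r` with the root `r`,
and for a matrix `c` of trace `τ` and determinant `Δ` there is a homomorphism to the matrices with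
`x + y r ↦ x + y c` (`lin c x y`). File `H20S6`. -/
theorem quadratic_algebra {K : Type*} [Field K] {τ Δ : K} :
    (∀ z : QF τ Δ, ∃ x y : K, z = algebraMap K (QF τ Δ) x + algebraMap K (QF τ Δ) y * rt τ Δ) ∧
    ∀ (c : Matrix (Fin 2) (Fin 2) K), c.trace = τ → c.det = Δ →
      ∃ f : QF τ Δ →+* Matrix (Fin 2) (Fin 2) K, ∀ x y : K,
        f (algebraMap K (QF τ Δ) x + algebraMap K (QF τ Δ) y * rt τ Δ) = lin c x y :=
  ⟨fun z => H20.S47.exists_lin_qf z, fun c hτ hΔ =>
    ⟨H20.S47.toM c hτ hΔ, fun x y => H20.S47.toM_lin c hτ hΔ x y⟩⟩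

/-- **`E[c] / F[c]` is cyclic of degree three**: it is Galois of degree three, and the norm of `z` is
`z · s(z) · s²(z)`. (A field with an automorphism of order three is cyclic over the fixed field, and
the fixed elements of `E[c]` are in `F[c]`, because the coordinates with respect to `1`, `r` are
unique.) File `H20S6`. -/
theorem cyclic_extension {F E : Type*} [Field F] [Field E] [Algebra F E] {s : E ≃ₐ[F] E} {τ Δ : F}
    [Fact (Irreducible (qpol τ Δ))]
    [Fact (Irreducible (qpol (algebraMap F E τ) (algebraMap F E Δ)))] [FiniteDimensional F E]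
    (h3 : ∀ x, s (s (s x)) = x) (hs : s ≠ AlgEquiv.refl)
    (hfix : ∀ x, s x = x → x ∈ Set.range (algebraMap F E)) :
    IsGalois (QF τ Δ) (QE E τ Δ) ∧ Module.finrank (QF τ Δ) (QE E τ Δ) = 3 ∧
      ∀ z : QE E τ Δ, mapFE E τ Δ (Algebra.norm (QF τ Δ) z) =
        z * sQ s τ Δ z * sQ s τ Δ (sQ s τ Δ z) :=
  H20.S47.cycQ h3 hs hfix

/-- **Places of `F[c]`.** In a tower `F ⊆ K' ⊆ L`, `F ⊆ E ⊆ L` let `σ` be an automorphism of `L` over
`K'` which extends a generator `s` of the Galois group of `E / F`. If a place `v'` of `K'` has only one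
place of `L` above it, the place of `F` below `v'` has only one place of `E` above it: so local
conditions are only needed at the places `v` of `F` with one place of `E` above them. File `H20S7`. -/
theorem nonsplit_place_below {F K' E L : Type*} [Field F] [NumberField F] [Field K'] [NumberField K']
    [Field E] [NumberField E] [Field L] [NumberField L] [Algebra F K'] [Algebra K' L] [Algebra F E]
    [Algebra E L] [Algebra F L] [IsScalarTower F K' L] [IsScalarTower F E L] [IsGalois F E]
    (s : E ≃ₐ[F] E) (hgen : ∀ τ : E ≃ₐ[F] E, ∃ n : ℕ, τ = s ^ n) (σ : L ≃ₐ[K'] L)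
    (hσ : ∀ x : E, σ (algebraMap E L x) = algebraMap E L (s x)) (v' : HeightOneSpectrum (𝓞 K'))
    (h : NonSplit L v') : NonSplit E (H47.below F v') :=
  H20.S47.nonSplit_below s hgen σ hσ v' h

/-- **Ramification in the tower** (`[L : E] = 2`, `[L : K'] = 3`, both Galois). If the place `v` of `F`
below `v'` is unramified in `E`, then `v'` is unramified in `L`: for a place `W` above `v'`, `w` below `W`,
`e(W / v')` divides three, and it divides `e(W / v) = e(W / w)`, which divides two. File `H20S7`. -/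
theorem unramified_in_tower {F K' E L : Type*} [Field F] [NumberField F] [Field K'] [NumberField K']
    [Field E] [NumberField E] [Field L] [NumberField L] [Algebra F K'] [Algebra K' L] [Algebra F E]
    [Algebra E L] [Algebra F L] [IsScalarTower F K' L] [IsScalarTower F E L] [IsGalois K' L]
    [IsGalois E L] (hE : Module.finrank E L = 2) (hK : Module.finrank K' L = 3)
    {v' : HeightOneSpectrum (𝓞 K')}
    (hunr : ∀ w ∈ above E (H47.below F v'),
      (H47.below F v').asIdeal.ramificationIdx' w.asIdeal = 1) :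
    ∀ W ∈ above L v', v'.asIdeal.ramificationIdx' W.asIdeal = 1 :=
  H20.S47.unram_base_change hE hK hunr

/-- **Local norms near one.** `locNorm L v' m = N(Lˣ) (1 + v'^m)` (`GuideClassField`). `Deep ζ 3 v M` means
`exp(-M) < |ζ - 1|³`; then the numbers which are `1` modulo the `M`-th power of the maximal ideal are
local third powers, so local norms, and this passes to places above. Let `a` in `K'` be a root of
`X² - τ X + Δ`. By `h1`, `h2` the equation `ξ² - (τ/z - 2) ξ + (Δ/z² - τ/z + 1) = 0` of `ξ = a / z - 1` has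
coefficients of absolute values at most `exp(-M)`, `exp(-M)²`, so both roots of it have absolute value at
most `exp(-M)`. Hence the quotient `x = a / (τ - a)` of the two roots of `X² - τ X + Δ` is near to one,
and so it is a local norm from `L` at every `v'` above `v`. File `H20S7`. -/
theorem local_norm_near_one {F K' L : Type} [Field F] [NumberField F] [Field K'] [NumberField K']
    [Field L] [NumberField L] [Algebra F K'] [Algebra K' L] {ζ : F} (hζ : IsPrimitiveRoot ζ 3)
    (hdeg : Module.finrank K' L = 3) {v : HeightOneSpectrum (𝓞 F)}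
    {v' : HeightOneSpectrum (𝓞 K')} (hv : v' ∈ above K' v) {M : ℕ} (hM : Deep ζ 3 v M)
    {τ Δ z : F} (hz : z ≠ 0) {a : K'} (ha : a ^ 2 = algebraMap F K' τ * a - algebraMap F K' Δ)
    (h1 : v.valuation F (τ / z - 2) ≤ exp (-(M : ℤ)))
    (h2 : v.valuation F (Δ / z ^ 2 - τ / z + 1) ≤ exp (-(M : ℤ)) ^ 2) {x : K'ˣ}
    (hx : (x : K') * (algebraMap F K' τ - a) = a) (m : ℕ) : x ∈ locNorm L v' m :=
  H20.S47.locNorm_of_deep hζ hdeg hv hM hz ha h1 h2 hx m

/-- **Local norms at unramified places** prime to three. A number is a local norm from the unramified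
cubic extension if and only if its valuation is a multiple of three. If the roots `a`, `τ - a` of
`X² - τ X + Δ` have the same absolute value, their quotient `x` is a unit. Otherwise `|Δ| < |τ|²`, the
two absolute values are `|Δ| / |τ|` and `|τ|`, and by the hypothesis `h` the quotient has absolute
value `exp(± 3k)`, to the power of the ramification index of `v'` over `v`. File `H20S7`. -/
theorem local_norm_unramified {F K' L : Type} [Field F] [NumberField F] [Field K'] [NumberField K']
    [Field L] [NumberField L] [Algebra F K'] [Algebra K' L] {ζ : F} (hζ : IsPrimitiveRoot ζ 3)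
    [IsGalois K' L] (hdeg : Module.finrank K' L = 3) {v : HeightOneSpectrum (𝓞 F)}
    {v' : HeightOneSpectrum (𝓞 K')} (hv : v' ∈ above K' v) (h3 : v.valuation F (3 : F) = 1)
    (hns : NonSplit L v') (hunr : ∀ W ∈ above L v', v'.asIdeal.ramificationIdx' W.asIdeal = 1)
    {τ Δ : F} (hΔ : Δ ≠ 0) {a : K'} (ha : a ^ 2 = algebraMap F K' τ * a - algebraMap F K' Δ)
    (h : v.valuation F τ ^ 2 ≤ v.valuation F Δ ∨
      ∃ k : ℤ, v.valuation F Δ = exp (3 * k) * v.valuation F τ ^ 2) {x : K'ˣ}
    (hx : (x : K') * (algebraMap F K' τ - a) = a) (m : ℕ) : x ∈ locNorm L v' m :=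
  H20.S47.locNorm_of_unram hζ hdeg hv h3 hns hunr hΔ ha h hx m

/-- **From the quotient of the eigenvalues to the matrix.** If the quotient `r / (τ - r)` of the two
eigenvalues of `c` in `F[c]` is the norm of some `u` in `E[c]`, then `c`, up to the scalar `(det c)⁻²`, is
the norm of an element `x + y c` of `E[c]`: take `u² / r`, of norm `r² / (τ - r)² / r³ = r Δ⁻²`.
(`inc c` is `c` as a matrix over `E`, `nm s d = d s(d) s²(d)`.) File `H20S8`. -/
theorem norm_from_quotient {F E : Type} [Field F] [NumberField F] [Field E] [NumberField E]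
    [Algebra F E] {s : E ≃ₐ[F] E} (h3 : ∀ x, s (s (s x)) = x) (hs : s ≠ AlgEquiv.refl)
    (hfix : ∀ x, s x = x → x ∈ Set.range (algebraMap F E)) {c : Matrix (Fin 2) (Fin 2) F}
    (hc : c.det ≠ 0) [Fact (Irreducible (qpol c.trace c.det))]
    [Fact (Irreducible (qpol (algebraMap F E c.trace) (algebraMap F E c.det)))]
    {u : QE E c.trace c.det} (hu : Algebra.norm (QF c.trace c.det) u *
      (algebraMap F (QF c.trace c.det) c.trace - rt _ _) = rt _ _) :
    ∃ x y : E, (lin (inc c) x y).det ≠ 0 ∧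
      nm s (lin (inc c) x y) = algebraMap F E (c.det⁻¹ ^ 2) • inc c :=
  H20.S47.exists_nm_of_ratio h3 hs hfix hc hu

/-- **The norm theorem for matrices.** Let `F` be totally complex, let `c` have no eigenvalue in
`F`, and let its trace and determinant satisfy the local condition `LocOK` (conditions (i), (ii) of
`GuideOctCGeom.exists_norm`) at all places of `F` with one place of `E` above them. Then `c` is, up
to a scalar, the norm of some `x + y c`. Proof: the theorems above and the norm theorem of Hasse for the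
cubic extension `E[c] / F[c]` (`GuideQuadRec.hasse_norm`), applied to the quotient of the eigenvalues.
File `H20S8`. -/
theorem norm_theorem {F E : Type} [Field F] [NumberField F] [Field E] [NumberField E]
    [Algebra F E] {s : E ≃ₐ[F] E} {ζ : F} (hζ : IsPrimitiveRoot ζ 3) [IsTotallyComplex F]
    (h3 : ∀ x, s (s (s x)) = x) (hs : s ≠ AlgEquiv.refl)
    (hfix : ∀ x, s x = x → x ∈ Set.range (algebraMap F E)) {c : Matrix (Fin 2) (Fin 2) F}
    (hc : c.det ≠ 0) (hell : ∀ x : F, x ^ 2 - c.trace * x + c.det ≠ 0)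
    (hloc : ∀ v, NonSplit E v → LocOK E ζ v c.trace c.det) :
    ∃ x y : E, (lin (inc c) x y).det ≠ 0 ∧
      nm s (lin (inc c) x y) = algebraMap F E (c.det⁻¹ ^ 2) • inc c :=
  H20.S47.exists_nm hζ h3 hs hfix hc hell hloc

/-- **The local condition on `PGL₂(F)`.** `LocOKP E ζ v γ` asks it for one lift of one conjugate of
`γ`; then it holds for all lifts of `γ`, since `LocOK` is invariant under `(τ, Δ) ↦ (zτ, z²Δ)`.
File `H20S8`. -/
theorem local_condition {F E : Type} [Field F] [NumberField F] [Field E] [NumberField E]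
    [Algebra F E] {ζ : F} {v : HeightOneSpectrum (𝓞 F)} :
    (∀ (τ Δ z : F), z ≠ 0 → LocOK E ζ v τ Δ → LocOK E ζ v (z * τ) (z ^ 2 * Δ)) ∧
    ∀ (γ : PGL(2, F)) (g : GL (Fin 2) F), LocOKP E ζ v γ → ProjGenLinGroup.mk g = γ →
      LocOK E ζ v (g : Matrix (Fin 2) (Fin 2) F).trace (g : Matrix (Fin 2) (Fin 2) F).det :=
  ⟨fun _ _ _ hz h => h.smul hz, fun _ _ h hg => h.lift hg⟩

/-! ## 2. Which elements contribute, and absolute convergence -/

/-- **A Siegel set of the model.** Finitely many points `Y0` of `X_f` and a Siegel set of `(H3)^J`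
(`H26Z.siegel J c C R`: heights at least `c`, with quotients at most `C`, and `|z_j| ≤ R`) meet every
orbit of `PGL₂(K)` on `m.X`, and the product has finite measure (reduction theory: `GuideSiegel`). File
`H94VConv`. -/
theorem siegel_set {K : Type*} [Field K] [NumberField K] {J : Type*} [Fintype J] (m : Model K J) :
    (∃ (Y0 : Set (XF m.L.fam)) (c C R : ℝ), Y0.Finite ∧ 0 < c ∧ 0 < C ∧ 0 < R ∧
      ∀ x : m.X, ∃ g : PGL(2, K), (g • x).1 ∈ H26Z.siegel J c C R ∧ (g • x).2 ∈ Y0) ∧
    ∀ (Y0 : Set (XF m.L.fam)) (c C R : ℝ), Y0.Finite → 0 < c →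
      m.μ (H26Z.siegel J c C R ×ˢ Y0) < ⊤ :=
  ⟨H94V.exists_cover_model m, fun _ _ C R h hc => H94V.measure_sieg_lt_top m h hc C R⟩

/-- **Every cut-off defines a finite measure**, at most the measure of the Siegel set: the cut-off is at
most the sum over `g` of its product with the translated indicator function, and one moves `g` to the
cut-off. (`IsCutoff G χ`: `χ ≥ 0` is measurable and `Σ_g χ(g x) = 1`.) File `H94VConv`. -/
theorem finite_volume {K : Type*} [Field K] [NumberField K] {J : Type*} [Fintype J]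
    (m : Model K J) {χ : m.X → ℝ≥0∞} (hχ : H94U.IsCutoff PGL(2, K) χ) :
    (m.μ.withDensity χ) Set.univ < ⊤ :=
  H94V.cutoff_univ_lt_top m hχ

/-- **Finitely many elements on a Siegel set.** Let `t` be a kernel on `m.X` which is zero if some
distance at infinity is large (`hT1`), with finitely many `η'` for every `η` of `X_f` (`hT2`), and
suppose that no upper triangular `δ` contributes, that is `t(x, δ s(x)) = 0` for these (`hex`). Then
on a Siegel set only finitely many `δ` contribute: for `g` with lower left entry `≠ 0` the product of the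
heights of `x` and `s(x)` is bounded (reduction theory), so `x` stays in a compact set, where the
action is properly discontinuous. File `H94VConv`. -/
theorem finitely_many {K : Type*} [Field K] [NumberField K] {J : Type*} [Fintype J]
    {m : Model K J} (a : AutData m) (t : m.X → m.X → ℂ) {R : ℝ}
    (hT1 : ∀ x y : m.X, t x y ≠ 0 → ∀ j, H3.ch (x.1 j) (y.1 j) ≤ R)
    (hT2 : ∀ η : XF m.L.fam, {η' | ∃ w w' : J → H3, t (w, η) (w', η') ≠ 0}.Finite)
    (hex : ∀ (g : GL (Fin 2) K) (x : m.X),
      t x ((ProjGenLinGroup.mk g : PGL(2, K)) • a.act x) ≠ 0 → g.1 1 0 ≠ 0)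
    {Y0 : Set (XF m.L.fam)} (hY0 : Y0.Finite) {c : ℝ} (hc : 0 < c) (C R0 : ℝ) :
    ∃ S : Set PGL(2, K), S.Finite ∧ ∀ x : m.X, x ∈ H26Z.siegel J c C R0 ×ˢ Y0 →
      ∀ δ : PGL(2, K), t x (δ • a.act x) ≠ 0 → δ ∈ S :=
  H94V.exists_finite a t hT1 hT2 hex hY0 hc C R0

/-- **The sum is bounded and the integrals converge.** If moreover `t` is invariant, and bounded at
infinity for every pair of points of `X_f` (`hT3`), then `Σ_δ |t(x, δ s(x))|` is a bounded function on
`m.X` (it is invariant, so one can take `x` in the Siegel set); with `finite_volume` the sum of the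
integrals of the `|t(x, δ s(x))|` (measurable functions of `x` by hypothesis) over the quotient
converges. File `H94VConv`. -/
theorem convergence {K : Type*} [Field K] [NumberField K] {J : Type*} [Fintype J]
    {m : Model K J} (a : AutData m) (t : m.X → m.X → ℂ)
    (ht : ∀ (g : PGL(2, K)) x y, t (g • x) (g • y) = t x y) {R : ℝ}
    (hT1 : ∀ x y : m.X, t x y ≠ 0 → ∀ j, H3.ch (x.1 j) (y.1 j) ≤ R)
    (hT2 : ∀ η : XF m.L.fam, {η' | ∃ w w' : J → H3, t (w, η) (w', η') ≠ 0}.Finite)
    (hT3 : ∀ η η' : XF m.L.fam, ∃ B : ℝ, ∀ w w' : J → H3, ‖t (w, η) (w', η')‖ ≤ B)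
    (hex : ∀ (g : GL (Fin 2) K) (x : m.X),
      t x ((ProjGenLinGroup.mk g : PGL(2, K)) • a.act x) ≠ 0 → g.1 1 0 ≠ 0)
    (hm : ∀ δ : PGL(2, K), Measurable fun x : m.X => t x (δ • a.act x)) :
    (∃ M : ℝ≥0∞, M ≠ ⊤ ∧ ∀ x : m.X, ∑' δ : PGL(2, K), ‖t x (δ • a.act x)‖ₑ ≤ M) ∧
    ∀ χ : m.X → ℝ≥0∞, H94U.IsCutoff PGL(2, K) χ →
      ∑' δ : PGL(2, K), ∫⁻ x, ‖t x (δ • a.act x)‖ₑ ∂(m.μ.withDensity χ) ≠ ⊤ :=
  ⟨H94V.exists_bound a t ht hT1 hT2 hT3 hex, fun _ hχ => H94V.conv a t ht hT1 hT2 hT3 hex hm hχ⟩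

/-- **The support of `U^k`.** If a kernel, of level `U` contained in the Iwahori group, is the indicator
function of the double coset of `ϖ` (`IsInd`), the support of its `k`-th power (`lpow`) is contained in the
double coset of `ϖ^k`. File `H94YSetup`. -/
theorem support_of_powers {K : Type*} [Field K] {v : Valuation K ℤᵐ⁰} {U : Subgroup PGL(2, K)}
    (hU : ∀ g ∈ U, g ∈ H51Z.Iw v) {κ : LocKer U}
    (hκ : IsInd κ (H51Z.cellU v (exp (-(1 : ℤ))))) (k : ℕ) (g h : PGL(2, K))
    (hne : (lpow κ k).k (g : PGL(2, K) ⧸ U) (h : PGL(2, K) ⧸ U) ≠ 0) :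
    g⁻¹ * h ∈ H51Z.cellU v (exp (-(k : ℤ))) :=
  H94Y.lpow_supp hU hκ k g h hne

/-- **The norm condition from the kernels.** `SuppOK E ζ v k` says that `γ` satisfies the local norm
condition at `v` if `k(y, γ y) ≠ 0` for some `y`. It holds for the unit kernel of the maximal level
`U0 v` at a place prime to three and unramified in `E`, and there also for kernels with support in the
double coset of `ϖ^(3m)`, `m ≥ 1` (for `U^(3m)`). Files `H94WNorm`, `H94YSetup`. -/
theorem support_condition {F E : Type} [Field F] [NumberField F] [Field E] [NumberField E]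
    [Algebra F E] {ζ : F} {v : HeightOneSpectrum (𝓞 F)} (h3 : v.valuation F (3 : F) = 1)
    (hunr : ∀ w ∈ above E v, v.asIdeal.ramificationIdx' w.asIdeal = 1) {U : Subgroup PGL(2, F)} :
    (∀ k : LocKer U, H94W.SuppOK E ζ v k ↔
      ∀ (γ : PGL(2, F)) (y : PGL(2, F) ⧸ U), k.k y (γ • y) ≠ 0 → LocOKP E ζ v γ) ∧
    (U = U0 v → H94W.SuppOK E ζ v (LocKer.one : LocKer U)) ∧
    ∀ (k : LocKer U) (m : ℕ), 1 ≤ m →
      (∀ g h : PGL(2, F), k.k (g : PGL(2, F) ⧸ U) (h : PGL(2, F) ⧸ U) ≠ 0 →
        g⁻¹ * h ∈ H51Z.cellU (v.valuation F) (exp (-((3 * m : ℕ) : ℤ)))) →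
      H94W.SuppOK E ζ v k :=
  ⟨fun _ => Iff.rfl, fun hU => H94W.suppOK_one h3 hunr hU rfl,
    fun _ _ hm hk => H94Y.suppOK_cell h3 hunr hm hk⟩

/-- **The norm condition at the bad places.** If the support of `k` is in a set `H` (in the
application a group) which is conjugate into the set of the classes of the matrices `z (1 + x)`, where
the entries of `x` are in the `M`-th power of the maximal ideal and `M` is large (`Deep`), then
`SuppOK` holds. File `H94WNorm`. -/
theorem support_condition_bad {F E : Type} [Field F] [NumberField F] [Field E] [NumberField E]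
    [Algebra F E] {ζ : F} {v : HeightOneSpectrum (𝓞 F)} {M : ℕ} (hM : Deep ζ 3 v M)
    {U : Subgroup PGL(2, F)} {k : LocKer U} (H : Set PGL(2, F))
    (hk : ∀ y y' : PGL(2, F), k.k (y : PGL(2, F) ⧸ U) (y' : PGL(2, F) ⧸ U) ≠ 0 → y⁻¹ * y' ∈ H)
    (b : PGL(2, F))
    (hH : ∀ h ∈ H, ∃ (g : GL (Fin 2) F) (z : F) (x : Matrix (Fin 2) (Fin 2) F),
      ProjGenLinGroup.mk g = b⁻¹ * h * b ∧ z ≠ 0 ∧
        (g : Matrix (Fin 2) (Fin 2) F) = z • (1 + x) ∧
        ∀ i j, v.valuation F (x i j) ≤ exp (-(M : ℤ))) :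
    H94W.SuppOK E ζ v k :=
  H94W.suppOK_group hM H hk b hH

/-- **Contributing elliptic regular elements over `F` are norms**, if all local kernels at the places
with one place of `E` above them satisfy the condition `SuppOK` (then `norm_theorem` applies). File
`H94WNorm`. -/
theorem contributing_norms {F E : Type} [Field F] [NumberField F] [Field E] [NumberField E]
    [Algebra F E] {ζ : F} {s : E ≃ₐ[F] E} (hζ : IsPrimitiveRoot ζ 3) [IsTotallyComplex F]
    (h3 : ∀ x, s (s (s x)) = x) (hs : s ≠ AlgEquiv.refl)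
    (hfix : ∀ x, s x = x → x ∈ Set.range (algebraMap F E)) {J : Type*} [Fintype J]
    {m : Model F J} {κ : (J → ℝ) → ℂ} {b : GlobKer m.L.fam}
    (hb : ∀ v, NonSplit E v → H94W.SuppOK E ζ v (b.loc v)) {γ : PGL(2, F)} {y : m.X}
    (h : m.ker κ b.k y (γ • y) ≠ 0) (hγ : EllReg γ) :
    ∃ δ : PGL(2, E), nP s δ = incP E γ :=
  H94W.exists_norm_of_ker hζ h3 hs hfix hb h hγ

/-- **Over `E`, for all large exponents `n` of `U`** (`CellAt m B w₀ n`: the component of `B` at
`w₀` has its support in the double coset of `ϖ^n`; at the other places the support is contained in the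
one of `A`; `w₀` is fixed by the automorphism, and the level there is contained in the Iwahori group).
Only elements with elliptic regular norm contribute, and there is absolute convergence: no contributing
element is upper triangular (`no_stable_line` of `GuideOctCGeom`), then `norms_elliptic_regular` of
`GuideStableLines` and `convergence`. File `H94XFin`. -/
theorem over_E {F E : Type*} [Field F] [Field E] [NumberField E] [Algebra F E]
    {s : E ≃ₐ[F] E} (h3 : ∀ x, s (s (s x)) = x) {J : Type*} [Fintype J] {m : Model E J}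
    (a : AutData m) (hs : ∀ x, a.s x = s x) {w₀ : HeightOneSpectrum (𝓞 E)} (h₀ : a.σ w₀ = w₀)
    (hI : ∀ g ∈ m.L.U w₀, g ∈ H51Z.Iw (w₀.valuation E)) (A : GlobKer m.L.fam)
    {κ : (J → ℝ) → ℂ} (hκ : H56Z.IsRC κ) :
    ∃ M₀ : ℕ, ∀ n : ℕ, M₀ ≤ n → ∀ B : GlobKer m.L.fam,
      (∀ w ≠ w₀, ∀ y y', (B.loc w).k y y' ≠ 0 → (A.loc w).k y y' ≠ 0) →
      H56Z.CellAt m B w₀ n →
      (∀ (d : PGL(2, E)) (x : m.X), m.ker κ B.k x (d • a.act x) ≠ 0 → EllReg (nP s d)) ∧
      ∀ χ : m.X → ℝ≥0∞, H94U.IsCutoff PGL(2, E) χ →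
        ∑' d : PGL(2, E), ∫⁻ x, ‖m.ker κ B.k x (d • a.act x)‖ₑ ∂(m.μ.withDensity χ) ≠ ⊤ :=
  H94X.c17_E h3 a hs h₀ hI A hκ

/-- **Over `F`**: the same without an automorphism, and with the norm condition on the local kernels the
contributing elements are norms (`contributing_norms`). File `H94XFin`. -/
theorem over_F {F E : Type} [Field F] [NumberField F] [IsTotallyComplex F] [Field E]
    [NumberField E] [Algebra F E] {s : E ≃ₐ[F] E} {ζ : F} (hζ : IsPrimitiveRoot ζ 3)
    (h3 : ∀ x, s (s (s x)) = x) (hs : s ≠ AlgEquiv.refl)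
    (hfix : ∀ x, s x = x → x ∈ Set.range (algebraMap F E)) {J : Type*} [Fintype J]
    {m : Model F J} {v₀ : HeightOneSpectrum (𝓞 F)}
    (hI : ∀ g ∈ m.L.U v₀, g ∈ H51Z.Iw (v₀.valuation F)) (A : GlobKer m.L.fam)
    {κ : (J → ℝ) → ℂ} (hκ : H56Z.IsRC κ) :
    ∃ M₀ : ℕ, ∀ n : ℕ, M₀ ≤ n → ∀ B : GlobKer m.L.fam,
      (∀ v ≠ v₀, ∀ y y', (B.loc v).k y y' ≠ 0 → (A.loc v).k y y' ≠ 0) →
      H56Z.CellAt m B v₀ n → (∀ v, NonSplit E v → H94W.SuppOK E ζ v (B.loc v)) →
      (∀ (γ : PGL(2, F)) (y : m.X), m.ker κ B.k y (γ • y) ≠ 0 →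
        EllReg γ ∧ ∃ d : PGL(2, E), nP s d = incP E γ) ∧
      ∀ χ : m.X → ℝ≥0∞, H94U.IsCutoff PGL(2, F) χ →
        ∑' γ : PGL(2, F), ∫⁻ y, ‖m.ker κ B.k y (γ • y)‖ₑ ∂(m.μ.withDensity χ) ≠ ⊤ :=
  H94X.c17_F hζ h3 hs hfix hI A hκ

/-! ## 3. The auxiliary place over a complete field

`Cell v c g` is the double coset of `a`, `v a = c`, and `IwGL v` the group `K^× I` (`v0_cell` of
`GuideOctCLocal`); `dg a d = diag(a, d)`, `ww` is the Weyl element `(0 1; 1 0)`. `H25V.Inert v s k` is the
situation over the completion `K` of `E`: `v` is invariant under `s`, `s³ = 1`, `k` is the fixed field of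
`s`, every absolute value of `K` occurs in `k`, and `X² - X + n` has a root of absolute value `< 1` for
`|n| < 1` (Hensel). -/

/-- **The diagonal case.** Let `d = diag(δ, ε)`. If `g⁻¹ d s(g)` is in the double coset of `a`,
`c = v a < 1`, then `v δ = c · v ε` and `g` is in `T I`, or `v ε = c · v δ` and `g` is in `T w I`
(`T` = diagonal matrices): write `g = t n(x) i` or `g = t n(x) w i` (`v0_iwasawa` of `GuideOctCLocal`);
the inequalities of the double coset give `v x ≤ 1` or `v x < 1`, so `n(x)`, or `w n(x) w` in the second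
case, is in `I`. File `H25ZV0`. -/
theorem diagonal_case {K : Type*} [Field K] {Γ₀ : Type*} [LinearOrderedCommGroupWithZero Γ₀]
    {v : Valuation K Γ₀} {s : K →+* K} (hs : ∀ x, v (s x) = v x) {c : Γ₀} (hc : c < 1)
    {δ ε : Kˣ} {g : GL (Fin 2) K}
    (h : H25V.Cell v c ((g⁻¹ * H25V.dg δ ε * GeneralLinearGroup.map s g : GL (Fin 2) K) :
      Matrix (Fin 2) (Fin 2) K)) :
    (v (δ : K) = c * v (ε : K) ∧ ∃ a d : Kˣ, ∃ i ∈ H25V.IwGL v, g = H25V.dg a d * i) ∨
    (v (ε : K) = c * v (δ : K) ∧
      ∃ a d : Kˣ, ∃ i ∈ H25V.IwGL v, g = H25V.dg a d * H25V.ww * i) :=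
  H25V.cell_twist_diag hs hc h

/-- **Hensel's lemma** for `X² - X + n`, `v n < 1`, from completeness in elementary form (a sequence with
`v(x_(n+1) - x_n) ≤ exp(-n)` has a limit). File `H25ZV0b`. -/
theorem hensel {L : Type*} [Field L] {v : Valuation L ℤᵐ⁰}
    (hC : ∀ x : ℕ → L, (∀ n, v (x (n + 1) - x n) ≤ exp (-(n : ℤ))) →
      ∃ y, ∀ n, v (y - x n) ≤ exp (-(n : ℤ))) (n : L) (hn : v n < 1) :
    ∃ b, b ^ 2 - b + n = 0 ∧ v b < 1 :=
  H25V.hens_of_compl hC n hn

/-- **Third powers of double cosets.** Let `d s(d) s²(d) = γ` and `d γ = γ d` in `PGL₂` (`NormPair`). If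
`g⁻¹ d s(g)` is in the double coset of `a`, its norm `g⁻¹ γ g` is in the one of `a³`. File `H25ZV0`. -/
theorem cube_of_cell {K k : Type*} [Field K] [Field k] [Algebra k K] {Γ₀ : Type*}
    [LinearOrderedCommGroupWithZero Γ₀] {v : Valuation K Γ₀} {s : K →+* K}
    (H : H25V.Inert v s k) {c : Γ₀} {d : GL (Fin 2) K} {γ : GL (Fin 2) k}
    (P : H25V.NormPair s d γ) {g : GL (Fin 2) K}
    (h : H25V.Cell v c ((g⁻¹ * d * GeneralLinearGroup.map s g : GL (Fin 2) K) :
      Matrix (Fin 2) (Fin 2) K)) :
    H25V.Cell v (c ^ 3) ((g⁻¹ * GeneralLinearGroup.map (algebraMap k K) γ * g :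
      GL (Fin 2) K) : Matrix (Fin 2) (Fin 2) K) :=
  H.cell_cube P h

/-- **Common diagonal form.** If `g⁻¹ γ g` is in the double coset of `a³`, `0 < v a < 1`, then `γ` and `d`
are diagonal in one basis over the fixed field `k`: `γ = u diag(α, β) u⁻¹`, `d = u diag(δ, ε) u⁻¹`, with
`v α = c³ v β`, `v δ = c · v ε`. (The eigenvalues of `γ` have different absolute values, so they are
fixed by `s`: `v0_eigenvalues` of `GuideOctCLocal`; `d` commutes with `γ`; and third powers in the ordered
value group are injective.) File `H25ZV0`. -/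
theorem common_diagonal_form {K k : Type*} [Field K] [Field k] [Algebra k K] {Γ₀ : Type*}
    [LinearOrderedCommGroupWithZero Γ₀] {v : Valuation K Γ₀} {s : K →+* K}
    (H : H25V.Inert v s k) {c : Γ₀} (hc : c < 1) (hc0 : c ≠ 0) {d : GL (Fin 2) K}
    {γ : GL (Fin 2) k} (P : H25V.NormPair s d γ) {g : GL (Fin 2) K}
    (h : H25V.Cell v (c ^ 3) ((g⁻¹ * GeneralLinearGroup.map (algebraMap k K) γ * g :
      GL (Fin 2) K) : Matrix (Fin 2) (Fin 2) K)) :
    ∃ (α β : kˣ) (u : GL (Fin 2) k) (δ ε : Kˣ), γ = u * H25V.dg α β * u⁻¹ ∧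
      d = GeneralLinearGroup.map (algebraMap k K) u * H25V.dg δ ε *
        (GeneralLinearGroup.map (algebraMap k K) u)⁻¹ ∧
      v (algebraMap k K α) = c ^ 3 * v (algebraMap k K β) ∧ v (δ : K) = c * v (ε : K) :=
  H.diag2 hc hc0 P h

/-- **The comparison over the complete field.** Let `0 < v a < 1`. (1) If `g⁻¹ d s(g)` is in the double
coset of `a`, then `g` is in `GL₂(k) K^× I`. (2) For `y` in `GL₂(k)`, `y⁻¹ d y` is in the double
coset of `a` if and only if `y⁻¹ γ y` is in the one of `a³`. Proof of (1): `cube_of_cell`,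
`common_diagonal_form`, `diagonal_case`; a diagonal matrix over `K` is one over `k` times one with
unit entries, since every absolute value occurs in `k`. The statement over `E` and `F`
(`v0_comparison` of `GuideOctCLocal`) follows by density (`H25ZV0b`). File `H25ZV0`. -/
theorem comparison_complete {K k : Type*} [Field K] [Field k] [Algebra k K] {Γ₀ : Type*}
    [LinearOrderedCommGroupWithZero Γ₀] {v : Valuation K Γ₀} {s : K →+* K}
    (H : H25V.Inert v s k) {c : Γ₀} (hc : c < 1) (hc0 : c ≠ 0) {d : GL (Fin 2) K}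
    {γ : GL (Fin 2) k} (P : H25V.NormPair s d γ) :
    (∀ g : GL (Fin 2) K, H25V.Cell v c
        ((g⁻¹ * d * GeneralLinearGroup.map s g : GL (Fin 2) K) : Matrix (Fin 2) (Fin 2) K) →
      ∃ (y : GL (Fin 2) k) (i : GL (Fin 2) K), i ∈ H25V.IwGL v ∧
        g = GeneralLinearGroup.map (algebraMap k K) y * i) ∧
    ∀ y : GL (Fin 2) k, H25V.Cell v c ((((GeneralLinearGroup.map (algebraMap k K) y)⁻¹ * d *
        GeneralLinearGroup.map s (GeneralLinearGroup.map (algebraMap k K) y) : GL (Fin 2) K)) :
        Matrix (Fin 2) (Fin 2) K) ↔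
      H25V.Cell (v.comap (algebraMap k K)) (c ^ 3) ((y⁻¹ * γ * y : GL (Fin 2) k) :
        Matrix (Fin 2) (Fin 2) k) :=
  ⟨fun _ h => H.exists_of_cell hc hc0 P h, fun y => H.cell_iff hc hc0 P y⟩

/-- **From the two facts to the matching.** `i₀` is the only place above `v`, `inc` the inclusion of the
groups, the level at `v` is the inverse image of the level at `i₀`. Let every contributing point `g` over
`E` come from `y` over `F` (`R1`), and let the two kernels have the same values there (`R2`). Then the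
weight over `E` and the weight over `F` are matched (`locMatch_iff` of `GuideOctCGeom`), by the map which
sends a contributing point to the point of `F` from which it comes. File `H25ZV0b`. -/
theorem matching_from_two_facts {G : Type*} [Group G] {ι : Type*} {L : LevelFam G ι} (t : Twist L)
    {G' : Type*} [Group G'] {κ : Type*} {L' : LevelFam G' κ} (π : ι → κ)
    (hπ : ∀ i, π (t.σ i) = π i) (inc : G' →* G) (v : κ) (i₀ : ι) (hi₀ : π i₀ = v)
    (huniq : ∀ i, π i = v → i = i₀) (hV : ∀ g, g ∈ L'.U v ↔ inc g ∈ L.U i₀) (a : GlobKer L)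
    (b : LocKer (L'.U v)) (d : G) (γ : G')
    (R1 : ∀ g : G, (a.loc i₀).k (g : G ⧸ L.U i₀) ((d * t.s g : G) : G ⧸ L.U i₀) ≠ 0 →
      ∃ y : G', g⁻¹ * inc y ∈ L.U i₀)
    (R2 : ∀ y : G', (a.loc i₀).k ((inc y : G) : G ⧸ L.U i₀)
        ((d * t.s (inc y) : G) : G ⧸ L.U i₀) =
      b.k (y : G' ⧸ L'.U v) ((γ * y : G') : G' ⧸ L'.U v)) {T : Type*} (τ : T → G') :
    ∃ β : H57C.Xv L π v → G' ⧸ L'.U v,
      H57C.LocMatch (fun c x => fun i => inc (τ c) • x i) (fun c y => τ c • y)
        (H57C.phiv t π hπ a d v) (fun y => b.k y (γ • y)) β :=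
  H25V.exists_locMatch_nonsplit t π hπ inc v i₀ hi₀ huniq hV a b d γ R1 R2 τ

/-! ## 4. From the operator equations to the form over `F`

`kd : KerData m S w0 T` are the kernels of the block on the model `m` (`GuideOctCTarget`), `kd.D.mono n k`
the monomials; `mono 0 0` is the product of the idempotents of the types. `H17S.gX b` is the operator of
the global kernel `b` on functions on `m.X`. -/

/-- **Hecke equation, equation of `U`, types.** If `Ψ` is fixed by `mono 0 0` and an eigenfunction of the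
monomial of degree one at `w`, it satisfies the Hecke equation at `w` with the same eigenvalue; if it is
an eigenfunction of `mono 0 1 = U · mono 0 0`, it satisfies the equation of `U`; and it is of the given
type at the places of `S` (`isMForm_iff` of `GuideOctC` for these conditions). Proof: the monomial is the
local kernel times `mono 0 0`, and the kernel with the values of an indicator function is the standard
one, whose operator is a sum over explicit representatives. File `H44ZMF`. -/
theorem equations_from_operators {K : Type*} [Field K] [NumberField K] {J : Type*} [Fintype J]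
    [DecidableEq (HeightOneSpectrum (𝓞 K))] {m : Model K J}
    {S : Finset (HeightOneSpectrum (𝓞 K))} {w0 : HeightOneSpectrum (𝓞 K)}
    {T : HeightOneSpectrum (𝓞 K) → H76U.TD K} (kd : KerData m S w0 T) {Ψ : m.X → ℂ}
    (he : H17S.gX (kd.D.mono 0 0) Ψ = Ψ) :
    (∀ w ∉ S, w ≠ w0 → ∀ c : ℂ, H17S.gX (kd.D.mono (Finsupp.single w 1) 0) Ψ = c • Ψ →
      ∀ ϖ : Kˣ, w.valuation K (ϖ : K) = exp (-(1 : ℤ)) → ∀ R : Finset K,
        H51Z.IsReps (w.valuation K) 1 R → H7.Z.HeckeX m Ψ w ϖ R c) ∧
    (∀ c : ℂ, H17S.gX (kd.D.mono 0 1) Ψ = c • Ψ →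
      ∀ ϖ : Kˣ, w0.valuation K (ϖ : K) = exp (-(1 : ℤ)) → ∀ R : Finset K,
        H51Z.IsReps (w0.valuation K) 1 R → H7.Z.UX m Ψ w0 ϖ R c) ∧
    ∀ w ∈ S, ∀ h ∈ (T w).H, ∀ (τ : J → H3) (y : XF m.L.fam) (g : PGL(2, K)),
      Ψ (τ, XF.upd y w ((g * h : PGL(2, K)) : PGL(2, K) ⧸ m.L.fam.U w)) =
        (T w).chi h * Ψ (τ, XF.upd y w ((g : PGL(2, K)) : PGL(2, K) ⧸ m.L.fam.U w)) := by
  have e : (fun a b => Classical.propDecidable (a = b)) =
    (inferInstance : DecidableEq (HeightOneSpectrum (𝓞 K))) := Subsingleton.elim _ _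
  subst e
  exact ⟨fun w hw h0 c h ϖ hϖ R hR => H44Z.heckeX_of_ops kd he hw h0 h hϖ hR,
    fun c h ϖ hϖ R hR => H44Z.uX_of_ops kd he h hϖ hR,
    fun w hw h hh τ y g => H44Z.typ_of_ops kd he hw hh τ y g⟩

/-- **The infinite place over `F`.** Let `Ψ ≠ 0` on the model over `F` be bounded and measurable, let
every real radial kernel `k` act on it by a real number, and the kernels `bF κ` (`bkr κ` as a function
of one variable; `κ` is real, in three variables) by `hat κ`. Then `Ψ` is continuous in the infinite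
variable, and every radial kernel acts by the eigenvalue at spectral parameter `0`: by
`eigenvalue_at_infinity` of `GuideOctC` this is so for the real radial kernels; so `Ψ` is smooth and
`Δ Ψ = -Ψ` (it is a multiple of its convolution with a smooth kernel), which gives all kernels.
(`H9Z.Ker κ`: on the `t` with all `t j ≥ 1` the function `κ` is continuous, and zero if some `t j` is
large; this is weaker than `H56Z.IsRC`. `H17S.RI κ` is the operator of `κ` on functions on `m.X`.)
Files `H44ZExt1`, `H44ZMF`. -/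
theorem infinite_place_of_form {K : Type*} [Field K] [NumberField K] {m : Model K (Fin 1)}
    {Ψ : m.X → ℂ} (hm : ∀ y, Measurable fun x : Fin 1 → H3 => Ψ (x, y)) {B : ℝ}
    (hb : ∀ x, ‖Ψ x‖ ≤ B) (hne : ∃ x, Ψ x ≠ 0)
    (hlam : ∀ k : ℝ → ℝ, H56Z.IsRC (fun t : Fin 1 → ℝ => ((k (t 0) : ℝ) : ℂ)) → ∃ lam : ℝ,
      H17S.RI (fun t : Fin 1 → ℝ => ((k (t 0) : ℝ) : ℂ)) Ψ = (lam : ℂ) • Ψ)
    (h3 : ∀ κ : (Fin 3 → ℝ) → ℝ, H56Z.IsRC (fun u => (κ u : ℂ)) →
      H17S.RI (fun t : Fin 1 → ℝ => H67M.bkr (fun u => (κ u : ℂ)) (t 0)) Ψ =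
        H9Z.hat (fun u : Fin 3 → ℝ => (κ u : ℂ)) • Ψ) :
    (∀ y : XF m.L.fam, Continuous fun τ : Fin 1 → H3 => Ψ (τ, y)) ∧
      ∀ κ : (Fin 1 → ℝ) → ℂ, H9Z.Ker κ → ∀ (y : XF m.L.fam) (τ : Fin 1 → H3),
        H5Z.Rk κ (fun v => Ψ (v, y)) τ = H9Z.hat κ * Ψ (τ, y) :=
  H44Z.arch_of_cube hm hb hne hlam h3

/-- **Norms of places.** `E / F` is Galois of degree three, `w` is unramified over `v` and there is
another place above `v`; then `N w = N v` (three places above `v`, trivial decomposition groups). So the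
eigenvalue `√(N w) a_w` of the Hecke operator over `F` is `√(N v) a_w`. File `H44ZOut`. -/
theorem norm_of_split_place {F E : Type*} [Field F] [NumberField F] [Field E] [NumberField E]
    [Algebra F E] [IsGalois F E] (h3 : Module.finrank F E = 3) {v : HeightOneSpectrum (𝓞 F)}
    {w : HeightOneSpectrum (𝓞 E)} (hw : w ∈ above E v)
    (hu : v.asIdeal.ramificationIdx' w.asIdeal = 1) (hs : ¬ NonSplit E v) :
    Ideal.absNorm w.asIdeal = Ideal.absNorm v.asIdeal :=
  H44Z.absNorm_eq_of_split h3 hw hu hs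

/-- **The form over `F`, from eigenvalues of the monomials.** Let `Ψ ≠ 0` be a bounded invariant
function on `X(F)`, fixed by `mono 0 0`, an eigenfunction of the monomials of degree one with real
eigenvalues, equal to `evT a w = √(N w) a_w` if `v` splits and `w ∣ v` is not bad (`C.Ok w`), of
`mono 0 1` with eigenvalue `≠ 0`, and of the radial kernels as in the last but one theorem. Then there
are real numbers `μ_v`, `μ_v = a_w` for split `v`, and `Ψ` has the properties of the output `COutE`
of the comparison. With the last three theorems and `isMForm_iff` of `GuideOctC`. `form_over_F` of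
`GuideOctCSpec` follows with `types_from_kernel` and `eigenvalue_real` there. File `H44ZOut`. -/
theorem form_from_eigenvalues {F E : Type} [Field F] [NumberField F] [Field E] [NumberField E]
    [Algebra F E] (C : CSetup F E) (a : HeightOneSpectrum (𝓞 E) → ℝ)
    {Ψ : H21Z.BInv PGL(2, F) C.mF.X} (hΨ : Ψ ≠ 0)
    (he : H21Z.gopB C.mF (C.kF.D.mono 0 0) Ψ = Ψ)
    (hT : ∀ v ∉ C.SF, v ≠ C.v0 → ∃ μ : ℂ, μ.im = 0 ∧
      H21Z.gopB C.mF (C.kF.D.mono (Finsupp.single v 1) 0) Ψ = μ • Ψ)
    (hsplit : ∀ w : HeightOneSpectrum (𝓞 E), C.Ok w →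
      H21Z.gopB C.mF (C.kF.D.mono (Finsupp.single (H47.below F w) 1) 0) Ψ = (evT a w : ℂ) • Ψ)
    {u : ℂ} (hu : u ≠ 0) (hU : H21Z.gopB C.mF (C.kF.D.mono 0 1) Ψ = u • Ψ)
    (hk : ∀ (k : (Fin 1 → ℝ) → ℝ), H56Z.IsRC (fun t => (k t : ℂ)) → ∃ lam : ℝ,
      H21Z.rkX C.mF (fun t => (k t : ℂ)) (Ψ : C.mF.X → ℂ) = (lam : ℂ) • (Ψ : C.mF.X → ℂ))
    (h3 : ∀ κ : (Fin 3 → ℝ) → ℝ, H56Z.IsRC (fun t => (κ t : ℂ)) →
      H21Z.rkX C.mF (H67M.bF fun t => (κ t : ℂ)) (Ψ : C.mF.X → ℂ) =
        H9Z.hat (fun t : Fin 3 → ℝ => (κ t : ℂ)) • (Ψ : C.mF.X → ℂ)) :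
    ∃ mu : HeightOneSpectrum (𝓞 F) → ℝ,
      (∀ v ∉ C.SF, ¬ NonSplit E v → ∀ w ∈ above E v, mu v = a w) ∧
        COutE F (C.mF.e 0) C.SF C.v0 mu :=
  H44Z.out_of_eigen C a hΨ he hT hsplit hu hU hk h3

/-! ## 5. The eigenvalue of the operator of the kernel

The comparison (`comparison` of `GuideOctC`) is composed in section 5 of `GuideOctCSeparation`. This
section belongs to step (d) there, with `operators_on_the_form` and `C_on_the_form` of
`GuideOctCTarget`. -/

/-- **The eigenvalue of the operator of the kernel on the given form is real**, if the `κ_i` are real: it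
is the sum of the numbers `evP a κ_i n_i`, where `evP a κ n = hat κ · ∏ (evT a w)^{n(w)}` and
`evT a w = √(N w) a_w`. File `H56ZTgt3`. -/
theorem eigenvalue_of_kernel_real {E : Type} [Field E] [NumberField E]
    (a : HeightOneSpectrum (𝓞 E) → ℝ) {ι : Type*} (s : Finset ι) {κ : ι → (Fin 3 → ℝ) → ℂ}
    (hκ : ∀ i ∈ s, ∀ t, conj (κ i t) = κ i t) (n : ι → HeightOneSpectrum (𝓞 E) →₀ ℕ) :
    (∀ i, evP a (κ i) (n i) = H9Z.hat (κ i) * (n i).prod fun w k => (evT a w : ℂ) ^ k) ∧
    ∃ r : ℝ, (r : ℂ) = ∑ i ∈ s, evP a (κ i) (n i) :=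
  ⟨fun _ => rfl, H56Z.exists_real_val a s hκ n⟩

end Fermat.Agent.Guide.OctCSteps
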