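import Fermat.Agent.H90T56

/-!
# Reader's guide: the period integral of block (T) (S47)

Companion of `GuideOctT2`, sections 3, 5 and 6. That file shows the statements: coordinates
`H3 = ℍ × ℝ`, the strip integral `2 D(s) G(s)`, the limit `G(s) → G(1)`, and the conclusion that the
theta lift does not vanish. This file shows the steps of their proofs. There is no new mathematics
and no definition; every theorem cites a theorem of the library.

**Order.**
1. Coordinates on `H3`: the inverse map, the two substitutions which give the measure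
   `dx dy / y² × cosh² r dr`, and the groups.
2. Integrals of `K₀(x) = ∫_0^∞ exp(-x cosh t) dt` against cosines and powers.
3. The archimedean factor: each frequency `m > 0` contributes `m^(-s) G(s)`, with a bound which
   allows the exchange of sum and integral.
4. The Fourier expansion of `F` on the planes `Im z = u`: only frequencies in `ℤ` survive.
5. The function `f(τ) = ∫ F(τ, r) W(r) dr` on the upper half plane: invariance, decay, and its mean
   value over `0 ≤ Re τ < 1`.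
6. The Gaussian weight.

**Why the coordinates `(τ, r)`.** The group `Γ₀(N) ⊂ SL₂(ℤ)` acts on `H3` and preserves the plane
`Im z = 0`, a copy of `ℍ`. The fibre over `τ` is the geodesic orthogonal to this plane at `τ`, and
`r` is the signed distance to the plane. The weight depends on `r` only, so the period of `F` over
`Γ₀(N) \ H3` becomes a period of `f` over `Γ₀(N) \ ℍ`, and the theory of Eisenstein series is needed
for ordinary `Γ₀(N)` only (`GuideOctT2`, section 4; details in `GuideRealEisenstein`).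

**Statements served.** All cited theorems are used in S47 (and, of the 60 statements, only there).
NOTES: [404] [406] [437]. **Files**: `H90TCoord`, `H90TBess`, `H90TG`, `H90TSlice`, `H90TUnf`,
`H90T56`, all by helper90. Notation as in `GuideOctT`: `Eis` is the ring `ℤ[ω] ⊂ ℂ`, `H3` hyperbolic
three-space with the points `(z, y)`, `Gam N` the group `Γ₀(N)` over `ℤ[ω]`, `ICT N c F` the
hypotheses on the form `F` and its coefficients `c`; `H22Z.K0` is the function `K₀`.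
-/

set_option autoImplicit false

noncomputable section

open MeasureTheory CongruenceSubgroup Set Filter UpperHalfPlane
open scoped ComplexConjugate Real MatrixGroups ENNReal Topology

namespace Fermat.Agent.Guide.Period

open Fermat.Agent.S47T Fermat.Agent.H47.Red

/-! ### 1. Coordinates on `H3` -/

/-- The inverse of the coordinate map `H90T.pt : (τ, r) ↦ (Re τ + i Im τ tanh r, Im τ / cosh r)` is
`(z, y) ↦ (Re z + i √((Im z)² + y²), r)` with `sinh r = Im z / y`. (`H90TCoord`: `tanh² + cosh⁻² = 1`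
and Mathlib's `arsinh`.) -/
theorem inverse_coordinates (w : H3) (p : ℍ × ℝ) :
    (H90T.ptInv w).1.re = w.z.re ∧ (H90T.ptInv w).1.im = √(w.z.im ^ 2 + w.y ^ 2) ∧
      Real.sinh (H90T.ptInv w).2 = w.z.im / w.y ∧
      H90T.pt (H90T.ptInv w) = w ∧ H90T.ptInv (H90T.pt p) = p :=
  ⟨rfl, rfl, Real.sinh_arsinh _, H90T.pt_ptInv w, H90T.ptInv_pt p⟩

/-- Continuity and measurability of the coordinates. The second statement is used to pull back a
cut-off function of the upper half plane to `H3`. (`H90TCoord`, `H90T56`.) -/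
theorem continuity : Continuous H90T.pt ∧ (Continuous fun w : H3 => (H90T.ptInv w).1) ∧
    MeasurableEmbedding H90T.pt :=
  ⟨H90T.continuous_pt, H90T.continuous_ptInv_fst, H90T.measurableEmbedding_pt⟩

/-- Mathlib's measure on the upper half plane is `dx dy / y²`. (`H90TCoord`.) -/
theorem measure_upper_half_plane (g : ℂ → ℝ≥0∞) (hg : Measurable g) :
    ∫⁻ τ : ℍ, g τ = ∫⁻ x : ℝ, ∫⁻ y in Ioi (0 : ℝ), ENNReal.ofReal ((y ^ 2)⁻¹) * g ⟨x, y⟩ :=
  H90T.lintegral_uhp g hg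

/-- The two substitutions, in integrals of nonnegative functions over `ℝ` and over `(0, ∞)`:
`u = y sinh r` for the imaginary part `u` of `z` (with `y` fixed), then `y = ρ / cosh r` (with `r`
fixed), where `ρ` becomes the imaginary part of `τ`. (`H90TCoord`.) -/
theorem substitutions {c : ℝ} (hc : 0 < c) (g : ℝ → ℝ≥0∞) :
    ∫⁻ u, g u = ∫⁻ r, ENNReal.ofReal (c * Real.cosh r) * g (c * Real.sinh r) ∧
      ∫⁻ y in Ioi (0 : ℝ), g y = ∫⁻ ρ in Ioi (0 : ℝ), ENNReal.ofReal (c⁻¹) * g (ρ / c) :=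
  ⟨H90T.lintegral_sinh hc g, H90T.lintegral_scale hc g⟩

/-- **The integration formula.** The measure `dx du dy / y³` of `H3` is `dx dρ / ρ²` times
`cosh² r dr`, because by `substitutions` (with `c = y`, then `c = cosh r`) the density is
`(ρ/cosh r)⁻³ · (ρ/cosh r) cosh r · (cosh r)⁻¹ = ρ⁻² cosh² r`. (`H90TCoord`.) -/
theorem integration_formula (g : H3 → ℝ≥0∞) (hg : Measurable g) :
    ∫⁻ w, g w = ∫⁻ p, g (H90T.pt p) ∂((volume : Measure ℍ).prod
      ((volume : Measure ℝ).withDensity fun r => ENNReal.ofReal (Real.cosh r ^ 2))) :=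
  H90T.lintegral_pt g hg

/-- Integration of complex functions against `cosh² r dr`. (`H90TCoord`.) -/
theorem density (g : ℝ → ℂ) :
    ∫ r, g r ∂((volume : Measure ℝ).withDensity fun r => ENNReal.ofReal (Real.cosh r ^ 2)) =
      ∫ r, (Real.cosh r ^ 2 : ℝ) * g r :=
  H90T.integral_rMeasure g

/-- The inclusion `H90T.toC : SL₂(ℤ) → GL₂(ℂ)` maps `Γ₀(N)` to `Gam N` and `SL₂(ℤ)` to `SL₂(ℤ[ω])`.
(`H90TUnf`.) -/
theorem inclusion {N : ℕ} {g : SL(2, ℤ)} (hg : g ∈ Gamma0 N) :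
    H90T.toC g ∈ Gam N ∧ H90T.toC g ∈ SLO Eis :=
  ⟨H90T.toC_mem_Gam hg, H90T.toC_mem_SLO g⟩

/-! ### 2. Integrals of `K₀` -/

/-- The definition of `K₀` used in block (T). (`H22ZK0`.) -/
theorem K0_eq (x : ℝ) : H22Z.K0 x = ∫ t in Ioi (0 : ℝ), Real.exp (-x * Real.cosh t) := rfl

/-- The Laplace transform of the cosine. (`H90TBess`, from the integral of `exp((-c + i b) t)`.) -/
theorem laplace_cos {c : ℝ} (hc : 0 < c) (b : ℝ) :
    IntegrableOn (fun t => Real.exp (-(c * t)) * Real.cos (b * t)) (Ioi 0) ∧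
      ∫ t in Ioi (0 : ℝ), Real.exp (-(c * t)) * Real.cos (b * t) = c / (c ^ 2 + b ^ 2) :=
  ⟨H90T.integrableOn_exp_cos hc b, H90T.integral_exp_cos hc b⟩

/-- A primitive: the derivative of `m⁻¹ arctan (a sinh u / m)`. With `m² = a² + b²` the denominator
`m² + (a sinh u)²` is `(a cosh u)² + b²`. (`H90TBess`.) -/
theorem primitive {a m : ℝ} (hm : 0 < m) (u : ℝ) :
    HasDerivAt (fun u => m⁻¹ * Real.arctan (a * Real.sinh u / m))
      (a * Real.cosh u / (m ^ 2 + (a * Real.sinh u) ^ 2)) u :=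
  H90T.hasDerivAt_arctan_sinh hm u

/-- The integral over `u` which remains when `K₀(a t) = ∫ exp(-a t cosh u) du` is inserted in
`∫ K₀(a t) cos(b t) dt` and the integral over `t` is computed by `laplace_cos` (`integral_K0_cos` of
`GuideOctT2` is the result). (`H90TBess`.) -/
theorem integral_cosh_div {a : ℝ} (ha : 0 < a) (b : ℝ) :
    IntegrableOn (fun u => a * Real.cosh u / ((a * Real.cosh u) ^ 2 + b ^ 2)) (Ioi 0) ∧
      ∫ u in Ioi (0 : ℝ), a * Real.cosh u / ((a * Real.cosh u) ^ 2 + b ^ 2) =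
        (π / 2) / √(a ^ 2 + b ^ 2) :=
  H90T.integrableOn_cosh_div ha b

/-- The Mellin transform of `K₀(a x)` is `a^(-s)` times that of `K₀`, and it converges for `s > 0`.
(`H90TG`; convergence for `a = 1` is in `H22ZK0b`.) -/
theorem mellin_scale {s a : ℝ} (hs : 0 < s) (ha : 0 < a) :
    IntegrableOn (fun x => x ^ (s - 1) * H22Z.K0 (a * x)) (Ioi 0) ∧
      ∫ x in Ioi (0 : ℝ), x ^ (s - 1) * H22Z.K0 (a * x) =
        a ^ (-s) * ∫ x in Ioi (0 : ℝ), x ^ (s - 1) * H22Z.K0 x :=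
  ⟨H90T.integrableOn_rpow_K0_mul hs ha, H90T.integral_rpow_K0_mul ha⟩

/-! ### 3. The archimedean factor

`κ > 0` is a constant (`4π/√3` in the application) and `W ≥ 0` the weight, with
`∫ W(r) cosh r dr < ∞`. -/

/-- The functions of `H90TG` in formulas: `term κ W s m (y, r)` is the term of frequency `m` and
`G κ W s` the integral of the term of frequency one over `y > 0` and `r ∈ ℝ`. -/
theorem term_eq (κ : ℝ) (W : ℝ → ℝ) (s m y r : ℝ) :
    H90T.term κ W s m (y, r) = W r * ((Real.cosh r)⁻¹ * (y ^ (s - 1) *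
        (H22Z.K0 (κ * m / Real.cosh r * y) * Real.cos (κ * m * Real.tanh r * y)))) ∧
      H90T.G κ W s = ∫ p, H90T.term κ W s 1 p ∂((volume.restrict (Ioi (0 : ℝ))).prod volume) :=
  ⟨rfl, rfl⟩

/-- The majorant: without the cosine. (`H90TG`.) -/
theorem term_le_majorant {κ : ℝ} (hκ : 0 < κ) {W : ℝ → ℝ} (hW0 : ∀ r, 0 ≤ W r) {s m y : ℝ}
    (hm : 0 < m) (hy : 0 < y) (r : ℝ) :
    ‖H90T.term κ W s m (y, r)‖ ≤
      W r * ((Real.cosh r)⁻¹ * (y ^ (s - 1) * H22Z.K0 (κ * m / Real.cosh r * y))) :=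
  H90T.norm_term_le hκ hW0 (p := (y, r)) hm hy

/-- The integral of the majorant over `y` is at most
`(κ m)^(-s) · ∫ x^(s-1) K₀(x) dx · W(r) cosh r` for `s ≤ 2` (by `mellin_scale` the integral is
`W(r) (cosh r)^(-1) (κ m / cosh r)^(-s)` times the Mellin transform of `K₀`). (`H90TG`.) -/
theorem majorant_inner {κ : ℝ} (hκ : 0 < κ) {W : ℝ → ℝ} (hW0 : ∀ r, 0 ≤ W r) {s m : ℝ}
    (hs2 : s ≤ 2) (hm : 0 < m) (r : ℝ) :
    ∫ y in Ioi (0 : ℝ), W r * ((Real.cosh r)⁻¹ * (y ^ (s - 1) *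
        H22Z.K0 (κ * m / Real.cosh r * y))) ≤
      (κ * m) ^ (-s) * (∫ x in Ioi (0 : ℝ), x ^ (s - 1) * H22Z.K0 x) * (W r * Real.cosh r) :=
  (H90T.integral_maj_inner hκ hm r).trans_le (H90T.inner_le hκ hW0 hs2 hm r)

/-- Hence the term of frequency `m` is integrable for `0 < s ≤ 2`, and the integral of its absolute
value is at most `m^(-s)` times a constant. (`H90TG`.) -/
theorem integral_norm_term {κ : ℝ} (hκ : 0 < κ) {W : ℝ → ℝ} (hW0 : ∀ r, 0 ≤ W r)
    (hWm : Measurable W) (hW : Integrable fun r => W r * Real.cosh r) {s m : ℝ} (hs : 0 < s)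
    (hs2 : s ≤ 2) (hm : 0 < m) :
    Integrable (H90T.term κ W s m) ((volume.restrict (Ioi (0 : ℝ))).prod volume) ∧
      ∫ p, ‖H90T.term κ W s m p‖ ∂((volume.restrict (Ioi (0 : ℝ))).prod volume) ≤
        m ^ (-s) * (κ ^ (-s) * (∫ x in Ioi (0 : ℝ), x ^ (s - 1) * H22Z.K0 x) *
          ∫ r, W r * Real.cosh r) :=
  ⟨H90T.integrable_term hκ hW0 hWm.aestronglyMeasurable hW hs hs2 hm,
    H90T.integral_norm_term_le hκ hW0 hWm.aestronglyMeasurable hW hs hs2 hm⟩

/-- **The frequency `m` contributes `m^(-s) G(s)`**: substitute `y = x / m`. (`H90TG`.) -/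
theorem integral_term {κ : ℝ} (hκ : 0 < κ) {W : ℝ → ℝ} (hW0 : ∀ r, 0 ≤ W r)
    (hWm : Measurable W) (hW : Integrable fun r => W r * Real.cosh r) {s m : ℝ} (hs : 0 < s)
    (hs2 : s ≤ 2) (hm : 0 < m) :
    ∫ p, H90T.term κ W s m p ∂((volume.restrict (Ioi (0 : ℝ))).prod volume) =
      m ^ (-s) * H90T.G κ W s :=
  H90T.integral_term hκ hW0 hWm.aestronglyMeasurable hW hs hs2 hm

/-- **Exchange of sum and integral**: for coefficients `c_i` and frequencies `m_i > 0` with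
`∑ |c_i| m_i^(-s) < ∞`. (`H90TG`, by `integral_norm_term` and `integral_term`.) -/
theorem sum_of_frequencies {κ : ℝ} (hκ : 0 < κ) {W : ℝ → ℝ} (hW0 : ∀ r, 0 ≤ W r)
    (hWm : Measurable W) (hW : Integrable fun r => W r * Real.cosh r) {s : ℝ} (hs : 0 < s)
    (hs2 : s ≤ 2) {ι : Type*} [Countable ι] (c m : ι → ℝ) (hm : ∀ i, 0 < m i)
    (hc : Summable fun i => |c i| * m i ^ (-s)) :
    ∫ p, ∑' i, c i * H90T.term κ W s (m i) p ∂((volume.restrict (Ioi (0 : ℝ))).prod volume) =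
      (∑' i, c i * m i ^ (-s)) * H90T.G κ W s :=
  H90T.hasSum_unfold hκ hW0 hWm.aestronglyMeasurable hW hs hs2 c m hm hc

/-- `G(1) > 0` for `W > 0`. In `G(1) = (π/2) κ^(-1) ∫ W(r)/cosh r dr` (`tendsto_G` of `GuideOctT2`)
the integral over `y` is `integral_K0_cos` with `a = κ/cosh r`, `b = κ tanh r`, `a² + b² = κ²`.
(`H90TG`.) -/
theorem G_one_pos {κ : ℝ} (hκ : 0 < κ) {W : ℝ → ℝ} (hW0 : ∀ r, 0 < W r) (hWm : Measurable W)
    (hW : Integrable fun r => W r * Real.cosh r) : 0 < H90T.G κ W 1 :=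
  H90T.G_one_pos hκ hW0 hWm.aestronglyMeasurable hW

/-! ### 4. The Fourier expansion on the planes `Im z = u` -/

/-- The term of the expansion of `F` at `α = a + b ω` (`eisEquiv (a, b)`), as a function of the real
part `x` of `z = x + i u`: a constant times `exp(2πi b x)`. (`H90TSlice`; `2 Re(α z/√-3)` is
`b x + (2a - b) u/√3`.) -/
theorem term_on_slice (c : Eis → ℝ) (a b : ℤ) (x u Y : ℝ) (hY : 0 < Y) :
    fterm c ⟨⟨x, u⟩, Y, hY⟩ (eisEquiv (a, b)) =
      (c (eisEquiv (a, b)) * Y * H22Z.K0 (4 * π * ‖((eisEquiv (a, b) : Eis) : ℂ)‖ * Y / √3) : ℝ) *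
        ee (((2 * a - b) * u / √3 : ℝ)) * Complex.exp ((2 * π * Complex.I * b) * x) :=
  H90T.fterm_slice c a b x u Y hY

/-- Its mean value over `0 ≤ x ≤ 1`: zero unless `b = 0`, that is `α = a ∈ ℤ`. (`H90TSlice`.) -/
theorem mean_value (c : Eis → ℝ) (a b : ℤ) (u Y : ℝ) (hY : 0 < Y) :
    ∫ x in (0 : ℝ)..1, fterm c ⟨⟨x, u⟩, Y, hY⟩ (eisEquiv (a, b)) =
      if b = 0 then (c (a : Eis) * Y * H22Z.K0 (4 * π / √3 * |(a : ℝ)| * Y) : ℝ) *
        ee ((2 * a * u / √3 : ℝ)) else 0 :=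
  H90T.integral_fterm c a b u Y hY

/-- The terms at `a` and `-a` together give a cosine, `e(t) = exp(2πi t)`; and the absolute value of
a term does not depend on `z`, which is used for the termwise integration. (`H90TSlice`; `S47T.K0`
is the same function as `H22Z.K0`.) -/
theorem cosine_and_norm (t : ℝ) (c : Eis → ℝ) (w : H3) (α : Eis) :
    ee (t : ℂ) + ee ((-t : ℝ) : ℂ) = ((2 * Real.cos (2 * π * t) : ℝ) : ℂ) ∧
      ‖fterm c w α‖ = |c α * w.y * S47T.K0 (4 * π * ‖(α : ℂ)‖ * w.y / √3)| :=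
  ⟨H90T.ee_add_neg t, H90T.norm_fterm c w α⟩

/-! ### 5. The function on the upper half plane

`f(τ) = ∫ F(τ, r) W(r) dr`. -/

/-- `f` is measurable. (`H90TUnf`.) -/
theorem fibre_integral_measurable {F : H3 → ℂ} (hF : Continuous F) {W : ℝ → ℝ}
    (hW : Measurable W) : Measurable fun τ : ℍ => ∫ r, F (H90T.pt (τ, r)) * (W r : ℂ) :=
  H90T.measurable_ff hF hW

/-- `f` is invariant under `Γ₀(N) ⊂ SL₂(ℤ)`, since the group acts on the first coordinate only.
(`H90TUnf`.) -/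
theorem fibre_integral_invariant {N : ℕ} {F : H3 → ℂ}
    (hF : ∀ g ∈ Gam N, ∀ w, F (g • w) = F w) (W : ℝ → ℝ) {g : SL(2, ℤ)} (hg : g ∈ Gamma0 N)
    (τ : ℍ) : ∫ r, F (H90T.pt (g • τ, r)) * (W r : ℂ) = ∫ r, F (H90T.pt (τ, r)) * (W r : ℂ) :=
  H90T.ff_smul hF hg τ

/-- `f` decays at all cusps: if `|F(w)| ≤ C ht(w)^(-2)`, where `ht(w)` is the largest `y`-coordinate
in the orbit of `w` under `SL₂(ℤ[ω])`, then `|f(τ)| ≤ C ∫ W cosh² · (Im g τ)^(-2)` for all
`g ∈ SL₂(ℤ)`, because `ht(τ, r) ≥ Im (g τ) / cosh r`. This is the hypothesis of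
`bounded_of_period_zero` in `GuideOctT2`. (`H90TUnf`.) -/
theorem fibre_integral_decay {F : H3 → ℂ} {C : ℝ} (hC : ∀ w, ‖F w‖ * ht Eis w ^ 2 ≤ C)
    {W : ℝ → ℝ} (hW0 : ∀ r, 0 ≤ W r) (hW : Integrable fun r => W r * Real.cosh r ^ 2)
    (g : SL(2, ℤ)) (τ : ℍ) : ‖∫ r, F (H90T.pt (τ, r)) * (W r : ℂ)‖ ≤
      (C * ∫ r, W r * Real.cosh r ^ 2) * ((g • τ).im ^ 2)⁻¹ :=
  H90T.norm_ff_le hC hW0 hW g τ

/-- **The integral over `x` and `r` for fixed `y`**: `y^(s-2) ∫_0^1 f(x + i y) dx` is twice the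
integral over `r` of the sum over `n ≥ 1` of `c(n)` times the term of frequency `n` (section 3, with
`κ = H90T.kap = 4π/√3`). Together with `sum_of_frequencies` this gives `strip_integral` of
`GuideOctT2`. (`H90TUnf`, from `slice` of `GuideOctT2`.) -/
theorem integral_slice {N : ℕ} {c : Eis → ℝ} {F : H3 → ℂ} (h : ICT N c F) {W : ℝ → ℝ}
    (hW0 : ∀ r, 0 ≤ W r) (hWm : Measurable W) (hW : Integrable W) {y : ℝ} (hy : 0 < y) (s : ℝ) :
    (∫ x in (0 : ℝ)..1, (∫ r, F (H90T.pt (⟨⟨x, y⟩, hy⟩, r)) * (W r : ℂ)) * ((y ^ s : ℝ) : ℂ)) *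
        (((y ^ 2)⁻¹ : ℝ) : ℂ) =
      ((2 * ∫ r, ∑' n : ℕ, c ((n + 1 : ℕ) : Eis) *
        H90T.term (4 * π / √3) W s (n + 1 : ℝ) (y, r) : ℝ) : ℂ) :=
  H90T.integral_slice h hW0 hWm hW hy s

/-- The series `D(s) = ∑ c(n) n^(-s)`, with the term at `n = 0` (which is zero) and without it.
(`H90TUnf`.) -/
theorem series_shift {N : ℕ} {c : Eis → ℝ} {F : H3 → ℂ} (h : ICT N c F) {s : ℝ}
    (hsum : Summable fun n : ℕ => c (n : Eis) / (n : ℝ) ^ s) :
    (Summable fun n : ℕ => |c ((n + 1 : ℕ) : Eis)| * (n + 1 : ℝ) ^ (-s)) ∧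
      ∑' n : ℕ, c ((n + 1 : ℕ) : Eis) * (n + 1 : ℝ) ^ (-s) =
        ∑' n : ℕ, c (n : Eis) / (n : ℝ) ^ s :=
  H90T.tsum_shift h hsum

/-! ### 6. The Gaussian weight -/

/-- The weight of the application is `W(r) = exp(-4π (sinh r)²/3) cosh² r`: the Gaussian
`exp(-4π v t²)` of `period_eq_zero` in `GuideOctT2` at `v = 1` and `t = Im z/(√3 y)`, times the
density `cosh² r` of the measure; in the coordinates `Im z / y` is `sinh r`. (`H90T56`,
`H90TCoord`.) -/
theorem weight (τ : ℍ) (r : ℝ) :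
    H90T.W1 r = Real.exp (-(4 * π * 1 * (Real.sinh r / √3) ^ 2)) * Real.cosh r ^ 2 ∧
      (H90T.pt (τ, r)).z.im / (H90T.pt (τ, r)).y = Real.sinh r :=
  ⟨rfl, by simpa [H90T.ptInv] using congrArg (fun p => Real.sinh p.2) (H90T.ptInv_pt (τ, r))⟩

/-- The weight is positive and continuous, and `∫ W(r) cosh² r dr < ∞`: the integrand is at most
`exp(-r²)`, because `cosh² r ≤ exp(sinh² r)`, `4π/3 - 2 ≥ 1` and `sinh² r ≥ r²`. (`H90T56`.) -/
theorem weight_properties : (∀ r, 0 < H90T.W1 r) ∧ Continuous H90T.W1 ∧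
    Integrable fun r => H90T.W1 r * Real.cosh r ^ 2 :=
  ⟨H90T.W1_pos, H90T.continuous_W1, H90T.integrable_W1⟩

end Fermat.Agent.Guide.Period
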