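import Fermat.Agent.H49LTA

/-!
# Reader's guide: residual modularity at 3 without the theorem of Langlands and Tunnell

Block LT (used by S01, S03, S04, S06, S45 and, through block LT-X, by S38, S46, S50, S59, S60). Notes:
section 3.6 and Appendix A.8, in particular [163] NOTES-LT. No file of the library imports this one; every
proof is the citation of a theorem of the library, so it is a table of contents of the block that is
checked by Lean. The theorems on which the statements below rest are in `GuideResidualSteps`, block by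
block, and in `GuideResidualTheta` (for section 5); the passage from even discriminant to all semistable
curves, S50 and S46 are in `GuideResidualThree`. The blocks step by step: GuideGoodCurve (M1),
GuideTwoAdicCurve (E), GuideSelmerTwo and GuideTwoReciprocity (M6), GuideTSide (TA), GuideDihedral (M4, M5,
C), GuideGenus, GuideClassBound and GuideCubicCharacter (M5), GuideGluing (C), GuideTypeAtTwo (M8). All
theorems cited in this file are in the closure of S01.

**The result** (section 1). Let `W` be a semistable elliptic curve over `ℚ` with even discriminant. Then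
`W[3]` is modular, of a squarefree level. In the classical proof this comes from the theorem of
Langlands and Tunnell (a weight one form for the octahedral representation `W[3]`). Here it is proved
2-adically:

* section 2 (M1): `W` is replaced by a curve `E'` with the same 3-torsion, negative even discriminant, all
  valuations of the discriminant odd. Then `E'[2]` is induced from an unramified cubic character of
  `K = ℚ(√-N)`, `N` the product of the bad primes, and ramified at all of them.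
* section 3 (E): the representation on the 2-adic Tate module of `E'` and its local types.
* section 4 (M6): auxiliary primes `Q` (Steinberg, with sign), at which Frobenius acts like complex
  conjugation modulo `2ⁿ`, and which kill the Selmer group of `E'[2]`; at most `d` of them for all `n`.
* section 5 (TA): products of two binary theta series give an explicit mod 2 eigenform of weight 2 and
  level `N ∏ Q`, with coefficients in the group algebra `𝔽₄[C₂ × μ₂^Q]` (`C₂` the 2-part of the class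
  group of `K`).
* section 6 (M4, M5): a deformation of a dihedral representation in characteristic 2, with the given local
  types and vanishing Selmer group, is again dihedral (M4). Unramified abelian 2-extensions of `K` are not
  larger than `C₂` (first inequality, density theorem of Frobenius), and the map to the group algebra is
  surjective (genus theory) (M5).
* section 7 (C): sections 4-6 force the curve modulo `2^m` to be a point of the Hecke ring, whose rank is
  bounded independently of `m`.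
* section 8 (M8): the local types of the 2-adic representations of eigenforms, needed for sections 6, 7.
* section 9 (M7): there are eigenforms of level `N ∏ Q` congruent to `E'` modulo `2ⁿ`, for all `n`.
  Mazur's principle modulo `2^m` removes `Q`; then `n → ∞` at level `N` shows that `E'` is modular, so
  `W[3] = E'[3]` is modular.

**Notation.** `Qb = AlgebraicClosure ℚ`, `GQ = Qb ≃ₐ[ℚ] Qb`, `M2 A = Matrix (Fin 2) (Fin 2) A`;
`mapMat f r` is the representation `r` with the ring homomorphism `f` applied to its coefficients;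
`MCont A r` says that `r` is continuous for the topology of the maximal ideal (for every `n` it is
trivial modulo `𝔪ⁿ` on the Galois group of a number field); `FinLevel f`: `f (g σ) = f g` for all `σ`
fixing some number field. A place of `Qb` above `ℓ` is a valuation subring `P` with `P.LiesOverPrime ℓ`;
`P.decompositionSubgroup ℚ` and `P.inertiaSubgroupIn ℚ` are its decomposition and inertia group,
`P.IsFrobeniusAt φ ℓ` says that `φ` is a Frobenius element (see GuideAbsGal). `UnrAt ℓ r`: `r` is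
trivial on the inertia groups above `ℓ`; `FrobAt ℓ a r`: the Frobenius elements above `ℓ` have trace `a`
and determinant `ℓ`; `TypeAt` see `typeAt_iff`. `W.apOfModel ℓ` is `a_ℓ(W) = ℓ + 1 - #W(𝔽_ℓ)`,
`W.IsGoodPrimeFor ℓ` means `ℓ ∤ Δ(W)`, `W.IsSemistableModel` that no prime divides both `Δ(W)` and
`c₄(W)`. `bad W` is the set and `cond W = N` the product of the bad primes; `GK N` is the Galois group
of `ℚ(√-N)`. `C2' K` is the class group of `K` modulo the classes of odd order,
`C2Q K Q = C2' K × ∏_{q ∈ Q} μ₂`, `deltaQ K Q q` the generator of the factor of `q`, `primesOver K ℓ`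
the set of the prime ideals of norm `ℓ`, `cls K P` the class of `P`. `heckeAlgebra L 2 S` is the ring
generated by the `T_ℓ` (`ℓ ∤ L`) and `U_ℓ` (`ℓ ∣ L`), `ℓ ∉ S`, on the cusp forms of weight 2 for
`Γ₀(L)`; `qCoeff f n` is the `n`-th coefficient of `f`.

Authors of the texts: helper49 (plan and spine), 54, 55, 73, 34, 65, 80, 91. Authors of the library files:
see NOTES.md.
-/

set_option autoImplicit false

noncomputable section

open WeierstrassCurve CuspForm ModularFormClass IsLocalRing Matrix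
open scoped NumberField

namespace Fermat.Agent.Guide.Residual

open Fermat.Agent.H53 (GQ M2 mapMat MCont)
open Fermat.Agent.LT

/-! ## 1. The results -/

/-- **Residual modularity at 3.** Let `W` be a Weierstrass equation with integral coefficients,
semistable at every prime (`IsSemistableModel`: at each prime dividing the discriminant `c₄` is a
unit), with even discriminant. Then there are a squarefree level `M` and a normalised eigenform `f` of
weight 2 on `Γ₀(M)` whose coefficients are congruent to those of `W` modulo a maximal ideal above `3`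
of the ring of all algebraic integers. `3` and `5` divide `M` only if they divide the discriminant.
No irreducibility of `W[3]` is assumed. File `H49LTA` (`H49.LTF.ltA`). Used for S01, S03, S04, S06, S38,
S45, S46, S50, S59, S60. -/
theorem even_discriminant (W : WeierstrassCurve ℤ) (hΔ : W.Δ ≠ 0) (hW : W.IsSemistableModel)
    (h2 : (2 : ℤ) ∣ W.Δ) :
    ∃ M : ℕ, 0 < M ∧ Squarefree M ∧ (3 ∣ M → (3 : ℤ) ∣ W.Δ) ∧ (5 ∣ M → (5 : ℤ) ∣ W.Δ) ∧
      ∃ (f : CuspForm (CongruenceSubgroup.Gamma0 M) 2) (𝔪 : Ideal (integralClosure ℤ ℂ)),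
        f.IsNormalizedEigenform ∧ 𝔪.IsMaximal ∧ (3 : integralClosure ℤ ℂ) ∈ 𝔪 ∧
        ∀ ℓ : ℕ, ℓ.Prime → W.IsGoodPrimeFor ℓ → ¬ ℓ ∣ M → ℓ ≠ 3 →
          ∃ a : integralClosure ℤ ℂ, (a : ℂ) = qCoeff f ℓ ∧
            a - ((W.apOfModel ℓ : ℤ) : integralClosure ℤ ℂ) ∈ 𝔪 :=
  H49.LTF.ltA W hΔ hW h2

/-- The class of curves for which modularity is proved directly (`GoodCurve`): semistable, negative
even discriminant, **all** valuations of the discriminant odd, and a bad prime `≡ -1 mod 24`.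
`N` below is the product of the bad primes (`cond W`), so `ℚ(√Δ) = ℚ(√-N)`. -/
theorem goodCurve_iff (W : WeierstrassCurve ℤ) : GoodCurve W ↔
    W.IsSemistableModel ∧ W.Δ < 0 ∧ (2 : ℤ) ∣ W.Δ ∧
    (∀ ℓ : ℕ, ℓ.Prime → (ℓ : ℤ) ∣ W.Δ → Odd (padicValInt ℓ W.Δ)) ∧
    ∃ r : ℕ, r.Prime ∧ r % 24 = 23 ∧ (r : ℤ) ∣ W.Δ :=
  ⟨fun h => ⟨h.ss, h.neg, h.two, h.odd_val, h.r2⟩, fun h => ⟨h.1, h.2.1, h.2.2.1, h.2.2.2.1, h.2.2.2.2⟩⟩

/-- **Good curves are modular**, of level the product of the bad primes: there is a normalised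
eigenform of weight 2 on `Γ₀(N)` with `a_p(f) = a_p(W)` at all primes `p` of good reduction. Of the 60
statements only S18 and S22 are used in the proof, so neither level lowering nor modularity lifting. Files
`H49LTFinal`, `H49LTA`. -/
theorem goodCurve_modular (W : WeierstrassCurve ℤ) (hW : GoodCurve W) :
    ∃ N : ℕ, 0 < N ∧ Squarefree N ∧ (∀ q : ℕ, q.Prime → (q ∣ N ↔ (q : ℤ) ∣ W.Δ)) ∧
      ∃ f : CuspForm (CongruenceSubgroup.Gamma0 N) 2, f.IsNormalizedEigenform ∧
        ∀ p : ℕ, p.Prime → W.IsGoodPrimeFor p → ¬ p ∣ N → qCoeff f p = (W.apOfModel p : ℂ) :=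
  H49.LTF.exact_of_goodCurve H49.LTF.blockC H49.LTF.blockM7 W hW

/-! ## 2. M1: the auxiliary curve -/

/-- **M1.** Every semistable curve with even discriminant has a good partner `W'` with the same
coefficients modulo 3 (`W'` is a member of the Hesse pencil of curves with 3-torsion `W[3]`); 3 and 5
are bad for `W'` only if they are bad for `W`. The proof is a squarefree sieve for a quartic binary
form. File `H3LTM1`; steps: GuideGoodCurve; see also A.8 [267]. -/
theorem m1_partner (W : WeierstrassCurve ℤ) (hΔ : W.Δ ≠ 0) (hW : W.IsSemistableModel)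
    (h2 : (2 : ℤ) ∣ W.Δ) : ∃ W' : WeierstrassCurve ℤ, GoodCurve W' ∧
      ((3 : ℤ) ∣ W'.Δ → (3 : ℤ) ∣ W.Δ) ∧ ((5 : ℤ) ∣ W'.Δ → (5 : ℤ) ∣ W.Δ) ∧
      ∀ ℓ : ℕ, ℓ.Prime → W.IsGoodPrimeFor ℓ → W'.IsGoodPrimeFor ℓ → ℓ ≠ 3 →
        (3 : ℤ) ∣ W'.apOfModel ℓ - W.apOfModel ℓ :=
  H3LT.exists_goodCurve W hΔ hW h2

/-! ## 3. E: the 2-adic representation of a good curve -/

/-- The local condition at a bad prime `v` (`TypeAt v s r`, "Steinberg type with sign `s`"), for a
matrix representation `r` over any ring: on the decomposition group of every place above `v` there is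
an unramified quadratic character `χ` with `χ(Frob) = s` and
`(r g - det(r g) χ(g)) (r g' - χ(g')) = 0` for all `g, g'`. It is closed, stable under conjugation and
needs no filtration; this is what makes the deformation arguments elementary. -/
theorem typeAt_iff (v : ℕ) {A : Type} [CommRing A] (s : A) (r : GQ →* M2 A) : TypeAt v s r ↔
    ∀ P : ValuationSubring (AlgebraicClosure ℚ), P.LiesOverPrime v → ∃ χ : GQ → A,
      (∀ g ∈ P.decompositionSubgroup ℚ, χ g ^ 2 = 1) ∧
      (∀ g ∈ P.decompositionSubgroup ℚ, ∀ h ∈ P.decompositionSubgroup ℚ, χ (g * h) = χ g * χ h) ∧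
      (∀ g ∈ P.inertiaSubgroupIn ℚ, χ g = 1) ∧
      (∀ φ : GQ, P.IsFrobeniusAt φ v → χ φ = s) ∧
      ∀ g ∈ P.decompositionSubgroup ℚ, ∀ g' ∈ P.decompositionSubgroup ℚ,
        (r g - ((r g).det * χ g) • (1 : M2 A)) * (r g' - χ g' • (1 : M2 A)) = 0 :=
  Iff.rfl

/-- The Galois group of `K = ℚ(√-N)`: the automorphisms which fix the square roots of `-N`. -/
theorem mem_GK_iff (N : ℕ) (σ : GQ) : σ ∈ GK N ↔ ∀ x : Qb, x ^ 2 = -(N : Qb) → σ x = x :=
  Iff.rfl

/-- **The data of block E** (`EData W r s`), written out: `r` is continuous (`MCont`), its determinant is the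
cyclotomic character; at the good primes `ℓ ≠ 2` it is unramified and Frobenius has trace `a_ℓ(W)` and
determinant `ℓ`; at **every** bad prime `v` (2 included) it is of Steinberg type with the sign `s v = ± 1`;
modulo 2 it is surjective onto `GL₂(𝔽₂) = S₃`, the even elements are those of `G_K`, `K = ℚ(√-N)`, it is
ramified at every bad prime, and nontrivial at every complex conjugation. -/
theorem eData_iff (W : WeierstrassCurve ℤ) (r : GQ →* M2 ℤ_[2]) (s : ℕ → ℤ) : EData W r s ↔
    (∀ n : ℕ, ∃ L : IntermediateField ℚ Qb, FiniteDimensional ℚ L ∧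
      ∀ σ : GQ, (∀ x ∈ L, σ x = x) → ∀ i j, r σ i j - (1 : M2 ℤ_[2]) i j ∈ maximalIdeal ℤ_[2] ^ n) ∧
    (∀ (n : ℕ) (σ : GQ) (a : ℕ), (∀ ζ : Qb, ζ ^ 2 ^ n = 1 → σ ζ = ζ ^ a) →
      (r σ).det - (a : ℤ_[2]) ∈ Ideal.span {((2 ^ n : ℕ) : ℤ_[2])}) ∧
    (∀ ℓ : ℕ, ℓ.Prime → ¬ (ℓ : ℤ) ∣ W.Δ → ℓ ≠ 2 → ∀ P : ValuationSubring Qb, P.LiesOverPrime ℓ →
      (∀ σ ∈ P.inertiaSubgroupIn ℚ, r σ = 1) ∧ ∀ φ : GQ, P.IsFrobeniusAt φ ℓ →
        (r φ).trace = ((W.apOfModel ℓ : ℤ) : ℤ_[2]) ∧ (r φ).det = (ℓ : ℤ_[2])) ∧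
    (∀ v, s v = 1 ∨ s v = -1) ∧
    (∀ v : ℕ, v.Prime → (v : ℤ) ∣ W.Δ → TypeAt v ((s v : ℤ) : ℤ_[2]) r) ∧
    (∀ M : M2 (ZMod 2), M.det ≠ 0 → ∃ g, mapMat PadicInt.toZMod r g = M) ∧
    (∀ g : GQ, g ∈ GK (cond W) ↔
      mapMat PadicInt.toZMod r g = 1 ∨ (mapMat PadicInt.toZMod r g).trace = 1) ∧
    (∀ v : ℕ, v.Prime → (v : ℤ) ∣ W.Δ → ∀ P : ValuationSubring Qb, P.LiesOverPrime v →
      ∃ σ ∈ P.inertiaSubgroupIn ℚ, mapMat PadicInt.toZMod r σ ≠ 1) ∧
    ∀ c : GQ, c * c = 1 → c ≠ 1 → mapMat PadicInt.toZMod r c ≠ 1 :=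
  ⟨fun h => ⟨h.cont, h.det_cyc, fun ℓ a b c P hP => ⟨h.unr ℓ a b c P hP, h.frob ℓ a b c P hP⟩,
    h.sign, h.type, h.surj, h.mem_GK, h.ram, h.conj⟩,
   fun ⟨a, b, c, d, e, f, g, h, i⟩ => ⟨a, b, fun ℓ x y z P hP => (c ℓ x y z P hP).1,
    fun ℓ x y z P hP => (c ℓ x y z P hP).2, d, e, f, g, h, i⟩⟩

/-- **Block E.** Every good curve has such data: `r` is the representation on the 2-adic Tate module, in a
basis, and `s v = 1` if and only if the tangents at the node of `W` modulo `v` are rational. At a bad prime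
`v` (2 included) the points which do not reduce to the node form a 2-divisible group; it gives the line in
the Tate module which is stable under the decomposition group. The Tate curve is not used. Files
`H73LTNode`, `H73LTEData`; steps: GuideTwoAdicCurve. -/
theorem e_two_adic (W : WeierstrassCurve ℤ) (hW : GoodCurve W) :
    ∃ (r : GQ →* M2 ℤ_[2]) (s : ℕ → ℤ), EData W r s :=
  H73LT.blockE W hW

/-! ## 4. M6: auxiliary primes -/

/-- **Auxiliary primes of level `n`** (`AuxPrime r N n q`): `q ∤ N`, `q ≡ -1 mod 2ⁿ`, and every Frobenius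
element at `q` acts modulo `2ⁿ` like complex conjugation: square 1, trace 0, nontrivial modulo 2. -/
theorem auxPrime_iff (r : GQ →* M2 ℤ_[2]) (N n q : ℕ) : AuxPrime r N n q ↔
    q.Prime ∧ ¬ q ∣ N ∧ 2 ^ n ∣ q + 1 ∧
    ∀ P : ValuationSubring Qb, P.LiesOverPrime q → ∀ φ : GQ, P.IsFrobeniusAt φ q →
      mapMat (PadicInt.toZModPow n) r (φ * φ) = 1 ∧
        (mapMat (PadicInt.toZModPow n) r φ).trace = 0 ∧ mapMat PadicInt.toZMod r φ ≠ 1 :=
  ⟨fun h => ⟨h.prime, h.notdvd, h.cong, h.sq⟩, fun ⟨a, b, c, d⟩ => ⟨a, b, c, d⟩⟩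

/-- **Selmer cocycles** (`IsSel rb S b`, `S` the set of the bad primes and of `Q`): 1-cocycles `b` of finite
level with values in `𝔽₂²`, on which `G_ℚ` acts by `rb`, unramified outside `S`, and at every place above
`v ∈ S` with values fixed by the decomposition group, up to a coboundary. -/
theorem isSel_iff (rb : GQ →* M2 (ZMod 2)) (S : Set ℕ) (b : GQ → Fin 2 → ZMod 2) : IsSel rb S b ↔
    (∀ g h, b (g * h) = b g + (rb g).mulVec (b h)) ∧
    (∃ L : IntermediateField ℚ (AlgebraicClosure ℚ), FiniteDimensional ℚ L ∧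
      ∀ g σ : GQ, (∀ x ∈ L, σ x = x) → b (g * σ) = b g) ∧
    (∀ ℓ : ℕ, ℓ.Prime → ℓ ∉ S → ∀ P : ValuationSubring (AlgebraicClosure ℚ), P.LiesOverPrime ℓ →
      ∀ σ ∈ P.inertiaSubgroupIn ℚ, b σ = 0) ∧
    ∀ v : ℕ, v.Prime → v ∈ S → ∀ P : ValuationSubring (AlgebraicClosure ℚ), P.LiesOverPrime v →
      ∃ x : Fin 2 → ZMod 2, ∀ g ∈ P.decompositionSubgroup ℚ, ∀ h ∈ P.decompositionSubgroup ℚ,
        (rb h).mulVec (b g - ((rb g).mulVec x - x)) = b g - ((rb g).mulVec x - x) :=
  ⟨fun h => ⟨h.cocycle, h.fin, h.unr, h.line⟩, fun h => ⟨h.1, h.2.1, h.2.2.1, h.2.2.2⟩⟩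

/-- **Block M6** (Khare's auxiliary Steinberg primes). There is a bound `d` such that for every `n` there
is a set `Q` of at most `d` primes `q ∤ N` with `q ≡ -1 mod 2ⁿ`, every Frobenius at `q` acting on `E'[2ⁿ]`
like complex conjugation (square 1, trace 0, not 1 modulo 2), such that every cocycle `b : G_ℚ → E'[2]` of
finite level, unramified outside the bad primes and `Q`, and locally at these primes with values in the
invariant line up to a coboundary, is a coboundary. Files `H6MDDefs`, `H6MDBlock`, `H6MDRec`, `H6MDM6`. How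
one prime is found and why the Selmer group decreases: `GuideResidualSteps`, section M6 (`reciprocity`
replaces Poitou-Tate duality; its proof is in GuideTwoReciprocity), and, step by step, GuideSelmerTwo. -/
theorem m6_auxiliary_primes (W : WeierstrassCurve ℤ) (r : GQ →* M2 ℤ_[2]) (s : ℕ → ℤ)
    (hW : GoodCurve W) (hE : EData W r s) :
    ∃ d : ℕ, ∀ n : ℕ, ∃ Q : Finset ℕ, Q.card ≤ d ∧
      (∀ q ∈ Q, q.Prime ∧ ¬ q ∣ cond W ∧ 2 ^ n ∣ q + 1 ∧
        ∀ P : ValuationSubring (AlgebraicClosure ℚ), P.LiesOverPrime q →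
          ∀ φ : GQ, P.IsFrobeniusAt φ q → mapMat (PadicInt.toZModPow n) r (φ * φ) = 1 ∧
            (mapMat (PadicInt.toZModPow n) r φ).trace = 0 ∧ mapMat PadicInt.toZMod r φ ≠ 1) ∧
      ∀ b : GQ → Fin 2 → ZMod 2, IsSel (mapMat PadicInt.toZMod r) (↑(bad W) ∪ ↑Q) b →
        ∃ x : Fin 2 → ZMod 2, ∀ g, b g = (mapMat PadicInt.toZMod r g).mulVec x - x := by
  obtain ⟨d, h⟩ := H6.MD.blockM6_holds W r s hW hE
  exact ⟨d, fun n => (h n).imp fun Q hQ => ⟨hQ.1, fun q hq => ⟨(hQ.2.1 q hq).prime,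
    (hQ.2.1 q hq).notdvd, (hQ.2.1 q hq).cong, (hQ.2.1 q hq).sq⟩, hQ.2.2⟩⟩

/-! ## 5. TA: the theta side -/

/-- `primesOver K ℓ` is the finite set of the prime ideals of norm `ℓ` (none if `ℓ` is inert in the
quadratic field `K`), and `cls K P` the class of `P ≠ 0` in the class group. -/
theorem mem_primesOver (K : Type) [Field K] [NumberField K] (ℓ : ℕ) (P : Ideal (𝓞 K)) :
    (P ∈ primesOver K ℓ ↔ P.IsPrime ∧ Ideal.absNorm P = ℓ) ∧
      ∀ h : P ∈ nonZeroDivisors (Ideal (𝓞 K)), cls K P = ClassGroup.mk0 ⟨P, h⟩ :=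
  ⟨by simp [primesOver], fun h => by simp [cls, h]⟩

/-- `C₂`: the class group modulo the classes of odd order; `C2Q K Q` is its product with a group of order 2
for every `q ∈ Q`. -/
theorem c2_def (K : Type) [Field K] [NumberField K] (Q : Finset ℕ) :
    C2' K = (ClassGroup (𝓞 K) ⧸ Subgroup.closure {c : ClassGroup (𝓞 K) | Odd (orderOf c)}) ∧
      C2Q K Q = (C2' K × ({q // q ∈ Q} → Multiplicative (ZMod 2))) ∧
      ∀ q : {q // q ∈ Q}, deltaQ K Q q = (1, Pi.mulSingle q (Multiplicative.ofAdd 1)) :=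
  ⟨rfl, rfl, fun q => by simp [deltaQ]⟩

/-- **The mod 2 eigenform with coefficients in a group algebra** (Theorem A'). Let `K = ℚ(√-N)`, `N > 2`
even and squarefree, `Q` a finite set of primes inert in `K`, `L = N ∏ Q`, `k` a field of characteristic 2
and `η : Cl(K) → kˣ` a nontrivial cubic character. Let `C2' K` be the quotient of `Cl(K)` by the classes of
odd order and `C2Q K Q = C2' K × ∏_{q ∈ Q} μ₂`. There is a homomorphism from the Hecke algebra of weight 2
and level `L` (without the operators at the primes dividing `N`) to the group algebra `k[C2Q K Q]`, with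
`T_ℓ ↦ Σ_{N(P) = ℓ} η(P) [P]` and `U_q ↦ [δ_q]` (the generator of the factor `μ₂` of `q`); it factors
through the action on the forms with `U_v² = 1` for `v = 2` and `v ∈ Q`. Proof: apply `(1/2)(T_r - 1 - r)`
and `U_4` to products of binary theta series; modulo 4 such a product is a sum. Files `H79TA1`, `H79TA2`,
`H79TA3`, `H79TA4`, `H79TA5`, `H79TA6`; steps: `GuideResidualTheta`, summary in its section 5. -/
theorem ta_theta_hom (k : Type) [Field k] [CharP k 2] {K : Type} [Field K]
    [NumberField K] {N : ℕ} (hK : Module.finrank ℚ K = 2) {w : 𝓞 K} (hw : w ^ 2 = -(N : 𝓞 K))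
    (hsq : Squarefree N) (h2N : 2 ∣ N) (hN2 : 2 < N) (Q : Finset ℕ)
    (hQ : ∀ q ∈ Q, q.Prime ∧ ¬ q ∣ N ∧ ¬ IsSquare ((-(N : ℤ) : ℤ) : ZMod q))
    (L : ℕ) [NeZero L] (hL : L = N * ∏ q ∈ Q, q) (η : ClassGroup (𝓞 K) →* kˣ) (hη : η ≠ 1)
    (hη3 : ∀ c, η c ^ 3 = 1) :
    ∃ Ψ : heckeAlgebra L 2 {v : ℕ | v ∣ N} →+* MonoidAlgebra k (C2Q K Q),
      (∀ (ℓ : ℕ) (hℓ : ℓ.Prime) (hℓL : ¬ ℓ ∣ L) (hS : ℓ ∉ {v : ℕ | v ∣ N}),
        Ψ (heckeAlgebra.T hℓ hℓL hS) = ∑ P ∈ primesOver K ℓ,
          MonoidAlgebra.single ((QuotientGroup.mk (cls K P) : C2' K),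
            (1 : {q // q ∈ Q} → Multiplicative (ZMod 2))) ((η (cls K P) : kˣ) : k)) ∧
      (∀ (q : ℕ) (hqQ : q ∈ Q) (hq : q.Prime) (hqL : q ∣ L) (hS : q ∉ {v : ℕ | v ∣ N}),
        Ψ (heckeAlgebra.U hq hqL hS) = MonoidAlgebra.single (deltaQ K Q ⟨q, hqQ⟩) 1) ∧
      ∀ t : heckeAlgebra L 2 {v : ℕ | v ∣ N},
        (∀ f : CuspForm (CongruenceSubgroup.Gamma0 L) 2,
          (∀ v : ℕ, v.Prime → (v = 2 ∨ v ∈ Q) → ∀ hvL : v ∣ L,
            heckeULin 2 hvL (heckeULin 2 hvL f) = f) →
          (t : Module.End ℂ (CuspForm (CongruenceSubgroup.Gamma0 L) 2)) f = 0) → Ψ t = 0 := by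
  obtain ⟨Ψ, h1, h3, h4⟩ := H79.TA.exists_theta_hom k ⟨hK, hw, hsq, h2N⟩ hN2 Q hQ L hL η hη hη3
  exact ⟨Ψ, h1, h3, fun t ht => h4 t fun f hf => ht f hf⟩

/-- The coefficient ring `O = W(𝔽₄)` of sections 5-8 is characterised by these properties:
a complete discrete valuation ring of characteristic 0 with uniformizer 2 and residue field `𝔽₄`. -/
theorem coefRing_iff (O : Type) [CommRing O] [IsDomain O] [IsDiscreteValuationRing O] : CoefRing O ↔
    CharZero O ∧ IsAdicComplete (maximalIdeal O) O ∧ maximalIdeal O = Ideal.span {(2 : O)} ∧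
      Nat.card (ResidueField O) = 4 :=
  ⟨fun h => ⟨h.char_zero, h.complete, h.two, h.card⟩, fun ⟨a, b, c, d⟩ => ⟨a, b, c, d⟩⟩

/-- **Block TA.** `O` is `W(𝔽₄)` (`coefRing_iff`), `Q` a set of primes `q ≡ 7 mod 8` inert in `K` and
`L = N ∏ Q`. There is a local Hecke ring `T`, finite and free over `O` and reduced, generated over `O` by
the images `t ℓ` of `T_ℓ` (`ℓ ∤ L`) and `u q` of `U_q` (`q ∈ Q`), with `u q ² = 1`, a homomorphism `π` to
the group ring of `ta_theta_hom`, and all of whose points in characteristic zero are normalised eigenforms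
of level `L` with `a_q = ± 1` (`q ∈ Q`) and `a_2 = ± 1`. So there are congruences between the theta form
and eigenforms for all sets `Q` at once: level raising for free. In the library these data form the
structure `TSide' O K η N Q L` (the theta side, file `H46LTDefsTA`). From `ta_theta_hom`: the algebra of
the forms with `U_v² = 1` (`H61TA`, `H61TB`, `H61TC`, `H61TD`, `H61TE`), its local factor over `O`
(`H81TS`, `H81TSide`, `H81TSide2`), `K = ℚ(√-N)` with discriminant `-4N` (`H96TAQuad`, `H96TAFinal`). File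
`H79TAFin`; steps: GuideTSide. -/
theorem ta_hecke_ring (O : Type) [CommRing O] [IsDomain O] [IsDiscreteValuationRing O] [CoefRing O]
    (K : Type) [Field K] [NumberField K] (N : ℕ) (hN : Squarefree N) (h2 : 2 ∣ N) (hN2 : 2 < N)
    (hK : Module.finrank ℚ K = 2) (hx : ∃ x : K, x ^ 2 = -(N : K)) (Q : Finset ℕ)
    (hQ : ∀ q ∈ Q, q.Prime ∧ ¬ q ∣ N ∧ q % 8 = 7 ∧ ¬ IsSquare ((-(N : ℤ) : ℤ) : ZMod q))
    (L : ℕ) [NeZero L] (hL : L = N * ∏ q ∈ Q, q) (η : ClassGroup (𝓞 K) →* (ResidueField O)ˣ)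
    (hη : η ≠ 1) (hη3 : ∀ c, η c ^ 3 = 1) :
    ∃ (T : Type) (_ : CommRing T) (_ : Algebra O T) (t u : ℕ → T)
      (pi : heckeAlgebra L 2 {v : ℕ | v ∣ N} →+* T)
      (π : T →+* MonoidAlgebra (ResidueField O) (C2Q K Q)),
      Module.Finite O T ∧ Module.Free O T ∧ IsLocalRing T ∧ IsReduced T ∧ (∀ q ∈ Q, u q ^ 2 = 1) ∧
      Algebra.adjoin O (t '' {ℓ | ℓ.Prime ∧ ¬ ℓ ∣ L} ∪ u '' (↑Q : Set ℕ)) = ⊤ ∧
      (∀ (ℓ : ℕ) (hℓ : ℓ.Prime) (hℓL : ¬ ℓ ∣ L) (hS : ℓ ∉ {v : ℕ | v ∣ N}),
        pi (heckeAlgebra.T hℓ hℓL hS) = t ℓ) ∧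
      (∀ (q : ℕ) (_ : q ∈ Q) (hq : q.Prime) (hqL : q ∣ L) (hS : q ∉ {v : ℕ | v ∣ N}),
        pi (heckeAlgebra.U hq hqL hS) = u q) ∧
      (∀ ℓ : ℕ, ℓ.Prime → ¬ ℓ ∣ L → π (t ℓ) = ∑ P ∈ primesOver K ℓ,
        MonoidAlgebra.single ((QuotientGroup.mk (cls K P) : C2' K),
          (1 : {q // q ∈ Q} → Multiplicative (ZMod 2)))
          ((η (cls K P) : (ResidueField O)ˣ) : ResidueField O)) ∧
      (∀ q : {q // q ∈ Q}, π (u q) = MonoidAlgebra.single (deltaQ K Q q) 1) ∧
      ∀ (F : Type) [Field F] [IsAlgClosed F] [CharZero F] (φ : T →+* F),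
        ∃ f : CuspForm (CongruenceSubgroup.Gamma0 L) 2, f.IsNormalizedEigenform ∧
          (∀ q ∈ Q, qCoeff f q = 1 ∨ qCoeff f q = -1) ∧ (qCoeff f 2 = 1 ∨ qCoeff f 2 = -1) ∧
          ∃ ι : integralClosure ℤ ℂ →+* F,
            (∀ ℓ : ℕ, ℓ.Prime → ¬ ℓ ∣ L → ∃ a : integralClosure ℤ ℂ, (a : ℂ) = qCoeff f ℓ ∧
              ι a = φ (t ℓ)) ∧
            (∀ q ∈ Q, ∃ a : integralClosure ℤ ℂ, (a : ℂ) = qCoeff f q ∧ ι a = φ (u q)) := by
  obtain ⟨X⟩ := H79.TA.statementT' O K N hN h2 hN2 hK hx Q hQ L hL η hη hη3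
  exact ⟨X.T, X.commRing, X.algebra, X.t, X.u, X.pi, X.π, X.finite, X.free, X.isLocal, X.reduced,
    X.u_sq, X.gen, X.pi_T, X.pi_U, X.π_t, X.π_u, X.point⟩

/-! ## 6. M4 and M5: deformations in characteristic 2 and unramified characters -/

/-- **Theorem B**: a deformation in characteristic 2 of a dihedral representation, with the local
conditions and vanishing Selmer group, is dihedral. `H` is a subgroup of index at most 2, `k` the
residue field (every nonzero element is a cube root of unity), `A` a finite local ring with `2 = 0`,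
`r` a representation over `A` of determinant 1, diagonal on `H` and antidiagonal off `H` after
reduction to `k`, of the type of `typeAt_iff` at the subgroups `D v` (which are not inside `H`), trivial
on the sets `I w` and `N`. (Application: `H = G_K`, the `D v` are the decomposition groups at the places
above the primes dividing the level, the `I w` the inertia groups at the other places, `N` is an open
subgroup.) The hypothesis `hSel` is the vanishing of the Selmer group: every cocycle with values in `k²`,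
invariant under `N`, zero on the `I w` and with `D v`-invariant values on `D v`, is a coboundary. Then `r`
is conjugate by a matrix congruent to 1 to a representation which is diagonal on `H` and antidiagonal off
`H`. Only `2 × 2` matrices are used. File `H69DihB`; steps: GuideDihedral. -/
theorem m4_dihedral {G : Type} [Group G] {H : Subgroup G} {k : Type} [Field k]
    (hH : ∀ a b : G, a * b ∈ H ↔ (a ∈ H ↔ b ∈ H)) (hk : ∀ y : k, y ≠ 0 → y ^ 3 = 1)
    {ι κ : Type} (D : ι → Subgroup G) (hD : ∀ v, ∃ g ∈ D v, g ∉ H) (I : κ → Set G) (N : Set G)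
    (A : Type) [CommRing A] [IsLocalRing A] [Finite A] (h2 : (2 : A) = 0) (π : A →+* k)
    (hπ : Function.Surjective π) (r : G →* Matrix (Fin 2) (Fin 2) A) (hdet : ∀ g, (r g).det = 1)
    (hres : (∀ g ∈ H, π (r g 0 1) = 0 ∧ π (r g 1 0) = 0) ∧
      (∀ g, g ∉ H → π (r g 0 0) = 0 ∧ π (r g 1 1) = 0))
    (s : ι → G → A) (hs : ∀ v, ∀ g ∈ D v, s v g ^ 2 = 1)
    (hloc : ∀ v, ∀ g ∈ D v, ∀ g' ∈ D v, (r g - s v g • (1 : Matrix (Fin 2) (Fin 2) A)) *
      (r g' - s v g' • (1 : Matrix (Fin 2) (Fin 2) A)) = 0)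
    (hI : ∀ w, ∀ g ∈ I w, r g = 1) (hN : ∀ n ∈ N, r n = 1)
    (hSel : ∀ b : G → Fin 2 → k,
      (∀ g g', b (g * g') = b g + (π.mapMatrix (r g)).mulVec (b g')) →
      (∀ g, ∀ n ∈ N, b (g * n) = b g) → (∀ w, ∀ g ∈ I w, b g = 0) →
      (∀ v, ∀ g ∈ D v, ∀ g' ∈ D v, (π.mapMatrix (r g')).mulVec (b g) = b g) →
      ∃ m : Fin 2 → k, ∀ g, b g = (π.mapMatrix (r g)).mulVec m - m) :
    ∃ P : (Matrix (Fin 2) (Fin 2) A)ˣ, π.mapMatrix P.val = 1 ∧
      (∀ g ∈ H, (P.val * r g * P⁻¹.val) 0 1 = 0 ∧ (P.val * r g * P⁻¹.val) 1 0 = 0) ∧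
      (∀ g, g ∉ H → (P.val * r g * P⁻¹.val) 0 0 = 0 ∧ (P.val * r g * P⁻¹.val) 1 1 = 0) :=
  H69.Dih.exists_conj_shape hH hk D hD I N (Nat.card A) A rfl h2 π hπ r hdet hres s hs hloc hI hN hSel

/-- **M5, the bound**: `UnrBound H h` says that every character of finite level of `H` with values in a
finite abelian 2-group, unramified everywhere, has at most `h` values. -/
theorem unrBound_iff (H : Subgroup GQ) (h : ℕ) : H55.LT.UnrBound H h ↔
    ∀ (X : Type) [CommGroup X] [Finite X], IsPGroup 2 X → ∀ c : H →* X,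
      (∃ L : IntermediateField ℚ (AlgebraicClosure ℚ), FiniteDimensional ℚ L ∧
        ∀ g : H, (∀ x ∈ L, (g : GQ) x = x) → c g = 1) →
      (∀ ℓ : ℕ, ℓ.Prime → ∀ P : ValuationSubring (AlgebraicClosure ℚ), P.LiesOverPrime ℓ →
        ∀ g : H, (g : GQ) ∈ P.inertiaSubgroupIn ℚ → c g = 1) → Nat.card c.range ≤ h :=
  Iff.rfl

/-- **M5.** `K = ℚ(√-N)`, `N` even and squarefree, `ψ` a nontrivial cubic character of `G_K`,
`κ₀ : G_K → C₂` a surjection of finite level onto the 2-part of the class group with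
`κ₀(Frob) = [P]^{±1}` at the primes where `ψ(Frob) ≠ 1`. Then every everywhere unramified character of
2-power order of `G_K` has at most `#C₂` values. The proof uses the first inequality of class field theory
(by Herbrand quotients, `GuideResidualSteps.first_inequality`) and the density theorem of Frobenius, the
only analytic input; no reciprocity law (`GuideResidualSteps.end_step`). File `H63UnrBound`; see also
GuideClassBound and GuideGenus. -/
theorem m5_unramified_characters {K : Type} [Field K] [NumberField K] {N : ℕ} {w : 𝓞 K}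
    (hK : Module.finrank ℚ K = 2) (hw : w ^ 2 = -(N : 𝓞 K)) (hsq : Squarefree N) (h2N : 2 ∣ N)
    (S : Finset ℕ)
    (ψ : GK N →* Multiplicative (ZMod 3)) (hψ1 : ψ ≠ 1)
    (hψ : ∃ L : IntermediateField ℚ (AlgebraicClosure ℚ), FiniteDimensional ℚ L ∧
      ∀ g : GK N, (∀ x ∈ L, (g : GQ) x = x) → ψ g = 1)
    (κ₀ : GK N →* C2' K) (hsurj : Function.Surjective κ₀)
    (hκ₀ : ∃ L : IntermediateField ℚ (AlgebraicClosure ℚ), FiniteDimensional ℚ L ∧
      ∀ g : GK N, (∀ x ∈ L, (g : GQ) x = x) → κ₀ g = 1)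
    (hfrob : ∀ ℓ : ℕ, ℓ.Prime → ℓ ∉ S → ∀ A : ValuationSubring (AlgebraicClosure ℚ),
      A.LiesOverPrime ℓ → ∀ φ : GK N, A.IsFrobeniusAt (φ : GQ) ℓ → ψ φ ≠ 1 →
        ∀ P ∈ primesOver K ℓ,
          κ₀ φ = QuotientGroup.mk (cls K P) ∨ κ₀ φ = (QuotientGroup.mk (cls K P))⁻¹) :
    H55.LT.UnrBound (GK N) (Nat.card (C2' K)) :=
  H63.LT.unrBound_of ⟨hK, hw, hsq, h2N⟩ S ψ hψ1 hψ κ₀ hsurj hκ₀ hfrob

/-- **M5b.** For a good curve `E'` there is a nontrivial cubic character `η` of the class group of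
`K = ℚ(√-N)` such that every representation in characteristic 2 with determinant 1 whose Frobenius traces
are `Σ η(P)` over the primes `P` of norm `ℓ` has the same trace as `E'[2]`. So the theta side with this `η`
belongs to `E'`. Files `H82LTFI` (an unramified extension of degree 3 gives a cubic character of the class
group, by the first inequality), `H82LTPsiA`, `H82LTPsiB`, `H82LTPsi`; steps: GuideCubicCharacter. -/
theorem m5_cubic_character {W : WeierstrassCurve ℤ} {r : GQ →* M2 ℤ_[2]} {s : ℕ → ℤ}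
    (hW : GoodCurve W) (hE : EData W r s) (K : Type) [Field K] [NumberField K]
    (hK : Module.finrank ℚ K = 2) (hx : ∃ x : K, x ^ 2 = -((cond W : ℕ) : K))
    (F : Type) [Field F] (hF : Nat.card F = 4) :
    ∃ η : ClassGroup (𝓞 K) →* Fˣ, η ≠ 1 ∧ (∀ c, η c ^ 3 = 1) ∧
      ∀ (k : Type) [Field k] (ι : F →+* k) (ρ : GQ →* M2 k) (S : Finset ℕ), FinLevel ρ →
        (∀ ℓ : ℕ, ℓ.Prime → ℓ ∉ S → ∀ A : ValuationSubring (AlgebraicClosure ℚ),
          A.LiesOverPrime ℓ → ∀ φ : GQ, A.IsFrobeniusAt φ ℓ → (ρ φ).det = 1) →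
        (∀ ℓ : ℕ, ℓ.Prime → ℓ ∉ S → ∀ A : ValuationSubring (AlgebraicClosure ℚ),
          A.LiesOverPrime ℓ → ∀ φ : GQ, A.IsFrobeniusAt φ ℓ →
            (ρ φ).trace = ι (∑ P ∈ primesOver K ℓ, ((η (cls K P) : Fˣ) : F))) →
        (∀ g, (ρ g).det = 1) ∧
          ∀ (c : ZMod 2 →+* k) (g : GQ), (ρ g).trace = c (mapMat PadicInt.toZMod r g).trace :=
  H82.LT.exists_eta hW hE K hK hx F hF

/-- **The two facts about the theta side that are used in Theorem C.** Let `W` be a good curve, `r` its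
2-adic representation, `O = W(𝔽₄)`, `K = ℚ(√-N)`, `η` a cubic character as in `m5_cubic_character`, `Q` a
set of auxiliary primes of level `m ≥ 3` with vanishing Selmer group (`SelZero`: all Selmer cocycles are
coboundaries), and `X` the theta side of level `L = N ∏ Q` (`ta_hecke_ring`). Then (1) every everywhere
unramified character of finite level of `G_K` with values in a finite 2-group has at most `#C₂` values; (2)
the homomorphism `π` from the Hecke ring to `𝔽₄[C₂ × μ₂^Q]` is surjective. Files `H51S*`, `H63UnrBound`,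
`H91M5`, assembled in `H55LTJ`; steps of (2): GuideDihedral, sections 6 and 7. (By (2),
`#(T/2) ≥ 4^(#C₂ 2^#Q)`: `H55LTF`.) -/
theorem m5_bound_and_surjectivity {W : WeierstrassCurve ℤ} {r : GQ →* M2 ℤ_[2]}
    {s : ℕ → ℤ} (hW : GoodCurve W) (hE : EData W r s)
    (O : Type) [CommRing O] [IsDomain O] [IsDiscreteValuationRing O] [CoefRing O]
    (K : Type) [Field K] [NumberField K] (hK : Module.finrank ℚ K = 2)
    (hx : ∃ x : K, x ^ 2 = -((cond W : ℕ) : K))
    (η : ClassGroup (𝓞 K) →* (ResidueField O)ˣ) (hη1 : η ≠ 1)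
    (hηk : ∀ (k : Type) [Field k] (ι : ResidueField O →+* k) (ρ : GQ →* M2 k) (S : Finset ℕ),
      FinLevel ρ →
        (∀ ℓ : ℕ, ℓ.Prime → ℓ ∉ S → ∀ A : ValuationSubring Qb, A.LiesOverPrime ℓ →
          ∀ φ : GQ, A.IsFrobeniusAt φ ℓ → (ρ φ).det = 1) →
        (∀ ℓ : ℕ, ℓ.Prime → ℓ ∉ S → ∀ A : ValuationSubring Qb, A.LiesOverPrime ℓ →
          ∀ φ : GQ, A.IsFrobeniusAt φ ℓ →
            (ρ φ).trace = ι (∑ P ∈ primesOver K ℓ,
              ((η (cls K P) : (ResidueField O)ˣ) : ResidueField O))) →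
        (∀ g, (ρ g).det = 1) ∧
          ∀ (c : ZMod 2 →+* k) (g : GQ), (ρ g).trace = c (mapMat PadicInt.toZMod r g).trace)
    (m : ℕ) (Q : Finset ℕ) (hm : 3 ≤ m) (hQ : ∀ q ∈ Q, AuxPrime r (cond W) m q)
    (hSel : SelZero (mapMat PadicInt.toZMod r) (↑(bad W) ∪ ↑Q))
    (L : ℕ) [NeZero L] (hL : L = cond W * ∏ q ∈ Q, q) (X : TSide' O K η (cond W) Q L) :
    (∀ (Y : Type) [CommGroup Y] [Finite Y], IsPGroup 2 Y → ∀ c : GK (cond W) →* Y,
      (∃ F : IntermediateField ℚ Qb, FiniteDimensional ℚ F ∧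
        ∀ g : GK (cond W), (∀ x ∈ F, (g : GQ) x = x) → c g = 1) →
      (∀ ℓ : ℕ, ℓ.Prime → ∀ P : ValuationSubring Qb, P.LiesOverPrime ℓ →
        ∀ g : GK (cond W), (g : GQ) ∈ P.inertiaSubgroupIn ℚ → c g = 1) →
      Nat.card c.range ≤ Nat.card (C2' K)) ∧
    letI := X.commRing
    Function.Surjective X.π :=
  H55.LTH.sideOut hW hE (fun v _ => H49.LTF.m8Ram v) (fun q _ _ => H34.M8.m8Sign q) O K hK hx η hη1
    hηk m Q hm hQ hSel L hL X

/-! ## 7. C: the curve modulo a power of 2 is a point of the theta side -/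

/-- `Sel0 rb S`: the vanishing of the Selmer group of `m6_auxiliary_primes`, in the (weaker) form used
for Theorem C: cocycles whose values on `D_v` are `D_v`-invariant at the primes of `S`. -/
theorem sel0_iff (rb : GQ →* M2 (ZMod 2)) (S : Set ℕ) : H55.LT.Sel0 rb S ↔
    ∀ b : GQ → Fin 2 → ZMod 2, (∀ g h, b (g * h) = b g + (rb g).mulVec (b h)) →
      (∃ L : IntermediateField ℚ (AlgebraicClosure ℚ), FiniteDimensional ℚ L ∧
        ∀ g σ : GQ, (∀ x ∈ L, σ x = x) → b (g * σ) = b g) →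
      (∀ ℓ : ℕ, ℓ.Prime → ℓ ∉ S → ∀ P : ValuationSubring (AlgebraicClosure ℚ), P.LiesOverPrime ℓ →
        ∀ σ ∈ P.inertiaSubgroupIn ℚ, b σ = 0) →
      (∀ v : ℕ, v.Prime → v ∈ S → ∀ P : ValuationSubring (AlgebraicClosure ℚ), P.LiesOverPrime v →
        ∀ g ∈ P.decompositionSubgroup ℚ, ∀ h ∈ P.decompositionSubgroup ℚ,
          (rb h).mulVec (b g) = b g) →
      ∃ x : Fin 2 → ZMod 2, ∀ g, b g = (rb g).mulVec x - x :=
  Iff.rfl

/-- **Theorem C.** `X` is the theta side (`ta_hecke_ring`) and `rb` the residual representation, whose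
Frobenius traces are those of the theta form, the sums of `η(P)` over the prime ideals of norm `ℓ`
(`hmatch`); `rB` is a representation over a finite local `O`-algebra `B` lifting `rb` with Frobenius traces
`a ℓ`, of the right types at the primes dividing `N` and at `Q`. If the Selmer group vanishes, if unramified
characters of 2-power order of `H = G_K` have at most `h` values, and if `T/2` has at least `4^(h 2^#Q)`
elements, then there is a homomorphism `T → B` sending `T_ℓ` to `a ℓ` and `U_q` to `1`, and the rank of `T`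
is at most `h 2^#Q`, independently of the modulus. (In the application `B = O/2^m`, `rB` is `E'` modulo
`2^m`, `h = #C₂`; the last condition follows from the surjectivity of `π`.)

Proof: let `A₀ ⊆ T × B` be generated by the pairs. Its Galois representation (`GuideGluing.pair_gluing`) is
dihedral modulo 2 by Theorem B, so `#(A₀/2) ≤ 4^(h 2^#Q)` (`GuideResidualSteps.card_of_dihedral_type`). Hence
the projection `A₀ → T` is bijective modulo 2, and bijective because `T` is free over `O` and `A₀` finite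
(Nakayama).
Files `H55LTC` (the algebra `A₀`, bijectivity), `H19LTPair`, `H19LTGlue`, `H19LTSide` (representation over
`A₀`, see GuideGluing), `H19LTCore`, `H55LTE2`; steps: GuideDihedral, sections 2 to 5. -/
theorem c_theorem {O : Type} [CommRing O] [IsDomain O] [IsDiscreteValuationRing O] [CoefRing O]
    {K : Type} [Field K] [NumberField K] {η : ClassGroup (𝓞 K) →* (ResidueField O)ˣ} {N : ℕ}
    {Q : Finset ℕ} {L : ℕ} [NeZero L] (X : TSide' O K η N Q L) (hN2 : 2 ∣ N)
    (hL : L = N * ∏ q ∈ Q, q) (hsq : Squarefree N) (hQ : ∀ q ∈ Q, q.Prime ∧ ¬ q ∣ N)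
    [Algebra (ZMod 2) (ResidueField O)] (rb : GQ →* M2 (ZMod 2))
    (hcont : ∃ F : IntermediateField ℚ (AlgebraicClosure ℚ), FiniteDimensional ℚ F ∧
      ∀ σ : GQ, (∀ x ∈ F, σ x = x) → rb σ = 1)
    (hsurj : ∀ M : M2 (ZMod 2), M.det ≠ 0 → ∃ g, rb g = M)
    (hram : ∀ v : ℕ, v.Prime → v ∣ N → ∀ P : ValuationSubring (AlgebraicClosure ℚ),
      P.LiesOverPrime v → ∃ σ ∈ P.inertiaSubgroupIn ℚ, rb σ ≠ 1)
    (hfrobQ : ∀ q ∈ Q, ∀ P : ValuationSubring (AlgebraicClosure ℚ), P.LiesOverPrime q →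
      ∀ φ : GQ, P.IsFrobeniusAt φ q → rb φ ≠ 1)
    (hmatch : ∀ ℓ : ℕ, ℓ.Prime → ¬ ℓ ∣ L → ∀ P : ValuationSubring (AlgebraicClosure ℚ),
      P.LiesOverPrime ℓ → ∀ φ : GQ, P.IsFrobeniusAt φ ℓ →
        algebraMap (ZMod 2) (ResidueField O) (rb φ).trace =
          ∑ P ∈ primesOver K ℓ, ((η (cls K P) : (ResidueField O)ˣ) : ResidueField O))
    (H : Subgroup GQ) (hH : ∀ g, g ∈ H ↔ rb g = 1 ∨ (rb g).trace = 1)
    (hnsp : ∀ v : ℕ, v.Prime → v ∣ L → ∀ P : ValuationSubring (AlgebraicClosure ℚ),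
      P.LiesOverPrime v → ∃ g ∈ P.decompositionSubgroup ℚ, g ∉ H)
    {B : Type} [CommRing B] [IsLocalRing B] [Algebra O B] [Module.Finite O B]
    (resB : B →ₐ[O] ResidueField O) {rB : GQ →* M2 B} (hrB : MCont B rB) {a : ℕ → B}
    (hfB : ∀ ℓ : ℕ, ℓ.Prime → ¬ ℓ ∣ L → FrobAt ℓ (a ℓ) rB)
    (huB : ∀ ℓ : ℕ, ℓ.Prime → ¬ ℓ ∣ L → UnrAt ℓ rB)
    (hresB : ∀ g, (rB g).map resB = (rb g).map (algebraMap (ZMod 2) (ResidueField O)))
    (htB : ∀ v : ℕ, v.Prime → v ∣ N → ∃ s : B, TypeAt v s rB)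
    (htQ : ∀ q ∈ Q, TypeAt q (1 : B) rB)
    (hSel : H55.LT.Sel0 rb {v | v ∣ L}) (h : ℕ) (hM5 : H55.LT.UnrBound H h)
    (hT : letI := X.commRing; 4 ^ (h * 2 ^ Q.card) ≤ Nat.card (X.T ⧸ Ideal.span {(2 : X.T)})) :
    letI := X.commRing; letI := X.algebra
    (∃ θ : X.T →ₐ[O] B, (∀ ℓ : ℕ, ℓ.Prime → ¬ ℓ ∣ L → θ (X.t ℓ) = a ℓ) ∧
      ∀ q ∈ Q, θ (X.u q) = 1) ∧ Module.finrank O X.T ≤ h * 2 ^ Q.card :=
  H19LT.exists_theta_side_full X hN2 hL hsq hQ (fun v _ _ => H49.LTF.m8Ram v)
    (fun q _ => H34.M8.m8Sign q) rb hcont hsurj hram hfrobQ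
    (fun ℓ hℓ hℓL P hP φ hφ => (hmatch ℓ hℓ hℓL P hP φ hφ).trans (by
      show _ = MonoidAlgebra.lift (ResidueField O) (ResidueField O) (C2Q K Q) 1 (X.π (X.t ℓ))
      rw [X.π_t ℓ hℓ hℓL, map_sum]; exact Finset.sum_congr rfl fun P _ => by simp))
    H hH hnsp resB hrB hfB huB hresB htB htQ hSel h hM5 hT

/-- **From a power of the uniformizer to characteristic zero**: a homomorphism from a finite free
`O`-algebra `T` of rank at most `h` to `O/ϖ^(n h)` is congruent modulo `ϖ^n` to a homomorphism to a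
complete discrete valuation ring of characteristic zero, finite over `O`. This is why the bound for
the rank in `c_theorem` is needed. File `H62Th`. -/
theorem c_point {O : Type} [CommRing O] [IsDomain O] [IsDiscreteValuationRing O]
    [IsAdicComplete (maximalIdeal O) O] [Finite (ResidueField O)] [CharZero O]
    {T : Type} [CommRing T] [Nontrivial T] [Algebra O T] [Module.Finite O T] [Module.Free O T]
    {ϖ : O} (hϖ : ϖ ≠ 0) (n h : ℕ) (hh : Module.finrank O T ≤ h)
    (θ : T →ₐ[O] O ⧸ Ideal.span {ϖ ^ (n * h)}) :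
    ∃ (𝒪' : Type) (_ : CommRing 𝒪') (_ : IsDomain 𝒪') (_ : IsDiscreteValuationRing 𝒪')
      (_ : IsAdicComplete (maximalIdeal 𝒪') 𝒪') (_ : Finite (ResidueField 𝒪')) (_ : CharZero 𝒪')
      (_ : Algebra O 𝒪') (_ : Module.Finite O 𝒪') (_ : IsLocalHom (algebraMap O 𝒪')),
      Function.Injective (algebraMap O 𝒪') ∧
      ∃ f : T →ₐ[O] 𝒪', ∀ t a, θ t = Ideal.Quotient.mk _ a →
        algebraMap O 𝒪' ϖ ^ n ∣ f t - algebraMap O 𝒪' a :=
  H62.exists_point hϖ n h hh θ

/-! ## 8. M8: local types of the 2-adic representations of eigenforms -/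

/-- `TwoRing O'`: a complete discrete valuation ring of characteristic 0 with finite residue field of
characteristic 2. -/
theorem twoRing_iff (O' : Type) [CommRing O'] [IsDomain O'] [IsDiscreteValuationRing O'] :
    TwoRing O' ↔ CharZero O' ∧ IsAdicComplete (maximalIdeal O') O' ∧ (2 : O') ∈ maximalIdeal O' ∧
      Finite (ResidueField O') :=
  ⟨fun h => ⟨h.char_zero, h.complete, h.two, h.finite⟩, fun ⟨a, b, c, d⟩ => ⟨a, b, c, d⟩⟩

/-- **Attached representations** (`H19LT.Attached f S j ι r`): `r` is a continuous representation over `O'`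
such that, after the homomorphisms `j : O' → F` (injective) and `ι : ℤ̄ → F` into a field `F` (algebraically
closed in the applications), the Frobenius elements at the primes `ℓ ∉ S` have trace `a_ℓ(f)` and
determinant `ℓ`. -/
theorem attached_iff {L : ℕ} (f : CuspForm (CongruenceSubgroup.Gamma0 L) 2) (S : Finset ℕ)
    {O' : Type} [CommRing O'] [IsLocalRing O'] {F : Type} [Field F] (j : O' →+* F)
    (ι : integralClosure ℤ ℂ →+* F) (r : GQ →* M2 O') : H19LT.Attached f S j ι r ↔
    Function.Injective j ∧ MCont O' r ∧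
    ∀ ℓ : ℕ, ℓ.Prime → ℓ ∉ S → ∀ a : integralClosure ℤ ℂ, (a : ℂ) = qCoeff f ℓ →
      ∀ P : ValuationSubring Qb, P.LiesOverPrime ℓ → ∀ φ : GQ, P.IsFrobeniusAt φ ℓ →
        j (r φ).trace = ι a ∧ (r φ).det = (ℓ : O') :=
  ⟨fun h => ⟨h.inj, h.cont, h.frob⟩, fun ⟨a, b, c⟩ => ⟨a, b, c⟩⟩

/-- **Residual irreducibility** in the form used here: modulo the maximal ideal there is an element of trace
and determinant 1 (of order three), the residue field contains its eigenvalues, and there is no common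
eigenvector. -/
theorem resIrr_iff {O' : Type} [CommRing O'] [IsLocalRing O'] (r : GQ →* M2 O') :
    H19LT.ResIrr r ↔ (∃ ω : ResidueField O', ω ^ 2 + ω + 1 = 0) ∧
      (∃ g : GQ, (mapMat (residue O') r g).trace = 1 ∧ (mapMat (residue O') r g).det = 1) ∧
      ∀ x : Fin 2 → ResidueField O', x ≠ 0 → ∃ g : GQ, ∀ c : ResidueField O',
        (mapMat (residue O') r g).mulVec x ≠ c • x :=
  Iff.rfl

/-- **M8, signed case.** Let `f` be a normalised eigenform of weight 2 on `Γ₀(L)`, `q` an odd prime,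
`q ∥ L`, `a_q(f) = s = ± 1` (it is not assumed that `f` is new at `q`), and let the 2-adic representation
`r` be attached to `f` and residually irreducible. Then `r` is of Steinberg type with sign `s` at `q`.
Proof: `U_q f = s f` implies `f | W_q = -s f` and that both traces of `f` to level `L/q` vanish; so `r` is
realised in the Tate module of `J₀(L)` (`GuideAtkinLehner.realisation`, `H88Real*`), where the relation
follows from the reduction of `X₀(L)` at `q`, which has two components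
(`GuideResidualSteps.localType_of_realisation`). Files `H34M8`, `H46LTStein`. -/
theorem m8_sign (q L : ℕ) [NeZero L] (f : CuspForm (CongruenceSubgroup.Gamma0 L) 2)
    (hf : f.IsNormalizedEigenform) (hq : q.Prime) (hq2 : q ≠ 2) (hqL : q ∣ L) (hqL2 : ¬ q ^ 2 ∣ L)
    (s : ℤ) (hs : s = 1 ∨ s = -1) (ha : qCoeff f q = (s : ℂ))
    (O' : Type) [CommRing O'] [IsDomain O'] [IsDiscreteValuationRing O'] [TwoRing O']
    (F : Type) [Field F] [IsAlgClosed F] [CharZero F] (j : O' →+* F)
    (ι : integralClosure ℤ ℂ →+* F) (S : Finset ℕ) (r : GQ →* M2 O')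
    (hr : H19LT.Attached f S j ι r) (hirr : H19LT.ResIrr r) : TypeAt q ((s : ℤ) : O') r :=
  H34.M8.m8Sign q L f hf hq hq2 hqL hqL2 s hs ha O' F j ι S r hr hirr

/-- **M8, ramified case.** Let `v ∥ L` be a prime at which `r` is residually ramified (if `v = 2`, the
residue characteristic, suppose moreover `a_2(f) = ± 1`). Then `r` is of Steinberg type with sign `1` or
`-1` at `v`. Odd `v`: if `a_v(f)² ≠ 1` the eigensystem occurs at level `L/v` and `r` would be residually
unramified; so the signed case applies. `v = 2`: the classes in the 2-adic Tate module of `J₀(L)` whose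
Kummer functions have reductions that are `2ⁿ`-th powers give a functional as in
`GuideResidualSteps.type_of_functional`. Files `H34M8`, `H79V2End`; see GuideAtkinLehner (odd `v`) and
GuideTypeAtTwo (`v = 2`). -/
theorem m8_ramified (v L : ℕ) [NeZero L] (f : CuspForm (CongruenceSubgroup.Gamma0 L) 2)
    (hf : f.IsNormalizedEigenform) (hv : v.Prime) (hvL : v ∣ L) (hvL2 : ¬ v ^ 2 ∣ L)
    (h2 : v = 2 → qCoeff f v = 1 ∨ qCoeff f v = -1)
    (O' : Type) [CommRing O'] [IsDomain O'] [IsDiscreteValuationRing O'] [TwoRing O']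
    (F : Type) [Field F] [IsAlgClosed F] [CharZero F] (j : O' →+* F)
    (ι : integralClosure ℤ ℂ →+* F) (S : Finset ℕ) (r : GQ →* M2 O')
    (hr : H19LT.Attached f S j ι r) (hirr : H19LT.ResIrr r)
    (hram : ∀ P : ValuationSubring (AlgebraicClosure ℚ), P.LiesOverPrime v →
      ∃ σ ∈ P.inertiaSubgroupIn ℚ, mapMat (residue O') r σ ≠ 1) :
    TypeAt v (1 : O') r ∨ TypeAt v (-1 : O') r :=
  H49.LTF.m8Ram v L f hf hv hvL hvL2 h2 O' F j ι S r hr hirr hram

/-! ## 9. Congruences with eigenforms, and M7: removing the auxiliary primes -/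

/-- **Statement C.** For a good curve and every `n` there are at most `d` auxiliary primes `Q` of level `n`
(`d` independent of `n`) and a system of Hecke eigenvalues `lam` of weight 2 and level `N ∏ Q` with values
in a complete discrete valuation ring of residue characteristic 2, with `lam(T_ℓ) ≡ a_ℓ(W) mod 2ⁿ` and
`lam(U_q) = ± 1`. Files `H49LTC1`, `H49LTCoef`, `H73LTAux` (the curve modulo `2^m` over `O/2^m` and its
types), `H55LTH` (application of Theorem C to it), `H46LTM6Asm`, `H46LTEnd`, `H55LTI`, `H55LTJ`, with all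
inputs in `H49LTA`; steps: `GuideResidualSteps`, section C. -/
theorem c_congruences (W : WeierstrassCurve ℤ) (r : GQ →* M2 ℤ_[2]) (s : ℕ → ℤ) (hW : GoodCurve W)
    (hE : EData W r s) :
    ∃ d : ℕ, ∀ n : ℕ, ∃ Q : Finset ℕ, Q.card ≤ d ∧ (∀ q ∈ Q, AuxPrime r (cond W) n q) ∧
      ∃ (L : ℕ) (_ : NeZero L) (O' : Type) (_ : CommRing O') (_ : IsDomain O')
        (_ : IsDiscreteValuationRing O') (_ : TwoRing O') (lam : heckeAlgebra L 2 (∅ : Set ℕ) →+* O'),
        L = cond W * ∏ q ∈ Q, q ∧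
        (∀ (ℓ : ℕ) (hℓ : ℓ.Prime) (hℓL : ¬ ℓ ∣ L),
          lam (heckeAlgebra.T hℓ hℓL (Set.notMem_empty ℓ)) - ((W.apOfModel ℓ : ℤ) : O') ∈
            Ideal.span {((2 ^ n : ℕ) : O')}) ∧
        ∀ (q : ℕ) (_ : q ∈ Q) (hq : q.Prime) (hqL : q ∣ L),
          lam (heckeAlgebra.U hq hqL (Set.notMem_empty q)) = 1 ∨
            lam (heckeAlgebra.U hq hqL (Set.notMem_empty q)) = -1 := by
  obtain ⟨d, hd⟩ := H49.LTF.blockC W r s hW hE (H6.MD.blockM6_holds W r s hW hE)
  exact ⟨d, fun n => (hd n).imp fun Q ⟨h1, h2, L, i, O', i1, i2, i3, i4, lam, hL, h⟩ =>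
    ⟨h1, h2, L, i, O', i1, i2, i3, i4, lam, hL, h.T_cong, h.U_sign⟩⟩

/-- **Mazur's principle modulo `2^m`** (input of M7). There is a constant `r` such that for all odd primes
`q`, all even `M` prime to `q` and all `m` the following holds on `J = J₀(Mq)(ℚ̄)` (`JZero (M * q)`, the
divisor classes of degree zero, with the action `heckeModuleBar` of the operators `heckeGen ℓ = T_ℓ` and the
involution `w_q`, `H67.wJ`). Let `F` (`H35.fixTors`) be the group of the points of `J[2^m]` fixed by the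
inertia group of a place `A` above `q`. There are a map `n` from `F` to `ℤ/2^m` (component group), with
`n (T_ℓ x) = (ℓ + 1) n x`, and on its kernel two Hecke equivariant maps `δ` to `J₀(M)` (the reductions to the
two components); if both vanish at `x`, then Frobenius acts on `2^r x` as `-q w_q`. No Néron model is used:
`x` is represented by a Kummer function. See `GuideLevelsMazur` (`mazur_input_two`) and, step by step,
`GuideLevelsMazurSteps`. File `H13MzTwo`. -/
theorem m7_mazur_two : ∃ r : ℕ, ∀ (q M m : ℕ) [NeZero M] [NeZero (M * q)] [NeZero q],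
    q.Prime → q ≠ 2 → 2 ∣ M → ¬ q ∣ M → ∀ (hc : M.Coprime q) (A : ValuationSubring Qb),
    A.LiesOverPrime q → ∀ φ : GQ, A.IsFrobeniusAt φ q →
    letI := ModularCurve.heckeModuleBar (M * q)
    letI := ModularCurve.heckeModuleBar M
    ∃ (n : H35.fixTors A (2 ^ m) (ModularCurve.JZero (M * q)) →+ ZMod (2 ^ m))
      (δ : Bool → n.ker →+ ModularCurve.JZero M),
      (∀ ℓ : Nat.Primes, ¬ (ℓ : ℕ) ∣ M * q →
        ∀ x x' : H35.fixTors A (2 ^ m) (ModularCurve.JZero (M * q)),
          (x' : ModularCurve.JZero (M * q)) = ModularCurve.heckeGen ℓ • (x : ModularCurve.JZero (M * q)) →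
            n x' = ((ℓ : ℕ) + 1 : ZMod (2 ^ m)) * n x) ∧
      (∀ (i : Bool) (ℓ : Nat.Primes), ¬ (ℓ : ℕ) ∣ M * q → ∀ x x' : n.ker,
        ((x' : H35.fixTors A (2 ^ m) (ModularCurve.JZero (M * q))) : ModularCurve.JZero (M * q)) =
          ModularCurve.heckeGen ℓ •
            ((x : H35.fixTors A (2 ^ m) (ModularCurve.JZero (M * q))) :
              ModularCurve.JZero (M * q)) →
          δ i x' = ModularCurve.heckeGen ℓ • δ i x) ∧
      ∀ x : n.ker, (∀ i, δ i x = 0) →
        φ • (2 ^ r • ((x : H35.fixTors A (2 ^ m) (ModularCurve.JZero (M * q))) :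
            ModularCurve.JZero (M * q))) +
          q • H67.wJ M q rfl hc (2 ^ r •
            ((x : H35.fixTors A (2 ^ m) (ModularCurve.JZero (M * q))) :
              ModularCurve.JZero (M * q))) = 0 := by
  obtain ⟨r, hr⟩ := H13.Mz.mazurTwo
  refine ⟨r, fun q M m _ _ _ hq hq2 h2 hM hc A hA φ hφ => ?_⟩
  let _ := ModularCurve.heckeModuleBar (M * q); let _ := ModularCurve.heckeModuleBar M
  obtain ⟨D⟩ := hr q M m hq hq2 h2 hM hc A hA φ hφ
  exact ⟨D.n, D.δ, D.n_hecke, D.δ_hecke, D.ker⟩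

/-- **M7.** From the congruences of `c_congruences` for all `n` (`StatementC`) to modularity of level `N`:
Mazur's principle modulo `2^m` removes the auxiliary primes one by one, with a loss bounded independently
of `m` (`m7_mazur_two`), then `n → ∞` at the fixed level `N`. Files `H35LTTop` (from congruences to torsion
points of `J₀`), `H35LTRel`, `H35LTSpan`, `H35LTInput`, `H35LTStep`, `H35LTMain`. -/
theorem m7_modular (W : WeierstrassCurve ℤ) (r : GQ →* M2 ℤ_[2]) (s : ℕ → ℤ) (hW : GoodCurve W)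
    (hE : EData W r s) (hC : StatementC W r) :
    ∃ f : CuspForm (CongruenceSubgroup.Gamma0 (cond W)) 2, f.IsNormalizedEigenform ∧
      ∀ p : ℕ, p.Prime → W.IsGoodPrimeFor p → ¬ p ∣ cond W → qCoeff f p = (W.apOfModel p : ℂ) :=
  H35.blockM7 H13.Mz.mazurTwo W r s hW hE hC

/-- **How the blocks E, M6, C and M7 fit together** (`StatementM6` and `StatementC` are the conclusions of
`m6_auxiliary_primes` and `c_congruences`). File `H46LTDefs`. -/
theorem goodCurve_of_blocks
    (hE : ∀ W, GoodCurve W → ∃ (r : GQ →* M2 ℤ_[2]) (s : ℕ → ℤ), EData W r s)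
    (h6 : ∀ W r s, GoodCurve W → EData W r s → StatementM6 W r)
    (hC : ∀ W r s, GoodCurve W → EData W r s → StatementM6 W r → StatementC W r)
    (h7 : ∀ W r s, GoodCurve W → EData W r s → StatementC W r → W.IsModularModelOfLevel (cond W))
    (W : WeierstrassCurve ℤ) (hW : GoodCurve W) : W.IsModularModelOfLevel (cond W) :=
  ltC hE h6 hC h7 W hW

end Fermat.Agent.Guide.Residual
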