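import Fermat.Agent.H26Height
import Fermat.Agent.H26CE

/-!
# Standard smooth algebras of relative dimension `g` over a field (helper43, job S26-J2)
-/

set_option autoImplicit false

noncomputable section

open AlgebraicCurve Polynomial TensorProduct
open scoped nonZeroDivisors

namespace Fermat.Agent.H43.Sm

open Fermat.Agent.H26 Fermat.Agent

universe u

section dim

theorem exists_algInd {K : Type u} [Field K] {B : Type u} [CommRing B] [IsDomain B]
    [Algebra K B] (g : ℕ) [Algebra.IsStandardSmoothOfRelativeDimension g K B] :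
    ∃ φ : Fin g → B, AlgebraicIndependent K φ := by
  obtain ⟨ψ, hψ⟩ := Algebra.IsStandardSmoothOfRelativeDimension.exists_etale_mvPolynomial g K B
  let _ : Algebra (MvPolynomial (Fin g) K) B := ψ.toRingHom.toAlgebra
  have : Algebra.Etale (MvPolynomial (Fin g) K) B := hψ
  have hinj : Function.Injective ψ := FaithfulSMul.algebraMap_injective (MvPolynomial (Fin g) K) B
  refine ⟨fun i => ψ (MvPolynomial.X i), ?_⟩
  have h : MvPolynomial.aeval (fun i => ψ (MvPolynomial.X i)) = ψ := by
    ext i
    simp
  rw [AlgebraicIndependent, h]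
  exact hinj

theorem krullDim_le {K : Type u} [Field K] {B : Type u} [CommRing B] [IsDomain B]
    [Algebra K B] (g : ℕ) [Algebra.IsStandardSmoothOfRelativeDimension g K B] :
    ringKrullDim B ≤ g := by
  obtain ⟨ψ, hψ⟩ := Algebra.IsStandardSmoothOfRelativeDimension.exists_etale_mvPolynomial g K B
  let _ : Algebra (MvPolynomial (Fin g) K) B := ψ.toRingHom.toAlgebra
  have : Algebra.Etale (MvPolynomial (Fin g) K) B := hψ
  have hmono : StrictMono (PrimeSpectrum.comap (algebraMap (MvPolynomial (Fin g) K) B)) := by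
    intro P Q hPQ
    refine lt_of_le_of_ne (Ideal.comap_mono hPQ.le) fun h => hPQ.ne ?_
    ext1
    exact Algebra.QuasiFinite.eq_of_le_of_under_eq (R := MvPolynomial (Fin g) K) P.asIdeal Q.asIdeal
      hPQ.le (congrArg PrimeSpectrum.asIdeal h)
  have h1 : ringKrullDim B ≤ ringKrullDim (MvPolynomial (Fin g) K) :=
    Order.krullDim_le_of_strictMono _ hmono
  rw [MvPolynomial.ringKrullDim_of_isNoetherianRing, ringKrullDim_eq_zero_of_field] at h1
  simpa using h1

end dim

section curve

/-- a domain which is quasi-finite over a domain is algebraic over it -/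
theorem isAlgebraic_of_quasiFinite {R B : Type*} [CommRing R] [IsDomain R] [CommRing B] [IsDomain B]
    [Algebra R B] [FaithfulSMul R B] [Algebra.QuasiFinite R B] (b : B) : IsAlgebraic R b := by
  have h2 : Algebra.QuasiFinite B (FractionRing B) := inferInstance
  have h3 : Algebra.QuasiFinite R (FractionRing B) := Algebra.QuasiFinite.trans R B (FractionRing B)
  have : FaithfulSMul R (FractionRing B) := FaithfulSMul.trans R B (FractionRing B)
  let _ : Algebra (FractionRing R) (FractionRing B) := FractionRing.liftAlgebra R (FractionRing B)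
  have : IsScalarTower R (FractionRing R) (FractionRing B) := inferInstance
  have h4 : Algebra.QuasiFinite (FractionRing R) (FractionRing B) :=
    Algebra.QuasiFinite.of_restrictScalars R _ _
  have h5 : Module.Finite (FractionRing R) (FractionRing B) := Module.Finite.of_quasiFinite
  have h6 : IsAlgebraic (FractionRing R) (algebraMap B (FractionRing B) b) :=
    Algebra.IsAlgebraic.isAlgebraic _
  have h7 : IsAlgebraic R (algebraMap B (FractionRing B) b) :=
    (IsFractionRing.isAlgebraic_iff R (FractionRing R) (FractionRing B)).mpr h6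
  exact (isAlgebraic_algebraMap_iff (IsFractionRing.injective B (FractionRing B))).mp h7

/-- a place centered at a given point -/
theorem exists_place_centered {K E : Type u} [Field K] [IsAlgClosed K] [Field E] [Algebra K E]
    [H3RR.IsFF K E] {C : Type u} [CommRing C] [Algebra K C] (j : C →ₐ[K] E)
    (hj : Function.Injective j) (χ : C →ₐ[K] K) {x : C} (hx : x ≠ 0) (hx0 : χ x = 0) :
    ∃ (c : Place K E) (h : C →ₐ[K] (plV K c).toSubalgebra) (π : (plV K c).toSubalgebra →ₐ[K] K),
      π.comp h = χ ∧ ∀ y, (h y : E) = j y := by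
  classical
  let A : Subring E := j.toRingHom.range
  let e : C ≃+* A := RingEquiv.ofBijective (j.toRingHom.rangeRestrict)
    ⟨fun a b hab => hj (congrArg Subtype.val hab), j.toRingHom.rangeRestrict_surjective⟩
  have he : ∀ y, ((e y : A) : E) = j y := fun y => rfl
  let I : Ideal A := (RingHom.ker χ.toRingHom).map (e : C →+* A)
  have hI : I ≠ ⊤ := by
    intro h
    have h1 : RingHom.ker χ.toRingHom = ⊤ := by
      have h2 : (RingHom.ker χ.toRingHom).map (e : C →+* A) = ⊤ := h
      have h3 := congrArg (Ideal.comap (e : C →+* A)) h2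
      have h4 := Ideal.comap_map_of_bijective (e : C →+* A) e.bijective
        (I := RingHom.ker χ.toRingHom)
      rw [← h4, h3, Ideal.comap_top]
    exact RingHom.ker_ne_top _ h1
  obtain ⟨V, hV1, hV2⟩ := Ideal.image_subset_nonunits_valuationSubring I hI
  have hK : ∀ a : K, algebraMap K E a ∈ V := fun a => hV1 ⟨algebraMap K C a, j.commutes a⟩
  have hV2' : ∀ y : C, χ y = 0 → j y ∈ V.nonunits := fun y hy =>
    hV2 ⟨e y, Ideal.mem_map_of_mem _ hy, rfl⟩
  have hVtop : V ≠ ⊤ := by
    intro h
    have h1 := hV2' x hx0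
    have hjx : j x ≠ 0 := fun h0 => hx (hj (by rw [h0, map_zero]))
    rw [ValuationSubring.mem_nonunits_iff] at h1
    have h2 : (j x)⁻¹ ∈ V := by rw [h]; exact ValuationSubring.mem_top _
    rw [← V.valuation_le_one_iff, map_inv₀] at h2
    have h3 : V.valuation (j x) ≠ 0 := (Valuation.ne_zero_iff _).mpr hjx
    have h4 : (1 : V.ValueGroup) < (V.valuation (j x))⁻¹ := by
      rw [one_lt_inv₀ (zero_lt_iff.mpr h3)]
      exact h1
    exact absurd h2 (not_le.mpr h4)
  let c : Place K E := H3RR.placeOf V hK hVtop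
  have hmem : ∀ z : E, z ∈ (plV K c).toSubalgebra ↔ z ∈ V := fun z => Iff.rfl
  let h : C →ₐ[K] (plV K c).toSubalgebra := j.codRestrict _ fun y => hV1 ⟨y, rfl⟩
  -- residue map
  have hres := H3RR.residue_bijective c
  let eres : K ≃ₐ[K] c.ResidueField := AlgEquiv.ofBijective (Algebra.ofId K _) hres
  let π₀ : (plV K c).toSubalgebra →+* c.ResidueField := IsLocalRing.residue c.toValuationSubring
  let π : (plV K c).toSubalgebra →ₐ[K] K :=
    { toRingHom := (eres.symm : c.ResidueField →+* K).comp π₀
      commutes' := fun a => by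
        change eres.symm (π₀ (algebraMap K _ a)) = a
        rw [AlgEquiv.symm_apply_eq]
        rfl }
  refine ⟨c, h, π, ?_, fun y => rfl⟩
  refine AlgHom.ext fun y => ?_
  change eres.symm (π₀ (h y)) = χ y
  rw [AlgEquiv.symm_apply_eq]
  have h1 : χ (y - algebraMap K C (χ y)) = 0 := by simp
  have h2 := hV2' _ h1
  have h3 : π₀ (h (y - algebraMap K C (χ y))) = 0 := by
    have h4 := ValuationSubring.mem_nonunits_iff_exists_mem_maximalIdeal.mp h2
    obtain ⟨h5, h6⟩ := h4
    exact (IsLocalRing.residue_eq_zero_iff (R := c.toValuationSubring) _).mpr h6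
  rw [map_sub, map_sub, sub_eq_zero] at h3
  rw [h3, h.commutes]
  rfl

theorem exists_tensor_hom {R S B K : Type*} [CommRing R] [CommRing S] [CommRing B] [CommRing K]
    [Algebra R S] [Algebra R B] (f : S →+* K) (h : B →+* K)
    (hfh : ∀ r, f (algebraMap R S r) = h (algebraMap R B r)) :
    ∃ F : S ⊗[R] B →+* K, ∀ s b, F (s ⊗ₜ b) = f s * h b := by
  let _ : Algebra R K := (f.comp (algebraMap R S)).toAlgebra
  let f1 : S →ₐ[R] K := { toRingHom := f, commutes' := fun x => rfl }
  let f2 : B →ₐ[R] K := { toRingHom := h, commutes' := fun x => (hfh x).symm }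
  exact ⟨(Algebra.TensorProduct.productMap f1 f2).toRingHom, fun s b =>
    Algebra.TensorProduct.productMap_apply_tmul f1 f2 s b⟩

theorem eq_zero_of_mem_minimalPrimes {S T : Type*} [CommRing S] [IsDomain S] [CommRing T]
    [Algebra S T] [Module.Flat S T] {P : Ideal T} (hP : P ∈ minimalPrimes T) {p : S}
    (hp : algebraMap S T p ∈ P) : p = 0 := by
  by_contra hp0
  have hdisj := Ideal.disjoint_nonZeroDivisors_of_mem_minimalPrimes (R := T) hP
  have h1 : IsSMulRegular T p :=
    Module.Flat.isSMulRegular_of_nonZeroDivisors (mem_nonZeroDivisors_of_ne_zero hp0)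
  have h2 : algebraMap S T p ∈ T⁰ := by
    rw [mem_nonZeroDivisors_iff_right]
    intro z hz
    apply h1
    change p • z = p • 0
    rw [smul_zero, Algebra.smul_def, mul_comm, hz]
  exact Set.disjoint_left.mp hdisj hp h2

theorem exists_curve_of_etale {K : Type u} [Field K] [IsAlgClosed K] {T : Type u} [CommRing T]
    [Algebra K T] [Algebra K[X] T] [IsScalarTower K K[X] T] [Algebra.Etale K[X] T]
    (χT : T →ₐ[K] K) :
    ∃ (E : Type u) (_ : Field E) (_ : Algebra K E) (_ : H3RR.IsFF K E) (c : Place K E)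
      (h : T →ₐ[K] (plV K c).toSubalgebra) (π : (plV K c).toSubalgebra →ₐ[K] K),
      π.comp h = χT ∧ ∀ p : K[X], h (algebraMap K[X] T p) = 0 → p = 0 := by
  classical
  have hprime : (RingHom.ker χT.toRingHom).IsPrime := RingHom.ker_isPrime _
  obtain ⟨P, hP, hPle⟩ := Ideal.exists_minimalPrimes_le (I := (⊥ : Ideal T))
    (J := RingHom.ker χT.toRingHom) bot_le
  have hPprime : P.IsPrime := hP.1.1
  have hPX : ∀ p : K[X], algebraMap K[X] T p ∈ P → p = 0 := fun p hp =>
    eq_zero_of_mem_minimalPrimes hP hp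
  let Cq := T ⧸ P
  have hCdom : IsDomain Cq := Ideal.Quotient.isDomain P
  let E := FractionRing Cq
  have hinjX : Function.Injective (algebraMap K[X] Cq) := by
    rw [injective_iff_map_eq_zero]
    intro p hp
    exact hPX p (Ideal.Quotient.eq_zero_iff_mem.mp hp)
  have hinjE : Function.Injective (algebraMap K[X] E) := by
    rw [IsScalarTower.algebraMap_eq K[X] Cq E]
    exact (IsFractionRing.injective Cq E).comp hinjX
  -- `E` is a function field
  let x : E := algebraMap K[X] E X
  have hxp : ∀ p : K[X], Polynomial.aeval x p = algebraMap K[X] E p := by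
    intro p
    have h1 : Polynomial.aeval x = IsScalarTower.toAlgHom K K[X] E := by
      refine Polynomial.algHom_ext ?_
      simp [x]
    rw [h1]
    rfl
  have hxtr : Transcendental K x := by
    rw [transcendental_iff_injective]
    intro p q hpq
    apply hinjE
    rw [← hxp, ← hxp, hpq]
  have hQF1 : Algebra.QuasiFinite K[X] Cq := inferInstance
  have hQF2 : Algebra.QuasiFinite Cq E := inferInstance
  have hQF : Algebra.QuasiFinite K[X] E := Algebra.QuasiFinite.trans K[X] Cq E
  have hfd : FiniteDimensional (IntermediateField.adjoin K {x}) E := by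
    let F := IntermediateField.adjoin K {x}
    let ι : K[X] →ₐ[K] F := Polynomial.aeval (⟨x, IntermediateField.mem_adjoin_simple_self K x⟩ : F)
    let _ : Algebra K[X] F := ι.toRingHom.toAlgebra
    have : IsScalarTower K[X] F E := IsScalarTower.of_algebraMap_eq fun p => by
      rw [← hxp]
      change _ = F.val (ι p)
      rw [← Polynomial.aeval_algHom_apply]
      rfl
    have h1 : Algebra.QuasiFinite F E := Algebra.QuasiFinite.of_restrictScalars K[X] F E
    exact Module.Finite.of_quasiFinite
  have hFF : H3RR.IsFF K E := ⟨x, hxtr, hfd⟩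
  -- place
  let χC : Cq →ₐ[K] K := Ideal.Quotient.liftₐ P χT fun z hz => hPle hz
  let a : K := χT (algebraMap K[X] T X)
  have hXne : algebraMap K[X] Cq (X - C a) ≠ 0 := fun h0 =>
    X_sub_C_ne_zero a (hinjX (by rw [h0, map_zero]))
  have hX0 : χC (algebraMap K[X] Cq (X - C a)) = 0 := by
    change χT (algebraMap K[X] T (X - C a)) = 0
    have h1 : algebraMap K[X] T (C a) = algebraMap K T a :=
      (IsScalarTower.algebraMap_apply K K[X] T a).symm
    rw [map_sub, map_sub, h1, χT.commutes]
    simp [a]
  obtain ⟨c, h, π, hπ, hh⟩ := exists_place_centered (IsScalarTower.toAlgHom K Cq E)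
    (IsFractionRing.injective Cq E) χC hXne hX0
  refine ⟨E, inferInstance, inferInstance, hFF, c, h.comp (Ideal.Quotient.mkₐ K P), π, ?_, ?_⟩
  · rw [← AlgHom.comp_assoc, hπ]
    refine AlgHom.ext fun y => ?_
    rfl
  · intro p hp
    apply hinjE
    have h1 : h (algebraMap K[X] Cq p) = 0 := hp
    have h2 := hh (algebraMap K[X] Cq p)
    rw [h1] at h2
    rw [map_zero, IsScalarTower.algebraMap_apply K[X] Cq E]
    exact h2.symm

theorem exists_curve_through {K : Type u} [Field K] [IsAlgClosed K] {B : Type u} [CommRing B]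
    [IsDomain B] [Algebra K B] (g : ℕ) [Algebra.IsStandardSmoothOfRelativeDimension g K B]
    (χ : B →ₐ[K] K) (φ : B) (hφ : φ ≠ 0) :
    ∃ (E : Type u) (_ : Field E) (_ : Algebra K E) (_ : H3RR.IsFF K E) (c : Place K E)
      (h : B →ₐ[K] (plV K c).toSubalgebra) (π : (plV K c).toSubalgebra →ₐ[K] K),
      π.comp h = χ ∧ h φ ≠ 0 := by
  classical
  obtain ⟨ψ, hψ⟩ := Algebra.IsStandardSmoothOfRelativeDimension.exists_etale_mvPolynomial g K B
  let R := MvPolynomial (Fin g) K
  let _ : Algebra R B := ψ.toRingHom.toAlgebra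
  have hRB : ∀ r : R, algebraMap R B r = ψ r := fun r => rfl
  have : Algebra.Etale R B := hψ
  have : IsScalarTower K R B := IsScalarTower.of_algebraMap_eq' ψ.comp_algebraMap.symm
  -- a multiple of `φ` in the polynomial ring
  obtain ⟨r, hr0, hr⟩ := (isAlgebraic_of_quasiFinite (R := R) φ).exists_nonzero_dvd
    (mem_nonZeroDivisors_of_ne_zero hφ)
  obtain ⟨b, hb⟩ : ∃ b : Fin g → K, MvPolynomial.eval b r ≠ 0 := by
    by_contra hcon
    push Not at hcon
    exact hr0 (MvPolynomial.funext fun x => by rw [hcon x, map_zero])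
  let a : Fin g → K := fun i => χ (ψ (MvPolynomial.X i))
  let lam : R →ₐ[K] K[X] := MvPolynomial.aeval fun i => C (a i) + C (b i - a i) * X
  have hlam1 : (Polynomial.aeval (1 : K)).comp lam = MvPolynomial.aeval b := by
    ext i
    simp [lam]
  have hlam0 : (Polynomial.aeval (0 : K)).comp lam = χ.comp ψ := by
    ext i
    simp [lam, a]
  have hlamr : lam r ≠ 0 := by
    intro h0
    apply hb
    have h1 := DFunLike.congr_fun hlam1 r
    rw [AlgHom.comp_apply, h0, map_zero] at h1
    rw [← MvPolynomial.coe_aeval_eq_eval]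
    exact h1.symm
  let _ : Algebra R K[X] := lam.toRingHom.toAlgebra
  have : IsScalarTower K R K[X] := IsScalarTower.of_algebraMap_eq' lam.comp_algebraMap.symm
  -- the point on the curve
  obtain ⟨χT₀, hχT₀⟩ := exists_tensor_hom (R := R) (S := K[X]) (B := B) (K := K)
    (Polynomial.aeval (0 : K) : K[X] →ₐ[K] K).toRingHom χ.toRingHom
    (fun x => DFunLike.congr_fun hlam0 x)
  let χT : K[X] ⊗[R] B →ₐ[K] K :=
    { toRingHom := χT₀
      commutes' := fun x => by
        change χT₀ ((algebraMap K K[X] x) ⊗ₜ 1) = x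
        rw [hχT₀, map_one, mul_one]
        change Polynomial.aeval (0 : K) (algebraMap K K[X] x) = x
        simp }
  have hχT : ∀ p c, χT (p ⊗ₜ c) = Polynomial.aeval (0 : K) p * χ c := hχT₀
  obtain ⟨E, hE1, hE2, hE3, c, h, π, hπ, hp⟩ := exists_curve_of_etale χT
  let i : B →ₐ[K] K[X] ⊗[R] B :=
    { toRingHom := (Algebra.TensorProduct.includeRight : B →ₐ[R] K[X] ⊗[R] B).toRingHom
      commutes' := fun y => by
        change ((1 : K[X]) ⊗ₜ[R] (algebraMap K B y)) = ((algebraMap K K[X] y) ⊗ₜ[R] (1 : B))
        rw [IsScalarTower.algebraMap_apply K R B, IsScalarTower.algebraMap_apply K R K[X],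
          Algebra.algebraMap_eq_smul_one (A := B), Algebra.algebraMap_eq_smul_one (A := K[X]),
          TensorProduct.tmul_smul, TensorProduct.smul_tmul'] }
  refine ⟨E, hE1, hE2, hE3, c, h.comp i, π, ?_, ?_⟩
  · rw [← AlgHom.comp_assoc, hπ]
    refine AlgHom.ext fun y => ?_
    change χT ((1 : K[X]) ⊗ₜ[R] y) = χ y
    rw [hχT]
    simp
  · intro h0
    rw [AlgHom.comp_apply] at h0
    obtain ⟨s, hs⟩ := hr
    have h3 : h (i (algebraMap R B r)) = 0 := by rw [hs, map_mul, map_mul, h0, zero_mul]
    have h4 : i (algebraMap R B r) = algebraMap K[X] (K[X] ⊗[R] B) (lam r) := by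
      change ((1 : K[X]) ⊗ₜ[R] (algebraMap R B r)) = ((lam r) ⊗ₜ[R] (1 : B))
      have h5 : lam r = r • (1 : K[X]) := by
        rw [Algebra.smul_def, mul_one]
        rfl
      rw [h5, Algebra.algebraMap_eq_smul_one, TensorProduct.tmul_smul, TensorProduct.smul_tmul']
    rw [h4] at h3
    exact hlamr (hp _ h3)

end curve

end Fermat.Agent.H43.Sm
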