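import Fermat.Agent.H76Colon
import Fermat.Agent.H43Smooth

/-!
# Guide: smooth points of varieties, step by step (statement S26, tools)

Companion of `GuideAbelianTools`, section 1. Every theorem is proved by citing the library; no other
file imports this one. Modules `H76PSFilt`, `H76PSUfd`, `H76Filt`, `H76SmoothPS`, `H76Descent`,
`H76Colon` (helper76) and `H43Smooth` (helper43); text by helper43. Everything is in the closure of S26.
Notes: [219], and [302], section 2.

**What is proved.** `K` is a field, `B` a smooth `K`-algebra, `χ : B → K` a point, `m` its kernel.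
1. (`K` infinite) In the local ring of `B` at `χ` the colon ideals `{c : b ∣ c a}` are principal
   (`colon_principal_at_point`); for `K` algebraically closed the same holds at every prime ideal
   (`colon_principal` of `GuideAbelianTools`). So every rational function has a local denominator at
   every point, and a divisor of poles. In the literature: regular local rings are factorial
   (Auslander and Buchsbaum), which is proved with finite free resolutions.
2. (`K` algebraically closed, `B` a standard smooth domain, as is every smooth variety locally) Through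
   `χ` passes a parametrised curve which is not contained in a given hypersurface
   (`curve_through_point` of `GuideAbelianTools`).

**How.** (1) A power series ring over an infinite field is factorial: Weierstrass preparation and
induction on the number of variables (section 1). Formal smoothness gives a homomorphism from `B` to
`K[[X_1, ..., X_d]]`, `d = dim m / m²`, which respects the filtrations by powers of the maximal ideals,
is injective on the graded pieces and has dense image (sections 2 and 3); the power series ring plays
the role of the completion of the local ring, which is not used. Principal colon ideals descend along such a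
homomorphism by the lemmas of Krull and of Artin and Rees (section 4). (2) `B`, being standard smooth,
is étale over a polynomial ring; one pulls it back to a line (section 5).

**Notation.** `H76.varIdeal n R` is the ideal of `R[[X_1, ..., X_n]]` generated by the variables,
`H76.ptIdeal χ` the ideal `m`, `H76.edim χ` the number `d`, `H76.PS χ` the power series ring in `d`
variables over `K`, `H76.toPS χ` the homomorphism from `B` to it. Function fields (`H3RR.IsFF K E`), places
(`Place K E`) and their valuation rings as `K`-algebras (`plV K c`): see `GuideAbelianTools`.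
-/

set_option autoImplicit false

noncomputable section

open AlgebraicCurve Polynomial TensorProduct
open scoped nonZeroDivisors
open Fermat.Agent.H26

namespace Fermat.Agent.Guide.SmoothPoints

universe u

/-! ## 1. Power series rings -/

section PowerSeries

open MvPowerSeries

/-- **Division by the variables.** A power series without constant term is `∑ X_i f_i`, where `f_i` is
the part of it with the monomials which contain `X_i` and no earlier variable, divided by `X_i`
(`H76.divX i f`). File `H76PSFilt`. -/
theorem division_by_variables {n : ℕ} {R : Type*} [CommRing R] {f : MvPowerSeries (Fin n) R}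
    (hf : constantCoeff f = 0) :
    f = ∑ i, X i * H76.divX i f ∧ ∀ (i : Fin n) (m : Fin n →₀ ℕ),
      coeff m (H76.divX i f) = if ∀ j < i, m j = 0 then coeff (m + Finsupp.single i 1) f else 0 :=
  ⟨H76.sum_X_mul_divX hf, fun i m => H76.coeff_divX i f m⟩

/-- **The filtration.** A power series is in the `k`-th power of the ideal of the variables if and only
if it has no monomials of degree less than `k`; and it is congruent to a polynomial modulo this
power. File `H76PSFilt`. -/
theorem filtration {n : ℕ} {R : Type*} [CommRing R] (k : ℕ) (f : MvPowerSeries (Fin n) R) :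
    (f ∈ H76.varIdeal n R ^ k ↔ ∀ d : Fin n →₀ ℕ, d.degree < k → coeff d f = 0) ∧
      f - (truncTotal k f : MvPolynomial (Fin n) R) ∈ H76.varIdeal n R ^ k :=
  ⟨H76.mem_varIdeal_pow_iff, H76.sub_truncTotal_mem k f⟩

/-- Over a field the ideal of the variables is the maximal ideal, and the ring is complete and separated
for it. File `H76PSFilt`. -/
theorem power_series_complete {n : ℕ} {K : Type*} [Field K] :
    IsLocalRing.maximalIdeal (MvPowerSeries (Fin n) K) = H76.varIdeal n K ∧
      IsAdicComplete (IsLocalRing.maximalIdeal (MvPowerSeries (Fin n) K))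
        (MvPowerSeries (Fin n) K) :=
  ⟨H76.maximalIdeal_eq_varIdeal, inferInstance⟩

/-- **Factors of distinguished polynomials.** `A` is a local domain, `P` a distinguished polynomial
(monic, `P ≡ X^deg` modulo the maximal ideal). A monic factor of `P` which is a unit as a power series
is `1`: modulo the maximal ideal it is a power of `X`. File `H76PSUfd`. -/
theorem factor_of_distinguished {A : Type*} [CommRing A] [IsDomain A] [IsLocalRing A] {P G H : A[X]}
    (hP : P.IsDistinguishedAt (IsLocalRing.maximalIdeal A)) (hG : G.Monic) (hGH : G * H = P)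
    (hu : IsUnit (G : PowerSeries A)) : G = 1 :=
  H76.eq_one_of_isUnit_of_dvd hP hG hGH hu

/-- **Irreducible power series are prime**, if `A` is a complete local factorial domain and the series
is not zero modulo the maximal ideal of `A`. Proof: it is a unit times a distinguished polynomial `P`
(Weierstrass preparation, Mathlib); `P` is irreducible in `A[X]` by the last theorem, hence prime
there (Gauss), and `A[X] / P = A[[X]] / P`. File `H76PSUfd`. -/
theorem prime_of_irreducible {A : Type*} [CommRing A] [IsDomain A] [IsLocalRing A]
    [IsAdicComplete (IsLocalRing.maximalIdeal A) A] [UniqueFactorizationMonoid A]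
    {f : PowerSeries A} (hf : Irreducible f) (h : f.map (IsLocalRing.residue A) ≠ 0) : Prime f :=
  H76.prime_of_irreducible_of_map_ne_zero hf h

/-- **Restriction to a line.** Let `c` be a vector with `c_0 ≠ 0`. `H76.theta` is the composition of the
automorphism `X_0 ↦ c_0 X_0`, `X_j ↦ X_j + c_j X_0` of `K[[X_0, ..., X_n]]` (`H76.linAut`; `H76.linA c i`
is the image of `X_i`) with the homomorphism to `K[[X]]` which sends `X_0` to `X` and the other
variables to zero. It sends `X_i` to `c_i X`, and a homogeneous polynomial `F` of degree `d` to
`F(c) X^d`. File `H76PSUfd`. -/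
theorem restriction_to_line {n : ℕ} {K : Type*} [Field K] {c : Fin (n + 1) → K} (hc : c 0 ≠ 0) :
    (∀ i, H76.linAut hc (X i) = H76.linA c i) ∧
      (∀ f, H76.theta hc f = PowerSeries.map (constantCoeff : MvPowerSeries (Fin n) K →+* K)
        (finSuccEquiv K n (H76.linAut hc f))) ∧
      (∀ i, H76.theta hc (X i) = PowerSeries.C (c i) * PowerSeries.X) ∧
      ∀ {d : ℕ} {F : MvPolynomial (Fin (n + 1)) K}, F.IsHomogeneous d →
        H76.theta hc (F : MvPowerSeries (Fin (n + 1)) K) =
          PowerSeries.C (MvPolynomial.eval c F) * PowerSeries.X ^ d :=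
  ⟨H76.linAut_X hc, fun _ => rfl, H76.theta_X hc, fun hF => H76.theta_homogeneous hc hF⟩

/-- **A line on which `f` does not vanish**: over an infinite field there is `c` with `c_0 ≠ 0` and
`θ_c(f) ≠ 0`, for every `f ≠ 0`: choose `c` with `c_0 F(c) ≠ 0` for the part `F` of `f` of lowest degree.
After the change of variables `f` is not zero modulo the maximal ideal of `K[[X_1, ..., X_n]]`, and
`prime_of_irreducible` gives the induction step for `power_series_factorial` of `GuideAbelianTools`.
File `H76PSUfd`. -/
theorem exists_good_line {n : ℕ} {K : Type*} [Field K] [Infinite K]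
    {f : MvPowerSeries (Fin (n + 1)) K} (hf : f ≠ 0) :
    ∃ (c : Fin (n + 1) → K) (hc : c 0 ≠ 0), H76.theta hc f ≠ 0 :=
  H76.exists_theta_ne_zero hf

end PowerSeries

/-! ## 2. Homomorphisms and powers of ideals

`f : A → S` is a homomorphism of rings with `f(a) ⊂ n` for ideals `a` of `A` and `n` of `S`. -/

section Filtered

variable {A S : Type*} [CommRing A] [CommRing S]

/-- **Congruent homomorphisms.** If `f ≡ g` modulo `n`, and `f ≡ g` modulo `n²` on `a`, then `f ≡ g`
modulo `n^(m+1)` on `a^m`. File `H76Filt`. -/
theorem congruent_homomorphisms (f g : A →+* S) {a : Ideal A} {n : Ideal S}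
    (hg : ∀ x ∈ a, g x ∈ n) (h0 : ∀ x, f x - g x ∈ n) (h1 : ∀ x ∈ a, f x - g x ∈ n ^ 2)
    (m : ℕ) : ∀ x ∈ a ^ m, f x - g x ∈ n ^ (m + 1) :=
  H76.sub_mem_pow_succ f g hg h0 h1 m

/-- **Surjectivity in degrees zero and one is enough**: if every element of `S` is congruent modulo `n`
to an element of the image, and every element of `n` is congruent modulo `n²` to the image of an
element of `a`, then the same holds for `n^m` modulo `n^(m+1)`, and the image of `f` is dense for the
topology of the powers of `n`. File `H76Filt`. -/
theorem dense_image (f : A →+* S) {a : Ideal A} {n : Ideal S} (hf : ∀ x ∈ a, f x ∈ n)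
    (h0 : ∀ s : S, ∃ x : A, s - f x ∈ n) (h1 : ∀ s ∈ n, ∃ x ∈ a, s - f x ∈ n ^ 2) (m : ℕ) :
    (∀ s ∈ n ^ m, ∃ x ∈ a ^ m, s - f x ∈ n ^ (m + 1)) ∧ ∀ s : S, ∃ x : A, s - f x ∈ n ^ m :=
  ⟨H76.exists_sub_mem_pow_succ f hf h0 h1 m, H76.exists_sub_mem_pow f hf h0 h1 m⟩

/-- A ring which is complete for `I` is complete for `I²` (formal smoothness is applied to the square
of the ideal of the variables). File `H76Filt`. -/
theorem complete_for_square {R : Type*} [CommRing R] (I : Ideal R) [IsAdicComplete I R] :
    IsAdicComplete (I ^ 2) R :=
  H76.isAdicComplete_sq I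

end Filtered

/-! ## 3. The homomorphism from a smooth algebra to power series

`B` is a `K`-algebra, `χ : B → K` a point, `m = ptIdeal χ` its kernel. -/

section Smooth

variable {K : Type u} [Field K] {B : Type u} [CommRing B] [Algebra K B] (χ : B →ₐ[K] K)

/-- **The derivation at the point**, `b ↦ class of b - χ(b)` in `m / m²` (`H76.derAt χ`). File
`H76SmoothPS`. -/
theorem derivation_at_point (b b' : B) :
    H76.derAt χ b = (H76.ptIdeal χ).toCotangent ⟨b - algebraMap K B (χ b), H76.sub_mem_ptIdeal χ b⟩ ∧
      H76.derAt χ (b * b') = χ b • H76.derAt χ b' + χ b' • H76.derAt χ b ∧ H76.derAt χ 1 = 0 :=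
  ⟨rfl, H76.derAt_mul χ b b', H76.derAt_one χ⟩

/-- If `B` is noetherian, `m / m²` has finite dimension over `K`. File `H76SmoothPS`. -/
theorem finite_cotangent_space [IsNoetherianRing B] :
    Module.Finite K (H76.ptIdeal χ).Cotangent :=
  inferInstance

variable [IsNoetherianRing B]

/-- **The first order map** `B → K[[X]] / (X)²`, `b ↦ χ(b) + λ(db)`, where `λ` sends a basis of `m / m²`
to the variables (`H76.linForm χ`, `H76.cotBasis χ`). It is a homomorphism of `K`-algebras. File
`H76SmoothPS`. -/
theorem first_order_map :
    (∀ b : B, H76.firstOrder χ b = Ideal.Quotient.mk (H76.varIdeal (H76.edim χ) K ^ 2)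
      (algebraMap K (H76.PS χ) (χ b) + H76.linForm χ (H76.derAt χ b))) ∧
      ∀ i, H76.linForm χ (H76.cotBasis χ i) = (MvPowerSeries.X i : H76.PS χ) :=
  ⟨fun _ => rfl, H76.linForm_basis χ⟩

variable [Algebra.FormallySmooth K B]

/-- **The lift.** For formally smooth `B` the first order map lifts to a homomorphism of `K`-algebras
`toPS χ : B → K[[X]]`. Its constant coefficient is `χ`, and for `b ∈ m` its linear part is `λ` of the class
of `b`. File `H76SmoothPS`. -/
theorem lift_to_power_series :
    (∃ l : B →ₐ[K] H76.PS χ,
      (Ideal.Quotient.mkₐ K ((H76.varIdeal (H76.edim χ) K) ^ 2)).comp l = H76.firstOrder χ) ∧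
      (∀ b : B, MvPowerSeries.constantCoeff (H76.toPS χ b) = χ b) ∧
      ∀ (b : B) (hb : b ∈ H76.ptIdeal χ),
        H76.toPS χ b - H76.linForm χ ((H76.ptIdeal χ).toCotangent ⟨b, hb⟩) ∈
          H76.varIdeal (H76.edim χ) K ^ 2 :=
  ⟨H76.exists_toPS χ, H76.constantCoeff_toPS χ, fun _ hb => H76.toPS_sub_linForm_mem χ hb⟩

/-- **Dense image**: by `dense_image` it is enough that the variables are reached modulo squares, by
elements of `m` whose classes are the basis of `m / m²`. File `H76SmoothPS`. -/
theorem toPS_dense :
    (∀ s ∈ H76.varIdeal (H76.edim χ) K, ∃ b ∈ H76.ptIdeal χ,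
      s - H76.toPS χ b ∈ H76.varIdeal (H76.edim χ) K ^ 2) ∧
      ∀ (k : ℕ) (s : H76.PS χ), ∃ b : B, s - H76.toPS χ b ∈ H76.varIdeal (H76.edim χ) K ^ k :=
  ⟨fun _ hs => H76.exists_toPS_first χ hs, H76.exists_toPS_sub_mem χ⟩

/-- **Polynomials in parameters.** `fromPoly χ : K[X_1, ..., X_d] → B` sends the variables to elements of
`m` whose classes are the basis of `m / m²`. Its image is dense for the powers of `m`, again by
`dense_image`. File `H76SmoothPS`. -/
theorem polynomials_dense (k : ℕ) (b : B) :
    (∀ i, H76.fromPoly χ (MvPolynomial.X i) = H76.par0 χ i ∧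
      (H76.ptIdeal χ).toCotangent (H76.par0 χ i) = H76.cotBasis χ i) ∧
      ∃ F, b - H76.fromPoly χ F ∈ H76.ptIdeal χ ^ k :=
  ⟨fun i => ⟨H76.fromPoly_X χ i, H76.toCotangent_par0 χ i⟩, H76.exists_fromPoly χ k b⟩

/-- **Injectivity on the graded pieces.** The composition of `fromPoly` and `toPS` is congruent to the
inclusion of polynomials in power series, modulo `(X)^(k+1)` on polynomials of order at least `k`
(`congruent_homomorphisms`). Hence `toPS χ b ∈ (X)^k` implies `b ∈ m^k`: replace `b` by a polynomial in
the parameters. File `H76SmoothPS`. -/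
theorem injective_on_graded_pieces (k : ℕ) :
    (∀ F ∈ MvPolynomial.idealOfVars (Fin (H76.edim χ)) K ^ k,
      H76.toPS χ (H76.fromPoly χ F) - (F : H76.PS χ) ∈ H76.varIdeal (H76.edim χ) K ^ (k + 1)) ∧
      ∀ b : B, H76.toPS χ b ∈ H76.varIdeal (H76.edim χ) K ^ k → b ∈ H76.ptIdeal χ ^ k :=
  ⟨fun F hF => H76.compPS_sub_mem_pow χ k F hF, H76.mem_pow_of_toPS_mem χ k⟩

/-- **The local ring.** `toPS χ` extends to the local ring of `B` at `χ` (`H76.locPS χ`), and the
extension has the three properties used in section 4: it respects the powers of the maximal ideals,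
is injective on the graded pieces, and has dense image. File `H76Colon`. -/
theorem local_homomorphism [Infinite K] (k : ℕ) :
    (∀ x ∈ IsLocalRing.maximalIdeal (Localization.AtPrime (H76.ptIdeal χ)) ^ k,
      H76.locPS χ x ∈ IsLocalRing.maximalIdeal (H76.PS χ) ^ k) ∧
      (∀ x, H76.locPS χ x ∈ IsLocalRing.maximalIdeal (H76.PS χ) ^ k →
        x ∈ IsLocalRing.maximalIdeal (Localization.AtPrime (H76.ptIdeal χ)) ^ k) ∧
      ∀ s : H76.PS χ, ∃ r : Localization.AtPrime (H76.ptIdeal χ),
        s - H76.locPS χ r ∈ IsLocalRing.maximalIdeal (H76.PS χ) ^ k :=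
  ⟨H76.locPS_mem_pow χ k, H76.mem_pow_of_locPS_mem χ k, H76.exists_locPS_sub_mem χ k⟩

end Smooth

/-! ## 4. Colon ideals -/

section Colon

open IsLocalRing

/-- **Krull's intersection theorem** for a quotient: in a noetherian local ring, an element which is in
`J + m^k` for all `k` is in `J`. File `H76Descent`. -/
theorem krull_intersection {R : Type*} [CommRing R] [IsLocalRing R] [IsNoetherianRing R]
    {J : Ideal R} {x : R} (h : ∀ k : ℕ, x ∈ J ⊔ maximalIdeal R ^ k) : x ∈ J :=
  H76.mem_of_forall_mem_sup_pow h

/-- **Artin-Rees lemma for colon ideals.** For `a`, `b` there is `k` such that: if `r a` is divisible by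
`b` modulo `m^(N+k)`, then `r` is congruent modulo `m^N` to an element of the colon ideal. File
`H76Descent`. -/
theorem artin_rees {R : Type*} [CommRing R] [IsLocalRing R] [IsNoetherianRing R] (a b : R) :
    ∃ k : ℕ, ∀ N : ℕ, ∀ r : R, (∃ u : R, r * a - b * u ∈ maximalIdeal R ^ (N + k)) →
      ∃ r' ∈ maximalIdeal R ^ N, b ∣ (r - r') * a :=
  H76.exists_artinRees a b

/-- **Extension of colon ideals** (`H76.colonIdeal a b = {c : b ∣ c a}`). `φ : R → S` is a homomorphism
with the three properties of `local_homomorphism`. The colon ideal of `φ a`, `φ b` is generated by the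
image of the colon ideal of `a`, `b`: approximate an element of it and the quotient by elements of the
image, correct by `artin_rees`, and use `krull_intersection`. With this, a generator of the colon
ideal of `S` is up to a unit the image of an element of the one of `R`, which is then a generator
(`colon_principal_descent` of `GuideAbelianTools`). File `H76Descent`. -/
theorem extension_of_colon_ideals {R S : Type*} [CommRing R] [IsLocalRing R] [IsNoetherianRing R]
    [CommRing S] [IsDomain S] [IsLocalRing S] [IsNoetherianRing S] (φ : R →+* S)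
    (h1 : ∀ (k : ℕ) (x : R), x ∈ maximalIdeal R ^ k → φ x ∈ maximalIdeal S ^ k)
    (h2 : ∀ (k : ℕ) (x : R), φ x ∈ maximalIdeal S ^ k → x ∈ maximalIdeal R ^ k)
    (h3 : ∀ (k : ℕ) (s : S), ∃ r : R, s - φ r ∈ maximalIdeal S ^ k) (a b : R) (D : S)
    (hD : φ b ∣ D * φ a) : D ∈ (H76.colonIdeal a b).map φ :=
  H76.mem_map_colonIdeal φ h1 h2 h3 a b D hD

/-- In a factorial domain colon ideals are principal (generated by `b / gcd(a, b)`). File
`H76Descent`. -/
theorem colon_principal_of_factorial {S : Type*} [CommRing S] [IsDomain S]
    [UniqueFactorizationMonoid S] (a b : S) : ∃ d, ∀ c, b ∣ c * a ↔ d ∣ c :=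
  H76.colon_principal_of_ufd a b

/-- **At a rational point** over an infinite field. File `H76Colon`. -/
theorem colon_principal_at_point {K : Type u} [Field K] [Infinite K] {B : Type u} [CommRing B]
    [Algebra K B] [IsNoetherianRing B] [Algebra.FormallySmooth K B] (χ : B →ₐ[K] K)
    (a b : Localization.AtPrime (H76.ptIdeal χ)) : ∃ d, ∀ c, b ∣ c * a ↔ d ∣ c :=
  H76.colon_principal_point χ a b

/-- **Closed points**: over an algebraically closed field every prime ideal of a finitely generated
algebra is contained in the kernel of a point. File `H76Colon`. -/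
theorem exists_closed_point {K : Type u} [Field K] [IsAlgClosed K] {B : Type u} [CommRing B]
    [Algebra K B] [Algebra.FiniteType K B] (p : Ideal B) [p.IsPrime] :
    ∃ χ : B →ₐ[K] K, p ≤ H76.ptIdeal χ :=
  H76.exists_point p

/-- **Generalisation**: if colon ideals are principal in the local ring of a domain at `q`, then also at
every prime ideal `p ⊂ q`. File `H76Colon`. -/
theorem colon_principal_generalisation {B : Type u} [CommRing B] [IsDomain B] (p q : Ideal B)
    [p.IsPrime] [q.IsPrime] (hpq : p ≤ q)
    (hq : ∀ a b : Localization.AtPrime q, ∃ d, ∀ c, b ∣ c * a ↔ d ∣ c)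
    (a b : Localization.AtPrime p) : ∃ d, ∀ c, b ∣ c * a ↔ d ∣ c :=
  H76.colon_principal_of_le p q hpq hq a b

end Colon

/-! ## 5. Curves

Steps of `curve_through_point` of `GuideAbelianTools`: `B` is étale over `R = K[X_1, ..., X_g]`; a multiple
`r` of `φ` is in `R` (`algebraic_over_base`); take the line through the image of `χ` and a point where `r`
does not vanish; `T = K[X] ⊗_R B` is étale over `K[X]` and has the point `(0, χ)`
(`homomorphism_on_tensor_product`); apply `curve_on_etale_algebra`. -/

/-- **Quasi-finite implies algebraic**, for domains `R ⊂ B`. File `H43Smooth`. -/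
theorem algebraic_over_base {R B : Type*} [CommRing R] [IsDomain R] [CommRing B] [IsDomain B]
    [Algebra R B] [FaithfulSMul R B] [Algebra.QuasiFinite R B] (b : B) : IsAlgebraic R b :=
  H43.Sm.isAlgebraic_of_quasiFinite b

/-- **Homomorphisms on a tensor product**: `S → K` and `B → K` which agree on `R` give `S ⊗_R B → K`.
File `H43Smooth`. -/
theorem homomorphism_on_tensor_product {R S B K : Type*} [CommRing R] [CommRing S] [CommRing B]
    [CommRing K] [Algebra R S] [Algebra R B] (f : S →+* K) (h : B →+* K)
    (hfh : ∀ r, f (algebraMap R S r) = h (algebraMap R B r)) :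
    ∃ F : S ⊗[R] B →+* K, ∀ s b, F (s ⊗ₜ b) = f s * h b :=
  H43.Sm.exists_tensor_hom f h hfh

/-- **Minimal primes of a flat algebra** `T` over a domain `S` lie over zero: a nonzero element of `S` is
not a zero divisor in `T`. File `H43Smooth`. -/
theorem minimal_prime_over_zero {S T : Type*} [CommRing S] [IsDomain S] [CommRing T] [Algebra S T]
    [Module.Flat S T] {P : Ideal T} (hP : P ∈ minimalPrimes T) {p : S}
    (hp : algebraMap S T p ∈ P) : p = 0 :=
  H43.Sm.eq_zero_of_mem_minimalPrimes hP hp

/-- **A place with given centre.** `E` is a function field of one variable over the algebraically closed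
field `K`, `C ⊂ E` a subalgebra and `χ : C → K` a point at which some nonzero element vanishes. There is a
place `c` of `E` with valuation ring containing `C` whose reduction on `C` is `χ`: a valuation ring
dominating `C` at `χ` is not `E`, so it is discrete, with residue field `K`. File `H43Smooth`. -/
theorem place_with_centre {K E : Type u} [Field K] [IsAlgClosed K] [Field E] [Algebra K E]
    [H3RR.IsFF K E] {C : Type u} [CommRing C] [Algebra K C] (j : C →ₐ[K] E)
    (hj : Function.Injective j) (χ : C →ₐ[K] K) {x : C} (hx : x ≠ 0) (hx0 : χ x = 0) :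
    ∃ (c : Place K E) (h : C →ₐ[K] (plV K c).toSubalgebra) (π : (plV K c).toSubalgebra →ₐ[K] K),
      π.comp h = χ ∧ ∀ y, (h y : E) = j y :=
  H43.Sm.exists_place_centered j hj χ hx hx0

/-- **A curve on an étale algebra over the line.** `T` is étale over `K[X]`, `χ` a point of `T`. There are
a function field of one variable `E`, a place `c` and a homomorphism `h` from `T` to the valuation ring
of `c` whose reduction is `χ` and which is injective on `K[X]`. Proof: let `P` be a minimal prime of `T`
contained in the kernel of `χ`. Then `K[X] ⊂ T / P` (`minimal_prime_over_zero`), the field of fractions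
`E` of `T / P` is finite over `K(X)` (quasi-finite), and `X - χ(X)` vanishes at `χ`, so
`place_with_centre` applies. File `H43Smooth`. -/
theorem curve_on_etale_algebra {K : Type u} [Field K] [IsAlgClosed K] {T : Type u} [CommRing T]
    [Algebra K T] [Algebra K[X] T] [IsScalarTower K K[X] T] [Algebra.Etale K[X] T]
    (χT : T →ₐ[K] K) :
    ∃ (E : Type u) (_ : Field E) (_ : Algebra K E) (_ : H3RR.IsFF K E) (c : Place K E)
      (h : T →ₐ[K] (plV K c).toSubalgebra) (π : (plV K c).toSubalgebra →ₐ[K] K),
      π.comp h = χT ∧ ∀ p : K[X], h (algebraMap K[X] T p) = 0 → p = 0 :=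
  H43.Sm.exists_curve_of_etale χT

end Fermat.Agent.Guide.SmoothPoints
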