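import Fermat.Agent.H49T4

/-!
# Reader's guide: the transformation law of the theta kernel of block (T), step by step

Companion of `GuideOctT`, section 4 (statement S47).  Every theorem of this file is proved by citing
theorems of the library (`H49T1`-`H49T4`, helper49); nothing here is used by any other file.  All theorems
are in the proof term of S47 and of no other of the 60 statements.  Notes: [409] NOTES-S47-T1b.

**What is proved.**  `GuideOctT.theta_modular`: the theta kernel `Θ(τ, w)` of block (T) satisfies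
`Θ(γ τ, w) = (c τ + d) Θ(τ, w)` for all matrices `γ = (a b; c d)` of `Γ(6 N²)`.  Here `w` is a point of
hyperbolic 3-space, `τ` a point of the upper half plane, and `Θ` is a sum over the lattice `ℤ × ℤ[ω] × ℤ`
weighted by the characteristic function `phiN N` of a set which depends on the entries modulo `N` only.

**Idea of the proof.**  There are no Gauss sums and no finite Weil representation.  One considers the
theta function `Θ(l, m; τ)` of a lattice `L` with two REAL characteristics `l`, `m`, vectors of the real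
quadratic space.  It transforms under a matrix `γ` LINEARLY,
`Θ(l, m; γ τ) = (c τ + d) Θ(a l + c m, b l + d m; τ)`, as soon as this holds for generators of a group
which contains `γ` (section 1).  For `τ ↦ τ + 1` this is the evenness of the lattice `L`.  For
`τ ↦ τ/(3τ + 1)`, the conjugate of `τ ↦ τ - 3` under `τ ↦ -1/τ`, it follows from the inversion formula
(which exchanges `L` with the dual lattice `L'` and `l`, `m` with `m`, `-l`) and from the evenness of
`3` times the form on `L'`.  These two matrices generate `Γ₁(3)`.  If `n l`, `n m` lie in `L'` and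
`γ ∈ Γ(6 n²)`, then `a l + c m` differs from `l` by an element of `2 n L`, and the phase factors are `1`
(section 2).  Finally `Θ(τ, w)` is a combination of such functions: a sum over a residue class modulo
`n L` is a combination of the `Θ(l, m; τ)` with `n m ∈ L'` by the orthogonality of characters (section
4).  Only the transformation law is proved here: `Θ` is not holomorphic in `τ` (the holomorphy of the lift
is the subject of `GuideHolomorphy`).

Notation: `VV = ℝ × ℂ × ℝ` is the real quadratic space, `QQ (a, b, d) = |b|² - a d`, `BB` its bilinear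
form with `BB X X = 2 QQ X`; `PI = ℤ × ℤ² × ℤ` the index group of both lattices; `embV e p` the vector
`(p₁, p₂₀ e₀ + p₂₁ e₁, p₃)`; `L` is the image of `embV e1`, `e1 = (1, ω)`, and `L'` that of `embV e2`,
`e2 = (ω/√-3, -1/√-3)`; `ee x = exp(2πi x)`; `jf γ τ = c τ + d`; `S τ = -1/τ`, `T τ = τ + 1`.
-/

set_option autoImplicit false

noncomputable section

open Matrix MatrixGroups ModularGroup UpperHalfPlane CongruenceSubgroup
open scoped ComplexConjugate Real

namespace Fermat.Agent.Guide.ThetaCongruence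

open Fermat.Agent.S47T (sq3 om Eis hQ pair qL pL Theta phiN omE sq3E)
open Fermat.Agent.H49T (VV PI U3 jf LinTrans ee BB QQ PP embV e1 e2 ker vec Th PoissonAt Box boxI mu cls
  per BE)

/-! ## 1. Functions with two characteristics -/

/-- **The automorphy factor** `c τ + d` is a cocycle and is not zero.  File `H49T1`. -/
theorem automorphy_factor (γ γ' : SL(2, ℤ)) (τ : ℍ) :
    jf γ τ = (γ 1 0 : ℂ) * τ + (γ 1 1 : ℂ) ∧ jf (γ * γ') τ = jf γ (γ' • τ) * jf γ' τ ∧ jf γ τ ≠ 0 :=
  ⟨rfl, H49T.jf_mul γ γ' τ, H49T.jf_ne_zero γ τ⟩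

/-- **The second generator** `U3 = (1 0; 3 1)` is the conjugate of `T⁻³` under `S`, and `S² τ = τ`.
(`T` and `U3` generate `Γ₁(3)`: `GuideOctT2.gamma1_three_generated`.)  File `H49T1`. -/
theorem lower_generator : (U3 0 0 = 1 ∧ U3 0 1 = 0 ∧ U3 1 0 = 3 ∧ U3 1 1 = 1) ∧
    U3 = S * T ^ (-3 : ℤ) * S⁻¹ ∧ ∀ τ : ℍ, S • S • τ = τ :=
  ⟨H49T.U3_entry, H49T.U3_eq, H49T.S_smul_S_smul⟩

/-- `Th` **transforms linearly** under `γ = (a b; c d)`:
`Θ(l, m; γ τ) = (c τ + d) Θ(a l + c m, b l + d m; τ)` for all characteristics `l`, `m` in an abelian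
group `V`.  File `H49T1`. -/
theorem linTrans_iff {V : Type*} [AddCommGroup V] (Th : V → V → ℍ → ℂ) (γ : SL(2, ℤ)) :
    LinTrans Th γ ↔ ∀ (l m : V) (τ : ℍ), Th l m (γ • τ) =
      jf γ τ * Th (γ 0 0 • l + γ 1 0 • m) (γ 0 1 • l + γ 1 1 • m) τ :=
  Iff.rfl

/-- The matrices under which `Th` transforms linearly form a group.  File `H49T1`. -/
theorem linTrans_group {V : Type*} [AddCommGroup V] (Th : V → V → ℍ → ℂ) :
    LinTrans Th 1 ∧ (∀ γ γ' : SL(2, ℤ), LinTrans Th γ → LinTrans Th γ' → LinTrans Th (γ * γ')) ∧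
      ∀ γ : SL(2, ℤ), LinTrans Th γ → LinTrans Th γ⁻¹ :=
  ⟨H49T.linTrans_one Th, fun _ _ h h' => h.mul h', fun _ h => h.inv⟩

/-- **The first generator**: the law for `T` is `Θ(l, m; τ + 1) = Θ(l, m + l; τ)`.  File `H49T1`. -/
theorem linTrans_translation {V : Type*} [AddCommGroup V] {Th : V → V → ℍ → ℂ}
    (hT : ∀ l m τ, Th l m ((1 : ℝ) +ᵥ τ) = Th l (m + l) τ) : LinTrans Th T :=
  H49T.linTrans_T hT

/-- **The second generator.**  Let `Th`, `Th'` be two functions which are exchanged by `τ ↦ -1/τ`,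
`Θ(l, m; -1/τ) = c τ Θ'(m, -l; τ)` and `Θ'(l, m; -1/τ) = c' τ Θ(m, -l; τ)` with `c c' = -1`, let
`Θ(-l, -m; τ) = Θ(l, m; τ)`, and `Θ'(l, m; τ + 3) = Θ'(l, m + 3 l; τ)`.  Then `Th` transforms linearly
under `U3`.  File `H49T1`. -/
theorem linTrans_lower {V : Type*} [AddCommGroup V] {Th Th' : V → V → ℍ → ℂ} {c c' : ℂ}
    (hcc : c * c' = -1) (hS : ∀ l m τ, Th l m (S • τ) = c * τ * Th' m (-l) τ)
    (hS' : ∀ l m τ, Th' l m (S • τ) = c' * τ * Th m (-l) τ)
    (hneg : ∀ l m τ, Th (-l) (-m) τ = Th l m τ)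
    (hT3 : ∀ l m τ, Th' l m ((3 : ℝ) +ᵥ τ) = Th' l (m + (3 : ℤ) • l) τ) : LinTrans Th U3 :=
  H49T.linTrans_U3 hcc hS hS' hneg hT3

/-- **All of `Γ₁(3)`**: a function which transforms linearly under `T` and `U3` does so under all matrices
of `Γ₁(3)`.  File `H49T1`. -/
theorem linTrans_gamma1_three {V : Type*} [AddCommGroup V] {Th : V → V → ℍ → ℂ}
    (hT : LinTrans Th T) (hU : LinTrans Th U3) {γ : SL(2, ℤ)} (hγ : γ ∈ Gamma1 3) : LinTrans Th γ :=
  H49T.linTrans_Gamma1_three hT hU hγ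

/-! ## 2. Torsion characteristics -/

/-- **Torsion characteristics.**  Let `B` be a symmetric biadditive form on `V`, and `L`, `L'` subgroups
with `3 L' ⊆ L` and `B` integral on `L × L'`.  Let `Th` transform linearly under `Γ₁(3)`, and let a shift
of the first characteristic by an element of `L`, or of the second one by an element of `L'`, change it
only by the phase written in `hq`, `hq'`.  If `n l` and `n m` lie in `L'` and `γ ∈ Γ(6 n²)`, then
`Θ(l, m; γ τ) = (c τ + d) Θ(l, m; τ)`.  Proof: for `γ = 1 + 6 n² δ` the shifts are `2 n · 3 y₁` and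
`2 n · 3 y₂` with `y₁`, `y₂ ∈ L'`; the phases are values of `B` on `3 y ∈ L` and `n` times a vector,
which lies in `L'`, hence integers.  File `H49T1`. -/
theorem torsion_characteristics {V : Type*} [AddCommGroup V] {Th : V → V → ℍ → ℂ}
    (hlin : ∀ γ ∈ Gamma1 3, LinTrans Th γ) (L L' : AddSubgroup V) (B : V →+ V →+ ℝ)
    (hsymm : ∀ x y, B x y = B y x) (hLL' : ∀ x ∈ L', (3 : ℤ) • x ∈ L)
    (hB : ∀ x ∈ L, ∀ y ∈ L', ∃ k : ℤ, B x y = k)
    (hq : ∀ Y ∈ L, ∀ l m τ, Th (l + Y) m τ = ee (-(B Y m) / 2) * Th l m τ)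
    (hq' : ∀ Y ∈ L', ∀ l m τ, Th l (m + Y) τ = ee (B l Y / 2) * Th l m τ)
    (n : ℕ) {l m : V} (hl : (n : ℤ) • l ∈ L') (hm : (n : ℤ) • m ∈ L')
    {γ : SL(2, ℤ)} (hγ : γ ∈ Gamma (6 * n ^ 2)) (τ : ℍ) :
    Th l m (γ • τ) = jf γ τ * Th l m τ :=
  H49T.torsion_automorphy hlin L L' B hsymm hLL' hB hq hq' n hl hm hγ τ

/-! ## 3. The theta function with real characteristics -/

/-- **The quadratic space** `VV` of signature `(3, 1)`: `QQ (a, b, d) = |b|² - a d`, with bilinear form
`BB X Y = 2 Re(b b̄') - a d' - a' d`.  File `H49T2`. -/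
theorem quadratic_space (X Y : VV) :
    QQ X = hQ X.1 X.2.1 X.2.2 ∧
      BB X Y = 2 * (X.2.1 * conj Y.2.1).re - X.1 * Y.2.2 - Y.1 * X.2.2 ∧ BB X Y = BB Y X ∧
      QQ (X + Y) = QQ X + BB X Y + QQ Y ∧ BB X X / 2 = QQ X :=
  ⟨rfl, H49T.BB_apply X Y, H49T.BB_symm X Y, H49T.QQ_add X Y, H49T.BB_self X⟩

/-- **One term of the theta kernel** at a vector `X` of `VV`: `√v e(τ QQ(X)) exp(-4πv P(X, w)²)`,
`v = Im τ`, with the pairing `PP` of `X` with the point `w`.  The kernel `Theta n φ` is the sum of `φ(x)`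
times the term at the vector `vec n x`, which is the lattice vector `x = (a, b, d)` with `b` divided by
`√-3`, all divided by `n`.  File `H49T2`. -/
theorem kernel_term (n : ℕ) (φ : S47T.Lat → ℂ) (τ : ℂ) (w : H3) (X : VV) :
    ker τ w X = (Real.sqrt τ.im : ℝ) * (S47T.ee (τ * (QQ X : ℝ)) *
      (Real.exp (-4 * π * τ.im * (PP X w) ^ 2) : ℝ)) ∧
    (∀ x : S47T.Lat, vec n x = ((x.1 : ℝ) / n, ((x.2.1 : ℂ) / sq3) / n, (x.2.2 : ℝ) / n)) ∧
    Theta n φ τ w = ∑' x : S47T.Lat, φ x * ker τ w (vec n x) :=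
  ⟨rfl, fun _ => rfl, H49T.Theta_eq n φ τ w⟩

/-- **The two lattices.**  The bases `e1 = (1, ω)` and `e2 = (ω/√-3, -1/√-3)` are dual to each other, so
that `BB` is integral on `L × L'` and given by the coordinates; `3 L' ⊆ L`; the form `QQ` is integral on
`L`, and `3 QQ` is integral on `L'`.  File `H49T2`. -/
theorem two_lattices (p q : PI) :
    BB (embV e1 p) (embV e2 q) =
        ((p.2.1 0 * q.2.1 0 + p.2.1 1 * q.2.1 1 - p.1 * q.2.2 - q.1 * p.2.2 : ℤ) : ℝ) ∧
      (3 : ℤ) • embV e2 p =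
        embV e1 (3 * p.1, ![2 * p.2.1 0 + p.2.1 1, p.2.1 0 + 2 * p.2.1 1], 3 * p.2.2) ∧
      (∃ k : ℤ, QQ (embV e1 p) = k) ∧ ∃ k : ℤ, ((3 : ℤ) : ℝ) * QQ (embV e2 p) = k :=
  ⟨H49T.BB_emb p q, H49T.three_smul_e2 p, H49T.QQ_e1 p, H49T.QQ_e2 p⟩

/-- **The theta function** `Θ(l, m; τ)` of the lattice with basis `e`: the sum over the lattice vectors `X`
of the term at `l + X` times `e(BB(X, m) + BB(l, m)/2)`.  File `H49T2`. -/
theorem theta_with_characteristics (e : Fin 2 → ℂ) (w : H3) (l m : VV) (τ : ℍ) :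
    Th e w l m τ = ∑' p : PI, ker τ w (l + embV e p) * ee (BB (embV e p) m + BB l m / 2) :=
  rfl

/-- **Shifts of the characteristics**: by a lattice vector in the first one, and by a vector `Y` with
integral products with the lattice in the second one.  File `H49T2`. -/
theorem shifts (e : Fin 2 → ℂ) (w : H3) (l m : VV) (τ : ℍ) :
    (∀ q : PI, Th e w (l + embV e q) m τ = ee (-(BB (embV e q) m) / 2) * Th e w l m τ) ∧
    ∀ Y : VV, (∀ p : PI, ∃ k : ℤ, BB (embV e p) Y = k) →
      Th e w l (m + Y) τ = ee (BB l Y / 2) * Th e w l m τ :=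
  ⟨fun q => H49T.Th_quasi1 e w q l m τ, fun _ hY => H49T.Th_quasi2 e w hY l m τ⟩

/-- **Translation by an integer `t`** for which `t QQ` is integral on the lattice, and the sign.  File
`H49T2`. -/
theorem translation_and_sign (e : Fin 2 → ℂ) (w : H3) (l m : VV) (τ : ℍ) :
    (∀ t : ℤ, (∀ p : PI, ∃ k : ℤ, t * QQ (embV e p) = k) →
      Th e w l m (((t : ℝ) +ᵥ τ : ℍ)) = Th e w l (m + t • l) τ) ∧
    Th e w (-l) (-m) τ = Th e w l m τ :=
  ⟨fun t ht => H49T.Th_T e w t ht l m τ, H49T.Th_neg e w l m τ⟩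

/-- **Poisson summation** with two characteristics, for the lattice with basis `e`, the dual one with basis
`f`, and a constant `c`: the form in which `GuideOctT.theta_inversion` is used here.  It holds for
`(e1, e2)` and for `(e2, e1)`, and the product of the two constants is `-1` (`BE` is the basis `e1` with
its dual basis; the product of the volumes of the two lattices is `1`).  Files `H49T2`, `H49T4`,
`H45TC`. -/
theorem poisson (e f : Fin 2 → ℂ) (w : H3) (c : ℂ) :
    (PoissonAt e f w c ↔ ∀ (l m : VV) (τ : ℍ),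
      ∑' p : PI, ker ((S • τ : ℍ) : ℂ) w (l + embV e p) * ee (BB (l + embV e p) m) =
        c * τ * ∑' p : PI, ker τ w (m + embV f p) * ee (-(BB l (embV f p)))) ∧
    PoissonAt e1 e2 w (-Complex.I / BE.vol) ∧ PoissonAt e2 e1 w (-Complex.I / BE.dualB.vol) ∧
    (-Complex.I / (BE.vol : ℂ)) * (-Complex.I / (BE.dualB.vol : ℂ)) = -1 :=
  ⟨Iff.rfl, H49T.poisson12 w, H49T.poisson21 w, H49T.const_mul⟩

/-- **Inversion**: `Θ(l, m; -1/τ) = c τ Θ'(m, -l; τ)`, `Θ'` the theta function of the dual lattice.  File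
`H49T2`. -/
theorem inversion {e f : Fin 2 → ℂ} {w : H3} {c : ℂ} (hP : PoissonAt e f w c) (l m : VV) (τ : ℍ) :
    Th e w l m (S • τ) = c * τ * Th f w m (-l) τ :=
  H49T.Th_S hP l m τ

/-- **Theta functions with torsion characteristics** transform with weight one under `Γ(6 n²)`: sections 1,
2 for the lattices `L`, `L'`.  File `H49T2`. -/
theorem torsion_theta (w : H3) (n : ℕ) {l m : VV} (hl : (n : ℤ) • l ∈ (embV e2).range)
    (hm : (n : ℤ) • m ∈ (embV e2).range) {γ : SL(2, ℤ)} (hγ : γ ∈ Gamma (6 * n ^ 2)) (τ : ℍ) :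
    Th e1 w l m (γ • τ) = jf γ τ * Th e1 w l m τ :=
  H49T.Th_automorphy (H49T.poisson12 w) (H49T.poisson21 w) H49T.const_mul n hl hm hγ τ

/-! ## 4. Classes and periodic test functions -/

/-- **Convergence**: of the sum of the terms over a class of the lattice `L`, and of the theta kernel with
a bounded test function.  File `H49T4`. -/
theorem convergence (τ : ℍ) (w : H3) :
    (∀ l : VV, Summable fun p : PI => ker τ w (l + embV e1 p)) ∧
    ∀ {s : ℕ} (_ : 0 < s) {φ : S47T.Lat → ℂ} {M : ℝ} (_ : ∀ x, ‖φ x‖ ≤ M),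
      Summable fun x : S47T.Lat => φ x * ker τ w (vec s x) :=
  ⟨H49T.summable_ker τ w, fun hs _ _ hφ => H49T.summable_Lat hs hφ τ w⟩

/-- **Orthogonality.**  `Box n` is a system of representatives of `L'/n L'`, and `mu n k` is the
corresponding vector divided by `n`.  The sum of `e(BB(X, mu n k))` over `k` is `n⁴` if `X` is in `n L`
and zero for the other `X` in `L`.  File `H49T3`. -/
theorem orthogonality {n : ℕ} (hn : 0 < n) (p : PI) :
    (∀ k : Box n, mu n k = (1 / n : ℝ) • embV e2 (boxI k) ∧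
      (n : ℤ) • mu n k = embV e2 (boxI k)) ∧
    ∑ k : Box n, ee (BB (embV e1 p) (mu n k)) =
      if (n : ℤ) ∣ p.1 ∧ (n : ℤ) ∣ p.2.1 0 ∧ (n : ℤ) ∣ p.2.1 1 ∧ (n : ℤ) ∣ p.2.2 then
        (n : ℂ) ^ 4 else 0 :=
  ⟨fun k => ⟨rfl, H49T.nsmul_mu hn k⟩, H49T.orthogonality hn p⟩

/-- **Class sums.**  The sum `cls n w l τ` of the terms over `l + n L` is a combination of the theta
functions `Θ(l, mu n k; τ)`.  File `H49T3`. -/
theorem class_sum {n : ℕ} (hn : 0 < n) (w : H3) (l : VV) (τ : ℍ) :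
    cls n w l τ = ∑' p : PI, ker τ w (l + embV e1 (n • p)) ∧
    cls n w l τ = (1 / (n : ℂ) ^ 4) *
      ∑ k : Box n, ee (-(BB l (mu n k)) / 2) * Th e1 w l (mu n k) τ :=
  ⟨rfl, H49T.cls_eq hn (H49T.summable_ker τ w l)⟩

/-- Hence the class sum of `l` transforms with weight one under `Γ(6 n²)` if `n l ∈ L'`.  File `H49T3`. -/
theorem class_sum_modular {n : ℕ} (hn : 0 < n) (w : H3) {l : VV}
    (hl : (n : ℤ) • l ∈ (embV e2).range) {γ : SL(2, ℤ)} (hγ : γ ∈ Gamma (6 * n ^ 2)) (τ : ℍ) :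
    cls n w l (γ • τ) = jf γ τ * cls n w l τ :=
  H49T.cls_automorphy (H49T.poisson12 w) (H49T.poisson21 w) H49T.const_mul hn
    (fun τ => H49T.summable_ker τ w l) hl hγ τ

/-- **Periods.**  `per k p` is the vector of `ℤ × ℤ[ω] × ℤ` which corresponds to `k` times the vector
`embV e1 p` of `L`: adding `per (s n) p` to `x` adds an element of `n L` to `vec s x`.  For `s ∣ n` the
vector `n vec s x` lies in `L'`.  File `H49T3`. -/
theorem periods {s : ℕ} (hs : 0 < s) (n : ℕ) (x : S47T.Lat) (p : PI) :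
    per n p = ((n : ℤ) * p.1, (n : Eis) * (sq3E * ((p.2.1 0 : Eis) + (p.2.1 1 : Eis) * omE)),
      (n : ℤ) * p.2.2) ∧
    vec s (x + per (s * n) p) = vec s x + embV e1 (n • p) ∧
    (s ∣ n → (n : ℤ) • vec s x ∈ (embV e2).range) :=
  ⟨H49T.per_apply n p, H49T.vec_add_per hs n x p, fun h => H49T.zsmul_vec_mem hs x h⟩

/-- **Decomposition into classes**: for a test function `φ` with the periods `per (s n) p` the theta kernel
is the sum over the classes `q` of `φ(q)` times the class sum.  (The sum over `q` is finite, but only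
its convergence is used.)  File `H49T3`. -/
theorem theta_by_classes {s n : ℕ} (hs : 0 < s) (hn : 0 < n) {φ : S47T.Lat → ℂ}
    (hφ : ∀ x p, φ (x + per (s * n) p) = φ x) {M : ℝ} (hM : ∀ x, ‖φ x‖ ≤ M) (w : H3) (τ : ℍ) :
    Theta s φ τ w = ∑' q : S47T.Lat ⧸ (per (s * n)).range,
      φ (Quotient.out q) * cls n w (vec s (Quotient.out q)) τ :=
  H49T.Theta_eq_cls hs hn hφ (H49T.summable_Lat hs hM τ w)

/-- **The transformation law** for bounded periodic test functions: `Γ(6 n²)` for the period `s n` and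
`s ∣ n`.  File `H49T4`. -/
theorem theta_transformation {s n : ℕ} (hs : 0 < s) (hn : 0 < n) (hsn : s ∣ n) {φ : S47T.Lat → ℂ}
    {M : ℝ} (hM : ∀ x, ‖φ x‖ ≤ M) (hφ : ∀ x p, φ (x + per (s * n) p) = φ x)
    {γ : SL(2, ℤ)} (hγ : γ ∈ Gamma (6 * n ^ 2)) (τ : ℍ) (w : H3) :
    Theta s φ ((γ • τ : ℍ) : ℂ) w = ((γ 1 0 : ℤ) * (τ : ℂ) + (γ 1 1 : ℤ)) * Theta s φ τ w :=
  H49T.Theta_congr hs hn hsn hM hφ hγ τ w

/-- **The test function of block (T)** is bounded by one and has the periods `per N p`; so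
`theta_transformation` with `s = 1`, `n = N` is `GuideOctT.theta_modular`.  File `H49T4`. -/
theorem test_function (N : ℕ) (x : S47T.Lat) (p : PI) :
    ‖phiN N x‖ ≤ 1 ∧ phiN N (x + per (1 * N) p) = phiN N x :=
  ⟨H49T.norm_phiN_le N x, H49T.phiN_per x p⟩

end Fermat.Agent.Guide.ThetaCongruence
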