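import Fermat.Agent.H68TwoInst

/-!
# Guide: the two components of `X₀(q m)`, step by step (S36)

(helper68; library files `H68TwoBase`, `H68TwoFrame`, `H68TwoDer`, `H68TwoData`, `H68TwoHyp`,
`H68TwoInst`)

Companion of `GuideCarayol` (sections C to E) and of `GuideCarayolModel` (sections B and C); read
those first. Theorem 13 of `GuideCarayol` says that the function field of `X₀(q m)` with its two
Gauss valuations, the Atkin-Lehner involution, the coordinate `X` of level `4` or `9` and the
derivation `d/dX` is a structure `H83.TwoData`, and theorem 12 there says that the special fibre of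
`X₀(m)` is a structure `H83.ResData`. This file shows how the single fields of these structures are
proved. Theorems of the two files mentioned are not repeated. (The other companions: `GuideThreeSheets`
for level `q² m`, `GuideCarayolSteps` for points and local rings, `GuideFunctionLifting` for the
special fibre of `X₀(m)`.) All theorems cited here are in the proof terms of S01, S03, S04, S06, S36,
S38, S43, S45, S46, S50, S58, S59 and S60.

**Setting.** `q` is a prime which does not divide `m`, and `c = 4` or `9` divides `m`. `K` is a field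
of characteristic zero with a valuation ring `A` and residue map `π : A → k`; `H99.Unif A π q` says
that `A` is a discrete valuation ring with uniformizer `q`. `F_N = H99.FX K N ⊂ K((t))` is the
function field of `X₀(N)` over `K`, and `H68.hor K N ⊂ F_N` is the integral closure of `K[j]`: the
functions which are regular outside the cusps. `w : H99.AL K m q` is the Atkin-Lehner involution of
`F_{q m}`; the two embeddings `H68.emb w i : F_{q m} → K((t))` are `x ↦ x` (`i = 0`, component of
`∞`) and `x ↦ w x` (`i = 1`). `H99.GR A π ⊂ K((t))` is the Gauss ring and `H99.gres A π` its residue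
map to `k((t))`, `0` outside the Gauss ring. `H61.theta` is `θ = t d/dt`, `H1.Xc c` is the series of
the coordinate `X`.

**Where the fields of `H83.TwoData` are proved.**

* `hor_closed`, `qinv_mem`: `regular_closed`. `V`, `ρ`, `ρ_unit`, `ρ_q`: `valuation_of_embedding` in
  `GuideThreeSheets` (Gauss ring), and `embedding_values`. `e_eq`, `pow_div` (multiplicity one):
  `division_by_q`.
* `r_mem` (residues are regular): section 4 and `GuideCarayolModel`, theorem 18. `r_surj` (regular
  functions lift): `lift_infinity` and `GuideCarayolModel`, theorem 19.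
* `W`, `W_hor`, `W_V`, `W_res`: `atkinLehner_regular`; the last two hold by definition of `emb`.
* `X_hor`: `coordinate_integral`. `X_V`, `res_X`, `res_WX`: `coordinate_residue`,
  `coordinate_atkinLehner` and `GuideCarayolModel`, theorem 9.
* `der`, `der_X`: `exists_derivation`. `der_hor`: `derivation_regular`. `der_V`, `res_der`:
  `theta_residue` and `GuideCarayolModel`, theorem 12. `W_der`: `chain_rule`. `res_delta`:
  `delta_residue`.

Of the fields of `H83.ResData`, section 7 shows `X_mem` and `D_mem`; the others (Frobenius, the ring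
`C` of regular functions on the special fibre is a Dedekind ring with residue fields `k`) are in
`GuideFunctionLifting`, sections 4 and 6, together with the theorems on lifting in general.
-/

set_option autoImplicit false

open Polynomial ModularCurve IntermediateField

noncomputable section

namespace Fermat.Agent.Guide.TwoComponents

/-! ## 1. Regular functions -/

/-- **The ring of regular functions is integrally closed** and contains the constants (in particular
`1/q`) and the polynomials in `j`. (`H68.jF K N` is `j` as an element of `F_N`.)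
Files: `H68TwoBase`, `H68TwoHyp`. -/
theorem regular_closed {K : Type*} [Field K] [Algebra ℚ K] {N : ℕ} [NeZero N] :
    (∀ x : H99.FX K N, IsIntegral (H68.hor K N) x → x ∈ H68.hor K N) ∧
      (∀ a : K, algebraMap K (H99.FX K N) a ∈ H68.hor K N) ∧
      ∀ P : K[X], aeval (H68.jF K N) P ∈ H68.hor K N :=
  ⟨H68.hor_closed, H68.algebraMap_mem_hor, H68.aeval_mem_hor⟩

/-- **Maps preserve regularity** as soon as they do so for `j`: if `φ : F_N → F_M` is a homomorphism
over `K` and `φ(j)` is regular, then `φ` maps regular functions to regular functions. And the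
function `j(d z)`, `d ∣ N` (here `H68.JF K d h`), is regular. File: `H68TwoBase`. -/
theorem regular_maps {K : Type*} [Field K] [Algebra ℚ K] {N : ℕ} [NeZero N] :
    (∀ {M : ℕ} [NeZero M] (φ : H99.FX K N →ₐ[K] H99.FX K M), φ (H68.jF K N) ∈ H68.hor K M →
      ∀ x ∈ H68.hor K N, φ x ∈ H68.hor K M) ∧
    ∀ [CharZero K] (d : ℕ) (h : d ∣ N), H68.JF K d h ∈ H68.hor K N :=
  ⟨fun φ hφ _ hx => H68.map_mem_hor φ hφ hx, fun d h => H68.JF_mem_hor d h⟩

/-- **Denominators, abstract form.** If all elements of the field `F` are algebraic over `K(j)`, then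
for each `x` in `F` there is a polynomial `P` over `K` with `P(j) ≠ 0` such that `P(j) x` is integral
over `K[j]`: multiply `x` by the leading coefficient of an equation over `K[j]`.
File: `H68TwoHyp`. -/
theorem denominator_polynomial {K F : Type*} [Field K] [Field F] [Algebra K F] {j : F}
    (h : ∀ f : F, IsAlgebraic K⟮j⟯ f) (x : F) :
    ∃ P : K[X], aeval j P ≠ 0 ∧ IsIntegral (Algebra.adjoin K {j}) (aeval j P * x) :=
  H68.exists_poly_mul_isIntegral h x

/-- **Every function is a quotient of regular functions**, with a polynomial in `j` as denominator,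
because `F_N` is a finite extension of `K(j)`. Files: `H68TwoFrame`, `H68TwoHyp`. -/
theorem regular_denominator {K : Type*} [Field K] [Algebra ℚ K] [CharZero K] {N : ℕ} [NeZero N] :
    FiniteDimensional K⟮H68.jF K N⟯ (H99.FX K N) ∧
      ∀ x : H99.FX K N, ∃ P : K[X], aeval (H68.jF K N) P ≠ 0 ∧
        aeval (H68.jF K N) P * x ∈ H68.hor K N :=
  ⟨H68.finiteDimensional_jF (H99.degreeFact K) N, H68.exists_poly_mul_mem_hor⟩

/-! ## 2. The two embeddings -/

/-- **The Atkin-Lehner involution exchanges `j(z)` and `j(q z)`**; so it maps regular functions to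
regular functions (`regular_maps`). Files: `H68TwoFrame`, `H68TwoData`. -/
theorem atkinLehner_regular {K : Type*} [Field K] [Algebra ℚ K] [CharZero K] {m q : ℕ} [NeZero m]
    [NeZero q] [Fact q.Prime] (w : H99.AL K m q) :
    w.W (H68.jF K (m * q)) = H68.JF K q (dvd_mul_left q m) ∧
      w.W (H68.JF K q (dvd_mul_left q m)) = H68.jF K (m * q) ∧
      ∀ x ∈ H68.hor K (m * q), w.W x ∈ H68.hor K (m * q) :=
  ⟨H68.W_jF w, H68.W_JFq w, fun _ hx => H68.W_mem_hor w hx⟩

/-- **The embeddings** are the identity on constants; all expansions are quotients of series with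
bounded denominators (these quotients form the field `H99.Bdd A`, on which the Gauss ring is a
valuation ring, theorem 3 of `GuideCarayolModel`); and `j` has the expansions `j(t)` and `j(t^q)`.
Files: `H68TwoBase`, `H68TwoFrame`. -/
theorem embedding_values {K : Type*} [Field K] [Algebra ℚ K] [CharZero K] {m q : ℕ} [NeZero m]
    [NeZero q] [Fact q.Prime] (A : ValuationSubring K) (w : H99.AL K m q) (i : Fin 2) :
    (∀ a : K, H68.emb w i (algebraMap K (H99.FX K (m * q)) a) =
        algebraMap K (LaurentSeries K) a) ∧
      (∀ x : H99.FX K (m * q), H68.emb w i x ∈ H99.Bdd A) ∧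
      H68.emb w i (H68.jF K (m * q)) = if i = 0 then H66.J K 1 else H66.J K q :=
  ⟨H68.emb_algebraMap w i, H68.emb_mem A w i, H68.emb_jF w i⟩

/-- **The residues of `j`** are `j` on the component of `∞` and `j^q` on the other one; both are
transcendental over `k`. (`H68.comp w hϖ i` is the component `i` as a structure `H84.Comp`, the
notion of component in `GuideFrames`; its reduction map is the residue of the `i`-th expansion.)
Files: `H68TwoBase`, `H68TwoFrame`. -/
theorem residue_of_j {K : Type*} [Field K] [Algebra ℚ K] [CharZero K] {m q : ℕ} [NeZero m]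
    [NeZero q] [Fact q.Prime] {A : ValuationSubring K} {k : Type*} [Field k] [CharP k q]
    {π : A →+* k} (w : H99.AL K m q) (hϖ : H99.Unif A π (q : A)) (i : Fin 2) :
    (∀ x : H99.FX K (m * q), (x ∈ (H68.comp (k := k) w hϖ i).V ↔ H68.emb w i x ∈ H99.GR A π) ∧
        (H68.comp (k := k) w hϖ i).red x = H99.gres A π (H68.emb w i x)) ∧
      H68.emb w i (H68.jF K (m * q)) ∈ H99.GR A π ∧
      H99.gres A π (H68.emb w i (H68.jF K (m * q))) =
        (if i = 0 then jqModC k else jqModC k ^ q) ∧
      Transcendental k ((H68.comp (k := k) w hϖ i).red (H68.jF K (m * q))) :=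
  ⟨fun x => ⟨Iff.rfl, H68.comp_red w hϖ i x⟩, H68.emb_jF_mem w i, H68.gres_emb_jF w i,
    (H68.resTrans w hϖ i).2⟩

/-- **Both components have multiplicity one**: if the `i`-th expansion of `x` is in the Gauss ring
and has residue zero, then the `i`-th expansion of `x/q` is in the Gauss ring.
Files: `H68TwoBase`, `H99Gauss`. -/
theorem division_by_q {K : Type*} [Field K] [Algebra ℚ K] {m q : ℕ} [NeZero m] [NeZero q]
    {A : ValuationSubring K} {k : Type*} [Field k] {π : A →+* k} (w : H99.AL K m q)
    (hϖ : H99.Unif A π (q : A)) (i : Fin 2) (x : H99.FX K (m * q)) :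
    H68.emb w i (x / (q : H99.FX K (m * q))) =
        H68.emb w i x / algebraMap K (LaurentSeries K) ((q : A) : K) ∧
      (H68.emb w i x ∈ H99.GR A π → H99.gres A π (H68.emb w i x) = 0 →
        H68.emb w i (x / (q : H99.FX K (m * q))) ∈ H99.GR A π) :=
  ⟨H68.emb_div_q w i x, fun h h0 => by
    rw [H68.emb_div_q (A := A)]; exact H99.div_mem_of_gres_eq_zero hϖ h h0⟩

/-! ## 3. Kronecker's function -/

/-- **Expansions.** `H68.kron` is the function `j(q z) - j(z)^q`. Its expansions are
`j(t^q) - j(t)^q` and `j(t) - j(t^q)^q`. File: `H68TwoFrame`. -/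
theorem kronecker_expansions {K : Type*} [Field K] [Algebra ℚ K] [CharZero K] {m q : ℕ}
    [NeZero m] [NeZero q] [Fact q.Prime] (w : H99.AL K m q) :
    H68.emb w 0 H68.kron = H66.J K q - jqModC K ^ q ∧
      H68.emb w 1 H68.kron = jqModC K - H66.J K q ^ q :=
  ⟨H68.emb_zero_kron w, H68.emb_one_kron w⟩

/-- **Residues.** Both expansions are in the Gauss ring. The residue of the first is
`j(t^q) - j(t)^q = 0`, the residue of the second is `j - j^(q²)`, which is not zero because `j` is
transcendental over `k`. File: `H68TwoFrame`. -/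
theorem kronecker_residues {K : Type*} [Field K] [Algebra ℚ K] [CharZero K] {q : ℕ}
    [Fact q.Prime] {A : ValuationSubring K} {k : Type*} [Field k] [CharP k q] {π : A →+* k} :
    (H66.J K q - jqModC K ^ q ∈ H99.GR A π ∧ H99.gres A π (H66.J K q - jqModC K ^ q) = 0) ∧
      jqModC K - H66.J K q ^ q ∈ H99.GR A π ∧ H99.gres A π (jqModC K - H66.J K q ^ q) ≠ 0 :=
  ⟨H68.gres_kron_zero, H68.gres_kron_one⟩

/-- **Criterion.** If a function has residue zero along the component `i` and nonzero residue along
the component `j`, then the valuation ring of `i` is not contained in that of `j`: `z/q` is in the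
first one (`division_by_q`) and not in the second, where `q` has residue zero. Applied to Kronecker's
function and to its image under `w` this gives theorem 14 of `GuideCarayolModel`.
File: `H68TwoFrame`. -/
theorem not_le_of_residues {K : Type*} [Field K] [Algebra ℚ K] [CharZero K] {m q : ℕ} [NeZero m]
    [NeZero q] [Fact q.Prime] {A : ValuationSubring K} {k : Type*} [Field k] [CharP k q]
    {π : A →+* k} (w : H99.AL K m q) (hϖ : H99.Unif A π (q : A)) {i j : Fin 2}
    {z : H99.FX K (m * q)} (h : H68.emb w i z ∈ H99.GR A π)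
    (h0 : H99.gres A π (H68.emb w i z) = 0) (h1 : H99.gres A π (H68.emb w j z) ≠ 0) :
    ¬ (H68.comp (k := k) w hϖ i).V ≤ (H68.comp (k := k) w hϖ j).V :=
  H68.not_le_aux w hϖ h h0 h1

/-! ## 4. Degrees and residue fields -/

/-- **The degrees of the residue fields.** `H68.xk k m q i` is the residue of `j` along the component
`i` as an element of the function field of `X₀(m)` over `k`, i.e. `j` for `i = 0` and `j^q` for
`i = 1`. The degree of this function field over `k(j)` is `ψ(m)`, over `k(j^q)` it is `q ψ(m)`.
File: `H68TwoFrame`. -/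
theorem residue_generators {K : Type*} [Field K] [Algebra ℚ K] [CharZero K] {m q : ℕ} [NeZero m]
    [NeZero q] [Fact q.Prime] {A : ValuationSubring K} {k : Type*} [Field k] [CharP k q]
    {π : A →+* k} (w : H99.AL K m q) (hϖ : H99.Unif A π (q : A)) [IsAlgClosed k]
    (hm : (m : k) ≠ 0) (i : Fin 2) :
    (modularFunctionFieldFullC k m).val (H68.xk k m q i) =
        (H68.comp (k := k) w hϖ i).red (H68.jF K (m * q)) ∧
      Module.finrank k⟮H68.xk k m q i⟯ (modularFunctionFieldFullC k m) =
        if i = 0 then dedekindPsi m else q * dedekindPsi m :=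
  ⟨H68.coe_xk w hϖ i, H68.finrank_xk hm i⟩

/-- **Comparison of degrees.** `[F_{q m} : K(j)] = (q + 1) ψ(m)` is at most (in fact equal to) the
sum of the two degrees of `residue_generators`. File: `H68TwoFrame`. -/
theorem degree_le_sum {K : Type*} [Field K] [Algebra ℚ K] [CharZero K] {m q : ℕ} [NeZero m]
    [NeZero q] [Fact q.Prime] {k : Type*} [Field k] [CharP k q] [IsAlgClosed k] (hqm : ¬ q ∣ m)
    (hm : (m : k) ≠ 0) :
    Module.finrank K⟮H68.jF K (m * q)⟯ (H99.FX K (m * q)) ≤
      ∑ i, Module.finrank k⟮H68.xk k m q i⟯ (modularFunctionFieldFullC k m) :=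
  H68.finrank_le_sum (H99.degreeFact K) hqm hm

/-- **A frame.** There are `(q + 1) ψ(m)` functions on `X₀(q m)` whose expansions are in the Gauss
ring and whose pairs of residues are independent over `k[X]`, where `X` acts as `(j, j^q)`; they
form a basis of `F_{q m}` over `K(j)`. This is `exists_frame` of `GuideFrames` (the steps are
`lift_bases` and `frame_of_card` of `GuideFramesSteps`): lift a basis of the function field of
`X₀(m)` over `k(j)` along the component `0` and a basis over `k(j^q)` along the component `1`.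
Files: `H68TwoFrame`, `H84Frame`. -/
theorem exists_frame {K : Type*} [Field K] [Algebra ℚ K] [CharZero K] {m q : ℕ} [NeZero m]
    [NeZero q] [Fact q.Prime] {A : ValuationSubring K} {k : Type*} [Field k] [CharP k q]
    {π : A →+* k} (w : H99.AL K m q) (hϖ : H99.Unif A π (q : A)) [IsAlgClosed k]
    (hπ : Function.Surjective π) (hqm : ¬ q ∣ m) (hm : (m : k) ≠ 0) :
    ∃ b : (Σ i : Fin 2, Fin (Module.finrank k⟮H68.xk k m q i⟯ (modularFunctionFieldFullC k m))) →
      H99.FX K (m * q), H84.IsFrame (H68.comp (k := k) w hϖ) (H68.jF K (m * q)) b := by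
  have := H68.finiteDimensional_jF (H99.degreeFact K) (m * q)
  have := H68.finiteDimensional_xk (q := q) (k := k) (m := m) hm
  have : Infinite k := IsAlgClosed.instInfinite
  exact H84.exists_isFrame_of_sum _ _ (modularFunctionFieldFullC k m).val (H68.xk k m q) hπ
    (H68.incomparable w hϖ) (H68.resTrans w hϖ) (H68.coe_xk w hϖ)
    (fun i t => H68.full_le_image w hϖ hπ i _ t.2)
    (H68.finrank_le_sum (H99.degreeFact K) hqm hm)

/-- **The residue fields** of both components are the function field of `X₀(m)` over `k`: every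
residue is in this field. (Theorem 16 of `GuideCarayolModel` is the other inclusion.) Otherwise one
more function could be added to the frame, and there would be more than `[F_{q m} : K(j)]`
independent functions (`residue_fields` of `GuideFramesSteps`). Together with `integral_equation` of
`GuideFramesSteps` this gives `r_mem`. Files: `H68TwoFrame`, `H84Frame`. -/
theorem residue_mem {K : Type*} [Field K] [Algebra ℚ K] [CharZero K] {m q : ℕ} [NeZero m]
    [NeZero q] [Fact q.Prime] {A : ValuationSubring K} {k : Type*} [Field k] [CharP k q]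
    {π : A →+* k} (w : H99.AL K m q) (hϖ : H99.Unif A π (q : A)) [IsAlgClosed k]
    (hπ : Function.Surjective π) (hqm : ¬ q ∣ m) (hm : (m : k) ≠ 0) (i : Fin 2)
    (x : H99.FX K (m * q)) :
    H99.gres A π (H68.emb w i x) ∈ modularFunctionFieldFullC k m := by
  have := H68.finiteDimensional_jF (H99.degreeFact K) (m * q)
  have := H68.finiteDimensional_xk (q := q) (k := k) (m := m) hm
  have : Infinite k := IsAlgClosed.instInfinite
  rw [← H68.comp_red w hϖ i x]
  obtain ⟨t, ht⟩ := H84.image_le_range_of_sum _ _ (modularFunctionFieldFullC k m).val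
    (H68.xk k m q) hπ (H68.incomparable w hϖ) (H68.resTrans w hϖ) (H68.coe_xk w hϖ)
    (fun i t => H68.full_le_image w hϖ hπ i _ t.2)
    (H68.finrank_le_sum (H99.degreeFact K) hqm hm) i ((H68.comp w hϖ i).red_mem_image x)
  rw [← ht]; exact t.2

/-! ## 5. The coordinate and the derivation `d/dX` -/

/-- **`θ` commutes with residues.** If `x` is in the Gauss ring, so is `θ x`, with residue `θ` of the
residue of `x`. Proof: `x z = y` with series `y`, `z` over `A`, `z` nonzero modulo the maximal ideal;
then `z θ x = θ y - x θ z` is in the Gauss ring and `z` has nonzero residue. File: `H68TwoDer`. -/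
theorem theta_residue {K : Type*} [Field K] {A : ValuationSubring K} {k : Type*} [Field k]
    {π : A →+* k} {x : LaurentSeries K} (hx : x ∈ H99.GR A π) :
    H61.theta x ∈ H99.GR A π ∧ H99.gres A π (H61.theta x) = H61.theta (H99.gres A π x) :=
  H68.theta_mem hx

/-- **Residues of the coordinate.** `X` has integral coefficients, so its residue is the same series
over `k`; the same holds for `θ X`. The series `θ X` over `k` has the coefficient `-1` at `t⁻¹`, so
it is not zero. File: `H68TwoDer`. -/
theorem coordinate_residue (c : ℕ) {K : Type*} [Field K] {A : ValuationSubring K} {k : Type*}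
    [Field k] {π : A →+* k} :
    (H1.Xc c K ∈ H99.GR A π ∧ H99.gres A π (H1.Xc c K) = H1.Xc c k) ∧
      H99.gres A π (H61.theta (H1.Xc c K)) = H61.theta (H1.Xc c k) ∧
      (H61.theta (H1.Xc c k)).coeff (-1) = -1 ∧ H61.theta (H1.Xc c k) ≠ 0 :=
  ⟨⟨H68.Xc_mem_GR c, H68.gres_Xc c⟩, H68.gres_theta_Xc c, H68.theta_Xc_coeff c k,
    H68.theta_Xc_ne_zero c k⟩

/-- **`F_N` is algebraic over `K(X)`**, because `j` is a rational function of `X` (see the equations
of theorem 7 of `GuideCarayol`) and `F_N` is finite over `K(j)`. (`H68.XF K c N hc hcN` is the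
coordinate as an element of `F_N`.) File: `H68TwoDer`. -/
theorem algebraic_over_coordinate (K : Type*) [Field K] [Algebra ℚ K] [CharZero K] (c N : ℕ)
    [NeZero N] (hc : c = 4 ∨ c = 9) (hcN : c ∣ N) :
    jqModC K ∈ K⟮H1.Xc c K⟯ ∧ (H68.XF K c N hc hcN : LaurentSeries K) = H1.Xc c K ∧
      ∀ f : H99.FX K N, IsAlgebraic K⟮H68.XF K c N hc hcN⟯ f :=
  ⟨H68.jq_mem_adjoin K c hc, rfl, H68.isAlgebraic_XF K c N hc hcN⟩

/-- **The derivation `d/dX`.** There is a derivation `D` of `F_N` over `K` with `D X = 1`, namely
`D f = θ f / θ X`. It maps `F_N` to itself because `F_N` is algebraic over `K(X)`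
(theorem `derivation_mem` of `GuideIgusaModel`). (It is `H68.ddXF K c N hc hcN`.)
File: `H68TwoDer`. -/
theorem exists_derivation (K : Type*) [Field K] [Algebra ℚ K] [CharZero K] (c N : ℕ) [NeZero N]
    (hc : c = 4 ∨ c = 9) (hcN : c ∣ N) :
    ∃ D : Derivation ℤ (H99.FX K N) (H99.FX K N),
      (∀ f, D f = H68.ddXF K c N hc hcN f) ∧
      (∀ f, (D f : LaurentSeries K) = H61.theta (f : LaurentSeries K) / H61.theta (H1.Xc c K)) ∧
      (∀ a : K, D (algebraMap K (H99.FX K N) a) = 0) ∧ D (H68.XF K c N hc hcN) = 1 :=
  ⟨H68.derXF K c N hc hcN, fun _ => rfl, H68.coe_ddXF K c N hc hcN,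
    H68.ddXF_algebraMap K c N hc hcN, H68.ddXF_XF K c N hc hcN⟩

/-- **`d/dX` preserves regular functions** if `K` can be embedded in `ℂ`: this is theorem 8 of
`GuideCarayol` for level `q m`. File: `H68TwoData`. -/
theorem derivation_regular {K : Type*} [Field K] [Algebra ℚ K] [CharZero K] {c m q : ℕ} [NeZero m]
    [NeZero q] [Fact q.Prime] (hc : c = 4 ∨ c = 9) (hcm : c ∣ m) (ι : K →+* ℂ) {f : H99.FX K (m * q)}
    (hf : f ∈ H68.hor K (m * q)) :
    H68.ddXF K c (m * q) hc (hcm.mul_right q) f ∈ H68.hor K (m * q) :=
  H68.ddXF_mem_hor hc hcm ι hf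

/-- **The coordinate under the involution**: `w X` is the function `X(q z)`. File: `H68TwoDer`. -/
theorem coordinate_atkinLehner {K : Type*} [Field K] [Algebra ℚ K] [CharZero K] {c m q : ℕ}
    [NeZero m] [NeZero q] (hc : c = 4 ∨ c = 9) (hcm : c ∣ m) (w : H99.AL K m q) :
    (w.W (H68.XF K c (m * q) hc (hcm.mul_right q)) : LaurentSeries K) =
      qExpand K q (H1.Xc c K) :=
  H68.W_XF hc hcm w

/-- **Chain rule** (`W_der`): with `D = d/dX` and `δ = D(w X)` one has `w(δ) δ = 1`. Proof: `w D w` and
`w(δ) D` are two derivations over `K` with the same value at `X`, so they are equal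
(theorem `derivation_unique` of `GuideIgusaModel`); take their values at `w X`.
File: `H68TwoDer`. -/
theorem chain_rule {K : Type*} [Field K] [Algebra ℚ K] [CharZero K] {c m q : ℕ} [NeZero m]
    [NeZero q] (hc : c = 4 ∨ c = 9) (hcm : c ∣ m) (w : H99.AL K m q) :
    w.W (H68.ddXF K c (m * q) hc (hcm.mul_right q)
        (w.W (H68.XF K c (m * q) hc (hcm.mul_right q)))) *
      H68.ddXF K c (m * q) hc (hcm.mul_right q)
        (w.W (H68.XF K c (m * q) hc (hcm.mul_right q))) = 1 :=
  H68.W_der hc hcm w

/-- **The residue of `δ / q`.** Let `δ = D(w X)`, with the expansion `θ(X(t^q)) / θ X(t)`. Since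
`θ(X(t^q)) = q (θ X)(t^q)`, the function `δ / q` has the expansion `(θ X)(t^q) / (θ X)(t)`, which is in
the Gauss ring; its residue `(θ X)(t^q) / (θ X)(t)` over `k` is not zero.
Files: `H68TwoDer`, `H68TwoData`. -/
theorem delta_residue {K : Type*} [Field K] [Algebra ℚ K] [CharZero K] {c m q : ℕ} [NeZero m]
    [NeZero q] [Fact q.Prime] (hc : c = 4 ∨ c = 9) (hcm : c ∣ m) {A : ValuationSubring K}
    {k : Type*} [Field k] [CharP k q] {π : A →+* k} (w : H99.AL K m q)
    (hϖ : H99.Unif A π (q : A)) :
    H68.emb w 0 (H68.ddXF K c (m * q) hc (hcm.mul_right q)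
        (w.W (H68.XF K c (m * q) hc (hcm.mul_right q))) / (q : H99.FX K (m * q))) =
      qExpand K q (H61.theta (H1.Xc c K)) / H61.theta (H1.Xc c K) ∧
    H99.gres A π (qExpand K q (H61.theta (H1.Xc c K)) / H61.theta (H1.Xc c K)) =
      qExpand k q (H61.theta (H1.Xc c k)) / H61.theta (H1.Xc c k) ∧
    qExpand k q (H61.theta (H1.Xc c k)) / H61.theta (H1.Xc c k) ≠ 0 := by
  have h1 := H68.theta_mem (A := A) (π := π) (H68.Xc_mem_GR (K := K) c)
  have h0 := H68.theta_Xc_ne_zero c k
  have h2 : H99.gres A π (H61.theta (H1.Xc c K)) ≠ 0 := by rwa [H68.gres_theta_Xc]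
  have hq : algebraMap K (LaurentSeries K) ((q : A) : K) ≠ 0 :=
    (_root_.map_ne_zero _).mpr fun h => hϖ.ne_zero (Subtype.ext h)
  refine ⟨?_, ?_, div_ne_zero ((_root_.map_ne_zero _).mpr h0) h0⟩
  · rw [H68.emb_div_q (A := A), H68.emb_zero, H68.coe_ddXF, H68.W_XF hc hcm, H68.theta_qExpand]
    have hqc : (q : LaurentSeries K) = algebraMap K (LaurentSeries K) ((q : A) : K) := by simp
    rw [hqc, div_right_comm, mul_div_cancel_left₀ _ hq]
  · rw [H99.gres_div (H99.expand_mem q h1.1) h2, H99.gres_expand q h1.1, H68.gres_theta_Xc]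

/-! ## 6. The chart ring -/

/-- **The involution preserves the chart ring** `B = hor ∩ V 0 ∩ V 1`: it exchanges `V 0` and `V 1`.
File: `H68TwoData`. -/
theorem chartRing_atkinLehner {K : Type*} [Field K] [Algebra ℚ K] [CharZero K] {m q : ℕ} [NeZero m]
    [NeZero q] [Fact q.Prime] {A : ValuationSubring K} {k : Type*} [Field k] [CharP k q]
    {π : A →+* k} (w : H99.AL K m q) (hϖ : H99.Unif A π (q : A)) [IsAlgClosed k]
    {b : H99.FX K (m * q)} (hb : b ∈ (H68.twoSys (k := k) w hϖ).B) :
    w.W b ∈ (H68.twoSys (k := k) w hϖ).B :=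
  H68.W_mem_B w hϖ hb

/-- **Lifting along the component of `∞`** (`r_surj` for `i = 0`). Suppose that every regular
function `x` on the special fibre of `X₀(m)` is the residue of a regular function `f` on `X₀(m)`
(`H68.LiftK K m A π`). Then `x` is the residue of an element of the chart ring of `X₀(q m)`, namely
of `f` considered as a function on `X₀(q m)`: its expansions are `f(t)` and `f(t^q)`. For the other
component apply `w`. File: `H68TwoData`. -/
theorem lift_infinity {K : Type*} [Field K] [Algebra ℚ K] [CharZero K] {m q : ℕ} [NeZero m]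
    [NeZero q] [Fact q.Prime] {A : ValuationSubring K} {k : Type*} [Field k] [CharP k q]
    {π : A →+* k} (w : H99.AL K m q) (hϖ : H99.Unif A π (q : A)) [IsAlgClosed k] :
    (H68.LiftK K m A π ↔ ∀ x ∈ H18.Cm k m, ∃ f : H99.FX K m,
      IsIntegral (Algebra.adjoin K {jqModC K}) (f : LaurentSeries K) ∧
        (f : LaurentSeries K) ∈ H99.GR A π ∧ H99.gres A π (f : LaurentSeries K) = x) ∧
    (H68.LiftK K m A π → ∀ x ∈ H18.Cm k m,
      ∃ b ∈ (H68.twoSys (k := k) w hϖ).B, H99.gres A π (H68.emb w 0 b) = x) :=
  ⟨Iff.rfl, fun h _ hx => H68.exists_lift0 w hϖ h hx⟩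

/-- **Powers of the uniformizer.** If `x` is a quotient of series with bounded denominators, then
`ϖ^M x` is in the Gauss ring for all large `M`. Hence each function on `X₀(q m)` is in `V i` after
multiplication by a power of `q`. Files: `H68TwoHyp`, `H99Gauss2`. -/
theorem power_times_series {K : Type*} [Field K] {A : ValuationSubring K} {k : Type*} [Field k]
    {π : A →+* k} {ϖ : A} (hϖ : H99.Unif A π ϖ) {x : LaurentSeries K} (hx : x ∈ H99.Bdd A) :
    ∃ n : ℕ, ∀ M, n ≤ M → algebraMap K (LaurentSeries K) (ϖ : K) ^ M * x ∈ H99.GR A π :=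
  H68.exists_pow_mul_mem_GR hϖ hx

/-- **The general hypotheses on the system of level `q m`**, part of theorem 13 of
`GuideCarayolTools`: constants are regular, elements of `A` are in all `V i`, with residues given by
`π`; and every function is in `V i` after multiplication by any large power of `q`.
File: `H68TwoHyp`. -/
theorem constants_and_powers {K : Type*} [Field K] [Algebra ℚ K] [CharZero K] {m q : ℕ} [NeZero m]
    [NeZero q] {A : ValuationSubring K} {k : Type*} [Field k] [CharP k q] {π : A →+* k}
    (w : H99.AL K m q) (hϖ : H99.Unif A π (q : A)) :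
    (∀ a : K, algebraMap K (H99.FX K (m * q)) a ∈ (H68.twoSys (k := k) w hϖ).hor) ∧
    (∀ (i : Fin 2) (a : A), algebraMap K (H99.FX K (m * q)) a ∈ (H68.twoSys (k := k) w hϖ).V i ∧
      (H68.twoSys (k := k) w hϖ).res i (algebraMap K (H99.FX K (m * q)) a) =
        algebraMap k (LaurentSeries k) (π a)) ∧
    ∀ (i : Fin 2) (x : H99.FX K (m * q)), ∃ n : ℕ, ∀ M, n ≤ M →
      (q : H99.FX K (m * q)) ^ M * x ∈ (H68.twoSys (k := k) w hϖ).V i :=
  ⟨(H68.twoSys_consts w hϖ).hor, fun i a => ⟨(H68.twoSys_consts w hϖ).mem i a,
    (H68.twoSys_consts w hϖ).res i a⟩, H68.exists_pow_mul_mem_V w hϖ⟩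

/-! ## 7. The special fibre of `X₀(m)` -/

/-- **`X` is regular**: it is integral over `K[j]` for every field `K`, by the equations of theorem 7
of `GuideCarayol`, which are monic in `X`. If `m` is not zero in `k`, the coordinate is a regular
function on the special fibre of `X₀(m)`, i.e. in `H18.Cm k m`. File: `H68TwoInst`. -/
theorem coordinate_integral {c : ℕ} (hc : c = 4 ∨ c = 9) :
    (∀ (K : Type*) [Field K], IsIntegral (Algebra.adjoin K {jqModC K}) (H1.Xc c K)) ∧
      ∀ (k : Type*) [Field k] [IsAlgClosed k] {m : ℕ}, c ∣ m → (m : k) ≠ 0 →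
        H1.Xc c k ∈ H18.Cm k m :=
  ⟨fun K _ => H68.isIntegral_Xc K hc, fun k _ _ _ hcm hm => H68.Xc_mem_Cm k hc hcm hm⟩

/-- **The lifting property over the inertia field.** `L` is an algebraically closed algebraic
extension of `K`, both have valuation rings with the same residue field `k` (`iA` is the inclusion),
and an element of `L` fixed by all automorphisms over `K` is in `K`. (In the application `K` is the
inertia field and `L` the field of algebraic numbers.) If `X₀(m)` has the same genus in
characteristic zero and over `k` (theorem 9 of `GuideCarayol`), then the hypothesis of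
`lift_infinity` holds. It is `lift_over_subfield` of `GuideFunctionLifting`, expressed with the Gauss
ring (`reduction_is_residue` there). Files: `H68TwoInst`, `H18LiftKK`. -/
theorem lifting_over_K {K L : Type*} [Field K] [Field L] [Algebra ℚ K] [Algebra ℚ L] [Algebra K L]
    (AK : ValuationSubring K) (AL : ValuationSubring L) {k : Type*} [Field k] (πK : AK →+* k)
    (πL : AL →+* k) (iA : AK →+* AL) (hiA : ∀ a, ((iA a : AL) : L) = algebraMap K L a)
    (hπ : πK = πL.comp iA) (m : ℕ) (hπK : Function.Surjective πK) (hπL : Function.Surjective πL)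
    [IsAlgClosed L] [IsAlgClosed k] [IsLocalHom πK] [IsLocalHom πL] [Algebra.IsAlgebraic K L]
    (hm : (m : k) ≠ 0)
    (hfix : ∀ z : L, (∀ σ : L ≃ₐ[K] L, σ z = z) → ∃ a : K, algebraMap K L a = z)
    (hg : H18.GenusFFEq L k m) : H68.LiftK K m AK πK :=
  H68.liftK AK AL πK πL iA hiA hπ m hπK hπL hm hfix hg

/-- **`d/dX` preserves the regular functions of the special fibre** (field `D_mem` of
`H83.ResData`). Proof: lift a regular function to characteristic zero, apply `d/dX`, which preserves
regular functions there (theorem 8 of `GuideCarayol`), and reduce the coefficients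
(`derivation_level` of `GuideFunctionLifting`; `θ X` is a unit in the ring of series over `A`,
because its leading coefficient is `-1`). File: `H68TwoInst`. -/
theorem derivation_special_fibre {L : Type*} [Field L] [Algebra ℚ L] [IsAlgClosed L]
    (A : ValuationSubring L) {k : Type*} [Field k] [IsAlgClosed k] (π : A →+* k) [IsLocalHom π]
    {m : ℕ} [NeZero m] (hπ : Function.Surjective π) (hm : (m : k) ≠ 0) {c : ℕ}
    (hc : c = 4 ∨ c = 9) (hcm : c ∣ m) (ι : L →+* ℂ) (hg : H18.GenusFFEq L k m)
    {x : LaurentSeries k} (hx : x ∈ H18.Cm k m) :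
    H61.theta x / H61.theta (H1.Xc c k) ∈ H18.Cm k m :=
  H68.ddX_mem_Cm A π hπ hm hc hcm ι hg hx

end Fermat.Agent.Guide.TwoComponents
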