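import Mathlib
import Fermat.Agent.H74VarChange

set_option autoImplicit false

/-! # Modular invariants of a pair (elliptic curve, finite odd subgroup)

`veluQ W C = ∏_{R ∈ C∖0} ψ₂(R)⁴ / Δ^(#C-1)` (`= Δ(E)/Δ(E/C)`),
`veluC4 W C = c₄ + 120 ∑_{R ∈ C∖0} (6x²+b₂x+b₄)` (`= c₄(E/C)`),
`veluJ W C = veluC4³ · veluQ / Δ` (`= j(E/C)`). -/

namespace Fermat.Agent.H05

open WeierstrassCurve WeierstrassCurve.Affine

variable {K : Type*} [Field K]

/-- the function `ψ₂ = 2y + a₁x + a₃` (with value `1` at the origin) -/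
def psi2 (W : WeierstrassCurve K) : W.toAffine.Point → K
  | .zero => 1
  | .some x y _ => 2 * y + W.a₁ * x + W.a₃

/-- the function `6x² + b₂x + b₄` (with value `0` at the origin) -/
def q2 (W : WeierstrassCurve K) : W.toAffine.Point → K
  | .zero => 0
  | .some x _ _ => 6 * x ^ 2 + W.b₂ * x + W.b₄

variable {W : WeierstrassCurve K}

@[simp] lemma psi2_zero : psi2 W 0 = 1 := rfl
@[simp] lemma psi2_some {x y : K} (h : W.toAffine.Nonsingular x y) :
    psi2 W (.some x y h) = 2 * y + W.a₁ * x + W.a₃ := rfl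
@[simp] lemma q2_zero : q2 W 0 = 0 := rfl
@[simp] lemma q2_some {x y : K} (h : W.toAffine.Nonsingular x y) :
    q2 W (.some x y h) = 6 * x ^ 2 + W.b₂ * x + W.b₄ := rfl

variable [DecidableEq K]

/-- `Δ(E)/Δ(E/C)` -/
noncomputable def veluQ (W : WeierstrassCurve K) (C : AddSubgroup W.toAffine.Point) : K :=
  (∏ᶠ R ∈ (C : Set W.toAffine.Point), psi2 W R) ^ 4 / W.Δ ^ (Nat.card C - 1)

/-- `c₄(E/C)` -/
noncomputable def veluC4 (W : WeierstrassCurve K) (C : AddSubgroup W.toAffine.Point) : K :=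
  W.c₄ + 120 * ∑ᶠ R ∈ (C : Set W.toAffine.Point), q2 W R

/-- `j(E/C)` -/
noncomputable def veluJ (W : WeierstrassCurve K) (C : AddSubgroup W.toAffine.Point) : K :=
  veluC4 W C ^ 3 * veluQ W C / W.Δ

/-! ### generator form -/

section gen

variable {G : Type*} [AddGroup G]

lemma coe_zmultiples_eq_image {P : G} {n : ℕ} (hn : 0 < n) (hP : addOrderOf P = n) :
    (AddSubgroup.zmultiples P : Set G) = (fun i : ℕ => i • P) '' (Finset.range n : Set ℕ) := by
  ext R
  simp only [SetLike.mem_coe, Set.mem_image, Finset.coe_range, Set.mem_Iio]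
  constructor
  · intro h
    have hf : IsOfFinAddOrder P := by rw [← addOrderOf_pos_iff, hP]; exact hn
    obtain ⟨i, hi⟩ := hf.mem_multiples_iff_mem_zmultiples.mpr h
    refine ⟨i % n, Nat.mod_lt _ hn, ?_⟩
    show (i % n) • P = R
    rw [← hP, mod_addOrderOf_nsmul]
    exact hi
  · rintro ⟨i, _, rfl⟩
    exact AddSubgroup.nsmul_mem_zmultiples P i

lemma injOn_nsmul {P : G} {n : ℕ} (hP : addOrderOf P = n) :
    Set.InjOn (fun i : ℕ => i • P) (Finset.range n : Set ℕ) := by
  intro i hi j hj hij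
  simp only [Finset.coe_range, Set.mem_Iio] at hi hj
  have := (nsmul_inj_mod (x := P)).mp hij
  rwa [hP, Nat.mod_eq_of_lt hi, Nat.mod_eq_of_lt hj] at this

end gen

lemma finprod_zmultiples {G : Type*} [AddGroup G] {M : Type*} [CommMonoid M] (f : G → M)
    {P : G} {n : ℕ} (hn : 0 < n) (hP : addOrderOf P = n) :
    ∏ᶠ R ∈ (AddSubgroup.zmultiples P : Set G), f R = ∏ i ∈ Finset.range n, f (i • P) := by
  rw [coe_zmultiples_eq_image hn hP, finprod_mem_image (injOn_nsmul hP),
    finprod_mem_coe_finset]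

lemma finsum_zmultiples {G : Type*} [AddGroup G] {M : Type*} [AddCommMonoid M] (f : G → M)
    {P : G} {n : ℕ} (hn : 0 < n) (hP : addOrderOf P = n) :
    ∑ᶠ R ∈ (AddSubgroup.zmultiples P : Set G), f R = ∑ i ∈ Finset.range n, f (i • P) := by
  rw [coe_zmultiples_eq_image hn hP, finsum_mem_image (injOn_nsmul hP),
    finsum_mem_coe_finset]

lemma veluQ_zmultiples {P : W.toAffine.Point} {n : ℕ} (hn : 0 < n) (hP : addOrderOf P = n) :
    veluQ W (AddSubgroup.zmultiples P) =
      (∏ i ∈ Finset.range n, psi2 W (i • P)) ^ 4 / W.Δ ^ (n - 1) := by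
  rw [veluQ, finprod_zmultiples _ hn hP, Nat.card_zmultiples, hP]

lemma veluC4_zmultiples {P : W.toAffine.Point} {n : ℕ} (hn : 0 < n) (hP : addOrderOf P = n) :
    veluC4 W (AddSubgroup.zmultiples P) =
      W.c₄ + 120 * ∑ i ∈ Finset.range n, q2 W (i • P) := by
  rw [veluC4, finsum_zmultiples _ hn hP]

/-! ### change of variables -/

open Fermat.Agent.H74

lemma psi2_pointEquiv (C : VariableChange K) {P : (C • W).toAffine.Point} (hP : P ≠ 0) :
    psi2 W (H74.pointEquiv W C P) = (C.u : K) ^ 3 * psi2 (C • W) P := by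
  rcases P with _ | ⟨x, y, h⟩
  · exact absurd rfl hP
  · have hu := u_ne_zero C
    rw [H74.pointEquiv_some, psi2_some, psi2_some]
    simp only [vcX, vcY, variableChange_a₁, variableChange_a₃, Units.val_inv_eq_inv_val]
    field_simp
    ring

lemma q2_pointEquiv (C : VariableChange K) {P : (C • W).toAffine.Point} (hP : P ≠ 0) :
    q2 W (H74.pointEquiv W C P) = (C.u : K) ^ 4 * q2 (C • W) P := by
  rcases P with _ | ⟨x, y, h⟩
  · exact absurd rfl hP
  · have hu := u_ne_zero C
    rw [H74.pointEquiv_some, q2_some, q2_some]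
    simp only [vcX, variableChange_b₂, variableChange_b₄, Units.val_inv_eq_inv_val]
    field_simp
    ring

/-- generator form of the invariance of `veluQ` -/
lemma veluQ_pointEquiv (C : VariableChange K) (hΔ : W.Δ ≠ 0) {P : (C • W).toAffine.Point} {n : ℕ}
    (hn : 0 < n) (hP : addOrderOf P = n) :
    veluQ W (AddSubgroup.zmultiples (H74.pointEquiv W C P)) =
      veluQ (C • W) (AddSubgroup.zmultiples P) := by
  have hP' : addOrderOf (H74.pointEquiv W C P) = n := by
    rw [← hP]; exact addOrderOf_injective (H74.pointEquiv W C).toAddMonoidHom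
      (H74.pointEquiv W C).injective P
  obtain ⟨m, rfl⟩ : ∃ m, n = m + 1 := ⟨n - 1, by omega⟩
  have hu := u_ne_zero C
  rw [veluQ_zmultiples hn hP', veluQ_zmultiples hn hP]
  simp only [Finset.prod_range_succ', zero_smul, psi2_zero, mul_one, Nat.add_sub_cancel]
  have e : ∀ i ∈ Finset.range m, psi2 W ((i + 1) • H74.pointEquiv W C P) =
      (C.u : K) ^ 3 * psi2 (C • W) ((i + 1) • P) := by
    intro i hi
    rw [← map_nsmul, psi2_pointEquiv]
    intro h0
    have hd := addOrderOf_dvd_of_nsmul_eq_zero h0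
    rw [hP] at hd
    have := Nat.le_of_dvd (Nat.succ_pos i) hd
    have := Finset.mem_range.mp hi
    omega
  have hΔ' : (C • W).Δ = ((C.u : K) ^ 12)⁻¹ * W.Δ := by
    rw [variableChange_Δ, Units.val_inv_eq_inv_val, inv_pow]
  rw [Finset.prod_congr rfl e, Finset.prod_mul_distrib, Finset.prod_const, Finset.card_range, hΔ',
    mul_pow, mul_pow, inv_pow, ← pow_mul, ← pow_mul, ← pow_mul]
  have e2 : 3 * (m * 4) = 12 * m := by ring
  rw [e2]
  have hu' : ((C.u : K) ^ (12 * m)) ≠ 0 := pow_ne_zero _ hu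
  have hd : W.Δ ^ m ≠ 0 := pow_ne_zero _ hΔ
  field_simp

/-- generator form of the behaviour of `veluC4` -/
lemma veluC4_pointEquiv (C : VariableChange K) {P : (C • W).toAffine.Point} {n : ℕ}
    (hn : 0 < n) (hP : addOrderOf P = n) :
    veluC4 W (AddSubgroup.zmultiples (H74.pointEquiv W C P)) =
      (C.u : K) ^ 4 * veluC4 (C • W) (AddSubgroup.zmultiples P) := by
  have hP' : addOrderOf (H74.pointEquiv W C P) = n := by
    rw [← hP]; exact addOrderOf_injective (H74.pointEquiv W C).toAddMonoidHom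
      (H74.pointEquiv W C).injective P
  obtain ⟨m, rfl⟩ : ∃ m, n = m + 1 := ⟨n - 1, by omega⟩
  have hu := u_ne_zero C
  rw [veluC4_zmultiples hn hP', veluC4_zmultiples hn hP]
  simp only [Finset.sum_range_succ', zero_smul, q2_zero, add_zero]
  have e : ∀ i ∈ Finset.range m, q2 W ((i + 1) • H74.pointEquiv W C P) =
      (C.u : K) ^ 4 * q2 (C • W) ((i + 1) • P) := by
    intro i hi
    rw [← map_nsmul, q2_pointEquiv]
    intro h0
    have hd := addOrderOf_dvd_of_nsmul_eq_zero h0
    rw [hP] at hd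
    have := Nat.le_of_dvd (Nat.succ_pos i) hd
    have := Finset.mem_range.mp hi
    omega
  have hc : (C • W).c₄ = ((C.u : K) ^ 4)⁻¹ * W.c₄ := by
    rw [variableChange_c₄, Units.val_inv_eq_inv_val, inv_pow]
  rw [Finset.sum_congr rfl e, ← Finset.mul_sum, hc]
  field_simp

lemma veluJ_pointEquiv (C : VariableChange K) (hΔ : W.Δ ≠ 0) {P : (C • W).toAffine.Point} {n : ℕ}
    (hn : 0 < n) (hP : addOrderOf P = n) :
    veluJ W (AddSubgroup.zmultiples (H74.pointEquiv W C P)) =
      veluJ (C • W) (AddSubgroup.zmultiples P) := by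
  have hu := u_ne_zero C
  have hΔ' : (C • W).Δ = ((C.u : K) ^ 12)⁻¹ * W.Δ := by
    rw [variableChange_Δ, Units.val_inv_eq_inv_val, inv_pow]
  rw [veluJ, veluJ, veluQ_pointEquiv C hΔ hn hP, veluC4_pointEquiv C hn hP, hΔ']
  field_simp

end Fermat.Agent.H05
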