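import Mathlib
import Fermat.Agent.H05_Velu

set_option autoImplicit false

/-! # The Weierstrass curve of a lattice: definitions shared by the MAZUR-B1 files -/

namespace Fermat.Agent.H05

open UpperHalfPlane

/-- the curve `y² = x³ - (g₂/4) x - g₃/4` of a lattice -/
noncomputable def wpCurve (L : PeriodPair) : WeierstrassCurve ℂ :=
  ⟨0, 0, 0, -(L.g₂ / 4), -(L.g₃ / 4)⟩

lemma wpCurve_Δ (L : PeriodPair) : (wpCurve L).Δ = L.g₂ ^ 3 - 27 * L.g₃ ^ 2 := by
  simp only [wpCurve, WeierstrassCurve.Δ, WeierstrassCurve.b₂, WeierstrassCurve.b₄,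
    WeierstrassCurve.b₆, WeierstrassCurve.b₈]
  ring

lemma wpCurve_c₄ (L : PeriodPair) : (wpCurve L).c₄ = 12 * L.g₂ := by
  simp only [wpCurve, WeierstrassCurve.c₄, WeierstrassCurve.b₂, WeierstrassCurve.b₄]
  ring

lemma linearIndependent_pair {a : ℝ} (ha : a ≠ 0) (τ : ℍ) :
    LinearIndependent ℝ ![(a : ℂ), (τ : ℂ)] := by
  rw [LinearIndependent.pair_iff]
  intro s t h
  have him := congrArg Complex.im h
  have hre := congrArg Complex.re h
  simp at him hre
  have ht : t = 0 := by
    rcases him with h | h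
    · exact h
    · exact absurd h τ.im_pos.ne'
  subst ht
  simp only [zero_mul, add_zero, mul_eq_zero] at hre
  exact ⟨hre.resolve_right ha, rfl⟩

/-- the lattice `ℤ + ℤτ` -/
noncomputable def latT (τ : ℍ) : PeriodPair where
  ω₁ := 1
  ω₂ := τ
  indep := by
    have := linearIndependent_pair (a := 1) one_ne_zero τ
    simpa using this

/-- the lattice `(1/p)ℤ + ℤτ` -/
noncomputable def latT' (p : ℕ) [NeZero p] (τ : ℍ) : PeriodPair where
  ω₁ := 1 / (p : ℂ)
  ω₂ := τ
  indep := by
    have := linearIndependent_pair (a := 1 / (p : ℝ))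
      (one_div_ne_zero (by exact_mod_cast NeZero.ne p)) τ
    simpa using this

end Fermat.Agent.H05
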