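import Mathlib
import Fermat.Agent.H05_WPDefs

/-!
# `g₂`, `g₃` of the lattice `ℤ + ℤτ` in terms of Eisenstein series (MAZUR B1c, helper4)
-/

set_option autoImplicit false

noncomputable section

namespace Fermat.Agent.H4

open UpperHalfPlane EisensteinSeries ModularForm Fermat.Agent.H05

lemma latT_G (τ : ℍ) {k : ℕ} (hk : 3 ≤ k) :
    (latT τ).G k = 2 * riemannZeta k * ModularForm.E hk τ := by
  have h1 : (latT τ).G k = ∑' v : Fin 2 → ℤ, eisSummand k v τ := by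
    unfold PeriodPair.G
    let e : (Fin 2 → ℤ) ≃ (latT τ).lattice :=
      ((finTwoArrowEquiv ℤ).trans (Equiv.prodComm ℤ ℤ)).trans (latT τ).latticeEquivProd.symm.toEquiv
    rw [← e.tsum_eq]
    refine tsum_congr fun v => ?_
    have h2 : ((e v : (latT τ).lattice) : ℂ) = v 0 * τ + v 1 := by
      show ((latT τ).latticeEquivProd.symm (v 1, v 0) : ℂ) = _
      rw [PeriodPair.latticeEquiv_symm_apply]
      show (v 1 : ℂ) * 1 + (v 0 : ℂ) * (τ : ℂ) = _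
      ring
    rw [h2, eisSummand, zpow_neg, zpow_natCast]
  rw [h1, tsum_eisSummand_eq_riemannZeta_mul_eisensteinSeries hk]
  have h3 : ModularForm.E hk τ = (1 / 2 : ℂ) * eisensteinSeries (N := 1) 0 k τ := rfl
  rw [h3]
  ring

lemma riemannZeta_six' : riemannZeta 6 = Real.pi ^ 6 / 945 := by
  have h := riemannZeta_two_mul_nat (k := 3) (by norm_num)
  have hb : bernoulli 6 = 1 / 42 := by decide +kernel
  norm_num at h
  rw [h]
  rw [hb]
  norm_num [Nat.factorial]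
  ring

lemma latT_g₂ (τ : ℍ) : (latT τ).g₂ = 4 / 3 * Real.pi ^ 4 * ModularForm.E₄ τ := by
  unfold PeriodPair.g₂
  have := latT_G τ (k := 4) (by norm_num)
  rw [this]
  norm_num [riemannZeta_four]
  ring

lemma latT_g₃ (τ : ℍ) : (latT τ).g₃ = 8 / 27 * Real.pi ^ 6 * ModularForm.E₆ τ := by
  unfold PeriodPair.g₃
  have := latT_G τ (k := 6) (by norm_num)
  rw [this]
  norm_num [riemannZeta_six']
  ring

/-- **B1c** -/
theorem B1c (τ : ℍ) : (wpCurve (latT τ)).c₄ = (2 * Real.pi) ^ 4 * ModularForm.E₄ τ ∧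
    (wpCurve (latT τ)).Δ = (2 * Real.pi) ^ 12 * ModularForm.discriminant τ := by
  constructor
  · rw [wpCurve_c₄, latT_g₂]; ring
  · rw [wpCurve_Δ, latT_g₂, latT_g₃, discriminant_eq_E₄_cube_sub_E₆_sq]; ring

lemma latT'_G (p : ℕ) [NeZero p] (τ τ' : ℍ) (h : (τ' : ℂ) = p * τ) (k : ℕ) :
    (latT' p τ).G k = (p : ℂ) ^ k * (latT τ').G k := by
  have hp : (p : ℂ) ≠ 0 := by exact_mod_cast NeZero.ne p
  unfold PeriodPair.G
  rw [← (latT' p τ).latticeEquivProd.symm.toEquiv.tsum_eq,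
    ← (latT τ').latticeEquivProd.symm.toEquiv.tsum_eq, ← tsum_mul_left]
  refine tsum_congr fun x => ?_
  show (((latT' p τ).latticeEquivProd.symm x : ℂ) ^ k)⁻¹ =
    (p : ℂ) ^ k * (((latT τ').latticeEquivProd.symm x : ℂ) ^ k)⁻¹
  rw [PeriodPair.latticeEquiv_symm_apply, PeriodPair.latticeEquiv_symm_apply]
  show (((x.1 : ℂ) * (1 / (p : ℂ)) + x.2 * (τ : ℂ)) ^ k)⁻¹ =
    (p : ℂ) ^ k * (((x.1 : ℂ) * 1 + x.2 * (τ' : ℂ)) ^ k)⁻¹
  have h1 : (x.1 : ℂ) * 1 + x.2 * (τ' : ℂ) = p * ((x.1 : ℂ) * (1 / (p : ℂ)) + x.2 * (τ : ℂ)) := by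
    rw [h]; field_simp
  rw [h1, mul_pow, mul_inv, ← mul_assoc, mul_inv_cancel₀ (pow_ne_zero k hp), one_mul]

/-- **B1c'** -/
theorem B1c' (p : ℕ) [NeZero p] (τ τ' : ℍ) (h : (τ' : ℂ) = p * τ) :
    (wpCurve (latT' p τ)).c₄ = (p : ℂ) ^ 4 * (wpCurve (latT τ')).c₄ ∧
      (wpCurve (latT' p τ)).Δ = (p : ℂ) ^ 12 * (wpCurve (latT τ')).Δ := by
  constructor
  · rw [wpCurve_c₄, wpCurve_c₄]; unfold PeriodPair.g₂; rw [latT'_G p τ τ' h]; ring
  · rw [wpCurve_Δ, wpCurve_Δ]; unfold PeriodPair.g₂ PeriodPair.g₃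
    rw [latT'_G p τ τ' h, latT'_G p τ τ' h]; ring

end Fermat.Agent.H4

end
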