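import Mathlib
import Fermat.Agent.H05_WPDefs
import Fermat.Agent.H4WPEis
import Fermat.Agent.H61Valence

set_option autoImplicit false

/-! # The analytic point of order `p` on a curve with invariant `j(τ)` -/

namespace Fermat.Agent.H05

open WeierstrassCurve WeierstrassCurve.Affine UpperHalfPlane
open Fermat.Agent.H61 (jInv jInv_mul_disc)
open ModularForm (discriminant E₄ discriminant_ne_zero)

/-- the analytic inputs (jobs B1a, B1b, B1d) -/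
structure B1Inputs (p : ℕ) [NeZero p] : Prop where
  a : ∀ L : PeriodPair, (wpCurve L).Δ ≠ 0 → ∃ Ψ : ℂ →+ (wpCurve L).toAffine.Point,
    (∀ z, Ψ z = 0 ↔ z ∈ L.lattice) ∧
      ∀ z, z ∉ L.lattice → ∃ h, Ψ z = .some (L.weierstrassP z) (L.derivWeierstrassP z / 2) h
  b : ∀ τ : ℍ, (latT' p τ).g₂ = (latT τ).g₂ +
    10 * ∑ a ∈ Finset.Ico 1 p, (6 * (latT τ).weierstrassP (a / p) ^ 2 - (latT τ).g₂ / 2)
  d : ∀ τ : ℍ, (wpCurve (latT τ)).Δ ≠ 0 → (wpCurve (latT' p τ)).Δ *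
    ∏ a ∈ Finset.Ico 1 p, (latT τ).derivWeierstrassP (a / p) ^ 4 = (wpCurve (latT τ)).Δ ^ p

lemma div_mem_latT_iff {p : ℕ} (hp : p.Prime) (τ : ℍ) (a : ℕ) :
    ((a : ℂ) / p) ∈ (latT τ).lattice ↔ p ∣ a := by
  have h := (latT τ).mul_ω₁_add_mul_ω₂_mem_lattice (α := a / p) (β := 0)
  have e : ((a / p : ℚ) : ℂ) * (latT τ).ω₁ + ((0 : ℚ) : ℂ) * (latT τ).ω₂ = (a : ℂ) / p := by
    show ((a / p : ℚ) : ℂ) * 1 + ((0 : ℚ) : ℂ) * (τ : ℂ) = (a : ℂ) / p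
    push_cast
    ring
  rw [e] at h
  rw [h, Rat.den_div_natCast_eq_one_iff _ _ hp.ne_zero]
  exact ⟨fun h => h.1, fun h => ⟨h, rfl⟩⟩

lemma wpCurve_latT_Δ_ne_zero (τ : ℍ) : (wpCurve (latT τ)).Δ ≠ 0 := by
  rw [(H4.B1c τ).2]
  refine mul_ne_zero (pow_ne_zero _ (mul_ne_zero two_ne_zero ?_)) (discriminant_ne_zero τ)
  exact_mod_cast Real.pi_ne_zero

variable {p : ℕ} [NeZero p] (hp : p.Prime) (h : B1Inputs p) (τ τ' : ℍ)
  (hτ' : (τ' : ℂ) = p * τ)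

include hp h hτ'

/-- the point `(℘(1/p), ℘'(1/p)/2)` -/
theorem exists_point_wp : ∃ R : (wpCurve (latT τ)).toAffine.Point, addOrderOf R = p ∧
    veluJ _ (AddSubgroup.zmultiples R) = jInv τ' ∧
      (p : ℂ) ^ 12 * veluQ _ (AddSubgroup.zmultiples R) = discriminant τ / discriminant τ' := by
  have hΔ := wpCurve_latT_Δ_ne_zero τ
  have hΔ' := wpCurve_latT_Δ_ne_zero τ'
  have hp0 : (p : ℂ) ≠ 0 := Nat.cast_ne_zero.mpr hp.ne_zero
  obtain ⟨Ψ, hΨ0, hΨ⟩ := h.a (latT τ) hΔ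
  have hmul : ∀ i : ℕ, i • Ψ (1 / (p : ℂ)) = Ψ ((i : ℂ) / p) := fun i => by
    rw [← map_nsmul, nsmul_eq_mul, mul_one_div]
  have hord : addOrderOf (Ψ (1 / (p : ℂ))) = p := by
    have := Fact.mk hp
    apply addOrderOf_eq_prime
    · rw [hmul, hΨ0, div_mem_latT_iff hp]
    · have h1 := hmul 1
      rw [one_smul] at h1
      rw [h1, Ne, hΨ0, div_mem_latT_iff hp]
      exact fun h => hp.one_lt.ne' (Nat.dvd_one.mp h)
  have hval : ∀ i ∈ Finset.Ico 1 p, ∃ h, i • Ψ (1 / (p : ℂ)) =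
      .some ((latT τ).weierstrassP (i / p)) ((latT τ).derivWeierstrassP (i / p) / 2) h := by
    intro i hi
    rw [Finset.mem_Ico] at hi
    rw [hmul]
    apply hΨ
    rw [div_mem_latT_iff hp]
    exact fun hd => absurd (Nat.le_of_dvd (by omega) hd) (by omega)
  have hrange : ∀ {M : Type} [CommMonoid M] (f : ℕ → M), ∏ i ∈ Finset.range p, f i =
      f 0 * ∏ i ∈ Finset.Ico 1 p, f i := fun f => by
    rw [Finset.range_eq_Ico, Finset.prod_eq_prod_Ico_succ_bot hp.pos]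
  have hrange' : ∀ (f : ℕ → ℂ), ∑ i ∈ Finset.range p, f i =
      f 0 + ∑ i ∈ Finset.Ico 1 p, f i := fun f => by
    rw [Finset.range_eq_Ico, Finset.sum_eq_sum_Ico_succ_bot hp.pos]
  have hQ : veluQ _ (AddSubgroup.zmultiples (Ψ (1 / (p : ℂ)))) =
      (wpCurve (latT τ)).Δ / (wpCurve (latT' p τ)).Δ := by
    rw [veluQ_zmultiples hp.pos hord, hrange, zero_smul, psi2_zero, one_mul]
    have e : ∏ i ∈ Finset.Ico 1 p, psi2 _ (i • Ψ (1 / (p : ℂ))) =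
        ∏ a ∈ Finset.Ico 1 p, (latT τ).derivWeierstrassP (a / p) := by
      refine Finset.prod_congr rfl fun i hi => ?_
      obtain ⟨hns, he⟩ := hval i hi
      rw [he, psi2_some]
      simp only [wpCurve]
      ring
    rw [e, ← Finset.prod_pow]
    have hd := h.d τ hΔ
    have hp1 : (wpCurve (latT τ)).Δ ^ p = (wpCurve (latT τ)).Δ ^ (p - 1) * (wpCurve (latT τ)).Δ := by
      rw [← pow_succ]
      congr 1
      have := hp.pos
      omega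
    have hΔp : (wpCurve (latT' p τ)).Δ ≠ 0 := by
      intro h0
      rw [h0, zero_mul] at hd
      exact pow_ne_zero _ hΔ hd.symm
    rw [div_eq_div_iff (pow_ne_zero _ hΔ) hΔp, mul_comm, hd, hp1, mul_comm]
  have hC : veluC4 _ (AddSubgroup.zmultiples (Ψ (1 / (p : ℂ)))) = (wpCurve (latT' p τ)).c₄ := by
    rw [veluC4_zmultiples hp.pos hord, hrange', zero_smul, q2_zero, zero_add, wpCurve_c₄, wpCurve_c₄,
      h.b τ]
    have e : ∑ i ∈ Finset.Ico 1 p, q2 _ (i • Ψ (1 / (p : ℂ))) =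
        ∑ a ∈ Finset.Ico 1 p, (6 * (latT τ).weierstrassP (a / p) ^ 2 - (latT τ).g₂ / 2) := by
      refine Finset.sum_congr rfl fun i hi => ?_
      obtain ⟨hns, he⟩ := hval i hi
      rw [he, q2_some]
      simp only [wpCurve, b₂, b₄]
      ring
    rw [e]
    ring
  obtain ⟨hc1, hc2⟩ := H4.B1c' p τ τ' hτ'
  obtain ⟨hb1, hb2⟩ := H4.B1c τ'
  obtain ⟨hb1', hb2'⟩ := H4.B1c τ
  have hd1 := discriminant_ne_zero τ
  have hd2 := discriminant_ne_zero τ'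
  have hpi : (Real.pi : ℂ) ≠ 0 := by exact_mod_cast Real.pi_ne_zero
  refine ⟨Ψ (1 / (p : ℂ)), hord, ?_, ?_⟩
  · rw [veluJ, hQ, hC, hc1, hc2, hb1, hb2, hb2']
    rw [jInv]
    field_simp
  · rw [hQ, hc2, hb2, hb2']
    field_simp

/-- the point on any complex curve with invariant `j(τ)` -/
theorem exists_point_complex (W : WeierstrassCurve ℂ) (hΔ : W.Δ ≠ 0)
    (hj : W.c₄ ^ 3 = jInv τ * W.Δ) : ∃ R : W.toAffine.Point, addOrderOf R = p ∧
    veluJ W (AddSubgroup.zmultiples R) = jInv τ' ∧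
      (p : ℂ) ^ 12 * veluQ W (AddSubgroup.zmultiples R) = discriminant τ / discriminant τ' := by
  have hpt := exists_point_wp hp h τ τ' hτ'
  set E := wpCurve (latT τ) with hE
  have hΔE : E.Δ ≠ 0 := wpCurve_latT_Δ_ne_zero τ
  have : E.IsElliptic := ⟨hΔE.isUnit⟩
  have : W.IsElliptic := ⟨hΔ.isUnit⟩
  obtain ⟨hb1, hb2⟩ := H4.B1c τ
  have hpi : (Real.pi : ℂ) ≠ 0 := by exact_mod_cast Real.pi_ne_zero
  have hd1 := discriminant_ne_zero τ
  have hjE : E.c₄ ^ 3 = jInv τ * E.Δ := by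
    rw [hE, hb1, hb2, jInv]
    field_simp
  have hjj : W.j = E.j := by
    rw [j, j]
    have e1 : ((W.Δ'⁻¹ : ℂˣ) : ℂ) = W.Δ⁻¹ := by rw [Units.val_inv_eq_inv_val, coe_Δ']
    have e2 : ((E.Δ'⁻¹ : ℂˣ) : ℂ) = E.Δ⁻¹ := by rw [Units.val_inv_eq_inv_val, coe_Δ']
    rw [e1, e2, hj, hjE]
    field_simp
  obtain ⟨C, hC⟩ := exists_variableChange_of_j_eq W E hjj
  rw [← hC] at hpt
  obtain ⟨R, hR, hRj, hRq⟩ := hpt
  refine ⟨H74.pointEquiv W C R, ?_, ?_, ?_⟩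
  · rw [← hR]
    exact addOrderOf_injective (H74.pointEquiv W C).toAddMonoidHom
      (H74.pointEquiv W C).injective R
  · rw [veluJ_pointEquiv C hΔ hp.pos hR, hRj]
  · rw [veluQ_pointEquiv C hΔ hp.pos hR, hRq]

end Fermat.Agent.H05
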