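import Mathlib
import Fermat.Prelude.Def_ModularCurve_ModularUnit
import Fermat.Agent.H90Deg

set_option autoImplicit false

/-! # The modular unit `Δ(τ)/Δ(Nτ)` is a modular function -/

noncomputable section

namespace Fermat.Agent.H05

open UpperHalfPlane hiding I
open Complex MatrixGroups ModularGroup ModularCurve
open Fermat.Agent.H24 Fermat.Agent.H61 Fermat.Agent.H28
open ModularForm (discriminant discriminant_ne_zero)
open scoped Manifold

local notation "𝕢" => Function.Periodic.qParam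

/-- series of `Δ(τ)/Δ(Nτ)` -/
def uSer (K : Type*) [Field K] (N : ℕ) [NeZero N] : LaurentSeries K :=
  deltaL K * qExpand K N (deltaInvL K)

lemma coeffMap_deltaL {R S : Type*} [CommRing R] [CommRing S] (f : R →+* S) :
    coeffMap f (deltaL R) = deltaL S := by
  rw [deltaL, map_mul, coeffMap_single, map_one, coeffMap_ofPowerSeries,
    ← RingHom.comp_apply (PowerSeries.map f) (PowerSeries.map (Int.castRingHom R)),
    ← PowerSeries.map_comp, RingHom.ext_int (f.comp (Int.castRingHom R)) (Int.castRingHom S)]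
  rfl

lemma coeffMap_deltaInvL {R S : Type*} [CommRing R] [CommRing S] (f : R →+* S) :
    coeffMap f (deltaInvL R) = deltaInvL S := by
  rw [deltaInvL, map_mul, coeffMap_single, map_one, coeffMap_ofPowerSeries,
    ← RingHom.comp_apply (PowerSeries.map f) (PowerSeries.map (Int.castRingHom R)),
    ← PowerSeries.map_comp, RingHom.ext_int (f.comp (Int.castRingHom R)) (Int.castRingHom S)]
  rfl

lemma coeffMap_uSer {K L : Type*} [Field K] [Field L] (f : K →+* L) (N : ℕ) [NeZero N] :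
    coeffMap f (uSer K N) = uSer L N := by
  rw [uSer, map_mul, coeffMap_qExpand, coeffMap_deltaL, coeffMap_deltaInvL, uSer]

/-- the series of the prelude -/
lemma modularUnitSeries_eq (N : ℕ) [NeZero N] : modularUnitSeries N = uSer ℚ N := by
  have h : deltaSeries = deltaL ℚ := rfl
  have h2 : (deltaSeriesN N)⁻¹ = qExpand ℚ N (deltaInvL ℚ) := by
    rw [deltaSeriesN, h]
    apply inv_eq_of_mul_eq_one_right
    rw [← map_mul, deltaL_mul_deltaInvL, map_one]
  rw [modularUnitSeries, h2, h, uSer]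

lemma coeffEmb_modularUnitSeries (L : Type*) [Field L] [Algebra ℚ L] (N : ℕ) [NeZero N] :
    coeffEmb L (modularUnitSeries N) = uSer L N := by
  rw [modularUnitSeries_eq]
  exact coeffMap_uSer _ N

lemma isConv_of_hasExp {f : ℍ → ℂ} {F : LaurentSeries ℂ} (h : HasExp 1 f F) : IsConv F := by
  intro r hr0 hr1
  obtain ⟨τ, hτ⟩ := exists_qParam_eq_of_norm 1 (w := (r : ℂ)) (by exact_mod_cast hr0.ne')
    (by simpa [abs_of_pos hr0] using hr1)
  have h := (show HasSum _ _ from h τ).summable.norm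
  rw [Nat.cast_one] at hτ
  rw [hτ] at h
  simpa [norm_mul, norm_zpow, abs_of_pos hr0] using h

lemma evalAt_of_hasExp {f : ℍ → ℂ} {F : LaurentSeries ℂ} (h : HasExp 1 f F) (τ : ℍ) :
    evalAt (𝕢 (1 : ℝ) τ) F = f τ := (show HasSum _ _ from h τ).tsum_eq

/-- the function `Δ(τ)/Δ(Nτ)` -/
def uFun (N : ℕ) [NeZero N] (τ : ℍ) : ℂ := discriminant τ * (discriminant (scale N τ))⁻¹

lemma mdiff_uFun (N : ℕ) [NeZero N] : MDiff (uFun N) :=
  disc_mdiff.mul (mdiff_scale N disc_inv_mdiff)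

section

variable (K : Type*) [Field K] [Algebra K ℂ] (N : ℕ) [NeZero N]

lemma incl_uSer : incl K (uSer K N) = uSer ℂ N := coeffMap_uSer _ N

lemma isConv_uSer : IsConv (uSer ℂ N) :=
  (isConv_of_hasExp hasExp_discriminant).mul
    (isConv_qExpand N (isConv_of_hasExp hasExp_discriminant_inv))

lemma ev_uSer : ev K (uSer K N) = uFun N := by
  funext τ
  rw [ev, incl_uSer, uSer, evalAt_mul (isConv_of_hasExp hasExp_discriminant)
    (isConv_qExpand N (isConv_of_hasExp hasExp_discriminant_inv))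
    (Function.Periodic.qParam_ne_zero _) (norm_qParam_one τ),
    evalAt_of_hasExp hasExp_discriminant, evalAt_qExpand N
      (isConv_of_hasExp hasExp_discriminant_inv) (Function.Periodic.qParam_ne_zero _)
      (norm_qParam_one τ), uFun, ← evalAt_of_hasExp hasExp_discriminant_inv]
  congr 2
  simp only [Function.Periodic.qParam, coe_scale]
  rw [← Complex.exp_nat_mul]
  congr 1
  push_cast
  ring

end

/-! ### expansions at the cusps -/

lemma exists_expansion_affine' {f : ℍ → ℂ} {J : LaurentSeries ℂ} (hJ : IsConv J)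
    (hJe : ∀ τ : ℍ, evalAt (𝕢 (1 : ℝ) τ) J = f τ)
    (a : ℕ) (b : ℤ) (e : ℕ) [NeZero a] [NeZero e] (m : ℕ) [NeZero m] :
    ∃ F : LaurentSeries ℂ, IsConv F ∧
      ∀ τ : ℍ, evalAt (𝕢 ((e * m : ℕ) : ℝ) τ) F = f (affine a b e τ) := by
  have : NeZero (e * m) := ⟨mul_ne_zero (NeZero.ne e) (NeZero.ne m)⟩
  have : NeZero (a * m) := ⟨mul_ne_zero (NeZero.ne a) (NeZero.ne m)⟩
  have hu0 : Complex.exp (2 * Real.pi * Complex.I * b / e) ≠ 0 := Complex.exp_ne_zero _
  set u : ℂˣ := Units.mk0 _ hu0 with hu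
  have hu1 : ‖(u : ℂ)‖ = 1 := by
    rw [hu, Units.val_mk0, show (2 * Real.pi * Complex.I * b / e : ℂ) =
      ((2 * Real.pi * b / e : ℝ) : ℂ) * Complex.I by push_cast; ring]
    exact Complex.norm_exp_ofReal_mul_I _
  refine ⟨ModularCurve.qExpand ℂ (a * m) (twist u J), isConv_qExpand _ (isConv_twist hu1 hJ),
    fun τ => ?_⟩
  have hz0 : 𝕢 ((e * m : ℕ) : ℝ) τ ≠ 0 := Function.Periodic.qParam_ne_zero _
  have hz1 : ‖𝕢 ((e * m : ℕ) : ℝ) τ‖ < 1 :=
    Function.Periodic.norm_qParam_lt_one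
      (by exact_mod_cast Nat.pos_of_ne_zero (NeZero.ne (e * m))) τ.im_pos
  rw [evalAt_qExpand _ (isConv_twist hu1 hJ) hz0 hz1, evalAt_twist, hu, Units.val_mk0,
    ← qParam_affine, hJe]

lemma denom_SL (γ : SL(2, ℤ)) (τ : ℍ) : denom γ τ = (γ 1 0 : ℂ) * τ + γ 1 1 :=
  ModularGroup.denom_apply γ τ

/-- the product of the automorphy factors is constant -/
lemma exists_const_denom (N : ℕ) [NeZero N] (γ M : SL(2, ℤ)) (a e : ℕ) (b : ℤ) [NeZero a]
    [NeZero e] (h : ∀ τ : ℍ, M • scale N (γ • τ) = affine a b e τ) :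
    ∃ t : ℂ, ∀ τ : ℍ, denom γ τ * denom M (scale N (γ • τ)) = t := by
  set s : ℂ := M 1 0 * N * γ 0 0 + M 1 1 * γ 1 0 with hs
  set t : ℂ := M 1 0 * N * γ 0 1 + M 1 1 * γ 1 1 with ht
  have hprod : ∀ τ : ℍ, denom γ τ * denom M (scale N (γ • τ)) = s * τ + t := by
    intro τ
    have h1 := SL_denom_ne_zero γ τ
    rw [denom_SL, denom_SL, coe_scale, coe_SL_smul]
    field_simp
    rw [hs, ht]
    ring
  have hlin : ∀ τ : ℍ, (e : ℂ) * (M 0 0 * N * (γ 0 0 * τ + γ 0 1) + M 0 1 * (γ 1 0 * τ + γ 1 1)) =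
      (a * τ + b) * (s * τ + t) := by
    intro τ
    have h1 := SL_denom_ne_zero γ τ
    have h2 := SL_denom_ne_zero M (scale N (γ • τ))
    have h3 : ((M • scale N (γ • τ) : ℍ) : ℂ) = (affine a b e τ : ℍ) := by rw [h τ]
    rw [coe_SL_smul, coe_affine] at h3
    have he : (e : ℂ) ≠ 0 := by exact_mod_cast NeZero.ne e
    rw [div_eq_div_iff h2 he] at h3
    rw [← hprod, denom_SL, denom_SL]
    rw [coe_scale, coe_SL_smul] at h3 h2 ⊢
    have h4 : ((γ 1 0 : ℂ) * τ + γ 1 1) * ((M 0 0 * (N * ((γ 0 0 * τ + γ 0 1) /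
      (γ 1 0 * τ + γ 1 1))) + M 0 1) * e) = e * (M 0 0 * N * (γ 0 0 * τ + γ 0 1) +
        M 0 1 * (γ 1 0 * τ + γ 1 1)) := by
      field_simp
    rw [← h4, h3]
    ring
  have hs0 : s = 0 := by
    have ha : (a : ℂ) ≠ 0 := by exact_mod_cast NeZero.ne a
    let τ₁ : ℍ := ⟨Complex.I, by simp⟩
    let τ₂ : ℍ := ⟨2 * Complex.I, by simp⟩
    let τ₃ : ℍ := ⟨3 * Complex.I, by simp⟩
    have e1 := hlin τ₁
    have e2 := hlin τ₂
    have e3 := hlin τ₃
    have c1 : (τ₁ : ℂ) = Complex.I := rfl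
    have c2 : (τ₂ : ℂ) = 2 * Complex.I := rfl
    have c3 : (τ₃ : ℂ) = 3 * Complex.I := rfl
    rw [c1] at e1
    rw [c2] at e2
    rw [c3] at e3
    have h5 : (a : ℂ) * s * (2 * Complex.I ^ 2) = 0 := by
      linear_combination (2 : ℂ) * e2 - e1 - e3
    rw [Complex.I_sq] at h5
    have h6 : (a : ℂ) * s = 0 := by linear_combination (-1 / 2 : ℂ) * h5
    exact (mul_eq_zero.mp h6).resolve_left ha
  exact ⟨t, fun τ => by rw [hprod, hs0, zero_mul, zero_add]⟩

lemma affine_one (τ : ℍ) : affine 1 0 1 τ = τ := by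
  apply UpperHalfPlane.ext
  rw [coe_affine]
  simp

lemma uFun_mem_ExpAlg (N : ℕ) [NeZero N] (γ : SL(2, ℤ)) :
    compHom γ (uFun N) ∈ ExpAlg (chart_qParam N) := by
  obtain ⟨a, e, b, ha, he, hae, -, M, hM⟩ := exists_hermite γ N
  obtain ⟨t, ht⟩ := exists_const_denom N γ M a e b hM
  obtain ⟨F, hF, hFe⟩ := exists_expansion_affine' (isConv_of_hasExp hasExp_discriminant_inv)
    (evalAt_of_hasExp hasExp_discriminant_inv) a b e a
  obtain ⟨G, hG, hGe⟩ := exists_expansion_affine' (isConv_of_hasExp hasExp_discriminant)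
    (evalAt_of_hasExp hasExp_discriminant) 1 0 1 N
  have hea : e * a = N := by rw [mul_comm]; exact hae
  rw [hea] at hFe
  rw [one_mul] at hGe
  refine ⟨t ^ 12 • (G * F), isConv_smul _ (hG.mul hF), fun τ _ => ?_⟩
  have hq0 : 𝕢 (N : ℝ) τ ≠ 0 := Function.Periodic.qParam_ne_zero _
  rw [evalAt_smul, evalAt_mul hG hF hq0 (qParam_norm_lt_one N τ), hFe, hGe, affine_one,
    compHom_apply, uFun, disc_smul]
  have h1 : discriminant (affine a b e τ) =
      denom M (scale N (γ • τ)) ^ 12 * discriminant (scale N (γ • τ)) := by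
    rw [← hM, disc_smul]
  have h2 := discriminant_ne_zero (scale N (γ • τ))
  have h3 : denom M (scale N (γ • τ)) ≠ 0 := denom_ne_zero _ _
  rw [h1, ← ht τ]
  field_simp

lemma uFun_inv (N : ℕ) [NeZero N] {γ : SL(2, ℤ)} (hγ : γ ∈ CongruenceSubgroup.Gamma0 N) :
    compHom γ (uFun N) = uFun N := by
  funext τ
  rw [CongruenceSubgroup.Gamma0_mem, ZMod.intCast_zmod_eq_zero_iff_dvd] at hγ
  obtain ⟨c', hc'⟩ := hγ
  have hdet := SL_det_eq γ
  have hMdet : (!![γ 0 0, (N : ℤ) * γ 0 1; c', γ 1 1]).det = 1 := by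
    rw [Matrix.det_fin_two_of]
    rw [hc'] at hdet
    linear_combination hdet
  set M : SL(2, ℤ) := ⟨!![γ 0 0, (N : ℤ) * γ 0 1; c', γ 1 1], hMdet⟩ with hM
  have hM00 : M 0 0 = γ 0 0 := rfl
  have hM01 : M 0 1 = (N : ℤ) * γ 0 1 := rfl
  have hM10 : M 1 0 = c' := rfl
  have hM11 : M 1 1 = γ 1 1 := rfl
  have hcC : ((γ 1 0 : ℤ) : ℂ) = N * c' := by exact_mod_cast hc'
  have hMs : scale N (γ • τ) = M • scale N τ := by
    apply UpperHalfPlane.ext
    rw [coe_scale, coe_SL_smul, coe_SL_smul, coe_scale]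
    rw [hM00, hM01, hM10, hM11]
    have h1 := SL_denom_ne_zero γ τ
    rw [hcC] at h1 ⊢
    push_cast
    rw [mul_div_assoc']
    congr 1
    · ring
    · ring
  have hden : denom M (scale N τ) = denom γ τ := by
    rw [denom_SL, denom_SL, hM10, hM11, hcC, coe_scale]
    ring
  rw [compHom_apply, uFun, uFun, disc_smul, hMs, disc_smul, hden]
  have h2 := discriminant_ne_zero (scale N τ)
  have h3 : denom γ τ ≠ 0 := denom_ne_zero _ _
  field_simp

variable (K : Type*) [Field K] [Algebra K ℂ] (N : ℕ) [NeZero N]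

theorem good_uSer : Good K N (uSer K N) where
  conv := by rw [incl_uSer]; exact isConv_uSer N
  hol := by rw [ev_uSer]; exact mdiff_uFun N
  exp γ := by rw [ev_uSer]; exact uFun_mem_ExpAlg N γ
  inv γ hγ := by rw [ev_uSer]; exact uFun_inv N hγ

theorem uSer_mem_full [IsAlgClosed K] : uSer K N ∈ modularFunctionFieldFullC K N :=
  H90.mem_full_of_good (good_uSer K N)

end Fermat.Agent.H05
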