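import Mathlib
import Fermat.Agent.H05_Unit
import Fermat.Agent.H94Export

set_option autoImplicit false

/-! # Evaluation of modular functions at a generic point -/

noncomputable section

namespace Fermat.Agent.H05

open UpperHalfPlane hiding I
open Complex MatrixGroups ModularGroup ModularCurve Polynomial
open Fermat.Agent.H24 Fermat.Agent.H61 Fermat.Agent.H28
open ModularForm (discriminant discriminant_ne_zero)

section

variable {K : Type*} [Field K] [Algebra K ℂ] {N : ℕ} [NeZero N]

/-- evaluation at `τ₀` on `K[j(q^d)]` -/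
def evA (K : Type*) [Field K] [Algebra K ℂ] (N : ℕ) [NeZero N] (τ₀ : ℍ) : A K N →ₐ[K] ℂ where
  toFun x := ev K (x : LaurentSeries K) τ₀
  map_one' := by
    have := congrFun (ev_algebraMap K 1) τ₀
    rw [map_one, map_one, map_one] at this
    exact this
  map_mul' x y := by
    have := congrFun (ev_mul K (good_of_mem K x.2).conv (good_of_mem K y.2).conv) τ₀
    exact this
  map_zero' := by
    have := congrFun (ev_algebraMap K 0) τ₀
    rw [map_zero, map_zero, map_zero] at this
    exact this
  map_add' x y := by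
    have := congrFun (ev_add K (good_of_mem K x.2).conv (good_of_mem K y.2).conv) τ₀
    exact this
  commutes' c := congrFun (ev_algebraMap K c) τ₀

lemma evA_apply (τ₀ : ℍ) (x : A K N) : evA K N τ₀ x = ev K (x : LaurentSeries K) τ₀ := rfl

lemma evA_jA (τ₀ : ℍ) : evA K N τ₀ (jA K N) = jInv τ₀ := ev_jqModC K τ₀

lemma evA_injective {τ₀ : ℍ} (h : Transcendental K (jInv τ₀)) :
    Function.Injective (evA K N τ₀) := by
  classical
  have : Finite (SL(2, ℤ) ⧸ CongruenceSubgroup.Gamma0 N) := inferInstance
  let _ : Fintype (SL(2, ℤ) ⧸ CongruenceSubgroup.Gamma0 N) := Fintype.ofFinite _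
  rw [injective_iff_map_eq_zero]
  intro x hx
  by_contra hx0
  obtain ⟨p, hp⟩ := exists_relation x
  set n := Fintype.card (SL(2, ℤ) ⧸ CongruenceSubgroup.Gamma0 N) with hn
  let f : K[X] →+* A K N := (aeval (jA K N) : K[X] →ₐ[K] A K N)
  let P : K[X][X] := X ^ n + ∑ i ∈ Finset.range n, C (p i) * X ^ i
  have hP : P.Monic := by
    apply monic_X_pow_add
    refine (degree_sum_le _ _).trans_lt ?_
    refine (Finset.sup_lt_iff (WithBot.bot_lt_coe n)).mpr ?_
    intro i hi
    exact (degree_C_mul_X_pow_le _ _).trans_lt (WithBot.coe_lt_coe.mpr (Finset.mem_range.mp hi))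
  have hev : P.eval₂ f x = 0 := by
    apply Subtype.ext
    simp only [P, eval₂_add, eval₂_pow, eval₂_X, eval₂_finsetSum, eval₂_mul, eval₂_C]
    push_cast
    rw [← hp]
    congr 1
    refine Finset.sum_congr rfl fun i _ => ?_
    congr 1
    exact (aeval_algHom_apply (A K N).val (jA K N) (p i)).symm
  obtain ⟨i, hi, hmem⟩ := Ideal.exists_coeff_ne_zero_mem_comap_of_root_mem (f := f)
    (I := RingHom.ker (evA K N τ₀)) hx0 hx hP.ne_zero hev
  apply hi
  rw [Ideal.mem_comap, RingHom.mem_ker] at hmem
  have h1 : evA K N τ₀ (aeval (jA K N) (P.coeff i)) = aeval (jInv τ₀) (P.coeff i) := by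
    rw [← evA_jA (K := K) (N := N)]
    exact (aeval_algHom_apply (evA K N τ₀) (jA K N) (P.coeff i)).symm
  have h2 : evA K N τ₀ (aeval (jA K N) (P.coeff i)) = 0 := hmem
  rw [h1] at h2
  exact transcendental_iff.mp h _ h2

/-- the evaluation embedding of the function field -/
def evF {τ₀ : ℍ} (h : Transcendental K (jInv τ₀)) : modularFunctionFieldFullC K N →ₐ[K] ℂ :=
  IsFractionRing.liftAlgHom (A := A K N) (g := evA K N τ₀) (evA_injective h)

lemma evF_algebraMap {τ₀ : ℍ} (h : Transcendental K (jInv τ₀)) (x : A K N) :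
    evF h (algebraMap (A K N) (modularFunctionFieldFullC K N) x) =
      ev K (x : LaurentSeries K) τ₀ :=
  IsFractionRing.lift_algebraMap (g := (evA K N τ₀ : A K N →+* ℂ)) (evA_injective h) x

/-- value of the embedding on convergent series -/
lemma evF_eq {τ₀ : ℍ} (h : Transcendental K (jInv τ₀)) (x : modularFunctionFieldFullC K N)
    (hx : IsConv (incl K (x : LaurentSeries K))) :
    evF h x = ev K (x : LaurentSeries K) τ₀ := by
  obtain ⟨a, b, hb, hab⟩ := IsFractionRing.div_surjective (A := A K N) x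
  have hb0 : b ≠ 0 := nonZeroDivisors.ne_zero hb
  have hbx : (b : LaurentSeries K) * (x : LaurentSeries K) = a := by
    have hb1 : (algebraMap (A K N) (modularFunctionFieldFullC K N) b) ≠ 0 :=
      (map_ne_zero_iff _ (IsFractionRing.injective (A K N) (modularFunctionFieldFullC K N))).mpr hb0
    have h1 : algebraMap (A K N) (modularFunctionFieldFullC K N) b * x =
        algebraMap (A K N) (modularFunctionFieldFullC K N) a := by
      rw [← hab, mul_div_cancel₀ _ hb1]
    exact congrArg (fun z : modularFunctionFieldFullC K N => (z : LaurentSeries K)) h1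
  have hbne : evA K N τ₀ b ≠ 0 := (map_ne_zero_iff _ (evA_injective h)).mpr hb0
  have h2 : ev K (b : LaurentSeries K) τ₀ * ev K (x : LaurentSeries K) τ₀ =
      ev K (a : LaurentSeries K) τ₀ := by
    rw [← hbx, ev_mul K (good_of_mem K b.2).conv hx]
    rfl
  have h3 : evF h x = evF h (algebraMap (A K N) (modularFunctionFieldFullC K N) a) /
      evF h (algebraMap (A K N) (modularFunctionFieldFullC K N) b) := by
    rw [← map_div₀, hab]
  have hbne' : ev K (b : LaurentSeries K) τ₀ ≠ 0 := hbne
  rw [h3, evF_algebraMap, evF_algebraMap, ← h2]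
  field_simp

lemma evF_jF {τ₀ : ℍ} (h : Transcendental K (jInv τ₀)) : evF h (jF K N) = jInv τ₀ := by
  rw [← algebraMap_jA, evF_algebraMap]
  exact ev_jqModC K τ₀

lemma evF_jN {τ₀ : ℍ} (h : Transcendental K (jInv τ₀)) (x : modularFunctionFieldFullC K N)
    (hx : (x : LaurentSeries K) = qExpand K N (jqModC K)) : evF h x = jInv (scale N τ₀) := by
  rw [evF_eq h x (by rw [hx, incl_qExpand_jqModC]; exact isConv_qExpand N isConv_jqModC), hx]
  exact ev_qExpand_jqModC K N τ₀

lemma evF_u {τ₀ : ℍ} (h : Transcendental K (jInv τ₀)) (x : modularFunctionFieldFullC K N)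
    (hx : (x : LaurentSeries K) = uSer K N) :
    evF h x = discriminant τ₀ / discriminant (scale N τ₀) := by
  rw [evF_eq h x (by rw [hx, incl_uSer]; exact isConv_uSer N), hx, ev_uSer, uFun, div_eq_mul_inv]

end

/-- generic points exist -/
lemma exists_transcendental_jInv (K : Type*) [Field K] [Countable K] [Algebra K ℂ] :
    ∃ τ₀ : ℍ, Transcendental K (jInv τ₀) := by
  have hc : Set.Countable {x : ℂ | IsAlgebraic K x} := Algebraic.countable K ℂ
  obtain ⟨z, hz⟩ : ∃ z : ℂ, z ∉ {x : ℂ | IsAlgebraic K x} := by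
    by_contra hcon
    push Not at hcon
    have huniv : {x : ℂ | IsAlgebraic K x} = Set.univ := Set.eq_univ_of_forall hcon
    rw [huniv] at hc
    exact not_countable_complex hc
  obtain ⟨τ, rfl⟩ := jInv_surjective z
  exact ⟨τ, hz⟩

end Fermat.Agent.H05
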