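import Mathlib
import Fermat.Agent.H05_Velu

set_option autoImplicit false

/-! # Mapping points along ring homomorphisms of fields -/

namespace Fermat.Agent.H05

open WeierstrassCurve WeierstrassCurve.Affine

variable {K L M : Type*} [Field K] [Field L] [Field M] [DecidableEq K] [DecidableEq L]
  [DecidableEq M]

/-- the point `(σ x, σ y)` -/
def mapPtFun (σ : K →+* L) (W : WeierstrassCurve K) : W.toAffine.Point → (W.map σ).toAffine.Point
  | .zero => .zero
  | .some x y h => .some (σ x) (σ y) ((W.toAffine.map_nonsingular σ.injective x y).mpr h)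

/-- `mapPt' σ W : W.Point →+ (W.map σ).Point` -/
def mapPt' (σ : K →+* L) (W : WeierstrassCurve K) :
    W.toAffine.Point →+ (W.map σ).toAffine.Point where
  toFun := mapPtFun σ W
  map_zero' := rfl
  map_add' := by
    rintro (_ | ⟨x₁, y₁, h₁⟩) (_ | ⟨x₂, y₂, h₂⟩)
    any_goals rfl
    by_cases hxy : x₁ = x₂ ∧ y₁ = W.toAffine.negY x₂ y₂
    · rw [Point.add_of_Y_eq hxy.1 hxy.2]
      simp only [mapPtFun]
      rw [Point.add_of_Y_eq (congrArg σ hxy.1)
        (by rw [hxy.2]; exact (W.toAffine.map_negY σ x₂ y₂).symm)]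
      rfl
    · have hxy' : ¬ (σ x₁ = σ x₂ ∧ σ y₁ = (W.map σ).toAffine.negY (σ x₂) (σ y₂)) := by
        rintro ⟨h, h'⟩
        exact hxy ⟨σ.injective h, σ.injective (h'.trans (W.toAffine.map_negY σ x₂ y₂))⟩
      rw [Point.add_some hxy]
      simp only [mapPtFun]
      rw [Point.add_some hxy']
      simp only [Point.some.injEq]
      have hs := W.toAffine.map_slope σ x₁ x₂ y₁ y₂
      have e1 : (W.map σ).toAffine = (W.toAffine.map σ) := rfl
      rw [e1, hs, W.toAffine.map_addX, W.toAffine.map_addY]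
      exact ⟨rfl, rfl⟩

/-- `mapPt σ h : W.Point →+ W'.Point` for `h : W.map σ = W'` -/
def mapPt (σ : K →+* L) {W : WeierstrassCurve K} {W' : WeierstrassCurve L} (h : W.map σ = W') :
    W.toAffine.Point →+ W'.toAffine.Point :=
  h ▸ mapPt' σ W

section

variable {σ : K →+* L} {W : WeierstrassCurve K} {W' : WeierstrassCurve L} (h : W.map σ = W')

omit [DecidableEq K] [DecidableEq L] in
include h in
lemma nonsingular_map {x y : K} (hns : W.toAffine.Nonsingular x y) :
    W'.toAffine.Nonsingular (σ x) (σ y) := by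
  subst h
  exact (W.toAffine.map_nonsingular σ.injective x y).mpr hns

@[simp] lemma mapPt_some {x y : K} (hns : W.toAffine.Nonsingular x y) :
    mapPt σ h (.some x y hns) = .some (σ x) (σ y) (nonsingular_map h hns) := by
  subst h
  rfl

lemma mapPt_injective : Function.Injective (mapPt σ h) := by
  rintro (_ | ⟨x₁, y₁, h₁⟩) (_ | ⟨x₂, y₂, h₂⟩) e
  · rfl
  · have e' := e.symm
    rw [mapPt_some] at e'
    have : mapPt σ h .zero = 0 := map_zero _
    rw [this] at e'
    exact absurd e' (by simp)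
  · rw [mapPt_some] at e
    have : mapPt σ h .zero = 0 := map_zero _
    rw [this] at e
    exact absurd e (by simp)
  · rw [mapPt_some, mapPt_some, Point.some.injEq] at e
    simp only [Point.some.injEq]
    exact ⟨σ.injective e.1, σ.injective e.2⟩

lemma mapPt_comp {τ : L →+* M} {W'' : WeierstrassCurve M} (h' : W'.map τ = W'')
    (h'' : W.map (τ.comp σ) = W'') (P : W.toAffine.Point) :
    mapPt τ h' (mapPt σ h P) = mapPt (τ.comp σ) h'' P := by
  rcases P with _ | ⟨x, y, hns⟩
  · have e1 : mapPt σ h .zero = 0 := map_zero _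
    have e2 : mapPt (τ.comp σ) h'' .zero = 0 := map_zero _
    rw [e1, e2, map_zero]
  · rw [mapPt_some, mapPt_some, mapPt_some]
    rfl

lemma psi2_mapPt {P : W.toAffine.Point} : psi2 W' (mapPt σ h P) = σ (psi2 W P) := by
  subst h
  rcases P with _ | ⟨x, y, hns⟩
  · show (1 : L) = σ 1
    rw [map_one]
  · show _ = σ (2 * y + W.a₁ * x + W.a₃)
    rw [mapPt_some, psi2_some]
    simp only [map_add, map_mul, map_ofNat, WeierstrassCurve.map_a₁, WeierstrassCurve.map_a₃]

lemma q2_mapPt {P : W.toAffine.Point} : q2 W' (mapPt σ h P) = σ (q2 W P) := by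
  subst h
  rcases P with _ | ⟨x, y, hns⟩
  · show (0 : L) = σ 0
    rw [map_zero]
  · show _ = σ (6 * x ^ 2 + W.b₂ * x + W.b₄)
    rw [mapPt_some, q2_some]
    simp only [map_add, map_mul, map_ofNat, map_pow, WeierstrassCurve.map_b₂,
      WeierstrassCurve.map_b₄]

lemma addOrderOf_mapPt (P : W.toAffine.Point) : addOrderOf (mapPt σ h P) = addOrderOf P :=
  addOrderOf_injective (mapPt σ h) (mapPt_injective h) P

omit [DecidableEq K] [DecidableEq L] in
include h in
lemma map_Δ_of_eq : W'.Δ = σ W.Δ := by rw [← h, WeierstrassCurve.map_Δ]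

omit [DecidableEq K] [DecidableEq L] in
include h in
lemma map_c₄_of_eq : W'.c₄ = σ W.c₄ := by rw [← h, WeierstrassCurve.map_c₄]

variable {P : W.toAffine.Point} {n : ℕ} (hn : 0 < n) (hP : addOrderOf P = n)

include hn hP

lemma veluQ_mapPt : veluQ W' (AddSubgroup.zmultiples (mapPt σ h P)) =
    σ (veluQ W (AddSubgroup.zmultiples P)) := by
  rw [veluQ_zmultiples hn ((addOrderOf_mapPt h P).trans hP), veluQ_zmultiples hn hP,
    map_Δ_of_eq h, map_div₀, map_pow, map_pow, map_prod]
  simp only [← map_nsmul, psi2_mapPt]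

lemma veluC4_mapPt : veluC4 W' (AddSubgroup.zmultiples (mapPt σ h P)) =
    σ (veluC4 W (AddSubgroup.zmultiples P)) := by
  rw [veluC4_zmultiples hn ((addOrderOf_mapPt h P).trans hP), veluC4_zmultiples hn hP,
    map_c₄_of_eq h, map_add, map_mul, map_sum, map_ofNat]
  simp only [← map_nsmul, q2_mapPt]

lemma veluJ_mapPt : veluJ W' (AddSubgroup.zmultiples (mapPt σ h P)) =
    σ (veluJ W (AddSubgroup.zmultiples P)) := by
  rw [veluJ, veluJ, veluQ_mapPt h hn hP, veluC4_mapPt h hn hP, map_Δ_of_eq h, map_div₀, map_mul,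
    map_pow]

end

end Fermat.Agent.H05
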