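import Fermat.Agent.H59Red

/-!
# The kernel of reduction has no torsion prime to the residue characteristic (helper59)

Trick: rescale the curve so that the given point of `E₁` becomes integral with reduction `(1,1)` on the
cuspidal cubic `y² = x³`, whose nonsingular points form the additive group.
-/

set_option autoImplicit false

namespace Fermat.Agent.H59

open WeierstrassCurve WeierstrassCurve.Affine

section Cusp

variable {k : Type*} [Field k]

/-- the cuspidal cubic `y² = x³` -/
def cusp (k : Type*) [Field k] : WeierstrassCurve k := ⟨0, 0, 0, 0, 0⟩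

/-- the additive parameter on the cuspidal cubic -/
def cuspT (P : (cusp k).toAffine.Point) : k :=
  match P with
  | .zero => 0
  | .some x y _ => x / y

lemma cusp_param {x y : k} (h : (cusp k).toAffine.Nonsingular x y) :
    ∃ a : k, a ≠ 0 ∧ x = (a ^ 2)⁻¹ ∧ y = (a ^ 3)⁻¹ ∧ x / y = a := by
  rw [nonsingular_iff', equation_iff] at h
  simp only [cusp] at h
  obtain ⟨h1, h2⟩ := h
  have h1' : y ^ 2 = x ^ 3 := by linear_combination h1
  have hx : x ≠ 0 := by
    rintro rfl
    have hy : y = 0 := by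
      have : y ^ 2 = 0 := by rw [h1']; ring
      exact pow_eq_zero_iff (two_ne_zero) |>.mp this
    subst hy
    simp at h2
  have hy : y ≠ 0 := by
    rintro rfl
    apply hx
    have : x ^ 3 = 0 := by rw [← h1']; ring
    exact pow_eq_zero_iff (three_ne_zero) |>.mp this
  refine ⟨x / y, div_ne_zero hx hy, ?_, ?_, rfl⟩
  · field_simp
    linear_combination -h1'
  · field_simp
    linear_combination -h1'

variable [DecidableEq k]

lemma cuspT_add (P Q : (cusp k).toAffine.Point) : cuspT (P + Q) = cuspT P + cuspT Q := by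
  rcases P with _ | ⟨x₁, y₁, h₁⟩
  · rw [← Point.zero_def, zero_add]
    change _ = 0 + _
    rw [zero_add]
  rcases Q with _ | ⟨x₂, y₂, h₂⟩
  · rw [← Point.zero_def, add_zero]
    change _ = _ + 0
    rw [add_zero]
  obtain ⟨a, ha, hx₁, hy₁, ha'⟩ := cusp_param h₁
  obtain ⟨b, hb, hx₂, hy₂, hb'⟩ := cusp_param h₂
  by_cases hxy : x₁ = x₂ ∧ y₁ = (cusp k).toAffine.negY x₂ y₂
  · rw [Point.add_of_Y_eq hxy.1 hxy.2]
    change (0 : k) = x₁ / y₁ + x₂ / y₂
    rw [hxy.1, hxy.2]
    simp only [negY, cusp]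
    rw [show -y₂ - 0 * x₂ - 0 = -y₂ by ring, div_neg, neg_add_cancel]
  · rw [Point.add_some hxy]
    change _ / _ = x₁ / y₁ + x₂ / y₂
    rw [ha', hb']
    by_cases hxx : x₁ = x₂
    · have hy : y₁ ≠ (cusp k).toAffine.negY x₂ y₂ := fun h => hxy ⟨hxx, h⟩
      have hyy : y₁ = y₂ := Y_eq_of_Y_ne h₁.1 h₂.1 hxx hy
      have hab : a = b := by rw [← ha', ← hb', hxx, hyy]
      subst hab
      have h2 : (2 : k) ≠ 0 := by
        intro h2
        apply hy
        rw [hyy]
        simp only [negY, cusp]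
        linear_combination y₂ * h2
      have hsl : (cusp k).toAffine.slope x₁ x₂ y₁ y₂ = 3 / (2 * a) := by
        rw [slope_of_Y_ne hxx hy]
        simp only [negY, cusp, hx₁, hy₁]
        rw [show (a ^ 3)⁻¹ - (-(a ^ 3)⁻¹ - 0 * (a ^ 2)⁻¹ - 0) = 2 * (a ^ 3)⁻¹ by ring]
        field_simp
        ring
      rw [hsl]
      have e1 : (cusp k).toAffine.addX x₁ x₂ (3 / (2 * a)) = ((2 * a) ^ 2)⁻¹ := by
        simp only [addX, cusp, hx₁, hx₂]
        field_simp
        ring
      have e2 : (cusp k).toAffine.addY x₁ x₂ y₁ (3 / (2 * a)) = ((2 * a) ^ 3)⁻¹ := by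
        simp only [addY, negAddY, negY, e1]
        simp only [cusp, hx₁, hy₁]
        field_simp
        ring
      rw [e1, e2]
      field_simp
      ring
    · rw [slope_of_X_ne hxx]
      have hab : a ^ 2 - b ^ 2 ≠ 0 := by
        intro h
        apply hxx
        rw [hx₁, hx₂, sub_eq_zero.mp h]
      have hab1 : a - b ≠ 0 := fun h => hab (by linear_combination (a + b) * h)
      have hab2 : a + b ≠ 0 := fun h => hab (by linear_combination (a - b) * h)
      have hsl : (y₁ - y₂) / (x₁ - x₂) = (a ^ 2 + a * b + b ^ 2) / (a * b * (a + b)) := by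
        rw [div_eq_div_iff (sub_ne_zero.mpr hxx) (mul_ne_zero (mul_ne_zero ha hb) hab2)]
        · rw [hx₁, hx₂, hy₁, hy₂]
          field_simp
          ring
      rw [hsl]
      have e1 : (cusp k).toAffine.addX x₁ x₂ ((a ^ 2 + a * b + b ^ 2) / (a * b * (a + b))) =
            ((a + b) ^ 2)⁻¹ := by
        simp only [addX, cusp, hx₁, hx₂]
        field_simp
        ring
      have e2 : (cusp k).toAffine.addY x₁ x₂ y₁ ((a ^ 2 + a * b + b ^ 2) / (a * b * (a + b))) =
            ((a + b) ^ 3)⁻¹ := by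
        simp only [addY, negAddY, negY, e1]
        simp only [cusp, hx₁, hy₁]
        field_simp
        ring
      rw [e1, e2]
      field_simp

lemma cuspT_nsmul (P : (cusp k).toAffine.Point) (n : ℕ) : cuspT (n • P) = n * cuspT P := by
  induction n with
  | zero => rw [zero_nsmul, Nat.cast_zero, zero_mul]; rfl
  | succ n ih => rw [succ_nsmul, cuspT_add, ih]; push_cast; ring

end Cusp

section Scale

variable {L : Type*} [Field L]

/-- The curve with `aᵢ` replaced by `cⁱ aᵢ`. -/
def scale (c : L) (W : Affine L) : Affine L :=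
  ⟨c * W.a₁, c ^ 2 * W.a₂, c ^ 3 * W.a₃, c ^ 4 * W.a₄, c ^ 6 * W.a₆⟩

lemma nonsingular_scale {c : L} (hc : c ≠ 0) {W : Affine L} {x y : L} (h : W.Nonsingular x y) :
    (scale c W).Nonsingular (c ^ 2 * x) (c ^ 3 * y) := by
  rw [nonsingular_iff', equation_iff] at h ⊢
  simp only [scale]
  refine ⟨by linear_combination c ^ 6 * h.1, ?_⟩
  rcases h.2 with h2 | h2
  · left
    intro h3
    apply h2
    have : c ^ 4 * (W.a₁ * y - (3 * x ^ 2 + 2 * W.a₂ * x + W.a₄)) = 0 := by linear_combination h3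
    exact (mul_eq_zero.mp this).resolve_left (pow_ne_zero 4 hc)
  · right
    intro h3
    apply h2
    have : c ^ 3 * (2 * y + W.a₁ * x + W.a₃) = 0 := by linear_combination h3
    exact (mul_eq_zero.mp this).resolve_left (pow_ne_zero 3 hc)

/-- scaling of points -/
def scalePt {c : L} (hc : c ≠ 0) {W : Affine L} (P : W.Point) : (scale c W).Point :=
  match P with
  | .zero => .zero
  | .some x y h => .some (c ^ 2 * x) (c ^ 3 * y) (nonsingular_scale hc h)

lemma scalePt_zero {c : L} (hc : c ≠ 0) {W : Affine L} : scalePt hc (0 : W.Point) = 0 := rfl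

lemma scalePt_some {c : L} (hc : c ≠ 0) {W : Affine L} {x y : L} (h : W.Nonsingular x y) :
    scalePt hc (Point.some x y h) = Point.some (c ^ 2 * x) (c ^ 3 * y) (nonsingular_scale hc h) := rfl

variable [DecidableEq L]

lemma slope_scale {c : L} (hc : c ≠ 0) {W : Affine L} {x₁ x₂ y₁ y₂ : L} :
    (scale c W).slope (c ^ 2 * x₁) (c ^ 2 * x₂) (c ^ 3 * y₁) (c ^ 3 * y₂) =
      c * W.slope x₁ x₂ y₁ y₂ := by
  have hneg : (scale c W).negY (c ^ 2 * x₂) (c ^ 3 * y₂) = c ^ 3 * W.negY x₂ y₂ := by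
    simp only [negY, scale]; ring
  by_cases hx : x₁ = x₂
  · by_cases hy : y₁ = W.negY x₂ y₂
    · rw [slope_of_Y_eq hx hy, slope_of_Y_eq (by rw [hx]) (by rw [hneg, hy]), mul_zero]
    · have hy' : c ^ 3 * y₁ ≠ (scale c W).negY (c ^ 2 * x₂) (c ^ 3 * y₂) := by
        rw [hneg]
        exact fun h => hy (mul_left_cancel₀ (pow_ne_zero 3 hc) h)
      rw [slope_of_Y_ne hx hy, slope_of_Y_ne (by rw [hx]) hy']
      have e1 : c ^ 3 * y₁ - (scale c W).negY (c ^ 2 * x₁) (c ^ 3 * y₁) =
          c ^ 3 * (y₁ - W.negY x₁ y₁) := by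
        simp only [negY, scale]; ring
      rw [e1]
      by_cases h0 : y₁ - W.negY x₁ y₁ = 0
      · rw [h0]; simp
      · simp only [scale]
        field_simp
  · have hx' : c ^ 2 * x₁ ≠ c ^ 2 * x₂ := fun h => hx (mul_left_cancel₀ (pow_ne_zero 2 hc) h)
    rw [slope_of_X_ne hx, slope_of_X_ne hx']
    have h0 : x₁ - x₂ ≠ 0 := sub_ne_zero.mpr hx
    rw [← mul_sub, ← mul_sub]
    field_simp

lemma scalePt_add {c : L} (hc : c ≠ 0) {W : Affine L} (P Q : W.Point) :
    scalePt hc (P + Q) = scalePt hc P + scalePt hc Q := by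
  rcases P with _ | ⟨x₁, y₁, h₁⟩
  · rw [← Point.zero_def, zero_add, scalePt_zero, zero_add]
  rcases Q with _ | ⟨x₂, y₂, h₂⟩
  · rw [← Point.zero_def, add_zero, scalePt_zero, add_zero]
  have hneg : (scale c W).negY (c ^ 2 * x₂) (c ^ 3 * y₂) = c ^ 3 * W.negY x₂ y₂ := by
    simp only [negY, scale]; ring
  by_cases hxy : x₁ = x₂ ∧ y₁ = W.negY x₂ y₂
  · rw [Point.add_of_Y_eq hxy.1 hxy.2, scalePt_zero, scalePt_some, scalePt_some,
      Point.add_of_Y_eq (by rw [hxy.1]) (by rw [hneg, hxy.2])]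
  · have hxy' : ¬ (c ^ 2 * x₁ = c ^ 2 * x₂ ∧
        c ^ 3 * y₁ = (scale c W).negY (c ^ 2 * x₂) (c ^ 3 * y₂)) := by
      rintro ⟨e1, e2⟩
      rw [hneg] at e2
      exact hxy ⟨mul_left_cancel₀ (pow_ne_zero 2 hc) e1, mul_left_cancel₀ (pow_ne_zero 3 hc) e2⟩
    rw [Point.add_some hxy, scalePt_some, scalePt_some, scalePt_some, Point.add_some hxy']
    simp only [slope_scale hc, Point.some.injEq]
    constructor
    · simp only [addX, scale]; ring
    · simp only [addY, negAddY, negY, addX, scale]; ring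

/-- scaling as a group homomorphism -/
def scaleHom {c : L} (hc : c ≠ 0) (W : Affine L) : W.Point →+ (scale c W).Point where
  toFun := scalePt hc
  map_zero' := rfl
  map_add' := scalePt_add hc

end Scale

section Tors

variable {L : Type*} [Field L] [DecidableEq L] {k : Type*} [Field k] [DecidableEq k]
  {A : ValuationSubring L} {ρ : A →+* k} {EL : Affine L} {Ek : Affine k}
  {E : WeierstrassCurve A}

/-- The kernel of reduction has no `n`-torsion for `n` invertible in the residue field. -/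
theorem eq_zero_of_nsmul_eq_zero [IsLocalHom ρ] (hL : E.map A.subtype = EL)
    {P : EL.Point} (hP : Reduces A ρ P (0 : Ek.Point)) {n : ℕ} (hn : (n : k) ≠ 0)
    (h : n • P = 0) : P = 0 := by
  rcases P with _ | ⟨x, y, hxy⟩
  · rfl
  exfalso
  have hx : x ∉ A := hP
  have heq := hxy.1
  obtain ⟨u, hu, hρu⟩ := exists_inv_of_not_mem (ρ := ρ) hx
  subst hL
  rw [equation_iff] at heq
  simp only [map_a₁, map_a₂, map_a₃, map_a₄, map_a₆, ValuationSubring.subtype_apply] at heq
  -- y is not integral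
  have hy : y ∉ A := by
    intro hy
    have key : (1 : A) = -E.a₂ * u - E.a₄ * u ^ 2 - E.a₆ * u ^ 3 + ⟨y, hy⟩ ^ 2 * u ^ 3
        + E.a₁ * ⟨y, hy⟩ * u ^ 2 + E.a₃ * ⟨y, hy⟩ * u ^ 3 := by
      apply Subtype.ext
      push_cast
      linear_combination (-(u : L) ^ 3) * heq + (-(u * x) ^ 2 - (u * x) - 1 - E.a₂ * u * (u * x + 1)
        - E.a₄ * u ^ 2 + E.a₁ * y * u ^ 2) * hu
    have := congrArg ρ key
    simp only [map_add, map_sub, map_mul, map_pow, map_neg, hρu, map_one] at this
    simp at this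
  obtain ⟨w, hw, hρw⟩ := exists_inv_of_not_mem (ρ := ρ) hy
  have hx0 : x ≠ 0 := fun h => hx (h ▸ A.zero_mem)
  have hy0 : y ≠ 0 := fun h => hy (h ▸ A.zero_mem)
  -- y / x is not integral
  have hd : y / x ∉ A := by
    intro hd
    have key : ⟨y / x, hd⟩ ^ 2 * u + E.a₁ * ⟨y / x, hd⟩ * u + E.a₃ * ⟨y / x, hd⟩ * u ^ 2 =
        1 + E.a₂ * u + E.a₄ * u ^ 2 + E.a₆ * u ^ 3 := by
      apply Subtype.ext
      push_cast
      have hu' : (u : L) = x⁻¹ := eq_inv_of_mul_eq_one_left hu
      rw [hu']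
      field_simp
      linear_combination heq
    have := congrArg ρ key
    simp only [map_add, map_sub, map_mul, map_pow, map_neg, hρu, map_one] at this
    simp at this
  obtain ⟨c, hc, hρc⟩ := exists_inv_of_not_mem (ρ := ρ) hd
  have hc' : (c : L) = x / y := by
    rw [eq_inv_of_mul_eq_one_left hc, inv_div]
  have hc0 : (c : L) ≠ 0 := by
    rw [hc']; exact div_ne_zero hx0 hy0
  -- the scaled point
  set X : A := 1 + E.a₁ * c + E.a₃ * w - E.a₂ * c ^ 2 - E.a₄ * c * w - E.a₆ * w ^ 2 with hX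
  have hw' : (w : L) = y⁻¹ := eq_inv_of_mul_eq_one_left hw
  have hXL : (X : L) = x ^ 3 / y ^ 2 := by
    rw [hX]
    push_cast
    rw [hc', hw']
    field_simp
    linear_combination heq
  have hρX : ρ X = 1 := by
    rw [hX]
    simp only [map_add, map_sub, map_mul, map_pow, hρc, hρw, map_one]
    simp
  let E' : WeierstrassCurve A := ⟨c * E.a₁, c ^ 2 * E.a₂, c ^ 3 * E.a₃, c ^ 4 * E.a₄, c ^ 6 * E.a₆⟩
  have hL' : E'.map A.subtype = scale (c : L) (E.map A.subtype) := by
    ext <;> simp [E', scale]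
  have hk' : E'.map ρ = cusp k := by
    ext <;> simp [E', cusp, hρc]
  have hns : (cusp k).toAffine.Nonsingular 1 1 := by
    rw [nonsingular_iff', equation_iff]
    simp only [cusp]
    refine ⟨by ring, ?_⟩
    by_cases h3 : (3 : k) = 0
    · right
      intro h2
      have : (1 : k) = 0 := by linear_combination h3 - h2
      exact one_ne_zero this
    · left
      intro h
      apply h3
      linear_combination -h
  have hred : Reduces A ρ (scalePt hc0 (Point.some x y hxy)) (Point.some 1 1 hns) := by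
    rw [scalePt_some, reduces_some_some]
    refine ⟨X, X, ?_, ?_, hρX, hρX⟩
    · rw [hXL, hc']
      field_simp
    · rw [hXL, hc']
      field_simp
  have hn' := hred.nsmul hL' hk' n
  have hz : n • scalePt hc0 (Point.some x y hxy) = 0 := by
    have := congrArg (scaleHom hc0 _) h
    rw [map_nsmul, map_zero] at this
    exact this
  rw [hz] at hn'
  have h0 : (n • (Point.some 1 1 hns) : (cusp k).toAffine.Point) = 0 := hn'.unique trivial
  have := cuspT_nsmul (Point.some 1 1 hns) n
  rw [h0] at this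
  change (0 : k) = n * (1 / 1) at this
  rw [div_one, mul_one] at this
  exact hn this.symm

/-- `n`-torsion points with nonsingular reduction are determined by their reduction
(`n` invertible in the residue field). -/
theorem eq_of_reduces_of_nsmul_eq_zero [IsLocalHom ρ] (hL : E.map A.subtype = EL)
    (hk : E.map ρ = Ek) {P Q : EL.Point} {P' : Ek.Point} (hP : Reduces A ρ P P')
    (hQ : Reduces A ρ Q P') {n : ℕ} (hn : (n : k) ≠ 0) (h : n • P = 0) (h' : n • Q = 0) :
    P = Q := by
  have h1 := hP.sub hL hk hQ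
  rw [sub_self] at h1
  have h2 := eq_zero_of_nsmul_eq_zero hL h1 hn (by rw [nsmul_sub, h, h', sub_self])
  exact sub_eq_zero.mp h2

end Tors

end Fermat.Agent.H59
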