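import Mathlib
import Fermat.Agent.H05_MapPt
import Fermat.Agent.H05_Good
import Fermat.Agent.H59Red
import Fermat.Agent.H59RedTors
import Fermat.Agent.H42TorsionFinal
import Fermat.Agent.H18Res

set_option autoImplicit false

/-! # Specialisation of torsion points along a place containing a constant field

`ι : k →+* Ω` with image in the valuation ring `V` of `Ω`; `W` over `Ω`, `W₀` over `k` with
`W ≡ ι W₀` modulo the maximal ideal. `Cong V ι P P₀`: the point `P` specialises to `P₀`. -/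

namespace Fermat.Agent.H05

open WeierstrassCurve WeierstrassCurve.Affine Fermat.Agent.H59

variable {k Ω : Type*} [Field k] [Field Ω]

/-- `P` specialises to `P₀` -/
def Cong (V : ValuationSubring Ω) (ι : k →+* Ω) {W : WeierstrassCurve Ω} {W₀ : WeierstrassCurve k}
    (P : W.toAffine.Point) (P₀ : W₀.toAffine.Point) : Prop :=
  match P, P₀ with
  | .zero, .zero => True
  | .zero, .some _ _ _ => False
  | .some x _ _, .zero => x ∉ V
  | .some x y _, .some x₀ y₀ _ => x - ι x₀ ∈ V.nonunits ∧ y - ι y₀ ∈ V.nonunits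

/-- the coefficients of `W` are congruent to those of `W₀` -/
structure CoeffCong (V : ValuationSubring Ω) (ι : k →+* Ω) (W : WeierstrassCurve Ω)
    (W₀ : WeierstrassCurve k) : Prop where
  mem : ∀ c, ι c ∈ V
  a₁ : W.a₁ - ι W₀.a₁ ∈ V.nonunits
  a₂ : W.a₂ - ι W₀.a₂ ∈ V.nonunits
  a₃ : W.a₃ - ι W₀.a₃ ∈ V.nonunits
  a₄ : W.a₄ - ι W₀.a₄ ∈ V.nonunits
  a₆ : W.a₆ - ι W₀.a₆ ∈ V.nonunits

variable {V : ValuationSubring Ω} {ι : k →+* Ω} {W : WeierstrassCurve Ω} {W₀ : WeierstrassCurve k}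

section

variable (h : ∀ c, ι c ∈ V)

/-- the constants as elements of `V` -/
def constV : k →+* V where
  toFun c := ⟨ι c, h c⟩
  map_one' := Subtype.ext (map_one ι)
  map_mul' x y := Subtype.ext (map_mul ι x y)
  map_zero' := Subtype.ext (map_zero ι)
  map_add' x y := Subtype.ext (map_add ι x y)

/-- the constants in the residue field -/
noncomputable def resV : k →+* IsLocalRing.ResidueField V :=
  (IsLocalRing.residue V).comp (constV h)

lemma resV_apply (c : k) : resV h c = IsLocalRing.residue V ⟨ι c, h c⟩ := rfl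

lemma residue_eq_resV_iff {x : Ω} {c : k} (hx : x ∈ V) :
    IsLocalRing.residue V ⟨x, hx⟩ = resV h c ↔ x - ι c ∈ V.nonunits := by
  rw [resV_apply, ← sub_eq_zero, ← map_sub, IsLocalRing.residue_eq_zero_iff,
    ← V.coe_mem_nonunits_iff]
  rfl

include h in
lemma mem_of_sub_mem {x : Ω} {c : k} (hx : x - ι c ∈ V.nonunits) : x ∈ V := by
  have := V.add_mem _ _ (V.nonunits_subset hx) (h c)
  rwa [sub_add_cancel] at this

end

namespace CoeffCong

variable (hc : CoeffCong V ι W W₀)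

/-- the model over `V` -/
def model : WeierstrassCurve V :=
  ⟨⟨W.a₁, mem_of_sub_mem hc.mem hc.a₁⟩, ⟨W.a₂, mem_of_sub_mem hc.mem hc.a₂⟩,
    ⟨W.a₃, mem_of_sub_mem hc.mem hc.a₃⟩, ⟨W.a₄, mem_of_sub_mem hc.mem hc.a₄⟩,
    ⟨W.a₆, mem_of_sub_mem hc.mem hc.a₆⟩⟩

lemma model_map : hc.model.map V.subtype = W := rfl

lemma model_residue : hc.model.map (IsLocalRing.residue V) = W₀.map (resV hc.mem) := by
  ext
  · exact (residue_eq_resV_iff hc.mem _).mpr hc.a₁
  · exact (residue_eq_resV_iff hc.mem _).mpr hc.a₂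
  · exact (residue_eq_resV_iff hc.mem _).mpr hc.a₃
  · exact (residue_eq_resV_iff hc.mem _).mpr hc.a₄
  · exact (residue_eq_resV_iff hc.mem _).mpr hc.a₆

variable [DecidableEq k] [DecidableEq (IsLocalRing.ResidueField V)]

lemma cong_iff {P : W.toAffine.Point} {P₀ : W₀.toAffine.Point} : Cong V ι P P₀ ↔
    Reduces V (IsLocalRing.residue V) P (mapPt (resV hc.mem) rfl P₀) := by
  rcases P with _ | ⟨x, y, hP⟩ <;> rcases P₀ with _ | ⟨x₀, y₀, hP₀⟩
  · exact Iff.rfl
  · exact Iff.rfl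
  · exact Iff.rfl
  · rw [mapPt_some, reduces_some_some]
    constructor
    · rintro ⟨h1, h2⟩
      exact ⟨⟨x, mem_of_sub_mem hc.mem h1⟩, ⟨y, mem_of_sub_mem hc.mem h2⟩, rfl, rfl,
        (residue_eq_resV_iff hc.mem _).mpr h1, (residue_eq_resV_iff hc.mem _).mpr h2⟩
    · rintro ⟨a, b, rfl, rfl, h1, h2⟩
      exact ⟨(residue_eq_resV_iff hc.mem a.2).mp h1, (residue_eq_resV_iff hc.mem b.2).mp h2⟩

variable [DecidableEq Ω]

include hc

lemma add {P Q : W.toAffine.Point} {P₀ Q₀ : W₀.toAffine.Point} (hP : Cong V ι P P₀)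
    (hQ : Cong V ι Q Q₀) : Cong V ι (P + Q) (P₀ + Q₀) := by
  rw [hc.cong_iff] at hP hQ ⊢
  rw [map_add]
  exact hP.add hc.model_map hc.model_residue hQ

lemma nsmul {P : W.toAffine.Point} {P₀ : W₀.toAffine.Point} (hP : Cong V ι P P₀) (n : ℕ) :
    Cong V ι (n • P) (n • P₀) := by
  rw [hc.cong_iff] at hP ⊢
  rw [map_nsmul]
  exact hP.nsmul hc.model_map hc.model_residue n

omit [DecidableEq Ω] in
lemma neg {P : W.toAffine.Point} {P₀ : W₀.toAffine.Point} (hP : Cong V ι P P₀) :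
    Cong V ι (-P) (-P₀) := by
  rw [hc.cong_iff] at hP ⊢
  rw [map_neg]
  exact hP.neg hc.model_map hc.model_residue

variable [CharZero k]

omit [DecidableEq k] [DecidableEq (IsLocalRing.ResidueField V)] [DecidableEq Ω] in
lemma natCast_ne_zero {n : ℕ} (hn : n ≠ 0) : (n : IsLocalRing.ResidueField V) ≠ 0 := by
  have h1 : resV hc.mem (n : k) ≠ 0 := (_root_.map_ne_zero _).mpr (Nat.cast_ne_zero.mpr hn)
  rwa [map_natCast] at h1

omit [DecidableEq k] [DecidableEq (IsLocalRing.ResidueField V)] [DecidableEq Ω] [CharZero k] in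
lemma Δ_sub : W.Δ - ι W₀.Δ ∈ V.nonunits := by
  have h1 : IsLocalRing.residue V hc.model.Δ = resV hc.mem W₀.Δ := by
    rw [← WeierstrassCurve.map_Δ, ← WeierstrassCurve.map_Δ, hc.model_residue]
  have h2 : (hc.model.Δ : Ω) = W.Δ := by
    have := WeierstrassCurve.map_Δ (W := hc.model) (f := V.subtype)
    rw [hc.model_map] at this
    exact this.symm
  have h3 := (residue_eq_resV_iff hc.mem (x := (hc.model.Δ : Ω)) (hc.model.Δ).2).mp h1
  rwa [h2] at h3

omit [DecidableEq k] [DecidableEq (IsLocalRing.ResidueField V)] [DecidableEq Ω] [CharZero k] in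
lemma const_notMem {c : k} (h0 : c ≠ 0) : ι c ∉ V.nonunits := by
  intro hn
  have h1 : ι c⁻¹ * ι c ∈ V.nonunits := mul_mem_nonunits (hc.mem _) hn
  rw [← map_mul, inv_mul_cancel₀ h0, map_one, ValuationSubring.mem_nonunits_iff, map_one] at h1
  exact lt_irrefl _ h1

omit [DecidableEq k] [DecidableEq (IsLocalRing.ResidueField V)] [DecidableEq Ω] [CharZero k] in
lemma Δ_notMem (hΔ : W₀.Δ ≠ 0) : W.Δ ∉ V.nonunits := by
  intro h
  apply hc.const_notMem hΔ
  have := sub_mem h hc.Δ_sub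
  rwa [sub_sub_cancel] at this

omit [DecidableEq k] [DecidableEq (IsLocalRing.ResidueField V)] [DecidableEq Ω] [CharZero k] in
lemma Δ_ne_zero (hΔ : W₀.Δ ≠ 0) : W.Δ ≠ 0 := by
  intro h
  exact hc.Δ_notMem hΔ (by rw [h]; exact zero_mem _)

/-- lifts of torsion points are unique -/
lemma inj {n : ℕ} (hn : n ≠ 0) {P Q : W.toAffine.Point} {P₀ : W₀.toAffine.Point}
    (hP : Cong V ι P P₀) (hQ : Cong V ι Q P₀) (h1 : n • P = 0) (h2 : n • Q = 0) : P = Q := by
  rw [hc.cong_iff] at hP hQ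
  exact eq_of_reduces_of_nsmul_eq_zero hc.model_map hc.model_residue hP hQ
    (hc.natCast_ne_zero hn) h1 h2

omit [DecidableEq Ω] [CharZero k] in
lemma unique {P : W.toAffine.Point} {P₀ Q₀ : W₀.toAffine.Point}
    (hP : Cong V ι P P₀) (hQ : Cong V ι P Q₀) : P₀ = Q₀ := by
  rw [hc.cong_iff] at hP hQ
  exact mapPt_injective _ (hP.unique hQ)

omit [DecidableEq (IsLocalRing.ResidueField V)] in
/-- every torsion point specialises to a torsion point with coordinates in `k` -/
theorem exists_red [IsAlgClosed k] [IsAlgClosed Ω] (hΔ : W₀.Δ ≠ 0) {n : ℕ} (hn : n ≠ 0)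
    {P : W.toAffine.Point} (hP : n • P = 0) :
    ∃ P₀ : W₀.toAffine.Point, n • P₀ = 0 ∧ Cong V ι P P₀ := by
  classical
  have : IsAlgClosed (IsLocalRing.ResidueField V) := H18.isAlgClosed_residueField V
  have hΔκ : (W₀.map (resV hc.mem)).Δ ≠ 0 := by
    rw [WeierstrassCurve.map_Δ]; exact (_root_.map_ne_zero _).mpr hΔ
  -- torsion points of the reduction come from `k`
  let f : Submodule.torsionBy ℤ W₀.toAffine.Point (n : ℤ) →
      Submodule.torsionBy ℤ (W₀.map (resV hc.mem)).toAffine.Point (n : ℤ) := fun P =>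
    ⟨mapPt (resV hc.mem) rfl P.1, by
      have := P.2
      rw [Submodule.mem_torsionBy_iff] at this ⊢
      rw [← map_zsmul, this, map_zero]⟩
  have hf : Function.Injective f := fun P Q h =>
    Subtype.ext (mapPt_injective _ (congrArg Subtype.val h))
  have hfin := H42.finite_torsion (W₀.map (resV hc.mem)) hΔκ hn
  have hcard : Nat.card (Submodule.torsionBy ℤ W₀.toAffine.Point (n : ℤ)) =
      Nat.card (Submodule.torsionBy ℤ (W₀.map (resV hc.mem)).toAffine.Point (n : ℤ)) := by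
    rw [H42.natCard_torsion W₀ hΔ (Nat.cast_ne_zero.mpr hn),
      H42.natCard_torsion _ hΔκ (hc.natCast_ne_zero hn)]
  have hsurj : Function.Surjective f := by
    have := (Nat.bijective_iff_injective_and_card f).mpr ⟨hf, hcard⟩
    exact this.2
  obtain ⟨P', hP'⟩ := exists_reduces_of_Δ_ne_zero hc.model_map hc.model_residue hΔκ P
  have hP'n : n • P' = 0 := by
    have h1 := hP'.nsmul hc.model_map hc.model_residue n
    rw [hP] at h1
    exact Reduces.unique h1 trivial
  obtain ⟨P₀, hP₀⟩ := hsurj ⟨P', by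
    rw [Submodule.mem_torsionBy_iff, natCast_zsmul]; exact hP'n⟩
  have h2 := congrArg Subtype.val hP₀
  refine ⟨P₀.1, ?_, ?_⟩
  · have := P₀.2
    rw [Submodule.mem_torsionBy_iff, natCast_zsmul] at this
    exact this
  · rw [hc.cong_iff]
    show Reduces V _ P (f P₀).1
    rw [h2]
    exact hP'

omit [DecidableEq (IsLocalRing.ResidueField V)] in
/-- every torsion point over `k` lifts to a torsion point -/
theorem exists_lift [IsAlgClosed k] [IsAlgClosed Ω] (hΔ : W₀.Δ ≠ 0) {n : ℕ} (hn : n ≠ 0)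
    {P₀ : W₀.toAffine.Point} (hP₀ : n • P₀ = 0) :
    ∃ P : W.toAffine.Point, n • P = 0 ∧ Cong V ι P P₀ := by
  classical
  have : CharZero Ω := charZero_of_injective_ringHom ι.injective
  choose g hg1 hg2 using fun P : Submodule.torsionBy ℤ W.toAffine.Point (n : ℤ) =>
    hc.exists_red hΔ hn (P := P.1) (by
      have := P.2
      rwa [Submodule.mem_torsionBy_iff, natCast_zsmul] at this)
  let f : Submodule.torsionBy ℤ W.toAffine.Point (n : ℤ) →
      Submodule.torsionBy ℤ W₀.toAffine.Point (n : ℤ) := fun P =>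
    ⟨g P, by rw [Submodule.mem_torsionBy_iff, natCast_zsmul]; exact hg1 P⟩
  have hf : Function.Injective f := fun P Q h => by
    have h1 : g P = g Q := congrArg Subtype.val h
    have hP := P.2
    have hQ := Q.2
    rw [Submodule.mem_torsionBy_iff, natCast_zsmul] at hP hQ
    exact Subtype.ext (hc.inj hn (hg2 P) (by rw [h1]; exact hg2 Q) hP hQ)
  have hfin := H42.finite_torsion W₀ hΔ hn
  have hcard : Nat.card (Submodule.torsionBy ℤ W.toAffine.Point (n : ℤ)) =
      Nat.card (Submodule.torsionBy ℤ W₀.toAffine.Point (n : ℤ)) := by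
    rw [H42.natCard_torsion W₀ hΔ (Nat.cast_ne_zero.mpr hn),
      H42.natCard_torsion W (hc.Δ_ne_zero hΔ) (Nat.cast_ne_zero.mpr hn)]
  have hsurj := ((Nat.bijective_iff_injective_and_card f).mpr ⟨hf, hcard⟩).2
  obtain ⟨P, hP⟩ := hsurj ⟨P₀, by rw [Submodule.mem_torsionBy_iff, natCast_zsmul]; exact hP₀⟩
  have h2 : g P = P₀ := congrArg Subtype.val hP
  have h3 := P.2
  rw [Submodule.mem_torsionBy_iff, natCast_zsmul] at h3
  exact ⟨P.1, h3, h2 ▸ hg2 P⟩

end CoeffCong


/-! ### congruences of elements -/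

/-- `x ≡ ι c` modulo the maximal ideal of `V` -/
def CE (V : ValuationSubring Ω) (ι : k →+* Ω) (x : Ω) (c : k) : Prop := x - ι c ∈ V.nonunits

namespace CE

section

variable {x y : Ω} {c d : k}

lemma const (c : k) : CE V ι (ι c) c := by
  rw [CE, sub_self]; exact zero_mem _

lemma one : CE V ι 1 1 := by
  have := const (V := V) (ι := ι) (1 : k)
  rwa [map_one] at this

lemma natCast (n : ℕ) : CE V ι (n : Ω) (n : k) := by
  have := const (V := V) (ι := ι) (n : k)
  rwa [map_natCast] at this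

lemma ofNat' (n : ℕ) [n.AtLeastTwo] : CE V ι (OfNat.ofNat n : Ω) (OfNat.ofNat n : k) :=
  natCast n

lemma add (hx : CE V ι x c) (hy : CE V ι y d) : CE V ι (x + y) (c + d) := by
  have := add_mem hx hy
  rw [CE]
  convert! this using 1
  rw [map_add]; ring

lemma sub (hx : CE V ι x c) (hy : CE V ι y d) : CE V ι (x - y) (c - d) := by
  have := sub_mem hx hy
  rw [CE]
  convert! this using 1
  rw [map_sub]; ring

lemma neg (hx : CE V ι x c) : CE V ι (-x) (-c) := by
  have := neg_mem hx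
  rw [CE]
  convert! this using 1
  rw [map_neg]; ring

variable (h : ∀ c, ι c ∈ V)
include h

lemma mem (hx : CE V ι x c) : x ∈ V := mem_of_sub_mem h hx

lemma mul (hx : CE V ι x c) (hy : CE V ι y d) : CE V ι (x * y) (c * d) := by
  have h1 := mul_mem_nonunits (mem h hy) hx
  have h2 := mul_mem_nonunits (h c) hy
  rw [CE]
  have := add_mem h1 h2
  convert! this using 1
  rw [map_mul]; ring

lemma pow (hx : CE V ι x c) (n : ℕ) : CE V ι (x ^ n) (c ^ n) := by
  induction n with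
  | zero => rw [pow_zero, pow_zero]; exact one
  | succ n ih => rw [pow_succ, pow_succ]; exact mul h ih hx

lemma prod {ι' : Type*} (s : Finset ι') (f : ι' → Ω) (g : ι' → k)
    (hfg : ∀ i ∈ s, CE V ι (f i) (g i)) : CE V ι (∏ i ∈ s, f i) (∏ i ∈ s, g i) := by
  classical
  induction s using Finset.induction_on with
  | empty => simpa using one
  | insert a s ha ih =>
    rw [Finset.prod_insert ha, Finset.prod_insert ha]
    exact mul h (hfg a (Finset.mem_insert_self a s))
      (ih fun i hi => hfg i (Finset.mem_insert_of_mem hi))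

omit h in
lemma sum {ι' : Type*} (s : Finset ι') (f : ι' → Ω) (g : ι' → k)
    (hfg : ∀ i ∈ s, CE V ι (f i) (g i)) : CE V ι (∑ i ∈ s, f i) (∑ i ∈ s, g i) := by
  classical
  induction s using Finset.induction_on with
  | empty => simpa using const (V := V) (ι := ι) (0 : k)
  | insert a s ha ih =>
    rw [Finset.sum_insert ha, Finset.sum_insert ha]
    exact add (hfg a (Finset.mem_insert_self a s))
      (ih fun i hi => hfg i (Finset.mem_insert_of_mem hi))

lemma inv (hx : CE V ι x c) (hc : c ≠ 0) : CE V ι x⁻¹ c⁻¹ := by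
  have hcn : ι c ∉ V.nonunits := by
    intro hn
    have h1 : ι c⁻¹ * ι c ∈ V.nonunits := mul_mem_nonunits (h _) hn
    rw [← map_mul, inv_mul_cancel₀ hc, map_one, ValuationSubring.mem_nonunits_iff, map_one] at h1
    exact lt_irrefl _ h1
  have hxn : x ∉ V.nonunits := fun hn => hcn (by
    have := sub_mem hn hx
    rwa [sub_sub_cancel] at this)
  have hx0 : x ≠ 0 := by rintro rfl; exact hxn (zero_mem _)
  have hxi : x⁻¹ ∈ V := by
    by_contra hni
    apply hxn
    rw [ValuationSubring.mem_nonunits_iff]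
    have := one_lt_valuation hni
    rw [map_inv₀, one_lt_inv₀ ((Valuation.pos_iff _).mpr hx0)] at this
    exact this
  have h1 : (-(x⁻¹ * ι c⁻¹)) * (x - ι c) ∈ V.nonunits :=
    mul_mem_nonunits (V.neg_mem _ (V.mul_mem _ _ hxi (h _))) hx
  rw [CE]
  convert! h1 using 1
  have : ι c ≠ 0 := (_root_.map_ne_zero ι).mpr hc
  rw [map_inv₀]
  field_simp
  ring

lemma div (hx : CE V ι x c) (hy : CE V ι y d) (hd : d ≠ 0) : CE V ι (x / y) (c / d) := by
  rw [div_eq_mul_inv, div_eq_mul_inv]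
  exact mul h hx (inv h hy hd)

end

end CE

namespace CoeffCong

variable (hc : CoeffCong V ι W W₀)
include hc

lemma ce_b₂ : CE V ι W.b₂ W₀.b₂ := by
  rw [b₂, b₂]
  exact (CE.pow hc.mem hc.a₁ 2).add (CE.mul hc.mem (CE.ofNat' 4) hc.a₂)

lemma ce_b₄ : CE V ι W.b₄ W₀.b₄ := by
  rw [b₄, b₄]
  exact (CE.mul hc.mem (CE.ofNat' 2) hc.a₄).add (CE.mul hc.mem hc.a₁ hc.a₃)

lemma ce_c₄ : CE V ι W.c₄ W₀.c₄ := by
  rw [c₄, c₄]
  exact (CE.pow hc.mem hc.ce_b₂ 2).sub (CE.mul hc.mem (CE.ofNat' 24) hc.ce_b₄)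

lemma ce_psi2 {P : W.toAffine.Point} {P₀ : W₀.toAffine.Point} (hP : Cong V ι P P₀)
    (hP₀ : P₀ ≠ 0) : CE V ι (psi2 W P) (psi2 W₀ P₀) := by
  rcases P with _ | ⟨x, y, h⟩ <;> rcases P₀ with _ | ⟨x₀, y₀, h₀⟩
  · exact absurd rfl hP₀
  · exact hP.elim
  · exact absurd rfl hP₀
  · rw [psi2_some, psi2_some]
    exact ((CE.mul hc.mem (CE.ofNat' 2) hP.2).add (CE.mul hc.mem hc.a₁ hP.1)).add hc.a₃

lemma ce_q2 {P : W.toAffine.Point} {P₀ : W₀.toAffine.Point} (hP : Cong V ι P P₀)
    (hP₀ : P₀ ≠ 0) : CE V ι (q2 W P) (q2 W₀ P₀) := by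
  rcases P with _ | ⟨x, y, h⟩ <;> rcases P₀ with _ | ⟨x₀, y₀, h₀⟩
  · exact absurd rfl hP₀
  · exact hP.elim
  · exact absurd rfl hP₀
  · rw [q2_some, q2_some]
    exact ((CE.mul hc.mem (CE.ofNat' 6) (CE.pow hc.mem hP.1 2)).add
      (CE.mul hc.mem hc.ce_b₂ hP.1)).add hc.ce_b₄

variable [DecidableEq k] [DecidableEq Ω]

omit hc [DecidableEq k] [DecidableEq Ω] in
lemma nsmul_ne_zero' {G : Type*} [AddGroup G] {P : G} {n i : ℕ} (hP : addOrderOf P = n)
    (hi : i ≠ 0) (hin : i < n) : i • P ≠ 0 := by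
  intro h0
  have hd := addOrderOf_dvd_of_nsmul_eq_zero h0
  rw [hP] at hd
  exact absurd (Nat.le_of_dvd (Nat.pos_of_ne_zero hi) hd) (not_le.mpr hin)

/-- specialisation of `veluQ` -/
theorem ce_veluQ (hΔ : W₀.Δ ≠ 0) {n : ℕ} (hn : 0 < n) {P : W.toAffine.Point}
    {P₀ : W₀.toAffine.Point} (hP : Cong V ι P P₀) (h1 : addOrderOf P = n)
    (h2 : addOrderOf P₀ = n) :
    CE V ι (veluQ W (AddSubgroup.zmultiples P)) (veluQ W₀ (AddSubgroup.zmultiples P₀)) := by
  classical
  rw [veluQ_zmultiples hn h1, veluQ_zmultiples hn h2]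
  refine CE.div hc.mem (CE.pow hc.mem (CE.prod hc.mem _ _ _ fun i hi => ?_) 4)
    (CE.pow hc.mem hc.Δ_sub _) (pow_ne_zero _ hΔ)
  rw [Finset.mem_range] at hi
  rcases Nat.eq_zero_or_pos i with rfl | hi0
  · simpa using CE.one
  · exact hc.ce_psi2 (hc.nsmul hP i) (nsmul_ne_zero' h2 hi0.ne' hi)

end CoeffCong

end Fermat.Agent.H05
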