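import Mathlib
import Fermat.Agent.H05_MapPt
import Fermat.Agent.H42TorsionFinal

set_option autoImplicit false

/-! # Galois transitivity on subgroups of order `p` -/

namespace Fermat.Agent.H05

open WeierstrassCurve WeierstrassCurve.Affine Polynomial

/-- subgroups generated by points of prime order -/
lemma zmultiples_eq_of_mem {G : Type*} [AddGroup G] {p : ℕ} (hp : p.Prime) {P Q : G}
    (hP : addOrderOf P = p) (hQ : Q ∈ AddSubgroup.zmultiples P) (hQ0 : Q ≠ 0) :
    addOrderOf Q = p ∧ AddSubgroup.zmultiples Q = AddSubgroup.zmultiples P := by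
  have hcP : Nat.card (AddSubgroup.zmultiples P) = p := by rw [Nat.card_zmultiples, hP]
  have hfin : Finite (AddSubgroup.zmultiples P) := by
    apply Nat.finite_of_card_ne_zero
    rw [hcP]; exact hp.ne_zero
  have hle : AddSubgroup.zmultiples Q ≤ AddSubgroup.zmultiples P := by
    rwa [AddSubgroup.zmultiples_le]
  have hord : addOrderOf Q = p := by
    have h1 : addOrderOf Q ∣ p := by
      rw [← Nat.card_zmultiples, ← hcP]
      exact AddSubgroup.card_dvd_of_le hle
    rcases (Nat.dvd_prime hp).mp h1 with h | h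
    · rw [AddMonoid.addOrderOf_eq_one_iff] at h
      exact absurd h hQ0
    · exact h
  refine ⟨hord, AddSubgroup.eq_of_le_of_card_ge hle ?_⟩
  rw [Nat.card_zmultiples, Nat.card_zmultiples, hP, hord]

lemma ncard_zmultiples_diff {G : Type*} [AddGroup G] {p : ℕ} {P : G}
    (hP : addOrderOf P = p) : ((AddSubgroup.zmultiples P : Set G) \ {0}).ncard = p - 1 := by
  rw [Set.ncard_sdiff_singleton_of_mem (AddSubgroup.zero_mem _)]
  congr 1
  rw [← hP, ← Nat.card_zmultiples]
  rfl

section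

variable {Ω : Type*} [Field Ω] [CharZero Ω] [IsAlgClosed Ω] [DecidableEq Ω]
  {E : WeierstrassCurve Ω} {p : ℕ}

/-- the points of order `p` -/
def ptsOrd (E : WeierstrassCurve Ω) (p : ℕ) : Set E.toAffine.Point := {P | addOrderOf P = p}

omit [CharZero Ω] [IsAlgClosed Ω] in
lemma ptsOrd_eq (hp : p.Prime) : ptsOrd E p =
    (Submodule.torsionBy ℤ E.toAffine.Point (p : ℤ) : Set E.toAffine.Point) \ {0} := by
  ext P
  rw [Set.mem_sdiff, SetLike.mem_coe, Submodule.mem_torsionBy_iff, natCast_zsmul,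
    Set.mem_singleton_iff]
  constructor
  · intro hP
    have hP' : addOrderOf P = p := hP
    refine ⟨by rw [← hP', addOrderOf_nsmul_eq_zero], ?_⟩
    rintro rfl
    rw [addOrderOf_zero] at hP'
    exact hp.one_lt.ne hP'
  · rintro ⟨h1, h2⟩
    have := Fact.mk hp
    exact addOrderOf_eq_prime h1 h2

omit [CharZero Ω] [IsAlgClosed Ω] in
lemma finite_ptsOrd (hΔ : E.Δ ≠ 0) (hp : p.Prime) : (ptsOrd E p).Finite := by
  have := H42.finite_torsion E hΔ hp.ne_zero
  rw [ptsOrd_eq hp]
  exact (Set.toFinite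
    (Submodule.torsionBy ℤ E.toAffine.Point (p : ℤ) : Set E.toAffine.Point)).subset
      Set.sdiff_subset

lemma ncard_ptsOrd (hΔ : E.Δ ≠ 0) (hp : p.Prime) : (ptsOrd E p).ncard = (p + 1) * (p - 1) := by
  rw [ptsOrd_eq hp, Set.ncard_sdiff_singleton_of_mem (Submodule.zero_mem _)]
  have h1 : (Submodule.torsionBy ℤ E.toAffine.Point (p : ℤ) : Set E.toAffine.Point).ncard =
      p ^ 2 := H42.natCard_torsion E hΔ (Nat.cast_ne_zero.mpr hp.ne_zero)
  rw [h1]
  obtain ⟨q, rfl⟩ : ∃ q, p = q + 1 := ⟨p - 1, by have := hp.pos; omega⟩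
  simp only [Nat.add_sub_cancel]
  rw [show (q + 1) ^ 2 = (q + 1 + 1) * q + 1 by ring]
  simp

/-- abstract counting: a function on points of order `p` depending only on the subgroup, taking
at least `p + 1` values, separates subgroups. -/
lemma fiber_count {C : Type*} [DecidableEq C] (hΔ : E.Δ ≠ 0) (hp : p.Prime)
    (f : E.toAffine.Point → C)
    (hf : ∀ P Q, addOrderOf P = p → Q ∈ AddSubgroup.zmultiples P → Q ≠ 0 → f Q = f P)
    (S : Finset C) (hS : S.card = p + 1)
    (hS' : ∀ c ∈ S, ∃ P, addOrderOf P = p ∧ f P = c) :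
    (∀ P, addOrderOf P = p → f P ∈ S) ∧
      ∀ P Q, addOrderOf P = p → addOrderOf Q = p → f P = f Q →
        AddSubgroup.zmultiples P = AddSubgroup.zmultiples Q := by
  classical
  set T := (finite_ptsOrd hΔ hp).toFinset with hT
  have hTmem : ∀ P, P ∈ T ↔ addOrderOf P = p := fun P => by
    rw [hT, Set.Finite.mem_toFinset]; rfl
  have hTcard : T.card = (p + 1) * (p - 1) := by
    rw [hT, ← Set.ncard_eq_toFinset_card _ (finite_ptsOrd hΔ hp), ncard_ptsOrd hΔ hp]
  -- lower bound for the fibres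
  have hsub : ∀ P, addOrderOf P = p → ((AddSubgroup.zmultiples P : Set E.toAffine.Point) \ {0}) ⊆
      (T.filter fun Q => f Q = f P : Finset _) := by
    intro P hP Q hQ
    rw [Finset.mem_coe, Finset.mem_filter, hTmem]
    exact ⟨(zmultiples_eq_of_mem hp hP hQ.1 hQ.2).1, hf P Q hP hQ.1 hQ.2⟩
  have hlow : ∀ P, addOrderOf P = p → p - 1 ≤ (T.filter fun Q => f Q = f P).card := by
    intro P hP
    rw [← ncard_zmultiples_diff hP, ← Set.ncard_coe_finset]
    exact Set.ncard_le_ncard (hsub P hP) (Finset.finite_toSet _)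
  -- sum over the fibres
  have hsum : ∑ c ∈ S, (T.filter fun Q => f Q = c).card ≤ T.card := by
    rw [← Finset.card_biUnion]
    · exact Finset.card_le_card (Finset.biUnion_subset.mpr fun c _ => Finset.filter_subset _ _)
    · intro c _ d _ hcd
      refine Finset.disjoint_filter.mpr ?_
      rintro P _ h1 h2
      exact hcd (h1.symm.trans h2)
  have hlow' : ∀ c ∈ S, p - 1 ≤ (T.filter fun Q => f Q = c).card := by
    intro c hc
    obtain ⟨P, hP, rfl⟩ := hS' c hc
    exact hlow P hP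
  have hsum2 : ∑ _c ∈ S, (p - 1) = ∑ c ∈ S, (T.filter fun Q => f Q = c).card := by
    refine le_antisymm (Finset.sum_le_sum hlow') ?_
    rw [Finset.sum_const, smul_eq_mul, hS, ← hTcard]
    exact hsum
  have heq := (Finset.sum_eq_sum_iff_of_le hlow').mp hsum2
  have hall : ∀ P, addOrderOf P = p → f P ∈ S := by
    intro P hP
    by_contra hPS
    have h1 : ∑ c ∈ insert (f P) S, (T.filter fun Q => f Q = c).card ≤ T.card := by
      rw [← Finset.card_biUnion]
      · exact Finset.card_le_card (Finset.biUnion_subset.mpr fun c _ => Finset.filter_subset _ _)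
      · intro c _ d _ hcd
        refine Finset.disjoint_filter.mpr ?_
        rintro P _ h1 h2
        exact hcd (h1.symm.trans h2)
    rw [Finset.sum_insert hPS, ← hsum2, Finset.sum_const, smul_eq_mul, hS, hTcard] at h1
    have h2 := hlow P hP
    have h3 := hp.two_le
    omega
  refine ⟨hall, fun P Q hP hQ hPQ => ?_⟩
  have h1 := heq (f P) (hall P hP)
  have h2 : ((AddSubgroup.zmultiples P : Set E.toAffine.Point) \ {0}) =
      (T.filter fun Q => f Q = f P : Finset _) := by
    apply Set.eq_of_subset_of_ncard_le (hsub P hP) _ (Finset.finite_toSet _)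
    rw [ncard_zmultiples_diff hP, Set.ncard_coe_finset, h1]
  have h3 : Q ∈ ((AddSubgroup.zmultiples P : Set E.toAffine.Point) \ {0}) := by
    rw [h2, Finset.mem_coe, Finset.mem_filter, hTmem]
    exact ⟨hQ, hPQ.symm⟩
  exact (zmultiples_eq_of_mem hp hP h3.1 h3.2).2.symm

end

section

variable {K₀ Ω : Type*} [Field K₀] [CharZero K₀] [Field Ω] [IsAlgClosed Ω] [Algebra K₀ Ω]
  [Algebra.IsAlgebraic K₀ Ω] [DecidableEq Ω]
  {E : WeierstrassCurve Ω} (hE : ∀ σ : Ω ≃ₐ[K₀] Ω, E.map (σ : Ω →+* Ω) = E)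
  (hΔ : E.Δ ≠ 0) {p : ℕ} (hp : p.Prime) {tp : Ω}
  (hdeg : (minpoly K₀ tp).natDegree = p + 1) {R : E.toAffine.Point} (hR : addOrderOf R = p)
  (hRj : veluJ E (AddSubgroup.zmultiples R) = tp)

include hE hΔ hp hdeg hR hRj

/-- `veluJ` separates the subgroups of order `p`; all values are conjugate to `tp`. -/
theorem veluJ_injective_and : (∀ P : E.toAffine.Point, addOrderOf P = p →
      ∃ σ : Ω ≃ₐ[K₀] Ω, σ tp = veluJ E (AddSubgroup.zmultiples P)) ∧
    ∀ P Q : E.toAffine.Point, addOrderOf P = p → addOrderOf Q = p →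
      veluJ E (AddSubgroup.zmultiples P) = veluJ E (AddSubgroup.zmultiples Q) →
        AddSubgroup.zmultiples P = AddSubgroup.zmultiples Q := by
  classical
  have : CharZero Ω := charZero_of_injective_algebraMap (algebraMap K₀ Ω).injective
  have : Normal K₀ Ω := normal_iff.mpr fun x =>
    ⟨Algebra.IsIntegral.isIntegral x, IsAlgClosed.splits _⟩
  have hint : IsIntegral K₀ tp := Algebra.IsIntegral.isIntegral tp
  have hconj : ∀ c : Ω, aeval c (minpoly K₀ tp) = 0 → ∃ σ : Ω ≃ₐ[K₀] Ω, σ tp = c := by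
    intro c hc
    have h1 : minpoly K₀ tp = minpoly K₀ c :=
      minpoly.eq_of_irreducible_of_monic (minpoly.irreducible hint) hc (minpoly.monic hint)
    exact (Normal.minpoly_eq_iff_mem_orbit Ω).mp h1.symm
  set S : Finset Ω := ((minpoly K₀ tp).aroots Ω).toFinset with hS
  have hSmem : ∀ c, c ∈ S ↔ aeval c (minpoly K₀ tp) = 0 := by
    intro c
    rw [hS, Multiset.mem_toFinset, mem_aroots]
    exact ⟨fun h => h.2, fun h => ⟨minpoly.ne_zero hint, h⟩⟩
  have hScard : S.card = p + 1 := by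
    rw [hS, Multiset.toFinset_card_of_nodup
      (nodup_aroots_iff_of_splits (minpoly.ne_zero hint) (IsAlgClosed.splits _) |>.mpr
        (minpoly.irreducible hint).separable), ← hdeg]
    rw [aroots_def, ← (IsAlgClosed.splits ((minpoly K₀ tp).map (algebraMap K₀ Ω))).natDegree_eq_card_roots,
      natDegree_map]
  obtain ⟨h1, h2⟩ := fiber_count hΔ hp (fun P => veluJ E (AddSubgroup.zmultiples P))
    (fun P Q hP hQ hQ0 => by
      rw [(zmultiples_eq_of_mem hp hP hQ hQ0).2]) S hScard (by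
    intro c hc
    obtain ⟨σ, rfl⟩ := hconj c ((hSmem c).mp hc)
    refine ⟨mapPt (σ : Ω →+* Ω) (hE σ) R, (addOrderOf_mapPt _ R).trans hR, ?_⟩
    rw [veluJ_mapPt (hE σ) hp.pos hR, hRj]
    rfl)
  exact ⟨fun P hP => hconj _ ((hSmem _).mp (h1 P hP)), h2⟩

/-- transitivity -/
theorem exists_mapPt_mem (P : E.toAffine.Point) (hP : addOrderOf P = p) :
    ∃ σ : Ω ≃ₐ[K₀] Ω, AddSubgroup.zmultiples (mapPt (σ : Ω →+* Ω) (hE σ) R) =
      AddSubgroup.zmultiples P := by
  obtain ⟨h1, h2⟩ := veluJ_injective_and hE hΔ hp hdeg hR hRj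
  obtain ⟨σ, hσ⟩ := h1 P hP
  refine ⟨σ, h2 _ _ ((addOrderOf_mapPt _ R).trans hR) hP ?_⟩
  rw [veluJ_mapPt (hE σ) hp.pos hR, hRj]
  exact hσ

end

end Fermat.Agent.H05
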