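import Mathlib

set_option autoImplicit false

/-! # Valuation rings with the same trace on the base field are conjugate -/

namespace Fermat.Agent.H05

open Polynomial

section

variable {K₀ Ω : Type*} [Field K₀] [Field Ω] [Algebra K₀ Ω]

/-- `V` lies over `B₀` -/
def LiesOverVal (B₀ : ValuationSubring K₀) (V : ValuationSubring Ω) : Prop :=
  ∀ x : K₀, x ∈ B₀ ↔ algebraMap K₀ Ω x ∈ V

variable {B₀ : ValuationSubring K₀} {V V' : ValuationSubring Ω}

local notation "BB" => integralClosure B₀ Ω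

lemma intClosure_mem (hV : LiesOverVal B₀ V) (b : BB) : (b : Ω) ∈ V := by
  obtain ⟨p, hp, hr⟩ := b.2
  let φ : B₀ →+* V :=
    { toFun := fun x => ⟨algebraMap K₀ Ω x, (hV x).mp x.2⟩
      map_one' := Subtype.ext (map_one _)
      map_mul' := fun x y => Subtype.ext (map_mul _ _ _)
      map_zero' := Subtype.ext (map_zero _)
      map_add' := fun x y => Subtype.ext (map_add _ _ _) }
  have hint : IsIntegral V (b : Ω) := by
    refine ⟨p.map φ, hp.map φ, ?_⟩
    rw [eval₂_map]
    exact hr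
  obtain ⟨y, hy⟩ := (IsIntegrallyClosed.isIntegral_iff (R := V) (K := Ω)).mp hint
  rw [← hy]
  exact y.2

/-- the inclusion of the integral closure -/
noncomputable def toV (hV : LiesOverVal B₀ V) : BB →+* V where
  toFun b := ⟨(b : Ω), intClosure_mem hV b⟩
  map_one' := rfl
  map_mul' _ _ := rfl
  map_zero' := rfl
  map_add' _ _ := rfl

/-- the prime of the integral closure below `V` -/
noncomputable def primeOf (hV : LiesOverVal B₀ V) : Ideal BB :=
  (IsLocalRing.maximalIdeal V).comap (toV hV)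

instance (hV : LiesOverVal B₀ V) : (primeOf hV).IsPrime := Ideal.comap_isPrime _ _

lemma mem_primeOf (hV : LiesOverVal B₀ V) {b : BB} :
    b ∈ primeOf hV ↔ (b : Ω) ∈ V.nonunits := by
  rw [primeOf, Ideal.mem_comap, ValuationSubring.mem_nonunits_iff_exists_mem_maximalIdeal]
  exact ⟨fun h => ⟨intClosure_mem hV b, h⟩, fun ⟨_, h⟩ => h⟩

lemma exists_mul_mem_aux (hV : LiesOverVal B₀ V) (x : Ω) (hx : x ∈ V) :
    ∀ (n : ℕ) (f : Polynomial BB), f.natDegree ≤ n → aeval x f = 0 →
      (∃ i, f.coeff i ∉ primeOf hV) →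
      ∃ s : BB, s ∉ primeOf hV ∧ IsIntegral B₀ ((s : Ω) * x) := by
  intro n
  induction n with
  | zero =>
    intro f hf hroot ⟨i, hi⟩
    rw [Nat.le_zero, natDegree_eq_zero] at hf
    obtain ⟨a, rfl⟩ := hf
    rw [aeval_C] at hroot
    have ha : a = 0 := Subtype.ext hroot
    subst ha
    simp at hi
  | succ n ih =>
    intro f hf hroot hi
    set a : BB := f.coeff (n + 1) with ha
    have hint : IsIntegral B₀ ((a : Ω) * x) := by
      by_cases h0 : a = 0
      · rw [h0]
        simpa using isIntegral_zero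
      · have hdeg : f.natDegree = n + 1 := le_antisymm hf (le_natDegree_of_ne_zero h0)
        have h1 : IsIntegral BB (f.leadingCoeff • x) := isIntegral_leadingCoeff_smul f x hroot
        have h2 : IsIntegral B₀ (f.leadingCoeff • x) := isIntegral_trans (R := B₀) _ h1
        rw [leadingCoeff, hdeg] at h2
        exact h2
    by_cases haQ : a ∈ primeOf hV
    · set c : BB := ⟨(a : Ω) * x, hint⟩ with hc
      set g : Polynomial BB := f - C a * X ^ (n + 1) + C c * X ^ n with hg
      refine ih g ?_ ?_ ?_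
      · rw [natDegree_le_iff_coeff_eq_zero]
        intro m hm
        rw [hg, coeff_add, coeff_sub, coeff_C_mul, coeff_C_mul, coeff_X_pow, coeff_X_pow]
        rcases Nat.lt_or_ge (n + 1) m with h | h
        · rw [coeff_eq_zero_of_natDegree_lt (lt_of_le_of_lt hf h), if_neg (by omega),
            if_neg (by omega)]
          simp
        · have : m = n + 1 := by omega
          subst this
          rw [if_pos rfl, if_neg (by omega)]
          simp [ha]
      · have h3 : aeval x g = aeval x f - aeval x (C a * X ^ (n + 1)) + aeval x (C c * X ^ n) := by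
          rw [hg, map_add, Polynomial.aeval_sub]
        rw [h3, hroot]
        simp only [map_mul, aeval_C, map_pow, aeval_X]
        have : algebraMap BB Ω c = algebraMap BB Ω a * x := rfl
        rw [this]
        ring
      · have hcQ : c ∈ primeOf hV := by
          rw [mem_primeOf] at haQ ⊢
          rw [hc]
          rw [ValuationSubring.mem_nonunits_iff] at haQ ⊢
          show V.valuation ((a : Ω) * x) < 1
          rw [map_mul]
          exact mul_lt_one_of_lt_of_le haQ ((V.valuation_le_one_iff x).mpr hx)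
        by_contra hcon
        push Not at hcon
        obtain ⟨i, hi⟩ := hi
        apply hi
        have hfg : f = g + C a * X ^ (n + 1) - C c * X ^ n := by rw [hg]; ring
        rw [hfg, coeff_sub, coeff_add, coeff_C_mul, coeff_C_mul]
        exact Ideal.sub_mem _ (Ideal.add_mem _ (hcon i) (Ideal.mul_mem_right _ _ haQ))
          (Ideal.mul_mem_right _ _ hcQ)
    · exact ⟨a, haQ, hint⟩

/-- scaling a polynomial over a valued field to be primitive -/
lemma exists_primitive (B₀ : ValuationSubring K₀) {f : K₀[X]} (hf : f ≠ 0) :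
    ∃ (g : B₀[X]) (c : K₀), c ≠ 0 ∧ g.map B₀.subtype = C c * f ∧ ∃ i, g.coeff i = 1 := by
  obtain ⟨i, hi, hmax⟩ := Finset.exists_max_image f.support
    (fun j => B₀.valuation (f.coeff j)) (nonempty_support_iff.mpr hf)
  have hi0 : f.coeff i ≠ 0 := mem_support_iff.mp hi
  have hmem : ∀ j, (f.coeff i)⁻¹ * f.coeff j ∈ B₀ := by
    intro j
    rw [← B₀.valuation_le_one_iff, map_mul, map_inv₀]
    by_cases hj : f.coeff j = 0
    · rw [hj, map_zero, mul_zero]; exact zero_le
    · have h1 := hmax j (mem_support_iff.mpr hj)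
      have h2 : B₀.valuation (f.coeff i) ≠ 0 := (Valuation.ne_zero_iff _).mpr hi0
      calc (B₀.valuation (f.coeff i))⁻¹ * B₀.valuation (f.coeff j)
          ≤ (B₀.valuation (f.coeff i))⁻¹ * B₀.valuation (f.coeff i) := by gcongr
        _ = 1 := inv_mul_cancel₀ h2
  refine ⟨∑ j ∈ f.support, C (⟨_, hmem j⟩ : B₀) * X ^ j, (f.coeff i)⁻¹, inv_ne_zero hi0, ?_,
    i, ?_⟩
  · rw [Polynomial.map_sum]
    simp only [Polynomial.map_mul, Polynomial.map_pow, map_X, map_C]
    have h4 : C (f.coeff i)⁻¹ * f = ∑ j ∈ f.support, C (f.coeff i)⁻¹ * (C (f.coeff j) * X ^ j) := by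
      rw [← Finset.mul_sum]
      exact congrArg _ f.as_sum_support_C_mul_X_pow
    rw [h4]
    refine Finset.sum_congr rfl fun j _ => ?_
    rw [ValuationSubring.subtype_apply, C_mul, mul_assoc]
  · simp only [finsetSum_coeff, coeff_C_mul, coeff_X_pow, mul_ite, mul_one, mul_zero]
    rw [Finset.sum_ite_eq, if_pos hi]
    exact Subtype.ext (inv_mul_cancel₀ hi0)

/-- `V` is the localisation of the integral closure at `primeOf`. -/
theorem exists_mul_eq' [Algebra.IsAlgebraic K₀ Ω] (hV : LiesOverVal B₀ V) {x : Ω} (hx : x ∈ V) :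
    ∃ s b : BB, s ∉ primeOf hV ∧ (s : Ω) * x = b := by
  obtain ⟨f, hf0, hf⟩ : ∃ f : Polynomial K₀, f ≠ 0 ∧ aeval x f = 0 :=
    Algebra.IsAlgebraic.isAlgebraic x
  obtain ⟨g, c, hc, hg, i, hi⟩ := exists_primitive B₀ hf0
  have hroot : aeval x (g.map (algebraMap B₀ BB)) = 0 := by
    rw [aeval_map_algebraMap]
    have h1 : aeval x g = aeval x (g.map B₀.subtype) := by
      rw [aeval_def, aeval_def, eval₂_map]
      rfl
    rw [h1, hg, map_mul, hf, mul_zero]
  obtain ⟨s, hs, hsx⟩ := exists_mul_mem_aux hV x hx _ (g.map (algebraMap B₀ BB)) le_rfl hroot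
    ⟨i, by
      rw [coeff_map, hi, map_one]
      exact (Ideal.ne_top_iff_one _).mp (inferInstance : (primeOf hV).IsPrime).ne_top⟩
  exact ⟨s, ⟨_, hsx⟩, hs, rfl⟩

theorem mem_iff_exists' [Algebra.IsAlgebraic K₀ Ω] (hV : LiesOverVal B₀ V) {x : Ω} :
    x ∈ V ↔ ∃ s b : BB, s ∉ primeOf hV ∧ (s : Ω) * x = b := by
  refine ⟨exists_mul_eq' hV, ?_⟩
  rintro ⟨s, b, hs, hsb⟩
  rw [mem_primeOf, ValuationSubring.mem_nonunits_iff, not_lt] at hs
  have hs1 : V.valuation (s : Ω) = 1 :=
    le_antisymm ((V.valuation_le_one_iff _).mpr (intClosure_mem hV s)) hs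
  rw [← V.valuation_le_one_iff]
  have h := congrArg V.valuation hsb
  rw [map_mul, hs1, one_mul] at h
  rw [h, V.valuation_le_one_iff]
  exact intClosure_mem hV b

lemma mem_nonunits_iff_inv {K : Type*} [Field K] {A : ValuationSubring K} {x : K} :
    x ∈ A.nonunits ↔ x = 0 ∨ x⁻¹ ∉ A := by
  rcases eq_or_ne x 0 with rfl | hx
  · exact ⟨fun _ => Or.inl rfl, fun _ => zero_mem _⟩
  · rw [or_iff_right hx, ValuationSubring.mem_nonunits_iff, ← A.valuation_le_one_iff, map_inv₀,
      not_le, one_lt_inv₀ ((Valuation.pos_iff _).mpr hx)]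

lemma under_primeOf (hV : LiesOverVal B₀ V) : (primeOf hV).under B₀ =
    IsLocalRing.maximalIdeal B₀ := by
  ext x
  rw [Ideal.under_def, Ideal.mem_comap, mem_primeOf, ← B₀.coe_mem_nonunits_iff]
  have e : ((algebraMap B₀ BB x : BB) : Ω) = algebraMap K₀ Ω (x : K₀) := rfl
  rw [e, mem_nonunits_iff_inv, mem_nonunits_iff_inv, ← map_inv₀, ← hV, map_eq_zero]

end

section Galois

variable {K₀ Ω : Type*} [Field K₀] [Field Ω] [Algebra K₀ Ω] [IsGalois K₀ Ω]
variable {B₀ : ValuationSubring K₀} {V V' : ValuationSubring Ω}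

local notation "BB" => integralClosure B₀ Ω

/-- the Galois action on the integral closure -/
noncomputable local instance actBB : MulSemiringAction (Ω ≃ₐ[K₀] Ω) BB where
  smul σ b := ⟨σ b, by
    have h : IsIntegral B₀ (b : Ω) := b.2
    exact h.map ((σ : Ω →ₐ[K₀] Ω).restrictScalars B₀)⟩
  one_smul b := rfl
  mul_smul σ τ b := rfl
  smul_zero σ := Subtype.ext (map_zero σ)
  smul_add σ a b := Subtype.ext (map_add σ _ _)
  smul_one σ := Subtype.ext (map_one σ)
  smul_mul σ a b := Subtype.ext (map_mul σ _ _)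

omit [IsGalois K₀ Ω] in
lemma coe_smul_BB (σ : Ω ≃ₐ[K₀] Ω) (b : BB) : ((σ • b : BB) : Ω) = σ (b : Ω) := rfl

local instance : SMulCommClass (Ω ≃ₐ[K₀] Ω) B₀ BB where
  smul_comm σ a b := Subtype.ext (by
    rw [coe_smul_BB, Subalgebra.coe_smul, Subalgebra.coe_smul, coe_smul_BB, Algebra.smul_def,
      Algebra.smul_def, map_mul]
    congr 1
    exact σ.commutes (a : K₀))

local instance topBB : TopologicalSpace BB := ⊥
local instance discBB : DiscreteTopology BB := ⟨rfl⟩

local instance contBB : ContinuousSMul (Ω ≃ₐ[K₀] Ω) BB := by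
  rw [continuousSMul_iff_stabilizer_isOpen]
  intro b
  have h := stabilizer_isOpen_of_isIntegral (K := K₀) (b : Ω)
  have heq : (MulAction.stabilizer (Ω ≃ₐ[K₀] Ω) b : Set (Ω ≃ₐ[K₀] Ω)) =
      (MulAction.stabilizer (Ω ≃ₐ[K₀] Ω) (b : Ω) : Set (Ω ≃ₐ[K₀] Ω)) := by
    ext σ
    simp only [SetLike.mem_coe, MulAction.mem_stabilizer_iff]
    exact ⟨fun h => congrArg Subtype.val h, fun h => Subtype.ext h⟩
  rw [heq]
  exact h

local instance invBB : Algebra.IsInvariant B₀ BB (Ω ≃ₐ[K₀] Ω) := by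
  constructor
  intro b hb
  have hfix : ∀ σ : Ω ≃ₐ[K₀] Ω, σ (b : Ω) = b := fun σ => congrArg Subtype.val (hb σ)
  have hmem : (b : Ω) ∈ (⊥ : IntermediateField K₀ Ω) :=
    (InfiniteGalois.mem_bot_iff_fixed (b : Ω)).mpr hfix
  rw [IntermediateField.mem_bot] at hmem
  obtain ⟨r, hr⟩ := hmem
  have hint : IsIntegral B₀ r := by
    have h1 : IsIntegral B₀ (algebraMap K₀ Ω r) := by rw [hr]; exact b.2
    exact (isIntegral_algebraMap_iff (algebraMap K₀ Ω).injective).mp h1
  obtain ⟨m, hm⟩ := (IsIntegrallyClosed.isIntegral_iff (R := B₀) (K := K₀)).mp hint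
  refine ⟨m, Subtype.ext ?_⟩
  rw [← hr, ← hm]
  rfl

/-- **Conjugacy**: two valuation rings of `Ω` with the same trace on `K₀` are conjugate. -/
theorem exists_conj (hV : LiesOverVal B₀ V) (hV' : LiesOverVal B₀ V') :
    ∃ σ : Ω ≃ₐ[K₀] Ω, ∀ x : Ω, x ∈ V ↔ σ x ∈ V' := by
  obtain ⟨σ, hσ⟩ := Algebra.IsInvariant.exists_smul_of_under_eq_of_profinite (A := B₀) (B := BB)
    (G := Ω ≃ₐ[K₀] Ω) (primeOf hV) (primeOf hV') (by rw [under_primeOf, under_primeOf])
  have key : ∀ b : BB, b ∈ primeOf hV ↔ σ • b ∈ primeOf hV' := by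
    intro b
    rw [hσ, Ideal.mem_pointwise_smul_iff_inv_smul_mem, inv_smul_smul]
  refine ⟨σ, fun x => ?_⟩
  rw [mem_iff_exists' hV, mem_iff_exists' hV']
  constructor
  · rintro ⟨s, b, hs, hsb⟩
    refine ⟨σ • s, σ • b, by rwa [← key], ?_⟩
    rw [coe_smul_BB, coe_smul_BB, ← map_mul, hsb]
  · rintro ⟨s, b, hs, hsb⟩
    refine ⟨σ⁻¹ • s, σ⁻¹ • b, by rwa [key, smul_inv_smul], ?_⟩
    rw [coe_smul_BB, coe_smul_BB]
    have := congrArg (σ.symm) hsb
    rw [map_mul, σ.symm_apply_apply] at this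
    exact this

end Galois

end Fermat.Agent.H05
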