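import Mathlib
import Fermat.Agent.H05_Trans
import Fermat.Agent.H05_CongRed
import Fermat.Agent.H05_ValConj
import Fermat.Agent.H94Embed

set_option autoImplicit false

/-! # From `(W, Q)` to a place of the modular function field -/

namespace Fermat.Agent.H05

open WeierstrassCurve WeierstrassCurve.Affine Polynomial

/-! ### The family `SF g t` -/

section SF

variable {L M : Type*} [Field L] [Field M]

/-- the short Weierstrass family with `c₄ = t(t-1728)g²`, `c₆ = t(t-1728)²g³`, `j = t` -/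
def SF (g t : L) : WeierstrassCurve L :=
  ⟨0, 0, 0, -(t * (t - 1728) * g ^ 2 / 48), -(t * (t - 1728) ^ 2 * g ^ 3 / 864)⟩

lemma SF_map (σ : L →+* M) (g t : L) : (SF g t).map σ = SF (σ g) (σ t) := by
  ext <;> simp [SF, map_ofNat]

lemma SF_c₄ [CharZero L] (g t : L) : (SF g t).c₄ = t * (t - 1728) * g ^ 2 := by
  simp only [SF, c₄, b₂, b₄]
  field_simp
  ring

lemma SF_c₆ [CharZero L] (g t : L) : (SF g t).c₆ = t * (t - 1728) ^ 2 * g ^ 3 := by
  simp only [SF, c₆, b₂, b₄, b₆]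
  field_simp
  ring

lemma SF_Δ [CharZero L] (g t : L) : (SF g t).Δ = t ^ 2 * (t - 1728) ^ 3 * g ^ 6 := by
  have h := (SF g t).c_relation
  rw [SF_c₄, SF_c₆] at h
  have h1 : (1728 : L) ≠ 0 := by norm_num
  apply mul_left_cancel₀ h1
  rw [h]
  ring

lemma SF_Δ_ne_zero [CharZero L] {g t : L} (hg : g ≠ 0) (h0 : t ≠ 0) (h1 : t ≠ 1728) :
    (SF g t).Δ ≠ 0 := by
  rw [SF_Δ]
  exact mul_ne_zero (mul_ne_zero (pow_ne_zero _ h0) (pow_ne_zero _ (sub_ne_zero.mpr h1)))
    (pow_ne_zero _ hg)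

end SF

section

variable {k Ω : Type*} [Field k] [Field Ω] {V : ValuationSubring Ω} {ι : k →+* Ω}

lemma coeffCong_SF (h : ∀ c, ι c ∈ V) {g a : k} {t : Ω} (ht : CE V ι t a) (h48 : (48 : k) ≠ 0)
    (h864 : (864 : k) ≠ 0) : CoeffCong V ι (SF (ι g) t) (SF g a) := by
  have hg : CE V ι (ι g) g := CE.const g
  have h1728 : CE V ι (t - 1728) (a - 1728) := ht.sub (CE.ofNat' 1728)
  have hz : CE V ι (0 : Ω) (0 : k) := by
    have := CE.const (V := V) (ι := ι) (0 : k)
    rwa [map_zero] at this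
  exact
    { mem := h
      a₁ := hz
      a₂ := hz
      a₃ := hz
      a₄ := CE.neg (CE.div h (CE.mul h (CE.mul h ht h1728) (CE.pow h hg 2)) (CE.ofNat' 48) h48)
      a₆ := CE.neg (CE.div h (CE.mul h (CE.mul h ht (CE.pow h h1728 2)) (CE.pow h hg 3))
        (CE.ofNat' 864) h864) }

lemma nonunits_iff_of_mem_iff {V' : ValuationSubring Ω} {τ : Ω →+* Ω}
    (hV : ∀ x, x ∈ V ↔ τ x ∈ V') (x : Ω) : x ∈ V.nonunits ↔ τ x ∈ V'.nonunits := by
  rw [mem_nonunits_iff_inv, mem_nonunits_iff_inv, ← map_inv₀, ← hV, map_eq_zero]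

/-- transport of `Cong` by semilinear automorphisms -/
lemma cong_map_iff [DecidableEq k] [DecidableEq Ω] {V' : ValuationSubring Ω} {τ : Ω →+* Ω}
    {τ₀ : k →+* k} (hι : ∀ c, τ (ι c) = ι (τ₀ c)) (hV : ∀ x, x ∈ V ↔ τ x ∈ V')
    {W W' : WeierstrassCurve Ω} {W₀ W₀' : WeierstrassCurve k} (hW : W.map τ = W')
    (hW₀ : W₀.map τ₀ = W₀') {P : W.toAffine.Point} {P₀ : W₀.toAffine.Point} :
    Cong V ι P P₀ ↔ Cong V' ι (mapPt τ hW P) (mapPt τ₀ hW₀ P₀) := by
  have hn := nonunits_iff_of_mem_iff hV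
  have e1 : mapPt τ hW .zero = 0 := map_zero _
  have e2 : mapPt τ₀ hW₀ .zero = 0 := map_zero _
  rcases P with _ | ⟨x, y, hP⟩ <;> rcases P₀ with _ | ⟨x₀, y₀, hP₀⟩
  · rw [e1, e2]
    exact Iff.rfl
  · rw [e1, mapPt_some]
    exact Iff.rfl
  · rw [e2, mapPt_some]
    exact not_congr (hV x)
  · rw [mapPt_some, mapPt_some]
    refine and_congr ?_ ?_
    · rw [← hι, ← map_sub]; exact hn _
    · rw [← hι, ← map_sub]; exact hn _

lemma mapPt_id [DecidableEq Ω] {W : WeierstrassCurve Ω} (h : W.map (RingHom.id Ω) = W)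
    (P : W.toAffine.Point) : mapPt (RingHom.id Ω) h P = P := by
  rcases P with _ | ⟨x, y, hP⟩
  · exact map_zero _
  · rw [mapPt_some]; rfl

end

/-! ### Valuation rings centred at `t = a` -/

section Centre

variable {K Ω : Type*} [Field K] [Field Ω] [Algebra K Ω]

/-- existence of a valuation ring containing `K` with `t ≡ a` -/
lemma exists_val {t : Ω} (ht : Transcendental K t) (a : K) : ∃ V : ValuationSubring Ω,
    (∀ c : K, algebraMap K Ω c ∈ V) ∧ CE V (algebraMap K Ω) t a := by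
  let A : Subring Ω := (aeval (R := K) t).range.toSubring
  have hmem : ∀ f : K[X], aeval t f ∈ A := fun f => ⟨f, rfl⟩
  let I : Ideal A := Ideal.span {⟨aeval t (X - C a), hmem _⟩}
  have hI : I ≠ ⊤ := by
    rw [Ideal.ne_top_iff_one]
    intro h1
    rw [Ideal.mem_span_singleton'] at h1
    obtain ⟨⟨_, f, rfl⟩, hf⟩ := h1
    have hf' : aeval t (f * (X - C a)) = aeval t (1 : K[X]) := by
      have := congrArg Subtype.val hf
      rw [map_mul, map_one]
      exact this
    have h2 := transcendental_iff_injective.mp ht hf'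
    have h3 := congrArg (eval a) h2
    simp at h3
  obtain ⟨V, hAV, hIV⟩ := Ideal.image_subset_nonunits_valuationSubring I hI
  refine ⟨V, fun c => hAV ?_, ?_⟩
  · have := hmem (C c)
    rwa [aeval_C] at this
  · apply hIV
    refine ⟨⟨aeval t (X - C a), hmem _⟩, Ideal.subset_span rfl, ?_⟩
    show aeval t (X - C a) = _
    rw [map_sub, aeval_X, aeval_C]

variable {V V' : ValuationSubring Ω} (hV : ∀ c : K, algebraMap K Ω c ∈ V) {t : Ω} {a : K}
  (ht : CE V (algebraMap K Ω) t a)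

include hV ht

lemma ce_aeval (f : K[X]) : CE V (algebraMap K Ω) (aeval t f) (f.eval a) := by
  induction f using Polynomial.induction_on' with
  | add p q hp hq => rw [map_add, eval_add]; exact hp.add hq
  | monomial n c =>
    rw [aeval_monomial, eval_monomial]
    exact CE.mul hV (CE.const c) (CE.pow hV ht n)

lemma aeval_notMem {f : K[X]} (hf : f.eval a ≠ 0) : aeval t f ∉ V.nonunits := by
  intro h
  have h1 := sub_mem h (ce_aeval hV ht f)
  rw [sub_sub_cancel] at h1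
  have h2 : algebraMap K Ω (f.eval a)⁻¹ * algebraMap K Ω (f.eval a) ∈ V.nonunits :=
    mul_mem_nonunits (hV _) h1
  rw [← map_mul, inv_mul_cancel₀ hf, map_one, ValuationSubring.mem_nonunits_iff, map_one] at h2
  exact lt_irrefl _ h2

lemma aeval_mem (f : K[X]) : aeval t f ∈ V := CE.mem hV (ce_aeval hV ht f)

/-- description of `V ∩ K(t)` -/
lemma mem_iff_of_coprime {f g : K[X]} (hfg : IsCoprime f g) (hg : aeval t g ≠ 0) :
    aeval t f / aeval t g ∈ V ↔ g.eval a ≠ 0 := by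
  constructor
  · intro h h0
    have hf : f.eval a ≠ 0 := by
      intro hf
      obtain ⟨u, v, huv⟩ := hfg
      have := congrArg (eval a) huv
      rw [eval_add, eval_mul, eval_mul, hf, h0] at this
      simp at this
    apply aeval_notMem hV ht hf
    have h1 : aeval t g ∈ V.nonunits := by
      have := ce_aeval hV ht g
      rwa [CE, h0, map_zero, sub_zero] at this
    have h2 := mul_mem_nonunits h h1
    rwa [div_mul_cancel₀ _ hg] at h2
  · intro h
    have h1 := aeval_notMem hV ht h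
    rw [mem_nonunits_iff_inv, not_or, not_not] at h1
    rw [div_eq_mul_inv]
    exact V.mul_mem _ _ (aeval_mem hV ht f) h1.2

lemma mem_iff_of_quot (hV' : ∀ c : K, algebraMap K Ω c ∈ V')
    (ht' : CE V' (algebraMap K Ω) t a) {f g : K[X]} (hg : aeval t g ≠ 0) :
    aeval t f / aeval t g ∈ V ↔ aeval t f / aeval t g ∈ V' := by
  classical
  have hg0 : g ≠ 0 := by rintro rfl; simp at hg
  let := EuclideanDomain.gcdMonoid K[X]
  set d := GCDMonoid.gcd f g with hd
  have hd0 : d ≠ 0 := fun h => hg0 ((gcd_eq_zero_iff f g).mp h).2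
  have hf' : d * (f / d) = f := EuclideanDomain.mul_div_cancel' hd0 (gcd_dvd_left f g)
  have hg' : d * (g / d) = g := EuclideanDomain.mul_div_cancel' hd0 (gcd_dvd_right f g)
  have hcop : IsCoprime (f / d) (g / d) := isCoprime_div_gcd_div_gcd hg0
  have hgd : aeval t (g / d) ≠ 0 ∧ aeval t d ≠ 0 := by
    rw [← hg', map_mul] at hg
    exact ⟨right_ne_zero_of_mul hg, left_ne_zero_of_mul hg⟩
  have heq : aeval t f / aeval t g = aeval t (f / d) / aeval t (g / d) := by
    conv_lhs => rw [← hf', ← hg', map_mul, map_mul]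
    exact mul_div_mul_left _ _ hgd.2
  rw [heq, mem_iff_of_coprime hV ht hcop hgd.1, mem_iff_of_coprime hV' ht' hcop hgd.1]

end Centre

/-! ### The main theorem -/

section Main

open IntermediateField AlgebraicCurve

variable (K : Type*) {F : Type*} (Ω : Type*) [Field K] [Field F] [Algebra K F]
  [Field Ω] [Algebra K Ω] [Algebra F Ω] [DecidableEq Ω]

/-- the generic input: `(t, tp, u) = (j(τ), j(pτ), Δ(τ)/Δ(pτ))` in the function field -/
structure GenInput (p : ℕ) (t tp u : F) : Prop where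
  trans : Transcendental K t
  gen : IntermediateField.adjoin K⟮t⟯ {tp} = ⊤
  deg : (minpoly K⟮t⟯ tp).natDegree = p + 1
  point : ∀ g : K, g ≠ 0 → ∃ R : (SF (algebraMap K Ω g) (algebraMap F Ω t)).toAffine.Point,
    addOrderOf R = p ∧ veluJ _ (AddSubgroup.zmultiples R) = algebraMap F Ω tp ∧
      (p : Ω) ^ 12 * veluQ _ (AddSubgroup.zmultiples R) = algebraMap F Ω u

variable {K Ω} [CharZero K] [IsAlgClosed K] [H94.FunField K F] [IsScalarTower K F Ω]
  [IsAlgClosure F Ω] [DecidableEq K]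

omit [CharZero K] [IsAlgClosed K] [H94.FunField K F] [IsAlgClosure F Ω] [DecidableEq Ω]
  [DecidableEq K] in
lemma LiesOver_of_centre {t : F} {a : K} {V V' : ValuationSubring Ω}
    (hV : ∀ c : K, algebraMap K Ω c ∈ V) (ht : CE V (algebraMap K Ω) (algebraMap F Ω t) a)
    (hV' : ∀ c : K, algebraMap K Ω c ∈ V') (ht' : CE V' (algebraMap K Ω) (algebraMap F Ω t) a) :
    LiesOverVal (V.comap (algebraMap K⟮t⟯ Ω)) V' := by
  intro x
  rw [ValuationSubring.mem_comap]
  obtain ⟨f, g, hx⟩ := (mem_adjoin_simple_iff K (x : F)).mp x.2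
  have hx' : algebraMap K⟮t⟯ Ω x = aeval (algebraMap F Ω t) f / aeval (algebraMap F Ω t) g := by
    rw [IsScalarTower.algebraMap_apply K⟮t⟯ F Ω]
    show algebraMap F Ω (x : F) = _
    rw [hx, map_div₀, aeval_algebraMap_apply, aeval_algebraMap_apply]
  rw [hx']
  by_cases hg : aeval (algebraMap F Ω t) g = 0
  · rw [hg, div_zero]
    exact ⟨fun _ => zero_mem _, fun _ => zero_mem _⟩
  · exact mem_iff_of_quot hV ht hV' ht' hg

theorem exists_place_moduli {p : ℕ} (hp : p.Prime) {t tp u : F} (h : GenInput K Ω p t tp u)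
    {g a : K} (hg : g ≠ 0) (ha0 : a ≠ 0) (ha1 : a ≠ 1728) {Q : (SF g a).toAffine.Point}
    (hQ : addOrderOf Q = p) :
    ∃ v : Place K F, t - algebraMap K F a ∈ v.toValuationSubring.nonunits ∧
      u - algebraMap K F ((p : K) ^ 12 * veluQ _ (AddSubgroup.zmultiples Q)) ∈
        v.toValuationSubring.nonunits ∧
      ∀ (s : F ≃+* F) (s₀ : K ≃+* K),
        (∀ c, s (algebraMap K F c) = algebraMap K F (s₀ c)) → s t = t → s tp = tp → s₀ a = a →
        s₀ g = g → (∀ h' : (SF g a).map (s₀ : K →+* K) = SF g a, mapPt (s₀ : K →+* K) h' Q = Q) →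
        ∀ x, x ∈ v.toValuationSubring ↔ s x ∈ v.toValuationSubring := by
  classical
  have hΩ : IsAlgClosed Ω := IsAlgClosure.isAlgClosed F
  have hΩ2 : Algebra.IsAlgebraic F Ω := IsAlgClosure.isAlgebraic
  have hF0 : CharZero F := charZero_of_injective_algebraMap (algebraMap K F).injective
  have hΩ0 : CharZero Ω := charZero_of_injective_algebraMap (algebraMap K Ω).injective
  have hfd : FiniteDimensional K⟮t⟯ F := H94.FunField.finiteDimensional h.trans
  have halg : Algebra.IsAlgebraic K⟮t⟯ Ω := Algebra.IsAlgebraic.trans K⟮t⟯ F Ω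
  have hnorm : Normal K⟮t⟯ Ω := normal_iff.mpr fun x =>
    ⟨Algebra.IsIntegral.isIntegral x, IsAlgClosed.splits _⟩
  have hgal : IsGalois K⟮t⟯ Ω := { }
  set T : Ω := algebraMap F Ω t with hT
  set ι : K →+* Ω := algebraMap K Ω with hι
  have htrans : Transcendental K T := by
    rw [hT]
    exact (transcendental_algebraMap_iff (algebraMap F Ω).injective).mpr h.trans
  set E : WeierstrassCurve Ω := SF (ι g) T with hE
  obtain ⟨R, hR, hRj, hRu⟩ : ∃ R : E.toAffine.Point,
    addOrderOf R = p ∧ veluJ E (AddSubgroup.zmultiples R) = algebraMap F Ω tp ∧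
      (p : Ω) ^ 12 * veluQ E (AddSubgroup.zmultiples R) = algebraMap F Ω u := h.point g hg
  have hΔa : (SF g a).Δ ≠ 0 := SF_Δ_ne_zero hg ha0 ha1
  have hT0 : T ≠ 0 := by
    intro h0; rw [h0] at htrans; exact htrans (isAlgebraic_zero)
  have hT1 : T ≠ 1728 := by
    intro h0
    rw [h0] at htrans
    have : (1728 : Ω) = algebraMap K Ω 1728 := by rw [map_ofNat]
    rw [this] at htrans
    exact htrans (isAlgebraic_algebraMap _)
  have hΔE : E.Δ ≠ 0 := SF_Δ_ne_zero ((_root_.map_ne_zero ι).mpr hg) hT0 hT1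
  have hEσ : ∀ σ : Ω ≃ₐ[K⟮t⟯] Ω, E.map (σ : Ω →+* Ω) = E := by
    intro σ
    rw [hE, SF_map]
    congr 1
    · have : ι g = algebraMap K⟮t⟯ Ω (algebraMap K K⟮t⟯ g) :=
        IsScalarTower.algebraMap_apply K K⟮t⟯ Ω g
      rw [this]
      exact σ.commutes _
    · have : T = algebraMap K⟮t⟯ Ω (AdjoinSimple.gen K t) := by
        rw [IsScalarTower.algebraMap_apply K⟮t⟯ F Ω]; rfl
      rw [this]
      exact σ.commutes _
  have hdeg : (minpoly K⟮t⟯ (algebraMap F Ω tp)).natDegree = p + 1 := by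
    rw [minpoly.algebraMap_eq (algebraMap F Ω).injective, h.deg]
  have hstep1 := veluJ_injective_and hEσ hΔE hp hdeg hR hRj
  -- a valuation ring centred at `t = a`, and a lift of `Q`
  obtain ⟨V, hV, hVt⟩ := exists_val htrans a
  have hcc : CoeffCong V ι E (SF g a) := coeffCong_SF hV hVt (by norm_num) (by norm_num)
  have hQp : p • Q = 0 := by rw [← hQ, addOrderOf_nsmul_eq_zero]
  obtain ⟨R', hR'p, hR'⟩ := hcc.exists_lift hΔa hp.ne_zero hQp
  have hR'0 : R' ≠ 0 := by
    rintro rfl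
    rcases Q with _ | ⟨x, y, hxy⟩
    · rw [show (Point.zero : (SF g a).toAffine.Point) = 0 from rfl, addOrderOf_zero] at hQ
      exact hp.one_lt.ne hQ
    · exact hR'.elim
  have hR'o : addOrderOf R' = p := by
    have := Fact.mk hp
    exact addOrderOf_eq_prime hR'p hR'0
  obtain ⟨σ, hσ⟩ := exists_mapPt_mem hEσ hΔE hp hdeg hR hRj R' hR'o
  -- elements fixed by automorphisms over `K(t)`
  have hfixι : ∀ (σ : Ω ≃ₐ[K⟮t⟯] Ω) (c : K), σ (ι c) = ι c := fun σ c => by
    have : ι c = algebraMap K⟮t⟯ Ω (algebraMap K K⟮t⟯ c) :=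
      IsScalarTower.algebraMap_apply K K⟮t⟯ Ω c
    rw [this]
    exact σ.commutes _
  have hfixT : ∀ (σ : Ω ≃ₐ[K⟮t⟯] Ω), σ T = T := fun σ => by
    have : T = algebraMap K⟮t⟯ Ω (AdjoinSimple.gen K t) := by
      rw [IsScalarTower.algebraMap_apply K⟮t⟯ F Ω]; rfl
    rw [this]
    exact σ.commutes _
  have hidQ : ∀ P : (SF g a).toAffine.Point,
      mapPt (RingHom.id K) (WeierstrassCurve.map_id (SF g a)) P = P := fun P => mapPt_id _ P
  -- the valuation ring at which `R` specialises to a multiple of `Q`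
  set V₁ : ValuationSubring Ω := V.comap (σ : Ω →+* Ω) with hV₁def
  have hV₁V : ∀ x, x ∈ V₁ ↔ (σ : Ω →+* Ω) x ∈ V := fun x => Iff.rfl
  have hV₁ : ∀ c, ι c ∈ V₁ := fun c => by
    rw [hV₁V]
    show σ (ι c) ∈ V
    rw [hfixι]
    exact hV c
  have hV₁t : CE V₁ ι T a := by
    rw [CE, nonunits_iff_of_mem_iff hV₁V, map_sub]
    show σ T - σ (ι a) ∈ _
    rw [hfixι, hfixT]
    exact hVt
  obtain ⟨m, hm⟩ : ∃ m : ℕ, m • R' = mapPt (σ : Ω →+* Ω) (hEσ σ) R := by
    have h1 : mapPt (σ : Ω →+* Ω) (hEσ σ) R ∈ AddSubgroup.zmultiples R' := by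
      rw [← hσ]; exact AddSubgroup.mem_zmultiples _
    have hfo : IsOfFinAddOrder R' := addOrderOf_pos_iff.mp (by rw [hR'o]; exact hp.pos)
    exact hfo.mem_multiples_iff_mem_zmultiples.mpr h1
  set Q₁ := m • Q with hQ₁
  have hQ₁0 : Q₁ ≠ 0 := by
    intro h0
    have h1 : p ∣ m := by rw [← hQ]; exact addOrderOf_dvd_of_nsmul_eq_zero h0
    obtain ⟨c, rfl⟩ := h1
    rw [mul_comm, mul_smul, hR'p, smul_zero] at hm
    have h2 := addOrderOf_mapPt (hEσ σ) R
    rw [← hm, addOrderOf_zero, hR] at h2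
    exact hp.one_lt.ne h2
  obtain ⟨hQ₁o, hQ₁z⟩ := zmultiples_eq_of_mem hp hQ
    (AddSubgroup.nsmul_mem_zmultiples Q m) hQ₁0
  have hC₁ : Cong V₁ ι R Q₁ := by
    rw [cong_map_iff (τ₀ := RingHom.id K) (fun c => hfixι σ c) hV₁V (hEσ σ)
      (WeierstrassCurve.map_id _), hidQ, ← hm]
    exact hcc.nsmul hR' m
  have hcc₁ : CoeffCong V₁ ι E (SF g a) := coeffCong_SF hV₁ hV₁t (by norm_num) (by norm_num)
  -- the place
  set O : ValuationSubring F := V₁.comap (algebraMap F Ω) with hO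
  have hOn : ∀ x, x ∈ O.nonunits ↔ algebraMap F Ω x ∈ V₁.nonunits := by
    intro x
    rw [mem_nonunits_iff_inv, mem_nonunits_iff_inv, ← map_inv₀, map_eq_zero]
    rfl
  have hOK : ∀ c : K, algebraMap K F c ∈ O := by
    intro c
    rw [hO, ValuationSubring.mem_comap, ← IsScalarTower.algebraMap_apply K F Ω]
    exact hV₁ c
  have hta : t - algebraMap K F a ∈ O.nonunits := by
    rw [hOn, map_sub, ← IsScalarTower.algebraMap_apply K F Ω]
    exact hV₁t
  have hOtop : O ≠ ⊤ := by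
    intro htop
    rw [mem_nonunits_iff_inv] at hta
    rcases hta with h0 | h0
    · rw [sub_eq_zero] at h0
      have := h.trans
      rw [h0] at this
      exact this (isAlgebraic_algebraMap _)
    · exact h0 (htop ▸ ValuationSubring.mem_top _)
  obtain ⟨v, hv⟩ := H94.exists_place_of_valuationSubring O hOK hOtop
  refine ⟨v, by rw [hv]; exact hta, ?_, ?_⟩
  · rw [hv, hOn, map_sub, ← hRu, ← IsScalarTower.algebraMap_apply K F Ω]
    have h1 := hcc₁.ce_veluQ hΔa hp.pos hC₁ hR hQ₁o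
    rw [hQ₁z] at h1
    exact CE.mul hV₁ (CE.pow hV₁ (CE.natCast p) 12) h1
  · intro s s₀ hss₀ hst hstp hs₀a hs₀g hsQ x
    rw [hv]
    set S : Ω ≃+* Ω := IsAlgClosure.equivOfEquiv Ω Ω s with hS
    have hSF : ∀ y : F, S (algebraMap F Ω y) = algebraMap F Ω (s y) := fun y =>
      IsAlgClosure.equivOfEquiv_algebraMap Ω Ω s y
    have hSι : ∀ c, (S : Ω →+* Ω) (ι c) = ι ((s₀ : K →+* K) c) := fun c => by
      show S (ι c) = ι (s₀ c)
      rw [hι, IsScalarTower.algebraMap_apply K F Ω, hSF, hss₀,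
        ← IsScalarTower.algebraMap_apply K F Ω]
    have hST : S T = T := by rw [hT, hSF, hst]
    set V₂ : ValuationSubring Ω := V₁.comap (S.symm : Ω →+* Ω) with hV₂def
    have hV₁₂ : ∀ x, x ∈ V₁ ↔ (S : Ω →+* Ω) x ∈ V₂ := by
      intro x
      have h1 : (S.symm : Ω →+* Ω) ((S : Ω →+* Ω) x) = x := S.symm_apply_apply x
      have h2 : (S : Ω →+* Ω) x ∈ V₂ ↔ (S.symm : Ω →+* Ω) ((S : Ω →+* Ω) x) ∈ V₁ := Iff.rfl
      rw [h2, h1]
    have hV₂ : ∀ c, ι c ∈ V₂ := fun c => by
      have h1 := (hV₁₂ (ι (s₀.symm c))).mp (hV₁ _)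
      rw [hSι] at h1
      have h2 : (s₀ : K →+* K) (s₀.symm c) = c := s₀.apply_symm_apply c
      rwa [h2] at h1
    have hV₂t : CE V₂ ι T a := by
      have h1 := (nonunits_iff_of_mem_iff hV₁₂ _).mp hV₁t
      rw [map_sub, hSι] at h1
      have h2 : (s₀ : K →+* K) a = a := hs₀a
      have h3 : (S : Ω →+* Ω) T = T := hST
      rwa [h2, h3] at h1
    have hcc₂ : CoeffCong V₂ ι E (SF g a) := coeffCong_SF hV₂ hV₂t (by norm_num) (by norm_num)
    have hES : E.map (S : Ω →+* Ω) = E := by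
      rw [hE, SF_map]
      congr 1
      rw [hSι]
      congr 1
    have hSFs : (SF g a).map (s₀ : K →+* K) = SF g a := by
      rw [SF_map]
      congr 1
    have hCS : Cong V₂ ι (mapPt (S : Ω →+* Ω) hES R) Q₁ := by
      have h1 := (cong_map_iff hSι hV₁₂ hES hSFs).mp hC₁
      rwa [hQ₁, map_nsmul, hsQ] at h1
    obtain ⟨τ, hτ⟩ := exists_conj (LiesOver_of_centre hV₁ hV₁t hV₁ hV₁t)
      (LiesOver_of_centre hV₁ hV₁t hV₂ hV₂t)
    have hCτ : Cong V₂ ι (mapPt (τ : Ω →+* Ω) (hEσ τ) R) Q₁ := by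
      have h1 := (cong_map_iff (τ₀ := RingHom.id K) (fun c => hfixι τ c) hτ (hEσ τ)
        (WeierstrassCurve.map_id _)).mp hC₁
      rwa [hidQ] at h1
    have hRp : p • R = 0 := by rw [← hR, addOrderOf_nsmul_eq_zero]
    have heq : mapPt (τ : Ω →+* Ω) (hEσ τ) R = mapPt (S : Ω →+* Ω) hES R :=
      hcc₂.inj hp.ne_zero hCτ hCS (by rw [← map_nsmul, hRp, map_zero])
        (by rw [← map_nsmul, hRp, map_zero])
    have hτtp : τ (algebraMap F Ω tp) = algebraMap F Ω tp := by
      have h1 := veluJ_mapPt (hEσ τ) hp.pos hR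
      have h2 := veluJ_mapPt hES hp.pos hR
      rw [heq, h2, hRj] at h1
      have h3 : (S : Ω →+* Ω) (algebraMap F Ω tp) = algebraMap F Ω tp := by
        show S (algebraMap F Ω tp) = _
        rw [hSF, hstp]
      rw [h3] at h1
      exact h1.symm
    have hτF : ∀ y : F, τ (algebraMap F Ω y) = algebraMap F Ω y := by
      intro y
      have hy : y ∈ IntermediateField.adjoin K⟮t⟯ {tp} := by rw [h.gen]; trivial
      induction hy using IntermediateField.adjoin_induction with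
      | mem z hz => rw [Set.mem_singleton_iff] at hz; rw [hz]; exact hτtp
      | algebraMap z => rw [← IsScalarTower.algebraMap_apply K⟮t⟯ F Ω]; exact τ.commutes z
      | add z w _ _ hz hw => rw [map_add, map_add, hz, hw]
      | mul z w _ _ hz hw => rw [map_mul, map_mul, hz, hw]
      | inv z _ hz => rw [map_inv₀, map_inv₀, hz]
    have key : ∀ y : F, y ∈ O ↔ algebraMap F Ω y ∈ V₂ := by
      intro y
      have h1 := hτ (algebraMap F Ω y)
      rw [hτF] at h1
      exact h1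
    rw [key (s x), ← hSF]
    exact hV₁₂ _

end Main

end Fermat.Agent.H05
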