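import Mathlib
import Fermat.Agent.H05_EvalEmb
import Fermat.Agent.H05_AnaPoint
import Fermat.Agent.H05_Moduli

set_option autoImplicit false

/-! # The generic input for the function field of `X₀(p)` -/

namespace Fermat.Agent.H05

open WeierstrassCurve WeierstrassCurve.Affine
open UpperHalfPlane hiding I
open ModularCurve IntermediateField Fermat.Agent.H24
open Fermat.Agent.H61 (jInv)
open ModularForm (discriminant discriminant_ne_zero)

/-- torsion points lift along embeddings of algebraically closed fields -/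
lemma exists_mapPt_eq {L M : Type*} [Field L] [Field M] [DecidableEq L] [DecidableEq M]
    [CharZero L] [IsAlgClosed L] [IsAlgClosed M] (σ : L →+* M) {W : WeierstrassCurve L}
    {W' : WeierstrassCurve M} (h : W.map σ = W') (hΔ : W.Δ ≠ 0) {n : ℕ} (hn : n ≠ 0)
    {P' : W'.toAffine.Point} (hP' : n • P' = 0) :
    ∃ P : W.toAffine.Point, n • P = 0 ∧ mapPt σ h P = P' := by
  have : CharZero M := charZero_of_injective_ringHom σ.injective
  have hΔ' : W'.Δ ≠ 0 := by
    rw [map_Δ_of_eq h]; exact (_root_.map_ne_zero σ).mpr hΔ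
  let f : Submodule.torsionBy ℤ W.toAffine.Point (n : ℤ) →
      Submodule.torsionBy ℤ W'.toAffine.Point (n : ℤ) := fun P =>
    ⟨mapPt σ h P.1, by
      have := P.2
      rw [Submodule.mem_torsionBy_iff] at this ⊢
      rw [← map_zsmul, this, map_zero]⟩
  have hf : Function.Injective f := fun P Q h' =>
    Subtype.ext (mapPt_injective _ (congrArg Subtype.val h'))
  have hfin := H42.finite_torsion W' hΔ' hn
  have hcard : Nat.card (Submodule.torsionBy ℤ W.toAffine.Point (n : ℤ)) =
      Nat.card (Submodule.torsionBy ℤ W'.toAffine.Point (n : ℤ)) := by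
    rw [H42.natCard_torsion W hΔ (Nat.cast_ne_zero.mpr hn),
      H42.natCard_torsion W' hΔ' (Nat.cast_ne_zero.mpr hn)]
  have hsurj := ((Nat.bijective_iff_injective_and_card f).mpr ⟨hf, hcard⟩).2
  obtain ⟨P, hP⟩ := hsurj ⟨P', by rw [Submodule.mem_torsionBy_iff, natCast_zsmul]; exact hP'⟩
  have h3 := P.2
  rw [Submodule.mem_torsionBy_iff, natCast_zsmul] at h3
  exact ⟨P.1, h3, congrArg Subtype.val hP⟩

/-- the generic point, from an evaluation embedding -/
lemma exists_generic_point {K F Ω : Type*} [Field K] [CharZero K] [Field F] [Algebra K F]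
    [Field Ω] [Algebra K Ω] [Algebra F Ω] [IsScalarTower K F Ω] [IsAlgClosure F Ω]
    [DecidableEq Ω] {p : ℕ} [NeZero p] (hp : p.Prime) (hB : B1Inputs p) {t tp u : F}
    (ht : Transcendental K t) {τ τ' : ℍ} (hτ : (τ' : ℂ) = p * τ) (θ : F →+* ℂ)
    (h1 : θ t = jInv τ) (h2 : θ tp = jInv τ') (h3 : θ u = discriminant τ / discriminant τ')
    {g : K} (hg : g ≠ 0) :
    ∃ R : (SF (algebraMap K Ω g) (algebraMap F Ω t)).toAffine.Point,
      addOrderOf R = p ∧ veluJ _ (AddSubgroup.zmultiples R) = algebraMap F Ω tp ∧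
        (p : Ω) ^ 12 * veluQ _ (AddSubgroup.zmultiples R) = algebraMap F Ω u := by
  classical
  have hΩ : IsAlgClosed Ω := IsAlgClosure.isAlgClosed F
  have hΩ2 : Algebra.IsAlgebraic F Ω := IsAlgClosure.isAlgebraic
  have hF0 : CharZero F := charZero_of_injective_algebraMap (algebraMap K F).injective
  have hΩ0 : CharZero Ω := charZero_of_injective_algebraMap (algebraMap K Ω).injective
  let : Algebra F ℂ := θ.toAlgebra
  let Θ : Ω →ₐ[F] ℂ := IsAlgClosed.lift
  have hΘ : ∀ x : F, (Θ : Ω →+* ℂ) (algebraMap F Ω x) = θ x := fun x => Θ.commutes x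
  set T : Ω := algebraMap F Ω t with hT
  have hT0 : T ≠ 0 := by
    intro h0
    have : t = 0 := (algebraMap F Ω).injective (by rw [← hT, h0, map_zero])
    rw [this] at ht
    exact ht (isAlgebraic_zero)
  have hT1 : T ≠ 1728 := by
    intro h0
    have : t = algebraMap K F 1728 := (algebraMap F Ω).injective (by
      rw [← hT, h0, map_ofNat, map_ofNat])
    rw [this] at ht
    exact ht (isAlgebraic_algebraMap _)
  set E := SF (algebraMap K Ω g) T with hE
  have hΔE : E.Δ ≠ 0 := SF_Δ_ne_zero ((_root_.map_ne_zero _).mpr hg) hT0 hT1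
  set E' := E.map (Θ : Ω →+* ℂ) with hE'
  have hΔE' : E'.Δ ≠ 0 := by
    rw [hE', WeierstrassCurve.map_Δ]; exact (_root_.map_ne_zero _).mpr hΔE
  have hj : E'.c₄ ^ 3 = jInv τ * E'.Δ := by
    rw [hE', hE, SF_map, SF_c₄, SF_Δ, hT, hΘ, h1]
    ring
  obtain ⟨R', hR', hR'j, hR'q⟩ := exists_point_complex hp hB τ τ' hτ E' hΔE' hj
  obtain ⟨R, -, hR⟩ := exists_mapPt_eq (Θ : Ω →+* ℂ) hE'.symm hΔE hp.ne_zero (P' := R')
    (by rw [← hR', addOrderOf_nsmul_eq_zero])
  have hRo : addOrderOf R = p := by rw [← addOrderOf_mapPt hE'.symm, hR, hR']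
  refine ⟨R, hRo, ?_, ?_⟩
  · apply (Θ : Ω →+* ℂ).injective
    rw [← veluJ_mapPt hE'.symm hp.pos hRo, hR, hR'j, hΘ, h2]
  · apply (Θ : Ω →+* ℂ).injective
    rw [map_mul, ← veluQ_mapPt hE'.symm hp.pos hRo, hR, hΘ, h3, map_pow, map_natCast, hR'q]

section

variable {K : Type*} [Field K] [Algebra K ℂ] [IsAlgClosed K] {p : ℕ} [NeZero p]

omit [Algebra K ℂ] [IsAlgClosed K] in
lemma natDegree_minpoly_of_adjoin {E F : Type*} [Field E] [Field F] [Algebra E F]
    [FiniteDimensional E F] {x : F} (h : IntermediateField.adjoin E {x} = ⊤) :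
    (minpoly E x).natDegree = Module.finrank E F := by
  rw [← IntermediateField.finrank_top' (F := E) (E := F), ← h]
  exact (adjoin.finrank (Algebra.IsIntegral.isIntegral x)).symm

lemma dedekindPsi_prime (hp : p.Prime) : dedekindPsi p = p + 1 := by
  rw [dedekindPsi, hp.divisors]
  rw [Finset.filter_true_of_mem]
  · rw [Finset.sum_pair hp.one_lt.ne]
    rw [Nat.div_one, Nat.div_self hp.pos]
  · intro d hd
    rw [Finset.mem_insert, Finset.mem_singleton] at hd
    rcases hd with rfl | rfl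
    · exact squarefree_one
    · exact hp.squarefree

omit [Algebra K ℂ] [IsAlgClosed K] in
lemma adjoin_jN_eq_top (hp : p.Prime) (x : modularFunctionFieldFullC K p)
    (hx : (x : LaurentSeries K) = qExpand K p (jqModC K)) :
    IntermediateField.adjoin K⟮jF K p⟯ {x} = ⊤ := by
  rw [eq_top_iff, ← adjoin_gens_eq_top, adjoin_le_iff]
  rintro y ⟨d, hd0, hd, hy⟩
  rcases (Nat.dvd_prime hp).mp hd with rfl | rfl
  · have hy' : y = jF K p := by
      apply Subtype.ext
      rw [hy]
      exact qExpand_one_apply _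
    rw [hy']
    exact (IntermediateField.adjoin K⟮jF K p⟯ {x}).algebraMap_mem
      (AdjoinSimple.gen K (jF K p))
  · have hy' : y = x := by
      apply Subtype.ext
      rw [hy, hx]
    rw [hy']
    exact subset_adjoin _ _ rfl

/-- the basic facts on the function field, with `F` a variable -/
lemma basics (hp : p.Prime) [Countable K] (F : IntermediateField K (LaurentSeries K))
    (hF : F = modularFunctionFieldFullC K p) (t tp u : F) (ht : (t : LaurentSeries K) = jqModC K)
    (htp : (tp : LaurentSeries K) = qExpand K p (jqModC K))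
    (hu : (u : LaurentSeries K) = uSer K p) :
    Transcendental K t ∧ IntermediateField.adjoin K⟮t⟯ {tp} = ⊤ ∧
      (minpoly K⟮t⟯ tp).natDegree = p + 1 ∧
      ∃ (τ : ℍ) (θ : F →+* ℂ), θ t = jInv τ ∧ θ tp = jInv (scale p τ) ∧
        θ u = discriminant τ / discriminant (scale p τ) := by
  have : CharZero K := (algebraMap K ℂ).charZero
  subst hF
  obtain ⟨τ₀, hτ₀⟩ := exists_transcendental_jInv K
  obtain rfl : t = jF K p := Subtype.ext ht
  have hgen := adjoin_jN_eq_top hp tp htp
  refine ⟨transcendental_jF, hgen, ?_, τ₀, (evF (N := p) hτ₀ : _ →+* ℂ),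
    evF_jF hτ₀, evF_jN hτ₀ tp htp, ?_⟩
  · have h1 : Module.finrank K⟮jF K p⟯ (modularFunctionFieldFullC K p) = p + 1 := by
      rw [H94.finrank_jF, dedekindPsi_prime hp]
    have hfd := finiteDimensional_jF (K := K) (N := p)
    rw [← h1]
    exact natDegree_minpoly_of_adjoin hgen
  · exact evF_u hτ₀ u hu

end

/-- the abstract theorem with the point clause replaced by an evaluation embedding -/
theorem exists_place_of_eval {K F : Type*} [Field K] [CharZero K] [IsAlgClosed K] [Field F]
    [Algebra K F] [H94.FunField K F] [DecidableEq K] {p : ℕ} [NeZero p] (hp : p.Prime)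
    (hB : B1Inputs p) {t tp u : F} (h1 : Transcendental K t)
    (h2 : IntermediateField.adjoin K⟮t⟯ {tp} = ⊤) (h3 : (minpoly K⟮t⟯ tp).natDegree = p + 1)
    {τ : ℍ} (θ : F →+* ℂ) (h4 : θ t = jInv τ) (h5 : θ tp = jInv (scale p τ))
    (h6 : θ u = discriminant τ / discriminant (scale p τ))
    {g a : K} (hg : g ≠ 0) (ha0 : a ≠ 0) (ha1 : a ≠ 1728) {Q : (SF g a).toAffine.Point}
    (hQ : addOrderOf Q = p) :
    ∃ v : AlgebraicCurve.Place K F, t - algebraMap K F a ∈ v.toValuationSubring.nonunits ∧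
      u - algebraMap K F ((p : K) ^ 12 * veluQ _ (AddSubgroup.zmultiples Q)) ∈
        v.toValuationSubring.nonunits ∧
      ∀ (s : F ≃+* F) (s₀ : K ≃+* K),
        (∀ c, s (algebraMap K F c) = algebraMap K F (s₀ c)) → s t = t → s tp = tp → s₀ a = a →
        s₀ g = g → (∀ h' : (SF g a).map (s₀ : K →+* K) = SF g a, mapPt (s₀ : K →+* K) h' Q = Q) →
        ∀ x, x ∈ v.toValuationSubring ↔ s x ∈ v.toValuationSubring := by
  classical
  have hgen : GenInput K (AlgebraicClosure F) p t tp u := ⟨h1, h2, h3, fun g hg =>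
    exists_generic_point hp hB h1 (τ := τ) (τ' := scale p τ) rfl θ h4 h5 h6 hg⟩
  exact exists_place_moduli (Ω := AlgebraicClosure F) hp hgen hg ha0 ha1 hQ

end Fermat.Agent.H05
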