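import Mathlib

set_option autoImplicit false

/-! # Additive logarithmic valuation attached to a valuation subring

`lg A x` is the class of `x ≠ 0` in the value group, written additively, LARGE elements having
large `lg`; `Bd A x g` means `x = 0 ∨ lg A x ≤ g`, `Sm A x g` means `x = 0 ∨ lg A x < g`. -/

namespace Fermat.Agent.H05

variable {K : Type*} [Field K] (A : ValuationSubring K)

/-- The value group, additively. -/
abbrev VG : Type _ := Additive (A.ValueGroup)ˣ

/-- additive logarithmic valuation -/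
noncomputable def lg (x : K) : VG A :=
  open Classical in
  if h : x = 0 then 0 else Additive.ofMul (Units.mk0 (A.valuation x) (by simpa using h))

/-- `x = 0` or `lg x ≤ g` -/
def Bd (x : K) (g : VG A) : Prop := x = 0 ∨ lg A x ≤ g

/-- `x = 0` or `lg x < g` -/
def Sm (x : K) (g : VG A) : Prop := x = 0 ∨ lg A x < g

variable {A} {x y z : K} {g h : VG A}

lemma lg_of_ne (hx : x ≠ 0) :
    lg A x = Additive.ofMul (Units.mk0 (A.valuation x) (by simpa using hx)) := by
  rw [lg, dif_neg hx]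

lemma lg_le_iff (hx : x ≠ 0) (hy : y ≠ 0) : lg A x ≤ lg A y ↔ A.valuation x ≤ A.valuation y := by
  rw [lg_of_ne hx, lg_of_ne hy, Additive.ofMul_le, ← Units.val_le_val]
  rfl

lemma lg_lt_iff (hx : x ≠ 0) (hy : y ≠ 0) : lg A x < lg A y ↔ A.valuation x < A.valuation y := by
  rw [← not_le, lg_le_iff hy hx, not_le]

lemma lg_eq_iff (hx : x ≠ 0) (hy : y ≠ 0) : lg A x = lg A y ↔ A.valuation x = A.valuation y := by
  rw [le_antisymm_iff, lg_le_iff hx hy, lg_le_iff hy hx, ← le_antisymm_iff]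

lemma lg_mul (hx : x ≠ 0) (hy : y ≠ 0) : lg A (x * y) = lg A x + lg A y := by
  rw [lg_of_ne hx, lg_of_ne hy, lg_of_ne (mul_ne_zero hx hy), ← ofMul_mul]
  congr 1
  ext
  simp

@[simp] lemma lg_one : lg A (1 : K) = 0 := by
  rw [lg_of_ne one_ne_zero, ← ofMul_one]
  congr 1
  ext
  simp

@[simp] lemma lg_neg (x : K) : lg A (-x) = lg A x := by
  by_cases hx : x = 0
  · rw [hx, neg_zero]
  · rw [lg_eq_iff (neg_ne_zero.mpr hx) hx, Valuation.map_neg]

lemma lg_inv (hx : x ≠ 0) : lg A x⁻¹ = - lg A x := by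
  have := lg_mul (A := A) hx (inv_ne_zero hx)
  rw [mul_inv_cancel₀ hx, lg_one] at this
  exact (neg_eq_of_add_eq_zero_right this.symm).symm

lemma lg_div (hx : x ≠ 0) (hy : y ≠ 0) : lg A (x / y) = lg A x - lg A y := by
  rw [div_eq_mul_inv, lg_mul hx (inv_ne_zero hy), lg_inv hy, sub_eq_add_neg]

lemma lg_pow (hx : x ≠ 0) (n : ℕ) : lg A (x ^ n) = n • lg A x := by
  induction n with
  | zero => simp
  | succ n ih => rw [pow_succ, lg_mul (pow_ne_zero n hx) hx, ih, succ_nsmul]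

lemma lg_zpow (hx : x ≠ 0) (n : ℤ) : lg A (x ^ n) = n • lg A x := by
  obtain ⟨m, rfl | rfl⟩ := n.eq_nat_or_neg
  · rw [zpow_natCast, lg_pow hx, natCast_zsmul]
  · rw [zpow_neg, lg_inv (zpow_ne_zero _ hx), zpow_natCast, lg_pow hx, neg_smul, natCast_zsmul]

lemma lg_nonpos_iff (hx : x ≠ 0) : lg A x ≤ 0 ↔ x ∈ A := by
  rw [← lg_one (A := A), lg_le_iff hx one_ne_zero, map_one, A.valuation_le_one_iff]

lemma lg_neg_iff (hx : x ≠ 0) : lg A x < 0 ↔ x ∈ A.nonunits := by
  rw [← lg_one (A := A), lg_lt_iff hx one_ne_zero, map_one, A.mem_nonunits_iff]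

lemma lg_pos_iff (hx : x ≠ 0) : 0 < lg A x ↔ x ∉ A := by
  rw [← lg_nonpos_iff hx, not_le]

lemma lg_nonneg_iff (hx : x ≠ 0) : 0 ≤ lg A x ↔ x ∉ A.nonunits := by
  rw [← lg_neg_iff hx, not_lt]

lemma bd_zero_iff : Bd A x 0 ↔ x ∈ A := by
  by_cases hx : x = 0
  · simp [Bd, hx, A.zero_mem]
  · simp [Bd, hx, lg_nonpos_iff hx]

lemma sm_zero_iff : Sm A x 0 ↔ x ∈ A.nonunits := by
  by_cases hx : x = 0
  · simp only [Sm, hx, true_or, true_iff]; exact zero_mem _
  · simp [Sm, hx, lg_neg_iff hx]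

lemma Sm.bd (h : Sm A x g) : Bd A x g := h.imp id le_of_lt

lemma Bd.mono (hx : Bd A x g) (hgh : g ≤ h) : Bd A x h := hx.imp id fun h' => h'.trans hgh

lemma Bd.sm (hx : Bd A x g) (hgh : g < h) : Sm A x h := hx.imp id fun h' => h'.trans_lt hgh

lemma Sm.mono (hx : Sm A x g) (hgh : g ≤ h) : Sm A x h := hx.imp id fun h' => h'.trans_le hgh

lemma bd_self (x : K) : Bd A x (lg A x) := Or.inr le_rfl

lemma bd_of_zero (h : x = 0) : Bd A x g := Or.inl h

lemma sm_of_zero (h : x = 0) : Sm A x g := Or.inl h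

lemma Bd.neg (hx : Bd A x g) : Bd A (-x) g := by
  rcases hx with rfl | hx
  · left; simp
  · right; rwa [lg_neg]

lemma Sm.neg (hx : Sm A x g) : Sm A (-x) g := by
  rcases hx with rfl | hx
  · left; simp
  · right; rwa [lg_neg]

lemma Bd.add (hx : Bd A x g) (hy : Bd A y g) : Bd A (x + y) g := by
  rcases hx with rfl | hx
  · rwa [zero_add]
  rcases hy with rfl | hy
  · rw [add_zero]; exact Or.inr hx
  by_cases h0 : x + y = 0
  · exact Or.inl h0
  by_cases hx0 : x = 0
  · rw [hx0, zero_add]; exact Or.inr hy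
  by_cases hy0 : y = 0
  · rw [hy0, add_zero]; exact Or.inr hx
  right
  rcases le_total (lg A x) (lg A y) with h1 | h1
  · refine le_trans ?_ hy
    rw [lg_le_iff h0 hy0]
    exact A.valuation.map_add_le ((lg_le_iff hx0 hy0).mp h1) le_rfl
  · refine le_trans ?_ hx
    rw [lg_le_iff h0 hx0]
    exact A.valuation.map_add_le le_rfl ((lg_le_iff hy0 hx0).mp h1)

lemma Sm.add (hx : Sm A x g) (hy : Sm A y g) : Sm A (x + y) g := by
  rcases hx with rfl | hx
  · rwa [zero_add]
  rcases hy with rfl | hy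
  · rw [add_zero]; exact Or.inr hx
  by_cases h0 : x + y = 0
  · exact Or.inl h0
  by_cases hx0 : x = 0
  · rw [hx0, zero_add]; exact Or.inr hy
  by_cases hy0 : y = 0
  · rw [hy0, add_zero]; exact Or.inr hx
  right
  rcases le_total (lg A x) (lg A y) with h1 | h1
  · refine lt_of_le_of_lt ?_ hy
    rw [lg_le_iff h0 hy0]
    exact A.valuation.map_add_le ((lg_le_iff hx0 hy0).mp h1) le_rfl
  · refine lt_of_le_of_lt ?_ hx
    rw [lg_le_iff h0 hx0]
    exact A.valuation.map_add_le le_rfl ((lg_le_iff hy0 hx0).mp h1)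

lemma Bd.sub (hx : Bd A x g) (hy : Bd A y g) : Bd A (x - y) g := by
  rw [sub_eq_add_neg]; exact hx.add hy.neg

lemma Sm.sub (hx : Sm A x g) (hy : Sm A y g) : Sm A (x - y) g := by
  rw [sub_eq_add_neg]; exact hx.add hy.neg

lemma Bd.mul (hx : Bd A x g) (hy : Bd A y h) : Bd A (x * y) (g + h) := by
  by_cases hx0 : x = 0
  · left; rw [hx0, zero_mul]
  by_cases hy0 : y = 0
  · left; rw [hy0, mul_zero]
  right
  rw [lg_mul hx0 hy0]
  exact add_le_add (hx.resolve_left hx0) (hy.resolve_left hy0)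

lemma Sm.mul_bd (hx : Sm A x g) (hy : Bd A y h) : Sm A (x * y) (g + h) := by
  by_cases hx0 : x = 0
  · left; rw [hx0, zero_mul]
  by_cases hy0 : y = 0
  · left; rw [hy0, mul_zero]
  right
  rw [lg_mul hx0 hy0]
  exact add_lt_add_of_lt_of_le (hx.resolve_left hx0) (hy.resolve_left hy0)

lemma Bd.mul_sm (hx : Bd A x g) (hy : Sm A y h) : Sm A (x * y) (g + h) := by
  rw [mul_comm, add_comm]; exact hy.mul_bd hx

/-- The dominant term determines the valuation of a sum. -/
lemma lg_add_eq (hx : x ≠ 0) (hy : Sm A y (lg A x)) : x + y ≠ 0 ∧ lg A (x + y) = lg A x := by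
  have h1 : x + y ≠ 0 := by
    intro h0
    rcases hy with rfl | hy
    · rw [add_zero] at h0; exact hx h0
    · have : y = -x := by linear_combination h0
      rw [this, lg_neg] at hy
      exact lt_irrefl _ hy
  refine ⟨h1, le_antisymm ?_ ?_⟩
  · exact ((bd_self x).add hy.bd).resolve_left h1
  · by_contra hlt
    rw [not_le] at hlt
    have h2 : Sm A (x + y - y) (lg A x) := Sm.sub (Or.inr hlt) hy
    rw [add_sub_cancel_right] at h2
    exact lt_irrefl _ (h2.resolve_left hx)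

lemma lg_sub_eq (hx : x ≠ 0) (hy : Sm A y (lg A x)) : x - y ≠ 0 ∧ lg A (x - y) = lg A x := by
  rw [sub_eq_add_neg]; exact lg_add_eq hx hy.neg

/-- Two elements differing by something smaller have the same valuation. -/
lemma lg_eq_of_sub (hx : x ≠ 0) (hy : Sm A (y - x) (lg A x)) : y ≠ 0 ∧ lg A y = lg A x := by
  have := lg_add_eq hx hy
  rwa [add_sub_cancel] at this

lemma not_sm_self (hx : x ≠ 0) : ¬ Sm A x (lg A x) := by
  rintro (h | h)
  · exact hx h
  · exact lt_irrefl _ h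

end Fermat.Agent.H05
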