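import Mathlib
import Fermat.Agent.H05_Log
import Fermat.Agent.H05_Line

set_option autoImplicit false

/-! # The component homomorphism for `y² + xy = x³ + a₄x + a₆`, `v(a₄) ≥ v(a₆) > 0`

Valid for an arbitrary valuation ring (any rank, any residue characteristic). -/

namespace Fermat.Agent.H05

variable {K : Type*} [Field K] {A : ValuationSubring K}

/-- component relation of an affine point -/
inductive IsComp (A : ValuationSubring K) (x y : K) : VG A → Prop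
  | zero (hx : x ∉ A.nonunits) : IsComp A x y 0
  | pos (hx : x ∈ A.nonunits) (h1 : y + x ≠ 0) (h2 : Sm A y (lg A (y + x))) :
      IsComp A x y (lg A (y + x))
  | neg (hx : x ∈ A.nonunits) (h1 : y ≠ 0) (h2 : Sm A (y + x) (lg A y)) :
      IsComp A x y (- lg A y)
  | mid (hx : x ∈ A.nonunits) (h1 : y ≠ 0) (h2 : y + x ≠ 0) (h3 : lg A y = lg A (y + x)) :
      IsComp A x y (lg A y)

/-- hypotheses on the coefficients -/
structure TateCoeffs (A : ValuationSubring K) (a₄ a₆ : K) : Prop where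
  ne : a₆ ≠ 0
  lt : lg A a₆ < 0
  bd : Bd A a₄ (lg A a₆)

section pt

variable {a₄ a₆ x y : K} (hT : TateCoeffs A a₄ a₆) (he : y * (y + x) = x ^ 3 + a₄ * x + a₆)
include hT he

lemma y_nonunits (hx : x ∈ A.nonunits) : y ∈ A.nonunits := by
  have h4 : a₄ ∈ A.nonunits := sm_zero_iff.mp (hT.bd.sm hT.lt)
  have h6 : a₆ ∈ A.nonunits := (lg_neg_iff hT.ne).mp hT.lt
  have hr : y * (y + x) ∈ A.nonunits := by
    rw [he]
    refine add_mem (add_mem ?_ (mul_mem h4 hx)) h6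
    have := mul_mem hx (mul_mem hx hx)
    convert! this using 1; ring
  by_contra hy
  have hy0 : y ≠ 0 := by rintro rfl; exact hy (zero_mem _)
  have hyl : 0 ≤ lg A y := (lg_nonneg_iff hy0).mpr hy
  have hxs : Sm A x (lg A y) := (sm_zero_iff.mpr hx).mono hyl
  obtain ⟨h1, h2⟩ := lg_add_eq hy0 hxs
  have h3 : lg A (y * (y + x)) = lg A y + lg A y := by rw [lg_mul hy0 h1, h2]
  have h5 := (lg_neg_iff (mul_ne_zero hy0 h1)).mpr hr
  rw [h3] at h5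
  exact absurd h5 (not_lt.mpr (add_nonneg hyl hyl))

lemma pos_facts (hx : x ∈ A.nonunits) (h1 : y + x ≠ 0) (h2 : Sm A y (lg A (y + x))) :
    x ≠ 0 ∧ lg A x = lg A (y + x) ∧ lg A a₆ < lg A x + lg A x ∧ lg A x < 0 := by
  obtain ⟨h3, h4⟩ := lg_sub_eq h1 h2
  rw [add_sub_cancel_left] at h3 h4
  have hr : lg A x < 0 := (lg_neg_iff h3).mpr hx
  refine ⟨h3, h4, ?_, hr⟩
  by_contra hle
  rw [not_lt] at hle
  have e : a₆ = y * (y + x) - x ^ 3 - a₄ * x := by rw [he]; ring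
  apply not_sm_self (A := A) hT.ne
  have s1 : Sm A (y * (y + x)) (lg A a₆) := by
    have := h2.mul_bd (bd_self (A := A) (y + x))
    rw [← h4] at this
    exact this.mono hle
  have s2 : Sm A (x ^ 3) (lg A a₆) := by
    right
    rw [lg_pow h3]
    have : (3 : ℕ) • lg A x = lg A x + lg A x + lg A x := by abel
    rw [this]
    calc lg A x + lg A x + lg A x < lg A x + lg A x + 0 := by gcongr
      _ ≤ lg A a₆ := by rwa [add_zero]
  have s3 : Sm A (a₄ * x) (lg A a₆) := by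
    have := hT.bd.mul_sm (sm_zero_iff.mpr hx)
    rwa [add_zero] at this
  have := (s1.sub s2).sub s3
  rwa [← e] at this

lemma neg_facts (hx : x ∈ A.nonunits) (h1 : y ≠ 0) (h2 : Sm A (y + x) (lg A y)) :
    x ≠ 0 ∧ lg A x = lg A y ∧ lg A a₆ < lg A x + lg A x ∧ lg A x < 0 := by
  have he' : (-(y + x)) * (-(y + x) + x) = x ^ 3 + a₄ * x + a₆ := by rw [← he]; ring
  have h3 : -(y + x) + x = -y := by ring
  have := pos_facts hT he' hx (by rw [h3]; exact neg_ne_zero.mpr h1)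
    (by rw [h3, lg_neg]; exact h2.neg)
  rwa [h3, lg_neg] at this

lemma mid_facts (hx : x ∈ A.nonunits) (h1 : y ≠ 0) (h2 : y + x ≠ 0)
    (h3 : lg A y = lg A (y + x)) :
    lg A y + lg A y = lg A a₆ ∧ Bd A x (lg A y) ∧ lg A y < 0 := by
  have hy := y_nonunits hT he hx
  have hs : lg A y < 0 := (lg_neg_iff h1).mpr hy
  have hxb : Bd A x (lg A y) := by
    have : x = (y + x) - y := by ring
    rw [this]
    exact Bd.sub (by rw [h3]; exact bd_self _) (bd_self _)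
  refine ⟨?_, hxb, hs⟩
  have hp : lg A (y * (y + x)) = lg A y + lg A y := by rw [lg_mul h1 h2, ← h3]
  have hpb : Bd A (y * (y + x)) (lg A y + lg A y) := by rw [← hp]; exact bd_self _
  have hx3 : Bd A (x ^ 3) (lg A y + lg A y + lg A y) := by
    have := (hxb.mul hxb).mul hxb
    convert! this using 1; ring
  have h4x : Bd A (a₄ * x) (lg A a₆ + lg A y) := hT.bd.mul hxb
  have e : a₆ = y * (y + x) - x ^ 3 - a₄ * x := by rw [he]; ring
  have e' : y * (y + x) = x ^ 3 + a₄ * x + a₆ := he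
  rcases lt_trichotomy (lg A y + lg A y) (lg A a₆) with hlt | heq | hgt
  · exfalso
    apply not_sm_self (A := A) hT.ne
    have := ((hpb.sm hlt).sub (hx3.sm (by grind))).sub (h4x.sm (show _ < lg A a₆ by grind))
    rwa [← e] at this
  · exact heq
  · exfalso
    apply not_sm_self (A := A) (mul_ne_zero h1 h2)
    rw [hp]
    have := ((hx3.sm (show _ < lg A y + lg A y by grind)).add
      (h4x.sm (show _ < lg A y + lg A y by grind))).add
      ((bd_self (A := A) a₆).sm hgt)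
    rwa [← e'] at this

end pt

/-- three collinear points on `y² + xy = x³ + a₄x + a₆` -/
structure Col (a₄ a₆ x₁ y₁ x₂ y₂ x₃ y₃ l n : K) : Prop where
  h1 : y₁ = l * x₁ + n
  h2 : y₂ = l * x₂ + n
  h3 : y₃ = l * x₃ + n
  s1 : x₁ + x₂ + x₃ = l ^ 2 + l
  s2 : x₁ * x₂ + x₁ * x₃ + x₂ * x₃ = a₄ - (2 * l + 1) * n
  s3 : x₁ * x₂ * x₃ = n ^ 2 - a₆

namespace Col

variable {a₄ a₆ x₁ y₁ x₂ y₂ x₃ y₃ l n : K}

lemma swap12 (c : Col a₄ a₆ x₁ y₁ x₂ y₂ x₃ y₃ l n) : Col a₄ a₆ x₂ y₂ x₁ y₁ x₃ y₃ l n :=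
  ⟨c.h2, c.h1, c.h3, by rw [← c.s1]; ring, by rw [← c.s2]; ring, by rw [← c.s3]; ring⟩

lemma rot (c : Col a₄ a₆ x₁ y₁ x₂ y₂ x₃ y₃ l n) : Col a₄ a₆ x₂ y₂ x₃ y₃ x₁ y₁ l n :=
  ⟨c.h2, c.h3, c.h1, by rw [← c.s1]; ring, by rw [← c.s2]; ring, by rw [← c.s3]; ring⟩

lemma negate (c : Col a₄ a₆ x₁ y₁ x₂ y₂ x₃ y₃ l n) :
    Col a₄ a₆ x₁ (-(y₁ + x₁)) x₂ (-(y₂ + x₂)) x₃ (-(y₃ + x₃)) (-1 - l) (-n) :=
  ⟨by rw [c.h1]; ring, by rw [c.h2]; ring, by rw [c.h3]; ring, by rw [c.s1]; ring,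
    by rw [c.s2]; ring, by rw [c.s3]; ring⟩

lemma eq1 (c : Col a₄ a₆ x₁ y₁ x₂ y₂ x₃ y₃ l n) :
    y₁ * (y₁ + x₁) = x₁ ^ 3 + a₄ * x₁ + a₆ := by
  have h := c.s1; have h' := c.s2; have h'' := c.s3
  rw [c.h1]
  linear_combination (-x₁ ^ 2) * h + x₁ * h' - h''

lemma eq2 (c : Col a₄ a₆ x₁ y₁ x₂ y₂ x₃ y₃ l n) :
    y₂ * (y₂ + x₂) = x₂ ^ 3 + a₄ * x₂ + a₆ := c.swap12.eq1

lemma eq3 (c : Col a₄ a₆ x₁ y₁ x₂ y₂ x₃ y₃ l n) :
    y₃ * (y₃ + x₃) = x₃ ^ 3 + a₄ * x₃ + a₆ := c.rot.rot.eq1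

/-- the mixed product formula -/
lemma star (c : Col a₄ a₆ x₁ y₁ x₂ y₂ x₃ y₃ l n) :
    n * (y₁ * x₂ + (y₂ + x₂) * x₁) = a₄ * (x₁ * x₂) - (x₁ * x₂) ^ 2 + a₆ * (x₁ + x₂) := by
  have h' := c.s2; have h'' := c.s3
  rw [c.h1, c.h2]
  linear_combination (x₁ * x₂) * h' - (x₁ + x₂) * h''

end Col

/-- negation on components -/
lemma IsComp.negate {a₄ a₆ x y : K} (hT : TateCoeffs A a₄ a₆)
    (he : y * (y + x) = x ^ 3 + a₄ * x + a₆) {c : VG A} (h : IsComp A x y c) :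
    ∃ c', IsComp A x (-(y + x)) c' ∧ (c + c' = 0 ∨ c + c' = lg A a₆) := by
  have e : -(y + x) + x = -y := by ring
  rcases h with hx | ⟨hx, h1, h2⟩ | ⟨hx, h1, h2⟩ | ⟨hx, h1, h2, h3⟩
  · exact ⟨0, .zero hx, Or.inl (add_zero _)⟩
  · refine ⟨_, .neg hx (neg_ne_zero.mpr h1) ?_, Or.inl ?_⟩
    · rw [e, lg_neg]; exact h2.neg
    · rw [lg_neg]; abel
  · refine ⟨_, .pos hx ?_ ?_, Or.inl ?_⟩
    · rw [e]; exact neg_ne_zero.mpr h1
    · rw [e, lg_neg]; exact h2.neg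
    · rw [e, lg_neg]; abel
  · obtain ⟨m1, -, -⟩ := mid_facts hT he hx h1 h2 h3
    refine ⟨_, .mid hx (neg_ne_zero.mpr h2) ?_ ?_, Or.inr ?_⟩
    · rw [e]; exact neg_ne_zero.mpr h1
    · rw [e, lg_neg, lg_neg]; exact h3.symm
    · rw [lg_neg, ← h3]; exact m1

section caseI

/-- position of a point with respect to a line of small slope -/
inductive Kind (A : ValuationSubring K) (a₆ n x : K) (c : VG A) : Prop
  | P (hx : x ≠ 0) (hc : c = lg A x) (ha : lg A a₆ < lg A x + lg A x) (hx0 : lg A x < 0)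
      (hn : Sm A n (lg A x))
  | N (hx : x ≠ 0) (hn : n ≠ 0) (hc : c = - lg A x) (ha : lg A a₆ < lg A x + lg A x)
      (hx0 : lg A x < 0) (hnx : lg A n = lg A x)
  | M (hn : n ≠ 0) (hc : c = lg A n) (ha : lg A n + lg A n = lg A a₆) (hx : Bd A x (lg A n))
      (hn0 : lg A n < 0)

variable {a₄ a₆ : K} (hT : TateCoeffs A a₄ a₆)
include hT

lemma kind_of_isComp {x y l n : K} (he : y * (y + x) = x ^ 3 + a₄ * x + a₆)
    (hy : y = l * x + n) (hl : l ∈ A.nonunits) (hx : x ∈ A.nonunits) {c : VG A}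
    (h : IsComp A x y c) : Kind A a₆ n x c := by
  have hl' : Sm A l 0 := sm_zero_iff.mpr hl
  have en : n = y - l * x := by rw [hy]; ring
  rcases h with hx' | ⟨hx', h1, h2⟩ | ⟨hx', h1, h2⟩ | ⟨hx', h1, h2, h3⟩
  · exact absurd hx hx'
  · obtain ⟨f1, f2, f3, f4⟩ := pos_facts hT he hx h1 h2
    refine .P f1 f2.symm f3 f4 ?_
    rw [en]
    rw [← f2] at h2
    have := hl'.mul_bd (bd_self (A := A) x)
    rw [zero_add] at this
    exact h2.sub this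
  · obtain ⟨f1, f2, f3, f4⟩ := neg_facts hT he hx h1 h2
    have := hl'.mul_bd (bd_self (A := A) x)
    rw [zero_add, f2] at this
    obtain ⟨g1, g2⟩ := lg_sub_eq h1 this
    rw [← en] at g1 g2
    exact .N f1 g1 (by rw [f2]) f3 f4 (by rw [g2, f2])
  · obtain ⟨f1, f2, f3⟩ := mid_facts hT he hx h1 h2 h3
    have := hl'.mul_bd f2
    rw [zero_add] at this
    obtain ⟨g1, g2⟩ := lg_sub_eq h1 this
    rw [← en] at g1 g2
    exact .M g1 g2.symm (by rw [g2]; exact f1) (by rw [g2]; exact f2) (by rw [g2]; exact f3)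

/-- the linear coefficient -/
lemma lin_coeff {l n S : K} (hl : l ∈ A.nonunits) (hn : n ≠ 0) (ha : lg A a₆ < lg A n)
    (hS : S = a₄ - (2 * l + 1) * n) : S ≠ 0 ∧ lg A S = lg A n := by
  have hl' : Sm A (2 * l) 0 := by
    have h2 : Bd A (2 : K) 0 := bd_zero_iff.mpr (by exact_mod_cast natCast_mem A 2)
    have := h2.mul_sm (sm_zero_iff.mpr hl)
    rwa [zero_add] at this
  have h1 : (2 * l + 1 : K) ≠ 0 ∧ lg A (2 * l + 1) = 0 := by
    have := lg_add_eq (A := A) (x := (1 : K)) (y := 2 * l) one_ne_zero (by rwa [lg_one])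
    rw [lg_one] at this
    rwa [add_comm]
  have h2 : lg A ((2 * l + 1) * n) = lg A n := by rw [lg_mul h1.1 hn, h1.2, zero_add]
  have h3 : (2 * l + 1) * n ≠ 0 := mul_ne_zero h1.1 hn
  have h4 : Sm A (-a₄) (lg A (-((2 * l + 1) * n))) := by
    rw [lg_neg, h2]; exact (hT.bd.neg).sm ha
  have h5 := lg_sub_eq (neg_ne_zero.mpr h3) h4
  rw [lg_neg, h2] at h5
  have : -((2 * l + 1) * n) - -a₄ = S := by rw [hS]; ring
  rwa [this] at h5

variable {x₁ x₂ x₃ l n : K} (hl : l ∈ A.nonunits)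
  (s2 : x₁ * x₂ + x₁ * x₃ + x₂ * x₃ = a₄ - (2 * l + 1) * n)
  (s3 : x₁ * x₂ * x₃ = n ^ 2 - a₆)
include hl s2 s3

omit s3 in
lemma I_MM (hn : n ≠ 0) (ha : lg A n + lg A n = lg A a₆) (hn0 : lg A n < 0)
    (h1 : Bd A x₁ (lg A n)) (h2 : Bd A x₂ (lg A n)) (h3 : Sm A x₃ 0) : False := by
  obtain ⟨e1, e2⟩ := lin_coeff hT hl hn (by grind) s2
  apply not_sm_self e1
  rw [e2]
  refine Sm.add (Sm.add ?_ ?_) ?_
  · exact (h1.mul h2).sm (by grind)
  · have := h1.mul_sm h3; rwa [add_zero] at this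
  · have := h2.mul_sm h3; rwa [add_zero] at this

omit s3 in
lemma I_MPP (hn : n ≠ 0) (ha : lg A n + lg A n = lg A a₆) (hn0 : lg A n < 0)
    (h1 : Bd A x₁ (lg A n)) (h2 : x₂ ≠ 0) (h2' : lg A x₂ < 0) (h3 : x₃ ≠ 0)
    (h3' : lg A x₃ < 0) : lg A x₂ + lg A x₃ = lg A n := by
  obtain ⟨e1, e2⟩ := lin_coeff hT hl hn (by grind) s2
  have h4 : Sm A (x₁ * x₂ + x₁ * x₃) (lg A n) := by
    refine Sm.add ?_ ?_
    · have := h1.mul_sm (show Sm A x₂ 0 from Or.inr h2'); rwa [add_zero] at this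
    · have := h1.mul_sm (show Sm A x₃ 0 from Or.inr h3'); rwa [add_zero] at this
  rw [← e2] at h4
  have := lg_sub_eq e1 h4
  have e : x₁ * x₂ + x₁ * x₃ + x₂ * x₃ - (x₁ * x₂ + x₁ * x₃) = x₂ * x₃ := by ring
  rw [e, e2, lg_mul h2 h3] at this
  exact this.2

omit s2 hl hT in
lemma prod_big (ha : lg A a₆ < lg A n + lg A n) (hn : n ≠ 0) (h1 : x₁ ≠ 0) (h2 : x₂ ≠ 0)
    (h3 : x₃ ≠ 0) : lg A x₁ + lg A x₂ + lg A x₃ = lg A n + lg A n := by
  have h4 : lg A (n ^ 2) = lg A n + lg A n := by rw [lg_pow hn, two_nsmul]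
  have h5 := lg_sub_eq (A := A) (pow_ne_zero 2 hn) (y := a₆)
    ((bd_self a₆).sm (by rw [h4]; exact ha))
  rw [← s3, h4, lg_mul (mul_ne_zero h1 h2) h3, lg_mul h1 h2] at h5
  exact h5.2

lemma I_PPP (h1 : x₁ ≠ 0) (h2 : x₂ ≠ 0) (h3 : x₃ ≠ 0)
    (n1 : Sm A n (lg A x₁)) (n2 : Sm A n (lg A x₂)) (n3 : Sm A n (lg A x₃))
    (z1 : lg A x₁ < 0) :
    lg A x₁ + lg A x₂ + lg A x₃ = lg A a₆ := by
  have hp : lg A (x₁ * x₂ * x₃) = lg A x₁ + lg A x₂ + lg A x₃ := by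
    rw [lg_mul (mul_ne_zero h1 h2) h3, lg_mul h1 h2]
  by_cases hn : n = 0
  · rw [← hp, s3, hn]
    simp
  have n1' := n1.resolve_left hn
  have n2' := n2.resolve_left hn
  have n3' := n3.resolve_left hn
  have h4 : lg A (n ^ 2) = lg A n + lg A n := by rw [lg_pow hn, two_nsmul]
  rcases lt_or_ge (lg A n + lg A n) (lg A a₆) with hlt | hge
  · have h5 := lg_sub_eq (A := A) hT.ne (y := n ^ 2)
      ((bd_self _).sm (by rw [h4]; exact hlt))
    have e : a₆ - n ^ 2 = -(x₁ * x₂ * x₃) := by rw [s3]; ring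
    rw [e, lg_neg, hp] at h5
    exact h5.2
  · exfalso
    have hb : Bd A (x₁ * x₂ * x₃) (lg A n + lg A n) := by
      rw [s3]
      exact Bd.sub (by rw [← h4]; exact bd_self _) ((bd_self _).mono hge)
    have hb' := hb.resolve_left (mul_ne_zero (mul_ne_zero h1 h2) h3)
    rw [hp] at hb'
    obtain ⟨e1, e2⟩ := lin_coeff hT hl hn (by grind) s2
    apply not_sm_self e1
    rw [e2]
    refine Sm.add (Sm.add ?_ ?_) ?_
    · right; rw [lg_mul h1 h2]; grind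
    · right; rw [lg_mul h1 h3]; grind
    · right; rw [lg_mul h2 h3]; grind

/-- Case I: all three points reduce to the node and the slope is small. -/
theorem caseI_kinds {c₁ c₂ c₃ : VG A} (h1 : x₁ ∈ A.nonunits) (h2 : x₂ ∈ A.nonunits)
    (h3 : x₃ ∈ A.nonunits) (k1 : Kind A a₆ n x₁ c₁) (k2 : Kind A a₆ n x₂ c₂)
    (k3 : Kind A a₆ n x₃ c₃) : c₁ + c₂ + c₃ = 0 ∨ c₁ + c₂ + c₃ = lg A a₆ := by
  have z1 := sm_zero_iff.mpr h1
  have z2 := sm_zero_iff.mpr h2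
  have z3 := sm_zero_iff.mpr h3
  have s2' : x₂ * x₃ + x₂ * x₁ + x₃ * x₁ = a₄ - (2 * l + 1) * n := by rw [← s2]; ring
  have s2'' : x₃ * x₁ + x₃ * x₂ + x₁ * x₂ = a₄ - (2 * l + 1) * n := by rw [← s2]; ring
  rcases k1 with ⟨p1, p2, p3, p4, p5⟩ | ⟨p1, p2, p3, p4, p5, p6⟩ | ⟨p1, p2, p3, p4, p5⟩ <;>
  rcases k2 with ⟨q1, q2, q3, q4, q5⟩ | ⟨q1, q2, q3, q4, q5, q6⟩ | ⟨q1, q2, q3, q4, q5⟩ <;>
  rcases k3 with ⟨r1, r2, r3, r4, r5⟩ | ⟨r1, r2, r3, r4, r5, r6⟩ | ⟨r1, r2, r3, r4, r5⟩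
  -- PPP
  · right; rw [p2, q2, r2]; exact I_PPP hT hl s2 s3 p1 q1 r1 p5 q5 r5 p4
  -- PPN
  · have := prod_big (A := A) s3 (by grind) r2 p1 q1 r1
    left; grind
  -- PPM
  · have := I_MPP hT hl s2'' r1 r3 r5 r4 p1 p4 q1 q4
    right; grind
  -- PNP
  · have := prod_big (A := A) s3 (by grind) q2 p1 q1 r1
    left; grind
  -- PNN
  · have := prod_big (A := A) s3 (by grind) q2 p1 q1 r1
    grind
  -- PNM
  · grind
  -- PMP
  · have := I_MPP hT hl s2' q1 q3 q5 q4 r1 r4 p1 p4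
    right; grind
  -- PMN
  · grind
  -- PMM
  · exact (I_MM hT hl s2' q1 q3 q5 q4 r4 z1).elim
  -- NPP
  · have := prod_big (A := A) s3 (by grind) p2 p1 q1 r1
    left; grind
  -- NPN
  · have := prod_big (A := A) s3 (by grind) p2 p1 q1 r1
    grind
  -- NPM
  · grind
  -- NNP
  · have := prod_big (A := A) s3 (by grind) p2 p1 q1 r1
    grind
  -- NNN
  · have := prod_big (A := A) s3 (by grind) p2 p1 q1 r1
    grind
  -- NNM
  · grind
  -- NMP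
  · grind
  -- NMN
  · grind
  -- NMM
  · grind
  -- MPP
  · have := I_MPP hT hl s2 p1 p3 p5 p4 q1 q4 r1 r4
    right; grind
  -- MPN
  · grind
  -- MPM
  · exact (I_MM hT hl s2'' p1 p3 p5 r4 p4 z2).elim
  -- MNP
  · grind
  -- MNN
  · grind
  -- MNM
  · grind
  -- MMP
  · exact (I_MM hT hl s2 p1 p3 p5 p4 q4 z3).elim
  -- MMN
  · grind
  -- MMM
  · exact (I_MM hT hl s2 p1 p3 p5 p4 q4 z3).elim

end caseI

section caseII

variable {a₄ a₆ x₁ y₁ x₂ y₂ x₃ y₃ l n : K} (hT : TateCoeffs A a₄ a₆)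

/-- the slope when exactly one of the three points is in the zero component -/
lemma slope_II (c : Col a₄ a₆ x₁ y₁ x₂ y₂ x₃ y₃ l n) (h1 : x₁ ∈ A.nonunits)
    (h2 : x₂ ∈ A.nonunits) (h3 : x₃ ∉ A.nonunits) :
    l ≠ 0 ∧ l + 1 ≠ 0 ∧ 0 ≤ lg A l ∧ lg A (l + 1) = lg A l := by
  have hx3 : x₃ ≠ 0 := by rintro rfl; exact h3 (zero_mem _)
  have h30 := (lg_nonneg_iff hx3).mpr h3
  have hs : Sm A (x₁ + x₂) (lg A x₃) :=
    ((sm_zero_iff.mpr h1).add (sm_zero_iff.mpr h2)).mono h30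
  obtain ⟨e1, e2⟩ := lg_add_eq hx3 hs
  have e : x₃ + (x₁ + x₂) = l * (l + 1) := by rw [← add_comm, c.s1]; ring
  rw [e] at e1 e2
  have hl : l ≠ 0 := left_ne_zero_of_mul e1
  have hl1 : l + 1 ≠ 0 := right_ne_zero_of_mul e1
  have hm := lg_mul (A := A) hl hl1
  rw [e2] at hm
  have hlA : 0 ≤ lg A l := by
    by_contra hlt
    rw [not_le] at hlt
    obtain ⟨-, f2⟩ := lg_add_eq (A := A) (x := (1 : K)) (y := l) one_ne_zero
      (by rw [lg_one]; exact Or.inr hlt)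
    rw [lg_one, add_comm] at f2
    grind
  refine ⟨hl, hl1, hlA, ?_⟩
  rcases hlA.lt_or_eq with hlt | heq
  · exact (lg_add_eq (A := A) (y := (1 : K)) hl (by right; rw [lg_one]; exact hlt)).2
  · have hb : Bd A (l + 1) 0 := (show Bd A l 0 from Or.inr heq.symm.le).add
      (Or.inr (by rw [lg_one]))
    have hb' := hb.resolve_left hl1
    grind

/-- position of a node point with respect to a line meeting the zero component once -/
inductive Kind2 (A : ValuationSubring K) (a₆ l n x y : K) (c : VG A) : Prop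
  | P (hx : x ≠ 0) (hc : c = lg A x) (ha : lg A a₆ < lg A x + lg A x) (hx0 : lg A x < 0)
      (hyx : y + x ≠ 0) (hyx' : lg A (y + x) = lg A x) (hy : Sm A y (lg A x)) (hn : n ≠ 0)
      (hnx : lg A n = lg A l + lg A x)
  | N (hx : x ≠ 0) (hc : c = - lg A x) (ha : lg A a₆ < lg A x + lg A x) (hx0 : lg A x < 0)
      (hyx : y ≠ 0) (hyx' : lg A y = lg A x) (hy : Sm A (y + x) (lg A x)) (hn : n ≠ 0)
      (hnx : lg A n = lg A l + lg A x)
  | M (hy : y ≠ 0) (hyx : y + x ≠ 0) (hyy : lg A y = lg A (y + x)) (hc : c = lg A y)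
      (ha : lg A y + lg A y = lg A a₆) (hx : Bd A x (lg A y)) (hy0 : lg A y < 0)

include hT in
lemma kind2_of_isComp {x y : K} (he : y * (y + x) = x ^ 3 + a₄ * x + a₆)
    (hy : y = l * x + n) (hl : l ≠ 0) (hl1 : l + 1 ≠ 0) (hl0 : 0 ≤ lg A l)
    (hll : lg A (l + 1) = lg A l) (hx : x ∈ A.nonunits) {c : VG A}
    (h : IsComp A x y c) : Kind2 A a₆ l n x y c := by
  rcases h with hx' | ⟨hx', h1, h2⟩ | ⟨hx', h1, h2⟩ | ⟨hx', h1, h2, h3⟩
  · exact absurd hx hx'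
  · obtain ⟨f1, f2, f3, f4⟩ := pos_facts hT he hx h1 h2
    rw [← f2] at h2
    have hlx : lg A (l * x) = lg A l + lg A x := lg_mul hl f1
    have := lg_sub_eq (A := A) (mul_ne_zero hl f1) (y := y)
      (h2.mono (by rw [hlx]; grind))
    have e : l * x - y = -n := by rw [hy]; ring
    rw [e, lg_neg, hlx, neg_ne_zero] at this
    exact .P f1 f2.symm f3 f4 h1 f2.symm h2 this.1 this.2
  · obtain ⟨f1, f2, f3, f4⟩ := neg_facts hT he hx h1 h2
    rw [← f2] at h2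
    have hlx : lg A ((l + 1) * x) = lg A l + lg A x := by rw [lg_mul hl1 f1, hll]
    have := lg_sub_eq (A := A) (mul_ne_zero hl1 f1) (y := y + x)
      (h2.mono (by rw [hlx]; grind))
    have e : (l + 1) * x - (y + x) = -n := by rw [hy]; ring
    rw [e, lg_neg, hlx, neg_ne_zero] at this
    exact .N f1 (by rw [f2]) f3 f4 h1 f2.symm h2 this.1 this.2
  · obtain ⟨f1, f2, f3⟩ := mid_facts hT he hx h1 h2 h3
    exact .M h1 h2 h3 rfl f1 f2 f3

include hT in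
lemma star_bound {b₁ b₂ g : VG A} (h1 : Bd A x₁ b₁) (h2 : Bd A x₂ b₂)
    (hb1 : b₁ < 0) (hb2 : b₂ < 0) (g1 : lg A a₆ + b₁ < g) (g2 : lg A a₆ + b₂ < g)
    (g3 : b₁ + b₂ + (b₁ + b₂) < g) :
    Sm A (a₄ * (x₁ * x₂) - (x₁ * x₂) ^ 2 + a₆ * (x₁ + x₂)) g := by
  have h12 := h1.mul h2
  refine Sm.add (Sm.sub ?_ ?_) ?_
  · exact (hT.bd.mul h12).sm (by grind)
  · rw [sq]; exact (h12.mul h12).sm g3
  · rw [mul_add]
    exact (((bd_self a₆).mul h1).sm g1).add (((bd_self a₆).mul h2).sm g2)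

include hT in
lemma II_star_false (c : Col a₄ a₆ x₁ y₁ x₂ y₂ x₃ y₃ l n) {b₁ b₂ d : VG A}
    (h1 : Bd A x₁ b₁) (h2 : Bd A x₂ b₂) (hb1 : b₁ < 0) (hb2 : b₂ < 0) (hn : n ≠ 0)
    (hd0 : (y₂ + x₂) * x₁ ≠ 0) (hd : lg A ((y₂ + x₂) * x₁) = d) (hd' : Sm A (y₁ * x₂) d)
    (g1 : lg A a₆ + b₁ < lg A n + d) (g2 : lg A a₆ + b₂ < lg A n + d)
    (g3 : b₁ + b₂ + (b₁ + b₂) < lg A n + d) : False := by
  have h := star_bound hT h1 h2 hb1 hb2 g1 g2 g3
  rw [← c.star] at h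
  obtain ⟨e1, e2⟩ := lg_add_eq hd0 (by rw [hd]; exact hd')
  have e3 : (y₂ + x₂) * x₁ + y₁ * x₂ = y₁ * x₂ + (y₂ + x₂) * x₁ := add_comm _ _
  rw [e3] at e1 e2
  apply not_sm_self (A := A) (mul_ne_zero hn e1)
  rwa [lg_mul hn e1, e2, hd]

include hT in
lemma II_PP (c : Col a₄ a₆ x₁ y₁ x₂ y₂ x₃ y₃ l n) (hl0 : 0 ≤ lg A l)
    (hx1 : x₁ ≠ 0) (ha1 : lg A a₆ < lg A x₁ + lg A x₁) (hx10 : lg A x₁ < 0)
    (hy1 : Sm A y₁ (lg A x₁)) (hn : n ≠ 0) (hnx1 : lg A n = lg A l + lg A x₁)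
    (hx2 : x₂ ≠ 0) (hyx2 : y₂ + x₂ ≠ 0) (hyx2' : lg A (y₂ + x₂) = lg A x₂)
    (hnx2 : lg A n = lg A l + lg A x₂) : False := by
  have hr : lg A x₁ = lg A x₂ := by grind
  refine II_star_false hT c (bd_self x₁) (bd_self x₂) hx10 (hr ▸ hx10) hn
    (mul_ne_zero hyx2 hx1) (d := lg A x₁ + lg A x₁) ?_ ?_ ?_ ?_ ?_
  · rw [lg_mul hyx2 hx1, hyx2', hr]
  · rw [hr]; rw [hr] at hy1; exact hy1.mul_bd (bd_self _)
  · grind
  · grind
  · grind

include hT in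
lemma II_PM (c : Col a₄ a₆ x₁ y₁ x₂ y₂ x₃ y₃ l n) (hl0 : 0 ≤ lg A l)
    (hx1 : x₁ ≠ 0) (ha1 : lg A a₆ < lg A x₁ + lg A x₁) (hx10 : lg A x₁ < 0)
    (hy1 : Sm A y₁ (lg A x₁)) (hn : n ≠ 0) (hnx1 : lg A n = lg A l + lg A x₁)
    (hyx2 : y₂ + x₂ ≠ 0) (hyy2 : lg A y₂ = lg A (y₂ + x₂))
    (ha2 : lg A y₂ + lg A y₂ = lg A a₆) (hx2 : Bd A x₂ (lg A y₂)) (hy20 : lg A y₂ < 0) :
    False := by
  refine II_star_false hT c (bd_self x₁) hx2 hx10 hy20 hn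
    (mul_ne_zero hyx2 hx1) (d := lg A x₁ + lg A y₂) ?_ ?_ ?_ ?_ ?_
  · rw [lg_mul hyx2 hx1, ← hyy2, add_comm]
  · exact hy1.mul_bd hx2
  · grind
  · grind
  · grind

include hT in
/-- Case II: exactly one of the three points is in the zero component. -/
theorem caseII {c₁ c₂ : VG A} (c : Col a₄ a₆ x₁ y₁ x₂ y₂ x₃ y₃ l n) (h1 : x₁ ∈ A.nonunits)
    (h2 : x₂ ∈ A.nonunits) (h3 : x₃ ∉ A.nonunits) (k1 : IsComp A x₁ y₁ c₁)
    (k2 : IsComp A x₂ y₂ c₂) : c₁ + c₂ = 0 ∨ c₁ + c₂ = lg A a₆ := by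
  obtain ⟨hl, hl1, hl0, hll⟩ := slope_II c h1 h2 h3
  have cn := c.negate
  have hln0 : 0 ≤ lg A (-1 - l) := by
    have : (-1 - l : K) = -(l + 1) := by ring
    rw [this, lg_neg, hll]; exact hl0
  have hnn : lg A (-1 - l) = lg A l := by
    have : (-1 - l : K) = -(l + 1) := by ring
    rw [this, lg_neg, hll]
  have e1 : -(y₁ + x₁) + x₁ = -y₁ := by ring
  have e2 : -(y₂ + x₂) + x₂ = -y₂ := by ring
  rcases kind2_of_isComp hT c.eq1 c.h1 hl hl1 hl0 hll h1 k1 with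
    ⟨p1, p2, p3, p4, p5, p6, p7, p8, p9⟩ | ⟨p1, p2, p3, p4, p5, p6, p7, p8, p9⟩ |
      ⟨p1, p2, p3, p4, p5, p6, p7⟩ <;>
  rcases kind2_of_isComp hT c.eq2 c.h2 hl hl1 hl0 hll h2 k2 with
    ⟨q1, q2, q3, q4, q5, q6, q7, q8, q9⟩ | ⟨q1, q2, q3, q4, q5, q6, q7, q8, q9⟩ |
      ⟨q1, q2, q3, q4, q5, q6, q7⟩
  -- PP
  · exact (II_PP hT c hl0 p1 p3 p4 p7 p8 p9 q1 q5 q6 q9).elim
  -- PN
  · left; grind
  -- PM
  · exact (II_PM hT c hl0 p1 p3 p4 p7 p8 p9 q2 q3 q5 q6 q7).elim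
  -- NP
  · left; grind
  -- NN
  · refine (II_PP hT cn hln0 p1 p3 p4 ?_ (neg_ne_zero.mpr p8) ?_ q1 ?_ ?_ ?_).elim
    · exact p7.neg
    · rw [lg_neg, hnn]; exact p9
    · rw [e2]; exact neg_ne_zero.mpr q5
    · rw [e2, lg_neg]; exact q6
    · rw [lg_neg, hnn]; exact q9
  -- NM
  · refine (II_PM hT cn hln0 p1 p3 p4 ?_ (neg_ne_zero.mpr p8) ?_ ?_ ?_ ?_ ?_ ?_).elim
    · exact p7.neg
    · rw [lg_neg, hnn]; exact p9
    · rw [e2]; exact neg_ne_zero.mpr q1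
    · rw [e2, lg_neg, lg_neg]; exact q3.symm
    · rw [lg_neg, ← q3]; exact q5
    · rw [lg_neg, ← q3]; exact q6
    · rw [lg_neg, ← q3]; exact q7
  -- MP
  · exact (II_PM hT c.swap12 hl0 q1 q3 q4 q7 q8 q9 p2 p3 p5 p6 p7).elim
  -- MN
  · refine (II_PM hT cn.swap12 hln0 q1 q3 q4 ?_ (neg_ne_zero.mpr q8) ?_ ?_ ?_ ?_ ?_ ?_).elim
    · exact q7.neg
    · rw [lg_neg, hnn]; exact q9
    · rw [e1]; exact neg_ne_zero.mpr p1
    · rw [e1, lg_neg, lg_neg]; exact p3.symm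
    · rw [lg_neg, ← p3]; exact p5
    · rw [lg_neg, ← p3]; exact p6
    · rw [lg_neg, ← p3]; exact p7
  -- MM
  · right; grind

end caseII

section caseIII

variable {a₄ a₆ x₁ y₁ x₂ y₂ x₃ y₃ l n : K} (hT : TateCoeffs A a₄ a₆)

include hT in
/-- Case III: the zero component is closed under addition. -/
theorem caseIII (c : Col a₄ a₆ x₁ y₁ x₂ y₂ x₃ y₃ l n) (h1 : x₁ ∈ A.nonunits)
    (h2 : x₂ ∉ A.nonunits) (h3 : x₃ ∉ A.nonunits) : False := by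
  have hx2 : x₂ ≠ 0 := by rintro rfl; exact h2 (zero_mem _)
  have hx3 : x₃ ≠ 0 := by rintro rfl; exact h3 (zero_mem _)
  have h20 := (lg_nonneg_iff hx2).mpr h2
  have h30 := (lg_nonneg_iff hx3).mpr h3
  have hy1 := y_nonunits hT c.eq1 h1
  have z1 := sm_zero_iff.mpr h1
  have hT0 := hT.lt
  have hlgT : lg A (x₂ * x₃) = lg A x₂ + lg A x₃ := lg_mul hx2 hx3
  have hb2 : Bd A x₂ (lg A x₂ + lg A x₃) := (bd_self _).mono (by grind)
  have hb3 : Bd A x₃ (lg A x₂ + lg A x₃) := (bd_self _).mono (by grind)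
  have f1 : Sm A (x₁ * x₂ + x₁ * x₃ - a₄) (lg A (x₂ * x₃)) := by
    rw [hlgT]
    refine Sm.sub (Sm.add ?_ ?_) ?_
    · have := z1.mul_bd hb2; rwa [zero_add] at this
    · have := z1.mul_bd hb3; rwa [zero_add] at this
    · exact hT.bd.sm (by grind)
  obtain ⟨g1, g2⟩ := lg_add_eq (mul_ne_zero hx2 hx3) f1
  have e : x₂ * x₃ + (x₁ * x₂ + x₁ * x₃ - a₄) = -((2 * l + 1) * n) := by
    have := c.s2; linear_combination this
  rw [e, lg_neg, hlgT] at g2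
  rw [e, neg_ne_zero] at g1
  have hn : n ≠ 0 := right_ne_zero_of_mul g1
  have hl2 : 2 * l + 1 ≠ 0 := left_ne_zero_of_mul g1
  -- the slope is not integral
  have hlA : l ∉ A := by
    intro hlA
    have hnm : n ∈ A.nonunits := by
      have hlx : Sm A (l * x₁) 0 := by
        have := (bd_zero_iff.mpr hlA).mul_sm z1; rwa [zero_add] at this
      have := (sm_zero_iff.mpr hy1).sub hlx
      rw [c.h1, add_sub_cancel_left] at this
      exact sm_zero_iff.mp this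
    have h21 : Bd A (2 * l + 1) 0 := bd_zero_iff.mpr (A.add_mem _ _ (A.mul_mem _ _
      (by exact_mod_cast natCast_mem A 2) hlA) A.one_mem)
    have := h21.mul_sm (sm_zero_iff.mpr hnm)
    rw [zero_add] at this
    have := this.resolve_left g1
    grind
  have hl0 : l ≠ 0 := by rintro rfl; exact hlA A.zero_mem
  have hlpos := (lg_pos_iff hl0).mpr hlA
  -- size of l
  have f2 : lg A (l * (l + 1)) = lg A l + lg A l := by
    obtain ⟨k1, k2⟩ := lg_add_eq (A := A) (y := (1 : K)) hl0 (by right; rw [lg_one]; exact hlpos)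
    rw [lg_mul hl0 k1, k2]
  have hll : l * (l + 1) ≠ 0 := by
    obtain ⟨k1, k2⟩ := lg_add_eq (A := A) (y := (1 : K)) hl0 (by right; rw [lg_one]; exact hlpos)
    exact mul_ne_zero hl0 k1
  have f3 : Bd A (l * (l + 1)) (max (lg A x₂) (lg A x₃)) := by
    have e : l * (l + 1) = x₁ + x₂ + x₃ := by rw [c.s1]; ring
    rw [e]
    refine Bd.add (Bd.add (z1.bd.mono ?_) ((bd_self _).mono (le_max_left _ _)))
      ((bd_self _).mono (le_max_right _ _))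
    exact h20.trans (le_max_left _ _)
  have f3' := f3.resolve_left hll
  rw [f2] at f3'
  have f4 : Bd A (2 * l + 1) (lg A l) := by
    refine Bd.add ?_ ?_
    · have h2 : Bd A (2 : K) 0 := bd_zero_iff.mpr (by exact_mod_cast natCast_mem A 2)
      have := h2.mul (bd_self (A := A) l); rwa [zero_add] at this
    · right; rw [lg_one]; exact hlpos.le
  have f5 : lg A x₂ + lg A x₃ ≤ lg A l + lg A n := by
    have := (f4.mul (bd_self (A := A) n)).resolve_left g1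
    rwa [g2] at this
  have hmax : max (lg A x₂) (lg A x₃) ≤ lg A x₂ + lg A x₃ := max_le (by grind) (by grind)
  have hn2 : lg A x₂ + lg A x₃ ≤ lg A n + lg A n := by
    generalize max (lg A x₂) (lg A x₃) = m at *
    grind
  have hnn : lg A (n ^ 2) = lg A n + lg A n := by rw [lg_pow hn, two_nsmul]
  obtain ⟨k1, k2⟩ := lg_sub_eq (A := A) (pow_ne_zero 2 hn) (y := a₆)
    ((bd_self a₆).sm (by rw [hnn]; grind))
  rw [← c.s3] at k1 k2
  have hx1 : x₁ ≠ 0 := left_ne_zero_of_mul (left_ne_zero_of_mul k1)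
  rw [hnn, lg_mul (mul_ne_zero hx1 hx2) hx3, lg_mul hx1 hx2] at k2
  have := (lg_neg_iff hx1).mpr h1
  grind

end caseIII

end Fermat.Agent.H05
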