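import Mathlib
import Fermat.Agent.H05_Comp

set_option autoImplicit false

/-! # The component homomorphism `E(K) → Γ / ⟨v(a₆)⟩` for `y² + xy = x³ + a₄x + a₆` -/

namespace Fermat.Agent.H05

open WeierstrassCurve WeierstrassCurve.Affine

variable {K : Type*} [Field K]

/-- the curve `y² + xy = x³ + a₄x + a₆` -/
def tateW (a₄ a₆ : K) : WeierstrassCurve.Affine K := ⟨1, 0, 0, a₄, a₆⟩

@[simp] lemma tateW_a₁ (a₄ a₆ : K) : (tateW a₄ a₆).a₁ = 1 := rfl
@[simp] lemma tateW_a₂ (a₄ a₆ : K) : (tateW a₄ a₆).a₂ = 0 := rfl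
@[simp] lemma tateW_a₃ (a₄ a₆ : K) : (tateW a₄ a₆).a₃ = 0 := rfl
@[simp] lemma tateW_a₄ (a₄ a₆ : K) : (tateW a₄ a₆).a₄ = a₄ := rfl
@[simp] lemma tateW_a₆ (a₄ a₆ : K) : (tateW a₄ a₆).a₆ = a₆ := rfl

lemma tateW_equation {a₄ a₆ x y : K} (h : (tateW a₄ a₆).Equation x y) :
    y * (y + x) = x ^ 3 + a₄ * x + a₆ := by
  rw [equation_iff] at h
  simp only [tateW_a₁, tateW_a₂, tateW_a₃, tateW_a₄, tateW_a₆] at h
  linear_combination h

variable {A : ValuationSubring K}

/-- The component relation is functional. -/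
lemma IsComp.unique {x y : K} {c c' : VG A} (h : IsComp A x y c) (h' : IsComp A x y c') :
    c = c' := by
  have key : ∀ {u w : K}, u ≠ 0 → Sm A u (lg A w) → w ≠ 0 → Sm A w (lg A u) → False := by
    intro u w hu hs hw hs'
    exact lt_asymm (hs.resolve_left hu) (hs'.resolve_left hw)
  rcases h with hx | ⟨hx, h1, h2⟩ | ⟨hx, h1, h2⟩ | ⟨hx, h1, h2, h3⟩ <;>
  rcases h' with hx' | ⟨hx', g1, g2⟩ | ⟨hx', g1, g2⟩ | ⟨hx', g1, g2, g3⟩
  all_goals first
    | rfl
    | exact absurd hx' hx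
    | exact absurd hx hx'
    | skip
  · exact (key g1 h2 h1 g2).elim
  · exact absurd (h2.resolve_left g1) (by rw [g3]; exact lt_irrefl _)
  · exact (key h1 g2 g1 h2).elim
  · exact absurd (h2.resolve_left g2) (by rw [g3]; exact lt_irrefl _)
  · exact absurd (g2.resolve_left h1) (by rw [h3]; exact lt_irrefl _)
  · exact absurd (g2.resolve_left h2) (by rw [h3]; exact lt_irrefl _)

/-- Every affine point has a component. -/
lemma exists_isComp {a₄ a₆ x y : K} (hT : TateCoeffs A a₄ a₆)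
    (he : y * (y + x) = x ^ 3 + a₄ * x + a₆) : ∃ c, IsComp A x y c := by
  by_cases hx : x ∈ A.nonunits
  · by_cases h1 : y = 0
    · have h2 : y + x ≠ 0 := by
        rintro h2
        have hx0 : x = 0 := by rw [h1, zero_add] at h2; exact h2
        rw [h1, hx0] at he
        apply hT.ne
        linear_combination -he
      exact ⟨_, .pos hx h2 (Or.inl h1)⟩
    · by_cases h2 : y + x = 0
      · exact ⟨_, .neg hx h1 (Or.inl h2)⟩
      · rcases lt_trichotomy (lg A y) (lg A (y + x)) with h | h | h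
        · exact ⟨_, .pos hx h2 (Or.inr h)⟩
        · exact ⟨_, .mid hx h1 h2 h⟩
        · exact ⟨_, .neg hx h1 (Or.inr h)⟩
  · exact ⟨0, .zero hx⟩

/-- the component quotient group -/
abbrev CG (A : ValuationSubring K) (a : K) : Type _ := VG A ⧸ AddSubgroup.zmultiples (lg A a)

variable {a₄ a₆ : K} (hT : TateCoeffs A a₄ a₆)

/-- the component of a point -/
noncomputable def compFun (hT : TateCoeffs A a₄ a₆) : (tateW a₄ a₆).Point → CG A a₆
  | .zero => 0
  | .some _ _ h => QuotientAddGroup.mk (exists_isComp hT (tateW_equation h.1)).choose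

lemma compFun_zero : compFun hT (0 : (tateW a₄ a₆).Point) = 0 := rfl

lemma compFun_some {x y : K} (h : (tateW a₄ a₆).Nonsingular x y) {c : VG A}
    (hc : IsComp A x y c) :
    compFun hT (.some x y h) = QuotientAddGroup.mk c := by
  rw [compFun]
  congr 1
  exact (exists_isComp hT (tateW_equation h.1)).choose_spec.unique hc

lemma mk_lg_eq_zero : (QuotientAddGroup.mk (lg A a₆) : CG A a₆) = 0 := by
  rw [QuotientAddGroup.eq_zero_iff]
  exact AddSubgroup.mem_zmultiples _

lemma compFun_neg (P : (tateW a₄ a₆).Point) : compFun hT (-P) = - compFun hT P := by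
  rcases P with _ | ⟨x, y, h⟩
  · show compFun hT (-0) = - compFun hT 0
    rw [Point.neg_zero, compFun_zero, neg_zero]
  · obtain ⟨c, hc⟩ := exists_isComp hT (tateW_equation h.1)
    obtain ⟨c', hc', hsum⟩ := hc.negate hT (tateW_equation h.1)
    rw [Point.neg_some, compFun_some hT h hc]
    have e : (tateW a₄ a₆).negY x y = -(y + x) := by simp [negY]; ring
    have hc'' : IsComp A x ((tateW a₄ a₆).negY x y) c' := by rw [e]; exact hc'
    rw [compFun_some hT _ hc'', eq_neg_iff_add_eq_zero, ← QuotientAddGroup.mk_add, add_comm c' c]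
    rcases hsum with h0 | h0
    · rw [h0]; rfl
    · rw [h0]; exact mk_lg_eq_zero

variable [DecidableEq K]

/-- components of three points summing to zero -/
theorem compFun_sum (P₁ P₂ P₃ : (tateW a₄ a₆).Point) (h : P₁ + P₂ + P₃ = 0) :
    compFun hT P₁ + compFun hT P₂ + compFun hT P₃ = 0 := by
  rcases P₁ with _ | ⟨x₁, y₁, h₁⟩
  · have h' : P₂ + P₃ = 0 := by
      have : (Point.zero : (tateW a₄ a₆).Point) = 0 := rfl
      rwa [this, zero_add] at h
    rw [eq_neg_of_add_eq_zero_left h', compFun_neg]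
    show compFun hT 0 + _ + _ = 0
    rw [compFun_zero]; abel
  rcases P₂ with _ | ⟨x₂, y₂, h₂⟩
  · have h' : Point.some x₁ y₁ h₁ + P₃ = 0 := by
      have : (Point.zero : (tateW a₄ a₆).Point) = 0 := rfl
      rwa [this, add_zero] at h
    rw [eq_neg_of_add_eq_zero_left h', compFun_neg]
    show _ + compFun hT 0 + _ = 0
    rw [compFun_zero]; abel
  rcases P₃ with _ | ⟨x₃, y₃, h₃⟩
  · have h' : Point.some x₁ y₁ h₁ + Point.some x₂ y₂ h₂ = 0 := by
      have : (Point.zero : (tateW a₄ a₆).Point) = 0 := rfl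
      rwa [this, add_zero] at h
    rw [eq_neg_of_add_eq_zero_left h', compFun_neg]
    show _ + _ + compFun hT 0 = 0
    rw [compFun_zero]; abel
  obtain ⟨l, n, e1, e2, e3, e4, e5, e6⟩ := exists_line h
  have col : Col a₄ a₆ x₁ y₁ x₂ y₂ x₃ y₃ l n :=
    ⟨e1, e2, e3, by rw [e4]; simp, by rw [e5]; simp; ring, by rw [e6]; simp⟩
  obtain ⟨c₁, k₁⟩ := exists_isComp hT col.eq1
  obtain ⟨c₂, k₂⟩ := exists_isComp hT col.eq2
  obtain ⟨c₃, k₃⟩ := exists_isComp hT col.eq3
  rw [compFun_some hT h₁ k₁, compFun_some hT h₂ k₂, compFun_some hT h₃ k₃,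
    ← QuotientAddGroup.mk_add, ← QuotientAddGroup.mk_add]
  have fin : ∀ {c : VG A}, (c = 0 ∨ c = lg A a₆) → (QuotientAddGroup.mk c : CG A a₆) = 0 := by
    rintro c (rfl | rfl)
    · rfl
    · exact mk_lg_eq_zero
  have zc : ∀ {x y : K} {c : VG A}, x ∉ A.nonunits → IsComp A x y c → c = 0 := by
    intro x y c hx hc
    exact hc.unique (.zero hx)
  by_cases m1 : x₁ ∈ A.nonunits <;> by_cases m2 : x₂ ∈ A.nonunits <;>
    by_cases m3 : x₃ ∈ A.nonunits
  · -- all in the node
    have hll : l ∈ A.nonunits ∨ l + 1 ∈ A.nonunits := by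
      have hs : l * (l + 1) ∈ A.nonunits := by
        have : l * (l + 1) = x₁ + x₂ + x₃ := by rw [col.s1]; ring
        rw [this]; exact add_mem (add_mem m1 m2) m3
      by_contra hcon
      rw [not_or] at hcon
      have hl0 : l ≠ 0 := by rintro rfl; exact hcon.1 (zero_mem _)
      have hl1 : l + 1 ≠ 0 := by intro h0; rw [h0] at hcon; exact hcon.2 (zero_mem _)
      have i1 := (lg_nonneg_iff hl0).mpr hcon.1
      have i2 := (lg_nonneg_iff hl1).mpr hcon.2
      have i3 := (lg_neg_iff (mul_ne_zero hl0 hl1)).mpr hs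
      rw [lg_mul hl0 hl1] at i3
      exact absurd i3 (not_lt.mpr (add_nonneg i1 i2))
    rcases hll with hl | hl
    · exact fin (caseI_kinds hT hl col.s2 col.s3 m1 m2 m3
        (kind_of_isComp hT col.eq1 col.h1 hl m1 k₁) (kind_of_isComp hT col.eq2 col.h2 hl m2 k₂)
        (kind_of_isComp hT col.eq3 col.h3 hl m3 k₃))
    · obtain ⟨d₁, j₁, t₁⟩ := k₁.negate hT col.eq1
      obtain ⟨d₂, j₂, t₂⟩ := k₂.negate hT col.eq2
      obtain ⟨d₃, j₃, t₃⟩ := k₃.negate hT col.eq3
      have cn := col.negate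
      have hl' : -1 - l ∈ A.nonunits := by
        have := neg_mem hl
        convert! this using 1; ring
      have := fin (caseI_kinds hT hl' cn.s2 cn.s3 m1 m2 m3
        (kind_of_isComp hT cn.eq1 cn.h1 hl' m1 j₁) (kind_of_isComp hT cn.eq2 cn.h2 hl' m2 j₂)
        (kind_of_isComp hT cn.eq3 cn.h3 hl' m3 j₃))
      have q₁ := fin t₁
      have q₂ := fin t₂
      have q₃ := fin t₃
      rw [QuotientAddGroup.mk_add] at q₁ q₂ q₃
      rw [QuotientAddGroup.mk_add, QuotientAddGroup.mk_add] at this ⊢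
      have r₁ := eq_neg_of_add_eq_zero_left q₁
      have r₂ := eq_neg_of_add_eq_zero_left q₂
      have r₃ := eq_neg_of_add_eq_zero_left q₃
      rw [r₁, r₂, r₃]
      have : -(QuotientAddGroup.mk d₁ : CG A a₆) + -(QuotientAddGroup.mk d₂ : CG A a₆)
        + -(QuotientAddGroup.mk d₃ : CG A a₆) =
        -((QuotientAddGroup.mk d₁ : CG A a₆) + (QuotientAddGroup.mk d₂ : CG A a₆)
        + (QuotientAddGroup.mk d₃ : CG A a₆)) := by abel
      rw [this, ‹(QuotientAddGroup.mk d₁ : CG A a₆) + (QuotientAddGroup.mk d₂ : CG A a₆)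
        + (QuotientAddGroup.mk d₃ : CG A a₆) = 0›, neg_zero]
  · rw [zc m3 k₃, add_zero]
    exact fin (caseII hT col m1 m2 m3 k₁ k₂)
  · rw [zc m2 k₂, add_zero, add_comm]
    exact fin (caseII hT col.rot.rot m3 m1 m2 k₃ k₁)
  · exact (caseIII hT col m1 m2 m3).elim
  · rw [zc m1 k₁, zero_add]
    exact fin (caseII hT col.rot m2 m3 m1 k₂ k₃)
  · exact (caseIII hT col.rot m2 m3 m1).elim
  · exact (caseIII hT col.rot.rot m3 m1 m2).elim
  · rw [zc m1 k₁, zc m2 k₂, zc m3 k₃]
    simp

/-- **The component homomorphism.** -/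
noncomputable def compHom : (tateW a₄ a₆).Point →+ CG A a₆ :=
  AddMonoidHom.mk' (compFun hT) (by
    intro P Q
    have := compFun_sum hT P Q (-(P + Q)) (by abel)
    rw [compFun_neg] at this
    exact (add_neg_eq_zero.mp this).symm)

lemma compHom_apply (P : (tateW a₄ a₆).Point) : compHom hT P = compFun hT P := rfl

lemma compHom_some {x y : K} (h : (tateW a₄ a₆).Nonsingular x y) {c : VG A}
    (hc : IsComp A x y c) : compHom hT (.some x y h) = QuotientAddGroup.mk c :=
  compFun_some hT h hc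

omit [DecidableEq K] in
include hT in
/-- Components of node points are never trivial. -/
lemma IsComp.ne_zero {x y : K} (he : y * (y + x) = x ^ 3 + a₄ * x + a₆) (hx : x ∈ A.nonunits)
    {c : VG A} (hc : IsComp A x y c) : (QuotientAddGroup.mk c : CG A a₆) ≠ 0 := by
  intro h0
  rw [QuotientAddGroup.eq_zero_iff, AddSubgroup.mem_zmultiples_iff] at h0
  obtain ⟨k, hk⟩ := h0
  have ha := hT.lt
  have hb : c ≠ 0 ∧ lg A a₆ < c + c ∧ c + c < - lg A a₆ ∨ c + c = lg A a₆ := by
    rcases hc with hx' | ⟨hx', h1, h2⟩ | ⟨hx', h1, h2⟩ | ⟨hx', h1, h2, h3⟩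
    · exact absurd hx hx'
    · obtain ⟨f1, f2, f3, f4⟩ := pos_facts hT he hx h1 h2
      left; rw [← f2]; refine ⟨f4.ne, f3, ?_⟩; grind
    · obtain ⟨f1, f2, f3, f4⟩ := neg_facts hT he hx h1 h2
      left; rw [← f2]; refine ⟨?_, ?_, ?_⟩
      · exact (neg_ne_zero.mpr f4.ne)
      · grind
      · grind
    · exact Or.inr (mid_facts hT he hx h1 h2 h3).1
  rcases lt_trichotomy k 0 with hk0 | hk0 | hk0
  · have h1 : -lg A a₆ ≤ c := by
      rw [← hk]
      have : (-k) • lg A a₆ ≤ (1 : ℤ) • lg A a₆ := by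
        exact (zsmul_left_strictAnti ha).antitone (by omega)
      rw [one_smul, neg_smul] at this
      have h2 := neg_le_neg this
      rwa [neg_neg] at h2
    rcases hb with ⟨-, -, h3⟩ | h3
    · grind
    · grind
  · rw [hk0, zero_smul] at hk
    rcases hb with ⟨h3, -, -⟩ | h3
    · exact h3 hk.symm
    · rw [← hk, add_zero] at h3; exact ha.ne h3.symm
  · have h1 : c ≤ lg A a₆ := by
      rw [← hk]
      have : k • lg A a₆ ≤ (1 : ℤ) • lg A a₆ :=
        (zsmul_left_strictAnti ha).antitone (by omega)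
      rwa [one_smul] at this
    rcases hb with ⟨-, h3, -⟩ | h3
    · grind
    · grind

/-- The kernel of the component homomorphism is the zero component. -/
theorem compHom_eq_zero_iff {x y : K} (h : (tateW a₄ a₆).Nonsingular x y) :
    compHom hT (.some x y h) = 0 ↔ x ∉ A.nonunits := by
  have he := tateW_equation h.1
  obtain ⟨c, hc⟩ := exists_isComp hT he
  rw [compHom_some hT h hc]
  constructor
  · intro h0 hx
    exact hc.ne_zero hT he hx h0
  · intro hx
    rw [hc.unique (.zero hx)]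
    rfl

end Fermat.Agent.H05
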