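import Mathlib
import Fermat.Agent.H05_Velu
import Fermat.Agent.H05_CompHom
import Fermat.Agent.H05_Good

set_option autoImplicit false

/-! # Valuation of `Δ(E)/Δ(E/C)` at a place of multiplicative reduction -/

namespace Fermat.Agent.H05

open WeierstrassCurve WeierstrassCurve.Affine

/-! ### a sum of minimal residues -/

lemma sum_min_residues (k : ℕ) :
    ∑ i ∈ Finset.range (2 * k + 1), min i (2 * k + 1 - i) = k * (k + 1) := by
  have h1 : 2 * k + 1 = (k + 1) + k := by ring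
  rw [h1, Finset.sum_range_add]
  have e1 : ∀ i ∈ Finset.range (k + 1), min i (k + 1 + k - i) = i := by
    intro i hi; rw [Finset.mem_range] at hi; omega
  have e2 : ∀ i ∈ Finset.range k, min (k + 1 + i) (k + 1 + k - (k + 1 + i)) = k - 1 - i + 1 := by
    intro i hi; rw [Finset.mem_range] at hi; omega
  rw [Finset.sum_congr rfl e1, Finset.sum_congr rfl e2,
    Finset.sum_range_reflect (fun j => j + 1) k, Finset.sum_add_distrib]
  have h2 := Finset.sum_range_id_mul_two (k + 1)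
  have h3 := Finset.sum_range_id_mul_two k
  simp only [Finset.sum_const, Finset.card_range, smul_eq_mul, mul_one, Nat.add_sub_cancel] at *
  have h4 : (∑ i ∈ Finset.range (k + 1), i) = (∑ i ∈ Finset.range k, i) + k :=
    Finset.sum_range_succ _ _
  rcases k with _ | k
  · simp
  · simp only [Nat.add_sub_cancel] at h3
    nlinarith

lemma four_mul_sum_natAbs {p : ℕ} (hp : p.Prime) (hp2 : p ≠ 2) {m : ℤ} (hm : ¬ (p : ℤ) ∣ m)
    (r : ℕ → ℤ) (hr : ∀ i ∈ Finset.range p, (p : ℤ) ∣ r i - i * m ∧ 2 * |r i| < p) :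
    4 * ∑ i ∈ Finset.range p, |r i| = (p : ℤ) ^ 2 - 1 := by
  have := Fact.mk hp
  have hm0 : ((m : ℤ) : ZMod p) ≠ 0 := by
    rwa [Ne, ZMod.intCast_zmod_eq_zero_iff_dvd]
  have h1 : ∀ i ∈ Finset.range p, |r i| =
      ((((i : ZMod p) * (m : ZMod p)).valMinAbs.natAbs : ℕ) : ℤ) := by
    intro i hi
    obtain ⟨ha, hb⟩ := hr i hi
    have : ((i : ZMod p) * (m : ZMod p)).valMinAbs = r i := by
      rw [ZMod.valMinAbs_spec]
      refine ⟨?_, ?_⟩
      · have := (ZMod.intCast_zmod_eq_zero_iff_dvd _ _).mpr ha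
        push_cast at this
        exact (sub_eq_zero.mp this).symm
      · rw [Set.mem_Ioc]
        have := abs_lt.mp (show |2 * r i| < p by rw [abs_mul]; simpa using hb)
        constructor <;> linarith [this.1, this.2]
    rw [this, Int.natCast_natAbs]
  rw [Finset.sum_congr rfl h1, ← Nat.cast_sum]
  have h2 : ∑ i ∈ Finset.range p, ((i : ZMod p) * (m : ZMod p)).valMinAbs.natAbs =
      ∑ a : ZMod p, a.valMinAbs.natAbs := by
    rw [← Equiv.sum_comp (Equiv.mulRight₀ (m : ZMod p) hm0)]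
    refine Finset.sum_nbij (fun i : ℕ => (i : ZMod p)) (fun _ _ => Finset.mem_univ _) ?_ ?_
      (fun _ _ => rfl)
    · intro i hi j hj hij
      simp only [Finset.coe_range, Set.mem_Iio] at hi hj
      have := (ZMod.natCast_eq_natCast_iff' i j p).mp hij
      rwa [Nat.mod_eq_of_lt hi, Nat.mod_eq_of_lt hj] at this
    · intro a _
      exact ⟨a.val, by simpa using a.val_lt, by simp⟩
  have h3 : ∑ a : ZMod p, a.valMinAbs.natAbs = ∑ i ∈ Finset.range p, min i (p - i) := by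
    symm
    refine Finset.sum_nbij (fun i : ℕ => (i : ZMod p)) (fun _ _ => Finset.mem_univ _) ?_ ?_ ?_
    · intro i hi j hj hij
      simp only [Finset.coe_range, Set.mem_Iio] at hi hj
      have := (ZMod.natCast_eq_natCast_iff' i j p).mp hij
      rwa [Nat.mod_eq_of_lt hi, Nat.mod_eq_of_lt hj] at this
    · intro a _
      exact ⟨a.val, by simpa using a.val_lt, by simp⟩
    · intro i hi
      rw [Finset.mem_range] at hi
      rw [ZMod.valMinAbs_natAbs_eq_min, ZMod.val_natCast_of_lt hi]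
  rw [h2, h3]
  obtain ⟨k, rfl⟩ : ∃ k, p = 2 * k + 1 := by
    obtain ⟨k, hk⟩ := hp.odd_of_ne_two hp2
    exact ⟨k, hk⟩
  rw [sum_min_residues]
  push_cast
  ring

variable {K : Type*} [Field K] {A : ValuationSubring K}

section pt

variable {a₄ a₆ : K} (hT : TateCoeffs A a₄ a₆)
include hT

lemma a₄_nonunits : a₄ ∈ A.nonunits := sm_zero_iff.mp (hT.bd.sm hT.lt)

lemma a₆_nonunits : a₆ ∈ A.nonunits := (lg_neg_iff hT.ne).mp hT.lt

lemma coeffsIn_tateW : CoeffsIn A (tateW a₄ a₆) where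
  a₁ := A.one_mem
  a₂ := A.zero_mem
  a₃ := A.zero_mem
  a₄ := A.nonunits_subset (a₄_nonunits hT)
  a₆ := A.nonunits_subset (a₆_nonunits hT)

omit hT in
lemma tateW_Δ_eq : (tateW a₄ a₆).Δ = -a₆ + (a₄ ^ 2 - 64 * a₄ ^ 3 - 432 * a₆ ^ 2 + 72 * a₄ * a₆) := by
  simp only [WeierstrassCurve.Δ, b₂, b₄, b₆, b₈, tateW]
  ring

omit hT in
lemma natCast_mem' (n : ℕ) : (n : K) ∈ A := by
  induction n with
  | zero => simp
  | succ n ih => push_cast; exact A.add_mem _ _ ih A.one_mem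

lemma lg_tateW_Δ : (tateW a₄ a₆).Δ ≠ 0 ∧ lg A (tateW a₄ a₆).Δ = lg A a₆ := by
  rw [tateW_Δ_eq]
  have h0 : (-a₆) ≠ 0 := neg_ne_zero.mpr hT.ne
  have hg := hT.lt
  have key : Sm A (a₄ ^ 2 - 64 * a₄ ^ 3 - 432 * a₆ ^ 2 + 72 * a₄ * a₆) (lg A (-a₆)) := by
    rw [lg_neg]
    have h6 : Bd A a₆ (lg A a₆) := bd_self _
    have h4 := hT.bd
    have c (n : ℕ) : Bd A (n : K) 0 := bd_zero_iff.mpr (natCast_mem' n)
    have s1 : Sm A (a₄ ^ 2) (lg A a₆) := by
      have := h4.mul h4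
      rw [← pow_two] at this
      exact this.sm (by grind)
    have s2 : Sm A (64 * a₄ ^ 3) (lg A a₆) := by
      have := (c 64).mul (h4.mul (h4.mul h4))
      have e : ((64 : ℕ) : K) * (a₄ * (a₄ * a₄)) = 64 * a₄ ^ 3 := by push_cast; ring
      rw [e] at this
      exact this.sm (by grind)
    have s3 : Sm A (432 * a₆ ^ 2) (lg A a₆) := by
      have := (c 432).mul (h6.mul h6)
      have e : ((432 : ℕ) : K) * (a₆ * a₆) = 432 * a₆ ^ 2 := by push_cast; ring
      rw [e] at this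
      exact this.sm (by grind)
    have s4 : Sm A (72 * a₄ * a₆) (lg A a₆) := by
      have := (c 72).mul (h4.mul h6)
      have e : ((72 : ℕ) : K) * (a₄ * a₆) = 72 * a₄ * a₆ := by push_cast; ring
      rw [e] at this
      exact this.sm (by grind)
    exact ((s1.sub s2).sub s3).add s4
  obtain ⟨h1, h2⟩ := lg_add_eq h0 key
  rw [lg_neg] at h2
  exact ⟨h1, h2⟩

/-- `ψ₂` at a point reducing to the node -/
lemma lg_psi2_of_isComp {x y : K} (h : (tateW a₄ a₆).Nonsingular x y) {c : VG A}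
    (hx : x ∈ A.nonunits) (hc : IsComp A x y c) (hmid : c + c ≠ lg A a₆) :
    2 * y + x ≠ 0 ∧ lg A (2 * y + x) = -|c| ∧ |c| + |c| < - lg A a₆ := by
  have he := tateW_equation h.1
  have e : 2 * y + x = (y + x) + y := by ring
  have e' : 2 * y + x = y + (y + x) := by ring
  cases hc with
  | zero hx' => exact absurd hx hx'
  | pos hx h1 h2 =>
    obtain ⟨h3, h4, h5, h6⟩ := pos_facts hT he hx h1 h2
    obtain ⟨h7, h8⟩ := lg_add_eq h1 h2
    rw [← e] at h7 h8
    have h9 : |lg A (y + x)| = - lg A (y + x) := abs_of_neg (by rw [← h4]; exact h6)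
    rw [h9, neg_neg]
    refine ⟨h7, h8, ?_⟩
    rw [h4] at h5
    grind
  | neg hx h1 h2 =>
    obtain ⟨h3, h4, h5, h6⟩ := neg_facts hT he hx h1 h2
    obtain ⟨h7, h8⟩ := lg_add_eq h1 h2
    rw [← e'] at h7 h8
    have h9 : |-lg A y| = - lg A y := by
      rw [abs_neg]; exact abs_of_neg (by rw [← h4]; exact h6)
    rw [h9, neg_neg]
    refine ⟨h7, h8, ?_⟩
    rw [h4] at h5
    grind
  | mid hx h1 h2 h3 =>
    exact absurd (mid_facts hT he hx h1 h2 h3).1 hmid

/-- `ψ₂` at a point reducing to a nonsingular point, neither `O` nor of order two -/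
lemma psi2_notMem_nonunits {x y : K} (h : (tateW a₄ a₆).Nonsingular x y) [DecidableEq K]
    (hx : x ∈ A) (hx' : x ∉ A.nonunits)
    (h2 : ∀ (u w : K) (h' : (tateW a₄ a₆).Nonsingular u w),
      (2 : ℕ) • Point.some x y h = Point.some u w h' → u ∈ A)
    (h0 : (2 : ℕ) • Point.some x y h ≠ 0) :
    2 * y + x ∈ A ∧ 2 * y + x ∉ A.nonunits := by
  have hy : y ∈ A := y_mem (coeffsIn_tateW hT) h.1 hx
  have hm : 2 * y + x ∈ A := A.add_mem _ _ (A.mul_mem _ _ (natCast_mem' 2) hy) hx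
  refine ⟨hm, fun hn => ?_⟩
  have hyy : y ≠ (tateW a₄ a₆).negY x y := by
    intro e
    apply h0
    rw [two_nsmul, Point.add_of_Y_eq rfl e]
  have hd := addX_self h.1 hyy
  rw [psi_two_sq h.1] at hd
  have hu := h2 _ _ _ (by rw [two_nsmul, Point.add_self_of_Y_ne hyy])
  simp only [tateW_a₁, tateW_a₂, tateW_a₃, tateW_a₄, tateW_a₆] at hd
  have e1 : y - (tateW a₄ a₆).negY x y = 2 * y + x := by
    simp only [negY, tateW_a₁, tateW_a₃]; ring
  rw [e1] at hd
  have hL : (tateW a₄ a₆).addX x x ((tateW a₄ a₆).slope x x y y) * (2 * y + x) ^ 2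
      ∈ A.nonunits := by
    refine mul_mem_nonunits hu ?_
    rw [pow_two]
    exact mul_mem_nonunits hm hn
  rw [hd] at hL
  have h4 := a₄_nonunits hT
  have h6 := a₆_nonunits hT
  have h4A := A.nonunits_subset h4
  have hrest : (2 * a₄ + 1 * 0) * x ^ 2 + 2 * (0 ^ 2 + 4 * a₆) * x
        + (1 ^ 2 * a₆ + 4 * 0 * a₆ - 1 * 0 * a₄ + 0 * 0 ^ 2 - a₄ ^ 2) ∈ A.nonunits := by
    have i1 : (2 * x ^ 2) * a₄ ∈ A.nonunits :=
      mul_mem_nonunits (A.mul_mem _ _ (natCast_mem' 2) (pow_mem hx 2)) h4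
    have i2 : (8 * x + 1) * a₆ ∈ A.nonunits :=
      mul_mem_nonunits (A.add_mem _ _ (A.mul_mem _ _ (natCast_mem' 8) hx) A.one_mem) h6
    have i3 : (-a₄) * a₄ ∈ A.nonunits := mul_mem_nonunits (A.neg_mem _ h4A) h4
    have := add_mem (add_mem i1 i2) i3
    convert! this using 1
    ring
  have hx4 : x ^ 4 ∈ A.nonunits := by
    have := add_mem hL hrest
    convert! this using 1
    ring
  apply hx'
  rw [ValuationSubring.mem_nonunits_iff] at hx4 ⊢
  rw [map_pow] at hx4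
  by_contra hc
  rw [not_lt] at hc
  exact absurd hx4 (not_lt.mpr (one_le_pow₀ hc))

end pt

section main

variable [DecidableEq K] {a₄ a₆ : K} (hT : TateCoeffs A a₄ a₆)

lemma nsmul_ne_zero_of_lt {G : Type*} [AddGroup G] {P : G} {n i : ℕ} (hP : addOrderOf P = n)
    (hi : 0 < i) (hin : i < n) : i • P ≠ 0 := by
  intro h0
  have hd := addOrderOf_dvd_of_nsmul_eq_zero h0
  rw [hP] at hd
  exact absurd (Nat.le_of_dvd hi hd) (not_le.mpr hin)

omit [DecidableEq K] in
lemma exists_eq_some {W : WeierstrassCurve.Affine K} {P : W.Point} (hP : P ≠ 0) :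
    ∃ (x y : K) (h : W.Nonsingular x y), P = .some x y h := by
  rcases P with _ | ⟨x, y, h⟩
  · exact absurd rfl hP
  · exact ⟨x, y, h, rfl⟩

omit [DecidableEq K] in
lemma lg_prod {ι : Type*} (s : Finset ι) (f : ι → K) (hf : ∀ i ∈ s, f i ≠ 0) :
    lg A (∏ i ∈ s, f i) = ∑ i ∈ s, lg A (f i) := by
  classical
  induction s using Finset.induction_on with
  | empty => simp
  | insert a s ha ih =>
    rw [Finset.prod_insert ha, Finset.sum_insert ha,
      lg_mul (hf a (Finset.mem_insert_self a s))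
        (Finset.prod_ne_zero_iff.mpr fun i hi => hf i (Finset.mem_insert_of_mem hi)),
      ih fun i hi => hf i (Finset.mem_insert_of_mem hi)]

include hT in
/-- **zero component**: `Δ(E)/Δ(E/C)` has negative valuation. -/
theorem veluQ_zeroComp {P : (tateW a₄ a₆).Point} {p : ℕ} (hp : p.Prime) (hp2 : p ≠ 2)
    (hpA : (p : IsLocalRing.ResidueField A) ≠ 0) (hP : addOrderOf P = p)
    (hc : compHom hT P = 0) :
    veluQ (tateW a₄ a₆) (AddSubgroup.zmultiples P) ≠ 0 ∧
      (veluQ (tateW a₄ a₆) (AddSubgroup.zmultiples P))⁻¹ ∈ A.nonunits := by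
  obtain ⟨hΔ, hΔg⟩ := lg_tateW_Δ hT
  have key : ∀ i ∈ Finset.range p, psi2 (tateW a₄ a₆) (i • P) ≠ 0 ∧
      lg A (psi2 (tateW a₄ a₆) (i • P)) = 0 := by
    intro i hi
    rw [Finset.mem_range] at hi
    rcases Nat.eq_zero_or_pos i with rfl | hi0
    · simp
    obtain ⟨x, y, h, hxy⟩ := exists_eq_some (nsmul_ne_zero_of_lt hP hi0 hi)
    have ht : ∀ j : ℕ, ∀ (u w : K) (h' : (tateW a₄ a₆).Nonsingular u w),
        j • P = Point.some u w h' → u ∈ A := by
      intro j u w h' hj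
      refine mem_of_nsmul_eq_zero (coeffsIn_tateW hT) h' hpA ?_
      rw [← hj, ← mul_nsmul', mul_comm, mul_nsmul', ← hP, addOrderOf_nsmul_eq_zero, nsmul_zero]
    have hx := ht i x y h hxy
    have hx' : x ∉ A.nonunits := by
      rw [← compHom_eq_zero_iff hT h, ← hxy, map_nsmul, hc, nsmul_zero]
    have h20 : (2 : ℕ) • Point.some x y h ≠ 0 := by
      rw [← hxy, ← mul_nsmul']
      intro h0
      have hd := addOrderOf_dvd_of_nsmul_eq_zero h0
      rw [hP, (Nat.Prime.dvd_mul hp)] at hd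
      rcases hd with hd | hd
      · exact hp2 ((Nat.prime_dvd_prime_iff_eq hp Nat.prime_two).mp hd)
      · exact absurd (Nat.le_of_dvd hi0 hd) (not_le.mpr hi)
    obtain ⟨k1, k2⟩ := psi2_notMem_nonunits hT h hx hx' (fun u w h' hu => by
      rw [← hxy, ← mul_nsmul'] at hu
      exact ht _ u w h' hu) h20
    rw [hxy, psi2_some]
    simp only [tateW_a₁, tateW_a₃, one_mul, add_zero]
    have hne : 2 * y + x ≠ 0 := by
      intro h0; rw [h0] at k2; exact k2 (zero_mem _)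
    exact ⟨hne, le_antisymm ((lg_nonpos_iff hne).mpr k1) ((lg_nonneg_iff hne).mpr k2)⟩
  rw [veluQ_zmultiples hp.pos hP]
  have hprod : ∏ i ∈ Finset.range p, psi2 (tateW a₄ a₆) (i • P) ≠ 0 :=
    Finset.prod_ne_zero_iff.mpr fun i hi => (key i hi).1
  have hlg : lg A (∏ i ∈ Finset.range p, psi2 (tateW a₄ a₆) (i • P)) = 0 := by
    rw [lg_prod _ _ fun i hi => (key i hi).1]
    exact Finset.sum_eq_zero fun i hi => (key i hi).2
  have hne : (∏ i ∈ Finset.range p, psi2 (tateW a₄ a₆) (i • P)) ^ 4 /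
      (tateW a₄ a₆).Δ ^ (p - 1) ≠ 0 := div_ne_zero (pow_ne_zero _ hprod) (pow_ne_zero _ hΔ)
  refine ⟨hne, ?_⟩
  rw [← lg_neg_iff (inv_ne_zero hne), lg_inv hne, lg_div (pow_ne_zero _ hprod) (pow_ne_zero _ hΔ),
    lg_pow hprod, lg_pow hΔ, hlg, hΔg, smul_zero, zero_sub, neg_neg]
  have h1 : 0 < p - 1 := by have := hp.two_le; omega
  have h2 := nsmul_pos (neg_pos.mpr hT.lt) h1.ne'
  rwa [smul_neg, neg_pos] at h2

include hT in
/-- **node**: `Δ(E)/Δ(E/C)` has positive valuation. -/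
theorem veluQ_node {P : (tateW a₄ a₆).Point} {p : ℕ} (hp : p.Prime) (hp2 : p ≠ 2)
    (hP : addOrderOf P = p) (hc : compHom hT P ≠ 0) :
    veluQ (tateW a₄ a₆) (AddSubgroup.zmultiples P) ≠ 0 ∧
      veluQ (tateW a₄ a₆) (AddSubgroup.zmultiples P) ∈ A.nonunits := by
  obtain ⟨hΔ, hΔg⟩ := lg_tateW_Δ hT
  have hg := hT.lt
  obtain ⟨γ, hγ⟩ := QuotientAddGroup.mk_surjective (compHom hT P)
  have hpP : p • P = 0 := by rw [← hP]; exact addOrderOf_nsmul_eq_zero P
  -- `p γ = m g`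
  obtain ⟨m, hm⟩ : ∃ m : ℤ, m • lg A a₆ = p • γ := by
    have : (QuotientAddGroup.mk (p • γ) : CG A a₆) = 0 := by
      have h1 : (QuotientAddGroup.mk (p • γ) : CG A a₆) = p • (QuotientAddGroup.mk γ : CG A a₆) := rfl
      rw [h1, hγ, ← map_nsmul, hpP, map_zero]
    rw [QuotientAddGroup.eq_zero_iff] at this
    exact AddSubgroup.mem_zmultiples_iff.mp this
  have hmp : ¬ (p : ℤ) ∣ m := by
    rintro ⟨k, rfl⟩
    apply hc
    rw [← hγ, QuotientAddGroup.eq_zero_iff, AddSubgroup.mem_zmultiples_iff]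
    refine ⟨k, ?_⟩
    have h1 : p • (k • lg A a₆) = p • γ := by
      rw [← hm, mul_smul, natCast_zsmul]
    exact (nsmul_right_inj hp.ne_zero).mp h1
  have := Fact.mk hp
  -- order of the component
  have hord : ∀ i : ℕ, i • compHom hT P = 0 → p ∣ i := by
    intro i hi
    have h1 : addOrderOf (compHom hT P) = p :=
      addOrderOf_eq_prime (by rw [← map_nsmul, hpP, map_zero]) hc
    rw [← h1]
    exact addOrderOf_dvd_of_nsmul_eq_zero hi
  have key : ∀ i ∈ Finset.range p, ∃ r : ℤ, psi2 (tateW a₄ a₆) (i • P) ≠ 0 ∧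
      p • lg A (psi2 (tateW a₄ a₆) (i • P)) = |r| • lg A a₆ ∧
      (p : ℤ) ∣ r - i * m ∧ 2 * |r| < p := by
    intro i hi
    rw [Finset.mem_range] at hi
    rcases Nat.eq_zero_or_pos i with rfl | hi0
    · exact ⟨0, by simp, by simp, by simp, by simpa using hp.pos⟩
    obtain ⟨x, y, h, hxy⟩ := exists_eq_some (nsmul_ne_zero_of_lt hP hi0 hi)
    obtain ⟨c, hcc⟩ := exists_isComp hT (tateW_equation h.1)
    have hci := compHom_some hT h hcc
    rw [← hxy, map_nsmul] at hci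
    have hxn : x ∈ A.nonunits := by
      by_contra hx
      have h0 := (compHom_eq_zero_iff hT h).mpr hx
      rw [← hxy, map_nsmul] at h0
      exact absurd (Nat.le_of_dvd hi0 (hord i h0)) (not_le.mpr hi)
    have hmid : c + c ≠ lg A a₆ := by
      intro hcm
      have h0 : (2 * i) • compHom hT P = 0 := by
        rw [mul_smul, hci, ← QuotientAddGroup.mk_nsmul, two_nsmul, hcm]
        exact mk_lg_eq_zero
      rcases (Nat.Prime.dvd_mul hp).mp (hord _ h0) with hd | hd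
      · exact hp2 ((Nat.prime_dvd_prime_iff_eq hp Nat.prime_two).mp hd)
      · exact absurd (Nat.le_of_dvd hi0 hd) (not_le.mpr hi)
    obtain ⟨f1, f2, f3⟩ := lg_psi2_of_isComp hT h hxn hcc hmid
    -- c = i γ + k g
    obtain ⟨k, hk⟩ : ∃ k : ℤ, k • lg A a₆ = c - i • γ := by
      have : (QuotientAddGroup.mk (c - i • γ) : CG A a₆) = 0 := by
        rw [QuotientAddGroup.mk_sub, QuotientAddGroup.mk_nsmul, hγ, hci, sub_self]
      rw [QuotientAddGroup.eq_zero_iff] at this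
      exact AddSubgroup.mem_zmultiples_iff.mp this
    have hpc : p • c = (i * m + k * p) • lg A a₆ := by
      have : c = i • γ + k • lg A a₆ := by rw [hk]; abel
      rw [this, smul_add, add_smul, mul_smul, hm, natCast_zsmul, mul_comm k, mul_smul,
        natCast_zsmul, smul_comm p i]
    refine ⟨i * m + k * p, ?_, ?_, ⟨k, by ring⟩, ?_⟩
    · rw [hxy, psi2_some]
      simpa using f1
    · rw [hxy, psi2_some]
      simp only [tateW_a₁, tateW_a₃, one_mul, add_zero]
      rw [f2, smul_neg]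
      have h1 : p • |c| = |p • c| := by rw [abs_nsmul]
      rw [h1, hpc, abs_zsmul, abs_of_neg hg, smul_neg, neg_neg]
    · by_contra hcon
      rw [not_lt] at hcon
      have h1 : p • |c| = |i * m + k * p| • (- lg A a₆) := by
        rw [← abs_nsmul, hpc, abs_zsmul, abs_of_neg hg]
      have h2 : p • (|c| + |c|) < p • (- lg A a₆) := nsmul_lt_nsmul_right hp.ne_zero f3
      rw [smul_add, h1, ← add_smul, ← two_mul, ← natCast_zsmul (-lg A a₆) p] at h2
      have h3 := (zsmul_lt_zsmul_iff_left (neg_pos.mpr hg)).mp h2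
      omega
  choose! r hr using key
  rw [veluQ_zmultiples hp.pos hP]
  have hprod : ∏ i ∈ Finset.range p, psi2 (tateW a₄ a₆) (i • P) ≠ 0 :=
    Finset.prod_ne_zero_iff.mpr fun i hi => (hr i hi).1
  have hsum := four_mul_sum_natAbs hp hp2 hmp r fun i hi => ⟨(hr i hi).2.2.1, (hr i hi).2.2.2⟩
  have hlg : (4 * p) • lg A (∏ i ∈ Finset.range p, psi2 (tateW a₄ a₆) (i • P)) =
      ((p : ℤ) ^ 2 - 1) • lg A a₆ := by
    rw [lg_prod _ _ fun i hi => (hr i hi).1, mul_smul, Finset.smul_sum,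
      Finset.sum_congr rfl fun i hi => (hr i hi).2.1, ← Finset.sum_smul,
      ← hsum, mul_smul]
    rfl
  have hne : (∏ i ∈ Finset.range p, psi2 (tateW a₄ a₆) (i • P)) ^ 4 /
      (tateW a₄ a₆).Δ ^ (p - 1) ≠ 0 := div_ne_zero (pow_ne_zero _ hprod) (pow_ne_zero _ hΔ)
  refine ⟨hne, ?_⟩
  rw [← lg_neg_iff hne, lg_div (pow_ne_zero _ hprod) (pow_ne_zero _ hΔ),
    lg_pow hprod, lg_pow hΔ, hΔg]
  set Z := lg A (∏ i ∈ Finset.range p, psi2 (tateW a₄ a₆) (i • P)) with hZ
  have h1 : p • (4 • Z - (p - 1) • lg A a₆) = ((p : ℤ) - 1) • lg A a₆ := by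
    obtain ⟨q, rfl⟩ : ∃ q, p = q + 1 := ⟨p - 1, by have := hp.pos; omega⟩
    have h2 : (q + 1) • (4 • Z) = (4 * (q + 1)) • Z := by rw [mul_comm, mul_smul]
    rw [smul_sub, h2, hlg, Nat.add_sub_cancel, ← natCast_zsmul, ← natCast_zsmul, ← mul_smul,
      ← sub_smul]
    congr 1
    push_cast
    ring
  have h2 : p • (4 • Z - (p - 1) • lg A a₆) < 0 := by
    rw [h1]
    have h3 : (0 : ℤ) < (p : ℤ) - 1 := by have := hp.two_le; omega
    have h4 := zsmul_pos (neg_pos.mpr hg) h3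
    rwa [smul_neg, neg_pos] at h4
  by_contra hcon
  rw [not_lt] at hcon
  exact absurd h2 (not_lt.mpr (nsmul_nonneg hcon p))

end main

end Fermat.Agent.H05
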