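import Mathlib
import Fermat.Agent.H05_VeluLocal

set_option autoImplicit false

/-! # `Δ(E)/Δ(E/C)` at places of multiplicative reduction, arbitrary Weierstrass model -/

namespace Fermat.Agent.H05

open WeierstrassCurve WeierstrassCurve.Affine Fermat.Agent.H74

variable {K : Type*} [Field K] {A : ValuationSubring K}

/-! ### integrality -/

lemma mem_of_isIntegral {x : K} (h : IsIntegral A x) : x ∈ A := by
  obtain ⟨y, hy⟩ := (IsIntegrallyClosed.isIntegral_iff (R := A) (K := K)).mp h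
  rw [← hy]
  exact y.2

lemma mem_of_quadratic {x a b : K} (ha : a ∈ A) (hb : b ∈ A) (h : x ^ 2 + a * x + b = 0) :
    x ∈ A := by
  apply mem_of_isIntegral
  refine ⟨Polynomial.X ^ 2 + (Polynomial.C (⟨a, ha⟩ : A) * Polynomial.X + Polynomial.C ⟨b, hb⟩),
    ?_, ?_⟩
  · exact Polynomial.monic_X_pow_add (lt_of_le_of_lt Polynomial.degree_linear_le (by decide))
  · simp only [Polynomial.eval₂_add, Polynomial.eval₂_pow, Polynomial.eval₂_X,
      Polynomial.eval₂_mul, Polynomial.eval₂_C]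
    have : (algebraMap A K) ⟨a, ha⟩ = a := rfl
    rw [this]
    have : (algebraMap A K) ⟨b, hb⟩ = b := rfl
    rw [this, ← h]
    ring

lemma mem_of_quartic {x a b c : K} (ha : a ∈ A) (hb : b ∈ A) (hc : c ∈ A)
    (h : x ^ 4 + a * x ^ 2 + b * x + c = 0) : x ∈ A := by
  apply mem_of_isIntegral
  refine ⟨Polynomial.X ^ 4 + (Polynomial.C (⟨a, ha⟩ : A) * Polynomial.X ^ 2 +
    Polynomial.C ⟨b, hb⟩ * Polynomial.X + Polynomial.C ⟨c, hc⟩), ?_, ?_⟩
  · exact Polynomial.monic_X_pow_add (lt_of_le_of_lt Polynomial.degree_quadratic_le (by decide))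
  · simp only [Polynomial.eval₂_add, Polynomial.eval₂_pow, Polynomial.eval₂_X,
      Polynomial.eval₂_mul, Polynomial.eval₂_C]
    have e1 : (algebraMap A K) ⟨a, ha⟩ = a := rfl
    have e2 : (algebraMap A K) ⟨b, hb⟩ = b := rfl
    have e3 : (algebraMap A K) ⟨c, hc⟩ = c := rfl
    rw [e1, e2, e3, ← h]
    ring

lemma unit_pow_mem {u : K} (hu : u ≠ 0) {n : ℕ} (hn : n ≠ 0) (h1 : u ^ n ∈ A)
    (h2 : u ^ n ∉ A.nonunits) : u ∈ A ∧ u ∉ A.nonunits := by
  have h3 : lg A (u ^ n) = 0 := le_antisymm ((lg_nonpos_iff (pow_ne_zero n hu)).mpr h1)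
    ((lg_nonneg_iff (pow_ne_zero n hu)).mpr h2)
  rw [lg_pow hu] at h3
  have h4 : lg A u = 0 := (smul_eq_zero.mp h3).resolve_left hn
  exact ⟨(lg_nonpos_iff hu).mp h4.le, (lg_nonneg_iff hu).mp h4.ge⟩

lemma inv_mem_of_notMem {u : K} (h2 : u ∉ A.nonunits) : u⁻¹ ∈ A := by
  by_contra h
  apply h2
  rcases eq_or_ne u 0 with rfl | hu
  · exact zero_mem _
  · rw [← lg_neg_iff hu]
    rw [← lg_pos_iff (inv_ne_zero hu), lg_inv hu] at h
    exact neg_pos.mp h

/-- a change of variables between integral models with `u` a unit is integral -/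
lemma vc_integral {W : WeierstrassCurve K} {C : VariableChange K} (hW : CoeffsIn A W)
    (hT : CoeffsIn A (C • W)) (hu : (C.u : K) ∈ A) : C.r ∈ A ∧ C.s ∈ A ∧ C.t ∈ A := by
  have hu0 := u_ne_zero C
  have nc := fun n : ℕ => (natCast_mem' (A := A) n)
  have hb2 : W.b₂ ∈ A := by
    rw [b₂]; exact A.add_mem _ _ (pow_mem hW.a₁ 2) (A.mul_mem _ _ (nc 4) hW.a₂)
  have hb4 : ∀ {V : WeierstrassCurve K}, CoeffsIn A V → V.b₄ ∈ A := fun h => by
    rw [b₄]; exact A.add_mem _ _ (A.mul_mem _ _ (nc 2) h.a₄) (A.mul_mem _ _ h.a₁ h.a₃)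
  have hb6 : ∀ {V : WeierstrassCurve K}, CoeffsIn A V → V.b₆ ∈ A := fun h => by
    rw [b₆]; exact A.add_mem _ _ (pow_mem h.a₃ 2) (A.mul_mem _ _ (nc 4) h.a₆)
  have hb8 : ∀ {V : WeierstrassCurve K}, CoeffsIn A V → V.b₈ ∈ A := fun h => by
    rw [b₈]
    exact A.toSubring.sub_mem (A.add_mem _ _ (A.toSubring.sub_mem (A.add_mem _ _
      (A.mul_mem _ _ (pow_mem h.a₁ 2) h.a₆) (A.mul_mem _ _ (A.mul_mem _ _ (nc 4) h.a₂) h.a₆))
      (A.mul_mem _ _ (A.mul_mem _ _ h.a₁ h.a₃) h.a₄)) (A.mul_mem _ _ h.a₂ (pow_mem h.a₃ 2)))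
      (pow_mem h.a₄ 2)
  have e6 : (C.u : K) ^ 6 * (C • W).b₆ = W.b₆ + 2 * C.r * W.b₄ + C.r ^ 2 * W.b₂ + 4 * C.r ^ 3 := by
    rw [variableChange_b₆, Units.val_inv_eq_inv_val]; field_simp
  have e8 : (C.u : K) ^ 8 * (C • W).b₈ =
      W.b₈ + 3 * C.r * W.b₆ + 3 * C.r ^ 2 * W.b₄ + C.r ^ 3 * W.b₂ + 3 * C.r ^ 4 := by
    rw [variableChange_b₈, Units.val_inv_eq_inv_val]; field_simp
  have hr : C.r ∈ A := by
    have h1 : C.r ^ 4 + (-W.b₄) * C.r ^ 2 + (-(2 * W.b₆ + (C.u : K) ^ 6 * (C • W).b₆)) * C.r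
        + (-(W.b₈ - (C.u : K) ^ 8 * (C • W).b₈)) = 0 := by
      rw [e6, e8]; ring
    refine mem_of_quartic (A.neg_mem _ (hb4 hW)) (A.neg_mem _ (A.add_mem _ _
      (A.mul_mem _ _ (nc 2) (hb6 hW)) (A.mul_mem _ _ (pow_mem hu 6) (hb6 hT))))
      (A.neg_mem _ (A.toSubring.sub_mem (hb8 hW) (A.mul_mem _ _ (pow_mem hu 8) (hb8 hT)))) h1
  have e2 : (C.u : K) ^ 2 * (C • W).a₂ = W.a₂ - C.s * W.a₁ + 3 * C.r - C.s ^ 2 := by
    rw [variableChange_a₂, Units.val_inv_eq_inv_val]; field_simp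
  have hs : C.s ∈ A := by
    have h1 : C.s ^ 2 + W.a₁ * C.s + ((C.u : K) ^ 2 * (C • W).a₂ - W.a₂ - 3 * C.r) = 0 := by
      rw [e2]; ring
    exact mem_of_quadratic hW.a₁ (A.toSubring.sub_mem (A.toSubring.sub_mem
      (A.mul_mem _ _ (pow_mem hu 2) hT.a₂) hW.a₂) (A.mul_mem _ _ (nc 3) hr)) h1
  have e6' : (C.u : K) ^ 6 * (C • W).a₆ = W.a₆ + C.r * W.a₄ + C.r ^ 2 * W.a₂ + C.r ^ 3
      - C.t * W.a₃ - C.t ^ 2 - C.r * C.t * W.a₁ := by
    rw [variableChange_a₆, Units.val_inv_eq_inv_val]; field_simp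
  have ht : C.t ∈ A := by
    have h1 : C.t ^ 2 + (W.a₃ + C.r * W.a₁) * C.t + ((C.u : K) ^ 6 * (C • W).a₆ - W.a₆
        - C.r * W.a₄ - C.r ^ 2 * W.a₂ - C.r ^ 3) = 0 := by
      rw [e6']; ring
    exact mem_of_quadratic (A.add_mem _ _ hW.a₃ (A.mul_mem _ _ hr hW.a₁))
      (A.toSubring.sub_mem (A.toSubring.sub_mem (A.toSubring.sub_mem (A.toSubring.sub_mem
      (A.mul_mem _ _ (pow_mem hu 6) hT.a₆) hW.a₆) (A.mul_mem _ _ hr hW.a₄))
      (A.mul_mem _ _ (pow_mem hr 2) hW.a₂)) (pow_mem hr 3)) h1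
  exact ⟨hr, hs, ht⟩

/-! ### the zero component -/

/-- `P` reduces to a nonsingular point of the reduced Weierstrass equation. -/
def ZeroComp (A : ValuationSubring K) (W : WeierstrassCurve K) (P : W.toAffine.Point) : Prop :=
  ∀ (x y : K) (h : W.toAffine.Nonsingular x y), P = .some x y h → x ∈ A →
    (2 * y + W.a₁ * x + W.a₃ ∉ A.nonunits ∨
      3 * x ^ 2 + 2 * W.a₂ * x + W.a₄ - W.a₁ * y ∉ A.nonunits)

lemma zeroComp_tateW [DecidableEq K] {a₄ a₆ : K} (hT : TateCoeffs A a₄ a₆)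
    (P : (tateW a₄ a₆).Point) : ZeroComp A (tateW a₄ a₆) P ↔ compHom hT P = 0 := by
  rcases P with _ | ⟨x, y, h⟩
  · exact ⟨fun _ => (compHom hT).map_zero, fun _ x y h e => absurd e (by simp)⟩
  · rw [compHom_eq_zero_iff hT h]
    have he := tateW_equation h.1
    have h4 := a₄_nonunits hT
    have h6 := a₆_nonunits hT
    have nc := fun n : ℕ => (natCast_mem' (A := A) n)
    constructor
    · intro hz hx
      have hy := y_nonunits hT he hx
      have hxA := A.nonunits_subset hx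
      rcases hz x y h rfl hxA with h1 | h1 <;> apply h1
      · simp only [tateW_a₁, tateW_a₃]
        have := add_mem (mul_mem_nonunits (nc 2) hy) hx
        convert! this using 1
        push_cast
        ring
      · simp only [tateW_a₁, tateW_a₂, tateW_a₄]
        have := sub_mem (add_mem (mul_mem_nonunits (A.mul_mem _ _ (nc 3) hxA) hx) h4) hy
        convert! this using 1
        push_cast
        ring
    · intro hx x' y' h' e hx'A
      rw [Point.some.injEq] at e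
      obtain ⟨rfl, rfl⟩ := e
      have hyA : y ∈ A := y_mem (coeffsIn_tateW hT) h.1 hx'A
      by_contra hcon
      simp only [tateW_a₁, tateW_a₂, tateW_a₃, tateW_a₄] at hcon
      push Not at hcon
      obtain ⟨k1, k2⟩ := hcon
      -- d1 = 2y + x, d2 = 3x² + a₄ - y
      have k1' : 2 * y + x ∈ A.nonunits := by convert! k1 using 1; ring
      have k2' : 3 * x ^ 2 + a₄ - y ∈ A.nonunits := by convert! k2 using 1; ring
      have k3 : 3 * x ^ 2 - y ∈ A.nonunits := by
        have := sub_mem k2' h4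
        convert! this using 1
        ring
      have k4 : x * (1 + 6 * x) ∈ A.nonunits := by
        have := add_mem k1' (mul_mem_nonunits (nc 2) k3)
        convert! this using 1
        push_cast
        ring
      have k5 : x ^ 3 * (9 * x + 2) ∈ A.nonunits := by
        have i1 := mul_mem_nonunits (A.add_mem _ _ (A.add_mem _ _ (A.mul_mem _ _ (nc 3)
          (pow_mem hx'A 2)) hyA) hx'A) k3
        have i2 := mul_mem_nonunits hx'A h4
        have := add_mem (add_mem i1 i2) h6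
        convert! this using 1
        push_cast
        linear_combination he
      have div : ∀ {a b : K}, a ∉ A.nonunits → a * b ∈ A.nonunits → b ∈ A.nonunits := by
        intro a b ha hab
        have := mul_mem_nonunits (inv_mem_of_notMem ha) hab
        have ha0 : a ≠ 0 := by rintro rfl; exact ha (zero_mem _)
        rwa [inv_mul_cancel_left₀ ha0] at this
      have hx3 : x ^ 3 ∉ A.nonunits := by
        intro h3
        have h3' : x * x ^ 2 ∈ A.nonunits := by convert! h3 using 1; ring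
        have h2 := div hx h3'
        rw [pow_two] at h2
        exact hx (div hx h2)
      have k6 := div hx k4
      have k7 := div hx3 k5
      have k8 : (1 : K) ∈ A.nonunits := by
        have := sub_mem (mul_mem_nonunits (nc 2) k7) (mul_mem_nonunits (nc 3) k6)
        convert! this using 1
        push_cast
        ring
      rw [ValuationSubring.mem_nonunits_iff, map_one] at k8
      exact lt_irrefl _ k8

lemma zeroComp_vc [DecidableEq K] {W : WeierstrassCurve K} {C : VariableChange K}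
    (hu : (C.u : K) ∈ A) (hu' : (C.u : K) ∉ A.nonunits) (hr : C.r ∈ A) (hs : C.s ∈ A)
    (P : (C • W).toAffine.Point) :
    ZeroComp A W (H74.pointEquiv W C P) ↔ ZeroComp A (C • W) P := by
  rcases P with _ | ⟨x, y, h⟩
  · constructor
    · intro _ x y h e; exact absurd e (by simp)
    · intro _ x y h e
      exact absurd e (by simp [H74.pointEquiv, pointMap])
  · have hu0 := u_ne_zero C
    have hui := inv_mem_of_notMem hu'
    have keyY : 2 * vcY C x y + W.a₁ * vcX C x + W.a₃ =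
        (C.u : K) ^ 3 * (2 * y + (C • W).a₁ * x + (C • W).a₃) := by
      simp only [vcX, vcY, variableChange_a₁, variableChange_a₃, Units.val_inv_eq_inv_val]
      field_simp
      ring
    have keyX : 3 * vcX C x ^ 2 + 2 * W.a₂ * vcX C x + W.a₄ - W.a₁ * vcY C x y =
        (C.u : K) ^ 4 * (3 * x ^ 2 + 2 * (C • W).a₂ * x + (C • W).a₄ - (C • W).a₁ * y)
          + C.s * (2 * vcY C x y + W.a₁ * vcX C x + W.a₃) := by
      simp only [vcX, vcY, variableChange_a₁, variableChange_a₂, variableChange_a₄,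
        Units.val_inv_eq_inv_val]
      field_simp
      ring
    have hX : vcX C x ∈ A ↔ x ∈ A := by
      constructor
      · intro hx
        have := A.mul_mem _ _ (pow_mem hui 2) (A.toSubring.sub_mem hx hr)
        have e : (C.u : K)⁻¹ ^ 2 * (vcX C x - C.r) = x := by
          simp only [vcX]; field_simp; ring
        rwa [e] at this
      · intro hx
        exact A.add_mem _ _ (A.mul_mem _ _ (pow_mem hu 2) hx) hr
    have hmul : ∀ (n : ℕ) (z : K), (C.u : K) ^ n * z ∈ A.nonunits ↔ z ∈ A.nonunits := by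
      intro n z
      constructor
      · intro hz
        have := mul_mem_nonunits (pow_mem hui n) hz
        rwa [← mul_assoc, ← mul_pow, inv_mul_cancel₀ hu0, one_pow, one_mul] at this
      · intro hz
        exact mul_mem_nonunits (pow_mem hu n) hz
    have e : ((2 * vcY C x y + W.a₁ * vcX C x + W.a₃ ∉ A.nonunits ∨
        3 * vcX C x ^ 2 + 2 * W.a₂ * vcX C x + W.a₄ - W.a₁ * vcY C x y ∉ A.nonunits) ↔
        (2 * y + (C • W).a₁ * x + (C • W).a₃ ∉ A.nonunits ∨
        3 * x ^ 2 + 2 * (C • W).a₂ * x + (C • W).a₄ - (C • W).a₁ * y ∉ A.nonunits)) := by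
      rw [← not_and_or, ← not_and_or, not_iff_not]
      constructor
      · rintro ⟨h1, h2⟩
        have h1' := h1
        rw [keyY, hmul] at h1'
        refine ⟨h1', ?_⟩
        rw [keyX] at h2
        have := sub_mem h2 (mul_mem_nonunits hs h1)
        rw [add_sub_cancel_right, hmul] at this
        exact this
      · rintro ⟨h1, h2⟩
        have h1' : 2 * vcY C x y + W.a₁ * vcX C x + W.a₃ ∈ A.nonunits := by
          rw [keyY, hmul]; exact h1
        refine ⟨h1', ?_⟩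
        rw [keyX]
        exact add_mem ((hmul 4 _).mpr h2) (mul_mem_nonunits hs h1')
    constructor
    · intro hz x' y' h' he hx'
      rw [Point.some.injEq] at he
      obtain ⟨rfl, rfl⟩ := he
      rw [← e]
      exact hz _ _ _ (H74.pointEquiv_some W C h) (hX.mpr hx')
    · intro hz x' y' h' he hx'
      rw [H74.pointEquiv_some, Point.some.injEq] at he
      obtain ⟨rfl, rfl⟩ := he
      rw [e]
      exact hz _ _ _ rfl (hX.mp hx')

/-- Transport of an integral Weierstrass equation with multiplicative reduction to the normal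
form `y² + xy = x³ + a₄x + a₆`. -/
theorem exists_vc_tateW [IsSepClosed K] {W : WeierstrassCurve K} (hW : CoeffsIn A W)
    (hΔ : W.Δ ≠ 0) (hΔA : W.Δ ∈ A.nonunits) (hc : W.c₄ ∉ A.nonunits) :
    ∃ (C : VariableChange K) (a₄ a₆ : K), TateCoeffs A a₄ a₆ ∧ C • W = tateW a₄ a₆ ∧
      (C.u : K) ∈ A ∧ (C.u : K) ∉ A.nonunits ∧ C.r ∈ A ∧ C.s ∈ A ∧ C.t ∈ A := by
  have nc := fun n : ℕ => (natCast_mem' (A := A) n)
  have hc4A : W.c₄ ∈ A := by
    rw [c₄, b₂, b₄]
    exact A.toSubring.sub_mem (pow_mem (A.add_mem _ _ (pow_mem hW.a₁ 2)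
      (A.mul_mem _ _ (nc 4) hW.a₂)) 2) (A.mul_mem _ _ (nc 24)
      (A.add_mem _ _ (A.mul_mem _ _ (nc 2) hW.a₄) (A.mul_mem _ _ hW.a₁ hW.a₃)))
  have hc0 : W.c₄ ≠ 0 := by rintro h; rw [h] at hc; exact hc (zero_mem _)
  have lc : lg A W.c₄ = 0 := le_antisymm ((lg_nonpos_iff hc0).mpr hc4A)
    ((lg_nonneg_iff hc0).mpr hc)
  have lΔ : lg A W.Δ < 0 := (lg_neg_iff hΔ).mpr hΔA
  -- the j-invariant
  obtain ⟨j, hj⟩ : ∃ j, j = W.c₄ ^ 3 / W.Δ := ⟨_, rfl⟩
  have hj0 : j ≠ 0 := by rw [hj]; exact div_ne_zero (pow_ne_zero 3 hc0) hΔ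
  have lj : lg A j = - lg A W.Δ := by
    rw [hj, lg_div (pow_ne_zero 3 hc0) hΔ, lg_pow hc0, lc, smul_zero, zero_sub]
  have h1728 : Sm A (1728 : K) (lg A j) := by
    have : Bd A ((1728 : ℕ) : K) 0 := bd_zero_iff.mpr (nc 1728)
    have := this.sm (show (0 : VG A) < lg A j by rw [lj]; exact neg_pos.mpr lΔ)
    simpa using this
  obtain ⟨hm0, hml⟩ := lg_sub_eq hj0 h1728
  set m := j - 1728 with hm
  have hT : TateCoeffs A (-36 / m) (-1 / m) := by
    have l6 : lg A (-1 / m) = lg A W.Δ := by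
      rw [lg_div (neg_ne_zero.mpr one_ne_zero) hm0, lg_neg, lg_one, hml, lj]; abel
    refine ⟨div_ne_zero (neg_ne_zero.mpr one_ne_zero) hm0, by rw [l6]; exact lΔ, ?_⟩
    have h36 : Bd A ((36 : ℕ) : K) 0 := bd_zero_iff.mpr (nc 36)
    have := h36.mul (bd_self (A := A) (-1 / m))
    rw [zero_add] at this
    convert! this using 1
    push_cast
    ring
  have ec4 : (tateW (-36 / m) (-1 / m)).c₄ = j / m := by
    simp only [c₄, b₂, b₄, tateW]
    have : j = m + 1728 := by rw [hm]; ring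
    rw [this]
    field_simp
    ring
  have eΔ : (tateW (-36 / m) (-1 / m)).Δ = j ^ 2 / m ^ 3 := by
    rw [tateW_Δ_eq]
    have : j = m + 1728 := by rw [hm]; ring
    rw [this]
    field_simp
    ring
  have hΔT := (lg_tateW_Δ hT).1
  have : W.IsElliptic := ⟨isUnit_iff_ne_zero.mpr hΔ⟩
  have : (tateW (-36 / m) (-1 / m)).IsElliptic := ⟨isUnit_iff_ne_zero.mpr hΔT⟩
  obtain ⟨C, hC⟩ := exists_variableChange_of_j_eq W (tateW (-36 / m) (-1 / m)) (by
    rw [WeierstrassCurve.j, WeierstrassCurve.j, Units.val_inv_eq_inv_val,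
      Units.val_inv_eq_inv_val, coe_Δ', coe_Δ', ec4, eΔ, mul_comm, ← div_eq_mul_inv, ← hj]
    field_simp)
  have hu0 := u_ne_zero C
  have hcu : (C.u : K) ^ 4 * (C • W).c₄ = W.c₄ := by
    rw [variableChange_c₄, Units.val_inv_eq_inv_val]; field_simp
  have lu : lg A ((C.u : K) ^ 4) = 0 := by
    have h1 : lg A ((C • W).c₄) = 0 := by
      rw [hC, ec4, lg_div hj0 hm0, hml, sub_self]
    have h2 : (C • W).c₄ ≠ 0 := by
      rw [hC, ec4]; exact div_ne_zero hj0 hm0
    have h3 := congrArg (lg A) hcu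
    rw [lg_mul (pow_ne_zero 4 hu0) h2, h1, add_zero, lc] at h3
    exact h3
  obtain ⟨hu, hu'⟩ := unit_pow_mem (A := A) hu0 four_ne_zero
    ((lg_nonpos_iff (pow_ne_zero 4 hu0)).mp lu.le) ((lg_nonneg_iff (pow_ne_zero 4 hu0)).mp lu.ge)
  have hTi : CoeffsIn A (C • W) := by rw [hC]; exact coeffsIn_tateW hT
  obtain ⟨hr, hs, ht⟩ := vc_integral hW hTi hu
  exact ⟨C, _, _, hT, hC, hu, hu', hr, hs, ht⟩


section final

variable [DecidableEq K]

lemma veluQ_node_of_eq {V : WeierstrassCurve K} {a₄ a₆ : K} (hT : TateCoeffs A a₄ a₆)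
    (hV : V = tateW a₄ a₆) {P : V.toAffine.Point} {p : ℕ} (hp : p.Prime) (hp2 : p ≠ 2)
    (hP : addOrderOf P = p) (hz : ¬ ZeroComp A V P) :
    veluQ V (AddSubgroup.zmultiples P) ≠ 0 ∧
      veluQ V (AddSubgroup.zmultiples P) ∈ A.nonunits := by
  subst hV
  exact veluQ_node hT hp hp2 hP (by rwa [Ne, ← zeroComp_tateW hT])

lemma veluQ_zero_of_eq {V : WeierstrassCurve K} {a₄ a₆ : K} (hT : TateCoeffs A a₄ a₆)
    (hV : V = tateW a₄ a₆) {P : V.toAffine.Point} {p : ℕ} (hp : p.Prime) (hp2 : p ≠ 2)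
    (hpA : (p : IsLocalRing.ResidueField A) ≠ 0) (hP : addOrderOf P = p)
    (hz : ZeroComp A V P) :
    veluQ V (AddSubgroup.zmultiples P) ≠ 0 ∧
      (veluQ V (AddSubgroup.zmultiples P))⁻¹ ∈ A.nonunits := by
  subst hV
  exact veluQ_zeroComp hT hp hp2 hpA hP (by rwa [← zeroComp_tateW hT])

variable [IsSepClosed K] {W : WeierstrassCurve K} (hW : CoeffsIn A W)
  (hΔ : W.Δ ≠ 0) (hΔA : W.Δ ∈ A.nonunits) (hc : W.c₄ ∉ A.nonunits)
  {P : W.toAffine.Point} {p : ℕ} (hp : p.Prime) (hp2 : p ≠ 2) (hP : addOrderOf P = p)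

include hW hΔ hΔA hc hp hp2 hP

/-- **Node**: if `P` (of odd prime order) reduces to the node, then `Δ(E)/Δ(E/⟨P⟩)` has positive
valuation. -/
theorem veluQ_mem_nonunits (hz : ¬ ZeroComp A W P) :
    veluQ W (AddSubgroup.zmultiples P) ≠ 0 ∧
      veluQ W (AddSubgroup.zmultiples P) ∈ A.nonunits := by
  obtain ⟨C, a₄, a₆, hT, hC, hu, hu', hr, hs, ht⟩ := exists_vc_tateW hW hΔ hΔA hc
  obtain ⟨P', rfl⟩ := (H74.pointEquiv W C).surjective P
  have hP' : addOrderOf P' = p := by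
    rw [← hP]
    exact (addOrderOf_injective (H74.pointEquiv W C).toAddMonoidHom
      (H74.pointEquiv W C).injective P').symm
  rw [veluQ_pointEquiv C hΔ hp.pos hP']
  exact veluQ_node_of_eq hT hC hp hp2 hP' (by rwa [← zeroComp_vc hu hu' hr hs])

/-- **Zero component**: if `P` (of odd prime order, prime to the residue characteristic) reduces
to a nonsingular point, then `Δ(E)/Δ(E/⟨P⟩)` has negative valuation. -/
theorem inv_veluQ_mem_nonunits (hpA : (p : IsLocalRing.ResidueField A) ≠ 0)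
    (hz : ZeroComp A W P) :
    veluQ W (AddSubgroup.zmultiples P) ≠ 0 ∧
      (veluQ W (AddSubgroup.zmultiples P))⁻¹ ∈ A.nonunits := by
  obtain ⟨C, a₄, a₆, hT, hC, hu, hu', hr, hs, ht⟩ := exists_vc_tateW hW hΔ hΔA hc
  obtain ⟨P', rfl⟩ := (H74.pointEquiv W C).surjective P
  have hP' : addOrderOf P' = p := by
    rw [← hP]
    exact (addOrderOf_injective (H74.pointEquiv W C).toAddMonoidHom
      (H74.pointEquiv W C).injective P').symm
  rw [veluQ_pointEquiv C hΔ hp.pos hP']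
  exact veluQ_zero_of_eq hT hC hp hp2 hpA hP' (by rwa [← zeroComp_vc hu hu' hr hs])

end final

end Fermat.Agent.H05
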