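import Mathlib
import Fermat.Prelude.Def_EllipticCurve_ZeroComponentAt
import Fermat.Prelude.Def_FLTPrelim_GaloisRep
import Fermat.Agent.H05_VeluMult
import Fermat.Agent.H05_FreyGood

set_option autoImplicit false

/-! # `Δ(E)/Δ(E/⟨Q⟩)` for a Weierstrass curve over `ℤ`: statement at places of `ℚ̄` -/

namespace Fermat.Agent.H05

open WeierstrassCurve WeierstrassCurve.Affine

local notation "Qb" => AlgebraicClosure ℚ

variable (W : WeierstrassCurve ℤ) (A : ValuationSubring Qb)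

/-- the base change of `W` to `ℚ̄` -/
noncomputable abbrev WQ : WeierstrassCurve Qb := (W.map (Int.castRingHom ℚ)).map (algebraMap ℚ Qb)

lemma WQ_eq : WQ W = W.map (Int.castRingHom Qb) := by
  rw [WQ, WeierstrassCurve.map_map]
  congr 1

@[simp] lemma WQ_a₁ : (WQ W).a₁ = (W.a₁ : Qb) := by simp [WQ]
@[simp] lemma WQ_a₂ : (WQ W).a₂ = (W.a₂ : Qb) := by simp [WQ]
@[simp] lemma WQ_a₃ : (WQ W).a₃ = (W.a₃ : Qb) := by simp [WQ]
@[simp] lemma WQ_a₄ : (WQ W).a₄ = (W.a₄ : Qb) := by simp [WQ]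
@[simp] lemma WQ_a₆ : (WQ W).a₆ = (W.a₆ : Qb) := by simp [WQ]
@[simp] lemma WQ_Δ : (WQ W).Δ = (W.Δ : Qb) := by rw [WQ_eq, map_Δ]; simp
@[simp] lemma WQ_c₄ : (WQ W).c₄ = (W.c₄ : Qb) := by rw [WQ_eq, map_c₄]; simp

lemma intCast_mem' {K : Type*} [Field K] {A : ValuationSubring K} (n : ℤ) : (n : K) ∈ A := by
  simp

lemma coeffsIn_WQ : CoeffsIn A (WQ W) := by
  constructor <;> simp

variable {W A}

/-- the Prelude notion `InZeroComponentAt` in terms of `ZeroComp` -/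
theorem inZeroComponentAt_iff (P : ((W.map (Int.castRingHom ℚ))⁄Qb).Point) :
    W.InZeroComponentAt A P ↔ ZeroComp A (WQ W) P := by
  have res : ∀ z : A, IsLocalRing.residue A z = 0 ↔ (z : Qb) ∈ A.nonunits := by
    intro z
    rw [IsLocalRing.residue_eq_zero_iff, ← A.coe_mem_nonunits_iff]
  have key : ∀ (x y : Qb) (hx : x ∈ A) (hy : y ∈ A), (WQ W).toAffine.Nonsingular x y →
      ((W.map (Int.castRingHom (IsLocalRing.ResidueField A))).toAffine.Nonsingular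
          (IsLocalRing.residue A ⟨x, hx⟩) (IsLocalRing.residue A ⟨y, hy⟩) ↔
        (2 * y + (WQ W).a₁ * x + (WQ W).a₃ ∉ A.nonunits ∨
          3 * x ^ 2 + 2 * (WQ W).a₂ * x + (WQ W).a₄ - (WQ W).a₁ * y ∉ A.nonunits)) := by
    intro x y hx hy h
    set X : A := ⟨x, hx⟩
    set Y : A := ⟨y, hy⟩
    have hE : (W.map (Int.castRingHom (IsLocalRing.ResidueField A))).toAffine.Equation
        (IsLocalRing.residue A X) (IsLocalRing.residue A Y) := by
      have h1 := h.1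
      rw [equation_iff'] at h1
      simp only [WQ_a₁, WQ_a₂, WQ_a₃, WQ_a₄, WQ_a₆] at h1
      have h2 : Y ^ 2 + (W.a₁ : A) * X * Y + (W.a₃ : A) * Y -
          (X ^ 3 + (W.a₂ : A) * X ^ 2 + (W.a₄ : A) * X + (W.a₆ : A)) = 0 := by
        apply Subtype.ext
        push_cast
        exact h1
      have h3 := congrArg (IsLocalRing.residue A) h2
      rw [equation_iff']
      simpa using h3
    rw [nonsingular_iff', and_iff_right hE, or_comm]
    simp only [WQ_a₁, WQ_a₂, WQ_a₃, WQ_a₄]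
    simp only [WeierstrassCurve.map_a₁, WeierstrassCurve.map_a₂,
      WeierstrassCurve.map_a₃, WeierstrassCurve.map_a₄]
    have e1 : 2 * (IsLocalRing.residue A Y) + (Int.castRingHom (IsLocalRing.ResidueField A)) W.a₁ *
        (IsLocalRing.residue A X) + (Int.castRingHom (IsLocalRing.ResidueField A)) W.a₃ =
        IsLocalRing.residue A (2 * Y + (W.a₁ : A) * X + (W.a₃ : A)) := by
      simp only [map_add, map_mul, map_ofNat, map_intCast, eq_intCast]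
    have e2 : (Int.castRingHom (IsLocalRing.ResidueField A)) W.a₁ * (IsLocalRing.residue A Y) -
        (3 * (IsLocalRing.residue A X) ^ 2 + 2 * (Int.castRingHom (IsLocalRing.ResidueField A)) W.a₂ *
        (IsLocalRing.residue A X) + (Int.castRingHom (IsLocalRing.ResidueField A)) W.a₄) =
        IsLocalRing.residue A (-(3 * X ^ 2 + 2 * (W.a₂ : A) * X + (W.a₄ : A) - (W.a₁ : A) * Y)) := by
      simp only [map_neg, map_sub, map_add, map_mul, map_pow, map_ofNat, map_intCast, eq_intCast]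
      ring
    rw [e1, e2, Ne, Ne, res, res]
    have e3 : ((2 * Y + (W.a₁ : A) * X + (W.a₃ : A) : A) : Qb) =
        2 * y + (W.a₁ : Qb) * x + (W.a₃ : Qb) := by push_cast; rfl
    have e4 : ((-(3 * X ^ 2 + 2 * (W.a₂ : A) * X + (W.a₄ : A) - (W.a₁ : A) * Y) : A) : Qb) =
        -(3 * x ^ 2 + 2 * (W.a₂ : Qb) * x + (W.a₄ : Qb) - (W.a₁ : Qb) * y) := by push_cast; rfl
    rw [e3, e4, neg_mem_iff]
  constructor
  · rintro (rfl | ⟨x, y, h, rfl, hx⟩) x' y' h' e hx'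
    · exact absurd e (by simp)
    · obtain ⟨rfl, rfl⟩ := Point.some.inj e
      rcases hx with hx | ⟨hx, hy, hns⟩
      · exact absurd hx' hx
      · exact (key _ _ hx hy h').mp hns
  · intro hz
    rcases P with _ | ⟨x, y, h⟩
    · exact Or.inl rfl
    · refine Or.inr ⟨x, y, h, rfl, ?_⟩
      by_cases hx : x ∈ A
      · refine Or.inr ⟨hx, y_mem (coeffsIn_WQ W A) h.1 hx, ?_⟩
        exact (key _ _ hx _ h).mpr (hz x y h rfl hx)
      · exact Or.inl hx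

section

variable {ℓ p : ℕ} (hℓ : ℓ.Prime) (hA : A.LiesOverPrime ℓ) (hΔ : W.Δ ≠ 0)
  (hℓΔ : (ℓ : ℤ) ∣ W.Δ) (hℓc : ¬ (ℓ : ℤ) ∣ W.c₄)
  {Q : ((W.map (Int.castRingHom ℚ))⁄Qb).Point} (hp : p.Prime) (hp2 : p ≠ 2)
  (hQ : addOrderOf Q = p)

include hA in
lemma dvd_mem_nonunits {n : ℤ} (h : (ℓ : ℤ) ∣ n) : (n : Qb) ∈ A.nonunits := by
  obtain ⟨k, rfl⟩ := h
  have h1 : ((ℓ : ℤ) : Qb) ∈ A.nonunits := by exact_mod_cast hA
  push_cast
  rw [mul_comm]
  exact mul_mem_nonunits (intCast_mem' k) (by exact_mod_cast h1)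

include hℓ hA hΔ hℓΔ hℓc hp hp2 hQ in
theorem veluQ_node_int (hz : ¬ W.InZeroComponentAt A Q) :
    veluQ (WQ W) (AddSubgroup.zmultiples Q) ≠ 0 ∧
      veluQ (WQ W) (AddSubgroup.zmultiples Q) ∈ A.nonunits := by
  refine veluQ_mem_nonunits (coeffsIn_WQ W A) ?_ ?_ ?_ hp hp2 hQ ?_
  · rw [WQ_Δ]; exact_mod_cast hΔ
  · rw [WQ_Δ]; exact dvd_mem_nonunits hA hℓΔ
  · rw [WQ_c₄]; exact intCast_notMem_nonunits hℓ hA hℓc
  · rwa [← inZeroComponentAt_iff]

include hℓ hA hΔ hℓΔ hℓc hp hp2 hQ in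
theorem veluQ_zero_int (hpℓ : ℓ ≠ p) (hz : W.InZeroComponentAt A Q) :
    veluQ (WQ W) (AddSubgroup.zmultiples Q) ≠ 0 ∧
      (veluQ (WQ W) (AddSubgroup.zmultiples Q))⁻¹ ∈ A.nonunits := by
  refine inv_veluQ_mem_nonunits (coeffsIn_WQ W A) ?_ ?_ ?_ hp hp2 hQ ?_ ?_
  · rw [WQ_Δ]; exact_mod_cast hΔ
  · rw [WQ_Δ]; exact dvd_mem_nonunits hA hℓΔ
  · rw [WQ_c₄]; exact intCast_notMem_nonunits hℓ hA hℓc
  · apply natCast_residue_ne_zero hℓ hA
    rwa [Nat.prime_dvd_prime_iff_eq hℓ hp]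
  · rwa [← inZeroComponentAt_iff]

end

end Fermat.Agent.H05
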