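import Mathlib
import Fermat.Agent.H05_GenInst
import Fermat.Agent.H05_VeluInt
import Fermat.Prelude.Def_ModularCurve_ArithmeticGalois

set_option autoImplicit false

/-! # The place of `X₀(p)` attached to a curve over `ℚ` with a rational point of order `p` -/

namespace Fermat.Agent.H05

open WeierstrassCurve WeierstrassCurve.Affine
open UpperHalfPlane hiding I
open ModularCurve IntermediateField
open Fermat.Agent.H24 (scale)
open Fermat.Agent.H61 (jInv)
open ModularForm (discriminant discriminant_ne_zero)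

section Short

variable {L : Type*} [Field L] (E : WeierstrassCurve L)

/-- the change of variables to short form -/
noncomputable def vcShort : VariableChange L :=
  ⟨1, -(E.b₂ / 12), -(E.a₁ / 2), -((E.a₃ + -(E.b₂ / 12) * E.a₁) / 2)⟩

lemma SF_eq_of_c [CharZero L] {c4 c6 Δ : L} (h4 : c4 ≠ 0) (h6 : c6 ≠ 0) (hΔ : Δ ≠ 0)
    (hrel : 1728 * Δ = c4 ^ 3 - c6 ^ 2) :
    SF (Δ / (c4 * c6)) (c4 ^ 3 / Δ) = ⟨0, 0, 0, -(c4 / 48), -(c6 / 864)⟩ := by
  have h1 : c4 ^ 3 / Δ - 1728 = c6 ^ 2 / Δ := by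
    field_simp
    linear_combination -hrel
  ext
  · rfl
  · rfl
  · rfl
  · simp only [SF]
    rw [h1]
    field_simp
  · simp only [SF]
    rw [h1]
    field_simp

lemma vcShort_smul [CharZero L] (h4 : E.c₄ ≠ 0) (h6 : E.c₆ ≠ 0) (hΔ : E.Δ ≠ 0) :
    vcShort E • E = SF (E.Δ / (E.c₄ * E.c₆)) (E.c₄ ^ 3 / E.Δ) := by
  rw [SF_eq_of_c h4 h6 hΔ E.c_relation]
  ext
  · simp only [variableChange_a₁, vcShort, inv_one, Units.val_one]
    ring
  · simp only [variableChange_a₂, vcShort, inv_one, Units.val_one, b₂]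
    ring
  · simp only [variableChange_a₃, vcShort, inv_one, Units.val_one, b₂]
    ring
  · simp only [variableChange_a₄, vcShort, inv_one, Units.val_one, b₂, c₄, b₄]
    ring
  · simp only [variableChange_a₆, vcShort, inv_one, Units.val_one, b₂, c₆, b₄, b₆]
    ring

end Short

section

variable {K F : Type*} [Field K] [CharZero K] [IsAlgClosed K] [Field F]
    [Algebra K F] [H94.FunField K F] [DecidableEq K] {p : ℕ} [NeZero p]

/-- the place attached to `(E, Q)` -/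
theorem exists_place_of_curve (hp : p.Prime)
    (hB : B1Inputs p) {t tp u : F} (h1 : Transcendental K t)
    (h2 : IntermediateField.adjoin K⟮t⟯ {tp} = ⊤) (h3 : (minpoly K⟮t⟯ tp).natDegree = p + 1)
    {τ : ℍ} (θ : F →+* ℂ) (h4 : θ t = jInv τ) (h5 : θ tp = jInv (scale p τ))
    (h6 : θ u = discriminant τ / discriminant (scale p τ))
    (E : WeierstrassCurve K) (hc4 : E.c₄ ≠ 0) (hc6 : E.c₆ ≠ 0) (hΔ : E.Δ ≠ 0)
    {Q : E.toAffine.Point} (hQ : addOrderOf Q = p) :
    ∃ v : AlgebraicCurve.Place K F,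
      t - algebraMap K F (E.c₄ ^ 3 / E.Δ) ∈ v.toValuationSubring.nonunits ∧
      u - algebraMap K F ((p : K) ^ 12 * veluQ _ (AddSubgroup.zmultiples Q)) ∈
        v.toValuationSubring.nonunits ∧
      ∀ (s : F ≃+* F) (s₀ : K ≃+* K),
        (∀ c, s (algebraMap K F c) = algebraMap K F (s₀ c)) → s t = t → s tp = tp →
        (∀ hE : E.map (s₀ : K →+* K) = E, mapPt (s₀ : K →+* K) hE Q = Q) →
        E.map (s₀ : K →+* K) = E →
        ∀ x, x ∈ v.toValuationSubring ↔ s x ∈ v.toValuationSubring := by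
  set a := E.c₄ ^ 3 / E.Δ with ha
  set g := E.Δ / (E.c₄ * E.c₆) with hg
  have hC := vcShort_smul E hc4 hc6 hΔ
  have ha0 : a ≠ 0 := div_ne_zero (pow_ne_zero _ hc4) hΔ
  have hg0 : g ≠ 0 := div_ne_zero hΔ (mul_ne_zero hc4 hc6)
  have ha1 : a ≠ 1728 := by
    intro h
    rw [ha, div_eq_iff hΔ] at h
    have h' := E.c_relation
    rw [h] at h'
    apply hc6
    have : E.c₆ ^ 2 = 0 := by linear_combination h'
    exact pow_eq_zero_iff (two_ne_zero) |>.mp this
  have key := fun Q' : (SF g a).toAffine.Point =>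
    exists_place_of_eval hp hB h1 h2 h3 θ h4 h5 h6 hg0 ha0 ha1 (Q := Q')
  rw [← hC] at key
  set C := vcShort E with hCdef
  set Q' := (H74.pointEquiv E C).symm Q with hQ'
  have hQQ : H74.pointEquiv E C Q' = Q := (H74.pointEquiv E C).apply_symm_apply Q
  have hQo : addOrderOf Q' = p := by
    rw [← hQ, ← hQQ]
    exact (addOrderOf_injective (H74.pointEquiv E C).toAddMonoidHom
      (H74.pointEquiv E C).injective Q').symm
  obtain ⟨v, hv1, hv2, hv3⟩ := key Q' hQo
  refine ⟨v, hv1, ?_, fun s s₀ hs hst hstp hQs hE => ?_⟩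
  · rw [← hQQ, veluQ_pointEquiv C hΔ hp.pos hQo]
    exact hv2
  · have ec4 : s₀ E.c₄ = E.c₄ := by
      conv_rhs => rw [← hE, WeierstrassCurve.map_c₄]
      rfl
    have ec6 : s₀ E.c₆ = E.c₆ := by
      conv_rhs => rw [← hE, WeierstrassCurve.map_c₆]
      rfl
    have eΔ : s₀ E.Δ = E.Δ := by
      conv_rhs => rw [← hE, WeierstrassCurve.map_Δ]
      rfl
    have ea1 : (s₀ : K →+* K) E.a₁ = E.a₁ := by
      conv_rhs => rw [← hE, WeierstrassCurve.map_a₁]
    have ea3 : (s₀ : K →+* K) E.a₃ = E.a₃ := by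
      conv_rhs => rw [← hE, WeierstrassCurve.map_a₃]
    have eb2 : (s₀ : K →+* K) E.b₂ = E.b₂ := by
      conv_rhs => rw [← hE, WeierstrassCurve.map_b₂]
    have e12 : (s₀ : K →+* K) 12 = 12 := map_ofNat _ 12
    have e2 : (s₀ : K →+* K) 2 = 2 := map_ofNat _ 2
    refine hv3 s s₀ hs hst hstp (by rw [ha, map_div₀, map_pow, ec4, eΔ])
      (by rw [hg, map_div₀, map_mul, ec4, ec6, eΔ]) (fun h' => ?_)
    have hQs' := hQs hE
    have hQ'' : Q' = (H74.pointEquiv E C).symm Q := rfl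
    clear_value Q'
    rcases Q with _ | ⟨x, y, hxy⟩
    · have : Q' = 0 := by
        rw [hQ'']; exact map_zero _
      rw [this, map_zero]
    · rw [mapPt_some, Point.some.injEq] at hQs'
      obtain ⟨hx, hy⟩ := hQs'
      rw [hQ'', H74.pointEquiv_symm_some, mapPt_some, Point.some.injEq]
      constructor
      · simp only [H74.vcX', hCdef, vcShort, inv_one, Units.val_one, map_mul, map_pow, map_one,
          map_sub, map_neg, map_div₀, hx, eb2, e12]
      · simp only [H74.vcY', hCdef, vcShort, inv_one, Units.val_one, map_mul, map_pow, map_one,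
          map_sub, map_neg, map_div₀, hx, hy, eb2, e12, e2, ea1, ea3, map_add]

end

/-! ### the statement over `ℚ̄` -/

open AlgebraicCurve

local notation "Qb" => AlgebraicClosure ℚ

lemma countable_Qb : Countable Qb := by
  let a : Algebra ℚ (AlgebraicClosure ℚ) := AlgebraicClosure.instAlgebra ℚ
  have hA : @Algebra.IsAlgebraic ℚ (AlgebraicClosure ℚ) _ _ a := AlgebraicClosure.isAlgebraic ℚ
  have h := Algebra.IsAlgebraic.cardinalMk_le_max ℚ (AlgebraicClosure ℚ)
  rw [← Cardinal.mk_le_aleph0_iff]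
  refine h.trans ?_
  simp

lemma psi2_ne_zero {K : Type*} [Field K] [DecidableEq K] {E : WeierstrassCurve K}
    {P : E.toAffine.Point} (h : 2 • P ≠ 0) : psi2 E P ≠ 0 := by
  rcases P with _ | ⟨x, y, hxy⟩
  · exact one_ne_zero
  · intro h0
    rw [psi2_some] at h0
    apply h
    have h1 : y = E.toAffine.negY x y := by
      rw [negY]; linear_combination h0
    rw [two_smul]
    exact Point.add_of_Y_eq rfl h1

lemma veluQ_ne_zero {K : Type*} [Field K] [DecidableEq K] {E : WeierstrassCurve K}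
    (hΔ : E.Δ ≠ 0) {p : ℕ} (hp : p.Prime) (hp2 : p ≠ 2) {Q : E.toAffine.Point}
    (hQ : addOrderOf Q = p) : veluQ E (AddSubgroup.zmultiples Q) ≠ 0 := by
  rw [veluQ_zmultiples hp.pos hQ]
  refine div_ne_zero (pow_ne_zero _ (Finset.prod_ne_zero_iff.mpr fun i hi => ?_))
    (pow_ne_zero _ hΔ)
  rcases Nat.eq_zero_or_pos i with rfl | hi0
  · rw [zero_smul, psi2_zero]; exact one_ne_zero
  · apply psi2_ne_zero
    rw [smul_smul]
    intro h0
    have h1 := addOrderOf_dvd_of_nsmul_eq_zero h0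
    rw [hQ] at h1
    rcases (Nat.Prime.dvd_mul hp).mp h1 with h2 | h2
    · have := (Nat.prime_dvd_prime_iff_eq hp Nat.prime_two).mp h2
      exact hp2 this
    · have := Nat.le_of_dvd hi0 h2
      have := Finset.mem_range.mp hi
      omega

/-- the final theorem with the function field as a variable -/
theorem exists_place_int_aux {p : ℕ} [NeZero p] (hp : p.Prime) (hB : B1Inputs p)
    (F : IntermediateField Qb (LaurentSeries Qb)) (hF : F = modularFunctionFieldFullC Qb p)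
    [H94.FunField Qb F] (t tp u : F) (ht : (t : LaurentSeries Qb) = jqModC Qb)
    (htp : (tp : LaurentSeries Qb) = qExpand Qb p (jqModC Qb))
    (hu : (u : LaurentSeries Qb) = uSer Qb p) (E : WeierstrassCurve Qb) (hc4 : E.c₄ ≠ 0)
    (hc6 : E.c₆ ≠ 0) (hΔ : E.Δ ≠ 0) {Q : E.toAffine.Point} (hQ : addOrderOf Q = p) :
    ∃ v : AlgebraicCurve.Place Qb F,
      t - algebraMap Qb F (E.c₄ ^ 3 / E.Δ) ∈ v.toValuationSubring.nonunits ∧
      u - algebraMap Qb F ((p : Qb) ^ 12 * veluQ _ (AddSubgroup.zmultiples Q)) ∈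
        v.toValuationSubring.nonunits ∧
      ∀ (s : F ≃+* F) (s₀ : Qb ≃+* Qb),
        (∀ c, s (algebraMap Qb F c) = algebraMap Qb F (s₀ c)) → s t = t → s tp = tp →
        (∀ hE : E.map (s₀ : Qb →+* Qb) = E, mapPt (s₀ : Qb →+* Qb) hE Q = Q) →
        E.map (s₀ : Qb →+* Qb) = E →
        ∀ x, x ∈ v.toValuationSubring ↔ s x ∈ v.toValuationSubring := by
  have : Countable Qb := countable_Qb
  let : Algebra Qb ℂ := Fermat.Agent.H24.embBar.toAlgebra
  obtain ⟨h1, h2, h3, τ, θ, h4, h5, h6⟩ := basics hp F hF t tp u ht htp hu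
  exact exists_place_of_curve hp hB h1 h2 h3 θ h4 h5 h6 E hc4 hc6 hΔ hQ

/-- an automorphism permuting a valuation ring fixes the place -/
lemma smul_place_eq {K F : Type*} [Field K] [Field F] [Algebra K F] (g : SemilinearAut K F)
    (v : Place K F) (h : ∀ x, x ∈ v.toValuationSubring ↔ g • x ∈ v.toValuationSubring) :
    g • v = v := by
  open scoped Pointwise in
  apply Place.ext
  rw [SemilinearAut.smul_toValuationSubring]
  ext x
  rw [ValuationSubring.mem_pointwise_smul_iff_inv_smul_mem, h, smul_inv_smul]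

lemma WQ_c₆ (W : WeierstrassCurve ℤ) : (WQ W).c₆ = (W.c₆ : Qb) := by rw [WQ_eq, map_c₆]; simp

/-- **Part B**: the place of `X₀(p)` attached to `(W, Q)`. -/
theorem exists_place_int' {p : ℕ} [NeZero p] (hp : p.Prime) (hp2 : p ≠ 2) (hB : B1Inputs p)
    (W : WeierstrassCurve ℤ) (hΔ : W.Δ ≠ 0) (hc4 : W.c₄ ≠ 0) (hc6 : W.c₆ ≠ 0)
    (Q : ((W.map (Int.castRingHom ℚ))⁄(AlgebraicClosure ℚ)).Point)
    (hQfix : ∀ σ : AlgebraicClosure ℚ ≃ₐ[ℚ] AlgebraicClosure ℚ, σ • Q = Q)
    (hQord : addOrderOf Q = p) :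
    ∃ (x : Place Qb (modularFunctionFieldBar p)) (a : Qb),
      (∀ σ : Qb ≃ₐ[ℚ] Qb, arithmeticGalois (modularFunctionFieldFull p) σ • x = x) ∧
      (∀ u : modularFunctionFieldBar p,
        (u : LaurentSeries Qb) = coeffEmb Qb (modularUnitSeries p) →
          u - algebraMap Qb (modularFunctionFieldBar p) a ∈ x.toValuationSubring.nonunits) ∧
      a ≠ 0 ∧
      ∀ (ℓ : ℕ) (A : ValuationSubring Qb), ℓ.Prime → ℓ ≠ p → A.LiesOverPrime ℓ →
        (ℓ : ℤ) ∣ W.Δ → ¬ (ℓ : ℤ) ∣ W.c₄ →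
          (¬ W.InZeroComponentAt A Q → a ∈ A.nonunits) ∧
          (W.InZeroComponentAt A Q → a⁻¹ ∈ A.nonunits) := by
  let : Algebra Qb ℂ := Fermat.Agent.H24.embBar.toAlgebra
  have hF : modularFunctionFieldBar p = modularFunctionFieldFullC Qb p :=
    Fermat.Agent.H24.laurentBaseChange_full Qb p
  have hFF : H94.FunField Qb (modularFunctionFieldBar p) := H94.funField_bar p
  have htm : jqModC Qb ∈ modularFunctionFieldBar p := by
    rw [hF]; exact jqModC_mem_full Qb p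
  have htpm : qExpand Qb p (jqModC Qb) ∈ modularFunctionFieldBar p := by
    rw [hF]; exact jqModCd_mem_full Qb p dvd_rfl
  have hum : uSer Qb p ∈ modularFunctionFieldBar p := by
    rw [hF]; exact uSer_mem_full Qb p
  have hΔ' : (WQ W).Δ ≠ 0 := by rw [WQ_Δ]; exact_mod_cast hΔ
  have hQ' : @addOrderOf (WQ W).toAffine.Point _ Q = p := hQord
  obtain ⟨v, -, hv2, hv3⟩ := exists_place_int_aux hp hB (modularFunctionFieldBar p) hF
    ⟨_, htm⟩ ⟨_, htpm⟩ ⟨_, hum⟩ rfl rfl rfl (WQ W)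
    (by rw [WQ_c₄]; exact_mod_cast hc4) (by rw [WQ_c₆]; exact_mod_cast hc6) hΔ' hQ'
  refine ⟨v, (p : Qb) ^ 12 * veluQ (WQ W) (AddSubgroup.zmultiples Q), fun σ => ?_,
    fun u hu => ?_, ?_, fun ℓ A hℓ hℓp hA hℓΔ hℓc => ?_⟩
  · apply smul_place_eq
    refine hv3 (arithmeticRingAut (modularFunctionFieldFull p) σ) σ.toRingEquiv
      (fun c => arithmeticRingAut_algebraMap _ σ c) ?_ ?_ ?_ ?_
    · apply Subtype.ext
      exact coeffMap_jqModC _
    · apply Subtype.ext
      show coeffMap _ (qExpand Qb p (jqModC Qb)) = _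
      rw [coeffMap_qExpand, coeffMap_jqModC]
    · intro hE
      have hσ := hQfix σ
      rcases Q with _ | ⟨x, y, hxy⟩
      · exact map_zero _
      · exact (mapPt_some hE hxy).trans hσ
    · rw [WQ_eq, WeierstrassCurve.map_map]
      congr 1
      exact RingHom.ext_int _ _
  · have : u = ⟨uSer Qb p, hum⟩ := by
      apply Subtype.ext
      rw [hu]
      exact coeffEmb_modularUnitSeries Qb p
    rw [this]
    exact hv2
  · exact mul_ne_zero (pow_ne_zero _ (Nat.cast_ne_zero.mpr hp.ne_zero))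
      (veluQ_ne_zero hΔ' hp hp2 hQ')
  · have hpA : (p : Qb)⁻¹ ∈ A := by
      have h1 : ((p : ℤ) : Qb) ∉ A.nonunits := intCast_notMem_nonunits hℓ hA (by
        rw [Int.natCast_dvd_natCast]
        rwa [Nat.prime_dvd_prime_iff_eq hℓ hp])
      rw [mem_nonunits_iff_inv, not_or, not_not] at h1
      exact_mod_cast h1.2
    constructor
    · intro hz
      exact mul_mem_nonunits (pow_mem (by simp) 12)
        (veluQ_node_int hℓ hA hΔ hℓΔ hℓc hp hp2 hQord hz).2
    · intro hz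
      rw [mul_inv]
      refine mul_mem_nonunits ?_ (veluQ_zero_int hℓ hA hΔ hℓΔ hℓc hp hp2 hQord hℓp hz).2
      rw [← inv_pow]
      exact pow_mem hpA 12

theorem exists_place_int {p : ℕ} [NeZero p] (hp : p.Prime) (hp2 : p ≠ 2) (hB : B1Inputs p)
    (W : WeierstrassCurve ℤ) (hΔ : W.Δ ≠ 0) (h2c₄ : ¬ (2 : ℤ) ∣ W.c₄)
    (Q : ((W.map (Int.castRingHom ℚ))⁄(AlgebraicClosure ℚ)).Point)
    (hQfix : ∀ σ : AlgebraicClosure ℚ ≃ₐ[ℚ] AlgebraicClosure ℚ, σ • Q = Q)
    (hQord : addOrderOf Q = p) :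
    ∃ (x : Place Qb (modularFunctionFieldBar p)) (a : Qb),
      (∀ σ : Qb ≃ₐ[ℚ] Qb, arithmeticGalois (modularFunctionFieldFull p) σ • x = x) ∧
      (∀ u : modularFunctionFieldBar p,
        (u : LaurentSeries Qb) = coeffEmb Qb (modularUnitSeries p) →
          u - algebraMap Qb (modularFunctionFieldBar p) a ∈ x.toValuationSubring.nonunits) ∧
      a ≠ 0 ∧
      ∀ (ℓ : ℕ) (A : ValuationSubring Qb), ℓ.Prime → ℓ ≠ p → A.LiesOverPrime ℓ →
        (ℓ : ℤ) ∣ W.Δ → ¬ (ℓ : ℤ) ∣ W.c₄ →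
          (¬ W.InZeroComponentAt A Q → a ∈ A.nonunits) ∧
          (W.InZeroComponentAt A Q → a⁻¹ ∈ A.nonunits) := by
  have hc4 : W.c₄ ≠ 0 := by
    rintro h0; rw [h0] at h2c₄; exact h2c₄ (dvd_zero _)
  have hc6 : W.c₆ ≠ 0 := by
    intro h0
    have h := W.c_relation
    rw [h0] at h
    have h2 : (2 : ℤ) ∣ W.c₄ ^ 3 := ⟨864 * W.Δ, by linear_combination -h⟩
    exact h2c₄ (Int.prime_two.dvd_of_dvd_pow h2)
  exact exists_place_int' hp hp2 hB W hΔ hc4 hc6 Q hQfix hQord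

end Fermat.Agent.H05
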