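import Mathlib
import Fermat.Agent.H05_WPDefs

set_option autoImplicit false

/-! # Basic facts on the Weierstrass `℘`-function -/

namespace Fermat.Agent.H72

open Filter Topology PeriodPair

variable (L : PeriodPair)

lemma countable_lattice : (L.lattice : Set ℂ).Countable := by
  have : (Set.range fun p : ℤ × ℤ => (p.1 : ℂ) * L.ω₁ + p.2 * L.ω₂).Countable :=
    Set.countable_range _
  refine this.mono ?_
  intro z hz
  obtain ⟨m, n, h⟩ := PeriodPair.mem_lattice.mp hz
  exact ⟨(m, n), h⟩

lemma one_lt_rank : 1 < Module.rank ℝ ℂ := by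
  rw [Complex.rank_real_complex]; norm_num

lemma isPreconnected_compl {S : Set ℂ} (hS : S.Countable) : IsPreconnected Sᶜ :=
  (hS.isConnected_compl_of_one_lt_rank one_lt_rank).isPreconnected

lemma exists_notMem_of_countable {S : Set ℂ} (hS : S.Countable) : ∃ z, z ∉ S := by
  by_contra hcon
  push Not at hcon
  exact not_countable_complex (by
    rwa [Set.eq_univ_of_forall hcon] at hS)

lemma tendsto_wp : Tendsto ℘[L] (𝓝[≠] 0) (Bornology.cobounded ℂ) := by
  apply tendsto_cobounded_of_meromorphicOrderAt_neg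
  rw [L.order_weierstrassP 0 (zero_mem _)]
  decide

/-- The zeros of an analytic function on a preconnected set are countable. -/
lemma countable_zeros {V : Set ℂ} {h : ℂ → ℂ} (hV : IsPreconnected V)
    (hh : AnalyticOnNhd ℂ h V) {z₀ : ℂ} (hz₀ : z₀ ∈ V) (h0 : h z₀ ≠ 0) :
    {z | z ∈ V ∧ h z = 0}.Countable := by
  apply (HereditarilyLindelofSpace.isLindelof _).countable_of_isDiscrete
  rw [isDiscrete_iff_nhdsNE]
  rintro z ⟨hzV, hz⟩
  rcases (hh z hzV).eventually_eq_zero_or_eventually_ne_zero with h1 | h1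
  · exact absurd (hh.eqOn_zero_of_preconnected_of_eventuallyEq_zero hV hzV h1 hz₀) h0
  · rw [← disjoint_iff, disjoint_principal_right]
    filter_upwards [h1] with w hw hw'
    exact hw hw'.2

lemma mem_nhds_zero_punctured {S : Set ℂ} (hS : S.Countable) : ∃ᶠ z in 𝓝[≠] (0 : ℂ), z ∉ S := by
  have hd : Dense (insert 0 S)ᶜ := (hS.insert 0).dense_compl ℝ
  have h1 := mem_closure_iff_frequently.mp (hd 0)
  rw [frequently_nhdsWithin_iff]
  refine h1.mono ?_
  intro z hz
  simp only [Set.mem_compl_iff, Set.mem_insert_iff, not_or] at hz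
  exact ⟨hz.2, hz.1⟩

/-- `℘` takes a value different from `c`. -/
lemma exists_wp_ne (c : ℂ) {S : Set ℂ} (hS : S.Countable) :
    ∃ z, z ∉ S ∧ z ∉ L.lattice ∧ L.weierstrassP z ≠ c := by
  have h1 := mem_nhds_zero_punctured (hS.union (countable_lattice L))
  have h2 : ∀ᶠ z in 𝓝[≠] (0 : ℂ), L.weierstrassP z ≠ c := by
    have := (tendsto_norm_cobounded_atTop.comp (tendsto_wp L)).eventually_gt_atTop ‖c‖
    filter_upwards [this] with z hz h0
    simp only [Function.comp_apply, h0] at hz
    exact lt_irrefl _ hz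
  obtain ⟨z, hz1, hz2⟩ := (h1.and_eventually h2).exists
  simp only [Set.mem_union, SetLike.mem_coe, not_or] at hz1
  exact ⟨z, hz1.1, hz1.2, hz2⟩

lemma hasDerivAt_wp {z : ℂ} (hz : z ∉ L.lattice) :
    HasDerivAt L.weierstrassP (L.derivWeierstrassP z) z := by
  have h1 : DifferentiableAt ℂ L.weierstrassP z := (L.analyticOnNhd_weierstrassP z hz).differentiableAt
  have := h1.hasDerivAt
  rwa [L.deriv_weierstrassP] at this

lemma isOpen_compl_lattice : IsOpen (L.lattice : Set ℂ)ᶜ := L.isClosed_lattice.isOpen_compl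

lemma isPreconnected_compl_lattice : IsPreconnected (L.lattice : Set ℂ)ᶜ :=
  isPreconnected_compl (countable_lattice L)

theorem deriv_deriv_wp {z : ℂ} (hz : z ∉ L.lattice) :
    deriv L.derivWeierstrassP z = 6 * L.weierstrassP z ^ 2 - L.g₂ / 2 := by
  have hP := L.analyticOnNhd_weierstrassP
  have hP' := L.analyticOnNhd_derivWeierstrassP
  have hP'' : AnalyticOnNhd ℂ (deriv L.derivWeierstrassP) (L.lattice : Set ℂ)ᶜ := hP'.deriv
  have hprod : ∀ w ∈ (L.lattice : Set ℂ)ᶜ, L.derivWeierstrassP w *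
      (2 * deriv L.derivWeierstrassP w - 12 * L.weierstrassP w ^ 2 + L.g₂) = 0 := by
    intro w hw
    have hw' : w ∉ L.lattice := hw
    have e : (fun z => L.derivWeierstrassP z ^ 2 - (4 * L.weierstrassP z ^ 3 -
        L.g₂ * L.weierstrassP z - L.g₃)) =ᶠ[𝓝 w] fun _ => 0 := by
      filter_upwards [(isOpen_compl_lattice L).mem_nhds hw] with v hv
      rw [L.derivWeierstrassP_sq v hv]; ring
    have hd1 := hasDerivAt_wp L hw'
    have hd2 : HasDerivAt L.derivWeierstrassP (deriv L.derivWeierstrassP w) w :=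
      (hP' w hw).differentiableAt.hasDerivAt
    have hd3 := (hd2.pow 2).sub ((((hd1.pow 3).const_mul 4).sub (hd1.const_mul L.g₂)).sub_const L.g₃)
    have h0 := (e.hasDerivAt_iff.mp hd3).unique (hasDerivAt_const w 0)
    simp only [Nat.cast_ofNat] at h0
    linear_combination h0
  have ha : AnalyticOnNhd ℂ (fun w => 2 * deriv L.derivWeierstrassP w -
      12 * L.weierstrassP w ^ 2 + L.g₂) (L.lattice : Set ℂ)ᶜ := by
    intro w hw
    have h1 := hP w hw
    have h2 := hP'' w hw
    fun_prop
  rcases hP'.eq_zero_or_eq_zero_of_mul_eq_zero ha hprod (isPreconnected_compl_lattice L) with h | h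
  · exfalso
    obtain ⟨a, hab⟩ := (isOpen_compl_lattice L).exists_is_const_of_deriv_eq_zero
      (isPreconnected_compl_lattice L) L.differentiableOn_weierstrassP (by
        intro w hw
        rw [L.deriv_weierstrassP]
        exact h w hw)
    obtain ⟨w, -, hw, hne⟩ := exists_wp_ne L a Set.countable_empty
    exact hne (hab w hw)
  · have := h z hz
    linear_combination this / 2

lemma hasDerivAt_wp' {z : ℂ} (hz : z ∉ L.lattice) :
    HasDerivAt L.derivWeierstrassP (6 * L.weierstrassP z ^ 2 - L.g₂ / 2) z := by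
  rw [← deriv_deriv_wp L hz]
  exact (L.analyticOnNhd_derivWeierstrassP z hz).differentiableAt.hasDerivAt

end Fermat.Agent.H72
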