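import Mathlib
import Fermat.Agent.H72WPBasic

set_option autoImplicit false

/-! # The parametrisation `z ↦ (℘(z), ℘'(z)/2)` is a group homomorphism -/

namespace Fermat.Agent.H72

open Filter Topology PeriodPair WeierstrassCurve WeierstrassCurve.Affine Fermat.Agent.H05

section calcs

variable {L : PeriodPair}

lemma equation_wp {z : ℂ} (hz : z ∉ L.lattice) :
    (wpCurve L).toAffine.Equation (L.weierstrassP z) (L.derivWeierstrassP z / 2) := by
  rw [equation_iff]
  have := L.derivWeierstrassP_sq z hz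
  simp only [wpCurve]
  linear_combination this / 4

/-- The slope. -/
noncomputable def lam (L : PeriodPair) (w z : ℂ) : ℂ :=
  (L.derivWeierstrassP (z + w) / 2 + L.derivWeierstrassP z / 2) /
    (L.weierstrassP (z + w) - L.weierstrassP z)

/-- x-coordinate of `Ψ(z+w) - Ψ(z)` -/
noncomputable def X3 (L : PeriodPair) (w z : ℂ) : ℂ :=
  lam L w z ^ 2 - L.weierstrassP (z + w) - L.weierstrassP z

/-- y-coordinate of `Ψ(z+w) - Ψ(z)` -/
noncomputable def Y3 (L : PeriodPair) (w z : ℂ) : ℂ :=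
  -(lam L w z * (X3 L w z - L.weierstrassP (z + w)) + L.derivWeierstrassP (z + w) / 2)

/-- generic set -/
def Ugen (L : PeriodPair) (w : ℂ) : Set ℂ :=
  {z | z ∉ L.lattice ∧ z + w ∉ L.lattice ∧ L.weierstrassP (z + w) ≠ L.weierstrassP z}

section der

variable {w z : ℂ} (h : z ∈ Ugen L w)
include h

lemma hasDerivAt_lam : HasDerivAt (lam L w) (L.weierstrassP (z + w) - L.weierstrassP z) z := by
  obtain ⟨h1, h2, h3⟩ := h
  have hd : L.weierstrassP (z + w) - L.weierstrassP z ≠ 0 := sub_ne_zero.mpr h3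
  have e1 := (hasDerivAt_wp L h2).comp_add_const z w
  have e2 := (hasDerivAt_wp' L h2).comp_add_const z w
  have e3 := hasDerivAt_wp L h1
  have e4 := hasDerivAt_wp' L h1
  have := ((e2.div_const 2).add (e4.div_const 2)).div (e1.sub e3) hd
  convert! this using 1
  have r1 := L.derivWeierstrassP_sq _ h1
  have r2 := L.derivWeierstrassP_sq _ h2
  simp only [Pi.add_apply, Pi.sub_apply]
  rw [eq_div_iff (pow_ne_zero 2 hd)]
  linear_combination (r2 - r1) / 2

lemma lam_mul : lam L w z * (L.weierstrassP (z + w) - L.weierstrassP z) =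
    L.derivWeierstrassP (z + w) / 2 + L.derivWeierstrassP z / 2 :=
  div_mul_cancel₀ _ (sub_ne_zero.mpr h.2.2)

lemma hasDerivAt_X3 : HasDerivAt (X3 L w) 0 z := by
  have h0 := lam_mul h
  have e0 := hasDerivAt_lam h
  obtain ⟨h1, h2, h3⟩ := h
  have e1 := (hasDerivAt_wp L h2).comp_add_const z w
  have e3 := hasDerivAt_wp L h1
  have := ((e0.pow 2).sub e1).sub e3
  convert! this using 1
  push_cast
  linear_combination (-2) * h0

lemma hasDerivAt_Y3 : HasDerivAt (Y3 L w) 0 z := by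
  have h0 := lam_mul h
  have e0 := hasDerivAt_lam h
  have eX := hasDerivAt_X3 h
  obtain ⟨h1, h2, h3⟩ := h
  have hd : L.weierstrassP (z + w) - L.weierstrassP z ≠ 0 := sub_ne_zero.mpr h3
  have e1 := (hasDerivAt_wp L h2).comp_add_const z w
  have e2 := (hasDerivAt_wp' L h2).comp_add_const z w
  have := ((e0.mul (eX.sub e1)).add (e2.div_const 2)).neg
  convert! this using 1
  have r1 := L.derivWeierstrassP_sq _ h1
  have r2 := L.derivWeierstrassP_sq _ h2
  apply mul_right_cancel₀ hd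
  simp only [Pi.sub_apply, X3]
  set x1 := L.weierstrassP (z + w)
  set x2 := L.weierstrassP z
  set y1 := L.derivWeierstrassP (z + w)
  set y2 := L.derivWeierstrassP z
  set l := lam L w z
  linear_combination (l * (x1 - x2) + (y1 + y2) / 2 - y1) * h0 + (r1 - r2) / 4

end der

/-- The complement of the generic set is countable. -/
lemma countable_compl_Ugen {w : ℂ} (hw : w ∉ L.lattice) : ((Ugen L w)ᶜ).Countable := by
  have hL := countable_lattice L
  have hLw : ((fun z => z + w) ⁻¹' (L.lattice : Set ℂ)).Countable :=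
    hL.preimage (add_left_injective w)
  have hV : IsPreconnected ((L.lattice : Set ℂ) ∪ (fun z => z + w) ⁻¹' (L.lattice : Set ℂ))ᶜ :=
    isPreconnected_compl (hL.union hLw)
  have han : AnalyticOnNhd ℂ (fun z => L.weierstrassP (z + w) - L.weierstrassP z)
      ((L.lattice : Set ℂ) ∪ (fun z => z + w) ⁻¹' (L.lattice : Set ℂ))ᶜ := by
    intro z hz
    simp only [Set.mem_compl_iff, Set.mem_union, not_or, Set.mem_preimage] at hz
    have h1 := L.analyticOnNhd_weierstrassP z hz.1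
    have h2 : AnalyticAt ℂ L.weierstrassP (z + w) := L.analyticOnNhd_weierstrassP (z + w) hz.2
    have h3 : AnalyticAt ℂ (fun z => L.weierstrassP (z + w)) z :=
      h2.fun_comp (f := fun z => z + w) (by fun_prop)
    exact h3.sub h1
  -- a point where the difference is nonzero
  obtain ⟨z₀, hz₀, hne⟩ : ∃ z₀ ∈ ((L.lattice : Set ℂ) ∪ (fun z => z + w) ⁻¹' (L.lattice : Set ℂ))ᶜ,
      L.weierstrassP (z₀ + w) - L.weierstrassP z₀ ≠ 0 := by
    have h1 := mem_nhds_zero_punctured (hL.union hLw)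
    have hcont : ContinuousAt (fun z => L.weierstrassP (z + w)) 0 := by
      have h2 : AnalyticAt ℂ L.weierstrassP (0 + w) := by
        rw [zero_add]; exact L.analyticOnNhd_weierstrassP w hw
      exact ContinuousAt.comp' (g := L.weierstrassP) h2.continuousAt (by fun_prop)
    have h3 : ∀ᶠ z in 𝓝[≠] (0 : ℂ), ‖L.weierstrassP (z + w)‖ < ‖L.weierstrassP (0 + w)‖ + 1 :=
      (hcont.norm.eventually_lt continuousAt_const (lt_add_one _)).filter_mono nhdsWithin_le_nhds
    have h4 := (tendsto_norm_cobounded_atTop.comp (tendsto_wp L)).eventually_gt_atTop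
      (‖L.weierstrassP (0 + w)‖ + 1)
    obtain ⟨z, hz1, hz2, hz3⟩ := (h1.and_eventually (h3.and h4)).exists
    refine ⟨z, hz1, ?_⟩
    intro h0
    rw [sub_eq_zero] at h0
    simp only [Function.comp_apply] at hz3
    rw [h0] at hz2
    exact lt_asymm hz2 hz3
  have hZ := countable_zeros hV han hz₀ hne
  refine ((hL.union hLw).union hZ).mono ?_
  intro z hz
  by_cases h1 : z ∈ (L.lattice : Set ℂ) ∪ (fun z => z + w) ⁻¹' (L.lattice : Set ℂ)
  · exact Or.inl h1
  · right
    refine ⟨h1, ?_⟩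
    by_contra h2
    simp only [Set.mem_union, not_or, Set.mem_preimage, SetLike.mem_coe] at h1
    exact hz ⟨h1.1, h1.2, sub_ne_zero.mp h2⟩

lemma isOpen_Ugen (w : ℂ) : IsOpen (Ugen L w) := by
  have hV : IsOpen ((L.lattice : Set ℂ) ∪ (fun z => z + w) ⁻¹' (L.lattice : Set ℂ))ᶜ := by
    apply IsClosed.isOpen_compl (self := ?_)
    exact L.isClosed_lattice.union (L.isClosed_lattice.preimage (by fun_prop))
  have hc : ContinuousOn (fun z => L.weierstrassP (z + w) - L.weierstrassP z)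
      ((L.lattice : Set ℂ) ∪ (fun z => z + w) ⁻¹' (L.lattice : Set ℂ))ᶜ := by
    intro z hz
    simp only [Set.mem_compl_iff, Set.mem_union, not_or, Set.mem_preimage] at hz
    have h1 := (L.analyticOnNhd_weierstrassP z hz.1).continuousAt
    have h2 : ContinuousAt L.weierstrassP (z + w) :=
      (L.analyticOnNhd_weierstrassP (z + w) hz.2).continuousAt
    have h3 : ContinuousAt (fun z => L.weierstrassP (z + w)) z :=
      ContinuousAt.comp' (g := L.weierstrassP) h2 (by fun_prop)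
    exact (h3.sub h1).continuousWithinAt
  have := hc.isOpen_inter_preimage hV (isOpen_compl_singleton (x := (0 : ℂ)))
  convert! this using 1
  ext z
  simp only [Ugen, Set.mem_ofPred_eq, Set.mem_inter_iff, Set.mem_compl_iff, Set.mem_union,
    Set.mem_preimage, SetLike.mem_coe, Set.mem_singleton_iff, not_or, sub_eq_zero]
  tauto

lemma isPreconnected_Ugen {w : ℂ} (hw : w ∉ L.lattice) : IsPreconnected (Ugen L w) := by
  have := isPreconnected_compl (countable_compl_Ugen hw)
  rwa [compl_compl] at this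

lemma X3_const {w : ℂ} (hw : w ∉ L.lattice) : ∃ a, ∀ z ∈ Ugen L w, X3 L w z = a :=
  (isOpen_Ugen w).exists_is_const_of_deriv_eq_zero (isPreconnected_Ugen hw)
    (fun _ hz => (hasDerivAt_X3 hz).differentiableAt.differentiableWithinAt)
    (fun _ hz => (hasDerivAt_X3 hz).deriv)

lemma Y3_const {w : ℂ} (hw : w ∉ L.lattice) : ∃ a, ∀ z ∈ Ugen L w, Y3 L w z = a :=
  (isOpen_Ugen w).exists_is_const_of_deriv_eq_zero (isPreconnected_Ugen hw)
    (fun _ hz => (hasDerivAt_Y3 hz).differentiableAt.differentiableWithinAt)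
    (fun _ hz => (hasDerivAt_Y3 hz).deriv)

lemma tendsto_inv_wp : Tendsto (fun z => (L.weierstrassP z)⁻¹) (𝓝[≠] 0) (𝓝 0) :=
  tendsto_inv₀_cobounded.comp (tendsto_wp L)

lemma eventually_notMem_lattice : ∀ᶠ z in 𝓝[≠] (0 : ℂ), z ∉ L.lattice := by
  have := L.compl_lattice_sdiff_singleton_mem_nhds 0
  filter_upwards [self_mem_nhdsWithin, mem_nhdsWithin_of_mem_nhds this] with z hz hz' hzL
  exact hz' ⟨hzL, hz⟩

lemma eventually_wp_ne (c : ℂ) : ∀ᶠ z in 𝓝[≠] (0 : ℂ), L.weierstrassP z ≠ c := by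
  have := (tendsto_norm_cobounded_atTop.comp (tendsto_wp L)).eventually_gt_atTop ‖c‖
  filter_upwards [this] with z hz h0
  simp only [Function.comp_apply, h0] at hz
  exact lt_irrefl _ hz

/-- `℘'/℘² → 0` at the origin. -/
lemma tendsto_s : Tendsto (fun z => L.derivWeierstrassP z / L.weierstrassP z ^ 2) (𝓝[≠] 0) (𝓝 0) := by
  have hi := tendsto_inv_wp (L := L)
  have h1 : Tendsto (fun z => 4 * (L.weierstrassP z)⁻¹ - L.g₂ * (L.weierstrassP z)⁻¹ ^ 3 -
      L.g₃ * (L.weierstrassP z)⁻¹ ^ 4) (𝓝[≠] 0) (𝓝 0) := by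
    have := ((hi.const_mul 4).sub ((hi.pow 3).const_mul L.g₂)).sub ((hi.pow 4).const_mul L.g₃)
    simpa using this
  have h2 : Tendsto (fun z => (L.derivWeierstrassP z / L.weierstrassP z ^ 2) ^ 2)
      (𝓝[≠] 0) (𝓝 0) := by
    refine h1.congr' ?_
    filter_upwards [eventually_notMem_lattice (L := L), eventually_wp_ne (L := L) 0] with z hz h0
    rw [div_pow, L.derivWeierstrassP_sq z hz]
    field_simp
  have h3 : Tendsto (fun z => ‖L.derivWeierstrassP z / L.weierstrassP z ^ 2‖ ^ 2)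
      (𝓝[≠] 0) (𝓝 0) := by
    have := h2.norm
    simpa [norm_pow] using this
  rw [tendsto_zero_iff_norm_tendsto_zero]
  have h4 := h3.sqrt
  simp only [Real.sqrt_zero, Real.sqrt_sq (norm_nonneg _)] at h4
  exact h4

lemma X3_limit {w : ℂ} (hw : w ∉ L.lattice) :
    Tendsto (X3 L w) (𝓝[≠] 0) (𝓝 (L.weierstrassP w)) := by
  have hi := tendsto_inv_wp (L := L)
  have hs := tendsto_s (L := L)
  have hx : Tendsto (fun z => L.weierstrassP (z + w)) (𝓝[≠] 0) (𝓝 (L.weierstrassP w)) := by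
    have h2 : AnalyticAt ℂ L.weierstrassP (0 + w) := by
      rw [zero_add]; exact L.analyticOnNhd_weierstrassP w hw
    have : ContinuousAt (fun z => L.weierstrassP (z + w)) 0 :=
      ContinuousAt.comp' (g := L.weierstrassP) h2.continuousAt (by fun_prop)
    have := this.tendsto.mono_left (nhdsWithin_le_nhds (s := {0}ᶜ))
    simpa using this
  have hy : Tendsto (fun z => L.derivWeierstrassP (z + w)) (𝓝[≠] 0) (𝓝 (L.derivWeierstrassP w)) := by
    have h2 : AnalyticAt ℂ L.derivWeierstrassP (0 + w) := by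
      rw [zero_add]; exact L.analyticOnNhd_derivWeierstrassP w hw
    have : ContinuousAt (fun z => L.derivWeierstrassP (z + w)) 0 :=
      ContinuousAt.comp' (g := L.derivWeierstrassP) h2.continuousAt (by fun_prop)
    have := this.tendsto.mono_left (nhdsWithin_le_nhds (s := {0}ᶜ))
    simpa using this
  have hnum : Tendsto (fun z => L.weierstrassP (z + w) *
      (L.weierstrassP (z + w) * (L.weierstrassP z)⁻¹ + 1)
      - L.g₂ / 4 * (L.weierstrassP (z + w) * (L.weierstrassP z)⁻¹ ^ 2 + (L.weierstrassP z)⁻¹)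
      - L.g₃ / 2 * (L.weierstrassP z)⁻¹ ^ 2
      + L.derivWeierstrassP (z + w) / 2 * (L.derivWeierstrassP z / L.weierstrassP z ^ 2))
      (𝓝[≠] 0) (𝓝 (L.weierstrassP w)) := by
    have := (((hx.mul ((hx.mul hi).add_const 1)).sub
      (((hx.mul (hi.pow 2)).add hi).const_mul (L.g₂ / 4))).sub
      ((hi.pow 2).const_mul (L.g₃ / 2))).add ((hy.div_const 2).mul hs)
    simpa using this
  have hden : Tendsto (fun z => (L.weierstrassP (z + w) * (L.weierstrassP z)⁻¹ - 1) ^ 2)
      (𝓝[≠] 0) (𝓝 1) := by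
    have := ((hx.mul hi).sub_const 1).pow 2
    simpa using this
  have := hnum.div hden one_ne_zero
  rw [div_one] at this
  refine this.congr' ?_
  have hzw : ∀ᶠ z in 𝓝[≠] (0 : ℂ), z + w ∉ L.lattice := by
    have : ∀ᶠ z in 𝓝 (0 : ℂ), z + w ∉ L.lattice := by
      have h1 : Tendsto (fun z : ℂ => z + w) (𝓝 0) (𝓝 w) := by
        have : Continuous fun z : ℂ => z + w := by fun_prop
        simpa using this.tendsto 0
      exact h1.eventually ((isOpen_compl_lattice L).mem_nhds hw)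
    exact this.filter_mono nhdsWithin_le_nhds
  have hne : ∀ᶠ z in 𝓝[≠] (0 : ℂ), L.weierstrassP (z + w) ≠ L.weierstrassP z := by
    have h1 := hden.eventually_ne one_ne_zero
    filter_upwards [h1, eventually_wp_ne (L := L) 0] with z hz h0 he
    apply hz
    rw [he, mul_inv_cancel₀ h0, sub_self, zero_pow two_ne_zero]
  filter_upwards [eventually_notMem_lattice (L := L), eventually_wp_ne (L := L) 0, hzw, hne]
    with z h1 h2 h3 h4
  have r1 := L.derivWeierstrassP_sq _ h1
  have r2 := L.derivWeierstrassP_sq _ h3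
  have hd : L.weierstrassP (z + w) - L.weierstrassP z ≠ 0 := sub_ne_zero.mpr h4
  have hd2 : L.weierstrassP (z + w) * (L.weierstrassP z)⁻¹ - 1 ≠ 0 := by
    intro h0
    apply hd
    field_simp at h0
    linear_combination h0
  simp only [Pi.div_apply]
  rw [div_eq_iff (pow_ne_zero 2 hd2)]
  have key : X3 L w z * (L.weierstrassP (z + w) - L.weierstrassP z) ^ 2 =
      ((L.derivWeierstrassP (z + w) + L.derivWeierstrassP z) / 2) ^ 2 -
      (L.weierstrassP (z + w) + L.weierstrassP z) *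
        (L.weierstrassP (z + w) - L.weierstrassP z) ^ 2 := by
    unfold X3 lam
    field_simp
    ring
  generalize X3 L w z = X at *
  generalize L.weierstrassP (z + w) = x1 at *
  generalize L.weierstrassP z = x2 at *
  generalize L.derivWeierstrassP (z + w) = y1 at *
  generalize L.derivWeierstrassP z = y2 at *
  apply mul_right_cancel₀ (pow_ne_zero 2 h2)
  have e1 : X * (x1 * x2⁻¹ - 1) ^ 2 * x2 ^ 2 = X * (x1 - x2) ^ 2 := by
    field_simp
  rw [e1, key]
  field_simp
  linear_combination (-4) * (r1 + r2)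

end calcs

section points

variable (L : PeriodPair) (hΔ : (wpCurve L).Δ ≠ 0)

open Classical in
/-- the point `(℘(z), ℘'(z)/2)` -/
noncomputable def wpt (z : ℂ) : (wpCurve L).toAffine.Point :=
  if h : z ∈ L.lattice then 0 else
    .some (L.weierstrassP z) (L.derivWeierstrassP z / 2)
      ((equation_iff_nonsingular_of_Δ_ne_zero hΔ).mp (equation_wp h))

lemma wpt_of_mem {z : ℂ} (h : z ∈ L.lattice) : wpt L hΔ z = 0 := dif_pos h

lemma wpt_of_notMem {z : ℂ} (h : z ∉ L.lattice) :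
    ∃ h', wpt L hΔ z = .some (L.weierstrassP z) (L.derivWeierstrassP z / 2) h' :=
  ⟨_, dif_neg h⟩

lemma negY_wp (x y : ℂ) : (wpCurve L).toAffine.negY x y = -y := by
  simp [negY, wpCurve]

lemma wpt_neg (z : ℂ) : wpt L hΔ (-z) = - wpt L hΔ z := by
  by_cases h : z ∈ L.lattice
  · rw [wpt_of_mem L hΔ h, wpt_of_mem L hΔ (neg_mem h), Point.neg_zero]
  · have h' : -z ∉ L.lattice := fun h' => h (by simpa using neg_mem h')
    obtain ⟨k, e⟩ := wpt_of_notMem L hΔ h
    obtain ⟨k', e'⟩ := wpt_of_notMem L hΔ h'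
    rw [e, e', Point.neg_some, Point.some.injEq, negY_wp]
    exact ⟨L.weierstrassP_neg z, by rw [L.derivWeierstrassP_neg]; ring⟩

lemma wpt_add_coe (z : ℂ) {l : ℂ} (hl : l ∈ L.lattice) : wpt L hΔ (z + l) = wpt L hΔ z := by
  by_cases h : z ∈ L.lattice
  · rw [wpt_of_mem L hΔ h, wpt_of_mem L hΔ (add_mem h hl)]
  · have h' : z + l ∉ L.lattice := fun h' => h (by simpa using sub_mem h' hl)
    obtain ⟨k, e⟩ := wpt_of_notMem L hΔ h
    obtain ⟨k', e'⟩ := wpt_of_notMem L hΔ h'
    rw [e, e', Point.some.injEq]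
    exact ⟨L.weierstrassP_add_coe z ⟨l, hl⟩, by rw [L.derivWeierstrassP_add_coe z ⟨l, hl⟩]⟩

variable [DecidableEq ℂ]

/-- the difference on the generic set -/
lemma wpt_sub {w z : ℂ} (h : z ∈ Ugen L w) :
    ∃ k, wpt L hΔ (z + w) - wpt L hΔ z = .some (X3 L w z) (Y3 L w z) k := by
  obtain ⟨h1, h2, h3⟩ := h
  obtain ⟨k, e⟩ := wpt_of_notMem L hΔ h1
  obtain ⟨k', e'⟩ := wpt_of_notMem L hΔ h2
  rw [sub_eq_add_neg, e, e', Point.neg_some]
  rw [Point.add_some (fun hxy => h3 hxy.1)]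
  have es : (wpCurve L).toAffine.slope (L.weierstrassP (z + w)) (L.weierstrassP z)
      (L.derivWeierstrassP (z + w) / 2) ((wpCurve L).toAffine.negY (L.weierstrassP z)
        (L.derivWeierstrassP z / 2)) = lam L w z := by
    rw [slope_of_X_ne h3, negY_wp, lam, sub_neg_eq_add]
  have eX : (wpCurve L).toAffine.addX (L.weierstrassP (z + w)) (L.weierstrassP z) (lam L w z) =
      X3 L w z := by
    simp only [addX, wpCurve, X3]; ring
  have eY : (wpCurve L).toAffine.addY (L.weierstrassP (z + w)) (L.weierstrassP z)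
      (L.derivWeierstrassP (z + w) / 2) (lam L w z) = Y3 L w z := by
    rw [addY, negAddY, negY_wp, eX, Y3]
  have hns := nonsingular_add k' ((nonsingular_neg _ _).mpr k) (fun hxy => h3 hxy.1)
  rw [es, eX, eY] at hns
  refine ⟨hns, ?_⟩
  rw [Point.some.injEq]
  exact ⟨by rw [es, eX], by rw [es, eY]⟩

/-- The difference `Ψ(z+w) - Ψ(z)` is generically constant, equal to `± Ψ(w)`. -/
lemma exists_wpt_const {w : ℂ} (hw : w ∉ L.lattice) :
    ∃ C : (wpCurve L).toAffine.Point, (C = wpt L hΔ w ∨ C = - wpt L hΔ w) ∧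
      ∀ z ∈ Ugen L w, wpt L hΔ (z + w) = wpt L hΔ z + C := by
  obtain ⟨a, ha⟩ := X3_const hw
  obtain ⟨b, hb⟩ := Y3_const hw
  obtain ⟨z₀, hz₀⟩ := exists_notMem_of_countable (countable_compl_Ugen hw)
  rw [Set.mem_compl_iff, not_not] at hz₀
  obtain ⟨k₀, e₀⟩ := wpt_sub L hΔ hz₀
  refine ⟨wpt L hΔ (z₀ + w) - wpt L hΔ z₀, ?_, ?_⟩
  · -- the limit
    have haw : a = L.weierstrassP w := by
      have h1 := X3_limit hw
      have h2 := mem_nhds_zero_punctured (countable_compl_Ugen hw)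
      by_contra hne
      have h3 := h1.eventually_ne (Ne.symm hne)
      obtain ⟨z, hz1, hz2⟩ := (h2.and_eventually h3).exists
      rw [Set.mem_compl_iff, not_not] at hz1
      exact hz2 (ha z hz1)
    rw [ha z₀ hz₀, haw] at k₀
    simp only [ha z₀ hz₀, haw] at e₀
    obtain ⟨k, e⟩ := wpt_of_notMem L hΔ hw
    rw [e₀, e, Point.neg_some]
    rcases Y_eq_of_X_eq k₀.1 k.1 rfl with h | h
    · left
      simp only [h]
    · right
      simp only [h]
  · intro z hz
    obtain ⟨k, e⟩ := wpt_sub L hΔ hz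
    have : wpt L hΔ (z + w) - wpt L hΔ z = wpt L hΔ (z₀ + w) - wpt L hΔ z₀ := by
      rw [e, e₀, Point.some.injEq, ha z hz, hb z hz, ha z₀ hz₀, hb z₀ hz₀]
      exact ⟨rfl, rfl⟩
    rw [← this]; abel

/-- The generic constant. -/
noncomputable def cst {w : ℂ} (hw : w ∉ L.lattice) : (wpCurve L).toAffine.Point :=
  (exists_wpt_const L hΔ hw).choose

lemma cst_eq {w : ℂ} (hw : w ∉ L.lattice) :
    cst L hΔ hw = wpt L hΔ w ∨ cst L hΔ hw = - wpt L hΔ w :=
  (exists_wpt_const L hΔ hw).choose_spec.1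

lemma wpt_add_gen {w : ℂ} (hw : w ∉ L.lattice) {z : ℂ} (hz : z ∈ Ugen L w) :
    wpt L hΔ (z + w) = wpt L hΔ z + cst L hΔ hw :=
  (exists_wpt_const L hΔ hw).choose_spec.2 z hz

lemma cst_add {w₁ w₂ : ℂ} (h₁ : w₁ ∉ L.lattice) (h₂ : w₂ ∉ L.lattice)
    (h : w₁ + w₂ ∉ L.lattice) : cst L hΔ h = cst L hΔ h₁ + cst L hΔ h₂ := by
  have hc : ((Ugen L (w₁ + w₂))ᶜ ∪ (Ugen L w₁)ᶜ ∪
      (fun z => z + w₁) ⁻¹' (Ugen L w₂)ᶜ).Countable :=
    ((countable_compl_Ugen h).union (countable_compl_Ugen h₁)).union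
      ((countable_compl_Ugen h₂).preimage (add_left_injective w₁))
  obtain ⟨z, hz⟩ := exists_notMem_of_countable hc
  simp only [Set.mem_union, Set.mem_compl_iff, not_or, not_not, Set.mem_preimage] at hz
  obtain ⟨⟨a1, a2⟩, a3⟩ := hz
  have e1 := wpt_add_gen L hΔ h a1
  have e2 := wpt_add_gen L hΔ h₁ a2
  have e3 := wpt_add_gen L hΔ h₂ a3
  rw [← add_assoc, e3, e2, add_assoc] at e1
  exact (add_left_cancel e1).symm

omit [DecidableEq ℂ] in
lemma countable_level (c : ℂ) : {u | u ∉ L.lattice ∧ L.weierstrassP u = c}.Countable := by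
  obtain ⟨z₀, -, h1, h2⟩ := exists_wp_ne L c Set.countable_empty
  have han : AnalyticOnNhd ℂ (fun z => L.weierstrassP z - c) (L.lattice : Set ℂ)ᶜ := by
    intro z hz
    exact (L.analyticOnNhd_weierstrassP z hz).sub analyticAt_const
  have := countable_zeros (isPreconnected_compl_lattice L) han (z₀ := z₀) h1 (sub_ne_zero.mpr h2)
  refine this.mono ?_
  rintro u ⟨hu1, hu2⟩
  exact ⟨hu1, sub_eq_zero.mpr hu2⟩

lemma wpt_add_cst {z w : ℂ} (hz : z ∉ L.lattice) (hw : w ∉ L.lattice)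
    (hzw : z + w ∉ L.lattice) : wpt L hΔ (z + w) = wpt L hΔ z + cst L hΔ hw := by
  have hL := countable_lattice L
  have c1 := countable_level L (L.weierstrassP z)
  have c2 := countable_level L (L.weierstrassP (z + w))
  have hc : ((L.lattice : Set ℂ) ∪ (fun v => w - v) ⁻¹' (L.lattice : Set ℂ) ∪
      (fun v => z + v) ⁻¹' (L.lattice : Set ℂ) ∪
      (fun v => z + v) ⁻¹' {u | u ∉ L.lattice ∧ L.weierstrassP u = L.weierstrassP z} ∪
      (fun v => z + v) ⁻¹' {u | u ∉ L.lattice ∧ L.weierstrassP u =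
        L.weierstrassP (z + w)}).Countable :=
    (((hL.union (hL.preimage (sub_right_injective (b := w)))).union
      (hL.preimage (add_right_injective z))).union
      (c1.preimage (add_right_injective z))).union (c2.preimage (add_right_injective z))
  obtain ⟨v, hv⟩ := exists_notMem_of_countable hc
  simp only [Set.mem_union, not_or, Set.mem_preimage, SetLike.mem_coe, Set.mem_ofPred_eq,
    not_and] at hv
  obtain ⟨⟨⟨⟨a1, a2⟩, a3⟩, a4⟩, a5⟩ := hv
  have b1 : z ∈ Ugen L v := ⟨hz, a3, a4 a3⟩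
  have e : z + v + (w - v) = z + w := by ring
  have b2 : z + v ∈ Ugen L (w - v) := ⟨a3, by rwa [e], by rw [e]; exact fun h => a5 a3 h.symm⟩
  have e1 := wpt_add_gen L hΔ a1 b1
  have e2 := wpt_add_gen L hΔ a2 b2
  rw [e] at e2
  have e3 : v + (w - v) = w := by ring
  have e4 := cst_add L hΔ a1 a2 (by rwa [e3])
  simp only [e3] at e4
  rw [e2, e1, e4, add_assoc]

lemma cst_eq_wpt {w : ℂ} (hw : w ∉ L.lattice) : cst L hΔ hw = wpt L hΔ w := by
  have hh := L.ω₁_div_two_notMem_lattice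
  have hneg : wpt L hΔ (-(L.ω₁ / 2)) = wpt L hΔ (L.ω₁ / 2) := by
    have := wpt_add_coe L hΔ (-(L.ω₁ / 2)) L.ω₁_mem_lattice
    rw [← this]
    congr 1
    ring
  rw [wpt_neg] at hneg
  have h0 : cst L hΔ hh = wpt L hΔ (L.ω₁ / 2) := by
    rcases cst_eq L hΔ hh with h | h
    · exact h
    · rw [h, hneg]
  by_cases hd : w - L.ω₁ / 2 ∈ L.lattice
  · have e : wpt L hΔ w = wpt L hΔ (L.ω₁ / 2) := by
      have := wpt_add_coe L hΔ (L.ω₁ / 2) hd
      rwa [add_sub_cancel] at this
    rcases cst_eq L hΔ hw with h | h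
    · exact h
    · rw [h, e, hneg]
  · have e1 : L.ω₁ / 2 + (w - L.ω₁ / 2) = w := by ring
    have e2 := wpt_add_cst L hΔ hh hd (by rwa [e1])
    have e3 := cst_add L hΔ hh hd (by rwa [e1])
    simp only [e1] at e2 e3
    rw [e3, e2, h0]

lemma wpt_add (z w : ℂ) : wpt L hΔ (z + w) = wpt L hΔ z + wpt L hΔ w := by
  by_cases hz : z ∈ L.lattice
  · rw [wpt_of_mem L hΔ hz, zero_add, add_comm, wpt_add_coe L hΔ w hz]
  by_cases hw : w ∈ L.lattice
  · rw [wpt_of_mem L hΔ hw, add_zero, wpt_add_coe L hΔ z hw]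
  by_cases hzw : z + w ∈ L.lattice
  · rw [wpt_of_mem L hΔ hzw]
    have e : wpt L hΔ w = - wpt L hΔ z := by
      rw [← wpt_neg, ← wpt_add_coe L hΔ (-z) hzw]
      congr 1
      ring
    rw [e, add_neg_cancel]
  · rw [wpt_add_cst L hΔ hz hw hzw, cst_eq_wpt]

include hΔ in
/-- **B1a** -/
theorem exists_wp_hom : ∃ Ψ : ℂ →+ (wpCurve L).toAffine.Point,
    (∀ z, Ψ z = 0 ↔ z ∈ L.lattice) ∧
    ∀ z, z ∉ L.lattice → ∃ h, Ψ z = .some (L.weierstrassP z) (L.derivWeierstrassP z / 2) h := by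
  refine ⟨AddMonoidHom.mk' (wpt L hΔ) (wpt_add L hΔ), fun z => ?_, fun z hz => ?_⟩
  · rw [AddMonoidHom.mk'_apply]
    constructor
    · intro h
      by_contra hz
      obtain ⟨k, e⟩ := wpt_of_notMem L hΔ hz
      rw [e] at h
      exact Point.some_ne_zero k h
    · exact fun h => wpt_of_mem L hΔ h
  · rw [AddMonoidHom.mk'_apply]
    exact wpt_of_notMem L hΔ hz

end points

end Fermat.Agent.H72
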