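import Mathlib
import Fermat.Agent.H72WPAdd

set_option autoImplicit false

/-! # Duplication and half-period formulas for `℘` -/

namespace Fermat.Agent.H72

open Filter Topology PeriodPair WeierstrassCurve WeierstrassCurve.Affine Fermat.Agent.H05

section

variable {L : PeriodPair} (hΔ : (wpCurve L).Δ ≠ 0)
include hΔ

lemma wpt_inj {z w : ℂ} (h : wpt L hΔ z = wpt L hΔ w) : z - w ∈ L.lattice := by
  classical
  have h1 : wpt L hΔ (z - w) = 0 := by
    rw [sub_eq_add_neg, wpt_add, wpt_neg, h, add_neg_cancel]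
  by_contra hz
  obtain ⟨k, e⟩ := wpt_of_notMem L hΔ hz
  rw [e] at h1
  exact Point.some_ne_zero k h1

/-- If `℘(z) = ℘(w)` then `z ≡ ± w`. -/
lemma wp_eq_imp {z w : ℂ} (hz : z ∉ L.lattice) (hw : w ∉ L.lattice)
    (h : L.weierstrassP z = L.weierstrassP w) : z - w ∈ L.lattice ∨ z + w ∈ L.lattice := by
  classical
  obtain ⟨k, e⟩ := wpt_of_notMem L hΔ hz
  obtain ⟨k', e'⟩ := wpt_of_notMem L hΔ hw
  rcases Y_eq_of_X_eq k.1 k'.1 h with h1 | h1
  · left
    apply wpt_inj hΔ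
    rw [e, e', Point.some.injEq]
    exact ⟨h, h1⟩
  · right
    rw [← sub_neg_eq_add]
    apply wpt_inj hΔ
    rw [wpt_neg, e, e', Point.neg_some, Point.some.injEq]
    exact ⟨h, h1⟩

/-- `℘'(z) = 0` only at the half periods. -/
lemma two_mul_mem_of_wp'_eq_zero {z : ℂ} (hz : z ∉ L.lattice) (h : L.derivWeierstrassP z = 0) :
    2 * z ∈ L.lattice := by
  have e : wpt L hΔ z = wpt L hΔ (-z) := by
    rw [wpt_neg]
    obtain ⟨k, e⟩ := wpt_of_notMem L hΔ hz
    rw [e, Point.neg_some, Point.some.injEq, negY_wp, h]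
    simp
  have := wpt_inj hΔ e
  rwa [sub_neg_eq_add, ← two_mul] at this

omit hΔ in
lemma wp'_eq_zero_of_two_mul_mem {z : ℂ} (h : 2 * z ∈ L.lattice) :
    L.derivWeierstrassP z = 0 := by
  have h1 := L.derivWeierstrassP_sub_coe z ⟨2 * z, h⟩
  have h2 : z - 2 * z = -z := by ring
  simp only [h2, L.derivWeierstrassP_neg] at h1
  linear_combination (-1 / 2) * h1

/-- Duplication formula. -/
lemma wp_two_mul {z : ℂ} (hz : z ∉ L.lattice) (h2 : 2 * z ∉ L.lattice) :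
    L.weierstrassP (2 * z) = ((6 * L.weierstrassP z ^ 2 - L.g₂ / 2) /
      (2 * L.derivWeierstrassP z)) ^ 2 - 2 * L.weierstrassP z := by
  classical
  obtain ⟨k, e⟩ := wpt_of_notMem L hΔ hz
  obtain ⟨k', e'⟩ := wpt_of_notMem L hΔ h2
  have hy : L.derivWeierstrassP z / 2 ≠ (wpCurve L).toAffine.negY (L.weierstrassP z)
      (L.derivWeierstrassP z / 2) := by
    rw [negY_wp]
    intro h
    apply h2
    apply two_mul_mem_of_wp'_eq_zero hΔ hz
    linear_combination h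
  have hy0 : L.derivWeierstrassP z ≠ 0 := by
    intro h
    exact h2 (two_mul_mem_of_wp'_eq_zero hΔ hz h)
  have h := wpt_add L hΔ z z
  rw [← two_mul, e, e', Point.add_self_of_Y_ne hy, Point.some.injEq] at h
  rw [h.1, slope_of_Y_ne rfl hy, negY_wp]
  simp only [addX, wpCurve]
  have hy0' : L.derivWeierstrassP z / 2 - -(L.derivWeierstrassP z / 2) =
    L.derivWeierstrassP z := by ring
  rw [hy0']
  field_simp
  ring

/-- The addition formula for `℘'` with a two-torsion point. -/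
lemma wp'_add_half {z w : ℂ} (hz : z ∉ L.lattice) (hw : w ∉ L.lattice) (hzw : z + w ∉ L.lattice)
    (h2 : 2 * w ∈ L.lattice) :
    L.weierstrassP z - L.weierstrassP w ≠ 0 ∧
    L.derivWeierstrassP (z + w) * (L.weierstrassP z - L.weierstrassP w) ^ 2 =
      - L.derivWeierstrassP z * (3 * L.weierstrassP w ^ 2 - L.g₂ / 4) := by
  classical
  obtain ⟨k, e⟩ := wpt_of_notMem L hΔ hz
  obtain ⟨k', e'⟩ := wpt_of_notMem L hΔ hw
  obtain ⟨k'', e''⟩ := wpt_of_notMem L hΔ hzw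
  have hy' := wp'_eq_zero_of_two_mul_mem h2
  have hx : L.weierstrassP z ≠ L.weierstrassP w := by
    intro hx
    rcases wp_eq_imp hΔ hz hw hx with h | h
    · apply hzw
      have := add_mem h h2
      have e : z - w + 2 * w = z + w := by ring
      rwa [e] at this
    · exact hzw h
  have hx0 := sub_ne_zero.mpr hx
  refine ⟨hx0, ?_⟩
  have h := wpt_add L hΔ z w
  rw [e, e', e'', Point.add_of_X_ne hx, Point.some.injEq] at h
  have h1 := h.2
  rw [slope_of_X_ne hx, addY, negAddY, negY_wp, hy'] at h1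
  simp only [addX, wpCurve] at h1
  have r := L.derivWeierstrassP_sq z hz
  have r' := L.derivWeierstrassP_sq w hw
  rw [hy'] at r'
  have h3 : L.derivWeierstrassP (z + w) =
    -(L.derivWeierstrassP z) * (1 + ((L.derivWeierstrassP z) ^ 2 / 4 - (2 * L.weierstrassP z +
      L.weierstrassP w) * (L.weierstrassP z - L.weierstrassP w) ^ 2) /
      (L.weierstrassP z - L.weierstrassP w) ^ 3) := by
    rw [← mul_div_cancel_left₀ (L.derivWeierstrassP (z + w)) (two_ne_zero (α := ℂ)), mul_div_assoc,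
      h1]
    field_simp
    ring
  rw [h3]
  field_simp
  rw [r]
  linear_combination (L.derivWeierstrassP z) * r'

/-- **The product over the two-torsion translates.** -/
theorem prod_half {w₁ w₂ w₃ z : ℂ} (h₁ : w₁ ∉ L.lattice) (h₂ : w₂ ∉ L.lattice)
    (h₃ : w₃ ∉ L.lattice) (d₁ : 2 * w₁ ∈ L.lattice) (d₂ : 2 * w₂ ∈ L.lattice)
    (d₃ : 2 * w₃ ∈ L.lattice) (h₁₂ : w₁ + w₂ ∉ L.lattice) (h₁₃ : w₁ + w₃ ∉ L.lattice)
    (h₂₃ : w₂ + w₃ ∉ L.lattice) (hz : z ∉ L.lattice) (z₁ : z + w₁ ∉ L.lattice)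
    (z₂ : z + w₂ ∉ L.lattice) (z₃ : z + w₃ ∉ L.lattice) :
    L.derivWeierstrassP z * (L.derivWeierstrassP (z + w₁) * L.derivWeierstrassP (z + w₂) *
      L.derivWeierstrassP (z + w₃)) = (wpCurve L).Δ := by
  obtain ⟨n₁, e₁⟩ := wp'_add_half hΔ hz h₁ z₁ d₁
  obtain ⟨n₂, e₂⟩ := wp'_add_half hΔ hz h₂ z₂ d₂
  obtain ⟨n₃, e₃⟩ := wp'_add_half hΔ hz h₃ z₃ d₃
  obtain ⟨n₁₂, -⟩ := wp'_add_half hΔ h₁ h₂ h₁₂ d₂
  obtain ⟨n₁₃, -⟩ := wp'_add_half hΔ h₁ h₃ h₁₃ d₃
  obtain ⟨n₂₃, -⟩ := wp'_add_half hΔ h₂ h₃ h₂₃ d₃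
  have r := L.derivWeierstrassP_sq z hz
  have r₁ := L.derivWeierstrassP_sq w₁ h₁
  have r₂ := L.derivWeierstrassP_sq w₂ h₂
  have r₃ := L.derivWeierstrassP_sq w₃ h₃
  rw [wp'_eq_zero_of_two_mul_mem d₁] at r₁
  rw [wp'_eq_zero_of_two_mul_mem d₂] at r₂
  rw [wp'_eq_zero_of_two_mul_mem d₃] at r₃
  rw [wpCurve_Δ]
  generalize L.derivWeierstrassP (z + w₁) = Y₁ at *
  generalize L.derivWeierstrassP (z + w₂) = Y₂ at *
  generalize L.derivWeierstrassP (z + w₃) = Y₃ at *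
  generalize L.derivWeierstrassP z = Y at *
  generalize L.weierstrassP z = X at *
  generalize L.weierstrassP w₁ = a at *
  generalize L.weierstrassP w₂ = b at *
  generalize L.weierstrassP w₃ = c at *
  generalize L.g₂ = g at *
  generalize L.g₃ = h at *
  have s₁₂ : g = 4 * (a ^ 2 + a * b + b ^ 2) := by
    apply mul_left_cancel₀ n₁₂
    linear_combination r₁ - r₂
  have s₁₃ : g = 4 * (a ^ 2 + a * c + c ^ 2) := by
    apply mul_left_cancel₀ n₁₃
    linear_combination r₁ - r₃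
  have s : a + b + c = 0 := by
    apply mul_left_cancel₀ n₂₃
    linear_combination (s₁₃ - s₁₂) / 4
  have hc : c = -a - b := by linear_combination s
  subst hc
  subst s₁₂
  have hh : h = 4 * a * b * (-a - b) := by linear_combination r₁
  subst hh
  have P : Y ^ 2 = 4 * (X - a) * (X - b) * (X - (-a - b)) := by linear_combination r
  have hne : ((X - a) * (X - b) * (X - (-a - b))) ^ 2 ≠ 0 :=
    pow_ne_zero 2 (mul_ne_zero (mul_ne_zero n₁ n₂) n₃)
  apply mul_right_cancel₀ hne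
  calc Y * (Y₁ * Y₂ * Y₃) * ((X - a) * (X - b) * (X - (-a - b))) ^ 2
      = Y * (Y₁ * (X - a) ^ 2) * (Y₂ * (X - b) ^ 2) * (Y₃ * (X - (-a - b)) ^ 2) := by ring
    _ = _ := by
        rw [e₁, e₂, e₃]
        have : Y ^ 4 = (4 * (X - a) * (X - b) * (X - (-a - b))) ^ 2 := by rw [← P]; ring
        linear_combination (-(3 * a ^ 2 - 4 * (a ^ 2 + a * b + b ^ 2) / 4) *
          (3 * b ^ 2 - 4 * (a ^ 2 + a * b + b ^ 2) / 4) *
          (3 * (-a - b) ^ 2 - 4 * (a ^ 2 + a * b + b ^ 2) / 4)) * this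

end

end Fermat.Agent.H72
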