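import Mathlib
import Fermat.Agent.H72WPBasic
import Fermat.Agent.H05_WPDefs

set_option autoImplicit false

/-! # `g₂` of the lattice `(1/p)ℤ + ℤτ` (MAZUR B1b) -/

namespace Fermat.Agent.H72

open Filter Topology PeriodPair WeierstrassCurve UpperHalfPlane Fermat.Agent.H05

section lat

variable {p : ℕ} [NeZero p] {τ : ℍ}

lemma mem_latT {x : ℂ} : x ∈ (latT τ).lattice ↔ ∃ m n : ℤ, (m : ℂ) + n * τ = x := by
  rw [PeriodPair.mem_lattice]
  simp only [latT, mul_one]

lemma mem_latT' {x : ℂ} : x ∈ (latT' p τ).lattice ↔ ∃ m n : ℤ, (m : ℂ) / p + n * τ = x := by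
  rw [PeriodPair.mem_lattice]
  simp only [latT', mul_one_div]

lemma tau_injective {m n m' n' : ℝ} (h : (m : ℂ) + n * τ = m' + n' * τ) : m = m' ∧ n = n' := by
  have h1 := congrArg Complex.im h
  have h2 := congrArg Complex.re h
  simp at h1 h2
  have h3 : n = n' := by
    rcases h1 with h1 | h1
    · exact h1
    · exact absurd h1 τ.im_pos.ne'
  subst h3
  exact ⟨by linarith, rfl⟩

lemma latT_le_latT' : (latT τ).lattice ≤ (latT' p τ).lattice := by
  intro x hx
  rw [mem_latT] at hx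
  rw [mem_latT']
  obtain ⟨m, n, rfl⟩ := hx
  refine ⟨m * p, n, ?_⟩
  have : (p : ℂ) ≠ 0 := by exact_mod_cast NeZero.ne p
  push_cast
  field_simp

lemma div_mem_latT' (a : ℕ) : (a : ℂ) / p ∈ (latT' p τ).lattice := by
  rw [mem_latT']
  exact ⟨a, 0, by push_cast; ring⟩

/-- `m/p + nτ ∈ L` iff `p ∣ m`. -/
lemma div_add_mem_latT_iff {m : ℤ} {n : ℤ} :
    (m : ℂ) / p + n * τ ∈ (latT τ).lattice ↔ (p : ℤ) ∣ m := by
  have hp : (p : ℂ) ≠ 0 := by exact_mod_cast NeZero.ne p
  have hpR : (p : ℝ) ≠ 0 := by exact_mod_cast NeZero.ne p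
  rw [mem_latT]
  constructor
  · rintro ⟨m', n', h⟩
    have h' : ((m' : ℝ) : ℂ) + ((n' : ℝ) : ℂ) * τ = ((m / p : ℝ) : ℂ) + ((n : ℝ) : ℂ) * τ := by
      push_cast
      exact h
    have h1 := (tau_injective h').1
    refine ⟨m', ?_⟩
    field_simp at h1
    have h2 : ((p * m' : ℤ) : ℝ) = ((m : ℤ) : ℝ) := by push_cast; linarith
    exact_mod_cast h2.symm
  · rintro ⟨k, rfl⟩
    refine ⟨k, n, ?_⟩
    push_cast
    field_simp

lemma div_notMem_latT {a : ℕ} (ha : a ∈ Finset.Ico 1 p) : (a : ℂ) / p ∉ (latT τ).lattice := by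
  intro h
  have h' : ((a : ℤ) : ℂ) / p + ((0 : ℤ) : ℂ) * τ ∈ (latT τ).lattice := by
    push_cast; simpa using h
  rw [div_add_mem_latT_iff] at h'
  rw [Finset.mem_Ico] at ha
  have := Nat.le_of_dvd (by omega) (Int.natCast_dvd_natCast.mp h')
  omega

/-- The map `(a, l) ↦ a/p + l`. -/
noncomputable def decomp (p : ℕ) [NeZero p] (τ : ℍ) (x : Fin p × (latT τ).lattice) :
    (latT' p τ).lattice :=
  ⟨((x.1 : ℕ) : ℂ) / p, div_mem_latT' _⟩ + ⟨x.2.1, latT_le_latT' x.2.2⟩

lemma decomp_bijective : Function.Bijective (decomp p τ) := by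
  have hp : (p : ℂ) ≠ 0 := by exact_mod_cast NeZero.ne p
  have hpR : (p : ℝ) ≠ 0 := by exact_mod_cast NeZero.ne p
  constructor
  · rintro ⟨a, l⟩ ⟨b, k⟩ h
    have h1 := congrArg Subtype.val h
    simp only [decomp, Submodule.coe_add] at h1
    have hmem : (((a : ℕ) : ℂ) / p - ((b : ℕ) : ℂ) / p) ∈ (latT τ).lattice := by
      have : (((a : ℕ) : ℂ) / p - ((b : ℕ) : ℂ) / p) = k.1 - l.1 := by linear_combination h1
      rw [this]
      exact sub_mem k.2 l.2
    have hmem' : (((a : ℕ) - (b : ℕ) : ℤ) : ℂ) / p + ((0 : ℤ) : ℂ) * τ ∈ (latT τ).lattice := by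
      convert hmem using 1
      push_cast; ring
    rw [div_add_mem_latT_iff] at hmem'
    have hab : a = b := by
      have ha := a.2
      have hb := b.2
      obtain ⟨c, hc⟩ := hmem'
      have hc0 : c = 0 := by
        by_contra hne
        rcases lt_or_gt_of_ne hne with h | h
        · have : (p : ℤ) * c ≤ (p : ℤ) * (-1) := by gcongr; omega
          omega
        · have : (p : ℤ) * 1 ≤ (p : ℤ) * c := by gcongr; omega
          omega
      rw [hc0] at hc
      apply Fin.ext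
      omega
    subst hab
    simp only [Prod.mk.injEq, true_and]
    apply Subtype.ext
    linear_combination h1
  · rintro ⟨x, hx⟩
    obtain ⟨m, n, rfl⟩ := mem_latT'.mp hx
    have hp0 : (p : ℤ) ≠ 0 := by exact_mod_cast NeZero.ne p
    have hpos : (0 : ℤ) < p := by exact_mod_cast Nat.pos_of_ne_zero (NeZero.ne p)
    have h1 := Int.emod_nonneg m hp0
    have h2 := Int.emod_lt_of_pos m hpos
    refine ⟨(⟨(m % p).toNat, by omega⟩, ⟨((m / p : ℤ) : ℂ) + n * τ, mem_latT.mpr ⟨_, _, rfl⟩⟩), ?_⟩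
    apply Subtype.ext
    simp only [decomp, Submodule.coe_add]
    have h3 : (((m % p).toNat : ℕ) : ℂ) = ((m % p : ℤ) : ℂ) := by
      have : (((m % p).toNat : ℕ) : ℤ) = m % p := Int.toNat_of_nonneg h1
      exact_mod_cast congrArg (Int.cast : ℤ → ℂ) this
    rw [h3]
    have h4 : (m : ℂ) = ((m % p : ℤ) : ℂ) + p * ((m / p : ℤ) : ℂ) := by
      exact_mod_cast congrArg (Int.cast : ℤ → ℂ) (Int.emod_add_mul_ediv m p).symm
    rw [h4]
    field_simp
    ring

noncomputable def decompEquiv (p : ℕ) [NeZero p] (τ : ℍ) :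
    Fin p × (latT τ).lattice ≃ (latT' p τ).lattice :=
  Equiv.ofBijective (decomp p τ) decomp_bijective

end lat

/-- the second derivative as an Eisenstein sum -/
lemma deriv_wp'_eq (L : PeriodPair) {x : ℂ} (hx : x ∉ L.lattice) :
    deriv L.derivWeierstrassP x = 6 * L.sumInvPow x 4 := by
  rw [← L.deriv_derivWeierstrassPExcept_self x, L.derivWeierstrassPExcept_of_notMem x hx]

theorem G_latT' (p : ℕ) [NeZero p] (τ : ℍ) {r : ℕ} (hr : 2 < r) :
    (latT' p τ).G r = ∑ a ∈ Finset.range p, (latT τ).sumInvPow (-((a : ℂ) / p)) r := by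
  have hs : Summable (fun l : (latT' p τ).lattice => ((l.1 ^ r)⁻¹ : ℂ)) := by
    simpa using ((latT' p τ).hasSum_sumInvPow 0 hr).summable
  have hs' : Summable (fun x : Fin p × (latT τ).lattice =>
      (((decompEquiv p τ x).1 ^ r)⁻¹ : ℂ)) := (decompEquiv p τ).summable_iff.mpr hs
  rw [PeriodPair.G, ← (decompEquiv p τ).tsum_eq, hs'.tsum_prod, tsum_fintype,
    ← Fin.sum_univ_eq_sum_range (fun a => (latT τ).sumInvPow (-((a : ℂ) / p)) r)]
  apply Finset.sum_congr rfl
  intro a _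
  rw [PeriodPair.sumInvPow]
  apply tsum_congr
  intro l
  simp only [decompEquiv, Equiv.ofBijective_apply, decomp, Submodule.coe_add]
  rw [sub_neg_eq_add, add_comm]

/-- **B1b**. -/
theorem B1b (p : ℕ) [NeZero p] (τ : ℍ) :
    (latT' p τ).g₂ = (latT τ).g₂ + 10 * ∑ a ∈ Finset.Ico 1 p,
      (6 * (latT τ).weierstrassP (a / p) ^ 2 - (latT τ).g₂ / 2) := by
  have hp : 0 < p := Nat.pos_of_ne_zero (NeZero.ne p)
  rw [PeriodPair.g₂, G_latT' p τ (by norm_num), Finset.range_eq_Ico,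
    Finset.sum_eq_sum_Ico_succ_bot hp]
  have h0 : (latT τ).sumInvPow (-(((0 : ℕ) : ℂ) / p)) 4 = (latT τ).G 4 := by
    rw [Nat.cast_zero, zero_div, neg_zero, PeriodPair.sumInvPow_zero]
  rw [h0, mul_add, PeriodPair.g₂]
  congr 1
  rw [Finset.mul_sum, Finset.mul_sum]
  apply Finset.sum_congr rfl
  intro a ha
  have hn : -((a : ℂ) / p) ∉ (latT τ).lattice := by
    intro h
    exact div_notMem_latT ha (by simpa using neg_mem h)
  have h1 := deriv_wp'_eq (latT τ) hn
  rw [deriv_deriv_wp (latT τ) hn, PeriodPair.weierstrassP_neg, PeriodPair.g₂] at h1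
  linear_combination (-10) * h1

end Fermat.Agent.H72
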