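import Mathlib
import Fermat.Agent.H72WPDup
import Fermat.Agent.H72WPG2
import Fermat.Agent.H4WPEis

set_option autoImplicit false

/-! # The discriminant of the lattice `(1/p)ℤ + ℤτ` (MAZUR B1d) -/

namespace Fermat.Agent.H72

open Filter Topology PeriodPair WeierstrassCurve UpperHalfPlane Fermat.Agent.H05

/-- `℘''/℘'` -/
noncomputable def ell (L : PeriodPair) (z : ℂ) : ℂ :=
  (6 * L.weierstrassP z ^ 2 - L.g₂ / 2) / L.derivWeierstrassP z

lemma ell_neg (L : PeriodPair) (z : ℂ) : ell L (-z) = - ell L z := by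
  simp only [ell, L.weierstrassP_neg, L.derivWeierstrassP_neg, div_neg]

lemma ell_add_coe (L : PeriodPair) (z : ℂ) {l : ℂ} (hl : l ∈ L.lattice) :
    ell L (z + l) = ell L z := by
  simp only [ell]
  rw [L.weierstrassP_add_coe z ⟨l, hl⟩, L.derivWeierstrassP_add_coe z ⟨l, hl⟩]

lemma notMem_of_two_mul {L : PeriodPair} {z : ℂ} (h : 2 * z ∉ L.lattice) : z ∉ L.lattice := by
  intro hz
  apply h
  rw [two_mul]
  exact add_mem hz hz

lemma hasDerivAt_ell {L : PeriodPair} (hΔ : (wpCurve L).Δ ≠ 0) {z : ℂ} (h2 : 2 * z ∉ L.lattice) :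
    HasDerivAt (ell L) (4 * L.weierstrassP z - 4 * L.weierstrassP (2 * z)) z := by
  have hz := notMem_of_two_mul h2
  have hy0 : L.derivWeierstrassP z ≠ 0 := by
    intro h
    exact h2 (two_mul_mem_of_wp'_eq_zero hΔ hz h)
  have h1 := hasDerivAt_wp L hz
  have h3 := hasDerivAt_wp' L hz
  have := (((h1.pow 2).const_mul 6).sub_const (L.g₂ / 2)).div h3 hy0
  convert! this using 1
  rw [wp_two_mul hΔ hz h2]
  simp only [Pi.pow_apply]
  field_simp
  ring

section lat

variable {p : ℕ} [NeZero p] {τ : ℍ}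

lemma latT_Δ_ne_zero (τ : ℍ) : (wpCurve (latT τ)).Δ ≠ 0 := by
  rw [(Fermat.Agent.H4.B1c τ).2]
  exact mul_ne_zero (by simp [Real.pi_ne_zero]) (ModularForm.discriminant_ne_zero τ)

lemma latT'_Δ_ne_zero (p : ℕ) [NeZero p] (τ : ℍ) : (wpCurve (latT' p τ)).Δ ≠ 0 := by
  have hp : (0 : ℝ) < p := by exact_mod_cast Nat.pos_of_ne_zero (NeZero.ne p)
  let τ' : ℍ := ⟨(p : ℂ) * τ, by
    have : ((p : ℂ) * (τ : ℂ)).im = p * τ.im := by
      simp [Complex.mul_im]
    rw [this]
    exact mul_pos hp τ.im_pos⟩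
  rw [(Fermat.Agent.H4.B1c' p τ τ' rfl).2]
  exact mul_ne_zero (by simp [NeZero.ne p]) (latT_Δ_ne_zero τ')

/-- `a ↦ a/p` -/
noncomputable def res (a : ZMod p) : ℂ := (a.val : ℂ) / p

lemma sum_range_eq (f : ℕ → ℂ) : ∑ a ∈ Finset.range p, f a = ∑ a : ZMod p, f a.val := by
  symm
  apply Finset.sum_nbij' (fun a : ZMod p => a.val) (fun n : ℕ => (n : ZMod p))
  · intro a _
    rw [Finset.mem_range]
    exact ZMod.val_lt a
  · intro a _; exact Finset.mem_univ _
  · intro a _; simp
  · intro a ha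
    rw [Finset.mem_range] at ha
    exact ZMod.val_cast_of_lt ha
  · intro a _; rfl

lemma prod_range_eq (f : ℕ → ℂ) : ∏ a ∈ Finset.range p, f a = ∏ a : ZMod p, f a.val := by
  symm
  apply Finset.prod_nbij' (fun a : ZMod p => a.val) (fun n : ℕ => (n : ZMod p))
  · intro a _
    rw [Finset.mem_range]
    exact ZMod.val_lt a
  · intro a _; exact Finset.mem_univ _
  · intro a _; simp
  · intro a ha
    rw [Finset.mem_range] at ha
    exact ZMod.val_cast_of_lt ha
  · intro a _; rfl

lemma res_int (n : ℤ) : ∃ l ∈ (latT τ).lattice, (n : ℂ) / p = res ((n : ZMod p)) + l := by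
  have hp : (p : ℂ) ≠ 0 := by exact_mod_cast NeZero.ne p
  have h1 : (((n : ZMod p).val : ℤ) : ZMod p) = ((n : ℤ) : ZMod p) := by simp
  rw [ZMod.intCast_eq_intCast_iff_dvd_sub] at h1
  obtain ⟨k, hk⟩ := h1
  refine ⟨k, mem_latT.mpr ⟨k, 0, by push_cast; ring⟩, ?_⟩
  have h2 : (n : ℂ) = ((n : ZMod p).val : ℂ) + p * k := by
    have : n = ((n : ZMod p).val : ℤ) + p * k := by linarith
    exact_mod_cast congrArg (Int.cast : ℤ → ℂ) this
  rw [res]
  field_simp
  exact h2

variable (τ) in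
/-- reindexing a sum over the residues -/
lemma sum_res_mul {g : ℂ → ℂ} (hg : ∀ z, ∀ l ∈ (latT τ).lattice, g (z + l) = g z) (k : ℤ)
    (hk : IsUnit (k : ZMod p)) (z : ℂ) :
    ∑ a : ZMod p, g (z + k * res a) = ∑ a : ZMod p, g (z + res a) := by
  obtain ⟨u, hu⟩ := hk
  rw [← Equiv.sum_comp (Units.mulLeft u) (fun a => g (z + res a))]
  apply Finset.sum_congr rfl
  intro a _
  obtain ⟨l, hl, e⟩ := res_int (p := p) (τ := τ) (k * (a.val : ℤ))
  have h1 : (k : ℂ) * res a = ((k * (a.val : ℤ) : ℤ) : ℂ) / p := by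
    simp only [res]; push_cast; ring
  have h2 : ((k * (a.val : ℤ) : ℤ) : ZMod p) = (Units.mulLeft u) a := by
    push_cast
    rw [Units.mulLeft_apply, hu]
    simp
  rw [h1, e, ← add_assoc, hg _ l hl, h2]

lemma res_mem (a : ZMod p) : res a ∈ (latT' p τ).lattice := div_mem_latT' _

lemma sub_res_notMem {z : ℂ} (hz : z ∉ (latT' p τ).lattice) (a : ZMod p) :
    z - res a ∉ (latT τ).lattice := by
  intro h
  apply hz
  have := add_mem (latT_le_latT' (p := p) h) (res_mem (τ := τ) a)
  rwa [sub_add_cancel] at this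

lemma two_mul_sub_res_notMem {z : ℂ} (hz : 2 * z ∉ (latT' p τ).lattice) (a : ZMod p) :
    2 * (z - res a) ∉ (latT τ).lattice := by
  intro h
  apply hz
  have h1 := add_mem (res_mem (τ := τ) a) (res_mem (τ := τ) a)
  have := add_mem (latT_le_latT' (p := p) h) h1
  have e : 2 * (z - res a) + (res a + res a) = 2 * z := by ring
  rwa [e] at this

/-- additivity of `℘'`. -/
lemma wp'_sum (x : ℂ) : (latT' p τ).derivWeierstrassP x =
    ∑ a : ZMod p, (latT τ).derivWeierstrassP (x - res a) := by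
  have e0 : ∑ a : ZMod p, (latT τ).derivWeierstrassP (x - res a) =
      ∑ a ∈ Finset.range p, (latT τ).derivWeierstrassP (x - (a : ℂ) / p) :=
    (sum_range_eq (fun a => (latT τ).derivWeierstrassP (x - (a : ℂ) / p))).symm
  rw [e0]
  have h := (latT' p τ).hasSum_derivWeierstrassP x
  have hs : Summable (fun y : Fin p × (latT τ).lattice =>
      -2 / (x - (decompEquiv p τ y).1) ^ 3) := (decompEquiv p τ).summable_iff.mpr h.summable
  rw [← h.tsum_eq, ← (decompEquiv p τ).tsum_eq, hs.tsum_prod, tsum_fintype,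
    ← Fin.sum_univ_eq_sum_range (fun a => (latT τ).derivWeierstrassP (x - (a : ℂ) / p))]
  apply Finset.sum_congr rfl
  intro a _
  rw [← ((latT τ).hasSum_derivWeierstrassP _).tsum_eq]
  apply tsum_congr
  intro l
  simp only [decompEquiv, Equiv.ofBijective_apply, decomp, Submodule.coe_add]
  rw [sub_sub]

variable (p τ) in
lemma wp_sum_const : ∃ c, ∀ z, z ∉ (latT' p τ).lattice →
    ∑ a : ZMod p, (latT τ).weierstrassP (z - res a) - (latT' p τ).weierstrassP z = c := by
  have hd : ∀ z ∉ (latT' p τ).lattice, HasDerivAt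
      (fun z => ∑ a : ZMod p, (latT τ).weierstrassP (z - res a) - (latT' p τ).weierstrassP z)
      0 z := by
    intro z hz
    have h1 : HasDerivAt (fun z => ∑ a : ZMod p, (latT τ).weierstrassP (z - res a))
        (∑ a : ZMod p, (latT τ).derivWeierstrassP (z - res a)) z := by
      apply HasDerivAt.fun_sum
      intro a _
      exact (hasDerivAt_wp (latT τ) (sub_res_notMem hz a)).comp_sub_const z (res a)
    have := h1.sub (hasDerivAt_wp (latT' p τ) hz)
    rw [wp'_sum, sub_self] at this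
    exact this
  exact (isOpen_compl_lattice (latT' p τ)).exists_is_const_of_deriv_eq_zero
    (isPreconnected_compl_lattice (latT' p τ))
    (fun z hz => (hd z hz).differentiableAt.differentiableWithinAt)
    (fun z hz => (hd z hz).deriv)

/-- the generic set -/
def Gset (p : ℕ) [NeZero p] (τ : ℍ) : Set ℂ := {z | 2 * z ∉ (latT' p τ).lattice}

lemma Gset_compl_countable : ((Gset p τ)ᶜ).Countable := by
  have : (Gset p τ)ᶜ = (fun z => 2 * z) ⁻¹' ((latT' p τ).lattice : Set ℂ) := by
    ext z; simp [Gset]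
  rw [this]
  exact (countable_lattice _).preimage (mul_right_injective₀ two_ne_zero)

lemma isOpen_Gset : IsOpen (Gset p τ) := by
  have : Gset p τ = (fun z => 2 * z) ⁻¹' ((latT' p τ).lattice : Set ℂ)ᶜ := by
    ext z; simp [Gset]
  rw [this]
  exact (isOpen_compl_lattice _).preimage (by fun_prop)

lemma isPreconnected_Gset : IsPreconnected (Gset p τ) := by
  have := isPreconnected_compl (Gset_compl_countable (p := p) (τ := τ))
  rwa [compl_compl] at this

lemma ell_sum (hp : Odd p) {z : ℂ} (hz : z ∈ Gset p τ) :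
    ∑ a : ZMod p, ell (latT τ) (z - res a) = ell (latT' p τ) z := by
  obtain ⟨c, hc⟩ := wp_sum_const p τ
  set f : ℂ → ℂ := fun z => ∑ a : ZMod p, ell (latT τ) (z - res a) - ell (latT' p τ) z with hf
  have hd : ∀ z ∈ Gset p τ, HasDerivAt f 0 z := by
    intro z hz
    have hz' := notMem_of_two_mul hz
    have h1 : HasDerivAt (fun z => ∑ a : ZMod p, ell (latT τ) (z - res a))
        (∑ a : ZMod p, (4 * (latT τ).weierstrassP (z - res a) -
          4 * (latT τ).weierstrassP (2 * (z - res a)))) z := by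
      apply HasDerivAt.fun_sum
      intro a _
      exact (hasDerivAt_ell (latT_Δ_ne_zero τ) (two_mul_sub_res_notMem hz a)).comp_sub_const z
        (res a)
    have h2 := h1.sub (hasDerivAt_ell (latT'_Δ_ne_zero p τ) hz)
    convert! h2 using 1
    have e1 := hc z hz'
    have e2 := hc (2 * z) hz
    have e3 : ∑ a : ZMod p, (latT τ).weierstrassP (2 * (z - res a)) =
        ∑ a : ZMod p, (latT τ).weierstrassP (2 * z - res a) := by
      have h3 := sum_res_mul τ (g := (latT τ).weierstrassP)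
        (fun z l hl => (latT τ).weierstrassP_add_coe z ⟨l, hl⟩) (p := p) (-2)
        (by
          have : ((-2 : ℤ) : ZMod p) = -((2 : ℕ) : ZMod p) := by push_cast; rfl
          rw [this, IsUnit.neg_iff, ZMod.isUnit_iff_coprime]
          exact hp.coprime_two_left) (2 * z)
      have h4 := sum_res_mul τ (g := (latT τ).weierstrassP)
        (fun z l hl => (latT τ).weierstrassP_add_coe z ⟨l, hl⟩) (p := p) (-1)
        (by simp) (2 * z)
      have h5 := h3.trans h4.symm
      convert h5 using 3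
      · push_cast; ring
      · push_cast; ring
    rw [Finset.sum_sub_distrib, ← Finset.mul_sum, ← Finset.mul_sum, e3]
    linear_combination 4 * e2 - 4 * e1
  obtain ⟨b, hb⟩ := isOpen_Gset.exists_is_const_of_deriv_eq_zero isPreconnected_Gset
    (fun z hz => (hd z hz).differentiableAt.differentiableWithinAt)
    (fun z hz => (hd z hz).deriv)
  have hz2 : -z ∈ Gset p τ := by
    intro h
    apply hz
    have := neg_mem h
    convert this using 1
    ring
  have h1 := hb z hz
  have h2 := hb (-z) hz2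
  have h3 : f (-z) = - f z := by
    simp only [hf]
    rw [ell_neg]
    have h4 := sum_res_mul τ (g := ell (latT τ))
        (fun z l hl => ell_add_coe _ z hl) (p := p) (-1) (by simp) z
    have h5 : ∑ a : ZMod p, ell (latT τ) (-z - res a) = - ∑ a : ZMod p, ell (latT τ) (z + res a) := by
      rw [← Finset.sum_neg_distrib]
      apply Finset.sum_congr rfl
      intro a _
      rw [← ell_neg]
      congr 1
      ring
    rw [h5, ← h4]
    have h6 : ∑ a : ZMod p, ell (latT τ) (z + ((-1 : ℤ) : ℂ) * res a) =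
        ∑ a : ZMod p, ell (latT τ) (z - res a) := by
      apply Finset.sum_congr rfl
      intro a _
      congr 1
      push_cast
      ring
    rw [h6]
    ring
  have h4 : f z = 0 := by
    rw [h2, ← h1] at h3
    linear_combination (1 / 2) * h3
  exact sub_eq_zero.mp h4

lemma wp'_ne_zero {z : ℂ} (hz : 2 * z ∉ (latT τ).lattice) :
    (latT τ).derivWeierstrassP z ≠ 0 := fun h =>
  hz (two_mul_mem_of_wp'_eq_zero (latT_Δ_ne_zero τ) (notMem_of_two_mul hz) h)

lemma wp'_ne_zero' {z : ℂ} (hz : 2 * z ∉ (latT' p τ).lattice) :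
    (latT' p τ).derivWeierstrassP z ≠ 0 := fun h =>
  hz (two_mul_mem_of_wp'_eq_zero (latT'_Δ_ne_zero p τ) (notMem_of_two_mul hz) h)

lemma prod_ratio_const (hp : Odd p) : ∃ c, ∀ z ∈ Gset p τ,
    (∏ a : ZMod p, (latT τ).derivWeierstrassP (z - res a)) /
      (latT' p τ).derivWeierstrassP z = c := by
  have hda : ∀ z ∈ Gset p τ, ∀ a : ZMod p,
      HasDerivAt (fun z => (latT τ).derivWeierstrassP (z - res a))
        (6 * (latT τ).weierstrassP (z - res a) ^ 2 - (latT τ).g₂ / 2) z := by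
    intro z hz a
    exact (hasDerivAt_wp' (latT τ) (sub_res_notMem (notMem_of_two_mul hz) a)).comp_sub_const z
      (res a)
  have hdF : ∀ z ∈ Gset p τ, DifferentiableAt ℂ
      (fun z => ∏ a : ZMod p, (latT τ).derivWeierstrassP (z - res a)) z := by
    intro z hz
    apply DifferentiableAt.fun_finsetProd
    intro a _
    exact (hda z hz a).differentiableAt
  have hdG : ∀ z ∈ Gset p τ, HasDerivAt (latT' p τ).derivWeierstrassP
      (6 * (latT' p τ).weierstrassP z ^ 2 - (latT' p τ).g₂ / 2) z := by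
    intro z hz
    exact hasDerivAt_wp' _ (notMem_of_two_mul hz)
  have hFne : ∀ z ∈ Gset p τ, ∏ a : ZMod p, (latT τ).derivWeierstrassP (z - res a) ≠ 0 := by
    intro z hz
    rw [Finset.prod_ne_zero_iff]
    intro a _
    exact wp'_ne_zero (two_mul_sub_res_notMem hz a)
  have hRd : ∀ z ∈ Gset p τ, DifferentiableAt ℂ
      (fun z => (∏ a : ZMod p, (latT τ).derivWeierstrassP (z - res a)) /
      (latT' p τ).derivWeierstrassP z) z := by
    intro z hz
    exact (hdF z hz).fun_div (hdG z hz).differentiableAt (wp'_ne_zero' hz)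
  refine isOpen_Gset.exists_is_const_of_deriv_eq_zero isPreconnected_Gset
    (fun z hz => (hRd z hz).differentiableWithinAt) ?_
  intro z hz
  have h1 : logDeriv (fun z => (∏ a : ZMod p, (latT τ).derivWeierstrassP (z - res a)) /
      (latT' p τ).derivWeierstrassP z) z = 0 := by
    have h0 := logDeriv_div (f := fun z => ∏ a : ZMod p, (latT τ).derivWeierstrassP (z - res a))
      (g := (latT' p τ).derivWeierstrassP) z (hFne z hz) (wp'_ne_zero' hz) (hdF z hz)
      (hdG z hz).differentiableAt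
    have h0' := logDeriv_prod (s := Finset.univ) (f := fun (a : ZMod p) (z : ℂ) =>
      (latT τ).derivWeierstrassP (z - res a)) (x := z)
      (fun a _ => wp'_ne_zero (two_mul_sub_res_notMem hz a))
      (fun a _ => (hda z hz a).differentiableAt)
    rw [h0, h0']
    have h2 : ∀ a : ZMod p, logDeriv (fun z => (latT τ).derivWeierstrassP (z - res a)) z =
        ell (latT τ) (z - res a) := by
      intro a
      rw [logDeriv_apply, (hda z hz a).deriv, ell]
    have h3 : logDeriv (latT' p τ).derivWeierstrassP z = ell (latT' p τ) z := by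
      rw [logDeriv_apply, (hdG z hz).deriv, ell]
    rw [Finset.sum_congr rfl (fun a _ => h2 a), h3, ell_sum hp hz, sub_self]
  rw [logDeriv_apply, div_eq_zero_iff] at h1
  rcases h1 with h1 | h1
  · exact h1
  · exact absurd h1 (div_ne_zero (hFne z hz) (wp'_ne_zero' hz))

end lat

lemma tendsto_cube_wp' (L : PeriodPair) :
    Tendsto (fun z => z ^ 3 * L.derivWeierstrassP z) (𝓝[≠] 0) (𝓝 (-2)) := by
  have h1 : AnalyticAt ℂ (L.derivWeierstrassPExcept 0) 0 := L.analyticAt_derivWeierstrassPExcept 0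
  have h2 : Tendsto (fun z => z ^ 3 * L.derivWeierstrassPExcept 0 z - 2) (𝓝[≠] 0) (𝓝 (-2)) := by
    have h3 : Tendsto (fun z : ℂ => z ^ 3 * L.derivWeierstrassPExcept 0 z - 2) (𝓝 0)
        (𝓝 (0 ^ 3 * L.derivWeierstrassPExcept 0 0 - 2)) := by
      have : ContinuousAt (fun z : ℂ => z ^ 3 * L.derivWeierstrassPExcept 0 z - 2) 0 := by
        have := h1.continuousAt
        fun_prop
      exact this.tendsto
    have h4 : (0 : ℂ) ^ 3 * L.derivWeierstrassPExcept 0 0 - 2 = -2 := by ring
    rw [h4] at h3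
    exact h3.mono_left nhdsWithin_le_nhds
  refine h2.congr' ?_
  filter_upwards [self_mem_nhdsWithin] with z hz
  have h5 := L.derivWeierstrassPExcept_def ⟨0, zero_mem _⟩ z
  simp only [sub_zero] at h5
  rw [h5]
  have hz : z ≠ 0 := hz
  field_simp
  ring

section lat

variable {p : ℕ} [NeZero p] {τ : ℍ}

lemma prod_eq (hp : Odd p) {z : ℂ} (hz : z ∈ Gset p τ) :
    ∏ a : ZMod p, (latT τ).derivWeierstrassP (z - res a) =
      (∏ a ∈ Finset.Ico 1 p, (latT τ).derivWeierstrassP (-((a : ℂ) / p))) *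
        (latT' p τ).derivWeierstrassP z := by
  obtain ⟨c, hc⟩ := prod_ratio_const (p := p) (τ := τ) hp
  have hp0 : 0 < p := Nat.pos_of_ne_zero (NeZero.ne p)
  have hlim : Tendsto (fun z => (∏ a : ZMod p, (latT τ).derivWeierstrassP (z - res a)) /
      (latT' p τ).derivWeierstrassP z) (𝓝[≠] 0)
      (𝓝 (∏ a ∈ Finset.Ico 1 p, (latT τ).derivWeierstrassP (-((a : ℂ) / p)))) := by
    have e : ∀ z, ∏ a : ZMod p, (latT τ).derivWeierstrassP (z - res a) =
        (latT τ).derivWeierstrassP z *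
          ∏ a ∈ Finset.Ico 1 p, (latT τ).derivWeierstrassP (z - (a : ℂ) / p) := by
      intro z
      have e0 : ∏ a : ZMod p, (latT τ).derivWeierstrassP (z - res a) =
          ∏ a ∈ Finset.range p, (latT τ).derivWeierstrassP (z - (a : ℂ) / p) :=
        (prod_range_eq (fun a => (latT τ).derivWeierstrassP (z - (a : ℂ) / p))).symm
      rw [e0, Finset.range_eq_Ico, Finset.prod_eq_prod_Ico_succ_bot hp0]
      simp
    have h1 : Tendsto (fun z => ∏ a ∈ Finset.Ico 1 p, (latT τ).derivWeierstrassP (z - (a : ℂ) / p))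
        (𝓝[≠] 0) (𝓝 (∏ a ∈ Finset.Ico 1 p, (latT τ).derivWeierstrassP (-((a : ℂ) / p)))) := by
      apply tendsto_finsetProd
      intro a ha
      have hn : -((a : ℂ) / p) ∉ (latT τ).lattice := by
        intro h
        exact div_notMem_latT ha (by simpa using neg_mem h)
      have h2 : AnalyticAt ℂ (latT τ).derivWeierstrassP (0 - (a : ℂ) / p) := by
        rw [zero_sub]; exact (latT τ).analyticOnNhd_derivWeierstrassP _ hn
      have h3 : ContinuousAt (fun z => (latT τ).derivWeierstrassP (z - (a : ℂ) / p)) 0 :=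
        ContinuousAt.comp' (g := (latT τ).derivWeierstrassP) h2.continuousAt (by fun_prop)
      have := h3.tendsto.mono_left (nhdsWithin_le_nhds (s := {0}ᶜ))
      simpa using this
    have h2 := ((tendsto_cube_wp' (latT τ)).div (tendsto_cube_wp' (latT' p τ)) (by norm_num)).mul h1
    rw [div_self (by norm_num), one_mul] at h2
    refine h2.congr' ?_
    filter_upwards [self_mem_nhdsWithin] with z hz
    have hz : z ≠ 0 := hz
    simp only [Pi.div_apply]
    rw [e, mul_div_mul_left _ _ (pow_ne_zero 3 hz)]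
    ring
  have hcK : c = ∏ a ∈ Finset.Ico 1 p, (latT τ).derivWeierstrassP (-((a : ℂ) / p)) := by
    by_contra hne
    have h3 := hlim.eventually_ne (Ne.symm hne)
    have h2 := mem_nhds_zero_punctured (Gset_compl_countable (p := p) (τ := τ))
    obtain ⟨z, hz1, hz2⟩ := (h2.and_eventually h3).exists
    rw [Set.mem_compl_iff, not_not] at hz1
    exact hz2 (hc z hz1)
  rw [← hcK, ← hc z hz, div_mul_cancel₀ _ (wp'_ne_zero' hz)]

lemma half_notMem (hp : Odd p) (m n : ℤ) (h : ¬ (2 ∣ m ∧ 2 ∣ n)) :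
    ((m : ℂ) + n * τ) / 2 ∉ (latT' p τ).lattice := by
  have hp0 : (p : ℝ) ≠ 0 := by exact_mod_cast NeZero.ne p
  intro hmem
  apply h
  obtain ⟨m', n', e⟩ := mem_latT'.mp hmem
  have e' : ((m' / p : ℝ) : ℂ) + ((n' : ℝ) : ℂ) * τ =
      ((m / 2 : ℝ) : ℂ) + ((n / 2 : ℝ) : ℂ) * τ := by
    push_cast
    rw [e]
    ring
  obtain ⟨e1, e2⟩ := tau_injective e'
  field_simp at e1
  have e3 : m' * 2 = p * m := by exact_mod_cast e1
  have e4 : n' * 2 = n := by
    have : (n' * 2 : ℝ) = n := by linarith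
    exact_mod_cast this
  refine ⟨?_, ⟨n', by omega⟩⟩
  have h2 : (2 : ℤ) ∣ p * m := ⟨m', by omega⟩
  rcases Int.prime_two.dvd_or_dvd h2 with h | h
  · exfalso
    obtain ⟨k, hk⟩ := hp
    omega
  · exact h

/-- **B1d** -/
theorem B1d (p : ℕ) [NeZero p] (hp : Odd p) (τ : ℍ) :
    (wpCurve (latT' p τ)).Δ *
      ∏ a ∈ Finset.Ico 1 p, (latT τ).derivWeierstrassP (a / p) ^ 4 =
    (wpCurve (latT τ)).Δ ^ p := by
  obtain ⟨z, hz⟩ := exists_notMem_of_countable (Gset_compl_countable (p := p) (τ := τ))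
  rw [Set.mem_compl_iff, not_not] at hz
  set w₁ : ℂ := (((1 : ℤ) : ℂ) + ((0 : ℤ) : ℂ) * τ) / 2 with hw₁
  set w₂ : ℂ := (((0 : ℤ) : ℂ) + ((1 : ℤ) : ℂ) * τ) / 2 with hw₂
  set w₃ : ℂ := (((1 : ℤ) : ℂ) + ((1 : ℤ) : ℂ) * τ) / 2 with hw₃
  -- membership
  have d₁ : 2 * w₁ ∈ (latT τ).lattice := mem_latT.mpr ⟨1, 0, by rw [hw₁]; push_cast; ring⟩
  have d₂ : 2 * w₂ ∈ (latT τ).lattice := mem_latT.mpr ⟨0, 1, by rw [hw₂]; push_cast; ring⟩
  have d₃ : 2 * w₃ ∈ (latT τ).lattice := mem_latT.mpr ⟨1, 1, by rw [hw₃]; push_cast; ring⟩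
  have d₁' := latT_le_latT' (p := p) d₁
  have d₂' := latT_le_latT' (p := p) d₂
  have d₃' := latT_le_latT' (p := p) d₃
  have h₁ : w₁ ∉ (latT' p τ).lattice := half_notMem hp 1 0 (by norm_num)
  have h₂ : w₂ ∉ (latT' p τ).lattice := half_notMem hp 0 1 (by norm_num)
  have h₃ : w₃ ∉ (latT' p τ).lattice := half_notMem hp 1 1 (by norm_num)
  have h₁₂ : w₁ + w₂ ∉ (latT' p τ).lattice := by
    have := half_notMem (τ := τ) hp 1 1 (by norm_num)
    convert this using 1
    rw [hw₁, hw₂]; push_cast; ring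
  have h₁₃ : w₁ + w₃ ∉ (latT' p τ).lattice := by
    have := half_notMem (τ := τ) hp 2 1 (by norm_num)
    convert this using 1
    rw [hw₁, hw₃]; push_cast; ring
  have h₂₃ : w₂ + w₃ ∉ (latT' p τ).lattice := by
    have := half_notMem (τ := τ) hp 1 2 (by norm_num)
    convert this using 1
    rw [hw₂, hw₃]; push_cast; ring
  have sub : ∀ {x : ℂ}, x ∉ (latT' p τ).lattice → x ∉ (latT τ).lattice :=
    fun h h' => h (latT_le_latT' h')
  have key : ∀ {w : ℂ}, 2 * w ∈ (latT' p τ).lattice → z + w ∈ Gset p τ := by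
    intro w hw h
    apply hz
    have := sub_mem h hw
    have e : 2 * (z + w) - 2 * w = 2 * z := by ring
    rwa [e] at this
  set K := ∏ a ∈ Finset.Ico 1 p, (latT τ).derivWeierstrassP (-((a : ℂ) / p)) with hK
  have hK4 : ∏ a ∈ Finset.Ico 1 p, (latT τ).derivWeierstrassP (a / p) ^ 4 = K ^ 4 := by
    rw [hK, ← Finset.prod_pow]
    apply Finset.prod_congr rfl
    intro a _
    rw [PeriodPair.derivWeierstrassP_neg]
    ring
  have P0 := prod_eq hp hz
  have P1 := prod_eq hp (key d₁')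
  have P2 := prod_eq hp (key d₂')
  have P3 := prod_eq hp (key d₃')
  have hΔ' := prod_half (latT'_Δ_ne_zero p τ) h₁ h₂ h₃ d₁' d₂' d₃' h₁₂ h₁₃ h₂₃
    (notMem_of_two_mul hz) (notMem_of_two_mul (key d₁')) (notMem_of_two_mul (key d₂'))
    (notMem_of_two_mul (key d₃'))
  have hΔa : ∀ a : ZMod p, (latT τ).derivWeierstrassP (z - res a) *
      ((latT τ).derivWeierstrassP (z + w₁ - res a) * (latT τ).derivWeierstrassP (z + w₂ - res a) *
      (latT τ).derivWeierstrassP (z + w₃ - res a)) = (wpCurve (latT τ)).Δ := by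
    intro a
    have e : ∀ w : ℂ, z + w - res a = (z - res a) + w := fun w => by ring
    rw [e, e, e]
    apply prod_half (latT_Δ_ne_zero τ) (sub h₁) (sub h₂) (sub h₃) d₁ d₂ d₃ (sub h₁₂) (sub h₁₃)
      (sub h₂₃) (sub_res_notMem (notMem_of_two_mul hz) a)
    · rw [← e]; exact sub_res_notMem (notMem_of_two_mul (key d₁')) a
    · rw [← e]; exact sub_res_notMem (notMem_of_two_mul (key d₂')) a
    · rw [← e]; exact sub_res_notMem (notMem_of_two_mul (key d₃')) a
  have hprod : (∏ a : ZMod p, (latT τ).derivWeierstrassP (z - res a)) *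
      ((∏ a : ZMod p, (latT τ).derivWeierstrassP (z + w₁ - res a)) *
       (∏ a : ZMod p, (latT τ).derivWeierstrassP (z + w₂ - res a)) *
       (∏ a : ZMod p, (latT τ).derivWeierstrassP (z + w₃ - res a))) =
      (wpCurve (latT τ)).Δ ^ p := by
    rw [← Finset.prod_mul_distrib, ← Finset.prod_mul_distrib, ← Finset.prod_mul_distrib,
      Finset.prod_congr rfl (fun a _ => hΔa a), Finset.prod_const, Finset.card_univ, ZMod.card]
  rw [hK4, ← hΔ', ← hprod, P0, P1, P2, P3]
  ring

end lat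

end Fermat.Agent.H72
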