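import Mathlib
import Fermat.Agent.H05_PlaceB
import Fermat.Agent.H72WPAdd
import Fermat.Agent.H72WPG2
import Fermat.Agent.H72WPDisc

set_option autoImplicit false

/-! # The analytic inputs, all together -/

namespace Fermat.Agent.H05

open WeierstrassCurve WeierstrassCurve.Affine

theorem b1Inputs {p : ℕ} [NeZero p] (hp : p.Prime) (hp2 : p ≠ 2) : B1Inputs p where
  a L hΔ := H72.exists_wp_hom L hΔ
  b τ := H72.B1b p τ
  d τ _ := H72.B1d p (hp.odd_of_ne_two hp2) τ

end Fermat.Agent.H05
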