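import Mathlib
import Fermat.Prelude.Def_ModularCurve_ReductionModL
import Fermat.Prelude.Def_ModularCurve_ModularUnit
import Fermat.Agent.H3RR_Degree

set_option autoImplicit false

/-! # Reduction of places via the modular unit (MAZUR B5) -/

namespace Fermat.Agent.H72

open AlgebraicCurve ModularCurve

section finsupp

variable {α β : Type*}

lemma mapDomain_pos_of_nonneg (f : α → β) (Z : α →₀ ℤ) (hZ : ∀ P, 0 ≤ Z P) {x : α} (hx : 0 < Z x) :
    0 < Finsupp.mapDomain f Z (f x) := by
  classical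
  rw [Finsupp.mapDomain, Finsupp.sum_apply, Finsupp.sum]
  have hxs : x ∈ Z.support := by rw [Finsupp.mem_support_iff]; exact hx.ne'
  refine Finset.sum_pos' (fun P _ => ?_) ⟨x, hxs, ?_⟩
  · rw [Finsupp.single_apply]
    split_ifs
    · exact hZ P
    · exact le_rfl
  · rw [Finsupp.single_apply, if_pos rfl]
    exact hx

end finsupp

section ords

variable {K F : Type*} [Field K] [Field F] [Algebra K F]

lemma ord_algebraMap (v : Place K F) (c : K) : v.ord (algebraMap K F c) = 0 := by
  by_cases hc : c = 0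
  · rw [hc, map_zero, v.ord_zero]
  · have h1 := v.adicValuation_algebraMap_le_one c
    have h2 := v.adicValuation_algebraMap_le_one c⁻¹
    have hne : algebraMap K F c ≠ 0 := (map_ne_zero _).mpr hc
    have h3 : 0 ≤ v.ord (algebraMap K F c) := by
      rw [v.adicValuation_eq_exp_neg_ord hne, ← WithZero.exp_zero, WithZero.exp_le_exp] at h1
      omega
    have h4 : 0 ≤ v.ord (algebraMap K F c⁻¹) := by
      rw [v.adicValuation_eq_exp_neg_ord ((map_ne_zero _).mpr (inv_ne_zero hc)),
        ← WithZero.exp_zero, WithZero.exp_le_exp] at h2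
      omega
    rw [map_inv₀, v.ord_inv] at h4
    omega

lemma le_ord_sub {v : Place K F} {f : F} (c : K) {m : ℤ} (hf : m ≤ v.ord f) (hm : m ≤ 0)
    (h : f - algebraMap K F c ≠ 0) : m ≤ v.ord (f - algebraMap K F c) := by
  have key : ∀ g : F, m ≤ v.ord g → v.adicValuation g ≤ WithZero.exp (-m) := by
    intro g hg
    by_cases hg0 : g = 0
    · rw [hg0, map_zero]; exact zero_le
    · rw [v.adicValuation_eq_exp_neg_ord hg0, WithZero.exp_le_exp]
      omega
  have h1 := Valuation.map_sub_le (v := v.adicValuation) (key f hf)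
    (key (algebraMap K F c) (by rw [ord_algebraMap]; exact hm))
  rw [v.adicValuation_eq_exp_neg_ord h, WithZero.exp_le_exp] at h1
  omega

lemma ord_sub_of_neg {v : Place K F} {f : F} (c : K) (hf : v.ord f < 0) :
    f - algebraMap K F c ≠ 0 ∧ v.ord (f - algebraMap K F c) = v.ord f := by
  have hne : f - algebraMap K F c ≠ 0 := by
    intro h
    rw [sub_eq_zero.mp h, ord_algebraMap] at hf
    exact lt_irrefl _ hf
  refine ⟨hne, le_antisymm ?_ (le_ord_sub c le_rfl hf.le hne)⟩
  by_contra hlt
  push Not at hlt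
  have h1 := le_ord_sub (v := v) (f := f - algebraMap K F c) (-c)
    (m := min (v.ord (f - algebraMap K F c)) 0) (min_le_left _ _) (min_le_right _ _) (by
      rw [map_neg, sub_neg_eq_add, sub_add_cancel]
      rintro rfl
      rw [v.ord_zero] at hf
      exact lt_irrefl _ hf)
  rw [map_neg, sub_neg_eq_add, sub_add_cancel] at h1
  omega

lemma ord_pos_of_mem_nonunits {v : Place K F} {f : F} (hf : f ≠ 0)
    (h : f ∈ v.toValuationSubring.nonunits) : 0 < v.ord f := by
  have h1 : v.adicValuation f < 1 := by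
    obtain ⟨hmem, hnu⟩ := ValuationSubring.mem_nonunits_iff_exists_mem_maximalIdeal.mp h
    have h2 : ¬ IsUnit (⟨f, hmem⟩ : v.toValuationSubring) := hnu
    have h3 := v.adicValuation_le_one_of_mem hmem
    refine lt_of_le_of_ne h3 ?_
    intro h4
    exact h2 ((v.adicValuation_coe_eq_one_iff ⟨f, hmem⟩).mp h4)
  rw [v.adicValuation_eq_exp_neg_ord hf, ← WithZero.exp_zero, WithZero.exp_lt_exp] at h1
  omega

end ords

section main

variable {L : Type*} [Field L] [Algebra ℚ L] [IsAlgClosed L] {A : ValuationSubring L}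
variable {k : Type*} [Field k] {π : A →+* k} {N : ℕ}
variable {r : Place L (laurentBaseChange L (modularFunctionFieldFull N)) →
  Place k (modularFunctionFieldFullC k N)}
variable [H3RR.IsFF L (laurentBaseChange L (modularFunctionFieldFull N))]

local notation "𝔽" => laurentBaseChange L (modularFunctionFieldFull N)

open Classical in
/-- The small-value case. -/
theorem place_eq_of_small (hr : IsPlaceReductionAlong A π N r) (y : LaurentSeries A)
    (hy : coeffMap A.subtype y ∈ 𝔽)
    (hyk : coeffMap π y ∈ modularFunctionFieldFullC k N) (hne : coeffMap π y ≠ 0)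
    (P₀ P₁ : Place L (𝔽)) (hP : P₀ ≠ P₁)
    (n : ℤ) (hn : 0 < n)
    (hdiv : ∀ P : Place L (𝔽),
      P.ord (⟨coeffMap A.subtype y, hy⟩ : 𝔽) =
        (if P = P₀ then n else 0) - (if P = P₁ then n else 0))
    (a : A) (ha : π a = 0) (x : Place L (𝔽))
    (hx : (⟨coeffMap A.subtype y, hy⟩ : 𝔽) -
      algebraMap L _ (a : L) ∈ x.toValuationSubring.nonunits) :
    r x = r P₀ := by
  set u : 𝔽 := ⟨coeffMap A.subtype y, hy⟩ with hu
  have hP1 : P₁.ord u = -n := by rw [hdiv, if_neg (Ne.symm hP), if_pos rfl]; ring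
  obtain ⟨hne', hord1⟩ := ord_sub_of_neg (v := P₁) (f := u) (a : L) (by rw [hP1]; omega)
  -- the shifted series
  set y' : LaurentSeries A := y - HahnSeries.single 0 a with hy'
  have e1 : coeffMap A.subtype y' = ((u - algebraMap L 𝔽 (a : L) : 𝔽) : LaurentSeries L) := by
    rw [hy', map_sub, coeffMap_single]
    show _ = coeffMap A.subtype y - algebraMap L (LaurentSeries L) (a : L)
    rw [algebraMap_laurentSeries_eq_single]
    rfl
  have e2 : coeffMap π y' = coeffMap π y := by
    rw [hy', map_sub, coeffMap_single, ha]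
    simp
  have hy'F : coeffMap A.subtype y' ∈ 𝔽 := by rw [e1]; exact (u - algebraMap L 𝔽 (a : L)).2
  have hu' : (⟨coeffMap A.subtype y', hy'F⟩ : 𝔽) = u - algebraMap L 𝔽 (a : L) := Subtype.ext e1
  have h1 := hr.2 y' hy'F (by rw [e2]; exact hyk) (by rw [e2]; exact hne)
    (H3RR.divOf (u - algebraMap L 𝔽 (a : L))) (by
      intro P
      rw [H3RR.divOf_apply hne', hu'])
  have h2 := hr.2 y hy hyk hne (Finsupp.single P₀ n - Finsupp.single P₁ n) (by
      intro P
      rw [← hu, hdiv, Finsupp.sub_apply, Finsupp.single_apply, Finsupp.single_apply]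
      simp only [eq_comm])
  have h3 : Finsupp.mapDomain r (H3RR.divOf (u - algebraMap L 𝔽 (a : L))) =
      Finsupp.mapDomain r (Finsupp.single P₀ n - Finsupp.single P₁ n) := by
    ext Q
    rw [h1, h2]
    congr 1
    exact Subtype.ext e2
  set Z : Divisor L 𝔽 := H3RR.divOf (u - algebraMap L 𝔽 (a : L)) + Finsupp.single P₁ n with hZ
  have hZnn : ∀ P, 0 ≤ Z P := by
    intro P
    rw [hZ, Finsupp.add_apply, H3RR.divOf_apply hne', Finsupp.single_apply]
    by_cases h : P₁ = P
    · subst h
      rw [hord1, hP1, if_pos rfl]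
      omega
    · rw [if_neg h, add_zero]
      apply le_ord_sub _ _ le_rfl hne'
      rw [hdiv, if_neg (Ne.symm h), sub_zero]
      split_ifs <;> omega
  have hZx : 0 < Z x := by
    have h4 := ord_pos_of_mem_nonunits hne' hx
    rw [hZ, Finsupp.add_apply, H3RR.divOf_apply hne', Finsupp.single_apply]
    split_ifs <;> omega
  have h5 := mapDomain_pos_of_nonneg r Z hZnn hZx
  rw [hZ, Finsupp.mapDomain_add, h3, ← Finsupp.mapDomain_add, sub_add_cancel,
    Finsupp.mapDomain_single, Finsupp.single_apply] at h5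
  by_contra hcon
  rw [if_neg (Ne.symm hcon)] at h5
  exact lt_irrefl _ h5

open Classical in
/-- **B5**: reduction of the place `x` where the unit `u` takes the value `a`. -/
theorem place_eq_of_value (hr : IsPlaceReductionAlong A π N r)
    (hπ : ∀ a : A, (a : L) ∈ A.nonunits → π a = 0) (y y' : LaurentSeries A) (hyy' : y * y' = 1)
    (hy : coeffMap A.subtype y ∈ 𝔽)
    (hyk : coeffMap π y ∈ modularFunctionFieldFullC k N)
    (P₀ P₁ : Place L (𝔽)) (hP : P₀ ≠ P₁)
    (n : ℤ) (hn : 0 < n)
    (hdiv : ∀ P : Place L (𝔽),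
      P.ord (⟨coeffMap A.subtype y, hy⟩ : 𝔽) =
        (if P = P₀ then n else 0) - (if P = P₁ then n else 0))
    (a : L) (x : Place L (𝔽))
    (hx : (⟨coeffMap A.subtype y, hy⟩ : 𝔽) -
      algebraMap L _ a ∈ x.toValuationSubring.nonunits) :
    (a ∈ A.nonunits → r x = r P₀) ∧ (a⁻¹ ∈ A.nonunits → a ≠ 0 → r x = r P₁) := by
  have hs : coeffMap A.subtype y * coeffMap A.subtype y' = 1 := by rw [← map_mul, hyy', map_one]
  have hk : coeffMap π y * coeffMap π y' = 1 := by rw [← map_mul, hyy', map_one]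
  have hne : coeffMap π y ≠ 0 := left_ne_zero_of_mul_eq_one hk
  have hne' : coeffMap π y' ≠ 0 := right_ne_zero_of_mul_eq_one hk
  constructor
  · intro ha
    have haA : a ∈ A := A.nonunits_subset ha
    exact place_eq_of_small hr y hy hyk hne P₀ P₁ hP n hn hdiv ⟨a, haA⟩ (hπ ⟨a, haA⟩ ha) x hx
  · intro ha ha0
    have haA : a⁻¹ ∈ A := A.nonunits_subset ha
    have e1 : coeffMap A.subtype y' = (coeffMap A.subtype y)⁻¹ := by
      rw [eq_comm, inv_eq_of_mul_eq_one_right hs]
    have e2 : coeffMap π y' = (coeffMap π y)⁻¹ := by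
      rw [eq_comm, inv_eq_of_mul_eq_one_right hk]
    have hy' : coeffMap A.subtype y' ∈ 𝔽 := by
      rw [e1]; exact inv_mem hy
    have hyk' : coeffMap π y' ∈ modularFunctionFieldFullC k N := by
      rw [e2]; exact inv_mem hyk
    have e3 : (⟨coeffMap A.subtype y', hy'⟩ : 𝔽) =
        (⟨coeffMap A.subtype y, hy⟩ : 𝔽)⁻¹ :=
      Subtype.ext e1
    set u : 𝔽 := ⟨coeffMap A.subtype y, hy⟩ with hu
    have hu0 : u ≠ 0 := by
      intro h0
      have : coeffMap A.subtype y = 0 := congrArg Subtype.val h0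
      rw [this, zero_mul] at hs
      exact zero_ne_one hs
    refine place_eq_of_small hr y' hy' hyk' hne' P₁ P₀ (Ne.symm hP) n hn ?_ ⟨a⁻¹, haA⟩
      (hπ ⟨a⁻¹, haA⟩ ha) x ?_
    · intro P
      rw [e3, P.ord_inv, hdiv]
      ring
    · rw [e3]
      show u⁻¹ - algebraMap L 𝔽 a⁻¹ ∈ x.toValuationSubring.nonunits
      have haF : algebraMap L 𝔽 a ≠ 0 := (map_ne_zero _).mpr ha0
      have e4 : u⁻¹ - algebraMap L 𝔽 a⁻¹ =
          (u - algebraMap L 𝔽 a) * (-(u⁻¹ * algebraMap L 𝔽 a⁻¹)) := by
        rw [map_inv₀]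
        field_simp
        ring
      -- u is a unit at x
      have h1 : x.toValuationSubring.valuation (algebraMap L 𝔽 a) = 1 := by
        have h2 := (x.toValuationSubring.valuation_le_one_iff _).mpr (x.algebraMap_mem' a)
        have h3 := (x.toValuationSubring.valuation_le_one_iff _).mpr (x.algebraMap_mem' a⁻¹)
        rw [map_inv₀, map_inv₀] at h3
        refine le_antisymm h2 ?_
        have h4 : x.toValuationSubring.valuation (algebraMap L 𝔽 a) ≠ 0 :=
          (Valuation.ne_zero_iff _).mpr haF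
        exact (inv_le_one₀ (zero_lt_iff.mpr h4)).mp h3
      have h2 : x.toValuationSubring.valuation (u - algebraMap L 𝔽 a) < 1 :=
        hx
      have h3 : x.toValuationSubring.valuation u = 1 := by
        have : u = (u - algebraMap L 𝔽 a) + algebraMap L 𝔽 a := by ring
        rw [this, Valuation.map_add_eq_of_lt_right _ (by rw [h1]; exact h2), h1]
      show x.toValuationSubring.valuation (u⁻¹ - algebraMap L 𝔽 a⁻¹) < 1
      rw [e4, map_mul, Valuation.map_neg, map_mul, map_inv₀ (algebraMap L 𝔽), map_inv₀, map_inv₀,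
        h1, h3]
      simpa using h2

end main

end Fermat.Agent.H72
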