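import Fermat.Agent.H9Hecke
import Fermat.Prelude.Def_ModularCurve_ModularUnit

/-!
# Cusps of `X_0(p)`: transport to any presentation of the function field
-/

set_option autoImplicit false
set_option linter.unusedSectionVars false
set_option linter.style.haveILetI false

noncomputable section

open ModularCurve Polynomial IntermediateField AlgebraicCurve
open Fermat.Agent.H61 Fermat.Agent.H28 Fermat.Agent.H66

namespace Fermat.Agent.H9

/-- `i`, `z` are the cusps `∞` and `0` of (a copy of) the function field of `X_0(p)`. -/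
structure CuspSpec (K : Type*) [Field K] (p : ℕ) [Fact p.Prime]
    (F : IntermediateField K (LaurentSeries K)) (i z : Place K F) : Prop where
  eq_full : F = modularFunctionFieldFullC K p
  deg_eq : ∀ v : Place K F, v.deg = 1
  inf_ord : ∀ f : F, i.ord f = (f : LaurentSeries K).order
  zero_J₁ : ∀ x : F, (x : LaurentSeries K) = J K 1 → z.ord x = -p
  zero_Jₚ : ∀ x : F, (x : LaurentSeries K) = J K p → z.ord x = -1
  cusp : ∀ (v : Place K F) (x : F), (x : LaurentSeries K) = J K 1 → v.ord x < 0 → v = i ∨ v = z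
  cusp' : ∀ (v : Place K F) (x : F), (x : LaurentSeries K) = J K p → v.ord x < 0 → v = i ∨ v = z
  ne : i ≠ z
  swap : ∃ w : F ≃ₐ[K] F, (∀ x : F, w (w x) = x) ∧ z = w • i ∧
    (∀ x : F, (x : LaurentSeries K) = J K 1 → (w x : LaurentSeries K) = J K p) ∧
    (∀ x : F, (x : LaurentSeries K) = J K p → (w x : LaurentSeries K) = J K 1)
  ratio : ∃ U : F, (U : LaurentSeries K) = deltaRatio K p ∧
    ∀ v : Place K F, v.ord U = (-((p : ℤ) - 1) • (Finsupp.single z 1 - Finsupp.single i 1 :
      Divisor K F)) v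
  root : ∀ (m : ℕ), m ≠ 0 → (∃ g : F, g ≠ 0 ∧ ∀ v : Place K F,
      v.ord g = (m • (Finsupp.single z 1 - Finsupp.single i 1 : Divisor K F)) v) →
    ∃ h : F, (h : LaurentSeries K) ^ ((p - 1) / Nat.gcd m (p - 1)) = deltaRatio K p

theorem exists_cuspSpec (K : Type*) [Field K] [IsAlgClosed K] (p : ℕ) [Fact p.Prime]
    (hp0 : (p : K) ≠ 0) (F : IntermediateField K (LaurentSeries K))
    (hF : F = modularFunctionFieldFullC K p) : ∃ i z : Place K F, CuspSpec K p F i z := by
  subst hF
  refine ⟨infPl K p, zeroPl K p hp0, ?_⟩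
  have h1 : ∀ x : modularFunctionFieldFullC K p, (x : LaurentSeries K) = J K 1 → x = j₁ K p :=
    fun x hx => Subtype.ext hx
  have h2 : ∀ x : modularFunctionFieldFullC K p, (x : LaurentSeries K) = J K p → x = jₚ K p :=
    fun x hx => Subtype.ext hx
  refine
    { eq_full := rfl
      deg_eq := deg_pl K p hp0
      inf_ord := infPl_ord K p
      zero_J₁ := fun x hx => by rw [h1 x hx, zeroPl_ord_j₁]
      zero_Jₚ := fun x hx => by rw [h2 x hx, zeroPl_ord_jₚ]
      cusp := fun v x hx hv => by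
        rw [h1 x hx] at hv
        exact eq_cusp_of_ord_neg K p hp0 hv
      cusp' := fun v x hx hv => by
        rw [h2 x hx] at hv
        exact eq_cusp_of_ord_jₚ_neg K p hp0 hv
      ne := infPl_ne_zeroPl K p hp0
      swap := ⟨wAL K p hp0, wAL_wAL K p hp0, rfl, fun x hx => by rw [h1 x hx, wAL_j₁]; rfl,
        fun x hx => by rw [h2 x hx, wAL_jₚ]; rfl⟩
      ratio := ⟨ratio K p hp0, rfl, ord_ratio K p hp0⟩
      root := ?_ }
  rintro m hm ⟨g, hg0, hg⟩
  have h3 : m • cuspClass K p hp0 = 0 := by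
    have h4 : m • cuspClass K p hp0 = Pic0.mk (m • ⟨cuspDiv K p hp0, cuspDiv_mem K p hp0⟩) := rfl
    rw [h4]
    refine (QuotientAddGroup.eq_zero_iff _).mpr ?_
    rw [AddSubgroup.mem_addSubgroupOf]
    exact ⟨g, hg0, fun v => (hg v).symm⟩
  obtain ⟨h, hh⟩ := exists_pow_eq_ratio K p hp0 hm h3
  exact ⟨h, congrArg Subtype.val hh⟩

namespace CuspSpec

variable {K : Type*} [Field K] {p : ℕ} [Fact p.Prime]
    {F : IntermediateField K (LaurentSeries K)} {i z : Place K F} (S : CuspSpec K p F i z)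

include S

theorem inf_J₁ (x : F) (hx : (x : LaurentSeries K) = J K 1) : i.ord x = -1 := by
  rw [S.inf_ord, hx]
  exact_mod_cast order_J K 1

theorem inf_Jₚ (x : F) (hx : (x : LaurentSeries K) = J K p) : i.ord x = -p := by
  rw [S.inf_ord, hx]
  exact order_J K p

theorem mem_degZero : (Finsupp.single z 1 - Finsupp.single i 1 : Divisor K F) ∈
    Divisor.degZero (K := K) (F := F) := by
  rw [Divisor.mem_degZero, map_sub, Divisor.degree_single, Divisor.degree_single, S.deg_eq,
    S.deg_eq, sub_self]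

/-- The cuspidal class. -/
def cls : Pic0 K F := Pic0.mk ⟨Finsupp.single z 1 - Finsupp.single i 1, S.mem_degZero⟩

theorem cls_def : S.cls = Pic0.mk ⟨Finsupp.single z 1 - Finsupp.single i 1, S.mem_degZero⟩ := rfl

theorem smul_cls_eq_zero : (p - 1) • S.cls = 0 := by
  obtain ⟨U, hU, hdiv⟩ := S.ratio
  have h0 : U ≠ 0 := by
    rintro rfl
    exact deltaRatio_ne_zero (K := K) p hU.symm
  have h1 : ((p : ℤ) - 1) • S.cls = 0 := by
    have h2 : ((p : ℤ) - 1) • S.cls =
        Pic0.mk (((p : ℤ) - 1) • ⟨Finsupp.single z 1 - Finsupp.single i 1, S.mem_degZero⟩) := rfl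
    rw [h2]
    refine (QuotientAddGroup.eq_zero_iff _).mpr ?_
    rw [AddSubgroup.mem_addSubgroupOf]
    refine ⟨U⁻¹, inv_ne_zero h0, fun v => ?_⟩
    rw [v.ord_inv, hdiv, Finsupp.smul_apply]
    show ((p : ℤ) - 1) • (Finsupp.single z 1 - Finsupp.single i 1 : Divisor K F) v = _
    simp only [smul_eq_mul]
    ring
  have hp := (Fact.out : p.Prime).pos
  rw [← Nat.cast_smul_eq_nsmul ℤ, Nat.cast_sub hp, Nat.cast_one]
  exact h1

theorem exists_root {m : ℕ} (hm : m ≠ 0) (h : m • S.cls = 0) :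
    ∃ h ∈ modularFunctionFieldFullC K p, h ^ ((p - 1) / Nat.gcd m (p - 1)) = deltaRatio K p := by
  have h1 : m • S.cls =
      Pic0.mk (m • ⟨Finsupp.single z 1 - Finsupp.single i 1, S.mem_degZero⟩) := rfl
  rw [h1] at h
  have h2 := (QuotientAddGroup.eq_zero_iff _).mp h
  rw [AddSubgroup.mem_addSubgroupOf] at h2
  obtain ⟨g, hg0, hg⟩ := h2
  obtain ⟨h, hh⟩ := S.root m hm ⟨g, hg0, fun v => (hg v).symm⟩
  exact ⟨h, S.eq_full ▸ h.2, hh⟩

end CuspSpec

section Qbar

local notation "Qb" => AlgebraicClosure ℚ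

/-- The order of the cuspidal class: `m c = 0` implies `(p-1)/gcd(m,p-1) ∣ 24`. -/
theorem CuspSpec.dvd_24 {p : ℕ} [Fact p.Prime] {F : IntermediateField Qb (LaurentSeries Qb)}
    {i z : Place Qb F} (S : CuspSpec Qb p F i z) {m : ℕ} (hm : m ≠ 0) (h : m • S.cls = 0) :
    (p - 1) / Nat.gcd m (p - 1) ∣ 24 := by
  obtain ⟨g, hg, hpow⟩ := S.exists_root hm h
  refine dvd_of_pow_eq ?_ hg hpow
  have hp : p.Prime := Fact.out
  exact Nat.div_pos (Nat.le_of_dvd (by have := hp.two_le; omega) (Nat.gcd_dvd_right _ _))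
    (Nat.gcd_pos_of_pos_left _ (Nat.pos_of_ne_zero hm))

theorem CuspSpec.sub_one_dvd {p : ℕ} [Fact p.Prime]
    {F : IntermediateField Qb (LaurentSeries Qb)}
    {i z : Place Qb F} (S : CuspSpec Qb p F i z) {m : ℕ} (h : m • S.cls = 0) :
    p - 1 ∣ 24 * m := by
  rcases Nat.eq_zero_or_pos m with rfl | hm
  · simp
  obtain ⟨a, ha⟩ := S.dvd_24 hm.ne' h
  have h1 : p - 1 = (p - 1) / Nat.gcd m (p - 1) * Nat.gcd m (p - 1) :=
    (Nat.div_mul_cancel (Nat.gcd_dvd_right _ _)).symm
  obtain ⟨b, hb⟩ := Nat.gcd_dvd_left m (p - 1)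
  refine ⟨a * b, ?_⟩
  calc 24 * m = ((p - 1) / Nat.gcd m (p - 1) * a) * (Nat.gcd m (p - 1) * b) := by
        rw [← ha, ← hb]
    _ = ((p - 1) / Nat.gcd m (p - 1) * Nat.gcd m (p - 1)) * (a * b) := by ring
    _ = (p - 1) * (a * b) := by rw [← h1]

/-- For `p ∉ {2,3,5,7,13}` there is a prime `r ∣ num((p-1)/12)` dividing the order of the
cuspidal class. -/
theorem exists_prime_dvd_order {p : ℕ} [Fact p.Prime] (hp' : p ∉ ({2, 3, 5, 7, 13} : Finset ℕ)) :
    ∃ r : ℕ, r.Prime ∧ r ∣ eisensteinNumerator p ∧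
      ∀ m : ℕ, p - 1 ∣ 24 * m → r ∣ m := by
  have hp : p.Prime := Fact.out
  have hp2 := hp.two_le
  set g := Nat.gcd (p - 1) 12 with hg
  set n := eisensteinNumerator p with hn
  have hgpos : 0 < g := Nat.gcd_pos_of_pos_right _ (by norm_num)
  have hgn : g * n = p - 1 := Nat.mul_div_cancel' (Nat.gcd_dvd_left _ _)
  have hg12 : g ∣ 12 := Nat.gcd_dvd_right _ _
  have hn0 : n ≠ 0 := by
    rintro h
    rw [h, mul_zero] at hgn
    omega
  simp only [Finset.mem_insert, Finset.mem_singleton, not_or] at hp'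
  obtain ⟨h2, h3, h5, h7, h13⟩ := hp'
  by_cases hodd : ∃ r : ℕ, r.Prime ∧ r ≠ 2 ∧ r ∣ n
  · obtain ⟨r, hr, hr2, hrn⟩ := hodd
    refine ⟨r, hr, hrn, fun m hm => ?_⟩
    by_cases hr3 : r = 3
    · subst hr3
      have h31 : 3 ∣ p - 1 := by rw [← hgn]; exact Dvd.dvd.mul_left hrn g
      have h3g : 3 ∣ g := Nat.dvd_gcd h31 (by norm_num)
      have h9 : 3 * 3 ∣ p - 1 := by rw [← hgn]; exact Nat.mul_dvd_mul h3g hrn
      have h10 := h9.trans hm
      have h11 : 3 ∣ 8 * m := by
        have h12 : 3 * 3 ∣ 3 * (8 * m) := by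
          rw [show 3 * (8 * m) = 24 * m by ring]; exact h10
        exact Nat.dvd_of_mul_dvd_mul_left (by norm_num) h12
      exact (Nat.Coprime.dvd_mul_left (by norm_num : Nat.Coprime 3 8)).mp h11
    · have h14 : r ∣ 24 * m := (by rw [← hgn]; exact Dvd.dvd.mul_left hrn g : r ∣ p - 1).trans hm
      rcases (Nat.Prime.dvd_mul hr).mp h14 with h | h
      · exfalso
        have h15 : r ∣ 2 ^ 3 * 3 := h
        rcases (Nat.Prime.dvd_mul hr).mp h15 with h | h
        · exact hr2 ((Nat.prime_dvd_prime_iff_eq hr Nat.prime_two).mp (hr.dvd_of_dvd_pow h))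
        · exact hr3 ((Nat.prime_dvd_prime_iff_eq hr Nat.prime_three).mp h)
      · exact h
  · push Not at hodd
    have hpow := Nat.eq_prime_pow_of_unique_prime_dvd hn0 (p := 2) (fun {d} hd hdn => by
      by_contra hne
      exact hodd d hd hne hdn)
    set a := n.primeFactorsList.length with ha
    -- `16 ∣ p - 1`
    have h4 : a ≠ 0 ∧ a ≠ 1 ∧ 4 ∣ g := by
      have hg12' : g = 1 ∨ g = 2 ∨ g = 3 ∨ g = 4 ∨ g = 6 ∨ g = 12 := by
        have hle := Nat.le_of_dvd (by norm_num) hg12
        interval_cases g <;> revert hg12 <;> decide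
      have ha0 : a ≠ 0 := by
        intro h
        rw [h, pow_zero] at hpow
        rw [hpow, mul_one] at hgn
        rcases hg12' with h | h | h | h | h | h <;> rw [h] at hgn <;>
          first
            | omega
            | (have : p = 4 := by omega
               rw [this] at hp
               exact absurd hp (by norm_num))
      have h2n : 2 ∣ n := by rw [hpow]; exact dvd_pow_self 2 ha0
      have h4g : 4 ∣ g := by
        have h21 : 2 ∣ p - 1 := by rw [← hgn]; exact Dvd.dvd.mul_left h2n g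
        have h2g : 2 ∣ g := Nat.dvd_gcd h21 (by norm_num)
        have h41 : 2 * 2 ∣ p - 1 := by rw [← hgn]; exact Nat.mul_dvd_mul h2g h2n
        exact Nat.dvd_gcd h41 (by norm_num)
      refine ⟨ha0, fun h => ?_, h4g⟩
      rw [h, pow_one] at hpow
      rw [hpow] at hgn
      rcases hg12' with h | h | h | h | h | h <;> rw [h] at hgn h4g <;>
        first
          | omega
          | (have : p = 9 := by omega
             rw [this] at hp
             exact absurd hp (by norm_num))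
          | (have : p = 25 := by omega
             rw [this] at hp
             exact absurd hp (by norm_num))
    obtain ⟨ha0, ha1, h4g⟩ := h4
    have h4n : 4 ∣ n := by
      rw [hpow]
      exact pow_dvd_pow 2 (by omega : 2 ≤ a)
    have h16 : 16 ∣ p - 1 := by
      rw [← hgn]
      exact Nat.mul_dvd_mul h4g h4n
    refine ⟨2, Nat.prime_two, (by norm_num : 2 ∣ 4).trans h4n, fun m hm => ?_⟩
    have h17 := h16.trans hm
    omega

end Qbar

end Fermat.Agent.H9
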