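import Mathlib
import Fermat.Agent.H72PlaceRed
import Fermat.Agent.H9Spec
import Fermat.Agent.H42Inputs

set_option autoImplicit false

/-! # Reduction of the place of `X_0(p)` (MAZUR B5), concrete form -/

namespace Fermat.Agent.H72

open AlgebraicCurve ModularCurve Fermat.Agent.H9 Fermat.Agent.H28

lemma deltaSeries_eq : deltaSeries = deltaL ℚ := rfl

lemma coeffEmb_modularUnitSeries_mul (L : Type*) [Field L] [Algebra ℚ L] (p : ℕ) [NeZero p] :
    coeffEmb L (modularUnitSeries p) * deltaRatio L p = 1 := by
  have h1 : deltaRatio L p = coeffEmb L (deltaRatio ℚ p) := (coeffMap_deltaRatio _ p).symm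
  rw [h1, ← map_mul, deltaRatio_eq_div, modularUnitSeries, deltaSeriesN, deltaSeries_eq]
  have h2 : deltaL ℚ ≠ 0 := deltaL_ne_zero
  have h3 : qExpand ℚ p (deltaL ℚ) ≠ 0 := (map_ne_zero _).mpr h2
  have h4 : deltaL ℚ * (qExpand ℚ p (deltaL ℚ))⁻¹ * (qExpand ℚ p (deltaL ℚ) / deltaL ℚ) = 1 := by
    field_simp
  rw [h4, map_one]

/-- **B5**, concrete form: if the modular unit `u = Δ(q)/Δ(q^p)` takes the value `a` at `x`, then
`x` reduces to the cusp `z = 0` if `|a| < 1` and to the cusp `i = ∞` if `|a| > 1`. -/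
theorem B5 {p : ℕ} [Fact p.Prime] {L : Type*} [Field L] [Algebra ℚ L] [IsAlgClosed L]
    [H3RR.IsFF L (laurentBaseChange L (modularFunctionFieldFull p))]
    {A : ValuationSubring L} {k : Type*} [Field k] {π : A →+* k}
    (hπ : ∀ a : A, (a : L) ∈ A.nonunits → π a = 0)
    (hk : deltaRatio k p ∈ modularFunctionFieldFullC k p)
    {r : Place L (laurentBaseChange L (modularFunctionFieldFull p)) →
      Place k (modularFunctionFieldFullC k p)}
    (hr : IsPlaceReductionAlong A π p r)
    {i z : Place L (laurentBaseChange L (modularFunctionFieldFull p))}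
    (S : CuspSpec L p (laurentBaseChange L (modularFunctionFieldFull p)) i z)
    (u : laurentBaseChange L (modularFunctionFieldFull p))
    (hu : (u : LaurentSeries L) = coeffEmb L (modularUnitSeries p))
    (x : Place L (laurentBaseChange L (modularFunctionFieldFull p))) (a : L)
    (hx : u - algebraMap L _ a ∈ x.toValuationSubring.nonunits) :
    (a ∈ A.nonunits → r x = r z) ∧ (a⁻¹ ∈ A.nonunits → a ≠ 0 → r x = r i) := by
  classical
  -- the integral series
  set y : LaurentSeries A := deltaL A * qExpand A p (deltaInvL A) with hy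
  set y' : LaurentSeries A := qExpand A p (deltaL A) * deltaInvL A with hy'
  have hyy' : y * y' = 1 := by
    have h1 := deltaL_mul_deltaInvL A
    have h2 : qExpand A p (deltaL A) * qExpand A p (deltaInvL A) = 1 := by
      rw [← map_mul, h1, map_one]
    calc y * y' = (deltaL A * deltaInvL A) * (qExpand A p (deltaL A) * qExpand A p (deltaInvL A)) := by
          rw [hy, hy']; ring
      _ = 1 := by rw [h1, h2, mul_one]
  have e1 : coeffMap A.subtype y' = deltaRatio L p := by
    rw [hy', deltaRatio, map_mul, coeffMap_qExpand, H66.coeffMap_deltaL, H66.coeffMap_deltaInvL]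
  have e2 : coeffMap π y' = deltaRatio k p := by
    rw [hy', deltaRatio, map_mul, coeffMap_qExpand, H66.coeffMap_deltaL, H66.coeffMap_deltaInvL]
  have e3 : coeffMap A.subtype y = (u : LaurentSeries L) := by
    have h1 : coeffMap A.subtype y * deltaRatio L p = 1 := by rw [← e1, ← map_mul, hyy', map_one]
    have h2 := coeffEmb_modularUnitSeries_mul L p
    have h3 := deltaRatio_ne_zero (K := L) p
    rw [hu]
    exact mul_right_cancel₀ h3 (h1.trans h2.symm)
  have e4 : coeffMap π y = (deltaRatio k p)⁻¹ := by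
    apply eq_inv_of_mul_eq_one_left
    rw [← e2, ← map_mul, hyy', map_one]
  have hyF : coeffMap A.subtype y ∈ laurentBaseChange L (modularFunctionFieldFull p) := by
    rw [e3]; exact u.2
  have hyk : coeffMap π y ∈ modularFunctionFieldFullC k p := by
    rw [e4]; exact inv_mem hk
  have hu' : (⟨coeffMap A.subtype y, hyF⟩ :
      laurentBaseChange L (modularFunctionFieldFull p)) = u := Subtype.ext e3
  obtain ⟨U, hU, hdiv⟩ := S.ratio
  have huU : u = U⁻¹ := by
    apply Subtype.ext
    rw [hu]
    show _ = (U : LaurentSeries L)⁻¹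
    rw [hU]
    exact eq_inv_of_mul_eq_one_left (coeffEmb_modularUnitSeries_mul L p)
  have hp1 : (0 : ℤ) < p - 1 := by
    have := (Fact.out : p.Prime).one_lt
    omega
  refine place_eq_of_value hr hπ y y' hyy' hyF hyk z i (Ne.symm S.ne) ((p : ℤ) - 1) hp1 ?_ a x ?_
  · intro P
    rw [hu', huU, P.ord_inv, hdiv, Finsupp.smul_apply, Finsupp.sub_apply, Finsupp.single_apply,
      Finsupp.single_apply, smul_eq_mul]
    by_cases h1 : z = P
    · by_cases h2 : i = P
      · rw [if_pos h1, if_pos h2, if_pos h1.symm, if_pos h2.symm]; ring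
      · rw [if_pos h1, if_neg h2, if_pos h1.symm, if_neg (Ne.symm h2)]; ring
    · by_cases h2 : i = P
      · rw [if_neg h1, if_pos h2, if_neg (Ne.symm h1), if_pos h2.symm]; ring
      · rw [if_neg h1, if_neg h2, if_neg (Ne.symm h1), if_neg (Ne.symm h2)]; ring
  · rw [hu']; exact hx

end Fermat.Agent.H72
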