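import Fermat.Agent.H9JZero
import Fermat.Agent.H15Core
import Fermat.Agent.H67Comm

/-!
# The cuspidal class in `J_0(N)`: inputs for MAZUR (job MZ-P3)
-/

set_option autoImplicit false
set_option linter.unusedSectionVars false
set_option linter.style.haveILetI false

noncomputable section

open ModularCurve Polynomial IntermediateField AlgebraicCurve
open Fermat.Agent.H61 Fermat.Agent.H28 Fermat.Agent.H66

namespace Fermat.Agent.H9

open Fermat.Agent.H15 (IsCuspInf IsCuspZero IsDiffClass GQ)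

local notation "Qb" => AlgebraicClosure ℚ

theorem coe_jB (N : ℕ) [NeZero N] : (H15.jB N : LaurentSeries Qb) = J Qb 1 := by
  show coeffEmb (L := Qb) (qExpand ℚ 1 jq) = J Qb 1
  rw [qExpand_one_apply, J_one, coeffEmb, ← jqModC_rat, ModularCurve.coeffMap_jqModC]

theorem coe_jNB (N : ℕ) [NeZero N] : (H15.jNB N : LaurentSeries Qb) = J Qb N := by
  show coeffEmb (L := Qb) (qExpand ℚ N jq) = J Qb N
  rw [J_eq, coeffEmb, coeffMap_qExpand, ← jqModC_rat, ModularCurve.coeffMap_jqModC]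

theorem CuspSpec.isCuspInf {N : ℕ} [NeZero N] [Fact N.Prime]
    {i z : Place Qb (modularFunctionFieldBar N)}
    (S : CuspSpec Qb N (modularFunctionFieldBar N) i z) : IsCuspInf N i :=
  ⟨S.inf_J₁ _ (coe_jB N), S.inf_Jₚ _ (coe_jNB N)⟩

theorem CuspSpec.isCuspZero {N : ℕ} [NeZero N] [Fact N.Prime]
    {i z : Place Qb (modularFunctionFieldBar N)}
    (S : CuspSpec Qb N (modularFunctionFieldBar N) i z) : IsCuspZero N z :=
  ⟨S.zero_J₁ _ (coe_jB N), S.zero_Jₚ _ (coe_jNB N)⟩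

/-- the cusps are characterised by the orders of `j` and `j_N` -/
theorem CuspSpec.eq_inf {N : ℕ} [NeZero N] [Fact N.Prime]
    {i z : Place Qb (modularFunctionFieldBar N)}
    (S : CuspSpec Qb N (modularFunctionFieldBar N) i z) {v : Place Qb (modularFunctionFieldBar N)}
    (hv : IsCuspInf N v) : v = i := by
  have hN := (Fact.out : N.Prime).two_le
  rcases S.cusp v (H15.jB N) (coe_jB N) (by rw [hv.1]; norm_num) with h | h
  · exact h
  · exfalso
    have h1 := hv.1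
    rw [h, S.isCuspZero.1] at h1
    omega

theorem CuspSpec.eq_zero {N : ℕ} [NeZero N] [Fact N.Prime]
    {i z : Place Qb (modularFunctionFieldBar N)}
    (S : CuspSpec Qb N (modularFunctionFieldBar N) i z) {v : Place Qb (modularFunctionFieldBar N)}
    (hv : IsCuspZero N v) : v = z := by
  have hN := (Fact.out : N.Prime).two_le
  rcases S.cusp v (H15.jB N) (coe_jB N) (by rw [hv.1]; omega) with h | h
  · exfalso
    have h1 := hv.1
    rw [h, S.isCuspInf.1] at h1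
    omega
  · exact h

attribute [local instance] heckeModuleBar

/-- The cuspidal class: it is killed by `N - 1`, if `m c = 0` then `N - 1 ∣ 24 m`, it is rational
and Eisenstein. -/
theorem cusp_class (N : ℕ) [NeZero N] (hN : N.Prime) :
    ∃ x₀ x₁ : Place Qb (modularFunctionFieldBar N), IsCuspZero N x₀ ∧ IsCuspInf N x₁ ∧
    ∀ c : JZero N, IsDiffClass N x₀ x₁ c →
      (N - 1) • c = 0 ∧ (∀ m : ℕ, m • c = 0 → N - 1 ∣ 24 * m) ∧
      (∀ σ : GQ, σ • c = c) ∧
      (∀ q : Nat.Primes, (q : ℕ) ≠ N → heckeGen q • c = (1 + (q : ℕ)) • c) ∧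
      (∀ q : Nat.Primes, (q : ℕ) = N → heckeGen q • c = c) := by
  haveI : Fact N.Prime := ⟨hN⟩
  obtain ⟨i, z, S⟩ := exists_cuspSpecBar N
  refine ⟨z, i, S.isCuspZero, S.isCuspInf, ?_⟩
  rintro c ⟨hc0, rfl⟩
  have hcls : (Pic0.mk ⟨_, hc0⟩ : JZero N) = S.cls := rfl
  rw [hcls]
  refine ⟨S.smul_cls_eq_zero, fun m hm => S.sub_one_dvd hm, S.smul_cls, fun q hq => ?_,
    fun q hq => ?_⟩
  · rw [heckeModuleBar_heckeGen_smul (H67.heckeOperatorsCommuteBar N), S.heckeOperatorBar_cls q hq]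
    rw [← natCast_zsmul]
    push_cast
    rfl
  · rw [heckeModuleBar_heckeGen_smul (H67.heckeOperatorsCommuteBar N),
      S.heckeOperatorBar_cls_self q hq]

theorem exists_prime_dvd_order' (N : ℕ) (hN : N.Prime)
    (hN' : N ∉ ({2, 3, 5, 7, 13} : Finset ℕ)) :
    ∃ r : ℕ, r.Prime ∧ r ≠ N ∧ r ∣ eisensteinNumerator N ∧ ∀ m : ℕ, N - 1 ∣ 24 * m → r ∣ m := by
  haveI : Fact N.Prime := ⟨hN⟩
  obtain ⟨r, hr, hrn, hord⟩ := exists_prime_dvd_order (p := N) hN'
  refine ⟨r, hr, ?_, hrn, hord⟩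
  rintro rfl
  have h1 : r ∣ r - 1 := by
    have h2 : Nat.gcd (r - 1) 12 * eisensteinNumerator r = r - 1 :=
      Nat.mul_div_cancel' (Nat.gcd_dvd_left _ _)
    have h3 : r ∣ Nat.gcd (r - 1) 12 * eisensteinNumerator r := Dvd.dvd.mul_left hrn _
    rwa [h2] at h3
  have h2 := hr.two_le
  have := Nat.le_of_dvd (by omega) h1
  omega

/-- MZ-P3 -/
theorem cusp2 : H15.T_cusp2 := by
  intro N _ hN hN'
  obtain ⟨r, hr, hrN, -, hord⟩ := exists_prime_dvd_order' N hN hN'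
  obtain ⟨x₀, x₁, h0, h1, hc⟩ := cusp_class N hN
  have hdeg : (Finsupp.single x₀ 1 - Finsupp.single x₁ 1 : Divisor Qb (modularFunctionFieldBar N)) ∈
      Divisor.degZero := by
    haveI : Fact N.Prime := ⟨hN⟩
    obtain ⟨i, z, S⟩ := exists_cuspSpecBar N
    rw [S.eq_zero h0, S.eq_inf h1]
    exact S.mem_degZero
  obtain ⟨c1, c2, c3, c4, -⟩ := hc (Pic0.mk ⟨_, hdeg⟩) ⟨hdeg, rfl⟩
  exact ⟨r, x₀, x₁, Pic0.mk ⟨_, hdeg⟩, hr, hrN, h0, h1, ⟨hdeg, rfl⟩, c1,
    fun m hm => hord m (c2 m hm), c3, c4⟩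

end Fermat.Agent.H9
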