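import Mathlib
import Fermat.Agent.H05_B1
import Fermat.Agent.H72B5
import Fermat.Agent.H9Core
import Fermat.Agent.H31Inputs
import Fermat.Agent.H15Core

set_option autoImplicit false
set_option linter.style.haveILetI false

/-! # T_modPlace (MAZUR) -/

noncomputable section

open ModularCurve AlgebraicCurve WeierstrassCurve
open scoped WeierstrassCurve.Affine

namespace Fermat.Agent.H05

open Fermat.Agent.H15 (IsCuspInf IsCuspZero IsDiffClass GQ KJ)
open Fermat.Agent.H9

local notation "Qb" => AlgebraicClosure ℚ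

/-- places with the same reduction differ by an element of the kernel of reduction -/
lemma mem_KJ_of_eq {N : ℕ} [NeZero N] {A : ValuationSubring Qb} (h : ReductionInputsModL A N)
    {x y : Place Qb (modularFunctionFieldBar N)}
    (hxy : placeReductionModL h x = placeReductionModL h y) (z : JZero N)
    (hz : IsDiffClass N x y z) : z ∈ KJ N A := by
  obtain ⟨hd, rfl⟩ := hz
  show reductionModL A N (Pic0.mk ⟨_, hd⟩) = 0
  rw [reductionModL_mk h]
  have : reductionDegZeroAlong (placeReductionModL h)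
      (isPlaceReductionModL_placeReductionModL h).1 ⟨_, hd⟩ = 0 := by
    apply Subtype.ext
    rw [coe_reductionDegZeroAlong]
    show Finsupp.mapDomain _ (Finsupp.single x 1 - Finsupp.single y 1) = 0
    rw [Finsupp.mapDomain_sub, Finsupp.mapDomain_single, Finsupp.mapDomain_single, hxy, sub_self]
  rw [this]
  rfl

theorem modPlace : H15.T_modPlace := by
  intro N _ hN hN' W hΔ Q hQfix hQ
  haveI : Fact N.Prime := ⟨hN⟩
  obtain ⟨i, z, S⟩ := exists_cuspSpecBar N
  have hN2 : N ≠ 2 := by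
    rintro rfl; exact hN' (by simp)
  by_cases hc : W.c₄ ≠ 0 ∧ W.c₆ ≠ 0
  · obtain ⟨x, a, hx, hu, ha, hA⟩ := exists_place_int' hN hN2 (b1Inputs hN hN2) W hΔ hc.1 hc.2 Q
      hQfix hQ
    refine ⟨x, hx, fun x₀ x₁ h₀ h₁ ℓ hℓ hℓN hℓΔ hℓc A hAℓ => ?_⟩
    rw [S.eq_zero h₀, S.eq_inf h₁]
    have hnd : ¬ ℓ ∣ N := by rwa [Nat.prime_dvd_prime_iff_eq hℓ hN]
    have hRI : ReductionInputsModL A N :=
      H42.reductionInputsModL_of_genusEq hℓ hAℓ hnd (H31.genusEqAt N hℓ hnd A hAℓ)
    have hk0 : (N : IsLocalRing.ResidueField A) ≠ 0 :=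
      H42.natCast_ne_zero_of_liesOver hℓ hAℓ hnd
    have hk : deltaRatio (IsLocalRing.ResidueField A) N ∈
        modularFunctionFieldFullC (IsLocalRing.ResidueField A) N := by
      obtain ⟨i', z', S'⟩ := exists_cuspSpec (IsLocalRing.ResidueField A) N hk0 _ rfl
      obtain ⟨U, hU, -⟩ := S'.ratio
      rw [← hU]; exact U.2
    have hmem : coeffEmb Qb (modularUnitSeries N) ∈ modularFunctionFieldBar N := by
      obtain ⟨U, hU, -⟩ := S.ratio
      have h1 : coeffEmb Qb (modularUnitSeries N) = (U : LaurentSeries Qb)⁻¹ := by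
        rw [hU]
        exact eq_inv_of_mul_eq_one_left (H72.coeffEmb_modularUnitSeries_mul Qb N)
      rw [h1]
      exact inv_mem U.2
    have hπ : ∀ a : A, (a : Qb) ∈ A.nonunits → IsLocalRing.residue A a = 0 := by
      intro a ha
      rw [IsLocalRing.residue_eq_zero_iff]
      exact (ValuationSubring.mem_nonunits_iff_exists_mem_maximalIdeal.mp ha).2
    haveI : H3RR.IsFF Qb (laurentBaseChange Qb (modularFunctionFieldFull N)) :=
      H3RR.isFF_of_funField (K := Qb) (F := modularFunctionFieldBar N)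
    have key := H72.B5 hπ hk (isPlaceReductionModL_placeReductionModL hRI) S
      ⟨coeffEmb Qb (modularUnitSeries N), hmem⟩ rfl x a (hu _ rfl)
    obtain ⟨hA1, hA2⟩ := hA ℓ A hℓ hℓN hAℓ hℓΔ hℓc
    refine ⟨fun hnot z' hz' => mem_KJ_of_eq hRI (key.1 (hA1 hnot)) z' hz',
      fun hin z' hz' => mem_KJ_of_eq hRI (key.2 (hA2 hin) ha) z' hz'⟩
  · refine ⟨i, fun σ => (S.smul_cusp σ).1, fun x₀ x₁ h₀ h₁ ℓ hℓ hℓN hℓΔ hℓc => ?_⟩
    exfalso
    apply hc
    have h4 : W.c₄ ≠ 0 := by rintro h0; rw [h0] at hℓc; exact hℓc (dvd_zero _)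
    refine ⟨h4, fun h6 => hℓc ?_⟩
    have h := W.c_relation
    rw [h6] at h
    have h2 : (ℓ : ℤ) ∣ W.c₄ ^ 3 := by
      have : W.c₄ ^ 3 = 1728 * W.Δ := by linear_combination -h
      rw [this]
      exact Dvd.dvd.mul_left hℓΔ _
    exact (Nat.prime_iff_prime_int.mp hℓ).dvd_of_dvd_pow h2

end Fermat.Agent.H05
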