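import Mathlib

/-!
# S47, package C-TR (helper92), part 1: cosets and approximation

* `cosetEquiv` : for `j : G →* Gh` and a subgroup `Uh` of `Gh` such that every element of `Gh` is
  `j x` modulo `Uh`, `G ⧸ Uh.comap j ≃ Gh ⧸ Uh`, equivariant.
* `DenseHom v j` : the field homomorphism `j : K →+* L` has dense image for the valuation `v` of `L`
  (elementary form).
* `Gam v n`, `PGam v n` : congruence subgroups of `GL₂(L)`, `PGL₂(L)`.
* `approx_GL`, `approx_PGL` : approximation of matrices.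
* `comap_map_mk` : level groups of `PGL₂(L)` and their traces on `PGL₂(K)`.
-/

set_option autoImplicit false

open Matrix WithZero
open scoped MatrixGroups

namespace Fermat.Agent.H92T

section Cosets

variable {G Gh : Type*} [Group G] [Group Gh] (j : G →* Gh) (Uh : Subgroup Gh)

/-- every element of `Gh` is in the image of `G` modulo `Uh` on the right -/
def Approx : Prop := ∀ g : Gh, ∃ x : G, g⁻¹ * j x ∈ Uh

/-- the map of cosets -/
def cosetMap : G ⧸ Uh.comap j → Gh ⧸ Uh :=
  Quotient.map' j (by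
    intro a b hab
    rw [QuotientGroup.leftRel_apply] at hab ⊢
    simpa using hab)

@[simp] theorem cosetMap_mk (g : G) :
    cosetMap j Uh ((g : G) : G ⧸ Uh.comap j) = ((j g : Gh) : Gh ⧸ Uh) := rfl

theorem cosetMap_injective : Function.Injective (cosetMap j Uh) := by
  intro x y h
  induction x using QuotientGroup.induction_on with
  | H x =>
    induction y using QuotientGroup.induction_on with
    | H y =>
      rw [cosetMap_mk, cosetMap_mk, QuotientGroup.eq] at h
      rw [QuotientGroup.eq, Subgroup.mem_comap]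
      simpa using h

theorem cosetMap_surjective {j : G →* Gh} {Uh : Subgroup Gh} (hA : Approx j Uh) :
    Function.Surjective (cosetMap j Uh) := by
  intro y
  induction y using QuotientGroup.induction_on with
  | H y =>
    obtain ⟨x, hx⟩ := hA y
    exact ⟨(x : G ⧸ Uh.comap j), (QuotientGroup.eq.mpr hx).symm⟩

theorem cosetMap_smul (g : G) (x : G ⧸ Uh.comap j) :
    cosetMap j Uh (g • x) = j g • cosetMap j Uh x := by
  induction x using QuotientGroup.induction_on with
  | H x =>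
    show cosetMap j Uh (((g * x : G)) : G ⧸ Uh.comap j) = _
    rw [cosetMap_mk, cosetMap_mk, map_mul]
    rfl

/-- The bijection of cosets. -/
noncomputable def cosetEquiv {j : G →* Gh} {Uh : Subgroup Gh} (hA : Approx j Uh) :
    G ⧸ Uh.comap j ≃ Gh ⧸ Uh :=
  Equiv.ofBijective (cosetMap j Uh) ⟨cosetMap_injective j Uh, cosetMap_surjective hA⟩

@[simp] theorem cosetEquiv_mk {j : G →* Gh} {Uh : Subgroup Gh} (hA : Approx j Uh) (g : G) :
    cosetEquiv hA ((g : G) : G ⧸ Uh.comap j) = ((j g : Gh) : Gh ⧸ Uh) := rfl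

theorem cosetEquiv_smul {j : G →* Gh} {Uh : Subgroup Gh} (hA : Approx j Uh) (g : G)
    (x : G ⧸ Uh.comap j) : cosetEquiv hA (g • x) = j g • cosetEquiv hA x :=
  cosetMap_smul j Uh g x

end Cosets

section Valued

variable {K L : Type*} [Field K] [Field L] (v : Valuation L ℤᵐ⁰) (j : K →+* L)

/-- `j` has dense image. -/
def DenseHom : Prop := ∀ (x : L) (n : ℕ), ∃ k : K, v (x - j k) ≤ exp (-(n : ℤ))

theorem exists_le_exp' (x : L) : ∃ e : ℕ, v x ≤ exp (e : ℤ) := by
  by_cases hx : v x = 0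
  · exact ⟨0, by rw [hx]; exact zero_le⟩
  · refine ⟨(log (v x)).toNat, ?_⟩
    rw [← exp_log hx, exp_le_exp]
    exact Int.self_le_toNat _

theorem exists_exp_le' {x : L} (hx : x ≠ 0) : ∃ e : ℕ, exp (-(e : ℤ)) ≤ v x := by
  have h0 : v x ≠ 0 := (Valuation.ne_zero_iff v).mpr hx
  refine ⟨(-log (v x)).toNat, ?_⟩
  have h1 := Int.self_le_toNat (-log (v x))
  conv_rhs => rw [← exp_log h0]
  rw [exp_le_exp]
  linarith

variable {v j}

/-- A dense image meets every ball `x (1 + small)`. -/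
theorem DenseHom.exists_mul (hD : DenseHom v j) {x : L} (hx : x ≠ 0) (n : ℕ) :
    ∃ k : K, k ≠ 0 ∧ v (x⁻¹ * j k - 1) ≤ exp (-((n + 1 : ℕ) : ℤ)) ∧ v (j k) = v x := by
  obtain ⟨e, he⟩ := exists_exp_le' v hx
  obtain ⟨k, hk⟩ := hD x (n + 1 + e)
  have hv0 : v x ≠ 0 := (Valuation.ne_zero_iff v).mpr hx
  have h1 : x⁻¹ * j k - 1 = x⁻¹ * (j k - x) := by
    field_simp
  have h2 : v (x⁻¹ * j k - 1) ≤ exp (-((n + 1 : ℕ) : ℤ)) := by
    rw [h1, map_mul, map_inv₀, Valuation.map_sub_swap]
    have h3 : (v x)⁻¹ ≤ exp (e : ℤ) := by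
      rw [inv_le_comm₀ (zero_lt_iff.mpr hv0) (exp_pos)]
      rw [← WithZero.exp_neg]
      exact he
    refine (mul_le_mul' h3 hk).trans ?_
    rw [← exp_add, exp_le_exp]
    push_cast
    linarith
  have h4 : v (x⁻¹ * j k - 1) < 1 := by
    refine h2.trans_lt ?_
    rw [← exp_zero, exp_lt_exp]
    push_cast
    linarith [Int.natCast_nonneg (n : ℤ).toNat]
  have h5 : v (x⁻¹ * j k) = 1 := by
    have h6 : x⁻¹ * j k = 1 + (x⁻¹ * j k - 1) := by ring
    rw [h6]
    exact Valuation.map_one_add_of_lt v h4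
  have h7 : v (j k) = v x := by
    rw [map_mul, map_inv₀] at h5
    rw [inv_mul_eq_one₀ hv0] at h5
    exact h5.symm
  refine ⟨k, ?_, h2, h7⟩
  rintro rfl
  rw [map_zero, map_zero] at h7
  exact hv0 h7.symm

variable (v)

/-- The congruence subgroup of level `n ≥ 1` (as a set `v (g i j - 1 i j) ≤ exp (-n)`), as a
subgroup of `GL₂`; for `n = 0` it is `GL₂` of the valuation ring. -/
def Gam (n : ℕ) : Subgroup (GL (Fin 2) L) where
  carrier := {g | (∀ i j, v (g.1 i j - (1 : Matrix (Fin 2) (Fin 2) L) i j) ≤ exp (-(n : ℤ))) ∧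
    ∀ i j, v ((g⁻¹).1 i j - (1 : Matrix (Fin 2) (Fin 2) L) i j) ≤ exp (-(n : ℤ))}
  one_mem' := by
    constructor <;> intro i j <;> simp
  inv_mem' := by
    rintro g ⟨h1, h2⟩
    refine ⟨h2, ?_⟩
    rw [inv_inv]
    exact h1
  mul_mem' := by
    have key : ∀ A B : Matrix (Fin 2) (Fin 2) L,
        (∀ i j, v (A i j - (1 : Matrix (Fin 2) (Fin 2) L) i j) ≤ exp (-(n : ℤ))) →
        (∀ i j, v (B i j - (1 : Matrix (Fin 2) (Fin 2) L) i j) ≤ exp (-(n : ℤ))) →
        ∀ i j, v ((A * B) i j - (1 : Matrix (Fin 2) (Fin 2) L) i j) ≤ exp (-(n : ℤ)) := by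
      intro A B hA hB i j
      have h1 : (A * B) i j - (1 : Matrix (Fin 2) (Fin 2) L) i j =
          (∑ k, (A i k - (1 : Matrix (Fin 2) (Fin 2) L) i k) *
            (B k j - (1 : Matrix (Fin 2) (Fin 2) L) k j)) +
          ((A i j - (1 : Matrix (Fin 2) (Fin 2) L) i j) +
            (B i j - (1 : Matrix (Fin 2) (Fin 2) L) i j)) := by
        have h2 : A * B - 1 = (A - 1) * (B - 1) + ((A - 1) + (B - 1)) := by noncomm_ring
        have h3 := congrFun (congrFun h2 i) j
        rw [Matrix.sub_apply] at h3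
        rw [h3, Matrix.add_apply, Matrix.add_apply, Matrix.mul_apply]
        rfl
      rw [h1]
      refine (Valuation.map_add _ _ _).trans (max_le ?_ ?_)
      · refine Valuation.map_sum_le _ fun k _ => ?_
        rw [map_mul]
        have h4 : v (A i k - (1 : Matrix (Fin 2) (Fin 2) L) i k) ≤ 1 := by
          refine (hA i k).trans ?_
          rw [← exp_zero, exp_le_exp]
          linarith [Int.natCast_nonneg n]
        exact (mul_le_mul' h4 (hB k j)).trans (by rw [one_mul])
      · exact (Valuation.map_add _ _ _).trans (max_le (hA i j) (hB i j))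
    rintro g h ⟨hg1, hg2⟩ ⟨hh1, hh2⟩
    refine ⟨?_, ?_⟩
    · intro i j
      rw [Units.val_mul]
      exact key _ _ hg1 hh1 i j
    · intro i j
      rw [_root_.mul_inv_rev, Units.val_mul]
      exact key _ _ hh2 hg2 i j

theorem mem_Gam {n : ℕ} {g : GL (Fin 2) L} : g ∈ Gam v n ↔
    (∀ i j, v (g.1 i j - (1 : Matrix (Fin 2) (Fin 2) L) i j) ≤ exp (-(n : ℤ))) ∧
    ∀ i j, v ((g⁻¹).1 i j - (1 : Matrix (Fin 2) (Fin 2) L) i j) ≤ exp (-(n : ℤ)) := Iff.rfl

variable {v}

/-- Matrices near an invertible matrix (on the right) are invertible. -/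
theorem det_ne_zero_of_near {A : Matrix (Fin 2) (Fin 2) L} {n : ℕ}
    (hA : ∀ i j, v (A i j - (1 : Matrix (Fin 2) (Fin 2) L) i j) ≤ exp (-((n + 1 : ℕ) : ℤ))) :
    v (A.det - 1) ≤ exp (-((n + 1 : ℕ) : ℤ)) ∧ v A.det = 1 := by
  have hlt : exp (-((n + 1 : ℕ) : ℤ)) < (1 : ℤᵐ⁰) := by
    rw [← exp_zero, exp_lt_exp]
    push_cast
    have := Int.natCast_nonneg n
    linarith
  have hle : exp (-((n + 1 : ℕ) : ℤ)) ≤ (1 : ℤᵐ⁰) := hlt.le
  have h00 := hA 0 0
  have h01 := hA 0 1
  have h10 := hA 1 0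
  have h11 := hA 1 1
  simp only [Matrix.one_apply_eq, Matrix.one_apply_ne (show (0 : Fin 2) ≠ 1 by decide),
    Matrix.one_apply_ne (show (1 : Fin 2) ≠ 0 by decide), sub_zero] at h00 h01 h10 h11
  have h1 : A.det - 1 = ((A 0 0 - 1) * (A 1 1 - 1) + ((A 0 0 - 1) + (A 1 1 - 1))) -
      A 0 1 * A 1 0 := by
    rw [Matrix.det_fin_two]; ring
  have h2 : v (A.det - 1) ≤ exp (-((n + 1 : ℕ) : ℤ)) := by
    rw [h1]
    refine (Valuation.map_sub _ _ _).trans (max_le ((Valuation.map_add _ _ _).trans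
      (max_le ?_ ((Valuation.map_add _ _ _).trans (max_le h00 h11)))) ?_)
    · rw [map_mul]
      exact (mul_le_mul' (h00.trans hle) h11).trans (by rw [one_mul])
    · rw [map_mul]
      exact (mul_le_mul' (h01.trans hle) h10).trans (by rw [one_mul])
  refine ⟨h2, ?_⟩
  have h3 : A.det = 1 + (A.det - 1) := by ring
  rw [h3]
  exact Valuation.map_one_add_of_lt v (h2.trans_lt hlt)

/-- The inverse of a matrix near `1` is near `1`. -/
theorem inv_near {g : GL (Fin 2) L} {n : ℕ}
    (hA : ∀ i j, v (g.1 i j - (1 : Matrix (Fin 2) (Fin 2) L) i j) ≤ exp (-((n + 1 : ℕ) : ℤ))) :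
    g ∈ Gam v (n + 1) := by
  refine ⟨hA, ?_⟩
  obtain ⟨hd1, hd2⟩ := det_ne_zero_of_near hA
  have hdet : g.1.det ≠ 0 := by
    intro h0
    rw [h0, map_zero] at hd2
    exact zero_ne_one hd2
  have hle : exp (-((n + 1 : ℕ) : ℤ)) ≤ (1 : ℤᵐ⁰) := by
    rw [← exp_zero, exp_le_exp]
    push_cast
    have := Int.natCast_nonneg n
    linarith
  have hinv : (g⁻¹).1 = (g.1.det)⁻¹ • !![g.1 1 1, -g.1 0 1; -g.1 1 0, g.1 0 0] := by
    rw [Matrix.coe_units_inv, Matrix.inv_def, Matrix.adjugate_fin_two]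
    rw [Ring.inverse_eq_inv']
  have h00 := hA 0 0
  have h01 := hA 0 1
  have h10 := hA 1 0
  have h11 := hA 1 1
  simp only [Matrix.one_apply_eq, Matrix.one_apply_ne (show (0 : Fin 2) ≠ 1 by decide),
    Matrix.one_apply_ne (show (1 : Fin 2) ≠ 0 by decide), sub_zero] at h00 h01 h10 h11
  have hdi : v (g.1.det)⁻¹ = 1 := by rw [map_inv₀, hd2, inv_one]
  intro i j
  rw [hinv]
  fin_cases i <;> fin_cases j
  · show v ((g.1.det)⁻¹ * g.1 1 1 - 1) ≤ _
    have h1 : (g.1.det)⁻¹ * g.1 1 1 - 1 = (g.1.det)⁻¹ * ((g.1 1 1 - 1) - (g.1.det - 1)) := by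
      field_simp; ring
    rw [h1, map_mul, hdi, one_mul]
    exact (Valuation.map_sub _ _ _).trans (max_le h11 hd1)
  · show v ((g.1.det)⁻¹ * (-g.1 0 1) - 0) ≤ _
    rw [sub_zero, map_mul, hdi, one_mul, Valuation.map_neg]
    exact h01
  · show v ((g.1.det)⁻¹ * (-g.1 1 0) - 0) ≤ _
    rw [sub_zero, map_mul, hdi, one_mul, Valuation.map_neg]
    exact h10
  · show v ((g.1.det)⁻¹ * g.1 0 0 - 1) ≤ _
    have h1 : (g.1.det)⁻¹ * g.1 0 0 - 1 = (g.1.det)⁻¹ * ((g.1 0 0 - 1) - (g.1.det - 1)) := by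
      field_simp; ring
    rw [h1, map_mul, hdi, one_mul]
    exact (Valuation.map_sub _ _ _).trans (max_le h00 hd1)

/-- Approximation in `GL₂`. -/
theorem approx_GL (hD : DenseHom v j) (g : GL (Fin 2) L) (n : ℕ) :
    ∃ x : GL (Fin 2) K, g⁻¹ * GeneralLinearGroup.map j x ∈ Gam v (n + 1) := by
  have he : ∃ e : ℕ, ∀ i k, v ((g⁻¹).1 i k) ≤ exp (e : ℤ) := by
    choose e he using fun (i : Fin 2) (k : Fin 2) => exists_le_exp' v ((g⁻¹).1 i k)
    refine ⟨∑ i, ∑ k, e i k, fun i k => (he i k).trans ?_⟩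
    rw [exp_le_exp]
    exact_mod_cast (Finset.single_le_sum (f := fun k => e i k) (fun _ _ => Nat.zero_le _)
      (Finset.mem_univ k)).trans (Finset.single_le_sum (f := fun i => ∑ k, e i k)
        (fun _ _ => Nat.zero_le _) (Finset.mem_univ i))
  obtain ⟨e, he⟩ := he
  choose X hX using fun (i : Fin 2) (k : Fin 2) => hD (g.1 i k) (n + 1 + e)
  have key : ∀ i k, v (((g⁻¹).1 * (Matrix.of X).map j) i k -
      (1 : Matrix (Fin 2) (Fin 2) L) i k) ≤ exp (-((n + 1 : ℕ) : ℤ)) := by
    intro i k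
    have h1 : (g⁻¹).1 * (Matrix.of X).map j - 1 = (g⁻¹).1 * ((Matrix.of X).map j - g.1) := by
      rw [mul_sub]
      congr 1
      rw [← Units.val_mul, inv_mul_cancel, Units.val_one]
    have h2 := congrFun (congrFun h1 i) k
    rw [Matrix.sub_apply] at h2
    rw [h2, Matrix.mul_apply]
    refine Valuation.map_sum_le _ fun l _ => ?_
    rw [map_mul, Matrix.sub_apply, Matrix.map_apply, Matrix.of_apply, Valuation.map_sub_swap]
    refine (mul_le_mul' (he i l) (hX l k)).trans ?_
    rw [← exp_add, exp_le_exp]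
    push_cast
    linarith
  have hdet : (Matrix.of X).det ≠ 0 := by
    intro h0
    have h1 := (det_ne_zero_of_near key).2
    rw [Matrix.det_mul] at h1
    have h2 : ((Matrix.of X).map j).det = 0 := by
      have := RingHom.map_det j (Matrix.of X)
      rw [h0, map_zero] at this
      exact this.symm
    rw [h2, mul_zero, map_zero] at h1
    exact zero_ne_one h1
  refine ⟨Matrix.GeneralLinearGroup.mkOfDetNeZero (Matrix.of X) hdet, inv_near ?_⟩
  intro i k
  exact key i k

variable (v)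

/-- The congruence subgroup of `PGL₂(L)`. -/
def PGam (n : ℕ) : Subgroup PGL(2, L) := (Gam v n).map ProjGenLinGroup.mk

variable {v}

/-- Approximation in `PGL₂`. -/
theorem approx_PGL (hD : DenseHom v j) (n : ℕ) {Uh : Subgroup PGL(2, L)}
    (hU : PGam v (n + 1) ≤ Uh) : Approx (ProjGenLinGroup.map (n := Fin 2) j) Uh := by
  intro g
  induction g using Matrix.ProjGenLinGroup.induction_on with
  | mk g =>
    obtain ⟨x, hx⟩ := approx_GL hD g n
    refine ⟨ProjGenLinGroup.mk x, hU ⟨_, hx, ?_⟩⟩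
    rw [ProjGenLinGroup.map_mk, map_mul, map_inv]

theorem scalar_mem_Gam {n : ℕ} (u : Lˣ) (hu : v ((u : L) - 1) ≤ exp (-((n + 1 : ℕ) : ℤ))) :
    GeneralLinearGroup.scalar (Fin 2) u ∈ Gam v (n + 1) := by
  refine inv_near ?_
  intro i k
  rw [GeneralLinearGroup.coe_scalar, Matrix.scalar_apply, Matrix.diagonal_apply,
    Matrix.one_apply]
  split_ifs
  · exact hu
  · simp

/-- The trace on `PGL₂(K)` of a level group of `PGL₂(L)` given by matrices. -/
theorem comap_map_mk (hD : DenseHom v j) {n : ℕ} {Hh : Subgroup (GL (Fin 2) L)}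
    (hH : Gam v (n + 1) ≤ Hh) :
    (Hh.map ProjGenLinGroup.mk).comap (ProjGenLinGroup.map (n := Fin 2) j) =
      (Hh.comap (GeneralLinearGroup.map j)).map ProjGenLinGroup.mk := by
  ext g
  induction g using Matrix.ProjGenLinGroup.induction_on with
  | mk g =>
    constructor
    · rintro ⟨h, hh, hgh⟩
      rw [ProjGenLinGroup.map_mk, ProjGenLinGroup.mk_eq_mk_iff] at hgh
      obtain ⟨u, hu⟩ := hgh
      -- `h * scalar u = map j g`
      obtain ⟨k, hk0, hk1, -⟩ := hD.exists_mul (x := (u : L)) u.ne_zero n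
      have hjk : j k ≠ 0 := (map_ne_zero j).mpr hk0
      let w : Lˣ := Units.mk0 (j k) hjk
      let kk : Kˣ := Units.mk0 k hk0
      refine ⟨g * (GeneralLinearGroup.scalar (Fin 2) kk)⁻¹, ?_, ?_⟩
      · show GeneralLinearGroup.map j _ ∈ Hh
        rw [map_mul, map_inv, ← hu]
        have h1 : GeneralLinearGroup.map j (GeneralLinearGroup.scalar (Fin 2) kk) =
            GeneralLinearGroup.scalar (Fin 2) w := by
          apply Units.ext
          ext a b
          show j ((GeneralLinearGroup.scalar (Fin 2) kk).1 a b) =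
            (GeneralLinearGroup.scalar (Fin 2) w).1 a b
          rw [GeneralLinearGroup.coe_scalar, GeneralLinearGroup.coe_scalar, Matrix.scalar_apply,
            Matrix.scalar_apply, Matrix.diagonal_apply, Matrix.diagonal_apply]
          split_ifs
          · rfl
          · exact map_zero j
        rw [h1]
        have h2 : h * GeneralLinearGroup.scalar (Fin 2) u *
            (GeneralLinearGroup.scalar (Fin 2) w)⁻¹ =
            h * (GeneralLinearGroup.scalar (Fin 2) (u⁻¹ * w))⁻¹ := by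
          have h4 : (GeneralLinearGroup.scalar (Fin 2) (u⁻¹ * w))⁻¹ =
              GeneralLinearGroup.scalar (Fin 2) u * (GeneralLinearGroup.scalar (Fin 2) w)⁻¹ := by
            rw [← map_inv, ← map_inv, ← map_mul]
            congr 1
            rw [_root_.mul_inv_rev, inv_inv, mul_comm]
          rw [h4, mul_assoc]
        rw [h2]
        refine Hh.mul_mem hh (Hh.inv_mem (hH (scalar_mem_Gam _ ?_)))
        have h3 : (((u⁻¹ * w : Lˣ) : L)) = (u : L)⁻¹ * j k := by
          rw [Units.val_mul, Units.val_inv_eq_inv_val]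
          rfl
        rw [h3]
        exact hk1
      · rw [map_mul, map_inv, ProjGenLinGroup.mk_scalar, inv_one, mul_one]
    · rintro ⟨h, hh, hgh⟩
      rw [← hgh]
      exact ⟨GeneralLinearGroup.map j h, hh, by rw [ProjGenLinGroup.map_mk]⟩

end Valued

section Fix

variable {L : Type*} [Field L]

/-- The fixed field of a ring automorphism. -/
def fixF (σ : L ≃+* L) : Subfield L where
  carrier := {x | σ x = x}
  mul_mem' := by
    intro a b ha hb
    simp only [Set.mem_ofPred_eq] at *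
    rw [map_mul, ha, hb]
  one_mem' := by simp
  add_mem' := by
    intro a b ha hb
    simp only [Set.mem_ofPred_eq] at *
    rw [map_add, ha, hb]
  zero_mem' := by simp
  neg_mem' := by
    intro a ha
    simp only [Set.mem_ofPred_eq] at *
    rw [map_neg, ha]
  inv_mem' := by
    intro a ha
    simp only [Set.mem_ofPred_eq] at *
    rw [map_inv₀, ha]

@[simp] theorem mem_fixF {σ : L ≃+* L} {x : L} : x ∈ fixF σ ↔ σ x = x := Iff.rfl

end Fix

end Fermat.Agent.H92T
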