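import Mathlib
import Fermat.Agent.H92T1

/-!
# S47, block (C), C-TR, the `F` side (helper10), part 1: density of the fixed field

`L` is a field with a valuation (a completion of `E`), `σ` an automorphism of `L` of order `3` which
preserves the valuation and extends `s : E ≃+* E`; `F` is the fixed field of `s`.
`dense_fix`, `dense_toFix`: `F` is dense in the fixed field of `σ`.
-/

set_option autoImplicit false

namespace Fermat.Agent.H10T

open WithZero Matrix
open scoped MatrixGroups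
open Fermat.Agent.H92T (DenseHom fixF mem_fixF)

section dense

variable {E L F : Type*} [Field E] [Field L] [Field F] {j : E →+* L} {v : Valuation L ℤᵐ⁰}

/-- The fixed field of `s` is dense in the fixed field of `σ`. -/
theorem dense_fix (hd : DenseHom v j) {σ : L ≃+* L} (hσ : ∀ x, v (σ x) = v x)
    {s : E ≃+* E} (hjs : ∀ x, σ (j x) = j (s x))
    (hs3 : ∀ x, s (s (s x)) = x) (h3 : (3 : E) ≠ 0) {i : F →+* E}
    (hF : ∀ x, s x = x → ∃ f, i f = x) {x : L} (hx : σ x = x) (n : ℕ) :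
    ∃ f : F, v (x - j (i f)) ≤ exp (-(n : ℤ)) := by
  obtain ⟨k, hk⟩ := H92T.exists_le_exp' v ((3 : L)⁻¹)
  obtain ⟨a, ha⟩ := hd x (n + k)
  have hfix : s ((a + s a + s (s a)) / 3) = (a + s a + s (s a)) / 3 := by
    rw [map_div₀, map_add, map_add, hs3, map_ofNat]
    ring
  obtain ⟨f, hf⟩ := hF _ hfix
  refine ⟨f, ?_⟩
  have h3L : (3 : L) ≠ 0 := by
    intro h
    apply h3
    apply j.injective
    rw [map_ofNat, map_zero, h]
  have key : x - j (i f) = (3 : L)⁻¹ * ((x - j a) + σ (x - j a) + σ (σ (x - j a))) := by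
    rw [hf, map_div₀, map_add, map_add, map_sub, map_sub, hx, hx, hjs, hjs, map_ofNat]
    field_simp
    ring
  have h1 : v ((x - j a) + σ (x - j a) + σ (σ (x - j a))) ≤ exp (-((n + k : ℕ) : ℤ)) := by
    refine (v.map_add _ _).trans (max_le ((v.map_add _ _).trans (max_le ha ?_)) ?_)
    · rw [hσ]; exact ha
    · rw [hσ, hσ]; exact ha
  rw [key, map_mul]
  calc v (3 : L)⁻¹ * v ((x - j a) + σ (x - j a) + σ (σ (x - j a)))
      ≤ exp (k : ℤ) * exp (-((n + k : ℕ) : ℤ)) := mul_le_mul' hk h1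
    _ = exp (-(n : ℤ)) := by rw [← exp_add]; congr 1; push_cast; ring

/-- The map `F → fixF σ`. -/
def toFix (j : E →+* L) (σ : L ≃+* L) (i : F →+* E) (hfix : ∀ f, σ (j (i f)) = j (i f)) :
    F →+* fixF σ :=
  (j.comp i).codRestrict (fixF σ) hfix

@[simp] theorem toFix_coe (j : E →+* L) (σ : L ≃+* L) (i : F →+* E)
    (hfix : ∀ f, σ (j (i f)) = j (i f)) (f : F) : ((toFix j σ i hfix f : fixF σ) : L) = j (i f) :=
  rfl

theorem subtype_comp_toFix (j : E →+* L) (σ : L ≃+* L) (i : F →+* E)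
    (hfix : ∀ f, σ (j (i f)) = j (i f)) :
    (fixF σ).subtype.comp (toFix j σ i hfix) = j.comp i := by
  ext f; rfl

/-- Density of `F → fixF σ`. -/
theorem dense_toFix (hd : DenseHom v j) {σ : L ≃+* L} (hσ : ∀ x, v (σ x) = v x)
    {s : E ≃+* E} (hjs : ∀ x, σ (j x) = j (s x))
    (hs3 : ∀ x, s (s (s x)) = x) (h3 : (3 : E) ≠ 0) {i : F →+* E}
    (hF : ∀ x, s x = x → ∃ f, i f = x) (hfix : ∀ f, σ (j (i f)) = j (i f)) :
    DenseHom (v.comap (fixF σ).subtype) (toFix j σ i hfix) := by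
  intro x n
  obtain ⟨f, hf⟩ := dense_fix hd hσ hjs hs3 h3 hF (x := (x : L)) x.2 n
  exact ⟨f, hf⟩

end dense

end Fermat.Agent.H10T
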