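import Mathlib
import Fermat.Agent.H10T1

/-!
# S47, block (C), C-TR, the `F` side: Hilbert 90 for an automorphism of order three, descent of fixed
elements of `PGL₂`, centralisers in `PGL₂`
-/

set_option autoImplicit false

namespace Fermat.Agent.H10T

open WithZero Matrix
open scoped MatrixGroups
open Fermat.Agent.H92T (fixF mem_fixF)

section hilbert

variable {L : Type*} [Field L] {σ : L ≃+* L}

/-- Hilbert 90 for an automorphism of order three. -/
theorem hilbert90 (hσ3 : ∀ x, σ (σ (σ x)) = x) (hσ1 : ∃ x, σ x ≠ x) {u : L}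
    (hu : u * σ u * σ (σ u) = 1) : ∃ μ : L, μ ≠ 0 ∧ μ = u * σ μ := by
  by_contra hcon
  push Not at hcon
  have key : ∀ θ : L, θ + u * σ θ + u * σ u * σ (σ θ) = 0 := by
    intro θ
    by_contra h
    refine hcon _ h ?_
    rw [map_add, map_add, map_mul, map_mul, map_mul, hσ3]
    linear_combination (-θ) * hu
  obtain ⟨c, hc⟩ := hσ1
  have hu0 : u ≠ 0 := by
    rintro rfl
    simp at hu
  -- subtract `c` times the relation
  have h1 : ∀ θ : L, u * (σ c - c) * σ θ + u * σ u * (σ (σ c) - c) * σ (σ θ) = 0 := by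
    intro θ
    have a := key (c * θ)
    have b := key θ
    rw [map_mul, map_mul] at a
    linear_combination a - c * b
  have h2 : ∀ θ : L, u * (σ c - c) * θ + u * σ u * (σ (σ c) - c) * σ θ = 0 := by
    intro θ
    have := h1 (σ (σ θ))
    rwa [hσ3] at this
  have h3 := h2 1
  have h4 := h2 c
  rw [map_one] at h3
  have h5 : u * (σ c - c) * (c - σ c) = 0 := by linear_combination h4 - σ c * h3
  rcases mul_eq_zero.1 h5 with h | h
  · rcases mul_eq_zero.1 h with h | h
    · exact hu0 h
    · exact hc (sub_eq_zero.1 h)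
  · exact hc (sub_eq_zero.1 h).symm

theorem map_injective_of_ringHom {K L : Type*} [Field K] [Field L] (f : K →+* L) :
    Function.Injective (GeneralLinearGroup.map (n := Fin 2) f) := by
  intro a b h
  ext i j
  have := congrArg (fun g : GL (Fin 2) L => g i j) h
  exact f.injective this

/-- `PGL₂` of a field extension: the map is injective. -/
theorem pgl_map_injective {K L : Type*} [Field K] [Field L] (f : K →+* L) :
    Function.Injective (ProjGenLinGroup.map (n := Fin 2) f) := by
  intro a b h
  induction a using ProjGenLinGroup.induction_on with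
  | mk a =>
    induction b using ProjGenLinGroup.induction_on with
    | mk b =>
      rw [ProjGenLinGroup.map_mk, ProjGenLinGroup.map_mk, ProjGenLinGroup.mk_eq_mk_iff] at h
      obtain ⟨u, hu⟩ := h
      -- some entry of `a` is nonzero
      obtain ⟨i, j, hij⟩ : ∃ i j, a i j ≠ 0 := by
        by_contra hcon
        push Not at hcon
        have : (a : Matrix (Fin 2) (Fin 2) K).det = 0 := by
          simp [det_fin_two, hcon]
        exact a.det.ne_zero this
      have hent : ∀ i j, f (a i j) * u = f (b i j) := by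
        intro i j
        have := congrArg (fun g : GL (Fin 2) L => g i j) hu
        simpa [Matrix.mul_apply, Matrix.scalar_apply, Matrix.diagonal_apply] using this
      have hu' : (u : L) = f (b i j / a i j) := by
        rw [map_div₀, eq_div_iff ((map_ne_zero f).2 hij), mul_comm]
        exact hent i j
      have hb0 : b i j / a i j ≠ 0 := by
        intro h0
        rw [h0, map_zero] at hu'
        exact u.ne_zero hu'
      rw [ProjGenLinGroup.mk_eq_mk_iff]
      refine ⟨Units.mk0 _ hb0, ?_⟩
      apply map_injective_of_ringHom f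
      ext k l
      have h2 := hent k l
      rw [hu'] at h2
      rw [GeneralLinearGroup.map_apply, GeneralLinearGroup.map_apply, ← h2, ← map_mul]
      congr 1
      rw [Units.val_mul, Matrix.mul_apply]
      simp [Matrix.scalar_apply, Matrix.diagonal_apply]

/-- Elements of `PGL₂(L)` fixed by an automorphism of order three come from the fixed field. -/
theorem descend_PGL (hσ3 : ∀ x, σ (σ (σ x)) = x) (hσ1 : ∃ x, σ x ≠ x) (g : PGL(2, L))
    (hg : ProjGenLinGroup.map (σ : L →+* L) g = g) :
    ∃ h : PGL(2, fixF σ), ProjGenLinGroup.map (fixF σ).subtype h = g := by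
  induction g using ProjGenLinGroup.induction_on with
  | mk A =>
    rw [ProjGenLinGroup.map_mk, ProjGenLinGroup.mk_eq_mk_iff] at hg
    obtain ⟨u, hu⟩ := hg
    have hent : ∀ i j, A i j = u * σ (A i j) := by
      intro i j
      have := congrArg (fun g : GL (Fin 2) L => g i j) hu
      simp only [Units.val_mul, Matrix.mul_apply] at this
      have h2 : σ (A i j) * u = A i j := by
        simpa [Matrix.scalar_apply, Matrix.diagonal_apply] using this
      rw [mul_comm, h2]
    obtain ⟨i, j, hij⟩ : ∃ i j, A i j ≠ 0 := by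
      by_contra hcon
      push Not at hcon
      have : (A : Matrix (Fin 2) (Fin 2) L).det = 0 := by
        simp [det_fin_two, hcon]
      exact A.det.ne_zero this
    have hu1 : (u : L) * σ u * σ (σ u) = 1 := by
      have e0 := hent i j
      have e1 : σ (A i j) = σ u * σ (σ (A i j)) := by
        conv_lhs => rw [e0]
        rw [map_mul]
      have e2 : σ (σ (A i j)) = σ (σ u) * A i j := by
        conv_lhs => rw [e1]
        rw [map_mul, hσ3]
      have e3 : A i j = ((u : L) * σ u * σ (σ u)) * A i j := by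
        conv_lhs => rw [e0, e1, e2]
        ring
      have := mul_right_cancel₀ hij (e3.symm.trans (one_mul _).symm)
      exact this
    obtain ⟨μ, hμ, hμu⟩ := hilbert90 hσ3 hσ1 hu1
    have hσμ : σ μ ≠ 0 := (map_ne_zero σ).2 hμ
    have hfix : ∀ i j, μ⁻¹ * A i j ∈ fixF σ := by
      intro i j
      rw [mem_fixF, map_mul, map_inv₀]
      have h1 := hent i j
      rw [h1]
      conv_rhs => rw [hμu]
      conv_lhs => rw [← h1]
      rw [mul_inv, mul_assoc]
      have hu0 := u.ne_zero
      field_simp
    let B : Matrix (Fin 2) (Fin 2) (fixF σ) := Matrix.of fun i j => ⟨μ⁻¹ * A i j, hfix i j⟩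
    have hB : B.map (fixF σ).subtype = μ⁻¹ • (A : Matrix (Fin 2) (Fin 2) L) := by
      ext i j; rfl
    have hdet : B.det ≠ 0 := by
      intro h0
      have h1 := RingHom.map_det (fixF σ).subtype B
      rw [h0, map_zero] at h1
      have h2 : ((fixF σ).subtype.mapMatrix B) = B.map (fixF σ).subtype := rfl
      rw [h2, hB, det_smul] at h1
      exact (mul_ne_zero (pow_ne_zero _ (inv_ne_zero hμ)) A.det.ne_zero) h1.symm
    refine ⟨ProjGenLinGroup.mk (GeneralLinearGroup.mkOfDetNeZero B hdet), ?_⟩
    rw [ProjGenLinGroup.map_mk, ProjGenLinGroup.mk_eq_mk_iff]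
    refine ⟨Units.mk0 μ hμ, ?_⟩
    ext i j
    rw [Units.val_mul, Matrix.mul_apply]
    have : ∀ i j, (GeneralLinearGroup.map (fixF σ).subtype
      (GeneralLinearGroup.mkOfDetNeZero B hdet)) i j = μ⁻¹ * A i j := fun i j => rfl
    simp only [this]
    simp [Matrix.scalar_apply, Matrix.diagonal_apply, mul_comm, hμ]

end hilbert

/-! ## Centralisers in `PGL₂` -/

section centraliser

variable {K : Type*} [Field K]

/-- Matrices commuting with a non-scalar `2 × 2` matrix commute with each other. -/
theorem commute_of_commute {A B C : Matrix (Fin 2) (Fin 2) K}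
    (hA : ¬ (A 0 1 = 0 ∧ A 1 0 = 0 ∧ A 0 0 = A 1 1)) (hB : A * B = B * A) (hC : A * C = C * A) :
    B * C = C * B := by
  have b00 := congrFun (congrFun hB 0) 0
  have b01 := congrFun (congrFun hB 0) 1
  have b10 := congrFun (congrFun hB 1) 0
  have c00 := congrFun (congrFun hC 0) 0
  have c01 := congrFun (congrFun hC 0) 1
  have c10 := congrFun (congrFun hC 1) 0
  simp only [Matrix.mul_apply, Fin.sum_univ_two] at b00 b01 b10 c00 c01 c10
  have e1 : B 0 1 * C 1 0 = C 0 1 * B 1 0 ∧ (B 0 0 - B 1 1) * C 0 1 = (C 0 0 - C 1 1) * B 0 1 ∧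
      (B 0 0 - B 1 1) * C 1 0 = (C 0 0 - C 1 1) * B 1 0 := by
    by_cases h01 : A 0 1 = 0
    · by_cases h10 : A 1 0 = 0
      · have hd : A 0 0 - A 1 1 ≠ 0 := fun h => hA ⟨h01, h10, sub_eq_zero.1 h⟩
        have hb01 : B 0 1 = 0 := by
          have : (A 0 0 - A 1 1) * B 0 1 = 0 := by rw [h01] at b01; linear_combination b01
          exact (mul_eq_zero.1 this).resolve_left hd
        have hb10 : B 1 0 = 0 := by
          have : (A 0 0 - A 1 1) * B 1 0 = 0 := by rw [h10] at b10; linear_combination -b10
          exact (mul_eq_zero.1 this).resolve_left hd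
        have hc01 : C 0 1 = 0 := by
          have : (A 0 0 - A 1 1) * C 0 1 = 0 := by rw [h01] at c01; linear_combination c01
          exact (mul_eq_zero.1 this).resolve_left hd
        have hc10 : C 1 0 = 0 := by
          have : (A 0 0 - A 1 1) * C 1 0 = 0 := by rw [h10] at c10; linear_combination -c10
          exact (mul_eq_zero.1 this).resolve_left hd
        rw [hb01, hb10, hc01, hc10]
        simp
      · have e1 : B 0 1 * C 1 0 = C 0 1 * B 1 0 := by
          apply mul_left_cancel₀ h10
          linear_combination C 1 0 * (-b00) + B 1 0 * c00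
        refine ⟨e1, ?_, ?_⟩
        · apply mul_left_cancel₀ h10
          linear_combination C 0 1 * b10 - B 0 1 * c10 - (A 0 0 - A 1 1) * e1
        · apply mul_left_cancel₀ h10
          linear_combination C 1 0 * b10 - B 1 0 * c10
    · have e1 : B 0 1 * C 1 0 = C 0 1 * B 1 0 := by
        apply mul_left_cancel₀ h01
        linear_combination B 0 1 * c00 - C 0 1 * b00
      refine ⟨e1, ?_, ?_⟩
      · apply mul_left_cancel₀ h01
        linear_combination (-C 0 1) * b01 + B 0 1 * c01
      · apply mul_left_cancel₀ h01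
        linear_combination (-C 1 0) * b01 + B 1 0 * c01 + (A 0 0 - A 1 1) * e1
  obtain ⟨e1, e2, e3⟩ := e1
  ext i j
  fin_cases i <;> fin_cases j <;>
    simp only [Matrix.mul_apply, Fin.sum_univ_two, Fin.zero_eta, Fin.isValue, Fin.mk_one] <;>
    first
    | linear_combination e1
    | linear_combination e2
    | linear_combination e3
    | linear_combination -e1
    | linear_combination -e2
    | linear_combination -e3

/-- Two elements of `PGL₂` which commute with `mk g`, `tr g ≠ 0`, lift to matrices commuting with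
`g`. -/
theorem commute_lift {g a : GL (Fin 2) K} (htr : (g : Matrix (Fin 2) (Fin 2) K).trace ≠ 0)
    (h : ProjGenLinGroup.mk a * ProjGenLinGroup.mk g = ProjGenLinGroup.mk g * ProjGenLinGroup.mk a) :
    a * g = g * a := by
  rw [← map_mul, ← map_mul, ProjGenLinGroup.mk_eq_mk_iff] at h
  obtain ⟨u, hu⟩ := h
  -- `a g u = g a`, so `u tr g = tr (a⁻¹ g a) = tr g`
  have h1 : (g * GeneralLinearGroup.scalar (Fin 2) u : GL (Fin 2) K) = a⁻¹ * g * a := by
    rw [mul_assoc a⁻¹, ← hu, ← mul_assoc, ← mul_assoc, inv_mul_cancel, one_mul]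
  have h2 : ((g * GeneralLinearGroup.scalar (Fin 2) u : GL (Fin 2) K) :
      Matrix (Fin 2) (Fin 2) K).trace = ((a⁻¹ * g * a : GL (Fin 2) K) :
      Matrix (Fin 2) (Fin 2) K).trace := by rw [h1]
  have h3 : ((a⁻¹ * g * a : GL (Fin 2) K) : Matrix (Fin 2) (Fin 2) K).trace =
      (g : Matrix (Fin 2) (Fin 2) K).trace := by
    rw [Units.val_mul, Matrix.trace_mul_comm, Units.val_mul, ← mul_assoc, ← Units.val_mul,
      mul_inv_cancel, Units.val_one, one_mul]
  have h4 : ((g * GeneralLinearGroup.scalar (Fin 2) u : GL (Fin 2) K) :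
      Matrix (Fin 2) (Fin 2) K).trace = u * (g : Matrix (Fin 2) (Fin 2) K).trace := by
    rw [Units.val_mul]
    simp [Matrix.trace_fin_two, Matrix.mul_apply, Matrix.scalar_apply, Matrix.diagonal_apply]
    ring
  rw [h3, h4] at h2
  have hu1 : (u : K) = 1 := by
    have : (u : K) * (g : Matrix (Fin 2) (Fin 2) K).trace =
        1 * (g : Matrix (Fin 2) (Fin 2) K).trace := by rw [h2, one_mul]
    exact mul_right_cancel₀ htr this
  have hu2 : u = 1 := Units.ext hu1
  rw [hu2, map_one, mul_one] at hu
  exact hu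

/-- The centraliser of `mk g` in `PGL₂(K)` is commutative if `tr g ≠ 0` and `g` is not scalar. -/
theorem pgl_commute {g : GL (Fin 2) K} (htr : (g : Matrix (Fin 2) (Fin 2) K).trace ≠ 0)
    (hns : ¬ (g 0 1 = 0 ∧ g 1 0 = 0 ∧ g 0 0 = g 1 1)) {a b : PGL(2, K)}
    (ha : a * ProjGenLinGroup.mk g = ProjGenLinGroup.mk g * a)
    (hb : b * ProjGenLinGroup.mk g = ProjGenLinGroup.mk g * b) : a * b = b * a := by
  induction a using ProjGenLinGroup.induction_on with
  | mk a =>
    induction b using ProjGenLinGroup.induction_on with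
    | mk b =>
      have h1 := commute_lift htr ha
      have h2 := commute_lift htr hb
      rw [← map_mul, ← map_mul]
      congr 1
      apply Units.ext
      rw [Units.val_mul, Units.val_mul]
      refine commute_of_commute (A := (g : Matrix (Fin 2) (Fin 2) K)) hns ?_ ?_
      · rw [← Units.val_mul, ← Units.val_mul, h1]
      · rw [← Units.val_mul, ← Units.val_mul, h2]

end centraliser

/-! ## Norm pairs -/

section normpair

/-- If `N d = n` is fixed by `s` then `d` commutes with `n`. -/
theorem comm_of_norm {G : Type*} [Group G] (s : G →* G) (hs3 : ∀ x, s (s (s x)) = x) {d n : G}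
    (hn : s n = n) (hN : d * s d * s (s d) = n) : d * n = n * d := by
  have h1 : s d * s (s d) * d = n := by
    have := congrArg s hN
    rwa [map_mul, map_mul, hs3, hn] at this
  calc d * n = d * (s d * s (s d) * d) := by rw [h1]
    _ = n * d := by rw [← hN]; group

variable {E L F : Type*} [Field E] [Field L] [Field F] {j : E →+* L} {σ : L ≃+* L} {s : E ≃+* E}
  {i : F →+* E}

theorem pgl_map_map {A B C : Type*} [Field A] [Field B] [Field C] (f : A →+* B) (g : B →+* C)
    (x : PGL(2, A)) : ProjGenLinGroup.map g (ProjGenLinGroup.map f x) =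
      ProjGenLinGroup.map (g.comp f) x := by
  rw [ProjGenLinGroup.map_comp]; rfl

/-- The three maps are compatible with the automorphisms. -/
theorem map_sigma (hjs : ∀ x, σ (j x) = j (s x)) (x : PGL(2, E)) :
    ProjGenLinGroup.map (σ : L →+* L) (ProjGenLinGroup.map j x) =
      ProjGenLinGroup.map j (ProjGenLinGroup.map (s : E →+* E) x) := by
  rw [pgl_map_map, pgl_map_map]
  have : ((σ : L →+* L).comp j) = j.comp (s : E →+* E) := by
    ext y
    exact hjs y
  rw [this]

/-- The compatibility square `PGL₂(F) → PGL₂(fixF σ) → PGL₂(L)`. -/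
theorem square (hfix : ∀ f, σ (j (i f)) = j (i f)) (x : PGL(2, F)) :
    ProjGenLinGroup.map (fixF σ).subtype (ProjGenLinGroup.map (toFix j σ i hfix) x) =
      ProjGenLinGroup.map j (ProjGenLinGroup.map i x) := by
  rw [pgl_map_map, pgl_map_map]
  rfl

theorem map_sigma_fix (x : PGL(2, fixF σ)) :
    ProjGenLinGroup.map (σ : L →+* L) (ProjGenLinGroup.map (fixF σ).subtype x) =
      ProjGenLinGroup.map (fixF σ).subtype x := by
  rw [pgl_map_map]
  have : ((σ : L →+* L).comp (fixF σ).subtype) = (fixF σ).subtype := by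
    ext y
    exact y.2
  rw [this]

/-- The norm relation of a norm pair in the completion. -/
theorem norm_local (hjs : ∀ x, σ (j x) = j (s x)) (hfix : ∀ f, σ (j (i f)) = j (i f))
    {d : PGL(2, E)} {γ : PGL(2, F)}
    (hN : d * ProjGenLinGroup.map (s : E →+* E) d *
      ProjGenLinGroup.map (s : E →+* E) (ProjGenLinGroup.map (s : E →+* E) d) =
        ProjGenLinGroup.map i γ) :
    ProjGenLinGroup.map j d * ProjGenLinGroup.map (σ : L →+* L) (ProjGenLinGroup.map j d) *
      ProjGenLinGroup.map (σ : L →+* L)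
        (ProjGenLinGroup.map (σ : L →+* L) (ProjGenLinGroup.map j d)) =
        ProjGenLinGroup.map (fixF σ).subtype (ProjGenLinGroup.map (toFix j σ i hfix) γ) := by
  rw [square, ← hN, map_mul, map_mul, map_sigma hjs, map_sigma hjs]

theorem map_trace_ne {A B : Type*} [Field A] [Field B] (f : A →+* B) {g : GL (Fin 2) A}
    (htr : (g : Matrix (Fin 2) (Fin 2) A).trace ≠ 0) :
    ((GeneralLinearGroup.map f g : GL (Fin 2) B) : Matrix (Fin 2) (Fin 2) B).trace ≠ 0 := by
  have : ((GeneralLinearGroup.map f g : GL (Fin 2) B) : Matrix (Fin 2) (Fin 2) B).trace =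
      f (g : Matrix (Fin 2) (Fin 2) A).trace := by
    simp [Matrix.trace_fin_two]
  rw [this]
  exact (map_ne_zero f).2 htr

theorem map_not_scalar {A B : Type*} [Field A] [Field B] (f : A →+* B) {g : GL (Fin 2) A}
    (hns : ¬ (g 0 1 = 0 ∧ g 1 0 = 0 ∧ g 0 0 = g 1 1)) :
    ¬ ((GeneralLinearGroup.map f g : GL (Fin 2) B) 0 1 = 0 ∧
      (GeneralLinearGroup.map f g : GL (Fin 2) B) 1 0 = 0 ∧
      (GeneralLinearGroup.map f g : GL (Fin 2) B) 0 0 =
        (GeneralLinearGroup.map f g : GL (Fin 2) B) 1 1) := by
  simp only [GeneralLinearGroup.map_apply]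
  rintro ⟨h1, h2, h3⟩
  exact hns ⟨(map_eq_zero f).1 h1, (map_eq_zero f).1 h2, f.injective h3⟩

/-- In a norm pair the element `d` commutes with the whole centraliser of `γ` (in `PGL₂(fixF σ)`,
hence in particular with the centraliser in `PGL₂(F)`). Here stated for any automorphism of order
three; apply with `j = id` for the global statement. -/
theorem norm_commute {A : Type*} [Field A] {τ : A ≃+* A} (hτ3 : ∀ x, τ (τ (τ x)) = x)
    {k : Type*} [Field k] (ι : k →+* A) (hι : ∀ x, τ (ι x) = ι x) {d : PGL(2, A)} {g : GL (Fin 2) k}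
    (htr : (g : Matrix (Fin 2) (Fin 2) k).trace ≠ 0)
    (hns : ¬ (g 0 1 = 0 ∧ g 1 0 = 0 ∧ g 0 0 = g 1 1))
    (hN : d * ProjGenLinGroup.map (τ : A →+* A) d *
      ProjGenLinGroup.map (τ : A →+* A) (ProjGenLinGroup.map (τ : A →+* A) d) =
        ProjGenLinGroup.map ι (ProjGenLinGroup.mk g))
    {t : PGL(2, k)} (ht : t * ProjGenLinGroup.mk g = ProjGenLinGroup.mk g * t) :
    d * ProjGenLinGroup.map ι t = ProjGenLinGroup.map ι t * d := by
  have hs3 : ∀ x : PGL(2, A), ProjGenLinGroup.map (τ : A →+* A)
      (ProjGenLinGroup.map (τ : A →+* A) (ProjGenLinGroup.map (τ : A →+* A) x)) = x := by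
    intro x
    rw [pgl_map_map, pgl_map_map]
    have : (((τ : A →+* A).comp (τ : A →+* A)).comp (τ : A →+* A)) = RingHom.id A := by
      ext y
      exact hτ3 y
    rw [this, ProjGenLinGroup.map_id]
    rfl
  have hfix : ProjGenLinGroup.map (τ : A →+* A) (ProjGenLinGroup.map ι (ProjGenLinGroup.mk g)) =
      ProjGenLinGroup.map ι (ProjGenLinGroup.mk g) := by
    rw [pgl_map_map]
    have : ((τ : A →+* A).comp ι) = ι := by
      ext y
      exact hι y
    rw [this]
  have h1 := comm_of_norm (ProjGenLinGroup.map (τ : A →+* A)) hs3 hfix hN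
  have h2 : ProjGenLinGroup.map ι t * ProjGenLinGroup.map ι (ProjGenLinGroup.mk g) =
      ProjGenLinGroup.map ι (ProjGenLinGroup.mk g) * ProjGenLinGroup.map ι t := by
    rw [← map_mul, ht, map_mul]
  rw [ProjGenLinGroup.map_mk] at h1 h2
  exact pgl_commute (map_trace_ne ι htr) (map_not_scalar ι hns) h1 h2

end normpair

end Fermat.Agent.H10T
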