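import Mathlib
import Fermat.Agent.H59Def

/-!
# S47, block (C), C-TR, the `F` side: comparison of the subgroups of `PGL₂` at a place `w` of `E` over a
place `v` of `F`

`A`, `B` Dedekind domains with fraction fields `K ⊆ L`, `w` over `v`:
* `GLcong v n` maps into `GLcong w n`; `Gam v n ≤ (Gam w n).comap`;
* `(U0 w).comap = U0 v` if the ramification index is odd;
* `Level.comapPick`: the level of `F` induced by a level of `E`.
-/

set_option autoImplicit false

noncomputable section

namespace Fermat.Agent.H10T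

open IsDedekindDomain HeightOneSpectrum WithZero NumberField Matrix
open scoped MatrixGroups
open Fermat.Agent.H59D

section AKLB

variable {A K : Type*} {L : Type*} {B : Type*}
variable [CommRing A] [IsDedekindDomain A] [CommRing B] [IsDedekindDomain B] [Algebra A B]
  [Module.IsTorsionFree A B]
variable [Field K] [Field L] [Algebra K L]
variable [Algebra A K] [IsFractionRing A K] [Algebra A L] [IsScalarTower A K L]
variable [Algebra B L] [IsFractionRing B L] [IsScalarTower A B L]
variable (v : HeightOneSpectrum A) (w : HeightOneSpectrum B) [w.asIdeal.LiesOver v.asIdeal]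

theorem ram_ne_zero : v.asIdeal.ramificationIdx' w.asIdeal ≠ 0 :=
  Ideal.IsDedekindDomain.ramificationIdx'_ne_zero_of_liesOver w.asIdeal v.ne_bot

theorem val_eq (x : K) : w.valuation L (algebraMap K L x) =
    v.valuation K x ^ v.asIdeal.ramificationIdx' w.asIdeal :=
  (HeightOneSpectrum.valuation_liesOver L v w x).symm

theorem val_le_one_iff (x : K) :
    w.valuation L (algebraMap K L x) ≤ 1 ↔ v.valuation K x ≤ 1 := by
  rw [val_eq v w]
  exact pow_le_one_iff (ram_ne_zero v w)

theorem val_eq_one_iff (x : K) :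
    w.valuation L (algebraMap K L x) = 1 ↔ v.valuation K x = 1 := by
  rw [val_eq v w, pow_eq_one_iff]
  simp [ram_ne_zero v w]

theorem val_le_exp {x : K} {n : ℕ} (h : v.valuation K x ≤ exp (-(n : ℤ))) :
    w.valuation L (algebraMap K L x) ≤ exp (-(n : ℤ)) := by
  rw [val_eq v w]
  refine le_trans ?_ h
  have h1 : v.valuation K x ≤ 1 := h.trans (by rw [← exp_zero, exp_le_exp]; omega)
  exact pow_le_of_le_one (zero_le) h1 (ram_ne_zero v w)

theorem map_mem_GLw_iff {g : GL (Fin 2) K} :
    GeneralLinearGroup.map (algebraMap K L) g ∈ GLw w ↔ g ∈ GLw v := by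
  rw [mem_GLw, mem_GLw]
  have hdet : ((GeneralLinearGroup.map (algebraMap K L) g : GL (Fin 2) L) :
      Matrix (Fin 2) (Fin 2) L).det = algebraMap K L (g : Matrix (Fin 2) (Fin 2) K).det := by
    rw [RingHom.map_det]; rfl
  rw [hdet, val_eq_one_iff v w]
  simp only [GeneralLinearGroup.map_apply, val_le_one_iff v w]

theorem map_mem_GLcong {n : ℕ} {g : GL (Fin 2) K} (hg : g ∈ GLcong v n) :
    GeneralLinearGroup.map (algebraMap K L) g ∈ GLcong w n := by
  refine ⟨(map_mem_GLw_iff v w).2 hg.1, fun i j => ?_⟩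
  have h1 : ((GeneralLinearGroup.map (algebraMap K L) g : GL (Fin 2) L) :
      Matrix (Fin 2) (Fin 2) L) i j - (1 : Matrix (Fin 2) (Fin 2) L) i j =
      algebraMap K L ((g : Matrix (Fin 2) (Fin 2) K) i j - (1 : Matrix (Fin 2) (Fin 2) K) i j) := by
    rw [map_sub, GeneralLinearGroup.map_apply]
    congr 1
    rw [Matrix.one_apply, Matrix.one_apply]
    split_ifs <;> simp
  rw [h1]
  exact val_le_exp v w (hg.2 i j)

/-- The principal congruence subgroups. -/
theorem Gam_le_comap (n : ℕ) :
    Gam (K := K) v n ≤ (Gam (K := L) w n).comap (ProjGenLinGroup.map (algebraMap K L)) := by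
  rintro _ ⟨g, hg, rfl⟩
  exact ⟨_, map_mem_GLcong v w hg, rfl⟩

theorem U0_le_comap :
    U0 (K := K) v ≤ (U0 (K := L) w).comap (ProjGenLinGroup.map (algebraMap K L)) := by
  rintro _ ⟨g, hg, rfl⟩
  exact ⟨_, (map_mem_GLw_iff v w).2 hg, rfl⟩

/-- For odd ramification index the maximal compact subgroup upstairs induces the maximal compact
subgroup downstairs. -/
theorem U0_comap (hodd : Odd (v.asIdeal.ramificationIdx' w.asIdeal)) :
    (U0 (K := L) w).comap (ProjGenLinGroup.map (algebraMap K L)) = U0 (K := K) v := by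
  refine le_antisymm ?_ (U0_le_comap v w)
  intro x hx
  induction x using ProjGenLinGroup.induction_on with
  | mk g =>
    obtain ⟨h, hh, he⟩ := hx
    rw [ProjGenLinGroup.map_mk, ProjGenLinGroup.mk_eq_mk_iff] at he
    obtain ⟨u, hu⟩ := he
    -- `h u = g`
    have hent : ∀ i j, algebraMap K L (g i j) = h i j * u := by
      intro i j
      have := congrArg (fun g : GL (Fin 2) L => g i j) hu
      simp only [Units.val_mul, Matrix.mul_apply, GeneralLinearGroup.map_apply] at this
      rw [← this]
      simp [Matrix.scalar_apply, Matrix.diagonal_apply]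
    have hdet : algebraMap K L (g : Matrix (Fin 2) (Fin 2) K).det =
        (h : Matrix (Fin 2) (Fin 2) L).det * u ^ 2 := by
      rw [Matrix.det_fin_two, Matrix.det_fin_two, map_sub, map_mul, map_mul, hent, hent, hent, hent]
      ring
    -- valuations
    have hu0 : w.valuation L (u : L) ≠ 0 := (Valuation.ne_zero_iff _).2 u.ne_zero
    have hd0 : v.valuation K (g : Matrix (Fin 2) (Fin 2) K).det ≠ 0 :=
      (Valuation.ne_zero_iff _).2 g.det.ne_zero
    obtain ⟨b, hb⟩ : ∃ b : ℤ, w.valuation L (u : L) = exp b := ⟨_, (exp_log hu0).symm⟩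
    obtain ⟨a, ha⟩ : ∃ a : ℤ, v.valuation K (g : Matrix (Fin 2) (Fin 2) K).det = exp a :=
      ⟨_, (exp_log hd0).symm⟩
    have h1 := congrArg (w.valuation L) hdet
    rw [val_eq v w, map_mul, hh.2, one_mul, map_pow, ha, hb, ← WithZero.exp_nsmul, ← WithZero.exp_nsmul,
      exp_inj, nsmul_eq_mul, nsmul_eq_mul] at h1
    obtain ⟨m, hm⟩ := hodd
    rw [hm] at h1
    push_cast at h1
    -- `(2 m + 1) a = 2 b`, so `a = 2 k`, `b = (2 m + 1) k`
    obtain ⟨k, hk⟩ : ∃ k : ℤ, a = 2 * k := ⟨b - m * a, by linarith⟩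
    have hbk : b = (2 * m + 1) * k := by rw [hk] at h1; linarith
    obtain ⟨f, hf⟩ := v.valuation_surjective K (exp k)
    have hf0 : f ≠ 0 := by
      rintro rfl
      rw [map_zero] at hf
      exact exp_ne_zero hf.symm
    have hfu : w.valuation L (algebraMap K L f) = w.valuation L (u : L) := by
      rw [val_eq v w, hf, hb, ← WithZero.exp_nsmul, hbk, hm, nsmul_eq_mul]
      push_cast
      rfl
    refine ⟨g * GeneralLinearGroup.scalar (Fin 2) (Units.mk0 f⁻¹ (inv_ne_zero hf0)), ?_, ?_⟩
    · refine (map_mem_GLw_iff (L := L) v w).1 ⟨fun i j => ?_, ?_⟩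
      · have e1 : (GeneralLinearGroup.map (algebraMap K L)
            (g * GeneralLinearGroup.scalar (Fin 2) (Units.mk0 f⁻¹ (inv_ne_zero hf0)))) i j =
            h i j * (u * (algebraMap K L f)⁻¹) := by
          rw [GeneralLinearGroup.map_apply, Units.val_mul, Matrix.mul_apply]
          have : ∑ l, (g : Matrix (Fin 2) (Fin 2) K) i l *
              ((GeneralLinearGroup.scalar (Fin 2) (Units.mk0 f⁻¹ (inv_ne_zero hf0)) : GL (Fin 2) K) :
                Matrix (Fin 2) (Fin 2) K) l j = g i j * f⁻¹ := by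
            simp [Matrix.scalar_apply, Matrix.diagonal_apply]
          rw [this, map_mul, hent, map_inv₀, mul_assoc]
        rw [e1, map_mul, map_mul, map_inv₀, hfu, mul_inv_cancel₀ hu0, mul_one]
        exact hh.1 i j
      · have e2 : ((GeneralLinearGroup.map (algebraMap K L)
            (g * GeneralLinearGroup.scalar (Fin 2) (Units.mk0 f⁻¹ (inv_ne_zero hf0))) : GL (Fin 2) L) :
              Matrix (Fin 2) (Fin 2) L).det =
            (h : Matrix (Fin 2) (Fin 2) L).det * (u * (algebraMap K L f)⁻¹) ^ 2 := by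
          have e3 : ((GeneralLinearGroup.map (algebraMap K L)
            (g * GeneralLinearGroup.scalar (Fin 2) (Units.mk0 f⁻¹ (inv_ne_zero hf0))) : GL (Fin 2) L) :
              Matrix (Fin 2) (Fin 2) L).det = algebraMap K L ((g * GeneralLinearGroup.scalar (Fin 2)
              (Units.mk0 f⁻¹ (inv_ne_zero hf0)) : GL (Fin 2) K) : Matrix (Fin 2) (Fin 2) K).det := by
            rw [RingHom.map_det]; rfl
          rw [e3, Units.val_mul, Matrix.det_mul, map_mul, hdet]
          have e4 : ((GeneralLinearGroup.scalar (Fin 2) (Units.mk0 f⁻¹ (inv_ne_zero hf0)) : GL (Fin 2) K) :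
                Matrix (Fin 2) (Fin 2) K).det = (f⁻¹) ^ 2 := by
            simp [Matrix.scalar_apply, sq]
          rw [e4, map_pow, map_inv₀]
          ring
        rw [e2, map_mul, map_pow, map_mul, map_inv₀, hfu, mul_inv_cancel₀ hu0, hh.2]
        simp
    · rw [map_mul, ProjGenLinGroup.mk_scalar, mul_one]

/-- If `U` lies in the conjugate of `U0 w` by an element of `PGL₂(K)`, its preimage lies in the
conjugate of `U0 v`. -/
theorem comap_le_conj (hodd : Odd (v.asIdeal.ramificationIdx' w.asIdeal))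
    {U : Subgroup PGL(2, L)} {c : PGL(2, K)}
    (hc : ∀ g ∈ U, (ProjGenLinGroup.map (algebraMap K L) c)⁻¹ * g *
      ProjGenLinGroup.map (algebraMap K L) c ∈ U0 w) :
    ∀ g ∈ U.comap (ProjGenLinGroup.map (algebraMap K L)), c⁻¹ * g * c ∈ U0 v := by
  intro g hg
  rw [← U0_comap (L := L) v w hodd]
  show ProjGenLinGroup.map (algebraMap K L) (c⁻¹ * g * c) ∈ U0 (K := L) w
  rw [map_mul, map_mul, map_inv]
  exact hc _ hg

end AKLB

/-! ## Number fields -/

section numberField

variable {F E : Type*} [Field F] [NumberField F] [Field E] [NumberField E] [Algebra F E]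

/-- In a Galois extension of odd degree all ramification indices are odd. -/
theorem odd_ramificationIdx' [IsGalois F E] (hodd : Odd (Module.finrank F E))
    (v : HeightOneSpectrum (𝓞 F)) (w : HeightOneSpectrum (𝓞 E)) [w.asIdeal.LiesOver v.asIdeal] :
    Odd (v.asIdeal.ramificationIdx' w.asIdeal) := by
  have h1 := Ideal.ncard_primesOver_mul_ramificationIdxIn_mul_inertiaDegIn v.asIdeal (𝓞 E)
    (E ≃ₐ[F] E)
  rw [Ideal.ramificationIdxIn_eq_ramificationIdx v.asIdeal w.asIdeal (E ≃ₐ[F] E),
    ← Ideal.ramificationIdx'_eq_ramificationIdx _ _ v.ne_bot,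
    IsGalois.card_aut_eq_finrank] at h1
  rw [← h1] at hodd
  exact (Nat.odd_mul.1 (Nat.odd_mul.1 hodd).2).1

/-- The level of `F` induced by a level of `E` (one place `pick v` above every `v`). -/
def comapLevel (LE : Level (𝓞 E) E) (pick : HeightOneSpectrum (𝓞 F) → HeightOneSpectrum (𝓞 E))
    (hpick : ∀ v, (pick v).asIdeal.LiesOver v.asIdeal)
    (hodd : ∀ v : HeightOneSpectrum (𝓞 F), Odd (v.asIdeal.ramificationIdx' (pick v).asIdeal))
    (hconj : ∀ v, ∃ c : PGL(2, F), ∀ g ∈ LE.U (pick v),
      (ProjGenLinGroup.map (algebraMap F E) c)⁻¹ * g * ProjGenLinGroup.map (algebraMap F E) c ∈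
        U0 (pick v)) : Level (𝓞 F) F where
  U v := (LE.U (pick v)).comap (ProjGenLinGroup.map (algebraMap F E))
  fin := by
    have hinj : Function.Injective pick := by
      intro v v' h
      have h1 := (hpick v).over
      have h2 := (hpick v').over
      rw [h] at h1
      exact HeightOneSpectrum.ext (h1.trans h2.symm)
    refine (LE.fin.preimage hinj.injOn).subset ?_
    intro v hv
    show LE.U (pick v) ≠ U0 (pick v)
    intro h
    apply hv
    have := hpick v
    show (LE.U (pick v)).comap _ = _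
    rw [h, U0_comap v (pick v) (hodd v)]
  isOpen v := by
    obtain ⟨n, hn⟩ := LE.isOpen (pick v)
    have := hpick v
    exact ⟨n, (Gam_le_comap v (pick v) n).trans (Subgroup.comap_mono hn)⟩
  bdd v := by
    obtain ⟨c, hc⟩ := hconj v
    have := hpick v
    exact ⟨c, comap_le_conj v (pick v) (hodd v) hc⟩

@[simp] theorem comapLevel_U (LE : Level (𝓞 E) E)
    (pick : HeightOneSpectrum (𝓞 F) → HeightOneSpectrum (𝓞 E))
    (hpick : ∀ v, (pick v).asIdeal.LiesOver v.asIdeal)
    (hodd : ∀ v : HeightOneSpectrum (𝓞 F), Odd (v.asIdeal.ramificationIdx' (pick v).asIdeal))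
    (hconj : ∀ v, ∃ c : PGL(2, F), ∀ g ∈ LE.U (pick v),
      (ProjGenLinGroup.map (algebraMap F E) c)⁻¹ * g * ProjGenLinGroup.map (algebraMap F E) c ∈
        U0 (pick v)) (v : HeightOneSpectrum (𝓞 F)) :
    (comapLevel LE pick hpick hodd hconj).U v =
      (LE.U (pick v)).comap (ProjGenLinGroup.map (algebraMap F E)) := rfl

end numberField

end Fermat.Agent.H10T
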