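import Fermat.Agent.H65S3

/-!
# H65S4: the canonical bijection (block C13 of S47)
-/

set_option autoImplicit false
set_option linter.unusedSectionVars false
set_option linter.unusedSimpArgs false

namespace Fermat.Agent.H65.S47

open Matrix

theorem CM.phi1 {O : Type*} [CommRing O] {π : O} (h : CM π O) (r u : O) :
    ∃ c : O, c + π * r * (c * c * c) = u := by
  obtain ⟨c, hc, -⟩ := h.contraction (fun c => u - π * r * (c * c * c)) (by
    rintro n y z ⟨w, hw⟩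
    refine ⟨-(r * (w * (y * y + y * z + z * z))), ?_⟩
    simp only [smul_eq_mul] at hw ⊢
    rw [pow_succ]
    linear_combination (-π * r * (y * y + y * z + z * z)) * hw)
  exact ⟨c, by linear_combination -hc⟩

namespace NB

variable {O F A : Type*} [CommRing O] [IsDomain O] [Field F] [Algebra O F] [IsFractionRing O F]
  [CommRing A] [Nontrivial A] [Algebra F A] [Algebra O A] [IsScalarTower O F A] (D : NB O F A)

/-- `s` on matrices. -/
def sm (M : Matrix (Fin 2) (Fin 2) A) : Matrix (Fin 2) (Fin 2) A := M.map D.s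

theorem sm_mul (M N : Matrix (Fin 2) (Fin 2) A) : D.sm (M * N) = D.sm M * D.sm N := by
  ext i j
  simp [sm, Matrix.mul_apply]

theorem sm_smul (z : A) (M : Matrix (Fin 2) (Fin 2) A) : D.sm (z • M) = D.s z • D.sm M := by
  ext i j
  simp [sm]

theorem sm_one : D.sm (1 : Matrix (Fin 2) (Fin 2) A) = 1 := by
  ext i j
  simp only [sm, Matrix.map_apply, Matrix.one_apply]
  split_ifs <;> simp

theorem sm3 (M : Matrix (Fin 2) (Fin 2) A) : D.sm (D.sm (D.sm M)) = M := by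
  ext i j
  simp [sm, D.s3]

theorem sm_mapF (M : Matrix (Fin 2) (Fin 2) F) : D.sm (M.map (algebraMap F A)) =
    M.map (algebraMap F A) := by
  ext i j
  simp [sm]

theorem twisted_norm (d g δ : Matrix (Fin 2) (Fin 2) A) (z : A)
    (h : d * D.sm g = z • (g * δ)) :
    d * D.sm d * D.sm (D.sm d) * g =
      (z * D.s z * D.s (D.s z)) • (g * (δ * D.sm δ * D.sm (D.sm δ))) := by
  have h1 : d * D.sm d * D.sm (D.sm d) * g = d * D.sm (d * D.sm (d * D.sm g)) := by
    rw [D.sm_mul, D.sm_mul, D.sm_mul, D.sm3]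
    simp only [mul_assoc]
  have h2 : d * D.sm (d * D.sm g) = (z * D.s z) • (g * (δ * D.sm δ)) := by
    rw [h, D.sm_smul, D.sm_mul, Matrix.mul_smul, ← mul_assoc, h, Matrix.smul_mul, smul_smul,
      mul_assoc, mul_comm (D.s z) z]
  rw [h1, h2, D.sm_smul, D.sm_mul, Matrix.mul_smul, ← mul_assoc, h, Matrix.smul_mul, smul_smul,
    D.sm_mul, map_mul, mul_assoc g δ, ← mul_assoc δ (D.sm δ)]
  congr 1
  ring

/-- the map of an `O`-matrix to `A` -/
def oA (M : Matrix (Fin 2) (Fin 2) O) : Matrix (Fin 2) (Fin 2) A := M.map (algebraMap O A)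

theorem hE_ap (k : ℕ) (a : Matrix (Fin 2) (Fin 2) O) :
    D.hE k (ap a) = 1 + (algebraMap O A (D.π ^ k) * D.e) • a.map (algebraMap O A) := by
  unfold hE
  rw [D.ev_ap, smul_smul]

theorem hE_isUnit (hc : CM D.π O) {k m : ℕ} (hk : k = D.c + (m + 1))
    (X : Fin 3 → Matrix (Fin 2) (Fin 2) O) : IsUnit (D.hE k X) := by
  obtain ⟨Y, h1, h2⟩ := D.hE_inv hc hk X
  exact ⟨⟨D.hE k X, D.hE k Y, h1, h2⟩, rfl⟩

theorem step1 (hc : CM D.π O) {k m : ℕ} (hk : k = D.c + (m + 1))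
    (d g : Matrix (Fin 2) (Fin 2) A) (z : A) (X : Fin 3 → Matrix (Fin 2) (Fin 2) O)
    (h : d * D.sm g = z • (g * D.hE k X)) :
    ∃ (Y : Fin 3 → Matrix (Fin 2) (Fin 2) O) (b : Matrix (Fin 2) (Fin 2) O),
      d * D.sm (g * D.hE k Y) = z • (g * D.hE k Y * D.hE k (ap b)) := by
  obtain ⟨Y, b, hY⟩ := D.normal_form hc hk X
  refine ⟨Y, b, ?_⟩
  rw [D.sm_mul, ← mul_assoc, h, Matrix.smul_mul, mul_assoc, show D.sm (D.hE k Y) =
    (D.hE k Y).map D.s from rfl, hY, mul_assoc]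

/-- The standing hypotheses on the level `k`. -/
structure Lev (k : ℕ) (r : O) : Prop where
  hc : CM D.π O
  hπ : D.π ≠ 0
  hk : ∃ m, k = D.c + (m + 1)
  hr : algebraMap O A r = algebraMap O A (D.π ^ k) * (D.e * D.s D.e * D.s (D.s D.e))
  h90 : ∀ z : A, IsUnit z → z * D.s z * D.s (D.s z) = 1 → ∃ c : A, IsUnit c ∧ z * D.s c = c

theorem pk_cancel {k : ℕ} (hπ : D.π ≠ 0) {M N : Matrix (Fin 2) (Fin 2) A}
    (h : algebraMap O A (D.π ^ k) • M = algebraMap O A (D.π ^ k) • N) : M = N := by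
  have hπF : algebraMap O F (D.π ^ k) ≠ 0 := by
    rw [Ne, IsFractionRing.to_map_eq_zero_iff]
    exact pow_ne_zero k hπ
  have hpinv : algebraMap F A (algebraMap O F (D.π ^ k))⁻¹ * algebraMap O A (D.π ^ k) = 1 := by
    rw [IsScalarTower.algebraMap_apply O F A, ← map_mul, inv_mul_cancel₀ hπF, map_one]
  have h4 := congrArg (fun M => algebraMap F A (algebraMap O F (D.π ^ k))⁻¹ • M) h
  simpa only [smul_smul, hpinv, one_smul] using h4

theorem pk_cancel' {k : ℕ} (hπ : D.π ≠ 0) {x y : A}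
    (h : algebraMap O A (D.π ^ k) * x = algebraMap O A (D.π ^ k) * y) : x = y := by
  have hπF : algebraMap O F (D.π ^ k) ≠ 0 := by
    rw [Ne, IsFractionRing.to_map_eq_zero_iff]
    exact pow_ne_zero k hπ
  have hpinv : algebraMap F A (algebraMap O F (D.π ^ k))⁻¹ * algebraMap O A (D.π ^ k) = 1 := by
    rw [IsScalarTower.algebraMap_apply O F A, ← map_mul, inv_mul_cancel₀ hπF, map_one]
  have h4 := congrArg (fun M => algebraMap F A (algebraMap O F (D.π ^ k))⁻¹ * M) h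
  simpa only [← mul_assoc, hpinv, one_mul] using h4

/-- conjugating normal forms: `a g = g b` gives `(1 + π^k e a) g = g (1 + π^k e b)` -/
theorem hE_conj (k : ℕ) {a b : Matrix (Fin 2) (Fin 2) O} {g : Matrix (Fin 2) (Fin 2) A}
    (h : a.map (algebraMap O A) * g = g * b.map (algebraMap O A)) :
    D.hE k (ap a) * g = g * D.hE k (ap b) := by
  rw [D.hE_ap, D.hE_ap, Matrix.add_mul, Matrix.smul_mul, h, Matrix.mul_add, Matrix.mul_smul,
    one_mul, mul_one]

/-- Step 2: if `d₁ s(g) = g (1 + π^k e b)` with `d₁ = 1 + π^k e a`, then `g` is rational and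
`a g = g b`. -/
theorem step2 [IsIntegrallyClosed O] {k : ℕ} {r : O} (hL : D.Lev k r)
    (a b : Matrix (Fin 2) (Fin 2) O) (g : (Matrix (Fin 2) (Fin 2) A)ˣ)
    (h : D.hE k (ap a) * D.sm (g : Matrix (Fin 2) (Fin 2) A) =
      (g : Matrix (Fin 2) (Fin 2) A) * D.hE k (ap b)) :
    a.map (algebraMap O A) * (g : Matrix (Fin 2) (Fin 2) A) =
      (g : Matrix (Fin 2) (Fin 2) A) * b.map (algebraMap O A) ∧
    D.sm (g : Matrix (Fin 2) (Fin 2) A) = g := by
  obtain ⟨m, hk⟩ := hL.hk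
  have h1 := D.twisted_norm (D.hE k (ap a)) g (D.hE k (ap b)) 1 (by rw [h, one_smul])
  have e1 : D.hE k (ap a) * D.sm (D.hE k (ap a)) * D.sm (D.sm (D.hE k (ap a))) =
      (1 + D.π ^ k • D.phi k r a).map (algebraMap O A) := D.norm_normal hL.hr a
  have e2 : D.hE k (ap b) * D.sm (D.hE k (ap b)) * D.sm (D.sm (D.hE k (ap b))) =
      (1 + D.π ^ k • D.phi k r b).map (algebraMap O A) := D.norm_normal hL.hr b
  rw [e1, e2] at h1
  simp only [map_one, mul_one, one_smul] at h1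
  obtain ⟨u, hu, hu2⟩ := D.scalar_int hL.hc hL.hπ hk g (D.phi k r a) (D.phi k r b) 1
    (by rw [map_one, one_smul]; exact h1)
  have hu0 : u = 0 := by
    have h3 : algebraMap O F (D.π ^ k * u) = 0 := by linear_combination -hu
    rw [IsFractionRing.to_map_eq_zero_iff] at h3
    exact (mul_eq_zero.mp h3).resolve_left (pow_ne_zero k hL.hπ)
  rw [hu0, zero_smul, zero_add, mul_zero, add_zero, one_smul] at hu2
  obtain ⟨b3, hb3, hb4⟩ := D.transfer hL.hc hk r g a (D.phi k r b) hu2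
  have hb5 := D.phi_inj hL.hc hk r hb4
  rw [hb5] at hb3
  refine ⟨hb3, ?_⟩
  have h6 := D.hE_conj k hb3
  rw [← h] at h6
  exact ((D.hE_isUnit hL.hc hk (ap a)).mul_left_cancel h6).symm

/-- A matrix fixed by `s` is rational. -/
theorem rational_of_fixed (g : Matrix (Fin 2) (Fin 2) A) (h : D.sm g = g) :
    ∃ y : Matrix (Fin 2) (Fin 2) F, y.map (algebraMap F A) = g := by
  refine ⟨Matrix.of fun i j => D.T (D.e * g i j), ?_⟩
  ext i j
  rw [Matrix.map_apply, Matrix.of_apply]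
  exact D.fixed (g i j) (congrFun (congrFun h i) j)

/-- SURJECTIVITY in the canonical case. -/
theorem canon_surj [IsIntegrallyClosed O] {k : ℕ} {r : O} (hL : D.Lev k r)
    (a : Matrix (Fin 2) (Fin 2) O) (g : (Matrix (Fin 2) (Fin 2) A)ˣ) (z : A) (hz : IsUnit z)
    (X : Fin 3 → Matrix (Fin 2) (Fin 2) O)
    (h : D.hE k (ap a) * D.sm (g : Matrix (Fin 2) (Fin 2) A) =
      z • ((g : Matrix (Fin 2) (Fin 2) A) * D.hE k X)) :
    ∃ (y : Matrix (Fin 2) (Fin 2) F) (x : A) (Y : Fin 3 → Matrix (Fin 2) (Fin 2) O)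
      (b : Matrix (Fin 2) (Fin 2) O), IsUnit x ∧
      y.map (algebraMap F A) = x • ((g : Matrix (Fin 2) (Fin 2) A) * D.hE k Y) ∧
      a.map (algebraMap O A) * y.map (algebraMap F A) =
        y.map (algebraMap F A) * b.map (algebraMap O A) := by
  obtain ⟨m, hk⟩ := hL.hk
  obtain ⟨Y1, b1, hY1⟩ := D.step1 hL.hc hk _ _ z X h
  obtain ⟨hu1, hhu1⟩ := D.hE_isUnit hL.hc hk Y1
  set g1 : (Matrix (Fin 2) (Fin 2) A)ˣ := g * hu1 with hg1
  have hg1v : (g1 : Matrix (Fin 2) (Fin 2) A) = g * D.hE k Y1 := by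
    rw [hg1, Units.val_mul, hhu1]
  rw [← hg1v] at hY1
  -- the norm of z
  have h2 := D.twisted_norm _ _ _ z hY1
  have e1 : D.hE k (ap a) * D.sm (D.hE k (ap a)) * D.sm (D.sm (D.hE k (ap a))) =
      (1 + D.π ^ k • D.phi k r a).map (algebraMap O A) := D.norm_normal hL.hr a
  have e2 : D.hE k (ap b1) * D.sm (D.hE k (ap b1)) * D.sm (D.sm (D.hE k (ap b1))) =
      (1 + D.π ^ k • D.phi k r b1).map (algebraMap O A) := D.norm_normal hL.hr b1
  rw [e1, e2] at h2
  have hNfix : D.s (z * D.s z * D.s (D.s z)) = z * D.s z * D.s (D.s z) := by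
    rw [map_mul, map_mul, D.s3]
    ring
  obtain ⟨ζ, hζ⟩ : ∃ ζ : F, algebraMap F A ζ = z * D.s z * D.s (D.s z) :=
    ⟨_, D.fixed _ hNfix⟩
  rw [← hζ, ← Matrix.mul_smul] at h2
  obtain ⟨u, hu, -⟩ := D.scalar_int hL.hc hL.hπ hk g1 (D.phi k r a) (D.phi k r b1) ζ h2
  -- the scalar w = 1 + π^k e c₀ with norm ζ
  obtain ⟨c0, hc0⟩ := hL.hc.phi1 (D.π ^ (D.c + m) * r) u
  have hc0' : c0 + D.π ^ k * r * (c0 * c0 * c0) = u := by
    rw [← hc0, hk]
    ring
  set w : A := 1 + algebraMap O A (D.π ^ k) * D.e * algebraMap O A c0 with hw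
  have hwm : D.hE k (ap (c0 • (1 : Matrix (Fin 2) (Fin 2) O))) =
      w • (1 : Matrix (Fin 2) (Fin 2) A) := by
    rw [D.hE_ap]
    ext i j
    simp only [Matrix.add_apply, Matrix.smul_apply, Matrix.map_apply, smul_eq_mul, map_mul,
      Matrix.one_apply, hw]
    split_ifs <;> simp
  have hwu : IsUnit w := by
    have h3 := D.hE_isUnit hL.hc hk (ap (c0 • (1 : Matrix (Fin 2) (Fin 2) O)))
    rw [hwm, Matrix.isUnit_iff_isUnit_det, Matrix.det_smul, Matrix.det_one, mul_one,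
      Fintype.card_fin, isUnit_pow_iff two_ne_zero] at h3
    exact h3
  have hwN : w * D.s w * D.s (D.s w) = algebraMap F A ζ := by
    have h3 : D.hE k (ap (c0 • (1 : Matrix (Fin 2) (Fin 2) O))) *
        D.sm (D.hE k (ap (c0 • 1))) * D.sm (D.sm (D.hE k (ap (c0 • 1)))) =
      (1 + D.π ^ k • D.phi k r (c0 • 1)).map (algebraMap O A) := D.norm_normal hL.hr _
    rw [hwm, D.sm_smul, D.sm_smul, D.sm_one, D.sm_one] at h3
    have h4 := congrFun (congrFun h3 0) 0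
    have h5 : ((1 + D.π ^ k • D.phi k r (c0 • (1 : Matrix (Fin 2) (Fin 2) O))) 0 0) =
        1 + D.π ^ k * u := by
      rw [← hc0']
      simp [phi]
      ring
    rw [Matrix.map_apply, h5] at h4
    simp only [Matrix.smul_mul, Matrix.mul_smul, mul_one, Matrix.smul_apply, Matrix.one_apply_eq,
      smul_eq_mul] at h4
    have hζ2 : algebraMap F A ζ = algebraMap O A (1 + D.π ^ k * u) := by
      rw [hu, map_add (algebraMap F A), map_one (algebraMap F A),
        ← IsScalarTower.algebraMap_apply O F A, map_add (algebraMap O A), map_one (algebraMap O A)]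
    rw [hζ2, ← h4]
    ring
  -- Hilbert 90
  obtain ⟨w', hw'⟩ := hwu.exists_right_inv
  have hw'u : IsUnit w' := IsUnit.of_mul_eq_one w (by rw [mul_comm]; exact hw')
  obtain ⟨c1, hc1u, hc1⟩ := hL.h90 (z * w') (hz.mul hw'u) (by
    have e3 : w' * D.s w' * D.s (D.s w') * (w * D.s w * D.s (D.s w)) = 1 := by
      have h5 : D.s w * D.s w' = 1 := by rw [← map_mul, hw', map_one]
      have h6 : D.s (D.s w) * D.s (D.s w') = 1 := by rw [← map_mul, h5, map_one]
      calc w' * D.s w' * D.s (D.s w') * (w * D.s w * D.s (D.s w)) =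
          (w * w') * (D.s w * D.s w') * (D.s (D.s w) * D.s (D.s w')) := by ring
        _ = 1 := by rw [hw', h5, h6]; ring
    rw [map_mul, map_mul]
    calc z * w' * (D.s z * D.s w') * (D.s (D.s z) * D.s (D.s w')) =
        w' * D.s w' * D.s (D.s w') * (z * D.s z * D.s (D.s z)) := by ring
      _ = 1 := by rw [← hζ, ← hwN]; exact e3)
  have hc1' : D.s c1 * z = c1 * w := by
    calc D.s c1 * z = (z * w' * D.s c1) * w + (1 - w * w') * D.s c1 * z := by ring
      _ = c1 * w := by rw [hc1, hw']; ring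
  obtain ⟨c1u, hc1uv⟩ := hc1u
  -- g2 = c1 g1
  set g2m : Matrix (Fin 2) (Fin 2) A := c1 • (g1 : Matrix (Fin 2) (Fin 2) A) with hg2m
  have h6 : D.hE k (ap a) * D.sm g2m = 1 • (g2m * D.hE k
      (ap (c0 • 1) + ap b1 + D.π ^ (m + 1) • D.mulZ (ap (c0 • 1)) (ap b1))) := by
    rw [← D.hE_mul hk, hwm, one_smul, hg2m, D.sm_smul, Matrix.mul_smul, hY1, smul_smul, hc1',
      Matrix.smul_mul, Matrix.smul_mul, one_mul, Matrix.mul_smul, smul_smul]
  obtain ⟨Y2, b2, hY2⟩ := D.step1 hL.hc hk _ _ 1 _ (by rw [h6, one_smul, one_smul])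
  obtain ⟨hu2, hhu2⟩ := D.hE_isUnit hL.hc hk Y2
  obtain ⟨g3, hg3⟩ : ∃ g3 : (Matrix (Fin 2) (Fin 2) A)ˣ,
      (g3 : Matrix (Fin 2) (Fin 2) A) = g2m * D.hE k Y2 := by
    have h7 : IsUnit (g2m * D.hE k Y2) := by
      rw [hg2m, ← hc1uv, ← hhu2, ← Units.smul_def]
      exact (g1.isUnit.smul c1u).mul hu2.isUnit
    exact ⟨h7.unit, rfl⟩
  rw [← hg3, one_smul] at hY2
  obtain ⟨h8, h9⟩ := D.step2 hL a b2 g3 hY2
  obtain ⟨y, hy⟩ := D.rational_of_fixed _ h9
  refine ⟨y, c1, Y1 + Y2 + D.π ^ (m + 1) • D.mulZ Y1 Y2, b2, hc1uv ▸ c1u.isUnit, ?_, ?_⟩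
  · rw [hy, hg3, hg2m, hg1v, Matrix.smul_mul, mul_assoc, D.hE_mul hk]
  · rw [hy]; exact h8

/-- WELL-DEFINEDNESS in the canonical case. -/
theorem canon_well [IsIntegrallyClosed O] {k : ℕ} {r : O} (hL : D.Lev k r)
    (a M : Matrix (Fin 2) (Fin 2) O) (g : (Matrix (Fin 2) (Fin 2) A)ˣ) (ζ : F)
    (h : (1 + D.π ^ k • D.phi k r a).map (algebraMap O A) * (g : Matrix (Fin 2) (Fin 2) A) =
      (g : Matrix (Fin 2) (Fin 2) A) *
        (algebraMap F A ζ • (1 + D.π ^ k • M).map (algebraMap O A))) :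
    ∃ b : Matrix (Fin 2) (Fin 2) O,
      a.map (algebraMap O A) * (g : Matrix (Fin 2) (Fin 2) A) =
        (g : Matrix (Fin 2) (Fin 2) A) * b.map (algebraMap O A) ∧
      D.hE k (ap a) * (g : Matrix (Fin 2) (Fin 2) A) =
        (g : Matrix (Fin 2) (Fin 2) A) * D.hE k (ap b) ∧
      D.π ^ k ∣ b 0 1 - M 0 1 := by
  obtain ⟨m, hk⟩ := hL.hk
  obtain ⟨u, hu, hu2⟩ := D.scalar_int hL.hc hL.hπ hk g (D.phi k r a) M ζ h
  obtain ⟨b, hb, hb2⟩ := D.transfer hL.hc hk r g a _ hu2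
  refine ⟨b, hb, D.hE_conj k hb, ?_⟩
  have h3 := congrFun (congrFun hb2 0) 1
  simp only [phi, Matrix.add_apply, Matrix.smul_apply, smul_eq_mul, Matrix.one_apply,
    Fin.zero_eq_one_iff, OfNat.ofNat_ne_one, if_false, mul_zero, zero_add] at h3
  refine ⟨u * M 0 1 - r * (b * b * b) 0 1, ?_⟩
  linear_combination h3

end NB

end Fermat.Agent.H65.S47
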