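import Fermat.Agent.H92T1

/-!
# S47, package C-TR (helper92), part 2: the completion `w.adicCompletion K`

* `denseHom_adic` : `K` is dense in `w.adicCompletion K`.
* `Compl3 v` : elementary completeness; `compl3_adic`.
* `exists_hat` : an automorphism of `K` which preserves the `w`-adic valuation extends to an
  isometric automorphism of the completion; `hat_hat_hat` : order three; `hat_unique`.
-/

set_option autoImplicit false

open Matrix WithZero IsDedekindDomain
open scoped MatrixGroups

namespace Fermat.Agent.H92T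

section General

variable {L : Type*} [Field L] (v : Valuation L ℤᵐ⁰)

/-- Elementary completeness. -/
def Compl3 : Prop := ∀ x : ℕ → L, (∀ n, v (x (n + 1) - x n) ≤ exp (-(n : ℤ))) →
  ∃ y, ∀ n, v (y - x n) ≤ exp (-(n : ℤ))

/-- separation: an element with arbitrarily small valuation is zero -/
theorem eq_zero_of_small {x : L} (h : ∀ n : ℕ, v x ≤ exp (-(n : ℤ))) : x = 0 := by
  by_contra hx
  obtain ⟨e, he⟩ := exists_exp_le' v hx
  have h1 := he.trans (h (e + 1))
  rw [exp_le_exp] at h1
  push_cast at h1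
  linarith

theorem eq_of_small {x y : L} (h : ∀ n : ℕ, v (x - y) ≤ exp (-(n : ℤ))) : x = y :=
  sub_eq_zero.mp (eq_zero_of_small v h)

variable {v}

/-- Two isometric endomorphisms which agree on a dense subfield are equal. -/
theorem hom_unique {K : Type*} [Field K] {j : K →+* L} (hD : DenseHom v j) {σ τ : L → L}
    (hσ : ∀ x y, v (σ x - σ y) ≤ v (x - y)) (hτ : ∀ x y, v (τ x - τ y) ≤ v (x - y))
    (h : ∀ k, σ (j k) = τ (j k)) : σ = τ := by
  funext x
  apply eq_of_small v
  intro n
  obtain ⟨k, hk⟩ := hD x n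
  have h1 : σ x - τ x = (σ x - σ (j k)) + (τ (j k) - τ x) := by rw [h k]; ring
  rw [h1]
  refine (Valuation.map_add _ _ _).trans (max_le ((hσ _ _).trans hk) ((hτ _ _).trans ?_))
  rw [Valuation.map_sub_swap]
  exact hk

end General

section ValuedField

variable {L : Type*} [Field L] [Valued L ℤᵐ⁰]

theorem exists_exp_lt {g : ℤᵐ⁰} (hg : g ≠ 0) : ∃ n : ℕ, exp (-(n : ℤ)) < g := by
  refine ⟨(-log g).toNat + 1, ?_⟩
  have h1 := Int.self_le_toNat (-log g)
  conv_rhs => rw [← exp_log hg]
  rw [exp_lt_exp]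
  push_cast
  linarith

theorem mem_nhds_iff_exp (hs : Function.Surjective (Valued.v : L → ℤᵐ⁰)) {s : Set L} {x : L} :
    s ∈ nhds x ↔ ∃ n : ℕ, {y : L | Valued.v (y - x) ≤ exp (-(n : ℤ))} ⊆ s := by
  rw [Valued.mem_nhds]
  constructor
  · rintro ⟨γ, hγ⟩
    have h0 : MonoidWithZeroHom.ValueGroup₀.embedding (γ.1) ≠ (0 : ℤᵐ⁰) := by
      rw [Ne, map_eq_zero]
      exact γ.ne_zero
    obtain ⟨n, hn⟩ := exists_exp_lt h0
    refine ⟨n, fun y hy => hγ ?_⟩
    show Valued.v.restrict (y - x) < γ.1
    rw [Valuation.restrict_lt_iff_lt_embedding]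
    exact lt_of_le_of_lt hy hn
  · rintro ⟨n, hn⟩
    obtain ⟨z, hz⟩ := hs (exp (-(n : ℤ)))
    have hz0 : (Valued.v : Valuation L ℤᵐ⁰).restrict z ≠ 0 := by
      rw [Ne, Valuation.restrict_eq_zero_iff, hz]
      exact exp_ne_zero
    refine ⟨Units.mk0 _ hz0, fun y hy => hn ?_⟩
    have hy' : Valued.v.restrict (y - x) < Valued.v.restrict z := hy
    rw [Valuation.restrict_lt_iff, hz] at hy'
    exact hy'.le

theorem compl3_of_complete [CompleteSpace L] (hs : Function.Surjective (Valued.v : L → ℤᵐ⁰)) :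
    Compl3 (Valued.v : Valuation L ℤᵐ⁰) := by
  intro x hx
  have hmono : ∀ n k : ℕ, Valued.v (x (n + k) - x n) ≤ exp (-(n : ℤ)) := by
    intro n k
    induction k with
    | zero => simp
    | succ k ih =>
      have h1 : x (n + (k + 1)) - x n = (x (n + k + 1) - x (n + k)) + (x (n + k) - x n) := by
        rw [add_assoc]; ring
      rw [h1]
      refine (Valuation.map_add _ _ _).trans (max_le ((hx (n + k)).trans ?_) ih)
      rw [exp_le_exp]
      push_cast
      linarith [Int.natCast_nonneg k]
  have hc : CauchySeq x := by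
    rw [(Valued.hasBasis_uniformity L ℤᵐ⁰).cauchySeq_iff]
    intro γ _
    have h0 : MonoidWithZeroHom.ValueGroup₀.embedding (γ.1) ≠ (0 : ℤᵐ⁰) := by
      rw [Ne, map_eq_zero]
      exact γ.ne_zero
    obtain ⟨n, hn⟩ := exists_exp_lt h0
    refine ⟨n, fun a ha b hb => ?_⟩
    show Valued.v.restrict (x b - x a) < γ.1
    rw [Valuation.restrict_lt_iff_lt_embedding]
    refine lt_of_le_of_lt ?_ hn
    obtain ⟨ka, rfl⟩ := Nat.exists_eq_add_of_le ha
    obtain ⟨kb, rfl⟩ := Nat.exists_eq_add_of_le hb
    have h1 : x (n + kb) - x (n + ka) = (x (n + kb) - x n) - (x (n + ka) - x n) := by ring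
    rw [h1]
    exact (Valuation.map_sub _ _ _).trans (max_le (hmono n kb) (hmono n ka))
  obtain ⟨y, hy⟩ := cauchySeq_tendsto_of_complete hc
  refine ⟨y, fun n => ?_⟩
  have h1 : {z : L | Valued.v (z - y) ≤ exp (-(n : ℤ))} ∈ nhds y :=
    (mem_nhds_iff_exp hs).mpr ⟨n, subset_rfl⟩
  have h2 := hy h1
  rw [Filter.mem_map, Filter.mem_atTop_sets] at h2
  obtain ⟨m, hm⟩ := h2
  have h3 : Valued.v (x (n + m) - y) ≤ exp (-(n : ℤ)) := hm (n + m) (Nat.le_add_left _ _)
  have h4 : y - x n = -(x (n + m) - y) + (x (n + m) - x n) := by ring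
  rw [h4]
  refine (Valuation.map_add _ _ _).trans (max_le ?_ (hmono n m))
  rw [Valuation.map_neg]
  exact h3

end ValuedField

section Adic

variable {R : Type*} [CommRing R] [IsDedekindDomain R] {K : Type*} [Field K] [Algebra R K]
  [IsFractionRing R K] (w : HeightOneSpectrum R)

theorem adic_val (x : K) :
    Valued.v (algebraMap K (w.adicCompletion K) x) = w.valuation K x := by
  rw [HeightOneSpectrum.algebraMap_adicCompletion]
  exact HeightOneSpectrum.adicCompletion.valued_coe K w x

theorem adic_surj : Function.Surjective (Valued.v : w.adicCompletion K → ℤᵐ⁰) :=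
  HeightOneSpectrum.valuedAdicCompletion_surjective (K := K) w

theorem denseHom_adic :
    DenseHom (Valued.v : Valuation (w.adicCompletion K) ℤᵐ⁰)
      (algebraMap K (w.adicCompletion K)) := by
  intro x n
  have h1 : {y : w.adicCompletion K | Valued.v (y - x) ≤ exp (-(n : ℤ))} ∈ nhds x :=
    (mem_nhds_iff_exp (adic_surj w)).mpr ⟨n, subset_rfl⟩
  obtain ⟨y, hy⟩ :=
    ((HeightOneSpectrum.denseRange_algebraMap (K := K) w).inter_nhds_nonempty h1)
  obtain ⟨k, hk⟩ := hy.1
  refine ⟨k, ?_⟩
  rw [Valuation.map_sub_swap, hk]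
  exact hy.2

/-- An automorphism of `K` which preserves the `w`-adic valuation extends to the completion. -/
theorem exists_hat (s : K ≃+* K) (hs : ∀ x, w.valuation K (s x) = w.valuation K x) :
    ∃ sh : w.adicCompletion K ≃+* w.adicCompletion K,
      (∀ x : K, sh (algebraMap K _ x) = algebraMap K _ (s x)) ∧
      ∀ x, Valued.v (sh x) = Valued.v x := by
  have hcont : ∀ (s : K ≃+* K), (∀ x, w.valuation K (s x) = w.valuation K x) →
      Continuous (WithVal.congr (w.valuation K) (w.valuation K) s) := by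
    intro s hs
    apply continuous_of_continuousAt_zero (WithVal.congr (w.valuation K) (w.valuation K) s)
    intro S hS
    rw [map_zero, Valued.mem_nhds_zero] at hS
    obtain ⟨γ, hγ⟩ := hS
    rw [Filter.mem_map, Valued.mem_nhds_zero]
    refine ⟨γ, fun x hx => hγ ?_⟩
    have h1 : (Valued.v : Valuation (WithVal (w.valuation K)) ℤᵐ⁰).restrict
        (WithVal.congr (w.valuation K) (w.valuation K) s x) =
        (Valued.v : Valuation (WithVal (w.valuation K)) ℤᵐ⁰).restrict x := by
      rw [Valuation.restrict_inj]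
      exact hs _
    show (Valued.v : Valuation (WithVal (w.valuation K)) ℤᵐ⁰).restrict _ < γ.1
    rw [h1]
    exact hx
  have hs' : ∀ x, w.valuation K (s.symm x) = w.valuation K x := by
    intro x
    rw [← hs (s.symm x), s.apply_symm_apply]
  let f := UniformSpace.Completion.mapRingEquiv (WithVal.congr (w.valuation K) (w.valuation K) s)
    (hcont s hs) (hcont s.symm hs')
  have hf : Continuous f := UniformSpace.Completion.continuous_map
  let sh : w.adicCompletion K ≃+* w.adicCompletion K :=
    ((HeightOneSpectrum.adicCompletion.equiv K w).trans f).trans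
      (HeightOneSpectrum.adicCompletion.equiv K w).symm
  have hsh : Continuous sh := by
    refine (HeightOneSpectrum.adicCompletion.continuous_ofCompletion K w).comp
      (hf.comp (HeightOneSpectrum.adicCompletion.continuous_toCompletion K w))
  have h1 : ∀ x : K, sh (algebraMap K _ x) = algebraMap K _ (s x) := by
    intro x
    rw [HeightOneSpectrum.algebraMap_adicCompletion]
    apply HeightOneSpectrum.adicCompletion.ext
    show f (_ : (w.valuation K).Completion) = _
    have h2 : UniformContinuous (WithVal.congr (w.valuation K) (w.valuation K) s) :=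
      uniformContinuous_addMonoidHom_of_continuous (f :=
        ((WithVal.congr (w.valuation K) (w.valuation K) s : WithVal (w.valuation K) →+*
          WithVal (w.valuation K)) : WithVal (w.valuation K) →+ WithVal (w.valuation K)))
        (hcont s hs)
    exact UniformSpace.Completion.map_coe h2 (WithVal.toVal (w.valuation K) x)
  refine ⟨sh, h1, ?_⟩
  intro x
  by_cases hx : x = 0
  · rw [hx, map_zero]
  have hx1 : Valued.v x ≠ (0 : ℤᵐ⁰) := (Valuation.ne_zero_iff _).mpr hx
  have hx2 : Valued.v (sh x) ≠ (0 : ℤᵐ⁰) :=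
    (Valuation.ne_zero_iff _).mpr ((map_ne_zero_iff sh sh.injective).mpr hx)
  have h3 : {y : w.adicCompletion K | Valued.v y = (Valued.v x : ℤᵐ⁰)} ∈ nhds x :=
    Valued.locally_const hx1
  have h4 : {y : w.adicCompletion K | Valued.v (sh y) = (Valued.v (sh x) : ℤᵐ⁰)} ∈ nhds x :=
    hsh.continuousAt (Valued.locally_const hx2)
  obtain ⟨y, hy⟩ := ((HeightOneSpectrum.denseRange_algebraMap (K := K) w).inter_nhds_nonempty
    (Filter.inter_mem h3 h4))
  obtain ⟨k, hk⟩ := hy.1
  have h5 : Valued.v y = (Valued.v x : ℤᵐ⁰) := hy.2.1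
  have h6 : Valued.v (sh y) = (Valued.v (sh x) : ℤᵐ⁰) := hy.2.2
  rw [← h5, ← h6, ← hk, h1, adic_val, adic_val, hs]

theorem compl3_adic : Compl3 (Valued.v : Valuation (w.adicCompletion K) ℤᵐ⁰) :=
  compl3_of_complete (adic_surj w)

/-- The complete local object at a nonsplit place. -/
theorem exists_hat3 (s : K ≃+* K) (hs : ∀ x, w.valuation K (s x) = w.valuation K x)
    (hs3 : ∀ x, s (s (s x)) = x) :
    ∃ sh : w.adicCompletion K ≃+* w.adicCompletion K,
      (∀ x : K, sh (algebraMap K _ x) = algebraMap K _ (s x)) ∧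
      (∀ x, Valued.v (sh x) = Valued.v x) ∧ ∀ x, sh (sh (sh x)) = x := by
  obtain ⟨sh, h1, h2⟩ := exists_hat w s hs
  refine ⟨sh, h1, h2, ?_⟩
  have h3 : (fun x => sh (sh (sh x))) = (fun x => x) := by
    refine hom_unique (denseHom_adic w) (fun x y => ?_) (fun x y => le_rfl) (fun k => ?_)
    · show Valued.v (sh (sh (sh x)) - sh (sh (sh y))) ≤ _
      rw [← map_sub, ← map_sub, ← map_sub, h2, h2, h2]
    · show sh (sh (sh _)) = _
      rw [h1, h1, h1, hs3]
  exact fun x => congrFun h3 x

end Adic

end Fermat.Agent.H92T
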