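import Mathlib
import Fermat.Agent.H10T2
import Fermat.Agent.H92T2
import Fermat.Agent.H65S4

/-!
# S47, block (C), C-TR / C13 (helper10): completeness of the fixed field, the self-dual normal basis data
`NB` and the level data `Lev` of helper65 over the valuation ring of the fixed field
-/

set_option autoImplicit false

noncomputable section

namespace Fermat.Agent.H10T

open WithZero
open Fermat.Agent.H92T (DenseHom fixF mem_fixF Compl3)
open Fermat.Agent.H65.S47 (CM NB)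

/-! ## Completeness -/

section compl

variable {L : Type*} [Field L] {v : Valuation L ℤᵐ⁰} {σ : L ≃+* L}

/-- The fixed field of an isometric automorphism is complete. -/
theorem compl3_fix (hC : Compl3 v) (hσ : ∀ x, v (σ x) = v x) :
    Compl3 (v.comap (fixF σ).subtype) := by
  intro x hx
  obtain ⟨y, hy⟩ := hC (fun n => (x n : L)) hx
  have hfix : σ y = y := by
    apply H92T.eq_of_small v
    intro n
    have h1 : σ y - y = σ (y - x n) - (y - x n) := by
      rw [map_sub, show σ (x n : L) = x n from (x n).2]; ring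
    rw [h1]
    refine (Valuation.map_sub _ _ _).trans (max_le ?_ (hy n))
    rw [hσ]
    exact hy n
  exact ⟨⟨y, hfix⟩, hy⟩

theorem le_exp_neg_one {x : ℤᵐ⁰} (hx : x < 1) : x ≤ exp (-1 : ℤ) := by
  by_cases h0 : x = 0
  · rw [h0]; exact zero_le
  · rw [← exp_log h0] at hx ⊢
    rw [← exp_zero, exp_lt_exp] at hx
    rw [exp_le_exp]
    omega

variable {k : Type*} [Field k] {u : Valuation k ℤᵐ⁰}

theorem pow_le_exp {x : ℤᵐ⁰} (hx : x < 1) (n : ℕ) : x ^ n ≤ exp (-(n : ℤ)) := by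
  refine (pow_le_pow_left₀ zero_le (le_exp_neg_one hx) n).trans ?_
  rw [← WithZero.exp_nsmul]
  simp

/-- The valuation ring of a complete field is complete in the sense of `CM`. -/
theorem cm_valuationSubring (hC : Compl3 u) (π : u.valuationSubring) (h0 : (π : k) ≠ 0)
    (h1 : u (π : k) < 1) : CM π u.valuationSubring := by
  have hv0 : u (π : k) ≠ 0 := (Valuation.ne_zero_iff _).2 h0
  have hmem : ∀ (n : ℕ) (z : k), u z ≤ u (π : k) ^ n →
      ∃ y : u.valuationSubring, z = (π : k) ^ n * (y : k) := by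
    intro n z hz
    refine ⟨⟨z / (π : k) ^ n, ?_⟩, ?_⟩
    · rw [Valuation.mem_valuationSubring_iff, map_div₀, map_pow]
      exact div_le_one_of_le₀ hz zero_le
    · have : (π : k) ^ n ≠ 0 := pow_ne_zero _ h0
      show z = (π : k) ^ n * (z / (π : k) ^ n)
      field_simp
  refine ⟨?_, ?_⟩
  · intro x hx
    have hstep : ∀ n, u ((x (n + 1) : k) - x n) ≤ u (π : k) ^ n := by
      intro n
      obtain ⟨y, hy⟩ := hx n
      have h2 : (x (n + 1) : k) - x n = (π : k) ^ n * (y : k) := by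
        have := congrArg (fun z : u.valuationSubring => (z : k)) hy
        simpa [smul_eq_mul] using this
      rw [h2, map_mul, map_pow]
      exact (mul_le_mul' le_rfl ((Valuation.mem_valuationSubring_iff _ _).1 y.2)).trans_eq
        (mul_one _)
    obtain ⟨l, hl⟩ := hC (fun n => (x n : k)) (fun n => (hstep n).trans (pow_le_exp h1 n))
    have hdiff : ∀ n m, u ((x (n + m) : k) - x n) ≤ u (π : k) ^ n := by
      intro n m
      induction m with
      | zero => simp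
      | succ m ih =>
        have h2 : (x (n + (m + 1)) : k) - x n =
            ((x (n + m + 1) : k) - x (n + m)) + ((x (n + m) : k) - x n) := by
          rw [← add_assoc]; ring
        rw [h2]
        refine (Valuation.map_add _ _ _).trans (max_le ((hstep _).trans ?_) ih)
        rw [pow_add]
        exact (mul_le_mul' le_rfl (pow_le_one₀ zero_le h1.le)).trans_eq (mul_one _)
    have hlim : ∀ n, u (l - x n) ≤ u (π : k) ^ n := by
      intro n
      -- choose `m` with `exp (-m) ≤ u π ^ n`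
      obtain ⟨e, he⟩ := H92T.exists_exp_le' u h0
      have h2 : exp (-((n + n * e : ℕ) : ℤ)) ≤ u (π : k) ^ n := by
        refine le_trans ?_ (pow_le_pow_left₀ zero_le he n)
        rw [← WithZero.exp_nsmul, exp_le_exp]
        push_cast
        rw [nsmul_eq_mul]
        have : (0 : ℤ) ≤ (n : ℤ) := Int.natCast_nonneg n
        linarith
      have h3 : l - (x n : k) = (l - x (n + n * e)) + ((x (n + n * e) : k) - x n) := by ring
      rw [h3]
      exact (Valuation.map_add _ _ _).trans (max_le ((hl _).trans h2) (hdiff n (n * e)))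
    have hlO : u l ≤ 1 := by
      have h2 : l = (l - x 0) + x 0 := by ring
      rw [h2]
      refine (Valuation.map_add _ _ _).trans (max_le ((hlim 0).trans (by simp)) ?_)
      exact (Valuation.mem_valuationSubring_iff _ _).1 (x 0).2
    refine ⟨⟨l, hlO⟩, fun n => ?_⟩
    obtain ⟨y, hy⟩ := hmem n _ (hlim n)
    refine ⟨y, Subtype.ext ?_⟩
    simpa [smul_eq_mul] using hy
  · intro x hx
    apply Subtype.ext
    apply H92T.eq_zero_of_small u
    intro n
    obtain ⟨y, hy⟩ := hx n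
    have h2 : (x : k) = (π : k) ^ n * (y : k) := by
      have := congrArg (fun z : u.valuationSubring => (z : k)) hy
      simpa [smul_eq_mul] using this
    show u (x : k) ≤ _
    rw [h2, map_mul, map_pow]
    refine (mul_le_mul' (pow_le_exp h1 n) ((Valuation.mem_valuationSubring_iff _ _).1 y.2)).trans_eq
      (mul_one _)

end compl

/-! ## The self-dual normal basis -/

section nb

variable {L : Type*} [Field L] (v : Valuation L ℤᵐ⁰) {σ : L ≃+* L}

/-- The valuation ring of the fixed field. -/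
abbrev OF (v : Valuation L ℤᵐ⁰) (σ : L ≃+* L) : ValuationSubring (fixF σ) :=
  (v.comap (fixF σ).subtype).valuationSubring

/-- `σ` as an algebra automorphism over its fixed field. -/
def sAlg (σ : L ≃+* L) : L ≃ₐ[fixF σ] L :=
  AlgEquiv.ofRingEquiv (f := σ) (fun x => x.2)

@[simp] theorem sAlg_apply (σ : L ≃+* L) (x : L) : sAlg σ x = σ x := rfl

/-- The trace to the fixed field. -/
def trL (hσ3 : ∀ x, σ (σ (σ x)) = x) : L →ₗ[fixF σ] fixF σ where
  toFun x := ⟨x + σ x + σ (σ x), by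
    rw [mem_fixF, map_add, map_add, hσ3]; ring⟩
  map_add' x y := by
    apply Subtype.ext
    show (x + y) + σ (x + y) + σ (σ (x + y)) = _
    simp only [map_add, Subfield.coe_add]
    ring
  map_smul' c x := by
    apply Subtype.ext
    have hc : σ (c : L) = c := c.2
    show ((c : L) * x) + σ ((c : L) * x) + σ (σ ((c : L) * x)) = (c : L) * (x + σ x + σ (σ x))
    simp only [map_mul, hc]
    ring

theorem trL_coe (hσ3 : ∀ x, σ (σ (σ x)) = x) (x : L) :
    ((trL hσ3 x : fixF σ) : L) = x + σ x + σ (σ x) := rfl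

/-- The self-dual normal basis generator attached to a Kummer generator. -/
def eKum (α : L) : L := (1 + α + α⁻¹) / 3

variable {α ζ : L}

theorem sigma_e (hζ : ζ ^ 2 + ζ + 1 = 0) (hα : σ α = ζ * α) :
    σ (eKum α) = (1 + ζ * α + ζ ^ 2 * α⁻¹) / 3 := by
  have hz : ζ ^ 2 = ζ⁻¹ := by
    have h3 : ζ * ζ ^ 2 = 1 := by linear_combination (ζ - 1) * hζ
    exact eq_inv_of_mul_eq_one_right h3
  unfold eKum
  rw [map_div₀, map_add, map_add, map_one, map_ofNat, map_inv₀, hα, mul_inv, hz]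

theorem sigma_sigma_e (hζ : ζ ^ 2 + ζ + 1 = 0) (hζσ : σ ζ = ζ) (hα : σ α = ζ * α) :
    σ (σ (eKum α)) = (1 + ζ ^ 2 * α + ζ * α⁻¹) / 3 := by
  have hz : ζ ^ 2 = ζ⁻¹ := by
    have h3 : ζ * ζ ^ 2 = 1 := by linear_combination (ζ - 1) * hζ
    exact eq_inv_of_mul_eq_one_right h3
  have hz4 : ζ ^ 2 * ζ⁻¹ = ζ := by
    have hz0 : ζ ≠ 0 := by
      rintro rfl
      simp at hζ
    field_simp
  rw [sigma_e hζ hα, map_div₀, map_add, map_add, map_one, map_ofNat, map_mul, map_mul, map_inv₀,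
    map_pow, hζσ, hα, mul_inv]
  congr 1
  rw [show ζ ^ 2 * (ζ⁻¹ * α⁻¹) = (ζ ^ 2 * ζ⁻¹) * α⁻¹ by ring, hz4]
  ring

theorem e_sum (h3 : (3 : L) ≠ 0) (hζ : ζ ^ 2 + ζ + 1 = 0) (hζσ : σ ζ = ζ) (hα : σ α = ζ * α) :
    eKum α + σ (eKum α) + σ (σ (eKum α)) = 1 := by
  rw [sigma_sigma_e hζ hζσ hα, sigma_e hζ hα, eKum]
  have h : (1 + α + α⁻¹) / 3 + (1 + ζ * α + ζ ^ 2 * α⁻¹) / 3 + (1 + ζ ^ 2 * α + ζ * α⁻¹) / 3 =
      ((1 + α + α⁻¹) + (1 + ζ * α + ζ ^ 2 * α⁻¹) + (1 + ζ ^ 2 * α + ζ * α⁻¹)) / 3 := by ring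
  rw [h, div_eq_iff h3]
  linear_combination (α + α⁻¹) * hζ

theorem e_prod (hα0 : α ≠ 0) (hζ : ζ ^ 2 + ζ + 1 = 0) (hζσ : σ ζ = ζ)
    (hα : σ α = ζ * α) :
    eKum α * σ (eKum α) + σ (eKum α) * σ (σ (eKum α)) + σ (σ (eKum α)) * eKum α = 0 := by
  rw [sigma_sigma_e hζ hζσ hα, sigma_e hζ hα, eKum]
  have hab : α * α⁻¹ = 1 := mul_inv_cancel₀ hα0
  linear_combination ((2 * (α + α⁻¹) + ζ * (α ^ 2 + α⁻¹ ^ 2) + α * α⁻¹ * (3 + ζ ^ 2 - ζ)) / 3 / 3) *
    hζ - (3 / 3 / 3) * hab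

/-- A Kummer generator for `σ`. -/
structure Kum (σ : L ≃+* L) (α ζ : L) : Prop where
  σ3 : ∀ x, σ (σ (σ x)) = x
  three : (3 : L) ≠ 0
  ne : α ≠ 0
  zeta : ζ ^ 2 + ζ + 1 = 0
  fix : σ ζ = ζ
  act : σ α = ζ * α

theorem Kum.zeta_ne_one (h : Kum σ α ζ) : ζ ≠ 1 := by
  rintro rfl
  apply h.three
  linear_combination h.zeta

theorem Kum.nontrivial (h : Kum σ α ζ) : ∃ x, σ x ≠ x := by
  refine ⟨α, fun h1 => h.zeta_ne_one ?_⟩
  rw [h.act] at h1
  exact mul_right_cancel₀ h.ne (h1.trans (one_mul α).symm)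

/-- The three vectors of the basis. -/
def bas (σ : L ≃+* L) (α : L) : Fin 3 → L := ![eKum α, σ (eKum α), σ (σ (eKum α))]

/-- The structure constants are bounded. -/
theorem exists_bound (hσ3 : ∀ x, σ (σ (σ x)) = x) (α : L) {π : fixF σ} (hπ : v (π : L) < 1) :
    ∃ c0 : ℕ, ∀ c, c0 ≤ c → ∀ i j l, (v.comap (fixF σ).subtype)
      (π ^ c * trL hσ3 (bas σ α i * bas σ α j * bas σ α l)) ≤ 1 := by
  choose M hM using fun (p : Fin 3 × Fin 3 × Fin 3) => H92T.exists_le_exp' v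
    ((trL hσ3 (bas σ α p.1 * bas σ α p.2.1 * bas σ α p.2.2) : fixF σ) : L)
  refine ⟨Finset.univ.sup M, fun c hc i j l => ?_⟩
  have h1 := hM (i, j, l)
  have h2 : M (i, j, l) ≤ c := (Finset.le_sup (f := M) (Finset.mem_univ (i, j, l))).trans hc
  rw [Valuation.comap_apply, map_mul, map_mul, map_pow, map_pow]
  calc v (π : L) ^ c * v ((trL hσ3 (bas σ α i * bas σ α j * bas σ α l) : fixF σ) : L)
      ≤ exp (-(c : ℤ)) * exp (M (i, j, l) : ℤ) := mul_le_mul' (pow_le_exp hπ c) h1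
    _ ≤ 1 := by
      rw [← exp_add, ← exp_zero, exp_le_exp]
      have : ((M (i, j, l) : ℕ) : ℤ) ≤ (c : ℤ) := by exact_mod_cast h2
      linarith

/-- The self-dual normal basis data of helper65. -/
def nb (h : Kum σ α ζ) (π : OF v σ) (c : ℕ)
    (hc : ∀ i j l, (v.comap (fixF σ).subtype)
      (((π : fixF σ)) ^ c * trL h.σ3 (bas σ α i * bas σ α j * bas σ α l)) ≤ 1) :
    NB (OF v σ) (fixF σ) L where
  s := sAlg σ
  s3 := h.σ3
  T := trL h.σ3
  hT _ := rfl
  e := eKum α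
  he1 := e_sum h.three h.zeta h.fix h.act
  he2 := e_prod h.ne h.zeta h.fix h.act
  π := π
  c := c
  C i j l := ⟨((π : fixF σ)) ^ c * trL h.σ3 (bas σ α i * bas σ α j * bas σ α l), hc i j l⟩
  hC _ _ _ := rfl

@[simp] theorem nb_s (h : Kum σ α ζ) (π : OF v σ) (c : ℕ) (hc) (x : L) :
    (nb v h π c hc).s x = σ x := rfl

@[simp] theorem nb_e (h : Kum σ α ζ) (π : OF v σ) (c : ℕ) (hc) : (nb v h π c hc).e = eKum α := rfl

@[simp] theorem nb_π (h : Kum σ α ζ) (π : OF v σ) (c : ℕ) (hc) : (nb v h π c hc).π = π := rfl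

@[simp] theorem nb_c (h : Kum σ α ζ) (π : OF v σ) (c : ℕ) (hc) : (nb v h π c hc).c = c := rfl

theorem nb_T (h : Kum σ α ζ) (π : OF v σ) (c : ℕ) (hc) (x : L) :
    ((((nb v h π c hc).T x : fixF σ)) : L) = x + σ x + σ (σ x) := rfl

/-- The level data of helper65. -/
theorem exists_lev (hC : Compl3 v) (hσ : ∀ x, v (σ x) = v x) (h : Kum σ α ζ) (π : OF v σ)
    (h0 : π ≠ 0) (h1 : v ((π : fixF σ) : L) < 1) (c : ℕ) (hc) :
    ∃ k0 : ℕ, ∀ k, k0 ≤ k → ∃ r : OF v σ, (nb v h π c hc).Lev k r := by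
  have hNfix : σ (eKum α * σ (eKum α) * σ (σ (eKum α))) = eKum α * σ (eKum α) * σ (σ (eKum α)) := by
    rw [map_mul, map_mul, h.σ3]; ring
  obtain ⟨M, hM⟩ := H92T.exists_le_exp' v (eKum α * σ (eKum α) * σ (σ (eKum α)))
  refine ⟨max (c + 1) M, fun k hk => ?_⟩
  have hk1 : c + 1 ≤ k := (le_max_left _ _).trans hk
  have hk2 : M ≤ k := (le_max_right _ _).trans hk
  have hr : (v.comap (fixF σ).subtype) ((π : fixF σ) ^ k *
      ⟨eKum α * σ (eKum α) * σ (σ (eKum α)), hNfix⟩) ≤ 1 := by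
    rw [Valuation.comap_apply, map_mul, map_mul, map_pow, map_pow]
    calc _ ≤ exp (-(k : ℤ)) * exp (M : ℤ) := mul_le_mul' (pow_le_exp h1 k) hM
      _ ≤ 1 := by
        rw [← exp_add, ← exp_zero, exp_le_exp]
        have : (M : ℤ) ≤ (k : ℤ) := by exact_mod_cast hk2
        linarith
  have hπF : ((π : fixF σ)) ≠ 0 := fun h2 => h0 (Subtype.ext h2)
  refine ⟨⟨_, hr⟩, ?_, h0, ⟨k - (c + 1), ?_⟩, ?_, ?_⟩
  · exact cm_valuationSubring (compl3_fix hC hσ) π hπF h1
  · show k = c + (k - (c + 1) + 1)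
    omega
  · show ((((π : fixF σ) ^ k * ⟨eKum α * σ (eKum α) * σ (σ (eKum α)), hNfix⟩ : fixF σ)) : L) =
      (((((π ^ k : OF v σ) : fixF σ)) : L)) * (eKum α * σ (eKum α) * σ (σ (eKum α)))
    push_cast
    rfl
  · intro z hz hN
    obtain ⟨μ, hμ, he⟩ := hilbert90 h.σ3 h.nontrivial (u := z) (by simpa using hN)
    exact ⟨μ, hμ.isUnit, he.symm⟩

end nb

/-! ## Value groups -/

section value

variable {E L F : Type*} [Field E] [Field L] [Field F] {j : E →+* L} {v : Valuation L ℤᵐ⁰}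

/-- Elements of the completion have the valuations of elements of the dense subfield. -/
theorem exists_val_eq (hd : DenseHom v j) {x : L} (hx : x ≠ 0) :
    ∃ a : E, a ≠ 0 ∧ v (j a) = v x := by
  obtain ⟨a, ha, -, h⟩ := hd.exists_mul hx 0
  exact ⟨a, ha, h⟩

/-- The values of the fixed field are the values of `F`. -/
theorem exists_val_eq_fix {σ : L ≃+* L} {i : F →+* E} {hfix : ∀ f, σ (j (i f)) = j (i f)}
    (hd : DenseHom (v.comap (fixF σ).subtype) (toFix j σ i hfix)) {x : L} (hx : σ x = x)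
    (hx0 : x ≠ 0) : ∃ f : F, f ≠ 0 ∧ v (j (i f)) = v x :=
  exists_val_eq hd (x := (⟨x, hx⟩ : fixF σ)) (fun h => hx0 (congrArg Subtype.val h))

end value

end Fermat.Agent.H10T
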