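import Mathlib
import Fermat.Agent.H10T3
import Fermat.Agent.H10T4

/-!
# S47, block (C), C-TR (helper10): value groups at a place `w` over `v`
-/

set_option autoImplicit false

noncomputable section

namespace Fermat.Agent.H10T

open IsDedekindDomain HeightOneSpectrum WithZero
open Fermat.Agent.H92T (DenseHom fixF mem_fixF Compl3)

section AKLB

variable {A K : Type*} {L : Type*} {B : Type*}
variable [CommRing A] [IsDedekindDomain A] [CommRing B] [IsDedekindDomain B] [Algebra A B]
  [Module.IsTorsionFree A B]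
variable [Field K] [Field L] [Algebra K L]
variable [Algebra A K] [IsFractionRing A K] [Algebra A L] [IsScalarTower A K L]
variable [Algebra B L] [IsFractionRing B L] [IsScalarTower A B L]
variable (v : HeightOneSpectrum A) (w : HeightOneSpectrum B) [w.asIdeal.LiesOver v.asIdeal]

/-- Values of elements of `K` upstairs are powers of the value of a uniformiser. -/
theorem val_eq_zpow {ϖ : K} (hϖ : v.valuation K ϖ = exp (-1 : ℤ)) {f : K} (hf : f ≠ 0) :
    ∃ n : ℤ, w.valuation L (algebraMap K L f) = w.valuation L (algebraMap K L ϖ) ^ n := by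
  have h0 : v.valuation K f ≠ 0 := (Valuation.ne_zero_iff _).2 hf
  refine ⟨-log (v.valuation K f), ?_⟩
  rw [val_eq v w, val_eq v w, hϖ, ← zpow_natCast, ← zpow_natCast, ← zpow_mul, mul_comm, zpow_mul]
  congr 1
  conv_lhs => rw [← exp_log h0]
  rw [← WithZero.exp_zsmul]
  simp

/-- If the ramification index is one, the value groups agree. -/
theorem exists_val_eq_of_ram_one (he : v.asIdeal.ramificationIdx' w.asIdeal = 1) {x : L}
    (hx : x ≠ 0) : ∃ f : K, f ≠ 0 ∧ w.valuation L (algebraMap K L f) = w.valuation L x := by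
  have h0 : w.valuation L x ≠ 0 := (Valuation.ne_zero_iff _).2 hx
  obtain ⟨f, hf⟩ := v.valuation_surjective K (w.valuation L x)
  refine ⟨f, ?_, ?_⟩
  · rintro rfl
    rw [map_zero] at hf
    exact h0 hf.symm
  · rw [val_eq v w, he, pow_one, hf]

variable {Lh : Type*} [Field Lh] {j : L →+* Lh} {u : Valuation Lh ℤᵐ⁰}

/-- In a completion: the values of the fixed field of `σ` are powers of the value of a uniformiser
of `K`. -/
theorem val_fix_eq_zpow (hju : ∀ x, u (j x) = w.valuation L x) {σ : Lh ≃+* Lh}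
    {hfix : ∀ f, σ (j (algebraMap K L f)) = j (algebraMap K L f)}
    (hd : DenseHom (u.comap (fixF σ).subtype) (toFix j σ (algebraMap K L) hfix))
    {ϖ : K} (hϖ : v.valuation K ϖ = exp (-1 : ℤ)) {x : Lh} (hx : σ x = x) (hx0 : x ≠ 0) :
    ∃ n : ℤ, u x = u (j (algebraMap K L ϖ)) ^ n := by
  obtain ⟨f, hf, h⟩ := exists_val_eq_fix hd hx hx0
  obtain ⟨n, hn⟩ := val_eq_zpow (L := L) v w hϖ hf
  exact ⟨n, by rw [← h, hju, hju, hn]⟩

/-- In a completion with ramification index one every value is the value of an element of `K`. -/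
theorem exists_val_of_ram_one (hju : ∀ x, u (j x) = w.valuation L x) (hd : DenseHom u j)
    (he : v.asIdeal.ramificationIdx' w.asIdeal = 1) {x : Lh} (hx0 : x ≠ 0) :
    ∃ f : K, f ≠ 0 ∧ u (j (algebraMap K L f)) = u x := by
  obtain ⟨a, ha, h⟩ := exists_val_eq hd hx0
  obtain ⟨f, hf, h'⟩ := exists_val_eq_of_ram_one (K := K) v w he ha
  exact ⟨f, hf, by rw [hju, h', ← hju, h]⟩

end AKLB

end Fermat.Agent.H10T
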