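import Fermat.Agent.H10_RRCurve

/-!
# Coefficient operators of an acyclic lattice, and cyclicity (S25, job D3)
-/

set_option autoImplicit false
set_option linter.unusedSectionVars false
universe u v w
open Fermat.Agent.H25 TensorProduct

namespace Fermat.Agent.H10.Lat

section Coef

variable {A : Type u} [CommRing A] {M : Type v} [AddCommGroup M] [Module A M] (L : P1Lat A M)

/-- the decomposition `P = ⊕ τ^i V` -/
noncomputable def decP (h : IsCompl L.P L.Q) : L.P ≃ₗ[A] (ℕ →₀ L.K 1) :=
  (LinearEquiv.ofBijective (sumP L) (sumP_bijective L h)).symm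

/-- the `j`-th coefficient -/
noncomputable def coefP (h : IsCompl L.P L.Q) (j : ℕ) : L.P →ₗ[A] L.K 1 :=
  Finsupp.lapply j ∘ₗ (decP L h : L.P →ₗ[A] (ℕ →₀ L.K 1))

theorem coefP_apply (h : IsCompl L.P L.Q) (j : ℕ) (p : L.P) : coefP L h j p = decP L h p j := rfl

/-- multiplication by `τ` on `P` -/
noncomputable def tauP : L.P →ₗ[A] L.P :=
  ((L.τ : M →ₗ[A] M).restrict (p := L.P) (q := L.P) (fun x hx => L.τ_mem x hx))

@[simp] theorem coe_tauP (p : L.P) : ((tauP L p : L.P) : M) = L.τ p := rfl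

theorem coe_tauP_pow (i : ℕ) (p : L.P) : (((tauP L ^ i) p : L.P) : M) = (L.τ ^ i) (p : M) := by
  induction i generalizing p with
  | zero => simp
  | succ i ih =>
    rw [pow_succ, Module.End.mul_apply, ih, coe_tauP, pow_succ_apply]

/-- inclusion of `V` in `P` -/
noncomputable def inclV : L.K 1 →ₗ[A] L.P := Submodule.inclusion inf_le_left

@[simp] theorem coe_inclV (v : L.K 1) : ((inclV L v : L.P) : M) = v := rfl

variable (h : IsCompl L.P L.Q)

theorem decP_symm_single (i : ℕ) (v : L.K 1) :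
    (decP L h).symm (Finsupp.single i v) = (tauP L ^ i) (inclV L v) := by
  change sumP L _ = _
  apply Subtype.ext
  rw [coe_sumP, Finsupp.sum_single_index (by simp), coe_tauP_pow]
  rfl

theorem decP_pow_incl (i : ℕ) (v : L.K 1) :
    decP L h ((tauP L ^ i) (inclV L v)) = Finsupp.single i v := by
  rw [← decP_symm_single L h, LinearEquiv.apply_symm_apply]

/-- induction principle for elements of `P` -/
theorem P_induction {motive : L.P → Prop} (h : IsCompl L.P L.Q)
    (h0 : motive 0) (hadd : ∀ p q, motive p → motive q → motive (p + q))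
    (hs : ∀ (i : ℕ) (v : L.K 1), motive ((tauP L ^ i) (inclV L v))) (p : L.P) : motive p := by
  obtain ⟨f, rfl⟩ := (decP L h).symm.surjective p
  induction f using Finsupp.induction_linear with
  | zero => rw [map_zero]; exact h0
  | add f g hf hg => rw [map_add]; exact hadd _ _ hf hg
  | single i v => rw [decP_symm_single]; exact hs i v

theorem coefP_pow_incl (i j : ℕ) (v : L.K 1) :
    coefP L h j ((tauP L ^ i) (inclV L v)) = if i = j then v else 0 := by
  classical
  rw [coefP_apply, decP_pow_incl, Finsupp.single_apply]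

theorem coefP_incl (j : ℕ) (v : L.K 1) :
    coefP L h j (inclV L v) = if 0 = j then v else 0 := coefP_pow_incl L h 0 j v

theorem coefP_tauP_pow (i j : ℕ) (p : L.P) :
    coefP L h j ((tauP L ^ i) p) = if i ≤ j then coefP L h (j - i) p else 0 := by
  induction p using P_induction L h with
  | h0 => simp
  | hadd p q hp hq =>
    rw [map_add, map_add, hp, hq]
    split_ifs with hij
    · rw [map_add]
    · rw [add_zero]
  | hs l v =>
    rw [← Module.End.mul_apply, ← pow_add, coefP_pow_incl, coefP_pow_incl]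
    by_cases hij : i ≤ j
    · rw [if_pos hij]
      by_cases hl : i + l = j
      · rw [if_pos hl, if_pos (by omega)]
      · rw [if_neg hl, if_neg (by omega)]
    · rw [if_neg hij, if_neg (by omega)]

theorem eq_sum_coefP (p : L.P) :
    p = (decP L h p).sum fun i v => (tauP L ^ i) (inclV L v) := by
  conv_lhs => rw [← (decP L h).symm_apply_apply p]
  conv_lhs => rw [← Finsupp.sum_single (decP L h p)]
  rw [Finsupp.sum, map_sum]
  exact Finset.sum_congr rfl fun i _ => decP_symm_single L h _ _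

theorem ext_coefP {p q : L.P} (hpq : ∀ j, coefP L h j p = coefP L h j q) : p = q := by
  apply (decP L h).injective
  ext1 j
  exact hpq j

/-- coefficient operators of a `τ`-linear endomorphism -/
noncomputable def cop (φ : L.P →ₗ[A] L.P) (j : ℕ) : L.K 1 →ₗ[A] L.K 1 :=
  coefP L h j ∘ₗ φ ∘ₗ inclV L

theorem cop_apply (φ : L.P →ₗ[A] L.P) (j : ℕ) (v : L.K 1) :
    cop L h φ j v = coefP L h j (φ (inclV L v)) := rfl

theorem comm_pow {φ : L.P →ₗ[A] L.P} (hφ : ∀ p, φ (tauP L p) = tauP L (φ p)) (i : ℕ) (p : L.P) :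
    φ ((tauP L ^ i) p) = (tauP L ^ i) (φ p) := by
  induction i generalizing p with
  | zero => simp
  | succ i ih =>
    rw [pow_succ, Module.End.mul_apply, ih, hφ, ← Module.End.mul_apply]

/-- the convolution formula -/
theorem coefP_apply_eq {φ : L.P →ₗ[A] L.P} (hφ : ∀ p, φ (tauP L p) = tauP L (φ p)) (j : ℕ)
    (p : L.P) :
    coefP L h j (φ p) = ∑ x ∈ Finset.HasAntidiagonal.antidiagonal j, cop L h φ x.1 (coefP L h x.2 p) := by
  induction p using P_induction L h with
  | h0 => simp
  | hadd p q hp hq =>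
    rw [map_add, map_add, hp, hq, ← Finset.sum_add_distrib]
    exact Finset.sum_congr rfl fun x _ => by rw [map_add, map_add]
  | hs l v =>
    rw [comm_pow L hφ, coefP_tauP_pow]
    by_cases hl : l ≤ j
    · rw [if_pos hl, Finset.sum_eq_single (j - l, l)]
      · simp only
        rw [coefP_pow_incl, if_pos rfl]
        rfl
      · rintro ⟨a, b⟩ hab hne
        rw [Finset.HasAntidiagonal.mem_antidiagonal] at hab
        simp only at hab ⊢
        rw [coefP_pow_incl, if_neg, map_zero]
        rintro rfl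
        exact hne (by ext <;> simp; omega)
      · intro hnot
        exact absurd (Finset.HasAntidiagonal.mem_antidiagonal.mpr (by simp; omega)) hnot
    · rw [if_neg hl, Finset.sum_eq_zero]
      rintro ⟨a, b⟩ hab
      rw [Finset.HasAntidiagonal.mem_antidiagonal] at hab
      simp only at hab ⊢
      rw [coefP_pow_incl, if_neg (by omega), map_zero]

theorem cop_comp {φ ψ : L.P →ₗ[A] L.P} (hφ : ∀ p, φ (tauP L p) = tauP L (φ p)) (j : ℕ) :
    cop L h (φ ∘ₗ ψ) j = ∑ x ∈ Finset.HasAntidiagonal.antidiagonal j, cop L h φ x.1 ∘ₗ cop L h ψ x.2 := by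
  ext1 v
  rw [cop_apply, LinearMap.comp_apply, coefP_apply_eq L h hφ, LinearMap.sum_apply]
  rfl

theorem cop_add (φ ψ : L.P →ₗ[A] L.P) (j : ℕ) :
    cop L h (φ + ψ) j = cop L h φ j + cop L h ψ j := by
  ext1 v
  rw [cop_apply, LinearMap.add_apply, map_add]
  rfl

theorem cop_smul (a : A) (φ : L.P →ₗ[A] L.P) (j : ℕ) :
    cop L h (a • φ) j = a • cop L h φ j := by
  ext1 v
  rw [cop_apply, LinearMap.smul_apply, map_smul]
  rfl

theorem cop_one (j : ℕ) : cop L h LinearMap.id j = if 0 = j then LinearMap.id else 0 := by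
  ext1 v
  rw [cop_apply, LinearMap.id_apply, coefP_incl]
  split_ifs <;> rfl

theorem cop_tau (j : ℕ) : cop L h (tauP L) j = if 1 = j then LinearMap.id else 0 := by
  ext1 v
  have := coefP_pow_incl L h 1 j v
  rw [pow_one] at this
  rw [cop_apply, this]
  split_ifs <;> rfl

/-- degree bound -/
theorem cop_eq_zero {φ : L.P →ₗ[A] L.P} {m : ℕ}
    (hφ : ∀ v : L.K 1, (φ (inclV L v) : M) ∈ L.Qm (m + 1)) {j : ℕ} (hj : m < j) :
    cop L h φ j = 0 := by
  ext1 v
  rw [cop_apply, LinearMap.zero_apply]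
  have h1 : ((decP L h (φ (inclV L v))).mapDomain (Nat.cast : ℕ → ℤ)) =
      ((decP L h (φ (inclV L v))).mapDomain (Nat.cast : ℕ → ℤ)) := rfl
  -- apply `τ^{-(m+1)}`
  let f := decP L h (φ (inclV L v))
  have hf : sumP L f = φ (inclV L v) := (decP L h).symm_apply_apply _
  have h2 : sumZ L (L.K 1) (f.mapDomain (Nat.cast : ℕ → ℤ)) = φ (inclV L v) := by
    rw [← sumP_eq_sumZ, hf]
  have h3 : (L.τ ^ (-((m + 1 : ℕ) : ℤ))) (sumZ L (L.K 1) (f.mapDomain (Nat.cast : ℕ → ℤ))) ∈
      L.Q := by
    rw [h2, ← symm_pow_eq, ← mem_Qm]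
    exact hφ v
  have h4 := sumZ_mapDomain L (L.K 1) (-((m + 1 : ℕ) : ℤ)) (f.mapDomain (Nat.cast : ℕ → ℤ))
  rw [← h4, mem_Q_iff_sumZ L h, ← Finsupp.mapDomain_comp] at h3
  by_contra hne
  have hne' : f j ≠ 0 := hne
  have hinj : Function.Injective ((fun i : ℤ => -((m + 1 : ℕ) : ℤ) + i) ∘ (Nat.cast : ℕ → ℤ)) := by
    intro a b hab
    simp only [Function.comp_apply] at hab
    omega
  have h5 : (-((m + 1 : ℕ) : ℤ) + (j : ℤ)) ∈ (Finsupp.mapDomain
      ((fun i : ℤ => -((m + 1 : ℕ) : ℤ) + i) ∘ (Nat.cast : ℕ → ℤ)) f).support := by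
    rw [Finsupp.mem_support_iff]
    have := Finsupp.mapDomain_apply hinj f j
    simp only [Function.comp_apply] at this
    rw [this]
    exact hne'
  have h6 := h3 _ h5
  push_cast at h6
  omega

end Coef

/-! ### Multiplication operators -/

section Mul

variable {A : Type u} [CommRing A] {R0 R1 R01 : Type u} [CommRing R0] [CommRing R1] [CommRing R01]
  [Algebra A R0] [Algebra A R1] [Algebra R0 R01] [Algebra R1 R01]
  {M : Type v} [AddCommGroup M] [Module A M] [Module R0 M] [Module R1 M] [Module R01 M]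
  [IsScalarTower A R0 M] [IsScalarTower A R1 M]
  [IsScalarTower R0 R01 M] [IsScalarTower R1 R01 M]
  {t : R0} {s : R1} (hts : algebraMap R0 R01 t * algebraMap R1 R01 s = 1)
  {P : Submodule R0 M} {Q : Submodule R1 M} {hP : ∀ x : M, ∃ n : ℕ, t ^ n • x ∈ P}
  {hQ : ∀ x : M, ∃ n : ℕ, s ^ n • x ∈ Q}

/-- multiplication by `r ∈ R0` on `P` -/
noncomputable def mulP (r : R0) : (latOf A (R01 := R01) hts P Q hP hQ).P →ₗ[A]
    (latOf A (R01 := R01) hts P Q hP hQ).P where
  toFun p := ⟨r • (p : M), P.smul_mem r p.2⟩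
  map_add' x y := Subtype.ext (smul_add _ _ _)
  map_smul' a x := Subtype.ext (by
    change r • (a • (x : M)) = a • (r • (x : M))
    rw [← algebraMap_smul R0 a (x : M), ← algebraMap_smul R0 a (r • (x : M)), smul_smul,
      smul_smul, mul_comm])

@[simp] theorem coe_mulP (r : R0) (p : (latOf A (R01 := R01) hts P Q hP hQ).P) :
    (mulP (A := A) hts (P := P) (Q := Q) (hP := hP) (hQ := hQ) r p : M) = r • (p : M) := rfl

theorem mulP_tauP (r : R0) (p : (latOf A (R01 := R01) hts P Q hP hQ).P) :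
    mulP (A := A) hts (P := P) (Q := Q) (hP := hP) (hQ := hQ) r (tauP _ p) =
      tauP _ (mulP (A := A) hts r p) := by
  apply Subtype.ext
  change r • (t • (p : M)) = t • (r • (p : M))
  rw [smul_smul, smul_smul, mul_comm]

theorem mulP_mul (r r' : R0) : mulP (A := A) hts (P := P) (Q := Q) (hP := hP) (hQ := hQ) (r * r') =
    mulP (A := A) hts r ∘ₗ mulP (A := A) hts r' := by
  ext1 p
  apply Subtype.ext
  exact mul_smul r r' (p : M)

theorem mulP_add (r r' : R0) : mulP (A := A) hts (P := P) (Q := Q) (hP := hP) (hQ := hQ) (r + r') =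
    mulP (A := A) hts r + mulP (A := A) hts r' := by
  ext1 p
  apply Subtype.ext
  exact add_smul r r' (p : M)

theorem mulP_one : mulP (A := A) hts (P := P) (Q := Q) (hP := hP) (hQ := hQ) (1 : R0) =
    LinearMap.id := by
  ext1 p
  apply Subtype.ext
  exact one_smul R0 (p : M)

theorem mulP_smul (a : A) (r : R0) :
    mulP (A := A) hts (P := P) (Q := Q) (hP := hP) (hQ := hQ) (a • r) =
    a • mulP (A := A) hts r := by
  ext1 p
  apply Subtype.ext
  exact smul_assoc a r (p : M)

theorem mulP_t : mulP (A := A) hts (P := P) (Q := Q) (hP := hP) (hQ := hQ) t = tauP _ := rfl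

variable (h : IsCompl (latOf A (R01 := R01) hts P Q hP hQ).P (latOf A (R01 := R01) hts P Q hP hQ).Q)

/-- the operators `M_{r,j}` on `V` -/
noncomputable def copMul (r : R0) (j : ℕ) : (latOf A (R01 := R01) hts P Q hP hQ).K 1 →ₗ[A]
    (latOf A (R01 := R01) hts P Q hP hQ).K 1 :=
  cop _ h (mulP (A := A) hts r) j

theorem copMul_apply (r : R0) (j : ℕ) (v : (latOf A (R01 := R01) hts P Q hP hQ).K 1) :
    copMul (A := A) hts h r j v = coefP _ h j (mulP (A := A) hts r (inclV _ v)) := rfl

theorem copMul_mul (r r' : R0) (j : ℕ) : copMul (A := A) hts h (r * r') j =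
    ∑ x ∈ Finset.HasAntidiagonal.antidiagonal j,
      copMul (A := A) hts h r x.1 ∘ₗ copMul (A := A) hts h r' x.2 := by
  unfold copMul
  rw [mulP_mul, cop_comp _ h (mulP_tauP hts r)]

theorem copMul_add (r r' : R0) (j : ℕ) : copMul (A := A) hts h (r + r') j =
    copMul (A := A) hts h r j + copMul (A := A) hts h r' j := by
  unfold copMul
  rw [mulP_add, cop_add]

theorem copMul_smul (a : A) (r : R0) (j : ℕ) : copMul (A := A) hts h (a • r) j =
    a • copMul (A := A) hts h r j := by
  unfold copMul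
  rw [mulP_smul, cop_smul]

theorem copMul_one (j : ℕ) : copMul (A := A) hts h (1 : R0) j =
    if 0 = j then LinearMap.id else 0 := by
  unfold copMul
  rw [mulP_one, cop_one]

theorem copMul_t (j : ℕ) : copMul (A := A) hts h t j =
    if 1 = j then LinearMap.id else 0 := by
  unfold copMul
  rw [mulP_t, cop_tau]

/-- degree bound: if `s^m r` comes from `R1` then `M_{r,j} = 0` for `j > m`. -/
theorem copMul_eq_zero {r : R0} {m : ℕ} {r1 : R1}
    (hr : algebraMap R1 R01 s ^ m * algebraMap R0 R01 r = algebraMap R1 R01 r1) {j : ℕ}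
    (hj : m < j) : copMul (A := A) hts h r j = 0 := by
  refine cop_eq_zero _ h (m := m) (fun v => ?_) hj
  have hv : (v : M) ∈ (latOf A (R01 := R01) hts P Q hP hQ).Qm 1 := v.2.2
  rw [mem_Qm, latOf_τ_symm_pow] at hv ⊢
  change s ^ (m + 1) • (r • (v : M)) ∈ Q
  have h1 : s ^ (m + 1) • (r • (v : M)) = r1 • (s ^ 1 • (v : M)) := by
    rw [← algebraMap_smul R01 (s ^ (m + 1)), ← algebraMap_smul R01 r, ← algebraMap_smul R01 r1,
      ← algebraMap_smul R01 (s ^ 1), smul_smul, smul_smul, ← hr]
    congr 1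
    rw [map_pow, map_pow]
    ring
  rw [h1]
  exact Q.smul_mem r1 hv

end Mul

/-! ### Cyclicity -/

section Cyc

variable {K : Type u} [Field K] {R0 R1 R01 : Type u} [CommRing R0] [CommRing R1] [CommRing R01]
  [Algebra K R0] [Algebra K R1] [Algebra R0 R01] [Algebra R1 R01]
  {M : Type v} [AddCommGroup M] [Module K M] [Module R0 M] [Module R1 M] [Module R01 M]
  [IsScalarTower K R0 M] [IsScalarTower K R1 M]
  [IsScalarTower R0 R01 M] [IsScalarTower R1 R01 M]
  {t : R0} {s : R1} (hts : algebraMap R0 R01 t * algebraMap R1 R01 s = 1)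
  {P : Submodule R0 M} {Q : Submodule R1 M} {hP : ∀ x : M, ∃ n : ℕ, t ^ n • x ∈ P}
  {hQ : ∀ x : M, ∃ n : ℕ, s ^ n • x ∈ Q}
  (h : IsCompl (latOf K (R01 := R01) hts P Q hP hQ).P (latOf K (R01 := R01) hts P Q hP hQ).Q)

/-- A subspace of `V` stable under all the operators `M_{b,j}`, `b` in a spanning set of `R0`, and
killed by a nonzero evaluation functional is zero. -/
theorem eq_bot_of_stable [IsDomain R0] {n : ℕ} {b0 : Fin n → R0}
    (hb0 : Function.Bijective
      (fun f : Fin n → Polynomial K => ∑ i, Polynomial.aeval t (f i) * b0 i))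
    [Module.Invertible R0 P] {B : Type*} (β : B → R0)
    (hβ : Submodule.span K (Set.range β) = ⊤)
    (y : R0 →ₐ[K] K) (lam : (latOf K (R01 := R01) hts P Q hP hQ).P →ₗ[K] K)
    (hlam : ∀ (r : R0) p, lam (mulP (A := K) hts r p) = y r * lam p) (hlam0 : lam ≠ 0)
    (V0 : Submodule K ((latOf K (R01 := R01) hts P Q hP hQ).K 1))
    (hV0 : ∀ b j, ∀ v ∈ V0, copMul (A := K) hts h (β b) j v ∈ V0)
    (hV1 : ∀ v ∈ V0, lam (inclV _ v) = 0) : V0 = ⊥ := by
  let L := latOf K (R01 := R01) hts P Q hP hQ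
  have hmulPa : ∀ (r r' : R0) (p : L.P), mulP (A := K) hts (r + r') p = mulP (A := K) hts r p +
      mulP (A := K) hts r' p := by
    intro r r' p
    apply Subtype.ext
    exact add_smul r r' (p : M)
  have htau : ∀ (i : ℕ) (p : L.P), (tauP L ^ i) p = mulP (A := K) hts (t ^ i) p := by
    intro i p
    apply Subtype.ext
    rw [coe_tauP_pow]
    exact latOf_τ_pow hts i (p : M)
  -- the submodule `P₀`
  let P0 : Submodule K L.P := ⨅ j, V0.comap (coefP L h j)
  have hP0 : ∀ p, p ∈ P0 ↔ ∀ j, coefP L h j p ∈ V0 := by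
    intro p
    simp [P0]
  have hstab : ∀ (r : R0) p, p ∈ P0 → mulP (A := K) hts r p ∈ P0 := by
    intro r p hp
    have hr : r ∈ Submodule.span K (Set.range β) := by rw [hβ]; trivial
    induction hr using Submodule.span_induction with
    | mem r hr =>
      obtain ⟨b, rfl⟩ := hr
      rw [hP0] at hp ⊢
      intro j
      rw [coefP_apply_eq L h (mulP_tauP hts (β b))]
      exact Submodule.sum_mem _ fun x _ => hV0 b x.1 _ (hp x.2)
    | zero =>
      have : mulP (A := K) hts (0 : R0) p = 0 := by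
        apply Subtype.ext
        exact zero_smul R0 (p : M)
      rw [this]
      exact P0.zero_mem
    | add r r' _ _ h1 h2 =>
      rw [hmulPa]
      exact P0.add_mem h1 h2
    | smul a r _ h1 =>
      have : mulP (A := K) hts (a • r) p = a • mulP (A := K) hts r p := by
        apply Subtype.ext
        exact smul_assoc a r (p : M)
      rw [this]
      exact P0.smul_mem a h1
  -- `λ ≠ 0` on `V`
  have hlamV : ∃ v : L.K 1, lam (inclV L v) ≠ 0 := by
    by_contra hcon
    push Not at hcon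
    apply hlam0
    ext1 p
    rw [LinearMap.zero_apply]
    induction p using P_induction L h with
    | h0 => rw [map_zero]
    | hadd p q hp hq => rw [map_add, hp, hq, add_zero]
    | hs i v => rw [htau, hlam, hcon, mul_zero]
  obtain ⟨v1, hv1⟩ := hlamV
  have hv1V : v1 ∉ V0 := fun hv => hv1 (hV1 v1 hv)
  rw [Submodule.eq_bot_iff]
  intro v hv
  by_contra hv0
  -- a nonzero element of `P₀`
  let p0 : P := ⟨(v : M), v.2.1⟩
  have hp0 : p0 ≠ 0 := by
    intro h0
    apply hv0
    have h1 : ((p0 : P) : M) = 0 := congrArg Subtype.val h0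
    exact Subtype.ext h1
  have hp0P : inclV L v ∈ P0 := by
    rw [hP0]
    intro j
    rw [coefP_incl]
    split_ifs
    · exact hv
    · exact V0.zero_mem
  obtain ⟨φ, hφ⟩ := Inv.exists_dual_apply_ne_zero (R := R0) hp0
  set f := φ p0 with hf
  -- `f P ⊆ P₀`
  have hfP : ∀ p : L.P, mulP (A := K) hts f p ∈ P0 := by
    intro p
    have h1 := Inv.dual_smul_comm φ p0 (⟨p, p.2⟩ : P)
    have h2 : mulP (A := K) hts f p = mulP (A := K) hts (φ ⟨p, p.2⟩) (inclV L v) :=
      Subtype.ext (congrArg Subtype.val h1)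
    rw [h2]
    exact hstab _ _ hp0P
  -- finite dimensionality
  have hfin1 : Module.Finite K (R0 ⧸ Ideal.span {f}) := finite_quot_of_ne_zero hb0 hφ
  obtain ⟨hfin2, -⟩ := finrank_quot_smul (K := K) (Q := P) (Ideal.span {f})
  have hle : ∀ z : P, z ∈ ((Ideal.span {f} : Ideal R0) • (⊤ : Submodule R0 P)) →
      (⟨z, z.2⟩ : L.P) ∈ P0 := by
    intro z hz
    rw [Submodule.ideal_span_singleton_smul, Submodule.mem_smul_pointwise_iff_exists] at hz
    obtain ⟨w, -, rfl⟩ := hz
    exact hfP ⟨w, w.2⟩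
  let e : P →ₗ[K] (L.P ⧸ P0) :=
    { toFun := fun z => P0.mkQ ⟨z, z.2⟩
      map_add' := fun x y => rfl
      map_smul' := fun a x => rfl }
  let e1 : (P ⧸ ((Ideal.span {f} : Ideal R0) • (⊤ : Submodule R0 P)).restrictScalars K) →ₗ[K]
      (L.P ⧸ P0) := Submodule.liftQ _ e (fun z hz => by
        rw [LinearMap.mem_ker]
        exact (Submodule.Quotient.mk_eq_zero P0).mpr (hle z hz))
  have he1 : Function.Surjective e1 := by
    intro z
    obtain ⟨p, rfl⟩ := P0.mkQ_surjective z
    exact ⟨Submodule.mkQ _ (⟨p, p.2⟩ : P), rfl⟩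
  have hfin2' : Module.Finite K
      (P ⧸ ((Ideal.span {f} : Ideal R0) • (⊤ : Submodule R0 P)).restrictScalars K) := hfin2
  have hfin3 : Module.Finite K (L.P ⧸ P0) := Module.Finite.of_surjective e1 he1
  -- infinite dimensionality
  let g : (ℕ →₀ K) →ₗ[K] (L.P ⧸ P0) :=
    P0.mkQ ∘ₗ (Finsupp.lsum K fun i => LinearMap.toSpanSingleton K L.P ((tauP L ^ i) (inclV L v1)))
  have hg : Function.Injective g := by
    rw [← LinearMap.ker_eq_bot, LinearMap.ker_eq_bot']
    intro c hc
    have h1 : (Finsupp.lsum K fun i => LinearMap.toSpanSingleton K L.P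
        ((tauP L ^ i) (inclV L v1))) c ∈ P0 := (Submodule.Quotient.mk_eq_zero P0).mp hc
    rw [hP0] at h1
    ext j
    have h2 := h1 j
    have h3 : coefP L h j ((Finsupp.lsum K fun i => LinearMap.toSpanSingleton K L.P
        ((tauP L ^ i) (inclV L v1))) c) = c j • v1 := by
      rw [Finsupp.lsum_apply, Finsupp.sum, map_sum, Finset.sum_eq_single j]
      · rw [LinearMap.toSpanSingleton_apply, map_smul, coefP_pow_incl, if_pos rfl]
      · intro i _ hij
        rw [LinearMap.toSpanSingleton_apply, map_smul, coefP_pow_incl, if_neg hij, smul_zero]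
      · intro hj
        rw [Finsupp.notMem_support_iff.mp hj, map_zero, map_zero]
    rw [h3] at h2
    rw [Finsupp.zero_apply]
    by_contra hcj
    apply hv1V
    have := V0.smul_mem (c j)⁻¹ h2
    rwa [smul_smul, inv_mul_cancel₀ hcj, one_smul] at this
  have hfin4 : Module.Finite K (ℕ →₀ K) := Module.Finite.of_injective g hg
  have := Module.Finite.finite_basis (R := K) (M := ℕ →₀ K) (Finsupp.basisSingleOne)
  exact not_finite ℕ

end Cyc

end Fermat.Agent.H10.Lat
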