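import Fermat.Agent.H10_Cyc

/-!
# Common noncommutative polynomials (S25, job D3)
-/

set_option autoImplicit false
set_option linter.unusedSectionVars false
universe u v w
open Fermat.Agent.H25 TensorProduct

namespace Fermat.Agent.H10.Lat

section Common

variable {K : Type*} [Field K]

/-- a spanning family contains a basis -/
theorem exists_basis_of_span {D : Type*} [AddCommGroup D] [Module K D] [FiniteDimensional K D]
    {ι : Type*} (v : ι → D) (hv : Submodule.span K (Set.range v) = ⊤) {N : ℕ}
    (hN : Module.finrank K D = N) :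
    ∃ (w : Fin N → ι) (b : Module.Basis (Fin N) K D), ∀ i, b i = v (w i) := by
  classical
  obtain ⟨s, hs1, hs2, hs3⟩ := exists_linearIndependent K (Set.range v)
  let b0 : Module.Basis s K D := Module.Basis.mk hs3 (by
    rw [Subtype.range_coe, hs2, hv])
  have : Fintype s := FiniteDimensional.fintypeBasisIndex b0
  have hcard : Fintype.card s = N := by rw [← Module.finrank_eq_card_basis b0, hN]
  let e : s ≃ Fin N := Fintype.equivFinOfCardEq hcard
  have hch : ∀ x : s, ∃ i, v i = x := fun x => hs1 x.2
  choose g hg using hch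
  refine ⟨fun i => g (e.symm i), b0.reindex e, fun i => ?_⟩
  rw [Module.Basis.reindex_apply, hg]
  simp [b0]

variable {k : Type*} [Field k] [Infinite k] [Algebra k K]

theorem exists_common_linearIndependent {W : Type*} [AddCommGroup W] [Module k W]
    {D : Type*} [AddCommGroup D] [Module K D] [Module k D] [IsScalarTower k K D]
    [FiniteDimensional K D]
    {D' : Type*} [AddCommGroup D'] [Module K D'] [Module k D'] [IsScalarTower k K D']
    [FiniteDimensional K D'] (α : W →ₗ[k] D) (α' : W →ₗ[k] D')
    (h : Submodule.span K (Set.range α) = ⊤) (h' : Submodule.span K (Set.range α') = ⊤)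
    {N : ℕ} (hD : Module.finrank K D = N) (hD' : Module.finrank K D' = N) :
    ∃ w : Fin N → W, LinearIndependent K (fun i => α (w i)) ∧
      LinearIndependent K (fun i => α' (w i)) := by
  classical
  obtain ⟨w1, e, he⟩ := exists_basis_of_span α h hD
  obtain ⟨w2, e', he'⟩ := exists_basis_of_span α' h' hD'
  let MB : Matrix (Fin N) (Fin N) K := e.toMatrix (fun i => α (w2 i))
  let MA : Matrix (Fin N) (Fin N) K := e'.toMatrix (fun i => α' (w1 i))
  let F : Polynomial K := (((Polynomial.X : Polynomial K) • MB.map Polynomial.C +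
    (1 : Matrix (Fin N) (Fin N) K).map Polynomial.C)).det
  let F' : Polynomial K := (((Polynomial.X : Polynomial K) •
    (1 : Matrix (Fin N) (Fin N) K).map Polynomial.C + MA.map Polynomial.C)).det
  have hF : F ≠ 0 := by
    intro h0
    have := Polynomial.coeff_det_X_add_C_zero MB (1 : Matrix (Fin N) (Fin N) K)
    change F.coeff 0 = _ at this
    rw [h0, Polynomial.coeff_zero, Matrix.det_one] at this
    exact zero_ne_one this
  have hF' : F' ≠ 0 := by
    intro h0
    have := Polynomial.coeff_det_X_add_C_card (1 : Matrix (Fin N) (Fin N) K) MA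
    change F'.coeff _ = _ at this
    rw [h0, Polynomial.coeff_zero, Matrix.det_one] at this
    exact zero_ne_one this
  have hfin : {c : k | (F * F').eval (algebraMap k K c) = 0}.Finite := by
    have h1 : ((F * F').roots.toFinset : Set K).Finite := Finset.finite_toSet _
    refine (h1.preimage ((algebraMap k K).injective.injOn)).subset fun c hc => ?_
    rw [Set.mem_preimage, Finset.mem_coe, Multiset.mem_toFinset,
      Polynomial.mem_roots (mul_ne_zero hF hF')]
    exact hc
  obtain ⟨c, hc⟩ := hfin.exists_notMem
  rw [Set.mem_ofPred_eq, Polynomial.eval_mul] at hc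
  have hc1 : F.eval (algebraMap k K c) ≠ 0 := fun h0 => hc (by rw [h0, zero_mul])
  have hc2 : F'.eval (algebraMap k K c) ≠ 0 := fun h0 => hc (by rw [h0, mul_zero])
  have e1 : F.eval (algebraMap k K c) = e.det (fun i => α (w1 i + c • w2 i)) := by
    have h1 := (Polynomial.evalRingHom (algebraMap k K c)).map_det
      (((Polynomial.X : Polynomial K) • MB.map Polynomial.C +
        (1 : Matrix (Fin N) (Fin N) K).map Polynomial.C))
    rw [Module.Basis.det_apply]
    refine Eq.trans h1 ?_
    congr 1
    ext i j
    simp only [RingHom.mapMatrix_apply, Matrix.map_apply, Matrix.add_apply, Matrix.smul_apply,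
      Polynomial.coe_evalRingHom, Polynomial.eval_add, smul_eq_mul, Polynomial.eval_mul,
      Polynomial.eval_X, Polynomial.eval_C, Module.Basis.toMatrix_apply]
    rw [map_add, map_smul, map_add, ← he j, e.repr_self, ← algebraMap_smul K c (α (w2 j)), map_smul,
      Finsupp.add_apply, Finsupp.smul_apply, Finsupp.single_apply, Matrix.one_apply, smul_eq_mul,
      add_comm]
    congr 1
    by_cases hij : i = j
    · subst hij; simp
    · rw [if_neg hij, if_neg (Ne.symm hij)]
  have e2 : F'.eval (algebraMap k K c) = e'.det (fun i => α' (w1 i + c • w2 i)) := by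
    have h1 := (Polynomial.evalRingHom (algebraMap k K c)).map_det
      (((Polynomial.X : Polynomial K) • (1 : Matrix (Fin N) (Fin N) K).map Polynomial.C +
        MA.map Polynomial.C))
    rw [Module.Basis.det_apply]
    refine Eq.trans h1 ?_
    congr 1
    ext i j
    simp only [RingHom.mapMatrix_apply, Matrix.map_apply, Matrix.add_apply, Matrix.smul_apply,
      Polynomial.coe_evalRingHom, Polynomial.eval_add, smul_eq_mul, Polynomial.eval_mul,
      Polynomial.eval_X, Polynomial.eval_C, Module.Basis.toMatrix_apply]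
    rw [map_add, map_smul, map_add, ← algebraMap_smul K c (α' (w2 j)), map_smul, ← he' j,
      e'.repr_self,
      Finsupp.add_apply, Finsupp.smul_apply, Finsupp.single_apply, Matrix.one_apply, smul_eq_mul,
      add_comm]
    congr 1
    by_cases hij : i = j
    · subst hij; simp
    · rw [if_neg hij, if_neg (Ne.symm hij)]
  refine ⟨fun i => w1 i + c • w2 i, ?_, ?_⟩
  · exact ((Module.Basis.is_basis_iff_det e).mpr (by rw [← e1]; exact IsUnit.mk0 _ hc1)).1
  · exact ((Module.Basis.is_basis_iff_det e').mpr (by rw [← e2]; exact IsUnit.mk0 _ hc2)).1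

/-- functionals with no common zero span the dual space -/
theorem span_eq_top_of_no_zero {V : Type*} [AddCommGroup V] [Module K V] [FiniteDimensional K V]
    (Φ : Submodule K (Module.Dual K V)) (hΦ : ∀ v, (∀ φ ∈ Φ, φ v = 0) → v = 0) : Φ = ⊤ := by
  have h1 : Φ.dualCoannihilator = ⊥ := by
    rw [Submodule.eq_bot_iff]
    intro v hv
    exact hΦ v (fun φ hφ => (Submodule.mem_dualCoannihilator v).mp hv φ hφ)
  have h2 := Subspace.finrank_add_finrank_dualCoannihilator_eq Φ
  rw [h1, finrank_bot, add_zero] at h2
  exact Submodule.eq_top_of_finrank_eq (by rw [h2, Subspace.dual_finrank_eq])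

/-- linearly independent functionals give an isomorphism to `K^N` -/
theorem bijective_of_linearIndependent {V : Type*} [AddCommGroup V] [Module K V]
    [FiniteDimensional K V] {N : ℕ} (hN : Module.finrank K V = N) (φ : Fin N → Module.Dual K V)
    (hφ : LinearIndependent K φ) : Function.Bijective (LinearMap.pi φ) := by
  have hspan : Submodule.span K (Set.range φ) = ⊤ := by
    apply hφ.span_eq_top_of_card_eq_finrank'
    rw [Fintype.card_fin, Subspace.dual_finrank_eq, hN]
  have hinj : Function.Injective (LinearMap.pi φ) := by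
    rw [← LinearMap.ker_eq_bot, LinearMap.ker_eq_bot']
    intro v hv
    by_contra hv0
    obtain ⟨ψ, hψ⟩ : ∃ ψ : Module.Dual K V, ψ v ≠ 0 := by
      by_contra hcon
      push Not at hcon
      exact hv0 ((Module.forall_dual_apply_eq_zero_iff K v).mp hcon)
    have key : ∀ ψ ∈ Submodule.span K (Set.range φ), ψ v = 0 := by
      intro ψ hψ
      induction hψ using Submodule.span_induction with
      | mem x hx => obtain ⟨i, rfl⟩ := hx; exact congrFun hv i
      | zero => rfl
      | add x y _ _ hx hy => rw [LinearMap.add_apply, hx, hy, add_zero]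
      | smul a x _ hx => rw [LinearMap.smul_apply, hx, smul_zero]
    exact hψ (key ψ (by rw [hspan]; trivial))
  refine ⟨hinj, ?_⟩
  rw [← LinearMap.injective_iff_surjective_of_finrank_eq_finrank]
  · exact hinj
  · rw [hN, Module.finrank_fintype_fun_eq_card, Fintype.card_fin]

end Common

/-! ### The free algebra acting on `V` -/

section Free

variable {k : Type*} [Field k] [Infinite k] {K : Type u} [Field K] [Algebra k K]

/-- Let `op : B → End V` be operators on the finite dimensional space `V` and `lam` a functional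
such that no nonzero `op`-stable subspace is killed by `lam`. Then the functionals
`lam ∘ p(op)`, `p ∈ FreeAlgebra k B`, span the dual of `V`. -/
theorem span_words_eq_top {V : Type*} [AddCommGroup V] [Module K V] [Module k V]
    [IsScalarTower k K V] [FiniteDimensional K V] {B : Type*} (op : B → Module.End K V)
    (lam : V →ₗ[K] K)
    (hop : ∀ V0 : Submodule K V, (∀ b, ∀ v ∈ V0, op b v ∈ V0) → (∀ v ∈ V0, lam v = 0) → V0 = ⊥) :
    Submodule.span K (Set.range fun p : FreeAlgebra k B =>
      (lam ∘ₗ (FreeAlgebra.lift k op p : Module.End K V) : V →ₗ[K] K)) = ⊤ := by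
  apply span_eq_top_of_no_zero
  intro v hv
  let V0 : Submodule K V := ⨅ p : FreeAlgebra k B,
    LinearMap.ker (lam ∘ₗ (FreeAlgebra.lift k op p : Module.End K V))
  have hV0 : ∀ v, v ∈ V0 ↔ ∀ p : FreeAlgebra k B, lam ((FreeAlgebra.lift k op p : Module.End K V) v) = 0 := by
    intro v
    simp [V0]
  have h1 : V0 = ⊥ := by
    apply hop
    · intro b v hv
      rw [hV0] at hv ⊢
      intro p
      have := hv (p * FreeAlgebra.ι k b)
      rw [map_mul, FreeAlgebra.lift_ι_apply] at this
      exact this
    · intro v hv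
      rw [hV0] at hv
      have := hv 1
      rw [map_one] at this
      exact this
  have h2 : v ∈ V0 := by
    rw [hV0]
    intro p
    exact hv _ (Submodule.subset_span ⟨p, rfl⟩)
  rw [h1] at h2
  exact h2

/-- common noncommutative polynomials for two cyclic pairs -/
theorem exists_common_words {V : Type*} [AddCommGroup V] [Module K V] [Module k V]
    [IsScalarTower k K V] [FiniteDimensional K V] {V' : Type*} [AddCommGroup V'] [Module K V']
    [Module k V'] [IsScalarTower k K V'] [FiniteDimensional K V'] {B : Type*}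
    (op : B → Module.End K V) (op' : B → Module.End K V') (lam : V →ₗ[K] K) (lam' : V' →ₗ[K] K)
    (hop : ∀ V0 : Submodule K V, (∀ b, ∀ v ∈ V0, op b v ∈ V0) → (∀ v ∈ V0, lam v = 0) → V0 = ⊥)
    (hop' : ∀ V0 : Submodule K V', (∀ b, ∀ v ∈ V0, op' b v ∈ V0) → (∀ v ∈ V0, lam' v = 0) →
      V0 = ⊥) {N : ℕ} (hN : Module.finrank K V = N) (hN' : Module.finrank K V' = N) :
    ∃ p : Fin N → FreeAlgebra k B,
      Function.Bijective (fun v : V => fun i => lam ((FreeAlgebra.lift k op (p i) : Module.End K V) v)) ∧
      Function.Bijective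
        (fun v : V' => fun i => lam' ((FreeAlgebra.lift k op' (p i) : Module.End K V') v)) := by
  let α : FreeAlgebra k B →ₗ[k] Module.Dual K V :=
    { toFun := fun p => lam ∘ₗ (FreeAlgebra.lift k op p : Module.End K V)
      map_add' := fun p q => by rw [map_add, LinearMap.comp_add]
      map_smul' := fun a p => by
        ext v
        rw [RingHom.id_apply, map_smul, LinearMap.smul_apply, LinearMap.comp_apply,
          LinearMap.smul_apply, LinearMap.comp_apply, ← algebraMap_smul K a, map_smul,
          algebraMap_smul] }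
  let α' : FreeAlgebra k B →ₗ[k] Module.Dual K V' :=
    { toFun := fun p => lam' ∘ₗ (FreeAlgebra.lift k op' p : Module.End K V')
      map_add' := fun p q => by rw [map_add, LinearMap.comp_add]
      map_smul' := fun a p => by
        ext v
        rw [RingHom.id_apply, map_smul, LinearMap.smul_apply, LinearMap.comp_apply,
          LinearMap.smul_apply, LinearMap.comp_apply, ← algebraMap_smul K a, map_smul,
          algebraMap_smul] }
  obtain ⟨p, hp, hp'⟩ := exists_common_linearIndependent (K := K) (k := k) α α'
    (span_words_eq_top op lam hop) (span_words_eq_top op' lam' hop')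
    (N := N) (by rw [Subspace.dual_finrank_eq, hN]) (by rw [Subspace.dual_finrank_eq, hN'])
  exact ⟨p, bijective_of_linearIndependent hN _ hp, bijective_of_linearIndependent hN' _ hp'⟩

end Free

section FreeLat

variable {K : Type u} [Field K] {R0 R1 R01 : Type u} [CommRing R0] [CommRing R1] [CommRing R01]
  [Algebra K R0] [Algebra K R1] [Algebra R0 R01] [Algebra R1 R01]
  {M : Type v} [AddCommGroup M] [Module K M] [Module R0 M] [Module R1 M] [Module R01 M]
  [IsScalarTower K R0 M] [IsScalarTower K R1 M]
  [IsScalarTower R0 R01 M] [IsScalarTower R1 R01 M]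
  {t : R0} {s : R1} (hts : algebraMap R0 R01 t * algebraMap R1 R01 s = 1)
  {P : Submodule R0 M} {Q : Submodule R1 M} {hP : ∀ x : M, ∃ n : ℕ, t ^ n • x ∈ P}
  {hQ : ∀ x : M, ∃ n : ℕ, s ^ n • x ∈ Q}
  (h : IsCompl (latOf K (R01 := R01) hts P Q hP hQ).P (latOf K (R01 := R01) hts P Q hP hQ).Q)

include h in
/-- an acyclic line bundle has `dim V = n`. -/
theorem finrank_K1_of_isCompl [Module.Invertible R0 P] [Module.Invertible R1 Q] {n : ℕ}
    {b0 : Fin n → R0}
    {b1 : Fin n → R1}
    (hb0 : Function.Bijective
      (fun f : Fin n → Polynomial K => ∑ i, Polynomial.aeval t (f i) * b0 i))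
    (hb1 : Function.Bijective
      (fun f : Fin n → Polynomial K => ∑ i, Polynomial.aeval s (f i) * b1 i)) :
    Module.Finite K ((latOf K (R01 := R01) hts P Q hP hQ).K 1) ∧
      Module.finrank K ((latOf K (R01 := R01) hts P Q hP hQ).K 1) = n := by
  obtain ⟨h1, -⟩ := finite_projective_K1 (L := latOf K (R01 := R01) hts P Q hP hQ)
    (latOf_finProjP hts hb0) (latOf_finProjQ hts hb1) h
  refine ⟨h1, ?_⟩
  obtain ⟨h4, h5⟩ := finrank_Fq (K := K) hts (P := P) (Q := Q) (hP := hP) (hQ := hQ) hb1 1
  obtain ⟨-, -, h2⟩ := finrank_formula _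
    (sup_Qm_one_eq_top (L := latOf K (R01 := R01) hts P Q hP hQ) h)
  have hsub : Subsingleton (M ⧸ (⊤ : Submodule K M)) :=
    Submodule.Quotient.subsingleton_iff.mpr rfl
  rw [h.inf_eq_bot, h.sup_eq_top, finrank_bot, Module.finrank_zero_of_subsingleton, h5] at h2
  push_cast at h2
  rw [one_mul] at h2
  omega

variable {k : Type*} [Field k] [Infinite k] [Algebra k K]

/-- **Cyclicity**, simultaneous version for two acyclic line bundles with evaluation functionals:
common noncommutative polynomials `p_1, …, p_n` in the operators `M_{b,j}`. -/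
theorem exists_common_words_lat [IsDomain R0] [Module k M] [IsScalarTower k K M]
    {n : ℕ} {b0 : Fin n → R0}
    {b1 : Fin n → R1}
    (hb0 : Function.Bijective
      (fun f : Fin n → Polynomial K => ∑ i, Polynomial.aeval t (f i) * b0 i))
    (hb1 : Function.Bijective
      (fun f : Fin n → Polynomial K => ∑ i, Polynomial.aeval s (f i) * b1 i))
    [Module.Invertible R0 P] [Module.Invertible R1 Q] {B : Type*} (β : B → R0)
    (hβ : Submodule.span K (Set.range β) = ⊤)
    (y : R0 →ₐ[K] K) (lam : (latOf K (R01 := R01) hts P Q hP hQ).P →ₗ[K] K)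
    (hlam : ∀ (r : R0) p, lam (mulP (A := K) hts r p) = y r * lam p) (hlam0 : lam ≠ 0)
    {M' : Type w} [AddCommGroup M'] [Module K M'] [Module R0 M'] [Module R1 M'] [Module R01 M']
    [IsScalarTower K R0 M'] [IsScalarTower K R1 M']
    [IsScalarTower R0 R01 M'] [IsScalarTower R1 R01 M'] [Module k M'] [IsScalarTower k K M']
    {P' : Submodule R0 M'} {Q' : Submodule R1 M'} {hP' : ∀ x : M', ∃ n : ℕ, t ^ n • x ∈ P'}
    {hQ' : ∀ x : M', ∃ n : ℕ, s ^ n • x ∈ Q'}
    (h' : IsCompl (latOf K (R01 := R01) hts P' Q' hP' hQ').P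
      (latOf K (R01 := R01) hts P' Q' hP' hQ').Q)
    [Module.Invertible R0 P'] [Module.Invertible R1 Q']
    (lam' : (latOf K (R01 := R01) hts P' Q' hP' hQ').P →ₗ[K] K)
    (hlam' : ∀ (r : R0) p, lam' (mulP (A := K) hts r p) = y r * lam' p) (hlam0' : lam' ≠ 0) :
    ∃ p : Fin n → FreeAlgebra k (B × ℕ),
      Function.Bijective (fun v : (latOf K (R01 := R01) hts P Q hP hQ).K 1 => fun i =>
        lam (inclV _ ((FreeAlgebra.lift k (fun x : B × ℕ =>
          (copMul (A := K) hts h (β x.1) x.2 : Module.End K _)) (p i) : Module.End K _) v))) ∧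
      Function.Bijective (fun v : (latOf K (R01 := R01) hts P' Q' hP' hQ').K 1 => fun i =>
        lam' (inclV _ ((FreeAlgebra.lift k (fun x : B × ℕ =>
          (copMul (A := K) hts h' (β x.1) x.2 : Module.End K _)) (p i) : Module.End K _) v))) := by
  obtain ⟨hf, hN⟩ := finrank_K1_of_isCompl hts h hb0 hb1
  obtain ⟨hf', hN'⟩ := finrank_K1_of_isCompl hts h' hb0 hb1
  exact exists_common_words (K := K) (k := k)
    (V := (latOf K (R01 := R01) hts P Q hP hQ).K 1)
    (V' := (latOf K (R01 := R01) hts P' Q' hP' hQ').K 1) (B := B × ℕ)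
    (fun x => copMul (A := K) hts h (β x.1) x.2) (fun x => copMul (A := K) hts h' (β x.1) x.2)
    (lam ∘ₗ inclV _) (lam' ∘ₗ inclV _)
    (fun V0 hV0 hV1 => eq_bot_of_stable hts h hb0 β hβ y lam hlam hlam0 V0
      (fun b j v hv => hV0 (b, j) v hv) hV1)
    (fun V0 hV0 hV1 => eq_bot_of_stable hts h' hb0 β hβ y lam' hlam' hlam0' V0
      (fun b j v hv => hV0 (b, j) v hv) hV1) hN hN'

end FreeLat

end Fermat.Agent.H10.Lat
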