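import Mathlib

set_option autoImplicit false

namespace Fermat.Agent.H10

/-- Coprime positive integers whose product is a fourth power are fourth powers. -/
theorem fourth_of_coprime {A B w : ℤ} (hA : 0 < A) (hB : 0 < B) (hco : IsCoprime A B)
    (h : A * B = w ^ 4) : ∃ r s : ℤ, 0 < r ∧ 0 < s ∧ A = r ^ 4 ∧ B = s ^ 4 ∧ w.natAbs = (r * s).natAbs := by
  lift A to ℕ using hA.le
  lift B to ℕ using hB.le
  have hco' : Nat.Coprime A B := Nat.isCoprime_iff_coprime.mp hco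
  have h' : A * B = w.natAbs ^ 4 := by
    have := congrArg Int.natAbs h
    simpa [Int.natAbs_mul, Int.natAbs_pow] using this
  have hu : IsUnit (gcd A B) := by
    rw [Nat.isUnit_iff]; exact hco'
  obtain ⟨r, hr⟩ := exists_eq_pow_of_mul_eq_pow hu h'
  have hu2 : IsUnit (gcd B A) := by
    rw [Nat.isUnit_iff]; exact hco'.symm
  obtain ⟨s, hs⟩ := exists_eq_pow_of_mul_eq_pow hu2 (by rw [mul_comm]; exact h')
  have hA' : 0 < A := by exact_mod_cast hA
  have hB' : 0 < B := by exact_mod_cast hB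
  have hr0 : 0 < r := by
    rcases Nat.eq_zero_or_pos r with h0 | h0
    · rw [h0] at hr; simp at hr; omega
    · exact h0
  have hs0 : 0 < s := by
    rcases Nat.eq_zero_or_pos s with h0 | h0
    · rw [h0] at hs; simp at hs; omega
    · exact h0
  refine ⟨r, s, by exact_mod_cast hr0, by exact_mod_cast hs0, by rw [hr]; push_cast; ring,
    by rw [hs]; push_cast; ring, ?_⟩
  have : (r * s) ^ 4 = w.natAbs ^ 4 := by rw [mul_pow, ← hr, ← hs, h']
  have h2 := Nat.pow_left_injective (n := 4) (by norm_num) this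
  rw [← h2, Int.natAbs_mul]; simp

/-- Coprime positive integers whose product is a square are squares. -/
theorem sq_of_coprime {A B w : ℤ} (hA : 0 < A) (hB : 0 < B) (hco : IsCoprime A B)
    (h : A * B = w ^ 2) : ∃ r s : ℤ, 0 < r ∧ 0 < s ∧ A = r ^ 2 ∧ B = s ^ 2 := by
  lift A to ℕ using hA.le
  lift B to ℕ using hB.le
  have hco' : Nat.Coprime A B := Nat.isCoprime_iff_coprime.mp hco
  have h' : A * B = w.natAbs ^ 2 := by
    have := congrArg Int.natAbs h
    simpa [Int.natAbs_mul, Int.natAbs_pow] using this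
  have hu : IsUnit (gcd A B) := by
    rw [Nat.isUnit_iff]; exact hco'
  obtain ⟨r, hr⟩ := exists_eq_pow_of_mul_eq_pow hu h'
  have hu2 : IsUnit (gcd B A) := by
    rw [Nat.isUnit_iff]; exact hco'.symm
  obtain ⟨s, hs⟩ := exists_eq_pow_of_mul_eq_pow hu2 (by rw [mul_comm]; exact h')
  have hA' : 0 < A := by exact_mod_cast hA
  have hB' : 0 < B := by exact_mod_cast hB
  have hr0 : 0 < r := by
    rcases Nat.eq_zero_or_pos r with h0 | h0
    · rw [h0] at hr; simp at hr; omega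
    · exact h0
  have hs0 : 0 < s := by
    rcases Nat.eq_zero_or_pos s with h0 | h0
    · rw [h0] at hs; simp at hs; omega
    · exact h0
  exact ⟨r, s, by exact_mod_cast hr0, by exact_mod_cast hs0, by rw [hr]; push_cast; ring,
    by rw [hs]; push_cast; ring⟩

/-- Coprime positive integers with product `q^j w^4`, `q` prime. -/
theorem fourth_of_coprime_primePow {q j : ℕ} (hq : q.Prime) {A B w : ℤ} (hA : 0 < A) (hB : 0 < B)
    (hco : IsCoprime A B) (h : A * B = (q : ℤ) ^ j * w ^ 4) :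
    ∃ r s : ℤ, 0 < r ∧ 0 < s ∧ w.natAbs = (r * s).natAbs ∧
      ((A = (q : ℤ) ^ j * r ^ 4 ∧ B = s ^ 4) ∨ (A = s ^ 4 ∧ B = (q : ℤ) ^ j * r ^ 4)) := by
  have hqpos : (0 : ℤ) < (q : ℤ) ^ j := by
    have := hq.pos; positivity
  rcases Nat.eq_zero_or_pos j with hj | hj
  · subst hj
    rw [pow_zero, one_mul] at h
    obtain ⟨r, s, hr, hs, h1, h2, h3⟩ := fourth_of_coprime hA hB hco h
    exact ⟨r, s, hr, hs, h3, Or.inl ⟨by rw [pow_zero, one_mul, h1], h2⟩⟩
  have hpp : IsPrimePow (q ^ j) := hq.isPrimePow.pow hj.ne'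
  have hdvd : (q : ℤ) ^ j ∣ A ∨ (q : ℤ) ^ j ∣ B := by
    lift A to ℕ using hA.le
    lift B to ℕ using hB.le
    have hco' : Nat.Coprime A B := Nat.isCoprime_iff_coprime.mp hco
    have h1 : q ^ j ∣ A * B := by
      have : ((q ^ j : ℕ) : ℤ) ∣ ((A * B : ℕ) : ℤ) := ⟨w ^ 4, by push_cast; exact h⟩
      exact_mod_cast this
    rcases (Nat.Coprime.isPrimePow_dvd_mul hco' hpp).mp h1 with h2 | h2
    · left; exact_mod_cast h2
    · right; exact_mod_cast h2
  rcases hdvd with ⟨A', hA'⟩ | ⟨B', hB'⟩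
  · have h1 : A' * B = w ^ 4 := by
      have : (q : ℤ) ^ j * (A' * B) = (q : ℤ) ^ j * w ^ 4 := by rw [← h, hA']; ring
      exact mul_left_cancel₀ hqpos.ne' this
    have hA'pos : 0 < A' := by
      rw [hA'] at hA; exact (mul_pos_iff_of_pos_left hqpos).mp hA
    have hco2 : IsCoprime A' B := by
      rw [hA'] at hco; exact hco.of_mul_left_right
    obtain ⟨r, s, hr, hs, e1, e2, e3⟩ := fourth_of_coprime hA'pos hB hco2 h1
    exact ⟨r, s, hr, hs, e3, Or.inl ⟨by rw [hA', e1], e2⟩⟩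
  · have h1 : B' * A = w ^ 4 := by
      have : (q : ℤ) ^ j * (B' * A) = (q : ℤ) ^ j * w ^ 4 := by rw [← h, hB']; ring
      exact mul_left_cancel₀ hqpos.ne' this
    have hB'pos : 0 < B' := by
      rw [hB'] at hB; exact (mul_pos_iff_of_pos_left hqpos).mp hB
    have hco2 : IsCoprime B' A := by
      rw [hB'] at hco; exact hco.symm.of_mul_left_right
    obtain ⟨r, s, hr, hs, e1, e2, e3⟩ := fourth_of_coprime hB'pos hA hco2 h1
    exact ⟨r, s, hr, hs, e3, Or.inr ⟨e2, by rw [hB', e1]⟩⟩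

theorem isCoprime_of_prime_not_dvd {A B : ℤ} (h : ∀ p : ℕ, p.Prime → (p : ℤ) ∣ A → ¬ (p : ℤ) ∣ B) :
    IsCoprime A B := by
  rw [Int.isCoprime_iff_gcd_eq_one]
  by_contra hne
  obtain ⟨p, hp, hd⟩ := Nat.exists_prime_and_dvd hne
  have h1 : (p : ℤ) ∣ (Int.gcd A B : ℤ) := by exact_mod_cast hd
  exact h p hp (h1.trans (Int.gcd_dvd_left _ _)) (h1.trans (Int.gcd_dvd_right _ _))

end Fermat.Agent.H10

namespace Fermat.Agent.H10

/-- The quartic `N² = (M² + k e²)² + 4 e⁴` has no primitive integer solutions with `e ≠ 0`. -/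
theorem quartic_descent {q j : ℕ} (hq : q.Prime) {k : ℤ} (hkpos : 0 < k) (hk : k % 8 = 3)
    (hc : k ^ 2 + 4 = (q : ℤ) ^ j)
    (hnr : ∀ v w : ℤ, (q : ℤ) ∣ v ^ 2 - 2 * k * w ^ 2 → (q : ℤ) ∣ w) :
    ∀ n : ℕ, ∀ M e N : ℤ, e.natAbs = n → IsCoprime M e →
      N ^ 2 = (M ^ 2 + k * e ^ 2) ^ 2 + 4 * e ^ 4 → e = 0 := by
  intro n
  induction n using Nat.strong_induction_on with
  | _ n ih =>
  intro M e N hn hco hN
  by_contra he
  -- WLOG N > 0
  wlog hNpos : 0 < N generalizing N with H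
  · have hN0 : N ≠ 0 := by
      rintro rfl
      have : 0 < e ^ 4 := by positivity
      nlinarith [sq_nonneg (M ^ 2 + k * e ^ 2)]
    exact H (-N) (by rw [neg_sq]; exact hN) (by omega)
  have he2 : 0 < e ^ 2 := by positivity
  have he4 : 0 < e ^ 4 := by positivity
  have hK : 0 < M ^ 2 + k * e ^ 2 := by positivity
  set K : ℤ := M ^ 2 + k * e ^ 2 with hKdef
  have hNK : K < N := by nlinarith
  -- parity
  have hpar : (N - K) % 2 = 0 := by
    have h1 : (N - K) * (N + K) = 4 * e ^ 4 := by linear_combination hN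
    have h2 : (2 : ℤ) ∣ (N - K) * (N + K) := by rw [h1]; exact ⟨2 * e ^ 4, by ring⟩
    rcases Int.prime_two.dvd_or_dvd h2 with h3 | h3 <;> omega
  obtain ⟨A, hA⟩ : ∃ A, N - K = 2 * A := ⟨(N - K) / 2, by omega⟩
  have hB : N + K = 2 * (A + K) := by linarith
  have hAB : A * (A + K) = e ^ 4 := by
    have h1 : (N - K) * (N + K) = 4 * e ^ 4 := by linear_combination hN
    rw [hA, hB] at h1; linarith
  have hApos : 0 < A := by linarith
  have hBpos : 0 < A + K := by linarith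
  have hcoAB : IsCoprime A (A + K) := by
    apply isCoprime_of_prime_not_dvd
    intro p hp h1 h2
    have hpz : Prime (p : ℤ) := Nat.prime_iff_prime_int.mp hp
    have h3 : (p : ℤ) ∣ K := by
      have := dvd_sub h2 h1; simpa using this
    have h4 : (p : ℤ) ∣ e := by
      apply hpz.dvd_of_dvd_pow (n := 4); rw [← hAB]; exact Dvd.dvd.mul_right h1 _
    have h5 : (p : ℤ) ∣ M := by
      apply hpz.dvd_of_dvd_pow (n := 2)
      have : M ^ 2 = K - k * e * e := by rw [hKdef]; ring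
      rw [this]; exact dvd_sub h3 (Dvd.dvd.mul_left h4 _)
    exact hpz.not_isUnit (hco.isUnit_of_dvd' h5 h4)
  obtain ⟨u, v, hu, hv, hAu, hBv, huv⟩ := fourth_of_coprime hApos hBpos hcoAB hAB
  have he2' : e ^ 2 = u ^ 2 * v ^ 2 := by
    have := congrArg (fun m : ℕ => (m : ℤ) ^ 2) huv
    simp only [Int.natCast_natAbs, sq_abs] at this
    rw [this]; ring
  have hcouv : IsCoprime u v := by
    rw [hBv, hAu] at hcoAB
    exact (IsCoprime.pow_iff (by norm_num) (by norm_num)).mp hcoAB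
  -- Q2
  have hQ2 : M ^ 2 = v ^ 4 - k * u ^ 2 * v ^ 2 - u ^ 4 := by
    have h1 : K = v ^ 4 - u ^ 4 := by linarith
    have h2 : M ^ 2 = K - k * e ^ 2 := by rw [hKdef]; ring
    rw [h2, h1, he2']; ring
  -- u even, v odd
  have hnotboth : ¬ (u % 2 = 0 ∧ v % 2 = 0) := by
    rintro ⟨h1, h2⟩
    have h3 : (2 : ℤ) ∣ u := Int.dvd_of_emod_eq_zero h1
    have h4 : (2 : ℤ) ∣ v := Int.dvd_of_emod_eq_zero h2
    exact Int.prime_two.not_isUnit (hcouv.isUnit_of_dvd' h3 h4)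
  obtain ⟨k', hk'⟩ : ∃ k', k = 8 * k' + 3 := ⟨k / 8, by omega⟩
  have hsqodd : ∀ x : ℤ, x % 2 = 1 → ∃ m, x ^ 2 = 8 * m + 1 := by
    intro x hx
    obtain ⟨y, rfl⟩ : ∃ y, x = 2 * y + 1 := ⟨x / 2, by omega⟩
    obtain ⟨z, hz⟩ := Int.even_mul_succ_self y
    exact ⟨z, by linear_combination 4 * hz⟩
  have hsqmod4 : ∀ x : ℤ, x ^ 2 % 4 = 0 ∨ x ^ 2 % 8 = 1 := by
    intro x
    rcases Int.emod_two_eq_zero_or_one x with h | h
    · left
      obtain ⟨y, rfl⟩ : ∃ y, x = 2 * y := ⟨x / 2, by omega⟩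
      have : (2 * y) ^ 2 = 4 * y ^ 2 := by ring
      omega
    · right; obtain ⟨m, hm⟩ := hsqodd x h; omega
  have hueven : u % 2 = 0 := by
    rcases Int.emod_two_eq_zero_or_one u with h | h
    · exact h
    exfalso
    obtain ⟨m, hm⟩ := hsqodd u h
    rcases Int.emod_two_eq_zero_or_one v with h' | h'
    · obtain ⟨y, rfl⟩ : ∃ y, v = 2 * y := ⟨v / 2, by omega⟩
      have h4 : M ^ 2 = 4 * (4 * y ^ 4 - k * u ^ 2 * y ^ 2 - 4 * (4 * m ^ 2 + m)) - 1 := by
        have : u ^ 4 = (8 * m + 1) ^ 2 := by rw [← hm]; ring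
        rw [hQ2, this]; ring
      rcases hsqmod4 M with h5 | h5 <;> omega
    · obtain ⟨l, hl⟩ := hsqodd v h'
      have h4 : M ^ 2 = 8 * ((8 * l ^ 2 + 2 * l) - (k * (8 * m * l + m + l)) - (8 * m ^ 2 + 2 * m)) - k := by
        have e1 : u ^ 4 = (8 * m + 1) ^ 2 := by rw [← hm]; ring
        have e2 : v ^ 4 = (8 * l + 1) ^ 2 := by rw [← hl]; ring
        rw [hQ2, e1, e2, hm, hl]; ring
      rcases hsqmod4 M with h5 | h5 <;> omega
  have hvodd : v % 2 = 1 := by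
    rcases Int.emod_two_eq_zero_or_one v with h | h
    · exact absurd ⟨hueven, h⟩ hnotboth
    · exact h
  obtain ⟨w, rfl⟩ : ∃ w, u = 2 * w := ⟨u / 2, by omega⟩
  have hw : 0 < w := by linarith
  set c : ℤ := k ^ 2 + 4 with hcdef
  set L : ℤ := v ^ 2 - 2 * k * w ^ 2 with hLdef
  have hML : M ^ 2 = L ^ 2 - 4 * c * w ^ 4 := by rw [hQ2]; ring
  have hMpar : (L - M) % 2 = 0 := by
    have h1 : (L - M) * (L + M) = 2 * (2 * c * w ^ 4) := by linear_combination -hML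
    have h2 : (2 : ℤ) ∣ (L - M) * (L + M) := ⟨_, h1⟩
    rcases Int.prime_two.dvd_or_dvd h2 with h3 | h3 <;> omega
  obtain ⟨A', hA'⟩ : ∃ A', L - M = 2 * A' := ⟨(L - M) / 2, by omega⟩
  obtain ⟨B', hB'⟩ : ∃ B', L + M = 2 * B' := ⟨(L + M) / 2, by omega⟩
  have hLAB : L = A' + B' := by linarith
  have hAB' : A' * B' = c * w ^ 4 := by
    have h1 : (L - M) * (L + M) = 4 * (c * w ^ 4) := by linear_combination -hML
    rw [hA', hB'] at h1; linarith
  have hcpos : 0 < c := by positivity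
  have hcowv : IsCoprime w v := hcouv.of_mul_left_right
  have hqz : Prime (q : ℤ) := Nat.prime_iff_prime_int.mp hq
  have hqv : (q : ℤ) ∣ w → (q : ℤ) ∣ v ^ 2 - 2 * k * w ^ 2 → False := by
    intro h1 h2
    have h3 : (q : ℤ) ∣ v := by
      apply hqz.dvd_of_dvd_pow (n := 2)
      have : v ^ 2 = (v ^ 2 - 2 * k * w ^ 2) + 2 * k * w * w := by ring
      rw [this]; exact dvd_add h2 (Dvd.dvd.mul_left h1 _)
    exact hqz.not_isUnit (hcowv.isUnit_of_dvd' h1 h3)
  have hcoAB' : IsCoprime A' B' := by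
    apply isCoprime_of_prime_not_dvd
    intro p hp h1 h2
    have hpz : Prime (p : ℤ) := Nat.prime_iff_prime_int.mp hp
    have hL : (p : ℤ) ∣ L := by rw [hLAB]; exact dvd_add h1 h2
    have h3 : (p : ℤ) ∣ c * w ^ 4 := by rw [← hAB']; exact Dvd.dvd.mul_right h1 _
    have hpw : ¬ (p : ℤ) ∣ w := by
      intro h4
      have h5 : (p : ℤ) ∣ v := by
        apply hpz.dvd_of_dvd_pow (n := 2)
        have : v ^ 2 = L + 2 * k * w * w := by rw [hLdef]; ring
        rw [this]; exact dvd_add hL (Dvd.dvd.mul_left h4 _)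
      exact hpz.not_isUnit (hcowv.isUnit_of_dvd' h4 h5)
    have h4 : (p : ℤ) ∣ c := by
      rcases hpz.dvd_or_dvd h3 with h5 | h5
      · exact h5
      · exact absurd (hpz.dvd_of_dvd_pow h5) hpw
    have h5 : p = q := by
      rw [hc] at h4
      have h6 : (p : ℤ) ∣ (q : ℤ) := hpz.dvd_of_dvd_pow h4
      have h7 : p ∣ q := by exact_mod_cast h6
      exact (Nat.prime_dvd_prime_iff_eq hp hq).mp h7
    subst h5
    exact hqv (hnr v w hL) hL
  have hABpos : 0 < A' * B' := by rw [hAB']; positivity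
  rcases pos_and_pos_or_neg_and_neg_of_mul_pos hABpos with ⟨hA'pos, hB'pos⟩ | ⟨hA'neg, hB'neg⟩
  · rw [hc] at hAB'
    obtain ⟨r, s, hr, hs, hrs, hcase⟩ := fourth_of_coprime_primePow hq hA'pos hB'pos hcoAB' hAB'
    have hw' : w = r * s := by
      have h1 : w.natAbs = (r * s).natAbs := hrs
      have h2 : 0 < r * s := by positivity
      omega
    have hsum : L = (q : ℤ) ^ j * r ^ 4 + s ^ 4 := by
      rcases hcase with ⟨h1, h2⟩ | ⟨h1, h2⟩ <;> rw [hLAB, h1, h2]; ring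
    have hcors : IsCoprime s r := by
      rcases hcase with ⟨h1, h2⟩ | ⟨h1, h2⟩
      · rw [h1, h2] at hcoAB'
        exact ((IsCoprime.pow_iff (by norm_num) (by norm_num)).mp hcoAB'.of_mul_left_right).symm
      · rw [h1, h2] at hcoAB'
        exact ((IsCoprime.pow_iff (by norm_num) (by norm_num)).mp hcoAB'.of_mul_right_right)
    have hnew : v ^ 2 = (s ^ 2 + k * r ^ 2) ^ 2 + 4 * r ^ 4 := by
      have h1 : v ^ 2 = L + 2 * k * w ^ 2 := by rw [hLdef]; ring
      rw [h1, hsum, ← hc, hw', hcdef]; ring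
    have hlt : r.natAbs < n := by
      have h1 : 1 ≤ s * v := Int.add_one_le_iff.mpr (mul_pos hs hv)
      have h2 : r ≤ r * (s * v) := le_mul_of_one_le_right hr.le h1
      have h3 : r < 2 * w * v := by
        have : 2 * w * v = 2 * (r * (s * v)) := by rw [hw']; ring
        rw [this]; linarith
      have h4 : n = (2 * w * v).natAbs := by rw [← hn, huv]
      omega
    have := ih r.natAbs hlt s r v rfl hcors hnew
    omega
  · -- both negative: impossible
    have hA2 : 0 < -A' := by linarith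
    have hB2 : 0 < -B' := by linarith
    have hAB2 : (-A') * (-B') = (q : ℤ) ^ j * w ^ 4 := by rw [← hc, ← hAB']; ring
    obtain ⟨r, s, hr, hs, hrs, hcase⟩ := fourth_of_coprime_primePow hq hA2 hB2
      hcoAB'.neg_neg hAB2
    have hw' : w = r * s := by
      have h2 : 0 < r * s := by positivity
      omega
    have hsum : L = -((q : ℤ) ^ j * r ^ 4 + s ^ 4) := by
      rcases hcase with ⟨h1, h2⟩ | ⟨h1, h2⟩
      · rw [← h1, ← h2, hLAB]; ring
      · rw [← h1, ← h2, hLAB]; ring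
    have hv2 : v ^ 2 = -((s ^ 2 - k * r ^ 2) ^ 2) - 4 * r ^ 4 := by
      have h1 : v ^ 2 = L + 2 * k * w ^ 2 := by rw [hLdef]; ring
      rw [h1, hsum, ← hc, hw', hcdef]; ring
    have h1 : 0 < r ^ 4 := by positivity
    have h2 := sq_nonneg v
    have h3 := sq_nonneg (s ^ 2 - k * r ^ 2)
    rw [hv2] at h2
    linarith

end Fermat.Agent.H10

namespace Fermat.Agent.H10

theorem quartic_descent' {q j : ℕ} (hq : q.Prime) {k : ℤ} (hkpos : 0 < k) (hk : k % 8 = 3)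
    (hc : k ^ 2 + 4 = (q : ℤ) ^ j)
    (hnr : ∀ v w : ℤ, (q : ℤ) ∣ v ^ 2 - 2 * k * w ^ 2 → (q : ℤ) ∣ w)
    {M e N : ℤ} (hco : IsCoprime M e)
    (h : N ^ 2 = M ^ 4 + 2 * k * M ^ 2 * e ^ 2 + (q : ℤ) ^ j * e ^ 4) : e = 0 := by
  refine quartic_descent hq hkpos hk hc hnr e.natAbs M e N rfl hco ?_
  rw [h, ← hc]; ring

/-- `t (t² + 2 k t + q^j) = y²` has only `t = 0` as rational solution. -/
theorem curve_rank_zero {q j : ℕ} (hq : q.Prime) (hj : 0 < j) {k : ℤ} (hkpos : 0 < k)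
    (hk : k % 8 = 3)
    (hc : k ^ 2 + 4 = (q : ℤ) ^ j)
    (hnr : ∀ v w : ℤ, (q : ℤ) ∣ v ^ 2 - 2 * k * w ^ 2 → (q : ℤ) ∣ w)
    (t y : ℚ) (h : t * (t ^ 2 + 2 * k * t + (q : ℚ) ^ j) = y ^ 2) : t = 0 := by
  by_contra ht
  have hqz : Prime (q : ℤ) := Nat.prime_iff_prime_int.mp hq
  have hqpos : (0 : ℤ) < q := by exact_mod_cast hq.pos
  set m : ℤ := t.num with hm
  set n : ℤ := (t.den : ℤ) with hn
  have hnpos : 0 < n := by rw [hn]; exact_mod_cast t.den_pos
  have hnQ : (n : ℚ) ≠ 0 := by exact_mod_cast hnpos.ne'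
  have htmn : t = m / n := by rw [hm, hn]; exact_mod_cast (Rat.num_div_den t).symm
  have hcomn : IsCoprime m n := by
    rw [hm, hn, Int.isCoprime_iff_gcd_eq_one]
    exact t.reduced
  have hm0 : m ≠ 0 := by
    rw [hm]; exact Rat.num_ne_zero.mpr ht
  -- integral equation
  have h1 : ((m * n * (m ^ 2 + 2 * k * m * n + (q : ℤ) ^ j * n ^ 2) : ℤ) : ℚ) = (y * n ^ 2) ^ 2 := by
    push_cast
    rw [mul_pow, ← h, htmn]
    field_simp
  have hsq : IsSquare (m * n * (m ^ 2 + 2 * k * m * n + (q : ℤ) ^ j * n ^ 2)) := by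
    rw [← Rat.isSquare_intCast_iff, h1]
    exact ⟨y * n ^ 2, by ring⟩
  obtain ⟨Z, hZ⟩ := hsq
  have hquad : 0 < m ^ 2 + 2 * k * m * n + (q : ℤ) ^ j * n ^ 2 := by
    rw [← hc]
    have : m ^ 2 + 2 * k * m * n + (k ^ 2 + 4) * n ^ 2 = (m + k * n) ^ 2 + 4 * n ^ 2 := by ring
    rw [this]; positivity
  have hmpos : 0 < m := by
    by_contra hneg
    have h2 : m < 0 := lt_of_le_of_ne (not_lt.mp hneg) hm0
    have h3 : m * n * (m ^ 2 + 2 * k * m * n + (q : ℤ) ^ j * n ^ 2) < 0 :=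
      mul_neg_of_neg_of_pos (mul_neg_of_neg_of_pos h2 hnpos) hquad
    rw [hZ] at h3
    have h4 := mul_self_nonneg Z
    linarith
  -- n is a square
  have hcon : IsCoprime n (m * (m ^ 2 + 2 * k * m * n + (q : ℤ) ^ j * n ^ 2)) := by
    apply IsCoprime.mul_right hcomn.symm
    have : m ^ 2 + 2 * k * m * n + (q : ℤ) ^ j * n ^ 2 = m ^ 2 + n * (2 * k * m + (q : ℤ) ^ j * n) := by ring
    rw [this]
    exact (IsCoprime.add_mul_left_right_iff).mpr (hcomn.symm.pow_right)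
  obtain ⟨e, Z', he, hZ'pos, hne, hZ'⟩ := sq_of_coprime hnpos (mul_pos hmpos hquad) hcon
    (w := Z) (by linear_combination hZ)
  have hecom : IsCoprime m e := by
    rw [hne] at hcomn; exact (IsCoprime.pow_right_iff (by norm_num)).mp hcomn
  obtain ⟨i, μ, hij, hmμ, hiμ⟩ : ∃ (i : ℕ) (μ : ℤ), i ≤ j ∧ m = (q : ℤ) ^ i * μ ∧
      (i = j ∨ ¬ (q : ℤ) ∣ μ) := by
    by_cases hd : (q : ℤ) ^ j ∣ m
    · obtain ⟨μ, hμ⟩ := hd
      exact ⟨j, μ, le_rfl, hμ, Or.inl rfl⟩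
    · have hfin : FiniteMultiplicity (q : ℤ) m := by
        rw [Int.finiteMultiplicity_iff]
        exact ⟨by simpa using hq.one_lt.ne', hm0⟩
      obtain ⟨μ, hμ, hμ'⟩ := hfin.exists_eq_pow_mul_and_not_dvd
      refine ⟨multiplicity (q : ℤ) m, μ, ?_, hμ, Or.inr hμ'⟩
      by_contra hlt
      apply hd
      exact (pow_dvd_pow _ (not_le.mp hlt).le).trans ⟨μ, hμ⟩
  have hqi : (0 : ℤ) < (q : ℤ) ^ i := by positivity
  have hμpos : 0 < μ := by
    rw [hmμ] at hmpos; exact (mul_pos_iff_of_pos_left hqi).mp hmpos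
  have hμn : IsCoprime μ n := by
    rw [hmμ] at hcomn; exact hcomn.of_mul_left_right
  have hquad' : m ^ 2 + 2 * k * m * n + (q : ℤ) ^ j * n ^ 2 =
      (q : ℤ) ^ i * ((q : ℤ) ^ i * μ ^ 2 + 2 * k * μ * n + (q : ℤ) ^ (j - i) * n ^ 2) := by
    have : (q : ℤ) ^ j = (q : ℤ) ^ i * (q : ℤ) ^ (j - i) := by rw [← pow_add]; congr 1; omega
    rw [this, hmμ]; ring
  set Q : ℤ := (q : ℤ) ^ i * μ ^ 2 + 2 * k * μ * n + (q : ℤ) ^ (j - i) * n ^ 2 with hQ
  have hQpos : 0 < Q := by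
    rw [hquad'] at hquad; exact (mul_pos_iff_of_pos_left hqi).mp hquad
  have hμQ : ((q : ℤ) ^ i) ^ 2 * (μ * Q) = Z' ^ 2 := by
    rw [← hZ', hquad', hmμ]; ring
  obtain ⟨z, hz⟩ : (q : ℤ) ^ i ∣ Z' := by
    rw [← Int.pow_dvd_pow_iff (n := 2) (by norm_num)]
    exact ⟨_, hμQ.symm⟩
  have hμQz : μ * Q = z ^ 2 := by
    have h2 : ((q : ℤ) ^ i) ^ 2 * (μ * Q) = ((q : ℤ) ^ i) ^ 2 * z ^ 2 := by rw [hμQ, hz]; ring
    exact mul_left_cancel₀ (by positivity) h2
  have hcoμQ : IsCoprime μ Q := by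
    have h2 : Q = (q : ℤ) ^ (j - i) * n ^ 2 + μ * ((q : ℤ) ^ i * μ + 2 * k * n) := by rw [hQ]; ring
    rw [h2, IsCoprime.add_mul_left_right_iff]
    apply IsCoprime.mul_right _ (hμn.pow_right)
    rcases hiμ with h3 | h3
    · rw [h3, Nat.sub_self, pow_zero]; exact isCoprime_one_right
    · exact ((Prime.coprime_iff_not_dvd hqz).mpr h3).symm.pow_right
  obtain ⟨a, w, ha, hw, hμa, hQw⟩ := sq_of_coprime hμpos hQpos hcoμQ hμQz
  have hae : IsCoprime a e := by
    rw [hμa, hne] at hμn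
    exact (IsCoprime.pow_iff (by norm_num) (by norm_num)).mp hμn
  have hfin : w ^ 2 = (q : ℤ) ^ i * a ^ 4 + 2 * k * a ^ 2 * e ^ 2 + (q : ℤ) ^ (j - i) * e ^ 4 := by
    rw [← hQw, hQ, hμa, hne]; ring
  rcases Nat.eq_zero_or_pos i with hi0 | hi0
  · subst hi0
    have := quartic_descent' hq hkpos hk hc hnr hae (N := w) (by rw [hfin]; simp)
    omega
  · rcases hij.eq_or_lt with hij' | hij'
    · subst hij'
      have := quartic_descent' hq hkpos hk hc hnr hae.symm (N := w) (by rw [hfin]; simp; ring)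
      omega
    · have hqμ : ¬ (q : ℤ) ∣ μ := by
        rcases hiμ with h3 | h3
        · omega
        · exact h3
      have h4 : (q : ℤ) ∣ a * e := by
        apply hnr w (a * e)
        have : w ^ 2 - 2 * k * (a * e) ^ 2 = (q : ℤ) ^ i * a ^ 4 + (q : ℤ) ^ (j - i) * e ^ 4 := by
          rw [hfin]; ring
        rw [this]
        exact dvd_add (Dvd.dvd.mul_right (dvd_pow_self _ hi0.ne') _)
          (Dvd.dvd.mul_right (dvd_pow_self _ (by omega)) _)
      rcases hqz.dvd_or_dvd h4 with h5 | h5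
      · exact hqμ (by rw [hμa]; exact dvd_pow h5 (by norm_num))
      · have h6 : (q : ℤ) ∣ n := by rw [hne]; exact dvd_pow h5 (by norm_num)
        have h7 : (q : ℤ) ∣ m := by rw [hmμ]; exact Dvd.dvd.mul_right (dvd_pow_self _ hi0.ne') _
        exact hqz.not_isUnit (hcomn.isUnit_of_dvd' h7 h6)

/-- The elliptic curve `y² = t (t² + 6 t + 13)` (conductor 52) has only `t = 0`. -/
theorem curve13 (t y : ℚ) (h : t * (t ^ 2 + 6 * t + 13) = y ^ 2) : t = 0 := by
  refine curve_rank_zero (q := 13) (j := 1) (k := 3) (by norm_num) (by norm_num) (by norm_num)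
    (by norm_num) (by norm_num) ?_ t y (by push_cast; linarith)
  intro v w hvw
  have h1 : ∀ v w : ZMod 13, v ^ 2 - 2 * 3 * w ^ 2 = 0 → w = 0 := by decide
  have h2 := (ZMod.intCast_zmod_eq_zero_iff_dvd (v ^ 2 - 2 * 3 * w ^ 2) 13).mpr (by exact_mod_cast hvw)
  have h3 := h1 (v : ZMod 13) (w : ZMod 13) (by push_cast at h2; exact h2)
  exact_mod_cast (ZMod.intCast_zmod_eq_zero_iff_dvd w 13).mp h3

/-- The elliptic curve `y² = t (t² + 22 t + 125)` (conductor 20) has only `t = 0`. -/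
theorem curve5 (t y : ℚ) (h : t * (t ^ 2 + 22 * t + 125) = y ^ 2) : t = 0 := by
  refine curve_rank_zero (q := 5) (j := 3) (k := 11) (by norm_num) (by norm_num) (by norm_num)
    (by norm_num) (by norm_num) ?_ t y (by push_cast; linarith)
  intro v w hvw
  have h1 : ∀ v w : ZMod 5, v ^ 2 - 2 * 11 * w ^ 2 = 0 → w = 0 := by decide
  have h2 := (ZMod.intCast_zmod_eq_zero_iff_dvd (v ^ 2 - 2 * 11 * w ^ 2) 5).mpr (by exact_mod_cast hvw)
  have h3 := h1 (v : ZMod 5) (w : ZMod 5) (by push_cast at h2; exact h2)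
  exact_mod_cast (ZMod.intCast_zmod_eq_zero_iff_dvd w 5).mp h3

end Fermat.Agent.H10
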