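import Fermat.Agent.H10_Descent
set_option autoImplicit false

namespace Fermat.Agent.H10

theorem sq_odd_eq (x : ℤ) (hx : x % 2 = 1) : ∃ m, x ^ 2 = 8 * m + 1 := by
  obtain ⟨y, rfl⟩ : ∃ y, x = 2 * y + 1 := ⟨x / 2, by omega⟩
  obtain ⟨z, hz⟩ := Int.even_mul_succ_self y
  exact ⟨z, by linear_combination 4 * hz⟩

theorem sq_mod_cases (x : ℤ) : x ^ 2 % 4 = 0 ∨ x ^ 2 % 8 = 1 := by
  rcases Int.emod_two_eq_zero_or_one x with h | h
  · left
    obtain ⟨y, rfl⟩ : ∃ y, x = 2 * y := ⟨x / 2, by omega⟩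
    have : (2 * y) ^ 2 = 4 * y ^ 2 := by ring
    omega
  · right; obtain ⟨m, hm⟩ := sq_odd_eq x h; omega

theorem q7_both_odd (M e N : ℤ) (hM : M % 2 = 1) (he : e % 2 = 1) :
    N ^ 2 ≠ M ^ 4 + 294 * M ^ 2 * e ^ 2 - 343 * e ^ 4 := by
  intro h
  obtain ⟨x, hx⟩ := sq_odd_eq M hM
  obtain ⟨y, hy⟩ := sq_odd_eq e he
  have hN : N ^ 2 = 16 * (-3 + 148 * x - 196 * y + 4 * (x ^ 2 + 294 * x * y - 343 * y ^ 2)) := by
    have h1 : M ^ 4 = (8 * x + 1) ^ 2 := by rw [← hx]; ring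
    have h2 : e ^ 4 = (8 * y + 1) ^ 2 := by rw [← hy]; ring
    rw [h, h1, h2, hx, hy]; ring
  obtain ⟨n, hn⟩ : (4 : ℤ) ∣ N := by
    rw [← Int.pow_dvd_pow_iff (n := 2) (by norm_num)]
    exact ⟨-3 + 148 * x - 196 * y + 4 * (x ^ 2 + 294 * x * y - 343 * y ^ 2),
      by rw [hN]; norm_num⟩
  have hn2 : n ^ 2 = -3 + 148 * x - 196 * y + 4 * (x ^ 2 + 294 * x * y - 343 * y ^ 2) := by
    rw [hn] at hN
    have : 16 * n ^ 2 = 16 * (-3 + 148 * x - 196 * y + 4 * (x ^ 2 + 294 * x * y - 343 * y ^ 2)) := by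
      rw [← hN]; ring
    linarith
  obtain ⟨a, ha⟩ := Int.even_mul_succ_self x
  obtain ⟨b, hb⟩ := Int.even_mul_succ_self y
  have hn3 : n ^ 2 = -3 + 8 * (18 * x - 24 * y + a - b + 147 * x * y - 171 * y ^ 2) := by
    rw [hn2]; linear_combination 4 * ha - 4 * hb
  rcases sq_mod_cases n with h1 | h1 <;> omega

/-- The quartic `N² = M⁴ + 294 M² e² - 343 e⁴` has no primitive integer solutions with `e ≠ 0`. -/
theorem q7_descent :
    ∀ n : ℕ, ∀ M e N : ℤ, e.natAbs = n → IsCoprime M e →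
      N ^ 2 = M ^ 4 + 294 * M ^ 2 * e ^ 2 - 343 * e ^ 4 → e = 0 := by
  intro n
  induction n using Nat.strong_induction_on with
  | _ n ih =>
  intro M e N hn hco hN
  by_contra he
  have he2 : 0 < e ^ 2 := by positivity
  have he4 : 0 < e ^ 4 := by positivity
  have h7p : Prime (7 : ℤ) := by
    have : Nat.Prime 7 := by norm_num
    exact_mod_cast Nat.prime_iff_prime_int.mp this
  -- the square trick mod 7
  have h7sq : ∀ a b : ℤ, (7 : ℤ) ∣ a ^ 2 + b ^ 4 → (7 : ℤ) ∣ a ∧ (7 : ℤ) ∣ b := by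
    intro a b hab
    have h1 : ∀ v w : ZMod 7, v ^ 2 + w ^ 4 = 0 → v = 0 ∧ w = 0 := by decide
    have h2 := (ZMod.intCast_zmod_eq_zero_iff_dvd (a ^ 2 + b ^ 4) 7).mpr (by exact_mod_cast hab)
    have h3 := h1 (a : ZMod 7) (b : ZMod 7) (by push_cast at h2; exact h2)
    exact ⟨by exact_mod_cast (ZMod.intCast_zmod_eq_zero_iff_dvd a 7).mp h3.1,
      by exact_mod_cast (ZMod.intCast_zmod_eq_zero_iff_dvd b 7).mp h3.2⟩
  -- 7 does not divide M
  have h7M : ¬ (7 : ℤ) ∣ M := by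
    rintro ⟨M', hM'⟩
    have h7e : ¬ (7 : ℤ) ∣ e := by
      intro h
      exact h7p.not_isUnit (hco.isUnit_of_dvd' ⟨M', hM'⟩ h)
    have h1 : N ^ 2 = 7 ^ 2 * (7 ^ 2 * M' ^ 4 + 294 * M' ^ 2 * e ^ 2 - 7 * e ^ 4) := by
      rw [hN, hM']; ring
    obtain ⟨N', hN'⟩ : (7 : ℤ) ∣ N := by
      rw [← Int.pow_dvd_pow_iff (n := 2) (by norm_num)]
      exact ⟨_, h1⟩
    have h2 : N' ^ 2 = 7 * (7 * M' ^ 4 + 42 * M' ^ 2 * e ^ 2 - e ^ 4) := by
      rw [hN'] at h1
      have : 7 ^ 2 * N' ^ 2 = 7 ^ 2 * (7 * (7 * M' ^ 4 + 42 * M' ^ 2 * e ^ 2 - e ^ 4)) := by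
        linear_combination h1
      exact mul_left_cancel₀ (by norm_num) this
    obtain ⟨N'', hN''⟩ : (7 : ℤ) ∣ N' := h7p.dvd_of_dvd_pow (n := 2) ⟨_, h2⟩
    have h3 : (7 : ℤ) ∣ e ^ 4 := by
      have : e ^ 4 = 7 * (M' ^ 4 + 6 * M' ^ 2 * e ^ 2 - N'' ^ 2) := by
        rw [hN''] at h2
        have h4 : 7 * e ^ 4 = 7 * (7 * (M' ^ 4 + 6 * M' ^ 2 * e ^ 2 - N'' ^ 2)) := by
          linear_combination h2
        exact mul_left_cancel₀ (by norm_num) h4
      exact ⟨_, this⟩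
    exact h7e (h7p.dvd_of_dvd_pow h3)
  have hnotboth : ¬ (M % 2 = 0 ∧ e % 2 = 0) := by
    rintro ⟨h1, h2⟩
    exact Int.prime_two.not_isUnit (hco.isUnit_of_dvd' (Int.dvd_of_emod_eq_zero h1)
      (Int.dvd_of_emod_eq_zero h2))
  have hnotodd : ¬ (M % 2 = 1 ∧ e % 2 = 1) := fun ⟨h1, h2⟩ => q7_both_odd M e N h1 h2 hN
  set S : ℤ := M ^ 2 + 147 * e ^ 2 with hS
  have hSpos : 0 < S := by positivity
  have hSN : S ^ 2 - N ^ 2 = 21952 * e ^ 4 := by rw [hN, hS]; ring
  have hSodd : S % 2 = 1 := by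
    rcases Int.emod_two_eq_zero_or_one M with h | h
    · rcases Int.emod_two_eq_zero_or_one e with h' | h'
      · exact absurd ⟨h, h'⟩ hnotboth
      · obtain ⟨a, rfl⟩ : ∃ a, M = 2 * a := ⟨M / 2, by omega⟩
        obtain ⟨b, hb⟩ := sq_odd_eq e h'
        have : S = 2 * (2 * a ^ 2 + 147 * 4 * b + 73) + 1 := by rw [hS, hb]; ring
        omega
    · rcases Int.emod_two_eq_zero_or_one e with h' | h'
      · obtain ⟨a, rfl⟩ : ∃ a, e = 2 * a := ⟨e / 2, by omega⟩
        obtain ⟨b, hb⟩ := sq_odd_eq M h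
        have : S = 2 * (4 * b + 294 * a ^ 2) + 1 := by rw [hS, hb]; ring
        omega
      · exact absurd ⟨h, h'⟩ hnotodd
  have hpar : (S - N) % 2 = 0 := by
    have h1 : (S - N) * (S + N) = 2 * (10976 * e ^ 4) := by linear_combination hSN
    have h2 : (2 : ℤ) ∣ (S - N) * (S + N) := ⟨_, h1⟩
    rcases Int.prime_two.dvd_or_dvd h2 with h3 | h3 <;> omega
  obtain ⟨A, hA⟩ : ∃ A, S - N = 2 * A := ⟨(S - N) / 2, by omega⟩
  obtain ⟨B, hB⟩ : ∃ B, S + N = 2 * B := ⟨(S + N) / 2, by omega⟩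
  have hSAB : S = A + B := by linarith
  have hAB : A * B = 7 ^ 3 * (2 * e) ^ 4 := by
    have h1 : (S - N) * (S + N) = 21952 * e ^ 4 := by linear_combination hSN
    rw [hA, hB] at h1; linarith
  have hABpos : 0 < A * B := by rw [hAB]; positivity
  obtain ⟨hApos, hBpos⟩ : 0 < A ∧ 0 < B := by
    rcases pos_and_pos_or_neg_and_neg_of_mul_pos hABpos with h | h
    · exact h
    · exfalso; linarith [h.1, h.2]
  have h7S : ¬ (7 : ℤ) ∣ S := by
    intro h
    apply h7M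
    apply h7p.dvd_of_dvd_pow (n := 2)
    have : M ^ 2 = S - 7 * (21 * e ^ 2) := by rw [hS]; ring
    rw [this]; exact dvd_sub h (dvd_mul_right _ _)
  have hcoAB : IsCoprime A B := by
    apply isCoprime_of_prime_not_dvd
    intro p hp h1 h2
    have hpz : Prime (p : ℤ) := Nat.prime_iff_prime_int.mp hp
    have hpS : (p : ℤ) ∣ S := by rw [hSAB]; exact dvd_add h1 h2
    have h3 : (p : ℤ) ∣ 7 ^ 3 * (2 * e) ^ 4 := by rw [← hAB]; exact Dvd.dvd.mul_right h1 _
    rcases hpz.dvd_or_dvd h3 with h4 | h4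
    · have h5 : (p : ℤ) ∣ 7 := hpz.dvd_of_dvd_pow h4
      have h6 : p ∣ 7 := by exact_mod_cast h5
      have h7 : p = 7 := (Nat.prime_dvd_prime_iff_eq hp (by norm_num)).mp h6
      subst h7
      exact h7S (by exact_mod_cast hpS)
    · have h5 : (p : ℤ) ∣ 2 * e := hpz.dvd_of_dvd_pow h4
      rcases hpz.dvd_or_dvd h5 with h6 | h6
      · have h7 : p ∣ 2 := by exact_mod_cast h6
        have h8 : p = 2 := (Nat.prime_dvd_prime_iff_eq hp Nat.prime_two).mp h7
        subst h8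
        have : S % 2 = 0 := Int.emod_eq_zero_of_dvd (by exact_mod_cast hpS)
        omega
      · have h7 : (p : ℤ) ∣ M := by
          apply hpz.dvd_of_dvd_pow (n := 2)
          have : M ^ 2 = S - e * (147 * e) := by rw [hS]; ring
          rw [this]; exact dvd_sub hpS (Dvd.dvd.mul_right h6 _)
        exact hpz.not_isUnit (hco.isUnit_of_dvd' h7 h6)
  obtain ⟨r, s, hr, hs, hrs, hcase⟩ := fourth_of_coprime_primePow (q := 7) (j := 3) (by norm_num)
    hApos hBpos hcoAB (by exact_mod_cast hAB)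
  push_cast at hcase
  have hsum : S = 7 ^ 3 * r ^ 4 + s ^ 4 := by
    rcases hcase with ⟨h1, h2⟩ | ⟨h1, h2⟩ <;> linear_combination hSAB + h1 + h2
  have hcors : IsCoprime r s := by
    rcases hcase with ⟨h1, h2⟩ | ⟨h1, h2⟩
    · rw [h1, h2] at hcoAB
      exact ((IsCoprime.pow_iff (by norm_num) (by norm_num)).mp hcoAB.of_mul_left_right)
    · rw [h1, h2] at hcoAB
      exact ((IsCoprime.pow_iff (by norm_num) (by norm_num)).mp hcoAB.of_mul_right_right).symm
  have hse : (2 * e) ^ 2 = (r * s) ^ 2 := by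
    have := congrArg (fun m : ℕ => (m : ℤ) ^ 2) hrs
    simpa only [Int.natCast_natAbs, sq_abs] using this
  have h7s : ¬ (7 : ℤ) ∣ s := by
    intro h
    apply h7S
    rw [hsum]
    exact dvd_add (by exact ⟨7 ^ 2 * r ^ 4, by ring⟩) (dvd_pow h (by norm_num))
  -- key equation
  have hM2 : 4 * M ^ 2 = 4 * (7 ^ 3 * r ^ 4 + s ^ 4) - 147 * r ^ 2 * s ^ 2 := by
    rw [← hsum, hS]; linear_combination (-147) * hse
  have hrs2 : (r * s) % 2 = 0 := by
    have : (2 : ℤ) ∣ (r * s) ^ 2 := by rw [← hse]; exact ⟨2 * e ^ 2, by ring⟩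
    exact Int.emod_eq_zero_of_dvd (Int.prime_two.dvd_of_dvd_pow this)
  rcases Int.emod_two_eq_zero_or_one r with hre | hro
  · -- r even
    obtain ⟨r', rfl⟩ : ∃ r', r = 2 * r' := ⟨r / 2, by omega⟩
    have hr' : 0 < r' := by linarith
    have hso : s % 2 = 1 := by
      rcases Int.emod_two_eq_zero_or_one s with h | h
      · exfalso
        exact Int.prime_two.not_isUnit (hcors.isUnit_of_dvd' (dvd_mul_right _ _)
          (Int.dvd_of_emod_eq_zero h))
      · exact h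
    have hM3 : M ^ 2 = s ^ 4 - 147 * r' ^ 2 * s ^ 2 + 5488 * r' ^ 4 := by linarith
    obtain ⟨m1, hm1⟩ := sq_odd_eq s hso
    -- r' even
    have hr'e : r' % 2 = 0 := by
      rcases Int.emod_two_eq_zero_or_one r' with h | h
      · exact h
      exfalso
      obtain ⟨m2, hm2⟩ := sq_odd_eq r' h
      have e1 : M ^ 2 = (8 * m1 + 1) ^ 2 - 147 * (8 * m2 + 1) * (8 * m1 + 1) + 5488 * (8 * m2 + 1) ^ 2 := by
        rw [hM3, ← hm1, ← hm2]; ring
      have e2 : M ^ 2 = 8 * (8 * m1 ^ 2 + 2 * m1 - 147 * (8 * m1 * m2 + m1 + m2) - 19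
          + 686 * (8 * m2 + 1) ^ 2) + 6 := by rw [e1]; ring
      rcases sq_mod_cases M with h5 | h5 <;> omega
    obtain ⟨f, rfl⟩ : ∃ f, r' = 2 * f := ⟨r' / 2, by omega⟩
    have hf : 0 < f := by linarith
    set K : ℤ := s ^ 2 - 294 * f ^ 2 with hK
    have hMK : M ^ 2 = K ^ 2 + 1372 * f ^ 4 := by rw [hM3, hK]; ring
    -- WLOG sign of M: use |M|
    obtain ⟨m, hmpos, hmM⟩ : ∃ m : ℤ, 0 ≤ m ∧ m ^ 2 = M ^ 2 := ⟨|M|, abs_nonneg _, sq_abs _⟩
    have hmK : m ^ 2 = K ^ 2 + 1372 * f ^ 4 := by rw [hmM, hMK]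
    have hf4 : 0 < f ^ 4 := by positivity
    obtain ⟨hmK2', hmK1⟩ := abs_lt_of_sq_lt_sq' (show K ^ 2 < m ^ 2 by linarith) hmpos
    have hmK2 : -K < m := by linarith
    have hpar2 : (m - K) % 2 = 0 := by
      have h1 : (m - K) * (m + K) = 2 * (686 * f ^ 4) := by linear_combination hmK
      have h2 : (2 : ℤ) ∣ (m - K) * (m + K) := ⟨_, h1⟩
      rcases Int.prime_two.dvd_or_dvd h2 with h3 | h3 <;> omega
    obtain ⟨C, hC⟩ : ∃ C, m - K = 2 * C := ⟨(m - K) / 2, by omega⟩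
    obtain ⟨D, hD⟩ : ∃ D, m + K = 2 * D := ⟨(m + K) / 2, by omega⟩
    have hCD : C * D = 7 ^ 3 * f ^ 4 := by
      have h1 : (m - K) * (m + K) = 1372 * f ^ 4 := by linear_combination hmK
      rw [hC, hD] at h1; linarith
    have hKDC : K = D - C := by linarith
    have hCpos : 0 < C := by linarith
    have hDpos : 0 < D := by linarith
    have hcofs : IsCoprime f s := by
      have : IsCoprime (f * 4) s := by
        have h2 : 2 * (2 * f) = f * 4 := by ring
        rwa [h2] at hcors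
      exact this.of_mul_left_left
    have hcoCD : IsCoprime C D := by
      apply isCoprime_of_prime_not_dvd
      intro p hp h1 h2
      have hpz : Prime (p : ℤ) := Nat.prime_iff_prime_int.mp hp
      have hpK : (p : ℤ) ∣ K := by rw [hKDC]; exact dvd_sub h2 h1
      have h3 : (p : ℤ) ∣ 7 ^ 3 * f ^ 4 := by rw [← hCD]; exact Dvd.dvd.mul_right h1 _
      rcases hpz.dvd_or_dvd h3 with h4 | h4
      · have h5 : (p : ℤ) ∣ 7 := hpz.dvd_of_dvd_pow h4
        have h6 : p ∣ 7 := by exact_mod_cast h5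
        have h7 : p = 7 := (Nat.prime_dvd_prime_iff_eq hp (by norm_num)).mp h6
        subst h7
        apply h7s
        apply h7p.dvd_of_dvd_pow (n := 2)
        have : s ^ 2 = K + 7 * (42 * f ^ 2) := by rw [hK]; ring
        rw [this]; exact dvd_add (by exact_mod_cast hpK) (dvd_mul_right _ _)
      · have h5 : (p : ℤ) ∣ f := hpz.dvd_of_dvd_pow h4
        have h6 : (p : ℤ) ∣ s := by
          apply hpz.dvd_of_dvd_pow (n := 2)
          have : s ^ 2 = K + f * (294 * f) := by rw [hK]; ring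
          rw [this]; exact dvd_add hpK (Dvd.dvd.mul_right h5 _)
        exact hpz.not_isUnit (hcofs.isUnit_of_dvd' h5 h6)
    obtain ⟨a, b, ha, hb, hab, hcase2⟩ := fourth_of_coprime_primePow (q := 7) (j := 3) (by norm_num)
      hCpos hDpos hcoCD (by exact_mod_cast hCD)
    push_cast at hcase2
    have hfab : f = a * b := by
      have h2 : 0 < a * b := by positivity
      omega
    have hcoab : IsCoprime b a := by
      rcases hcase2 with ⟨h1, h2⟩ | ⟨h1, h2⟩
      · rw [h1, h2] at hcoCD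
        exact ((IsCoprime.pow_iff (by norm_num) (by norm_num)).mp hcoCD.of_mul_left_right).symm
      · rw [h1, h2] at hcoCD
        exact ((IsCoprime.pow_iff (by norm_num) (by norm_num)).mp hcoCD.of_mul_right_right)
    rcases hcase2 with ⟨h1, h2⟩ | ⟨h1, h2⟩
    · -- K = b^4 - 343 a^4
      have hnew : s ^ 2 = b ^ 4 + 294 * b ^ 2 * a ^ 2 - 343 * a ^ 4 := by
        have : s ^ 2 = K + 294 * f ^ 2 := by rw [hK]; ring
        rw [this, hKDC, h1, h2, hfab]; ring
      have hlt : a.natAbs < n := by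
        have h1 : 1 ≤ b * s := Int.add_one_le_iff.mpr (mul_pos hb hs)
        have h2 : a ≤ a * (b * s) := le_mul_of_one_le_right ha.le h1
        have h3 : (2 * e).natAbs = (2 * (2 * f) * s).natAbs := hrs
        have h4 : 2 * (2 * f) * s = 4 * (a * (b * s)) := by rw [hfab]; ring
        rw [h4] at h3
        omega
      have := ih a.natAbs hlt b a s rfl hcoab hnew
      omega
    · -- K = 343 a^4 - b^4: impossible mod 7
      have hnew : s ^ 2 + b ^ 4 = 7 * (42 * b ^ 2 * a ^ 2 + 49 * a ^ 4) := by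
        have : s ^ 2 = K + 294 * f ^ 2 := by rw [hK]; ring
        rw [this, hKDC, h1, h2, hfab]; ring
      exact h7s (h7sq s b ⟨_, hnew⟩).1
  · -- r odd, s even
    have hse' : s % 2 = 0 := by
      rcases Int.prime_two.dvd_or_dvd (Int.dvd_of_emod_eq_zero hrs2) with h | h <;> omega
    obtain ⟨s', rfl⟩ : ∃ s', s = 2 * s' := ⟨s / 2, by omega⟩
    have hM3 : M ^ 2 = 16 * s' ^ 4 - 147 * r ^ 2 * s' ^ 2 + 343 * r ^ 4 := by linarith
    set K : ℤ := 32 * s' ^ 2 - 147 * r ^ 2 with hK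
    obtain ⟨m, hmpos, hmM⟩ : ∃ m : ℤ, 0 ≤ m ∧ m ^ 2 = M ^ 2 := ⟨|M|, abs_nonneg _, sq_abs _⟩
    have hmK : (8 * m) ^ 2 = K ^ 2 + 343 * r ^ 4 := by
      have : (8 * m) ^ 2 = 64 * M ^ 2 := by rw [← hmM]; ring
      rw [this, hM3, hK]; ring
    have hr4 : 0 < r ^ 4 := by positivity
    obtain ⟨hmK2', hmK1⟩ := abs_lt_of_sq_lt_sq' (show K ^ 2 < (8 * m) ^ 2 by linarith)
      (show 0 ≤ 8 * m by linarith)
    have hmK2 : -K < 8 * m := by linarith
    have hCD : (8 * m - K) * (8 * m + K) = 7 ^ 3 * r ^ 4 := by linear_combination hmK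
    have hr4odd : (r ^ 4) % 2 = 1 := by
      obtain ⟨x, hx⟩ := sq_odd_eq r hro
      have : r ^ 4 = 2 * (32 * x ^ 2 + 8 * x) + 1 := by
        have : r ^ 4 = (r ^ 2) ^ 2 := by ring
        rw [this, hx]; ring
      omega
    have hcoCD : IsCoprime (8 * m - K) (8 * m + K) := by
      apply isCoprime_of_prime_not_dvd
      intro p hp h1 h2
      have hpz : Prime (p : ℤ) := Nat.prime_iff_prime_int.mp hp
      have hp2K : (p : ℤ) ∣ 2 * K := by
        have : 2 * K = (8 * m + K) - (8 * m - K) := by ring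
        rw [this]; exact dvd_sub h2 h1
      have h3 : (p : ℤ) ∣ 7 ^ 3 * r ^ 4 := by rw [← hCD]; exact Dvd.dvd.mul_right h1 _
      have hpK : (p : ℤ) ∣ K := by
        rcases hpz.dvd_or_dvd hp2K with h4 | h4
        · exfalso
          have h7 : p ∣ 2 := by exact_mod_cast h4
          have h8 : p = 2 := (Nat.prime_dvd_prime_iff_eq hp Nat.prime_two).mp h7
          subst h8
          have : (7 ^ 3 * r ^ 4) % 2 = 0 := Int.emod_eq_zero_of_dvd (by exact_mod_cast h3)
          omega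
        · exact h4
      have hp2 : ¬ p = 2 := by
        rintro rfl
        have : (7 ^ 3 * r ^ 4) % 2 = 0 := Int.emod_eq_zero_of_dvd (by exact_mod_cast h3)
        omega
      have hp2' : ¬ (p : ℤ) ∣ 2 := by
        intro h
        have h7 : p ∣ 2 := by exact_mod_cast h
        exact hp2 ((Nat.prime_dvd_prime_iff_eq hp Nat.prime_two).mp h7)
      have hs'K : ∀ x : ℤ, (p : ℤ) ∣ x → x = 147 * r ^ 2 → (p : ℤ) ∣ s' := by
        intro x hx hx'
        have h5 : (p : ℤ) ∣ 2 ^ 5 * s' ^ 2 := by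
          have : 2 ^ 5 * s' ^ 2 = K + x := by rw [hK, hx']; ring
          rw [this]; exact dvd_add hpK hx
        rcases hpz.dvd_or_dvd h5 with h6 | h6
        · exact absurd (hpz.dvd_of_dvd_pow h6) hp2'
        · exact hpz.dvd_of_dvd_pow h6
      rcases hpz.dvd_or_dvd h3 with h4 | h4
      · have h5 : (p : ℤ) ∣ 7 := hpz.dvd_of_dvd_pow h4
        have h6 : p ∣ 7 := by exact_mod_cast h5
        have h7 : p = 7 := (Nat.prime_dvd_prime_iff_eq hp (by norm_num)).mp h6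
        subst h7
        have h8 : (7 : ℤ) ∣ s' := by
          have := hs'K (147 * r ^ 2) (by exact ⟨21 * r ^ 2, by push_cast; ring⟩) rfl
          exact_mod_cast this
        exact h7s (Dvd.dvd.mul_left h8 _)
      · have h5 : (p : ℤ) ∣ r := hpz.dvd_of_dvd_pow h4
        have h6 : (p : ℤ) ∣ s' := hs'K (147 * r ^ 2)
          (by rw [sq]; exact Dvd.dvd.mul_left (Dvd.dvd.mul_left h5 _) _) rfl
        exact hpz.not_isUnit (hcors.isUnit_of_dvd' h5 (Dvd.dvd.mul_left h6 _))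
    obtain ⟨a, b, ha, hb, hab, hcase2⟩ := fourth_of_coprime_primePow (q := 7) (j := 3) (by norm_num)
      (by linarith) (by linarith) hcoCD (by exact_mod_cast hCD)
    push_cast at hcase2
    have hfab : r = a * b := by
      have h2 : 0 < a * b := by positivity
      omega
    rcases hcase2 with ⟨h1, h2⟩ | ⟨h1, h2⟩
    · have hnew : (8 * s') ^ 2 = b ^ 4 + 294 * b ^ 2 * a ^ 2 - 343 * a ^ 4 := by
        have : (8 * s') ^ 2 = 2 * K + 294 * r ^ 2 := by rw [hK]; ring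
        have h3 : 2 * K = b ^ 4 - 7 ^ 3 * a ^ 4 := by linear_combination h2 - h1
        rw [this, h3, hfab]; ring
      have hao : a % 2 = 1 := by
        rcases Int.emod_two_eq_zero_or_one a with h | h
        · exfalso
          have : r % 2 = 0 := by rw [hfab, Int.mul_emod, h]; simp
          omega
        · exact h
      have hbo : b % 2 = 1 := by
        rcases Int.emod_two_eq_zero_or_one b with h | h
        · exfalso
          have : r % 2 = 0 := by rw [hfab, Int.mul_emod, h]; simp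
          omega
        · exact h
      exact q7_both_odd b a (8 * s') hbo hao hnew
    · have hnew : (8 * s') ^ 2 + b ^ 4 = 7 * (42 * b ^ 2 * a ^ 2 + 49 * a ^ 4) := by
        have : (8 * s') ^ 2 = 2 * K + 294 * r ^ 2 := by rw [hK]; ring
        have h3 : 2 * K = 7 ^ 3 * a ^ 4 - b ^ 4 := by linear_combination h2 - h1
        rw [this, h3, hfab]; ring
      have h4 := (h7sq (8 * s') b ⟨_, hnew⟩).1
      have h5 : (7 : ℤ) ∣ s' := by
        rcases h7p.dvd_or_dvd h4 with h6 | h6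
        · norm_num at h6
        · exact h6
      exact h7s (Dvd.dvd.mul_left h5 _)

theorem curve7 (Z Y : ℚ) : Y ^ 2 ≠ Z ^ 4 + 294 * Z ^ 2 - 343 := by
  intro h
  set M : ℤ := Z.num with hM
  set e : ℤ := (Z.den : ℤ) with he
  have hepos : 0 < e := by rw [he]; exact_mod_cast Z.den_pos
  have heQ : (e : ℚ) ≠ 0 := by exact_mod_cast hepos.ne'
  have hZ : Z = M / e := by rw [hM, he]; exact_mod_cast (Rat.num_div_den Z).symm
  have hco : IsCoprime M e := by
    rw [hM, he, Int.isCoprime_iff_gcd_eq_one]; exact Z.reduced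
  have h1 : ((M ^ 4 + 294 * M ^ 2 * e ^ 2 - 343 * e ^ 4 : ℤ) : ℚ) = (Y * e ^ 2) ^ 2 := by
    push_cast
    rw [mul_pow, h, hZ]
    field_simp
  have hsq : IsSquare (M ^ 4 + 294 * M ^ 2 * e ^ 2 - 343 * e ^ 4) := by
    rw [← Rat.isSquare_intCast_iff, h1]
    exact ⟨Y * e ^ 2, by ring⟩
  obtain ⟨N, hN⟩ := hsq
  have := q7_descent e.natAbs M e N rfl hco (by rw [hN]; ring)
  omega

/-- Fermat's Last Theorem for exponent 7 (Genocchi's argument). -/
theorem flt7 (x y z : ℚ) (h : x ^ 7 + y ^ 7 + z ^ 7 = 0) : x * y * z = 0 := by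
  by_contra hxyz
  set s : ℚ := x + y + z with hs
  set q : ℚ := x * y + y * z + z * x with hq
  set m : ℚ := x * y * z with hm
  set u : ℚ := (x + y) * (y + z) * (z + x) with hu
  have hum : u = s * q - m := by rw [hu, hs, hq, hm]; ring
  have key : s ^ 7 = 7 * u * ((s ^ 2 - q) ^ 2 + s * m) := by
    rw [hs, hu, hq, hm]; linear_combination h
  rcases eq_or_ne s 0 with h0 | h0
  · rw [h0] at key hum
    have h1 : u * q ^ 2 = 0 := by linarith [key]
    rcases mul_eq_zero.mp h1 with h2 | h2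
    · apply hxyz; linarith
    · have h3 : q = 0 := by simpa using h2
      have h4 : x ^ 2 + y ^ 2 + z ^ 2 = 0 := by
        have : x ^ 2 + y ^ 2 + z ^ 2 = s ^ 2 - 2 * q := by rw [hs, hq]; ring
        rw [this, h0, h3]; ring
      have h5 : x ^ 2 = 0 := by nlinarith [sq_nonneg x, sq_nonneg y, sq_nonneg z]
      have h6 : x = 0 := by simpa using h5
      apply hxyz
      rw [hm, h6]; ring
  · have hu0 : u ≠ 0 := by
      rintro h1
      rw [h1] at key
      apply h0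
      have : s ^ 7 = 0 := by rw [key]; ring
      simpa using this
    have hm' : m = s * q - u := by linarith
    have key2 : s ^ 7 = 7 * u * (q ^ 2 - s ^ 2 * q + s ^ 4 - s * u) := by
      rw [key, hm']; ring
    apply curve7 (7 * (2 * q - s ^ 2) / s ^ 2) (28 * (7 * (u / s ^ 3) - s ^ 3 / u))
    have key3 : (7 * (2 * q - s ^ 2) / s ^ 2) ^ 2 + 147 = 28 * (7 * (u / s ^ 3) + s ^ 3 / u) := by
      field_simp
      linear_combination (-28) * key2
    have e1 : (7 * (2 * q - s ^ 2) / s ^ 2) ^ 4 + 294 * (7 * (2 * q - s ^ 2) / s ^ 2) ^ 2 - 343 =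
        ((7 * (2 * q - s ^ 2) / s ^ 2) ^ 2 + 147) ^ 2 - 21952 := by ring
    rw [e1, key3]
    field_simp
    ring

end Fermat.Agent.H10
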