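import Fermat.Agent.H10_K3d
/-!
# S25-K3: twisting classes on a curve
`exists_twists` : a set of line bundles on `C` such that any two classes of the same Euler
characteristic on `C_K` become acyclic after twisting by one of them.
-/
set_option autoImplicit false
universe u v
open CategoryTheory AlgebraicGeometry CategoryTheory.Limits TopologicalSpace Opposite Module
open AlgebraicGeometry.RelPicard NeronModelInfra

noncomputable section

namespace Fermat.Agent.H10.K3

open Fermat.Agent.H25 Fermat.Agent.H21T Fermat.Agent.H20T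

section Step

variable {K : Type u} [Field K] {Z : Scheme.{u}} {z : Z ⟶ Spec (CommRingCat.of K)}

/-- one step: twisting down at a point where a section does not vanish preserves `H¹ = 0`. -/
theorem sup_eq_top_of_isTw (τ : TwoChart z) {x : Spec (CommRingCat.of K) ⟶ Z} (hx : x ≫ z = 𝟙 _)
    {L P : Z.Modules} (hL : Scheme.Modules.IsInvertible L) (hP : Scheme.Modules.IsInvertible P)
    (h : IsTw x P L) (hsup : (latOf τ L hL).P ⊔ (latOf τ L hL).Q = ⊤)
    (a : Γ(L, τ.U)) (ha : Sec.resL z L inf_le_left (toSec a) ∈ (latOf τ L hL).Q)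
    (hne : pb x L a ≠ 0) : (latOf τ P hP).P ⊔ (latOf τ P hP).Q = ⊤ := by
  obtain ⟨φ, hφ⟩ := h
  obtain ⟨fL, -⟩ := chiL_finite τ hL
  obtain ⟨fP, fP'⟩ := chiL_finite τ hP
  have hχ := chiL_tw τ hx hP hL hφ
  let f := Sec.mapL z φ (τ.U ⊓ τ.V)
  have hf : Function.Injective f := Sec.mapL_injective (hφ _).1
  have hU : ∀ q : Sec z P τ.U, f (Sec.resL z P inf_le_left q) =
      Sec.resL z L inf_le_left (Sec.mapL z φ τ.U q) := fun q => Sec.ext (app_res φ _ _)
  have hV : ∀ q : Sec z P τ.V, f (Sec.resL z P inf_le_right q) =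
      Sec.resL z L inf_le_right (Sec.mapL z φ τ.V q) := fun q => Sec.ext (app_res φ _ _)
  have hle : ((latOf τ P hP).P ⊓ (latOf τ P hP).Q).map f ≤ (latOf τ L hL).P ⊓ (latOf τ L hL).Q := by
    rintro _ ⟨p, ⟨⟨q, hq⟩, ⟨q', hq'⟩⟩, rfl⟩
    constructor
    · rw [← hq, hU]; exact ⟨_, rfl⟩
    · rw [← hq', hV]; exact ⟨_, rfl⟩
  have hlt : ((latOf τ P hP).P ⊓ (latOf τ P hP).Q).map f < (latOf τ L hL).P ⊓ (latOf τ L hL).Q := by
    refine lt_of_le_of_ne hle fun heq => ?_
    have hmem : Sec.resL z L inf_le_left (toSec a) ∈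
        (latOf τ L hL).P ⊓ (latOf τ L hL).Q := ⟨⟨toSec a, rfl⟩, ha⟩
    rw [← heq] at hmem
    obtain ⟨p, ⟨⟨q, hq⟩, -⟩, hp⟩ := hmem
    rw [← hq, hU] at hp
    have h1 : Sec.mapL z φ τ.U q = toSec a := resU_injective τ hL hp
    apply hne
    have h2 : a = φ.app τ.U q.s := (congrArg Sec.s h1).symm
    rw [h2]
    exact hφ.pb_eq_zero _
  have h1 := Submodule.finrank_lt_finrank_of_lt hlt
  have h2 : finrank K (((latOf τ P hP).P ⊓ (latOf τ P hP).Q).map f :
      Submodule K (Sec z L (τ.U ⊓ τ.V))) =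
      finrank K ((latOf τ P hP).P ⊓ (latOf τ P hP).Q : Submodule K (Sec z P (τ.U ⊓ τ.V))) :=
    (Submodule.equivMapOfInjective f hf _).finrank_eq.symm
  have h3 : chiL τ L hL = finrank K ((latOf τ L hL).P ⊓ (latOf τ L hL).Q :
      Submodule K (Sec z L (τ.U ⊓ τ.V))) := by
    rw [chiL, hsup]
    have h2 : Module.finrank K (Sec z L (τ.U ⊓ τ.V) ⧸
        (⊤ : Submodule K (Sec z L (τ.U ⊓ τ.V)))) = 0 :=
      Module.finrank_zero_of_subsingleton
    rw [h2]; simp
  have h4 : chiL τ P hP = (finrank K ((latOf τ P hP).P ⊓ (latOf τ P hP).Q :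
      Submodule K (Sec z P (τ.U ⊓ τ.V))) : ℤ) -
      finrank K (Sec z P (τ.U ⊓ τ.V) ⧸ ((latOf τ P hP).P ⊔ (latOf τ P hP).Q)) := rfl
  have h5 : finrank K (Sec z P (τ.U ⊓ τ.V) ⧸ ((latOf τ P hP).P ⊔ (latOf τ P hP).Q)) = 0 := by
    omega
  rw [finrank_zero_iff, Submodule.Quotient.subsingleton_iff] at h5
  exact h5

theorem chiL_of_sup (τ : TwoChart z) {L : Z.Modules} (hL : Scheme.Modules.IsInvertible L)
    (hsup : (latOf τ L hL).P ⊔ (latOf τ L hL).Q = ⊤) :
    chiL τ L hL = finrank K ((latOf τ L hL).P ⊓ (latOf τ L hL).Q :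
      Submodule K (Sec z L (τ.U ⊓ τ.V))) := by
  rw [chiL, hsup]
  have h2 : Module.finrank K (Sec z L (τ.U ⊓ τ.V) ⧸
      (⊤ : Submodule K (Sec z L (τ.U ⊓ τ.V)))) = 0 :=
    Module.finrank_zero_of_subsingleton
  rw [h2]; simp

theorem isCompl_of_chiL_eq_zero (τ : TwoChart z) {L : Z.Modules}
    (hL : Scheme.Modules.IsInvertible L)
    (hsup : (latOf τ L hL).P ⊔ (latOf τ L hL).Q = ⊤) (h : chiL τ L hL = 0) :
    IsCompl (latOf τ L hL).P (latOf τ L hL).Q := by
  refine ⟨?_, codisjoint_iff.mpr hsup⟩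
  rw [chiL_of_sup τ hL hsup] at h
  obtain ⟨fL, -⟩ := chiL_finite τ hL
  have h1 : finrank K ((latOf τ L hL).P ⊓ (latOf τ L hL).Q :
      Submodule K (Sec z L (τ.U ⊓ τ.V))) = 0 := by exact_mod_cast h
  rw [Submodule.finrank_eq_zero] at h1
  exact disjoint_iff.mpr h1

theorem exists_sec_of_chiL_pos (τ : TwoChart z) {L : Z.Modules}
    (hL : Scheme.Modules.IsInvertible L) (hsup : (latOf τ L hL).P ⊔ (latOf τ L hL).Q = ⊤)
    (h : 0 < chiL τ L hL) : ∃ a : Γ(L, τ.U), a ≠ 0 ∧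
      Sec.resL z L inf_le_left (toSec a) ∈ (latOf τ L hL).Q := by
  rw [chiL_of_sup τ hL hsup] at h
  obtain ⟨x, ⟨⟨a, ha⟩, hx⟩, hx0⟩ : ∃ x ∈ ((latOf τ L hL).P ⊓ (latOf τ L hL).Q :
      Submodule K (Sec z L (τ.U ⊓ τ.V))), x ≠ 0 := by
    rw [← Submodule.ne_bot_iff]
    intro hbot
    rw [hbot] at h
    have h1 : Module.finrank K (⊥ : Submodule K (Sec z L (τ.U ⊓ τ.V))) = 0 := finrank_bot _ _
    rw [h1] at h
    simp at h
  refine ⟨a.s, fun h0 => hx0 ?_, ?_⟩
  · have : a = 0 := h0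
    rw [← ha, this, map_zero]
  · rw [toSec_s, ha]; exact hx

end Step

section Main

variable {k : Type u} [Field k] {C : Scheme.{u}} {c : C ⟶ Spec (CommRingCat.of k)}
  [IsAlgClosed k] [IsProper c] [SmoothOfRelativeDimension 1 c] [IsIntegral C]

theorem exists_points (τ : TwoChart c) {K : Type u} [Field K]
    (z : Spec (CommRingCat.of K) ⟶ Spec (CommRingCat.of k)) (n : ℕ) :
    ∀ {L L' : (pullback c z).Modules} (hL : Scheme.Modules.IsInvertible L)
      (hL' : Scheme.Modules.IsInvertible L')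
      (_ : (latOf (H51Pb.baseChange τ z) L hL).P ⊔ (latOf (H51Pb.baseChange τ z) L hL).Q = ⊤)
      (_ : (latOf (H51Pb.baseChange τ z) L' hL').P ⊔ (latOf (H51Pb.baseChange τ z) L' hL').Q = ⊤)
      (_ : chiL (H51Pb.baseChange τ z) L hL = n) (_ : chiL (H51Pb.baseChange τ z) L' hL' = n),
      ∃ xs : List (SchemeHomOver (𝟙 (Spec (CommRingCat.of k))) c),
        AcycP τ z (SPic.mk L hL * bcl z (xs.map ptCl).prod) ∧
        AcycP τ z (SPic.mk L' hL' * bcl z (xs.map ptCl).prod) := by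
  induction n with
  | zero =>
    intro L L' hL hL' h1 h2 h3 h4
    refine ⟨[], ?_, ?_⟩
    · rw [List.map_nil, List.prod_nil, map_one, mul_one, acycP_mk]
      exact isCompl_of_chiL_eq_zero _ hL h1 (by rw [h3]; rfl)
    · rw [List.map_nil, List.prod_nil, map_one, mul_one, acycP_mk]
      exact isCompl_of_chiL_eq_zero _ hL' h2 (by rw [h4]; rfl)
  | succ n ih =>
    intro L L' hL hL' h1 h2 h3 h4
    obtain ⟨a, ha, haQ⟩ := exists_sec_of_chiL_pos _ hL h1 (by rw [h3]; positivity)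
    obtain ⟨a', ha', haQ'⟩ := exists_sec_of_chiL_pos _ hL' h2 (by rw [h4]; positivity)
    have hfin := (finite_zeros_sec z τ hL ha).union (finite_zeros_sec z τ hL' ha')
    have hinf := infinite_pt τ
    obtain ⟨y, hy⟩ := hfin.infinite_compl.nonempty
    rw [Set.mem_compl_iff, Set.mem_union, not_or] at hy
    obtain ⟨P, hP, e1, t1⟩ := exists_isTw_bcl (ptOf τ.affU y) z hL
    obtain ⟨P', hP', e2, t2⟩ := exists_isTw_bcl (ptOf τ.affU y) z hL'
    have s1 := sup_eq_top_of_isTw _ (graph_snd _) hL hP t1 h1 a haQ hy.1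
    have s2 := sup_eq_top_of_isTw _ (graph_snd _) hL' hP' t2 h2 a' haQ' hy.2
    have c1 : chiL (H51Pb.baseChange τ z) P hP = n := by
      obtain ⟨φ, hφ⟩ := t1
      have := chiL_tw (H51Pb.baseChange τ z) (graph_snd _) hP hL hφ
      rw [h3] at this
      push_cast at this
      omega
    have c2 : chiL (H51Pb.baseChange τ z) P' hP' = n := by
      obtain ⟨φ, hφ⟩ := t2
      have := chiL_tw (H51Pb.baseChange τ z) (graph_snd _) hP' hL' hφ
      rw [h4] at this
      push_cast at this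
      omega
    obtain ⟨xs, r1, r2⟩ := ih hP hP' s1 s2 c1 c2
    refine ⟨ptOf τ.affU y :: xs, ?_, ?_⟩
    · rw [List.map_cons, List.prod_cons, map_mul, ← mul_assoc, e1]
      exact r1
    · rw [List.map_cons, List.prod_cons, map_mul, ← mul_assoc, e2]
      exact r2

/-- **Riemann-Roch-lite for line bundles**: a set of twisting classes on `C`. -/
theorem exists_twists (τ : TwoChart c) :
    ∃ (J : Type u) (ν : J → SPic C),
      (∀ j, ∃ e : ℤ, ∀ (K : Type u) [Field K]
        (z : Spec (CommRingCat.of K) ⟶ Spec (CommRingCat.of k)) (α : SPic (pullback c z)),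
          chiP τ z (α * bcl z (ν j)) = chiP τ z α + e) ∧
      ∀ (K : Type u) [Field K] (z : Spec (CommRingCat.of K) ⟶ Spec (CommRingCat.of k))
        (α β : SPic (pullback c z)), chiP τ z α = chiP τ z β →
        ∃ j, AcycP τ z (α * bcl z (ν j)) ∧ AcycP τ z (β * bcl z (ν j)) := by
  obtain ⟨N, ⟨D⟩⟩ := exists_infData τ
  obtain ⟨e, he⟩ := exists_chiP_inf τ D
  have hpow : ∀ (m : ℕ) (K : Type u) [Field K]
      (z : Spec (CommRingCat.of K) ⟶ Spec (CommRingCat.of k)) (α : SPic (pullback c z)),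
      chiP τ z (α * bcl z ((SPic.mk N D.isInvertible) ^ m)) = chiP τ z α + m * e := by
    intro m K _ z
    induction m with
    | zero => intro α; simp
    | succ m ih =>
      intro α
      rw [pow_succ, map_mul, ← mul_assoc, he, ih]
      push_cast
      ring
  refine ⟨ℕ × List (SchemeHomOver (𝟙 (Spec (CommRingCat.of k))) c),
    fun j => (SPic.mk N D.isInvertible) ^ j.1 * (j.2.map ptCl).prod, ?_, ?_⟩
  · rintro ⟨m, xs⟩
    refine ⟨m * e - xs.length, fun K _ z α => ?_⟩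
    simp only
    rw [map_mul, ← mul_assoc, chiP_mul_prod, hpow]
    ring
  · intro K _ z α β hαβ
    induction α using SPic.ind with | _ L hL
    induction β using SPic.ind with | _ L' hL'
    obtain ⟨m₀, h₀⟩ := (D.pb z).exists_vanishing hL
    obtain ⟨m₁, h₁⟩ := (D.pb z).exists_vanishing hL'
    obtain ⟨P, hP, e1, s1⟩ := h₀ (max m₀ m₁) (le_max_left _ _)
    obtain ⟨P', hP', e2, s2⟩ := h₁ (max m₀ m₁) (le_max_right _ _)
    have e1' : SPic.mk L hL * bcl z ((SPic.mk N D.isInvertible) ^ (max m₀ m₁)) = SPic.mk P hP := by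
      rw [map_pow]; exact e1
    have e2' : SPic.mk L' hL' * bcl z ((SPic.mk N D.isInvertible) ^ (max m₀ m₁)) =
        SPic.mk P' hP' := by
      rw [map_pow]; exact e2
    have c1 := hpow (max m₀ m₁) K z (SPic.mk L hL)
    have c2 := hpow (max m₀ m₁) K z (SPic.mk L' hL')
    rw [e1'] at c1
    rw [e2', ← hαβ, ← c1] at c2
    have c3 : chiL (H51Pb.baseChange τ z) P hP =
        finrank K ((latOf (H51Pb.baseChange τ z) P hP).P ⊓ (latOf (H51Pb.baseChange τ z) P hP).Q :
      Submodule K (Sec (pullback.snd c z) P _)) := chiL_of_sup _ hP s1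
    obtain ⟨xs, r1, r2⟩ := exists_points τ z _ hP hP' s1 s2 c3 (c2.trans c3)
    refine ⟨(max m₀ m₁, xs), ?_, ?_⟩
    · simp only
      rw [map_mul, ← mul_assoc, e1']
      exact r1
    · simp only
      rw [map_mul, ← mul_assoc, e2']
      exact r2

end Main

end Fermat.Agent.H10.K3
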