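import Fermat.Agent.H20Deg3
/-!
# S25-K3, part 1: twists by rational points as classes on `C`
* `isTw_tens` : `T = L ⊗ O(-γ)` is `L(-γ)`
* `ptMod x` : the module `O(-x)` on `C`; `ptCl x : SPic C` its class
* `exists_isTw_bcl` : `α * bcl (ptCl x) = α(-x)` over any base
* `chiP_mul_ptCl`
-/
set_option autoImplicit false
universe u v
open CategoryTheory AlgebraicGeometry CategoryTheory.Limits TopologicalSpace Opposite Module
open AlgebraicGeometry.RelPicard NeronModelInfra

noncomputable section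

namespace Fermat.Agent.H10.K3

open Fermat.Agent.H25 Fermat.Agent.H21T Fermat.Agent.H20T

section Tensor

variable {X T : Scheme.{u}} {γ : T ⟶ X} {L N P : X.Modules}

/-- `L ⊗ O(-γ) = L(-γ)` -/
theorem isTw_tens (hγ : IsCart γ) (hL : Scheme.Modules.IsInvertible L)
    (hN : Scheme.Modules.IsInvertible N) (t : Tens L N P) (h : IsTw γ N (uMod X)) :
    IsTw γ P L := by
  obtain ⟨φ, hφ⟩ := h
  obtain ⟨Φ, hΦ, -⟩ := t.exists_lift hL hN (P := L)
    ((Tens.unit L).toBiHom.precomp (𝟙 L) φ)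
  refine ⟨Φ, TwHom.of_local fun p => ?_⟩
  obtain ⟨W₀, hp₀, e₀, he₀⟩ := hγ p
  obtain ⟨W, hW, hp, s, hs⟩ := exists_isGen_of_mem hL hp₀
  have he := he₀.res hW
  obtain ⟨n, hn, hns⟩ := hφ.exists_gen he ((isGen_one (⊤ : X.Opens)).res (le_top : W ≤ ⊤))
  refine ⟨W, hp, fun V hV => twHom_local_of_gen he (t.gen _ _ _ hs hn) hs ?_ V hV⟩
  rw [hΦ, BiHom.precomp_m, hns]
  change uFun (resO hW e₀ • res (uMod X) (le_top : W ≤ ⊤) (uSec (1 : Γ(X, ⊤)))) •
    (𝟙 L : L ⟶ L).app W s = _
  rw [uFun_smul, uFun_res, uFun_uSec, resO_one, mul_one]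
  rfl

end Tensor

section Points

variable {k : Type u} [Field k] {C T T' : Scheme.{u}} {c : C ⟶ Spec (CommRingCat.of k)}
  {t : T ⟶ Spec (CommRingCat.of k)} {t' : T' ⟶ Spec (CommRingCat.of k)}

/-- the constant `T`-point attached to a `k`-point -/
def cst (x : SchemeHomOver (𝟙 (Spec (CommRingCat.of k))) c) (t : T ⟶ Spec (CommRingCat.of k)) :
    SchemeHomOver t c :=
  postComp x (⟨t, Category.comp_id t⟩ : SchemeHomOver t (𝟙 _))

lemma cst_fst (x : SchemeHomOver (𝟙 (Spec (CommRingCat.of k))) c)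
    (t : T ⟶ Spec (CommRingCat.of k)) : (cst x t).1 = t ≫ x.1 := rfl

variable [IsAlgClosed k] [IsSeparated c] [SmoothOfRelativeDimension 1 c] [IsIntegral C]

theorem exists_ptMod (x : SchemeHomOver (𝟙 (Spec (CommRingCat.of k))) c) :
    ∃ M : C.Modules, Scheme.Modules.IsInvertible M ∧
      ∀ {T : Scheme.{u}} (t : T ⟶ Spec (CommRingCat.of k)),
        IsTw (graph (cst x t)) ((Scheme.Modules.pullback (pullback.fst c t)).obj M)
          (uMod (pullback c t)) := by
  obtain ⟨L, hL, hL'⟩ := exists_isTw (isCart_graph x) (isInvertible_uMod (pullback c (𝟙 _)))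
  obtain ⟨M, hM, ⟨e⟩⟩ := exists_descend c hL
  refine ⟨M, hM, fun {T} t => ?_⟩
  refine (hL'.graph_baseChange (isInvertible_uMod _)
    (⟨t, Category.comp_id t⟩ : SchemeHomOver t (𝟙 _))).of_iso ?_
    (Scheme.Modules.pullbackUnitIso _)
  exact (Scheme.Modules.pullback _).mapIso e.symm ≪≫ (Scheme.Modules.pullbackComp _ _).app M ≪≫
      (Scheme.Modules.pullbackCongr (baseChangeSnd_fst _)).app M

/-- the module `O(-x)` on `C` -/
def ptMod (x : SchemeHomOver (𝟙 (Spec (CommRingCat.of k))) c) : C.Modules :=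
  (exists_ptMod x).choose

lemma isInvertible_ptMod (x : SchemeHomOver (𝟙 (Spec (CommRingCat.of k))) c) :
    Scheme.Modules.IsInvertible (ptMod x) := (exists_ptMod x).choose_spec.1

lemma isTw_ptMod (x : SchemeHomOver (𝟙 (Spec (CommRingCat.of k))) c)
    (t : T ⟶ Spec (CommRingCat.of k)) :
    IsTw (graph (cst x t)) ((Scheme.Modules.pullback (pullback.fst c t)).obj (ptMod x))
          (uMod (pullback c t)) := (exists_ptMod x).choose_spec.2 t

/-- the class of `O(-x)` -/
def ptCl (x : SchemeHomOver (𝟙 (Spec (CommRingCat.of k))) c) : SPic C :=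
  SPic.mk (ptMod x) (isInvertible_ptMod x)

/-- `α * O(-x) = α(-x)` -/
theorem exists_isTw_bcl (x : SchemeHomOver (𝟙 (Spec (CommRingCat.of k))) c)
    (t : T ⟶ Spec (CommRingCat.of k)) {L : (pullback c t).Modules}
    (hL : Scheme.Modules.IsInvertible L) :
    ∃ (P : (pullback c t).Modules) (hP : Scheme.Modules.IsInvertible P),
      SPic.mk L hL * bcl t (ptCl x) = SPic.mk P hP ∧ IsTw (graph (cst x t)) P L := by
  have hN := isInvertible_pullback (pullback.fst c t) (isInvertible_ptMod x)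
  obtain ⟨P, hP, ⟨w⟩⟩ := exists_tens hL hN
  exact ⟨P, hP, SPic.mk_mul_mk w, isTw_tens (isCart_graph _) hL hN w (isTw_ptMod x t)⟩

/-- conversely every twist has this class -/
theorem mk_eq_of_isTw (x : SchemeHomOver (𝟙 (Spec (CommRingCat.of k))) c)
    (t : T ⟶ Spec (CommRingCat.of k)) {L P : (pullback c t).Modules}
    (hL : Scheme.Modules.IsInvertible L) (hP : Scheme.Modules.IsInvertible P)
    (h : IsTw (graph (cst x t)) P L) : SPic.mk P hP = SPic.mk L hL * bcl t (ptCl x) := by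
  obtain ⟨P', hP', h1, h2⟩ := exists_isTw_bcl x t hL
  rw [h1, SPic.mk_eq_mk]
  exact h.uniq h2

theorem chiP_mul_ptCl (τ : TwoChart c) (x : SchemeHomOver (𝟙 (Spec (CommRingCat.of k))) c)
    {K : Type u} [Field K] (z : Spec (CommRingCat.of K) ⟶ Spec (CommRingCat.of k))
    (α : SPic (pullback c z)) : chiP τ z (α * bcl z (ptCl x)) = chiP τ z α - 1 := by
  induction α using SPic.ind with | _ L hL
  obtain ⟨P, hP, h1, φ, hφ⟩ := exists_isTw_bcl x z hL
  rw [h1, chiP_mk, chiP_mk, chiL_tw (H51Pb.baseChange τ z) (graph_snd _) hP hL hφ]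
  ring

end Points

end Fermat.Agent.H10.K3
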