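import Fermat.Agent.H10_K3a
/-!
# S25-K3, part 2: the class `O(∞)` and its effect on lattices
-/
set_option autoImplicit false
universe u v
open CategoryTheory AlgebraicGeometry CategoryTheory.Limits TopologicalSpace Opposite Module
open AlgebraicGeometry.RelPicard NeronModelInfra

noncomputable section

namespace Fermat.Agent.H10.K3

open Fermat.Agent.H25 Fermat.Agent.H21T Fermat.Agent.H20T

section TensBij

variable {X : Scheme.{u}} {L N P : X.Modules}

lemma exists_gen_cover {L : X.Modules} (hL : Scheme.Modules.IsInvertible L) (W : X.Opens) :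
    ∃ (V : W → X.Opens) (s : ∀ p, Γ(L, V p)), (∀ p, V p ≤ W) ∧ (W ≤ ⨆ p, V p) ∧
      ∀ p, IsGen L (s p) := by
  have h1 : ∀ p : W, ∃ (V : X.Opens) (_ : V ≤ W) (_ : p.1 ∈ V) (s : Γ(L, V)), IsGen L s :=
    fun p => exists_isGen_of_mem hL p.2
  choose V hV hp s hs using h1
  exact ⟨V, s, hV, fun p hpW => Opens.mem_iSup.mpr ⟨⟨p, hpW⟩, hp ⟨p, hpW⟩⟩, hs⟩

theorem tens_inj (t : Tens L N P) (hL : Scheme.Modules.IsInvertible L) {W : X.Opens}
    {n : Γ(N, W)} (hn : IsGen N n) : Function.Injective (fun x : Γ(L, W) => t.m W x n) := by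
  intro x x' h
  obtain ⟨V, s, hV, hc, hs⟩ := exists_gen_cover hL W
  refine sec_ext V hV hc fun p => ?_
  obtain ⟨f, hf⟩ := (hs p).surj (res L (hV p) x)
  obtain ⟨f', hf'⟩ := (hs p).surj (res L (hV p) x')
  have h1 := congrArg (res P (hV p)) h
  simp only at h1
  rw [← t.res, ← t.res, hf, hf', t.smul_left, t.smul_left] at h1
  rw [hf, hf', (t.gen _ _ _ (hs p) (hn.res (hV p))).inj h1]

theorem tens_surj (t : Tens L N P) (hL : Scheme.Modules.IsInvertible L) {W : X.Opens}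
    {n : Γ(N, W)} (hn : IsGen N n) : Function.Surjective (fun x : Γ(L, W) => t.m W x n) := by
  intro y
  obtain ⟨V, s, hV, hc, hs⟩ := exists_gen_cover hL W
  have h1 : ∀ p, ∃ x : Γ(L, V p), t.m (V p) x (res N (hV p) n) = res P (hV p) y := by
    intro p
    obtain ⟨f, hf⟩ := (t.gen _ _ _ (hs p) (hn.res (hV p))).surj (res P (hV p) y)
    exact ⟨f • s p, by rw [t.smul_left, ← hf]⟩
  choose x hx using h1
  obtain ⟨z, hz⟩ := sec_glue V hV hc x (by
    intro p q W' hp hq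
    apply tens_inj t hL (hn.res (hp.trans (hV p)))
    have e1 := congrArg (res P hp) (hx p)
    have e2 := congrArg (res P hq) (hx q)
    rw [← t.res, res_res, res_res] at e1
    rw [← t.res, res_res, res_res] at e2
    simp only
    rw [e1, e2])
  refine ⟨z, ?_⟩
  refine sec_ext V hV hc fun p => ?_
  simp only
  rw [← t.res, hz, hx]

end TensBij

section Inf

variable {A : Type u} [CommRing A] {Y : Scheme.{u}} {y : Y ⟶ Spec (CommRingCat.of A)}

/-- `N = O(∞)` -/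
structure InfData (τ : TwoChart y) (N : Y.Modules) where
  eU : Γ(N, τ.U)
  eV : Γ(N, τ.V)
  genU : IsGen N eU
  genV : IsGen N eV
  rel : res N (inf_le_right : τ.U ⊓ τ.V ≤ τ.V) eV = τ.tr • res N inf_le_left eU

theorem exists_infData (τ : TwoChart y) : ∃ N : Y.Modules, Nonempty (InfData τ N) := by
  let W : ULift.{u} Bool → Y.Opens := fun i => cond i.down τ.U τ.V
  let tu : (Γ(Y, τ.V ⊓ τ.U))ˣ :=
    { val := resO (le_inf inf_le_right inf_le_left : τ.V ⊓ τ.U ≤ τ.U ⊓ τ.V) τ.tr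
      inv := resO (le_inf inf_le_right inf_le_left : τ.V ⊓ τ.U ≤ τ.U ⊓ τ.V) τ.sr
      val_inv := by rw [← resO_mul, τ.tr_mul_sr, resO_one]
      inv_val := by rw [← resO_mul, τ.sr_mul_tr, resO_one] }
  let su : (Γ(Y, τ.U ⊓ τ.V))ˣ :=
    { val := τ.sr
      inv := τ.tr
      val_inv := τ.sr_mul_tr
      inv_val := τ.tr_mul_sr }
  let g : ∀ i j, (Γ(Y, W i ⊓ W j))ˣ := fun i j => match i, j with
    | ⟨true⟩, ⟨true⟩ => 1
    | ⟨true⟩, ⟨false⟩ => su
    | ⟨false⟩, ⟨true⟩ => tu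
    | ⟨false⟩, ⟨false⟩ => 1
  obtain ⟨N, s, hs, hrel⟩ := exists_cocycle_module W g (by
    rintro ⟨_ | _⟩ ⟨_ | _⟩ ⟨_ | _⟩ V hi hj hk
    · simp [g]
    · simp [g]
    · have h1 : resO (le_inf hi hj : V ≤ τ.V ⊓ τ.U) (resO (le_inf inf_le_right inf_le_left) τ.tr) =
          resO (le_inf hj hi : V ≤ τ.U ⊓ τ.V) τ.tr := resO_resO _ _ _
      change resO (le_inf hi hj : V ≤ τ.V ⊓ τ.U) (resO _ τ.tr) * resO (le_inf hj hk) τ.sr =
        resO (le_inf hi hk) 1
      rw [h1, ← resO_mul, τ.tr_mul_sr, resO_one, resO_one]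
    · simp [g]
    · simp [g]
    · have h1 : resO (le_inf hj hk : V ≤ τ.V ⊓ τ.U) (resO (le_inf inf_le_right inf_le_left) τ.tr) =
          resO (le_inf hk hj : V ≤ τ.U ⊓ τ.V) τ.tr := resO_resO _ _ _
      change resO (le_inf hi hj) τ.sr * resO (le_inf hj hk : V ≤ τ.V ⊓ τ.U) (resO _ τ.tr) =
        resO (le_inf hi hk) 1
      rw [h1, ← resO_mul, τ.sr_mul_tr, resO_one, resO_one]
    · simp [g]
    · simp [g])
  let sU : Γ(N, τ.U) := s ⟨true⟩
  let sV : Γ(N, τ.V) := s ⟨false⟩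
  refine ⟨N, ⟨⟨sU, sV, hs _, hs _, ?_⟩⟩⟩
  have h1 : res N (inf_le_left : τ.U ⊓ τ.V ≤ τ.U) sU =
      τ.sr • res N (inf_le_right : τ.U ⊓ τ.V ≤ τ.V) sV :=
    hrel ⟨true⟩ ⟨false⟩
  rw [h1, ← mul_smul, τ.tr_mul_sr, one_smul]

lemma InfData.isInvertible {τ : TwoChart y} {N : Y.Modules} (D : InfData τ N) :
    Scheme.Modules.IsInvertible N := by
  rw [isInvertible_iff]
  intro p
  have hp : p ∈ τ.U ⊔ τ.V := by rw [τ.cover]; trivial
  rcases hp with hp | hp
  · exact ⟨τ.U, hp, D.eU, D.genU⟩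
  · exact ⟨τ.V, hp, D.eV, D.genV⟩

/-- base change of `InfData` -/
def InfData.pb {R : Type u} [CommRing R] {C : Scheme.{u}} {c : C ⟶ Spec (CommRingCat.of R)}
    {τ : TwoChart c} {N : C.Modules} (D : InfData τ N)
    (z : Spec (CommRingCat.of A) ⟶ Spec (CommRingCat.of R)) :
    InfData (H51Pb.baseChange τ z) ((Scheme.Modules.pullback (pullback.fst c z)).obj N) where
  eU := H25.pb (pullback.fst c z) N D.eU
  eV := H25.pb (pullback.fst c z) N D.eV
  genU := D.genU.pb _ _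
  genV := D.genV.pb _ _
  rel := by
    have h1 := congrArg (H25.pb (pullback.fst c z) N) D.rel
    rw [pb_res, pb_smul, pb_res] at h1
    have h2 : (pullback.fst c z).app (τ.U ⊓ τ.V) τ.tr = (H51Pb.baseChange τ z).tr :=
      app_resO (pullback.fst c z) inf_le_left τ.t
    rw [h2] at h1
    exact h1

variable {τ : TwoChart y} {N : Y.Modules}

/-- the effect of `⊗ O(∞)` on lattices -/
theorem InfData.exists_equiv (D : InfData τ N) {L P : Y.Modules}
    (hL : Scheme.Modules.IsInvertible L) (hP : Scheme.Modules.IsInvertible P) (t : Tens L N P) :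
    ∃ w : Sec y L (τ.U ⊓ τ.V) ≃ₗ[A] Sec y P (τ.U ⊓ τ.V),
      (∀ x, w (mulT τ L x) = mulT τ P (w x)) ∧
      (latOf τ P hP).P = (latOf τ L hL).P.map (w : Sec y L (τ.U ⊓ τ.V) →ₗ[A] Sec y P (τ.U ⊓ τ.V)) ∧
      (latOf τ P hP).Q = ((latOf τ L hL).Q.map (mulT τ L : Sec y L (τ.U ⊓ τ.V) →ₗ[A] _)).map
        (w : Sec y L (τ.U ⊓ τ.V) →ₗ[A] Sec y P (τ.U ⊓ τ.V)) := by
  let e : Γ(N, τ.U ⊓ τ.V) := res N inf_le_left D.eU
  have he : IsGen N e := D.genU.res _
  let w0 : Sec y L (τ.U ⊓ τ.V) →ₗ[A] Sec y P (τ.U ⊓ τ.V) :=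
    { toFun := fun x => toSec (t.m _ x.s e)
      map_add' := fun x x' => by
        rw [Sec.s_add, map_add]; rfl
      map_smul' := fun a x => by
        rw [Sec.s_smul, t.smul_left]; rfl }
  let w := LinearEquiv.ofBijective w0 ⟨tens_inj t hL he, tens_surj t hL he⟩
  have hw : ∀ x, (w x).s = t.m _ x.s e := fun x => rfl
  have hT : ∀ x, w (mulT τ L x) = mulT τ P (w x) := by
    intro x
    apply Sec.ext
    rw [hw, mulT_s, mulT_s, t.smul_left, hw]
  refine ⟨w, hT, ?_, ?_⟩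
  · apply le_antisymm
    · rintro _ ⟨p, rfl⟩
      obtain ⟨x, hx⟩ := tens_surj t hL D.genU p.s
      refine ⟨_, ⟨toSec x, rfl⟩, ?_⟩
      apply Sec.ext
      change t.m (τ.U ⊓ τ.V) (res L inf_le_left x) (res N inf_le_left D.eU) = res P inf_le_left p.s
      rw [t.res, ← hx]
    · rintro _ ⟨_, ⟨x, rfl⟩, rfl⟩
      refine ⟨toSec (t.m _ x.s D.eU), ?_⟩
      apply Sec.ext
      change res P inf_le_left (t.m τ.U x.s D.eU) =
        t.m (τ.U ⊓ τ.V) (res L inf_le_left x.s) (res N inf_le_left D.eU)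
      rw [t.res]
  · apply le_antisymm
    · rintro _ ⟨p, rfl⟩
      obtain ⟨x, hx⟩ := tens_surj t hL D.genV p.s
      refine ⟨_, ⟨_, ⟨toSec x, rfl⟩, rfl⟩, ?_⟩
      apply Sec.ext
      change t.m (τ.U ⊓ τ.V) (τ.tr • res L inf_le_right x) (res N inf_le_left D.eU) =
        res P inf_le_right p.s
      rw [t.smul_left, ← t.smul_right, ← D.rel, t.res, ← hx]
    · rintro _ ⟨_, ⟨_, ⟨x, rfl⟩, rfl⟩, rfl⟩
      refine ⟨toSec (t.m _ x.s D.eV), ?_⟩
      apply Sec.ext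
      change res P inf_le_right (t.m τ.V x.s D.eV) =
        t.m (τ.U ⊓ τ.V) (τ.tr • res L inf_le_right x.s) (res N inf_le_left D.eU)
      rw [t.smul_left, ← t.smul_right, ← D.rel, t.res]

/-- iteration -/
theorem InfData.exists_pow (D : InfData τ N) (m : ℕ) {L : Y.Modules}
    (hL : Scheme.Modules.IsInvertible L) :
    ∃ (P : Y.Modules) (hP : Scheme.Modules.IsInvertible P),
      SPic.mk L hL * (SPic.mk N D.isInvertible) ^ m = SPic.mk P hP ∧
      ∃ w : Sec y L (τ.U ⊓ τ.V) ≃ₗ[A] Sec y P (τ.U ⊓ τ.V),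
        (∀ x, w (mulT τ L x) = mulT τ P (w x)) ∧
        (latOf τ P hP).P =
          (latOf τ L hL).P.map (w : Sec y L (τ.U ⊓ τ.V) →ₗ[A] Sec y P (τ.U ⊓ τ.V)) ∧
        (latOf τ P hP).Q =
          ((latOf τ L hL).Qm m).map
          (w : Sec y L (τ.U ⊓ τ.V) →ₗ[A] Sec y P (τ.U ⊓ τ.V)) := by
  induction m with
  | zero =>
    refine ⟨L, hL, by rw [pow_zero, mul_one], LinearEquiv.refl _ _, fun x => rfl, ?_, ?_⟩
    · exact (Submodule.map_id _).symm
    · rw [H10.Lat.Qm_zero]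
      exact (Submodule.map_id _).symm
  | succ m ih =>
    obtain ⟨P, hP, h1, w, h2, h3, h4⟩ := ih
    obtain ⟨P', hP', ⟨t⟩⟩ := exists_tens hP D.isInvertible
    obtain ⟨w', h2', h3', h4'⟩ := D.exists_equiv hP hP' t
    refine ⟨P', hP', ?_, w.trans w', fun x => ?_, ?_, ?_⟩
    · rw [pow_succ, ← mul_assoc, h1, SPic.mk_mul_mk t]
    · rw [LinearEquiv.trans_apply, LinearEquiv.trans_apply, h2, h2']
    · rw [h3', h3, ← Submodule.map_comp]; rfl
    · unfold P1Lat.Qm at h4 ⊢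
      rw [h4', h4, ← Submodule.map_comp, ← Submodule.map_comp, ← Submodule.map_comp,
        ← Submodule.map_comp]
      congr 1
      ext x
      change w' (mulT τ P (w (((mulT τ L) ^ m) x))) = w' (w (((mulT τ L) ^ (m + 1)) x))
      rw [← h2, pow_succ']
      rfl

end Inf

end Fermat.Agent.H10.K3
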