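import Fermat.Agent.H10_P1LatGen

/-!
# Lattices on `P¹`: projectivity and finiteness (S25, job D1, part 4)
-/

set_option autoImplicit false
universe u v
open Fermat.Agent.H25

namespace Fermat.Agent.H10.Lat

variable {A : Type u} [CommRing A] {M : Type v} [AddCommGroup M] [Module A M] (L : P1Lat A M)

/-! ### Polynomials and finitely supported functions on `ℤ` -/

/-- polynomials as finitely supported functions on `ℤ` -/
noncomputable def toZ : Polynomial A →ₗ[A] (ℤ →₀ A) :=
  (Finsupp.lmapDomain A A (Nat.cast : ℕ → ℤ)) ∘ₗ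
    ((Polynomial.basisMonomials A).repr : Polynomial A →ₗ[A] (ℕ →₀ A))

theorem toZ_monomial (i : ℕ) (a : A) : toZ (Polynomial.monomial i a) = Finsupp.single (i : ℤ) a := by
  have h1 : (Polynomial.monomial i a : Polynomial A) = a • (Polynomial.basisMonomials A i) := by
    rw [Polynomial.coe_basisMonomials, Polynomial.smul_monomial]; simp
  unfold toZ
  rw [h1, LinearMap.comp_apply, LinearEquiv.coe_coe, map_smul, Module.Basis.repr_self]
  simp [Finsupp.mapDomain_single]

theorem toZ_apply_natCast (f : Polynomial A) (i : ℕ) : toZ f (i : ℤ) = f.coeff i := by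
  induction f using Polynomial.induction_on' with
  | add p q hp hq => rw [map_add, Finsupp.add_apply, hp, hq, Polynomial.coeff_add]
  | monomial n a =>
    rw [toZ_monomial, Polynomial.coeff_monomial, Finsupp.single_apply]
    simp [eq_comm]

theorem toZ_apply_of_neg (f : Polynomial A) {i : ℤ} (hi : i < 0) : toZ f i = 0 := by
  induction f using Polynomial.induction_on' with
  | add p q hp hq => rw [map_add, Finsupp.add_apply, hp, hq, add_zero]
  | monomial n a =>
    rw [toZ_monomial, Finsupp.single_apply, if_neg (by omega)]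

/-- multiplication by `T^n` -/
noncomputable def shift (n : ℤ) : (ℤ →₀ A) →ₗ[A] (ℤ →₀ A) :=
  Finsupp.lmapDomain A A (fun i => n + i)

theorem shift_single (n i : ℤ) (a : A) :
    shift n (Finsupp.single i a) = Finsupp.single (n + i) a := by
  simp [shift, Finsupp.mapDomain_single]

theorem shift_shift (m n : ℤ) (f : ℤ →₀ A) : shift m (shift n f) = shift (m + n) f := by
  induction f using Finsupp.induction_linear with
  | zero => simp
  | add f g hf hg => simp only [map_add, hf, hg]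
  | single i a => simp only [shift_single, add_assoc]

theorem shift_zero (f : ℤ →₀ A) : shift 0 f = f := by
  induction f using Finsupp.induction_linear with
  | zero => simp
  | add f g hf hg => simp only [map_add, hf, hg]
  | single i a => simp only [shift_single, zero_add]

theorem shift_apply (n : ℤ) (f : ℤ →₀ A) (i : ℤ) : shift n f i = f (i - n) := by
  induction f using Finsupp.induction_linear with
  | zero => simp
  | add f g hf hg => simp only [map_add, Finsupp.add_apply, hf, hg]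
  | single j a =>
    rw [shift_single, Finsupp.single_apply, Finsupp.single_apply]
    congr 1
    exact propext ⟨fun h => by omega, fun h => by omega⟩

theorem toZ_X_pow_mul (n : ℕ) (f : Polynomial A) :
    toZ (Polynomial.X ^ n * f) = shift n (toZ f) := by
  induction f using Polynomial.induction_on' with
  | add p q hp hq => rw [mul_add, map_add, map_add, map_add, hp, hq]
  | monomial i a =>
    rw [toZ_monomial, shift_single, Polynomial.X_pow_mul_monomial, toZ_monomial]
    congr 1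
    push_cast; ring

/-- evaluation `f ↦ ∑ f_i τ^i p` -/
noncomputable def ev (p : M) : (ℤ →₀ A) →ₗ[A] M :=
  Finsupp.linearCombination A (fun i : ℤ => (L.τ ^ i) p)

theorem ev_single (p : M) (i : ℤ) (a : A) :
    ev L p (Finsupp.single i a) = a • (L.τ ^ i) p := by
  simp [ev, Finsupp.linearCombination_single]

theorem coe_pow_τ (n : ℕ) : ((L.τ : M →ₗ[A] M) ^ n : Module.End A M) =
    ((L.τ ^ n : M ≃ₗ[A] M) : M →ₗ[A] M) := by
  induction n with
  | zero => rfl
  | succ n ih => rw [pow_succ, ih, pow_succ]; rfl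

theorem ev_toZ (p : M) (f : Polynomial A) :
    ev L p (toZ f) = Polynomial.aeval (L.τ : M →ₗ[A] M) f p := by
  induction f using Polynomial.induction_on' with
  | add f g hf hg => rw [map_add, map_add, map_add, LinearMap.add_apply, hf, hg]
  | monomial i a =>
    rw [toZ_monomial, ev_single, Polynomial.aeval_monomial, coe_pow_τ, zpow_natCast]
    simp [Module.algebraMap_end_apply]

theorem ev_shift (p : M) (n : ℤ) (f : ℤ →₀ A) : ev L p (shift n f) = (L.τ ^ n) (ev L p f) := by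
  induction f using Finsupp.induction_linear with
  | zero => simp
  | add f g hf hg => simp only [map_add, hf, hg]
  | single i a => rw [shift_single, ev_single, ev_single, map_smul, zpow_add_apply]

/-! ### Extension of `τ`-equivariant functionals from `P` to `M` -/

section Ext

variable (φ : L.P →ₗ[A] Polynomial A)
  (hφ : ∀ x : L.P, φ ⟨L.τ x, L.τ_mem x x.2⟩ = Polynomial.X * φ x)

include hφ in
theorem phi_pow (n : ℕ) (x : L.P) :
    φ ⟨(L.τ ^ n) x, pow_mem_P L n x.2⟩ = Polynomial.X ^ n * φ x := by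
  induction n with
  | zero =>
    have : (⟨(L.τ ^ 0) (x : M), pow_mem_P L 0 x.2⟩ : L.P) = x := Subtype.ext (by simp)
    rw [this]; simp
  | succ n ih =>
    have h1 : (⟨(L.τ ^ (n + 1)) (x : M), pow_mem_P L (n + 1) x.2⟩ : L.P) =
      ⟨L.τ ((⟨(L.τ ^ n) (x : M), pow_mem_P L n x.2⟩ : L.P) : M), L.τ_mem _ (pow_mem_P L n x.2)⟩ :=
      Subtype.ext (by simp only; rw [pow_succ_apply'])
    rw [h1, hφ, ih]; ring

/-- the extension as a function -/
noncomputable def extFun (x : M) : ℤ →₀ A :=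
  shift (-((L.exhaustP x).choose : ℤ)) (toZ (φ ⟨_, (L.exhaustP x).choose_spec⟩))

include hφ in
theorem extFun_eq (x : M) (n : ℕ) (h : (L.τ ^ n) x ∈ L.P) :
    extFun L φ x = shift (-(n : ℤ)) (toZ (φ ⟨_, h⟩)) := by
  set m := (L.exhaustP x).choose with hm
  have hms : (L.τ ^ m) x ∈ L.P := (L.exhaustP x).choose_spec
  have key : ∀ (a b : ℕ) (ha : (L.τ ^ a) x ∈ L.P) (hab : (L.τ ^ (b + a)) x ∈ L.P),
      shift (-((b + a : ℕ) : ℤ)) (toZ (φ ⟨_, hab⟩)) = shift (-(a : ℤ)) (toZ (φ ⟨_, ha⟩)) := by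
    intro a b ha hab
    have h1 : (⟨(L.τ ^ (b + a)) x, hab⟩ : L.P) =
        ⟨(L.τ ^ b) ((⟨_, ha⟩ : L.P) : M), pow_mem_P L b ha⟩ :=
      Subtype.ext (by simp only; rw [pow_add_apply])
    rw [h1, phi_pow L φ hφ, toZ_X_pow_mul, shift_shift]
    congr 1
    push_cast; ring_nf
  have hmn : (L.τ ^ (n + m)) x ∈ L.P := by rw [pow_add_apply]; exact pow_mem_P L n hms
  have hnm : (L.τ ^ (m + n)) x ∈ L.P := by rw [pow_add_apply]; exact pow_mem_P L m h
  have e1 := key m n hms hmn
  have e2 := key n m h hnm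
  have e3 : shift (-((n + m : ℕ) : ℤ)) (toZ (φ ⟨_, hmn⟩)) =
      shift (-((m + n : ℕ) : ℤ)) (toZ (φ ⟨_, hnm⟩)) := by
    have h4 : ∀ (a b : ℕ) (hab : a = b) (ha : (L.τ ^ a) x ∈ L.P) (hb : (L.τ ^ b) x ∈ L.P),
        shift (-(a : ℤ)) (toZ (φ ⟨_, ha⟩)) = shift (-(b : ℤ)) (toZ (φ ⟨_, hb⟩)) := by
      intro a b hab ha hb; subst hab; rfl
    exact h4 _ _ (Nat.add_comm n m) hmn hnm
  unfold extFun
  rw [← e2, ← e3, e1]

/-- The `A[τ]`-linear functional `φ : P → A[X]` extends to `M → A[X, X⁻¹] = (ℤ →₀ A)`. -/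
noncomputable def ext : M →ₗ[A] (ℤ →₀ A) where
  toFun := extFun L φ
  map_add' x y := by
    obtain ⟨a, ha⟩ := L.exhaustP x
    obtain ⟨b, hb⟩ := L.exhaustP y
    have h1 : (L.τ ^ (b + a)) x ∈ L.P := by rw [pow_add_apply]; exact pow_mem_P L b ha
    have h2 : (L.τ ^ (b + a)) y ∈ L.P := by
      rw [add_comm, pow_add_apply]; exact pow_mem_P L a hb
    have h3 : (L.τ ^ (b + a)) (x + y) ∈ L.P := by rw [map_add]; exact Submodule.add_mem _ h1 h2
    rw [extFun_eq L φ hφ x _ h1, extFun_eq L φ hφ y _ h2, extFun_eq L φ hφ (x + y) _ h3,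
      ← map_add, ← map_add, ← map_add]
    congr 3
    exact Subtype.ext (map_add _ _ _)
  map_smul' c x := by
    obtain ⟨a, ha⟩ := L.exhaustP x
    have h3 : (L.τ ^ a) (c • x) ∈ L.P := by rw [map_smul]; exact Submodule.smul_mem _ _ ha
    rw [extFun_eq L φ hφ x _ ha, extFun_eq L φ hφ (c • x) _ h3, RingHom.id_apply,
      ← map_smul, ← map_smul, ← map_smul]
    congr 3
    exact Subtype.ext (map_smul _ _ _)

theorem ext_eq (x : M) (n : ℕ) (h : (L.τ ^ n) x ∈ L.P) :
    ext L φ hφ x = shift (-(n : ℤ)) (toZ (φ ⟨_, h⟩)) := extFun_eq L φ hφ x n h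

theorem ext_of_mem (x : L.P) : ext L φ hφ x = toZ (φ x) := by
  rw [ext_eq L φ hφ x 0 (by simpa using x.2)]
  simp only [Nat.cast_zero, neg_zero, shift_zero]
  congr 2

theorem ext_τ (x : M) : ext L φ hφ (L.τ x) = shift 1 (ext L φ hφ x) := by
  obtain ⟨a, ha⟩ := L.exhaustP x
  have h1 : (L.τ ^ a) (L.τ x) ∈ L.P := by
    rw [← pow_succ_apply, pow_succ_apply']; exact L.τ_mem _ ha
  rw [ext_eq L φ hφ _ a h1, ext_eq L φ hφ _ a ha, shift_shift]
  have h2 : (⟨(L.τ ^ a) (L.τ x), h1⟩ : L.P) = ⟨L.τ ((⟨_, ha⟩ : L.P) : M), L.τ_mem _ ha⟩ :=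
    Subtype.ext (by simp only; rw [← pow_succ_apply, pow_succ_apply'])
  have h3 := toZ_X_pow_mul 1 (φ ⟨_, ha⟩)
  rw [pow_one] at h3
  rw [h2, hφ, h3, shift_shift]
  congr 1
  push_cast; ring_nf

theorem ext_zpow (i : ℤ) (x : M) : ext L φ hφ ((L.τ ^ i) x) = shift i (ext L φ hφ x) := by
  have hnat : ∀ (n : ℕ) (x : M), ext L φ hφ ((L.τ ^ n) x) = shift n (ext L φ hφ x) := by
    intro n
    induction n with
    | zero => intro x; simp [shift_zero]
    | succ n ih =>
      intro x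
      rw [pow_succ_apply', ext_τ, ih, shift_shift]; congr 1; push_cast; ring_nf
  rcases le_or_gt 0 i with hi | hi
  · lift i to ℕ using hi
    rw [zpow_natCast]; exact hnat i x
  · obtain ⟨n, rfl⟩ : ∃ n : ℕ, i = -(n : ℤ) := ⟨(-i).toNat, by omega⟩
    have h1 := hnat n ((L.τ ^ (-(n : ℤ))) x)
    rw [← symm_pow_eq, pow_apply_symm_pow, symm_pow_eq] at h1
    rw [h1, shift_shift]
    simp [shift_zero]

end Ext

/-- If `P` is finite projective over `A[τ]`, the extended dual basis describes all of `M`. -/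
theorem exists_dualBasis (h : L.FinProjP) :
    ∃ (r : ℕ) (p : Fin r → L.P) (φ : Fin r → (M →ₗ[A] (ℤ →₀ A))),
      (∀ j (i : ℤ) (x : M), φ j ((L.τ ^ i) x) = shift i (φ j x)) ∧
      (∀ j (x : M), x ∈ L.P → ∃ f : Polynomial A, φ j x = toZ f) ∧
      ∀ x : M, x = ∑ j, ev L (p j) (φ j x) := by
  obtain ⟨r, p, φ, hφ, hx⟩ := h
  refine ⟨r, p, fun j => ext L (φ j) (hφ j), fun j i x => ext_zpow L _ _ i x,
    fun j x hx => ⟨φ j ⟨x, hx⟩, ext_of_mem L (φ j) (hφ j) ⟨x, hx⟩⟩, fun x => ?_⟩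
  obtain ⟨n, hn⟩ := L.exhaustP x
  have h1 := hx ⟨_, hn⟩
  have h2 : x = (L.τ ^ (-(n : ℤ))) ((L.τ ^ n) x) := by
    rw [← symm_pow_eq, symm_pow_apply_pow]
  conv_lhs => rw [h2]
  change (L.τ ^ n) x = _ at h1
  rw [h1, map_sum]
  refine Finset.sum_congr rfl fun j _ => ?_
  rw [ext_eq L (φ j) (hφ j) x n hn, ev_shift, ev_toZ]

/-- `M` is projective over `A`. -/
theorem projective_M (h : L.FinProjP) : Module.Projective A M := by
  obtain ⟨r, p, φ, -, -, hx⟩ := exists_dualBasis L h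
  refine Module.Projective.of_split (P := M) (M := Fin r → (ℤ →₀ A))
    (LinearMap.pi φ) (∑ j, (ev L (p j)) ∘ₗ (LinearMap.proj j)) ?_
  ext x
  rw [LinearMap.comp_apply, LinearMap.sum_apply, LinearMap.id_apply]
  conv_rhs => rw [hx x]
  rfl

/-- `P` is projective over `A`. -/
theorem projective_P (h : L.FinProjP) : Module.Projective A L.P := by
  obtain ⟨r, p, φ, hφ, hx⟩ := h
  have hmem : ∀ (j : Fin r) (f : Polynomial A),
      Polynomial.aeval (L.τ : M →ₗ[A] M) f (p j : M) ∈ L.P := by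
    intro j f
    induction f using Polynomial.induction_on' with
    | add f g hf hg => rw [map_add, LinearMap.add_apply]; exact Submodule.add_mem _ hf hg
    | monomial i a =>
      rw [Polynomial.aeval_monomial, coe_pow_τ]
      simp only [Module.End.mul_apply, Module.algebraMap_end_apply]
      exact Submodule.smul_mem _ _ (pow_mem_P L i (p j).2)
  let e : Fin r → (Polynomial A →ₗ[A] L.P) := fun j =>
    LinearMap.codRestrict L.P
      ((LinearMap.applyₗ (p j : M)) ∘ₗ
        (Polynomial.aeval (R := A) (L.τ : M →ₗ[A] M)).toLinearMap) (hmem j)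
  refine Module.Projective.of_split (P := L.P) (M := Fin r → Polynomial A)
    (LinearMap.pi φ) (∑ j, (e j) ∘ₗ (LinearMap.proj j)) ?_
  ext x
  rw [LinearMap.comp_apply, LinearMap.sum_apply, LinearMap.id_apply, Submodule.coe_sum]
  conv_rhs => rw [hx x]
  rfl

theorem finProjP_op_iff : (op L).FinProjP ↔ L.FinProjQ := Iff.rfl

/-- `Q` is projective over `A`. -/
theorem projective_Q (h : L.FinProjQ) : Module.Projective A L.Q :=
  projective_P (op L) h

/-- `τ^m Q ≃ Q` -/
noncomputable def QmEquiv (m : ℕ) : L.Q ≃ₗ[A] L.Qm m :=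
  (L.τ ^ m : M ≃ₗ[A] M).submoduleMap L.Q

theorem projective_Qm (h : L.FinProjQ) (m : ℕ) : Module.Projective A (L.Qm m) :=
  have := projective_Q L h
  Module.Projective.of_equiv (QmEquiv L m)

/-- `K(m)` is projective when `P + τ^m Q = M`. -/
theorem exists_retraction_K (hP : L.FinProjP) {m : ℕ} (hm : L.P ⊔ L.Qm m = ⊤) :
    ∃ ρ : (L.P × L.Qm m) →ₗ[A] L.K m,
      ∀ x : L.K m, ρ (⟨(x : M), x.2.1⟩, ⟨(x : M), x.2.2⟩) = x := by
  have := projective_M L hP
  let d : (L.P × L.Qm m) →ₗ[A] M := L.P.subtype ∘ₗ LinearMap.fst A L.P (L.Qm m) -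
    (L.Qm m).subtype ∘ₗ LinearMap.snd A L.P (L.Qm m)
  have hd : Function.Surjective d := by
    intro x
    have hx : x ∈ L.P ⊔ L.Qm m := by rw [hm]; trivial
    obtain ⟨p, hp, q, hq, hpq⟩ := Submodule.mem_sup.mp hx
    exact ⟨(⟨p, hp⟩, -⟨q, hq⟩), by simp [d, hpq]⟩
  obtain ⟨s, hs⟩ := Module.projective_lifting_property d LinearMap.id hd
  have hs' : ∀ x, d (s x) = x := fun x => by
    have := congrArg (fun g : M →ₗ[A] M => g x) hs
    simpa using this
  let π : (L.P × L.Qm m) →ₗ[A] (L.P × L.Qm m) := LinearMap.id - s ∘ₗ d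
  have hπ : ∀ z, d (π z) = 0 := by
    intro z
    simp only [π, LinearMap.sub_apply, LinearMap.id_apply, LinearMap.comp_apply, map_sub, hs',
      sub_self]
  have hπ' : ∀ z, ((π z).1 : M) = ((π z).2 : M) := by
    intro z
    have := hπ z
    simp only [d, LinearMap.sub_apply, LinearMap.comp_apply, LinearMap.fst_apply,
      LinearMap.snd_apply, Submodule.subtype_apply] at this
    exact sub_eq_zero.mp this
  refine ⟨LinearMap.codRestrict (L.K m) (L.P.subtype ∘ₗ LinearMap.fst A L.P (L.Qm m) ∘ₗ π)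
    (fun z => ⟨(π z).1.2, ?_⟩), ?_⟩
  · change ((π z).1 : M) ∈ L.Qm m
    rw [hπ' z]; exact (π z).2.2
  · intro x
    apply Subtype.ext
    have h1 : d (⟨(x : M), x.2.1⟩, ⟨(x : M), x.2.2⟩) = 0 := by simp [d]
    have h2 : π (⟨(x : M), x.2.1⟩, ⟨(x : M), x.2.2⟩) = (⟨(x : M), x.2.1⟩, ⟨(x : M), x.2.2⟩) := by
      simp only [π, LinearMap.sub_apply, LinearMap.id_apply, LinearMap.comp_apply, h1, map_zero,
        sub_zero]
    change ((π (⟨(x : M), x.2.1⟩, ⟨(x : M), x.2.2⟩)).1 : M) = x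
    rw [h2]

/-- `K(m)` is projective when `P + τ^m Q = M`. -/
theorem projective_K (hP : L.FinProjP) (hQ : L.FinProjQ) {m : ℕ} (hm : L.P ⊔ L.Qm m = ⊤) :
    Module.Projective A (L.K m) := by
  have := projective_P L hP
  have := projective_Qm L hQ m
  obtain ⟨ρ, hρ⟩ := exists_retraction_K L hP hm
  refine Module.Projective.of_split (P := L.K m) (M := L.P × L.Qm m)
    (LinearMap.prod (Submodule.inclusion inf_le_left) (Submodule.inclusion inf_le_right)) ρ ?_
  ext x
  exact congrArg Subtype.val (hρ x)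

/-! ### Finiteness of `K(m)` -/

/-- elements supported in degrees `≤ N` -/
def LE (N : ℤ) : Submodule A (ℤ →₀ A) where
  carrier := {f | ∀ i, N < i → f i = 0}
  add_mem' := fun hf hg i hi => by simp [hf i hi, hg i hi]
  zero_mem' := fun i _ => by simp
  smul_mem' := fun c f hf i hi => by simp [hf i hi]

theorem LE_mono {N N' : ℤ} (h : N ≤ N') : (LE N : Submodule A (ℤ →₀ A)) ≤ LE N' :=
  fun f hf i hi => hf i (by omega)

theorem shift_mem_LE {N : ℤ} (n : ℤ) {f : ℤ →₀ A} (hf : f ∈ LE N) : shift n f ∈ LE (n + N) := by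
  intro i hi
  rw [shift_apply]; exact hf _ (by omega)

theorem exists_mem_LE (f : ℤ →₀ A) : ∃ N : ℕ, f ∈ LE (A := A) N := by
  induction f using Finsupp.induction_linear with
  | zero => exact ⟨0, Submodule.zero_mem _⟩
  | add f g hf hg =>
    obtain ⟨a, ha⟩ := hf
    obtain ⟨b, hb⟩ := hg
    exact ⟨a + b, Submodule.add_mem _ (LE_mono (by push_cast; omega) ha)
      (LE_mono (by push_cast; omega) hb)⟩
  | single i a =>
    refine ⟨i.toNat, fun j hj => ?_⟩
    rw [Finsupp.single_apply, if_neg (by omega)]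

theorem FinProjQ_generate (h : L.FinProjQ) :
    ∃ S : Set M, S.Finite ∧ S ⊆ L.Q ∧ L.Q ≤ genQ L S := by
  obtain ⟨r, q, ψ, hψ, hx⟩ := h
  refine ⟨Set.range (fun j => (q j : M)), Set.finite_range _, ?_, ?_⟩
  · rintro _ ⟨j, rfl⟩; exact (q j).2
  · intro x hxQ
    have h1 := hx ⟨x, hxQ⟩
    change x = _ at h1
    rw [h1]
    refine Submodule.sum_mem _ fun j _ => ?_
    generalize ψ j ⟨x, hxQ⟩ = f
    induction f using Polynomial.induction_on' with
    | add f g hf hg => rw [map_add, LinearMap.add_apply]; exact Submodule.add_mem _ hf hg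
    | monomial i a =>
      rw [Polynomial.aeval_monomial]
      have h1 : ((L.τ.symm : M →ₗ[A] M) ^ i : Module.End A M) =
        ((L.τ.symm ^ i : M ≃ₗ[A] M) : M →ₗ[A] M) := coe_pow_τ (op L) i
      rw [h1]
      simp only [Module.End.mul_apply, Module.algebraMap_end_apply]
      exact Submodule.smul_mem _ _ (Submodule.subset_span ⟨i, _, ⟨j, rfl⟩, rfl⟩)

theorem FinProjP_generate (h : L.FinProjP) :
    ∃ S : Set M, S.Finite ∧ S ⊆ L.P ∧ L.P ≤ genP L S := by
  have : L = op (op L) := rfl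
  exact FinProjQ_generate (op L) h

/-- There is a uniform degree bound for elements of `K(m)`. -/
theorem exists_bound (hP : L.FinProjP) (hQ : L.FinProjQ) (m : ℕ) :
    ∃ F : Submodule A M, F.FG ∧ F ≤ L.P ∧ L.K m ≤ F := by
  classical
  obtain ⟨r, p, φ, hφ, hφP, hx⟩ := exists_dualBasis L hP
  obtain ⟨S, hSfin, hSQ, hS⟩ := FinProjQ_generate L hQ
  -- bound the degrees of φ j on S
  have hbd : ∃ d : ℕ, ∀ y ∈ S, ∀ j, φ j y ∈ LE (A := A) d := by
    have : ∀ y : M, ∃ d : ℕ, ∀ j, φ j y ∈ LE (A := A) d := by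
      intro y
      choose d hd using fun j => exists_mem_LE (φ j y)
      exact ⟨∑ j, d j, fun j => LE_mono (by
        have := Finset.single_le_sum (f := d) (fun i _ => Nat.zero_le _) (Finset.mem_univ j)
        exact_mod_cast this) (hd j)⟩
    choose d hd using this
    refine ⟨hSfin.toFinset.sum d, fun y hy j => LE_mono ?_ (hd y j)⟩
    have := Finset.single_le_sum (f := d) (fun i _ => Nat.zero_le _) (hSfin.mem_toFinset.mpr hy)
    exact_mod_cast this
  obtain ⟨d, hd⟩ := hbd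
  have hQm : ∀ x ∈ L.Qm m, ∀ j, φ j x ∈ LE (A := A) ((m : ℤ) + d) := by
    intro x hxm j
    rw [mem_Qm] at hxm
    have h1 := hS hxm
    have h2 : genQ L S ≤ (LE (A := A) (d : ℤ)).comap (φ j) := by
      refine Submodule.span_le.mpr ?_
      rintro z ⟨i, y, hy, rfl⟩
      rw [SetLike.mem_coe, Submodule.mem_comap, symm_pow_eq, hφ]
      exact LE_mono (by omega) (shift_mem_LE (-(i : ℤ)) (hd y hy j))
    have h3 := h2 h1
    rw [Submodule.mem_comap, symm_pow_eq, hφ] at h3
    have h4 := shift_mem_LE (m : ℤ) h3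
    rwa [shift_shift, add_neg_cancel, shift_zero] at h4
  refine ⟨Submodule.span A (Set.range (fun w : Fin r × Fin (m + d + 1) =>
    (L.τ ^ (w.2 : ℕ)) (p w.1 : M))), Submodule.fg_span (Set.finite_range _), ?_, ?_⟩
  · refine Submodule.span_le.mpr ?_
    rintro _ ⟨w, rfl⟩
    exact pow_mem_P L _ (p w.1).2
  · intro x hxK
    rw [hx x]
    refine Submodule.sum_mem _ fun j _ => ?_
    obtain ⟨f, hf⟩ := hφP j x hxK.1
    have h1 := hQm x hxK.2 j
    rw [ev, Finsupp.linearCombination_apply, Finsupp.sum]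
    refine Submodule.sum_mem _ fun i hi => Submodule.smul_mem _ _ ?_
    have hi0 : 0 ≤ i := by
      by_contra hneg
      exact (Finsupp.mem_support_iff.mp hi) (by rw [hf]; exact toZ_apply_of_neg f (by omega))
    have hi1 : i ≤ m + d := by
      by_contra hneg
      exact (Finsupp.mem_support_iff.mp hi) (h1 i (by omega))
    refine Submodule.subset_span ⟨(j, ⟨i.toNat, by omega⟩), ?_⟩
    simp only
    rw [← zpow_natCast, Int.toNat_of_nonneg hi0]

theorem Qm_finite_bound (hP : L.FinProjP) (hQ : L.FinProjQ) (m : ℕ) :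
    ∃ F : Submodule A M, F.FG ∧ F ≤ L.Qm m ∧ L.K m ≤ F := by
  obtain ⟨F, hF, hFQ, hKF⟩ := exists_bound (op L) hQ hP m
  refine ⟨F.map ((L.τ ^ m : M ≃ₗ[A] M) : M →ₗ[A] M), hF.map _, Submodule.map_mono hFQ, ?_⟩
  intro x hx
  refine ⟨(L.τ.symm ^ m) x, hKF ⟨?_, ?_⟩, pow_apply_symm_pow L m x⟩
  · exact (mem_Qm L).mp hx.2
  · change (L.τ.symm ^ m) x ∈ (op L).Qm m
    rw [← QZ_natCast, op_QZ, mem_PZ, neg_neg, zpow_natCast, pow_apply_symm_pow]
    exact hx.1

/-- `K(m)` is a finite `A`-module when `P + τ^m Q = M`. -/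
theorem finite_K (hP : L.FinProjP) (hQ : L.FinProjQ) {m : ℕ} (hm : L.P ⊔ L.Qm m = ⊤) :
    Module.Finite A (L.K m) := by
  obtain ⟨ρ, hρ⟩ := exists_retraction_K L hP hm
  obtain ⟨F, hF, hFP, hKF⟩ := exists_bound L hP hQ m
  obtain ⟨G, hG, hGQ, hKG⟩ := Qm_finite_bound L hP hQ m
  have : Module.Finite A F := Module.Finite.iff_fg.mpr hF
  have : Module.Finite A G := Module.Finite.iff_fg.mpr hG
  let g : (F × G) →ₗ[A] L.K m :=
    ρ ∘ₗ (LinearMap.prodMap (Submodule.inclusion hFP) (Submodule.inclusion hGQ))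
  refine Module.Finite.of_surjective g ?_
  intro x
  exact ⟨(⟨x, hKF x.2⟩, ⟨x, hKG x.2⟩), hρ x⟩

theorem exists_forall_finite_K (hP : L.FinProjP) (hQ : L.FinProjQ) :
    ∃ m : ℕ, ∀ n ≥ m, L.P ⊔ L.Qm n = ⊤ ∧ Module.Finite A (L.K n) ∧ Module.Projective A (L.K n) := by
  obtain ⟨S, hSfin, hSP, hS⟩ := FinProjP_generate L hP
  obtain ⟨m, hm⟩ := exists_sup_Qm_eq_top L hSfin hSP hS
  exact ⟨m, fun n hn => ⟨hm n hn, finite_K L hP hQ (hm n hn), projective_K L hP hQ (hm n hn)⟩⟩

theorem finite_H1 (hP : L.FinProjP) : Module.Finite A (M ⧸ (L.P ⊔ L.Q)) := by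
  obtain ⟨S, hSfin, hSP, hS⟩ := FinProjP_generate L hP
  exact finite_quot L hSfin hSP hS

theorem aeval_mem_P (p : L.P) (f : Polynomial A) :
    Polynomial.aeval (L.τ : M →ₗ[A] M) f (p : M) ∈ L.P := by
  induction f using Polynomial.induction_on' with
  | add f g hf hg => rw [map_add, LinearMap.add_apply]; exact Submodule.add_mem _ hf hg
  | monomial i a =>
    rw [Polynomial.aeval_monomial, coe_pow_τ]
    simp only [Module.End.mul_apply, Module.algebraMap_end_apply]
    exact Submodule.smul_mem _ _ (pow_mem_P L i p.2)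

/-- `f ↦ f(τ) p`, as a map `A[X] → P` -/
noncomputable def evP (p : L.P) : Polynomial A →ₗ[A] L.P :=
  LinearMap.codRestrict L.P
    ((LinearMap.applyₗ (p : M)) ∘ₗ
      (Polynomial.aeval (R := A) (L.τ : M →ₗ[A] M)).toLinearMap) (aeval_mem_P L p)

theorem coe_evP (p : L.P) (f : Polynomial A) :
    (evP L p f : M) = Polynomial.aeval (L.τ : M →ₗ[A] M) f (p : M) := rfl

theorem evP_X_pow_mul (p : L.P) (n : ℕ) (f : Polynomial A) :
    (evP L p (Polynomial.X ^ n * f) : M) = (L.τ ^ n) (evP L p f) := by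
  rw [coe_evP, coe_evP, map_mul, map_pow, Polynomial.aeval_X, Module.End.mul_apply, coe_pow_τ]
  rfl

/-- `f ↦ f(τ⁻¹) q`, as a map `A[X] → Q` -/
noncomputable def evQ (q : L.Q) : Polynomial A →ₗ[A] L.Q := evP (op L) q

theorem coe_evQ (q : L.Q) (f : Polynomial A) :
    (evQ L q f : M) = Polynomial.aeval (L.τ.symm : M →ₗ[A] M) f (q : M) := rfl

theorem evQ_X_pow_mul (q : L.Q) (n : ℕ) (f : Polynomial A) :
    (evQ L q (Polynomial.X ^ n * f) : M) = (L.τ.symm ^ n) (evQ L q f) :=
  evP_X_pow_mul (op L) q n f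

/-- `τ^m Q / Q` is a finite projective `A`-module. -/
theorem finite_projective_Qm_quot (hQ : L.FinProjQ) (m : ℕ) :
    Module.Finite A (L.Qm m ⧸ L.Q.submoduleOf (L.Qm m)) ∧
      Module.Projective A (L.Qm m ⧸ L.Q.submoduleOf (L.Qm m)) := by
  classical
  obtain ⟨s, q, ψ, hψ, hx⟩ := hQ
  have hmon : (Polynomial.X ^ m : Polynomial A).Monic := Polynomial.monic_X_pow m
  let tr : Polynomial A →ₗ[A] Polynomial.degreeLT A m :=
    LinearMap.codRestrict _ (Polynomial.modByMonicHom (Polynomial.X ^ m : Polynomial A)) (fun f => by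
      rw [Polynomial.mem_degreeLT]
      rcases subsingleton_or_nontrivial A with h | h
      · have : Polynomial.modByMonicHom (Polynomial.X ^ m : Polynomial A) f = 0 :=
          Subsingleton.elim _ _
        rw [this, Polynomial.degree_zero]
        exact WithBot.bot_lt_coe m
      · refine lt_of_lt_of_le (Polynomial.degree_modByMonic_lt f hmon) ?_
        rw [Polynomial.degree_X_pow])
  have htr : ∀ f, ((tr f : Polynomial.degreeLT A m) : Polynomial A) =
      f - Polynomial.X ^ m * (f /ₘ Polynomial.X ^ m) := by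
    intro f
    have := Polynomial.modByMonic_add_div f (Polynomial.X ^ m : Polynomial A)
    change f %ₘ (Polynomial.X ^ m) = _
    rw [eq_sub_iff_add_eq]; exact this
  let a : L.Qm m →ₗ[A] (Fin s → Polynomial.degreeLT A m) :=
    LinearMap.pi (fun k => tr ∘ₗ (ψ k) ∘ₗ ((QmEquiv L m).symm : L.Qm m →ₗ[A] L.Q))
  let b : (Fin s → Polynomial.degreeLT A m) →ₗ[A] L.Qm m :=
    ((QmEquiv L m) : L.Q →ₗ[A] L.Qm m) ∘ₗ
      (∑ k, (evQ L (q k)) ∘ₗ (Submodule.subtype _) ∘ₗ (LinearMap.proj k))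
  have hsymm : ∀ x : L.Qm m, (((QmEquiv L m).symm x : L.Q) : M) = (L.τ.symm ^ m) (x : M) := by
    intro x
    obtain ⟨y, rfl⟩ := (QmEquiv L m).surjective x
    rw [LinearEquiv.symm_apply_apply]
    exact (symm_pow_apply_pow L m (y : M)).symm
  have hψ' : ∀ k (x : L.Q), ψ k ⟨(L.τ.symm ^ m) x, symm_pow_mem_Q L m x.2⟩ =
      Polynomial.X ^ m * ψ k x := fun k x => phi_pow (op L) (ψ k) (hψ k) m x
  have ha : ∀ x : L.Qm m, (x : M) ∈ L.Q → a x = 0 := by
    intro x hxQ
    funext k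
    apply Subtype.ext
    change ((tr (ψ k ((QmEquiv L m).symm x)) : Polynomial.degreeLT A m) : Polynomial A) = 0
    have h1 : (QmEquiv L m).symm x = ⟨(L.τ.symm ^ m) ((⟨x, hxQ⟩ : L.Q) : M), symm_pow_mem_Q L m hxQ⟩ :=
      Subtype.ext (hsymm x)
    rw [h1, hψ']
    change (Polynomial.X ^ m * _) %ₘ (Polynomial.X ^ m : Polynomial A) = 0
    rw [Polynomial.modByMonic_eq_zero_iff_dvd hmon]
    exact dvd_mul_right _ _
  have hb : ∀ x : L.Qm m, ((x - b (a x) : L.Qm m) : M) ∈ L.Q := by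
    intro x
    have h1 : x = QmEquiv L m ((QmEquiv L m).symm x) := (LinearEquiv.apply_symm_apply _ _).symm
    have h2 : (QmEquiv L m).symm x = ∑ k, evQ L (q k) (ψ k ((QmEquiv L m).symm x)) := by
      apply Subtype.ext
      rw [hx ((QmEquiv L m).symm x), Submodule.coe_sum]
      rfl
    have h3 : b (a x) = QmEquiv L m (∑ k, evQ L (q k)
        ((tr (ψ k ((QmEquiv L m).symm x)) : Polynomial.degreeLT A m) : Polynomial A)) := by
      simp only [b, LinearMap.comp_apply, LinearMap.sum_apply]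
      rfl
    have h4 : x - b (a x) = QmEquiv L m (∑ k, evQ L (q k)
        (Polynomial.X ^ m * ((ψ k ((QmEquiv L m).symm x)) /ₘ Polynomial.X ^ m))) := by
      rw [h3]
      conv_lhs => rw [h1]
      rw [← map_sub]
      congr 1
      conv_lhs => arg 1; rw [h2]
      rw [← Finset.sum_sub_distrib]
      refine Finset.sum_congr rfl fun k _ => ?_
      rw [← map_sub, htr]
      simp only [LinearEquiv.apply_symm_apply]
      congr 1
      ring
    rw [h4]
    change (L.τ ^ m) ((∑ k, _ : L.Q) : M) ∈ L.Q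
    rw [Submodule.coe_sum, map_sum]
    refine Submodule.sum_mem _ fun k _ => ?_
    have h5 := evQ_X_pow_mul L (q k) m ((ψ k ((QmEquiv L m).symm x)) /ₘ Polynomial.X ^ m)
    rw [h5]
    change (L.τ ^ m) ((L.τ.symm ^ m) _) ∈ L.Q
    rw [pow_apply_symm_pow]
    exact (evQ L (q k) _).2
  let abar : (L.Qm m ⧸ L.Q.submoduleOf (L.Qm m)) →ₗ[A] (Fin s → Polynomial.degreeLT A m) :=
    Submodule.liftQ _ a (fun x hx => ha x hx)
  have hcomp : (Submodule.mkQ (L.Q.submoduleOf (L.Qm m)) ∘ₗ b) ∘ₗ abar = LinearMap.id := by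
    apply Submodule.linearMap_qext
    ext x
    change (Submodule.Quotient.mk (b (a x)) : L.Qm m ⧸ L.Q.submoduleOf (L.Qm m)) =
      Submodule.Quotient.mk x
    rw [eq_comm, Submodule.Quotient.eq]
    exact hb x
  have hfin : Module.Finite A (Polynomial.degreeLT A m) :=
    Module.Finite.equiv (Polynomial.degreeLTEquiv A m).symm
  have hproj : Module.Projective A (Polynomial.degreeLT A m) :=
    Module.Projective.of_equiv (Polynomial.degreeLTEquiv A m).symm
  constructor
  · refine Module.Finite.of_surjective (Submodule.mkQ (L.Q.submoduleOf (L.Qm m)) ∘ₗ b) ?_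
    intro x
    exact ⟨abar x, by rw [← LinearMap.comp_apply, hcomp]; rfl⟩
  · exact Module.Projective.of_split abar _ hcomp

end Fermat.Agent.H10.Lat
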