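import Fermat.Agent.H10_K3b
import Fermat.Agent.H10_P1LatProj
/-!
# S25-K3, part 3: `H¹(α(m∞)) = 0` for `m ≫ 0`, and the Euler characteristic of `α(∞)`
-/
set_option autoImplicit false
universe u v
open CategoryTheory AlgebraicGeometry CategoryTheory.Limits TopologicalSpace Opposite Module
open AlgebraicGeometry.RelPicard NeronModelInfra

noncomputable section

namespace Fermat.Agent.H10.K3

open Fermat.Agent.H25 Fermat.Agent.H21T Fermat.Agent.H20T

section Inf

variable {A : Type u} [CommRing A] {Y : Scheme.{u}} {y : Y ⟶ Spec (CommRingCat.of A)}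
  {τ : TwoChart y} {N : Y.Modules}

/-- `H¹(L(m∞)) = 0` for large `m` -/
theorem InfData.exists_vanishing (D : InfData τ N) {L : Y.Modules}
    (hL : Scheme.Modules.IsInvertible L) : ∃ m₀ : ℕ, ∀ m ≥ m₀,
    ∃ (P : Y.Modules) (hP : Scheme.Modules.IsInvertible P),
      SPic.mk L hL * (SPic.mk N D.isInvertible) ^ m = SPic.mk P hP ∧
      (latOf τ P hP).P ⊔ (latOf τ P hP).Q = ⊤ := by
  obtain ⟨m₀, hm⟩ := H10.Lat.exists_forall_finite_K (latOf τ L hL) (finProjP τ hL) (finProjQ τ hL)
  refine ⟨m₀, fun m hm' => ?_⟩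
  obtain ⟨P, hP, h1, w, -, h3, h4⟩ := D.exists_pow m hL
  refine ⟨P, hP, h1, ?_⟩
  rw [h3, h4, ← Submodule.map_sup, (hm m hm').1, Submodule.map_top]
  exact LinearMap.range_eq_top.mpr w.surjective

lemma nonempty_U (τ : TwoChart y) [Nonempty Y] [Nontrivial A] : Nonempty τ.U := by
  by_contra hcon
  have hU : τ.U = ⊥ := by
    rw [eq_bot_iff]; intro x hx; exact (hcon ⟨⟨x, hx⟩⟩).elim
  have hsub : Subsingleton Γ(Y, τ.U) := by
    rw [hU]
    refine ⟨fun a b => ?_⟩
    exact secO_ext (fun i : PEmpty.{1} => i.elim) (fun i => i.elim) (by simp) (fun i => i.elim)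
  have hn : τ.n = 0 := by
    by_contra hn
    have h1 : (Pi.single ⟨0, Nat.pos_of_ne_zero hn⟩ 1 : Fin τ.n → Polynomial A) = 0 :=
      τ.basisU.1 (Subsingleton.elim _ _)
    have h2 := congrFun h1 ⟨0, Nat.pos_of_ne_zero hn⟩
    rw [Pi.single_eq_same] at h2
    exact one_ne_zero h2
  have hsubV : Subsingleton Γ(Y, τ.V) := by
    refine ⟨fun a b => ?_⟩
    obtain ⟨f, rfl⟩ := τ.basisV.2 a
    obtain ⟨g, rfl⟩ := τ.basisV.2 b
    have : f = g := by
      funext i
      exact absurd i.2 (by omega)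
    rw [this]
  have hV : τ.V = ⊥ := by
    have h1 : Y.basicOpen (1 : Γ(Y, τ.V)) = τ.V := Scheme.basicOpen_of_isUnit _ isUnit_one
    rw [← h1, Subsingleton.elim (1 : Γ(Y, τ.V)) 0]
    exact Scheme.basicOpen_zero _ _
  obtain ⟨p⟩ := (inferInstance : Nonempty Y)
  have hp : p ∈ τ.U ⊔ τ.V := by rw [τ.cover]; trivial
  rw [hU, hV, bot_sup_eq] at hp
  exact hp

/-- the section `1` of `O(∞)` -/
theorem InfData.exists_hom (D : InfData τ N) [Nonempty Y] [Nontrivial A] :
    ∃ φ : uMod Y ⟶ N, φ ≠ 0 := by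
  obtain ⟨s, hs⟩ := sec_glue (M := N) (U := ⊤) (fun i : Bool => cond i τ.U τ.V)
    (fun i => le_top) (by
      rw [← τ.cover]
      exact sup_le (le_iSup (fun i : Bool => cond i τ.U τ.V) true)
        (le_iSup (fun i : Bool => cond i τ.U τ.V) false))
    (fun i => match i with
      | true => D.eU
      | false => τ.s • D.eV) (by
      have hab : res N (inf_le_left : τ.U ⊓ τ.V ≤ τ.U) D.eU =
          res N inf_le_right (τ.s • D.eV) := by
        rw [res_smul, D.rel, ← mul_smul, τ.sr_mul_tr, one_smul]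
      rintro (_ | _) (_ | _) V hi hj
      · rfl
      · have := congrArg (res N (le_inf hj hi : V ≤ τ.U ⊓ τ.V)) hab
        rw [res_res, res_res] at this
        exact this.symm
      · have := congrArg (res N (le_inf hi hj : V ≤ τ.U ⊓ τ.V)) hab
        rw [res_res, res_res] at this
        exact this
      · rfl)
  have hsU : res N le_top s = D.eU := hs true
  refine ⟨unitHom s, fun h0 => ?_⟩
  have h1 : (unitHom s).app ⊤ (uSec 1) = s := by
    rw [unitHom_app, uFun_uSec, one_smul, res_self]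
  have h2 : s = 0 := by
    rw [← h1, h0]; rfl
  rw [h2, res_zero] at hsU
  have h3 : (1 : Γ(Y, τ.U)) = 0 := D.genU.inj (by rw [← hsU, smul_zero, smul_zero])
  have h4 : τ.U = ⊥ := by
    have h1 : Y.basicOpen (1 : Γ(Y, τ.U)) = τ.U := Scheme.basicOpen_of_isUnit _ isUnit_one
    rw [← h1, h3]
    exact Scheme.basicOpen_zero _ _
  obtain ⟨⟨p, hp⟩⟩ := nonempty_U τ
  rw [h4] at hp
  exact hp

end Inf

section Chi

variable {k : Type u} [Field k] {C : Scheme.{u}} {c : C ⟶ Spec (CommRingCat.of k)}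

lemma bcl_injective : Function.Injective (bcl (c := c) (𝟙 (Spec (CommRingCat.of k)))) := by
  intro a b h
  have h1 := congrArg (SPic.map (inv (pullback.fst c (𝟙 (Spec (CommRingCat.of k)))))) h
  unfold bcl at h1
  rw [← SPic.map_comp_apply, ← SPic.map_comp_apply, IsIso.inv_hom_id, SPic.map_id] at h1
  exact h1

lemma cst_id (x : SchemeHomOver (𝟙 (Spec (CommRingCat.of k))) c) : cst x (𝟙 _) = x :=
  postComp_id x

variable [IsAlgClosed k] [IsProper c] [SmoothOfRelativeDimension 1 c] [IsIntegral C]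

lemma mk_eq_of_twL {xs : List (SchemeHomOver (𝟙 (Spec (CommRingCat.of k))) c)}
    {L M : (pullback c (𝟙 (Spec (CommRingCat.of k)))).Modules}
    (hL : Scheme.Modules.IsInvertible L) (hM : Scheme.Modules.IsInvertible M)
    (h : TwL xs L M) : SPic.mk L hL = SPic.mk M hM * bcl (𝟙 _) (xs.map ptCl).prod := by
  induction xs generalizing L with
  | nil =>
    rw [List.map_nil, List.prod_nil, map_one, mul_one, SPic.mk_eq_mk]
    exact h
  | cons x xs ih =>
    obtain ⟨L', hL', h1, h2⟩ := h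
    rw [mk_eq_of_isTw x (𝟙 _) hL' hL (by rw [cst_id]; exact h2), ih hL' h1, List.map_cons,
      List.prod_cons, map_mul, mul_assoc, mul_comm (bcl (𝟙 _) (ptCl x))]

lemma chiP_mul_prod (τ : TwoChart c)
    (xs : List (SchemeHomOver (𝟙 (Spec (CommRingCat.of k))) c))
    {K : Type u} [Field K] (z : Spec (CommRingCat.of K) ⟶ Spec (CommRingCat.of k))
    (α : SPic (pullback c z)) :
    chiP τ z (α * bcl z (xs.map ptCl).prod) = chiP τ z α - xs.length := by
  induction xs generalizing α with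
  | nil => simp
  | cons x xs ih =>
    rw [List.map_cons, List.prod_cons, map_mul, ← mul_assoc, ih, chiP_mul_ptCl,
      List.length_cons]
    push_cast
    ring

/-- the Euler characteristic of `α(∞)` -/
theorem exists_chiP_inf (τ : TwoChart c) {N : C.Modules} (D : InfData τ N) :
    ∃ e : ℕ, ∀ (K : Type u) [Field K] (z : Spec (CommRingCat.of K) ⟶ Spec (CommRingCat.of k))
      (α : SPic (pullback c z)),
      chiP τ z (α * bcl z (SPic.mk N D.isInvertible)) = chiP τ z α + e := by
  have hint : IsIntegral (pullback c (𝟙 (Spec (CommRingCat.of k)))) :=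
    IsIntegral.of_isIso (inv (pullback.fst c (𝟙 (Spec (CommRingCat.of k)))))
  let D' := D.pb (𝟙 (Spec (CommRingCat.of k)))
  obtain ⟨φ, hφ⟩ := D'.exists_hom
  obtain ⟨xs, hxs⟩ := exists_twL_of_ne_zero (H51Pb.baseChange τ (𝟙 _)) (isInvertible_uMod _)
    D'.isInvertible hφ
  have h1 := mk_eq_of_twL (isInvertible_uMod _) D'.isInvertible hxs
  have h2 : SPic.mk N D.isInvertible * (xs.map ptCl).prod = 1 := by
    apply bcl_injective (c := c)
    rw [map_one, map_mul]
    exact h1.symm
  refine ⟨xs.length, fun K _ z α => ?_⟩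
  have h3 : α = α * bcl z (SPic.mk N D.isInvertible) * bcl z (xs.map ptCl).prod := by
    rw [mul_assoc, ← map_mul, h2, map_one, mul_one]
  have h4 := chiP_mul_prod τ xs z (α * bcl z (SPic.mk N D.isInvertible))
  rw [← h3] at h4
  rw [h4]
  ring

end Chi

end Fermat.Agent.H10.K3
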