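import Fermat.Agent.H10_K3c
import Fermat.Agent.H10_RRPoints
/-!
# S25-K3, part 4: rational points and zeros of sections
-/
set_option autoImplicit false
universe u v
open CategoryTheory AlgebraicGeometry CategoryTheory.Limits TopologicalSpace Opposite Module
open AlgebraicGeometry.RelPicard NeronModelInfra

noncomputable section

namespace Fermat.Agent.H10.K3

open Fermat.Agent.H25 Fermat.Agent.H21T Fermat.Agent.H20T

section Pts

variable {R : Type u} [CommRing R] {C : Scheme.{u}} {c : C ⟶ Spec (CommRingCat.of R)}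

lemma fromSpec_comp (c : C ⟶ Spec (CommRingCat.of R)) {U : C.Opens} (hU : IsAffineOpen U) :
    hU.fromSpec ≫ c = Spec.map (CommRingCat.ofHom (strHom c U)) := by
  have h := IsAffineOpen.SpecMap_appLE_fromSpec c (isAffineOpen_top _) hU le_top
  rw [← h, IsAffineOpen.fromSpec_top, Scheme.isoSpec_Spec_inv, ← Spec.map_comp]
  rfl

/-- `R`-points of an affine open -/
abbrev Pt (c : C ⟶ Spec (CommRingCat.of R)) (U : C.Opens) : Type u :=
  {y : Γ(C, U) →+* R // ∀ r, y (strHom c U r) = r}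

/-- the section attached to a point of an affine open -/
def ptOf {U : C.Opens} (hU : IsAffineOpen U) (y : Pt c U) :
    SchemeHomOver (𝟙 (Spec (CommRingCat.of R))) c :=
  ⟨Spec.map (CommRingCat.ofHom y.1) ≫ hU.fromSpec, by
    rw [Category.assoc, fromSpec_comp, ← Spec.map_comp]
    have : CommRingCat.ofHom (strHom c U) ≫ CommRingCat.ofHom y.1 = 𝟙 _ := by
      ext r
      exact y.2 r
    rw [this, Spec.map_id]⟩

lemma ptOf_preimage {U : C.Opens} (hU : IsAffineOpen U) (y : Pt c U) :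
    (ptOf hU y).1 ⁻¹ᵁ U = ⊤ := by
  change (Spec.map (CommRingCat.ofHom y.1) ≫ hU.fromSpec) ⁻¹ᵁ U = ⊤
  rw [Scheme.Hom.comp_preimage, hU.fromSpec_preimage_self]
  rfl

lemma ptOf_app {U : C.Opens} (hU : IsAffineOpen U) (y : Pt c U) (f : Γ(C, U)) :
    (ptOf hU y).1.app U f = strHom (𝟙 _) _ (y.1 f) := by
  have h1 : (ptOf hU y).1.app U = hU.fromSpec.app U ≫
      (Spec.map (CommRingCat.ofHom y.1)).app _ := Scheme.Hom.comp_app _ _ _
  have h2 : (ptOf hU y).1.app U = CommRingCat.ofHom y.1 ≫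
      (Scheme.ΓSpecIso (CommRingCat.of R)).inv ≫ (Spec (CommRingCat.of R)).presheaf.map
        (homOfLE (le_top : (ptOf hU y).1 ⁻¹ᵁ U ≤ ⊤)).op := by
    rw [h1, hU.fromSpec_app_self, Category.assoc, Scheme.Hom.naturality]
    have h3 := Scheme.ΓSpecIso_inv_naturality (CommRingCat.ofHom y.1)
    rw [← Category.assoc (CommRingCat.ofHom y.1), h3, Category.assoc]
    rfl
  have h4 : strHom (𝟙 (Spec (CommRingCat.of R))) ((ptOf hU y).1 ⁻¹ᵁ U) =
      ((Scheme.ΓSpecIso (CommRingCat.of R)).inv ≫ (Spec (CommRingCat.of R)).presheaf.map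
        (homOfLE (le_top : (ptOf hU y).1 ⁻¹ᵁ U ≤ ⊤)).op).hom := by
    have h5 : Scheme.Hom.appLE (𝟙 (Spec (CommRingCat.of R))) ⊤ ((ptOf hU y).1 ⁻¹ᵁ U) le_top =
        (Spec (CommRingCat.of R)).presheaf.map
        (homOfLE (le_top : (ptOf hU y).1 ⁻¹ᵁ U ≤ ⊤)).op := by
      simp [Scheme.Hom.appLE]
    rw [strHom, h5]
  rw [h2, h4]
  rfl

end Pts

section BC

variable {k : Type u} [Field k] {C : Scheme.{u}} {c : C ⟶ Spec (CommRingCat.of k)}
  {K : Type u} [Field K] (z : Spec (CommRingCat.of K) ⟶ Spec (CommRingCat.of k))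

lemma graph_cst_preimage {U : C.Opens} (hU : IsAffineOpen U) (y : Pt c U) :
    (graph (cst (ptOf hU y) z)) ⁻¹ᵁ (pullback.fst c z ⁻¹ᵁ U) = ⊤ := by
  rw [← Scheme.Hom.comp_preimage, graph_fst, cst_fst, Scheme.Hom.comp_preimage, ptOf_preimage]
  rfl

/-- the value of a pulled back function at a point -/
lemma graph_app_fst {U : C.Opens} (hU : IsAffineOpen U) (y : Pt c U) (f : Γ(C, U)) :
    (graph (cst (ptOf hU y) z)).app (pullback.fst c z ⁻¹ᵁ U) ((pullback.fst c z).app U f) =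
      strHom (𝟙 _) _ ((Spec.preimage z).hom (y.1 f)) := by
  have e1 : graph (cst (ptOf hU y) z) ≫ pullback.fst c z = z ≫ (ptOf hU y).1 := graph_fst _
  have h1 : (graph (cst (ptOf hU y) z)).app (pullback.fst c z ⁻¹ᵁ U)
      ((pullback.fst c z).app U f) =
      (graph (cst (ptOf hU y) z) ≫ pullback.fst c z).app U f := rfl
  have h2 : (graph (cst (ptOf hU y) z) ≫ pullback.fst c z).app U f =
      resO (by rw [e1]) ((z ≫ (ptOf hU y).1).app U f) := by
    have h3 := Scheme.Hom.congr_app e1 U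
    exact congr($h3 f)
  have h4 : (z ≫ (ptOf hU y).1).app U f = z.app _ ((ptOf hU y).1.app U f) := rfl
  rw [h1, h2, h4, ptOf_app]
  have h5 : z.app ((ptOf hU y).1 ⁻¹ᵁ U) (strHom (𝟙 _) _ (y.1 f)) =
      strHom (𝟙 (Spec (CommRingCat.of K))) _ ((Spec.preimage z).hom (y.1 f)) :=
    H51Pb.app_strHom (g := z) (f := z) (by rw [Category.comp_id, Category.id_comp]) _ _
  rw [h5]
  exact H51Pb.resO_strHom _ _

lemma graph_app_snd {U : C.Opens} (hU : IsAffineOpen U) (y : Pt c U) (a : K) :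
    (graph (cst (ptOf hU y) z)).app (pullback.fst c z ⁻¹ᵁ U) (strHom (pullback.snd c z) _ a) =
      strHom (𝟙 _) _ a := by
  rw [app_strHom₁, graph_snd]

/-- the algebra `Γ(C_K, U_K)` is a base change -/
theorem exists_value (c : C ⟶ Spec (CommRingCat.of k)) {U : C.Opens} (hU : IsAffineOpen U)
    (hfin : ∀ f : Γ(C, U), f ≠ 0 → {y : Pt c U | y.1 f = 0}.Finite)
    {F : Γ(pullback c z, pullback.fst c z ⁻¹ᵁ U)} (hF : F ≠ 0) :
    {y : Pt c U | (graph (cst (ptOf hU y) z)).app (pullback.fst c z ⁻¹ᵁ U) F = 0}.Finite := by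
  let _ : Algebra k K := (Spec.preimage z).hom.toAlgebra
  let _ : Algebra k Γ(C, U) := (strHom c U).toAlgebra
  let _ : Algebra K Γ(pullback c z, pullback.fst c z ⁻¹ᵁ U) :=
    (strHom (pullback.snd c z) (pullback.fst c z ⁻¹ᵁ U)).toAlgebra
  let _ : Algebra Γ(C, U) Γ(pullback c z, pullback.fst c z ⁻¹ᵁ U) :=
    ((pullback.fst c z).app U).hom.toAlgebra
  let _ : Algebra k Γ(pullback c z, pullback.fst c z ⁻¹ᵁ U) :=
    ((strHom (pullback.snd c z) (pullback.fst c z ⁻¹ᵁ U)).comp (algebraMap k K)).toAlgebra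
  have : IsScalarTower k K Γ(pullback c z, pullback.fst c z ⁻¹ᵁ U) :=
    IsScalarTower.of_algebraMap_eq fun r => rfl
  have H := IsPullback.of_hasPullback c z
  have : IsScalarTower k Γ(C, U) Γ(pullback c z, pullback.fst c z ⁻¹ᵁ U) :=
    IsScalarTower.of_algebraMap_eq fun r => by
      change strHom (pullback.snd c z) (pullback.fst c z ⁻¹ᵁ U) (algebraMap k K r) =
        (pullback.fst c z).app U (strHom c U r)
      rw [H51Pb.app_strHom H.w]
      rfl
  have : Algebra.IsPushout k K Γ(C, U) Γ(pullback c z, pullback.fst c z ⁻¹ᵁ U) := by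
    have h1 := H51Pb.isPushout_strHom H hU
    have h2 : Algebra.IsPushout k Γ(C, U) K Γ(pullback c z, pullback.fst c z ⁻¹ᵁ U) :=
      CommRingCat.isPushout_iff_isPushout.mp h1
    exact h2.symm
  let ι : Pt c U → (Γ(C, U) →ₐ[k] k) := fun y => { toRingHom := y.1, commutes' := y.2 }
  have hι : Function.Injective ι := by
    intro y y' h
    apply Subtype.ext
    exact congrArg (fun g : Γ(C, U) →ₐ[k] k => (g : Γ(C, U) →+* k)) h
  have hfin' : ∀ f : Γ(C, U), f ≠ 0 → {x : Γ(C, U) →ₐ[k] k | x f = 0}.Finite := by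
    intro f hf
    have h1 := (hfin f hf).image ι
    refine h1.subset fun x hx => ⟨⟨(x : Γ(C, U) →+* k), x.commutes⟩, hx, ?_⟩
    ext r
    rfl
  have key := H10.Lat.bcPt_finite (K := K) (R := Γ(pullback c z, pullback.fst c z ⁻¹ᵁ U)) hfin' hF
  refine (key.preimage hι.injOn).subset fun y hy => ?_
  change H10.Lat.bcPt K _ (ι y) F = 0
  apply (strHom_bijective_of_id rfl (graph_cst_preimage z hU y)).1
  rw [map_zero]
  refine Eq.trans ?_ (show (graph (cst (ptOf hU y) z)).app (pullback.fst c z ⁻¹ᵁ U) F = 0 from hy)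
  obtain ⟨f, rfl⟩ := H10.Lat.exists_coords (B := Γ(C, U))
    (R := Γ(pullback c z, pullback.fst c z ⁻¹ᵁ U)) (Module.Basis.ofVectorSpace k K) F
  simp only [Finsupp.sum, map_sum]
  refine Finset.sum_congr rfl fun i _ => ?_
  rw [Algebra.smul_def, map_mul, map_mul, map_mul, AlgHom.commutes, H10.Lat.bcPt_algebraMap]
  congr 1
  · exact (graph_app_snd z hU y _).symm
  · exact (graph_app_fst z hU y _).symm

end BC

section Zeros

variable {k : Type u} [Field k] {C : Scheme.{u}} {c : C ⟶ Spec (CommRingCat.of k)}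

/-- **finitely many points are zeros of a nonzero function** -/
theorem finite_zeros_pt [IsIntegral C] (τ : TwoChart c) {f : Γ(C, τ.U)} (hf : f ≠ 0) :
    {y : Pt c τ.U | y.1 f = 0}.Finite := by
  have : Nonempty τ.U := nonempty_U τ
  let _ : Algebra k Γ(C, τ.U) := (strHom c τ.U).toAlgebra
  have key := H10.Lat.finite_zeros (K := k) (R := Γ(C, τ.U)) (t := τ.t) (b := τ.bU) τ.basisU hf
  let ι : Pt c τ.U → (Γ(C, τ.U) →ₐ[k] k) := fun y => { toRingHom := y.1, commutes' := y.2 }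
  have hι : Function.Injective ι := by
    intro y y' h
    apply Subtype.ext
    exact congrArg (fun g : Γ(C, τ.U) →ₐ[k] k => (g : Γ(C, τ.U) →+* k)) h
  exact key.preimage hι.injOn

/-- **there are infinitely many points** -/
theorem infinite_pt [IsAlgClosed k] [IsIntegral C] (τ : TwoChart c) : Infinite (Pt c τ.U) := by
  have : Nonempty τ.U := nonempty_U τ
  let _ : Algebra k Γ(C, τ.U) := (strHom c τ.U).toAlgebra
  have h1 : ∀ a : k, ∃ y : Pt c τ.U, y.1 τ.t = a := by
    intro a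
    obtain ⟨y, hy⟩ := H10.Lat.exists_point (K := k) (R := Γ(C, τ.U)) (t := τ.t) (b := τ.bU)
      τ.basisU a
    exact ⟨⟨(y : Γ(C, τ.U) →+* k), y.commutes⟩, hy⟩
  choose y hy using h1
  have : Infinite k := IsAlgClosed.instInfinite
  refine Infinite.of_injective y fun a b h => ?_
  rw [← hy a, ← hy b, h]

variable {K : Type u} [Field K] (z : Spec (CommRingCat.of K) ⟶ Spec (CommRingCat.of k))

/-- evaluating sections through the dual -/
lemma app_dual_eq_zero {Z T : Scheme.{u}} {γ : T ⟶ Z} {L : Z.Modules}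
    {W : Z.Opens} {m a : Γ(L, W)}
    (hm : IsGen _ (pb γ L m)) (ha : pb γ L a = 0)
    (ψ : Module.Dual Γ(Z, W) Γ(L, W)) (h : ψ a • m = ψ m • a) : γ.app W (ψ a) = 0 := by
  apply hm.inj
  rw [← pb_smul, h, pb_smul, ha, smul_zero, zero_smul]

/-- **finitely many rational points are zeros of a nonzero section** -/
theorem finite_zeros_sec [IsIntegral C] (τ : TwoChart c) {L : (pullback c z).Modules}
    (hL : Scheme.Modules.IsInvertible L) {a : Γ(L, (H51Pb.baseChange τ z).U)} (ha : a ≠ 0) :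
    {y : Pt c τ.U | pb (graph (cst (ptOf τ.affU y) z)) L a = 0}.Finite := by
  have haff : IsAffineOpen (H51Pb.baseChange τ z).U := (H51Pb.baseChange τ z).affU
  have hinv : Module.Invertible Γ(pullback c z, (H51Pb.baseChange τ z).U)
    Γ(L, (H51Pb.baseChange τ z).U) := H51Aff.invertible haff hL
  obtain ⟨ψ, hψ⟩ := H10.Inv.exists_dual_apply_ne_zero (R := Γ(pullback c z, (H51Pb.baseChange τ z).U)) ha
  refine (exists_value z c τ.affU (fun f hf => finite_zeros_pt τ hf) hψ).subset fun y hy => ?_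
  have hpre := graph_cst_preimage z τ.affU y
  have hp : (graph (cst (ptOf τ.affU y) z)) (IsLocalRing.closedPoint K) ∈
      (H51Pb.baseChange τ z).U := by
    have : (IsLocalRing.closedPoint K : ↥(Spec (CommRingCat.of K))) ∈
      (graph (cst (ptOf τ.affU y) z)) ⁻¹ᵁ (pullback.fst c z ⁻¹ᵁ τ.U) := by
      rw [hpre]; trivial
    exact this
  obtain ⟨m, V, hV, hpV, hm⟩ := exists_section_gen hL haff hp
  have hV1 : (graph (cst (ptOf τ.affU y) z)) ⁻¹ᵁ V = ⊤ := by
    rcases opens_spec_field ((graph (cst (ptOf τ.affU y) z)) ⁻¹ᵁ V) with h4 | h4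
    · have : (IsLocalRing.closedPoint K : ↥(Spec (CommRingCat.of K))) ∈
        (graph (cst (ptOf τ.affU y) z)) ⁻¹ᵁ V := hpV
      rw [h4] at this
      exact absurd this (fun h => h)
    · exact h4
  have hgen : IsGen _ (pb (graph (cst (ptOf τ.affU y) z)) L m) := by
    have h5 := hm.pb (graph (cst (ptOf τ.affU y) z)) L
    rw [pb_res] at h5
    have h6 : (graph (cst (ptOf τ.affU y) z)) ⁻¹ᵁ (H51Pb.baseChange τ z).U ≤
        (graph (cst (ptOf τ.affU y) z)) ⁻¹ᵁ V := by rw [hV1]; exact le_top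
    have h7 := h5.res h6
    rwa [res_res, res_self] at h7
  exact app_dual_eq_zero hgen hy ψ (H10.Inv.dual_smul_comm ψ a m)

end Zeros

end Fermat.Agent.H10.K3
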