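import Fermat.Agent.H10_RRCore

/-!
# Lattices on `P¹` coming from line bundles on a two-chart curve (S25, job D3)
-/

set_option autoImplicit false
universe u v w
open Fermat.Agent.H25

namespace Fermat.Agent.H10.Lat

section General

variable {A : Type u} [CommRing A] {M : Type v} [AddCommGroup M] [Module A M] (L : P1Lat A M)

/-- `FinProjP` with an arbitrary finite index type. -/
theorem finProjP_of_fintype {ι : Type*} [Fintype ι] (p : ι → L.P)
    (φ : ι → (L.P →ₗ[A] Polynomial A))
    (h1 : ∀ j (x : L.P), φ j ⟨L.τ x, L.τ_mem x x.2⟩ = Polynomial.X * φ j x)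
    (h2 : ∀ x : L.P, (x : M) = ∑ j, Polynomial.aeval (L.τ : M →ₗ[A] M) (φ j x) (p j : M)) :
    L.FinProjP := by
  classical
  let e := (Fintype.equivFin ι).symm
  refine ⟨Fintype.card ι, fun j => p (e j), fun j => φ (e j), fun j x => h1 _ x, fun x => ?_⟩
  conv_lhs => rw [h2 x]
  exact (Equiv.sum_comp e (fun j => Polynomial.aeval (L.τ : M →ₗ[A] M) (φ j x) (p j : M))).symm

/-- dual basis of a finite projective module -/
theorem exists_dual_basis_fin {R : Type*} [CommRing R] {P : Type*} [AddCommGroup P] [Module R P]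
    [Module.Finite R P] [Module.Projective R P] :
    ∃ (r : ℕ) (p : Fin r → P) (φ : Fin r → (P →ₗ[R] R)), ∀ x, x = ∑ j, φ j x • p j := by
  obtain ⟨r, f, hf⟩ := Module.Finite.exists_fin' R P
  obtain ⟨g, hg⟩ := Module.projective_lifting_property f LinearMap.id hf
  refine ⟨r, fun j => f (Pi.single j 1), fun j => LinearMap.proj j ∘ₗ g, fun x => ?_⟩
  have h1 : f (g x) = x := LinearMap.congr_fun hg x
  conv_lhs => rw [← h1]
  conv_lhs => rw [pi_eq_sum_univ' (g x)]
  rw [map_sum]
  refine Finset.sum_congr rfl fun j _ => ?_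
  rw [map_smul]
  rfl

end General

section LatOf

variable {A : Type u} [CommRing A] {R0 R1 R01 : Type u} [CommRing R0] [CommRing R1] [CommRing R01]
  [Algebra A R0] [Algebra A R1] [Algebra R0 R01] [Algebra R1 R01]
  {M : Type v} [AddCommGroup M] [Module A M] [Module R0 M] [Module R1 M] [Module R01 M]
  [IsScalarTower A R0 M] [IsScalarTower A R1 M]
  [IsScalarTower R0 R01 M] [IsScalarTower R1 R01 M]

theorem smul_smul_cancel {t : R0} {s : R1}
    (hts : algebraMap R0 R01 t * algebraMap R1 R01 s = 1) (x : M) : t • (s • x) = x := by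
  rw [← algebraMap_smul R01 s x, ← algebraMap_smul R01 t, smul_smul, hts, one_smul]

theorem smul_smul_cancel' {t : R0} {s : R1}
    (hts : algebraMap R0 R01 t * algebraMap R1 R01 s = 1) (x : M) : s • (t • x) = x := by
  rw [← algebraMap_smul R01 t x, ← algebraMap_smul R01 s, smul_smul, mul_comm, hts, one_smul]

/-- multiplication by `t` as an `A`-linear automorphism of `M` -/
def tauOf (A : Type u) [CommRing A] {R0 R1 R01 : Type u} [CommRing R0] [CommRing R1]
    [CommRing R01] [Algebra A R0] [Algebra A R1] [Algebra R0 R01] [Algebra R1 R01]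
    {M : Type v} [AddCommGroup M] [Module A M] [Module R0 M] [Module R1 M] [Module R01 M]
    [IsScalarTower A R0 M] [IsScalarTower A R1 M]
    [IsScalarTower R0 R01 M] [IsScalarTower R1 R01 M] {t : R0} {s : R1}
    (hts : algebraMap R0 R01 t * algebraMap R1 R01 s = 1) : M ≃ₗ[A] M where
  toFun x := t • x
  map_add' := smul_add t
  map_smul' a x := by
    rw [RingHom.id_apply, ← algebraMap_smul R0 a x, ← algebraMap_smul R0 a (t • x), smul_smul,
      smul_smul, mul_comm]
  invFun x := s • x
  left_inv x := smul_smul_cancel' (R01 := R01) hts x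
  right_inv x := smul_smul_cancel (R01 := R01) hts x

/-- The lattice on `P¹` attached to `(P, Q, M)`. -/
def latOf (A : Type u) [CommRing A] {R0 R1 R01 : Type u} [CommRing R0] [CommRing R1]
    [CommRing R01] [Algebra A R0] [Algebra A R1] [Algebra R0 R01] [Algebra R1 R01]
    {M : Type v} [AddCommGroup M] [Module A M] [Module R0 M] [Module R1 M] [Module R01 M]
    [IsScalarTower A R0 M] [IsScalarTower A R1 M]
    [IsScalarTower R0 R01 M] [IsScalarTower R1 R01 M] {t : R0} {s : R1}
    (hts : algebraMap R0 R01 t * algebraMap R1 R01 s = 1)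
    (P : Submodule R0 M) (Q : Submodule R1 M) (hP : ∀ x : M, ∃ n : ℕ, t ^ n • x ∈ P)
    (hQ : ∀ x : M, ∃ n : ℕ, s ^ n • x ∈ Q) : P1Lat A M where
  τ := tauOf A (R01 := R01) hts
  P := P.restrictScalars A
  Q := Q.restrictScalars A
  τ_mem x hx := P.smul_mem t hx
  τ_symm_mem x hx := Q.smul_mem s hx
  exhaustP x := by
    obtain ⟨n, hn⟩ := hP x
    refine ⟨n, ?_⟩
    have : ∀ (n : ℕ) (x : M), ((tauOf A (R01 := R01) hts : M ≃ₗ[A] M) ^ n) x = t ^ n • x := by
      intro n
      induction n with
      | zero => intro x; simp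
      | succ n ih =>
        intro x
        rw [pow_succ, pow_succ]
        change ((tauOf A (R01 := R01) hts : M ≃ₗ[A] M) ^ n) (t • x) = _
        rw [ih, smul_smul]
    rw [this]; exact hn
  exhaustQ x := by
    obtain ⟨n, hn⟩ := hQ x
    refine ⟨n, ?_⟩
    have : ∀ (n : ℕ) (x : M), ((tauOf A (R01 := R01) hts : M ≃ₗ[A] M).symm ^ n) x = s ^ n • x := by
      intro n
      induction n with
      | zero => intro x; simp
      | succ n ih =>
        intro x
        rw [pow_succ, pow_succ]
        change ((tauOf A (R01 := R01) hts : M ≃ₗ[A] M).symm ^ n) (s • x) = _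
        rw [ih, smul_smul]
    rw [this]; exact hn

variable {t : R0} {s : R1} (hts : algebraMap R0 R01 t * algebraMap R1 R01 s = 1)
  {P : Submodule R0 M} {Q : Submodule R1 M} {hP : ∀ x : M, ∃ n : ℕ, t ^ n • x ∈ P}
  {hQ : ∀ x : M, ∃ n : ℕ, s ^ n • x ∈ Q}

theorem latOf_τ (x : M) : (latOf A (R01 := R01) hts P Q hP hQ).τ x = t • x := rfl

theorem latOf_τ_symm (x : M) : (latOf A (R01 := R01) hts P Q hP hQ).τ.symm x = s • x := rfl

theorem latOf_τ_pow (n : ℕ) (x : M) :
    ((latOf A (R01 := R01) hts P Q hP hQ).τ ^ n) x = t ^ n • x := by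
  induction n generalizing x with
  | zero => simp
  | succ n ih => rw [pow_succ_apply, ih, latOf_τ, smul_smul, pow_succ]

theorem latOf_τ_symm_pow (n : ℕ) (x : M) :
    ((latOf A (R01 := R01) hts P Q hP hQ).τ.symm ^ n) x = s ^ n • x := by
  induction n generalizing x with
  | zero => simp
  | succ n ih => rw [symm_pow_succ_apply, ih, latOf_τ_symm, smul_smul, pow_succ]

@[simp] theorem mem_latOf_P {x : M} : x ∈ (latOf A (R01 := R01) hts P Q hP hQ).P ↔ x ∈ P := Iff.rfl

@[simp] theorem mem_latOf_Q {x : M} : x ∈ (latOf A (R01 := R01) hts P Q hP hQ).Q ↔ x ∈ Q := Iff.rfl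

theorem aeval_latOf (f : Polynomial A) (x : M) :
    Polynomial.aeval ((latOf A (R01 := R01) hts P Q hP hQ).τ : M →ₗ[A] M) f x =
      (Polynomial.aeval t f) • x := by
  induction f using Polynomial.induction_on' with
  | add f g hf hg => rw [map_add, map_add, LinearMap.add_apply, hf, hg, add_smul]
  | monomial i a =>
    rw [Polynomial.aeval_monomial, Polynomial.aeval_monomial, coe_pow_τ, mul_smul,
      algebraMap_smul]
    simp only [Module.End.mul_apply, Module.algebraMap_end_apply, LinearEquiv.coe_coe,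
      latOf_τ_pow]

/-- a basis of `R` over `A[t]` -/
theorem exists_coordinates {R : Type u} [CommRing R] [Algebra A R] {t : R} {n : ℕ} {b : Fin n → R}
    (hb : Function.Bijective (fun f : Fin n → Polynomial A => ∑ i, Polynomial.aeval t (f i) * b i)) :
    ∃ c : Fin n → (R →ₗ[A] Polynomial A), (∀ i x, c i (t * x) = Polynomial.X * c i x) ∧
      ∀ x, x = ∑ i, Polynomial.aeval t (c i x) * b i := by
  let e0 : (Fin n → Polynomial A) →ₗ[A] R :=
    { toFun := fun f => ∑ i, Polynomial.aeval t (f i) * b i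
      map_add' := fun f g => by
        rw [← Finset.sum_add_distrib]
        exact Finset.sum_congr rfl fun i _ => by rw [Pi.add_apply, map_add, add_mul]
      map_smul' := fun a f => by
        rw [Finset.smul_sum]
        exact Finset.sum_congr rfl fun i _ => by
          rw [Pi.smul_apply, map_smul, smul_mul_assoc]; rfl }
  let e : (Fin n → Polynomial A) ≃ₗ[A] R := LinearEquiv.ofBijective e0 hb
  have he : ∀ f, e f = ∑ i, Polynomial.aeval t (f i) * b i := fun f => rfl
  have hX : ∀ f : Fin n → Polynomial A, e (fun i => Polynomial.X * f i) = t * e f := by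
    intro f
    rw [he, he, Finset.mul_sum]
    exact Finset.sum_congr rfl fun i _ => by rw [map_mul, Polynomial.aeval_X]; ring
  refine ⟨fun i => LinearMap.proj i ∘ₗ (e.symm : R →ₗ[A] (Fin n → Polynomial A)), ?_, ?_⟩
  · intro i x
    have h1 : e.symm (t * x) = fun i => Polynomial.X * e.symm x i := by
      rw [LinearEquiv.symm_apply_eq, hX, LinearEquiv.apply_symm_apply]
    exact congrFun h1 i
  · intro x
    have := he (e.symm x)
    rw [LinearEquiv.apply_symm_apply] at this
    exact this

theorem latOf_finProjP [Module.Finite R0 P] [Module.Projective R0 P] {n : ℕ} {b : Fin n → R0}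
    (hb : Function.Bijective (fun f : Fin n → Polynomial A => ∑ i, Polynomial.aeval t (f i) * b i)) :
    (latOf A (R01 := R01) hts P Q hP hQ).FinProjP := by
  obtain ⟨c, hc1, hc2⟩ := exists_coordinates hb
  obtain ⟨r, p, φ, hφ⟩ := exists_dual_basis_fin (R := R0) (P := P)
  let L := latOf A (R01 := R01) hts P Q hP hQ
  refine finProjP_of_fintype L (ι := Fin r × Fin n)
    (fun w => ⟨(b w.2 • p w.1 : P), (b w.2 • p w.1 : P).2⟩)
    (fun w => (c w.2) ∘ₗ ((φ w.1).restrictScalars A)) ?_ ?_
  · intro w x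
    have h1 : φ w.1 (t • (⟨x, x.2⟩ : P)) = t * φ w.1 ⟨x, x.2⟩ := by
      rw [map_smul, smul_eq_mul]
    change c w.2 (φ w.1 (t • (⟨x, x.2⟩ : P))) = Polynomial.X * c w.2 (φ w.1 ⟨x, x.2⟩)
    rw [h1, hc1]
  · intro x
    rw [Fintype.sum_prod_type]
    have h1 := congrArg (fun z : P => (z : M)) (hφ ⟨x, x.2⟩)
    simp only [Submodule.coe_sum, Submodule.coe_smul] at h1
    conv_lhs => rw [show (x : M) = ((⟨x, x.2⟩ : P) : M) from rfl, h1]
    refine Finset.sum_congr rfl fun j _ => ?_
    conv_lhs => rw [hc2 (φ j ⟨x, x.2⟩)]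
    rw [Finset.sum_smul]
    refine Finset.sum_congr rfl fun i _ => ?_
    rw [aeval_latOf]
    rw [mul_smul]
    rfl

theorem latOf_finProjQ [Module.Finite R1 Q] [Module.Projective R1 Q] {n : ℕ} {b : Fin n → R1}
    (hb : Function.Bijective (fun f : Fin n → Polynomial A => ∑ i, Polynomial.aeval s (f i) * b i)) :
    (latOf A (R01 := R01) hts P Q hP hQ).FinProjQ := by
  have hst : algebraMap R1 R01 s * algebraMap R0 R01 t = 1 := by rw [mul_comm]; exact hts
  have h := latOf_finProjP (A := A) (R01 := R01) (P := Q) (Q := P) (hP := hQ) (hQ := hP) hst hb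
  exact h

end LatOf

end Fermat.Agent.H10.Lat
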