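import Mathlib
import Fermat.Prelude.Def_AlgebraicGeometry_RelPicardAlgEquivZeroCut

/-!
# S25 (existence of the Jacobian): shared definitions
-/

set_option autoImplicit false
universe u v
open CategoryTheory AlgebraicGeometry CategoryTheory.Limits NeronModelInfra AlgebraicGeometry.RelPicard

namespace Fermat.Agent.H25

/-! ## Sections of sheaves of modules -/
section Sheaf

variable {X Y : Scheme.{u}}

/-- restriction of a section of an `O_X`-module -/
noncomputable def res (M : X.Modules) {U V : X.Opens} (h : V ≤ U) (s : Γ(M, U)) : Γ(M, V) :=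
  M.presheaf.map (homOfLE h).op s

/-- restriction of a function -/
noncomputable def resO {U V : X.Opens} (h : V ≤ U) (s : Γ(X, U)) : Γ(X, V) :=
  X.presheaf.map (homOfLE h).op s

/-- `s` is a generator (nowhere vanishing section) of `M` on `U`. -/
def IsGen (M : X.Modules) {U : X.Opens} (s : Γ(M, U)) : Prop :=
  ∀ (V : X.Opens) (h : V ≤ U), Function.Bijective (fun f : Γ(X, V) => f • res M h s)

/-- pullback of sections -/
noncomputable def pb (f : X ⟶ Y) (M : Y.Modules) {V : Y.Opens} (s : Γ(M, V)) :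
    Γ((Scheme.Modules.pullback f).obj M, f ⁻¹ᵁ V) :=
  ((Scheme.Modules.pullbackPushforwardAdjunction f).unit.app M).app V s

end Sheaf

/-! ## Lattices on `P¹` over a ring `A` -/

/-- A "quasi-coherent sheaf on `P¹_A`", as a pair of submodules `P`, `Q` of an `A`-module `M`
with an automorphism `τ` (multiplication by the coordinate). `P` = sections on the chart where the
coordinate is regular, `Q` = sections on the chart where its inverse is. -/
structure P1Lat (A : Type u) [CommRing A] (M : Type v) [AddCommGroup M] [Module A M] where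
  τ : M ≃ₗ[A] M
  P : Submodule A M
  Q : Submodule A M
  τ_mem : ∀ x ∈ P, τ x ∈ P
  τ_symm_mem : ∀ x ∈ Q, τ.symm x ∈ Q
  exhaustP : ∀ x : M, ∃ n : ℕ, (τ ^ n) x ∈ P
  exhaustQ : ∀ x : M, ∃ n : ℕ, (τ.symm ^ n) x ∈ Q

namespace P1Lat

variable {A : Type u} [CommRing A] {M : Type v} [AddCommGroup M] [Module A M] (L : P1Lat A M)

/-- `τ^m Q` -/
def Qm (m : ℕ) : Submodule A M := L.Q.map ((L.τ ^ m : M ≃ₗ[A] M) : M →ₗ[A] M)

/-- sections `H⁰(E(m)) = P ∩ τ^m Q` -/
def K (m : ℕ) : Submodule A M := L.P ⊓ L.Qm m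

/-- the "dual basis" form of: `P` is a finite projective module over `A[τ]`. -/
def FinProjP : Prop :=
  ∃ (r : ℕ) (p : Fin r → L.P) (φ : Fin r → (L.P →ₗ[A] Polynomial A)),
    (∀ j (x : L.P), φ j ⟨L.τ x, L.τ_mem x x.2⟩ = Polynomial.X * φ j x) ∧
    ∀ x : L.P, (x : M) = ∑ j, Polynomial.aeval (L.τ : M →ₗ[A] M) (φ j x) (p j : M)

/-- the "dual basis" form of: `Q` is a finite projective module over `A[τ⁻¹]`. -/
def FinProjQ : Prop :=
  ∃ (r : ℕ) (q : Fin r → L.Q) (ψ : Fin r → (L.Q →ₗ[A] Polynomial A)),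
    (∀ j (x : L.Q), ψ j ⟨L.τ.symm x, L.τ_symm_mem x x.2⟩ = Polynomial.X * ψ j x) ∧
    ∀ x : L.Q, (x : M) = ∑ j, Polynomial.aeval (L.τ.symm : M →ₗ[A] M) (ψ j x) (q j : M)

/-- A lattice over `A'` is the base change of one over `A` along a map `β : M → M'`. -/
structure IsBC {A' : Type u} [CommRing A'] [Algebra A A'] {M' : Type v} [AddCommGroup M']
    [Module A' M'] [Module A M'] [IsScalarTower A A' M'] (L' : P1Lat A' M')
    (β : M →ₗ[A] M') : Prop where
  τ : ∀ x, β (L.τ x) = L'.τ (β x)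
  bc : IsBaseChange A' β
  memP : ∀ x ∈ L.P, β x ∈ L'.P
  memQ : ∀ x ∈ L.Q, β x ∈ L'.Q
  spanP : L'.P = Submodule.span A' (β '' L.P)
  spanQ : L'.Q = Submodule.span A' (β '' L.Q)

end P1Lat

/-! ## Two-chart curves -/

/-- the structure map `R → Γ(C, U)` of a scheme over `Spec R`. -/
noncomputable def strHom {R : Type u} [CommRing R] {C : Scheme.{u}}
    (c : C ⟶ Spec (CommRingCat.of R)) (U : C.Opens) : R →+* Γ(C, U) :=
  ((Scheme.ΓSpecIso (CommRingCat.of R)).inv ≫ c.appLE ⊤ U le_top).hom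

/-- A curve `C → Spec R` presented as a finite free cover of `P¹_R` of degree `n`. -/
structure TwoChart {R : Type u} [CommRing R] {C : Scheme.{u}} (c : C ⟶ Spec (CommRingCat.of R)) where
  U : C.Opens
  V : C.Opens
  affU : IsAffineOpen U
  affV : IsAffineOpen V
  cover : U ⊔ V = ⊤
  t : Γ(C, U)
  s : Γ(C, V)
  basic_t : C.basicOpen t = U ⊓ V
  basic_s : C.basicOpen s = U ⊓ V
  mul_eq_one : resO (inf_le_left : U ⊓ V ≤ U) t * resO (inf_le_right : U ⊓ V ≤ V) s = 1
  n : ℕ
  bU : Fin n → Γ(C, U)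
  basisU : Function.Bijective (fun f : Fin n → Polynomial R =>
    ∑ i, (f i).eval₂ (strHom c U) t * bU i)
  bV : Fin n → Γ(C, V)
  basisV : Function.Bijective (fun f : Fin n → Polynomial R =>
    ∑ i, (f i).eval₂ (strHom c V) s * bV i)

/-! ## Charts of the rigidified Picard functor -/

/-- "`f_* O = O` universally": global functions on `C_T` are determined by their restriction
along the rigidifying section. -/
def RigInj {k : Type u} [Field k] {C : Scheme.{u}} (c : C ⟶ Spec (CommRingCat.of k))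
    (ε : SchemeHomOver (𝟙 (Spec (CommRingCat.of k))) c) : Prop :=
  ∀ {T : Scheme.{u}} (t : T ⟶ Spec (CommRingCat.of k)),
    Function.Injective (rigSection c t ε).appTop

/-- A representable open subfunctor of the rigidified Picard functor. -/
structure PicChart {k : Type u} [Field k] {C : Scheme.{u}} (c : C ⟶ Spec (CommRingCat.of k))
    (ε : SchemeHomOver (𝟙 (Spec (CommRingCat.of k))) c) : Type (u + 1) where
  X : Scheme.{u}
  x : X ⟶ Spec (CommRingCat.of k)
  L : RigidifiedLineBundle c ε x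
  /-- the locus of `M` in the chart -/
  locus : ∀ {T : Scheme.{u}} (t : T ⟶ Spec (CommRingCat.of k)) (_ : RigidifiedLineBundle c ε t),
    T.Opens
  locus_spec : ∀ {T : Scheme.{u}} (t : T ⟶ Spec (CommRingCat.of k))
    (M : RigidifiedLineBundle c ε t) {T' : Scheme.{u}} (t' : T' ⟶ Spec (CommRingCat.of k))
    (g : SchemeHomOver t' t),
    (∃ h : SchemeHomOver t' x, Nonempty ((L.pullbackAlong h).L ≅ (M.pullbackAlong g).L)) ↔
      Set.range g.1.base ⊆ locus t M
  mono : ∀ {T : Scheme.{u}} (t : T ⟶ Spec (CommRingCat.of k)) (h h' : SchemeHomOver t x),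
    Nonempty ((L.pullbackAlong h).L ≅ (L.pullbackAlong h').L) → h = h'

end Fermat.Agent.H25
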