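import Mathlib
import Fermat.Agent.H25Defs

/-!
# Lattices on `P¹`: Horrocks lemma, Castelnuovo–Mumford generation, finiteness (S25, job D1)
-/

set_option autoImplicit false
universe u v
open Fermat.Agent.H25

namespace Fermat.Agent.H10.Lat

variable {A : Type u} [CommRing A] {M : Type v} [AddCommGroup M] [Module A M] (L : P1Lat A M)

/-! ### Basic API -/

theorem zpow_add_apply (i j : ℤ) (x : M) : (L.τ ^ (i + j)) x = (L.τ ^ i) ((L.τ ^ j) x) := by
  rw [zpow_add]; rfl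

theorem pow_add_apply (i j : ℕ) (x : M) : (L.τ ^ (i + j)) x = (L.τ ^ i) ((L.τ ^ j) x) := by
  rw [pow_add]; rfl

theorem pow_succ_apply (i : ℕ) (x : M) : (L.τ ^ (i + 1)) x = (L.τ ^ i) (L.τ x) := by
  rw [pow_succ]; rfl

theorem pow_succ_apply' (i : ℕ) (x : M) : (L.τ ^ (i + 1)) x = L.τ ((L.τ ^ i) x) := by
  rw [pow_succ']; rfl

theorem symm_pow_succ_apply (i : ℕ) (x : M) :
    (L.τ.symm ^ (i + 1)) x = (L.τ.symm ^ i) (L.τ.symm x) := by
  rw [pow_succ]; rfl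

theorem symm_pow_succ_apply' (i : ℕ) (x : M) :
    (L.τ.symm ^ (i + 1)) x = L.τ.symm ((L.τ.symm ^ i) x) := by
  rw [pow_succ']; rfl

theorem symm_pow_eq (n : ℕ) : (L.τ.symm ^ n : M ≃ₗ[A] M) = L.τ ^ (-(n : ℤ)) := by
  rw [zpow_neg, zpow_natCast, ← inv_pow]; rfl

theorem symm_pow_apply_pow (n : ℕ) (x : M) : (L.τ.symm ^ n) ((L.τ ^ n) x) = x := by
  rw [symm_pow_eq, ← zpow_natCast, ← zpow_add_apply, neg_add_cancel]; rfl

theorem pow_apply_symm_pow (n : ℕ) (x : M) : (L.τ ^ n) ((L.τ.symm ^ n) x) = x := by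
  rw [symm_pow_eq, ← zpow_natCast, ← zpow_add_apply, add_neg_cancel]; rfl

theorem mem_Qm {m : ℕ} {x : M} : x ∈ L.Qm m ↔ (L.τ.symm ^ m) x ∈ L.Q := by
  unfold P1Lat.Qm
  constructor
  · rintro ⟨y, hy, rfl⟩
    have : (L.τ.symm ^ m) ((L.τ ^ m : M ≃ₗ[A] M) y) = y := symm_pow_apply_pow L m y
    simpa [this] using hy
  · intro h
    exact ⟨_, h, pow_apply_symm_pow L m x⟩

theorem mem_Qm_iff_zpow {m : ℕ} {x : M} : x ∈ L.Qm m ↔ (L.τ ^ (-(m : ℤ))) x ∈ L.Q := by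
  rw [mem_Qm, symm_pow_eq]

theorem symm_pow_mem_Q (n : ℕ) {x : M} (hx : x ∈ L.Q) : (L.τ.symm ^ n) x ∈ L.Q := by
  induction n with
  | zero => simpa using hx
  | succ n ih => rw [symm_pow_succ_apply']; exact L.τ_symm_mem _ ih

theorem pow_mem_P (n : ℕ) {x : M} (hx : x ∈ L.P) : (L.τ ^ n) x ∈ L.P := by
  induction n with
  | zero => simpa using hx
  | succ n ih => rw [pow_succ_apply']; exact L.τ_mem _ ih

theorem zpow_mem_P {i : ℤ} (hi : 0 ≤ i) {x : M} (hx : x ∈ L.P) : (L.τ ^ i) x ∈ L.P := by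
  lift i to ℕ using hi
  rw [zpow_natCast]; exact pow_mem_P L i hx

theorem zpow_mem_Q {i : ℤ} (hi : i ≤ 0) {x : M} (hx : x ∈ L.Q) : (L.τ ^ i) x ∈ L.Q := by
  obtain ⟨n, rfl⟩ : ∃ n : ℕ, i = -(n : ℤ) := ⟨(-i).toNat, by omega⟩
  rw [← symm_pow_eq]; exact symm_pow_mem_Q L n hx

/-- the set of `x` with `τ^{-i} x ∈ Q`, all integral `i` -/
def QZ (i : ℤ) : Submodule A M := L.Q.comap ((L.τ ^ (-i) : M ≃ₗ[A] M) : M →ₗ[A] M)

/-- the set of `x` with `τ^{-i} x ∈ P`, all integral `i` -/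
def PZ (i : ℤ) : Submodule A M := L.P.comap ((L.τ ^ (-i) : M ≃ₗ[A] M) : M →ₗ[A] M)

theorem mem_QZ {i : ℤ} {x : M} : x ∈ QZ L i ↔ (L.τ ^ (-i)) x ∈ L.Q := Iff.rfl

theorem mem_PZ {i : ℤ} {x : M} : x ∈ PZ L i ↔ (L.τ ^ (-i)) x ∈ L.P := Iff.rfl

theorem QZ_natCast (m : ℕ) : QZ L m = L.Qm m := by
  ext x; rw [mem_QZ, mem_Qm_iff_zpow]

theorem QZ_zero : QZ L 0 = L.Q := by
  ext x; rw [mem_QZ]; simp

theorem PZ_zero : PZ L 0 = L.P := by
  ext x; rw [mem_PZ]; simp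

theorem QZ_mono {i j : ℤ} (h : i ≤ j) : QZ L i ≤ QZ L j := by
  intro x hx
  rw [mem_QZ] at hx ⊢
  have : (-j : ℤ) = (i - j) + (-i) := by ring
  rw [this, zpow_add_apply]
  exact zpow_mem_Q L (by omega) hx

theorem PZ_anti {i j : ℤ} (h : i ≤ j) : PZ L j ≤ PZ L i := by
  intro x hx
  rw [mem_PZ] at hx ⊢
  have : (-i : ℤ) = (j - i) + (-j) := by ring
  rw [this, zpow_add_apply]
  exact zpow_mem_P L (by omega) hx

theorem zpow_mem_QZ {i j : ℤ} {x : M} (hx : x ∈ QZ L i) : (L.τ ^ j) x ∈ QZ L (j + i) := by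
  rw [mem_QZ] at hx ⊢
  rw [← zpow_add_apply]
  have : (-(j + i) + j : ℤ) = -i := by ring
  rwa [this]

theorem zpow_mem_PZ {i j : ℤ} {x : M} (hx : x ∈ PZ L i) : (L.τ ^ j) x ∈ PZ L (j + i) := by
  rw [mem_PZ] at hx ⊢
  rw [← zpow_add_apply]
  have : (-(j + i) + j : ℤ) = -i := by ring
  rwa [this]

theorem exists_mem_QZ (x : M) : ∃ n : ℕ, x ∈ QZ L n := by
  obtain ⟨n, hn⟩ := L.exhaustQ x
  exact ⟨n, by rw [mem_QZ, ← symm_pow_eq]; exact hn⟩

theorem exists_mem_PZ (x : M) : ∃ n : ℕ, x ∈ PZ L (-(n : ℤ)) := by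
  obtain ⟨n, hn⟩ := L.exhaustP x
  exact ⟨n, by rw [mem_PZ, neg_neg, zpow_natCast]; exact hn⟩

theorem Qm_zero : L.Qm 0 = L.Q := by
  rw [← QZ_natCast]; exact QZ_zero L

theorem Qm_mono {m n : ℕ} (h : m ≤ n) : L.Qm m ≤ L.Qm n := by
  rw [← QZ_natCast, ← QZ_natCast]; exact QZ_mono L (by exact_mod_cast h)

theorem K_mono {m n : ℕ} (h : m ≤ n) : L.K m ≤ L.K n := inf_le_inf_left _ (Qm_mono L h)

theorem mem_K {m : ℕ} {x : M} : x ∈ L.K m ↔ x ∈ L.P ∧ x ∈ QZ L m := by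
  rw [QZ_natCast]; exact Iff.rfl

theorem K_zero : L.K 0 = L.P ⊓ L.Q := by
  rw [P1Lat.K, Qm_zero]

theorem K_one : L.K 1 = L.P ⊓ L.Q.map (L.τ : M →ₗ[A] M) := by
  unfold P1Lat.K P1Lat.Qm
  rw [pow_one]

theorem τ_mem_K {m : ℕ} {x : M} (hx : x ∈ L.K m) : L.τ x ∈ L.K (m + 1) := by
  rw [mem_K] at hx ⊢
  refine ⟨L.τ_mem _ hx.1, ?_⟩
  have := zpow_mem_QZ L (j := 1) hx.2
  rw [zpow_one] at this
  convert this using 2
  push_cast; ring

theorem pow_mem_K {m : ℕ} (n : ℕ) {x : M} (hx : x ∈ L.K m) : (L.τ ^ n) x ∈ L.K (m + n) := by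
  induction n with
  | zero => simpa using hx
  | succ n ih => rw [pow_succ_apply', ← add_assoc]; exact τ_mem_K L ih

/-! ### (1) Horrocks' lemma -/

/-- If `M = P ⊕ Q`, then `τ^i P ∩ τ^i Q = 0`. -/
theorem eq_zero_of_mem_PZ_of_mem_QZ (h : Disjoint L.P L.Q) {i : ℤ} {x : M} (h1 : x ∈ PZ L i)
    (h2 : x ∈ QZ L i) : x = 0 := by
  have h3 : (L.τ ^ (-i)) x = 0 := by
    have : (L.τ ^ (-i)) x ∈ L.P ⊓ L.Q := ⟨h1, h2⟩
    rwa [h.eq_bot] at this
  exact (LinearEquiv.map_eq_zero_iff _).mp h3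

theorem mem_sup_shift (h : L.P ⊔ L.Q = ⊤) (i : ℤ) (x : M) :
    ∃ y ∈ PZ L i, ∃ z ∈ QZ L i, x = y + z := by
  have : (L.τ ^ (-i)) x ∈ L.P ⊔ L.Q := by rw [h]; trivial
  obtain ⟨p, hp, q, hq, hpq⟩ := Submodule.mem_sup.mp this
  have hid : ∀ w : M, (L.τ ^ (-i)) ((L.τ ^ i) w) = w := by
    intro w; rw [← zpow_add_apply, neg_add_cancel]; rfl
  have hid' : ∀ w : M, (L.τ ^ i) ((L.τ ^ (-i)) w) = w := by
    intro w; rw [← zpow_add_apply, add_neg_cancel]; rfl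
  refine ⟨(L.τ ^ i) p, ?_, (L.τ ^ i) q, ?_, ?_⟩
  · rw [mem_PZ, hid]; exact hp
  · rw [mem_QZ, hid]; exact hq
  · rw [← map_add, hpq, hid']

/-- The map `(ℤ →₀ V) → M`, `f ↦ ∑ τ^i f_i`. -/
noncomputable def sumZ (V : Submodule A M) : (ℤ →₀ V) →ₗ[A] M :=
  Finsupp.lsum ℕ (fun i : ℤ => ((L.τ ^ i : M ≃ₗ[A] M) : M →ₗ[A] M) ∘ₗ V.subtype)

theorem sumZ_apply (V : Submodule A M) (f : ℤ →₀ V) :
    sumZ L V f = f.sum fun i v => (L.τ ^ i) (v : M) := rfl

theorem sumZ_single (V : Submodule A M) (i : ℤ) (v : V) :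
    sumZ L V (Finsupp.single i v) = (L.τ ^ i) (v : M) := by
  rw [sumZ_apply, Finsupp.sum_single_index]; simp

theorem sumZ_mem_QZ {f : ℤ →₀ L.K 1} {n : ℤ} (hf : ∀ i ∈ f.support, i < n) :
    sumZ L (L.K 1) f ∈ QZ L n := by
  rw [sumZ_apply]
  refine Submodule.sum_mem _ fun i hi => ?_
  have h1 : ((f i : L.K 1) : M) ∈ QZ L 1 := ((mem_K L).mp (f i).2).2
  exact QZ_mono L (show i + 1 ≤ n by have := hf i hi; omega) (zpow_mem_QZ L h1)

theorem sumZ_mem_PZ {f : ℤ →₀ L.K 1} {n : ℤ} (hf : ∀ i ∈ f.support, n ≤ i) :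
    sumZ L (L.K 1) f ∈ PZ L n := by
  rw [sumZ_apply]
  refine Submodule.sum_mem _ fun i hi => ?_
  have h1 : ((f i : L.K 1) : M) ∈ PZ L 0 := by rw [PZ_zero]; exact (f i).2.1
  have h2 := zpow_mem_PZ L (j := i) h1
  exact PZ_anti L (show n ≤ i + 0 by have := hf i hi; omega) h2

theorem sumZ_injective (h : Disjoint L.P L.Q) : Function.Injective (sumZ L (L.K 1)) := by
  rw [← LinearMap.ker_eq_bot, LinearMap.ker_eq_bot']
  intro f hf
  by_contra hne
  have hsupp : f.support.Nonempty := Finsupp.support_nonempty_iff.mpr hne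
  set n := f.support.max' hsupp with hn
  have hnmem : n ∈ f.support := f.support.max'_mem hsupp
  have hdecomp : f = Finsupp.single n (f n) + f.erase n := (Finsupp.single_add_erase n f).symm
  have h1 : (L.τ ^ n) ((f n : L.K 1) : M) + sumZ L (L.K 1) (f.erase n) = 0 := by
    rw [← sumZ_single, ← map_add, ← hdecomp, hf]
  have h2 : sumZ L (L.K 1) (f.erase n) ∈ QZ L n := by
    apply sumZ_mem_QZ
    intro i hi
    rw [Finsupp.support_erase, Finset.mem_erase] at hi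
    exact lt_of_le_of_ne (f.support.le_max' i hi.2) hi.1
  have h3 : (L.τ ^ n) ((f n : L.K 1) : M) ∈ QZ L n := by
    have : (L.τ ^ n) ((f n : L.K 1) : M) = - sumZ L (L.K 1) (f.erase n) := by
      rw [eq_neg_iff_add_eq_zero]; exact h1
    rw [this]; exact Submodule.neg_mem _ h2
  have h4 : (L.τ ^ n) ((f n : L.K 1) : M) ∈ PZ L n := by
    have h5 : ((f n : L.K 1) : M) ∈ PZ L 0 := by rw [PZ_zero]; exact (f n).2.1
    simpa using zpow_mem_PZ L (j := n) h5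
  have h5 := eq_zero_of_mem_PZ_of_mem_QZ L h h4 h3
  have h6 : ((f n : L.K 1) : M) = 0 := (LinearEquiv.map_eq_zero_iff _).mp h5
  have h7 : f n = 0 := Subtype.ext h6
  exact (Finsupp.mem_support_iff.mp hnmem) h7

/-- `P = V ⊕ τ P`: existence. -/
theorem exists_K1_add (h : L.P ⊔ L.Q = ⊤) {x : M} (hx : x ∈ L.P) :
    ∃ v ∈ L.K 1, ∃ p ∈ L.P, x = v + L.τ p := by
  obtain ⟨y, hy, z, hz, hxyz⟩ := mem_sup_shift L h 1 x
  have hy' : (L.τ ^ (-1 : ℤ)) y ∈ L.P := hy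
  refine ⟨z, ?_, (L.τ ^ (-1 : ℤ)) y, hy', ?_⟩
  · rw [mem_K]
    refine ⟨?_, by simpa using hz⟩
    have : z = x - y := by rw [hxyz]; abel
    rw [this]
    refine Submodule.sub_mem _ hx ?_
    have h2 := PZ_anti L (show (0 : ℤ) ≤ 1 by norm_num) hy
    rwa [PZ_zero] at h2
  · have : L.τ ((L.τ ^ (-1 : ℤ)) y) = y := by
      have h3 : L.τ = L.τ ^ (1 : ℤ) := (zpow_one _).symm
      conv_lhs => rw [h3]
      rw [← zpow_mul]
      rw [← zpow_add_apply]; norm_num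
    rw [this, hxyz]; abel

theorem exists_sumZ_add (h : L.P ⊔ L.Q = ⊤) (n : ℕ) {x : M} (hx : x ∈ L.P) :
    ∃ f : ℤ →₀ L.K 1, (∀ i ∈ f.support, 0 ≤ i ∧ i < n) ∧ ∃ p ∈ L.P,
      x = sumZ L (L.K 1) f + (L.τ ^ (n : ℤ)) p := by
  induction n with
  | zero => exact ⟨0, by simp, x, hx, by simp⟩
  | succ n ih =>
    obtain ⟨f, hf, p, hp, hfp⟩ := ih
    obtain ⟨v, hv, p', hp', hvp⟩ := exists_K1_add L h hp
    refine ⟨f + Finsupp.single (n : ℤ) ⟨v, hv⟩, ?_, p', hp', ?_⟩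
    · intro i hi
      rcases Finset.mem_union.mp (Finsupp.support_add hi) with h1 | h1
      · have := hf i h1; push_cast; omega
      · have := Finsupp.support_single_subset h1
        rw [Finset.mem_singleton] at this
        push_cast; omega
    · rw [map_add, sumZ_single, hfp, hvp, map_add]
      have : (L.τ ^ ((n + 1 : ℕ) : ℤ)) p' = (L.τ ^ (n : ℤ)) (L.τ p') := by
        push_cast
        rw [zpow_add_apply, zpow_one]
      rw [this]; simp only; abel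

theorem exists_sumZ_of_mem_P (h : IsCompl L.P L.Q) {x : M} (hx : x ∈ L.P) :
    ∃ f : ℤ →₀ L.K 1, (∀ i ∈ f.support, 0 ≤ i) ∧ sumZ L (L.K 1) f = x := by
  obtain ⟨n, hn⟩ := exists_mem_QZ L x
  obtain ⟨f, hf, p, hp, hfp⟩ := exists_sumZ_add L h.sup_eq_top n hx
  refine ⟨f, fun i hi => (hf i hi).1, ?_⟩
  have h1 : (L.τ ^ (n : ℤ)) p ∈ PZ L n := by
    have h5 : p ∈ PZ L 0 := by rw [PZ_zero]; exact hp
    simpa using zpow_mem_PZ L (j := (n : ℤ)) h5
  have h2 : (L.τ ^ (n : ℤ)) p ∈ QZ L n := by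
    have : (L.τ ^ (n : ℤ)) p = x - sumZ L (L.K 1) f := by rw [hfp]; abel
    rw [this]
    exact Submodule.sub_mem _ hn (sumZ_mem_QZ L fun i hi => (hf i hi).2)
  have h3 := eq_zero_of_mem_PZ_of_mem_QZ L h.disjoint h1 h2
  rw [hfp, h3, add_zero]

theorem sumZ_mapDomain (V : Submodule A M) (j : ℤ) (f : ℤ →₀ V) :
    sumZ L V (f.mapDomain (fun i => j + i)) = (L.τ ^ j) (sumZ L V f) := by
  induction f using Finsupp.induction_linear with
  | zero => simp
  | add f g hf hg => rw [Finsupp.mapDomain_add, map_add, map_add, map_add, hf, hg]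
  | single i v =>
    rw [Finsupp.mapDomain_single, sumZ_single, sumZ_single, zpow_add_apply]

theorem sumZ_surjective (h : IsCompl L.P L.Q) : Function.Surjective (sumZ L (L.K 1)) := by
  intro x
  obtain ⟨n, hn⟩ := L.exhaustP x
  obtain ⟨f, -, hf⟩ := exists_sumZ_of_mem_P L h hn
  refine ⟨f.mapDomain (fun i => -(n : ℤ) + i), ?_⟩
  rw [sumZ_mapDomain, hf, ← symm_pow_eq, symm_pow_apply_pow]

/-- **Horrocks' lemma**, `ℤ`-graded version: `M = ⊕_{i ∈ ℤ} τ^i V`. -/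
theorem sumZ_bijective (h : IsCompl L.P L.Q) : Function.Bijective (sumZ L (L.K 1)) :=
  ⟨sumZ_injective L h.disjoint, sumZ_surjective L h⟩

theorem mem_P_iff_sumZ (h : IsCompl L.P L.Q) (f : ℤ →₀ L.K 1) :
    sumZ L (L.K 1) f ∈ L.P ↔ ∀ i ∈ f.support, 0 ≤ i := by
  constructor
  · intro hx
    obtain ⟨g, hg, hfg⟩ := exists_sumZ_of_mem_P L h hx
    rw [← sumZ_injective L h.disjoint hfg]; exact hg
  · intro hf
    rw [← PZ_zero]; exact sumZ_mem_PZ L hf

theorem mem_Q_iff_sumZ (h : IsCompl L.P L.Q) (f : ℤ →₀ L.K 1) :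
    sumZ L (L.K 1) f ∈ L.Q ↔ ∀ i ∈ f.support, i < 0 := by
  constructor
  · intro hx
    set g := f.filter (fun i => i < 0) with hg
    set g' := f.filter (fun i => ¬ i < 0) with hg'
    have hgg : g + g' = f := Finsupp.filter_add_filter_not f _
    have h1 : sumZ L (L.K 1) g' ∈ PZ L 0 := by
      apply sumZ_mem_PZ
      intro i hi
      rw [hg', Finsupp.support_filter, Finset.mem_filter] at hi
      omega
    have h2 : sumZ L (L.K 1) g ∈ QZ L 0 := by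
      apply sumZ_mem_QZ
      intro i hi
      rw [hg, Finsupp.support_filter, Finset.mem_filter] at hi
      omega
    have h3 : sumZ L (L.K 1) g' ∈ QZ L 0 := by
      have : sumZ L (L.K 1) g' = sumZ L (L.K 1) f - sumZ L (L.K 1) g := by
        rw [← hgg, map_add]; abel
      rw [this]
      refine Submodule.sub_mem _ ?_ h2
      rw [QZ_zero]; exact hx
    have h4 := eq_zero_of_mem_PZ_of_mem_QZ L h.disjoint h1 h3
    have h5 : g' = 0 := sumZ_injective L h.disjoint (by rw [h4, map_zero])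
    intro i hi
    by_contra hlt
    have : g' i = f i := Finsupp.filter_apply_pos _ _ hlt
    rw [h5] at this
    exact (Finsupp.mem_support_iff.mp hi) this.symm
  · intro hf
    rw [← QZ_zero]; exact sumZ_mem_QZ L hf

/-- **Horrocks' lemma**: `(ℕ →₀ V) → P`, `f ↦ ∑ τ^i f_i`. -/
noncomputable def sumP : (ℕ →₀ L.K 1) →ₗ[A] L.P :=
  Finsupp.lsum ℕ (fun i : ℕ => LinearMap.codRestrict L.P
    (((L.τ ^ i : M ≃ₗ[A] M) : M →ₗ[A] M) ∘ₗ (L.K 1).subtype)
    (fun v => pow_mem_P L i v.2.1))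

/-- **Horrocks' lemma**: `(ℕ →₀ V) → Q`, `f ↦ ∑ τ^{-(i+1)} f_i`. -/
noncomputable def sumQ : (ℕ →₀ L.K 1) →ₗ[A] L.Q :=
  Finsupp.lsum ℕ (fun i : ℕ => LinearMap.codRestrict L.Q
    (((L.τ.symm ^ (i + 1) : M ≃ₗ[A] M) : M →ₗ[A] M) ∘ₗ (L.K 1).subtype)
    (fun v => by
      have h1 : ((v : L.K 1) : M) ∈ QZ L 1 := ((mem_K L).mp v.2).2
      have h2 := zpow_mem_QZ L (j := -((i + 1 : ℕ) : ℤ)) h1
      have h3 := QZ_mono L (show -((i + 1 : ℕ) : ℤ) + 1 ≤ 0 by push_cast; omega) h2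
      rw [QZ_zero, ← symm_pow_eq] at h3
      exact h3))

theorem coe_sumP (f : ℕ →₀ L.K 1) : (sumP L f : M) = f.sum fun i v => (L.τ ^ i) (v : M) := by
  induction f using Finsupp.induction_linear with
  | zero => simp
  | add f g hf hg =>
    rw [map_add, Submodule.coe_add, hf, hg, Finsupp.sum_add_index'] <;> simp
  | single i v =>
    rw [Finsupp.sum_single_index (by simp)]
    simp [sumP]

theorem coe_sumQ (f : ℕ →₀ L.K 1) :
    (sumQ L f : M) = f.sum fun i v => (L.τ.symm ^ (i + 1)) (v : M) := by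
  induction f using Finsupp.induction_linear with
  | zero => simp
  | add f g hf hg =>
    rw [map_add, Submodule.coe_add, hf, hg, Finsupp.sum_add_index'] <;> simp
  | single i v =>
    rw [Finsupp.sum_single_index (by simp)]
    simp only [sumQ, Finsupp.lsum_single]
    rfl

theorem sumP_eq_sumZ (f : ℕ →₀ L.K 1) :
    (sumP L f : M) = sumZ L (L.K 1) (f.mapDomain (Nat.cast : ℕ → ℤ)) := by
  induction f using Finsupp.induction_linear with
  | zero => simp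
  | add f g hf hg =>
    rw [map_add, Submodule.coe_add, hf, hg, Finsupp.mapDomain_add, map_add]
  | single i v =>
    rw [coe_sumP, Finsupp.mapDomain_single, sumZ_single, Finsupp.sum_single_index (by simp),
      zpow_natCast]

theorem sumQ_eq_sumZ (f : ℕ →₀ L.K 1) :
    (sumQ L f : M) = sumZ L (L.K 1) (f.mapDomain (fun i : ℕ => -((i + 1 : ℕ) : ℤ))) := by
  induction f using Finsupp.induction_linear with
  | zero => simp
  | add f g hf hg =>
    rw [map_add, Submodule.coe_add, hf, hg, Finsupp.mapDomain_add, map_add]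
  | single i v =>
    rw [coe_sumQ, Finsupp.mapDomain_single, sumZ_single, Finsupp.sum_single_index (by simp),
      symm_pow_eq]

theorem exists_mapDomain_eq {ι V : Type*} [AddCommMonoid V] (e : ι → ℤ) (he : Function.Injective e)
    (f : ℤ →₀ V) (hf : ∀ i ∈ f.support, i ∈ Set.range e) :
    ∃ g : ι →₀ V, g.mapDomain e = f := by
  refine ⟨f.comapDomain e he.injOn, ?_⟩
  exact Finsupp.mapDomain_comapDomain e he f (fun i hi => hf i hi)

/-- **Horrocks' lemma** for `P`. -/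
theorem sumP_bijective (h : IsCompl L.P L.Q) : Function.Bijective (sumP L) := by
  constructor
  · intro f g hfg
    have h1 := congrArg (fun z : L.P => (z : M)) hfg
    simp only [sumP_eq_sumZ] at h1
    exact Finsupp.mapDomain_injective Nat.cast_injective (sumZ_injective L h.disjoint h1)
  · intro x
    obtain ⟨f, hf, hfx⟩ := exists_sumZ_of_mem_P L h x.2
    obtain ⟨g, hg⟩ := exists_mapDomain_eq (Nat.cast : ℕ → ℤ) Nat.cast_injective f
      (fun i hi => ⟨i.toNat, by have := hf i hi; omega⟩)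
    refine ⟨g, Subtype.ext ?_⟩
    rw [sumP_eq_sumZ, hg, hfx]

/-- **Horrocks' lemma** for `Q`. -/
theorem sumQ_bijective (h : IsCompl L.P L.Q) : Function.Bijective (sumQ L) := by
  have hinj : Function.Injective (fun i : ℕ => -((i + 1 : ℕ) : ℤ)) := by
    intro i j hij; simp only at hij; omega
  constructor
  · intro f g hfg
    have h1 := congrArg (fun z : L.Q => (z : M)) hfg
    simp only [sumQ_eq_sumZ] at h1
    exact Finsupp.mapDomain_injective hinj (sumZ_injective L h.disjoint h1)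
  · intro x
    obtain ⟨f, hfx⟩ := sumZ_surjective L h (x : M)
    have hf := (mem_Q_iff_sumZ L h f).mp (by rw [hfx]; exact x.2)
    obtain ⟨g, hg⟩ := exists_mapDomain_eq (fun i : ℕ => -((i + 1 : ℕ) : ℤ)) hinj f
      (fun i hi => ⟨(-i - 1).toNat, by have := hf i hi; simp only; omega⟩)
    refine ⟨g, Subtype.ext ?_⟩
    rw [sumQ_eq_sumZ, hg, hfx]

/-- `V ≃ P / τ P`. -/
theorem K1_quot_bijective (h : IsCompl L.P L.Q) :
    Function.Bijective ((Submodule.mkQ ((L.P.map (L.τ : M →ₗ[A] M)).submoduleOf L.P)) ∘ₗ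
      Submodule.inclusion (show L.K 1 ≤ L.P from inf_le_left)) := by
  constructor
  · rw [← LinearMap.ker_eq_bot, LinearMap.ker_eq_bot']
    intro v hv
    have h1 : (Submodule.inclusion (show L.K 1 ≤ L.P from inf_le_left) v) ∈
        (L.P.map (L.τ : M →ₗ[A] M)).submoduleOf L.P := by
      simpa using hv
    have h2 : (v : M) ∈ L.P.map (L.τ : M →ₗ[A] M) := h1
    obtain ⟨p, hp, hpv⟩ := h2
    have h3 : (v : M) ∈ PZ L 1 := by
      have h5 : p ∈ PZ L 0 := by rw [PZ_zero]; exact hp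
      have h6 := zpow_mem_PZ L (j := 1) h5
      rw [← hpv]
      simpa using h6
    have h4 : (v : M) ∈ QZ L 1 := by simpa using ((mem_K L).mp v.2).2
    exact Subtype.ext (eq_zero_of_mem_PZ_of_mem_QZ L h.disjoint h3 h4)
  · intro y
    obtain ⟨x, rfl⟩ := Submodule.mkQ_surjective _ y
    obtain ⟨v, hv, p, hp, hx⟩ := exists_K1_add L h.sup_eq_top x.2
    refine ⟨⟨v, hv⟩, ?_⟩
    rw [LinearMap.comp_apply, ← sub_eq_zero, ← map_sub, Submodule.mkQ_apply,
      Submodule.Quotient.mk_eq_zero]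
    refine Submodule.mem_comap.mpr ?_
    refine ⟨-p, Submodule.neg_mem _ hp, ?_⟩
    rw [Submodule.subtype_apply, Submodule.coe_sub, Submodule.coe_inclusion, hx]
    simp

end Fermat.Agent.H10.Lat
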