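import Fermat.Agent.H10_P1LatProj

/-!
# Lattices on `P¹`: base change (S25, job D2, parts 1, 4, 5)
-/

set_option autoImplicit false
universe u v w
open Fermat.Agent.H25 TensorProduct

namespace Fermat.Agent.H10.Lat

variable {A : Type u} [CommRing A] {M : Type v} [AddCommGroup M] [Module A M] (L : P1Lat A M)

/-! ### Retractions -/

/-- projection of `A[X,X⁻¹]` onto `A[X]` -/
noncomputable def fromZ : (ℤ →₀ A) →ₗ[A] Polynomial A :=
  Finsupp.linearCombination A
    (fun i : ℤ => if 0 ≤ i then (Polynomial.X ^ i.toNat : Polynomial A) else 0)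

theorem fromZ_toZ (f : Polynomial A) : fromZ (toZ f) = f := by
  induction f using Polynomial.induction_on' with
  | add f g hf hg => rw [map_add, map_add, hf, hg]
  | monomial i a =>
    rw [toZ_monomial, fromZ, Finsupp.linearCombination_single]
    simp [Polynomial.smul_X_eq_monomial]

theorem exists_retraction_P (hP : L.FinProjP) : ∃ r : M →ₗ[A] L.P, ∀ x : L.P, r x = x := by
  obtain ⟨r, p, φ, hφ, hφP, hx⟩ := exists_dualBasis L hP
  refine ⟨∑ j, evP L (p j) ∘ₗ fromZ ∘ₗ φ j, fun x => ?_⟩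
  apply Subtype.ext
  rw [LinearMap.sum_apply, Submodule.coe_sum]
  conv_rhs => rw [hx (x : M)]
  refine Finset.sum_congr rfl fun j _ => ?_
  obtain ⟨f, hf⟩ := hφP j x x.2
  rw [LinearMap.comp_apply, LinearMap.comp_apply, hf, fromZ_toZ, ev_toZ, coe_evP]

theorem exists_retraction_Q (hQ : L.FinProjQ) : ∃ r : M →ₗ[A] L.Q, ∀ x : L.Q, r x = x :=
  exists_retraction_P (op L) hQ

theorem exists_retraction_Qm (hQ : L.FinProjQ) (m : ℕ) :
    ∃ r : M →ₗ[A] L.Qm m, ∀ x : L.Qm m, r x = x := by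
  obtain ⟨r, hr⟩ := exists_retraction_Q L hQ
  refine ⟨(QmEquiv L m : L.Q →ₗ[A] L.Qm m) ∘ₗ r ∘ₗ ((L.τ.symm ^ m : M ≃ₗ[A] M) : M →ₗ[A] M),
    fun x => ?_⟩
  have h1 : (L.τ.symm ^ m) (x : M) ∈ L.Q := (mem_Qm L).mp x.2
  have h2 := hr ⟨_, h1⟩
  simp only at h2
  apply Subtype.ext
  rw [LinearMap.comp_apply, LinearMap.comp_apply, LinearEquiv.coe_coe, LinearEquiv.coe_coe, h2]
  exact pow_apply_symm_pow L m _

theorem exists_retraction_M_K (hP : L.FinProjP) (hQ : L.FinProjQ) {m : ℕ}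
    (hm : L.P ⊔ L.Qm m = ⊤) : ∃ r : M →ₗ[A] L.K m, ∀ x : L.K m, r x = x := by
  obtain ⟨ρ, hρ⟩ := exists_retraction_K L hP hm
  obtain ⟨r, hr⟩ := exists_retraction_P L hP
  obtain ⟨s, hs⟩ := exists_retraction_Qm L hQ m
  refine ⟨ρ ∘ₗ LinearMap.prod r s, fun x => ?_⟩
  change ρ (r x, s x) = x
  have h1 := hr ⟨(x : M), x.2.1⟩
  have h2 := hs ⟨(x : M), x.2.2⟩
  simp only at h1 h2
  rw [h1, h2, hρ x]

/-- A linear endomorphism `σ` of `M` with `(1-σ) P ⊆ K(m)` and `σ (τ^m Q) ⊆ K(m)`. -/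
theorem exists_sigma (hP : L.FinProjP) {m : ℕ} (hm : L.P ⊔ L.Qm m = ⊤) :
    ∃ σ : M →ₗ[A] M, (∀ p ∈ L.P, p - σ p ∈ L.K m) ∧ ∀ q ∈ L.Qm m, σ q ∈ L.K m := by
  have := projective_M L hP
  let d : (L.P × L.Qm m) →ₗ[A] M := L.P.subtype ∘ₗ LinearMap.fst A L.P (L.Qm m) -
    (L.Qm m).subtype ∘ₗ LinearMap.snd A L.P (L.Qm m)
  have hd : Function.Surjective d := by
    intro x
    have hx : x ∈ L.P ⊔ L.Qm m := by rw [hm]; trivial
    obtain ⟨p, hp, q, hq, hpq⟩ := Submodule.mem_sup.mp hx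
    exact ⟨(⟨p, hp⟩, -⟨q, hq⟩), by simp [d, hpq]⟩
  obtain ⟨s, hs⟩ := Module.projective_lifting_property d LinearMap.id hd
  have hs' : ∀ x : M, ((s x).1 : M) - ((s x).2 : M) = x := fun x => by
    have := congrArg (fun g : M →ₗ[A] M => g x) hs
    simpa [d] using this
  refine ⟨L.P.subtype ∘ₗ LinearMap.fst A L.P (L.Qm m) ∘ₗ s, ?_, ?_⟩
  · intro p hp
    simp only [LinearMap.comp_apply, LinearMap.fst_apply, Submodule.subtype_apply]
    refine ⟨Submodule.sub_mem _ hp (s p).1.2, ?_⟩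
    have h1 : p - ((s p).1 : M) = -((s p).2 : M) := by
      conv_lhs => arg 1; rw [← hs' p]
      abel
    change p - ((s p).1 : M) ∈ L.Qm m
    rw [h1]; exact Submodule.neg_mem _ (s p).2.2
  · intro q hq
    simp only [LinearMap.comp_apply, LinearMap.fst_apply, Submodule.subtype_apply]
    refine ⟨(s q).1.2, ?_⟩
    have h1 : ((s q).1 : M) = q + ((s q).2 : M) := by
      conv_rhs => arg 1; rw [← hs' q]
      abel
    change ((s q).1 : M) ∈ L.Qm m
    rw [h1]; exact Submodule.add_mem _ hq (s q).2.2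

/-! ### Base change of direct summands -/

section Summand

variable {A' : Type w} [CommRing A'] [Algebra A A'] {M' : Type v} [AddCommGroup M'] [Module A' M']
  [Module A M'] [IsScalarTower A A' M']

/-- restriction of `β : M → M'` to `N → N'` -/
noncomputable def resBC (β : M →ₗ[A] M') (N : Submodule A M) (N' : Submodule A' M')
    (h : ∀ x ∈ N, β x ∈ N') : N →ₗ[A] N' where
  toFun x := ⟨β x, h x x.2⟩
  map_add' x y := Subtype.ext (by simp)
  map_smul' a x := Subtype.ext (by simp)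

@[simp] theorem coe_resBC (β : M →ₗ[A] M') (N : Submodule A M) (N' : Submodule A' M')
    (h : ∀ x ∈ N, β x ∈ N') (x : N) : (resBC β N N' h x : M') = β x := rfl

theorem isBaseChange_resBC {β : M →ₗ[A] M'} (hβ : IsBaseChange A' β) {N : Submodule A M}
    {N' : Submodule A' M'} (r : M →ₗ[A] N) (hr : ∀ x : N, r x = x)
    (hN' : N' = Submodule.span A' (β '' N)) (h : ∀ x ∈ N, β x ∈ N') :
    IsBaseChange A' (resBC β N N' h) := by
  have hinj : Function.Injective (LinearMap.liftBaseChange A' (resBC β N N' h)) := by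
    have h1 : Function.Injective (N.subtype.baseChange A') := by
      have h2 : Function.LeftInverse (r.baseChange A') (N.subtype.baseChange A') := by
        intro z
        rw [← LinearMap.comp_apply, ← LinearMap.baseChange_comp]
        have : r ∘ₗ N.subtype = LinearMap.id := by ext x; simp [hr]
        rw [this, LinearMap.baseChange_id]; rfl
      exact h2.injective
    have h3 : ∀ z, (N'.subtype (LinearMap.liftBaseChange A' (resBC β N N' h) z)) =
        hβ.equiv (N.subtype.baseChange A' z) := by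
      intro z
      induction z with
      | zero => simp
      | add x y hx hy => simp only [map_add, hx, hy]
      | tmul a x => simp
    intro x y hxy
    apply h1
    apply hβ.equiv.injective
    rw [← h3, ← h3, hxy]
  have hsurj : Function.Surjective (LinearMap.liftBaseChange A' (resBC β N N' h)) := by
    rw [← LinearMap.range_eq_top, eq_top_iff]
    rintro ⟨y, hy⟩ -
    have h4 : N' ≤ (LinearMap.range (LinearMap.liftBaseChange A' (resBC β N N' h))).map
        N'.subtype := by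
      conv_lhs => rw [hN']
      rw [Submodule.span_le]
      rintro _ ⟨x, hx, rfl⟩
      exact ⟨resBC β N N' h ⟨x, hx⟩, ⟨1 ⊗ₜ ⟨x, hx⟩, by simp⟩, rfl⟩
    obtain ⟨z, hz, hzy⟩ := h4 hy
    have : z = ⟨y, hy⟩ := Subtype.ext hzy
    rw [← this]; exact hz
  have hbij : Function.Bijective (LinearMap.liftBaseChange A' (resBC β N N' h)) := ⟨hinj, hsurj⟩
  exact IsBaseChange.of_equiv (LinearEquiv.ofBijective _ hbij) (fun x => by
    rw [LinearEquiv.ofBijective_apply, LinearMap.liftBaseChange_tmul, one_smul])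

theorem span_image_eq_top {β : M →ₗ[A] M'} (hβ : IsBaseChange A' β) :
    Submodule.span A' (Set.range β) = ⊤ := by
  rw [eq_top_iff]
  intro x _
  refine hβ.inductionOn x _ (Submodule.zero_mem _) ?_ ?_ ?_
  · intro m; exact Submodule.subset_span ⟨m, rfl⟩
  · intro s n hn; exact Submodule.smul_mem _ _ hn
  · intro a b ha hb; exact Submodule.add_mem _ ha hb

end Summand

/-! ### Base change of lattices -/

section BC

variable {L} {A' : Type u} [CommRing A'] [Algebra A A'] {M' : Type v} [AddCommGroup M']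
  [Module A' M'] [Module A M'] [IsScalarTower A A' M'] {L' : P1Lat A' M'} {β : M →ₗ[A] M'}

theorem IsBC_op (hβ : L.IsBC L' β) : (op L).IsBC (op L') β where
  τ x := by
    change β (L.τ.symm x) = L'.τ.symm (β x)
    rw [LinearEquiv.eq_symm_apply, ← hβ.τ, LinearEquiv.apply_symm_apply]
  bc := hβ.bc
  memP := hβ.memQ
  memQ := hβ.memP
  spanP := hβ.spanQ
  spanQ := hβ.spanP

theorem IsBC_pow (hβ : L.IsBC L' β) (n : ℕ) (x : M) : β ((L.τ ^ n) x) = (L'.τ ^ n) (β x) := by
  induction n with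
  | zero => simp
  | succ n ih => rw [pow_succ_apply', pow_succ_apply', hβ.τ, ih]

theorem IsBC_symm_pow (hβ : L.IsBC L' β) (n : ℕ) (x : M) :
    β ((L.τ.symm ^ n) x) = (L'.τ.symm ^ n) (β x) := IsBC_pow (IsBC_op hβ) n x

theorem IsBC_mem_Qm (hβ : L.IsBC L' β) (m : ℕ) {x : M} (hx : x ∈ L.Qm m) : β x ∈ L'.Qm m := by
  rw [mem_Qm] at hx ⊢
  rw [← IsBC_symm_pow hβ]; exact hβ.memQ _ hx

theorem IsBC_mem_K (hβ : L.IsBC L' β) (m : ℕ) {x : M} (hx : x ∈ L.K m) : β x ∈ L'.K m :=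
  ⟨hβ.memP _ hx.1, IsBC_mem_Qm hβ m hx.2⟩

theorem IsBC_span_Qm (hβ : L.IsBC L' β) (m : ℕ) :
    L'.Qm m = Submodule.span A' (β '' L.Qm m) := by
  apply le_antisymm
  · intro y hy
    rw [mem_Qm, hβ.spanQ] at hy
    have h1 : y = (L'.τ ^ m) ((L'.τ.symm ^ m) y) := (pow_apply_symm_pow L' m y).symm
    rw [h1]
    have h2 : Submodule.span A' (β '' L.Q) ≤ (Submodule.span A' (β '' L.Qm m)).comap
        ((L'.τ ^ m : M' ≃ₗ[A'] M') : M' →ₗ[A'] M') := by
      rw [Submodule.span_le]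
      rintro _ ⟨q, hq, rfl⟩
      refine Submodule.subset_span ⟨(L.τ ^ m) q, ?_, IsBC_pow hβ m q⟩
      rw [SetLike.mem_coe, mem_Qm, symm_pow_apply_pow]; exact hq
    exact h2 hy
  · rw [Submodule.span_le]
    rintro _ ⟨q, hq, rfl⟩
    exact IsBC_mem_Qm hβ m hq

theorem IsBC_isBaseChange_P (hP : L.FinProjP) (hβ : L.IsBC L' β) :
    IsBaseChange A' (resBC β L.P L'.P hβ.memP) := by
  obtain ⟨r, hr⟩ := exists_retraction_P L hP
  exact isBaseChange_resBC hβ.bc r hr hβ.spanP _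

theorem IsBC_isBaseChange_Q (hQ : L.FinProjQ) (hβ : L.IsBC L' β) :
    IsBaseChange A' (resBC β L.Q L'.Q hβ.memQ) := by
  obtain ⟨r, hr⟩ := exists_retraction_Q L hQ
  exact isBaseChange_resBC hβ.bc r hr hβ.spanQ _

theorem IsBC_isBaseChange_Qm (hQ : L.FinProjQ) (hβ : L.IsBC L' β) (m : ℕ) :
    IsBaseChange A' (resBC β (L.Qm m) (L'.Qm m) (fun _ hx => IsBC_mem_Qm hβ m hx)) := by
  obtain ⟨r, hr⟩ := exists_retraction_Qm L hQ m
  exact isBaseChange_resBC hβ.bc r hr (IsBC_span_Qm hβ m) _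

theorem IsBC_sup_eq_top (hβ : L.IsBC L' β) {m : ℕ} (hm : L.P ⊔ L.Qm m = ⊤) :
    L'.P ⊔ L'.Qm m = ⊤ := by
  rw [eq_top_iff, ← span_image_eq_top hβ.bc, Submodule.span_le]
  rintro _ ⟨x, rfl⟩
  have hx : x ∈ L.P ⊔ L.Qm m := by rw [hm]; trivial
  obtain ⟨p, hp, q, hq, rfl⟩ := Submodule.mem_sup.mp hx
  rw [map_add]
  exact Submodule.add_mem_sup (hβ.memP _ hp) (IsBC_mem_Qm hβ m hq)

/-- the `A'`-linear extension of an endomorphism of `M` -/
noncomputable def extEnd (hβ : IsBaseChange A' β) (σ : M →ₗ[A] M) : M' →ₗ[A'] M' :=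
  hβ.lift (β ∘ₗ σ)

theorem extEnd_apply (hβ : IsBaseChange A' β) (σ : M →ₗ[A] M) (x : M) :
    extEnd hβ σ (β x) = β (σ x) := hβ.lift_eq _ x

theorem extEnd_mem_span (hβ : IsBaseChange A' β) (σ : M →ₗ[A] M) {N N₁ : Submodule A M}
    (h : ∀ x ∈ N, σ x ∈ N₁) {y : M'} (hy : y ∈ Submodule.span A' (β '' N)) :
    extEnd hβ σ y ∈ Submodule.span A' (β '' N₁) := by
  have h2 : Submodule.span A' (β '' (N : Set M)) ≤
      (Submodule.span A' (β '' (N₁ : Set M))).comap (extEnd hβ σ) := by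
    rw [Submodule.span_le]
    rintro _ ⟨q, hq, rfl⟩
    rw [SetLike.mem_coe, Submodule.mem_comap, extEnd_apply]
    exact Submodule.subset_span ⟨_, h q hq, rfl⟩
  exact h2 hy

theorem IsBC_span_K (hP : L.FinProjP) (hβ : L.IsBC L' β) {m : ℕ} (hm : L.P ⊔ L.Qm m = ⊤) :
    L'.K m = Submodule.span A' (β '' L.K m) := by
  apply le_antisymm
  · intro y hy
    obtain ⟨σ, hσP, hσQ⟩ := exists_sigma L hP hm
    have h1 : extEnd hβ.bc σ y ∈ Submodule.span A' (β '' (L.K m : Set M)) := by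
      apply extEnd_mem_span hβ.bc σ (N := L.Qm m) hσQ
      rw [← IsBC_span_Qm hβ]; exact hy.2
    have h2 : extEnd hβ.bc (LinearMap.id - σ) y ∈ Submodule.span A' (β '' (L.K m : Set M)) := by
      apply extEnd_mem_span hβ.bc _ (N := L.P) (fun p hp => hσP p hp)
      rw [← hβ.spanP]; exact hy.1
    have h3 : extEnd hβ.bc (LinearMap.id - σ) y = y - extEnd hβ.bc σ y := by
      have : extEnd hβ.bc (LinearMap.id - σ) = LinearMap.id - extEnd hβ.bc σ := by
        apply hβ.bc.algHom_ext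
        intro x
        rw [extEnd_apply, LinearMap.sub_apply, LinearMap.sub_apply, extEnd_apply, map_sub]
        rfl
      rw [this]; rfl
    rw [h3] at h2
    have := Submodule.add_mem _ h1 h2
    simpa using this
  · rw [Submodule.span_le]
    rintro _ ⟨q, hq, rfl⟩
    exact IsBC_mem_K hβ m hq

theorem IsBC_isBaseChange_K (hP : L.FinProjP) (hQ : L.FinProjQ) (hβ : L.IsBC L' β) {m : ℕ}
    (hm : L.P ⊔ L.Qm m = ⊤) :
    IsBaseChange A' (resBC β (L.K m) (L'.K m) (fun _ hx => IsBC_mem_K hβ m hx)) := by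
  obtain ⟨r, hr⟩ := exists_retraction_M_K L hP hQ hm
  exact isBaseChange_resBC hβ.bc r hr (IsBC_span_K hP hβ hm) _

theorem IsBC_finProjP (hP : L.FinProjP) (hβ : L.IsBC L' β) : L'.FinProjP := by
  have hbc := IsBC_isBaseChange_P hP hβ
  obtain ⟨r, p, φ, hφ, hx⟩ := hP
  let ι : Polynomial A →ₗ[A] Polynomial A' := (Polynomial.mapAlgHom (Algebra.ofId A A')).toLinearMap
  have hι : ∀ f, ι f = f.map (algebraMap A A') := fun f => rfl
  let φ' : Fin r → (L'.P →ₗ[A'] Polynomial A') := fun j => hbc.lift (ι ∘ₗ φ j)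
  have hφ' : ∀ j (x : L.P), φ' j (resBC β L.P L'.P hβ.memP x) = (φ j x).map (algebraMap A A') :=
    fun j x => hbc.lift_eq _ x
  have hspan : ∀ y : L'.P, y ∈ Submodule.span A' (Set.range (resBC β L.P L'.P hβ.memP)) := by
    intro y; rw [span_image_eq_top hbc]; trivial
  -- τ' on P'
  let τP : L'.P →ₗ[A'] L'.P := LinearMap.restrict (L'.τ : M' →ₗ[A'] M') L'.τ_mem
  have hτP : ∀ y : L'.P, τP y = ⟨L'.τ y, L'.τ_mem y y.2⟩ := fun y => rfl
  refine ⟨r, fun j => resBC β L.P L'.P hβ.memP (p j), φ', ?_, ?_⟩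
  · intro j y
    rw [← hτP]
    have h1 : (φ' j) ∘ₗ τP = (LinearMap.mulLeft A' (Polynomial.X : Polynomial A')) ∘ₗ (φ' j) := by
      apply hbc.algHom_ext
      intro x
      rw [LinearMap.comp_apply, LinearMap.comp_apply, hφ', hτP]
      have h2 : (⟨L'.τ (resBC β L.P L'.P hβ.memP x : M'), L'.τ_mem _ (resBC β L.P L'.P hβ.memP x).2⟩ : L'.P)
          = resBC β L.P L'.P hβ.memP ⟨L.τ x, L.τ_mem x x.2⟩ :=
        Subtype.ext (by simp [hβ.τ])
      rw [h2, hφ', hφ, LinearMap.mulLeft_apply]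
      simp
    exact LinearMap.congr_fun h1 y
  · intro y
    have h1 : (L'.P.subtype : L'.P →ₗ[A'] M') = ∑ j, L'.P.subtype ∘ₗ
        evP L' (resBC β L.P L'.P hβ.memP (p j)) ∘ₗ (φ' j) := by
      apply hbc.algHom_ext
      intro x
      rw [LinearMap.sum_apply]
      simp only [LinearMap.comp_apply, hφ', Submodule.subtype_apply, coe_evP, coe_resBC]
      conv_lhs => rw [hx x]
      rw [map_sum]
      refine Finset.sum_congr rfl fun j _ => ?_
      generalize φ j x = f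
      induction f using Polynomial.induction_on' with
      | add f g hf hg =>
        rw [map_add, LinearMap.add_apply, map_add, hf, hg, Polynomial.map_add, map_add,
          LinearMap.add_apply]
      | monomial i a =>
        rw [Polynomial.map_monomial, Polynomial.aeval_monomial, Polynomial.aeval_monomial,
          coe_pow_τ, coe_pow_τ]
        simp only [Module.End.mul_apply, Module.algebraMap_end_apply, map_smul,
          LinearEquiv.coe_coe, IsBC_pow hβ, algebraMap_smul]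
    have h2 := LinearMap.congr_fun h1 y
    rw [LinearMap.sum_apply] at h2
    exact h2

theorem IsBC_finProjQ (hQ : L.FinProjQ) (hβ : L.IsBC L' β) : L'.FinProjQ :=
  IsBC_finProjP (L := op L) (L' := op L') hQ (IsBC_op hβ)

/-- (5) `H⁰ = H¹ = 0` is stable under base change. -/
theorem IsBC_isCompl (hP : L.FinProjP) (hβ : L.IsBC L' β) (h : IsCompl L.P L.Q) :
    IsCompl L'.P L'.Q := by
  have hm : L.P ⊔ L.Qm 0 = ⊤ := by rw [Qm_zero]; exact h.sup_eq_top
  constructor
  · rw [disjoint_iff, ← K_zero, IsBC_span_K hP hβ hm, K_zero, h.inf_eq_bot]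
    simp
  · rw [codisjoint_iff]
    have := IsBC_sup_eq_top hβ hm
    rwa [Qm_zero] at this

theorem sup_Qm_one_eq_top (h : IsCompl L.P L.Q) : L.P ⊔ L.Qm 1 = ⊤ :=
  sup_Qm_mono L (k := 0) (by rw [Qm_zero]; exact h.sup_eq_top) (by norm_num)

/-- (5) `V = P ∩ τQ` is finite projective when `H⁰ = H¹ = 0`. -/
theorem finite_projective_K1 (hP : L.FinProjP) (hQ : L.FinProjQ) (h : IsCompl L.P L.Q) :
    Module.Finite A (L.K 1) ∧ Module.Projective A (L.K 1) :=
  ⟨finite_K L hP hQ (sup_Qm_one_eq_top h), projective_K L hP hQ (sup_Qm_one_eq_top h)⟩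

/-- (5) `V = P ∩ τQ` commutes with base change when `H⁰ = H¹ = 0`. -/
theorem IsBC_isBaseChange_K1 (hP : L.FinProjP) (hQ : L.FinProjQ) (hβ : L.IsBC L' β)
    (h : IsCompl L.P L.Q) :
    IsBaseChange A' (resBC β (L.K 1) (L'.K 1) (fun _ hx => IsBC_mem_K hβ 1 hx)) :=
  IsBC_isBaseChange_K hP hQ hβ (sup_Qm_one_eq_top h)

end BC

end Fermat.Agent.H10.Lat
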