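import Fermat.Agent.H10_P1Lat

/-!
# Lattices on `P¹`: Castelnuovo–Mumford generation (S25, job D1, parts 2 and 3)
-/

set_option autoImplicit false
universe u v
open Fermat.Agent.H25

namespace Fermat.Agent.H10.Lat

variable {A : Type u} [CommRing A] {M : Type v} [AddCommGroup M] [Module A M] (L : P1Lat A M)

/-- the opposite lattice (coordinate replaced by its inverse) -/
noncomputable def op : P1Lat A M where
  τ := L.τ.symm
  P := L.Q
  Q := L.P
  τ_mem := L.τ_symm_mem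
  τ_symm_mem := fun x hx => by
    rw [LinearEquiv.symm_symm]; exact L.τ_mem x hx
  exhaustP := L.exhaustQ
  exhaustQ := fun x => by
    obtain ⟨n, hn⟩ := L.exhaustP x
    exact ⟨n, by rw [LinearEquiv.symm_symm]; exact hn⟩

@[simp] theorem op_τ : (op L).τ = L.τ.symm := rfl
@[simp] theorem op_P : (op L).P = L.Q := rfl
@[simp] theorem op_Q : (op L).Q = L.P := rfl

theorem op_zpow (i : ℤ) (x : M) : ((op L).τ ^ i) x = (L.τ ^ (-i)) x := by
  have : (op L).τ = L.τ⁻¹ := rfl
  rw [this, inv_zpow, zpow_neg]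

theorem op_PZ (i : ℤ) : PZ (op L) i = QZ L (-i) := by
  ext x; rw [mem_PZ, mem_QZ, op_zpow, op_P]

theorem op_QZ (i : ℤ) : QZ (op L) i = PZ L (-i) := by
  ext x; rw [mem_PZ, mem_QZ, op_zpow, op_Q]

/-- the `A[τ]`-submodule generated by `S` -/
def genP (S : Set M) : Submodule A M :=
  Submodule.span A {z | ∃ i : ℕ, ∃ y ∈ S, z = (L.τ ^ i) y}

/-- the `A[τ⁻¹]`-submodule generated by `S` -/
def genQ (S : Set M) : Submodule A M :=
  Submodule.span A {z | ∃ i : ℕ, ∃ y ∈ S, z = (L.τ.symm ^ i) y}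

theorem genP_op (S : Set M) : genP (op L) S = genQ L S := rfl

theorem genP_mono {S T : Set M} (h : S ⊆ T) : genP L S ≤ genP L T :=
  Submodule.span_mono fun _ ⟨i, y, hy, hz⟩ => ⟨i, y, h hy, hz⟩

theorem pow_mem_genP {S : Set M} (i : ℕ) {y : M} (hy : y ∈ S) : (L.τ ^ i) y ∈ genP L S :=
  Submodule.subset_span ⟨i, y, hy, rfl⟩

theorem subset_genP {S : Set M} {y : M} (hy : y ∈ S) : y ∈ genP L S := by
  simpa using pow_mem_genP L 0 hy

theorem τ_mem_genP {S : Set M} {x : M} (hx : x ∈ genP L S) : L.τ x ∈ genP L S := by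
  unfold genP at hx
  induction hx using Submodule.span_induction with
  | mem x hx =>
    obtain ⟨i, y, hy, rfl⟩ := hx
    rw [← pow_succ_apply']
    exact pow_mem_genP L _ hy
  | zero => simp
  | add x y _ _ hx hy => rw [map_add]; exact Submodule.add_mem _ hx hy
  | smul a x _ hx => rw [map_smul]; exact Submodule.smul_mem _ _ hx

theorem pow_mem_genP' {S : Set M} (i : ℕ) {x : M} (hx : x ∈ genP L S) :
    (L.τ ^ i) x ∈ genP L S := by
  induction i with
  | zero => simpa using hx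
  | succ n ih => rw [pow_succ_apply']; exact τ_mem_genP L ih

theorem genP_le_iff {S : Set M} {N : Submodule A M} (hN : ∀ x ∈ N, L.τ x ∈ N) :
    genP L S ≤ N ↔ S ⊆ N := by
  constructor
  · intro h y hy; exact h (subset_genP L hy)
  · intro h
    refine Submodule.span_le.mpr ?_
    rintro z ⟨i, y, hy, rfl⟩
    have : ∀ i : ℕ, (L.τ ^ i) y ∈ N := by
      intro i
      induction i with
      | zero => simpa using h hy
      | succ n ih => rw [pow_succ_apply']; exact hN _ ih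
    exact this i

/-! ### (2) Castelnuovo–Mumford -/

theorem sup_Qm_mono {k l : ℕ} (h : L.P ⊔ L.Qm k = ⊤) (hkl : k ≤ l) : L.P ⊔ L.Qm l = ⊤ := by
  rw [eq_top_iff, ← h]; exact sup_le_sup_left (Qm_mono L hkl) _

theorem K_succ_eq {k : ℕ} (h : L.P ⊔ L.Qm k = ⊤) :
    L.K (k + 2) = L.K (k + 1) ⊔ (L.K (k + 1)).map (L.τ : M →ₗ[A] M) := by
  apply le_antisymm
  · intro x hx
    rw [mem_K] at hx
    have h1 : (L.τ ^ (-1 : ℤ)) x ∈ L.P ⊔ L.Qm k := by rw [h]; trivial
    obtain ⟨p, hp, q, hq, hpq⟩ := Submodule.mem_sup.mp h1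
    rw [← QZ_natCast] at hq
    have hx1 : (L.τ ^ (-1 : ℤ)) x ∈ QZ L ((k : ℤ) + 1) := by
      have := zpow_mem_QZ L (j := -1) hx.2
      convert this using 2
      push_cast; ring
    have hpK : p ∈ L.K (k + 1) := by
      rw [mem_K]
      refine ⟨hp, ?_⟩
      have : p = (L.τ ^ (-1 : ℤ)) x - q := by rw [← hpq]; abel
      rw [this]
      push_cast
      exact Submodule.sub_mem _ hx1 (QZ_mono L (by omega) hq)
    have hτ : ∀ w : M, L.τ w = (L.τ ^ (1 : ℤ)) w := fun w => by rw [zpow_one]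
    have hx2 : x = L.τ q + L.τ p := by
      rw [← map_add, add_comm q p, hpq, hτ, ← zpow_add_apply]; simp
    have hqK : L.τ q ∈ L.K (k + 1) := by
      rw [mem_K]
      constructor
      · have : L.τ q = x - L.τ p := by rw [hx2]; abel
        rw [this]; exact Submodule.sub_mem _ hx.1 (L.τ_mem _ hp)
      · rw [hτ]
        have := zpow_mem_QZ L (j := 1) hq
        convert this using 2
        push_cast; ring
    rw [hx2]
    exact Submodule.add_mem_sup hqK ⟨p, hpK, rfl⟩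
  · refine sup_le (K_mono L (by omega)) ?_
    rintro _ ⟨y, hy, rfl⟩
    exact τ_mem_K L hy

/-- `K(k+1+n) = ∑_{i ≤ n} τ^i K(k+1)`. -/
theorem K_add_eq {k : ℕ} (h : L.P ⊔ L.Qm k = ⊤) (n : ℕ) :
    L.K (k + 1 + n) = ⨆ i : Fin (n + 1), (L.K (k + 1)).map ((L.τ ^ (i : ℕ) : M ≃ₗ[A] M) : M →ₗ[A] M) := by
  apply le_antisymm
  · induction n with
    | zero =>
      refine le_trans ?_ (le_iSup _ 0)
      intro x hx
      exact ⟨x, hx, by simp⟩
    | succ n ih =>
      have h1 : L.K (k + 1 + (n + 1)) = L.K (k + n + 1) ⊔ (L.K (k + n + 1)).map (L.τ : M →ₗ[A] M) := by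
        have := K_succ_eq L (k := k + n) (sup_Qm_mono L h (by omega))
        rw [← this]; congr 1; omega
      have h2 : L.K (k + n + 1) = L.K (k + 1 + n) := by congr 1; omega
      rw [h1, h2]
      refine sup_le ?_ ?_
      · refine ih.trans (iSup_le fun i => ?_)
        exact le_iSup (fun i : Fin (n + 1 + 1) =>
          (L.K (k + 1)).map ((L.τ ^ (i : ℕ) : M ≃ₗ[A] M) : M →ₗ[A] M)) i.castSucc
      · rw [Submodule.map_le_iff_le_comap]
        refine ih.trans (iSup_le fun i => ?_)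
        rintro _ ⟨y, hy, rfl⟩
        rw [Submodule.mem_comap]
        refine Submodule.mem_iSup_of_mem i.succ ⟨y, hy, ?_⟩
        simp only [Fin.val_succ, LinearEquiv.coe_coe]
        rw [pow_succ_apply']
  · refine iSup_le fun i => ?_
    rintro _ ⟨y, hy, rfl⟩
    exact K_mono L (by have := i.2; omega) (pow_mem_K L (i : ℕ) hy)

theorem K_le_genP {k : ℕ} (h : L.P ⊔ L.Qm k = ⊤) (n : ℕ) :
    L.K (k + 1 + n) ≤ genP L (L.K (k + 1)) := by
  rw [K_add_eq L h]
  refine iSup_le fun i => ?_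
  rintro _ ⟨y, hy, rfl⟩
  exact pow_mem_genP L _ hy

/-- `P` is generated over `A[τ]` by `K(k+1)`, if `P + τ^k Q = M`. -/
theorem genP_K {k : ℕ} (h : L.P ⊔ L.Qm k = ⊤) : genP L (L.K (k + 1)) = L.P := by
  apply le_antisymm
  · rw [genP_le_iff L L.τ_mem]; exact fun x hx => hx.1
  · intro x hx
    obtain ⟨n, hn⟩ := exists_mem_QZ L x
    apply K_le_genP L h n
    rw [mem_K]
    exact ⟨hx, QZ_mono L (by push_cast; omega) hn⟩

/-- `τ^{k+1} Q` is generated over `A[τ⁻¹]` by `K(k+1)`, if `P + τ^k Q = M`. -/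
theorem genQ_K {k : ℕ} (h : L.P ⊔ L.Qm k = ⊤) : genQ L (L.K (k + 1)) = L.Qm (k + 1) := by
  apply le_antisymm
  · rw [← genP_op, genP_le_iff (op L)]
    · exact fun x hx => hx.2
    · intro x hx
      rw [← QZ_natCast] at hx ⊢
      have : (op L).τ x = (L.τ ^ (-1 : ℤ)) x := by
        have := op_zpow L 1 x
        rw [zpow_one] at this; exact this
      rw [this]
      exact QZ_mono L (by omega) (zpow_mem_QZ L hx)
  · intro x hx
    obtain ⟨n, hn⟩ := L.exhaustP x
    have h1 : (L.τ ^ n) x ∈ L.K (k + 1 + n) := by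
      rw [mem_K]
      refine ⟨hn, ?_⟩
      rw [← QZ_natCast] at hx
      have := zpow_mem_QZ L (j := (n : ℤ)) hx
      rw [zpow_natCast] at this
      convert this using 2
      push_cast; ring
    rw [K_add_eq L h] at h1
    have hsymm : x = (L.τ.symm ^ n) ((L.τ ^ n) x) := (symm_pow_apply_pow L n x).symm
    rw [hsymm]
    have h2 : (⨆ i : Fin (n + 1), (L.K (k + 1)).map ((L.τ ^ (i : ℕ) : M ≃ₗ[A] M) : M →ₗ[A] M)) ≤
        (genQ L (L.K (k + 1))).comap ((L.τ.symm ^ n : M ≃ₗ[A] M) : M →ₗ[A] M) := by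
      refine iSup_le fun i => ?_
      rintro _ ⟨y, hy, rfl⟩
      rw [Submodule.mem_comap]
      have h3 : (L.τ.symm ^ n) ((L.τ ^ (i : ℕ)) y) = (L.τ.symm ^ (n - i)) y := by
        rw [symm_pow_eq, symm_pow_eq, ← zpow_natCast, ← zpow_add_apply]
        congr 2
        have := i.2
        omega
      simp only [LinearEquiv.coe_coe]
      rw [h3]
      exact Submodule.subset_span ⟨n - i, y, hy, rfl⟩
    exact h2 h1

/-! ### (3) Serre vanishing -/

/-- The `A[τ,τ⁻¹]`-span of `S` is everything if `P` is generated by `S`. -/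
theorem span_zpow_eq_top {S : Set M} (hS : L.P ≤ genP L S) :
    Submodule.span A {z | ∃ i : ℤ, ∃ y ∈ S, z = (L.τ ^ i) y} = ⊤ := by
  rw [eq_top_iff]
  intro x _
  obtain ⟨n, hn⟩ := L.exhaustP x
  have h1 := hS hn
  have hsymm : x = (L.τ ^ (-(n : ℤ))) ((L.τ ^ n) x) := by
    rw [← symm_pow_eq, symm_pow_apply_pow]
  rw [hsymm]
  have h2 : genP L S ≤ (Submodule.span A {z | ∃ i : ℤ, ∃ y ∈ S, z = (L.τ ^ i) y}).comap
      ((L.τ ^ (-(n : ℤ)) : M ≃ₗ[A] M) : M →ₗ[A] M) := by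
    refine Submodule.span_le.mpr ?_
    rintro z ⟨i, y, hy, rfl⟩
    refine Submodule.subset_span ⟨-(n : ℤ) + i, y, hy, ?_⟩
    simp only [LinearEquiv.coe_coe]
    rw [← zpow_natCast, ← zpow_add_apply]
  exact h2 h1

theorem exists_forall_mem_QZ (s : Set M) (hs : s.Finite) : ∃ c : ℕ, ∀ y ∈ s, y ∈ QZ L c := by
  induction s, hs using Set.Finite.induction_on with
  | empty => exact ⟨0, by simp⟩
  | @insert a s _ _ ih =>
    obtain ⟨c, hc⟩ := ih
    obtain ⟨d, hd⟩ := exists_mem_QZ L a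
    refine ⟨c + d, fun y hy => ?_⟩
    rcases hy with rfl | hy
    · exact QZ_mono L (by push_cast; omega) hd
    · exact QZ_mono L (by push_cast; omega) (hc y hy)

/-- Serre vanishing: if `P` is finitely generated over `A[τ]` then `P + τ^m Q = M` for `m ≫ 0`. -/
theorem exists_sup_Qm_eq_top {S : Set M} (hfin : S.Finite) (hSP : S ⊆ L.P) (hS : L.P ≤ genP L S) :
    ∃ m : ℕ, ∀ n ≥ m, L.P ⊔ L.Qm n = ⊤ := by
  obtain ⟨c, hc⟩ := exists_forall_mem_QZ L S hfin
  refine ⟨c, fun n hn => sup_Qm_mono L (k := c) ?_ hn⟩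
  rw [eq_top_iff, ← span_zpow_eq_top L hS]
  refine Submodule.span_le.mpr ?_
  rintro z ⟨i, y, hy, rfl⟩
  rcases le_or_gt 0 i with hi | hi
  · exact Submodule.mem_sup_left (zpow_mem_P L hi (hSP hy))
  · refine Submodule.mem_sup_right ?_
    rw [← QZ_natCast]
    exact QZ_mono L (by omega) (zpow_mem_QZ L (j := i) (hc y hy))

/-- `H¹` is a finite `A`-module. -/
theorem finite_quot {S : Set M} (hfin : S.Finite) (hSP : S ⊆ L.P) (hS : L.P ≤ genP L S) :
    Module.Finite A (M ⧸ (L.P ⊔ L.Q)) := by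
  classical
  obtain ⟨c, hc⟩ := exists_forall_mem_QZ L S hfin
  let T : Set M := (fun w : ℕ × M => (L.τ ^ (-(w.1 : ℤ))) w.2) '' ((Set.Iio c) ×ˢ S)
  have hT : T.Finite := ((Set.finite_Iio c).prod hfin).image _
  refine ⟨⟨(hT.toFinset.image (Submodule.mkQ (L.P ⊔ L.Q))), ?_⟩⟩
  rw [eq_top_iff]
  have h1 : (⊤ : Submodule A (M ⧸ (L.P ⊔ L.Q))) = (⊤ : Submodule A M).map (Submodule.mkQ (L.P ⊔ L.Q)) := by
    rw [Submodule.map_top, Submodule.range_mkQ]
  rw [h1, ← span_zpow_eq_top L hS, Submodule.map_span, Submodule.span_le]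
  rintro _ ⟨_, ⟨i, y, hy, rfl⟩, rfl⟩
  rcases le_or_gt 0 i with hi | hi
  · have : (Submodule.mkQ (L.P ⊔ L.Q)) ((L.τ ^ i) y) = 0 := by
      rw [Submodule.mkQ_apply, Submodule.Quotient.mk_eq_zero]
      exact Submodule.mem_sup_left (zpow_mem_P L hi (hSP hy))
    rw [this]; exact Submodule.zero_mem _
  · rcases le_or_gt (c : ℤ) (-i) with hi' | hi'
    · have : (Submodule.mkQ (L.P ⊔ L.Q)) ((L.τ ^ i) y) = 0 := by
        rw [Submodule.mkQ_apply, Submodule.Quotient.mk_eq_zero]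
        refine Submodule.mem_sup_right ?_
        rw [← QZ_zero]
        exact QZ_mono L (by omega) (zpow_mem_QZ L (j := i) (hc y hy))
      rw [this]; exact Submodule.zero_mem _
    · refine Submodule.subset_span ?_
      rw [Finset.coe_image]
      refine ⟨(L.τ ^ i) y, ?_, rfl⟩
      rw [Set.Finite.coe_toFinset]
      refine ⟨((-i).toNat, y), ⟨?_, hy⟩, ?_⟩
      · simp only [Set.mem_Iio]; omega
      · simp only
        congr 2
        omega

end Fermat.Agent.H10.Lat
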