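import Fermat.Agent.H10_P1LatBC

/-!
# Lattices on `P¹`: openness of acyclicity, Euler characteristic (S25, job D2, parts 2, 3, 4)
-/

set_option autoImplicit false
universe u v w
open Fermat.Agent.H25 TensorProduct

namespace Fermat.Agent.H10.Lat

section General

variable {A : Type u} [CommRing A] {K : Type w} [Field K] [Algebra A K]

/-- If `C` is a finite `A`-module and `K ⊗ C = 0` then `f C = 0` for some `f ∈ A` nonzero in `K`. -/
theorem exists_smul_eq_zero {C : Type v} [AddCommGroup C] [Module A C] [Module.Finite A C]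
    [Subsingleton (K ⊗[A] C)] : ∃ f : A, algebraMap A K f ≠ 0 ∧ ∀ c : C, f • c = 0 := by
  by_contra hcon
  push Not at hcon
  let p : Ideal A := RingHom.ker (algebraMap A K)
  have hp : p.IsPrime := RingHom.ker_isPrime _
  have h1 : Module.annihilator A C ≤ p := by
    intro f hf
    by_contra hfp
    obtain ⟨c, hc⟩ := hcon f hfp
    exact hc (Module.mem_annihilator.mp hf c)
  have h2 : (⟨p, hp⟩ : PrimeSpectrum A) ∈ Module.support A C :=
    Module.mem_support_iff_of_finite.mpr h1
  rw [Module.mem_support_iff_nontrivial_residueField_tensorProduct] at h2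
  have h3 : p.primeCompl ≤ Submonoid.comap (algebraMap A K) (IsUnit.submonoid K) := by
    intro x hx
    exact IsUnit.mk0 _ hx
  algebraize [Ideal.ResidueField.lift p (algebraMap A K) le_rfl h3]
  have : IsScalarTower A p.ResidueField K := IsScalarTower.of_algebraMap_eq (fun x => by
    change _ = Ideal.ResidueField.lift p (algebraMap A K) le_rfl h3 _
    rw [Ideal.ResidueField.lift_algebraMap])
  have h4 : Nontrivial (K ⊗[p.ResidueField] (p.ResidueField ⊗[A] C)) := inferInstance
  have h5 := (AlgebraTensorModule.cancelBaseChange A p.ResidueField K K C).toEquiv.subsingleton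
  exact not_subsingleton _ h5

/-- A homomorphism of finite projective modules which becomes bijective over a field `K`
is invertible up to an element `f` with nonzero image in `K`. -/
theorem exists_quasi_inverse {E : Type v} {F : Type v} [AddCommGroup E] [Module A E]
    [Module.Finite A E] [AddCommGroup F] [Module A F] [Module.Finite A F] [Module.Projective A F]
    (g : E →ₗ[A] F) (hg : Function.Bijective (g.baseChange K)) :
    ∃ (f : A) (H : F →ₗ[A] E), algebraMap A K f ≠ 0 ∧ (∀ x, g (H x) = f • x) ∧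
      ∀ x, H (g x) = f • x := by
  -- cokernel
  have hC : Subsingleton (K ⊗[A] (F ⧸ LinearMap.range g)) := by
    have h1 : Function.Surjective ((LinearMap.range g).mkQ.baseChange K) :=
      LinearMap.lTensor_surjective K (Submodule.mkQ_surjective _)
    have h2 : ∀ z : K ⊗[A] E, (LinearMap.range g).mkQ.baseChange K (g.baseChange K z) = 0 := by
      intro z
      rw [← LinearMap.comp_apply, ← LinearMap.baseChange_comp]
      have : (LinearMap.range g).mkQ ∘ₗ g = 0 := LinearMap.range_mkQ_comp g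
      rw [this, LinearMap.baseChange_zero]; rfl
    refine ⟨fun a b => ?_⟩
    have h3 : ∀ a : K ⊗[A] (F ⧸ LinearMap.range g), a = 0 := by
      intro a
      obtain ⟨b, rfl⟩ := h1 a
      obtain ⟨c, rfl⟩ := hg.2 b
      exact h2 c
    rw [h3 a, h3 b]
  obtain ⟨f, hf, hfC⟩ := exists_smul_eq_zero (A := A) (K := K) (C := F ⧸ LinearMap.range g)
  -- partial section
  have hfr : ∀ x : F, f • x ∈ LinearMap.range g := by
    intro x
    have := hfC (Submodule.Quotient.mk x)
    rwa [← Submodule.Quotient.mk_smul, Submodule.Quotient.mk_eq_zero] at this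
  let mf : F →ₗ[A] LinearMap.range g :=
    LinearMap.codRestrict _ (f • LinearMap.id) (fun x => hfr x)
  obtain ⟨h, hh⟩ := Module.projective_lifting_property g.rangeRestrict mf
    (LinearMap.surjective_rangeRestrict g)
  have hgh : ∀ x, g (h x) = f • x := by
    intro x
    have := congrArg (fun q : F →ₗ[A] LinearMap.range g => ((q x : LinearMap.range g) : F)) hh
    simpa [mf] using this
  let e : E →ₗ[A] E := f • LinearMap.id - h ∘ₗ g
  have he : ∀ x, e x = f • x - h (g x) := fun x => rfl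
  have hge : g ∘ₗ e = 0 := by
    ext x
    rw [LinearMap.comp_apply, he, map_sub, map_smul, hgh, sub_self]; rfl
  let N := LinearMap.range e
  have heN : ∀ y ∈ N, e y = f • y := by
    rintro _ ⟨x, rfl⟩
    have : g (e x) = 0 := LinearMap.congr_fun hge x
    rw [he (e x), this, map_zero, sub_zero]
  have hNfin : Module.Finite A N := inferInstance
  have hN : Subsingleton (K ⊗[A] N) := by
    -- i : N → E, e' : E → N
    have h1 : Function.Surjective (e.rangeRestrict.baseChange K) :=
      LinearMap.lTensor_surjective K (LinearMap.surjective_rangeRestrict e)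
    have h2 : e.baseChange K = 0 := by
      have h3 : (g.baseChange K) ∘ₗ (e.baseChange K) = 0 := by
        rw [← LinearMap.baseChange_comp, hge, LinearMap.baseChange_zero]
      ext1
      ext z
      apply hg.1
      have := LinearMap.congr_fun h3 (1 ⊗ₜ z)
      simpa using this
    have h3 : ∀ z : K ⊗[A] E, N.subtype.baseChange K (e.rangeRestrict.baseChange K z) = 0 := by
      intro z
      rw [← LinearMap.comp_apply, ← LinearMap.baseChange_comp]
      have : N.subtype ∘ₗ e.rangeRestrict = e := rfl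
      rw [this, h2]; rfl
    have h4 : ∀ z : K ⊗[A] N, N.subtype.baseChange K z = 0 := by
      intro z
      obtain ⟨y, rfl⟩ := h1 z
      exact h3 y
    have h5 : ∀ z : K ⊗[A] N, (algebraMap A K f) • z = 0 := by
      intro z
      have h6 : e.rangeRestrict ∘ₗ N.subtype = f • LinearMap.id := by
        refine LinearMap.ext fun x => ?_
        refine Subtype.ext ?_
        exact heN x x.2
      have h7 : e.rangeRestrict.baseChange K (N.subtype.baseChange K z) = (algebraMap A K f) • z := by
        rw [← LinearMap.comp_apply, ← LinearMap.baseChange_comp, h6, LinearMap.baseChange_smul,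
          LinearMap.baseChange_id]
        simp
      rw [← h7, h4, map_zero]
    refine ⟨fun a b => ?_⟩
    have h6 : ∀ z : K ⊗[A] N, z = 0 := by
      intro z
      have := h5 z
      rcases smul_eq_zero.mp this with h7 | h7
      · exact absurd h7 hf
      · exact h7
    rw [h6 a, h6 b]
  obtain ⟨f', hf', hfN⟩ := exists_smul_eq_zero (A := A) (K := K) (C := N)
  refine ⟨f' * f, f' • h, by rw [map_mul]; exact mul_ne_zero hf' hf, ?_, ?_⟩
  · intro x
    rw [LinearMap.smul_apply, map_smul, hgh, smul_smul]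
  · intro x
    have h1 : f' • e x = 0 := by
      have := congrArg Subtype.val (hfN ⟨e x, x, rfl⟩)
      simpa using this
    rw [he, smul_sub, sub_eq_zero] at h1
    rw [LinearMap.smul_apply, ← h1, smul_smul]

end General

variable {A : Type u} [CommRing A] {M : Type v} [AddCommGroup M] [Module A M] (L : P1Lat A M)

/-- `τ^m Q / Q` -/
abbrev Fq (m : ℕ) : Type v := L.Qm m ⧸ L.Q.submoduleOf (L.Qm m)

/-- the two-term complex `K(m) → τ^m Q / Q` computing cohomology -/
noncomputable def gmap (m : ℕ) : L.K m →ₗ[A] Fq L m :=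
  (L.Q.submoduleOf (L.Qm m)).mkQ ∘ₗ Submodule.inclusion inf_le_right

theorem gmap_eq_zero_iff {m : ℕ} (x : L.K m) : gmap L m x = 0 ↔ (x : M) ∈ L.Q := by
  unfold gmap
  rw [LinearMap.comp_apply, Submodule.mkQ_apply, Submodule.Quotient.mk_eq_zero]
  exact Iff.rfl

/-- the kernel of `K(m) → τ^m Q / Q` is `P ∩ Q`. -/
noncomputable def kerEquiv (m : ℕ) : LinearMap.ker (gmap L m) ≃ₗ[A] (L.P ⊓ L.Q : Submodule A M) where
  toFun x := ⟨(x : L.K m), (x : L.K m).2.1, (gmap_eq_zero_iff L _).mp x.2⟩
  map_add' x y := rfl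
  map_smul' a x := rfl
  invFun y := ⟨⟨(y : M), y.2.1, by
    have h := Qm_mono L (Nat.zero_le m)
    rw [Qm_zero] at h
    exact h y.2.2⟩, (gmap_eq_zero_iff L _).mpr y.2.2⟩
  left_inv x := rfl
  right_inv y := rfl

/-- the map from `τ^m Q / Q` to `M / (P + Q)` -/
noncomputable def toH1 (m : ℕ) : Fq L m →ₗ[A] M ⧸ (L.P ⊔ L.Q) :=
  Submodule.liftQ _ ((L.P ⊔ L.Q).mkQ ∘ₗ (L.Qm m).subtype) (by
    intro x hx
    rw [LinearMap.mem_ker, LinearMap.comp_apply, Submodule.mkQ_apply,
      Submodule.Quotient.mk_eq_zero]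
    exact Submodule.mem_sup_right hx)

theorem toH1_mk (m : ℕ) (x : L.Qm m) :
    toH1 L m (Submodule.Quotient.mk x) = Submodule.Quotient.mk (x : M) := rfl

theorem toH1_surjective {m : ℕ} (hm : L.P ⊔ L.Qm m = ⊤) : Function.Surjective (toH1 L m) := by
  intro y
  obtain ⟨x, rfl⟩ := Submodule.Quotient.mk_surjective _ y
  have hx : x ∈ L.P ⊔ L.Qm m := by rw [hm]; trivial
  obtain ⟨p, hp, q, hq, rfl⟩ := Submodule.mem_sup.mp hx
  refine ⟨Submodule.Quotient.mk ⟨q, hq⟩, ?_⟩
  rw [toH1_mk, Submodule.Quotient.eq]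
  refine Submodule.mem_sup_left ?_
  have : (⟨q, hq⟩ : L.Qm m).1 - (p + q) = -p := by simp only; abel
  rw [this]; exact Submodule.neg_mem _ hp

theorem ker_toH1 (m : ℕ) : LinearMap.ker (toH1 L m) = LinearMap.range (gmap L m) := by
  apply le_antisymm
  · intro y hy
    obtain ⟨x, rfl⟩ := Submodule.Quotient.mk_surjective _ y
    rw [LinearMap.mem_ker, toH1_mk, Submodule.Quotient.mk_eq_zero] at hy
    obtain ⟨p, hp, q, hq, hpq⟩ := Submodule.mem_sup.mp hy
    have hQ : L.Q ≤ L.Qm m := by
      have h := Qm_mono L (Nat.zero_le m)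
      rwa [Qm_zero] at h
    have hpm : p ∈ L.Qm m := by
      have : p = (x : M) - q := by rw [← hpq]; abel
      rw [this]; exact Submodule.sub_mem _ x.2 (hQ hq)
    refine ⟨⟨p, hp, hpm⟩, ?_⟩
    change (Submodule.Quotient.mk (⟨p, hpm⟩ : L.Qm m) : Fq L m) = Submodule.Quotient.mk x
    rw [Submodule.Quotient.eq]
    change p - (x : M) ∈ L.Q
    have : p - (x : M) = -q := by rw [← hpq]; abel
    rw [this]; exact Submodule.neg_mem _ hq
  · rintro _ ⟨x, rfl⟩
    rw [LinearMap.mem_ker]
    change (Submodule.Quotient.mk (x : M) : M ⧸ (L.P ⊔ L.Q)) = 0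
    rw [Submodule.Quotient.mk_eq_zero]
    exact Submodule.mem_sup_left x.2.1

/-- the cokernel of `K(m) → τ^m Q / Q` is `M / (P + Q)`. -/
noncomputable def cokerEquiv {m : ℕ} (hm : L.P ⊔ L.Qm m = ⊤) :
    (Fq L m ⧸ LinearMap.range (gmap L m)) ≃ₗ[A] M ⧸ (L.P ⊔ L.Q) :=
  (Submodule.quotEquivOfEq _ _ (ker_toH1 L m).symm).trans
    ((toH1 L m).quotKerEquivOfSurjective (toH1_surjective L hm))

theorem isCompl_iff {m : ℕ} (hm : L.P ⊔ L.Qm m = ⊤) :
    IsCompl L.P L.Q ↔ Function.Bijective (gmap L m) := by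
  constructor
  · intro h
    constructor
    · rw [← LinearMap.ker_eq_bot, LinearMap.ker_eq_bot']
      intro x hx
      rw [gmap_eq_zero_iff] at hx
      have : (x : M) ∈ L.P ⊓ L.Q := ⟨x.2.1, hx⟩
      rw [h.inf_eq_bot] at this
      exact Subtype.ext this
    · rw [← LinearMap.range_eq_top, ← ker_toH1, eq_top_iff]
      intro y _
      obtain ⟨x, rfl⟩ := Submodule.Quotient.mk_surjective _ y
      rw [LinearMap.mem_ker, toH1_mk, Submodule.Quotient.mk_eq_zero, h.sup_eq_top]
      trivial
  · intro h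
    constructor
    · rw [disjoint_iff, eq_bot_iff]
      intro x hx
      have hQ : L.Q ≤ L.Qm m := by
        have h := Qm_mono L (Nat.zero_le m)
        rwa [Qm_zero] at h
      have h1 : gmap L m ⟨x, hx.1, hQ hx.2⟩ = 0 := (gmap_eq_zero_iff L _).mpr hx.2
      have h2 := h.1 (h1.trans (map_zero _).symm)
      exact congrArg Subtype.val h2
    · rw [codisjoint_iff, eq_top_iff]
      intro x _
      have h1 := (LinearMap.range_eq_top.mpr h.2)
      rw [← ker_toH1] at h1
      have h2 : ∀ y, toH1 L m y = 0 := fun y => by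
        have : y ∈ LinearMap.ker (toH1 L m) := by rw [h1]; trivial
        exact this
      obtain ⟨y, hy⟩ := toH1_surjective L hm (Submodule.Quotient.mk x)
      rw [h2] at hy
      exact (Submodule.Quotient.mk_eq_zero _).mp hy.symm

section BC

variable {L} {A' : Type u} [CommRing A'] [Algebra A A'] {M' : Type v} [AddCommGroup M']
  [Module A' M'] [Module A M'] [IsScalarTower A A' M'] {L' : P1Lat A' M'} {β : M →ₗ[A] M'}

/-- the comparison map on `τ^m Q / Q` -/
noncomputable def bcF (hβ : L.IsBC L' β) (m : ℕ) : Fq L m →ₗ[A] Fq L' m :=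
  Submodule.liftQ _ (((L'.Q.submoduleOf (L'.Qm m)).mkQ.restrictScalars A) ∘ₗ
    (resBC β (L.Qm m) (L'.Qm m) (fun _ hx => IsBC_mem_Qm hβ m hx))) (by
    intro x hx
    rw [LinearMap.mem_ker, LinearMap.comp_apply]
    change (Submodule.Quotient.mk _ : Fq L' m) = 0
    rw [Submodule.Quotient.mk_eq_zero]
    exact hβ.memQ _ hx)

theorem bcF_mk (hβ : L.IsBC L' β) (m : ℕ) (x : L.Qm m) :
    bcF hβ m (Submodule.Quotient.mk x) =
      Submodule.Quotient.mk (resBC β (L.Qm m) (L'.Qm m) (fun _ hx => IsBC_mem_Qm hβ m hx) x) := rfl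

theorem bcF_isBaseChange (hQ : L.FinProjQ) (hβ : L.IsBC L' β) (m : ℕ) :
    IsBaseChange A' (bcF hβ m) := by
  have hbc := IsBC_isBaseChange_Qm hQ hβ m
  -- the inverse
  let inv0 : L'.Qm m →ₗ[A'] A' ⊗[A] Fq L m :=
    hbc.lift ((TensorProduct.mk A A' (Fq L m) 1) ∘ₗ (L.Q.submoduleOf (L.Qm m)).mkQ)
  have hinv0 : ∀ x : L.Qm m, inv0 (resBC β (L.Qm m) (L'.Qm m) (fun _ hx => IsBC_mem_Qm hβ m hx) x) =
      1 ⊗ₜ (Submodule.Quotient.mk x) := fun x => hbc.lift_eq _ x
  have hQQm : L.Q ≤ L.Qm m := by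
    have h := Qm_mono L (Nat.zero_le m)
    rwa [Qm_zero] at h
  have hQQm' : L'.Q ≤ L'.Qm m := by
    have h := Qm_mono L' (Nat.zero_le m)
    rwa [Qm_zero] at h
  have hker : L'.Q.submoduleOf (L'.Qm m) ≤ LinearMap.ker inv0 := by
    have h1 : L'.Q ≤ (LinearMap.ker inv0).map (L'.Qm m).subtype := by
      conv_lhs => rw [hβ.spanQ]
      rw [Submodule.span_le]
      rintro _ ⟨q, hq, rfl⟩
      refine ⟨resBC β (L.Qm m) (L'.Qm m) (fun _ hx => IsBC_mem_Qm hβ m hx) ⟨q, hQQm hq⟩, ?_, rfl⟩
      rw [SetLike.mem_coe, LinearMap.mem_ker, hinv0]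
      have : (Submodule.Quotient.mk (⟨q, hQQm hq⟩ : L.Qm m) : Fq L m) = 0 :=
        (Submodule.Quotient.mk_eq_zero _).mpr hq
      rw [this, tmul_zero]
    intro x hx
    obtain ⟨z, hz, hzx⟩ := h1 hx
    have : z = x := Subtype.ext hzx
    rw [← this]; exact hz
  let inv : Fq L' m →ₗ[A'] A' ⊗[A] Fq L m := Submodule.liftQ _ inv0 hker
  have hinv : ∀ x : L.Qm m, inv (bcF hβ m (Submodule.Quotient.mk x)) =
      1 ⊗ₜ (Submodule.Quotient.mk x) := fun x => hinv0 x
  have h1 : ∀ z : A' ⊗[A] Fq L m, inv (LinearMap.liftBaseChange A' (bcF hβ m) z) = z := by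
    intro z
    induction z with
    | zero => simp
    | add x y hx hy => simp only [map_add, hx, hy]
    | tmul a x =>
      obtain ⟨x, rfl⟩ := Submodule.Quotient.mk_surjective _ x
      rw [LinearMap.liftBaseChange_tmul, map_smul, hinv, smul_tmul', smul_eq_mul, mul_one]
  have h2 : Function.Surjective (LinearMap.liftBaseChange A' (bcF hβ m)) := by
    rw [← LinearMap.range_eq_top, eq_top_iff]
    intro y _
    obtain ⟨y, rfl⟩ := Submodule.Quotient.mk_surjective _ y
    refine hbc.inductionOn y (fun y => (Submodule.Quotient.mk y : Fq L' m) ∈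
      LinearMap.range (LinearMap.liftBaseChange A' (bcF hβ m))) ?_ ?_ ?_ ?_
    · exact Submodule.zero_mem _
    · intro x
      exact ⟨1 ⊗ₜ Submodule.Quotient.mk x, by
        rw [LinearMap.liftBaseChange_tmul, one_smul, bcF_mk]⟩
    · intro s n hn
      rw [Submodule.Quotient.mk_smul]
      exact Submodule.smul_mem _ _ hn
    · intro a b ha hb
      rw [Submodule.Quotient.mk_add]
      exact Submodule.add_mem _ ha hb
  have hbij : Function.Bijective (LinearMap.liftBaseChange A' (bcF hβ m)) :=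
    ⟨(Function.LeftInverse.injective h1), h2⟩
  exact IsBaseChange.of_equiv (LinearEquiv.ofBijective _ hbij) (fun x => by
    rw [LinearEquiv.ofBijective_apply, LinearMap.liftBaseChange_tmul, one_smul])

theorem gmap_comm (hP : L.FinProjP) (hQ : L.FinProjQ) (hβ : L.IsBC L' β) {m : ℕ}
    (hm : L.P ⊔ L.Qm m = ⊤) (z : A' ⊗[A] L.K m) :
    gmap L' m ((IsBC_isBaseChange_K hP hQ hβ hm).equiv z) =
      (bcF_isBaseChange hQ hβ m).equiv ((gmap L m).baseChange A' z) := by
  induction z with
  | zero => simp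
  | add x y hx hy => simp only [map_add, hx, hy]
  | tmul a x =>
    rw [LinearMap.baseChange_tmul, IsBaseChange.equiv_tmul, IsBaseChange.equiv_tmul, map_smul]
    rfl

theorem isCompl_iff_baseChange (hP : L.FinProjP) (hQ : L.FinProjQ) (hβ : L.IsBC L' β) {m : ℕ}
    (hm : L.P ⊔ L.Qm m = ⊤) :
    IsCompl L'.P L'.Q ↔ Function.Bijective ((gmap L m).baseChange A') := by
  rw [isCompl_iff L' (IsBC_sup_eq_top hβ hm)]
  have h1 : (gmap L' m) ∘ (IsBC_isBaseChange_K hP hQ hβ hm).equiv =
      (bcF_isBaseChange hQ hβ m).equiv ∘ ((gmap L m).baseChange A') :=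
    funext (gmap_comm hP hQ hβ hm)
  constructor
  · intro h
    have h2 : Function.Bijective ((bcF_isBaseChange hQ hβ m).equiv ∘ ((gmap L m).baseChange A')) := by
      rw [← h1]; exact h.comp (LinearEquiv.bijective _)
    exact (Function.Bijective.of_comp_iff' (LinearEquiv.bijective _) _).mp h2
  · intro h
    have h2 : Function.Bijective ((gmap L' m) ∘ (IsBC_isBaseChange_K hP hQ hβ hm).equiv) := by
      rw [h1]; exact (LinearEquiv.bijective _).comp h
    exact (Function.Bijective.of_comp_iff _ (LinearEquiv.bijective _)).mp h2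

end BC

/-- (2) **Openness of acyclicity.** -/
theorem exists_isCompl_of_field (hP : L.FinProjP) (hQ : L.FinProjQ) {K : Type u} [Field K]
    [Algebra A K] {MK : Type v} [AddCommGroup MK] [Module K MK] [Module A MK]
    [IsScalarTower A K MK] {LK : P1Lat K MK} {βK : M →ₗ[A] MK} (hβK : L.IsBC LK βK)
    (h : IsCompl LK.P LK.Q) :
    ∃ f : A, algebraMap A K f ≠ 0 ∧
      ∀ (A' : Type u) [CommRing A'] [Algebra A A'] (M' : Type v) [AddCommGroup M']
        [Module A' M'] [Module A M'] [IsScalarTower A A' M'] (L' : P1Lat A' M')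
        (β : M →ₗ[A] M') (_ : L.IsBC L' β), IsUnit (algebraMap A A' f) →
        IsCompl L'.P L'.Q := by
  obtain ⟨m, hm⟩ := exists_forall_finite_K L hP hQ
  obtain ⟨hm, hKfin, hKproj⟩ := hm m le_rfl
  obtain ⟨hFfin, hFproj⟩ := finite_projective_Qm_quot L hQ m
  have hbij := (isCompl_iff_baseChange hP hQ hβK hm).mp h
  obtain ⟨f, H, hf, h1, h2⟩ := exists_quasi_inverse (gmap L m) hbij
  refine ⟨f, hf, ?_⟩
  intro A' _ _ M' _ _ _ _ L' β hβ hu
  rw [isCompl_iff_baseChange hP hQ hβ hm]
  obtain ⟨u, hu⟩ := hu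
  have h3 : ∀ z, (gmap L m).baseChange A' (H.baseChange A' z) = (algebraMap A A' f) • z := by
    intro z
    rw [← LinearMap.comp_apply, ← LinearMap.baseChange_comp]
    have : gmap L m ∘ₗ H = f • LinearMap.id := LinearMap.ext fun x => h1 x
    rw [this, LinearMap.baseChange_smul, LinearMap.baseChange_id]
    simp
  have h4 : ∀ z, H.baseChange A' ((gmap L m).baseChange A' z) = (algebraMap A A' f) • z := by
    intro z
    rw [← LinearMap.comp_apply, ← LinearMap.baseChange_comp]
    have : H ∘ₗ gmap L m = f • LinearMap.id := LinearMap.ext fun x => h2 x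
    rw [this, LinearMap.baseChange_smul, LinearMap.baseChange_id]
    simp
  constructor
  · intro x y hxy
    have h5 : (algebraMap A A' f) • x = (algebraMap A A' f) • y := by
      rw [← h4, ← h4, hxy]
    rw [← hu] at h5
    have h6 := congrArg (fun z => (↑u⁻¹ : A') • z) h5
    simpa [smul_smul] using h6
  · intro y
    refine ⟨(↑u⁻¹ : A') • H.baseChange A' y, ?_⟩
    rw [map_smul, h3, ← hu, smul_smul]
    simp

/-- the Euler characteristic of a lattice at a prime -/
noncomputable def chi (m : ℕ) (p : PrimeSpectrum A) : ℤ :=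
  (Module.rankAtStalk (L.K m) p : ℤ) - (Module.rankAtStalk (Fq L m) p : ℤ)

theorem finrank_formula {K : Type u} [Field K] {V : Type v} [AddCommGroup V] [Module K V]
    (L : P1Lat K V) {m : ℕ} (hm : L.P ⊔ L.Qm m = ⊤) [Module.Finite K (L.K m)]
    [Module.Finite K (Fq L m)] :
    Module.Finite K (L.P ⊓ L.Q : Submodule K V) ∧ Module.Finite K (V ⧸ (L.P ⊔ L.Q)) ∧
    (Module.finrank K (L.P ⊓ L.Q : Submodule K V) : ℤ) - Module.finrank K (V ⧸ (L.P ⊔ L.Q)) =
      (Module.finrank K (L.K m) : ℤ) - Module.finrank K (Fq L m) := by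
  have h1 : Module.Finite K (L.P ⊓ L.Q : Submodule K V) := Module.Finite.equiv (kerEquiv L m)
  have h2 : Module.Finite K (V ⧸ (L.P ⊔ L.Q)) := Module.Finite.equiv (cokerEquiv L hm)
  refine ⟨h1, h2, ?_⟩
  rw [← (kerEquiv L m).finrank_eq, ← (cokerEquiv L hm).finrank_eq]
  have h3 := LinearMap.finrank_range_add_finrank_ker (gmap L m)
  have h4 := Submodule.finrank_quotient_add_finrank (LinearMap.range (gmap L m))
  omega

/-- (3) **Local constancy of the Euler characteristic.** -/
theorem exists_chi (hP : L.FinProjP) (hQ : L.FinProjQ) :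
    ∃ χ : PrimeSpectrum A → ℤ, IsLocallyConstant χ ∧
      ∀ (K : Type u) [Field K] [Algebra A K] (MK : Type v) [AddCommGroup MK] [Module K MK]
        [Module A MK] [IsScalarTower A K MK] (LK : P1Lat K MK) (βK : M →ₗ[A] MK)
        (_ : L.IsBC LK βK),
        Module.Finite K (LK.P ⊓ LK.Q : Submodule K MK) ∧ Module.Finite K (MK ⧸ (LK.P ⊔ LK.Q)) ∧
        (Module.finrank K (LK.P ⊓ LK.Q : Submodule K MK) : ℤ) -
          Module.finrank K (MK ⧸ (LK.P ⊔ LK.Q)) =
          χ (PrimeSpectrum.comap (algebraMap A K) ⊥) := by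
  obtain ⟨m, hm⟩ := exists_forall_finite_K L hP hQ
  obtain ⟨hm, hKfin, hKproj⟩ := hm m le_rfl
  obtain ⟨hFfin, hFproj⟩ := finite_projective_Qm_quot L hQ m
  have hKfp : Module.FinitePresentation A (L.K m) := Module.finitePresentation_of_projective A _
  have hFfp : Module.FinitePresentation A (Fq L m) := Module.finitePresentation_of_projective A _
  refine ⟨chi L m, ?_, ?_⟩
  · have h1 : IsLocallyConstant (Module.rankAtStalk (R := A) (L.K m)) :=
      Module.isLocallyConstant_rankAtStalk
    have h2 : IsLocallyConstant (Module.rankAtStalk (R := A) (Fq L m)) :=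
      Module.isLocallyConstant_rankAtStalk
    exact (h1.prodMk h2).comp (fun w : ℕ × ℕ => (w.1 : ℤ) - (w.2 : ℤ))
  · intro K _ _ MK _ _ _ _ LK βK hβK
    have hmK := IsBC_sup_eq_top hβK hm
    have hbcK := IsBC_isBaseChange_K hP hQ hβK hm
    have hbcF := bcF_isBaseChange hQ hβK m
    have h1 : Module.Finite K (LK.K m) := Module.Finite.equiv hbcK.equiv
    have h2 : Module.Finite K (Fq LK m) := Module.Finite.equiv hbcF.equiv
    obtain ⟨h3, h4, h5⟩ := finrank_formula LK hmK
    refine ⟨h3, h4, ?_⟩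
    rw [h5, chi]
    have h6 := Module.rankAtStalk_isBaseChange hbcK (⊥ : PrimeSpectrum K)
    have h7 := Module.rankAtStalk_isBaseChange hbcF (⊥ : PrimeSpectrum K)
    rw [Module.rankAtStalk_eq_finrank_of_free] at h6 h7
    rw [← h6, ← h7]
    rfl

end Fermat.Agent.H10.Lat
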