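import Mathlib

/-!
# LT-MOD2, M2: definite quaternion orders, abstract interface

`QOrd D` : an order `R` of squarefree level `M` in a definite quaternion algebra `D` over `ℚ`.
`QOrdCM D` : moreover the optimal embedding of `ℤ[√-N]`.
-/

set_option autoImplicit false

namespace Fermat.Agent.H10.QO

/-- A definite quaternion order `R` of squarefree level `M` in `D`; all primes `v ∣ M`, `v ≠ ℓ0`
are ramified in `D`. -/
structure QOrd (D : Type) [Ring D] [StarRing D] [Algebra ℚ D] where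
  /-- reduced norm -/
  nrd : D → ℚ
  /-- reduced trace -/
  trd : D → ℚ
  mul_star : ∀ x, x * star x = algebraMap ℚ D (nrd x)
  add_star : ∀ x, x + star x = algebraMap ℚ D (trd x)
  nrd_pos : ∀ x, x ≠ 0 → 0 < nrd x
  /-- the order -/
  R : Submodule ℤ D
  one_mem : 1 ∈ R
  mul_mem : ∀ {x y}, x ∈ R → y ∈ R → x * y ∈ R
  star_mem : ∀ {x}, x ∈ R → star x ∈ R
  nrd_int : ∀ {x}, x ∈ R → ∃ m : ℤ, nrd x = m
  trd_int : ∀ {x}, x ∈ R → ∃ m : ℤ, trd x = m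
  /-- a basis of `R`; the Gram determinant is a square -/
  bR : Module.Basis (Fin 4) ℤ R
  det_sq : IsSquare (Matrix.det (Matrix.of fun i j : Fin 4 => trd ((bR i : D) * star (bR j : D))))
  full : ∀ x : D, ∃ m : ℕ, 0 < m ∧ (m : ℤ) • x ∈ R
  /-- the level -/
  M : ℕ
  M_sqfree : Squarefree M
  /-- the dual lattice has level `M` -/
  dual : ∀ y : D, (∀ x ∈ R, ∃ m : ℤ, trd (y * x) = m) →
    (M : ℤ) • y ∈ R ∧ ∃ m : ℤ, (M : ℚ) * nrd y = m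
  /-- simultaneous Diophantine approximation -/
  approx : ∃ T : ℕ, 0 < T ∧ ∀ x : D, ∃ t : ℕ, 0 < t ∧ t ≤ T ∧ ∃ ρ ∈ R, nrd ((t : ℤ) • x - ρ) < 1
  /-- `R/ℓR` is a matrix algebra for `ℓ ∤ M`: there is a rank one idempotent mod `ℓ`. -/
  split : ∀ ℓ : ℕ, ℓ.Prime → ¬ ℓ ∣ M → ∃ ε ∈ R, (∃ m : ℤ, trd ε = 1 + ℓ * m) ∧
    ∃ m : ℤ, nrd ε = ℓ * m
  /-- the two-sided prime ideals at `v ∣ M` -/
  P : ℕ → Submodule ℤ D
  P_le : ∀ v : ℕ, v.Prime → v ∣ M → P v ≤ R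
  P_mul_mem : ∀ v : ℕ, v.Prime → v ∣ M → ∀ x ∈ P v, ∀ r ∈ R, x * r ∈ P v
  P_mul_mem' : ∀ v : ℕ, v.Prime → v ∣ M → ∀ x ∈ P v, ∀ r ∈ R, r * x ∈ P v
  P_star : ∀ v : ℕ, v.Prime → v ∣ M → ∀ x ∈ P v, star x ∈ P v
  /-- `P_v² = v R` -/
  P_sq : ∀ v : ℕ, v.Prime → v ∣ M → P v * P v = R.map (LinearMap.mulLeft ℤ (v : D))
  P_comm : ∀ v w : ℕ, v.Prime → w.Prime → v ∣ M → w ∣ M → P v * P w = P w * P v
  /-- the exceptional prime (where `D` may be split) -/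
  ℓ0 : ℕ
  ℓ0_prime : ℓ0.Prime
  ℓ0_dvd : ℓ0 ∣ M
  /-- `R / P_v` is a field for `v ∣ M`, `v ≠ ℓ0` -/
  P_ram : ∀ v : ℕ, v.Prime → v ∣ M → v ≠ ℓ0 → ∀ x ∈ R, (∃ m : ℤ, nrd x = v * m) → x ∈ P v
  /-- a ramified prime `≡ 1 mod 12` (so that all units are `±1`) -/
  r1 : ℕ
  r1_prime : r1.Prime
  r1_dvd : r1 ∣ M
  r1_ne : r1 ≠ ℓ0
  r1_mod : r1 % 12 = 1

/-- Complex multiplication by `ℤ[√-N]`, where `N ∣ M`, `N ≡ 2 mod 4` squarefree, and the primes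
dividing `M / N` are inert in `ℚ(√-N)`. -/
structure QOrdCM (D : Type) [Ring D] [StarRing D] [Algebra ℚ D] extends QOrd D where
  N : ℕ
  N_dvd : N ∣ M
  N_mod : N % 4 = 2
  ℓ0_dvd_N : ℓ0 ∣ N
  inert : ∀ v : ℕ, v.Prime → v ∣ M → ¬ v ∣ N → ∀ a : ℤ, ¬ (v : ℤ) ∣ a ^ 2 + N
  /-- the element `√-N` -/
  π : D
  π_mem : π ∈ R
  π_star : star π = -π
  π_sq : π * π = -(N : D)
  /-- optimality: `R ∩ ℚ(π) = ℤ[π]` -/
  opt : ∀ a b : ℚ, algebraMap ℚ D a + algebraMap ℚ D b * π ∈ R → (∃ m : ℤ, a = m) ∧ ∃ m : ℤ, b = m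
  /-- `π R = R π` -/
  π_norm : R.map (LinearMap.mulLeft ℤ π) = R.map (LinearMap.mulRight ℤ π)
  /-- `P_v = v R + π R` for `v ∣ N` -/
  P_eq : ∀ v : ℕ, v.Prime → v ∣ N →
    P v = R.map (LinearMap.mulLeft ℤ (v : D)) ⊔ R.map (LinearMap.mulLeft ℤ π)
  /-- an element anticommuting with `π` ... -/
  J : D
  J_ne : J ≠ 0
  J_star : star J = -J
  J_anti : J * π = -(π * J)
  /-- ... and a prime `r` with an ideal `𝔯 = (r, π - s)` of `ℤ[π]` such that `𝔯⁻¹ J` generates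
  the two-sided ideal `∏ P_v`, `v ∣ M / N`. -/
  r : ℕ
  s : ℤ
  r_prime : r.Prime
  r_not_dvd : ¬ r ∣ 2 * M
  rs : (r : ℤ) ∣ s ^ 2 + N
  /-- `J R = 𝔯 · ∏_{v ∣ M/N} P_v` where `𝔯 = r ℤ + (π - s) ℤ` (an ideal of `ℤ[π]`). -/
  J_norm : R.map (LinearMap.mulLeft ℤ J) =
    (Submodule.span ℤ {(r : D), π - (s : D)}) *
      (((M / N).primeFactors.toList.map P).foldr (· * ·) R)

end Fermat.Agent.H10.QO
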