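import Fermat.Agent.H10_P1LatOpen

/-!
# RR-lite, core: existence of acyclic twists (S25, job D3)
-/

set_option autoImplicit false
universe u v w
open Fermat.Agent.H25

namespace Fermat.Agent.H10.Lat

/-! ### Twists and sublattices -/

section Twist

variable {A : Type u} [CommRing A] {M : Type v} [AddCommGroup M] [Module A M] (L : P1Lat A M)

/-- the twist `(P, τ^m Q)` -/
noncomputable def twist (m : ℕ) : P1Lat A M where
  τ := L.τ
  P := L.P
  Q := L.Qm m
  τ_mem := L.τ_mem
  τ_symm_mem := fun x hx => by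
    rw [← QZ_natCast] at hx ⊢
    have h1 : L.τ.symm x = (L.τ ^ (-1 : ℤ)) x := by rw [zpow_neg, zpow_one]; rfl
    rw [h1]
    exact QZ_mono L (by omega) (zpow_mem_QZ L (j := -1) hx)
  exhaustP := L.exhaustP
  exhaustQ := fun x => by
    obtain ⟨n, hn⟩ := L.exhaustQ x
    refine ⟨n, ?_⟩
    have := Qm_mono L (Nat.zero_le m)
    rw [Qm_zero] at this
    exact this hn

@[simp] theorem twist_τ (m : ℕ) : (twist L m).τ = L.τ := rfl
@[simp] theorem twist_P (m : ℕ) : (twist L m).P = L.P := rfl
@[simp] theorem twist_Q (m : ℕ) : (twist L m).Q = L.Qm m := rfl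

theorem twist_Qm (m n : ℕ) : (twist L m).Qm n = L.Qm (m + n) := by
  ext x
  rw [mem_Qm, twist_Q, mem_Qm, mem_Qm, twist_τ, pow_add]
  exact Iff.rfl

theorem twist_K (m n : ℕ) : (twist L m).K n = L.K (m + n) := by
  rw [P1Lat.K, P1Lat.K, twist_Qm, twist_P]

/-- A sub-lattice cut out by a `τ`-stable submodule `N` of `M`. -/
noncomputable def subLat (N : Submodule A M) (h1 : ∀ x ∈ N, L.τ x ∈ N)
    (h2 : ∀ x ∈ N, L.τ.symm x ∈ N) : P1Lat A N where
  τ := L.τ.ofSubmodules N N (by
    apply le_antisymm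
    · rintro _ ⟨x, hx, rfl⟩; exact h1 x hx
    · intro x hx; exact ⟨L.τ.symm x, h2 x hx, L.τ.apply_symm_apply x⟩)
  P := L.P.submoduleOf N
  Q := L.Q.submoduleOf N
  τ_mem := fun x hx => L.τ_mem _ hx
  τ_symm_mem := fun x hx => L.τ_symm_mem _ hx
  exhaustP := fun x => by
    obtain ⟨n, hn⟩ := L.exhaustP x
    refine ⟨n, ?_⟩
    have key : ∀ (n : ℕ) (y : N), (((L.τ.ofSubmodules N N (by
      apply le_antisymm
      · rintro _ ⟨x, hx, rfl⟩; exact h1 x hx
      · intro x hx; exact ⟨L.τ.symm x, h2 x hx, L.τ.apply_symm_apply x⟩)) ^ n) y : M) =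
        (L.τ ^ n) y := by
      intro n
      induction n with
      | zero => intro y; simp
      | succ n ih =>
        intro y
        rw [pow_succ, pow_succ]
        exact ih _
    change (_ : M) ∈ L.P
    rw [Submodule.subtype_apply, key]; exact hn
  exhaustQ := fun x => by
    obtain ⟨n, hn⟩ := L.exhaustQ x
    refine ⟨n, ?_⟩
    have key : ∀ (n : ℕ) (y : N), (((L.τ.ofSubmodules N N (by
      apply le_antisymm
      · rintro _ ⟨x, hx, rfl⟩; exact h1 x hx
      · intro x hx; exact ⟨L.τ.symm x, h2 x hx, L.τ.apply_symm_apply x⟩)).symm ^ n) y : M) =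
        (L.τ.symm ^ n) y := by
      intro n
      induction n with
      | zero => intro y; simp
      | succ n ih =>
        intro y
        rw [pow_succ, pow_succ]
        exact ih _
    change (_ : M) ∈ L.Q
    rw [Submodule.subtype_apply, key]; exact hn

end Twist

/-! ### Points in general position -/

section Points

variable {K : Type u} [Field K]

/-- Points in general position for two finite dimensional spaces of the same dimension. -/
theorem exists_common_points {X : Type w} [Infinite X] :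
    ∀ (h : ℕ) {V : Type v} [AddCommGroup V] [Module K V] [FiniteDimensional K V]
      {V' : Type v} [AddCommGroup V'] [Module K V'] [FiniteDimensional K V']
      (ev : X → V →ₗ[K] K) (ev' : X → V' →ₗ[K] K)
      (_ : ∀ v ≠ 0, {x | ev x v = 0}.Finite) (_ : ∀ v ≠ 0, {x | ev' x v = 0}.Finite)
      (_ : Module.finrank K V = h) (_ : Module.finrank K V' = h) (S₀ : Finset X),
      ∃ S : Finset X, Disjoint S S₀ ∧ S.card = h ∧ (∀ v, (∀ x ∈ S, ev x v = 0) → v = 0) ∧
        (∀ v, (∀ x ∈ S, ev' x v = 0) → v = 0) := by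
  classical
  intro h
  induction h with
  | zero =>
    intro V _ _ _ V' _ _ _ ev ev' _ _ h1 h2 S₀
    refine ⟨∅, by simp, by simp, ?_, ?_⟩
    · intro v _
      have := Module.finrank_zero_iff.mp h1
      exact Subsingleton.elim _ _
    · intro v _
      have := Module.finrank_zero_iff.mp h2
      exact Subsingleton.elim _ _
  | succ h ih =>
    intro V _ _ _ V' _ _ _ ev ev' he he' h1 h2 S₀
    have hV : Nontrivial V := Module.nontrivial_of_finrank_pos (R := K) (by omega)
    have hV' : Nontrivial V' := Module.nontrivial_of_finrank_pos (R := K) (by omega)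
    obtain ⟨v, hv⟩ := exists_ne (0 : V)
    obtain ⟨v', hv'⟩ := exists_ne (0 : V')
    obtain ⟨x, hx⟩ := ((((he v hv).union (he' v' hv')).union S₀.finite_toSet).exists_notMem)
    simp only [Set.mem_union, Set.mem_setOf_eq, Finset.mem_coe, not_or] at hx
    obtain ⟨⟨hxv, hxv'⟩, hxS⟩ := hx
    have hsurj : Function.Surjective (ev x) :=
      LinearMap.surjective (fun h0 => hxv (by rw [h0]; rfl))
    have hsurj' : Function.Surjective (ev' x) :=
      LinearMap.surjective (fun h0 => hxv' (by rw [h0]; rfl))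
    have hd : Module.finrank K (LinearMap.ker (ev x)) = h := by
      have := LinearMap.finrank_range_add_finrank_ker (ev x)
      rw [LinearMap.range_eq_top.mpr hsurj, finrank_top, Module.finrank_self] at this
      omega
    have hd' : Module.finrank K (LinearMap.ker (ev' x)) = h := by
      have := LinearMap.finrank_range_add_finrank_ker (ev' x)
      rw [LinearMap.range_eq_top.mpr hsurj', finrank_top, Module.finrank_self] at this
      omega
    obtain ⟨S, hS, hcard, hSv, hSv'⟩ := ih
      (fun y => (ev y) ∘ₗ (LinearMap.ker (ev x)).subtype)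
      (fun y => (ev' y) ∘ₗ (LinearMap.ker (ev' x)).subtype)
      (fun w hw => he w (fun h0 => hw (Subtype.ext h0)))
      (fun w hw => he' w (fun h0 => hw (Subtype.ext h0))) hd hd' (insert x S₀)
    rw [Finset.disjoint_insert_right] at hS
    refine ⟨insert x S, ?_, ?_, ?_, ?_⟩
    · rw [Finset.disjoint_insert_left]; exact ⟨hxS, hS.2⟩
    · rw [Finset.card_insert_of_notMem hS.1, hcard]
    · intro w hw
      have h3 := hSv ⟨w, hw x (Finset.mem_insert_self _ _)⟩
        (fun y hy => hw y (Finset.mem_insert_of_mem hy))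
      exact congrArg Subtype.val h3
    · intro w hw
      have h3 := hSv' ⟨w, hw x (Finset.mem_insert_self _ _)⟩
        (fun y hy => hw y (Finset.mem_insert_of_mem hy))
      exact congrArg Subtype.val h3

/-- From injectivity to bijectivity. -/
theorem bijective_of_card_eq {X : Type w} {V : Type v} [AddCommGroup V] [Module K V]
    [FiniteDimensional K V] (ev : X → V →ₗ[K] K) (S : Finset X)
    (hS : ∀ v, (∀ x ∈ S, ev x v = 0) → v = 0) (hcard : S.card = Module.finrank K V) :
    Function.Bijective (LinearMap.pi (fun x : S => ev x)) := by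
  have hinj : Function.Injective (LinearMap.pi (fun x : S => ev x)) := by
    rw [← LinearMap.ker_eq_bot, LinearMap.ker_eq_bot']
    intro v hv
    exact hS v (fun x hx => congrFun hv ⟨x, hx⟩)
  refine ⟨hinj, ?_⟩
  rw [← LinearMap.injective_iff_surjective_of_finrank_eq_finrank]
  · exact hinj
  · rw [Module.finrank_fintype_fun_eq_card, Fintype.card_coe, hcard]

end Points

/-! ### Acyclic twists -/

section Acyclic

variable {K : Type u} [Field K] {M : Type v} [AddCommGroup M] [Module K M] (L : P1Lat K M)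
  {X : Type w} (ev : X → M →ₗ[K] K)

/-- the submodule of `M` of elements vanishing at the points of `S` -/
def vanish (S : Finset X) : Submodule K M := ⨅ x ∈ S, LinearMap.ker (ev x)

theorem mem_vanish {S : Finset X} {v : M} : v ∈ vanish ev S ↔ ∀ x ∈ S, ev x v = 0 := by
  simp [vanish, Submodule.mem_iInf]

/-- `P_S ⊕ τ^m Q_S = M_S` if `K(m) → K^S` is bijective and `P + τ^m Q = M`. -/
theorem acyclic_of_bijective {m : ℕ} (hm : L.P ⊔ L.Qm m = ⊤) (S : Finset X)
    (hS : Function.Bijective (LinearMap.pi (fun x : S => (ev x) ∘ₗ (L.K m).subtype))) :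
    (∀ v ∈ vanish ev S, v ∈ L.P → v ∈ L.Qm m → v = 0) ∧
    (∀ v ∈ vanish ev S, ∃ p ∈ L.P, ∃ q ∈ L.Qm m, p ∈ vanish ev S ∧ q ∈ vanish ev S ∧
      v = p + q) := by
  constructor
  · intro v hv hvP hvQ
    have h1 : (⟨v, hvP, hvQ⟩ : L.K m) = 0 := by
      apply hS.1
      rw [map_zero]
      funext x
      exact (mem_vanish ev).mp hv x x.2
    exact congrArg Subtype.val h1
  · intro v hv
    have hx : v ∈ L.P ⊔ L.Qm m := by rw [hm]; trivial
    obtain ⟨p, hp, q, hq, hpq⟩ := Submodule.mem_sup.mp hx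
    obtain ⟨w, hw⟩ := hS.2 (fun x : S => ev x p)
    have hw' : ∀ x ∈ S, ev x (w : M) = ev x p := fun x hx => congrFun hw ⟨x, hx⟩
    refine ⟨p - w, Submodule.sub_mem _ hp w.2.1, q + w, Submodule.add_mem _ hq w.2.2, ?_, ?_, ?_⟩
    · rw [mem_vanish]
      intro x hx
      rw [map_sub, hw' x hx, sub_self]
    · rw [mem_vanish]
      intro x hx
      have h1 := (mem_vanish ev).mp hv x hx
      rw [← hpq, map_add] at h1
      rw [map_add, hw' x hx, add_comm]; exact h1
    · rw [← hpq]; abel

/-- The sublattice of `E(m)` of sections vanishing at `S`. -/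
noncomputable def vanishLat (c : X → Kˣ) (hc : ∀ x v, ev x (L.τ v) = c x * ev x v) (m : ℕ)
    (S : Finset X) : P1Lat K (vanish ev S) :=
  subLat (twist L m) (vanish ev S)
    (fun v hv => by
      rw [mem_vanish] at hv ⊢
      intro x hx
      rw [twist_τ, hc, hv x hx, mul_zero])
    (fun v hv => by
      rw [mem_vanish] at hv ⊢
      intro x hx
      rw [twist_τ]
      have h1 := hc x (L.τ.symm v)
      rw [L.τ.apply_symm_apply, hv x hx] at h1
      exact ((mul_eq_zero.mp h1.symm).resolve_left (c x).ne_zero))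

theorem vanishLat_isCompl (c : X → Kˣ) (hc : ∀ x v, ev x (L.τ v) = c x * ev x v) {m : ℕ}
    (hm : L.P ⊔ L.Qm m = ⊤) (S : Finset X)
    (hS : Function.Bijective (LinearMap.pi (fun x : S => (ev x) ∘ₗ (L.K m).subtype))) :
    IsCompl (vanishLat L ev c hc m S).P (vanishLat L ev c hc m S).Q := by
  obtain ⟨h1, h2⟩ := acyclic_of_bijective L ev hm S hS
  constructor
  · rw [disjoint_iff, eq_bot_iff]
    rintro ⟨v, hv⟩ ⟨hvP, hvQ⟩
    exact Subtype.ext (h1 v hv hvP hvQ)
  · rw [codisjoint_iff, eq_top_iff]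
    rintro ⟨v, hv⟩ -
    obtain ⟨p, hp, q, hq, hpS, hqS, hpq⟩ := h2 v hv
    refine Submodule.mem_sup.mpr ⟨⟨p, hpS⟩, hp, ⟨q, hqS⟩, hq, Subtype.ext hpq.symm⟩

end Acyclic

end Fermat.Agent.H10.Lat
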