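import Fermat.Agent.H10_RRPoints

/-!
# RR-lite for two-chart curves, base changed to a field extension (S25, job D3)
-/

set_option autoImplicit false
set_option linter.unusedSectionVars false
universe u v w
open Fermat.Agent.H25 TensorProduct

namespace Fermat.Agent.H10.Lat

section

variable {k : Type*} [Field k] {K : Type*} [Field K] [Algebra k K]
  {B0 B01 : Type*} [CommRing B0] [CommRing B01] [Algebra k B0]
  [Algebra k B01] [Algebra B0 B01] [IsScalarTower k B0 B01]
  {R0 R01 : Type*} [CommRing R0] [CommRing R01] [Algebra k R0] [Algebra K R0]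
  [Algebra B0 R0] [IsScalarTower k K R0] [IsScalarTower k B0 R0] [Algebra.IsPushout k K B0 R0]
  [Algebra k R01] [Algebra K R01]
  [Algebra B01 R01] [IsScalarTower k K R01] [IsScalarTower k B01 R01]
  [Algebra.IsPushout k K B01 R01] [Algebra R0 R01] [IsScalarTower K R0 R01]

/-- the ideal `I_S R0` cut out by the points of `S` -/
theorem prod_ker_pt0 (hcomm : ∀ b : B0, algebraMap R0 R01 (algebraMap B0 R0 b) =
    algebraMap B01 R01 (algebraMap B0 B01 b)) (S : Finset (B01 →ₐ[k] k)) :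
    (∏ x ∈ S, RingHom.ker ((bcPt K R01 x).comp (IsScalarTower.toAlgHom K R0 R01))) =
      Ideal.map (algebraMap B0 R0) (∏ x ∈ S, RingHom.ker (resPt B0 x)) := by
  have h := map_prod (Ideal.mapHom (algebraMap B0 R0)) (fun x => RingHom.ker (resPt B0 x)) S
  refine Eq.trans ?_ h.symm
  refine Finset.prod_congr rfl fun x _ => ?_
  rw [pt0_bcPt hcomm, ker_bcPt]
  rfl

theorem prod_ker_bcPt (S : Finset (B01 →ₐ[k] k)) :
    (∏ x ∈ S, RingHom.ker (bcPt K R01 x)) =
      Ideal.map (algebraMap B01 R01) (∏ x ∈ S, RingHom.ker x) := by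
  have h := map_prod (Ideal.mapHom (algebraMap B01 R01)) (fun x => RingHom.ker x) S
  refine Eq.trans ?_ h.symm
  refine Finset.prod_congr rfl fun x _ => ?_
  rw [ker_bcPt]
  rfl

end

section Curve

variable {k : Type*} [Field k] [IsAlgClosed k] {K : Type u} [Field K] [Algebra k K]
  {B0 B1 B01 : Type*} [CommRing B0] [IsDomain B0] [CommRing B1] [CommRing B01]
  [Algebra k B0] [Algebra k B1] [Algebra k B01] [Algebra B0 B01] [Algebra B1 B01]
  [IsScalarTower k B0 B01] [IsScalarTower k B1 B01]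
  {t : B0} {s : B1} [IsLocalization.Away t B01] [IsLocalization.Away s B01]
  (hts : algebraMap B0 B01 t * algebraMap B1 B01 s = 1)
  {n : ℕ} {b0 : Fin n → B0} {b1 : Fin n → B1}
  (hb0 : Function.Bijective
    (fun f : Fin n → Polynomial k => ∑ i, Polynomial.aeval t (f i) * b0 i))
  (hb1 : Function.Bijective
    (fun f : Fin n → Polynomial k => ∑ i, Polynomial.aeval s (f i) * b1 i))
  {R0 R1 R01 : Type u} [CommRing R0] [CommRing R1] [CommRing R01]
  [Algebra k R0] [Algebra k R1] [Algebra k R01] [Algebra K R0] [Algebra K R1] [Algebra K R01]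
  [Algebra B0 R0] [Algebra B1 R1] [Algebra B01 R01]
  [IsScalarTower k K R0] [IsScalarTower k B0 R0] [Algebra.IsPushout k K B0 R0]
  [IsScalarTower k K R1] [IsScalarTower k B1 R1] [Algebra.IsPushout k K B1 R1]
  [IsScalarTower k K R01] [IsScalarTower k B01 R01] [Algebra.IsPushout k K B01 R01]
  [Algebra R0 R01] [IsScalarTower K R0 R01] [Algebra R1 R01] [IsScalarTower K R1 R01]
  (hcomm0 : ∀ b : B0, algebraMap R0 R01 (algebraMap B0 R0 b) =
    algebraMap B01 R01 (algebraMap B0 B01 b))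
  (hcomm1 : ∀ b : B1, algebraMap R1 R01 (algebraMap B1 R1 b) =
    algebraMap B01 R01 (algebraMap B1 B01 b))
  {M : Type v} [AddCommGroup M] [Module K M] [Module R0 M] [Module R1 M] [Module R01 M]
  [IsScalarTower K R0 M] [IsScalarTower K R1 M] [IsScalarTower K R01 M]
  [IsScalarTower R0 R01 M] [IsScalarTower R1 R01 M]
  {P : Submodule R0 M} {Q : Submodule R1 M}
  (hP : ∀ x : M, ∃ n : ℕ, (algebraMap B0 R0 t) ^ n • x ∈ P)
  (hQ : ∀ x : M, ∃ n : ℕ, (algebraMap B1 R1 s) ^ n • x ∈ Q)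

include hts hcomm0 hcomm1 in
theorem hts_bc : algebraMap R0 R01 (algebraMap B0 R0 t) * algebraMap R1 R01 (algebraMap B1 R1 s) =
    1 := by
  rw [hcomm0, hcomm1, ← map_mul, hts, map_one]

include hb0 hb1 in
/-- **RR-lite for two-chart curves**: simultaneous acyclic twists. -/
theorem exists_isAcyclicTwist_curve
    [Module.Invertible R01 M] [Module.Invertible R0 P] [Module.Invertible R1 Q]
    {M' : Type v} [AddCommGroup M'] [Module K M'] [Module R0 M'] [Module R1 M'] [Module R01 M']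
    [IsScalarTower K R0 M'] [IsScalarTower K R1 M'] [IsScalarTower K R01 M']
    [IsScalarTower R0 R01 M'] [IsScalarTower R1 R01 M']
    {P' : Submodule R0 M'} {Q' : Submodule R1 M'}
    (hP' : ∀ x : M', ∃ n : ℕ, (algebraMap B0 R0 t) ^ n • x ∈ P')
    (hQ' : ∀ x : M', ∃ n : ℕ, (algebraMap B1 R1 s) ^ n • x ∈ Q')
    [Module.Invertible R01 M'] [Module.Invertible R0 P'] [Module.Invertible R1 Q']
    (hχ : chiLat (latOf K (R01 := R01) (hts_bc hts hcomm0 hcomm1) P Q hP hQ) =
      chiLat (latOf K (R01 := R01) (hts_bc hts hcomm0 hcomm1) P' Q' hP' hQ')) :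
    ∃ m₀ : ℕ, ∀ m ≥ m₀, ∀ S₀ : Finset (B01 →ₐ[k] k), ∃ S : Finset (B01 →ₐ[k] k), Disjoint S S₀ ∧
      (S.card : ℤ) =
        chiLat (latOf K (R01 := R01) (hts_bc hts hcomm0 hcomm1) P Q hP hQ) + m * n ∧
      IsAcyclicTwist K (bcPt K R01) P Q (algebraMap B1 R1 s) m S ∧
      IsAcyclicTwist K (bcPt K R01) P' Q' (algebraMap B1 R1 s) m S := by
  have hinf : Infinite (B01 →ₐ[k] k) := infinite_points hb0
  refine exists_isAcyclicTwist (K := K) (R0 := R0) (R1 := R1) (R01 := R01) (pt := bcPt K R01)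
    (hts_bc hts hcomm0 hcomm1) hP hQ ?_ ?_ ?_ (bijective_bc (K := K) (R0 := R0) hb0)
    (bijective_bc (K := K) (R0 := R1) hb1) hP' hQ' hχ
  · intro f hf
    exact bcPt_finite (fun f hf => finite_zeros_away hb0 hf) hf
  · exact pt0_injective t hcomm0
  · exact pt0_injective s hcomm1

end Curve

end Fermat.Agent.H10.Lat
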