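import Fermat.Agent.H10_RRInv

/-!
# Dimension counts on a two-chart curve (S25, job D3)
-/

set_option autoImplicit false
universe u v w
open Fermat.Agent.H25 TensorProduct

namespace Fermat.Agent.H10.Lat

section Quot

variable {K : Type u} [Field K] {R : Type u} [CommRing R] [Algebra K R] {t : R} {n : ℕ}
  {b : Fin n → R}

/-- coordinates with respect to a basis over `K[t]` -/
theorem exists_coordinates' (hb : Function.Bijective
    (fun f : Fin n → Polynomial K => ∑ i, Polynomial.aeval t (f i) * b i)) :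
    ∃ c : Fin n → (R →ₗ[K] Polynomial K), (∀ i x, c i (t * x) = Polynomial.X * c i x) ∧
      (∀ x, x = ∑ i, Polynomial.aeval t (c i x) * b i) ∧
      (∀ (f : Fin n → Polynomial K) i, c i (∑ i, Polynomial.aeval t (f i) * b i) = f i) := by
  obtain ⟨c, h1, h2⟩ := exists_coordinates hb
  refine ⟨c, h1, h2, fun f i => ?_⟩
  have h3 := hb.1 (a₁ := fun i => c i (∑ i, Polynomial.aeval t (f i) * b i)) (a₂ := f)
    (h2 (∑ i, Polynomial.aeval t (f i) * b i)).symm
  exact congrFun h3 i

theorem finrank_quot_pow (hb : Function.Bijective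
    (fun f : Fin n → Polynomial K => ∑ i, Polynomial.aeval t (f i) * b i)) (m : ℕ) :
    Module.Finite K (R ⧸ Ideal.span {t ^ m}) ∧
      Module.finrank K (R ⧸ Ideal.span {t ^ m}) = m * n := by
  obtain ⟨c, h1, h2, h3⟩ := exists_coordinates' hb
  have h1' : ∀ (k : ℕ) i x, c i (t ^ k * x) = Polynomial.X ^ k * c i x := by
    intro k
    induction k with
    | zero => intro i x; rw [pow_zero, one_mul, pow_zero, one_mul]
    | succ k ih => intro i x; rw [pow_succ', mul_assoc, h1, ih, pow_succ', mul_assoc]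
  let π : R →ₗ[K] (Fin n → Fin m → K) :=
    LinearMap.pi fun i => LinearMap.pi fun j => Polynomial.lcoeff K j ∘ₗ c i
  have hπ : ∀ x i (j : Fin m), π x i j = (c i x).coeff j := fun x i j => rfl
  have hsurj : Function.Surjective π := by
    intro g
    refine ⟨∑ i, Polynomial.aeval t (∑ j : Fin m, Polynomial.monomial (j : ℕ) (g i j)) * b i, ?_⟩
    funext i j
    rw [hπ, h3 (fun i => ∑ j : Fin m, Polynomial.monomial (j : ℕ) (g i j)),
      Polynomial.finsetSum_coeff]
    rw [Finset.sum_eq_single j]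
    · rw [Polynomial.coeff_monomial, if_pos rfl]
    · intro j' _ hj'
      rw [Polynomial.coeff_monomial, if_neg (fun h => hj' (Fin.ext h))]
    · simp
  have hker : LinearMap.ker π = (Ideal.span {t ^ m}).restrictScalars K := by
    ext x
    rw [LinearMap.mem_ker, Submodule.restrictScalars_mem, Ideal.mem_span_singleton]
    constructor
    · intro hx
      have h4 : ∀ i, ∃ q, c i x = Polynomial.X ^ m * q := by
        intro i
        have : (Polynomial.X ^ m : Polynomial K) ∣ c i x := by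
          rw [Polynomial.X_pow_dvd_iff]
          intro d hd
          have := congrFun (congrFun hx i) ⟨d, hd⟩
          exact this
        exact this
      choose q hq using h4
      refine ⟨∑ i, Polynomial.aeval t (q i) * b i, ?_⟩
      conv_lhs => rw [h2 x]
      rw [Finset.mul_sum]
      refine Finset.sum_congr rfl fun i _ => ?_
      rw [hq, map_mul, map_pow, Polynomial.aeval_X, mul_assoc]
    · rintro ⟨y, rfl⟩
      funext i j
      rw [hπ, h1', Polynomial.coeff_X_pow_mul', if_neg (by have := j.2; omega)]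
      rfl
  let e : (R ⧸ Ideal.span {t ^ m}) ≃ₗ[K] (Fin n → Fin m → K) :=
    (Submodule.quotEquivOfEq _ _ hker.symm : (R ⧸ (Ideal.span {t ^ m}).restrictScalars K) ≃ₗ[K] _)
      ≪≫ₗ (LinearMap.quotKerEquivOfSurjective π hsurj)
  refine ⟨Module.Finite.equiv e.symm, ?_⟩
  rw [e.finrank_eq, Module.finrank_pi_fintype]
  simp [mul_comm]

end Quot

section Fq

variable {K : Type u} [Field K] {R : Type u} [CommRing R] [Algebra K R]
  {Q : Type v} [AddCommGroup Q] [Module R Q] [Module K Q] [IsScalarTower K R Q]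
  [Module.Invertible R Q]

/-- `Q / I Q` has the same dimension as `R / I` for `Q` invertible and `R / I` finite. -/
theorem finrank_quot_smul (I : Ideal R) [hfin : Module.Finite K (R ⧸ I)] :
    Module.Finite K (Q ⧸ (I • (⊤ : Submodule R Q))) ∧
      Module.finrank K (Q ⧸ (I • (⊤ : Submodule R Q))) = Module.finrank K (R ⧸ I) := by
  have : IsArtinianRing (R ⧸ I) := IsArtinianRing.of_finite K (R ⧸ I)
  have hinv : Module.Invertible (R ⧸ I) ((R ⧸ I) ⊗[R] Q) := inferInstance
  have hPic : Subsingleton (CommRing.Pic (R ⧸ I)) := inferInstance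
  have hfree : Module.Free (R ⧸ I) ((R ⧸ I) ⊗[R] Q) := inferInstance
  obtain ⟨e⟩ := Module.Invertible.free_iff_linearEquiv.mp hfree
  have e1 : (Q ⧸ (I • (⊤ : Submodule R Q))) ≃ₗ[R] ((R ⧸ I) ⊗[R] Q) :=
    (TensorProduct.quotTensorEquivQuotSMul Q I).symm
  have e2 : (Q ⧸ (I • (⊤ : Submodule R Q))) ≃ₗ[R] (R ⧸ I) :=
    e1 ≪≫ₗ (e.restrictScalars R)
  have e3 : (Q ⧸ (I • (⊤ : Submodule R Q))) ≃ₗ[K] (R ⧸ I) := e2.restrictScalars K
  exact ⟨Module.Finite.equiv e3.symm, e3.finrank_eq⟩

end Fq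

section LatDim

variable {K : Type u} [Field K] {R0 R1 R01 : Type u} [CommRing R0] [CommRing R1] [CommRing R01]
  [Algebra K R0] [Algebra K R1] [Algebra R0 R01] [Algebra R1 R01]
  {M : Type v} [AddCommGroup M] [Module K M] [Module R0 M] [Module R1 M] [Module R01 M]
  [IsScalarTower K R0 M] [IsScalarTower K R1 M]
  [IsScalarTower R0 R01 M] [IsScalarTower R1 R01 M]
  {t : R0} {s : R1} (hts : algebraMap R0 R01 t * algebraMap R1 R01 s = 1)
  {P : Submodule R0 M} {Q : Submodule R1 M} {hP : ∀ x : M, ∃ n : ℕ, t ^ n • x ∈ P}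
  {hQ : ∀ x : M, ∃ n : ℕ, s ^ n • x ∈ Q}

theorem mem_latOf_Qm {m : ℕ} {x : M} :
    x ∈ (latOf K (R01 := R01) hts P Q hP hQ).Qm m ↔ s ^ m • x ∈ Q := by
  rw [mem_Qm, latOf_τ_symm_pow]
  exact Iff.rfl

theorem pow_smul_pow_smul (m : ℕ) (x : M) (hts : algebraMap R0 R01 t * algebraMap R1 R01 s = 1) :
    s ^ m • (t ^ m • x) = x := by
  induction m generalizing x with
  | zero => simp
  | succ m ih =>
    rw [pow_succ, pow_succ', mul_smul, mul_smul, smul_smul_cancel' (R01 := R01) hts, ih]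

theorem pow_smul_pow_smul' (m : ℕ) (x : M) (hts : algebraMap R0 R01 t * algebraMap R1 R01 s = 1) :
    t ^ m • (s ^ m • x) = x := by
  induction m generalizing x with
  | zero => simp
  | succ m ih =>
    rw [pow_succ, pow_succ', mul_smul, mul_smul, smul_smul_cancel (R01 := R01) hts, ih]

/-- `τ^m Q ≃ Q`. -/
noncomputable def qmEquiv (m : ℕ) :
    (latOf K (R01 := R01) hts P Q hP hQ).Qm m ≃ₗ[K] Q where
  toFun x := ⟨s ^ m • (x : M), (mem_latOf_Qm hts).mp x.2⟩
  map_add' x y := Subtype.ext (smul_add _ _ _)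
  map_smul' a x := Subtype.ext (by
    change s ^ m • (a • (x : M)) = a • (s ^ m • (x : M))
    rw [← algebraMap_smul R1 a (x : M), ← algebraMap_smul R1 a (s ^ m • (x : M)), smul_smul,
      smul_smul, mul_comm])
  invFun y := ⟨t ^ m • (y : M), (mem_latOf_Qm hts).mpr (by
    rw [pow_smul_pow_smul m _ hts]; exact y.2)⟩
  left_inv x := Subtype.ext (pow_smul_pow_smul' m _ hts)
  right_inv y := Subtype.ext (pow_smul_pow_smul m _ hts)

theorem finrank_Fq [Module.Invertible R1 Q] {n : ℕ} {b : Fin n → R1}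
    (hb : Function.Bijective
      (fun f : Fin n → Polynomial K => ∑ i, Polynomial.aeval s (f i) * b i)) (m : ℕ) :
    Module.Finite K (Fq (latOf K (R01 := R01) hts P Q hP hQ) m) ∧
      Module.finrank K (Fq (latOf K (R01 := R01) hts P Q hP hQ) m) = m * n := by
  obtain ⟨h1, h2⟩ := finrank_quot_pow hb m
  have h3 := finrank_quot_smul (K := K) (Q := Q) (Ideal.span {s ^ m})
  let e0 := qmEquiv (K := K) hts (P := P) (Q := Q) (hP := hP) (hQ := hQ) m
  let L := latOf K (R01 := R01) hts P Q hP hQ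
  have hmap : (L.Q.submoduleOf (L.Qm m)).map (e0 : L.Qm m →ₗ[K] Q) =
      ((Ideal.span {s ^ m} : Ideal R1) • (⊤ : Submodule R1 Q)).restrictScalars K := by
    ext y
    rw [Submodule.restrictScalars_mem, Submodule.ideal_span_singleton_smul,
      Submodule.mem_smul_pointwise_iff_exists]
    constructor
    · rintro ⟨x, hx, rfl⟩
      exact ⟨⟨x, hx⟩, trivial, rfl⟩
    · rintro ⟨z, -, rfl⟩
      refine ⟨⟨z, ?_⟩, z.2, rfl⟩
      rw [mem_latOf_Qm]
      exact Q.smul_mem _ z.2
  let e : Fq L m ≃ₗ[K] (Q ⧸ ((Ideal.span {s ^ m} : Ideal R1) • (⊤ : Submodule R1 Q))) :=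
    (Submodule.Quotient.equiv _ _ e0 hmap :
      _ ≃ₗ[K] (Q ⧸ ((Ideal.span {s ^ m} : Ideal R1) • (⊤ : Submodule R1 Q)).restrictScalars K))
  have := h3.1
  exact ⟨Module.Finite.equiv e.symm, by rw [e.finrank_eq, h3.2, h2]⟩

end LatDim

end Fermat.Agent.H10.Lat
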