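import Fermat.Agent.H10_LatOf

/-!
# Invertible modules: elementary facts (S25, job D3)
-/

set_option autoImplicit false
universe u v w
open Fermat.Agent.H25 TensorProduct

namespace Fermat.Agent.H10.Inv

section Basic

variable {R : Type u} [CommRing R] {P : Type v} [AddCommGroup P] [Module R P]
  [Module.Invertible R P]

/-- `1 = ∑ φ_i(m_i)`. -/
theorem exists_sum_eq_one : ∃ (r : ℕ) (φ : Fin r → Module.Dual R P) (m : Fin r → P),
    ∑ i, φ i (m i) = 1 := by
  obtain ⟨z, hz⟩ := (Module.Invertible.bijective (R := R) (M := P)).2 1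
  obtain ⟨S, hS⟩ := TensorProduct.exists_finset z
  classical
  let e := S.equivFin.symm
  refine ⟨S.card, fun i => (e i).1.1, fun i => (e i).1.2, ?_⟩
  rw [Equiv.sum_comp e (fun i => i.1.1 i.1.2), ← hz, hS, map_sum, Finset.sum_coe_sort S
    (fun i => i.1 i.2)]
  exact Finset.sum_congr rfl fun i _ => (contractLeft_apply _ _).symm

/-- `φ(x) y = φ(y) x`. -/
theorem dual_smul_comm (φ : Module.Dual R P) (x y : P) : φ x • y = φ y • x := by
  have h1 : x ⊗ₜ[R] y = y ⊗ₜ[R] x := Module.Invertible.tmul_comm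
  have h2 := congrArg (TensorProduct.lift ((LinearMap.lsmul R P) ∘ₗ φ)) h1
  simpa using h2

/-- a functional not vanishing at a point -/
theorem exists_dual_ne_zero {K : Type w} [Field K] (y : R →+* K) :
    ∃ (φ : Module.Dual R P) (m : P), y (φ m) ≠ 0 := by
  by_contra hcon
  push Not at hcon
  obtain ⟨r, φ, m, h⟩ := exists_sum_eq_one (R := R) (P := P)
  have := congrArg y h
  rw [map_sum, map_one] at this
  rw [Finset.sum_eq_zero (fun i _ => hcon _ _)] at this
  exact zero_ne_one this

/-- nonzero elements are detected by functionals -/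
theorem exists_dual_apply_ne_zero {m : P} (hm : m ≠ 0) : ∃ φ : Module.Dual R P, φ m ≠ 0 := by
  by_contra hcon
  push Not at hcon
  obtain ⟨r, p, φ, h⟩ := Lat.exists_dual_basis_fin (R := R) (P := P)
  apply hm
  rw [h m]
  exact Finset.sum_eq_zero fun i _ => by rw [hcon, zero_smul]

end Basic

section Ev

variable {K : Type w} [Field K] {R : Type u} [CommRing R] [Algebra K R] {P : Type v}
  [AddCommGroup P] [Module R P] [Module K P] [IsScalarTower K R P] [Module.Invertible R P]

/-- existence of an evaluation functional at a `K`-point -/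
theorem exists_ev (y : R →ₐ[K] K) : ∃ ev : P →ₗ[K] K, (∀ (r : R) p, ev (r • p) = y r * ev p) ∧
    ∃ p, ev p ≠ 0 := by
  obtain ⟨φ, m, hm⟩ := exists_dual_ne_zero (R := R) (P := P) (y : R →+* K)
  refine ⟨y.toLinearMap ∘ₗ φ.restrictScalars K, fun r p => ?_, m, hm⟩
  change y (φ (r • p)) = y r * y (φ p)
  rw [map_smul, smul_eq_mul, map_mul]

/-- the kernel of a nonzero evaluation functional at the point `y` is `(ker y) • P` -/
theorem mem_ker_smul_of_ev_eq_zero (y : R →ₐ[K] K) (ev : P → K)
    (hev : ∀ (r : R) p, ev (r • p) = y r * ev p) (h0 : ∃ p, ev p ≠ 0) {p : P} (hp : ev p = 0) :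
    p ∈ (RingHom.ker y) • (⊤ : Submodule R P) := by
  obtain ⟨p0, hp0⟩ := h0
  obtain ⟨φ, m, hm⟩ := exists_dual_ne_zero (R := R) (P := P) (y : R →+* K)
  -- `φ p0 ≠ 0` at `y`
  have h1 : y (φ m) * ev p0 = y (φ p0) * ev m := by
    rw [← hev, ← hev, dual_smul_comm]
  have h2 : y (φ p0) ≠ 0 := by
    intro h
    rw [h, zero_mul] at h1
    exact (mul_ne_zero hm hp0) h1
  have h3 : y (φ p) = 0 := by
    have : y (φ p0) * ev p = y (φ p) * ev p0 := by rw [← hev, ← hev, dual_smul_comm]
    rw [hp, mul_zero] at this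
    exact (mul_eq_zero.mp this.symm).resolve_right hp0
  have h4 : (algebraMap K R (y (φ p0))) • p = φ p • p0 - (φ p0 - algebraMap K R (y (φ p0))) • p := by
    rw [sub_smul, dual_smul_comm φ p p0]
    abel
  have h5 : φ p ∈ RingHom.ker y := h3
  have h6 : φ p0 - algebraMap K R (y (φ p0)) ∈ RingHom.ker y := by
    rw [RingHom.mem_ker, map_sub, AlgHom.commutes]
    exact sub_self _
  have h7 : (algebraMap K R (y (φ p0))) • p ∈ (RingHom.ker y) • (⊤ : Submodule R P) := by
    rw [h4]
    exact Submodule.sub_mem _ (Submodule.smul_mem_smul h5 trivial)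
      (Submodule.smul_mem_smul h6 trivial)
  have h8 := Submodule.smul_mem _ (algebraMap K R (y (φ p0))⁻¹) h7
  rwa [smul_smul, ← map_mul, inv_mul_cancel₀ h2, map_one, one_smul] at h8

theorem ev_eq_zero_of_mem (y : R →ₐ[K] K) (ev : P →ₗ[K] K)
    (hev : ∀ (r : R) p, ev (r • p) = y r * ev p) {p : P}
    (hp : p ∈ (RingHom.ker y) • (⊤ : Submodule R P)) : ev p = 0 := by
  induction hp using Submodule.smul_induction_on' with
  | smul r hr n hn => rw [hev, show y r = 0 from hr, zero_mul]
  | add x hx y hy h1 h2 => rw [map_add, h1, h2, add_zero]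

/-- zeros of `m` are zeros of `φ m` -/
theorem zero_of_ev_eq_zero (y : R →ₐ[K] K) (ev : P → K)
    (hev : ∀ (r : R) p, ev (r • p) = y r * ev p) (h0 : ∃ p, ev p ≠ 0) {p : P} (hp : ev p = 0)
    (φ : Module.Dual R P) : y (φ p) = 0 := by
  obtain ⟨p0, hp0⟩ := h0
  have : y (φ p0) * ev p = y (φ p) * ev p0 := by rw [← hev, ← hev, dual_smul_comm]
  rw [hp, mul_zero] at this
  exact (mul_eq_zero.mp this.symm).resolve_right hp0

end Ev

end Fermat.Agent.H10.Inv
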