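import Fermat.Agent.H10_RRDim

/-!
# Existence of acyclic twists (RR-lite) (S25, job D3)
-/

set_option autoImplicit false
set_option linter.unusedSectionVars false
universe u v w
open Fermat.Agent.H25 TensorProduct

namespace Fermat.Agent.H10.Lat

/-! ### Products of comaximal ideals -/

section Coprime

variable {R : Type u} [CommRing R]

theorem mem_mul_smul_top {P : Type v} [AddCommGroup P] [Module R P] {I J : Ideal R}
    (h : IsCoprime I J) (p : P) :
    p ∈ (I * J) • (⊤ : Submodule R P) ↔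
      p ∈ I • (⊤ : Submodule R P) ∧ p ∈ J • (⊤ : Submodule R P) := by
  constructor
  · intro hp
    have e1 : I * J ≤ I := Ideal.mul_le_left
    have e2 : I * J ≤ J := Ideal.mul_le_right
    exact ⟨(Submodule.smul_mono_left e1 : (I * J) • (⊤ : Submodule R P) ≤ _) hp,
      (Submodule.smul_mono_left e2 : (I * J) • (⊤ : Submodule R P) ≤ _) hp⟩
  · rintro ⟨h1, h2⟩
    obtain ⟨i, hi, j, hj, hij⟩ := Ideal.isCoprime_iff_exists.mp h
    have h3 : p = i • p + j • p := by rw [← add_smul, hij, one_smul]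
    rw [h3]
    refine Submodule.add_mem _ ?_ ?_
    · have e1 : (I * J) • (⊤ : Submodule R P) = I • (J • (⊤ : Submodule R P)) :=
        Submodule.mul_smul I J ⊤
      rw [e1]
      exact Submodule.smul_mem_smul hi h2
    · have e1 : (I * J) • (⊤ : Submodule R P) = J • (I • (⊤ : Submodule R P)) := by
        rw [mul_comm I J]
        exact Submodule.mul_smul J I ⊤
      rw [e1]
      exact Submodule.smul_mem_smul hj h1

theorem mem_prod_smul_top {P : Type v} [AddCommGroup P] [Module R P] {X : Type w}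
    (I : X → Ideal R) (hco : ∀ x y, x ≠ y → IsCoprime (I x) (I y)) (S : Finset X) (p : P) :
    p ∈ (∏ x ∈ S, I x) • (⊤ : Submodule R P) ↔ ∀ x ∈ S, p ∈ I x • (⊤ : Submodule R P) := by
  classical
  induction S using Finset.induction_on with
  | empty => simp
  | insert x S hx ih =>
    rw [Finset.prod_insert hx, mem_mul_smul_top, ih]
    · simp
    · refine IsCoprime.prod_right fun y hy => hco x y ?_
      rintro rfl
      exact hx hy

/-- distinct `K`-points have comaximal kernels -/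
theorem isCoprime_ker {K : Type w} [Field K] [Algebra K R] {y y' : R →ₐ[K] K} (h : y ≠ y') :
    IsCoprime (RingHom.ker y) (RingHom.ker y') := by
  have : ∃ r, y r ≠ y' r := by
    by_contra hcon
    push Not at hcon
    exact h (AlgHom.ext hcon)
  obtain ⟨r, hr⟩ := this
  have hd : y' r - y r ≠ 0 := fun h0 => hr (sub_eq_zero.mp h0).symm
  rw [Ideal.isCoprime_iff_exists]
  refine ⟨(y' r - y r)⁻¹ • (r - algebraMap K R (y r)), ?_,
    (y' r - y r)⁻¹ • (algebraMap K R (y' r) - r), ?_, ?_⟩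
  · rw [RingHom.mem_ker, map_smul, map_sub, AlgHom.commutes]
    simp
  · rw [RingHom.mem_ker, map_smul, map_sub, AlgHom.commutes]
    simp
  · rw [← smul_add]
    have : r - algebraMap K R (y r) + (algebraMap K R (y' r) - r) =
        algebraMap K R (y' r - y r) := by
      rw [map_sub]; ring
    rw [this, Algebra.smul_def, ← map_mul, inv_mul_cancel₀ hd, map_one]

end Coprime

/-! ### Evaluation at points -/

section Eval

variable {K : Type u} [Field K] {R01 : Type u} [CommRing R01] [Algebra K R01]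
  {M : Type v} [AddCommGroup M] [Module K M] [Module R01 M] [IsScalarTower K R01 M]

/-- A system of evaluation functionals of `M` at the points `pt x`. -/
structure IsEval {X : Type w} (pt : X → (R01 →ₐ[K] K)) (ev : X → M →ₗ[K] K) : Prop where
  smul : ∀ x (f : R01) m, ev x (f • m) = pt x f * ev x m
  ne_zero : ∀ x, ∃ m, ev x m ≠ 0

theorem exists_isEval [Module.Invertible R01 M] {X : Type w} (pt : X → (R01 →ₐ[K] K)) :
    ∃ ev : X → M →ₗ[K] K, IsEval pt ev := by
  choose ev h1 h2 using fun x => Inv.exists_ev (P := M) (pt x)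
  exact ⟨ev, h1, h2⟩

variable {X : Type w} {pt : X → (R01 →ₐ[K] K)} {ev : X → M →ₗ[K] K}

theorem IsEval.finite_zeros [Module.Invertible R01 M] (h : IsEval pt ev)
    (hfin : ∀ f : R01, f ≠ 0 → {x | pt x f = 0}.Finite) {m : M} (hm : m ≠ 0) :
    {x | ev x m = 0}.Finite := by
  obtain ⟨φ, hφ⟩ := Inv.exists_dual_apply_ne_zero (R := R01) hm
  refine (hfin _ hφ).subset fun x hx => ?_
  exact Inv.zero_of_ev_eq_zero (pt x) (ev x) (h.smul x) (h.ne_zero x) hx φ

end Eval

section Main

variable {K : Type u} [Field K] {R0 R1 R01 : Type u} [CommRing R0] [CommRing R1] [CommRing R01]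
  [Algebra K R0] [Algebra K R1] [Algebra K R01] [Algebra R0 R01] [Algebra R1 R01]
  [IsScalarTower K R0 R01] [IsScalarTower K R1 R01]
  {X : Type w} (pt : X → (R01 →ₐ[K] K))

/-- restriction of points to the first chart -/
def pt0 (R0 : Type u) [CommRing R0] [Algebra K R0] [Algebra R0 R01] [IsScalarTower K R0 R01]
    (x : X) : R0 →ₐ[K] K := (pt x).comp (IsScalarTower.toAlgHom K R0 R01)

theorem pt0_apply (x : X) (r : R0) : pt0 pt R0 x r = pt x (algebraMap R0 R01 r) := rfl

variable {M : Type v} [AddCommGroup M] [Module K M] [Module R0 M] [Module R1 M] [Module R01 M]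
  [IsScalarTower K R0 M] [IsScalarTower K R1 M] [IsScalarTower K R01 M]
  [IsScalarTower R0 R01 M] [IsScalarTower R1 R01 M]
  {t : R0} {s : R1} (hts : algebraMap R0 R01 t * algebraMap R1 R01 s = 1)
  {P : Submodule R0 M} {Q : Submodule R1 M} (hP : ∀ x : M, ∃ n : ℕ, t ^ n • x ∈ P)
  (hQ : ∀ x : M, ∃ n : ℕ, s ^ n • x ∈ Q)

variable {pt} {ev : X → M →ₗ[K] K}

omit [Module K M] [IsScalarTower K R0 M] [IsScalarTower K R01 M] [IsScalarTower K R0 R01]
  [Algebra K R0] in
theorem pt_unit {x : X} (hts : algebraMap R0 R01 t * algebraMap R1 R01 s = 1) :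
    pt x (algebraMap R0 R01 t) ≠ 0 := by
  intro h
  have := congrArg (pt x) hts
  rw [map_mul, h, zero_mul, map_one] at this
  exact zero_ne_one this

include hP hts in
/-- evaluation is nonzero on `P`. -/
theorem IsEval.ne_zero_P (h : IsEval pt ev) (x : X) : ∃ p : P, ev x p ≠ 0 := by
  obtain ⟨m, hm⟩ := h.ne_zero x
  obtain ⟨n, hn⟩ := hP m
  refine ⟨⟨_, hn⟩, ?_⟩
  change ev x (t ^ n • m) ≠ 0
  rw [← algebraMap_smul R01, h.smul, map_pow, map_pow]
  exact mul_ne_zero (pow_ne_zero _ (pt_unit hts)) hm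

include hP hts in
/-- **`P_S = I_S P`.** -/
theorem IsEval.mem_prod_smul_P [Module.Invertible R0 P] (h : IsEval pt ev)
    (hinj : Function.Injective (pt0 pt R0)) (S : Finset X) (m : M) :
    m ∈ (∏ x ∈ S, RingHom.ker (pt0 pt R0 x)) • P ↔ m ∈ P ∧ ∀ x ∈ S, ev x m = 0 := by
  have key : ∀ p : P, p ∈ (∏ x ∈ S, RingHom.ker (pt0 pt R0 x)) • (⊤ : Submodule R0 P) ↔
      ∀ x ∈ S, ev x p = 0 := by
    intro p
    rw [mem_prod_smul_top (P := P) _ (fun x y hxy => isCoprime_ker (fun h => hxy (hinj h))) S p]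
    refine forall₂_congr fun x _ => ?_
    have hsm : ∀ (r : R0) (p : P), (ev x ∘ₗ (P.subtype.restrictScalars K)) (r • p) =
        pt0 pt R0 x r * (ev x ∘ₗ (P.subtype.restrictScalars K)) p := by
      intro r p
      change ev x (r • (p : M)) = _ * ev x p
      rw [← algebraMap_smul R01, h.smul]
      rfl
    constructor
    · intro hp
      exact Inv.ev_eq_zero_of_mem (pt0 pt R0 x) (ev x ∘ₗ (P.subtype.restrictScalars K)) hsm hp
    · intro hp
      exact Inv.mem_ker_smul_of_ev_eq_zero (pt0 pt R0 x)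
        (ev x ∘ₗ (P.subtype.restrictScalars K)) hsm (h.ne_zero_P hts hP x) hp
  have hmap : ((∏ x ∈ S, RingHom.ker (pt0 pt R0 x)) • (⊤ : Submodule R0 P)).map P.subtype =
      (∏ x ∈ S, RingHom.ker (pt0 pt R0 x)) • P := by
    rw [Submodule.map_smul'', Submodule.map_top, Submodule.range_subtype]
  rw [← hmap]
  constructor
  · rintro ⟨p, hp, rfl⟩
    exact ⟨p.2, (key p).mp hp⟩
  · rintro ⟨hm, hx⟩
    exact ⟨⟨m, hm⟩, (key ⟨m, hm⟩).mpr hx, rfl⟩

/-- vanishing at `S` in terms of ideals -/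
theorem IsEval.vanish_eq [Module.Invertible R01 M] (h : IsEval pt ev)
    (hinj : Function.Injective pt) (S : Finset X) :
    vanish ev S = ((∏ x ∈ S, RingHom.ker (pt x)) • (⊤ : Submodule R01 M)).restrictScalars K := by
  ext m
  rw [mem_vanish, Submodule.restrictScalars_mem,
    mem_prod_smul_top (P := M) _ (fun x y hxy => isCoprime_ker (fun h => hxy (hinj h))) S m]
  refine forall₂_congr fun x _ => ?_
  exact ⟨fun hm => Inv.mem_ker_smul_of_ev_eq_zero (pt x) (ev x) (h.smul x) (h.ne_zero x) hm,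
    fun hm => Inv.ev_eq_zero_of_mem (pt x) (ev x) (h.smul x) hm⟩

/-- `s^{-m} Q`, as an `R1`-submodule -/
def qTwist (s : R1) (Q : Submodule R1 M) (m : ℕ) : Submodule R1 M :=
  Q.comap (LinearMap.lsmul R1 M (s ^ m))

theorem mem_qTwist {m : ℕ} {x : M} : x ∈ qTwist s Q m ↔ s ^ m • x ∈ Q := Iff.rfl

/-- `s^{-m} Q ≃ Q` -/
noncomputable def qTwistEquiv (hts : algebraMap R0 R01 t * algebraMap R1 R01 s = 1) (m : ℕ) :
    qTwist s Q m ≃ₗ[R1] Q where
  toFun x := ⟨s ^ m • (x : M), x.2⟩
  map_add' x y := Subtype.ext (smul_add _ _ _)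
  map_smul' a x := Subtype.ext (by
    change s ^ m • (a • (x : M)) = a • (s ^ m • (x : M))
    rw [smul_smul, smul_smul, mul_comm])
  invFun y := ⟨t ^ m • (y : M), mem_qTwist.mpr (by
    rw [pow_smul_pow_smul m _ hts]; exact y.2)⟩
  left_inv x := Subtype.ext (pow_smul_pow_smul' m _ hts)
  right_inv y := Subtype.ext (pow_smul_pow_smul m _ hts)

theorem invertible_qTwist (hts : algebraMap R0 R01 t * algebraMap R1 R01 s = 1)
    [Module.Invertible R1 Q] (m : ℕ) : Module.Invertible R1 (qTwist s Q m) :=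
  Module.Invertible.congr (qTwistEquiv (t := t) hts m).symm

include hQ in
theorem exhaust_qTwist (m : ℕ) (x : M) : ∃ n : ℕ, s ^ n • x ∈ qTwist s Q m := by
  obtain ⟨n, hn⟩ := hQ x
  refine ⟨n, ?_⟩
  rw [mem_qTwist]
  exact Q.smul_mem _ hn

/-- The twist `E(m)(-S)` is acyclic: `I_S P ⊕ I_S s^{-m} Q = I_S M`. -/
structure IsAcyclicTwist (K : Type u) [Field K] {R0 R1 R01 : Type u} [CommRing R0] [CommRing R1]
    [CommRing R01] [Algebra K R0] [Algebra K R1] [Algebra K R01] [Algebra R0 R01] [Algebra R1 R01]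
    [IsScalarTower K R0 R01] [IsScalarTower K R1 R01] {X : Type w} (pt : X → (R01 →ₐ[K] K))
    {M : Type v} [AddCommGroup M] [Module K M] [Module R0 M] [Module R1 M] [Module R01 M]
    [IsScalarTower K R0 M] [IsScalarTower K R1 M] [IsScalarTower K R01 M]
    (P : Submodule R0 M) (Q : Submodule R1 M) (s : R1) (m : ℕ) (S : Finset X) : Prop where
  inf : (((∏ x ∈ S, RingHom.ker (pt0 pt R0 x)) • P).restrictScalars K : Submodule K M) ⊓
    (((∏ x ∈ S, RingHom.ker (pt0 pt R1 x)) • qTwist s Q m).restrictScalars K) = ⊥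
  sup : (((∏ x ∈ S, RingHom.ker (pt0 pt R0 x)) • P).restrictScalars K : Submodule K M) ⊔
    (((∏ x ∈ S, RingHom.ker (pt0 pt R1 x)) • qTwist s Q m).restrictScalars K) =
    ((∏ x ∈ S, RingHom.ker (pt x)) • (⊤ : Submodule R01 M)).restrictScalars K

theorem latOf_Qm_eq (m : ℕ) : (latOf K (R01 := R01) hts P Q hP hQ).Qm m =
    (qTwist s Q m).restrictScalars K := by
  ext x
  rw [mem_latOf_Qm]
  exact Iff.rfl

theorem isAcyclicTwist_of_bijective [Module.Invertible R01 M] [Module.Invertible R0 P]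
    [Module.Invertible R1 Q] (h : IsEval pt ev)
    (hinj0 : Function.Injective (pt0 pt R0)) (hinj1 : Function.Injective (pt0 pt R1)) {m : ℕ}
    (hm : (latOf K (R01 := R01) hts P Q hP hQ).P ⊔ (latOf K (R01 := R01) hts P Q hP hQ).Qm m = ⊤)
    (S : Finset X)
    (hS : Function.Bijective (LinearMap.pi (fun x : S => (ev x) ∘ₗ
      ((latOf K (R01 := R01) hts P Q hP hQ).K m).subtype))) :
    IsAcyclicTwist K pt P Q s m S := by
  have hinj : Function.Injective pt := by
    intro x y hxy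
    apply hinj0
    rw [pt0, pt0, hxy]
  have hts' : algebraMap R1 R01 s * algebraMap R0 R01 t = 1 := by rw [mul_comm]; exact hts
  have hinv := invertible_qTwist (t := t) (s := s) (Q := Q) hts m
  obtain ⟨h1, h2⟩ := acyclic_of_bijective _ ev hm S hS
  rw [latOf_Qm_eq] at h1 h2
  have hPS : ∀ v, v ∈ (∏ x ∈ S, RingHom.ker (pt0 pt R0 x)) • P ↔ v ∈ P ∧ v ∈ vanish ev S := by
    intro v
    rw [h.mem_prod_smul_P hts hP hinj0, mem_vanish]
  have hQS : ∀ v, v ∈ (∏ x ∈ S, RingHom.ker (pt0 pt R1 x)) • qTwist s Q m ↔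
      v ∈ qTwist s Q m ∧ v ∈ vanish ev S := by
    intro v
    rw [h.mem_prod_smul_P hts' (exhaust_qTwist hQ m) hinj1, mem_vanish]
  constructor
  · rw [eq_bot_iff]
    rintro v ⟨hv1, hv2⟩
    have h3 := (hPS v).mp hv1
    have h4 := (hQS v).mp hv2
    exact h1 v h3.2 h3.1 h4.1
  · rw [← h.vanish_eq hinj S]
    apply le_antisymm
    · refine sup_le ?_ ?_
      · intro v hv
        exact ((hPS v).mp hv).2
      · intro v hv
        exact ((hQS v).mp hv).2
    · intro v hv
      obtain ⟨p, hp, q, hq, hpS, hqS, rfl⟩ := h2 v hv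
      exact Submodule.add_mem_sup ((hPS p).mpr ⟨hp, hpS⟩) ((hQS q).mpr ⟨hq, hqS⟩)

/-- Euler characteristic of a lattice over a field -/
noncomputable def chiLat {K : Type u} [Field K] {M : Type v} [AddCommGroup M] [Module K M]
    (L : P1Lat K M) : ℤ :=
  (Module.finrank K (L.P ⊓ L.Q : Submodule K M) : ℤ) - Module.finrank K (M ⧸ (L.P ⊔ L.Q))

theorem finrank_K_latOf [Module.Invertible R1 Q] {n : ℕ} {b1 : Fin n → R1}
    (hb1 : Function.Bijective
      (fun f : Fin n → Polynomial K => ∑ i, Polynomial.aeval s (f i) * b1 i)) {m : ℕ}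
    (hm : (latOf K (R01 := R01) hts P Q hP hQ).P ⊔ (latOf K (R01 := R01) hts P Q hP hQ).Qm m = ⊤)
    [Module.Finite K ((latOf K (R01 := R01) hts P Q hP hQ).K m)] :
    (Module.finrank K ((latOf K (R01 := R01) hts P Q hP hQ).K m) : ℤ) =
      chiLat (latOf K (R01 := R01) hts P Q hP hQ) + m * n := by
  obtain ⟨h1, h2⟩ := finrank_Fq (K := K) hts (P := P) (Q := Q) (hP := hP) (hQ := hQ) hb1 m
  obtain ⟨-, -, h3⟩ := finrank_formula _ hm
  rw [chiLat, h3, h2]
  push_cast
  ring

/-- **RR-lite**: simultaneous acyclic twists. -/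
theorem exists_isAcyclicTwist [Infinite X]
    (hfin : ∀ f : R01, f ≠ 0 → {x | pt x f = 0}.Finite)
    (hinj0 : Function.Injective (pt0 pt R0)) (hinj1 : Function.Injective (pt0 pt R1))
    {n : ℕ} {b0 : Fin n → R0} {b1 : Fin n → R1}
    (hb0 : Function.Bijective
      (fun f : Fin n → Polynomial K => ∑ i, Polynomial.aeval t (f i) * b0 i))
    (hb1 : Function.Bijective
      (fun f : Fin n → Polynomial K => ∑ i, Polynomial.aeval s (f i) * b1 i))
    [Module.Invertible R01 M] [Module.Invertible R0 P] [Module.Invertible R1 Q]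
    {M' : Type v} [AddCommGroup M'] [Module K M'] [Module R0 M'] [Module R1 M'] [Module R01 M']
    [IsScalarTower K R0 M'] [IsScalarTower K R1 M'] [IsScalarTower K R01 M']
    [IsScalarTower R0 R01 M'] [IsScalarTower R1 R01 M']
    {P' : Submodule R0 M'} {Q' : Submodule R1 M'} (hP' : ∀ x : M', ∃ n : ℕ, t ^ n • x ∈ P')
    (hQ' : ∀ x : M', ∃ n : ℕ, s ^ n • x ∈ Q')
    [Module.Invertible R01 M'] [Module.Invertible R0 P'] [Module.Invertible R1 Q']
    (hχ : chiLat (latOf K (R01 := R01) hts P Q hP hQ) =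
      chiLat (latOf K (R01 := R01) hts P' Q' hP' hQ')) :
    ∃ m₀ : ℕ, ∀ m ≥ m₀, ∀ S₀ : Finset X, ∃ S : Finset X, Disjoint S S₀ ∧
      (S.card : ℤ) = chiLat (latOf K (R01 := R01) hts P Q hP hQ) + m * n ∧
      IsAcyclicTwist K pt P Q s m S ∧ IsAcyclicTwist K pt P' Q' s m S := by
  let L := latOf K (R01 := R01) hts P Q hP hQ
  let L' := latOf K (R01 := R01) hts P' Q' hP' hQ'
  obtain ⟨m1, hm1⟩ := exists_forall_finite_K L (latOf_finProjP hts hb0) (latOf_finProjQ hts hb1)
  obtain ⟨m2, hm2⟩ := exists_forall_finite_K L' (latOf_finProjP hts hb0) (latOf_finProjQ hts hb1)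
  obtain ⟨ev, hev⟩ := exists_isEval (M := M) pt
  obtain ⟨ev', hev'⟩ := exists_isEval (M := M') pt
  refine ⟨max m1 m2, fun m hm S₀ => ?_⟩
  obtain ⟨hmt, hmf, -⟩ := hm1 m (le_trans (le_max_left _ _) hm)
  obtain ⟨hmt', hmf', -⟩ := hm2 m (le_trans (le_max_right _ _) hm)
  have hd := finrank_K_latOf (K := K) hts hP hQ hb1 hmt
  have hd' := finrank_K_latOf (K := K) hts hP' hQ' hb1 hmt'
  have hdd : Module.finrank K (L'.K m) = Module.finrank K (L.K m) := by
    have : (Module.finrank K (L'.K m) : ℤ) = Module.finrank K (L.K m) := by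
      change (Module.finrank K (L'.K m) : ℤ) = _ at hd'
      change (Module.finrank K (L.K m) : ℤ) = _ at hd
      rw [hd, hd', hχ]
    exact_mod_cast this
  obtain ⟨S, hS1, hS2, hS3, hS4⟩ := exists_common_points (K := K) (X := X)
    (Module.finrank K (L.K m)) (V := L.K m) (V' := L'.K m)
    (fun x => (ev x) ∘ₗ (L.K m).subtype) (fun x => (ev' x) ∘ₗ (L'.K m).subtype)
    (fun v hv => hev.finite_zeros hfin (fun h => hv (Subtype.ext h)))
    (fun v hv => hev'.finite_zeros hfin (fun h => hv (Subtype.ext h))) rfl hdd S₀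
  refine ⟨S, hS1, ?_, ?_, ?_⟩
  · rw [hS2, ← hd]
  · exact isAcyclicTwist_of_bijective hts hP hQ hev hinj0 hinj1 hmt S
      (bijective_of_card_eq (V := L.K m) (fun x => (ev x) ∘ₗ (L.K m).subtype) S hS3 hS2)
  · exact isAcyclicTwist_of_bijective hts hP' hQ' hev' hinj0 hinj1 hmt' S
      (bijective_of_card_eq (V := L'.K m) (fun x => (ev' x) ∘ₗ (L'.K m).subtype) S hS4
        (hS2.trans hdd.symm))

end Main

end Fermat.Agent.H10.Lat
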