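import Fermat.Agent.H11Eisenstein

/-!
# The cubic `(U + V + W)³ = 16 U V W` has only trivial rational points
-/

set_option autoImplicit false

namespace Fermat.Agent.H11

open Eis

lemma inert_eleven {s t : ℤ} (h : (11 : ℤ) ∣ s ^ 2 - s * t + t ^ 2) : (11 : ℤ) ∣ s ∧ (11 : ℤ) ∣ t := by
  have key : ∀ a b : ZMod 11, a ^ 2 - a * b + b ^ 2 = 0 → a = 0 ∧ b = 0 := by decide
  have h1 : ((s ^ 2 - s * t + t ^ 2 : ℤ) : ZMod 11) = 0 := (ZMod.intCast_zmod_eq_zero_iff_dvd _ 11).2 h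
  push_cast at h1
  obtain ⟨h2, h3⟩ := key _ _ h1
  exact ⟨(ZMod.intCast_zmod_eq_zero_iff_dvd _ 11).1 h2, (ZMod.intCast_zmod_eq_zero_iff_dvd _ 11).1 h3⟩

/-- Arithmetic of the norm form: given `A * N = -44 Z³` with `N = s² - st + t²` the norm of a
primitive element with `s ≡ 0`, `t ≢ 0 mod 3`, `N` odd and coprimality of `A / 44` and `N`. -/
lemma norm_step {A s t Z : ℤ} (hst : IsCoprime s t) (hs3 : (3 : ℤ) ∣ s) (ht3 : ¬ (3 : ℤ) ∣ t)
    (hodd : ¬ (2 : ℤ) ∣ s ^ 2 - s * t + t ^ 2)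
    (hA : A * (s ^ 2 - s * t + t ^ 2) = - 44 * Z ^ 3)
    (hcop : ∀ q : ℤ, Prime q → q ∣ A → q ∣ s ^ 2 - s * t + t ^ 2 → False) :
    ∃ a p q : ℤ, Z = a * (p ^ 2 - p * q + q ^ 2) ∧ A = - 44 * a ^ 3 ∧
      s = 3 * p * q ^ 2 - 3 * p ^ 2 * q ∧ t = p ^ 3 + q ^ 3 - 3 * p ^ 2 * q := by
  set N := s ^ 2 - s * t + t ^ 2 with hN
  have h11 : ¬ (11 : ℤ) ∣ N := by
    intro h
    obtain ⟨h1, h2⟩ := inert_eleven h
    have := hst.isUnit_of_dvd' h1 h2
    rw [Int.isUnit_iff] at this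
    omega
  have hp2 : Prime (2 : ℤ) := Int.prime_two
  have hp11 : Prime (11 : ℤ) := by
    rw [Int.prime_iff_natAbs_prime]; norm_num
  have c2 : IsCoprime (4 : ℤ) N := by
    have : IsCoprime ((2 : ℤ) ^ 2) N := IsCoprime.pow_left ((hp2.coprime_iff_not_dvd).2 hodd)
    norm_num at this
    exact this
  have c11 : IsCoprime (11 : ℤ) N := (hp11.coprime_iff_not_dvd).2 h11
  have c44 : IsCoprime (44 : ℤ) N := by
    have := c2.mul_left c11
    norm_num at this
    exact this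
  obtain ⟨A', hA'⟩ : (44 : ℤ) ∣ A := by
    apply c44.dvd_of_dvd_mul_right
    rw [hA]
    exact ⟨-Z ^ 3, by ring⟩
  have h1 : A' * N = (-Z) ^ 3 := by
    have : (44 : ℤ) * (A' * N) = 44 * (-Z) ^ 3 := by
      rw [hA'] at hA
      linear_combination hA
    exact mul_left_cancel₀ (by norm_num) this
  have hN0 : N ≠ 0 := by
    rintro h0
    exact h11 (h0 ▸ dvd_zero _)
  have hc : IsCoprime N A' := by
    refine isCoprime_of_prime_dvd (fun h => hN0 h.1) (fun q hq h2 h3 => ?_)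
    exact hcop q hq (hA' ▸ Dvd.dvd.mul_left h3 _) h2
  have h1' : N * A' = (-Z) ^ 3 := by rw [mul_comm]; exact h1
  obtain ⟨⟨m, hm⟩, ⟨k, hk⟩⟩ := Int.eq_pow_of_mul_eq_pow_odd hc (by decide) h1'
  have h3N : ¬ (3 : ℤ) ∣ N := by
    intro h
    apply ht3
    have h2 : (3 : ℤ) ∣ t ^ 2 := by
      have e : t ^ 2 = N - s * (s - t) := by rw [hN]; ring
      rw [e]
      exact dvd_sub h (Dvd.dvd.mul_right hs3 _)
    exact Int.prime_three.dvd_of_dvd_pow h2
  have h3m : ¬ (3 : ℤ) ∣ m := by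
    intro h
    apply h3N
    rw [hm]
    exact dvd_pow h (by norm_num)
  obtain ⟨p, q, hpq⟩ := cube_of_norm hst h3m hm
  have hmain : s = 3 * p * q ^ 2 - 3 * p ^ 2 * q ∧ t = p ^ 3 + q ^ 3 - 3 * p ^ 2 * q := by
    rcases hpq with ⟨h2, h3⟩ | h2 | ⟨h2, h3⟩
    · exfalso
      apply ht3
      rw [h3]
      exact ⟨p ^ 2 * q - p * q ^ 2, by ring⟩
    · exact h2
    · exfalso
      apply ht3
      have e : t = s + 3 * (p * q ^ 2 - p ^ 2 * q) := by rw [h3, h2]; ring
      rw [e]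
      exact dvd_add hs3 (Dvd.intro _ rfl)
  obtain ⟨hs, ht⟩ := hmain
  have hNn : N = (p ^ 2 - p * q + q ^ 2) ^ 3 := by
    rw [hN, hs, ht]; ring
  have hmn : m = p ^ 2 - p * q + q ^ 2 := by
    have : m ^ 3 = (p ^ 2 - p * q + q ^ 2) ^ 3 := by rw [← hm, hNn]
    exact (Odd.strictMono_pow (by decide : Odd 3)).injective this
  refine ⟨-k, p, q, ?_, ?_, hs, ht⟩
  · have : (m * k) ^ 3 = (-Z) ^ 3 := by rw [← h1', hm, hk]; ring
    have h5 : m * k = -Z := (Odd.strictMono_pow (by decide : Odd 3)).injective this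
    rw [← hmn]
    linear_combination h5
  · rw [hA', hk]; ring

lemma prime_eleven : Prime (11 : ℤ) := by
  rw [Int.prime_iff_natAbs_prime]; norm_num

lemma dvd_of_dvd_two {r : ℤ} (hr : Prime r) (h : r ∣ 2) {x : ℤ} (hx : r ∣ x) : (2 : ℤ) ∣ x :=
  ((hr.dvd_prime_iff_associated Int.prime_two).1 h).dvd'.trans hx

lemma dvd_of_dvd_eleven {r : ℤ} (hr : Prime r) (h : r ∣ 11) {x : ℤ} (hx : r ∣ x) : (11 : ℤ) ∣ x :=
  ((hr.dvd_prime_iff_associated prime_eleven).1 h).dvd'.trans hx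

lemma not_both {r x y : ℤ} (hr : Prime r) (h : IsCoprime x y) (hx : r ∣ x) (hy : r ∣ y) : False :=
  hr.not_isUnit (h.isUnit_of_dvd' hx hy)

lemma prime_dvd_44 {r Z : ℤ} (hr : Prime r) (h : r ∣ -44 * Z ^ 3) : r ∣ 2 ∨ r ∣ 11 ∨ r ∣ Z := by
  rcases hr.dvd_or_dvd h with h1 | h1
  · have h2 : r ∣ 2 ^ 2 * 11 := by
      rw [show (-44 : ℤ) = -(2 ^ 2 * 11) by norm_num, dvd_neg] at h1
      exact h1
    rcases hr.dvd_or_dvd h2 with h3 | h3
    · exact Or.inl (hr.dvd_of_dvd_pow h3)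
    · exact Or.inr (Or.inl h3)
  · exact Or.inr (Or.inr (hr.dvd_of_dvd_pow h1))

/-- The basic step on `X³ + Y³ + 4Z³ = 4XYZ`. -/
lemma key_step {X Y Z : ℤ} (h : X ^ 3 + Y ^ 3 + 4 * Z ^ 3 = 4 * X * Y * Z)
    (hXY : IsCoprime X Y) (hXZ : IsCoprime X Z) (hYZ : IsCoprime Y Z)
    (hY2 : ¬ (2 : ℤ) ∣ Y) :
    ∃ a u v w : ℤ, a ∣ Z ∧ (Z ≠ 0 → a ≠ 0) ∧ u + v + w = 12 * a ∧ u * v * w = 108 * a ^ 3 := by
  have hX2 : (2 : ℤ) ∣ X - Y := by
    have h1 : (2 : ℤ) ∣ X ^ 3 + Y ^ 3 := ⟨2 * X * Y * Z - 2 * Z ^ 3, by linear_combination h⟩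
    have h2 : (2 : ℤ) ∣ X ^ 3 - Y ^ 3 := by
      have : X ^ 3 - Y ^ 3 = (X ^ 3 + Y ^ 3) - 2 * Y ^ 3 := by ring
      rw [this]
      exact dvd_sub h1 (Dvd.intro _ rfl)
    have key : ∀ a b : ZMod 2, a ^ 3 - b ^ 3 = 0 → a - b = 0 := by decide
    have h3 : ((X ^ 3 - Y ^ 3 : ℤ) : ZMod 2) = 0 := (ZMod.intCast_zmod_eq_zero_iff_dvd _ 2).2 h2
    push_cast at h3
    have h4 := key _ _ h3
    apply (ZMod.intCast_zmod_eq_zero_iff_dvd _ 2).1
    push_cast
    exact h4
  by_cases h3Z : (3 : ℤ) ∣ Z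
  · -- the case `3 ∣ Z`
    have hX3 : ¬ (3 : ℤ) ∣ X := by
      intro h1
      have := hXZ.isUnit_of_dvd' h1 h3Z
      rw [Int.isUnit_iff] at this
      omega
    have hY3 : ¬ (3 : ℤ) ∣ Y := by
      intro h1
      have := hYZ.isUnit_of_dvd' h1 h3Z
      rw [Int.isUnit_iff] at this
      omega
    obtain ⟨Z1, rfl⟩ := h3Z
    have h3XY : (3 : ℤ) ∣ X + Y := by
      have key : ∀ a b : ZMod 3, a ^ 3 + b ^ 3 = 0 → a + b = 0 := by decide
      have h3 : ((X ^ 3 + Y ^ 3 : ℤ) : ZMod 3) = 0 :=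
        (ZMod.intCast_zmod_eq_zero_iff_dvd _ 3).2 ⟨4 * X * Y * Z1 - 36 * Z1 ^ 3, by linear_combination h⟩
      push_cast at h3
      have h4 := key _ _ h3
      apply (ZMod.intCast_zmod_eq_zero_iff_dvd _ 3).1
      push_cast
      exact h4
    obtain ⟨T, hT⟩ := h3XY
    have hp3 := Int.prime_three
    have hXY3 : IsCoprime (3 : ℤ) (X * Y) :=
      ((hp3.coprime_iff_not_dvd).2 hX3).mul_right ((hp3.coprime_iff_not_dvd).2 hY3)
    obtain ⟨Z', rfl⟩ : (3 : ℤ) ∣ Z1 := by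
      have h1 : (3 : ℤ) ∣ (4 * (X * Y)) * Z1 := by
        refine ⟨3 * T ^ 3 + 12 * Z1 ^ 3 - X * Y * T, ?_⟩
        have e : Y = 3 * T - X := by linear_combination hT
        have : (3 : ℤ) * ((4 * (X * Y)) * Z1) = 3 * (3 * (3 * T ^ 3 + 12 * Z1 ^ 3 - X * Y * T)) := by
          subst e
          linear_combination -h
        exact mul_left_cancel₀ (by norm_num) this
      have h4 : IsCoprime (3 : ℤ) (4 * (X * Y)) := by
        apply IsCoprime.mul_right _ hXY3
        exact (hp3.coprime_iff_not_dvd).2 (by norm_num)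
      exact h4.dvd_of_dvd_mul_left h1
    have e : Y = 3 * T - X := by linear_combination hT
    have h5 : X * Y * (T + 4 * Z') = 3 * (T ^ 3 + 108 * Z' ^ 3) := by
      have : (9 : ℤ) * (X * Y * (T + 4 * Z')) = 9 * (3 * (T ^ 3 + 108 * Z' ^ 3)) := by
        subst e
        linear_combination -h
      exact mul_left_cancel₀ (by norm_num) this
    obtain ⟨A, hA⟩ : (3 : ℤ) ∣ T + 4 * Z' :=
      hXY3.dvd_of_dvd_mul_left ⟨_, h5⟩
    have h6 : X * Y * A = T ^ 3 + 108 * Z' ^ 3 := by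
      rw [hA] at h5
      have : (3 : ℤ) * (X * Y * A) = 3 * (T ^ 3 + 108 * Z' ^ 3) := by linear_combination h5
      exact mul_left_cancel₀ (by norm_num) this
    have eT : T = 3 * A - 4 * Z' := by linear_combination hA
    -- s' = 3A - 12 Z', t' = X - 3A
    have hN : A * ((3 * A - 12 * Z') ^ 2 - (3 * A - 12 * Z') * (X - 3 * A) + (X - 3 * A) ^ 2)
        = - 44 * Z' ^ 3 := by
      subst eT
      subst e
      linear_combination -h6
    -- a prime dividing `s'` and `t'`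
    have hst' : ∀ r : ℤ, Prime r → r ∣ 3 * A - 12 * Z' → ¬ r ∣ X - 3 * A := by
      intro r hr h1 h2
      have h7 : r ∣ X - Y := by
        have e7 : X - Y = 2 * (X - 3 * A) - (3 * A - 12 * Z') := by
          subst eT; linear_combination -e
        rw [e7]
        exact dvd_sub (Dvd.dvd.mul_left h2 _) h1
      have h8 : r ∣ 12 * Z' - Y := by
        have e8 : 12 * Z' - Y = (X - 3 * A) - 2 * (3 * A - 12 * Z') := by
          subst eT; linear_combination -e
        rw [e8]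
        exact dvd_sub h2 (Dvd.dvd.mul_left h1 _)
      have h9 : r ∣ 11 * Y ^ 3 := by
        have e9 : 11 * Y ^ 3 = -(X - Y) * (16 * (X ^ 2 + X * Y + Y ^ 2) - 576 * Y * Z')
            - (12 * Z' - Y) * (27 * ((12 * Z') ^ 2 + 12 * Z' * Y + Y ^ 2) - 48 * Y ^ 2) := by
          linear_combination 16 * h
        rw [e9]
        exact dvd_sub (Dvd.dvd.mul_right ((dvd_neg).2 h7) _) (Dvd.dvd.mul_right h8 _)
      rcases hr.dvd_or_dvd h9 with h10 | h10
      · -- r ~ 11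
        obtain ⟨c1, hc1⟩ := dvd_of_dvd_eleven hr h10 h1
        obtain ⟨c2, hc2⟩ := dvd_of_dvd_eleven hr h10 h2
        have h11 : (11 : ℤ) ∣ 4 * Z' ^ 3 := by
          refine ⟨- (A * (c1 ^ 2 - c1 * c2 + c2 ^ 2)), ?_⟩
          rw [hc1, hc2] at hN
          have : (11 : ℤ) * (4 * Z' ^ 3) = 11 * (11 * (- (A * (c1 ^ 2 - c1 * c2 + c2 ^ 2)))) := by
            linear_combination hN
          exact mul_left_cancel₀ (by norm_num) this
        have h12 : (11 : ℤ) ∣ Z' := by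
          rcases prime_eleven.dvd_or_dvd h11 with h13 | h13
          · norm_num at h13
          · exact prime_eleven.dvd_of_dvd_pow h13
        have h13 := dvd_of_dvd_eleven hr h10 h8
        have h14 : (11 : ℤ) ∣ Y := by
          have : Y = 12 * Z' - (12 * Z' - Y) := by ring
          rw [this]
          exact dvd_sub (Dvd.dvd.mul_left h12 _) h13
        exact not_both prime_eleven hYZ h14 (Dvd.dvd.mul_left (Dvd.dvd.mul_left h12 _) _)
      · have h11 := hr.dvd_of_dvd_pow h10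
        refine not_both hr hXY ?_ h11
        have : X = (X - Y) + Y := by ring
        rw [this]
        exact dvd_add h7 h11
    have hst : IsCoprime (3 * A - 12 * Z') (X - 3 * A) := by
      refine isCoprime_of_prime_dvd ?_ hst'
      rintro ⟨h1, h2⟩
      exact hst' 2 Int.prime_two (h1 ▸ dvd_zero _) (h2 ▸ dvd_zero _)
    have ht3 : ¬ (3 : ℤ) ∣ X - 3 * A := by
      intro h1
      apply hX3
      have : X = (X - 3 * A) + 3 * A := by ring
      rw [this]
      exact dvd_add h1 (Dvd.intro _ rfl)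
    have hodd : ¬ (2 : ℤ) ∣ (3 * A - 12 * Z') ^ 2 - (3 * A - 12 * Z') * (X - 3 * A) + (X - 3 * A) ^ 2 := by
      intro h1
      obtain ⟨c, hc⟩ := hX2
      have e1 : 3 * A - 12 * Z' = 2 * (X - 3 * A - c) := by
        subst eT; linear_combination -e - hc
      have h2 : (2 : ℤ) ∣ (X - 3 * A) ^ 2 := by
        have : (X - 3 * A) ^ 2 = ((3 * A - 12 * Z') ^ 2 - (3 * A - 12 * Z') * (X - 3 * A)
            + (X - 3 * A) ^ 2) - (3 * A - 12 * Z') * ((3 * A - 12 * Z') - (X - 3 * A)) := by ring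
        rw [this]
        refine dvd_sub h1 ?_
        rw [e1, mul_assoc]
        exact Dvd.intro _ rfl
      have h3 := Int.prime_two.dvd_of_dvd_pow h2
      exact hst' 2 Int.prime_two ⟨_, e1⟩ h3
    obtain ⟨a, p, q, ha1, ha2, ha3, ha4⟩ := norm_step hst ⟨A - 4 * Z', by ring⟩ ht3 hodd hN (by
      intro r hr h1 h2
      have h7 : r ∣ - 44 * Z' ^ 3 := by
        rw [← hN]; exact Dvd.dvd.mul_right h1 _
      rcases prime_dvd_44 hr h7 with h8 | h8 | h8
      · exact hodd (dvd_of_dvd_two hr h8 h2)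
      · obtain ⟨h9, h10⟩ := inert_eleven (dvd_of_dvd_eleven hr h8 h2)
        exact hst' 11 prime_eleven h9 h10
      · have h9 : r ∣ X ^ 2 := by
          have : X ^ 2 = ((3 * A - 12 * Z') ^ 2 - (3 * A - 12 * Z') * (X - 3 * A)
            + (X - 3 * A) ^ 2) - A * (27 * A - 9 * X) - Z' * (144 * Z' - 108 * A + 12 * X) := by ring
          rw [this]
          exact dvd_sub (dvd_sub h2 (Dvd.dvd.mul_right h1 _)) (Dvd.dvd.mul_right h8 _)
        exact not_both hr hXZ (hr.dvd_of_dvd_pow h9) (Dvd.dvd.mul_left (Dvd.dvd.mul_left h8 _) _))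
    refine ⟨a, 4 * a + p, 4 * a - q, 4 * a + q - p, ?_, ?_, by ring, ?_⟩
    · exact ⟨3 * (3 * (p ^ 2 - p * q + q ^ 2)), by rw [ha1]; ring⟩
    · rintro hZ rfl
      apply hZ
      rw [ha1]; ring
    · have : (3 : ℤ) * ((4 * a + p) * (4 * a - q) * (4 * a + q - p)) = 3 * (108 * a ^ 3) := by
        linear_combination ha3 - 3 * ha2 + 12 * ha1
      exact mul_left_cancel₀ (by norm_num) this
  · -- the case `3 ∤ Z`
    have hN : (3 * X + 3 * Y + 4 * Z) * ((3 * (X - Y)) ^ 2 - (3 * (X - Y)) * (4 * Z - 3 * Y)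
        + (4 * Z - 3 * Y) ^ 2) = - 44 * Z ^ 3 := by
      linear_combination 27 * h
    have ht3 : ¬ (3 : ℤ) ∣ 4 * Z - 3 * Y := by
      intro h1
      apply h3Z
      have : Z = (4 * Z - 3 * Y) - 3 * (Z - Y) := by ring
      rw [this]
      exact dvd_sub h1 (Dvd.intro _ rfl)
    have hst' : ∀ r : ℤ, Prime r → r ∣ 3 * (X - Y) → ¬ r ∣ 4 * Z - 3 * Y := by
      intro r hr h1 h2
      have h7 : r ∣ X - Y := by
        rcases hr.dvd_or_dvd h1 with h3 | h3
        · exfalso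
          exact ht3 (((hr.dvd_prime_iff_associated Int.prime_three).1 h3).dvd'.trans h2)
        · exact h3
      have h9 : r ∣ 11 * Y ^ 3 := by
        have e9 : 11 * Y ^ 3 = -(X - Y) * (16 * (X ^ 2 + X * Y + Y ^ 2) - 64 * Y * Z)
            - (4 * Z - 3 * Y) * ((4 * Z) ^ 2 + 4 * Z * (3 * Y) + (3 * Y) ^ 2 - 16 * Y ^ 2) := by
          linear_combination 16 * h
        rw [e9]
        exact dvd_sub (Dvd.dvd.mul_right ((dvd_neg).2 h7) _) (Dvd.dvd.mul_right h2 _)
      rcases hr.dvd_or_dvd h9 with h10 | h10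
      · -- r ~ 11
        obtain ⟨c1, hc1⟩ := dvd_of_dvd_eleven hr h10 h1
        obtain ⟨c2, hc2⟩ := dvd_of_dvd_eleven hr h10 h2
        have h11 : (11 : ℤ) ∣ 4 * Z ^ 3 := by
          refine ⟨- ((3 * X + 3 * Y + 4 * Z) * (c1 ^ 2 - c1 * c2 + c2 ^ 2)), ?_⟩
          rw [hc1, hc2] at hN
          have : (11 : ℤ) * (4 * Z ^ 3)
              = 11 * (11 * (- ((3 * X + 3 * Y + 4 * Z) * (c1 ^ 2 - c1 * c2 + c2 ^ 2)))) := by
            linear_combination hN
          exact mul_left_cancel₀ (by norm_num) this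
        have h12 : (11 : ℤ) ∣ Z := by
          rcases prime_eleven.dvd_or_dvd h11 with h13 | h13
          · norm_num at h13
          · exact prime_eleven.dvd_of_dvd_pow h13
        have h13 := dvd_of_dvd_eleven hr h10 h2
        have h14 : (11 : ℤ) ∣ 3 * Y := by
          have : 3 * Y = 4 * Z - (4 * Z - 3 * Y) := by ring
          rw [this]
          exact dvd_sub (Dvd.dvd.mul_left h12 _) h13
        have h15 : (11 : ℤ) ∣ Y := by
          rcases prime_eleven.dvd_or_dvd h14 with h16 | h16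
          · norm_num at h16
          · exact h16
        exact not_both prime_eleven hYZ h15 h12
      · have h11 := hr.dvd_of_dvd_pow h10
        refine not_both hr hXY ?_ h11
        have : X = (X - Y) + Y := by ring
        rw [this]
        exact dvd_add h7 h11
    have hst : IsCoprime (3 * (X - Y)) (4 * Z - 3 * Y) := by
      refine isCoprime_of_prime_dvd ?_ hst'
      rintro ⟨h1, h2⟩
      exact hst' 2 Int.prime_two (h1 ▸ dvd_zero _) (h2 ▸ dvd_zero _)
    have hodd : ¬ (2 : ℤ) ∣ (3 * (X - Y)) ^ 2 - (3 * (X - Y)) * (4 * Z - 3 * Y)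
        + (4 * Z - 3 * Y) ^ 2 := by
      intro h1
      have h2 : (2 : ℤ) ∣ (4 * Z - 3 * Y) ^ 2 := by
        have : (4 * Z - 3 * Y) ^ 2 = ((3 * (X - Y)) ^ 2 - (3 * (X - Y)) * (4 * Z - 3 * Y)
            + (4 * Z - 3 * Y) ^ 2) - (X - Y) * (3 * ((3 * (X - Y)) - (4 * Z - 3 * Y))) := by ring
        rw [this]
        exact dvd_sub h1 (Dvd.dvd.mul_right hX2 _)
      have h3 := Int.prime_two.dvd_of_dvd_pow h2
      exact hst' 2 Int.prime_two (Dvd.dvd.mul_left hX2 _) h3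
    obtain ⟨a, p, q, ha1, ha2, ha3, ha4⟩ := norm_step hst (Dvd.intro _ rfl) ht3 hodd hN (by
      intro r hr h1 h2
      have h7 : r ∣ - 44 * Z ^ 3 := by
        rw [← hN]; exact Dvd.dvd.mul_right h1 _
      rcases prime_dvd_44 hr h7 with h8 | h8 | h8
      · exact hodd (dvd_of_dvd_two hr h8 h2)
      · obtain ⟨h9, h10⟩ := inert_eleven (dvd_of_dvd_eleven hr h8 h2)
        exact hst' 11 prime_eleven h9 h10
      · have h3r : ¬ r ∣ 3 := by
          intro h3
          exact h3Z (((hr.dvd_prime_iff_associated Int.prime_three).1 h3).dvd'.trans h8)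
        have h9 : r ∣ X + Y := by
          have h10 : r ∣ 3 * (X + Y) := by
            have : 3 * (X + Y) = (3 * X + 3 * Y + 4 * Z) - 4 * Z := by ring
            rw [this]
            exact dvd_sub h1 (Dvd.dvd.mul_left h8 _)
          exact (hr.dvd_or_dvd h10).resolve_left h3r
        have h10 : r ∣ 3 ^ 3 * X ^ 2 := by
          have : 3 ^ 3 * X ^ 2 = ((3 * (X - Y)) ^ 2 - (3 * (X - Y)) * (4 * Z - 3 * Y)
              + (4 * Z - 3 * Y) ^ 2) - (X + Y) * (9 * (X + Y) - 27 * X - 12 * Z)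
              - Z * (16 * Z) := by ring
          rw [this]
          exact dvd_sub (dvd_sub h2 (Dvd.dvd.mul_right h9 _)) (Dvd.dvd.mul_right h8 _)
        rcases hr.dvd_or_dvd h10 with h11 | h11
        · exact h3r (hr.dvd_of_dvd_pow h11)
        · exact not_both hr hXZ (hr.dvd_of_dvd_pow h11) h8)
    refine ⟨a, 4 * a + 2 * p - q, 4 * a - p - q, 4 * a - p + 2 * q, ?_, ?_, by ring, ?_⟩
    · exact ⟨p ^ 2 - p * q + q ^ 2, ha1⟩
    · rintro hZ rfl
      apply hZ
      rw [ha1]; ring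
    · linear_combination 12 * ha1 - ha2 + ha3 - 2 * ha4

/-- if `X³ + Y³ + 4Z³ = 4XYZ` with `X, Y` odd and `Z ≠ 0` then `3 < |XY|`. -/
lemma three_lt_abs {X Y Z : ℤ} (h : X ^ 3 + Y ^ 3 + 4 * Z ^ 3 = 4 * X * Y * Z)
    (hX2 : ¬ (2 : ℤ) ∣ X) (hY2 : ¬ (2 : ℤ) ∣ Y) (hZ : Z ≠ 0) : 3 < |X * Y| := by
  by_contra hcon
  push Not at hcon
  have hX0 : X ≠ 0 := fun h => hX2 (h ▸ dvd_zero _)
  have hY0 : Y ≠ 0 := fun h => hY2 (h ▸ dvd_zero _)
  have hX1 : 1 ≤ |X| := Int.one_le_abs hX0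
  have hY1 : 1 ≤ |Y| := Int.one_le_abs hY0
  rw [abs_mul] at hcon
  have hX3 : |X| ≤ 3 := by nlinarith
  have hY3 : |Y| ≤ 3 := by nlinarith
  rw [abs_le] at hX3 hY3
  obtain ⟨x1, x2⟩ := hX3
  obtain ⟨y1, y2⟩ := hY3
  have key : ∀ z : ZMod 8, z ^ 3 - 3 * z + 7 ≠ 0 ∧ z ^ 3 - 3 * z - 7 ≠ 0 := by decide
  have keyp : ∀ z : ℤ, z ^ 3 - 3 * z + 7 ≠ 0 := by
    intro z hz
    have := congrArg (fun t : ℤ => (t : ZMod 8)) hz
    push_cast at this
    exact (key _).1 this
  have keym : ∀ z : ℤ, z ^ 3 - 3 * z - 7 ≠ 0 := by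
    intro z hz
    have := congrArg (fun t : ℤ => (t : ZMod 8)) hz
    push_cast at this
    exact (key _).2 this
  have hZZ : ∀ k : ℤ, 0 < k → Z * (Z ^ 2 + k) ≠ 0 := by
    intro k hk
    exact mul_ne_zero hZ (by positivity)
  have hx : X = -3 ∨ X = -1 ∨ X = 1 ∨ X = 3 := by omega
  have hy : Y = -3 ∨ Y = -1 ∨ Y = 1 ∨ Y = 3 := by omega
  rcases hx with rfl | rfl | rfl | rfl <;> rcases hy with rfl | rfl | rfl | rfl <;>
    (try norm_num at hcon) <;> (try norm_num at h)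
  all_goals first
    | omega
    | exact keyp Z (by linarith)
    | exact keym Z (by linarith)
    | exact hZZ 1 (by norm_num) (by linarith)

/-- Descent statement with `W` even. -/
lemma descent_even {U V W : ℤ} (hU : U ≠ 0) (hV : V ≠ 0) (hW : W ≠ 0)
    (h : (U + V + W) ^ 3 = 16 * U * V * W)
    (hUV : IsCoprime U V) (hUW : IsCoprime U W) (hVW : IsCoprime V W) (hW2 : (2 : ℤ) ∣ W) :
    ∃ u v w : ℤ, u ≠ 0 ∧ v ≠ 0 ∧ w ≠ 0 ∧ (u + v + w) ^ 3 = 16 * u * v * w ∧
      |u + v + w| < |U + V + W| := by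
  have hp2 := Int.prime_two
  have hU2 : ¬ (2 : ℤ) ∣ U := fun h1 => not_both hp2 hUW h1 hW2
  have hV2 : ¬ (2 : ℤ) ∣ V := fun h1 => not_both hp2 hVW h1 hW2
  obtain ⟨σ1, hσ1⟩ : (2 : ℤ) ∣ U + V + W :=
    hp2.dvd_of_dvd_pow (n := 3) (h ▸ ⟨8 * U * V * W, by ring⟩)
  have h1 : σ1 ^ 3 = 2 * U * V * W := by
    rw [hσ1] at h
    have : (8 : ℤ) * σ1 ^ 3 = 8 * (2 * U * V * W) := by linear_combination h
    exact mul_left_cancel₀ (by norm_num) this
  obtain ⟨σ, hσ⟩ : (2 : ℤ) ∣ σ1 :=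
    hp2.dvd_of_dvd_pow (n := 3) (h1 ▸ ⟨U * V * W, by ring⟩)
  have h2 : U * V * W = 4 * σ ^ 3 := by
    rw [hσ] at h1
    have : (2 : ℤ) * (U * V * W) = 2 * (4 * σ ^ 3) := by linear_combination -h1
    exact mul_left_cancel₀ (by norm_num) this
  obtain ⟨W', hW'⟩ : (4 : ℤ) ∣ W := by
    have hc : IsCoprime (4 : ℤ) (U * V) := by
      have : IsCoprime ((2 : ℤ) ^ 2) (U * V) := IsCoprime.pow_left
        (((hp2.coprime_iff_not_dvd).2 hU2).mul_right ((hp2.coprime_iff_not_dvd).2 hV2))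
      norm_num at this
      exact this
    apply hc.dvd_of_dvd_mul_left
    rw [h2]
    exact Dvd.intro _ rfl
  have h3 : U * (V * W') = σ ^ 3 := by
    rw [hW'] at h2
    have : (4 : ℤ) * (U * (V * W')) = 4 * σ ^ 3 := by linear_combination h2
    exact mul_left_cancel₀ (by norm_num) this
  have hUW' : IsCoprime U W' := by
    rw [hW'] at hUW
    exact hUW.of_mul_right_right
  have hVW' : IsCoprime V W' := by
    rw [hW'] at hVW
    exact hVW.of_mul_right_right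
  obtain ⟨⟨X, hX⟩, ⟨k, hk⟩⟩ := Int.eq_pow_of_mul_eq_pow_odd (hUV.mul_right hUW') (by decide) h3
  obtain ⟨⟨Y, hY⟩, ⟨Z, hZ⟩⟩ := Int.eq_pow_of_mul_eq_pow_odd hVW' (by decide) hk
  have hσXYZ : σ = X * Y * Z := by
    have : σ ^ 3 = (X * Y * Z) ^ 3 := by
      rw [← h3, hX, hY, hZ]; ring
    exact (Odd.strictMono_pow (by decide : Odd 3)).injective this
  have hsum : X ^ 3 + Y ^ 3 + 4 * Z ^ 3 = 4 * X * Y * Z := by
    rw [← hX, ← hY, ← hZ, ← hW']
    rw [hσ1, hσ, hσXYZ]; ring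
  have hX2 : ¬ (2 : ℤ) ∣ X := fun h4 => hU2 (hX ▸ dvd_pow h4 (by norm_num))
  have hY2 : ¬ (2 : ℤ) ∣ Y := fun h4 => hV2 (hY ▸ dvd_pow h4 (by norm_num))
  have hZ0 : Z ≠ 0 := by
    rintro rfl
    apply hW
    rw [hW', hZ]; norm_num
  have cXY : IsCoprime X Y := by
    rw [hX, hY] at hUV
    exact (IsCoprime.pow_iff (by norm_num) (by norm_num)).1 hUV
  have cXZ : IsCoprime X Z := by
    rw [hX, hZ] at hUW'
    exact (IsCoprime.pow_iff (by norm_num) (by norm_num)).1 hUW'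
  have cYZ : IsCoprime Y Z := by
    rw [hY, hZ] at hVW'
    exact (IsCoprime.pow_iff (by norm_num) (by norm_num)).1 hVW'
  obtain ⟨a, u, v, w, haZ, ha0, hs, hp⟩ := key_step hsum cXY cXZ cYZ hY2
  have ha := ha0 hZ0
  have huvw : u * v * w ≠ 0 := by
    rw [hp]
    positivity
  have h6 := three_lt_abs hsum hX2 hY2 hZ0
  refine ⟨u, v, w, ?_, ?_, ?_, ?_, ?_⟩
  · rintro rfl; simp at huvw
  · rintro rfl; simp at huvw
  · rintro rfl; simp at huvw
  · rw [hs]; linear_combination -16 * hp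
  · rw [hs, hσ1, hσ, hσXYZ]
    have h8 : 0 < |Z| := abs_pos.2 hZ0
    have h7 : |a| ≤ |Z| := Int.le_of_dvd h8 ((abs_dvd_abs a Z).2 haZ)
    rw [abs_mul] at h6
    have h9 : 4 * |Z| ≤ |X| * |Y| * |Z| := mul_le_mul_of_nonneg_right (by omega) h8.le
    rw [abs_mul, abs_mul, abs_mul, abs_mul (X * Y)]
    norm_num
    nlinarith

theorem no_int_sol (n : ℕ) : ∀ U V W : ℤ, U ≠ 0 → V ≠ 0 → W ≠ 0 →
    (U + V + W) ^ 3 = 16 * U * V * W → |U + V + W| = n → False := by
  induction n using Nat.strong_induction_on with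
  | _ n ih =>
    intro U V W hU hV hW h hn
    have hsum0 : U + V + W ≠ 0 := by
      intro h0
      rw [h0] at h
      have : 16 * U * V * W ≠ 0 := by positivity
      exact this (by rw [← h]; norm_num)
    by_cases hg : ∀ q : ℤ, Prime q → q ∣ U → q ∣ V → q ∣ W → False
    · have key : ∀ x y z : ℤ, x ≠ 0 → (x + y + z) ^ 3 = 16 * x * y * z →
          (∀ q : ℤ, Prime q → q ∣ x → q ∣ y → q ∣ z → False) → IsCoprime x y := by
        intro x y z hx hxyz hq
        refine isCoprime_of_prime_dvd (fun h => hx h.1) (fun q hq1 hqx hqy => ?_)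
        apply hq q hq1 hqx hqy
        have h1 : q ∣ (x + y + z) ^ 3 := by
          rw [hxyz, show 16 * x * y * z = x * (16 * y * z) by ring]
          exact Dvd.dvd.mul_right hqx _
        have h2 := hq1.dvd_of_dvd_pow h1
        have : z = (x + y + z) - (x + y) := by ring
        rw [this]
        exact dvd_sub h2 (dvd_add hqx hqy)
      have hUV : IsCoprime U V := key U V W hU h hg
      have hUW : IsCoprime U W := key U W V hU (by linear_combination h)
        (fun q h1 h2 h3 h4 => hg q h1 h2 h4 h3)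
      have hVW : IsCoprime V W := key V W U hV (by linear_combination h)
        (fun q h1 h2 h3 h4 => hg q h1 h4 h2 h3)
      have hfin : ∀ u v w : ℤ, u ≠ 0 → v ≠ 0 → w ≠ 0 → (u + v + w) ^ 3 = 16 * u * v * w →
          |u + v + w| < |U + V + W| → False := by
        intro u v w h1 h2 h3 h4 h5
        rw [hn] at h5
        have h6 := abs_nonneg (u + v + w)
        refine ih (|u + v + w|).toNat ?_ u v w h1 h2 h3 h4 ?_
        · omega
        · rw [Int.toNat_of_nonneg (abs_nonneg _)]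
      have h2 : (2 : ℤ) ∣ U * (V * W) := by
        obtain ⟨σ1, hσ1⟩ : (2 : ℤ) ∣ U + V + W :=
          Int.prime_two.dvd_of_dvd_pow (n := 3) (h ▸ ⟨8 * U * V * W, by ring⟩)
        have h1 : σ1 ^ 3 = 2 * U * V * W := by
          rw [hσ1] at h
          have : (8 : ℤ) * σ1 ^ 3 = 8 * (2 * U * V * W) := by linear_combination h
          exact mul_left_cancel₀ (by norm_num) this
        obtain ⟨σ, hσ⟩ : (2 : ℤ) ∣ σ1 :=
          Int.prime_two.dvd_of_dvd_pow (n := 3) (h1 ▸ ⟨U * V * W, by ring⟩)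
        refine ⟨2 * σ ^ 3, ?_⟩
        rw [hσ] at h1
        have : (2 : ℤ) * (U * (V * W)) = 2 * (2 * (2 * σ ^ 3)) := by linear_combination -h1
        exact mul_left_cancel₀ (by norm_num) this
      rcases Int.prime_two.dvd_or_dvd h2 with h3 | h3
      · obtain ⟨u, v, w, h4, h5, h6, h7, h8⟩ := descent_even hV hW hU (by linear_combination h)
          hVW hUV.symm hUW.symm h3
        exact hfin u v w h4 h5 h6 h7 (by rwa [show V + W + U = U + V + W by ring] at h8)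
      · rcases Int.prime_two.dvd_or_dvd h3 with h3 | h3
        · obtain ⟨u, v, w, h4, h5, h6, h7, h8⟩ := descent_even hU hW hV (by linear_combination h)
            hUW hUV hVW.symm h3
          exact hfin u v w h4 h5 h6 h7 (by rwa [show U + W + V = U + V + W by ring] at h8)
        · obtain ⟨u, v, w, h4, h5, h6, h7, h8⟩ := descent_even hU hV hW h hUV hUW hVW h3
          exact hfin u v w h4 h5 h6 h7 h8
    · push Not at hg
      obtain ⟨q, hq, ⟨U', rfl⟩, ⟨V', rfl⟩, ⟨W', rfl⟩, -⟩ := hg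
      have hq0 : q ≠ 0 := hq.ne_zero
      have hU' : U' ≠ 0 := right_ne_zero_of_mul hU
      have hV' : V' ≠ 0 := right_ne_zero_of_mul hV
      have hW' : W' ≠ 0 := right_ne_zero_of_mul hW
      have e : q * U' + q * V' + q * W' = q * (U' + V' + W') := by ring
      have h' : (U' + V' + W') ^ 3 = 16 * U' * V' * W' := by
        have : q ^ 3 * (U' + V' + W') ^ 3 = q ^ 3 * (16 * U' * V' * W') := by linear_combination h
        exact mul_left_cancel₀ (pow_ne_zero 3 hq0) this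
      refine ih (|U' + V' + W'|).toNat ?_ U' V' W' hU' hV' hW' h' ?_
      · rw [e, abs_mul] at hn
        rw [e] at hsum0
        have h9 : 0 < |U' + V' + W'| := abs_pos.2 (right_ne_zero_of_mul hsum0)
        have h10 : 2 ≤ |q| := by
          have := hq.not_isUnit
          rw [Int.isUnit_iff_abs_eq] at this
          have h11 : 0 < |q| := abs_pos.2 hq0
          omega
        have : |U' + V' + W'| < (n : ℤ) := by nlinarith
        omega
      · rw [Int.toNat_of_nonneg (abs_nonneg _)]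

/-- `(U + V + W)³ = 16 U V W` has no solution in nonzero rational numbers. -/
theorem no_rat_sol {U V W : ℚ} (hU : U ≠ 0) (hV : V ≠ 0) (hW : W ≠ 0)
    (h : (U + V + W) ^ 3 = 16 * U * V * W) : False := by
  set d : ℚ := ((U.den * V.den * W.den : ℕ) : ℚ) with hd
  have hUd : (U.den : ℚ) ≠ 0 := by exact_mod_cast U.den_ne_zero
  have hVd : (V.den : ℚ) ≠ 0 := by exact_mod_cast V.den_ne_zero
  have hWd : (W.den : ℚ) ≠ 0 := by exact_mod_cast W.den_ne_zero
  have hd0 : d ≠ 0 := by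
    rw [hd]; push_cast; positivity
  have e1 : d * U = ((U.num * V.den * W.den : ℤ) : ℚ) := by
    rw [hd]; push_cast
    nth_rewrite 2 [← Rat.num_div_den U]
    field_simp
  have e2 : d * V = ((U.den * V.num * W.den : ℤ) : ℚ) := by
    rw [hd]; push_cast
    nth_rewrite 2 [← Rat.num_div_den V]
    field_simp
  have e3 : d * W = ((U.den * V.den * W.num : ℤ) : ℚ) := by
    rw [hd]; push_cast
    nth_rewrite 2 [← Rat.num_div_den W]
    field_simp
  have h' : (d * U + d * V + d * W) ^ 3 = 16 * (d * U) * (d * V) * (d * W) := by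
    linear_combination d ^ 3 * h
  have f1 := mul_ne_zero hd0 hU
  have f2 := mul_ne_zero hd0 hV
  have f3 := mul_ne_zero hd0 hW
  rw [e1, e2, e3] at h'
  rw [e1] at f1
  rw [e2] at f2
  rw [e3] at f3
  exact no_int_sol _ _ _ _ (by exact_mod_cast f1) (by exact_mod_cast f2) (by exact_mod_cast f3)
    (by exact_mod_cast h') (Int.toNat_of_nonneg (abs_nonneg _)).symm

end Fermat.Agent.H11
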