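import Mathlib

/-!
# Eisenstein integers as a concrete Euclidean domain, and cubes in them
-/

set_option autoImplicit false

namespace Fermat.Agent.H11

/-- The ring `ℤ[ω]`, `ω² = -1 - ω`. -/
abbrev Eis : Type := QuadraticAlgebra ℤ (-1) (-1)

namespace Eis

open QuadraticAlgebra

/-- the norm, as an integer -/
def nrm (z : Eis) : ℤ := z.re ^ 2 - z.re * z.im + z.im ^ 2

lemma nrm_eq_norm (z : Eis) : nrm z = z.norm := by
  rw [norm_def, nrm]; ring

lemma nrm_mul (z w : Eis) : nrm (z * w) = nrm z * nrm w := by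
  simp only [nrm_eq_norm, map_mul]

lemma nrm_nonneg (z : Eis) : 0 ≤ nrm z := by
  have : 4 * nrm z = (2 * z.re - z.im) ^ 2 + 3 * z.im ^ 2 := by rw [nrm]; ring
  have h1 := sq_nonneg (2 * z.re - z.im)
  have h2 := sq_nonneg z.im
  linarith

lemma nrm_eq_zero {z : Eis} (h : nrm z = 0) : z = 0 := by
  have h4 : (2 * z.re - z.im) ^ 2 + 3 * z.im ^ 2 = 0 := by
    have : 4 * nrm z = (2 * z.re - z.im) ^ 2 + 3 * z.im ^ 2 := by rw [nrm]; ring
    rw [← this, h]; ring
  have h1 := sq_nonneg (2 * z.re - z.im)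
  have h2 := sq_nonneg z.im
  have h3 : z.im ^ 2 = 0 := by linarith
  have h5 : (2 * z.re - z.im) ^ 2 = 0 := by linarith
  have him : z.im = 0 := by simpa using h3
  have hre : 2 * z.re - z.im = 0 := by simpa using h5
  have hre' : z.re = 0 := by omega
  ext
  · simpa using hre'
  · simpa using him

lemma nrm_pos {z : Eis} (h : z ≠ 0) : 0 < nrm z :=
  lt_of_le_of_ne (nrm_nonneg z) (fun h' => h (nrm_eq_zero h'.symm))

/-- nearest integer to `c / n`. -/
def nearest (c n : ℤ) : ℤ := (2 * c + n) / (2 * n)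

lemma nearest_spec (c n : ℤ) (hn : 0 < n) :
    -n ≤ 2 * (c - n * nearest c n) ∧ 2 * (c - n * nearest c n) ≤ n := by
  have h1 := Int.emod_add_mul_ediv (2 * c + n) (2 * n)
  have h2 := Int.emod_nonneg (2 * c + n) (b := 2 * n) (by omega)
  have h3 := Int.emod_lt_of_pos (2 * c + n) (b := 2 * n) (by omega)
  rw [show (2 * c + n) / (2 * n) = nearest c n from rfl] at h1
  constructor <;> nlinarith

/-- quotient in the Euclidean division -/
def quo (x y : Eis) : Eis :=
  ⟨nearest (x * star y).re (nrm y), nearest (x * star y).im (nrm y)⟩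

lemma nrm_rem_lt (x : Eis) {y : Eis} (hy : y ≠ 0) : nrm (x - y * quo x y) < nrm y := by
  have hn := nrm_pos hy
  set n := nrm y with hnd
  set c := (x * star y).re with hc
  set d := (x * star y).im with hd
  have hstar : nrm (star y) = n := by
    rw [nrm_eq_norm, QuadraticAlgebra.norm_star, ← nrm_eq_norm]
  have hyy : y * star y = (n : Eis) := by
    ext
    · rw [re_intCast, hnd, nrm]; simp; ring
    · rw [im_intCast]; simp; ring
  have h1 : (x - y * quo x y) * star y = x * star y - (n : Eis) * quo x y := by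
    rw [sub_mul, ← hyy]; ring
  have h2 : (x * star y - (n : Eis) * quo x y) = ⟨c - n * nearest c n, d - n * nearest d n⟩ := by
    ext
    · simp [quo, hc, hnd]
    · simp [quo, hd, hnd]
  have h3 : nrm (x - y * quo x y) * n = (c - n * nearest c n) ^ 2
      - (c - n * nearest c n) * (d - n * nearest d n) + (d - n * nearest d n) ^ 2 := by
    have h5 := nrm_mul (x - y * quo x y) (star y)
    rw [hstar, h1, h2] at h5
    rw [← h5, nrm]
  obtain ⟨a1, a2⟩ := nearest_spec c n hn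
  obtain ⟨b1, b2⟩ := nearest_spec d n hn
  set e := c - n * nearest c n
  set f := d - n * nearest d n
  have h4 : nrm (x - y * quo x y) * n < n * n := by
    rw [h3]
    nlinarith [mul_self_nonneg (e - f), mul_self_nonneg (e + f), mul_nonneg (sub_nonneg.2 a2) (sub_nonneg.2 b2), mul_nonneg (sub_nonneg.2 a1) (sub_nonneg.2 b1), mul_nonneg (sub_nonneg.2 a2) (sub_nonneg.2 a1), mul_nonneg (sub_nonneg.2 b2) (sub_nonneg.2 b1), mul_nonneg (sub_nonneg.2 a2) (sub_nonneg.2 b1), mul_nonneg (sub_nonneg.2 a1) (sub_nonneg.2 b2)]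
  exact lt_of_mul_lt_mul_right h4 hn.le

noncomputable instance : EuclideanDomain Eis where
  quotient := quo
  quotient_zero x := by
    ext <;> simp [quo, nearest, nrm]
  remainder x y := x - y * quo x y
  quotient_mul_add_remainder_eq x y := by ring
  r x y := (nrm x).toNat < (nrm y).toNat
  r_wellFounded := (measure fun x : Eis => (nrm x).toNat).wf
  remainder_lt x y hy := by
    have h1 := nrm_rem_lt x hy
    have h2 := nrm_nonneg (x - y * quo x y)
    have h3 := nrm_pos hy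
    show (nrm (x - y * quo x y)).toNat < (nrm y).toNat
    omega
  mul_left_not_lt x y hy := by
    have h1 := nrm_pos hy
    have h2 := nrm_nonneg x
    show ¬ (nrm (x * y)).toNat < (nrm x).toNat
    rw [nrm_mul]
    have : nrm x ≤ nrm x * nrm y := by nlinarith
    omega

lemma unit_cases {z : Eis} (h : IsUnit z) :
    (z.re = 1 ∧ z.im = 0) ∨ (z.re = -1 ∧ z.im = 0) ∨ (z.re = 0 ∧ z.im = 1) ∨
    (z.re = 0 ∧ z.im = -1) ∨ (z.re = 1 ∧ z.im = 1) ∨ (z.re = -1 ∧ z.im = -1) := by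
  rw [isUnit_iff_norm_isUnit, ← nrm_eq_norm, Int.isUnit_iff] at h
  have hn : nrm z = 1 := by
    rcases h with h | h
    · exact h
    · have := nrm_nonneg z; omega
  rw [nrm] at hn
  have h4 : (2 * z.re - z.im) ^ 2 + 3 * z.im ^ 2 = 4 := by linarith
  have h1 : z.im ≤ 1 := by nlinarith [sq_nonneg (2 * z.re - z.im)]
  have h2 : -1 ≤ z.im := by nlinarith [sq_nonneg (2 * z.re - z.im)]
  have h5 : (2 * z.im - z.re) ^ 2 + 3 * z.re ^ 2 = 4 := by linarith
  have h6 : z.re ≤ 1 := by nlinarith [sq_nonneg (2 * z.im - z.re)]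
  have h7 : -1 ≤ z.re := by nlinarith [sq_nonneg (2 * z.im - z.re)]
  obtain h8 | h8 | h8 : z.re = -1 ∨ z.re = 0 ∨ z.re = 1 := by omega
  all_goals
    obtain h9 | h9 | h9 : z.im = -1 ∨ z.im = 0 ∨ z.im = 1 := by omega
    all_goals
      first
        | (simp [h8, h9]; done)
        | (exfalso; rw [h8, h9] at hn; revert hn; norm_num)

/-- If `s + tω` is primitive with norm a cube prime to `3`, then it is a cube up to a power
of `ω`. -/
theorem cube_of_norm {s t m : ℤ} (hst : IsCoprime s t) (h3 : ¬ (3 : ℤ) ∣ m)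
    (h : s ^ 2 - s * t + t ^ 2 = m ^ 3) :
    ∃ p q : ℤ,
      (s = p ^ 3 + q ^ 3 - 3 * p * q ^ 2 ∧ t = 3 * p ^ 2 * q - 3 * p * q ^ 2) ∨
      (s = 3 * p * q ^ 2 - 3 * p ^ 2 * q ∧ t = p ^ 3 + q ^ 3 - 3 * p ^ 2 * q) ∨
      (s = 3 * p ^ 2 * q - p ^ 3 - q ^ 3 ∧ t = 3 * p * q ^ 2 - p ^ 3 - q ^ 3) := by
  set α : Eis := ⟨s, t⟩ with hα
  have hmul : α * star α = (m : Eis) ^ 3 := by
    have h1 : ((m ^ 3 : ℤ) : Eis) = α * star α := by
      rw [← h]
      ext
      · rw [re_intCast]; simp [hα]; ring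
      · rw [im_intCast]; simp [hα]; ring
    rw [← h1]; push_cast; rfl
  set θ : Eis := ⟨1, 2⟩ with hθ
  set w : Eis := ⟨0, 1⟩ with hw
  set w2 : Eis := ⟨-1, -1⟩ with hw2
  have hcop : IsCoprime α (star α) := by
    obtain ⟨a, b, hab⟩ := hst
    have h3m : IsCoprime (3 : ℤ) (m ^ 3) := by
      apply IsCoprime.pow_right
      exact (Int.prime_three.coprime_iff_not_dvd).2 h3
    obtain ⟨c, d, hcd⟩ := h3m
    have e1 : α - star α = (t : Eis) * θ := by
      ext <;> simp [hα, hθ, mul_comm] <;> ring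
    have e2 : w2 * α - w * star α = -((s : Eis) * θ) := by
      ext <;> simp [hα, hθ, hw, hw2, mul_comm] <;> ring
    have e3 : θ * θ = -3 := by
      ext <;> simp [hθ]
    have hab' : (a : Eis) * s + b * t = 1 := by
      exact_mod_cast congrArg (fun z : ℤ => (z : Eis)) hab
    have hcd' : (c : Eis) * 3 + d * m ^ 3 = 1 := by
      exact_mod_cast congrArg (fun z : ℤ => (z : Eis)) hcd
    -- θ = (a s + b t) θ
    have e4 : θ = (b - a * w2) * α + (a * w - b) * star α := by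
      calc θ = ((a : Eis) * s + b * t) * θ := by rw [hab', one_mul]
        _ = a * (s * θ) + b * (t * θ) := by ring
        _ = a * (-(w2 * α - w * star α)) + b * (α - star α) := by rw [e1, e2]; ring
        _ = _ := by ring
    refine ⟨-c * θ * (b - a * w2) + d * star α, -c * θ * (a * w - b), ?_⟩
    calc (-c * θ * (b - a * w2) + d * star α) * α + -c * θ * (a * w - b) * star α
        = -c * θ * ((b - a * w2) * α + (a * w - b) * star α) + d * (α * star α) := by ring
      _ = -c * (θ * θ) + d * m ^ 3 := by rw [← e4, hmul]; ring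
      _ = 1 := by rw [e3, ← hcd']; ring
  obtain ⟨β, u, hu⟩ := exists_associated_pow_of_mul_eq_pow' hcop hmul
  have hβ3 : ∀ p q : ℤ, (⟨p, q⟩ : Eis) ^ 3 =
      ⟨p ^ 3 + q ^ 3 - 3 * p * q ^ 2, 3 * p ^ 2 * q - 3 * p * q ^ 2⟩ := by
    intro p q
    rw [pow_succ, pow_two]
    ext <;> simp <;> ring
  have hs : s = α.re := rfl
  have ht : t = α.im := rfl
  have hβ : β = ⟨β.re, β.im⟩ := rfl
  rw [hβ, hβ3] at hu
  have hre := congrArg QuadraticAlgebra.re hu
  have him := congrArg QuadraticAlgebra.im hu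
  rw [re_mul] at hre
  rw [im_mul] at him
  simp only [← hs, ← ht] at hre him
  rcases unit_cases u.isUnit with ⟨h1, h2⟩ | ⟨h1, h2⟩ | ⟨h1, h2⟩ | ⟨h1, h2⟩ | ⟨h1, h2⟩ | ⟨h1, h2⟩
  · refine ⟨β.re, β.im, Or.inl ⟨?_, ?_⟩⟩
    · rw [← hre, h1, h2]; ring
    · rw [← him, h1, h2]; ring
  · refine ⟨-β.re, -β.im, Or.inl ⟨?_, ?_⟩⟩
    · rw [← hre, h1, h2]; ring
    · rw [← him, h1, h2]; ring
  · refine ⟨β.re, β.im, Or.inr (Or.inl ⟨?_, ?_⟩)⟩
    · rw [← hre, h1, h2]; ring
    · rw [← him, h1, h2]; ring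
  · refine ⟨-β.re, -β.im, Or.inr (Or.inl ⟨?_, ?_⟩)⟩
    · rw [← hre, h1, h2]; ring
    · rw [← him, h1, h2]; ring
  · refine ⟨-β.re, -β.im, Or.inr (Or.inr ⟨?_, ?_⟩)⟩
    · rw [← hre, h1, h2]; ring
    · rw [← him, h1, h2]; ring
  · refine ⟨β.re, β.im, Or.inr (Or.inr ⟨?_, ?_⟩)⟩
    · rw [← hre, h1, h2]; ring
    · rw [← him, h1, h2]; ring

end Eis

end Fermat.Agent.H11
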