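import Mathlib
import Fermat.Agent.H15Defs

/-!
MZ-A4: Fitting idempotents for finite modules over a commutative ring.
-/

set_option autoImplicit false

namespace Fermat.Agent.H85

open ModularCurve Fermat.Agent.H15

section general

variable {R M : Type*} [CommRing R] [AddCommGroup M] [Module R M]

/-- elements killed by `P ^ n` -/
lemma smul_mem_pow_of_mem {P : Ideal R} {n : ℕ} {t : R} (ht : t ∈ P ^ n) (x : M) :
    t • x ∈ (P ^ n • ⊤ : Submodule R M) :=
  Submodule.smul_mem_smul ht trivial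

/-- **Fitting idempotents**: a finite module, `P` an ideal. There is a scalar which is the identity
on the `P`-power torsion and maps everything into the `P`-power torsion. -/
theorem exists_fitting (P : Ideal R) [Finite M] :
    ∃ e : R, (∀ x : M, ∃ n : ℕ, ∀ t ∈ P ^ n, t • e • x = 0) ∧
      ∀ x : M, (∃ n : ℕ, ∀ t ∈ P ^ n, t • x = 0) → e • x = x := by
  classical
  have := Fintype.ofFinite M
  -- stabilisation of `P^n M`
  obtain ⟨n₁, hn₁⟩ : ∃ n₁ : ℕ, (P ^ n₁ • ⊤ : Submodule R M) ≤ P • (P ^ n₁ • ⊤ : Submodule R M) := by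
    have hanti : Antitone fun n : ℕ => (P ^ n • ⊤ : Submodule R M) := fun a b hab =>
      Submodule.smul_mono_left (Ideal.pow_le_pow_right hab)
    have := IsArtinian.monotone_stabilizes (R := R) (M := M)
      ⟨fun n : ℕ => OrderDual.toDual (P ^ n • ⊤ : Submodule R M), fun a b hab => hanti hab⟩
    obtain ⟨n, hn⟩ := this
    refine ⟨n, ?_⟩
    have h := hn (n + 1) (Nat.le_succ n)
    have h' : (P ^ n • ⊤ : Submodule R M) = P ^ (n + 1) • ⊤ := h
    rw [pow_succ', ← smul_eq_mul, Submodule.smul_assoc] at h'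
    exact h'.le
  obtain ⟨r, hr1, hr⟩ := Submodule.exists_sub_one_mem_and_smul_eq_zero_of_fg_of_le_smul P
    (P ^ n₁ • ⊤ : Submodule R M) (Submodule.FG.of_finite) hn₁
  -- bound for the exponents
  obtain ⟨n₂, hn₂⟩ : ∃ n₂ : ℕ, ∀ x : M, (∃ n : ℕ, ∀ t ∈ P ^ n, t • x = 0) →
      ∀ t ∈ P ^ n₂, t • x = 0 := by
    have h : ∀ x : M, ∃ m : ℕ, (∃ n : ℕ, ∀ t ∈ P ^ n, t • x = 0) → ∀ t ∈ P ^ m, t • x = 0 := by
      intro x
      by_cases hx : ∃ n : ℕ, ∀ t ∈ P ^ n, t • x = 0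
      · obtain ⟨n, hn⟩ := hx
        exact ⟨n, fun _ => hn⟩
      · exact ⟨0, fun h => absurd h hx⟩
    choose m hm using h
    refine ⟨Finset.univ.sup m, fun x hx t ht => hm x hx t ?_⟩
    exact Ideal.pow_le_pow_right (Finset.le_sup (f := m) (Finset.mem_univ x)) ht
  refine ⟨1 - (1 - r) ^ (n₂ + 1), fun x => ⟨n₁, fun t ht => ?_⟩, fun x hx => ?_⟩
  · have h1 : t • x ∈ (P ^ n₁ • ⊤ : Submodule R M) := smul_mem_pow_of_mem ht x
    have h2 : r ∣ 1 - (1 - r) ^ (n₂ + 1) := by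
      have h3 := sub_dvd_pow_sub_pow (1 : R) (1 - r) (n₂ + 1)
      rwa [sub_sub_cancel, one_pow] at h3
    obtain ⟨s, hs⟩ := h2
    rw [smul_smul, mul_comm t, ← smul_smul, hs, mul_comm r, ← smul_smul, hr _ h1, smul_zero]
  · have h1 : (1 - r) ^ (n₂ + 1) ∈ P ^ n₂ := by
      apply Ideal.pow_le_pow_right (Nat.le_succ n₂)
      apply Ideal.pow_mem_pow
      rw [← neg_sub]
      exact P.neg_mem hr1
    rw [sub_smul, one_smul, hn₂ x hx _ h1, sub_zero]

end general

section J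

variable (N r : ℕ) (J : Type) [AddCommGroup J] [Module HeckeAlg J]

/-- **MZ-A4**: the Fitting idempotent for `W_k`. -/
theorem exists_epsilon (k : ℕ) (hfin : {x : J | (r ^ k : ℕ) • x = 0}.Finite) :
    ∃ ε : HeckeAlg, (∀ x : J, (r ^ k : ℕ) • x = 0 → ε • x ∈ WSub N r J k) ∧
      ∀ x ∈ WSub N r J k, ε • x = x := by
  let T : Submodule HeckeAlg J :=
    { carrier := {x : J | (r ^ k : ℕ) • x = 0}
      add_mem' := by
        rintro x y hx hy
        show (r ^ k : ℕ) • (x + y) = 0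
        rw [smul_add, show (r ^ k : ℕ) • x = 0 from hx, show (r ^ k : ℕ) • y = 0 from hy, add_zero]
      zero_mem' := smul_zero _
      smul_mem' := by
        intro c x hx
        show (r ^ k : ℕ) • c • x = 0
        rw [smul_comm, show (r ^ k : ℕ) • x = 0 from hx, smul_zero] }
  have hT : Finite T := hfin
  obtain ⟨e, he1, he2⟩ := exists_fitting (M := T) (eisP N r)
  refine ⟨e, fun x hx => ?_, fun x hx => ?_⟩
  · obtain ⟨n, hn⟩ := he1 ⟨x, hx⟩
    exact ⟨T.smul_mem e hx, n, fun t ht => congrArg Subtype.val (hn t ht)⟩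
  · obtain ⟨hx1, n, hn⟩ := hx
    exact congrArg Subtype.val (he2 ⟨x, hx1⟩ ⟨n, fun t ht => Subtype.ext (hn t ht)⟩)

variable {N r J}

lemma WSub_le_succ (k : ℕ) : WSub N r J k ≤ WSub N r J (k + 1) := by
  rintro x ⟨h1, h2⟩
  exact ⟨by rw [pow_succ', mul_smul, h1, smul_zero], h2⟩

lemma WSub_mono {k l : ℕ} (h : k ≤ l) : WSub N r J k ≤ WSub N r J l := by
  induction l, h using Nat.le_induction with
  | base => exact le_rfl
  | succ l _ ih => exact ih.trans (WSub_le_succ l)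

lemma smul_mem_WSub (k : ℕ) (t : HeckeAlg) {x : J} (hx : x ∈ WSub N r J k) :
    t • x ∈ WSub N r J k := by
  obtain ⟨h1, n, hn⟩ := hx
  exact ⟨by rw [smul_comm, h1, smul_zero], n, fun s hs => by rw [smul_comm, hn s hs, smul_zero]⟩

/-- multiplication by `r` is surjective on `W` -/
theorem exists_smul_eq (hdiv : ∀ x : J, ∃ y : J, r • y = x) (k : ℕ)
    (hfin : {x : J | (r ^ (k + 1) : ℕ) • x = 0}.Finite) {x : J} (hx : x ∈ WSub N r J k) :
    ∃ y ∈ WSub N r J (k + 1), r • y = x := by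
  obtain ⟨ε, h1, h2⟩ := exists_epsilon N r J (k + 1) hfin
  obtain ⟨y, hy⟩ := hdiv x
  refine ⟨ε • y, h1 y ?_, ?_⟩
  · rw [pow_succ, mul_smul, hy]; exact hx.1
  · rw [smul_comm, hy, h2 x (WSub_le_succ k hx)]

/-- multiplication by `r ^ m` is surjective on `W` -/
theorem exists_pow_smul_eq (hdiv : ∀ x : J, ∃ y : J, r • y = x)
    (hfin : ∀ k : ℕ, {x : J | (r ^ k : ℕ) • x = 0}.Finite) (m k : ℕ) {x : J}
    (hx : x ∈ WSub N r J k) : ∃ y ∈ WSub N r J (k + m), (r ^ m : ℕ) • y = x := by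
  induction m with
  | zero => exact ⟨x, hx, by simp⟩
  | succ m ih =>
    obtain ⟨y, hy, hyx⟩ := ih
    obtain ⟨z, hz, hzy⟩ := exists_smul_eq hdiv (k + m) (hfin _) hy
    exact ⟨z, hz, by rw [pow_succ, mul_smul, hzy, hyx]⟩

end J

end Fermat.Agent.H85
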