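import Mathlib
import Fermat.Agent.H15Defs
import Fermat.Agent.H85Fit

/-!
# MZ-F1d: abstract part (helper12)
-/

set_option autoImplicit false

noncomputable section

namespace Fermat.Agent.H12F

open ModularCurve AlgebraicCurve Fermat.Agent.H15

section Gen

variable {R M : Type*} [CommRing R] [AddCommGroup M] [Module R M]

/-- Fitting idempotent for a finite module and a quotient of it -/
theorem fitting_pair (P : Ideal R) (M₁ K : Submodule R M) [Finite M₁] :
    ∃ e : R, (∀ x ∈ M₁, ∃ n : ℕ, ∀ t ∈ P ^ n, t • e • x = 0) ∧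
      ∀ x ∈ M₁, (∃ n : ℕ, ∀ t ∈ P ^ n, t • x ∈ K) → e • x - x ∈ K := by
  have hq : Finite (M₁ ⧸ K.comap M₁.subtype) :=
    Finite.of_surjective _ (Submodule.Quotient.mk_surjective (K.comap M₁.subtype))
  obtain ⟨e, he1, he2⟩ := H85.exists_fitting (M := M₁ × (M₁ ⧸ K.comap M₁.subtype)) P
  refine ⟨e, fun x hx => ?_, fun x hx ⟨n, hn⟩ => ?_⟩
  · obtain ⟨n, hn⟩ := he1 (⟨x, hx⟩, 0)
    refine ⟨n, fun t ht => ?_⟩
    exact congrArg (fun z : M₁ × (M₁ ⧸ K.comap M₁.subtype) => ((z.1 : M₁) : M)) (hn t ht)
  · have h3 : e • ((0 : M₁), (Submodule.Quotient.mk ⟨x, hx⟩ : M₁ ⧸ K.comap M₁.subtype)) =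
        ((0 : M₁), (Submodule.Quotient.mk ⟨x, hx⟩ : M₁ ⧸ K.comap M₁.subtype)) := by
      refine he2 _ ⟨n, fun t ht => Prod.ext (smul_zero t) ?_⟩
      show t • (Submodule.Quotient.mk ⟨x, hx⟩ : M₁ ⧸ K.comap M₁.subtype) = 0
      rw [← Submodule.Quotient.mk_smul, Submodule.Quotient.mk_eq_zero]
      exact hn t ht
    have h5 : (Submodule.Quotient.mk (e • (⟨x, hx⟩ : M₁)) : M₁ ⧸ K.comap M₁.subtype) =
        Submodule.Quotient.mk ⟨x, hx⟩ := by
      have := congrArg Prod.snd h3
      rw [Submodule.Quotient.mk_smul]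
      exact this
    rw [Submodule.Quotient.eq] at h5
    exact h5

end Gen

section Sub

/-- the subalgebra generated by the `T_q`, `q ≠ N` -/
def SN (N : ℕ) : Subalgebra ℤ HeckeAlg :=
  Algebra.adjoin ℤ {t | ∃ q : Nat.Primes, (q : ℕ) ≠ N ∧ t = heckeGen q}

variable {N : ℕ}

theorem heckeGen_mem (q : Nat.Primes) (hq : (q : ℕ) ≠ N) : heckeGen q ∈ SN N :=
  Algebra.subset_adjoin ⟨q, hq, rfl⟩

theorem eta_mem (q : Nat.Primes) (hq : (q : ℕ) ≠ N) :
    heckeGen q - MvPolynomial.C (1 + (q : ℤ)) ∈ SN N :=
  sub_mem (heckeGen_mem q hq) ((SN N).algebraMap_mem (1 + (q : ℤ)))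

/-- the element `T_q - 1 - q` of `SN N` -/
def eta (q : Nat.Primes) (hq : (q : ℕ) ≠ N) : SN N := ⟨_, eta_mem q hq⟩

variable (N) in
/-- the Eisenstein ideal of `SN N` -/
def eisS (r : ℕ) : Ideal (SN N) :=
  Ideal.span ({(r : SN N)} ∪ {t | ∃ (q : Nat.Primes) (hq : (q : ℕ) ≠ N), t = eta q hq})

theorem eisP_le (r : ℕ) : eisP N r ≤ (eisS N r).map (algebraMap (SN N) HeckeAlg) := by
  rw [eisP, Ideal.span_le]
  rintro t (ht | ⟨q, hq, rfl⟩)
  · have ht' : t = (r : HeckeAlg) := ht
    rw [ht', ← map_natCast (algebraMap (SN N) HeckeAlg) r]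
    exact Ideal.mem_map_of_mem _ (Ideal.subset_span (Or.inl rfl))
  · exact Ideal.mem_map_of_mem (algebraMap (SN N) HeckeAlg)
      (Ideal.subset_span (Or.inr ⟨q, hq, rfl⟩) : eta q hq ∈ eisS N r)

variable {J : Type} [AddCommGroup J] [Module HeckeAlg J]

theorem smul_eq_zero_of_eisP_pow {r n : ℕ} {x : J}
    (h : ∀ t ∈ (eisS N r) ^ n, (t : HeckeAlg) • x = 0) :
    ∀ t ∈ (eisP N r) ^ n, t • x = 0 := by
  intro t ht
  have h1 : t ∈ ((eisS N r) ^ n).map (algebraMap (SN N) HeckeAlg) := by
    rw [Ideal.map_pow]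
    exact Ideal.pow_right_mono (eisP_le r) n ht
  rw [Ideal.map] at h1
  clear ht
  induction h1 using Submodule.span_induction with
  | mem y hy =>
    obtain ⟨z, hz, rfl⟩ := hy
    exact h z hz
  | zero => exact zero_smul _ _
  | add y z _ _ hy hz =>
    rw [add_smul, hy, hz, add_zero]
  | smul a y _ hy =>
    rw [smul_assoc, hy, smul_zero]

variable (N J) in
/-- the `r`-torsion as a module over `SN N` -/
def torsS (r : ℕ) : Submodule (SN N) J where
  carrier := {x | r • x = 0}
  add_mem' := fun {a b} ha hb => by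
    show r • (a + b) = 0
    have ha' : r • a = 0 := ha
    have hb' : r • b = 0 := hb
    rw [smul_add, ha', hb', add_zero]
  zero_mem' := smul_zero _
  smul_mem' := fun s a ha => by
    show r • ((s : HeckeAlg) • a) = 0
    have ha' : r • a = 0 := ha
    rw [smul_comm, ha', smul_zero]

end Sub

section Main

variable {N r : ℕ} {J : Type} [AddCommGroup J] [Module HeckeAlg J]
  {Y : Type*} [AddCommGroup Y] (red : J →+ Y) {k : Type} [Field k]
  (R : Y → PowerSeries k → Prop)

/-- a relation between classes and forms, compatible with all structures -/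
structure RelData (N r : ℕ) (V : AddSubgroup (PowerSeries k)) : Prop where
  zero : R 0 0
  sub : ∀ y y' f f', R y f → R y' f' → R (y - y') (f - f')
  uniq : ∀ y f f', R y f → R y f' → f = f'
  ker : ∀ y, R y 0 → y = 0
  tq_mem : ∀ q : ℕ, q.Prime → q ≠ N → ∀ f ∈ V, Tq k q f ∈ V
  hecke : ∀ q : Nat.Primes, (q : ℕ) ≠ N → ∀ x : J, r • x = 0 → ∀ f ∈ V, R (red x) f →
    R (red (heckeGen q • x)) (Tq k q f)
  nil : ∀ f ∈ V, ∃ n : ℕ, ∀ l : List ℕ, l.length = n → (∀ q ∈ l, q.Prime ∧ q ≠ N) →
    (l.map (TEis k)).prod f = 0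
  lift : ∀ f ∈ V, ∃ x : J, r • x = 0 ∧ R (red x) f

variable {red R} {V : AddSubgroup (PowerSeries k)} (H : RelData red R N r V)

include H

theorem RelData.nsmul (y : Y) (f : PowerSeries k) (h : R y f) (n : ℕ) : R (n • y) (n • f) := by
  induction n with
  | zero => rw [zero_nsmul, zero_nsmul]; exact H.zero
  | succ n ih =>
    have h1 := H.sub _ _ _ _ ih (H.sub _ _ _ _ H.zero h)
    rw [zero_sub, zero_sub, sub_neg_eq_add, sub_neg_eq_add, ← succ_nsmul, ← succ_nsmul] at h1
    exact h1

/-- the kernel of the reduction on the `r`-torsion is stable under `SN N` -/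
theorem RelData.ker_stable (s : SN N) : ∀ x : J, r • x = 0 → red x = 0 →
    r • ((s : HeckeAlg) • x) = 0 ∧ red ((s : HeckeAlg) • x) = 0 := by
  obtain ⟨s, hs⟩ := s
  show ∀ x : J, r • x = 0 → red x = 0 → r • (s • x) = 0 ∧ red (s • x) = 0
  have hr : ∀ (t : HeckeAlg) (x : J), r • x = 0 → r • (t • x) = 0 := fun t x hx => by
    rw [smul_comm, hx, smul_zero]
  unfold SN at hs
  induction hs using Algebra.adjoin_induction with
  | mem t ht =>
    obtain ⟨q, hq, rfl⟩ := ht
    intro x hx hx0
    refine ⟨hr _ x hx, ?_⟩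
    have h1 := H.hecke q hq x hx 0 V.zero_mem (by rw [hx0]; exact H.zero)
    rw [map_zero] at h1
    exact H.ker _ h1
  | algebraMap n =>
    intro x hx hx0
    refine ⟨hr _ x hx, ?_⟩
    have h1 : (algebraMap ℤ HeckeAlg n) • x = n • x := algebraMap_smul HeckeAlg n x
    rw [h1, map_zsmul, hx0, smul_zero]
  | add s t _ _ hs ht =>
    intro x hx hx0
    refine ⟨hr _ x hx, ?_⟩
    rw [add_smul, map_add, (hs x hx hx0).2, (ht x hx hx0).2, add_zero]
  | mul s t _ _ hs ht =>
    intro x hx hx0
    refine ⟨hr _ x hx, ?_⟩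
    rw [mul_smul]
    exact (hs _ (ht x hx hx0).1 (ht x hx hx0).2).2

/-- nilpotency of the Eisenstein ideal on the classes attached to forms -/
theorem RelData.nilp (n : ℕ) : ∀ x : J, r • x = 0 → ∀ f ∈ V, R (red x) f →
    (∀ l : List ℕ, l.length = n → (∀ q ∈ l, q.Prime ∧ q ≠ N) → (l.map (TEis k)).prod f = 0) →
    ∀ t ∈ (eisS N r) ^ n, red ((t : HeckeAlg) • x) = 0 := by
  induction n with
  | zero =>
    intro x hx f hf hR hl t _
    have h0 : f = 0 := by
      have := hl [] rfl (by simp)
      simpa using this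
    subst h0
    exact (H.ker_stable t x hx (H.ker _ hR)).2
  | succ n ih =>
    intro x hx f hf hR hl t ht
    rw [pow_succ] at ht
    induction ht using Submodule.mul_induction_on' with
    | add a ha b hb h1 h2 =>
      have e : ((a + b : SN N) : HeckeAlg) • x = (a : HeckeAlg) • x + (b : HeckeAlg) • x := by
        rw [← add_smul]; rfl
      rw [e, map_add, h1, h2, add_zero]
    | mem_mul_mem a ha b hb =>
      -- generators
      have key : ∀ b ∈ eisS N r, ∀ a ∈ (eisS N r) ^ n,
          red (((a * b : SN N) : HeckeAlg) • x) = 0 := by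
        intro b hb
        unfold eisS at hb
        induction hb using Submodule.span_induction with
        | mem b hb =>
          intro a ha
          rcases hb with hb | ⟨q, hq, rfl⟩
          · have hb' : b = (r : SN N) := hb
            subst hb'
            have e : ((a * (r : SN N) : SN N) : HeckeAlg) • x = (a : HeckeAlg) • (r • x) := by
              have e1 : ((a * (r : SN N) : SN N) : HeckeAlg) = (a : HeckeAlg) * (r : HeckeAlg) := by
                push_cast; rfl
              rw [e1, mul_smul, Nat.cast_smul_eq_nsmul]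
            rw [e, hx, smul_zero, map_zero]
          · have e : ((a * eta q hq : SN N) : HeckeAlg) • x =
                (a : HeckeAlg) • ((heckeGen q - MvPolynomial.C (1 + (q : ℤ))) • x) := by
              rw [← mul_smul]; rfl
            rw [e]
            have e2 : (heckeGen q - MvPolynomial.C (1 + (q : ℤ))) • x =
                heckeGen q • x - (1 + (q : ℕ)) • x := by
              rw [sub_smul]
              congr 1
              have h3 : (MvPolynomial.C (1 + (q : ℤ)) : HeckeAlg) • x = (1 + (q : ℤ)) • x :=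
                algebraMap_smul HeckeAlg (1 + (q : ℤ)) x
              rw [h3, ← natCast_zsmul]
              push_cast
              rfl
            rw [e2]
            have hqp : (q : ℕ).Prime := q.2
            have h4 : R (red (heckeGen q • x - (1 + (q : ℕ)) • x)) (TEis k q f) := by
              have h5 := H.sub _ _ _ _ (H.hecke q hq x hx f hf hR)
                (H.nsmul _ _ hR (1 + (q : ℕ)))
              have e3 : TEis k q f = Tq k q f - (1 + (q : ℕ)) • f := by
                show Tq k q f - (1 + ((q : ℕ) : k)) • f = _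
                congr 1
                rw [← Nat.cast_smul_eq_nsmul k (1 + (q : ℕ)) f]
                push_cast
                rfl
              rw [map_sub, map_nsmul, e3]
              exact h5
            refine ih _ ?_ (TEis k q f) ?_ h4 ?_ a ha
            · rw [smul_sub, smul_comm, hx, smul_zero, smul_comm, hx, smul_zero, sub_zero]
            · show Tq k q f - (1 + ((q : ℕ) : k)) • f ∈ V
              refine sub_mem (H.tq_mem q hqp hq f hf) ?_
              have e4 : (1 + ((q : ℕ) : k)) • f = (1 + (q : ℕ)) • f := by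
                rw [← Nat.cast_smul_eq_nsmul k (1 + (q : ℕ)) f]
                push_cast
                rfl
              rw [e4]
              exact nsmul_mem hf _
            · intro l hl' hlq
              have h6 := hl (l ++ [(q : ℕ)]) (by simp [hl']) (by
                intro q' hq'
                rcases List.mem_append.mp hq' with h7 | h7
                · exact hlq q' h7
                · rw [List.mem_singleton] at h7
                  subst h7
                  exact ⟨hqp, hq⟩)
              rw [List.map_append, List.prod_append, Module.End.mul_apply] at h6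
              simpa using h6
        | zero =>
          intro a _
          have e : ((a * 0 : SN N) : HeckeAlg) • x = 0 := by
            rw [mul_zero]
            show (0 : HeckeAlg) • x = 0
            exact zero_smul _ _
          rw [e, map_zero]
        | add b b' _ _ hb hb' =>
          intro a ha
          have e : ((a * (b + b') : SN N) : HeckeAlg) • x =
              ((a * b : SN N) : HeckeAlg) • x + ((a * b' : SN N) : HeckeAlg) • x := by
            rw [mul_add, ← add_smul]; rfl
          rw [e, map_add, hb a ha, hb' a ha, add_zero]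
        | smul c b _ hb =>
          intro a ha
          have e : a * (c • b) = (a * c) * b := by
            rw [smul_eq_mul]; ring
          rw [e]
          exact hb (a * c) (Ideal.mul_mem_right c _ ha)
      exact key b hb a ha

/-- the classes attached to the forms in `V` lift to `W[r]` -/
theorem RelData.exists_mem_WSub (hfin : {x : J | r • x = 0}.Finite) (f : PowerSeries k)
    (hf : f ∈ V) : ∃ x ∈ WSub N r J 1, R (red x) f := by
  classical
  obtain ⟨x, hx, hR⟩ := H.lift f hf
  obtain ⟨n, hn⟩ := H.nil f hf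
  have hM₁ : Finite (torsS N J r) := hfin
  let Kr : Submodule (SN N) J :=
    { carrier := {x | r • x = 0 ∧ red x = 0}
      add_mem' := fun {a b} ha hb => ⟨by rw [smul_add, ha.1, hb.1, add_zero],
        by rw [map_add, ha.2, hb.2, add_zero]⟩
      zero_mem' := ⟨smul_zero r, map_zero red⟩
      smul_mem' := fun s a ha => H.ker_stable s a ha.1 ha.2 }
  obtain ⟨e, he1, he2⟩ := fitting_pair (eisS N r) (torsS N J r) Kr
  -- `e x` is Eisenstein
  obtain ⟨n₁, hn₁⟩ := he1 x hx
  have hmem : (e : HeckeAlg) • x ∈ WSub N r J 1 := by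
    refine ⟨?_, n₁, smul_eq_zero_of_eisP_pow hn₁⟩
    rw [pow_one, smul_comm, hx, smul_zero]
  -- `e x` has the same reduction
  have h6 : red ((e : HeckeAlg) • x - x) = 0 :=
    (he2 x hx ⟨n, fun t ht => ⟨by
      show r • ((t : HeckeAlg) • x) = 0
      rw [smul_comm, hx, smul_zero], H.nilp n x hx f hf hR hn t ht⟩⟩).2
  refine ⟨_, hmem, ?_⟩
  rw [map_sub, sub_eq_zero] at h6
  rw [h6]
  exact hR

/-- the count -/
theorem RelData.card_mul_le (hfin : {x : J | r • x = 0}.Finite) (S : Finset (PowerSeries k))
    (hS : ∀ f ∈ S, f ∈ V) (K : AddSubgroup J) (hK : ∀ x, x ∈ K ↔ red x = 0)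
    (hW : Finite (WSub N r J 1)) :
    Nat.card (WSub N r J 1 ⊓ K : AddSubgroup J) * S.card ≤ Nat.card (WSub N r J 1) := by
  classical
  have hex : ∀ f : S, ∃ x ∈ WSub N r J 1, R (red x) (f : PowerSeries k) := fun f =>
    H.exists_mem_WSub hfin f (hS f f.2)
  choose xf hxf hxR using hex
  have hS' : S.card = Nat.card S := by simp
  rw [hS', ← Nat.card_prod]
  refine Nat.card_le_card_of_injective
    (fun p : (WSub N r J 1 ⊓ K : AddSubgroup J) × S =>
      (⟨(p.1 : J) + xf p.2, add_mem p.1.2.1 (hxf p.2)⟩ : WSub N r J 1)) ?_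
  rintro ⟨⟨a, ha⟩, f⟩ ⟨⟨b, hb⟩, g⟩ hab
  have h1 : a + xf f = b + xf g := congrArg Subtype.val hab
  have ha' : red a = 0 := (hK a).mp ha.2
  have hb' : red b = 0 := (hK b).mp hb.2
  have h2 : red (xf f) = red (xf g) := by
    have := congrArg red h1
    rw [map_add, map_add, ha', hb', zero_add, zero_add] at this
    exact this
  have h3 : f = g := by
    apply Subtype.ext
    have h4 := hxR g
    rw [← h2] at h4
    exact H.uniq _ _ _ (hxR f) h4
  subst h3
  have h5 : a = b := add_right_cancel h1
  subst h5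
  rfl

omit H in
/-- bound for all levels from the bound at level `1` -/
theorem card_WSub_inf_le (K : AddSubgroup J) (hfin : ∀ j, Finite (WSub N r J j)) {c : ℕ}
    (h1 : Nat.card (WSub N r J 1 ⊓ K : AddSubgroup J) ≤ c) (j : ℕ) :
    Nat.card (WSub N r J j ⊓ K : AddSubgroup J) ≤ c ^ j := by
  have hfin' : ∀ j, Finite (WSub N r J j ⊓ K : AddSubgroup J) := fun j =>
    Finite.of_injective (fun x : (WSub N r J j ⊓ K : AddSubgroup J) =>
      (⟨(x : J), x.2.1⟩ : WSub N r J j)) fun a b hab => by
        have h := congrArg (fun z : WSub N r J j => (z : J)) hab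
        exact Subtype.ext h
  induction j with
  | zero =>
    rw [pow_zero]
    have hsub : Subsingleton (WSub N r J 0 ⊓ K : AddSubgroup J) := by
      refine ⟨fun a b => Subtype.ext ?_⟩
      have ha : (r ^ 0 : ℕ) • (a : J) = 0 := a.2.1.1
      have hb : (r ^ 0 : ℕ) • (b : J) = 0 := b.2.1.1
      rw [pow_zero, one_nsmul] at ha hb
      rw [ha, hb]
    exact Finite.card_le_one_iff_subsingleton.mpr hsub
  | succ j ih =>
    let φ : (WSub N r J (j + 1) ⊓ K : AddSubgroup J) →+ (WSub N r J j ⊓ K : AddSubgroup J) :=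
      { toFun := fun x => ⟨r • (x : J), ⟨by
          rw [smul_smul, ← pow_succ]
          exact x.2.1.1, by
          obtain ⟨n, hn⟩ := x.2.1.2
          exact ⟨n, fun t ht => by rw [smul_comm, hn t ht, smul_zero]⟩⟩,
          nsmul_mem x.2.2 r⟩
        map_zero' := Subtype.ext (smul_zero r)
        map_add' := fun a b => Subtype.ext (smul_add r (a : J) (b : J)) }
    have hc : Nat.card (WSub N r J (j + 1) ⊓ K : AddSubgroup J) =
        Nat.card φ.ker * Nat.card φ.range := by
      rw [← AddSubgroup.card_mul_index φ.ker, AddSubgroup.index_ker]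
    have hker : Nat.card φ.ker ≤ Nat.card (WSub N r J 1 ⊓ K : AddSubgroup J) := by
      have := hfin' 1
      refine Nat.card_le_card_of_injective
        (fun x : φ.ker => (⟨((x : (WSub N r J (j + 1) ⊓ K : AddSubgroup J)) : J), ⟨by
          have := congrArg Subtype.val ((AddMonoidHom.mem_ker).mp x.2)
          rw [pow_one]
          exact this, x.1.2.1.2⟩, x.1.2.2⟩ : (WSub N r J 1 ⊓ K : AddSubgroup J))) ?_
      intro a b hab
      have h := congrArg (fun z : (WSub N r J 1 ⊓ K : AddSubgroup J) => (z : J)) hab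
      exact Subtype.ext (Subtype.ext h)
    have hran : Nat.card φ.range ≤ Nat.card (WSub N r J j ⊓ K : AddSubgroup J) := by
      have := hfin' j
      exact Nat.card_le_card_of_injective _ Subtype.val_injective
    rw [hc, pow_succ']
    exact Nat.mul_le_mul (hker.trans h1) (hran.trans ih)

end Main

end Fermat.Agent.H12F
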