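import Fermat.Agent.H12FMain
import Fermat.Agent.H12FAbs
import Fermat.Agent.H18HkTop
import Fermat.Agent.H17DivRed
import Fermat.Agent.H39Hecke
import Fermat.Agent.H39Conv

/-!
# From a function on the special fibre with divisor divisible by `p` to residual modularity (helper12)

Step 8' of the plan for S39 / S40 (any odd prime `p`, arbitrary level prime to `p`).
-/

set_option autoImplicit false

noncomputable section

namespace Fermat.Agent.H12C

open ModularCurve AlgebraicCurve Fermat.Agent.H15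
open Fermat.Agent.H61 (theta coeff_theta theta_mul theta_one theta_pow)
open Fermat.Agent.H33 (IsKum cst)
open Fermat.Agent.H12F
open Fermat.Agent.H9 (Tmul TL)

local notation "Qb" => AlgebraicClosure ℚ

section Abs

variable {R M : Type*} [CommRing R] [AddCommGroup M] [Module R M]

/-- a nonzero element killed by a power of an ideal has a nonzero multiple killed by the ideal -/
theorem exists_socle (P : Ideal R) {z : M} (hz : z ≠ 0) (h : ∃ n : ℕ, ∀ t ∈ P ^ n, t • z = 0) :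
    ∃ t : R, t • z ≠ 0 ∧ ∀ s ∈ P, s • t • z = 0 := by
  classical
  have hn := Nat.find_spec h
  obtain ⟨m, hm⟩ : ∃ m, Nat.find h = m + 1 := by
    refine Nat.exists_eq_succ_of_ne_zero fun h0 => ?_
    rw [h0, pow_zero, Ideal.one_eq_top] at hn
    exact hz (by simpa using hn 1 trivial)
  have hm' : ¬ ∀ t ∈ P ^ m, t • z = 0 := Nat.find_min h (by omega)
  push Not at hm'
  obtain ⟨t, ht, htz⟩ := hm'
  refine ⟨t, htz, fun s hs => ?_⟩
  rw [smul_smul]
  apply hn
  rw [hm, pow_succ']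
  exact Ideal.mul_mem_mul hs ht

/-- an eigenvector modulo a submodule gives an eigenvector -/
theorem exists_eigen (P : Ideal R) (M₁ K : Submodule R M) [Finite M₁] {x : M} (hx : x ∈ M₁)
    (hxK : x ∉ K) (hP : ∀ t ∈ P, t • x ∈ K) :
    ∃ y ∈ M₁, y ≠ 0 ∧ ∀ t ∈ P, t • y = 0 := by
  obtain ⟨e, he1, he2⟩ := fitting_pair P M₁ K
  have h1 : e • x - x ∈ K := he2 x hx ⟨1, fun t ht => hP t (by rwa [pow_one] at ht)⟩
  have hz : e • x ≠ 0 := by
    intro h0
    rw [h0, zero_sub] at h1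
    exact hxK (by simpa using K.neg_mem h1)
  obtain ⟨t, htz, ht⟩ := exists_socle P hz (he1 x hx)
  exact ⟨t • e • x, M₁.smul_mem _ (M₁.smul_mem _ hx), htz, ht⟩

end Abs

section Rel

variable {k : Type*} [Field k] {N : ℕ} {r : ℕ} {y y' : JZeroC k N} {f f' : LaurentSeries k}

theorem rel_zsmul (h : Rel r y f) (n : ℤ) : Rel r (n • y) (n • f) := by
  rcases Int.eq_nat_or_neg n with ⟨m, rfl | rfl⟩
  · rw [natCast_zsmul, natCast_zsmul]
    exact h.nsmul m
  · rw [neg_zsmul, neg_zsmul, natCast_zsmul, natCast_zsmul]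
    exact (h.nsmul m).neg

end Rel

section TL

variable {k : Type*} [Field k]

open Fermat.Agent.H39 (dl coeff_dl_of_neg coeff_intCast_mul)

theorem coeff_zsmul' (a : ℤ) (x : LaurentSeries k) (n : ℤ) :
    (a • x).coeff n = (a : k) * x.coeff n := by
  rw [zsmul_eq_mul, coeff_intCast_mul]

theorem dl_eq_ofPowerSeries (fb : LaurentSeries k) :
    dl fb = HahnSeries.ofPowerSeries ℤ k (PowerSeries.mk fun n : ℕ => (dl fb).coeff (n : ℤ)) := by
  ext n
  rcases lt_or_ge n 0 with hn | hn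
  · rw [coeff_dl_of_neg hn, ModularCurve.ofPowerSeries_coeff_of_neg _ hn]
  · lift n to ℕ using hn
    rw [HahnSeries.ofPowerSeries_apply_coeff, PowerSeries.coeff_mk]

/-- the Hecke relation on coefficients, as an equality of Laurent series -/
theorem TL_eq_zsmul {N ℓ : ℕ} [NeZero ℓ] (hℓN : ¬ ℓ ∣ N) {fb : LaurentSeries k} {a : ℤ}
    (h : ∀ n : ℕ, H49.heckeCoeffTwo N ℓ (fun n : ℕ => (dl fb).coeff (n : ℤ)) n =
      (a : k) * (dl fb).coeff (n : ℤ)) : TL ℓ (dl fb) = a • dl fb := by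
  conv_lhs => rw [dl_eq_ofPowerSeries fb]
  rw [H9.TL_ofPowerSeries]
  ext n
  rw [coeff_zsmul']
  rcases lt_or_ge n 0 with hn | hn
  · rw [ModularCurve.ofPowerSeries_coeff_of_neg _ hn, coeff_dl_of_neg hn, mul_zero]
  · lift n to ℕ using hn
    rw [HahnSeries.ofPowerSeries_apply_coeff, PowerSeries.coeff_mk, ← h n]
    rw [H49.heckeCoeffTwo, if_neg hℓN, PowerSeries.coeff_mk, mul_comm n ℓ]
    congr 1
    split_ifs
    · rw [PowerSeries.coeff_mk]
    · rfl

end TL

section Main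

attribute [local instance] heckeModuleBar

open Fermat.Agent.H39 (dl)
open Fermat.Agent.H38.Mz (Red)

local notation "FF" N => laurentBaseChange (AlgebraicClosure ℚ) (modularFunctionFieldFull N)

variable {p : ℕ} [hp : Fact p.Prime] {A : ValuationSubring Qb}

local notation "kA" => IsLocalRing.ResidueField A

set_option synthInstance.maxHeartbeats 400000 in
set_option maxHeartbeats 4000000 in
/-- **From the special fibre to residual modularity, step 1**: an eigenclass in the `p`-torsion of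
the special fibre. -/
theorem isResiduallyModularOfLevel_of_dl (hA : A.LiesOverPrime p) {W : WeierstrassCurve ℤ} {M : ℕ}
    [NeZero M] (hpM : ¬ p ∣ M) {gb : modularFunctionFieldFullC kA M} (hgb : gb ≠ 0)
    (hpow : ∀ h : modularFunctionFieldFullC kA M, h ^ p ≠ gb)
    (hdiv : ∀ w : Place kA (modularFunctionFieldFullC kA M), (p : ℤ) ∣ w.ord gb)
    (hT : ∀ (ℓ : ℕ) (hℓ : ℓ.Prime), W.IsGoodPrimeFor ℓ → ¬ ℓ ∣ M → ℓ ≠ p →
      haveI : NeZero ℓ := ⟨hℓ.ne_zero⟩
      TL ℓ (dl (gb : LaurentSeries kA)) = W.apOfModel ℓ • dl (gb : LaurentSeries kA)) :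
    W.IsResiduallyModularOfLevel p M := by
  have hpp : p.Prime := hp.out
  have : CharP kA p := H60.charP_residue hp.out hA
  have : IsAlgClosed kA := H18.isAlgClosed_residueField A
  have : H94.FunField kA (modularFunctionFieldFullC kA M) := H42.funField_res hpp hA hpM
  have hMk : ((M : ℕ) : kA) ≠ 0 := by
    rw [Ne, CharP.cast_eq_zero_iff kA p]
    exact hpM
  have hgbL : (gb : LaurentSeries kA) ≠ 0 := fun h => hgb (Subtype.ext h)
  have hdlg : theta (gb : LaurentSeries kA) = dl (gb : LaurentSeries kA) * (gb : LaurentSeries kA) := by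
    rw [dl, div_mul_cancel₀ _ hgbL]
  -- the torsion class
  obtain ⟨x, hpx, hx⟩ := exists_lift_form M p A hpM hA
    (fun x hx => H17.divRed M p hpp hpM A hA p hpp x hx) hgb hdlg hdiv
  -- it is not in the kernel of reduction
  have hxK : x ∉ KJ M A := by
    intro h0
    have h1 : reductionModL A M x = 0 := h0
    rw [h1] at hx
    have h2 : dl (gb : LaurentSeries kA) = 0 := hx.unique rel_zero
    rw [h2, zero_mul] at hdlg
    obtain ⟨g, hg⟩ := exists_pow_of_theta_eq_zero p hdlg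
    have hgm : g ∈ modularFunctionFieldFullC kA M :=
      H33.fullC_sat p M hMk g (by rw [hg]; exact SetLike.coe_mem gb)
    exact hpow ⟨g, hgm⟩ (Subtype.ext hg)
  -- the Hecke operators
  have hTx : ∀ ℓ : Nat.Primes, W.IsGoodPrimeFor ℓ → ¬ (ℓ : ℕ) ∣ M → (ℓ : ℕ) ≠ p →
      heckeOperatorBar M ℓ x - W.apOfModel ℓ • x ∈ KJ M A := by
    rintro ⟨ℓ, hℓ⟩ hg hℓM hℓp
    have : NeZero ℓ := ⟨hℓ.ne_zero⟩
    have h1 := rel_hecke M p A hℓ hℓM hpM hℓp hA hpx hx
    rw [hT ℓ hℓ hg hℓM hℓp] at h1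
    have h2 := h1.sub (rel_zsmul hx (W.apOfModel ℓ))
    rw [sub_self] at h2
    have h3 := h2.eq_zero hMk
    show reductionModL A M _ = 0
    rw [map_sub, map_zsmul]
    exact h3
  -- the submodules
  let K : Submodule HeckeAlg (JZero M) :=
    { KJ M A with smul_mem' := fun t x hx => H18.heckeRed M p hpp hpM A hA t x hx }
  let M₁ : Submodule HeckeAlg (JZero M) :=
    { carrier := {x | p • x = 0}
      add_mem' := fun {a b} ha hb => by
        have ha' : p • a = 0 := ha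
        have hb' : p • b = 0 := hb
        show p • (a + b) = 0
        rw [nsmul_add, ha', hb', add_zero]
      zero_mem' := nsmul_zero p
      smul_mem' := fun t x hx => by
        have hx' : p • x = 0 := hx
        show p • (t • x) = 0
        rw [← Nat.cast_smul_eq_nsmul HeckeAlg p (t • x), smul_comm, Nat.cast_smul_eq_nsmul, hx',
          smul_zero] }
  have : Finite M₁ := Set.Finite.to_subtype (H90.finite_jzero M hpp.ne_zero)
  let P : Ideal HeckeAlg := Ideal.span ({(p : HeckeAlg)} ∪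
    {t | ∃ ℓ : Nat.Primes, (W.IsGoodPrimeFor ℓ ∧ ¬ (ℓ : ℕ) ∣ M ∧ (ℓ : ℕ) ≠ p) ∧
      t = heckeGen ℓ - MvPolynomial.C (W.apOfModel ℓ)})
  have hgen : ∀ (ℓ : Nat.Primes) (y : JZero M), heckeGen ℓ • y = heckeOperatorBar M ℓ y := fun ℓ y =>
    heckeModuleBar_heckeGen_smul (H67.heckeOperatorsCommuteBar M) ℓ y
  have hC : ∀ (a : ℤ) (y : JZero M), (MvPolynomial.C a : HeckeAlg) • y = a • y := by
    intro a y
    have h1 : (MvPolynomial.C a : HeckeAlg) = (a : HeckeAlg) := by simp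
    rw [h1, Int.cast_smul_eq_zsmul]
  have hPx : ∀ t ∈ P, t • x ∈ K := by
    intro t ht
    refine Submodule.span_induction (p := fun t _ => t • x ∈ K) ?_ ?_ ?_ ?_ ht
    · rintro t (ht | ⟨ℓ, ⟨h1, h2, h3⟩, rfl⟩)
      · rw [Set.mem_singleton_iff] at ht
        rw [ht, Nat.cast_smul_eq_nsmul, hpx]
        exact K.zero_mem
      · rw [sub_smul, hgen, hC]
        exact hTx ℓ h1 h2 h3
    · rw [zero_smul]; exact K.zero_mem
    · intro a b _ _ ha hb
      rw [add_smul]; exact K.add_mem ha hb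
    · intro a b _ hb
      rw [smul_eq_mul, mul_smul]; exact K.smul_mem _ hb
  obtain ⟨y, hyM, hy0, hPy⟩ := exists_eigen P M₁ K (x := x) hpx hxK hPx
  refine H39.isResiduallyModularOfLevel_of_eigenvector hpp y hy0 hyM fun ℓ h1 h2 h3 => ?_
  have h4 := hPy (heckeGen ℓ - MvPolynomial.C (W.apOfModel ℓ))
    (Ideal.subset_span (Or.inr ⟨ℓ, ⟨h1, h2, h3⟩, rfl⟩))
  rw [sub_smul, hgen, hC, sub_eq_zero] at h4
  exact h4

set_option synthInstance.maxHeartbeats 400000 in
set_option maxHeartbeats 4000000 in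
/-- **Step 8'**: residual modularity of level `M₀` from the Gauss reduction `ḡ` (at level `M₀`) of
the function of an eigenclass of level `p M₀`, if the divisor of `ḡ` is divisible by `p`. -/
theorem isResiduallyModularOfLevel_of_gbar' (hA : A.LiesOverPrime p) {W : WeierstrassCurve ℤ}
    {M₀ : ℕ} [NeZero M₀] [NeZero (M₀ * p)] (hpM₀ : ¬ p ∣ M₀)
    {D : Divisor.degZero (K := Qb) (F := FF (M₀ * p))} {u : FF (M₀ * p)} (hu : u ≠ 0)
    (hord : ∀ v : Place Qb (FF (M₀ * p)),
      v.ord u = (p : ℤ) * (D : Divisor Qb (FF (M₀ * p))) v)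
    (hT : ∀ (ℓ : ℕ) (hℓ : ℓ.Prime), W.IsGoodPrimeFor ℓ → ¬ ℓ ∣ M₀ → ℓ ≠ p →
      heckeOperatorBar (M₀ * p) ⟨ℓ, hℓ⟩ (Pic0.mk D) =
        W.apOfModel ℓ • (Pic0.mk D : Pic0 Qb (FF (M₀ * p))))
    {c : Qb} {gb : modularFunctionFieldFullC kA M₀} (hgb : gb ≠ 0)
    (hred : Red A (IsLocalRing.residue A)
      (algebraMap Qb (LaurentSeries Qb) c * (u : LaurentSeries Qb)) (gb : LaurentSeries kA))
    (hpow : ∀ h : modularFunctionFieldFullC kA M₀, h ^ p ≠ gb)
    (hdiv : ∀ w : Place kA (modularFunctionFieldFullC kA M₀), (p : ℤ) ∣ w.ord gb) :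
    W.IsResiduallyModularOfLevel p M₀ := by
  have : CharP kA p := H60.charP_residue hp.out hA
  have hgbL : (gb : LaurentSeries kA) ≠ 0 := fun h => hgb (Subtype.ext h)
  have hc : c ≠ 0 := by
    rintro rfl
    rw [map_zero, zero_mul] at hred
    exact hgbL (hred.unique H38.Mz.Red.zero)
  have hcF : algebraMap Qb (FF (M₀ * p)) c ≠ 0 := (_root_.map_ne_zero _).mpr hc
  have hu' : algebraMap Qb (FF (M₀ * p)) c * u ≠ 0 := mul_ne_zero hcF hu
  have hord' : ∀ v : Place Qb (FF (M₀ * p)), v.ord (algebraMap Qb (FF (M₀ * p)) c * u) =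
      (p : ℤ) * (D : Divisor Qb (FF (M₀ * p))) v := by
    intro v
    rw [v.ord_mul hcF hu, H94.ord_algebraMap, zero_add, hord]
  refine isResiduallyModularOfLevel_of_dl hA hpM₀ hgb hpow hdiv fun ℓ hℓ hg hℓM hℓp => ?_
  have : NeZero ℓ := ⟨hℓ.ne_zero⟩
  have hℓN : ¬ ℓ ∣ M₀ * p := by
    intro h
    rcases hℓ.dvd_mul.mp h with h | h
    · exact hℓM h
    · exact hℓp ((Nat.prime_dvd_prime_iff_eq hℓ hp.out).mp h)
  exact TL_eq_zsmul hℓM fun n => H39.heckeCoeffTwo_dl_red (M := M₀) hℓ hℓN hℓM hℓp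
    (u := algebraMap Qb (FF (M₀ * p)) c * u) hu' hord' (hT ℓ hℓ hg hℓM hℓp) hgbL hred n

end Main

end Fermat.Agent.H12C
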