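import Mathlib
import Fermat.Agent.H87ECTorsion
import Fermat.Agent.H74VarChange
import Fermat.Prelude.Def_FLTPrelim_CofixedLine

/-!
# Cofixed lines as finite sets of points; transport by changes of variables
-/

set_option autoImplicit false

namespace Fermat.Agent.H12

open WeierstrassCurve WeierstrassCurve.Affine WeierstrassCurve.Affine.Point

local notation "Qb" => AlgebraicClosure ℚ

/-- A cofixed line in `E[p]`, as a finite set `N` of points, with a point `T ∉ N`. -/
structure Cof (p : ℕ) (E : WeierstrassCurve ℚ) (N : Finset (E⁄Qb).Point) (T : (E⁄Qb).Point) :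
    Prop where
  zero_mem : (0 : (E⁄Qb).Point) ∈ N
  add_mem : ∀ a ∈ N, ∀ b ∈ N, a + b ∈ N
  neg_mem : ∀ a ∈ N, -a ∈ N
  card : N.card = p
  tors : ∀ a ∈ N, p • a = 0
  stable : ∀ (σ : Qb ≃ₐ[ℚ] Qb), ∀ a ∈ N, σ • a ∈ N
  torsT : p • T = 0
  notMem : T ∉ N
  cofix : ∀ σ : Qb ≃ₐ[ℚ] Qb, σ • T - T ∈ N

theorem exists_cof {p : ℕ} (hp : p.Prime) (E : WeierstrassCurve ℚ) (hΔ : E.Δ ≠ 0)
    (h : HasGaloisStableCofixedLine (K := Qb) ℚ E p) :
    ∃ N T, Cof p E N T := by
  classical
  obtain ⟨M, hst, hbot, htop, hcof⟩ := h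
  have := Fact.mk hp
  have hfin : Finite (Submodule.torsionBy ℤ (E⁄Qb).Point p) :=
    H87.EC.finite_torsionBy_rat E hΔ hp.ne_zero
  have hfr : Module.finrank (ZMod p) (Submodule.torsionBy ℤ (E⁄Qb).Point p) = 2 :=
    H87.EC.finrank_torsionBy_rat E hΔ hp.ne_zero hp.ne_one
  have hfd : Module.Finite (ZMod p) (Submodule.torsionBy ℤ (E⁄Qb).Point p) :=
    Module.Finite.of_finite
  have h1 : Module.finrank (ZMod p) M = 1 := by
    have e1 : Module.finrank (ZMod p) M < 2 := by
      rw [← hfr]; exact Submodule.finrank_lt htop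
    have e2 : Module.finrank (ZMod p) M ≠ 0 := by
      intro h0
      exact hbot (Submodule.finrank_eq_zero.mp h0)
    omega
  have hcard : Nat.card M = p := by
    have := Module.natCard_eq_pow_finrank (K := ZMod p) (V := M)
    rw [h1, pow_one, Nat.card_zmod] at this
    exact this
  obtain ⟨T, hT⟩ : ∃ T, T ∉ M := by
    by_contra hcon
    push Not at hcon
    exact htop (Submodule.eq_top_iff'.mpr hcon)
  have hMfin : (M : Set (Submodule.torsionBy ℤ (E⁄Qb).Point p)).Finite := Set.toFinite _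
  refine ⟨hMfin.toFinset.image (fun x : (Submodule.torsionBy ℤ (E⁄Qb).Point p) =>
    (x : (E⁄Qb).Point)), T, ?_, ?_, ?_, ?_, ?_, ?_, ?_, ?_, ?_⟩
  · exact Finset.mem_image.mpr ⟨0, by simpa using M.zero_mem, rfl⟩
  · intro a ha b hb
    obtain ⟨a', ha', rfl⟩ := Finset.mem_image.mp ha
    obtain ⟨b', hb', rfl⟩ := Finset.mem_image.mp hb
    rw [Set.Finite.mem_toFinset, SetLike.mem_coe] at ha' hb'
    exact Finset.mem_image.mpr ⟨a' + b', by simpa using M.add_mem ha' hb', rfl⟩
  · intro a ha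
    obtain ⟨a', ha', rfl⟩ := Finset.mem_image.mp ha
    rw [Set.Finite.mem_toFinset, SetLike.mem_coe] at ha'
    exact Finset.mem_image.mpr ⟨-a', by simpa using M.neg_mem ha', rfl⟩
  · rw [Finset.card_image_of_injective _ Subtype.val_injective]
    have : hMfin.toFinset.card = Nat.card M := by
      rw [← Nat.card_eq_card_finite_toFinset hMfin]
      rfl
    rw [this, hcard]
  · intro a ha
    obtain ⟨a', ha', rfl⟩ := Finset.mem_image.mp ha
    have := (Submodule.mem_torsionBy_iff _ _).mp a'.2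
    rwa [natCast_zsmul] at this
  · intro σ a ha
    obtain ⟨a', ha', rfl⟩ := Finset.mem_image.mp ha
    rw [Set.Finite.mem_toFinset, SetLike.mem_coe] at ha'
    exact Finset.mem_image.mpr ⟨σ • a', by simpa using hst σ a' ha', rfl⟩
  · have := (Submodule.mem_torsionBy_iff _ _).mp T.2
    rwa [natCast_zsmul] at this
  · intro hh
    obtain ⟨a', ha', h2⟩ := Finset.mem_image.mp hh
    rw [Set.Finite.mem_toFinset, SetLike.mem_coe] at ha'
    exact hT (Subtype.val_injective h2 ▸ ha')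
  · intro σ
    exact Finset.mem_image.mpr ⟨σ • T - T, by simpa using hcof σ T, rfl⟩

/-! ### change of variables -/

/-- point map for an equality `W' = C • W` -/
noncomputable def ptE {F : Type*} [Field F] [DecidableEq F] {W W' : WeierstrassCurve F}
    (C : VariableChange F) (h : W' = C • W) : W'.toAffine.Point ≃+ W.toAffine.Point :=
  h ▸ H74.pointEquiv W C

lemma ptE_some {F : Type*} [Field F] [DecidableEq F] {W W' : WeierstrassCurve F}
    (C : VariableChange F) (h : W' = C • W) {x y : F} (hxy : W'.toAffine.Nonsingular x y) :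
    ∃ h', ptE C h (.some x y hxy) = .some (H74.vcX C x) (H74.vcY C x y) h' := by
  subst h
  exact ⟨_, rfl⟩

lemma ptE_symm_some {F : Type*} [Field F] [DecidableEq F] {W W' : WeierstrassCurve F}
    (C : VariableChange F) (h : W' = C • W) {x y : F} (hxy : W.toAffine.Nonsingular x y) :
    ∃ h', (ptE C h).symm (.some x y hxy) = .some (H74.vcX' C x) (H74.vcY' C x y) h' := by
  subst h
  exact ⟨_, rfl⟩

lemma smul_some {E : WeierstrassCurve ℚ} (σ : Qb ≃ₐ[ℚ] Qb) {x y : Qb}
    (h : (E⁄Qb).toAffine.Nonsingular x y) :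
    ∃ h', (σ • (Point.some x y h : (E⁄Qb).Point)) = Point.some (σ x) (σ y) h' := by
  rw [algEquiv_smul_def, map_some]
  exact ⟨_, rfl⟩

/-- base change of a variable change -/
lemma baseChange_eq {E E' : WeierstrassCurve ℚ} (C : VariableChange ℚ) (h : E' = C • E) :
    (E'⁄Qb) = (C.map (algebraMap ℚ Qb)) • (E⁄Qb) := by
  subst h
  exact (map_variableChange ..).symm

/-- the equivariant point map -/
noncomputable def ptQ {E E' : WeierstrassCurve ℚ} (C : VariableChange ℚ) (h : E' = C • E) :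
    (E'⁄Qb).Point ≃+ (E⁄Qb).Point := ptE _ (baseChange_eq C h)

lemma ptQ_some {E E' : WeierstrassCurve ℚ} (C : VariableChange ℚ) (h : E' = C • E) {x y : Qb}
    (hxy : (E'⁄Qb).toAffine.Nonsingular x y) :
    ∃ h', ptQ C h (.some x y hxy) = .some (algebraMap ℚ Qb C.u ^ 2 * x + algebraMap ℚ Qb C.r)
      (algebraMap ℚ Qb C.u ^ 3 * y + algebraMap ℚ Qb C.u ^ 2 * algebraMap ℚ Qb C.s * x
        + algebraMap ℚ Qb C.t) h' :=
  ptE_some _ (baseChange_eq C h) hxy

lemma ptQ_smul {E E' : WeierstrassCurve ℚ} (C : VariableChange ℚ) (h : E' = C • E)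
    (σ : Qb ≃ₐ[ℚ] Qb) (P : (E'⁄Qb).Point) : ptQ C h (σ • P) = σ • ptQ C h P := by
  rcases P with _ | ⟨x, y, hxy⟩
  · change ptQ C h (0 : (E'⁄Qb).Point) = σ • ptQ C h (0 : (E'⁄Qb).Point)
    rw [_root_.map_zero]
    rfl
  · obtain ⟨h1, e1⟩ := smul_some σ hxy
    obtain ⟨h2, e2⟩ := ptQ_some C h h1
    obtain ⟨h3, e3⟩ := ptQ_some C h hxy
    obtain ⟨h4, e4⟩ := smul_some σ h3
    rw [e1, e2, e3, e4, Point.some.injEq]
    simp only [map_add, map_mul, map_pow, AlgEquiv.commutes]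
    exact ⟨trivial, trivial⟩

lemma Cof.transport {p : ℕ} {E E' : WeierstrassCurve ℚ} (C : VariableChange ℚ) (h : E' = C • E)
    {N : Finset (E'⁄Qb).Point} {T : (E'⁄Qb).Point} (hN : Cof p E' N T) :
    Cof p E (N.map (ptQ C h).toEquiv.toEmbedding) (ptQ C h T) := by
  have key : ∀ a, a ∈ N.map (ptQ C h).toEquiv.toEmbedding ↔ ∃ b ∈ N, ptQ C h b = a := by
    intro a; rw [Finset.mem_map]; rfl
  constructor
  · exact (key _).mpr ⟨0, hN.zero_mem, map_zero _⟩
  · intro a ha b hb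
    obtain ⟨a', ha', rfl⟩ := (key _).mp ha
    obtain ⟨b', hb', rfl⟩ := (key _).mp hb
    exact (key _).mpr ⟨a' + b', hN.add_mem _ ha' _ hb', map_add _ _ _⟩
  · intro a ha
    obtain ⟨a', ha', rfl⟩ := (key _).mp ha
    exact (key _).mpr ⟨-a', hN.neg_mem _ ha', map_neg _ _⟩
  · rw [Finset.card_map]; exact hN.card
  · intro a ha
    obtain ⟨a', ha', rfl⟩ := (key _).mp ha
    rw [← map_nsmul, hN.tors a' ha', _root_.map_zero]
  · intro σ a ha
    obtain ⟨a', ha', rfl⟩ := (key _).mp ha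
    exact (key _).mpr ⟨σ • a', hN.stable σ _ ha', ptQ_smul _ _ _ _⟩
  · rw [← map_nsmul, hN.torsT, _root_.map_zero]
  · intro hh
    obtain ⟨a', ha', e⟩ := (key _).mp hh
    exact hN.notMem ((ptQ C h).injective e ▸ ha')
  · intro σ
    exact (key _).mpr ⟨σ • T - T, hN.cofix σ, by rw [map_sub, ptQ_smul]⟩

end Fermat.Agent.H12
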