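import Mathlib
import Fermat.Agent.H72Kummer

/-!
# Elliptic curves `y² = (x-e)(x-f)(x-g)`: basic formulas
-/

set_option autoImplicit false

namespace Fermat.Agent.H12

set_option linter.unusedSectionVars false

open WeierstrassCurve WeierstrassCurve.Affine WeierstrassCurve.Affine.Point
open Fermat.Agent.H72

variable {F : Type*} [Field F]

/-- `W` is the curve `y² = (x-e)(x-f)(x-g)`. -/
structure Rts (W : Affine F) (e f g : F) : Prop where
  a1 : W.a₁ = 0
  a3 : W.a₃ = 0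
  a2 : W.a₂ = -(e + f + g)
  a4 : W.a₄ = e * f + e * g + f * g
  a6 : W.a₆ = -(e * f * g)

namespace Rts

variable {W : Affine F} {e f g : F}

lemma swap (h : Rts W e f g) : Rts W f e g :=
  ⟨h.a1, h.a3, by rw [h.a2]; ring, by rw [h.a4]; ring, by rw [h.a6]; ring⟩

lemma rot (h : Rts W e f g) : Rts W f g e :=
  ⟨h.a1, h.a3, by rw [h.a2]; ring, by rw [h.a4]; ring, by rw [h.a6]; ring⟩

lemma swap' (h : Rts W e f g) : Rts W e g f :=
  ⟨h.a1, h.a3, by rw [h.a2]; ring, by rw [h.a4]; ring, by rw [h.a6]; ring⟩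

lemma b2 (h : Rts W e f g) : W.b₂ = -4 * (e + f + g) := by
  rw [WeierstrassCurve.b₂, h.a1, h.a2]; ring
lemma b4 (h : Rts W e f g) : W.b₄ = 2 * (e * f + e * g + f * g) := by
  rw [WeierstrassCurve.b₄, h.a1, h.a3, h.a4]; ring
lemma b6 (h : Rts W e f g) : W.b₆ = -4 * (e * f * g) := by
  rw [WeierstrassCurve.b₆, h.a3, h.a6]; ring
lemma b8 (h : Rts W e f g) : W.b₈ = 4 * (e + f + g) * (e * f * g) - (e * f + e * g + f * g) ^ 2 := by
  rw [WeierstrassCurve.b₈, h.a1, h.a2, h.a3, h.a4, h.a6]; ring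

lemma Δ_eq (h : Rts W e f g) : W.Δ = 16 * ((e - f) * (e - g) * (f - g)) ^ 2 := by
  rw [WeierstrassCurve.Δ, h.b2, h.b4, h.b6, h.b8]; ring

lemma equation_iff (h : Rts W e f g) (x y : F) :
    W.Equation x y ↔ y ^ 2 = (x - e) * (x - f) * (x - g) := by
  rw [Affine.equation_iff, h.a1, h.a3, h.a2, h.a4, h.a6]
  constructor
  · intro hh; linear_combination hh
  · intro hh; linear_combination hh

lemma negY_eq (h : Rts W e f g) (x y : F) : W.negY x y = -y := by
  rw [Affine.negY, h.a1, h.a3]; ring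

lemma nonsingular_root (h : Rts W e f g) (hef : e ≠ f) (heg : e ≠ g) : W.Nonsingular e 0 := by
  rw [Affine.nonsingular_iff']
  refine ⟨(h.equation_iff e 0).mpr (by ring), Or.inl ?_⟩
  rw [h.a1, h.a2, h.a4]
  have : (0 : F) * 0 - (3 * e ^ 2 + 2 * -(e + f + g) * e + (e * f + e * g + f * g)) =
    -((e - f) * (e - g)) := by ring
  rw [this]
  exact neg_ne_zero.mpr (mul_ne_zero (sub_ne_zero.mpr hef) (sub_ne_zero.mpr heg))

end Rts

section

variable [DecidableEq F] {W : Affine F} {e f g : F}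

/-- the 2-torsion point `(e,0)` -/
noncomputable def Tpt (W : Affine F) (e : F) (h : W.Nonsingular e 0) : W.Point := .some e 0 h

lemma xD_of_ne {P : W.Point} (hP : P ≠ 0) : xD P = 1 := by
  rcases P with _ | ⟨x, y, h⟩
  · exact absurd rfl hP
  · exact xD_some h

lemma xD_eq_zero_iff {P : W.Point} : xD P = 0 ↔ P = 0 := by
  constructor
  · intro h
    by_contra hP
    rw [xD_of_ne hP] at h
    exact one_ne_zero h
  · rintro rfl; exact xD_zero

/-- The product formula. -/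
lemma Rts.prod_formula (h : Rts W e f g) {P Q : W.Point} (hP : P ≠ 0) (hQ : Q ≠ 0)
    (hS : P + Q ≠ 0) (hD : P - Q ≠ 0) :
    xN P ≠ xN Q ∧
    (xN (P + Q) - e) * (xN (P - Q) - e) * (xN P - xN Q) ^ 2 =
      ((xN P - e) * (xN Q - e) - (e - f) * (e - g)) ^ 2 := by
  obtain ⟨c, hc, h0, h1, h2⟩ := kummerRel P Q
  rw [xD_of_ne hP, xD_of_ne hQ, xD_of_ne hS, xD_of_ne hD, h.b2, h.b4, h.b6, h.b8] at *
  have hne : xN P ≠ xN Q := by
    intro heq
    rw [heq] at h2
    apply hc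
    linear_combination h2
  refine ⟨hne, ?_⟩
  have hc' : c = (xN P - xN Q) ^ 2 := by linear_combination h2
  subst hc'
  linear_combination h0 - e * h1 + e ^ 2 * h2

lemma Rts.add_T (h : Rts W e f g) (hT : W.Nonsingular e 0) {x y : F} (hxy : W.Nonsingular x y)
    (hx : x ≠ e) :
    ∃ x' y' h', (Point.some x y hxy + Tpt W e hT : W.Point) = .some x' y' h' ∧
      (x' - e) * (x - e) = (e - f) * (e - g) ∧ y' * (x - e) ^ 2 = - (y * ((e - f) * (e - g))) := by
  have hns : ¬ (x = e ∧ y = W.negY e 0) := fun hh => hx hh.1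
  have hsl : W.slope x e y 0 = y / (x - e) := by
    rw [slope_of_X_ne hx, sub_zero]
  have heq := (h.equation_iff x y).mp hxy.1
  have hxe : x - e ≠ 0 := sub_ne_zero.mpr hx
  refine ⟨_, _, _, add_some hns, ?_, ?_⟩
  · rw [Affine.addX, hsl, h.a1, h.a2]
    field_simp
    linear_combination heq
  · rw [Affine.addY, Affine.negAddY, Affine.negY, Affine.addX, hsl, h.a1, h.a2, h.a3]
    field_simp
    have : y ^ 3 = y * ((x - e) * (x - f) * (x - g)) := by rw [← heq]; ring
    linear_combination (-1) * this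

lemma Rts.T_add_T (h : Rts W e f g) (hT : W.Nonsingular e 0) : Tpt W e hT + Tpt W e hT = 0 := by
  rw [Tpt, add_of_Y_eq rfl]
  rw [h.negY_eq, _root_.neg_zero]

lemma Rts.neg_T (h : Rts W e f g) (hT : W.Nonsingular e 0) : - Tpt W e hT = Tpt W e hT := by
  rw [neg_eq_iff_add_eq_zero, h.T_add_T]

lemma Rts.x_ne_of_ne_T (h : Rts W e f g) (hT : W.Nonsingular e 0) {P : W.Point} (hP : P ≠ 0)
    (hPT : P ≠ Tpt W e hT) : xN P ≠ e := by
  rcases P with _ | ⟨x, y, hxy⟩
  · exact absurd rfl hP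
  · rw [xN_some]
    rintro rfl
    have heq := (h.equation_iff x y).mp hxy.1
    rw [sub_self, zero_mul, zero_mul, sq_eq_zero_iff] at heq
    subst heq
    exact hPT rfl

/-- `x(P+T) - e = (e-f)(e-g)/(x(P)-e)` -/
lemma Rts.x_add_T (h : Rts W e f g) (hT : W.Nonsingular e 0) {P : W.Point} (hP : P ≠ 0)
    (hPT : P ≠ Tpt W e hT) :
    (xN (P + Tpt W e hT) - e) * (xN P - e) = (e - f) * (e - g) := by
  have hx := h.x_ne_of_ne_T hT hP hPT
  rcases P with _ | ⟨x, y, hxy⟩
  · exact absurd rfl hP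
  · rw [xN_some] at hx ⊢
    obtain ⟨x', y', h', h1, h2, -⟩ := h.add_T hT hxy hx
    rw [h1, xN_some]
    exact h2

end

end Fermat.Agent.H12
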