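import Fermat.Agent.H1HauptMem

/-!
# The derivation `d/dX` over arbitrary coefficient rings (helper1)
-/

set_option autoImplicit false

noncomputable section

open ModularCurve Polynomial IntermediateField

namespace Fermat.Agent.H1

open Fermat.Agent.H23.Haupt Fermat.Agent.H28 Fermat.Agent.H61 Fermat.Agent.H66

section Unit

variable {R : Type*} [CommRing R]

/-- A Laurent series with unit leading coefficient is a unit. -/
theorem isUnit_of_hasLead {x : LaurentSeries R} {n : ℤ} {c : R} (hx : HasLead x n c)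
    (hc : IsUnit c) : IsUnit x := by
  let f : PowerSeries R := PowerSeries.mk fun k => x.coeff (n + k)
  have hxf : x = HahnSeries.single n 1 * HahnSeries.ofPowerSeries ℤ R f := by
    ext k
    rw [HahnSeries.coeff_single_mul, one_mul]
    rcases lt_or_ge k n with hk | hk
    · rw [hx.2 k hk, ofPowerSeries_coeff_of_neg _ (by omega)]
    · obtain ⟨m, hm⟩ := Int.eq_ofNat_of_zero_le (show 0 ≤ k - n by omega)
      rw [hm, HahnSeries.ofPowerSeries_apply_coeff, PowerSeries.coeff_mk]
      congr 1
      omega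
  have h1 : IsUnit f := by
    rw [PowerSeries.isUnit_iff_constantCoeff, ← PowerSeries.coeff_zero_eq_constantCoeff_apply,
      PowerSeries.coeff_mk]
    have : n + ((0 : ℕ) : ℤ) = n := by simp
    rw [this, hx.1]
    exact hc
  have h2 : IsUnit (HahnSeries.single n (1 : R) : LaurentSeries R) := by
    refine IsUnit.of_mul_eq_one (HahnSeries.single (-n) 1) ?_
    rw [HahnSeries.single_mul_single, mul_one, add_neg_cancel]
    rfl
  rw [hxf]
  exact h2.mul (h1.map _)

theorem hasLead_thetaL {x : LaurentSeries R} {n : ℤ} {c : R} (hx : HasLead x n c) :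
    HasLead (thetaL R x) n (n * c) :=
  ⟨by rw [thetaL_coeff, hx.1], fun m hm => by rw [thetaL_coeff, hx.2 m hm, mul_zero]⟩

end Unit

section DX

variable (c : ℕ) (R : Type*) [CommRing R]

theorem hasLead_theta_Xc : HasLead (thetaL R (Xc c R)) (-1) (-1) := by
  have h := hasLead_thetaL (hasLead_Xc c R)
  norm_num at h
  exact h

theorem isUnit_theta_Xc : IsUnit (thetaL R (Xc c R)) :=
  isUnit_of_hasLead (hasLead_theta_Xc c R) (isUnit_one.neg)

/-- the inverse of `q dX/dq` -/
def thInv : LaurentSeries R :=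
  coeffMap (Int.castRingHom R) ((isUnit_theta_Xc c ℤ).unit⁻¹ : (LaurentSeries ℤ)ˣ)

theorem theta_mul_thInv : thetaL R (Xc c R) * thInv c R = 1 := by
  have h1 : thetaL ℤ (Xc c ℤ) * ((isUnit_theta_Xc c ℤ).unit⁻¹ : (LaurentSeries ℤ)ˣ) = 1 :=
    (isUnit_theta_Xc c ℤ).mul_val_inv
  have h2 := congrArg (coeffMap (Int.castRingHom R)) h1
  rwa [map_mul, coeffMap_thetaL, coeffMap_Xc, map_one] at h2

theorem thInv_mul_theta : thInv c R * thetaL R (Xc c R) = 1 := by
  rw [mul_comm, theta_mul_thInv]

variable {R}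

theorem coeffMap_thInv {S : Type*} [CommRing S] (φ : R →+* S) :
    coeffMap φ (thInv c R) = thInv c S := by
  rw [thInv, thInv, coeffMap_coeffMap]
  exact coeffMap_congr (RingHom.ext_int _ _) _

variable (R) in
theorem hasLead_thInv : HasLead (thInv c R) 1 (-1) := by
  obtain ⟨f, hf⟩ : ∃ f : PowerSeries R, HahnSeries.single (-1 : ℤ) 1 * thInv c R =
      HahnSeries.ofPowerSeries ℤ R f := by
    -- compute from the unit structure
    let g : PowerSeries R := PowerSeries.mk fun k => (thetaL R (Xc c R)).coeff (-1 + k)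
    have hg : thetaL R (Xc c R) = HahnSeries.single (-1) 1 * HahnSeries.ofPowerSeries ℤ R g := by
      ext k
      rw [HahnSeries.coeff_single_mul, one_mul]
      rcases lt_or_ge k (-1) with hk | hk
      · rw [(hasLead_theta_Xc c R).2 k hk, ofPowerSeries_coeff_of_neg _ (by omega)]
      · obtain ⟨m, hm⟩ := Int.eq_ofNat_of_zero_le (show 0 ≤ k - (-1) by omega)
        rw [hm, HahnSeries.ofPowerSeries_apply_coeff, PowerSeries.coeff_mk]
        congr 1
        omega
    have h1 : IsUnit g := by
      rw [PowerSeries.isUnit_iff_constantCoeff, ← PowerSeries.coeff_zero_eq_constantCoeff_apply,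
        PowerSeries.coeff_mk]
      have : (-1 : ℤ) + ((0 : ℕ) : ℤ) = -1 := by simp
      rw [this, (hasLead_theta_Xc c R).1]
      exact isUnit_one.neg
    refine ⟨(h1.unit⁻¹ : (PowerSeries R)ˣ), ?_⟩
    have h2 : HahnSeries.ofPowerSeries ℤ R g *
        HahnSeries.ofPowerSeries ℤ R (h1.unit⁻¹ : (PowerSeries R)ˣ) = 1 := by
      rw [← map_mul, IsUnit.mul_val_inv, map_one]
    have h3 := thInv_mul_theta c R
    rw [hg] at h3
    calc HahnSeries.single (-1 : ℤ) 1 * thInv c R
        = (thInv c R * (HahnSeries.single (-1) 1 * HahnSeries.ofPowerSeries ℤ R g)) *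
          HahnSeries.ofPowerSeries ℤ R (h1.unit⁻¹ : (PowerSeries R)ˣ) := by
          linear_combination (-(HahnSeries.single (-1 : ℤ) 1 * thInv c R)) * h2
      _ = _ := by rw [h3, one_mul]
  have hs : (HahnSeries.single (1 : ℤ) (1 : R) : LaurentSeries R) * HahnSeries.single (-1) 1 = 1 := by
    rw [HahnSeries.single_mul_single, mul_one]
    rfl
  have h1 : thInv c R = HahnSeries.single (1 : ℤ) 1 * HahnSeries.ofPowerSeries ℤ R f := by
    rw [← hf, ← mul_assoc, hs, one_mul]
  have h2 : HasLead (thInv c R) 1 (f.coeff 0) := by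
    rw [h1]
    have := (HasLead.single (A := R) 1 1).mul (HasLead.ofPowerSeries f)
    rwa [add_zero, one_mul] at this
  have h3 := (h2.mul (hasLead_theta_Xc c R))
  rw [thInv_mul_theta] at h3
  have h4 := h3.1
  norm_num at h4
  have h5 : f.coeff 0 = -1 := by
    rw [h4, neg_neg, PowerSeries.coeff_zero_eq_constantCoeff_apply]
  rwa [h5] at h2

variable (R)

/-- `d/dX` on Laurent series over a ring -/
def dX : LaurentSeries R →+ LaurentSeries R := (AddMonoidHom.mulLeft (thInv c R)).comp (thetaL R)

variable {R}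

theorem dX_apply (f : LaurentSeries R) : dX c R f = thInv c R * thetaL R f := rfl

theorem coeffMap_dX {S : Type*} [CommRing S] (φ : R →+* S) (f : LaurentSeries R) :
    coeffMap φ (dX c R f) = dX c S (coeffMap φ f) := by
  rw [dX_apply, dX_apply, map_mul, coeffMap_thInv, coeffMap_thetaL]

theorem dX_mul (f g : LaurentSeries R) : dX c R (f * g) = dX c R f * g + f * dX c R g := by
  rw [dX_apply, dX_apply, dX_apply, thetaL_mul]
  ring

theorem dX_Xc : dX c R (Xc c R) = 1 := by
  rw [dX_apply, thInv_mul_theta]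

theorem dX_C (a : R) : dX c R (HahnSeries.C a) = 0 := by
  rw [dX_apply, thetaL_C, mul_zero]

/-- the derivative of `X(q^n)`: `dX (X(q^n)) = n (θX)(q^n) / θX` -/
theorem dX_qExpand_Xc (n : ℕ) [NeZero n] : dX c R (qExpand R n (Xc c R)) =
    n * (thInv c R * qExpand R n (thetaL R (Xc c R))) := by
  rw [dX_apply, thetaL_qExpand]
  ring

theorem thInv_eq_inv (K : Type*) [Field K] : thInv c K = (thetaL K (Xc c K))⁻¹ :=
  eq_inv_of_mul_eq_one_right (theta_mul_thInv c K)

theorem dX_eq_ddX {K : Type*} [Field K] (f : LaurentSeries K) : dX c K f = ddX (Xc c K) f := by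
  rw [dX_apply, ddX_apply, thInv_eq_inv, div_eq_inv_mul]

theorem dX_algebraMap {K : Type*} [Field K] (a : K) :
    dX c K (algebraMap K (LaurentSeries K) a) = 0 := by
  rw [dX_apply, thetaL_algebraMap, mul_zero]

/-- `d/dX` as a derivation over a field -/
def dXDer (K : Type*) [Field K] := mkDer (k := K) (dX c K) (dX_mul c) (dX_algebraMap c)

theorem dXDer_apply {K : Type*} [Field K] (f : LaurentSeries K) : dXDer c K f = dX c K f := rfl

end DX

end Fermat.Agent.H1
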