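import Mathlib

/-!
# MZ-F1c: the logarithmic derivative of a norm

`derivation_norm`: for a finite extension `E'/E` with compatible derivations `D`, `D₀`:
`D₀ (N g) = N g * Tr (D g / g)`.
-/

set_option autoImplicit false

open Matrix

namespace Fermat.Agent.H72

section Jacobi

variable {R : Type*} [CommRing R] (D : R →+ R) (hD : ∀ x y, D (x * y) = x * D y + y * D x)

include hD

theorem add_one_eq_zero : D 1 = 0 := by
  have := hD 1 1
  rw [one_mul] at this
  simpa using this

theorem add_prod {ι : Type*} [DecidableEq ι] (s : Finset ι) (f : ι → R) :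
    D (∏ i ∈ s, f i) = ∑ i ∈ s, (∏ j ∈ s.erase i, f j) * D (f i) := by
  induction s using Finset.induction_on with
  | empty => simpa using add_one_eq_zero D hD
  | insert a s ha ih =>
    rw [Finset.prod_insert ha, hD, ih, Finset.sum_insert ha, Finset.erase_insert ha, Finset.mul_sum,
      add_comm]
    congr 1
    refine Finset.sum_congr rfl fun i hi => ?_
    have hne : a ≠ i := by rintro rfl; exact ha hi
    rw [Finset.erase_insert_of_ne hne, Finset.prod_insert (fun h => ha (Finset.mem_of_mem_erase h)),
      mul_assoc]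

variable {n : Type*} [Fintype n] [DecidableEq n]

/-- Jacobi's formula. -/
theorem add_det (M : Matrix n n R) : D M.det = (M.adjugate * M.map D).trace := by
  have h1 : (M.adjugate * M.map D).trace = ∑ i, (M.updateCol i (fun j => D (M j i))).det := by
    rw [Matrix.trace]
    refine Finset.sum_congr rfl fun i _ => ?_
    rw [← cramer_apply, cramer_eq_adjugate_mulVec]
    rfl
  rw [h1, Matrix.det_apply, map_sum]
  simp only [Matrix.det_apply]
  rw [Finset.sum_comm]
  refine Finset.sum_congr rfl fun σ _ => ?_
  have h2 : D (Equiv.Perm.sign σ • ∏ i, M (σ i) i) = Equiv.Perm.sign σ • D (∏ i, M (σ i) i) := by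
    rcases Int.units_eq_one_or (Equiv.Perm.sign σ) with h | h
    · rw [h, one_smul, one_smul]
    · rw [h, Units.neg_smul, one_smul, map_neg, Units.neg_smul, one_smul]
  rw [h2, ← Finset.smul_sum, add_prod D hD]
  congr 1
  refine Finset.sum_congr rfl fun i _ => ?_
  rw [← Finset.prod_erase_mul _ _ (Finset.mem_univ i), updateCol_self]
  congr 1
  refine Finset.prod_congr rfl fun j hj => ?_
  rw [updateCol_ne (Finset.ne_of_mem_erase hj)]

end Jacobi

section Norm

variable {E E' : Type*} [Field E] [Field E'] [Algebra E E'] [FiniteDimensional E E']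
  (D₀ : E →+ E) (hD₀ : ∀ x y, D₀ (x * y) = x * D₀ y + y * D₀ x)
  (D : E' →+ E') (hD : ∀ x y, D (x * y) = x * D y + y * D x)
  (hDD : ∀ x, D (algebraMap E E' x) = algebraMap E E' (D₀ x))

include hD₀ hD hDD

/-- **The logarithmic derivative of a norm is the trace of the logarithmic derivative.** -/
theorem derivation_norm {g : E'} (hg : g ≠ 0) :
    D₀ (Algebra.norm E g) = Algebra.norm E g * Algebra.trace E E' (D g / g) := by
  classical
  let b := Module.finBasis E E'
  set M := Algebra.leftMulMatrix b g with hM
  let P : Matrix (Fin (Module.finrank E E')) (Fin (Module.finrank E E')) E :=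
    fun i j => b.repr (D (b j)) i
  have hDb : ∀ j, D (b j) = ∑ i, P i j • b i := fun j => (b.sum_repr _).symm
  have hmul : ∀ (y : E') (j), y * b j = ∑ i, Algebra.leftMulMatrix b y i j • b i := by
    intro y j
    rw [← b.sum_repr (y * b j)]
    refine Finset.sum_congr rfl fun i _ => ?_
    rw [Algebra.leftMulMatrix_eq_repr_mul]
  have hsmul : ∀ (c : E) (y : E'), D (c • y) = D₀ c • y + c • D y := by
    intro c y
    rw [Algebra.smul_def, hD, hDD, Algebra.smul_def, Algebra.smul_def]
    ring
  have key : Algebra.leftMulMatrix b (D g) + M * P = M.map D₀ + P * M := by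
    ext l j
    have h1 : D (g * b j) = ∑ l, (Algebra.leftMulMatrix b (D g) + M * P) l j • b l := by
      rw [hD, hDb, mul_comm (b j) (D g), hmul, Finset.mul_sum, add_comm]
      simp only [Matrix.add_apply, add_smul, Finset.sum_add_distrib]
      congr 1
      have h2 : ∀ i, g * P i j • b i = ∑ l, (M l i * P i j) • b l := by
        intro i
        rw [mul_smul_comm, hmul, Finset.smul_sum]
        refine Finset.sum_congr rfl fun l _ => ?_
        rw [smul_smul, mul_comm]
      rw [Finset.sum_congr rfl fun i _ => h2 i, Finset.sum_comm]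
      refine Finset.sum_congr rfl fun l _ => ?_
      rw [Matrix.mul_apply, Finset.sum_smul]
    have h3 : D (g * b j) = ∑ l, (M.map D₀ + P * M) l j • b l := by
      rw [hmul, map_sum]
      simp only [hsmul, Finset.sum_add_distrib, Matrix.add_apply, add_smul, Matrix.map_apply]
      congr 1
      have h2 : ∀ i, M i j • D (b i) = ∑ l, (P l i * M i j) • b l := by
        intro i
        rw [hDb, Finset.smul_sum]
        refine Finset.sum_congr rfl fun l _ => ?_
        rw [smul_smul, mul_comm]
      rw [Finset.sum_congr rfl fun i _ => h2 i, Finset.sum_comm]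
      refine Finset.sum_congr rfl fun l _ => ?_
      rw [Matrix.mul_apply, Finset.sum_smul]
    have h4 := congrArg (fun z => b.repr z l) (h1.symm.trans h3)
    simpa only [b.repr_sum_self] using h4
  have hinv : M * Algebra.leftMulMatrix b g⁻¹ = 1 := by
    rw [hM, ← map_mul, mul_inv_cancel₀ hg, map_one]
  have hinv' : Algebra.leftMulMatrix b g⁻¹ * M = 1 := by
    rw [hM, ← map_mul, inv_mul_cancel₀ hg, map_one]
  have hadj : M.adjugate = M.det • Algebra.leftMulMatrix b g⁻¹ := by
    calc M.adjugate = M.adjugate * (M * Algebra.leftMulMatrix b g⁻¹) := by rw [hinv, mul_one]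
      _ = _ := by rw [← mul_assoc, Matrix.adjugate_mul, smul_mul_assoc, one_mul]
  rw [Algebra.norm_eq_matrix_det b, ← hM, add_det D₀ hD₀, hadj, smul_mul_assoc, Matrix.trace_smul,
    smul_eq_mul, Algebra.trace_eq_matrix_trace b, div_eq_inv_mul, map_mul]
  congr 1
  have h5 : M.map D₀ = Algebra.leftMulMatrix b (D g) + M * P - P * M := by
    rw [key]; abel
  rw [h5, mul_sub, mul_add, Matrix.trace_sub, Matrix.trace_add, ← mul_assoc, hinv', one_mul,
    ← mul_assoc, Matrix.trace_mul_comm _ M, ← mul_assoc, hinv, one_mul, add_sub_cancel_right]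

end Norm

end Fermat.Agent.H72
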