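import Mathlib
import Fermat.Agent.H72F1cLog
import Fermat.Agent.H93Weil
import Fermat.Agent.H88Descent

/-!
# MZ-F1c: simple poles of logarithmic differentials are seen by traces
-/

set_option autoImplicit false

open AlgebraicCurve WithZero IntermediateField Polynomial Fermat.Agent.H3RR Fermat.Agent.H88

namespace Fermat.Agent.H72

section Approx

variable {K F : Type*} [Field K] [Field F] [Algebra K F] [IsAlgClosed K] [IsFF K F]

/-- Strong approximation: `1` at `w₀`, `0` at the other places of `S`, regular where `x` is. -/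
theorem exists_approx_one {x : F} (hx : Transcendental K x) (w₀ : Place K F)
    (S : Finset (Place K F)) (hw₀ : w₀ ∈ S) (hS : ∀ w ∈ S, w.adicValuation x ≤ 1) (C : ℕ) :
    ∃ e ∈ aff K x, w₀.adicValuation (e - 1) ≤ exp (-(C : ℤ)) ∧
      ∀ w ∈ S, w ≠ w₀ → w.adicValuation e ≤ exp (-(C : ℤ)) := by
  classical
  let D : Divisor K F := ∑ w ∈ S, Finsupp.single w (-(C : ℤ))
  have hDapp : ∀ v, D v = ∑ w ∈ S, Finsupp.single w (-(C : ℤ)) v := fun v =>
    Finsupp.finsetSum_apply _ _ _
  have hDS : ∀ w ∈ S, D w = -(C : ℤ) := by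
    intro w hw
    rw [hDapp, Finset.sum_eq_single w]
    · simp
    · intro b _ hb
      rw [Finsupp.single_apply, if_neg hb]
    · intro h; exact absurd hw h
  have hDle : ∀ w, D w ≤ 0 := by
    intro w
    rw [hDapp]
    apply Finset.sum_nonpos
    intro b _
    rw [Finsupp.single_apply]
    split_ifs
    · omega
    · exact le_rfl
  obtain ⟨N, β, hβ, f, hf⟩ := H93.Res.strong_approx hx D (H93.Res.sgl w₀ 1)
  have hval : ∀ v : Place K F, v.adicValuation x ≤ 1 →
      v.adicValuation (f - (if v = w₀ then 1 else 0)) ≤ exp (D v) := by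
    intro v hv
    have h1 := hβ v
    have h2 : (β : Place K F → F) v = (if v = w₀ then 1 else 0) - f := by
      have h3 := congrArg (fun α : ↥(repartitions K F) => (α : Place K F → F) v) hf
      simp only [H93.Res.coe_add_apply, H93.Res.coe_algebraMap_apply, H93.Res.sgl_apply] at h3
      rw [h3]; ring
    rw [h2, Finsupp.add_apply, Finsupp.smul_apply,
      H93.Res.poleDiv_of_le_one (transcendental_ne_zero hx) hv, smul_zero, add_zero] at h1
    rwa [Valuation.map_sub_swap]
  refine ⟨f, fun v hv => ?_, ?_, fun w hw hne => ?_⟩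
  · have h1 := hval v hv
    have h2 : f = (f - (if v = w₀ then 1 else 0)) + (if v = w₀ then 1 else 0) := by ring
    rw [h2]
    refine (Valuation.map_add _ _ _).trans (max_le (h1.trans ?_) ?_)
    · rw [← exp_zero, exp_le_exp]; exact hDle v
    · split_ifs
      · rw [map_one]
      · rw [map_zero]; exact zero_le
  · have h1 := hval w₀ (hS _ hw₀)
    rwa [if_pos rfl, hDS _ hw₀] at h1
  · have h1 := hval w (hS _ hw)
    rwa [if_neg hne, sub_zero, hDS _ hw] at h1

end Approx

/-- a uniform exponent -/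
theorem exists_exp_mul_lt_one {ι : Type*} (S : Finset ι) (b : ι → ℤᵐ⁰) :
    ∃ C : ℕ, 0 < C ∧ ∀ i ∈ S, exp (-(C : ℤ)) * b i < 1 := by
  classical
  have h1 : ∀ i, ∃ C₀ : ℕ, ∀ C : ℕ, C₀ ≤ C → exp (-(C : ℤ)) * b i < 1 := by
    intro i
    rcases eq_or_ne (b i) 0 with h | h
    · exact ⟨0, fun C _ => by rw [h, mul_zero]; exact zero_lt_one⟩
    · refine ⟨(log (b i)).toNat + 1, fun C hC => ?_⟩
      have h2 : b i = exp (log (b i)) := (exp_log h).symm
      rw [h2, ← exp_add, ← exp_zero, exp_lt_exp]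
      have := Int.self_le_toNat (log (b i))
      omega
  choose C₀ hC₀ using h1
  refine ⟨S.sup C₀ + 1, by omega, fun i hi => hC₀ i _ ?_⟩
  have := Finset.le_sup (f := C₀) hi
  omega

section Local

variable {k E E' : Type*} [Field k] [IsAlgClosed k] [Field E] [Field E'] [Algebra k E]
  [Algebra k E'] [Algebra E E'] [IsScalarTower k E E'] [Module.Finite E E'] [IsFF k E]
  [IsFF k E'] [Algebra.IsSeparable E E']

/-- order of a norm -/
theorem ord_norm (v : Place k E) (w₀ : Place k E') (hw₀ : w₀.restrict E = v) {g : E'}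
    (hg : g ≠ 0) (hgw : ∀ w : Place k E', w.restrict E = v → w ≠ w₀ → w.ord g = 0) :
    v.ord (Algebra.norm E g) = w₀.ord g := by
  classical
  obtain ⟨S, hS⟩ : ∃ S : Finset (Place k E'), ∀ w, w ∈ S ↔ w.restrict E = v :=
    ⟨(Place.restrict_fiber_finite (K := k) (F := E) (F' := E') v).toFinset, fun w => by simp⟩
  obtain ⟨t, ht0, ht1, ht⟩ := exists_simple S w₀ ((hS w₀).mpr hw₀)
  have hNt := ord_norm_eq_one v w₀ hw₀ ht0 ht1 fun w hw hne => ht w ((hS w).mpr hw) hne
  set m := w₀.ord g with hm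
  have hs0 : g * (t ^ m)⁻¹ ≠ 0 := mul_ne_zero hg (inv_ne_zero (zpow_ne_zero _ ht0))
  have hs : ∀ w : Place k E', w.restrict E = v → w.adicValuation (g * (t ^ m)⁻¹) = 1 := by
    intro w hw
    have h1 : w.ord (g * (t ^ m)⁻¹) = 0 := by
      rw [w.ord_mul hg (inv_ne_zero (zpow_ne_zero _ ht0)), w.ord_inv, w.ord_zpow]
      by_cases hww : w = w₀
      · rw [hww, ht1, ← hm]; ring
      · rw [hgw w hw hww, ht w ((hS w).mpr hw) hww]; ring
    rw [w.adicValuation_eq_exp_neg_ord hs0, h1]
    simp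
  have h2 := norm_eq_one v hs
  have h3 : v.ord (Algebra.norm E (g * (t ^ m)⁻¹)) = 0 := by
    have h4 : Algebra.norm E (g * (t ^ m)⁻¹) ≠ 0 := Algebra.norm_ne_zero_iff.mpr hs0
    rw [v.adicValuation_eq_exp_neg_ord h4, ← exp_zero, exp_inj] at h2
    omega
  have hNt0 : Algebra.norm E t ≠ 0 := Algebra.norm_ne_zero_iff.mpr ht0
  have hNg0 : Algebra.norm E g ≠ 0 := Algebra.norm_ne_zero_iff.mpr hg
  let Nz : E' →*₀ E := { Algebra.norm E with map_zero' := Algebra.norm_zero }
  have hNz : Algebra.norm E (t ^ m)⁻¹ = (Algebra.norm E t ^ m)⁻¹ := by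
    have h5 : Nz (t ^ m)⁻¹ = (Nz t ^ m)⁻¹ := by rw [map_inv₀, map_zpow₀]
    exact h5
  rw [map_mul, hNz, v.ord_mul hNg0 (inv_ne_zero (zpow_ne_zero _ hNt0)), v.ord_inv,
    v.ord_zpow, hNt] at h3
  omega

variable (r : ℕ) [Fact r.Prime] [CharP k r]
  (D₀ : E →+ E) (hD₀ : ∀ x y, D₀ (x * y) = x * D₀ y + y * D₀ x)
  (D : E' →+ E') (hD : ∀ x y, D (x * y) = x * D y + y * D x)
  (hDD : ∀ x, D (algebraMap E E' x) = algebraMap E E' (D₀ x))

theorem add_pow_der {R : Type*} [CommRing R] (D : R →+ R)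
    (hD : ∀ x y, D (x * y) = x * D y + y * D x) (y : R) (n : ℕ) :
    D (y ^ (n + 1)) = (n + 1 : ℕ) * y ^ n * D y := by
  induction n with
  | zero => simp
  | succ n ih =>
    rw [pow_succ, hD, ih]
    push_cast
    ring

theorem add_zpow_der {R : Type*} [Field R] (D : R →+ R)
    (hD : ∀ x y, D (x * y) = x * D y + y * D x) {y : R} (hy : y ≠ 0) (m : ℤ) :
    D (y ^ m) / y ^ m = m * (D y / y) := by
  have h1 : ∀ z w : R, z ≠ 0 → w ≠ 0 → D (z * w) / (z * w) = D z / z + D w / w := by
    intro z w hz hw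
    rw [hD]
    field_simp
    ring
  have h0 : D 1 = 0 := add_one_eq_zero D hD
  have hnat : ∀ n : ℕ, D (y ^ n) / y ^ n = n * (D y / y) := by
    intro n
    induction n with
    | zero => rw [pow_zero, h0]; simp
    | succ n ih =>
      rw [pow_succ, h1 _ _ (pow_ne_zero _ hy) hy, ih]
      push_cast
      ring
  obtain ⟨n, rfl | rfl⟩ := m.eq_nat_or_neg
  · rw [zpow_natCast, hnat]; push_cast; ring
  · have h2 := h1 (y ^ n) (y ^ (-(n : ℤ))) (pow_ne_zero _ hy) (zpow_ne_zero _ hy)
    rw [zpow_neg, zpow_natCast, mul_inv_cancel₀ (pow_ne_zero _ hy), h0, zero_div, hnat] at h2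
    rw [zpow_neg, zpow_natCast]
    push_cast
    linear_combination -h2

include hD₀ hD hDD in
/-- **Traces see the simple poles of logarithmic differentials.** -/
theorem dvd_ord_of_trace {x : E} (hx : Transcendental k x) {t : E} (v : Place k E)
    (hxv : v.adicValuation x ≤ 1) (ht : v.adicValuation t = exp (-1)) (hDt : D₀ t = 1)
    (hDv : ∀ s, v.adicValuation s ≤ 1 → v.adicValuation (D₀ s) ≤ 1) {h : E'} (hh : h ≠ 0)
    (hT : ∀ u ∈ aff k (algebraMap E E' x),
      v.adicValuation (Algebra.trace E E' (u * (D h / h))) ≤ 1)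
    (w₀ : Place k E') (hw₀ : w₀.restrict E = v) : (r : ℤ) ∣ w₀.ord h := by
  classical
  have hr : r.Prime := Fact.out
  have hE' : CharP E' r := charP_of_injective_algebraMap (algebraMap k E').injective r
  obtain ⟨S, hS⟩ : ∃ S : Finset (Place k E'), ∀ w, w ∈ S ↔ w.restrict E = v :=
    ⟨(Place.restrict_fiber_finite (K := k) (F := E) (F' := E') v).toFinset, fun w => by simp⟩
  have hx' : Transcendental k (algebraMap E E' x) :=
    (transcendental_algebraMap_iff (algebraMap E E').injective).mpr hx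
  set φ := D h / h with hφ
  set Q : Place k E' → ℤᵐ⁰ := fun w => w.adicValuation (1 - h) with hQ
  obtain ⟨C, hC0, hC⟩ := exists_exp_mul_lt_one (S ×ˢ (Finset.univ : Finset (Fin 4)))
    (fun p => Q p.1 * ![1, (p.1.adicValuation h)⁻¹, p.1.adicValuation φ,
      p.1.adicValuation φ * (p.1.adicValuation h)⁻¹] p.2)
  have hC' : ∀ w ∈ S, ∀ i : Fin 4, exp (-(C : ℤ)) * (Q w * ![1, (w.adicValuation h)⁻¹,
      w.adicValuation φ, w.adicValuation φ * (w.adicValuation h)⁻¹] i) < 1 := fun w hw i =>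
    hC (w, i) (Finset.mem_product.mpr ⟨hw, Finset.mem_univ _⟩)
  have c0 : ∀ w ∈ S, exp (-(C : ℤ)) * Q w < 1 := fun w hw => by simpa using hC' w hw 0
  have c1 : ∀ w ∈ S, exp (-(C : ℤ)) * (Q w * (w.adicValuation h)⁻¹) < 1 := fun w hw => by
    simpa using hC' w hw 1
  have c2 : ∀ w ∈ S, exp (-(C : ℤ)) * (Q w * w.adicValuation φ) < 1 := fun w hw => by
    simpa using hC' w hw 2
  have c3 : ∀ w ∈ S, exp (-(C : ℤ)) * (Q w * (w.adicValuation φ * (w.adicValuation h)⁻¹)) < 1 :=
    fun w hw => by simpa using hC' w hw 3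
  have hw₀S : w₀ ∈ S := (hS w₀).mpr hw₀
  obtain ⟨e0, he0, he1, he2⟩ := exists_approx_one hx' w₀ S hw₀S (fun w hw => by
    rw [← restrict_le_one_iff, (hS w).mp hw]; exact hxv) C
  obtain ⟨r', hr'⟩ : ∃ r', r = r' + 1 := ⟨r - 1, by have := hr.one_lt; omega⟩
  -- the idempotent-like element
  set e := e0 ^ r with he
  have heaff : e ∈ aff k (algebraMap E E' x) := (aff k (algebraMap E E' x)).pow_mem he0 r
  have hDe : D e = 0 := by
    rw [he, hr', add_pow_der D hD, ← hr', CharP.cast_eq_zero, zero_mul, zero_mul]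
  have hC1 : exp (-(C : ℤ)) ≤ (1 : ℤᵐ⁰) := by rw [← exp_zero, exp_le_exp]; omega
  have hpowle : ∀ (w : Place k E') (y : E'), w.adicValuation y ≤ exp (-(C : ℤ)) →
      w.adicValuation (y ^ r) ≤ exp (-(C : ℤ)) := by
    intro w y hy
    rw [map_pow, hr', pow_succ]
    exact mul_le_of_le_one_of_le (pow_le_one' (hy.trans hC1) r') hy
  have hew0 : w₀.adicValuation (1 - e) ≤ exp (-(C : ℤ)) := by
    have h1 : e - 1 = (e0 - 1) ^ r := by
      have := sub_pow_char e0 1 (p := r)
      rw [this, one_pow]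
    rw [Valuation.map_sub_swap, h1]
    exact hpowle _ _ he1
  have hew : ∀ w ∈ S, w ≠ w₀ → w.adicValuation e ≤ exp (-(C : ℤ)) := fun w hw hne =>
    hpowle _ _ (he2 w hw hne)
  have hele : ∀ w ∈ S, w.adicValuation e ≤ 1 := fun w hw => heaff w (by
    rw [← restrict_le_one_iff, (hS w).mp hw]; exact hxv)
  have hele' : ∀ w ∈ S, w.adicValuation (1 - e) ≤ 1 := fun w hw =>
    (Valuation.map_sub _ _ _).trans (max_le (by rw [map_one]) (hele w hw))
  set g := h + (1 - e) * (1 - h) with hg
  have hhv : ∀ w : Place k E', w.adicValuation h ≠ 0 := fun w => w.adicValuation_ne_zero hh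
  -- valuation of `g`
  have hgw0 : w₀.adicValuation g = w₀.adicValuation h := by
    rw [hg, Valuation.map_add_eq_of_lt_left]
    have h1 : w₀.adicValuation ((1 - e) * (1 - h)) ≤ exp (-(C : ℤ)) * Q w₀ := by
      rw [map_mul]; exact mul_le_mul_left hew0 _
    refine lt_of_le_of_lt h1 ?_
    have h2 := c1 w₀ hw₀S
    rwa [← mul_assoc, mul_inv_lt_iff₀ (zero_lt_iff.mpr (hhv w₀)), one_mul] at h2
  have hgw : ∀ w ∈ S, w ≠ w₀ → w.adicValuation g = 1 := by
    intro w hw hne
    have h0 : g = 1 + -(e * (1 - h)) := by rw [hg]; ring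
    rw [h0, Valuation.map_add_eq_of_lt_left, map_one]
    rw [Valuation.map_neg, map_one, map_mul]
    exact lt_of_le_of_lt (mul_le_mul_left (hew w hw hne) _) (c0 w hw)
  have hg0 : g ≠ 0 := by
    intro h0
    rw [h0, map_zero] at hgw0
    exact hhv w₀ hgw0.symm
  have hordg : w₀.ord g = w₀.ord h := by
    have h1 := hgw0
    rw [w₀.adicValuation_eq_exp_neg_ord hg0, w₀.adicValuation_eq_exp_neg_ord hh, exp_inj] at h1
    omega
  have hordgw : ∀ w : Place k E', w.restrict E = v → w ≠ w₀ → w.ord g = 0 := by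
    intro w hw hne
    have h1 := hgw w ((hS w).mpr hw) hne
    rw [w.adicValuation_eq_exp_neg_ord hg0, ← exp_zero, exp_inj] at h1
    omega
  -- derivatives
  have hD1 : D 1 = 0 := add_one_eq_zero D hD
  have hDg : D g = e * D h := by
    rw [hg, map_add, hD, map_sub, map_sub, hD1, hDe]
    ring
  have hdiff : e * φ - D g / g = e * φ * ((1 - e) * (1 - h)) / g := by
    have h1 : e * φ * g = e * φ * h + e * φ * ((1 - e) * (1 - h)) := by rw [hg]; ring
    have h2 : e * φ * h = D g := by rw [hDg, hφ]; field_simp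
    rw [eq_div_iff hg0, sub_mul, div_mul_cancel₀ _ hg0, h1, h2]
    ring
  have hdiffv : v.adicValuation (Algebra.trace E E' (e * φ - D g / g)) ≤ 1 := by
    apply trace_le_one v
    intro w hw
    have hwS := (hS w).mpr hw
    rw [hdiff, map_div₀, map_mul, map_mul, map_mul]
    by_cases hww : w = w₀
    · subst hww
      rw [hgw0]
      have h1 : w.adicValuation e * w.adicValuation φ *
          (w.adicValuation (1 - e) * w.adicValuation (1 - h)) / w.adicValuation h ≤
          exp (-(C : ℤ)) * (Q w * (w.adicValuation φ * (w.adicValuation h)⁻¹)) := by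
        calc _ = w.adicValuation e * (w.adicValuation (1 - e) * (w.adicValuation (1 - h) *
              (w.adicValuation φ * (w.adicValuation h)⁻¹))) := by
              rw [div_eq_mul_inv]; ac_rfl
          _ ≤ 1 * (exp (-(C : ℤ)) * (Q w * (w.adicValuation φ * (w.adicValuation h)⁻¹))) :=
              mul_le_mul' (hele w hwS) (mul_le_mul' hew0 le_rfl)
          _ = _ := one_mul _
      exact h1.trans (c3 w hwS).le
    · rw [hgw w hwS hww, div_one]
      have h1 : w.adicValuation e * w.adicValuation φ *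
          (w.adicValuation (1 - e) * w.adicValuation (1 - h)) ≤
          exp (-(C : ℤ)) * (Q w * w.adicValuation φ) := by
        calc _ = w.adicValuation (1 - e) * (w.adicValuation e * (w.adicValuation (1 - h) *
              w.adicValuation φ)) := by ac_rfl
          _ ≤ 1 * (exp (-(C : ℤ)) * (Q w * w.adicValuation φ)) :=
              mul_le_mul' (hele' w hwS) (mul_le_mul' (hew w hwS hww) le_rfl)
          _ = _ := one_mul _
      exact h1.trans (c2 w hwS).le
  have hTg : v.adicValuation (Algebra.trace E E' (D g / g)) ≤ 1 := by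
    have h1 : Algebra.trace E E' (D g / g) = Algebra.trace E E' (e * φ) -
        Algebra.trace E E' (e * φ - D g / g) := by rw [map_sub]; ring
    rw [h1]
    exact (Valuation.map_sub _ _ _).trans (max_le (hT e heaff) hdiffv)
  -- the norm
  have hN := derivation_norm D₀ hD₀ D hD hDD hg0
  have hN0 : Algebra.norm E g ≠ 0 := Algebra.norm_ne_zero_iff.mpr hg0
  have hord := ord_norm v w₀ hw₀ hg0 hordgw
  rw [hordg] at hord
  set m := w₀.ord h with hm
  have ht0 : t ≠ 0 := by
    rintro rfl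
    rw [map_zero] at ht
    exact absurd ht.symm (by simp)
  have htord : v.ord t = 1 := by
    rw [v.adicValuation_eq_exp_neg_ord ht0, exp_inj] at ht
    omega
  set s := Algebra.norm E g * (t ^ m)⁻¹ with hs
  have htm0 : t ^ m ≠ 0 := zpow_ne_zero _ ht0
  have hs0 : s ≠ 0 := mul_ne_zero hN0 (inv_ne_zero htm0)
  have hsv : v.adicValuation s = 1 := by
    rw [v.adicValuation_eq_exp_neg_ord hs0, hs, v.ord_mul hN0 (inv_ne_zero htm0), v.ord_inv,
      v.ord_zpow, htord, hord]
    simp
  have hNs : Algebra.norm E g = t ^ m * s := by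
    rw [hs]; field_simp
  have hlog : D₀ (Algebra.norm E g) / Algebra.norm E g = m * (1 / t) + D₀ s / s := by
    rw [hNs, hD₀, ← hDt, ← add_zpow_der D₀ hD₀ ht0]
    field_simp
    ring
  have hlog' : (m : E) * (1 / t) = Algebra.trace E E' (D g / g) - D₀ s / s := by
    rw [hN, mul_comm, mul_div_cancel_right₀ _ hN0] at hlog
    rw [hlog]; ring
  have hfin : v.adicValuation ((m : E) * (1 / t)) ≤ 1 := by
    rw [hlog']
    refine (Valuation.map_sub _ _ _).trans (max_le hTg ?_)
    rw [map_div₀, hsv, div_one]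
    exact hDv s hsv.le
  by_contra hcon
  have hmk : (m : k) ≠ 0 := fun h0 => hcon ((CharP.intCast_eq_zero_iff k r m).mp h0)
  have hmE : v.adicValuation (m : E) = 1 := by
    have h1 : (m : E) = algebraMap k E (m : k) := by rw [map_intCast]
    rw [h1]
    exact adicValuation_algebraMap v hmk
  rw [map_mul, hmE, one_mul, map_div₀, map_one, ht, one_div, ← exp_neg, ← exp_zero,
    exp_le_exp] at hfin
  omega

end Local

end Fermat.Agent.H72
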