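import Mathlib
import Fermat.Agent.H72F1cLoc

/-!
# MZ-F1c: the trace condition and reductions
-/

set_option autoImplicit false

open AlgebraicCurve WithZero IntermediateField Polynomial Fermat.Agent.H3RR Fermat.Agent.H88
  Fermat.Agent.H40

namespace Fermat.Agent.H72

section CharZero

variable {K F F' : Type*} [Field K] [Field F] [Field F'] [Algebra K F] [Algebra K F']
  [Algebra F F'] [IsScalarTower K F F'] [Module.Finite F F'] [IsFF K F'] [IsFF K F] [IsAlgClosed K]
  [Algebra.IsSeparable F F']

theorem trace_mem_aff {x : F} (hx : Transcendental K x) (htop : K⟮x⟯ = ⊤) {y : F'}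
    (hy : ∀ (w : Place K F') (c : K), w.adicValuation (algebraMap F F' (x - algebraMap K F c)) < 1 →
      w.adicValuation (algebraMap F F' (x - algebraMap K F c) * y) < 1) {u : F'}
    (hu : u ∈ aff K (algebraMap F F' x)) : Algebra.trace F F' (u * y) ∈ aff K x := by
  intro v hv
  obtain ⟨c, hc⟩ := exists_const_sub_lt_one v hv
  have h1 : v.adicValuation (x - algebraMap K F c) = exp (-1) :=
    adicValuation_eq_of_top (transcendental_sub_const hx c)
      (by rw [adjoin_sub_const, htop]) v hc
  have h2 : v.adicValuation (Algebra.trace F F'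
      (algebraMap F F' (x - algebraMap K F c) * (u * y))) < 1 := by
    apply trace_lt_one v
    intro w hw
    have hwv : w.restrict F = v := by
      apply Place.ext
      ext e
      rw [Place.mem_restrict_iff]
      exact (hw e).symm
    have h3 : w.adicValuation (algebraMap F F' (x - algebraMap K F c)) < 1 := by
      rw [← restrict_lt_one_iff, hwv]; exact hc
    have h4 : w.adicValuation u ≤ 1 := hu w (by rw [← restrict_le_one_iff, hwv]; exact hv)
    have h5 := hy w c h3
    have h6 : algebraMap F F' (x - algebraMap K F c) * (u * y) =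
        u * (algebraMap F F' (x - algebraMap K F c) * y) := by ring
    rw [h6, map_mul]
    exact mul_lt_one_of_nonneg_of_lt_one_right h4 zero_le h5
  rw [← Algebra.smul_def, map_smul, smul_eq_mul, map_mul, h1] at h2
  by_contra hcon
  push Not at hcon
  have h7 : exp (1 : ℤ) ≤ v.adicValuation (Algebra.trace F F' (u * y)) := by
    have h8 : Algebra.trace F F' (u * y) ≠ 0 := by
      intro h0
      rw [h0, map_zero] at hcon
      exact absurd hcon (not_lt.mpr zero_le)
    rw [v.adicValuation_eq_exp_neg_ord h8, ← exp_zero, exp_lt_exp] at hcon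
    rw [v.adicValuation_eq_exp_neg_ord h8, exp_le_exp]
    omega
  have h9 : exp (-1 : ℤ) * exp (1 : ℤ) ≤
      exp (-1) * v.adicValuation (Algebra.trace F F' (u * y)) := mul_le_mul_right h7 _
  rw [← exp_add] at h9
  simp only [neg_add_cancel, exp_zero] at h9
  exact absurd h2 (not_lt.mpr h9)

end CharZero

section Red

variable {K F F' k E E' : Type*} [Field K] [Field F] [Field F'] [Algebra K F] [Algebra K F']
  [Algebra F F'] [Field k] [Field E] [Field E'] [Algebra k E] [Algebra k E'] [Algebra E E']
  [IsScalarTower K F F'] [IsScalarTower k E E'] [CharZero K]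
  [IsAlgClosed K] [IsAlgClosed k] [IsFF K F] [IsFF k E] [IsFF K F'] [IsFF k E']
  [Module.Finite F F'] [Module.Finite E E']
  {R : ReductionData K F k E} {R' : ReductionData K F' k E'}

/-- The trace condition passes to reductions. -/
theorem trace_red (C : RedCompat R R') {x : R.B} (hx : Transcendental k (R.ρ x))
    (hdeg : Module.finrank K⟮(x : F)⟯ F = Module.finrank k⟮R.ρ x⟯ E)
    (hd : Module.finrank F F' = Module.finrank E E') (hg' : genusFF K F' = genusFF k E')
    (y : R'.B) (hy : ∀ u ∈ aff K (algebraMap F F' x),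
      Algebra.trace F F' (u * (y : F')) ∈ aff K (x : F)) {u : E'}
    (hu : u ∈ aff k (algebraMap E E' (R.ρ x))) :
    Algebra.trace E E' (u * R'.ρ y) ∈ aff k (R.ρ x) := by
  have hx' : Transcendental k (R'.ρ (C.emb x)) := by
    rw [C.ρ_emb]
    exact (transcendental_algebraMap_iff (algebraMap E E').injective).mpr hx
  have hdeg' : Module.finrank K⟮(C.emb x : F')⟯ F' = Module.finrank k⟮R'.ρ (C.emb x)⟯ E' := by
    rw [C.ρ_emb, C.coe_emb, finrank_adjoin_algebraMap, finrank_adjoin_algebraMap, hdeg, hd]
  rw [← C.ρ_emb] at hu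
  obtain ⟨u', rfl, hu'⟩ := exists_lift R' hx' hdeg' hg' hu
  obtain ⟨b, hb, hbρ⟩ := (C.norm_trace hd (u' * y)).2
  rw [← map_mul, ← hbρ]
  apply ρ_mem_aff R hx hdeg
  rw [hb]
  exact hy _ hu'

end Red

end Fermat.Agent.H72
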