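import Mathlib
import Fermat.Agent.H72F1cRed
import Fermat.Agent.H88Mod

/-!
# MZ-F1c: logarithmic forms satisfying the trace condition, intermediate field version
-/

set_option autoImplicit false

noncomputable section

open AlgebraicCurve WithZero IntermediateField Polynomial Fermat.Agent.H3RR Fermat.Agent.H88
  Fermat.Agent.H40

namespace Fermat.Agent.H72

section Poly

variable {k E : Type*} [Field k] [IsAlgClosed k] [Field E] [Algebra k E] [IsFF k E]

/-- `d/dx` preserves functions on the line regular at a finite place -/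
theorem der_le_one (D : Derivation k E E) {x : E} (hx : Transcendental k x) (htop : k⟮x⟯ = ⊤)
    (hD : D x = 1) (v : Place k E) (hv : v.adicValuation x ≤ 1) (s : E)
    (hs : v.adicValuation s ≤ 1) : v.adicValuation (D s) ≤ 1 := by
  obtain ⟨c, hc⟩ := exists_const_sub_lt_one v hv
  obtain ⟨p, q, hpq, hq0, hs'⟩ := H93.Res.exists_coprime hx (f := s) (by rw [htop]; trivial)
  have hK : ∀ a : k, algebraMap k E a ∈ v.toValuationSubring := v.algebraMap_mem'
  have hc' : x - algebraMap k E c ∈ v.toValuationSubring.nonunits :=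
    (H93.Res.mem_nonunits_place_iff v).mpr hc
  have hxV : x ∈ v.toValuationSubring := mem_of_adicValuation_le_one v hv
  have hae : ∀ P : k[X], v.adicValuation (aeval x P) ≤ 1 := fun P =>
    v.adicValuation_le_one_of_mem (H3RR.aeval_mem _ hK hxV P)
  have hq1 : aeval x q ≠ 0 := fun h0 => hq0 ((transcendental_iff.mp hx) q h0)
  have hnon : ∀ P : k[X], P.eval c ≠ 0 → v.adicValuation (aeval x P) = 1 := by
    intro P hP
    have h1 := H93.Res.aeval_sub_eval_mem _ hK hc' P
    rw [H93.Res.mem_nonunits_place_iff] at h1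
    have h2 : v.adicValuation (algebraMap k E (P.eval c)) = 1 := adicValuation_algebraMap v hP
    have h3 : aeval x P = (aeval x P - algebraMap k E (P.eval c)) + algebraMap k E (P.eval c) := by
      ring
    rw [h3, Valuation.map_add_eq_of_lt_right _ (by rw [h2]; exact h1), h2]
  have hzero : ∀ P : k[X], P.eval c = 0 → v.adicValuation (aeval x P) < 1 := by
    intro P hP
    have h1 := H93.Res.aeval_sub_eval_mem _ hK hc' P
    rwa [hP, map_zero, sub_zero, H93.Res.mem_nonunits_place_iff] at h1
  have hsq : s * aeval x q = aeval x p := by rw [hs', div_mul_cancel₀ _ hq1]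
  have hqc : q.eval c ≠ 0 := by
    intro hqc
    have hpc : p.eval c ≠ 0 := by
      intro hpc
      obtain ⟨a, b, hab⟩ := hpq
      have := congrArg (Polynomial.eval c) hab
      rw [eval_add, eval_mul, eval_mul, hpc, hqc] at this
      simp at this
    have h1 := hnon p hpc
    rw [← hsq, map_mul] at h1
    have h2 := mul_lt_one_of_nonneg_of_lt_one_right hs zero_le (hzero q hqc)
    rw [h1] at h2
    exact lt_irrefl _ h2
  have hqv := hnon q hqc
  have h3 : D s * aeval x q = aeval x (derivative p) - s * aeval x (derivative q) := by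
    have h4 := congrArg D hsq
    rw [D.leibniz, D.map_aeval, D.map_aeval, hD] at h4
    simp only [smul_eq_mul, mul_one] at h4
    linear_combination h4
  have h5 : v.adicValuation (D s * aeval x q) ≤ 1 := by
    rw [h3]
    refine (Valuation.map_sub _ _ _).trans (max_le (hae _) ?_)
    rw [map_mul]
    exact mul_le_one' hs (hae _)
  rwa [map_mul, hqv, mul_one] at h5

end Poly

section Incl

variable {k Ω : Type*} [Field k] [Field Ω] [Algebra k Ω] {E E' : IntermediateField k Ω}
  (hE : E ≤ E')

/-- The functions `g` such that `Tr (u g)` is regular away from the poles of `x` for all `u` regular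
away from the poles of `x`. -/
def holSub (x : E) : Submodule k E' :=
  letI : Algebra E E' := (inclusion hE).toAlgebra
  { carrier := {g | ∀ u ∈ aff k (inclusion hE x), Algebra.trace E E' (u * g) ∈ aff k x}
    zero_mem' := fun u _ => by rw [mul_zero, map_zero]; exact zero_mem _
    add_mem' := fun {a b} ha hb u hu => by
      rw [mul_add, map_add]; exact add_mem (ha u hu) (hb u hu)
    smul_mem' := fun c g hg u hu => by
      have h1 : u * (c • g) = (c • u) * g := by rw [mul_smul_comm, smul_mul_assoc]
      rw [h1]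
      exact hg _ (Subalgebra.smul_mem _ hu c) }

theorem mem_holSub {x : E} {g : E'} :
    letI : Algebra E E' := (inclusion hE).toAlgebra
    g ∈ holSub hE x ↔ ∀ u ∈ aff k (inclusion hE x), Algebra.trace E E' (u * g) ∈ aff k x := Iff.rfl

/-- restriction of a derivation to an intermediate field -/
def restrictDer (δ : Ω →+ Ω) (hδ : ∀ x y, δ (x * y) = δ x * y + x * δ y)
    (hδk : ∀ c : k, δ (algebraMap k Ω c) = 0) (E : IntermediateField k Ω)
    (hE : ∀ z ∈ E, δ z ∈ E) : Derivation k E E :=
  Derivation.mk'
    { toFun := fun z => ⟨δ z, hE z z.2⟩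
      map_add' := fun y z => Subtype.ext (by
        show δ ((y : Ω) + (z : Ω)) = δ y + δ z
        rw [map_add])
      map_smul' := fun c z => Subtype.ext (by
        show δ (c • (z : Ω)) = c • δ z
        rw [Algebra.smul_def, hδ, hδk, zero_mul, zero_add, Algebra.smul_def]) }
    (fun y z => Subtype.ext (by
      show δ ((y : Ω) * (z : Ω)) = y * δ z + z * δ y
      rw [hδ]; ring))

theorem coe_restrictDer (δ : Ω →+ Ω) (hδ hδk) (E : IntermediateField k Ω)
    (hE : ∀ z ∈ E, δ z ∈ E) (z : E) :
    ((restrictDer δ hδ hδk E hE z : E) : Ω) = δ z := rfl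

variable [IsAlgClosed k] [IsFF k E] [IsFF k E']

/-- **Logarithmic forms satisfying the trace condition have divisor divisible by `r`** at the
places where `x` is finite. -/
theorem dvd_ord_incl (r : ℕ) [Fact r.Prime] [CharP k r] (δ : Ω →+ Ω)
    (hδ : ∀ x y, δ (x * y) = δ x * y + x * δ y) (hδk : ∀ c : k, δ (algebraMap k Ω c) = 0)
    (hδE : ∀ z ∈ E, δ z ∈ E) (hδE' : ∀ z ∈ E', δ z ∈ E') {x : E} (hx : Transcendental k x)
    (htop : k⟮x⟯ = ⊤) (hδx : δ x = 1)
    (hfin : Module.finrank k⟮inclusion hE x⟯ E' ≠ 0)
    (hsep : Algebra.IsSeparable k⟮inclusion hE x⟯ E') {g : E'} (hg : g ∈ holSub hE x) {h : E'}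
    (hh : h ≠ 0) (hδh : δ h = (g : Ω) * h) (w : Place k E')
    (hw : w.adicValuation (inclusion hE x) ≤ 1) : (r : ℤ) ∣ w.ord h := by
  let aE : Algebra E E' := (inclusion hE).toAlgebra
  have tE : IsScalarTower k E E' :=
    IsScalarTower.of_algebraMap_eq fun c => ((inclusion hE).commutes c).symm
  have e2 : Module.finrank k⟮inclusion hE x⟯ E' = _ :=
    finrank_adjoin_algebraMap (K := k) (F' := E') x
  have f2 : Module.Finite E E' := by
    apply Module.finite_of_finrank_pos
    apply Nat.pos_of_ne_zero
    intro h0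
    rw [h0, mul_zero] at e2
    exact hfin e2
  have s1 : Algebra.IsSeparable E E' := isSeparable_top_of_adjoin (k := k) x hsep
  let D₀ := restrictDer δ hδ hδk E hδE
  let D := restrictDer δ hδ hδk E' hδE'
  set v := w.restrict E with hv
  have hvx : v.adicValuation x ≤ 1 := by
    rw [hv, restrict_le_one_iff]
    exact hw
  obtain ⟨c, hc⟩ := exists_const_sub_lt_one v hvx
  have hc1 : v.adicValuation (x - algebraMap k E c) = exp (-1) :=
    adicValuation_eq_of_top (transcendental_sub_const hx c)
      (by rw [adjoin_sub_const, htop]) v hc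
  have hD₀x : D₀ x = 1 := Subtype.ext hδx
  have hDh : D h / h = g := by
    rw [div_eq_iff hh]
    exact Subtype.ext hδh
  refine dvd_ord_of_trace r (D₀ : E →+ E) (fun y z => ?_) (D : E' →+ E') (fun y z => ?_)
    (fun z => ?_) hx (t := x - algebraMap k E c) v hvx hc1 ?_
    (fun s hs => der_le_one D₀ hx htop hD₀x v hvx s hs) hh (fun u hu => ?_) w rfl
  · exact D₀.leibniz y z
  · exact D.leibniz y z
  · exact Subtype.ext rfl
  · show D₀ (x - algebraMap k E c) = 1
    rw [map_sub, D₀.map_algebraMap, sub_zero, hD₀x]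
  · have h1 : ((D : E' →+ E') h / h) = g := hDh
    rw [h1]
    exact (mem_holSub hE).mp hg u hu v hvx

end Incl

end Fermat.Agent.H72
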