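import Mathlib
import Fermat.Agent.H72F1cIncl
import Fermat.Agent.H45FormFun
import Fermat.Agent.H18DerLift
import Fermat.Agent.H1HauptRing

/-!
# MZ-F1c: reductions of cusp forms satisfy the trace condition
-/

set_option autoImplicit false

noncomputable section

open AlgebraicCurve WithZero IntermediateField Polynomial Fermat.Agent.H3RR Fermat.Agent.H88
  Fermat.Agent.H40 ModularCurve CongruenceSubgroup

namespace Fermat.Agent.H72

section Incl

variable {K Ω k Ωk : Type*} [Field K] [Field Ω] [Algebra K Ω] [Field k] [Field Ωk] [Algebra k Ωk]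
  [CharZero K] [IsAlgClosed K] [IsAlgClosed k]

theorem red_mem_holSub {F F' : IntermediateField K Ω} (hF : F ≤ F')
    {E E' : IntermediateField k Ωk} (hE : E ≤ E') [IsFF K F] [IsFF K F'] [IsFF k E] [IsFF k E']
    (R : ReductionData K F k E) (R' : ReductionData K F' k E')
    (hcomp : ∀ f : R.B, ∃ h : inclusion hF (f : F) ∈ R'.B, R'.ρ ⟨_, h⟩ = inclusion hE (R.ρ f))
    (x : R.B) (hx : Transcendental k (R.ρ x)) {n m : ℕ} (hm : m ≠ 0)
    (d1 : Module.finrank K⟮(x : F)⟯ F = n) (d2 : Module.finrank K⟮inclusion hF (x : F)⟯ F' = m)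
    (d3 : Module.finrank k⟮R.ρ x⟯ E = n) (d4 : Module.finrank k⟮inclusion hE (R.ρ x)⟯ E' = m)
    (hg : genusFF K F' = genusFF k E') (htop : K⟮(x : F)⟯ = ⊤) (y : R'.B)
    (hy : ∀ (w : Place K F') (c : K),
      w.adicValuation (inclusion hF ((x : F) - algebraMap K F c)) < 1 →
      w.adicValuation (inclusion hF ((x : F) - algebraMap K F c) * y) < 1) :
    R'.ρ y ∈ holSub hE (R.ρ x) := by
  let aE : Algebra E E' := (inclusion hE).toAlgebra
  let aF : Algebra F F' := (inclusion hF).toAlgebra
  have tE : IsScalarTower k E E' :=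
    IsScalarTower.of_algebraMap_eq fun c => ((inclusion hE).commutes c).symm
  have tF : IsScalarTower K F F' :=
    IsScalarTower.of_algebraMap_eq fun c => ((inclusion hF).commutes c).symm
  have e1 : Module.finrank K⟮inclusion hF (x : F)⟯ F' = _ :=
    finrank_adjoin_algebraMap (K := K) (F' := F') (x : F)
  have e2 : Module.finrank k⟮inclusion hE (R.ρ x)⟯ E' = _ :=
    finrank_adjoin_algebraMap (K := k) (F' := E') (R.ρ x)
  rw [d1, d2] at e1
  rw [d3, d4] at e2
  have hn : n ≠ 0 := by rintro rfl; rw [zero_mul] at e1; exact hm e1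
  have hd : Module.finrank F F' = Module.finrank E E' :=
    Nat.eq_of_mul_eq_mul_left (Nat.pos_of_ne_zero hn) (e1.symm.trans e2)
  have f1 : Module.Finite F F' := by
    apply Module.finite_of_finrank_pos
    apply Nat.pos_of_ne_zero
    intro h0
    rw [h0, mul_zero] at e1
    exact hm e1
  have f2 : Module.Finite E E' := by
    apply Module.finite_of_finrank_pos
    apply Nat.pos_of_ne_zero
    intro h0
    rw [h0, mul_zero] at e2
    exact hm e2
  have cF : CharZero F := charZero_of_injective_algebraMap (algebraMap K F).injective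
  have C : RedCompat R R' :=
    { mem := fun f hf => (hcomp ⟨f, hf⟩).1
      comm := fun f _ => (hcomp f).2 }
  rw [mem_holSub]
  intro u hu
  exact trace_red C hx (d1.trans d3.symm) hd hg y
    (fun u hu => trace_mem_aff (R.transcendental_of_ρ hx) htop hy hu) hu

end Incl

section Form

theorem exists_function_of_form' {K : Type*} [Field K] [Algebra K ℂ] [IsAlgClosed K] {N : ℕ}
    [NeZero N] {F' : IntermediateField K (LaurentSeries K)}
    (hF' : F' = modularFunctionFieldFullC K N) (hj : jqModC K ∈ F') (F : CuspForm (Gamma0 N) 2)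
    (X : LaurentSeries K)
    (hX : ∀ n : ℕ, algebraMap K ℂ (X.coeff n) = ModularFormClass.qCoeff F n)
    (hneg : ∀ n < (0 : ℤ), X.coeff n = 0) :
    ∃ y : F', (y : LaurentSeries K) * H61.theta (jqModC K) = X ∧
      ∀ (w : Place K F') (c : K), w.adicValuation (⟨jqModC K, hj⟩ - algebraMap K F' c) < 1 →
        w.adicValuation ((⟨jqModC K, hj⟩ - algebraMap K F' c) * y) < 1 := by
  subst hF'
  obtain ⟨y, hy, h⟩ := H45.FF.exists_function_of_form (K := K) (N := N)
    (CuspForm.toModularFormₗ F) X hX hneg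
  refine ⟨y, hy, fun w c hw => ?_⟩
  by_cases hy0 : y = 0
  · rw [hy0, mul_zero, map_zero]; exact zero_lt_one
  have h0 : (⟨jqModC K, hj⟩ - algebraMap K _ c : modularFunctionFieldFullC K N) ≠ 0 :=
    H45.FF.jF_sub_ne_zero c
  rw [← ord_pos_iff h0] at hw
  rw [← ord_pos_iff (mul_ne_zero h0 hy0), w.ord_mul h0 hy0]
  have h1 := (h hy0).2 w c hw
  have h2 : w.ord (H24.jF K N - algebraMap K _ c) =
    w.ord (⟨jqModC K, hj⟩ - algebraMap K _ c : modularFunctionFieldFullC K N) := rfl
  rw [h2] at h1
  omega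

end Form

section Theta

variable (R : Type*) [CommRing R]

variable {R} in
theorem theta_eq_thetaL (x : LaurentSeries R) :
    H61.theta x = Fermat.Agent.H1.thetaL R x := by
  ext n
  rw [Fermat.Agent.H1.thetaL_coeff, H61.coeff_theta]

theorem isUnit_theta_jqModC : IsUnit (H61.theta (jqModC R)) := by
  have h := Fermat.Agent.H1.hasLead_thetaL (H66.HasLead.jqModC (A := R))
  rw [← theta_eq_thetaL] at h
  exact Fermat.Agent.H1.isUnit_of_hasLead h (by push_cast; rw [mul_one]; exact isUnit_one.neg)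

/-- the inverse of `θ(j)` -/
def thjInv : LaurentSeries R :=
  coeffMap (Int.castRingHom R) ((isUnit_theta_jqModC ℤ).unit⁻¹ : (LaurentSeries ℤ)ˣ)

theorem theta_mul_thjInv : H61.theta (jqModC R) * thjInv R = 1 := by
  have h1 : H61.theta (jqModC ℤ) * ((isUnit_theta_jqModC ℤ).unit⁻¹ : (LaurentSeries ℤ)ˣ) = 1 :=
    (isUnit_theta_jqModC ℤ).mul_val_inv
  have h2 := congrArg (coeffMap (Int.castRingHom R)) h1
  rwa [map_mul, H18.coeffMap_theta, coeffMap_jqModC, map_one] at h2

theorem coeffMap_thjInv {S : Type*} [CommRing S] (φ : R →+* S) :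
    coeffMap φ (thjInv R) = thjInv S := by
  rw [thjInv, thjInv, coeffMap_coeffMap]
  exact coeffMap_congr (RingHom.ext_int _ _) _

end Theta

end Fermat.Agent.H72
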