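import Mathlib
import Fermat.Agent.H60S37
import Fermat.Agent.H42RedInputs
import Fermat.Agent.H66Degree
import Fermat.Agent.H28Final
import Fermat.Agent.H3RR_Genus
import Fermat.Agent.H3RR_Bridge

/-!
# Bridging the inputs of `S37_of_inputs`
-/

set_option autoImplicit false

noncomputable section

open AlgebraicCurve ModularCurve IntermediateField HahnSeries

namespace Fermat.Agent.H60

local notation "Qb" => AlgebraicClosure ℚ

/-- Riemann's inequality gives the bound used in the trick. -/
theorem riemannBound (K F : Type*) [Field K] [Field F] [Algebra K F] [IsAlgClosed K]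
    [H94.FunField K F] : RiemannBound K F := by
  obtain ⟨γ, hγ⟩ := H3RR.riemann_bound K F
  refine ⟨γ + 1, fun D hD => ?_⟩
  have h1 := hγ D
  have h2 : 0 < H3RR.ell D := by
    have : (0 : ℤ) < H3RR.ell D := by omega
    exact_mod_cast this
  obtain ⟨f, hf, hfD⟩ := H3RR.exists_mem_L_of_ell_pos h2
  refine ⟨f, hf, fun v => ?_⟩
  have h3 := (mem_riemannRochSpace_iff.mp hfD v).resolve_left hf
  omega

/-- The degree hypothesis of helper42 from the degree theorem. -/
theorem degLE (L k : Type*) [Field L] [Field k] [IsAlgClosed L] [IsAlgClosed k] (N : ℕ) [NeZero N]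
    (hL : (N : L) ≠ 0) (hk : (N : k) ≠ 0) : H42.DegLE L k N := by
  refine ⟨?_, ?_⟩
  · rw [H66.relfinrank_full L N hL]
    exact (H28.dedekindPsi_pos N).ne'
  · rw [H66.relfinrank_full L N hL, H66.relfinrank_full k N hk]

theorem funField_fullC (K : Type*) [Field K] [IsAlgClosed K] (N : ℕ) [NeZero N]
    (hK : (N : K) ≠ 0) : H94.FunField K (modularFunctionFieldFullC K N) :=
  H42.funField_full (by
    rw [H66.relfinrank_full K N hK]
    exact (H28.dedekindPsi_pos N).ne')

theorem funField_laurentBaseChange (L : Type*) [Field L] [Algebra ℚ L] [IsAlgClosed L] (N : ℕ)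
    [NeZero N] : H94.FunField L (laurentBaseChange L (modularFunctionFieldFull N)) := by
  have : CharZero L := algebraRat.charZero L
  exact H42.funField_left (k := L) N (degLE L L N (Nat.cast_ne_zero.mpr (NeZero.ne N))
    (Nat.cast_ne_zero.mpr (NeZero.ne N)))

theorem funField_bar (N : ℕ) [NeZero N] : H94.FunField Qb (modularFunctionFieldBar N) :=
  funField_laurentBaseChange Qb N

theorem hasPrincipalDivisors_bar (N : ℕ) [NeZero N] :
    HasPrincipalDivisors Qb (modularFunctionFieldBar N) :=
  have := funField_bar N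
  H18.hasPrincipalDivisors _ _

/-- **S37 from its remaining inputs.** -/
theorem S37_of_inputs' (N p : ℕ) [NeZero N] (hcomm : HeckeOperatorsCommuteBar N)
    (hred : ∀ {ℓ : ℕ} (_ : ℓ.Prime) (_ : ¬ ℓ ∣ N) (A : ValuationSubring Qb)
      (_ : A.LiesOverPrime ℓ), ReductionInputsModL A N)
    (hinj : InjectivityAt N)
    (hH : ∀ {ℓ : ℕ} (hℓ : ℓ.Prime) (_ : ¬ ℓ ∣ N),
      haveI : NeZero ℓ := ⟨hℓ.ne_zero⟩; HeckeData N ℓ) :
    letI := heckeModuleBar N
    ∀ (_ : SMulCommClass (AlgebraicClosure ℚ ≃ₐ[ℚ] AlgebraicClosure ℚ) HeckeAlg (JZero N)),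
      SpecializationExists (K := ℚ) (L := AlgebraicClosure ℚ) N p (JZero N) :=
  have := funField_bar N
  have := hasPrincipalDivisors_bar N
  S37_of_inputs N p hcomm (riemannBound _ _) H94.deg_eq_one hred hinj hH

end Fermat.Agent.H60
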