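import Fermat.Agent.H60Galois
import Fermat.Agent.H60Bridge
import Fermat.Agent.H18Div
import Mathlib.FieldTheory.KummerPolynomial
import Mathlib.FieldTheory.PurelyInseparable.PerfectClosure

/-!
# `p`-th powers in the function field in characteristic `p` (helper33)

If `g ∈ k((q))` and `g^p` is a modular function (mod `p`) then so is `g`.
-/

set_option autoImplicit false

open Polynomial ModularCurve AlgebraicCurve

namespace Fermat.Agent.H33

section Sat

variable {R : Type*} [Field R] (p : ℕ) [Fact p.Prime] [CharP R p]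

theorem sat_of (κ : Subfield R) (j : R) (hjκ : j ∈ κ) (hj : ∀ y : R, y ^ p ≠ j)
    (hgen : κ ≤ Subfield.closure ((fun x => x ^ p) '' (κ : Set R) ∪ {j})) (g : R)
    (hg : g ^ p ∈ κ) : g ∈ κ := by
  have hp : p.Prime := Fact.out
  set κp : Subfield R := κ.map (frobenius R p) with hκp
  set Kp : Subfield R := (frobenius R p).fieldRange with hKp
  have hle : κp ≤ Kp := by
    rintro _ ⟨x, -, rfl⟩
    exact ⟨x, rfl⟩
  have hjp : j ^ p ∈ κp := ⟨j, hjκ, rfl⟩
  have hint : IsIntegral κp j := by
    refine ⟨X ^ p - C ⟨j ^ p, hjp⟩, monic_X_pow_sub_C _ hp.ne_zero, ?_⟩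
    simp
    exact sub_self _
  -- `g^p` is a polynomial in `j`
  have hmem : g ^ p ∈ IntermediateField.adjoin κp {j} := by
    have h1 := hgen hg
    have h2 : Subfield.closure ((fun x => x ^ p) '' (κ : Set R) ∪ {j}) ≤
        (IntermediateField.adjoin κp {j}).toSubfield := by
      rw [Subfield.closure_le]
      rintro x (⟨y, hy, rfl⟩ | hx)
      · exact (IntermediateField.adjoin κp {j}).algebraMap_mem ⟨y ^ p, ⟨y, hy, rfl⟩⟩
      · rw [Set.mem_singleton_iff] at hx
        subst hx
        exact IntermediateField.mem_adjoin_simple_self κp x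
    exact h2 h1
  have hmem2 : g ^ p ∈ Algebra.adjoin κp {j} := by
    rw [← IntermediateField.adjoin_simple_toSubalgebra_of_isAlgebraic hint.isAlgebraic]
    exact hmem
  rw [Algebra.adjoin_singleton_eq_range_aeval] at hmem2
  obtain ⟨P, hP⟩ := hmem2
  have hP : aeval j P = g ^ p := hP
  set D : κp[X] := X ^ p - C ⟨j ^ p, hjp⟩ with hD
  have hDm : D.Monic := monic_X_pow_sub_C _ hp.ne_zero
  have hDj : aeval j D = 0 := by
    simp [hD]
    exact sub_self _
  set P' := P %ₘ D with hP'
  have hP'j : aeval j P' = g ^ p := by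
    rw [hP', modByMonic_eq_sub_mul_div P D, map_sub, map_mul, hDj, zero_mul, sub_zero, hP]
  have hP'd : P'.degree < p := by
    have := degree_modByMonic_lt P hDm
    rwa [hD, degree_X_pow_sub_C hp.pos] at this
  set Q : Kp[X] := P'.map (Subfield.inclusion hle) - C ⟨g ^ p, ⟨g, rfl⟩⟩ with hQ
  have hQj : aeval j Q = 0 := by
    have h1 : aeval j (P'.map (Subfield.inclusion hle)) = aeval j P' := by
      rw [aeval_def, aeval_def, eval₂_map]
      rfl
    rw [hQ, map_sub, aeval_C, h1, hP'j]
    exact sub_self _
  have hQd : Q.degree < p := by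
    refine lt_of_le_of_lt (degree_sub_le _ _) (max_lt ?_ ?_)
    · exact lt_of_le_of_lt degree_map_le hP'd
    · exact lt_of_le_of_lt degree_C_le (by exact_mod_cast hp.pos)
  have hjK : j ^ p ∈ Kp := ⟨j, rfl⟩
  have hirr : Irreducible (X ^ p - C (⟨j ^ p, hjK⟩ : Kp)) := by
    apply X_pow_sub_C_irreducible_of_prime hp
    rintro ⟨b, b', hb'⟩ hb
    have h1 : b ^ p = j ^ p := congrArg Subtype.val hb
    have h2 : b = j := frobenius_inj R p h1
    exact hj b' (by rw [← h2, ← hb']; rfl)
  have hjm : aeval j (X ^ p - C (⟨j ^ p, hjK⟩ : Kp)) = 0 := by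
    simp
    exact sub_self _
  have hmin := minpoly.eq_of_irreducible_of_monic hirr hjm (monic_X_pow_sub_C _ hp.ne_zero)
  have hQ0 : Q = 0 := by
    by_contra hne
    have h1 := minpoly.degree_le_of_ne_zero Kp j hne hQj
    rw [← hmin, degree_X_pow_sub_C hp.pos] at h1
    exact absurd h1 (not_le.mpr hQd)
  have h0 := congrArg (fun q : Kp[X] => (q.coeff 0 : Kp)) hQ0
  simp only [hQ, coeff_sub, coeff_map, coeff_C_zero, coeff_zero, sub_eq_zero] at h0
  have h1 : ((P'.coeff 0 : κp) : R) = g ^ p := congrArg Subtype.val h0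
  obtain ⟨x, hx, hx'⟩ := (P'.coeff 0).2
  have h2 : x ^ p = g ^ p := by rw [← h1, ← hx']; rfl
  have h3 : x = g := frobenius_inj R p h2
  rw [← h3]
  exact hx

end Sat

section Mod

variable {k : Type*} [Field k] (p : ℕ) [Fact p.Prime] [CharP k p]

theorem coeff_pow_char (f : LaurentSeries k) (n : ℤ) (hn : ¬ (p : ℤ) ∣ n) :
    (f ^ p).coeff n = 0 := by
  have : NeZero p := ⟨(Fact.out : p.Prime).ne_zero⟩
  rw [H60.laurent_pow_char p f]
  exact qExpand_coeff_of_not_dvd p _ hn

theorem jqModC_ne_pow (y : LaurentSeries k) : y ^ p ≠ jqModC k := by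
  intro h
  have h1 := coeff_pow_char p y (-1) (by
    intro hd
    have := Int.le_of_dvd one_pos ((dvd_neg (a := (p : ℤ)) (b := 1)).mp hd)
    have := (Fact.out : p.Prime).one_lt
    omega)
  rw [h, coeff_jqModC_neg_one] at h1
  exact one_ne_zero h1

theorem order_jqModC : (jqModC k).order = -1 := by
  have hne : jqModC k ≠ 0 := by
    intro h
    have := coeff_jqModC_neg_one k
    rw [h, HahnSeries.coeff_zero] at this
    exact zero_ne_one this
  apply le_antisymm
  · exact HahnSeries.order_le_of_coeff_ne_zero (by rw [coeff_jqModC_neg_one]; exact one_ne_zero)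
  · by_contra hlt
    push Not at hlt
    have h1 := HahnSeries.coeff_order_eq_zero.not.mpr hne
    exact h1 (coeff_jqModC_of_lt k hlt)

theorem jqModC_mem (k : Type*) [Field k] (M : ℕ) : jqModC k ∈ modularFunctionFieldFullC k M := by
  have h := jqModCd_mem_full k M (one_dvd M)
  rwa [qExpand_one_apply] at h

variable [IsAlgClosed k] (M : ℕ) [NeZero M]

omit [Fact p.Prime] [CharP k p] in
theorem isSeparable_jqModC (hM : (M : k) ≠ 0) :
    Algebra.IsSeparable
      (IntermediateField.adjoin k
        {(⟨jqModC k, jqModC_mem k M⟩ : modularFunctionFieldFullC k M)})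
      (modularFunctionFieldFullC k M) := by
  have := H60.funField_fullC k M hM
  set jF : modularFunctionFieldFullC k M :=
    ⟨jqModC k, jqModC_mem k M⟩ with hjF
  have htr : Transcendental k jF := by
    rw [transcendental_iff]
    intro q hq
    apply H42.transc_jqModC k q
    have h1 := congrArg (modularFunctionFieldFullC k M).val hq
    rwa [← Polynomial.aeval_algHom_apply, map_zero] at h1
  obtain ⟨g, m, hm, hg, hsep, hj⟩ := H18.exists_sep htr
  have h1 : jqModC k = (g : LaurentSeries k) ^ m := congrArg Subtype.val hj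
  have h2 : (m : ℤ) * (g : LaurentSeries k).order = -1 := by
    rw [← order_jqModC (k := k), h1, HahnSeries.order_pow, nsmul_eq_mul]
  have h3 : m = 1 := by
    have h4 : (m : ℤ) ∣ 1 := (dvd_neg (a := (m : ℤ)) (b := 1)).mp ⟨_, h2.symm⟩
    have := Int.le_of_dvd one_pos h4
    omega
  rw [h3, pow_one] at hj
  rw [hj]
  exact hsep

theorem mem_closure_pow (hM : (M : k) ≠ 0) :
    (modularFunctionFieldFullC k M).toSubfield ≤ Subfield.closure
      ((fun x => x ^ p) '' ((modularFunctionFieldFullC k M).toSubfield : Set (LaurentSeries k)) ∪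
        {jqModC k}) := by
  set S := Subfield.closure
      ((fun x => x ^ p) '' ((modularFunctionFieldFullC k M).toSubfield : Set (LaurentSeries k)) ∪
        {jqModC k}) with hS
  intro a ha
  have hsep := isSeparable_jqModC (k := k) M hM
  set jF : modularFunctionFieldFullC k M := ⟨jqModC k, jqModC_mem k M⟩ with hjF
  set B := IntermediateField.adjoin k {jF} with hB
  set S' : Subfield (modularFunctionFieldFullC k M) :=
    S.comap (algebraMap (modularFunctionFieldFullC k M) (LaurentSeries k)) with hS'
  have hkS : ∀ c : k, algebraMap k (modularFunctionFieldFullC k M) c ∈ S' := by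
    intro c
    obtain ⟨d, hd⟩ := IsAlgClosed.exists_pow_nat_eq c (Fact.out : p.Prime).pos
    refine Subfield.subset_closure (Or.inl ⟨algebraMap k (LaurentSeries k) d, ?_, ?_⟩)
    · exact (modularFunctionFieldFullC k M).algebraMap_mem d
    · show algebraMap k (LaurentSeries k) d ^ p = algebraMap k (LaurentSeries k) c
      rw [← map_pow, hd]
  have hBS : ∀ b : B, (b : modularFunctionFieldFullC k M) ∈ S' := by
    intro b
    have h1 : B ≤ S'.toIntermediateField hkS := by
      rw [hB, IntermediateField.adjoin_le_iff, Set.singleton_subset_iff]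
      exact Subfield.subset_closure (Or.inr rfl)
    exact h1 b.2
  set aF : modularFunctionFieldFullC k M := ⟨a, ha⟩ with haF
  have : ExpChar B p := by
    have h0 : CharP (LaurentSeries k) p :=
      charP_of_injective_algebraMap (algebraMap k (LaurentSeries k)).injective p
    have : CharP B p := (RingHom.charP_iff
      ((algebraMap (modularFunctionFieldFullC k M) (LaurentSeries k)).comp
        (algebraMap B (modularFunctionFieldFullC k M)))
      (RingHom.injective _) p).mpr h0
    exact ExpChar.prime Fact.out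
  have h1 := IntermediateField.adjoin_simple_eq_adjoin_pow_expChar_of_isSeparable' B
    (modularFunctionFieldFullC k M) aF p
  have h2 : aF ∈ IntermediateField.adjoin B {aF} := IntermediateField.mem_adjoin_simple_self B aF
  rw [h1] at h2
  have h3 : IntermediateField.adjoin B {aF ^ p} ≤
      S'.toIntermediateField (K := B) (fun b => hBS b) := by
    rw [IntermediateField.adjoin_le_iff, Set.singleton_subset_iff]
    exact Subfield.subset_closure (Or.inl ⟨a, ha, rfl⟩)
  exact h3 h2

/-- **Saturation**: the function field mod `p` is closed under extraction of `p`-th roots. -/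
theorem fullC_sat (hM : (M : k) ≠ 0) (g : LaurentSeries k)
    (hg : g ^ p ∈ modularFunctionFieldFullC k M) : g ∈ modularFunctionFieldFullC k M := by
  have : CharP (LaurentSeries k) p :=
    charP_of_injective_algebraMap (algebraMap k (LaurentSeries k)).injective p
  exact sat_of p (modularFunctionFieldFullC k M).toSubfield (jqModC k) (jqModC_mem k M)
    (jqModC_ne_pow p) (mem_closure_pow p M hM) g hg

end Mod

end Fermat.Agent.H33
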