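import Fermat.Agent.H1Theta
import Fermat.Agent.H33Sat

/-!
# MZ-F1b: logarithmic forms (helper98)

If `f = ∑ aₙ qⁿ` in characteristic `r` satisfies `a_{rn} = aₙ^r` and `f dq/q` is a differential of
the modular function field `κ` then `f = θ h / h` for some `h ∈ κ`.
-/

set_option autoImplicit false

noncomputable section

open ModularCurve HahnSeries

namespace Fermat.Agent.H98

/-! ### logarithmic derivatives of power series -/

section PS

variable {k : Type*} [Field k]

/-- `q d/dq` on power series -/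
def thP (F : PowerSeries k) : PowerSeries k := PowerSeries.mk fun n => (n : k) * PowerSeries.coeff n F

@[simp] theorem coeff_thP (F : PowerSeries k) (n : ℕ) :
    PowerSeries.coeff n (thP F) = (n : k) * PowerSeries.coeff n F := PowerSeries.coeff_mk _ _

theorem thP_mul (F G : PowerSeries k) : thP (F * G) = thP F * G + F * thP G := by
  ext n
  rw [coeff_thP, map_add, PowerSeries.coeff_mul, PowerSeries.coeff_mul, PowerSeries.coeff_mul,
    Finset.mul_sum, ← Finset.sum_add_distrib]
  refine Finset.sum_congr rfl fun ij hij => ?_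
  rw [Finset.HasAntidiagonal.mem_antidiagonal] at hij
  rw [coeff_thP, coeff_thP, ← hij]
  push_cast
  ring

/-- the logarithmic derivative of `1 - c Xⁿ` -/
def EE (n : ℕ) (c : k) : PowerSeries k :=
  PowerSeries.mk fun m => if n ∣ m ∧ m ≠ 0 then -(n : k) * c ^ (m / n) else 0

theorem EE_mul (n : ℕ) (hn : 0 < n) (c : k) :
    EE n c * (1 - PowerSeries.C c * PowerSeries.X ^ n) =
      thP (1 - PowerSeries.C c * PowerSeries.X ^ n) := by
  ext m
  rw [mul_sub, mul_one, map_sub, coeff_thP, map_sub, ← mul_assoc, mul_comm _ (PowerSeries.C c),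
    mul_assoc, PowerSeries.coeff_C_mul, PowerSeries.coeff_C_mul, PowerSeries.coeff_mul_X_pow',
    PowerSeries.coeff_X_pow, PowerSeries.coeff_one, EE, PowerSeries.coeff_mk,
    PowerSeries.coeff_mk]
  by_cases hm0 : m = 0
  · subst hm0
    simp [hn.ne, hn.ne']
  · by_cases hd : n ∣ m
    · obtain ⟨a, rfl⟩ := hd
      have ha0 : a ≠ 0 := by rintro rfl; simp at hm0
      have h1 : n ≤ n * a := Nat.le_mul_of_pos_right n (Nat.pos_of_ne_zero ha0)
      have h2 : n * a - n = n * (a - 1) := by rw [Nat.mul_sub, mul_one]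
      by_cases ha1 : a = 1
      · subst ha1
        simp [hn.ne', Nat.div_self hn]
      · have h3 : n * (a - 1) ≠ 0 := by
          have : a - 1 ≠ 0 := by omega
          exact Nat.mul_ne_zero hn.ne' this
        have h4 : n * a ≠ n := by
          intro h
          exact ha1 (Nat.eq_of_mul_eq_mul_left hn (by rw [h, mul_one]))
        rw [if_pos ⟨Dvd.intro _ rfl, hm0⟩, if_pos h1, h2, if_pos ⟨Dvd.intro _ rfl, h3⟩,
          if_neg hm0, if_neg h4, Nat.mul_div_cancel_left _ hn, Nat.mul_div_cancel_left _ hn,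
          mul_zero, sub_zero, mul_zero]
        obtain ⟨b, rfl⟩ : ∃ b, a = b + 1 := ⟨a - 1, by omega⟩
        rw [Nat.add_sub_cancel, pow_succ]
        ring
    · have h1 : m ≠ n := by rintro rfl; exact hd dvd_rfl
      rw [if_neg (fun h => hd h.1), if_neg hm0, if_neg h1]
      split_ifs with h2 h3
      · exfalso
        apply hd
        have := (Nat.dvd_add_right h3.1).mpr (dvd_refl n)
        rw [Nat.sub_add_cancel h2] at this
        exact this
      · ring
      · ring

theorem coeff_EE_zero (n : ℕ) (c : k) : PowerSeries.coeff 0 (EE n c) = 0 := by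
  rw [EE, PowerSeries.coeff_mk, if_neg (fun h => h.2 rfl)]

theorem coeff_EE_lt {n m : ℕ} (h : m < n) (c : k) : PowerSeries.coeff m (EE n c) = 0 := by
  rw [EE, PowerSeries.coeff_mk, if_neg]
  rintro ⟨h1, h2⟩
  exact absurd (Nat.le_of_dvd (Nat.pos_of_ne_zero h2) h1) (not_le.mpr h)

theorem coeff_EE_self {n : ℕ} (hn : 0 < n) (c : k) :
    PowerSeries.coeff n (EE n c) = -(n : k) * c := by
  rw [EE, PowerSeries.coeff_mk, if_pos ⟨dvd_rfl, hn.ne'⟩, Nat.div_self hn, pow_one]

/-- the condition `T_r f = f^F` -/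
def LogT (r : ℕ) (f : PowerSeries k) : Prop :=
  PowerSeries.coeff 0 f = 0 ∧ ∀ n, PowerSeries.coeff (r * n) f = PowerSeries.coeff n f ^ r

variable (r : ℕ) [Fact r.Prime] [CharP k r]

theorem LogT.sub {f g : PowerSeries k} (hf : LogT r f) (hg : LogT r g) : LogT r (f - g) := by
  refine ⟨by rw [map_sub, hf.1, hg.1, sub_zero], fun n => ?_⟩
  rw [map_sub, map_sub, hf.2, hg.2, sub_pow_char]

theorem logT_EE {n : ℕ} (hn : ¬ r ∣ n) (c : k) : LogT r (EE n c) := by
  have hr : r.Prime := Fact.out
  have hn0 : 0 < n := Nat.pos_of_ne_zero (by rintro rfl; exact hn (dvd_zero r))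
  refine ⟨coeff_EE_zero n c, fun m => ?_⟩
  rw [EE, PowerSeries.coeff_mk, PowerSeries.coeff_mk]
  have hcop : Nat.Coprime n r := ((Nat.Prime.coprime_iff_not_dvd hr).mpr hn).symm
  have hfrob : (-(n : k)) ^ r = -(n : k) := by
    have h2 : frobenius k r (-(n : k)) = -(n : k) := by rw [map_neg, map_natCast]
    exact h2
  by_cases h : n ∣ m ∧ m ≠ 0
  · obtain ⟨⟨a, rfl⟩, hm⟩ := h
    have h1 : n ∣ r * (n * a) ∧ r * (n * a) ≠ 0 :=
      ⟨⟨r * a, by ring⟩, Nat.mul_ne_zero hr.ne_zero hm⟩
    rw [if_pos h1, if_pos ⟨Dvd.intro _ rfl, hm⟩, Nat.mul_div_cancel_left _ hn0, mul_pow, hfrob,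
      ← pow_mul]
    congr 2
    rw [show r * (n * a) = n * (a * r) by ring, Nat.mul_div_cancel_left _ hn0]
  · rw [if_neg h, if_neg, zero_pow hr.ne_zero]
    rintro ⟨h1, h2⟩
    apply h
    refine ⟨hcop.dvd_of_dvd_mul_left h1, fun h3 => h2 (by rw [h3, mul_zero])⟩

/-- the approximation property -/
def Appr (f : PowerSeries k) (m : ℕ) (H : PowerSeries k) : Prop :=
  ∃ g, PowerSeries.constantCoeff H = 1 ∧ LogT r g ∧ (∀ i ≤ m, PowerSeries.coeff i g = 0) ∧
    thP H = (f - g) * H

theorem thP_one : thP (1 : PowerSeries k) = 0 := by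
  ext n
  rw [coeff_thP, PowerSeries.coeff_one]
  split_ifs with h
  · rw [h]; simp
  · simp

omit [Fact r.Prime] [CharP k r] in
theorem appr_zero {f : PowerSeries k} (hf : LogT r f) : Appr r f 0 1 := by
  refine ⟨f, by simp, hf, fun i hi => ?_, by rw [thP_one, sub_self, zero_mul]⟩
  rw [Nat.le_zero.mp hi]
  exact hf.1

theorem appr_step {f : PowerSeries k} {m : ℕ} {H : PowerSeries k} (h : Appr r f m H) :
    ∃ H', Appr r f (m + 1) H' ∧ ∀ i ≤ m, PowerSeries.coeff i H' = PowerSeries.coeff i H := by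
  have hr : r.Prime := Fact.out
  obtain ⟨g, h1, h2, h3, h4⟩ := h
  by_cases hd : r ∣ m + 1
  · obtain ⟨a, ha⟩ := hd
    refine ⟨H, ⟨g, h1, h2, fun i hi => ?_, h4⟩, fun i _ => rfl⟩
    rcases Nat.lt_or_ge i (m + 1) with hlt | hge
    · exact h3 i (by omega)
    · have : i = m + 1 := le_antisymm hi hge
      rw [this, ha, h2.2, h3 a (by
        have := hr.two_le
        have ha0 : a ≠ 0 := by rintro rfl; omega
        nlinarith [Nat.pos_of_ne_zero ha0]), zero_pow hr.ne_zero]
  · have hn : ((m + 1 : ℕ) : k) ≠ 0 := by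
      intro h0
      exact hd ((CharP.cast_eq_zero_iff k r _).mp h0)
    set c : k := -(PowerSeries.coeff (m + 1) g) / ((m + 1 : ℕ) : k) with hc
    refine ⟨H * (1 - PowerSeries.C c * PowerSeries.X ^ (m + 1)),
      ⟨g - EE (m + 1) c, ?_, h2.sub r (logT_EE r hd c), fun i hi => ?_, ?_⟩, fun i hi => ?_⟩
    · simp [h1]
    · rw [map_sub]
      rcases Nat.lt_or_ge i (m + 1) with hlt | hge
      · rw [h3 i (by omega), coeff_EE_lt hlt, sub_zero]
      · have : i = m + 1 := le_antisymm hi hge
        rw [this, coeff_EE_self (Nat.succ_pos m), hc]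
        field_simp
        ring
    · rw [thP_mul, h4, ← EE_mul (m + 1) (Nat.succ_pos m)]
      ring
    · rw [mul_sub, mul_one, map_sub, ← mul_assoc, mul_comm H, mul_assoc, PowerSeries.coeff_C_mul,
        PowerSeries.coeff_mul_X_pow', if_neg (by omega), mul_zero, sub_zero]

/-- a power series with `T_r f = f^F` is a logarithmic derivative -/
theorem exists_thP_eq {f : PowerSeries k} (hf : LogT r f) :
    ∃ H : PowerSeries k, PowerSeries.constantCoeff H = 1 ∧ thP H = f * H := by
  let F : (m : ℕ) → {H : PowerSeries k // Appr r f m H} :=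
    fun m => Nat.rec ⟨1, appr_zero r hf⟩
      (fun m H => ⟨(appr_step r H.2).choose, (appr_step r H.2).choose_spec.1⟩) m
  have hF : ∀ m, ∀ i ≤ m, PowerSeries.coeff i (F (m + 1)).1 = PowerSeries.coeff i (F m).1 :=
    fun m => (appr_step r (F m).2).choose_spec.2
  have hst : ∀ i m, i ≤ m → PowerSeries.coeff i (F m).1 = PowerSeries.coeff i (F i).1 := by
    intro i m him
    induction m, him using Nat.le_induction with
    | base => rfl
    | succ m hm ih => rw [hF m i hm, ih]
  let H : PowerSeries k := PowerSeries.mk fun n => PowerSeries.coeff n (F n).1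
  have hH : ∀ n, ∀ i ≤ n, PowerSeries.coeff i H = PowerSeries.coeff i (F n).1 := by
    intro n i hi
    rw [PowerSeries.coeff_mk, hst i n hi]
  refine ⟨H, ?_, ?_⟩
  · rw [← PowerSeries.coeff_zero_eq_constantCoeff_apply, hH 0 0 le_rfl,
      PowerSeries.coeff_zero_eq_constantCoeff_apply]
    exact (F 0).2.choose_spec.1
  · ext n
    obtain ⟨g, -, -, h3, h4⟩ := (F n).2
    have h5 := congrArg (PowerSeries.coeff n) h4
    rw [coeff_thP, ← hH n n le_rfl] at h5
    rw [coeff_thP, h5, PowerSeries.coeff_mul, PowerSeries.coeff_mul]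
    refine Finset.sum_congr rfl fun ij hij => ?_
    rw [Finset.HasAntidiagonal.mem_antidiagonal] at hij
    rw [map_sub, h3 ij.1 (by omega), sub_zero, hH n ij.2 (by omega)]

end PS

/-! ### iterated derivations in characteristic `r` -/

section Der

variable {L : Type*} [Field L] (D : L →+ L) (hD : ∀ x y, D (x * y) = D x * y + x * D y)

include hD in
theorem iterate_der_mul (n : ℕ) (x y : L) :
    D^[n] (x * y) = ∑ ij ∈ Finset.HasAntidiagonal.antidiagonal n,
      n.choose ij.1 • (D^[ij.1] x * D^[ij.2] y) := by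
  induction n with
  | zero => simp
  | succ n ih =>
    rw [Finset.sum_antidiagonal_choose_succ_nsmul (M := L) (fun i j => D^[i] x * D^[j] y) n]
    simp only [Function.iterate_succ_apply', ih, map_sum, map_nsmul, hD, smul_add,
      Finset.sum_add_distrib]
    rw [add_comm]
    congr 1
    refine Finset.sum_congr rfl fun ⟨i, j⟩ hij ↦ ?_
    rw [n.choose_symm_of_eq_add (Finset.HasAntidiagonal.mem_antidiagonal.1 hij).symm]

variable (r : ℕ) [Fact r.Prime] [CharP L r]

include hD in
/-- in characteristic `r` the `r`-th iterate of a derivation is a derivation -/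
theorem iterate_char_mul (x y : L) : D^[r] (x * y) = D^[r] x * y + x * D^[r] y := by
  have hr : r.Prime := Fact.out
  rw [iterate_der_mul D hD]
  rw [Finset.sum_eq_add (r, 0) (0, r)]
  · simp
  · intro h
    exact hr.ne_zero (congrArg Prod.fst h)
  · rintro ⟨i, j⟩ hij ⟨h1, h2⟩
    rw [Finset.HasAntidiagonal.mem_antidiagonal] at hij
    have hi0 : i ≠ 0 := by
      rintro rfl
      apply h2
      simp only [zero_add] at hij
      rw [hij]
    have hir : i ≠ r := by
      rintro rfl
      apply h1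
      have : j = 0 := by omega
      rw [this]
    have hdvd : r ∣ r.choose i := hr.dvd_choose_self hi0 (lt_of_le_of_ne (by omega) hir)
    rw [nsmul_eq_mul, (CharP.cast_eq_zero_iff L r _).mpr hdvd, zero_mul]
  · intro h
    exact absurd (Finset.HasAntidiagonal.mem_antidiagonal.mpr (by simp)) h
  · intro h
    exact absurd (Finset.HasAntidiagonal.mem_antidiagonal.mpr (by simp)) h

end Der

/-! ### derivations of Laurent series -/

section Laurent

variable {k : Type*} [Field k] (r : ℕ) [Fact r.Prime] [NeZero r]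

omit [Fact r.Prime] in
theorem bddBelow_part (i : ℕ) (x : LaurentSeries k) :
    BddBelow (Function.support fun n : ℤ => x.coeff (r * n + i)) := by
  refine ⟨-(|x.order| + i), fun n hn => ?_⟩
  by_contra hlt
  push Not at hlt
  have h1 := HahnSeries.order_le_of_coeff_ne_zero (Function.mem_support.mp hn)
  have h2 : (1 : ℤ) ≤ r := by exact_mod_cast Nat.pos_of_ne_zero (NeZero.ne r)
  have h3 : -|x.order| ≤ x.order := neg_abs_le _
  have h4 : 0 ≤ |x.order| := abs_nonneg _
  have h5 : n < 0 := by omega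
  nlinarith

/-- the coefficients of `x` in the residue class of `i` modulo `r` -/
def part (i : ℕ) (x : LaurentSeries k) : LaurentSeries k :=
  HahnSeries.ofSuppBddBelow (fun n : ℤ => x.coeff (r * n + i)) (bddBelow_part r i x)

omit [Fact r.Prime] in
theorem part_coeff (i : ℕ) (x : LaurentSeries k) (n : ℤ) :
    (part r i x).coeff n = x.coeff (r * n + i) := rfl

omit [Fact r.Prime] in
theorem eq_sum_part (x : LaurentSeries k) :
    x = ∑ i ∈ Finset.range r, HahnSeries.single (i : ℤ) (1 : k) * qExpand k r (part r i x) := by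
  ext m
  have hr : (0 : ℤ) < r := by exact_mod_cast Nat.pos_of_ne_zero (NeZero.ne r)
  rw [HahnSeries.coeff_sum]
  have h0 : 0 ≤ m % r := Int.emod_nonneg _ hr.ne'
  have h1 : m % r < r := Int.emod_lt_of_pos _ hr
  have h2 : (((m % r).toNat : ℕ) : ℤ) = m % r := Int.toNat_of_nonneg h0
  rw [Finset.sum_eq_single (m % r).toNat]
  · rw [HahnSeries.coeff_single_mul, one_mul, h2]
    have h3 : m - m % r = r * (m / r) := by
      have := Int.emod_add_mul_ediv m r
      linarith
    rw [h3, qExpand_coeff_mul, part_coeff, h2]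
    congr 1
    have := Int.emod_add_mul_ediv m r
    linarith
  · intro i hi hne
    rw [HahnSeries.coeff_single_mul, one_mul, qExpand_coeff_of_not_dvd]
    intro hd
    apply hne
    have h3 : (i : ℤ) = m % r := by
      have h4 : (i : ℤ) % r = m % r := by
        have := Int.emod_emod_of_dvd m (dvd_refl (r : ℤ))
        exact (Int.emod_eq_emod_iff_emod_sub_eq_zero.mpr (Int.emod_eq_zero_of_dvd hd)).symm
      rw [← h4, Int.emod_eq_of_lt (by positivity) (by exact_mod_cast Finset.mem_range.mp hi)]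
    omega
  · intro hi
    exfalso
    apply hi
    rw [Finset.mem_range]
    omega

variable {r}

theorem der_pow {L : Type*} [Field L] (δ : L →+ L) (hδ : ∀ x y, δ (x * y) = δ x * y + x * δ y)
    (x : L) (n : ℕ) : δ (x ^ n) = n * x ^ (n - 1) * δ x := by
  have h1 : δ 1 = 0 := by
    have := hδ 1 1
    rw [mul_one, one_mul, mul_one] at this
    exact left_eq_add.mp this
  induction n with
  | zero => simp [h1]
  | succ n ih =>
    rw [pow_succ, hδ, ih, Nat.add_sub_cancel]
    rcases Nat.eq_zero_or_pos n with rfl | hn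
    · simp
    · obtain ⟨m, rfl⟩ : ∃ m, n = m + 1 := ⟨n - 1, by omega⟩
      rw [Nat.add_sub_cancel, pow_succ x m]
      push_cast
      ring

variable [CharP k r] [PerfectRing k r]

/-- derivations kill series in `q^r` -/
theorem der_qExpand (δ : LaurentSeries k →+ LaurentSeries k)
    (hδ : ∀ x y, δ (x * y) = δ x * y + x * δ y) (y : LaurentSeries k) :
    δ (qExpand k r y) = 0 := by
  have : CharP (LaurentSeries k) r :=
    charP_of_injective_algebraMap (algebraMap k (LaurentSeries k)).injective r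
  have h1 : qExpand k r y = (coeffMap ((frobeniusEquiv k r).symm : k →+* k) y) ^ r := by
    rw [H60.laurent_pow_char r]
    congr 1
    ext n
    rw [coeffMap_coeff, coeffMap_coeff]
    exact (frobenius_apply_frobeniusEquiv_symm k r _).symm
  rw [h1, der_pow δ hδ, CharP.cast_eq_zero, zero_mul, zero_mul]

/-- every derivation of `k((q))` is a multiple of `θ` -/
theorem der_eq (δ : LaurentSeries k →+ LaurentSeries k)
    (hδ : ∀ x y, δ (x * y) = δ x * y + x * δ y) (x : LaurentSeries k) :
    δ x = δ (HahnSeries.single (1 : ℤ) 1) *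
      ∑ i ∈ Finset.range r, (i : LaurentSeries k) * (HahnSeries.single (1 : ℤ) 1) ^ (i - 1) *
        qExpand k r (part r i x) := by
  conv_lhs => rw [eq_sum_part r x]
  rw [map_sum, Finset.mul_sum]
  refine Finset.sum_congr rfl fun i _ => ?_
  have h1 : (HahnSeries.single (i : ℤ) (1 : k)) = (HahnSeries.single (1 : ℤ) (1 : k)) ^ i := by
    rw [HahnSeries.single_pow, one_pow, nsmul_eq_mul, mul_one]
  rw [hδ, der_qExpand δ hδ, mul_zero, add_zero, h1, der_pow δ hδ]
  ring

theorem thetaL_q : H1.thetaL k (HahnSeries.single (1 : ℤ) 1) = HahnSeries.single (1 : ℤ) 1 := by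
  ext n
  rw [H1.thetaL_coeff]
  by_cases hn : n = 1
  · rw [hn]; simp
  · rw [HahnSeries.coeff_single_of_ne hn, mul_zero]

/-- a derivation of `k((q))` killing an element with nonzero derivative vanishes -/
theorem der_eq_zero (r : ℕ) [Fact r.Prime] [NeZero r] [CharP k r] [PerfectRing k r]
    (δ : LaurentSeries k →+ LaurentSeries k)
    (hδ : ∀ x y, δ (x * y) = δ x * y + x * δ y) {j : LaurentSeries k} (hj : δ j = 0)
    (hθ : H1.thetaL k j ≠ 0) (x : LaurentSeries k) : δ x = 0 := by
  have h1 := der_eq (r := r) δ hδ j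
  have h2 := der_eq (r := r) (H1.thetaL k) H1.thetaL_mul j
  rw [hj] at h1
  rw [h2] at hθ
  have h3 : δ (HahnSeries.single (1 : ℤ) 1) = 0 := by
    rcases mul_eq_zero.mp h1.symm with h | h
    · exact h
    · rw [h, mul_zero] at hθ
      exact absurd rfl hθ
  rw [der_eq (r := r) δ hδ x, h3, zero_mul]

/-- `(d/dj)^r = 0` -/
theorem iterate_ddX_eq_zero {j : LaurentSeries k} (hθ : H1.thetaL k j ≠ 0) (x : LaurentSeries k) :
    (H1.ddX j)^[r] x = 0 := by
  have hr : r.Prime := Fact.out
  have : CharP (LaurentSeries k) r :=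
    charP_of_injective_algebraMap (algebraMap k (LaurentSeries k)).injective r
  let δ : LaurentSeries k →+ LaurentSeries k :=
    { toFun := (H1.ddX j)^[r]
      map_zero' := iterate_map_zero _ _
      map_add' := iterate_map_add _ _ }
  refine der_eq_zero r δ (iterate_char_mul (H1.ddX j) (H1.ddX_mul j) r) (j := j) ?_ hθ x
  change (H1.ddX j)^[r] j = 0
  obtain ⟨m, hm⟩ : ∃ m, r = m + 1 + 1 := ⟨r - 2, by have := hr.two_le; omega⟩
  rw [hm, Function.iterate_succ_apply, H1.ddX_self hθ, Function.iterate_succ_apply, H1.ddX_apply,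
    H1.thetaL_one, zero_div, iterate_map_zero]

end Laurent

/-! ### logarithmic forms -/

section Main

variable {k : Type*} [Field k]

theorem thetaL_ofPowerSeries (F : PowerSeries k) :
    H1.thetaL k (HahnSeries.ofPowerSeries ℤ k F) = HahnSeries.ofPowerSeries ℤ k (thP F) := by
  ext n
  rw [H1.thetaL_coeff]
  rcases le_or_gt 0 n with hn | hn
  · lift n to ℕ using hn
    rw [HahnSeries.ofPowerSeries_apply_coeff, HahnSeries.ofPowerSeries_apply_coeff, coeff_thP]
    push_cast
    rfl
  · rw [ofPowerSeries_coeff_of_neg _ hn, ofPowerSeries_coeff_of_neg _ hn, mul_zero]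

theorem thetaL_jqModC_ne_zero : H1.thetaL k (jqModC k) ≠ 0 := by
  intro h
  have h1 := congrArg (fun x => HahnSeries.coeff x (-1)) h
  simp only [H1.thetaL_coeff, coeff_jqModC_neg_one] at h1
  simp at h1

variable (r : ℕ) [Fact r.Prime] [CharP k r]

theorem exists_log_form_aux (κ : Subfield (LaurentSeries k)) [PerfectRing k r] {j : LaurentSeries k}
    (hj : j ∈ κ) (hθ : H1.thetaL k j ≠ 0)
    (hgen : κ ≤ Subfield.closure ((fun x => x ^ r) '' (κ : Set (LaurentSeries k)) ∪ {j}))
    {f : PowerSeries k} (hf : LogT r f) {g : LaurentSeries k} (hg : g ∈ κ)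
    (hfg : HahnSeries.ofPowerSeries ℤ k f = g * H1.thetaL k j) :
    ∃ h ∈ κ, h ≠ 0 ∧ H1.thetaL k h = HahnSeries.ofPowerSeries ℤ k f * h := by
  have hr : r.Prime := Fact.out
  have : NeZero r := ⟨hr.ne_zero⟩
  have hchar : CharP (LaurentSeries k) r :=
    charP_of_injective_algebraMap (algebraMap k (LaurentSeries k)).injective r
  -- the derivation preserves `κ`
  have hDκ : ∀ x ∈ κ, H1.ddX j x ∈ κ := by
    let S : Subfield (LaurentSeries k) :=
      { carrier := {x | x ∈ κ ∧ H1.ddX j x ∈ κ}
        mul_mem' := fun {x y} hx hy => ⟨mul_mem hx.1 hy.1, by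
          rw [H1.ddX_mul]
          exact add_mem (mul_mem hx.2 hy.1) (mul_mem hx.1 hy.2)⟩
        one_mem' := ⟨one_mem _, by rw [H1.ddX_apply, H1.thetaL_one, zero_div]; exact zero_mem _⟩
        add_mem' := fun {x y} hx hy => ⟨add_mem hx.1 hy.1, by
          rw [map_add]; exact add_mem hx.2 hy.2⟩
        zero_mem' := ⟨zero_mem _, by rw [map_zero]; exact zero_mem _⟩
        neg_mem' := fun {x} hx => ⟨neg_mem hx.1, by rw [map_neg]; exact neg_mem hx.2⟩
        inv_mem' := fun x hx => ⟨inv_mem hx.1, by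
          by_cases h0 : x = 0
          · rw [h0, inv_zero, map_zero]; exact zero_mem _
          · have h1 : H1.ddX j (x * x⁻¹) = 0 := by
              rw [mul_inv_cancel₀ h0, H1.ddX_apply, H1.thetaL_one, zero_div]
            rw [H1.ddX_mul] at h1
            have h2 : H1.ddX j x⁻¹ = - (H1.ddX j x * x⁻¹ * x⁻¹) := by
              field_simp at h1 ⊢
              linear_combination h1
            rw [h2]
            exact neg_mem (mul_mem (mul_mem hx.2 (inv_mem hx.1)) (inv_mem hx.1))⟩ }
    have hS : κ ≤ S := by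
      refine hgen.trans (Subfield.closure_le.mpr ?_)
      rintro x (⟨y, hy, rfl⟩ | hx)
      · refine ⟨pow_mem hy r, ?_⟩
        have h1 := der_pow (H1.ddX j) (H1.ddX_mul j) y r
        rw [CharP.cast_eq_zero, zero_mul, zero_mul] at h1
        change H1.ddX j (y ^ r) ∈ κ
        rw [h1]
        exact zero_mem _
      · rw [Set.mem_singleton_iff] at hx
        subst hx
        exact ⟨hj, by rw [H1.ddX_self hθ]; exact one_mem _⟩
    exact fun x hx => (hS hx).2
  obtain ⟨H, hH0, hH⟩ := exists_thP_eq r hf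
  set HL := HahnSeries.ofPowerSeries ℤ k H with hHL
  have hHL0 : HL ≠ 0 := by
    intro h0
    have h1 := congrArg (fun x => HahnSeries.coeff x ((0 : ℕ) : ℤ)) h0
    simp only [hHL, HahnSeries.ofPowerSeries_apply_coeff,
      PowerSeries.coeff_zero_eq_constantCoeff_apply, hH0] at h1
    simp at h1
  have hDH : H1.ddX j HL = g * HL := by
    rw [H1.ddX_apply, hHL, thetaL_ofPowerSeries, hH, map_mul, hfg]
    field_simp
  -- the twisted derivation
  let T : LaurentSeries k →+ LaurentSeries k := H1.ddX j - AddMonoidHom.mulLeft g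
  have hT : ∀ y, T y = H1.ddX j y - g * y := fun y => rfl
  have hTκ : ∀ y ∈ κ, T y ∈ κ := fun y hy => by
    rw [hT]; exact sub_mem (hDκ y hy) (mul_mem hg hy)
  have hTH : ∀ y, T (HL * y) = HL * H1.ddX j y := by
    intro y
    rw [hT, H1.ddX_mul, hDH]
    ring
  have hTit : ∀ n y, T^[n] (HL * y) = HL * (H1.ddX j)^[n] y := by
    intro n
    induction n with
    | zero => intro y; rfl
    | succ n ih => intro y; rw [Function.iterate_succ_apply, hTH, ih, Function.iterate_succ_apply]
  have hnil : T^[r] 1 = 0 := by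
    have h1 := hTit r HL⁻¹
    rw [mul_inv_cancel₀ hHL0, iterate_ddX_eq_zero hθ, mul_zero] at h1
    exact h1
  classical
  have hex : ∃ n, T^[n] (1 : LaurentSeries k) = 0 := ⟨r, hnil⟩
  have hn := Nat.find_spec hex
  have hn0 : Nat.find hex ≠ 0 := by
    intro h0
    rw [h0] at hn
    exact one_ne_zero hn
  obtain ⟨m, hm⟩ : ∃ m, Nat.find hex = m + 1 := ⟨Nat.find hex - 1, by omega⟩
  rw [hm, Function.iterate_succ_apply'] at hn
  have hne : T^[m] (1 : LaurentSeries k) ≠ 0 := Nat.find_min hex (by omega)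
  have hmem : ∀ n, T^[n] (1 : LaurentSeries k) ∈ κ := by
    intro n
    induction n with
    | zero => exact one_mem _
    | succ n ih => rw [Function.iterate_succ_apply']; exact hTκ _ ih
  refine ⟨_, hmem m, hne, ?_⟩
  rw [hT, sub_eq_zero, H1.ddX_apply] at hn
  rw [hfg]
  field_simp at hn
  rw [hn]
  ring

/-- **MZ-F1b** -/
theorem exists_log_form [IsAlgClosed k] (N : ℕ) [NeZero N] (hN : (N : k) ≠ 0) {f : PowerSeries k}
    (h0 : PowerSeries.coeff 0 f = 0)
    (hf : ∀ n, PowerSeries.coeff (r * n) f = PowerSeries.coeff n f ^ r)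
    {g : LaurentSeries k} (hg : g ∈ modularFunctionFieldFullC k N)
    (hfg : HahnSeries.ofPowerSeries ℤ k f = g * H1.thetaL k (jqModC k)) :
    ∃ h ∈ modularFunctionFieldFullC k N, h ≠ 0 ∧
      H1.thetaL k h = HahnSeries.ofPowerSeries ℤ k f * h :=
  exists_log_form_aux r (modularFunctionFieldFullC k N).toSubfield (H33.jqModC_mem k N)
    thetaL_jqModC_ne_zero (H33.mem_closure_pow r N hN) ⟨h0, hf⟩ hg hfg

end Main

end Fermat.Agent.H98
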