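import Mathlib
import Fermat.Agent.H15Defs
import Fermat.Agent.H72F1cMod
import Fermat.Agent.H9Spec
import Fermat.Agent.H98Log
import Fermat.Agent.H05_FreyGood
import Fermat.Agent.H90Exist
import Fermat.Agent.H88GenusEq

/-!
# MZ-F1c: the divisor of a logarithmic form is divisible by `r`

`F1c`: for `f ∈ S2 N k`, `θ h = f h`, `h` a modular function mod `r`: `r ∣ v.ord h` for all `v`.
-/

set_option autoImplicit false

noncomputable section

open AlgebraicCurve WithZero IntermediateField Polynomial Fermat.Agent.H3RR Fermat.Agent.H88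
  Fermat.Agent.H40 ModularCurve CongruenceSubgroup

namespace Fermat.Agent.H72

/-- integral `q`-expansions as Laurent series -/
def serL (R : Type*) [CommRing R] (G : PowerSeries ℤ) : LaurentSeries R :=
  HahnSeries.ofPowerSeries ℤ R (G.map (Int.castRingHom R))

theorem serL_coeff_nat (R : Type*) [CommRing R] (G : PowerSeries ℤ) (n : ℕ) :
    (serL R G).coeff n = ((PowerSeries.coeff n G : ℤ) : R) := by
  rw [serL, HahnSeries.ofPowerSeries_apply_coeff, PowerSeries.coeff_map]
  rfl

theorem serL_coeff_neg (R : Type*) [CommRing R] (G : PowerSeries ℤ) {n : ℤ} (hn : n < 0) :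
    (serL R G).coeff n = 0 := ofPowerSeries_coeff_of_neg _ hn

theorem coeffMap_serL {R S : Type*} [CommRing R] [CommRing S] (φ : R →+* S) (G : PowerSeries ℤ) :
    coeffMap φ (serL R G) = serL S G := by
  ext n
  rw [coeffMap_coeff]
  rcases lt_or_ge n 0 with hn | hn
  · rw [serL_coeff_neg _ _ hn, serL_coeff_neg _ _ hn, map_zero]
  · lift n to ℕ using hn
    rw [serL_coeff_nat, serL_coeff_nat, map_intCast]

section Main

variable {L : Type*} [Field L] [Algebra ℚ L] [IsAlgClosed L] [Algebra L ℂ] (A : ValuationSubring L)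
  {k : Type} [Field k] [IsAlgClosed k] (π : A →+* k) (hπ : Function.Surjective π) [IsLocalHom π]
  {N : ℕ} [NeZero N] (hN : (N : k) ≠ 0) (hg : H18.GenusFFEq L k N)

include hπ hN hg in
/-- Reductions of cusp forms satisfy the trace condition. -/
theorem exists_mem_holSub (hEle : modularFunctionFieldFullC k 1 ≤ modularFunctionFieldFullC k N)
    (F : CuspForm (Gamma0 N) 2) (G : PowerSeries ℤ)
    (hG : ∀ n : ℕ, ModularFormClass.qCoeff F n = ((PowerSeries.coeff n G : ℤ) : ℂ)) :
    ∃ g ∈ holSub hEle ⟨jqModC k, jqModC_mem_full k 1⟩,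
      (g : LaurentSeries k) * H61.theta (jqModC k) = serL k G := by
  have hN0 : N ≠ 0 := NeZero.ne N
  have : CharZero L := algebraRat.charZero L
  have h1k : ((1 : ℕ) : k) ≠ 0 := by rw [Nat.cast_one]; exact one_ne_zero
  have hd1 := degLE (L := L) (k := k) 1 h1k
  have hdN := degLE (L := L) (k := k) N hN
  have i1 := H42.funField_left (L := L) (k := k) 1 hd1
  have i2 := H42.funField_left (L := L) (k := k) N hdN
  have i3 := H42.funField_right (L := L) (k := k) 1 hd1
  have i4 := H42.funField_right (L := L) (k := k) N hdN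
  have hFle : laurentBaseChange L (modularFunctionFieldFull 1) ≤
      laurentBaseChange L (modularFunctionFieldFull N) := by
    rw [H42.laurentBaseChange_full, H42.laurentBaseChange_full]
    exact H66.full_mono L one_ne_zero hN0 (one_dvd N)
  have hj1 : jqModC L ∈ laurentBaseChange L (modularFunctionFieldFull 1) := by
    rw [H42.laurentBaseChange_full]; exact jqModC_mem_full L 1
  have hjN : jqModC L ∈ laurentBaseChange L (modularFunctionFieldFull N) := by
    rw [H42.laurentBaseChange_full]; exact jqModC_mem_full L N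
  have d1 := finrank_j L 1 _ (H42.laurentBaseChange_full L 1) hj1 (by simp)
  have d2 := finrank_j L N _ (H42.laurentBaseChange_full L N) hjN (Nat.cast_ne_zero.mpr hN0)
  have d3 := finrank_j k 1 _ rfl (jqModC_mem_full k 1) h1k
  have d4 := finrank_j k N _ rfl (jqModC_mem_full k N) hN
  obtain ⟨x, hx1, hx2⟩ := exists_j A π hπ hd1 hj1
  -- the function over `L`
  obtain ⟨y0, hy0, hy1⟩ := exists_function_of_form' (K := L) (N := N)
    (H42.laurentBaseChange_full L N) hjN F (serL L G)
    (fun n => by rw [serL_coeff_nat, map_intCast, hG]) (fun n hn => serL_coeff_neg _ _ hn)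
  have hyA : coeffMap A.subtype (serL A G * thjInv A) = (y0 : LaurentSeries L) := by
    rw [map_mul, coeffMap_serL, coeffMap_thjInv, ← hy0, mul_assoc, theta_mul_thjInv, mul_one]
  have hyAk : coeffMap π (serL A G * thjInv A) = serL k G * thjInv k := by
    rw [map_mul, coeffMap_serL, coeffMap_thjInv]
  have hmem : coeffMap A.subtype (serL A G * thjInv A) ∈
      laurentBaseChange L (modularFunctionFieldFull N) := by rw [hyA]; exact y0.2
  have hmemk := H42.coeffMap_mem_full A π N hπ hdN _ hmem
  have hB : (⟨coeffMap A.subtype (serL A G * thjInv A), hmem⟩ :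
      laurentBaseChange L (modularFunctionFieldFull N)) ∈ (H42.modReductionData A π N hπ hdN).B :=
    (H42.modGauss A π N hπ hdN).le_loc ⟨_, rfl⟩
  have hρ := H42.modReductionData_ρ A π N hπ hdN _ hmem hmemk hB
  refine ⟨⟨_, hmemk⟩, ?_, ?_⟩
  · rw [← hρ, ← hx2]
    refine red_mem_holSub hFle hEle (H42.modReductionData A π 1 hπ hd1)
      (H42.modReductionData A π N hπ hdN) (comp_red A π hπ hd1 hdN hFle hEle) x
      (by rw [hx2]; exact H42.transcendental_jFull k 1) (n := dedekindPsi 1) (m := dedekindPsi N)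
      d2.2 (by rw [hx1]; exact d1.1) (by rw [hx1]; exact d2.1) (by rw [hx2]; exact d3.1)
      (by rw [hx2]; exact d4.1) hg ?_ _ ?_
    · rw [hx1, ← IntermediateField.finrank_eq_one_iff_eq_top, d1.1, dedekindPsi_one]
    · intro w c hw
      have h1 : inclusion hFle ((x : laurentBaseChange L (modularFunctionFieldFull 1)) -
          algebraMap L _ c) = ⟨jqModC L, hjN⟩ - algebraMap L _ c := by
        rw [hx1]
        rfl
      have h2 : (⟨coeffMap A.subtype (serL A G * thjInv A), hmem⟩ :
          laurentBaseChange L (modularFunctionFieldFull N)) = y0 := Subtype.ext hyA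
      rw [h1] at hw ⊢
      show w.adicValuation (_ * (⟨coeffMap A.subtype (serL A G * thjInv A), hmem⟩ :
          laurentBaseChange L (modularFunctionFieldFull N))) < 1
      rw [h2]
      exact hy1 w c hw
  · show coeffMap π (serL A G * thjInv A) * _ = _
    rw [hyAk, mul_assoc, mul_comm (thjInv k), theta_mul_thjInv, mul_one]

include hπ hN hg in
theorem exists_mem_holSub_of_S2
    (hEle : modularFunctionFieldFullC k 1 ≤ modularFunctionFieldFullC k N) {f : PowerSeries k}
    (hf : f ∈ H15.S2 N k) : ∃ g ∈ holSub hEle ⟨jqModC k, jqModC_mem_full k 1⟩,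
      (g : LaurentSeries k) * H61.theta (jqModC k) = HahnSeries.ofPowerSeries ℤ k f := by
  induction hf using Submodule.span_induction with
  | mem f hf =>
    obtain ⟨F, G, hG, rfl⟩ := hf
    exact exists_mem_holSub A π hπ hN hg hEle F G hG
  | zero => exact ⟨0, Submodule.zero_mem _, by rw [ZeroMemClass.coe_zero, zero_mul, map_zero]⟩
  | add f₁ f₂ _ _ h₁ h₂ =>
    obtain ⟨g₁, hg₁, e₁⟩ := h₁
    obtain ⟨g₂, hg₂, e₂⟩ := h₂
    exact ⟨g₁ + g₂, Submodule.add_mem _ hg₁ hg₂, by
      rw [AddMemClass.coe_add, add_mul, e₁, e₂, map_add]⟩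
  | smul c f _ h =>
    obtain ⟨g, hg, e⟩ := h
    refine ⟨c • g, Submodule.smul_mem _ c hg, ?_⟩
    have h1 : HahnSeries.ofPowerSeries ℤ k (c • f) =
        algebraMap k (LaurentSeries k) c * HahnSeries.ofPowerSeries ℤ k f := by
      ext n
      rw [H42.coeff_algebraMap_mul]
      rcases lt_or_ge n 0 with hn | hn
      · rw [ofPowerSeries_coeff_of_neg _ hn, ofPowerSeries_coeff_of_neg _ hn, mul_zero]
      · lift n to ℕ using hn
        rw [HahnSeries.ofPowerSeries_apply_coeff, HahnSeries.ofPowerSeries_apply_coeff]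
        rfl
    rw [h1, ← e, Algebra.smul_def, MulMemClass.coe_mul, ← mul_assoc]
    rfl

end Main

theorem coeff_zero_of_S2 {k : Type} [Field k] {N : ℕ} [NeZero N] {f : PowerSeries k}
    (hf : f ∈ H15.S2 N k) : PowerSeries.coeff 0 f = 0 := by
  induction hf using Submodule.span_induction with
  | mem f hf =>
    obtain ⟨F, G, hG, rfl⟩ := hf
    have h1 := hG 0
    have h2 : ModularFormClass.qCoeff F 0 = 0 :=
      CuspFormClass.qExpansion_coeff_zero F one_pos (one_mem_strictPeriods_Gamma0 N)
    rw [h2] at h1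
    have h3 : PowerSeries.coeff 0 G = 0 := by exact_mod_cast h1.symm
    rw [PowerSeries.coeff_map, h3, map_zero]
  | zero => rw [map_zero]
  | add f₁ f₂ _ _ h₁ h₂ => rw [map_add, h₁, h₂, add_zero]
  | smul c f _ h => rw [map_smul, h, smul_zero]

section Der

variable {k : Type} [Field k] [IsAlgClosed k]

/-- `d/dj` preserves the modular function fields. -/
theorem ddX_mem_full (r : ℕ) [Fact r.Prime] [CharP k r] (M : ℕ) [NeZero M] (hM : (M : k) ≠ 0) {z : LaurentSeries k}
    (hz : z ∈ modularFunctionFieldFullC k M) :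
    Fermat.Agent.H1.ddX (jqModC k) z ∈ modularFunctionFieldFullC k M := by
  have hθ := H98.thetaL_jqModC_ne_zero (k := k)
  have hchar : CharP (LaurentSeries k) r :=
    charP_of_injective_algebraMap (algebraMap k (LaurentSeries k)).injective r
  let κ := (modularFunctionFieldFullC k M).toSubfield
  let S : Subfield (LaurentSeries k) :=
    { carrier := {x | x ∈ κ ∧ Fermat.Agent.H1.ddX (jqModC k) x ∈ κ}
      mul_mem' := fun {x y} hx hy => ⟨mul_mem hx.1 hy.1, by
        rw [Fermat.Agent.H1.ddX_mul]
        exact add_mem (mul_mem hx.2 hy.1) (mul_mem hx.1 hy.2)⟩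
      one_mem' := ⟨one_mem _, by
        rw [Fermat.Agent.H1.ddX_apply, Fermat.Agent.H1.thetaL_one, zero_div]; exact zero_mem _⟩
      add_mem' := fun {x y} hx hy => ⟨add_mem hx.1 hy.1, by
        rw [map_add]; exact add_mem hx.2 hy.2⟩
      zero_mem' := ⟨zero_mem _, by rw [map_zero]; exact zero_mem _⟩
      neg_mem' := fun {x} hx => ⟨neg_mem hx.1, by rw [map_neg]; exact neg_mem hx.2⟩
      inv_mem' := fun x hx => ⟨inv_mem hx.1, by
        by_cases h0 : x = 0
        · rw [h0, inv_zero, map_zero]; exact zero_mem _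
        · have h1 : Fermat.Agent.H1.ddX (jqModC k) (x * x⁻¹) = 0 := by
            rw [mul_inv_cancel₀ h0, Fermat.Agent.H1.ddX_apply, Fermat.Agent.H1.thetaL_one, zero_div]
          rw [Fermat.Agent.H1.ddX_mul] at h1
          have h2 : Fermat.Agent.H1.ddX (jqModC k) x⁻¹ =
              - (Fermat.Agent.H1.ddX (jqModC k) x * x⁻¹ * x⁻¹) := by
            field_simp at h1 ⊢
            linear_combination h1
          rw [h2]
          exact neg_mem (mul_mem (mul_mem hx.2 (inv_mem hx.1)) (inv_mem hx.1))⟩ }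
  have hS : κ ≤ S := by
    refine (H33.mem_closure_pow r M hM).trans (Subfield.closure_le.mpr ?_)
    rintro x (⟨y, hy, rfl⟩ | hx)
    · refine ⟨pow_mem hy r, ?_⟩
      have h1 := H98.der_pow (Fermat.Agent.H1.ddX (jqModC k))
        (Fermat.Agent.H1.ddX_mul (jqModC k)) y r
      rw [CharP.cast_eq_zero, zero_mul, zero_mul] at h1
      change Fermat.Agent.H1.ddX (jqModC k) (y ^ r) ∈ κ
      rw [h1]
      exact zero_mem _
    · rw [Set.mem_singleton_iff] at hx
      subst hx
      exact ⟨jqModC_mem_full k M, by rw [Fermat.Agent.H1.ddX_self hθ]; exact one_mem _⟩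
  exact (hS hz).2

end Der

/-- **MZ-F1c**, general form. -/
theorem dvd_ord_of_log {L : Type*} [Field L] [Algebra ℚ L] [IsAlgClosed L] [Algebra L ℂ]
    (A : ValuationSubring L) {k : Type} [Field k] [IsAlgClosed k] (π : A →+* k)
    (hπ : Function.Surjective π) [IsLocalHom π] {N : ℕ} [NeZero N] (hNp : N.Prime)
    (hN : (N : k) ≠ 0) (hg : H18.GenusFFEq L k N) (r : ℕ) [Fact r.Prime] [CharP k r]
    {f : PowerSeries k} (hf : f ∈ H15.S2 N k) {h : modularFunctionFieldFullC k N} (hh : h ≠ 0)
    (hθ : H61.theta (h : LaurentSeries k) = HahnSeries.ofPowerSeries ℤ k f * h)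
    (v : Place k (modularFunctionFieldFullC k N)) : (r : ℤ) ∣ v.ord h := by
  classical
  have : Fact N.Prime := ⟨hNp⟩
  have h1k : ((1 : ℕ) : k) ≠ 0 := by rw [Nat.cast_one]; exact one_ne_zero
  have i3 := H60.funField_fullC k 1 h1k
  have i4 := H60.funField_fullC k N hN
  have hEle : modularFunctionFieldFullC k 1 ≤ modularFunctionFieldFullC k N :=
    H66.full_mono k one_ne_zero (NeZero.ne N) (one_dvd N)
  obtain ⟨g, hgS, hgf⟩ := exists_mem_holSub_of_S2 A π hπ hN hg hEle hf
  have hθj := H98.thetaL_jqModC_ne_zero (k := k)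
  have hδx : Fermat.Agent.H1.ddX (jqModC k) (jqModC k) = 1 := Fermat.Agent.H1.ddX_self hθj
  have hδh : Fermat.Agent.H1.ddX (jqModC k) (h : LaurentSeries k) = (g : LaurentSeries k) * h := by
    rw [Fermat.Agent.H1.ddX_apply, ← theta_eq_thetaL, ← theta_eq_thetaL, hθ, ← hgf]
    rw [← theta_eq_thetaL] at hθj
    field_simp
  have d3 := finrank_j k 1 _ rfl (jqModC_mem_full k 1) h1k
  have d4 := finrank_j k N _ rfl (jqModC_mem_full k N) hN
  -- finite places
  have hfin : ∀ w : Place k (modularFunctionFieldFullC k N),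
      w.adicValuation (⟨jqModC k, jqModC_mem_full k N⟩ : modularFunctionFieldFullC k N) ≤ 1 →
      (r : ℤ) ∣ w.ord h := by
    intro w hw
    refine dvd_ord_incl hEle r (Fermat.Agent.H1.ddX (jqModC k))
      (Fermat.Agent.H1.ddX_mul (jqModC k)) (Fermat.Agent.H1.ddX_algebraMap (jqModC k))
      (fun z hz => ddX_mem_full r 1 h1k hz) (fun z hz => ddX_mem_full r N hN hz)
      (x := ⟨jqModC k, jqModC_mem_full k 1⟩) (H42.transcendental_jFull k 1) ?_ hδx ?_ ?_ hgS hh
      hδh w hw
    · rw [← IntermediateField.finrank_eq_one_iff_eq_top, d3.1, dedekindPsi_one]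
    · intro h0
      exact d4.2 (d4.1.symm.trans h0)
    · exact isSeparable_of_hasLead (modularFunctionFieldFullC k N) one_ne_zero
        (H42.transcendental_jFull k N) H66.HasLead.jqModC
  obtain ⟨i, z, S⟩ := H9.exists_cuspSpec k N hN (modularFunctionFieldFullC k N) rfl
  have hcusp : ∀ w : Place k (modularFunctionFieldFullC k N), w ≠ i → w ≠ z →
      (r : ℤ) ∣ w.ord h := by
    intro w hwi hwz
    apply hfin
    by_contra hcon
    rw [Place.not_adicValuation_le_one_iff] at hcon
    rcases S.cusp w _ (show ((⟨jqModC k, jqModC_mem_full k N⟩ : modularFunctionFieldFullC k N) :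
      LaurentSeries k) = H66.J k 1 by rw [H66.J_eq, qExpand_one_apply]) hcon with h1 | h1
    · exact hwi h1
    · exact hwz h1
  -- the cusp at infinity
  have hinf : (r : ℤ) ∣ i.ord h := by
    rw [S.inf_ord]
    set n := (h : LaurentSeries k).order with hn
    have hh' : (h : LaurentSeries k) ≠ 0 := fun h0 => hh (Subtype.ext h0)
    have h1 := congrArg (fun s => HahnSeries.coeff s n) hθ
    simp only [H61.coeff_theta] at h1
    have h2 : (HahnSeries.ofPowerSeries ℤ k f * (h : LaurentSeries k)).coeff n = 0 := by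
      rw [HahnSeries.coeff_mul]
      apply Finset.sum_eq_zero
      rintro ⟨a, b⟩ hab
      obtain ⟨ha, hb, hab'⟩ := Finset.mem_antidiagonal.mp hab
      have hb' : n ≤ b := HahnSeries.order_le_of_coeff_ne_zero hb
      simp only at hab' ha
      have ha' : a ≤ 0 := by omega
      exfalso
      apply ha
      rcases lt_or_eq_of_le ha' with h3 | h3
      · exact ofPowerSeries_coeff_of_neg _ h3
      · rw [h3]
        exact (HahnSeries.ofPowerSeries_apply_coeff f 0).trans (coeff_zero_of_S2 hf)
    rw [h2] at h1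
    have h3 : (h : LaurentSeries k).coeff n ≠ 0 := HahnSeries.coeff_order_eq_zero.not.mpr hh'
    have h4 : (n : k) = 0 := (mul_eq_zero.mp h1).resolve_right h3
    exact (CharP.intCast_eq_zero_iff k r n).mp h4
  -- the other cusp
  have hprin : HasPrincipalDivisors k (modularFunctionFieldFullC k N) := H18.hasPrincipalDivisors _ _
  have hzero : (r : ℤ) ∣ z.ord h := by
    obtain ⟨D, hD, hdeg⟩ := HasPrincipalDivisors.exists_divisor (K := k) h hh
    have h1 : Divisor.degree D = ∑ w ∈ D.support, w.ord h := by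
      have h0 : Divisor.degree D = ∑ w ∈ D.support, D w * (w.deg : ℤ) := rfl
      rw [h0]
      refine Finset.sum_congr rfl fun w _ => ?_
      rw [S.deg_eq, hD, Nat.cast_one, mul_one]
    rw [hdeg] at h1
    by_cases hz : z ∈ D.support
    · rw [← Finset.add_sum_erase _ _ hz] at h1
      have h2 : (r : ℤ) ∣ ∑ w ∈ D.support.erase z, w.ord h := by
        apply Finset.dvd_sum
        intro w hw
        have hwz := Finset.ne_of_mem_erase hw
        by_cases hwi : w = i
        · rw [hwi]; exact hinf
        · exact hcusp w hwi hwz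
      have h3 : z.ord h = -∑ w ∈ D.support.erase z, w.ord h := by linarith
      rw [h3]
      exact (dvd_neg).mpr h2
    · rw [← hD, Finsupp.notMem_support_iff.mp hz]
      exact dvd_zero _
  by_cases hvi : v = i
  · rw [hvi]; exact hinf
  by_cases hvz : v = z
  · rw [hvz]; exact hzero
  exact hcusp v hvi hvz

/-- **MZ-F1c** -/
theorem F1c {N : ℕ} [NeZero N] (hN : N.Prime) {r : ℕ} (hr : r.Prime) (hrN : r ≠ N)
    (A : ValuationSubring (AlgebraicClosure ℚ)) (hA : A.LiesOverPrime r)
    {f : PowerSeries (IsLocalRing.ResidueField A)} (hf : f ∈ H15.S2 N (IsLocalRing.ResidueField A))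
    {h : modularFunctionFieldFullC (IsLocalRing.ResidueField A) N} (hh : h ≠ 0)
    (hθ : H61.theta (h : LaurentSeries (IsLocalRing.ResidueField A)) =
      HahnSeries.ofPowerSeries ℤ (IsLocalRing.ResidueField A) f * h)
    (v : Place (IsLocalRing.ResidueField A)
      (modularFunctionFieldFullC (IsLocalRing.ResidueField A) N)) : (r : ℤ) ∣ v.ord h := by
  have : Fact r.Prime := ⟨hr⟩
  have hrN' : ¬ r ∣ N := fun h => hrN ((Nat.prime_dvd_prime_iff_eq hr hN).mp h)
  have hk : IsAlgClosed (IsLocalRing.ResidueField A) := H18.isAlgClosed_residueField A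
  have hNk : ((N : ℕ) : IsLocalRing.ResidueField A) ≠ 0 :=
    H18.natCast_residueField_ne_zero A hr hA hrN'
  have hchar : CharP (IsLocalRing.ResidueField A) r := H05.charP_residueField hr hA
  let _ := H90.algQbarC
  exact dvd_ord_of_log A (IsLocalRing.residue A) IsLocalRing.residue_surjective hN hNk
    (H88.genusFFEq N hrN' A hA) r hf hh hθ v

end Fermat.Agent.H72
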