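import Fermat.Agent.H12FFinal
import Fermat.Agent.H72F1c
import Fermat.Agent.H17DivRed

/-!
# MZ-F1d: `T_cardMult` from `T_cardW` (helper12)
-/

set_option autoImplicit false

noncomputable section

namespace Fermat.Agent.H12F

open ModularCurve AlgebraicCurve Fermat.Agent.H15

/-- F1c (helper72) -/
theorem divH : T_divH := fun _ _ hN _ hr hrN A hA _ hf _ hh hθ v =>
  H72.F1c hN hr hrN A hA hf hh hθ v

/-- **MZ-F1d**: `T_cardMult`, from `T_cardW` -/
theorem cardMult_of (hcardW : T_cardW) : T_cardMult := cardMult divH H17.divRed hcardW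

end Fermat.Agent.H12F
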