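import Mathlib
import Fermat.Agent.H15Defs
import Fermat.Agent.H61Formal

/-!
# MZ-F1d: definitions (helper12)
-/

set_option autoImplicit false

noncomputable section

namespace Fermat.Agent.H12F

open ModularCurve AlgebraicCurve Fermat.Agent.H15

variable (N r : ℕ) (k : Type) [Field k]

/-- the Eisenstein forms mod `r` with `T_r f = f^(r)` (coefficientwise Frobenius) -/
def V0 [Fact r.Prime] [CharP k r] : AddSubgroup (PowerSeries k) where
  carrier := {f | f ∈ EisPart N k ∧ ∀ n : ℕ, PowerSeries.coeff (r * n) f = (PowerSeries.coeff n f) ^ r}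
  zero_mem' := ⟨zero_mem _, fun n => by simp [(Fact.out : r.Prime).ne_zero]⟩
  add_mem' := by
    rintro f g ⟨hf, hf'⟩ ⟨hg, hg'⟩
    exact ⟨add_mem hf hg, fun n => by rw [map_add, map_add, hf', hg', add_pow_char]⟩
  neg_mem' := by
    rintro f ⟨hf, hf'⟩
    refine ⟨neg_mem hf, fun n => ?_⟩
    rw [map_neg, map_neg, hf']
    exact (map_neg (frobenius k r) (PowerSeries.coeff n f)).symm

theorem mem_V0 [Fact r.Prime] [CharP k r] {f : PowerSeries k} :
    f ∈ V0 N r k ↔ f ∈ EisPart N k ∧
      ∀ n : ℕ, PowerSeries.coeff (r * n) f = (PowerSeries.coeff n f) ^ r := Iff.rfl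

end Fermat.Agent.H12F
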