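import Fermat.Agent.H98Log
import Fermat.Agent.H45FormFun
import Fermat.Agent.H42Inputs
import Fermat.Agent.H54Frobenius
import Fermat.Agent.H1Inertia
import Fermat.Agent.H15Defs
import Fermat.Agent.H18BaseDeg

/-!
# Cusp forms mod `r` are differentials of the modular function field (helper98, MZ-F1)
-/

set_option autoImplicit false

noncomputable section

open ModularCurve HahnSeries AlgebraicCurve

namespace Fermat.Agent.H98

local notation "Qb" => AlgebraicClosure ℚ

theorem thetaL_eq {R : Type*} [CommRing R] (x : LaurentSeries R) :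
    H1.thetaL R x = H61.theta x := by
  ext n
  rw [H1.thetaL_coeff, H61.coeff_theta]

theorem isUnit_thetaL_jqModC_int : IsUnit (H1.thetaL ℤ (jqModC ℤ)) := by
  rw [HahnSeries.isUnit_iff]
  have hc : (H1.thetaL ℤ (jqModC ℤ)).coeff (-1) = -1 := by
    rw [H1.thetaL_coeff, coeff_jqModC_neg_one]; norm_num
  have hne : H1.thetaL ℤ (jqModC ℤ) ≠ 0 := by
    intro h
    rw [h] at hc
    simp at hc
  have hord : (H1.thetaL ℤ (jqModC ℤ)).order = -1 := by
    apply le_antisymm
    · exact HahnSeries.order_le_of_coeff_ne_zero (by rw [hc]; norm_num)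
    · rw [HahnSeries.le_order_iff_forall hne]
      intro n hn
      rw [H1.thetaL_coeff, coeff_jqModC_of_lt ℤ hn, mul_zero]
  rw [HahnSeries.leadingCoeff_eq, hord, hc]
  exact isUnit_one.neg

theorem coeffMap_ofPS {R S : Type*} [CommRing R] [CommRing S] (φ : R →+* S) (G : PowerSeries R) :
    coeffMap φ (HahnSeries.ofPowerSeries ℤ R G) = HahnSeries.ofPowerSeries ℤ S (G.map φ) :=
  coeffMap_ofPowerSeries φ G

/-- the residue field of a place of `ℚ̄` is algebraic over the prime field -/
theorem isAlgebraic_residueField {r : ℕ} [Fact r.Prime] {A : ValuationSubring Qb}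
    (hA : A.LiesOverPrime r) [CharP (IsLocalRing.ResidueField A) r] :
    let := ZMod.algebra (IsLocalRing.ResidueField A) r
    Algebra.IsAlgebraic (ZMod r) (IsLocalRing.ResidueField A) := by
  let := ZMod.algebra (IsLocalRing.ResidueField A) r
  have : Algebra.IsAlgebraic ℚ Qb := AlgebraicClosure.isAlgebraic ℚ
  refine ⟨fun x => ?_⟩
  by_cases hx : x = 0
  · rw [hx]; exact isAlgebraic_zero
  · obtain ⟨n, hn, -, h⟩ := H1.exists_pow_eq_one_residue A hA (IsLocalRing.residue A)
      IsLocalRing.residue_surjective x hx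
    have h1 : IsIntegral (ZMod r) x := by
      refine ⟨Polynomial.X ^ n - 1, Polynomial.monic_X_pow_sub_C (1 : ZMod r) hn.ne', ?_⟩
      simp [h]
    exact h1.isAlgebraic

/-- an integral quotient -/
theorem exists_int_quot (G : PowerSeries ℤ) : ∃ y : LaurentSeries ℤ,
    y * H1.thetaL ℤ (jqModC ℤ) = HahnSeries.ofPowerSeries ℤ ℤ G := by
  obtain ⟨u, hu⟩ := isUnit_thetaL_jqModC_int
  refine ⟨HahnSeries.ofPowerSeries ℤ ℤ G * ↑u⁻¹, ?_⟩
  rw [← hu, mul_assoc, Units.inv_mul, mul_one]

theorem coeffMap_quot {R : Type*} [CommRing R] {G : PowerSeries ℤ} {y : LaurentSeries ℤ}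
    (hy : y * H1.thetaL ℤ (jqModC ℤ) = HahnSeries.ofPowerSeries ℤ ℤ G) :
    coeffMap (Int.castRingHom R) y * H1.thetaL R (jqModC R) =
      HahnSeries.ofPowerSeries ℤ R (G.map (Int.castRingHom R)) := by
  rw [← coeffMap_ofPS, ← hy, map_mul, H1.coeffMap_thetaL, coeffMap_jqModC]

/-- characteristic zero: cusp forms with integral expansion are differentials -/
theorem quot_mem_full (N : ℕ) [NeZero N] (F : CuspForm (CongruenceSubgroup.Gamma0 N) 2)
    (G : PowerSeries ℤ)
    (hG : ∀ n : ℕ, ModularFormClass.qCoeff F n = ((PowerSeries.coeff n G : ℤ) : ℂ))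
    {y : LaurentSeries ℤ}
    (hy : y * H1.thetaL ℤ (jqModC ℤ) = HahnSeries.ofPowerSeries ℤ ℤ G) :
    coeffMap (Int.castRingHom Qb) y ∈ modularFunctionFieldFullC Qb N := by
  let : Algebra Qb ℂ := (IsAlgClosed.lift : Qb →ₐ[ℚ] ℂ).toRingHom.toAlgebra
  have hX : ∀ n : ℕ, algebraMap Qb ℂ
      ((HahnSeries.ofPowerSeries ℤ Qb (G.map (Int.castRingHom Qb)) : LaurentSeries Qb).coeff n) =
      ModularFormClass.qCoeff (CuspForm.toModularFormₗ F) n := by
    intro n
    rw [HahnSeries.ofPowerSeries_apply_coeff, PowerSeries.coeff_map]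
    have h1 : ModularFormClass.qCoeff (CuspForm.toModularFormₗ F) n =
      ModularFormClass.qCoeff F n := rfl
    rw [h1, hG n]
    simp
  have hneg : ∀ n < (0 : ℤ),
      (HahnSeries.ofPowerSeries ℤ Qb (G.map (Int.castRingHom Qb)) : LaurentSeries Qb).coeff n =
        0 := by
    intro n hn
    exact ofPowerSeries_coeff_of_neg _ hn
  obtain ⟨x, hx, -⟩ := H45.FF.exists_function_of_form (K := Qb) (N := N)
    (CuspForm.toModularFormₗ F) _ hX hneg
  have h2 := coeffMap_quot (R := Qb) hy
  rw [← hx, ← thetaL_eq] at h2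
  have h3 := mul_right_cancel₀ (thetaL_jqModC_ne_zero (k := Qb)) h2
  rw [h3]
  exact x.2

/-- reduction: the same modulo `r` over any algebraically closed field -/
theorem quot_mem_full_mod {r : ℕ} [hr : Fact r.Prime] (k : Type) [Field k] [CharP k r]
    [IsAlgClosed k] (N : ℕ) [NeZero N] (hN : (N : k) ≠ 0) {y : LaurentSeries ℤ}
    (hy : coeffMap (Int.castRingHom Qb) y ∈ modularFunctionFieldFullC Qb N) :
    coeffMap (Int.castRingHom k) y ∈ modularFunctionFieldFullC k N := by
  obtain ⟨A, hA⟩ := H54.exists_liesOverPrime hr.out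
  have hc : CharP (IsLocalRing.ResidueField A) r := H60.charP_residue hr.out hA
  have hrN : ¬ r ∣ N := fun h => hN ((CharP.cast_eq_zero_iff k r N).mpr h)
  have h1 : coeffMap (IsLocalRing.residue A) (coeffMap (Int.castRingHom A) y) ∈
      modularFunctionFieldFullC (IsLocalRing.ResidueField A) N := by
    refine H42.coeffMap_mem_full A (IsLocalRing.residue A) N IsLocalRing.residue_surjective
      (H42.degLE_place hr.out hA hrN) _ ?_
    rw [H42.laurentBaseChange_full, coeffMap_coeffMap]
    have h2 : (A.subtype).comp (Int.castRingHom A) = Int.castRingHom Qb := RingHom.ext_int _ _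
    rw [h2]
    exact hy
  rw [coeffMap_coeffMap] at h1
  have h2 : (IsLocalRing.residue A).comp (Int.castRingHom A) =
    Int.castRingHom (IsLocalRing.ResidueField A) := RingHom.ext_int _ _
  rw [h2] at h1
  let := ZMod.algebra (IsLocalRing.ResidueField A) r
  let := ZMod.algebra k r
  have := isAlgebraic_residueField (r := r) hA
  let : Algebra (IsLocalRing.ResidueField A) k :=
    (IsAlgClosed.lift : IsLocalRing.ResidueField A →ₐ[ZMod r] k).toRingHom.toAlgebra
  have h3 := H18.coeffMap_mem_fullC (L := k) h1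
  rw [coeffMap_coeffMap] at h3
  have h4 : (algebraMap (IsLocalRing.ResidueField A) k).comp
    (Int.castRingHom (IsLocalRing.ResidueField A)) = Int.castRingHom k := RingHom.ext_int _ _
  rw [h4] at h3
  exact h3

/-- **Cusp forms mod `r` are differentials.** -/
theorem exists_function_of_S2 {r : ℕ} [hr : Fact r.Prime] (k : Type) [Field k] [CharP k r]
    [IsAlgClosed k] (N : ℕ) [NeZero N] (hN : (N : k) ≠ 0) {f : PowerSeries k}
    (hf : f ∈ H15.S2 N k) : ∃ g ∈ modularFunctionFieldFullC k N,
      (HahnSeries.ofPowerSeries ℤ k f : LaurentSeries k) = g * H1.thetaL k (jqModC k) := by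
  rw [H15.S2] at hf
  induction hf using Submodule.span_induction with
  | mem f hf =>
    obtain ⟨F, G, hG, rfl⟩ := hf
    obtain ⟨y, hy⟩ := exists_int_quot G
    exact ⟨_, quot_mem_full_mod k N hN (quot_mem_full N F G hG hy), (coeffMap_quot hy).symm⟩
  | zero => exact ⟨0, zero_mem _, by rw [map_zero, zero_mul]⟩
  | add f g _ _ hf hg =>
    obtain ⟨a, ha, hfa⟩ := hf
    obtain ⟨b, hb, hgb⟩ := hg
    exact ⟨a + b, add_mem ha hb, by rw [map_add, hfa, hgb, add_mul]⟩
  | smul c f _ hf =>
    obtain ⟨a, ha, hfa⟩ := hf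
    refine ⟨algebraMap k (LaurentSeries k) c * a,
      mul_mem ((modularFunctionFieldFullC k N).algebraMap_mem c) ha, ?_⟩
    rw [mul_assoc, ← hfa, PowerSeries.smul_eq_C_mul, map_mul, HahnSeries.ofPowerSeries_C,
      algebraMap_laurentSeries_eq_single, HahnSeries.C_apply]

/-- the form with `H61.theta` -/
theorem exists_theta_of_S2 {r : ℕ} [hr : Fact r.Prime] (k : Type) [Field k] [CharP k r]
    [IsAlgClosed k] (N : ℕ) [NeZero N] (hN : (N : k) ≠ 0) {f : PowerSeries k}
    (hf : f ∈ H15.S2 N k) : ∃ g ∈ modularFunctionFieldFullC k N,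
      (HahnSeries.ofPowerSeries ℤ k f : LaurentSeries k) = g * H61.theta (jqModC k) := by
  obtain ⟨g, hg, h⟩ := exists_function_of_S2 (r := r) k N hN hf
  exact ⟨g, hg, by rw [← thetaL_eq]; exact h⟩

end Fermat.Agent.H98
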