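import Fermat.Agent.H9S2
import Fermat.Agent.H11Lang
import Fermat.Agent.H12FDefs

/-!
# MZ-F1d [b]: `r^t` Eisenstein forms mod `r` with `T_r f = f^(r)`
-/

set_option autoImplicit false
set_option linter.unusedSectionVars false

noncomputable section

open CongruenceSubgroup ModularFormClass
open Fermat.Agent.H15 (Tq S2 TEis EisPart)
open Fermat.Agent.H12F (V0 mem_V0)

namespace Fermat.Agent.H9

variable {N : ℕ} [NeZero N] {r : ℕ} [Fact r.Prime] {k : Type} [Field k] [CharP k r]

local notation "Fr" => PowerSeries.map (frobenius k r)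

theorem Fr_redZ (G : PowerSeries ℤ) : Fr (redZ k G) = redZ k G := by
  ext n
  show PowerSeries.coeff n (Fr (PowerSeries.map (Int.castRingHom k) G)) =
    PowerSeries.coeff n (PowerSeries.map (Int.castRingHom k) G)
  rw [PowerSeries.coeff_map, PowerSeries.coeff_map, eq_intCast, map_intCast]

theorem Fr_smul (a : k) (f : PowerSeries k) : Fr (a • f) = (frobenius k r a) • Fr f := by
  ext n
  simp [PowerSeries.coeff_map]

theorem Fr_mem_S2 {f : PowerSeries k} (hf : f ∈ S2 N k) : Fr f ∈ S2 N k := by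
  rw [S2_eq] at hf ⊢
  induction hf using Submodule.span_induction with
  | mem x hx =>
    obtain ⟨G, hG, rfl⟩ := hx
    rw [Fr_redZ]
    exact Submodule.subset_span ⟨_, hG, rfl⟩
  | zero => rw [map_zero]; exact zero_mem _
  | add x y _ _ ihx ihy => rw [map_add]; exact add_mem ihx ihy
  | smul a x _ ih => rw [Fr_smul]; exact Submodule.smul_mem _ _ ih

theorem Tq_Fr (q : ℕ) (f : PowerSeries k) : Tq k q (Fr f) = Fr (Tq k q f) := by
  ext n
  rw [coeff_Tq, PowerSeries.coeff_map, PowerSeries.coeff_map, PowerSeries.coeff_map, coeff_Tq,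
    map_add]
  congr 1
  split_ifs
  · rw [map_mul, map_natCast]
  · rw [map_zero]

theorem TEis_Fr (q : ℕ) (f : PowerSeries k) : TEis k q (Fr f) = Fr (TEis k q f) := by
  rw [TEis_apply, TEis_apply, map_sub, Tq_Fr, Fr_smul, map_add, map_one, map_natCast]

theorem prod_TEis_Fr (l : List ℕ) (f : PowerSeries k) :
    (l.map (TEis k)).prod (Fr f) = Fr ((l.map (TEis k)).prod f) := by
  induction l with
  | nil => rfl
  | cons a l ih =>
    rw [List.map_cons, List.prod_cons, Module.End.mul_apply, Module.End.mul_apply, ih, TEis_Fr]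

theorem Fr_mem_EisPart {f : PowerSeries k} (hf : f ∈ EisPart N k) : Fr f ∈ EisPart N k := by
  obtain ⟨h1, n, hn⟩ := hf
  exact ⟨Fr_mem_S2 h1, n, fun l hl hp => by rw [prod_TEis_Fr, hn l hl hp, map_zero]⟩

theorem eq_zero_of_Tr_eq_zero (hrN : r ≠ N) {f : PowerSeries k} (hf : f ∈ EisPart N k)
    (h0 : Tq k r f = 0) : f = 0 := by
  obtain ⟨-, n, hn⟩ := hf
  have h1 : TEis k r f = (-1 : k) • f := by
    rw [TEis_apply, h0, CharP.cast_eq_zero, add_zero, zero_sub, one_smul, neg_smul, one_smul]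
  have h2 : ∀ m : ℕ, ((List.replicate m r).map (TEis k)).prod f = (-1 : k) ^ m • f := by
    intro m
    induction m with
    | zero => rw [pow_zero, one_smul]; rfl
    | succ m ih =>
      rw [List.replicate_succ, List.map_cons, List.prod_cons, Module.End.mul_apply, ih, map_smul,
        h1, smul_smul, ← pow_succ]
  have h3 := hn (List.replicate n r) List.length_replicate fun q hq => by
    rw [List.eq_of_mem_replicate hq]
    exact ⟨Fact.out, hrN⟩
  rw [h2] at h3
  exact (smul_eq_zero.mp h3).resolve_left (pow_ne_zero _ (neg_ne_zero.mpr one_ne_zero))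

theorem Tr_eq_Fr_iff (f : PowerSeries k) : Tq k r f = Fr f ↔
    ∀ n : ℕ, PowerSeries.coeff (r * n) f = (PowerSeries.coeff n f) ^ r := by
  rw [PowerSeries.ext_iff]
  refine forall_congr' fun n => ?_
  rw [coeff_Tq, PowerSeries.coeff_map, frobenius_def, CharP.cast_eq_zero, zero_mul, ite_self,
    add_zero]

theorem mem_V0_iff (f : PowerSeries k) : f ∈ V0 N r k ↔ f ∈ EisPart N k ∧ Tq k r f = Fr f := by
  rw [mem_V0, Tr_eq_Fr_iff]

/-- [b2] -/
theorem Tq_mem_V0 (hN : N.Prime) {q : ℕ} (hq : q.Prime) (hqN : q ≠ N) {f : PowerSeries k}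
    (hf : f ∈ V0 N r k) : Tq k q f ∈ V0 N r k := by
  rw [mem_V0_iff] at hf ⊢
  have hqN' : ¬ q ∣ N := fun h => hqN ((Nat.prime_dvd_prime_iff_eq hq hN).mp h)
  exact ⟨Tq_mem_EisPart hq hqN' hf.1, by
    rw [Tq_comm Fact.out hq, hf.2, Tq_Fr]⟩

/-- [b1] -/
theorem exists_finset_V0 [IsAlgClosed k] (hN : N.Prime) (hrN : r ≠ N) :
    ∃ s : Finset (PowerSeries k), (∀ f ∈ s, f ∈ V0 N r k) ∧
      s.card = r ^ Module.finrank k (EisPart N k) := by
  classical
  have hr : r.Prime := Fact.out
  have hrN' : ¬ r ∣ N := fun h => hrN ((Nat.prime_dvd_prime_iff_eq hr hN).mp h)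
  obtain ⟨b, hb⟩ := H11.exists_basis_powerSeries r (EisPart N k) (Tq k r)
    (fun f hf => Tq_mem_EisPart hr hrN' hf) (fun f hf h0 => eq_zero_of_Tr_eq_zero hrN hf h0)
    (fun f hf => Fr_mem_EisPart hf)
  have hbV : ∀ i, (b i : PowerSeries k) ∈ V0 N r k := fun i => (mem_V0_iff _).mpr ⟨(b i).2, hb i⟩
  let c : ZMod r →+* k := ZMod.castHom (dvd_refl r) k
  let g : (Fin (Module.finrank k (EisPart N k)) → ZMod r) → PowerSeries k :=
    fun a => ∑ i, c (a i) • (b i : PowerSeries k)
  have hg : Function.Injective g := by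
    intro a a' h
    have h1 : ∑ i, c (a i) • b i = ∑ i, c (a' i) • b i := by
      apply Subtype.ext
      simpa only [Submodule.coe_sum, Submodule.coe_smul] using h
    have h2 := congrArg b.equivFun h1
    rw [← b.equivFun_symm_apply, ← b.equivFun_symm_apply, LinearEquiv.apply_symm_apply,
      LinearEquiv.apply_symm_apply] at h2
    ext i
    exact c.injective (congrFun h2 i)
  refine ⟨Finset.univ.image g, ?_, ?_⟩
  · intro f hf
    obtain ⟨a, -, rfl⟩ := Finset.mem_image.mp hf
    refine sum_mem fun i _ => ?_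
    obtain ⟨m, hm⟩ := ZMod.natCast_zmod_surjective (a i)
    rw [← hm, map_natCast, Nat.cast_smul_eq_nsmul]
    exact nsmul_mem (hbV i) m
  · rw [Finset.card_image_of_injective _ hg, Finset.card_univ, Fintype.card_fun, ZMod.card,
      Fintype.card_fin]

end Fermat.Agent.H9
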