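import Fermat.Agent.H12FMain
import Fermat.Agent.H9F1b
import Fermat.Agent.H98Log
import Fermat.Agent.H98Diff
import Fermat.Agent.H90Exist
import Fermat.Agent.H49HeckeBasic

/-!
# MZ-F1d: `T_cardMult` (helper12)
-/

set_option autoImplicit false

noncomputable section

namespace Fermat.Agent.H12F

open ModularCurve AlgebraicCurve Fermat.Agent.H15
open Fermat.Agent.H61 (theta)

local notation "Qb" => AlgebraicClosure ℚ

set_option synthInstance.maxHeartbeats 400000 in
/-- F1c: the divisor of a function with logarithmic derivative a cusp form is divisible by `r` -/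
def T_divH : Prop :=
  ∀ (N : ℕ) [NeZero N], N.Prime → ∀ r : ℕ, r.Prime → r ≠ N →
    ∀ A : ValuationSubring Qb, A.LiesOverPrime r →
    ∀ f ∈ S2 N (IsLocalRing.ResidueField A),
    ∀ h : modularFunctionFieldFullC (IsLocalRing.ResidueField A) N, h ≠ 0 →
      theta (h : LaurentSeries (IsLocalRing.ResidueField A)) =
        HahnSeries.ofPowerSeries ℤ _ f * h →
      ∀ v : Place (IsLocalRing.ResidueField A)
        (modularFunctionFieldFullC (IsLocalRing.ResidueField A) N), (r : ℤ) ∣ v.ord h

theorem coeff_zero_of_S2 {N : ℕ} {k : Type} [Field k] {f : PowerSeries k} (hf : f ∈ S2 N k)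
    [NeZero N] : PowerSeries.coeff 0 f = 0 := by
  rw [S2] at hf
  induction hf using Submodule.span_induction with
  | mem f hf =>
    obtain ⟨F, G, hG, rfl⟩ := hf
    have h1 := hG 0
    have h2 : ModularFormClass.qCoeff F 0 = 0 := H49.qCoeff_zero_eq_zero F
    rw [h2] at h1
    have h3 : PowerSeries.coeff 0 G = 0 := by exact_mod_cast h1.symm
    rw [PowerSeries.coeff_map, h3, map_zero]
  | zero => exact map_zero _
  | add f g _ _ hf hg => rw [map_add, hf, hg, add_zero]
  | smul a f _ hf => rw [map_smul, hf, smul_zero]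

section Final

attribute [local instance] heckeModuleBar

set_option synthInstance.maxHeartbeats 400000 in
set_option maxHeartbeats 1000000 in
theorem cardMult_at (hF1c : T_divH) (hdiv : T_divRed) {N : ℕ} [NeZero N] (hN : N.Prime) {r : ℕ}
    (hr : r.Prime) (hrN : r ≠ N) {t : ℕ} (hcard : CardW N r (JZero N) t)
    (hfin : ∀ (k : Type) [Field k] [CharP k r], Module.finrank k (EisPart N k) = t)
    {A : ValuationSubring Qb} (hA : A.LiesOverPrime r) (j : ℕ) :
    Nat.card (WSub N r (JZero N) j ⊓ KJ N A : AddSubgroup (JZero N)) ≤ r ^ (t * j) := by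
  have : Fact r.Prime := ⟨hr⟩
  have hch : CharP (IsLocalRing.ResidueField A) r := H60.charP_residue hr hA
  have hrN' : ¬ r ∣ N := fun h => hrN ((Nat.prime_dvd_prime_iff_eq hr hN).mp h)
  have hNk : ((N : ℕ) : IsLocalRing.ResidueField A) ≠ 0 := by
    rw [Ne, CharP.cast_eq_zero_iff (IsLocalRing.ResidueField A) r]
    exact hrN'
  have hlog : ∀ f ∈ V0 N r (IsLocalRing.ResidueField A),
      ∃ h : modularFunctionFieldFullC (IsLocalRing.ResidueField A) N, h ≠ 0 ∧
        theta (h : LaurentSeries (IsLocalRing.ResidueField A)) =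
          HahnSeries.ofPowerSeries ℤ _ f * h ∧
        ∀ v : Place (IsLocalRing.ResidueField A)
          (modularFunctionFieldFullC (IsLocalRing.ResidueField A) N), (r : ℤ) ∣ v.ord h := by
    intro f hf
    obtain ⟨g, hg, hfg⟩ := H98.exists_function_of_S2 (r := r) (IsLocalRing.ResidueField A) N hNk
      hf.1.1
    obtain ⟨h, hh, hh0, hθ⟩ := H98.exists_log_form r N hNk (coeff_zero_of_S2 hf.1.1) hf.2 hg hfg
    have hθ' : theta h = HahnSeries.ofPowerSeries ℤ _ f * h := by
      rw [← H98.thetaL_eq]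
      exact hθ
    refine ⟨⟨h, hh⟩, fun h0 => hh0 (congrArg Subtype.val h0), hθ', ?_⟩
    exact hF1c N hN r hr hrN A hA f hf.1.1 ⟨h, hh⟩ (fun h0 => hh0 (congrArg Subtype.val h0)) hθ'
  have H := relData N r A hN hrN hA (hdiv N r hr hrN' A hA r hr)
    (fun q hq hqN f hf => H9.Tq_mem_V0 hN hq hqN hf) hlog
  obtain ⟨s, hs, hsc⟩ := H9.exists_finset_V0 (N := N) (r := r)
    (k := IsLocalRing.ResidueField A) hN hrN
  rw [hfin] at hsc
  have hW : ∀ j, Finite (WSub N r (JZero N) j) := fun j =>
    Nat.finite_of_card_ne_zero (by rw [hcard j]; exact pow_ne_zero _ hr.ne_zero)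
  have h1 := H.card_mul_le (H90.finite_jzero N hr.ne_zero) s hs (KJ N A)
    (fun x => Iff.rfl) (hW 1)
  rw [hcard 1, hsc, mul_one, show r ^ (2 * t) = r ^ t * r ^ t by rw [two_mul, pow_add]] at h1
  have h2 := Nat.le_of_mul_le_mul_right h1 (pow_pos hr.pos t)
  have h3 := card_WSub_inf_le (KJ N A) hW h2 j
  rwa [← pow_mul] at h3

/-- **MZ-F1d** -/
theorem cardMult (hF1c : T_divH) (hdiv : T_divRed) (hcardW : T_cardW) : T_cardMult := by
  intro N _ hN r hr hrN t hcard
  obtain ⟨t', hcard', hfin⟩ := hcardW N hN r hr hrN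
  have htt : t = t' := by
    have h1 := hcard 1
    rw [hcard' 1] at h1
    have h2 := Nat.pow_right_injective hr.two_le h1
    omega
  subst htt
  refine ⟨1, fun A hA j => ?_⟩
  rw [one_mul]
  exact cardMult_at hF1c hdiv hN hr hrN hcard hfin hA j

end Final

end Fermat.Agent.H12F
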