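import Fermat.Agent.H12FRed
import Fermat.Agent.H60S37
import Fermat.Agent.H42Inputs

/-!
# MZ-F1d: Hecke operators and logarithmic derivatives (helper12)
-/

set_option autoImplicit false

noncomputable section

namespace Fermat.Agent.H12F

open ModularCurve AlgebraicCurve
open Fermat.Agent.H61 (theta coeff_theta theta_mul theta_one theta_pow)
open Fermat.Agent.H33 (IsKum cst normOp prodTwist)
open Fermat.Agent.H18 (IsInt)
open Fermat.Agent.H9 (Tmul TL)

local notation "Qb" => AlgebraicClosure ℚ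
local notation "FF" N => laurentBaseChange (AlgebraicClosure ℚ) (modularFunctionFieldFull N)

section Tmul

variable {R : Type*} [CommRing R] (q : ℕ) [NeZero q]

theorem tmul_mul [IsDomain R] {ζ : Rˣ} (hζ : IsPrimitiveRoot ζ q) (f g : LaurentSeries R) :
    Tmul q ζ (f * g) = Tmul q ζ f * Tmul q ζ g := by
  rw [Tmul, Tmul, Tmul, map_mul, H33.normOp_mul q hζ]
  ring

theorem coeffMap_tmul {S : Type*} [CommRing S] (g : R →+* S) (ζ : Rˣ) (f : LaurentSeries R) :
    coeffMap g (Tmul q ζ f) = Tmul q (Units.map (g : R →* S) ζ) (coeffMap g f) := by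
  rw [Tmul, Tmul, map_mul, coeffMap_qExpand, H33.coeffMap_normOp]

theorem tmul_ne_zero {k : Type*} [Field k] {ζ : kˣ} (hζ : IsPrimitiveRoot ζ q)
    {s : LaurentSeries k} (hs : s ≠ 0) : Tmul q ζ s ≠ 0 := by
  have h1 : ∀ u : kˣ, ∀ x : LaurentSeries k, x ≠ 0 → H60.twist u x ≠ 0 :=
    fun u x hx => (map_ne_zero _).mpr hx
  have h2 : prodTwist q ζ s ≠ 0 := by
    rw [prodTwist]
    exact Finset.prod_ne_zero_iff.mpr fun i _ => h1 _ _ hs
  rw [Tmul]
  refine mul_ne_zero ((map_ne_zero _).mpr hs) fun h0 => h2 ?_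
  rw [← H33.qExpand_normOp q hζ, h0, map_zero]

theorem tmul_cst {K : Type*} [Field K] {ζ : Kˣ} (hζ : IsPrimitiveRoot ζ q) (c : K) :
    Tmul q ζ (cst c) = cst (c ^ (q + 1)) := by
  have h : normOp q ζ (cst c) = (cst c) ^ q := by
    apply qExpand_injective q
    rw [H33.qExpand_normOp q hζ, map_pow, H33.qExpand_algebraMap, H33.prodTwist]
    rw [Finset.prod_congr rfl (fun i _ => H33.twist_cst _ c), Finset.prod_const,
      Finset.card_range]
  rw [Tmul, h, H33.qExpand_algebraMap, pow_succ', H33.cst_mul, H33.cst_pow]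

end Tmul

section RedHecke

variable {A : ValuationSubring Qb} {k : Type*} [Field k] [IsAlgClosed k] {π : A →+* k}
  {N q : ℕ} [NeZero N] [Fact q.Prime] [NeZero q]

/-- the multiplicative Hecke operator preserves integral modular functions -/
theorem IsInt.tmul (hπ : Function.Surjective π) (hN : (N : k) ≠ 0) (hqN : ¬ q ∣ N) {ζ : Aˣ}
    (hζ : IsPrimitiveRoot (Units.map (A.subtype : A →* Qb) ζ) q) {g : LaurentSeries A}
    (hg : IsInt π N g) : IsInt π N (Tmul q ζ g) := by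
  have h1 : coeffMap A.subtype (Tmul q ζ g) ∈ modularFunctionFieldFullC Qb N := by
    rw [coeffMap_tmul]
    exact H33.T_mem_fullC hqN hζ (by rw [← H42.laurentBaseChange_full Qb N]; exact hg.1)
  refine ⟨by rw [H42.laurentBaseChange_full Qb N]; exact h1, ?_⟩
  exact H33.coeffMap_mem_fullC_of_incl hπ hN _ h1

/-- reductions and the Hecke correspondence -/
theorem RedOf.hecke (hπ : Function.Surjective π) (hN : (N : k) ≠ 0) (hqN : ¬ q ∣ N) {ζ : Aˣ}
    (hζ : IsPrimitiveRoot (Units.map (A.subtype : A →* Qb) ζ) q)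
    (hζk : IsPrimitiveRoot (Units.map (π : A →* k) ζ) q)
    {u : FF N} {s : modularFunctionFieldFullC k N} (h : RedOf π N u s) :
    ∃ s' : modularFunctionFieldFullC k N,
      RedOf π N (H60.normAlong (heckeAlphaBar Qb N q) (heckeBetaBar Qb N q u)) s' ∧
      (s' : LaurentSeries k) = Tmul q (Units.map (π : A →* k) ζ) (s : LaurentSeries k) := by
  obtain ⟨c, g, h', hc, hg, hh, hg0, hh0, hu, hs⟩ := h
  have hg' := IsInt.tmul hπ hN hqN hζ hg
  have hh' := IsInt.tmul hπ hN hqN hζ hh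
  have hg0' : coeffMap π (Tmul q ζ g) ≠ 0 := by
    rw [coeffMap_tmul]; exact tmul_ne_zero q hζk hg0
  have hh0' : coeffMap π (Tmul q ζ h') ≠ 0 := by
    rw [coeffMap_tmul]; exact tmul_ne_zero q hζk hh0
  refine ⟨⟨coeffMap π (Tmul q ζ g), hg'.2⟩ / ⟨coeffMap π (Tmul q ζ h'), hh'.2⟩,
    ⟨c ^ (q + 1), Tmul q ζ g, Tmul q ζ h', pow_ne_zero _ hc, hg', hh', hg0', hh0', ?_, ?_⟩, ?_⟩
  · rw [H33.coe_heckeNorm hqN hζ u, coeffMap_tmul, coeffMap_tmul, ← tmul_cst q hζ,
      ← tmul_mul q hζ]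
    have h1 : qExpand Qb q (u : LaurentSeries Qb) *
        normOp q (Units.map (A.subtype : A →* Qb) ζ) (u : LaurentSeries Qb) =
        Tmul q (Units.map (A.subtype : A →* Qb) ζ) (u : LaurentSeries Qb) := rfl
    rw [h1, ← tmul_mul q hζ, hu]
  · have h2 : ((⟨coeffMap π (Tmul q ζ g), hg'.2⟩ / ⟨coeffMap π (Tmul q ζ h'), hh'.2⟩ :
        modularFunctionFieldFullC k N) : LaurentSeries k) =
        coeffMap π (Tmul q ζ g) / coeffMap π (Tmul q ζ h') := rfl
    rw [h2, div_mul_cancel₀ _ hh0']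
  · have h2 : ((⟨coeffMap π (Tmul q ζ g), hg'.2⟩ / ⟨coeffMap π (Tmul q ζ h'), hh'.2⟩ :
        modularFunctionFieldFullC k N) : LaurentSeries k) =
        coeffMap π (Tmul q ζ g) / coeffMap π (Tmul q ζ h') := rfl
    rw [h2, div_eq_iff hh0', coeffMap_tmul, coeffMap_tmul, ← tmul_mul q hζk, hs]

variable {r : ℕ} [Fact r.Prime] [CharP k r] [H94.FunField k (modularFunctionFieldFullC k N)]
  {ρ : Place Qb (FF N) → Place k (modularFunctionFieldFullC k N)}

/-- **Hecke operators and logarithmic derivatives** -/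
theorem Rel.hecke [H94.FunField Qb (FF N)] [HasPrincipalDivisors Qb (FF N)]
    [HasPrincipalDivisors Qb (FF (N * q))]
    (hπ : Function.Surjective π) (hN : (N : k) ≠ 0) (hqN : ¬ q ∣ N) {ζ : Aˣ}
    (hζ : IsPrimitiveRoot (Units.map (A.subtype : A →* Qb) ζ) q)
    (hζk : IsPrimitiveRoot (Units.map (π : A →* k) ζ) q) (hqk : (q : k) ≠ 0)
    (hr : IsPlaceReductionAlong A π N ρ) (hgen : PrincipalGeneratedByIntegral A π N)
    (hα : HeckeAlphaBarIntegral Qb N q) (hβ : HeckeBetaBarIntegral Qb N q)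
    (hFI : FundamentalIdentityAlong Qb (heckeBetaBar Qb N q) hβ)
    (hfin : FiniteAlong Qb (heckeAlphaBar Qb N q))
    (hNF : NormFormulaAlong Qb (heckeAlphaBar Qb N q) hfin)
    {x : Pic0 Qb (FF N)} (hx : r • x = 0) {f : LaurentSeries k}
    (hf : Rel r (reductionPic0Along ρ hr hgen x) f) :
    Rel r (reductionPic0Along ρ hr hgen (heckePic0Bar hα hβ hFI hfin hNF x)) (TL q f) := by
  obtain ⟨u, s, hu, hs, hsk⟩ := exists_redOf_isKum hr hgen hx
  have hθ := hf.theta_eq hsk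
  obtain ⟨s', hs', hs'e⟩ := hs.hecke hπ hN hqN hζ hζk
  have hu' : IsKum r (heckePic0Bar hα hβ hFI hfin hNF x)
      (H60.normAlong (heckeAlphaBar Qb N q) (heckeBetaBar Qb N q u)) :=
    IsKum.correspondence (heckeBetaBar Qb N q) (heckeAlphaBar Qb N q) hβ hα hFI hfin hNF hu
  refine ⟨s', hs'.isKum hr hgen hu', ?_⟩
  rw [hs'e]
  exact H9.theta_Tmul q hqk hζk hθ

omit [IsAlgClosed k] [NeZero N] [Fact r.Prime] [CharP k r]
  [H94.FunField k (modularFunctionFieldFullC k N)] in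
/-- Frobenius -/
theorem Rel.frob {y : JZeroC k N} {f : LaurentSeries k} (hf : Rel r y f) (τ : k ≃+* k) :
    Rel r (H60.coeffAut N τ • y : JZeroC k N) (coeffMap (τ : k →+* k) f) := by
  obtain ⟨s, hs, hθ⟩ := hf
  refine ⟨H60.coeffAut N τ • s, hs.smul _, ?_⟩
  rw [H60.coe_coeffAut_smul, ← map_mul, ← hθ]
  ext n
  simp

end RedHecke

end Fermat.Agent.H12F
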