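import Fermat.Agent.H12FHecke
import Fermat.Agent.H12FAbs
import Fermat.Agent.H17Unr
import Fermat.Agent.H67Comm

/-!
# MZ-F1d: ordinarity, assembly (helper12)
-/

set_option autoImplicit false

noncomputable section

namespace Fermat.Agent.H12F

open ModularCurve AlgebraicCurve Fermat.Agent.H15
open Fermat.Agent.H61 (theta coeff_theta theta_mul theta_one theta_pow)
open Fermat.Agent.H33 (IsKum cst normOp prodTwist)
open Fermat.Agent.H9 (Tmul TL)

local notation "Qb" => AlgebraicClosure ℚ
local notation "FF" N => laurentBaseChange (AlgebraicClosure ℚ) (modularFunctionFieldFull N)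

section Gen

theorem add_zsmul_inv_smul {K F : Type*} [Field K] [Field F] [Algebra K F] (s : SemilinearAut K F)
    (y : Pic0 K F) {n : ℤ} (h : n • y = 0) : s • y + n • (s⁻¹ • y) = s • y := by
  have h2 : s⁻¹ • (0 : Pic0 K F) = 0 := map_zero (DistribSMul.toAddMonoidHom (Pic0 K F) s⁻¹)
  rw [← SemilinearAut.smul_zsmul, h]
  exact (congrArg (fun z => s • y + z) h2).trans (add_zero _)

theorem nsmul_sub_eq_zero {G : Type*} [AddCommGroup G] {n : ℕ} {x y : G} (h : n • y = n • x) :
    n • (x - y) = 0 := by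
  rw [smul_sub, h, sub_self]

end Gen

section Places

/-- A primitive `q`-th root of unity in `A` with primitive reduction. -/
theorem exists_zeta' {A : ValuationSubring Qb} {q : ℕ} (hq : q.Prime)
    (hqA : ((q : ℕ) : IsLocalRing.ResidueField A) ≠ 0) :
    ∃ ζ : Aˣ, IsPrimitiveRoot (Units.map (A.subtype : A →* Qb) ζ) q ∧
      IsPrimitiveRoot (Units.map (IsLocalRing.residue A : A →* IsLocalRing.ResidueField A) ζ) q := by
  have : NeZero q := ⟨hq.ne_zero⟩
  have : NeZero ((q : ℕ) : Qb) := ⟨by exact_mod_cast hq.ne_zero⟩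
  obtain ⟨z, hz⟩ := HasEnoughRootsOfUnity.exists_primitiveRoot Qb q
  have hzmem : z ∈ A := by
    have hint : IsIntegral ℤ z := hz.isIntegral hq.pos
    exact Fermat.Agent.H54.integral_mem A ⟨z, hint⟩
  have hz1 : (⟨z, hzmem⟩ : A) ^ q = 1 := Subtype.ext (by
    show z ^ q = 1
    exact hz.pow_eq_one)
  let ζ : Aˣ := Units.ofPowEqOne ⟨z, hzmem⟩ q hz1 hq.ne_zero
  have hζval : ((Units.map (A.subtype : A →* Qb) ζ : Qbˣ) : Qb) = z := rfl
  have hζ1 : ζ ^ q = 1 := Units.ext hz1
  have hgeom : ∑ i ∈ Finset.range q, (⟨z, hzmem⟩ : A) ^ i = 0 := by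
    apply Subtype.ext
    have h1 := hz.geom_sum_eq_zero hq.one_lt
    have h2 : ((∑ i ∈ Finset.range q, (⟨z, hzmem⟩ : A) ^ i : A) : Qb) =
        ∑ i ∈ Finset.range q, z ^ i := by
      rw [← A.subtype_apply, map_sum]
      rfl
    rw [h2, h1]
    rfl
  refine ⟨ζ, ?_, ?_⟩
  · rw [← IsPrimitiveRoot.coe_units_iff, hζval]
    exact hz
  · set w : (IsLocalRing.ResidueField A)ˣ :=
      Units.map (IsLocalRing.residue A : A →* IsLocalRing.ResidueField A) ζ with hw
    have hw1 : w ^ q = 1 := by rw [hw, ← map_pow, hζ1, map_one]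
    have hw2 : w ≠ 1 := by
      intro h
      have h1 : IsLocalRing.residue A ⟨z, hzmem⟩ = 1 := congrArg Units.val h
      have h2 := congrArg (IsLocalRing.residue A) hgeom
      rw [map_sum, map_zero] at h2
      simp only [map_pow, h1, one_pow, Finset.sum_const, Finset.card_range, nsmul_eq_mul,
        mul_one] at h2
      exact hqA h2
    have : Fact q.Prime := ⟨hq⟩
    rw [IsPrimitiveRoot.iff_orderOf]
    exact orderOf_eq_prime hw1 hw2

end Places

section Main

attribute [local instance] heckeModuleBar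

variable (N : ℕ) [NeZero N] (r : ℕ) [Fact r.Prime] (A : ValuationSubring Qb)

/-- `f` is attached to the class `y` -/
def RF (y : JZeroC (IsLocalRing.ResidueField A) N)
    (f : PowerSeries (IsLocalRing.ResidueField A)) : Prop :=
  Rel r y (HahnSeries.ofPowerSeries ℤ _ f)

set_option synthInstance.maxHeartbeats 400000 in
set_option maxHeartbeats 4000000 in
/-- Hecke operators at `q ≠ r, N` -/
theorem rel_hecke {q : ℕ} (hq : q.Prime) (hqN : ¬ q ∣ N) (hrN : ¬ r ∣ N) (hqr : q ≠ r)
    (hA : A.LiesOverPrime r) [CharP (IsLocalRing.ResidueField A) r] {x : JZero N}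
    (hx : r • x = 0) {f : LaurentSeries (IsLocalRing.ResidueField A)}
    (hf : Rel r (reductionModL A N x) f) :
    haveI : NeZero q := ⟨hq.ne_zero⟩
    Rel r (reductionModL A N (heckeOperatorBar N ⟨q, hq⟩ x)) (TL q f) := by
  have hrp : r.Prime := Fact.out
  haveI : NeZero q := ⟨hq.ne_zero⟩
  haveI : Fact q.Prime := ⟨hq⟩
  have hqk : ((q : ℕ) : IsLocalRing.ResidueField A) ≠ 0 := by
    rw [Ne, CharP.cast_eq_zero_iff (IsLocalRing.ResidueField A) r]
    intro h
    exact hqr ((Nat.prime_dvd_prime_iff_eq hrp hq).mp h).symm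
  have hNk : ((N : ℕ) : IsLocalRing.ResidueField A) ≠ 0 := by
    rw [Ne, CharP.cast_eq_zero_iff (IsLocalRing.ResidueField A) r]
    exact hrN
  obtain ⟨ζ, hζ, hζk⟩ := exists_zeta' (A := A) hq hqk
  have hred := H17.reductionInputs N hrp hrN A hA
  have hr := hred.choose_spec.1
  have hgen := hred.choose_spec.2
  have hs : reductionModL A N = reductionPic0Along hred.choose hr hgen := reductionAlong_eq hred
  have := H42.funField_res hrp hA hrN
  obtain ⟨hα, hβ, hPD, hfin, hFI, hNF⟩ := (H42.heckeData N q hq hqN).inputs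
  have hop : heckeOperatorBar N ⟨q, hq⟩ x = heckePic0Bar hα hβ hFI hfin hNF x := by
    exact (heckeOperatorBar_apply N (⟨q, hq⟩ : Nat.Primes) x).trans
      (DFunLike.congr_fun (heckeOperatorAlong_eq hα hβ hFI hfin hNF) x)
  rw [hop, hs]
  rw [hs] at hf
  exact Rel.hecke IsLocalRing.residue_surjective hNk hqN hζ hζk hqk hr hgen hα hβ hFI hfin hNF hx hf

set_option synthInstance.maxHeartbeats 400000 in
set_option maxHeartbeats 4000000 in
/-- the Hecke operator at `r` -/
theorem rel_frob (hrN : ¬ r ∣ N)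
    (hA : A.LiesOverPrime r) [CharP (IsLocalRing.ResidueField A) r] {x : JZero N}
    (hx : r • x = 0) {f : LaurentSeries (IsLocalRing.ResidueField A)}
    (hf : Rel r (reductionModL A N x) f)
    {τ : IsLocalRing.ResidueField A ≃+* IsLocalRing.ResidueField A} (hτ : ∀ x, τ x = x ^ r) :
    Rel r (reductionModL A N (heckeOperatorBar N ⟨r, Fact.out⟩ x))
      (coeffMap (τ : IsLocalRing.ResidueField A →+* IsLocalRing.ResidueField A) f) := by
  have hrp : r.Prime := Fact.out
  haveI : NeZero r := ⟨hrp.ne_zero⟩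
  obtain ⟨ζ, hζ, hζ1⟩ := H60.exists_zeta hrp hA
  have hH := H42.heckeData N r hrp hrN
  obtain ⟨w, hw⟩ := hH.swap
  have hred := H17.reductionInputs N hrp hrN A hA
  have hr := hred.choose_spec.1
  have hgen := hred.choose_spec.2
  have hs : reductionModL A N = reductionPic0Along hred.choose hr hgen := reductionAlong_eq hred
  obtain ⟨hα, hβ, hPD, hfin, hFI, hNF⟩ := hH.inputs
  have hop : heckeOperatorBar N ⟨r, hrp⟩ x = heckePic0Bar hα hβ hFI hfin hNF x := by
    exact (heckeOperatorBar_apply N (⟨r, hrp⟩ : Nat.Primes) x).trans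
      (DFunLike.congr_fun (heckeOperatorAlong_eq hα hβ hFI hfin hNF) x)
  have h0 : (r : ℤ) • reductionPic0Along hred.choose hr hgen x = 0 := by
    rw [natCast_zsmul, ← map_nsmul, hx, map_zero]
  have e1 := H60.reductionPic0Along_heckePic0Bar hw hζ hζ1 hα hβ hFI hfin hNF hH.degree_le
    (H42.riemannBound _ _) (H42.deg_bar N) hr hgen hτ x
  have e2 := add_zsmul_inv_smul (H60.coeffAut N τ) _ h0
  rw [hop, hs, e1.trans e2]
  rw [hs] at hf
  have := H42.funField_res hrp hA hrN
  exact hf.frob τ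

omit [NeZero N] in
theorem ofPowerSeries_frob [CharP (IsLocalRing.ResidueField A) r]
    {f : PowerSeries (IsLocalRing.ResidueField A)} (hf : f ∈ V0 N r (IsLocalRing.ResidueField A))
    {τ : IsLocalRing.ResidueField A ≃+* IsLocalRing.ResidueField A} (hτ : ∀ x, τ x = x ^ r) :
    coeffMap (τ : IsLocalRing.ResidueField A →+* IsLocalRing.ResidueField A)
      (HahnSeries.ofPowerSeries ℤ _ f) = HahnSeries.ofPowerSeries ℤ _ (Tq _ r f) := by
  rw [coeffMap_ofPowerSeries]
  congr 1
  ext n
  have h1 : PowerSeries.coeff n (Tq (IsLocalRing.ResidueField A) r f) =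
      PowerSeries.coeff (r * n) f + if r ∣ n then
        (r : IsLocalRing.ResidueField A) * PowerSeries.coeff (n / r) f else 0 := by
    show PowerSeries.coeff n (PowerSeries.mk fun n => PowerSeries.coeff (r * n) f + if r ∣ n then
        (r : IsLocalRing.ResidueField A) * PowerSeries.coeff (n / r) f else 0) = _
    rw [PowerSeries.coeff_mk]
  rw [h1, PowerSeries.coeff_map, hf.2 n, CharP.cast_eq_zero]
  simp [hτ]

set_option synthInstance.maxHeartbeats 400000 in
set_option maxHeartbeats 4000000 in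
/-- lifting of the forms to torsion classes -/
theorem exists_lift_form (hrN : ¬ r ∣ N) (hA : A.LiesOverPrime r)
    (hdiv : ∀ x ∈ KJ N A, ∃ y ∈ KJ N A, r • y = x)
    {f : LaurentSeries (IsLocalRing.ResidueField A)}
    {h : modularFunctionFieldFullC (IsLocalRing.ResidueField A) N} (hh : h ≠ 0)
    (hθ : theta (h : LaurentSeries (IsLocalRing.ResidueField A)) = f * h)
    (hd : ∀ v : Place (IsLocalRing.ResidueField A)
      (modularFunctionFieldFullC (IsLocalRing.ResidueField A) N), (r : ℤ) ∣ v.ord h) :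
    ∃ x : JZero N, r • x = 0 ∧ Rel r (reductionModL A N x) f := by
  classical
  have hrp : r.Prime := Fact.out
  have hr0 : (r : ℤ) ≠ 0 := by exact_mod_cast hrp.ne_zero
  have := H42.funField_res hrp hA hrN
  have hPD : HasPrincipalDivisors (IsLocalRing.ResidueField A)
      (modularFunctionFieldFullC (IsLocalRing.ResidueField A) N) := H18.hasPrincipalDivisors _ _
  obtain ⟨D, hD, hD0⟩ := HasPrincipalDivisors.exists_divisor (K := IsLocalRing.ResidueField A) h hh
  -- the divisor `D / r`
  let E : Divisor (IsLocalRing.ResidueField A)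
    (modularFunctionFieldFullC (IsLocalRing.ResidueField A) N) :=
    D.mapRange (fun z : ℤ => z / r) (by simp)
  have hE : ∀ v, (r : ℤ) * E v = v.ord h := by
    intro v
    rw [← hD v]
    show (r : ℤ) * (D v / r) = D v
    exact Int.mul_ediv_cancel' (by rw [hD v]; exact hd v)
  have hrE : r • E = D := by
    ext v
    rw [Finsupp.smul_apply, nsmul_eq_mul, hE, hD]
  have hE0 : E ∈ Divisor.degZero (K := IsLocalRing.ResidueField A)
      (F := modularFunctionFieldFullC (IsLocalRing.ResidueField A) N) := by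
    rw [Divisor.mem_degZero]
    rw [← hrE, map_nsmul, nsmul_eq_mul] at hD0
    exact (mul_eq_zero.mp hD0).resolve_left hr0
  have hkum : IsKum r (Pic0.mk ⟨E, hE0⟩ : JZeroC (IsLocalRing.ResidueField A) N) h :=
    ⟨hh, ⟨E, hE0⟩, rfl, hE⟩
  have hred := H17.reductionInputs N hrp hrN A hA
  have hr := hred.choose_spec.1
  have hgen := hred.choose_spec.2
  have hs : reductionModL A N = reductionPic0Along hred.choose hr hgen := reductionAlong_eq hred
  obtain ⟨x₀, hx₀⟩ := surjective_pic IsLocalRing.residue_surjective hr hgen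
    (Pic0.mk ⟨E, hE0⟩ : JZeroC (IsLocalRing.ResidueField A) N)
  rw [← hs] at hx₀
  have hmem : r • x₀ ∈ KJ N A := by
    show reductionModL A N (r • x₀) = 0
    rw [map_nsmul, hx₀, hkum.nsmul_eq_zero]
  obtain ⟨y, hy, hyx⟩ := hdiv _ hmem
  have hy0 : reductionModL A N y = 0 := hy
  refine ⟨x₀ - y, nsmul_sub_eq_zero hyx, ?_⟩
  rw [map_sub, hy0, sub_zero, hx₀]
  exact ⟨h, hkum, hθ⟩

set_option synthInstance.maxHeartbeats 400000 in
set_option maxHeartbeats 4000000 in
theorem relData (hN : N.Prime) (hrN : r ≠ N) (hA : A.LiesOverPrime r)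
    [CharP (IsLocalRing.ResidueField A) r]
    (hdiv : ∀ x ∈ KJ N A, ∃ y ∈ KJ N A, r • y = x)
    (htq : ∀ q : ℕ, q.Prime → q ≠ N → ∀ f ∈ V0 N r (IsLocalRing.ResidueField A),
      Tq (IsLocalRing.ResidueField A) q f ∈ V0 N r (IsLocalRing.ResidueField A))
    (hlog : ∀ f ∈ V0 N r (IsLocalRing.ResidueField A),
      ∃ h : modularFunctionFieldFullC (IsLocalRing.ResidueField A) N, h ≠ 0 ∧
        theta (h : LaurentSeries (IsLocalRing.ResidueField A)) =
          HahnSeries.ofPowerSeries ℤ _ f * h ∧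
        ∀ v : Place (IsLocalRing.ResidueField A)
          (modularFunctionFieldFullC (IsLocalRing.ResidueField A) N), (r : ℤ) ∣ v.ord h) :
    RelData (J := JZero N) (reductionModL A N) (RF N r A) N r
      (V0 N r (IsLocalRing.ResidueField A)) := by
  have hrp : r.Prime := Fact.out
  have hrN' : ¬ r ∣ N := fun h => hrN ((Nat.prime_dvd_prime_iff_eq hrp hN).mp h)
  have hNk : ((N : ℕ) : IsLocalRing.ResidueField A) ≠ 0 := by
    rw [Ne, CharP.cast_eq_zero_iff (IsLocalRing.ResidueField A) r]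
    exact hrN'
  have := H42.funField_res hrp hA hrN'
  refine ⟨?_, ?_, ?_, ?_, htq, ?_, ?_, ?_⟩
  · show Rel r 0 (HahnSeries.ofPowerSeries ℤ _ 0)
    rw [map_zero]
    exact rel_zero
  · intro y y' f f' h h'
    show Rel r _ (HahnSeries.ofPowerSeries ℤ _ (f - f'))
    rw [map_sub]
    exact Rel.sub h h'
  · intro y f f' h h'
    exact HahnSeries.ofPowerSeries_injective (Rel.unique h h')
  · intro y h
    refine Rel.eq_zero hNk (y := y) (r := r) ?_
    have h' : Rel r y (HahnSeries.ofPowerSeries ℤ _ 0) := h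
    rwa [map_zero] at h'
  · intro q hqN x hx f hf h
    have hqN' : ¬ (q : ℕ) ∣ N := fun h => hqN ((Nat.prime_dvd_prime_iff_eq q.2 hN).mp h)
    have e1 : (heckeGen q • x : JZero N) = heckeOperatorBar N q x :=
      heckeModuleBar_heckeGen_smul (H67.heckeOperatorsCommuteBar N) q x
    rw [e1]
    obtain ⟨q, hq⟩ := q
    by_cases hqr : q = r
    · subst hqr
      obtain ⟨τ, hτ⟩ := H60.exists_frobAut hrp hA
      show Rel q _ (HahnSeries.ofPowerSeries ℤ _ (Tq _ q f))
      rw [← ofPowerSeries_frob N q A hf hτ]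
      exact rel_frob N q A hrN' hA hx h hτ
    · have : NeZero q := ⟨hq.ne_zero⟩
      show Rel r _ (HahnSeries.ofPowerSeries ℤ _ (Tq _ q f))
      rw [← H9.TL_eq_Tq]
      exact rel_hecke N r A hq hqN' hrN' hqr hA hx h
  · intro f hf
    exact hf.1.2
  · intro f hf
    obtain ⟨h, hh, hθ, hd⟩ := hlog f hf
    exact exists_lift_form N r A hrN' hA hdiv hh hθ hd

end Main

end Fermat.Agent.H12F
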