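import Fermat.Agent.H12FRel
import Fermat.Agent.H60Pic

/-!
# MZ-F1d: reductions of Kummer functions (helper12)
-/

set_option autoImplicit false

noncomputable section

namespace Fermat.Agent.H12F

open ModularCurve AlgebraicCurve
open Fermat.Agent.H61 (theta coeff_theta theta_mul theta_one theta_pow)
open Fermat.Agent.H33 (IsKum cst)
open Fermat.Agent.H18 (IsInt)

local notation "Qb" => AlgebraicClosure ℚ
local notation "FF" N => laurentBaseChange (AlgebraicClosure ℚ) (modularFunctionFieldFull N)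

section Red

variable {A : ValuationSubring Qb} {k : Type*} [Field k] (π : A →+* k) (N : ℕ)

/-- `s` is the reduction of a constant multiple of `u` -/
def RedOf (u : FF N) (s : modularFunctionFieldFullC k N) : Prop :=
  ∃ (c : Qb) (g h : LaurentSeries A), c ≠ 0 ∧ IsInt π N g ∧ IsInt π N h ∧
    coeffMap π g ≠ 0 ∧ coeffMap π h ≠ 0 ∧
    (u : LaurentSeries Qb) * coeffMap A.subtype h = cst c * coeffMap A.subtype g ∧
    (s : LaurentSeries k) * coeffMap π h = coeffMap π g

variable {π N} {ρ : Place Qb (FF N) → Place k (modularFunctionFieldFullC k N)}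

/-- existence of reductions -/
theorem exists_redOf [H94.FunField Qb (FF N)] [HasPrincipalDivisors Qb (FF N)]
    (hgen : PrincipalGeneratedByIntegral A π N) {u : FF N} (hu : u ≠ 0) :
    ∃ s, RedOf π N u s := by
  obtain ⟨D, hD, hD0⟩ := HasPrincipalDivisors.exists_divisor (K := Qb) u hu
  have hmem : D ∈ Divisor.principal (K := Qb) (F := FF N) := ⟨u, hu, hD⟩
  obtain ⟨D₁, ⟨g, hg, hgk, hg0, hD₁⟩, D₂, ⟨h, hh, hhk, hh0, hD₂⟩, hDD⟩ :=
    H18.exists_sub_of_mem_closure (hgen hmem)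
  have hgne : (⟨coeffMap A.subtype g, hg⟩ : FF N) ≠ 0 :=
    fun h0 => H18.ne_zero_of_coeffMap_ne_zero hg0 (congrArg Subtype.val h0)
  have hhne : (⟨coeffMap A.subtype h, hh⟩ : FF N) ≠ 0 :=
    fun h0 => H18.ne_zero_of_coeffMap_ne_zero hh0 (congrArg Subtype.val h0)
  have hord : ∀ v : Place Qb (FF N),
      v.ord (u * ⟨coeffMap A.subtype h, hh⟩ * (⟨coeffMap A.subtype g, hg⟩ : FF N)⁻¹) = 0 := by
    intro v
    rw [v.ord_mul (mul_ne_zero hu hhne) (inv_ne_zero hgne), v.ord_mul hu hhne, v.ord_inv,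
      ← hD, ← hD₁, ← hD₂, hDD]
    simp
  obtain ⟨c, hc⟩ := H18.exists_eq_algebraMap_of_forall_ord_eq_zero hord
  have hc0 : c ≠ 0 := by
    rintro rfl
    rw [map_zero] at hc
    exact mul_ne_zero (mul_ne_zero hu hhne) (inv_ne_zero hgne) hc
  refine ⟨⟨coeffMap π g, hgk⟩ / ⟨coeffMap π h, hhk⟩, c, g, h, hc0, ⟨hg, hgk⟩, ⟨hh, hhk⟩, hg0, hh0,
    ?_, ?_⟩
  · have h1 : u * ⟨coeffMap A.subtype h, hh⟩ =
        algebraMap Qb (FF N) c * ⟨coeffMap A.subtype g, hg⟩ := by
      rw [← hc, mul_assoc, inv_mul_cancel₀ hgne, mul_one]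
    exact congrArg Subtype.val h1
  · have h2 : ((⟨coeffMap π g, hgk⟩ / ⟨coeffMap π h, hhk⟩ : modularFunctionFieldFullC k N) :
        LaurentSeries k) = coeffMap π g / coeffMap π h := rfl
    rw [h2, div_mul_cancel₀ _ hh0]

theorem RedOf.ne_zero {u : FF N} {s : modularFunctionFieldFullC k N} (h : RedOf π N u s) :
    s ≠ 0 := by
  obtain ⟨c, g, h', -, -, -, hg0, -, -, hs⟩ := h
  rintro rfl
  apply hg0
  rw [← hs, ZeroMemClass.coe_zero, zero_mul]

theorem RedOf.ne_zero' {u : FF N} {s : modularFunctionFieldFullC k N} (h : RedOf π N u s) :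
    u ≠ 0 := by
  obtain ⟨c, g, h', hc, -, -, hg0, -, hu, -⟩ := h
  rintro rfl
  rw [ZeroMemClass.coe_zero, zero_mul] at hu
  exact mul_ne_zero (H33.cst_ne_zero hc) (H18.ne_zero_of_coeffMap_ne_zero hg0) hu.symm

/-- the divisor of the reduction -/
theorem RedOf.ord_eq [HasPrincipalDivisors Qb (FF N)] (hr : IsPlaceReductionAlong A π N ρ)
    {u : FF N} {s : modularFunctionFieldFullC k N}
    (h : RedOf π N u s) {D : Divisor Qb (FF N)} (hD : ∀ v, D v = v.ord u)
    (Q : Place k (modularFunctionFieldFullC k N)) : Finsupp.mapDomain ρ D Q = Q.ord s := by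
  have hs0 := h.ne_zero
  have hu0 := h.ne_zero'
  obtain ⟨c, g, h', hc, hg, hh, hg0, hh0, hu, hs⟩ := h
  have hgne : (⟨coeffMap A.subtype g, hg.1⟩ : FF N) ≠ 0 :=
    fun h0 => H18.ne_zero_of_coeffMap_ne_zero hg0 (congrArg Subtype.val h0)
  have hhne : (⟨coeffMap A.subtype h', hh.1⟩ : FF N) ≠ 0 :=
    fun h0 => H18.ne_zero_of_coeffMap_ne_zero hh0 (congrArg Subtype.val h0)
  have hgne' : (⟨coeffMap π g, hg.2⟩ : modularFunctionFieldFullC k N) ≠ 0 :=
    fun h0 => hg0 (congrArg Subtype.val h0)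
  have hhne' : (⟨coeffMap π h', hh.2⟩ : modularFunctionFieldFullC k N) ≠ 0 :=
    fun h0 => hh0 (congrArg Subtype.val h0)
  obtain ⟨Dg, hDg, -⟩ := HasPrincipalDivisors.exists_divisor (K := Qb) _ hgne
  obtain ⟨Dh, hDh, -⟩ := HasPrincipalDivisors.exists_divisor (K := Qb) _ hhne
  have e1 : D + Dh = Dg := by
    ext v
    rw [Finsupp.add_apply, hD, hDh, hDg, ← v.ord_mul hu0 hhne]
    have h1 : u * ⟨coeffMap A.subtype h', hh.1⟩ =
        algebraMap Qb (FF N) c * ⟨coeffMap A.subtype g, hg.1⟩ := Subtype.ext hu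
    rw [h1, v.ord_mul ((map_ne_zero _).mpr hc) hgne, IsKum.ord_algebraMap, zero_add]
  have e2 := hr.2 g hg.1 hg.2 hg0 Dg hDg Q
  have e3 := hr.2 h' hh.1 hh.2 hh0 Dh hDh Q
  have e4 : s * ⟨coeffMap π h', hh.2⟩ = ⟨coeffMap π g, hg.2⟩ := Subtype.ext hs
  rw [← e1, Finsupp.mapDomain_add, Finsupp.add_apply, e3, ← e4, Q.ord_mul hs0 hhne'] at e2
  linarith

/-- Kummer functions reduce to Kummer functions -/
theorem RedOf.isKum [HasPrincipalDivisors Qb (FF N)] (hr : IsPlaceReductionAlong A π N ρ)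
    (hgen : PrincipalGeneratedByIntegral A π N)
    {u : FF N} {s : modularFunctionFieldFullC k N} (h : RedOf π N u s) {n : ℕ}
    {x : Pic0 Qb (FF N)} (hx : IsKum n x u) :
    IsKum n (reductionPic0Along ρ hr hgen x) s := by
  obtain ⟨hu0, D, rfl, hD⟩ := hx
  refine ⟨h.ne_zero, reductionDegZeroAlong ρ hr.1 D, (reductionPic0Along_mk ρ hr hgen D).symm,
    fun Q => ?_⟩
  rw [← h.ord_eq hr (D := n • (D : Divisor Qb (FF N))) (fun v => by rw [← hD v]; simp) Q,
    coe_reductionDegZeroAlong]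
  have h1 : Finsupp.mapDomain ρ (n • (D : Divisor Qb (FF N))) =
      n • Finsupp.mapDomain ρ (D : Divisor Qb (FF N)) :=
    map_nsmul (Finsupp.mapDomain.addMonoidHom ρ) n (D : Divisor Qb (FF N))
  rw [h1]
  simp

/-- a torsion class and its reduction have compatible Kummer functions -/
theorem exists_redOf_isKum [H94.FunField Qb (FF N)] [HasPrincipalDivisors Qb (FF N)]
    (hr : IsPlaceReductionAlong A π N ρ) (hgen : PrincipalGeneratedByIntegral A π N)
    {n : ℕ} {x : Pic0 Qb (FF N)} (hx : n • x = 0) :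
    ∃ u s, IsKum n x u ∧ RedOf π N u s ∧ IsKum n (reductionPic0Along ρ hr hgen x) s := by
  obtain ⟨u, hu⟩ := IsKum.exists_of_nsmul hx
  obtain ⟨s, hs⟩ := exists_redOf hgen hu.ne_zero
  exact ⟨u, s, hu, hs, hs.isKum hr hgen hu⟩

end Red

section Surj

variable {A : ValuationSubring Qb} {k : Type*} [Field k] {π : A →+* k} {N : ℕ}
  {ρ : Place Qb (FF N) → Place k (modularFunctionFieldFullC k N)}

/-- surjectivity of the reduction of places -/
theorem surjective_place [HasPrincipalDivisors Qb (FF N)] (hπ : Function.Surjective π)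
    (hr : IsPlaceReductionAlong A π N ρ) : Function.Surjective ρ := by
  classical
  intro Q
  obtain ⟨ϖ, hϖ⟩ := IsDiscreteValuationRing.exists_irreducible Q.toValuationSubring
  have hϖ0 : (ϖ : modularFunctionFieldFullC k N) ≠ 0 := fun h => hϖ.ne_zero (Subtype.ext h)
  have hordϖ : Q.ord (ϖ : modularFunctionFieldFullC k N) ≠ 0 := by
    intro h
    have h1 : Q.adicValuation (ϖ : modularFunctionFieldFullC k N) = 1 := by
      rw [Q.adicValuation_eq_exp_neg_ord hϖ0, h]; simp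
    exact hϖ.not_isUnit ((Q.adicValuation_coe_eq_one_iff ϖ).mp h1)
  obtain ⟨a, b, ha, hb, hb0, hab⟩ := H18.exists_isInt_div (N := N) hπ
    (g := ((ϖ : modularFunctionFieldFullC k N) : LaurentSeries k)) (SetLike.coe_mem _)
  have ha0 : coeffMap π a ≠ 0 := by
    rw [← hab]
    exact mul_ne_zero (fun h => hϖ0 (Subtype.ext h)) hb0
  have key : ∀ z : LaurentSeries A, ∀ hz : IsInt π N z, coeffMap π z ≠ 0 →
      Q.ord (⟨coeffMap π z, hz.2⟩ : modularFunctionFieldFullC k N) ≠ 0 → ∃ P, ρ P = Q := by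
    intro z hz hz0 hzQ
    have hzne : (⟨coeffMap A.subtype z, hz.1⟩ : FF N) ≠ 0 :=
      fun h0 => H18.ne_zero_of_coeffMap_ne_zero hz0 (congrArg Subtype.val h0)
    obtain ⟨Δ, hΔ, -⟩ := HasPrincipalDivisors.exists_divisor (K := Qb) _ hzne
    rw [← hr.2 z hz.1 hz.2 hz0 Δ hΔ Q] at hzQ
    by_contra hcon
    push Not at hcon
    apply hzQ
    rw [Finsupp.mapDomain, Finsupp.sum_apply, Finsupp.sum]
    exact Finset.sum_eq_zero fun P _ => Finsupp.single_eq_of_ne (fun h => hcon P h.symm)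
  have h1 : Q.ord (⟨coeffMap π a, ha.2⟩ : modularFunctionFieldFullC k N) ≠ 0 ∨
      Q.ord (⟨coeffMap π b, hb.2⟩ : modularFunctionFieldFullC k N) ≠ 0 := by
    by_contra hcon
    push Not at hcon
    have hb' : (⟨coeffMap π b, hb.2⟩ : modularFunctionFieldFullC k N) ≠ 0 :=
      fun h => hb0 (congrArg Subtype.val h)
    have e : (ϖ : modularFunctionFieldFullC k N) * ⟨coeffMap π b, hb.2⟩ =
        ⟨coeffMap π a, ha.2⟩ := Subtype.ext hab
    have := congrArg Q.ord e
    rw [Q.ord_mul hϖ0 hb', hcon.1, hcon.2] at this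
    omega
  rcases h1 with h1 | h1
  · exact key a ha ha0 h1
  · exact key b hb hb0 h1

/-- surjectivity of the reduction of divisor classes -/
theorem surjective_pic [HasPrincipalDivisors Qb (FF N)] (hπ : Function.Surjective π)
    (hr : IsPlaceReductionAlong A π N ρ) (hgen : PrincipalGeneratedByIntegral A π N) :
    Function.Surjective (reductionPic0Along ρ hr hgen) := by
  intro y
  obtain ⟨E, rfl⟩ := Pic0.mk_surjective y
  have hsurj := surjective_place hπ hr
  obtain ⟨D, hD⟩ := Finsupp.mapDomain_surjective (M := ℤ) hsurj (E : Divisor k _)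
  have hD0 : D ∈ Divisor.degZero (K := Qb) (F := FF N) := by
    rw [Divisor.mem_degZero, ← degree_mapDomain_of_deg_eq hr.1, hD]
    exact E.2
  refine ⟨Pic0.mk ⟨D, hD0⟩, ?_⟩
  rw [reductionPic0Along_mk]
  congr 1
  exact Subtype.ext hD

end Surj

end Fermat.Agent.H12F
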