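import Mathlib
import Fermat.Prelude.Def_ModularCurve_ReductionModL
import Fermat.Prelude.Def_EllipticCurve_FrobeniusTrace
import Fermat.Agent.H18Div

/-!
# S18 from Kummer injectivity (helper18)

Glue: from the place reduction data `ReductionInputsModL A N` and the Kummer injectivity
statement (`KI`) one gets injectivity of the reduction map on torsion prime to `ℓ`.
-/

set_option autoImplicit false

noncomputable section

open HahnSeries IntermediateField AlgebraicCurve ModularCurve

namespace Fermat.Agent.H18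

section Lift

variable {L : Type*} [Field L] [Algebra ℚ L] {A : ValuationSubring L}
variable {k : Type*} [Field k] {π : A →+* k} {N : ℕ}

/-- `y` is an integral function with reduction in the function field of the special fibre. -/
def IsInt (π : A →+* k) (N : ℕ) (y : LaurentSeries A) : Prop :=
  coeffMap A.subtype y ∈ laurentBaseChange L (modularFunctionFieldFull N) ∧
    coeffMap π y ∈ modularFunctionFieldFullC k N

theorem IsInt.mul {y z : LaurentSeries A} (hy : IsInt π N y) (hz : IsInt π N z) :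
    IsInt π N (y * z) :=
  ⟨by rw [map_mul]; exact mul_mem hy.1 hz.1, by rw [map_mul]; exact mul_mem hy.2 hz.2⟩

theorem IsInt.add {y z : LaurentSeries A} (hy : IsInt π N y) (hz : IsInt π N z) :
    IsInt π N (y + z) :=
  ⟨by rw [map_add]; exact add_mem hy.1 hz.1, by rw [map_add]; exact add_mem hy.2 hz.2⟩

theorem IsInt.neg {y : LaurentSeries A} (hy : IsInt π N y) : IsInt π N (-y) :=
  ⟨by rw [map_neg]; exact neg_mem hy.1, by rw [map_neg]; exact neg_mem hy.2⟩

theorem IsInt.one : IsInt π N (1 : LaurentSeries A) :=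
  ⟨by rw [map_one]; exact one_mem _, by rw [map_one]; exact one_mem _⟩

theorem IsInt.pow {y : LaurentSeries A} (hy : IsInt π N y) (n : ℕ) : IsInt π N (y ^ n) :=
  ⟨by rw [map_pow]; exact pow_mem hy.1 n, by rw [map_pow]; exact pow_mem hy.2 n⟩

theorem IsInt.single (a : A) : IsInt π N (HahnSeries.single (0 : ℤ) a) := by
  constructor
  · rw [coeffMap_single, ← algebraMap_laurentSeries_eq_single]
    exact IntermediateField.algebraMap_mem _ _
  · rw [coeffMap_single, ← algebraMap_laurentSeries_eq_single]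
    exact IntermediateField.algebraMap_mem _ _

theorem coeffEmb_jqModC (L : Type*) [Field L] [Algebra ℚ L] : coeffEmb L jq = jqModC L := by
  have : jq = jqModC ℚ := rfl
  rw [this, coeffEmb, coeffMap_jqModC]

theorem IsInt.qExpand_jq {d : ℕ} [NeZero d] (hd : d ∣ N) :
    IsInt π N (qExpand A d (jqModC A)) := by
  constructor
  · rw [coeffMap_qExpand, coeffMap_jqModC, ← coeffEmb_jqModC, coeffEmb, ← coeffMap_qExpand]
    exact coeffEmb_mem_laurentBaseChange L (jqd_mem_full N hd)
  · rw [coeffMap_qExpand, coeffMap_jqModC]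
    exact jqModCd_mem_full k N hd

/-- Every function on the special fibre is a quotient of reductions of integral functions. -/
theorem exists_isInt_div (hπ : Function.Surjective π) {g : LaurentSeries k}
    (hg : g ∈ modularFunctionFieldFullC k N) :
    ∃ a b : LaurentSeries A, IsInt π N a ∧ IsInt π N b ∧ coeffMap π b ≠ 0 ∧
      g * coeffMap π b = coeffMap π a := by
  have h1 : g ∈ Subfield.closure (Set.range (algebraMap k (LaurentSeries k)) ∪
      divisorExpansionsC k N) := hg
  clear hg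
  induction h1 using Subfield.closure_induction with
  | mem y hy =>
    rcases hy with ⟨c, rfl⟩ | ⟨d, hne, hdvd, rfl⟩
    · obtain ⟨a, rfl⟩ := hπ c
      refine ⟨HahnSeries.single (0 : ℤ) a, 1, IsInt.single a, IsInt.one, ?_, ?_⟩
      · rw [map_one]; exact one_ne_zero
      · rw [map_one, mul_one, coeffMap_single, algebraMap_laurentSeries_eq_single]
    · refine ⟨qExpand A d (jqModC A), 1, IsInt.qExpand_jq hdvd, IsInt.one, ?_, ?_⟩
      · rw [map_one]; exact one_ne_zero
      · rw [map_one, mul_one, coeffMap_qExpand, coeffMap_jqModC]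
  | one => exact ⟨1, 1, IsInt.one, IsInt.one, by rw [map_one]; exact one_ne_zero, by simp⟩
  | add x y _ _ hx hy =>
    obtain ⟨a, b, ha, hb, hb0, hab⟩ := hx
    obtain ⟨c, d, hc, hd, hd0, hcd⟩ := hy
    refine ⟨a * d + c * b, b * d, (ha.mul hd).add (hc.mul hb), hb.mul hd, ?_, ?_⟩
    · rw [map_mul]; exact mul_ne_zero hb0 hd0
    · rw [map_mul, map_add, map_mul, map_mul, ← hab, ← hcd]; ring
  | neg x _ hx =>
    obtain ⟨a, b, ha, hb, hb0, hab⟩ := hx
    exact ⟨-a, b, ha.neg, hb, hb0, by rw [map_neg, ← hab]; ring⟩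
  | inv x _ hx =>
    obtain ⟨a, b, ha, hb, hb0, hab⟩ := hx
    rcases eq_or_ne x 0 with rfl | hx0
    · rw [inv_zero]
      exact ⟨0, 1, ⟨by rw [map_zero]; exact zero_mem _, by rw [map_zero]; exact zero_mem _⟩,
        IsInt.one, by rw [map_one]; exact one_ne_zero, by simp⟩
    · refine ⟨b, a, hb, ha, ?_, ?_⟩
      · rw [← hab]; exact mul_ne_zero hx0 hb0
      · rw [← hab]; field_simp
  | mul x y _ _ hx hy =>
    obtain ⟨a, b, ha, hb, hb0, hab⟩ := hx
    obtain ⟨c, d, hc, hd, hd0, hcd⟩ := hy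
    refine ⟨a * c, b * d, ha.mul hc, hb.mul hd, ?_, ?_⟩
    · rw [map_mul]; exact mul_ne_zero hb0 hd0
    · rw [map_mul, map_mul, ← hab, ← hcd]; ring

end Lift

section Closure

variable {L : Type*} [Field L] [Algebra ℚ L] {A : ValuationSubring L}
variable {k : Type*} [Field k] {π : A →+* k} {N : ℕ}

omit [Algebra ℚ L] in
theorem ne_zero_of_coeffMap_ne_zero {y : LaurentSeries A} (h : coeffMap π y ≠ 0) :
    coeffMap A.subtype y ≠ 0 := by
  intro h0
  apply h
  have : y = 0 := by
    ext n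
    have := congrArg (fun z => HahnSeries.coeff z n) h0
    simpa using this
  rw [this, map_zero]

/-- An element of the group generated by divisors of integral functions is a difference of two
such divisors. -/
theorem exists_sub_of_mem_closure
    {D : Divisor L (laurentBaseChange L (modularFunctionFieldFull N))}
    (hD : D ∈ AddSubgroup.closure (integralPrincipalDivisors A π N)) :
    ∃ D₁ ∈ integralPrincipalDivisors A π N, ∃ D₂ ∈ integralPrincipalDivisors A π N,
      D = D₁ - D₂ := by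
  have hadd : ∀ E₁ ∈ integralPrincipalDivisors A π N, ∀ E₂ ∈ integralPrincipalDivisors A π N,
      E₁ + E₂ ∈ integralPrincipalDivisors A π N := by
    rintro E₁ ⟨y, hy, hyk, hne, hE₁⟩ E₂ ⟨z, hz, hzk, hne', hE₂⟩
    refine ⟨y * z, by rw [map_mul]; exact mul_mem hy hz, by rw [map_mul]; exact mul_mem hyk hzk,
      by rw [map_mul]; exact mul_ne_zero hne hne', fun P => ?_⟩
    rw [Finsupp.add_apply, hE₁, hE₂, ← P.ord_mul]
    · congr 1
      exact Subtype.ext (map_mul _ _ _).symm
    · intro h0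
      exact ne_zero_of_coeffMap_ne_zero hne (congrArg Subtype.val h0)
    · intro h0
      exact ne_zero_of_coeffMap_ne_zero hne' (congrArg Subtype.val h0)
  have hzero : (0 : Divisor L (laurentBaseChange L (modularFunctionFieldFull N))) ∈
      integralPrincipalDivisors A π N := by
    refine ⟨1, by rw [map_one]; exact one_mem _, by rw [map_one]; exact one_mem _,
      by rw [map_one]; exact one_ne_zero, fun P => ?_⟩
    have : (⟨coeffMap A.subtype 1, by rw [map_one]; exact one_mem _⟩ :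
        laurentBaseChange L (modularFunctionFieldFull N)) = 1 := Subtype.ext (map_one _)
    rw [this, P.ord_one]
    rfl
  induction hD using AddSubgroup.closure_induction with
  | mem E hE => exact ⟨E, hE, 0, hzero, (sub_zero E).symm⟩
  | zero => exact ⟨0, hzero, 0, hzero, (sub_zero 0).symm⟩
  | add E E' _ _ hE hE' =>
    obtain ⟨E₁, h₁, E₂, h₂, rfl⟩ := hE
    obtain ⟨E₁', h₁', E₂', h₂', rfl⟩ := hE'
    exact ⟨E₁ + E₁', hadd _ h₁ _ h₁', E₂ + E₂', hadd _ h₂ _ h₂', by abel⟩
  | neg E _ hE =>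
    obtain ⟨E₁, h₁, E₂, h₂, rfl⟩ := hE
    exact ⟨E₂, h₂, E₁, h₁, by abel⟩

end Closure

section Glue

set_option synthInstance.maxHeartbeats 400000

/-- Kummer injectivity at `A` for exponent `m`. -/
def KummerInjective (A : ValuationSubring (AlgebraicClosure ℚ)) (N m : ℕ) : Prop :=
  ∀ w : modularFunctionFieldBar N,
    (∀ v : Place (AlgebraicClosure ℚ) (modularFunctionFieldBar N), (m : ℤ) ∣ v.ord w) →
    ∀ P Q : LaurentSeries A, coeffMap A.subtype P ∈ modularFunctionFieldBar N →
      coeffMap A.subtype Q ∈ modularFunctionFieldBar N →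
      coeffMap (IsLocalRing.residue A) Q ≠ 0 →
      coeffMap (IsLocalRing.residue A) P = coeffMap (IsLocalRing.residue A) Q →
      (w : LaurentSeries (AlgebraicClosure ℚ)) * coeffMap A.subtype Q = coeffMap A.subtype P →
      ∃ h : modularFunctionFieldBar N, w = h ^ m

set_option maxHeartbeats 4000000 in
theorem eq_zero_of_kummerInjective (N : ℕ) [NeZero N]
    (A : ValuationSubring (AlgebraicClosure ℚ))
    (h : ReductionInputsModL A N) (m : ℕ) (hm0 : m ≠ 0)
    (hk : IsAlgClosed (IsLocalRing.ResidueField A))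
    (hFk : H94.FunField (IsLocalRing.ResidueField A)
      (modularFunctionFieldFullC (IsLocalRing.ResidueField A) N))
    (hKI : KummerInjective A N m) (z : JZero N)
    (hmz : m • z = 0) (hz : reductionModL A N z = 0) : z = 0 := by
  classical
  obtain ⟨D, rfl⟩ := Pic0.mk_surjective z
  set r := placeReductionModL h with hr
  have hspec : IsPlaceReductionModL A N r := isPlaceReductionModL_placeReductionModL h
  have hgen : PrincipalGeneratedByIntegral A (IsLocalRing.residue A) N := h.choose_spec.2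
  -- `m D` is principal
  have hmD : m • (D : Divisor (AlgebraicClosure ℚ) (modularFunctionFieldBar N)) ∈
      Divisor.principal (K := AlgebraicClosure ℚ) (F := modularFunctionFieldBar N) := by
    have h1 : (Pic0.mk (m • D) : JZero N) = 0 := hmz
    have h2 := (QuotientAddGroup.eq_zero_iff (m • D)).mp h1
    rw [AddSubgroup.mem_addSubgroupOf] at h2
    exact h2
  -- the reduction of `D` is principal
  have hrD : Finsupp.mapDomain r (D : Divisor (AlgebraicClosure ℚ) (modularFunctionFieldBar N)) ∈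
      Divisor.principal (K := IsLocalRing.ResidueField A)
        (F := modularFunctionFieldFullC (IsLocalRing.ResidueField A) N) := by
    rw [reductionModL_mk h] at hz
    have h2 := (QuotientAddGroup.eq_zero_iff _).mp hz
    rw [AddSubgroup.mem_addSubgroupOf] at h2
    exact h2
  obtain ⟨g, hg0, hg⟩ := hrD
  -- integral presentation of `m D`
  obtain ⟨D₁, ⟨y₁, hy₁, hyk₁, hne₁, hD₁⟩, D₂, ⟨y₂, hy₂, hyk₂, hne₂, hD₂⟩, hD₁₂⟩ :=
    exists_sub_of_mem_closure (hgen hmD)
  have hred₁ := hspec.2 y₁ hy₁ hyk₁ hne₁ D₁ hD₁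
  have hred₂ := hspec.2 y₂ hy₂ hyk₂ hne₂ D₂ hD₂
  -- compare `ybar₁ / ybar₂` with `g ^ m`
  set yb₁ : modularFunctionFieldFullC (IsLocalRing.ResidueField A) N :=
    ⟨coeffMap (IsLocalRing.residue A) y₁, hyk₁⟩ with hyb₁
  set yb₂ : modularFunctionFieldFullC (IsLocalRing.ResidueField A) N :=
    ⟨coeffMap (IsLocalRing.residue A) y₂, hyk₂⟩ with hyb₂
  have hyb₁0 : yb₁ ≠ 0 := fun h0 => hne₁ (congrArg Subtype.val h0)
  have hyb₂0 : yb₂ ≠ 0 := fun h0 => hne₂ (congrArg Subtype.val h0)
  have hord : ∀ Q : Place (IsLocalRing.ResidueField A)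
      (modularFunctionFieldFullC (IsLocalRing.ResidueField A) N),
      Q.ord (yb₁ * yb₂⁻¹ * (g ^ m)⁻¹) = 0 := by
    intro Q
    have e1 : (m : ℤ) * Q.ord g = Q.ord yb₁ - Q.ord yb₂ := by
      rw [← hred₁ Q, ← hred₂ Q, ← hg Q, ← Finsupp.sub_apply, ← Finsupp.mapDomain_sub, ← hD₁₂]
      rw [Finsupp.mapDomain_smul, Finsupp.smul_apply, nsmul_eq_mul]
    rw [Q.ord_mul (mul_ne_zero hyb₁0 (inv_ne_zero hyb₂0)) (inv_ne_zero (pow_ne_zero m hg0)),
      Q.ord_mul hyb₁0 (inv_ne_zero hyb₂0), Q.ord_inv, Q.ord_inv, ← zpow_natCast, Q.ord_zpow]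
    omega
  obtain ⟨c, hc⟩ := exists_eq_algebraMap_of_forall_ord_eq_zero hord
  obtain ⟨c₁, hc₁⟩ := IsAlgClosed.exists_pow_nat_eq c (Nat.pos_of_ne_zero hm0)
  -- adjust `g`
  set g₁ : modularFunctionFieldFullC (IsLocalRing.ResidueField A) N :=
    algebraMap _ _ c₁ * g with hg₁
  have hyg : yb₁ = g₁ ^ m * yb₂ := by
    have : yb₁ * yb₂⁻¹ * (g ^ m)⁻¹ = (algebraMap _ _ c₁) ^ m := by
      rw [hc, ← hc₁, map_pow]
    rw [hg₁, mul_pow, ← this]
    field_simp
  have hc₁0 : c₁ ≠ 0 := by
    rintro rfl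
    apply hyb₁0
    rw [hyg, hg₁, map_zero, zero_mul, zero_pow hm0, zero_mul]
  have hg₁0 : g₁ ≠ 0 :=
    mul_ne_zero ((map_ne_zero_iff _ (algebraMap _ _).injective).mpr hc₁0) hg0
  -- lift `g₁`
  obtain ⟨a, b, ha, hb, hb0, hab⟩ :=
    exists_isInt_div (A := A) (N := N) IsLocalRing.residue_surjective g₁.2
  have ha0 : coeffMap (IsLocalRing.residue A) a ≠ 0 := by
    rw [← hab]
    exact mul_ne_zero (fun h0 => hg₁0 (Subtype.ext h0)) hb0
  -- elements of the generic function field
  set Y₁ : modularFunctionFieldBar N := ⟨coeffMap A.subtype y₁, hy₁⟩ with hY₁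
  set Y₂ : modularFunctionFieldBar N := ⟨coeffMap A.subtype y₂, hy₂⟩ with hY₂
  set a' : modularFunctionFieldBar N := ⟨coeffMap A.subtype a, ha.1⟩ with ha'
  set b' : modularFunctionFieldBar N := ⟨coeffMap A.subtype b, hb.1⟩ with hb'
  have hY₁0 : Y₁ ≠ 0 := fun h0 => ne_zero_of_coeffMap_ne_zero hne₁ (congrArg Subtype.val h0)
  have hY₂0 : Y₂ ≠ 0 := fun h0 => ne_zero_of_coeffMap_ne_zero hne₂ (congrArg Subtype.val h0)
  have ha'0 : a' ≠ 0 := fun h0 => ne_zero_of_coeffMap_ne_zero ha0 (congrArg Subtype.val h0)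
  have hb'0 : b' ≠ 0 := fun h0 => ne_zero_of_coeffMap_ne_zero hb0 (congrArg Subtype.val h0)
  set w : modularFunctionFieldBar N := Y₁ * Y₂⁻¹ * ((a' * b'⁻¹) ^ m)⁻¹ with hw
  have hw0 : w ≠ 0 := mul_ne_zero (mul_ne_zero hY₁0 (inv_ne_zero hY₂0))
    (inv_ne_zero (pow_ne_zero _ (mul_ne_zero ha'0 (inv_ne_zero hb'0))))
  have hab0 : a' * b'⁻¹ ≠ 0 := mul_ne_zero ha'0 (inv_ne_zero hb'0)
  have hordw : ∀ v : Place (AlgebraicClosure ℚ) (modularFunctionFieldBar N),
      v.ord w = m * ((D : Divisor (AlgebraicClosure ℚ) (modularFunctionFieldBar N)) v -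
        v.ord (a' * b'⁻¹)) := by
    intro v
    have e1 : (m : ℤ) * (D : Divisor (AlgebraicClosure ℚ) (modularFunctionFieldBar N)) v =
        v.ord Y₁ - v.ord Y₂ := by
      have := congrArg (fun E => E v) hD₁₂
      simp only [Finsupp.smul_apply, nsmul_eq_mul, Finsupp.sub_apply] at this
      rw [hD₁ v, hD₂ v] at this
      exact this
    rw [hw, v.ord_mul (mul_ne_zero hY₁0 (inv_ne_zero hY₂0)) (inv_ne_zero (pow_ne_zero m hab0)),
      v.ord_mul hY₁0 (inv_ne_zero hY₂0), v.ord_inv, v.ord_inv, ← zpow_natCast, v.ord_zpow]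
    linarith
  obtain ⟨u, hu⟩ := hKI w (fun v => ⟨_, hordw v⟩) (y₁ * b ^ m) (y₂ * a ^ m)
    (by rw [map_mul, map_pow]; exact mul_mem hy₁ (pow_mem hb.1 m))
    (by rw [map_mul, map_pow]; exact mul_mem hy₂ (pow_mem ha.1 m))
    (by rw [map_mul, map_pow]; exact mul_ne_zero hne₂ (pow_ne_zero m ha0))
    (by
      rw [map_mul, map_pow, map_mul, map_pow, ← hab, mul_pow]
      have := congrArg Subtype.val hyg
      simp only [MulMemClass.coe_mul, SubmonoidClass.coe_pow] at this
      have e2 : coeffMap (IsLocalRing.residue A) y₁ =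
        (g₁ : LaurentSeries (IsLocalRing.ResidueField A)) ^ m *
          coeffMap (IsLocalRing.residue A) y₂ := this
      rw [e2]; ring)
    (by
      have e3 : w * (Y₂ * a' ^ m) = Y₁ * b' ^ m := by
        rw [hw, mul_pow, inv_pow, mul_inv, inv_inv]
        field_simp
      have := congrArg Subtype.val e3
      simp only [MulMemClass.coe_mul, SubmonoidClass.coe_pow] at this
      rw [map_mul, map_mul, map_pow, map_pow]
      exact this)
  -- conclusion
  have hu0 : u ≠ 0 := by
    rintro rfl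
    exact hw0 (by rw [hu, zero_pow hm0])
  apply (QuotientAddGroup.eq_zero_iff D).mpr
  rw [AddSubgroup.mem_addSubgroupOf]
  refine ⟨u * (a' * b'⁻¹), mul_ne_zero hu0 hab0, fun v => ?_⟩
  have e4 := hordw v
  rw [hu, ← zpow_natCast, v.ord_zpow] at e4
  have e5 : v.ord u = (D : Divisor (AlgebraicClosure ℚ) (modularFunctionFieldBar N)) v -
        v.ord (a' * b'⁻¹) := mul_left_cancel₀ (by exact_mod_cast hm0) e4
  rw [v.ord_mul hu0 hab0, e5]
  ring

end Glue

end Fermat.Agent.H18
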