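import Fermat.Agent.H33Laurent

/-!
# Congruences for the norm operator on Laurent series (helper33, for S33)
-/

set_option autoImplicit false
set_option linter.unusedSectionVars false

noncomputable section

open HahnSeries ModularCurve
open Fermat.Agent.H60

namespace Fermat.Agent.H33

section

variable {K : Type*} [Field K] {A : ValuationSubring K} {k : Type*} [Field k] {π : A →+* k}

/-- the constant series -/
abbrev cst (a : K) : LaurentSeries K := algebraMap K (LaurentSeries K) a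

theorem cst_eq (a : K) : cst a = HahnSeries.single 0 a := algebraMap_laurentSeries_eq_single _ a

theorem incl_C (a : A) : incl A (HahnSeries.single 0 a) = cst (a : K) := by
  rw [cst_eq, incl, coeffMap_single]
  rfl

theorem cst_mem {a : K} (ha : a ∈ A) : cst a ∈ valRing A π := by
  rw [← incl_C ⟨a, ha⟩]
  exact incl_mem _

theorem valRes_cst (a : A) (h : cst (a : K) ∈ valRing A π) :
    valRes A π ⟨cst (a : K), h⟩ = algebraMap k (LaurentSeries k) (π a) := by
  have h1 := isRep_incl (π := π) (HahnSeries.single (0 : ℤ) a)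
  rw [incl_C] at h1
  rw [valRes_eq h1, map_one, div_one, coeffMap_single, algebraMap_laurentSeries_eq_single]

/-- a Laurent series over `A` all of whose coefficients are divisible by `a` is divisible by `a` -/
theorem exists_of_forall_dvd {a : A} (ha : a ≠ 0) {f : LaurentSeries A}
    (h : ∀ n, a ∣ f.coeff n) : ∃ s : LaurentSeries A, f = HahnSeries.single 0 a * s := by
  choose c hc using h
  have hs : (Function.support c).IsPWO := f.isPWO_support.mono fun n hn => by
    rw [Function.mem_support] at hn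
    rw [HahnSeries.mem_support, hc n]
    exact mul_ne_zero ha hn
  refine ⟨⟨c, hs⟩, ?_⟩
  ext n
  rw [HahnSeries.coeff_single_mul, sub_zero, hc n]

variable {p : ℕ} [Fact p.Prime] [NeZero p]

theorem twist_dvd (ζ : Aˣ) (h1 : ((ζ : A) - 1) ≠ 0) (i : ℕ) (g : LaurentSeries A) :
    ∃ s : LaurentSeries A, twist (ζ ^ i) g = g + HahnSeries.single 0 ((ζ : A) - 1) * s := by
  obtain ⟨s, hs⟩ := exists_of_forall_dvd h1 (f := twist (ζ ^ i) g - g) (fun n => by
    rw [HahnSeries.coeff_sub, twist_coeff]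
    have h2 : (((ζ ^ i) ^ n : Aˣ) : A) * g.coeff n - g.coeff n =
        ((((ζ ^ i) ^ n : Aˣ) : A) - 1) * g.coeff n := by ring
    rw [h2]
    refine Dvd.dvd.mul_right ?_ _
    -- `ζ - 1 ∣ ζ^m - 1` for every integer `m`
    have key : ∀ m : ℤ, (ζ : A) - 1 ∣ ((ζ ^ m : Aˣ) : A) - 1 := by
      intro m
      rcases Int.eq_nat_or_neg m with ⟨a, rfl | rfl⟩
      · rw [zpow_natCast, Units.val_pow_eq_pow_val]
        simpa using sub_dvd_pow_sub_pow (ζ : A) 1 a
      · rw [zpow_neg, zpow_natCast]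
        have h3 : (((ζ ^ a)⁻¹ : Aˣ) : A) - 1 = -(((ζ ^ a)⁻¹ : Aˣ) : A) * (((ζ ^ a : Aˣ) : A) - 1) := by
          rw [mul_sub, neg_mul, Units.inv_mul]
          ring
        rw [h3]
        refine Dvd.dvd.mul_left ?_ _
        rw [Units.val_pow_eq_pow_val]
        simpa using sub_dvd_pow_sub_pow (ζ : A) 1 a
    rw [← zpow_natCast, ← zpow_mul]
    exact key _)
  exact ⟨s, by rw [← hs]; ring⟩

theorem twist_incl (u : Aˣ) (g : LaurentSeries A) :
    twist (Units.map (A.subtype : A →* K) u) (incl A g) = incl A (twist u g) :=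
  (coeffMap_twist A.subtype u g).symm

/-- The twist by a root of unity is trivial modulo `ζ - 1`. -/
theorem twist_sub_mem (ζ : Aˣ) (h1 : ((ζ : A) - 1) ≠ 0) (hζ1 : Units.map (π : A →* k) ζ = 1)
    (i : ℕ) {f : LaurentSeries K} (hf : f ∈ valRing A π) :
    ∃ s ∈ valRing A π,
      twist (Units.map (A.subtype : A →* K) (ζ ^ i)) f = f + cst (((ζ : A) : K) - 1) * s := by
  obtain ⟨g, h, hh, H⟩ := id hf
  obtain ⟨s, hs⟩ := twist_dvd ζ h1 i g
  obtain ⟨t, ht⟩ := twist_dvd ζ h1 i h
  set tw := twist (Units.map (A.subtype : A →* K) (ζ ^ i)) with htw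
  have h2 : tw f * incl A (twist (ζ ^ i) h) = incl A (twist (ζ ^ i) g) := by
    rw [← twist_incl, ← twist_incl, ← map_mul, H]
  have hres : coeffMap π (twist (ζ ^ i) h) = coeffMap π h := by
    rw [coeffMap_twist, map_pow, hζ1, one_pow, twist_one]
  have hne1 : incl A h ≠ 0 := IsRep.incl_ne_zero ⟨hh, H⟩
  have hne2 : incl A (twist (ζ ^ i) h) ≠ 0 := by
    intro h0
    apply hh
    have : twist (ζ ^ i) h = 0 := incl_injective A (by rw [h0, map_zero])
    rw [← hres, this, map_zero]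
  have hlam : cst (((ζ : A) : K) - 1) = incl A (HahnSeries.single 0 ((ζ : A) - 1)) := by
    rw [incl_C]; rfl
  have hlam0 : cst (((ζ : A) : K) - 1) ≠ 0 := by
    rw [ne_eq, cst, map_eq_zero]
    intro h0
    exact h1 (Subtype.ext h0)
  refine ⟨(cst (((ζ : A) : K) - 1))⁻¹ * (tw f - f), ⟨s * h - g * t, h * twist (ζ ^ i) h, ?_, ?_⟩, ?_⟩
  · rw [map_mul, hres]; exact mul_ne_zero hh hh
  · have e1 : incl A (twist (ζ ^ i) g) = incl A g + cst (((ζ : A) : K) - 1) * incl A s := by
      rw [hs, map_add, map_mul, ← hlam]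
    have e2 : incl A (twist (ζ ^ i) h) = incl A h + cst (((ζ : A) : K) - 1) * incl A t := by
      rw [ht, map_add, map_mul, ← hlam]
    rw [map_mul, map_sub, map_mul, map_mul]
    have e3 : (tw f - f) * (incl A h * incl A (twist (ζ ^ i) h)) =
        cst (((ζ : A) : K) - 1) * (incl A s * incl A h - incl A g * incl A t) := by
      have : (tw f - f) * (incl A h * incl A (twist (ζ ^ i) h)) =
          (tw f * incl A (twist (ζ ^ i) h)) * incl A h - (f * incl A h) * incl A (twist (ζ ^ i) h)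
          := by ring
      rw [this, h2, H, e1, e2]
      ring
    rw [mul_assoc, e3, ← mul_assoc, inv_mul_cancel₀ hlam0, one_mul]
  · rw [← mul_assoc, mul_inv_cancel₀ hlam0, one_mul, add_sub_cancel]

/-- `V w ∈ 𝓥` implies `w ∈ 𝓥`. -/
theorem mem_of_qExpand_mem [CharP k p] {ζ : Aˣ}
    (hζ : IsPrimitiveRoot (Units.map (A.subtype : A →* K) ζ) p)
    (hζ1 : Units.map (π : A →* k) ζ = 1) {w : LaurentSeries K}
    (hw : qExpand K p w ∈ valRing A π) : w ∈ valRing A π := by
  obtain ⟨g, h, hh, H⟩ := hw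
  have hζA := isPrimitiveRoot_of_map hζ
  -- multiply by the other twists of `h`
  obtain ⟨q, hq⟩ : ∃ q, p = q + 1 := ⟨p - 1, by have := NeZero.pos p; omega⟩
  set h' := ∏ i ∈ Finset.range q, twist (ζ ^ (i + 1)) h with hh'
  have h1 : prodTwist p ζ h = h * h' := by
    rw [prodTwist, hq, Finset.prod_range_succ', pow_zero, twist_one, mul_comm]
  have h2 : qExpand K p (w * incl A (normOp p ζ h)) = incl A (g * h') := by
    rw [map_mul, ← coeffMap_qExpand_H60, qExpand_normOp p hζA, h1, map_mul, ← mul_assoc, H,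
      map_mul]
  have h3 : w * incl A (normOp p ζ h) = incl A (contract p (g * h')) := by
    rw [coeffMap_contract, ← h2, contract_qExpand]
  refine ⟨contract p (g * h'), normOp p ζ h, ?_, h3⟩
  rw [coeffMap_normOp_res π hζ1]
  exact (map_ne_zero (coeffMap (frobenius k p))).mpr hh

theorem sum_one_sub_zeta {ζ : Aˣ} (hζ : IsPrimitiveRoot ζ p) :
    ∃ b : A, (p : A) = ((ζ : A) - 1) * b := by
  have hp1 : 1 < p := (Fact.out : p.Prime).one_lt
  have h0 : ∑ i ∈ Finset.range p, (ζ : A) ^ i = 0 := by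
    have h1 : IsPrimitiveRoot (ζ : A) p := IsPrimitiveRoot.coe_units_iff.mpr hζ
    exact h1.geom_sum_eq_zero hp1
  have h2 : (p : A) = - ∑ i ∈ Finset.range p, ((ζ : A) ^ i - 1) := by
    rw [Finset.sum_sub_distrib, h0]
    simp
  rw [h2]
  have h3 : (ζ : A) - 1 ∣ - ∑ i ∈ Finset.range p, ((ζ : A) ^ i - 1) := by
    rw [dvd_neg]
    exact Finset.dvd_sum fun i _ => by simpa using sub_dvd_pow_sub_pow (ζ : A) 1 i
  exact h3

theorem prod_twist_one_add (ζ : Aˣ) (h1 : ((ζ : A) - 1) ≠ 0)
    (hζ1 : Units.map (π : A →* k) ζ = 1) {μ : K} (hμ : μ ∈ A) {u : LaurentSeries K}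
    (hu : u ∈ valRing A π) (m : ℕ) :
    ∃ s ∈ valRing A π, ∏ i ∈ Finset.range m,
      twist (Units.map (A.subtype : A →* K) ζ ^ i) (1 + cst μ * u) =
        (1 + cst μ * u) ^ m + cst ((((ζ : A) : K) - 1) * μ) * s := by
  induction m with
  | zero => exact ⟨0, zero_mem _, by simp⟩
  | succ m ih =>
    obtain ⟨s, hs, hs'⟩ := ih
    obtain ⟨t, ht, ht'⟩ := twist_sub_mem (π := π) ζ h1 hζ1 m hu
    rw [Finset.prod_range_succ, hs']
    have h2 : twist (Units.map (A.subtype : A →* K) ζ ^ m) (1 + cst μ * u) =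
        1 + cst μ * u + cst ((((ζ : A) : K) - 1) * μ) * t := by
      rw [← map_pow, map_add, map_one, map_mul, ht']
      have : twist (Units.map (A.subtype : A →* K) (ζ ^ m)) (cst μ) = cst μ := by
        rw [cst_eq, twist_single]
        simp
      rw [this]
      simp only [cst, map_mul]
      ring
    rw [h2]
    have hμV : cst μ ∈ valRing A π := cst_mem hμ
    have hlV : cst ((((ζ : A) : K) - 1) * μ) ∈ valRing A π :=
      cst_mem (mul_mem (sub_mem (ζ : A).2 (one_mem A)) hμ)
    have hV1 : 1 + cst μ * u ∈ valRing A π := add_mem (one_mem _) (mul_mem hμV hu)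
    refine ⟨(1 + cst μ * u) ^ m * t + s * (1 + cst μ * u) +
      cst ((((ζ : A) : K) - 1) * μ) * s * t, ?_, by ring⟩
    exact add_mem (add_mem (mul_mem (pow_mem hV1 m) ht) (mul_mem hs hV1))
      (mul_mem (mul_mem hlV hs) ht)

/-- **Congruence for the norm operator**: `N (1 + μ u) ≡ 1` modulo `μ'` if `μ'` divides
`(ζ - 1) μ` and `μ ^ p`. -/
theorem normHom_one_add [CharP k p] {ζ : Aˣ}
    (hζ : IsPrimitiveRoot (Units.map (A.subtype : A →* K) ζ) p)
    (hζ1 : Units.map (π : A →* k) ζ = 1) {μ μ' : A} (hμ'0 : μ' ≠ 0)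
    (hd1 : μ' ∣ ((ζ : A) - 1) * μ) (hd2 : μ' ∣ μ ^ p) {u : LaurentSeries K}
    (hu : u ∈ valRing A π) :
    ∃ w ∈ valRing A π, normHom hζ (1 + cst (μ : K) * u) = 1 + cst (μ' : K) * w := by
  have hζA := isPrimitiveRoot_of_map hζ
  have hz1 : ((ζ : A) - 1) ≠ 0 := by
    intro h0
    have : ζ = 1 := Units.ext (sub_eq_zero.mp h0)
    rw [this] at hζA
    have h2 := hζA.unique IsPrimitiveRoot.one
    exact (Fact.out : p.Prime).one_lt.ne' h2
  obtain ⟨b, hb⟩ := sum_one_sub_zeta hζA
  obtain ⟨c, hc⟩ := hd1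
  obtain ⟨d, hd⟩ := hd2
  obtain ⟨s, hs, hs'⟩ := prod_twist_one_add (π := π) ζ hz1 hζ1 μ.2 hu p
  have hcV : ∀ x : A, cst (x : K) ∈ valRing A π := fun x => cst_mem x.2
  obtain ⟨t, ht⟩ := one_add_pow_prime (Fact.out : p.Prime)
    (⟨cst (μ : K) * u, mul_mem (hcV μ) hu⟩ : valRing A π)
  have hexp := congrArg (fun z : valRing A π => (z : LaurentSeries K)) ht
  push_cast at hexp
  -- all terms are divisible by `μ'`
  have e1 : cst ((((ζ : A) : K) - 1) * (μ : K)) = cst (μ' : K) * cst (c : K) := by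
    rw [← map_mul]
    congr 1
    exact congrArg (fun z : A => (z : K)) hc
  have e2 : cst (μ : K) ^ p = cst (μ' : K) * cst (d : K) := by
    rw [← map_pow, ← map_mul]
    congr 1
    have := congrArg (fun z : A => (z : K)) hd
    simpa using this
  have e3 : (p : LaurentSeries K) * cst (μ : K) = cst (μ' : K) * cst ((c * b : A) : K) := by
    have h4 : (p : LaurentSeries K) = cst ((p : A) : K) := by simp [cst]
    rw [h4, ← map_mul, ← map_mul]
    congr 1
    have h5 : (p : A) * μ = μ' * (c * b) := by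
      rw [hb]
      calc ((ζ : A) - 1) * b * μ = (((ζ : A) - 1) * μ) * b := by ring
        _ = μ' * (c * b) := by rw [hc]; ring
    exact_mod_cast congrArg (fun z : A => (z : K)) h5
  set W₀ := cst (d : K) * u ^ p + cst ((c * b : A) : K) * u
    + cst ((c * b : A) : K) * cst (μ : K) * u ^ 2 * (t : LaurentSeries K) + cst (c : K) * s with hW₀
  have hW₀V : W₀ ∈ valRing A π := by
    refine add_mem (add_mem (add_mem (mul_mem (hcV d) (pow_mem hu p)) (mul_mem (hcV _) hu)) ?_)
      (mul_mem (hcV c) hs)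
    exact mul_mem (mul_mem (mul_mem (hcV _) (hcV μ)) (pow_mem hu 2)) t.2
  have hkey : qExpand K p (normHom hζ (1 + cst (μ : K) * u)) = 1 + cst (μ' : K) * W₀ := by
    have h6 : qExpand K p (normHom hζ (1 + cst (μ : K) * u)) =
        prodTwist p (Units.map (A.subtype : A →* K) ζ) (1 + cst (μ : K) * u) :=
      qExpand_normOp p hζ _
    rw [h6, prodTwist, hs', hexp, e1, hW₀, mul_pow, e2]
    have e3' : (p : LaurentSeries K) * (cst (μ : K) * u) =
        cst (μ' : K) * cst ((c * b : A) : K) * u := by rw [← mul_assoc, e3]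
    have e3'' : (p : LaurentSeries K) * (cst (μ : K) * u) ^ 2 =
        cst (μ' : K) * cst ((c * b : A) : K) * cst (μ : K) * u ^ 2 := by
      calc (p : LaurentSeries K) * (cst (μ : K) * u) ^ 2 =
          ((p : LaurentSeries K) * cst (μ : K)) * cst (μ : K) * u ^ 2 := by ring
        _ = _ := by rw [e3]
    rw [e3', e3'']
    ring
  have hμ'K : cst (μ' : K) ≠ 0 := by
    rw [ne_eq, cst, map_eq_zero]
    intro h0
    exact hμ'0 (Subtype.ext h0)
  refine ⟨(cst (μ' : K))⁻¹ * (normHom hζ (1 + cst (μ : K) * u) - 1), ?_, ?_⟩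
  · apply mem_of_qExpand_mem (p := p) hζ hζ1
    rw [map_mul, map_sub, map_one, hkey, map_inv₀, cst, qExpand_algebraMap, add_sub_cancel_left,
      ← mul_assoc, inv_mul_cancel₀ hμ'K, one_mul]
    exact hW₀V
  · rw [← mul_assoc, mul_inv_cancel₀ hμ'K, one_mul, add_sub_cancel]

end

end Fermat.Agent.H33
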