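import Fermat.Agent.H33Laurent
import Fermat.Agent.H33Cong
import Fermat.Agent.H33Sat
import Fermat.Agent.H42GaussMod
import Fermat.Agent.H42HeckeData
import Fermat.Agent.H60Norm
import Fermat.Agent.H90DescentLin

/-!
# Modular functions with coefficients in a discretely valued field (helper33)

`fieldE L M`: the modular functions of level `M` over `K` with coefficients in the subfield `L`.
If `L` is discretely valued we construct `H33.DiscCtx`.
-/

set_option autoImplicit false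

open Polynomial ModularCurve AlgebraicCurve

namespace Fermat.Agent.H33

section Cst

variable {K : Type*} [Field K]

theorem cst_mul (a b : K) : (cst (a * b) : LaurentSeries K) = cst a * cst b :=
  map_mul (algebraMap K (LaurentSeries K)) a b

theorem cst_add (a b : K) : (cst (a + b) : LaurentSeries K) = cst a + cst b :=
  map_add (algebraMap K (LaurentSeries K)) a b

theorem cst_one : (cst (1 : K) : LaurentSeries K) = 1 := map_one (algebraMap K (LaurentSeries K))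

theorem cst_div (a b : K) : (cst (a / b) : LaurentSeries K) = cst a / cst b :=
  map_div₀ (algebraMap K (LaurentSeries K)) a b

theorem cst_pow (a : K) (n : ℕ) : (cst (a ^ n) : LaurentSeries K) = cst a ^ n :=
  map_pow (algebraMap K (LaurentSeries K)) a n

theorem cst_zpow (a : K) (n : ℤ) : (cst (a ^ n) : LaurentSeries K) = cst a ^ n :=
  map_zpow₀ (algebraMap K (LaurentSeries K)) a n

theorem cst_inv (a : K) : (cst (a⁻¹) : LaurentSeries K) = (cst a)⁻¹ :=
  map_inv₀ (algebraMap K (LaurentSeries K)) a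

theorem cst_ne_zero {a : K} (ha : a ≠ 0) : (cst a : LaurentSeries K) ≠ 0 :=
  (map_ne_zero (algebraMap K (LaurentSeries K))).mpr ha

end Cst

section FieldE

variable {K : Type*} [Field K] (L : Subfield K) (M : ℕ)

/-- functions with coefficients in `L` -/
noncomputable def fieldE : Subfield (LaurentSeries K) :=
  Subfield.closure ((fun a : K => (cst a : LaurentSeries K)) '' (L : Set K) ∪
    divisorExpansionsC K M)

variable {L M}

theorem cst_mem_fieldE {a : K} (ha : a ∈ L) : cst a ∈ fieldE L M :=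
  Subfield.subset_closure (Or.inl ⟨a, ha, rfl⟩)

theorem fieldE_le : fieldE L M ≤ (modularFunctionFieldFullC K M).toSubfield := by
  rw [fieldE, Subfield.closure_le]
  rintro x (⟨a, -, rfl⟩ | hx)
  · exact (modularFunctionFieldFullC K M).algebraMap_mem a
  · exact IntermediateField.subset_adjoin K _ hx

theorem exists_coeffMap_of_mem {f : LaurentSeries K} (hf : f ∈ fieldE L M) :
    ∃ f₀ : LaurentSeries L, coeffMap L.subtype f₀ = f := by
  have h : fieldE L M ≤ (coeffMap L.subtype).fieldRange := by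
    rw [fieldE, Subfield.closure_le]
    rintro x (⟨a, ha, rfl⟩ | ⟨d, hd, hdM, rfl⟩)
    · refine ⟨HahnSeries.single 0 ⟨a, ha⟩, ?_⟩
      rw [coeffMap_single]
      exact (cst_eq a).symm
    · have := hd
      refine ⟨qExpand L d (jqModC L), ?_⟩
      rw [coeffMap_qExpand, coeffMap_jqModC]
  exact h hf

theorem coeff_mem_of_mem {f : LaurentSeries K} (hf : f ∈ fieldE L M) (n : ℤ) : f.coeff n ∈ L := by
  obtain ⟨f₀, rfl⟩ := exists_coeffMap_of_mem hf
  exact (f₀.coeff n).2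

theorem coeffMap_mem_fieldE {f₀ : LaurentSeries L} (h : f₀ ∈ modularFunctionFieldFullC L M) :
    coeffMap L.subtype f₀ ∈ fieldE L M := by
  have h1 : (modularFunctionFieldFullC L M).toSubfield ≤
      (fieldE L M).comap (coeffMap L.subtype) := by
    intro x hx
    have hx' : x ∈ modularFunctionFieldFullC L M := hx
    rw [H60.mem_fullC_iff] at hx'
    refine (Subfield.closure_le (t := (fieldE L M).comap (coeffMap L.subtype))).mpr ?_ hx'
    rintro y (⟨a, rfl⟩ | ⟨d, hd, hdM, rfl⟩)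
    · show coeffMap L.subtype (algebraMap L (LaurentSeries L) a) ∈ fieldE L M
      rw [algebraMap_laurentSeries_eq_single, coeffMap_single]
      exact Subfield.subset_closure (Or.inl ⟨a, a.2, cst_eq _⟩)
    · have := hd
      show coeffMap L.subtype (qExpand L d (jqModC L)) ∈ fieldE L M
      rw [coeffMap_qExpand, coeffMap_jqModC]
      exact Subfield.subset_closure (Or.inr ⟨d, hd, hdM, rfl⟩)
  exact h1 h

theorem mem_fieldE_of_coeffMap [CharZero K] {f₀ : LaurentSeries L}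
    (h : coeffMap L.subtype f₀ ∈ modularFunctionFieldFullC K M) :
    coeffMap L.subtype f₀ ∈ fieldE L M := by
  let _ : Algebra ℚ K := DivisionRing.toRatAlgebra
  let _ : Algebra ℚ L := DivisionRing.toRatAlgebra
  apply coeffMap_mem_fieldE
  rw [← H42.laurentBaseChange_full L M]
  apply H90.exists_of_coeff_mem (L1 := K)
  rw [H42.laurentBaseChange_full K M]
  exact h

theorem exists_coeffMap_of_coeff {f : LaurentSeries K} (hf : ∀ n, f.coeff n ∈ L) :
    ∃ f₀ : LaurentSeries L, coeffMap L.subtype f₀ = f := by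
  refine ⟨⟨fun n => ⟨f.coeff n, hf n⟩, f.isPWO_support.mono ?_⟩, ?_⟩
  · intro n hn
    rw [Function.mem_support] at hn
    rw [HahnSeries.mem_support]
    exact fun h => hn (Subtype.ext h)
  · ext n
    rfl

theorem mem_fieldE_of_coeff [CharZero K] {f : LaurentSeries K}
    (h : f ∈ modularFunctionFieldFullC K M) (hf : ∀ n, f.coeff n ∈ L) : f ∈ fieldE L M := by
  obtain ⟨f₀, rfl⟩ := exists_coeffMap_of_coeff hf
  exact mem_fieldE_of_coeffMap h

theorem mem_fieldE_iff [CharZero K] {f : LaurentSeries K} :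
    f ∈ fieldE L M ↔ f ∈ modularFunctionFieldFullC K M ∧ ∀ n, f.coeff n ∈ L :=
  ⟨fun h => ⟨fieldE_le h, coeff_mem_of_mem h⟩, fun h => mem_fieldE_of_coeff h.1 h.2⟩

end FieldE

section Disc

variable {K : Type*} [Field K] (A : ValuationSubring K) {k : Type*} [Field k] (π : A →+* k)

/-- a discretely valued subfield of `K` with the full residue field -/
structure DiscFld (L : Subfield K) (ϖ : K) : Prop where
  mem_L : ϖ ∈ L
  ne : ϖ ≠ 0
  mem_A : ϖ ∈ A
  map_eq : π ⟨ϖ, mem_A⟩ = 0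
  discr : ∀ a ∈ L, a ≠ 0 → ∃ m : ℤ, ∃ h : ϖ ^ m * a ∈ A, π ⟨_, h⟩ ≠ 0
  lift : ∀ c : k, ∃ a ∈ L, ∃ h : a ∈ A, π ⟨a, h⟩ = c

namespace DiscFld

variable {A π} {L : Subfield K} {ϖ : K} (D : DiscFld A π L ϖ)

include D in
theorem pow_mem_A (m : ℕ) : ϖ ^ m ∈ A := pow_mem D.mem_A m

include D in
theorem map_pow_mul {m : ℕ} (hm : 0 < m) {a : K} (ha : a ∈ A) (h : ϖ ^ m * a ∈ A) :
    π ⟨ϖ ^ m * a, h⟩ = 0 := by
  have h1 : (⟨ϖ ^ m * a, h⟩ : A) = ⟨ϖ, D.mem_A⟩ ^ m * ⟨a, ha⟩ := rfl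
  rw [h1, map_mul, map_pow, D.map_eq, zero_pow hm.ne', zero_mul]

include D in
/-- a natural exponent clearing the denominator -/
theorem exists_nat {a : K} (ha : a ∈ L) : ∃ m : ℕ, ϖ ^ m * a ∈ A := by
  rcases eq_or_ne a 0 with rfl | h0
  · exact ⟨0, by simp⟩
  obtain ⟨m, hm, -⟩ := D.discr a ha h0
  refine ⟨m.toNat, ?_⟩
  have h1 : ϖ ^ m.toNat * a = ϖ ^ (m.toNat - m).toNat * (ϖ ^ m * a) := by
    rw [← mul_assoc, ← zpow_natCast, ← zpow_natCast, ← zpow_add₀ D.ne]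
    congr 2
    have := Int.self_le_toNat m
    omega
  rw [h1]
  exact mul_mem (D.pow_mem_A _) hm

include D in
/-- integral elements: the exponent is nonpositive -/
theorem nonpos_of_mem {a : K} (ha : a ∈ A) {m : ℤ} (h : ϖ ^ m * a ∈ A) (h0 : π ⟨_, h⟩ ≠ 0) :
    m ≤ 0 := by
  by_contra hlt
  push Not at hlt
  obtain ⟨n, rfl⟩ : ∃ n : ℕ, m = n := ⟨m.toNat, by omega⟩
  apply h0
  have h1 : ϖ ^ (n : ℤ) * a = ϖ ^ n * a := by rw [zpow_natCast]
  simp only [h1]
  exact D.map_pow_mul (by omega) ha _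

include D in
/-- Normalisation of a nonzero bounded series. -/
theorem exists_normalize {f : LaurentSeries K} (hf0 : f ≠ 0) (hL : ∀ n, f.coeff n ∈ L)
    (m : ℕ) (g : LaurentSeries A) (hg : cst (ϖ ^ m) * f = incl A g) :
    ∃ (m : ℤ) (g : LaurentSeries A), cst (ϖ ^ m) * f = incl A g ∧ coeffMap π g ≠ 0 := by
  classical
  have hco : ∀ n, (g.coeff n : K) = ϖ ^ m * f.coeff n := by
    intro n
    have := congrArg (fun z : LaurentSeries K => z.coeff n) hg
    simp only [cst_eq, HahnSeries.coeff_single_mul, sub_zero] at this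
    rw [this]
    rfl
  -- exponents
  have hex : ∀ n, f.coeff n ≠ 0 → ∃ e : ℕ, ∃ h : ϖ ^ ((m : ℤ) - e) * f.coeff n ∈ A, π ⟨_, h⟩ ≠ 0 := by
    intro n hn
    obtain ⟨e, he, he0⟩ := D.discr _ (hL n) hn
    have h1 : ϖ ^ (e - m) * (ϖ ^ m * f.coeff n) = ϖ ^ e * f.coeff n := by
      rw [← mul_assoc, ← zpow_natCast, ← zpow_add₀ D.ne, sub_add_cancel]
    have h2 : ϖ ^ m * f.coeff n ∈ A := by rw [← hco]; exact (g.coeff n).2
    have h3 : e - m ≤ 0 := D.nonpos_of_mem h2 (m := e - m) (by rw [h1]; exact he) (by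
      simp only [h1]; exact he0)
    refine ⟨(m - e).toNat, ?_⟩
    have h4 : (m : ℤ) - (((m : ℤ) - e).toNat : ℤ) = e := by omega
    rw [h4]
    exact ⟨he, he0⟩
  obtain ⟨n₁, hn₁⟩ : ∃ n, f.coeff n ≠ 0 := by
    by_contra hcon
    push Not at hcon
    exact hf0 (by ext n; simpa using hcon n)
  have hne : ∃ e : ℕ, ∃ n, f.coeff n ≠ 0 ∧ ∃ h : ϖ ^ ((m : ℤ) - e) * f.coeff n ∈ A, π ⟨_, h⟩ ≠ 0 := by
    obtain ⟨e, he⟩ := hex n₁ hn₁
    exact ⟨e, n₁, hn₁, he⟩
  obtain ⟨n₀, hn₀, h₀, h₀'⟩ := Nat.find_spec hne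
  set e₀ := Nat.find hne with he₀
  have hint : ∀ n, ϖ ^ ((m : ℤ) - e₀) * f.coeff n ∈ A := by
    intro n
    rcases eq_or_ne (f.coeff n) 0 with h | h
    · rw [h, mul_zero]; exact zero_mem _
    obtain ⟨e, he, he'⟩ := hex n h
    have hle : e₀ ≤ e := Nat.find_min' hne ⟨n, h, he, he'⟩
    have h1 : ϖ ^ ((m : ℤ) - e₀) * f.coeff n = ϖ ^ (e - e₀) * (ϖ ^ ((m : ℤ) - e) * f.coeff n) := by
      rw [← mul_assoc, ← zpow_natCast, ← zpow_add₀ D.ne]
      congr 2
      omega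
    rw [h1]
    exact mul_mem (D.pow_mem_A _) he
  refine ⟨(m : ℤ) - e₀, ⟨fun n => ⟨_, hint n⟩, f.isPWO_support.mono ?_⟩, ?_, ?_⟩
  · intro n hn
    rw [Function.mem_support] at hn
    rw [HahnSeries.mem_support]
    intro h
    apply hn
    apply Subtype.ext
    show ϖ ^ ((m : ℤ) - e₀) * f.coeff n = 0
    rw [h, mul_zero]
  · ext n
    rw [cst_eq, HahnSeries.coeff_single_mul, sub_zero]
    rfl
  · intro h
    apply h₀'
    have := congrArg (fun z : LaurentSeries k => z.coeff n₀) h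
    simpa using this

variable (M : ℕ)

include D in
theorem bounded_of_mem {f : LaurentSeries K}
    (hf : f ∈ Subring.closure ((fun a : K => (cst a : LaurentSeries K)) '' (L : Set K) ∪
      divisorExpansionsC K M)) :
    ∃ (m : ℕ) (g : LaurentSeries A), cst (ϖ ^ m) * f = incl A g := by
  induction hf using Subring.closure_induction with
  | mem x hx =>
    rcases hx with ⟨a, ha, rfl⟩ | ⟨d, hd, hdM, rfl⟩
    · obtain ⟨m, hm⟩ := D.exists_nat ha
      refine ⟨m, HahnSeries.single 0 ⟨_, hm⟩, ?_⟩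
      rw [incl_C, ← cst_mul]
    · refine ⟨0, qExpand A d (jqModC A), ?_⟩
      rw [pow_zero, cst_one, one_mul, incl, coeffMap_qExpand, coeffMap_jqModC]
  | zero => exact ⟨0, 0, by simp⟩
  | one => exact ⟨0, 1, by simp⟩
  | add x y _ _ hx hy =>
    obtain ⟨m, g, hg⟩ := hx
    obtain ⟨n, g', hg'⟩ := hy
    refine ⟨m + n, HahnSeries.single 0 ⟨ϖ ^ n, D.pow_mem_A n⟩ * g +
      HahnSeries.single 0 ⟨ϖ ^ m, D.pow_mem_A m⟩ * g', ?_⟩
    rw [map_add, map_mul, map_mul, incl_C, incl_C, ← hg, ← hg', pow_add, cst_mul]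
    ring
  | neg x _ hx =>
    obtain ⟨m, g, hg⟩ := hx
    exact ⟨m, -g, by rw [map_neg, ← hg]; ring⟩
  | mul x y _ _ hx hy =>
    obtain ⟨m, g, hg⟩ := hx
    obtain ⟨n, g', hg'⟩ := hy
    refine ⟨m + n, g * g', ?_⟩
    rw [map_mul, ← hg, ← hg', pow_add, cst_mul]
    ring

include D in
/-- The structure of elements of `fieldE`. -/
theorem exists_rep {f : LaurentSeries K} (hf : f ∈ fieldE L M) (hf0 : f ≠ 0) :
    ∃ (m : ℤ) (y z : LaurentSeries A), incl A y ∈ fieldE L M ∧ incl A z ∈ fieldE L M ∧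
      coeffMap π y ≠ 0 ∧ coeffMap π z ≠ 0 ∧ cst (ϖ ^ m) * f * incl A z = incl A y := by
  have hL : ∀ g ∈ Subring.closure ((fun a : K => (cst a : LaurentSeries K)) '' (L : Set K) ∪
      divisorExpansionsC K M), g ∈ fieldE L M := by
    intro g hg
    exact Subfield.subring_closure_le _ hg
  have hkey : ∀ g ∈ Subring.closure ((fun a : K => (cst a : LaurentSeries K)) '' (L : Set K) ∪
      divisorExpansionsC K M), g ≠ 0 → ∃ (m : ℤ) (y : LaurentSeries A),
        cst (ϖ ^ m) * g = incl A y ∧ coeffMap π y ≠ 0 ∧ incl A y ∈ fieldE L M := by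
    intro g hg hg0
    obtain ⟨m, g₁, hg₁⟩ := D.bounded_of_mem M hg
    obtain ⟨m', g₂, h1, h2⟩ := D.exists_normalize hg0
      (fun n => coeff_mem_of_mem (hL g hg) n) m g₁ hg₁
    refine ⟨m', g₂, h1, h2, ?_⟩
    rw [← h1]
    exact mul_mem (cst_mem_fieldE (zpow_mem D.mem_L _)) (hL g hg)
  rw [fieldE, Subfield.mem_closure_iff] at hf
  obtain ⟨y, hy, z, hz, rfl⟩ := hf
  have hy0 : y ≠ 0 := fun h => hf0 (by rw [h, zero_div])
  have hz0 : z ≠ 0 := fun h => hf0 (by rw [h, div_zero])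
  obtain ⟨m, y', hy1, hy2, hy3⟩ := hkey y hy hy0
  obtain ⟨n, z', hz1, hz2, hz3⟩ := hkey z hz hz0
  refine ⟨m - n, y', z', hy3, hz3, hy2, hz2, ?_⟩
  rw [← hy1, ← hz1, zpow_sub₀ D.ne, cst_div]
  have := cst_ne_zero (zpow_ne_zero n D.ne)
  field_simp

section Lift

variable (hπ : Function.Surjective π)

include D in
theorem exists_lift_closure {c : LaurentSeries k}
    (hc : c ∈ Subring.closure (Set.range (algebraMap k (LaurentSeries k)) ∪
      divisorExpansionsC k M)) :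
    ∃ g : LaurentSeries A, incl A g ∈ fieldE L M ∧ coeffMap π g = c := by
  induction hc using Subring.closure_induction with
  | mem x hx =>
    rcases hx with ⟨a, rfl⟩ | ⟨d, hd, hdM, rfl⟩
    · obtain ⟨b, hbL, hbA, rfl⟩ := D.lift a
      refine ⟨HahnSeries.single 0 ⟨b, hbA⟩, ?_, ?_⟩
      · rw [incl_C]
        exact cst_mem_fieldE hbL
      · rw [coeffMap_single, algebraMap_laurentSeries_eq_single]
    · refine ⟨qExpand A d (jqModC A), ?_, ?_⟩
      · rw [incl, coeffMap_qExpand, coeffMap_jqModC]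
        exact Subfield.subset_closure (Or.inr ⟨d, hd, hdM, rfl⟩)
      · rw [coeffMap_qExpand, coeffMap_jqModC]
  | zero => exact ⟨0, by rw [map_zero]; exact zero_mem _, map_zero _⟩
  | one => exact ⟨1, by rw [map_one]; exact one_mem _, map_one _⟩
  | add x y _ _ hx hy =>
    obtain ⟨g, hg, rfl⟩ := hx
    obtain ⟨g', hg', rfl⟩ := hy
    exact ⟨g + g', by rw [map_add]; exact add_mem hg hg', map_add _ _ _⟩
  | neg x _ hx =>
    obtain ⟨g, hg, rfl⟩ := hx
    exact ⟨-g, by rw [map_neg]; exact neg_mem hg, map_neg _ _⟩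
  | mul x y _ _ hx hy =>
    obtain ⟨g, hg, rfl⟩ := hx
    obtain ⟨g', hg', rfl⟩ := hy
    exact ⟨g * g', by rw [map_mul]; exact mul_mem hg hg', map_mul _ _ _⟩

include D in
theorem exists_lift {c : LaurentSeries k} (hc : c ∈ modularFunctionFieldFullC k M) :
    ∃ f ∈ fieldE L M, ∃ h : f ∈ valRing A π, valRes A π ⟨f, h⟩ = c := by
  rw [H60.mem_fullC_iff, Subfield.mem_closure_iff] at hc
  obtain ⟨y, hy, z, hz, rfl⟩ := hc
  rcases eq_or_ne z 0 with rfl | hz0
  · exact ⟨0, zero_mem _, zero_mem _, by rw [div_zero]; exact map_zero _⟩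
  obtain ⟨y', hy1, hy2⟩ := D.exists_lift_closure M hy
  obtain ⟨z', hz1, hz2⟩ := D.exists_lift_closure M hz
  have hz' : incl A z' ≠ 0 := by
    intro h
    apply hz0
    rw [← hz2, incl_injective A (by rw [h, map_zero] : incl A z' = incl A 0), map_zero]
  have hrep : IsRep A π (incl A y' / incl A z') y' z' := by
    refine ⟨by rw [hz2]; exact hz0, ?_⟩
    rw [div_mul_cancel₀ _ hz']
  have hmem : incl A y' / incl A z' ∈ valRing A π := ⟨_, _, hrep⟩
  refine ⟨incl A y' / incl A z', div_mem hy1 hz1, hmem, ?_⟩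
  rw [valRes_eq hrep hmem, hy2, hz2]

end Lift

end DiscFld

end Disc

section Res

variable {K : Type*} [Field K] [CharZero K] [IsAlgClosed K] {A : ValuationSubring K}
  {k : Type*} [Field k] [IsAlgClosed k] {π : A →+* k} {L : Subfield K} {ϖ : K} {M : ℕ} [NeZero M]

theorem coeffMap_mem_fullC_of_incl (hπ : Function.Surjective π) (hM : (M : k) ≠ 0)
    (y : LaurentSeries A) (hy : incl A y ∈ modularFunctionFieldFullC K M) :
    coeffMap π y ∈ modularFunctionFieldFullC k M := by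
  let _ : Algebra ℚ K := DivisionRing.toRatAlgebra
  apply H42.coeffMap_mem_full A π M hπ (H60.degLE K k M (by exact_mod_cast NeZero.ne M) hM) y
  rw [H42.laurentBaseChange_full K M]
  exact hy

theorem DiscFld.res_mem (D : DiscFld A π L ϖ) (hπ : Function.Surjective π) (hM : (M : k) ≠ 0)
    {f : LaurentSeries K} (hf : f ∈ fieldE L M) (h : f ∈ valRing A π) :
    valRes A π ⟨f, h⟩ ∈ modularFunctionFieldFullC k M := by
  rcases eq_or_ne f 0 with rfl | hf0
  · have : valRes A π ⟨0, h⟩ = 0 := map_zero _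
    rw [this]
    exact zero_mem _
  obtain ⟨m, y, z, hy, hz, hy0, hz0, heq⟩ := D.exists_rep M hf hf0
  have hrep : IsRep A π (cst (ϖ ^ m) * f) y z := ⟨hz0, heq⟩
  have hyk := coeffMap_mem_fullC_of_incl hπ hM y (fieldE_le hy)
  have hzk := coeffMap_mem_fullC_of_incl hπ hM z (fieldE_le hz)
  have hϖ : ∀ n : ℕ, 0 < n → ∀ h' : cst (ϖ ^ n) ∈ valRing A π, valRes A π ⟨cst (ϖ ^ n), h'⟩ = 0 := by
    intro n hn h'
    have h1 : (⟨ϖ ^ n, D.pow_mem_A n⟩ : A) = ⟨ϖ, D.mem_A⟩ ^ n := rfl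
    have h2 := valRes_cst (π := π) (⟨ϖ ^ n, D.pow_mem_A n⟩ : A) h'
    rw [h2, h1, map_pow, D.map_eq, zero_pow hn.ne', map_zero]
  have hmem : (cst (ϖ ^ m) * f) ∈ valRing A π := ⟨_, _, hrep⟩
  have hval := valRes_eq hrep hmem
  rcases lt_trichotomy m 0 with hm | rfl | hm
  · -- `f = ϖ^{-m} (ϖ^m f)`
    obtain ⟨n, hn⟩ : ∃ n : ℕ, m = -((n : ℤ) + 1) := ⟨(-m - 1).toNat, by omega⟩
    have h1 : cst (ϖ ^ (n + 1)) ∈ valRing A π := cst_mem (D.pow_mem_A _)
    have h2 : (⟨f, h⟩ : valRing A π) = ⟨cst (ϖ ^ (n + 1)), h1⟩ * ⟨cst (ϖ ^ m) * f, hmem⟩ := by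
      apply Subtype.ext
      show f = cst (ϖ ^ (n + 1)) * (cst (ϖ ^ m) * f)
      rw [← mul_assoc, ← cst_mul, ← zpow_natCast, ← zpow_add₀ D.ne, hn]
      have : ((n + 1 : ℕ) : ℤ) + -((n : ℤ) + 1) = 0 := by push_cast; ring
      rw [this, zpow_zero, cst_one, one_mul]
    rw [h2, map_mul, hϖ _ (by omega), zero_mul]
    exact zero_mem _
  · have h2 : (⟨f, h⟩ : valRing A π) = ⟨cst (ϖ ^ (0 : ℤ)) * f, hmem⟩ := by
      apply Subtype.ext
      show f = cst (ϖ ^ (0 : ℤ)) * f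
      rw [zpow_zero, cst_one, one_mul]
    rw [h2, hval]
    exact div_mem hyk hzk
  · exfalso
    obtain ⟨n, rfl⟩ : ∃ n : ℕ, m = n := ⟨m.toNat, by omega⟩
    have h1 : cst (ϖ ^ n) ∈ valRing A π := cst_mem (D.pow_mem_A _)
    have h2 : (⟨cst (ϖ ^ (n : ℤ)) * f, hmem⟩ : valRing A π) = ⟨cst (ϖ ^ n), h1⟩ * ⟨f, h⟩ := by
      apply Subtype.ext
      show cst (ϖ ^ (n : ℤ)) * f = cst (ϖ ^ n) * f
      rw [zpow_natCast]
    rw [h2, map_mul, hϖ _ (by omega), zero_mul] at hval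
    rw [eq_comm, div_eq_zero_iff] at hval
    exact hval.elim hy0 hz0

end Res

section Misc

variable {K : Type*} [Field K]

theorem twist_cst (u : Kˣ) (a : K) : H60.twist u (cst a) = cst a := by
  rw [cst_eq, H60.twist_single, zpow_zero, Units.val_one, one_mul]

theorem isUnit_of_map_ne {A : ValuationSubring K} {k : Type*} [Field k] {π : A →+* k}
    (hπ : Function.Surjective π) {a : A} (ha : π a ≠ 0) : IsUnit a := by
  by_contra h
  have h1 : (RingHom.ker π).IsMaximal := RingHom.ker_isMaximal_of_surjective π hπ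
  have h2 : a ∈ IsLocalRing.maximalIdeal A := (IsLocalRing.mem_maximalIdeal a).mpr h
  rw [← IsLocalRing.eq_maximalIdeal h1] at h2
  exact ha h2

theorem mem_of_cst_mem {A : ValuationSubring K} {k : Type*} [Field k] {π : A →+* k}
    (hπ : Function.Surjective π) {a : K} (ha : cst a ∈ valRing A π) : a ∈ A := by
  obtain ⟨g, h, hh, H⟩ := ha
  obtain ⟨n, hn⟩ : ∃ n, π (h.coeff n) ≠ 0 := by
    by_contra hcon
    push Not at hcon
    exact hh (by ext n; simpa using hcon n)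
  obtain ⟨u, hu⟩ := isUnit_of_map_ne hπ hn
  have h1 := congrArg (fun z : LaurentSeries K => z.coeff n) H
  simp only [cst_eq, HahnSeries.coeff_single_mul, sub_zero, coeffMap_coeff] at h1
  have h2 : a * (u : A) = (g.coeff n : A) := by
    rw [hu]
    exact h1
  have h3 : a = (g.coeff n : A) * ((u⁻¹ : Aˣ) : A) := by
    rw [← h2, mul_assoc]
    have : (((u : A) * ((u⁻¹ : Aˣ) : A) : A) : K) = 1 := by rw [Units.mul_inv]; rfl
    have h4 : ((u : A) : K) * (((u⁻¹ : Aˣ) : A) : K) = 1 := this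
    rw [h4, mul_one]
  rw [h3]
  exact mul_mem (SetLike.coe_mem _) (SetLike.coe_mem _)

end Misc

section Hecke

local notation "Qb" => AlgebraicClosure ℚ

variable {p : ℕ} [Fact p.Prime] [NeZero p] {M : ℕ} [NeZero M]

/-- The norm of the Hecke correspondence in terms of `q`-expansions. -/
theorem coe_heckeNorm (hpM : ¬ p ∣ M) {ζ : Qbˣ} (hζ : IsPrimitiveRoot ζ p)
    (x : laurentBaseChange Qb (modularFunctionFieldFull M)) :
    ((H60.normAlong (heckeAlphaBar Qb M p) (heckeBetaBar Qb M p x) :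
        laurentBaseChange Qb (modularFunctionFieldFull M)) : LaurentSeries Qb) =
      qExpand Qb p (x : LaurentSeries Qb) * normOp p ζ (x : LaurentSeries Qb) := by
  have hp : p.Prime := Fact.out
  have hH := H42.heckeData M p hp hpM
  obtain ⟨w, hw⟩ := hH.swap
  obtain ⟨hα, hβ, hPD, hfin, hFI, hNF⟩ := hH.inputs
  have h1 := H60.qExpand_normAlong hw hp.one_lt hζ hfin hH.degree_le x
  apply qExpand_injective p
  rw [h1, map_mul, qExpand_normOp p hζ, H60.normSeries, prodTwist]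

theorem T_mem_fullC (hpM : ¬ p ∣ M) {ζ : Qbˣ} (hζ : IsPrimitiveRoot ζ p)
    {f : LaurentSeries Qb} (hf : f ∈ modularFunctionFieldFullC Qb M) :
    qExpand Qb p f * normOp p ζ f ∈ modularFunctionFieldFullC Qb M := by
  rw [← H42.laurentBaseChange_full Qb M] at hf ⊢
  have h := coe_heckeNorm hpM hζ ⟨f, hf⟩
  rw [← h]
  exact SetLike.coe_mem _

theorem T_mem_fieldE (hpM : ¬ p ∣ M) {ζ : Qbˣ} (hζ : IsPrimitiveRoot ζ p) {L : Subfield Qb}
    (hζL : (ζ : Qb) ∈ L) {f : LaurentSeries Qb} (hf : f ∈ fieldE L M) :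
    qExpand Qb p f * normOp p ζ f ∈ fieldE L M := by
  have h1 := T_mem_fullC hpM hζ (fieldE_le hf)
  obtain ⟨f₀, rfl⟩ := exists_coeffMap_of_mem hf
  have hζ0 : (⟨ζ, hζL⟩ : L) ≠ 0 := fun h => ζ.ne_zero (congrArg Subtype.val h)
  have h2 : ζ = Units.map (L.subtype : L →* Qb) (Units.mk0 ⟨ζ, hζL⟩ hζ0) := Units.ext rfl
  rw [h2, ← coeffMap_qExpand, ← coeffMap_normOp, ← map_mul] at h1 ⊢
  exact mem_fieldE_of_coeffMap h1

variable {A : ValuationSubring Qb} {k : Type*} [Field k] [IsAlgClosed k] [CharP k p]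
  {π : A →+* k} {L : Subfield Qb} {ϖ : Qb}

omit [IsAlgClosed k] in
theorem DiscFld.exists_pow_dvd (D : DiscFld A π L ϖ) {a : A} (ha : (a : Qb) ∈ L) (ha0 : π a = 0) :
    (⟨ϖ, D.mem_A⟩ : A) ∣ a := by
  rcases eq_or_ne a 0 with rfl | hne
  · exact dvd_zero _
  have hne' : (a : Qb) ≠ 0 := fun h => hne (Subtype.ext h)
  obtain ⟨m, hm, hm0⟩ := D.discr a ha hne'
  have hm1 : m < 0 := by
    by_contra hge
    push Not at hge
    obtain ⟨n, rfl⟩ := Int.eq_ofNat_of_zero_le hge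
    apply hm0
    have h1 : (⟨ϖ ^ (n : ℤ) * a, hm⟩ : A) = ⟨ϖ, D.mem_A⟩ ^ n * a := by
      apply Subtype.ext
      show ϖ ^ (n : ℤ) * (a : Qb) = ϖ ^ n * a
      rw [zpow_natCast]
    rw [h1, map_mul, ha0, mul_zero]
  obtain ⟨n, hn⟩ : ∃ n : ℕ, m = -((n : ℤ) + 1) := ⟨(-m - 1).toNat, by omega⟩
  refine ⟨⟨ϖ, D.mem_A⟩ ^ n * ⟨ϖ ^ m * a, hm⟩, ?_⟩
  apply Subtype.ext
  show (a : Qb) = ϖ * (ϖ ^ n * (ϖ ^ m * a))
  rw [hn, ← mul_assoc, ← mul_assoc, ← pow_succ', ← zpow_natCast, ← zpow_add₀ D.ne]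
  have : ((n + 1 : ℕ) : ℤ) + -((n : ℤ) + 1) = 0 := by push_cast; ring
  rw [this, zpow_zero, one_mul]

/-- **The discretely valued context of the modular function field of level `M`, `p ∤ M`.** -/
noncomputable def discCtx (hp2 : 2 < p) (hpM : ¬ p ∣ M) {ζ : Aˣ}
    (hζ : IsPrimitiveRoot (Units.map (A.subtype : A →* Qb) ζ) p)
    (hζ1 : Units.map (π : A →* k) ζ = 1) (hπ : Function.Surjective π)
    (D : DiscFld A π L ϖ) (hζL : ((ζ : A) : Qb) ∈ L) (e₀ : ℕ) (he₀ : 0 < e₀) (ε : Qb)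
    (hε : ε ∈ A) (hpε : (p : Qb) = ε * ϖ ^ ((p - 1) * e₀)) :
    DiscCtx (locCtx (π := π) hζ hζ1) where
  hp2 := hp2
  E := fieldE L M
  L := L.map (algebraMap Qb (LaurentSeries Qb))
  L_le := by
    rintro _ ⟨a, ha, rfl⟩
    exact cst_mem_fieldE ha
  ϖ := cst ϖ
  ϖ_mem_L := ⟨ϖ, D.mem_L, rfl⟩
  ϖ_ne := cst_ne_zero D.ne
  ϖ_mem := cst_mem D.mem_A
  res_ϖ := by
    rw [LocCtx.res_eq _ (cst_mem D.mem_A)]
    have h := valRes_cst (π := π) (⟨ϖ, D.mem_A⟩ : A) (cst_mem D.mem_A)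
    refine h.trans ?_
    rw [D.map_eq, map_zero]
  discr f hf hf0 := by
    obtain ⟨m, y, z, hy, hz, hy0, hz0, heq⟩ := D.exists_rep M hf hf0
    have hrep : IsRep A π (cst (ϖ ^ m) * f) y z := ⟨hz0, heq⟩
    rw [cst_zpow] at hrep
    have hmem : (cst ϖ) ^ m * f ∈ valRing A π := ⟨_, _, hrep⟩
    refine ⟨m, hmem, ?_⟩
    rw [LocCtx.res_eq _ hmem]
    have h : valRes A π ⟨_, hmem⟩ = _ := valRes_eq hrep hmem
    intro h0
    have h0' : valRes A π ⟨_, hmem⟩ = 0 := h0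
    rw [h, div_eq_zero_iff] at h0'
    exact h0'.elim hy0 hz0
  V_const := by
    rintro _ ⟨a, -, rfl⟩
    exact qExpand_algebraMap p a
  N_const := by
    rintro _ ⟨a, -, rfl⟩
    show normOp p _ (cst a) = (cst a) ^ p
    apply qExpand_injective p
    rw [qExpand_normOp p hζ, map_pow, qExpand_algebraMap, prodTwist]
    rw [Finset.prod_congr rfl (fun i _ => twist_cst _ a), Finset.prod_const,
      Finset.card_range]
  T_mem f hf := T_mem_fieldE hpM hζ hζL hf
  res_const := by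
    rintro _ ⟨a, ha, rfl⟩ hmem
    have haA : a ∈ A := mem_of_cst_mem hπ hmem
    rw [LocCtx.res_eq _ hmem]
    exact ⟨π ⟨a, haA⟩, (valRes_cst (π := π) (⟨a, haA⟩ : A) hmem).symm⟩
  lift_const := by
    rintro _ ⟨c, rfl⟩
    obtain ⟨a, haL, haA, rfl⟩ := D.lift c
    have hmem : cst a ∈ valRing A π := cst_mem haA
    refine ⟨cst a, ⟨a, haL, rfl⟩, hmem, ?_⟩
    rw [LocCtx.res_eq _ hmem]
    exact valRes_cst (π := π) (⟨a, haA⟩ : A) hmem
  κ := (modularFunctionFieldFullC k M).toSubfield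
  res_mem f hf hmem := by
    rw [LocCtx.res_eq _ hmem]
    exact D.res_mem hπ (by rwa [ne_eq, CharP.cast_eq_zero_iff k p]) hf hmem
  lift c hc := by
    obtain ⟨f, hf, hmem, h⟩ := D.exists_lift M hc
    refine ⟨f, hf, hmem, ?_⟩
    rw [LocCtx.res_eq _ hmem]
    exact h
  κ_sat g hg := fullC_sat p M (by rwa [ne_eq, CharP.cast_eq_zero_iff k p]) g hg
  φ_κ g hg := H60.coeffMap_mem_fullC _ hg
  e₀ := e₀
  e₀_pos := he₀
  ε := cst ε
  ε_mem := cst_mem hε
  p_eq := by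
    rw [← cst_pow, ← cst_mul, ← hpε]
    exact (map_natCast (algebraMap Qb (LaurentSeries Qb)) p).symm
  N_one_add m hm u hu := by
    have h1 : π ((ζ : A) - 1) = 0 := by
      have := congrArg Units.val hζ1
      rw [map_sub, map_one, sub_eq_zero]
      exact this
    have h2 : (⟨ϖ, D.mem_A⟩ : A) ∣ (ζ : A) - 1 :=
      D.exists_pow_dvd (sub_mem hζL (one_mem _)) h1
    have hϖ0 : (⟨ϖ, D.mem_A⟩ : A) ≠ 0 := fun h => D.ne (congrArg Subtype.val h)
    have h3 := normHom_one_add hζ hζ1 (μ := ⟨ϖ, D.mem_A⟩ ^ m) (μ' := ⟨ϖ, D.mem_A⟩ ^ (m + 1))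
      (pow_ne_zero _ hϖ0) (by rw [pow_succ']; exact mul_dvd_mul_right h2 _)
      (by
        rw [← pow_mul]
        exact pow_dvd_pow _ (by nlinarith)) hu
    obtain ⟨w, hw, h4⟩ := h3
    refine ⟨w, hw, ?_⟩
    rw [← cst_pow, ← cst_pow]
    exact h4

end Hecke

end Fermat.Agent.H33
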