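import Mathlib.Algebra.CharP.Basic
import Mathlib.Algebra.Field.Subfield.Basic
import Mathlib.Algebra.CharP.Lemmas
import Mathlib.Algebra.Ring.Subring.Basic
import Mathlib.Tactic
import Mathlib.Data.Nat.Choose.Dvd

/-!
# Local analysis at `p` (helper33, for S33)

Abstract setting: `𝓛` is a field (think `K((q))`), `𝓥` a subring with a reduction map `r` onto
a subring of the field `𝓡` of characteristic `p` (think `k((q))`), `V` the lift `q ↦ q^p` and `N`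
the multiplicative operator `f ↦ ∏ f(ζ^i q^{1/p})`.
-/

set_option autoImplicit false

namespace Fermat.Agent.H33

theorem nat_aux {p e t : ℕ} (hp : 2 < p) (h : t < e) : p * t + 1 ≤ (p - 1) * e + t := by
  obtain ⟨q, rfl⟩ : ∃ q, p = q + 1 := ⟨p - 1, by omega⟩
  rw [Nat.add_sub_cancel]
  have h5 : q * t + q ≤ q * e := by
    calc q * t + q = q * (t + 1) := by ring
      _ ≤ q * e := Nat.mul_le_mul_left q h
  have h6 : (q + 1) * t = q * t + t := by ring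
  omega

theorem nat_aux2 {p : ℕ} (hp : 0 < p) (e : ℕ) : (p - 1) * e + e = p * e := by
  conv_rhs => rw [← Nat.sub_add_cancel (show 1 ≤ p from hp), add_mul, one_mul]

theorem nat_aux3 {p m : ℕ} (hp : 0 < p) (hm : 0 < m) :
    p * ((m - 1) / p) < m ∧ m ≤ p * ((m - 1) / p + 1) := by
  have h1 := Nat.mul_div_le (m - 1) p
  have h2 := Nat.lt_mul_div_succ (m - 1) hp
  omega

/-- `(1 + x)^p = 1 + x^p + p x + p x^2 s` -/
theorem one_add_pow_prime {R : Type*} [CommRing R] {p : ℕ} (hp : p.Prime) (x : R) :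
    ∃ s : R, (1 + x) ^ p = 1 + x ^ p + (p : R) * x + (p : R) * x ^ 2 * s := by
  rcases hp.two_le.eq_or_lt with h2 | hp2
  · subst h2
    exact ⟨0, by push_cast; ring⟩
  refine ⟨∑ k ∈ Finset.Ico 2 p, x ^ (k - 2) * ((p.choose k / p : ℕ) : R), ?_⟩
  rw [add_comm 1 x, _root_.add_pow, Finset.sum_range_succ, Finset.range_eq_Ico,
    Finset.sum_eq_sum_Ico_succ_bot (by omega), Finset.sum_eq_sum_Ico_succ_bot (by omega),
    Finset.mul_sum]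
  have : ∀ k ∈ Finset.Ico (0 + 1 + 1) p, x ^ k * 1 ^ (p - k) * ((p.choose k : ℕ) : R) =
      (p : R) * x ^ 2 * (x ^ (k - 2) * ((p.choose k / p : ℕ) : R)) := by
    intro k hk
    rw [Finset.mem_Ico] at hk
    have hdvd : p ∣ p.choose k := Nat.Prime.dvd_choose_self hp (by omega) hk.2
    obtain ⟨c, hc⟩ := hdvd
    rw [hc, Nat.mul_div_cancel_left _ hp.pos, one_pow, mul_one]
    have : x ^ k = x ^ 2 * x ^ (k - 2) := by rw [← pow_add]; congr 1; omega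
    rw [this]
    push_cast
    ring
  rw [Finset.sum_congr rfl this]
  simp only [Nat.choose_self, Nat.choose_zero_right, zero_add, Nat.choose_one_right]
  simp
  ring

theorem one_add_pow_sq {R : Type*} [CommRing R] (x : R) (a : ℕ) :
    ∃ s : R, (1 + x) ^ a = 1 + (a : R) * x + x ^ 2 * s := by
  induction a with
  | zero => exact ⟨0, by simp⟩
  | succ a ih =>
    obtain ⟨s, hs⟩ := ih
    refine ⟨(a : R) + s + x * s, ?_⟩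
    rw [pow_succ, hs]
    push_cast
    ring

/-- The local context: a residue map `r : 𝓥 → 𝓡`. -/
structure LocCtx (𝓛 𝓡 : Type*) [Field 𝓛] [Field 𝓡] (p : ℕ) where
  /-- the integral elements -/
  𝓥 : Subring 𝓛
  /-- the reduction map -/
  r : 𝓥 →+* 𝓡
  inv_mem : ∀ f : 𝓥, r f ≠ 0 → (f : 𝓛)⁻¹ ∈ 𝓥
  /-- the map `q ↦ q^p` -/
  V : 𝓛 →+* 𝓛
  V_mem : ∀ f ∈ 𝓥, V f ∈ 𝓥
  /-- the map `q ↦ q^p` on the reduction -/
  Vb : 𝓡 →+* 𝓡
  r_V : ∀ f : 𝓥, r ⟨V f, V_mem f f.2⟩ = Vb (r f)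
  /-- the coefficientwise Frobenius -/
  φ : 𝓡 ≃+* 𝓡
  Vb_φ : ∀ x, Vb (φ x) = x ^ p
  /-- the constants -/
  𝓚 : Subfield 𝓡
  Vb_const : ∀ c ∈ 𝓚, Vb c = c
  exists_pow : ∀ c ∈ 𝓚, ∃ d ∈ 𝓚, d ^ p = c
  exists_AS : ∀ c ∈ 𝓚, ∃ d ∈ 𝓚, d ^ p - d = c
  fixed : ∀ n : ℕ, 0 < n → ∀ x : 𝓡, (Vb^[n]) x - x ∈ 𝓚 → x ∈ 𝓚
  /-- the norm operator -/
  N : 𝓛 →* 𝓛
  N_mem : ∀ f ∈ 𝓥, N f ∈ 𝓥
  r_N : ∀ f : 𝓥, r ⟨N f, N_mem f f.2⟩ = φ (r f)
  hp : p.Prime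
  char : CharP 𝓡 p

namespace LocCtx

variable {𝓛 𝓡 : Type*} [Field 𝓛] [Field 𝓡] {p : ℕ} (C : LocCtx 𝓛 𝓡 p)

open Classical in
/-- the reduction, extended by `0` -/
noncomputable def res (f : 𝓛) : 𝓡 := if h : f ∈ C.𝓥 then C.r ⟨f, h⟩ else 0

theorem res_eq {f : 𝓛} (h : f ∈ C.𝓥) : C.res f = C.r ⟨f, h⟩ := dif_pos h

theorem res_add {f g : 𝓛} (hf : f ∈ C.𝓥) (hg : g ∈ C.𝓥) : C.res (f + g) = C.res f + C.res g := by
  rw [C.res_eq hf, C.res_eq hg, C.res_eq (add_mem hf hg), ← map_add]; rfl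

theorem res_sub {f g : 𝓛} (hf : f ∈ C.𝓥) (hg : g ∈ C.𝓥) : C.res (f - g) = C.res f - C.res g := by
  rw [C.res_eq hf, C.res_eq hg, C.res_eq (sub_mem hf hg), ← map_sub]; rfl

theorem res_neg {f : 𝓛} (hf : f ∈ C.𝓥) : C.res (-f) = -C.res f := by
  rw [C.res_eq hf, C.res_eq (neg_mem hf), ← map_neg]; rfl

theorem res_mul {f g : 𝓛} (hf : f ∈ C.𝓥) (hg : g ∈ C.𝓥) : C.res (f * g) = C.res f * C.res g := by
  rw [C.res_eq hf, C.res_eq hg, C.res_eq (mul_mem hf hg), ← map_mul]; rfl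

theorem res_pow {f : 𝓛} (hf : f ∈ C.𝓥) (n : ℕ) : C.res (f ^ n) = C.res f ^ n := by
  rw [C.res_eq hf, C.res_eq (pow_mem hf n), ← map_pow]; rfl

@[simp] theorem res_one : C.res 1 = 1 := by rw [C.res_eq (one_mem _)]; exact map_one _

@[simp] theorem res_zero : C.res 0 = 0 := by rw [C.res_eq (zero_mem _)]; exact map_zero _

theorem inv_mem' {f : 𝓛} (hf : f ∈ C.𝓥) (h : C.res f ≠ 0) : f⁻¹ ∈ C.𝓥 :=
  C.inv_mem ⟨f, hf⟩ (by rwa [C.res_eq hf] at h)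

theorem ne_zero_of_res {f : 𝓛} (h : C.res f ≠ 0) : f ≠ 0 := by
  rintro rfl; simp at h

theorem res_inv {f : 𝓛} (hf : f ∈ C.𝓥) (h : C.res f ≠ 0) : C.res f⁻¹ = (C.res f)⁻¹ := by
  have h1 := C.res_mul hf (C.inv_mem' hf h)
  rw [mul_inv_cancel₀ (C.ne_zero_of_res h), res_one] at h1
  exact (eq_inv_of_mul_eq_one_right h1.symm)

theorem res_V {f : 𝓛} (hf : f ∈ C.𝓥) : C.res (C.V f) = C.Vb (C.res f) := by
  rw [C.res_eq hf, C.res_eq (C.V_mem f hf)]; exact C.r_V ⟨f, hf⟩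

theorem res_N {f : 𝓛} (hf : f ∈ C.𝓥) : C.res (C.N f) = C.φ (C.res f) := by
  rw [C.res_eq hf, C.res_eq (C.N_mem f hf)]; exact C.r_N ⟨f, hf⟩

theorem Vb_eq (x : 𝓡) : C.Vb x = (C.φ.symm x) ^ p := by
  rw [← C.Vb_φ, RingEquiv.apply_symm_apply]

include C in
theorem pow_inj {x y : 𝓡} (h : x ^ p = y ^ p) : x = y := by
  have := C.char
  have : ExpChar 𝓡 p := ExpChar.prime C.hp
  exact frobenius_inj 𝓡 p h

theorem mem_of_pow_mem {x : 𝓡} (h : x ^ p ∈ C.𝓚) : x ∈ C.𝓚 := by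
  obtain ⟨d, hd, hdx⟩ := C.exists_pow _ h
  rwa [C.pow_inj hdx] at hd

include C in
theorem add_pow (x y : 𝓡) : (x + y) ^ p = x ^ p + y ^ p := by
  have := C.char
  have : ExpChar 𝓡 p := ExpChar.prime C.hp
  exact add_pow_expChar x y p

include C in
theorem sub_pow (x y : 𝓡) : (x - y) ^ p = x ^ p - y ^ p := by
  have := C.char
  have : ExpChar 𝓡 p := ExpChar.prime C.hp
  exact sub_pow_expChar x y

theorem φ_const {c : 𝓡} (hc : c ∈ C.𝓚) : C.φ c = c ^ p := by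
  apply C.Vb.injective
  rw [C.Vb_φ, C.Vb_const _ (pow_mem hc p)]

/-- **Case N** (abstract): `G x = (B x)^p / N (G (w x))` and all `G x` are `1` modulo `μ` up to
`p`-th powers in `F`. Then the same holds modulo every power of `μ`. -/
theorem close_new (F : Subfield 𝓛) (hNF : ∀ f ∈ F, C.N f ∈ F) (μ : 𝓛) (hμ : μ ∈ C.𝓥)
    (hμ0 : C.res μ = 0)
    (hN : ∀ i : ℕ, 0 < i → ∀ u ∈ C.𝓥, ∃ w ∈ C.𝓥, C.N (1 + μ ^ i * u) = 1 + μ ^ (i + 1) * w)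
    {W : Type*} (w : W → W) (G B : W → 𝓛) (hB : ∀ x, B x ∈ F) (hB0 : ∀ x, B x ≠ 0)
    (hrel : ∀ x, G x = B x ^ p * (C.N (G (w x)))⁻¹)
    (h1 : ∀ x, ∃ U ∈ F, U ≠ 0 ∧ ∃ u ∈ C.𝓥, G x * U ^ p = 1 + μ * u) (i : ℕ) (hi : 1 ≤ i) (x : W) :
    ∃ U ∈ F, U ≠ 0 ∧ ∃ u ∈ C.𝓥, G x * U ^ p = 1 + μ ^ i * u := by
  induction i, hi using Nat.le_induction generalizing x with
  | base => simpa using h1 x
  | succ i hi ih =>
    obtain ⟨U, hU, hU0, u, hu, heq⟩ := ih (w x)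
    obtain ⟨v, hv, hNv⟩ := hN i hi u hu
    have hmem : 1 + μ ^ (i + 1) * v ∈ C.𝓥 := add_mem (one_mem _) (mul_mem (pow_mem hμ _) hv)
    have hres : C.res (1 + μ ^ (i + 1) * v) = 1 := by
      rw [C.res_add (one_mem _) (mul_mem (pow_mem hμ _) hv), C.res_mul (pow_mem hμ _) hv,
        C.res_pow hμ, hμ0, C.res_one]
      simp
    have hne : 1 + μ ^ (i + 1) * v ≠ 0 := C.ne_zero_of_res (by rw [hres]; exact one_ne_zero)
    have hinv : (1 + μ ^ (i + 1) * v)⁻¹ ∈ C.𝓥 := C.inv_mem' hmem (by rw [hres]; exact one_ne_zero)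
    have hNU : C.N U ≠ 0 := by
      intro h0
      have h1 : C.N U * C.N U⁻¹ = 1 := by rw [← map_mul, mul_inv_cancel₀ hU0, map_one]
      rw [h0, zero_mul] at h1
      exact zero_ne_one h1
    have h2 : C.N (G (w x)) * C.N U ^ p = 1 + μ ^ (i + 1) * v := by
      rw [← map_pow, ← map_mul, heq, hNv]
    refine ⟨(B x)⁻¹ * (C.N U)⁻¹, mul_mem (F.inv_mem (hB x)) (F.inv_mem (hNF U hU)),
      mul_ne_zero (inv_ne_zero (hB0 x)) (inv_ne_zero hNU), -v * (1 + μ ^ (i + 1) * v)⁻¹,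
      mul_mem (neg_mem hv) hinv, ?_⟩
    have h3 : G x * ((B x)⁻¹ * (C.N U)⁻¹) ^ p = (1 + μ ^ (i + 1) * v)⁻¹ := by
      rw [hrel x, ← h2, mul_inv, mul_pow, inv_pow, inv_pow]
      have := pow_ne_zero p (hB0 x)
      field_simp
    rw [h3]
    field_simp
    ring

/-- Inertia acts on functions congruent to `1` modulo `λ^p` through the cyclotomic character,
modulo `λ^p 𝔪`. -/
theorem galois_one_add {τ : 𝓛 →+* 𝓛} (hτ : ∀ f ∈ C.𝓥, τ f ∈ C.𝓥)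
    (hτr : ∀ f ∈ C.𝓥, C.res (τ f) = C.res f) {lam α : 𝓛} (hlam : lam ∈ C.𝓥)
    (hlam0 : C.res lam = 0) (hα : α ∈ C.𝓥) (a : ℕ) (hαr : C.res α = (a : 𝓡))
    (hτlam : τ lam = α * lam) {u : 𝓛} (hu : u ∈ C.𝓥) :
    ∃ w ∈ C.𝓥, C.res w = 0 ∧ τ (1 + lam ^ p * u) * ((1 + lam ^ p * u) ^ a)⁻¹ = 1 + lam ^ p * w := by
  have hp0 := C.hp.pos
  have hlp : lam ^ p ∈ C.𝓥 := pow_mem hlam p
  obtain ⟨s, hs⟩ := one_add_pow_sq (⟨lam ^ p * u, mul_mem hlp hu⟩ : C.𝓥) a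
  have hexp := congrArg (fun z : C.𝓥 => (z : 𝓛)) hs
  push_cast at hexp
  have haV : (a : 𝓛) ∈ C.𝓥 := natCast_mem C.𝓥 a
  have hra : C.res (a : 𝓛) = (a : 𝓡) := by
    rw [C.res_eq haV]
    exact map_natCast C.r a
  have hsV : (s : 𝓛) ∈ C.𝓥 := s.2
  set Y := (a : 𝓛) * u + lam ^ p * (u ^ 2 * s) with hY
  have hYV : Y ∈ C.𝓥 := add_mem (mul_mem haV hu) (mul_mem hlp (mul_mem (pow_mem hu 2) hsV))
  have hexp' : (1 + lam ^ p * u) ^ a = 1 + lam ^ p * Y := by rw [hexp, hY]; ring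
  have hlpr : C.res (lam ^ p) = 0 := by rw [C.res_pow hlam, hlam0, zero_pow hp0.ne']
  have hZV : 1 + lam ^ p * Y ∈ C.𝓥 := add_mem (one_mem _) (mul_mem hlp hYV)
  have hZr : C.res (1 + lam ^ p * Y) = 1 := by
    rw [C.res_add (one_mem _) (mul_mem hlp hYV), C.res_mul hlp hYV, hlpr, C.res_one]
    simp
  have hZ0 : C.res (1 + lam ^ p * Y) ≠ 0 := by rw [hZr]; exact one_ne_zero
  have hZne : 1 + lam ^ p * Y ≠ 0 := C.ne_zero_of_res hZ0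
  have hZi : (1 + lam ^ p * Y)⁻¹ ∈ C.𝓥 := C.inv_mem' hZV hZ0
  have hτu := hτ u hu
  have hαp : α ^ p * τ u ∈ C.𝓥 := mul_mem (pow_mem hα p) hτu
  refine ⟨(α ^ p * τ u - Y) * (1 + lam ^ p * Y)⁻¹, mul_mem (sub_mem hαp hYV) hZi, ?_, ?_⟩
  · have : (a : 𝓡) ^ p = (a : 𝓡) := by
      have := C.char
      have : ExpChar 𝓡 p := ExpChar.prime C.hp
      have := map_natCast (frobenius 𝓡 p) a
      rwa [frobenius_def] at this
    rw [C.res_mul (sub_mem hαp hYV) hZi, C.res_sub hαp hYV, C.res_mul (pow_mem hα p) hτu,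
      C.res_pow hα, hαr, hτr u hu, hY, C.res_add (mul_mem haV hu)
        (mul_mem hlp (mul_mem (pow_mem hu 2) hsV)), C.res_mul haV hu, hra,
      C.res_mul hlp (mul_mem (pow_mem hu 2) hsV), hlpr, this]
    ring
  · rw [hexp', map_add, map_one, map_mul, map_pow, hτlam]
    field_simp
    ring

end LocCtx

/-- The discretely valued part: a subfield `E` of `𝓛` with constants `L`, uniformizer `ϖ`. -/
structure DiscCtx {𝓛 𝓡 : Type*} [Field 𝓛] [Field 𝓡] {p : ℕ} (C : LocCtx 𝓛 𝓡 p) where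
  hp2 : 2 < p
  /-- functions with coefficients in `L` -/
  E : Subfield 𝓛
  /-- constants -/
  L : Subfield 𝓛
  L_le : L ≤ E
  /-- uniformizer -/
  ϖ : 𝓛
  ϖ_mem_L : ϖ ∈ L
  ϖ_ne : ϖ ≠ 0
  ϖ_mem : ϖ ∈ C.𝓥
  res_ϖ : C.res ϖ = 0
  discr : ∀ f ∈ E, f ≠ 0 → ∃ m : ℤ, ϖ ^ m * f ∈ C.𝓥 ∧ C.res (ϖ ^ m * f) ≠ 0
  V_const : ∀ c ∈ L, C.V c = c
  N_const : ∀ c ∈ L, C.N c = c ^ p
  T_mem : ∀ f ∈ E, C.V f * C.N f ∈ E
  res_const : ∀ c ∈ L, c ∈ C.𝓥 → C.res c ∈ C.𝓚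
  lift_const : ∀ c ∈ C.𝓚, ∃ d ∈ L, d ∈ C.𝓥 ∧ C.res d = c
  /-- the residue field of `E` -/
  κ : Subfield 𝓡
  res_mem : ∀ f ∈ E, f ∈ C.𝓥 → C.res f ∈ κ
  lift : ∀ c ∈ κ, ∃ d ∈ E, d ∈ C.𝓥 ∧ C.res d = c
  κ_sat : ∀ g : 𝓡, g ^ p ∈ κ → g ∈ κ
  φ_κ : ∀ g ∈ κ, C.φ g ∈ κ
  /-- absolute ramification index divided by `p - 1` -/
  e₀ : ℕ
  e₀_pos : 0 < e₀
  /-- `p = ε ϖ^{(p-1) e₀}` -/
  ε : 𝓛
  ε_mem : ε ∈ C.𝓥
  p_eq : (p : 𝓛) = ε * ϖ ^ ((p - 1) * e₀)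
  N_one_add : ∀ m : ℕ, 0 < m → ∀ u ∈ C.𝓥, ∃ w ∈ C.𝓥, C.N (1 + ϖ ^ m * u) = 1 + ϖ ^ (m + 1) * w

namespace DiscCtx

variable {𝓛 𝓡 : Type*} [Field 𝓛] [Field 𝓡] {p : ℕ} {C : LocCtx 𝓛 𝓡 p} (D : DiscCtx C)

theorem mem_ϖ_pow (m : ℕ) : D.ϖ ^ m ∈ C.𝓥 := pow_mem D.ϖ_mem m

theorem ϖ_pow_ne (m : ℕ) : D.ϖ ^ m ≠ 0 := pow_ne_zero m D.ϖ_ne

theorem ϖ_mem_E : D.ϖ ∈ D.E := D.L_le D.ϖ_mem_L

theorem 𝓚_le : C.𝓚 ≤ D.κ := by
  intro c hc
  obtain ⟨d, hd, hd', rfl⟩ := D.lift_const c hc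
  exact D.res_mem d (D.L_le hd) hd'

theorem res_ϖ_pow {m : ℕ} (hm : 0 < m) : C.res (D.ϖ ^ m) = 0 := by
  rw [C.res_pow D.ϖ_mem, D.res_ϖ, zero_pow hm.ne']

theorem one_add_mem {m : ℕ} {u : 𝓛} (hu : u ∈ C.𝓥) : 1 + D.ϖ ^ m * u ∈ C.𝓥 :=
  add_mem (one_mem _) (mul_mem (D.mem_ϖ_pow m) hu)

theorem res_one_add {m : ℕ} (hm : 0 < m) {u : 𝓛} (hu : u ∈ C.𝓥) :
    C.res (1 + D.ϖ ^ m * u) = 1 := by
  rw [C.res_add (one_mem _) (mul_mem (D.mem_ϖ_pow m) hu), C.res_mul (D.mem_ϖ_pow m) hu,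
    D.res_ϖ_pow hm, zero_mul, add_zero, C.res_one]

theorem one_add_ne {m : ℕ} (hm : 0 < m) {u : 𝓛} (hu : u ∈ C.𝓥) : 1 + D.ϖ ^ m * u ≠ 0 :=
  C.ne_zero_of_res (by rw [D.res_one_add hm hu]; exact one_ne_zero)

/-- elements of `E` with zero reduction are divisible by `ϖ` -/
theorem exists_of_res_eq_zero {f : 𝓛} (hf : f ∈ D.E) (h : f ∈ C.𝓥) (h0 : C.res f = 0) :
    ∃ g ∈ D.E, g ∈ C.𝓥 ∧ f = D.ϖ * g := by
  rcases eq_or_ne f 0 with rfl | hf0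
  · exact ⟨0, zero_mem _, zero_mem _, by simp⟩
  obtain ⟨m, hm, hm0⟩ := D.discr f hf hf0
  have hmneg : m < 0 := by
    by_contra hge
    push Not at hge
    obtain ⟨n, rfl⟩ := Int.eq_ofNat_of_zero_le hge
    apply hm0
    rw [zpow_natCast, C.res_mul (D.mem_ϖ_pow n) h, h0, mul_zero]
  obtain ⟨n, hn⟩ : ∃ n : ℕ, m = -((n : ℤ) + 1) := ⟨(-m - 1).toNat, by omega⟩
  refine ⟨D.ϖ⁻¹ * f, mul_mem (inv_mem D.ϖ_mem_E) hf, ?_, ?_⟩
  · have : D.ϖ⁻¹ * f = D.ϖ ^ n * (D.ϖ ^ m * f) := by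
      rw [hn, ← mul_assoc, ← zpow_natCast, ← zpow_add₀ D.ϖ_ne]
      congr 1
      rw [show (n : ℤ) + -((n : ℤ) + 1) = -1 by ring, zpow_neg_one]
    rw [this]
    exact mul_mem (D.mem_ϖ_pow n) hm
  · rw [← mul_assoc, mul_inv_cancel₀ D.ϖ_ne, one_mul]

/-- `E` is closed under division by powers of `ϖ`. -/
theorem mem_E_of_one_add {m : ℕ} {u : 𝓛} (h : 1 + D.ϖ ^ m * u ∈ D.E) : u ∈ D.E := by
  have : u = (D.ϖ ^ m)⁻¹ * (1 + D.ϖ ^ m * u - 1) := by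
    rw [add_sub_cancel_left, ← mul_assoc, inv_mul_cancel₀ (D.ϖ_pow_ne m), one_mul]
  rw [this]
  exact mul_mem (inv_mem (pow_mem D.ϖ_mem_E m)) (sub_mem h (one_mem _))

theorem mem_L_of_one_add {m : ℕ} {u : 𝓛} (h : 1 + D.ϖ ^ m * u ∈ D.L) : u ∈ D.L := by
  have : u = (D.ϖ ^ m)⁻¹ * (1 + D.ϖ ^ m * u - 1) := by
    rw [add_sub_cancel_left, ← mul_assoc, inv_mul_cancel₀ (D.ϖ_pow_ne m), one_mul]
  rw [this]
  exact mul_mem (inv_mem (pow_mem D.ϖ_mem_L m)) (sub_mem h (one_mem _))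

/-- expansion of `(1 + ϖ^t h)^p` -/
theorem pow_expand (t : ℕ) {h : 𝓛} (hh : h ∈ C.𝓥) : ∃ s ∈ C.𝓥,
    (1 + D.ϖ ^ t * h) ^ p = 1 + D.ϖ ^ (p * t) * h ^ p + D.ϖ ^ ((p - 1) * D.e₀ + t) * (D.ε * h)
      + D.ϖ ^ ((p - 1) * D.e₀ + 2 * t) * s := by
  obtain ⟨s, hs⟩ := one_add_pow_prime C.hp (⟨D.ϖ ^ t * h, mul_mem (D.mem_ϖ_pow t) hh⟩ : C.𝓥)
  refine ⟨D.ε * h ^ 2 * s, mul_mem (mul_mem D.ε_mem (pow_mem hh 2)) s.2, ?_⟩
  have h1 := congrArg (fun z : C.𝓥 => (z : 𝓛)) hs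
  push_cast at h1
  rw [h1, D.p_eq]
  ring

/-- Normal form for `c H^p ∈ 1 + ϖ^m 𝓥`: `c H^p = c' (1 + ϖ^t h)^p` with `p (t-1) < m`. -/
theorem exists_normal {m : ℕ} (hm : 0 < m) (hm' : m ≤ p * D.e₀) {H c : 𝓛} (hH : H ∈ D.E)
    (hH0 : H ≠ 0) (hc : c ∈ D.L) (hc0 : c ≠ 0) {w : 𝓛} (hw : w ∈ C.𝓥)
    (heq : c * H ^ p = 1 + D.ϖ ^ m * w) (t : ℕ) (ht : p * t < m) :
    ∃ h ∈ D.E, h ∈ C.𝓥 ∧ ∃ c' ∈ D.L, c' ≠ 0 ∧ c' ∈ C.𝓥 ∧ C.res c' = 1 ∧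
      c * H ^ p = c' * (1 + D.ϖ ^ (t + 1) * h) ^ p := by
  have hp := C.hp
  induction t with
  | zero =>
    obtain ⟨a, ha, ha0⟩ := D.discr H hH hH0
    set H₁ := D.ϖ ^ a * H with hH₁
    have hH₁0 : H₁ ≠ 0 := C.ne_zero_of_res ha0
    have hH₁E : H₁ ∈ D.E := mul_mem (zpow_mem D.ϖ_mem_E a) hH
    set c₁ := c * (D.ϖ ^ a)⁻¹ ^ p with hc₁
    have hc₁L : c₁ ∈ D.L := mul_mem hc (pow_mem (inv_mem (zpow_mem D.ϖ_mem_L a)) p)
    have hϖa : D.ϖ ^ a ≠ 0 := zpow_ne_zero a D.ϖ_ne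
    have h1 : c * H ^ p = c₁ * H₁ ^ p := by
      rw [hc₁, hH₁, mul_pow, mul_assoc, ← mul_assoc ((D.ϖ ^ a)⁻¹ ^ p), ← mul_pow,
        inv_mul_cancel₀ hϖa, one_pow, one_mul]
    have hres1 : C.res (c * H ^ p) = 1 := by rw [heq]; exact D.res_one_add hm hw
    have hmem1 : c * H ^ p ∈ C.𝓥 := by rw [heq]; exact D.one_add_mem hw
    -- `c₁` is a unit
    have hc₁mem : c₁ ∈ C.𝓥 := by
      have : c₁ = (c * H ^ p) * (H₁ ^ p)⁻¹ := by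
        rw [h1, mul_assoc, mul_inv_cancel₀ (pow_ne_zero p hH₁0), mul_one]
      rw [this]
      refine mul_mem hmem1 (C.inv_mem' (pow_mem ha p) ?_)
      rw [C.res_pow ha]
      exact pow_ne_zero p ha0
    have h2 : C.res c₁ * C.res H₁ ^ p = 1 := by
      rw [← C.res_pow ha, ← C.res_mul hc₁mem (pow_mem ha p), ← h1, hres1]
    have hH₁K : C.res H₁ ∈ C.𝓚 := by
      apply C.mem_of_pow_mem
      have : C.res H₁ ^ p = (C.res c₁)⁻¹ := (eq_inv_of_mul_eq_one_right h2)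
      rw [this]
      exact inv_mem (D.res_const _ hc₁L hc₁mem)
    obtain ⟨d, hdL, hdV, hd⟩ := D.lift_const _ hH₁K
    have hd0 : C.res d ≠ 0 := by rw [hd]; exact ha0
    have hdinv : d⁻¹ ∈ C.𝓥 := C.inv_mem' hdV hd0
    have hdne : d ≠ 0 := C.ne_zero_of_res hd0
    have h3 : C.res (d⁻¹ * H₁ - 1) = 0 := by
      rw [C.res_sub (mul_mem hdinv ha) (one_mem _), C.res_mul hdinv ha, C.res_inv hdV hd0, hd,
        inv_mul_cancel₀ ha0, C.res_one, sub_self]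
    obtain ⟨h, hhE, hhV, hh⟩ := D.exists_of_res_eq_zero
      (sub_mem (mul_mem (inv_mem (D.L_le hdL)) hH₁E) (one_mem _))
      (sub_mem (mul_mem hdinv ha) (one_mem _)) h3
    refine ⟨h, hhE, hhV, c₁ * d ^ p, mul_mem hc₁L (pow_mem hdL p),
      mul_ne_zero (mul_ne_zero hc0 (pow_ne_zero p (inv_ne_zero hϖa))) (pow_ne_zero p hdne),
      mul_mem hc₁mem (pow_mem hdV p), ?_, ?_⟩
    · rw [C.res_mul hc₁mem (pow_mem hdV p), C.res_pow hdV, hd, h2]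
    · have h4 : H₁ = d * (1 + D.ϖ ^ (0 + 1) * h) := by
        rw [zero_add, pow_one, ← hh, add_sub_cancel, ← mul_assoc, mul_inv_cancel₀ hdne, one_mul]
      rw [h1]
      conv_lhs => rw [h4]
      rw [mul_pow]
      ring
  | succ t ih =>
    obtain ⟨h, hhE, hhV, c', hc'L, hc'0, hc'V, hc'r, hh⟩ := ih (by
      have : p * t ≤ p * (t + 1) := Nat.mul_le_mul_left p (Nat.le_succ t)
      omega)
    obtain ⟨s, hs, hexp⟩ := D.pow_expand (t + 1) hhV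
    -- `(p-1) e₀ + (t+1) ≥ p (t+1) + 1`
    have hlt : t + 1 < D.e₀ := by
      by_contra hge
      push Not at hge
      have : p * D.e₀ ≤ p * (t + 1) := Nat.mul_le_mul_left p hge
      omega
    have hge1 : p * (t + 1) + 1 ≤ (p - 1) * D.e₀ + (t + 1) := nat_aux D.hp2 hlt
    -- hence `c' - 1 ≡ - ϖ^{p(t+1)} h^p`
    obtain ⟨a, ha⟩ := Nat.exists_eq_add_of_le hge1
    obtain ⟨a', ha'⟩ : ∃ a', (p - 1) * D.e₀ + 2 * (t + 1) = (p * (t + 1) + 1) + a' :=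
      Nat.exists_eq_add_of_le (by omega)
    obtain ⟨b, hb⟩ := Nat.exists_eq_add_of_le (show p * (t + 1) + 1 ≤ m from ht)
    set e := p * (t + 1) with he
    have hϖe := D.ϖ_pow_ne e
    set y := (D.ϖ ^ e)⁻¹ * (c' - 1) with hy
    have hyL : y ∈ D.L := mul_mem (inv_mem (pow_mem D.ϖ_mem_L e)) (sub_mem hc'L (one_mem _))
    have hc'y : c' = 1 + D.ϖ ^ e * y := by
      rw [hy, ← mul_assoc, mul_inv_cancel₀ hϖe, one_mul, add_sub_cancel]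
    have hkey : y = D.ϖ * (D.ϖ ^ b * w) - c' * (h ^ p + D.ϖ * (D.ϖ ^ a * (D.ε * h))
        + D.ϖ * (D.ϖ ^ a' * s)) := by
      have h7 : 1 + D.ϖ ^ m * w = c' * (1 + D.ϖ ^ (t + 1) * h) ^ p := by rw [← heq, hh]
      rw [hexp, hb, ha, ha'] at h7
      have h8 : D.ϖ ^ e * y = D.ϖ ^ e * (D.ϖ * (D.ϖ ^ b * w) - c' * (h ^ p
          + D.ϖ * (D.ϖ ^ a * (D.ε * h)) + D.ϖ * (D.ϖ ^ a' * s))) := by
        have h9 : D.ϖ ^ e * y = c' - 1 := by rw [hc'y]; ring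
        rw [h9]
        have e1 : D.ϖ ^ (e + 1 + b) = D.ϖ ^ e * D.ϖ * D.ϖ ^ b := by rw [pow_add, pow_add, pow_one]
        have e2 : D.ϖ ^ (e + 1 + a) = D.ϖ ^ e * D.ϖ * D.ϖ ^ a := by rw [pow_add, pow_add, pow_one]
        have e3 : D.ϖ ^ (e + 1 + a') = D.ϖ ^ e * D.ϖ * D.ϖ ^ a' := by
          rw [pow_add, pow_add, pow_one]
        rw [e1, e2, e3] at h7
        linear_combination -h7
      exact mul_left_cancel₀ hϖe h8
    have hmA : D.ϖ ^ b * w ∈ C.𝓥 := mul_mem (D.mem_ϖ_pow b) hw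
    have hmB : D.ϖ ^ a * (D.ε * h) ∈ C.𝓥 := mul_mem (D.mem_ϖ_pow a) (mul_mem D.ε_mem hhV)
    have hmC : D.ϖ ^ a' * s ∈ C.𝓥 := mul_mem (D.mem_ϖ_pow a') hs
    have hmD : h ^ p + D.ϖ * (D.ϖ ^ a * (D.ε * h)) + D.ϖ * (D.ϖ ^ a' * s) ∈ C.𝓥 :=
      add_mem (add_mem (pow_mem hhV p) (mul_mem D.ϖ_mem hmB)) (mul_mem D.ϖ_mem hmC)
    have hyV : y ∈ C.𝓥 := by
      rw [hkey]
      exact sub_mem (mul_mem D.ϖ_mem hmA) (mul_mem hc'V hmD)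
    have hyr : C.res y = - C.res h ^ p := by
      rw [hkey, C.res_sub (mul_mem D.ϖ_mem hmA) (mul_mem hc'V hmD), C.res_mul hc'V hmD, hc'r,
        C.res_add (add_mem (pow_mem hhV p) (mul_mem D.ϖ_mem hmB)) (mul_mem D.ϖ_mem hmC),
        C.res_add (pow_mem hhV p) (mul_mem D.ϖ_mem hmB), C.res_mul D.ϖ_mem hmA,
        C.res_mul D.ϖ_mem hmB, C.res_mul D.ϖ_mem hmC, D.res_ϖ, C.res_pow hhV]
      ring
    have hhK : C.res h ∈ C.𝓚 := by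
      apply C.mem_of_pow_mem
      have := D.res_const y hyL hyV
      rw [hyr] at this
      exact neg_mem_iff.mp this
    obtain ⟨d, hdL, hdV, hd⟩ := D.lift_const _ hhK
    obtain ⟨g, hgE, hgV, hg⟩ := D.exists_of_res_eq_zero (sub_mem hhE (D.L_le hdL))
      (sub_mem hhV hdV) (by rw [C.res_sub hhV hdV, hd, sub_self])
    set z := 1 + D.ϖ ^ (t + 1) * d with hz
    have hzV : z ∈ C.𝓥 := D.one_add_mem hdV
    have hzr : C.res z = 1 := D.res_one_add (Nat.succ_pos t) hdV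
    have hz0 : z ≠ 0 := D.one_add_ne (Nat.succ_pos t) hdV
    have hzinv : z⁻¹ ∈ C.𝓥 := C.inv_mem' hzV (by rw [hzr]; exact one_ne_zero)
    have hzL : z ∈ D.L := add_mem (one_mem _) (mul_mem (pow_mem D.ϖ_mem_L _) hdL)
    refine ⟨z⁻¹ * g, mul_mem (inv_mem (D.L_le hzL)) hgE, mul_mem hzinv hgV, c' * z ^ p,
      mul_mem hc'L (pow_mem hzL p), mul_ne_zero hc'0 (pow_ne_zero p hz0),
      mul_mem hc'V (pow_mem hzV p), ?_, ?_⟩
    · rw [C.res_mul hc'V (pow_mem hzV p), C.res_pow hzV, hzr, hc'r, one_pow, one_mul]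
    · rw [hh, mul_assoc, ← mul_pow]
      congr 2
      rw [mul_add, mul_one, hz]
      have h10 : (1 + D.ϖ ^ (t + 1) * d) * (D.ϖ ^ (t + 1 + 1) * ((1 + D.ϖ ^ (t + 1) * d)⁻¹ * g)) =
          D.ϖ ^ (t + 1 + 1) * g := by
        rw [mul_left_comm, ← mul_assoc (1 + D.ϖ ^ (t + 1) * d), mul_inv_cancel₀ hz0, one_mul]
      rw [h10, pow_succ D.ϖ (t + 1), mul_assoc, ← hg]
      ring

/-- The coefficient of `ϖ^m` of a `p`-th power times a constant, general form. -/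
theorem root_coeff_aux {m : ℕ} (hm : 0 < m) (hm' : m ≤ p * D.e₀) {H c : 𝓛} (hH : H ∈ D.E)
    (hH0 : H ≠ 0) (hc : c ∈ D.L) (hc0 : c ≠ 0) {w : 𝓛} (hw : w ∈ C.𝓥)
    (heq : c * H ^ p = 1 + D.ϖ ^ m * w) (t : ℕ) (ht : p * t < m) (a b d : ℕ)
    (ha : p * (t + 1) = m + a) (hb : (p - 1) * D.e₀ + (t + 1) = m + b)
    (hd : (p - 1) * D.e₀ + 2 * (t + 1) = m + (d + 1)) :
    ∃ h ∈ D.E, h ∈ C.𝓥 ∧ ∃ y ∈ D.L, y ∈ C.𝓥 ∧
      C.res w = C.res y + C.res (D.ϖ ^ a) * C.res h ^ p + C.res (D.ϖ ^ b) * (C.res D.ε * C.res h)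
      := by
  obtain ⟨h, hhE, hhV, c', hc'L, hc'0, hc'V, hc'r, hh⟩ :=
    D.exists_normal hm hm' hH hH0 hc hc0 hw heq t ht
  obtain ⟨s, hs, hexp⟩ := D.pow_expand (t + 1) hhV
  rw [hh, hexp, ha, hb, hd] at heq
  have hϖm := D.ϖ_pow_ne m
  set y := (D.ϖ ^ m)⁻¹ * (c' - 1) with hy
  have hyL : y ∈ D.L := mul_mem (inv_mem (pow_mem D.ϖ_mem_L m)) (sub_mem hc'L (one_mem _))
  have hc'y : c' = 1 + D.ϖ ^ m * y := by
    rw [hy, ← mul_assoc, mul_inv_cancel₀ hϖm, one_mul, add_sub_cancel]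
  set X := D.ϖ ^ a * h ^ p + D.ϖ ^ b * (D.ε * h) + D.ϖ * (D.ϖ ^ d * s) with hX
  have hm1 : D.ϖ ^ a * h ^ p ∈ C.𝓥 := mul_mem (D.mem_ϖ_pow a) (pow_mem hhV p)
  have hm2 : D.ϖ ^ b * (D.ε * h) ∈ C.𝓥 := mul_mem (D.mem_ϖ_pow b) (mul_mem D.ε_mem hhV)
  have hm3 : D.ϖ ^ d * s ∈ C.𝓥 := mul_mem (D.mem_ϖ_pow d) hs
  have hXV : X ∈ C.𝓥 := add_mem (add_mem hm1 hm2) (mul_mem D.ϖ_mem hm3)
  have hkey : w = y + c' * X := by
    have h8 : D.ϖ ^ m * w = D.ϖ ^ m * (y + c' * X) := by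
      have h9 : D.ϖ ^ m * y = c' - 1 := by rw [hc'y]; ring
      rw [mul_add, h9, hX]
      rw [pow_add, pow_add, pow_add, pow_add, pow_one] at heq
      linear_combination -heq
    exact mul_left_cancel₀ hϖm h8
  have hyV : y ∈ C.𝓥 := by
    have : y = w - c' * X := by rw [hkey]; ring
    rw [this]
    exact sub_mem hw (mul_mem hc'V hXV)
  refine ⟨h, hhE, hhV, y, hyL, hyV, ?_⟩
  rw [hkey, C.res_add hyV (mul_mem hc'V hXV), C.res_mul hc'V hXV, hc'r, hX,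
    C.res_add (add_mem hm1 hm2) (mul_mem D.ϖ_mem hm3), C.res_add hm1 hm2,
    C.res_mul (D.mem_ϖ_pow a) (pow_mem hhV p), C.res_mul (D.mem_ϖ_pow b) (mul_mem D.ε_mem hhV),
    C.res_mul D.ϖ_mem hm3, D.res_ϖ, C.res_pow hhV, C.res_mul D.ε_mem hhV]
  ring

/-- Below the critical level the coefficient of a `p`-th power is a `p`-th power in `κ`, and is
constant if `p ∤ m`. -/
theorem root_coeff {m : ℕ} (hm : 0 < m) (hm' : m < p * D.e₀) {H c : 𝓛} (hH : H ∈ D.E)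
    (hH0 : H ≠ 0) (hc : c ∈ D.L) (hc0 : c ≠ 0) {w : 𝓛} (hw : w ∈ C.𝓥)
    (heq : c * H ^ p = 1 + D.ϖ ^ m * w) :
    (¬ p ∣ m → C.res w ∈ C.𝓚) ∧ ∃ ν ∈ D.κ, C.res w = ν ^ p := by
  have hp0 := C.hp.pos
  set t := (m - 1) / p with ht
  have h1 : p * t < m := (nat_aux3 hp0 hm).1
  have h2 : m ≤ p * (t + 1) := (nat_aux3 hp0 hm).2
  have hte : t < D.e₀ := by
    by_contra hge
    push Not at hge
    have : p * D.e₀ ≤ p * t := Nat.mul_le_mul_left p hge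
    omega
  have h3 : m + 1 ≤ (p - 1) * D.e₀ + (t + 1) := by
    rcases Nat.lt_or_ge (t + 1) D.e₀ with hlt | hge
    · have := nat_aux D.hp2 hlt
      omega
    · have hE : D.e₀ = t + 1 := by omega
      rw [← hE]
      have := nat_aux2 hp0 D.e₀
      omega
  obtain ⟨a, ha⟩ := Nat.exists_eq_add_of_le h2
  obtain ⟨b, hb⟩ := Nat.exists_eq_add_of_le h3
  obtain ⟨d, hd⟩ : ∃ d, (p - 1) * D.e₀ + 2 * (t + 1) = m + (d + 1) :=
    ⟨(p - 1) * D.e₀ + 2 * (t + 1) - m - 1, by omega⟩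
  obtain ⟨h, hhE, hhV, y, hyL, hyV, hres⟩ :=
    D.root_coeff_aux hm hm'.le hH hH0 hc hc0 hw heq t h1 a (b + 1) d ha (by omega) hd
  rw [D.res_ϖ_pow (Nat.succ_pos b), zero_mul, add_zero] at hres
  constructor
  · intro hpm
    have ha0 : 0 < a := by
      rcases Nat.eq_zero_or_pos a with rfl | h
      · exact absurd ⟨t + 1, by omega⟩ hpm
      · exact h
    rw [D.res_ϖ_pow ha0, zero_mul, add_zero] at hres
    rw [hres]
    exact D.res_const y hyL hyV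
  · obtain ⟨z, hz, hzp⟩ := C.exists_pow _ (D.res_const y hyL hyV)
    rcases Nat.eq_zero_or_pos a with rfl | ha0
    · refine ⟨z + C.res h, add_mem (D.𝓚_le hz) (D.res_mem h hhE hhV), ?_⟩
      rw [C.add_pow, hzp, hres, pow_zero, C.res_one, one_mul]
    · refine ⟨z, D.𝓚_le hz, ?_⟩
      rw [hzp, hres, D.res_ϖ_pow ha0, zero_mul, add_zero]

/-- At the critical level the coefficient of a `p`-th power is `h^p + ε h + c`. -/
theorem root_coeff_crit {H c : 𝓛} (hH : H ∈ D.E)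
    (hH0 : H ≠ 0) (hc : c ∈ D.L) (hc0 : c ≠ 0) {w : 𝓛} (hw : w ∈ C.𝓥)
    (heq : c * H ^ p = 1 + D.ϖ ^ (p * D.e₀) * w) :
    ∃ h ∈ D.κ, ∃ y ∈ C.𝓚, C.res w = h ^ p + C.res D.ε * h + y := by
  have hp0 := C.hp.pos
  obtain ⟨t, ht⟩ : ∃ t, D.e₀ = t + 1 := ⟨D.e₀ - 1, by have := D.e₀_pos; omega⟩
  have h0 : (p - 1) * D.e₀ + (t + 1) = p * D.e₀ + 0 := by
    rw [← ht]
    exact nat_aux2 hp0 D.e₀
  obtain ⟨h, hhE, hhV, y, hyL, hyV, hres⟩ :=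
    D.root_coeff_aux (Nat.mul_pos hp0 D.e₀_pos) le_rfl hH hH0 hc hc0 hw heq t
      (by rw [ht]; exact Nat.mul_lt_mul_of_pos_left (Nat.lt_succ_self t) hp0) 0 0 t
      (by rw [ht, add_zero]) h0 (by rw [ht] at h0 ⊢; omega)
  refine ⟨C.res h, D.res_mem h hhE hhV, C.res y, D.res_const y hyL hyV, ?_⟩
  rw [hres, pow_zero, C.res_one]
  ring

/-! ### Closeness -/

/-- `G` is, up to constants and `p`-th powers in `E`, congruent to `1` modulo `ϖ^m`. -/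
def Close (m : ℕ) (G : 𝓛) : Prop :=
  ∃ U ∈ D.E, U ≠ 0 ∧ ∃ c ∈ D.L, c ≠ 0 ∧ ∃ u ∈ C.𝓥, c * G * U ^ p = 1 + D.ϖ ^ m * u

theorem div_one_add {m : ℕ} (hm : 0 < m) {u u' : 𝓛} (hu : u ∈ C.𝓥) (hu' : u' ∈ C.𝓥) :
    ∃ w ∈ C.𝓥, (1 + D.ϖ ^ m * u) * (1 + D.ϖ ^ m * u')⁻¹ = 1 + D.ϖ ^ m * w ∧
      C.res w = C.res u - C.res u' := by
  have h1 := D.one_add_mem (m := m) hu'
  have h2 := D.res_one_add hm hu'
  have h3 := D.one_add_ne hm hu'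
  have h4 : (1 + D.ϖ ^ m * u')⁻¹ ∈ C.𝓥 := C.inv_mem' h1 (by rw [h2]; exact one_ne_zero)
  refine ⟨(u - u') * (1 + D.ϖ ^ m * u')⁻¹, mul_mem (sub_mem hu hu') h4, ?_, ?_⟩
  · rw [← div_eq_mul_inv, ← div_eq_mul_inv]
    field_simp
    ring
  · rw [C.res_mul (sub_mem hu hu') h4, C.res_inv h1 (by rw [h2]; exact one_ne_zero), h2,
      C.res_sub hu hu', inv_one, mul_one]

/-- multiply an expression `1 + ϖ^m u` by an inverse to gain one power of `ϖ` -/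
theorem exists_succ_of_div {m : ℕ} (hm : 0 < m) {u u' : 𝓛} (hu : u ∈ C.𝓥) (huE : u ∈ D.E)
    (hu' : u' ∈ C.𝓥) (huE' : u' ∈ D.E) (h : C.res u = C.res u') :
    ∃ w ∈ C.𝓥, (1 + D.ϖ ^ m * u) * (1 + D.ϖ ^ m * u')⁻¹ = 1 + D.ϖ ^ (m + 1) * w := by
  obtain ⟨w, hw, hw1, hw2⟩ := D.div_one_add hm hu hu'
  have hE1 : ∀ {x : 𝓛}, x ∈ D.E → 1 + D.ϖ ^ m * x ∈ D.E := fun hx =>
    add_mem (one_mem _) (mul_mem (pow_mem D.ϖ_mem_E m) hx)
  have hwE : w ∈ D.E := by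
    apply D.mem_E_of_one_add (m := m)
    rw [← hw1]
    exact mul_mem (hE1 huE) (inv_mem (hE1 huE'))
  obtain ⟨g, hgE, hgV, hg⟩ := D.exists_of_res_eq_zero hwE hw (by rw [hw2, h, sub_self])
  exact ⟨g, hgV, by rw [hw1, hg]; ring⟩

theorem close_succ_of_const {m : ℕ} (hm : 0 < m) {G : 𝓛} (hG : G ∈ D.E) {U : 𝓛} (hU : U ∈ D.E)
    (hU0 : U ≠ 0) {c : 𝓛} (hc : c ∈ D.L) (hc0 : c ≠ 0) {u : 𝓛} (hu : u ∈ C.𝓥)
    (heq : c * G * U ^ p = 1 + D.ϖ ^ m * u) (hres : C.res u ∈ C.𝓚) : D.Close (m + 1) G := by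
  obtain ⟨d, hdL, hdV, hd⟩ := D.lift_const _ hres
  have huE : u ∈ D.E := by
    apply D.mem_E_of_one_add (m := m)
    rw [← heq]
    exact mul_mem (mul_mem (D.L_le hc) hG) (pow_mem hU p)
  obtain ⟨w, hw, hw1⟩ := D.exists_succ_of_div hm hu huE hdV (D.L_le hdL) hd.symm
  have hzL : 1 + D.ϖ ^ m * d ∈ D.L := add_mem (one_mem _) (mul_mem (pow_mem D.ϖ_mem_L m) hdL)
  refine ⟨U, hU, hU0, c * (1 + D.ϖ ^ m * d)⁻¹, mul_mem hc (inv_mem hzL),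
    mul_ne_zero hc0 (inv_ne_zero (D.one_add_ne hm hdV)), w, hw, ?_⟩
  rw [← hw1, ← heq]
  ring

theorem close_succ_of_pow {m : ℕ} (hm : 0 < m) (hpm : p ∣ m) (hm' : m < p * D.e₀) {G : 𝓛}
    (hG : G ∈ D.E) {U : 𝓛} (hU : U ∈ D.E)
    (hU0 : U ≠ 0) {c : 𝓛} (hc : c ∈ D.L) (hc0 : c ≠ 0) {u : 𝓛} (hu : u ∈ C.𝓥)
    (heq : c * G * U ^ p = 1 + D.ϖ ^ m * u) {ω : 𝓡} (hω : ω ∈ D.κ) (hres : C.res u = ω ^ p) :
    D.Close (m + 1) G := by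
  obtain ⟨t, rfl⟩ := hpm
  have hp0 := C.hp.pos
  have ht : 0 < t := Nat.pos_of_mul_pos_left hm
  have hte : t < D.e₀ := lt_of_mul_lt_mul_left hm' (Nat.zero_le p)
  obtain ⟨d, hdE, hdV, hd⟩ := D.lift ω hω
  have huE : u ∈ D.E := by
    apply D.mem_E_of_one_add (m := p * t)
    rw [← heq]
    exact mul_mem (mul_mem (D.L_le hc) hG) (pow_mem hU p)
  obtain ⟨s, hs, hexp⟩ := D.pow_expand t hdV
  have h1 := nat_aux D.hp2 hte
  obtain ⟨a, ha⟩ := Nat.exists_eq_add_of_le h1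
  obtain ⟨b, hb⟩ : ∃ b, (p - 1) * D.e₀ + 2 * t = p * t + 1 + b := Nat.exists_eq_add_of_le (by omega)
  set u' := d ^ p + D.ϖ * (D.ϖ ^ a * (D.ε * d) + D.ϖ ^ b * s) with hu'
  have hY : D.ϖ ^ a * (D.ε * d) + D.ϖ ^ b * s ∈ C.𝓥 :=
    add_mem (mul_mem (D.mem_ϖ_pow a) (mul_mem D.ε_mem hdV)) (mul_mem (D.mem_ϖ_pow b) hs)
  have hu'V : u' ∈ C.𝓥 := add_mem (pow_mem hdV p) (mul_mem D.ϖ_mem hY)
  have hexp' : (1 + D.ϖ ^ t * d) ^ p = 1 + D.ϖ ^ (p * t) * u' := by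
    rw [hexp, ha, hb, hu', pow_add, pow_add, pow_add, pow_one]
    ring
  have hzE : 1 + D.ϖ ^ t * d ∈ D.E := add_mem (one_mem _) (mul_mem (pow_mem D.ϖ_mem_E t) hdE)
  have hu'E : u' ∈ D.E := by
    apply D.mem_E_of_one_add (m := p * t)
    rw [← hexp']
    exact pow_mem hzE p
  have hres' : C.res u = C.res u' := by
    rw [hres, hu', C.res_add (pow_mem hdV p) (mul_mem D.ϖ_mem hY), C.res_mul D.ϖ_mem hY, D.res_ϖ,
      zero_mul, add_zero, C.res_pow hdV, hd]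
  obtain ⟨w, hw, hw1⟩ := D.exists_succ_of_div hm hu huE hu'V hu'E hres'
  refine ⟨U * (1 + D.ϖ ^ t * d)⁻¹, mul_mem hU (inv_mem hzE),
    mul_ne_zero hU0 (inv_ne_zero (D.one_add_ne ht hdV)), c, hc, hc0, w, hw, ?_⟩
  rw [← hw1, ← heq, ← hexp', mul_pow, inv_pow]
  ring

theorem close_succ_of_AS {G : 𝓛}
    (hG : G ∈ D.E) {U : 𝓛} (hU : U ∈ D.E)
    (hU0 : U ≠ 0) {c : 𝓛} (hc : c ∈ D.L) (hc0 : c ≠ 0) {u : 𝓛} (hu : u ∈ C.𝓥)
    (heq : c * G * U ^ p = 1 + D.ϖ ^ (p * D.e₀) * u) {ω : 𝓡} (hω : ω ∈ D.κ)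
    (hres : C.res u = ω ^ p + C.res D.ε * ω) :
    D.Close (p * D.e₀ + 1) G := by
  have hp0 := C.hp.pos
  have hm : 0 < p * D.e₀ := Nat.mul_pos hp0 D.e₀_pos
  obtain ⟨d, hdE, hdV, hd⟩ := D.lift ω hω
  have huE : u ∈ D.E := by
    apply D.mem_E_of_one_add (m := p * D.e₀)
    rw [← heq]
    exact mul_mem (mul_mem (D.L_le hc) hG) (pow_mem hU p)
  obtain ⟨s, hs, hexp⟩ := D.pow_expand D.e₀ hdV
  have h1 := nat_aux2 hp0 D.e₀
  obtain ⟨b, hb⟩ : ∃ b, (p - 1) * D.e₀ + 2 * D.e₀ = p * D.e₀ + 1 + b :=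
    Nat.exists_eq_add_of_le (by have := D.e₀_pos; omega)
  set u' := d ^ p + D.ε * d + D.ϖ * (D.ϖ ^ b * s) with hu'
  have hY : D.ϖ ^ b * s ∈ C.𝓥 := mul_mem (D.mem_ϖ_pow b) hs
  have hZ : d ^ p + D.ε * d ∈ C.𝓥 := add_mem (pow_mem hdV p) (mul_mem D.ε_mem hdV)
  have hu'V : u' ∈ C.𝓥 := add_mem hZ (mul_mem D.ϖ_mem hY)
  have hexp' : (1 + D.ϖ ^ D.e₀ * d) ^ p = 1 + D.ϖ ^ (p * D.e₀) * u' := by
    rw [hexp, h1, hb, hu']
    ring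
  have hzE : 1 + D.ϖ ^ D.e₀ * d ∈ D.E :=
    add_mem (one_mem _) (mul_mem (pow_mem D.ϖ_mem_E _) hdE)
  have hu'E : u' ∈ D.E := by
    apply D.mem_E_of_one_add (m := p * D.e₀)
    rw [← hexp']
    exact pow_mem hzE p
  have hres' : C.res u = C.res u' := by
    rw [hres, hu', C.res_add hZ (mul_mem D.ϖ_mem hY), C.res_mul D.ϖ_mem hY, D.res_ϖ,
      zero_mul, add_zero, C.res_add (pow_mem hdV p) (mul_mem D.ε_mem hdV), C.res_pow hdV,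
      C.res_mul D.ε_mem hdV, hd]
  obtain ⟨w, hw, hw1⟩ := D.exists_succ_of_div hm hu huE hu'V hu'E hres'
  refine ⟨U * (1 + D.ϖ ^ D.e₀ * d)⁻¹, mul_mem hU (inv_mem hzE),
    mul_ne_zero hU0 (inv_ne_zero (D.one_add_ne D.e₀_pos hdV)), c, hc, hc0, w, hw, ?_⟩
  rw [← hw1, ← heq, ← hexp', mul_pow, inv_pow]
  ring

/-- the operator `V · N` on `1 + ϖ^m u` -/
theorem T_one_add {m : ℕ} (hm : 0 < m) {u : 𝓛} (hu : u ∈ C.𝓥) :
    ∃ w ∈ C.𝓥, C.V (1 + D.ϖ ^ m * u) * C.N (1 + D.ϖ ^ m * u) = 1 + D.ϖ ^ m * w ∧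
      C.res w = C.Vb (C.res u) := by
  obtain ⟨v, hv, hN⟩ := D.N_one_add m hm u hu
  have hV : C.V (1 + D.ϖ ^ m * u) = 1 + D.ϖ ^ m * C.V u := by
    rw [map_add, map_one, map_mul, map_pow, D.V_const _ D.ϖ_mem_L]
  have hVu := C.V_mem u hu
  refine ⟨C.V u + D.ϖ * (v * (1 + D.ϖ ^ m * C.V u)), add_mem hVu (mul_mem D.ϖ_mem
    (mul_mem hv (D.one_add_mem hVu))), ?_, ?_⟩
  · rw [hN, hV]; ring
  · rw [C.res_add hVu (mul_mem D.ϖ_mem (mul_mem hv (D.one_add_mem hVu))),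
      C.res_mul D.ϖ_mem (mul_mem hv (D.one_add_mem hVu)), D.res_ϖ, zero_mul, add_zero, C.res_V hu]

theorem T_const {c : 𝓛} (hc : c ∈ D.L) : C.V c * C.N c = c ^ (p + 1) := by
  rw [D.V_const c hc, D.N_const c hc]; ring

/-- Comparison of `T (1 + ϖ^m u)` and another function. -/
theorem T_compare {m : ℕ} (hm : 0 < m) {G G' H c₀ : 𝓛} (hH : H ∈ D.E)
    (hH0 : H ≠ 0) (hc₀ : c₀ ∈ D.L) (hc₀0 : c₀ ≠ 0) (hrel : C.V G * C.N G = c₀ * G' * H ^ p)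
    {U c u : 𝓛} (hU : U ∈ D.E) (hU0 : U ≠ 0) (hc : c ∈ D.L) (hc0 : c ≠ 0) (hu : u ∈ C.𝓥)
    (heq : c * G * U ^ p = 1 + D.ϖ ^ m * u)
    {U' c' u' : 𝓛} (hU' : U' ∈ D.E) (hU'0 : U' ≠ 0) (hc' : c' ∈ D.L) (hc'0 : c' ≠ 0)
    (hu' : u' ∈ C.𝓥) (heq' : c' * G' * U' ^ p = 1 + D.ϖ ^ m * u') :
    ∃ H' ∈ D.E, H' ≠ 0 ∧ ∃ c'' ∈ D.L, c'' ≠ 0 ∧ ∃ w ∈ C.𝓥,
      c'' * H' ^ p = 1 + D.ϖ ^ m * w ∧ C.res w = C.Vb (C.res u) - C.res u' := by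
  obtain ⟨v, hv, hv1, hv2⟩ := D.T_one_add hm hu
  obtain ⟨w, hw, hw1, hw2⟩ := D.div_one_add hm hv hu'
  have hVU : C.V U ≠ 0 := (map_ne_zero C.V).mpr hU0
  have hNU : C.N U ≠ 0 := by
    intro h0
    have h1 : C.N U * C.N U⁻¹ = 1 := by rw [← map_mul, mul_inv_cancel₀ hU0, map_one]
    rw [h0, zero_mul] at h1
    exact zero_ne_one h1
  refine ⟨H * (C.V U * C.N U) * U'⁻¹, mul_mem (mul_mem hH (D.T_mem U hU)) (inv_mem hU'),
    mul_ne_zero (mul_ne_zero hH0 (mul_ne_zero hVU hNU)) (inv_ne_zero hU'0),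
    c ^ (p + 1) * c₀ * c'⁻¹, mul_mem (mul_mem (pow_mem hc _) hc₀) (inv_mem hc'),
    mul_ne_zero (mul_ne_zero (pow_ne_zero _ hc0) hc₀0) (inv_ne_zero hc'0), w, hw, ?_, by
      rw [hw2, hv2]⟩
  rw [← hw1, ← hv1, ← heq, ← heq', map_mul, map_mul, map_mul, map_mul, map_pow, map_pow,
    D.V_const c hc, D.N_const c hc]
  have hG'0 : G' ≠ 0 := by
    rintro rfl
    rw [mul_zero, zero_mul] at heq'
    exact D.one_add_ne hm hu' heq'.symm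
  have hsplit : c * C.V G * C.V U ^ p * (c ^ p * C.N G * C.N U ^ p) =
      c ^ (p + 1) * (C.V G * C.N G) * (C.V U * C.N U) ^ p := by ring
  rw [hsplit, hrel, mul_inv, mul_inv, mul_pow, mul_pow, inv_pow]
  field_simp

/-- **Case D.** If `T = V N` permutes the classes of the `G x` and all reductions are `p`-th
powers, then all `G x` are congruent to `1` modulo `λ^p`, up to `p`-th powers and constants. -/
theorem close_all {W : Type*} [Finite W] (T : W ≃ W) (G H c₀ : W → 𝓛) (hG : ∀ x, G x ∈ D.E)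
    (hH : ∀ x, H x ∈ D.E) (hH0 : ∀ x, H x ≠ 0) (hc₀ : ∀ x, c₀ x ∈ D.L) (hc₀0 : ∀ x, c₀ x ≠ 0)
    (hrel : ∀ x, C.V (G x) * C.N (G x) = c₀ x * G (T x) * H x ^ p)
    (h1 : ∀ x, D.Close 1 (G x)) (m : ℕ) (hm : 1 ≤ m) (hm' : m ≤ p * D.e₀) (x : W) :
    D.Close m (G x) := by
  induction m, hm using Nat.le_induction generalizing x with
  | base => exact h1 x
  | succ m hm ih =>
    have hmlt : m < p * D.e₀ := by omega
    have ih' := ih hmlt.le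
    choose U hU hU0 c hc hc0 u hu heq using ih'
    have hcmp : ∀ x, (¬ p ∣ m → C.Vb (C.res (u x)) - C.res (u (T x)) ∈ C.𝓚) ∧
        ∃ ν ∈ D.κ, C.Vb (C.res (u x)) - C.res (u (T x)) = ν ^ p := by
      intro x
      obtain ⟨H', hH', hH'0, c'', hc'', hc''0, w, hw, hw1, hw2⟩ :=
        D.T_compare hm (hH x) (hH0 x) (hc₀ x) (hc₀0 x) (hrel x) (hU x) (hU0 x) (hc x) (hc0 x)
          (hu x) (heq x) (hU (T x)) (hU0 (T x)) (hc (T x)) (hc0 (T x)) (hu (T x)) (heq (T x))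
      have := D.root_coeff hm hmlt hH' hH'0 hc'' hc''0 hw hw1
      rwa [hw2] at this
    have huE : ∀ x, u x ∈ D.E := fun x => by
      apply D.mem_E_of_one_add (m := m)
      rw [← heq]
      exact mul_mem (mul_mem (D.L_le (hc x)) (hG x)) (pow_mem (hU x) p)
    by_cases hpm : p ∣ m
    · -- all reductions are `p`-th powers
      obtain ⟨y, rfl⟩ := T.surjective x
      obtain ⟨ν, hν, hν'⟩ := (hcmp y).2
      have h2 : C.res (u (T y)) = (C.φ.symm (C.res (u y)) - ν) ^ p := by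
        rw [C.sub_pow, ← hν', ← C.Vb_eq, sub_sub_cancel]
      have hω : C.φ.symm (C.res (u y)) - ν ∈ D.κ := by
        apply D.κ_sat
        rw [← h2]
        exact D.res_mem _ (huE _) (hu _)
      exact D.close_succ_of_pow hm hpm hmlt (hG _) (hU _) (hU0 _) (hc _) (hc0 _) (hu _) (heq _) hω h2
    · have hit : ∀ n : ℕ, ∀ x, (C.Vb^[n]) (C.res (u x)) - C.res (u ((T^[n]) x)) ∈ C.𝓚 := by
        intro n
        induction n with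
        | zero => intro x; simp [zero_mem]
        | succ n ihn =>
          intro x
          rw [Function.iterate_succ_apply', Function.iterate_succ_apply']
          have h3 := ihn x
          have h4 := (hcmp ((T^[n]) x)).1 hpm
          have h5 : C.Vb ((C.Vb^[n]) (C.res (u x)) - C.res (u ((T^[n]) x))) ∈ C.𝓚 := by
            rw [C.Vb_const _ h3]; exact h3
          rw [map_sub] at h5
          have := add_mem h5 h4
          rwa [sub_add_sub_cancel] at this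
      obtain ⟨n, hn, hTn⟩ : ∃ n, 0 < n ∧ (T^[n]) x = x := by
        refine ⟨orderOf T, orderOf_pos T, ?_⟩
        have h6 : (T ^ orderOf T) x = x := by rw [pow_orderOf_eq_one]; rfl
        rwa [← Equiv.Perm.iterate_eq_pow] at h6
      have h7 := hit n x
      rw [hTn] at h7
      exact D.close_succ_of_const hm (hG x) (hU x) (hU0 x) (hc x) (hc0 x) (hu x) (heq x)
        (C.fixed n hn _ h7)

theorem close_one_of_res {G : 𝓛} (hG : G ∈ D.E) (a : ℤ) (h : D.ϖ ^ a * G ∈ C.𝓥)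
    (h0 : C.res (D.ϖ ^ a * G) ≠ 0) (ω : 𝓡) (hω : C.res (D.ϖ ^ a * G) = ω ^ p) : D.Close 1 G := by
  have hGE : D.ϖ ^ a * G ∈ D.E := mul_mem (zpow_mem D.ϖ_mem_E a) hG
  have hωκ : ω ∈ D.κ := D.κ_sat ω (by rw [← hω]; exact D.res_mem _ hGE h)
  obtain ⟨d, hdE, hdV, hd⟩ := D.lift ω hωκ
  have hω0 : ω ≠ 0 := by
    rintro rfl
    rw [zero_pow C.hp.ne_zero] at hω
    exact h0 hω
  have hd0 : C.res d ≠ 0 := by rwa [hd]
  have hdne : d ≠ 0 := C.ne_zero_of_res hd0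
  have hdi : d⁻¹ ∈ C.𝓥 := C.inv_mem' hdV hd0
  have hr : C.res (D.ϖ ^ a * G * d⁻¹ ^ p - 1) = 0 := by
    rw [C.res_sub (mul_mem h (pow_mem hdi p)) (one_mem _), C.res_mul h (pow_mem hdi p),
      C.res_pow hdi, C.res_inv hdV hd0, hω, hd, inv_pow, mul_inv_cancel₀ (pow_ne_zero p hω0),
      C.res_one, sub_self]
  obtain ⟨g, -, hgV, hg⟩ := D.exists_of_res_eq_zero
    (sub_mem (mul_mem hGE (pow_mem (inv_mem hdE) p)) (one_mem _))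
    (sub_mem (mul_mem h (pow_mem hdi p)) (one_mem _)) hr
  refine ⟨d⁻¹, inv_mem hdE, inv_ne_zero hdne, D.ϖ ^ a, zpow_mem D.ϖ_mem_L a,
    zpow_ne_zero a D.ϖ_ne, g, hgV, ?_⟩
  rw [pow_one, ← hg]
  ring

/-- If `T G` is a `p`-th power times a constant then the reduction of `G` is a `p`-th power. -/
theorem close_one_of_T {G H c₀ : 𝓛} (hG : G ∈ D.E) (hG0 : G ≠ 0) (hH : H ∈ D.E)
    (hH0 : H ≠ 0) (hc₀ : c₀ ∈ D.L) (hrel : C.V G * C.N G = c₀ * H ^ p) :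
    D.Close 1 G := by
  obtain ⟨a, ha, ha0⟩ := D.discr G hG hG0
  obtain ⟨b, hb, hb0⟩ := D.discr H hH hH0
  set G₁ := D.ϖ ^ a * G with hG₁
  set H₁ := D.ϖ ^ b * H with hH₁
  have hH₁0 : H₁ ≠ 0 := C.ne_zero_of_res hb0
  have hϖb : D.ϖ ^ b ≠ 0 := zpow_ne_zero b D.ϖ_ne
  have hϖaL : D.ϖ ^ a ∈ D.L := zpow_mem D.ϖ_mem_L a
  set c₁ := (D.ϖ ^ a) ^ (p + 1) * c₀ * (D.ϖ ^ b)⁻¹ ^ p with hc₁
  have hc₁L : c₁ ∈ D.L := mul_mem (mul_mem (pow_mem hϖaL _) hc₀)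
    (pow_mem (inv_mem (zpow_mem D.ϖ_mem_L b)) p)
  have h1 : C.V G₁ * C.N G₁ = c₁ * H₁ ^ p := by
    rw [hG₁, map_mul, map_mul, D.V_const _ hϖaL, D.N_const _ hϖaL, hc₁, hH₁]
    have : D.ϖ ^ a * C.V G * ((D.ϖ ^ a) ^ p * C.N G) = (D.ϖ ^ a) ^ (p + 1) * (C.V G * C.N G) := by
      ring
    rw [this, hrel, mul_pow, inv_pow]
    field_simp
  have hVN : C.V G₁ * C.N G₁ ∈ C.𝓥 := mul_mem (C.V_mem _ ha) (C.N_mem _ ha)
  have hHp0 : C.res (H₁ ^ p) ≠ 0 := by rw [C.res_pow hb]; exact pow_ne_zero p hb0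
  have hc₁V : c₁ ∈ C.𝓥 := by
    have : c₁ = (C.V G₁ * C.N G₁) * (H₁ ^ p)⁻¹ := by
      rw [h1, mul_assoc, mul_inv_cancel₀ (pow_ne_zero p hH₁0), mul_one]
    rw [this]
    exact mul_mem hVN (C.inv_mem' (pow_mem hb p) hHp0)
  have h2 : C.Vb (C.res G₁) * C.φ (C.res G₁) = C.res c₁ * C.res H₁ ^ p := by
    rw [← C.res_V ha, ← C.res_N ha, ← C.res_mul (C.V_mem _ ha) (C.N_mem _ ha), h1,
      C.res_mul hc₁V (pow_mem hb p), C.res_pow hb]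
  obtain ⟨d, hd, hdc⟩ := C.exists_pow _ (D.res_const _ hc₁L hc₁V)
  have hψ0 : C.φ.symm (C.res G₁) ≠ 0 := by
    rw [ne_eq, EmbeddingLike.map_eq_zero_iff]; exact ha0
  have h3 : C.φ (C.res G₁) = (d * C.res H₁ * (C.φ.symm (C.res G₁))⁻¹) ^ p := by
    rw [C.Vb_eq, ← hdc] at h2
    rw [mul_pow, mul_pow, inv_pow, ← h2]
    rw [mul_comm (C.φ.symm (C.res G₁) ^ p), mul_assoc, mul_inv_cancel₀ (pow_ne_zero p hψ0),
      mul_one]
  refine D.close_one_of_res hG a ha ha0 (C.φ.symm (d * C.res H₁ * (C.φ.symm (C.res G₁))⁻¹)) ?_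
  rw [← map_pow, ← h3, RingEquiv.symm_apply_apply]

/-- **Case C.** `e₀ = 1`, `T G` is a `p`-th power: then `G` is `1` modulo `ϖ^{p+1}` up to
constants and `p`-th powers. -/
theorem close_of_T {G H c₀ : 𝓛} (he : D.e₀ = 1) (hε : C.res D.ε = -1) (hG : G ∈ D.E)
    (hG0 : G ≠ 0) (hH : H ∈ D.E) (hH0 : H ≠ 0) (hc₀ : c₀ ∈ D.L) (hc₀0 : c₀ ≠ 0)
    (hrel : C.V G * C.N G = c₀ * H ^ p) : D.Close (p + 1) G := by
  have hp0 := C.hp.pos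
  have key : ∀ m, 1 ≤ m → m ≤ p → D.Close m G := by
    intro m hm
    induction m, hm using Nat.le_induction with
    | base => intro _; exact D.close_one_of_T hG hG0 hH hH0 hc₀ hrel
    | succ m hm ih =>
      intro hm'
      obtain ⟨U, hU, hU0, c, hc, hc0, u, hu, heq⟩ := ih (by omega)
      have hmlt : m < p * D.e₀ := by rw [he, mul_one]; omega
      obtain ⟨H', hH', hH'0, c'', hc'', hc''0, w, hw, hw1, hw2⟩ :=
        D.T_compare hm (G := G) (G' := 1) hH hH0 hc₀ hc₀0 (by rw [mul_one]; exact hrel) hU hU0 hc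
          hc0 hu heq (U' := 1) (c' := 1) (u' := 0) (one_mem _) one_ne_zero (one_mem _) one_ne_zero
          (zero_mem _) (by simp)
      have h1 := (D.root_coeff hm hmlt hH' hH'0 hc'' hc''0 hw hw1).1
        (fun hd => by have := Nat.le_of_dvd (by omega) hd; omega)
      rw [hw2, C.res_zero, sub_zero] at h1
      have h2 : C.res u ∈ C.𝓚 := by
        have : C.Vb (C.res u) = C.Vb (C.Vb (C.res u)) := (C.Vb_const _ h1).symm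
        rw [C.Vb.injective this]
        exact h1
      exact D.close_succ_of_const hm hG hU hU0 hc hc0 hu heq h2
  have hpe : p * D.e₀ = p := by rw [he, mul_one]
  obtain ⟨U, hU, hU0, c, hc, hc0, u, hu, heq⟩ := key p hp0 le_rfl
  obtain ⟨H', hH', hH'0, c'', hc'', hc''0, w, hw, hw1, hw2⟩ :=
    D.T_compare hp0 (G := G) (G' := 1) hH hH0 hc₀ hc₀0 (by rw [mul_one]; exact hrel) hU hU0 hc
      hc0 hu heq (U' := 1) (c' := 1) (u' := 0) (one_mem _) one_ne_zero (one_mem _) one_ne_zero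
      (zero_mem _) (by simp)
  rw [C.res_zero, sub_zero] at hw2
  obtain ⟨h, hh, y, hy, hres⟩ := D.root_coeff_crit hH' hH'0 hc'' hc''0 hw (by rw [hpe]; exact hw1)
  rw [hw2, hε] at hres
  obtain ⟨y', hy', hyp⟩ := C.exists_pow y hy
  -- `h = b ^ p`
  set b := h + y' - C.φ.symm (C.res u) with hb
  have hbp : b ^ p = h := by
    rw [hb, C.sub_pow, C.add_pow, hyp, ← C.Vb_eq, hres]
    ring
  have hbκ : b ∈ D.κ := D.κ_sat b (by rw [hbp]; exact hh)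
  have h4 : C.φ.symm (C.res u) = b ^ p - b + y' := by rw [hbp, hb]; ring
  have h5 : C.res u = C.φ b ^ p - C.φ b + y := by
    have := congrArg C.φ h4
    rw [RingEquiv.apply_symm_apply, map_add, map_sub, map_pow, C.φ_const hy', hyp] at this
    exact this
  obtain ⟨d, hd, hdy⟩ := C.exists_AS y hy
  have h6 : C.res u = (C.φ b + d) ^ p + C.res D.ε * (C.φ b + d) := by
    rw [hε, C.add_pow, h5, ← hdy]; ring
  have h7 := D.close_succ_of_AS hG hU hU0 hc hc0 hu (by rw [hpe]; exact heq)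
    (add_mem (D.φ_κ b hbκ) (D.𝓚_le hd)) h6
  rwa [hpe] at h7

end DiscCtx

end Fermat.Agent.H33
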