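import Fermat.Agent.H60Series
import Fermat.Agent.H33Local

/-!
# The local context of Laurent series over a valuation ring (helper33, for S33)
-/

set_option autoImplicit false
set_option linter.unusedSectionVars false

noncomputable section

open HahnSeries ModularCurve
open Fermat.Agent.H60

namespace Fermat.Agent.H33

section Contract

variable {R : Type*} [CommRing R] (p : ℕ) [NeZero p]

/-- extract the coefficients with index divisible by `p` -/
def contract (f : LaurentSeries R) : LaurentSeries R where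
  coeff n := f.coeff (p * n)
  isPWO_support' := by
    have hp : (0 : ℤ) < p := by exact_mod_cast Nat.pos_of_ne_zero (NeZero.ne p)
    have h := f.isPWO_support
    rw [Set.isPWO_iff_isWF] at h ⊢
    rw [Set.isWF_iff_no_descending_seq] at h ⊢
    intro s hs hmem
    refine h (fun n => p * s n) ?_ ?_
    · intro a b hab
      exact mul_lt_mul_of_pos_left (hs hab) hp
    · intro n
      have := hmem n
      simpa using this

@[simp] theorem contract_coeff (f : LaurentSeries R) (n : ℤ) :
    (contract p f).coeff n = f.coeff (p * n) := rfl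

theorem qExpand_contract {f : LaurentSeries R} (hf : ∀ n : ℤ, ¬ (p : ℤ) ∣ n → f.coeff n = 0) :
    qExpand R p (contract p f) = f := by
  ext n
  by_cases h : (p : ℤ) ∣ n
  · obtain ⟨m, rfl⟩ := h
    rw [qExpand_coeff_mul, contract_coeff]
  · rw [qExpand_coeff_of_not_dvd p _ h, hf n h]

theorem contract_qExpand (f : LaurentSeries R) : contract p (qExpand R p f) = f := by
  ext n
  rw [contract_coeff, qExpand_coeff_mul]

theorem coeffMap_contract {S : Type*} [CommRing S] (g : R →+* S) (f : LaurentSeries R) :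
    coeffMap g (contract p f) = contract p (coeffMap g f) := by
  ext n; simp

end Contract

section NormOp

variable {R : Type*} [CommRing R] (p : ℕ) [NeZero p]

/-- `∏_{i < p} f(ζ^i q)` -/
def prodTwist (ζ : Rˣ) (f : LaurentSeries R) : LaurentSeries R :=
  ∏ i ∈ Finset.range p, twist (ζ ^ i) f

theorem twist_twist (u v : Rˣ) (f : LaurentSeries R) : twist u (twist v f) = twist (u * v) f := by
  ext n
  simp [mul_zpow, mul_assoc]

theorem twist_prodTwist {ζ : Rˣ} (hζ : ζ ^ p = 1) (f : LaurentSeries R) :
    twist ζ (prodTwist p ζ f) = prodTwist p ζ f := by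
  rw [prodTwist, map_prod]
  simp only [twist_twist, ← pow_succ']
  have h1 := Finset.prod_range_succ' (fun i => twist (ζ ^ i) f) p
  have h2 := Finset.prod_range_succ (fun i => twist (ζ ^ i) f) p
  rw [hζ] at h2
  rw [pow_zero] at h1
  -- both sides multiplied by `f` agree; avoid cancellation by a direct bijection
  obtain ⟨q, hq⟩ : ∃ q, p = q + 1 := ⟨p - 1, by have := NeZero.pos p; omega⟩
  rw [hq, Finset.prod_range_succ (fun i => twist (ζ ^ (i + 1)) f) q,
    Finset.prod_range_succ' (fun i => twist (ζ ^ i) f) q, ← hq, hζ, pow_zero]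

theorem coeff_prodTwist_eq_zero [IsDomain R] {ζ : Rˣ} (hζ : IsPrimitiveRoot ζ p)
    (f : LaurentSeries R) (n : ℤ) (hn : ¬ (p : ℤ) ∣ n) : (prodTwist p ζ f).coeff n = 0 := by
  have h := congrArg (fun g : LaurentSeries R => g.coeff n) (twist_prodTwist p hζ.pow_eq_one f)
  simp only [twist_coeff] at h
  have h1 : (((ζ ^ n : Rˣ) : R) - 1) * (prodTwist p ζ f).coeff n = 0 := by
    rw [sub_mul, h, one_mul, sub_self]
  rcases mul_eq_zero.mp h1 with h2 | h2
  · exfalso
    apply hn
    rw [← hζ.zpow_eq_one_iff_dvd]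
    exact Units.ext (sub_eq_zero.mp h2)
  · exact h2

/-- The norm operator `f ↦ ∏ f(ζ^i q^{1/p})`. -/
def normOp (ζ : Rˣ) (f : LaurentSeries R) : LaurentSeries R := contract p (prodTwist p ζ f)

theorem qExpand_normOp [IsDomain R] {ζ : Rˣ} (hζ : IsPrimitiveRoot ζ p) (f : LaurentSeries R) :
    qExpand R p (normOp p ζ f) = prodTwist p ζ f :=
  qExpand_contract p (coeff_prodTwist_eq_zero p hζ f)

theorem prodTwist_mul (ζ : Rˣ) (f g : LaurentSeries R) :
    prodTwist p ζ (f * g) = prodTwist p ζ f * prodTwist p ζ g := by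
  simp only [prodTwist, map_mul, Finset.prod_mul_distrib]

theorem prodTwist_one (ζ : Rˣ) : prodTwist p ζ (1 : LaurentSeries R) = 1 := by
  simp [prodTwist]

theorem normOp_mul [IsDomain R] {ζ : Rˣ} (hζ : IsPrimitiveRoot ζ p) (f g : LaurentSeries R) :
    normOp p ζ (f * g) = normOp p ζ f * normOp p ζ g := by
  apply qExpand_injective p
  rw [map_mul, qExpand_normOp p hζ, qExpand_normOp p hζ, qExpand_normOp p hζ, prodTwist_mul]

theorem normOp_one [IsDomain R] {ζ : Rˣ} (hζ : IsPrimitiveRoot ζ p) :
    normOp p ζ (1 : LaurentSeries R) = 1 := by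
  apply qExpand_injective p
  rw [qExpand_normOp p hζ, prodTwist_one, map_one]

theorem coeffMap_prodTwist {S : Type*} [CommRing S] (g : R →+* S) (ζ : Rˣ) (f : LaurentSeries R) :
    coeffMap g (prodTwist p ζ f) = prodTwist p (Units.map (g : R →* S) ζ) (coeffMap g f) := by
  simp only [prodTwist, map_prod, coeffMap_twist, map_pow]

theorem coeffMap_normOp {S : Type*} [CommRing S] (g : R →+* S) (ζ : Rˣ) (f : LaurentSeries R) :
    coeffMap g (normOp p ζ f) = normOp p (Units.map (g : R →* S) ζ) (coeffMap g f) := by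
  rw [normOp, coeffMap_contract, coeffMap_prodTwist, normOp]

/-- In characteristic `p` with `ζ = 1` the norm operator is the coefficientwise Frobenius. -/
theorem normOp_one_char [Fact p.Prime] [CharP R p] (f : LaurentSeries R) :
    normOp p (1 : Rˣ) f = coeffMap (frobenius R p) f := by
  rw [normOp, prodTwist]
  simp only [one_pow, twist_one, Finset.prod_const, Finset.card_range]
  rw [laurent_pow_char p f, contract_qExpand]

end NormOp

/-! ### The ring `𝓥` -/

section Val

variable {K : Type*} [Field K] (A : ValuationSubring K) {k : Type*} [Field k] (π : A →+* k)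

/-- inclusion of series with integral coefficients -/
abbrev incl : LaurentSeries A →+* LaurentSeries K := coeffMap A.subtype

theorem incl_injective : Function.Injective (incl A) := by
  intro x y h
  ext n
  have := congrArg (fun z : LaurentSeries K => z.coeff n) h
  simpa using this

/-- `(g, h)` represents `f = g / h`, `h` with nonzero reduction -/
def IsRep (f : LaurentSeries K) (g h : LaurentSeries A) : Prop :=
  coeffMap π h ≠ 0 ∧ f * incl A h = incl A g

variable {A π}

theorem IsRep.incl_ne_zero {f : LaurentSeries K} {g h : LaurentSeries A} (H : IsRep A π f g h) :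
    incl A h ≠ 0 := by
  intro h0
  apply H.1
  have : h = 0 := incl_injective A (by rw [h0, map_zero])
  rw [this, map_zero]

theorem IsRep.cross {f : LaurentSeries K} {g h g' h' : LaurentSeries A} (H : IsRep A π f g h)
    (H' : IsRep A π f g' h') : g * h' = g' * h := by
  apply incl_injective A
  rw [map_mul, map_mul, ← H.2, ← H'.2]
  ring

theorem IsRep.div_eq {f : LaurentSeries K} {g h g' h' : LaurentSeries A} (H : IsRep A π f g h)
    (H' : IsRep A π f g' h') : coeffMap π g / coeffMap π h = coeffMap π g' / coeffMap π h' := by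
  rw [div_eq_div_iff H.1 H'.1, ← map_mul, ← map_mul, H.cross H']

theorem IsRep.add {f f' : LaurentSeries K} {g h g' h' : LaurentSeries A} (H : IsRep A π f g h)
    (H' : IsRep A π f' g' h') : IsRep A π (f + f') (g * h' + g' * h) (h * h') := by
  refine ⟨by rw [map_mul]; exact mul_ne_zero H.1 H'.1, ?_⟩
  rw [map_mul, map_add, map_mul, map_mul, ← H.2, ← H'.2]
  ring

theorem IsRep.mul {f f' : LaurentSeries K} {g h g' h' : LaurentSeries A} (H : IsRep A π f g h)
    (H' : IsRep A π f' g' h') : IsRep A π (f * f') (g * g') (h * h') := by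
  refine ⟨by rw [map_mul]; exact mul_ne_zero H.1 H'.1, ?_⟩
  rw [map_mul, map_mul, ← H.2, ← H'.2]
  ring

theorem IsRep.neg {f : LaurentSeries K} {g h : LaurentSeries A} (H : IsRep A π f g h) :
    IsRep A π (-f) (-g) h :=
  ⟨H.1, by rw [map_neg, ← H.2]; ring⟩

theorem isRep_incl (g : LaurentSeries A) : IsRep A π (incl A g) g 1 :=
  ⟨by rw [map_one]; exact one_ne_zero, by rw [map_one, mul_one]⟩

variable (A π)

/-- The local ring of quotients of integral series. -/
def valRing : Subring (LaurentSeries K) where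
  carrier := {f | ∃ g h : LaurentSeries A, IsRep A π f g h}
  mul_mem' := by
    rintro f f' ⟨g, h, H⟩ ⟨g', h', H'⟩
    exact ⟨_, _, H.mul H'⟩
  one_mem' := ⟨1, 1, by simpa using isRep_incl (π := π) (1 : LaurentSeries A)⟩
  add_mem' := by
    rintro f f' ⟨g, h, H⟩ ⟨g', h', H'⟩
    exact ⟨_, _, H.add H'⟩
  zero_mem' := ⟨0, 1, by simpa using isRep_incl (π := π) (0 : LaurentSeries A)⟩
  neg_mem' := by
    rintro f ⟨g, h, H⟩
    exact ⟨_, _, H.neg⟩

theorem mem_valRing {f : LaurentSeries K} :
    f ∈ valRing A π ↔ ∃ g h : LaurentSeries A, IsRep A π f g h := Iff.rfl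

/-- The reduction. -/
def valRes : valRing A π →+* LaurentSeries k where
  toFun f := coeffMap π f.2.choose / coeffMap π f.2.choose_spec.choose
  map_one' := by
    rw [IsRep.div_eq (1 : valRing A π).2.choose_spec.choose_spec
      (g' := 1) (h' := 1) (by simpa using isRep_incl (π := π) (1 : LaurentSeries A))]
    simp
  map_zero' := by
    rw [IsRep.div_eq (0 : valRing A π).2.choose_spec.choose_spec
      (g' := 0) (h' := 1) (by simpa using isRep_incl (π := π) (0 : LaurentSeries A))]
    simp
  map_mul' f f' := by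
    have H := f.2.choose_spec.choose_spec
    have H' := f'.2.choose_spec.choose_spec
    rw [IsRep.div_eq (f * f').2.choose_spec.choose_spec (H.mul H'), map_mul, map_mul,
      mul_div_mul_comm]
  map_add' f f' := by
    have H := f.2.choose_spec.choose_spec
    have H' := f'.2.choose_spec.choose_spec
    rw [IsRep.div_eq (f + f').2.choose_spec.choose_spec (H.add H'), map_mul, map_add, map_mul,
      map_mul, div_add_div _ _ H.1 H'.1]
    ring

variable {A π}

theorem valRes_eq {f : LaurentSeries K} {g h : LaurentSeries A} (H : IsRep A π f g h)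
    (hf : f ∈ valRing A π) : valRes A π ⟨f, hf⟩ = coeffMap π g / coeffMap π h :=
  IsRep.div_eq hf.choose_spec.choose_spec H

theorem incl_mem (g : LaurentSeries A) : incl A g ∈ valRing A π := ⟨g, 1, isRep_incl g⟩

theorem valRes_incl (g : LaurentSeries A) :
    valRes A π ⟨incl A g, incl_mem g⟩ = coeffMap π g := by
  rw [valRes_eq (isRep_incl g)]
  simp

theorem inv_mem_valRing {f : LaurentSeries K} (hf : f ∈ valRing A π)
    (h0 : valRes A π ⟨f, hf⟩ ≠ 0) : f⁻¹ ∈ valRing A π := by
  obtain ⟨g, h, H⟩ := id hf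
  rw [valRes_eq H hf] at h0
  have hg : coeffMap π g ≠ 0 := fun h1 => h0 (by rw [h1, zero_div])
  have hf0 : f ≠ 0 := by
    rintro rfl
    have h2 := H.2
    rw [zero_mul] at h2
    have : g = 0 := incl_injective A (by rw [← h2, map_zero])
    exact hg (by rw [this, map_zero])
  refine ⟨h, g, hg, ?_⟩
  rw [← H.2, ← mul_assoc, inv_mul_cancel₀ hf0, one_mul]

/-- Compatible families of multiplicative operators preserve the ring `𝓥` and commute with
the reduction. -/
theorem IsRep.map {Φ : LaurentSeries K →* LaurentSeries K}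
    {ΦA : LaurentSeries A → LaurentSeries A} {Φk : LaurentSeries k →* LaurentSeries k}
    (h1 : ∀ g, Φ (incl A g) = incl A (ΦA g)) (h2 : ∀ g, coeffMap π (ΦA g) = Φk (coeffMap π g))
    (h3 : ∀ x, x ≠ 0 → Φk x ≠ 0) {f : LaurentSeries K} {g h : LaurentSeries A}
    (H : IsRep A π f g h) : IsRep A π (Φ f) (ΦA g) (ΦA h) := by
  refine ⟨by rw [h2]; exact h3 _ H.1, ?_⟩
  rw [← h1, ← h1, ← map_mul, H.2]

theorem map_mem {Φ : LaurentSeries K →* LaurentSeries K}
    {ΦA : LaurentSeries A → LaurentSeries A} {Φk : LaurentSeries k →* LaurentSeries k}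
    (h1 : ∀ g, Φ (incl A g) = incl A (ΦA g)) (h2 : ∀ g, coeffMap π (ΦA g) = Φk (coeffMap π g))
    (h3 : ∀ x, x ≠ 0 → Φk x ≠ 0) {f : LaurentSeries K} (hf : f ∈ valRing A π) :
    Φ f ∈ valRing A π := by
  obtain ⟨g, h, H⟩ := hf
  exact ⟨_, _, H.map h1 h2 h3⟩

theorem valRes_map {Φ : LaurentSeries K →* LaurentSeries K}
    {ΦA : LaurentSeries A → LaurentSeries A} {Φk : LaurentSeries k →* LaurentSeries k}
    (h1 : ∀ g, Φ (incl A g) = incl A (ΦA g)) (h2 : ∀ g, coeffMap π (ΦA g) = Φk (coeffMap π g))
    (h3 : ∀ x, x ≠ 0 → Φk x ≠ 0) {f : LaurentSeries K} (hf : f ∈ valRing A π)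
    (hf' : Φ f ∈ valRing A π) : valRes A π ⟨Φ f, hf'⟩ = Φk (valRes A π ⟨f, hf⟩) := by
  obtain ⟨g, h, H⟩ := id hf
  rw [valRes_eq H hf, valRes_eq (H.map h1 h2 h3) hf', h2, h2, div_eq_mul_inv, div_eq_mul_inv, map_mul]
  congr 1
  have h4 : Φk (coeffMap π h) * Φk (coeffMap π h)⁻¹ = 1 := by
    rw [← map_mul, mul_inv_cancel₀ H.1, map_one]
  exact (eq_inv_of_mul_eq_one_right h4).symm

end Val

section Frob

variable {k : Type*} [Field k]

/-- coefficientwise automorphism -/
def coeffEquiv (e : k ≃+* k) : LaurentSeries k ≃+* LaurentSeries k where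
  toFun := coeffMap (e : k →+* k)
  invFun := coeffMap (e.symm : k →+* k)
  left_inv x := by
    rw [coeffMap_coeffMap,
      coeffMap_congr (g := RingHom.id k) (RingHom.ext fun a => e.symm_apply_apply a), coeffMap_id]
  right_inv x := by
    rw [coeffMap_coeffMap,
      coeffMap_congr (g := RingHom.id k) (RingHom.ext fun a => e.apply_symm_apply a), coeffMap_id]
  map_mul' x y := map_mul _ x y
  map_add' x y := map_add _ x y

theorem coeffEquiv_apply (e : k ≃+* k) (x : LaurentSeries k) :
    coeffEquiv e x = coeffMap (e : k →+* k) x := rfl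

/-- constants in Laurent series -/
def constField (k : Type*) [Field k] : Subfield (LaurentSeries k) :=
  (algebraMap k (LaurentSeries k)).fieldRange

theorem mem_constField {x : LaurentSeries k} :
    x ∈ constField k ↔ ∃ c : k, algebraMap k (LaurentSeries k) c = x := Iff.rfl

theorem mem_constField_of_coeff {x : LaurentSeries k} (h : ∀ n : ℤ, n ≠ 0 → x.coeff n = 0) :
    x ∈ constField k := by
  refine ⟨x.coeff 0, ?_⟩
  rw [algebraMap_laurentSeries_eq_single]
  ext n
  rcases eq_or_ne n 0 with rfl | hn
  · rw [HahnSeries.coeff_single_same]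
  · rw [HahnSeries.coeff_single_of_ne hn, h n hn]

theorem coeff_of_mem_constField {x : LaurentSeries k} (h : x ∈ constField k) {n : ℤ} (hn : n ≠ 0) :
    x.coeff n = 0 := by
  obtain ⟨c, rfl⟩ := h
  rw [algebraMap_laurentSeries_eq_single, HahnSeries.coeff_single_of_ne hn]

theorem qExpand_algebraMap (p : ℕ) [NeZero p] (c : k) :
    qExpand k p (algebraMap k (LaurentSeries k) c) = algebraMap k (LaurentSeries k) c := by
  rw [algebraMap_laurentSeries_eq_single, qExpand_single, mul_zero]

theorem mem_const_of_iterate (p : ℕ) [NeZero p] (hp : 1 < p) (n : ℕ) (hn : 0 < n)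
    (x : LaurentSeries k) (h : ((qExpand k p)^[n]) x - x ∈ constField k) : x ∈ constField k := by
  have hco : ∀ n : ℕ, 0 < n → ∀ (y : LaurentSeries k) (m : ℤ), m ≠ 0 →
      (((qExpand k p)^[n]) y).coeff m ≠ 0 →
      ∃ m' : ℤ, m' ≠ 0 ∧ m'.natAbs < m.natAbs ∧ (((qExpand k p)^[n]) y).coeff m = y.coeff m' := by
    intro n
    induction n with
    | zero => intro h; omega
    | succ n ih =>
      intro _ y m hm hne
      rw [Function.iterate_succ_apply'] at hne ⊢
      by_cases hpm : (p : ℤ) ∣ m
      · obtain ⟨m₁, rfl⟩ := hpm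
        rw [qExpand_coeff_mul] at hne ⊢
        have hm₁ : m₁ ≠ 0 := by
          rintro rfl
          simp at hm
        have hlt : m₁.natAbs < ((p : ℤ) * m₁).natAbs := by
          rw [Int.natAbs_mul, Int.natAbs_natCast]
          have := Int.natAbs_pos.mpr hm₁
          nlinarith
        rcases Nat.eq_zero_or_pos n with rfl | hn
        · exact ⟨m₁, hm₁, hlt, rfl⟩
        · obtain ⟨m', h1, h2, h3⟩ := ih hn y m₁ hm₁ hne
          exact ⟨m', h1, h2.trans hlt, h3⟩
      · exact absurd (qExpand_coeff_of_not_dvd p _ hpm) hne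
  apply mem_constField_of_coeff
  have key : ∀ N : ℕ, ∀ m : ℤ, m.natAbs ≤ N → m ≠ 0 → x.coeff m = 0 := by
    intro N
    induction N with
    | zero =>
      intro m hm hm0
      exact absurd (Int.natAbs_eq_zero.mp (Nat.le_zero.mp hm)) hm0
    | succ N ih =>
      intro m hm hm0
      by_contra hne
      have h1 : (((qExpand k p)^[n]) x).coeff m = x.coeff m := by
        have := coeff_of_mem_constField h hm0
        rw [HahnSeries.coeff_sub, sub_eq_zero] at this
        exact this
      obtain ⟨m', h2, h3, h4⟩ := hco n hn x m hm0 (by rw [h1]; exact hne)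
      rw [h1] at h4
      rw [h4] at hne
      exact hne (ih m' (by omega) h2)
  exact fun m hm => key m.natAbs m le_rfl hm

end Frob

section Ctx

variable {K : Type*} [Field K] {A : ValuationSubring K} {k : Type*} [Field k] {π : A →+* k}
  {p : ℕ} [Fact p.Prime] [NeZero p] [CharP k p]

theorem isPrimitiveRoot_of_map {ζ : Aˣ}
    (hζ : IsPrimitiveRoot (Units.map (A.subtype : A →* K) ζ) p) : IsPrimitiveRoot ζ p :=
  IsPrimitiveRoot.of_map_of_injective (f := Units.map (A.subtype : A →* K)) hζ
    (Units.map_injective Subtype.val_injective)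

/-- the norm operator as a monoid homomorphism -/
def normHom {ζ : Kˣ} (hζ : IsPrimitiveRoot ζ p) : LaurentSeries K →* LaurentSeries K where
  toFun := normOp p ζ
  map_one' := normOp_one p hζ
  map_mul' f g := normOp_mul p hζ f g

theorem normHom_incl {ζ : Aˣ} (hζ : IsPrimitiveRoot (Units.map (A.subtype : A →* K) ζ) p)
    (g : LaurentSeries A) : normHom hζ (incl A g) = incl A (normOp p ζ g) :=
  (coeffMap_normOp p A.subtype ζ g).symm

variable (π) in
theorem coeffMap_normOp_res {ζ : Aˣ} (hζ1 : Units.map (π : A →* k) ζ = 1) (g : LaurentSeries A) :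
    coeffMap π (normOp p ζ g) = ((coeffMap (frobenius k p) : LaurentSeries k →+* LaurentSeries k) :
      LaurentSeries k →* LaurentSeries k) (coeffMap π g) := by
  rw [coeffMap_normOp, hζ1, normOp_one_char]
  rfl

/-- The local context attached to Laurent series over `K` with a valuation ring `A`. -/
def locCtx [IsAlgClosed k] {ζ : Aˣ}
    (hζ : IsPrimitiveRoot (Units.map (A.subtype : A →* K) ζ) p)
    (hζ1 : Units.map (π : A →* k) ζ = 1) : LocCtx (LaurentSeries K) (LaurentSeries k) p where
  𝓥 := valRing A π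
  r := valRes A π
  inv_mem f h := inv_mem_valRing f.2 h
  V := qExpand K p
  V_mem f hf := map_mem (Φ := (qExpand K p : LaurentSeries K →* LaurentSeries K))
    (ΦA := qExpand A p) (Φk := (qExpand k p : LaurentSeries k →* LaurentSeries k))
    (fun g => (coeffMap_qExpand_H60 _ _ _).symm) (fun g => coeffMap_qExpand_H60 _ _ _)
    (fun x hx => (map_ne_zero (qExpand k p)).mpr hx) hf
  Vb := qExpand k p
  r_V f := valRes_map (Φ := (qExpand K p : LaurentSeries K →* LaurentSeries K))
    (ΦA := qExpand A p) (Φk := (qExpand k p : LaurentSeries k →* LaurentSeries k))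
    (fun g => (coeffMap_qExpand_H60 _ _ _).symm) (fun g => coeffMap_qExpand_H60 _ _ _)
    (fun x hx => (map_ne_zero (qExpand k p)).mpr hx) f.2 _
  φ := coeffEquiv (frobeniusEquiv k p)
  Vb_φ x := (laurent_pow_char p x).symm
  𝓚 := constField k
  Vb_const := by
    rintro _ ⟨c, rfl⟩
    exact qExpand_algebraMap p c
  exists_pow := by
    rintro _ ⟨c, rfl⟩
    obtain ⟨d, hd⟩ := IsAlgClosed.exists_pow_nat_eq c (Fact.out : p.Prime).pos
    exact ⟨_, ⟨d, rfl⟩, by rw [← map_pow, hd]⟩
  exists_AS := by
    rintro _ ⟨c, rfl⟩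
    have hdeg : (Polynomial.X ^ p - Polynomial.X - Polynomial.C c : Polynomial k).degree ≠ 0 := by
      have hp1 : 1 < p := (Fact.out : p.Prime).one_lt
      have h1 : (Polynomial.X ^ p - Polynomial.X - Polynomial.C c : Polynomial k).degree = p := by
        rw [sub_sub, Polynomial.degree_sub_eq_left_of_degree_lt, Polynomial.degree_X_pow]
        rw [Polynomial.degree_X_pow]
        refine lt_of_le_of_lt (Polynomial.degree_add_le _ _) (max_lt ?_ ?_)
        · rw [Polynomial.degree_X]; exact_mod_cast hp1
        · exact lt_of_le_of_lt Polynomial.degree_C_le (by exact_mod_cast (by omega : 0 < p))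
      rw [h1]
      exact_mod_cast (by omega : p ≠ 0)
    obtain ⟨d, hd⟩ := IsAlgClosed.exists_root _ hdeg
    refine ⟨_, ⟨d, rfl⟩, ?_⟩
    rw [← map_pow, ← map_sub]
    congr 1
    simpa [sub_eq_zero] using hd
  fixed n hn x h := mem_const_of_iterate p (Fact.out : p.Prime).one_lt n hn x h
  N := normHom hζ
  N_mem f hf := map_mem (Φk := ((coeffMap (frobenius k p) : LaurentSeries k →+* LaurentSeries k) :
      LaurentSeries k →* LaurentSeries k)) (normHom_incl hζ) (coeffMap_normOp_res π hζ1)
    (fun x hx => (map_ne_zero (coeffMap (frobenius k p))).mpr hx) hf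
  r_N f := valRes_map (Φk := ((coeffMap (frobenius k p) :
      LaurentSeries k →+* LaurentSeries k) :
      LaurentSeries k →* LaurentSeries k)) (normHom_incl hζ) (coeffMap_normOp_res π hζ1)
    (fun x hx => (map_ne_zero (coeffMap (frobenius k p))).mpr hx) f.2 _
  hp := Fact.out
  char := by
    have : FaithfulSMul k (LaurentSeries k) := inferInstance
    exact charP_of_injective_algebraMap (algebraMap k (LaurentSeries k)).injective p

end Ctx

end Fermat.Agent.H33
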