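import Fermat.Agent.H9Theta
import Fermat.Agent.H33Laurent
import Fermat.Agent.H15Defs

/-!
# Logarithmic derivatives and multiplicative Hecke operators on `q`-expansions

`Tmul q ζ h = h(q^q) ∏_i h(ζ^i q^{1/q})`; if `θ h = f h` then `θ (Tmul h) = (T_q f) Tmul h`.
-/

set_option autoImplicit false
set_option linter.unusedSectionVars false

noncomputable section

open ModularCurve HahnSeries
open Fermat.Agent.H61 (theta coeff_theta theta_mul)
open Fermat.Agent.H60 (twist twist_coeff)
open Fermat.Agent.H33 (contract contract_coeff contract_qExpand prodTwist normOp qExpand_normOp)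

namespace Fermat.Agent.H9

section Ring

variable {R : Type*} [CommRing R]

theorem theta_twist (u : Rˣ) (f : LaurentSeries R) : theta (twist u f) = twist u (theta f) := by
  ext n
  rw [coeff_theta, twist_coeff, twist_coeff, coeff_theta]
  ring

/-- logarithmic derivative of a finite product -/
theorem theta_prod {ι : Type*} (s : Finset ι) (h F : ι → LaurentSeries R)
    (hF : ∀ i ∈ s, theta (h i) = F i * h i) :
    theta (∏ i ∈ s, h i) = (∑ i ∈ s, F i) * ∏ i ∈ s, h i := by
  classical
  induction s using Finset.induction_on with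
  | empty =>
    rw [Finset.prod_empty, Finset.sum_empty, zero_mul]
    ext n
    rw [coeff_theta, HahnSeries.coeff_one]
    split_ifs with h0
    · simp [h0]
    · simp
  | insert a s ha ih =>
    rw [Finset.prod_insert ha, Finset.sum_insert ha, theta_mul, hF a (Finset.mem_insert_self a s),
      ih fun i hi => hF i (Finset.mem_insert_of_mem hi)]
    ring

variable (p : ℕ) [NeZero p]

/-- the Hecke operator `T_p` in weight two on Laurent series -/
def TL (f : LaurentSeries R) : LaurentSeries R :=
  (p : LaurentSeries R) * qExpand R p f + contract p f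

/-- the multiplicative Hecke operator -/
def Tmul (ζ : Rˣ) (h : LaurentSeries R) : LaurentSeries R := qExpand R p h * normOp p ζ h

theorem sum_twist [IsDomain R] {ζ : Rˣ} (hζ : IsPrimitiveRoot ζ p) (f : LaurentSeries R) :
    ∑ i ∈ Finset.range p, twist (ζ ^ i) f = (p : LaurentSeries R) * qExpand R p (contract p f) := by
  ext n
  have hC : (p : LaurentSeries R) = HahnSeries.C (p : R) := by simp
  rw [HahnSeries.coeff_sum, hC, HahnSeries.C_mul_eq_smul, HahnSeries.coeff_smul, smul_eq_mul]
  simp only [twist_coeff]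
  rw [← Finset.sum_mul]
  have h1 : ∀ i : ℕ, (((ζ ^ i) ^ n : Rˣ) : R) = (((ζ ^ n : Rˣ) : R)) ^ i := by
    intro i
    rw [← Units.val_pow_eq_pow_val, ← zpow_natCast, ← zpow_natCast, ← zpow_mul, ← zpow_mul,
      mul_comm]
  simp only [h1]
  by_cases hn : (p : ℤ) ∣ n
  · obtain ⟨m, rfl⟩ := hn
    rw [qExpand_coeff_mul, contract_coeff]
    have h2 : ζ ^ ((p : ℤ) * m) = 1 := (hζ.zpow_eq_one_iff_dvd _).mpr (Dvd.intro _ rfl)
    rw [h2]
    simp
  · rw [qExpand_coeff_of_not_dvd p _ hn, mul_zero]
    have h2 : (((ζ ^ n : Rˣ) : R)) ≠ 1 := by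
      intro h
      exact hn ((hζ.zpow_eq_one_iff_dvd n).mp (Units.ext h))
    have h3 : (((ζ ^ n : Rˣ) : R)) ^ p = 1 := by
      rw [← Units.val_pow_eq_pow_val, ← zpow_natCast, ← zpow_mul,
        (hζ.zpow_eq_one_iff_dvd _).mpr (Dvd.intro_left _ rfl), Units.val_one]
    have h4 := mul_geom_sum (((ζ ^ n : Rˣ) : R)) p
    rw [h3, sub_self] at h4
    rcases mul_eq_zero.mp h4 with h5 | h5
    · exact absurd (sub_eq_zero.mp h5) h2
    · rw [h5, zero_mul]

theorem theta_Tmul [IsDomain R] (hp : (p : R) ≠ 0) {ζ : Rˣ} (hζ : IsPrimitiveRoot ζ p)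
    {f h : LaurentSeries R} (hf : theta h = f * h) :
    theta (Tmul p ζ h) = TL p f * Tmul p ζ h := by
  have h1 : theta (qExpand R p h) = ((p : LaurentSeries R) * qExpand R p f) * qExpand R p h := by
    rw [theta_qExpand, hf, map_mul, mul_assoc]
  have h2 : theta (normOp p ζ h) = contract p f * normOp p ζ h := by
    have h3 : theta (prodTwist p ζ h) =
        ((p : LaurentSeries R) * qExpand R p (contract p f)) * prodTwist p ζ h := by
      rw [← sum_twist p hζ f, prodTwist]
      refine theta_prod _ _ _ fun i _ => ?_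
      rw [theta_twist, hf, map_mul]
    rw [← qExpand_normOp p hζ h, theta_qExpand, mul_assoc] at h3
    have hp' : (p : LaurentSeries R) ≠ 0 := by
      have hC : (p : LaurentSeries R) = HahnSeries.C (p : R) := by simp
      rw [hC, Ne, ← map_zero (HahnSeries.C : R →+* LaurentSeries R)]
      exact fun h => hp (HahnSeries.C_injective h)
    have h4 := mul_left_cancel₀ hp' h3
    rw [← map_mul] at h4
    exact qExpand_injective p h4
  rw [Tmul, theta_mul, h1, h2, TL]
  ring

theorem TL_ofPowerSeries (f : PowerSeries R) :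
    TL p (HahnSeries.ofPowerSeries ℤ R f) = HahnSeries.ofPowerSeries ℤ R
      (PowerSeries.mk fun n =>
        PowerSeries.coeff (p * n) f + if p ∣ n then (p : R) * PowerSeries.coeff (n / p) f else 0) := by
  have hp := NeZero.pos p
  ext k
  have hC : (p : LaurentSeries R) = HahnSeries.C (p : R) := by simp
  rw [TL, HahnSeries.coeff_add, hC, HahnSeries.C_mul_eq_smul, HahnSeries.coeff_smul, smul_eq_mul,
    contract_coeff]
  rcases le_or_gt 0 k with hk | hk
  · lift k to ℕ using hk
    rw [HahnSeries.ofPowerSeries_apply_coeff, PowerSeries.coeff_mk]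
    have h1 : ((p : ℤ) * (k : ℤ)) = ((p * k : ℕ) : ℤ) := by push_cast; ring
    rw [h1, HahnSeries.ofPowerSeries_apply_coeff, add_comm]
    congr 1
    split_ifs with hd
    · obtain ⟨m, rfl⟩ := hd
      rw [Nat.mul_div_cancel_left m hp]
      have h2 : ((p * m : ℕ) : ℤ) = (p : ℤ) * (m : ℤ) := by push_cast; ring
      rw [h2, qExpand_coeff_mul, HahnSeries.ofPowerSeries_apply_coeff]
    · rw [qExpand_coeff_of_not_dvd, mul_zero]
      exact_mod_cast hd
  · rw [ofPowerSeries_coeff_of_neg _ hk, ofPowerSeries_coeff_of_neg, add_zero]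
    · by_cases hd : (p : ℤ) ∣ k
      · obtain ⟨m, rfl⟩ := hd
        rw [qExpand_coeff_mul, ofPowerSeries_coeff_of_neg, mul_zero]
        by_contra hcon
        rw [not_lt] at hcon
        exact absurd hk (not_lt.mpr (mul_nonneg (by positivity) hcon))
      · rw [qExpand_coeff_of_not_dvd p _ hd, mul_zero]
    · exact mul_neg_of_pos_of_neg (by exact_mod_cast hp) hk

end Ring

theorem TL_eq_Tq {k : Type} [Field k] (q : ℕ) [NeZero q] (f : PowerSeries k) :
    TL q (HahnSeries.ofPowerSeries ℤ k f) = HahnSeries.ofPowerSeries ℤ k (H15.Tq k q f) :=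
  TL_ofPowerSeries q f

end Fermat.Agent.H9
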