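import Fermat.Agent.H33Kummer
import Fermat.Agent.H33Field
import Fermat.Agent.H18Glue
import Fermat.Agent.H9LogT
import Fermat.Agent.H12FDefs

/-!
# MZ-F1d: logarithmic derivatives of Kummer functions in characteristic `r` (helper12)

`Rel r y f`: the `r`-torsion class `y` on the reduction has a Kummer function `s` with
`θ s = f s`.
-/

set_option autoImplicit false

noncomputable section

namespace Fermat.Agent.H12F

open ModularCurve AlgebraicCurve
open Fermat.Agent.H61 (theta coeff_theta theta_mul theta_one theta_pow)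
open Fermat.Agent.H33 (IsKum)

section Theta

theorem theta_inv_of {k : Type*} [Field k] {s f : LaurentSeries k} (hs : s ≠ 0)
    (h : theta s = f * s) : theta s⁻¹ = -f * s⁻¹ := by
  have h1 : theta (s * s⁻¹) = 0 := by rw [mul_inv_cancel₀ hs, theta_one]
  rw [theta_mul, h] at h1
  have h2 : s * theta s⁻¹ = s * (-f * s⁻¹) := by
    have e : s * (-f * s⁻¹) = -(f * s * s⁻¹) := by ring
    rw [e]
    exact eq_neg_of_add_eq_zero_right h1
  exact mul_left_cancel₀ hs h2

theorem theta_mul_of {k : Type*} [Field k] {s s' f f' : LaurentSeries k}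
    (h : theta s = f * s) (h' : theta s' = f' * s') : theta (s * s') = (f + f') * (s * s') := by
  rw [theta_mul, h, h']
  ring

theorem charP_laurent (k : Type*) [Field k] (r : ℕ) [CharP k r] : CharP (LaurentSeries k) r :=
  charP_of_injective_algebraMap (algebraMap k (LaurentSeries k)).injective r

theorem theta_pow_char {k : Type*} [Field k] (r : ℕ) [CharP k r] (h : LaurentSeries k) :
    theta (h ^ r) = 0 := by
  have := charP_laurent k r
  rw [theta_pow, CharP.cast_eq_zero, zero_mul, zero_mul]

/-- the kernel of `θ` consists of `r`-th powers -/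
theorem exists_pow_of_theta_eq_zero {k : Type*} [Field k] [IsAlgClosed k] (r : ℕ) [Fact r.Prime]
    [CharP k r] {s : LaurentSeries k} (h : theta s = 0) : ∃ g : LaurentSeries k, g ^ r = s := by
  have : NeZero r := ⟨(Fact.out : r.Prime).ne_zero⟩
  have hsurj : Function.Surjective (frobenius k r) := by
    intro x
    obtain ⟨y, hy⟩ := IsAlgClosed.exists_pow_nat_eq x (Fact.out : r.Prime).pos
    exact ⟨y, hy⟩
  let e : k ≃+* k := RingEquiv.ofBijective (frobenius k r) ⟨(frobenius k r).injective, hsurj⟩
  refine ⟨coeffMap (e.symm : k →+* k) (H33.contract r s), ?_⟩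
  rw [H60.laurent_pow_char r, coeffMap_coeffMap,
    coeffMap_congr (g := RingHom.id k) (RingHom.ext fun a => e.apply_symm_apply a), coeffMap_id]
  apply H33.qExpand_contract r
  intro n hn
  have h1 := congrArg (fun z : LaurentSeries k => z.coeff n) h
  simp only [coeff_theta, HahnSeries.coeff_zero] at h1
  rcases mul_eq_zero.mp h1 with h2 | h2
  · exact absurd ((CharP.intCast_eq_zero_iff k r n).mp h2) hn
  · exact h2

end Theta

section Rel

variable {k : Type*} [Field k] {N : ℕ} (r : ℕ)

/-- the class `y` has a Kummer function with logarithmic derivative `f` -/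
def Rel (y : JZeroC k N) (f : LaurentSeries k) : Prop :=
  ∃ s : modularFunctionFieldFullC k N, IsKum r y s ∧
    theta (s : LaurentSeries k) = f * (s : LaurentSeries k)

variable {r} {y y' : JZeroC k N} {f f' : LaurentSeries k}

theorem coe_ne_zero_of_isKum {s : modularFunctionFieldFullC k N} (h : IsKum r y s) :
    (s : LaurentSeries k) ≠ 0 := fun h0 => h.ne_zero (Subtype.ext h0)

theorem Rel.add (h : Rel r y f) (h' : Rel r y' f') : Rel r (y + y') (f + f') := by
  obtain ⟨s, hs, hf⟩ := h
  obtain ⟨s', hs', hf'⟩ := h'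
  exact ⟨s * s', hs.mul hs', by
    rw [MulMemClass.coe_mul]
    exact theta_mul_of hf hf'⟩

theorem Rel.neg (h : Rel r y f) : Rel r (-y) (-f) := by
  obtain ⟨s, hs, hf⟩ := h
  exact ⟨s⁻¹, hs.inv, theta_inv_of (coe_ne_zero_of_isKum hs) hf⟩

theorem Rel.sub (h : Rel r y f) (h' : Rel r y' f') : Rel r (y - y') (f - f') := by
  rw [sub_eq_add_neg, sub_eq_add_neg]
  exact h.add h'.neg

theorem rel_zero : Rel r (0 : JZeroC k N) 0 :=
  ⟨1, IsKum.one k, by rw [OneMemClass.coe_one, theta_one, zero_mul]⟩

theorem Rel.nsmul (h : Rel r y f) (n : ℕ) : Rel r (n • y) (n • f) := by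
  induction n with
  | zero => rw [zero_nsmul, zero_nsmul]; exact rel_zero
  | succ n ih => rw [succ_nsmul, succ_nsmul]; exact ih.add h

theorem Rel.smul_eq_zero (h : Rel r y f) : r • y = 0 := by
  obtain ⟨s, hs, -⟩ := h
  exact hs.nsmul_eq_zero

variable [Fact r.Prime] [CharP k r] [IsAlgClosed k] [H94.FunField k (modularFunctionFieldFullC k N)]

/-- every Kummer function has the same logarithmic derivative -/
theorem Rel.theta_eq (h : Rel r y f) {s : modularFunctionFieldFullC k N} (hs : IsKum r y s) :
    theta (s : LaurentSeries k) = f * (s : LaurentSeries k) := by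
  obtain ⟨s', hs', hf⟩ := h
  obtain ⟨g, -, rfl⟩ := hs.unique (Fact.out : r.Prime).ne_zero hs'
  have e : ((s' * g ^ r : modularFunctionFieldFullC k N) : LaurentSeries k) =
      (s' : LaurentSeries k) * (g : LaurentSeries k) ^ r := by
    rw [MulMemClass.coe_mul, SubmonoidClass.coe_pow]
  rw [e, theta_mul, theta_pow_char r, mul_zero, add_zero, hf]
  ring

theorem Rel.unique (h : Rel r y f) (h' : Rel r y f') : f = f' := by
  obtain ⟨s, hs, hf⟩ := h
  have := h'.theta_eq hs
  rw [hf] at this
  exact mul_right_cancel₀ (coe_ne_zero_of_isKum hs) this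

omit [H94.FunField k (modularFunctionFieldFullC k N)] in
/-- a class with vanishing logarithmic derivative is trivial -/
theorem Rel.eq_zero [NeZero N] (hN : (N : k) ≠ 0) (h : Rel r y 0) : y = 0 := by
  obtain ⟨s, hs, hf⟩ := h
  rw [zero_mul] at hf
  obtain ⟨g, hg⟩ := exists_pow_of_theta_eq_zero r hf
  have hgm : g ∈ modularFunctionFieldFullC k N :=
    H33.fullC_sat r N hN g (by rw [hg]; exact SetLike.coe_mem s)
  refine hs.eq_zero (Fact.out : r.Prime).ne_zero (c := 1) (h := ⟨g, hgm⟩) ?_
  rw [map_one, one_mul]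
  apply Subtype.ext
  rw [SubmonoidClass.coe_pow]
  exact hg.symm

end Rel

end Fermat.Agent.H12F
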