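import Fermat.Agent.H94NoEis
import Fermat.Agent.H9J9E

/-!
# MZ-J9 (J1): characteristic polynomials of Hecke operators on `J₀(N)[r]` and on `Λ`
-/

set_option autoImplicit false
set_option linter.unusedSectionVars false
set_option linter.style.haveILetI false

noncomputable section

namespace Fermat.Agent.H94.J9

open CongruenceSubgroup ModularCurve AlgebraicCurve Module
open Fermat.Agent.H90 Fermat.Agent.H4 Fermat.Agent.H9 Fermat.Agent.H94.NE
open scoped MatrixGroups

local notation "Qb" => AlgebraicClosure ℚ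

/-! ### roots of unity -/

section Mu

variable (n : ℕ) [hn : NeZero n]

/-- A primitive `n`-th root of unity. -/
def zet : ℂˣ := Units.mk0 (Complex.exp (2 * Real.pi * Complex.I / n)) (Complex.exp_ne_zero _)

theorem zet_spec : IsPrimitiveRoot (zet n) n :=
  (IsPrimitiveRoot.coe_units_iff).1 (Complex.isPrimitiveRoot_exp n hn.out)

/-- `ZMod n` is isomorphic to the group of `n`-th roots of unity. -/
def eMu : ZMod n ≃+ Additive (Subgroup.zpowers (zet n)) := (zet_spec n).zmodEquivZPowers

/-- The embedding of `ZMod n` in `Mu`. -/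
def eC : ZMod n →+ Mu :=
  ((MonoidHom.toAdditive (Subgroup.zpowers (zet n)).subtype).comp (eMu n).toAddMonoidHom :
    ZMod n →+ Additive ℂˣ)

theorem eC_injective : Function.Injective (eC n) := by
  intro a b h
  apply (eMu n).injective
  exact Subtype.ext h

theorem exists_eC {x : Mu} (hx : n • x = 0) : ∃ a, eC n a = x := by
  have h1 : (Additive.toMul (x : Additive ℂˣ)) ^ n = 1 := hx
  have h2 : (Additive.toMul (x : Additive ℂˣ)) ∈ rootsOfUnity n ℂ := (mem_rootsOfUnity n _).2 h1
  rw [← (zet_spec n).zpowers_eq] at h2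
  refine ⟨(eMu n).symm (Additive.ofMul ⟨_, h2⟩), ?_⟩
  show ((eMu n ((eMu n).symm _)).toMul : ℂˣ) = (Additive.toMul (x : Additive ℂˣ))
  rw [AddEquiv.apply_symm_apply]
  rfl

theorem nsmul_eC (a : ZMod n) : n • eC n a = 0 := by
  rw [← map_nsmul, nsmul_eq_mul, ZMod.natCast_self, zero_mul, map_zero]

end Mu

/-! ### the Hecke operators on `Λ` -/

section Lam

variable {N : ℕ} [NeZero N]

/-- `T_q` on `Λ` -/
def TLam (hN : N.Prime) (q : Idx N) : Module.End ℤ (LamN N) :=
  haveI : Fact ((q.1 : Nat.Primes) : ℕ).Prime := ⟨q.1.2⟩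
  (heckeLam (N := N) (q.not_dvd hN)).toIntLinearMap

theorem heckeHom_lift' (hN : N.Prime) (q : Idx N) {A : Type*} [AddCommGroup A] (f : LamN N →+ A) :
    haveI : Fact ((q.1 : Nat.Primes) : ℕ).Prime := ⟨q.1.2⟩
    heckeHom (q.not_dvd hN) (f.comp (H8.proj (Gamma0 N))) =
      (f.comp (TLam hN q).toAddMonoidHom).comp (H8.proj (Gamma0 N)) := by
  haveI : Fact ((q.1 : Nat.Primes) : ℕ).Prime := ⟨q.1.2⟩
  exact heckeHom_lift (q.not_dvd hN) f

theorem comp_proj_injective {A : Type*} [AddCommGroup A] {f g : LamN N →+ A}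
    (h : f.comp (H8.proj (Gamma0 N)) = g.comp (H8.proj (Gamma0 N))) : f = g := by
  refine AddMonoidHom.ext fun x => ?_
  obtain ⟨γ, rfl⟩ := H8.proj_surjective (Gamma0 N) x
  exact DFunLike.congr_fun h γ

/-- real homs on `Λ` are real periods -/
theorem exists_form (f : LamN N →+ ℝ) : ∃ F : CuspForm (Gamma0 N) 2,
    f.comp (H8.proj (Gamma0 N)) = Complex.reAddGroupHom.comp (periodMap N F) := by
  obtain ⟨F, hF⟩ := (H8.realPeriod_surjective (H80.finrank_eq_genusFormula N)).1
    ⟨f.comp (H8.proj (Gamma0 N)), fun γ hγ => by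
      show f (H8.proj (Gamma0 N) (Additive.ofMul γ)) = 0
      rw [H8.proj_of_mem (Gamma0 N) hγ, map_zero]⟩
  exact ⟨F, (congrArg Subtype.val hF).symm⟩

theorem hecke_form (hN : N.Prime) (q : Idx N) {f : LamN N →+ ℝ} {F : CuspForm (Gamma0 N) 2}
    (h : f.comp (H8.proj (Gamma0 N)) = Complex.reAddGroupHom.comp (periodMap N F)) :
    (f.comp (TLam hN q).toAddMonoidHom).comp (H8.proj (Gamma0 N)) =
      Complex.reAddGroupHom.comp (periodMap N (TC hN q F)) := by
  haveI : Fact ((q.1 : Nat.Primes) : ℕ).Prime := ⟨q.1.2⟩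
  rw [← heckeHom_lift' hN q f, h]
  rw [TC, periodMap_heckeTLin, heckeHom_comp]

theorem TLam_comm (hN : N.Prime) (q q' : Idx N) :
    TLam hN q * TLam hN q' = TLam hN q' * TLam hN q := by
  classical
  let b := Module.Free.chooseBasis ℤ (LamN N)
  refine LinearMap.ext fun x => b.repr.injective (Finsupp.ext fun i => ?_)
  let f : LamN N →+ ℝ := (Int.castAddHom ℝ).comp (b.coord i).toAddMonoidHom
  have key : (f.comp (TLam hN q).toAddMonoidHom).comp (TLam hN q').toAddMonoidHom =
      (f.comp (TLam hN q').toAddMonoidHom).comp (TLam hN q).toAddMonoidHom := by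
    apply comp_proj_injective
    obtain ⟨F, hF⟩ := exists_form f
    rw [hecke_form hN q' (hecke_form hN q hF), hecke_form hN q (hecke_form hN q' hF)]
    congr 2
    exact LinearMap.congr_fun (TC_comm hN q' q) F
  have h1 := DFunLike.congr_fun key x
  have h2 : ((b.repr ((TLam hN q) ((TLam hN q') x)) i : ℤ) : ℝ) =
      ((b.repr ((TLam hN q') ((TLam hN q) x)) i : ℤ) : ℝ) := h1
  exact Int.cast_injective h2

/-- the action of the polynomial ring in the `T_q`, `q ≠ N`, on `Λ` -/
def evLam (hN : N.Prime) : R0 N →+* Module.End ℤ (LamN N) := evalC (TLam hN) (TLam_comm hN)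

end Lam

/-! ### the torsion of the Jacobian -/

section Tors

variable {N : ℕ} [NeZero N] {r : ℕ} [hr : Fact r.Prime]

instance neZero_r : NeZero r := ⟨hr.out.ne_zero⟩

/-- the relation between a torsion point and a homomorphism `Λ → ℤ/r` -/
def RelZ (x : Jr N r) (g : LamN N →+ ZMod r) : Prop :=
  letI := algQbarC
  Rel (K := Qb) (N := N) r (x : JZero N) (((eC r).comp g).comp (H8.proj (Gamma0 N)))

theorem RelZ.unique {x : Jr N r} {g g' : LamN N →+ ZMod r} (h : RelZ x g) (h' : RelZ x g') :
    g = g' := by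
  letI := algQbarC
  have h1 := Rel.char_eq h h' hr.out.ne_zero
  have h2 := comp_proj_injective h1
  refine AddMonoidHom.ext fun y => eC_injective r (DFunLike.congr_fun h2 y)

theorem exists_relZ (x : Jr N r) : ∃ g : LamN N →+ ZMod r, RelZ x g := by
  letI := algQbarC
  have hx : r • (x : JZero N) = 0 := by
    have := Pic0.mem_torsion.mp x.2
    rwa [natCast_zsmul] at this
  obtain ⟨χ, hχ0⟩ := exists_rel (K := Qb) (N := N) hr.out.ne_zero (c := (x : JZero N)) hx
  have hχ : Rel (K := Qb) (N := N) r (x : JZero N) χ := hχ0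
  obtain ⟨f, hf⟩ := exists_lift_isPE (Rel.isPE hχ hr.out.ne_zero)
  have hrf : r • f = 0 := by
    apply comp_proj_injective
    have h1 := Rel.char_torsion hχ hr.out.ne_zero
    rw [← hf] at h1
    rw [AddMonoidHom.zero_comp, ← h1]
    rfl
  have hex : ∀ y, ∃ a, eC r a = f y := fun y => exists_eC r (by
    have := DFunLike.congr_fun hrf y
    exact this)
  choose g0 hg0 using hex
  let g : LamN N →+ ZMod r := AddMonoidHom.mk' g0 fun y y' => by
    apply eC_injective r
    rw [map_add, hg0, hg0, hg0, map_add]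
  refine ⟨g, ?_⟩
  have h2 : ((eC r).comp g).comp (H8.proj (Gamma0 N)) = χ := by
    rw [← hf]
    refine AddMonoidHom.ext fun γ => ?_
    exact hg0 _
  show Rel (K := Qb) (N := N) r (x : JZero N) _
  rw [h2]
  exact hχ

theorem RelZ.add {x x' : Jr N r} {g g' : LamN N →+ ZMod r} (h : RelZ x g) (h' : RelZ x' g') :
    RelZ (x + x') (g + g') := by
  letI := algQbarC
  have h1 := Rel.add h h'
  have h2 : ((eC r).comp (g + g')).comp (H8.proj (Gamma0 N)) =
      ((eC r).comp g).comp (H8.proj (Gamma0 N)) + ((eC r).comp g').comp (H8.proj (Gamma0 N)) := by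
    refine AddMonoidHom.ext fun γ => ?_
    exact map_add (eC r) _ _
  show Rel (K := Qb) (N := N) r ((x + x' : Jr N r) : JZero N) _
  rw [h2]
  exact h1

theorem exists_of_hom (g : LamN N →+ ZMod r) : ∃ x : Jr N r, RelZ x g := by
  letI := algQbarC
  obtain ⟨c, hc⟩ := exists_rel_of_isPE (K := Qb) (N := N) hr.out.ne_zero
    (((eC r).comp g).comp (H8.proj (Gamma0 N))) (fun γ hγ => by
      show eC r (g (H8.proj (Gamma0 N) (Additive.ofMul γ))) = 0
      rw [H8.proj_of_mem (Gamma0 N) hγ, map_zero, map_zero]) (by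
      refine AddMonoidHom.ext fun γ => ?_
      exact nsmul_eC r _)
  have hct : c ∈ Pic0.torsion Qb (modularFunctionFieldBar N) r := by
    rw [Pic0.mem_torsion, natCast_zsmul]
    exact Rel.torsion hc
  exact ⟨⟨c, hct⟩, hc⟩

theorem RelZ.inj {x x' : Jr N r} {g : LamN N →+ ZMod r} (h : RelZ x g) (h' : RelZ x' g) :
    x = x' := by
  letI := algQbarC
  exact Subtype.ext (Rel.inj h h' hr.out.ne_zero)

theorem RelZ.hecke (hN : N.Prime) (q : Idx N) {x : Jr N r} {g : LamN N →+ ZMod r}
    (h : RelZ x g) : RelZ (TJ N r q x) (g.comp (TLam hN q).toAddMonoidHom) := by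
  letI := algQbarC
  haveI : Fact ((q.1 : Nat.Primes) : ℕ).Prime := ⟨q.1.2⟩
  have h1 := rel_hecke (q.not_dvd hN) h
  rw [heckeHom_lift' hN q] at h1
  exact h1

variable (N r) in
/-- `J₀(N)[r] → Hom(Λ, ℤ/r)` -/
def phi : Jr N r →+ (LamN N →+ ZMod r) :=
  AddMonoidHom.mk' (fun x => (exists_relZ x).choose) fun x x' =>
    (exists_relZ (x + x')).choose_spec.unique
      ((exists_relZ x).choose_spec.add (exists_relZ x').choose_spec)

theorem relZ_phi (x : Jr N r) : RelZ x (phi N r x) := (exists_relZ x).choose_spec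

theorem phi_eq {x : Jr N r} {g : LamN N →+ ZMod r} (h : RelZ x g) : phi N r x = g :=
  (relZ_phi x).unique h

theorem phi_bijective : Function.Bijective (phi N r) := by
  refine ⟨fun x x' h => ?_, fun g => ?_⟩
  · have h1 := relZ_phi x
    rw [h] at h1
    exact h1.inj (relZ_phi x')
  · obtain ⟨x, hx⟩ := exists_of_hom g
    exact ⟨x, phi_eq hx⟩

theorem phi_TJ (hN : N.Prime) (q : Idx N) (x : Jr N r) :
    phi N r (TJ N r q x) = (phi N r x).comp (TLam hN q).toAddMonoidHom :=
  phi_eq ((relZ_phi x).hecke hN q)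

theorem phi_evJ (hN : N.Prime) (a : R0 N) (x : Jr N r) :
    phi N r (evJ N r a x) = (phi N r x).comp (evLam hN a).toAddMonoidHom := by
  induction a using MvPolynomial.induction_on generalizing x with
  | C a =>
    rw [evJ, evLam, evalC_C, evalC_C, Module.End.intCast_apply, map_zsmul]
    refine AddMonoidHom.ext fun y => ?_
    show a • phi N r x y = phi N r x (((a : Module.End ℤ (LamN N))) y)
    rw [Module.End.intCast_apply, map_zsmul]
  | add p q hp hq =>
    rw [map_add, map_add, LinearMap.add_apply, map_add, hp, hq]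
    refine AddMonoidHom.ext fun y => ?_
    exact (map_add (phi N r x) _ _).symm
  | mul_X p i hp =>
    rw [map_mul, Module.End.mul_apply, hp]
    have h1 : evJ N r (MvPolynomial.X i) = TJ N r i := evalC_X _ _ _
    have h2 : evLam hN (p * MvPolynomial.X i) = TLam hN i * evLam hN p := by
      rw [mul_comm, map_mul]
      congr 1
      exact evalC_X _ _ _
    rw [h1, h2, phi_TJ hN]
    rfl

variable (N r) in
/-- the index set of a basis of `Λ` -/
abbrev Ix : Type := Module.Free.ChooseBasisIndex ℤ (LamN N)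

variable (N) in
/-- a basis of `Λ` -/
abbrev bL : Basis (Module.Free.ChooseBasisIndex ℤ (LamN N)) ℤ (LamN N) :=
  Module.Free.chooseBasis ℤ (LamN N)

/-- coordinates on `J₀(N)[r]` -/
def coords0 : Jr N r →ₗ[ZMod r] (Module.Free.ChooseBasisIndex ℤ (LamN N) → ZMod r) :=
  AddMonoidHom.toZModLinearMap r (AddMonoidHom.mk' (fun x i => phi N r x (bL N i))
    (fun x x' => by
      funext i
      rw [map_add]
      rfl))

theorem coords0_apply (x : Jr N r) (i) : coords0 x i = phi N r x (bL N i) := rfl

theorem coords0_bijective : Function.Bijective (coords0 (N := N) (r := r)) := by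
  refine ⟨fun x x' h => ?_, fun v => ?_⟩
  · apply phi_bijective.1
    have h1 : (phi N r x).toIntLinearMap = (phi N r x').toIntLinearMap :=
      (bL N).ext fun i => congrFun h i
    exact AddMonoidHom.ext fun y => LinearMap.congr_fun h1 y
  · obtain ⟨x, hx⟩ := phi_bijective.2 ((bL N).constr ℤ v).toAddMonoidHom
    refine ⟨x, ?_⟩
    funext i
    rw [coords0_apply, hx]
    show (bL N).constr ℤ v (bL N i) = v i
    rw [Basis.constr_basis]

variable (N r) in
/-- coordinates on `J₀(N)[r]` -/
def coords : Jr N r ≃ₗ[ZMod r] (Module.Free.ChooseBasisIndex ℤ (LamN N) → ZMod r) :=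
  LinearEquiv.ofBijective coords0 coords0_bijective

theorem coords_apply (x : Jr N r) (i) : coords N r x i = phi N r x (bL N i) := rfl

instance finite_Jr : Module.Finite (ZMod r) (Jr N r) := Module.Finite.equiv (coords N r).symm

theorem coords_evJ (hN : N.Prime) (a : R0 N) (x : Jr N r) :
    coords N r (evJ N r a x) =
      Matrix.toLin' (((LinearMap.toMatrix (bL N) (bL N) (evLam hN a)).map
        (Int.castRingHom (ZMod r))).transpose) (coords N r x) := by
  funext i
  rw [coords_apply, phi_evJ hN, Matrix.toLin'_apply, Matrix.mulVec, dotProduct]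
  show phi N r x (evLam hN a (bL N i)) = _
  conv_lhs => rw [← (bL N).sum_repr (evLam hN a (bL N i)), map_sum]
  refine Finset.sum_congr rfl fun j _ => ?_
  rw [map_zsmul, Matrix.transpose_apply, Matrix.map_apply, LinearMap.toMatrix_apply, coords_apply,
    zsmul_eq_mul]
  rfl

/-- **(J1)** the characteristic polynomial of a Hecke operator on `J₀(N)[r]` is the reduction
of its characteristic polynomial on `Λ`. -/
theorem charpoly_evJ_lam (hN : N.Prime) (a : R0 N) :
    (evJ N r a).charpoly = (evLam hN a).charpoly.map (Int.castRingHom (ZMod r)) := by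
  have h1 : (coords N r).conj (evJ N r a) =
      Matrix.toLin' (((LinearMap.toMatrix (bL N) (bL N) (evLam hN a)).map
        (Int.castRingHom (ZMod r))).transpose) := by
    refine LinearMap.ext fun v => ?_
    rw [LinearEquiv.conj_apply_apply, coords_evJ hN, LinearEquiv.apply_symm_apply]
  rw [← LinearEquiv.charpoly_conj (coords N r) (evJ N r a), h1, Matrix.charpoly_toLin',
    Matrix.charpoly_transpose, Matrix.charpoly_map, LinearMap.charpoly_toMatrix]

end Tors

end Fermat.Agent.H94.J9
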