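import Fermat.Agent.H9J9G
import Fermat.Agent.H94J9
import Fermat.Agent.H50J9C

/-!
# MZ-J9: `T_cardW`
-/

set_option autoImplicit false

noncomputable section

namespace Fermat.Agent.H9

/-- characteristic polynomials of Hecke operators on `J_0(N)[r]` -/
theorem charpoly_evJ (N : ℕ) [NeZero N] (hN : N.Prime) (r : ℕ) [Fact r.Prime] (a : R0 N) :
    (evJ N r a).charpoly = ((evMZ hN a).charpoly.map (Int.castRingHom (ZMod r))) ^ 2 := by
  rw [H94.J9.charpoly_evJ_lam hN a, H94.J9.evLam, H50.J9.charpoly_lam hN, Polynomial.map_pow]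
  intro q x
  rfl

/-- **MZ-J9** -/
theorem cardW : H15.T_cardW := cardW_of fun N _ hN r _ _ a => charpoly_evJ N hN r a

end Fermat.Agent.H9
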