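import Fermat.Agent.H12FCard
import Fermat.Agent.H9J9H

/-!
# `T_cardMult` (helper12)
-/

set_option autoImplicit false

namespace Fermat.Agent.H12F

/-- (F1), unconditional -/
theorem t_cardMult : H15.T_cardMult := cardMult_of H9.cardW

end Fermat.Agent.H12F
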