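import Mathlib

/-! Tropical induction: the valuations of the x-coordinates of multiples of a point
of order `p` not on the identity component. -/

set_option autoImplicit false

namespace Fermat.Agent.H72

section

variable {Γ : Type*} [AddCommGroup Γ] [LinearOrder Γ] [IsOrderedAddMonoid Γ]

/-- the state of the tropical induction -/
def TropState (s r : Γ) (n : ℕ) (h h' : Γ) : Prop :=
  (∃ k : ℕ, n • r = h + (2 * k) • s ∧ h' = |h - r|) ∨
  (∃ k : ℕ, n • r + h = (2 * k) • s ∧ h' = min (h + r) (2 • s - h - r))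

/-- one step of the tropical induction, `h'' = h (n+1)`, `h = h n`, `h' = h (n-1)`. -/
lemma TropState.step {s r h h' h'' A B : Γ} {n : ℕ}
    (hr : 0 < r) (hrs : r < s) (hh : 0 < h) (hhs : h < s) (hh' : 0 < h') (hhs' : h' < s)
    (hh'' : 0 < h'') (hhs'' : h'' < s) (h2r : 2 • r ≠ s)
    (hA : min (h + r) s ≤ A) (hA' : h + r ≠ s → A = min (h + r) s)
    (hB : min h r ≤ B) (hB' : h ≠ r → B = min h r)
    (hrel : h'' + h' + 2 • B = 2 • A)
    (hst : TropState s r n h h') : TropState s r (n + 1) h'' h := by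
  rcases hst with ⟨k, hk, hk'⟩ | ⟨k, hk, hk'⟩
  · -- ε = +
    have h1 : h ≠ r := by
      rintro rfl
      grind
    have h2 : h + r ≠ s := by
      intro h2
      specialize hB' h1
      grind
    specialize hA' h2
    specialize hB' h1
    by_cases h3 : h + r < s
    · left
      refine ⟨k, ?_, ?_⟩
      · rw [succ_nsmul, hk]
        grind
      · grind
    · right
      refine ⟨k + 1, ?_, ?_⟩
      · have e : (2 * (k + 1)) • s = (2 * k) • s + 2 • s := by
          rw [mul_add, add_nsmul]
        rw [succ_nsmul, hk, e]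
        grind
      · grind
  · have h1 : h ≠ r := by
      rintro rfl
      specialize hA'
      grind
    have h2 : h + r ≠ s := by
      intro h2
      grind
    specialize hA' h2
    specialize hB' h1
    by_cases h3 : r < h
    · right
      refine ⟨k, ?_, ?_⟩
      · rw [succ_nsmul, ← hk]
        grind
      · grind
    · left
      refine ⟨k, ?_, ?_⟩
      · rw [succ_nsmul, ← hk]
        grind
      · grind

/-- first step of the tropical induction -/
lemma TropState.first {s r h'' A : Γ}
    (hr : 0 < r) (hrs : r < s) (hhs'' : h'' < s)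
    (hA : min (r + r) s ≤ A) (hA' : r + r ≠ s → A = min (r + r) s)
    (hrel : h'' + 2 • r = 2 • A) : 2 • r ≠ s ∧ TropState s r 2 h'' r := by
  have h2 : r + r ≠ s := by
    intro h2
    grind
  specialize hA' h2
  refine ⟨by grind, ?_⟩
  by_cases h3 : r + r < s
  · left
    exact ⟨0, by grind, by grind⟩
  · right
    exact ⟨1, by grind, by grind⟩

/-- **Tropical theorem.** -/
theorem tropical (p : ℕ) (hp : 3 ≤ p) (s : Γ) (h A B : ℕ → Γ)
    (hpos : ∀ n, 1 ≤ n → n < p → 0 < h n ∧ h n < s)
    (hA : ∀ n, 1 ≤ n → n + 1 < p → min (h n + h 1) s ≤ A n ∧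
      (h n + h 1 ≠ s → A n = min (h n + h 1) s))
    (hB : ∀ n, 2 ≤ n → n + 1 < p → min (h n) (h 1) ≤ B n ∧ (h n ≠ h 1 → B n = min (h n) (h 1)))
    (hrel : ∀ n, 2 ≤ n → n + 1 < p → h (n + 1) + h (n - 1) + 2 • B n = 2 • A n)
    (hrel1 : h 2 + 2 • h 1 = 2 • A 1)
    (hend : h (p - 1) = h 1) : ∃ k : ℕ, p • h 1 = (2 * k) • s := by
  have h1 := hpos 1 le_rfl (by omega)
  have h2 := hpos 2 (by omega) (by omega)
  have hA1 := hA 1 le_rfl (by omega)
  obtain ⟨h2r, hst2⟩ := TropState.first h1.1 h1.2 h2.2 hA1.1 hA1.2 hrel1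
  have key : ∀ n, 2 ≤ n → n < p → TropState s (h 1) n (h n) (h (n - 1)) := by
    intro n hn
    induction n, hn using Nat.le_induction with
    | base => intro _; exact hst2
    | succ n hn ih =>
      intro hnp
      have ih := ih (by omega)
      have e1 := hpos n (by omega) (by omega)
      have e2 := hpos (n - 1) (by omega) (by omega)
      have e3 := hpos (n + 1) (by omega) (by omega)
      have e4 := hA n (by omega) (by omega)
      have e5 := hB n (by omega) (by omega)
      exact TropState.step h1.1 h1.2 e1.1 e1.2 e2.1 e2.2 e3.1 e3.2 h2r e4.1 e4.2 e5.1 e5.2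
        (hrel n (by omega) (by omega)) ih
  have hfin := key (p - 1) (by omega) (by omega)
  obtain ⟨q, rfl⟩ : ∃ q, p = q + 1 := ⟨p - 1, by omega⟩
  simp only [Nat.add_sub_cancel] at hfin hend
  have e2 := hpos (q - 1) (by omega) (by omega)
  rcases hfin with ⟨k, hk, hk'⟩ | ⟨k, hk, hk'⟩
  · rw [hend] at hk'
    simp only [sub_self, abs_zero] at hk'
    exact absurd hk' e2.1.ne'
  · exact ⟨k, by rw [succ_nsmul, ← hk, hend]⟩

end

end Fermat.Agent.H72
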