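import Fermat.Agent.H72Ord
import Fermat.Agent.H72Tropical

/-!
Abstract Kummer structure attached to a curve `y² = x (x - α) (x + β)`:
an abelian group `G` with homogeneous `x`-coordinates `(N P : D P)` in a field `K`.
-/

set_option autoImplicit false

namespace Fermat.Agent.H72

/-- Abstract Kummer structure for `y² = x (x - α) (x + β)`. -/
structure Kum (G K : Type*) [AddCommGroup G] [Field K] (α β : K) where
  N : G → K
  D : G → K
  D_eq_zero : ∀ P, D P = 0 ↔ P = 0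
  N_zero : N 0 ≠ 0
  N_neg : ∀ P, N (-P) = N P
  D_neg : ∀ P, D (-P) = D P
  rel : ∀ P Q, ∃ c : K, c ≠ 0 ∧
    c * (N (P + Q) * N (P - Q)) = (N P * N Q + α * β * (D P * D Q)) ^ 2 ∧
    c * (N (P + Q) * D (P - Q) + D (P + Q) * N (P - Q)) =
      2 * (N P * D Q + D P * N Q) * (N P * N Q - α * β * (D P * D Q))
        + 4 * (β - α) * (N P * N Q) * (D P * D Q) ∧
    c * (D (P + Q) * D (P - Q)) = (N P * D Q - D P * N Q) ^ 2

namespace Kum

variable {G K : Type*} [AddCommGroup G] [Field K] {α β : K} (κ : Kum G K α β)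
  {Γ₀ : Type*} [LinearOrderedCommGroupWithZero Γ₀] {v : Valuation K Γ₀}

/-- the (affine) `x`-coordinate -/
noncomputable def x (P : G) : K := κ.N P / κ.D P

@[simp] lemma D_zero : κ.D 0 = 0 := (κ.D_eq_zero 0).mpr rfl

lemma D_ne {P : G} (hP : P ≠ 0) : κ.D P ≠ 0 := fun h => hP ((κ.D_eq_zero P).mp h)

lemma x_neg (P : G) : κ.x (-P) = κ.x P := by rw [x, x, κ.N_neg, κ.D_neg]

/-- the affine relations -/
lemma x_rel {P Q : G} (hP : P ≠ 0) (hQ : Q ≠ 0) (hS : P + Q ≠ 0) (hD : P - Q ≠ 0) :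
    κ.x P ≠ κ.x Q ∧
    κ.x (P + Q) * κ.x (P - Q) * (κ.x P - κ.x Q) ^ 2 = (κ.x P * κ.x Q + α * β) ^ 2 ∧
    (κ.x (P + Q) + κ.x (P - Q)) * (κ.x P - κ.x Q) ^ 2 =
      2 * (κ.x P + κ.x Q) * (κ.x P * κ.x Q - α * β) + 4 * (β - α) * (κ.x P * κ.x Q) := by
  obtain ⟨c, hc, h0, h1, h2⟩ := κ.rel P Q
  have dP := κ.D_ne hP
  have dQ := κ.D_ne hQ
  have dS := κ.D_ne hS
  have dD := κ.D_ne hD
  have hne : κ.N P * κ.D Q - κ.D P * κ.N Q ≠ 0 := by
    intro h
    rw [h, zero_pow two_ne_zero] at h2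
    exact mul_ne_zero hc (mul_ne_zero dS dD) h2
  have ex : κ.x P - κ.x Q = (κ.N P * κ.D Q - κ.D P * κ.N Q) / (κ.D P * κ.D Q) := by
    rw [x, x]; field_simp
  refine ⟨?_, ?_, ?_⟩
  · rw [← sub_ne_zero, ex]
    exact div_ne_zero hne (mul_ne_zero dP dQ)
  · rw [ex, div_pow, ← h2]
    simp only [x]
    field_simp
    linear_combination h0
  · rw [ex, div_pow, ← h2]
    simp only [x]
    field_simp
    linear_combination h1

/-- duplication -/
lemma x_dup {P : G} (hP : P ≠ 0) (h2 : P + P ≠ 0) :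
    κ.x (P + P) * (4 * κ.x P * (κ.x P - α) * (κ.x P + β)) = (κ.x P ^ 2 + α * β) ^ 2 ∧
    4 * κ.x P * (κ.x P - α) * (κ.x P + β) ≠ 0 := by
  obtain ⟨c, hc, h0, h1, -⟩ := κ.rel P P
  rw [sub_self, κ.D_zero] at *
  have dP := κ.D_ne hP
  have dS := κ.D_ne h2
  have n0 := κ.N_zero
  have e1 : 4 * κ.x P * (κ.x P - α) * (κ.x P + β) = (c * (κ.D (P + P) * κ.N 0)) / κ.D P ^ 4 := by
    rw [eq_div_iff (pow_ne_zero 4 dP)]
    rw [mul_zero, zero_add] at h1
    rw [h1]
    simp only [x]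
    field_simp
    ring
  refine ⟨?_, ?_⟩
  · rw [e1]
    simp only [x]
    field_simp
    linear_combination h0
  · rw [e1]
    exact div_ne_zero (mul_ne_zero hc (mul_ne_zero dS n0)) (pow_ne_zero 4 dP)

lemma N_ne_of_le {P : G} (hP : v (κ.D P) ≤ v (κ.N P)) : κ.N P ≠ 0 := by
  intro h
  by_cases h0 : P = 0
  · rw [h0] at h; exact κ.N_zero h
  · rw [h, map_zero, le_zero_iff, Valuation.zero_iff] at hP
    exact κ.D_ne h0 hP

/-- The subgroup `E₀` is closed under addition and subtraction. -/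
lemma e0_add_sub (hα : v α < 1) (hβ : v β = 1) {P Q : G}
    (hP : v (κ.D P) ≤ v (κ.N P)) (hQ : v (κ.D Q) ≤ v (κ.N Q)) :
    v (κ.D (P + Q)) ≤ v (κ.N (P + Q)) ∧ v (κ.D (P - Q)) ≤ v (κ.N (P - Q)) := by
  obtain ⟨c, hc, h0, h1, h2⟩ := κ.rel P Q
  have nP := κ.N_ne_of_le hP
  have nQ := κ.N_ne_of_le hQ
  have vnP : v (κ.N P) ≠ 0 := (Valuation.ne_zero_iff v).mpr nP
  have vnQ : v (κ.N Q) ≠ 0 := (Valuation.ne_zero_iff v).mpr nQ
  have vc : v c ≠ 0 := (Valuation.ne_zero_iff v).mpr hc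
  obtain ⟨M, hM⟩ : ∃ M, M = v (κ.N P) * v (κ.N Q) := ⟨_, rfl⟩
  have M0 : M ≠ 0 := by rw [hM]; exact mul_ne_zero vnP vnQ
  have hNN : v (κ.N P * κ.N Q) = M := by rw [hM, map_mul]
  have hDD : v (κ.D P * κ.D Q) ≤ M := by rw [hM, map_mul]; exact mul_le_mul' hP hQ
  have hND : v (κ.N P * κ.D Q) ≤ M := by rw [hM, map_mul]; exact mul_le_mul' le_rfl hQ
  have hDN : v (κ.D P * κ.N Q) ≤ M := by rw [hM, map_mul]; exact mul_le_mul' hP le_rfl
  have hαβ : v (α * β) < 1 := by rw [map_mul, hβ, mul_one]; exact hα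
  have hαβD : v (α * β * (κ.D P * κ.D Q)) < M := by
    rw [map_mul]
    calc v (α * β) * v (κ.D P * κ.D Q) ≤ v (α * β) * M := mul_le_mul' le_rfl hDD
      _ < 1 * M := by
        exact mul_lt_mul_of_pos_right hαβ (zero_lt_iff.mpr M0)
      _ = M := one_mul M
  have k0 : v c * (v (κ.N (P + Q)) * v (κ.N (P - Q))) = M ^ 2 := by
    rw [← map_mul, ← map_mul, h0, map_pow]
    congr 1
    rw [← hNN]
    exact Valuation.map_add_eq_of_lt_left v (by rw [hNN]; exact hαβD)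
  have k2 : v c * (v (κ.D (P + Q)) * v (κ.D (P - Q))) ≤ M ^ 2 := by
    rw [← map_mul, ← map_mul, h2, map_pow]
    exact pow_le_pow_left' ((v.map_sub _ _).trans (max_le hND hDN)) 2
  have k1 : v c * v (κ.N (P + Q) * κ.D (P - Q) + κ.D (P + Q) * κ.N (P - Q)) ≤ M ^ 2 := by
    rw [← map_mul, h1]
    refine (v.map_add _ _).trans (max_le ?_ ?_)
    · rw [map_mul, map_mul, pow_two]
      have e2 : v (2 : K) ≤ 1 := by
        have := v.map_add 1 1
        rw [map_one, max_self] at this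
        norm_num at this
        exact this
      have e3 : v (κ.N P * κ.D Q + κ.D P * κ.N Q) ≤ M := (v.map_add _ _).trans (max_le hND hDN)
      have e4 : v (κ.N P * κ.N Q - α * β * (κ.D P * κ.D Q)) ≤ M :=
        (v.map_sub _ _).trans (max_le hNN.le hαβD.le)
      calc _ ≤ 1 * M * M := mul_le_mul' (mul_le_mul' e2 e3) e4
        _ = M * M := by rw [one_mul]
    · rw [map_mul, map_mul, pow_two]
      have e2 : v (4 * (β - α)) ≤ 1 := by
        have e2' : v (2 : K) ≤ 1 := by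
          have := v.map_add 1 1
          rw [map_one, max_self] at this
          norm_num at this
          exact this
        have : (4 : K) = 2 * 2 := by norm_num
        rw [this, map_mul, map_mul]
        calc v 2 * v 2 * v (β - α) ≤ 1 * 1 * 1 :=
              mul_le_mul' (mul_le_mul' e2' e2')
                ((v.map_sub _ _).trans (max_le hβ.le hα.le))
          _ = 1 := by simp
      calc v (4 * (β - α)) * v (κ.N P * κ.N Q) * v (κ.D P * κ.D Q) ≤ 1 * M * M :=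
            mul_le_mul' (mul_le_mul' e2 hNN.le) hDD
        _ = M * M := by rw [one_mul]
  -- now in terms of the four values
  have hprod : v (κ.D (P + Q)) * v (κ.D (P - Q)) ≤ v (κ.N (P + Q)) * v (κ.N (P - Q)) := by
    rw [← k0] at k2
    exact le_of_mul_le_mul_left k2 (zero_lt_iff.mpr vc)
  have hsum : v (κ.N (P + Q) * κ.D (P - Q) + κ.D (P + Q) * κ.N (P - Q)) ≤
      v (κ.N (P + Q)) * v (κ.N (P - Q)) := by
    rw [← k0] at k1
    exact le_of_mul_le_mul_left k1 (zero_lt_iff.mpr vc)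
  have hne : v (κ.N (P + Q)) * v (κ.N (P - Q)) ≠ 0 := by
    intro h
    rw [h, mul_zero] at k0
    exact pow_ne_zero 2 M0 k0.symm
  have general : ∀ a b c d : K, v b * v d ≤ v a * v c → v (a * d + b * c) ≤ v a * v c →
      v a * v c ≠ 0 → v b ≤ v a := by
    intro a b c d h1 h2 h3
    by_contra h4
    push Not at h4
    have va : v a ≠ 0 := left_ne_zero_of_mul h3
    have vc : v c ≠ 0 := right_ne_zero_of_mul h3
    have h5 : v d < v c := by
      by_contra h5
      push Not at h5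
      have : v a * v c < v b * v d :=
        calc v a * v c ≤ v a * v d := mul_le_mul' le_rfl h5
          _ < v b * v d := mul_lt_mul_of_pos_right h4
              ((zero_lt_iff.mpr vc).trans_le h5)
      exact absurd h1 (not_le.mpr this)
    have h6 : v (a * d) < v (b * c) := by
      rw [map_mul, map_mul]
      calc v a * v d ≤ v a * v c := mul_le_mul' le_rfl h5.le
        _ < v b * v c := mul_lt_mul_of_pos_right h4 (zero_lt_iff.mpr vc)
    rw [Valuation.map_add_eq_of_lt_right v h6, map_mul] at h2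
    exact absurd (le_of_mul_le_mul_right h2 (zero_lt_iff.mpr vc)) (not_le.mpr h4)
  refine ⟨general _ _ _ _ hprod hsum hne, ?_⟩
  refine general (κ.N (P - Q)) (κ.D (P - Q)) (κ.N (P + Q)) (κ.D (P + Q)) ?_ ?_ ?_
  · rw [mul_comm, mul_comm (v (κ.N (P - Q)))]; exact hprod
  · rw [mul_comm (v (κ.N (P - Q)))]
    refine le_trans (le_of_eq ?_) hsum
    congr 1; ring
  · rw [mul_comm]; exact hne

lemma e0_nsmul (hα : v α < 1) (hβ : v β = 1) {P : G}
    (hP : v (κ.D P) ≤ v (κ.N P)) (n : ℕ) : v (κ.D (n • P)) ≤ v (κ.N (n • P)) := by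
  induction n with
  | zero => rw [zero_nsmul, κ.D_zero, map_zero]; exact zero_le
  | succ n ih => rw [succ_nsmul]; exact (κ.e0_add_sub hα hβ ih hP).1

/-- multiples of a point of order `p` not in `E₀` are not in `E₀`. -/
lemma not_e0_nsmul (hα : v α < 1) (hβ : v β = 1) {P : G} {p : ℕ} (hp : 1 < p)
    (hpP : p • P = 0) (hP : v (κ.N P) < v (κ.D P)) {n : ℕ} (hn : n.Coprime p) :
    v (κ.N (n • P)) < v (κ.D (n • P)) := by
  by_contra h
  push Not at h
  obtain ⟨m, -, hm⟩ := Nat.exists_mul_mod_eq_one_of_coprime hn hp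
  have h1 := κ.e0_nsmul hα hβ h m
  have h2 : m • n • P = P := by
    rw [← mul_nsmul]
    conv_lhs => rw [← Nat.div_add_mod (n * m) p, hm, add_nsmul, mul_nsmul, hpP]
    simp
  rw [h2] at h1
  exact absurd hP (not_lt.mpr h1)

lemma ne_zero_of_not_e0 {P : G} (hP : v (κ.N P) < v (κ.D P)) : P ≠ 0 := by
  rintro rfl
  rw [κ.D_zero, map_zero] at hP
  exact not_lt_zero hP

lemma x_lt_one_of_not_e0 {P : G} (hP : v (κ.N P) < v (κ.D P)) : v (κ.x P) < 1 := by
  have hD := κ.D_ne (κ.ne_zero_of_not_e0 hP)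
  have : v (κ.D P) ≠ 0 := (Valuation.ne_zero_iff v).mpr hD
  rw [x, map_div₀]
  exact (div_lt_one₀ (zero_lt_iff.mpr this)).mpr hP

lemma lt_x_of_not_e0 (hα0 : α ≠ 0) (hα : v α < 1) (hβ : v β = 1) (h4 : v (4 : K) = 1) {P : G}
    (hP : v (κ.N P) < v (κ.D P)) (h2P : v (κ.N (P + P)) < v (κ.D (P + P))) :
    v α < v (κ.x P) := by
  by_contra h
  push Not at h
  have hP0 := κ.ne_zero_of_not_e0 hP
  have hP2 := κ.ne_zero_of_not_e0 h2P
  have hx2 := κ.x_lt_one_of_not_e0 h2P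
  obtain ⟨h1, h2⟩ := κ.x_dup hP0 hP2
  have vα0 : v α ≠ 0 := (Valuation.ne_zero_iff v).mpr hα0
  have e1 : v (κ.x P ^ 2 + α * β) = v α := by
    rw [Valuation.map_add_eq_of_lt_right v, map_mul, hβ, mul_one]
    rw [map_mul, hβ, mul_one, map_pow, pow_two]
    calc v (κ.x P) * v (κ.x P) ≤ v α * v α := mul_le_mul' h h
      _ < 1 * v α := mul_lt_mul_of_pos_right hα (zero_lt_iff.mpr vα0)
      _ = v α := one_mul _
  have e2 : v (4 * κ.x P * (κ.x P - α) * (κ.x P + β)) ≤ v α ^ 2 := by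
    rw [map_mul, map_mul, map_mul, h4, one_mul, pow_two]
    have e3 : v (κ.x P - α) ≤ v α := (v.map_sub _ _).trans (max_le h le_rfl)
    have e4 : v (κ.x P + β) ≤ 1 := (v.map_add _ _).trans (max_le (h.trans hα.le) hβ.le)
    calc _ ≤ v α * v α * 1 := mul_le_mul' (mul_le_mul' h e3) e4
      _ = _ := mul_one _
  have e5 := congrArg v h1
  rw [map_mul, map_pow, e1] at e5
  have : v (κ.x (P + P)) * v (4 * κ.x P * (κ.x P - α) * (κ.x P + β)) < v α ^ 2 :=
    calc _ < 1 * v (4 * κ.x P * (κ.x P - α) * (κ.x P + β)) :=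
          mul_lt_mul_of_pos_right hx2 (zero_lt_iff.mpr ((Valuation.ne_zero_iff v).mpr h2))
      _ ≤ v α ^ 2 := by rw [one_mul]; exact e2
  exact absurd e5 this.ne

/-- **Main theorem** on the abstract Kummer structure: the valuation of the `x`-coordinate of a
point of odd prime order `p` not in `E₀`. -/
theorem main (hα0 : α ≠ 0) (hα : v α < 1) (hβ : v β = 1) (h4 : v (4 : K) = 1)
    {p : ℕ} (hp : p.Prime) (hp2 : p ≠ 2) {P : G} (hpP : p • P = 0)
    (hP : v (κ.N P) < v (κ.D P)) :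
    κ.x P ≠ 0 ∧ v α < v (κ.x P) ∧ v (κ.x P) < 1 ∧ ∃ k : ℕ, v (κ.x P) ^ p = v α ^ (2 * k) := by
  have hp3 : 3 ≤ p := by
    have := hp.two_le; omega
  have hcop : ∀ n, 1 ≤ n → n < p → n.Coprime p := fun n h1 h2 =>
    (Nat.coprime_of_lt_prime (by omega) h2 hp).symm
  have hcop2 : ∀ n, 1 ≤ n → n < p → (n + n).Coprime p := fun n h1 h2 => by
    rw [← two_mul]
    exact Nat.Coprime.mul_left ((Nat.coprime_primes Nat.prime_two hp).mpr hp2.symm) (hcop n h1 h2)
  have hE : ∀ n, 1 ≤ n → n < p → v (κ.N (n • P)) < v (κ.D (n • P)) := fun n h1 h2 =>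
    κ.not_e0_nsmul hα hβ hp.one_lt hpP hP (hcop n h1 h2)
  have hE2 : ∀ n, 1 ≤ n → n < p → v (κ.N (n • P + n • P)) < v (κ.D (n • P + n • P)) :=
    fun n h1 h2 => by
      rw [← add_nsmul]
      exact κ.not_e0_nsmul hα hβ hp.one_lt hpP hP (hcop2 n h1 h2)
  have hx1 : ∀ n, 1 ≤ n → n < p → v (κ.x (n • P)) < 1 := fun n h1 h2 =>
    κ.x_lt_one_of_not_e0 (hE n h1 h2)
  have hxα : ∀ n, 1 ≤ n → n < p → v α < v (κ.x (n • P)) := fun n h1 h2 =>
    κ.lt_x_of_not_e0 hα0 hα hβ h4 (hE n h1 h2) (hE2 n h1 h2)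
  have hx0 : ∀ n, 1 ≤ n → n < p → κ.x (n • P) ≠ 0 := fun n h1 h2 => by
    rw [← Valuation.ne_zero_iff v]
    exact (zero_lt_iff.mp (lt_of_le_of_lt zero_le (hxα n h1 h2)))
  have hnz : ∀ n, 1 ≤ n → n < p → n • P ≠ 0 := fun n h1 h2 => κ.ne_zero_of_not_e0 (hE n h1 h2)
  have hβ0 : β ≠ 0 := by rw [← Valuation.ne_zero_iff v, hβ]; exact one_ne_zero
  have hαβ0 : α * β ≠ 0 := mul_ne_zero hα0 hβ0
  have hordαβ : ord v (α * β) = ord v α := by
    rw [ord_mul hα0 hβ0, (ord_eq_zero_iff hβ0).mpr hβ, add_zero]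
  have hP1 := hx0 1 le_rfl (by omega)
  -- relations
  have hrel : ∀ n, 2 ≤ n → n + 1 < p →
      κ.x (n • P) ≠ κ.x (1 • P) ∧ κ.x ((n + 1) • P) * κ.x ((n - 1) • P) *
        (κ.x (n • P) - κ.x (1 • P)) ^ 2 = (κ.x (n • P) * κ.x (1 • P) + α * β) ^ 2 := by
    intro n h1 h2
    have e1 : n • P + 1 • P = (n + 1) • P := (add_nsmul P n 1).symm
    have e2 : n • P - 1 • P = (n - 1) • P := by
      rw [sub_nsmul _ (by omega : 1 ≤ n)]
      abel
    have := κ.x_rel (hnz n (by omega) (by omega)) (hnz 1 (by omega) (by omega))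
      (by rw [e1]; exact hnz _ (by omega) (by omega))
      (by rw [e2]; exact hnz _ (by omega) (by omega))
    rw [e1, e2] at this
    exact ⟨this.1, this.2.1⟩
  have hrel1 := κ.x_dup (hnz 1 le_rfl (by omega))
    (by rw [← add_nsmul]; exact hnz 2 (by omega) (by omega))
  rw [← add_nsmul] at hrel1
  norm_num only at hrel1
  have hsumne : ∀ n, 1 ≤ n → n + 1 < p → κ.x (n • P) * κ.x (1 • P) + α * β ≠ 0 := by
    intro n h1 h2 h3
    rcases Nat.lt_or_ge n 2 with h4' | h4'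
    · obtain rfl : n = 1 := by omega
      rw [← pow_two] at h3
      rw [h3, zero_pow two_ne_zero] at hrel1
      exact mul_ne_zero (hx0 2 (by omega) (by omega)) hrel1.2 hrel1.1
    · have := hrel n h4' h2
      rw [h3, zero_pow two_ne_zero] at this
      exact mul_ne_zero (mul_ne_zero (hx0 _ (by omega) (by omega)) (hx0 _ (by omega) (by omega)))
        (pow_ne_zero 2 (sub_ne_zero.mpr this.1)) this.2
  have trop := tropical p hp3 (ord v α) (fun n => ord v (κ.x (n • P)))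
    (fun n => ord v (κ.x (n • P) * κ.x (1 • P) + α * β))
    (fun n => ord v (κ.x (n • P) - κ.x (1 • P))) ?_ ?_ ?_ ?_ ?_ ?_
  · obtain ⟨k, hk⟩ := trop
    rw [← ord_pow hP1, ← ord_pow hα0, ord_eq_iff (pow_ne_zero _ hP1) (pow_ne_zero _ hα0),
      map_pow, map_pow] at hk
    have e1 := hx1 1 le_rfl (by omega)
    have e2 := hxα 1 le_rfl (by omega)
    rw [one_nsmul] at hP1 hk e1 e2
    exact ⟨hP1, e2, e1, k, hk⟩
  · intro n h1 h2
    exact ⟨(ord_pos_iff (hx0 n h1 h2)).mpr (hx1 n h1 h2),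
      (ord_lt_iff (hx0 n h1 h2) hα0).mpr (hxα n h1 h2)⟩
  · intro n h1 h2
    have hxn := hx0 n h1 (by omega)
    have := min_ord_le_ord_add (v := v) (mul_ne_zero hxn hP1) hαβ0 (hsumne n h1 h2)
    rw [ord_mul hxn hP1, hordαβ] at this
    refine ⟨this, fun hne => ?_⟩
    have h5 := ord_add_eq_min (v := v) (mul_ne_zero hxn hP1) hαβ0
      (by rw [ord_mul hxn hP1, hordαβ]; exact hne)
    rw [ord_mul hxn hP1, hordαβ] at h5
    exact h5
  · intro n h1 h2
    have hxn := hx0 n (by omega) (by omega)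
    have hne := (hrel n h1 h2).1
    have hneg : -κ.x (1 • P) ≠ 0 := neg_ne_zero.mpr hP1
    have hne' : κ.x (n • P) + -κ.x (1 • P) ≠ 0 := by
      rw [← sub_eq_add_neg]; exact sub_ne_zero.mpr hne
    have := min_ord_le_ord_add (v := v) hxn hneg hne'
    rw [ord_neg, ← sub_eq_add_neg] at this
    refine ⟨this, fun hne2 => ?_⟩
    have h5 := ord_add_eq_min (v := v) hxn hneg (by rw [ord_neg]; exact hne2)
    rw [ord_neg, ← sub_eq_add_neg] at h5
    exact h5
  · intro n h1 h2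
    obtain ⟨hne, hr⟩ := hrel n h1 h2
    have h5 := congrArg (ord v) hr
    have s0 := sub_ne_zero.mpr hne
    have e1 := hx0 (n + 1) (by omega) (by omega)
    have e2 := hx0 (n - 1) (by omega) (by omega)
    rw [ord_mul (mul_ne_zero e1 e2) (pow_ne_zero 2 s0), ord_mul e1 e2, ord_pow s0,
      ord_pow (hsumne n (by omega) h2)] at h5
    exact h5
  · obtain ⟨hr, hne⟩ := hrel1
    have e2 := hx0 2 (by omega) (by omega)
    have hxa : κ.x (1 • P) - α ≠ 0 := by
      intro h; rw [h] at hne; simp at hne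
    have hxb : κ.x (1 • P) + β ≠ 0 := by
      intro h; rw [h] at hne; simp at hne
    have h40 : (4 : K) ≠ 0 := by rw [← Valuation.ne_zero_iff v, h4]; exact one_ne_zero
    have h5 := congrArg (ord v) hr
    rw [ord_mul e2 hne, ord_mul (mul_ne_zero (mul_ne_zero h40 hP1) hxa) hxb,
      ord_mul (mul_ne_zero h40 hP1) hxa, ord_mul h40 hP1, (ord_eq_zero_iff h40).mpr h4] at h5
    have e3 : ord v (κ.x (1 • P) - α) = ord v (κ.x (1 • P)) := by
      rw [ord_eq_iff hxa hP1, sub_eq_add_neg, Valuation.map_add_eq_of_lt_left]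
      rw [Valuation.map_neg]
      exact hxα 1 le_rfl (by omega)
    have e4 : ord v (κ.x (1 • P) + β) = 0 := by
      rw [ord_eq_zero_iff hxb, Valuation.map_add_eq_of_lt_right v, hβ]
      rw [hβ]
      exact hx1 1 le_rfl (by omega)
    have h3 := hsumne 1 le_rfl (by omega)
    rw [e3, e4, pow_two (κ.x (1 • P)), ord_pow h3] at h5
    rw [← h5]
    abel
  · congr 1
    have : (p - 1) • P = - (1 • P) := by
      rw [sub_nsmul _ (by omega : 1 ≤ p), hpP]
      simp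
    rw [this, κ.x_neg]

end Kum

end Fermat.Agent.H72
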