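import Mathlib
import Fermat.Agent.H12Node

/-!
# Subgroups of prime order missing `E₀`
-/

set_option autoImplicit false

namespace Fermat.Agent.H12

open Fermat.Agent.H72

/-- counting: a map to `{1..M}` from a set with `2M` elements whose fibres have at most two elements -/
lemma card_fiber_eq_two {ι : Type*} (s : Finset ι) (M : ℕ) (k : ι → ℕ)
    (hk : ∀ a ∈ s, k a ∈ Finset.Icc 1 M) (hcard : s.card = 2 * M)
    (hfib : ∀ j ∈ Finset.Icc 1 M, (s.filter (fun a => k a = j)).card ≤ 2) :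
    ∀ j ∈ Finset.Icc 1 M, (s.filter (fun a => k a = j)).card = 2 := by
  classical
  have h1 : ∑ j ∈ Finset.Icc 1 M, (s.filter (fun a => k a = j)).card =
      ∑ j ∈ Finset.Icc 1 M, 2 := by
    rw [← Finset.card_eq_sum_card_fiberwise hk, hcard, Finset.sum_const, Nat.card_Icc]
    simp [mul_comm]
  exact (Finset.sum_eq_sum_iff_of_le hfib).mp h1

lemma sum_eq_of_fiber {ι : Type*} (s : Finset ι) (M : ℕ) (k : ι → ℕ)
    (hk : ∀ a ∈ s, k a ∈ Finset.Icc 1 M)
    (hfib : ∀ j ∈ Finset.Icc 1 M, (s.filter (fun a => k a = j)).card = 2) :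
    ∑ a ∈ s, k a = M * (M + 1) := by
  classical
  have h1 : ∑ a ∈ s, k a = ∑ j ∈ Finset.Icc 1 M, ∑ a ∈ s.filter (fun a => k a = j), k a :=
    (Finset.sum_fiberwise_of_maps_to hk _).symm
  rw [h1]
  have h2 : ∀ j ∈ Finset.Icc 1 M, ∑ a ∈ s.filter (fun a => k a = j), k a = 2 * j := by
    intro j hj
    rw [Finset.sum_congr rfl (fun a ha => (Finset.mem_filter.mp ha).2), Finset.sum_const,
      hfib j hj, smul_eq_mul]
  rw [Finset.sum_congr rfl h2, ← Finset.mul_sum]
  have h3 : ∑ j ∈ Finset.Icc 1 M, j = ∑ j ∈ Finset.range (M + 1), j := by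
    rw [Finset.range_eq_Ico, Finset.sum_eq_sum_Ico_succ_bot (Nat.succ_pos M)]
    simp
    rfl
  rw [h3]
  have := Finset.sum_range_id_mul_two (M + 1)
  simp only [Nat.add_sub_cancel] at this
  linarith [this, mul_comm M (M+1)]

/-- elements of a set of prime order closed under addition are multiples of each other -/
lemma exists_nsmul_of_card_prime {G : Type*} [AddCommGroup G] [DecidableEq G] {N : Finset G} {p : ℕ}
    (hp : p.Prime) (zero_mem : (0 : G) ∈ N) (add_mem : ∀ a ∈ N, ∀ c ∈ N, a + c ∈ N)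
    (card : N.card = p) (tors : ∀ a ∈ N, p • a = 0) {c : G} (hc : c ∈ N) (hc0 : c ≠ 0)
    {a : G} (ha : a ∈ N) : ∃ n < p, n • c = a := by
  have := Fact.mk hp
  have hord : addOrderOf c = p := addOrderOf_eq_prime (tors c hc) hc0
  have hmem : ∀ n : ℕ, n • c ∈ N := by
    intro n
    induction n with
    | zero => rw [zero_nsmul]; exact zero_mem
    | succ n ih => rw [succ_nsmul]; exact add_mem _ ih _ hc
  have hsub : (Finset.range p).image (fun n => n • c) ⊆ N := by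
    intro x hx
    obtain ⟨n, -, rfl⟩ := Finset.mem_image.mp hx
    exact hmem n
  have hinj : Set.InjOn (fun n : ℕ => n • c) (Finset.range p) := by
    intro x hx y hy hxy
    have h1 : x ≡ y [MOD addOrderOf c] := nsmul_eq_nsmul_iff_modEq.mp hxy
    rw [hord] at h1
    exact Nat.ModEq.eq_of_lt_of_lt h1 (by simpa using hx) (by simpa using hy)
  have heq : (Finset.range p).image (fun n => n • c) = N := by
    refine Finset.eq_of_subset_of_card_le hsub ?_
    rw [Finset.card_image_of_injOn hinj, Finset.card_range, card]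
  rw [← heq] at ha
  obtain ⟨n, hn, hna⟩ := Finset.mem_image.mp ha
  exact ⟨n, Finset.mem_range.mp hn, hna⟩

namespace Nod

variable {G K : Type*} [AddCommGroup G] [Field K] {b m : K} (κ : Nod G K b m)
  {Γ₀ : Type*} [LinearOrderedCommGroupWithZero Γ₀] {v : Valuation K Γ₀}

lemma exists_k (hm0 : m ≠ 0) (hm : v m < 1) (hb : v b = 1)
    {p : ℕ} (hp : p.Prime) (hp2 : p ≠ 2) {P : G} (hpP : p • P = 0)
    (hP : v (κ.N P) < v (κ.D P)) :
    ∃ k ∈ Finset.Icc 1 ((p - 1) / 2), v (κ.x P) ^ p = v m ^ (2 * k) := by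
  obtain ⟨hx0, h1, h2, k, hk⟩ := κ.main hm0 hm hb hp hp2 hpP hP
  refine ⟨k, ?_, hk⟩
  have hp0 : p ≠ 0 := hp.ne_zero
  have h3 : 2 * k < p := by
    by_contra h
    push Not at h
    have h4 : v m ^ (2 * k) ≤ v m ^ p := pow_le_pow_right_of_le_one' hm.le h
    have h5 : v m ^ p < v (κ.x P) ^ p := pow_lt_pow_left₀ h1 zero_le hp0
    rw [← hk] at h4
    exact absurd h4 (not_le.mpr h5)
  have h4 : k ≠ 0 := by
    rintro rfl
    rw [mul_zero, pow_zero] at hk
    have : v (κ.x P) ^ p < 1 := pow_lt_one₀ zero_le h2 hp0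
    exact absurd hk this.ne
  rw [Finset.mem_Icc]
  omega

section

variable [DecidableEq G] (N : Finset G) (p : ℕ)

/-- standing hypotheses on a finite subgroup of order `p` missing `E₀` -/
structure Missing (v : Valuation K Γ₀) : Prop where
  hm0 : m ≠ 0
  hm : v m < 1
  hb : v b = 1
  hp : p.Prime
  hp2 : p ≠ 2
  zero_mem : (0 : G) ∈ N
  add_mem : ∀ a ∈ N, ∀ c ∈ N, a + c ∈ N
  neg_mem : ∀ a ∈ N, -a ∈ N
  card : N.card = p
  tors : ∀ a ∈ N, p • a = 0
  miss : ∀ a ∈ N, a ≠ 0 → v (κ.N a) < v (κ.D a)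

variable {κ N p}

lemma Missing.eq_or_neg (h : κ.Missing N p v) {a c : G} (ha : a ∈ N) (hc : c ∈ N) (ha0 : a ≠ 0)
    (hc0 : c ≠ 0) (hac : v (κ.x a) = v (κ.x c)) : a = c ∨ a = -c := by
  by_contra hcon
  push Not at hcon
  have hS : a + c ≠ 0 := fun h1 => hcon.2 (eq_neg_of_add_eq_zero_left h1)
  have hD : a - c ≠ 0 := fun h1 => hcon.1 (sub_eq_zero.mp h1)
  obtain ⟨-, h1, h2, -⟩ := κ.main h.hm0 h.hm h.hb h.hp h.hp2 (h.tors a ha) (h.miss a ha ha0)
  rcases κ.e0_of_eq h.hb h2 h1 hac ha0 hc0 hS hD with h3 | h3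
  · have := κ.x_lt_one_of_not_e0 (h.miss _ (h.add_mem _ ha _ hc) hS)
    exact absurd h3 (not_le.mpr this)
  · have := κ.x_lt_one_of_not_e0 (h.miss _ (by
      rw [sub_eq_add_neg]; exact h.add_mem _ ha _ (h.neg_mem _ hc)) hD)
    exact absurd h3 (not_le.mpr this)

open Classical in
/-- the function `k` -/
lemma Missing.exists_fun (h : κ.Missing N p v) :
    ∃ k : G → ℕ, (∀ a ∈ N.erase 0, k a ∈ Finset.Icc 1 ((p - 1) / 2)) ∧
      (∀ a ∈ N.erase 0, v (κ.x a) ^ p = v m ^ (2 * k a)) ∧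
      (∀ j ∈ Finset.Icc 1 ((p - 1) / 2), ((N.erase 0).filter (fun a => k a = j)).card = 2) := by
  have h1 : ∀ a : G, ∃ k, a ∈ N.erase 0 → k ∈ Finset.Icc 1 ((p - 1) / 2) ∧
      v (κ.x a) ^ p = v m ^ (2 * k) := by
    intro a
    by_cases ha : a ∈ N.erase 0
    · have ha' := Finset.mem_erase.mp ha
      obtain ⟨k, hk1, hk2⟩ := κ.exists_k h.hm0 h.hm h.hb h.hp h.hp2 (h.tors a ha'.2)
        (h.miss a ha'.2 ha'.1)
      exact ⟨k, fun _ => ⟨hk1, hk2⟩⟩
    · exact ⟨0, fun h => absurd h ha⟩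
  choose k hk using h1
  have hodd : Odd p := h.hp.odd_of_ne_two h.hp2
  refine ⟨k, fun a ha => (hk a ha).1, fun a ha => (hk a ha).2,
    card_fiber_eq_two _ _ k (fun a ha => (hk a ha).1) ?_ ?_⟩
  · have := Finset.card_erase_add_one h.zero_mem
    rw [h.card] at this
    obtain ⟨r, hr⟩ := hodd
    omega
  · intro j _
    by_cases hne : ((N.erase 0).filter (fun a => k a = j)).Nonempty
    · obtain ⟨a, ha⟩ := hne
      have ha' := Finset.mem_filter.mp ha
      have ha'' := Finset.mem_erase.mp ha'.1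
      have hsub : (N.erase 0).filter (fun a => k a = j) ⊆ {a, -a} := by
        intro c hc
        have hc' := Finset.mem_filter.mp hc
        have hc'' := Finset.mem_erase.mp hc'.1
        have h2 : v (κ.x c) = v (κ.x a) := by
          have e1 := (hk a ha'.1).2
          have e2 := (hk c hc'.1).2
          rw [ha'.2] at e1
          rw [hc'.2, ← e1] at e2
          exact (pow_left_inj₀ zero_le zero_le h.hp.ne_zero).mp e2
        rw [Finset.mem_insert, Finset.mem_singleton]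
        exact h.eq_or_neg hc''.2 ha''.2 hc''.1 ha''.1 h2
      exact (Finset.card_le_card hsub).trans Finset.card_le_two
    · rw [Finset.not_nonempty_iff_eq_empty] at hne
      rw [hne]; simp

/-- product formula -/
lemma Missing.prod_val (h : κ.Missing N p v) :
    (∏ a ∈ N.erase 0, v (κ.x a)) ^ p = v m ^ ((p ^ 2 - 1) / 2) := by
  obtain ⟨k, hk1, hk2, hk3⟩ := h.exists_fun
  have hs := sum_eq_of_fiber _ _ k hk1 (by convert hk3)
  rw [← Finset.prod_pow, Finset.prod_congr rfl hk2, Finset.prod_pow_eq_pow_sum, ← Finset.mul_sum, hs]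
  congr 1
  obtain ⟨r, hr⟩ := h.hp.odd_of_ne_two h.hp2
  rw [hr]
  have e1 : (2 * r + 1 - 1) / 2 = r := by omega
  have e2 : (2 * r + 1) ^ 2 - 1 = 2 * (2 * (r * (r + 1))) := by
    rw [Nat.sub_eq_iff_eq_add (Nat.one_le_pow _ _ (by omega))]; ring
  rw [e1, e2]
  omega

/-- every coset of `N` in the `p`-torsion meets `E₀` -/
lemma Missing.exists_e0 (h : κ.Missing N p v) {P : G} (hP : p • P = 0) (hPN : P ∉ N) :
    ∃ a ∈ N, v (κ.D (P + a)) ≤ v (κ.N (P + a)) := by
  by_contra hcon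
  push Not at hcon
  have hP0 : v (κ.N P) < v (κ.D P) := by
    have := hcon 0 h.zero_mem
    rwa [add_zero] at this
  obtain ⟨k, hk1, hk2, hk3⟩ := h.exists_fun
  obtain ⟨j, hj1, hj2⟩ := κ.exists_k h.hm0 h.hm h.hb h.hp h.hp2 hP hP0
  have h3 := hk3 j hj1
  obtain ⟨a, ha⟩ : ((N.erase 0).filter (fun a => k a = j)).Nonempty := by
    rw [← Finset.card_pos, h3]; norm_num
  have ha' := Finset.mem_filter.mp ha
  have ha'' := Finset.mem_erase.mp ha'.1
  have hva : v (κ.x P) = v (κ.x a) := by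
    have e1 := hk2 a ha'.1
    rw [ha'.2, ← hj2] at e1
    exact (pow_left_inj₀ zero_le zero_le h.hp.ne_zero).mp e1.symm
  obtain ⟨-, h1, h2, -⟩ := κ.main h.hm0 h.hm h.hb h.hp h.hp2 hP hP0
  have hS : P + a ≠ 0 := fun h1 => hPN (by
    rw [eq_neg_of_add_eq_zero_left h1]; exact h.neg_mem _ ha''.2)
  have hD : P - a ≠ 0 := fun h1 => hPN (by rw [sub_eq_zero.mp h1]; exact ha''.2)
  rcases κ.e0_of_eq h.hb h2 h1 hva (κ.ne_zero_of_not_e0 hP0) ha''.1 hS hD with h4 | h4
  · exact absurd h4 (not_le.mpr (κ.x_lt_one_of_not_e0 (hcon a ha''.2)))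
  · have := hcon (-a) (h.neg_mem _ ha''.2)
    rw [← sub_eq_add_neg] at this
    exact absurd h4 (not_le.mpr (κ.x_lt_one_of_not_e0 this))

/-- a subgroup of prime order either misses `E₀` or is contained in it. -/
lemma miss_or_in (hm : v m < 1) (hb : v b ≤ 1) (hp : p.Prime)
    (zero_mem : (0 : G) ∈ N) (add_mem : ∀ a ∈ N, ∀ c ∈ N, a + c ∈ N)
    (card : N.card = p) (tors : ∀ a ∈ N, p • a = 0) :
    (∀ a ∈ N, a ≠ 0 → v (κ.N a) < v (κ.D a)) ∨ (∀ a ∈ N, v (κ.D a) ≤ v (κ.N a)) := by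
  by_contra hcon
  push Not at hcon
  obtain ⟨⟨c, hc, hc0, hcE⟩, ⟨a, ha, haE⟩⟩ := hcon
  obtain ⟨n, -, hn⟩ := exists_nsmul_of_card_prime hp zero_mem add_mem card tors hc hc0 ha
  have := κ.e0_nsmul hm hb hcE n
  rw [hn] at this
  exact absurd haE (not_lt.mpr this)

end

end Nod

end Fermat.Agent.H12
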