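import Mathlib
import Fermat.Agent.H12Curve

/-!
# Quotients of `y² = (x-e)(x-f)(x-g)` by a finite subgroup of odd order, via product formulas
-/

set_option autoImplicit false

namespace Fermat.Agent.H12

set_option linter.unusedSectionVars false

open WeierstrassCurve WeierstrassCurve.Affine WeierstrassCurve.Affine.Point
open Fermat.Agent.H72
open Polynomial

/-- pairing lemma -/
lemma prod_eq_of_pairing {ι K : Type*} [Field K] (s : Finset ι) (τ : ι → ι)
    (hτ : ∀ a ∈ s, τ a ∈ s) (hττ : ∀ a ∈ s, τ (τ a) = a) (hne : ∀ a ∈ s, τ a ≠ a)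
    (f g : ι → K) (hg : ∀ a ∈ s, g a ≠ 0) (hfg : ∀ a ∈ s, f a * f (τ a) = g a * g (τ a)) :
    ∏ a ∈ s, f a = ∏ a ∈ s, g a := by
  have h1 : ∏ a ∈ s, (f a / g a) = 1 := by
    refine Finset.prod_involution (fun a _ => τ a) ?_ (fun a ha _ => hne a ha) hτ hττ
    intro a ha
    have h1 := hg a ha
    have h2 := hg _ (hτ a ha)
    rw [div_mul_div_comm, hfg a ha, div_self (mul_ne_zero h1 h2)]
  rw [Finset.prod_div_distrib] at h1
  have h2 : ∏ a ∈ s, g a ≠ 0 := Finset.prod_ne_zero_iff.mpr hg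
  rwa [div_eq_one_iff_eq h2] at h1

variable {K : Type*} [Field K] [DecidableEq K] {W : Affine K} {e f g : K}

/-- Standing hypotheses: `N` is a finite subgroup without 2-torsion. -/
structure Setup (W : Affine K) (e f g : K) (N : Finset W.Point) : Prop where
  rts : Rts W e f g
  hef : e ≠ f
  heg : e ≠ g
  hfg : f ≠ g
  zero_mem : (0 : W.Point) ∈ N
  add_mem : ∀ a ∈ N, ∀ b ∈ N, a + b ∈ N
  neg_mem : ∀ a ∈ N, -a ∈ N
  odd : ∀ a ∈ N, a + a = 0 → a = 0
  odd_card : Odd N.card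

/-- `∏_{ν ∈ N} (x(P+ν) - e)` -/
noncomputable def Rp (N : Finset W.Point) (e : K) (P : W.Point) : K := ∏ ν ∈ N, (xN (P + ν) - e)

/-- `∏_{ν ∈ N, ν ≠ 0} (x(ν) - e)` -/
noncomputable def Hp (N : Finset W.Point) (e : K) : K := ∏ ν ∈ N.erase 0, (xN ν - e)

/-- `∏_{ν ∈ N} (x_P - x_{Q+ν})` -/
noncomputable def Dp (N : Finset W.Point) (x : K) (Q : W.Point) : K := ∏ ν ∈ N, (x - xN (Q + ν))

/-- `∏_{ν ∈ N} y(P+ν)` -/
noncomputable def yN (P : W.Point) : K := match P with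
  | .zero => 0
  | .some _ y _ => y

@[simp] lemma yN_some {x y : K} (h : W.Nonsingular x y) : yN (Point.some x y h) = y := rfl

lemma Rts.yN_sq (h : Rts W e f g) {P : W.Point} (hP : P ≠ 0) :
    yN P ^ 2 = (xN P - e) * (xN P - f) * (xN P - g) := by
  rcases P with _ | ⟨x, y, hxy⟩
  · exact absurd rfl hP
  · rw [xN_some, yN_some]
    exact (h.equation_iff x y).mp hxy.1

lemma Rts.yN_neg (h : Rts W e f g) (P : W.Point) : yN (-P) = - yN P := by
  rcases P with _ | ⟨x, y, hxy⟩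
  · change (0:K) = -0; rw [_root_.neg_zero]
  · rw [neg_some, yN_some, yN_some, h.negY_eq]

lemma xN_eq_iff {P Q : W.Point} (hP : P ≠ 0) (hQ : Q ≠ 0) : xN P = xN Q ↔ P = Q ∨ P = -Q := by
  rcases P with _ | ⟨x, y, hxy⟩
  · exact absurd rfl hP
  rcases Q with _ | ⟨x', y', hxy'⟩
  · exact absurd rfl hQ
  rw [xN_some, xN_some]
  exact X_eq_iff (h₁ := hxy) (h₂ := hxy')

namespace Setup

variable {N : Finset W.Point}

lemma swap (h : Setup W e f g N) : Setup W f e g N :=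
  ⟨h.rts.swap, h.hef.symm, h.hfg, h.heg, h.zero_mem, h.add_mem, h.neg_mem, h.odd, h.odd_card⟩

lemma swap' (h : Setup W e f g N) : Setup W e g f N :=
  ⟨h.rts.swap', h.heg, h.hef, h.hfg.symm, h.zero_mem, h.add_mem, h.neg_mem, h.odd, h.odd_card⟩

lemma nsT (h : Setup W e f g N) : W.Nonsingular e 0 := h.rts.nonsingular_root h.hef h.heg

/-- the point `(e,0)` -/
noncomputable def T (h : Setup W e f g N) : W.Point := Tpt W e h.nsT

lemma T_add_T (h : Setup W e f g N) : h.T + h.T = 0 := h.rts.T_add_T h.nsT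

lemma neg_T (h : Setup W e f g N) : -h.T = h.T := h.rts.neg_T h.nsT

lemma T_ne_zero (h : Setup W e f g N) : h.T ≠ 0 := by
  intro hh; cases hh

lemma xN_T (h : Setup W e f g N) : xN h.T = e := xN_some _

lemma T_not_mem (h : Setup W e f g N) : h.T ∉ N := fun hh => h.T_ne_zero (h.odd _ hh h.T_add_T)

lemma sub_mem (h : Setup W e f g N) {a b : W.Point} (ha : a ∈ N) (hb : b ∈ N) : a - b ∈ N := by
  rw [sub_eq_add_neg]; exact h.add_mem _ ha _ (h.neg_mem _ hb)

lemma add_mem_iff (h : Setup W e f g N) {P a : W.Point} (ha : a ∈ N) : P + a ∈ N ↔ P ∈ N := by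
  constructor
  · intro hh
    have := h.sub_mem hh ha
    rwa [add_sub_cancel_right] at this
  · intro hh; exact h.add_mem _ hh _ ha

lemma neg_mem_iff (h : Setup W e f g N) {P : W.Point} : -P ∈ N ↔ P ∈ N := by
  constructor
  · intro hh
    have := h.neg_mem _ hh
    rwa [neg_neg] at this
  · exact h.neg_mem _

lemma ne_zero_of_not_mem (h : Setup W e f g N) {P : W.Point} (hP : P ∉ N) : P ≠ 0 := by
  rintro rfl; exact hP h.zero_mem

lemma add_ne_zero (h : Setup W e f g N) {P a : W.Point} (hP : P ∉ N) (ha : a ∈ N) :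
    P + a ≠ 0 := by
  intro hh
  exact hP ((h.add_mem_iff ha).mp (hh ▸ h.zero_mem))

/-- if `2P ∉ N` then `P ∉ N` -/
lemma not_mem_of_two (h : Setup W e f g N) {P : W.Point} (hP : P + P ∉ N) : P ∉ N :=
  fun hh => hP (h.add_mem _ hh _ hh)

lemma add_ne_T (h : Setup W e f g N) {P a : W.Point} (hP : P + P ∉ N) (ha : a ∈ N) :
    P + a ≠ h.T := by
  intro hh
  apply hP
  have h1 : P + P = -(a + a) := by
    have h2 : (P + a) + (P + a) = 0 := by rw [hh, h.T_add_T]
    have h3 : (P + P) + (a + a) = 0 := by rw [← h2]; abel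
    exact eq_neg_of_add_eq_zero_left h3
  rw [h1]
  exact h.neg_mem _ (h.add_mem _ ha _ ha)

lemma two_add_T (h : Setup W e f g N) {P : W.Point} (hP : P + P ∉ N) :
    (P + h.T) + (P + h.T) ∉ N := by
  have : (P + h.T) + (P + h.T) = P + P + (h.T + h.T) := by abel
  rw [this, h.T_add_T, add_zero]
  exact hP

/-- reindexing by translation -/
lemma prod_translate (h : Setup W e f g N) {a : W.Point} (ha : a ∈ N) (F : W.Point → K) :
    ∏ ν ∈ N, F (a + ν) = ∏ ν ∈ N, F ν := by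
  refine Finset.prod_nbij' (fun ν => a + ν) (fun ν => -a + ν) ?_ ?_ ?_ ?_ ?_
  · intro ν hν; exact h.add_mem _ ha _ hν
  · intro ν hν; exact h.add_mem _ (h.neg_mem _ ha) _ hν
  · intro ν _; abel
  · intro ν _; abel
  · intro ν _; rfl

lemma prod_neg (h : Setup W e f g N) (F : W.Point → K) :
    ∏ ν ∈ N, F (-ν) = ∏ ν ∈ N, F ν := by
  refine Finset.prod_nbij' (fun ν => -ν) (fun ν => -ν) ?_ ?_ ?_ ?_ ?_
  · intro ν hν; exact h.neg_mem _ hν
  · intro ν hν; exact h.neg_mem _ hν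
  · intro ν _; exact neg_neg ν
  · intro ν _; exact neg_neg ν
  · intro ν _; rfl

lemma Rp_add (h : Setup W e f g N) (t : K) (P : W.Point) {a : W.Point} (ha : a ∈ N) :
    Rp N t (P + a) = Rp N t P := by
  unfold Rp
  rw [← h.prod_translate ha (fun ν => xN (P + ν) - t)]
  refine Finset.prod_congr rfl fun ν _ => ?_
  rw [add_assoc]

lemma Rp_neg (h : Setup W e f g N) (t : K) (P : W.Point) : Rp N t (-P) = Rp N t P := by
  unfold Rp
  rw [← h.prod_neg (fun ν => xN (P + ν) - t)]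
  refine Finset.prod_congr rfl fun ν _ => ?_
  rw [show -P + ν = -(P + -ν) by abel, xN_neg]

lemma Dp_add (h : Setup W e f g N) (t : K) (P : W.Point) {a : W.Point} (ha : a ∈ N) :
    Dp N t (P + a) = Dp N t P := by
  unfold Dp
  rw [← h.prod_translate ha (fun ν => t - xN (P + ν))]
  refine Finset.prod_congr rfl fun ν _ => ?_
  rw [add_assoc]

lemma Hp_ne_zero (h : Setup W e f g N) : Hp N e ≠ 0 := by
  unfold Hp
  rw [Finset.prod_ne_zero_iff]
  intro ν hν
  rw [Finset.mem_erase] at hν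
  refine sub_ne_zero.mpr (h.rts.x_ne_of_ne_T h.nsT hν.1 ?_)
  rintro rfl
  exact h.T_not_mem hν.2

lemma x_sub_ne_zero (h : Setup W e f g N) {P : W.Point} (hP : P ∉ N) {ν : W.Point}
    (hν : ν ∈ N.erase 0) : xN P - xN ν ≠ 0 := by
  rw [Finset.mem_erase] at hν
  refine sub_ne_zero.mpr fun hh => ?_
  rcases (xN_eq_iff (h.ne_zero_of_not_mem hP) hν.1).mp hh with h1 | h1
  · exact hP (h1 ▸ hν.2)
  · exact hP (h1 ▸ h.neg_mem _ hν.2)

lemma neg_mem_erase (h : Setup W e f g N) {ν : W.Point} (hν : ν ∈ N.erase 0) :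
    -ν ∈ N.erase 0 := by
  rw [Finset.mem_erase] at hν ⊢
  exact ⟨neg_ne_zero.mpr hν.1, h.neg_mem _ hν.2⟩

lemma neg_ne_self (h : Setup W e f g N) {ν : W.Point} (hν : ν ∈ N.erase 0) : -ν ≠ ν := by
  rw [Finset.mem_erase] at hν
  intro hh
  apply hν.1
  apply h.odd _ hν.2
  nth_rewrite 1 [← hh]
  exact neg_add_cancel ν

lemma ne_T_of_mem (h : Setup W e f g N) {ν : W.Point} (hν : ν ∈ N) : ν ≠ h.T := by
  rintro rfl; exact h.T_not_mem hν

lemma xN_neg_add_T (h : Setup W e f g N) (ν : W.Point) : xN (-ν + h.T) = xN (ν + h.T) := by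
  rw [show -ν + h.T = -(ν + -h.T) by abel, xN_neg, h.neg_T]

/-- `(x_Q - e)(x - x_{Q+T}) = (x-e)(x_Q-e) - (e-f)(e-g)` -/
lemma mul_T (h : Setup W e f g N) {Q : W.Point} (hQ : Q ≠ 0) (hQT : Q ≠ h.T) (x : K) :
    (xN Q - e) * (x - xN (Q + h.T)) = (x - e) * (xN Q - e) - (e - f) * (e - g) := by
  have h1 := h.rts.x_add_T h.nsT hQ hQT
  change (xN (Q + h.T) - e) * (xN Q - e) = _ at h1
  linear_combination (-1) * h1

/-- Formula A. -/
lemma formulaA (h : Setup W e f g N) {P : W.Point} (hP : P ∉ N) :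
    Rp N e P * ∏ ν ∈ N.erase 0, (xN P - xN ν) =
      Hp N e * ((xN P - e) * ∏ ν ∈ N.erase 0, (xN P - xN (ν + h.T))) := by
  by_cases hPT : P + h.T ∈ N
  · have h1 : Rp N e P = 0 := by
      unfold Rp
      refine Finset.prod_eq_zero (i := -(P + h.T)) (h.neg_mem _ hPT) ?_
      rw [show P + -(P + h.T) = -h.T by abel, h.neg_T, h.xN_T, sub_self]
    rw [h1, zero_mul]
    by_cases h0 : P + h.T = 0
    · have : P = h.T := by rw [← h.neg_T]; exact eq_neg_of_add_eq_zero_left h0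
      rw [this, h.xN_T, sub_self, zero_mul, mul_zero]
    · have h2 : ∏ ν ∈ N.erase 0, (xN P - xN (ν + h.T)) = 0 := by
        refine Finset.prod_eq_zero (i := P + h.T) (Finset.mem_erase.mpr ⟨h0, hPT⟩) ?_
        rw [add_assoc, h.T_add_T, add_zero, sub_self]
      rw [h2, mul_zero, mul_zero]
  have h1 : Rp N e P = (xN P - e) * ∏ ν ∈ N.erase 0, (xN (P + ν) - e) := by
    unfold Rp
    rw [← Finset.mul_prod_erase N _ h.zero_mem, add_zero]
  have h2 : ∏ ν ∈ N.erase 0, ((xN (P + ν) - e) * (xN P - xN ν)) =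
      ∏ ν ∈ N.erase 0, ((xN ν - e) * (xN P - xN (ν + h.T))) := by
    refine (prod_eq_of_pairing (N.erase 0) (fun ν => -ν) (fun ν hν => h.neg_mem_erase hν)
      (fun ν _ => neg_neg ν) (fun ν hν => h.neg_ne_self hν) _ _ ?_ ?_)
    · intro ν hν
      have hν' := Finset.mem_erase.mp hν
      refine mul_ne_zero (sub_ne_zero.mpr (h.rts.x_ne_of_ne_T h.nsT hν'.1
        (h.ne_T_of_mem hν'.2))) (sub_ne_zero.mpr ?_)
      intro hh
      have h3 : ν + h.T ≠ 0 := by
        intro h4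
        have : ν = h.T := by rw [← h.neg_T]; exact eq_neg_of_add_eq_zero_left h4
        exact h.ne_T_of_mem hν'.2 this
      apply hPT
      rcases (xN_eq_iff (h.ne_zero_of_not_mem hP) h3).mp hh with h4 | h4
      · rw [h4, add_assoc, h.T_add_T, add_zero]; exact hν'.2
      · have : P + h.T = -ν := by
          rw [h4, show -(ν + h.T) + h.T = -ν by abel]
        rw [this]; exact h.neg_mem _ hν'.2
    · intro ν hν
      have hν' := Finset.mem_erase.mp hν
      have hD : P - ν ≠ 0 := by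
        rw [sub_eq_add_neg]; exact h.add_ne_zero hP (h.neg_mem _ hν'.2)
      obtain ⟨-, h4⟩ := h.rts.prod_formula (h.ne_zero_of_not_mem hP) hν'.1
        (h.add_ne_zero hP hν'.2) hD
      rw [xN_neg, h.xN_neg_add_T, h.mul_T hν'.1 (h.ne_T_of_mem hν'.2), ← sub_eq_add_neg]
      linear_combination h4
  rw [Finset.prod_mul_distrib, Finset.prod_mul_distrib] at h2
  rw [h1, mul_assoc, h2, Hp]
  ring

/-! ### counting -/

lemma xN_inj (h : Setup W e f g N) {Q : W.Point} (hQ : Q + Q ∉ N) {a b : W.Point} (ha : a ∈ N)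
    (hb : b ∈ N) (hab : xN (Q + a) = xN (Q + b)) : a = b := by
  have hQ' := h.not_mem_of_two hQ
  rcases (xN_eq_iff (h.add_ne_zero hQ' ha) (h.add_ne_zero hQ' hb)).mp hab with h1 | h1
  · exact add_left_cancel h1
  · exfalso
    apply hQ
    have : Q + Q = -(a + b) := by
      rw [eq_neg_iff_add_eq_zero]
      have h2 : (Q + a) + (Q + b) = 0 := by rw [h1]; abel
      rw [← h2]; abel
    rw [this]
    exact h.neg_mem _ (h.add_mem _ ha _ hb)

lemma count (h : Setup W e f g N) {Q : W.Point} (hQ : Q + Q ∉ N) (p : K[X])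
    (hdeg : p.degree < N.card) (hv : ∀ ν ∈ N, p.eval (xN (Q + ν)) = 0) : p = 0 := by
  have hcard : (N.image (fun ν => xN (Q + ν))).card = N.card :=
    Finset.card_image_of_injOn fun a ha b hb hab => h.xN_inj hQ ha hb hab
  refine eq_zero_of_degree_lt_of_eval_finset_eq_zero (N.image (fun ν => xN (Q + ν))) ?_ ?_
  · rw [hcard]; exact hdeg
  · intro x hx
    obtain ⟨ν, hν, rfl⟩ := Finset.mem_image.mp hx
    exact hv ν hν

/-- `(X-e) ∏_{ν≠0} (X - x_{ν+T})` -/
noncomputable def nPoly (h : Setup W e f g N) : K[X] :=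
  (X - C e) * ∏ ν ∈ N.erase 0, (X - C (xN (ν + h.T)))

/-- `∏_{ν≠0} (X - x_ν)` -/
noncomputable def bPoly (N : Finset W.Point) : K[X] := ∏ ν ∈ N.erase 0, (X - C (xN ν))

lemma eval_nPoly (h : Setup W e f g N) (x : K) :
    h.nPoly.eval x = (x - e) * ∏ ν ∈ N.erase 0, (x - xN (ν + h.T)) := by
  simp [nPoly, eval_prod]

lemma eval_bPoly (x : K) :
    (bPoly N).eval x = ∏ ν ∈ N.erase 0, (x - xN ν) := by
  simp [bPoly, eval_prod]

lemma monic_nPoly (h : Setup W e f g N) : h.nPoly.Monic :=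
  (monic_X_sub_C _).mul (monic_prod_of_monic _ _ fun _ _ => monic_X_sub_C _)

lemma monic_bPoly : (bPoly N).Monic := monic_prod_of_monic _ _ fun _ _ => monic_X_sub_C _

lemma natDegree_bPoly (h : Setup W e f g N) : (bPoly N).natDegree + 1 = N.card := by
  rw [bPoly, natDegree_prod_of_monic _ _ fun _ _ => monic_X_sub_C _]
  simp [Finset.card_erase_add_one h.zero_mem]

lemma natDegree_nPoly (h : Setup W e f g N) : h.nPoly.natDegree = N.card := by
  rw [nPoly, (monic_X_sub_C _).natDegree_mul (monic_prod_of_monic _ _ fun _ _ => monic_X_sub_C _),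
    natDegree_prod_of_monic _ _ fun _ _ => monic_X_sub_C _]
  simp [add_comm 1, Finset.card_erase_add_one h.zero_mem]

lemma formulaA' (h : Setup W e f g N) {P : W.Point} (hP : P ∉ N) :
    Rp N e P * (bPoly N).eval (xN P) = Hp N e * h.nPoly.eval (xN P) := by
  rw [eval_bPoly, eval_nPoly]; exact h.formulaA hP

lemma eval_bPoly_ne_zero (h : Setup W e f g N) {P : W.Point} (hP : P ∉ N) :
    (bPoly N).eval (xN P) ≠ 0 := by
  rw [eval_bPoly, Finset.prod_ne_zero_iff]
  exact fun ν hν => h.x_sub_ne_zero hP hν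

lemma degree_sub_lt (p q : K[X]) (hp : p.Monic) (hq : q.Monic) {m : ℕ} (hpm : p.natDegree = m)
    (hqm : q.natDegree = m) : (p - q).degree < m := by
  have h1 : p.degree = m := by rw [degree_eq_natDegree hp.ne_zero, hpm]
  have h2 : q.degree = m := by rw [degree_eq_natDegree hq.ne_zero, hqm]
  rw [← h1]
  exact Polynomial.degree_sub_lt_left (h1.trans h2.symm) hp.ne_zero
    (by rw [hp.leadingCoeff, hq.leadingCoeff])

lemma degree_C_mul_bPoly (h : Setup W e f g N) (c : K) : (C c * bPoly N).degree < N.card := by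
  have h1 : (C c * bPoly N).degree ≤ (bPoly N).degree := by
    refine (degree_mul_le _ _).trans ?_
    calc (C c).degree + (bPoly N).degree ≤ 0 + (bPoly N).degree :=
          add_le_add_left degree_C_le _
      _ = _ := zero_add _
  refine h1.trans_lt ?_
  rw [degree_eq_natDegree (monic_bPoly).ne_zero, ← h.natDegree_bPoly]
  exact_mod_cast Nat.lt_succ_self _

/-- the difference of two `Rp`s is constant (general version) -/
lemma nPoly_sub (h : Setup W e f g N) {Q : W.Point} (hQ : Q + Q ∉ N) :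
    h.nPoly - h.swap.nPoly =
      C (Rp N e Q / Hp N e - Rp N f Q / Hp N f) * bPoly N := by
  rw [← sub_eq_zero]
  refine h.count hQ _ ?_ ?_
  · refine (degree_sub_le _ _).trans_lt (max_lt ?_ (h.degree_C_mul_bPoly _))
    exact degree_sub_lt _ _ h.monic_nPoly h.swap.monic_nPoly h.natDegree_nPoly
      h.swap.natDegree_nPoly
  · intro ν hν
    have hQ' := h.not_mem_of_two hQ
    have hQν : Q + ν ∉ N := fun hh => hQ' ((h.add_mem_iff hν).mp hh)
    have h1 := h.formulaA' hQν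
    have h2 := h.swap.formulaA' hQν
    rw [h.Rp_add _ _ hν] at h1
    rw [h.Rp_add _ _ hν] at h2
    have h3 := h.Hp_ne_zero
    have h4 := h.swap.Hp_ne_zero
    simp only [eval_sub, eval_mul, eval_C]
    field_simp
    linear_combination (-(Hp N f)) * h1 + Hp N e * h2

lemma Rp_swap_T (h : Setup W e f g N) :
    Hp N f * Rp N e h.swap.T = (f - e) ^ N.card * Hp N g := by
  have h1 : Rp N e h.swap.T = (f - e) * ∏ ν ∈ N.erase 0, (xN (h.swap.T + ν) - e) := by
    unfold Rp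
    rw [← Finset.mul_prod_erase N _ h.zero_mem, add_zero, h.swap.xN_T]
  rw [h1, Hp, Hp, mul_left_comm, ← Finset.prod_mul_distrib, ← Finset.card_erase_add_one h.zero_mem,
    pow_succ', mul_assoc, ← Finset.prod_const, ← Finset.prod_mul_distrib]
  congr 1
  refine Finset.prod_congr rfl fun ν hν => ?_
  have hν' := Finset.mem_erase.mp hν
  have h2 := h.swap.rts.x_add_T h.swap.nsT hν'.1 (h.swap.ne_T_of_mem hν'.2)
  change (xN (ν + h.swap.T) - f) * (xN ν - f) = _ at h2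
  rw [add_comm]
  linear_combination h2

lemma Rp_T_zero (h : Setup W e f g N) : Rp N e h.T = 0 := by
  unfold Rp
  refine Finset.prod_eq_zero (i := 0) h.zero_mem ?_
  rw [add_zero, h.xN_T, sub_self]

/-- `R_e - R_f` is constant. -/
lemma Rp_sub (h : Setup W e f g N) {Q : W.Point} (hQ : Q + Q ∉ N) {P : W.Point} (hP : P ∉ N) :
    Hp N f * Rp N e P - Hp N e * Rp N f P = (f - e) ^ N.card * Hp N g := by
  have key := h.nPoly_sub hQ
  obtain ⟨c, hc⟩ : ∃ c, c = Rp N e Q / Hp N e - Rp N f Q / Hp N f := ⟨_, rfl⟩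
  rw [← hc] at key
  have he := h.Hp_ne_zero
  have hf := h.swap.Hp_ne_zero
  have gen : ∀ P, P ∉ N → Hp N f * Rp N e P - Hp N e * Rp N f P = Hp N e * Hp N f * c := by
    intro P hP
    have h1 := h.formulaA' hP
    have h2 := h.swap.formulaA' hP
    have h3 := h.eval_bPoly_ne_zero hP
    have h4 := congrArg (eval (xN P)) key
    simp only [eval_sub, eval_mul, eval_C] at h4
    apply mul_right_cancel₀ h3
    linear_combination Hp N f * h1 - Hp N e * h2 + Hp N e * Hp N f * h4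
  rw [gen P hP, ← gen h.swap.T h.swap.T_not_mem, h.swap.Rp_T_zero, h.Rp_swap_T]
  ring

/-- The product `∏ (x - x_{Q+ν})`. -/
lemma Dp_eq (h : Setup W e f g N) {Q : W.Point} (hQ : Q + Q ∉ N) {P : W.Point} (hP : P ∉ N) :
    (Rp N e P - Rp N e Q) * (bPoly N).eval (xN P) = Hp N e * Dp N (xN P) Q := by
  have he := h.Hp_ne_zero
  have hQ' := h.not_mem_of_two hQ
  have key : h.nPoly - (∏ ν ∈ N, (X - C (xN (Q + ν)))) - C (Rp N e Q / Hp N e) * bPoly N = 0 := by
    refine h.count hQ _ ?_ ?_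
    · refine (degree_sub_le _ _).trans_lt (max_lt ?_ (h.degree_C_mul_bPoly _))
      refine degree_sub_lt _ _ h.monic_nPoly (monic_prod_of_monic _ _ fun _ _ => monic_X_sub_C _)
        h.natDegree_nPoly ?_
      rw [natDegree_prod_of_monic _ _ fun _ _ => monic_X_sub_C _]
      simp
    · intro ν hν
      have hQν : Q + ν ∉ N := fun hh => hQ' ((h.add_mem_iff hν).mp hh)
      have h1 := h.formulaA' hQν
      rw [h.Rp_add _ _ hν] at h1
      have h2 : eval (xN (Q + ν)) (∏ ν ∈ N, (X - C (xN (Q + ν)))) = 0 := by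
        rw [eval_prod]
        refine Finset.prod_eq_zero hν ?_
        simp
      simp only [eval_sub, eval_mul, eval_C, h2]
      field_simp
      linear_combination (-1) * h1
  have h1 := congrArg (eval (xN P)) key
  have h2 : eval (xN P) (∏ ν ∈ N, (X - C (xN (Q + ν)))) = Dp N (xN P) Q := by
    rw [eval_prod, Dp]
    simp
  simp only [eval_sub, eval_mul, eval_C, h2, eval_zero] at h1
  have h3 := h.formulaA' hP
  field_simp at h1
  linear_combination h1 + h3

lemma Dp_ne_zero (h : Setup W e f g N) {P Q : W.Point} (hP : P ∉ N) (hQ : Q ∉ N)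
    (hS : P + Q ∉ N) (hD : P - Q ∉ N) : Dp N (xN P) Q ≠ 0 := by
  rw [Dp, Finset.prod_ne_zero_iff]
  intro ν hν
  refine sub_ne_zero.mpr fun hh => ?_
  rcases (xN_eq_iff (h.ne_zero_of_not_mem hP) (h.add_ne_zero hQ hν)).mp hh with h1 | h1
  · apply hD; rw [h1]; rwa [show Q + ν - Q = ν by abel]
  · apply hS; rw [h1, show -(Q + ν) + Q = -ν by abel]; exact h.neg_mem _ hν

lemma prod_aux (h : Setup W e f g N) {P Q : W.Point} (hP : P ∉ N) (hQ : Q + Q ∉ N)
    (hS : P + Q ∉ N) (hD : P - Q ∉ N) :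
    Rp N e (P + Q) * Rp N e (P - Q) * (Dp N (xN P) Q) ^ 2 =
      (Rp N e Q * Dp N (xN P) (Q + h.T)) ^ 2 := by
  have hQ' := h.not_mem_of_two hQ
  have h1 : Rp N e (P - Q) = ∏ ν ∈ N, (xN (P - (Q + ν)) - e) := by
    unfold Rp
    rw [← h.prod_neg (fun ν => xN (P - Q + ν) - e)]
    refine Finset.prod_congr rfl fun ν _ => ?_
    rw [show P - Q + -ν = P - (Q + ν) by abel]
  rw [h1, Rp, Rp, Dp, Dp, ← Finset.prod_mul_distrib, ← Finset.prod_mul_distrib,
    ← Finset.prod_pow, ← Finset.prod_pow, ← Finset.prod_mul_distrib]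
  refine Finset.prod_congr rfl fun ν hν => ?_
  have hQν := h.add_ne_zero hQ' hν
  have hs : P + (Q + ν) ≠ 0 := by
    rw [← add_assoc]; exact h.add_ne_zero hS hν
  have hd : P - (Q + ν) ≠ 0 := by
    rw [show P - (Q + ν) = P - Q + -ν by abel]; exact h.add_ne_zero hD (h.neg_mem _ hν)
  obtain ⟨-, h2⟩ := h.rts.prod_formula (h.ne_zero_of_not_mem hP) hQν hs hd
  have h3 := h.mul_T hQν (h.add_ne_T hQ hν) (xN P)
  rw [show P + Q + ν = P + (Q + ν) by abel, show Q + h.T + ν = Q + ν + h.T by abel, h3, h2]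

lemma prod_formula_Rp (h : Setup W e f g N) {P Q : W.Point} (hP : P ∉ N) (hQ : Q + Q ∉ N)
    (hS : P + Q ∉ N) (hD : P - Q ∉ N) :
    Rp N e (P + Q) * Rp N e (P - Q) * (Rp N e P - Rp N e Q) ^ 2 =
      (Rp N e Q * (Rp N e P - Rp N e (Q + h.T))) ^ 2 := by
  have h1 := h.prod_aux hP hQ hS hD
  have h2 := h.Dp_eq hQ hP
  have h3 := h.Dp_eq (h.two_add_T hQ) hP
  have h4 := h.eval_bPoly_ne_zero hP
  apply mul_right_cancel₀ (pow_ne_zero 2 h4)
  calc _ = Rp N e (P + Q) * Rp N e (P - Q) * ((Rp N e P - Rp N e Q) * (bPoly N).eval (xN P)) ^ 2 := by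
        ring
    _ = Hp N e ^ 2 * (Rp N e (P + Q) * Rp N e (P - Q) * (Dp N (xN P) Q) ^ 2) := by rw [h2]; ring
    _ = (Rp N e Q * (Hp N e * Dp N (xN P) (Q + h.T))) ^ 2 := by rw [h1]; ring
    _ = _ := by rw [← h3]; ring

lemma Rp_mul_add_T (h : Setup W e f g N) {Q : W.Point} (hQ : Q + Q ∉ N) :
    Rp N e Q * Rp N e (Q + h.T) = ((f - e) * (g - e)) ^ N.card := by
  rw [Rp, Rp, ← Finset.prod_mul_distrib, ← Finset.prod_const]
  refine Finset.prod_congr rfl fun ν hν => ?_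
  have h1 := h.rts.x_add_T h.nsT (h.add_ne_zero (h.not_mem_of_two hQ) hν) (h.add_ne_T hQ hν)
  change (xN (Q + ν + h.T) - e) * (xN (Q + ν) - e) = _ at h1
  rw [show Q + h.T + ν = Q + ν + h.T by abel]
  linear_combination h1

/-! ### The quotient curve -/

/-- the coordinate function `X - e'` on the quotient, `X = H_f H_g ∏(x(P+ν)-e)` -/
noncomputable def XX (_h : Setup W e f g N) (P : W.Point) : K := Hp N f * Hp N g * Rp N e P

/-- the difference of roots -/
noncomputable def EE (_h : Setup W e f g N) : K := (f - e) ^ N.card * Hp N g ^ 2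

lemma XX_swap' (h : Setup W e f g N) (P : W.Point) : h.swap'.XX P = h.XX P := by
  unfold XX; ring

lemma XX_sub (h : Setup W e f g N) {Q : W.Point} (hQ : Q + Q ∉ N) {P : W.Point} (hP : P ∉ N) :
    h.XX P - h.swap.XX P = h.EE := by
  unfold XX EE
  linear_combination Hp N g * h.Rp_sub hQ hP

lemma EE_swap (h : Setup W e f g N) : h.swap.EE = - h.EE := by
  unfold EE
  rw [show e - f = -(f - e) by ring, h.odd_card.neg_pow]
  ring

lemma EE_ne_zero (h : Setup W e f g N) : h.EE ≠ 0 :=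
  mul_ne_zero (pow_ne_zero _ (sub_ne_zero.mpr h.hef.symm)) (pow_ne_zero _ h.swap'.swap.Hp_ne_zero)

lemma EE_rel (h : Setup W e f g N) {Q : W.Point} (hQ : Q + Q ∉ N) :
    h.swap.swap'.EE = h.swap'.EE - h.EE := by
  have hQ' := h.not_mem_of_two hQ
  have h1 := h.XX_sub hQ hQ'
  have h2 := h.swap'.XX_sub hQ hQ'
  have h3 := h.swap.swap'.XX_sub hQ hQ'
  have h4 : h.swap.swap'.swap.XX Q = h.swap'.swap.XX Q := by unfold XX; ring
  have h5 : h.swap.swap'.XX Q = h.swap.XX Q := h.swap.XX_swap' Q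
  rw [h.XX_swap' Q] at h2
  rw [h4, h5] at h3
  linear_combination h2 - h1 - h3

lemma XX_prod (h : Setup W e f g N) {P Q : W.Point} (hP : P ∉ N) (hQ : Q + Q ∉ N)
    (hS : P + Q ∉ N) (hD : P - Q ∉ N) :
    h.XX (P + Q) * h.XX (P - Q) * (h.XX P - h.XX Q) ^ 2 =
      (h.XX P * h.XX Q - h.EE * h.swap'.EE) ^ 2 := by
  have h1 := h.prod_formula_Rp hP hQ hS hD
  have h2 := h.Rp_mul_add_T hQ
  rw [mul_pow] at h2
  unfold XX EE
  have h3 : Hp N f * Hp N g * Rp N e P * (Hp N f * Hp N g * Rp N e Q) -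
      (f - e) ^ N.card * Hp N g ^ 2 * ((g - e) ^ N.card * Hp N f ^ 2) =
      (Hp N f * Hp N g) ^ 2 * (Rp N e Q * (Rp N e P - Rp N e (Q + h.T))) := by
    linear_combination (Hp N f * Hp N g) ^ 2 * h2
  rw [h3]
  linear_combination (Hp N f * Hp N g) ^ 4 * h1

lemma XX_ne (h : Setup W e f g N) {P Q : W.Point} (hP : P ∉ N) (hQ : Q + Q ∉ N)
    (hS : P + Q ∉ N) (hD : P - Q ∉ N) : h.XX P ≠ h.XX Q := by
  intro hh
  have h1 := h.Dp_eq hQ hP
  have h2 := h.Dp_ne_zero hP (h.not_mem_of_two hQ) hS hD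
  have h3 := h.Hp_ne_zero
  have h4 : Rp N e P = Rp N e Q := by
    unfold XX at hh
    exact mul_left_cancel₀ (mul_ne_zero h.swap.Hp_ne_zero h.swap'.swap.Hp_ne_zero) hh
  rw [h4, sub_self, zero_mul] at h1
  exact mul_ne_zero h3 h2 h1.symm

/-- the quotient curve `Y² = X (X - E_f)(X - E_g)` -/
noncomputable def W' (h : Setup W e f g N) : Affine K where
  a₁ := 0
  a₂ := -(h.EE + h.swap'.EE)
  a₃ := 0
  a₄ := h.EE * h.swap'.EE
  a₆ := 0

lemma rts' (h : Setup W e f g N) : Rts h.W' 0 h.EE h.swap'.EE :=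
  ⟨rfl, rfl, by simp [W'], by simp [W'], by simp [W']⟩

/-- the `Y`-coordinate of the isogeny -/
noncomputable def YY (_h : Setup W e f g N) (P : W.Point) : K :=
  Hp N e * Hp N f * Hp N g * ∏ ν ∈ N, yN (P + ν)

lemma YY_sq (h : Setup W e f g N) {P : W.Point} (hP : P ∉ N) :
    h.YY P ^ 2 = h.XX P * h.swap.XX P * h.swap'.swap.XX P := by
  unfold YY XX
  rw [mul_pow, ← Finset.prod_pow]
  have h1 : ∏ ν ∈ N, yN (P + ν) ^ 2 = Rp N e P * Rp N f P * Rp N g P := by
    rw [Rp, Rp, Rp, ← Finset.prod_mul_distrib, ← Finset.prod_mul_distrib]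
    exact Finset.prod_congr rfl fun ν hν => h.rts.yN_sq (h.add_ne_zero hP hν)
  rw [h1]
  ring

lemma YY_neg (h : Setup W e f g N) (P : W.Point) : h.YY (-P) = - h.YY P := by
  have h1 : ∏ ν ∈ N, yN (-P + ν) = - ∏ ν ∈ N, yN (P + ν) := by
    rw [← h.prod_neg]
    rw [← neg_one_mul, ← h.odd_card.neg_one_pow (α := K), ← Finset.prod_const,
      ← Finset.prod_mul_distrib]
    refine Finset.prod_congr rfl fun ν _ => ?_
    rw [show -P + -ν = -(P + ν) by abel, h.rts.yN_neg]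
    ring
  unfold YY
  rw [h1]
  ring

lemma YY_add (h : Setup W e f g N) (P : W.Point) {a : W.Point} (ha : a ∈ N) :
    h.YY (P + a) = h.YY P := by
  unfold YY
  rw [← h.prod_translate ha (fun ν => yN (P + ν))]
  congr 1
  refine Finset.prod_congr rfl fun ν _ => ?_
  rw [add_assoc]

lemma XX_add (h : Setup W e f g N) (P : W.Point) {a : W.Point} (ha : a ∈ N) :
    h.XX (P + a) = h.XX P := by
  unfold XX; rw [h.Rp_add _ _ ha]

lemma XX_neg (h : Setup W e f g N) (P : W.Point) : h.XX (-P) = h.XX P := by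
  unfold XX; rw [h.Rp_neg]

lemma Δ'_ne_zero (h : Setup W e f g N) (h2 : (2 : K) ≠ 0) {Q : W.Point} (hQ : Q + Q ∉ N) :
    h.W'.Δ ≠ 0 := by
  rw [h.rts'.Δ_eq]
  have h16 : (16 : K) ≠ 0 := by
    rw [show (16 : K) = 2 ^ 4 by norm_num]; exact pow_ne_zero _ h2
  have h1 := h.EE_ne_zero
  have h3 := h.swap'.EE_ne_zero
  have h4 := h.swap.swap'.EE_ne_zero
  rw [h.EE_rel hQ] at h4
  refine mul_ne_zero h16 (pow_ne_zero _ (mul_ne_zero (mul_ne_zero ?_ ?_) ?_))
  · rw [zero_sub]; exact neg_ne_zero.mpr h1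
  · rw [zero_sub]; exact neg_ne_zero.mpr h3
  · intro h5
    apply h4
    linear_combination (-1) * h5

lemma eqn' (h : Setup W e f g N) {Q : W.Point} (hQ : Q + Q ∉ N) {P : W.Point} (hP : P ∉ N) :
    h.W'.Equation (h.XX P) (h.YY P) := by
  rw [h.rts'.equation_iff, h.YY_sq hP]
  have h1 := h.XX_sub hQ hP
  have h2 := h.swap'.XX_sub hQ hP
  rw [h.XX_swap'] at h2
  rw [show h.XX P - h.EE = h.swap.XX P by linear_combination h1,
    show h.XX P - h.swap'.EE = h.swap'.swap.XX P by linear_combination h2]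
  ring

lemma ns' (h : Setup W e f g N) (h2 : (2 : K) ≠ 0) {Q : W.Point} (hQ : Q + Q ∉ N) {P : W.Point}
    (hP : P ∉ N) : h.W'.Nonsingular (h.XX P) (h.YY P) :=
  (equation_iff_nonsingular_of_Δ_ne_zero (h.Δ'_ne_zero h2 hQ)).mp (h.eqn' hQ hP)

/-- the isogeny, on points outside `N` -/
noncomputable def phi (h : Setup W e f g N) (h2 : (2 : K) ≠ 0) {Q : W.Point} (hQ : Q + Q ∉ N)
    (P : W.Point) (hP : P ∉ N) : h.W'.Point := .some (h.XX P) (h.YY P) (h.ns' h2 hQ hP)

section phi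

variable (h : Setup W e f g N) (h2 : (2 : K) ≠ 0) {Q₀ : W.Point} (hQ₀ : Q₀ + Q₀ ∉ N)

lemma phi_ne_zero {P : W.Point} (hP : P ∉ N) : h.phi h2 hQ₀ P hP ≠ 0 := by
  intro hh; cases hh

lemma xN_phi {P : W.Point} (hP : P ∉ N) : xN (h.phi h2 hQ₀ P hP) = h.XX P := xN_some _

lemma phi_congr {P P' : W.Point} (hP : P ∉ N) (hP' : P' ∉ N) (hx : h.XX P = h.XX P')
    (hy : h.YY P = h.YY P') : h.phi h2 hQ₀ P hP = h.phi h2 hQ₀ P' hP' := by
  unfold phi
  congr

lemma phi_neg_add {P P' : W.Point} (hP : P ∉ N) (hP' : P' ∉ N) (hPP : P' + P ∈ N) :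
    h.phi h2 hQ₀ P' hP' = - h.phi h2 hQ₀ P hP := by
  have h1 : P' = -P + (P' + P) := by abel
  have hx : h.XX P' = h.XX P := by
    rw [h1, h.XX_add _ hPP, h.XX_neg]
  have hy : h.YY P' = - h.YY P := by
    rw [h1, h.YY_add _ hPP, h.YY_neg]
  unfold phi
  rw [neg_some]
  congr 1
  rw [h.rts'.negY_eq, hy]

lemma pairs {P Q : W.Point} (hP : P ∉ N) (hQ : Q + Q ∉ N)
    (hS : P + Q ∉ N) (hD : P - Q ∉ N) :
    h.phi h2 hQ₀ P hP + h.phi h2 hQ₀ Q (h.not_mem_of_two hQ) ≠ 0 ∧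
    h.phi h2 hQ₀ P hP - h.phi h2 hQ₀ Q (h.not_mem_of_two hQ) ≠ 0 ∧
    xN (h.phi h2 hQ₀ P hP + h.phi h2 hQ₀ Q (h.not_mem_of_two hQ)) +
      xN (h.phi h2 hQ₀ P hP - h.phi h2 hQ₀ Q (h.not_mem_of_two hQ)) =
      h.XX (P + Q) + h.XX (P - Q) ∧
    xN (h.phi h2 hQ₀ P hP + h.phi h2 hQ₀ Q (h.not_mem_of_two hQ)) *
      xN (h.phi h2 hQ₀ P hP - h.phi h2 hQ₀ Q (h.not_mem_of_two hQ)) =
      h.XX (P + Q) * h.XX (P - Q) := by
  obtain ⟨A, hA⟩ : ∃ A, A = h.phi h2 hQ₀ P hP := ⟨_, rfl⟩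
  obtain ⟨B, hB⟩ : ∃ B, B = h.phi h2 hQ₀ Q (h.not_mem_of_two hQ) := ⟨_, rfl⟩
  have hA0 : A ≠ 0 := hA ▸ h.phi_ne_zero h2 hQ₀ hP
  have hB0 : B ≠ 0 := hB ▸ h.phi_ne_zero h2 hQ₀ _
  have hAx : xN A = h.XX P := hA ▸ h.xN_phi h2 hQ₀ hP
  have hBx : xN B = h.XX Q := hB ▸ h.xN_phi h2 hQ₀ _
  rw [← hA, ← hB]
  have hne := h.XX_ne hP hQ hS hD
  have hSum : A + B ≠ 0 := by
    intro hh
    have : A = -B := eq_neg_of_add_eq_zero_left hh
    rw [this, xN_neg] at hAx
    exact hne (hAx.symm.trans hBx)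
  have hDiff : A - B ≠ 0 := by
    intro hh
    have : A = B := sub_eq_zero.mp hh
    rw [this] at hAx
    exact hne (hAx.symm.trans hBx)
  have hd : (h.XX P - h.XX Q) ^ 2 ≠ 0 := pow_ne_zero _ (sub_ne_zero.mpr hne)
  obtain ⟨-, p1⟩ := h.rts'.prod_formula hA0 hB0 hSum hDiff
  obtain ⟨-, p2⟩ := h.rts'.swap.prod_formula hA0 hB0 hSum hDiff
  have q1 := h.XX_prod hP hQ hS hD
  have q2 := h.swap.XX_prod hP hQ hS hD
  rw [hAx, hBx] at p1 p2
  have s1 : h.swap.XX P = h.XX P - h.EE := by linear_combination (-1) * h.XX_sub hQ₀ hP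
  have s2 : h.swap.XX Q = h.XX Q - h.EE := by
    linear_combination (-1) * h.XX_sub hQ₀ (h.not_mem_of_two hQ)
  have s3 : h.swap.XX (P + Q) = h.XX (P + Q) - h.EE := by linear_combination (-1) * h.XX_sub hQ₀ hS
  have s4 : h.swap.XX (P - Q) = h.XX (P - Q) - h.EE := by linear_combination (-1) * h.XX_sub hQ₀ hD
  rw [s1, s2, s3, s4, h.EE_swap, h.EE_rel hQ₀] at q2
  have hprod : xN (A + B) * xN (A - B) = h.XX (P + Q) * h.XX (P - Q) := by
    apply mul_right_cancel₀ hd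
    linear_combination p1 - q1
  refine ⟨hSum, hDiff, ?_, hprod⟩
  apply mul_left_cancel₀ h.EE_ne_zero
  apply mul_right_cancel₀ hd
  linear_combination (h.XX P - h.XX Q) ^ 2 * hprod - (p2 - q2)

include h2 hQ₀ in
/-- The image of a point of order `p` modulo `N` has order `p`. -/
theorem nsmul_phi {p : ℕ} (hp : 5 ≤ p) {a : W.Point} (ha : ∀ n, 1 ≤ n → n < p → n • a ∉ N)
    (hpa : p • a ∈ N) (ha1 : a ∉ N) : p • h.phi h2 hQ₀ a ha1 = 0 := by
  obtain ⟨A, hA⟩ : ∃ A, A = h.phi h2 hQ₀ a ha1 := ⟨_, rfl⟩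
  have h2a : a + a ∉ N := by
    have := ha 2 (by norm_num) (by omega)
    rwa [two_nsmul] at this
  have hA0 : A ≠ 0 := hA ▸ h.phi_ne_zero h2 hQ₀ _
  have hAx : xN A = h.XX a := hA ▸ h.xN_phi h2 hQ₀ _
  -- n = 2
  have base : h.phi h2 hQ₀ (a + a) h2a = A + A ∨ h.phi h2 hQ₀ (a + a) h2a = -(A + A) := by
    have h4a : (a + a) + (a + a) ∉ N := by
      have := ha 4 (by norm_num) (by omega)
      rwa [show 4 • a = (a + a) + (a + a) by abel] at this
    have h3a : a + (a + a) ∉ N := by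
      have := ha 3 (by norm_num) (by omega)
      rwa [show 3 • a = a + (a + a) by abel] at this
    have hma : a - (a + a) ∉ N := by
      rw [show a - (a + a) = -a by abel, h.neg_mem_iff]; exact ha1
    obtain ⟨hs, hd, h3, h4⟩ := h.pairs h2 hQ₀ ha1 h4a h3a hma
    obtain ⟨B, hB⟩ : ∃ B, B = h.phi h2 hQ₀ (a + a) h2a := ⟨_, rfl⟩
    have hB0 : B ≠ 0 := hB ▸ h.phi_ne_zero h2 hQ₀ _
    rw [← hA, ← hB] at h3 h4 hs hd
    rw [← hB]
    have h5 : h.XX (a - (a + a)) = xN A := by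
      rw [show a - (a + a) = -a by abel, h.XX_neg, hAx]
    rw [h5] at h3 h4
    have h6 : (xN (A + B) - xN A) * (xN (A - B) - xN A) = 0 := by
      linear_combination h4 - xN A * h3
    rcases mul_eq_zero.mp h6 with h7 | h7
    · rcases (xN_eq_iff hs hA0).mp (sub_eq_zero.mp h7) with h8 | h8
      · exact absurd (by simpa using h8) hB0
      · right
        have : B = (A + B) - A := by abel
        rw [this, h8]; abel
    · rcases (xN_eq_iff hd hA0).mp (sub_eq_zero.mp h7) with h8 | h8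
      · exact absurd (by simpa using h8) hB0
      · left
        have : B = A - (A - B) := by abel
        rw [this, h8]; abel
  have main : ∀ n, ∀ (h1 : 1 ≤ n) (h1' : n + 1 < p),
      ((h.phi h2 hQ₀ (n • a) (ha n h1 (by omega)) = n • A ∨
        h.phi h2 hQ₀ (n • a) (ha n h1 (by omega)) = -(n • A)) ∧
      (h.phi h2 hQ₀ ((n + 1) • a) (ha (n + 1) (by omega) (by omega)) = (n + 1) • A ∨
        h.phi h2 hQ₀ ((n + 1) • a) (ha (n + 1) (by omega) (by omega)) = -((n + 1) • A))) := by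
    intro n h1
    induction n, h1 using Nat.le_induction with
    | base =>
      intro _
      simp only [one_nsmul, one_add_one_eq_two, two_nsmul]
      exact ⟨Or.inl hA.symm, base⟩
    | succ n hn ih =>
      intro hlt
      obtain ⟨ih1, ih2⟩ := ih (by omega)
      refine ⟨ih2, ?_⟩
      have hn1 := ha n hn (by omega)
      have hn2 := ha (n + 1) (by omega) (by omega)
      have hn3 := ha (n + 1 + 1) (by omega) (by omega)
      have hS : (n + 1) • a + a ∉ N := by rwa [← succ_nsmul]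
      have hD : (n + 1) • a - a ∉ N := by rwa [succ_nsmul, add_sub_cancel_right]
      obtain ⟨hs, hd, h3, h4⟩ := h.pairs h2 hQ₀ hn2 h2a hS hD
      have h5 : h.XX ((n + 1) • a - a) = xN (n • A) := by
        rw [succ_nsmul, add_sub_cancel_right, ← h.xN_phi h2 hQ₀ hn1]
        rcases ih1 with h6 | h6 <;> rw [h6]
        rw [xN_neg]
      have h6 : h.XX ((n + 1) • a + a) = h.XX ((n + 1 + 1) • a) := by rw [← succ_nsmul]
      rw [h5, h6, ← hA] at h3
      rw [← hA] at hs hd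
      have h7 : ((n + 1 + 1) • A ≠ 0) ∧ xN ((n + 1 + 1) • A) = h.XX ((n + 1 + 1) • a) := by
        rcases ih2 with h8 | h8
        · rw [h8] at h3 hs
          have e1 : (n + 1) • A + A = (n + 1 + 1) • A := by rw [← succ_nsmul]
          have e2 : (n + 1) • A - A = n • A := by rw [succ_nsmul, add_sub_cancel_right]
          rw [e1] at hs
          rw [e1, e2] at h3
          exact ⟨hs, add_right_cancel h3⟩
        · rw [h8] at h3 hd
          have e1 : -((n + 1) • A) - A = -((n + 1 + 1) • A) := by rw [succ_nsmul _ (n + 1)]; abel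
          have e2 : -((n + 1) • A) + A = -(n • A) := by rw [succ_nsmul]; abel
          rw [e1] at hd
          rw [e1, e2, xN_neg, xN_neg] at h3
          refine ⟨fun h9 => hd (by rw [h9, _root_.neg_zero]), ?_⟩
          linear_combination h3
      rw [← h.xN_phi h2 hQ₀ hn3] at h7
      rcases (xN_eq_iff h7.1 (h.phi_ne_zero h2 hQ₀ hn3)).mp h7.2 with h8 | h8
      · left; exact h8.symm
      · right; rw [h8, neg_neg]
  rw [← hA]
  obtain ⟨k, rfl⟩ : ∃ k, p = k + 2 := ⟨p - 2, by omega⟩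
  obtain ⟨m1, m2⟩ := main k (by omega) (by omega)
  have h3 : h.phi h2 hQ₀ ((k + 1) • a) (ha (k + 1) (by omega) (by omega)) = -A := by
    rw [hA]
    apply h.phi_neg_add h2 hQ₀
    rwa [← succ_nsmul]
  rw [h3] at m2
  rcases m2 with h4 | h4
  · rw [succ_nsmul, ← h4, neg_add_cancel]
  · exfalso
    have h5 : k • A = 0 := by
      have h6 : A = (k + 1) • A := neg_injective h4
      rw [succ_nsmul] at h6
      simpa using h6
    rw [h5, _root_.neg_zero, or_self] at m1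
    exact h.phi_ne_zero h2 hQ₀ _ m1

include h2 hQ₀ in
theorem addOrderOf_phi {p : ℕ} (hp : 5 ≤ p) (hpp : p.Prime) {a : W.Point}
    (ha : ∀ n, 1 ≤ n → n < p → n • a ∉ N) (hpa : p • a ∈ N) (ha1 : a ∉ N) :
    addOrderOf (h.phi h2 hQ₀ a ha1) = p := by
  have := Fact.mk hpp
  exact addOrderOf_eq_prime (h.nsmul_phi h2 hQ₀ hp ha hpa ha1) (h.phi_ne_zero h2 hQ₀ ha1)

end phi

end Setup

end Fermat.Agent.H12
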