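import Mathlib
import Fermat.Agent.H12Velu
import Fermat.Agent.H12NodeFin

/-!
# Local theory of `y² = (x-e)(x-f)(x-g)` and of its quotient
-/

set_option autoImplicit false

namespace Fermat.Agent.H12

set_option linter.unusedSectionVars false

open WeierstrassCurve WeierstrassCurve.Affine WeierstrassCurve.Affine.Point
open Fermat.Agent.H72

variable {F : Type*} [Field F] [DecidableEq F] {W : Affine F} {e f g : F}

/-- The node structure at the root `e`, scaled by `c`. -/
noncomputable def nodOf (h : Rts W e f g) (c : F) (hc : c ≠ 0) :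
    Nod W.Point F (-4 * ((f - e) + (g - e)) / c) ((f - e) * (g - e) / c ^ 2) where
  N P := xN P - e * xD P
  D P := c * xD P
  D_eq_zero P := by
    rw [mul_eq_zero, xD_eq_zero_iff]
    simp [hc]
  N_zero := by simp
  N_neg P := by simp
  D_neg P := by simp
  rel P Q := by
    obtain ⟨c₀, hc₀, h0, h1, h2⟩ := kummerRel P Q
    rw [h.b4, h.b6, h.b8] at h0
    rw [h.b2, h.b4, h.b6] at h1
    refine ⟨c₀, hc₀, ?_, ?_, ?_⟩
    · have : c₀ * ((xN (P + Q) - e * xD (P + Q)) * (xN (P - Q) - e * xD (P - Q))) =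
        c₀ * (xN (P + Q) * xN (P - Q))
          - e * (c₀ * (xN (P + Q) * xD (P - Q) + xD (P + Q) * xN (P - Q)))
          + e ^ 2 * (c₀ * (xD (P + Q) * xD (P - Q))) := by ring
      rw [this, h0, h1, h2]
      field_simp
      ring
    · have : c₀ * ((xN (P + Q) - e * xD (P + Q)) * (c * xD (P - Q)) +
          (c * xD (P + Q)) * (xN (P - Q) - e * xD (P - Q))) =
        c * ((c₀ * (xN (P + Q) * xD (P - Q) + xD (P + Q) * xN (P - Q)))
          - 2 * e * (c₀ * (xD (P + Q) * xD (P - Q)))) := by ring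
      rw [this, h1, h2]
      field_simp
      ring
    · have : c₀ * (c * xD (P + Q) * (c * xD (P - Q))) = c ^ 2 * (c₀ * (xD (P + Q) * xD (P - Q))) := by
        ring
      rw [this, h2]; ring

lemma nodOf_x (h : Rts W e f g) (c : F) (hc : c ≠ 0) {P : W.Point} (hP : P ≠ 0) :
    (nodOf h c hc).x P = (xN P - e) / c := by
  rw [Nod.x]
  change (xN P - e * xD P) / (c * xD P) = _
  rw [xD_of_ne hP, mul_one, mul_one]

lemma Setup.map_prod_val' {Γ₀ : Type*} [LinearOrderedCommGroupWithZero Γ₀] (v : Valuation F Γ₀)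
    {ι : Type*} (s : Finset ι) (F' : ι → F) :
    v (∏ a ∈ s, F' a) = ∏ a ∈ s, v (F' a) := by
  classical
  induction s using Finset.induction_on with
  | empty => simp
  | insert a s ha ih => rw [Finset.prod_insert ha, Finset.prod_insert ha, map_mul, ih]

section

variable {Γ₀ : Type*} [LinearOrderedCommGroupWithZero Γ₀] {v : Valuation F Γ₀}

/-- `E₁` is closed under addition -/
lemma Nod.e1_add {G : Type*} [AddCommGroup G] {b m : F} (κ : Nod G F b m) (hm : v m ≤ 1)
    (hb : v b ≤ 1) {P Q : G}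
    (hP : v (κ.D P) < v (κ.N P)) (hQ : v (κ.D Q) < v (κ.N Q)) :
    v (κ.D (P + Q)) < v (κ.N (P + Q)) := by
  obtain ⟨c, hc, h0, h1, h2⟩ := κ.rel P Q
  have vc : 0 < v c := zero_lt_iff.mpr ((Valuation.ne_zero_iff v).mpr hc)
  have vnP : 0 < v (κ.N P) := lt_of_le_of_lt zero_le hP
  have vnQ : 0 < v (κ.N Q) := lt_of_le_of_lt zero_le hQ
  obtain ⟨M, hM⟩ : ∃ M, M = v (κ.N P) * v (κ.N Q) := ⟨_, rfl⟩
  have M0 : 0 < M := by rw [hM]; exact mul_pos vnP vnQ
  have hNN : v (κ.N P * κ.N Q) = M := by rw [hM, map_mul]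
  have hDD : v (κ.D P * κ.D Q) < M := by
    rw [hM, map_mul]
    calc v (κ.D P) * v (κ.D Q) ≤ v (κ.D P) * v (κ.N Q) := mul_le_mul' le_rfl hQ.le
      _ < _ := mul_lt_mul_of_pos_right hP vnQ
  have hND : v (κ.N P * κ.D Q) < M := by
    rw [hM, map_mul]; exact mul_lt_mul_of_pos_left hQ vnP
  have hDN : v (κ.D P * κ.N Q) < M := by
    rw [hM, map_mul]; exact mul_lt_mul_of_pos_right hP vnQ
  have hmD : v (m * (κ.D P * κ.D Q)) < M := by
    rw [map_mul]
    calc v m * v (κ.D P * κ.D Q) ≤ 1 * v (κ.D P * κ.D Q) := mul_le_mul' hm le_rfl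
      _ = v (κ.D P * κ.D Q) := one_mul _
      _ < M := hDD
  have k0 : v c * (v (κ.N (P + Q)) * v (κ.N (P - Q))) = M ^ 2 := by
    rw [← map_mul, ← map_mul, h0, map_pow]
    congr 1
    rw [← hNN, sub_eq_add_neg]
    exact Valuation.map_add_eq_of_lt_left v (by rw [hNN, Valuation.map_neg]; exact hmD)
  have k2 : v c * (v (κ.D (P + Q)) * v (κ.D (P - Q))) < M ^ 2 := by
    rw [← map_mul, ← map_mul, h2, map_pow]
    exact pow_lt_pow_left₀ ((v.map_sub _ _).trans_lt (max_lt hND hDN)) zero_le two_ne_zero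
  have k1 : v c * v (κ.N (P + Q) * κ.D (P - Q) + κ.D (P + Q) * κ.N (P - Q)) < M ^ 2 := by
    rw [← map_mul, h1]
    refine (v.map_add _ _).trans_lt (max_lt ?_ ?_)
    · rw [map_mul, map_mul, pow_two]
      have e3 : v (κ.N P * κ.D Q + κ.D P * κ.N Q) < M := (v.map_add _ _).trans_lt (max_lt hND hDN)
      have e4 : v (κ.N P * κ.N Q + m * (κ.D P * κ.D Q)) ≤ M :=
        (v.map_add _ _).trans (max_le hNN.le hmD.le)
      calc _ ≤ 1 * v (κ.N P * κ.D Q + κ.D P * κ.N Q) * M :=
            mul_le_mul' (mul_le_mul' Nod.v_two_le le_rfl) e4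
        _ = v (κ.N P * κ.D Q + κ.D P * κ.N Q) * M := by rw [one_mul]
        _ < M * M := mul_lt_mul_of_pos_right e3 M0
    · rw [map_mul, map_mul, pow_two]
      calc v b * v (κ.N P * κ.N Q) * v (κ.D P * κ.D Q) ≤ 1 * M * v (κ.D P * κ.D Q) :=
            mul_le_mul' (mul_le_mul' hb hNN.le) le_rfl
        _ = M * v (κ.D P * κ.D Q) := by rw [one_mul]
        _ < M * M := mul_lt_mul_of_pos_left hDD M0
  have hprod : v (κ.D (P + Q)) * v (κ.D (P - Q)) < v (κ.N (P + Q)) * v (κ.N (P - Q)) := by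
    rw [← k0] at k2
    exact lt_of_mul_lt_mul_left' k2
  have hsum : v (κ.N (P + Q) * κ.D (P - Q) + κ.D (P + Q) * κ.N (P - Q)) <
      v (κ.N (P + Q)) * v (κ.N (P - Q)) := by
    rw [← k0] at k1
    exact lt_of_mul_lt_mul_left' k1
  by_contra h4
  push Not at h4
  have hne : 0 < v (κ.N (P + Q)) * v (κ.N (P - Q)) := lt_of_le_of_lt zero_le hprod
  have va : v (κ.N (P + Q)) ≠ 0 := left_ne_zero_of_mul hne.ne'
  have vc' : v (κ.N (P - Q)) ≠ 0 := right_ne_zero_of_mul hne.ne'
  have h5 : v (κ.D (P - Q)) < v (κ.N (P - Q)) := by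
    by_contra h5
    push Not at h5
    exact absurd hprod (not_lt.mpr (mul_le_mul' h4 h5))
  have h6 : v (κ.N (P + Q) * κ.D (P - Q)) < v (κ.D (P + Q) * κ.N (P - Q)) := by
    rw [map_mul, map_mul]
    calc v (κ.N (P + Q)) * v (κ.D (P - Q)) < v (κ.N (P + Q)) * v (κ.N (P - Q)) :=
          mul_lt_mul_of_pos_left h5 (zero_lt_iff.mpr va)
      _ ≤ _ := mul_le_mul' h4 le_rfl
  rw [Valuation.map_add_eq_of_lt_right v h6, map_mul] at hsum
  exact absurd hsum (not_lt.mpr (mul_le_mul' h4 le_rfl))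

lemma Nod.e1_nsmul {G : Type*} [AddCommGroup G] {b m : F} (κ : Nod G F b m) (hm : v m ≤ 1)
    (hb : v b ≤ 1) {P : G} (hP : v (κ.D P) < v (κ.N P)) (n : ℕ) :
    v (κ.D (n • P)) < v (κ.N (n • P)) := by
  induction n with
  | zero =>
    rw [zero_nsmul, κ.D_zero, _root_.map_zero]
    exact zero_lt_iff.mpr ((Valuation.ne_zero_iff v).mpr κ.N_zero)
  | succ n ih => rw [succ_nsmul]; exact κ.e1_add hm hb ih hP

/-- A point of odd order does not reduce to a simple root. -/
lemma one_le_val_sub_root (h : Rts W e f g) (hf : v (f - e) = 1) (hg : v (g - e) = 1)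
    {P : W.Point} (hP : P ≠ 0) {n : ℕ} (hn : Odd n) (hnP : n • P = 0) : 1 ≤ v (xN P - e) := by
  by_contra hlt
  push Not at hlt
  have hx : (nodOf h 1 one_ne_zero).x P = xN P - e := by rw [nodOf_x h 1 one_ne_zero hP, div_one]
  have h2 : P + P ≠ 0 := by
    intro h2
    apply hP
    obtain ⟨k, rfl⟩ := hn
    rw [add_nsmul, mul_nsmul, two_nsmul, h2, nsmul_zero, zero_add, one_nsmul] at hnP
    exact hnP
  obtain ⟨h3, h4⟩ := (nodOf h 1 one_ne_zero).x_dup hP h2
  rw [hx, nodOf_x h 1 one_ne_zero h2, div_one, div_one, one_pow, div_one] at h3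
  rw [hx, div_one, one_pow, div_one] at h4
  have hm : v ((f - e) * (g - e)) = 1 := by rw [map_mul, hf, hg, mul_one]
  have hb : v (-4 * ((f - e) + (g - e))) ≤ 1 := by
    rw [map_mul, Valuation.map_neg]
    exact mul_le_one' Nod.v_four_le ((v.map_add _ _).trans (max_le hf.le hg.le))
  have hR : v ((xN P - e) ^ 2 - (f - e) * (g - e)) = 1 := by
    rw [sub_eq_add_neg, Valuation.map_add_eq_of_lt_right, Valuation.map_neg, hm]
    rw [Valuation.map_neg, hm, map_pow]
    exact pow_lt_one₀ zero_le hlt two_ne_zero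
  have hL : v ((xN P - e) * (4 * (xN P - e) ^ 2 + -4 * (f - e + (g - e)) * (xN P - e)
      + 4 * ((f - e) * (g - e)))) < 1 := by
    rw [map_mul]
    refine lt_of_le_of_lt (mul_le_mul' le_rfl (c := v (4 * (xN P - e) ^ 2 +
      -4 * (f - e + (g - e)) * (xN P - e) + 4 * ((f - e) * (g - e)))) (d := 1) ?_)
      (by rw [mul_one]; exact hlt)
    refine (v.map_add _ _).trans (max_le ((v.map_add _ _).trans (max_le ?_ ?_)) ?_)
    · rw [map_mul, map_pow]
      exact mul_le_one' Nod.v_four_le (pow_le_one₀ zero_le hlt.le)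
    · rw [map_mul]
      exact mul_le_one' hb hlt.le
    · rw [map_mul, hm, mul_one]; exact Nod.v_four_le
  have h5 : 1 < v (xN (P + P) - e) := by
    by_contra h6
    push Not at h6
    have h7 := congrArg v h3
    rw [map_mul, map_pow, hR, one_pow] at h7
    exact absurd h7 (lt_of_le_of_lt (mul_le_mul' h6 le_rfl) (by rw [one_mul]; exact hL)).ne
  -- `P + P ∈ E₁`
  obtain ⟨k, hk⟩ := hn
  have h6 : (k + 1) • (P + P) = P := by
    have : (k + 1) • (P + P) = (2 * k + 1) • P + P := by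
      rw [← two_nsmul, ← mul_nsmul', ← succ_nsmul]
      congr 1; ring
    rw [this, ← hk, hnP, zero_add]
  have h7 : v ((nodOf h 1 one_ne_zero).D (P + P)) < v ((nodOf h 1 one_ne_zero).N (P + P)) := by
    change v (1 * xD (P + P)) < v (xN (P + P) - e * xD (P + P))
    rw [xD_of_ne h2, mul_one, mul_one, map_one]
    exact h5
  have h8 := (nodOf h 1 one_ne_zero).e1_nsmul (v := v)
    (by rw [one_pow, div_one]; exact hm.le) (by rw [div_one]; exact hb) h7 (k + 1)
  rw [h6] at h8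
  change v (1 * xD P) < v (xN P - e * xD P) at h8
  rw [xD_of_ne hP, mul_one, mul_one, map_one] at h8
  exact absurd hlt (not_lt.mpr h8.le)

end

end Fermat.Agent.H12
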