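import Mathlib
import Fermat.Agent.H12Cof
import Fermat.Agent.H12Loc
import Fermat.Agent.H59RedGal
import Fermat.Agent.H59RedTors
import Fermat.Agent.H72Inertia
import Fermat.Agent.H63Cyclo

/-!
# Models `y² = x (x-A) (x+B)` and the minimal model; the 2-adic analysis
-/

set_option autoImplicit false

namespace Fermat.Agent.H12

open WeierstrassCurve WeierstrassCurve.Affine WeierstrassCurve.Affine.Point
open Fermat.Agent.H72

local notation "Qb" => AlgebraicClosure ℚ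

/-- `y² = x (x-A) (x+B)` over `ℚ` -/
def Xc (A B : ℤ) : WeierstrassCurve ℚ := ⟨0, (B : ℚ) - A, 0, -((A : ℚ) * B), 0⟩

/-- the minimal model over `ℤ` -/
def Mc (A B : ℤ) : WeierstrassCurve ℤ := ⟨1, (B - 1 - A) / 4, 0, -A * B / 16, 0⟩

lemma rtsXc (A B : ℤ) : Rts ((Xc A B)⁄Qb) 0 (A : Qb) (-(B : Qb)) := by
  constructor
  · change algebraMap ℚ Qb 0 = 0; simp
  · change algebraMap ℚ Qb 0 = 0; simp
  · change algebraMap ℚ Qb ((B : ℚ) - A) = _; simp [sub_eq_add_neg]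
  · change algebraMap ℚ Qb (-((A : ℚ) * B)) = _; simp
  · change algebraMap ℚ Qb 0 = _; simp

/-- conditions on `(A,B)` -/
structure Good (A B : ℤ) : Prop where
  h4 : (4 : ℤ) ∣ A + 1
  h32 : (32 : ℤ) ∣ B
  cop : IsCoprime A B
  hA : A ≠ 0
  hB : B ≠ 0
  hC : A + B ≠ 0

namespace Good

variable {A B : ℤ} (h : Good A B)
include h

lemma a₂_mul : 4 * (Mc A B).a₂ = B - 1 - A := by
  have h1 := h.h4
  have h2 := h.h32
  exact Int.mul_ediv_cancel' (by omega)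

lemma a₄_mul : 16 * (Mc A B).a₄ = -A * B := by
  have h2 : (16 : ℤ) ∣ B := by
    have := h.h32
    omega
  exact Int.mul_ediv_cancel' (Dvd.dvd.mul_left h2 _)

lemma c₄_eq : (Mc A B).c₄ = A ^ 2 + A * B + B ^ 2 := by
  have h2 := h.a₂_mul
  have h4 := h.a₄_mul
  have e1 : (Mc A B).a₁ = 1 := rfl
  have e3 : (Mc A B).a₃ = 0 := rfl
  simp only [WeierstrassCurve.c₄, WeierstrassCurve.b₂, WeierstrassCurve.b₄, e1, e3]
  linear_combination (8 * (Mc A B).a₂ + 2 - 4 * (Mc A B).a₂ + (B - 1 - A)) * h2 - 3 * h4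

lemma Δ_eq : 256 * (Mc A B).Δ = (A * B * (A + B)) ^ 2 := by
  have h2 := h.a₂_mul
  have h4 := h.a₄_mul
  have e1 : (Mc A B).a₁ = 1 := rfl
  have e3 : (Mc A B).a₃ = 0 := rfl
  have e6 : (Mc A B).a₆ = 0 := rfl
  have key : (Mc A B).Δ = (Mc A B).a₄ ^ 2 * ((1 + 4 * (Mc A B).a₂) ^ 2 - 64 * (Mc A B).a₄) := by
    simp only [WeierstrassCurve.Δ, WeierstrassCurve.b₂, WeierstrassCurve.b₄, WeierstrassCurve.b₆,
      WeierstrassCurve.b₈, e1, e3, e6]
    ring
  rw [key, h2]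
  have h64 : 64 * (Mc A B).a₄ = 4 * (-A * B) := by rw [← h4]; ring
  rw [h64]
  have h256 : 256 * ((Mc A B).a₄ ^ 2 * ((1 + (B - 1 - A)) ^ 2 - 4 * (-A * B))) =
      (16 * (Mc A B).a₄) ^ 2 * ((1 + (B - 1 - A)) ^ 2 - 4 * (-A * B)) := by ring
  rw [h256, h4]
  ring

lemma Δ_ne_zero : (Mc A B).Δ ≠ 0 := by
  intro h0
  have h1 := h.Δ_eq
  rw [h0, mul_zero] at h1
  exact pow_ne_zero 2 (mul_ne_zero (mul_ne_zero h.hA h.hB) h.hC) h1.symm

end Good

/-- the change of variables from the minimal model to `y² = x (x-A) (x+B)` -/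
def cM : VariableChange ℚ := ⟨Units.mk0 2 two_ne_zero, 0, 1, 0⟩

lemma Good.map_eq {A B : ℤ} (h : Good A B) :
    (Mc A B).map (Int.castRingHom ℚ) = cM • Xc A B := by
  have h2 := congrArg (Int.cast : ℤ → ℚ) h.a₂_mul
  have h4 := congrArg (Int.cast : ℤ → ℚ) h.a₄_mul
  push_cast at h2 h4
  ext
  · simp [Mc, Xc, cM, variableChange_a₁]
  · simp only [map_a₂, eq_intCast, variableChange_a₂, Xc, cM]
    simp
    linarith
  · simp [Mc, Xc, cM, variableChange_a₃]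
  · simp only [map_a₄, eq_intCast, variableChange_a₄, Xc, cM]
    simp
    linarith
  · simp [Mc, Xc, cM, variableChange_a₆]

/-- the isomorphism of points `minimal model → X-model`, `x ↦ 4x` -/
noncomputable def ptM {A B : ℤ} (h : Good A B) :
    (((Mc A B).map (Int.castRingHom ℚ))⁄Qb).Point ≃+ ((Xc A B)⁄Qb).Point :=
  ptQ cM h.map_eq

lemma ptM_some {A B : ℤ} (h : Good A B) {x y : Qb}
    (hxy : (((Mc A B).map (Int.castRingHom ℚ))⁄Qb).toAffine.Nonsingular x y) :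
    ∃ h', ptM h (.some x y hxy) = .some (4 * x) (8 * y + 4 * x) h' := by
  obtain ⟨h', e⟩ := ptQ_some cM h.map_eq hxy
  have e1 : algebraMap ℚ Qb (cM.u : ℚ) = 2 := by
    change algebraMap ℚ Qb 2 = 2
    simp
  have e2 : algebraMap ℚ Qb cM.r = 0 := by change algebraMap ℚ Qb 0 = 0; simp
  have e3 : algebraMap ℚ Qb cM.s = 1 := by change algebraMap ℚ Qb 1 = 1; simp
  have e4 : algebraMap ℚ Qb cM.t = 0 := by change algebraMap ℚ Qb 0 = 0; simp
  have hx : algebraMap ℚ Qb (cM.u : ℚ) ^ 2 * x + algebraMap ℚ Qb cM.r = 4 * x := by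
    rw [e1, e2]; ring
  have hy : algebraMap ℚ Qb (cM.u : ℚ) ^ 3 * y + algebraMap ℚ Qb (cM.u : ℚ) ^ 2 *
      algebraMap ℚ Qb cM.s * x + algebraMap ℚ Qb cM.t = 8 * y + 4 * x := by
    rw [e1, e3, e4]; ring
  have h'' : ((Xc A B)⁄Qb).toAffine.Nonsingular (4 * x) (8 * y + 4 * x) := by
    have h1 := h'
    rw [hy, hx] at h1
    exact h1
  refine ⟨h'', ?_⟩
  rw [ptM, e, Point.some.injEq]
  exact ⟨hx, hy⟩

/-! ### the setup attached to a cofixed line -/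

section

variable {p : ℕ} {A B : ℤ} {N : Finset ((Xc A B)⁄Qb).Point} {T : ((Xc A B)⁄Qb).Point}

lemma Cof.setup (hp : p.Prime) (hp2 : p ≠ 2) (hN : Cof p (Xc A B) N T) (hA : A ≠ 0) (hB : B ≠ 0)
    (hC : A + B ≠ 0) : Setup ((Xc A B)⁄Qb) 0 (A : Qb) (-(B : Qb)) N where
  rts := rtsXc A B
  hef := by
    intro h
    exact hA (by exact_mod_cast h.symm)
  heg := by
    intro h
    have : (B : Qb) = 0 := by linear_combination h
    exact hB (by exact_mod_cast this)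
  hfg := by
    intro h
    have : (A : Qb) + B = 0 := by linear_combination h
    exact hC (by exact_mod_cast this)
  zero_mem := hN.zero_mem
  add_mem := hN.add_mem
  neg_mem := hN.neg_mem
  odd := by
    intro a ha h2
    have hodd := hp.odd_of_ne_two hp2
    obtain ⟨k, hk⟩ := hodd
    have h3 := hN.tors a ha
    rw [hk, add_nsmul, mul_nsmul, two_nsmul, h2, nsmul_zero, zero_add, one_nsmul] at h3
    exact h3
  odd_card := by rw [hN.card]; exact hp.odd_of_ne_two hp2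

lemma Cof.nsmul_notMem {E : WeierstrassCurve ℚ} {N : Finset (E⁄Qb).Point} {T : (E⁄Qb).Point}
    (hp : p.Prime) (hN : Cof p E N T) {n : ℕ} (h1 : 1 ≤ n) (h2 : n < p) :
    n • T ∉ N := by
  intro hmem
  apply hN.notMem
  have hcop : n.Coprime p := (Nat.coprime_of_lt_prime (by omega) h2 hp).symm
  obtain ⟨k, -, hk⟩ := Nat.exists_mul_mod_eq_one_of_coprime hcop hp.one_lt
  have h3 : k • n • T = T := by
    rw [← mul_nsmul]
    conv_lhs => rw [← Nat.div_add_mod (n * k) p, hk, add_nsmul, mul_nsmul, hN.torsT]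
    simp
  rw [← h3]
  have : ∀ k : ℕ, k • n • T ∈ N := by
    intro k
    induction k with
    | zero => rw [zero_nsmul]; exact hN.zero_mem
    | succ k ih => rw [succ_nsmul]; exact hN.add_mem _ ih _ hmem
  exact this k

lemma Cof.two_notMem {E : WeierstrassCurve ℚ} {N : Finset (E⁄Qb).Point} {T : (E⁄Qb).Point}
    (hp : p.Prime) (hp5 : 5 ≤ p) (hN : Cof p E N T) : T + T ∉ N := by
  rw [← two_nsmul]
  exact hN.nsmul_notMem hp (by norm_num) (by omega)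

lemma xN_smul {E : WeierstrassCurve ℚ} (σ : Qb ≃ₐ[ℚ] Qb) (P : (E⁄Qb).Point) :
    xN (σ • P) = σ (xN P) := by
  rcases P with _ | ⟨x, y, h⟩
  · change xN (0 : (E⁄Qb).Point) = σ (xN (0 : (E⁄Qb).Point))
    rw [xN_zero, map_one]
  · obtain ⟨h', e⟩ := smul_some σ h
    rw [e, xN_some, xN_some]

lemma yN_smul {E : WeierstrassCurve ℚ} (σ : Qb ≃ₐ[ℚ] Qb) (P : (E⁄Qb).Point) :
    yN (σ • P) = σ (yN P) := by
  rcases P with _ | ⟨x, y, h⟩
  · change yN (0 : (E⁄Qb).Point) = σ (yN (0 : (E⁄Qb).Point))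
    change (0 : Qb) = σ 0
    rw [_root_.map_zero]
  · obtain ⟨h', e⟩ := smul_some σ h
    rw [e, yN_some, yN_some]

lemma Cof.prod_smul {E : WeierstrassCurve ℚ} {N : Finset (E⁄Qb).Point} {T : (E⁄Qb).Point}
    (hN : Cof p E N T) (σ : Qb ≃ₐ[ℚ] Qb) (F : (E⁄Qb).Point → Qb) :
    ∏ ν ∈ N, F (σ • ν) = ∏ ν ∈ N, F ν := by
  refine Finset.prod_nbij' (fun ν => σ • ν) (fun ν => σ⁻¹ • ν) ?_ ?_ ?_ ?_ ?_
  · intro ν hν; exact hN.stable σ ν hν
  · intro ν hν; exact hN.stable σ⁻¹ ν hν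
  · intro ν _; exact inv_smul_smul σ ν
  · intro ν _; exact smul_inv_smul σ ν
  · intro ν _; rfl

lemma Cof.prod_smul_erase {E : WeierstrassCurve ℚ} {N : Finset (E⁄Qb).Point} {T : (E⁄Qb).Point}
    (hN : Cof p E N T) (σ : Qb ≃ₐ[ℚ] Qb) (F : (E⁄Qb).Point → Qb) :
    ∏ ν ∈ N.erase 0, F (σ • ν) = ∏ ν ∈ N.erase 0, F ν := by
  have hz : ∀ (τ : Qb ≃ₐ[ℚ] Qb) (ν : (E⁄Qb).Point), ν ≠ 0 → τ • ν ≠ 0 := by
    intro τ ν hν h0
    apply hν
    have := congrArg (fun P => τ⁻¹ • P) h0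
    simp only [inv_smul_smul] at this
    rw [this]; rfl
  refine Finset.prod_nbij' (fun ν => σ • ν) (fun ν => σ⁻¹ • ν) ?_ ?_ ?_ ?_ ?_
  · intro ν hν
    have := Finset.mem_erase.mp hν
    exact Finset.mem_erase.mpr ⟨hz σ ν this.1, hN.stable σ ν this.2⟩
  · intro ν hν
    have := Finset.mem_erase.mp hν
    exact Finset.mem_erase.mpr ⟨hz σ⁻¹ ν this.1, hN.stable σ⁻¹ ν this.2⟩
  · intro ν _; exact inv_smul_smul σ ν
  · intro ν _; exact smul_inv_smul σ ν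
  · intro ν _; rfl

/-- elements fixed by Galois are rational -/
lemma exists_rat_of_fixed {x : Qb} (hx : ∀ σ : Qb ≃ₐ[ℚ] Qb, σ x = x) :
    ∃ r : ℚ, algebraMap ℚ Qb r = x := by
  have hbot : x ∈ (⊥ : IntermediateField ℚ Qb) := (InfiniteGalois.mem_bot_iff_fixed _).mpr hx
  obtain ⟨r, hr⟩ := IntermediateField.mem_bot.mp hbot
  exact ⟨r, hr⟩

/-- `H_e` is rational -/
lemma Cof.Hp_rat {E : WeierstrassCurve ℚ} {N : Finset (E⁄Qb).Point} {T : (E⁄Qb).Point}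
    (hN : Cof p E N T) {e : Qb} (he : ∀ σ : Qb ≃ₐ[ℚ] Qb, σ e = e) :
    ∃ r : ℚ, algebraMap ℚ Qb r = Hp N e := by
  apply exists_rat_of_fixed
  intro σ
  unfold Hp
  rw [map_prod, ← hN.prod_smul_erase σ (fun ν => xN ν - e)]
  refine Finset.prod_congr rfl fun ν _ => ?_
  rw [map_sub, he, xN_smul]

end

/-! ### valuations of rational numbers -/

section val

variable {V : ValuationSubring Qb} {q : ℕ}

lemma val_q_pos (hq : q.Prime) : 0 < V.valuation (q : Qb) := by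
  rw [zero_lt_iff, Ne, Valuation.zero_iff]
  exact_mod_cast hq.ne_zero

lemma val_pow_inj (hq : q.Prime) (hV : V.LiesOverPrime q) {i j : ℕ}
    (h : V.valuation (q : Qb) ^ i = V.valuation (q : Qb) ^ j) : i = j := by
  have h1 : V.valuation (q : Qb) < 1 := val_natCast_lt hV
  have h0 : 0 < V.valuation (q : Qb) := val_q_pos hq
  rcases lt_trichotomy i j with h2 | h2 | h2
  · exact absurd h (pow_lt_pow_right_of_lt_one₀ h0 h1 h2).ne'
  · exact h2
  · exact absurd h (pow_lt_pow_right_of_lt_one₀ h0 h1 h2).ne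

lemma val_int (hq : q.Prime) (hV : V.LiesOverPrime q) {n : ℤ} (hn : n ≠ 0) :
    ∃ m : ℕ, V.valuation (n : Qb) = V.valuation (q : Qb) ^ m := by
  obtain ⟨m, hm, -⟩ := val_intCast_eq_pow hq hV hn
  exact ⟨m, by rw [hm, map_pow]⟩

end val

end Fermat.Agent.H12
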