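import Mathlib
import Fermat.Agent.H12Frey

/-!
# 2-adic analysis of a cofixed line
-/

set_option autoImplicit false

namespace Fermat.Agent.H12

open WeierstrassCurve WeierstrassCurve.Affine WeierstrassCurve.Affine.Point
open Fermat.Agent.H72

local notation "Qb" => AlgebraicClosure ℚ

variable {p : ℕ} {A B : ℤ} {V : ValuationSubring Qb} {q : ℕ}

/-- torsion of order prime to `q` has integral `x` on the minimal model -/
lemma val_x_le (hG : Good A B) (hq : q.Prime) (hV : V.LiesOverPrime q) {P : ((Xc A B)⁄Qb).Point}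
    (hP : P ≠ 0) {n : ℕ} (hn : ¬ q ∣ n) (hnP : n • P = 0) :
    V.valuation (xN P) ≤ V.valuation (4 : Qb) := by
  classical
  obtain ⟨P', rfl⟩ := (ptM hG).surjective P
  have hP' : P' ≠ 0 := by rintro rfl; exact hP (_root_.map_zero _)
  have hnP' : n • P' = 0 := by
    apply (ptM hG).injective
    rw [map_nsmul, hnP, _root_.map_zero]
  rcases P' with _ | ⟨x, y, hxy⟩
  · exact absurd rfl hP'
  · obtain ⟨h', e⟩ := ptM_some hG hxy
    rw [e, xN_some, map_mul]
    have hx : x ∈ V := by
      by_contra hx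
      apply hP'
      exact H59.eq_zero_of_nsmul_eq_zero (E := (Mc A B).map (Int.castRingHom V))
        (ρ := IsLocalRing.residue V) (Ek := ((Mc A B).map (Int.castRingHom
          (IsLocalRing.ResidueField V))).toAffine)
        (H59.model_map rfl) (P := Point.some x y hxy) hx (H59.natCast_residue_ne_zero hq hV hn) hnP'
    calc V.valuation 4 * V.valuation x ≤ V.valuation 4 * 1 :=
          mul_le_mul' le_rfl ((V.valuation_le_one_iff x).mpr hx)
      _ = _ := mul_one _

lemma not_two_dvd_A (hG : Good A B) : ¬ ((2 : ℕ) : ℤ) ∣ A := by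
  have := hG.h4
  push_cast
  omega

lemma val_A_two (hG : Good A B) (hV : V.LiesOverPrime 2) : V.valuation (A : Qb) = 1 :=
  val_intCast_eq_one Nat.prime_two hV (not_two_dvd_A hG)

lemma val_four (hV : V.LiesOverPrime 2) : V.valuation (4 : Qb) = V.valuation (2 : Qb) ^ 2 := by
  rw [← map_pow]; norm_num

lemma val_two_lt (hV : V.LiesOverPrime 2) : V.valuation (2 : Qb) < 1 := by
  have := val_natCast_lt hV
  exact_mod_cast this

lemma val_two_pos : 0 < V.valuation (2 : Qb) := by
  rw [zero_lt_iff, Ne, Valuation.zero_iff]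
  norm_num

lemma four_ne : (4 : Qb) ≠ 0 := by norm_num

lemma val_B_two_lt (hG : Good A B) (hV : V.LiesOverPrime 2) :
    V.valuation (B : Qb) < V.valuation (4 : Qb) ^ 2 := by
  obtain ⟨c, hc⟩ := hG.h32
  have h2 := val_two_lt hV
  have h3 := val_two_pos (V := V)
  have : (B : Qb) = 2 ^ 5 * c := by
    rw [hc]; push_cast; norm_num
  rw [this, map_mul, map_pow, val_four hV, ← pow_mul]
  calc V.valuation 2 ^ 5 * V.valuation (c : Qb) ≤ V.valuation 2 ^ 5 * 1 :=
        mul_le_mul' le_rfl (val_intCast_le c)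
    _ = V.valuation 2 ^ 5 := mul_one _
    _ < V.valuation 2 ^ (2 * 2) := pow_lt_pow_right_of_lt_one₀ h3 h2 (by norm_num)

section

variable {N : Finset ((Xc A B)⁄Qb).Point} {T : ((Xc A B)⁄Qb).Point}

/-- valuations of the parameters of the node at 2 -/
lemma two_params (hG : Good A B) (hV : V.LiesOverPrime 2) :
    V.valuation (-4 * (((A : Qb) - 0) + (-(B : Qb) - 0)) / 4) = 1 ∧
    V.valuation (((A : Qb) - 0) * (-(B : Qb) - 0) / 4 ^ 2) < 1 ∧
    ((A : Qb) - 0) * (-(B : Qb) - 0) / 4 ^ 2 ≠ 0 := by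
  refine ⟨?_, ?_, ?_⟩
  · have : -4 * (((A : Qb) - 0) + (-(B : Qb) - 0)) / 4 = ((B - A : ℤ) : Qb) := by
      push_cast; ring
    rw [this]
    apply val_intCast_eq_one Nat.prime_two hV
    have h1 := hG.h4
    have h2 := hG.h32
    push_cast
    omega
  · rw [map_div₀, map_mul, map_pow, sub_zero, sub_zero, Valuation.map_neg, val_A_two hG hV, one_mul]
    rw [div_lt_one₀ (by
      apply pow_pos
      rw [zero_lt_iff, Ne, Valuation.zero_iff]; exact four_ne)]
    exact val_B_two_lt hG hV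
  · rw [sub_zero, sub_zero]
    refine div_ne_zero (mul_ne_zero ?_ (neg_ne_zero.mpr ?_)) (pow_ne_zero _ four_ne)
    · exact_mod_cast hG.hA
    · exact_mod_cast hG.hB

/-- A cofixed line is contained in `E₀` at `2`. -/
theorem val_x_two (hp : p.Prime) (hp5 : 5 ≤ p) (hG : Good A B) (hN : Cof p (Xc A B) N T)
    {b : ℤ} (hb : B = b ^ p) (hV : V.LiesOverPrime 2) :
    ∀ a ∈ N, a ≠ 0 → V.valuation (xN a) = V.valuation (4 : Qb) := by
  classical
  have hp2 : p ≠ 2 := by omega
  have hset := hN.setup hp hp2 hG.hA hG.hB hG.hC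
  obtain ⟨hb1, hm1, hm0⟩ := two_params hG hV
  have hnd : ¬ 2 ∣ p := fun h => hp2 ((Nat.prime_dvd_prime_iff_eq Nat.prime_two hp).mp h).symm
  rcases (nodOf hset.rts 4 four_ne).miss_or_in hm1 hb1.le hp hN.zero_mem hN.add_mem hN.card hN.tors
    with hmiss | hin
  · exfalso
    have hM : (nodOf hset.rts 4 four_ne).Missing N p V.valuation :=
      ⟨hm0, hm1, hb1, hp, hp2, hN.zero_mem, hN.add_mem, hN.neg_mem, hN.card, hN.tors, hmiss⟩
    have key := hM.prod_val
    have hx : ∀ a ∈ N.erase 0, V.valuation ((nodOf hset.rts 4 four_ne).x a) =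
        V.valuation (xN a - 0) / V.valuation (4 : Qb) := by
      intro a ha
      rw [nodOf_x _ _ _ (Finset.mem_erase.mp ha).1, map_div₀]
    rw [Finset.prod_congr rfl hx, Finset.prod_div_distrib, ← Setup.map_prod_val', Finset.prod_const]
      at key
    obtain ⟨r, hr⟩ := hN.Hp_rat (e := 0) (fun σ => _root_.map_zero σ)
    change (V.valuation (Hp N 0) / _) ^ p = _ at key
    rw [← hr] at key
    have hHp0 : Hp N (0 : Qb) ≠ 0 := hset.Hp_ne_zero
    have hr0 : r ≠ 0 := by
      rintro rfl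
      rw [_root_.map_zero] at hr
      exact hHp0 hr.symm
    have hnum : r.num ≠ 0 := Rat.num_ne_zero.mpr hr0
    have hden : (r.den : ℤ) ≠ 0 := by exact_mod_cast r.den_ne_zero
    obtain ⟨i, hi⟩ := val_int Nat.prime_two hV hnum
    obtain ⟨j, hj⟩ := val_int Nat.prime_two hV hden
    have hb0 : b ≠ 0 := by
      rintro rfl
      rw [zero_pow hp.ne_zero] at hb
      exact hG.hB hb
    obtain ⟨k, hk⟩ := val_int Nat.prime_two hV hb0
    have hrr : algebraMap ℚ Qb r = (r.num : Qb) / ((r.den : ℤ) : Qb) := by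
      conv_lhs => rw [← Rat.num_div_den r]
      rw [map_div₀]
      simp
    obtain ⟨K, hK⟩ : ∃ K, K = (p ^ 2 - 1) / 2 := ⟨_, rfl⟩
    have hc : N.card - 1 = p - 1 := by rw [hN.card]
    have hB' : V.valuation (B : Qb) = V.valuation ((2 : ℕ) : Qb) ^ (k * p) := by
      rw [hb]; push_cast; rw [map_pow, hk, ← pow_mul]; norm_num
    rw [hrr, map_div₀, hi, hj, ← hK, Finset.card_erase_of_mem hN.zero_mem, hc, val_four hV, map_div₀,
      map_mul, map_pow, sub_zero, sub_zero, Valuation.map_neg, val_A_two hG hV, one_mul, hB',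
      val_four hV] at key
    have h20 : V.valuation (2 : Qb) ≠ 0 := val_two_pos.ne'
    have e2 : V.valuation ((2 : ℕ) : Qb) = V.valuation (2 : Qb) := by norm_num
    rw [e2] at key
    have key2 : V.valuation (2 : Qb) ^ (i * p + 4 * K) =
        V.valuation (2 : Qb) ^ (k * p * K + (j + 2 * (p - 1)) * p) := by
      rw [div_div, ← pow_mul, ← pow_mul, ← pow_add, div_pow, div_pow, div_eq_div_iff
        (pow_ne_zero _ (pow_ne_zero _ h20)) (pow_ne_zero _ (pow_ne_zero _ h20))] at key
      rw [← pow_mul, ← pow_mul, ← pow_mul, ← pow_mul, ← pow_add, ← pow_add] at key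
      rw [show 4 * K = 2 * 2 * K by ring]
      convert key using 2
    have h3 : i * p + 4 * K = k * p * K + (j + 2 * (p - 1)) * p :=
      val_pow_inj Nat.prime_two hV (by rw [e2]; exact key2)
    -- `p ∣ 4 K`
    have h4 : p ∣ 4 * K := by
      have h5 : p ∣ i * p + 4 * K := by
        rw [h3]
        exact dvd_add ⟨k * K, by ring⟩ ⟨_, mul_comm _ _⟩
      exact (Nat.dvd_add_right (Dvd.intro_left i rfl)).mp h5
    have h5 : 4 * K + 2 = 2 * p ^ 2 := by
      obtain ⟨s, hs⟩ := hp.odd_of_ne_two hp2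
      rw [hK, hs]
      have e2 : (2 * s + 1) ^ 2 - 1 = 2 * (2 * (s * (s + 1))) := by
        rw [Nat.sub_eq_iff_eq_add (Nat.one_le_pow _ _ (by omega))]; ring
      rw [e2, Nat.mul_div_cancel_left _ (by norm_num : 0 < 2)]
      ring
    have h6 : p ∣ 2 := by
      have h7 : p ∣ 4 * K + 2 := by rw [h5]; exact ⟨2 * p, by ring⟩
      exact (Nat.dvd_add_right h4).mp h7
    have := Nat.le_of_dvd (by norm_num) h6
    omega
  · intro a ha ha0
    refine le_antisymm (val_x_le hG Nat.prime_two hV ha0 hnd (hN.tors a ha)) ?_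
    have h1 := hin a ha
    change V.valuation (4 * xD a) ≤ V.valuation (xN a - 0 * xD a) at h1
    rwa [xD_of_ne ha0, mul_one, mul_one, sub_zero] at h1

end

end Fermat.Agent.H12
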