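import Mathlib
import Fermat.Agent.H12Two

/-!
# Integral normalisation of the quotient curve
-/

set_option autoImplicit false

namespace Fermat.Agent.H12

open Fermat.Agent.H72

local notation "Qb" => AlgebraicClosure ℚ

/-- a natural number all of whose prime exponents are even is a square -/
lemma exists_sq_of_even {D : ℕ} (hD : D ≠ 0) (h : ∀ q : ℕ, q.Prime → Even (D.factorization q)) :
    ∃ g : ℕ, D = g ^ 2 := by
  obtain ⟨a, b, hab, hsq⟩ := Nat.sq_mul_squarefree D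
  have ha0 : a ≠ 0 := by
    rintro rfl
    rw [mul_zero] at hab
    exact hD hab.symm
  have hb0 : b ≠ 0 := by
    rintro rfl
    rw [zero_pow two_ne_zero, zero_mul] at hab
    exact hD hab.symm
  have ha1 : a = 1 := by
    by_contra ha1
    obtain ⟨q, hq, hqa⟩ := Nat.exists_prime_and_dvd ha1
    have h1 := h q hq
    rw [← hab, Nat.factorization_mul (pow_ne_zero _ hb0) ha0, Nat.factorization_pow] at h1
    simp only [Finsupp.coe_add, Finsupp.coe_smul, Pi.add_apply, Pi.smul_apply, smul_eq_mul] at h1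
    have h2 : a.factorization q ≤ 1 := hsq.natFactorization_le_one q
    have h3 : 0 < a.factorization q := hq.factorization_pos_of_dvd ha0 hqa
    have h4 : a.factorization q = 1 := by omega
    rw [h4] at h1
    rcases h1 with ⟨r, hr⟩
    omega
  exact ⟨b, by rw [← hab, ha1, mul_one]⟩

lemma factorization_even {X m q p : ℕ} (hX : X ≠ 0) (hm : m ≠ 0) (hq : ¬ q ∣ X) :
    (X ^ p * m ^ 2).factorization q = 2 * m.factorization q := by
  rw [Nat.factorization_mul (pow_ne_zero _ hX) (pow_ne_zero _ hm), Nat.factorization_pow,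
    Nat.factorization_pow]
  simp only [Finsupp.coe_add, Finsupp.coe_smul, Pi.add_apply, Pi.smul_apply, smul_eq_mul]
  rw [Nat.factorization_eq_zero_of_not_dvd hq]
  ring

lemma gcd_even {X Y m n q p : ℕ} (hX : X ≠ 0) (hY : Y ≠ 0) (hm : m ≠ 0) (hn : n ≠ 0)
    (hqX : ¬ q ∣ X) (hqY : ¬ q ∣ Y) :
    Even ((Nat.gcd (X ^ p * m ^ 2) (Y ^ p * n ^ 2)).factorization q) := by
  rw [Nat.factorization_gcd (mul_ne_zero (pow_ne_zero _ hX) (pow_ne_zero _ hm))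
    (mul_ne_zero (pow_ne_zero _ hY) (pow_ne_zero _ hn)), Finsupp.inf_apply,
    factorization_even hX hm hqX, factorization_even hY hn hqY]
  rcases min_choice (2 * m.factorization q) (2 * n.factorization q) with h | h
  · rw [h]; exact even_two_mul _
  · rw [h]; exact even_two_mul _

/-- the gcd is a square -/
lemma gcd_isSquare {A B m₁ m₂ m₃ : ℤ} {p : ℕ} (hcop : IsCoprime A B) (hA : A ≠ 0) (hB : B ≠ 0)
    (hC : A + B ≠ 0) (h1 : m₁ ≠ 0) (h2 : m₂ ≠ 0) (h3 : m₃ ≠ 0)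
    (hrel : A ^ p * m₃ ^ 2 + B ^ p * m₂ ^ 2 = (A + B) ^ p * m₁ ^ 2) :
    ∃ g : ℕ, g ≠ 0 ∧ Int.gcd (A ^ p * m₃ ^ 2) (B ^ p * m₂ ^ 2) = g ^ 2 := by
  obtain ⟨D, hD⟩ : ∃ D, D = Int.gcd (A ^ p * m₃ ^ 2) (B ^ p * m₂ ^ 2) := ⟨_, rfl⟩
  have hU0 : A ^ p * m₃ ^ 2 ≠ 0 := mul_ne_zero (pow_ne_zero _ hA) (pow_ne_zero _ h3)
  have hD0 : D ≠ 0 := by
    rw [hD]
    intro h0
    exact hU0 (Int.gcd_eq_zero_iff.mp h0).1
  have e : ∀ X m : ℤ, (X ^ p * m ^ 2).natAbs = X.natAbs ^ p * m.natAbs ^ 2 := by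
    intro X m
    rw [Int.natAbs_mul, Int.natAbs_pow, Int.natAbs_pow]
  have hD1 : D = Nat.gcd (A.natAbs ^ p * m₃.natAbs ^ 2) (B.natAbs ^ p * m₂.natAbs ^ 2) := by
    rw [hD, Int.gcd_def, e, e]
  have hD2 : D = Nat.gcd (B.natAbs ^ p * m₂.natAbs ^ 2) ((A + B).natAbs ^ p * m₁.natAbs ^ 2) := by
    rw [hD, ← e, ← e, ← Int.gcd_def, ← hrel, Int.gcd_add_self_right, Int.gcd_comm]
  have hD3 : D = Nat.gcd (A.natAbs ^ p * m₃.natAbs ^ 2) ((A + B).natAbs ^ p * m₁.natAbs ^ 2) := by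
    rw [hD, ← e, ← e, ← Int.gcd_def, ← hrel, Int.gcd_self_add_right]
  have nA := Int.natAbs_ne_zero.mpr hA
  have nB := Int.natAbs_ne_zero.mpr hB
  have nC := Int.natAbs_ne_zero.mpr hC
  have n1 := Int.natAbs_ne_zero.mpr h1
  have n2 := Int.natAbs_ne_zero.mpr h2
  have n3 := Int.natAbs_ne_zero.mpr h3
  obtain ⟨g, hg⟩ := exists_sq_of_even hD0 (fun q hq => by
    have hqp : Prime (q : ℤ) := Nat.prime_iff_prime_int.mp hq
    by_cases hqA : q ∣ A.natAbs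
    · have hqA' : (q : ℤ) ∣ A := Int.natCast_dvd.mpr hqA
      have hqB : ¬ q ∣ B.natAbs := fun h => by
        have h' : (q : ℤ) ∣ B := Int.natCast_dvd.mpr h
        exact hqp.not_isUnit (hcop.isUnit_of_dvd' hqA' h')
      have hqC : ¬ q ∣ (A + B).natAbs := fun h => by
        have h' : (q : ℤ) ∣ A + B := Int.natCast_dvd.mpr h
        exact hqB (Int.natCast_dvd.mp ((Int.dvd_add_right hqA').mp h'))
      rw [hD2]
      exact gcd_even nB nC n2 n1 hqB hqC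
    · by_cases hqB : q ∣ B.natAbs
      · have hqB' : (q : ℤ) ∣ B := Int.natCast_dvd.mpr hqB
        have hqC : ¬ q ∣ (A + B).natAbs := fun h => by
          have h' : (q : ℤ) ∣ A + B := Int.natCast_dvd.mpr h
          exact hqA (Int.natCast_dvd.mp ((Int.dvd_add_left hqB').mp h'))
        rw [hD3]
        exact gcd_even nA nC n3 n1 hqA hqC
      · rw [hD1]
        exact gcd_even nA nB n3 n2 hqA hqB)
  refine ⟨g, ?_, hD ▸ hg⟩
  rintro rfl
  exact hD0 (by rw [hg]; norm_num)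

/-- `w(n) ≤ w(2)^k` implies `2^k ∣ n` -/
lemma pow_dvd_of_val {V : ValuationSubring Qb} {q : ℕ} (hq : q.Prime) (hV : V.LiesOverPrime q)
    {n : ℤ} {k : ℕ} (h : V.valuation (n : Qb) ≤ V.valuation (q : Qb) ^ k) :
    ((q : ℤ) ^ k) ∣ n := by
  by_cases hn : n = 0
  · rw [hn]; exact dvd_zero _
  have hn' : n.natAbs ≠ 0 := Int.natAbs_ne_zero.mpr hn
  obtain ⟨m, c, hc, hnc⟩ := Nat.exists_eq_pow_mul_and_not_dvd hn' q hq.ne_one
  have h1 : V.valuation (n : Qb) = V.valuation (q : Qb) ^ m := by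
    have h1 : V.valuation (n : Qb) = V.valuation ((n.natAbs : ℕ) : Qb) := by
      rcases Int.natAbs_eq n with h | h
      · conv_lhs => rw [h]
        rw [Int.cast_natCast]
      · conv_lhs => rw [h]
        rw [Int.cast_neg, Int.cast_natCast, Valuation.map_neg]
    rw [h1, hnc, Nat.cast_mul, Nat.cast_pow, map_mul, map_pow, val_natCast_eq_one hq hV hc, mul_one]
  rw [h1] at h
  have h2 : k ≤ m := by
    by_contra hlt
    push Not at hlt
    exact absurd h (not_le.mpr (pow_lt_pow_right_of_lt_one₀ (val_q_pos hq) (val_natCast_lt hV) hlt))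
  have h3 : (q ^ k) ∣ n.natAbs := by
    rw [hnc]
    exact dvd_mul_of_dvd_left (pow_dvd_pow q h2) c
  have := Int.natCast_dvd.mpr h3
  push_cast at this
  exact this

/-- a rational number which is a 2-adic unit has odd numerator and denominator -/
lemma odd_of_val_one {V : ValuationSubring Qb} {q : ℕ} (hq : q.Prime) (hV : V.LiesOverPrime q) {t : ℚ}
    (ht : V.valuation (algebraMap ℚ Qb t) = 1) : ¬ (q : ℤ) ∣ t.num ∧ ¬ (q : ℤ) ∣ (t.den : ℤ) := by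
  have hrr : algebraMap ℚ Qb t = (t.num : Qb) / ((t.den : ℤ) : Qb) := by
    conv_lhs => rw [← Rat.num_div_den t]
    rw [map_div₀]
    simp
  have hnot : ¬ ((q : ℤ) ∣ t.num ∧ (q : ℤ) ∣ (t.den : ℤ)) := by
    rintro ⟨h1, h2⟩
    have h3 : q ∣ t.num.natAbs := Int.natCast_dvd.mp h1
    have h4 : q ∣ t.den := by exact_mod_cast h2
    have := Nat.dvd_gcd h3 h4
    rw [t.reduced] at this
    exact hq.one_lt.ne' (Nat.dvd_one.mp this)
  have hlt : ∀ n : ℤ, (q : ℤ) ∣ n → V.valuation (n : Qb) < 1 := by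
    rintro n ⟨c, rfl⟩
    push_cast
    rw [map_mul]
    calc _ ≤ V.valuation (q : Qb) * 1 := mul_le_mul' le_rfl (val_intCast_le c)
      _ = V.valuation (q : Qb) := mul_one _
      _ < 1 := val_natCast_lt hV
  have hden0 : 0 < V.valuation ((t.den : ℤ) : Qb) := by
    rw [zero_lt_iff, Ne, Valuation.zero_iff]
    exact_mod_cast t.den_ne_zero
  rw [hrr, map_div₀, div_eq_one_iff_eq hden0.ne'] at ht
  constructor
  · intro h1
    have h2 : ¬ (q : ℤ) ∣ (t.den : ℤ) := fun h2 => hnot ⟨h1, h2⟩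
    rw [val_intCast_eq_one hq hV h2] at ht
    exact absurd ht (hlt _ h1).ne
  · intro h2
    have h1 : ¬ (q : ℤ) ∣ t.num := fun h1 => hnot ⟨h1, h2⟩
    rw [val_intCast_eq_one hq hV h1] at ht
    exact absurd ht.symm (hlt _ h2).ne

lemma sq_mod_eight {m : ℤ} (hm : ¬ (2 : ℤ) ∣ m) : (8 : ℤ) ∣ m ^ 2 - 1 := by
  obtain ⟨k, hk⟩ : ∃ k, m = 2 * k + 1 := ⟨(m - 1) / 2, by omega⟩
  have h2 : (2 : ℤ) ∣ k * (k + 1) := by
    rcases Int.even_or_odd k with h | h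
    · exact dvd_mul_of_dvd_left h.two_dvd _
    · exact dvd_mul_of_dvd_right (by
        obtain ⟨r, hr⟩ := h
        exact ⟨r + 1, by rw [hr]; ring⟩) _
  obtain ⟨c, hc⟩ := h2
  exact ⟨c, by rw [hk]; linear_combination 4 * hc⟩

/-- **Normalisation.** -/
theorem exists_norm {A B b : ℤ} {p : ℕ} (hp : p.Prime) (hp5 : 5 ≤ p) (hG : Good A B) (hb : B = b ^ p)
    (hb2 : (2 : ℤ) ∣ b) {h₁ h₂ h₃ : ℚ} (hh1 : h₁ ≠ 0) (hh2 : h₂ ≠ 0) (hh3 : h₃ ≠ 0)
    (hrel : (A : ℚ) ^ p * h₃ ^ 2 + (B : ℚ) ^ p * h₂ ^ 2 = ((A : ℚ) + B) ^ p * h₁ ^ 2)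
    {V : ValuationSubring Qb} (hV : V.LiesOverPrime 2)
    (hv2 : V.valuation (algebraMap ℚ Qb h₂) = 1)
    (hv3 : V.valuation (algebraMap ℚ Qb h₃) = V.valuation (4 : Qb) ^ (p - 1)) :
    ∃ (A₁ B₁ : ℤ) (u : ℚ), u ≠ 0 ∧ Good A₁ B₁ ∧ (A : ℚ) ^ p * h₃ ^ 2 = u ^ 2 * A₁ ∧
      (B : ℚ) ^ p * h₂ ^ 2 = u ^ 2 * B₁ := by
  -- common denominator
  obtain ⟨d, hd⟩ : ∃ d : ℕ, d = h₁.den * h₂.den * h₃.den := ⟨_, rfl⟩
  have hd0 : d ≠ 0 := by
    rw [hd]; exact mul_ne_zero (mul_ne_zero h₁.den_ne_zero h₂.den_ne_zero) h₃.den_ne_zero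
  have hdQ : (d : ℚ) ≠ 0 := by exact_mod_cast hd0
  obtain ⟨m₁, hm1⟩ : ∃ m₁ : ℤ, (m₁ : ℚ) = d * h₁ := ⟨h₁.num * h₂.den * h₃.den, by
    have e := Rat.mul_den_eq_num h₁
    rw [hd]; push_cast; rw [← e]; ring⟩
  obtain ⟨m₂, hm2⟩ : ∃ m₂ : ℤ, (m₂ : ℚ) = d * h₂ := ⟨h₂.num * h₁.den * h₃.den, by
    have e := Rat.mul_den_eq_num h₂
    rw [hd]; push_cast; rw [← e]; ring⟩
  obtain ⟨m₃, hm3⟩ : ∃ m₃ : ℤ, (m₃ : ℚ) = d * h₃ := ⟨h₃.num * h₁.den * h₂.den, by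
    have e := Rat.mul_den_eq_num h₃
    rw [hd]; push_cast; rw [← e]; ring⟩
  have n1 : m₁ ≠ 0 := by
    intro h0; rw [h0, Int.cast_zero] at hm1; exact mul_ne_zero hdQ hh1 hm1.symm
  have n2 : m₂ ≠ 0 := by
    intro h0; rw [h0, Int.cast_zero] at hm2; exact mul_ne_zero hdQ hh2 hm2.symm
  have n3 : m₃ ≠ 0 := by
    intro h0; rw [h0, Int.cast_zero] at hm3; exact mul_ne_zero hdQ hh3 hm3.symm
  have hrelZ : A ^ p * m₃ ^ 2 + B ^ p * m₂ ^ 2 = (A + B) ^ p * m₁ ^ 2 := by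
    have : ((A ^ p * m₃ ^ 2 + B ^ p * m₂ ^ 2 : ℤ) : ℚ) = (((A + B) ^ p * m₁ ^ 2 : ℤ) : ℚ) := by
      push_cast
      rw [hm1, hm2, hm3]
      linear_combination (d : ℚ) ^ 2 * hrel
    exact_mod_cast this
  obtain ⟨g, hg0, hg⟩ := gcd_isSquare hG.cop hG.hA hG.hB hG.hC n1 n2 n3 hrelZ
  have hgQ : (g : ℚ) ≠ 0 := by exact_mod_cast hg0
  have hU0 : A ^ p * m₃ ^ 2 ≠ 0 := mul_ne_zero (pow_ne_zero _ hG.hA) (pow_ne_zero _ n3)
  have hV0 : B ^ p * m₂ ^ 2 ≠ 0 := mul_ne_zero (pow_ne_zero _ hG.hB) (pow_ne_zero _ n2)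
  have hT0 : (A + B) ^ p * m₁ ^ 2 ≠ 0 := mul_ne_zero (pow_ne_zero _ hG.hC) (pow_ne_zero _ n1)
  have hgpos : 0 < Int.gcd (A ^ p * m₃ ^ 2) (B ^ p * m₂ ^ 2) := by
    rw [hg]; positivity
  obtain ⟨A₁, B₁, hcop1, hA1, hB1⟩ := Int.exists_gcd_one hgpos
  rw [hg] at hA1 hB1
  push_cast at hA1 hB1
  have hA1Q : (A : ℚ) ^ p * h₃ ^ 2 = ((g : ℚ) / d) ^ 2 * A₁ := by
    have h1 := congrArg (Int.cast : ℤ → ℚ) hA1
    push_cast at h1
    rw [hm3] at h1
    field_simp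
    linear_combination h1
  have hB1Q : (B : ℚ) ^ p * h₂ ^ 2 = ((g : ℚ) / d) ^ 2 * B₁ := by
    have h1 := congrArg (Int.cast : ℤ → ℚ) hB1
    push_cast at h1
    rw [hm2] at h1
    field_simp
    linear_combination h1
  have hA10 : A₁ ≠ 0 := by rintro rfl; rw [zero_mul] at hA1; exact hU0 hA1
  have hB10 : B₁ ≠ 0 := by rintro rfl; rw [zero_mul] at hB1; exact hV0 hB1
  have hC10 : A₁ + B₁ ≠ 0 := by
    intro h0
    apply hT0
    rw [← hrelZ, hA1, hB1, ← add_mul, h0, zero_mul]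
  obtain ⟨u, hu⟩ : ∃ u : ℚ, u = (g : ℚ) / d := ⟨_, rfl⟩
  have hu0 : u ≠ 0 := by rw [hu]; exact div_ne_zero hgQ hdQ
  rw [← hu] at hA1Q hB1Q
  -- valuations at 2
  have w2 := val_two_lt hV
  have w20 := val_two_pos (V := V)
  have wA : V.valuation (A : Qb) = 1 := val_A_two hG hV
  have wu0 : V.valuation (algebraMap ℚ Qb u) ≠ 0 := by
    rw [Ne, Valuation.zero_iff]
    intro h; exact hu0 ((algebraMap ℚ Qb).injective (h.trans (_root_.map_zero _).symm))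
  have eA := congrArg (fun r => V.valuation (algebraMap ℚ Qb r)) hA1Q
  simp only [map_mul, map_pow, map_intCast, hv3, wA, one_pow, one_mul, val_four hV] at eA
  have eB := congrArg (fun r => V.valuation (algebraMap ℚ Qb r)) hB1Q
  simp only [map_mul, map_pow, map_intCast, hv2, one_pow, mul_one] at eB
  have wB : V.valuation (B : Qb) ≤ V.valuation (2 : Qb) ^ p := by
    obtain ⟨c, hc⟩ := hb2
    rw [hb, hc]
    push_cast
    rw [map_pow, map_mul, mul_pow]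
    calc _ ≤ V.valuation (2 : Qb) ^ p * 1 :=
          mul_le_mul' le_rfl (pow_le_one₀ zero_le (val_intCast_le c))
      _ = _ := mul_one _
  have wAB : V.valuation (B₁ : Qb) ≤ V.valuation (2 : Qb) ^ 9 * V.valuation (A₁ : Qb) := by
    have h1 : V.valuation (algebraMap ℚ Qb u) ^ 2 * V.valuation (B₁ : Qb) ≤
        V.valuation (algebraMap ℚ Qb u) ^ 2 * (V.valuation (2 : Qb) ^ 9 * V.valuation (A₁ : Qb)) := by
      rw [← eB, mul_left_comm, ← eA, ← pow_mul, ← pow_mul, ← pow_add]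
      calc V.valuation (B : Qb) ^ p ≤ (V.valuation (2 : Qb) ^ p) ^ p := pow_le_pow_left₀ zero_le wB p
        _ = V.valuation (2 : Qb) ^ (p * p) := (pow_mul _ _ _).symm
        _ ≤ _ := by
          refine pow_le_pow_right_of_le_one' w2.le ?_
          obtain ⟨k, rfl⟩ : ∃ k, p = k + 5 := ⟨p - 5, by omega⟩
          have : k + 5 - 1 = k + 4 := by omega
          rw [this]
          nlinarith
    exact le_of_mul_le_mul_left h1 (zero_lt_iff.mpr (pow_ne_zero _ wu0))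
  have wB1 : V.valuation (B₁ : Qb) ≤ V.valuation ((2 : ℕ) : Qb) ^ 9 := by
    refine wAB.trans ?_
    calc _ ≤ V.valuation (2 : Qb) ^ 9 * 1 := mul_le_mul' le_rfl (val_intCast_le A₁)
      _ = _ := by rw [mul_one]; norm_num
  have hB9 : ((2 : ℕ) : ℤ) ^ 9 ∣ B₁ := pow_dvd_of_val Nat.prime_two hV wB1
  have hcopZ : IsCoprime A₁ B₁ := Int.isCoprime_iff_gcd_eq_one.mpr hcop1
  have hA1odd : ¬ ((2 : ℕ) : ℤ) ∣ A₁ := by
    intro h
    have h2 : ((2 : ℕ) : ℤ) ∣ B₁ := (Dvd.intro_left (((2 : ℕ) : ℤ) ^ 8) rfl).trans hB9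
    have := hcopZ.isUnit_of_dvd' h h2
    rw [Int.isUnit_iff] at this
    norm_num at this
  have wA1 : V.valuation (A₁ : Qb) = 1 := val_intCast_eq_one Nat.prime_two hV hA1odd
  rw [wA1, mul_one] at eA
  have wu : V.valuation (algebraMap ℚ Qb (h₃ / u)) = 1 := by
    rw [map_div₀, map_div₀, hv3, val_four hV]
    have h1 : (V.valuation (2 : Qb) ^ 2) ^ (p - 1) = V.valuation (algebraMap ℚ Qb u) :=
      (pow_left_inj₀ zero_le zero_le two_ne_zero).mp eA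
    rw [h1, div_self wu0]
  obtain ⟨o1, o2⟩ := odd_of_val_one Nat.prime_two hV wu
  have hmod : A ^ p * (h₃ / u).num ^ 2 = A₁ * ((h₃ / u).den : ℤ) ^ 2 := by
    have h1 : (A : ℚ) ^ p * (h₃ / u) ^ 2 = A₁ := by
      field_simp
      linear_combination hA1Q
    have h2 : ((h₃ / u).den : ℚ) ≠ 0 := by exact_mod_cast (h₃ / u).den_ne_zero
    have h3 : (A : ℚ) ^ p * ((h₃ / u).num : ℚ) ^ 2 = A₁ * ((h₃ / u).den : ℚ) ^ 2 := by
      rw [← h1]
      nth_rewrite 2 [← Rat.num_div_den (h₃ / u)]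
      field_simp
    exact_mod_cast h3
  have s1 := sq_mod_eight (by exact_mod_cast o1 : ¬ (2 : ℤ) ∣ (h₃ / u).num)
  have s2 := sq_mod_eight (by exact_mod_cast o2 : ¬ (2 : ℤ) ∣ ((h₃ / u).den : ℤ))
  have hAp : (4 : ℤ) ∣ A ^ p + 1 := by
    have : (A + 1) ∣ A ^ p + 1 := by
      have := (hp.odd_of_ne_two (by omega)).add_dvd_pow_add_pow A 1
      rwa [one_pow] at this
    exact hG.h4.trans this
  refine ⟨A₁, B₁, u, hu0, ⟨?_, ?_, hcopZ, hA10, hB10, hC10⟩, hA1Q, hB1Q⟩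
  · -- 4 ∣ A₁ + 1
    obtain ⟨c1, hc1⟩ := s1
    obtain ⟨c2, hc2⟩ := s2
    obtain ⟨c3, hc3⟩ := hAp
    have e1 : (h₃ / u).num ^ 2 = 8 * c1 + 1 := by linarith
    have e2 : ((h₃ / u).den : ℤ) ^ 2 = 8 * c2 + 1 := by linarith
    rw [e1, e2] at hmod
    have e3 : A ^ p = 4 * c3 - 1 := by linarith
    rw [e3] at hmod
    exact ⟨c3 * (8 * c1 + 1) - 2 * c1 - 2 * A₁ * c2, by linear_combination (-1) * hmod⟩
  · refine Dvd.dvd.trans ?_ hB9
    norm_num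

end Fermat.Agent.H12
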