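import Mathlib
import Fermat.Agent.H12Cof
import Fermat.Agent.H39WeilDet
import Fermat.Agent.H63Cyclo

/-!
# The inertia group at `p` does not act by signs on a cofixed line
-/

set_option autoImplicit false

namespace Fermat.Agent.H12

open WeierstrassCurve WeierstrassCurve.Affine WeierstrassCurve.Affine.Point

local notation "Qb" => AlgebraicClosure ℚ

lemma Cof.zeta {p : ℕ} (hp : p.Prime) (hp3 : 3 ≤ p) {E : WeierstrassCurve ℚ} (hΔ : E.Δ ≠ 0)
    {N : Finset (E⁄Qb).Point} {T : (E⁄Qb).Point} (hN : Cof p E N T) :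
    ∃ ζ : Qb, IsPrimitiveRoot ζ p ∧ ∀ σ : Qb ≃ₐ[ℚ] Qb, (∀ a ∈ N, σ • a = a ∨ σ • a = -a) →
      σ ζ = ζ ∨ σ ζ * ζ = 1 := by
  classical
  have := Fact.mk hp
  obtain ⟨e, hadd1, hadd2, hself, hpow, hprim, hgal⟩ := H39.exists_weilPairing (S := ℚ) (K := Qb) E
    (H87.EC.algebraMap_Δ_ne_zero hΔ) hp3
  -- a nonzero element of `N`
  obtain ⟨a, ha, ha0⟩ : ∃ a ∈ N, a ≠ 0 := by
    by_contra hcon
    push Not at hcon
    have h1 : N ⊆ {0} := fun x hx => Finset.mem_singleton.mpr (hcon x hx)
    have h2 := Finset.card_le_card h1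
    rw [hN.card, Finset.card_singleton] at h2
    omega
  let ν : Submodule.torsionBy ℤ (E⁄Qb).Point p := ⟨a, by
    rw [Submodule.mem_torsionBy_iff, natCast_zsmul]; exact hN.tors a ha⟩
  let t : Submodule.torsionBy ℤ (E⁄Qb).Point p := ⟨T, by
    rw [Submodule.mem_torsionBy_iff, natCast_zsmul]; exact hN.torsT⟩
  have hne : ∀ x y, e x y ≠ 0 := fun x y h0 => by
    have := hpow x y
    rw [h0, zero_pow hp.ne_zero] at this
    exact zero_ne_one this
  have hzero1 : ∀ y, e 0 y = 1 := fun y => by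
    have := hadd1 0 0 y
    rw [add_zero] at this
    exact mul_left_cancel₀ (hne 0 y) (this.symm.trans (mul_one _).symm)
  have hzero2 : ∀ x, e x 0 = 1 := fun x => by
    have := hadd2 x 0 0
    rw [add_zero] at this
    exact mul_left_cancel₀ (hne x 0) (this.symm.trans (mul_one _).symm)
  have hnsmul2 : ∀ (x y) (k : ℕ), e x (k • y) = e x y ^ k := fun x y k => by
    induction k with
    | zero => rw [zero_nsmul, pow_zero, hzero2]
    | succ k ih => rw [succ_nsmul, hadd2, ih, pow_succ]
  have hneg1 : ∀ x y, e (-x) y * e x y = 1 := fun x y => by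
    rw [← hadd1, neg_add_cancel, hzero1]
  have hνs : ∀ y, e ν y ^ p = 1 := fun y => hpow ν y
  have hmult : ∀ b ∈ N, ∃ k < p, k • a = b := fun b hb =>
    have := hN
    (by
      classical
      have hord : addOrderOf a = p := addOrderOf_eq_prime (hN.tors a ha) ha0
      have hmem : ∀ n : ℕ, n • a ∈ N := by
        intro n
        induction n with
        | zero => rw [zero_nsmul]; exact hN.zero_mem
        | succ n ih => rw [succ_nsmul]; exact hN.add_mem _ ih _ ha
      have hsub : (Finset.range p).image (fun n => n • a) ⊆ N := by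
        intro x hx
        obtain ⟨n, -, rfl⟩ := Finset.mem_image.mp hx
        exact hmem n
      have hinj : Set.InjOn (fun n : ℕ => n • a) (Finset.range p) := by
        intro x hx y hy hxy
        have h1 : x ≡ y [MOD addOrderOf a] := nsmul_eq_nsmul_iff_modEq.mp hxy
        rw [hord] at h1
        exact Nat.ModEq.eq_of_lt_of_lt h1 (by simpa using hx) (by simpa using hy)
      have heq : (Finset.range p).image (fun n => n • a) = N := by
        refine Finset.eq_of_subset_of_card_le hsub ?_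
        rw [Finset.card_image_of_injOn hinj, Finset.card_range, hN.card]
      rw [← heq] at hb
      obtain ⟨n, hn, hna⟩ := Finset.mem_image.mp hb
      exact ⟨n, Finset.mem_range.mp hn, hna⟩)
  -- linear independence
  have hmemN : ∀ s : ZMod p, (((s • ν : Submodule.torsionBy ℤ (E⁄Qb).Point p)) : (E⁄Qb).Point) ∈ N := by
    intro s
    have h1 : s • ν = s.val • ν := by
      conv_lhs => rw [← ZMod.natCast_zmod_val s]
      exact Nat.cast_smul_eq_nsmul (ZMod p) _ _
    rw [h1]
    have h2 : ((s.val • ν : Submodule.torsionBy ℤ (E⁄Qb).Point p) : (E⁄Qb).Point) = s.val • a := rfl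
    rw [h2]
    induction s.val with
    | zero => rw [zero_nsmul]; exact hN.zero_mem
    | succ n ih => rw [succ_nsmul]; exact hN.add_mem _ ih _ ha
  have hli : LinearIndependent (ZMod p) ![ν, t] := by
    rw [LinearIndependent.pair_iff]
    intro s u hsu
    have hu : u = 0 := by
      by_contra hu
      apply hN.notMem
      have h1 : t = (-(u⁻¹ * s)) • ν := by
        have h2 : u • t = (-s) • ν := by
          rw [neg_smul]; exact eq_neg_of_add_eq_zero_right hsu
        have h3 : u⁻¹ • u • t = u⁻¹ • (-s) • ν := by rw [h2]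
        rw [smul_smul, inv_mul_cancel₀ hu, one_smul, smul_smul] at h3
        rw [h3]; congr 1; ring
      have h4 : ((t : Submodule.torsionBy ℤ (E⁄Qb).Point p) : (E⁄Qb).Point) ∈ N := by
        rw [h1]; exact hmemN _
      exact h4
    rw [hu, zero_smul, add_zero] at hsu
    refine ⟨?_, hu⟩
    by_contra hs
    apply ha0
    have h3 : s⁻¹ • s • ν = 0 := by rw [hsu, smul_zero]
    rw [smul_smul, inv_mul_cancel₀ hs, one_smul] at h3
    exact congrArg Subtype.val h3
  have hfr : Module.finrank (ZMod p) (Submodule.torsionBy ℤ (E⁄Qb).Point p) = 2 :=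
    H87.EC.finrank_torsionBy_rat E hΔ hp.ne_zero hp.ne_one
  let b := basisOfLinearIndependentOfCardEqFinrank hli (by rw [hfr]; simp)
  have hb0 : b 0 = ν := by
    simp [b]
  have hb1 : b 1 = t := by
    simp [b]
  have hζ := hprim b
  rw [hb0, hb1] at hζ
  refine ⟨e ν t, hζ, fun σ hσ => ?_⟩
  rw [← hgal]
  -- σ t = t + k ν
  obtain ⟨k, -, hk⟩ := hmult _ (hN.cofix σ)
  have hσt : σ • t = t + k • ν := by
    apply Subtype.ext
    change σ • T = T + k • a
    rw [hk]; abel
  rcases hσ a ha with h1 | h1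
  · left
    have hσν : σ • ν = ν := Subtype.ext h1
    rw [hσν, hσt, hadd2, hnsmul2, hself, one_pow, mul_one]
  · right
    have hσν : σ • ν = -ν := Subtype.ext h1
    have h2 : e (-ν) ν = 1 := by
      have := hneg1 ν ν
      rwa [hself, mul_one] at this
    rw [hσν, hσt, hadd2, hnsmul2, h2, one_pow, mul_one, hneg1]

/-- Galois over `ℚ`: a root of unity whose trace to the real subfield is rational. -/
lemma false_of_trace_rat {p : ℕ} (hp : p.Prime) (hp5 : 5 ≤ p) {ζ : Qb} (hζ : IsPrimitiveRoot ζ p)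
    {r : ℚ} (hr : ζ + ζ⁻¹ = algebraMap ℚ Qb r) : False := by
  have h0 : ζ ≠ 0 := hζ.ne_zero hp.ne_zero
  have h1 := Polynomial.cyclotomic_eq_minpoly_rat hζ hp.pos
  have h2 : minpoly ℚ ζ ∣ (Polynomial.X ^ 2 - Polynomial.C r * Polynomial.X + 1) := by
    apply minpoly.dvd
    simp only [map_add, map_sub, map_mul, map_pow, Polynomial.aeval_X, Polynomial.aeval_C, map_one,
      ← hr]
    field_simp
    ring
  have hd : (Polynomial.X ^ 2 - Polynomial.C r * Polynomial.X + 1 : Polynomial ℚ).natDegree = 2 := by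
    compute_degree!
  have hne : (Polynomial.X ^ 2 - Polynomial.C r * Polynomial.X + 1 : Polynomial ℚ) ≠ 0 := by
    intro h
    rw [h, Polynomial.natDegree_zero] at hd
    exact absurd hd (by norm_num)
  have h3 := Polynomial.natDegree_le_of_dvd h2 hne
  rw [hd, ← h1, Polynomial.natDegree_cyclotomic, Nat.totient_prime hp] at h3
  omega

theorem Cof.exists_inertia {p : ℕ} (hp : p.Prime) (hp5 : 5 ≤ p) {E : WeierstrassCurve ℚ}
    (hΔ : E.Δ ≠ 0) {N : Finset (E⁄Qb).Point} {T : (E⁄Qb).Point} (hN : Cof p E N T) :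
    ∃ V : ValuationSubring Qb, V.LiesOverPrime p ∧ ∃ σ ∈ V.inertiaSubgroupIn ℚ,
      ¬ ∀ a ∈ N, σ • a = a ∨ σ • a = -a := by
  by_contra hcon
  push Not at hcon
  obtain ⟨ζ, hζ, hact⟩ := hN.zeta hp (by omega) hΔ
  have hζ0 : ζ ≠ 0 := hζ.ne_zero hp.ne_zero
  have := Fact.mk hp
  have key : (MulAction.stabilizer (Qb ≃ₐ[ℚ] Qb) (ζ + ζ⁻¹)) = ⊤ := by
    apply H63.eq_top_of_isOpen_of_inertia_le
    · exact stabilizer_isOpen_of_isIntegral _
    · intro q hq V hV σ hσ
      rw [MulAction.mem_stabilizer_iff]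
      change σ (ζ + ζ⁻¹) = _
      rw [map_add, map_inv₀]
      have h1 : σ ζ = ζ ∨ σ ζ * ζ = 1 := by
        by_cases hqp : q = p
        · subst hqp
          refine hact σ fun a ha => ?_
          by_contra h2
          push Not at h2
          exact absurd (hcon V hV σ hσ) (fun h3 => by
            rcases h3 a ha with h4 | h4
            · exact h2.1 h4
            · exact h2.2 h4)
        · left
          exact (H63.cycloChar_eq_one_iff hζ).mp (H63.cycloChar_eq_one_of_mem_inertia hq hqp hV hσ)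
      rcases h1 with h1 | h1
      · rw [h1]
      · rw [eq_inv_of_mul_eq_one_left h1, inv_inv, add_comm]
  have hfix : ∀ σ : Qb ≃ₐ[ℚ] Qb, σ (ζ + ζ⁻¹) = ζ + ζ⁻¹ := by
    intro σ
    have : σ ∈ MulAction.stabilizer (Qb ≃ₐ[ℚ] Qb) (ζ + ζ⁻¹) := by rw [key]; trivial
    exact this
  have hbot : ζ + ζ⁻¹ ∈ (⊥ : IntermediateField ℚ Qb) :=
    (InfiniteGalois.mem_bot_iff_fixed _).mpr hfix
  obtain ⟨r, hr⟩ := IntermediateField.mem_bot.mp hbot
  exact false_of_trace_rat hp hp5 hζ hr.symm

end Fermat.Agent.H12
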