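import Mathlib
import Fermat.Agent.H12Two
import Fermat.Agent.H12Gal

/-!
# Odd primes: the alternative, and the prime `p`
-/

set_option autoImplicit false

namespace Fermat.Agent.H12

set_option linter.unusedSectionVars false

open WeierstrassCurve WeierstrassCurve.Affine WeierstrassCurve.Affine.Point
open Fermat.Agent.H72

local notation "Qb" => AlgebraicClosure ℚ

variable {p : ℕ} {A B : ℤ} {V : ValuationSubring Qb} {q : ℕ}

lemma val_eq_of_one_le {F Γ₀ : Type*} [Field F] [LinearOrderedCommGroupWithZero Γ₀]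
    {v : Valuation F Γ₀} {a b : F} (h : v (a - b) ≤ 1) (ha : 1 ≤ v a) (hb : 1 ≤ v b) :
    v a = v b := by
  rcases lt_or_ge 1 (v a) with h1 | h1
  · have : b = a + -(a - b) := by ring
    rw [this]
    exact (Valuation.map_add_eq_of_lt_left v (by rw [Valuation.map_neg]; exact h.trans_lt h1)).symm
  · have h2 : v b ≤ 1 := by
      have : b = a + -(a - b) := by ring
      rw [this]
      exact (v.map_add _ _).trans (max_le h1 (by rw [Valuation.map_neg]; exact h))
    exact (le_antisymm h1 ha).trans (le_antisymm hb h2)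

/-- the parameters of a node at an odd prime -/
lemma node_params (h4 : V.valuation (4 : Qb) = 1) {e f g : Qb}
    (hfe : V.valuation (f - e) < 1) (hge : V.valuation (g - e) = 1) (hne : e ≠ f) :
    V.valuation (-4 * ((f - e) + (g - e)) / 1) = 1 ∧
    V.valuation ((f - e) * (g - e) / 1 ^ 2) < 1 ∧ (f - e) * (g - e) / 1 ^ 2 ≠ 0 := by
  refine ⟨?_, ?_, ?_⟩
  · rw [div_one, map_mul, Valuation.map_neg, h4, one_mul, Valuation.map_add_eq_of_lt_right, hge]
    rw [hge]; exact hfe
  · rw [one_pow, div_one, map_mul, hge, mul_one]; exact hfe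
  · rw [one_pow, div_one]
    refine mul_ne_zero (sub_ne_zero.mpr hne.symm) ?_
    intro h0
    rw [h0, _root_.map_zero] at hge
    exact zero_ne_one hge

/-- The alternative at a node over an odd prime. -/
theorem odd_alt {E : WeierstrassCurve ℚ} {N : Finset (E⁄Qb).Point} {T : (E⁄Qb).Point}
    (hp : p.Prime) (hp2 : p ≠ 2) (hN : Cof p E N T)
    {e f g : Qb} (hset : Setup (E⁄Qb) e f g N) (h4 : V.valuation (4 : Qb) = 1)
    (hfe : V.valuation (f - e) < 1) (hge : V.valuation (g - e) = 1) :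
    (nodOf hset.rts 1 one_ne_zero).Missing N p V.valuation ∨
    ∀ a ∈ N, a ≠ 0 → 1 ≤ V.valuation (xN a - e) ∧ 1 ≤ V.valuation (xN a - f) ∧
      1 ≤ V.valuation (xN a - g) := by
  obtain ⟨hb1, hm1, hm0⟩ := node_params h4 hfe hge hset.hef
  rcases (nodOf hset.rts 1 one_ne_zero).miss_or_in hm1 hb1.le hp hN.zero_mem hN.add_mem hN.card
    hN.tors with hmiss | hin
  · exact Or.inl ⟨hm0, hm1, hb1, hp, hp2, hN.zero_mem, hN.add_mem, hN.neg_mem, hN.card, hN.tors,
      hmiss⟩
  · right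
    intro a ha ha0
    have h1 : 1 ≤ V.valuation (xN a - e) := by
      have h1 := hin a ha
      change V.valuation (1 * xD a) ≤ V.valuation (xN a - e * xD a) at h1
      rwa [xD_of_ne ha0, mul_one, mul_one, map_one] at h1
    refine ⟨h1, ?_, ?_⟩
    · have : xN a - f = (xN a - e) + -(f - e) := by ring
      rw [this, Valuation.map_add_eq_of_lt_left]
      · exact h1
      · rw [Valuation.map_neg]; exact hfe.trans_le h1
    · refine one_le_val_sub_root (hset.rts.rot.rot) ?_ ?_ ha0 (hp.odd_of_ne_two hp2) (hN.tors a ha)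
      · rw [← Valuation.map_neg, neg_sub]; exact hge
      · have : f - g = (f - e) + -(g - e) := by ring
        rw [this, Valuation.map_add_eq_of_lt_right, Valuation.map_neg, hge]
        rw [Valuation.map_neg, hge]; exact hfe

/-- good reduction at an odd prime -/
theorem odd_good {E : WeierstrassCurve ℚ} {N : Finset (E⁄Qb).Point} {T : (E⁄Qb).Point}
    (hp : p.Prime) (hp2 : p ≠ 2) (hN : Cof p E N T)
    {e f g : Qb} (hset : Setup (E⁄Qb) e f g N)
    (hfe : V.valuation (f - e) = 1) (hge : V.valuation (g - e) = 1)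
    (hgf : V.valuation (g - f) = 1) :
    ∀ a ∈ N, a ≠ 0 → 1 ≤ V.valuation (xN a - e) ∧ 1 ≤ V.valuation (xN a - f) ∧
      1 ≤ V.valuation (xN a - g) := by
  intro a ha ha0
  have hfe' : V.valuation (e - f) = 1 := by rw [← Valuation.map_neg, neg_sub]; exact hfe
  have hge' : V.valuation (e - g) = 1 := by rw [← Valuation.map_neg, neg_sub]; exact hge
  have hgf' : V.valuation (f - g) = 1 := by rw [← Valuation.map_neg, neg_sub]; exact hgf
  exact ⟨one_le_val_sub_root hset.rts hfe hge ha0 (hp.odd_of_ne_two hp2) (hN.tors a ha),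
    one_le_val_sub_root hset.rts.swap hfe' hgf ha0 (hp.odd_of_ne_two hp2) (hN.tors a ha),
    one_le_val_sub_root hset.rts.rot.rot hge' hgf' ha0 (hp.odd_of_ne_two hp2) (hN.tors a ha)⟩

lemma rat_val {V V' : ValuationSubring Qb} (hq : q.Prime) (hV : V.LiesOverPrime q)
    (hV' : V'.LiesOverPrime q) {r : ℚ} (hr : V.valuation (algebraMap ℚ Qb r) < 1) :
    V'.valuation (algebraMap ℚ Qb r) < 1 := by
  have hrr : algebraMap ℚ Qb r = (r.num : Qb) / ((r.den : ℤ) : Qb) := by
    conv_lhs => rw [← Rat.num_div_den r]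
    rw [map_div₀]
    simp
  have hden0 : ∀ V : ValuationSubring Qb, 0 < V.valuation ((r.den : ℤ) : Qb) := by
    intro V
    rw [zero_lt_iff, Ne, Valuation.zero_iff]
    exact_mod_cast r.den_ne_zero
  have h1 : (q : ℤ) ∣ r.num := by
    by_contra hcon
    rw [hrr, map_div₀, val_intCast_eq_one hq hV hcon, div_lt_one₀ (hden0 V)] at hr
    exact absurd (val_intCast_le (A := V) (r.den : ℤ)) (not_le.mpr hr)
  have h2 : ¬ (q : ℤ) ∣ (r.den : ℤ) := by
    intro h2
    have h3 : q ∣ r.num.natAbs := Int.natCast_dvd.mp h1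
    have h4 : q ∣ r.den := by exact_mod_cast h2
    have := Nat.dvd_gcd h3 h4
    rw [r.reduced] at this
    exact hq.one_lt.ne' (Nat.dvd_one.mp this)
  rw [hrr, map_div₀, val_intCast_eq_one hq hV' h2, div_one]
  obtain ⟨c, hc⟩ := h1
  rw [hc]
  push_cast
  rw [map_mul]
  calc _ ≤ V'.valuation (q : Qb) * 1 := mul_le_mul' le_rfl (val_intCast_le c)
    _ = V'.valuation (q : Qb) := mul_one _
    _ < 1 := val_natCast_lt hV'

/-- inertia preserves units -/
lemma val_inertia_unit {σ : Qb ≃ₐ[ℚ] Qb} (hσ : σ ∈ V.inertiaSubgroupIn ℚ) {a : Qb}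
    (ha : V.valuation a = 1) : V.valuation (σ a) = 1 := by
  have h1 := val_inertia_sub_lt hσ ha.le
  have : σ a = (σ a - a) + a := by ring
  rw [this, Valuation.map_add_eq_of_lt_right, ha]
  rw [ha]; exact h1

lemma inertia_signs {E : WeierstrassCurve ℚ} {N : Finset (E⁄Qb).Point} {T : (E⁄Qb).Point}
    (hN : Cof p E N T) {e f g : Qb} (hset : Setup (E⁄Qb) e f g N)
    (he : ∀ σ : Qb ≃ₐ[ℚ] Qb, σ e = e) (hf : ∀ σ : Qb ≃ₐ[ℚ] Qb, σ f = f)
    (hg : ∀ σ : Qb ≃ₐ[ℚ] Qb, σ g = g)
    (hmiss : (nodOf hset.rts 1 one_ne_zero).Missing N p V.valuation)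
    {σ : Qb ≃ₐ[ℚ] Qb} (hσ : σ ∈ V.inertiaSubgroupIn ℚ) :
    ∀ a ∈ N, σ • a = a ∨ σ • a = -a := by
  intro a ha
  by_cases ha0 : a = 0
  · left; rw [ha0]; rfl
  have hσa : σ • a ∈ N := hN.stable σ a ha
  have hσa0 : σ • a ≠ 0 := by
    intro h0
    apply ha0
    have := congrArg (fun P => σ⁻¹ • P) h0
    simp only [inv_smul_smul] at this
    rw [this]; rfl
  refine hmiss.eq_or_neg hσa ha hσa0 ha0 ?_
  obtain ⟨hx0, -, -, k, hk⟩ := (nodOf hset.rts 1 one_ne_zero).main hmiss.hm0 hmiss.hm hmiss.hb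
    hmiss.hp hmiss.hp2 (hmiss.tors a ha) (hmiss.miss a ha ha0)
  rw [nodOf_x _ _ _ ha0, div_one] at hx0
  rw [nodOf_x _ _ _ ha0, div_one, one_pow, div_one] at hk
  rw [nodOf_x _ _ _ ha0, nodOf_x _ _ _ hσa0, div_one, div_one]
  have hm0 : (f - e) * (g - e) ≠ 0 := by
    have := hmiss.hm0
    rwa [one_pow, div_one] at this
  have h1 : V.valuation ((xN a - e) ^ p / ((f - e) * (g - e)) ^ (2 * k)) = 1 := by
    rw [map_div₀, map_pow, map_pow, hk, div_self]
    exact pow_ne_zero _ ((Valuation.ne_zero_iff _).mpr hm0)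
  have h2 := val_inertia_unit hσ h1
  simp only [map_div₀, map_pow, map_mul, map_sub, he, hf, hg] at h2
  have h3 : V.valuation (σ (xN a) - e) ^ p = V.valuation (xN a - e) ^ p := by
    rw [hk]
    have h4 : (V.valuation (f - e) * V.valuation (g - e)) ^ (2 * k) ≠ 0 := by
      rw [← map_mul]
      exact pow_ne_zero _ ((Valuation.ne_zero_iff _).mpr hm0)
    rw [div_eq_one_iff_eq h4] at h2
    rw [h2, map_mul]
  rw [xN_smul]
  exact (pow_left_inj₀ zero_le zero_le hmiss.hp.ne_zero).mp h3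

/-- The cofixed line is contained in `E₀` at `p`. -/
theorem not_missing_p {E : WeierstrassCurve ℚ} (hΔ : E.Δ ≠ 0)
    {N : Finset (E⁄Qb).Point} {T : (E⁄Qb).Point}
    (hp : p.Prime) (hp5 : 5 ≤ p) (hN : Cof p E N T)
    {e f g : ℤ} (hset : Setup (E⁄Qb) (e : Qb) (f : Qb) (g : Qb) N)
    (hpf : (p : ℤ) ∣ f - e) (hpg : ¬ (p : ℤ) ∣ g - e) (hV : V.LiesOverPrime p) :
    ¬ (nodOf hset.rts 1 one_ne_zero).Missing N p V.valuation := by
  intro hmiss
  obtain ⟨V₀, hV₀, σ, hσ, hno⟩ := hN.exists_inertia hp hp5 hΔ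
  apply hno
  have hfix : ∀ (n : ℤ) (σ : Qb ≃ₐ[ℚ] Qb), σ (n : Qb) = n := fun n σ => map_intCast σ n
  have hval : ∀ V : ValuationSubring Qb, V.LiesOverPrime p →
      V.valuation ((f : Qb) - e) < 1 ∧ V.valuation ((g : Qb) - e) = 1 ∧
      V.valuation (4 : Qb) = 1 := by
    intro V hV
    refine ⟨?_, ?_, ?_⟩
    · obtain ⟨c, hc⟩ := hpf
      have : (f : Qb) - e = (p : Qb) * c := by
        have := congrArg (Int.cast : ℤ → Qb) hc
        push_cast at this
        exact this
      rw [this, map_mul]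
      calc _ ≤ V.valuation (p : Qb) * 1 := mul_le_mul' le_rfl (val_intCast_le c)
        _ = V.valuation (p : Qb) := mul_one _
        _ < 1 := val_natCast_lt hV
    · have := val_intCast_eq_one hp hV hpg
      push_cast at this
      exact this
    · have := val_natCast_eq_one hp hV (n := 4) (by
        intro h
        have h2 : p ∣ 2 ^ 2 := by norm_num; exact h
        have := Nat.le_of_dvd (by norm_num) (hp.dvd_of_dvd_pow h2)
        omega)
      exact_mod_cast this
  obtain ⟨r, hr⟩ := hN.Hp_rat (e := (e : Qb)) (hfix e)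
  have hmem : ∀ V : ValuationSubring Qb, (nodOf hset.rts 1 one_ne_zero).Missing N p V.valuation →
      V.valuation (Hp N (e : Qb)) < 1 := by
    intro V hmiss
    rw [Hp, Setup.map_prod_val']
    have hlt : ∀ a ∈ N.erase 0, V.valuation (xN a - (e : Qb)) < 1 := by
      intro a ha
      have ha' := Finset.mem_erase.mp ha
      have := (nodOf hset.rts 1 one_ne_zero).x_lt_one_of_not_e0 (hmiss.miss a ha'.2 ha'.1)
      rwa [nodOf_x _ _ _ ha'.1, div_one] at this
    obtain ⟨a, ha⟩ : (N.erase 0).Nonempty := by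
      rw [← Finset.card_pos, Finset.card_erase_of_mem hN.zero_mem, hN.card]
      omega
    rw [← Finset.mul_prod_erase _ _ ha]
    have h1 : ∏ x ∈ (N.erase 0).erase a, V.valuation (xN x - (e : Qb)) ≤ 1 :=
      Finset.prod_le_one' fun x hx => (hlt x (Finset.mem_of_mem_erase hx)).le
    calc _ ≤ V.valuation (xN a - (e : Qb)) * 1 := mul_le_mul' le_rfl h1
      _ = _ := mul_one _
      _ < 1 := hlt a ha
  have h1 := hmem V hmiss
  rw [← hr] at h1
  have h2 := rat_val hp hV hV₀ h1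
  obtain ⟨hfe, hge, h4⟩ := hval V₀ hV₀
  rcases odd_alt hp (by omega) hN hset h4 hfe hge with hmiss0 | hin
  · exact inertia_signs hN hset (hfix e) (hfix f) (hfix g) hmiss0 hσ
  · exfalso
    rw [hr, Hp, Setup.map_prod_val'] at h2
    refine absurd h2 (not_lt.mpr ?_)
    exact Finset.one_le_prod' fun a ha =>
      (hin a (Finset.mem_erase.mp ha).2 (Finset.mem_erase.mp ha).1).1

end Fermat.Agent.H12
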