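import Mathlib
import Fermat.Agent.H12Loc

/-!
# Local behaviour of the quotient at a node missed by `N`
-/

set_option autoImplicit false

namespace Fermat.Agent.H12

set_option linter.unusedSectionVars false

open WeierstrassCurve WeierstrassCurve.Affine WeierstrassCurve.Affine.Point
open Fermat.Agent.H72

/-- pairing lemma in an ordered group with zero -/
lemma prod_eq_of_pairing' {ι Γ₀ : Type*} [LinearOrderedCommGroupWithZero Γ₀] (s : Finset ι)
    (τ : ι → ι) (hτ : ∀ a ∈ s, τ a ∈ s) (hττ : ∀ a ∈ s, τ (τ a) = a) (hne : ∀ a ∈ s, τ a ≠ a)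
    (f g : ι → Γ₀) (hg : ∀ a ∈ s, g a ≠ 0) (hfg : ∀ a ∈ s, f a * f (τ a) = g a * g (τ a)) :
    ∏ a ∈ s, f a = ∏ a ∈ s, g a := by
  have h1 : ∏ a ∈ s, (f a / g a) = 1 := by
    refine Finset.prod_involution (fun a _ => τ a) ?_ (fun a ha _ => hne a ha) hτ hττ
    intro a ha
    have h1 := hg a ha
    have h2 := hg _ (hτ a ha)
    rw [div_mul_div_comm, hfg a ha, div_self (mul_ne_zero h1 h2)]
  rw [Finset.prod_div_distrib] at h1
  have h2 : ∏ a ∈ s, g a ≠ 0 := Finset.prod_ne_zero_iff.mpr hg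
  rwa [div_eq_one_iff_eq h2] at h1

namespace Setup

variable {F : Type*} [Field F] [DecidableEq F] {W : Affine F} {e f g : F}
  {N : Finset W.Point} (h : Setup W e f g N)
  {Γ₀ : Type*} [LinearOrderedCommGroupWithZero Γ₀] {v : Valuation F Γ₀} {p : ℕ}

lemma map_prod_val (v : Valuation F Γ₀) {ι : Type*} (s : Finset ι) (F' : ι → F) :
    v (∏ a ∈ s, F' a) = ∏ a ∈ s, v (F' a) := by
  classical
  induction s using Finset.induction_on with
  | empty => simp
  | insert a s ha ih => rw [Finset.prod_insert ha, Finset.prod_insert ha, map_mul, ih]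

include h in
/-- valuations of the constants, at a node `e ≡ f` missed by `N`. -/
lemma val_Hp (hmiss : (nodOf h.rts 1 one_ne_zero).Missing N p v) (hfe : v (f - e) < 1)
    (hge : v (g - e) = 1) :
    v (Hp N f) = v (Hp N e) ∧ v (Hp N g) = 1 ∧
    v (Hp N e) ^ p = v (f - e) ^ ((p ^ 2 - 1) / 2) ∧ 0 < v (Hp N e) := by
  have hm : v ((f - e) * (g - e) / 1 ^ 2) = v (f - e) := by
    rw [one_pow, div_one, map_mul, hge, mul_one]
  have hx : ∀ a ∈ N.erase 0, (nodOf h.rts 1 one_ne_zero).x a = xN a - e := by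
    intro a ha
    rw [nodOf_x _ _ _ (Finset.mem_erase.mp ha).1, div_one]
  have hval : ∀ a ∈ N.erase 0, v (f - e) < v (xN a - e) ∧ v (xN a - e) < 1 := by
    intro a ha
    have ha' := Finset.mem_erase.mp ha
    obtain ⟨-, h1, h2, -⟩ := (nodOf h.rts 1 one_ne_zero).main hmiss.hm0 hmiss.hm hmiss.hb hmiss.hp
      hmiss.hp2 (hmiss.tors a ha'.2) (hmiss.miss a ha'.2 ha'.1)
    rw [hx a ha] at h1 h2
    rw [hm] at h1
    exact ⟨h1, h2⟩
  have h1 : v (Hp N f) = v (Hp N e) := by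
    rw [Hp, Hp, map_prod_val, map_prod_val]
    refine Finset.prod_congr rfl fun a ha => ?_
    rw [show xN a - f = (xN a - e) + -(f - e) by ring]
    exact Valuation.map_add_eq_of_lt_left v (by rw [Valuation.map_neg]; exact (hval a ha).1)
  have h2 : v (Hp N g) = 1 := by
    rw [Hp, map_prod_val]
    refine Finset.prod_eq_one fun a ha => ?_
    rw [show xN a - g = (xN a - e) + -(g - e) by ring, Valuation.map_add_eq_of_lt_right v,
      Valuation.map_neg, hge]
    rw [Valuation.map_neg, hge]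
    exact (hval a ha).2
  refine ⟨h1, h2, ?_, zero_lt_iff.mpr ((Valuation.ne_zero_iff v).mpr h.Hp_ne_zero)⟩
  have h3 := hmiss.prod_val
  rw [hm] at h3
  rw [← h3, Hp, map_prod_val]
  congr 1
  refine Finset.prod_congr rfl fun a ha => ?_
  rw [hx a ha]

include h in
lemma quot_local (hmiss : (nodOf h.rts 1 one_ne_zero).Missing N p v) (hfe : v (f - e) < 1)
    (hge : v (g - e) = 1) {P : W.Point} (hP : p • P = 0) (hPN : P ∉ N) :
    v h.EE < v h.swap'.EE ∧ v h.swap'.EE ≤ v (h.XX P) := by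
  obtain ⟨h1, h2, h3, h4⟩ := h.val_Hp hmiss hfe hge
  have hp0 : p ≠ 0 := hmiss.hp.ne_zero
  have hfe0 : 0 < v (f - e) := zero_lt_iff.mpr ((Valuation.ne_zero_iff v).mpr
    (sub_ne_zero.mpr h.hef.symm))
  have hE : v h.EE = v (f - e) ^ p := by
    unfold EE
    rw [map_mul, map_pow, map_pow, h2, one_pow, mul_one, hmiss.card]
  have hE' : v h.swap'.EE = v (Hp N e) ^ 2 := by
    unfold EE
    rw [map_mul, map_pow, map_pow, hge, one_pow, one_mul, h1]
  have hodd : Odd p := hmiss.hp.odd_of_ne_two hmiss.hp2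
  constructor
  · rw [hE, hE']
    refine lt_of_pow_lt_pow_left₀ p zero_le ?_
    rw [← pow_mul, ← pow_mul, mul_comm 2 p, pow_mul (v (Hp N e)), h3, ← pow_mul]
    refine pow_lt_pow_right_of_lt_one₀ hfe0 hfe ?_
    obtain ⟨r, hr⟩ := hodd
    rw [hr]
    have e2 : (2 * r + 1) ^ 2 - 1 = 2 * (2 * (r * (r + 1))) := by
      rw [Nat.sub_eq_iff_eq_add (Nat.one_le_pow _ _ (by omega))]; ring
    rw [e2, Nat.mul_div_cancel_left _ (by norm_num : 0 < 2)]
    nlinarith
  · obtain ⟨a, ha, haE⟩ := hmiss.exists_e0 hP hPN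
    rw [← h.XX_add P ha]
    have hPa : P + a ∉ N := fun hh => hPN ((h.add_mem_iff ha).mp hh)
    obtain ⟨Q, hQ⟩ : ∃ Q, Q = P + a := ⟨_, rfl⟩
    rw [← hQ] at hPa haE ⊢
    have hQ0 := h.ne_zero_of_not_mem hPa
    have hxQ : 1 ≤ v (xN Q - e) := by
      change v (1 * xD Q) ≤ v (xN Q - e * xD Q) at haE
      rwa [xD_of_ne hQ0, mul_one, mul_one, map_one] at haE
    have hprod : ∏ ν ∈ N.erase 0, v (xN (Q + ν) - e) = ∏ ν ∈ N.erase 0, v (xN ν - e) := by
      refine prod_eq_of_pairing' (N.erase 0) (fun ν => -ν) (fun ν hν => h.neg_mem_erase hν)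
        (fun ν _ => neg_neg ν) (fun ν hν => h.neg_ne_self hν) _ _ ?_ ?_
      · intro ν hν
        have hν' := Finset.mem_erase.mp hν
        exact (Valuation.ne_zero_iff v).mpr (sub_ne_zero.mpr (h.rts.x_ne_of_ne_T h.nsT hν'.1
          (h.ne_T_of_mem hν'.2)))
      · intro ν hν
        have hν' := Finset.mem_erase.mp hν
        have hS : Q + ν ≠ 0 := h.add_ne_zero hPa hν'.2
        have hD : Q - ν ≠ 0 := by
          rw [sub_eq_add_neg]; exact h.add_ne_zero hPa (h.neg_mem _ hν'.2)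
        obtain ⟨-, g1, g2, -⟩ := (nodOf h.rts 1 one_ne_zero).main hmiss.hm0 hmiss.hm hmiss.hb hmiss.hp
          hmiss.hp2 (hmiss.tors ν hν'.2) (hmiss.miss ν hν'.2 hν'.1)
        have key := (nodOf h.rts 1 one_ne_zero).x_mul_of_e0 (v := v) (P := Q) (Q := ν)
          (by rw [nodOf_x _ _ _ hQ0, div_one]; exact hxQ) g2 g1 hQ0 hν'.1 hS hD
        rw [nodOf_x _ _ _ hS, nodOf_x _ _ _ hD, nodOf_x _ _ _ hν'.1, div_one, div_one, div_one] at key
        rw [← sub_eq_add_neg, key, xN_neg, sq]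
    have hXX : v (h.XX Q) = v (Hp N e) ^ 2 * v (xN Q - e) := by
      unfold XX Rp
      rw [map_mul, map_mul, h1, h2, mul_one, ← Finset.mul_prod_erase N _ h.zero_mem, add_zero,
        map_mul, map_prod_val, hprod, Hp, map_prod_val]
      rw [mul_comm (v (xN Q - e)), ← mul_assoc, sq]
    rw [hXX, hE']
    exact le_mul_of_one_le_right' hxQ

end Setup

end Fermat.Agent.H12
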