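import Mathlib
import Fermat.Agent.H12Two
import Fermat.Prelude.Def_EllipticCurve_ZeroComponentAt

/-!
# The zero component: criterion, and the counting argument at small primes
-/

set_option autoImplicit false

namespace Fermat.Agent.H12

open WeierstrassCurve WeierstrassCurve.Affine WeierstrassCurve.Affine.Point
open Fermat.Agent.H72 Fermat.Agent.H59

local notation "Qb" => AlgebraicClosure ℚ

variable {V : ValuationSubring Qb} {q : ℕ}

lemma exists_reduces_of_inZero {W : WeierstrassCurve ℤ}
    {P : ((W.map (Int.castRingHom ℚ))⁄Qb).Point} (h : W.InZeroComponentAt V P) :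
    ∃ P' : (W.map (Int.castRingHom (IsLocalRing.ResidueField V))).toAffine.Point,
      Reduces V (IsLocalRing.residue V) P P' := by
  rcases h with rfl | ⟨x, y, h, rfl, hx | ⟨hx, hy, hns⟩⟩
  · exact ⟨0, trivial⟩
  · exact ⟨0, hx⟩
  · exact ⟨Point.some _ _ hns, ⟨x, hx⟩, ⟨y, hy⟩, rfl, rfl, rfl, rfl⟩

/-- residues of rational numbers are in the prime field -/
lemma residue_rat (hq : q.Prime) (hV : V.LiesOverPrime q) {r : ℚ} (hr : algebraMap ℚ Qb r ∈ V) :
    ∃ i < q, IsLocalRing.residue V ⟨algebraMap ℚ Qb r, hr⟩ = (i : IsLocalRing.ResidueField V) := by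
  have hrr : algebraMap ℚ Qb r = (r.num : Qb) / ((r.den : ℤ) : Qb) := by
    conv_lhs => rw [← Rat.num_div_den r]
    rw [map_div₀]
    simp
  have hden0 : 0 < V.valuation ((r.den : ℤ) : Qb) := by
    rw [zero_lt_iff, Ne, Valuation.zero_iff]
    exact_mod_cast r.den_ne_zero
  have hqd : ¬ (q : ℤ) ∣ (r.den : ℤ) := by
    intro h2
    have h1 : ¬ (q : ℤ) ∣ r.num := by
      intro h1
      have h3 : q ∣ r.num.natAbs := Int.natCast_dvd.mp h1
      have h4 : q ∣ r.den := by exact_mod_cast h2
      have := Nat.dvd_gcd h3 h4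
      rw [r.reduced] at this
      exact hq.one_lt.ne' (Nat.dvd_one.mp this)
    rw [← V.valuation_le_one_iff, hrr, map_div₀, val_intCast_eq_one hq hV h1,
      div_le_one₀ hden0] at hr
    obtain ⟨c, hc⟩ := h2
    rw [hc] at hr
    push_cast at hr
    rw [map_mul] at hr
    have : V.valuation (q : Qb) * V.valuation (c : Qb) < 1 :=
      calc _ ≤ V.valuation (q : Qb) * 1 := mul_le_mul' le_rfl (val_intCast_le c)
        _ = V.valuation (q : Qb) := mul_one _
        _ < 1 := val_natCast_lt hV
    exact absurd hr (not_le.mpr this)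
  have hcop : IsCoprime (r.den : ℤ) (q : ℤ) := by
    rw [isCoprime_comm, Prime.coprime_iff_not_dvd (Nat.prime_iff_prime_int.mp hq)]
    exact hqd
  obtain ⟨c, e, hce⟩ := hcop
  have hq0 : (q : ℤ) ≠ 0 := by exact_mod_cast hq.ne_zero
  have hqpos : 0 < (q : ℤ) := by exact_mod_cast hq.pos
  refine ⟨((r.num * c) % q).toNat, ?_, ?_⟩
  · have h1 := Int.emod_lt_of_pos (r.num * c) hqpos
    have h2 := Int.emod_nonneg (r.num * c) hq0
    omega
  · have hqk : ((q : ℤ) : IsLocalRing.ResidueField V) = 0 := by
      have := natCast_residue_eq_zero hV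
      exact_mod_cast this
    have h1 : (((r.num * c) % q).toNat : IsLocalRing.ResidueField V) =
        ((r.num * c : ℤ) : IsLocalRing.ResidueField V) := by
      have h2 : ((((r.num * c) % q).toNat : ℤ) : IsLocalRing.ResidueField V) =
          (((r.num * c) % q : ℤ) : IsLocalRing.ResidueField V) := by
        rw [Int.toNat_of_nonneg (Int.emod_nonneg _ hq0)]
      rw [Int.cast_natCast] at h2
      rw [h2]
      conv_rhs => rw [← Int.mul_ediv_add_emod (r.num * c) q]
      rw [Int.cast_add, Int.cast_mul, hqk, zero_mul, zero_add]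
    rw [h1]
    obtain ⟨a, ha⟩ : ∃ a : V, a = ⟨algebraMap ℚ Qb r, hr⟩ := ⟨_, rfl⟩
    rw [← ha]
    have h3 : a * (((r.den : ℤ) : V)) = ((r.num : ℤ) : V) := by
      apply Subtype.ext
      rw [ha]
      push_cast
      rw [hrr]
      have : ((r.den : ℤ) : Qb) ≠ 0 := by exact_mod_cast r.den_ne_zero
      push_cast at this ⊢
      field_simp
    have h4 := congrArg (IsLocalRing.residue V) h3
    rw [map_mul, map_intCast, map_intCast] at h4
    have h5 : ((c * (r.den : ℤ) + e * (q : ℤ) : ℤ) : IsLocalRing.ResidueField V) = 1 := by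
      rw [hce]; simp
    rw [Int.cast_add, Int.cast_mul, Int.cast_mul, hqk, mul_zero, add_zero] at h5
    rw [Int.cast_mul, ← h4]
    linear_combination (-(IsLocalRing.residue V a)) * h5

/-- coordinates of a point -/
def crd {k : Type*} [Field k] {E : Affine k} (P : E.Point) : k × k :=
  match P with
  | .zero => (0, 0)
  | .some x y _ => (x, y)

lemma crd_inj {k : Type*} [Field k] {E : Affine k} {P Q : E.Point} (hP : P ≠ 0) (hQ : Q ≠ 0)
    (h : crd P = crd Q) : P = Q := by
  rcases P with _ | ⟨x, y, hP'⟩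
  · exact absurd rfl hP
  rcases Q with _ | ⟨x', y', hQ'⟩
  · exact absurd rfl hQ
  simp only [crd, Prod.mk.injEq] at h
  obtain ⟨rfl, rfl⟩ := h
  rfl

/-- **Counting**: a rational point of order `p > q²+1` does not reduce to a nonsingular point. -/
theorem not_reduces {p : ℕ} (hp : p.Prime) (hq : q.Prime) (hpq : q ^ 2 + 1 < p)
    (hV : V.LiesOverPrime q) {W : WeierstrassCurve ℤ}
    {Q : ((W.map (Int.castRingHom ℚ))⁄Qb).Point}
    (hfix : ∀ σ : Qb ≃ₐ[ℚ] Qb, σ • Q = Q) (hord : addOrderOf Q = p)
    (P' : (W.map (Int.castRingHom (IsLocalRing.ResidueField V))).toAffine.Point)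
    (hred : Reduces V (IsLocalRing.residue V) Q P') : False := by
  classical
  have hqp : ¬ q ∣ p := by
    intro h
    rw [Nat.prime_dvd_prime_iff_eq hq hp] at h
    subst h
    nlinarith [hq.two_le]
  have hpk : ((p : ℕ) : IsLocalRing.ResidueField V) ≠ 0 := natCast_residue_ne_zero hq hV hqp
  have hpQ : p • Q = 0 := by rw [← hord]; exact addOrderOf_nsmul_eq_zero Q
  have hmul : ∀ n : ℕ, Reduces V (IsLocalRing.residue V) (n • Q) (n • P') := fun n =>
    hred.nsmul (model_map rfl) (model_residue _) n
  have hne : ∀ n : ℕ, 0 < n → n < p → n • Q ≠ 0 := by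
    intro n h1 h2 h0
    have := addOrderOf_dvd_of_nsmul_eq_zero h0
    rw [hord] at this
    exact absurd (Nat.le_of_dvd h1 this) (not_le.mpr h2)
  have htor : ∀ n : ℕ, p • n • Q = 0 := by
    intro n; rw [← mul_nsmul, mul_comm, mul_nsmul, hpQ, nsmul_zero]
  have hfixn : ∀ (n : ℕ) (σ : Qb ≃ₐ[ℚ] Qb), σ • (n • Q) = n • Q := by
    intro n σ
    rw [algEquiv_smul_def, map_nsmul, ← algEquiv_smul_def, hfix]
  have hne' : ∀ n : ℕ, 0 < n → n < p → n • P' ≠ 0 := by
    intro n h1 h2 h0
    have h3 := hmul n
    rw [h0] at h3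
    exact hne n h1 h2 (eq_zero_of_nsmul_eq_zero (model_map rfl) h3 hpk (htor n))
  let S : Finset (IsLocalRing.ResidueField V) := (Finset.range q).image (fun i : ℕ => (i : _))
  have hS : S.card ≤ q := by
    refine Finset.card_image_le.trans ?_
    rw [Finset.card_range]
  have hmem : ∀ n ∈ Finset.Ioo 0 p, crd (n • P') ∈ S ×ˢ S := by
    intro n hn
    rw [Finset.mem_Ioo] at hn
    have h3 := hmul n
    have h4 := hfixn n
    have h5 := hne' n hn.1 hn.2
    have h6 := hne n hn.1 hn.2
    generalize n • Q = R at h3 h4 h6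
    generalize n • P' = R' at h3 h5
    rcases R with _ | ⟨x, y, hR⟩
    · exact absurd rfl h6
    rcases R' with _ | ⟨x', y', hR'⟩
    · exact absurd rfl h5
    obtain ⟨a, b, rfl, rfl, rfl, rfl⟩ := h3
    have hxy : ∀ σ : Qb ≃ₐ[ℚ] Qb, σ (a : Qb) = a ∧ σ (b : Qb) = b := by
      intro σ
      obtain ⟨h', e⟩ := smul_some σ hR
      have := h4 σ
      rw [e, Point.some.injEq] at this
      exact this
    obtain ⟨r, hr⟩ := exists_rat_of_fixed (fun σ => (hxy σ).1)
    obtain ⟨s, hs⟩ := exists_rat_of_fixed (fun σ => (hxy σ).2)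
    rw [Finset.mem_product]
    constructor
    · obtain ⟨i, hi, hi2⟩ := residue_rat hq hV (r := r) (by rw [hr]; exact a.2)
      refine Finset.mem_image.mpr ⟨i, Finset.mem_range.mpr hi, ?_⟩
      rw [← hi2]
      change _ = IsLocalRing.residue V a
      congr 1
      exact Subtype.ext hr
    · obtain ⟨i, hi, hi2⟩ := residue_rat hq hV (r := s) (by rw [hs]; exact b.2)
      refine Finset.mem_image.mpr ⟨i, Finset.mem_range.mpr hi, ?_⟩
      rw [← hi2]
      change _ = IsLocalRing.residue V b
      congr 1
      exact Subtype.ext hs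
  have hinj : Set.InjOn (fun n : ℕ => crd (n • P')) (Finset.Ioo 0 p) := by
    intro n hn n' hn' h
    simp only [Finset.coe_Ioo, Set.mem_Ioo] at hn hn'
    have h1 : n • P' = n' • P' := crd_inj (hne' n hn.1 hn.2) (hne' n' hn'.1 hn'.2) h
    have h2 := hmul n
    rw [h1] at h2
    have h3 : n • Q = n' • Q := eq_of_reduces_of_nsmul_eq_zero (model_map rfl) (model_residue _)
      h2 (hmul n') hpk (htor n) (htor n')
    have h4 : n ≡ n' [MOD addOrderOf Q] := nsmul_eq_nsmul_iff_modEq.mp h3
    rw [hord] at h4
    exact Nat.ModEq.eq_of_lt_of_lt h4 hn.2 hn'.2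
  have hcard := Finset.card_le_card_of_injOn _ hmem hinj
  rw [Finset.card_product, Nat.card_Ioo] at hcard
  have h1 : S.card * S.card ≤ q * q := Nat.mul_le_mul hS hS
  have h2 : p - 0 - 1 ≤ q * q := hcard.trans h1
  have h3 : q ^ 2 = q * q := sq q
  omega

lemma residue_eq_zero_iff_val (a : V) :
    IsLocalRing.residue V a = 0 ↔ V.valuation (a : Qb) < 1 := by
  rw [IsLocalRing.residue_eq_zero_iff]
  exact (V.valuation_lt_one_iff a)

/-- Criterion for membership in the zero component, at an odd prime. -/
theorem inZero_of {A B : ℤ} (hG : Good A B) (hq : q.Prime) (hq2 : q ≠ 2) (hV : V.LiesOverPrime q)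
    {P : (((Mc A B).map (Int.castRingHom ℚ))⁄Qb).Point} {e f g : Qb}
    (hrts : Rts ((Xc A B)⁄Qb) e f g) (hP : P ≠ 0)
    (he : V.valuation e ≤ 1) (hf : V.valuation f ≤ 1) (hg : V.valuation g ≤ 1)
    (h1 : 1 ≤ V.valuation (xN (ptM hG P) - e)) (h2 : 1 ≤ V.valuation (xN (ptM hG P) - f)) :
    (Mc A B).InZeroComponentAt V P := by
  rcases P with _ | ⟨x, y, hxy⟩
  · exact absurd rfl hP
  right
  refine ⟨x, y, hxy, rfl, ?_⟩
  by_cases hx : x ∈ V
  · right
    obtain ⟨h', e1⟩ := ptM_some hG hxy
    rw [e1, xN_some] at h1 h2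
    have hy : y ∈ V := y_mem (E := (Mc A B).map (Int.castRingHom V)) (model_map rfl) hxy.1 hx
    refine ⟨hx, hy, ?_⟩
    have hv4 : V.valuation (4 : Qb) = 1 := by
      have := val_natCast_eq_one hq hV (n := 4) (by
        intro h
        have h2 : q ∣ 2 ^ 2 := by norm_num; exact h
        exact hq2 ((Nat.prime_dvd_prime_iff_eq hq Nat.prime_two).mp (hq.dvd_of_dvd_pow h2)))
      exact_mod_cast this
    have hv2 : V.valuation (2 : Qb) = 1 := by
      have := val_natCast_eq_one hq hV (n := 2) (by
        intro h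
        exact hq2 ((Nat.prime_dvd_prime_iff_eq hq Nat.prime_two).mp h))
      exact_mod_cast this
    have hrel := hxy.1
    rw [equation_iff] at hrel
    obtain ⟨a, ha⟩ : ∃ a : V, a = ⟨x, hx⟩ := ⟨_, rfl⟩
    obtain ⟨b, hb⟩ : ∃ b : V, b = ⟨y, hy⟩ := ⟨_, rfl⟩
    rw [← ha, ← hb]
    have hax : (a : Qb) = x := by rw [ha]
    have hby : (b : Qb) = y := by rw [hb]
    have ea1 : ((Mc A B).map (Int.castRingHom V)).a₁ = 1 := by
      change (Int.castRingHom V) 1 = 1; simp
    have ea3 : ((Mc A B).map (Int.castRingHom V)).a₃ = 0 := by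
      change (Int.castRingHom V) 0 = 0; simp
    have ea6 : ((Mc A B).map (Int.castRingHom V)).a₆ = 0 := by
      change (Int.castRingHom V) 0 = 0; simp
    have ea2 : ((Mc A B).map (Int.castRingHom V)).a₂ = ((Mc A B).a₂ : V) := by simp
    have ea4 : ((Mc A B).map (Int.castRingHom V)).a₄ = ((Mc A B).a₄ : V) := by simp
    have hV1 : b ^ 2 + a * b = a ^ 3 + ((Mc A B).a₂ : V) * a ^ 2 + ((Mc A B).a₄ : V) * a := by
      apply Subtype.ext
      push_cast
      rw [hax, hby]
      have e1 : (((Mc A B).map (Int.castRingHom ℚ))⁄Qb).a₁ = 1 := by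
        change algebraMap ℚ Qb ((Int.castRingHom ℚ) 1) = 1; simp
      have e3 : (((Mc A B).map (Int.castRingHom ℚ))⁄Qb).a₃ = 0 := by
        change algebraMap ℚ Qb ((Int.castRingHom ℚ) 0) = 0; simp
      have e6 : (((Mc A B).map (Int.castRingHom ℚ))⁄Qb).a₆ = 0 := by
        change algebraMap ℚ Qb ((Int.castRingHom ℚ) 0) = 0; simp
      have e2 : (((Mc A B).map (Int.castRingHom ℚ))⁄Qb).a₂ = ((Mc A B).a₂ : Qb) := by
        change algebraMap ℚ Qb ((Int.castRingHom ℚ) (Mc A B).a₂) = _; simp
      have e4 : (((Mc A B).map (Int.castRingHom ℚ))⁄Qb).a₄ = ((Mc A B).a₄ : Qb) := by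
        change algebraMap ℚ Qb ((Int.castRingHom ℚ) (Mc A B).a₄) = _; simp
      rw [e1, e2, e3, e4, e6] at hrel
      linear_combination hrel
    rw [nonsingular_iff']
    constructor
    · rw [equation_iff]
      have := congrArg (IsLocalRing.residue V) hV1
      simp only [map_add, map_mul, map_pow, map_intCast] at this
      simp only [Mc, WeierstrassCurve.map_a₁, WeierstrassCurve.map_a₂, WeierstrassCurve.map_a₃,
        WeierstrassCurve.map_a₄, WeierstrassCurve.map_a₆, eq_intCast, Int.cast_one, Int.cast_zero]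
      simp only [Mc] at this
      linear_combination this
    · by_contra hcon
      push Not at hcon
      obtain ⟨c1, c2⟩ := hcon
      have d2 : V.valuation (2 * y + x) < 1 := by
        have : IsLocalRing.residue V (2 * b + a) = 0 := by
          simp only [map_add, map_mul, map_ofNat]
          simp only [Mc, WeierstrassCurve.map_a₁, WeierstrassCurve.map_a₃, eq_intCast, Int.cast_one,
            Int.cast_zero] at c2
          linear_combination c2
        rw [residue_eq_zero_iff_val] at this
        push_cast at this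
        rw [hax, hby] at this
        exact_mod_cast this
      have d1 : V.valuation (y - (3 * x ^ 2 + 2 * ((Mc A B).a₂ : Qb) * x + ((Mc A B).a₄ : Qb))) < 1 := by
        have : IsLocalRing.residue V (b - (3 * a ^ 2 + 2 * ((Mc A B).a₂ : V) * a +
            ((Mc A B).a₄ : V))) = 0 := by
          simp only [map_add, map_sub, map_mul, map_pow, map_ofNat, map_intCast]
          simp only [Mc, WeierstrassCurve.map_a₁, WeierstrassCurve.map_a₂, WeierstrassCurve.map_a₄,
            eq_intCast, Int.cast_one] at c1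
          simp only [Mc]
          linear_combination c1
        rw [residue_eq_zero_iff_val] at this
        push_cast at this
        rw [hax, hby] at this
        exact_mod_cast this
      have t2 : 4 * ((Mc A B).a₂ : Qb) = B - 1 - A := by exact_mod_cast hG.a₂_mul
      have t4 : 16 * ((Mc A B).a₄ : Qb) = -A * B := by exact_mod_cast hG.a₄_mul
      have s2 : (e + f + g : Qb) = A - B := by
        have := hrts.a2
        change algebraMap ℚ Qb ((B : ℚ) - A) = _ at this
        simp only [map_sub, map_intCast] at this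
        linear_combination this
      have s4 : (e * f + e * g + f * g : Qb) = -(A * B) := by
        have := hrts.a4
        change algebraMap ℚ Qb (-((A : ℚ) * B)) = _ at this
        simp only [map_neg, map_mul, map_intCast] at this
        linear_combination (-1) * this
      have s6 : (e * f * g : Qb) = 0 := by
        have := hrts.a6
        change algebraMap ℚ Qb 0 = _ at this
        rw [_root_.map_zero] at this
        linear_combination this
      have idn : (4 * x - e) * (4 * x - f) + (4 * x - g) * (8 * x - e - f) =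
          8 * ((2 * y + x) - 2 * (y - (3 * x ^ 2 + 2 * ((Mc A B).a₂ : Qb) * x
            + ((Mc A B).a₄ : Qb)))) := by
        linear_combination (-8 * x) * s2 + s4 - 8 * x * t2 - t4
      have idP : (4 * x - e) * (4 * x - f) * (4 * x - g) = 16 * (2 * y + x) ^ 2 := by
        have hV2 := congrArg (Subtype.val) hV1
        push_cast at hV2
        rw [hax, hby] at hV2
        have hV3 : y ^ 2 + x * y = x ^ 3 + ((Mc A B).a₂ : Qb) * x ^ 2 + ((Mc A B).a₄ : Qb) * x := by
          exact_mod_cast hV2
        linear_combination (-16 * x ^ 2) * s2 + 4 * x * s4 - s6 - 64 * hV3 - 16 * x ^ 2 * t2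
          - 4 * x * t4
      have hv8 : V.valuation (8 : Qb) ≤ 1 := by
        have := val_intCast_le (A := V) 8
        exact_mod_cast this
      have hxv : V.valuation x ≤ 1 := (V.valuation_le_one_iff x).mpr hx
      have hd : V.valuation ((4 * x - e) * (4 * x - f) + (4 * x - g) * (8 * x - e - f)) < 1 := by
        rw [idn, map_mul]
        have : V.valuation ((2 * y + x) - 2 * (y - (3 * x ^ 2 + 2 * ((Mc A B).a₂ : Qb) * x
            + ((Mc A B).a₄ : Qb)))) < 1 := by
          refine (V.valuation.map_sub _ _).trans_lt (max_lt d2 ?_)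
          rw [map_mul, hv2, one_mul]; exact d1
        exact lt_of_le_of_lt (mul_le_mul' hv8 le_rfl) (by rw [one_mul]; exact this)
      have hPv : V.valuation ((4 * x - e) * (4 * x - f) * (4 * x - g)) < 1 := by
        rw [idP, map_mul, map_pow]
        have h16 : V.valuation (16 : Qb) ≤ 1 := by
          have := val_intCast_le (A := V) 16
          exact_mod_cast this
        exact lt_of_le_of_lt (mul_le_mul' h16 le_rfl) (by
          rw [one_mul]; exact pow_lt_one₀ zero_le d2 two_ne_zero)
      have hef : 1 ≤ V.valuation ((4 * x - e) * (4 * x - f)) := by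
        rw [map_mul]; exact one_le_mul h1 h2
      have hgv : V.valuation (4 * x - g) < 1 := by
        by_contra hge
        push Not at hge
        rw [map_mul] at hPv
        exact absurd hPv (not_lt.mpr (one_le_mul hef hge))
      have h8 : V.valuation (8 * x - e - f) ≤ 1 := by
        refine (V.valuation.map_sub _ _).trans (max_le ((V.valuation.map_sub _ _).trans
          (max_le ?_ he)) hf)
        rw [map_mul]; exact mul_le_one' hv8 hxv
      have hlast : V.valuation ((4 * x - e) * (4 * x - f)) < 1 := by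
        have : (4 * x - e) * (4 * x - f) = ((4 * x - e) * (4 * x - f) + (4 * x - g) * (8 * x - e - f))
          - (4 * x - g) * (8 * x - e - f) := by ring
        rw [this]
        refine (V.valuation.map_sub _ _).trans_lt (max_lt hd ?_)
        rw [map_mul]
        exact lt_of_le_of_lt (mul_le_mul' le_rfl h8) (by rw [mul_one]; exact hgv)
      exact absurd hef (not_le.mpr hlast)
  · left; exact hx

end Fermat.Agent.H12
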