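import Mathlib
import Fermat.Agent.H12Odd
import Fermat.Agent.H12Norm
import Fermat.Agent.H12Zero
import Fermat.Agent.H12Quot
import Fermat.Agent.H4FreySemistable

/-!
# S15 ⇒ S12
-/

set_option autoImplicit false

namespace Fermat.Agent.H12

open WeierstrassCurve WeierstrassCurve.Affine WeierstrassCurve.Affine.Point
open Fermat.Agent.H72

local notation "Qb" => AlgebraicClosure ℚ

/-- The statement of S15. -/
def S15Statement : Prop :=
  ∀ {p : ℕ} (_ : p.Prime) (_ : p ∉ ({2, 3, 5, 7, 13} : Finset ℕ))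
    (W : WeierstrassCurve ℤ) (_ : W.Δ ≠ 0)
    (Q : ((W.map (Int.castRingHom ℚ))⁄(AlgebraicClosure ℚ)).Point)
    (_ : ∀ σ : AlgebraicClosure ℚ ≃ₐ[ℚ] AlgebraicClosure ℚ, σ • Q = Q)
    (_ : addOrderOf Q = p)
    (_ : (2 : ℤ) ∣ W.Δ) (_ : ¬ (2 : ℤ) ∣ W.c₄)
    (_ : ∀ A : ValuationSubring (AlgebraicClosure ℚ), A.LiesOverPrime 2 → ¬ W.InZeroComponentAt A Q)
    (_ : (3 : ℤ) ∣ W.Δ) (_ : ¬ (3 : ℤ) ∣ W.c₄)
    (_ : ∀ A : ValuationSubring (AlgebraicClosure ℚ), A.LiesOverPrime 3 → ¬ W.InZeroComponentAt A Q)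
    {ℓ : ℕ} (_ : ℓ.Prime) (_ : ℓ ≠ p) (_ : (ℓ : ℤ) ∣ W.Δ) (_ : ¬ (ℓ : ℤ) ∣ W.c₄)
    (A : ValuationSubring (AlgebraicClosure ℚ)) (_ : A.LiesOverPrime ℓ),
    ¬ W.InZeroComponentAt A Q

variable {p : ℕ} {A B : ℤ}

lemma Good.not_dvd_c₄ (h : Good A B) {q : ℕ} (hq : q.Prime) (hd : (q : ℤ) ∣ A * B * (A + B)) :
    ¬ (q : ℤ) ∣ (Mc A B).c₄ := by
  have hqp : Prime (q : ℤ) := Nat.prime_iff_prime_int.mp hq
  rw [h.c₄_eq]
  intro hc
  have key : (q : ℤ) ∣ A ∧ (q : ℤ) ∣ B := by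
    rcases hqp.dvd_or_dvd hd with h1 | h1
    · rcases hqp.dvd_or_dvd h1 with h2 | h2
      · refine ⟨h2, ?_⟩
        have h3 : (q : ℤ) ∣ B ^ 2 := by
          have : B ^ 2 = (A ^ 2 + A * B + B ^ 2) - A * (A + B) := by ring
          rw [this]; exact dvd_sub hc (dvd_mul_of_dvd_left h2 _)
        exact hqp.dvd_of_dvd_pow h3
      · refine ⟨?_, h2⟩
        have h3 : (q : ℤ) ∣ A ^ 2 := by
          have : A ^ 2 = (A ^ 2 + A * B + B ^ 2) - B * (A + B) := by ring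
          rw [this]; exact dvd_sub hc (dvd_mul_of_dvd_left h2 _)
        exact hqp.dvd_of_dvd_pow h3
    · have h3 : (q : ℤ) ∣ A ^ 2 := by
        have : A ^ 2 = (A ^ 2 + A * B + B ^ 2) - B * (A + B) := by ring
        rw [this]; exact dvd_sub hc (dvd_mul_of_dvd_right h1 _)
      have h4 := hqp.dvd_of_dvd_pow h3
      exact ⟨h4, (Int.dvd_add_right h4).mp h1⟩
  exact hqp.not_isUnit (h.cop.isUnit_of_dvd' key.1 key.2)

lemma Good.dvd_Δ (h : Good A B) {q : ℕ} (hq : q.Prime) (hq2 : q ≠ 2)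
    (hd : (q : ℤ) ∣ A * B * (A + B)) : (q : ℤ) ∣ (Mc A B).Δ := by
  have hqp : Prime (q : ℤ) := Nat.prime_iff_prime_int.mp hq
  have h1 : (q : ℤ) ∣ 256 * (Mc A B).Δ := by
    rw [h.Δ_eq]; exact dvd_pow hd two_ne_zero
  rcases hqp.dvd_or_dvd h1 with h2 | h2
  · exfalso
    have h3 : (q : ℤ) ∣ 2 ^ 8 := by norm_num; exact h2
    have h4 := hqp.dvd_of_dvd_pow h3
    have h5 : q ∣ 2 := by exact_mod_cast h4
    exact hq2 ((Nat.prime_dvd_prime_iff_eq hq Nat.prime_two).mp h5)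
  · exact h2

lemma Good.dvd_of_dvd_Δ (h : Good A B) {q : ℕ} (hq : q.Prime)
    (hd : (q : ℤ) ∣ (Mc A B).Δ) : (q : ℤ) ∣ A * B * (A + B) := by
  have hqp : Prime (q : ℤ) := Nat.prime_iff_prime_int.mp hq
  have h1 : (q : ℤ) ∣ (A * B * (A + B)) ^ 2 := by
    rw [← h.Δ_eq]; exact dvd_mul_of_dvd_right hd _
  exact hqp.dvd_of_dvd_pow h1

lemma Good.two_dvd_Δ (h : Good A B) : (2 : ℤ) ∣ (Mc A B).Δ := by
  obtain ⟨c, hc⟩ := h.h32
  have h1 := h.Δ_eq
  rw [hc] at h1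
  have h2 : (Mc A (32 * c)).Δ = 4 * (A * c * (A + 32 * c)) ^ 2 := by
    have : (256 : ℤ) * (Mc A (32 * c)).Δ = 256 * (4 * (A * c * (A + 32 * c)) ^ 2) := by
      rw [h1]; ring
    exact mul_left_cancel₀ (by norm_num) this
  rw [hc, h2]
  exact ⟨2 * (A * c * (A + 32 * c)) ^ 2, by ring⟩

lemma Good.not_two_dvd_c₄ (h : Good A B) : ¬ (2 : ℤ) ∣ (Mc A B).c₄ := by
  have : ((2 : ℕ) : ℤ) ∣ A * B * (A + B) := by
    have h2 : (2 : ℤ) ∣ B := by
      have := h.h32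
      omega
    exact_mod_cast dvd_mul_of_dvd_left (dvd_mul_of_dvd_right h2 A) (A + B)
  exact_mod_cast h.not_dvd_c₄ Nat.prime_two this

section

variable {N : Finset ((Xc A B)⁄Qb).Point} {T : ((Xc A B)⁄Qb).Point}

lemma smul_add_pt {E : WeierstrassCurve ℚ} (σ : Qb ≃ₐ[ℚ] Qb) (P Q : (E⁄Qb).Point) :
    σ • (P + Q) = σ • P + σ • Q := (Point.map σ.toAlgHom).map_add P Q

lemma Rp_fixed (hN : Cof p (Xc A B) N T) {e f g : Qb} (hset : Setup ((Xc A B)⁄Qb) e f g N)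
    (he : ∀ σ : Qb ≃ₐ[ℚ] Qb, σ e = e) (σ : Qb ≃ₐ[ℚ] Qb) : σ (Rp N e T) = Rp N e T := by
  have h1 : σ (Rp N e T) = Rp N e (σ • T) := by
    unfold Rp
    rw [map_prod, ← hN.prod_smul σ (fun ν => xN (σ • T + ν) - e)]
    refine Finset.prod_congr rfl fun ν _ => ?_
    rw [← smul_add_pt, map_sub, he, xN_smul]
  rw [h1]
  have h2 : σ • T = T + (σ • T - T) := by abel
  rw [h2, hset.Rp_add _ _ (hN.cofix σ)]

lemma XX_fixed (hN : Cof p (Xc A B) N T) {e f g : Qb} (hset : Setup ((Xc A B)⁄Qb) e f g N)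
    (he : ∀ σ : Qb ≃ₐ[ℚ] Qb, σ e = e) (hf : ∀ σ : Qb ≃ₐ[ℚ] Qb, σ f = f)
    (hg : ∀ σ : Qb ≃ₐ[ℚ] Qb, σ g = g) (σ : Qb ≃ₐ[ℚ] Qb) : σ (hset.XX T) = hset.XX T := by
  obtain ⟨r, hr⟩ := hN.Hp_rat hf
  obtain ⟨s, hs⟩ := hN.Hp_rat hg
  unfold Setup.XX
  rw [map_mul, map_mul, ← hr, ← hs, AlgEquiv.commutes, AlgEquiv.commutes, Rp_fixed hN hset he]

lemma YY_fixed (hN : Cof p (Xc A B) N T) {e f g : Qb} (hset : Setup ((Xc A B)⁄Qb) e f g N)
    (he : ∀ σ : Qb ≃ₐ[ℚ] Qb, σ e = e) (hf : ∀ σ : Qb ≃ₐ[ℚ] Qb, σ f = f)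
    (hg : ∀ σ : Qb ≃ₐ[ℚ] Qb, σ g = g) (σ : Qb ≃ₐ[ℚ] Qb) : σ (hset.YY T) = hset.YY T := by
  obtain ⟨r, hr⟩ := hN.Hp_rat hf
  obtain ⟨s, hs⟩ := hN.Hp_rat hg
  obtain ⟨t, ht⟩ := hN.Hp_rat he
  have h1 : σ (∏ ν ∈ N, yN (T + ν)) = ∏ ν ∈ N, yN (T + ν) := by
    have h1 : σ (∏ ν ∈ N, yN (T + ν)) = ∏ ν ∈ N, yN (σ • T + ν) := by
      rw [map_prod, ← hN.prod_smul σ (fun ν => yN (σ • T + ν))]
      refine Finset.prod_congr rfl fun ν _ => ?_
      rw [← smul_add_pt, yN_smul]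
    rw [h1, ← hset.prod_translate (hN.cofix σ) (fun ν => yN (T + ν))]
    refine Finset.prod_congr rfl fun ν _ => ?_
    congr 1
    abel
  unfold Setup.YY
  rw [map_mul, map_mul, map_mul, ← hr, ← hs, ← ht, AlgEquiv.commutes, AlgEquiv.commutes,
    AlgEquiv.commutes, h1]

/-- At a node over `q ≠ 2` missed by `N`, the rational point of the quotient lies in the zero
component. -/
lemma inZero_of_missing (hN : Cof p (Xc A B) N T)
    {A₁ B₁ : ℤ} (hG₁ : Good A₁ B₁) {q : ℕ} (hq : q.Prime) (hq2 : q ≠ 2)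
    {V : ValuationSubring Qb} (hV : V.LiesOverPrime q)
    {e f g e₁ f₁ g₁ : ℤ} (hset : Setup ((Xc A B)⁄Qb) (e : Qb) (f : Qb) (g : Qb) N)
    (hrts₁ : Rts ((Xc A₁ B₁)⁄Qb) (e₁ : Qb) (f₁ : Qb) (g₁ : Qb))
    {u : Qb} (hu : u ≠ 0) (hEf : hset.EE = u ^ 2 * ((f₁ : Qb) - e₁))
    (hEg : hset.swap'.EE = u ^ 2 * ((g₁ : Qb) - e₁))
    (hcop : IsCoprime (f₁ - e₁) (g₁ - e₁))
    {Q : (((Mc A₁ B₁).map (Int.castRingHom ℚ))⁄Qb).Point} (hQ0 : Q ≠ 0)
    (hQ : xN (ptM hG₁ Q) - e₁ = hset.XX T / u ^ 2)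
    (hfe : V.valuation ((f : Qb) - e) < 1) (hge : V.valuation ((g : Qb) - e) = 1)
    (hmiss : (nodOf hset.rts 1 one_ne_zero).Missing N p V.valuation) :
    (Mc A₁ B₁).InZeroComponentAt V Q ∧ (q : ℤ) ∣ f₁ - e₁ := by
  have hu2 : V.valuation (u ^ 2) ≠ 0 := by
    rw [Ne, Valuation.zero_iff]; exact pow_ne_zero _ hu
  have hu2' : 0 < V.valuation (u ^ 2) := zero_lt_iff.mpr hu2
  obtain ⟨k1, k2⟩ := hset.quot_local hmiss hfe hge hN.torsT hN.notMem
  rw [hEf, hEg, map_mul, map_mul] at k1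
  have k3 : V.valuation ((f₁ : Qb) - e₁) < V.valuation ((g₁ : Qb) - e₁) :=
    lt_of_mul_lt_mul_left' k1
  have hint : ∀ n : ℤ, V.valuation (n : Qb) ≤ 1 := fun n => val_intCast_le n
  have hge1 : V.valuation ((g₁ : Qb) - e₁) ≤ 1 := by
    have := hint (g₁ - e₁)
    push_cast at this; exact this
  have hqf : (q : ℤ) ∣ f₁ - e₁ := by
    by_contra hcon
    have := val_intCast_eq_one hq hV hcon
    push_cast at this
    rw [this] at k3
    exact absurd hge1 (not_le.mpr k3)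
  have hqg : ¬ (q : ℤ) ∣ g₁ - e₁ := fun h =>
    (Nat.prime_iff_prime_int.mp hq).not_isUnit (hcop.isUnit_of_dvd' hqf h)
  have hgv : V.valuation ((g₁ : Qb) - e₁) = 1 := by
    have := val_intCast_eq_one hq hV hqg
    push_cast at this; exact this
  rw [hgv] at k3
  have hx1 : 1 ≤ V.valuation (xN (ptM hG₁ Q) - e₁) := by
    rw [hQ, map_div₀, one_le_div₀ hu2']
    rw [hEg, map_mul, hgv, mul_one] at k2
    exact k2
  refine ⟨inZero_of hG₁ hq hq2 hV hrts₁ hQ0 (hint e₁) (hint f₁) (hint g₁) hx1 ?_, hqf⟩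
  have : xN (ptM hG₁ Q) - (f₁ : Qb) = (xN (ptM hG₁ Q) - e₁) + -((f₁ : Qb) - e₁) := by ring
  rw [this, Valuation.map_add_eq_of_lt_left]
  · exact hx1
  · rw [Valuation.map_neg]; exact k3.trans_le hx1

end

/-- rational numbers which are units everywhere -/
lemma eq_one_or_neg_one {r : ℚ} (h : ∀ (q : ℕ) (_ : q.Prime) (V : ValuationSubring Qb),
    V.LiesOverPrime q → V.valuation (algebraMap ℚ Qb r) = 1) : r ^ 2 = 1 := by
  have h1 : r.num.natAbs = 1 := by
    by_contra hne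
    obtain ⟨q, hq, hqd⟩ := Nat.exists_prime_and_dvd hne
    obtain ⟨V, hV⟩ := H63.exists_liesOverPrime Qb hq
    exact (odd_of_val_one hq hV (h q hq V hV)).1 (Int.natCast_dvd.mpr hqd)
  have h2 : r.den = 1 := by
    by_contra hne
    obtain ⟨q, hq, hqd⟩ := Nat.exists_prime_and_dvd hne
    obtain ⟨V, hV⟩ := H63.exists_liesOverPrime Qb hq
    exact (odd_of_val_one hq hV (h q hq V hV)).2 (by exact_mod_cast hqd)
  have h3 : r = r.num := by
    conv_lhs => rw [← Rat.num_div_den r, h2]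
    simp
  rcases Int.natAbs_eq r.num with h4 | h4
  · rw [h1] at h4; rw [h3, h4]; norm_num
  · rw [h1] at h4; rw [h3, h4]; norm_num

/-- the final contradiction -/
lemma final_parity {A B : ℤ} {p : ℕ} (hp : p.Prime) (hp2 : p ≠ 2) (hG : Good A B)
    (h : 16 ^ (p - 1) * A ^ p + B ^ p = 16 ^ (p - 1) * (A + B) ^ p) : False := by
  obtain ⟨S, hS⟩ : ∃ S, S = ∑ i ∈ Finset.range p, (A + B) ^ i * A ^ (p - 1 - i) := ⟨_, rfl⟩
  have h1 : S * B = (A + B) ^ p - A ^ p := by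
    have := (Commute.all (A + B) A).geom_sum₂_mul p
    rw [add_sub_cancel_left] at this
    rw [hS]; exact this
  have h2 : B ^ p = 16 ^ (p - 1) * S * B := by
    rw [mul_assoc, h1]; linear_combination h
  have h3 : B ^ (p - 1) = 16 ^ (p - 1) * S := by
    have h4 : B ^ p = B ^ (p - 1) * B := by
      rw [← pow_succ]; congr 1; have := hp.one_lt; omega
    rw [h4] at h2
    exact mul_right_cancel₀ hG.hB h2
  have hSodd : ¬ (2 : ℤ) ∣ S := by
    intro h4
    have h5 : ((S : ℤ) : ZMod 2) = 0 := (ZMod.intCast_zmod_eq_zero_iff_dvd S 2).mpr h4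
    have hA1 : ((A : ℤ) : ZMod 2) = 1 := by
      have h6 : (2 : ℤ) ∣ A - 1 := by
        have := hG.h4
        omega
      have h7 := (ZMod.intCast_zmod_eq_zero_iff_dvd (A - 1) 2).mpr h6
      push_cast at h7
      linear_combination h7
    have hB1 : ((B : ℤ) : ZMod 2) = 0 := by
      refine (ZMod.intCast_zmod_eq_zero_iff_dvd B 2).mpr ?_
      have := hG.h32
      omega
    rw [hS] at h5
    push_cast at h5
    rw [hA1, hB1, add_zero] at h5
    simp only [one_pow, mul_one, Finset.sum_const, Finset.card_range, nsmul_eq_mul] at h5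
    have h8 : (2 : ℕ) ∣ p := (ZMod.natCast_eq_zero_iff p 2).mp h5
    exact hp2 ((Nat.prime_dvd_prime_iff_eq Nat.prime_two hp).mp h8).symm
  obtain ⟨c, hc⟩ := hG.h32
  rw [hc] at h3
  have h6 : (2 : ℤ) ^ (p - 1) * c ^ (p - 1) = S := by
    have h7 : (16 : ℤ) ^ (p - 1) * (2 ^ (p - 1) * c ^ (p - 1)) = 16 ^ (p - 1) * S := by
      rw [← h3, mul_pow, ← mul_assoc, ← mul_pow]; norm_num
    exact mul_left_cancel₀ (pow_ne_zero _ (by norm_num)) h7
  apply hSodd
  rw [← h6]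
  refine dvd_mul_of_dvd_left (dvd_pow_self 2 ?_) _
  have := hp.one_lt
  omega

/-- everything about a cofixed line on `y² = x (x-A) (x+B)` -/
theorem main_aux (h15 : S15Statement) {A B b : ℤ} {p : ℕ} (hp : p.Prime) (hp17 : 17 ≤ p)
    (hG : Good A B) (hb : B = b ^ p) (hb2 : (2 : ℤ) ∣ b)
    {N : Finset ((Xc A B)⁄Qb).Point} {T : ((Xc A B)⁄Qb).Point} (hN : Cof p (Xc A B) N T) :
    False := by
  classical
  have hp2 : p ≠ 2 := by omega
  have hp5 : 5 ≤ p := by omega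
  have hset := hN.setup hp hp2 hG.hA hG.hB hG.hC
  have hTT : T + T ∉ N := hN.two_notMem hp hp5
  have hfix : ∀ (n : ℤ) (σ : Qb ≃ₐ[ℚ] Qb), σ (n : Qb) = n := fun n σ => map_intCast σ n
  have hfix0 : ∀ σ : Qb ≃ₐ[ℚ] Qb, σ (0 : Qb) = 0 := fun σ => _root_.map_zero σ
  have hfixB : ∀ σ : Qb ≃ₐ[ℚ] Qb, σ (-(B : Qb)) = -(B : Qb) := fun σ => by rw [map_neg, hfix]
  obtain ⟨r₁, hr1⟩ := hN.Hp_rat hfix0
  obtain ⟨r₂, hr2⟩ := hN.Hp_rat (hfix A)
  obtain ⟨r₃, hr3⟩ := hN.Hp_rat hfixB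
  have hH1 : Hp N (0 : Qb) ≠ 0 := hset.Hp_ne_zero
  have hH2 : Hp N (A : Qb) ≠ 0 := hset.swap.Hp_ne_zero
  have hH3 : Hp N (-(B : Qb)) ≠ 0 := hset.swap'.swap.Hp_ne_zero
  have hr10 : r₁ ≠ 0 := by rintro rfl; rw [_root_.map_zero] at hr1; exact hH1 hr1.symm
  have hr20 : r₂ ≠ 0 := by rintro rfl; rw [_root_.map_zero] at hr2; exact hH2 hr2.symm
  have hr30 : r₃ ≠ 0 := by rintro rfl; rw [_root_.map_zero] at hr3; exact hH3 hr3.symm
  have hodd : Odd p := hp.odd_of_ne_two hp2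
  -- the relation
  have hE1 : hset.EE = algebraMap ℚ Qb ((A : ℚ) ^ p * r₃ ^ 2) := by
    unfold Setup.EE
    rw [hN.card, sub_zero, ← hr3]
    simp
  have hE2 : hset.swap'.EE = - algebraMap ℚ Qb ((B : ℚ) ^ p * r₂ ^ 2) := by
    unfold Setup.EE
    rw [hN.card, sub_zero, ← hr2, hodd.neg_pow]
    simp
  have hE3 : hset.swap.swap'.EE = - algebraMap ℚ Qb (((A : ℚ) + B) ^ p * r₁ ^ 2) := by
    unfold Setup.EE
    rw [hN.card, ← hr1, show -(B : Qb) - (A : Qb) = -((A : Qb) + B) by ring, hodd.neg_pow]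
    simp
  have hrelK := hset.EE_rel hTT
  have hrel : (A : ℚ) ^ p * r₃ ^ 2 + (B : ℚ) ^ p * r₂ ^ 2 = ((A : ℚ) + B) ^ p * r₁ ^ 2 := by
    rw [hE1, hE2, hE3] at hrelK
    apply (algebraMap ℚ Qb).injective
    rw [map_add]
    linear_combination hrelK
  -- 2-adic valuations
  have hv2 : ∀ V : ValuationSubring Qb, V.LiesOverPrime 2 →
      V.valuation (algebraMap ℚ Qb r₁) = V.valuation (4 : Qb) ^ (p - 1) ∧
      V.valuation (algebraMap ℚ Qb r₂) = 1 ∧
      V.valuation (algebraMap ℚ Qb r₃) = V.valuation (4 : Qb) ^ (p - 1) := by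
    intro V hV
    have hx := val_x_two hp hp5 hG hN hb hV
    have w2 := val_two_lt hV
    have w20 := val_two_pos (V := V)
    have w4 : V.valuation (4 : Qb) < 1 := by
      rw [val_four hV]; exact pow_lt_one₀ zero_le w2 two_ne_zero
    have w40 : 0 < V.valuation (4 : Qb) := by rw [val_four hV]; exact pow_pos w20 2
    have hcard : (N.erase 0).card = p - 1 := by
      rw [Finset.card_erase_of_mem hN.zero_mem, hN.card]
    refine ⟨?_, ?_, ?_⟩
    · rw [hr1, Hp, Setup.map_prod_val', ← hcard, ← Finset.prod_const]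
      refine Finset.prod_congr rfl fun a ha => ?_
      rw [sub_zero]
      exact hx a (Finset.mem_erase.mp ha).2 (Finset.mem_erase.mp ha).1
    · rw [hr2, Hp, Setup.map_prod_val']
      refine Finset.prod_eq_one fun a ha => ?_
      rw [sub_eq_add_neg, Valuation.map_add_eq_of_lt_right, Valuation.map_neg, val_A_two hG hV]
      rw [Valuation.map_neg, val_A_two hG hV,
        hx a (Finset.mem_erase.mp ha).2 (Finset.mem_erase.mp ha).1]
      exact w4
    · rw [hr3, Hp, Setup.map_prod_val', ← hcard, ← Finset.prod_const]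
      refine Finset.prod_congr rfl fun a ha => ?_
      have hxa := hx a (Finset.mem_erase.mp ha).2 (Finset.mem_erase.mp ha).1
      rw [sub_neg_eq_add, Valuation.map_add_eq_of_lt_left, hxa]
      rw [hxa]
      refine (val_B_two_lt hG hV).trans_le ?_
      calc V.valuation (4 : Qb) ^ 2 ≤ V.valuation (4 : Qb) ^ 1 :=
            pow_le_pow_right_of_le_one' w4.le (by norm_num)
        _ = _ := pow_one _
  obtain ⟨V₂, hV₂⟩ := H63.exists_liesOverPrime Qb Nat.prime_two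
  obtain ⟨-, hv22, hv23⟩ := hv2 V₂ hV₂
  obtain ⟨A₁, B₁, u, hu0, hG₁, hA₁, hB₁⟩ := exists_norm hp hp5 hG hb hb2 hr10 hr20 hr30 hrel hV₂
    hv22 hv23
  obtain ⟨U, hU⟩ : ∃ U, U = algebraMap ℚ Qb u := ⟨_, rfl⟩
  have hU0 : U ≠ 0 := by
    rw [hU]; intro h; exact hu0 ((algebraMap ℚ Qb).injective (h.trans (_root_.map_zero _).symm))
  have hUfix : ∀ σ : Qb ≃ₐ[ℚ] Qb, σ U = U := fun σ => by rw [hU, AlgEquiv.commutes]
  have hEA : hset.EE = U ^ 2 * (A₁ : Qb) := by rw [hE1, hA₁, hU]; simp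
  have hEB : hset.swap'.EE = -(U ^ 2 * (B₁ : Qb)) := by rw [hE2, hB₁, hU]; simp
  -- the point
  have h2K : (2 : Qb) ≠ 0 := by norm_num
  have hTN := hN.notMem
  obtain ⟨Φ, hΦ⟩ : ∃ Φ, Φ = hset.phi h2K hTT T hTN := ⟨_, rfl⟩
  have hΦord : addOrderOf Φ = p := by
    rw [hΦ]
    exact hset.addOrderOf_phi h2K hTT hp5 hp (fun n h1 h2 => hN.nsmul_notMem hp h1 h2)
      (by rw [hN.torsT]; exact hN.zero_mem) hTN
  let C : VariableChange Qb := ⟨Units.mk0 U hU0, 0, 0, 0⟩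
  have hC : ((Xc A₁ B₁)⁄Qb) = C • hset.W' := by
    have hr := rtsXc A₁ B₁
    ext
    · rw [hr.a1]; simp [C, variableChange_a₁, Setup.W']
    · rw [hr.a2]
      simp only [C, variableChange_a₂, Setup.W', hEA, hEB]
      simp only [Units.val_inv_eq_inv_val, Units.val_mk0]
      field_simp
      ring
    · rw [hr.a3]; simp [C, variableChange_a₃, Setup.W']
    · rw [hr.a4]
      simp only [C, variableChange_a₄, Setup.W', hEA, hEB]
      simp only [Units.val_inv_eq_inv_val, Units.val_mk0]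
      field_simp
      ring
    · rw [hr.a6]; simp [C, variableChange_a₆, Setup.W']
  obtain ⟨R, hR⟩ : ∃ R, R = (ptE C hC).symm Φ := ⟨_, rfl⟩
  obtain ⟨Q, hQ⟩ : ∃ Q, Q = (ptM hG₁).symm R := ⟨_, rfl⟩
  have hRord : addOrderOf R = p := by
    rw [hR, AddEquiv.addOrderOf_eq]; exact hΦord
  have hQord : addOrderOf Q = p := by
    rw [hQ, AddEquiv.addOrderOf_eq]; exact hRord
  have hQ0 : Q ≠ 0 := by
    rintro h0
    rw [h0, addOrderOf_zero] at hQord
    omega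
  obtain ⟨hRns, hRsome⟩ : ∃ h', R = Point.some (hset.XX T / U ^ 2) (hset.YY T / U ^ 3) h' := by
    obtain ⟨h', e⟩ := ptE_symm_some C hC (hset.ns' h2K hTT hTN)
    have e1 : H74.vcX' C (hset.XX T) = hset.XX T / U ^ 2 := by
      simp only [H74.vcX', C, Units.val_inv_eq_inv_val, Units.val_mk0, sub_zero]
      field_simp
    have e2 : H74.vcY' C (hset.XX T) (hset.YY T) = hset.YY T / U ^ 3 := by
      simp only [H74.vcY', C, Units.val_inv_eq_inv_val, Units.val_mk0, sub_zero, zero_mul]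
      field_simp
    have h'' := h'
    rw [e1, e2] at h''
    refine ⟨h'', ?_⟩
    rw [hR, hΦ]
    unfold Setup.phi
    rw [e, Point.some.injEq]
    exact ⟨e1, e2⟩
  have hRfix : ∀ σ : Qb ≃ₐ[ℚ] Qb, σ • R = R := by
    intro σ
    rw [hRsome]
    obtain ⟨h', e⟩ := smul_some σ hRns
    rw [e, Point.some.injEq]
    rw [map_div₀, map_div₀, map_pow, map_pow, hUfix, XX_fixed hN hset hfix0 (hfix A) hfixB,
      YY_fixed hN hset hfix0 (hfix A) hfixB]
    exact ⟨rfl, rfl⟩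
  have hQR : ptM hG₁ Q = R := by rw [hQ, AddEquiv.apply_symm_apply]
  have hQfix : ∀ σ : Qb ≃ₐ[ℚ] Qb, σ • Q = Q := by
    intro σ
    apply (ptM hG₁).injective
    rw [hQR]
    change ptQ cM hG₁.map_eq (σ • Q) = R
    rw [ptQ_smul]
    change σ • (ptM hG₁ Q) = R
    rw [hQR, hRfix]
  have hxR : xN (ptM hG₁ Q) = hset.XX T / U ^ 2 := by rw [hQR, hRsome, xN_some]
  -- small primes
  have h2Z : ∀ V : ValuationSubring Qb, V.LiesOverPrime 2 →
      ¬ (Mc A₁ B₁).InZeroComponentAt V Q := by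
    intro V hV hz
    obtain ⟨P', hP'⟩ := exists_reduces_of_inZero hz
    exact not_reduces hp Nat.prime_two (by omega) hV hQfix hQord P' hP'
  have h3Z : ∀ V : ValuationSubring Qb, V.LiesOverPrime 3 →
      ¬ (Mc A₁ B₁).InZeroComponentAt V Q := by
    intro V hV hz
    obtain ⟨P', hP'⟩ := exists_reduces_of_inZero hz
    exact not_reduces hp Nat.prime_three (by omega) hV hQfix hQord P' hP'
  have h3Δ : ((3 : ℕ) : ℤ) ∣ (Mc A₁ B₁).Δ := by
    by_contra hcon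
    obtain ⟨V, hV⟩ := H63.exists_liesOverPrime Qb Nat.prime_three
    obtain ⟨P', hP'⟩ := H59.exists_reduces (K := Qb) rfl Nat.prime_three hcon hV Q
    exact not_reduces hp Nat.prime_three (by omega) hV hQfix hQord P' hP'
  have h3c : ¬ ((3 : ℕ) : ℤ) ∣ (Mc A₁ B₁).c₄ :=
    hG₁.not_dvd_c₄ Nat.prime_three (hG₁.dvd_of_dvd_Δ Nat.prime_three h3Δ)
  have hpS : p ∉ ({2, 3, 5, 7, 13} : Finset ℕ) := by
    simp only [Finset.mem_insert, Finset.mem_singleton]
    omega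
  have key15 : ∀ {q : ℕ}, q.Prime → q ≠ 2 → q ≠ p → (q : ℤ) ∣ A₁ * B₁ * (A₁ + B₁) →
      ∀ V : ValuationSubring Qb, V.LiesOverPrime q → ¬ (Mc A₁ B₁).InZeroComponentAt V Q := by
    intro q hq hq2 hqp hqd V hV
    exact h15 hp hpS (Mc A₁ B₁) hG₁.Δ_ne_zero Q hQfix hQord hG₁.two_dvd_Δ hG₁.not_two_dvd_c₄ h2Z
      (by exact_mod_cast h3Δ) (by exact_mod_cast h3c) h3Z hq hqp (hG₁.dvd_Δ hq hq2 hqd)
      (hG₁.not_dvd_c₄ hq hqd) V hV
  -- odd primes: everything is in `E₀`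
  have hXcΔ : (Xc A B).Δ ≠ 0 := by
    have h1 := (rtsXc A B).Δ_eq
    have h2 : ((Xc A B)⁄Qb).Δ = algebraMap ℚ Qb (Xc A B).Δ := map_Δ ..
    intro h0
    rw [h2, h0, _root_.map_zero] at h1
    have hA : (A : Qb) ≠ 0 := by exact_mod_cast hG.hA
    have hB : (B : Qb) ≠ 0 := by exact_mod_cast hG.hB
    have hC : (A : Qb) + B ≠ 0 := by exact_mod_cast hG.hC
    have : (16 : Qb) * ((0 - (A : Qb)) * (0 - -(B : Qb)) * ((A : Qb) - -(B : Qb))) ^ 2 ≠ 0 := by
      refine mul_ne_zero (by norm_num) (pow_ne_zero _ (mul_ne_zero (mul_ne_zero ?_ ?_) ?_))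
      · rw [zero_sub]; exact neg_ne_zero.mpr hA
      · rw [zero_sub, neg_neg]; exact hB
      · rw [sub_neg_eq_add]; exact hC
    exact this h1.symm
  have hnode : ∀ {q : ℕ}, q.Prime → q ≠ 2 → ∀ V : ValuationSubring Qb, V.LiesOverPrime q →
      ∀ {e f g e₁ f₁ g₁ : ℤ} (hs : Setup ((Xc A B)⁄Qb) (e : Qb) (f : Qb) (g : Qb) N)
      (_ : Rts ((Xc A₁ B₁)⁄Qb) (e₁ : Qb) (f₁ : Qb) (g₁ : Qb))
      (_ : hs.EE = U ^ 2 * ((f₁ : Qb) - e₁)) (_ : hs.swap'.EE = U ^ 2 * ((g₁ : Qb) - e₁))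
      (_ : IsCoprime (f₁ - e₁) (g₁ - e₁))
      (_ : xN (ptM hG₁ Q) - e₁ = hs.XX T / U ^ 2)
      (_ : f₁ - e₁ ∣ A₁ * B₁ * (A₁ + B₁))
      (_ : (q : ℤ) ∣ f - e) (_ : ¬ (q : ℤ) ∣ g - e),
      ∀ a ∈ N, a ≠ 0 → 1 ≤ V.valuation (xN a - (e : Qb)) ∧ 1 ≤ V.valuation (xN a - (f : Qb)) ∧
        1 ≤ V.valuation (xN a - (g : Qb)) := by
    intro q hq hq2 V hV e f g e₁ f₁ g₁ hs hrts1 hEf hEg hcop hxx hdiv hqf hqg
    have hfe : V.valuation ((f : Qb) - e) < 1 := by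
      obtain ⟨c, hc⟩ := hqf
      have : (f : Qb) - e = (q : Qb) * c := by
        have := congrArg (Int.cast : ℤ → Qb) hc
        push_cast at this
        exact this
      rw [this, map_mul]
      calc _ ≤ V.valuation (q : Qb) * 1 := mul_le_mul' le_rfl (val_intCast_le c)
        _ = V.valuation (q : Qb) := mul_one _
        _ < 1 := val_natCast_lt hV
    have hge : V.valuation ((g : Qb) - e) = 1 := by
      have := val_intCast_eq_one hq hV hqg
      push_cast at this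
      exact this
    have h4 : V.valuation (4 : Qb) = 1 := by
      have := val_natCast_eq_one hq hV (n := 4) (by
        intro h
        have h2 : q ∣ 2 ^ 2 := by norm_num; exact h
        exact hq2 ((Nat.prime_dvd_prime_iff_eq hq Nat.prime_two).mp (hq.dvd_of_dvd_pow h2)))
      exact_mod_cast this
    rcases odd_alt hp hp2 hN hs h4 hfe hge with hmiss | hin
    · exfalso
      by_cases hqp : q = p
      · subst hqp
        exact not_missing_p hXcΔ hp hp5 hN hs hqf hqg hV hmiss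
      · obtain ⟨hz, hqd⟩ := inZero_of_missing hN hG₁ hq hq2 hV hs hrts1 hU0 hEf hEg hcop hQ0 hxx
          hfe hge hmiss
        exact key15 hq hq2 hqp (hqd.trans hdiv) V hV hz
    · exact hin
  have hall : ∀ (q : ℕ), q.Prime → q ≠ 2 → ∀ V : ValuationSubring Qb, V.LiesOverPrime q →
      ∀ a ∈ N, a ≠ 0 → 1 ≤ V.valuation (xN a - 0) ∧ 1 ≤ V.valuation (xN a - (A : Qb)) ∧
        1 ≤ V.valuation (xN a - (-(B : Qb))) := by
    intro q hq hq2 V hV
    have hqp : Prime (q : ℤ) := Nat.prime_iff_prime_int.mp hq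
    have hr1 := rtsXc A₁ B₁
    by_cases hqA : (q : ℤ) ∣ A
    · have hqB : ¬ (q : ℤ) ∣ B := fun h => hqp.not_isUnit (hG.cop.isUnit_of_dvd' hqA h)
      have hs : Setup ((Xc A B)⁄Qb) ((0 : ℤ) : Qb) ((A : ℤ) : Qb) ((-B : ℤ) : Qb) N := by
        simpa using hset
      have e1 : hs.EE = hset.EE := by unfold Setup.EE; simp
      have e2 : hs.swap'.EE = hset.swap'.EE := by unfold Setup.EE; simp
      have e3 : hs.XX T = hset.XX T := by unfold Setup.XX; simp
      have hr : Rts ((Xc A₁ B₁)⁄Qb) ((0 : ℤ) : Qb) ((A₁ : ℤ) : Qb) ((-B₁ : ℤ) : Qb) := by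
        simpa using hr1
      have h1 := hnode hq hq2 V hV hs hr (by rw [e1, hEA]; push_cast; ring)
        (by rw [e2, hEB]; push_cast; ring)
        (by rw [sub_zero, sub_zero]; exact hG₁.cop.neg_right)
        (by rw [e3, ← hxR]; push_cast; ring)
        (by rw [sub_zero, mul_assoc]; exact dvd_mul_right _ _)
        (by rwa [sub_zero]) (by rwa [sub_zero, dvd_neg])
      intro a ha ha0
      have := h1 a ha ha0
      push_cast at this
      exact this
    · by_cases hqB : (q : ℤ) ∣ B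
      · have hs : Setup ((Xc A B)⁄Qb) ((0 : ℤ) : Qb) ((-B : ℤ) : Qb) ((A : ℤ) : Qb) N := by
          simpa using hset.swap'
        have e1 : hs.EE = hset.swap'.EE := by unfold Setup.EE; simp
        have e2 : hs.swap'.EE = hset.EE := by unfold Setup.EE; simp
        have e3 : hs.XX T = hset.XX T := by unfold Setup.XX; simp [mul_comm]
        have hr : Rts ((Xc A₁ B₁)⁄Qb) ((0 : ℤ) : Qb) ((-B₁ : ℤ) : Qb) ((A₁ : ℤ) : Qb) := by
          simpa using hr1.swap'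
        have h1 := hnode hq hq2 V hV hs hr (by rw [e1, hEB]; push_cast; ring)
          (by rw [e2, hEA]; push_cast; ring)
          (by rw [sub_zero, sub_zero]; exact hG₁.cop.symm.neg_left)
          (by rw [e3, ← hxR]; push_cast; ring)
          (by rw [sub_zero]; exact dvd_mul_of_dvd_left (dvd_mul_of_dvd_right (neg_dvd.mpr dvd_rfl) _) _)
          (by rwa [sub_zero, dvd_neg]) (by rwa [sub_zero])
        intro a ha ha0
        have := h1 a ha ha0
        push_cast at this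
        exact ⟨this.1, this.2.2, this.2.1⟩
      · by_cases hqC : (q : ℤ) ∣ A + B
        · have hs : Setup ((Xc A B)⁄Qb) ((A : ℤ) : Qb) ((-B : ℤ) : Qb) ((0 : ℤ) : Qb) N := by
            simpa using hset.swap.swap'
          have e1 : hs.EE = hset.swap.swap'.EE := by unfold Setup.EE; simp
          have e2 : hs.swap'.EE = hset.swap.EE := by unfold Setup.EE; simp
          have e3 : hs.XX T = hset.swap.XX T := by unfold Setup.XX; simp [mul_comm]
          have hr : Rts ((Xc A₁ B₁)⁄Qb) ((A₁ : ℤ) : Qb) ((-B₁ : ℤ) : Qb) ((0 : ℤ) : Qb) := by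
            simpa using hr1.swap.swap'
          have h1 := hnode hq hq2 V hV hs hr
            (by rw [e1, hset.EE_rel hTT, hEA, hEB]; push_cast; ring)
            (by rw [e2, hset.EE_swap, hEA]; push_cast; ring)
            (by
              obtain ⟨x, y, hxy⟩ := hG₁.cop
              exact ⟨-y, y - x, by linear_combination hxy⟩)
            (by
              rw [e3, hxR]
              have h5 := hset.XX_sub hTT hTN
              rw [hEA] at h5
              field_simp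
              linear_combination h5)
            (by
              rw [show -B₁ - A₁ = -(A₁ + B₁) by ring]
              exact dvd_mul_of_dvd_right (neg_dvd.mpr dvd_rfl) _)
            (by rw [show -B - A = -(A + B) by ring, dvd_neg]; exact hqC)
            (by rw [zero_sub, dvd_neg]; exact hqA)
          intro a ha ha0
          have := h1 a ha ha0
          push_cast at this
          exact ⟨this.2.2, this.1, this.2.1⟩
        · have vA : V.valuation ((A : Qb) - 0) = 1 := by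
            rw [sub_zero]; exact val_intCast_eq_one hq hV hqA
          have vB : V.valuation (-(B : Qb) - 0) = 1 := by
            rw [sub_zero, Valuation.map_neg]; exact val_intCast_eq_one hq hV hqB
          have vC : V.valuation (-(B : Qb) - (A : Qb)) = 1 := by
            rw [show -(B : Qb) - (A : Qb) = -(((A + B : ℤ)) : Qb) by push_cast; ring,
              Valuation.map_neg]
            exact val_intCast_eq_one hq hV hqC
          exact odd_good hp hp2 hN hset vA vB vC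
  have hval : ∀ (q : ℕ), q.Prime → q ≠ 2 → ∀ V : ValuationSubring Qb, V.LiesOverPrime q →
      V.valuation (algebraMap ℚ Qb r₁) = V.valuation (algebraMap ℚ Qb r₂) ∧
      V.valuation (algebraMap ℚ Qb r₁) = V.valuation (algebraMap ℚ Qb r₃) := by
    intro q hq hq2 V hV
    have h1 := hall q hq hq2 V hV
    rw [hr1, hr2, hr3, Hp, Hp, Hp, Setup.map_prod_val', Setup.map_prod_val', Setup.map_prod_val']
    constructor
    · refine Finset.prod_congr rfl fun a ha => ?_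
      obtain ⟨g1, g2, g3⟩ := h1 a (Finset.mem_erase.mp ha).2 (Finset.mem_erase.mp ha).1
      refine val_eq_of_one_le ?_ g1 g2
      rw [show xN a - 0 - (xN a - (A : Qb)) = (A : Qb) by ring]
      exact val_intCast_le A
    · refine Finset.prod_congr rfl fun a ha => ?_
      obtain ⟨g1, g2, g3⟩ := h1 a (Finset.mem_erase.mp ha).2 (Finset.mem_erase.mp ha).1
      refine val_eq_of_one_le ?_ g1 g3
      rw [show xN a - 0 - (xN a - (-(B : Qb))) = -(B : Qb) by ring, Valuation.map_neg]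
      exact val_intCast_le B
  have hne : ∀ (V : ValuationSubring Qb) {r : ℚ}, r ≠ 0 → V.valuation (algebraMap ℚ Qb r) ≠ 0 := by
    intro V r hr h0
    rw [Valuation.zero_iff] at h0
    exact hr ((algebraMap ℚ Qb).injective (h0.trans (_root_.map_zero _).symm))
  have hs2 : (r₂ * 4 ^ (p - 1) / r₁) ^ 2 = 1 := by
    apply eq_one_or_neg_one
    intro q hq V hV
    rw [map_div₀, map_mul, map_pow, map_div₀, map_mul, map_pow]
    have e4 : algebraMap ℚ Qb 4 = 4 := by simp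
    rw [e4]
    by_cases hq2 : q = 2
    · subst hq2
      obtain ⟨g1, g2, g3⟩ := hv2 V hV
      rw [g1, g2, one_mul, div_self]
      rw [← g1]; exact hne V hr10
    · obtain ⟨g1, g2⟩ := hval q hq hq2 V hV
      have h4 : V.valuation (4 : Qb) = 1 := by
        have := val_natCast_eq_one hq hV (n := 4) (by
          intro h
          have h2 : q ∣ 2 ^ 2 := by norm_num; exact h
          exact hq2 ((Nat.prime_dvd_prime_iff_eq hq Nat.prime_two).mp (hq.dvd_of_dvd_pow h2)))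
        exact_mod_cast this
      rw [h4, one_pow, mul_one, ← g1, div_self (hne V hr10)]
  have hs3 : (r₃ / r₁) ^ 2 = 1 := by
    apply eq_one_or_neg_one
    intro q hq V hV
    rw [map_div₀, map_div₀]
    by_cases hq2 : q = 2
    · subst hq2
      obtain ⟨g1, g2, g3⟩ := hv2 V hV
      rw [g1, g3, div_self]
      rw [← g1]; exact hne V hr10
    · obtain ⟨g1, g2⟩ := hval q hq hq2 V hV
      rw [← g2, div_self (hne V hr10)]
  apply final_parity hp hp2 hG
  have h16 : ((4 : ℚ) ^ (p - 1)) ^ 2 = 16 ^ (p - 1) := by rw [← pow_mul, mul_comm, pow_mul]; norm_num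
  have g2 : r₂ ^ 2 * 16 ^ (p - 1) = r₁ ^ 2 := by
    rw [div_pow, mul_pow, h16, div_eq_one_iff_eq (pow_ne_zero _ hr10)] at hs2
    exact hs2
  have g3 : r₃ ^ 2 = r₁ ^ 2 := by
    rw [div_pow, div_eq_one_iff_eq (pow_ne_zero _ hr10)] at hs3
    exact hs3
  have h1 : (16 : ℚ) ^ (p - 1) * (A : ℚ) ^ p + (B : ℚ) ^ p = 16 ^ (p - 1) * ((A : ℚ) + B) ^ p := by
    apply mul_right_cancel₀ (pow_ne_zero 2 hr10)
    linear_combination 16 ^ (p - 1) * hrel - (B : ℚ) ^ p * g2 - 16 ^ (p - 1) * (A : ℚ) ^ p * g3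
  exact_mod_cast h1

/-- **S15 implies S12.** -/
theorem S12_of_S15 (h15 : S15Statement) (P : FreyPackage) (hp : 17 ≤ P.p) :
    ¬ HasGaloisStableCofixedLine (K := AlgebraicClosure ℚ) ℚ P.freyCurve P.p := by
  intro hcof
  have hG : Good (P.a ^ P.p) (P.b ^ P.p) := by
    refine ⟨H4.freyA_mod_four P, H4.freyB_dvd P, ?_, pow_ne_zero _ P.ha0, pow_ne_zero _ P.hb0, ?_⟩
    · refine IsCoprime.pow ?_
      exact (gcd_isUnit_iff _ _).mp (by rw [P.hgcdab]; exact isUnit_one)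
    · rw [P.hFLT]; exact pow_ne_zero _ P.hc0
  have hmap : P.freyCurve = (Mc (P.a ^ P.p) (P.b ^ P.p)).map (Int.castRingHom ℚ) :=
    (H4.freyCurveInt_map P).symm
  have hΔ : P.freyCurve.Δ ≠ 0 := by
    rw [hmap, WeierstrassCurve.map_Δ]
    simp only [eq_intCast]
    exact_mod_cast hG.Δ_ne_zero
  obtain ⟨N, T, hN⟩ := exists_cof P.pp P.freyCurve hΔ hcof
  have hN' := hN.transport cM (hmap.trans hG.map_eq)
  exact main_aux h15 P.pp hp hG rfl (H4.two_dvd_b P) hN'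

end Fermat.Agent.H12
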