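import Fermat.Agent.H12GNorm
import Fermat.Agent.H17Unr
import Fermat.Agent.H67Comm

/-!
# MZ-J2: stability of the kernel of reduction (helper12)
-/

set_option autoImplicit false

noncomputable section

namespace Fermat.Agent.H12G

open ModularCurve AlgebraicCurve
open Fermat.Agent.H33 (IsKum cst)
open Fermat.Agent.H18 (IsInt)
open Fermat.Agent.H12F (RedOf)

local notation "Qb" => AlgebraicClosure ℚ
local notation "FF" N => laurentBaseChange (AlgebraicClosure ℚ) (modularFunctionFieldFull N)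

section Abs

/-- a homomorphism from a divisible group to a free abelian group vanishes -/
theorem abs_kernel {Z S : Type*} [AddCommGroup Z] (T : Z →+ Z) (r : Z →+ (S →₀ ℤ))
    (P : Z → Prop) (h1 : ∀ D, P D → r D = 0 → r (T D) = 0)
    (hdiv : ∀ D, r D = 0 → ∀ n : ℕ, 0 < n → ∃ E, r E = 0 ∧ P (D - n • E)) {D : Z}
    (hD : r D = 0) : r (T D) = 0 := by
  ext Q
  rw [Finsupp.zero_apply]
  by_contra hne
  obtain ⟨E, hE, hPE⟩ := hdiv D hD ((r (T D) Q).natAbs + 1) (Nat.succ_pos _)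
  have h2 := h1 _ hPE (by rw [map_sub, map_nsmul, hD, hE, smul_zero, sub_zero])
  rw [map_sub, map_nsmul, map_sub, map_nsmul, sub_eq_zero] at h2
  have h3 : r (T D) Q = ((r (T D) Q).natAbs + 1 : ℕ) * r (T E) Q := by
    conv_lhs => rw [h2]
    rw [Finsupp.smul_apply, nsmul_eq_mul]
  have h4 : (r (T D) Q).natAbs = ((r (T D) Q).natAbs + 1) * (r (T E) Q).natAbs := by
    conv_lhs => rw [h3, Int.natAbs_mul, Int.natAbs_natCast]
  have h5 : (r (T E) Q).natAbs ≠ 0 := by
    intro h0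
    rw [h0, mul_zero] at h4
    exact hne (Int.natAbs_eq_zero.mp h4)
  have h6 : (r (T D) Q).natAbs + 1 ≤ (r (T D) Q).natAbs := by
    conv_rhs => rw [h4]
    exact Nat.le_mul_of_pos_right _ (Nat.pos_of_ne_zero h5)
  omega

end Abs

section Ker

variable {A : ValuationSubring Qb} {k : Type*} [Field k] {π : A →+* k} {N : ℕ}
  {ρ : Place Qb (FF N) → Place k (modularFunctionFieldFullC k N)}

/-- every class in the kernel of reduction is the class of a divisor with trivial reduction -/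
theorem exists_rep [HasPrincipalDivisors Qb (FF N)] (hπ : Function.Surjective π)
    (hr : IsPlaceReductionAlong A π N ρ) (hgen : PrincipalGeneratedByIntegral A π N)
    {x : Pic0 Qb (FF N)} (hx : reductionPic0Along ρ hr hgen x = 0) :
    ∃ D : Divisor.degZero (K := Qb) (F := FF N), Pic0.mk D = x ∧
      Finsupp.mapDomain ρ (D : Divisor Qb (FF N)) = 0 := by
  obtain ⟨D₀, rfl⟩ := Pic0.mk_surjective x
  rw [reductionPic0Along_mk, H33.mk_eq_zero_iff] at hx
  obtain ⟨s, hs, hDs⟩ := hx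
  obtain ⟨a, b, ha, hb, hb0, hab⟩ := H18.exists_isInt_div (N := N) hπ
    (g := (s : LaurentSeries k)) (SetLike.coe_mem _)
  have ha0 : coeffMap π a ≠ 0 := by
    rw [← hab]
    exact mul_ne_zero (fun h => hs (Subtype.ext h)) hb0
  have hbne : (⟨coeffMap A.subtype b, hb.1⟩ : FF N) ≠ 0 :=
    fun h0 => H18.ne_zero_of_coeffMap_ne_zero hb0 (congrArg Subtype.val h0)
  have hane : (⟨coeffMap A.subtype a, ha.1⟩ : FF N) ≠ 0 :=
    fun h0 => H18.ne_zero_of_coeffMap_ne_zero ha0 (congrArg Subtype.val h0)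
  have hred : RedOf π N ((⟨coeffMap A.subtype a, ha.1⟩ : FF N) / ⟨coeffMap A.subtype b, hb.1⟩) s := by
    refine ⟨1, a, b, one_ne_zero, ha, hb, ha0, hb0, ?_, hab⟩
    rw [cst_one', one_mul]
    exact congrArg Subtype.val (div_mul_cancel₀ (⟨coeffMap A.subtype a, ha.1⟩ : FF N) hbne)
  obtain ⟨E, hE, hE0⟩ := HasPrincipalDivisors.exists_divisor (K := Qb) _ (div_ne_zero hane hbne)
  have hE' : E ∈ Divisor.degZero (K := Qb) (F := FF N) := by
    rw [Divisor.mem_degZero]; exact hE0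
  refine ⟨D₀ - ⟨E, hE'⟩, ?_, ?_⟩
  · have h1 : (Pic0.mk ⟨E, hE'⟩ : Pic0 Qb (FF N)) = 0 :=
      (H33.mk_eq_zero_iff _).mpr ⟨_, div_ne_zero hane hbne, hE⟩
    have h2 : (Pic0.mk (D₀ - ⟨E, hE'⟩) : Pic0 Qb (FF N)) = Pic0.mk D₀ - Pic0.mk ⟨E, hE'⟩ := rfl
    rw [h2, h1, sub_zero]
  · have h3 : ((D₀ - ⟨E, hE'⟩ : Divisor.degZero (K := Qb) (F := FF N)) : Divisor Qb (FF N)) =
        (D₀ : Divisor Qb (FF N)) - E := rfl
    have h4 : Finsupp.mapDomain ρ ((D₀ : Divisor Qb (FF N)) - E) =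
        Finsupp.mapDomain ρ (D₀ : Divisor Qb (FF N)) - Finsupp.mapDomain ρ E :=
      map_sub (Finsupp.mapDomain.addMonoidHom ρ) _ _
    rw [h3, h4]
    ext Q
    rw [Finsupp.sub_apply, hred.ord_eq hr hE Q, ← hDs Q, coe_reductionDegZeroAlong]
    simp

/-- stability of the kernel of reduction -/
theorem kernel_stable [HasPrincipalDivisors Qb (FF N)] (hπ : Function.Surjective π)
    (hr : IsPlaceReductionAlong A π N ρ) (hgen : PrincipalGeneratedByIntegral A π N)
    (T : Divisor.degZero (K := Qb) (F := FF N) →+ Divisor.degZero (K := Qb) (F := FF N))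
    (TP : Pic0 Qb (FF N) →+ Pic0 Qb (FF N)) (hTP : ∀ D, TP (Pic0.mk D) = Pic0.mk (T D))
    (hprin : ∀ (u : FF N) (D : Divisor.degZero (K := Qb) (F := FF N)), u ≠ 0 →
      (∀ v, (D : Divisor Qb (FF N)) v = v.ord u) →
      Finsupp.mapDomain ρ (D : Divisor Qb (FF N)) = 0 →
      Finsupp.mapDomain ρ (T D : Divisor Qb (FF N)) = 0)
    (hdiv : ∀ x, reductionPic0Along ρ hr hgen x = 0 → ∀ n : ℕ, 0 < n →
      ∃ y, reductionPic0Along ρ hr hgen y = 0 ∧ n • y = x)
    {x : Pic0 Qb (FF N)} (hx : reductionPic0Along ρ hr hgen x = 0) :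
    reductionPic0Along ρ hr hgen (TP x) = 0 := by
  obtain ⟨D, rfl, hD⟩ := exists_rep hπ hr hgen hx
  let r : Divisor.degZero (K := Qb) (F := FF N) →+ (Place k (modularFunctionFieldFullC k N) →₀ ℤ) :=
    (Finsupp.mapDomain.addMonoidHom ρ).comp (Divisor.degZero (K := Qb) (F := FF N)).subtype
  have hrr : ∀ D, r D = Finsupp.mapDomain ρ (D : Divisor Qb (FF N)) := fun _ => rfl
  have key : r (T D) = 0 := by
    refine abs_kernel T r (fun D => Pic0.mk D = 0) ?_ ?_ hD
    · intro D hD hrD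
      obtain ⟨u, hu, hDu⟩ := (H33.mk_eq_zero_iff _).mp hD
      exact hprin u D hu hDu hrD
    · intro D hD n hn
      have h1 : reductionPic0Along ρ hr hgen (Pic0.mk D) = 0 := by
        rw [reductionPic0Along_mk, ← Pic0.mk_zero]
        congr 1
        exact Subtype.ext hD
      obtain ⟨y, hy, hyx⟩ := hdiv _ h1 n hn
      obtain ⟨E, rfl, hE⟩ := exists_rep hπ hr hgen hy
      refine ⟨E, hE, ?_⟩
      have h2 : (Pic0.mk (D - n • E) : Pic0 Qb (FF N)) = Pic0.mk D - n • Pic0.mk E := rfl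
      show (Pic0.mk (D - n • E) : Pic0 Qb (FF N)) = 0
      rw [h2, hyx, sub_self]
  rw [hTP, reductionPic0Along_mk, ← Pic0.mk_zero]
  congr 1
  exact Subtype.ext key

end Ker

section Hecke

variable {A : ValuationSubring Qb} {k : Type*} [Field k] [IsAlgClosed k] {π : A →+* k}
  {N q : ℕ} [NeZero N] [NeZero q]
  {ρ : Place Qb (FF N) → Place k (modularFunctionFieldFullC k N)}

/-- the Hecke operator `T_q` (or `U_q`), `q` prime to the residue characteristic, preserves the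
kernel of reduction -/
theorem hecke_stable [HasPrincipalDivisors Qb (FF N)] [HasPrincipalDivisors Qb (FF (N * q))]
    [H94.FunField Qb (FF N)] [H94.FunField k (modularFunctionFieldFullC k N)]
    (hπ : Function.Surjective π) [IsLocalHom π]
    (hMk : ((N * q : ℕ) : k) ≠ 0)
    (hr : IsPlaceReductionAlong A π N ρ) (hgen : PrincipalGeneratedByIntegral A π N)
    (hα : HeckeAlphaBarIntegral Qb N q) (hβ : HeckeBetaBarIntegral Qb N q)
    (hFI : FundamentalIdentityAlong Qb (heckeBetaBar Qb N q) hβ)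
    (hfin : FiniteAlong Qb (heckeAlphaBar Qb N q))
    (hNF : NormFormulaAlong Qb (heckeAlphaBar Qb N q) hfin)
    (hdiv : ∀ x, reductionPic0Along ρ hr hgen x = 0 → ∀ n : ℕ, 0 < n →
      ∃ y, reductionPic0Along ρ hr hgen y = 0 ∧ n • y = x)
    {x : Pic0 Qb (FF N)} (hx : reductionPic0Along ρ hr hgen x = 0) :
    reductionPic0Along ρ hr hgen (heckePic0Bar hα hβ hFI hfin hNF x) = 0 := by
  refine kernel_stable hπ hr hgen
    (Pic0.degZeroCorrespondence (heckeBetaBar Qb N q) (heckeAlphaBar Qb N q) hβ hα hFI)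
    (heckePic0Bar hα hβ hFI hfin hNF) (fun D => rfl) ?_ hdiv hx
  intro u D hu hD hrD
  obtain ⟨s, hs⟩ := H12F.exists_redOf hgen hu
  have hs0 : ∀ Q : Place k (modularFunctionFieldFullC k N), Q.ord s = 0 := by
    intro Q
    rw [← hs.ord_eq hr hD Q, hrD]
    rfl
  obtain ⟨c, hc⟩ := H18.exists_eq_algebraMap_of_forall_ord_eq_zero (K := k) hs0
  rw [hc] at hs
  obtain ⟨c', hc'⟩ := norm_const (q := q) hπ hMk hs
  ext Q
  rw [hc'.ord_eq hr (D := ((Pic0.degZeroCorrespondence (heckeBetaBar Qb N q) (heckeAlphaBar Qb N q)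
    hβ hα hFI D : Divisor.degZero (K := Qb) (F := FF N)) : Divisor Qb (FF N)))
    (fun v => H60.correspondence_apply_eq_ord (heckeBetaBar Qb N q) (heckeAlphaBar Qb N q) hβ hα
      hfin hNF hu hD v) Q, IsKum.ord_algebraMap]
  rfl

end Hecke

end Fermat.Agent.H12G
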