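import Fermat.Agent.H12GKer
import Fermat.Agent.H12FMain

/-!
# MZ-J2: Hecke stability of the kernel of reduction, `q ≠ ℓ` (helper12)
-/

set_option autoImplicit false

noncomputable section

namespace Fermat.Agent.H12G

open ModularCurve AlgebraicCurve Fermat.Agent.H15

local notation "Qb" => AlgebraicClosure ℚ
local notation "FF" N => laurentBaseChange (AlgebraicClosure ℚ) (modularFunctionFieldFull N)

theorem div_all {G : Type*} [AddCommGroup G] {K : AddSubgroup G}
    (h : ∀ p : ℕ, p.Prime → ∀ x ∈ K, ∃ y ∈ K, p • y = x) (n : ℕ) :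
    0 < n → ∀ x ∈ K, ∃ y ∈ K, n • y = x := by
  induction n using Nat.recOnMul with
  | zero => intro h0; exact absurd h0 (lt_irrefl 0)
  | one => intro _ x hx; exact ⟨x, hx, one_smul _ x⟩
  | prime p hp => intro _; exact h p hp
  | mul a b ha hb =>
    intro hab x hx
    obtain ⟨y, hy, hyx⟩ := ha (Nat.pos_of_mul_pos_right hab) x hx
    obtain ⟨z, hz, hzy⟩ := hb (Nat.pos_of_mul_pos_left hab) y hy
    exact ⟨z, hz, by rw [mul_smul, hzy, hyx]⟩

set_option synthInstance.maxHeartbeats 400000 in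
set_option maxHeartbeats 4000000 in
/-- `T_q` (`q ≠ ℓ`) preserves the kernel of reduction -/
theorem hecke_mem (hdivR : T_divRed) (N : ℕ) [NeZero N] {ℓ : ℕ} (hℓ : ℓ.Prime) (hℓN : ¬ ℓ ∣ N)
    {A : ValuationSubring Qb} (hA : A.LiesOverPrime ℓ) (q : Nat.Primes) (hqℓ : (q : ℕ) ≠ ℓ)
    {x : JZero N} (hx : x ∈ KJ N A) : heckeOperatorBar N q x ∈ KJ N A := by
  obtain ⟨q, hq⟩ := q
  have : NeZero q := ⟨hq.ne_zero⟩
  have : Fact ℓ.Prime := ⟨hℓ⟩
  have : CharP (IsLocalRing.ResidueField A) ℓ := H60.charP_residue hℓ hA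
  have hMk : ((N * q : ℕ) : IsLocalRing.ResidueField A) ≠ 0 := by
    rw [Ne, CharP.cast_eq_zero_iff (IsLocalRing.ResidueField A) ℓ]
    intro h
    rcases (hℓ.dvd_mul).mp h with h | h
    · exact hℓN h
    · exact hqℓ ((Nat.prime_dvd_prime_iff_eq hℓ hq).mp h).symm
  have hred := H17.reductionInputs N hℓ hℓN A hA
  have hr := hred.choose_spec.1
  have hgen := hred.choose_spec.2
  have hs : reductionModL A N = reductionPic0Along hred.choose hr hgen := reductionAlong_eq hred
  have := H42.funField_res hℓ hA hℓN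
  obtain ⟨hα, hβ, hPD, hfin, hFI, hNF⟩ := H67.heckeInputsAlong_of_degreeFact (H42.degreeFact Qb) N q
  have hop : heckeOperatorBar N ⟨q, hq⟩ x = heckePic0Bar hα hβ hFI hfin hNF x := by
    exact (heckeOperatorBar_apply N (⟨q, hq⟩ : Nat.Primes) x).trans
      (DFunLike.congr_fun (heckeOperatorAlong_eq hα hβ hFI hfin hNF) x)
  have hx' : reductionPic0Along hred.choose hr hgen x = 0 := by
    rw [← hs]; exact hx
  show reductionModL A N _ = 0
  rw [hop, hs]
  refine hecke_stable IsLocalRing.residue_surjective hMk hr hgen hα hβ hFI hfin hNF ?_ hx'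
  intro y hy n hn
  have hy' : y ∈ KJ N A := by
    show reductionModL A N y = 0
    rw [hs]; exact hy
  obtain ⟨z, hz, hzy⟩ := div_all (hdivR N ℓ hℓ hℓN A hA) n hn y hy'
  refine ⟨z, ?_, hzy⟩
  rw [← hs]; exact hz

end Fermat.Agent.H12G
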