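import Fermat.Agent.H12FRed
import Fermat.Agent.H88Mod
import Fermat.Agent.H60S37

/-!
# MZ-J2: norms and reductions (helper12)
-/

set_option autoImplicit false

noncomputable section

namespace Fermat.Agent.H12G

open ModularCurve AlgebraicCurve IntermediateField
open Fermat.Agent.H33 (IsKum cst)
open Fermat.Agent.H18 (IsInt)
open Fermat.Agent.H12F (RedOf)

local notation "Qb" => AlgebraicClosure ℚ
local notation "FF" N => laurentBaseChange (AlgebraicClosure ℚ) (modularFunctionFieldFull N)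

section Basic

variable {A : ValuationSubring Qb} {k : Type*} [Field k] {π : A →+* k} {N : ℕ}

theorem redOf_smul {u : FF N} {s : modularFunctionFieldFullC k N} (h : RedOf π N u s) {a : Qb}
    (ha : a ≠ 0) : RedOf π N (algebraMap Qb (FF N) a * u) s := by
  obtain ⟨c, g, h', hc, hg, hh, hg0, hh0, hu, hs⟩ := h
  refine ⟨a * c, g, h', mul_ne_zero ha hc, hg, hh, hg0, hh0, ?_, hs⟩
  rw [H33.cst_mul, mul_assoc, ← hu, ← mul_assoc]
  rfl

theorem cst_one' {K : Type*} [Field K] : (cst (1 : K)) = 1 := map_one (algebraMap K (LaurentSeries K))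

/-- an element of the local ring with nonzero reduction -/
theorem redOf_of_mem (hπ : Function.Surjective π) [IsLocalHom π] (hd : H42.DegLE Qb k N)
    (f : (H42.modReductionData A π N hπ hd).B) (hf : (H42.modReductionData A π N hπ hd).ρ f ≠ 0) :
    RedOf π N (f : FF N) ((H42.modReductionData A π N hπ hd).ρ f) := by
  obtain ⟨f, y, z, hz, hf'⟩ := f
  have h2 : (H42.modReductionData A π N hπ hd).ρ ⟨f, y, z, hz, hf'⟩ =
      (H42.modGauss A π N hπ hd).ρ y / (H42.modGauss A π N hπ hd).ρ z :=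
    (H42.modGauss A π N hπ hd).res_eq_div ⟨f, y, z, hz, hf'⟩ hz hf'
  rw [h2] at hf ⊢
  have hy : (H42.modGauss A π N hπ hd).ρ y ≠ 0 := fun h0 => hf (by rw [h0, zero_div])
  obtain ⟨⟨g, hg'⟩, y₀, hyg⟩ := y
  obtain rfl : coeffMap A.subtype y₀ = g := hyg
  obtain ⟨⟨g, hgz⟩, z₀, hzg⟩ := z
  obtain rfl : coeffMap A.subtype z₀ = g := hzg
  have ey := H42.coe_modGauss_ρ A π N hπ hd y₀ hg'
  have ez := H42.coe_modGauss_ρ A π N hπ hd z₀ hgz
  have hy0 : coeffMap π y₀ ≠ 0 := fun h0 => hy (Subtype.ext (ey.trans h0))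
  have hz0 : coeffMap π z₀ ≠ 0 := fun h0 => hz (Subtype.ext (ez.trans h0))
  refine ⟨1, y₀, z₀, one_ne_zero, ⟨hg', H42.coeffMap_mem_full A π N hπ hd y₀ hg'⟩,
    ⟨hgz, H42.coeffMap_mem_full A π N hπ hd z₀ hgz⟩, hy0, hz0, ?_, ?_⟩
  · have h1 : cst (1 : Qb) * coeffMap A.subtype y₀ = coeffMap A.subtype y₀ := by
      rw [cst_one', one_mul]
    refine Eq.trans ?_ h1.symm
    exact congrArg Subtype.val hf'
  · have e := div_mul_cancel₀ ((H42.modGauss A π N hπ hd).ρ ⟨⟨coeffMap A.subtype y₀, hg'⟩, y₀, rfl⟩) hz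
    have e' := congrArg Subtype.val e
    rw [← ey, ← ez]
    exact e'

end Basic

section Degree

variable {k : Type*} [Field k] [IsAlgClosed k] {N q : ℕ} [NeZero N] [NeZero q]

theorem finrank_eq (hMk : ((N * q : ℕ) : k) ≠ 0)
    (hEle : modularFunctionFieldFullC k N ≤ modularFunctionFieldFullC k (N * q))
    (hFle : (FF N) ≤ FF (N * q)) :
    @Module.finrank (FF N) (FF (N * q)) _ _ (inclusion hFle).toAlgebra.toModule =
      @Module.finrank (modularFunctionFieldFullC k N) (modularFunctionFieldFullC k (N * q)) _ _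
        (inclusion hEle).toAlgebra.toModule ∧
      @Module.finrank (modularFunctionFieldFullC k N) (modularFunctionFieldFullC k (N * q)) _ _
        (inclusion hEle).toAlgebra.toModule ≠ 0 := by
  have hN0 : N ≠ 0 := NeZero.ne N
  have hM0 : N * q ≠ 0 := mul_ne_zero (NeZero.ne N) (NeZero.ne q)
  have hN : (N : k) ≠ 0 := fun h0 => hMk (by rw [Nat.cast_mul, h0, zero_mul])
  have hjN : jqModC Qb ∈ FF N := by
    rw [H42.laurentBaseChange_full]; exact jqModC_mem_full Qb N
  have hjM : jqModC Qb ∈ FF (N * q) := by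
    rw [H42.laurentBaseChange_full]; exact jqModC_mem_full Qb (N * q)
  have d1 := H88.finrank_j Qb N _ (H42.laurentBaseChange_full Qb N) hjN (Nat.cast_ne_zero.mpr hN0)
  have d2 := H88.finrank_j Qb (N * q) _ (H42.laurentBaseChange_full Qb (N * q)) hjM
    (Nat.cast_ne_zero.mpr hM0)
  have d3 := H88.finrank_j k N _ rfl (jqModC_mem_full k N) hN
  have d4 := H88.finrank_j k (N * q) _ rfl (jqModC_mem_full k (N * q)) hMk
  let aE : Algebra (modularFunctionFieldFullC k N) (modularFunctionFieldFullC k (N * q)) :=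
    (inclusion hEle).toAlgebra
  let aF : Algebra (FF N) (FF (N * q)) := (inclusion hFle).toAlgebra
  have tE : IsScalarTower k (modularFunctionFieldFullC k N) (modularFunctionFieldFullC k (N * q)) :=
    IsScalarTower.of_algebraMap_eq fun c => ((inclusion hEle).commutes c).symm
  have tF : IsScalarTower Qb (FF N) (FF (N * q)) :=
    IsScalarTower.of_algebraMap_eq fun c => ((inclusion hFle).commutes c).symm
  have e1 : Module.finrank Qb⟮(⟨jqModC Qb, hjM⟩ : FF (N * q))⟯ (FF (N * q)) = _ :=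
    H88.finrank_adjoin_algebraMap (K := Qb) (F' := FF (N * q)) (⟨jqModC Qb, hjN⟩ : FF N)
  have e2 : Module.finrank k⟮(⟨jqModC k, jqModC_mem_full k (N * q)⟩ :
      modularFunctionFieldFullC k (N * q))⟯ (modularFunctionFieldFullC k (N * q)) = _ :=
    H88.finrank_adjoin_algebraMap (K := k) (F' := modularFunctionFieldFullC k (N * q))
      (⟨jqModC k, jqModC_mem_full k N⟩ : modularFunctionFieldFullC k N)
  rw [d1.1, d2.1] at e1
  rw [d3.1, d4.1] at e2
  refine ⟨Nat.eq_of_mul_eq_mul_left (Nat.pos_of_ne_zero d1.2) (e1.symm.trans e2), fun h0 => ?_⟩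
  rw [h0, mul_zero] at e2
  exact d4.2 e2

end Degree

section Norm

variable {A : ValuationSubring Qb} {k : Type*} [Field k] [IsAlgClosed k] {π : A →+* k}
  {N q : ℕ} [NeZero N] [NeZero q]

set_option synthInstance.maxHeartbeats 400000 in
set_option maxHeartbeats 1000000 in
/-- the norm of `β u` has constant reduction if `u` has constant reduction -/
theorem norm_const (hπ : Function.Surjective π) [IsLocalHom π] (hMk : ((N * q : ℕ) : k) ≠ 0)
    {u : FF N} {c : k}
    (h : RedOf π N u (algebraMap k (modularFunctionFieldFullC k N) c)) :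
    ∃ c' : k, RedOf π N (H60.normAlong (heckeAlphaBar Qb N q) (heckeBetaBar Qb N q u))
      (algebraMap k (modularFunctionFieldFullC k N) c') := by
  have hc : c ≠ 0 := by
    rintro rfl
    exact h.ne_zero (map_zero _)
  have hN0 : N ≠ 0 := NeZero.ne N
  have hM0 : N * q ≠ 0 := mul_ne_zero (NeZero.ne N) (NeZero.ne q)
  have hN : (N : k) ≠ 0 := fun h0 => hMk (by rw [Nat.cast_mul, h0, zero_mul])
  have hdN : H42.DegLE Qb k N := H88.degLE (L := Qb) N hN
  have hdM : H42.DegLE Qb k (N * q) := H88.degLE (L := Qb) (N * q) hMk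
  have hEle : modularFunctionFieldFullC k N ≤ modularFunctionFieldFullC k (N * q) :=
    H66.full_mono k hN0 hM0 (dvd_mul_right N q)
  have hFle : (FF N) ≤ FF (N * q) := by
    rw [H42.laurentBaseChange_full, H42.laurentBaseChange_full]
    exact H66.full_mono Qb hN0 hM0 (dvd_mul_right N q)
  obtain ⟨c₀, g, h', hc₀, hg, hh, hg0, hh0, hu, hs⟩ := h
  -- the integral functions `β g`, `β h`
  have hβ : ∀ y : LaurentSeries A, ∀ hy : IsInt π N y,
      coeffMap A.subtype (qExpand A q y) ∈ FF (N * q) := by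
    intro y hy
    rw [coeffMap_qExpand]
    exact (heckeBetaBar Qb N q ⟨coeffMap A.subtype y, hy.1⟩).2
  have hgB : (⟨coeffMap A.subtype (qExpand A q g), hβ g hg⟩ : FF (N * q)) ∈
    (H42.modGauss A π (N * q) hπ hdM).B := ⟨qExpand A q g, rfl⟩
  have hhB : (⟨coeffMap A.subtype (qExpand A q h'), hβ h' hh⟩ : FF (N * q)) ∈
    (H42.modGauss A π (N * q) hπ hdM).B := ⟨qExpand A q h', rfl⟩
  have eg := H42.coe_modGauss_ρ A π (N * q) hπ hdM (qExpand A q g) (hβ g hg)
  have eh := H42.coe_modGauss_ρ A π (N * q) hπ hdM (qExpand A q h') (hβ h' hh)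
  have hh0' : (H42.modGauss A π (N * q) hπ hdM).ρ ⟨_, hhB⟩ ≠ 0 := by
    intro h0
    have h1 : coeffMap π (qExpand A q h') = 0 := eh.symm.trans (congrArg Subtype.val h0)
    rw [coeffMap_qExpand] at h1
    exact hh0 ((map_eq_zero_iff _ (qExpand_injective q)).mp h1)
  -- the normalised function
  obtain ⟨u', hu'⟩ : ∃ u' : FF N, u' = algebraMap Qb (FF N) c₀⁻¹ * u := ⟨_, rfl⟩
  have hu'' : u = algebraMap Qb (FF N) c₀ * u' := by
    rw [hu', ← mul_assoc, ← map_mul, mul_inv_cancel₀ hc₀, map_one, one_mul]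
  have hcst : ∀ a : Qb, ((algebraMap Qb (FF N) a : FF N) : LaurentSeries Qb) = cst a := fun _ => rfl
  have hu1 : (u' : LaurentSeries Qb) * coeffMap A.subtype h' = coeffMap A.subtype g := by
    have h1 : (u' : LaurentSeries Qb) = cst c₀⁻¹ * (u : LaurentSeries Qb) :=
      congrArg Subtype.val hu'
    rw [h1, mul_assoc, hu, ← mul_assoc, ← H33.cst_mul, inv_mul_cancel₀ hc₀, cst_one', one_mul]
  have hmul : heckeBetaBar Qb N q u' * ⟨coeffMap A.subtype (qExpand A q h'), hβ h' hh⟩ =
      (⟨coeffMap A.subtype (qExpand A q g), hβ g hg⟩ : FF (N * q)) := by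
    apply Subtype.ext
    show qExpand Qb q (u' : LaurentSeries Qb) * coeffMap A.subtype (qExpand A q h') =
      coeffMap A.subtype (qExpand A q g)
    rw [coeffMap_qExpand, coeffMap_qExpand, ← map_mul, hu1]
  have hmem : heckeBetaBar Qb N q u' ∈ (H42.modReductionData A π (N * q) hπ hdM).B :=
    ⟨⟨_, hgB⟩, ⟨_, hhB⟩, hh0', hmul⟩
  have hρ : (H42.modReductionData A π (N * q) hπ hdM).ρ ⟨heckeBetaBar Qb N q u', hmem⟩ =
      algebraMap k (modularFunctionFieldFullC k (N * q)) c := by
    have h2 : (H42.modReductionData A π (N * q) hπ hdM).ρ ⟨heckeBetaBar Qb N q u', hmem⟩ =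
        (H42.modGauss A π (N * q) hπ hdM).ρ ⟨_, hgB⟩ /
          (H42.modGauss A π (N * q) hπ hdM).ρ ⟨_, hhB⟩ :=
      (H42.modGauss A π (N * q) hπ hdM).res_eq_div ⟨heckeBetaBar Qb N q u', hmem⟩ hh0' hmul
    rw [h2, div_eq_iff hh0']
    apply Subtype.ext
    have h3 : (((H42.modGauss A π (N * q) hπ hdM).ρ ⟨_, hgB⟩ :
        modularFunctionFieldFullC k (N * q)) : LaurentSeries k) =
        qExpand k q (coeffMap π g) := by
      rw [← coeffMap_qExpand]
      exact eg
    have h4 : (((H42.modGauss A π (N * q) hπ hdM).ρ ⟨_, hhB⟩ :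
        modularFunctionFieldFullC k (N * q)) : LaurentSeries k) =
        qExpand k q (coeffMap π h') := by
      rw [← coeffMap_qExpand]
      exact eh
    have h5 : cst c * coeffMap π h' = coeffMap π g := hs
    refine h3.trans ?_
    rw [← h5, map_mul, ← h4]
    have h6 : qExpand k q (cst c) = cst c := H33.qExpand_algebraMap q c
    rw [h6]
    rfl
  -- the two extensions
  let aE : Algebra (modularFunctionFieldFullC k N) (modularFunctionFieldFullC k (N * q)) :=
    (inclusion hEle).toAlgebra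
  let aF : Algebra (FF N) (FF (N * q)) := (inclusion hFle).toAlgebra
  have tE : IsScalarTower k (modularFunctionFieldFullC k N) (modularFunctionFieldFullC k (N * q)) :=
    IsScalarTower.of_algebraMap_eq fun c => ((inclusion hEle).commutes c).symm
  have tF : IsScalarTower Qb (FF N) (FF (N * q)) :=
    IsScalarTower.of_algebraMap_eq fun c => ((inclusion hFle).commutes c).symm
  obtain ⟨hd, hd0⟩ := finrank_eq (N := N) (q := q) hMk hEle hFle
  have f1 : Module.Finite (FF N) (FF (N * q)) :=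
    Module.finite_of_finrank_pos (Nat.pos_of_ne_zero (hd ▸ hd0))
  have f2 : Module.Finite (modularFunctionFieldFullC k N) (modularFunctionFieldFullC k (N * q)) :=
    Module.finite_of_finrank_pos (Nat.pos_of_ne_zero hd0)
  have hcomp := H88.comp_red A π hπ hdN hdM hFle hEle
  have C : H88.RedCompat (H42.modReductionData A π N hπ hdN)
      (H42.modReductionData A π (N * q) hπ hdM) :=
    { mem := fun f hf => (hcomp ⟨f, hf⟩).1
      comm := fun f _ => (hcomp f).2 }
  obtain ⟨b, hb, hbρ⟩ := (C.norm_trace hd ⟨heckeBetaBar Qb N q u', hmem⟩).1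
  have hbρ' : (H42.modReductionData A π N hπ hdN).ρ b =
      algebraMap k (modularFunctionFieldFullC k N) (c ^ Module.finrank (modularFunctionFieldFullC k N)
        (modularFunctionFieldFullC k (N * q))) := by
    rw [hbρ, hρ, IsScalarTower.algebraMap_apply k (modularFunctionFieldFullC k N)
      (modularFunctionFieldFullC k (N * q)), Algebra.norm_algebraMap, map_pow]
  have hbne : (H42.modReductionData A π N hπ hdN).ρ b ≠ 0 := by
    rw [hbρ']
    exact (_root_.map_ne_zero _).mpr (pow_ne_zero _ hc)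
  refine ⟨c ^ Module.finrank (modularFunctionFieldFullC k N)
        (modularFunctionFieldFullC k (N * q)), ?_⟩
  have h1 := redOf_of_mem hπ hdN b hbne
  rw [hbρ'] at h1
  have h2 : H60.normAlong (heckeAlphaBar Qb N q) (heckeBetaBar Qb N q u) =
      algebraMap Qb (FF N) (c₀ ^ Module.finrank (FF N) (FF (N * q))) * (b : FF N) := by
    rw [hb]
    have h3 : heckeBetaBar Qb N q u = algebraMap (FF N) (FF (N * q)) (algebraMap Qb (FF N) c₀) *
        heckeBetaBar Qb N q u' := by
      rw [hu'', map_mul, AlgHom.commutes, ← IsScalarTower.algebraMap_apply Qb (FF N)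
        (FF (N * q))]
    have h4 : H60.normAlong (heckeAlphaBar Qb N q) (heckeBetaBar Qb N q u) =
        Algebra.norm (FF N) (heckeBetaBar Qb N q u) := rfl
    rw [h4, h3, map_mul, Algebra.norm_algebraMap, map_pow]
  rw [h2]
  exact redOf_smul h1 (pow_ne_zero _ hc₀)

end Norm

end Fermat.Agent.H12G
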