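import Fermat.Agent.H12GMain
import Fermat.Agent.H17DivRed
import Fermat.Agent.H18HkGen

/-!
# MZ-J2: `T_heckeRed` (helper12)
-/

set_option autoImplicit false

namespace Fermat.Agent.H12G

/-- **The kernels of reduction of `J₀(N)` are stable under the Hecke algebra** -/
theorem heckeRed : H15.T_heckeRed :=
  H18.t_heckeRed_of_gens fun N _ _ hℓ hℓN _ hA q hq _ hx =>
    hecke_mem H17.divRed N hℓ hℓN hA q hq hx

end Fermat.Agent.H12G
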