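import Fermat.Agent.H31Hyp2

/-!
# Integrability of powers of the heights on Siegel sets (helper12, S47, package DE8)

`∏_j y_j ^ A` is integrable on `{x : J → H3 | ∀ j, c ≤ y_j ∧ ‖z_j‖ ≤ R}` for `A < 2`. Hence every
measurable function bounded by a multiple of `∏_j y_j ^ A`, `A < 2`, on a Siegel set is integrable
there (no balancing of the heights is needed).
-/

set_option autoImplicit false

open MeasureTheory Set

namespace Fermat.Agent.H12L1

/-- One factor. -/
noncomputable def f1 (A c R : ℝ) (w : H3) : ℝ := by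
  classical
  exact if c ≤ w.y ∧ ‖w.z‖ ≤ R then w.y ^ A else 0

theorem f1_nonneg (A c R : ℝ) (w : H3) : 0 ≤ f1 A c R w := by
  unfold f1
  split_ifs
  · exact Real.rpow_nonneg w.pos.le _
  · exact le_refl _

theorem f1_eq {A c R : ℝ} {w : H3} (h : c ≤ w.y ∧ ‖w.z‖ ≤ R) : f1 A c R w = w.y ^ A := by
  unfold f1
  rw [if_pos h]

theorem integrable_f1 {A : ℝ} (hA : A < 2) {c : ℝ} (hc : 0 < c) (R : ℝ) :
    Integrable (f1 A c R) := by
  have h0 : (f1 A c R) = fun w : H3 =>
      (fun (z : ℂ) (y : ℝ) => (Metric.closedBall (0 : ℂ) R).indicator (fun _ => (1 : ℝ)) z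
        * (Ici c).indicator (fun y => y ^ A) y) w.z w.y := by
    funext w
    unfold f1
    by_cases h1 : c ≤ w.y
    · by_cases h2 : ‖w.z‖ ≤ R
      · rw [if_pos ⟨h1, h2⟩]
        simp only
        rw [indicator_of_mem (by simpa using h2), indicator_of_mem (by simpa using h1), one_mul]
      · rw [if_neg (fun h => h2 h.2)]
        simp only
        rw [indicator_of_notMem (by simpa using h2), zero_mul]
    · rw [if_neg (fun h => h1 h.1)]
      simp only
      rw [indicator_of_notMem (s := Ici c) (by simpa using h1), mul_zero]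
  rw [h0]
  refine (H3.integrable_iff (fun (z : ℂ) (y : ℝ) =>
    (Metric.closedBall (0 : ℂ) R).indicator (fun _ => (1 : ℝ)) z
      * (Ici c).indicator (fun y => y ^ A) y)).2 ?_
  refine Integrable.mul_prod (f := (Metric.closedBall (0 : ℂ) R).indicator (fun _ => (1 : ℝ)))
    (g := (Ici c).indicator (fun y : ℝ => y ^ A)) ?_ ?_
  · rw [integrable_indicator_iff Metric.isClosed_closedBall.measurableSet]
    exact integrableOn_const (by
      exact (isCompact_closedBall (0 : ℂ) R).measure_lt_top.ne)
  · rw [H3.yMeasure, integrable_withDensity_iff H3.measurable_dens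
      (Filter.Eventually.of_forall fun y => ENNReal.ofReal_lt_top)]
    have h1 : (fun x : ℝ => (Ici c).indicator (fun y : ℝ => y ^ A) x
        * (ENNReal.ofReal ((x ^ 3)⁻¹)).toReal)
        = (Ici c).indicator (fun y : ℝ => y ^ (A - 3)) := by
      funext x
      by_cases hx : x ∈ Ici c
      · have hx0 : 0 < x := lt_of_lt_of_le hc hx
        rw [indicator_of_mem hx, indicator_of_mem hx, ENNReal.toReal_ofReal (by positivity),
          Real.rpow_sub hx0, div_eq_mul_inv]
        congr 2
        exact_mod_cast (Real.rpow_natCast x 3).symm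
      · rw [indicator_of_notMem hx, indicator_of_notMem hx, zero_mul]
    rw [h1, integrable_indicator_iff measurableSet_Ici]
    refine IntegrableOn.mono_measure ?_ Measure.restrict_le_self
    rw [integrableOn_Ici_iff_integrableOn_Ioi]
    exact integrableOn_Ioi_rpow_of_lt (by linarith) hc

variable {J : Type*} [Fintype J]

/-- **Powers `A < 2` of the heights are integrable on Siegel sets.** -/
theorem integrable_prod_f1 {A : ℝ} (hA : A < 2) {c : ℝ} (hc : 0 < c) (R : ℝ) :
    Integrable (fun x : J → H3 => ∏ j, f1 A c R (x j)) :=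
  Integrable.fintype_prod (f := fun _ : J => f1 A c R) fun _ => integrable_f1 hA hc R

/-- A function on a measurable part of a Siegel set bounded by `C ∏_j y_j ^ A`, `A < 2`, is
integrable. -/
theorem integrableOn_of_bound {E : Type*} [NormedAddCommGroup E] {A : ℝ} (hA : A < 2) {c : ℝ}
    (hc : 0 < c) (R C : ℝ) (S : Set (J → H3)) (hS : MeasurableSet S)
    (hSs : ∀ x ∈ S, ∀ j, c ≤ (x j).y ∧ ‖(x j).z‖ ≤ R) (f : (J → H3) → E)
    (hf : AEStronglyMeasurable f (volume.restrict S))
    (hb : ∀ x ∈ S, ‖f x‖ ≤ C * ∏ j, (x j).y ^ A) : IntegrableOn f S := by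
  refine Integrable.mono' (((integrable_prod_f1 (J := J) hA hc R).const_mul C).integrableOn
    (s := S)) hf ?_
  rw [ae_restrict_iff' hS]
  refine Filter.Eventually.of_forall fun x hx => ?_
  have : (∏ j, f1 A c R (x j)) = ∏ j, (x j).y ^ A :=
    Finset.prod_congr rfl fun j _ => f1_eq (hSs x hx j)
  rw [this]
  exact hb x hx

end Fermat.Agent.H12L1
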