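import Mathlib

/-!
# Norms modulo ideals (helper12, block (D) of the S47 plan, input of D-GAUSS / D-LEVEL)

`O` is a Dedekind domain with finite residue fields, `β ∈ O`, and `n` is an ideal such that every
prime which does not contain `n` does not contain `2 β`. Then every `d = 1 + 4 t`, `t ∈ n ^ 2`,
prime to the ideal `c`, is modulo `c` of the form `x ^ 2 - β y ^ 2` with `x - 1 ∈ n` and `y ∈ n`.
-/

set_option autoImplicit false

namespace Fermat.Agent.H12NS

variable {O : Type*} [CommRing O] [IsDedekindDomain O]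

theorem isCoprime_of_prime_of_not_le {P n : Ideal O} (hP : Prime P) (h : ¬ n ≤ P) :
    IsCoprime P n := by
  have hP0 : P ≠ ⊥ := hP.ne_zero
  have hPp : P.IsPrime := Ideal.isPrime_of_prime hP
  have hPm : P.IsMaximal := hPp.isMaximal hP0
  rw [Ideal.isCoprime_iff_sup_eq]
  exact hPm.1.2 _ (lt_of_le_of_ne le_sup_left (fun heq => h (heq ▸ le_sup_right)))

/-- Splitting of an ideal into the part supported on `n` and the part prime to `n`. -/
theorem exists_split (n c : Ideal O) (hc : c ≠ ⊥) :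
    ∃ (cb cg : Ideal O) (j : ℕ), c = cb * cg ∧ IsCoprime cg n ∧ n ^ j ≤ cb := by
  revert hc
  refine UniqueFactorizationMonoid.induction_on_prime c ?_ ?_ ?_
  · intro h; exact absurd rfl h
  · intro x hx _
    have hx1 : x = ⊤ := by
      rwa [Ideal.isUnit_iff] at hx
    refine ⟨⊤, ⊤, 0, ?_, ?_, ?_⟩
    · rw [hx1]; simp
    · rw [Ideal.isCoprime_iff_sup_eq]; simp
    · simp
  · intro a p ha hp ih _
    obtain ⟨cb, cg, j, h1, h2, h3⟩ := ih ha
    by_cases hnp : n ≤ p
    · refine ⟨p * cb, cg, j + 1, ?_, h2, ?_⟩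
      · rw [h1, mul_assoc]
      · rw [pow_succ, mul_comm]
        exact Ideal.mul_mono hnp h3
    · refine ⟨cb, p * cg, j, ?_, ?_, h3⟩
      · rw [h1]; ring
      · exact (isCoprime_of_prime_of_not_le hp hnp).mul_left h2

/-- Square roots near `1`, modulo powers of an ideal. -/
theorem exists_sq_near (n : Ideal O) (t : O) (ht : t ∈ n ^ 2) (j : ℕ) :
    ∃ s ∈ n ^ 2, (1 + 2 * s) ^ 2 - (1 + 4 * t) ∈ n ^ j := by
  have key : ∀ k : ℕ, ∃ s ∈ n ^ 2, s ^ 2 + s - t ∈ n ^ (2 + k) := by
    intro k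
    induction k with
    | zero =>
      refine ⟨0, Ideal.zero_mem _, ?_⟩
      simpa using ht
    | succ k ih =>
      obtain ⟨s, hs, h⟩ := ih
      refine ⟨t - s ^ 2, ?_, ?_⟩
      · refine Ideal.sub_mem _ ht ?_
        rw [pow_two s]
        exact Ideal.mul_mem_left _ _ hs
      · have e : (t - s ^ 2) ^ 2 + (t - s ^ 2) - t
            = (s ^ 2 + s - t) * (s ^ 2 - s - t) := by ring
        rw [e]
        have h2 : s ^ 2 - s - t ∈ n ^ 1 := by
          have hle : n ^ 2 ≤ n ^ 1 := Ideal.pow_le_pow_right (by norm_num)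
          refine Ideal.sub_mem _ (Ideal.sub_mem _ ?_ (hle hs)) (hle ht)
          rw [pow_two s]
          exact Ideal.mul_mem_left _ _ (hle hs)
        have := Ideal.mul_mem_mul h h2
        rwa [← pow_add] at this
  obtain ⟨s, hs, h⟩ := key j
  refine ⟨s, hs, ?_⟩
  have e : (1 + 2 * s) ^ 2 - (1 + 4 * t) = 4 * (s ^ 2 + s - t) := by ring
  rw [e]
  exact Ideal.mul_mem_left _ _ (Ideal.pow_le_pow_right (by omega) h)

/-- The residue field case. -/
theorem exists_residue {P : Ideal O} (hP : Prime P) (hfin : Finite (O ⧸ P)) (β d : O)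
    (h2β : 2 * β ∉ P) : ∃ x y : O, x ^ 2 - β * y ^ 2 - d ∈ P := by
  classical
  have hP0 : P ≠ ⊥ := hP.ne_zero
  have hPp : P.IsPrime := Ideal.isPrime_of_prime hP
  have hPm : P.IsMaximal := hPp.isMaximal hP0
  let _ : Field (O ⧸ P) := Ideal.Quotient.field P
  have _ : Fintype (O ⧸ P) := Fintype.ofFinite _
  have hβ : Ideal.Quotient.mk P β ≠ 0 := by
    intro h
    exact h2β (Ideal.mul_mem_left _ _ (Ideal.Quotient.eq_zero_iff_mem.1 h))
  have h2 : (2 : O ⧸ P) ≠ 0 := by
    intro h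
    apply h2β
    have : Ideal.Quotient.mk P (2 : O) = 0 := by
      rw [map_ofNat]; exact h
    exact Ideal.mul_mem_right _ _ (Ideal.Quotient.eq_zero_iff_mem.1 this)
  have hchar : ringChar (O ⧸ P) ≠ 2 := by
    intro h
    apply h2
    have := ringChar.Nat.cast_ringChar (R := O ⧸ P)
    rw [h] at this
    exact_mod_cast this
  have hodd : Fintype.card (O ⧸ P) % 2 = 1 := FiniteField.odd_card_of_char_ne_two hchar
  obtain ⟨a, b, hab⟩ := FiniteField.exists_root_sum_quadratic
    (f := (Polynomial.X ^ 2 - Polynomial.C (Ideal.Quotient.mk P d) : Polynomial (O ⧸ P)))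
    (g := (Polynomial.C (-(Ideal.Quotient.mk P β)) * Polynomial.X ^ 2 : Polynomial (O ⧸ P)))
    (Polynomial.degree_X_pow_sub_C (by norm_num) _)
    (by
      rw [Polynomial.degree_C_mul_X_pow]
      · rfl
      · simpa using hβ) hodd
  obtain ⟨x, rfl⟩ := Ideal.Quotient.mk_surjective a
  obtain ⟨y, rfl⟩ := Ideal.Quotient.mk_surjective b
  refine ⟨x, y, ?_⟩
  rw [← Ideal.Quotient.eq_zero_iff_mem]
  simp only [map_sub, map_mul, map_pow]
  simp only [Polynomial.eval_sub, Polynomial.eval_pow, Polynomial.eval_X, Polynomial.eval_C,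
    Polynomial.eval_mul] at hab
  linear_combination hab

/-- The part prime to the bad primes. -/
theorem exists_good (hfin : ∀ P : Ideal O, Prime P → Finite (O ⧸ P)) (β d : O) (c : Ideal O)
    (hc : c ≠ ⊥) (hgood : ∀ P : Ideal O, Prime P → c ≤ P → 2 * β ∉ P ∧ d ∉ P) :
    ∃ x y : O, x ^ 2 - β * y ^ 2 - d ∈ c := by
  revert hc hgood
  refine UniqueFactorizationMonoid.induction_on_prime c ?_ ?_ ?_
  · intro h; exact absurd rfl h
  · intro x hx _ _
    have hx1 : x = ⊤ := by rwa [Ideal.isUnit_iff] at hx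
    exact ⟨0, 0, by rw [hx1]; trivial⟩
  · intro a p ha hp ih hpa hgood
    have hle : ∀ P : Ideal O, Prime P → a ≤ P → 2 * β ∉ P ∧ d ∉ P := fun P hP h =>
      hgood P hP (le_trans (Ideal.mul_le_right (I := p) (J := a)) h)
    obtain ⟨x, y, hxy⟩ := ih ha hle
    have hpg := hgood p hp (Ideal.mul_le_left (I := p) (J := a))
    have hPp : p.IsPrime := Ideal.isPrime_of_prime hp
    have hPm : p.IsMaximal := hPp.isMaximal hp.ne_zero
    by_cases hap : a ≤ p
    · -- Hensel step
      have haa : ∀ u ∈ a, ∀ v ∈ a, u * v ∈ p * a := fun u hu v hv => Ideal.mul_mem_mul (hap hu) hv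
      have inv : ∀ z : O, z ∉ p → ∃ w : O, 1 - z * w ∈ p := by
        intro z hz
        obtain ⟨w, hw⟩ := hPm.exists_inv hz
        obtain ⟨v, hv, hvw⟩ := hw
        refine ⟨w, ?_⟩
        have : 1 - z * w = v := by rw [← hvw]; ring
        rw [this]; exact hv
      by_cases hx : x ∈ p
      · have hy : y ∉ p := by
          intro hy
          apply hpg.2
          have : d = x * x - (β * y) * y - (x ^ 2 - β * y ^ 2 - d) := by ring
          rw [this]
          exact Ideal.sub_mem _ (Ideal.sub_mem _ (Ideal.mul_mem_left _ _ hx)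
            (Ideal.mul_mem_left _ _ hy)) (hap hxy)
        have h2y : 2 * β * y ∉ p := fun h => by
          rcases hPp.mem_or_mem h with h | h
          · exact hpg.1 h
          · exact hy h
        obtain ⟨w, hw⟩ := inv _ h2y
        refine ⟨x, y + w * (x ^ 2 - β * y ^ 2 - d), ?_⟩
        have e : x ^ 2 - β * (y + w * (x ^ 2 - β * y ^ 2 - d)) ^ 2 - d
            = (1 - 2 * β * y * w) * (x ^ 2 - β * y ^ 2 - d)
              - (β * w ^ 2) * ((x ^ 2 - β * y ^ 2 - d) * (x ^ 2 - β * y ^ 2 - d)) := by ring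
        rw [e]
        exact Ideal.sub_mem _ (Ideal.mul_mem_mul hw hxy)
          (Ideal.mul_mem_left _ _ (haa _ hxy _ hxy))
      · have h2 : (2 : O) ∉ p := fun h => hpg.1 (Ideal.mul_mem_right _ _ h)
        have h2x : 2 * x ∉ p := fun h => by
          rcases hPp.mem_or_mem h with h | h
          · exact h2 h
          · exact hx h
        obtain ⟨w, hw⟩ := inv _ h2x
        refine ⟨x - w * (x ^ 2 - β * y ^ 2 - d), y, ?_⟩
        have e : (x - w * (x ^ 2 - β * y ^ 2 - d)) ^ 2 - β * y ^ 2 - d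
            = (1 - 2 * x * w) * (x ^ 2 - β * y ^ 2 - d)
              + (w ^ 2) * ((x ^ 2 - β * y ^ 2 - d) * (x ^ 2 - β * y ^ 2 - d)) := by ring
        rw [e]
        exact Ideal.add_mem _ (Ideal.mul_mem_mul hw hxy)
          (Ideal.mul_mem_left _ _ (haa _ hxy _ hxy))
    · -- Chinese remainder
      have hcop : IsCoprime p a := isCoprime_of_prime_of_not_le hp hap
      obtain ⟨x0, y0, h0⟩ := exists_residue hp (hfin p hp) β d hpg.1
      obtain ⟨u, hu, v, hv, huv⟩ := Submodule.mem_sup.1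
        ((Ideal.isCoprime_iff_sup_eq.1 hcop) ▸ (Submodule.mem_top : (1 : O) ∈ (⊤ : Ideal O)))
      refine ⟨x * u + x0 * v, y * u + y0 * v, ?_⟩
      have hmem : ∀ z : O, z ∈ p → z ∈ a → z ∈ p * a := by
        intro z hz1 hz2
        have : z = z * u + z * v := by rw [← mul_add, huv, mul_one]
        rw [this]
        refine Ideal.add_mem _ ?_ ?_
        · rw [mul_comm z u]
          exact Ideal.mul_mem_mul hu hz2
        · exact Ideal.mul_mem_mul hz1 hv
      have hu1 : u = 1 - v := by rw [← huv]; ring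
      have hv1 : v = 1 - u := by rw [← huv]; ring
      refine hmem _ ?_ ?_
      · have e : (x * u + x0 * v) ^ 2 - β * (y * u + y0 * v) ^ 2 - d
            = u * ((x - x0) * (2 * x0 + (x - x0) * u)
                - β * ((y - y0) * (2 * y0 + (y - y0) * u)))
              + (x0 ^ 2 - β * y0 ^ 2 - d) := by
          rw [hv1]; ring
        rw [e]
        exact Ideal.add_mem _ (Ideal.mul_mem_right _ _ hu) h0
      · have e : (x * u + x0 * v) ^ 2 - β * (y * u + y0 * v) ^ 2 - d
            = v * ((x0 - x) * (2 * x + (x0 - x) * v)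
                - β * ((y0 - y) * (2 * y + (y0 - y) * v)))
              + (x ^ 2 - β * y ^ 2 - d) := by
          rw [hu1]; ring
        rw [e]
        exact Ideal.add_mem _ (Ideal.mul_mem_right _ _ hv) hxy

/-- **[NS]** Norms modulo an ideal. -/
theorem exists_norm_congr (hfin : ∀ P : Ideal O, Prime P → Finite (O ⧸ P)) (β : O) (n : Ideal O)
    (hn : ∀ P : Ideal O, Prime P → ¬ n ≤ P → 2 * β ∉ P) (c : Ideal O) (hc : c ≠ ⊥) (d t : O)
    (ht : t ∈ n ^ 2) (hdt : d = 1 + 4 * t) (hd : Ideal.span {d} ⊔ c = ⊤) :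
    ∃ x y : O, x - 1 ∈ n ∧ y ∈ n ∧ x ^ 2 - β * y ^ 2 - d ∈ c := by
  obtain ⟨cb, cg, j, h1, h2, h3⟩ := exists_split n c hc
  have hcg0 : cg ≠ ⊥ := by
    rintro rfl
    apply hc
    rw [h1]; simp
  have hcle : c ≤ cg := by rw [h1]; exact Ideal.mul_le_right (I := cb) (J := cg)
  obtain ⟨xg, yg, hg⟩ := exists_good hfin β d cg hcg0 (by
    intro P hP hle
    have hPp : P.IsPrime := Ideal.isPrime_of_prime hP
    refine ⟨hn P hP ?_, ?_⟩
    · intro hnP
      apply hPp.ne_top
      rw [eq_top_iff, ← Ideal.isCoprime_iff_sup_eq.1 h2]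
      exact sup_le hle hnP
    · intro hdP
      apply hPp.ne_top
      rw [eq_top_iff, ← hd]
      exact sup_le ((Ideal.span_singleton_le_iff_mem _).2 hdP) (le_trans hcle hle))
  obtain ⟨s, hs, hsj⟩ := exists_sq_near n t ht j
  have hcop : IsCoprime cg (n ^ (j + 1)) := h2.pow_right
  obtain ⟨u, hu, v, hv, huv⟩ := Submodule.mem_sup.1
    ((Ideal.isCoprime_iff_sup_eq.1 hcop) ▸ (Submodule.mem_top : (1 : O) ∈ (⊤ : Ideal O)))
  have hvn : v ∈ n := by
    have : n ^ (j + 1) ≤ n ^ 1 := Ideal.pow_le_pow_right (by omega)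
    simpa using this hv
  have hvj : v ∈ n ^ j := Ideal.pow_le_pow_right (by omega) hv
  have hu1 : u = 1 - v := by rw [← huv]; ring
  have hv1 : v = 1 - u := by rw [← huv]; ring
  have hsn : s ∈ n := by
    have : n ^ 2 ≤ n ^ 1 := Ideal.pow_le_pow_right (by norm_num)
    simpa using this hs
  refine ⟨(1 + 2 * s) * u + xg * v, yg * v, ?_, ?_, ?_⟩
  · have e : (1 + 2 * s) * u + xg * v - 1 = 2 * s - (1 + 2 * s - xg) * v := by
      rw [hu1]; ring
    rw [e]
    exact Ideal.sub_mem _ (Ideal.mul_mem_left _ _ hsn) (Ideal.mul_mem_left _ _ hvn)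
  · exact Ideal.mul_mem_left _ _ hvn
  · have hmem : ∀ z : O, z ∈ cg → z ∈ n ^ j → z ∈ c := by
      intro z hz1 hz2
      have hcop' : IsCoprime cg (n ^ j) := h2.pow_right
      have : z ∈ cg * n ^ j := by
        rw [Ideal.mul_eq_inf_of_coprime (Ideal.isCoprime_iff_sup_eq.1 hcop')]
        exact ⟨hz1, hz2⟩
      rw [h1, mul_comm cb cg]
      exact Ideal.mul_mono_right h3 this
    refine hmem _ ?_ ?_
    · have e : ((1 + 2 * s) * u + xg * v) ^ 2 - β * (yg * v) ^ 2 - d
          = u * ((1 + 2 * s - xg) * (2 * xg + (1 + 2 * s - xg) * u)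
              - β * (yg * yg * (u - 2)))
            + (xg ^ 2 - β * yg ^ 2 - d) := by
        rw [hv1]; ring
      rw [e]
      exact Ideal.add_mem _ (Ideal.mul_mem_right _ _ hu) hg
    · have e : ((1 + 2 * s) * u + xg * v) ^ 2 - β * (yg * v) ^ 2 - d
          = v * ((xg - (1 + 2 * s)) * (2 * (1 + 2 * s) + (xg - (1 + 2 * s)) * v)
              - β * (yg * yg * v))
            + ((1 + 2 * s) ^ 2 - (1 + 4 * t)) := by
        rw [hu1, hdt]; ring
      rw [e]
      exact Ideal.add_mem _ (Ideal.mul_mem_right _ _ hvj) hsj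

/-- Consumer form in an extension `R` with a square root `r` of `β` and a conjugation:
`e f ≡ 1`, `e ē ≡ d`, `f f̄ ≡ a` modulo `c R`, `e ≡ f ≡ 1` modulo `n R`. -/
theorem exists_elements {R : Type*} [CommRing R] [Algebra O R] (cj : R →ₐ[O] R) (r : R) (β : O)
    (hr : r ^ 2 = algebraMap O R β) (hcr : cj r = - r)
    (hfin : ∀ P : Ideal O, Prime P → Finite (O ⧸ P)) (n : Ideal O)
    (hn : ∀ P : Ideal O, Prime P → ¬ n ≤ P → 2 * β ∉ P) (c : Ideal O) (hc : c ≠ ⊥) (a d t : O)
    (ht : t ∈ n ^ 2) (hdt : d = 1 + 4 * t) (hda : a * d - 1 ∈ c) (ha1 : a - 1 ∈ n) :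
    ∃ e f : R, e - 1 ∈ n.map (algebraMap O R) ∧ f - 1 ∈ n.map (algebraMap O R) ∧
      e * f - 1 ∈ c.map (algebraMap O R) ∧
      e * cj e - algebraMap O R d ∈ c.map (algebraMap O R) ∧
      f * cj f - algebraMap O R a ∈ c.map (algebraMap O R) := by
  have hd : Ideal.span {d} ⊔ c = ⊤ := by
    rw [Ideal.eq_top_iff_one]
    have : (1 : O) = a * d - (a * d - 1) := by ring
    rw [this]
    exact Ideal.sub_mem _ (Ideal.mem_sup_left (Ideal.mul_mem_left _ _
      (Ideal.mem_span_singleton_self d))) (Ideal.mem_sup_right hda)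
  obtain ⟨x, y, hx, hy, hxy⟩ := exists_norm_congr hfin β n hn c hc d t ht hdt hd
  set i := algebraMap O R with hi
  have hcjO : ∀ z : O, cj (i z) = i z := fun z => cj.commutes z
  have hm : ∀ {J : Ideal O} {z : O}, z ∈ J → i z ∈ J.map i := fun h => Ideal.mem_map_of_mem _ h
  refine ⟨i x + i y * r, i a * (i x - i y * r), ?_, ?_, ?_, ?_, ?_⟩
  · have e : i x + i y * r - 1 = i (x - 1) + i y * r := by rw [map_sub, map_one]; ring
    rw [e]
    exact Ideal.add_mem _ (hm hx) (Ideal.mul_mem_right _ _ (hm hy))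
  · have e : i a * (i x - i y * r) - 1 = i (a - 1) + i a * (i (x - 1)) - i a * r * i y := by
      rw [map_sub, map_sub, map_one]; ring
    rw [e]
    exact Ideal.sub_mem _ (Ideal.add_mem _ (hm ha1) (Ideal.mul_mem_left _ _ (hm hx)))
      (Ideal.mul_mem_left _ _ (hm hy))
  · have e : (i x + i y * r) * (i a * (i x - i y * r)) - 1
        = i a * i (x ^ 2 - β * y ^ 2 - d) + i (a * d - 1) := by
      simp only [map_sub, map_mul, map_pow, map_one]
      rw [← hr]; ring
    rw [e]
    exact Ideal.add_mem _ (Ideal.mul_mem_left _ _ (hm hxy)) (hm hda)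
  · have e : (i x + i y * r) * cj (i x + i y * r) - i d = i (x ^ 2 - β * y ^ 2 - d) := by
      simp only [map_sub, map_mul, map_pow, map_add, hcjO, hcr]
      rw [← hr]; ring
    rw [e]
    exact hm hxy
  · have e : (i a * (i x - i y * r)) * cj (i a * (i x - i y * r)) - i a
        = i a ^ 2 * i (x ^ 2 - β * y ^ 2 - d) + i a * i (a * d - 1) := by
      simp only [map_sub, map_mul, map_pow, map_one, hcjO, hcr]
      rw [← hr]; ring
    rw [e]
    exact Ideal.add_mem _ (Ideal.mul_mem_left _ _ (hm hxy)) (Ideal.mul_mem_left _ _ (hm hda))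

end Fermat.Agent.H12NS
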