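import Fermat.Agent.H71UDefs
import Fermat.Agent.H7ZApprox

/-!
# The relation `REL` and the auxiliary element `u₂` (helper12, S47, block (D), L-REL)

`GoodU S A D u u₂ g` and `exists_goodU`: from `REL S c A D u A₁ D₁ u₁` one gets one `u₂` which is
good for `(A, D, u)` and such that `u₂ - c` is good for `(A₁, D₁, u₁)`.
-/

set_option autoImplicit false

open IsDedekindDomain HeightOneSpectrum NumberField WithZero FractionalIdeal
open scoped nonZeroDivisors

noncomputable section

namespace Fermat.Agent.H12R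

open Fermat.Agent Fermat.Agent.H71D

variable {E : Type*} [Field E] [NumberField E]

/-- The auxiliary element `u₂` (outside `S`). -/
def GoodU (S : Finset (HeightOneSpectrum (𝓞 E))) (A D : FI E) (u u₂ : E)
    (g : HeightOneSpectrum (𝓞 E) → ℤ) : Prop :=
  ∀ w ∉ S, exp (-g w) = max (w.valuation E u) (exp (cE D w - cE A w)) ∧
    w.valuation E u₂ ≤ exp (-(cE D w - cE A w)) ∧ w.valuation E (u * u₂) ≤ 1 ∧
    w.valuation E ((1 + u * u₂) * u) ≤ exp (cE D w - cE A w)

/-! ### Finiteness -/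

theorem finite_cE (A : FI E) : {w : HeightOneSpectrum (𝓞 E) | cE A w ≠ 0}.Finite := by
  have h := finite_factors (K := E) (A : FractionalIdeal (𝓞 E)⁰ E)
  rw [Filter.eventually_cofinite] at h
  exact h

theorem finite_one_lt (x : E) :
    {w : HeightOneSpectrum (𝓞 E) | ¬ w.valuation E x ≤ 1}.Finite := by
  refine (HeightOneSpectrum.Support.finite (𝓞 E) x).subset ?_
  intro w hw
  exact not_le.1 hw

/-- an element with prescribed valuation -/
theorem exists_val (w : HeightOneSpectrum (𝓞 E)) (n : ℤ) :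
    ∃ t : E, w.valuation E t = exp n := by
  obtain ⟨π, hπ⟩ := w.valuation_exists_uniformizer E
  refine ⟨π ^ (-n), ?_⟩
  rw [map_zpow₀, hπ, ← exp_zsmul]
  congr 1
  simp

/-! ### Local lattices -/

/-- The local lattice, in the coordinates `x, c x + y`. -/
def Q (w : HeightOneSpectrum (𝓞 E)) (a d : ℤ) (u c x y : E) : Prop :=
  w.valuation E (c * x + y) ≤ exp (-d) ∧ w.valuation E (x - u * (c * x + y)) ≤ exp (-a)

theorem Q.add {w : HeightOneSpectrum (𝓞 E)} {a d : ℤ} {u c x y x' y' : E}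
    (h : Q w a d u c x y) (h' : Q w a d u c x' y') : Q w a d u c (x + x') (y + y') := by
  refine ⟨?_, ?_⟩
  · have e : c * (x + x') + (y + y') = (c * x + y) + (c * x' + y') := by ring
    rw [e]
    exact (Valuation.map_add _ _ _).trans (max_le h.1 h'.1)
  · have e : (x + x') - u * (c * (x + x') + (y + y')) =
        (x - u * (c * x + y)) + (x' - u * (c * x' + y')) := by ring
    rw [e]
    exact (Valuation.map_add _ _ _).trans (max_le h.2 h'.2)

theorem exists_small (w : HeightOneSpectrum (𝓞 E)) (a d : ℤ) (u c : E) :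
    ∃ N : ℕ, ∀ x y : E, w.valuation E x ≤ exp (-(N : ℤ)) → w.valuation E y ≤ exp (-(N : ℤ)) →
      Q w a d u c x y := by
  obtain ⟨e₁, h₁⟩ := H7.Z.exists_le_exp w c
  obtain ⟨e₂, h₂⟩ := H7.Z.exists_le_exp w u
  refine ⟨e₁ + e₂ + a.natAbs + d.natAbs, fun x y hx hy => ?_⟩
  have hz : w.valuation E (c * x + y) ≤
      exp (-((e₂ + a.natAbs + d.natAbs : ℕ) : ℤ)) := by
    refine (Valuation.map_add _ _ _).trans (max_le ?_ (hy.trans ?_))
    · rw [map_mul]
      refine (mul_le_mul' h₁ hx).trans ?_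
      rw [← exp_add, exp_le_exp]
      push_cast
      linarith
    · rw [exp_le_exp]
      push_cast
      have := Int.natCast_nonneg e₁
      linarith
  have ha : -(a.natAbs : ℤ) ≤ -a := by
    have : a ≤ (a.natAbs : ℤ) := Int.le_natAbs
    linarith
  have hd : -(d.natAbs : ℤ) ≤ -d := by
    have : d ≤ (d.natAbs : ℤ) := Int.le_natAbs
    linarith
  have i₁ := Int.natCast_nonneg e₁
  have i₂ := Int.natCast_nonneg e₂
  have i₃ := Int.natCast_nonneg a.natAbs
  have i₄ := Int.natCast_nonneg d.natAbs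
  refine ⟨hz.trans ?_, (Valuation.map_sub _ _ _).trans (max_le (hx.trans ?_) ?_)⟩
  · rw [exp_le_exp]
    push_cast at *
    linarith
  · rw [exp_le_exp]
    push_cast at *
    linarith
  · rw [map_mul]
    refine (mul_le_mul' h₂ hz).trans ?_
    rw [← exp_add, exp_le_exp]
    push_cast at *
    linarith

theorem Q_of_int {w : HeightOneSpectrum (𝓞 E)} {a d : ℤ} {u c x y : E} (ha : a = 0)
    (hd : d = 0) (hu : w.valuation E u ≤ 1) (hc : w.valuation E c ≤ 1)
    (hx : w.valuation E x ≤ 1) (hy : w.valuation E y ≤ 1) : Q w a d u c x y := by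
  subst ha hd
  have hz : w.valuation E (c * x + y) ≤ 1 := by
    refine (Valuation.map_add _ _ _).trans (max_le ?_ hy)
    rw [map_mul]
    exact mul_le_one' hc hx
  refine ⟨by simpa using hz, ?_⟩
  have : w.valuation E (x - u * (c * x + y)) ≤ 1 := by
    refine (Valuation.map_sub _ _ _).trans (max_le hx ?_)
    rw [map_mul]
    exact mul_le_one' hu hz
  simpa using this

/-- Localization of an inclusion of lattices. -/
theorem localize {S : Finset (HeightOneSpectrum (𝓞 E))} {A D A₁ D₁ : FI E} {u c u₁ c₁ : E}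
    (h : ∀ x y : E, (∀ w ∉ S, Q w (cE A w) (cE D w) u c x y) →
      ∀ w ∉ S, Q w (cE A₁ w) (cE D₁ w) u₁ c₁ x y)
    {w₀ : HeightOneSpectrum (𝓞 E)} (hw₀ : w₀ ∉ S) {x y : E}
    (hxy : Q w₀ (cE A w₀) (cE D w₀) u c x y) :
    Q w₀ (cE A₁ w₀) (cE D₁ w₀) u₁ c₁ x y := by
  classical
  have hfin : ({w : HeightOneSpectrum (𝓞 E) | cE A w ≠ 0} ∪ {w | cE D w ≠ 0} ∪
      {w | ¬ w.valuation E u ≤ 1} ∪ {w | ¬ w.valuation E c ≤ 1} ∪ {w₀}).Finite :=
    ((((finite_cE A).union (finite_cE D)).union (finite_one_lt u)).union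
      (finite_one_lt c)).union (Set.finite_singleton w₀)
  choose N hN using fun w => exists_small w (cE A w) (cE D w) u c
  obtain ⟨N₁, hN₁⟩ := exists_small w₀ (cE A₁ w₀) (cE D₁ w₀) u₁ c₁
  obtain ⟨x', hx1, hx2⟩ := H7.Z.exists_approx hfin.toFinset (fun w => if w = w₀ then x else 0)
    (fun w => N w + N₁)
  obtain ⟨y', hy1, hy2⟩ := H7.Z.exists_approx hfin.toFinset (fun w => if w = w₀ then y else 0)
    (fun w => N w + N₁)
  have hmem : w₀ ∈ hfin.toFinset := hfin.mem_toFinset.mpr (Or.inr rfl)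
  have hle : ∀ w : HeightOneSpectrum (𝓞 E),
      (exp (-((N w + N₁ : ℕ) : ℤ)) : WithZero (Multiplicative ℤ)) ≤ exp (-(N w : ℤ)) := by
    intro w
    rw [exp_le_exp]
    push_cast
    linarith [Int.natCast_nonneg N₁]
  have hle₁ : (exp (-((N w₀ + N₁ : ℕ) : ℤ)) : WithZero (Multiplicative ℤ)) ≤
      exp (-(N₁ : ℤ)) := by
    rw [exp_le_exp]
    push_cast
    linarith [Int.natCast_nonneg (N w₀)]
  have hx0 : w₀.valuation E (x' - x) ≤ exp (-((N w₀ + N₁ : ℕ) : ℤ)) := by
    simpa using hx1 w₀ hmem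
  have hy0 : w₀.valuation E (y' - y) ≤ exp (-((N w₀ + N₁ : ℕ) : ℤ)) := by
    simpa using hy1 w₀ hmem
  have hglob : ∀ w ∉ S, Q w (cE A w) (cE D w) u c x' y' := by
    intro w _
    by_cases hww : w = w₀
    · subst hww
      have h1 := hN w (x' - x) (y' - y) (hx0.trans (hle w)) (hy0.trans (hle w))
      have h2 := hxy.add h1
      rwa [add_sub_cancel, add_sub_cancel] at h2
    · by_cases hwT : w ∈ hfin.toFinset
      · apply hN w
        · have := hx1 w hwT
          simp only [hww, if_false, sub_zero] at this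
          exact this.trans (hle w)
        · have := hy1 w hwT
          simp only [hww, if_false, sub_zero] at this
          exact this.trans (hle w)
      · have hw' := hwT
        rw [hfin.mem_toFinset] at hw'
        simp only [Set.mem_union, Set.mem_ofPred_eq, Set.mem_singleton_iff, not_or, not_not] at hw'
        obtain ⟨⟨⟨⟨h1, h2⟩, h3⟩, h4⟩, -⟩ := hw'
        exact Q_of_int h1 h2 h3 h4 (hx2 w hwT) (hy2 w hwT)
  have h1 := h x' y' hglob w₀ hw₀
  have h2 := hN₁ (x - x') (y - y')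
    (by rw [Valuation.map_sub_swap]; exact hx0.trans hle₁)
    (by rw [Valuation.map_sub_swap]; exact hy0.trans hle₁)
  have h3 := h1.add h2
  rwa [add_sub_cancel, add_sub_cancel] at h3

theorem REL.local {S : Finset (HeightOneSpectrum (𝓞 E))} {A D A₁ D₁ : FI E} {u c u₁ : E}
    (h : REL S c A D u A₁ D₁ u₁) {w : HeightOneSpectrum (𝓞 E)} (hw : w ∉ S) (x y : E) :
    Q w (cE A w) (cE D w) u 0 x y ↔ Q w (cE A₁ w) (cE D₁ w) u₁ c x y := by
  have h0 : ∀ x y : E, (∀ w ∉ S, Q w (cE A w) (cE D w) u 0 x y) ↔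
      ∀ w ∉ S, Q w (cE A₁ w) (cE D₁ w) u₁ c x y := by
    intro x y
    have h1 := h x y
    constructor
    · intro h2
      have h3 := h1.1 ⟨fun v hv => by have := (h2 v hv).1; simpa using this,
        fun v hv => by have := (h2 v hv).2; simpa using this⟩
      exact fun v hv => ⟨h3.1 v hv, h3.2 v hv⟩
    · intro h2
      have h3 := h1.2 ⟨fun v hv => (h2 v hv).1, fun v hv => (h2 v hv).2⟩
      exact fun v hv => ⟨by have := h3.1 v hv; simpa using this,
        by have := h3.2 v hv; simpa using this⟩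
  exact ⟨localize (fun x y => (h0 x y).1) hw, localize (fun x y => (h0 x y).2) hw⟩

/-! ### The local invariants -/

/-- `-ord` of `(A + u D) D⁻¹`. -/
def G (w : HeightOneSpectrum (𝓞 E)) (a d : ℤ) (u : E) : WithZero (Multiplicative ℤ) :=
  max (w.valuation E u) (exp (d - a))

theorem G_pos (w : HeightOneSpectrum (𝓞 E)) (a d : ℤ) (u : E) : 0 < G w a d u :=
  lt_of_lt_of_le exp_pos (le_max_right _ _)

theorem G_ne (w : HeightOneSpectrum (𝓞 E)) (a d : ℤ) (u : E) : G w a d u ≠ 0 := (G_pos w a d u).ne'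

theorem zero_mem_iff {w : HeightOneSpectrum (𝓞 E)} {a d : ℤ} {u c y : E} :
    Q w a d u c 0 y ↔ w.valuation E y * G w a d u ≤ exp (-a) := by
  have e : (exp (-a) : WithZero (Multiplicative ℤ)) = exp (-d) * exp (d - a) := by
    rw [← exp_add]; congr 1; ring
  rw [Q, G, mul_max, max_le_iff, mul_zero, zero_add, zero_sub, Valuation.map_neg, map_mul]
  constructor
  · rintro ⟨h1, h2⟩
    refine ⟨by rw [mul_comm]; exact h2, ?_⟩
    rw [e]
    exact mul_le_mul_left h1 _
  · rintro ⟨h1, h2⟩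
    refine ⟨?_, by rw [mul_comm]; exact h1⟩
    rw [e] at h2
    exact le_of_mul_le_mul_right h2 exp_pos

theorem val_le {w : HeightOneSpectrum (𝓞 E)} {a d : ℤ} {u c x y : E} (h : Q w a d u c x y) :
    w.valuation E x ≤ exp (-d) * G w a d u := by
  have e : (exp (-a) : WithZero (Multiplicative ℤ)) = exp (-d) * exp (d - a) := by
    rw [← exp_add]; congr 1; ring
  have hx : x = (x - u * (c * x + y)) + u * (c * x + y) := by ring
  rw [hx]
  refine (Valuation.map_add _ _ _).trans (max_le ?_ ?_)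
  · refine h.2.trans ?_
    rw [e]
    exact mul_le_mul_right (le_max_right _ _) _
  · rw [map_mul, mul_comm]
    exact mul_le_mul' h.1 (le_max_left _ _)

theorem exists_val_eq (w : HeightOneSpectrum (𝓞 E)) (a d : ℤ) (u c : E) :
    ∃ x y : E, Q w a d u c x y ∧ w.valuation E x = exp (-d) * G w a d u := by
  rcases le_total (w.valuation E u) (exp (d - a)) with h | h
  · obtain ⟨x, hx⟩ := exists_val w (-a)
    refine ⟨x, -(c * x), ⟨by simp, ?_⟩, ?_⟩
    · rw [add_neg_cancel, mul_zero, sub_zero, hx]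
    · rw [G, max_eq_right h, hx, ← exp_add]
      congr 1
      ring
  · obtain ⟨y, hy⟩ := exists_val w (-d)
    refine ⟨u * y, y - c * (u * y), ⟨?_, ?_⟩, ?_⟩
    · rw [add_sub_cancel, hy]
    · rw [add_sub_cancel, sub_self, map_zero]
      exact zero_le
    · rw [G, max_eq_left h, map_mul, hy, mul_comm]

theorem exp_mul_G_eq {w : HeightOneSpectrum (𝓞 E)} {a d a₁ d₁ : ℤ} {u c u₁ : E}
    (h : ∀ x y : E, Q w a d u 0 x y ↔ Q w a₁ d₁ u₁ c x y) :
    exp (-d) * G w a d u = exp (-d₁) * G w a₁ d₁ u₁ := by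
  apply le_antisymm
  · obtain ⟨x, y, hxy, hx⟩ := exists_val_eq w a d u 0
    rw [← hx]
    exact val_le ((h x y).1 hxy)
  · obtain ⟨x, y, hxy, hx⟩ := exists_val_eq w a₁ d₁ u₁ c
    rw [← hx]
    exact val_le ((h x y).2 hxy)

/-- The order `g` of `(A + u D) D⁻¹`. -/
def gg (A D : FI E) (u : E) (w : HeightOneSpectrum (𝓞 E)) : ℤ := -log (G w (cE A w) (cE D w) u)

theorem exp_neg_gg (A D : FI E) (u : E) (w : HeightOneSpectrum (𝓞 E)) :
    exp (-gg A D u w) = G w (cE A w) (cE D w) u := by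
  rw [gg, neg_neg, exp_log (G_ne _ _ _ _)]

theorem finite_gg (A D : FI E) (u : E) : {w : HeightOneSpectrum (𝓞 E) | gg A D u w ≠ 0}.Finite := by
  refine (((finite_cE A).union (finite_cE D)).union (finite_one_lt u)).subset ?_
  intro w hw
  by_contra hcon
  simp only [Set.mem_union, Set.mem_ofPred_eq, not_or, not_not] at hcon
  obtain ⟨⟨h1, h2⟩, h3⟩ := hcon
  apply hw
  rw [gg, G, h1, h2, sub_zero, exp_zero, max_eq_right h3]
  rw [← exp_zero, log_exp, neg_zero]

theorem zero_iff_gg {A D : FI E} {u c y : E} {w : HeightOneSpectrum (𝓞 E)} :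
    Q w (cE A w) (cE D w) u c 0 y ↔ w.valuation E y ≤ exp (gg A D u w - cE A w) := by
  rw [zero_mem_iff, ← exp_neg_gg]
  have e : (exp (-cE A w) : WithZero (Multiplicative ℤ)) =
      exp (gg A D u w - cE A w) * exp (-gg A D u w) := by
    rw [← exp_add]; congr 1; ring
  rw [e]
  exact mul_le_mul_iff_left₀ exp_pos

theorem REL.orders {S : Finset (HeightOneSpectrum (𝓞 E))} {A D A₁ D₁ : FI E} {u c u₁ : E}
    (h : REL S c A D u A₁ D₁ u₁) {w : HeightOneSpectrum (𝓞 E)} (hw : w ∉ S) :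
    gg A D u w + cE D w = gg A₁ D₁ u₁ w + cE D₁ w ∧
      cE A w + cE D w = cE A₁ w + cE D₁ w := by
  have h1 : gg A D u w + cE D w = gg A₁ D₁ u₁ w + cE D₁ w := by
    have := exp_mul_G_eq (REL.local h hw)
    rw [← exp_neg_gg, ← exp_neg_gg, ← exp_add, ← exp_add] at this
    have h2 := exp_injective this
    omega
  refine ⟨h1, ?_⟩
  have h2 : gg A D u w - cE A w = gg A₁ D₁ u₁ w - cE A₁ w := by
    apply le_antisymm
    · obtain ⟨y, hy⟩ := exists_val w (gg A D u w - cE A w)
      have h3 := (REL.local h hw 0 y).1 (zero_iff_gg.2 hy.le)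
      rw [zero_iff_gg, hy, exp_le_exp] at h3
      exact h3
    · obtain ⟨y, hy⟩ := exists_val w (gg A₁ D₁ u₁ w - cE A₁ w)
      have h3 := (REL.local h hw 0 y).2 (zero_iff_gg.2 hy.le)
      rw [zero_iff_gg, hy, exp_le_exp] at h3
      exact h3
  omega

/-! ### The element `u₂` -/

/-- The condition on `u₂` at `w`: `y + u₂ x ∈ A₂` for `(x, y)` in the lattice. -/
def Cnd (w : HeightOneSpectrum (𝓞 E)) (a d : ℤ) (u c u₂ : E) : Prop :=
  ∀ x y : E, Q w a d u c x y → w.valuation E (y + u₂ * x) * G w a d u ≤ exp (-a)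

theorem Cnd.of {w : HeightOneSpectrum (𝓞 E)} {a d : ℤ} {u u₂ : E}
    (h1 : w.valuation E u₂ * G w a d u ≤ 1)
    (h2 : w.valuation E (1 + u * u₂) * G w a d u ≤ exp (d - a)) : Cnd w a d u 0 u₂ := by
  intro x y hxy
  have h3 : w.valuation E y ≤ exp (-d) := by simpa using hxy.1
  have h4 : w.valuation E (x - u * y) ≤ exp (-a) := by simpa using hxy.2
  have e : y + u₂ * x = (1 + u * u₂) * y + u₂ * (x - u * y) := by ring
  have e' : (exp (-a) : WithZero (Multiplicative ℤ)) = exp (d - a) * exp (-d) := by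
    rw [← exp_add]; congr 1; ring
  rw [e]
  refine (mul_le_mul_left (Valuation.map_add _ _ _) _).trans ?_
  rw [max_mul, map_mul, map_mul]
  refine max_le ?_ ?_
  · rw [mul_right_comm, e']
    exact mul_le_mul' h2 h3
  · rw [mul_right_comm]
    exact (mul_le_mul' h1 h4).trans (one_mul _).le

theorem exists_local (w : HeightOneSpectrum (𝓞 E)) (a d : ℤ) (u : E) :
    ∃ t : E, w.valuation E t * G w a d u ≤ 1 ∧
      w.valuation E (1 + u * t) * G w a d u ≤ exp (d - a) := by
  rcases le_total (w.valuation E u) (exp (d - a)) with h | h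
  · refine ⟨0, ?_, ?_⟩
    · rw [map_zero, zero_mul]; exact zero_le
    · rw [mul_zero, add_zero, map_one, one_mul, G, max_eq_right h]
  · have hu : u ≠ 0 := by
      rintro rfl
      rw [map_zero] at h
      exact (exp_pos.trans_le h).ne rfl
    have hu' : w.valuation E u ≠ 0 := (Valuation.ne_zero_iff _).2 hu
    refine ⟨-u⁻¹, ?_, ?_⟩
    · rw [Valuation.map_neg, map_inv₀, G, max_eq_left h, inv_mul_cancel₀ hu']
    · rw [mul_neg, mul_inv_cancel₀ hu, add_neg_cancel, map_zero, zero_mul]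
      exact zero_le

theorem exists_u₂ (A D : FI E) (u : E) :
    ∃ u₂ : E, ∀ w, Cnd w (cE A w) (cE D w) u 0 u₂ := by
  classical
  choose t ht1 ht2 using fun w => exists_local w (cE A w) (cE D w) u
  have hfin : ({w : HeightOneSpectrum (𝓞 E) | cE A w ≠ 0} ∪ {w | cE D w ≠ 0} ∪
      {w | ¬ w.valuation E u ≤ 1}).Finite :=
    ((finite_cE A).union (finite_cE D)).union (finite_one_lt u)
  have hN : ∀ w : HeightOneSpectrum (𝓞 E), ∃ N : ℕ,
      exp (-(N : ℤ)) * G w (cE A w) (cE D w) u ≤ 1 ∧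
      w.valuation E u * exp (-(N : ℤ)) * G w (cE A w) (cE D w) u ≤
        exp (cE D w - cE A w) := by
    intro w
    obtain ⟨e, he⟩ := H7.Z.exists_le_exp w u
    have hG := exp_neg_gg A D u w
    refine ⟨(gg A D u w).natAbs + e + (cE D w - cE A w).natAbs, ?_, ?_⟩
    · rw [← hG, ← exp_add, ← exp_zero, exp_le_exp]
      have h1 : -(gg A D u w) ≤ ((gg A D u w).natAbs : ℤ) := by
        have := Int.le_natAbs (a := -(gg A D u w))
        rwa [Int.natAbs_neg] at this
      push_cast at *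
      have h2 := Int.natCast_nonneg e
      have h3 := abs_nonneg (cE D w - cE A w)
      linarith
    · rw [← hG]
      refine (mul_le_mul_left (mul_le_mul_left he _) _).trans ?_
      rw [← exp_add, ← exp_add, exp_le_exp]
      have h1 : -(gg A D u w) ≤ ((gg A D u w).natAbs : ℤ) := by
        have := Int.le_natAbs (a := -(gg A D u w))
        rwa [Int.natAbs_neg] at this
      have h4 : -(cE D w - cE A w) ≤ ((cE D w - cE A w).natAbs : ℤ) := by
        have := Int.le_natAbs (a := -(cE D w - cE A w))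
        rwa [Int.natAbs_neg] at this
      push_cast at *
      linarith
  choose N hN1 hN2 using hN
  obtain ⟨u₂, h1, h2⟩ := H7.Z.exists_approx hfin.toFinset t N
  refine ⟨u₂, fun w => ?_⟩
  by_cases hw : w ∈ hfin.toFinset
  · have h3 := h1 w hw
    apply Cnd.of
    · have e : u₂ = t w + (u₂ - t w) := by ring
      rw [e]
      refine (mul_le_mul_left (Valuation.map_add _ _ _) _).trans ?_
      rw [max_mul]
      exact max_le (ht1 w) ((mul_le_mul_left h3 _).trans (hN1 w))
    · have e : 1 + u * u₂ = (1 + u * t w) + u * (u₂ - t w) := by ring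
      rw [e]
      refine (mul_le_mul_left (Valuation.map_add _ _ _) _).trans ?_
      rw [max_mul, map_mul]
      exact max_le (ht2 w) ((mul_le_mul_left (mul_le_mul_right h3 _) _).trans (hN2 w))
  · have hw' := hw
    rw [hfin.mem_toFinset] at hw'
    simp only [Set.mem_union, Set.mem_ofPred_eq, not_or, not_not] at hw'
    obtain ⟨⟨ha, hd⟩, hu⟩ := hw'
    have hG : G w (cE A w) (cE D w) u = 1 := by
      rw [G, ha, hd, sub_zero, exp_zero, max_eq_right hu]
    have h3 := h2 w hw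
    apply Cnd.of
    · rw [hG, mul_one]; exact h3
    · rw [hG, mul_one, ha, hd, sub_zero, exp_zero]
      refine (Valuation.map_add _ _ _).trans (max_le (by simp) ?_)
      rw [map_mul]
      exact mul_le_one' hu h3

theorem Cnd.good {w : HeightOneSpectrum (𝓞 E)} {a d : ℤ} {u u₂ : E} (h : Cnd w a d u 0 u₂) :
    w.valuation E u₂ ≤ exp (-(d - a)) ∧ w.valuation E (u * u₂) ≤ 1 ∧
      w.valuation E ((1 + u * u₂) * u) ≤ exp (d - a) := by
  have key1 : w.valuation E u₂ * G w a d u ≤ 1 := by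
    obtain ⟨x, hx⟩ := exists_val w (-a)
    have h1 := h x 0 ⟨by simp, by simpa using hx.le⟩
    rw [zero_add, map_mul, hx, mul_right_comm] at h1
    have h2 : w.valuation E u₂ * G w a d u * exp (-a) ≤ 1 * exp (-a) := by rwa [one_mul]
    exact le_of_mul_le_mul_right h2 exp_pos
  have key2 : w.valuation E (1 + u * u₂) * G w a d u ≤ exp (d - a) := by
    obtain ⟨y, hy⟩ := exists_val w (-d)
    have h1 := h (u * y) y ⟨by simpa using hy.le, by simp⟩
    have e : y + u₂ * (u * y) = (1 + u * u₂) * y := by ring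
    have e' : (exp (-a) : WithZero (Multiplicative ℤ)) = exp (d - a) * exp (-d) := by
      rw [← exp_add]; congr 1; ring
    rw [e, map_mul, hy, mul_right_comm, e'] at h1
    exact le_of_mul_le_mul_right h1 exp_pos
  refine ⟨?_, ?_, ?_⟩
  · have h1 : w.valuation E u₂ * exp (d - a) ≤ 1 :=
      (mul_le_mul_right (le_max_right _ _) _).trans key1
    have h2 : w.valuation E u₂ * exp (d - a) ≤ exp (-(d - a)) * exp (d - a) := by
      rw [← exp_add, neg_add_cancel, exp_zero]; exact h1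
    exact le_of_mul_le_mul_right h2 exp_pos
  · rw [map_mul, mul_comm]
    exact (mul_le_mul_right (le_max_left _ _) _).trans key1
  · rw [map_mul]
    exact (mul_le_mul_right (le_max_left _ _) _).trans key2

/-- **(L-REL)** -/
theorem exists_goodU {S : Finset (HeightOneSpectrum (𝓞 E))} {A D A₁ D₁ : FI E} {u c u₁ : E}
    (h : REL S c A D u A₁ D₁ u₁) :
    ∃ (u₂ : E) (g g₁ : HeightOneSpectrum (𝓞 E) → ℤ), GoodU S A D u u₂ g ∧
      GoodU S A₁ D₁ u₁ (u₂ - c) g₁ ∧
      (∀ w ∉ S, g w + cE D w = g₁ w + cE D₁ w ∧ cE A w + cE D w = cE A₁ w + cE D₁ w) ∧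
      {w | g w ≠ 0}.Finite ∧ {w | g₁ w ≠ 0}.Finite := by
  obtain ⟨u₂, hu₂⟩ := exists_u₂ A D u
  refine ⟨u₂, gg A D u, gg A₁ D₁ u₁, fun w _ => ⟨exp_neg_gg A D u w, (hu₂ w).good⟩,
    fun w hw => ⟨exp_neg_gg A₁ D₁ u₁ w, ?_⟩, fun w hw => REL.orders h hw, finite_gg A D u,
    finite_gg A₁ D₁ u₁⟩
  apply Cnd.good
  intro x y₁ hxy
  have hxy' : Q w (cE A₁ w) (cE D₁ w) u₁ c x (y₁ - c * x) := by
    refine ⟨?_, ?_⟩
    · rw [add_sub_cancel]; simpa using hxy.1
    · rw [add_sub_cancel]; simpa using hxy.2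
  have h1 := (REL.local h hw x (y₁ - c * x)).2 hxy'
  have h2 := hu₂ w x (y₁ - c * x) h1
  have e : y₁ - c * x + u₂ * x = y₁ + (u₂ - c) * x := by ring
  rw [e, ← zero_mem_iff (c := 0), REL.local h hw, zero_mem_iff] at h2
  exact h2

end Fermat.Agent.H12R
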