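import Fermat.Agent.H7ZMod
import Fermat.Agent.H51ZOp

/-!
# Functions invariant under the unipotent subgroup (helper12, S47, package C5)

`NInv f` : `f (n b • y) = f y` for all `b : K`.

* `exists_n_smul` : if `y' v ∈ n(K) • y v` at every place then `y' = n b • y` for one `b : K`;
* `NInv.congr`, `NInv.loc` (invariance at one place), `NInv.loc_finset`;
* `NInv.lop` : the Hecke operator at a place with maximal level is the operator
  `q f(d ϖ •_w y) + f((d ϖ)⁻¹ •_w y)`;
* `updW`, `NInv.d_smul` : `f (d a • y) = f (updW y W (d a))` if `a` is close to `1` outside `W`.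
-/

set_option autoImplicit false

open IsDedekindDomain HeightOneSpectrum WithZero NumberField Matrix
open scoped MatrixGroups

noncomputable section

open scoped Classical

namespace Fermat.Agent.H12TW

open Fermat.Agent.H59XF Fermat.Agent.H59D Fermat.Agent.H7.Z
open Fermat.Agent.H51Z (bm bm_mul bm_one_zero bm_inv lop ls)

/-! ### Points with one prescribed operator at a finite set of places -/

section General

variable {G : Type*} [Group G] {ι : Type*} {L : LevelFam G ι}

/-- The point with the coordinates `g • y v` at `v ∈ W` and `y v` elsewhere. -/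
def updW (y : XF L) (W : Finset ι) (g : G) : XF L :=
  ⟨fun v => if v ∈ W then g • y v else y v, by
    refine (y.fin.union W.finite_toSet).subset ?_
    intro v hv
    by_contra hcon
    simp only [Set.mem_union, Set.mem_ofPred_eq, not_or, not_not, Finset.mem_coe] at hcon
    apply hv
    rw [if_neg hcon.2]
    exact hcon.1⟩

theorem updW_apply (y : XF L) (W : Finset ι) (g : G) (v : ι) :
    updW y W g v = if v ∈ W then g • y v else y v := rfl

theorem updW_mem (y : XF L) {W : Finset ι} (g : G) {v : ι} (hv : v ∈ W) :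
    updW y W g v = g • y v := by rw [updW_apply, if_pos hv]

theorem updW_not_mem (y : XF L) {W : Finset ι} (g : G) {v : ι} (hv : v ∉ W) :
    updW y W g v = y v := by rw [updW_apply, if_neg hv]

@[simp] theorem updW_empty (y : XF L) (g : G) : updW y ∅ g = y := by
  apply XF.ext; intro v
  rw [updW_not_mem _ _ (by simp)]

theorem updW_singleton (y : XF L) (g : G) (w : ι) : updW y {w} g = XF.upd y w (g • y w) := by
  apply XF.ext; intro v
  by_cases hv : v = w
  · subst hv; rw [updW_mem _ _ (by simp), XF.upd_same]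
  · rw [updW_not_mem _ _ (by simpa using hv), XF.upd_ne _ hv]

theorem updW_insert (y : XF L) (g : G) {W : Finset ι} {w : ι} (hw : w ∉ W) :
    updW y (insert w W) g = updW (XF.upd y w (g • y w)) W g := by
  apply XF.ext; intro v
  by_cases hv : v = w
  · subst hv; rw [updW_mem _ _ (by simp), updW_not_mem _ _ hw, XF.upd_same]
  · by_cases hvW : v ∈ W
    · rw [updW_mem _ _ (by simp [hvW]), updW_mem _ _ hvW, XF.upd_ne _ hv]
    · rw [updW_not_mem _ _ (by simp [hv, hvW]), updW_not_mem _ _ hvW, XF.upd_ne _ hv]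

end General

/-! ### Normality of the principal congruence subgroups -/

section Ded

variable {R : Type*} [CommRing R] [IsDedekindDomain R] {K : Type*} [Field K] [Algebra R K]
  [IsFractionRing R K]

theorem GLcong_conj {w : HeightOneSpectrum R} {n : ℕ} {g k : GL (Fin 2) K}
    (hg : g ∈ GLcong w n) (hk : k ∈ GLw w) : k⁻¹ * g * k ∈ GLcong w n := by
  have hk' := inv_mem hk
  refine ⟨mul_mem (mul_mem hk' hg.1) hk, fun i j => ?_⟩
  have hmat : ((k⁻¹ * g * k : GL (Fin 2) K) : Matrix (Fin 2) (Fin 2) K) - 1 =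
      ((k⁻¹ : GL (Fin 2) K) : Matrix (Fin 2) (Fin 2) K) *
        ((g : Matrix (Fin 2) (Fin 2) K) - 1) * (k : Matrix (Fin 2) (Fin 2) K) := by
    rw [mul_sub, sub_mul, mul_one, Units.val_mul, Units.val_mul, ← Units.val_mul k⁻¹ k,
      inv_mul_cancel, Units.val_one]
  have h1 := congrFun (congrFun hmat i) j
  rw [Matrix.sub_apply] at h1
  rw [h1, Matrix.mul_apply]
  refine Valuation.map_sum_le _ fun l _ => ?_
  rw [map_mul, Matrix.mul_apply]
  refine (mul_le_mul' (Valuation.map_sum_le _ fun l' _ => ?_) (hk.1 l j)).trans (mul_one _).le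
  rw [map_mul, Matrix.sub_apply]
  exact (mul_le_mul' (hk'.1 i l') (hg.2 l' l)).trans (one_mul _).le

/-- The principal congruence subgroups are normalized by the maximal compact subgroup. -/
theorem Gam_conj {w : HeightOneSpectrum R} {n : ℕ} {g k : PGL(2, K)} (hg : g ∈ Gam w n)
    (hk : k ∈ U0 w) : k⁻¹ * g * k ∈ Gam w n := by
  obtain ⟨g, hg, rfl⟩ := hg
  obtain ⟨k, hk, rfl⟩ := hk
  exact ⟨k⁻¹ * g * k, GLcong_conj hg hk, by rw [map_mul, map_mul, map_inv]⟩

/-- Diagonal matrices close to `1` are in the congruence subgroups. -/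
theorem d_mem_Gam {w : HeightOneSpectrum R} {n : ℕ} {a : Kˣ}
    (ha : w.valuation K (a : K) = 1)
    (ha' : w.valuation K ((a : K) - 1) ≤ exp (-(n : ℤ))) : (borP K).d a ∈ Gam w n := by
  refine ⟨bm a 0, ⟨bm_mem_GLw ha (by simp), fun i j => ?_⟩, rfl⟩
  rw [bm_coe]
  fin_cases i <;> fin_cases j
  · simpa using ha'
  all_goals simp

end Ded

variable {K : Type*} [Field K] [NumberField K]

/-! ### Strong approximation for the unipotent subgroup -/

/-- If `y'` is in the `n(K)`-orbit of `y` at every place, it is in the `n(K)`-orbit of `y`. -/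
theorem exists_n_smul {G : Type*} [Group G] {B : Bor K G}
    {L : LevelFam G (HeightOneSpectrum (𝓞 K))} (hL : BLevel B L) (y y' : XF L)
    (h : ∀ v, ∃ x : K, y' v = B.n x • y v) : ∃ b : K, y' = B.n b • y := by
  choose x hx using h
  choose g hg using fun v => QuotientGroup.mk_surjective (y v)
  choose m hm using fun v => hL.small v (g v)
  have hfin : ({v | y v ≠ ((1 : G) : G ⧸ L.U v)} ∪ {v | y' v ≠ ((1 : G) : G ⧸ L.U v)} ∪
      {v : HeightOneSpectrum (𝓞 K) |
        ¬ ∀ b : K, v.valuation K b ≤ 1 → B.n b ∈ L.U v}).Finite :=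
    (y.fin.union y'.fin).union hL.good
  obtain ⟨β, hβ1, hβ2⟩ := exists_approx hfin.toFinset x m
  refine ⟨β, ?_⟩
  apply XF.ext; intro v
  rw [XF.smul_apply]
  by_cases hvT : v ∈ hfin.toFinset
  · rw [hx v, ← hg v]
    change ((B.n (x v) * g v : G) : G ⧸ L.U v) = ((B.n β * g v : G) : G ⧸ L.U v)
    rw [QuotientGroup.eq]
    have h2 : (B.n (x v) * g v)⁻¹ * (B.n β * g v) = (g v)⁻¹ * B.n (β - x v) * g v := by
      rw [B.n_sub']; group
    rw [h2]
    exact hm v _ (hβ1 v hvT)
  · have h3 : y v = ((1 : G) : G ⧸ L.U v) := by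
      by_contra hcon
      exact hvT (hfin.mem_toFinset.mpr (Or.inl (Or.inl hcon)))
    have h3' : y' v = ((1 : G) : G ⧸ L.U v) := by
      by_contra hcon
      exact hvT (hfin.mem_toFinset.mpr (Or.inl (Or.inr hcon)))
    have h4 : ∀ b : K, v.valuation K b ≤ 1 → B.n b ∈ L.U v := by
      by_contra hcon
      exact hvT (hfin.mem_toFinset.mpr (Or.inr hcon))
    rw [h3, h3']
    change ((1 : G) : G ⧸ L.U v) = ((B.n β * 1 : G) : G ⧸ L.U v)
    rw [QuotientGroup.eq]
    simpa using h4 β (hβ2 v hvT)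

section Inv

variable {L : Level (𝓞 K) K}

/-- Functions on `X_f` invariant under the unipotent subgroup. -/
def NInv {E : Type*} (f : XF L.fam → E) : Prop :=
  ∀ (b : K) (y : XF L.fam), f ((borP K).n b • y) = f y

variable {E : Type*} {f : XF L.fam → E}

theorem NInv.congr (hf : NInv f) {y y' : XF L.fam}
    (h : ∀ v, ∃ x : K, y' v = (borP K).n x • y v) : f y' = f y := by
  obtain ⟨b, rfl⟩ := exists_n_smul (bLevel L) y y' h
  exact hf b y

/-- **Local invariance.** -/
theorem NInv.loc (hf : NInv f) (y : XF L.fam) (w : HeightOneSpectrum (𝓞 K)) (x : K) :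
    f (XF.upd y w ((borP K).n x • y w)) = f y := by
  apply hf.congr
  intro v
  by_cases hv : v = w
  · subst hv; exact ⟨x, by rw [XF.upd_same]⟩
  · exact ⟨0, by rw [XF.upd_ne _ hv, (borP K).n_zero, one_smul]⟩

/-- Local invariance, the value at `w` given explicitly. -/
theorem NInv.upd_n (hf : NInv f) (y : XF L.fam) (w : HeightOneSpectrum (𝓞 K)) (x : K)
    (u : PGL(2, K) ⧸ L.fam.U w) :
    f (XF.upd y w ((borP K).n x • u)) = f (XF.upd y w u) := by
  have h := hf.loc (XF.upd y w u) w x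
  rwa [XF.upd_same, XF.upd_upd] at h

theorem NInv.upd_mk (hf : NInv f) (y : XF L.fam) (w : HeightOneSpectrum (𝓞 K)) (x : K)
    (g : PGL(2, K)) :
    f (XF.upd y w ((((borP K).n x * g : PGL(2, K))) : PGL(2, K) ⧸ L.fam.U w)) =
      f (XF.upd y w (g : PGL(2, K) ⧸ L.fam.U w)) :=
  hf.upd_n y w x (g : PGL(2, K) ⧸ L.fam.U w)

section Hecke

variable [AddCommGroup E] [Module ℂ E]

/-- **The Hecke operator on `N`-invariant functions.** -/
theorem NInv.lop {w : HeightOneSpectrum (𝓞 K)} (hU : L.U w = U0 w) (ϖ : Kˣ) (R : Finset K)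
    (T : LocKer (L.fam.U w))
    (hT : ∀ (F : XF L.fam → E) (y : XF L.fam) (g : PGL(2, K)),
      y w = (g : PGL(2, K) ⧸ L.fam.U w) →
      lop w T F y = ∑ b ∈ R, F (XF.upd y w
          ((g * (borP K).n b * (borP K).d ϖ : PGL(2, K)) : PGL(2, K) ⧸ L.fam.U w)) +
        F (XF.upd y w ((g * ((borP K).d ϖ)⁻¹ : PGL(2, K)) : PGL(2, K) ⧸ L.fam.U w)))
    (hf : NInv f) (y : XF L.fam) :
    lop w T f y = (R.card : ℂ) • f (XF.upd y w ((borP K).d ϖ • y w)) +
      f (XF.upd y w (((borP K).d ϖ)⁻¹ • y w)) := by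
  obtain ⟨β, a, hβa⟩ := exists_borel_rep' (U := L.fam.U w) hU (y w)
  rw [hT f y _ hβa]
  have e1 : (borP K).d ϖ • y w = ((((borP K).n ((ϖ : K) * β) * ((borP K).d (ϖ * a))) :
      PGL(2, K)) : PGL(2, K) ⧸ L.fam.U w) := by
    rw [hβa]
    change (((borP K).d ϖ * ((borP K).n β * (borP K).d a) : PGL(2, K)) :
      PGL(2, K) ⧸ L.fam.U w) = _
    rw [← mul_assoc, (borP K).conj, mul_assoc, ← (borP K).d_mul]
  have e2 : ((borP K).d ϖ)⁻¹ • y w =
      ((((borP K).n (((ϖ⁻¹ : Kˣ) : K) * β) * ((borP K).d (ϖ⁻¹ * a))) :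
      PGL(2, K)) : PGL(2, K) ⧸ L.fam.U w) := by
    rw [hβa, ← (borP K).d_inv]
    change (((borP K).d ϖ⁻¹ * ((borP K).n β * (borP K).d a) : PGL(2, K)) :
      PGL(2, K) ⧸ L.fam.U w) = _
    rw [← mul_assoc, (borP K).conj, mul_assoc, ← (borP K).d_mul]
  have e3 : ∀ b : K, (borP K).n β * (borP K).d a * (borP K).n b * (borP K).d ϖ =
      (borP K).n (β + (a : K) * b) * (borP K).d (ϖ * a) := by
    intro b
    rw [mul_assoc ((borP K).n β), (borP K).conj, ← mul_assoc, mul_assoc _ ((borP K).d a),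
      ← (borP K).d_mul, ← (borP K).n_add, mul_comm a ϖ]
  have e4 : (borP K).n β * (borP K).d a * ((borP K).d ϖ)⁻¹ =
      (borP K).n β * (borP K).d (ϖ⁻¹ * a) := by
    rw [← (borP K).d_inv, mul_assoc, ← (borP K).d_mul, mul_comm a]
  rw [e1, e2, hf.upd_mk, hf.upd_mk, e4, hf.upd_mk]
  congr 1
  rw [Finset.sum_congr rfl (fun b _ => by rw [e3 b, hf.upd_mk]), Finset.sum_const,
    Nat.cast_smul_eq_nsmul]

end Hecke

/-- **The relation**: an element `a` close to `1` outside `W` acts through the places of `W`. -/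
theorem NInv.d_smul (hf : NInv f) (y : XF L.fam) (W : Finset (HeightOneSpectrum (𝓞 K)))
    (a : Kˣ) (hW : ∀ v ∉ W, v.valuation K (a : K) = 1 ∧ ∃ n : ℕ, Gam v n ≤ L.U v ∧
      v.valuation K ((a : K) - 1) ≤ exp (-(n : ℤ))) :
    f ((borP K).d a • y) = f (updW y W ((borP K).d a)) := by
  apply hf.congr
  intro v
  rw [XF.smul_apply]
  by_cases hv : v ∈ W
  · exact ⟨0, by rw [updW_mem _ _ hv, (borP K).n_zero, one_smul]⟩
  · rw [updW_not_mem _ _ hv]
    obtain ⟨ha1, n, hn, ha2⟩ := hW v hv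
    obtain ⟨g, hg⟩ := QuotientGroup.mk_surjective (y v)
    obtain ⟨β, c, hβc⟩ := exists_borel_rep v (g : PGL(2, K) ⧸ U0 (K := K) v)
    rw [eq_comm, QuotientGroup.eq] at hβc
    obtain ⟨k, hk⟩ : ∃ k, k = ((borP K).n β * (borP K).d c)⁻¹ * g := ⟨_, rfl⟩
    have hgk : g = (borP K).n β * (borP K).d c * k := by rw [hk]; group
    rw [← hk] at hβc
    clear hk
    refine ⟨(a : K) * β - β, ?_⟩
    rw [← hg]
    change (((borP K).d a * g : PGL(2, K)) : PGL(2, K) ⧸ L.fam.U v) =
      (((borP K).n ((a : K) * β - β) * g : PGL(2, K)) : PGL(2, K) ⧸ L.fam.U v)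
    rw [eq_comm, QuotientGroup.eq]
    have h1 : ((borP K).n ((a : K) * β - β) * g)⁻¹ * ((borP K).d a * g) =
        k⁻¹ * (borP K).d a * k := by
      have h2 : (borP K).d a * g = (borP K).n ((a : K) * β) * (borP K).d c *
          ((borP K).d a * k) := by
        rw [hgk, ← mul_assoc, ← mul_assoc, (borP K).conj, mul_assoc _ ((borP K).d a) ((borP K).d c),
          ← (borP K).d_mul, mul_comm a c, (borP K).d_mul]
        simp only [mul_assoc]
      have h3 : (borP K).n ((a : K) * β - β) * g = (borP K).n ((a : K) * β) *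
          (borP K).d c * k := by
        rw [hgk, ← mul_assoc, ← mul_assoc, ← (borP K).n_add, sub_add_cancel]
      rw [h2, h3]
      group
    rw [h1]
    exact hn (Gam_conj (d_mem_Gam ha1 ha2) hβc)

end Inv

end Fermat.Agent.H12TW
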