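import Fermat.Agent.H23RedPic
import Fermat.Agent.H18Torsion

/-!
# Mazur's principle, P3: Kummer functions and good reduction, abstract part (helper13)

For a good reduction `S` of the function field `F/K` to `E/k`: every `g : E` whose divisor is
divisible by `d` is, up to `d`-th powers, the reduction of a function whose divisor is divisible by
`d` (as soon as `d`-torsion classes lift to `d`-torsion classes); if `d` is invertible in `k`
and the reduction of a function `f`, with divisor divisible by `d`, is a `d`-th power, then `f` is a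
`d`-th power.
-/

set_option autoImplicit false

noncomputable section

open AlgebraicCurve

namespace Fermat.Agent.H13.Mz

open Fermat.Agent.H40 Fermat.Agent.H19 Fermat.Agent.H23

section Gen

variable {K F : Type*} [Field K] [Field F] [Algebra K F]

theorem ord_pow' (v : Place K F) (f : F) (n : ℕ) : v.ord (f ^ n) = n * v.ord f := by
  have := v.ord_zpow f n
  rwa [zpow_natCast] at this

/-- two functions with the same divisor differ by a constant -/
theorem exists_const_of_ord_eq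
    (hconst : ∀ e : F, e ≠ 0 → (∀ Q : Place K F, Q.ord e = 0) → ∃ a : K, e = algebraMap K F a)
    {f g : F} (hf : f ≠ 0) (hg : g ≠ 0) (h : ∀ v : Place K F, v.ord f = v.ord g) :
    ∃ a : K, a ≠ 0 ∧ f = algebraMap K F a * g := by
  obtain ⟨a, ha⟩ := hconst (f * g⁻¹) (mul_ne_zero hf (inv_ne_zero hg)) fun v => by
    rw [v.ord_mul hf (inv_ne_zero hg), v.ord_inv, h]
    ring
  refine ⟨a, ?_, ?_⟩
  · rintro rfl
    rw [map_zero] at ha
    exact mul_ne_zero hf (inv_ne_zero hg) ha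
  · rw [← ha, mul_assoc, inv_mul_cancel₀ hg, mul_one]

/-- division of divisors -/
theorem exists_divisor_div (Δ : Divisor K F) {d : ℕ} (hd : d ≠ 0)
    (h : ∀ v : Place K F, (d : ℤ) ∣ Δ v) :
    ∃ D : Divisor K F, d • D = Δ ∧ (Divisor.degree Δ = 0 → Divisor.degree D = 0) := by
  have hd' : (d : ℤ) ≠ 0 := by exact_mod_cast hd
  have key : d • (Finsupp.mapRange (fun m : ℤ => m / (d : ℤ)) (by simp) Δ : Divisor K F) = Δ := by
    ext v
    rw [Finsupp.smul_apply, Finsupp.mapRange_apply, nsmul_eq_mul]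
    exact Int.mul_ediv_cancel' (h v)
  refine ⟨_, key, fun h0 => ?_⟩
  have h1 := congrArg (Divisor.degree (K := K) (F := F)) key
  rw [map_nsmul, h0, nsmul_eq_mul] at h1
  exact (mul_eq_zero.mp h1).resolve_left hd'

theorem mk_nsmul_eq_zero_iff (D : Divisor.degZero (K := K) (F := F)) (d : ℕ) :
    d • Pic0.mk D = 0 ↔ Divisor.IsPrincipal (d • (D : Divisor K F)) := by
  have h2 : d • Pic0.mk D = Pic0.mk (d • D) := rfl
  rw [h2, Pic0.mk, QuotientAddGroup.eq_zero_iff, AddSubgroup.mem_addSubgroupOf,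
    AddSubgroup.coe_nsmul]
  exact Iff.rfl

end Gen

section Abstract

variable {K F k E : Type*} [Field K] [Field F] [Algebra K F] [Field k] [Field E] [Algebra k E]
  (S : GoodRed K F k E)

/-- Kummer functions lift. -/
theorem exists_lift_kummer
    (hconst : ∀ e : E, e ≠ 0 → (∀ Q : Place k E, Q.ord e = 0) → ∃ a : k, e = algebraMap k E a)
    [IsAlgClosed K] [H94.FunField K F] [IsAlgClosed k] [H94.FunField k E] {d : ℕ} (hd : d ≠ 0)
    (hlift : ∀ x : Pic0 k E, d • x = 0 → ∃ y : Pic0 K F, d • y = 0 ∧ redPic0 S y = x)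
    {g : E} (hg : g ≠ 0) (hdiv : ∀ w : Place k E, (d : ℤ) ∣ w.ord g) :
    ∃ (b : S.B) (c : E), S.ρ b = g * c ^ d ∧ c ≠ 0 ∧ ∀ v : Place K F, (d : ℤ) ∣ v.ord (b : F) := by
  have := S.pdF
  have := S.pdE
  obtain ⟨Δ, hΔ, hΔ0⟩ := H40.exists_div (K := k) hg
  obtain ⟨G, hG, hG0⟩ := exists_divisor_div Δ hd fun v => by rw [hΔ]; exact hdiv v
  have hGdeg : G ∈ Divisor.degZero (K := k) (F := E) := by
    rw [Divisor.mem_degZero]; exact hG0 hΔ0
  have hx : d • Pic0.mk (⟨G, hGdeg⟩ : Divisor.degZero (K := k) (F := E)) = 0 := by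
    rw [mk_nsmul_eq_zero_iff, hG]
    exact ⟨g, hg, hΔ⟩
  obtain ⟨y, hy, hyx⟩ := hlift _ hx
  obtain ⟨D, rfl⟩ := Pic0.mk_surjective y
  obtain ⟨f, hf0, hf⟩ := (mk_nsmul_eq_zero_iff D d).mp hy
  obtain ⟨c₁, hc₁, b, hb, hρb⟩ := H18.exists_scale' S.toReductionData hf0
  have hbF := S.toReductionData.ne_zero_of_ρ_ne_zero hρb
  have hcF : algebraMap K F c₁ ≠ 0 := by rwa [Ne, map_eq_zero]
  have hbord : ∀ v : Place K F, (d • (D : Divisor K F)) v = v.ord (b : F) := by
    intro v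
    have h1 := hf v
    rwa [hb, v.ord_mul hcF hbF, H40.ord_algebraMap, zero_add] at h1
  rw [redPic0_mk, Pic0_mk_eq_mk_iff] at hyx
  obtain ⟨e, he0, he⟩ := hyx
  have hρord : ∀ w : Place k E, w.ord (S.ρ b) = w.ord (g * (e⁻¹) ^ d) := by
    intro w
    have h1 := S.div_red b hρb (d • (D : Divisor K F)) hbord w
    have h2 : Finsupp.mapDomain S.r (d • (D : Divisor K F)) =
        d • Finsupp.mapDomain S.r (D : Divisor K F) := by
      rw [← Finsupp.mapDomain.addMonoidHom_apply, map_nsmul]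
      rfl
    have h3 := he w
    rw [coe_redDegZero, Finsupp.sub_apply] at h3
    have h4 : (d : ℤ) * G w = w.ord g := by
      rw [← hΔ, ← hG, Finsupp.smul_apply, nsmul_eq_mul]
    rw [← h1, h2, Finsupp.smul_apply, nsmul_eq_mul, w.ord_mul hg (pow_ne_zero _ (inv_ne_zero he0)),
      ord_pow', w.ord_inv, ← h4, ← h3]
    ring
  obtain ⟨a, ha0, ha⟩ := exists_const_of_ord_eq hconst hρb
    (mul_ne_zero hg (pow_ne_zero d (inv_ne_zero he0))) hρord
  obtain ⟨a', ha'⟩ := IsAlgClosed.exists_pow_nat_eq a (Nat.pos_of_ne_zero hd)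
  have ha'0 : a' ≠ 0 := by
    rintro rfl
    rw [zero_pow hd] at ha'
    exact ha0 ha'.symm
  refine ⟨b, algebraMap k E a' * e⁻¹, ?_, mul_ne_zero (by rwa [Ne, map_eq_zero])
    (inv_ne_zero he0), fun v => ⟨(D : Divisor K F) v, ?_⟩⟩
  · rw [ha, mul_pow, ← map_pow, ha']
    ring
  · rw [← hbord, Finsupp.smul_apply, nsmul_eq_mul]

/-- Kummer functions whose reduction is a `d`-th power are `d`-th powers. -/
theorem exists_root_of_red [IsAlgClosed K] [Nonempty (Place K F)]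
    (hconstF : ∀ e : F, e ≠ 0 → (∀ Q : Place K F, Q.ord e = 0) → ∃ a : K, e = algebraMap K F a)
    (hconst : ∀ e : E, e ≠ 0 → (∀ Q : Place k E, Q.ord e = 0) → ∃ a : k, e = algebraMap k E a)
    (hdF : ∀ v : Place K F, v.deg = 1) (hdE : ∀ v : Place k E, v.deg = 1)
    (hA : ∀ a b : S.A, a ≠ 0 → ¬ IsUnit b → ∃ n : ℕ, a ∣ b ^ n)
    {d : ℕ} (hd : (d : k) ≠ 0) (b : S.B) {c : E} (hc : c ≠ 0) (hb : S.ρ b = c ^ d)
    (hdiv : ∀ v : Place K F, (d : ℤ) ∣ v.ord (b : F)) : ∃ h : F, h ^ d = b := by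
  have := S.pdF
  have := S.pdE
  have hd0 : d ≠ 0 := by rintro rfl; simp at hd
  have hd0' : (d : ℤ) ≠ 0 := by exact_mod_cast hd0
  have hρb : S.ρ b ≠ 0 := by rw [hb]; exact pow_ne_zero _ hc
  have hbF := S.toReductionData.ne_zero_of_ρ_ne_zero hρb
  obtain ⟨Δ, hΔ, -⟩ := H40.exists_div (K := K) hbF
  obtain ⟨D, hD, -⟩ := exists_divisor_div Δ hd0 fun v => by rw [hΔ]; exact hdiv v
  have hDprin : Divisor.IsPrincipal D := by
    refine H18.isPrincipal_of_mapDomain (R := S.toReductionData) (r := S.r) (g := S.g) (c := S.c)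
      S.riemF S.riemE hdF hdE S.div_red hA hconst hd D ⟨b, hbF, fun v => by rw [hD, hΔ]⟩
      ⟨c, hc, fun w => ?_⟩
    have h1 := S.div_red b hρb (d • D) (fun v => by rw [hD, hΔ]) w
    have h2 : Finsupp.mapDomain S.r (d • D) = d • Finsupp.mapDomain S.r D := by
      rw [← Finsupp.mapDomain.addMonoidHom_apply, map_nsmul]
      rfl
    rw [h2, Finsupp.smul_apply, nsmul_eq_mul, hb, ord_pow'] at h1
    exact mul_left_cancel₀ hd0' h1
  obtain ⟨h, hh0, hh⟩ := hDprin
  obtain ⟨a, ha0, ha⟩ := exists_const_of_ord_eq hconstF hbF (pow_ne_zero d hh0) fun v => by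
    rw [ord_pow', ← hh, ← hΔ, ← hD, Finsupp.smul_apply, nsmul_eq_mul]
  obtain ⟨a', ha'⟩ := IsAlgClosed.exists_pow_nat_eq a (Nat.pos_of_ne_zero hd0)
  exact ⟨algebraMap K F a' * h, by rw [mul_pow, ← map_pow, ha', ha]⟩

/-- the class is determined by the reduction: if the reduction of `b` is, up to `d`-th powers,
the reduction of `b'`, then `b / b'` is a constant times a `d`-th power -/
theorem exists_root_of_red₂ [IsAlgClosed K] [Nonempty (Place K F)]
    (hconstF : ∀ e : F, e ≠ 0 → (∀ Q : Place K F, Q.ord e = 0) → ∃ a : K, e = algebraMap K F a)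
    (hconst : ∀ e : E, e ≠ 0 → (∀ Q : Place k E, Q.ord e = 0) → ∃ a : k, e = algebraMap k E a)
    (hdF : ∀ v : Place K F, v.deg = 1) (hdE : ∀ v : Place k E, v.deg = 1)
    (hA : ∀ a b : S.A, a ≠ 0 → ¬ IsUnit b → ∃ n : ℕ, a ∣ b ^ n)
    {d : ℕ} (hd : (d : k) ≠ 0) (b b' : S.B) {c : E} (hc : c ≠ 0) (hb' : S.ρ b' ≠ 0)
    (hb : S.ρ b = S.ρ b' * c ^ d)
    (hdiv : ∀ v : Place K F, (d : ℤ) ∣ v.ord (b : F))
    (hdiv' : ∀ v : Place K F, (d : ℤ) ∣ v.ord (b' : F)) : ∃ h : F, (b : F) = b' * h ^ d := by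
  obtain ⟨u, rfl⟩ := H18.isUnit_of_ρ_ne_zero S.toReductionData hb'
  have huF := S.toReductionData.ne_zero_of_ρ_ne_zero hb'
  have h1 : S.ρ u * S.ρ ((u⁻¹ : S.Bˣ) : S.B) = 1 := by
    rw [← map_mul, Units.mul_inv, map_one]
  have h2 : ((u : S.B) : F) * (((u⁻¹ : S.Bˣ) : S.B) : F) = 1 := by
    rw [← Subring.coe_mul, Units.mul_inv, Subring.coe_one]
  have hbF : (b : F) ≠ 0 := by
    apply S.toReductionData.ne_zero_of_ρ_ne_zero
    rw [hb]
    exact mul_ne_zero hb' (pow_ne_zero _ hc)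
  obtain ⟨h, hh⟩ := exists_root_of_red S hconstF hconst hdF hdE hA hd (b * ((u⁻¹ : S.Bˣ) : S.B))
    hc (by rw [map_mul, hb, mul_right_comm, h1, one_mul]) fun v => by
      rw [Subring.coe_mul, v.ord_mul hbF (right_ne_zero_of_mul_eq_one h2),
        eq_inv_of_mul_eq_one_right h2, v.ord_inv]
      exact dvd_add (hdiv v) ((dvd_neg).mpr (hdiv' v))
  refine ⟨h, ?_⟩
  rw [hh, Subring.coe_mul, mul_left_comm, h2, mul_one]

end Abstract

end Fermat.Agent.H13.Mz
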