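import Fermat.Agent.H33Field
import Fermat.Agent.H34Two4

/-!
# Reductions of functions up to constants (helper33)
-/

set_option autoImplicit false

open ModularCurve AlgebraicCurve

namespace Fermat.Agent.H33

section Red

variable {K : Type*} [Field K] (A : ValuationSubring K) {k : Type*} [Field k] (π : A →+* k)

/-- `r` is a (nonzero) reduction of a scalar multiple of `f` -/
def Red (f : LaurentSeries K) (r : LaurentSeries k) : Prop :=
  r ≠ 0 ∧ ∃ c : K, c ≠ 0 ∧ ∃ h : cst c * f ∈ valRing A π, valRes A π ⟨_, h⟩ = r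

variable {A π} {f g : LaurentSeries K} {r s : LaurentSeries k}

theorem Red.ne_zero (h : Red A π f r) : f ≠ 0 := by
  obtain ⟨hr, c, -, hc, rfl⟩ := h
  rintro rfl
  apply hr
  have : (⟨cst c * 0, hc⟩ : valRing A π) = 0 := Subtype.ext (mul_zero _)
  rw [this, map_zero]

theorem Red.res_ne (h : Red A π f r) : r ≠ 0 := h.1

theorem Red.mul (hf : Red A π f r) (hg : Red A π g s) : Red A π (f * g) (r * s) := by
  obtain ⟨hr, c, hc0, hc, rfl⟩ := hf
  obtain ⟨hs, d, hd0, hd, rfl⟩ := hg
  have he : cst (c * d) * (f * g) = (cst c * f) * (cst d * g) := by rw [cst_mul]; ring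
  have hmem : cst (c * d) * (f * g) ∈ valRing A π := by rw [he]; exact mul_mem hc hd
  refine ⟨mul_ne_zero hr hs, c * d, mul_ne_zero hc0 hd0, hmem, ?_⟩
  have : (⟨_, hmem⟩ : valRing A π) = ⟨_, hc⟩ * ⟨_, hd⟩ := Subtype.ext he
  rw [this, map_mul]

theorem Red.inv (hf : Red A π f r) : Red A π f⁻¹ r⁻¹ := by
  obtain ⟨hr, c, hc0, hc, rfl⟩ := hf
  have he : cst c⁻¹ * f⁻¹ = (cst c * f)⁻¹ := by rw [cst_inv, mul_inv]
  have hm := inv_mem_valRing hc hr
  have hmem : cst c⁻¹ * f⁻¹ ∈ valRing A π := by rw [he]; exact hm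
  refine ⟨inv_ne_zero hr, c⁻¹, inv_ne_zero hc0, hmem, ?_⟩
  have h1 : (⟨_, hmem⟩ : valRing A π) * ⟨_, hc⟩ = 1 := by
    apply Subtype.ext
    show cst c⁻¹ * f⁻¹ * (cst c * f) = 1
    rw [he]
    apply inv_mul_cancel₀
    intro h0
    apply hr
    have : (⟨_, hc⟩ : valRing A π) = 0 := Subtype.ext h0
    rw [this, map_zero]
  have h2 := congrArg (valRes A π) h1
  rw [map_mul, map_one] at h2
  exact eq_inv_of_mul_eq_one_left h2

theorem Red.div (hf : Red A π f r) (hg : Red A π g s) : Red A π (f / g) (r / s) := by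
  rw [div_eq_mul_inv, div_eq_mul_inv]
  exact hf.mul hg.inv

theorem red_one : Red A π 1 1 := by
  have h : cst (1 : K) * 1 ∈ valRing A π := by rw [cst_one, one_mul]; exact one_mem _
  refine ⟨one_ne_zero, 1, one_ne_zero, h, ?_⟩
  have he : cst (1 : K) * (1 : LaurentSeries K) = 1 := by rw [cst_one, one_mul]
  have : (⟨_, h⟩ : valRing A π) = 1 := Subtype.ext he
  rw [this, map_one]

theorem Red.pow (hf : Red A π f r) (n : ℕ) : Red A π (f ^ n) (r ^ n) := by
  induction n with
  | zero => rw [pow_zero, pow_zero]; exact red_one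
  | succ n ih => rw [pow_succ, pow_succ]; exact ih.mul hf

theorem Red.prod {ι : Type*} (s : Finset ι) {f : ι → LaurentSeries K} {r : ι → LaurentSeries k}
    (h : ∀ i ∈ s, Red A π (f i) (r i)) : Red A π (∏ i ∈ s, f i) (∏ i ∈ s, r i) := by
  classical
  induction s using Finset.induction_on with
  | empty => simpa using red_one
  | insert a s ha ih =>
    rw [Finset.prod_insert ha, Finset.prod_insert ha]
    exact (h a (Finset.mem_insert_self a s)).mul (ih fun i hi => h i (Finset.mem_insert_of_mem hi))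

theorem Red.const_mul (hf : Red A π f r) {c : K} (hc : c ≠ 0) : Red A π (cst c * f) r := by
  obtain ⟨hr, d, hd0, hd, rfl⟩ := hf
  have he : cst (d / c) * (cst c * f) = cst d * f := by
    rw [cst_div, ← mul_assoc, div_mul_cancel₀ _ (cst_ne_zero hc)]
  have hmem : cst (d / c) * (cst c * f) ∈ valRing A π := by rw [he]; exact hd
  refine ⟨hr, d / c, div_ne_zero hd0 hc, hmem, ?_⟩
  congr 1
  exact Subtype.ext he

/-- Uniqueness up to constants. -/
theorem Red.unique (hπ : Function.Surjective π) (hf : Red A π f r) (hf' : Red A π f s) :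
    ∃ c : k, c ≠ 0 ∧ s = algebraMap k (LaurentSeries k) c * r := by
  obtain ⟨hr, c, hc0, hc, rfl⟩ := hf
  obtain ⟨hs, d, hd0, hd, rfl⟩ := hf'
  have hm := inv_mem_valRing hc hr
  have hcf : cst c * f ≠ 0 := by
    intro h0
    apply hr
    have : (⟨_, hc⟩ : valRing A π) = 0 := Subtype.ext h0
    rw [this, map_zero]
  have he : cst (d / c) = (cst d * f) * (cst c * f)⁻¹ := by
    have hf0 : f ≠ 0 := right_ne_zero_of_mul hcf
    rw [cst_div]
    have := cst_ne_zero hc0
    field_simp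
  have hmem : cst (d / c) ∈ valRing A π := by rw [he]; exact mul_mem hd hm
  have hA : d / c ∈ A := mem_of_cst_mem hπ hmem
  have h1 : (⟨_, hd⟩ : valRing A π) = ⟨cst (d / c), hmem⟩ * ⟨_, hc⟩ := by
    apply Subtype.ext
    show cst d * f = cst (d / c) * (cst c * f)
    rw [he, mul_assoc, inv_mul_cancel₀ hcf, mul_one]
  have h2 := valRes_cst (π := π) (⟨d / c, hA⟩ : A) hmem
  refine ⟨π ⟨d / c, hA⟩, ?_, ?_⟩
  · intro h0
    apply hs
    rw [h1, map_mul, h2, h0, map_zero, zero_mul]
  · rw [h1, map_mul, h2]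

theorem Red.of_mem (hf : f ∈ valRing A π) (h : valRes A π ⟨f, hf⟩ = r) (hr : r ≠ 0) :
    Red A π f r := by
  have hm : cst (1 : K) * f ∈ valRing A π := by rw [cst_one, one_mul]; exact hf
  refine ⟨hr, 1, one_ne_zero, hm, ?_⟩
  have he : cst (1 : K) * f = f := by rw [cst_one, one_mul]
  have : (⟨_, hm⟩ : valRing A π) = ⟨f, hf⟩ := Subtype.ext he
  rw [this, h]

/-- semilinear automorphisms which act trivially on the residue field preserve reductions. -/
theorem map_mem_valRing {τ : K →+* K} (hτ : ∀ a ∈ A, τ a ∈ A)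
    (hτπ : ∀ (a : A), π ⟨τ a, hτ a a.2⟩ = π a) {f : LaurentSeries K} (hf : f ∈ valRing A π) :
    ∃ h : coeffMap τ f ∈ valRing A π, valRes A π ⟨_, h⟩ = valRes A π ⟨f, hf⟩ := by
  let τA : A →+* A := (τ.comp A.subtype).codRestrict A.toSubring (fun a => hτ a a.2)
  have h1 : ∀ g : LaurentSeries A, coeffMap τ (incl A g) = incl A (coeffMap τA g) := by
    intro g
    rw [incl, coeffMap_coeffMap, coeffMap_coeffMap]
    rfl
  have h2 : ∀ g : LaurentSeries A, coeffMap π (coeffMap τA g) = coeffMap π g := by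
    intro g
    rw [coeffMap_coeffMap]
    refine coeffMap_congr (RingHom.ext fun a => ?_) g
    exact hτπ a
  have h3 := map_mem (A := A) (π := π) (Φ := ((coeffMap τ : LaurentSeries K →+* LaurentSeries K) :
    LaurentSeries K →* LaurentSeries K)) (ΦA := coeffMap τA) (Φk := MonoidHom.id _) h1 h2
    (fun x hx => hx) hf
  refine ⟨h3, ?_⟩
  exact valRes_map (A := A) (π := π) (Φ := ((coeffMap τ : LaurentSeries K →+* LaurentSeries K) :
    LaurentSeries K →* LaurentSeries K)) (ΦA := coeffMap τA) (Φk := MonoidHom.id _) h1 h2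
    (fun x hx => hx) hf h3

theorem Red.map {τ : K →+* K} (hτ : ∀ a ∈ A, τ a ∈ A)
    (hτπ : ∀ (a : A), π ⟨τ a, hτ a a.2⟩ = π a) (hf : Red A π f r) :
    Red A π (coeffMap τ f) r := by
  obtain ⟨hr, c, hc0, hc, rfl⟩ := hf
  obtain ⟨h, hres⟩ := map_mem_valRing hτ hτπ hc
  have he : coeffMap τ (cst c * f) = cst (τ c) * coeffMap τ f := by
    rw [map_mul, coeffMap_algebraMap]
  have hm : cst (τ c) * coeffMap τ f ∈ valRing A π := by rw [← he]; exact h
  refine ⟨hr, τ c, (map_ne_zero τ).mpr hc0, hm, ?_⟩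
  rw [← hres]
  congr 1
  exact Subtype.ext he.symm

/-- Existence of reductions for modular functions. -/
theorem exists_red (hπ : Function.Surjective π) (M : ℕ) (hf : f ∈ modularFunctionFieldFullC K M)
    (hf0 : f ≠ 0) : ∃ r, Red A π f r := by
  have : IsLocalHom π := by
    constructor
    intro a ha
    exact isUnit_of_map_ne hπ ha.ne_zero
  obtain ⟨c, y, z, hc, hy, hz, h⟩ := H34.Two.exists_scale_quot A π
    (H34.Two.isQuot_full (L := K) M) hf hf0
  have hrep : IsRep A π (cst c⁻¹ * f) y z := by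
    refine ⟨hz, ?_⟩
    have h1 : f * coeffMap A.subtype z = cst c * incl A y := h.trans (by
      rw [cst_eq]
      ext n
      rw [HahnSeries.coeff_single_mul, sub_zero]
      exact H34.Two.coeff_smul' c _ n)
    rw [mul_assoc, incl, h1, cst_inv, ← mul_assoc, inv_mul_cancel₀ (cst_ne_zero hc), one_mul]
  have hm : cst c⁻¹ * f ∈ valRing A π := ⟨_, _, hrep⟩
  refine ⟨coeffMap π y / coeffMap π z, div_ne_zero hy hz, c⁻¹, inv_ne_zero hc, hm, ?_⟩
  exact valRes_eq hrep hm

end Red

end Fermat.Agent.H33
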