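import Fermat.Agent.H17DivRed
import Fermat.Agent.H33Red
import Fermat.Agent.H13MzAbs

/-!
# Mazur's principle, P3: Kummer functions and good reduction (helper13)

`A` is a place of `ℚ̄` above a prime `q ∤ M`, `k` its residue field. Every function `g` of
`X₀(M)` over `k` whose divisor is divisible by `d` is, up to `d`-th powers, the reduction of a
function `f` of `X₀(M)` over `ℚ̄` whose divisor is divisible by `d`; if `q ∤ d` and the reduction
of `f` is a `d`-th power, then `f` is a `d`-th power.
-/

set_option autoImplicit false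
set_option synthInstance.maxHeartbeats 400000
set_option maxHeartbeats 1000000

noncomputable section

open AlgebraicCurve ModularCurve

namespace Fermat.Agent.H13.Mz

open Fermat.Agent.H33 (Red valRing valRes cst)
open Fermat.Agent.H40 Fermat.Agent.H94 Fermat.Agent.H19 Fermat.Agent.H23

local notation "Qb" => AlgebraicClosure ℚ

section Bridge

variable {A : ValuationSubring Qb} {M : ℕ}
  (hdeg : H42.DegLE Qb (IsLocalRing.ResidueField A) M)

/-- the reduction of helper42's reduction data is helper33's reduction -/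
theorem valRes_of_mem (R : H40.ReductionData Qb (modularFunctionFieldBar M)
    (IsLocalRing.ResidueField A) (modularFunctionFieldFullC (IsLocalRing.ResidueField A) M))
    (hR : R = H42.modRed hdeg) (b : R.B) :
    ∃ h : (((b : modularFunctionFieldBar M)) : LaurentSeries Qb) ∈
        valRing A (IsLocalRing.residue A),
      valRes A (IsLocalRing.residue A) ⟨_, h⟩ =
        ((R.ρ b : modularFunctionFieldFullC (IsLocalRing.ResidueField A) M) :
          LaurentSeries (IsLocalRing.ResidueField A)) := by
  subst hR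
  set G := H42.modGauss A (IsLocalRing.residue A) M IsLocalRing.residue_surjective hdeg with hG
  obtain ⟨y, z, hz, h⟩ := b.2
  have h1 := G.res_mul_eq b hz h
  obtain ⟨Y, hY⟩ := y.2
  obtain ⟨Z, hZ⟩ := z.2
  have hYρ : ((G.ρ y : modularFunctionFieldFullC (IsLocalRing.ResidueField A) M) :
      LaurentSeries (IsLocalRing.ResidueField A)) = coeffMap (IsLocalRing.residue A) Y := by
    have h2 := H42.coe_modGauss_ρ A (IsLocalRing.residue A) M IsLocalRing.residue_surjective hdeg
      Y (by rw [hY]; exact SetLike.coe_mem _)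
    rw [← h2]
    congr 2
    exact Subtype.ext (Subtype.ext hY.symm)
  have hZρ : ((G.ρ z : modularFunctionFieldFullC (IsLocalRing.ResidueField A) M) :
      LaurentSeries (IsLocalRing.ResidueField A)) = coeffMap (IsLocalRing.residue A) Z := by
    have h2 := H42.coe_modGauss_ρ A (IsLocalRing.residue A) M IsLocalRing.residue_surjective hdeg
      Z (by rw [hZ]; exact SetLike.coe_mem _)
    rw [← h2]
    congr 2
    exact Subtype.ext (Subtype.ext hZ.symm)
  have hZ0 : coeffMap (IsLocalRing.residue A) Z ≠ 0 := by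
    rw [← hZρ]
    exact fun h0 => hz (Subtype.ext h0)
  have hrep : H33.IsRep A (IsLocalRing.residue A)
      (((b : modularFunctionFieldBar M)) : LaurentSeries Qb) Y Z := by
    refine ⟨hZ0, ?_⟩
    have h3 := congrArg (fun t : modularFunctionFieldBar M => (t : LaurentSeries Qb)) h
    show _ * coeffMap A.subtype Z = coeffMap A.subtype Y
    rw [hY, hZ]
    exact h3
  refine ⟨⟨Y, Z, hrep⟩, (H33.valRes_eq hrep _).trans ?_⟩
  rw [← hYρ, ← hZρ, div_eq_iff (by rw [hZρ]; exact hZ0)]
  exact (congrArg (fun t : modularFunctionFieldFullC (IsLocalRing.ResidueField A) M =>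
    (t : LaurentSeries (IsLocalRing.ResidueField A))) h1).symm

theorem red_of_mem (R : H40.ReductionData Qb (modularFunctionFieldBar M)
    (IsLocalRing.ResidueField A) (modularFunctionFieldFullC (IsLocalRing.ResidueField A) M))
    (hR : R = H42.modRed hdeg) (b : R.B) (hb : R.ρ b ≠ 0) :
    Red A (IsLocalRing.residue A) (((b : modularFunctionFieldBar M)) : LaurentSeries Qb)
      ((R.ρ b : modularFunctionFieldFullC (IsLocalRing.ResidueField A) M) :
          LaurentSeries (IsLocalRing.ResidueField A)) := by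
  obtain ⟨h, h1⟩ := valRes_of_mem hdeg R hR b
  exact Red.of_mem h h1 fun h0 => hb (Subtype.ext h0)

end Bridge

section Main

variable {q : ℕ} (hq : q.Prime) {A : ValuationSubring Qb} (hA : A.LiesOverPrime q)
  (M : ℕ) [NeZero M] (hqM : ¬ q ∣ M)

include hq hA hqM

/-- the kernel of reduction is divisible -/
theorem exists_ker_nsmul {d : ℕ} (hd : d ≠ 0) :
    ∀ x ∈ H15.KJ M A, ∃ y ∈ H15.KJ M A, d • y = x := by
  induction d using Nat.recOnMul with
  | zero => exact absurd rfl hd
  | one => exact fun x hx => ⟨x, hx, one_smul _ _⟩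
  | prime p hp => exact fun x hx => H17.divRed M q hq hqM A hA p hp x hx
  | mul a b iha ihb =>
    intro x hx
    obtain ⟨y, hy, hyx⟩ := iha (left_ne_zero_of_mul hd) x hx
    obtain ⟨z, hz, hzy⟩ := ihb (right_ne_zero_of_mul hd) y hy
    exact ⟨z, hz, by rw [mul_smul, hzy, hyx]⟩

/-- **P3, lifting**: Kummer functions lift. -/
theorem exists_lift {d : ℕ} (hd : d ≠ 0)
    {g : modularFunctionFieldFullC (IsLocalRing.ResidueField A) M} (hg : g ≠ 0)
    (hdiv : ∀ w : Place (IsLocalRing.ResidueField A)
      (modularFunctionFieldFullC (IsLocalRing.ResidueField A) M), (d : ℤ) ∣ w.ord g) :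
    ∃ (f : modularFunctionFieldBar M)
      (c : modularFunctionFieldFullC (IsLocalRing.ResidueField A) M), f ≠ 0 ∧ c ≠ 0 ∧
      (∀ v : Place Qb (modularFunctionFieldBar M), (d : ℤ) ∣ v.ord f) ∧
      ∃ h : (f : LaurentSeries Qb) ∈ valRing A (IsLocalRing.residue A),
        valRes A (IsLocalRing.residue A) ⟨_, h⟩ =
          (g : LaurentSeries (IsLocalRing.ResidueField A)) *
            (c : LaurentSeries (IsLocalRing.ResidueField A)) ^ d := by
  have hdeg := H42.degLE_place hq hA hqM
  have hff := H42.funField_right (L := Qb) M hdeg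
  have hk : IsAlgClosed (IsLocalRing.ResidueField A) := H18.isAlgClosed_residueField A
  obtain ⟨T⟩ := H17.exists_setup M hq hqM A hA
  obtain ⟨b, c, hb, hc, hbd⟩ := exists_lift_kummer T.S
    (fun e _ he => H18.exists_eq_algebraMap_of_forall_ord_eq_zero he) hd
    (fun x hx => by
      obtain ⟨y, hy, -⟩ := exists_fixed_class T.I x
      obtain ⟨z, hz, hzy⟩ := exists_ker_nsmul hq hA M hqM hd (d • y) (by
        rw [H15.KJ, AddMonoidHom.mem_ker, ← T.red, map_nsmul, hy, hx])
      rw [H15.KJ, AddMonoidHom.mem_ker, ← T.red] at hz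
      refine ⟨y - z, (nsmul_sub y z d).trans (sub_eq_zero.mpr hzy.symm), ?_⟩
      rw [map_sub, hy, hz, sub_zero]) hg hdiv
  have hρ : T.S.ρ b ≠ 0 := by
    rw [hb]; exact mul_ne_zero hg (pow_ne_zero _ hc)
  obtain ⟨h, h1⟩ := valRes_of_mem hdeg T.S.toReductionData T.hS b
  refine ⟨b, c, T.S.toReductionData.ne_zero_of_ρ_ne_zero hρ, hc, hbd, h, ?_⟩
  rw [h1]
  exact congrArg (fun t : modularFunctionFieldFullC (IsLocalRing.ResidueField A) M =>
    (t : LaurentSeries (IsLocalRing.ResidueField A))) hb

/-- **P3, injectivity**: a Kummer function whose reduction is a `d`-th power is a `d`-th power. -/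
theorem exists_root {d : ℕ} (hqd : ¬ q ∣ d) {f : modularFunctionFieldBar M}
    (hdiv : ∀ v : Place Qb (modularFunctionFieldBar M), (d : ℤ) ∣ v.ord f)
    {c : modularFunctionFieldFullC (IsLocalRing.ResidueField A) M}
    (hred : Red A (IsLocalRing.residue A) (f : LaurentSeries Qb)
      ((c : LaurentSeries (IsLocalRing.ResidueField A)) ^ d)) :
    ∃ h : modularFunctionFieldBar M, f = h ^ d := by
  have hdeg := H42.degLE_place hq hA hqM
  have hff := H42.funField_right (L := Qb) M hdeg
  have hff' := H42.funField_left (k := IsLocalRing.ResidueField A) M hdeg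
  have hk : IsAlgClosed (IsLocalRing.ResidueField A) := H18.isAlgClosed_residueField A
  have hd0 : d ≠ 0 := by rintro rfl; exact hqd (dvd_zero q)
  obtain ⟨T⟩ := H17.exists_setup M hq hqM A hA
  have hf0 : f ≠ 0 := by
    rintro rfl
    exact hred.ne_zero rfl
  have hc : c ≠ 0 := by
    rintro rfl
    exact hred.res_ne (by rw [ZeroMemClass.coe_zero, zero_pow hd0])
  obtain ⟨a, ha, b, hfb, hρb⟩ := H18.exists_scale' T.S.toReductionData hf0
  have hbF := T.S.toReductionData.ne_zero_of_ρ_ne_zero hρb
  have h1 := (red_of_mem hdeg T.S.toReductionData T.hS b hρb).const_mul ha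
  have h2 : cst a * (((b : modularFunctionFieldBar M)) : LaurentSeries Qb) =
      (f : LaurentSeries Qb) :=
    (congrArg (fun t : modularFunctionFieldBar M => (t : LaurentSeries Qb)) hfb).symm
  rw [h2] at h1
  obtain ⟨e, he0, he⟩ := hred.unique IsLocalRing.residue_surjective h1
  obtain ⟨e', he'⟩ := IsAlgClosed.exists_pow_nat_eq e (Nat.pos_of_ne_zero hd0)
  have he'0 : e' ≠ 0 := by
    rintro rfl
    rw [zero_pow hd0] at he'
    exact he0 he'.symm
  have hbc : T.S.ρ b = (algebraMap _ _ e' * c) ^ d := by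
    apply Subtype.ext
    rw [mul_pow, ← map_pow, he']
    exact he
  have hne : Nonempty (Place Qb (modularFunctionFieldBar M)) := ⟨T.I.Pinf⟩
  obtain ⟨h, hh⟩ := exists_root_of_red T.S
    (fun e _ he => H18.exists_eq_algebraMap_of_forall_ord_eq_zero he)
    (fun e _ he => H18.exists_eq_algebraMap_of_forall_ord_eq_zero he)
    H94.deg_eq_one H94.deg_eq_one (H18.dvd_pow_of_algebraicClosure _)
    (H18.natCast_residueField_ne_zero A hq hA hqd) b
    (mul_ne_zero (by rwa [Ne, map_eq_zero]) hc) hbc fun v => by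
      have h3 := hdiv v
      rwa [hfb, v.ord_mul (by rwa [Ne, map_eq_zero]) hbF, H40.ord_algebraMap, zero_add] at h3
  obtain ⟨a', ha'⟩ := IsAlgClosed.exists_pow_nat_eq a (Nat.pos_of_ne_zero hd0)
  exact ⟨algebraMap _ _ a' * h, by rw [mul_pow, ← map_pow, ha', hh, hfb]⟩

end Main

end Fermat.Agent.H13.Mz
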