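import Fermat.Agent.H35Geo0
import Fermat.Agent.H13MzRed

/-!
# Mazur's principle: the inputs P3 (helper13)
-/

set_option autoImplicit false
set_option synthInstance.maxHeartbeats 400000
set_option maxHeartbeats 1000000

noncomputable section

open AlgebraicCurve ModularCurve

namespace Fermat.Agent.H13.Mz

local notation "Qb" => AlgebraicClosure ℚ

variable {q : ℕ} (hq : q.Prime) {A : ValuationSubring Qb} (hA : A.LiesOverPrime q)
  (M : ℕ) [NeZero M] (hqM : ¬ q ∣ M)

include hq hA hqM

/-- **P3, lifting.** -/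
theorem liftInput {d : ℕ} (hd : d ≠ 0) : H35.Geo.LiftInput d M A (IsLocalRing.residue A) := by
  intro r hr hdiv
  obtain ⟨f, c, hf, hc, hfd, h, hh⟩ := exists_lift hq hA M hqM hd hr hdiv
  refine ⟨f, hf, hfd, c, hc, ?_⟩
  refine H33.Red.of_mem h ?_ ?_
  · rw [hh]
    rfl
  · have h1 : r * c ^ d ≠ 0 := mul_ne_zero hr (pow_ne_zero _ hc)
    exact fun h0 => h1 (Subtype.ext h0)

/-- **P3, injectivity.** -/
theorem injInput {d : ℕ} (hqd : ¬ q ∣ d) : H35.Geo.InjInput d M A (IsLocalRing.residue A) := by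
  intro g _ hdiv c hred
  exact exists_root hq hA M hqM hqd hdiv hred

end Fermat.Agent.H13.Mz
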