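import Mathlib

set_option autoImplicit false
set_option linter.unusedSectionVars false

/-!
# Poisson summation in several variables (helper13)

For a continuous `f : ℝ^d → ℂ` with `|f x| ≤ C ∏ (1 + x_i²)⁻¹` and summable Fourier coefficients
`∑_n f (x + n) = ∑_m f̂ m e(m·x)`.
-/

noncomputable section

open MeasureTheory Set Complex Topology

namespace Fermat.Agent.H13Z

variable {d : Type*} [Fintype d]

/-- Product type decay. -/
def Dec (f : (d → ℝ) → ℂ) : Prop := ∃ C : ℝ, ∀ x, ‖f x‖ ≤ C * ∏ i, (1 + x i ^ 2)⁻¹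

theorem summable_pi_prod {ι : Type*} (g : ι → ℝ) (h0 : ∀ n, 0 ≤ g n) (hg : Summable g) :
    Summable fun n : d → ι => ∏ i, g (n i) := by
  classical
  refine summable_of_sum_le (c := ∏ _i : d, ∑' n, g n)
    (fun n => Finset.prod_nonneg fun i _ => h0 _) fun s => ?_
  let t : d → Finset ι := fun i => s.image fun n => n i
  have hs : s ⊆ Fintype.piFinset t := by
    intro n hn
    rw [Fintype.mem_piFinset]
    exact fun i => Finset.mem_image_of_mem _ hn
  calc ∑ n ∈ s, ∏ i, g (n i) ≤ ∑ n ∈ Fintype.piFinset t, ∏ i, g (n i) :=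
        Finset.sum_le_sum_of_subset_of_nonneg hs
          fun n _ _ => Finset.prod_nonneg fun i _ => h0 _
    _ = ∏ i, ∑ n ∈ t i, g n := (Finset.prod_univ_sum t fun _ n => g n).symm
    _ ≤ _ := Finset.prod_le_prod (fun i _ => Finset.sum_nonneg fun n _ => h0 n)
        fun i _ => hg.sum_le_tsum _ fun n _ => h0 n

theorem summable_int_inv : Summable fun n : ℤ => (1 + (n : ℝ) ^ 2)⁻¹ := by
  have h1 : Summable fun n : ℤ => (1 : ℝ) / (n : ℝ) ^ 2 :=
    (Real.summable_one_div_int_pow (p := 2)).mpr (by norm_num)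
  refine Summable.of_norm_bounded_eventually h1 ?_
  rw [Filter.eventually_cofinite]
  refine (Set.finite_singleton (0 : ℤ)).subset fun n hn => ?_
  by_contra h
  apply hn
  have h2 : (n : ℝ) ≠ 0 := Int.cast_ne_zero.mpr h
  have h3 : (0 : ℝ) < (n : ℝ) ^ 2 := by positivity
  rw [Real.norm_of_nonneg (by positivity), one_div]
  exact inv_anti₀ h3 (by linarith)

theorem one_add_sq_inv_le (x n : ℝ) :
    (1 + (x + n) ^ 2)⁻¹ ≤ 2 * (1 + x ^ 2) * (1 + n ^ 2)⁻¹ := by
  have h1 : 0 < 1 + (x + n) ^ 2 := by positivity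
  have h2 : 0 < 1 + n ^ 2 := by positivity
  rw [inv_le_iff_one_le_mul₀ h1, ← div_eq_mul_inv, div_mul_eq_mul_div, le_div_iff₀ h2]
  nlinarith [sq_nonneg (x + n + x), sq_nonneg (x * (x + n)), sq_nonneg (x+n), sq_nonneg x]

/-- Translates. -/
theorem Dec.bound {f : (d → ℝ) → ℂ} (hf : Dec f) : ∃ C : ℝ, 0 ≤ C ∧ ∀ x n : d → ℝ,
    ‖f (x + n)‖ ≤ C * (∏ i, (2 * (1 + x i ^ 2))) * ∏ i, (1 + n i ^ 2)⁻¹ := by
  obtain ⟨C, hC⟩ := hf
  refine ⟨|C|, abs_nonneg C, fun x n => (hC _).trans ?_⟩
  rw [mul_assoc, ← Finset.prod_mul_distrib]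
  refine mul_le_mul (le_abs_self C) (Finset.prod_le_prod (fun i _ => by positivity)
    fun i _ => one_add_sq_inv_le _ _) (Finset.prod_nonneg fun i _ => by positivity) (abs_nonneg C)

/-- The integer vectors as real vectors. -/
def iv (n : d → ℤ) : d → ℝ := fun i => (n i : ℝ)

theorem iv_add (n m : d → ℤ) : iv (n + m) = iv n + iv m := by
  funext i; simp [iv]

theorem summable_iv : Summable fun n : d → ℤ => ∏ i, (1 + iv n i ^ 2)⁻¹ :=
  summable_pi_prod (fun n : ℤ => (1 + (n : ℝ) ^ 2)⁻¹) (fun n => by positivity) summable_int_inv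

theorem Dec.summable {f : (d → ℝ) → ℂ} (hf : Dec f) (x : d → ℝ) :
    Summable fun n : d → ℤ => f (x + iv n) := by
  obtain ⟨C, -, hC⟩ := hf.bound
  exact Summable.of_norm_bounded (summable_iv.mul_left _) fun n => hC x (iv n)

theorem continuous_per {f : (d → ℝ) → ℂ} (hc : Continuous f) (hf : Dec f) :
    Continuous fun x => ∑' n : d → ℤ, f (x + iv n) := by
  obtain ⟨C, hC0, hC⟩ := hf.bound
  rw [continuous_iff_continuousAt]
  intro x₀
  let R : ℝ := ∏ i : d, (2 * (1 + (|x₀ i| + 1) ^ 2))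
  have hU : IsOpen {x : d → ℝ | ∀ i, |x i| < |x₀ i| + 1} := by
    rw [Set.ofPred_forall]
    exact isOpen_iInter_of_finite fun i => isOpen_lt (by fun_prop) (by fun_prop)
  have h1 : ContinuousOn (fun x => ∑' n : d → ℤ, f (x + iv n))
      {x : d → ℝ | ∀ i, |x i| < |x₀ i| + 1} := by
    refine continuousOn_tsum (u := fun n : d → ℤ => C * R * ∏ i, (1 + iv n i ^ 2)⁻¹)
      (fun n => (hc.comp (by fun_prop)).continuousOn) (summable_iv.mul_left _) fun n x hx => ?_
    refine (hC x (iv n)).trans ?_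
    refine mul_le_mul_of_nonneg_right (mul_le_mul_of_nonneg_left ?_ hC0)
      (Finset.prod_nonneg fun i _ => by positivity)
    refine Finset.prod_le_prod (fun i _ => by positivity) fun i _ => ?_
    have h2 : |x i| ≤ |x₀ i| + 1 := (hx i).le
    have h3 : x i ^ 2 ≤ (|x₀ i| + 1) ^ 2 := by
      rw [← sq_abs (x i)]
      exact pow_le_pow_left₀ (abs_nonneg _) h2 2
    linarith
  exact h1.continuousAt (hU.mem_nhds fun i => by linarith [abs_nonneg (x₀ i)])

/-- The projection to the torus. -/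
def proj (x : d → ℝ) : UnitAddTorus d := fun i => (x i : UnitAddCircle)

theorem isOpenQuotientMap_proj : IsOpenQuotientMap (proj (d := d)) :=
  IsOpenQuotientMap.piMap fun _ => QuotientAddGroup.isOpenQuotientMap_mk

theorem exists_iv_of_proj_eq {x x' : d → ℝ} (h : proj x = proj x') : ∃ n : d → ℤ, x = x' + iv n := by
  have h1 : ∀ i, ∃ n : ℤ, x i = x' i + n := by
    intro i
    have h2 : (x i : UnitAddCircle) = (x' i : UnitAddCircle) := congrFun h i
    rw [eq_comm, QuotientAddGroup.eq] at h2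
    obtain ⟨n, hn⟩ := h2
    refine ⟨n, ?_⟩
    have h3 : n • (1 : ℝ) = -(x' i) + x i := hn
    rw [zsmul_one] at h3
    linarith
  choose n hn using h1
  exact ⟨n, funext hn⟩

theorem per_add (f : (d → ℝ) → ℂ) (x : d → ℝ) (m : d → ℤ) :
    ∑' n : d → ℤ, f (x + iv m + iv n) = ∑' n : d → ℤ, f (x + iv n) := by
  have h1 := (Equiv.addLeft m).tsum_eq fun n : d → ℤ => f (x + iv n)
  rw [← h1]
  refine tsum_congr fun n => ?_
  rw [Equiv.coe_addLeft, iv_add, add_assoc]

/-- The projection as a continuous map. -/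
def projC : C(d → ℝ, UnitAddTorus d) := ⟨proj, isOpenQuotientMap_proj.continuous⟩

theorem factors_per {f : (d → ℝ) → ℂ} (hc : Continuous f) (hf : Dec f) :
    Function.FactorsThrough (⟨_, continuous_per hc hf⟩ : C(d → ℝ, ℂ)) (projC (d := d)) := by
  intro x x' h
  have h' : proj x = proj x' := h
  obtain ⟨m, rfl⟩ := exists_iv_of_proj_eq h'
  exact per_add f x' m

/-- The periodised function on the torus. -/
def per (f : (d → ℝ) → ℂ) (hc : Continuous f) (hf : Dec f) : C(UnitAddTorus d, ℂ) :=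
  IsQuotientMap.lift (f := projC) isOpenQuotientMap_proj.isQuotientMap
    ⟨_, continuous_per hc hf⟩ (factors_per hc hf)

theorem per_proj (f : (d → ℝ) → ℂ) (hc : Continuous f) (hf : Dec f) (x : d → ℝ) :
    per f hc hf (proj x) = ∑' n : d → ℤ, f (x + iv n) :=
  ContinuousMap.congr_fun (IsQuotientMap.lift_comp (f := projC)
    isOpenQuotientMap_proj.isQuotientMap ⟨_, continuous_per hc hf⟩ (factors_per hc hf)) x

/-- The additive character `e(m·x)`. -/
def ee (m : d → ℤ) (x : d → ℝ) : ℂ := cexp (2 * Real.pi * I * ((∑ i, (m i : ℝ) * x i : ℝ) : ℂ))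

theorem mFourier_proj (m : d → ℤ) (x : d → ℝ) : UnitAddTorus.mFourier m (proj x) = ee m x := by
  show ∏ i, fourier (m i) (x i : UnitAddCircle) = _
  rw [ee]
  simp_rw [fourier_coe_apply]
  rw [← Complex.exp_sum]
  congr 1
  push_cast
  rw [Finset.mul_sum]
  refine Finset.sum_congr rfl fun i _ => ?_
  ring

theorem norm_ee (m : d → ℤ) (x : d → ℝ) : ‖ee m x‖ = 1 := by
  rw [ee, mul_comm _ I, mul_assoc, ← Complex.ofReal_ofNat, ← Complex.ofReal_mul,
    mul_comm I, ← Complex.ofReal_mul, Complex.norm_exp_ofReal_mul_I]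

theorem ee_add (m : d → ℤ) (x y : d → ℝ) : ee m (x + y) = ee m x * ee m y := by
  rw [ee, ee, ee, ← Complex.exp_add]
  congr 1
  rw [← mul_add, ← Complex.ofReal_add, ← Finset.sum_add_distrib]
  congr 3
  funext i
  rw [Pi.add_apply, mul_add]

theorem ee_iv (m n : d → ℤ) : ee m (iv n) = 1 := by
  rw [ee]
  have h1 : ((∑ i, (m i : ℝ) * iv n i : ℝ) : ℂ) = ((∑ i, m i * n i : ℤ) : ℂ) := by
    simp [iv]
  rw [h1, mul_comm]
  exact Complex.exp_int_mul_two_pi_mul_I _

theorem continuous_ee (m : d → ℤ) : Continuous (ee m) := by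
  unfold ee
  fun_prop

/-- The half-open cubes. -/
def cube (n : d → ℤ) : Set (d → ℝ) := {x | ∀ i, x i ∈ Ioc (iv n i) (iv n i + 1)}

theorem measurableSet_cube (n : d → ℤ) : MeasurableSet (cube n) :=
  MeasurableSet.univ_pi' fun _ => measurableSet_Ioc

theorem cube_eq_preimage (n : d → ℤ) : (fun x : d → ℝ => x + iv n) ⁻¹' cube n = cube 0 := by
  ext x
  simp only [cube, Set.mem_preimage, Set.mem_ofPred_eq, Pi.add_apply, Set.mem_Ioc]
  refine forall_congr' fun i => ?_
  have h0 : iv (0 : d → ℤ) i = 0 := by simp [iv]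
  rw [h0]
  constructor
  · rintro ⟨h1, h2⟩; constructor <;> linarith
  · rintro ⟨h1, h2⟩; constructor <;> linarith

theorem iUnion_cube : ⋃ n : d → ℤ, cube n = Set.univ := by
  rw [Set.eq_univ_iff_forall]
  intro x
  rw [Set.mem_iUnion]
  refine ⟨fun i => ⌈x i⌉ - 1, fun i => ⟨?_, ?_⟩⟩
  · have := Int.ceil_lt_add_one (x i)
    simp only [iv, Int.cast_sub, Int.cast_one]; linarith
  · have := Int.le_ceil (x i)
    simp only [iv, Int.cast_sub, Int.cast_one]; linarith

theorem pairwise_disjoint_cube : Pairwise (Function.onFun Disjoint (cube (d := d))) := by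
  intro n m hnm
  rw [Function.onFun, Set.disjoint_left]
  intro x hx hx'
  apply hnm
  funext i
  obtain ⟨h1, h2⟩ := hx i
  obtain ⟨h3, h4⟩ := hx' i
  simp only [iv] at h1 h2 h3 h4
  have h5 : (n i : ℝ) < m i + 1 := by linarith
  have h6 : (m i : ℝ) < n i + 1 := by linarith
  have h7 : n i < m i + 1 := by exact_mod_cast h5
  have h8 : m i < n i + 1 := by exact_mod_cast h6
  omega

theorem Dec.integrable {f : (d → ℝ) → ℂ} (hc : Continuous f) (hf : Dec f) : Integrable f := by
  obtain ⟨C, hC⟩ := hf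
  have h1 : Integrable fun x : d → ℝ => ∏ i, (1 + x i ^ 2)⁻¹ := by
    have h2 := MeasureTheory.Integrable.fintype_prod (μ := fun _ : d => (volume : Measure ℝ))
      (f := fun (_ : d) (x : ℝ) => (1 + x ^ 2)⁻¹) fun _ => integrable_inv_one_add_sq
    exact h2
  exact (h1.const_mul C).mono' hc.aestronglyMeasurable (Filter.Eventually.of_forall hC)

/-- **Unfolding.** -/
theorem integral_eq_tsum_cube {h : (d → ℝ) → ℂ} (hi : Integrable h) :
    ∫ x, h x = ∑' n : d → ℤ, ∫ x in cube (0 : d → ℤ), h (x + iv n) := by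
  have h1 := integral_iUnion (μ := (volume : Measure (d → ℝ))) (f := h)
    (fun n : d → ℤ => measurableSet_cube n)
    pairwise_disjoint_cube (by rw [iUnion_cube]; exact hi.integrableOn)
  rw [iUnion_cube, setIntegral_univ] at h1
  rw [h1]
  refine tsum_congr fun n => ?_
  have h2 := (measurePreserving_add_right (volume : Measure (d → ℝ)) (iv n)).setIntegral_preimage_emb
    (MeasurableEquiv.addRight (iv n)).measurableEmbedding h (cube n)
  rw [cube_eq_preimage] at h2
  exact h2.symm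

theorem volume_cube_lt_top : (volume : Measure (d → ℝ)) (cube (0 : d → ℤ)) < ⊤ := by
  have h1 : cube (0 : d → ℤ) ⊆ Set.Icc (iv (0 : d → ℤ)) (iv 0 + 1) :=
    fun x hx => ⟨fun i => (hx i).1.le, fun i => (hx i).2⟩
  exact (measure_mono h1).trans_lt isCompact_Icc.measure_lt_top

theorem integrable_ee_mul {f : (d → ℝ) → ℂ} (hc : Continuous f) (hf : Dec f) (m : d → ℤ) :
    Integrable fun x => ee m x * f x := by
  refine (hf.integrable hc).mono ((continuous_ee _).mul hc).aestronglyMeasurable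
    (Filter.Eventually.of_forall fun x => ?_)
  rw [norm_mul, norm_ee, one_mul]

/-- The Fourier coefficient. -/
theorem mFourierCoeff_per (f : (d → ℝ) → ℂ) (hc : Continuous f) (hf : Dec f) (m : d → ℤ) :
    UnitAddTorus.mFourierCoeff (per f hc hf) m = ∫ x, ee (-m) x * f x := by
  have hi : Integrable fun x => ee (-m) x * f x := integrable_ee_mul hc hf (-m)
  rw [UnitAddTorus.mFourierCoeff_eq_integral _ m (iv (0 : d → ℤ)), integral_eq_tsum_cube hi]
  have h1 : ∀ x : d → ℝ, UnitAddTorus.mFourier (-m) (fun i => (x i : UnitAddCircle)) •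
      per f hc hf (fun i => (x i : UnitAddCircle)) =
        ∑' n : d → ℤ, ee (-m) (x + iv n) * f (x + iv n) := by
    intro x
    have h2 := per_proj f hc hf x
    have h3 := mFourier_proj (-m) x
    change per f hc hf (fun i => (x i : UnitAddCircle)) = _ at h2
    change UnitAddTorus.mFourier (-m) (fun i => (x i : UnitAddCircle)) = _ at h3
    rw [h2, h3, smul_eq_mul, ← tsum_mul_left]
    refine tsum_congr fun n => ?_
    rw [ee_add, ee_iv, mul_one]
  simp_rw [h1]
  refine (integral_tsum_of_summable_integral_norm (fun n => ?_) ?_).symm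
  · exact (hi.comp_add_right (iv n)).integrableOn
  · obtain ⟨C, hC0, hC⟩ := hf.bound
    have h4 : ∀ n : d → ℤ, ∫ x in cube (0 : d → ℤ), ‖ee (-m) (x + iv n) * f (x + iv n)‖ ≤
        (C * (∏ _i : d, (4 : ℝ)) * ∏ i, (1 + iv n i ^ 2)⁻¹) *
          (volume : Measure (d → ℝ)).real (cube (0 : d → ℤ)) := by
      intro n
      have h5 : ∀ x ∈ cube (0 : d → ℤ), ‖‖ee (-m) (x + iv n) * f (x + iv n)‖‖ ≤
          C * (∏ _i : d, (4 : ℝ)) * ∏ i, (1 + iv n i ^ 2)⁻¹ := by
        intro x hx
        rw [norm_norm, norm_mul, norm_ee, one_mul]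
        refine (hC x (iv n)).trans ?_
        refine mul_le_mul_of_nonneg_right (mul_le_mul_of_nonneg_left ?_ hC0)
          (Finset.prod_nonneg fun i _ => by positivity)
        refine Finset.prod_le_prod (fun i _ => by positivity) fun i _ => ?_
        have h6 := hx i
        have h0 : iv (0 : d → ℤ) i = 0 := by simp [iv]
        rw [h0, Set.mem_Ioc] at h6
        nlinarith [h6.1, h6.2]
      have h7 := norm_setIntegral_le_of_norm_le_const (μ := (volume : Measure (d → ℝ)))
        volume_cube_lt_top h5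
      exact (le_abs_self _).trans h7
    exact Summable.of_nonneg_of_le (fun n => integral_nonneg fun x => norm_nonneg _) h4
      ((summable_iv.mul_left _).mul_right _)

/-- **Poisson summation in several variables.** -/
theorem poisson {f : (d → ℝ) → ℂ} (hc : Continuous f) (hf : Dec f)
    (hs : Summable fun m : d → ℤ => ∫ x, ee (-m) x * f x) (x : d → ℝ) :
    ∑' n : d → ℤ, f (x + iv n) = ∑' m : d → ℤ, (∫ y, ee (-m) y * f y) * ee m x := by
  have h1 : Summable (UnitAddTorus.mFourierCoeff (per f hc hf)) := by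
    refine hs.congr fun m => ?_
    exact (mFourierCoeff_per f hc hf m).symm
  have h2 := UnitAddTorus.hasSum_mFourier_series_apply_of_summable h1 (proj x)
  rw [← per_proj f hc hf x, ← h2.tsum_eq]
  refine tsum_congr fun m => ?_
  rw [mFourierCoeff_per, smul_eq_mul, mFourier_proj]

end Fermat.Agent.H13Z
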