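import Fermat.Agent.H13Z1

set_option autoImplicit false
set_option linter.unusedSectionVars false

/-!
# Poisson summation for lattices in real vector spaces (helper13)
-/

noncomputable section

open MeasureTheory Set Complex Topology

namespace Fermat.Agent.H13Z

/-! ### Decay conditions -/

section Dec

variable {V W : Type*} [NormedAddCommGroup V] [NormedSpace ℝ V]
  [NormedAddCommGroup W] [NormedSpace ℝ W]

/-- Polynomial decay of order `2n`. -/
def PDec (n : ℕ) (f : V → ℂ) : Prop := ∃ C : ℝ, ∀ x, ‖f x‖ ≤ C * ((1 + ‖x‖ ^ 2) ^ n)⁻¹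

/-- Gaussian decay. -/
def GDec (f : V → ℂ) : Prop := ∃ c : ℝ, 0 < c ∧ ∃ C : ℝ, ∀ x, ‖f x‖ ≤ C * Real.exp (-c * ‖x‖ ^ 2)

theorem one_add_pow_le (n : ℕ) {c : ℝ} (hc : 0 < c) :
    ∃ K : ℝ, 0 < K ∧ ∀ t : ℝ, 0 ≤ t → (1 + t) ^ n ≤ K * Real.exp (c * t) := by
  set ε : ℝ := min 1 (c / (n + 1)) with hε
  have hn : (0 : ℝ) < n + 1 := by positivity
  have hε0 : 0 < ε := lt_min one_pos (div_pos hc hn)
  have hε1 : ε ≤ 1 := min_le_left _ _
  have hε2 : n * ε ≤ c := by
    have h1 : ε ≤ c / (n + 1) := min_le_right _ _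
    have h2 : (n + 1 : ℝ) * ε ≤ c := by
      calc (n + 1 : ℝ) * ε ≤ (n + 1) * (c / (n + 1)) := mul_le_mul_of_nonneg_left h1 hn.le
        _ = c := by field_simp
    nlinarith
  refine ⟨(ε⁻¹) ^ n, by positivity, fun t ht => ?_⟩
  have h1 : 1 + t ≤ ε⁻¹ * Real.exp (ε * t) := by
    have h2 : ε * t + 1 ≤ Real.exp (ε * t) := Real.add_one_le_exp _
    have h3 : ε * (1 + t) ≤ Real.exp (ε * t) := by nlinarith
    rw [← div_eq_inv_mul, le_div_iff₀ hε0]
    linarith
  calc (1 + t) ^ n ≤ (ε⁻¹ * Real.exp (ε * t)) ^ n := pow_le_pow_left₀ (by linarith) h1 n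
    _ = ε⁻¹ ^ n * Real.exp (n * (ε * t)) := by rw [mul_pow, ← Real.exp_nat_mul]
    _ ≤ ε⁻¹ ^ n * Real.exp (c * t) := by
        refine mul_le_mul_of_nonneg_left (Real.exp_le_exp.mpr ?_) (by positivity)
        rw [← mul_assoc]
        exact mul_le_mul_of_nonneg_right hε2 ht

theorem GDec.pDec {f : V → ℂ} (hf : GDec f) (n : ℕ) : PDec n f := by
  obtain ⟨c, hc, C, hC⟩ := hf
  obtain ⟨K, hK, hK'⟩ := one_add_pow_le n hc
  refine ⟨|C| * K, fun x => (hC x).trans ?_⟩
  have h1 : 0 < (1 + ‖x‖ ^ 2) ^ n := by positivity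
  rw [← div_eq_mul_inv, le_div_iff₀ h1]
  calc C * Real.exp (-c * ‖x‖ ^ 2) * (1 + ‖x‖ ^ 2) ^ n
      ≤ |C| * Real.exp (-c * ‖x‖ ^ 2) * (K * Real.exp (c * ‖x‖ ^ 2)) := by
        refine mul_le_mul (mul_le_mul_of_nonneg_right (le_abs_self C) (Real.exp_pos _).le)
          (hK' _ (by positivity)) h1.le (by positivity)
    _ = |C| * K * (Real.exp (-c * ‖x‖ ^ 2) * Real.exp (c * ‖x‖ ^ 2)) := by ring
    _ = |C| * K := by rw [← Real.exp_add]; simp

theorem exists_norm_ge [FiniteDimensional ℝ V] (L : V ≃ₗ[ℝ] W) :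
    ∃ c : ℝ, 0 < c ∧ ∀ x, c * ‖x‖ ≤ ‖L x‖ := by
  have hfd : FiniteDimensional ℝ W := L.finiteDimensional
  let L' : W →L[ℝ] V := LinearMap.toContinuousLinearMap (L.symm : W →ₗ[ℝ] V)
  refine ⟨(‖L'‖ + 1)⁻¹, by positivity, fun x => ?_⟩
  have h1 : ‖x‖ ≤ ‖L'‖ * ‖L x‖ := by
    have h2 := L'.le_opNorm (L x)
    have h3 : L' (L x) = x := L.symm_apply_apply x
    rwa [h3] at h2
  rw [inv_mul_le_iff₀ (by positivity)]
  nlinarith [norm_nonneg (L x)]

theorem GDec.comp [FiniteDimensional ℝ V] {f : W → ℂ} (hf : GDec f) (L : V ≃ₗ[ℝ] W) :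
    GDec (fun x => f (L x)) := by
  obtain ⟨c, hc, C, hC⟩ := hf
  obtain ⟨k, hk, hk'⟩ := exists_norm_ge L
  refine ⟨c * k ^ 2, by positivity, |C|, fun x => (hC _).trans ?_⟩
  refine mul_le_mul (le_abs_self C) (Real.exp_le_exp.mpr ?_) (Real.exp_pos _).le (abs_nonneg C)
  have h1 : (k * ‖x‖) ^ 2 ≤ ‖L x‖ ^ 2 := pow_le_pow_left₀ (by positivity) (hk' x) 2
  nlinarith

theorem PDec.comp [FiniteDimensional ℝ V] {n : ℕ} {f : W → ℂ} (hf : PDec n f) (L : V ≃ₗ[ℝ] W) :
    PDec n (fun x => f (L x)) := by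
  obtain ⟨C, hC⟩ := hf
  obtain ⟨k, hk, hk'⟩ := exists_norm_ge L
  set ε : ℝ := min 1 (k ^ 2) with hε
  have hε0 : 0 < ε := lt_min one_pos (by positivity)
  refine ⟨|C| * (ε⁻¹) ^ n, fun x => (hC _).trans ?_⟩
  rw [mul_assoc, ← inv_pow ((1 : ℝ) + ‖x‖ ^ 2), ← inv_pow ((1 : ℝ) + ‖L x‖ ^ 2), ← mul_pow,
    ← mul_inv]
  refine mul_le_mul (le_abs_self C) (pow_le_pow_left₀ (by positivity)
    (inv_anti₀ (by positivity) ?_) n) (by positivity) (abs_nonneg C)
  have h1 : (k * ‖x‖) ^ 2 ≤ ‖L x‖ ^ 2 := pow_le_pow_left₀ (by positivity) (hk' x) 2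
  have h2 : ε ≤ 1 := min_le_left _ _
  have h3 : ε ≤ k ^ 2 := min_le_right _ _
  nlinarith [sq_nonneg ‖x‖, mul_le_mul_of_nonneg_right h3 (sq_nonneg ‖x‖)]

variable {d : Type*} [Fintype d]

theorem PDec.dec {f : (d → ℝ) → ℂ} (hf : PDec (Fintype.card d) f) : Dec f := by
  obtain ⟨C, hC⟩ := hf
  refine ⟨|C|, fun x => (hC x).trans ?_⟩
  refine mul_le_mul (le_abs_self C) ?_ (by positivity) (abs_nonneg C)
  rw [← inv_pow, ← Finset.card_univ, ← Finset.prod_const]
  refine Finset.prod_le_prod (fun i _ => by positivity) fun i _ => ?_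
  refine inv_anti₀ (by positivity) ?_
  have h1 : ‖x i‖ ≤ ‖x‖ := norm_le_pi_norm x i
  have h2 : x i ^ 2 ≤ ‖x‖ ^ 2 := by
    rw [← sq_abs (x i)]
    exact pow_le_pow_left₀ (abs_nonneg _) h1 2
  linarith

theorem GDec.dec {f : (d → ℝ) → ℂ} (hf : GDec f) : Dec f := (hf.pDec _).dec

end Dec

/-! ### Lattices -/

section Lattice

variable {W : Type*} [NormedAddCommGroup W] [NormedSpace ℝ W] [FiniteDimensional ℝ W]
  {ι : Type*} [Fintype ι]

/-- Integral combinations of a family. -/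
def cmb (b : ι → W) (n : ι → ℤ) : W := ∑ i, (n i : ℝ) • b i

/-- The linear parametrisation given by a basis. -/
def par (b : Module.Basis ι ℝ W) : (ι → ℝ) ≃ₗ[ℝ] W := b.equivFun.symm

theorem par_iv (b : Module.Basis ι ℝ W) (n : ι → ℤ) : par b (iv n) = cmb b n := by
  rw [par, Module.Basis.equivFun_symm_apply]
  rfl

/-- Poisson summation in coordinates. -/
theorem poisson_par (b : Module.Basis ι ℝ W) {f : W → ℂ} (hc : Continuous f)
    (hf : PDec (Fintype.card ι) f)
    (hs : Summable fun m : ι → ℤ => ∫ x, ee (-m) x * f (par b x)) (v : W) :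
    ∑' n : ι → ℤ, f (v + cmb b n) =
      ∑' m : ι → ℤ, (∫ y, ee (-m) y * f (par b y)) * ee m (b.equivFun v) := by
  have hfd : Continuous (par b) := (par b).toLinearMap.continuous_of_finiteDimensional
  have h1 := poisson (f := fun x => f (par b x)) (hc.comp hfd) (hf.comp (par b)).dec hs
    (b.equivFun v)
  rw [← h1]
  refine tsum_congr fun n => ?_
  rw [map_add, par_iv]
  congr 2
  rw [par, LinearEquiv.symm_apply_apply]

theorem PDec.summable_cmb (b : Module.Basis ι ℝ W) {f : W → ℂ}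
    (hf : PDec (Fintype.card ι) f) (v : W) : Summable fun m : ι → ℤ => f (v + cmb b m) := by
  have h1 := (hf.comp (par b)).dec.summable (b.equivFun v)
  refine h1.congr fun m => ?_
  rw [map_add, par_iv]
  congr 2
  rw [par, LinearEquiv.symm_apply_apply]

variable [MeasurableSpace W] [BorelSpace W] (μ : Measure W) [μ.IsAddHaarMeasure]

/-- The volume of the fundamental parallelepiped. -/
def cvol (b : Module.Basis ι ℝ W) : ℝ := μ.real (ZSpan.fundamentalDomain b)

theorem cvol_pos (b : Module.Basis ι ℝ W) : 0 < cvol μ b := by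
  rw [cvol, measureReal_def, ENNReal.toReal_pos_iff]
  refine ⟨?_, ?_⟩
  · rw [pos_iff_ne_zero]
    exact ZSpan.measure_fundamentalDomain_ne_zero b
  · exact (ZSpan.fundamentalDomain_isBounded b).measure_lt_top

theorem map_par (b : Module.Basis ι ℝ W) :
    Measure.map (par b) (volume : Measure (ι → ℝ)) = ENNReal.ofReal (cvol μ b)⁻¹ • μ := by
  classical
  let e : (ι → ℝ) ≃L[ℝ] W := (par b).toContinuousLinearEquiv
  have h1 : (Measure.map (par b) (volume : Measure (ι → ℝ))).IsAddHaarMeasure :=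
    e.isAddHaarMeasure_map (volume : Measure (ι → ℝ))
  have h2 := Measure.isAddLeftInvariant_eq_smul
    (Measure.map (par b) (volume : Measure (ι → ℝ))) μ
  have hF : MeasurableSet (ZSpan.fundamentalDomain b) := ZSpan.fundamentalDomain_measurableSet b
  have h3 : Measure.map (par b) (volume : Measure (ι → ℝ)) (ZSpan.fundamentalDomain b) = 1 := by
    have hm : Measurable (par b) :=
      (par b).toLinearMap.continuous_of_finiteDimensional.measurable
    rw [Measure.map_apply hm hF]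
    have h4 : (par b) ⁻¹' ZSpan.fundamentalDomain b = Set.pi Set.univ fun _ => Set.Ico 0 1 := by
      ext x
      simp only [Set.mem_preimage, ZSpan.mem_fundamentalDomain, Set.mem_univ_pi]
      refine forall_congr' fun i => ?_
      have h5 : b.repr (par b x) i = x i := by
        rw [par, ← Module.Basis.equivFun_apply, LinearEquiv.apply_symm_apply]
      rw [h5]
    rw [h4, volume_pi, Measure.pi_pi]
    simp
  set c := (Measure.map (par b) (volume : Measure (ι → ℝ))).addHaarScalarFactor μ with hc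
  have h6 : μ (ZSpan.fundamentalDomain b) = ENNReal.ofReal (cvol μ b) := by
    rw [cvol, ofReal_measureReal (ZSpan.fundamentalDomain_isBounded b).measure_lt_top.ne]
  have h7 : (c : ENNReal) * ENNReal.ofReal (cvol μ b) = 1 := by
    rw [← h3, h2, ← h6]
    rfl
  have h8 : (c : ENNReal) = ENNReal.ofReal (cvol μ b)⁻¹ := by
    rw [ENNReal.ofReal_inv_of_pos (cvol_pos μ b)]
    exact ENNReal.eq_inv_of_mul_eq_one_left h7
  rw [h2, ← h8]
  rfl

theorem integral_par (b : Module.Basis ι ℝ W) (f : W → ℂ) :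
    ∫ x, f (par b x) = ((cvol μ b)⁻¹ : ℝ) • ∫ x, f x ∂μ := by
  let e : (ι → ℝ) ≃L[ℝ] W := (par b).toContinuousLinearEquiv
  have h1 := e.toHomeomorph.toMeasurableEquiv.measurableEmbedding.integral_map
    (μ := (volume : Measure (ι → ℝ))) f
  have h2 : Measure.map (⇑e.toHomeomorph.toMeasurableEquiv) (volume : Measure (ι → ℝ)) =
      ENNReal.ofReal (cvol μ b)⁻¹ • μ := map_par μ b
  rw [h2, integral_smul_measure, ENNReal.toReal_ofReal (inv_nonneg.mpr (cvol_pos μ b).le)] at h1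
  exact h1.symm

/-- The Fourier transform with respect to a real bilinear pairing. -/
def ft (β : W → W → ℝ) (f : W → ℂ) (u : W) : ℂ :=
  ∫ x, cexp (-(2 * Real.pi * I * (β x u : ℂ))) * f x ∂μ

/-- **Poisson summation for a lattice**: `b` a basis, `b'` the dual basis for a bilinear pairing
`β`: `∑_{x ∈ v + L} f x = vol(L)⁻¹ ∑_{y ∈ L'} f̂(y) e(β(v,y))`. -/
theorem poisson_lattice [DecidableEq ι] (b : Module.Basis ι ℝ W) (b' : ι → W)
    (β : W →ₗ[ℝ] W →ₗ[ℝ] ℝ)
    (hβ : ∀ i j, β (b i) (b' j) = if i = j then 1 else 0) {f : W → ℂ} (hc : Continuous f)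
    (hf : PDec (Fintype.card ι) f)
    (hs : Summable fun m : ι → ℤ => ft μ (fun x u => β x u) f (cmb b' m)) (v : W) :
    ∑' n : ι → ℤ, f (v + cmb b n) =
      ((cvol μ b)⁻¹ : ℝ) • ∑' m : ι → ℤ, ft μ (fun x u => β x u) f (cmb b' m) *
        cexp (2 * Real.pi * I * (β v (cmb b' m) : ℂ)) := by
  have h1 : ∀ (x : ι → ℝ) (m : ι → ℤ), β (par b x) (cmb b' m) = ∑ i, (m i : ℝ) * x i := by
    intro x m
    rw [par, Module.Basis.equivFun_symm_apply, cmb, map_sum]
    refine Finset.sum_congr rfl fun j _ => ?_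
    rw [map_smul, map_sum, LinearMap.sum_apply, smul_eq_mul]
    congr 1
    rw [Finset.sum_eq_single j]
    · rw [map_smul, LinearMap.smul_apply, hβ, if_pos rfl, smul_eq_mul, mul_one]
    · intro i _ hij
      rw [map_smul, LinearMap.smul_apply, hβ, if_neg hij, smul_zero]
    · intro h
      exact absurd (Finset.mem_univ j) h
  have h2 : ∀ m : ι → ℤ, ∫ x, ee (-m) x * f (par b x) =
      ((cvol μ b)⁻¹ : ℝ) • ft μ (fun x u => β x u) f (cmb b' m) := by
    intro m
    rw [ft, ← integral_par μ b]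
    refine integral_congr_ae (Filter.Eventually.of_forall fun x => ?_)
    show ee (-m) x * f (par b x) =
      cexp (-(2 * Real.pi * I * (β (par b x) (cmb b' m) : ℂ))) * f (par b x)
    rw [h1, ee]
    congr 2
    push_cast
    rw [← mul_neg, ← Finset.sum_neg_distrib]
    congr 1
    refine Finset.sum_congr rfl fun i _ => ?_
    rw [Pi.neg_apply]
    push_cast
    ring
  have h3 : ∀ m : ι → ℤ, ee m (b.equivFun v) = cexp (2 * Real.pi * I * (β v (cmb b' m) : ℂ)) := by
    intro m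
    have h4 := h1 (b.equivFun v) m
    rw [par, LinearEquiv.symm_apply_apply] at h4
    rw [h4]
    rfl
  rw [poisson_par b hc hf ?_ v]
  · rw [← tsum_const_smul'']
    refine tsum_congr fun m => ?_
    rw [h2, h3, smul_mul_assoc]
  · refine (hs.const_smul ((cvol μ b)⁻¹ : ℝ)).congr fun m => (h2 m).symm

end Lattice

end Fermat.Agent.H13Z
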