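import Fermat.Agent.H13Z2
import Fermat.Agent.H31Hyp2

set_option autoImplicit false
set_option linter.unusedSectionVars false

/-!
# The archimedean vector of the theta kernel over a complex place (helper13)

`om τ (x, x') = y exp(2πi·2Re(z x x')) exp(-2π y (|x|² + |x'|²))`, `τ = (z, y) ∈ H3`.
Its Fourier transform with respect to `2Re(x u' + x' u)` is `om (w τ) / 4`.
-/

noncomputable section

open MeasureTheory Set Complex Topology

namespace Fermat.Agent.H13Z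

/-! ### Gaussian integrals -/

theorem integral_gauss_R {a : ℝ} (ha : 0 < a) (α : ℂ) :
    ∫ x : ℝ, cexp (-(2 * Real.pi * a * (x : ℂ) ^ 2) + α * x) =
      ((1 / (2 * a) : ℝ) : ℂ) ^ (1 / 2 : ℂ) * cexp (α ^ 2 / (8 * Real.pi * a)) := by
  have hπ := Real.pi_pos
  have ha' : (a : ℂ) ≠ 0 := by exact_mod_cast ha.ne'
  have hπ' : (Real.pi : ℂ) ≠ 0 := by exact_mod_cast hπ.ne'
  have hb : (-(2 * Real.pi * a : ℝ) : ℂ).re < 0 := by
    rw [Complex.neg_re, Complex.ofReal_re]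
    have : 0 < 2 * Real.pi * a := by positivity
    linarith
  have h := integral_cexp_quadratic hb α 0
  have h1 : (Real.pi : ℂ) / -(-((2 * Real.pi * a : ℝ) : ℂ)) = ((1 / (2 * a) : ℝ) : ℂ) := by
    push_cast
    field_simp
  have h2 : (0 : ℂ) - α ^ 2 / (4 * -((2 * Real.pi * a : ℝ) : ℂ)) = α ^ 2 / (8 * Real.pi * a) := by
    push_cast
    field_simp
    ring
  rw [h1, h2] at h
  rw [← h]
  refine integral_congr_ae (Filter.Eventually.of_forall fun x => ?_)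
  show cexp (-(2 * Real.pi * a * (x : ℂ) ^ 2) + α * x) = _
  congr 1
  push_cast
  ring

theorem half_cpow {a : ℝ} (ha : 0 < a) :
    ((1 / (2 * a) : ℝ) : ℂ) ^ (1 / 2 : ℂ) * ((1 / (2 * a) : ℝ) : ℂ) ^ (1 / 2 : ℂ) =
      ((1 / (2 * a) : ℝ) : ℂ) := by
  have h : ((1 / (2 * a) : ℝ) : ℂ) ≠ 0 := by
    have : (1 / (2 * a) : ℝ) ≠ 0 := by positivity
    exact_mod_cast this
  rw [← Complex.cpow_add _ _ h]
  norm_num

/-- The Gaussian integral over `ℂ` with a linear term. -/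
theorem integral_gauss_C {a : ℝ} (ha : 0 < a) (α β : ℂ) :
    ∫ x : ℂ, cexp (-(2 * Real.pi * a * ((x.re : ℂ) ^ 2 + (x.im : ℂ) ^ 2)) +
        (α * x.re + β * x.im)) =
      ((1 / (2 * a) : ℝ) : ℂ) * cexp ((α ^ 2 + β ^ 2) / (8 * Real.pi * a)) := by
  rw [← Complex.volume_preserving_equiv_real_prod.symm.integral_comp'
    (fun x : ℂ => cexp (-(2 * Real.pi * a * ((x.re : ℂ) ^ 2 + (x.im : ℂ) ^ 2)) +
        (α * x.re + β * x.im)))]
  have h1 : ∀ p : ℝ × ℝ, cexp (-(2 * Real.pi * a *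
      (((measurableEquivRealProd.symm p).re : ℂ) ^ 2 +
        ((measurableEquivRealProd.symm p).im : ℂ) ^ 2)) +
        (α * (measurableEquivRealProd.symm p).re + β * (measurableEquivRealProd.symm p).im)) =
      cexp (-(2 * Real.pi * a * (p.1 : ℂ) ^ 2) + α * p.1) *
        cexp (-(2 * Real.pi * a * (p.2 : ℂ) ^ 2) + β * p.2) := by
    intro p
    rw [← Complex.exp_add]
    congr 1
    simp only [measurableEquivRealProd_symm_apply]
    ring
  simp_rw [h1]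
  rw [Measure.volume_eq_prod, integral_prod_mul (fun x : ℝ =>
    cexp (-(2 * Real.pi * a * (x : ℂ) ^ 2) + α * x))
    (fun x : ℝ => cexp (-(2 * Real.pi * a * (x : ℂ) ^ 2) + β * x)), integral_gauss_R ha,
    integral_gauss_R ha]
  rw [mul_mul_mul_comm, half_cpow ha, ← Complex.exp_add]
  congr 2
  ring

/-! ### The vector at one complex place -/

/-- The archimedean vector at one complex place. -/
def om (τ : H3) (x : ℂ × ℂ) : ℂ :=
  τ.y * cexp (2 * Real.pi * I * (2 * (τ.z * x.1 * x.2).re : ℝ) -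
    2 * Real.pi * τ.y * (‖x.1‖ ^ 2 + ‖x.2‖ ^ 2 : ℝ))

/-- The pairing at one complex place. -/
def pr (x u : ℂ × ℂ) : ℝ := 2 * (x.1 * u.2 + x.2 * u.1).re

theorem norm_om (τ : H3) (x : ℂ × ℂ) :
    ‖om τ x‖ = τ.y * Real.exp (-(2 * Real.pi * τ.y * (‖x.1‖ ^ 2 + ‖x.2‖ ^ 2))) := by
  rw [om, norm_mul, Complex.norm_real, Real.norm_of_nonneg τ.pos.le, Complex.norm_exp]
  congr 2
  rw [Complex.sub_re]
  have h1 : (2 * (Real.pi : ℂ) * I * ((2 * (τ.z * x.1 * x.2).re : ℝ) : ℂ)).re = 0 := by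
    have : 2 * (Real.pi : ℂ) * I * ((2 * (τ.z * x.1 * x.2).re : ℝ) : ℂ) =
      ((2 * Real.pi * (2 * (τ.z * x.1 * x.2).re) : ℝ) : ℂ) * I := by
      push_cast; ring
    rw [this, Complex.re_ofReal_mul, Complex.I_re, mul_zero]
  have h2 : (2 * (Real.pi : ℂ) * τ.y * ((‖x.1‖ ^ 2 + ‖x.2‖ ^ 2 : ℝ) : ℂ)).re =
      2 * Real.pi * τ.y * (‖x.1‖ ^ 2 + ‖x.2‖ ^ 2) := by
    have : 2 * (Real.pi : ℂ) * τ.y * ((‖x.1‖ ^ 2 + ‖x.2‖ ^ 2 : ℝ) : ℂ) =
      ((2 * Real.pi * τ.y * (‖x.1‖ ^ 2 + ‖x.2‖ ^ 2) : ℝ) : ℂ) := by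
      push_cast; ring
    rw [this, Complex.ofReal_re]
  rw [h1, h2]
  ring

theorem continuous_om (τ : H3) : Continuous (om τ) := by
  unfold om
  fun_prop

theorem sq_norm_le (x : ℂ × ℂ) : ‖x‖ ^ 2 ≤ ‖x.1‖ ^ 2 + ‖x.2‖ ^ 2 := by
  have h : ‖x‖ = max ‖x.1‖ ‖x.2‖ := rfl
  rw [h]
  rcases max_choice ‖x.1‖ ‖x.2‖ with h | h <;> rw [h] <;>
    nlinarith [sq_nonneg ‖x.1‖, sq_nonneg ‖x.2‖]

/-- The function of the second variable. -/
theorem integral_snd (τ : H3) (x : ℂ) (u : ℂ × ℂ) :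
    ∫ x' : ℂ, cexp (-(2 * Real.pi * I * (pr (x, x') u : ℂ))) * om τ (x, x') =
      1 / 2 * cexp (-(2 * Real.pi * (‖τ.z * x - u.1‖ ^ 2 / τ.y : ℝ)) -
        2 * Real.pi * τ.y * (‖x‖ ^ 2 : ℝ) - 2 * Real.pi * I * (2 * (x * u.2).re : ℝ)) := by
  have hy : (τ.y : ℂ) ≠ 0 := τ.y_ne
  have hπ' : (Real.pi : ℂ) ≠ 0 := by exact_mod_cast Real.pi_pos.ne'
  set c := τ.z * x - u.1 with hc
  have h := integral_gauss_C τ.pos (4 * Real.pi * I * c.re) (-(4 * Real.pi * I * c.im))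
  have h1 : ∀ x' : ℂ, cexp (-(2 * Real.pi * I * (pr (x, x') u : ℂ))) * om τ (x, x') =
      (τ.y * cexp (-(2 * Real.pi * τ.y * (‖x‖ ^ 2 : ℝ)) -
        2 * Real.pi * I * (2 * (x * u.2).re : ℝ))) *
      cexp (-(2 * Real.pi * τ.y * ((x'.re : ℂ) ^ 2 + (x'.im : ℂ) ^ 2)) +
        ((4 * Real.pi * I * c.re) * x'.re + (-(4 * Real.pi * I * c.im)) * x'.im)) := by
    intro x'
    rw [om, mul_left_comm, mul_assoc (τ.y : ℂ), ← Complex.exp_add, ← Complex.exp_add]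
    congr 2
    dsimp only
    have e1 : ‖x'‖ ^ 2 = x'.re ^ 2 + x'.im ^ 2 := by
      rw [Complex.sq_norm, Complex.normSq_apply]; ring
    have e2 : (τ.z * x * x').re = ((c + u.1) * x').re := by rw [hc]; ring_nf
    simp only [pr, e1, e2, Complex.add_re, Complex.mul_re, Complex.add_im]
    push_cast
    ring
  simp_rw [h1]
  rw [integral_const_mul, h, mul_mul_mul_comm]
  have h2 : (τ.y : ℂ) * ((1 / (2 * τ.y) : ℝ) : ℂ) = 1 / 2 := by
    push_cast
    field_simp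
  rw [h2, ← Complex.exp_add]
  congr 2
  have e1 : ‖c‖ ^ 2 = c.re ^ 2 + c.im ^ 2 := by
    rw [Complex.sq_norm, Complex.normSq_apply]; ring
  rw [e1]
  have e3 : ((4 * Real.pi * I * c.re) ^ 2 + (-(4 * Real.pi * I * c.im)) ^ 2) /
      (8 * Real.pi * τ.y) = -(2 * Real.pi * (((c.re ^ 2 + c.im ^ 2) / τ.y : ℝ) : ℂ)) := by
    have hI : I ^ 2 = -1 := Complex.I_sq
    push_cast
    field_simp
    ring_nf
    rw [hI]
    ring
  rw [e3]
  ring


theorem PDec.integrable {W : Type*} [NormedAddCommGroup W] [NormedSpace ℝ W]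
    [FiniteDimensional ℝ W] [MeasurableSpace W] [BorelSpace W] (μ : Measure W)
    [μ.IsAddHaarMeasure] {ι : Type*} [Fintype ι] (b : Module.Basis ι ℝ W) {f : W → ℂ}
    (hc : Continuous f) (hf : PDec (Fintype.card ι) f) : Integrable f μ := by
  let e : (ι → ℝ) ≃L[ℝ] W := (par b).toContinuousLinearEquiv
  have h1 : Integrable (fun x => f (par b x)) (volume : Measure (ι → ℝ)) :=
    (hf.comp (par b)).dec.integrable (hc.comp e.continuous)
  have h2 : Integrable f (Measure.map (par b) (volume : Measure (ι → ℝ))) :=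
    (e.toHomeomorph.toMeasurableEquiv.measurableEmbedding.integrable_map_iff).mpr h1
  rw [map_par μ b] at h2
  exact (integrable_smul_measure (by simpa using cvol_pos μ b) ENNReal.ofReal_ne_top).mp h2

theorem GDec.integrable {W : Type*} [NormedAddCommGroup W] [NormedSpace ℝ W]
    [FiniteDimensional ℝ W] [MeasurableSpace W] [BorelSpace W] (μ : Measure W)
    [μ.IsAddHaarMeasure] {f : W → ℂ} (hc : Continuous f) (hf : GDec f) : Integrable f μ :=
  PDec.integrable μ (Module.finBasis ℝ W) hc (hf.pDec _)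

theorem GDec.unit_mul {W : Type*} [NormedAddCommGroup W] {f g : W → ℂ} (hf : GDec f)
    (hg : ∀ x, ‖g x‖ = 1) : GDec (fun x => g x * f x) := by
  obtain ⟨c, hc, C, hC⟩ := hf
  exact ⟨c, hc, C, fun x => by rw [norm_mul, hg, one_mul]; exact hC x⟩

theorem gDec_om (τ : H3) : GDec (om τ) := by
  refine ⟨2 * Real.pi * τ.y, by have := τ.pos; have := Real.pi_pos; positivity, τ.y, fun x => ?_⟩
  rw [norm_om]
  refine mul_le_mul_of_nonneg_left (Real.exp_le_exp.mpr ?_) τ.pos.le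
  have h := sq_norm_le x
  have h1 : 0 < 2 * Real.pi * τ.y := by have := τ.pos; have := Real.pi_pos; positivity
  nlinarith

theorem norm_cexp_I (r : ℝ) : ‖cexp (-(2 * Real.pi * I * (r : ℂ)))‖ = 1 := by
  have : -(2 * (Real.pi : ℂ) * I * (r : ℂ)) = ((-(2 * Real.pi * r) : ℝ) : ℂ) * I := by
    push_cast; ring
  rw [this, Complex.norm_exp_ofReal_mul_I]

theorem norm_cexp_I' (r : ℝ) : ‖cexp (2 * Real.pi * I * (r : ℂ))‖ = 1 := by
  have : 2 * (Real.pi : ℂ) * I * (r : ℂ) = ((2 * Real.pi * r : ℝ) : ℂ) * I := by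
    push_cast; ring
  rw [this, Complex.norm_exp_ofReal_mul_I]

theorem integrable_om (τ : H3) (u : ℂ × ℂ) :
    Integrable (fun x : ℂ × ℂ => cexp (-(2 * Real.pi * I * (pr x u : ℂ))) * om τ x)
      (volume : Measure (ℂ × ℂ)) := by
  have hh : (volume : Measure (ℂ × ℂ)).IsAddHaarMeasure := by
    rw [Measure.volume_eq_prod]; infer_instance
  refine GDec.integrable _ ?_ ((gDec_om τ).unit_mul fun x => norm_cexp_I _)
  unfold om pr
  fun_prop

/-- **The Fourier transform of the archimedean vector.** -/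
theorem integral_om (τ : H3) (u : ℂ × ℂ) :
    ∫ x : ℂ × ℂ, cexp (-(2 * Real.pi * I * (pr x u : ℂ))) * om τ x =
      1 / 4 * om (H3.wMat • τ) u := by
  rw [Measure.volume_eq_prod, integral_prod _ (by
    rw [← Measure.volume_eq_prod]; exact integrable_om τ u)]
  simp_rw [integral_snd]
  have hy : (τ.y : ℂ) ≠ 0 := τ.y_ne
  have hπ' : (Real.pi : ℂ) ≠ 0 := by exact_mod_cast Real.pi_pos.ne'
  set D : ℝ := Complex.normSq τ.z + τ.y ^ 2 with hD
  have hD0 : 0 < D := by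
    have := τ.pos
    have := Complex.normSq_nonneg τ.z
    positivity
  have hDne : (D : ℂ) ≠ 0 := by exact_mod_cast hD0.ne'
  have ha : 0 < D / τ.y := div_pos hD0 τ.pos
  set p : ℂ := τ.z * (starRingEnd ℂ) u.1 with hp
  have h := integral_gauss_C ha (4 * Real.pi * (p.re / τ.y) - 4 * Real.pi * I * u.2.re)
    (-(4 * Real.pi * (p.im / τ.y)) + 4 * Real.pi * I * u.2.im)
  have h1 : ∀ x : ℂ, 1 / 2 * cexp (-(2 * Real.pi * (‖τ.z * x - u.1‖ ^ 2 / τ.y : ℝ)) -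
        2 * Real.pi * τ.y * (‖x‖ ^ 2 : ℝ) - 2 * Real.pi * I * (2 * (x * u.2).re : ℝ)) =
      (1 / 2 * cexp (-(2 * Real.pi * (‖u.1‖ ^ 2 / τ.y : ℝ)))) *
        cexp (-(2 * Real.pi * (D / τ.y : ℝ) * ((x.re : ℂ) ^ 2 + (x.im : ℂ) ^ 2)) +
        ((4 * Real.pi * (p.re / τ.y) - 4 * Real.pi * I * u.2.re) * x.re +
          (-(4 * Real.pi * (p.im / τ.y)) + 4 * Real.pi * I * u.2.im) * x.im)) := by
    intro x
    rw [mul_assoc (1 / 2 : ℂ), ← Complex.exp_add]
    congr 2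
    simp only [hp, hD, Complex.sq_norm, Complex.normSq_apply, Complex.sub_re, Complex.sub_im,
      Complex.mul_re, Complex.mul_im, Complex.conj_re, Complex.conj_im]
    push_cast
    field_simp
    ring
  simp_rw [h1]
  rw [integral_const_mul, h, om, H3.wMat_smul]
  simp only
  rw [← hD]
  have h2 : (1 / 2 * cexp (-(2 * Real.pi * (‖u.1‖ ^ 2 / τ.y : ℝ)))) *
      (((1 / (2 * (D / τ.y)) : ℝ) : ℂ) *
        cexp (((4 * Real.pi * (p.re / τ.y) - 4 * Real.pi * I * u.2.re) ^ 2 +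
          (-(4 * Real.pi * (p.im / τ.y)) + 4 * Real.pi * I * u.2.im) ^ 2) /
            (8 * Real.pi * (D / τ.y : ℝ)))) =
      (1 / 4 * ((τ.y / D : ℝ) : ℂ)) * cexp (-(2 * Real.pi * (‖u.1‖ ^ 2 / τ.y : ℝ)) +
        ((4 * Real.pi * (p.re / τ.y) - 4 * Real.pi * I * u.2.re) ^ 2 +
          (-(4 * Real.pi * (p.im / τ.y)) + 4 * Real.pi * I * u.2.im) ^ 2) /
            (8 * Real.pi * (D / τ.y : ℝ))) := by
    rw [Complex.exp_add, mul_mul_mul_comm]
    have h3 : (1 / 2 : ℂ) * ((1 / (2 * (D / τ.y)) : ℝ) : ℂ) = 1 / 4 * ((τ.y / D : ℝ) : ℂ) := by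
      push_cast
      field_simp
      norm_num
    rw [h3]
  rw [h2, mul_assoc]
  congr 3
  have hI : I ^ 2 = -1 := Complex.I_sq
  have hDe : (D : ℂ) = (τ.z.re : ℂ) ^ 2 + (τ.z.im : ℂ) ^ 2 + (τ.y : ℂ) ^ 2 := by
    rw [hD, Complex.normSq_apply]
    push_cast
    ring
  have e1 : (-(starRingEnd ℂ) τ.z / (D : ℂ) * u.1 * u.2).re =
      1 / D * (-(starRingEnd ℂ) τ.z * u.1 * u.2).re := by
    rw [← Complex.re_ofReal_mul]
    congr 1
    push_cast
    field_simp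
  rw [e1]
  simp only [hp, Complex.sq_norm, Complex.normSq_apply, Complex.neg_re, Complex.neg_im,
      Complex.mul_re, Complex.mul_im, Complex.conj_re, Complex.conj_im]
  push_cast
  field_simp
  rw [hDe]
  ring_nf
  rw [hI]
  ring_nf

end Fermat.Agent.H13Z
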