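import Fermat.Agent.H13Z3

set_option autoImplicit false
set_option linter.unusedSectionVars false

/-!
# The archimedean vector on `(ℂ × ℂ)^J` and Poisson summation for it (helper13)
-/

noncomputable section

open MeasureTheory Set Complex Topology

namespace Fermat.Agent.H13Z

/-! ### Torus parameter at one place -/

/-- The torus action `(x, x') ↦ (t x, t⁻¹ x')`. -/
def tor1 (t : ℝ) : (ℂ × ℂ) →ₗ[ℝ] (ℂ × ℂ) :=
  LinearMap.prodMap (t • LinearMap.id) (t⁻¹ • LinearMap.id)

theorem tor1_apply (t : ℝ) (x : ℂ × ℂ) : tor1 t x = (t • x.1, t⁻¹ • x.2) := rfl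

theorem det_tor1 {t : ℝ} (ht : t ≠ 0) : LinearMap.det (tor1 t) = 1 := by
  rw [tor1, LinearMap.det_prodMap, LinearMap.det_smul, LinearMap.det_smul, LinearMap.det_id,
    Complex.finrank_real_complex]
  field_simp

instance isAddHaar_C2 : (volume : Measure (ℂ × ℂ)).IsAddHaarMeasure := by
  rw [Measure.volume_eq_prod]; infer_instance

theorem measurePreserving_tor1 {t : ℝ} (ht : t ≠ 0) :
    MeasurePreserving (tor1 t) (volume : Measure (ℂ × ℂ)) volume := by
  have hd : LinearMap.det (tor1 t) ≠ 0 := by rw [det_tor1 ht]; exact one_ne_zero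
  refine ⟨(tor1 t).continuous_of_finiteDimensional.measurable, ?_⟩
  rw [Measure.map_linearMap_addHaar_eq_smul_addHaar volume hd, det_tor1 ht]
  simp

/-- `tor1` as a linear equivalence. -/
def tor1E {t : ℝ} (ht : t ≠ 0) : (ℂ × ℂ) ≃ₗ[ℝ] (ℂ × ℂ) :=
  LinearEquiv.ofLinearMap (tor1 t) (tor1 t⁻¹)
    (by ext x <;> simp [tor1, ht])
    (by ext x <;> simp [tor1, ht])

theorem tor1E_apply {t : ℝ} (ht : t ≠ 0) (x : ℂ × ℂ) : tor1E ht x = tor1 t x := rfl

theorem pr_tor1 {t : ℝ} (ht : t ≠ 0) (x u : ℂ × ℂ) : pr (tor1 t x) (tor1 t u) = pr x u := by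
  have ht' : (t : ℂ) ≠ 0 := by exact_mod_cast ht
  rw [pr, pr, tor1_apply, tor1_apply]
  congr 2
  simp only [Complex.real_smul]
  push_cast
  field_simp

theorem pr_comm (x u : ℂ × ℂ) : pr x u = pr u x := by
  rw [pr, pr]
  congr 2
  ring

/-- The Fourier transform at one place, with torus parameter. -/
theorem integral_om_tor (τ : H3) {t : ℝ} (ht : t ≠ 0) (u : ℂ × ℂ) :
    ∫ x : ℂ × ℂ, cexp (-(2 * Real.pi * I * (pr x u : ℂ))) * om τ (tor1 t x) =
      1 / 4 * om (H3.wMat • τ) (tor1 t u) := by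
  rw [← integral_om]
  let e : (ℂ × ℂ) ≃ᵐ (ℂ × ℂ) :=
    (tor1E ht).toContinuousLinearEquiv.toHomeomorph.toMeasurableEquiv
  have he : ∀ x, e x = tor1 t x := fun x => rfl
  have hm : MeasurePreserving e (volume : Measure (ℂ × ℂ)) volume := measurePreserving_tor1 ht
  rw [← hm.integral_comp' (fun x : ℂ × ℂ =>
    cexp (-(2 * Real.pi * I * (pr x (tor1 t u) : ℂ))) * om τ x)]
  refine integral_congr_ae (Filter.Eventually.of_forall fun x => ?_)
  simp only [he, pr_tor1 ht]

/-! ### Several places -/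

variable {J : Type*} [Fintype J]

instance isAddHaar_WJ : (volume : Measure (J → ℂ × ℂ)).IsAddHaarMeasure := by
  exact Measure.instIsAddHaarMeasureForallVolumeOfMeasurableAddOfSigmaFinite

/-- The pairing `∑ 2 Re(x_j u'_j + x'_j u_j)`. -/
def PR : (J → ℂ × ℂ) →ₗ[ℝ] (J → ℂ × ℂ) →ₗ[ℝ] ℝ :=
  LinearMap.mk₂ ℝ (fun x u => ∑ j, pr (x j) (u j))
    (fun x y u => by
      rw [← Finset.sum_add_distrib]
      refine Finset.sum_congr rfl fun j _ => ?_
      simp only [pr, Pi.add_apply, Prod.fst_add, Prod.snd_add, Complex.add_re, Complex.mul_re,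
        Complex.add_im]
      ring)
    (fun c x u => by
      rw [smul_eq_mul, Finset.mul_sum]
      refine Finset.sum_congr rfl fun j _ => ?_
      simp only [pr, Pi.smul_apply, Prod.smul_fst, Prod.smul_snd, Complex.real_smul,
        Complex.add_re, Complex.mul_re, Complex.mul_im, Complex.ofReal_re, Complex.ofReal_im]
      ring)
    (fun x u v => by
      rw [← Finset.sum_add_distrib]
      refine Finset.sum_congr rfl fun j _ => ?_
      simp only [pr, Pi.add_apply, Prod.fst_add, Prod.snd_add, Complex.add_re, Complex.mul_re,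
        Complex.add_im]
      ring)
    (fun c x u => by
      rw [smul_eq_mul, Finset.mul_sum]
      refine Finset.sum_congr rfl fun j _ => ?_
      simp only [pr, Pi.smul_apply, Prod.smul_fst, Prod.smul_snd, Complex.real_smul,
        Complex.add_re, Complex.mul_re, Complex.mul_im, Complex.ofReal_re, Complex.ofReal_im]
      ring)

theorem PR_apply (x u : J → ℂ × ℂ) : PR x u = ∑ j, pr (x j) (u j) := rfl

theorem PR_comm (x u : J → ℂ × ℂ) : PR x u = PR u x := by
  rw [PR_apply, PR_apply]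
  exact Finset.sum_congr rfl fun j _ => pr_comm _ _

/-- The archimedean vector with torus parameter. -/
def OM (t : J → ℝ) (τ : J → H3) (x : J → ℂ × ℂ) : ℂ := ∏ j, om (τ j) (tor1 (t j) (x j))

theorem continuous_OM (t : J → ℝ) (τ : J → H3) : Continuous (OM t τ) := by
  unfold OM
  refine continuous_finsetProd _ fun j _ => ?_
  exact (continuous_om _).comp
    ((tor1 (t j)).continuous_of_finiteDimensional.comp (continuous_apply j))

theorem sq_norm_le_sum {E : J → Type*} [∀ j, NormedAddCommGroup (E j)] (x : ∀ j, E j) :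
    ‖x‖ ^ 2 ≤ ∑ j, ‖x j‖ ^ 2 := by
  have h0 : 0 ≤ ∑ j, ‖x j‖ ^ 2 := Finset.sum_nonneg fun j _ => sq_nonneg _
  have h1 : ‖x‖ ≤ Real.sqrt (∑ j, ‖x j‖ ^ 2) := by
    rw [pi_norm_le_iff_of_nonneg (Real.sqrt_nonneg _)]
    intro j
    exact Real.le_sqrt_of_sq_le
      (Finset.single_le_sum (f := fun j => ‖x j‖ ^ 2) (fun j _ => sq_nonneg _) (Finset.mem_univ j))
  calc ‖x‖ ^ 2 ≤ Real.sqrt (∑ j, ‖x j‖ ^ 2) ^ 2 := pow_le_pow_left₀ (norm_nonneg _) h1 2
    _ = _ := Real.sq_sqrt h0

theorem GDec.prod {E : Type*} [NormedAddCommGroup E] {f : J → E → ℂ} (hf : ∀ j, GDec (f j)) :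
    GDec (fun x : J → E => ∏ j, f j (x j)) := by
  choose c hc C hC using hf
  refine ⟨(1 + ∑ j, (c j)⁻¹)⁻¹, ?_, ∏ j, |C j|, fun x => ?_⟩
  · have : 0 ≤ ∑ j, (c j)⁻¹ := Finset.sum_nonneg fun j _ => (inv_pos.mpr (hc j)).le
    positivity
  · have h0 : 0 ≤ ∑ j, (c j)⁻¹ := Finset.sum_nonneg fun j _ => (inv_pos.mpr (hc j)).le
    have h1 : ∀ j, (1 + ∑ j, (c j)⁻¹)⁻¹ ≤ c j := by
      intro j
      have h2 : (c j)⁻¹ ≤ ∑ j, (c j)⁻¹ :=
        Finset.single_le_sum (f := fun j => (c j)⁻¹) (fun j _ => (inv_pos.mpr (hc j)).le)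
          (Finset.mem_univ j)
      rw [inv_le_comm₀ (by positivity) (hc j)]
      linarith
    set k := (1 + ∑ j, (c j)⁻¹)⁻¹ with hk
    have hk0 : 0 < k := by positivity
    rw [norm_prod]
    calc ∏ j, ‖f j (x j)‖ ≤ ∏ j, |C j| * Real.exp (-k * ‖x j‖ ^ 2) := by
          refine Finset.prod_le_prod (fun j _ => norm_nonneg _) fun j _ => (hC j (x j)).trans ?_
          refine mul_le_mul (le_abs_self _) (Real.exp_le_exp.mpr ?_) (Real.exp_pos _).le
            (abs_nonneg _)
          nlinarith [h1 j, sq_nonneg ‖x j‖]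
      _ = (∏ j, |C j|) * Real.exp (-k * ∑ j, ‖x j‖ ^ 2) := by
          rw [Finset.prod_mul_distrib, ← Real.exp_sum, Finset.mul_sum]
      _ ≤ (∏ j, |C j|) * Real.exp (-k * ‖x‖ ^ 2) := by
          refine mul_le_mul_of_nonneg_left (Real.exp_le_exp.mpr ?_)
            (Finset.prod_nonneg fun j _ => abs_nonneg _)
          have := sq_norm_le_sum x
          nlinarith

theorem gDec_OM {t : J → ℝ} (ht : ∀ j, t j ≠ 0) (τ : J → H3) : GDec (OM t τ) :=
  GDec.prod fun j => (gDec_om (τ j)).comp (tor1E (ht j))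

/-- **The Fourier transform of the archimedean vector.** -/
theorem ft_OM {t : J → ℝ} (ht : ∀ j, t j ≠ 0) (τ : J → H3) (u : J → ℂ × ℂ) :
    ft volume (fun x u => PR x u) (OM t τ) u =
      (1 / 4) ^ Fintype.card J * OM t (fun j => H3.wMat • τ j) u := by
  rw [ft]
  have h1 : ∀ x : J → ℂ × ℂ, cexp (-(2 * Real.pi * I * (PR x u : ℂ))) * OM t τ x =
      ∏ j, (cexp (-(2 * Real.pi * I * (pr (x j) (u j) : ℂ))) * om (τ j) (tor1 (t j) (x j))) := by
    intro x
    rw [Finset.prod_mul_distrib, ← Complex.exp_sum, OM, PR_apply]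
    congr 2
    push_cast
    rw [Finset.sum_neg_distrib, Finset.mul_sum]
  simp_rw [h1]
  rw [integral_fintype_prod_volume_eq_prod (fun (j : J) (x : ℂ × ℂ) =>
    cexp (-(2 * Real.pi * I * (pr x (u j) : ℂ))) * om (τ j) (tor1 (t j) x))]
  simp_rw [fun j => integral_om_tor (τ j) (ht j) (u j)]
  rw [Finset.prod_mul_distrib, Finset.prod_const, Finset.card_univ, OM]

theorem finrank_WJ : Module.finrank ℝ (J → ℂ × ℂ) = 4 * Fintype.card J := by
  rw [Module.finrank_pi_fintype]
  simp [Module.finrank_prod, Complex.finrank_real_complex, mul_comm]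

variable {ι : Type*} [Fintype ι]

theorem linInd_of_dual [DecidableEq ι] {W : Type*} [AddCommGroup W] [Module ℝ W]
    (β : W →ₗ[ℝ] W →ₗ[ℝ] ℝ) {b b' : ι → W} (h : ∀ i j, β (b i) (b' j) = if i = j then 1 else 0) :
    LinearIndependent ℝ b ∧ LinearIndependent ℝ b' := by
  constructor
  · rw [Fintype.linearIndependent_iff]
    intro g hg j
    have h1 := congrArg (fun w => β w (b' j)) hg
    simp only [map_sum, LinearMap.sum_apply, map_smul, LinearMap.smul_apply, h, smul_eq_mul,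
      mul_ite, mul_one, mul_zero, map_zero, LinearMap.zero_apply] at h1
    rwa [Finset.sum_ite_eq' Finset.univ j g, if_pos (Finset.mem_univ j)] at h1
  · rw [Fintype.linearIndependent_iff]
    intro g hg j
    have h1 := congrArg (fun w => β (b j) w) hg
    simp only [map_sum, map_smul, h, smul_eq_mul, mul_ite, mul_one, mul_zero, map_zero] at h1
    rwa [Finset.sum_ite_eq Finset.univ j g, if_pos (Finset.mem_univ j)] at h1

/-- **Poisson summation for the archimedean vector.** -/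
theorem poisson_OM [DecidableEq ι] (b b' : Module.Basis ι ℝ (J → ℂ × ℂ))
    (hb : ∀ i j, PR (b i) (b' j) = if i = j then 1 else 0)
    {t : J → ℝ} (ht : ∀ j, t j ≠ 0) (τ : J → H3) (v : J → ℂ × ℂ) :
    ∑' n : ι → ℤ, OM t τ (v + cmb b n) =
      (((4 : ℝ) ^ Fintype.card J * cvol volume b)⁻¹ : ℝ) * ∑' n : ι → ℤ,
        OM t (fun j => H3.wMat • τ j) (cmb b' n) * cexp (2 * Real.pi * I * (PR v (cmb b' n) : ℂ)) := by
  have hs : Summable fun m : ι → ℤ => ft volume (fun x u => PR x u) (OM t τ) (cmb b' m) := by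
    simp_rw [ft_OM ht]
    refine Summable.mul_left _ ?_
    have h1 := ((gDec_OM ht fun j => H3.wMat • τ j).pDec (Fintype.card ι)).summable_cmb b' 0
    refine h1.congr fun m => ?_
    rw [zero_add]
  rw [poisson_lattice volume b b' PR hb (continuous_OM t τ)
    ((gDec_OM ht τ).pDec _) hs v, Complex.real_smul, ← tsum_mul_left, ← tsum_mul_left]
  refine tsum_congr fun m => ?_
  rw [ft_OM ht]
  push_cast
  rw [mul_inv, one_div, inv_pow]
  ring

end Fermat.Agent.H13Z
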