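import Mathlib

/-!
# Schwartz functions attached to a full lattice in a rational vector space (S47, block D)

`V` is a rational vector space, `Λ` a subgroup with finite quotients `Λ / mΛ` such that every
vector has a multiple in `Λ`.  `SF Λ` is the space of functions `V → ℂ` which are supported in
`m⁻¹ Λ` and periodic modulo `m Λ` for some `m ≠ 0`.  `HI` is the translation invariant linear
functional with `HI (1_Λ) = 1`.
-/

set_option linter.all false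

namespace Fermat.Agent.H66D

open AddSubgroup

section Basic

variable {V : Type*} [AddCommGroup V]

/-- the subgroup `m Λ` -/
def mL (Λ : AddSubgroup V) (m : ℕ) : AddSubgroup V := Λ.map (nsmulAddMonoidHom m)

lemma mem_mL {Λ : AddSubgroup V} {m : ℕ} {x : V} : x ∈ mL Λ m ↔ ∃ y ∈ Λ, m • y = x := by
  simp [mL, AddSubgroup.mem_map]

lemma nsmul_mem_mL {Λ : AddSubgroup V} {m : ℕ} {y : V} (hy : y ∈ Λ) : m • y ∈ mL Λ m :=
  mem_mL.2 ⟨y, hy, rfl⟩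

lemma mL_le (Λ : AddSubgroup V) (m : ℕ) : mL Λ m ≤ Λ := by
  intro x hx
  obtain ⟨y, hy, rfl⟩ := mem_mL.1 hx
  exact Λ.nsmul_mem hy m

lemma mL_one (Λ : AddSubgroup V) : mL Λ 1 = Λ := by
  ext x; simp [mem_mL]

lemma mL_mul (Λ : AddSubgroup V) (m l : ℕ) : mL Λ (m * l) = mL (mL Λ l) m := by
  ext x
  simp only [mem_mL]
  constructor
  · rintro ⟨y, hy, rfl⟩
    exact ⟨l • y, ⟨y, hy, rfl⟩, by rw [mul_nsmul', ]⟩
  · rintro ⟨z, ⟨y, hy, rfl⟩, rfl⟩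
    exact ⟨y, hy, by rw [mul_nsmul']⟩

lemma mL_mul_le (Λ : AddSubgroup V) (m l : ℕ) : mL Λ (m * l) ≤ mL Λ m := by
  intro x hx
  obtain ⟨y, hy, rfl⟩ := mem_mL.1 hx
  rw [mul_nsmul']
  exact nsmul_mem_mL (Λ.nsmul_mem hy l)

/-- `φ` is supported in `m⁻¹ Λ` and periodic modulo `m Λ`. -/
def IsLevel (Λ : AddSubgroup V) (φ : V → ℂ) (m : ℕ) : Prop :=
  m ≠ 0 ∧ (∀ x, φ x ≠ 0 → m • x ∈ Λ) ∧ ∀ x, ∀ y ∈ Λ, φ (x + m • y) = φ x

lemma IsLevel.mul {Λ : AddSubgroup V} {φ : V → ℂ} {m : ℕ} (h : IsLevel Λ φ m) {l : ℕ}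
    (hl : l ≠ 0) : IsLevel Λ φ (m * l) := by
  refine ⟨mul_ne_zero h.1 hl, fun x hx => ?_, fun x y hy => ?_⟩
  · rw [mul_nsmul]
    exact Λ.nsmul_mem (h.2.1 x hx) l
  · rw [mul_nsmul']
    exact h.2.2 x (l • y) (Λ.nsmul_mem hy l)

lemma IsLevel.mul' {Λ : AddSubgroup V} {φ : V → ℂ} {m : ℕ} (h : IsLevel Λ φ m) {l : ℕ}
    (hl : l ≠ 0) : IsLevel Λ φ (l * m) := by
  rw [mul_comm]; exact h.mul hl

lemma IsLevel.add {Λ : AddSubgroup V} {φ ψ : V → ℂ} {m : ℕ} (h : IsLevel Λ φ m)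
    (h' : IsLevel Λ ψ m) : IsLevel Λ (φ + ψ) m := by
  refine ⟨h.1, fun x hx => ?_, fun x y hy => ?_⟩
  · by_contra hn
    apply hx
    have h1 : φ x = 0 := by by_contra h0; exact hn (h.2.1 x h0)
    have h2 : ψ x = 0 := by by_contra h0; exact hn (h'.2.1 x h0)
    simp [h1, h2]
  · simp [h.2.2 x y hy, h'.2.2 x y hy]

lemma IsLevel.smul {Λ : AddSubgroup V} {φ : V → ℂ} {m : ℕ} (h : IsLevel Λ φ m) (c : ℂ) :
    IsLevel Λ (c • φ) m := by
  refine ⟨h.1, fun x hx => h.2.1 x (fun h0 => hx (by simp [h0])), fun x y hy => ?_⟩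
  simp [h.2.2 x y hy]

lemma isLevel_zero (Λ : AddSubgroup V) : IsLevel Λ (0 : V → ℂ) 1 :=
  ⟨one_ne_zero, fun x hx => absurd rfl hx, fun _ _ _ => rfl⟩

/-- Schwartz functions with respect to the lattice `Λ`. -/
def SF (Λ : AddSubgroup V) : Submodule ℂ (V → ℂ) where
  carrier := {φ | ∃ m : ℕ, IsLevel Λ φ m}
  add_mem' := by
    rintro φ ψ ⟨m, hm⟩ ⟨l, hl⟩
    exact ⟨m * l, (hm.mul hl.1).add (hl.mul' hm.1)⟩
  zero_mem' := ⟨1, isLevel_zero Λ⟩
  smul_mem' := by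
    rintro c φ ⟨m, hm⟩
    exact ⟨m, hm.smul c⟩

lemma mem_SF {Λ : AddSubgroup V} {φ : V → ℂ} : φ ∈ SF Λ ↔ ∃ m : ℕ, m ≠ 0 ∧
    (∀ x, φ x ≠ 0 → m • x ∈ Λ) ∧ ∀ x, ∀ y ∈ Λ, φ (x + m • y) = φ x := Iff.rfl

/-- a common level -/
lemma exists_level₂ {Λ : AddSubgroup V} {φ ψ : V → ℂ} (h : φ ∈ SF Λ) (h' : ψ ∈ SF Λ) :
    ∃ m, IsLevel Λ φ m ∧ IsLevel Λ ψ m := by
  obtain ⟨m, hm⟩ := h
  obtain ⟨l, hl⟩ := h'
  exact ⟨m * l, hm.mul hl.1, hl.mul' hm.1⟩

/-! ### sums over a quotient -/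

lemma periodic_out {Γ : AddSubgroup V} {φ : V → ℂ} (h : ∀ x, ∀ y ∈ Γ, φ (x + y) = φ x) (x : V) :
    φ ((x : V ⧸ Γ).out) = φ x := by
  obtain ⟨y, hy⟩ := QuotientAddGroup.mk_out_eq_add Γ x
  rw [hy]
  exact h x _ y.2

/-- the sum of a periodic function over the quotient -/
noncomputable def qS (Γ : AddSubgroup V) (φ : V → ℂ) : ℂ := ∑ᶠ q : V ⧸ Γ, φ q.out

lemma qS_translate {Γ : AddSubgroup V} {φ : V → ℂ} (h : ∀ x, ∀ y ∈ Γ, φ (x + y) = φ x) (v : V) :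
    qS Γ (fun x => φ (x + v)) = qS Γ φ := by
  have h' : ∀ x, ∀ y ∈ Γ, (fun x => φ (x + v)) (x + y) = (fun x => φ (x + v)) x := by
    intro x y hy
    show φ (x + y + v) = φ (x + v)
    rw [add_right_comm]
    exact h _ _ hy
  unfold qS
  rw [← finsum_comp_equiv (Equiv.addRight (v : V ⧸ Γ)) (f := fun q : V ⧸ Γ => φ q.out)]
  congr 1
  ext q
  induction q using QuotientAddGroup.induction_on with
  | H x =>
    have e1 := periodic_out (φ := fun x => φ (x + v)) h' x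
    show φ (Quotient.out (x : V ⧸ Γ) + v) = _
    have e2 : (Equiv.addRight (v : V ⧸ Γ)) (x : V ⧸ Γ) = ((x + v : V) : V ⧸ Γ) := rfl
    rw [e1, e2, periodic_out h]

lemma qS_relIndex {Γ' Γ : AddSubgroup V} (hle : Γ' ≤ Γ) {φ : V → ℂ}
    (h : ∀ x, ∀ y ∈ Γ, φ (x + y) = φ x) (hidx : Γ'.relIndex Γ ≠ 0)
    (hfin : (Function.support fun q : V ⧸ Γ => φ q.out).Finite) :
    qS Γ' φ = (Γ'.relIndex Γ : ℂ) * qS Γ φ := by
  have hfinite : Finite (Γ ⧸ Γ'.addSubgroupOf Γ) := by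
    apply Nat.finite_of_card_ne_zero
    exact hidx
  have h' : ∀ x, ∀ y ∈ Γ', φ (x + y) = φ x := fun x y hy => h x y (hle hy)
  unfold qS
  let e := AddSubgroup.quotientEquivProdOfLE hle
  rw [← finsum_comp_equiv e.symm (f := fun q : V ⧸ Γ' => φ q.out)]
  have key : ∀ p : (V ⧸ Γ) × (Γ ⧸ Γ'.addSubgroupOf Γ), φ ((e.symm p).out) = φ p.1.out := by
    rintro ⟨a, b⟩
    induction b using QuotientAddGroup.induction_on with
    | H b =>
      have : e.symm (a, (b : Γ ⧸ Γ'.addSubgroupOf Γ)) = ((a.out + (b : V) : V) : V ⧸ Γ') := by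
        simp [e, AddSubgroup.quotientEquivProdOfLE, AddSubgroup.quotientEquivProdOfLE']
      rw [this, periodic_out h']
      exact h _ _ b.2
  simp_rw [key]
  rw [finsum_curry]
  · have : ∀ a : V ⧸ Γ, (∑ᶠ _b : Γ ⧸ Γ'.addSubgroupOf Γ, φ a.out)
        = (Γ'.relIndex Γ : ℂ) * φ a.out := by
      intro a
      have := Fintype.ofFinite (Γ ⧸ Γ'.addSubgroupOf Γ)
      rw [finsum_eq_sum_of_fintype, Finset.sum_const, Finset.card_univ, nsmul_eq_mul]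
      congr 2
      rw [AddSubgroup.relIndex, AddSubgroup.index, Nat.card_eq_fintype_card]
    simp_rw [this]
    rw [← mul_finsum]
  · have : (Function.support fun ab : (V ⧸ Γ) × (Γ ⧸ Γ'.addSubgroupOf Γ) => φ ab.1.out)
        ⊆ (Function.support fun q : V ⧸ Γ => φ q.out) ×ˢ Set.univ := by
      rintro ⟨a, b⟩ hab
      exact ⟨hab, Set.mem_univ _⟩
    exact (hfin.prod Set.finite_univ).subset this

end Basic

section Integral

variable {V : Type*} [AddCommGroup V] [Module ℚ V]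

/-- the standing assumptions on the lattice `Λ` -/
structure IsFull (Λ : AddSubgroup V) : Prop where
  span : ∀ x : V, ∃ m : ℕ, m ≠ 0 ∧ m • x ∈ Λ
  idx : ∀ m : ℕ, m ≠ 0 → (mL Λ m).relIndex Λ ≠ 0

lemma nsmul_inv_smul {m : ℕ} (hm : m ≠ 0) (x : V) : m • ((m : ℚ)⁻¹ • x) = x := by
  rw [← Nat.cast_smul_eq_nsmul ℚ, smul_smul, mul_inv_cancel₀ (by exact_mod_cast hm), one_smul]

lemma nsmul_inj {m : ℕ} (hm : m ≠ 0) {x y : V} (h : m • x = m • y) : x = y := by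
  rw [← Nat.cast_smul_eq_nsmul ℚ, ← Nat.cast_smul_eq_nsmul ℚ] at h
  exact smul_right_injective V (by exact_mod_cast hm : (m : ℚ) ≠ 0) h

variable {Λ : AddSubgroup V}

lemma IsFull.finite_quot (hΛ : IsFull Λ) {m l : ℕ} (hm : m ≠ 0) (hl : l ≠ 0) :
    {q : V ⧸ mL Λ l | ∃ x : V, m • x ∈ Λ ∧ (x : V ⧸ mL Λ l) = q}.Finite := by
  have hfin : Finite (Λ ⧸ (mL Λ (m * l)).addSubgroupOf Λ) := by
    apply Nat.finite_of_card_ne_zero
    exact hΛ.idx (m * l) (mul_ne_zero hm hl)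
  refine (Set.finite_range (fun q : Λ ⧸ (mL Λ (m * l)).addSubgroupOf Λ =>
    ((((m : ℚ)⁻¹ • (q.out : V)) : V) : V ⧸ mL Λ l))).subset ?_
  rintro q ⟨x, hx, rfl⟩
  refine ⟨((⟨m • x, hx⟩ : Λ) : Λ ⧸ (mL Λ (m * l)).addSubgroupOf Λ), ?_⟩
  obtain ⟨y, hy⟩ := QuotientAddGroup.mk_out_eq_add ((mL Λ (m * l)).addSubgroupOf Λ)
    (⟨m • x, hx⟩ : Λ)
  have hy2 : ((y : Λ) : V) ∈ mL Λ (m * l) := by
    have := y.2
    rwa [AddSubgroup.mem_addSubgroupOf] at this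
  obtain ⟨z, hz, hz2⟩ := mem_mL.1 hy2
  show (((m : ℚ)⁻¹ • (((((⟨m • x, hx⟩ : Λ) : Λ ⧸ (mL Λ (m * l)).addSubgroupOf Λ)).out : Λ) : V) : V)
    : V ⧸ mL Λ l) = (x : V ⧸ mL Λ l)
  rw [hy, QuotientAddGroup.eq]
  refine mem_mL.2 ⟨-z, Λ.neg_mem hz, ?_⟩
  have h1 : ((m : ℚ)⁻¹ • (((⟨m • x, hx⟩ + (y : Λ)) : Λ) : V)) = x + l • z := by
    apply nsmul_inj hm
    rw [nsmul_inv_smul hm]
    push_cast
    rw [← hz2, smul_add, mul_nsmul']
  rw [h1]
  simp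

lemma IsLevel.finite_support (hΛ : IsFull Λ) {φ : V → ℂ} {m : ℕ} (h : IsLevel Λ φ m) {l : ℕ}
    (hl : l ≠ 0) : (Function.support fun q : V ⧸ mL Λ l => φ q.out).Finite := by
  refine (hΛ.finite_quot h.1 hl).subset ?_
  intro q hq
  exact ⟨q.out, h.2.1 _ hq, QuotientAddGroup.out_eq' q⟩

/-- the Haar functional at level `m` -/
noncomputable def HIm (Λ : AddSubgroup V) (m : ℕ) (φ : V → ℂ) : ℂ :=
  ((mL Λ m).relIndex Λ : ℂ)⁻¹ * qS (mL Λ m) φ

lemma IsLevel.periodic {φ : V → ℂ} {m : ℕ} (h : IsLevel Λ φ m) :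
    ∀ x, ∀ y ∈ mL Λ m, φ (x + y) = φ x := by
  intro x y hy
  obtain ⟨z, hz, rfl⟩ := mem_mL.1 hy
  exact h.2.2 x z hz

lemma HIm_mul (hΛ : IsFull Λ) {φ : V → ℂ} {m : ℕ} (h : IsLevel Λ φ m) {l : ℕ} (hl : l ≠ 0) :
    HIm Λ (m * l) φ = HIm Λ m φ := by
  have hle := mL_mul_le Λ m l
  have h1 : (mL Λ (m * l)).relIndex (mL Λ m) * (mL Λ m).relIndex Λ
      = (mL Λ (m * l)).relIndex Λ := AddSubgroup.relIndex_mul_relIndex _ _ _ hle (mL_le Λ m)
  have h0 : (mL Λ (m * l)).relIndex Λ ≠ 0 := hΛ.idx _ (mul_ne_zero h.1 hl)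
  have h2 : (mL Λ (m * l)).relIndex (mL Λ m) ≠ 0 := by
    intro h3; rw [h3, zero_mul] at h1; exact h0 h1.symm
  have h3 : (mL Λ m).relIndex Λ ≠ 0 := hΛ.idx _ h.1
  unfold HIm
  rw [qS_relIndex hle h.periodic h2 (h.finite_support hΛ h.1), ← h1]
  push_cast
  have h2' : ((mL Λ (m * l)).relIndex (mL Λ m) : ℂ) ≠ 0 := by exact_mod_cast h2
  have h3' : ((mL Λ m).relIndex Λ : ℂ) ≠ 0 := by exact_mod_cast h3
  field_simp

lemma HIm_eq (hΛ : IsFull Λ) {φ : V → ℂ} {m l : ℕ} (h : IsLevel Λ φ m) (h' : IsLevel Λ φ l) :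
    HIm Λ m φ = HIm Λ l φ := by
  rw [← HIm_mul hΛ h h'.1, mul_comm, HIm_mul hΛ h' h.1]

/-- the Haar functional -/
noncomputable def HIfun (Λ : AddSubgroup V) (φ : V → ℂ) : ℂ := by
  classical
  exact if h : ∃ m, IsLevel Λ φ m then HIm Λ h.choose φ else 0

lemma HIfun_eq (hΛ : IsFull Λ) {φ : V → ℂ} {m : ℕ} (h : IsLevel Λ φ m) :
    HIfun Λ φ = HIm Λ m φ := by
  classical
  have hex : ∃ m, IsLevel Λ φ m := ⟨m, h⟩
  unfold HIfun
  rw [dif_pos hex]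
  exact HIm_eq hΛ hex.choose_spec h

/-- the translation invariant linear functional on `SF Λ` with value `1` at `1_Λ` -/
noncomputable def HI (hΛ : IsFull Λ) : SF Λ →ₗ[ℂ] ℂ where
  toFun φ := HIfun Λ φ
  map_add' := by
    rintro ⟨φ, hφ⟩ ⟨ψ, hψ⟩
    obtain ⟨m, h1, h2⟩ := exists_level₂ hφ hψ
    show HIfun Λ (φ + ψ) = HIfun Λ φ + HIfun Λ ψ
    rw [HIfun_eq hΛ h1, HIfun_eq hΛ h2, HIfun_eq hΛ (h1.add h2)]
    unfold HIm qS
    rw [← mul_add, ← finsum_add_distrib (h1.finite_support hΛ h1.1) (h2.finite_support hΛ h2.1)]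
    rfl
  map_smul' := by
    rintro c ⟨φ, m, h1⟩
    show HIfun Λ (c • φ) = c • HIfun Λ φ
    rw [HIfun_eq hΛ h1, HIfun_eq hΛ (h1.smul c)]
    unfold HIm qS
    rw [smul_eq_mul, mul_left_comm]
    congr 1
    rw [mul_finsum]
    rfl

lemma HI_apply (hΛ : IsFull Λ) (φ : SF Λ) : HI hΛ φ = HIfun Λ φ := rfl

lemma IsLevel.translate {φ : V → ℂ} {m : ℕ} (h : IsLevel Λ φ m) {l : ℕ} (hl : l ≠ 0) {q : V}
    (hq : l • q ∈ Λ) : IsLevel Λ (fun x => φ (x + q)) (m * l) := by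
  refine ⟨mul_ne_zero h.1 hl, fun x hx => ?_, fun x y hy => ?_⟩
  · have h1 : m • (x + q) ∈ Λ := h.2.1 _ hx
    have h2 : (m * l) • x = l • (m • (x + q)) - m • (l • q) := by
      rw [smul_add, smul_add, mul_nsmul, smul_comm l m q]
      abel
    rw [h2]
    exact Λ.sub_mem (Λ.nsmul_mem h1 l) (Λ.nsmul_mem hq m)
  · show φ (x + (m * l) • y + q) = φ (x + q)
    rw [add_right_comm]
    exact (h.mul hl).2.2 _ y hy

/-- translation by `q` : `φ ↦ φ (· + q)` -/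
noncomputable def trans (hΛ : IsFull Λ) (q : V) : SF Λ →ₗ[ℂ] SF Λ where
  toFun φ := ⟨fun x => (φ : V → ℂ) (x + q), by
    obtain ⟨m, hm⟩ := φ.2
    obtain ⟨l, hl, hq⟩ := hΛ.span q
    exact ⟨m * l, hm.translate hl hq⟩⟩
  map_add' φ ψ := rfl
  map_smul' c φ := rfl

@[simp] lemma trans_apply (hΛ : IsFull Λ) (q : V) (φ : SF Λ) (x : V) :
    (trans hΛ q φ : V → ℂ) x = (φ : V → ℂ) (x + q) := rfl

theorem HI_trans (hΛ : IsFull Λ) (q : V) (φ : SF Λ) : HI hΛ (trans hΛ q φ) = HI hΛ φ := by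
  obtain ⟨φ, m, hm⟩ := φ
  obtain ⟨l, hl, hq⟩ := hΛ.span q
  have h1 := hm.translate hl hq
  have h2 := hm.mul hl
  show HIfun Λ (fun x => φ (x + q)) = HIfun Λ φ
  rw [HIfun_eq hΛ h1, HIfun_eq hΛ h2]
  unfold HIm
  rw [qS_translate h2.periodic q]

/-- the indicator function of `m Λ` -/
noncomputable def ind (Λ : AddSubgroup V) (m : ℕ) (hm : m ≠ 0) : SF Λ := by
  classical
  exact ⟨fun x => if x ∈ mL Λ m then 1 else 0, m, hm, fun x hx => by
    have hx' : x ∈ mL Λ m := by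
      by_contra h
      simp [h] at hx
    exact Λ.nsmul_mem (mL_le Λ m hx') m, fun x y hy => by
    have : (x + m • y ∈ mL Λ m) ↔ x ∈ mL Λ m :=
      (mL Λ m).add_mem_cancel_right (nsmul_mem_mL hy)
    simp [this]⟩

open Classical in
lemma ind_apply (m : ℕ) (hm : m ≠ 0) (x : V) :
    (ind Λ m hm : V → ℂ) x = if x ∈ mL Λ m then 1 else 0 := by
  unfold ind
  simp

lemma ind_level (m : ℕ) (hm : m ≠ 0) : IsLevel Λ (ind Λ m hm : V → ℂ) m := by
  classical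
  refine ⟨hm, fun x hx => ?_, fun x y hy => ?_⟩
  · rw [ind_apply] at hx
    have hx' : x ∈ mL Λ m := by
      by_contra h
      simp [h] at hx
    exact Λ.nsmul_mem (mL_le Λ m hx') m
  · rw [ind_apply, ind_apply]
    have : (x + m • y ∈ mL Λ m) ↔ x ∈ mL Λ m :=
      (mL Λ m).add_mem_cancel_right (nsmul_mem_mL hy)
    simp [this]

/-- every Schwartz function is a finite combination of translates of indicator functions -/
theorem decomp (hΛ : IsFull Λ) (φ : SF Λ) {m : ℕ} (h : IsLevel Λ (φ : V → ℂ) m) :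
    φ = ∑ q ∈ (h.finite_support hΛ h.1).toFinset,
      (φ : V → ℂ) q.out • trans hΛ (-q.out) (ind Λ m h.1) := by
  classical
  apply Subtype.ext
  funext x
  rw [Submodule.coe_sum, Finset.sum_apply]
  have hterm : ∀ q : V ⧸ mL Λ m, ((((φ : V → ℂ) q.out • trans hΛ (-q.out) (ind Λ m h.1) : SF Λ))
      : V → ℂ) x = if q = (x : V ⧸ mL Λ m) then (φ : V → ℂ) x else 0 := by
    intro q
    rw [Submodule.coe_smul, Pi.smul_apply, trans_apply, ind_apply]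
    by_cases hq : q = (x : V ⧸ mL Λ m)
    · have h1 : x + -q.out ∈ mL Λ m := by
        have : ((q.out : V) : V ⧸ mL Λ m) = (x : V ⧸ mL Λ m) := by
          rw [QuotientAddGroup.out_eq']; exact hq
        rw [QuotientAddGroup.eq] at this
        rwa [add_comm]
      rw [if_pos h1, if_pos hq, hq, periodic_out h.periodic]
      simp
    · have h1 : ¬ (x + -q.out ∈ mL Λ m) := by
        intro h2
        apply hq
        have : ((q.out : V) : V ⧸ mL Λ m) = (x : V ⧸ mL Λ m) := by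
          rw [QuotientAddGroup.eq]
          rwa [add_comm]
        rw [← this, QuotientAddGroup.out_eq']
      rw [if_neg h1, if_neg hq]
      simp
  rw [Finset.sum_congr rfl (fun q _ => hterm q), Finset.sum_ite_eq']
  split_ifs with hx
  · rfl
  · rw [Set.Finite.mem_toFinset, Function.mem_support, periodic_out h.periodic] at hx
    simpa using hx

theorem HI_ind (hΛ : IsFull Λ) (m : ℕ) (hm : m ≠ 0) :
    HI hΛ (ind Λ m hm) = ((mL Λ m).relIndex Λ : ℂ)⁻¹ := by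
  classical
  rw [HI_apply, HIfun_eq hΛ (ind_level m hm)]
  unfold HIm qS
  rw [finsum_eq_single _ (0 : V ⧸ mL Λ m)]
  · have h0 : (ind Λ m hm : V → ℂ) (Quotient.out (0 : V ⧸ mL Λ m)) = 1 := by
      have := periodic_out (ind_level (Λ := Λ) m hm).periodic (0 : V)
      rw [QuotientAddGroup.mk_zero] at this
      rw [this, ind_apply, if_pos (mL Λ m).zero_mem]
    rw [h0, mul_one]
  · intro q hq
    rw [ind_apply, if_neg]
    intro h
    apply hq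
    rw [← QuotientAddGroup.out_eq' q]
    exact (QuotientAddGroup.eq_zero_iff _).2 h

/-- uniqueness of the Haar functional -/
theorem HI_unique (hΛ : IsFull Λ) (J : SF Λ →ₗ[ℂ] ℂ)
    (hJ : ∀ q φ, J (trans hΛ q φ) = J φ) (φ : SF Λ) :
    J φ = J (ind Λ 1 one_ne_zero) * HI hΛ φ := by
  -- first on `ind m`
  have key : ∀ (m : ℕ) (hm : m ≠ 0),
      J (ind Λ m hm) = J (ind Λ 1 one_ne_zero) * HI hΛ (ind Λ m hm) := by
    intro m hm
    have hl : IsLevel Λ ((ind Λ 1 one_ne_zero : SF Λ) : V → ℂ) (1 * m) :=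
      (ind_level 1 one_ne_zero).mul hm
    rw [one_mul] at hl
    have h1 := decomp hΛ (ind Λ 1 one_ne_zero) hl
    have h2 : J (ind Λ 1 one_ne_zero) = (∑ q ∈ (hl.finite_support hΛ hl.1).toFinset,
        ((ind Λ 1 one_ne_zero : SF Λ) : V → ℂ) q.out) * J (ind Λ m hm) := by
      conv_lhs => rw [h1]
      rw [map_sum, Finset.sum_mul]
      refine Finset.sum_congr rfl fun q _ => ?_
      rw [map_smul, hJ, smul_eq_mul]
    have h3 : HI hΛ (ind Λ 1 one_ne_zero) = (∑ q ∈ (hl.finite_support hΛ hl.1).toFinset,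
        ((ind Λ 1 one_ne_zero : SF Λ) : V → ℂ) q.out) * HI hΛ (ind Λ m hm) := by
      conv_lhs => rw [h1]
      rw [map_sum, Finset.sum_mul]
      refine Finset.sum_congr rfl fun q _ => ?_
      rw [map_smul, HI_trans, smul_eq_mul]
    have h4 : HI hΛ (ind Λ 1 one_ne_zero) = 1 := by
      rw [HI_ind, mL_one]
      simp
    rw [h2, mul_right_comm, ← h3, h4, one_mul]
  obtain ⟨m, hm⟩ := φ.2
  have h1 := decomp hΛ φ hm
  rw [h1, map_sum, map_sum, Finset.mul_sum]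
  refine Finset.sum_congr rfl fun q _ => ?_
  rw [map_smul, map_smul, hJ, HI_trans, key m hm.1, smul_eq_mul, smul_eq_mul]
  ring

end Integral

end Fermat.Agent.H66D
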