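import Fermat.Agent.H13Z4
import Fermat.Agent.H66DSch

set_option autoImplicit false
set_option linter.unusedSectionVars false

/-!
# Theta data: a rational vector space embedded in `(ℂ × ℂ)^J` (helper13)
-/

noncomputable section

open MeasureTheory Set Complex Topology

namespace Fermat.Agent.H13Z

open Fermat.Agent.H66D

/-- Theta data: `V` a rational vector space, `Λ` a full lattice with `ℤ`-basis `b`, an additive map
`emb : V → (ℂ × ℂ)^J`, and a family `b'` of vectors of `V` dual to `b` for the pairing `PR`. -/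
structure TD {V : Type*} [AddCommGroup V] [Module ℚ V] (Λ : AddSubgroup V)
    (J : Type*) [Fintype J] (ι : Type*) [Fintype ι] [DecidableEq ι] where
  emb : V →+ (J → ℂ × ℂ)
  b : ι → V
  b' : ι → V
  dual : ∀ i j, PR (emb (b i)) (emb (b' j)) = if i = j then 1 else 0
  card : Fintype.card ι = 4 * Fintype.card J
  span : ∀ x, x ∈ Λ ↔ ∃ n : ι → ℤ, x = ∑ i, n i • b i
  full : ∀ x : V, ∃ m : ℕ, m ≠ 0 ∧ m • x ∈ Λ

/-- additive characters of the reals: `e r = exp(2πi r)` -/
def er (r : ℝ) : ℂ := cexp (2 * Real.pi * I * (r : ℂ))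

theorem er_add (r s : ℝ) : er (r + s) = er r * er s := by
  rw [er, er, er, ← Complex.exp_add]
  congr 1
  push_cast
  ring

@[simp] theorem er_zero : er 0 = 1 := by simp [er]

theorem er_int (n : ℤ) : er n = 1 := by
  rw [er]
  have := Complex.exp_int_mul_two_pi_mul_I n
  rw [← this]
  congr 1
  push_cast
  ring

theorem norm_er (r : ℝ) : ‖er r‖ = 1 := norm_cexp_I' r

theorem er_ne_zero (r : ℝ) : er r ≠ 0 := Complex.exp_ne_zero _

theorem er_eq_one {r : ℝ} (h : er r = 1) : ∃ n : ℤ, r = n := by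
  rw [er, Complex.exp_eq_one_iff] at h
  obtain ⟨n, hn⟩ := h
  refine ⟨n, ?_⟩
  have h2 : (2 * Real.pi * I : ℂ) ≠ 0 := by simp [Real.pi_ne_zero]
  have h3 : (r : ℂ) = n := by
    have : (2 * Real.pi * I : ℂ) * r = (2 * Real.pi * I : ℂ) * n := by rw [hn]; ring
    exact mul_left_cancel₀ h2 this
  exact_mod_cast h3

namespace TD

variable {V : Type*} [AddCommGroup V] [Module ℚ V] {Λ : AddSubgroup V}
  {J : Type*} [Fintype J] {ι : Type*} [Fintype ι] [DecidableEq ι] (D : TD Λ J ι)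

/-- The pairing on `V`. -/
def T (x y : V) : ℝ := PR (D.emb x) (D.emb y)

theorem T_comm (x y : V) : D.T x y = D.T y x := PR_comm _ _

theorem T_add_right (x y z : V) : D.T x (y + z) = D.T x y + D.T x z := by
  rw [T, map_add, map_add]; rfl

theorem T_add_left (x y z : V) : D.T (x + y) z = D.T x z + D.T y z := by
  rw [T_comm, T_add_right, D.T_comm z x, D.T_comm z y]

theorem T_zero_right (x : V) : D.T x 0 = 0 := by rw [T, map_zero, map_zero]

theorem T_neg_right (x y : V) : D.T x (-y) = - D.T x y := by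
  rw [T, map_neg, map_neg]; rfl

theorem emb_rat (q : ℚ) (x : V) : D.emb (q • x) = (q : ℝ) • D.emb x := by
  rw [map_rat_smul, Rat.cast_smul_eq_qsmul]

theorem emb_zsmul (n : ℤ) (x : V) : D.emb (n • x) = (n : ℝ) • D.emb x := by
  rw [map_zsmul, Int.cast_smul_eq_zsmul]

theorem emb_nsmul (n : ℕ) (x : V) : D.emb (n • x) = (n : ℝ) • D.emb x := by
  rw [map_nsmul, Nat.cast_smul_eq_nsmul]

theorem T_rat_right (q : ℚ) (x y : V) : D.T x (q • y) = q * D.T x y := by
  rw [T, emb_rat, map_smul, smul_eq_mul]; rfl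

theorem T_rat_left (q : ℚ) (x y : V) : D.T (q • x) y = q * D.T x y := by
  rw [T_comm, T_rat_right, T_comm]

theorem T_zsmul_right (n : ℤ) (x y : V) : D.T x (n • y) = n * D.T x y := by
  rw [T, emb_zsmul, map_smul, smul_eq_mul]; rfl

theorem T_zsmul_left (n : ℤ) (x y : V) : D.T (n • x) y = n * D.T x y := by
  rw [T_comm, T_zsmul_right, T_comm]

theorem T_sum_right {α : Type*} (s : Finset α) (f : α → V) (x : V) :
    D.T x (∑ a ∈ s, f a) = ∑ a ∈ s, D.T x (f a) := by
  rw [T, map_sum, map_sum]; rfl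

theorem T_sum_left {α : Type*} (s : Finset α) (f : α → V) (x : V) :
    D.T (∑ a ∈ s, f a) x = ∑ a ∈ s, D.T (f a) x := by
  rw [T_comm, T_sum_right]
  exact Finset.sum_congr rfl fun a _ => D.T_comm _ _

theorem T_dual (i j : ι) : D.T (D.b i) (D.b' j) = if i = j then 1 else 0 := D.dual i j

theorem linInd : LinearIndependent ℝ (fun i => D.emb (D.b i)) := (linInd_of_dual PR D.dual).1

theorem linInd' : LinearIndependent ℝ (fun i => D.emb (D.b' i)) := (linInd_of_dual PR D.dual).2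

theorem linIndB (m : ℕ) (hm : m ≠ 0) :
    LinearIndependent ℝ (fun i => (m : ℝ) • D.emb (D.b i)) :=
  D.linInd.units_smul fun _ => Units.mk0 (m : ℝ) (by exact_mod_cast hm)

theorem linIndB' (m : ℕ) (hm : m ≠ 0) :
    LinearIndependent ℝ (fun i => (m : ℝ)⁻¹ • D.emb (D.b' i)) :=
  D.linInd'.units_smul fun _ => Units.mk0 (m : ℝ)⁻¹ (inv_ne_zero (by exact_mod_cast hm))

/-- the scaled real basis `m • emb (b i)` -/
def B (m : ℕ) (hm : m ≠ 0) : Module.Basis ι ℝ (J → ℂ × ℂ) :=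
  basisOfLinearIndependentOfCardEqFinrank' (fun i => (m : ℝ) • D.emb (D.b i))
    (D.linIndB m hm) (by rw [D.card, finrank_WJ])

theorem B_apply (m : ℕ) (hm : m ≠ 0) (i : ι) : D.B m hm i = (m : ℝ) • D.emb (D.b i) := by
  rw [B, coe_basisOfLinearIndependentOfCardEqFinrank']

/-- the dual basis `m⁻¹ • emb (b' i)` -/
def B' (m : ℕ) (hm : m ≠ 0) : Module.Basis ι ℝ (J → ℂ × ℂ) :=
  basisOfLinearIndependentOfCardEqFinrank' (fun i => (m : ℝ)⁻¹ • D.emb (D.b' i))
    (D.linIndB' m hm) (by rw [D.card, finrank_WJ])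

theorem B'_apply (m : ℕ) (hm : m ≠ 0) (i : ι) : D.B' m hm i = (m : ℝ)⁻¹ • D.emb (D.b' i) := by
  rw [B', coe_basisOfLinearIndependentOfCardEqFinrank']

theorem B_dual (m : ℕ) (hm : m ≠ 0) (i j : ι) :
    PR (D.B m hm i) (D.B' m hm j) = if i = j then 1 else 0 := by
  have hm' : (m : ℝ) ≠ 0 := by exact_mod_cast hm
  rw [B_apply, B'_apply, map_smul, map_smul, LinearMap.smul_apply, D.dual]
  split_ifs
  · rw [smul_eq_mul, smul_eq_mul, mul_one, inv_mul_cancel₀ hm']
  · simp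

theorem cvol_B (m : ℕ) (hm : m ≠ 0) :
    cvol volume (D.B m hm) = (m : ℝ) ^ Fintype.card ι * cvol volume (D.B 1 one_ne_zero) := by
  rw [cvol, cvol, ZSpan.measureReal_fundamentalDomain (D.B m hm) volume (D.B 1 one_ne_zero)]
  congr 1
  have h1 : (D.B m hm : ι → (J → ℂ × ℂ)) =
      fun i => (m : ℝ) • (D.B 1 one_ne_zero : ι → (J → ℂ × ℂ)) i := by
    funext i
    rw [B_apply, B_apply, Nat.cast_one, one_smul]
  rw [h1, AlternatingMap.map_smul_univ (D.B 1 one_ne_zero).det (fun _ => (m : ℝ)),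
    Module.Basis.det_self, Finset.prod_const, Finset.card_univ, smul_eq_mul, mul_one, abs_pow,
    Nat.abs_cast]

/-- `emb` is injective. -/
theorem emb_injective : Function.Injective D.emb := by
  rw [injective_iff_map_eq_zero]
  intro x hx
  obtain ⟨m, hm, h⟩ := D.full x
  obtain ⟨n, hn⟩ := (D.span _).mp h
  have h1 : D.emb (m • x) = 0 := by rw [map_nsmul, hx, smul_zero]
  rw [hn, map_sum] at h1
  simp_rw [emb_zsmul] at h1
  have h2 := Fintype.linearIndependent_iff.mp D.linInd (fun i => (n i : ℝ)) h1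
  have h3 : m • x = 0 := by
    rw [hn]
    refine Finset.sum_eq_zero fun i _ => ?_
    have : n i = 0 := by exact_mod_cast h2 i
    rw [this, zero_smul]
  exact nsmul_inj hm (by rw [h3, smul_zero])

theorem exists_rat (x : V) : ∃ q : ι → ℚ, x = ∑ i, q i • D.b i := by
  obtain ⟨m, hm, h⟩ := D.full x
  obtain ⟨n, hn⟩ := (D.span _).mp h
  refine ⟨fun i => (m : ℚ)⁻¹ * n i, nsmul_inj hm ?_⟩
  rw [hn, Finset.smul_sum]
  refine Finset.sum_congr rfl fun i _ => ?_
  rw [mul_smul, nsmul_inv_smul hm, Int.cast_smul_eq_zsmul]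

theorem linIndQ : LinearIndependent ℚ D.b := by
  rw [Fintype.linearIndependent_iff]
  intro g hg i
  have h1 : D.emb (∑ i, g i • D.b i) = 0 := by rw [hg, map_zero]
  rw [map_sum] at h1
  simp_rw [emb_rat] at h1
  exact_mod_cast Fintype.linearIndependent_iff.mp D.linInd (fun i => (g i : ℝ)) h1 i

theorem linIndQ' : LinearIndependent ℚ D.b' := by
  rw [Fintype.linearIndependent_iff]
  intro g hg i
  have h1 : D.emb (∑ i, g i • D.b' i) = 0 := by rw [hg, map_zero]
  rw [map_sum] at h1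
  simp_rw [emb_rat] at h1
  exact_mod_cast Fintype.linearIndependent_iff.mp D.linInd' (fun i => (g i : ℝ)) h1 i

/-- the rational basis -/
def bQ : Module.Basis ι ℚ V := Module.Basis.mk D.linIndQ (by
  intro x _
  obtain ⟨q, hq⟩ := D.exists_rat x
  rw [hq]
  exact Submodule.sum_mem _ fun i _ => Submodule.smul_mem _ _
    (Submodule.subset_span (Set.mem_range_self i)))

theorem bQ_apply (i : ι) : D.bQ i = D.b i := by simp [bQ]

/-- the dual rational basis -/
def bQ' : Module.Basis ι ℚ V :=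
  haveI : FiniteDimensional ℚ V := D.bQ.finiteDimensional_of_finite
  basisOfLinearIndependentOfCardEqFinrank' D.b' D.linIndQ'
    (by rw [Module.finrank_eq_card_basis D.bQ])

theorem bQ'_apply (i : ι) : D.bQ' i = D.b' i := by simp [bQ']

theorem eq_sum' (x : V) : ∃ q : ι → ℚ, (x = ∑ i, q i • D.b' i) ∧ ∀ i, D.T (D.b i) x = q i := by
  refine ⟨D.bQ'.repr x, ?_, fun i => ?_⟩
  · conv_lhs => rw [← D.bQ'.sum_repr x]
    exact Finset.sum_congr rfl fun i _ => by rw [bQ'_apply]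
  · conv_lhs => rw [← D.bQ'.sum_repr x]
    rw [T_sum_right]
    simp_rw [T_rat_right, bQ'_apply, T_dual]
    simp


theorem T_eq_rat (x y : V) : ∃ r : ℚ, D.T x y = r := by
  obtain ⟨p, hp⟩ := D.exists_rat x
  obtain ⟨q, -, hq⟩ := D.eq_sum' y
  refine ⟨∑ i, p i * q i, ?_⟩
  rw [hp, T_sum_left]
  push_cast
  refine Finset.sum_congr rfl fun i _ => ?_
  rw [T_rat_left, hq]

/-! ### Lattices and cosets -/

/-- points of `m Λ` -/
def cv (m : ℕ) (n : ι → ℤ) : V := m • ∑ i, n i • D.b i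

/-- points of the dual lattice of `m Λ` -/
def cv' (m : ℕ) (n : ι → ℤ) : V := (m : ℚ)⁻¹ • ∑ i, n i • D.b' i

theorem emb_cv (m : ℕ) (hm : m ≠ 0) (n : ι → ℤ) : D.emb (D.cv m n) = cmb (D.B m hm) n := by
  rw [cv, emb_nsmul, map_sum, cmb, Finset.smul_sum]
  refine Finset.sum_congr rfl fun i _ => ?_
  rw [emb_zsmul, B_apply, smul_comm]

theorem emb_cv' (m : ℕ) (hm : m ≠ 0) (n : ι → ℤ) : D.emb (D.cv' m n) = cmb (D.B' m hm) n := by
  rw [cv', emb_rat, map_sum, cmb, Finset.smul_sum]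
  refine Finset.sum_congr rfl fun i _ => ?_
  rw [emb_zsmul, B'_apply, smul_comm]
  push_cast
  rfl

theorem cmb_injective (b : Module.Basis ι ℝ (J → ℂ × ℂ)) : Function.Injective (cmb b) := by
  intro n n' h
  have h2 := b.linearIndependent
  rw [Fintype.linearIndependent_iff] at h2
  have h1 : ∑ i, ((n i : ℝ) - n' i) • b i = 0 := by
    simp_rw [sub_smul, Finset.sum_sub_distrib]
    rw [sub_eq_zero]
    exact h
  funext i
  have := h2 _ h1 i
  have h3 : (n i : ℝ) = n' i := by linarith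
  exact_mod_cast h3

theorem cv_injective (m : ℕ) (hm : m ≠ 0) : Function.Injective (D.cv m) := by
  intro n n' h
  apply cmb_injective (D.B m hm)
  rw [← emb_cv, ← emb_cv, h]

theorem cv'_injective (m : ℕ) (hm : m ≠ 0) : Function.Injective (D.cv' m) := by
  intro n n' h
  apply cmb_injective (D.B' m hm)
  rw [← emb_cv', ← emb_cv', h]

theorem mem_mL_iff (m : ℕ) (x : V) : x ∈ mL Λ m ↔ ∃ n : ι → ℤ, D.cv m n = x := by
  rw [mem_mL]
  constructor
  · rintro ⟨y, hy, rfl⟩
    obtain ⟨n, hn⟩ := (D.span y).mp hy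
    exact ⟨n, by rw [cv, ← hn]⟩
  · rintro ⟨n, rfl⟩
    exact ⟨_, (D.span _).mpr ⟨n, rfl⟩, rfl⟩

/-- the homomorphism `ℤ^ι → Λ` -/
def eL0 : (ι → ℤ) →+ Λ where
  toFun n := ⟨∑ i, n i • D.b i, (D.span _).mpr ⟨n, rfl⟩⟩
  map_zero' := by
    apply Subtype.ext
    simp
  map_add' n n' := by
    apply Subtype.ext
    show ∑ i, (n i + n' i) • D.b i = ∑ i, n i • D.b i + ∑ i, n' i • D.b i
    simp_rw [add_smul, Finset.sum_add_distrib]

theorem eL0_bijective : Function.Bijective D.eL0 := by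
  constructor
  · intro n n' h
    apply D.cv_injective 1 one_ne_zero
    have h1 := congrArg Subtype.val h
    show 1 • ∑ i, n i • D.b i = 1 • ∑ i, n' i • D.b i
    rw [one_smul, one_smul]
    exact h1
  · rintro ⟨x, hx⟩
    obtain ⟨n, hn⟩ := (D.span x).mp hx
    exact ⟨n, Subtype.ext hn.symm⟩

/-- the isomorphism `ℤ^ι ≃ Λ` -/
def eL : (ι → ℤ) ≃+ Λ := AddEquiv.ofBijective D.eL0 D.eL0_bijective

theorem eL_apply (n : ι → ℤ) : ((D.eL n : Λ) : V) = ∑ i, n i • D.b i := rfl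

include D in
theorem relIndex_mL (m : ℕ) (hm : m ≠ 0) : (mL Λ m).relIndex Λ = m ^ Fintype.card ι := by
  have : NeZero m := ⟨hm⟩
  let g : (ι → ℤ) →+ (ι → ZMod m) :=
    { toFun := fun n i => (n i : ZMod m)
      map_zero' := by funext i; simp
      map_add' := fun n n' => by funext i; simp }
  have hg : Function.Surjective g := by
    intro y
    refine ⟨fun i => ((y i).val : ℤ), ?_⟩
    funext i
    show (((y i).val : ℤ) : ZMod m) = y i
    rw [Int.cast_natCast, ZMod.natCast_zmod_val]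
  let f : Λ →+ (ι → ZMod m) := g.comp (D.eL.symm : Λ →+ (ι → ℤ))
  have hf : Function.Surjective f := fun y => by
    obtain ⟨n, rfl⟩ := hg y
    refine ⟨D.eL n, ?_⟩
    show g (D.eL.symm (D.eL n)) = g n
    rw [AddEquiv.symm_apply_apply]
  have hker : f.ker = (mL Λ m).addSubgroupOf Λ := by
    ext x
    obtain ⟨n, rfl⟩ := (D.eL).surjective x
    rw [AddMonoidHom.mem_ker, AddSubgroup.mem_addSubgroupOf, D.mem_mL_iff, eL_apply]
    have h1 : f (D.eL n) = g n := by
      show g (D.eL.symm (D.eL n)) = g n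
      rw [AddEquiv.symm_apply_apply]
    rw [h1]
    constructor
    · intro h
      have h2 : ∀ i, (m : ℤ) ∣ n i := fun i =>
        (ZMod.intCast_zmod_eq_zero_iff_dvd _ _).mp (congrFun h i)
      choose k hk using h2
      refine ⟨k, ?_⟩
      rw [cv, Finset.smul_sum]
      refine Finset.sum_congr rfl fun i _ => ?_
      rw [hk i, mul_smul, ← natCast_zsmul]
    · rintro ⟨k, hk⟩
      have h3 : n = fun i => (m : ℤ) * k i := by
        apply D.cv_injective 1 one_ne_zero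
        rw [cv, cv, one_smul, one_smul, ← hk, cv, Finset.smul_sum]
        refine Finset.sum_congr rfl fun i _ => ?_
        rw [mul_smul, ← natCast_zsmul]
      rw [h3]
      funext i
      show (((m : ℤ) * k i : ℤ) : ZMod m) = 0
      simp
  rw [AddSubgroup.relIndex, ← hker, AddSubgroup.index_ker, AddMonoidHom.range_eq_top.mpr hf]
  simp [Nat.card_eq_fintype_card, ZMod.card]

include D in
theorem isFull : IsFull Λ where
  span := D.full
  idx m hm := by
    rw [D.relIndex_mL m hm]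
    exact pow_ne_zero _ hm

/-- the dual lattice of `m Λ` -/
def DL (m : ℕ) : Set V := {x | ∀ y ∈ mL Λ m, ∃ k : ℤ, D.T x y = k}

theorem T_cv_cv' (m : ℕ) (hm : m ≠ 0) (n k : ι → ℤ) :
    D.T (D.cv m n) (D.cv' m k) = ((∑ i, n i * k i : ℤ) : ℝ) := by
  have hm' : (m : ℝ) ≠ 0 := by exact_mod_cast hm
  rw [cv, cv', ← Nat.cast_smul_eq_nsmul ℚ, T_rat_left, T_rat_right, T_sum_left]
  push_cast
  rw [← mul_assoc, mul_inv_cancel₀ hm', one_mul]
  refine Finset.sum_congr rfl fun i _ => ?_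
  rw [T_zsmul_left, T_sum_right, Finset.sum_eq_single i]
  · rw [T_zsmul_right, T_dual, if_pos rfl, mul_one]
  · intro j _ hj
    rw [T_zsmul_right, T_dual, if_neg (Ne.symm hj), mul_zero]
  · intro h
    exact absurd (Finset.mem_univ i) h

theorem mem_DL_iff (m : ℕ) (hm : m ≠ 0) (x : V) : x ∈ D.DL m ↔ ∃ n : ι → ℤ, D.cv' m n = x := by
  constructor
  · intro hx
    obtain ⟨q, hq, hT⟩ := D.eq_sum' x
    have h1 : ∀ i, ∃ k : ℤ, (m : ℝ) * q i = k := by
      intro i
      obtain ⟨k, hk⟩ := hx (m • D.b i) (nsmul_mem_mL ((D.span _).mpr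
        ⟨Pi.single i 1, by simp [Pi.single_apply]⟩))
      refine ⟨k, ?_⟩
      rw [← hk, T_comm, ← Nat.cast_smul_eq_nsmul ℚ, T_rat_left, hT]
      push_cast
      rfl
    choose k hk using h1
    refine ⟨k, ?_⟩
    rw [cv', hq, Finset.smul_sum]
    refine Finset.sum_congr rfl fun i _ => ?_
    have hm' : (m : ℚ) ≠ 0 := by exact_mod_cast hm
    have h2 : (m : ℚ) * q i = k i := by exact_mod_cast hk i
    rw [← Int.cast_smul_eq_zsmul ℚ, smul_smul, ← h2, inv_mul_cancel_left₀ hm']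
  · rintro ⟨n, rfl⟩ y hy
    obtain ⟨k, rfl⟩ := (D.mem_mL_iff m y).mp hy
    rw [T_comm, T_cv_cv' D m hm]
    exact ⟨_, rfl⟩

end TD

theorem exists_den {α : Type*} (s : Finset α) (r : α → ℚ) :
    ∃ N : ℕ, N ≠ 0 ∧ ∀ a ∈ s, ∃ z : ℤ, (N : ℚ) * r a = z := by
  classical
  refine ⟨∏ a ∈ s, (r a).den, Finset.prod_ne_zero_iff.mpr fun a _ => (r a).den_ne_zero,
    fun a ha => ?_⟩
  obtain ⟨k, hk⟩ := Finset.dvd_prod_of_mem (fun a => (r a).den) ha
  refine ⟨k * (r a).num, ?_⟩
  rw [hk]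
  push_cast
  have h1 : ((r a).den : ℚ) * r a = (r a).num := Rat.den_mul_eq_num (r a)
  rw [mul_comm ((r a).den : ℚ), mul_assoc, h1]

end Fermat.Agent.H13Z
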