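import Fermat.Agent.H13Z5

set_option autoImplicit false
set_option linter.unusedSectionVars false

/-!
# Theta series of Schwartz functions and Poisson summation (helper13)
-/

noncomputable section

open MeasureTheory Set Complex Topology

namespace Fermat.Agent.H13Z

open Fermat.Agent.H66D

section Ind

variable {V : Type*} [AddCommGroup V] [Module ℚ V] {Λ : AddSubgroup V}

open Classical in
/-- The indicator function of the coset `q + m Λ`. -/
def cst (Λ : AddSubgroup V) (m : ℕ) (q x : V) : ℂ := if x - q ∈ mL Λ m then 1 else 0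

theorem cst_eq_trans (hΛ : IsFull Λ) (m : ℕ) (hm : m ≠ 0) (q : V) :
    cst Λ m q = (trans hΛ (-q) (ind Λ m hm) : V → ℂ) := by
  funext x
  rw [trans_apply, ind_apply, cst, sub_eq_add_neg]

theorem cst_mem (hΛ : IsFull Λ) (m : ℕ) (hm : m ≠ 0) (q : V) : cst Λ m q ∈ SF Λ := by
  rw [cst_eq_trans hΛ m hm]
  exact (trans hΛ (-q) (ind Λ m hm)).2

theorem SF_induction (hΛ : IsFull Λ) {P : (V → ℂ) → Prop} (h0 : P 0)
    (hadd : ∀ φ ψ, φ ∈ SF Λ → ψ ∈ SF Λ → P φ → P ψ → P (φ + ψ))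
    (hsmul : ∀ (c : ℂ) (φ), φ ∈ SF Λ → P φ → P (c • φ))
    (hc : ∀ m, m ≠ 0 → ∀ q, P (cst Λ m q)) {φ : V → ℂ} (hφ : φ ∈ SF Λ) : P φ := by
  classical
  obtain ⟨m, hm⟩ := hφ
  have h1 := decomp hΛ ⟨φ, m, hm⟩ hm
  have h2 : φ = ∑ q ∈ (hm.finite_support hΛ hm.1).toFinset, φ q.out • cst Λ m q.out := by
    have h3 := congrArg (Subtype.val) h1
    rw [Submodule.coe_sum] at h3
    refine h3.trans (Finset.sum_congr rfl fun q _ => ?_)
    rw [Submodule.coe_smul, cst_eq_trans hΛ m hm.1]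
  have h4 : ∀ s : Finset (V ⧸ mL Λ m), P (∑ q ∈ s, φ q.out • cst Λ m q.out) := by
    intro s
    induction s using Finset.induction_on with
    | empty => rw [Finset.sum_empty]; exact h0
    | insert a s ha ih =>
      rw [Finset.sum_insert ha]
      exact hadd _ _ ((SF Λ).smul_mem _ (cst_mem hΛ m hm.1 _))
        (Submodule.sum_mem _ fun q _ => (SF Λ).smul_mem _ (cst_mem hΛ m hm.1 _))
        (hsmul _ _ (cst_mem hΛ m hm.1 _) (hc m hm.1 _)) ih
  rw [h2]
  exact h4 _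

end Ind

namespace TD

variable {V : Type*} [AddCommGroup V] [Module ℚ V] {Λ : AddSubgroup V}
  {J : Type*} [Fintype J] {ι : Type*} [Fintype ι] [DecidableEq ι] (D : TD Λ J ι)

/-- The theta series. -/
def th (φ : V → ℂ) (t : J → ℝ) (τ : J → H3) : ℂ := ∑' x : V, φ x * OM t τ (D.emb x)

theorem summable_cst {m : ℕ} (hm : m ≠ 0) (q : V) {F : V → ℂ}
    (hF : Summable fun n : ι → ℤ => F (q + D.cv m n)) :
    (Summable fun x : V => cst Λ m q x * F x) ∧
      ∑' x : V, cst Λ m q x * F x = ∑' n : ι → ℤ, F (q + D.cv m n) := by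
  have hinj : Function.Injective fun n : ι → ℤ => q + D.cv m n := fun n n' h =>
    D.cv_injective m hm (add_left_cancel h)
  have h0 : ∀ x, x ∉ Set.range (fun n : ι → ℤ => q + D.cv m n) → cst Λ m q x * F x = 0 := by
    intro x hx
    rw [cst, if_neg, zero_mul]
    intro h
    obtain ⟨n, hn⟩ := (D.mem_mL_iff m _).mp h
    exact hx ⟨n, by show q + D.cv m n = x; rw [hn]; abel⟩
  have h1 : ∀ n : ι → ℤ, cst Λ m q (q + D.cv m n) * F (q + D.cv m n) = F (q + D.cv m n) := by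
    intro n
    rw [cst, if_pos, one_mul]
    rw [add_sub_cancel_left]
    exact (D.mem_mL_iff m _).mpr ⟨n, rfl⟩
  constructor
  · rw [← hinj.summable_iff h0]
    exact hF.congr fun n => (h1 n).symm
  · rw [← hinj.tsum_eq (f := fun x => cst Λ m q x * F x)]
    · exact tsum_congr h1
    · intro x hx
      by_contra h
      exact hx (h0 x h)

open Classical in
theorem summable_DL {m : ℕ} (hm : m ≠ 0) {F : V → ℂ}
    (hF : Summable fun n : ι → ℤ => F (D.cv' m n)) :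
    (Summable fun x : V => (if x ∈ D.DL m then F x else 0)) ∧
      ∑' x : V, (if x ∈ D.DL m then F x else 0) = ∑' n : ι → ℤ, F (D.cv' m n) := by
  have hinj : Function.Injective fun n : ι → ℤ => D.cv' m n := D.cv'_injective m hm
  have h0 : ∀ x, x ∉ Set.range (fun n : ι → ℤ => D.cv' m n) →
      (if x ∈ D.DL m then F x else 0) = 0 := by
    intro x hx
    rw [if_neg]
    intro h
    obtain ⟨n, hn⟩ := (D.mem_DL_iff m hm _).mp h
    exact hx ⟨n, hn⟩
  have h1 : ∀ n : ι → ℤ, (if D.cv' m n ∈ D.DL m then F (D.cv' m n) else 0) = F (D.cv' m n) := by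
    intro n
    rw [if_pos]
    exact (D.mem_DL_iff m hm _).mpr ⟨n, rfl⟩
  constructor
  · rw [← hinj.summable_iff h0]
    exact hF.congr fun n => (h1 n).symm
  · rw [← hinj.tsum_eq (f := fun x => if x ∈ D.DL m then F x else 0)]
    · exact tsum_congr h1
    · intro x hx
      by_contra h
      exact hx (h0 x h)

theorem summable_OM {t : J → ℝ} (ht : ∀ j, t j ≠ 0) (τ : J → H3)
    (b : Module.Basis ι ℝ (J → ℂ × ℂ)) (v : J → ℂ × ℂ) :
    Summable fun n : ι → ℤ => OM t τ (v + cmb b n) :=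
  ((gDec_OM ht τ).pDec (Fintype.card ι)).summable_cmb b v

theorem th_cst {m : ℕ} (hm : m ≠ 0) (q : V) {t : J → ℝ} (ht : ∀ j, t j ≠ 0) (τ : J → H3) :
    (Summable fun x : V => cst Λ m q x * OM t τ (D.emb x)) ∧
      D.th (cst Λ m q) t τ = ∑' n : ι → ℤ, OM t τ (D.emb q + cmb (D.B m hm) n) := by
  have h1 : ∀ n : ι → ℤ, OM t τ (D.emb (q + D.cv m n)) = OM t τ (D.emb q + cmb (D.B m hm) n) := by
    intro n
    rw [map_add, D.emb_cv m hm]
  have h2 := D.summable_cst hm q (F := fun x => OM t τ (D.emb x))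
    ((summable_OM ht τ (D.B m hm) (D.emb q)).congr fun n => (h1 n).symm)
  exact ⟨h2.1, h2.2.trans (tsum_congr h1)⟩

theorem summable_th {t : J → ℝ} (ht : ∀ j, t j ≠ 0) (τ : J → H3) {φ : V → ℂ} (hφ : φ ∈ SF Λ) :
    Summable fun x : V => φ x * OM t τ (D.emb x) := by
  refine SF_induction (P := fun φ => Summable fun x : V => φ x * OM t τ (D.emb x)) D.isFull
    ?_ ?_ ?_ ?_ hφ
  · simp
  · intro φ ψ _ _ h1 h2
    refine (h1.add h2).congr fun x => ?_
    rw [Pi.add_apply, add_mul]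
  · intro c φ _ h1
    refine (h1.mul_left c).congr fun x => ?_
    rw [Pi.smul_apply, smul_eq_mul, mul_assoc]
  · intro m hm q
    exact (D.th_cst hm q ht τ).1

theorem th_add {t : J → ℝ} (ht : ∀ j, t j ≠ 0) (τ : J → H3) {φ ψ : V → ℂ} (hφ : φ ∈ SF Λ)
    (hψ : ψ ∈ SF Λ) : D.th (φ + ψ) t τ = D.th φ t τ + D.th ψ t τ := by
  rw [th, th, th, ← (D.summable_th ht τ hφ).tsum_add (D.summable_th ht τ hψ)]
  refine tsum_congr fun x => ?_
  rw [Pi.add_apply, add_mul]

theorem th_smul (t : J → ℝ) (τ : J → H3) (c : ℂ) (φ : V → ℂ) :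
    D.th (c • φ) t τ = c * D.th φ t τ := by
  rw [th, th, ← tsum_mul_left]
  refine tsum_congr fun x => ?_
  rw [Pi.smul_apply, smul_eq_mul, mul_assoc]

/-! ### The finite Fourier transform -/

/-- The self-dual volume factor. -/
def vol : ℝ := ((4 : ℝ) ^ Fintype.card J * cvol volume (D.B 1 one_ne_zero))⁻¹

theorem vol_pos : 0 < D.vol := by
  have := cvol_pos (volume : Measure (J → ℂ × ℂ)) (D.B 1 one_ne_zero)
  rw [vol]
  positivity

/-- The finite Fourier transform `φ ↦ vol · I_y(e(T(x,y)) φ(y))`. -/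
def FT (φ : V → ℂ) (x : V) : ℂ := D.vol * HIfun Λ (fun y => er (D.T x y) * φ y)

theorem exists_mul_DL (x : V) : ∃ N : ℕ, N ≠ 0 ∧ N • x ∈ D.DL 1 := by
  obtain ⟨q, hq, -⟩ := D.eq_sum' x
  obtain ⟨N, hN, hz⟩ := exists_den Finset.univ q
  choose z hz using fun i => hz i (Finset.mem_univ i)
  refine ⟨N, hN, (D.mem_DL_iff 1 one_ne_zero _).mpr ⟨z, ?_⟩⟩
  rw [cv', Nat.cast_one, inv_one, one_smul]
  conv_rhs => rw [hq, Finset.smul_sum]
  refine Finset.sum_congr rfl fun i _ => ?_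
  rw [← Nat.cast_smul_eq_nsmul ℚ, smul_smul, hz i, Int.cast_smul_eq_zsmul]

theorem T_int {N : ℕ} {x : V} (h : N • x ∈ D.DL 1) {y : V} (hy : y ∈ Λ) :
    ∃ k : ℤ, D.T x (N • y) = k := by
  obtain ⟨k, hk⟩ := h y (by rw [mL_one]; exact hy)
  refine ⟨k, ?_⟩
  rw [← hk, ← Nat.cast_smul_eq_nsmul ℚ, ← Nat.cast_smul_eq_nsmul ℚ, T_rat_right, T_rat_left]

theorem mulch_level (x : V) {φ : V → ℂ} {m : ℕ} (h : IsLevel Λ φ m) {N : ℕ} (hN : N ≠ 0)
    (hx : N • x ∈ D.DL 1) : IsLevel Λ (fun y => er (D.T x y) * φ y) (m * N) := by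
  have h1 := h.mul hN
  refine ⟨h1.1, fun y hy => h1.2.1 y fun h0 => hy (by simp only [h0, mul_zero]),
    fun y z hz => ?_⟩
  show er (D.T x (y + (m * N) • z)) * φ (y + (m * N) • z) = er (D.T x y) * φ y
  rw [h1.2.2 y z hz, T_add_right, er_add]
  have h2 : (m * N) • z = N • (m • z) := by rw [mul_nsmul]
  obtain ⟨k, hk⟩ := D.T_int hx (Λ.nsmul_mem hz m)
  rw [h2, hk, er_int, mul_one]

theorem mulch_mem (x : V) {φ : V → ℂ} (h : φ ∈ SF Λ) :
    (fun y => er (D.T x y) * φ y) ∈ SF Λ := by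
  obtain ⟨m, hm⟩ := h
  obtain ⟨N, hN, hx⟩ := D.exists_mul_DL x
  exact ⟨m * N, D.mulch_level x hm hN hx⟩

theorem FT_eq (φ : SF Λ) (x : V) : D.FT φ x =
    D.vol * HI D.isFull ⟨fun y => er (D.T x y) * (φ : V → ℂ) y, D.mulch_mem x φ.2⟩ := rfl

theorem FT_add {φ ψ : V → ℂ} (hφ : φ ∈ SF Λ) (hψ : ψ ∈ SF Λ) :
    D.FT (φ + ψ) = D.FT φ + D.FT ψ := by
  funext x
  have h1 := map_add (HI D.isFull) ⟨_, D.mulch_mem x hφ⟩ ⟨_, D.mulch_mem x hψ⟩
  rw [Pi.add_apply, FT, FT, FT, ← mul_add]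
  congr 1
  refine Eq.trans ?_ h1
  rw [HI_apply]
  congr 1
  funext y
  show er (D.T x y) * (φ y + ψ y) = _
  rw [mul_add]
  rfl

theorem FT_smul (c : ℂ) {φ : V → ℂ} (hφ : φ ∈ SF Λ) : D.FT (c • φ) = c • D.FT φ := by
  funext x
  have h1 := map_smul (HI D.isFull) c ⟨_, D.mulch_mem x hφ⟩
  rw [Pi.smul_apply, FT, FT, smul_eq_mul, mul_left_comm]
  congr 1
  refine Eq.trans ?_ h1
  rw [HI_apply]
  congr 1
  funext y
  show er (D.T x y) * (c * φ y) = c * (er (D.T x y) * φ y)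
  ring

open Classical in
/-- The Fourier transform of the indicator function of a coset. -/
theorem FT_cst {m : ℕ} (hm : m ≠ 0) (q x : V) : D.FT (cst Λ m q) x =
    if x ∈ D.DL m then D.vol * ((m : ℂ) ^ Fintype.card ι)⁻¹ * er (D.T x q) else 0 := by
  rw [FT]
  split_ifs with hx
  · have h1 : (fun y => er (D.T x y) * cst Λ m q y) = er (D.T x q) • cst Λ m q := by
      funext y
      rw [Pi.smul_apply, smul_eq_mul, cst]
      split_ifs with h
      · obtain ⟨k, hk⟩ := hx _ h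
        have h2 : D.T x y = D.T x q + k := by
          rw [← hk, ← T_add_right]
          congr 1
          abel
        rw [h2, er_add, er_int, mul_one]
      · rw [mul_zero, mul_zero]
    rw [h1]
    have h2 : HIfun Λ (er (D.T x q) • cst Λ m q) =
        er (D.T x q) * HI D.isFull (trans D.isFull (-q) (ind Λ m hm)) := by
      rw [← smul_eq_mul, ← map_smul, HI_apply, Submodule.coe_smul,
        ← cst_eq_trans D.isFull m hm]
    rw [h2, HI_trans, HI_ind, D.relIndex_mL m hm]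
    push_cast
    ring
  · have h1 : ∃ z ∈ mL Λ m, ¬ ∃ k : ℤ, D.T x z = k := by
      by_contra hcon
      push Not at hcon
      exact hx fun z hz => hcon z hz
    obtain ⟨z, hz, hk⟩ := h1
    have h2 : er (D.T x z) ≠ 1 := fun h => hk (er_eq_one h)
    set f : SF Λ := ⟨_, D.mulch_mem x (cst_mem D.isFull m hm q)⟩ with hf
    have h3 : trans D.isFull z f = er (D.T x z) • f := by
      apply Subtype.ext
      funext y
      rw [trans_apply, Submodule.coe_smul, Pi.smul_apply, smul_eq_mul, hf]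
      show er (D.T x (y + z)) * cst Λ m q (y + z) = er (D.T x z) * (er (D.T x y) * cst Λ m q y)
      have h4 : cst Λ m q (y + z) = cst Λ m q y := by
        rw [cst, cst]
        have h5 : (y + z - q ∈ mL Λ m) ↔ y - q ∈ mL Λ m := by
          have h6 : y + z - q = (y - q) + z := by abel
          rw [h6]
          exact (mL Λ m).add_mem_cancel_right hz
        simp only [h5]
      rw [h4, T_add_right, er_add]
      ring
    have h4 := HI_trans D.isFull z f
    rw [h3, map_smul, smul_eq_mul] at h4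
    have h5 : HI D.isFull f = 0 := by
      have h6 : (er (D.T x z) - 1) * HI D.isFull f = 0 := by rw [sub_mul, h4, one_mul, sub_self]
      exact (mul_eq_zero.mp h6).resolve_left (sub_ne_zero.mpr h2)
    have h6 : HIfun Λ (fun y => er (D.T x y) * cst Λ m q y) = HI D.isFull f := rfl
    rw [h6, h5, mul_zero]


include D in
theorem exists_mul_family (v : ι → V) : ∃ N : ℕ, N ≠ 0 ∧ ∀ i, N • v i ∈ Λ := by
  choose m hm h using fun i => D.full (v i)
  refine ⟨∏ i, m i, Finset.prod_ne_zero_iff.mpr fun i _ => hm i, fun i => ?_⟩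
  obtain ⟨k, hk⟩ := Finset.dvd_prod_of_mem m (Finset.mem_univ i)
  rw [hk, mul_comm, mul_nsmul']
  exact Λ.nsmul_mem (h i) k

theorem FT_cst_mem {m : ℕ} (hm : m ≠ 0) (q : V) : D.FT (cst Λ m q) ∈ SF Λ := by
  classical
  -- support
  obtain ⟨N₁, hN₁, h1⟩ := D.exists_mul_family D.b'
  -- periods
  obtain ⟨N₂, hN₂, h2⟩ : ∃ N : ℕ, N ≠ 0 ∧ ∀ i, N • D.b i ∈ D.DL 1 := by
    choose N hN h using fun i => D.exists_mul_DL (D.b i)
    refine ⟨∏ i, N i, Finset.prod_ne_zero_iff.mpr fun i _ => hN i, fun i => ?_⟩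
    obtain ⟨k, hk⟩ := Finset.dvd_prod_of_mem N (Finset.mem_univ i)
    rw [hk, mul_comm, mul_nsmul']
    intro y hy
    obtain ⟨z, hz⟩ := h i y hy
    refine ⟨k * z, ?_⟩
    rw [← Nat.cast_smul_eq_nsmul ℚ, T_rat_left, hz]
    push_cast
    rfl
  obtain ⟨N₃, hN₃, h3⟩ := D.exists_mul_DL q
  have hL : ∀ y ∈ Λ, ∀ z ∈ Λ, ∃ k : ℤ, D.T (N₂ • y) z = k := by
    intro y hy z hz
    obtain ⟨n, hn⟩ := (D.span y).mp hy
    choose k hk using fun i => h2 i z (by rw [mL_one]; exact hz)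
    refine ⟨∑ i, n i * k i, ?_⟩
    rw [hn, Finset.smul_sum, T_sum_left]
    push_cast
    refine Finset.sum_congr rfl fun i _ => ?_
    rw [smul_comm, T_zsmul_left, hk]
  refine ⟨m * N₁ * (N₂ * N₃), mul_ne_zero (mul_ne_zero hm hN₁) (mul_ne_zero hN₂ hN₃),
    fun x hx => ?_, fun x y hy => ?_⟩
  · have hx' : x ∈ D.DL m := by
      by_contra h
      rw [D.FT_cst hm, if_neg h] at hx
      exact hx rfl
    obtain ⟨n, rfl⟩ := (D.mem_DL_iff m hm x).mp hx'
    have h4 : (m * N₁ * (N₂ * N₃)) • D.cv' m n = (N₂ * N₃) • ∑ i, n i • (N₁ • D.b' i) := by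
      have hm' : (m : ℚ) ≠ 0 := by exact_mod_cast hm
      rw [mul_nsmul]
      congr 1
      rw [mul_comm m N₁, mul_nsmul', cv', nsmul_inv_smul hm, Finset.smul_sum]
      exact Finset.sum_congr rfl fun i _ => smul_comm _ _ _
    rw [h4]
    exact Λ.nsmul_mem (Λ.sum_mem fun i _ => Λ.zsmul_mem (h1 i) _) _
  · have h5 : ∀ z ∈ Λ, ∃ k : ℤ, D.T ((m * N₁ * (N₂ * N₃)) • y) z = k := by
      intro z hz
      obtain ⟨k, hk⟩ := hL y hy z hz
      refine ⟨(m * N₁ * N₃ : ℕ) * k, ?_⟩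
      have : (m * N₁ * (N₂ * N₃)) • y = (m * N₁ * N₃) • (N₂ • y) := by
        rw [← mul_nsmul']
        congr 1
        ring
      rw [this, ← Nat.cast_smul_eq_nsmul ℚ, T_rat_left, hk]
      push_cast
      rfl
    have h6 : (m * N₁ * (N₂ * N₃)) • y ∈ D.DL m := fun z hz => h5 z (mL_le Λ m hz)
    have h7 : ∃ k : ℤ, D.T ((m * N₁ * (N₂ * N₃)) • y) q = k := by
      obtain ⟨k, hk⟩ := h3 y (by rw [mL_one]; exact hy)
      refine ⟨(m * N₁ * N₂ : ℕ) * k, ?_⟩
      rw [Int.cast_mul, ← hk, T_comm, ← Nat.cast_smul_eq_nsmul ℚ, ← Nat.cast_smul_eq_nsmul ℚ,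
        T_rat_right, T_rat_left]
      push_cast
      ring
    obtain ⟨k, hk⟩ := h7
    have h8 : (x + (m * N₁ * (N₂ * N₃)) • y ∈ D.DL m) ↔ x ∈ D.DL m := by
      constructor
      · intro h z hz
        obtain ⟨k₁, hk₁⟩ := h z hz
        obtain ⟨k₂, hk₂⟩ := h6 z hz
        refine ⟨k₁ - k₂, ?_⟩
        rw [T_add_left, hk₂] at hk₁
        push_cast
        linarith
      · intro h z hz
        obtain ⟨k₁, hk₁⟩ := h z hz
        obtain ⟨k₂, hk₂⟩ := h6 z hz
        refine ⟨k₁ + k₂, ?_⟩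
        rw [T_add_left, hk₁, hk₂]
        push_cast
        rfl
    rw [D.FT_cst hm, D.FT_cst hm, T_add_left, hk, er_add, er_int, mul_one]
    simp only [h8]

theorem FT_mem {φ : V → ℂ} (hφ : φ ∈ SF Λ) : D.FT φ ∈ SF Λ := by
  refine SF_induction (P := fun φ => D.FT φ ∈ SF Λ) D.isFull ?_ ?_ ?_ ?_ hφ
  · have h := D.FT_smul 0 (SF Λ).zero_mem
    rw [zero_smul, zero_smul] at h
    rw [h]
    exact (SF Λ).zero_mem
  · intro φ ψ hφ hψ h1 h2
    rw [D.FT_add hφ hψ]
    exact (SF Λ).add_mem h1 h2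
  · intro c φ hφ h1
    rw [D.FT_smul c hφ]
    exact (SF Λ).smul_mem c h1
  · intro m hm q
    exact D.FT_cst_mem hm q

/-- **Poisson summation for theta series.** -/
theorem th_FT {t : J → ℝ} (ht : ∀ j, t j ≠ 0) (τ : J → H3) {φ : V → ℂ} (hφ : φ ∈ SF Λ) :
    D.th (D.FT φ) t (fun j => H3.wMat • τ j) = D.th φ t τ := by
  refine SF_induction (P := fun φ => D.th (D.FT φ) t (fun j => H3.wMat • τ j) = D.th φ t τ)
    D.isFull ?_ ?_ ?_ ?_ hφ
  · have h := D.FT_smul 0 (SF Λ).zero_mem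
    rw [zero_smul, zero_smul] at h
    have h2 := D.th_smul t τ 0 0
    have h3 := D.th_smul t (fun j => H3.wMat • τ j) 0 0
    rw [zero_smul, zero_mul] at h2 h3
    rw [h, h2, h3]
  · intro φ ψ hφ hψ h1 h2
    rw [D.FT_add hφ hψ, D.th_add ht _ (D.FT_mem hφ) (D.FT_mem hψ), D.th_add ht _ hφ hψ, h1, h2]
  · intro c φ hφ h1
    rw [D.FT_smul c hφ, D.th_smul, D.th_smul, h1]
  · intro m hm q
    classical
    rw [(D.th_cst hm q ht τ).2, poisson_OM (D.B m hm) (D.B' m hm) (D.B_dual m hm) ht τ (D.emb q)]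
    have h1 : ∀ x : V, D.FT (cst Λ m q) x * OM t (fun j => H3.wMat • τ j) (D.emb x) =
        if x ∈ D.DL m then D.vol * ((m : ℂ) ^ Fintype.card ι)⁻¹ * (er (D.T x q) *
          OM t (fun j => H3.wMat • τ j) (D.emb x)) else 0 := by
      intro x
      rw [D.FT_cst hm]
      split_ifs
      · ring
      · rw [zero_mul]
    rw [th]
    simp_rw [h1]
    have hs : Summable fun n : ι → ℤ => er (PR (D.emb q) (cmb (D.B' m hm) n)) *
        OM t (fun j => H3.wMat • τ j) (cmb (D.B' m hm) n) := by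
      have h2 := summable_OM ht (fun j => H3.wMat • τ j) (D.B' m hm) 0
      refine Summable.of_norm (h2.norm.congr fun n => ?_)
      rw [norm_mul, norm_er, one_mul, zero_add]
    have h3 := (D.summable_DL hm (F := fun x => D.vol * ((m : ℂ) ^ Fintype.card ι)⁻¹ *
      (er (D.T x q) * OM t (fun j => H3.wMat • τ j) (D.emb x))) ?_).2
    · rw [h3, tsum_mul_left]
      have h4 : (((4 : ℝ) ^ Fintype.card J * cvol volume (D.B m hm))⁻¹ : ℝ) =
          D.vol * ((m : ℝ) ^ Fintype.card ι)⁻¹ := by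
        rw [D.cvol_B m hm, vol, mul_left_comm, mul_inv, mul_comm]
      rw [h4]
      push_cast
      congr 1
      refine tsum_congr fun n => ?_
      rw [D.emb_cv' m hm, T, D.emb_cv' m hm, PR_comm, mul_comm, er]
    · refine (hs.mul_left (D.vol * ((m : ℂ) ^ Fintype.card ι)⁻¹)).congr fun n => ?_
      rw [T, D.emb_cv' m hm, PR_comm]

end TD

end Fermat.Agent.H13Z
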