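import Fermat.Agent.H13Z6

set_option autoImplicit false
set_option linter.unusedSectionVars false

/-!
# The theta series: translations, dilations, positivity (helper13)
-/

noncomputable section

open MeasureTheory Set Complex Topology

namespace Fermat.Agent.H13Z

open Fermat.Agent.H66D

/-! ### One place -/

theorem om_nMat (β : ℂ) (τ : H3) (x : ℂ × ℂ) :
    om (H3.nMat β • τ) x = er (2 * (β * x.1 * x.2).re) * om τ x := by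
  rw [H3.nMat_smul, om, om, er, mul_left_comm, ← Complex.exp_add]
  congr 2
  simp only [add_mul, Complex.add_re]
  push_cast
  ring

/-- the pairing `Re(z x x')` is invariant under the torus -/
theorem mul_tor1 {t : ℝ} (ht : t ≠ 0) (x : ℂ × ℂ) :
    (tor1 t x).1 * (tor1 t x).2 = x.1 * x.2 := by
  have ht' : (t : ℂ) ≠ 0 := by exact_mod_cast ht
  rw [tor1_apply]
  simp only [Complex.real_smul]
  push_cast
  field_simp

/-- componentwise product -/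
def cmul (h x : ℂ × ℂ) : ℂ × ℂ := (h.1 * x.1, h.2 * x.2)

theorem tor1_cmul (t : ℝ) (h x : ℂ × ℂ) : tor1 t (cmul h x) = cmul h (tor1 t x) := by
  rw [tor1_apply, tor1_apply, cmul, cmul]
  simp only [mul_smul_comm]

/-- the real number `√(|h| / |h'|)` -/
def sq1 (h : ℂ × ℂ) : ℝ := Real.sqrt (‖h.1‖ / ‖h.2‖)

theorem sq1_pos {h : ℂ × ℂ} (h1 : h.1 ≠ 0) (h2 : h.2 ≠ 0) : 0 < sq1 h :=
  Real.sqrt_pos.mpr (div_pos (norm_pos_iff.mpr h1) (norm_pos_iff.mpr h2))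

theorem om_dMat {h : ℂ × ℂ} (h1 : h.1 ≠ 0) (h2 : h.2 ≠ 0) (τ : H3) (x : ℂ × ℂ) :
    om τ (cmul h x) = ((‖h.1 * h.2‖⁻¹ : ℝ) : ℂ) *
      om (H3.dMat (h.1 * h.2) (mul_ne_zero h1 h2) • τ) (tor1 (sq1 h) x) := by
  have n1 : 0 < ‖h.1‖ := norm_pos_iff.mpr h1
  have n2 : 0 < ‖h.2‖ := norm_pos_iff.mpr h2
  have hs := sq1_pos h1 h2
  have hs2 : sq1 h ^ 2 = ‖h.1‖ / ‖h.2‖ := Real.sq_sqrt (by positivity)
  have hn : ‖h.1 * h.2‖ = ‖h.1‖ * ‖h.2‖ := norm_mul _ _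
  have hne : ((‖h.1‖ * ‖h.2‖ : ℝ) : ℂ) ≠ 0 := by exact_mod_cast (mul_pos n1 n2).ne'
  rw [H3.dMat_smul, om, om]
  simp only
  rw [hn]
  have e1 : ((‖h.1‖ * ‖h.2‖ : ℝ)⁻¹ : ℝ) * (((‖h.1‖ * ‖h.2‖ * τ.y : ℝ)) : ℂ) = τ.y := by
    rw [Complex.ofReal_mul (‖h.1‖ * ‖h.2‖), Complex.ofReal_inv, inv_mul_cancel_left₀ hne]
  rw [← mul_assoc, e1]
  congr 2
  have e2 : (h.1 * h.2 * τ.z * (tor1 (sq1 h) x).1 * (tor1 (sq1 h) x).2) =
      τ.z * (cmul h x).1 * (cmul h x).2 := by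
    rw [mul_assoc, mul_tor1 hs.ne', cmul]
    ring
  rw [e2]
  congr 1
  have e3 : ‖(tor1 (sq1 h) x).1‖ ^ 2 = ‖h.1‖ / ‖h.2‖ * ‖x.1‖ ^ 2 := by
    rw [tor1_apply]
    simp only
    rw [norm_smul, Real.norm_of_nonneg hs.le, mul_pow, hs2]
  have e4 : ‖(tor1 (sq1 h) x).2‖ ^ 2 = ‖h.2‖ / ‖h.1‖ * ‖x.2‖ ^ 2 := by
    rw [tor1_apply]
    simp only
    rw [norm_smul, Real.norm_of_nonneg (inv_pos.mpr hs).le, mul_pow, inv_pow, hs2, inv_div]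
  have e5 : ‖(cmul h x).1‖ ^ 2 = ‖h.1‖ ^ 2 * ‖x.1‖ ^ 2 := by
    rw [cmul]; simp only; rw [norm_mul, mul_pow]
  have e6 : ‖(cmul h x).2‖ ^ 2 = ‖h.2‖ ^ 2 * ‖x.2‖ ^ 2 := by
    rw [cmul]; simp only; rw [norm_mul, mul_pow]
  rw [e3, e4, e5, e6]
  have e7 : ‖h.1‖ * ‖h.2‖ * τ.y * (‖h.1‖ / ‖h.2‖ * ‖x.1‖ ^ 2 + ‖h.2‖ / ‖h.1‖ * ‖x.2‖ ^ 2) =
      τ.y * (‖h.1‖ ^ 2 * ‖x.1‖ ^ 2 + ‖h.2‖ ^ 2 * ‖x.2‖ ^ 2) := by
    field_simp
  rw [mul_assoc (2 * (Real.pi : ℂ)), mul_assoc (2 * (Real.pi : ℂ)), ← Complex.ofReal_mul,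
    ← Complex.ofReal_mul, e7]

theorem om_pos {τ : H3} (hz : τ.z = 0) (x : ℂ × ℂ) :
    om τ x = ((τ.y * Real.exp (-(2 * Real.pi * τ.y * (‖x.1‖ ^ 2 + ‖x.2‖ ^ 2))) : ℝ) : ℂ) := by
  rw [om, hz]
  push_cast
  congr 2
  simp

/-! ### Several places -/

variable {J : Type*} [Fintype J]

theorem er_sum {α : Type*} (s : Finset α) (f : α → ℝ) :
    er (∑ a ∈ s, f a) = ∏ a ∈ s, er (f a) := by
  classical
  induction s using Finset.induction_on with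
  | empty => simp
  | insert a s ha ih => rw [Finset.sum_insert ha, Finset.prod_insert ha, er_add, ih]

/-- the quadratic form `∑ 2 Re(β_j x_j x'_j)` -/
def QF (β : J → ℂ) (x : J → ℂ × ℂ) : ℝ := ∑ j, 2 * (β j * (x j).1 * (x j).2).re

theorem OM_nMat {t : J → ℝ} (ht : ∀ j, t j ≠ 0) (β : J → ℂ) (τ : J → H3) (x : J → ℂ × ℂ) :
    OM t (fun j => H3.nMat (β j) • τ j) x = er (QF β x) * OM t τ x := by
  rw [OM, OM, QF, er_sum, ← Finset.prod_mul_distrib]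
  refine Finset.prod_congr rfl fun j _ => ?_
  rw [om_nMat, mul_assoc (β j), mul_tor1 (ht j), mul_assoc (β j)]

theorem OM_dMat {t : J → ℝ} {h : J → ℂ × ℂ} (h1 : ∀ j, (h j).1 ≠ 0)
    (h2 : ∀ j, (h j).2 ≠ 0) (τ : J → H3) (x : J → ℂ × ℂ) :
    OM t τ (fun j => cmul (h j) (x j)) = (((∏ j, ‖(h j).1 * (h j).2‖)⁻¹ : ℝ) : ℂ) *
      OM (fun j => t j * sq1 (h j))
        (fun j => H3.dMat ((h j).1 * (h j).2) (mul_ne_zero (h1 j) (h2 j)) • τ j) x := by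
  rw [OM, OM, ← Finset.prod_inv_distrib]
  push_cast
  rw [← Finset.prod_mul_distrib]
  refine Finset.prod_congr rfl fun j _ => ?_
  rw [tor1_cmul, om_dMat (h1 j) (h2 j)]
  push_cast
  congr 2
  rw [tor1_apply, tor1_apply, tor1_apply]
  simp only [smul_smul, mul_inv, mul_comm]

theorem norm_OM (t : J → ℝ) (τ : J → H3) (x : J → ℂ × ℂ) :
    ‖OM t τ x‖ = ∏ j, ((τ j).y * Real.exp (-(2 * Real.pi * (τ j).y *
      (t j ^ 2 * ‖(x j).1‖ ^ 2 + (t j)⁻¹ ^ 2 * ‖(x j).2‖ ^ 2)))) := by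
  rw [OM, norm_prod]
  refine Finset.prod_congr rfl fun j _ => ?_
  rw [norm_om, tor1_apply]
  simp only [norm_smul, mul_pow, Real.norm_eq_abs, sq_abs]

theorem OM_pos {t : J → ℝ} {τ : J → H3} (hz : ∀ j, (τ j).z = 0) (x : J → ℂ × ℂ) :
    OM t τ x = ((‖OM t τ x‖ : ℝ) : ℂ) := by
  rw [OM, norm_prod]
  push_cast
  refine Finset.prod_congr rfl fun j _ => ?_
  rw [norm_om, om_pos (hz j)]

theorem norm_OM_pos (t : J → ℝ) (τ : J → H3) (x : J → ℂ × ℂ) : 0 < ‖OM t τ x‖ := by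
  rw [norm_OM]
  exact Finset.prod_pos fun j _ => mul_pos (τ j).pos (Real.exp_pos _)

namespace TD

variable {V : Type*} [AddCommGroup V] [Module ℚ V] {Λ : AddSubgroup V}
  {ι : Type*} [Fintype ι] [DecidableEq ι] (D : TD Λ J ι)

/-- Translation law. -/
theorem th_nMat {t : J → ℝ} (ht : ∀ j, t j ≠ 0) (β : J → ℂ) (τ : J → H3) (φ : V → ℂ) :
    D.th φ t (fun j => H3.nMat (β j) • τ j) =
      D.th (fun x => er (QF β (D.emb x)) * φ x) t τ := by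
  rw [th, th]
  refine tsum_congr fun x => ?_
  rw [OM_nMat ht]
  ring

/-- Dilation law. -/
theorem th_dMat {t : J → ℝ} {h : J → ℂ × ℂ} (h1 : ∀ j, (h j).1 ≠ 0)
    (h2 : ∀ j, (h j).2 ≠ 0) (g : V ≃ V) (hg : ∀ x, D.emb (g x) = fun j => cmul (h j) (D.emb x j))
    (τ : J → H3) (φ : V → ℂ) :
    D.th φ t τ = (((∏ j, ‖(h j).1 * (h j).2‖)⁻¹ : ℝ) : ℂ) *
      D.th (fun x => φ (g x)) (fun j => t j * sq1 (h j))
        (fun j => H3.dMat ((h j).1 * (h j).2) (mul_ne_zero (h1 j) (h2 j)) • τ j) := by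
  rw [th, th, ← tsum_mul_left, ← g.tsum_eq]
  refine tsum_congr fun x => ?_
  rw [hg, OM_dMat h1 h2]
  ring

/-- The theta series of a non negative function is positive at `z = 0`. -/
theorem th_ne_zero {t : J → ℝ} (ht : ∀ j, t j ≠ 0) {τ : J → H3} (hz : ∀ j, (τ j).z = 0)
    {φ : V → ℂ} (hφ : φ ∈ SF Λ) (h0 : ∀ x, φ x = ((‖φ x‖ : ℝ) : ℂ)) {x₀ : V} (hx : φ x₀ ≠ 0) :
    D.th φ t τ ≠ 0 := by
  have h1 : ∀ x, φ x * OM t τ (D.emb x) = ((‖φ x * OM t τ (D.emb x)‖ : ℝ) : ℂ) := by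
    intro x
    rw [norm_mul]
    push_cast
    rw [← h0, ← OM_pos hz]
  have hs := (D.summable_th ht τ hφ).norm
  rw [th, tsum_congr h1, ← Complex.ofReal_tsum]
  have h2 : 0 < ∑' x, ‖φ x * OM t τ (D.emb x)‖ := by
    refine hs.tsum_pos (fun x => norm_nonneg _) x₀ ?_
    rw [norm_mul]
    exact mul_pos (norm_pos_iff.mpr hx) (norm_OM_pos _ _ _)
  exact_mod_cast h2.ne'

end TD

end Fermat.Agent.H13Z
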