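import Fermat.Agent.H66DWeil

/-!
# The Weil data of a quadratic extension `B/k` of number fields (S47, block D)
-/

set_option linter.all false

namespace Fermat.Agent.H66D

open NumberField FractionalIdeal
open scoped nonZeroDivisors

section OL

variable (B : Type*) [Field B] [NumberField B]

/-- the ring of integers as an additive subgroup -/
def OLat : AddSubgroup B := (algebraMap (𝓞 B) B).toAddMonoidHom.range

variable {B}

lemma mem_OLat {x : B} : x ∈ OLat B ↔ IsIntegral ℤ x := by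
  unfold OLat
  rw [AddMonoidHom.mem_range]
  constructor
  · rintro ⟨y, rfl⟩
    exact RingOfIntegers.isIntegral_coe y
  · intro h
    exact ⟨⟨x, h⟩, rfl⟩

lemma exists_nsmul_mem (x : B) : ∃ m : ℕ, m ≠ 0 ∧ m • x ∈ OLat B := by
  have halg : IsAlgebraic ℤ x := by
    have : IsAlgebraic ℚ x := Algebra.IsAlgebraic.isAlgebraic x
    exact (IsFractionRing.isAlgebraic_iff ℤ ℚ B).2 this
  obtain ⟨y, hy, hint⟩ := halg.exists_integral_multiple
  refine ⟨y.natAbs, Int.natAbs_ne_zero.2 hy, ?_⟩
  rw [mem_OLat]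
  rcases Int.natAbs_eq y with h | h
  · rw [h] at hint
    rwa [natCast_zsmul] at hint
  · rw [h] at hint
    rw [neg_smul, natCast_zsmul] at hint
    simpa using hint.neg

lemma isFull_OLat : IsFull (OLat B) where
  span := exists_nsmul_mem
  idx := by
    intro m hm
    have h1 : mL (OLat B) m
        = ((Ideal.span {(m : 𝓞 B)}).toAddSubgroup).map (algebraMap (𝓞 B) B).toAddMonoidHom := by
      ext x
      rw [mem_mL, AddSubgroup.mem_map]
      constructor
      · rintro ⟨y, ⟨z, rfl⟩, rfl⟩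
        refine ⟨m • z, ?_, ?_⟩
        · show m • z ∈ Ideal.span {(m : 𝓞 B)}
          rw [Ideal.mem_span_singleton, nsmul_eq_mul]
          exact dvd_mul_right _ _
        · exact map_nsmul _ _ _
      · rintro ⟨z, hz, rfl⟩
        have hz' : z ∈ Ideal.span {(m : 𝓞 B)} := hz
        rw [Ideal.mem_span_singleton] at hz'
        obtain ⟨w, rfl⟩ := hz'
        refine ⟨(algebraMap (𝓞 B) B).toAddMonoidHom w, ⟨w, rfl⟩, ?_⟩
        rw [← nsmul_eq_mul]
        exact (map_nsmul _ _ _).symm
    have h2 : OLat B = (⊤ : AddSubgroup (𝓞 B)).map (algebraMap (𝓞 B) B).toAddMonoidHom := by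
      rw [← AddMonoidHom.range_eq_map]; rfl
    rw [h1]
    conv_lhs => rw [h2]
    rw [AddSubgroup.relIndex_map_map_of_injective _ _
      (FaithfulSMul.algebraMap_injective (𝓞 B) B), AddSubgroup.relIndex_top_right]
    have h3 : Ideal.absNorm (Ideal.span {(m : 𝓞 B)}) ≠ 0 := by
      rw [Ideal.absNorm_ne_zero_iff]
      apply Ideal.finiteQuotientOfFreeOfNeBot
      rw [Ne, Ideal.span_singleton_eq_bot]
      exact_mod_cast hm
    intro h4
    apply h3
    rw [Ideal.absNorm_apply]
    exact h4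

end OL

section data

variable (k B : Type*) [Field k] [NumberField k] [Field B] [NumberField B] [Algebra k B]

/-- the bicharacter `exp(-2πi Tr(x · conj y))` -/
noncomputable def bch {k B : Type*} [Field k] [Field B] [NumberField B] [Algebra k B]
    (cj : B ≃ₐ[k] B) (x y : B) : ℂ :=
  Complex.exp (-(2 * Real.pi * Complex.I * ((Algebra.trace ℚ B (x * cj y) : ℚ) : ℂ)))

variable {k B}

lemma bch_eq_one_iff (cj : B ≃ₐ[k] B) (x y : B) :
    bch cj x y = 1 ↔ Algebra.trace ℚ B (x * cj y) ∈ (algebraMap ℤ ℚ).range := by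
  unfold bch
  rw [Complex.exp_eq_one_iff]
  have hpi : (2 * Real.pi * Complex.I : ℂ) ≠ 0 := by
    simp [Real.pi_ne_zero, Complex.I_ne_zero]
  constructor
  · rintro ⟨n, hn⟩
    refine ⟨-n, ?_⟩
    have h1 : ((Algebra.trace ℚ B (x * cj y) : ℚ) : ℂ) = ((-n : ℤ) : ℂ) := by
      apply mul_left_cancel₀ hpi
      push_cast
      linear_combination -hn
    have h2 : (((-n : ℤ) : ℚ) : ℂ) = ((Algebra.trace ℚ B (x * cj y) : ℚ) : ℂ) := by
      rw [h1]; push_cast; rfl
    have h3 : ((-n : ℤ) : ℚ) = Algebra.trace ℚ B (x * cj y) := by exact_mod_cast h2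
    simpa using h3
  · rintro ⟨n, hn⟩
    refine ⟨-n, ?_⟩
    rw [← hn]
    simp only [algebraMap_int_eq, eq_intCast, Rat.cast_intCast]
    push_cast
    ring

lemma trace_cj (cj : B ≃ₐ[k] B) (x : B) : Algebra.trace ℚ B (cj x) = Algebra.trace ℚ B x := by
  have := Algebra.trace_eq_of_algEquiv (cj.restrictScalars ℚ) x
  simpa using this

/-- `x` is in the dual lattice -/
lemma dual_iff (cj : B ≃ₐ[k] B) (x : B) :
    (∀ y ∈ OLat B, bch cj x y = 1) ↔ x ∈ dual ℤ ℚ (1 : FractionalIdeal (𝓞 B)⁰ B) := by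
  have h10 : (1 : FractionalIdeal (𝓞 B)⁰ B) ≠ 0 := one_ne_zero
  rw [mem_dual h10]
  constructor
  · intro h a ha
    rw [mem_one_iff] at ha
    obtain ⟨z, rfl⟩ := ha
    have h1 : cj.symm (algebraMap (𝓞 B) B z) ∈ OLat B := by
      rw [mem_OLat]
      exact (RingOfIntegers.isIntegral_coe z).map (cj.symm.restrictScalars ℤ)
    have h2 := (bch_eq_one_iff cj x _).1 (h _ h1)
    rwa [AlgEquiv.apply_symm_apply] at h2
  · intro h y hy
    rw [bch_eq_one_iff]
    have h1 : IsIntegral ℤ (cj y) := (mem_OLat.1 hy).map (cj.restrictScalars ℤ)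
    exact h (cj y) ((mem_one_iff _).2 ⟨⟨cj y, h1⟩, rfl⟩)

variable (k B)

/-- **the Weil data of `B/k`** -/
noncomputable def wdata (cj : B ≃ₐ[k] B) (hcj : ∀ x, cj (cj x) = x) : WData k B where
  Λ := OLat B
  full := isFull_OLat
  β := bch cj
  add_left x x' y := by
    unfold bch
    rw [← Complex.exp_add, add_mul, map_add]
    congr 1
    push_cast
    ring
  symm x y := by
    unfold bch
    have : Algebra.trace ℚ B (x * cj y) = Algebra.trace ℚ B (y * cj x) := by
      rw [← trace_cj cj (x * cj y), map_mul, hcj, mul_comm]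
    rw [this]
  smul_left a x y := by
    unfold bch
    have h : cj (a • y) = a • cj y := by
      rw [Algebra.smul_def, map_mul, AlgEquiv.commutes, ← Algebra.smul_def]
    rw [h, smul_mul_assoc, mul_smul_comm]
  ne_zero x y := Complex.exp_ne_zero _
  int x hx y hy := by
    rw [bch_eq_one_iff]
    apply IsIntegrallyClosed.isIntegral_iff.mp
    apply Algebra.isIntegral_trace
    exact (mem_OLat.1 hx).mul ((mem_OLat.1 hy).map (cj.restrictScalars ℤ))
  dual := by
    obtain ⟨d, hd, hd'⟩ := (dual ℤ ℚ (1 : FractionalIdeal (𝓞 B)⁰ B)).2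
    have hd0 : d ≠ 0 := nonZeroDivisors.ne_zero hd
    have hN : Ideal.absNorm (Ideal.span {d}) ≠ 0 := by
      rw [Ideal.absNorm_ne_zero_iff]
      apply Ideal.finiteQuotientOfFreeOfNeBot
      rwa [Ne, Ideal.span_singleton_eq_bot]
    refine ⟨Ideal.absNorm (Ideal.span {d}), hN, fun x hx => ?_⟩
    rw [dual_iff] at hx
    obtain ⟨z, hz⟩ := hd' x hx
    obtain ⟨w, hw⟩ := Ideal.mem_span_singleton.1 (Ideal.absNorm_mem (Ideal.span {d}))
    rw [mem_OLat]
    have h1 : (Ideal.absNorm (Ideal.span {d})) • x = algebraMap (𝓞 B) B (w * z) := by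
      have e1 : d • x = algebraMap (𝓞 B) B d * x := Algebra.smul_def d x
      rw [map_mul, hz, e1, ← mul_assoc, ← map_mul, mul_comm w d, ← hw, nsmul_eq_mul, map_natCast]
    rw [h1]
    exact RingOfIntegers.isIntegral_coe _
  ddual x hx := by
    have h1 : cj x ∈ dual ℤ ℚ (dual ℤ ℚ (1 : FractionalIdeal (𝓞 B)⁰ B)) := by
      have h10 : (1 : FractionalIdeal (𝓞 B)⁰ B) ≠ 0 := one_ne_zero
      rw [mem_dual (dual_ne_zero ℤ ℚ h10)]
      intro p hp
      have h2 := hx p ((dual_iff cj p).2 hp)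
      rw [bch_eq_one_iff] at h2
      rw [Algebra.traceForm_apply, mul_comm]
      exact h2
    rw [dual_dual, mem_one_iff] at h1
    obtain ⟨z, hz⟩ := h1
    have h3 : IsIntegral ℤ (cj x) := by rw [← hz]; exact RingOfIntegers.isIntegral_coe z
    rw [mem_OLat]
    have h4 := h3.map (cj.restrictScalars ℤ)
    have h5 : (cj.restrictScalars ℤ) (cj x) = x := hcj x
    rwa [h5] at h4
  dil a := by
    obtain ⟨m, hm, ha⟩ := exists_nsmul_mem (algebraMap k B a)
    refine ⟨m, hm, fun y hy => ?_⟩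
    rw [mem_OLat] at *
    have : m • a • y = (m • algebraMap k B a) * y := by
      have e1 : a • y = algebraMap k B a * y := Algebra.smul_def a y
      rw [e1, smul_mul_assoc]
    rw [this]
    exact ha.mul hy

end data

end Fermat.Agent.H66D
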