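import Mathlib

/-!
# Relative units of a quadratic extension of totally complex fields (package D-UNIT of S47)

`B/E` quadratic, both totally complex, `τ` the nontrivial automorphism.  The group
`U1 τ m` of units `u` of `𝓞 B` with `u * τ u = 1`, `u ≡ 1 mod m` has, through the
logarithms of the absolute values at the places over the complex places of `E`, an image in
`ℝ^J` which is cocompact, with finitely many elements in bounded sets.
-/

set_option autoImplicit false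

open NumberField NumberField.InfinitePlace

namespace Fermat.Agent.H73U

/-- rounding: an additive subgroup spanning `ℝ^J` is cocompact -/
theorem exists_bound_of_span {J : Type*} [Fintype J] (L : AddSubgroup (J → ℝ))
    (h : Submodule.span ℝ (L : Set (J → ℝ)) = ⊤) :
    ∃ C : ℝ, 0 ≤ C ∧ ∀ s : J → ℝ, ∃ l ∈ L, ∀ j, |s j + l j| ≤ C := by
  classical
  let b := Module.Basis.ofSpan (K := ℝ) (V := J → ℝ) h.ge
  have hbL : ∀ i, b i ∈ L := fun i => Module.Basis.ofSpan_subset h.ge ⟨i, rfl⟩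
  let _ : Fintype _ := FiniteDimensional.fintypeBasisIndex b
  refine ⟨∑ j, ∑ i, |b i j|, by positivity, fun s => ?_⟩
  let n : _ → ℤ := fun i => ⌊b.repr (-s) i⌋
  refine ⟨∑ i, n i • b i, L.sum_mem fun i _ => L.zsmul_mem (hbL i) _, fun j => ?_⟩
  have hs : s j = -∑ i, b.repr (-s) i * b i j := by
    have h1 := congrFun (b.sum_repr (-s)) j
    simp only [Finset.sum_apply, Pi.smul_apply, smul_eq_mul, Pi.neg_apply] at h1
    linarith
  have h2 : s j + (∑ i, n i • b i) j = ∑ i, ((n i : ℝ) - b.repr (-s) i) * b i j := by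
    rw [hs, Finset.sum_apply, neg_add_eq_sub, ← Finset.sum_sub_distrib]
    refine Finset.sum_congr rfl fun i _ => ?_
    rw [Pi.smul_apply, zsmul_eq_mul]; ring
  rw [h2]
  calc |∑ i, ((n i : ℝ) - b.repr (-s) i) * b i j|
      ≤ ∑ i, |((n i : ℝ) - b.repr (-s) i) * b i j| := Finset.abs_sum_le_sum_abs _ _
    _ ≤ ∑ i, |b i j| := by
        refine Finset.sum_le_sum fun i _ => ?_
        rw [abs_mul]
        refine mul_le_of_le_one_left (abs_nonneg _) ?_
        rw [abs_le]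
        constructor
        · linarith [Int.sub_one_lt_floor (b.repr (-s) i)]
        · linarith [Int.floor_le (b.repr (-s) i)]
    _ ≤ ∑ j, ∑ i, |b i j| :=
        Finset.single_le_sum (f := fun j => ∑ i, |b i j|) (fun j _ => by positivity)
          (Finset.mem_univ j)

section Units

variable {E B : Type*} [Field E] [NumberField E] [Field B] [NumberField B] [Algebra E B]

/-- units of relative norm one which are congruent to one modulo `m` -/
def U1 (τ : B ≃ₐ[E] B) (m : Ideal (𝓞 B)) : Subgroup (𝓞 B)ˣ where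
  carrier := {u | ((u : 𝓞 B) : B) * τ ((u : 𝓞 B) : B) = 1 ∧ (u : 𝓞 B) - 1 ∈ m}
  one_mem' := by simp
  mul_mem' := by
    rintro u v ⟨hu, hu'⟩ ⟨hv, hv'⟩
    refine ⟨?_, ?_⟩
    · simp only [Units.val_mul, map_mul]
      calc _ = (((u : 𝓞 B) : B) * τ ((u : 𝓞 B) : B)) * (((v : 𝓞 B) : B) * τ ((v : 𝓞 B) : B)) := by
            ring
        _ = 1 := by rw [hu, hv, one_mul]
    · have h : ((u * v : (𝓞 B)ˣ) : 𝓞 B) - 1 = (u : 𝓞 B) * ((v : 𝓞 B) - 1) + ((u : 𝓞 B) - 1) := by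
        rw [Units.val_mul]; ring
      rw [h]
      exact m.add_mem (m.mul_mem_left _ hv') hu'
  inv_mem' := by
    rintro u ⟨hu, hu'⟩
    refine ⟨?_, ?_⟩
    · have h0 : (((u⁻¹ : (𝓞 B)ˣ) : 𝓞 B) : B) * ((u : 𝓞 B) : B) = 1 := by
        rw [← map_mul, ← Units.val_mul, inv_mul_cancel]; simp
      have h1 := congrArg τ h0
      rw [map_mul, map_one] at h1
      have h2 : ((((u⁻¹ : (𝓞 B)ˣ) : 𝓞 B) : B) * τ (((u⁻¹ : (𝓞 B)ˣ) : 𝓞 B) : B)) *
          (((u : 𝓞 B) : B) * τ ((u : 𝓞 B) : B)) = 1 := by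
        linear_combination (τ (((u⁻¹ : (𝓞 B)ˣ) : 𝓞 B) : B)) * (τ ((u : 𝓞 B) : B)) * h0 + h1
      rwa [hu, mul_one] at h2
    · have h : ((u⁻¹ : (𝓞 B)ˣ) : 𝓞 B) - 1 = -(((u⁻¹ : (𝓞 B)ˣ) : 𝓞 B) * ((u : 𝓞 B) - 1)) := by
        have := u.inv_mul
        linear_combination this
      rw [h]
      exact m.neg_mem (m.mul_mem_left _ hu')

theorem mem_U1 {τ : B ≃ₐ[E] B} {m : Ideal (𝓞 B)} {u : (𝓞 B)ˣ} :
    u ∈ U1 τ m ↔ ((u : 𝓞 B) : B) * τ ((u : 𝓞 B) : B) = 1 ∧ (u : 𝓞 B) - 1 ∈ m := Iff.rfl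

/-- logarithms of absolute values -/
noncomputable def lg {J : Type*} (b : J → (B →+* ℂ)) (u : (𝓞 B)ˣ) (j : J) : ℝ :=
  Real.log ‖b j ((u : 𝓞 B) : B)‖

theorem coe_ne_zero (u : (𝓞 B)ˣ) : ((u : 𝓞 B) : B) ≠ 0 := Units.coe_ne_zero u

theorem lg_mul {J : Type*} (b : J → (B →+* ℂ)) (u v : (𝓞 B)ˣ) :
    lg b (u * v) = lg b u + lg b v := by
  funext j
  simp only [lg, Pi.add_apply, Units.val_mul, map_mul, norm_mul]
  rw [Real.log_mul]
  · simp
  · simp

theorem lg_one {J : Type*} (b : J → (B →+* ℂ)) : lg b (1 : (𝓞 B)ˣ) = 0 := by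
  funext j; simp [lg]

theorem lg_inv {J : Type*} (b : J → (B →+* ℂ)) (u : (𝓞 B)ˣ) : lg b u⁻¹ = -lg b u := by
  have h := lg_mul b u⁻¹ u
  rw [inv_mul_cancel, lg_one] at h
  exact (neg_eq_of_add_eq_zero_left h.symm).symm

theorem lg_pow {J : Type*} (b : J → (B →+* ℂ)) (u : (𝓞 B)ˣ) (k : ℕ) :
    lg b (u ^ k) = k • lg b u := by
  induction k with
  | zero => simp [lg_one]
  | succ k ih => rw [pow_succ, lg_mul, ih, succ_nsmul]

/-- the conjugate of a unit -/
noncomputable def tauU (τ : B ≃ₐ[E] B) (u : (𝓞 B)ˣ) : (𝓞 B)ˣ :=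
  Units.map (RingOfIntegers.mapRingHom (τ : B →+* B) : 𝓞 B →* 𝓞 B) u

theorem coe_tauU (τ : B ≃ₐ[E] B) (u : (𝓞 B)ˣ) :
    ((tauU τ u : 𝓞 B) : B) = τ ((u : 𝓞 B) : B) := rfl

theorem exists_pow_sub_one_mem (m : Ideal (𝓞 B)) (hm : m ≠ ⊥) :
    ∃ k : ℕ, 0 < k ∧ ∀ u : (𝓞 B)ˣ, ((u ^ k : (𝓞 B)ˣ) : 𝓞 B) - 1 ∈ m := by
  have : Finite (𝓞 B ⧸ m) := Ideal.finiteQuotientOfFreeOfNeBot m hm
  have : Finite (𝓞 B ⧸ m)ˣ := inferInstance
  refine ⟨Nat.card (𝓞 B ⧸ m)ˣ, Nat.card_pos, fun u => ?_⟩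
  have h : (Units.map (Ideal.Quotient.mk m : 𝓞 B →* 𝓞 B ⧸ m) u) ^ Nat.card (𝓞 B ⧸ m)ˣ = 1 :=
    pow_card_eq_one'
  rw [← map_pow] at h
  have h2 : (Ideal.Quotient.mk m) ((u ^ Nat.card (𝓞 B ⧸ m)ˣ : (𝓞 B)ˣ) : 𝓞 B) = 1 :=
    congrArg Units.val h
  rw [← Ideal.Quotient.eq_zero_iff_mem, map_sub, map_one, sub_eq_zero]
  exact h2

section Places

variable {J : Type*} (e : J → (E →+* ℂ)) (b : J → (B →+* ℂ))
  (τ : B ≃ₐ[E] B)

theorem gal_card (hτ : τ ≠ 1) (h2 : Module.finrank E B = 2) :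
    Nat.card (B ≃ₐ[E] B) = 2 := by
  have : FiniteDimensional E B := Module.finite_of_finrank_pos (by omega)
  apply le_antisymm
  · rw [Nat.card_eq_fintype_card, ← h2]
    exact AlgEquiv.card_le
  · have : Nontrivial (B ≃ₐ[E] B) := ⟨⟨τ, 1, hτ⟩⟩
    exact Finite.one_lt_card

theorem isGalois (hτ : τ ≠ 1) (h2 : Module.finrank E B = 2) : IsGalois E B := by
  have : FiniteDimensional E B := Module.finite_of_finrank_pos (by omega)
  apply IsGalois.of_card_aut_eq_finrank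
  rw [gal_card τ hτ h2, h2]

theorem eq_one_or (hτ : τ ≠ 1) (h2 : Module.finrank E B = 2) (σ : B ≃ₐ[E] B) :
    σ = 1 ∨ σ = τ := by
  by_contra hcon
  push Not at hcon
  obtain ⟨y, hy, huniq⟩ := (Nat.card_eq_two_iff' (1 : B ≃ₐ[E] B)).1 (gal_card τ hτ h2)
  exact hcon.2 ((huniq σ hcon.1).trans (huniq τ hτ).symm)

theorem tau_tau (hτ : τ ≠ 1) (h2 : Module.finrank E B = 2) (x : B) : τ (τ x) = x := by
  rcases eq_one_or τ hτ h2 (τ * τ) with h | h
  · exact DFunLike.congr_fun h x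
  · exact absurd (mul_eq_left.1 h) hτ

variable (hb : ∀ j, (b j).comp (algebraMap E B) = e j)
  (he : Function.Bijective fun j => InfinitePlace.mk (e j))

include hb he in
/-- every place of `B` is one of the two places attached to some `j` -/
theorem place_cases (hτ : τ ≠ 1) (h2 : Module.finrank E B = 2) (w : InfinitePlace B) :
    ∃ j, w = mk (b j) ∨ w = mk ((b j).comp (τ : B →+* B)) := by
  have := isGalois τ hτ h2
  obtain ⟨j, hj⟩ := he.2 (w.comap (algebraMap E B))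
  have hj' : (mk (b j)).comap (algebraMap E B) = w.comap (algebraMap E B) := by
    rw [comap_mk, hb j]; exact hj
  obtain ⟨σ, hσ⟩ := exists_smul_eq_of_comap_eq hj'
  rcases eq_one_or τ hτ h2 σ with h | h
  · exact ⟨j, Or.inl (by rw [← hσ, h, one_smul])⟩
  · refine ⟨j, Or.inr ?_⟩
    rw [← hσ, h, smul_mk]
    congr 1
    ext x
    have : τ.symm x = τ x := by
      rw [AlgEquiv.symm_apply_eq, tau_tau τ hτ h2]
    simp [this]

include hb he in
theorem mk_inj [IsTotallyComplex E] {i j : J} (h : mk (b i) = mk (b j)) : i = j := by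
  apply he.1
  have := congrArg (fun w => w.comap (algebraMap E B)) h
  simpa [comap_mk, hb] using this

include hb he in
theorem mk_tau_inj [IsTotallyComplex E] {i j : J}
    (h : mk ((b i).comp (τ : B →+* B)) = mk ((b j).comp (τ : B →+* B))) : i = j := by
  apply he.1
  have h1 := congrArg (fun w => w.comap (algebraMap E B)) h
  simp only [comap_mk] at h1
  have h3 : ∀ k, ((b k).comp (τ : B →+* B)).comp (algebraMap E B) = e k := by
    intro k
    rw [← hb k]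
    ext x
    simp
  simpa [h3] using h1

include hb he in
theorem mk_ne_mk_tau [IsTotallyComplex E] (hτ : τ ≠ 1) (i j : J) :
    mk (b i) ≠ mk ((b j).comp (τ : B →+* B)) := by
  intro h
  have h3 : ((b j).comp (τ : B →+* B)).comp (algebraMap E B) = e j := by
    rw [← hb j]
    ext x
    simp
  have hij : i = j := by
    apply he.1
    have h1 := congrArg (fun w => w.comap (algebraMap E B)) h
    simp only [comap_mk, h3, hb] at h1
    exact h1
  subst hij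
  rcases mk_eq_iff.1 h with h1 | h1
  · apply hτ
    ext x
    have := DFunLike.congr_fun h1 x
    simp only [RingHom.comp_apply] at this
    exact ((b i).injective this).symm
  · -- conj (b i) = b i ∘ τ, so conj (e i) = e i
    have h4 : ComplexEmbedding.IsReal (e i) := by
      rw [ComplexEmbedding.isReal_iff]
      ext x
      have h5 := DFunLike.congr_fun h1 (algebraMap E B x)
      have h6 := DFunLike.congr_fun (hb i) x
      simp only [RingHom.comp_apply] at h5 h6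
      rw [ComplexEmbedding.conjugate_coe_eq] at h5 ⊢
      rw [← h6, h5]
      simp
    exact IsTotallyComplex.complexEmbedding_not_isReal (e i) h4

include hb he in
/-- the unit groups `U1 τ m` span `ℝ^J` -/
theorem span_lg [Fintype J] [IsTotallyComplex E] [IsTotallyComplex B] (hτ : τ ≠ 1)
    (h2 : Module.finrank E B = 2) (m : Ideal (𝓞 B)) (hm : m ≠ ⊥) :
    Submodule.span ℝ {s : J → ℝ | ∃ u ∈ U1 τ m, lg b u = s} = ⊤ := by
  classical
  by_contra hne
  obtain ⟨f, hf0, hf⟩ := Submodule.exists_le_ker_of_lt_top _ (lt_top_iff_ne_top.2 hne)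
  obtain ⟨k, hk0, hk⟩ := exists_pow_sub_one_mem m hm
  let c : J → ℝ := fun j => f (Pi.single j 1)
  have hfc : ∀ x : J → ℝ, f x = ∑ j, x j * c j := by
    intro x
    rw [LinearMap.pi_apply_eq_sum_univ f x]
    refine Finset.sum_congr rfl fun j _ => ?_
    rw [smul_eq_mul]
    congr 2
    funext i
    by_cases hij : i = j
    · subst hij; simp
    · simp [hij, Ne.symm hij, Pi.single_apply]
  -- the relation for all units
  have hrel : ∀ u : (𝓞 B)ˣ, ∑ j, (lg b u j - lg b (tauU τ u) j) * c j = 0 := by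
    intro u
    have hv : (u * (tauU τ u)⁻¹) ^ k ∈ U1 τ m := by
      refine ⟨?_, ?_⟩
      · have h0 : ∀ w : (𝓞 B)ˣ, (((w⁻¹ : (𝓞 B)ˣ) : 𝓞 B) : B) = (((w : 𝓞 B) : B))⁻¹ := by
          intro w
          apply eq_inv_of_mul_eq_one_left
          rw [← map_mul, ← Units.val_mul, inv_mul_cancel]
          simp
        have h1 : ((((u * (tauU τ u)⁻¹) ^ k : (𝓞 B)ˣ) : 𝓞 B) : B) =
            (((u : 𝓞 B) : B) * (τ ((u : 𝓞 B) : B))⁻¹) ^ k := by
          simp only [Units.val_pow_eq_pow_val, Units.val_mul, map_pow, map_mul, h0, coe_tauU]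
        rw [h1, map_pow, map_mul, map_inv₀, tau_tau τ hτ h2, ← mul_pow]
        have hu0 := coe_ne_zero u
        have hu1 : τ ((u : 𝓞 B) : B) ≠ 0 := by simp
        rw [show (((u : 𝓞 B) : B) * (τ ((u : 𝓞 B) : B))⁻¹ *
          (τ ((u : 𝓞 B) : B) * (((u : 𝓞 B) : B))⁻¹)) = 1 by field_simp, one_pow]
      · have h1 := hk u
        have h3 := hk (tauU τ u)
        have h4 : (((u * (tauU τ u)⁻¹) ^ k : (𝓞 B)ˣ) : 𝓞 B) =
            ((u ^ k : (𝓞 B)ˣ) : 𝓞 B) * ((((tauU τ u) ^ k)⁻¹ : (𝓞 B)ˣ) : 𝓞 B) := by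
          rw [mul_pow, inv_pow, Units.val_mul]
        have h5 : (((tauU τ u) ^ k : (𝓞 B)ˣ) : 𝓞 B) * ((((tauU τ u) ^ k)⁻¹ : (𝓞 B)ˣ) : 𝓞 B) = 1 :=
          Units.mul_inv _
        rw [h4]
        have h6 : ((u ^ k : (𝓞 B)ˣ) : 𝓞 B) * ((((tauU τ u) ^ k)⁻¹ : (𝓞 B)ˣ) : 𝓞 B) - 1 =
          ((((tauU τ u) ^ k)⁻¹ : (𝓞 B)ˣ) : 𝓞 B) * (((u ^ k : (𝓞 B)ˣ) : 𝓞 B) - 1) -
          ((((tauU τ u) ^ k)⁻¹ : (𝓞 B)ˣ) : 𝓞 B) *
            ((((tauU τ u) ^ k : (𝓞 B)ˣ) : 𝓞 B) - 1) := by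
          linear_combination (1 : 𝓞 B) * h5
        rw [h6]
        exact m.sub_mem (m.mul_mem_left _ h1) (m.mul_mem_left _ h3)
    have h1 : f (lg b ((u * (tauU τ u)⁻¹) ^ k)) = 0 :=
      LinearMap.mem_ker.1 (hf (Submodule.subset_span ⟨_, hv, rfl⟩))
    rw [lg_pow, map_nsmul, lg_mul, lg_inv, hfc] at h1
    have h3 := (smul_eq_zero.1 h1).resolve_left hk0.ne'
    rw [← h3]
    refine Finset.sum_congr rfl fun j _ => ?_
    rw [Pi.add_apply, Pi.neg_apply, ← sub_eq_add_neg]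
  -- enumeration of the places of `B`
  let P : J ⊕ J → InfinitePlace B :=
    Sum.elim (fun j => mk (b j)) (fun j => mk ((b j).comp (τ : B →+* B)))
  have hP : Function.Bijective P := by
    refine ⟨?_, ?_⟩
    · rintro (i | i) (j | j) hij
      · rw [mk_inj e b hb he hij]
      · exact absurd hij (mk_ne_mk_tau e b τ hb he hτ i j)
      · exact absurd hij.symm (mk_ne_mk_tau e b τ hb he hτ j i)
      · rw [mk_tau_inj e b τ hb he hij]
    · intro w
      obtain ⟨j, h | h⟩ := place_cases e b τ hb he hτ h2 w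
      · exact ⟨Sum.inl j, h.symm⟩
      · exact ⟨Sum.inr j, h.symm⟩
  let A : J ⊕ J → ℝ := Sum.elim c (fun j => -c j)
  have hx : ∀ u : (𝓞 B)ˣ, ∑ z, Real.log (P z ((u : 𝓞 B) : B)) = 0 := by
    intro u
    have h1 := Units.sum_mult_mul_log u
    simp only [IsTotallyComplex.mult_eq] at h1
    rw [← Finset.mul_sum] at h1
    have h3 := (mul_eq_zero.1 h1).resolve_left (by norm_num)
    rw [← h3]
    exact Function.Bijective.sum_comp hP (fun w => Real.log (w ((u : 𝓞 B) : B)))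
  have hAx : ∀ u : (𝓞 B)ˣ, ∑ z, A z * Real.log (P z ((u : 𝓞 B) : B)) = 0 := by
    intro u
    rw [Fintype.sum_sum_type, ← Finset.sum_add_distrib, ← hrel u]
    refine Finset.sum_congr rfl fun j _ => ?_
    simp only [A, P, Sum.elim_inl, Sum.elim_inr, lg, coe_tauU, apply, RingHom.comp_apply]
    simp only [RingHom.coe_coe]
    ring
  have hc : ∃ j, c j ≠ 0 := by
    by_contra hcon
    push Not at hcon
    apply hf0
    ext x
    rw [LinearMap.comp_apply, hfc]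
    simp [hcon]
  obtain ⟨j0, hj0⟩ := hc
  obtain ⟨z0, -, hz0⟩ := Finset.exists_max_image (Finset.univ : Finset (J ⊕ J)) A
    ⟨Sum.inl j0, Finset.mem_univ _⟩
  have hpos : 0 < A z0 := by
    rcases lt_or_gt_of_ne hj0 with h | h
    · exact lt_of_lt_of_le (by simpa [A] using h) (hz0 (Sum.inr j0) (Finset.mem_univ _))
    · exact lt_of_lt_of_le (by simpa [A] using h) (hz0 (Sum.inl j0) (Finset.mem_univ _))
  obtain ⟨z1, hz1⟩ : ∃ z1, A z1 < 0 := by
    rcases z0 with i | i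
    · exact ⟨Sum.inr i, by simpa [A] using hpos⟩
    · exact ⟨Sum.inl i, by simpa [A] using hpos⟩
  obtain ⟨u, hu⟩ := Units.dirichletUnitTheorem.exists_unit B (P z0)
  have h1 : ∑ z, (A z - A z0) * Real.log (P z ((u : 𝓞 B) : B)) = 0 := by
    simp only [sub_mul]
    rw [Finset.sum_sub_distrib, hAx u, ← Finset.mul_sum, hx u]; simp
  have h3 : 0 < ∑ z, (A z - A z0) * Real.log (P z ((u : 𝓞 B) : B)) := by
    apply Finset.sum_pos'
    · intro z _
      by_cases hz : z = z0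
      · rw [hz, sub_self, zero_mul]
      · exact mul_nonneg_of_nonpos_of_nonpos (sub_nonpos.2 (hz0 z (Finset.mem_univ _)))
          (hu (P z) (fun h => hz (hP.1 h))).le
    · refine ⟨z1, Finset.mem_univ _, mul_pos_of_neg_of_neg (by linarith) (hu (P z1) ?_)⟩
      intro h
      have := hP.1 h
      rw [this] at hz1
      linarith
  linarith

include hb he in
/-- **(a)** cocompactness of the relative units -/
theorem cocompact [Fintype J] [IsTotallyComplex E] [IsTotallyComplex B] (hτ : τ ≠ 1)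
    (h2 : Module.finrank E B = 2) (m : Ideal (𝓞 B)) (hm : m ≠ ⊥) :
    ∃ C : ℝ, 0 ≤ C ∧ ∀ s : J → ℝ, ∃ u ∈ U1 τ m, ∀ j, |s j + lg b u j| ≤ C := by
  let L : AddSubgroup (J → ℝ) :=
    { carrier := {s | ∃ u ∈ U1 τ m, lg b u = s}
      zero_mem' := ⟨1, one_mem _, lg_one b⟩
      add_mem' := by
        rintro _ _ ⟨u, hu, rfl⟩ ⟨v, hv, rfl⟩
        exact ⟨u * v, mul_mem hu hv, lg_mul b u v⟩
      neg_mem' := by
        rintro _ ⟨u, hu, rfl⟩
        exact ⟨u⁻¹, inv_mem hu, lg_inv b u⟩ }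
  obtain ⟨C, hC, h⟩ := exists_bound_of_span L (span_lg e b τ hb he hτ h2 m hm)
  refine ⟨C, hC, fun s => ?_⟩
  obtain ⟨_, ⟨u, hu, rfl⟩, hl⟩ := h s
  exact ⟨u, hu, hl⟩

include hb he in
/-- **(b)** finiteness of the relative units with bounded logarithms -/
theorem finite_of_lg_le (hτ : τ ≠ 1) (h2 : Module.finrank E B = 2) (C : ℝ) :
    {u : (𝓞 B)ˣ | ((u : 𝓞 B) : B) * τ ((u : 𝓞 B) : B) = 1 ∧ ∀ j, |lg b u j| ≤ C}.Finite := by
  have hfin := Embeddings.finite_of_norm_le B ℂ (Real.exp C)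
  refine Set.Finite.of_finite_image (f := fun u : (𝓞 B)ˣ => ((u : 𝓞 B) : B)) (hfin.subset ?_) ?_
  · rintro _ ⟨u, ⟨hu, hC⟩, rfl⟩
    refine ⟨(u : 𝓞 B).isIntegral_coe, fun φ => ?_⟩
    have hpos : ∀ j, 0 < ‖b j ((u : 𝓞 B) : B)‖ := fun j => by
      simp
    have key : ∀ j, ‖b j ((u : 𝓞 B) : B)‖ ≤ Real.exp C ∧
        ‖b j (τ ((u : 𝓞 B) : B))‖ ≤ Real.exp C := by
      intro j
      have h1 := abs_le.1 (hC j)
      simp only [lg] at h1
      refine ⟨(Real.log_le_iff_le_exp (hpos j)).1 h1.2, ?_⟩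
      have h3 : τ ((u : 𝓞 B) : B) = (((u : 𝓞 B) : B))⁻¹ :=
        (eq_inv_of_mul_eq_one_right hu)
      rw [h3, map_inv₀, norm_inv]
      rw [inv_le_comm₀ (hpos j) (Real.exp_pos _), ← Real.exp_neg]
      exact (Real.le_log_iff_exp_le (hpos j)).1 h1.1
    rw [← InfinitePlace.apply φ]
    obtain ⟨j, h | h⟩ := place_cases e b τ hb he hτ h2 (mk φ)
    · rw [h, InfinitePlace.apply]; exact (key j).1
    · rw [h, InfinitePlace.apply]
      exact (key j).2
  · exact (Units.coe_injective B).injOn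

include hb he in
theorem finite_U1 (hτ : τ ≠ 1) (h2 : Module.finrank E B = 2) (m : Ideal (𝓞 B)) (C : ℝ) :
    {u : (𝓞 B)ˣ | u ∈ U1 τ m ∧ ∀ j, |lg b u j| ≤ C}.Finite :=
  (finite_of_lg_le e b τ hb he hτ h2 C).subset fun _ hu => ⟨hu.1.1, hu.2⟩

include hb he in
/-- (a) for the group `U1 τ m` as a type -/
theorem cocompact_sub [Fintype J] [IsTotallyComplex E] [IsTotallyComplex B] (hτ : τ ≠ 1)
    (h2 : Module.finrank E B = 2) (m : Ideal (𝓞 B)) (hm : m ≠ ⊥) :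
    ∃ C : ℝ, 0 ≤ C ∧ ∀ s : J → ℝ, ∃ u : U1 τ m, ∀ j, |s j + lg b (u : (𝓞 B)ˣ) j| ≤ C := by
  obtain ⟨C, hC, h⟩ := cocompact e b τ hb he hτ h2 m hm
  refine ⟨C, hC, fun s => ?_⟩
  obtain ⟨u, hu, hs⟩ := h s
  exact ⟨⟨u, hu⟩, hs⟩

include hb he in
/-- (b) for the group `U1 τ m` as a type -/
theorem finite_sub (hτ : τ ≠ 1) (h2 : Module.finrank E B = 2) (m : Ideal (𝓞 B)) (C : ℝ) :
    {u : U1 τ m | ∀ j, |lg b (u : (𝓞 B)ˣ) j| ≤ C}.Finite := by
  refine Set.Finite.of_finite_image (f := Subtype.val)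
    ((finite_U1 e b τ hb he hτ h2 m C).subset ?_) Subtype.val_injective.injOn
  rintro _ ⟨u, hu, rfl⟩
  exact ⟨u.2, hu⟩

theorem lg_mul_sub (m : Ideal (𝓞 B)) (u v : U1 τ m) :
    lg b ((u * v : U1 τ m) : (𝓞 B)ˣ) = lg b (u : (𝓞 B)ˣ) + lg b (v : (𝓞 B)ˣ) :=
  lg_mul b _ _

theorem countable_units : Countable (𝓞 B)ˣ := by
  have h1 : Countable B := by
    exact (Module.finBasis ℚ B).equivFun.injective.countable
  have h2 : Function.Injective (fun u : (𝓞 B)ˣ => ((u : 𝓞 B) : B)) := Units.coe_injective B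
  exact h2.countable

end Places

end Units

end Fermat.Agent.H73U
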