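import Fermat.Agent.H13Z7
import Fermat.Agent.H66DNum
import Fermat.Agent.H73U1

set_option autoImplicit false
set_option linter.unusedSectionVars false

/-!
# Theta series of a quadratic extension `B/E` of totally complex number fields (helper13)
-/

noncomputable section

open MeasureTheory Set Complex Topology NumberField NumberField.InfinitePlace Matrix
open scoped MatrixGroups

namespace Fermat.Agent.H13Z

open Fermat.Agent.H66D

section Num

variable {E B : Type*} [Field E] [NumberField E] [Field B] [NumberField B] [Algebra E B]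
  {J : Type*} [Fintype J] (e : J → (E →+* ℂ)) (b : J → (B →+* ℂ)) (τ : B ≃ₐ[E] B)

/-- the embeddings of `B` attached to `j`: `b j`, `b j ∘ τ` and their conjugates -/
def emm (p : J × Bool × Bool) : B →+* ℂ :=
  match p with
  | (j, false, false) => b j
  | (j, true, false) => (b j).comp (τ : B →+* B)
  | (j, false, true) => ComplexEmbedding.conjugate (b j)
  | (j, true, true) => ComplexEmbedding.conjugate ((b j).comp (τ : B →+* B))

variable (hb : ∀ j, (b j).comp (algebraMap E B) = e j)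
  (he : Function.Bijective fun j => InfinitePlace.mk (e j))
  [IsTotallyComplex E] (hτ : τ ≠ 1) (h2 : Module.finrank E B = 2)

include hb in
theorem not_real_b (j : J) : ComplexEmbedding.conjugate (b j) ≠ b j := by
  intro h
  apply IsTotallyComplex.complexEmbedding_not_isReal (e j)
  rw [ComplexEmbedding.isReal_iff]
  ext x
  have h5 := DFunLike.congr_fun h (algebraMap E B x)
  have h6 := DFunLike.congr_fun (hb j) x
  simp only [RingHom.comp_apply] at h6
  rw [ComplexEmbedding.conjugate_coe_eq] at h5 ⊢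
  rw [← h6, h5]

theorem comp_tau_algebraMap (j : J) :
    ((b j).comp (τ : B →+* B)).comp (algebraMap E B) = (b j).comp (algebraMap E B) := by
  ext x
  simp

include hb he hτ h2 in
theorem emm_bijective : Function.Bijective (emm b τ) := by
  have hb' : ∀ j, ((b j).comp (τ : B →+* B)).comp (algebraMap E B) = e j := fun j => by
    rw [comp_tau_algebraMap, hb]
  constructor
  · rintro ⟨i, s, c⟩ ⟨j, s', c'⟩ h
    have hc := congrArg InfinitePlace.mk h
    have key : ∀ (j : J) (s c : Bool), InfinitePlace.mk (emm b τ (j, s, c)) =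
        InfinitePlace.mk (if s then (b j).comp (τ : B →+* B) else b j) := by
      intro j s c
      cases s <;> cases c <;> simp [emm, InfinitePlace.mk_conjugate_eq]
    rw [key, key] at hc
    have hs : s = s' := by
      cases s <;> cases s' <;> simp only [Bool.false_eq_true, if_true, if_false] at hc
      · rfl
      · exact absurd hc (H73U.mk_ne_mk_tau e b τ hb he hτ i j)
      · exact absurd hc.symm (H73U.mk_ne_mk_tau e b τ hb he hτ j i)
      · rfl
    subst hs
    have hij : i = j := by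
      cases s <;> simp only [Bool.false_eq_true, if_true, if_false] at hc
      · exact H73U.mk_inj e b hb he hc
      · exact H73U.mk_tau_inj e b τ hb he hc
    subst hij
    have h3 := not_real_b e b hb i
    have h4 := not_real_b e (fun j => (b j).comp (τ : B →+* B)) hb' i
    cases s <;> cases c <;> cases c' <;> simp only [emm] at h
    · rfl
    · exact absurd h.symm h3
    · exact absurd h h3
    · rfl
    · rfl
    · exact absurd h.symm h4
    · exact absurd h h4
    · rfl
  · intro σ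
    obtain ⟨j, hj | hj⟩ := H73U.place_cases e b τ hb he hτ h2 (InfinitePlace.mk σ)
    · rcases InfinitePlace.mk_eq_iff.1 hj with h | h
      · exact ⟨(j, false, false), h.symm⟩
      · refine ⟨(j, false, true), ?_⟩
        show ComplexEmbedding.conjugate (b j) = σ
        rw [← h]
        ext x
        simp
    · rcases InfinitePlace.mk_eq_iff.1 hj with h | h
      · exact ⟨(j, true, false), h.symm⟩
      · refine ⟨(j, true, true), ?_⟩
        show ComplexEmbedding.conjugate ((b j).comp (τ : B →+* B)) = σ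
        rw [← h]
        ext x
        simp

include hb he hτ h2 in
theorem finrank_eq : Module.finrank ℚ B = 4 * Fintype.card J := by
  have h1 := Fintype.card_of_bijective (emm_bijective e b τ hb he hτ h2)
  rw [NumberField.Embeddings.card B ℂ] at h1
  rw [← h1]
  simp [Fintype.card_prod, mul_comm]

include hb he hτ h2 in
theorem trace_eq (x : B) : ((Algebra.trace ℚ B x : ℚ) : ℂ) =
    ∑ j, (((2 * (b j x).re + 2 * (b j (τ x)).re : ℝ)) : ℂ) := by
  have h1 : ((Algebra.trace ℚ B x : ℚ) : ℂ) = ∑ σ : B →ₐ[ℚ] ℂ, σ x := by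
    rw [← trace_eq_sum_embeddings ℂ (K := ℚ) (L := B) (x := x)]
    rfl
  have h3 : ∑ σ : B →ₐ[ℚ] ℂ, σ x = ∑ σ : B →+* ℂ, σ x := by
    rw [← (RingHom.equivRatAlgHom (R := B) (S := ℂ)).sum_comp]
    rfl
  rw [h1, h3, ← (Equiv.ofBijective _ (emm_bijective e b τ hb he hτ h2)).sum_comp,
    Fintype.sum_prod_type]
  refine Finset.sum_congr rfl fun j _ => ?_
  rw [Fintype.sum_prod_type]
  simp only [Fintype.sum_bool, Equiv.ofBijective_apply, emm, RingHom.comp_apply,
    ComplexEmbedding.conjugate_coe_eq]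
  have h4 : ∀ z : ℂ, (starRingEnd ℂ) z + z = ((2 * z.re : ℝ) : ℂ) := fun z => by
    rw [add_comm, Complex.add_conj]
  rw [h4, h4]
  push_cast
  exact add_comm _ _

/-- the embedding `ξ ↦ (b_j ξ, b_j (τ ξ))` -/
def embN : B →+ (J → ℂ × ℂ) where
  toFun x j := (b j x, b j (τ x))
  map_zero' := by funext j; simp
  map_add' x y := by funext j; simp

theorem embN_apply (x : B) (j : J) : embN b τ x j = (b j x, b j (τ x)) := rfl

include hb he hτ h2 in
theorem PR_embN (x y : B) : PR (embN b τ x) (embN b τ y) =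
    ((Algebra.trace ℚ B (x * τ y) : ℚ) : ℝ) := by
  have h := trace_eq e b τ hb he hτ h2 (x * τ y)
  have h3 : τ (τ y) = y := H73U.tau_tau τ hτ h2 y
  have h4 : (((Algebra.trace ℚ B (x * τ y) : ℚ) : ℝ) : ℂ) = ((PR (embN b τ x) (embN b τ y) : ℝ) : ℂ) := by
    rw [PR_apply]
    push_cast
    rw [h]
    refine Finset.sum_congr rfl fun j _ => ?_
    rw [pr, embN_apply, embN_apply, map_mul, map_mul, map_mul, h3, Complex.add_re]
    push_cast
    ring
  exact_mod_cast h4.symm

/-- **Theta data of a quadratic extension.** -/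
def numTD : TD (OLat B) J (Module.Free.ChooseBasisIndex ℤ (𝓞 B)) where
  emb := embN b τ
  b := integralBasis B
  b' j := τ ((Algebra.traceForm ℚ B).dualBasis (traceForm_nondegenerate ℚ B) (integralBasis B) j)
  dual i j := by
    rw [PR_embN e b τ hb he hτ h2, H73U.tau_tau τ hτ h2]
    have h := LinearMap.BilinForm.apply_dualBasis_right
      (traceForm_nondegenerate ℚ B) (Algebra.traceForm_isSymm (R := ℚ) (S := B))
      (integralBasis B) i j
    rw [Algebra.traceForm_apply] at h
    rw [h]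
    split_ifs <;> simp
  card := by
    rw [← finrank_eq e b τ hb he hτ h2, Module.finrank_eq_card_basis (integralBasis B)]
  span x := by
    have h := mem_span_integralBasis B (x := x)
    rw [Submodule.mem_span_range_iff_exists_fun] at h
    constructor
    · intro hx
      obtain ⟨n, hn⟩ := h.mpr (by
        obtain ⟨y, hy⟩ := hx
        exact ⟨y, hy⟩)
      exact ⟨n, hn.symm⟩
    · rintro ⟨n, hn⟩
      obtain ⟨y, hy⟩ := h.mp ⟨n, hn.symm⟩
      exact ⟨y, hy⟩
  full := exists_nsmul_mem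


theorem numTD_emb (x : B) : (numTD e b τ hb he hτ h2).emb x = embN b τ x := rfl

theorem numTD_T (x y : B) : (numTD e b τ hb he hτ h2).T x y =
    ((Algebra.trace ℚ B (x * τ y) : ℚ) : ℝ) := PR_embN e b τ hb he hτ h2 x y

theorem bch_eq (x y : B) : bch τ x y = er (-(numTD e b τ hb he hτ h2).T x y) := by
  rw [numTD_T, er, bch]
  congr 1
  push_cast
  ring

/-! ### The operators of the Weil representation -/

/-- helper66's Weil data. -/
abbrev WD : WData E B := wdata E B τ (H73U.tau_tau τ hτ h2)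

theorem AW_eq (φ : SF (WD τ hτ h2).Λ) :
    (((WD τ hτ h2).AW ((numTD e b τ hb he hτ h2).vol : ℂ) φ : SF (WD τ hτ h2).Λ) : B → ℂ) =
      (numTD e b τ hb he hτ h2).FT (φ : B → ℂ) := by
  funext x
  rw [WData.AW_apply, TD.FT]
  congr 1
  show HIfun (OLat B) _ = HIfun (OLat B) _
  congr 1
  funext y
  show bch τ (-x) y * (φ : B → ℂ) y = er _ * (φ : B → ℂ) y
  rw [bch_eq e b τ hb he hτ h2]
  congr 2
  rw [TD.T, TD.T, map_neg, map_neg]
  simp

include hb he in
theorem AN_eq (β : E) (φ : SF (WD τ hτ h2).Λ) (x : B) :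
    (((WD τ hτ h2).AN β φ : SF (WD τ hτ h2).Λ) : B → ℂ) x =
      er (-(QF (fun j => e j β) (embN b τ x))) * (φ : B → ℂ) x := by
  rw [WData.AN_apply]
  congr 1
  show bch τ (β • x) (hf x) = _
  rw [bch_eq e b τ hb he hτ h2]
  congr 2
  rw [hf, TD.T_rat_right, TD.T, numTD_emb, numTD_emb, PR_apply, QF, Finset.mul_sum]
  refine Finset.sum_congr rfl fun j _ => ?_
  have h3 : b j (β • x) = e j β * b j x := by
    rw [Algebra.smul_def, map_mul, ← hb j]
    rfl
  have h4 : b j (τ (β • x)) = e j β * b j (τ x) := by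
    rw [Algebra.smul_def, map_mul, map_mul, AlgEquiv.commutes, ← hb j]
    rfl
  rw [pr, embN_apply, embN_apply, h3, h4]
  simp only
  have h5 : e j β * b j x * b j (τ x) + e j β * b j (τ x) * b j x =
      ((2 : ℝ) : ℂ) * (e j β * b j x * b j (τ x)) := by
    push_cast
    ring
  rw [h5, Complex.re_ofReal_mul]
  push_cast
  ring

/-! ### The action -/

/-- `(J → ℍ³)` with the action of `GL₂(E)` through the embeddings `e j`. -/
def actJ (g : GL (Fin 2) E) (z : J → H3) : J → H3 := fun j => GeneralLinearGroup.map (e j) g • z j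

theorem actJ_mul (g h : GL (Fin 2) E) (z : J → H3) :
    actJ e (g * h) z = actJ e g (actJ e h z) := by
  funext j
  rw [actJ, map_mul, mul_smul]
  rfl

theorem actJ_one (z : J → H3) : actJ e (1 : GL (Fin 2) E) z = z := by
  funext j
  rw [actJ, map_one, one_smul]

theorem coe_map_SL (f : E →+* ℂ) (g : SpecialLinearGroup (Fin 2) E) (i k : Fin 2) :
    (GeneralLinearGroup.map f (g : GL (Fin 2) E) : Matrix (Fin 2) (Fin 2) ℂ) i k =
      f (g.1 i k) := rfl

theorem actJ_nb (β : E) (z : J → H3) :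
    actJ e (nb β : SpecialLinearGroup (Fin 2) E) z = fun j => H3.nMat (e j β) • z j := by
  funext j
  show GeneralLinearGroup.map (e j) _ • z j = _
  congr 1
  ext i k
  rw [coe_map_SL]
  fin_cases i <;> fin_cases k <;> simp [nb, H3.nMat, GeneralLinearGroup.mkOfDetNeZero]

theorem actJ_ww (z : J → H3) :
    actJ e (ww E : SpecialLinearGroup (Fin 2) E) z = fun j => H3.wMat • z j := by
  funext j
  show GeneralLinearGroup.map (e j) _ • z j = _
  congr 1
  ext i k
  rw [coe_map_SL]
  fin_cases i <;> fin_cases k <;> simp [ww, H3.wMat, GeneralLinearGroup.mkOfDetNeZero]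

theorem ne_zero_e (a : Eˣ) (j : J) : e j (a : E) ≠ 0 := by
  rw [Ne, map_eq_zero]
  exact a.ne_zero

theorem actJ_ma (a : Eˣ) (z : J → H3) :
    actJ e (ma a : SpecialLinearGroup (Fin 2) E) z = fun j =>
      H3.dMat (e j a * e j a) (mul_ne_zero (ne_zero_e e a j) (ne_zero_e e a j)) • z j := by
  funext j
  show GeneralLinearGroup.map (e j) _ • z j = _
  refine H3.smul_eq_of_eq_smul (c := (e j a)⁻¹) ?_ _
  have h := ne_zero_e e a j
  ext i k
  rw [coe_map_SL]
  fin_cases i <;> fin_cases k <;>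
    simp [ma, H3.dMat, GeneralLinearGroup.mkOfDetNeZero, h]

/-! ### Dilations -/

/-- multiplication by a unit as a permutation -/
def mulE (h : Bˣ) : B ≃ B := Units.mulLeft h

theorem embN_mul (h x : B) : embN b τ (h * x) = fun j => cmul (embN b τ h j) (embN b τ x j) := by
  funext j
  rw [embN_apply, embN_apply, embN_apply, cmul]
  simp only [map_mul]

theorem embN_ne (h : Bˣ) (j : J) : (embN b τ (h : B) j).1 ≠ 0 ∧ (embN b τ (h : B) j).2 ≠ 0 := by
  rw [embN_apply]
  refine ⟨?_, ?_⟩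
  · show b j h ≠ 0
    rw [Ne, map_eq_zero]; exact h.ne_zero
  · show b j (τ h) ≠ 0
    rw [Ne, map_eq_zero, map_eq_zero]; exact h.ne_zero

/-- **Dilation law for `h ∈ Bˣ`**: `th φ t z = ∏ |N h|⁻¹ · th (φ(h ·)) (t √|h/h'|) (diag(N h, 1) z)`. -/
theorem th_dil (h : Bˣ) (t : J → ℝ) (z : J → H3) (φ : B → ℂ) :
    (numTD e b τ hb he hτ h2).th φ t z = (((∏ j, ‖b j (h : B) * b j (τ (h : B))‖)⁻¹ : ℝ) : ℂ) *
      (numTD e b τ hb he hτ h2).th (fun x => φ ((h : B) * x))
        (fun j => t j * sq1 (embN b τ (h : B) j))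
        (fun j => H3.dMat (b j (h : B) * b j (τ (h : B)))
          (mul_ne_zero (embN_ne b τ h j).1 (embN_ne b τ h j).2) • z j) :=
  TD.th_dMat (numTD e b τ hb he hτ h2) (h := fun j => embN b τ (h : B) j)
    (fun j => (embN_ne b τ h j).1) (fun j => (embN_ne b τ h j).2) (mulE h)
    (fun x => embN_mul b τ (h : B) x) z φ


/-! ### The Weil representation -/

/-- the points `(z, t)` -/
structure XT (e : J → (E →+* ℂ)) where
  z : J → H3
  t : J → ℝ
  ht : ∀ j, t j ≠ 0

/-- `SL₂(E)` acts on the first component. -/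
instance : MulAction (SpecialLinearGroup (Fin 2) E) (XT e) where
  smul g x := ⟨actJ e (g : GL (Fin 2) E) x.z, x.t, x.ht⟩
  one_smul x := by
    show XT.mk (actJ e ((1 : SpecialLinearGroup (Fin 2) E) : GL (Fin 2) E) x.z) x.t x.ht = x
    rw [map_one, actJ_one]
  mul_smul g h x := by
    show XT.mk (actJ e ((g * h : SpecialLinearGroup (Fin 2) E) : GL (Fin 2) E) x.z) x.t x.ht = _
    rw [map_mul, actJ_mul]
    rfl

theorem smul_XT (g : SpecialLinearGroup (Fin 2) E) (x : XT e) :
    g • x = ⟨actJ e (g : GL (Fin 2) E) x.z, x.t, x.ht⟩ := rfl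

/-- the theta functional -/
def Th : SF (WD τ hτ h2).Λ →ₗ[ℂ] (XT e → ℂ) where
  toFun φ x := (numTD e b τ hb he hτ h2).th (φ : B → ℂ) x.t x.z
  map_add' φ ψ := by
    funext x
    exact TD.th_add _ x.ht x.z φ.2 ψ.2
  map_smul' c φ := by
    funext x
    exact TD.th_smul _ x.t x.z c _

theorem Th_apply (φ : SF (WD τ hτ h2).Λ) (x : XT e) :
    Th e b τ hb he hτ h2 φ x = (numTD e b τ hb he hτ h2).th (φ : B → ℂ) x.t x.z := rfl

/-- the factor `|N_{E/ℚ} a|⁻¹` -/
def nuE (a : Eˣ) : ℂ := (((∏ j, ‖e j (a : E) * e j (a : E)‖)⁻¹ : ℝ) : ℂ)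

theorem Th_AN (β : E) (φ : SF (WD τ hτ h2).Λ) (x : XT e) :
    Th e b τ hb he hτ h2 ((WD τ hτ h2).AN β φ) ((nb β : SpecialLinearGroup (Fin 2) E) • x) =
      Th e b τ hb he hτ h2 φ x := by
  rw [smul_XT, Th_apply, Th_apply]
  simp only
  rw [actJ_nb, TD.th_nMat _ x.ht]
  congr 1
  funext y
  rw [AN_eq e b τ hb he hτ h2, ← mul_assoc, numTD_emb, ← er_add, add_neg_cancel, er_zero, one_mul]

theorem Th_AW (φ : SF (WD τ hτ h2).Λ) (x : XT e) :
    Th e b τ hb he hτ h2 ((WD τ hτ h2).AW ((numTD e b τ hb he hτ h2).vol : ℂ) φ)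
      ((ww E : SpecialLinearGroup (Fin 2) E) • x) = Th e b τ hb he hτ h2 φ x := by
  rw [smul_XT, Th_apply, Th_apply]
  simp only
  rw [actJ_ww, AW_eq e b τ hb he hτ h2]
  exact TD.th_FT _ x.ht x.z φ.2

theorem Th_AM (a : Eˣ) (φ : SF (WD τ hτ h2).Λ) (x : XT e) :
    Th e b τ hb he hτ h2 ((WD τ hτ h2).AM (nuE e a) a φ)
      ((ma a : SpecialLinearGroup (Fin 2) E) • x) = Th e b τ hb he hτ h2 φ x := by
  rw [smul_XT, Th_apply, Th_apply]
  simp only
  have h := th_dil e b τ hb he hτ h2 (Units.map (algebraMap E B : E →* B) a) x.t x.z (φ : B → ℂ)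
  have e1 : ∀ j, b j ((Units.map (algebraMap E B : E →* B) a : Bˣ) : B) = e j a := fun j => by
    rw [← hb j]; rfl
  have e2 : ∀ j, b j (τ ((Units.map (algebraMap E B : E →* B) a : Bˣ) : B)) = e j a := fun j => by
    rw [← hb j]
    simp
  have e3 : ∀ j, sq1 (embN b τ ((Units.map (algebraMap E B : E →* B) a : Bˣ) : B) j) = 1 := by
    intro j
    rw [embN_apply, e1, e2, sq1]
    simp only
    rw [div_self (norm_ne_zero_iff.mpr (ne_zero_e e a j)), Real.sqrt_one]
  rw [h, actJ_ma]
  simp only [e1, e2, e3, mul_one]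
  rw [← TD.th_smul]
  congr 1
  funext y
  rw [WData.AM_apply, Pi.smul_apply, smul_eq_mul, nuE]
  congr 1
  exact congrArg (φ : B → ℂ) (Algebra.smul_def (a : E) y)

theorem Th_ne_zero : ∃ (φ : SF (WD τ hτ h2).Λ) (x : XT e), Th e b τ hb he hτ h2 φ x ≠ 0 := by
  refine ⟨ind (WD τ hτ h2).Λ 1 one_ne_zero,
    ⟨fun _ => ⟨0, 1, one_pos⟩, fun _ => 1, fun _ => one_ne_zero⟩, ?_⟩
  rw [Th_apply]
  refine TD.th_ne_zero _ (fun _ => one_ne_zero) (fun _ => rfl)
    (ind (OLat B) 1 one_ne_zero).2 (fun x => ?_) (x₀ := (0 : B)) ?_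
  · show (ind (OLat B) 1 one_ne_zero : B → ℂ) x =
      ((‖(ind (OLat B) 1 one_ne_zero : B → ℂ) x‖ : ℝ) : ℂ)
    rw [ind_apply]
    split_ifs <;> simp
  · show (ind (OLat B) 1 one_ne_zero : B → ℂ) 0 ≠ 0
    rw [ind_apply, if_pos (AddSubgroup.zero_mem _)]
    exact one_ne_zero

/-- **The Weil representation of `SL₂(E)` on the Schwartz functions of `B`, with its theta
functional.** -/
theorem exists_rep : ∃ A : SpecialLinearGroup (Fin 2) E →* Module.End ℂ (SF (WD τ hτ h2).Λ),
    (∀ β, A (nb β) = (WD τ hτ h2).AN β) ∧ (∀ a, A (ma a) = (WD τ hτ h2).AM (nuE e a) a) ∧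
    A (ww E) = (WD τ hτ h2).AW ((numTD e b τ hb he hτ h2).vol : ℂ) ∧
    ∀ (g : SpecialLinearGroup (Fin 2) E) (φ : SF (WD τ hτ h2).Λ) (t : J → ℝ),
      (∀ j, t j ≠ 0) → ∀ z : J → H3,
        (numTD e b τ hb he hτ h2).th (A g φ : B → ℂ) t (actJ e (g : GL (Fin 2) E) z) =
          (numTD e b τ hb he hτ h2).th (φ : B → ℂ) t z := by
  obtain ⟨A, h1, h3, h4, h5⟩ := WData.exists_weil (WD τ hτ h2) (Th e b τ hb he hτ h2) (nuE e)
    ((numTD e b τ hb he hτ h2).vol : ℂ) (Th_AN e b τ hb he hτ h2) (Th_AM e b τ hb he hτ h2)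
    (Th_AW e b τ hb he hτ h2) (Th_ne_zero e b τ hb he hτ h2)
  exact ⟨A, h1, h3, h4, fun g φ t ht z => h5 g φ ⟨z, t, ht⟩⟩

end Num

end Fermat.Agent.H13Z
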