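import Fermat.Agent.H53Z1

/-!
# The archimedean theta kernel for an abstract index set (helper53, S47 block D, part A3)

`theta φ p q w s = ∑_x φ(x) gterm w s (p x) (q x)` under the hypothesis `GSum φ p q`.
-/

set_option autoImplicit false

open MeasureTheory Set Filter Topology
open scoped ComplexConjugate Real

noncomputable section

namespace Fermat.Agent.H53Z

open Fermat.Agent Fermat.Agent.H22Z

variable {J : Type*} [Fintype J] {X : Type*}

/-- Gaussian summability of the weights. -/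
def GSum (φ : X → ℂ) (p q : X → J → ℂ) : Prop :=
  ∀ ε : ℝ, 0 < ε → Summable fun x => ‖φ x‖ * Real.exp (-ε * ∑ j, (‖p x j‖ ^ 2 + ‖q x j‖ ^ 2))

/-- the majorant sum -/
def gmaj (φ : X → ℂ) (p q : X → J → ℂ) (ε : ℝ) : ℝ :=
  ∑' x, ‖φ x‖ * Real.exp (-ε * ∑ j, (‖p x j‖ ^ 2 + ‖q x j‖ ^ 2))

/-- the theta kernel -/
def theta (φ : X → ℂ) (p q : X → J → ℂ) (w : J → H3) (s : J → ℝ) : ℂ :=
  ∑' x, φ x * gterm w s (p x) (q x)

theorem norm_term_le (φ : X → ℂ) (p q : X → J → ℂ) {w : J → H3} {s : J → ℝ} {c S : ℝ}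
    (hw : ∀ j, c ≤ (w j).y) (hs : ∀ j, |s j| ≤ S) (x : X) :
    ‖φ x * gterm w s (p x) (q x)‖ ≤ (∏ j, (w j).y) * (‖φ x‖ *
      Real.exp (-(2 * π * c * Real.exp (-2 * S)) * ∑ j, (‖p x j‖ ^ 2 + ‖q x j‖ ^ 2))) := by
  rw [norm_mul]
  calc ‖φ x‖ * ‖gterm w s (p x) (q x)‖
      ≤ ‖φ x‖ * ((∏ j, (w j).y) * Real.exp (-((2 * π * c * Real.exp (-2 * S)) *
        ∑ j, (‖p x j‖ ^ 2 + ‖q x j‖ ^ 2)))) :=
        mul_le_mul_of_nonneg_left (norm_gterm_le hw hs _ _) (norm_nonneg _)
    _ = _ := by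
        rw [← neg_mul (2 * π * c * Real.exp (-2 * S)) (∑ j, (‖p x j‖ ^ 2 + ‖q x j‖ ^ 2)),
          mul_left_comm]

theorem eps_pos {c S : ℝ} (hc : 0 < c) : 0 < 2 * π * c * Real.exp (-2 * S) := by
  have := Real.pi_pos
  have := Real.exp_pos (-2 * S)
  positivity

/-- every point satisfies a bound -/
theorem exists_bounds (w : J → H3) (s : J → ℝ) :
    ∃ c S : ℝ, 0 < c ∧ (∀ j, c ≤ (w j).y) ∧ ∀ j, |s j| ≤ S := by
  classical
  refine ⟨(∑ j, ((w j).y)⁻¹ + 1)⁻¹, ∑ j, |s j|, ?_, fun j => ?_, fun j => ?_⟩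
  · have : 0 ≤ ∑ j, ((w j).y)⁻¹ := Finset.sum_nonneg fun j _ => (inv_pos.mpr (w j).pos).le
    positivity
  · have h1 : ((w j).y)⁻¹ ≤ ∑ j, ((w j).y)⁻¹ + 1 := by
      have := Finset.single_le_sum (f := fun j => ((w j).y)⁻¹)
        (fun j _ => (inv_pos.mpr (w j).pos).le) (Finset.mem_univ j)
      linarith
    rw [inv_le_comm₀ _ (w j).pos]
    · exact h1
    · exact lt_of_lt_of_le (inv_pos.mpr (w j).pos) h1
  · exact Finset.single_le_sum (f := fun j => |s j|) (fun j _ => abs_nonneg _) (Finset.mem_univ j)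

theorem summable_theta {φ : X → ℂ} {p q : X → J → ℂ} (h : GSum φ p q) (w : J → H3) (s : J → ℝ) :
    Summable fun x => φ x * gterm w s (p x) (q x) := by
  obtain ⟨c, S, hc, hw, hs⟩ := exists_bounds w s
  exact Summable.of_norm_bounded ((h _ (eps_pos hc)).mul_left _)
    fun x => norm_term_le φ p q hw hs x

theorem hasSum_theta {φ : X → ℂ} {p q : X → J → ℂ} (h : GSum φ p q) (w : J → H3) (s : J → ℝ) :
    HasSum (fun x => φ x * gterm w s (p x) (q x)) (theta φ p q w s) :=
  (summable_theta h w s).hasSum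

theorem norm_theta_le {φ : X → ℂ} {p q : X → J → ℂ} (h : GSum φ p q) {w : J → H3} {s : J → ℝ}
    {c S : ℝ} (hc : 0 < c) (hw : ∀ j, c ≤ (w j).y) (hs : ∀ j, |s j| ≤ S) :
    ‖theta φ p q w s‖ ≤ (∏ j, (w j).y) * gmaj φ p q (2 * π * c * Real.exp (-2 * S)) := by
  have h1 := (h _ (eps_pos (c := c) (S := S) hc)).hasSum.mul_left (∏ j, (w j).y)
  exact tsum_of_norm_bounded h1 fun x => norm_term_le φ p q hw hs x

theorem gmaj_nonneg (φ : X → ℂ) (p q : X → J → ℂ) (ε : ℝ) : 0 ≤ gmaj φ p q ε :=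
  tsum_nonneg fun _ => mul_nonneg (norm_nonneg _) (Real.exp_pos _).le

/-- continuity of the theta kernel -/
theorem continuous_theta {φ : X → ℂ} {p q : X → J → ℂ} (h : GSum φ p q) :
    Continuous fun a : (J → H3) × (J → ℝ) => theta φ p q a.1 a.2 := by
  rw [continuous_iff_continuousAt]
  intro a
  obtain ⟨c, S, hc, hw, hs⟩ := exists_bounds a.1 a.2
  set U : Set ((J → H3) × (J → ℝ)) := {b | (∀ j, c / 2 < (b.1 j).y) ∧ (∀ j, (b.1 j).y < (a.1 j).y + 1)
    ∧ ∀ j, |b.2 j| < S + 1} with hU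
  have hy : ∀ j, Continuous fun b : (J → H3) × (J → ℝ) => (b.1 j).y := fun j =>
    H3.continuous_y.comp ((continuous_apply j).comp continuous_fst)
  have hsj : ∀ j, Continuous fun b : (J → H3) × (J → ℝ) => |b.2 j| := fun j =>
    continuous_abs.comp ((continuous_apply j).comp continuous_snd)
  have hUo : IsOpen U := by
    have e : U = (⋂ j, {b | c / 2 < (b.1 j).y}) ∩ (⋂ j, {b | (b.1 j).y < (a.1 j).y + 1}) ∩
        ⋂ j, {b | |b.2 j| < S + 1} := by
      ext b
      simp only [hU, mem_ofPred_eq, mem_inter_iff, mem_iInter]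
      tauto
    rw [e]
    refine ((isOpen_iInter_of_finite fun j => ?_).inter (isOpen_iInter_of_finite fun j => ?_)).inter
      (isOpen_iInter_of_finite fun j => ?_)
    · exact isOpen_lt continuous_const (hy j)
    · exact isOpen_lt (hy j) continuous_const
    · exact isOpen_lt (hsj j) continuous_const
  have haU : a ∈ U := by
    refine ⟨fun j => ?_, fun j => ?_, fun j => ?_⟩
    · have := hw j
      linarith
    · linarith
    · have := hs j
      linarith
  have hcU : ContinuousOn (fun b : (J → H3) × (J → ℝ) => theta φ p q b.1 b.2) U := by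
    refine continuousOn_tsum (u := fun x => (∏ j, ((a.1 j).y + 1)) * (‖φ x‖ *
      Real.exp (-(2 * π * (c / 2) * Real.exp (-2 * (S + 1))) *
        ∑ j, (‖p x j‖ ^ 2 + ‖q x j‖ ^ 2)))) (fun x => ?_)
      ((h _ (eps_pos (half_pos hc))).mul_left _) (fun x b hb => ?_)
    · exact (continuous_const.mul (continuous_gterm (p x) (q x))).continuousOn
    · refine (norm_term_le φ p q (fun j => (hb.1 j).le) (fun j => (hb.2.2 j).le) x).trans ?_
      refine mul_le_mul_of_nonneg_right ?_ (mul_nonneg (norm_nonneg _) (Real.exp_pos _).le)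
      exact Finset.prod_le_prod (fun j _ => (b.1 j).pos.le) fun j _ => (hb.2.1 j).le
  exact hcU.continuousAt (hUo.mem_nhds haU)

theorem continuous_theta_left {φ : X → ℂ} {p q : X → J → ℂ} (h : GSum φ p q) (s : J → ℝ) :
    Continuous fun w : J → H3 => theta φ p q w s := by
  have h1 : Continuous fun w : J → H3 => ((w, s) : (J → H3) × (J → ℝ)) := by fun_prop
  have h2 := (continuous_theta h).comp h1
  simp only [Function.comp_def] at h2
  exact h2

theorem continuous_theta_right {φ : X → ℂ} {p q : X → J → ℂ} (h : GSum φ p q) (w : J → H3) :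
    Continuous fun s : J → ℝ => theta φ p q w s := by
  have h1 : Continuous fun s : J → ℝ => ((w, s) : (J → H3) × (J → ℝ)) := by fun_prop
  have h2 := (continuous_theta h).comp h1
  simp only [Function.comp_def] at h2
  exact h2

/-! ### The cut-off integral -/

/-- the cut-off integral of the theta kernel -/
def thetaInt (c : (J → ℝ) → ℝ) (φ : X → ℂ) (p q : X → J → ℂ) (w : J → H3) : ℂ :=
  ∫ s : J → ℝ, (c s : ℂ) * theta φ p q w s

/-- conditions on a cut-off function: continuous with support in a box -/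
structure IsCut (c : (J → ℝ) → ℝ) (S : ℝ) : Prop where
  cont : Continuous c
  nonneg : ∀ s, 0 ≤ c s
  supp : ∀ s, (∃ j, S < |s j|) → c s = 0

theorem IsCut.hasCompactSupport {c : (J → ℝ) → ℝ} {S : ℝ} (hc : IsCut c S) :
    HasCompactSupport c := by
  refine HasCompactSupport.intro (isCompact_univ_pi fun _ : J => isCompact_Icc (a := -S) (b := S))
    fun s hs => hc.supp s ?_
  by_contra hcon
  push Not at hcon
  exact hs fun j _ => abs_le.mp (hcon j)

theorem IsCut.integrable {c : (J → ℝ) → ℝ} {S : ℝ} (hc : IsCut c S) : Integrable c :=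
  hc.cont.integrable_of_hasCompactSupport hc.hasCompactSupport

theorem integrable_thetaInt {c : (J → ℝ) → ℝ} {S : ℝ} (hc : IsCut c S) {φ : X → ℂ}
    {p q : X → J → ℂ} (h : GSum φ p q) (w : J → H3) :
    Integrable fun s : J → ℝ => (c s : ℂ) * theta φ p q w s := by
  refine Continuous.integrable_of_hasCompactSupport ?_ ?_
  · exact (Complex.continuous_ofReal.comp hc.cont).mul (continuous_theta_right h w)
  · refine HasCompactSupport.mul_right ?_
    exact hc.hasCompactSupport.comp_left (g := fun r : ℝ => (r : ℂ)) Complex.ofReal_zero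

theorem norm_cut_theta_le {c : (J → ℝ) → ℝ} {S : ℝ} (hc : IsCut c S) {φ : X → ℂ}
    {p q : X → J → ℂ} (h : GSum φ p q) {w : J → H3} {c₀ : ℝ} (hc₀ : 0 < c₀)
    (hw : ∀ j, c₀ ≤ (w j).y) (s : J → ℝ) : ‖(c s : ℂ) * theta φ p q w s‖ ≤
      c s * ((∏ j, (w j).y) * gmaj φ p q (2 * π * c₀ * Real.exp (-2 * S))) := by
  rw [norm_mul, Complex.norm_real, Real.norm_eq_abs, abs_of_nonneg (hc.nonneg s)]
  by_cases hs : ∀ j, |s j| ≤ S
  · exact mul_le_mul_of_nonneg_left (norm_theta_le h hc₀ hw hs) (hc.nonneg s)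
  · push Not at hs
    rw [hc.supp s hs, zero_mul, zero_mul]

/-- `|∫ c θ| ≤ C ∏ y_j` for `y_j ≥ c₀` -/
theorem norm_thetaInt_le {c : (J → ℝ) → ℝ} {S : ℝ} (hc : IsCut c S) {φ : X → ℂ}
    {p q : X → J → ℂ} (h : GSum φ p q) {w : J → H3} {c₀ : ℝ} (hc₀ : 0 < c₀)
    (hw : ∀ j, c₀ ≤ (w j).y) : ‖thetaInt c φ p q w‖ ≤
      (∏ j, (w j).y) * (gmaj φ p q (2 * π * c₀ * Real.exp (-2 * S)) * ∫ s, c s) := by
  refine (norm_integral_le_of_norm_le (hc.integrable.mul_const _)
    (Eventually.of_forall fun s => norm_cut_theta_le hc h hc₀ hw s)).trans (le_of_eq ?_)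
  rw [integral_mul_const]
  ring

theorem continuous_thetaInt {c : (J → ℝ) → ℝ} {S : ℝ} (hc : IsCut c S) {φ : X → ℂ}
    {p q : X → J → ℂ} (h : GSum φ p q) : Continuous fun w => thetaInt c φ p q w := by
  rw [continuous_iff_continuousAt]
  intro a
  obtain ⟨c₀, -, hc₀, hw, -⟩ := exists_bounds a (0 : J → ℝ)
  have hy : ∀ j, Continuous fun b : J → H3 => (b j).y := fun j =>
    H3.continuous_y.comp (continuous_apply j)
  have hev : ∀ᶠ b in 𝓝 a, (∀ j, c₀ / 2 ≤ (b j).y) ∧ ∀ j, (b j).y ≤ (a j).y + 1 := by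
    rw [eventually_and, eventually_all, eventually_all]
    constructor
    · intro j
      have : c₀ / 2 < (a j).y := by
        have := hw j
        linarith
      exact (((hy j).tendsto a).eventually (lt_mem_nhds this)).mono fun b hb => hb.le
    · intro j
      have : (a j).y < (a j).y + 1 := by linarith
      exact (((hy j).tendsto a).eventually (gt_mem_nhds this)).mono fun b hb => hb.le
  refine continuousAt_of_dominated (bound := fun s => c s * ((∏ j, ((a j).y + 1)) *
    gmaj φ p q (2 * π * (c₀ / 2) * Real.exp (-2 * S)))) ?_ ?_ ?_ ?_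
  · exact Eventually.of_forall fun b => (integrable_thetaInt hc h b).aestronglyMeasurable
  · refine hev.mono fun b hb => Eventually.of_forall fun s => ?_
    refine (norm_cut_theta_le hc h (half_pos hc₀) hb.1 s).trans ?_
    refine mul_le_mul_of_nonneg_left ?_ (hc.nonneg s)
    refine mul_le_mul_of_nonneg_right ?_ (gmaj_nonneg _ _ _ _)
    exact Finset.prod_le_prod (fun j _ => (b j).pos.le) fun j _ => hb.2 j
  · exact hc.integrable.mul_const _
  · exact Eventually.of_forall fun s =>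
      (continuous_const.mul (continuous_theta_left h s)).continuousAt

/-- termwise integration -/
theorem hasSum_thetaInt {c : (J → ℝ) → ℝ} {S : ℝ} (hc : IsCut c S) [Countable X] {φ : X → ℂ}
    {p q : X → J → ℂ} (h : GSum φ p q) (w : J → H3) :
    HasSum (fun x => ∫ s : J → ℝ, (c s : ℂ) * (φ x * gterm w s (p x) (q x)))
      (thetaInt c φ p q w) := by
  obtain ⟨c₀, -, hc₀, hw, -⟩ := exists_bounds w (0 : J → ℝ)
  set ε := 2 * π * c₀ * Real.exp (-2 * S) with hε
  have hbd : ∀ x s, ‖(c s : ℂ) * (φ x * gterm w s (p x) (q x))‖ ≤ c s * ((∏ j, (w j).y) * (‖φ x‖ *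
      Real.exp (-ε * ∑ j, (‖p x j‖ ^ 2 + ‖q x j‖ ^ 2)))) := by
    intro x s
    rw [norm_mul, Complex.norm_real, Real.norm_eq_abs, abs_of_nonneg (hc.nonneg s)]
    by_cases hs : ∀ j, |s j| ≤ S
    · exact mul_le_mul_of_nonneg_left (norm_term_le φ p q hw hs x) (hc.nonneg s)
    · push Not at hs
      rw [hc.supp s hs, zero_mul, zero_mul]
  have hint : ∀ x, Integrable fun s : J → ℝ => (c s : ℂ) * (φ x * gterm w s (p x) (q x)) := by
    intro x
    refine Integrable.mono' (hc.integrable.mul_const _) ?_ (Eventually.of_forall fun s => hbd x s)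
    refine Continuous.aestronglyMeasurable ?_
    refine (Complex.continuous_ofReal.comp hc.cont).mul (continuous_const.mul ?_)
    exact (continuous_gterm (p x) (q x)).comp (continuous_const.prodMk continuous_id)
  have hsum : Summable fun x => ∫ s : J → ℝ, ‖(c s : ℂ) * (φ x * gterm w s (p x) (q x))‖ := by
    refine Summable.of_nonneg_of_le (fun x => integral_nonneg fun s => norm_nonneg _)
      (fun x => integral_mono (hint x).norm (hc.integrable.mul_const _) fun s => hbd x s) ?_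
    simp only [integral_mul_const]
    exact ((h ε (eps_pos hc₀)).mul_left _).mul_left _
  have h1 := hasSum_integral_of_summable_integral_norm hint hsum
  have e : thetaInt c φ p q w = ∫ s : J → ℝ, ∑' x, (c s : ℂ) * (φ x * gterm w s (p x) (q x)) := by
    rw [thetaInt]
    refine integral_congr_ae (Eventually.of_forall fun s => ?_)
    simp only [theta]
    rw [tsum_mul_left]
  rw [e]
  exact h1

end Fermat.Agent.H53Z
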