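import Fermat.Agent.H13Z8
import Fermat.Agent.H53Z2

set_option autoImplicit false
set_option linter.unusedSectionVars false

/-!
# The theta functional in logarithmic coordinates (helper13)

`th φ (e^s) w = H53Z.theta φ (b_j ξ) (b_j (τ ξ)) w s`.
-/

noncomputable section

open MeasureTheory Set Complex Topology NumberField NumberField.InfinitePlace Matrix
open scoped MatrixGroups

namespace Fermat.Agent.H13Z

open Fermat.Agent.H66D

variable {J : Type*} [Fintype J]

theorem om_eq_gt1 (w : H3) (s : ℝ) (x : ℂ × ℂ) :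
    om w (tor1 (Real.exp s) x) = H53Z.gt1 w s x.1 x.2 := by
  have hs : Real.exp s ≠ 0 := (Real.exp_pos s).ne'
  rw [om, H53Z.gt1]
  have e1 : w.z * (tor1 (Real.exp s) x).1 * (tor1 (Real.exp s) x).2 = x.1 * x.2 * w.z := by
    rw [mul_assoc, mul_tor1 hs, mul_comm]
  have e2 : ‖(tor1 (Real.exp s) x).1‖ ^ 2 = ‖x.1‖ ^ 2 * Real.exp (2 * s) := by
    rw [tor1_apply]
    simp only
    rw [norm_smul, Real.norm_of_nonneg (Real.exp_pos s).le, mul_pow, two_mul, Real.exp_add]
    ring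
  have e3 : ‖(tor1 (Real.exp s) x).2‖ ^ 2 = ‖x.2‖ ^ 2 * Real.exp (-2 * s) := by
    rw [tor1_apply]
    simp only
    rw [norm_smul, ← Real.exp_neg, Real.norm_of_nonneg (Real.exp_pos _).le, mul_pow]
    have : (-2 : ℝ) * s = -s + -s := by ring
    rw [this, Real.exp_add]
    ring
  rw [e1, e2, e3, sub_eq_add_neg, Complex.exp_add]
  push_cast
  ring_nf

theorem OM_eq_gterm (w : J → H3) (s : J → ℝ) (x : J → ℂ × ℂ) :
    OM (fun j => Real.exp (s j)) w x = H53Z.gterm w s (fun j => (x j).1) (fun j => (x j).2) := by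
  rw [OM, H53Z.gterm]
  exact Finset.prod_congr rfl fun j _ => om_eq_gt1 _ _ _

section Num

variable {E B : Type*} [Field E] [NumberField E] [Field B] [NumberField B] [Algebra E B]
  (e : J → (E →+* ℂ)) (b : J → (B →+* ℂ)) (τ : B ≃ₐ[E] B)
  (hb : ∀ j, (b j).comp (algebraMap E B) = e j)
  (he : Function.Bijective fun j => InfinitePlace.mk (e j))
  [IsTotallyComplex E] (hτ : τ ≠ 1) (h2 : Module.finrank E B = 2)

/-- the theta functional of `B/E` in logarithmic coordinates -/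
abbrev thB (φ : B → ℂ) (w : J → H3) (s : J → ℝ) : ℂ :=
  H53Z.theta φ (fun (x : B) (j : J) => b j x) (fun (x : B) (j : J) => b j (τ x)) w s

theorem th_eq_theta (φ : B → ℂ) (w : J → H3) (s : J → ℝ) :
    (numTD e b τ hb he hτ h2).th φ (fun j => Real.exp (s j)) w = thB b τ φ w s := by
  rw [TD.th, thB, H53Z.theta]
  refine tsum_congr fun x => ?_
  rw [OM_eq_gterm]
  rfl

theorem exp_ne (s : J → ℝ) (j : J) : Real.exp (s j) ≠ 0 := (Real.exp_pos _).ne'

include hb he hτ h2 in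
theorem summable_thB {φ : B → ℂ} (hφ : φ ∈ SF (OLat B)) (w : J → H3) (s : J → ℝ) :
    Summable fun x : B => φ x * H53Z.gterm w s (fun j => b j x) (fun j => b j (τ x)) := by
  refine ((numTD e b τ hb he hτ h2).summable_th (exp_ne s) w hφ).congr fun x => ?_
  rw [OM_eq_gterm]
  rfl

/-- **Poisson summation.** -/
theorem thB_FT {φ : B → ℂ} (hφ : φ ∈ SF (OLat B)) (w : J → H3) (s : J → ℝ) :
    thB b τ ((numTD e b τ hb he hτ h2).FT φ) (actJ e (ww E : SpecialLinearGroup (Fin 2) E) w) s =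
      thB b τ φ w s := by
  rw [← th_eq_theta e b τ hb he hτ h2, ← th_eq_theta e b τ hb he hτ h2, actJ_ww]
  exact TD.th_FT _ (exp_ne s) w hφ

include hτ h2 in
theorem norm_eq_mul (x : B) : algebraMap E B (Algebra.norm E x) = x * τ x := by
  classical
  have := H73U.isGalois τ hτ h2
  have h3 : FiniteDimensional E B := Module.finite_of_finrank_pos (by omega)
  rw [Algebra.norm_eq_prod_automorphisms E x]
  have h4 : (Finset.univ : Finset (B ≃ₐ[E] B)) = {1, τ} := by
    ext σ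
    simp only [Finset.mem_univ, Finset.mem_insert, Finset.mem_singleton, true_iff]
    exact H73U.eq_one_or τ hτ h2 σ
  rw [h4, Finset.prod_pair (Ne.symm hτ)]
  rfl

include hb he hτ h2 in
theorem traceE_eq (y : E) : ((Algebra.trace ℚ E y : ℚ) : ℝ) = ∑ j, 2 * (e j y).re := by
  have h := trace_eq e b τ hb he hτ h2 (algebraMap E B y)
  have h3 : Algebra.trace ℚ B (algebraMap E B y) = 2 * Algebra.trace ℚ E y := by
    have h4 : FiniteDimensional E B := Module.finite_of_finrank_pos (by omega)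
    rw [← Algebra.trace_trace (S := E), Algebra.trace_algebraMap, h2, map_nsmul]
    simp
  have h5 : ∀ j, b j (algebraMap E B y) = e j y := fun j => by rw [← hb j]; rfl
  have h6 : ∀ j, b j (τ (algebraMap E B y)) = e j y := fun j => by
    rw [AlgEquiv.commutes, h5]
  rw [h3] at h
  simp only [h5, h6] at h
  have h7 : (2 * ((Algebra.trace ℚ E y : ℚ) : ℝ) : ℝ) = ∑ j, (2 * (e j y).re + 2 * (e j y).re) := by
    exact_mod_cast h
  have h8 : ∑ j, (2 * (e j y).re + 2 * (e j y).re) = 2 * ∑ j, 2 * (e j y).re := by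
    rw [Finset.mul_sum]
    exact Finset.sum_congr rfl fun j _ => by ring
  linarith

include hb he hτ h2 in
theorem QF_embN (β : E) (x : B) : QF (fun j => e j β) (embN b τ x) =
    ((Algebra.trace ℚ E (β * Algebra.norm E x) : ℚ) : ℝ) := by
  rw [traceE_eq e b τ hb he hτ h2, QF]
  refine Finset.sum_congr rfl fun j _ => ?_
  have h3 : e j (Algebra.norm E x) = b j x * b j (τ x) := by
    rw [← map_mul, ← norm_eq_mul τ hτ h2, ← hb j]
    rfl
  rw [map_mul, h3, embN_apply, mul_assoc]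

include hb he hτ h2 in
/-- **Translations.** -/
theorem thB_nb (β : E) (φ : B → ℂ) (w : J → H3) (s : J → ℝ) :
    thB b τ φ (actJ e (nb β : SpecialLinearGroup (Fin 2) E) w) s =
      thB b τ (fun x => er (((Algebra.trace ℚ E (β * Algebra.norm E x) : ℚ) : ℝ)) * φ x) w s := by
  rw [← th_eq_theta e b τ hb he hτ h2, ← th_eq_theta e b τ hb he hτ h2, actJ_nb,
    TD.th_nMat _ (exp_ne s)]
  congr 1
  funext x
  rw [numTD_emb, QF_embN e b τ hb he hτ h2]

include hb he hτ h2 in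
theorem AN_eq' (β : E) (φ : SF (WD τ hτ h2).Λ) (x : B) :
    (((WD τ hτ h2).AN β φ : SF (WD τ hτ h2).Λ) : B → ℂ) x =
      er (-((Algebra.trace ℚ E (β * Algebra.norm E x) : ℚ) : ℝ)) * (φ : B → ℂ) x := by
  rw [AN_eq e b τ hb he hτ h2, QF_embN e b τ hb he hτ h2]

/-- the shift of the torus variable -/
def shift (h : Bˣ) (j : J) : ℝ := (Real.log ‖b j (h : B)‖ - Real.log ‖b j (τ (h : B))‖) / 2

theorem exp_shift (h : Bˣ) (j : J) :
    Real.exp (shift b τ h j) = sq1 (embN b τ (h : B) j) := by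
  have n1 : 0 < ‖b j (h : B)‖ := norm_pos_iff.mpr (embN_ne b τ h j).1
  have n2 : 0 < ‖b j (τ (h : B))‖ := norm_pos_iff.mpr (embN_ne b τ h j).2
  rw [shift, sq1, embN_apply, ← Real.log_div n1.ne' n2.ne', div_eq_mul_inv _ (2 : ℝ), mul_comm,
    ← Real.log_rpow (div_pos n1 n2), Real.exp_log (Real.rpow_pos_of_pos (div_pos n1 n2) _),
    Real.sqrt_eq_rpow]
  norm_num

include hb he hτ h2 in
/-- **Dilations by `h ∈ Bˣ`.** -/
theorem thB_dil (h : Bˣ) (φ : B → ℂ) (w : J → H3) (s : J → ℝ) :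
    thB b τ φ w s = (((∏ j, ‖b j (h : B) * b j (τ (h : B))‖)⁻¹ : ℝ) : ℂ) *
      thB b τ (fun x => φ ((h : B) * x))
        (fun j => H3.dMat (b j (h : B) * b j (τ (h : B)))
          (mul_ne_zero (embN_ne b τ h j).1 (embN_ne b τ h j).2) • w j)
        (fun j => s j + shift b τ h j) := by
  rw [← th_eq_theta e b τ hb he hτ h2, ← th_eq_theta e b τ hb he hτ h2, th_dil e b τ hb he hτ h2 h]
  congr 2
  funext j
  rw [Real.exp_add, exp_shift]

/-- **The Weil representation.** -/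
theorem exists_repB : ∃ A : SpecialLinearGroup (Fin 2) E →* Module.End ℂ (SF (WD τ hτ h2).Λ),
    (∀ β, A (nb β) = (WD τ hτ h2).AN β) ∧ (∀ a, A (ma a) = (WD τ hτ h2).AM (nuE e a) a) ∧
    A (ww E) = (WD τ hτ h2).AW ((numTD e b τ hb he hτ h2).vol : ℂ) ∧
    ∀ (g : SpecialLinearGroup (Fin 2) E) (φ : SF (WD τ hτ h2).Λ) (w : J → H3) (s : J → ℝ),
        thB b τ (A g φ : B → ℂ) (actJ e (g : GL (Fin 2) E) w) s = thB b τ (φ : B → ℂ) w s := by
  obtain ⟨A, h1, h3, h4, h5⟩ := exists_rep e b τ hb he hτ h2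
  refine ⟨A, h1, h3, h4, fun g φ w s => ?_⟩
  rw [← th_eq_theta e b τ hb he hτ h2, ← th_eq_theta e b τ hb he hτ h2]
  exact h5 g φ _ (exp_ne s) w

end Num

end Fermat.Agent.H13Z
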