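import Mathlib

/-!
# Coefficients of dihedral forms (helper33, block (D) of S47, D4-COEF)

`S / R` quadratic extension of Dedekind domains, `χ` a completely multiplicative function on the
ideals of `S`. `coef χ n` is the sum of `χ I` over the ideals `I` with relative norm `n`.
Recursion at the primes of `R` which are unramified in `S`.
-/

set_option autoImplicit false
set_option linter.unusedSectionVars false

open Ideal Module

namespace Fermat.Agent.H33D

variable (R : Type*) {S : Type*} [CommRing R] [IsDedekindDomain R] [CommRing S]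
  [IsDedekindDomain S] [Algebra R S] [Module.Finite R S] [IsTorsionFree R S]

/-- the ideals of relative norm `n` -/
def normSet (n : Ideal R) : Set (Ideal S) := {I | relNorm R I = n}

variable {R}

theorem mem_normSet {n : Ideal R} {I : Ideal S} : I ∈ normSet (S := S) R n ↔ relNorm R I = n :=
  Iff.rfl

theorem dvd_map_of_relNorm_eq {n : Ideal R} {I : Ideal S} (h : relNorm R I = n) :
    I ∣ n.map (algebraMap R S) := by
  rw [Ideal.dvd_iff_le, Ideal.map_le_iff_le_comap, ← h]
  exact relNorm_le_comap R I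

theorem finite_normSet {n : Ideal R} (hn : n ≠ 0) : (normSet (S := S) R n).Finite := by
  have h1 : n.map (algebraMap R S) ≠ 0 := by
    rw [Ne, Ideal.zero_eq_bot, Ideal.map_eq_bot_iff_of_injective]
    · exact hn
    · exact FaithfulSMul.algebraMap_injective R S
  have h2 : Fintype {I : Ideal S // I ∣ n.map (algebraMap R S)} :=
    UniqueFactorizationMonoid.fintypeSubtypeDvd (n.map (algebraMap R S)) h1
  have h3 : {I : Ideal S | I ∣ n.map (algebraMap R S)}.Finite :=
    @Set.toFinite _ _ (@Finite.of_fintype _ h2)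
  exact h3.subset fun I hI => dvd_map_of_relNorm_eq hI

/-- the coefficient function -/
noncomputable def coef (χ : Ideal S →*₀ ℂ) (n : Ideal R) : ℂ :=
  ∑ᶠ I ∈ normSet (S := S) R n, χ I

theorem relNorm_eq_one_iff {I : Ideal S} : relNorm R I = 1 ↔ I = 1 := by
  constructor
  · intro h
    have h1 := dvd_map_of_relNorm_eq h
    rw [Ideal.one_eq_top, Ideal.map_top, ← Ideal.one_eq_top] at h1
    exact (Ideal.isUnit_iff.mp (isUnit_of_dvd_one h1)).trans Ideal.one_eq_top.symm
  · rintro rfl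
    exact map_one _

theorem coef_one (χ : Ideal S →*₀ ℂ) : coef χ (1 : Ideal R) = 1 := by
  have h : normSet (S := S) R 1 = {1} := by
    ext I
    rw [mem_normSet, relNorm_eq_one_iff, Set.mem_singleton_iff]
  rw [coef, h, finsum_mem_singleton, map_one]

theorem coef_zero (χ : Ideal S →*₀ ℂ) : coef χ (0 : Ideal R) = 0 := by
  have h : normSet (S := S) R 0 = {0} := by
    ext I
    rw [mem_normSet, Set.mem_singleton_iff, Ideal.zero_eq_bot, relNorm_eq_bot_iff,
      Ideal.zero_eq_bot]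
  rw [coef, h, finsum_mem_singleton, map_zero]

theorem coef_of_empty (χ : Ideal S →*₀ ℂ) {n : Ideal R} (h : ∀ I : Ideal S, relNorm R I ≠ n) :
    coef χ n = 0 := by
  have h1 : normSet (S := S) R n = ∅ := Set.eq_empty_of_forall_notMem h
  rw [coef, h1, finsum_mem_empty]

theorem exists_of_coef_ne_zero {χ : Ideal S →*₀ ℂ} {n : Ideal R} (h : coef χ n ≠ 0) :
    ∃ I : Ideal S, relNorm R I = n := by
  by_contra h1
  push Not at h1
  exact h (coef_of_empty χ h1)

/-! ### Primes above a prime of `R` -/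

/-- A prime dividing the norm of `I` divides `I` from above. -/
theorem exists_prime_dvd {w : Ideal R} (hw : Prime w) {I : Ideal S} (hI : I ≠ 0)
    (h : w ∣ relNorm R I) : ∃ Q : Ideal S, Prime Q ∧ Q ∣ I ∧ Q ∣ w.map (algebraMap R S) := by
  classical
  induction I using UniqueFactorizationMonoid.induction_on_prime with
  | h₁ => exact absurd rfl hI
  | h₂ x hx =>
    rw [Ideal.isUnit_iff] at hx
    rw [hx, relNorm_top, ← Ideal.one_eq_top] at h
    exact absurd (isUnit_of_dvd_one h) hw.not_isUnit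
  | h₃ J Q hJ hQ ih =>
    rw [map_mul] at h
    rcases hw.dvd_or_dvd h with h1 | h1
    · refine ⟨Q, hQ, dvd_mul_right _ _, ?_⟩
      have hQp : Q.IsPrime := Ideal.isPrime_of_prime hQ
      have h2 : (Q.comap (algebraMap R S)).IsPrime := inferInstance
      have h3 : Q.LiesOver (Q.comap (algebraMap R S)) := ⟨rfl⟩
      obtain ⟨s, hs⟩ := exists_relNorm_eq_pow_of_isPrime (R := R) Q (Q.comap (algebraMap R S))
      rw [hs] at h1
      have h4 := hw.dvd_of_dvd_pow h1
      rw [Ideal.dvd_iff_le] at h4 ⊢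
      have hwp : w.IsPrime := Ideal.isPrime_of_prime hw
      have hne : Q.comap (algebraMap R S) ≠ ⊥ := by
        intro h5
        have h6 : Q = ⊥ := Ideal.eq_bot_of_comap_eq_bot h5
        exact hQ.ne_zero h6
      have h5 : (Q.comap (algebraMap R S)).IsMaximal := h2.isMaximal hne
      have h6 := h5.eq_of_le hwp.ne_top h4
      rw [Ideal.map_le_iff_le_comap, h6]
    · obtain ⟨Q', hQ', h2, h3⟩ := ih hJ h1
      exact ⟨Q', hQ', h2.mul_left _, h3⟩

/-! ### The two types of unramified primes -/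

section Split

variable {w : Ideal R} {P P' : Ideal S}

/-- `w` splits in `S` as `P P'`. -/
structure IsSplit (w : Ideal R) (P P' : Ideal S) : Prop where
  prime : Prime w
  prime_P : Prime P
  prime_P' : Prime P'
  ne : P ≠ P'
  map_eq : w.map (algebraMap R S) = P * P'
  norm_P : relNorm R P = w
  norm_P' : relNorm R P' = w

/-- `w` is inert in `S`. -/
structure IsInert (w : Ideal R) (P : Ideal S) : Prop where
  prime : Prime w
  prime_P : Prime P
  map_eq : w.map (algebraMap R S) = P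
  norm_P : relNorm R P = w * w

theorem mul_mem_normSet {I J : Ideal S} {m n : Ideal R} (hI : relNorm R I = m)
    (hJ : relNorm R J = n) : relNorm R (I * J) = m * n := by
  rw [map_mul, hI, hJ]

/-- the ideals of norm `m n` divisible by `P`, `N P = m` -/
theorem setOf_dvd_eq_image {P : Ideal S} {m n : Ideal R} (hP : relNorm R P = m) (hm : m ≠ 0) :
    {I ∈ normSet (S := S) R (m * n) | P ∣ I} = (fun J => P * J) '' normSet (S := S) R n := by
  ext I
  constructor
  · rintro ⟨h1, J, rfl⟩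
    refine ⟨J, ?_, rfl⟩
    rw [mem_normSet, map_mul, hP] at h1
    exact mul_left_cancel₀ hm h1
  · rintro ⟨J, hJ, rfl⟩
    exact ⟨mul_mem_normSet hP hJ, dvd_mul_right _ _⟩

theorem finsum_image_mul (χ : Ideal S →*₀ ℂ) {P : Ideal S} (hP : P ≠ 0) (n : Ideal R) :
    ∑ᶠ I ∈ (fun J => P * J) '' normSet (S := S) R n, χ I = χ P * coef χ n := by
  rw [finsum_mem_image (fun a _ b _ h => mul_left_cancel₀ hP h), coef]
  by_cases hn : n = 0
  · have h : normSet (S := S) R 0 = {0} := by
      ext I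
      rw [mem_normSet, Set.mem_singleton_iff, Ideal.zero_eq_bot, relNorm_eq_bot_iff,
        Ideal.zero_eq_bot]
    rw [hn, h, finsum_mem_singleton, finsum_mem_singleton, map_mul]
  · rw [mul_finsum_mem]
    exact finsum_mem_congr rfl fun I _ => map_mul _ _ _

theorem IsSplit.dvd_or_dvd (h : IsSplit w P P') {I : Ideal S} (hI : I ≠ 0)
    (hw : w ∣ relNorm R I) : P ∣ I ∨ P' ∣ I := by
  obtain ⟨Q, hQ, h1, h2⟩ := exists_prime_dvd h.prime hI hw
  rw [h.map_eq] at h2
  rcases hQ.dvd_or_dvd h2 with h3 | h3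
  · left
    rwa [← associated_iff_eq.mp (hQ.associated_of_dvd h.prime_P h3)]
  · right
    rwa [← associated_iff_eq.mp (hQ.associated_of_dvd h.prime_P' h3)]

theorem IsSplit.mul_dvd (h : IsSplit w P P') {I : Ideal S} (h1 : P ∣ I) (h2 : P' ∣ I) :
    P * P' ∣ I := by
  obtain ⟨J, rfl⟩ := h2
  rcases h.prime_P.dvd_or_dvd h1 with h3 | h3
  · exact absurd (associated_iff_eq.mp (h.prime_P.associated_of_dvd h.prime_P' h3)) h.ne
  · rw [mul_comm P P']
    exact mul_dvd_mul_left _ h3

/-- **Recursion at a split prime**, first step. -/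
theorem coef_split_of_not_dvd (h : IsSplit w P P') (χ : Ideal S →*₀ ℂ) {n : Ideal R}
    (hn : n ≠ 0) (hwn : ¬ w ∣ n) : coef χ (w * n) = (χ P + χ P') * coef χ n := by
  have hw0 : w ≠ 0 := h.prime.ne_zero
  have hne : w * n ≠ 0 := mul_ne_zero hw0 hn
  have h1 : normSet (S := S) R (w * n) = {I ∈ normSet (S := S) R (w * n) | P ∣ I} ∪
      {I ∈ normSet (S := S) R (w * n) | P' ∣ I} := by
    ext I
    constructor
    · intro hI
      have hI0 : I ≠ 0 := by
        rintro rfl
        rw [mem_normSet, Ideal.zero_eq_bot, relNorm_bot] at hI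
        exact hne hI.symm
      rcases h.dvd_or_dvd hI0 (hI.symm ▸ dvd_mul_right _ _) with h2 | h2
      · exact Or.inl ⟨hI, h2⟩
      · exact Or.inr ⟨hI, h2⟩
    · rintro (h2 | h2)
      exacts [h2.1, h2.1]
  have h2 : Disjoint {I ∈ normSet (S := S) R (w * n) | P ∣ I}
      {I ∈ normSet (S := S) R (w * n) | P' ∣ I} := by
    rw [Set.disjoint_left]
    rintro I ⟨hI, h3⟩ ⟨-, h4⟩
    obtain ⟨J, rfl⟩ := h.mul_dvd h3 h4
    rw [mem_normSet, map_mul, map_mul, h.norm_P, h.norm_P', mul_assoc] at hI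
    exact hwn ⟨_, (mul_left_cancel₀ hw0 hI).symm⟩
  rw [coef, h1, finsum_mem_union h2, setOf_dvd_eq_image h.norm_P hw0,
    setOf_dvd_eq_image h.norm_P' hw0, finsum_image_mul χ h.prime_P.ne_zero,
    finsum_image_mul χ h.prime_P'.ne_zero, add_mul]
  · exact (finite_normSet hne).subset fun I hI => hI.1
  · exact (finite_normSet hne).subset fun I hI => hI.1

/-- **Recursion at a split prime**. -/
theorem coef_split_mul (h : IsSplit w P P') (χ : Ideal S →*₀ ℂ) {n : Ideal R} (hn : n ≠ 0) :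
    coef χ (w * (w * n)) = (χ P + χ P') * coef χ (w * n) - χ (P * P') * coef χ n := by
  have hw0 : w ≠ 0 := h.prime.ne_zero
  have hne : w * (w * n) ≠ 0 := mul_ne_zero hw0 (mul_ne_zero hw0 hn)
  have h1 : normSet (S := S) R (w * (w * n)) = {I ∈ normSet (S := S) R (w * (w * n)) | P ∣ I} ∪
      {I ∈ normSet (S := S) R (w * (w * n)) | P' ∣ I} := by
    ext I
    constructor
    · intro hI
      have hI0 : I ≠ 0 := by
        rintro rfl
        rw [mem_normSet, Ideal.zero_eq_bot, relNorm_bot] at hI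
        exact hne hI.symm
      rcases h.dvd_or_dvd hI0 (hI.symm ▸ dvd_mul_right _ _) with h2 | h2
      · exact Or.inl ⟨hI, h2⟩
      · exact Or.inr ⟨hI, h2⟩
    · rintro (h2 | h2)
      exacts [h2.1, h2.1]
  have h2 : {I ∈ normSet (S := S) R (w * (w * n)) | P ∣ I} ∩
      {I ∈ normSet (S := S) R (w * (w * n)) | P' ∣ I} =
      (fun J => (P * P') * J) '' normSet (S := S) R n := by
    rw [← setOf_dvd_eq_image (mul_mem_normSet h.norm_P h.norm_P') (mul_ne_zero hw0 hw0),
      mul_assoc]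
    ext I
    constructor
    · rintro ⟨⟨hI, h3⟩, -, h4⟩
      exact ⟨hI, h.mul_dvd h3 h4⟩
    · rintro ⟨hI, h3⟩
      exact ⟨⟨hI, (dvd_mul_right _ _).trans h3⟩, hI, (dvd_mul_left _ _).trans h3⟩
  have hf1 : {I ∈ normSet (S := S) R (w * (w * n)) | P ∣ I}.Finite :=
    (finite_normSet hne).subset fun I hI => hI.1
  have hf2 : {I ∈ normSet (S := S) R (w * (w * n)) | P' ∣ I}.Finite :=
    (finite_normSet hne).subset fun I hI => hI.1
  have h3 := finsum_mem_union_inter (f := fun I => χ I) hf1 hf2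
  rw [← h1, h2, finsum_image_mul χ (mul_ne_zero h.prime_P.ne_zero h.prime_P'.ne_zero),
    setOf_dvd_eq_image h.norm_P hw0, setOf_dvd_eq_image h.norm_P' hw0,
    finsum_image_mul χ h.prime_P.ne_zero, finsum_image_mul χ h.prime_P'.ne_zero] at h3
  rw [coef, add_mul]
  exact eq_sub_of_add_eq h3

theorem coef_split (h : IsSplit w P P') (χ : Ideal S →*₀ ℂ) : coef χ w = χ P + χ P' := by
  have h1 := coef_split_of_not_dvd h χ (n := 1) one_ne_zero
    (fun h2 => h.prime.not_isUnit (isUnit_of_dvd_one h2))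
  rwa [mul_one, coef_one, mul_one] at h1

theorem IsInert.dvd (h : IsInert w P) {I : Ideal S} (hI : I ≠ 0) (hw : w ∣ relNorm R I) :
    P ∣ I := by
  obtain ⟨Q, hQ, h1, h2⟩ := exists_prime_dvd h.prime hI hw
  rw [h.map_eq] at h2
  rwa [← associated_iff_eq.mp (hQ.associated_of_dvd h.prime_P h2)]

/-- **Recursion at an inert prime**, first step. -/
theorem coef_inert_of_not_dvd (h : IsInert w P) (χ : Ideal S →*₀ ℂ) {n : Ideal R} (hn : n ≠ 0)
    (hwn : ¬ w ∣ n) : coef χ (w * n) = 0 := by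
  refine coef_of_empty χ fun I hI => ?_
  have hw0 : w ≠ 0 := h.prime.ne_zero
  have hI0 : I ≠ 0 := by
    rintro rfl
    rw [Ideal.zero_eq_bot, relNorm_bot] at hI
    exact mul_ne_zero hw0 hn hI.symm
  obtain ⟨J, rfl⟩ := h.dvd hI0 (hI.symm ▸ dvd_mul_right _ _)
  rw [map_mul, h.norm_P, mul_assoc] at hI
  exact hwn ⟨_, (mul_left_cancel₀ hw0 hI).symm⟩

/-- **Recursion at an inert prime**. -/
theorem coef_inert_mul (h : IsInert w P) (χ : Ideal S →*₀ ℂ) {n : Ideal R} (hn : n ≠ 0) :
    coef χ (w * (w * n)) = χ P * coef χ n := by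
  have hw0 : w ≠ 0 := h.prime.ne_zero
  have hne : w * (w * n) ≠ 0 := mul_ne_zero hw0 (mul_ne_zero hw0 hn)
  have h1 : normSet (S := S) R (w * (w * n)) =
      {I ∈ normSet (S := S) R (w * w * n) | P ∣ I} := by
    ext I
    constructor
    · intro hI
      have hI0 : I ≠ 0 := by
        rintro rfl
        rw [mem_normSet, Ideal.zero_eq_bot, relNorm_bot] at hI
        exact hne hI.symm
      exact ⟨by rwa [mul_assoc], h.dvd hI0 (hI.symm ▸ dvd_mul_right _ _)⟩
    · rintro ⟨hI, -⟩
      rwa [mul_assoc] at hI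
  rw [coef, h1, setOf_dvd_eq_image h.norm_P (mul_ne_zero hw0 hw0),
    finsum_image_mul χ h.prime_P.ne_zero]

theorem coef_inert (h : IsInert w P) (χ : Ideal S →*₀ ℂ) : coef χ w = 0 := by
  have h1 := coef_inert_of_not_dvd h χ (n := 1) one_ne_zero
    (fun h2 => h.prime.not_isUnit (isUnit_of_dvd_one h2))
  rwa [mul_one] at h1

/-- The norm of a prime over a maximal ideal is a positive power. -/
theorem exists_relNorm_eq_pow {w : Ideal R} (hw : Prime w) {P : Ideal S} (hP : Prime P)
    (h : P ∣ w.map (algebraMap R S)) : ∃ s, s ≠ 0 ∧ relNorm R P = w ^ s := by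
  have hwp : w.IsPrime := Ideal.isPrime_of_prime hw
  have hPp : P.IsPrime := Ideal.isPrime_of_prime hP
  have hwm : w.IsMaximal := hwp.isMaximal hw.ne_zero
  have h1 : w ≤ P.comap (algebraMap R S) := by
    rwa [Ideal.dvd_iff_le, Ideal.map_le_iff_le_comap] at h
  have h2 : (P.comap (algebraMap R S)).IsPrime := inferInstance
  have h3 : P.LiesOver w := ⟨hwm.eq_of_le h2.ne_top h1⟩
  obtain ⟨s, hs⟩ := exists_relNorm_eq_pow_of_isPrime (R := R) P w
  refine ⟨s, ?_, hs⟩
  rintro rfl
  rw [pow_zero] at hs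
  exact hP.not_isUnit (by rw [relNorm_eq_one_iff.mp hs]; exact isUnit_one)

theorem pow_injective_of_prime {w : Ideal R} (hw : Prime w) {a b : ℕ} (h : w ^ a = w ^ b) :
    a = b := by
  rcases lt_trichotomy a b with h1 | h1 | h1
  · have h2 := (pow_dvd_pow_iff hw.ne_zero hw.not_isUnit).mp h.symm.dvd
    omega
  · exact h1
  · have h2 := (pow_dvd_pow_iff hw.ne_zero hw.not_isUnit).mp h.dvd
    omega

theorem IsSplit.mk' (hrank : finrank R S = 2) {w : Ideal R} (hw : Prime w) {P P' : Ideal S}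
    (hP : Prime P) (hP' : Prime P') (hne : P ≠ P') (h : w.map (algebraMap R S) = P * P') :
    IsSplit w P P' := by
  obtain ⟨s, hs0, hs⟩ := exists_relNorm_eq_pow hw hP (h ▸ dvd_mul_right _ _)
  obtain ⟨s', hs0', hs'⟩ := exists_relNorm_eq_pow hw hP' (h ▸ dvd_mul_left _ _)
  have h1 := relNorm_algebraMap S w
  rw [h, map_mul, hs, hs', ← pow_add, hrank] at h1
  have h2 := pow_injective_of_prime hw h1
  obtain rfl : s = 1 := by omega
  obtain rfl : s' = 1 := by omega
  exact ⟨hw, hP, hP', hne, h, by rw [hs, pow_one], by rw [hs', pow_one]⟩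

theorem IsInert.mk' (hrank : finrank R S = 2) {w : Ideal R} (hw : Prime w)
    (hP : Prime (w.map (algebraMap R S))) : IsInert w (w.map (algebraMap R S)) := by
  refine ⟨hw, hP, rfl, ?_⟩
  rw [relNorm_algebraMap, hrank, pow_two]

end Split

/-! ### The unified recursion -/

/-- `w` is unramified in `S` and `χ (w S) = ±1` is the splitting character. -/
structure IsGoodFor (χ : Ideal S →*₀ ℂ) (w : Ideal R) (a : ℂ) : Prop where
  prime : Prime w
  coef_eq : coef χ w = a
  mul_of_not_dvd : ∀ n : Ideal R, n ≠ 0 → ¬ w ∣ n → coef χ (w * n) = a * coef χ n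
  mul : ∀ n : Ideal R, n ≠ 0 → coef χ (w * (w * n)) = a * coef χ (w * n) - coef χ n

theorem IsSplit.isGoodFor {w : Ideal R} {P P' : Ideal S} (h : IsSplit w P P')
    {χ : Ideal S →*₀ ℂ} (hχ : χ (P * P') = 1) : IsGoodFor χ w (χ P + χ P') where
  prime := h.prime
  coef_eq := coef_split h χ
  mul_of_not_dvd n hn hwn := coef_split_of_not_dvd h χ hn hwn
  mul n hn := by rw [coef_split_mul h χ hn, hχ, one_mul]

theorem IsInert.isGoodFor {w : Ideal R} {P : Ideal S} (h : IsInert w P)
    {χ : Ideal S →*₀ ℂ} (hχ : χ P = -1) : IsGoodFor χ w 0 where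
  prime := h.prime
  coef_eq := coef_inert h χ
  mul_of_not_dvd n hn hwn := by rw [coef_inert_of_not_dvd h χ hn hwn, zero_mul]
  mul n hn := by rw [coef_inert_mul h χ hn, hχ]; ring

/-! ### Bounds -/

theorem norm_coef_le (χ : Ideal S →*₀ ℂ) (hχ : ∀ I, ‖χ I‖ ≤ 1) {n : Ideal R} (hn : n ≠ 0) :
    ‖coef χ n‖ ≤ (normSet (S := S) R n).ncard := by
  have hf := finite_normSet (S := S) hn
  rw [coef, finsum_mem_eq_finite_toFinset_sum _ hf, Set.ncard_eq_toFinset_card _ hf]
  refine (norm_sum_le _ _).trans ?_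
  refine (Finset.sum_le_sum fun I _ => hχ I).trans ?_
  rw [Finset.sum_const, nsmul_eq_mul, mul_one]

/-! ### Fractional ideals -/

section Fractional

open scoped nonZeroDivisors

variable {K : Type*} [Field K] [Algebra R K] [IsFractionRing R K]

/-- extension of `coef` by zero to fractional ideals -/
noncomputable def cf (χ : Ideal S →*₀ ℂ) (J : FractionalIdeal R⁰ K) : ℂ :=
  open Classical in
  if h : ∃ n : Ideal R, (n : FractionalIdeal R⁰ K) = J then coef χ h.choose else 0

theorem cf_coe (χ : Ideal S →*₀ ℂ) (n : Ideal R) :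
    cf χ (n : FractionalIdeal R⁰ K) = coef χ n := by
  have h : ∃ n' : Ideal R, (n' : FractionalIdeal R⁰ K) = n := ⟨n, rfl⟩
  rw [cf, dif_pos h]
  congr 1
  exact FractionalIdeal.coeIdeal_injective h.choose_spec

theorem cf_of_not_le (χ : Ideal S →*₀ ℂ) {J : FractionalIdeal R⁰ K} (h : ¬ J ≤ 1) :
    cf χ J = 0 := by
  rw [cf, dif_neg]
  rintro ⟨n, rfl⟩
  exact h FractionalIdeal.coeIdeal_le_one

theorem cf_zero (χ : Ideal S →*₀ ℂ) : cf χ (0 : FractionalIdeal R⁰ K) = 0 := by
  rw [← FractionalIdeal.coeIdeal_bot, cf_coe, ← Ideal.zero_eq_bot, coef_zero]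

theorem cf_one (χ : Ideal S →*₀ ℂ) : cf (R := R) χ (1 : FractionalIdeal R⁰ K) = 1 := by
  rw [← FractionalIdeal.coeIdeal_top, cf_coe, ← Ideal.one_eq_top, coef_one]

open IsDedekindDomain FractionalIdeal

theorem le_one_of_count_nonneg {J : FractionalIdeal R⁰ K} (hJ : J ≠ 0)
    (h : ∀ v : HeightOneSpectrum R, 0 ≤ count K v J) : J ≤ 1 := by
  rw [← finprod_heightOneSpectrum_factorization' K hJ]
  have hle : ∀ v : HeightOneSpectrum R,
      (v.asIdeal : FractionalIdeal R⁰ K) ^ (count K v J) ≤ 1 := by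
    intro v
    obtain ⟨n, hn⟩ := Int.eq_ofNat_of_zero_le (h v)
    rw [hn, zpow_natCast, ← coeIdeal_pow]
    exact coeIdeal_le_one
  exact finprod_induction (p := fun x : FractionalIdeal R⁰ K => x ≤ 1) le_rfl
    (fun x y hx hy => mul_le_one' hx hy) hle

theorem not_le_one_of_count_neg {J : FractionalIdeal R⁰ K} {v : HeightOneSpectrum R}
    (h : count K v J < 0) : ¬ J ≤ 1 := by
  intro h1
  obtain ⟨n, rfl⟩ := le_one_iff_exists_coeIdeal.mp h1
  exact absurd (count_coe_nonneg K v n) (not_le.mpr h)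

/-- **Recursion** for fractional ideals which are integral at `v`. -/
theorem cf_mul {χ : Ideal S →*₀ ℂ} {v : HeightOneSpectrum R} {a : ℂ}
    (h : IsGoodFor χ v.asIdeal a) {J : FractionalIdeal R⁰ K} (hJ : J ≠ 0)
    (hv : 0 ≤ count K v J) :
    cf χ ((v.asIdeal : FractionalIdeal R⁰ K) * J) =
      a * cf χ J - cf χ ((v.asIdeal : FractionalIdeal R⁰ K)⁻¹ * J) := by
  have hv0 : (v.asIdeal : FractionalIdeal R⁰ K) ≠ 0 := coeIdeal_ne_zero.mpr v.ne_bot
  by_cases h1 : J ≤ 1
  · obtain ⟨n, rfl⟩ := le_one_iff_exists_coeIdeal.mp h1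
    have hn : n ≠ 0 := coeIdeal_ne_zero.mp hJ
    rw [← coeIdeal_mul, cf_coe, cf_coe]
    by_cases h2 : v.asIdeal ∣ n
    · obtain ⟨m, rfl⟩ := h2
      rw [coeIdeal_mul, inv_mul_cancel_left₀ hv0, cf_coe]
      exact h.mul m (right_ne_zero_of_mul hn)
    · rw [h.mul_of_not_dvd n hn h2, cf_of_not_le, sub_zero]
      intro h3
      obtain ⟨m, hm⟩ := le_one_iff_exists_coeIdeal.mp h3
      refine h2 ⟨m, ?_⟩
      refine coeIdeal_injective (K := K) ?_
      change (n : FractionalIdeal R⁰ K) = ((v.asIdeal * m : Ideal R) : FractionalIdeal R⁰ K)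
      rw [coeIdeal_mul, hm, mul_inv_cancel_left₀ hv0]
  · obtain ⟨v', hv'⟩ : ∃ v' : HeightOneSpectrum R, count K v' J < 0 := by
      by_contra h2
      push Not at h2
      exact h1 (le_one_of_count_nonneg hJ h2)
    have hne : v ≠ v' := by
      rintro rfl
      exact absurd hv (not_le.mpr hv')
    have h2 : count K v' (v.asIdeal : FractionalIdeal R⁰ K) = 0 :=
      count_maximal_coprime K v' hne
    rw [cf_of_not_le χ h1, cf_of_not_le, cf_of_not_le, mul_zero, sub_zero]
    · refine not_le_one_of_count_neg (v := v') ?_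
      rwa [count_mul K v' (inv_ne_zero hv0) hJ, count_inv, h2, neg_zero, zero_add]
    · refine not_le_one_of_count_neg (v := v') ?_
      rwa [count_mul K v' hv0 hJ, h2, zero_add]

end Fractional

end Fermat.Agent.H33D
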