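import Mathlib

/-!
# Unfolding of a sum over a free `Γ`-set against an integral with a cut-off weight

Package D-UNIT, parts (c) and (d).

* `lintegral_unfold`, `integral_unfold`: `Γ` acts on a measure space `S` (measure preserving) and on
  `X`; `r : I → X` are representatives of the (free) orbits; `c` is a weight with
  `∑ g, c (g • s) = 1`. Then `∫ c(s) ∑_x f x s = ∑_i ∫ f (r i) s`.
* `exists_cutoff`: continuous compactly supported cut-off weight on `J → ℝ` for a group acting by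
  translations through `Λ : Γ → (J → ℝ)`, cocompact and with finiteness on boxes.
* `integral_unfold_log`, `integral_unfold_exp`, `integral_unfold_field`: versions in logarithmic
  coordinates, in multiplicative coordinates and for a field.
-/

set_option autoImplicit false

namespace Fermat.Agent.H87U

open MeasureTheory Set
open scoped ENNReal

section General

variable {Γ : Type*} [Group Γ] {X S : Type*} [MulAction Γ X] [MulAction Γ S] [MeasurableSpace S]
  {μ : Measure S} {I : Type*} {r : I → X}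

/-- Representatives of a free action: the equivalence `Γ × I ≃ X`. -/
noncomputable def repEquiv (hr : Function.Bijective fun p : Γ × I => p.1 • r p.2) : Γ × I ≃ X :=
  Equiv.ofBijective _ hr

theorem repEquiv_apply (hr : Function.Bijective fun p : Γ × I => p.1 • r p.2) (p : Γ × I) :
    repEquiv hr p = p.1 • r p.2 := rfl

/-- For a free action the representatives `Quotient.out` of the orbits parametrise everything. -/
theorem bijective_out (hfree : ∀ (g : Γ) (x : X), g • x = x → g = 1) :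
    Function.Bijective fun p : Γ × MulAction.orbitRel.Quotient Γ X => p.1 • Quotient.out p.2 := by
  constructor
  · rintro ⟨g, o⟩ ⟨g', o'⟩ h
    simp only at h
    have ho : o = o' := by
      rw [← Quotient.out_eq o, ← Quotient.out_eq o']
      apply Quotient.sound
      change Quotient.out o ∈ MulAction.orbit Γ (Quotient.out o')
      exact ⟨g⁻¹ * g', by
        change (g⁻¹ * g') • Quotient.out o' = Quotient.out o
        rw [mul_smul, ← h, inv_smul_smul]⟩
    subst ho
    have : (g'⁻¹ * g) • Quotient.out o = Quotient.out o := by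
      rw [mul_smul, h, inv_smul_smul]
    have h1 := hfree _ _ this
    rw [inv_mul_eq_one] at h1
    rw [h1]
  · intro x
    have hx : x ∈ MulAction.orbit Γ (Quotient.out (Quotient.mk (MulAction.orbitRel Γ X) x)) := by
      have := Quotient.mk_out (s := MulAction.orbitRel Γ X) x
      have h2 : Quotient.out (Quotient.mk (MulAction.orbitRel Γ X) x) ∈ MulAction.orbit Γ x := this
      exact MulAction.mem_orbit_symm.mp h2
    obtain ⟨g, hg⟩ := hx
    exact ⟨(g, Quotient.mk _ x), hg⟩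

/-- **Unfolding**, version with values in `[0, ∞]`. -/
theorem lintegral_unfold [Countable Γ] [Countable I]
    (hr : Function.Bijective fun p : Γ × I => p.1 • r p.2)
    (hμ : ∀ g : Γ, MeasurePreserving (fun s : S => g • s) μ μ)
    {c : S → ℝ≥0∞} (hc : Measurable c) (hsum : ∀ s, ∑' g : Γ, c (g • s) = 1)
    {f : X → S → ℝ≥0∞} (hf : ∀ x, AEMeasurable (f x) μ)
    (hinv : ∀ (g : Γ) x s, f (g • x) (g • s) = f x s) :
    ∫⁻ s, c s * ∑' x, f x s ∂μ = ∑' i, ∫⁻ s, f (r i) s ∂μ := by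
  have h1 : ∀ s, c s * ∑' x, f x s = ∑' p : Γ × I, c s * f (p.1 • r p.2) s := by
    intro s
    rw [← ENNReal.tsum_mul_left, ← (repEquiv hr).tsum_eq]
    rfl
  simp only [h1]
  have hmp : ∀ p : Γ × I, AEMeasurable (fun s => c s * f (p.1 • r p.2) s) μ := fun p =>
    hc.aemeasurable.mul (hf _)
  rw [lintegral_tsum hmp,
    ENNReal.tsum_prod (f := fun (g : Γ) (i : I) => ∫⁻ s, c s * f (g • r i) s ∂μ),
    ENNReal.tsum_comm]
  congr 1
  ext i
  have h2 : ∀ g : Γ, ∫⁻ s, c s * f (g • r i) s ∂μ = ∫⁻ s, c (g • s) * f (r i) s ∂μ := by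
    intro g
    have hm : AEMeasurable (fun s => c s * f (g • r i) s) (Measure.map (fun s => g • s) μ) := by
      rw [(hμ g).map_eq]; exact hc.aemeasurable.mul (hf _)
    have := lintegral_map' hm (hμ g).aemeasurable
    rw [(hμ g).map_eq] at this
    rw [this]
    simp only [hinv]
  simp only [h2]
  rw [← lintegral_tsum]
  · congr 1
    ext s
    rw [ENNReal.tsum_mul_right, hsum s, one_mul]
  · intro g
    exact (hc.comp (hμ g).measurable).aemeasurable.mul (hf _)

end General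

section Tsum

variable {X S : Type*} [MeasurableSpace S] {μ : Measure S}
variable {E : Type*} [NormedAddCommGroup E] [NormedSpace ℝ E]

omit [NormedSpace ℝ E] in
theorem integrable_tsum [Countable X] {F : X → S → E}
    (hF : ∀ x, AEStronglyMeasurable (F x) μ) (hfin : ∑' x, ∫⁻ s, ‖F x s‖ₑ ∂μ ≠ ∞)
    [CompleteSpace E] : Integrable (fun s => ∑' x, F x s) μ := by
  have hlt : ∫⁻ s, ∑' x, ‖F x s‖ₑ ∂μ ≠ ∞ := by
    rw [lintegral_tsum fun x => (hF x).enorm]; exact hfin
  have hm0 : AEMeasurable (fun s => ∑' x, ‖F x s‖ₑ) μ :=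
    AEMeasurable.tsum fun x => (hF x).enorm
  refine ⟨?_, lt_of_le_of_lt (lintegral_mono fun s => enorm_tsum_le_tsum_enorm)
    (lt_top_iff_ne_top.mpr hlt)⟩
  have hae : ∀ᵐ s ∂μ, ∑' x, ‖F x s‖ₑ < ∞ := ae_lt_top' hm0 hlt
  have hae2 : ∀ᵐ s ∂μ, Filter.Tendsto (fun t : Finset X => ∑ x ∈ t, F x s) Filter.atTop
      (nhds (∑' x, F x s)) := by
    filter_upwards [hae] with s hs
    have h1 : Summable fun x => (‖F x s‖ₑ).toReal := ENNReal.summable_toReal hs.ne
    have h2 : Summable fun x => ‖F x s‖ := by simpa using h1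
    exact h2.of_norm.hasSum
  exact aestronglyMeasurable_of_tendsto_ae (Filter.atTop : Filter (Finset X))
    (f := fun (t : Finset X) s => ∑ x ∈ t, F x s)
    (fun t => Finset.aestronglyMeasurable_fun_sum _ fun x _ => hF x) hae2

omit [NormedSpace ℝ E] in
theorem integrable_of_tsum {F : X → S → E}
    (hF : ∀ x, AEStronglyMeasurable (F x) μ) (hfin : ∑' x, ∫⁻ s, ‖F x s‖ₑ ∂μ ≠ ∞) (x : X) :
    Integrable (F x) μ :=
  ⟨hF x, lt_of_le_of_lt (ENNReal.le_tsum (f := fun x => ∫⁻ s, ‖F x s‖ₑ ∂μ) x)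
    (lt_top_iff_ne_top.mpr hfin)⟩

theorem summable_integral [CompleteSpace E] {F : X → S → E}
    (hF : ∀ x, AEStronglyMeasurable (F x) μ) (hfin : ∑' x, ∫⁻ s, ‖F x s‖ₑ ∂μ ≠ ∞) :
    Summable fun x => ∫ s, F x s ∂μ := by
  have h3 : Summable fun x => (∫⁻ s, ‖F x s‖ₑ ∂μ).toReal := ENNReal.summable_toReal hfin
  refine Summable.of_norm_bounded h3 fun x => ?_
  have h4 : (∫⁻ s, ‖F x s‖ₑ ∂μ) ≠ ∞ := (integrable_of_tsum hF hfin x).2.ne
  calc ‖∫ s, F x s ∂μ‖ = (‖∫ s, F x s ∂μ‖ₑ).toReal := by simp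
    _ ≤ _ := ENNReal.toReal_mono h4 (enorm_integral_le_lintegral_enorm _)

end Tsum

section General2

variable {Γ : Type*} [Group Γ] {X S : Type*} [MulAction Γ X] [MulAction Γ S] [MeasurableSpace S]
  {μ : Measure S} {I : Type*} {r : I → X}
variable {E : Type*} [NormedAddCommGroup E] [NormedSpace ℝ E]

theorem integral_smul_left {c : S → ℝ} (hc : Measurable c)
    (hμ : ∀ g : Γ, MeasurePreserving (fun s : S => g • s) μ μ)
    {f : X → S → E} (hf : ∀ x, AEStronglyMeasurable (f x) μ)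
    (hinv : ∀ (g : Γ) x s, f (g • x) (g • s) = f x s) (g : Γ) (x : X) :
    ∫ s, c s • f (g • x) s ∂μ = ∫ s, c (g • s) • f x s ∂μ := by
  have hm : AEStronglyMeasurable (fun s => c s • f (g • x) s)
      (Measure.map (fun s => g • s) μ) := by
    rw [(hμ g).map_eq]; exact hc.aestronglyMeasurable.smul (hf _)
  have := integral_map (hμ g).aemeasurable hm
  rw [(hμ g).map_eq] at this
  rw [this]
  simp only [hinv]

omit [NormedSpace ℝ E] in
/-- Summation along orbits. -/
theorem tsum_orbits [CompleteSpace E] (hr : Function.Bijective fun p : Γ × I => p.1 • r p.2)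
    {F : X → E} (hF : Summable F) :
    Summable (fun i => ∑' g : Γ, F (g • r i)) ∧ ∑' x, F x = ∑' i, ∑' g : Γ, F (g • r i) := by
  have h6 : Summable fun p : Γ × I => F (p.1 • r p.2) := hF.comp_injective hr.1
  have h7 : Summable fun p : I × Γ => F (p.2 • r p.1) :=
    h6.comp_injective (Equiv.prodComm I Γ).injective
  refine ⟨h7.prod, ?_⟩
  rw [← h7.tsum_prod, ← (repEquiv hr).tsum_eq, ← (Equiv.prodComm I Γ).tsum_eq]
  rfl

/-- The orbit of one point. -/
theorem tsum_integral_smul [Countable Γ] [CompleteSpace E]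
    (hμ : ∀ g : Γ, MeasurePreserving (fun s : S => g • s) μ μ)
    {c : S → ℝ} (hc : Measurable c) (hc0 : ∀ s, 0 ≤ c s) (hsum : ∀ s, HasSum (fun g : Γ => c (g • s)) 1)
    {f : X → S → E} (hf : ∀ x, AEStronglyMeasurable (f x) μ)
    (hinv : ∀ (g : Γ) x s, f (g • x) (g • s) = f x s) (x : X) (hx : Integrable (f x) μ) :
    ∑' g : Γ, ∫ s, c s • f (g • x) s ∂μ = ∫ s, f x s ∂μ := by
  have h0 : ∀ g : Γ, ∫ s, c s • f (g • x) s ∂μ = ∫ s, c (g • s) • f x s ∂μ :=
    fun g => integral_smul_left hc hμ hf hinv g x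
  simp only [h0]
  have hm2 : ∀ g : Γ, AEStronglyMeasurable (fun s => c (g • s) • f x s) μ := fun g =>
    (hc.comp (hμ g).measurable).aestronglyMeasurable.smul (hf _)
  have hfin3 : ∑' g : Γ, ∫⁻ s, ‖c (g • s) • f x s‖ₑ ∂μ ≠ ∞ := by
    rw [← lintegral_tsum (fun g => (hm2 g).enorm)]
    have : ∀ s, ∑' g : Γ, ‖c (g • s) • f x s‖ₑ = ‖f x s‖ₑ := by
      intro s
      have h5 : ∀ g : Γ, ‖c (g • s) • f x s‖ₑ = ENNReal.ofReal (c (g • s)) * ‖f x s‖ₑ := fun g => by
        rw [enorm_smul, Real.enorm_eq_ofReal (hc0 _)]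
      simp only [h5]
      rw [ENNReal.tsum_mul_right, ← ENNReal.ofReal_tsum_of_nonneg (fun g => hc0 _) (hsum s).summable,
        (hsum s).tsum_eq, ENNReal.ofReal_one, one_mul]
    simp only [this]
    exact hx.2.ne
  rw [← integral_tsum hm2 hfin3]
  congr 1
  ext s
  rw [(hsum s).summable.tsum_smul_const, (hsum s).tsum_eq, one_smul]

/-- **Unfolding**, Bochner version. -/
theorem integral_unfold [CompleteSpace E] [Countable Γ] [Countable I]
    (hr : Function.Bijective fun p : Γ × I => p.1 • r p.2)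
    (hμ : ∀ g : Γ, MeasurePreserving (fun s : S => g • s) μ μ)
    {c : S → ℝ} (hc : Measurable c) (hc0 : ∀ s, 0 ≤ c s) (hsum : ∀ s, HasSum (fun g : Γ => c (g • s)) 1)
    {f : X → S → E} (hf : ∀ x, AEStronglyMeasurable (f x) μ)
    (hinv : ∀ (g : Γ) x s, f (g • x) (g • s) = f x s)
    (hfin : ∑' i, ∫⁻ s, ‖f (r i) s‖ₑ ∂μ ≠ ∞) :
    Integrable (fun s => c s • ∑' x, f x s) μ ∧ Summable (fun i => ∫ s, f (r i) s ∂μ) ∧
      ∫ s, c s • ∑' x, f x s ∂μ = ∑' i, ∫ s, f (r i) s ∂μ := by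
  have hX : Countable X := (repEquiv hr).symm.injective.countable
  have hCe : ∀ s, ‖c s‖ₑ = ENNReal.ofReal (c s) := fun s => by
    rw [Real.enorm_eq_ofReal (hc0 s)]
  have hCsum : ∀ s, ∑' g : Γ, ENNReal.ofReal (c (g • s)) = 1 := by
    intro s
    rw [← ENNReal.ofReal_tsum_of_nonneg (fun g => hc0 _) (hsum s).summable, (hsum s).tsum_eq,
      ENNReal.ofReal_one]
  have hlin : ∫⁻ s, ENNReal.ofReal (c s) * ∑' x, ‖f x s‖ₑ ∂μ = ∑' i, ∫⁻ s, ‖f (r i) s‖ₑ ∂μ :=
    lintegral_unfold (f := fun x s => ‖f x s‖ₑ) hr hμ (ENNReal.measurable_ofReal.comp hc) hCsum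
    (fun x => (hf x).enorm) (fun g x s => by simp only [hinv])
  have hsm : ∀ x, AEStronglyMeasurable (fun s => c s • f x s) μ := fun x =>
    hc.aestronglyMeasurable.smul (hf x)
  have hfin2 : ∑' x, ∫⁻ s, ‖c s • f x s‖ₑ ∂μ ≠ ∞ := by
    rw [← lintegral_tsum fun x => (hsm x).enorm]
    have h5 : ∀ s, ∑' x, ‖c s • f x s‖ₑ = ENNReal.ofReal (c s) * ∑' x, ‖f x s‖ₑ := by
      intro s
      rw [← ENNReal.tsum_mul_left]
      congr 1; ext x
      rw [enorm_smul, hCe]
    simp only [h5]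
    rw [hlin]; exact hfin
  have hpull : ∀ s, c s • ∑' x, f x s = ∑' x, c s • f x s := fun s => (tsum_const_smul'' _).symm
  have hint := integrable_tsum hsm hfin2
  have hsummable := summable_integral hsm hfin2
  have horb : ∀ i, ∑' g : Γ, ∫ s, c s • f (g • r i) s ∂μ = ∫ s, f (r i) s ∂μ := fun i =>
    tsum_integral_smul hμ hc hc0 hsum hf hinv (r i)
      (integrable_of_tsum (F := fun i => f (r i)) (fun i => hf _) hfin i)
  have hI := tsum_orbits hr hsummable
  refine ⟨?_, ?_, ?_⟩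
  · simp only [hpull]; exact hint
  · have h8 := hI.1
    simp only [horb] at h8
    exact h8
  · simp only [hpull]
    rw [integral_tsum hsm hfin2, hI.2]
    simp only [horb]

end General2

section Log

variable {Γ : Type*} [Group Γ] {J : Type*}

theorem map_one_zero {Λ : Γ → J → ℝ} (hΛ : ∀ a b, Λ (a * b) = Λ a + Λ b) : Λ 1 = 0 := by
  have h := hΛ 1 1
  rw [one_mul] at h
  exact left_eq_add.mp h

theorem map_inv_neg {Λ : Γ → J → ℝ} (hΛ : ∀ a b, Λ (a * b) = Λ a + Λ b) (a : Γ) :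
    Λ a⁻¹ = - Λ a := by
  have h := hΛ a⁻¹ a
  rw [inv_mul_cancel, map_one_zero hΛ] at h
  exact eq_neg_of_add_eq_zero_left h.symm

/-- The action of `Γ` on `J → ℝ` by `g • s = s - Λ g`. -/
@[reducible] def logAction {Λ : Γ → J → ℝ} (hΛ : ∀ a b, Λ (a * b) = Λ a + Λ b) :
    MulAction Γ (J → ℝ) where
  smul g s := s - Λ g
  one_smul s := by
    change s - Λ 1 = s
    rw [map_one_zero hΛ, sub_zero]
  mul_smul a b s := by
    change s - Λ (a * b) = s - Λ b - Λ a
    rw [hΛ]; abel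

variable [Fintype J]

/-- **Cut-off weight** for a group acting by translations. -/
theorem exists_cutoff {Λ : Γ → J → ℝ} (hΛ : ∀ a b, Λ (a * b) = Λ a + Λ b)
    (ha : ∃ C : ℝ, ∀ s : J → ℝ, ∃ u, ∀ j, |s j + Λ u j| ≤ C)
    (hb : ∀ C : ℝ, {u | ∀ j, |Λ u j| ≤ C}.Finite) :
    ∃ (c : (J → ℝ) → ℝ) (R : ℝ), Continuous c ∧ (∀ s, 0 ≤ c s) ∧ (∀ s, c s ≤ 1) ∧
      (∀ s, (∃ j, R < |s j|) → c s = 0) ∧ HasCompactSupport c ∧
      ∀ s, HasSum (fun u => c (s + Λ u)) 1 := by
  obtain ⟨C0, hC0⟩ := ha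
  set C : ℝ := max C0 0 with hCdef
  have hCnn : 0 ≤ C := le_max_right _ _
  have hC : ∀ s : J → ℝ, ∃ u, ‖s + Λ u‖ ≤ C := by
    intro s
    obtain ⟨u, hu⟩ := hC0 s
    refine ⟨u, (pi_norm_le_iff_of_nonneg hCnn).2 fun j => ?_⟩
    rw [Real.norm_eq_abs]
    exact (hu j).trans (le_max_left _ _)
  have hfinn : ∀ D : ℝ, {u | ‖Λ u‖ ≤ D}.Finite := by
    intro D
    refine (hb D).subset fun u hu j => ?_
    exact (norm_le_pi_norm (Λ u) j).trans hu
  set w : (J → ℝ) → ℝ := fun s => max 0 (C + 1 - ‖s‖) with hw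
  have hwc : Continuous w := by
    rw [hw]; fun_prop
  have hw0 : ∀ s, 0 ≤ w s := fun s => le_max_left _ _
  have hwz : ∀ s, C + 1 ≤ ‖s‖ → w s = 0 := fun s hs => max_eq_left (by linarith)
  have hw1 : ∀ s, ‖s‖ ≤ C → 1 ≤ w s := fun s hs => le_max_of_le_right (by linarith)
  have hlf : LocallyFinite fun u : Γ => Function.support fun s : J → ℝ => w (s + Λ u) := by
    intro s0
    refine ⟨Metric.ball s0 1, Metric.ball_mem_nhds _ one_pos, ?_⟩
    refine (hfinn (C + 2 + ‖s0‖)).subset ?_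
    rintro u ⟨s, hs1, hs2⟩
    have h1 : ‖s + Λ u‖ < C + 1 := by
      by_contra hcon
      exact hs1 (hwz _ (not_lt.mp hcon))
    have h2 : ‖s‖ ≤ ‖s0‖ + 1 := by
      have := norm_sub_norm_le s s0
      rw [Metric.mem_ball, dist_eq_norm] at hs2
      linarith
    have h3 : ‖Λ u‖ ≤ ‖s + Λ u‖ + ‖s‖ := by
      have := norm_sub_le (s + Λ u) s
      rwa [add_sub_cancel_left] at this
    change ‖Λ u‖ ≤ _
    linarith
  have hptf : ∀ s, (Function.support fun u : Γ => w (s + Λ u)).Finite := fun s => hlf.point_finite s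
  set W : (J → ℝ) → ℝ := fun s => ∑ᶠ u, w (s + Λ u) with hWdef
  have hWc : Continuous W := continuous_finsum (fun u => by fun_prop) hlf
  have hWge : ∀ s u, w (s + Λ u) ≤ W s := fun s u =>
    single_le_finsum u (hptf s) fun v => hw0 _
  have hWpos : ∀ s, 0 < W s := by
    intro s
    obtain ⟨u, hu⟩ := hC s
    linarith [hw1 _ hu, hWge s u]
  have hWinv : ∀ s u, W (s + Λ u) = W s := by
    intro s u
    have h1 : ∀ v, w (s + Λ u + Λ v) = w (s + Λ ((Equiv.mulLeft u) v)) := by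
      intro v
      rw [Equiv.coe_mulLeft, hΛ, add_assoc]
    simp only [hWdef, h1]
    exact finsum_comp_equiv (Equiv.mulLeft u) (f := fun v => w (s + Λ v))
  have hsupp : ∀ s, C + 1 ≤ ‖s‖ → w s / W s = 0 := fun s hs => by rw [hwz s hs, zero_div]
  refine ⟨fun s => w s / W s, C + 1, hwc.div hWc fun s => (hWpos s).ne', fun s =>
    div_nonneg (hw0 s) (hWpos s).le, fun s => ?_, ?_, ?_, fun s => ?_⟩
  · rw [div_le_one (hWpos s)]
    have := hWge s 1
    rwa [map_one_zero hΛ, add_zero] at this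
  · rintro s ⟨j, hj⟩
    exact hsupp s (hj.le.trans (norm_le_pi_norm s j))
  · refine HasCompactSupport.of_support_subset_isCompact (isCompact_closedBall (0 : J → ℝ) (C + 1))
      fun s hs => ?_
    rw [mem_closedBall_zero_iff]
    by_contra hcon
    exact hs (hsupp s (not_le.mp hcon).le)
  · have h1 : (fun u => w (s + Λ u) / W (s + Λ u)) = fun u => w (s + Λ u) / W s := by
      ext u; rw [hWinv]
    simp only [h1]
    have h2 : HasSum (fun u => w (s + Λ u)) (W s) := by
      have h3 : HasSum (fun u => w (s + Λ u)) (∑ u ∈ (hptf s).toFinset, w (s + Λ u)) :=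
        hasSum_sum_of_ne_finset_zero fun u hu => by
          by_contra hcon
          exact hu ((hptf s).mem_toFinset.2 hcon)
      rwa [← finsum_eq_sum_of_support_toFinset_subset _ (hptf s) subset_rfl] at h3
    have h4 := h2.div_const (W s)
    rwa [div_self (hWpos s).ne'] at h4

variable {X I : Type*} [MulAction Γ X] {r : I → X}
variable {E : Type*} [NormedAddCommGroup E] [NormedSpace ℝ E]

theorem measurePreserving_log {Λ : Γ → J → ℝ} (hΛ : ∀ a b, Λ (a * b) = Λ a + Λ b) (g : Γ) :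
    MeasurePreserving (fun s : J → ℝ => (logAction hΛ).toSMul.smul g s) volume volume :=
  measurePreserving_sub_right volume (Λ g)

/-- **Unfolding in logarithmic coordinates**, values in `[0, ∞]`. -/
theorem lintegral_unfold_log [Countable Γ] [Countable I] {Λ : Γ → J → ℝ}
    (hΛ : ∀ a b, Λ (a * b) = Λ a + Λ b)
    (hr : Function.Bijective fun p : Γ × I => p.1 • r p.2)
    {c : (J → ℝ) → ℝ≥0∞} (hc : Measurable c) (hsum : ∀ s, ∑' u : Γ, c (s + Λ u) = 1)
    {f : X → (J → ℝ) → ℝ≥0∞} (hf : ∀ x, AEMeasurable (f x) volume)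
    (hinv : ∀ (u : Γ) x s, f (u • x) s = f x (s + Λ u)) :
    ∫⁻ s, c s * ∑' x, f x s = ∑' i, ∫⁻ s, f (r i) s := by
  let _ := logAction hΛ
  refine lintegral_unfold (μ := (volume : Measure (J → ℝ))) hr (measurePreserving_log hΛ) hc
    (fun s => ?_) hf (fun g x s => ?_)
  · rw [← hsum s, ← (Equiv.inv Γ).tsum_eq]
    congr 1; ext g
    change c (s - Λ g⁻¹) = _
    rw [map_inv_neg hΛ, sub_neg_eq_add]
  · rw [hinv]
    change f x (s - Λ g + Λ g) = _
    rw [sub_add_cancel]

/-- **Unfolding in logarithmic coordinates**, Bochner version. -/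
theorem integral_unfold_log [CompleteSpace E] [Countable Γ] [Countable I] {Λ : Γ → J → ℝ}
    (hΛ : ∀ a b, Λ (a * b) = Λ a + Λ b)
    (hr : Function.Bijective fun p : Γ × I => p.1 • r p.2)
    {c : (J → ℝ) → ℝ} (hc : Measurable c) (hc0 : ∀ s, 0 ≤ c s)
    (hsum : ∀ s, HasSum (fun u : Γ => c (s + Λ u)) 1)
    {f : X → (J → ℝ) → E} (hf : ∀ x, AEStronglyMeasurable (f x) volume)
    (hinv : ∀ (u : Γ) x s, f (u • x) s = f x (s + Λ u))
    (hfin : ∑' i, ∫⁻ s, ‖f (r i) s‖ₑ ≠ ∞) :
    Integrable (fun s => c s • ∑' x, f x s) volume ∧ Summable (fun i => ∫ s, f (r i) s) ∧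
      ∫ s, c s • ∑' x, f x s = ∑' i, ∫ s, f (r i) s := by
  let _ := logAction hΛ
  refine integral_unfold (μ := (volume : Measure (J → ℝ))) hr (measurePreserving_log hΛ) hc hc0
    (fun s => ?_) hf (fun g x s => ?_) hfin
  · rw [← (Equiv.inv Γ).hasSum_iff]
    convert hsum s using 1
    ext g
    change c (s - Λ g⁻¹) = _
    rw [map_inv_neg hΛ, sub_neg_eq_add]
  · rw [hinv]
    change f x (s - Λ g + Λ g) = _
    rw [sub_add_cancel]

end Log

section Field

variable {Γ : Type*} [Group Γ] {J : Type*} [Fintype J] {B : Type*} [Field B] {I : Type*}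
  {r : I → Bˣ}
variable {E : Type*} [NormedAddCommGroup E] [NormedSpace ℝ E]

omit [NormedSpace ℝ E] in
theorem tsum_units {F : B → E} (h0 : F 0 = 0) : ∑' x : B, F x = ∑' x : Bˣ, F x := by
  have hsub : Function.support F ⊆ Set.range ((↑) : Bˣ → B) := by
    intro x hx
    have hx0 : x ≠ 0 := by rintro rfl; exact hx h0
    exact ⟨Units.mk0 x hx0, rfl⟩
  exact (Units.val_injective.tsum_eq hsub).symm

/-- **Unfolding for a field**: the sum over all `x : B` of a function vanishing at `x = 0`. -/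
theorem integral_unfold_field [CompleteSpace E] [Countable Γ] [Countable I] {Λ : Γ → J → ℝ}
    (hΛ : ∀ a b, Λ (a * b) = Λ a + Λ b) (φ : Γ →* Bˣ)
    (hr : Function.Bijective fun p : Γ × I => φ p.1 * r p.2)
    {c : (J → ℝ) → ℝ} (hc : Measurable c) (hc0 : ∀ s, 0 ≤ c s)
    (hsum : ∀ s, HasSum (fun u : Γ => c (s + Λ u)) 1)
    {f : B → (J → ℝ) → E} (hf : ∀ x, AEStronglyMeasurable (f x) volume) (hf0 : ∀ s, f 0 s = 0)
    (hinv : ∀ (u : Γ) (x : B) s, x ≠ 0 → f (φ u * x) s = f x (s + Λ u))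
    (hfin : ∑' i, ∫⁻ s, ‖f (r i) s‖ₑ ≠ ∞) :
    Integrable (fun s => c s • ∑' x, f x s) volume ∧ Summable (fun i => ∫ s, f (r i) s) ∧
      ∫ s, c s • ∑' x, f x s = ∑' i, ∫ s, f (r i) s := by
  let _ : MulAction Γ Bˣ := MulAction.compHom Bˣ φ
  have h := integral_unfold_log (X := Bˣ) (r := r) hΛ hr hc hc0 hsum
    (f := fun x s => f (x : B) s) (fun x => hf _)
    (fun u x s => by
      change f ((φ u * x : Bˣ) : B) s = _
      rw [Units.val_mul]
      exact hinv u x s x.ne_zero) hfin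
  have h1 : ∀ s, ∑' x : B, f x s = ∑' x : Bˣ, f (x : B) s := fun s =>
    tsum_units (F := fun x => f x s) (hf0 s)
  simp only [h1]
  exact h

end Field

end Fermat.Agent.H87U
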