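import Fermat.Agent.H53Z2
import Fermat.Agent.H87UFold

/-!
# Unfolding the cut-off integral of the theta kernel (helper53, S47 block D, part A2)

`hasSum_unfold` : `∫ c(s) θ(w, s) ds = ∑_i φ(r_i) ∏_j y_j K₀(4π|p_j q_j| y_j) e(2 Re(p_j q_j z_j))`.
`hasSum_unfold_field` : the same for a field `B` with two families of embeddings.
-/

set_option autoImplicit false

open MeasureTheory Set Filter Topology
open scoped ComplexConjugate Real ENNReal

noncomputable section

namespace Fermat.Agent.H53Z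

open Fermat.Agent Fermat.Agent.H22Z

variable {J : Type*} [Fintype J]

/-- shifting the logarithmic variable -/
theorem gt1_shift (w : H3) (s l : ℝ) {p q p' q' : ℂ} (hp : ‖p'‖ = Real.exp l * ‖p‖)
    (hq : ‖q'‖ = Real.exp (-l) * ‖q‖) (hpq : p' * q' = p * q) :
    gt1 w s p' q' = gt1 w (s + l) p q := by
  rw [gt1, gt1, hp, hq, hpq]
  have e1 : (Real.exp l * ‖p‖) ^ 2 * Real.exp (2 * s) = ‖p‖ ^ 2 * Real.exp (2 * (s + l)) := by
    rw [mul_pow, ← Real.exp_nat_mul, mul_add, Real.exp_add]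
    push_cast
    ring
  have e2 : (Real.exp (-l) * ‖q‖) ^ 2 * Real.exp (-2 * s) =
      ‖q‖ ^ 2 * Real.exp (-2 * (s + l)) := by
    rw [mul_pow, ← Real.exp_nat_mul, mul_add, Real.exp_add]
    push_cast
    have : 2 * -l = -2 * l := by ring
    rw [this]
    ring
  rw [e1, e2]

theorem gterm_shift (w : J → H3) (s l : J → ℝ) {p q p' q' : J → ℂ}
    (hp : ∀ j, ‖p' j‖ = Real.exp (l j) * ‖p j‖) (hq : ∀ j, ‖q' j‖ = Real.exp (-l j) * ‖q j‖)
    (hpq : ∀ j, p' j * q' j = p j * q j) : gterm w s p' q' = gterm w (s + l) p q := by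
  rw [gterm, gterm]
  exact Finset.prod_congr rfl fun j _ => gt1_shift (w j) (s j) (l j) (hp j) (hq j) (hpq j)

section Abstract

variable {Γ : Type*} [Group Γ] {X I : Type*} [MulAction Γ X] {r : I → X}

theorem tsum_enorm_le {φ : X → ℂ} {p q : X → J → ℂ} (h : GSum φ p q) {w : J → H3} {s : J → ℝ}
    {c₀ S : ℝ} (hc₀ : 0 < c₀) (hw : ∀ j, c₀ ≤ (w j).y) (hs : ∀ j, |s j| ≤ S) :
    ∑' x, ‖φ x * gterm w s (p x) (q x)‖ₑ ≤
      ENNReal.ofReal ((∏ j, (w j).y) * gmaj φ p q (2 * π * c₀ * Real.exp (-2 * S))) := by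
  have hnn : ∀ x, 0 ≤ (∏ j, (w j).y) * (‖φ x‖ *
      Real.exp (-(2 * π * c₀ * Real.exp (-2 * S)) * ∑ j, (‖p x j‖ ^ 2 + ‖q x j‖ ^ 2))) :=
    fun x => mul_nonneg (Finset.prod_nonneg fun j _ => (w j).pos.le)
      (mul_nonneg (norm_nonneg _) (Real.exp_pos _).le)
  have hsum := (h _ (eps_pos (c := c₀) (S := S) hc₀)).mul_left (∏ j, (w j).y)
  calc ∑' x, ‖φ x * gterm w s (p x) (q x)‖ₑ
      ≤ ∑' x, ENNReal.ofReal ((∏ j, (w j).y) * (‖φ x‖ *
        Real.exp (-(2 * π * c₀ * Real.exp (-2 * S)) * ∑ j, (‖p x j‖ ^ 2 + ‖q x j‖ ^ 2)))) := by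
        refine ENNReal.tsum_le_tsum fun x => ?_
        rw [← ofReal_norm]
        exact ENNReal.ofReal_le_ofReal (norm_term_le φ p q hw hs x)
    _ = ENNReal.ofReal (∑' x, (∏ j, (w j).y) * (‖φ x‖ *
        Real.exp (-(2 * π * c₀ * Real.exp (-2 * S)) * ∑ j, (‖p x j‖ ^ 2 + ‖q x j‖ ^ 2)))) :=
        (ENNReal.ofReal_tsum_of_nonneg hnn hsum).symm
    _ = _ := by rw [tsum_mul_left, gmaj]

/-- **Unfolding** of the theta integral. -/
theorem hasSum_unfold [Countable Γ] [Countable I] {La : Γ → J → ℝ}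
    (hLa : ∀ a b, La (a * b) = La a + La b)
    (hr : Function.Bijective fun p : Γ × I => p.1 • r p.2)
    {c : (J → ℝ) → ℝ} {S : ℝ} (hc : IsCut c S) (hsum : ∀ s, HasSum (fun u : Γ => c (s + La u)) 1)
    {φ : X → ℂ} {p q : X → J → ℂ} (h : GSum φ p q)
    (hφ : ∀ (u : Γ) x, φ (u • x) = φ x)
    (hp : ∀ (u : Γ) x j, ‖p (u • x) j‖ = Real.exp (La u j) * ‖p x j‖)
    (hq : ∀ (u : Γ) x j, ‖q (u • x) j‖ = Real.exp (-La u j) * ‖q x j‖)
    (hpq : ∀ (u : Γ) x j, p (u • x) j * q (u • x) j = p x j * q x j)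
    (hp0 : ∀ x, φ x ≠ 0 → ∀ j, p x j ≠ 0) (hq0 : ∀ x, φ x ≠ 0 → ∀ j, q x j ≠ 0) (w : J → H3) :
    HasSum (fun i => φ (r i) * kterm (fun j => p (r i) j * q (r i) j) w)
      (thetaInt c φ p q w) := by
  obtain ⟨c₀, -, hc₀, hw, -⟩ := exists_bounds w (0 : J → ℝ)
  set f : X → (J → ℝ) → ℂ := fun x s => φ x * gterm w s (p x) (q x) with hf
  have hfc : ∀ x, Continuous (f x) := fun x => by
    have h1 : Continuous fun s : J → ℝ => ((w, s) : (J → H3) × (J → ℝ)) := by fun_prop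
    have h2 := (continuous_gterm (p x) (q x)).comp h1
    simp only [Function.comp_def] at h2
    exact continuous_const.mul h2
  have hinv : ∀ (u : Γ) x s, f (u • x) s = f x (s + La u) := by
    intro u x s
    simp only [hf]
    rw [hφ, gterm_shift w s (La u) (hp u x) (hq u x) (hpq u x)]
  have hm : Measurable fun s => ENNReal.ofReal (c s) := hc.cont.measurable.ennreal_ofReal
  have hsum' : ∀ s, ∑' u : Γ, ENNReal.ofReal (c (s + La u)) = 1 := by
    intro s
    rw [← ENNReal.ofReal_tsum_of_nonneg (fun u => hc.nonneg _) (hsum s).summable,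
      (hsum s).tsum_eq, ENNReal.ofReal_one]
  have hfin : ∑' i, ∫⁻ s, ‖f (r i) s‖ₑ ≠ ∞ := by
    rw [← H87U.lintegral_unfold_log hLa hr hm hsum' (f := fun x s => ‖f x s‖ₑ)
      (fun x => (hfc x).measurable.enorm.aemeasurable) (fun u x s => by rw [hinv])]
    set M : ℝ≥0∞ := ENNReal.ofReal
      ((∏ j, (w j).y) * gmaj φ p q (2 * π * c₀ * Real.exp (-2 * S))) with hM
    have h1 : ∫⁻ s, ENNReal.ofReal (c s) * ∑' x, ‖f x s‖ₑ ≤ ∫⁻ s, ENNReal.ofReal (c s) * M := by
      refine lintegral_mono fun s => ?_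
      by_cases hs : ∀ j, |s j| ≤ S
      · exact mul_le_mul_right (tsum_enorm_le h hc₀ hw hs) _
      · push Not at hs
        simp [hc.supp s hs]
    refine (lt_of_le_of_lt h1 ?_).ne
    rw [lintegral_mul_const _ hm]
    refine ENNReal.mul_lt_top ?_ ENNReal.ofReal_lt_top
    rw [← ofReal_integral_eq_lintegral_ofReal hc.integrable (Eventually.of_forall hc.nonneg)]
    exact ENNReal.ofReal_lt_top
  obtain ⟨-, h2, h3⟩ := H87U.integral_unfold_log hLa hr hc.cont.measurable hc.nonneg hsum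
    (f := f) (fun x => (hfc x).aestronglyMeasurable) hinv hfin
  have e1 : ∀ i, ∫ s, f (r i) s = φ (r i) * kterm (fun j => p (r i) j * q (r i) j) w := by
    intro i
    simp only [hf]
    by_cases h0 : φ (r i) = 0
    · simp [h0]
    · rw [integral_const_mul, integral_gterm w (hp0 _ h0) (hq0 _ h0)]
  have e2 : ∫ s, c s • ∑' x, f x s = thetaInt c φ p q w := by
    rw [thetaInt]
    refine integral_congr_ae (Eventually.of_forall fun s => ?_)
    simp only [theta, hf, Complex.real_smul]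
  rw [e2] at h3
  rw [h3]
  simp only [e1] at h2 ⊢
  exact h2.hasSum

end Abstract

section Field

variable {Γ : Type*} [Group Γ] {B : Type*} [Field B] {I : Type*} {r : I → Bˣ}

theorem gsum_units {φ : B → ℂ} {p q : B → J → ℂ} (h : GSum φ p q) :
    GSum (fun x : Bˣ => φ x) (fun x => p x) (fun x => q x) := fun ε hε =>
  (h ε hε).comp_injective Units.val_injective

theorem theta_units {φ : B → ℂ} (h0 : φ 0 = 0) (p q : B → J → ℂ) (w : J → H3) (s : J → ℝ) :
    theta φ p q w s = theta (fun x : Bˣ => φ x) (fun x => p x) (fun x => q x) w s := by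
  rw [theta, theta]
  exact H87U.tsum_units (F := fun x => φ x * gterm w s (p x) (q x)) (by simp [h0])

/-- **Unfolding** for a field with two families of embeddings `b`, `b'`. -/
theorem hasSum_unfold_field [Countable Γ] [Countable I] (ψ : Γ →* Bˣ)
    (hr : Function.Bijective fun p : Γ × I => ψ p.1 * r p.2)
    (b b' : J → (B →+* ℂ)) (hb : ∀ (u : Γ) j, b j (ψ u : B) * b' j (ψ u : B) = 1)
    {c : (J → ℝ) → ℝ} {S : ℝ} (hc : IsCut c S)
    (hsum : ∀ s : J → ℝ, HasSum (fun u : Γ => c (s + fun j => Real.log ‖b j (ψ u : B)‖)) 1)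
    {φ : B → ℂ} (h : GSum φ (fun x j => b j x) (fun x j => b' j x)) (h0 : φ 0 = 0)
    (hφ : ∀ (u : Γ) x, φ (ψ u * x) = φ x) (w : J → H3) :
    HasSum (fun i => φ (r i) * kterm (fun j => b j (r i : B) * b' j (r i : B)) w)
      (thetaInt c φ (fun x j => b j x) (fun x j => b' j x) w) := by
  let _ : MulAction Γ Bˣ := MulAction.compHom Bˣ ψ
  have hsm : ∀ (u : Γ) (x : Bˣ), ((u • x : Bˣ) : B) = (ψ u : B) * x := fun u x => rfl
  set La : Γ → J → ℝ := fun u j => Real.log ‖b j (ψ u : B)‖ with hLa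
  have hpos : ∀ u j, 0 < ‖b j (ψ u : B)‖ := fun u j =>
    norm_pos_iff.mpr ((map_ne_zero _).mpr (Units.ne_zero _))
  have hexp : ∀ u j, Real.exp (La u j) = ‖b j (ψ u : B)‖ := fun u j => Real.exp_log (hpos u j)
  have hexp' : ∀ u j, Real.exp (-La u j) = ‖b' j (ψ u : B)‖ := by
    intro u j
    rw [Real.exp_neg, hexp]
    have h1 : ‖b j (ψ u : B)‖ * ‖b' j (ψ u : B)‖ = 1 := by rw [← norm_mul, hb, norm_one]
    exact inv_eq_of_mul_eq_one_right h1
  have hth : thetaInt c φ (fun x j => b j x) (fun x j => b' j x) w =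
      thetaInt c (fun x : Bˣ => φ x) (fun x j => b j (x : B)) (fun x j => b' j (x : B)) w := by
    rw [thetaInt, thetaInt]
    refine integral_congr_ae (Eventually.of_forall fun s => ?_)
    simp only
    rw [theta_units h0]
  rw [hth]
  refine hasSum_unfold (X := Bˣ) (r := r) (La := La) (fun u v => ?_) hr hc hsum (gsum_units h)
    (fun u x => ?_) (fun u x j => ?_) (fun u x j => ?_) (fun u x j => ?_) (fun x _ j => ?_)
    (fun x _ j => ?_) w
  · funext j
    simp only [hLa, Pi.add_apply, map_mul, Units.val_mul, norm_mul]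
    exact Real.log_mul (hpos u j).ne' (hpos v j).ne'
  · rw [hsm, hφ]
  · rw [hsm, map_mul, norm_mul, hexp]
  · rw [hsm, map_mul, norm_mul, hexp']
  · rw [hsm, map_mul, map_mul]
    linear_combination (b j (x : B) * b' j (x : B)) * hb u j
  · exact (map_ne_zero _).mpr x.ne_zero
  · exact (map_ne_zero _).mpr x.ne_zero

end Field

end Fermat.Agent.H53Z
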