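import Mathlib
import Fermat.Agent.H82LTFI

/-!
# Finite order Hecke characters in divisor language
-/

set_option autoImplicit false

noncomputable section

open IsDedekindDomain NumberField
open Fermat.Agent.H47 (ordHom divHom smulPlace below)
open Fermat.Agent.H82 (above aboveSet NonSplit congr)

namespace Fermat.Agent.H77.Z

section defs

variable {K : Type*} [Field K] [NumberField K] {A : Type*} [AddCommGroup A]

/-- Value of a function on the finite places at a divisor. -/
def ev (f : HeightOneSpectrum (𝓞 K) → A) : (HeightOneSpectrum (𝓞 K) →₀ ℤ) →+ A :=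
  Finsupp.liftAddHom (fun v => zmultiplesHom A (f v))

/-- The divisor of a nonzero element. -/
abbrev dv (x : Kˣ) : HeightOneSpectrum (𝓞 K) →₀ ℤ := divHom (𝓞 K) K (Additive.ofMul x)

/-- The order at `v`. -/
abbrev od (v : HeightOneSpectrum (𝓞 K)) (x : Kˣ) : ℤ := ordHom v (Additive.ofMul x)

/-- `f` is a finite order Hecke character (written additively) with bad set `S`. -/
def IsHecke (S : Set (HeightOneSpectrum (𝓞 K))) (f : HeightOneSpectrum (𝓞 K) → A) : Prop :=
  (∀ v ∈ S, f v = 0) ∧ ∃ m : ℕ, ∀ x : Kˣ, (∀ v ∈ S, x ∈ congr v m) → ev f (dv x) = 0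

@[simp]
theorem ev_single (f : HeightOneSpectrum (𝓞 K) → A) (v : HeightOneSpectrum (𝓞 K)) (n : ℤ) :
    ev f (Finsupp.single v n) = n • f v := by
  simp [ev]

theorem ev_apply (f : HeightOneSpectrum (𝓞 K) → A) (D : HeightOneSpectrum (𝓞 K) →₀ ℤ) :
    ev f D = D.sum fun v n => n • f v := rfl

theorem dv_apply (x : Kˣ) (v : HeightOneSpectrum (𝓞 K)) : dv x v = od v x := rfl

theorem dv_mul (x y : Kˣ) : dv (x * y) = dv x + dv y := by
  rw [dv, ofMul_mul, map_add]

theorem dv_inv (x : Kˣ) : dv x⁻¹ = -dv x := by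
  rw [dv, ofMul_inv, map_neg]

theorem dv_div (x y : Kˣ) : dv (x / y) = dv x - dv y := by
  rw [dv, ofMul_div, map_sub]

theorem od_mul (v : HeightOneSpectrum (𝓞 K)) (x y : Kˣ) : od v (x * y) = od v x + od v y := by
  rw [od, ofMul_mul, map_add]

theorem od_inv (v : HeightOneSpectrum (𝓞 K)) (x : Kˣ) : od v x⁻¹ = -od v x := by
  rw [od, ofMul_inv, map_neg]

theorem od_div (v : HeightOneSpectrum (𝓞 K)) (x y : Kˣ) : od v (x / y) = od v x - od v y := by
  rw [od, ofMul_div, map_sub]

theorem ev_comp {B : Type*} [AddCommGroup B] (g : A →+ B) (f : HeightOneSpectrum (𝓞 K) → A)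
    (D : HeightOneSpectrum (𝓞 K) →₀ ℤ) : ev (fun v => g (f v)) D = g (ev f D) := by
  rw [ev_apply, ev_apply, map_finsuppSum]
  exact Finsupp.sum_congr fun v _ => by rw [map_zsmul]

theorem IsHecke.comp {B : Type*} [AddCommGroup B] (g : A →+ B)
    {S : Set (HeightOneSpectrum (𝓞 K))} {f : HeightOneSpectrum (𝓞 K) → A} (hf : IsHecke S f) :
    IsHecke S (fun v => g (f v)) := by
  obtain ⟨h0, m, hm⟩ := hf
  refine ⟨fun v hv => by
    show g (f v) = 0
    rw [h0 v hv, map_zero], m, fun x hx => ?_⟩
  rw [ev_comp, hm x hx, map_zero]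

/-- `ev` only depends on the coefficients outside the zeros of `f`. -/
theorem ev_congr (f : HeightOneSpectrum (𝓞 K) → A) {D D' : HeightOneSpectrum (𝓞 K) →₀ ℤ}
    (h : ∀ v, f v ≠ 0 → D v = D' v) : ev f D = ev f D' := by
  classical
  rw [← sub_eq_zero, ← map_sub, ev_apply]
  refine Finset.sum_eq_zero fun v _ => ?_
  show (D - D') v • f v = 0
  by_cases hv : f v = 0
  · rw [hv, smul_zero]
  · rw [Finsupp.sub_apply, h v hv, sub_self, zero_smul]

end defs

section extension

/-- The standard character of `ℚ/ℤ`. -/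
def ex : AddCircle (1 : ℚ) →+ Additive ℂˣ :=
  QuotientAddGroup.lift _
    ({ toFun := fun t => Additive.ofMul (Units.mk0 (Complex.exp (2 * Real.pi * Complex.I * (t : ℂ)))
          (Complex.exp_ne_zero _))
       map_zero' := by
         apply Additive.toMul.injective
         ext
         simp
       map_add' := fun s t => by
         apply Additive.toMul.injective
         ext
         simp only [toMul_ofMul, toMul_add, Units.val_mul, Units.val_mk0]
         rw [← Complex.exp_add]
         congr 1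
         push_cast
         ring } : ℚ →+ Additive ℂˣ) (by
      rintro _ ⟨n, rfl⟩
      apply Additive.toMul.injective
      ext
      have h : Complex.exp (2 * Real.pi * Complex.I * ((n : ℤ) : ℂ)) = 1 := by
        rw [Complex.exp_eq_one_iff]
        exact ⟨n, by ring⟩
      simpa using h)

theorem coe_ex (t : ℚ) : (((ex (t : AddCircle (1 : ℚ))).toMul : ℂˣ) : ℂ)
    = Complex.exp (2 * Real.pi * Complex.I * (t : ℂ)) := rfl

/-- Extension of characters. -/
theorem exists_extension {X D : Type*} [AddCommGroup X] [AddCommGroup D] (φ : X →+ D)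
    (c : X →+ AddCircle (1 : ℚ)) (h : ∀ x, φ x = 0 → c x = 0) :
    ∃ χ : D →+ AddCircle (1 : ℚ), ∀ x, χ (φ x) = c x := by
  let φ' : (X ⧸ φ.ker) →ₗ[ℤ] D := (QuotientAddGroup.kerLift φ).toIntLinearMap
  have hφ' : Function.Injective φ' := QuotientAddGroup.kerLift_injective φ
  let c' : (X ⧸ φ.ker) →+ AddCircle (1 : ℚ) := QuotientAddGroup.lift _ c (fun x hx => h x hx)
  obtain ⟨χ, hχ⟩ := CharacterModule.dual_surjective_of_injective φ' hφ' c'
  refine ⟨χ, fun x => ?_⟩
  have := DFunLike.congr_fun hχ (QuotientAddGroup.mk x : X ⧸ φ.ker)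
  exact this

end extension

end Fermat.Agent.H77.Z
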