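import Mathlib
import Fermat.Agent.H77ZDefs

/-!
# Quadratic extensions: norm, trace, and approximate Hilbert 90 at finitely many places
-/

set_option autoImplicit false

noncomputable section

open IsDedekindDomain NumberField WithZero
open scoped Pointwise
open Fermat.Agent.H47 (ordHom divHom smulPlace below)
open Fermat.Agent.H82 (above aboveSet NonSplit congr)

namespace Fermat.Agent.H77.Z

section quad

variable {K L : Type*} [Field K] [Field L] [Algebra K L] [FiniteDimensional K L] [IsGalois K L]

open Classical in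
theorem univ_aut_eq (hdeg : Module.finrank K L = 2) {τ : L ≃ₐ[K] L} (hτ : τ ≠ 1) :
    (Finset.univ : Finset (L ≃ₐ[K] L)) = {1, τ} := by
  symm
  apply Finset.eq_univ_of_card
  rw [Finset.card_pair (Ne.symm hτ), ← Nat.card_eq_fintype_card, IsGalois.card_aut_eq_finrank, hdeg]

theorem aut_eq_one_or (hdeg : Module.finrank K L = 2) {τ : L ≃ₐ[K] L} (hτ : τ ≠ 1)
    (σ : L ≃ₐ[K] L) : σ = 1 ∨ σ = τ := by
  classical
  have := Finset.mem_univ σ
  rw [univ_aut_eq hdeg hτ] at this
  simpa using this

theorem aut_mul_self (hdeg : Module.finrank K L = 2) {τ : L ≃ₐ[K] L} (hτ : τ ≠ 1) :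
    τ * τ = 1 := by
  rcases aut_eq_one_or hdeg hτ (τ * τ) with h | h
  · exact h
  · exact absurd (by simpa using h) hτ

theorem aut_apply_apply (hdeg : Module.finrank K L = 2) {τ : L ≃ₐ[K] L} (hτ : τ ≠ 1) (x : L) :
    τ (τ x) = x := by
  have := DFunLike.congr_fun (aut_mul_self hdeg hτ) x
  exact this

theorem algebraMap_norm (hdeg : Module.finrank K L = 2) {τ : L ≃ₐ[K] L} (hτ : τ ≠ 1) (x : L) :
    algebraMap K L (Algebra.norm K x) = x * τ x := by
  classical
  rw [Algebra.norm_eq_prod_automorphisms, univ_aut_eq hdeg hτ, Finset.prod_pair (Ne.symm hτ)]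
  rfl

theorem algebraMap_trace (hdeg : Module.finrank K L = 2) {τ : L ≃ₐ[K] L} (hτ : τ ≠ 1) (x : L) :
    algebraMap K L (Algebra.trace K L x) = x + τ x := by
  classical
  rw [trace_eq_sum_automorphisms, univ_aut_eq hdeg hτ, Finset.sum_pair (Ne.symm hτ)]
  rfl

omit [FiniteDimensional K L] in
theorem exists_aut_ne_one (hdeg : Module.finrank K L = 2) : ∃ τ : L ≃ₐ[K] L, τ ≠ 1 := by
  have : FiniteDimensional K L := Module.finite_of_finrank_pos (by rw [hdeg]; norm_num)
  have h : 1 < Nat.card (L ≃ₐ[K] L) := by
    rw [IsGalois.card_aut_eq_finrank, hdeg]; norm_num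
  rw [Nat.card_eq_fintype_card, Fintype.one_lt_card_iff_nontrivial] at h
  exact exists_ne 1

end quad

section adjust

variable {K L : Type*} [Field K] [NumberField K] [Field L] [NumberField L] [Algebra K L]
  [IsGalois K L]

theorem valuation_smulPlace' (τ : L ≃ₐ[K] L) (w : HeightOneSpectrum (𝓞 L)) (x : L)
    (h2 : τ * τ = 1) : w.valuation L (τ x) = (smulPlace τ w).valuation L x := by
  have h := H47.valuation_smulPlace τ (smulPlace τ w) x
  rw [← h]
  congr 2
  apply HeightOneSpectrum.ext
  rw [H47.smulPlace_asIdeal, H47.smulPlace_asIdeal, ← mul_smul, h2, one_smul]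

/-- Elements of `congr` and valuation of a difference. -/
theorem val_sub_le_of_congr {F : Type*} [Field F] [NumberField F] {w : HeightOneSpectrum (𝓞 F)}
    {m : ℕ} {u : Fˣ} (h : u ∈ congr w m) (x : F) :
    w.valuation F (x * u - x) ≤ w.valuation F x * exp (-(m : ℤ)) := by
  have : x * (u : F) - x = x * ((u : F) - 1) := by ring
  rw [this, map_mul]
  gcongr
  exact h.2

theorem exists_adjust (hdeg : Module.finrank K L = 2) {τ : L ≃ₐ[K] L} (hτ : τ ≠ 1)
    {S : Set (HeightOneSpectrum (𝓞 K))} (hS : S.Finite) (m' : ℕ) :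
    ∃ m : ℕ, ∀ y : Lˣ, (∀ v ∈ S, Units.map (Algebra.norm K : L →* K) y ∈ congr v m) →
      ∃ z : Lˣ, ∀ w ∈ aboveSet L S, y * Units.map (τ : L →* L) z / z ∈ congr w m' := by
  classical
  have hfd : FiniteDimensional K L := Module.Finite.of_restrictScalars_finite ℚ K L
  have h2 := aut_mul_self hdeg hτ
  have hT : (aboveSet L S).Finite := H65.finite_aboveSet hS
  -- an upper bound for the order of `2`
  obtain ⟨C, hC⟩ : ∃ C : ℕ, ∀ w ∈ aboveSet L S, exp (-(C : ℤ)) ≤ w.valuation L (2 : L) := by
    have h1 : ∀ w : HeightOneSpectrum (𝓞 L), ∃ c : ℕ, exp (-(c : ℤ)) ≤ w.valuation L (2 : L) := by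
      intro w
      have h0 : w.valuation L (2 : L) ≠ 0 := by
        rw [Valuation.ne_zero_iff]; exact two_ne_zero
      obtain ⟨k, hk⟩ : ∃ k : ℤ, w.valuation L (2 : L) = exp k := by
        have := H47.valuation_eq_exp_ordHom w (Units.mk0 (2 : L) two_ne_zero)
        exact ⟨_, this⟩
      refine ⟨(-k).toNat, ?_⟩
      rw [hk, exp_le_exp]
      omega
    choose c hc using h1
    refine ⟨∑ w ∈ hT.toFinset, c w, fun w hw => le_trans ?_ (hc w)⟩
    rw [exp_le_exp, neg_le_neg_iff]
    have := Finset.single_le_sum (f := c) (fun _ _ => Nat.zero_le _) (hT.mem_toFinset.2 hw)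
    exact_mod_cast this
  -- an element with `τ β = -β`
  obtain ⟨β, hβ0, hβ⟩ : ∃ β : L, β ≠ 0 ∧ τ β = -β := by
    obtain ⟨δ, hδ⟩ : ∃ δ : L, τ δ ≠ δ := by
      by_contra hcon
      push Not at hcon
      exact hτ (AlgEquiv.ext hcon)
    refine ⟨δ - τ δ, sub_ne_zero.2 (Ne.symm hδ), ?_⟩
    rw [map_sub, aut_apply_apply hdeg hτ]
    ring
  refine ⟨m' + C + 1, fun y hy => ?_⟩
  rcases S.eq_empty_or_nonempty with rfl | ⟨v₀, hv₀⟩
  · refine ⟨1, fun w hw => ?_⟩
    obtain ⟨v, hv, -⟩ := hw
    exact absurd hv (Set.notMem_empty v)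
  have hNy : algebraMap K L (Algebra.norm K (y : L)) = y * τ y := algebraMap_norm hdeg hτ _
  -- consequences of the congruence for the norm
  have hN1 : ∀ w ∈ aboveSet L S, w.valuation L ((y : L) * τ y - 1) ≤
      exp (-((m' + C + 1 : ℕ) : ℤ)) := by
    rintro w ⟨v, hv, hw⟩
    have h1 := (hy v hv).2
    have h3 : (((Units.map (Algebra.norm K : L →* K) y : Kˣ) : K)) = Algebra.norm K (y : L) := rfl
    rw [h3] at h1
    have h4 : (y : L) * τ y - 1 = algebraMap K L (Algebra.norm K (y : L) - 1) := by
      rw [map_sub, map_one, hNy]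
    have he := H82.ramificationIdx'_ne_zero hw
    rw [h4, H82.valuation_above hw]
    calc _ ≤ (exp (-((m' + C + 1 : ℕ) : ℤ))) ^ (v.asIdeal.ramificationIdx' w.asIdeal) := by
          gcongr
      _ ≤ exp (-((m' + C + 1 : ℕ) : ℤ)) := by
          apply pow_le_of_le_one (by simp) ?_ he
          rw [← exp_zero, exp_le_exp]
          omega
  have hN2 : ∀ w ∈ aboveSet L S, w.valuation L (y : L) * (smulPlace τ w).valuation L (y : L) = 1 := by
    intro w hw
    rw [← valuation_smulPlace' τ w _ h2, ← map_mul]
    apply H82.valuation_eq_one_of_sub_one_lt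
    refine (hN1 w hw).trans_lt ?_
    rw [← exp_zero, exp_lt_exp]
    omega
  -- local targets
  choose π hπ using fun w : HeightOneSpectrum (𝓞 L) => H82.exists_uniformizer w
  choose c hc using fun v : HeightOneSpectrum (𝓞 K) => H47.above_nonempty (L := L) v
  let x : HeightOneSpectrum (𝓞 L) → Lˣ := fun w =>
    if smulPlace τ w = w then
      (if w.valuation L (2 : L) ≤ w.valuation L (1 + (y : L)) then 1 else Units.mk0 β hβ0)
    else
      (if w.valuation L (y : L) = 1 ∧ w = c (below K w) then π w else 1)
  obtain ⟨w₀, hw₀⟩ := H82.exists_approx hT.toFinset (fun _ => C + 1) x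
  have hw₀' : ∀ w ∈ aboveSet L S, w₀ / x w ∈ congr w (C + 1) := fun w hw =>
    hw₀ w (hT.mem_toFinset.2 hw)
  have hmemτ : ∀ w ∈ aboveSet L S, smulPlace τ w ∈ aboveSet L S := fun w hw =>
    (H47.smulPlace_mem_aboveSet_iff τ).2 hw
  -- the key lower bound
  have key : ∀ w ∈ aboveSet L S, w.valuation L (w₀ : L) * exp (-(C : ℤ)) ≤
      w.valuation L ((w₀ : L) + y * τ w₀) := by
    intro w hw
    by_cases hfix : smulPlace τ w = w
    · -- nonsplit
      have hy1 : w.valuation L (y : L) = 1 := by
        have := hN2 w hw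
        rw [hfix, ← sq] at this
        rwa [pow_eq_one_iff_of_nonneg (by simp) two_ne_zero] at this
      have hxw : x w = if w.valuation L (2 : L) ≤ w.valuation L (1 + (y : L)) then 1
          else Units.mk0 β hβ0 := if_pos hfix
      -- `w₀ = x u`, `τ w₀ = ± x τ u`
      set u : Lˣ := w₀ / x w with hu
      have hu1 := hw₀' w hw
      have hw₀u : (w₀ : L) = (x w : L) * u := by
        rw [hu]; push_cast; field_simp
      have huτ : w.valuation L (τ (u : L) - 1) ≤ exp (-((C + 1 : ℕ) : ℤ)) := by
        have : τ (u : L) - 1 = τ ((u : L) - 1) := by rw [map_sub, map_one]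
        rw [this, valuation_smulPlace' τ w _ h2, hfix]
        exact hu1.2
      have hsgn : ∃ ε : L, (ε = 1 ∨ ε = -1) ∧ τ (x w : L) = ε * (x w : L) ∧
          exp (-(C : ℤ)) ≤ w.valuation L (1 + ε * y) := by
        rw [hxw]
        split_ifs with h
        · refine ⟨1, Or.inl rfl, by simp, ?_⟩
          rw [one_mul]
          exact (hC w hw).trans h
        · refine ⟨-1, Or.inr rfl, by simp [hβ], ?_⟩
          push Not at h
          have h5 : (1 : L) + -1 * y = 2 - (1 + y) := by ring
          rw [h5, Valuation.map_sub_eq_of_lt_left _ h]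
          exact hC w hw
      obtain ⟨ε, hε, hτx, hε2⟩ := hsgn
      have hε1 : w.valuation L ε = 1 := by
        rcases hε with rfl | rfl
        · simp
        · rw [Valuation.map_neg, map_one]
      have h6 : (w₀ : L) + y * τ w₀ = (x w : L) * (((1 + ε * y) : L) +
          (((u : L) - 1) + ε * y * (τ (u : L) - 1))) := by
        rw [hw₀u, map_mul, hτx]
        ring
      have h7 : w.valuation L (((u : L) - 1) + ε * y * (τ (u : L) - 1)) ≤
          exp (-((C + 1 : ℕ) : ℤ)) := by
        refine (Valuation.map_add _ _ _).trans (max_le hu1.2 ?_)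
        rw [map_mul, map_mul, hε1, hy1, one_mul, one_mul]
        exact huτ
      have h8 : w.valuation L (((u : L) - 1) + ε * y * (τ (u : L) - 1)) <
          w.valuation L (1 + ε * y) := by
        refine (h7.trans_lt ?_).trans_le hε2
        rw [exp_lt_exp]; push_cast; omega
      rw [h6, map_mul, Valuation.map_add_eq_of_lt_left _ h8]
      have h9 : w.valuation L (w₀ : L) = w.valuation L (x w : L) := by
        rw [hw₀u, map_mul, hu1.1, mul_one]
      rw [h9]
      gcongr
    · -- split
      have hval : ∀ w' ∈ aboveSet L S, w'.valuation L (w₀ : L) = w'.valuation L (x w' : L) := by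
        intro w' hw'
        have := (hw₀' w' hw').1
        rw [Units.val_div_eq_div_val, map_div₀] at this
        rwa [div_eq_one_iff_eq ((Valuation.ne_zero_iff _).2 (x w').ne_zero)] at this
      have hττ : smulPlace τ (smulPlace τ w) = w := by
        apply HeightOneSpectrum.ext
        rw [H47.smulPlace_asIdeal, H47.smulPlace_asIdeal, ← mul_smul, h2, one_smul]
      have hfix' : smulPlace τ (smulPlace τ w) ≠ smulPlace τ w := by
        rw [hττ]; exact Ne.symm hfix
      have hbel : below K (smulPlace τ w) = below K w := by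
        have := H47.smulPlace_mem_above τ (H47.mem_above_below (K := K) w)
        exact (H47.eq_below_of_mem_above this).symm
      have ht : w.valuation L ((y : L) * τ w₀) ≠ w.valuation L (w₀ : L) := by
        rw [map_mul, valuation_smulPlace' τ w _ h2, hval _ (hmemτ w hw), hval w hw]
        by_cases hy1 : w.valuation L (y : L) = 1
        · have hy2 : (smulPlace τ w).valuation L (y : L) = 1 := by
            have := hN2 w hw
            rwa [hy1, one_mul] at this
          -- exactly one of `w`, `τ w` is the chosen place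
          have hmem : w ∈ above L (below K w) := H47.mem_above_below w
          obtain ⟨σ, hσ⟩ := H47.exists_smulPlace_eq hmem (hc (below K w))
          rcases aut_eq_one_or hdeg hτ σ with rfl | rfl
          · have h1 : w = c (below K w) := by
              rw [← hσ]
              apply HeightOneSpectrum.ext
              rw [H47.smulPlace_asIdeal, one_smul]
            have h3 : smulPlace τ w ≠ c (below K (smulPlace τ w)) := by
              rw [hbel, ← h1]; exact hfix
            have hx1 : x w = π w := by
              simp only [x]; rw [if_neg hfix, if_pos ⟨hy1, h1⟩]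
            have hx2 : x (smulPlace τ w) = 1 := by
              simp only [x]; rw [if_neg hfix', if_neg (fun h => h3 h.2)]
            rw [hx1, hx2, hy1, hπ, Units.val_one, map_one, one_mul, ← exp_zero]
            intro h
            rw [exp_inj] at h
            omega
          · have h1 : smulPlace σ w = c (below K (smulPlace σ w)) := by rw [hbel, hσ]
            have h3 : w ≠ c (below K w) := by
              rw [← hσ]; exact Ne.symm hfix
            have hx1 : x w = 1 := by
              simp only [x]; rw [if_neg hfix, if_neg (fun h => h3 h.2)]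
            have hx2 : x (smulPlace σ w) = π (smulPlace σ w) := by
              simp only [x]; rw [if_neg hfix', if_pos ⟨hy2, h1⟩]
            rw [hx1, hx2, hy1, hπ, Units.val_one, map_one, one_mul, ← exp_zero]
            intro h
            rw [exp_inj] at h
            omega
        · have hy2 : (smulPlace τ w).valuation L (y : L) ≠ 1 := by
            intro h
            have := hN2 w hw
            rw [h, mul_one] at this
            exact hy1 this
          have hx1 : x w = 1 := by
            simp only [x]; rw [if_neg hfix, if_neg (fun h => hy1 h.1)]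
          have hx2 : x (smulPlace τ w) = 1 := by
            simp only [x]; rw [if_neg hfix', if_neg (fun h => hy2 h.1)]
          rw [hx1, hx2, Units.val_one, map_one, map_one, mul_one]
          exact hy1
      have h5 : w.valuation L (w₀ : L) ≤ w.valuation L ((w₀ : L) + y * τ w₀) := by
        rcases lt_or_gt_of_ne ht with h | h
        · rw [Valuation.map_add_eq_of_lt_left _ h]
        · rw [Valuation.map_add_eq_of_lt_right _ h]
          exact h.le
      refine le_trans ?_ h5
      refine mul_le_of_le_one_right' ?_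
      rw [← exp_zero, exp_le_exp]
      omega
  -- the element `z`
  obtain ⟨w₁, hw₁⟩ := H47.above_nonempty (L := L) v₀
  have hz0 : (w₀ : L) + y * τ w₀ ≠ 0 := by
    intro h
    have h1 := key w₁ ⟨v₀, hv₀, hw₁⟩
    rw [h, map_zero, le_zero_iff, mul_eq_zero] at h1
    rcases h1 with h1 | h1
    · exact (Valuation.ne_zero_iff _).2 w₀.ne_zero h1
    · exact exp_ne_zero h1
  refine ⟨Units.mk0 _ hz0, fun w hw => ?_⟩
  have hz1 : ((y * Units.map (τ : L →* L) (Units.mk0 _ hz0) / Units.mk0 _ hz0 : Lˣ) : L) - 1
      = ((y : L) * τ y - 1) * w₀ / ((w₀ : L) + y * τ w₀) := by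
    have h1 : ((Units.map (τ : L →* L) (Units.mk0 _ hz0) : Lˣ) : L) = τ ((w₀ : L) + y * τ w₀) := rfl
    rw [Units.val_div_eq_div_val, Units.val_mul, h1, Units.val_mk0, map_add, map_mul,
      aut_apply_apply hdeg hτ]
    field_simp
    ring
  have hz2 : w.valuation L (((y * Units.map (τ : L →* L) (Units.mk0 _ hz0) / Units.mk0 _ hz0 : Lˣ)
      : L) - 1) ≤ exp (-((m' + C + 1 : ℕ) : ℤ)) * exp (C : ℤ) := by
    rw [hz1, map_div₀, map_mul]
    have h1 := key w hw
    have h3 : w.valuation L ((w₀ : L) + y * τ w₀) ≠ 0 := (Valuation.ne_zero_iff _).2 hz0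
    rw [div_le_iff₀ (zero_lt_iff.2 h3)]
    calc w.valuation L ((y : L) * τ y - 1) * w.valuation L (w₀ : L)
        ≤ exp (-((m' + C + 1 : ℕ) : ℤ)) * w.valuation L (w₀ : L) := by
          gcongr
          exact hN1 w hw
      _ = exp (-((m' + C + 1 : ℕ) : ℤ)) * exp (C : ℤ) *
          (w.valuation L (w₀ : L) * exp (-(C : ℤ))) := by
          rw [mul_assoc, mul_comm (exp (C : ℤ)), mul_assoc, ← exp_add, neg_add_cancel, exp_zero,
            mul_one]
      _ ≤ _ := by gcongr
  rw [← exp_add] at hz2
  constructor
  · apply H82.valuation_eq_one_of_sub_one_lt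
    refine hz2.trans_lt ?_
    rw [← exp_zero, exp_lt_exp]
    push_cast
    omega
  · refine hz2.trans ?_
    rw [exp_le_exp]
    push_cast
    omega

end adjust

end Fermat.Agent.H77.Z
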