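import Fermat.Agent.H82Hasse

/-!
# Stability and exact index of local norm groups; first inequality
-/

set_option autoImplicit false

noncomputable section

open IsDedekindDomain NumberField WithZero

namespace Fermat.Agent.H82

variable {K : Type} [Field K] [NumberField K] {p : ℕ} [hp : Fact p.Prime] {ζ : K}
  (hζ : IsPrimitiveRoot ζ p)

section general

/-- `H ≤ H'` with equal nonzero index are equal. -/
theorem eq_of_index_eq {G : Type*} [Group G] {H H' : Subgroup G} (h : H ≤ H')
    (h0 : H.index ≠ 0) (hidx : H'.index = H.index) : H = H' := by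
  refine le_antisymm h ?_
  have h1 := Subgroup.relIndex_mul_index h
  rw [hidx] at h1
  have h2 : H.relIndex H' = 1 :=
    Nat.eq_of_mul_eq_mul_right (Nat.pos_of_ne_zero h0) (by rw [h1, one_mul])
  exact Subgroup.relIndex_eq_one.1 h2

end general

include hζ

theorem locPow_eq_of_deep {v : HeightOneSpectrum (𝓞 K)} {m n : ℕ} (hm : Deep ζ p v m)
    (hn : Deep ζ p v n) : locPow p v m = locPow p v n := by
  wlog h : m ≤ n generalizing m n
  · exact (this hn hm (le_of_not_ge h)).symm
  obtain ⟨e, he, h1⟩ := index_locPow' hζ v hm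
  obtain ⟨e', he', h2⟩ := index_locPow' hζ v hn
  rw [he, exp_inj, neg_inj] at he'
  have : e = e' := by exact_mod_cast he'
  subst this
  exact (eq_of_index_eq (locPow_anti p v h) (index_locPow_ne_zero hζ v hn) (by rw [h1, h2])).symm

variable {L : Type} [Field L] [NumberField L] [Algebra K L]

theorem locNorm_eq_of_deep (hdeg : Module.finrank K L = p) {v : HeightOneSpectrum (𝓞 K)}
    {m n : ℕ} (hm : Deep ζ p v m) (hn : Deep ζ p v n) : locNorm L v m = locNorm L v n := by
  have h : ∀ {m : ℕ}, locNorm L v m = normGroup K L ⊔ locPow p v m := by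
    intro m
    have h1 : (powMonoidHom p : Kˣ →* Kˣ).range ≤ normGroup K L := by
      rintro _ ⟨x, rfl⟩
      rw [powMonoidHom_apply, ← hdeg]
      exact pow_mem_normGroup K L x
    rw [locPow, ← sup_assoc, sup_eq_left.2 h1]
    rfl
  rw [h, h, locPow_eq_of_deep hζ hm hn]

theorem forall_mem_locNorm_iff (hdeg : Module.finrank K L = p) {v : HeightOneSpectrum (𝓞 K)}
    {m : ℕ} (hm : Deep ζ p v m) {x : Kˣ} : (∀ n, x ∈ locNorm L v n) ↔ x ∈ locNorm L v m := by
  refine ⟨fun h => h m, fun h n => ?_⟩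
  rw [locNorm_eq_of_deep hζ hdeg hm (hm.mono (le_max_left m n))] at h
  exact locNorm_anti L v (le_max_right m n) h

theorem iInf_locNorm_eq (hdeg : Module.finrank K L = p) {v : HeightOneSpectrum (𝓞 K)}
    {m : ℕ} (hm : Deep ζ p v m) : (⨅ n, locNorm L v n) = locNorm L v m := by
  ext x
  rw [Subgroup.mem_iInf, forall_mem_locNorm_iff hζ hdeg hm]

/-- The local norm index is `p` at nonsplit places. -/
theorem index_locNorm [IsGalois K L] (hdeg : Module.finrank K L = p)
    {v : HeightOneSpectrum (𝓞 K)} {m : ℕ} (hm : Deep ζ p v m) (hns : NonSplit L v) :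
    (locNorm L v m).index = p := by
  rw [← iInf_locNorm_eq hζ hdeg hm]
  exact H65.index_locNorm_eq hp.out hdeg hζ hns

/-- At an unramified nonsplit `v ∤ p`, local norms are the elements of order divisible by `p`. -/
theorem locNorm_eq_of_unramified [IsGalois K L] (hdeg : Module.finrank K L = p)
    {v : HeightOneSpectrum (𝓞 K)} (hvp : v.valuation K (p : K) = 1) (hns : NonSplit L v)
    (hunr : ∀ w ∈ above L v, v.asIdeal.ramificationIdx' w.asIdeal = 1) :
    locNorm L v 1 = (powMonoidHom p : Kˣ →* Kˣ).range ⊔ congr v 0 := by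
  have hidx := index_locNorm hζ hdeg (deep_of_not_dvd hζ hvp one_pos) hns
  obtain ⟨w, hw0⟩ := Set.ncard_eq_one.1 hns
  have hw : w ∈ above L v := by rw [hw0]; rfl
  have hfix : ∀ σ : L ≃ₐ[K] L, H47.smulPlace σ w = w := fun σ => by
    have := H47.smulPlace_mem_above σ hw
    rw [hw0] at this
    exact this
  refine eq_of_index_eq ?_ (by rw [hidx]; exact hp.out.ne_zero)
    (by rw [hidx, index_pow_sup_units])
  refine sup_le ?_ ((congr_anti v (Nat.zero_le 1)).trans le_sup_right)
  rintro _ ⟨z, rfl⟩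
  have h1 := valuation_norm (K := K) hdeg hfix (z : L)
  rw [valuation_above hw, hunr w hw, pow_one] at h1
  obtain ⟨y, hy⟩ := ordM_surjective v (ordM w z)
  have hy' : v.valuation K (y : K) = w.valuation L (z : L) := by
    rw [ordM_apply, hy, ← ordM_apply]
  rw [Subgroup.mem_sup]
  refine ⟨y ^ p, ⟨y, rfl⟩, Units.map (Algebra.norm K : L →* K) z / y ^ p, ?_, by simp⟩
  rw [mem_congr_zero]
  push_cast
  rw [map_div₀, map_pow, hy']
  have h2 : ((Units.map (Algebra.norm K : L →* K) z : Kˣ) : K) = Algebra.norm K (z : L) := rfl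
  rw [h2, h1, div_self]
  exact pow_ne_zero _ ((Valuation.ne_zero_iff _).2 z.ne_zero)

theorem units_le_locNorm [IsGalois K L] (hdeg : Module.finrank K L = p)
    {v : HeightOneSpectrum (𝓞 K)} (hvp : v.valuation K (p : K) = 1) (hns : NonSplit L v)
    (hunr : ∀ w ∈ above L v, v.asIdeal.ramificationIdx' w.asIdeal = 1) {m : ℕ} (hm : 0 < m) :
    congr v 0 ≤ locNorm L v m := by
  rw [locNorm_eq_of_deep hζ hdeg (deep_of_not_dvd hζ hvp hm) (deep_of_not_dvd hζ hvp one_pos),
    locNorm_eq_of_unramified hζ hdeg hvp hns hunr]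
  exact le_sup_right

omit hζ hp in
/-- Norms of `T`-units are `T`-units. -/
theorem norm_unit_le [IsGalois K L] (T : Set (HeightOneSpectrum (𝓞 K))) :
    ((aboveSet L T).unit L).map (Units.map (Algebra.norm K : L →* K)) ≤ T.unit K := by
  classical
  rintro _ ⟨z, hz, rfl⟩
  have hfd : FiniteDimensional K L := Module.Finite.of_restrictScalars_finite ℚ K L
  have h6 : Units.map (algebraMap K L : K →* L) (Units.map (Algebra.norm K : L →* K) z)
      = ∏ σ : L ≃ₐ[K] L, Units.map (σ : L →* L) z := by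
    ext
    rw [Units.coe_prod]
    exact Algebra.norm_eq_prod_automorphisms K (z : L)
  rw [← H47.algebraMap_mem_unit_iff (L := L), h6]
  exact prod_mem fun σ _ => H47.map_mem_unit σ hz

open Classical in
/-- **First inequality**. -/
theorem first_inequality (hp2 : p ≠ 2) [IsGalois K L] (hdeg : Module.finrank K L = p)
    {T : Finset (HeightOneSpectrum (𝓞 K))} (hcl : ClTrivial (T : Set (HeightOneSpectrum (𝓞 K))))
    (hunr : ∀ v ∉ T, ∀ w ∈ above L v, v.asIdeal.ramificationIdx' w.asIdeal = 1)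
    (m : HeightOneSpectrum (𝓞 K) → ℕ) (hm : ∀ v ∈ T, Deep ζ p v (m v)) :
    p ≤ ((T : Set (HeightOneSpectrum (𝓞 K))).unit K ⊔
      (⨅ v ∈ T.filter (fun v => NonSplit L v), locNorm L v (m v))).index := by
  have hFI := H65.relIndex_norm_mul_of_primitiveRoot hp.out hp2 hζ hdeg T.finite_toSet hcl
    (fun v hv => hunr v (fun h => hv (Finset.mem_coe.2 h)))
  set E := (T : Set (HeightOneSpectrum (𝓞 K))).unit K with hE
  set NS := T.filter (fun v => NonSplit L v) with hNS
  have hns : {v | v ∈ (T : Set (HeightOneSpectrum (𝓞 K))) ∧ NonSplit L v}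
      = (NS : Set (HeightOneSpectrum (𝓞 K))) := by
    ext v
    simp [hNS]
  rw [hns, Set.ncard_coe_finset] at hFI
  set NE := ((aboveSet L (T : Set (HeightOneSpectrum (𝓞 K)))).unit L).map
    (Units.map (Algebra.norm K : L →* K)) with hNE
  set Q := (⨅ v ∈ NS, locNorm L v (m v)) with hQ
  have hQidx : Q.index = p ^ NS.card := by
    rw [hQ, index_iInf NS m (fun v => locNorm L v (m v)) (fun v _ => le_sup_right),
      ← Finset.prod_const]
    refine Finset.prod_congr rfl fun v hv => ?_
    obtain ⟨hvT, hvn⟩ := Finset.mem_filter.1 hv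
    exact index_locNorm hζ hdeg (hm v hvT) hvn
  have hNEQ : NE ≤ Q := by
    refine le_iInf₂ fun v _ => ?_
    rintro _ ⟨z, -, rfl⟩
    exact Subgroup.mem_sup_left ⟨z, rfl⟩
  have hNE0 : NE.relIndex E ≠ 0 := by
    intro h0
    rw [h0, zero_mul] at hFI
    exact (pow_pos hp.out.pos NS.card).ne hFI
  have h1 : Q.relIndex E ≤ NE.relIndex E := Subgroup.relIndex_le_of_le_left hNEQ hNE0
  have h2 := Subgroup.relIndex_mul_index (le_sup_right : Q ≤ E ⊔ Q)
  rw [Subgroup.relIndex_sup_right, hQidx, ← hFI] at h2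
  by_contra hcon
  push Not at hcon
  have h3 : 0 < NE.relIndex E := Nat.pos_of_ne_zero hNE0
  have h4 : Q.relIndex E * (E ⊔ Q).index ≤ NE.relIndex E * (E ⊔ Q).index :=
    Nat.mul_le_mul_right _ h1
  have h5 : NE.relIndex E * (E ⊔ Q).index < NE.relIndex E * p := Nat.mul_lt_mul_of_pos_left hcon h3
  omega

end Fermat.Agent.H82
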