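import Mathlib
import Fermat.Agent.H77ZAdj
import Fermat.Agent.H54THasse
import Fermat.Agent.H82Stable

/-!
# Norms from quadratic extensions with congruence conditions (Hasse norm theorem)
-/

set_option autoImplicit false

noncomputable section

open IsDedekindDomain NumberField WithZero
open scoped Pointwise
open Fermat.Agent.H47 (ordHom divHom smulPlace below)
open Fermat.Agent.H82 (above aboveSet NonSplit congr locNorm normGroup)

namespace Fermat.Agent.H77.Z

section updown

variable {K L : Type*} [Field K] [NumberField K] [Field L] [NumberField L] [Algebra K L]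

/-- The image in `Lˣ`. -/
abbrev up (K L : Type*) [Field K] [Field L] [Algebra K L] : Kˣ →* Lˣ :=
  Units.map (algebraMap K L : K →* L)

theorem up_mem_congr {v : HeightOneSpectrum (𝓞 K)} {w : HeightOneSpectrum (𝓞 L)}
    (hw : w ∈ above L v) {m : ℕ} {x : Kˣ} (hx : x ∈ congr v m) : up K L x ∈ congr w m := by
  have he := H82.ramificationIdx'_ne_zero hw
  refine ⟨?_, ?_⟩
  · show w.valuation L (algebraMap K L x) = 1
    rw [H82.valuation_above hw, hx.1, one_pow]
  · show w.valuation L (algebraMap K L x - 1) ≤ _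
    have : algebraMap K L x - 1 = algebraMap K L ((x : K) - 1) := by rw [map_sub, map_one]
    rw [this, H82.valuation_above hw]
    refine (pow_le_pow_left₀ (by simp) hx.2 _).trans (pow_le_of_le_one (by simp) ?_ he)
    rw [← exp_zero, exp_le_exp]
    omega

theorem mem_congr_of_up {v : HeightOneSpectrum (𝓞 K)} {w : HeightOneSpectrum (𝓞 L)}
    (hw : w ∈ above L v) {m n : ℕ} (hmn : v.asIdeal.ramificationIdx' w.asIdeal * n ≤ m)
    {x : Kˣ} (hx : up K L x ∈ congr w m) : x ∈ congr v n := by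
  have he := H82.ramificationIdx'_ne_zero hw
  obtain ⟨h1, h2⟩ := hx
  change w.valuation L (algebraMap K L x) = 1 at h1
  change w.valuation L (algebraMap K L x - 1) ≤ _ at h2
  have h3 : algebraMap K L x - 1 = algebraMap K L ((x : K) - 1) := by rw [map_sub, map_one]
  rw [h3, H82.valuation_above hw] at h2
  rw [H82.valuation_above hw] at h1
  refine ⟨(pow_eq_one_iff_of_nonneg (by simp) he).1 h1, ?_⟩
  rw [← pow_le_pow_iff_left₀ (by simp) (by simp) he]
  refine h2.trans ?_
  rw [← exp_nsmul, exp_le_exp, nsmul_eq_mul, mul_neg, neg_le_neg_iff]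
  exact_mod_cast hmn

/-- Congruences descend: for `S` finite and `n` there is `m` such that `x ≡ 1` modulo `w^m` at
some `w` above `v ∈ S` implies `x ≡ 1` modulo `v^n`. -/
theorem exists_descend {S : Set (HeightOneSpectrum (𝓞 K))} (hS : S.Finite) (n : ℕ) :
    ∃ m : ℕ, ∀ x : Kˣ, ∀ v ∈ S, ∀ w ∈ above L v, up K L x ∈ congr w m → x ∈ congr v n := by
  classical
  have hT : (aboveSet L S).Finite := H65.finite_aboveSet hS
  refine ⟨∑ w ∈ hT.toFinset, (below K w).asIdeal.ramificationIdx' w.asIdeal * n, ?_⟩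
  intro x v hv w hw hx
  refine mem_congr_of_up hw ?_ hx
  rw [H47.eq_below_of_mem_above hw]
  exact Finset.single_le_sum
    (f := fun w : HeightOneSpectrum (𝓞 L) => (below K w).asIdeal.ramificationIdx' w.asIdeal * n)
    (fun _ _ => Nat.zero_le _) (hT.mem_toFinset.2 ⟨v, hv, hw⟩)

theorem od_up {v : HeightOneSpectrum (𝓞 K)} {w : HeightOneSpectrum (𝓞 L)}
    (hw : w ∈ above L v) (hunr : v.asIdeal.ramificationIdx' w.asIdeal = 1) (x : Kˣ) :
    od w (up K L x) = od v x := by
  have := H47.ordHom_algebraMap hw x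
  rw [hunr, Nat.cast_one, one_mul] at this
  exact this

end updown

section norm

variable {K L : Type} [Field K] [NumberField K] [IsTotallyComplex K] [Field L] [NumberField L]
  [Algebra K L] [IsGalois K L]

/-- The norm on units. -/
abbrev nm (K L : Type*) [Field K] [Field L] [Algebra K L] : Lˣ →* Kˣ :=
  Units.map (Algebra.norm K : L →* K)

omit [IsTotallyComplex K] [IsGalois K L] in
theorem even_mem_locNorm (hdeg : Module.finrank K L = 2) [IsGalois K L]
    {v : HeightOneSpectrum (𝓞 K)} (hv2 : v.valuation K (2 : K) = 1) (hns : NonSplit L v)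
    (hunr : ∀ w ∈ above L v, v.asIdeal.ramificationIdx' w.asIdeal = 1) {x : Kˣ}
    (hx : (2 : ℤ) ∣ od v x) (m : ℕ) : x ∈ locNorm L v m := by
  have hζ : IsPrimitiveRoot (-1 : K) 2 := IsPrimitiveRoot.neg_one 0 (by norm_num)
  have : Fact (Nat.Prime 2) := ⟨Nat.prime_two⟩
  have hv2' : v.valuation K ((2 : ℕ) : K) = 1 := by exact_mod_cast hv2
  have h1 : x ∈ locNorm L v 1 := by
    rw [H82.locNorm_eq_of_unramified hζ hdeg hv2' hns hunr, H82.mem_pow_sup_units_iff]
    exact_mod_cast hx
  exact (H82.forall_mem_locNorm_iff hζ hdeg (H82.deep_of_not_dvd hζ hv2' one_pos)).2 h1 m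

/-- **Norms with congruence conditions.** -/
theorem exists_norm_lift (hdeg : Module.finrank K L = 2)
    {S : Set (HeightOneSpectrum (𝓞 K))} (hS : S.Finite)
    (h2 : ∀ v ∉ S, v.valuation K (2 : K) = 1)
    (hunr : ∀ v ∉ S, ∀ w ∈ above L v, v.asIdeal.ramificationIdx' w.asIdeal = 1) (m' : ℕ) :
    ∃ m : ℕ, ∀ c : Kˣ, (∀ v ∈ S, c ∈ congr v m) →
      (∀ v ∉ S, NonSplit L v → (2 : ℤ) ∣ od v c) →
      ∃ y : Lˣ, nm K L y = c ∧ ∀ w ∈ aboveSet L S, y ∈ congr w m' := by
  classical
  have hfd : FiniteDimensional K L := Module.Finite.of_restrictScalars_finite ℚ K L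
  have hζ : IsPrimitiveRoot (-1 : K) 2 := IsPrimitiveRoot.neg_one 0 (by norm_num)
  have : Fact (Nat.Prime 2) := ⟨Nat.prime_two⟩
  obtain ⟨τ, hτ⟩ := exists_aut_ne_one (K := K) (L := L) hdeg
  obtain ⟨m₁, hm₁⟩ := exists_adjust hdeg hτ hS m'
  choose d hd using fun v : HeightOneSpectrum (𝓞 K) => H82.exists_deep one_lt_two hζ v
  refine ⟨m₁ + ∑ v ∈ hS.toFinset, d v, fun c hc hev => ?_⟩
  have hloc : ∀ v, NonSplit L v → ∀ m, c ∈ locNorm L v m := by
    intro v hns m
    by_cases hv : v ∈ S
    · refine (H82.forall_mem_locNorm_iff hζ hdeg (hd v)).2 ?_ m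
      have h1 : d v ≤ m₁ + ∑ v ∈ hS.toFinset, d v :=
        (Finset.single_le_sum (f := d) (fun _ _ => Nat.zero_le _) (hS.mem_toFinset.2 hv)).trans
          (Nat.le_add_left _ _)
      exact (le_sup_right : congr v (d v) ≤ locNorm L v (d v)) (H82.congr_anti v h1 (hc v hv))
    · exact even_mem_locNorm hdeg (h2 v hv) hns (hunr v hv) (hev v hv hns) m
  obtain ⟨y, hy⟩ := H54T.hasse_norm hζ hdeg c hloc
  obtain ⟨z, hz⟩ := hm₁ y (fun v hv => by
    have : Units.map (Algebra.norm K : L →* K) y = c := hy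
    rw [this]
    exact H82.congr_anti v (Nat.le_add_right _ _) (hc v hv))
  refine ⟨y * Units.map (τ : L →* L) z / z, ?_, hz⟩
  rw [map_div, map_mul]
  have h3 : nm K L (Units.map (τ : L →* L) z) = nm K L z := by
    ext
    show Algebra.norm K (τ (z : L)) = Algebra.norm K (z : L)
    exact Algebra.norm_eq_of_algEquiv τ _
  have h4 : nm K L y = c := hy
  rw [h3, mul_div_cancel_right, h4]

end norm

end Fermat.Agent.H77.Z
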