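import Fermat.Agent.H7ZApprox

/-!
# Local additive characters without completions (helper7, S47, package C19 / TYPES)

For a number field `K` and a prime `w` of `𝓞 K`, `psi w : AddChar K ℂ` is the local component at `w`
of the standard additive character: `psi w β = e(-Tr β')` where `β'` is integral outside `w` and
`β - β'` is integral at `w`.
-/

set_option autoImplicit false

open IsDedekindDomain HeightOneSpectrum WithZero NumberField

noncomputable section

namespace Fermat.Agent.H7.Z

variable {K : Type*} [Field K] [NumberField K]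

/-- `e(q) = exp(2 π i q)` for rational `q`. -/
def ee (q : ℚ) : ℂ := Complex.exp (2 * Real.pi * Complex.I * (q : ℂ))

theorem ee_zero : ee 0 = 1 := by simp [ee]

theorem ee_add (a b : ℚ) : ee (a + b) = ee a * ee b := by
  rw [ee, ee, ee, ← Complex.exp_add]; congr 1; push_cast; ring

theorem ee_ne_zero (a : ℚ) : ee a ≠ 0 := Complex.exp_ne_zero _

theorem ee_neg (a : ℚ) : ee (-a) = (ee a)⁻¹ := by
  rw [ee, ee, ← Complex.exp_neg]; congr 1; push_cast; ring

theorem norm_ee (a : ℚ) : ‖ee a‖ = 1 := by
  have h : (2 * Real.pi * Complex.I * (a : ℂ)) = ((2 * Real.pi * (a : ℝ) : ℝ) : ℂ) * Complex.I := by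
    push_cast; ring
  rw [ee, h, Complex.norm_exp_ofReal_mul_I]

theorem ee_int (n : ℤ) : ee (n : ℚ) = 1 := by
  rw [ee]
  have h : 2 * (Real.pi : ℂ) * Complex.I * (((n : ℤ) : ℚ) : ℂ) = n * (2 * Real.pi * Complex.I) := by
    push_cast; ring
  rw [h, Complex.exp_int_mul_two_pi_mul_I]

theorem ee_eq_one_iff (a : ℚ) : ee a = 1 ↔ ∃ n : ℤ, a = n := by
  rw [ee, Complex.exp_eq_one_iff]
  have hpi : (2 * (Real.pi : ℂ) * Complex.I) ≠ 0 := Complex.two_pi_I_ne_zero
  constructor
  · rintro ⟨n, hn⟩
    refine ⟨n, ?_⟩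
    have h1 : (2 * (Real.pi : ℂ) * Complex.I) * (a : ℂ) = (2 * (Real.pi : ℂ) * Complex.I) * (n : ℂ) := by
      rw [hn]; ring
    have h2 := mul_left_cancel₀ hpi h1
    exact_mod_cast h2
  · rintro ⟨n, rfl⟩
    exact ⟨n, by push_cast; ring⟩

/-- The trace of an everywhere integral element is an integer. -/
theorem exists_trace_eq_int (x : K) (hx : ∀ w : HeightOneSpectrum (𝓞 K), w.valuation K x ≤ 1) :
    ∃ n : ℤ, Algebra.trace ℚ K x = n := by
  obtain ⟨r, rfl⟩ := HeightOneSpectrum.mem_integers_of_valuation_le_one K x hx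
  have h1 : IsIntegral ℤ (Algebra.trace ℚ K (algebraMap (𝓞 K) K r)) :=
    Algebra.isIntegral_trace (RingOfIntegers.isIntegral_coe r)
  obtain ⟨n, hn⟩ := IsIntegrallyClosed.isIntegral_iff.mp h1
  exact ⟨n, by rw [← hn]; simp⟩

/-- The part of `β` at `w`: integral outside `w`, congruent to `β` at `w`. -/
theorem exists_part (w : HeightOneSpectrum (𝓞 K)) (β : K) :
    ∃ β' : K, w.valuation K (β - β') ≤ 1 ∧
      ∀ w' : HeightOneSpectrum (𝓞 K), w' ≠ w → w'.valuation K β' ≤ 1 := by
  obtain ⟨b, h1, h2⟩ := exists_approx (R := 𝓞 K) {w} (fun _ => β) (fun _ => 0)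
  refine ⟨b, ?_, fun w' hw' => h2 w' (by simpa using hw')⟩
  have h3 := h1 w (Finset.mem_singleton_self w)
  rw [← Valuation.map_neg, neg_sub]
  simpa using h3

/-- the `w`-part of `β` -/
def part (w : HeightOneSpectrum (𝓞 K)) (β : K) : K := (exists_part w β).choose

theorem part_spec (w : HeightOneSpectrum (𝓞 K)) (β : K) :
    w.valuation K (β - part w β) ≤ 1 ∧
      ∀ w' : HeightOneSpectrum (𝓞 K), w' ≠ w → w'.valuation K (part w β) ≤ 1 :=
  (exists_part w β).choose_spec

/-- The value of the local character, as a function. -/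
def psiFun (w : HeightOneSpectrum (𝓞 K)) (β : K) : ℂ := ee (-Algebra.trace ℚ K (part w β))

theorem psiFun_eq (w : HeightOneSpectrum (𝓞 K)) (β β' : K) (h : w.valuation K (β - β') ≤ 1)
    (h' : ∀ w' : HeightOneSpectrum (𝓞 K), w' ≠ w → w'.valuation K β' ≤ 1) :
    psiFun w β = ee (-Algebra.trace ℚ K β') := by
  obtain ⟨h1, h2⟩ := part_spec w β
  have h3 : ∀ w' : HeightOneSpectrum (𝓞 K), w'.valuation K (β' - part w β) ≤ 1 := by
    intro w'
    by_cases hw : w' = w
    · subst hw
      have h4 : β' - part w' β = (β - part w' β) - (β - β') := by ring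
      rw [h4]
      exact (Valuation.map_sub _ _ _).trans (max_le h1 h)
    · exact (Valuation.map_sub _ _ _).trans (max_le (h' w' hw) (h2 w' hw))
  obtain ⟨n, hn⟩ := exists_trace_eq_int _ h3
  rw [map_sub] at hn
  have h5 : -Algebra.trace ℚ K (part w β) = -Algebra.trace ℚ K β' + (n : ℚ) := by
    linear_combination hn
  rw [psiFun, h5, ee_add, ee_int, mul_one]

/-- The local additive character at `w`. -/
def psi (w : HeightOneSpectrum (𝓞 K)) : AddChar K ℂ where
  toFun := psiFun w
  map_zero_eq_one' := by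
    rw [psiFun_eq w 0 0 (by simp) (fun _ _ => by simp), map_zero, neg_zero, ee_zero]
  map_add_eq_mul' := by
    intro a b
    obtain ⟨h1, h2⟩ := part_spec w a
    obtain ⟨h3, h4⟩ := part_spec w b
    rw [psiFun_eq w (a + b) (part w a + part w b) ?_ ?_, map_add, neg_add, ee_add]
    · rfl
    · have h5 : a + b - (part w a + part w b) = (a - part w a) + (b - part w b) := by ring
      rw [h5]
      exact (Valuation.map_add _ _ _).trans (max_le h1 h3)
    · intro w' hw'
      exact (Valuation.map_add _ _ _).trans (max_le (h2 w' hw') (h4 w' hw'))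

theorem psi_eq (w : HeightOneSpectrum (𝓞 K)) {β β' : K} (h : w.valuation K (β - β') ≤ 1)
    (h' : ∀ w' : HeightOneSpectrum (𝓞 K), w' ≠ w → w'.valuation K β' ≤ 1) :
    psi w β = ee (-Algebra.trace ℚ K β') := psiFun_eq w β β' h h'

theorem norm_psi (w : HeightOneSpectrum (𝓞 K)) (β : K) : ‖psi w β‖ = 1 := norm_ee _

theorem psi_ne_zero (w : HeightOneSpectrum (𝓞 K)) (β : K) : psi w β ≠ 0 := by
  intro h
  have := norm_psi w β
  rw [h, norm_zero] at this
  exact zero_ne_one this

/-- `psi w` is trivial on the integers at `w`. -/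
theorem psi_of_integral (w : HeightOneSpectrum (𝓞 K)) {β : K} (h : w.valuation K β ≤ 1) :
    psi w β = 1 := by
  rw [psi_eq w (β' := 0) (by simpa using h) (fun _ _ => by simp), map_zero, neg_zero, ee_zero]

theorem psi_congr (w : HeightOneSpectrum (𝓞 K)) {β β' : K} (h : w.valuation K (β - β') ≤ 1) :
    psi w β = psi w β' := by
  have h1 : β = β' + (β - β') := by ring
  rw [h1, AddChar.map_add_eq_mul, psi_of_integral w h, mul_one]

/-- All but finitely many primes are integral at `β`. -/
theorem finite_not_integral (β : K) :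
    {w : HeightOneSpectrum (𝓞 K) | ¬ w.valuation K β ≤ 1}.Finite := by
  obtain ⟨r, s, hs, rfl⟩ := IsFractionRing.div_surjective (A := 𝓞 K) β
  have hs0 : s ≠ 0 := nonZeroDivisors.ne_zero hs
  refine (Ideal.finite_factors (I := Ideal.span {s}) (by rwa [Ne, Ideal.zero_eq_bot,
    Ideal.span_singleton_eq_bot])).subset fun w hw => ?_
  by_contra h
  apply hw
  have h2 : w.valuation K (algebraMap (𝓞 K) K s) = 1 := by
    have := (w.valuation_lt_one_iff_dvd (K := K) s).not.mpr h
    exact le_antisymm (w.valuation_le_one _) (not_lt.mp this)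
  rw [map_div₀, h2, div_one]
  exact w.valuation_le_one _

theorem finite_mulSupport_psi (β : K) : (Function.mulSupport fun w => psi w β).Finite :=
  (finite_not_integral β).subset fun w hw h => hw (psi_of_integral w h)

/-- The product formula for the additive characters, over a finite set. -/
theorem prod_psi (T : Finset (HeightOneSpectrum (𝓞 K))) (β : K)
    (h : ∀ w ∉ T, w.valuation K β ≤ 1) :
    ∏ w ∈ T, psi w β = ee (-Algebra.trace ℚ K β) := by
  classical
  have h1 : ∀ w' : HeightOneSpectrum (𝓞 K), w'.valuation K (∑ w ∈ T, part w β - β) ≤ 1 := by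
    intro w'
    by_cases hw' : w' ∈ T
    · have h2 : ∑ w ∈ T, part w β - β = ∑ w ∈ T.erase w', part w β - (β - part w' β) := by
        rw [← Finset.add_sum_erase T _ hw']; ring
      rw [h2]
      refine (Valuation.map_sub _ _ _).trans (max_le ?_ (part_spec w' β).1)
      refine Valuation.map_sum_le _ fun w hw => ?_
      exact (part_spec w β).2 w' (Finset.ne_of_mem_erase hw).symm
    · refine (Valuation.map_sub _ _ _).trans (max_le ?_ (h w' hw'))
      refine Valuation.map_sum_le _ fun w hw => ?_
      exact (part_spec w β).2 w' (fun hh => hw' (hh ▸ hw))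
  obtain ⟨n, hn⟩ := exists_trace_eq_int _ h1
  have h3 : ∏ w ∈ T, psi w β = ee (-Algebra.trace ℚ K (∑ w ∈ T, part w β)) := by
    rw [map_sum, ← Finset.sum_neg_distrib]
    clear h h1 hn
    induction T using Finset.induction_on with
    | empty => simp [ee_zero]
    | insert a s ha ih =>
      rw [Finset.prod_insert ha, Finset.sum_insert ha, ee_add, ← ih]
      rfl
  rw [map_sub] at hn
  have h5 : -Algebra.trace ℚ K β = -Algebra.trace ℚ K (∑ w ∈ T, part w β) + (n : ℚ) := by
    linear_combination hn
  rw [h3, h5, ee_add, ee_int, mul_one]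

end Fermat.Agent.H7.Z
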