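import Fermat.Agent.H71U1
import Fermat.Agent.H53Z3
import Fermat.Agent.H33DCoef
import Fermat.Agent.H77ZNorm
import Fermat.Agent.H7ZPsi
import Fermat.Agent.H76U2

/-!
# S47, block (D): common definitions for the theta kernel and the explicit series

The shapes (X), (Y) of docs 381 / progress #2989.

* `psS S` : the prime-to-`S` part of the additive character of `E`;
* `cE A w`, `cB h P` : orders of fractional ideals;
* `RE S δ`, `RB S δ` : elements `x` with `ord_w x ≥ δ w` at all places outside `S`;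
* `DD` : the data (`τ`, embeddings, `S`, `US`, `n2`, `chi`), `DD.Good` : their properties;
* `DD.phi`, `DD.theta`, `DD.ser`, `REL`, `nbAct`.
-/

set_option autoImplicit false
set_option linter.unusedSectionVars false

open IsDedekindDomain NumberField WithZero FractionalIdeal
open scoped nonZeroDivisors

noncomputable section

namespace Fermat.Agent.H71D

open Fermat.Agent Fermat.Agent.H53Z Fermat.Agent.H71U
open Fermat.Agent.H47 (smulPlace below)
open Fermat.Agent.H82 (above aboveSet NonSplit congr)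
open Fermat.Agent.H7.Z (ee psi)

/-! ### Additive characters -/

section psS

variable {E : Type*} [Field E] [NumberField E]

/-- The prime-to-`S` part of the additive character `e(-Tr z)` of the finite adeles. -/
def psS (S : Finset (HeightOneSpectrum (𝓞 E))) : AddChar E ℂ where
  toFun z := ee (-Algebra.trace ℚ E z) * (∏ w ∈ S, psi w z)⁻¹
  map_zero_eq_one' := by
    simp only [map_zero, neg_zero, H7.Z.ee_zero, one_mul, AddChar.map_zero_eq_one,
      Finset.prod_const_one, inv_one]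
  map_add_eq_mul' a b := by
    simp only [map_add, neg_add, H7.Z.ee_add, AddChar.map_add_eq_mul, Finset.prod_mul_distrib,
      mul_inv]
    ring

theorem psS_apply (S : Finset (HeightOneSpectrum (𝓞 E))) (z : E) :
    psS S z = ee (-Algebra.trace ℚ E z) * (∏ w ∈ S, psi w z)⁻¹ := rfl

/-- `psS` is trivial on the elements which are integral outside `S`. -/
theorem psS_eq_one {S : Finset (HeightOneSpectrum (𝓞 E))} {z : E}
    (h : ∀ w ∉ S, w.valuation E z ≤ 1) : psS S z = 1 := by
  rw [psS_apply, H7.Z.prod_psi S z h]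
  exact mul_inv_cancel₀ (H7.Z.ee_ne_zero _)

theorem norm_psS (S : Finset (HeightOneSpectrum (𝓞 E))) (z : E) : ‖psS S z‖ = 1 := by
  rw [psS_apply, norm_mul, H7.Z.norm_ee, norm_inv, norm_prod]
  simp [H7.Z.norm_psi]

/-- On elements which are integral at `S` the character `psS` is `e(-Tr z)`. -/
theorem psS_of_integral {S : Finset (HeightOneSpectrum (𝓞 E))} {z : E}
    (h : ∀ w ∈ S, w.valuation E z ≤ 1) : psS S z = ee (-Algebra.trace ℚ E z) := by
  rw [psS_apply, Finset.prod_eq_one fun w hw => H7.Z.psi_of_integral w (h w hw), inv_one, mul_one]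

end psS

/-! ### Orders and `R`-ideals -/

section ideals

variable {E B : Type*} [Field E] [NumberField E] [Field B] [NumberField B] [Algebra E B]

/-- non zero fractional ideals -/
abbrev FI (K : Type*) [Field K] [NumberField K] := (FractionalIdeal (𝓞 K)⁰ K)ˣ

/-- the order of a fractional ideal at a place -/
def cE {K : Type*} [Field K] [NumberField K] (A : FI K) (w : HeightOneSpectrum (𝓞 K)) : ℤ :=
  count K w (A : FractionalIdeal (𝓞 K)⁰ K)

theorem cE_mul {K : Type*} [Field K] [NumberField K] (A A' : FI K)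
    (w : HeightOneSpectrum (𝓞 K)) : cE (A * A') w = cE A w + cE A' w := by
  rw [cE, Units.val_mul, count_mul K w A.ne_zero A'.ne_zero]
  rfl

theorem cE_one {K : Type*} [Field K] [NumberField K] (w : HeightOneSpectrum (𝓞 K)) :
    cE (1 : FI K) w = 0 := by
  rw [cE, Units.val_one, count_one]

theorem cE_inv {K : Type*} [Field K] [NumberField K] (A : FI K) (w : HeightOneSpectrum (𝓞 K)) :
    cE A⁻¹ w = -cE A w := by
  have h := cE_mul A A⁻¹ w
  rw [mul_inv_cancel, cE_one] at h
  omega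

/-- elements with prescribed orders outside `S` (a fractional `𝓞_E[1/S]`-ideal) -/
def RE (S : Finset (HeightOneSpectrum (𝓞 E))) (δ : HeightOneSpectrum (𝓞 E) → ℤ) :
    AddSubgroup E where
  carrier := {x | ∀ w ∉ S, w.valuation E x ≤ exp (-δ w)}
  zero_mem' w _ := by rw [map_zero]; exact zero_le
  add_mem' ha hb w hw := (Valuation.map_add _ _ _).trans (max_le (ha w hw) (hb w hw))
  neg_mem' ha w hw := by rw [Valuation.map_neg]; exact ha w hw

theorem mem_RE {S : Finset (HeightOneSpectrum (𝓞 E))} {δ : HeightOneSpectrum (𝓞 E) → ℤ} {x : E} :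
    x ∈ RE S δ ↔ ∀ w ∉ S, w.valuation E x ≤ exp (-δ w) := Iff.rfl

/-- elements of `B` with prescribed orders at the places not above `S` -/
def RB (B : Type*) [Field B] [NumberField B] [Algebra E B]
    (S : Finset (HeightOneSpectrum (𝓞 E))) (δ : HeightOneSpectrum (𝓞 B) → ℤ) : AddSubgroup B where
  carrier := {x | ∀ P ∉ aboveSet B (S : Set (HeightOneSpectrum (𝓞 E))),
    P.valuation B x ≤ exp (-δ P)}
  zero_mem' w _ := by rw [map_zero]; exact zero_le
  add_mem' ha hb w hw := (Valuation.map_add _ _ _).trans (max_le (ha w hw) (hb w hw))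
  neg_mem' ha w hw := by rw [Valuation.map_neg]; exact ha w hw

theorem mem_RB {S : Finset (HeightOneSpectrum (𝓞 E))} {δ : HeightOneSpectrum (𝓞 B) → ℤ} {x : B} :
    x ∈ RB B S δ ↔ ∀ P ∉ aboveSet B (S : Set (HeightOneSpectrum (𝓞 E))),
      P.valuation B x ≤ exp (-δ P) := Iff.rfl

open Classical in
/-- the quadratic character of `B/E` on fractional ideals prime to `S` -/
def om (B : Type*) [Field B] [NumberField B] [Algebra E B]
    (S : Finset (HeightOneSpectrum (𝓞 E))) (D : FI E) : ℂ :=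
  ∏ᶠ w : HeightOneSpectrum (𝓞 E), (if w ∉ S ∧ NonSplit B w then (-1 : ℂ) else 1) ^ (cE D w)

/-- the absolute norm of a fractional ideal as a real number -/
def aN (A : FI E) : ℝ := ((absNorm (A : FractionalIdeal (𝓞 E)⁰ E) : ℚ) : ℝ)

/-- `h` is an ideal prime to `S` of norm `n` (given by its orders) -/
structure IsNm (S : Finset (HeightOneSpectrum (𝓞 E))) (τ : B ≃ₐ[E] B) (h : FI B)
    (n : HeightOneSpectrum (𝓞 E) → ℤ) : Prop where
  prime : ∀ P ∈ aboveSet B (S : Set (HeightOneSpectrum (𝓞 E))), cE h P = 0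
  norm : ∀ P ∉ aboveSet B (S : Set (HeightOneSpectrum (𝓞 E))),
    cE h P + cE h (smulPlace τ P) = n (below E P)

/-- the relation between `(A, D, u)` and `(A₁, D₁, u₁)` given by the lower unipotent element `c` -/
def REL (S : Finset (HeightOneSpectrum (𝓞 E))) (c : E) (A D : FI E) (u : E) (A₁ D₁ : FI E)
    (u₁ : E) : Prop :=
  ∀ x y : E, (y ∈ RE S (cE D) ∧ x - u * y ∈ RE S (cE A)) ↔
    (c * x + y ∈ RE S (cE D₁) ∧ x - u₁ * (c * x + y) ∈ RE S (cE A₁))

end ideals

/-! ### The data -/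

/-- The data of the theta kernel. -/
structure DD (E B : Type*) [Field E] [NumberField E] [Field B] [NumberField B] [Algebra E B]
    (J : Type*) [Fintype J] where
  /-- the conjugation -/
  tau : B ≃ₐ[E] B
  /-- one embedding for each complex place of `E` -/
  e : J → (E →+* ℂ)
  /-- extensions of the embeddings -/
  b : J → (B →+* ℂ)
  /-- the bad places -/
  S : Finset (HeightOneSpectrum (𝓞 E))
  /-- the torus part of the type -/
  US : Subgroup Eˣ
  /-- level of `V_S` -/
  n2 : ℕ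
  /-- the Hecke character -/
  chi : Ideal (𝓞 B) →*₀ ℂ

namespace DD

variable {E B : Type*} [Field E] [NumberField E] [Field B] [NumberField B] [Algebra E B]
  {J : Type*} [Fintype J] (d : DD E B J)

/-- `V_S`: elements close to `1` above `S` with norm in `US`. -/
def VS : Set B := {x | (∀ P ∈ aboveSet B (d.S : Set (HeightOneSpectrum (𝓞 E))),
  P.valuation B (x - 1) ≤ exp (-(d.n2 : ℤ))) ∧ ∃ α ∈ d.US, (α : E) = Algebra.norm E x}

theorem mem_VS {x : B} : x ∈ d.VS ↔ (∀ P ∈ aboveSet B (d.S : Set (HeightOneSpectrum (𝓞 E))),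
  P.valuation B (x - 1) ≤ exp (-(d.n2 : ℤ))) ∧ ∃ α ∈ d.US, (α : E) = Algebra.norm E x := Iff.rfl

/-- The properties of the data. -/
structure Good : Prop where
  tau_ne : d.tau ≠ 1
  deg : Module.finrank E B = 2
  hb : ∀ j, (d.b j).comp (algebraMap E B) = d.e j
  he : Function.Bijective fun j => InfinitePlace.mk (d.e j)
  tcE : IsTotallyComplex E
  tcB : IsTotallyComplex B
  ne : d.S.Nonempty
  /-- places above `2` are in `S` -/
  two : ∀ w ∉ d.S, w.valuation E (2 : E) = 1
  /-- ramified places are in `S` -/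
  unr : ∀ w ∉ d.S, ∀ P ∈ above B w, w.asIdeal.ramificationIdx' P.asIdeal = 1
  n2_pos : 0 < d.n2
  /-- `US` is open -/
  US_open : ∃ k : ℕ, ∀ α : Eˣ, (∀ w ∈ d.S, α ∈ congr w k) → α ∈ d.US
  /-- `US` consists of units at `S` -/
  US_unit : ∀ α ∈ d.US, ∀ w ∈ d.S, w.valuation E (α : E) = 1
  /-- norm lifting (from `H77.Z.exists_norm_lift`) -/
  lift : ∀ α ∈ d.US, (∀ w ∉ d.S, NonSplit B w → ∃ k : ℤ, w.valuation E (α : E) = exp (2 * k)) →
    ∃ x : B, x ∈ d.VS ∧ Algebra.norm E x = (α : E)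
  /-- `chi` vanishes exactly at the places above `S` -/
  chi_S : ∀ P : HeightOneSpectrum (𝓞 B), d.chi P.asIdeal = 0 ↔
    P ∈ aboveSet B (d.S : Set (HeightOneSpectrum (𝓞 E)))
  chi_norm : ∀ P ∉ aboveSet B (d.S : Set (HeightOneSpectrum (𝓞 E))), ‖d.chi P.asIdeal‖ = 1
  /-- `chi` is trivial on the principal ideals of elements close to `1` -/
  chi_span : ∀ a : 𝓞 B, (∀ P ∈ aboveSet B (d.S : Set (HeightOneSpectrum (𝓞 E))),
    P.valuation B ((a : B) - 1) ≤ exp (-(d.n2 : ℤ))) → d.chi (Ideal.span {a}) = 1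
  /-- restriction of `chi` to `E` -/
  chi_E : ∀ w ∉ d.S, (NonSplit B w → d.chi (w.asIdeal.map (algebraMap (𝓞 E) (𝓞 B))) = -1) ∧
    (¬ NonSplit B w → d.chi (w.asIdeal.map (algebraMap (𝓞 E) (𝓞 B))) = 1)

/-- orders of the ideal `D h̄⁻¹` -/
def dlt (D : FI E) (h : FI B) (P : HeightOneSpectrum (𝓞 B)) : ℤ :=
  cE D (below E P) - cE h (smulPlace d.tau P)

open Classical in
/-- the finite part of the theta kernel -/
def phi (A D : FI E) (u : E) (h : FI B) (x : B) : ℂ :=
  if x ∈ d.VS ∧ x ∈ RB B d.S (d.dlt D h) then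
    om B d.S D * (((aN (A * D⁻¹)) ^ (-(1 / 2) : ℝ) : ℝ) : ℂ) * psS d.S (u * Algebra.norm E x)
  else 0

/-- (Y): the theta kernel -/
def theta (A D : FI E) (u : E) (h : FI B) (w : J → H3) (s : J → ℝ) : ℂ :=
  H53Z.theta (d.phi A D u h) (fun x j => d.b j x) (fun x j => d.b j (d.tau x)) w s

open Classical in
/-- coefficient of the explicit series -/
def sco (a : FI E) (u : E) (α : Eˣ) : ℂ :=
  if α ∈ d.US then
    H33D.cf d.chi (spanSingleton (𝓞 E)⁰ (α : E) * (a : FractionalIdeal (𝓞 E)⁰ E)) *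
      psS d.S (u * α)
  else 0

/-- (X): the explicit series, a function of `a = A / D` and `u` -/
def ser (a : FI E) (u : E) (w : J → H3) : ℂ :=
  (((aN a) ^ (-(1 / 2) : ℝ) : ℝ) : ℂ) *
    ∑' α : Eˣ, d.sco a u α * kterm (fun j => d.e j α) w

/-- the action of the lower unipotent element on `J → ℍ³` -/
def nbAct (c : E) (w : J → H3) : J → H3 :=
  fun j => Matrix.GeneralLinearGroup.map (d.e j) (H76U.lM c) • w j

end DD

/-- **(NBAR-theta)**: the invariance of the theta kernel under the lower unipotent elements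
which are small at `S`. -/
def NbarTheta {E B : Type*} [Field E] [NumberField E] [Field B] [NumberField B] [Algebra E B]
    {J : Type*} [Fintype J] (d : DD E B J) (CS : Set E) : Prop :=
  ∀ c ∈ CS, ∀ (A D : FI E) (u : E) (A₁ D₁ : FI E) (u₁ : E) (h : FI B),
    (∀ w ∈ d.S, cE A w = 0 ∧ cE D w = 0 ∧ cE A₁ w = 0 ∧ cE D₁ w = 0) →
    REL d.S c A D u A₁ D₁ u₁ → IsNm d.S d.tau h (cE (A * D)) →
    IsNm d.S d.tau h (cE (A₁ * D₁)) → ∀ (w : J → H3) (s : J → ℝ),
      d.theta A₁ D₁ u₁ h (d.nbAct c w) s = d.theta A D u h w s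

/-- **(NBAR-ser)**: the invariance of the explicit series. -/
def NbarSer {E B : Type*} [Field E] [NumberField E] [Field B] [NumberField B] [Algebra E B]
    {J : Type*} [Fintype J] (d : DD E B J) (CS : Set E) : Prop :=
  ∀ c ∈ CS, ∀ (A D : FI E) (u : E) (A₁ D₁ : FI E) (u₁ : E),
    (∀ w ∈ d.S, cE A w = 0 ∧ cE D w = 0 ∧ cE A₁ w = 0 ∧ cE D₁ w = 0) →
    REL d.S c A D u A₁ D₁ u₁ → ∀ w : J → H3,
      d.ser (A₁ * D₁⁻¹) u₁ (d.nbAct c w) = d.ser (A * D⁻¹) u w

end Fermat.Agent.H71D
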