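import Fermat.Agent.H13Z9
import Fermat.Agent.H71UDefs

set_option autoImplicit false
set_option linter.unusedSectionVars false

/-!
# Two reductions for the theta kernel of block (D) (helper13)

* `nb_red`: the invariance of the theta functional under lower unipotent elements from an identity
  of finite Fourier transforms;
* `exists_VS_add`: `V_S` is stable under elements which are small above `S`.
-/

noncomputable section

open MeasureTheory Set NumberField Matrix IsDedekindDomain WithZero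
open scoped MatrixGroups Pointwise

namespace Fermat.Agent.H13Z

open Fermat.Agent.H66D Fermat.Agent.H71D
open Fermat.Agent.H47 (smulPlace below)
open Fermat.Agent.H82 (above aboveSet NonSplit congr)

variable {E B : Type*} [Field E] [NumberField E] [Field B] [NumberField B] [Algebra E B]
  {J : Type*} [Fintype J]

theorem er_eq_ee (q : ℚ) : er (q : ℝ) = H7.Z.ee q := by
  rw [er, H7.Z.ee, Complex.ofReal_ratCast]

/-- The finite Fourier transform (without the volume factor). -/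
def HF (τ : B ≃ₐ[E] B) (φ : B → ℂ) (x : B) : ℂ :=
  HIfun (OLat B) fun y => er ((Algebra.trace ℚ B (x * τ y) : ℚ) : ℝ) * φ y

/-- The theta data of `d`. -/
def tdD {d : DD E B J} (hd : d.Good) :
    TD (OLat B) J (Module.Free.ChooseBasisIndex ℤ (𝓞 B)) :=
  haveI := hd.tcE
  numTD d.e d.b d.tau hd.hb hd.he hd.tau_ne hd.deg

theorem tdD_T {d : DD E B J} (hd : d.Good) (x y : B) :
    (tdD hd).T x y = ((Algebra.trace ℚ B (x * d.tau y) : ℚ) : ℝ) := by
  have := hd.tcE
  exact numTD_T d.e d.b d.tau hd.hb hd.he hd.tau_ne hd.deg x y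

theorem FT_eq_HF {d : DD E B J} (hd : d.Good) (φ : B → ℂ) (x : B) :
    (tdD hd).FT φ x = (tdD hd).vol * HF d.tau φ x := by
  rw [TD.FT, HF]
  simp only [tdD_T]

theorem lower_mul (c : ℂ) (w : H3) :
    H3.wMat • (GeneralLinearGroup.mkOfDetNeZero !![1, 0; c, 1] (by simp [Matrix.det_fin_two_of]) :
      GL (Fin 2) ℂ) • w = H3.nMat (-c) • H3.wMat • w := by
  rw [← mul_smul, ← mul_smul]
  congr 1
  ext i k
  fin_cases i <;> fin_cases k <;>
    simp [H3.wMat, H3.nMat, GeneralLinearGroup.mkOfDetNeZero, Matrix.mul_apply, Fin.sum_univ_two]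

theorem wMat_nbAct (d : DD E B J) (c : E) (w : J → H3) (j : J) :
    H3.wMat • d.nbAct c w j = H3.nMat (d.e j (-c)) • H3.wMat • w j := by
  rw [map_neg, ← lower_mul, DD.nbAct]
  congr 2
  ext i k
  fin_cases i <;> fin_cases k <;>
    simp [H76U.lM, GeneralLinearGroup.mkOfDetNeZero]

/-- **[NB-RED]** -/
theorem nb_red {d : DD E B J} (hd : d.Good) {c : E} {φ φ₁ : B → ℂ} (hφ : φ ∈ SF (OLat B))
    (hφ₁ : φ₁ ∈ SF (OLat B))
    (h : ∀ x, HF d.tau φ x =
      er (-((Algebra.trace ℚ E (c * Algebra.norm E x) : ℚ) : ℝ)) * HF d.tau φ₁ x)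
    (w : J → H3) (s : J → ℝ) :
    thB d.b d.tau φ₁ (d.nbAct c w) s = thB d.b d.tau φ w s := by
  have := hd.tcE
  rw [← th_eq_theta d.e d.b d.tau hd.hb hd.he hd.tau_ne hd.deg,
    ← th_eq_theta d.e d.b d.tau hd.hb hd.he hd.tau_ne hd.deg,
    ← TD.th_FT _ (exp_ne s) _ hφ₁, ← TD.th_FT _ (exp_ne s) _ hφ]
  simp_rw [wMat_nbAct]
  rw [TD.th_nMat _ (exp_ne s)]
  congr 1
  funext x
  have h1 := FT_eq_HF hd φ x
  have h2 := FT_eq_HF hd φ₁ x
  rw [tdD] at h1 h2
  rw [h1, h2, h, numTD_emb, QF_embN d.e d.b d.tau hd.hb hd.he hd.tau_ne hd.deg]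
  have h3 : ((Algebra.trace ℚ E (-c * Algebra.norm E x) : ℚ) : ℝ) =
      -((Algebra.trace ℚ E (c * Algebra.norm E x) : ℚ) : ℝ) := by
    rw [neg_mul, map_neg]
    push_cast
    rfl
  rw [h3]
  ring

/-- **[NB-RED]**, with the Fourier transforms of the theta data and the character `ee`. -/
theorem nb_red_FT {d : DD E B J} (hd : d.Good) {c : E} {φ φ₁ : B → ℂ} (hφ : φ ∈ SF (OLat B))
    (hφ₁ : φ₁ ∈ SF (OLat B))
    (h : ∀ x, (tdD hd).FT φ x =
      H7.Z.ee (-(Algebra.trace ℚ E (c * Algebra.norm E x))) * (tdD hd).FT φ₁ x)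
    (w : J → H3) (s : J → ℝ) :
    thB d.b d.tau φ₁ (d.nbAct c w) s = thB d.b d.tau φ w s := by
  refine nb_red hd hφ hφ₁ (fun x => ?_) w s
  have h1 := h x
  rw [FT_eq_HF hd, FT_eq_HF hd, mul_left_comm] at h1
  have hv : ((tdD hd).vol : ℂ) ≠ 0 := by exact_mod_cast (tdD hd).vol_pos.ne'
  have h2 := mul_left_cancel₀ hv h1
  rw [h2, ← er_eq_ee]
  congr 2
  push_cast
  rfl

/-! ### `V_S` is open -/

section VS

theorem exists_ram_le (S : Finset (HeightOneSpectrum (𝓞 E))) :
    ∃ M : ℕ, ∀ w ∈ S, ∀ P ∈ above B w, w.asIdeal.ramificationIdx' P.asIdeal ≤ M := by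
  have hfin : (⋃ w ∈ (S : Set (HeightOneSpectrum (𝓞 E))),
      (fun P : HeightOneSpectrum (𝓞 B) => w.asIdeal.ramificationIdx' P.asIdeal) ''
        above B w).Finite :=
    S.finite_toSet.biUnion fun w _ => (H65.finite_above w).image _
  obtain ⟨M, hM⟩ := hfin.bddAbove
  exact ⟨M, fun w hw P hP => hM (Set.mem_biUnion (Finset.mem_coe.mpr hw) ⟨P, hP, rfl⟩)⟩

/-- a common bound for the ramification indices above `S` -/
theorem exists_ram_bound (S : Finset (HeightOneSpectrum (𝓞 E))) (k : ℕ) :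
    ∃ K : ℕ, ∀ w ∈ S, ∀ P ∈ above B w, ∀ a : E,
      P.valuation B (algebraMap E B a) ≤ exp (-(K : ℤ)) → w.valuation E a ≤ exp (-(k : ℤ)) := by
  obtain ⟨M, hM⟩ := exists_ram_le (B := B) S
  refine ⟨k * M, ?_⟩
  intro w hw P hP a ha
  by_contra hcon
  push Not at hcon
  rw [H82.valuation_above hP] at ha
  have h1 := hM w hw P hP
  have h0 := H82.ramificationIdx'_ne_zero hP
  generalize w.asIdeal.ramificationIdx' P.asIdeal = r at ha h1 h0
  have h2 : (exp (-(k : ℤ)) : WithZero (Multiplicative ℤ)) ^ r < w.valuation E a ^ r :=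
    pow_lt_pow_left₀ hcon zero_le h0
  have h3 := h2.trans_le ha
  rw [← WithZero.exp_nsmul, exp_lt_exp, nsmul_eq_mul] at h3
  have h4 : (r : ℤ) * k ≤ (k : ℤ) * M := by
    rw [mul_comm]
    exact mul_le_mul_of_nonneg_left (by exact_mod_cast h1) (by positivity)
  push_cast at h3
  linarith

/-- **[L-PER]** -/
theorem exists_VS_add {d : DD E B J} (hd : d.Good) : ∃ k : ℕ, ∀ x ∈ d.VS, ∀ y : B,
    (∀ P ∈ aboveSet B (d.S : Set (HeightOneSpectrum (𝓞 E))),
      P.valuation B y ≤ exp (-(k : ℤ))) → x + y ∈ d.VS := by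
  have htc := hd.tcE
  obtain ⟨k₀, hk₀⟩ := hd.US_open
  obtain ⟨K, hK⟩ := exists_ram_bound (B := B) d.S (max k₀ 1)
  refine ⟨max (max d.n2 K) 1, ?_⟩
  rintro x ⟨hx1, α, hα, hαx⟩ y hy
  have hn2 := hd.n2_pos
  -- `x` is a unit above `S`
  have hxu : ∀ P ∈ aboveSet B (d.S : Set (HeightOneSpectrum (𝓞 E))), P.valuation B x = 1 := by
    intro P hP
    have h1 : P.valuation B (x - 1) < 1 := (hx1 P hP).trans_lt (by
      rw [← exp_zero, exp_lt_exp]; omega)
    have h2 := Valuation.map_add_eq_of_lt_right (P.valuation B) (x := x - 1) (y := 1)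
      (by rw [map_one]; exact h1)
    rw [sub_add_cancel, map_one] at h2
    exact h2
  have hx0 : x ≠ 0 := by
    rintro rfl
    obtain ⟨w, hw⟩ := hd.ne
    obtain ⟨P, hP⟩ := H47.above_nonempty (L := B) w
    have := hxu P ⟨w, hw, hP⟩
    rw [map_zero] at this
    exact zero_ne_one this
  set z := y / x with hz
  have hzx : x + y = x * (1 + z) := by rw [hz]; field_simp
  have hzv : ∀ P ∈ aboveSet B (d.S : Set (HeightOneSpectrum (𝓞 E))),
      P.valuation B z ≤ exp (-((max (max d.n2 K) 1 : ℕ) : ℤ)) := by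
    intro P hP
    rw [hz, map_div₀, hxu P hP, div_one]
    exact hy P hP
  have hzt : ∀ P ∈ aboveSet B (d.S : Set (HeightOneSpectrum (𝓞 E))),
      P.valuation B (d.tau z) ≤ exp (-((max (max d.n2 K) 1 : ℕ) : ℤ)) := by
    intro P hP
    have h1 := H47.valuation_smulPlace d.tau (smulPlace d.tau P) z
    have h3 : d.tau * d.tau = 1 := by
      ext x
      exact H73U.tau_tau d.tau hd.tau_ne hd.deg x
    have h2 : smulPlace d.tau (smulPlace d.tau P) = P := by
      apply HeightOneSpectrum.ext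
      rw [H47.smulPlace_asIdeal, H47.smulPlace_asIdeal, smul_smul, h3, one_smul]
    rw [h2] at h1
    rw [h1]
    exact hzv _ ((H47.smulPlace_mem_aboveSet_iff d.tau).mpr hP)
  have hle1 : exp (-((max (max d.n2 K) 1 : ℕ) : ℤ)) ≤ (1 : WithZero (Multiplicative ℤ)) := by
    rw [← exp_zero, exp_le_exp]; omega
  have hlt1 : exp (-((max (max d.n2 K) 1 : ℕ) : ℤ)) < (1 : WithZero (Multiplicative ℤ)) := by
    rw [← exp_zero, exp_lt_exp]; omega
  -- the norm of `1 + z`
  have hN : algebraMap E B (Algebra.norm E (1 + z) - 1) = z + d.tau z + z * d.tau z := by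
    rw [map_sub, norm_eq_mul d.tau hd.tau_ne hd.deg, map_one, map_add, map_one]
    ring
  have hNv : ∀ w ∈ d.S, w.valuation E (Algebra.norm E (1 + z) - 1) ≤ exp (-((max k₀ 1 : ℕ) : ℤ)) := by
    intro w hw
    obtain ⟨P, hP⟩ := H47.above_nonempty (L := B) w
    have hPS : P ∈ aboveSet B (d.S : Set (HeightOneSpectrum (𝓞 E))) := ⟨w, hw, hP⟩
    refine hK w hw P hP _ ?_
    rw [hN]
    have h1 : exp (-((max (max d.n2 K) 1 : ℕ) : ℤ)) ≤
        (exp (-(K : ℤ)) : WithZero (Multiplicative ℤ)) := by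
      rw [exp_le_exp]; omega
    refine (Valuation.map_add _ _ _).trans (max_le ((Valuation.map_add _ _ _).trans
      (max_le ((hzv P hPS).trans h1) ((hzt P hPS).trans h1))) ?_)
    rw [map_mul]
    calc P.valuation B z * P.valuation B (d.tau z)
        ≤ exp (-((max (max d.n2 K) 1 : ℕ) : ℤ)) * 1 :=
          mul_le_mul' (hzv P hPS) ((hzt P hPS).trans hle1)
      _ ≤ exp (-(K : ℤ)) := by rw [mul_one]; exact h1
  have hN1 : ∀ w ∈ d.S, w.valuation E (Algebra.norm E (1 + z)) = 1 := by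
    intro w hw
    have h1 : w.valuation E (Algebra.norm E (1 + z) - 1) < 1 := (hNv w hw).trans_lt (by
      rw [← exp_zero, exp_lt_exp]; omega)
    have h2 := Valuation.map_add_eq_of_lt_right (w.valuation E)
      (x := Algebra.norm E (1 + z) - 1) (y := 1) (by rw [map_one]; exact h1)
    rw [sub_add_cancel, map_one] at h2
    exact h2
  have hN0 : Algebra.norm E (1 + z) ≠ 0 := by
    intro h0
    obtain ⟨w, hw⟩ := hd.ne
    have := hN1 w hw
    rw [h0, map_zero] at this
    exact zero_ne_one this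
  have hβ : Units.mk0 _ hN0 ∈ d.US := by
    refine hk₀ _ fun w hw => ⟨?_, ?_⟩
    · rw [Units.val_mk0]
      exact hN1 w hw
    · rw [Units.val_mk0]
      refine (hNv w hw).trans ?_
      rw [exp_le_exp]
      omega
  refine ⟨fun P hP => ?_, α * Units.mk0 _ hN0, d.US.mul_mem hα hβ, ?_⟩
  · have h1 : x + y - 1 = (x - 1) + y := by ring
    rw [h1]
    refine (Valuation.map_add _ _ _).trans (max_le (hx1 P hP) ((hy P hP).trans ?_))
    rw [exp_le_exp]
    omega
  · rw [Units.val_mul, Units.val_mk0, hαx, hzx, map_mul]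

end VS

end Fermat.Agent.H13Z
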