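import Fermat.Agent.H13ZA

set_option autoImplicit false
set_option linter.unusedSectionVars false

/-!
# The period of `V_S` above `S` (helper13)

`VS_add` is the version of `exists_VS_add` with explicit constants: if `US` contains the elements
which are congruent to `1` modulo `w ^ n w` at the places `w` of `S`, then `V_S` is stable under
translation by the elements of `w ^ n w O_B` (`w` in `S`).
-/

noncomputable section

open MeasureTheory Set NumberField Matrix IsDedekindDomain WithZero
open scoped MatrixGroups Pointwise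

namespace Fermat.Agent.H13Z

open Fermat.Agent.H66D Fermat.Agent.H71D
open Fermat.Agent.H47 (smulPlace below)
open Fermat.Agent.H82 (above aboveSet NonSplit congr)

variable {E B : Type*} [Field E] [NumberField E] [Field B] [NumberField B] [Algebra E B]
  {J : Type*} [Fintype J]

/-- The ramification index is invariant under automorphisms. -/
theorem ram_smulPlace (τ : B ≃ₐ[E] B) {w : HeightOneSpectrum (𝓞 E)}
    {P : HeightOneSpectrum (𝓞 B)} (hP : P ∈ above B w) :
    w.asIdeal.ramificationIdx' (smulPlace τ P).asIdeal = w.asIdeal.ramificationIdx' P.asIdeal := by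
  obtain ⟨a, ha⟩ := w.valuation_exists_uniformizer E
  have h1 := H47.valuation_smulPlace τ P (algebraMap E B a)
  rw [AlgEquiv.commutes, H82.valuation_above hP,
    H82.valuation_above (H47.smulPlace_mem_above τ hP), ha, ← WithZero.exp_nsmul,
    ← WithZero.exp_nsmul, WithZero.exp_inj] at h1
  simpa using h1

/-- descent of a bound on the valuation from `P` to `w` -/
theorem valuation_le_of_above {w : HeightOneSpectrum (𝓞 E)} {P : HeightOneSpectrum (𝓞 B)}
    (hP : P ∈ above B w) (m : ℕ) (a : E)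
    (h : P.valuation B (algebraMap E B a) ≤
      exp (-((w.asIdeal.ramificationIdx' P.asIdeal * m : ℕ) : ℤ))) :
    w.valuation E a ≤ exp (-(m : ℤ)) := by
  by_contra hcon
  push Not at hcon
  rw [H82.valuation_above hP] at h
  have h0 := H82.ramificationIdx'_ne_zero hP
  generalize w.asIdeal.ramificationIdx' P.asIdeal = r at h h0
  have h2 : (exp (-(m : ℤ)) : WithZero (Multiplicative ℤ)) ^ r < w.valuation E a ^ r :=
    pow_lt_pow_left₀ hcon zero_le h0
  have h3 := h2.trans_le h
  rw [← WithZero.exp_nsmul, exp_lt_exp, nsmul_eq_mul] at h3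
  push_cast at h3
  linarith

/-- **[L-PER]**, uniform version -/
theorem VS_add' {d : DD E B J} (hd : d.Good) {m : HeightOneSpectrum (𝓞 E) → ℕ}
    (hn : ∀ α : Eˣ, (∀ w ∈ d.S, α ∈ congr w (m w)) → α ∈ d.US)
    (hm : ∀ w ∈ d.S, d.n2 ≤ m w) {x : B} (hx : x ∈ d.VS) {y : B}
    (hy : ∀ w ∈ d.S, ∀ P ∈ above B w, P.valuation B y ≤
      exp (-((w.asIdeal.ramificationIdx' P.asIdeal * m w : ℕ) : ℤ))) : x + y ∈ d.VS := by
  have htc := hd.tcE
  obtain ⟨hx1, α, hα, hαx⟩ := hx
  have hn2 := hd.n2_pos
  -- `x` is a unit above `S`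
  have hxu : ∀ P ∈ aboveSet B (d.S : Set (HeightOneSpectrum (𝓞 E))), P.valuation B x = 1 := by
    intro P hP
    have h1 : P.valuation B (x - 1) < 1 := (hx1 P hP).trans_lt (by
      rw [← exp_zero, exp_lt_exp]; omega)
    have h2 := Valuation.map_add_eq_of_lt_right (P.valuation B) (x := x - 1) (y := 1)
      (by rw [map_one]; exact h1)
    rw [sub_add_cancel, map_one] at h2
    exact h2
  have hx0 : x ≠ 0 := by
    rintro rfl
    obtain ⟨w, hw⟩ := hd.ne
    obtain ⟨P, hP⟩ := H47.above_nonempty (L := B) w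
    have := hxu P ⟨w, hw, hP⟩
    rw [map_zero] at this
    exact zero_ne_one this
  set z := y / x with hz
  have hzx : x + y = x * (1 + z) := by rw [hz]; field_simp
  have hzv : ∀ w ∈ d.S, ∀ P ∈ above B w, P.valuation B z ≤
      exp (-((w.asIdeal.ramificationIdx' P.asIdeal * m w : ℕ) : ℤ)) := by
    intro w hw P hP
    rw [hz, map_div₀, hxu P ⟨w, hw, hP⟩, div_one]
    exact hy w hw P hP
  have hzt : ∀ w ∈ d.S, ∀ P ∈ above B w, P.valuation B (d.tau z) ≤
      exp (-((w.asIdeal.ramificationIdx' P.asIdeal * m w : ℕ) : ℤ)) := by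
    intro w hw P hP
    have h1 := H47.valuation_smulPlace d.tau (smulPlace d.tau P) z
    have h3 : d.tau * d.tau = 1 := by
      ext x
      exact H73U.tau_tau d.tau hd.tau_ne hd.deg x
    have h2 : smulPlace d.tau (smulPlace d.tau P) = P := by
      apply HeightOneSpectrum.ext
      rw [H47.smulPlace_asIdeal, H47.smulPlace_asIdeal, smul_smul, h3, one_smul]
    rw [h2] at h1
    rw [h1, ← ram_smulPlace d.tau hP]
    exact hzv w hw _ (H47.smulPlace_mem_above d.tau hP)
  -- the norm of `1 + z`
  have hN : algebraMap E B (Algebra.norm E (1 + z) - 1) = z + d.tau z + z * d.tau z := by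
    rw [map_sub, norm_eq_mul d.tau hd.tau_ne hd.deg, map_one, map_add, map_one]
    ring
  have hNv : ∀ w ∈ d.S, w.valuation E (Algebra.norm E (1 + z) - 1) ≤ exp (-(m w : ℤ)) := by
    intro w hw
    obtain ⟨P, hP⟩ := H47.above_nonempty (L := B) w
    refine valuation_le_of_above hP _ _ ?_
    have hle1 : exp (-((w.asIdeal.ramificationIdx' P.asIdeal * m w : ℕ) : ℤ)) ≤
        (1 : WithZero (Multiplicative ℤ)) := by
      rw [← exp_zero, exp_le_exp]; omega
    rw [hN]
    refine (Valuation.map_add _ _ _).trans (max_le ((Valuation.map_add _ _ _).trans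
      (max_le (hzv w hw P hP) (hzt w hw P hP))) ?_)
    rw [map_mul]
    calc P.valuation B z * P.valuation B (d.tau z)
        ≤ exp (-((w.asIdeal.ramificationIdx' P.asIdeal * m w : ℕ) : ℤ)) * 1 :=
          mul_le_mul' (hzv w hw P hP) ((hzt w hw P hP).trans hle1)
      _ = _ := mul_one _
  have hN1 : ∀ w ∈ d.S, w.valuation E (Algebra.norm E (1 + z)) = 1 := by
    intro w hw
    have h0 := hm w hw
    have h1 : w.valuation E (Algebra.norm E (1 + z) - 1) < 1 := (hNv w hw).trans_lt (by
      rw [← exp_zero, exp_lt_exp]; omega)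
    have h2 := Valuation.map_add_eq_of_lt_right (w.valuation E)
      (x := Algebra.norm E (1 + z) - 1) (y := 1) (by rw [map_one]; exact h1)
    rw [sub_add_cancel, map_one] at h2
    exact h2
  have hN0 : Algebra.norm E (1 + z) ≠ 0 := by
    intro h0
    obtain ⟨w, hw⟩ := hd.ne
    have := hN1 w hw
    rw [h0, map_zero] at this
    exact zero_ne_one this
  have hβ : Units.mk0 _ hN0 ∈ d.US := by
    refine hn _ fun w hw => ⟨?_, ?_⟩
    · rw [Units.val_mk0]
      exact hN1 w hw
    · rw [Units.val_mk0]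
      exact hNv w hw
  refine ⟨?_, α * Units.mk0 _ hN0, d.US.mul_mem hα hβ, ?_⟩
  · rintro P ⟨w, hw, hP⟩
    have h1 : x + y - 1 = (x - 1) + y := by ring
    rw [h1]
    refine (Valuation.map_add _ _ _).trans (max_le (hx1 P ⟨w, hw, hP⟩)
      ((hy w hw P hP).trans ?_))
    rw [exp_le_exp, neg_le_neg_iff, Int.ofNat_le]
    exact (hm w hw).trans (Nat.le_mul_of_pos_left _
      (Nat.pos_of_ne_zero (H82.ramificationIdx'_ne_zero hP)))
  · rw [Units.val_mul, Units.val_mk0, hαx, hzx, map_mul]

/-- **[L-PER]**, uniform version, the period in terms of `below E P` -/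
theorem VS_add {d : DD E B J} (hd : d.Good) {m : HeightOneSpectrum (𝓞 E) → ℕ}
    (hn : ∀ α : Eˣ, (∀ w ∈ d.S, α ∈ congr w (m w)) → α ∈ d.US)
    (hm : ∀ w ∈ d.S, d.n2 ≤ m w) {x : B} (hx : x ∈ d.VS) {y : B}
    (hy : ∀ P ∈ aboveSet B (d.S : Set (HeightOneSpectrum (𝓞 E))), P.valuation B y ≤
      exp (-(((below E P).asIdeal.ramificationIdx' P.asIdeal * m (below E P) : ℕ) : ℤ))) :
    x + y ∈ d.VS := by
  refine VS_add' hd hn hm hx fun w hw P hP => ?_
  have h1 := hy P ⟨w, hw, hP⟩
  rwa [← H47.eq_below_of_mem_above hP] at h1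

end Fermat.Agent.H13Z
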