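import Mathlib
set_option autoImplicit false

/-!
[U] of S14: eigenspaces of a generator of `Gal(ℚ(ζ_p)/ℚ)` on units modulo `p`-th powers.
-/

namespace Fermat.Agent.H46U

open NumberField Polynomial Module

section cyclic

variable {G P : Type*} [Group G] [MulAction G P] [Fintype P] [DecidableEq P]

/-- The permutation operator on functions. -/
def shiftOp (σ : G) : (P → ℝ) →ₗ[ℝ] (P → ℝ) where
  toFun φ := fun w => φ (σ⁻¹ • w)
  map_add' _ _ := rfl
  map_smul' _ _ := rfl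

omit [Fintype P] in
theorem shiftOp_pow_single (σ : G) (w₀ : P) (i : ℕ) :
    (shiftOp σ ^ i) (Pi.single w₀ (1 : ℝ)) = Pi.single (σ ^ i • w₀) 1 := by
  induction i with
  | zero => simp
  | succ i ih =>
    rw [pow_succ', Module.End.mul_apply, ih]
    funext w
    simp only [shiftOp, LinearMap.coe_mk, AddHom.coe_mk, Pi.single_apply]
    congr 1
    rw [pow_succ', mul_smul, inv_smul_eq_iff]

/-- A monic polynomial of degree `n = #P` killing the shift operator of a transitive cyclic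
action is `X^n - 1`. -/
theorem eq_X_pow_sub_one (σ : G) (w₀ : P)
    (htrans : ∀ w : P, ∃ k : ℤ, w = σ ^ k • w₀) (h : ℝ[X]) (hmon : h.Monic)
    (hdeg : h.natDegree = Fintype.card P) (hkill : aeval (shiftOp (P := P) σ) h = 0) :
    h = X ^ (Fintype.card P) - 1 := by
  classical
  set n := Fintype.card P with hn
  have hper : Function.minimalPeriod (σ • ·) w₀ = n := by
    have : Fintype (MulAction.orbit (Subgroup.zpowers σ) w₀) := Fintype.ofFinite _
    rw [MulAction.minimalPeriod_eq_card, hn]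
    refine Fintype.card_of_bijective (f := Subtype.val) ⟨Subtype.val_injective, fun w => ?_⟩
    obtain ⟨k, hk⟩ := htrans w
    exact ⟨⟨w, ⟨⟨σ ^ k, ⟨k, rfl⟩⟩, hk.symm⟩⟩, rfl⟩
  have hnpos : 0 < n := Fintype.card_pos_iff.mpr ⟨w₀⟩
  have hinj : ∀ i j : ℕ, i < n → j < n → σ ^ i • w₀ = σ ^ j • w₀ → i = j := by
    intro i j hi hj hij
    have h1 : σ ^ ((i : ℤ) - j) • w₀ = w₀ := by
      rw [sub_eq_neg_add, zpow_add, mul_smul, zpow_natCast, hij, ← zpow_natCast, ← mul_smul,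
        ← zpow_add]
      simp
    rw [MulAction.zpow_smul_eq_iff_minimalPeriod_dvd, hper] at h1
    obtain ⟨c, hc⟩ := h1
    have : c = 0 := by
      by_contra hc0
      have h2 : (n : ℤ) ≤ |(i : ℤ) - j| := by
        rw [hc, abs_mul, Nat.abs_cast]
        exact le_mul_of_one_le_right (by positivity) (Int.one_le_abs hc0)
      have h3 : |(i : ℤ) - j| < n := by rw [abs_lt]; omega
      omega
    rw [this, mul_zero] at hc
    omega
  have hn0 : σ ^ n • w₀ = w₀ := by
    rw [MulAction.pow_smul_eq_iff_minimalPeriod_dvd, hper]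
  have hsum : ∑ i ∈ Finset.range (n + 1), h.coeff i • (Pi.single (σ ^ i • w₀) (1 : ℝ) : P → ℝ) =
      0 := by
    have h1 := congrArg (fun T => T (Pi.single w₀ (1 : ℝ))) hkill
    simp only [LinearMap.zero_apply] at h1
    rw [aeval_eq_sum_range, hdeg] at h1
    rw [LinearMap.sum_apply] at h1
    rw [← h1]
    refine Finset.sum_congr rfl fun i _ => ?_
    rw [LinearMap.smul_apply, shiftOp_pow_single]
  have hlead : h.coeff n = 1 := by rw [← hdeg]; exact hmon
  have hmid : ∀ j, 0 < j → j < n → h.coeff j = 0 := by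
    intro j hj0 hj
    have h1 := congrFun hsum (σ ^ j • w₀)
    rw [Finset.sum_apply, Finset.sum_eq_single j] at h1
    · simpa using h1
    · intro i hi hij
      simp only [Pi.smul_apply, smul_eq_mul, Pi.single_apply]
      rw [if_neg, mul_zero]
      intro h2
      rcases (Nat.lt_succ_iff_lt_or_eq.mp (Finset.mem_range.mp hi)) with h3 | h3
      · exact hij (hinj _ _ h3 hj h2.symm)
      · rw [h3, hn0] at h2
        have := hinj j 0 hj hnpos (by simpa using h2)
        omega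
    · intro h2
      exact absurd (Finset.mem_range.mpr (by omega)) h2
  have hzero : h.coeff 0 = -1 := by
    have h1 := congrFun hsum w₀
    rw [Finset.sum_apply, Finset.sum_range_succ] at h1
    rw [Finset.sum_eq_single 0] at h1
    · simp only [pow_zero, one_smul, Pi.smul_apply, Pi.single_eq_same, smul_eq_mul, mul_one,
        hn0, hlead, Pi.zero_apply] at h1
      linarith
    · intro i hi hi0
      simp only [Pi.smul_apply, smul_eq_mul, Pi.single_apply]
      rw [if_neg, mul_zero]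
      intro h2
      exact hi0 (hinj i 0 (Finset.mem_range.mp hi) hnpos (by simpa using h2.symm))
    · intro h2
      exact absurd (Finset.mem_range.mpr hnpos) h2
  ext i
  rw [coeff_sub, coeff_X_pow, coeff_one]
  rcases Nat.eq_zero_or_pos i with rfl | hi
  · rw [hzero, if_neg (by omega), if_pos rfl]; norm_num
  · rcases lt_trichotomy i n with h1 | h1 | h1
    · rw [hmid i hi h1, if_neg (by omega), if_neg (by omega)]; norm_num
    · rw [h1, hlead, if_pos rfl, if_neg (by omega)]; norm_num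
    · rw [coeff_eq_zero_of_natDegree_lt (by omega), if_neg (by omega), if_neg (by omega)]
      norm_num

end cyclic

section logs

variable {K : Type*} [Field K] [NumberField K]

open NumberField.Units NumberField.Units.dirichletUnitTheorem NumberField.InfinitePlace

/-- the action of an automorphism on units -/
noncomputable def unitMap (σ : K ≃ₐ[ℚ] K) : (𝓞 K)ˣ →* (𝓞 K)ˣ :=
  Units.map (RingOfIntegers.mapRingHom (σ : K →+* K) : 𝓞 K →* 𝓞 K)

theorem coe_unitMap (σ : K ≃ₐ[ℚ] K) (u : (𝓞 K)ˣ) :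
    (((unitMap σ u : (𝓞 K)ˣ) : 𝓞 K) : K) = σ ((u : 𝓞 K) : K) := rfl

variable (K) in
/-- full logarithmic map -/
noncomputable def logMap : Additive (𝓞 K)ˣ →+ (InfinitePlace K → ℝ) where
  toFun x w := Real.log (w ((x.toMul : 𝓞 K) : K))
  map_zero' := by simp; rfl
  map_add' x y := by
    funext w
    simp only [toMul_add, Units.val_mul, map_mul, Pi.add_apply]
    exact Real.log_mul (pos_at_place _ w).ne' (pos_at_place _ w).ne'

theorem logMap_torsion (x : (𝓞 K)ˣ) (hx : x ∈ torsion K) : logMap K (Additive.ofMul x) = 0 := by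
  funext w
  show Real.log (w ((x : 𝓞 K) : K)) = 0
  rw [(mem_torsion K).mp hx w, Real.log_one]

theorem logMap_sum (hm : ∀ w : InfinitePlace K, w.mult = 2) (x : Additive (𝓞 K)ˣ) :
    ∑ w, logMap K x w = 0 := by
  have h := sum_mult_mul_log x.toMul
  simp only [hm, ← Finset.mul_sum] at h
  push_cast at h
  have h2 : (2 : ℝ) ≠ 0 := by norm_num
  exact (mul_eq_zero.mp h).resolve_left h2

theorem logMap_span (hm : ∀ w : InfinitePlace K, w.mult = 2) (φ : InfinitePlace K → ℝ)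
    (hφ : ∑ w, φ w = 0) : φ ∈ Submodule.span ℝ (Set.range (logMap K)) := by
  classical
  let ρ : (InfinitePlace K → ℝ) →ₗ[ℝ] logSpace K :=
    { toFun := fun φ w => 2 * φ w.1
      map_add' := fun a b => by funext w; simp [mul_add]
      map_smul' := fun c a => by funext w; simp [mul_left_comm] }
  have hρ : ∀ x, ρ (logMap K x) = logEmbedding K x := by
    intro x
    funext w
    show 2 * Real.log (w.1 ((x.toMul : 𝓞 K) : K)) = (w.1.mult : ℝ) * Real.log (w.1 ((x.toMul : 𝓞 K) : K))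
    rw [hm]; norm_num
  have htop : Submodule.span ℝ (Set.range (logEmbedding K)) = ⊤ := by
    rw [← unitLattice_span_eq_top K]
    congr 1
    ext x
    simp only [Set.mem_range, unitLattice, SetLike.mem_coe, Submodule.mem_map, Submodule.mem_top,
      true_and]
    rfl
  have h1 : ρ φ ∈ Submodule.map ρ (Submodule.span ℝ (Set.range (logMap K))) := by
    rw [Submodule.map_span, ← Set.range_comp]
    have : (ρ ∘ (logMap K : Additive (𝓞 K)ˣ → _)) = logEmbedding K := funext hρ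
    rw [this, htop]; trivial
  obtain ⟨ψ, hψ, hψφ⟩ := h1
  have hψ0 : ∑ w, ψ w = 0 := by
    refine Submodule.span_induction (p := fun ψ _ => ∑ w, ψ w = 0) ?_ ?_ ?_ ?_ hψ
    · rintro _ ⟨x, rfl⟩; exact logMap_sum hm x
    · simp
    · intro a b _ _ ha hb
      simp only [Pi.add_apply, Finset.sum_add_distrib, ha, hb, add_zero]
    · intro c a _ ha
      simp only [Pi.smul_apply, smul_eq_mul, ← Finset.mul_sum, ha, mul_zero]
  have hne : ∀ w, w ≠ w₀ → ψ w = φ w := by
    intro w hw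
    have := congrFun hψφ ⟨w, hw⟩
    have h2 : (2 : ℝ) * ψ w = 2 * φ w := this
    linarith
  have heq : ψ = φ := by
    funext w
    by_cases hw : w = w₀
    · have h3 := Fintype.sum_eq_add_sum_subtype_ne ψ (w₀ : InfinitePlace K)
      have h4 := Fintype.sum_eq_add_sum_subtype_ne φ (w₀ : InfinitePlace K)
      have h5 : ∑ i : {i : InfinitePlace K // i ≠ w₀}, ψ i =
          ∑ i : {i : InfinitePlace K // i ≠ w₀}, φ i :=
        Finset.sum_congr rfl fun i _ => hne i.1 i.2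
      rw [hw]
      linarith
    · exact hne w hw
  rw [← heq]; exact hψ

/-- the lattice of logarithms of units -/
noncomputable def LL (K : Type*) [Field K] [NumberField K] : Submodule ℤ (InfinitePlace K → ℝ) :=
  LinearMap.range (logMap K).toIntLinearMap

theorem mem_LL (φ : InfinitePlace K → ℝ) : φ ∈ LL K ↔ ∃ x : (𝓞 K)ˣ, logMap K (Additive.ofMul x) = φ :=
  Iff.rfl

theorem logMap_eq_zero (x : (𝓞 K)ˣ) : logMap K (Additive.ofMul x) = 0 ↔ x ∈ torsion K := by
  refine ⟨fun h => ?_, logMap_torsion x⟩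
  rw [mem_torsion]
  intro w
  have h1 : Real.log (w ((x : 𝓞 K) : K)) = 0 := congrFun h w
  exact Real.eq_one_of_pos_of_log_eq_zero (pos_at_place _ w) h1

theorem logMap_unitMap (σ : K ≃ₐ[ℚ] K) (x : (𝓞 K)ˣ) :
    logMap K (Additive.ofMul (unitMap σ x)) =
      shiftOp (P := InfinitePlace K) σ (logMap K (Additive.ofMul x)) := rfl

instance : Module.Finite ℤ (LL K) :=
  inferInstanceAs (Module.Finite ℤ (LinearMap.range (logMap K).toIntLinearMap))

instance : Module.Free ℤ (LL K) := inferInstance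

/-- comparison with Mathlib's unit lattice -/
theorem finrank_LL (hm : ∀ w : InfinitePlace K, w.mult = 2) :
    finrank ℤ (LL K) = Units.rank K := by
  classical
  let ρ : (InfinitePlace K → ℝ) →ₗ[ℤ] logSpace K :=
    { toFun := fun φ w => 2 * φ w.1
      map_add' := fun a b => by funext w; simp [mul_add]
      map_smul' := fun c a => by funext w; simp [mul_left_comm] }
  have hρ : ∀ x, ρ (logMap K x) = logEmbedding K x := by
    intro x
    funext w
    show 2 * Real.log (w.1 ((x.toMul : 𝓞 K) : K)) =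
      (w.1.mult : ℝ) * Real.log (w.1 ((x.toMul : 𝓞 K) : K))
    rw [hm]; norm_num
  have hmaps : ∀ φ ∈ LL K, ρ φ ∈ unitLattice K := by
    rintro _ ⟨x, rfl⟩
    refine ⟨x, trivial, ?_⟩
    exact (hρ x).symm
  let e : LL K →ₗ[ℤ] unitLattice K := ρ.restrict hmaps
  have he : Function.Bijective e := by
    constructor
    · rw [← LinearMap.ker_eq_bot, LinearMap.ker_eq_bot']
      rintro ⟨_, ⟨x, rfl⟩⟩ h
      have h1 : ρ (logMap K x) = 0 := congrArg Subtype.val h
      rw [hρ] at h1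
      have h2 : x.toMul ∈ torsion K := logEmbedding_eq_zero_iff.mp h1
      apply Subtype.ext
      exact logMap_torsion _ h2
    · rintro ⟨_, ⟨x, -, rfl⟩⟩
      refine ⟨⟨logMap K x, ⟨x, rfl⟩⟩, ?_⟩
      apply Subtype.ext
      exact hρ x
  rw [(LinearEquiv.ofBijective e he).finrank_eq, unitLattice_rank]

theorem shiftOp_LL (σ : K ≃ₐ[ℚ] K) : ∀ φ ∈ LL K,
    ((shiftOp (P := InfinitePlace K) σ).restrictScalars ℤ) φ ∈ LL K := by
  rintro _ ⟨x, rfl⟩
  exact ⟨Additive.ofMul (unitMap σ x.toMul), rfl⟩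

/-- The action of `σ` on the lattice of logarithms. -/
noncomputable def TL (σ : K ≃ₐ[ℚ] K) : LL K →ₗ[ℤ] LL K :=
  ((shiftOp (P := InfinitePlace K) σ).restrictScalars ℤ).restrict (shiftOp_LL σ)

theorem TL_coe (σ : K ≃ₐ[ℚ] K) (φ : LL K) :
    ((TL σ φ : LL K) : InfinitePlace K → ℝ) = shiftOp (P := InfinitePlace K) σ φ := rfl

theorem TL_aeval (σ : K ≃ₐ[ℚ] K) (g : ℤ[X]) (φ : LL K) :
    ((aeval (TL σ) g φ : LL K) : InfinitePlace K → ℝ) =
      aeval (shiftOp (P := InfinitePlace K) σ) (g.map (Int.castRingHom ℝ)) φ := by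
  induction g using Polynomial.induction_on' with
  | add a b ha hb =>
    rw [map_add, Polynomial.map_add, map_add, LinearMap.add_apply, LinearMap.add_apply,
      Submodule.coe_add, ha, hb]
  | monomial n a =>
    rw [aeval_monomial, Polynomial.map_monomial, aeval_monomial]
    have hpow : ∀ (n : ℕ) (φ : LL K), (((TL σ ^ n) φ : LL K) : InfinitePlace K → ℝ) =
        (shiftOp (P := InfinitePlace K) σ ^ n) φ := by
      intro n
      induction n with
      | zero => intro φ; rfl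
      | succ n ih =>
        intro φ
        rw [pow_succ, pow_succ, Module.End.mul_apply, Module.End.mul_apply, ih, TL_coe]
    rw [Module.End.mul_apply, Module.End.mul_apply, Module.algebraMap_end_apply,
      Module.algebraMap_end_apply, ← hpow]
    funext w
    simp

theorem exists_zpow_smul (σ : K ≃ₐ[ℚ] K) [IsGalois ℚ K]
    (hσ : ∀ τ : K ≃ₐ[ℚ] K, τ ∈ Subgroup.zpowers σ) (w w' : InfinitePlace K) :
    ∃ k : ℤ, w = σ ^ k • w' := by
  obtain ⟨τ, hτ⟩ := InfinitePlace.exists_smul_eq_of_comap_eq (k := ℚ) (w := w') (w' := w)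
    (Subsingleton.elim _ _)
  obtain ⟨k, hk⟩ := hσ τ
  exact ⟨k, by rw [← hτ]; congr 1; exact hk.symm⟩

theorem charpoly_TL (σ : K ≃ₐ[ℚ] K) [IsGalois ℚ K] (hm : ∀ w : InfinitePlace K, w.mult = 2)
    (hσ : ∀ τ : K ≃ₐ[ℚ] K, τ ∈ Subgroup.zpowers σ) :
    (TL σ).charpoly * (X - 1) = X ^ (Fintype.card (InfinitePlace K)) - 1 := by
  classical
  set g := (TL σ).charpoly with hg
  have hgm : g.Monic := LinearMap.charpoly_monic _
  have hgdeg : g.natDegree = Fintype.card (InfinitePlace K) - 1 := by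
    rw [hg, LinearMap.charpoly_natDegree, finrank_LL hm]; rfl
  have hcard : 0 < Fintype.card (InfinitePlace K) := Fintype.card_pos
  have hkill : ∀ φ ∈ Submodule.span ℝ (Set.range (logMap K)),
      aeval (shiftOp (P := InfinitePlace K) σ) (g.map (Int.castRingHom ℝ)) φ = 0 := by
    intro φ hφ
    refine Submodule.span_induction (p := fun φ _ => aeval (shiftOp (P := InfinitePlace K) σ)
      (g.map (Int.castRingHom ℝ)) φ = 0) ?_ ?_ ?_ ?_ hφ
    · rintro _ ⟨x, rfl⟩
      have h1 := TL_aeval σ g ⟨logMap K x, ⟨x, rfl⟩⟩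
      rw [← h1, hg, LinearMap.aeval_self_charpoly]
      rfl
    · simp
    · intro a b _ _ ha hb; rw [map_add, ha, hb, add_zero]
    · intro c a _ ha; rw [map_smul, ha, smul_zero]
  have hX1 : (X - 1 : ℤ[X]).Monic := monic_X_sub_C 1
  have h1 := eq_X_pow_sub_one (P := InfinitePlace K) σ (Classical.arbitrary _)
    (fun w => exists_zpow_smul σ hσ w _) ((g * (X - 1)).map (Int.castRingHom ℝ))
    ((hgm.mul hX1).map _) (by
      rw [(hgm.mul hX1).natDegree_map, hgm.natDegree_mul hX1, hgdeg]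
      have : (X - 1 : ℤ[X]).natDegree = 1 := natDegree_X_sub_C 1
      omega) (by
      rw [Polynomial.map_mul, map_mul]
      refine LinearMap.ext fun φ => ?_
      rw [Module.End.mul_apply, LinearMap.zero_apply]
      apply hkill
      apply logMap_span hm
      rw [Polynomial.map_sub, map_X, Polynomial.map_one, map_sub, aeval_X, map_one,
        LinearMap.sub_apply, Module.End.one_apply]
      simp only [Pi.sub_apply, Finset.sum_sub_distrib, sub_eq_zero]
      show ∑ w, φ (σ⁻¹ • w) = ∑ w, φ w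
      exact Fintype.sum_bijective (fun w => σ⁻¹ • w) (MulAction.bijective _) _ _ (fun _ => rfl))
  have h2 : (X ^ (Fintype.card (InfinitePlace K)) - 1 : ℤ[X]).map (Int.castRingHom ℝ) =
      X ^ (Fintype.card (InfinitePlace K)) - 1 := by simp
  rw [← h2] at h1
  exact Polynomial.map_injective _ (RingHom.injective_int _) h1

end logs

section modp

variable {L : Type*} [AddCommGroup L] [Module.Free ℤ L] [Module.Finite ℤ L] {p : ℕ} [Fact p.Prime]

open TensorProduct

theorem tmul_eq_zero (x : L) (h : (1 : ZMod p) ⊗ₜ[ℤ] x = 0) : ∃ y : L, x = (p : ℤ) • y := by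
  classical
  let b := Module.Free.chooseBasis ℤ L
  have h1 : ∀ i, (p : ℤ) ∣ b.repr x i := by
    intro i
    have h2 := b.baseChange_repr_tmul (S := ZMod p) 1 x i
    rw [h, map_zero, Finsupp.zero_apply] at h2
    rw [← ZMod.intCast_zmod_eq_zero_iff_dvd]
    rw [zsmul_one] at h2
    exact h2.symm
  choose c hc using h1
  refine ⟨∑ i, c i • b i, ?_⟩
  rw [Finset.smul_sum]
  conv_lhs => rw [← b.sum_repr x]
  refine Finset.sum_congr rfl fun i _ => ?_
  rw [hc i, mul_smul]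

theorem eigen_mod_p (T : L →ₗ[ℤ] L) (n : ℕ) (hn : 0 < n) (hnp : n < p)
    (hT : T.charpoly * (X - 1) = X ^ n - 1) (m : ℤ) (x y a b : L)
    (hx : T x = m • x + (p : ℤ) • a) (hy : T y = m • y + (p : ℤ) • b)
    (hy0 : ∀ z : L, y ≠ (p : ℤ) • z) : ∃ (k : ℕ) (z : L), x = k • y + (p : ℤ) • z := by
  classical
  set T' : Module.End (ZMod p) (ZMod p ⊗[ℤ] L) := T.baseChange (ZMod p) with hT'
  have hchar : T'.charpoly * (X - 1) = X ^ n - 1 := by
    rw [hT', LinearMap.charpoly_baseChange]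
    have := congrArg (Polynomial.map (algebraMap ℤ (ZMod p))) hT
    simpa using this
  have hsep : (X ^ n - 1 : (ZMod p)[X]).Separable := by
    have := separable_X_pow_sub_C (1 : ZMod p) (n := n) ?_ one_ne_zero
    · simpa using this
    · rw [Ne, ZMod.natCast_eq_zero_iff]
      exact fun h => absurd (Nat.le_of_dvd hn h) (by omega)
  have hmult : T'.charpoly.rootMultiplicity (m : ZMod p) ≤ 1 := by
    have h1 : T'.charpoly.Separable := by
      rw [← hchar] at hsep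
      exact hsep.of_mul_left
    exact rootMultiplicity_le_one_of_separable h1 _
  have hfr : finrank (ZMod p) (T'.eigenspace (m : ZMod p)) ≤ 1 :=
    (LinearMap.finrank_eigenspace_le _ _).trans hmult
  have hmem : ∀ x a : L, T x = m • x + (p : ℤ) • a →
      (1 : ZMod p) ⊗ₜ[ℤ] x ∈ T'.eigenspace (m : ZMod p) := by
    intro x a hx
    rw [Module.End.mem_eigenspace_iff, hT', LinearMap.baseChange_tmul, hx, TensorProduct.tmul_add,
      TensorProduct.tmul_smul, TensorProduct.tmul_smul]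
    have h2 : (p : ℤ) • ((1 : ZMod p) ⊗ₜ[ℤ] a) = 0 := by
      rw [TensorProduct.smul_tmul']
      simp
    rw [h2, add_zero, TensorProduct.smul_tmul', TensorProduct.smul_tmul']
    simp
  have hy1 : (1 : ZMod p) ⊗ₜ[ℤ] y ≠ 0 := by
    intro h
    obtain ⟨z, hz⟩ := tmul_eq_zero y h
    exact hy0 z hz
  obtain ⟨c, hc⟩ : ∃ c : ZMod p, c • (1 : ZMod p) ⊗ₜ[ℤ] y = (1 : ZMod p) ⊗ₜ[ℤ] x := by
    have h1 := finrank_le_one_iff.mp hfr
    obtain ⟨v, hv⟩ := h1
    obtain ⟨c1, hc1⟩ := hv ⟨_, hmem x a hx⟩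
    obtain ⟨c2, hc2⟩ := hv ⟨_, hmem y b hy⟩
    have hc1' := congrArg Subtype.val hc1
    have hc2' := congrArg Subtype.val hc2
    simp only [Submodule.coe_smul] at hc1' hc2'
    have hc20 : c2 ≠ 0 := by
      rintro rfl
      rw [zero_smul] at hc2'
      exact hy1 hc2'.symm
    refine ⟨c1 * c2⁻¹, ?_⟩
    rw [← hc2', ← hc1', smul_smul, mul_assoc, inv_mul_cancel₀ hc20, mul_one]
  refine ⟨c.val, ?_⟩
  have h3 : (1 : ZMod p) ⊗ₜ[ℤ] (x - c.val • y) = 0 := by
    rw [TensorProduct.tmul_sub, ← hc, ← natCast_zsmul, TensorProduct.tmul_smul,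
      TensorProduct.smul_tmul', TensorProduct.smul_tmul', sub_eq_zero]
    congr 1
    simp
  obtain ⟨z, hz⟩ := tmul_eq_zero _ h3
  exact ⟨z, by rw [← hz]; abel⟩

end modp

section main

open NumberField.Units

theorem root_dvd {p : ℕ} [Fact p.Prime] {K : Type*} [Field K] [NumberField K]
    (ζ : K) (hζ : IsPrimitiveRoot ζ p) (σ : K ≃ₐ[ℚ] K) (m : ℕ)
    (hm : ∀ x : K, σ ζ ≠ ζ ^ m * x ^ p) (r : ℕ) (z : K)
    (h : σ (ζ ^ r) = (ζ ^ r) ^ m * z ^ p) : p ∣ r := by
  by_contra hr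
  have hpr : p.Prime := Fact.out
  have hcop : Nat.Coprime r p := (hpr.coprime_iff_not_dvd.mpr hr).symm
  obtain ⟨s, -, hs⟩ := Nat.exists_mul_mod_eq_one_of_coprime hcop hpr.one_lt
  have hζs : ζ ^ (r * s) = ζ := by
    conv_lhs => rw [← Nat.div_add_mod (r * s) p, hs, pow_add, pow_mul, hζ.pow_eq_one, one_pow,
      one_mul, pow_one]
  apply hm (z ^ s)
  have h1 := congrArg (· ^ s) h
  simp only [← map_pow, ← pow_mul, mul_pow] at h1
  rw [hζs] at h1
  rw [h1]
  congr 1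
  · rw [show r * m * s = (r * s) * m by ring, pow_mul, hζs]
  · rw [← pow_mul, mul_comm]

theorem unit_of_pow {p : ℕ} (hp : p ≠ 0) {K : Type*} [Field K] [NumberField K] (x : K)
    (u : (𝓞 K)ˣ) (h : x ^ p = (u : K)) : ∃ w : (𝓞 K)ˣ, (w : K) = x := by
  have hint : IsIntegral ℤ x := by
    refine IsIntegral.of_pow (Nat.pos_of_ne_zero hp) ?_
    rw [h]; exact RingOfIntegers.isIntegral_coe _
  let y : 𝓞 K := ⟨x, hint⟩
  have hy : y ^ p = (u : 𝓞 K) := RingOfIntegers.ext h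
  have hu : IsUnit y := by
    rw [← isUnit_pow_iff hp, hy]; exact u.isUnit
  exact ⟨hu.unit, rfl⟩

theorem torsion_form {p : ℕ} [Fact p.Prime] (hp : 3 ≤ p) {K : Type*} [Field K] [NumberField K]
    [IsCyclotomicExtension {p} ℚ K] (ζ : (𝓞 K)ˣ) (hζ : IsPrimitiveRoot ζ p) (t : (𝓞 K)ˣ)
    (ht : t ∈ torsion K) : ∃ (r : ℕ) (w : (𝓞 K)ˣ), t = ζ ^ r * w ^ p := by
  have hpr : p.Prime := Fact.out
  have hodd : Odd p := hpr.odd_of_ne_two (by omega)
  have hζK : IsPrimitiveRoot (((ζ : 𝓞 K) : K)) p :=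
    (hζ.map_of_injective (f := (Units.coeHom (𝓞 K))) Units.val_injective).map_of_injective
      (f := algebraMap (𝓞 K) K) RingOfIntegers.coe_injective
  have hfin : IsOfFinOrder ((t : 𝓞 K) : K) := by
    have h1 : IsOfFinOrder t := ht
    exact MonoidHom.isOfFinOrder (((algebraMap (𝓞 K) K : 𝓞 K →* K)).comp (Units.coeHom (𝓞 K))) h1
  obtain ⟨r, hr⟩ := hζK.exists_neg_pow_of_isOfFinOrder hodd hfin
  refine ⟨r, (-1) ^ r, ?_⟩
  apply Units.ext
  apply RingOfIntegers.ext
  rw [hr, ← pow_mul, mul_comm r p, pow_mul, hodd.neg_one_pow, neg_pow]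
  push_cast
  rw [mul_comm]

/-- [U] of S14: the `m`-eigenspace of a generator `σ` of `Gal(ℚ(ζ_p)/ℚ)` acting on
`E/E^p`, is at most one dimensional, if `m` is not the exponent of `σ` on `ζ`. -/
theorem unit_eigenspace {p : ℕ} [Fact p.Prime] (hp : 3 ≤ p)
    (K : Type) [Field K] [NumberField K] [IsCyclotomicExtension {p} ℚ K]
    (ζ : (𝓞 K)ˣ) (hζ : IsPrimitiveRoot ζ p)
    (σ : K ≃ₐ[ℚ] K) (hσ : ∀ τ : K ≃ₐ[ℚ] K, τ ∈ Subgroup.zpowers σ) (m : ℕ)
    (hm : ∀ x : K, σ (ζ : K) ≠ (ζ : K) ^ m * x ^ p)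
    (u v : (𝓞 K)ˣ) (x y : K) (hu : σ (u : K) = (u : K) ^ m * x ^ p)
    (hv : σ (v : K) = (v : K) ^ m * y ^ p) (hv1 : ∀ w : (𝓞 K)ˣ, v ≠ w ^ p) :
    ∃ (k : ℕ) (w : (𝓞 K)ˣ), u = v ^ k * w ^ p := by
  classical
  have hpr : p.Prime := Fact.out
  have hp0 : p ≠ 0 := hpr.ne_zero
  have : IsGalois ℚ K := IsCyclotomicExtension.isGalois {p} ℚ K
  have : IsTotallyComplex K := IsCyclotomicExtension.Rat.isTotallyComplex K (by omega : 2 < p)
  have hmult : ∀ w : InfinitePlace K, w.mult = 2 := fun w =>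
    InfinitePlace.mult_isComplex ⟨w, IsTotallyComplex.isComplex w⟩
  have hζK : IsPrimitiveRoot (ζ : K) p :=
    (hζ.map_of_injective (f := (Units.coeHom (𝓞 K))) Units.val_injective).map_of_injective
      (f := algebraMap (𝓞 K) K) RingOfIntegers.coe_injective
  set n := Fintype.card (InfinitePlace K) with hn
  have hn0 : 0 < n := Fintype.card_pos
  have hnp : n < p := by
    have h1 := InfinitePlace.card_add_two_mul_card_eq_rank K
    have h2 : finrank ℚ K = p - 1 := by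
      rw [IsCyclotomicExtension.finrank K (Polynomial.cyclotomic.irreducible_rat hpr.pos),
        Nat.totient_prime hpr]
    have h3 := InfinitePlace.card_eq_nrRealPlaces_add_nrComplexPlaces K
    have h4 := hpr.two_le
    omega
  let cK : (𝓞 K)ˣ →* K := ((algebraMap (𝓞 K) K : 𝓞 K →* K)).comp (Units.coeHom (𝓞 K))
  have cK_inj : Function.Injective cK :=
    fun a b hab => Units.ext (RingOfIntegers.ext hab)
  have cK_ne : ∀ w : (𝓞 K)ˣ, cK w ≠ 0 := fun w => coe_ne_zero w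
  have cK_map : ∀ w : (𝓞 K)ˣ, cK (unitMap σ w) = σ (cK w) := fun _ => rfl
  have cK_inv : ∀ w : (𝓞 K)ˣ, cK w⁻¹ = (cK w)⁻¹ := fun w => by
    rw [← mul_eq_one_iff_eq_inv₀ (cK_ne w), ← map_mul, inv_mul_cancel, map_one]
  have hσne : ∀ w : (𝓞 K)ˣ, σ (cK w) ≠ 0 := fun w => by simpa using cK_ne w
  -- descend `x`, `y` to units
  have key : ∀ (u : (𝓞 K)ˣ) (x : K), σ (cK u) = (cK u) ^ m * x ^ p →
      ∃ w : (𝓞 K)ˣ, cK w = x ∧ unitMap σ u = u ^ m * w ^ p := by
    intro u x hu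
    have h1 : x ^ p = cK (unitMap σ u * (u ^ m)⁻¹) := by
      rw [map_mul, cK_map, cK_inv, map_pow, hu, mul_right_comm,
        mul_inv_cancel₀ (pow_ne_zero _ (cK_ne u)), one_mul]
    obtain ⟨w, hw⟩ := unit_of_pow hp0 x (unitMap σ u * (u ^ m)⁻¹) h1
    refine ⟨w, hw, ?_⟩
    apply cK_inj
    rw [cK_map, hu, map_mul, map_pow, map_pow]
    rw [show cK w = x from hw]
  obtain ⟨a, ha, hau⟩ := key u x hu
  obtain ⟨b, hb, hbv⟩ := key v y hv
  -- removing torsion
  have rem : ∀ (u' : (𝓞 K)ˣ) (c : K), σ (cK u') = (cK u') ^ m * c ^ p → u' ∈ torsion K →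
      ∃ w : (𝓞 K)ˣ, u' = w ^ p := by
    intro u' c hc ht
    obtain ⟨r, w, hrw⟩ := torsion_form hp ζ hζ u' ht
    have hw0 := cK_ne w
    have hσw0 := hσne w
    have h1 : p ∣ r := by
      apply root_dvd _ hζK σ m hm r (cK w ^ m * c * (σ (cK w))⁻¹)
      rw [hrw, map_mul, map_pow, map_pow, map_mul, map_pow σ _ p] at hc
      rw [mul_pow, mul_pow, inv_pow]
      have h2 : σ (cK ζ ^ r) = (cK ζ ^ r * cK w ^ p) ^ m * c ^ p * (σ (cK w) ^ p)⁻¹ := by
        rw [← hc, mul_assoc, mul_inv_cancel₀ (pow_ne_zero _ hσw0), mul_one]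
      refine h2.trans ?_
      show _ = (cK ζ ^ r) ^ m * _
      ring
    obtain ⟨s, rfl⟩ := h1
    refine ⟨w, ?_⟩
    rw [hrw, pow_mul, hζ.pow_eq_one, one_pow, one_mul]
  -- the logarithms
  let lg : (𝓞 K)ˣ → LL K := fun u => ⟨logMap K (Additive.ofMul u), ⟨_, rfl⟩⟩
  have lg_mul : ∀ u v, lg (u * v) = lg u + lg v := fun u v =>
    Subtype.ext ((logMap K).map_add (Additive.ofMul u) (Additive.ofMul v))
  have lg_pow : ∀ (u : (𝓞 K)ˣ) (k : ℕ), lg (u ^ k) = k • lg u := fun u k =>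
    Subtype.ext ((logMap K).map_nsmul k (Additive.ofMul u))
  have lg_inv : ∀ (u : (𝓞 K)ˣ), lg (u⁻¹) = - lg u := fun u =>
    Subtype.ext ((logMap K).map_neg (Additive.ofMul u))
  have lg_surj : ∀ z : LL K, ∃ w : (𝓞 K)ˣ, lg w = z := by
    rintro ⟨_, ⟨w, rfl⟩⟩
    exact ⟨w.toMul, rfl⟩
  have lg_T : ∀ u : (𝓞 K)ˣ, TL σ (lg u) = lg (unitMap σ u) := fun u => rfl
  have lg_zero : ∀ u : (𝓞 K)ˣ, lg u = 0 → u ∈ torsion K := fun u h =>
    (logMap_eq_zero u).mp (congrArg Subtype.val h)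
  have hbv' : TL σ (lg v) = (m : ℤ) • lg v + (p : ℤ) • lg b := by
    rw [lg_T, hbv, lg_mul, lg_pow, lg_pow, natCast_zsmul, natCast_zsmul]
  have hau' : TL σ (lg u) = (m : ℤ) • lg u + (p : ℤ) • lg a := by
    rw [lg_T, hau, lg_mul, lg_pow, lg_pow, natCast_zsmul, natCast_zsmul]
  -- the eigen-relation is multiplicative
  have eig_mul : ∀ (u₁ u₂ : (𝓞 K)ˣ) (c₁ c₂ : K), σ (cK u₁) = (cK u₁) ^ m * c₁ ^ p →
      σ (cK u₂) = (cK u₂) ^ m * c₂ ^ p →
      σ (cK (u₁ * u₂)) = (cK (u₁ * u₂)) ^ m * (c₁ * c₂) ^ p := by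
    intro u₁ u₂ c₁ c₂ h1 h2
    rw [map_mul, map_mul, h1, h2]; ring
  have eig_inv : ∀ (u₁ : (𝓞 K)ˣ) (c₁ : K), σ (cK u₁) = (cK u₁) ^ m * c₁ ^ p →
      σ (cK (u₁⁻¹)) = (cK (u₁⁻¹)) ^ m * (c₁⁻¹) ^ p := by
    intro u₁ c₁ h1
    rw [cK_inv, map_inv₀, h1, mul_inv, inv_pow, inv_pow]
  have eig_pow : ∀ (u₁ : (𝓞 K)ˣ) (c₁ : K) (k : ℕ), σ (cK u₁) = (cK u₁) ^ m * c₁ ^ p →
      σ (cK (u₁ ^ k)) = (cK (u₁ ^ k)) ^ m * (c₁ ^ k) ^ p := by
    intro u₁ c₁ k h1
    rw [map_pow, map_pow, h1]; ring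
  have eig_p : ∀ (w : (𝓞 K)ˣ),
      σ (cK (w ^ p)) = (cK (w ^ p)) ^ m * (σ (cK w) * (cK w ^ m)⁻¹) ^ p := by
    intro w
    have hw0 := cK_ne w
    rw [map_pow, map_pow, mul_pow, inv_pow, ← pow_mul, ← pow_mul, mul_comm m p,
      mul_comm (σ (cK w) ^ p), mul_inv_cancel_left₀ (pow_ne_zero _ hw0)]
  obtain ⟨k, z, hkz⟩ := eigen_mod_p (p := p) (TL σ) n hn0 hnp (charpoly_TL σ hmult hσ) m
    (lg u) (lg v) (lg a) (lg b) hau' hbv' (by
    intro z hz
    obtain ⟨w, rfl⟩ := lg_surj z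
    have h1 : lg (v * (w ^ p)⁻¹) = 0 := by
      rw [lg_mul, lg_inv, lg_pow, hz, natCast_zsmul, add_neg_cancel]
    obtain ⟨w', hw'⟩ := rem (v * (w ^ p)⁻¹) _ (eig_mul _ _ _ _ hv (eig_inv _ _ (eig_p w)))
      (lg_zero _ h1)
    apply hv1 (w' * w)
    rw [mul_pow, ← hw']
    simp)
  obtain ⟨w, rfl⟩ := lg_surj z
  have h1 : lg (u * (v ^ k * w ^ p)⁻¹) = 0 := by
    rw [lg_mul, lg_inv, lg_mul, lg_pow, lg_pow, hkz, natCast_zsmul, add_neg_cancel]
  obtain ⟨w', hw'⟩ := rem (u * (v ^ k * w ^ p)⁻¹) _ (eig_mul _ _ _ _ hu (eig_inv _ _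
    (eig_mul _ _ _ _ (eig_pow _ _ k hv) (eig_p w)))) (lg_zero _ h1)
  refine ⟨k, w' * w, ?_⟩
  rw [mul_pow, ← hw', mul_left_comm, mul_assoc u, inv_mul_cancel, mul_one]

end main

end Fermat.Agent.H46U
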