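import Fermat.Agent.H64ThaineMain

set_option autoImplicit false

open NumberField Ideal nonZeroDivisors

namespace Fermat.Agent.H64

/-- Factorisation of an ideal `I` whose multiplicities outside a finite set `S` of primes are
divisible by `p`. -/
theorem factor_split {R : Type*} [CommRing R] [IsDedekindDomain R] {I : Ideal R} (hI : I ≠ ⊥)
    (S : Finset (Ideal R)) (hS : ∀ P ∈ S, P.IsPrime ∧ P ≠ ⊥) (p : ℕ)
    (hp : ∀ P : Ideal R, P.IsPrime → P ≠ ⊥ → P ∉ S → p ∣ multiplicity P I) :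
    ∃ B : Ideal R, I = B ^ p * ∏ P ∈ S, P ^ multiplicity P I := by
  classical
  set s := UniqueFactorizationMonoid.normalizedFactors I with hs
  have hprod : s.prod = I := by
    have := UniqueFactorizationMonoid.prod_normalizedFactors (a := I) hI
    exact associated_iff_eq.1 this
  have hcount : ∀ P : Ideal R, P.IsPrime → P ≠ ⊥ → s.count P = multiplicity P I := by
    intro P hP hP0
    have hprime : Prime P := Ideal.prime_of_isPrime hP0 hP
    have := UniqueFactorizationMonoid.emultiplicity_eq_count_normalizedFactors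
      hprime.irreducible (b := I) hI
    rw [normalize_eq] at this
    exact (multiplicity_eq_of_emultiplicity_eq_some this).symm
  have hmem : ∀ P ∈ s, P.IsPrime ∧ P ≠ ⊥ := by
    intro P hP
    have h1 := UniqueFactorizationMonoid.prime_of_normalized_factor P hP
    exact ⟨Ideal.isPrime_of_prime h1, h1.ne_zero⟩
  have h1 : I = ∏ P ∈ s.toFinset, P ^ s.count P := by
    rw [← Finset.prod_multiset_count]; exact hprod.symm
  have h2 : ∏ P ∈ s.toFinset, P ^ s.count P = ∏ P ∈ s.toFinset ∪ S, P ^ s.count P := by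
    refine Finset.prod_subset Finset.subset_union_left ?_
    intro P _ hP
    rw [Multiset.mem_toFinset] at hP
    rw [Multiset.count_eq_zero_of_notMem hP, pow_zero]
  have h3 : ∏ P ∈ s.toFinset ∪ S, P ^ s.count P =
      (∏ P ∈ (s.toFinset ∪ S) \ S, P ^ s.count P) * ∏ P ∈ S, P ^ s.count P :=
    (Finset.prod_sdiff Finset.subset_union_right).symm
  refine ⟨∏ P ∈ (s.toFinset ∪ S) \ S, P ^ (s.count P / p), ?_⟩
  conv_lhs => rw [h1, h2, h3]
  congr 1
  · rw [← Finset.prod_pow]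
    refine Finset.prod_congr rfl fun P hP => ?_
    rw [Finset.mem_sdiff, Finset.mem_union, Multiset.mem_toFinset] at hP
    obtain ⟨hP1, hP2⟩ := hP
    obtain ⟨hP3, hP4⟩ := hmem P (hP1.resolve_right hP2)
    have h4 := hp P hP3 hP4 hP2
    rw [← hcount P hP3 hP4] at h4
    rw [← pow_mul, Nat.div_mul_cancel h4]
  · refine Finset.prod_congr rfl fun P hP => ?_
    rw [hcount P (hS P hP).1 (hS P hP).2]

/-- [C] Thaine's annihilation result. -/
theorem thaine {p q : ℕ} [Fact p.Prime] [Fact q.Prime] (hpq : p ∣ q - 1)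
    (K : Type) [Field K] [NumberField K] [IsCyclotomicExtension {p} ℚ K]
    (ζ : 𝓞 K) (hζ : IsPrimitiveRoot ζ p) :
    ∃ (κ : 𝓞 K) (𝔟 : Ideal (𝓞 K)) (g : ℕ) (r : Ideal (𝓞 K) → ℕ), κ ≠ 0 ∧
      span {κ} = 𝔟 ^ p * ∏ P ∈ IsDedekindDomain.primesOverFinset (span {(q : ℤ)}) (𝓞 K), P ^ r P ∧
      ∀ P ∈ IsDedekindDomain.primesOverFinset (span {(q : ℤ)}) (𝓞 K),
        (1 - ζ) - (g : 𝓞 K) ^ r P ∈ P := by
  classical
  have hpp : p.Prime := Fact.out
  have hqq : q.Prime := Fact.out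
  have hmod : q ≡ 1 [MOD p] := ((Nat.modEq_iff_dvd' hqq.one_lt.le).2 hpq).symm
  obtain ⟨g, hg⟩ := IsCyclic.exists_generator (α := (ZMod q)ˣ)
  obtain ⟨κ, hκ0, hκ1, hκ2⟩ := thaine_aux (F := CyclotomicField q K) hmod hζ g hg
  have hne : (span {(q : ℤ)}).map (algebraMap ℤ (𝓞 K)) ≠ ⊥ := by
    rw [Ideal.map_span, Set.image_singleton, Ne, Ideal.span_singleton_eq_bot]
    simpa using hqq.ne_zero
  have hspan0 : (span {(q : ℤ)}) ≠ ⊥ := by
    rw [Ne, Ideal.span_singleton_eq_bot]; exact_mod_cast hqq.ne_zero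
  have hmax : (span {(q : ℤ)}).IsMaximal := Int.ideal_span_isMaximal_of_prime q
  have hmemS : ∀ P : Ideal (𝓞 K), P ∈ IsDedekindDomain.primesOverFinset (span {(q : ℤ)}) (𝓞 K) ↔
      P.IsPrime ∧ P.LiesOver (span {(q : ℤ)}) := by
    intro P
    rw [IsDedekindDomain.mem_primesOverFinset_iff hspan0]
    rfl
  have hqmem : ∀ P : Ideal (𝓞 K), P.IsPrime → ((q : 𝓞 K) ∈ P ↔ P.LiesOver (span {(q : ℤ)})) := by
    intro P hP
    constructor
    · intro h
      constructor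
      refine hmax.eq_of_le ?_ ?_
      · exact (Ideal.IsPrime.under ℤ P).ne_top
      · rw [Ideal.span_singleton_le_iff_mem, Ideal.under_def, Ideal.mem_comap]
        simpa using h
    · intro h
      exact (natCast_mem_iff_of_liesOver P q q).2 dvd_rfl
  obtain ⟨B, hB⟩ := factor_split (I := span {κ}) (by rw [Ne, Ideal.span_singleton_eq_bot]; exact hκ0)
    (IsDedekindDomain.primesOverFinset (span {(q : ℤ)}) (𝓞 K)) (by
      intro P hP
      obtain ⟨h1, h2⟩ := (hmemS P).1 hP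
      refine ⟨h1, ?_⟩
      rintro rfl
      have h3 : (q : 𝓞 K) = 0 := (Ideal.mem_bot).1 ((hqmem ⊥ h1).2 h2)
      exact hqq.ne_zero (Nat.cast_eq_zero.1 h3)) p (by
      intro P hP hP0 hPS
      refine hpq.trans (hκ1 P hP hP0 ?_)
      intro h
      exact hPS ((hmemS P).2 ⟨hP, (hqmem P hP).1 h⟩))
  refine ⟨κ, B, ((g⁻¹ : (ZMod q)ˣ) : ZMod q).val, fun P => multiplicity P (span {κ}), hκ0, hB, ?_⟩
  intro P hP
  obtain ⟨h1, h2⟩ := (hmemS P).1 hP
  have hq := (hqmem P h1).2 h2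
  have h3 := hκ2 P h1 hq
  -- `g * g⁻¹ = 1` mod `q`
  have h4 : (((g : ZMod q).val : 𝓞 K) * ((((g⁻¹ : (ZMod q)ˣ) : ZMod q).val : ℕ) : 𝓞 K)) - 1 ∈ P := by
    have h5 : (q : ℤ) ∣ ((g : ZMod q).val : ℤ) * ((((g⁻¹ : (ZMod q)ˣ) : ZMod q).val : ℕ) : ℤ) - 1 := by
      rw [← ZMod.intCast_zmod_eq_zero_iff_dvd]
      rw [Int.cast_sub, Int.cast_mul, Int.cast_natCast, Int.cast_natCast, ZMod.natCast_zmod_val,
        ZMod.natCast_zmod_val, Int.cast_one, ← Units.val_mul, mul_inv_cancel, Units.val_one, sub_self]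
    obtain ⟨c, hc⟩ := h5
    have h6 : (((g : ZMod q).val : 𝓞 K) * ((((g⁻¹ : (ZMod q)ˣ) : ZMod q).val : ℕ) : 𝓞 K)) - 1 =
        (q : 𝓞 K) * (c : 𝓞 K) := by
      have := congrArg (Int.cast : ℤ → 𝓞 K) hc
      simp only [Int.cast_sub, Int.cast_mul, Int.cast_natCast, Int.cast_one] at this
      exact this
    rw [h6]
    exact P.mul_mem_right _ hq
  have hquot : ∀ a b : 𝓞 K, Ideal.Quotient.mk P a = Ideal.Quotient.mk P b ↔ a - b ∈ P :=
    fun a b => Ideal.Quotient.mk_eq_mk_iff_sub_mem a b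
  rw [← hquot] at h3 h4 ⊢
  simp only [map_mul, map_pow, map_one] at h3 h4 ⊢
  set v := multiplicity P (span {κ}) with hv
  calc Ideal.Quotient.mk P (1 - ζ) = Ideal.Quotient.mk P (1 - ζ) * 1 ^ v := by rw [one_pow, mul_one]
    _ = (Ideal.Quotient.mk P (1 - ζ) * Ideal.Quotient.mk P ((g : ZMod q).val : 𝓞 K) ^ v) *
        Ideal.Quotient.mk P ((((g⁻¹ : (ZMod q)ˣ) : ZMod q).val : ℕ) : 𝓞 K) ^ v := by
          rw [← h4, mul_pow, mul_assoc]
    _ = _ := by rw [h3, one_mul]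

end Fermat.Agent.H64
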