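import Mathlib

set_option autoImplicit false

namespace Fermat.Agent.H75

theorem exists_dual_ne_zero (p : ℕ) [Fact p.Prime] (V : Type*) [AddCommGroup V]
    [Module (ZMod p) V] (v : V) (hv : v ≠ 0) : ∃ φ : V →ₗ[ZMod p] (ZMod p), φ v ≠ 0 := by
  by_contra hcon
  push Not at hcon
  exact hv ((Module.forall_dual_apply_eq_zero_iff (ZMod p) v).mp hcon)

theorem exists_hom_ne_zero (p : ℕ) [Fact p.Prime] (V : Type*) [AddCommGroup V]
    (hV : ∀ v : V, p • v = 0) (v : V) (hv : v ≠ 0) : ∃ φ : V →+ ZMod p, φ v ≠ 0 := by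
  obtain ⟨φ, hφ⟩ := @exists_dual_ne_zero p _ V _ (AddCommGroup.zmodModule hV) v hv
  exact ⟨@LinearMap.toAddMonoidHom _ _ _ _ _ _ _ _ (AddCommGroup.zmodModule hV) _ _ φ, hφ⟩

/-- [G] of project S14: pure group theory. -/
theorem exists_char (A : Type*) [AddCommGroup A] [Finite A] (p : ℕ) [Fact p.Prime]
    (T : A →+ A) (m : ℕ) (x : A) (hx : x ≠ 0) (hpx : p • x = 0) (hTx : T x = m • x) :
    ∃ χ : A →+ ZMod p, χ ≠ 0 ∧ ∀ a, χ (T a) = m • χ a := by
  classical
  set f : A →+ A := T - m • AddMonoidHom.id A with hf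
  have hfa : ∀ a, f a = T a - m • a := fun a => by simp [hf]
  set P : A →+ A := p • AddMonoidHom.id A with hP
  have hPa : ∀ a, P a = p • a := fun a => by simp [hP]
  set B : AddSubgroup A := f.range ⊔ P.range with hB
  by_cases hBt : B = ⊤
  · exfalso
    have hsurj : Function.Surjective (fun y : A ⧸ f.range => p • y) := by
      intro q
      obtain ⟨a, rfl⟩ := QuotientAddGroup.mk_surjective q
      have ha : a ∈ B := by rw [hBt]; trivial
      obtain ⟨u, ⟨b, rfl⟩, v, ⟨c, rfl⟩, huv⟩ := AddSubgroup.mem_sup.mp ha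
      refine ⟨QuotientAddGroup.mk c, ?_⟩
      show p • (QuotientAddGroup.mk c : A ⧸ f.range) = QuotientAddGroup.mk a
      rw [← huv, hPa]
      have h0 : (QuotientAddGroup.mk (f b) : A ⧸ f.range) = 0 :=
        (QuotientAddGroup.eq_zero_iff _).mpr ⟨b, rfl⟩
      rw [QuotientAddGroup.mk_add, h0, zero_add]
      rfl
    have hinj : Function.Injective (fun y : A ⧸ f.range => p • y) :=
      Finite.injective_iff_surjective.mpr hsurj
    have hndvd : ¬ p ∣ Nat.card (A ⧸ f.range) := by
      intro hdvd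
      obtain ⟨y, hy⟩ := exists_prime_addOrderOf_dvd_card' p hdvd
      have hy1 : p • y = 0 := by rw [← hy]; exact addOrderOf_nsmul_eq_zero y
      have hy0 : y = 0 := hinj (by simpa using hy1)
      rw [hy0, addOrderOf_zero] at hy
      exact (Fact.out : p.Prime).one_lt.ne hy
    have hcard : Nat.card (A ⧸ f.range) = Nat.card f.ker := by
      have h1 : Nat.card A = Nat.card (A ⧸ f.range) * Nat.card f.range :=
        AddSubgroup.card_eq_card_quotient_mul_card_addSubgroup f.range
      have h2 : Nat.card A = Nat.card (A ⧸ f.ker) * Nat.card f.ker :=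
        AddSubgroup.card_eq_card_quotient_mul_card_addSubgroup f.ker
      have h3 : Nat.card (A ⧸ f.ker) = Nat.card f.range :=
        Nat.card_congr (QuotientAddGroup.quotientKerEquivRange f).toEquiv
      rw [h3, h1, mul_comm (Nat.card f.range)] at h2
      exact Nat.eq_of_mul_eq_mul_right Nat.card_pos h2
    apply hndvd
    rw [hcard]
    have hxk : x ∈ f.ker := by rw [AddMonoidHom.mem_ker, hfa, hTx, sub_self]
    have hord : addOrderOf (⟨x, hxk⟩ : f.ker) = p := by
      apply addOrderOf_eq_prime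
      · apply Subtype.ext; simpa using hpx
      · intro h; exact hx (congrArg Subtype.val h)
    rw [← hord]
    exact addOrderOf_dvd_natCard _
  · have hex : ∃ v : A ⧸ B, v ≠ 0 := by
      by_contra hcon
      push Not at hcon
      apply hBt
      rw [eq_top_iff]
      intro a _
      exact (QuotientAddGroup.eq_zero_iff a).mp (hcon _)
    obtain ⟨v, hv⟩ := hex
    obtain ⟨φ, hφ⟩ := exists_hom_ne_zero p (A ⧸ B) (by
      intro v
      obtain ⟨a, rfl⟩ := QuotientAddGroup.mk_surjective v
      have : (QuotientAddGroup.mk (P a) : A ⧸ B) = 0 :=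
        (QuotientAddGroup.eq_zero_iff _).mpr (AddSubgroup.mem_sup_right ⟨a, rfl⟩)
      rw [hPa] at this
      exact this) v hv
    refine ⟨φ.comp (QuotientAddGroup.mk' B), ?_, ?_⟩
    · intro h0
      obtain ⟨a, rfl⟩ := QuotientAddGroup.mk_surjective v
      exact hφ (DFunLike.congr_fun h0 a)
    · intro a
      have h0 : (QuotientAddGroup.mk' B) (f a) = 0 :=
        (QuotientAddGroup.eq_zero_iff _).mpr (AddSubgroup.mem_sup_left ⟨a, rfl⟩)
      have h1 : (φ.comp (QuotientAddGroup.mk' B)) (f a) = 0 := by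
        rw [AddMonoidHom.comp_apply, h0, map_zero]
      rw [hfa, map_sub, map_nsmul, sub_eq_zero] at h1
      exact h1

end Fermat.Agent.H75
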