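import Mathlib

set_option autoImplicit false
open NumberField Ideal

namespace Fermat.Agent.H75

/-- Truncated polynomials `a + b X + c X²` modulo `X³`. -/
@[ext] structure T3 (R : Type*) where
  a : R
  b : R
  c : R

namespace T3

variable {R : Type*} [CommRing R]

instance : Zero (T3 R) := ⟨⟨0, 0, 0⟩⟩
instance : One (T3 R) := ⟨⟨1, 0, 0⟩⟩
instance : Add (T3 R) := ⟨fun u v => ⟨u.a + v.a, u.b + v.b, u.c + v.c⟩⟩
instance : Neg (T3 R) := ⟨fun u => ⟨-u.a, -u.b, -u.c⟩⟩
instance : Mul (T3 R) :=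
  ⟨fun u v => ⟨u.a * v.a, u.a * v.b + u.b * v.a, u.a * v.c + u.b * v.b + u.c * v.a⟩⟩

@[simp] theorem zero_a : (0 : T3 R).a = 0 := rfl
@[simp] theorem zero_b : (0 : T3 R).b = 0 := rfl
@[simp] theorem zero_c : (0 : T3 R).c = 0 := rfl
@[simp] theorem one_a : (1 : T3 R).a = 1 := rfl
@[simp] theorem one_b : (1 : T3 R).b = 0 := rfl
@[simp] theorem one_c : (1 : T3 R).c = 0 := rfl
@[simp] theorem add_a (u v : T3 R) : (u + v).a = u.a + v.a := rfl
@[simp] theorem add_b (u v : T3 R) : (u + v).b = u.b + v.b := rfl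
@[simp] theorem add_c (u v : T3 R) : (u + v).c = u.c + v.c := rfl
@[simp] theorem neg_a (u : T3 R) : (-u).a = -u.a := rfl
@[simp] theorem neg_b (u : T3 R) : (-u).b = -u.b := rfl
@[simp] theorem neg_c (u : T3 R) : (-u).c = -u.c := rfl
@[simp] theorem mul_a (u v : T3 R) : (u * v).a = u.a * v.a := rfl
@[simp] theorem mul_b (u v : T3 R) : (u * v).b = u.a * v.b + u.b * v.a := rfl
@[simp] theorem mul_c (u v : T3 R) : (u * v).c = u.a * v.c + u.b * v.b + u.c * v.a := rfl

instance : CommRing (T3 R) where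
  add_assoc u v w := by ext <;> simp [add_assoc]
  zero_add u := by ext <;> simp
  add_zero u := by ext <;> simp
  add_comm u v := by ext <;> simp [add_comm]
  left_distrib u v w := by ext <;> simp <;> ring
  right_distrib u v w := by ext <;> simp <;> ring
  zero_mul u := by ext <;> simp
  mul_zero u := by ext <;> simp
  mul_assoc u v w := by ext <;> simp <;> ring
  one_mul u := by ext <;> simp
  mul_one u := by ext <;> simp
  neg_add_cancel u := by ext <;> simp
  mul_comm u v := by ext <;> simp <;> ring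
  nsmul := nsmulRec
  zsmul := zsmulRec

/-- constant-term ring hom. -/
def constHom : T3 R →+* R where
  toFun u := u.a
  map_one' := rfl
  map_mul' _ _ := rfl
  map_zero' := rfl
  map_add' _ _ := rfl

@[simp] theorem constHom_apply (u : T3 R) : constHom u = u.a := rfl

/-- inclusion of constants -/
def incl : R →+* T3 R where
  toFun r := ⟨r, 0, 0⟩
  map_one' := rfl
  map_mul' x y := by ext <;> simp
  map_zero' := rfl
  map_add' x y := by ext <;> simp

theorem natCast_eq (n : ℕ) : (n : T3 R) = ⟨n, 0, 0⟩ := by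
  rw [← map_natCast (incl (R := R)) n]; rfl

theorem intCast_eq (n : ℤ) : (n : T3 R) = ⟨n, 0, 0⟩ := by
  rw [← map_intCast (incl (R := R)) n]; rfl

/-- the element `X` -/
def X : T3 R := ⟨0, 1, 0⟩

theorem X_pow_three : (X : T3 R) ^ 3 = 0 := by
  ext <;> simp [X, pow_succ]

section field
variable {F : Type*} [Field F]

theorem one_add_X_pow (h2 : (2 : F) ≠ 0) (j : ℕ) :
    ((1 + X : T3 F)) ^ j = ⟨1, j, j * (j - 1) / 2⟩ := by
  induction j with
  | zero => ext <;> simp
  | succ j ih =>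
    rw [pow_succ, ih]
    ext
    · simp [X]
    · simp [X]; ring
    · simp [X]; field_simp; ring

theorem geom (h2 : (2 : F) ≠ 0) (h3 : (3 : F) ≠ 0) (n : ℕ) :
    ∑ j ∈ Finset.range n, (1 + X : T3 F) ^ j
      = ⟨n, n * (n - 1) / 2, n * (n - 1) * (n - 2) / 6⟩ := by
  have h6 : (6 : F) ≠ 0 := by
    have : (6 : F) = 2 * 3 := by norm_num
    rw [this]; exact mul_ne_zero h2 h3
  induction n with
  | zero => ext <;> simp
  | succ n ih =>
    rw [Finset.sum_range_succ, ih, one_add_X_pow h2]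
    ext
    · simp
    · simp; field_simp; ring
    · simp; field_simp; ring

/-- second logarithmic coefficient -/
def L (u : T3 F) : F := u.c / u.a - (u.b / u.a) ^ 2 / 2

theorem L_mul (h2 : (2 : F) ≠ 0) (u v : T3 F) (hu : u.a ≠ 0) (hv : v.a ≠ 0) :
    L (u * v) = L u + L v := by
  simp only [L, mul_a, mul_b, mul_c]
  field_simp
  ring

theorem L_one : L (1 : T3 F) = 0 := by simp [L]

theorem L_pow (h2 : (2 : F) ≠ 0) (u : T3 F) (hu : u.a ≠ 0) (n : ℕ) :
    L (u ^ n) = n * L u := by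
  induction n with
  | zero => simp [L_one]
  | succ n ih =>
    have : (u ^ n).a ≠ 0 := by
      have := map_pow (constHom (R := F)) u n
      simp only [constHom_apply] at this
      rw [this]; exact pow_ne_zero n hu
    rw [pow_succ, L_mul h2 _ _ this hu, ih]; push_cast; ring

theorem pow_a (u : T3 F) (n : ℕ) : (u ^ n).a = u.a ^ n := map_pow (constHom (R := F)) u n

theorem prod_a {ι : Type*} (s : Finset ι) (f : ι → T3 F) :
    (∏ i ∈ s, f i).a = ∏ i ∈ s, (f i).a := map_prod (constHom (R := F)) f s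

theorem L_prod (h2 : (2 : F) ≠ 0) {ι : Type*} (s : Finset ι) (f : ι → T3 F)
    (hf : ∀ i ∈ s, (f i).a ≠ 0) : L (∏ i ∈ s, f i) = ∑ i ∈ s, L (f i) := by
  classical
  induction s using Finset.induction_on with
  | empty => simp [L_one]
  | insert i s his ih =>
    rw [Finset.prod_insert his, Finset.sum_insert his, L_mul h2, ih]
    · intro j hj; exact hf j (Finset.mem_insert_of_mem hj)
    · exact hf i (Finset.mem_insert_self _ _)
    · rw [prod_a]; exact Finset.prod_ne_zero_iff.mpr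
        fun j hj => hf j (Finset.mem_insert_of_mem hj)

end field

end T3

section

variable {p : ℕ} [Fact p.Prime]

theorem sum_Ico_eq_sum_units (f : ZMod p → ZMod p) :
    ∑ b ∈ Finset.Ico 1 p, f (b : ZMod p) = ∑ u : (ZMod p)ˣ, f (u : ZMod p) := by
  symm
  have hp : 0 < p := (Fact.out (p := p.Prime)).pos
  refine Finset.sum_bij (fun a _ => (a : ZMod p).val) ?_ ?_ ?_ ?_
  · intro a ha
    rw [Finset.mem_Ico]
    constructor
    · apply Nat.pos_of_ne_zero; rw [← @ZMod.val_zero p]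
      intro h; apply Units.ne_zero a (ZMod.val_injective p h)
    · exact ZMod.val_lt _
  · intro _ _ _ _ h; rw [Units.ext_iff]; exact ZMod.val_injective p h
  · intro b hb
    rw [Finset.mem_Ico, Nat.one_le_iff_ne_zero] at hb
    refine ⟨Units.mk0 b ?_, Finset.mem_univ _, ?_⟩
    · intro h; apply hb.1; apply_fun ZMod.val at h
      simpa only [ZMod.val_cast_of_lt hb.right, ZMod.val_zero] using h
    · simp only [ZMod.val_cast_of_lt hb.right, Units.val_mk0]
  · rintro a -; simp only [ZMod.natCast_val, ZMod.cast_id]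

theorem sum_key (hp : 5 ≤ p) :
    ∑ u : (ZMod p)ˣ, ((u : ZMod p)⁻¹ ^ 2 * (((u : ZMod p) - 1) * ((u : ZMod p) - 5))) = -1 := by
  classical
  have hcard : Fintype.card (ZMod p) = p := ZMod.card p
  have h1 : ∀ u : (ZMod p)ˣ, ((u : ZMod p)⁻¹ ^ 2 * (((u : ZMod p) - 1) * ((u : ZMod p) - 5)))
      = ((u⁻¹ : (ZMod p)ˣ) : ZMod p) ^ 0 - 6 * ((u⁻¹ : (ZMod p)ˣ) : ZMod p) ^ 1
        + 5 * ((u⁻¹ : (ZMod p)ˣ) : ZMod p) ^ 2 := by
    intro u
    have hu : (u : ZMod p) ≠ 0 := u.ne_zero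
    rw [Units.val_inv_eq_inv_val]
    field_simp
    ring
  rw [Finset.sum_congr rfl (fun u _ => h1 u)]
  have hre : ∑ u : (ZMod p)ˣ, (((u⁻¹ : (ZMod p)ˣ) : ZMod p) ^ 0
      - 6 * ((u⁻¹ : (ZMod p)ˣ) : ZMod p) ^ 1 + 5 * ((u⁻¹ : (ZMod p)ˣ) : ZMod p) ^ 2)
      = ∑ u : (ZMod p)ˣ, ((u : ZMod p) ^ 0 - 6 * (u : ZMod p) ^ 1 + 5 * (u : ZMod p) ^ 2) :=
    Fintype.sum_equiv (Equiv.inv (ZMod p)ˣ) _
      (fun u : (ZMod p)ˣ => (u : ZMod p) ^ 0 - 6 * (u : ZMod p) ^ 1 + 5 * (u : ZMod p) ^ 2)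
      (fun u => rfl)
  rw [hre]
  rw [Finset.sum_add_distrib, Finset.sum_sub_distrib, ← Finset.mul_sum, ← Finset.mul_sum]
  have h0 := FiniteField.sum_pow_units (ZMod p) 0
  have h1' := FiniteField.sum_pow_units (ZMod p) 1
  have h2' := FiniteField.sum_pow_units (ZMod p) 2
  rw [hcard] at h0 h1' h2'
  rw [if_pos (dvd_zero _)] at h0
  rw [if_neg (by intro h; have := Nat.le_of_dvd (by norm_num) h; omega)] at h1'
  rw [if_neg (by intro h; have := Nat.le_of_dvd (by norm_num) h; omega)] at h2'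
  rw [h0, h1', h2']
  ring

end

/-- [F] of project S14: local computation: the cyclotomic unit is nontrivial modulo `(1-ζ)^3`. -/
theorem local_E {p : ℕ} [Fact p.Prime] (hp : 5 ≤ p)
    (K : Type) [Field K] [NumberField K] [IsCyclotomicExtension {p} ℚ K]
    (ζ : 𝓞 K) (hζ : IsPrimitiveRoot ζ p) (e : ℕ → ℕ)
    (he : ∀ b ∈ Finset.Ico 1 p, (e b : ZMod p) * (b : ZMod p) ^ 2 = 1)
    (k : ℕ) (x : 𝓞 K) (hx : ¬ (1 - ζ) ∣ x) (n : ℤ)
    (h : (1 - ζ) ^ 3 ∣
      (∏ b ∈ Finset.Ico 1 p, (∑ j ∈ Finset.range b, ζ ^ j) ^ e b) ^ k * x ^ p - (n : 𝓞 K)) :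
    p ∣ k := by
  have hpp : p.Prime := Fact.out
  have h2 : (2 : ZMod p) ≠ 0 := by
    intro h
    have : ((2 : ℕ) : ZMod p) = 0 := by exact_mod_cast h
    rw [ZMod.natCast_eq_zero_iff] at this
    have := Nat.le_of_dvd (by norm_num) this; omega
  have h3 : (3 : ZMod p) ≠ 0 := by
    intro h
    have : ((3 : ℕ) : ZMod p) = 0 := by exact_mod_cast h
    rw [ZMod.natCast_eq_zero_iff] at this
    have := Nat.le_of_dvd (by norm_num) this; omega
  have h24 : (24 : ZMod p) ≠ 0 := by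
    have : (24 : ZMod p) = 2 ^ 3 * 3 := by norm_num
    rw [this]; exact mul_ne_zero (pow_ne_zero _ h2) h3
  -- the ring hom
  have hζK : IsPrimitiveRoot (ζ : K) p := hζ.map_of_injective RingOfIntegers.coe_injective
  have hgen : hζK.integralPowerBasis.gen = ζ := by
    rw [IsPrimitiveRoot.integralPowerBasis_gen]; exact hζK.toInteger_coe
  obtain ⟨θ, hθ⟩ : ∃ θ : 𝓞 K →+* T3 (ZMod p), θ ζ = 1 + T3.X := by
    have haev : Polynomial.aeval (1 + T3.X : T3 (ZMod p))
        (minpoly ℤ hζK.integralPowerBasis.gen) = 0 := by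
      have h1 : minpoly ℤ hζK.integralPowerBasis.gen = Polynomial.cyclotomic p ℤ := by
        rw [hgen]
        rw [Polynomial.cyclotomic_eq_minpoly hζK hpp.pos]
        exact (minpoly.algebraMap_eq RingOfIntegers.coe_injective ζ).symm
      rw [h1, Polynomial.cyclotomic_prime, map_sum]
      simp only [map_pow, Polynomial.aeval_X]
      rw [T3.geom h2 h3]
      ext <;> simp
    refine ⟨(hζK.integralPowerBasis.lift (1 + T3.X) haev).toRingHom, ?_⟩
    have := PowerBasis.lift_gen hζK.integralPowerBasis (1 + T3.X) haev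
    rw [hgen] at this
    exact this
  have hπ : θ (1 - ζ) = -T3.X := by rw [map_sub, map_one, hθ]; ring
  -- kernel of the constant hom
  have hxa : (θ x).a ≠ 0 := by
    intro h0
    apply hx
    have hprime : Prime (ζ - 1) := by
      have := hζK.zeta_sub_one_prime'
      exact this
    have hne : ζ - 1 ≠ 0 := hprime.ne_zero
    have hIprime : (Ideal.span {ζ - 1} : Ideal (𝓞 K)).IsPrime :=
      (Ideal.span_singleton_prime hne).mpr hprime
    have hImax : (Ideal.span {ζ - 1} : Ideal (𝓞 K)).IsMaximal :=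
      hIprime.isMaximal (by rwa [Ne, Ideal.span_singleton_eq_bot])
    let κ : 𝓞 K →+* ZMod p := (T3.constHom (R := ZMod p)).comp θ
    have hker : (Ideal.span {ζ - 1} : Ideal (𝓞 K)) = RingHom.ker κ := by
      apply hImax.eq_of_le (RingHom.ker_ne_top κ)
      rw [Ideal.span_singleton_le_iff_mem, RingHom.mem_ker]
      show (θ (ζ - 1)).a = 0
      rw [map_sub, map_one, hθ]; simp [T3.X, sub_eq_add_neg]
    have hxk : x ∈ (Ideal.span {ζ - 1} : Ideal (𝓞 K)) := by
      rw [hker, RingHom.mem_ker]; exact h0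
    rw [Ideal.mem_span_singleton] at hxk
    rw [← neg_dvd, neg_sub]
    exact hxk
  -- value of `θ` on the geometric sums
  have hgeom : ∀ b : ℕ, θ (∑ j ∈ Finset.range b, ζ ^ j)
      = ⟨b, b * (b - 1) / 2, b * (b - 1) * (b - 2) / 6⟩ := by
    intro b
    rw [map_sum]
    simp only [map_pow, hθ]
    exact T3.geom h2 h3 b
  have hbne : ∀ b ∈ Finset.Ico 1 p, (b : ZMod p) ≠ 0 := by
    intro b hb h0
    have := he b hb
    rw [h0] at this; simp at this
  set E : 𝓞 K := ∏ b ∈ Finset.Ico 1 p, (∑ j ∈ Finset.range b, ζ ^ j) ^ e b with hE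
  have hθE : θ E = ∏ b ∈ Finset.Ico 1 p, (θ (∑ j ∈ Finset.range b, ζ ^ j)) ^ e b := by
    rw [hE, map_prod]; simp only [map_pow]
  have hEa : (θ E).a ≠ 0 := by
    rw [hθE, T3.prod_a]
    refine Finset.prod_ne_zero_iff.mpr fun b hb => ?_
    rw [T3.pow_a, hgeom]
    exact pow_ne_zero _ (hbne b hb)
  have hLE : (24 : ZMod p) * T3.L (θ E) = -1 := by
    rw [hθE, T3.L_prod h2 _ _ (fun b hb => by
      rw [T3.pow_a, hgeom]; exact pow_ne_zero _ (hbne b hb)), Finset.mul_sum]
    rw [← sum_key hp, ← sum_Ico_eq_sum_units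
      (fun u => u⁻¹ ^ 2 * ((u - 1) * (u - 5)))]
    refine Finset.sum_congr rfl fun b hb => ?_
    have hb0 := hbne b hb
    rw [T3.L_pow h2 _ (by rw [hgeom]; exact hb0), hgeom]
    have heb : (e b : ZMod p) = ((b : ZMod p)⁻¹) ^ 2 := by
      have := he b hb
      field_simp
      exact this
    rw [heb]
    simp only [T3.L]
    have h6 : (6 : ZMod p) ≠ 0 := by
      have : (6 : ZMod p) = 2 * 3 := by norm_num
      rw [this]; exact mul_ne_zero h2 h3
    field_simp
    ring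
  -- conclusion
  have h0 : θ (E ^ k * x ^ p) = (n : T3 (ZMod p)) := by
    obtain ⟨w, hw⟩ := h
    have h1 : θ (E ^ k * x ^ p - (n : 𝓞 K)) = 0 := by
      rw [hw, map_mul, map_pow, hπ, neg_pow, T3.X_pow_three]; ring
    rw [map_sub, sub_eq_zero, map_intCast] at h1
    exact h1
  have hL : T3.L (θ (E ^ k * x ^ p)) = 0 := by
    rw [h0, T3.intCast_eq]; simp [T3.L]
  rw [map_mul, map_pow, map_pow, T3.L_mul h2 _ _ (by rw [T3.pow_a]; exact pow_ne_zero _ hEa)
    (by rw [T3.pow_a]; exact pow_ne_zero _ hxa), T3.L_pow h2 _ hEa, T3.L_pow h2 _ hxa,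
    CharP.cast_eq_zero (ZMod p) p, zero_mul, add_zero] at hL
  rw [← ZMod.natCast_eq_zero_iff]
  have : (k : ZMod p) * (24 * T3.L (θ E)) = 0 := by
    rw [mul_left_comm, hL, mul_zero]
  rw [hLE] at this
  simpa using this

end Fermat.Agent.H75
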