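import Mathlib
import Fermat.Prelude.Def_ClassGroup_GaloisAction
import Fermat.Agent.H14Cyclo
import Fermat.Agent.H64ThaineC
import Fermat.Agent.H75LocalE
import Fermat.Agent.H75ExistsChar
import Fermat.Agent.H46UnitEigen
import Fermat.Agent.H45ClassL

/-!
# S14: no `ω²`-equivariant character of the class group of `ℚ(ζ_p)`, `p ≥ 5`
-/

set_option autoImplicit false

open scoped Pointwise NumberField nonZeroDivisors
open IsDedekindDomain NumberField

namespace Fermat.Agent.H14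

section ClassGroupChar

variable {p : ℕ} [hp : Fact p.Prime] {K : Type} [Field K] [NumberField K]

/-- the value of a class group character on an ideal (`0` on the zero ideal) -/
noncomputable def chi (χ : Additive (ClassGroup (𝓞 K)) →+ ZMod p) (I : Ideal (𝓞 K)) : ZMod p :=
  open Classical in
  if h : I ∈ (Ideal (𝓞 K))⁰ then χ (Additive.ofMul (ClassGroup.mk0 ⟨I, h⟩)) else 0

variable (χ : Additive (ClassGroup (𝓞 K)) →+ ZMod p)

theorem chi_of_mem {I : Ideal (𝓞 K)} (h : I ∈ (Ideal (𝓞 K))⁰) :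
    chi χ I = χ (Additive.ofMul (ClassGroup.mk0 ⟨I, h⟩)) := dif_pos h

theorem chi_one : chi χ 1 = 0 := by
  rw [chi_of_mem χ (one_mem _)]
  have : (⟨1, one_mem _⟩ : (Ideal (𝓞 K))⁰) = 1 := rfl
  rw [this, map_one]
  exact χ.map_zero

theorem chi_mul {I J : Ideal (𝓞 K)} (hI : I ≠ 0) (hJ : J ≠ 0) :
    chi χ (I * J) = chi χ I + chi χ J := by
  have hI' := mem_nonZeroDivisors_iff_ne_zero.mpr hI
  have hJ' := mem_nonZeroDivisors_iff_ne_zero.mpr hJ
  rw [chi_of_mem χ hI', chi_of_mem χ hJ', chi_of_mem χ (mul_mem hI' hJ'), ← map_add,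
    ← ofMul_mul, ← map_mul]
  rfl

theorem chi_pow {I : Ideal (𝓞 K)} (hI : I ≠ 0) (n : ℕ) : chi χ (I ^ n) = n * chi χ I := by
  induction n with
  | zero => rw [pow_zero, chi_one]; simp
  | succ n ih => rw [pow_succ, chi_mul χ (pow_ne_zero _ hI) hI, ih]; push_cast; ring

theorem chi_prod {ι : Type*} (s : Finset ι) (f : ι → Ideal (𝓞 K)) (hf : ∀ i ∈ s, f i ≠ 0) :
    chi χ (∏ i ∈ s, f i) = ∑ i ∈ s, chi χ (f i) := by
  classical
  induction s using Finset.induction_on with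
  | empty => rw [Finset.prod_empty, Finset.sum_empty, chi_one]
  | insert a s ha ih =>
    rw [Finset.prod_insert ha, Finset.sum_insert ha, chi_mul χ (hf a (Finset.mem_insert_self _ _))
      (Finset.prod_ne_zero_iff.mpr fun i hi => hf i (Finset.mem_insert_of_mem hi)),
      ih fun i hi => hf i (Finset.mem_insert_of_mem hi)]

theorem chi_span {x : 𝓞 K} (hx : x ≠ 0) : chi χ (Ideal.span {x}) = 0 := by
  have h : Ideal.span {x} ∈ (Ideal (𝓞 K))⁰ := mem_nonZeroDivisors_iff_ne_zero.mpr (by simpa using hx)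
  rw [chi_of_mem χ h]
  have : ClassGroup.mk0 (⟨Ideal.span {x}, h⟩ : (Ideal (𝓞 K))⁰) = 1 := by
    rw [ClassGroup.mk0_eq_one_iff]
    exact ⟨⟨x, rfl⟩⟩
  rw [this]
  exact χ.map_zero

/-- the action of an automorphism on the class group -/
noncomputable def classAct (σ : K ≃ₐ[ℚ] K) : ClassGroup (𝓞 K) ≃* ClassGroup (𝓞 K) :=
  ClassGroup.mulEquiv (MulSemiringAction.toRingEquiv (K ≃ₐ[ℚ] K) (𝓞 K) σ)

theorem classAct_mk0 (σ : K ≃ₐ[ℚ] K) (I : (Ideal (𝓞 K))⁰) (h : σ • (I : Ideal (𝓞 K)) ∈ (Ideal (𝓞 K))⁰) :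
    classAct σ (ClassGroup.mk0 I) = ClassGroup.mk0 ⟨σ • (I : Ideal (𝓞 K)), h⟩ := by
  rw [classAct, ClassGroup.mulEquiv_mk0]
  rfl

theorem smul_mem_nonZeroDivisors (σ : K ≃ₐ[ℚ] K) {I : Ideal (𝓞 K)} (hI : I ≠ 0) :
    σ • I ∈ (Ideal (𝓞 K))⁰ := by
  rw [mem_nonZeroDivisors_iff_ne_zero]
  intro h0
  apply hI
  have : I = σ⁻¹ • (σ • I) := (inv_smul_smul _ _).symm
  rw [this, h0]
  simp

theorem classAct_mul (σ τ : K ≃ₐ[ℚ] K) (c : ClassGroup (𝓞 K)) :
    classAct (σ * τ) c = classAct σ (classAct τ c) := by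
  obtain ⟨I, rfl⟩ := ClassGroup.mk0_surjective c
  have hI : (I : Ideal (𝓞 K)) ≠ 0 := mem_nonZeroDivisors_iff_ne_zero.mp I.2
  rw [classAct_mk0 τ I (smul_mem_nonZeroDivisors τ hI),
    classAct_mk0 (σ * τ) I (smul_mem_nonZeroDivisors _ hI),
    classAct_mk0 σ ⟨τ • (I : Ideal (𝓞 K)), _⟩ (smul_mem_nonZeroDivisors σ (mem_nonZeroDivisors_iff_ne_zero.mp
      (smul_mem_nonZeroDivisors τ hI)))]
  congr 1
  exact Subtype.ext (mul_smul _ _ _)

theorem classAct_one (c : ClassGroup (𝓞 K)) : classAct (1 : K ≃ₐ[ℚ] K) c = c := by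
  obtain ⟨I, rfl⟩ := ClassGroup.mk0_surjective c
  have hI : (I : Ideal (𝓞 K)) ≠ 0 := mem_nonZeroDivisors_iff_ne_zero.mp I.2
  rw [classAct_mk0 1 I (smul_mem_nonZeroDivisors 1 hI)]
  congr 1
  exact Subtype.ext (one_smul _ _)

end ClassGroupChar

section Cyclo

/-- exponents `e b = b⁻² mod p` -/
noncomputable def ee (p : ℕ) (b : ℕ) : ℕ := (((b : ZMod p)⁻¹) ^ 2).val

variable {p : ℕ} [hp : Fact p.Prime] {K : Type} [Field K] [NumberField K]
  [hcyc : IsCyclotomicExtension {p} ℚ K] {ζ : 𝓞 K} (hζ : IsPrimitiveRoot ζ p)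

theorem ee_cast (b : ℕ) : (ee p b : ZMod p) = ((b : ZMod p)⁻¹) ^ 2 := by
  rw [ee, ZMod.natCast_val, ZMod.cast_id]

theorem cast_ne_zero_of_mem {b : ℕ} (hb : b ∈ Finset.Ico 1 p) : (b : ZMod p) ≠ 0 := by
  rw [Finset.mem_Ico] at hb
  rw [Ne, ZMod.natCast_eq_zero_iff]
  exact Nat.not_dvd_of_pos_of_lt hb.1 hb.2

theorem ee_spec : ∀ b ∈ Finset.Ico 1 p, (ee p b : ZMod p) * (b : ZMod p) ^ 2 = 1 := by
  intro b hb
  rw [ee_cast, ← mul_pow, inv_mul_cancel₀ (cast_ne_zero_of_mem hb), one_pow]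

/-- sum over `(ZMod p)ˣ` versus sum over `1..p-1` -/
theorem sum_units_eq {M : Type*} [AddCommMonoid M] (f : ℕ → M) :
    ∑ u : (ZMod p)ˣ, f (u : ZMod p).val = ∑ b ∈ Finset.Ico 1 p, f b := by
  refine Finset.sum_bij (fun u _ => (u : ZMod p).val) ?_ ?_ ?_ ?_
  · intro u _
    rw [Finset.mem_Ico]
    refine ⟨Nat.pos_of_ne_zero ?_, ZMod.val_lt _⟩
    rw [Ne, ZMod.val_eq_zero]
    exact u.ne_zero
  · intro u _ v _ h
    exact Units.ext (ZMod.val_injective p h)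
  · intro b hb
    refine ⟨Units.mk0 (b : ZMod p) (cast_ne_zero_of_mem hb), Finset.mem_univ _, ?_⟩
    rw [Units.val_mk0, ZMod.val_natCast, Nat.mod_eq_of_lt (Finset.mem_Ico.mp hb).2]
  · intro u _; rfl

theorem sum_ee (h5 : 5 ≤ p) : p ∣ ∑ b ∈ Finset.Ico 1 p, ee p b := by
  rw [← ZMod.natCast_eq_zero_iff, ← sum_units_eq (fun b => ee p b)]
  push_cast
  have h1 : ∀ u : (ZMod p)ˣ, (ee p (u : ZMod p).val : ZMod p) = ((u⁻¹ : (ZMod p)ˣ) : ZMod p) ^ 2 := by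
    intro u
    rw [ee_cast, ZMod.natCast_val, ZMod.cast_id, Units.val_inv_eq_inv_val]
  simp only [h1]
  rw [← Equiv.sum_comp (Equiv.inv (ZMod p)ˣ)]
  simp only [Equiv.inv_apply, inv_inv]
  have h2 := FiniteField.sum_pow_units (ZMod p) 2
  rw [h2, if_neg]
  rw [ZMod.card]
  intro h
  have := Nat.le_of_dvd (by norm_num) h
  omega

/-- automorphism attached to a unit -/
noncomputable def tau (K : Type) [Field K] [NumberField K] [IsCyclotomicExtension {p} ℚ K]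
    (u : (ZMod p)ˣ) : K ≃ₐ[ℚ] K :=
  (IsCyclotomicExtension.Rat.galEquivZMod p K).symm u

theorem tau_smul (u : (ZMod p)ˣ) {x : 𝓞 K} (hx : x ^ p = 1) :
    tau K u • x = x ^ (u : ZMod p).val := by
  rw [IsCyclotomicExtension.Rat.galEquivZMod_smul_of_pow_eq p K _ hx, tau,
    MulEquiv.apply_symm_apply]

theorem tau_mul (u v : (ZMod p)ˣ) : tau K (u * v) = tau K u * tau K v := map_mul _ _ _

theorem tau_one : tau K (1 : (ZMod p)ˣ) = 1 := map_one _

theorem tau_inv (u : (ZMod p)ˣ) : tau K u⁻¹ = (tau K u)⁻¹ := map_inv _ _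

theorem tau_surj (σ : K ≃ₐ[ℚ] K) : ∃ u : (ZMod p)ˣ, tau K u = σ :=
  ⟨IsCyclotomicExtension.Rat.galEquivZMod p K σ, MulEquiv.symm_apply_apply _ _⟩

end Cyclo

section NoChar

variable {p : ℕ} [hp : Fact p.Prime] {K : Type} [Field K] [NumberField K]
  [hcyc : IsCyclotomicExtension {p} ℚ K] {ζ : 𝓞 K} (hζ : IsPrimitiveRoot ζ p)

/-- the cyclotomic unit -/
noncomputable def cycU (p : ℕ) {K : Type} [Field K] (ζ : 𝓞 K) : 𝓞 K :=
  ∏ b ∈ Finset.Ico 1 p, (∑ j ∈ Finset.range b, ζ ^ j) ^ ee p b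

include hζ in
theorem isUnit_cycU : IsUnit (cycU p ζ) := by
  rw [cycU, IsUnit.prod_iff]
  intro b hb
  refine IsUnit.pow _ (hζ.geom_sum_isUnit hp.out.two_le ?_)
  rw [Finset.mem_Ico] at hb
  exact (Nat.coprime_of_lt_prime (by omega) hb.2 hp.out).symm

include hζ in
theorem cycU_not_pow (h5 : 5 ≤ p) (x : 𝓞 K) : x ^ p ≠ cycU p ζ := by
  intro hx
  obtain ⟨n, hn⟩ := exists_int_pow_sub hζ (by omega) x
  have h1 := Fermat.Agent.H75.local_E h5 K ζ hζ (ee p) ee_spec 1 1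
    (fun h => (prime_one_sub hζ).not_isUnit (isUnit_of_dvd_one h)) n (by
      rw [pow_one, one_pow, mul_one]
      show (1 - ζ) ^ 3 ∣ cycU p ζ - (n : 𝓞 K)
      rw [← hx]
      exact hn)
  have := Nat.le_of_dvd one_pos h1
  omega

/-- the complex character attached to an additive character mod `p` -/
theorem exists_complex_char (χ : Additive (ClassGroup (𝓞 K)) →+ ZMod p) :
    ∃ ψ : ClassGroup (𝓞 K) →* ℂˣ, ∀ c, ψ c = 1 ↔ χ (Additive.ofMul c) = 0 := by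
  let ψ0 : ClassGroup (𝓞 K) →* ℂ :=
    { toFun := fun c => ZMod.stdAddChar (χ (Additive.ofMul c))
      map_one' := by
        rw [ofMul_one, map_zero, AddChar.map_zero_eq_one]
      map_mul' := fun a b => by
        rw [ofMul_mul, map_add, AddChar.map_add_eq_mul] }
  refine ⟨ψ0.toHomUnits, fun c => ?_⟩
  rw [← Units.val_inj, MonoidHom.coe_toHomUnits, Units.val_one]
  constructor
  · intro h
    have h1 : ZMod.stdAddChar (χ (Additive.ofMul c)) = ZMod.stdAddChar (0 : ZMod p) := by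
      rw [AddChar.map_zero_eq_one]
      exact h
    exact ZMod.injective_stdAddChar h1
  · intro h
    show ZMod.stdAddChar (χ (Additive.ofMul c)) = 1
    rw [h, AddChar.map_zero_eq_one]

theorem gal_smul_natCast (σ : K ≃ₐ[ℚ] K) (n : ℕ) : σ • (n : 𝓞 K) = (n : 𝓞 K) :=
  map_natCast (MulSemiringAction.toRingHom (K ≃ₐ[ℚ] K) (𝓞 K) σ) n

/-- product version of `sum_units_eq` -/
theorem prod_units_eq {M : Type*} [CommMonoid M] (f : ℕ → M) :
    ∏ u : (ZMod p)ˣ, f (u : ZMod p).val = ∏ b ∈ Finset.Ico 1 p, f b := by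
  refine Finset.prod_bij (fun u _ => (u : ZMod p).val) ?_ ?_ ?_ ?_
  · intro u _
    rw [Finset.mem_Ico]
    refine ⟨Nat.pos_of_ne_zero ?_, ZMod.val_lt _⟩
    rw [Ne, ZMod.val_eq_zero]
    exact u.ne_zero
  · intro u _ v _ h
    exact Units.ext (ZMod.val_injective p h)
  · intro b hb
    refine ⟨Units.mk0 (b : ZMod p) (cast_ne_zero_of_mem hb), Finset.mem_univ _, ?_⟩
    rw [Units.val_mk0, ZMod.val_natCast, Nat.mod_eq_of_lt (Finset.mem_Ico.mp hb).2]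
  · intro u _; rfl

include hζ in
theorem no_char (h5 : 5 ≤ p)
    (hD2 : ∀ χ : ClassGroup (𝓞 K) →* ℂˣ, χ ≠ 1 → ∃ C : ℝ, ∀ s : ℝ, 1 < s → s ≤ 2 →
      ‖∑' I : (Ideal (𝓞 K))⁰, (χ (ClassGroup.mk0 I) : ℂ) *
        (((Ideal.absNorm (I : Ideal (𝓞 K)) : ℝ) ^ (-s) : ℝ) : ℂ)‖ ≤ C)
    (χ : Additive (ClassGroup (𝓞 K)) →+ ZMod p)
    (hχ : ∀ (u : (ZMod p)ˣ) (c : ClassGroup (𝓞 K)),
      χ (Additive.ofMul (classAct (tau K u) c)) = (u : ZMod p) ^ 2 * χ (Additive.ofMul c)) :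
    χ = 0 := by
  classical
  by_contra hne
  obtain ⟨ψ, hψ⟩ := exists_complex_char χ
  have hψ1 : ψ ≠ 1 := by
    rintro rfl
    apply hne
    refine AddMonoidHom.ext fun c => ?_
    exact (hψ (Additive.toMul c)).mp rfl
  -- the good prime
  obtain ⟨P, hPprime, hPnorm, hPB, hPψ, hPpow⟩ :=
    Fermat.Agent.H45.exists_prime_char_ne_one_not_pow_of (K := K) hp.out (by omega) ζ hζ (cycU p ζ)
      (isUnit_cycU hζ).ne_zero (cycU_not_pow hζ h5) ψ (hD2 ψ hψ1) p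
  set PP : Ideal (𝓞 K) := (P : Ideal (𝓞 K)) with hPP
  have hPne : PP ≠ 0 := mem_nonZeroDivisors_iff_ne_zero.mp P.2
  have hPmax : PP.IsMaximal := hPprime.isMaximal hPne
  set q : ℕ := Ideal.absNorm PP with hq
  have hqfact : Fact q.Prime := ⟨hPnorm⟩
  have hχP : χ (Additive.ofMul (ClassGroup.mk0 P)) ≠ 0 := fun h => hPψ ((hψ _).mpr h)
  have hqP : (q : 𝓞 K) ∈ PP := Ideal.absNorm_mem PP
  have hpP : (p : 𝓞 K) ∉ PP := by
    intro hpP
    have hcop : IsCoprime (p : ℤ) (q : ℤ) :=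
      Nat.isCoprime_iff_coprime.mpr ((Nat.coprime_primes hp.out hPnorm).mpr (by omega))
    obtain ⟨a, b, hab⟩ := hcop
    have h5 : (a : 𝓞 K) * (p : 𝓞 K) + (b : 𝓞 K) * (q : 𝓞 K) = 1 := by
      exact_mod_cast congrArg (Int.cast : ℤ → 𝓞 K) hab
    exact hPprime.ne_top ((Ideal.eq_top_iff_one _).mpr (by
      rw [← h5]
      exact Ideal.add_mem _ (Ideal.mul_mem_left _ _ hpP) (Ideal.mul_mem_left _ _ hqP)))
  have hπP : (1 - ζ) ∉ PP := by
    intro h
    apply hpP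
    obtain ⟨r, hr⟩ := (dvd_pow_self (1 - ζ) (by omega : p - 1 ≠ 0)).trans (one_sub_pow_dvd_natCast hζ)
    rw [hr]
    exact Ideal.mul_mem_right _ _ h
  -- residue field
  letI : Field (𝓞 K ⧸ PP) := Ideal.Quotient.field PP
  have hcard : Nat.card (𝓞 K ⧸ PP) = q := (Ideal.absNorm_apply PP).symm
  have hfin : Finite (𝓞 K ⧸ PP) := Nat.finite_of_card_ne_zero (by rw [hcard]; exact hPnorm.ne_zero)
  have hprim : IsPrimitiveRoot (Ideal.Quotient.mk PP ζ) p := by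
    have h1 : (Ideal.Quotient.mk PP ζ) ^ p = 1 := by rw [← map_pow, hζ.pow_eq_one, map_one]
    have h2 : Ideal.Quotient.mk PP ζ ≠ 1 := by
      intro h
      apply hπP
      rw [← map_one (Ideal.Quotient.mk PP), Ideal.Quotient.eq] at h
      have := PP.neg_mem h
      rwa [neg_sub] at this
    rw [← orderOf_eq_prime h1 h2]
    exact IsPrimitiveRoot.orderOf _
  -- `p ∣ q - 1`
  have hpq : p ∣ q - 1 := by
    have h0 : Ideal.Quotient.mk PP ζ ≠ 0 := hprim.ne_zero hp.out.ne_zero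
    have h3 : orderOf (Units.mk0 _ h0) = p := by
      rw [← orderOf_units, Units.val_mk0, ← hprim.eq_orderOf]
    have h4 : orderOf (Units.mk0 _ h0) ∣ Nat.card (𝓞 K ⧸ PP)ˣ := orderOf_dvd_natCard _
    rw [h3, Nat.card_units, hcard] at h4
    exact h4
  -- integers surject onto the residue field
  have hsurj : ∀ x : 𝓞 K, ∃ n : ℕ, x - (n : 𝓞 K) ∈ PP := by
    intro x
    letI := Fintype.ofFinite (𝓞 K ⧸ PP)
    have hc : Fintype.card (𝓞 K ⧸ PP) = q := by rw [← Nat.card_eq_fintype_card, hcard]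
    let e := ZMod.ringEquivOfPrime (𝓞 K ⧸ PP) hPnorm hc
    refine ⟨(e.symm (Ideal.Quotient.mk PP x)).val, ?_⟩
    rw [← Ideal.Quotient.eq, map_natCast]
    have h1 : e (((e.symm (Ideal.Quotient.mk PP x)).val : ℕ) : ZMod q) =
        (((e.symm (Ideal.Quotient.mk PP x)).val : ℕ) : 𝓞 K ⧸ PP) := map_natCast e _
    rw [← h1, ZMod.natCast_val, ZMod.cast_id, RingEquiv.apply_symm_apply]
  -- Thaine
  obtain ⟨κ, 𝔟, g, r, hκ0, hκ, hκg⟩ := Fermat.Agent.H64.thaine hpq K ζ hζ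
  have hqne : (Ideal.span {(q : ℤ)}) ≠ ⊥ := by
    rw [Ne, Ideal.span_singleton_eq_bot]
    exact_mod_cast hPnorm.ne_zero
  have hqmax : (Ideal.span {(q : ℤ)}).IsMaximal :=
    PrincipalIdealRing.isMaximal_of_irreducible (Nat.prime_iff_prime_int.mp hPnorm).irreducible
  have hover : PP.LiesOver (Ideal.span {(q : ℤ)}) := by
    constructor
    refine hqmax.eq_of_le (inferInstance : (PP.under ℤ).IsPrime).ne_top ?_
    rw [Ideal.span_singleton_le_iff_mem, Ideal.under_def, Ideal.mem_comap]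
    simpa using hqP
  have hmemP : ∀ Q : Ideal (𝓞 K), Q ∈ IsDedekindDomain.primesOverFinset (Ideal.span {(q : ℤ)}) (𝓞 K) ↔
      Q.IsPrime ∧ Q.LiesOver (Ideal.span {(q : ℤ)}) := by
    intro Q
    rw [IsDedekindDomain.mem_primesOverFinset_iff hqne]
    rfl
  -- the sum over primes above `q`
  have hsum : ∑ Q ∈ IsDedekindDomain.primesOverFinset (Ideal.span {(q : ℤ)}) (𝓞 K),
      (r Q : ZMod p) * chi χ Q = 0 := by
    have h1 := chi_span χ hκ0
    have hQ0 : ∀ Q ∈ IsDedekindDomain.primesOverFinset (Ideal.span {(q : ℤ)}) (𝓞 K), Q ≠ 0 := by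
      intro Q hQ h0
      obtain ⟨h2, h3⟩ := (hmemP Q).mp hQ
      rw [h0] at h3
      have h4 := h3.over
      apply hqne
      rw [h4]
      exact Ideal.under_bot ℤ (𝓞 K)
    have hprod0 : ∏ Q ∈ IsDedekindDomain.primesOverFinset (Ideal.span {(q : ℤ)}) (𝓞 K), Q ^ r Q ≠ 0 :=
      Finset.prod_ne_zero_iff.mpr fun Q hQ => pow_ne_zero _ (hQ0 Q hQ)
    have h𝔟0 : 𝔟 ≠ 0 := by
      rintro rfl
      rw [zero_pow hp.out.ne_zero, zero_mul] at hκ
      exact hκ0 (by simpa using hκ)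
    rw [hκ, chi_mul χ (pow_ne_zero _ h𝔟0) hprod0, chi_pow χ h𝔟0, CharP.cast_eq_zero, zero_mul,
      zero_add, chi_prod χ _ _ (fun Q hQ => pow_ne_zero _ (hQ0 Q hQ))] at h1
    rw [← h1]
    exact Finset.sum_congr rfl fun Q hQ => (chi_pow χ (hQ0 Q hQ) _).symm
  -- reindex
  have hτζ : ∀ u : (ZMod p)ˣ, tau K u • ζ = ζ ^ (u : ZMod p).val := fun u => tau_smul u hζ.pow_eq_one
  have hfix : ∀ w : (ZMod p)ˣ, tau K w • PP = PP → w = 1 := by
    intro w hw
    obtain ⟨n, hn⟩ := hsurj ζ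
    have h1 : tau K w • (ζ - (n : 𝓞 K)) ∈ PP := by
      rw [← hw]
      exact Ideal.smul_mem_pointwise_smul _ _ _ hn
    rw [smul_sub, hτζ] at h1
    have h2 : tau K w • (n : 𝓞 K) = (n : 𝓞 K) := gal_smul_natCast _ _
    rw [h2] at h1
    have h3 : ζ ^ (w : ZMod p).val - ζ ^ 1 ∈ PP := by
      have := PP.sub_mem h1 hn
      rwa [sub_sub_sub_cancel_right, ← pow_one ζ, ← pow_mul, one_mul] at this
    rw [← Ideal.Quotient.eq, map_pow, map_pow] at h3
    have h4 := hprim.pow_inj (ZMod.val_lt _) hp.out.one_lt h3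
    apply Units.ext
    rw [Units.val_one]
    rw [← ZMod.natCast_zmod_val (w : ZMod p), h4, Nat.cast_one]
  have hreindex : ∑ Q ∈ IsDedekindDomain.primesOverFinset (Ideal.span {(q : ℤ)}) (𝓞 K),
      (r Q : ZMod p) * chi χ Q
      = ∑ u : (ZMod p)ˣ, (r (tau K u⁻¹ • PP) : ZMod p) * chi χ (tau K u⁻¹ • PP) := by
    symm
    refine Finset.sum_bij (fun u _ => tau K u⁻¹ • PP) ?_ ?_ ?_ ?_
    · intro u _
      rw [hmemP]
      exact ⟨inferInstance, inferInstance⟩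
    · intro u _ v _ huv
      have h1 : tau K (v * u⁻¹) • PP = PP := by
        rw [tau_mul, mul_smul, show tau K u⁻¹ • PP = tau K v⁻¹ • PP from huv, ← mul_smul, ← tau_mul,
          mul_inv_cancel, tau_one, one_smul]
      have h2 := hfix _ h1
      exact (mul_inv_eq_one.mp h2).symm
    · intro Q hQ
      obtain ⟨h2, h3⟩ := (hmemP Q).mp hQ
      have hgal : IsGalois ℚ K := IsCyclotomicExtension.isGalois {p} ℚ K
      obtain ⟨σ, hσ⟩ := Ideal.exists_smul_eq_of_isGaloisGroup (Ideal.span {(q : ℤ)}) PP Q (K ≃ₐ[ℚ] K)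
      obtain ⟨u, hu⟩ := tau_surj (p := p) σ
      exact ⟨u⁻¹, Finset.mem_univ _, by rw [inv_inv, hu, hσ]⟩
    · intro u _; rfl
  rw [hreindex] at hsum
  -- the exponent is divisible by `p`
  set R : (ZMod p)ˣ → ℕ := fun u => r (tau K u⁻¹ • PP) with hR
  have hchi : ∀ u : (ZMod p)ˣ, chi χ (tau K u⁻¹ • PP) =
      ((u⁻¹ : (ZMod p)ˣ) : ZMod p) ^ 2 * χ (Additive.ofMul (ClassGroup.mk0 P)) := by
    intro u
    rw [chi_of_mem χ (smul_mem_nonZeroDivisors _ hPne), ← hχ, classAct_mk0]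
  have hN : p ∣ ∑ u : (ZMod p)ˣ, R u * ee p (u : ZMod p).val := by
    rw [← ZMod.natCast_eq_zero_iff]
    push_cast
    have h1 : (∑ u : (ZMod p)ˣ, (R u : ZMod p) * (ee p (u : ZMod p).val : ZMod p)) *
        χ (Additive.ofMul (ClassGroup.mk0 P)) = 0 := by
      rw [← hsum, Finset.sum_mul]
      refine Finset.sum_congr rfl fun u _ => ?_
      rw [hchi, ee_cast, ZMod.natCast_val, ZMod.cast_id, Units.val_inv_eq_inv_val, mul_assoc]
    exact (mul_eq_zero.mp h1).resolve_right hχP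
  obtain ⟨N, hN⟩ := hN
  obtain ⟨M, hM⟩ := sum_ee (p := p) h5
  -- conclusion
  have hval : ∀ u : (ZMod p)ˣ, Ideal.Quotient.mk PP (1 - ζ ^ (u : ZMod p).val) =
      (g : 𝓞 K ⧸ PP) ^ R u := by
    intro u
    have h1 : (1 - ζ) - (g : 𝓞 K) ^ R u ∈ tau K u⁻¹ • PP :=
      hκg _ ((hmemP _).mpr ⟨inferInstance, inferInstance⟩)
    have h2 : tau K u • ((1 - ζ) - (g : 𝓞 K) ^ R u) ∈ PP := by
      have := Ideal.smul_mem_pointwise_smul (tau K u) _ _ h1
      rwa [← mul_smul, ← tau_mul, mul_inv_cancel, tau_one, one_smul] at this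
    rw [smul_sub, smul_sub, smul_one, hτζ, smul_pow', gal_smul_natCast] at h2
    rw [← Ideal.Quotient.eq, map_pow, map_natCast] at h2
    exact h2
  have hprod : Ideal.Quotient.mk PP (∏ b ∈ Finset.Ico 1 p, (1 - ζ ^ b) ^ ee p b) =
      ((g : 𝓞 K ⧸ PP) ^ N) ^ p := by
    rw [← prod_units_eq (fun b => (1 - ζ ^ b) ^ ee p b), map_prod, ← pow_mul, mul_comm N p, ← hN,
      ← Finset.prod_pow_eq_pow_sum]
    refine Finset.prod_congr rfl fun u _ => ?_
    rw [map_pow, hval, pow_mul]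
  have hprod2 : (∏ b ∈ Finset.Ico 1 p, (1 - ζ ^ b) ^ ee p b) = ((1 - ζ) ^ M) ^ p * cycU p ζ := by
    rw [← pow_mul, mul_comm M p, ← hM, ← Finset.prod_pow_eq_pow_sum, cycU, ← Finset.prod_mul_distrib]
    refine Finset.prod_congr rfl fun b _ => ?_
    rw [← mul_pow, mul_neg_geom_sum]
  rw [hprod2, map_mul, map_pow, map_pow] at hprod
  have hπ0 : Ideal.Quotient.mk PP (1 - ζ) ≠ 0 := fun h => hπP (Ideal.Quotient.eq_zero_iff_mem.mp h)
  obtain ⟨x, hx⟩ := Ideal.Quotient.mk_surjective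
    ((g : 𝓞 K ⧸ PP) ^ N / (Ideal.Quotient.mk PP (1 - ζ)) ^ M)
  apply hPpow x
  rw [← Ideal.Quotient.eq, map_pow, hx, div_pow, ← hprod, mul_comm, mul_div_assoc,
    div_self (pow_ne_zero _ (pow_ne_zero _ hπ0)), mul_one]

end NoChar

end Fermat.Agent.H14
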