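import Mathlib
import Fermat.Prelude.Def_FLTPrelim_Modularity

set_option autoImplicit false

/-!
# `a₂` and `a₃` of an integral model from its invariants (helper14, rows 42 and 54)
-/

open WeierstrassCurve

namespace Fermat.Agent.H14X

/-- number of affine solutions over a finite field, as an explicit decidable count -/
def cnt (F : Type) [CommRing F] [Fintype F] [DecidableEq F] (a1 a2 a3 a4 a6 : F) : ℕ :=
  (Finset.univ.filter fun xy : F × F =>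
    xy.2 ^ 2 + a1 * xy.1 * xy.2 + a3 * xy.2 = xy.1 ^ 3 + a2 * xy.1 ^ 2 + a4 * xy.1 + a6).card

theorem card_eq_cnt {F : Type} [Field F] [Fintype F] [DecidableEq F] (W : WeierstrassCurve F)
    (hΔ : W.Δ ≠ 0) : Nat.card W.toAffine.Point = cnt F W.a₁ W.a₂ W.a₃ W.a₄ W.a₆ + 1 := by
  classical
  have : W.IsElliptic := ⟨isUnit_iff_ne_zero.mpr hΔ⟩
  rw [Nat.card_congr W.toAffine.pointEquiv]
  change Nat.card (Option _) = _
  rw [Finite.card_option]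
  congr 1
  rw [cnt, Nat.card_eq_fintype_card, Fintype.card_subtype]
  congr 1
  ext ⟨x, y⟩
  simp only [Finset.mem_filter, Finset.mem_univ, true_and]
  rw [WeierstrassCurve.Affine.equation_iff]

theorem ap_eq_cnt (W : WeierstrassCurve ℤ) (p : ℕ) [hp : Fact p.Prime] (hΔ : ¬ (p : ℤ) ∣ W.Δ) :
    W.apOfModel p = (p : ℤ) - cnt (ZMod p) W.a₁ W.a₂ W.a₃ W.a₄ W.a₆ := by
  have h1 : (W.reductionMod p).Δ ≠ 0 := by
    intro h
    apply hΔ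
    rw [← ZMod.intCast_zmod_eq_zero_iff_dvd]
    rw [reductionMod, map_Δ] at h
    simpa using h
  rw [apOfModel, traceOfFrobenius, WeierstrassCurve.card, card_eq_cnt _ h1]
  have e : (Nat.card (ZMod p) : ℤ) = p := by
    rw [Nat.card_eq_fintype_card, ZMod.card]
  rw [e]
  simp only [reductionMod, map_a₁, map_a₂, map_a₃, map_a₄, map_a₆, eq_intCast]
  push_cast
  ring

/-! ### the prime `2` -/

/-- supersingular at `2` with trace `-2` or `2`. -/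
theorem cnt_two : ∀ a2 a4 a6 : ZMod 2, a2 + a4 = 1 →
    cnt (ZMod 2) 0 a2 1 a4 a6 = if a6 = 0 then 4 else 0 := by
  decide

theorem cnt_two_zero : ∀ a2 a4 a6 : ZMod 2, a2 + a4 = 0 →
    cnt (ZMod 2) 0 a2 1 a4 a6 = 2 := by
  decide

/-- ordinary at `2` -/
theorem cnt_two_ord : ∀ a2 a4 a6 : ZMod 2, a4 + a6 = 1 →
    cnt (ZMod 2) 1 a2 0 a4 a6 = if a2 = 0 then 3 else 1 := by
  decide

theorem cnt_two_ord' : ∀ a2 a4 a6 : ZMod 2,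
    cnt (ZMod 2) 1 a2 1 a4 a6 = if a6 = 0 then 3 else 1 := by
  decide

/-! ### the prime `3` -/

/-- ordinary case: the count only depends on `b₂` and `Δ` mod `3` -/
theorem cnt_three (a1 a2 a3 a4 a6 : ZMod 3) :
    cnt (ZMod 3) a1 a2 a3 a4 a6 =
      cnt (ZMod 3) 0 (a1 ^ 2 + 4 * a2) 0 (-(2 * a4 + a1 * a3)) (a3 ^ 2 + 4 * a6) := by
  unfold cnt
  refine Finset.card_bij (fun xy _ => (xy.1, xy.2 - a1 * xy.1 - a3)) ?_ ?_ ?_
  · rintro ⟨x, y⟩ h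
    simp only [Finset.mem_filter, Finset.mem_univ, true_and] at h ⊢
    have h3 : (3 : ZMod 3) = 0 := rfl
    linear_combination h + (-(a1 * x * y) - a3 * y - x ^ 2 * a2 + x * a4 - a6 +
      a1 * a3 * x) * h3
  · rintro ⟨x, y⟩ _ ⟨x', y'⟩ _ h
    simp only [Prod.mk.injEq] at h
    obtain ⟨rfl, h⟩ := h
    ext
    · rfl
    · simpa using h
  · rintro ⟨x, y⟩ h
    refine ⟨(x, y + a1 * x + a3), ?_, ?_⟩
    · simp only [Finset.mem_filter, Finset.mem_univ, true_and] at h ⊢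
      have h3 : (3 : ZMod 3) = 0 := rfl
      linear_combination h + (y * a1 * x + y * a3 + a1 * x * a3 + a1 ^ 2 * x ^ 2 - x * a4 +
        x ^ 2 * a2 + a3 ^ 2 + a6) * h3
    · simp only [Prod.mk.injEq, true_and]
      ring

/-- ordinary case -/
theorem cnt_three_ord : ∀ b2 b4 b6 b4' b6' : ZMod 3, b2 ≠ 0 →
    -b2 ^ 2 * (b2 * b6 - b4 ^ 2) + b4 ^ 3 = -b2 ^ 2 * (b2 * b6' - b4' ^ 2) + b4' ^ 3 →
    cnt (ZMod 3) 0 b2 0 (-b4) b6 = cnt (ZMod 3) 0 b2 0 (-b4') b6' := by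
  decide

/-- supersingular case -/
theorem cnt_three_ss : ∀ b6 b6' : ZMod 3,
    cnt (ZMod 3) 0 0 0 (-(-1)) b6 = cnt (ZMod 3) 0 0 0 (-(-1)) b6' := by
  decide

theorem dec1 : ∀ x y : ZMod 3, -x ^ 3 = -y ^ 3 → x = y := by decide
theorem dec2 : ∀ x y : ZMod 3, -0 ^ 2 * (0 * 0 - x ^ 2) + x ^ 3 = -0 ^ 2 * (0 * 0 - y ^ 2) + y ^ 3 →
    x = y := by decide
theorem dec3 : ∀ x : ZMod 3, x ≠ 0 → x = 1 ∨ x = -1 := by decide
theorem dec4 : ∀ u v x y : ZMod 3, -v ^ 3 + 4 * v * 1 - 8 * y = -u ^ 3 + 4 * u * 1 - 8 * x →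
    y = x := by decide
theorem dec5 : ∀ x : ZMod 2, x ≠ 0 → x = 1 := by decide
theorem dec6 : ∀ x y z : ZMod 2, (x ^ 2 + y) ^ 2 - 3 * (z + x * 1) = 1 → y + z = 1 := by decide

theorem cast_eq_of_dvd {n : ℕ} {x y : ℤ} (h : (n : ℤ) ∣ x - y) : (x : ZMod n) = (y : ZMod n) := by
  rw [← sub_eq_zero, ← Int.cast_sub, ZMod.intCast_zmod_eq_zero_iff_dvd]
  exact h

/-- the reduction at `3` is determined by `c₄`, `c₆`, `Δ` -/
theorem ap_three_eq (W W' : WeierstrassCurve ℤ) (h : ¬ (3 : ℤ) ∣ W.Δ) (h4 : (9 : ℤ) ∣ W'.c₄ - W.c₄)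
    (h6 : (81 : ℤ) ∣ W'.c₆ - W.c₆) (hD : (3 : ℤ) ∣ W'.Δ - W.Δ) : W'.apOfModel 3 = W.apOfModel 3 := by
  have hp : Fact (Nat.Prime 3) := ⟨Nat.prime_three⟩
  have h' : ¬ (3 : ℤ) ∣ W'.Δ := by
    intro h1
    apply h
    have := dvd_sub h1 hD
    rwa [sub_sub_cancel] at this
  rw [ap_eq_cnt W 3 (by exact_mod_cast h), ap_eq_cnt W' 3 (by exact_mod_cast h')]
  congr 2
  rw [cnt_three, cnt_three (W.a₁ : ZMod 3)]
  have key : ∀ V : WeierstrassCurve ℤ,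
      ((V.a₁ : ZMod 3) ^ 2 + 4 * (V.a₂ : ZMod 3)) = ((V.b₂ : ℤ) : ZMod 3) ∧
      ((2 * (V.a₄ : ZMod 3) + (V.a₁ : ZMod 3) * (V.a₃ : ZMod 3))) = ((V.b₄ : ℤ) : ZMod 3) ∧
      ((V.a₃ : ZMod 3) ^ 2 + 4 * (V.a₆ : ZMod 3)) = ((V.b₆ : ℤ) : ZMod 3) := by
    intro V
    simp only [WeierstrassCurve.b₂, WeierstrassCurve.b₄, WeierstrassCurve.b₆]
    push_cast
    exact ⟨rfl, rfl, rfl⟩
  obtain ⟨k2, k4, k6⟩ := key W
  obtain ⟨k2', k4', k6'⟩ := key W'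
  rw [k2, k4, k6, k2', k4', k6']
  have c4 : ∀ V : WeierstrassCurve ℤ, V.c₄ = V.b₂ ^ 2 - 24 * V.b₄ := fun V => rfl
  have c6 : ∀ V : WeierstrassCurve ℤ, V.c₆ = -V.b₂ ^ 3 + 36 * V.b₂ * V.b₄ - 216 * V.b₆ := fun V => rfl
  have hΔ4 : ∀ V : WeierstrassCurve ℤ, ((V.Δ : ℤ) : ZMod 3) =
      -(V.b₂ : ZMod 3) ^ 2 * ((V.b₂ : ZMod 3) * (V.b₆ : ZMod 3) - (V.b₄ : ZMod 3) ^ 2) +
        (V.b₄ : ZMod 3) ^ 3 := by
    intro V
    have e1 : V.Δ = -V.b₂ ^ 2 * V.b₈ - 8 * V.b₄ ^ 3 - 27 * V.b₆ ^ 2 + 9 * V.b₂ * V.b₄ * V.b₆ := rfl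
    have e2 := V.b_relation
    have e3 : V.Δ = -V.b₂ ^ 2 * (V.b₂ * V.b₆ - V.b₄ ^ 2) + V.b₄ ^ 3 +
        3 * (V.b₂ ^ 2 * V.b₈ - 3 * V.b₄ ^ 3 - 9 * V.b₆ ^ 2 + 3 * V.b₂ * V.b₄ * V.b₆) := by
      rw [e1]
      linear_combination (-V.b₂ ^ 2) * e2
    rw [e3]
    push_cast
    have h3 : (3 : ZMod 3) = 0 := rfl
    rw [h3]; ring
  have hb2 : ((W'.b₂ : ℤ) : ZMod 3) = (W.b₂ : ZMod 3) := by
    apply dec1
    have h7 : ((W'.c₆ : ℤ) : ZMod 3) = (W.c₆ : ZMod 3) :=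
      cast_eq_of_dvd ((by norm_num : ((3 : ℕ) : ℤ) ∣ 81).trans h6)
    rw [c6, c6] at h7
    push_cast at h7
    have h36 : (36 : ZMod 3) = 0 := rfl
    have h216 : (216 : ZMod 3) = 0 := rfl
    rw [h36, h216] at h7
    linear_combination h7
  have hΔ : ((W'.Δ : ℤ) : ZMod 3) = (W.Δ : ZMod 3) := cast_eq_of_dvd (by exact_mod_cast hD)
  rw [hΔ4, hΔ4, hb2] at hΔ
  rw [hb2]
  by_cases hz : ((W.b₂ : ℤ) : ZMod 3) = 0
  · rw [hz] at hΔ hb2 ⊢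
    have hb4 : ((W'.b₄ : ℤ) : ZMod 3) = (W.b₄ : ZMod 3) := by
      apply dec2
      linear_combination hΔ
    have hb40 : ((W.b₄ : ℤ) : ZMod 3) ≠ 0 := by
      intro h0
      apply h
      have := hΔ4 W
      rw [hz, h0] at this
      apply (ZMod.intCast_zmod_eq_zero_iff_dvd _ 3).mp
      rw [this]; ring
    rcases dec3 _ hb40 with h1 | h1
    · -- b₆ is determined
      obtain ⟨u, hu⟩ := (ZMod.intCast_zmod_eq_zero_iff_dvd _ 3).mp hz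
      obtain ⟨v, hv⟩ := (ZMod.intCast_zmod_eq_zero_iff_dvd _ 3).mp hb2
      push_cast at hu hv
      have hb6 : ((W'.b₆ : ℤ) : ZMod 3) = (W.b₆ : ZMod 3) := by
        have e3 : W'.c₆ - W.c₆ = 27 * ((-v ^ 3 + 4 * v * W'.b₄ - 8 * W'.b₆) -
            (-u ^ 3 + 4 * u * W.b₄ - 8 * W.b₆)) := by
          rw [c6, c6, hu, hv]; ring
        rw [e3] at h6
        have h8 : (3 : ℤ) ∣ (-v ^ 3 + 4 * v * W'.b₄ - 8 * W'.b₆) -
            (-u ^ 3 + 4 * u * W.b₄ - 8 * W.b₆) := by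
          have : (27 : ℤ) * 3 ∣ 27 * ((-v ^ 3 + 4 * v * W'.b₄ - 8 * W'.b₆) -
            (-u ^ 3 + 4 * u * W.b₄ - 8 * W.b₆)) := by norm_num at h6 ⊢; exact h6
          exact (mul_dvd_mul_iff_left (by norm_num)).mp this
        have h9 : (((-v ^ 3 + 4 * v * W'.b₄ - 8 * W'.b₆ : ℤ)) : ZMod 3) =
            ((-u ^ 3 + 4 * u * W.b₄ - 8 * W.b₆ : ℤ) : ZMod 3) := cast_eq_of_dvd (by exact_mod_cast h8)
        push_cast at h9
        rw [hb4, h1] at h9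
        exact dec4 _ _ _ _ h9
      rw [hb4, hb6]
    · rw [hb4, h1]
      exact cnt_three_ss _ _
  · exact cnt_three_ord _ _ _ _ _ hz hΔ

/-- reduction at `p ≥ 5` is determined by `c₄`, `c₆` -/
theorem ap_two_of_ss (W : WeierstrassCurve ℤ) {a b : ℤ} (h4 : W.c₄ = 16 * a) (h6 : W.c₆ = 8 * b)
    (ha : ¬ (2 : ℤ) ∣ a) (hb : ¬ (2 : ℤ) ∣ b) :
    (b % 8 = 5 ∧ W.apOfModel 2 = -2) ∨ (b % 8 = 1 ∧ W.apOfModel 2 = 2) := by
  have hp : Fact (Nat.Prime 2) := ⟨Nat.prime_two⟩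
  have hrel := W.c_relation
  rw [h4, h6] at hrel
  have h27 : 27 * W.Δ = 64 * a ^ 3 - b ^ 2 := by
    have : (64 : ℤ) * (27 * W.Δ) = 64 * (64 * a ^ 3 - b ^ 2) := by linear_combination hrel
    exact mul_left_cancel₀ (by norm_num) this
  obtain ⟨b', hb'⟩ : ∃ b', b = 2 * b' + 1 := ⟨b / 2, by omega⟩
  have hΔ : ¬ (2 : ℤ) ∣ W.Δ := by
    rintro ⟨k, hk⟩
    rw [hk, hb'] at h27
    have : 27 * (2 * k) = 2 * (32 * a ^ 3 - 2 * b' ^ 2 - 2 * b') - 1 := by linear_combination h27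
    omega
  have c4 : W.c₄ = W.b₂ ^ 2 - 24 * W.b₄ := rfl
  have c6 : W.c₆ = -W.b₂ ^ 3 + 36 * W.b₂ * W.b₄ - 216 * W.b₆ := rfl
  have b2 : W.b₂ = W.a₁ ^ 2 + 4 * W.a₂ := rfl
  have b4 : W.b₄ = 2 * W.a₄ + W.a₁ * W.a₃ := rfl
  have b6 : W.b₆ = W.a₃ ^ 2 + 4 * W.a₆ := rfl
  -- a₁ is even
  obtain ⟨α, hα⟩ : ∃ α, W.a₁ = 2 * α := by
    rcases Int.even_or_odd W.a₁ with ⟨k, hk⟩ | ⟨k, hk⟩
    · exact ⟨k, by omega⟩
    · exfalso
      rw [h4, b2, hk] at c4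
      have : 16 * a = 2 * (8 * k ^ 4 + 16 * k ^ 3 + 12 * k ^ 2 + 4 * k + 16 * W.a₂ * k ^ 2 +
        16 * W.a₂ * k + 4 * W.a₂ + 8 * W.a₂ ^ 2 - 12 * W.b₄) + 1 := by linear_combination c4
      omega
  have e4 : a = (α ^ 2 + W.a₂) ^ 2 - 3 * (W.a₄ + α * W.a₃) := by
    have : (16 : ℤ) * a = 16 * ((α ^ 2 + W.a₂) ^ 2 - 3 * (W.a₄ + α * W.a₃)) := by
      rw [← h4, c4, b2, b4, hα]; ring
    exact mul_left_cancel₀ (by norm_num) this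
  have e6 : b = -8 * (α ^ 2 + W.a₂) ^ 3 + 36 * (α ^ 2 + W.a₂) * (W.a₄ + α * W.a₃) -
      27 * (W.a₃ ^ 2 + 4 * W.a₆) := by
    have : (8 : ℤ) * b = 8 * (-8 * (α ^ 2 + W.a₂) ^ 3 + 36 * (α ^ 2 + W.a₂) * (W.a₄ + α * W.a₃) -
        27 * (W.a₃ ^ 2 + 4 * W.a₆)) := by
      rw [← h6, c6, b2, b4, b6, hα]; ring
    exact mul_left_cancel₀ (by norm_num) this
  obtain ⟨β, hβ⟩ : ∃ β, W.a₃ = 2 * β + 1 := by
    rcases Int.even_or_odd W.a₃ with ⟨k, hk⟩ | ⟨k, hk⟩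
    · exfalso
      rw [hb', hk] at e6
      have : 2 * b' + 1 = 2 * (-4 * (α ^ 2 + W.a₂) ^ 3 + 18 * (α ^ 2 + W.a₂) * (W.a₄ + α * (k + k)) -
        27 * (2 * k ^ 2 + 2 * W.a₆)) := by linear_combination e6
      omega
    · exact ⟨k, hk⟩
  have ha1 : ((W.a₁ : ℤ) : ZMod 2) = 0 := by
    rw [hα]; push_cast
    have : (2 : ZMod 2) = 0 := rfl
    rw [this]; ring
  have ha3 : ((W.a₃ : ℤ) : ZMod 2) = 1 := by
    rw [hβ]; push_cast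
    have : (2 : ZMod 2) = 0 := rfl
    rw [this]; ring
  have ha' : ((a : ℤ) : ZMod 2) = 1 := by
    apply dec5
    intro h0
    exact ha ((ZMod.intCast_zmod_eq_zero_iff_dvd _ 2).mp h0)
  have h24 : ((W.a₂ : ℤ) : ZMod 2) + ((W.a₄ : ℤ) : ZMod 2) = 1 := by
    rw [e4] at ha'
    push_cast at ha'
    rw [ha3] at ha'
    exact dec6 _ _ _ ha'
  rw [ap_eq_cnt W 2 (by exact_mod_cast hΔ), ha1, ha3, cnt_two _ _ _ h24]
  -- `b` modulo 8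
  have h8 : ((b : ℤ) : ZMod 8) = 5 + 4 * ((W.a₆ : ℤ) : ZMod 8) := by
    have e : ((b : ℤ) : ZMod 8) = 36 * (((α : ℤ) : ZMod 8) ^ 2 + ((W.a₂ : ℤ) : ZMod 8)) *
        (((W.a₄ : ℤ) : ZMod 8) + ((α : ℤ) : ZMod 8) * (2 * ((β : ℤ) : ZMod 8) + 1)) -
      27 * ((2 * ((β : ℤ) : ZMod 8) + 1) ^ 2 + 4 * ((W.a₆ : ℤ) : ZMod 8)) := by
      rw [e6, hβ]; push_cast
      have : (8 : ZMod 8) = 0 := rfl
      rw [this]; ring
    -- parity of a₂ + a₄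
    obtain ⟨k, hk⟩ : ∃ k, W.a₄ = 2 * k + 1 - W.a₂ := by
      have : ((W.a₂ + W.a₄ - 1 : ℤ) : ZMod 2) = 0 := by push_cast; rw [h24]; ring
      obtain ⟨k, hk⟩ := (ZMod.intCast_zmod_eq_zero_iff_dvd _ 2).mp this
      push_cast at hk
      exact ⟨k, by omega⟩
    rw [e, hk]
    push_cast
    have key : ∀ x y k z w : ZMod 8, 36 * (x ^ 2 + y) * ((2 * k + 1 - y) + x * (2 * z + 1)) -
      27 * ((2 * z + 1) ^ 2 + 4 * w) = 5 + 4 * w := by decide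
    exact key _ _ _ _ _
  rcases Int.even_or_odd W.a₆ with ⟨k, hk⟩ | ⟨k, hk⟩
  · left
    have h60 : ((W.a₆ : ℤ) : ZMod 2) = 0 := (ZMod.intCast_zmod_eq_zero_iff_dvd _ 2).mpr ⟨k, by push_cast; omega⟩
    rw [h60]
    constructor
    · have : ((b - 5 : ℤ) : ZMod 8) = 0 := by
        push_cast
        rw [h8, hk]
        push_cast
        have e : ∀ x : ZMod 8, 5 + 4 * (x + x) - 5 = 0 := by decide
        exact e _
      have := (ZMod.intCast_zmod_eq_zero_iff_dvd _ 8).mp this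
      push_cast at this
      omega
    · norm_num
  · right
    have h60 : ((W.a₆ : ℤ) : ZMod 2) = 1 := by
      rw [hk]; push_cast
      have : (2 : ZMod 2) = 0 := rfl
      rw [this]; ring
    rw [h60]
    constructor
    · have : ((b - 1 : ℤ) : ZMod 8) = 0 := by
        push_cast
        rw [h8, hk]
        push_cast
        have e : ∀ x : ZMod 8, 5 + 4 * (2 * x + 1) - 1 = 0 := by decide
        exact e _
      have := (ZMod.intCast_zmod_eq_zero_iff_dvd _ 8).mp this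
      push_cast at this
      omega
    · norm_num

end Fermat.Agent.H14X
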