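import Fermat.Agent.H98Model

set_option autoImplicit false

/-!
# The 5-congruent family near the cusp at `2` (helper14, rows 42 and 54)

For a curve with good supersingular reduction at `2` and `c₄ = 16 a`, `c₆ = 8 b`, the member of the
family with parameter `t / 4`, `t` odd, has multiplicative reduction at `2` as soon as `a` is odd
(i.e. `a₂ = ±2`).
-/

namespace Fermat.Agent.H14X

open Fermat.Agent.H98

section

variable {R : Type*} [CommRing R]

/-- auxiliary chunk of `d12` -/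
def d12_0 (a b t : R) : R :=
    1 - 66*t^2*a + 55*t^3*b - 1485*t^4*a^2 + 396*t^5*a*b - 165*t^6*b^2 + 5940*t^6*a^3 +
    594*t^7*a^2*b + 990*t^8*a*b^2 - 66825*t^8*a^4 - 275*t^9*b^3 + 17820*t^9*a^3*b +
    2079*t^10*a^2*b^2 - 133650*t^10*a^5 - 120*t^11*a*b^3 + 7695*t^11*a^4*b + 25*t^12*b^4 -
    3024*t^12*a^3*b^2 + 91125*t^12*a^6

/-- integral form of the family at `2` -/
def d12 (a b t : R) : R :=
    d12_0 a b t

/-- auxiliary chunk of `c20` -/
def c20_0 (a b t : R) : R :=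
    16*a - 40*t*b + 3040*t^2*a^2 - 2280*t^3*a*b + 1425*t^4*b^2 - 13680*t^4*a^3 - 31008*t^5*a^2*b -
    15960*t^6*a*b^2 + 1641600*t^6*a^4 + 5700*t^7*b^3 - 519840*t^7*a^3*b + 281580*t^8*a^2*b^2 -
    16005600*t^8*a^5 - 247000*t^9*a*b^3 + 15472080*t^9*a^4*b + 61750*t^10*b^4 -
    1404936*t^10*a^3*b^2

/-- auxiliary chunk of `c20` -/
def c20_1 (a b t : R) : R :=
    -160056000*t^10*a^6 - 1714180*t^11*a^2*b^3 + 109371600*t^11*a^5*b + 148200*t^12*a*b^4 +
    1800630*t^12*a^4*b^2 - 720252000*t^12*a^7 - 28500*t^13*b^5 + 725040*t^13*a^3*b^3 +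
    70178400*t^13*a^6*b + 1122900*t^14*a^2*b^4 - 123797160*t^14*a^5*b^2 + 3324240000*t^14*a^8 -
    228000*t^15*a*b^5 + 27576828*t^15*a^4*b^3 - 831060000*t^15*a^7*b + 35625*t^16*b^6 -
    4767480*t^16*a^3*b^4

/-- auxiliary chunk of `c20` -/
def c20_2 (a b t : R) : R :=
    178677900*t^16*a^6*b^2 - 1246590000*t^16*a^9 - 176700*t^17*a^2*b^5 + 22346280*t^17*a^5*b^3 -
    706401000*t^17*a^8*b - 38000*t^18*a*b^6 + 7915590*t^18*a^4*b^4 - 545729400*t^18*a^7*b^2 +
    12465900000*t^18*a^10 + 5000*t^19*b^7 - 979200*t^19*a^3*b^5 + 63887940*t^19*a^6*b^3 -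
    1388745000*t^19*a^9*b - 11000*t^20*a^2*b^6 + 2128896*t^20*a^5*b^4 - 137325375*t^20*a^8*b^2 +
    2952450000*t^20*a^11

/-- integral form of the family at `2` -/
def c20 (a b t : R) : R :=
    c20_0 a b t + c20_1 a b t + c20_2 a b t

/-- auxiliary chunk of `c30` -/
def c30_0 (a b t : R) : R :=
    8*b - 1920*t*a^2 + 3480*t^2*a*b - 2900*t^3*b^2 - 74240*t^3*a^3 + 219240*t^4*a^2*b -
    46980*t^5*a*b^2 - 6113664*t^5*a^4 + 19575*t^6*b^3 + 3497400*t^6*a^3*b - 3915000*t^7*a^2*b^2 +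
    120268800*t^7*a^5 + 1800900*t^8*a*b^3 - 68434200*t^8*a^4*b - 500250*t^9*b^4 +
    42021000*t^9*a^3*b^2 - 1555977600*t^9*a^6 - 27073530*t^10*a^2*b^3

/-- auxiliary chunk of `c30` -/
def c30_1 (a b t : R) : R :=
    1973066040*t^10*a^5*b + 22811400*t^11*a*b^4 - 1352475900*t^11*a^4*b^2 - 10373184000*t^11*a^7 -
    4752375*t^12*b^5 - 201500700*t^12*a^3*b^3 + 33053718600*t^12*a^6*b + 188194050*t^13*a^2*b^4 -
    5235216300*t^13*a^5*b^2 - 443453616000*t^13*a^8 - 5380638975*t^14*a^4*b^3 +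
    345524275800*t^14*a^7*b + 1240940160*t^15*a^3*b^4 - 79575287760*t^15*a^6*b^2 -
    581690700*t^16*a^2*b^5 + 59332451400*t^16*a^5*b^3 - 1413508401000*t^16*a^8*b +
    171085500*t^17*a*b^6

/-- auxiliary chunk of `c30` -/
def c30_2 (a b t : R) : R :=
    -14610701700*t^17*a^4*b^4 - 77604382800*t^17*a^7*b^2 + 19955412720000*t^17*a^10 -
    23761875*t^18*b^7 - 593096400*t^18*a^3*b^5 + 347064045300*t^18*a^6*b^3 -
    13553051139000*t^18*a^9*b + 1047523500*t^19*a^2*b^6 - 126574455600*t^19*a^5*b^4 +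
    3481840250100*t^19*a^8*b^2 + 21005697600000*t^19*a^11 - 105052500*t^20*a*b^7 +
    7601778990*t^20*a^4*b^5 + 303110919720*t^20*a^7*b^3 - 22996862685000*t^20*a^10*b +
    12506250*t^21*b^8 - 1251425400*t^21*a^3*b^6 + 42330154500*t^21*a^6*b^4

/-- auxiliary chunk of `c30` -/
def c30_3 (a b t : R) : R :=
    -3077188825500*t^21*a^9*b^2 + 141788458800000*t^21*a^12 - 139569750*t^22*a^2*b^7 +
    15041116800*t^22*a^5*b^5 - 215563677975*t^22*a^8*b^3 - 11224919655000*t^22*a^11*b -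
    23490000*t^23*a*b^8 + 7406710200*t^23*a^4*b^6 - 779510952000*t^23*a^7*b^4 +
    33414470973000*t^23*a^10*b^2 - 493177248000000*t^23*a^13 + 2446875*t^24*b^9 -
    695173500*t^24*a^3*b^7 + 68840028900*t^24*a^6*b^5 - 2835902364300*t^24*a^9*b^3 +
    40712809275000*t^24*a^12*b + 69491250*t^25*a^2*b^8 - 17401025556*t^25*a^5*b^6

/-- auxiliary chunk of `c30` -/
def c30_4 (a b t : R) : R :=
    1648884472830*t^25*a^8*b^4 - 70097953635000*t^25*a^11*b^2 + 1128142954800000*t^25*a^14 -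
    19575000*t^26*a*b^9 + 4998887325*t^26*a^4*b^7 - 479371329360*t^26*a^7*b^5 +
    20459007195750*t^26*a^10*b^3 - 327885810975000*t^26*a^13*b + 1812500*t^27*b^10 -
    426996000*t^27*a^3*b^8 + 35108294940*t^27*a^6*b^6 - 996971506200*t^27*a^9*b^4 -
    8104032382500*t^27*a^12*b^2 + 616471560000000*t^27*a^15 - 10222500*t^28*a^2*b^9 +
    2616316200*t^28*a^5*b^7 - 251133833295*t^28*a^8*b^5 + 10714903600500*t^28*a^11*b^3

/-- auxiliary chunk of `c30` -/
def c30_5 (a b t : R) : R :=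
    -171456152625000*t^28*a^14*b - 300000*t^29*a*b^10 + 119569500*t^29*a^4*b^8 -
    18320975280*t^29*a^7*b^6 + 1365545194650*t^29*a^10*b^4 - 49873523512500*t^29*a^13*b^2 +
    717445350000000*t^29*a^16 + 25000*t^30*b^11 - 8360000*t^30*a^3*b^9 + 1116155700*t^30*a^6*b^7 -
    74382704352*t^30*a^9*b^5 + 2474608269375*t^30*a^12*b^3 - 32882911875000*t^30*a^15*b

/-- integral form of the family at `2` -/
def c30 (a b t : R) : R :=
    c30_0 a b t + c30_1 a b t + c30_2 a b t + c30_3 a b t + c30_4 a b t + c30_5 a b t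

theorem d12_eq (a b t : R) : d12 a b (4 * t) = D12 (16 * a) (8 * b) t := by
  simp only [d12, d12_0, D12, D12_0]
  ring

theorem c20_eq (a b t : R) : c20 a b (4 * t) = C20 (16 * a) (8 * b) t := by
  simp only [c20, c20_0, c20_1, c20_2, C20, C20_0, C20_1, C20_2]
  ring

set_option maxHeartbeats 4000000 in
theorem c30_eq (a b t : R) : c30 a b (4 * t) = C30 (16 * a) (8 * b) t := by
  simp only [c30, c30_0, c30_1, c30_2, c30_3, c30_4, c30_5, C30, C30_0, C30_1, C30_2, C30_3, C30_4,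
    C30_5]
  ring

theorem map_d12 {S : Type*} [CommRing S] (f : R →+* S) (a b t : R) :
    f (d12 a b t) = d12 (f a) (f b) (f t) := by
  simp only [d12, d12_0, map_add, map_sub, map_mul, map_pow, map_ofNat, map_one]

theorem map_c20 {S : Type*} [CommRing S] (f : R →+* S) (a b t : R) :
    f (c20 a b t) = c20 (f a) (f b) (f t) := by
  simp only [c20, c20_0, c20_1, c20_2, map_add, map_sub, map_neg, map_mul, map_pow, map_ofNat,
    map_one]

theorem map_c30 {S : Type*} [CommRing S] (f : R →+* S) (a b t : R) :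
    f (c30 a b t) = c30 (f a) (f b) (f t) := by
  simp only [c30, c30_0, c30_1, c30_2, c30_3, c30_4, c30_5, map_add, map_sub, map_neg, map_mul,
    map_pow, map_ofNat, map_one]

end

set_option maxRecDepth 100000 in
theorem d12_mod : ∀ a b t : ZMod 2, a = 1 → b = 1 → t = 1 → d12 a b t = 0 := by
  decide

set_option maxRecDepth 100000 in
theorem c20_mod : ∀ a b t : ZMod 2, a = 1 → b = 1 → t = 1 → c20 a b t = 1 := by
  decide

set_option maxRecDepth 100000 in
theorem c30_mod : ∀ a b t : ZMod 4, (a = 1 ∨ a = 3) → b = 1 → (t = 1 ∨ t = 3) → c30 a b t = 3 := by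
  decide

end Fermat.Agent.H14X
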