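import Fermat.Agent.H14XFam
import Fermat.Agent.H14XAp
import Fermat.Agent.H52Congr
import Fermat.Agent.H3LTLoc2

set_option autoImplicit false

/-!
# From supersingular at `2` with `a₂ = ±2` to multiplicative at `2`, modulo `5` (helper14)
-/

open WeierstrassCurve Fermat.Agent.H98 Polynomial

namespace Fermat.Agent.H14X

theorem d12_zero {R : Type*} [CommRing R] (a b : R) : d12 a b 0 = 1 := by
  simp [d12, d12_0]

theorem c20_zero {R : Type*} [CommRing R] (a b : R) : c20 a b 0 = 16 * a := by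
  simp [c20, c20_0, c20_1, c20_2]

theorem c30_zero {R : Type*} [CommRing R] (a b : R) : c30 a b 0 = 8 * b := by
  simp [c30, c30_0, c30_1, c30_2, c30_3, c30_4, c30_5]

theorem sub_dvd_d12_sub (a b s t : ℤ) : s - t ∣ d12 a b s - d12 a b t := by
  have h := sub_dvd_eval_sub s t (d12 (C a) (C b) (X : ℤ[X]))
  have e : ∀ x : ℤ, (d12 (C a) (C b) (X : ℤ[X])).eval x = d12 a b x := fun x => by
    have := map_d12 (evalRingHom x) (C a) (C b) X
    simpa using this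
  rwa [e, e] at h

theorem sub_dvd_c20_sub (a b s t : ℤ) : s - t ∣ c20 a b s - c20 a b t := by
  have h := sub_dvd_eval_sub s t (c20 (C a) (C b) (X : ℤ[X]))
  have e : ∀ x : ℤ, (c20 (C a) (C b) (X : ℤ[X])).eval x = c20 a b x := fun x => by
    have := map_c20 (evalRingHom x) (C a) (C b) X
    simpa using this
  rwa [e, e] at h

theorem sub_dvd_c30_sub (a b s t : ℤ) : s - t ∣ c30 a b s - c30 a b t := by
  have h := sub_dvd_eval_sub s t (c30 (C a) (C b) (X : ℤ[X]))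
  have e : ∀ x : ℤ, (c30 (C a) (C b) (X : ℤ[X])).eval x = c30 a b x := fun x => by
    have := map_c30 (evalRingHom x) (C a) (C b) X
    simpa using this
  rwa [e, e] at h

theorem c20_pow_sub_c30_sq (a b t : ℤ) :
    c20 a b t ^ 3 - c30 a b t ^ 2 = ((16 * a) ^ 3 - (8 * b) ^ 2) * d12 a b t ^ 5 := by
  have h : ((c20 a b t ^ 3 - c30 a b t ^ 2 : ℤ) : ℚ) =
      (((16 * a) ^ 3 - (8 * b) ^ 2) * d12 a b t ^ 5 : ℤ) := by
    have e1 : ((c20 a b t : ℤ) : ℚ) = c20 (a : ℚ) (b : ℚ) (t : ℚ) :=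
      map_c20 (Int.castRingHom ℚ) a b t
    have e2 : ((c30 a b t : ℤ) : ℚ) = c30 (a : ℚ) (b : ℚ) (t : ℚ) :=
      map_c30 (Int.castRingHom ℚ) a b t
    have e3 : ((d12 a b t : ℤ) : ℚ) = d12 (a : ℚ) (b : ℚ) (t : ℚ) :=
      map_d12 (Int.castRingHom ℚ) a b t
    push_cast
    rw [e1, e2, e3]
    have ht : (t : ℚ) = 4 * (t / 4) := by ring
    rw [ht, c20_eq, c30_eq, d12_eq]
    exact C20_pow_sub_C30_sq _ _ _
  exact_mod_cast h

/-- the trace of Frobenius at a prime `≥ 5` is determined by `c₄`, `c₆`. -/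
theorem ap_eq_of_c {ℓ : ℕ} [Fact ℓ.Prime] (W W' : WeierstrassCurve ℤ) (h6 : (6 : ZMod ℓ) ≠ 0)
    (hc4 : (ℓ : ℤ) ∣ W'.c₄ - W.c₄) (hc6 : (ℓ : ℤ) ∣ W'.c₆ - W.c₆) :
    W'.apOfModel ℓ = W.apOfModel ℓ := by
  have e : ∀ V : WeierstrassCurve ℤ, (V.reductionMod ℓ).c₄ = ((V.c₄ : ℤ) : ZMod ℓ) ∧
      (V.reductionMod ℓ).c₆ = ((V.c₆ : ℤ) : ZMod ℓ) := fun V => by
    unfold WeierstrassCurve.reductionMod
    rw [WeierstrassCurve.map_c₄, WeierstrassCurve.map_c₆]; simp
  have f1 := card_short h6 (W.reductionMod ℓ)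
  have f2 := card_short h6 (W'.reductionMod ℓ)
  rw [(e W).1, (e W).2] at f1
  rw [(e W').1, (e W').2, cast_eq_of_dvd hc4, cast_eq_of_dvd hc6, f1] at f2
  unfold WeierstrassCurve.apOfModel WeierstrassCurve.traceOfFrobenius WeierstrassCurve.card
  rw [f2]

/-- general congruence of traces from the congruence of point counts of short models -/
theorem ap_congr_of_short {ℓ : ℕ} [Fact ℓ.Prime] (W W' : WeierstrassCurve ℤ)
    (h6 : (6 : ZMod ℓ) ≠ 0) (n : ℤ)
    (h : n ∣ (Nat.card (short ((W'.c₄ : ℤ) : ZMod ℓ) ((W'.c₆ : ℤ) : ZMod ℓ)).toAffine.Point : ℤ) -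
      (Nat.card (short ((W.c₄ : ℤ) : ZMod ℓ) ((W.c₆ : ℤ) : ZMod ℓ)).toAffine.Point : ℤ)) :
    n ∣ W'.apOfModel ℓ - W.apOfModel ℓ := by
  have e : ∀ V : WeierstrassCurve ℤ, (V.reductionMod ℓ).c₄ = ((V.c₄ : ℤ) : ZMod ℓ) ∧
      (V.reductionMod ℓ).c₆ = ((V.c₆ : ℤ) : ZMod ℓ) := fun V => by
    unfold WeierstrassCurve.reductionMod
    rw [WeierstrassCurve.map_c₄, WeierstrassCurve.map_c₆]; simp
  have f1 := card_short h6 (W.reductionMod ℓ)
  have f2 := card_short h6 (W'.reductionMod ℓ)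
  rw [(e W).1, (e W).2] at f1
  rw [(e W').1, (e W').2] at f2
  rw [f1, f2] at h
  unfold WeierstrassCurve.apOfModel WeierstrassCurve.traceOfFrobenius WeierstrassCurve.card
  have e : ((Nat.card (ZMod ℓ) : ℤ) + 1 - (Nat.card (W'.reductionMod ℓ).toAffine.Point : ℤ)) -
      ((Nat.card (ZMod ℓ) : ℤ) + 1 - (Nat.card (W.reductionMod ℓ).toAffine.Point : ℤ)) =
      -((Nat.card (W'.reductionMod ℓ).toAffine.Point : ℤ) -
        (Nat.card (W.reductionMod ℓ).toAffine.Point : ℤ)) := by ring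
  rw [e]
  exact (dvd_neg).mpr h

/-- **The 5-switch to multiplicative reduction at `2`.** -/
theorem five_switch (W : WeierstrassCurve ℤ) (hΔ : W.Δ ≠ 0) (hW : W.IsSemistableModel) {a b : ℤ}
    (h4 : W.c₄ = 16 * a) (h6 : W.c₆ = 8 * b) (ha : ¬ (2 : ℤ) ∣ a) (hb : b % 4 = 1) :
    ∃ W' : WeierstrassCurve ℤ, (2 : ℤ) ∣ W'.Δ ∧ W'.Δ ≠ 0 ∧ W'.IsSemistableModel ∧
      ∀ ℓ : ℕ, ℓ.Prime → W.IsGoodPrimeFor ℓ → W'.IsGoodPrimeFor ℓ → ℓ ≠ 5 →
        (5 : ℤ) ∣ (W'.apOfModel ℓ - W.apOfModel ℓ) := by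
  have hrel := W.c_relation
  rw [h4, h6] at hrel
  have h27 : 27 * W.Δ = 64 * a ^ 3 - b ^ 2 := by
    have : (64 : ℤ) * (27 * W.Δ) = 64 * (64 * a ^ 3 - b ^ 2) := by linear_combination hrel
    exact mul_left_cancel₀ (by norm_num) this
  have hΔ2 : ¬ (2 : ℤ) ∣ W.Δ := by
    rintro ⟨k, hk⟩
    obtain ⟨b', hb'⟩ : ∃ b', b = 2 * b' + 1 := ⟨b / 2, by omega⟩
    rw [hk, hb'] at h27
    have : 27 * (2 * k) = 2 * (32 * a ^ 3 - 2 * b' ^ 2 - 2 * b') - 1 := by linear_combination h27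
    omega
  -- the parameter
  set τ : ℤ := 81 * (55 * W.Δ) with hτ
  have hτ2 : ¬ (2 : ℤ) ∣ τ := by
    intro h
    apply hΔ2
    omega
  set D := d12 a b τ with hD
  have hD1 : τ ∣ D - 1 := by
    have := sub_dvd_d12_sub a b τ 0
    rwa [d12_zero, sub_zero] at this
  have hc20 : τ ∣ c20 a b τ - W.c₄ := by
    have := sub_dvd_c20_sub a b τ 0
    rwa [c20_zero, sub_zero, ← h4] at this
  have hc30 : τ ∣ c30 a b τ - W.c₆ := by
    have := sub_dvd_c30_sub a b τ 0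
    rwa [c30_zero, sub_zero, ← h6] at this
  have hD0 : D ≠ 0 := by
    intro h0
    rw [h0] at hD1
    have h3 : (3 : ℤ) ∣ 0 - 1 := Dvd.dvd.trans ⟨27 * (55 * W.Δ), by rw [hτ]; ring⟩ hD1
    omega
  have hodd : ∀ x : ℤ, ¬ (2 : ℤ) ∣ x → ((x : ℤ) : ZMod 2) = 1 := fun x hx => by
    apply dec5
    intro h0
    exact hx ((ZMod.intCast_zmod_eq_zero_iff_dvd _ 2).mp h0)
  have hb2 : ¬ (2 : ℤ) ∣ b := by omega
  have hD2 : (2 : ℤ) ∣ D := by
    have : ((D : ℤ) : ZMod 2) = 0 := by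
      rw [hD]
      rw [show ((d12 a b τ : ℤ) : ZMod 2) = d12 (a : ZMod 2) (b : ZMod 2) (τ : ZMod 2) from
        map_d12 (Int.castRingHom (ZMod 2)) a b τ]
      exact d12_mod _ _ _ (hodd a ha) (hodd b hb2) (hodd τ hτ2)
    exact_mod_cast (ZMod.intCast_zmod_eq_zero_iff_dvd _ 2).mp this
  have hc20' : ¬ (2 : ℤ) ∣ c20 a b τ := by
    intro h
    have h1 : ((c20 a b τ : ℤ) : ZMod 2) = 0 :=
      (ZMod.intCast_zmod_eq_zero_iff_dvd _ 2).mpr (by exact_mod_cast h)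
    rw [show ((c20 a b τ : ℤ) : ZMod 2) = c20 (a : ZMod 2) (b : ZMod 2) (τ : ZMod 2) from
        map_c20 (Int.castRingHom (ZMod 2)) a b τ,
      c20_mod _ _ _ (hodd a ha) (hodd b hb2) (hodd τ hτ2)] at h1
    exact one_ne_zero h1
  have h13 : ∀ x : ℤ, ¬ (2 : ℤ) ∣ x → ((x : ℤ) : ZMod 4) = 1 ∨ ((x : ℤ) : ZMod 4) = 3 := by
    intro x hx
    have : x % 4 = 1 ∨ x % 4 = 3 := by omega
    rcases this with h | h
    · left
      have := cast_eq_of_dvd (n := 4) (x := x) (y := 1) (by push_cast; omega)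
      exact_mod_cast this
    · right
      have := cast_eq_of_dvd (n := 4) (x := x) (y := 3) (by push_cast; omega)
      exact_mod_cast this
  have hc30' : c30 a b τ % 4 = 3 := by
    have h1 : ((c30 a b τ - 3 : ℤ) : ZMod 4) = 0 := by
      have e1 : ((b : ℤ) : ZMod 4) = 1 := by
        have := cast_eq_of_dvd (n := 4) (x := b) (y := 1) (by push_cast; omega)
        exact_mod_cast this
      rw [Int.cast_sub, show ((c30 a b τ : ℤ) : ZMod 4) = c30 (a : ZMod 4) (b : ZMod 4) (τ : ZMod 4)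
        from map_c30 (Int.castRingHom (ZMod 4)) a b τ, c30_mod _ _ _ (h13 a ha) e1 (h13 τ hτ2)]
      rfl
    have := (ZMod.intCast_zmod_eq_zero_iff_dvd _ 4).mp h1
    push_cast at this
    omega
  have h3 : ¬ (3 : ℤ) ∣ c30 a b τ ∨ (27 : ℤ) ∣ c30 a b τ := by
    have h27' : (27 : ℤ) ∣ c30 a b τ - W.c₆ := Dvd.dvd.trans ⟨3 * (55 * W.Δ), by rw [hτ]; ring⟩ hc30
    rcases Fermat.Agent.H3LT.c6_three W with h | h
    · left
      intro h'
      apply h
      have := dvd_sub h' ((by norm_num : (3 : ℤ) ∣ 27).trans h27')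
      rwa [sub_sub_cancel] at this
    · right
      have := dvd_add h27' h
      rwa [sub_add_cancel] at this
  obtain ⟨W', hc4', hc6', hΔ'⟩ := Fermat.Agent.H3LT.exists_model (c20 a b τ) (c30 a b τ)
    (W.Δ * D ^ 5) (by
      rw [c20_pow_sub_c30_sq, hD, ← hrel]; ring) hc30' h3
  have hpr2 : Prime (2 : ℤ) := Int.prime_two
  refine ⟨W', ?_, ?_, ?_, ?_⟩
  · rw [hΔ']
    exact (hD2.pow (by norm_num)).mul_left _
  · rw [hΔ']
    exact mul_ne_zero hΔ (pow_ne_zero 5 hD0)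
  · -- semistable
    intro p hp hpΔ hpc
    have hpr : Prime (p : ℤ) := Nat.prime_iff_prime_int.mp hp
    rw [hΔ'] at hpΔ
    rw [hc4'] at hpc
    by_cases hp2 : p = 2
    · subst hp2
      exact hc20' (by exact_mod_cast hpc)
    by_cases hpτ : (p : ℤ) ∣ τ
    · have hpD : ¬ (p : ℤ) ∣ D := by
        intro h
        have := dvd_sub h (hpτ.trans hD1)
        rw [sub_sub_cancel] at this
        exact hpr.not_isUnit (isUnit_of_dvd_one this)
      have hpΔ0 : (p : ℤ) ∣ W.Δ := by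
        rcases hpr.dvd_or_dvd hpΔ with h | h
        · exact h
        · exact absurd (hpr.dvd_of_dvd_pow h) hpD
      refine hW p hp hpΔ0 ?_
      have := dvd_sub hpc (hpτ.trans hc20)
      rwa [sub_sub_cancel] at this
    · have hpD : (p : ℤ) ∣ D := by
        rcases hpr.dvd_or_dvd hpΔ with h | h
        · exfalso
          apply hpτ
          rw [hτ]
          exact (h.mul_left _).mul_left _
        · exact hpr.dvd_of_dvd_pow h
      -- an integral `t` with `4 t ≡ τ`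
      obtain ⟨t, ht⟩ : ∃ t : ℤ, (p : ℤ) ∣ 4 * t - τ := by
        have hcop : IsCoprime (4 : ℤ) p := by
          have : Nat.Coprime 4 p := by
            have h2 : Nat.Coprime 2 p := (Nat.coprime_primes Nat.prime_two hp).mpr (Ne.symm hp2)
            exact Nat.Coprime.pow_left 2 h2
          exact_mod_cast Nat.isCoprime_iff_coprime.mpr this
        obtain ⟨u, v, huv⟩ := hcop
        exact ⟨u * τ, -v * τ, by linear_combination τ * huv⟩
      have hd : (p : ℤ) ∣ D12 (16 * a) (8 * b) t := by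
        rw [← d12_eq]
        have h1 := ht.trans (sub_dvd_d12_sub a b (4 * t) τ)
        have := dvd_add h1 hpD
        rwa [hD, sub_add_cancel] at this
      refine not_dvd_C20 hpr (16 * a) (8 * b) t hd ?_ ?_
      · intro h
        rw [← hrel] at h
        have hp3 : ¬ (p : ℤ) ∣ 3 := fun h' => hpτ (h'.trans ⟨27 * (55 * W.Δ), by rw [hτ]; ring⟩)
        have hp5 : ¬ (p : ℤ) ∣ 5 := fun h' => hpτ (h'.trans ⟨81 * (11 * W.Δ), by rw [hτ]; ring⟩)
        have hp2' : ¬ (p : ℤ) ∣ 2 := fun h' => hp2 ((Nat.prime_dvd_prime_iff_eq hp Nat.prime_two).mp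
          (by exact_mod_cast h'))
        have hpΔ' : ¬ (p : ℤ) ∣ W.Δ := fun h' => hpτ ((h'.mul_left _).mul_left _)
        have e : (30 : ℤ) * (1728 * W.Δ) = 2 ^ 7 * (3 ^ 4 * (5 * W.Δ)) := by ring
        rw [e] at h
        rcases hpr.dvd_or_dvd h with h | h
        · exact hp2' (hpr.dvd_of_dvd_pow h)
        rcases hpr.dvd_or_dvd h with h | h
        · exact hp3 (hpr.dvd_of_dvd_pow h)
        rcases hpr.dvd_or_dvd h with h | h
        · exact hp5 h
        · exact hpΔ' h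
      · rw [← c20_eq]
        have h1 := ht.trans (sub_dvd_c20_sub a b (4 * t) τ)
        have := dvd_add h1 hpc
        rwa [sub_add_cancel] at this
  · -- congruence
    intro ℓ hℓ hg hg' hℓ5
    have hfact : Fact ℓ.Prime := ⟨hℓ⟩
    have hpr : Prime (ℓ : ℤ) := Nat.prime_iff_prime_int.mp hℓ
    have hℓ2 : ℓ ≠ 2 := by
      rintro rfl
      apply hg'
      rw [hΔ']
      exact_mod_cast (hD2.pow (by norm_num)).mul_left _
    by_cases hℓ3 : ℓ = 3
    · subst hℓ3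
      have : W'.apOfModel 3 = W.apOfModel 3 := by
        apply ap_three_eq W W' (by exact_mod_cast hg)
        · rw [hc4']
          exact Dvd.dvd.trans ⟨9 * (55 * W.Δ), by rw [hτ]; ring⟩ hc20
        · rw [hc6']
          exact Dvd.dvd.trans ⟨(55 * W.Δ), by rw [hτ]⟩ hc30
        · rw [hΔ']
          have h1 : (3 : ℤ) ∣ D - 1 := Dvd.dvd.trans ⟨27 * (55 * W.Δ), by rw [hτ]; ring⟩ hD1
          obtain ⟨k, hk⟩ := h1
          have : D = 3 * k + 1 := by linarith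
          rw [this]
          exact ⟨W.Δ * (81 * k ^ 5 + 135 * k ^ 4 + 90 * k ^ 3 + 30 * k ^ 2 + 5 * k), by ring⟩
      rw [this, sub_self]
      exact dvd_zero _
    have hℓ2' : ¬ (ℓ : ℤ) ∣ 2 := fun h' => hℓ2 ((Nat.prime_dvd_prime_iff_eq hℓ Nat.prime_two).mp
          (by exact_mod_cast h'))
    have hℓ3' : ¬ (ℓ : ℤ) ∣ 3 := fun h' => hℓ3 ((Nat.prime_dvd_prime_iff_eq hℓ Nat.prime_three).mp
          (by exact_mod_cast h'))
    have hℓ5' : ¬ (ℓ : ℤ) ∣ 5 := fun h' => hℓ5 ((Nat.prime_dvd_prime_iff_eq hℓ Nat.prime_five).mp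
          (by exact_mod_cast h'))
    have h6' : (6 : ZMod ℓ) ≠ 0 := by
      intro h
      have h' : (ℓ : ℤ) ∣ 6 := (ZMod.intCast_zmod_eq_zero_iff_dvd 6 ℓ).mp (by exact_mod_cast h)
      rw [show (6 : ℤ) = 2 * 3 by norm_num] at h'
      rcases hpr.dvd_or_dvd h' with h | h
      · exact hℓ2' h
      · exact hℓ3' h
    by_cases hℓτ : (ℓ : ℤ) ∣ τ
    · have : W'.apOfModel ℓ = W.apOfModel ℓ := by
        apply ap_eq_of_c W W' h6'
        · rw [hc4']; exact hℓτ.trans hc20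
        · rw [hc6']; exact hℓτ.trans hc30
      rw [this, sub_self]
      exact dvd_zero _
    · have h30 : (30 : ZMod ℓ) ≠ 0 := by
        intro h
        have h' : (ℓ : ℤ) ∣ 30 := (ZMod.intCast_zmod_eq_zero_iff_dvd 30 ℓ).mp (by exact_mod_cast h)
        rw [show (30 : ℤ) = 2 * (3 * 5) by norm_num] at h'
        rcases hpr.dvd_or_dvd h' with h | h
        · exact hℓ2' h
        rcases hpr.dvd_or_dvd h with h | h
        · exact hℓ3' h
        · exact hℓ5' h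
      have h2z : (2 : ZMod ℓ) ≠ 0 := fun h => h30 (by linear_combination 15 * h)
      have h4z : (4 : ZMod ℓ) ≠ 0 := by
        have : (4 : ZMod ℓ) = 2 * 2 := by norm_num
        rw [this]; exact mul_ne_zero h2z h2z
      have hcast : ∀ n : ℤ, ¬ (ℓ : ℤ) ∣ n → ((n : ℤ) : ZMod ℓ) ≠ 0 := by
        intro n hn h
        exact hn ((ZMod.intCast_zmod_eq_zero_iff_dvd n ℓ).mp h)
      set t : ZMod ℓ := (τ : ZMod ℓ) / 4 with ht
      have ht4 : 4 * t = (τ : ZMod ℓ) := by rw [ht]; field_simp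
      have hab' : (16 * (a : ZMod ℓ)) ^ 3 - (8 * (b : ZMod ℓ)) ^ 2 ≠ 0 := by
        have := hcast ((16 * a) ^ 3 - (8 * b) ^ 2) (fun h => by
          rw [← hrel, show (1728 : ℤ) * W.Δ = 2 ^ 6 * (3 ^ 3 * W.Δ) by ring] at h
          rcases hpr.dvd_or_dvd h with h | h
          · exact hℓ2' (hpr.dvd_of_dvd_pow h)
          rcases hpr.dvd_or_dvd h with h | h
          · exact hℓ3' (hpr.dvd_of_dvd_pow h)
          · exact hg h)
        push_cast at this
        exact this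
      have hmapD : D12 (16 * (a : ZMod ℓ)) (8 * (b : ZMod ℓ)) t = ((D : ℤ) : ZMod ℓ) := by
        rw [← d12_eq, ht4]
        exact (map_d12 (Int.castRingHom (ZMod ℓ)) a b τ).symm
      have hmapC4 : C20 (16 * (a : ZMod ℓ)) (8 * (b : ZMod ℓ)) t = ((W'.c₄ : ℤ) : ZMod ℓ) := by
        rw [← c20_eq, ht4, hc4']
        exact (map_c20 (Int.castRingHom (ZMod ℓ)) a b τ).symm
      have hmapC6 : C30 (16 * (a : ZMod ℓ)) (8 * (b : ZMod ℓ)) t = ((W'.c₆ : ℤ) : ZMod ℓ) := by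
        rw [← c30_eq, ht4, hc6']
        exact (map_c30 (Int.castRingHom (ZMod ℓ)) a b τ).symm
      have hD' : D12 (16 * (a : ZMod ℓ)) (8 * (b : ZMod ℓ)) t ≠ 0 := by
        rw [hmapD]
        apply hcast
        intro h
        apply hg'
        rw [hΔ']
        exact (h.pow (by norm_num)).mul_left _
      have key := Fermat.Agent.H52.congr5 ℓ (16 * (a : ZMod ℓ)) (8 * (b : ZMod ℓ)) t h30 hab' hD'
      rw [hmapC4, hmapC6] at key
      apply ap_congr_of_short W W' h6' 5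
      have e4 : ((W.c₄ : ℤ) : ZMod ℓ) = 16 * (a : ZMod ℓ) := by rw [h4]; push_cast; ring
      have e6 : ((W.c₆ : ℤ) : ZMod ℓ) = 8 * (b : ZMod ℓ) := by rw [h6]; push_cast; ring
      rw [e4, e6]
      exact key

end Fermat.Agent.H14X
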