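import Mathlib
import Fermat.Agent.H15Core
import Fermat.Agent.H44EDisc
import Fermat.Agent.H91Units

/-!
# MAZUR A3: Kummer cocycles with values in `μ_r`
-/

set_option autoImplicit false

namespace Fermat.Agent.H47

open Fermat.Agent.H15

section val

variable {L : Type*} [Field L]

theorem val_intCast_eq_one_of_not_dvd {A : ValuationSubring L} {q : ℕ} (hq : q.Prime)
    (hA : A.LiesOverPrime q) {n : ℤ} (hn : ¬ (q : ℤ) ∣ n) : A.valuation (n : L) = 1 := by
  have hle : ∀ m : ℤ, A.valuation (m : L) ≤ 1 := fun m =>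
    (A.valuation_le_one_iff _).2 (intCast_mem A m)
  refine le_antisymm (hle n) ?_
  have hq1 : A.valuation (q : L) < 1 := A.mem_nonunits_iff.1 hA
  have hco : IsCoprime (q : ℤ) n :=
    (Prime.coprime_iff_not_dvd (Nat.prime_iff_prime_int.1 hq)).2 hn
  obtain ⟨a, b, hab⟩ := hco
  by_contra hlt
  rw [not_le] at hlt
  have h1 : ((a * q + b * n : ℤ) : L) = 1 := by rw [hab]; simp
  push_cast at h1
  have h2 : A.valuation ((a : L) * (q : L) + (b : L) * (n : L)) < 1 := by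
    refine (Valuation.map_add_lt _ ?_ ?_)
    · rw [map_mul]
      exact mul_lt_one_of_nonneg_of_lt_one_right (hle a) zero_le hq1
    · rw [map_mul]
      exact mul_lt_one_of_nonneg_of_lt_one_right (hle b) zero_le hlt
  rw [h1, map_one] at h2
  exact lt_irrefl _ h2

theorem val_intCast_eq_pow {A : ValuationSubring L} {q : ℕ} (hq : q.Prime)
    (hA : A.LiesOverPrime q) {n : ℤ} (hn : n ≠ 0) :
    A.valuation (n : L) = A.valuation (q : L) ^ padicValInt q n := by
  have := Fact.mk hq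
  obtain ⟨m, hm⟩ := (padicValInt_dvd (p := q) n)
  have hm' : ¬ (q : ℤ) ∣ m := by
    intro h
    obtain ⟨l, rfl⟩ := h
    have h1 : (q : ℤ) ^ (padicValInt q n + 1) ∣ n := ⟨l, by rw [pow_succ]; linear_combination hm⟩
    rw [padicValInt_dvd_iff] at h1
    rcases h1 with h1 | h1
    · exact hn h1
    · omega
  have h2 : (n : L) = (q : L) ^ padicValInt q n * (m : L) := by
    have := congrArg (fun z : ℤ => (z : L)) hm
    simpa using this
  rw [h2, map_mul, val_intCast_eq_one_of_not_dvd hq hA hm', mul_one, map_pow]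

variable [CharZero L]

theorem val_natCast_ne_zero (A : ValuationSubring L) {q : ℕ} (hq : q ≠ 0) :
    A.valuation (q : L) ≠ 0 := by
  rw [Valuation.ne_zero_iff]
  exact_mod_cast hq

/-- the valuation of a rational number -/
theorem val_ratCast_eq_zpow {A : ValuationSubring L} {q : ℕ} (hq : q.Prime)
    (hA : A.LiesOverPrime q) {b : ℚ} (hb : b ≠ 0) :
    A.valuation (b : L) = A.valuation (q : L) ^ padicValRat q b := by
  have h0 := val_natCast_ne_zero A hq.ne_zero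
  have h1 : (b : L) = (b.num : L) / ((b.den : ℤ) : L) := by
    rw [Rat.cast_def]; simp
  rw [h1, map_div₀, val_intCast_eq_pow hq hA (Rat.num_ne_zero.2 hb),
    val_intCast_eq_pow hq hA (by exact_mod_cast b.den_ne_zero), padicValRat_def, zpow_sub₀ h0,
    padicValInt.of_nat]
  simp

theorem zpow_val_injective {A : ValuationSubring L} {q : ℕ} (hq : q.Prime)
    (hA : A.LiesOverPrime q) {m n : ℤ} (h : A.valuation (q : L) ^ m = A.valuation (q : L) ^ n) :
    m = n := by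
  have h0 := val_natCast_ne_zero A hq.ne_zero
  have hq1 : A.valuation (q : L) < 1 := A.mem_nonunits_iff.1 hA
  exact zpow_right_injective₀ (zero_lt_iff.2 h0) hq1.ne h

end val

theorem dvd_padicValRat_of_val {β : Qbˣ} {b : ℚ} {r : ℕ} (h : (b : Qb) = (β : Qb) ^ r) {q : ℕ}
    (hq : q.Prime) {A : ValuationSubring Qb} (hA : A.LiesOverPrime q)
    (hm : ∃ m : ℤ, A.valuation (β : Qb) = A.valuation (q : Qb) ^ m) :
    (r : ℤ) ∣ padicValRat q b := by
  obtain ⟨m, hm⟩ := hm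
  have hb : b ≠ 0 := by
    rintro rfl
    rw [Rat.cast_zero] at h
    exact pow_ne_zero r β.ne_zero h.symm
  have h1 := val_ratCast_eq_zpow hq hA hb
  rw [h, map_pow, hm, ← zpow_natCast, ← zpow_mul] at h1
  exact ⟨m, by rw [← zpow_val_injective hq hA h1, mul_comm]⟩

/-- Hilbert 90 for locally constant cocycles of the absolute Galois group -/
theorem exists_kumCoc {r : ℕ} (hr : 0 < r) {ξ : GQ → Qb} (h1 : ∀ σ, ξ σ ^ r = 1)
    (h2 : ∀ σ τ : GQ, ξ (σ * τ) = ξ σ * σ (ξ τ)) (h3 : IsLocallyConstant ξ) :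
    ∃ (β : Qbˣ) (b : ℚ), (b : Qb) = (β : Qb) ^ r ∧ ξ = kumCoc β := by
  have h0 : ∀ σ, ξ σ ≠ 0 := fun σ h => by
    have := h1 σ
    rw [h, zero_pow hr.ne'] at this
    exact zero_ne_one this
  have hone : ξ 1 = 1 := by
    have := h2 1 1
    rw [mul_one, AlgEquiv.one_apply] at this
    exact (mul_eq_left₀ (h0 1)).1 this.symm
  -- the level
  have hU : ∃ V ∈ H91.krullFam.carrier, ∀ s ∈ V, ξ s = 1 := by
    have ho : IsOpen {σ : GQ | ξ σ = 1} := h3.isOpen_fiber 1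
    have hn : {σ : GQ | ξ σ = 1} ∈ nhds (1 : GQ) := ho.mem_nhds hone
    obtain ⟨E, hE, hEs⟩ := (krullTopology_mem_nhds_one_iff ℚ Qb _).1 hn
    exact ⟨_, ⟨E, hE, rfl⟩, fun s hs => hEs hs⟩
  obtain ⟨V, hV, hVs⟩ := hU
  obtain ⟨a, ha⟩ := H91.faithfulOn_krullFam.h90 (fun σ => H91.umk (ξ σ) (h0 σ))
    (fun g h => H91.uval_injective (by
      rw [H91.uval_add, H91.uval_smul]
      simp only [H91.uval_umk]
      rw [h2, mul_comm]; rfl))
    ⟨V, hV, fun g s hs => H91.uval_injective (by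
      simp only [H91.uval_umk]
      rw [h2, hVs s hs, map_one, mul_one])⟩
  have hξ : ∀ σ : GQ, ξ σ = σ (H91.uval a) / H91.uval a := fun σ => by
    have := congrArg H91.uval (ha σ)
    rw [H91.uval_umk, H91.uval_sub, H91.uval_smul] at this
    exact this
  have ha0 := H91.uval_ne_zero a
  have hfix : ∀ σ : GQ, σ (H91.uval a ^ r) = H91.uval a ^ r := fun σ => by
    have := h1 σ
    rw [hξ, div_pow, div_eq_one_iff_eq (pow_ne_zero _ ha0)] at this
    rw [map_pow, this]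
  obtain ⟨b, hb⟩ := (InfiniteGalois.mem_range_algebraMap_iff_fixed (k := ℚ) (K := Qb)
    (H91.uval a ^ r)).2 hfix
  refine ⟨Units.mk0 _ ha0, b, ?_, funext fun σ => by rw [hξ]; rfl⟩
  rw [Units.val_mk0, ← hb]
  simp

/-! ### Rational numbers with valuations divisible by `r` -/

theorem nat_exists_eq_pow {r n : ℕ} (hn : n ≠ 0)
    (h : ∀ p : ℕ, p.Prime → r ∣ padicValNat p n) : ∃ m : ℕ, n = m ^ r := by
  refine ⟨n.factorization.prod fun p k => p ^ (k / r), ?_⟩
  conv_lhs => rw [← Nat.prod_factorization_pow_eq_self hn]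
  rw [Finsupp.prod, Finsupp.prod, ← Finset.prod_pow]
  refine Finset.prod_congr rfl fun p hp => ?_
  have hpp : p.Prime := Nat.prime_of_mem_primeFactors (by simpa using hp)
  rw [← pow_mul, Nat.div_mul_cancel]
  rw [Nat.factorization_def n hpp]
  exact h p hpp

theorem rat_exists_eq_pow {r : ℕ} (hr : 0 < r) {b : ℚ} (hb : b ≠ 0)
    (h : ∀ q : ℕ, q.Prime → (r : ℤ) ∣ padicValRat q b) :
    ∃ c : ℚ, c ≠ 0 ∧ (b = c ^ r ∨ b = -c ^ r) := by
  have key : ∀ q : ℕ, q.Prime → r ∣ padicValNat q b.num.natAbs ∧ r ∣ padicValNat q b.den := by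
    intro q hq
    have := Fact.mk hq
    have h1 := h q hq
    rw [padicValRat_def, padicValInt] at h1
    by_cases h2 : q ∣ b.den
    · have h3 : ¬ q ∣ b.num.natAbs := fun h4 =>
        Nat.Prime.not_coprime_iff_dvd.2 ⟨q, hq, h4, h2⟩ b.reduced
      rw [padicValNat.eq_zero_of_not_dvd h3] at h1 ⊢
      refine ⟨dvd_zero _, ?_⟩
      rw [Nat.cast_zero, zero_sub, dvd_neg] at h1
      exact Int.natCast_dvd_natCast.1 h1
    · rw [padicValNat.eq_zero_of_not_dvd h2] at h1 ⊢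
      refine ⟨?_, dvd_zero _⟩
      rw [Nat.cast_zero, sub_zero] at h1
      exact Int.natCast_dvd_natCast.1 h1
  obtain ⟨c₁, hc₁⟩ := nat_exists_eq_pow (Int.natAbs_ne_zero.2 (Rat.num_ne_zero.2 hb))
    fun p hp => (key p hp).1
  obtain ⟨c₂, hc₂⟩ := nat_exists_eq_pow b.den_ne_zero fun p hp => (key p hp).2
  have e1 : b = b.num / b.den := (Rat.num_div_den b).symm
  have e2 : |(b.num : ℚ)| = (c₁ : ℚ) ^ r := by
    have : ((b.num.natAbs : ℕ) : ℚ) = (c₁ : ℚ) ^ r := by rw [hc₁]; push_cast; rfl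
    rw [← this, Nat.cast_natAbs]; push_cast; rfl
  have e3 : (b.den : ℚ) = (c₂ : ℚ) ^ r := by rw [hc₂]; push_cast; rfl
  have hmain : b = ((c₁ : ℚ) / c₂) ^ r ∨ b = -((c₁ : ℚ) / c₂) ^ r := by
    rw [div_pow, ← e2, ← e3]
    rcases abs_choice (b.num : ℚ) with h4 | h4 <;> rw [h4]
    · left; exact e1
    · right; rw [neg_div, neg_neg]; exact e1
  refine ⟨(c₁ : ℚ) / c₂, ?_, hmain⟩
  intro h0
  rw [h0, zero_pow hr.ne'] at hmain
  rcases hmain with h1 | h1
  · exact hb h1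
  · exact hb (by rw [h1, neg_zero])

theorem rat_exists_eq_mul_pow {N r : ℕ} (hN : N.Prime) (hr : 0 < r) {b : ℚ} (hb : b ≠ 0)
    (h : ∀ q : ℕ, q.Prime → q ≠ N → (r : ℤ) ∣ padicValRat q b) :
    ∃ (c : ℚ) (j : ℕ), c ≠ 0 ∧ j < r ∧ (b = N ^ j * c ^ r ∨ b = -(N ^ j * c ^ r)) := by
  have hN0 : (N : ℚ) ≠ 0 := by exact_mod_cast hN.ne_zero
  have hFN := Fact.mk hN
  set j := (padicValRat N b % r).toNat with hj
  have hr' : (0 : ℤ) < r := by exact_mod_cast hr
  have hj1 : (j : ℤ) = padicValRat N b % r := Int.toNat_of_nonneg (Int.emod_nonneg _ hr'.ne')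
  have hj2 : j < r := by
    have := Int.emod_lt_of_pos (padicValRat N b) hr'
    omega
  have hb' : b / (N : ℚ) ^ j ≠ 0 := div_ne_zero hb (pow_ne_zero _ hN0)
  obtain ⟨c, hc, hbc⟩ := rat_exists_eq_pow hr hb' (fun q hq => by
    have := Fact.mk hq
    rw [padicValRat.div hb (pow_ne_zero _ hN0), padicValRat.pow]
    by_cases hqN : q = N
    · subst hqN
      rw [padicValRat.self hq.one_lt, mul_one, hj1]
      exact Int.dvd_self_sub_emod
    · have h1 : padicValRat q (N : ℚ) = 0 := by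
        rw [padicValRat.of_nat, padicValNat.eq_zero_of_not_dvd, Nat.cast_zero]
        intro h2
        exact hqN ((Nat.prime_dvd_prime_iff_eq hq hN).1 h2)
      rw [h1, mul_zero, sub_zero]
      exact h q hq hqN)
  refine ⟨c, j, hc, hj2, ?_⟩
  rcases hbc with hbc | hbc
  · left
    rw [← hbc]
    field_simp
  · right
    have : c ^ r = - (b / (N : ℚ) ^ j) := by rw [hbc, neg_neg]
    rw [this]
    field_simp

/-! ### Counting -/

theorem kumCoc_ratCast_mul {β β' : Qbˣ} {s : ℚ} (hs : s ≠ 0) (h : (β : Qb) = s * β') :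
    kumCoc β = kumCoc β' := by
  funext σ
  have hs' : (s : Qb) ≠ 0 := by exact_mod_cast hs
  rw [kumCoc, kumCoc, h, map_mul, map_ratCast, mul_div_mul_left _ _ hs']

/-- representatives of the `r`-th roots of `±1` modulo `ℚˣ` -/
theorem exists_root_reps {r : ℕ} (hr : r.Prime) : ∃ T : Finset Qbˣ, T.card ≤ r ∧
    ∀ x : Qbˣ, (x : Qb) ^ r = 1 ∨ (x : Qb) ^ r = -1 →
      ∃ t ∈ T, ∃ s : ℚ, s ≠ 0 ∧ (x : Qb) = s * t := by
  classical
  rcases hr.eq_two_or_odd' with rfl | hodd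
  · obtain ⟨i, hi⟩ := IsAlgClosed.exists_pow_nat_eq (-1 : Qb) (n := 2) two_pos
    have hi0 : i ≠ 0 := by
      rintro rfl
      norm_num at hi
    refine ⟨{1, Units.mk0 i hi0}, Finset.card_le_two, fun x hx => ?_⟩
    rcases hx with hx | hx
    · refine ⟨1, by simp, ?_⟩
      rcases sq_eq_one_iff.1 hx with h | h
      · exact ⟨1, one_ne_zero, by rw [h]; simp⟩
      · exact ⟨-1, by norm_num, by rw [h]; simp⟩
    · refine ⟨Units.mk0 i hi0, by simp, ?_⟩
      rcases sq_eq_sq_iff_eq_or_eq_neg.1 (hx.trans hi.symm) with h | h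
      · exact ⟨1, one_ne_zero, by rw [h]; simp⟩
      · exact ⟨-1, by norm_num, by rw [h]; simp⟩
  · have : NeZero r := ⟨hr.ne_zero⟩
    have := Fintype.ofFinite (rootsOfUnity r Qb)
    refine ⟨Finset.univ.image fun ζ : rootsOfUnity r Qb => (ζ : Qbˣ),
      Finset.card_image_le.trans ?_, fun x hx => ?_⟩
    · rw [Finset.card_univ, ← Nat.card_eq_fintype_card]
      exact card_rootsOfUnity Qb r
    · rcases hx with hx | hx
      · refine ⟨x, ?_, 1, one_ne_zero, by simp⟩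
        rw [Finset.mem_image]
        exact ⟨⟨x, by rw [mem_rootsOfUnity]; exact Units.ext (by simpa using hx)⟩,
          Finset.mem_univ _, rfl⟩
      · refine ⟨-x, ?_, -1, by norm_num, by simp⟩
        rw [Finset.mem_image]
        exact ⟨⟨-x, by
          rw [mem_rootsOfUnity]
          exact Units.ext (by
            rw [Units.val_pow_eq_pow_val, Units.val_neg, hodd.neg_pow, hx, neg_neg]; rfl)⟩,
          Finset.mem_univ _, rfl⟩

theorem kummer_subset {N r : ℕ} (hN : N.Prime) (hr : r.Prime) {T : Finset Qbˣ}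
    (hT : ∀ x : Qbˣ, (x : Qb) ^ r = 1 ∨ (x : Qb) ^ r = -1 →
      ∃ t ∈ T, ∃ s : ℚ, s ≠ 0 ∧ (x : Qb) = s * t) {ν : Qbˣ} (hν : (ν : Qb) ^ r = N)
    {β : Qbˣ} {b : ℚ} (hb : (b : Qb) = (β : Qb) ^ r)
    (h : ∀ q : ℕ, q.Prime → q ≠ N → (r : ℤ) ∣ padicValRat q b) :
    ∃ j < r, ∃ t ∈ T, kumCoc β = kumCoc (t * ν ^ j) := by
  have hb0 : b ≠ 0 := by
    rintro rfl
    rw [Rat.cast_zero] at hb
    exact pow_ne_zero r β.ne_zero hb.symm
  obtain ⟨c, j, hc, hj, hbc⟩ := rat_exists_eq_mul_pow hN hr.pos hb0 h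
  have hc' : (c : Qb) ≠ 0 := by exact_mod_cast hc
  have hN0 : (N : Qb) ≠ 0 := by exact_mod_cast hN.ne_zero
  obtain ⟨t, ht, s, hs, hx⟩ := hT (β / (Units.mk0 (c : Qb) hc' * ν ^ j)) (by
    rw [Units.val_div_eq_div_val, Units.val_mul, Units.val_mk0, Units.val_pow_eq_pow_val, div_pow,
      mul_pow, ← pow_mul, mul_comm j r, pow_mul, hν, ← hb]
    rcases hbc with hbc | hbc
    · left
      rw [hbc]
      push_cast
      field_simp
    · right
      rw [hbc]
      push_cast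
      field_simp)
  refine ⟨j, hj, t, ht, kumCoc_ratCast_mul (s := c * s) (mul_ne_zero hc hs) ?_⟩
  rw [Units.val_div_eq_div_val, Units.val_mul, Units.val_mk0, div_eq_iff (by
    exact mul_ne_zero hc' (Units.ne_zero _))] at hx
  rw [hx, Units.val_mul]
  push_cast
  ring

theorem kummer_subset' {r : ℕ} (hr : r.Prime) {T : Finset Qbˣ}
    (hT : ∀ x : Qbˣ, (x : Qb) ^ r = 1 ∨ (x : Qb) ^ r = -1 →
      ∃ t ∈ T, ∃ s : ℚ, s ≠ 0 ∧ (x : Qb) = s * t)
    {β : Qbˣ} {b : ℚ} (hb : (b : Qb) = (β : Qb) ^ r)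
    (h : ∀ q : ℕ, q.Prime → (r : ℤ) ∣ padicValRat q b) :
    ∃ t ∈ T, kumCoc β = kumCoc t := by
  have hb0 : b ≠ 0 := by
    rintro rfl
    rw [Rat.cast_zero] at hb
    exact pow_ne_zero r β.ne_zero hb.symm
  obtain ⟨c, hc, hbc⟩ := rat_exists_eq_pow hr.pos hb0 h
  have hc' : (c : Qb) ≠ 0 := by exact_mod_cast hc
  obtain ⟨t, ht, s, hs, hx⟩ := hT (β / (Units.mk0 (c : Qb) hc')) (by
    rw [Units.val_div_eq_div_val, Units.val_mk0, div_pow, ← hb]
    rcases hbc with hbc | hbc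
    · left
      rw [hbc]
      push_cast
      field_simp
    · right
      rw [hbc]
      push_cast
      field_simp)
  refine ⟨t, ht, kumCoc_ratCast_mul (s := c * s) (mul_ne_zero hc hs) ?_⟩
  rw [Units.val_div_eq_div_val, Units.val_mk0, div_eq_iff hc'] at hx
  rw [hx]
  push_cast
  ring

/-- **(A3)** -/
theorem kummerCount : KummerCount := by
  classical
  intro N r hN _ hr _
  obtain ⟨T, hTc, hT⟩ := exists_root_reps hr
  obtain ⟨ν, hν⟩ := IsAlgClosed.exists_pow_nat_eq (N : Qb) hr.pos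
  have hν0 : ν ≠ 0 := by
    rintro rfl
    rw [zero_pow hr.ne_zero] at hν
    exact hN.ne_zero (by exact_mod_cast hν.symm)
  set F : Finset (GQ → Qb) := (Finset.range r ×ˢ T).image fun x : ℕ × Qbˣ =>
    kumCoc (x.2 * (Units.mk0 ν hν0) ^ x.1) with hF
  have hsub : {ξ : GQ → Qb | ∃ (β : Qbˣ) (b : ℚ), (b : Qb) = (β : Qb) ^ r ∧
        (∀ q : ℕ, q.Prime → q ≠ N → (r : ℤ) ∣ padicValRat q b) ∧ ξ = kumCoc β} ⊆ F := by
    rintro ξ ⟨β, b, hb, h, rfl⟩
    obtain ⟨j, hj, t, ht, he⟩ := kummer_subset hN hr hT (ν := Units.mk0 ν hν0) hν hb h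
    rw [hF, Finset.mem_coe, Finset.mem_image]
    exact ⟨(j, t), Finset.mem_product.2 ⟨Finset.mem_range.2 hj, ht⟩, he.symm⟩
  refine ⟨⟨F.finite_toSet.subset hsub, ?_⟩, ?_, ?_, ?_⟩
  · refine (Set.ncard_le_ncard hsub F.finite_toSet).trans ?_
    rw [Set.ncard_coe_finset]
    refine Finset.card_image_le.trans ?_
    rw [Finset.card_product, Finset.card_range, sq]
    exact Nat.mul_le_mul_left r hTc
  · have hsub' : {ξ : GQ → Qb | ∃ (β : Qbˣ) (b : ℚ), (b : Qb) = (β : Qb) ^ r ∧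
        (∀ q : ℕ, q.Prime → (r : ℤ) ∣ padicValRat q b) ∧ ξ = kumCoc β} ⊆
        (T.image kumCoc : Finset (GQ → Qb)) := by
      rintro ξ ⟨β, b, hb, h, rfl⟩
      obtain ⟨t, ht, he⟩ := kummer_subset' hr hT hb h
      rw [Finset.mem_coe, Finset.mem_image]
      exact ⟨t, ht, he.symm⟩
    refine (Set.ncard_le_ncard hsub' (Finset.finite_toSet _)).trans ?_
    rw [Set.ncard_coe_finset]
    exact Finset.card_image_le.trans hTc
  · intro ξ h1 h2 h3
    exact exists_kumCoc hr.pos h1 h2 h3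
  · intro β b hb q hq A hA
    refine ⟨fun _ hσ => ?_, fun hm => dvd_padicValRat_of_val hb hq hA hm⟩
    refine dvd_padicValRat_of_val hb hq hA
      (H44E.exists_valuation_eq_zpow hq hA β.ne_zero fun σ h => ?_)
    have := hσ σ h
    rw [kumCoc, div_eq_one_iff_eq β.ne_zero] at this
    exact this

end Fermat.Agent.H47
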