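import Mathlib
import Fermat.Agent.H15Core
import Fermat.Agent.H33Cyclo
import Fermat.Agent.H54Place

/-!
# MAZUR project (MZ-A5): the count theorem
-/

set_option autoImplicit false

noncomputable section

namespace Fermat.Agent.H75

open Fermat.Agent.H15 ModularCurve AlgebraicCurve

/-! ### counting lemmas -/

section count

lemma card_le_of_map {A B : Type*} [AddCommGroup A] [AddCommGroup B] {Z' Z'' : AddSubgroup A}
    (T : A → B) (hsub : ∀ x ∈ Z', ∀ y ∈ Z', T (x - y) = T x - T y)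
    (hker : ∀ x ∈ Z', T x = 0 → x ∈ Z'') (hfin : Finite Z'') {R : Set B} (hR : R.Finite)
    (hT : ∀ x ∈ Z', T x ∈ R) : Finite Z' ∧ Nat.card Z' ≤ Nat.card Z'' * R.ncard := by
  classical
  have hs : ∀ b : B, ∃ s : A, s ∈ Z' ∧ ((∃ x ∈ Z', T x = b) → T s = b) := by
    intro b
    by_cases h : ∃ x ∈ Z', T x = b
    · obtain ⟨x, hx, hxb⟩ := h
      exact ⟨x, hx, fun _ => hxb⟩
    · exact ⟨0, Z'.zero_mem, fun h' => absurd h' h⟩
  choose s hs1 hs2 using hs
  have hs3 : ∀ x ∈ Z', T (s (T x)) = T x := fun x hx => hs2 _ ⟨x, hx, rfl⟩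
  let f : Z' → Z'' × R := fun x => (⟨x.1 - s (T x.1), hker _ (Z'.sub_mem x.2 (hs1 _)) (by
    rw [hsub _ x.2 _ (hs1 _), hs3 _ x.2, sub_self])⟩, ⟨T x.1, hT _ x.2⟩)
  have hf : Function.Injective f := by
    intro x y h
    have h1 : T x.1 = T y.1 := congrArg (fun z => (z.2 : B)) h
    have h2 : x.1 - s (T x.1) = y.1 - s (T y.1) := congrArg (fun z => (z.1 : A)) h
    rw [h1] at h2
    exact Subtype.ext (sub_left_injective h2)
  have : Finite R := hR
  refine ⟨Finite.of_injective f hf, ?_⟩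
  calc Nat.card Z' ≤ Nat.card (Z'' × R) := Nat.card_le_card_of_injective f hf
    _ = Nat.card Z'' * R.ncard := by rw [Nat.card_prod]; rfl

variable {J : Type*} [AddCommGroup J] {r : ℕ} [Fact r.Prime]

/-- additive functions on a subgroup -/
structure IsPhi (G' G'' : AddSubgroup J) (Φ : J → ZMod r) : Prop where
  add : ∀ x ∈ G', ∀ y ∈ G', Φ (x + y) = Φ x + Φ y
  ker : ∀ x ∈ G', Φ x = 0 ↔ x ∈ G''

lemma IsPhi.zero {G' G'' : AddSubgroup J} {Φ : J → ZMod r} (h : IsPhi G' G'' Φ) : Φ 0 = 0 :=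
  (h.ker 0 G'.zero_mem).2 G''.zero_mem

lemma IsPhi.sub {G' G'' : AddSubgroup J} {Φ : J → ZMod r} (h : IsPhi G' G'' Φ) {x y : J}
    (hx : x ∈ G') (hy : y ∈ G') : Φ (x - y) = Φ x - Φ y := by
  have := h.add (x - y) (G'.sub_mem hx hy) y hy
  rw [sub_add_cancel] at this
  rw [this, add_sub_cancel_right]

lemma IsPhi.nsmul {G' G'' : AddSubgroup J} {Φ : J → ZMod r} (h : IsPhi G' G'' Φ) {x : J}
    (hx : x ∈ G') (n : ℕ) : Φ (n • x) = n * Φ x := by
  induction n with
  | zero => rw [zero_smul, h.zero, Nat.cast_zero, zero_mul]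
  | succ n ih =>
    rw [succ_nsmul, h.add _ (G'.nsmul_mem hx n) _ hx, ih]
    push_cast; ring

lemma IsPhi.eq_iff {G' G'' : AddSubgroup J} {Φ : J → ZMod r} (h : IsPhi G' G'' Φ) {x y : J}
    (hx : x ∈ G') (hy : y ∈ G') : Φ x = Φ y ↔ x - y ∈ G'' := by
  rw [← h.ker _ (G'.sub_mem hx hy), h.sub hx hy, sub_eq_zero]

lemma exists_isPhi {G' G'' : AddSubgroup J} (hle : G'' ≤ G') (hfin : Finite G')
    (hcard : Nat.card G' = r * Nat.card G'') : ∃ Φ : J → ZMod r, IsPhi G' G'' Φ := by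
  classical
  let Q := G' ⧸ G''.addSubgroupOf G'
  have h1 : Nat.card G' = Nat.card Q * Nat.card (G''.addSubgroupOf G') :=
    AddSubgroup.card_eq_card_quotient_mul_card_addSubgroup _
  have h2 : Nat.card (G''.addSubgroupOf G') = Nat.card G'' :=
    Nat.card_congr (AddSubgroup.addSubgroupOfEquivOfLe hle).toEquiv
  have hfin'' : Finite G'' := Finite.of_injective _ (AddSubgroup.inclusion_injective hle)
  have h3 : 0 < Nat.card G'' := Nat.card_pos
  have h4 : Nat.card Q = r := by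
    rw [h2, hcard] at h1
    exact (Nat.eq_of_mul_eq_mul_right h3 h1).symm
  let e : Q ≃+ ZMod r := addEquivOfPrimeCardEq (p := r) h4 (Nat.card_zmod r)
  refine ⟨fun x => if h : x ∈ G' then e (QuotientAddGroup.mk ⟨x, h⟩) else 0, ?_, ?_⟩
  · intro x hx y hy
    rw [dif_pos hx, dif_pos hy, dif_pos (G'.add_mem hx hy), ← map_add]
    rfl
  · intro x hx
    rw [dif_pos hx, map_eq_zero_iff _ e.injective, QuotientAddGroup.eq_zero_iff]
    rfl

/-- lower bound for the intersections -/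
lemma card_inf_mul_le {G' G'' : AddSubgroup J} (hle : G'' ≤ G') (hfin : Finite G')
    {Φ : J → ZMod r} (hΦ : IsPhi G' G'' Φ) (H : AddSubgroup J) {x₀ : J} (hx₀ : x₀ ∈ G')
    (hx₀H : x₀ ∈ H) (hx₀' : x₀ ∉ G'') :
    Nat.card (G'' ⊓ H : AddSubgroup J) * r ≤ Nat.card (G' ⊓ H : AddSubgroup J) := by
  have hr : r.Prime := Fact.out
  have hfin' : Finite (G' ⊓ H : AddSubgroup J) :=
    Finite.of_injective _ (AddSubgroup.inclusion_injective inf_le_left)
  let f : (G'' ⊓ H : AddSubgroup J) × Fin r → (G' ⊓ H : AddSubgroup J) := fun p =>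
    ⟨p.1.1 + (p.2 : ℕ) • x₀, G'.add_mem (hle p.1.2.1) (G'.nsmul_mem hx₀ _),
      H.add_mem p.1.2.2 (H.nsmul_mem hx₀H _)⟩
  have hf : Function.Injective f := by
    rintro ⟨x, i⟩ ⟨y, j⟩ h
    have h1 : x.1 + (i : ℕ) • x₀ = y.1 + (j : ℕ) • x₀ := congrArg Subtype.val h
    have h2 := congrArg Φ h1
    have hx1 : x.1 ∈ G' := hle x.2.1
    have hy1 : y.1 ∈ G' := hle y.2.1
    rw [hΦ.add _ hx1 _ (G'.nsmul_mem hx₀ _), hΦ.add _ hy1 _ (G'.nsmul_mem hx₀ _),
      (hΦ.ker _ hx1).2 x.2.1, (hΦ.ker _ hy1).2 y.2.1, hΦ.nsmul hx₀, hΦ.nsmul hx₀, zero_add,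
      zero_add] at h2
    have h3 : Φ x₀ ≠ 0 := fun h => hx₀' ((hΦ.ker _ hx₀).1 h)
    have h4 : ((i : ℕ) : ZMod r) = ((j : ℕ) : ZMod r) := mul_right_cancel₀ h3 h2
    have h5 : i = j := by
      apply Fin.ext
      rw [ZMod.natCast_eq_natCast_iff'] at h4
      rwa [Nat.mod_eq_of_lt i.2, Nat.mod_eq_of_lt j.2] at h4
    subst h5
    have h6 : x = y := Subtype.ext (add_right_cancel h1)
    rw [h6]
  have h := Nat.card_le_card_of_injective f hf
  rwa [Nat.card_prod, Nat.card_eq_fintype_card (α := Fin r), Fintype.card_fin] at h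

end count

/-! ### the group of cocycles -/

section zs

variable {N r : ℕ} {J : Type} [AddCommGroup J] [DistribMulAction GQ J]

/-- `ZStar` as an additive group -/
def ZS (N r : ℕ) (k : ℕ) (G : AddSubgroup J) : AddSubgroup (GQ → J) where
  carrier := ZStar N r J k G
  zero_mem' := by
    refine ⟨fun σ => G.zero_mem, fun σ τ => ?_, IsLocallyConstant.const 0, ?_, ?_, ?_⟩
    · simp
    · intro q _ _ _ A _ σ _; rfl
    · intro A _ σ _ τ _
      show τ • (0 : J) = 0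
      rw [smul_zero]
    · intro A _
      refine ⟨0, fun σ _ => by rw [smul_zero, smul_zero], fun σ _ => ?_⟩
      show (0 : J) = _
      rw [smul_zero, sub_zero]
  add_mem' := by
    rintro ξ η ⟨h1, h2, h3, h4, h5, h6⟩ ⟨g1, g2, g3, g4, g5, g6⟩
    refine ⟨fun σ => G.add_mem (h1 σ) (g1 σ), fun σ τ => ?_, h3.add g3, ?_, ?_, ?_⟩
    · rw [Pi.add_apply, Pi.add_apply, Pi.add_apply, h2, g2, smul_add]; abel
    · intro q hq hq1 hq2 A hA σ hσ
      rw [Pi.add_apply, h4 q hq hq1 hq2 A hA σ hσ, g4 q hq hq1 hq2 A hA σ hσ, add_zero]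
    · intro A hA σ hσ τ hτ
      rw [Pi.add_apply, smul_add, h5 A hA σ hσ τ hτ, g5 A hA σ hσ τ hτ]
    · intro A hA
      obtain ⟨R, hR1, hR2⟩ := h6 A hA
      obtain ⟨R', hR1', hR2'⟩ := g6 A hA
      refine ⟨R + R', fun σ hσ => ?_, fun σ hσ => ?_⟩
      · rw [smul_add (r ^ k) R R', smul_add, hR1 σ hσ, hR1' σ hσ]
      · rw [Pi.add_apply, hR2 σ hσ, hR2' σ hσ, smul_add]; abel
  neg_mem' := by
    rintro ξ ⟨h1, h2, h3, h4, h5, h6⟩
    refine ⟨fun σ => G.neg_mem (h1 σ), fun σ τ => ?_, h3.neg, ?_, ?_, ?_⟩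
    · rw [Pi.neg_apply, Pi.neg_apply, Pi.neg_apply, h2, smul_neg]; abel
    · intro q hq hq1 hq2 A hA σ hσ
      rw [Pi.neg_apply, h4 q hq hq1 hq2 A hA σ hσ, neg_zero]
    · intro A hA σ hσ τ hτ
      rw [Pi.neg_apply, smul_neg, h5 A hA σ hσ τ hτ]
    · intro A hA
      obtain ⟨R, hR1, hR2⟩ := h6 A hA
      refine ⟨-R, fun σ hσ => ?_, fun σ hσ => ?_⟩
      · rw [smul_neg (r ^ k) R, smul_neg, hR1 σ hσ]
      · rw [Pi.neg_apply, hR2 σ hσ, smul_neg]; abel

lemma mem_ZS {k : ℕ} {G : AddSubgroup J} {ξ : GQ → J} : ξ ∈ ZS N r k G ↔ ξ ∈ ZStar N r J k G :=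
  Iff.rfl

/-- vectors fixed by the inertia group -/
def fixI (A : ValuationSubring Qb) (J : Type) [AddCommGroup J] [DistribMulAction GQ J] :
    AddSubgroup J where
  carrier := {x | ∀ σ ∈ A.inertiaSubgroupIn ℚ, σ • x = x}
  zero_mem' := fun σ _ => smul_zero σ
  add_mem' := fun {x y} hx hy σ hσ => by rw [smul_add, hx σ hσ, hy σ hσ]
  neg_mem' := fun {x} hx σ hσ => by rw [smul_neg, hx σ hσ]

lemma ZS_bot (k : ℕ) : ∀ ξ ∈ ZS N r k (⊥ : AddSubgroup J), ξ = 0 := by
  rintro ξ ⟨h1, -⟩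
  funext σ
  exact h1 σ

lemma mem_ZS_of_mem {k : ℕ} {G' G'' : AddSubgroup J} {ξ : GQ → J} (hξ : ξ ∈ ZS N r k G')
    (h : ∀ σ, ξ σ ∈ G'') : ξ ∈ ZS N r k G'' :=
  ⟨h, hξ.2⟩

/-- conjugate inertia groups -/
lemma exists_conj_inertia {q : ℕ} (hq : q.Prime) {A B : ValuationSubring Qb}
    (hA : A.LiesOverPrime q) (hB : B.LiesOverPrime q) : ∃ g : GQ, ∀ σ ∈ B.inertiaSubgroupIn ℚ,
      g⁻¹ * σ * g ∈ A.inertiaSubgroupIn ℚ := by
  obtain ⟨g, hg⟩ := H54.exists_smul_eq hq hB hA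
  refine ⟨g⁻¹, fun σ hσ => ?_⟩
  have := H63.conj_mem_inertiaSubgroupIn g σ hσ
  rw [hg] at this
  rwa [inv_inv]

lemma exists_place (q : ℕ) (hq : q.Prime) : ∃ A : ValuationSubring Qb, A.LiesOverPrime q := by
  have : Fact q.Prime := ⟨hq⟩
  exact ⟨padicPlace q, H54.liesOverPrime_padicPlace q⟩

/-- characters unramified outside `N` -/
def CharSet (N r : ℕ) : Set (GQ → ZMod r) :=
  {c : GQ → ZMod r | (∀ σ τ, c (σ * τ) = c σ + c τ) ∧ IsLocallyConstant c ∧
      ∀ q : ℕ, q.Prime → q ≠ N → ∀ B : ValuationSubring Qb, B.LiesOverPrime q →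
        ∀ σ ∈ B.inertiaSubgroupIn ℚ, c σ = 0}

/-- the étale step -/
lemma step_et [Fact r.Prime] {k : ℕ} {G' G'' : AddSubgroup J}
    {Φ : J → ZMod r} (hΦ : IsPhi G' G'' Φ) (hG' : ∀ σ : GQ, ∀ x ∈ G', σ • x ∈ G')
    (htriv : ∀ σ : GQ, ∀ x ∈ G', σ • x - x ∈ G'')
    {KA : AddSubgroup J} {Ar : ValuationSubring Qb} (hAr : Ar.LiesOverPrime r)
    (hin : ∀ σ ∈ Ar.inertiaSubgroupIn ℚ, ∀ x : J, σ • x - x ∈ KA)
    (hK : ∀ x ∈ G', x ∈ KA → x ∈ G'') {ξ : GQ → J} (hξ : ξ ∈ ZS N r k G') :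
    (fun σ => Φ (ξ σ)) ∈ CharSet N r := by
  obtain ⟨h1, h2, h3, h4, h5, h6⟩ := hξ
  have hmul : ∀ σ τ, Φ (ξ (σ * τ)) = Φ (ξ σ) + Φ (ξ τ) := by
    intro σ τ
    rw [h2, hΦ.add _ (h1 σ) _ (hG' σ _ (h1 τ)),
      (hΦ.eq_iff (hG' σ _ (h1 τ)) (h1 τ)).2 (htriv σ _ (h1 τ))]
  have hone : Φ (ξ 1) = 0 := by
    have := hmul 1 1
    rw [mul_one] at this
    exact left_eq_add.1 this
  refine ⟨hmul, h3.comp Φ, fun q hq hqN B hB σ hσ => ?_⟩
  by_cases hqr : q = r
  · subst hqr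
    obtain ⟨g, hg⟩ := exists_conj_inertia hq hAr hB
    have hr0 : ∀ τ ∈ Ar.inertiaSubgroupIn ℚ, Φ (ξ τ) = 0 := by
      intro τ hτ
      rw [hΦ.ker _ (h1 τ)]
      obtain ⟨R, -, hR⟩ := h6 Ar hAr
      exact hK _ (h1 τ) (by rw [hR τ hτ]; exact hin τ hτ R)
    have h7 := hr0 _ (hg σ hσ)
    rw [hmul, hmul] at h7
    have h8 := hmul g⁻¹ g
    rw [inv_mul_cancel, hone] at h8
    have h9 : Φ (ξ σ) = 0 := by
      linear_combination h7 + h8
    exact h9
  · show Φ (ξ σ) = 0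
    rw [h4 q hq hqr hqN B hB σ hσ, hΦ.zero]

end zs

/-! ### powers of a root of unity -/

section pw

variable {r : ℕ} [Fact r.Prime] {Z : Qb}

lemma pw_add (hZ : IsPrimitiveRoot Z r) (a b : ZMod r) :
    Z ^ (a + b).val = Z ^ a.val * Z ^ b.val := by
  have h : ∀ m : ℕ, Z ^ (m % r) = Z ^ m := fun m => by
    conv_rhs => rw [← Nat.mod_add_div m r, pow_add, pow_mul, hZ.pow_eq_one, one_pow, mul_one]
  rw [ZMod.val_add, ← pow_add, h]

lemma pw_natCast_mul (hZ : IsPrimitiveRoot Z r) (n : ℕ) (a : ZMod r) :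
    Z ^ ((n : ZMod r) * a).val = (Z ^ a.val) ^ n := by
  induction n with
  | zero => rw [Nat.cast_zero, zero_mul, ZMod.val_zero, pow_zero, pow_zero]
  | succ n ih =>
    have : ((n + 1 : ℕ) : ZMod r) * a = (n : ZMod r) * a + a := by push_cast; ring
    rw [this, pw_add hZ, ih, pow_succ]

lemma pw_eq_one_iff (hZ : IsPrimitiveRoot Z r) (a : ZMod r) : Z ^ a.val = 1 ↔ a = 0 := by
  rw [hZ.pow_eq_one_iff_dvd]
  constructor
  · intro h
    have h1 := Nat.eq_zero_of_dvd_of_lt h (ZMod.val_lt a)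
    exact (ZMod.val_eq_zero a).1 h1
  · rintro rfl
    rw [ZMod.val_zero]
    exact dvd_zero _

lemma pw_injective (hZ : IsPrimitiveRoot Z r) {a b : ZMod r} (h : Z ^ a.val = Z ^ b.val) :
    a = b := by
  have h1 := hZ.pow_inj (ZMod.val_lt a) (ZMod.val_lt b) h
  exact ZMod.val_injective r h1

lemma exists_act (hZ : IsPrimitiveRoot Z r) (σ : GQ) : ∃ n : ℕ, ∀ ζ : Qb, ζ ^ r = 1 → σ ζ = ζ ^ n := by
  have hr : 0 < r := (Fact.out : r.Prime).pos
  obtain ⟨n, -, hn⟩ := hZ.eq_pow_of_pow_eq_one (ξ := σ Z) (by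
    rw [← map_pow, hZ.pow_eq_one, map_one])
  refine ⟨n, fun ζ hζ => ?_⟩
  obtain ⟨i, -, rfl⟩ := hZ.eq_pow_of_pow_eq_one hζ
  rw [map_pow, ← hn, ← pow_mul, ← pow_mul, mul_comm]

end pw

/-! ### the multiplicative step -/

section mu

variable {N r : ℕ} {J : Type} [AddCommGroup J] [DistribMulAction GQ J] [Fact r.Prime] {Z : Qb}

/-- Kummer cocycles, divisible valuation outside `N` -/
def KumSet (N r : ℕ) : Set (GQ → Qb) :=
  {ξ : GQ → Qb | ∃ (β : Qbˣ) (b : ℚ), (b : Qb) = (β : Qb) ^ r ∧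
        (∀ q : ℕ, q.Prime → q ≠ N → (r : ℤ) ∣ padicValRat q b) ∧ ξ = kumCoc β}

/-- Kummer cocycles, divisible valuation everywhere -/
def KumSet' (r : ℕ) : Set (GQ → Qb) :=
  {ξ : GQ → Qb | ∃ (β : Qbˣ) (b : ℚ), (b : Qb) = (β : Qb) ^ r ∧
        (∀ q : ℕ, q.Prime → (r : ℤ) ∣ padicValRat q b) ∧ ξ = kumCoc β}

/-- the additive group of units of `Qb` is an injective abelian group -/
lemma baer_units : Module.Baer ℤ (Additive Qbˣ) := by
  have hsurj : ∀ {n : ℕ}, n ≠ 0 → Function.Surjective (fun a : Additive Qbˣ => n • a) := by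
    intro n hn a
    obtain ⟨z, hz⟩ := IsAlgClosed.exists_pow_nat_eq ((a.toMul : Qbˣ) : Qb)
      (Nat.pos_of_ne_zero hn)
    have hz0 : z ≠ 0 := by
      rintro rfl
      rw [zero_pow hn] at hz
      exact (a.toMul : Qbˣ).ne_zero hz.symm
    refine ⟨Additive.ofMul (Units.mk0 z hz0), ?_⟩
    apply Additive.toMul.injective
    apply Units.ext
    show ((Units.mk0 z hz0 ^ n : Qbˣ) : Qb) = _
    rw [Units.val_pow_eq_pow_val, Units.val_mk0, hz]
  let _ : DivisibleBy (Additive Qbˣ) ℕ := divisibleByOfSMulRightSurj _ _ hsurj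
  let _ : DivisibleBy (Additive Qbˣ) ℤ := AddGroup.divisibleByIntOfDivisibleByNat _
  exact Module.Baer.of_divisible _

/-- the homomorphism `a ↦ Z ^ a` -/
def pwU (hZ : IsPrimitiveRoot Z r) (a : ZMod r) : Additive Qbˣ :=
  Additive.ofMul ((Units.mk0 Z (hZ.ne_zero (Fact.out : r.Prime).ne_zero)) ^ a.val)

lemma coe_pwU (hZ : IsPrimitiveRoot Z r) (a : ZMod r) : ((pwU hZ a).toMul : Qb) = Z ^ a.val := by
  show ((Units.mk0 Z _ ^ a.val : Qbˣ) : Qb) = _
  rw [Units.val_pow_eq_pow_val, Units.val_mk0]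

lemma pwU_add (hZ : IsPrimitiveRoot Z r) (a b : ZMod r) : pwU hZ (a + b) = pwU hZ a + pwU hZ b := by
  apply Additive.toMul.injective
  apply Units.ext
  rw [coe_pwU, pw_add hZ, toMul_add, Units.val_mul, coe_pwU, coe_pwU]

end mu

section mu2

variable {N r : ℕ} {J : Type} [AddCommGroup J] [Module HeckeAlg J] [DistribMulAction GQ J]
  [Fact r.Prime] {Z : Qb}

/-- the multiplicative step -/
lemma step_mu (hN : N.Prime) (hN5 : 5 ≤ N) (hrN : r ≠ N) (h3 : KummerCount)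
    (hZ : IsPrimitiveRoot Z r) {k : ℕ} {G' G'' : AddSubgroup J}
    {Φ : J → ZMod r} (hΦ : IsPhi G' G'' Φ) (hG' : ∀ σ : GQ, ∀ x ∈ G', σ • x ∈ G')
    (hW : G' ≤ WSub N r J k)
    (hcyc : ∀ σ : GQ, ∀ n : ℕ, (∀ ζ : Qb, ζ ^ r = 1 → σ ζ = ζ ^ n) →
      ∀ x ∈ G', σ • x - n • x ∈ G'')
    {K : ValuationSubring Qb → AddSubgroup J} (hU : UnitR N r J K)
    {Ar AN : ValuationSubring Qb} (hAr : Ar.LiesOverPrime r) (hAN : AN.LiesOverPrime N)
    (hin : ∀ σ ∈ Ar.inertiaSubgroupIn ℚ, ∀ x : J, σ • x - x ∈ K Ar)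
    {ξ : GQ → J} (hξ : ξ ∈ ZS N r k G') :
    (fun σ => Z ^ (Φ (ξ σ)).val) ∈ KumSet N r ∧
      ((∀ x ∈ G', x ∈ fixI AN J → x ∈ G'') → (fun σ => Z ^ (Φ (ξ σ)).val) ∈ KumSet' r) := by
  have hr : r.Prime := Fact.out
  obtain ⟨-, -, hK3, hK4⟩ := h3 N r hN hN5 hr hrN
  obtain ⟨h1, h2, h3, h4, h5, h6⟩ := hξ
  set η : GQ → Qb := fun σ => Z ^ (Φ (ξ σ)).val with hη
  have hηr : ∀ σ, η σ ^ r = 1 := fun σ => by
    rw [hη, ← pow_mul, mul_comm, pow_mul, hZ.pow_eq_one, one_pow]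
  have hηmul : ∀ σ τ : GQ, η (σ * τ) = η σ * σ (η τ) := by
    intro σ τ
    obtain ⟨n, hn⟩ := exists_act hZ σ
    have e1 : Φ (σ • ξ τ) = (n : ZMod r) * Φ (ξ τ) := by
      rw [← hΦ.nsmul (h1 τ), hΦ.eq_iff (hG' σ _ (h1 τ)) (G'.nsmul_mem (h1 τ) n)]
      exact hcyc σ n hn _ (h1 τ)
    show Z ^ (Φ (ξ (σ * τ))).val = Z ^ (Φ (ξ σ)).val * σ (η τ)
    rw [h2, hΦ.add _ (h1 σ) _ (hG' σ _ (h1 τ)), pw_add hZ, e1, pw_natCast_mul hZ, hn _ (hηr τ)]
  have hηlc : IsLocallyConstant η := h3.comp (fun x => Z ^ (Φ x).val)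
  obtain ⟨β, b, hb, hβ⟩ := hK3 η hηr hηmul hηlc
  -- unramified outside `r N`
  have hq1 : ∀ q : ℕ, q.Prime → q ≠ N → q ≠ r → (r : ℤ) ∣ padicValRat q b := by
    intro q hq hqN hqr
    obtain ⟨A, hA⟩ := exists_place q hq
    refine (hK4 β b hb q hq A hA).1 hqr fun σ hσ => ?_
    rw [← hβ]
    show Z ^ (Φ (ξ σ)).val = 1
    rw [h4 q hq hqr hqN A hA σ hσ, hΦ.zero, ZMod.val_zero, pow_zero]
  -- at `r`
  have hqr : (r : ℤ) ∣ padicValRat r b := by
    obtain ⟨R, hR1, hR2⟩ := h6 Ar hAr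
    refine (hK4 β b hb r hr Ar hAr).2 ?_
    let ι : (G' ⊓ K Ar : AddSubgroup J) →+ Additive Qbˣ :=
      AddMonoidHom.mk' (fun x => pwU hZ (Φ x.1)) (fun x y => by
        show pwU hZ (Φ (x.1 + y.1)) = _
        rw [hΦ.add _ x.2.1 _ y.2.1, pwU_add])
    let incl : (G' ⊓ K Ar : AddSubgroup J) →+ (WSub N r J k ⊓ K Ar : AddSubgroup J) :=
      AddSubgroup.inclusion (inf_le_inf_right _ hW)
    obtain ⟨ψ, hψ⟩ := baer_units.extension_property_addMonoidHom incl
      (AddSubgroup.inclusion_injective _) ι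
    refine hU Ar hAr k ψ R β hR1 fun σ hσ => ?_
    have hm : σ • R - R ∈ G' ⊓ K Ar := by
      refine ⟨?_, hin σ hσ R⟩
      rw [← hR2 σ hσ]; exact h1 σ
    refine ⟨⟨hW hm.1, hm.2⟩, ?_⟩
    have e1 : ψ ⟨σ • R - R, ⟨hW hm.1, hm.2⟩⟩ = ι ⟨σ • R - R, hm⟩ := by
      rw [← hψ]; rfl
    rw [e1]
    have e2 : ((ι ⟨σ • R - R, hm⟩).toMul : Qb) = η σ := by
      show ((pwU hZ (Φ (σ • R - R))).toMul : Qb) = Z ^ (Φ (ξ σ)).val
      rw [coe_pwU, hR2 σ hσ]
    rw [e2, hβ, kumCoc, div_mul_cancel₀ _ β.ne_zero]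
  have hout : ∀ q : ℕ, q.Prime → q ≠ N → (r : ℤ) ∣ padicValRat q b := by
    intro q hq hqN
    by_cases h : q = r
    · rw [h]; exact hqr
    · exact hq1 q hq hqN h
  refine ⟨⟨β, b, hb, hout, hβ⟩, fun hfix => ⟨β, b, hb, fun q hq => ?_, hβ⟩⟩
  by_cases hqN : q = N
  · rw [hqN]
    refine (hK4 β b hb N hN AN hAN).1 (Ne.symm hrN) fun σ hσ => ?_
    rw [← hβ]
    show Z ^ (Φ (ξ σ)).val = 1
    have : Φ (ξ σ) = 0 := (hΦ.ker _ (h1 σ)).2 (hfix _ (h1 σ) fun τ hτ => h5 AN hAN σ hσ τ hτ)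
    rw [this, ZMod.val_zero, pow_zero]
  · exact hout q hq hqN

end mu2

/-! ### the main theorem -/

section main

lemma exists_max_stable {J : Type} [AddCommGroup J] [DistribMulAction GQ J] {G : AddSubgroup J}
    (hfin : Finite G) (hne : G ≠ ⊥) : ∃ G'' : AddSubgroup J, G'' < G ∧
      (∀ σ : GQ, ∀ x ∈ G'', σ • x ∈ G'') ∧
      ∀ H : AddSubgroup J, G'' ≤ H → H ≤ G → (∀ σ : GQ, ∀ x ∈ H, σ • x ∈ H) →
        H = G'' ∨ H = G := by
  classical
  have hex : ∃ m : ℕ, ∃ H : AddSubgroup J, H < G ∧ (∀ σ : GQ, ∀ x ∈ H, σ • x ∈ H) ∧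
      Nat.card G - Nat.card H = m :=
    ⟨_, ⊥, bot_lt_iff_ne_bot.2 hne, fun σ x hx => by
      rw [AddSubgroup.mem_bot] at hx ⊢; rw [hx, smul_zero], rfl⟩
  obtain ⟨G'', hlt, hst, hm⟩ := Nat.find_spec hex
  refine ⟨G'', hlt, hst, fun H h1 h2 h3 => ?_⟩
  by_cases hHG : H = G
  · exact Or.inr hHG
  · left
    have hHlt : H < G := lt_of_le_of_ne h2 hHG
    have h4 := Nat.find_min' hex ⟨H, hHlt, h3, rfl⟩
    rw [← hm] at h4
    have hfH : Finite H := Finite.of_injective _ (AddSubgroup.inclusion_injective h2)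
    have h5 : Nat.card H ≤ Nat.card G :=
      Nat.card_le_card_of_injective _ (AddSubgroup.inclusion_injective h2)
    have h6 : Nat.card G'' ≤ Nat.card H :=
      Nat.card_le_card_of_injective _ (AddSubgroup.inclusion_injective h1)
    have h7 : Nat.card G'' < Nat.card G := by
      by_contra hcon
      exact hlt.ne (AddSubgroup.eq_of_le_of_card_ge hlt.le (not_lt.1 hcon))
    exact (AddSubgroup.eq_of_le_of_card_ge h1 (by omega)).symm

/-- the bound for the mod `N` fixed part -/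
lemma card_inf_le' {J : Type} [AddCommGroup J] {G' G'' : AddSubgroup J}
    (hle : G'' ≤ G') (hfin : Finite G') (H : AddSubgroup J) :
    Nat.card (G'' ⊓ H : AddSubgroup J) ≤ Nat.card (G' ⊓ H : AddSubgroup J) := by
  have : Finite (G' ⊓ H : AddSubgroup J) :=
    Finite.of_injective _ (AddSubgroup.inclusion_injective inf_le_left)
  exact Nat.card_le_card_of_injective _
    (AddSubgroup.inclusion_injective (inf_le_inf_right H hle))

/-- **The count theorem.** -/
theorem countThm (h1 : Constituents) (h2 : CharCount) (h3 : KummerCount) : CountThm := by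
  classical
  intro N r hN hN5 hr hrN J _ _ _ _ K hK k AN Ar hAN hAr
  have : Fact r.Prime := ⟨hr⟩
  have : NeZero r := ⟨hr.ne_zero⟩
  have hNr : ¬ r ∣ N := fun h => hrN ((Nat.prime_dvd_prime_iff_eq hr hN).1 h)
  obtain ⟨Z, hZ⟩ := HasEnoughRootsOfUnity.exists_primitiveRoot Qb r
  have hrk : r ^ k ≠ 0 := pow_ne_zero _ hr.ne_zero
  have hWfin : Finite (WSub N r J k) :=
    ((hK.torsion_finite _ hrk).subset (fun x (hx : x ∈ WSub N r J k) => hx.1)).to_subtype
  have hin : ∀ σ ∈ Ar.inertiaSubgroupIn ℚ, ∀ x : J, σ • x - x ∈ K Ar :=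
    hK.inertia r hr hNr Ar hAr
  obtain ⟨hC1, hC2, hC3⟩ := h2 N r hN hN5 hr hrN AN hAN
  obtain ⟨⟨hKf, hKc⟩, hKc', -, -⟩ := h3 N r hN hN5 hr hrN
  have main : ∀ n : ℕ, ∀ G : AddSubgroup J, Nat.card G = n → G ≤ WSub N r J k →
      (∀ σ : GQ, ∀ x ∈ G, σ • x ∈ G) →
      Finite (ZS N r k G) ∧ Nat.card (ZS N r k G) ≤
        Nat.card (G ⊓ fixI AN J : AddSubgroup J) * Nat.card (G ⊓ K Ar : AddSubgroup J) := by
    intro n
    induction n using Nat.strong_induction_on with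
    | _ n ih =>
      intro G hn hGW hG
      have hGfin : Finite G := Finite.of_injective _ (AddSubgroup.inclusion_injective hGW)
      have hf1 : Finite (G ⊓ fixI AN J : AddSubgroup J) :=
        Finite.of_injective _ (AddSubgroup.inclusion_injective inf_le_left)
      have hf2 : Finite (G ⊓ K Ar : AddSubgroup J) :=
        Finite.of_injective _ (AddSubgroup.inclusion_injective inf_le_left)
      by_cases hbot : G = ⊥
      · subst hbot
        have hsub : Subsingleton (ZS N r k (⊥ : AddSubgroup J)) :=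
          ⟨fun x y => Subtype.ext ((ZS_bot k x.1 x.2).trans (ZS_bot k y.1 y.2).symm)⟩
        refine ⟨inferInstance, ?_⟩
        calc Nat.card (ZS N r k (⊥ : AddSubgroup J)) ≤ 1 := Finite.card_le_one_iff_subsingleton.2 hsub
          _ ≤ _ := Nat.mul_pos Nat.card_pos Nat.card_pos
      obtain ⟨G'', hlt, hst, hmax⟩ := exists_max_stable hGfin hbot
      obtain ⟨hcard, halt⟩ := h1 N r hN hN5 hr hrN J K hK.toBasicInputs k G G'' hGW hlt hG hst hmax
      have hG''fin : Finite G'' := Finite.of_injective _ (AddSubgroup.inclusion_injective hlt.le)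
      obtain ⟨Φ, hΦ⟩ := exists_isPhi hlt.le hGfin hcard
      have hcardlt : Nat.card G'' < n := by
        rw [← hn, hcard]
        have : 0 < Nat.card G'' := Nat.card_pos
        calc Nat.card G'' < 2 * Nat.card G'' := by omega
          _ ≤ r * Nat.card G'' := Nat.mul_le_mul_right _ hr.two_le
      obtain ⟨ihf, ihc⟩ := ih _ hcardlt G'' rfl (hlt.le.trans hGW) hst
      obtain ⟨y₀, hy₀G, hy₀⟩ : ∃ y ∈ G, y ∉ G'' := by
        by_contra hcon
        push Not at hcon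
        exact hlt.not_ge hcon
      -- the additive map
      have hsub : ∀ x ∈ ZS N r k G, ∀ y ∈ ZS N r k G,
          (fun σ => Φ ((x - y) σ)) = (fun σ => Φ (x σ)) - (fun σ => Φ (y σ)) := by
        intro x hx y hy
        funext σ
        exact hΦ.sub (hx.1 σ) (hy.1 σ)
      have hker : ∀ x ∈ ZS N r k G, (fun σ => Φ (x σ)) = 0 → x ∈ ZS N r k G'' := by
        intro x hx h
        exact mem_ZS_of_mem hx fun σ => (hΦ.ker _ (hx.1 σ)).1 (congrFun h σ)
      -- the intersections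
      have hA1 := card_inf_le' hlt.le hGfin (fixI AN J)
      have hB1 := card_inf_le' hlt.le hGfin (K Ar)
      set a₂ := Nat.card (G'' ⊓ fixI AN J : AddSubgroup J)
      set b₂ := Nat.card (G'' ⊓ K Ar : AddSubgroup J)
      set a₁ := Nat.card (G ⊓ fixI AN J : AddSubgroup J)
      set b₁ := Nat.card (G ⊓ K Ar : AddSubgroup J)
      have hA2 : (¬ ∀ x ∈ G, x ∈ fixI AN J → x ∈ G'') → a₂ * r ≤ a₁ := by
        intro h
        push Not at h
        obtain ⟨x, hx1, hx2, hx3⟩ := h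
        exact card_inf_mul_le hlt.le hGfin hΦ _ hx1 hx2 hx3
      by_cases hKc0 : ∀ x ∈ G, x ∈ K Ar → x ∈ G''
      · -- étale case
        have htriv : ∀ σ : GQ, ∀ x ∈ G, σ • x - x ∈ G'' := by
          rcases halt with halt | halt
          · exact halt
          · by_cases hr2 : r = 2
            · subst hr2
              intro σ x hx
              have := halt σ 1 (fun ζ hζ => by
                rw [pow_one]
                rcases mul_self_eq_one_iff.1 ((sq ζ).symm.trans hζ) with h | h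
                · rw [h, map_one]
                · rw [h, map_neg, map_one]) x hx
              rwa [one_smul] at this
            · exfalso
              obtain ⟨σ, hσ, hσ2⟩ := H33.exists_inertia_cyclo hAr 2
                (fun h => hr2 ((Nat.prime_dvd_prime_iff_eq hr Nat.prime_two).1 h))
              apply hy₀
              have e1 := halt σ 2 hσ2 y₀ hy₀G
              have e2 : σ • y₀ - y₀ ∈ G'' :=
                hKc0 _ (G.sub_mem (hG σ _ hy₀G) hy₀G) (hin σ hσ y₀)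
              have e3 := G''.sub_mem e2 e1
              have e4 : σ • y₀ - y₀ - (σ • y₀ - 2 • y₀) = y₀ := by
                rw [two_smul]; abel
              rwa [e4] at e3
        have hmem : ∀ x ∈ ZS N r k G, (fun σ => Φ (x σ)) ∈ CharSet N r := fun x hx =>
          step_et hΦ hG htriv hAr hin hKc0 hx
        by_cases hA0 : ∀ x ∈ G, x ∈ fixI AN J → x ∈ G''
        · have hmem0 : ∀ x ∈ ZS N r k G, (fun σ => Φ (x σ)) ∈ ({0} : Set (GQ → ZMod r)) := by
            intro x hx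
            obtain ⟨c1, c2, c3⟩ := hmem x hx
            refine hC3 _ c1 c2 c3 fun σ hσ => ?_
            exact (hΦ.ker _ (hx.1 σ)).2 (hA0 _ (hx.1 σ) fun τ hτ => hx.2.2.2.2.1 AN hAN σ hσ τ hτ)
          obtain ⟨f1, f2⟩ := card_le_of_map (fun ξ : GQ → J => fun σ => Φ (ξ σ)) hsub hker ihf
            (Set.finite_singleton 0) hmem0
          refine ⟨f1, ?_⟩
          rw [Set.ncard_singleton, mul_one] at f2
          exact f2.trans (ihc.trans (Nat.mul_le_mul hA1 hB1))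
        · obtain ⟨f1, f2⟩ := card_le_of_map (fun ξ : GQ → J => fun σ => Φ (ξ σ)) hsub hker ihf
            hC1 hmem
          refine ⟨f1, f2.trans ?_⟩
          calc Nat.card (ZS N r k G'') * (CharSet N r).ncard ≤ (a₂ * b₂) * r :=
                Nat.mul_le_mul ihc hC2
            _ = (a₂ * r) * b₂ := by ring
            _ ≤ a₁ * b₁ := Nat.mul_le_mul (hA2 hA0) hB1
      · -- multiplicative case
        push Not at hKc0
        obtain ⟨x₀, hx₀G, hx₀K, hx₀⟩ := hKc0
        have hB2 : b₂ * r ≤ b₁ := card_inf_mul_le hlt.le hGfin hΦ _ hx₀G hx₀K hx₀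
        have hcyc : ∀ σ : GQ, ∀ n : ℕ, (∀ ζ : Qb, ζ ^ r = 1 → σ ζ = ζ ^ n) →
            ∀ x ∈ G, σ • x - n • x ∈ G'' := by
          rcases halt with halt | halt
          · by_cases hr2 : r = 2
            · subst hr2
              intro σ n hn x hx
              have hodd : ((n : ℕ) : ZMod 2) = 1 := by
                have e1 := hn (-1) (by norm_num)
                rw [map_neg, map_one] at e1
                rcases Nat.even_or_odd n with he | ho
                · rw [he.neg_one_pow] at e1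
                  exfalso
                  have : (2 : Qb) = 0 := by linear_combination (-1 : Qb) * e1
                  exact two_ne_zero this
                · obtain ⟨m, rfl⟩ := ho
                  push_cast
                  have : (2 : ZMod 2) = 0 := rfl
                  rw [this, zero_mul, zero_add]
              rw [← hΦ.eq_iff (hG σ _ hx) (G.nsmul_mem hx n), hΦ.nsmul hx, hodd, one_mul,
                hΦ.eq_iff (hG σ _ hx) hx]
              exact halt σ x hx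
            · exfalso
              -- inertia at `r` acts by the cyclotomic character
              obtain ⟨σ, hσ, hσ2⟩ := H33.exists_inertia_cyclo hAr 2
                (fun h => hr2 ((Nat.prime_dvd_prime_iff_eq hr Nat.prime_two).1 h))
              have : NeZero (r ^ k) := ⟨hrk⟩
              obtain ⟨Zk, hZk⟩ := HasEnoughRootsOfUnity.exists_primitiveRoot Qb (r ^ k)
              obtain ⟨n, -, hn⟩ := hZk.eq_pow_of_pow_eq_one (ξ := σ Zk) (by
                rw [← map_pow, hZk.pow_eq_one, map_one])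
              have hact : ∀ ζ : Qb, ζ ^ (r ^ k) = 1 → σ ζ = ζ ^ n := by
                intro ζ hζ
                obtain ⟨i, -, rfl⟩ := hZk.eq_pow_of_pow_eq_one hζ
                rw [map_pow, ← hn, ← pow_mul, ← pow_mul, mul_comm]
              have hx₀n := hK.mult Ar hAr k σ hσ n hact x₀ ⟨hGW hx₀G, hx₀K⟩
              -- `k ≥ 1`
              have hk : k ≠ 0 := by
                rintro rfl
                have := (hGW hx₀G).1
                rw [pow_zero, one_smul] at this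
                exact hx₀ (by rw [this]; exact G''.zero_mem)
              have hZn : Z ^ n = Z ^ 2 := by
                rw [← hσ2 Z hZ.pow_eq_one, ← hact Z (by
                  obtain ⟨j, rfl⟩ := Nat.exists_eq_succ_of_ne_zero hk
                  rw [pow_succ', pow_mul, hZ.pow_eq_one, one_pow])]
              have hn2 : ((n : ℕ) : ZMod r) = 2 := by
                have : Fact (1 < r) := ⟨hr.one_lt⟩
                have e1 := pw_natCast_mul hZ n 1
                have e2 := pw_natCast_mul hZ 2 1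
                rw [ZMod.val_one, pow_one] at e1 e2
                rw [hZn, ← e2] at e1
                have e3 := pw_injective hZ e1
                rw [mul_one, mul_one] at e3
                rw [e3]
                norm_num
              apply hx₀
              have e1 := halt σ x₀ hx₀G
              rw [hx₀n, ← hΦ.eq_iff (G.nsmul_mem hx₀G n) hx₀G, hΦ.nsmul hx₀G, hn2] at e1
              rw [← hΦ.ker _ hx₀G]
              linear_combination e1
          · exact halt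
        -- the image
        have hinj : Function.Injective (fun c : GQ → ZMod r => fun σ => Z ^ (c σ).val) :=
          fun c c' h => funext fun σ => pw_injective hZ (congrFun h σ)
        have hmem := fun x hx => step_mu hN hN5 hrN h3 hZ hΦ hG hGW hcyc hK.unit_r hAr hAN hin
          (ξ := x) hx
        by_cases hA0 : ∀ x ∈ G, x ∈ fixI AN J → x ∈ G''
        · have hKf' : (KumSet' r).Finite := hKf.subset (by
            rintro ξ ⟨β, b, hb, hq, hξ⟩
            exact ⟨β, b, hb, fun q hq' _ => hq q hq', hξ⟩)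
          obtain ⟨f1, f2⟩ := card_le_of_map (fun ξ : GQ → J => fun σ => Φ (ξ σ)) hsub hker ihf
            (R := (fun c : GQ → ZMod r => fun σ => Z ^ (c σ).val) ⁻¹' (KumSet' r))
            (hKf'.preimage hinj.injOn) (fun x hx => (hmem x hx).2 hA0)
          refine ⟨f1, f2.trans ?_⟩
          have f3 : ((fun c : GQ → ZMod r => fun σ => Z ^ (c σ).val) ⁻¹' (KumSet' r)).ncard ≤ r :=
            (Set.ncard_le_ncard_of_injOn (fun c : GQ → ZMod r => fun σ => Z ^ (c σ).val)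
              (fun c hc => hc) hinj.injOn hKf').trans hKc'
          calc Nat.card (ZS N r k G'') * _ ≤ (a₂ * b₂) * r := Nat.mul_le_mul ihc f3
            _ = a₂ * (b₂ * r) := by ring
            _ ≤ a₁ * b₁ := Nat.mul_le_mul hA1 hB2
        · obtain ⟨f1, f2⟩ := card_le_of_map (fun ξ : GQ → J => fun σ => Φ (ξ σ)) hsub hker ihf
            (R := (fun c : GQ → ZMod r => fun σ => Z ^ (c σ).val) ⁻¹' (KumSet N r))
            (Set.Finite.preimage hinj.injOn hKf) (fun x hx => (hmem x hx).1)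
          refine ⟨f1, f2.trans ?_⟩
          have f3 : ((fun c : GQ → ZMod r => fun σ => Z ^ (c σ).val) ⁻¹' (KumSet N r)).ncard ≤
              r ^ 2 :=
            (Set.ncard_le_ncard_of_injOn (fun c : GQ → ZMod r => fun σ => Z ^ (c σ).val)
              (fun c hc => hc) hinj.injOn hKf).trans hKc
          calc Nat.card (ZS N r k G'') * _ ≤ (a₂ * b₂) * r ^ 2 := Nat.mul_le_mul ihc f3
            _ = (a₂ * r) * (b₂ * r) := by ring
            _ ≤ a₁ * b₁ := Nat.mul_le_mul (hA2 hA0) hB2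
  -- conclusion
  have hWst : ∀ σ : GQ, ∀ x ∈ WSub N r J k, σ • x ∈ WSub N r J k := by
    rintro σ x ⟨hx, n, hn⟩
    exact ⟨by rw [smul_comm, hx, smul_zero], n, fun t ht => by
      rw [← smul_comm σ t x, hn t ht, smul_zero]⟩
  obtain ⟨f1, f2⟩ := main _ (WSub N r J k) rfl le_rfl hWst
  refine ⟨f1, ?_⟩
  have e1 : (ZStar N r J k (WSub N r J k)).ncard = Nat.card (ZS N r k (WSub N r J k)) := rfl
  have e2 : Nat.card {x : WSub N r J k // ∀ σ ∈ AN.inertiaSubgroupIn ℚ, σ • (x : J) = x} =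
      Nat.card (WSub N r J k ⊓ fixI AN J : AddSubgroup J) :=
    Nat.card_congr
      { toFun := fun x => ⟨x.1.1, x.1.2, x.2⟩
        invFun := fun x => ⟨⟨x.1, x.2.1⟩, x.2.2⟩
        left_inv := fun x => rfl
        right_inv := fun x => rfl }
  rw [e1, e2]
  exact f2

end main

end Fermat.Agent.H75
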