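import Mathlib
import Fermat.Agent.H85Fit
import Fermat.Agent.H86DensityFinal
import Fermat.Agent.H86DensityRep
import Fermat.Agent.H48Det

/-!
MZ-A1: Jordan–Hölder constituents of the Eisenstein part of the torsion of `J₀(N)`.
-/

set_option autoImplicit false

namespace Fermat.Agent.H85

open ModularCurve Fermat.Agent.H15

section simple

variable {Γ : Type*} [Group Γ] {S : Type*} [AddCommGroup S]

lemma exists_addOrder (r : ℕ) [Fact r.Prime] (hr : ∀ s : S, r • s = 0) {s : S} (hs : s ≠ 0) :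
    addOrderOf s = r := addOrderOf_eq_prime (hr s) hs

lemma smul_eq_of_modEq (r : ℕ) (hr : ∀ s : S, r • s = 0) {m n : ℕ}
    (h : ((m : ℕ) : ZMod r) = n) (s : S) : m • s = n • s := by
  have h1 := (ZMod.natCast_eq_natCast_iff _ _ _).mp h
  have h2 : addOrderOf s ∣ r := addOrderOf_dvd_of_nsmul_eq_zero (hr s)
  have h3 : m ≡ n [MOD addOrderOf s] := Nat.ModEq.of_dvd h2 h1
  exact nsmul_eq_nsmul_iff_modEq.mpr h3

/-- classification of simple constituents -/
theorem simple_const [Finite S] [Nontrivial S] (a : Γ →* AddMonoid.End S)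
    (r : ℕ) [hp : Fact r.Prime] (hr : ∀ s : S, r • s = 0)
    (hsimple : ∀ H : AddSubgroup S, (∀ σ : Γ, ∀ s ∈ H, a σ s ∈ H) → H = ⊥ ∨ H = ⊤)
    (c : Γ →* (ZMod r)ˣ)
    (hq : ∀ σ : Γ, ∀ s : S, a σ (a σ s - (c σ : ZMod r).val • s) =
      a σ s - (c σ : ZMod r).val • s) :
    Nat.card S = r ∧ ((∀ (σ : Γ) (s : S), a σ s = s) ∨
      ∀ (σ : Γ) (s : S), a σ s = (c σ : ZMod r).val • s) := by
  classical
  have hr1 : 1 < r := hp.out.one_lt
  have : NeZero r := ⟨hp.out.ne_zero⟩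
  have hone : ∀ σ : Γ, c σ = 1 → (c σ : ZMod r).val = 1 := by
    intro σ hσ
    rw [hσ, Units.val_one, ZMod.val_one'' hr1.ne']
  -- the kernel acts trivially
  have hker : ∀ σ : Γ, c σ = 1 → ∀ s : S, a σ s = s := by
    let act : MulAction c.ker S :=
      { smul := fun σ s => a σ.1 s
        one_smul := fun s => by show a 1 s = s; rw [map_one]; rfl
        mul_smul := fun σ τ s => by
          show a (σ.1 * τ.1) s = a σ.1 (a τ.1 s); rw [map_mul]; rfl }
    have hpow : ∀ (σ : c.ker) (s : S) (j : ℕ), a (σ.1 ^ j) s = s + j • (a σ.1 s - s) := by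
      intro σ s j
      have h1 : a σ.1 (a σ.1 s - s) = a σ.1 s - s := by
        have := hq σ.1 s
        rwa [hone σ.1 σ.2, one_smul] at this
      induction j with
      | zero => rw [pow_zero, map_one, zero_smul, add_zero]; rfl
      | succ j ih =>
        have h2 : a (σ.1 ^ (j + 1)) s = a σ.1 (a (σ.1 ^ j) s) := by
          rw [pow_succ', map_mul]; rfl
        rw [h2, ih, map_add, map_nsmul, h1, succ_nsmul]
        abel
    let G0 : Subgroup (Equiv.Perm S) := (MulAction.toPermHom c.ker S).range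
    have hG0 : IsPGroup r G0 := by
      rintro ⟨_, ⟨σ, rfl⟩⟩
      refine ⟨1, ?_⟩
      apply Subtype.ext
      ext s
      show ((MulAction.toPermHom c.ker S σ) ^ r ^ 1) s = s
      rw [pow_one, ← map_pow]
      show a ((σ ^ r : c.ker) : Γ) s = s
      rw [SubmonoidClass.coe_pow, hpow, hr, add_zero]
    obtain ⟨s0, hs0⟩ := exists_ne (0 : S)
    have hcard : r ∣ Nat.card S := by
      rw [← exists_addOrder r hr hs0]
      exact addOrderOf_dvd_natCard s0
    have h0 : (0 : S) ∈ MulAction.fixedPoints G0 S := by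
      rintro ⟨_, ⟨σ, rfl⟩⟩
      show a σ.1 0 = 0
      rw [map_zero]
    obtain ⟨b, hb, hb0⟩ := hG0.exists_fixed_point_of_prime_dvd_card_of_fixed_point S hcard h0
    have hbfix : ∀ σ : Γ, c σ = 1 → a σ b = b := fun σ hσ =>
      hb ⟨_, ⟨⟨σ, hσ⟩, rfl⟩⟩
    let F : AddSubgroup S :=
      { carrier := {s | ∀ σ : Γ, c σ = 1 → a σ s = s}
        zero_mem' := fun σ _ => map_zero _
        add_mem' := fun {x y} hx hy σ hσ => by rw [map_add, hx σ hσ, hy σ hσ]
        neg_mem' := fun {x} hx σ hσ => by rw [map_neg, hx σ hσ] }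
    rcases hsimple F (by
      intro τ s hs σ hσ
      have h1 : c (τ⁻¹ * σ * τ) = 1 := by
        rw [map_mul, map_mul, hσ, mul_one, map_inv, inv_mul_cancel]
      have h2 : σ * τ = τ * (τ⁻¹ * σ * τ) := by group
      have h3 : a σ (a τ s) = a (σ * τ) s := by rw [map_mul]; rfl
      have h4 : a (τ * (τ⁻¹ * σ * τ)) s = a τ (a (τ⁻¹ * σ * τ) s) := by
        rw [map_mul]; rfl
      rw [h3, h2, h4, hs _ h1]) with h | h
    · exfalso
      have : b ∈ F := hbfix
      rw [h, AddSubgroup.mem_bot] at this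
      exact hb0 this.symm
    · intro σ hσ s
      have : s ∈ F := h ▸ AddSubgroup.mem_top s
      exact this σ hσ
  -- a generator of the image of `c`
  obtain ⟨⟨_, ⟨g, rfl⟩⟩, hg⟩ := IsCyclic.exists_generator (α := c.range)
  have hgen : ∀ σ : Γ, ∃ j : ℕ, c σ = c g ^ j ∧ ∀ s : S, a σ s = a (g ^ j) s := by
    intro σ
    obtain ⟨j, hj⟩ := mem_powers_iff_mem_zpowers.mpr (hg ⟨c σ, ⟨σ, rfl⟩⟩)
    have hj' : c g ^ j = c σ := congrArg Subtype.val hj
    refine ⟨j, hj'.symm, fun s => ?_⟩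
    have h1 : c ((g ^ j)⁻¹ * σ) = 1 := by
      rw [map_mul, map_inv, map_pow, hj', inv_mul_cancel]
    have h2 : a σ s = a (g ^ j * ((g ^ j)⁻¹ * σ)) s := by rw [mul_inv_cancel_left]
    rw [h2, map_mul]
    show a (g ^ j) (a ((g ^ j)⁻¹ * σ) s) = _
    rw [hker _ h1]
  obtain ⟨x, hx⟩ := exists_ne (0 : S)
  -- a line
  have hline : ∀ z : S, z ≠ 0 → ∀ m : ℕ, a g z = m • z →
      Nat.card S = r ∧ ∀ (σ : Γ) (j : ℕ), (∀ s : S, a σ s = a (g ^ j) s) →
        ∀ s : S, a σ s = m ^ j • s := by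
    intro z hz m hm
    have hgj : ∀ j : ℕ, a (g ^ j) z = m ^ j • z := by
      intro j
      induction j with
      | zero => rw [pow_zero, map_one, pow_zero, one_smul]; rfl
      | succ j ih =>
        have h2 : a (g ^ (j + 1)) z = a g (a (g ^ j) z) := by
          rw [pow_succ', map_mul]; rfl
        rw [h2, ih, map_nsmul, hm, smul_smul, pow_succ]
    have htop : AddSubgroup.zmultiples z = ⊤ := by
      rcases hsimple (AddSubgroup.zmultiples z) (by
        intro σ s hs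
        obtain ⟨i, rfl⟩ := AddSubgroup.mem_zmultiples_iff.mp hs
        obtain ⟨j, -, hj⟩ := hgen σ
        rw [map_zsmul, hj, hgj]
        exact AddSubgroup.zsmul_mem _ (AddSubgroup.nsmul_mem _ (AddSubgroup.mem_zmultiples z) _) _)
        with h | h
      · exfalso
        have := AddSubgroup.mem_zmultiples z
        rw [h, AddSubgroup.mem_bot] at this
        exact hz this
      · exact h
    constructor
    · rw [← exists_addOrder r hr hz, ← Nat.card_zmultiples, htop]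
      exact (Nat.card_congr (AddSubgroup.topEquiv (G := S)).toEquiv).symm
    · intro σ j hj s
      have hs : s ∈ AddSubgroup.zmultiples z := htop ▸ AddSubgroup.mem_top s
      obtain ⟨i, rfl⟩ := AddSubgroup.mem_zmultiples_iff.mp hs
      rw [map_zsmul, hj, hgj, smul_comm]
  by_cases hy : a g x - (c g : ZMod r).val • x = 0
  · obtain ⟨h1, h2⟩ := hline x hx _ (sub_eq_zero.mp hy)
    refine ⟨h1, Or.inr fun σ s => ?_⟩
    obtain ⟨j, hj1, hj2⟩ := hgen σ
    rw [h2 σ j hj2 s, hj1]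
    apply smul_eq_of_modEq r hr
    rw [ZMod.natCast_val, ZMod.cast_id', id, Units.val_pow_eq_pow_val, Nat.cast_pow,
      ZMod.natCast_val, ZMod.cast_id', id]
  · obtain ⟨h1, h2⟩ := hline _ hy 1 (by rw [one_smul]; exact hq g x)
    refine ⟨h1, Or.inl fun σ s => ?_⟩
    obtain ⟨j, -, hj2⟩ := hgen σ
    rw [h2 σ j hj2 s, one_pow, one_smul]

end simple

section galois

local notation "Qb" => AlgebraicClosure ℚ
local notation "GQ" => (AlgebraicClosure ℚ ≃ₐ[ℚ] AlgebraicClosure ℚ)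

lemma cyc_eq_of {r : ℕ} [NeZero r] {σ : GQ} {n : ℕ} (h : ∀ ζ : Qb, ζ ^ r = 1 → σ ζ = ζ ^ n) :
    ((H48.cyc r σ : (ZMod r)ˣ) : ZMod r) = n := by
  show ((modularCyclotomicCharacter Qb (H48.natCard_rootsOfUnity_Qb r) (σ : Qb ≃+* Qb) :
    (ZMod r)ˣ) : ZMod r) = n
  symm
  refine modularCyclotomicCharacter.unique Qb (H48.natCard_rootsOfUnity_Qb r) _ fun t ht => ?_
  have ht' : (t : Qb) ^ r = 1 := by
    have := (mem_rootsOfUnity r t).mp ht
    rw [← Units.val_pow_eq_pow_val, this, Units.val_one]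
  change σ (t : Qb) = _
  rw [h _ ht', ZMod.val_natCast, ← pow_eq_pow_mod n ht']

variable {N r : ℕ} {J : Type} [AddCommGroup J] [Module HeckeAlg J] [DistribMulAction GQ J]
  {K : ValuationSubring Qb → AddSubgroup J}

/-- Eichler–Shimura relation on the `r`-power torsion -/
lemma frob_rel (hB : BasicInputs N J K) (hr : r.Prime) {q : ℕ} (hq : q.Prime) (hqN : ¬ q ∣ N)
    (hqr : q ≠ r) {A : ValuationSubring Qb} (hA : A.LiesOverPrime q) {φ : GQ}
    (hφ : A.IsFrobeniusAt φ q) (k : ℕ) {x : J} (hx : (r ^ k : ℕ) • x = 0) :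
    φ • φ • x - heckeGen ⟨q, hq⟩ • φ • x + q • x = 0 := by
  apply hB.torsion_inj q hq hqN A hA (r ^ k) _ _ (hB.frob q hq hqN A hA φ hφ x)
  · rw [smul_add, smul_sub, smul_comm _ φ, smul_comm _ φ, hx, smul_zero, smul_zero,
      smul_comm _ (heckeGen ⟨q, hq⟩), smul_comm _ φ, hx, smul_zero, smul_zero, smul_comm _ q, hx,
      smul_zero, sub_zero, add_zero]
  · intro h
    exact hqr ((Nat.prime_dvd_prime_iff_eq hq hr).mp (hq.dvd_of_dvd_pow h))

lemma finite_WSub (hB : BasicInputs N J K) (hr : r.Prime) (k : ℕ) :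
    (WSub N r J k : Set J).Finite :=
  (hB.torsion_finite (r ^ k) (pow_ne_zero k hr.ne_zero)).subset fun _ hx => hx.1

/-- a finite subset of `J` is fixed pointwise by an open subgroup -/
lemma exists_level (hB : BasicInputs N J K) (s : Set J) (hs : s.Finite) :
    ∃ L : IntermediateField ℚ Qb, FiniteDimensional ℚ L ∧
      ∀ σ : GQ, (∀ x ∈ L, σ x = x) → ∀ y ∈ s, σ • y = y := by
  have hopen : {σ : GQ | ∀ y ∈ s, σ • y = y} ∈ nhds (1 : GQ) := by
    have h1 : {σ : GQ | ∀ y ∈ s, σ • y = y} = ⋂ y ∈ s, {σ : GQ | σ • y = y} := by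
      ext σ; simp
    rw [h1]
    apply IsOpen.mem_nhds
    · exact hs.isOpen_biInter fun y _ => hB.smooth y
    · simp
  rw [krullTopology_mem_nhds_one_iff] at hopen
  obtain ⟨L, hL, hLs⟩ := hopen
  exact ⟨L, hL, fun σ hσ => hLs ((IntermediateField.mem_fixingSubgroup_iff L σ).mpr hσ)⟩

lemma end_pow {R : Type*} [Ring R] (a : R) (q : ℕ) (h : (a - 1) * (a - (q : R)) = 0) (j : ℕ) :
    (a ^ j - 1) * (a ^ j - (q : R) ^ j) = 0 := by
  obtain ⟨u, hu⟩ : ∃ u, a ^ j - 1 = u * (a - 1) :=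
    ⟨∑ i ∈ Finset.range j, a ^ i * 1 ^ (j - 1 - i), by
      rw [(Commute.one_right a).geom_sum₂_mul, one_pow]⟩
  obtain ⟨v, hv⟩ : ∃ v, a ^ j - (q : R) ^ j = (a - q) * v :=
    ⟨∑ i ∈ Finset.range j, a ^ i * (q : R) ^ (j - 1 - i), by
      rw [((Nat.cast_commute q a).symm).mul_geom_sum₂]⟩
  rw [hu, hv, mul_assoc, ← mul_assoc (a - 1), h, zero_mul, mul_zero]

lemma natCast_pow_apply {S : Type*} [AddCommGroup S] (q j : ℕ) (s : S) :
    ((q : AddMonoid.End S) ^ j) s = (q ^ j) • s := by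
  rw [← Nat.cast_pow]
  rfl

/-- the action on a subquotient -/
noncomputable def subquotHom (G' G'' : AddSubgroup J) (h' : ∀ σ : GQ, ∀ x ∈ G', σ • x ∈ G')
    (h'' : ∀ σ : GQ, ∀ x ∈ G'', σ • x ∈ G'') :
    GQ →* AddMonoid.End (G' ⧸ G''.addSubgroupOf G') where
  toFun σ := QuotientAddGroup.map _ _
    ({ toFun := fun x => ⟨σ • x.1, h' σ x.1 x.2⟩
       map_zero' := Subtype.ext (smul_zero σ)
       map_add' := fun x y => Subtype.ext (smul_add σ x.1 y.1) } : G' →+ G')
    (fun x hx => h'' σ x.1 hx)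
  map_one' := by
    refine AddMonoidHom.ext fun x => ?_
    obtain ⟨x, rfl⟩ := QuotientAddGroup.mk_surjective x
    exact congrArg _ (Subtype.ext (one_smul GQ x.1))
  map_mul' σ τ := by
    refine AddMonoidHom.ext fun x => ?_
    obtain ⟨x, rfl⟩ := QuotientAddGroup.mk_surjective x
    exact congrArg _ (Subtype.ext (mul_smul σ τ x.1))

omit [Module HeckeAlg J] in
lemma subquotHom_mk (G' G'' : AddSubgroup J) (h' : ∀ σ : GQ, ∀ x ∈ G', σ • x ∈ G')
    (h'' : ∀ σ : GQ, ∀ x ∈ G'', σ • x ∈ G'') (σ : GQ) (x : G') :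
    subquotHom G' G'' h' h'' σ (QuotientAddGroup.mk x) =
      QuotientAddGroup.mk ⟨σ • x.1, h' σ x.1 x.2⟩ := rfl

omit [Module HeckeAlg J] [DistribMulAction GQ J] in
lemma mk_eq_zero_iff (G' G'' : AddSubgroup J) (x : G') :
    (QuotientAddGroup.mk x : G' ⧸ G''.addSubgroupOf G') = 0 ↔ x.1 ∈ G'' := by
  rw [QuotientAddGroup.eq_zero_iff, AddSubgroup.mem_addSubgroupOf]

/-- **MZ-A1**: the simple constituents of `W_k` have order `r`, with trivial or cyclotomic
action. -/
theorem constituents [SMulCommClass GQ HeckeAlg J] (hB : BasicInputs N J K) (hN : N ≠ 0)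
    (hr : r.Prime) (k : ℕ) (G' G'' : AddSubgroup J) (hle : G'' ≤ G') (hne : G'' ≠ G')
    (hW : G' ≤ WSub N r J k) (h' : ∀ σ : GQ, ∀ x ∈ G', σ • x ∈ G')
    (h'' : ∀ σ : GQ, ∀ x ∈ G'', σ • x ∈ G'')
    (hsimple : ∀ H : AddSubgroup J, G'' ≤ H → H ≤ G' → (∀ σ : GQ, ∀ x ∈ H, σ • x ∈ H) →
      H = G'' ∨ H = G') :
    Nat.card (G' ⧸ G''.addSubgroupOf G') = r ∧
      ((∀ σ : GQ, ∀ x ∈ G', σ • x - x ∈ G'') ∨
        ∀ σ : GQ, ∀ x ∈ G', ∀ n : ℕ, (∀ ζ : Qb, ζ ^ r = 1 → σ ζ = ζ ^ n) → σ • x - n • x ∈ G'') := by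
  classical
  have hfr : Fact r.Prime := ⟨hr⟩
  have hnr : NeZero r := ⟨hr.ne_zero⟩
  have hWfin := finite_WSub hB hr k
  have hG'fin : (G' : Set J).Finite := hWfin.subset hW
  have hG'f : Finite G' := hG'fin
  let S := G' ⧸ G''.addSubgroupOf G'
  have hSfin : Finite S := Quotient.finite _
  let a : GQ →* AddMonoid.End S := subquotHom G' G'' h' h''
  -- the filtration by powers of the Eisenstein ideal
  let A : ℕ → AddSubgroup J := fun i =>
    { carrier := {x | ∀ t ∈ (eisP N r) ^ i, t • x = 0}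
      zero_mem' := fun t _ => smul_zero t
      add_mem' := fun {x y} hx hy t ht => by rw [smul_add, hx t ht, hy t ht, add_zero]
      neg_mem' := fun {x} hx t ht => by rw [smul_neg, hx t ht, neg_zero] }
  have hAst : ∀ i (σ : GQ), ∀ x ∈ A i, σ • x ∈ A i := by
    intro i σ x hx t ht
    rw [← smul_comm σ t x, hx t ht, smul_zero]
  let H : ℕ → AddSubgroup J := fun i => G'' ⊔ (G' ⊓ A i)
  have hH : ∀ i, H i = G'' ∨ H i = G' := by
    intro i
    apply hsimple
    · exact le_sup_left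
    · exact sup_le hle inf_le_left
    · intro σ x hx
      obtain ⟨y, hy, z, hz, rfl⟩ := AddSubgroup.mem_sup.mp hx
      rw [smul_add]
      exact AddSubgroup.mem_sup.mpr ⟨_, h'' σ y hy, _, ⟨h' σ z hz.1, hAst i σ z hz.2⟩, rfl⟩
  have hH0 : H 0 = G'' := by
    apply le_antisymm _ le_sup_left
    refine sup_le le_rfl ?_
    rintro x ⟨-, hx⟩
    have : x = 0 := by
      have h1 := hx 1 (by simp)
      rwa [one_smul] at h1
    rw [this]
    exact G''.zero_mem
  have hHn : ∃ n, H n = G' := by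
    have h1 : ∀ x : G', ∃ m : ℕ, x.1 ∈ A m := fun x => (hW x.2).2
    choose m hm using h1
    have := Fintype.ofFinite G'
    refine ⟨Finset.univ.sup m, le_antisymm (sup_le hle inf_le_left) fun x hx => ?_⟩
    refine AddSubgroup.mem_sup_right ⟨hx, fun t ht => hm ⟨x, hx⟩ t ?_⟩
    exact Ideal.pow_le_pow_right (Finset.le_sup (f := m) (Finset.mem_univ ⟨x, hx⟩)) ht
  obtain ⟨i, hi1, hi2⟩ : ∃ i, H i = G'' ∧ H (i + 1) = G' := by
    by_contra hcon
    push Not at hcon
    have : ∀ n, H n = G'' := by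
      intro n
      induction n with
      | zero => exact hH0
      | succ n ih => exact (hH (n + 1)).resolve_right (hcon n ih)
    obtain ⟨n, hn⟩ := hHn
    exact hne ((this n).symm.trans hn)
  -- `r G' ≤ G''`
  have hrG : ∀ x ∈ G', r • x ∈ G'' := by
    let R : AddSubgroup J := G'' ⊔ (G'.map (nsmulAddMonoidHom r))
    have hR : R = G'' ∨ R = G' := by
      apply hsimple
      · exact le_sup_left
      · refine sup_le hle ?_
        rintro _ ⟨x, hx, rfl⟩
        exact G'.nsmul_mem hx r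
      · intro σ x hx
        obtain ⟨y, hy, _, ⟨z, hz, rfl⟩, rfl⟩ := AddSubgroup.mem_sup.mp hx
        rw [smul_add]
        refine AddSubgroup.mem_sup.mpr ⟨_, h'' σ y hy, _, ⟨σ • z, h' σ z hz, rfl⟩, ?_⟩
        congr 1
        exact smul_comm r σ z
    rcases hR with hR | hR
    · intro x hx
      rw [← hR]
      exact AddSubgroup.mem_sup_right ⟨x, hx, rfl⟩
    · exfalso
      apply hne
      apply le_antisymm hle
      -- `G' = G'' + r^m G'` for all `m`
      have key : ∀ m : ℕ, ∀ x ∈ G', ∃ y ∈ G'', ∃ z ∈ G', x = y + (r ^ m : ℕ) • z := by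
        intro m
        induction m with
        | zero => exact fun x hx => ⟨0, G''.zero_mem, x, hx, by simp⟩
        | succ m ih =>
          intro x hx
          obtain ⟨y, hy, z, hz, rfl⟩ := ih x hx
          rw [← hR] at hz
          obtain ⟨y', hy', _, ⟨z', hz', rfl⟩, rfl⟩ := AddSubgroup.mem_sup.mp hz
          refine ⟨y + (r ^ m : ℕ) • y', G''.add_mem hy (G''.nsmul_mem hy' _), z', hz', ?_⟩
          rw [smul_add, add_assoc, pow_succ, mul_smul]
          rfl
      intro x hx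
      obtain ⟨y, hy, z, hz, rfl⟩ := key k x hx
      rw [(hW hz).1, add_zero]
      exact hy
  have hrS : ∀ s : S, r • s = 0 := by
    intro s
    obtain ⟨x, rfl⟩ := QuotientAddGroup.mk_surjective s
    exact (mk_eq_zero_iff G' G'' (r • x)).mpr (hrG x.1 x.2)
  -- Frobenius elements
  have hfrob : ∀ q : ℕ, ∀ hq : q.Prime, ¬ q ∣ N → q ≠ r → ∀ P : ValuationSubring Qb,
      P.LiesOverPrime q → ∀ φ : GQ, P.IsFrobeniusAt φ q →
      (a φ - 1) * (a φ - (q : AddMonoid.End S)) = 0 := by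
    intro q hq hqN hqr P hP φ hφ
    refine AddMonoidHom.ext fun s => ?_
    obtain ⟨x, rfl⟩ := QuotientAddGroup.mk_surjective s
    have hx : (x : J) ∈ H (i + 1) := by rw [hi2]; exact x.2
    obtain ⟨y, hy, z, ⟨hz1, hz2⟩, hyz⟩ := AddSubgroup.mem_sup.mp hx
    -- the element
    have h1 : φ • φ • z - (1 + q) • φ • z + q • z ∈ G'' := by
      rw [← hi1]
      apply AddSubgroup.mem_sup_right
      refine ⟨?_, ?_⟩
      · exact G'.add_mem (G'.sub_mem (h' φ _ (h' φ z hz1)) (G'.nsmul_mem (h' φ z hz1) _))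
          (G'.nsmul_mem hz1 _)
      · have h2 := frob_rel hB hr hq hqN hqr hP hφ k (hW hz1).1
        have h3 : φ • φ • z - (1 + q) • φ • z + q • z =
            (heckeGen ⟨q, hq⟩ - MvPolynomial.C (1 + (q : ℤ))) • φ • z := by
          have h4 : (MvPolynomial.C (1 + (q : ℤ)) : HeckeAlg) = ((1 + q : ℕ) : HeckeAlg) := by
            rw [map_add, map_one, Nat.cast_add, Nat.cast_one]
            congr 1
          rw [sub_smul, h4, Nat.cast_smul_eq_nsmul]
          rw [← sub_eq_zero]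
          rw [← h2]
          abel
        rw [h3]
        intro t ht
        rw [smul_smul]
        apply hAst (i + 1) φ z hz2
        rw [pow_succ]
        apply Ideal.mul_mem_mul ht
        exact Ideal.subset_span (Or.inr ⟨⟨q, hq⟩, by
          intro h; exact hqN (h ▸ dvd_refl _), rfl⟩)
    have h2 : φ • φ • y - (1 + q) • φ • y + q • y ∈ G'' :=
      G''.add_mem (G''.sub_mem (h'' φ _ (h'' φ y hy)) (G''.nsmul_mem (h'' φ y hy) _))
        (G''.nsmul_mem hy _)
    have h3 : φ • φ • x.1 - (1 + q) • φ • x.1 + q • x.1 ∈ G'' := by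
      have h4 := G''.add_mem h2 h1
      have h5 : φ • φ • x.1 - (1 + q) • φ • x.1 + q • x.1 =
          φ • φ • y - (1 + q) • φ • y + q • y + (φ • φ • z - (1 + q) • φ • z + q • z) := by
        rw [← hyz]
        simp only [smul_add]
        abel
      rw [h5]; exact h4
    show a φ (a φ (QuotientAddGroup.mk x) - q • QuotientAddGroup.mk x) -
      (a φ (QuotientAddGroup.mk x) - q • QuotientAddGroup.mk x) = 0
    have h6 : a φ (a φ (QuotientAddGroup.mk x) - q • QuotientAddGroup.mk x) -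
        (a φ (QuotientAddGroup.mk x) - q • QuotientAddGroup.mk x) =
        (QuotientAddGroup.mk (⟨φ • φ • x.1 - (1 + q) • φ • x.1 + q • x.1,
          G'.add_mem (G'.sub_mem (h' φ _ (h' φ _ x.2)) (G'.nsmul_mem (h' φ _ x.2) _))
          (G'.nsmul_mem x.2 _)⟩ : G') : S) := by
      have h7 : (⟨φ • φ • x.1 - (1 + q) • φ • x.1 + q • x.1,
          G'.add_mem (G'.sub_mem (h' φ _ (h' φ _ x.2)) (G'.nsmul_mem (h' φ _ x.2) _))
          (G'.nsmul_mem x.2 _)⟩ : G') =
          (⟨φ • φ • x.1, h' φ _ (h' φ _ x.2)⟩ : G') - q • (⟨φ • x.1, h' φ _ x.2⟩ : G') -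
            ((⟨φ • x.1, h' φ _ x.2⟩ : G') - q • x) := by
        apply Subtype.ext
        simp only [AddSubgroup.coe_sub, AddSubgroup.coe_nsmul, add_smul, one_smul]
        abel
      rw [h7, map_sub, map_nsmul]
      rfl
    rw [h6, mk_eq_zero_iff]
    exact h3
  -- finite level
  have hlevel : GaloisFactorsThroughFiniteLevel (a.prod (H48.cyc r)) := by
    obtain ⟨L₁, hL₁, h1⟩ := exists_level hB (G' : Set J) hG'fin
    obtain ⟨L₂, hL₂, h2⟩ := H48.cyc_finite r
    refine ⟨L₁ ⊔ L₂, IntermediateField.finiteDimensional_sup L₁ L₂, fun σ hσ => ?_⟩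
    refine Prod.ext ?_ (h2 σ fun x hx => hσ x ((le_sup_right : L₂ ≤ L₁ ⊔ L₂) hx))
    refine AddMonoidHom.ext fun s => ?_
    obtain ⟨x, rfl⟩ := QuotientAddGroup.mk_surjective s
    have h3 := h1 σ (fun y hy => hσ y ((le_sup_left : L₁ ≤ L₁ ⊔ L₂) hy)) x.1 x.2
    show (QuotientAddGroup.mk (⟨σ • x.1, h' σ x.1 x.2⟩ : G') : S) = QuotientAddGroup.mk x
    congr 1
    exact Subtype.ext h3
  -- all elements
  have hall : ∀ σ : GQ, ∀ s : S, a σ (a σ s - (H48.cyc r σ : ZMod r).val • s) =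
      a σ s - (H48.cyc r σ : ZMod r).val • s := by
    intro σ s
    obtain ⟨q, hq, hqS, P, hP, φ, hφ, j, -, hj, -⟩ :=
      H86.density_hom H86.frobDensityFinite hlevel σ (insert r N.primeFactors)
    rw [Finset.mem_insert, not_or] at hqS
    have hqN : ¬ q ∣ N := fun h => hqS.2 (Nat.mem_primeFactors.mpr ⟨hq, h, hN⟩)
    have h1 := hfrob q hq hqN hqS.1 P hP φ hφ
    have h2 : a σ = a φ ^ j := congrArg Prod.fst hj
    have h3 : H48.cyc r σ = H48.cyc r φ ^ j := congrArg Prod.snd hj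
    have hqr' : ¬ q ∣ r := fun h => hqS.1 ((Nat.prime_dvd_prime_iff_eq hq hr).mp h)
    have h4 : ((H48.cyc r φ : (ZMod r)ˣ) : ZMod r) = q := H48.cyc_frob hq hqr' hP hφ
    have h5 : (H48.cyc r σ : ZMod r).val • s = (q ^ j) • s := by
      apply smul_eq_of_modEq r hrS
      rw [ZMod.natCast_val, ZMod.cast_id', id, h3, Units.val_pow_eq_pow_val, h4, Nat.cast_pow]
    rw [h5]
    have h6 := end_pow (a φ) q h1 j
    have h7 := DFunLike.congr_fun h6 s
    rw [h2]
    have h8 : ((q : AddMonoid.End S) ^ j) s = (q ^ j) • s := natCast_pow_apply q j s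
    have h9 : (a φ ^ j) ((a φ ^ j) s - (q ^ j) • s) - ((a φ ^ j) s - (q ^ j) • s) = 0 := by
      rw [← h8]; exact h7
    exact sub_eq_zero.mp h9
  -- simplicity of `S`
  have hnt : Nontrivial S := by
    obtain ⟨x, hx, hx'⟩ := SetLike.exists_of_lt (lt_of_le_of_ne hle hne)
    refine ⟨QuotientAddGroup.mk (⟨x, hx⟩ : G'), 0, fun h => hx' ?_⟩
    exact (mk_eq_zero_iff G' G'' ⟨x, hx⟩).mp h
  have hSsimple : ∀ T : AddSubgroup S, (∀ σ : GQ, ∀ s ∈ T, a σ s ∈ T) → T = ⊥ ∨ T = ⊤ := by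
    intro T hT
    let T' : AddSubgroup J := (T.comap (QuotientAddGroup.mk' (G''.addSubgroupOf G'))).map G'.subtype
    have hmem : ∀ x : G', x.1 ∈ T' ↔ (QuotientAddGroup.mk x : S) ∈ T := by
      intro x
      constructor
      · rintro ⟨y, hy, hyx⟩
        have : y = x := Subtype.ext hyx
        rw [← this]; exact hy
      · intro h; exact ⟨x, h, rfl⟩
    rcases hsimple T' (by
        intro x hx
        refine (hmem ⟨x, hle hx⟩).mpr ?_
        rw [(mk_eq_zero_iff G' G'' ⟨x, hle hx⟩).mpr hx]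
        exact T.zero_mem) (by
        rintro _ ⟨x, -, rfl⟩
        exact x.2) (by
        rintro σ _ ⟨x, hx, rfl⟩
        exact (hmem ⟨σ • x.1, h' σ x.1 x.2⟩).mpr (hT σ _ hx)) with h | h
    · left
      rw [eq_bot_iff]
      intro s hs
      obtain ⟨x, rfl⟩ := QuotientAddGroup.mk_surjective s
      have h1 := (hmem x).mpr hs
      rw [h] at h1
      exact (mk_eq_zero_iff G' G'' x).mpr h1
    · right
      rw [eq_top_iff]
      intro s _
      obtain ⟨x, rfl⟩ := QuotientAddGroup.mk_surjective s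
      have h1 : x.1 ∈ T' := h.ge x.2
      exact (hmem x).mp h1
  have hsc := simple_const a r hrS hSsimple (H48.cyc r) hall
  refine ⟨hsc.1, ?_⟩
  rcases hsc.2 with h | h
  · left
    intro σ x hx
    have h1 := h σ (QuotientAddGroup.mk (⟨x, hx⟩ : G'))
    have h2 : (QuotientAddGroup.mk (⟨σ • x, h' σ x hx⟩ - ⟨x, hx⟩ : G') : S) = 0 := by
      rw [QuotientAddGroup.mk_sub, sub_eq_zero]
      exact h1
    exact (mk_eq_zero_iff G' G'' _).mp h2
  · right
    intro σ x hx n hn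
    have h1 := h σ (QuotientAddGroup.mk (⟨x, hx⟩ : G'))
    have h3 : (H48.cyc r σ : ZMod r).val • (QuotientAddGroup.mk (⟨x, hx⟩ : G') : S) =
        n • (QuotientAddGroup.mk (⟨x, hx⟩ : G') : S) := by
      apply smul_eq_of_modEq r hrS
      rw [ZMod.natCast_val, ZMod.cast_id', id, cyc_eq_of hn]
    have h2 : (QuotientAddGroup.mk (⟨σ • x, h' σ x hx⟩ - n • ⟨x, hx⟩ : G') : S) = 0 := by
      rw [QuotientAddGroup.mk_sub, sub_eq_zero]
      exact h1.trans h3
    exact (mk_eq_zero_iff G' G'' _).mp h2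

end galois

end Fermat.Agent.H85
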