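import Mathlib
import Fermat.Agent.H85JH
import Fermat.Agent.H15Core

/-!
MZ-A1 in the form of `H15Core`.
-/

set_option autoImplicit false

namespace Fermat.Agent.H85

open ModularCurve Fermat.Agent.H15

/-- **(A1)** -/
theorem constituents_prop : Constituents := by
  intro N r hN h5 hr hrN J _ _ _ _ K hB k G' G'' hW hlt h' h'' hsimple
  obtain ⟨h1, h2⟩ := constituents hB hN.ne_zero hr k G' G'' hlt.le hlt.ne hW h' h'' hsimple
  refine ⟨?_, h2.imp id fun h σ n hn x hx => h σ x hx n hn⟩
  have h3 := (G''.addSubgroupOf G').card_eq_card_quotient_mul_card_addSubgroup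
  have h4 : Nat.card (G''.addSubgroupOf G') = Nat.card G'' :=
    Nat.card_congr (AddSubgroup.addSubgroupOfEquivOfLe hlt.le).toEquiv
  rw [h3, h1, h4]

end Fermat.Agent.H85
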