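import Fermat.Agent.H53Tame3

set_option autoImplicit false
set_option linter.style.haveILetI false
set_option linter.unusedSectionVars false

noncomputable section

open IsLocalRing Polynomial NumberField
open scoped Pointwise

namespace Fermat.Agent.H53

local notation "Qb" => AlgebraicClosure ℚ

section

variable {P : ValuationSubring (AlgebraicClosure ℚ)} {q : ℕ} (hq : q.Prime) (hP : P.LiesOverPrime q)
  {p : ℕ} [Fact p.Prime] (hpq : p ≠ q)

include hq hP hpq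

/-- inertia moves the `p`-th root of `q` -/
theorem exists_tame_generator :
    ∃ σ ∈ P.inertiaSubgroupIn ℚ, σ (piSys p q 1) ≠ piSys p q 1 := by
  classical
  have hp : p.Prime := Fact.out
  by_contra hcon
  push Not at hcon
  set f : ℚ[X] := X ^ p - C (q : ℚ) with hf
  have hf0 : f ≠ 0 := X_pow_sub_C_ne_zero hp.pos _
  let F : IntermediateField ℚ (AlgebraicClosure ℚ) :=
    IntermediateField.adjoin ℚ (f.rootSet (AlgebraicClosure ℚ))
  have hsplit : (f.map (algebraMap ℚ (AlgebraicClosure ℚ))).Splits := IsAlgClosed.splits _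
  haveI hsf : f.IsSplittingField ℚ F := IntermediateField.adjoin_rootSet_isSplittingField hsplit
  haveI hFfin : FiniteDimensional ℚ F := IsSplittingField.finiteDimensional F f
  haveI hFnorm : Normal ℚ F := Normal.of_isSplittingField f
  haveI hNF : NumberField F := { to_charZero := inferInstance, to_finiteDimensional := hFfin }
  haveI hgal : IsGalois ℚ F := ⟨⟩
  haveI : IsGalois F (AlgebraicClosure ℚ) := IsGalois.tower_top_of_isGalois ℚ F _
  have hπroot : piSys p q 1 ∈ f.rootSet (AlgebraicClosure ℚ) := by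
    rw [Polynomial.mem_rootSet]
    refine ⟨hf0, ?_⟩
    have h1 := piSys_pow' p q 1
    rw [pow_one] at h1
    simp [hf, h1]
  have hπF : piSys p q 1 ∈ F := IntermediateField.subset_adjoin _ _ hπroot
  have hπ0 : piSys p q 1 ≠ 0 := piSys_ne_zero p hq.ne_zero 1
  have hπp : (piSys p q 1) ^ p = (q : Qb) := by
    have h1 := piSys_pow' p q 1
    rwa [pow_one] at h1
  -- inertia acts trivially on `F`
  have hfixF : ∀ τ ∈ P.inertiaSubgroupIn ℚ, ∀ x ∈ F, τ x = x := by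
    intro τ hτ
    let E : IntermediateField ℚ (AlgebraicClosure ℚ) :=
      IntermediateField.fixedField (Subgroup.zpowers τ)
    have hE : ∀ x, x ∈ E ↔ τ x = x := by
      intro x
      rw [IntermediateField.mem_fixedField_iff]
      constructor
      · intro h
        exact h τ (Subgroup.mem_zpowers τ)
      · intro h σ hσ
        obtain ⟨n, rfl⟩ := Subgroup.mem_zpowers_iff.mp hσ
        have h1 : τ ∈ MulAction.stabilizer GQ x := h
        exact (Subgroup.zpow_mem _ h1 n : τ ^ n ∈ MulAction.stabilizer GQ x)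
    have hle : F ≤ E := by
      rw [IntermediateField.adjoin_le_iff]
      intro x hx
      rw [SetLike.mem_coe, hE]
      rw [Polynomial.mem_rootSet] at hx
      have hx2 : x ^ p = (q : Qb) := by
        have := hx.2
        simpa [hf, sub_eq_zero] using this
      have hx3 : (x / piSys p q 1) ^ p ^ 1 = 1 := by
        rw [pow_one, div_pow, hx2, hπp, div_self]
        exact_mod_cast hq.ne_zero
      have hx4 : τ (x / piSys p q 1) = x / piSys p q 1 :=
        inertia_root_of_unity hq hP hp hpq hτ 1 hx3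
      rw [map_div₀, hcon τ hτ, div_left_inj' hπ0] at hx4
      exact hx4
    intro x hx
    exact (hE x).mp (hle hx)
  -- hence the corresponding prime of `F` is unramified
  set 𝔭 : Ideal (𝓞 F) := (H63.center P).comap (algebraMap (𝓞 F) (𝓞 (AlgebraicClosure ℚ))) with h𝔭
  have hqp : (q : 𝓞 F) ∈ 𝔭 := by
    rw [h𝔭, Ideal.mem_comap, map_natCast]
    exact (H63.liesOverPrime_iff P q).mp hP
  have hprime : 𝔭.IsPrime := inferInstance
  have hbot : 𝔭.inertia (F ≃ₐ[ℚ] F) = ⊥ := by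
    rw [Subgroup.eq_bot_iff_forall]
    intro σ₀ hσ₀
    obtain ⟨τ, hτ, rfl⟩ := H63.exists_mem_inertiaSubgroupIn_restrict (F := F) P σ₀ hσ₀
    ext x
    have h1 := AlgEquiv.restrictNormal_commutes τ F x
    have h2 : AlgEquiv.restrictNormalHom F τ = τ.restrictNormal F := rfl
    rw [h2]
    have h3 : τ (algebraMap F (AlgebraicClosure ℚ) x) = algebraMap F (AlgebraicClosure ℚ) x :=
      hfixF τ hτ _ x.2
    rw [h3] at h1
    exact h1
  haveI hgalG : IsGaloisGroup (F ≃ₐ[ℚ] F) ℤ (𝓞 F) :=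
    IsGaloisGroup.of_isFractionRing (F ≃ₐ[ℚ] F) ℤ (𝓞 F) ℚ F
  have hPover : 𝔭.LiesOver (𝔭.under ℤ) := inferInstance
  have hcard := Ideal.card_inertia_eq_ramificationIdxIn (G := F ≃ₐ[ℚ] F) (𝔭.under ℤ) 𝔭
  rw [hbot, Ideal.ramificationIdxIn_eq_ramificationIdx (𝔭.under ℤ) 𝔭 (F ≃ₐ[ℚ] F),
    Subgroup.card_bot] at hcard
  -- `π ∈ 𝔭` and `π ^ p = q`
  have hint : IsIntegral ℤ (⟨piSys p q 1, hπF⟩ : F) := by
    refine ⟨X ^ p - C (q : ℤ), monic_X_pow_sub_C _ hp.ne_zero, ?_⟩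
    apply Subtype.ext
    simp [hπp]
  let π' : 𝓞 F := ⟨⟨piSys p q 1, hπF⟩, hint⟩
  have hπ'p : π' ^ p = (q : 𝓞 F) := by
    apply RingOfIntegers.ext
    apply Subtype.ext
    simp [π', hπp]
  have hπ'𝔭 : π' ∈ 𝔭 := hprime.mem_of_pow_mem p (by rw [hπ'p]; exact hqp)
  have hq2 : (q : 𝓞 F) ∈ 𝔭 ^ 2 := by
    rw [← hπ'p]
    exact Ideal.pow_le_pow_right hp.two_le (Ideal.pow_mem_pow hπ'𝔭 p)
  have hqunder : (q : ℤ) ∈ 𝔭.under ℤ := by
    rw [Ideal.under_def, Ideal.mem_comap, map_natCast]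
    exact hqp
  have hunder : ∀ z ∈ 𝔭.under ℤ, (q : ℤ) ∣ z := by
    intro z hz
    by_contra hdvd
    obtain ⟨a, b, hab⟩ := (Prime.coprime_iff_not_dvd (Nat.prime_iff_prime_int.mp hq)).mpr hdvd
    have h1 : (1 : ℤ) ∈ 𝔭.under ℤ := by
      rw [← hab]
      exact Ideal.add_mem _ (Ideal.mul_mem_left _ _ hqunder) (Ideal.mul_mem_left _ _ hz)
    exact (Ideal.ne_top_iff_one _).mp (Ideal.IsPrime.ne_top inferInstance) h1
  have hle : (𝔭.under ℤ).map (algebraMap ℤ (𝓞 F)) ≤ 𝔭 ^ 2 := by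
    rw [Ideal.map_le_iff_le_comap]
    intro z hz
    obtain ⟨w, rfl⟩ := hunder z hz
    rw [Ideal.mem_comap, map_mul, map_natCast]
    exact Ideal.mul_mem_right _ _ hq2
  have hne : 𝔭.under ℤ ≠ ⊥ := by
    intro h
    rw [h, Ideal.mem_bot] at hqunder
    exact hq.ne_zero (by exact_mod_cast hqunder)
  have h1 := Ideal.ramificationIdx'_eq_ramificationIdx (𝔭.under ℤ) 𝔭 hne
  rw [← hcard] at h1
  exact (Ideal.ramificationIdx'_ne_one_iff (hle.trans (Ideal.pow_le_self two_ne_zero))).mpr hle h1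

/-- a tame generator generates modulo elements fixing `π_m` -/
lemma exists_pow_fix {σ₀ : GQ} (hσ₀ : σ₀ ∈ P.inertiaSubgroupIn ℚ)
    (hne : σ₀ (piSys p q 1) ≠ piSys p q 1) {σ : GQ} (hσ : σ ∈ P.inertiaSubgroupIn ℚ) (m : ℕ) :
    ∃ a : ℕ, (σ₀ ^ a)⁻¹ * σ ∈ P.inertiaSubgroupIn ℚ ∧
      ((σ₀ ^ a)⁻¹ * σ) (piSys p q m) = piSys p q m := by
  have hp : p.Prime := Fact.out
  obtain ⟨ζ, hζ, h1⟩ := tameRoot hq hP hpq (p := p) hσ m
  obtain ⟨ζ₀, hζ₀, h2⟩ := tameRoot hq hP hpq (p := p) hσ₀ m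
  have hπ0 : piSys p q m ≠ 0 := piSys_ne_zero p hq.ne_zero m
  have hσζ₀ : σ₀ ζ₀ = ζ₀ := inertia_root_of_unity hq hP hp hpq hσ₀ m hζ₀
  have hζ₀0 : ζ₀ ≠ 0 := fun h => by
    rw [h, zero_pow (pow_ne_zero _ hp.ne_zero)] at hζ₀; exact zero_ne_one hζ₀
  -- `ζ₀` is primitive
  have hprim : IsPrimitiveRoot ζ₀ (p ^ m) := by
    rcases Nat.eq_zero_or_pos m with rfl | hm
    · rw [pow_zero, pow_one] at hζ₀
      rw [hζ₀, pow_zero]
      exact IsPrimitiveRoot.one
    · obtain ⟨k, rfl⟩ := Nat.exists_eq_succ_of_ne_zero hm.ne'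
      rw [IsPrimitiveRoot.iff_orderOf]
      refine orderOf_eq_prime_pow ?_ hζ₀
      intro h
      apply hne
      have h3 : piSys p q 1 = piSys p q (k + 1) ^ p ^ k := by
        rw [add_comm]; exact (piSys_pow p q 1 k).symm
      have h2' : σ₀ (piSys p q (k + 1)) = ζ₀ * piSys p q (k + 1) := h2
      rw [h3, map_pow, h2', mul_pow, h, one_mul]
  haveI : NeZero (p ^ m) := ⟨pow_ne_zero _ hp.ne_zero⟩
  obtain ⟨a, -, ha⟩ := hprim.eq_pow_of_pow_eq_one hζ
  have hpow : ∀ k : ℕ, (σ₀ ^ k) (piSys p q m) = ζ₀ ^ k * piSys p q m := by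
    intro k
    induction k with
    | zero => simp
    | succ k ih =>
      rw [pow_succ', AlgEquiv.mul_apply, ih, map_mul, map_pow, hσζ₀, h2, pow_succ]
      ring
  have hmem : (σ₀ ^ a)⁻¹ ∈ P.inertiaSubgroupIn ℚ := Subgroup.inv_mem _ (Subgroup.pow_mem _ hσ₀ _)
  refine ⟨a, Subgroup.mul_mem _ hmem hσ, ?_⟩
  rw [AlgEquiv.mul_apply, h1, ← ha, ← hpow a, ← AlgEquiv.mul_apply, inv_mul_cancel]
  rfl

end

end Fermat.Agent.H53
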