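import Fermat.Agent.H15Core
import Fermat.Agent.H53Tame4
import Fermat.Agent.H63Minkowski

/-!
# MZ-A2: characters of order `r` unramified outside `N`
-/

set_option autoImplicit false

noncomputable section

namespace Fermat.Agent.H8

open Fermat.Agent.H15

/-- the multiplicative version of an additive character -/
def charHom {r : ℕ} (c : GQ → ZMod r) (hc : ∀ σ τ, c (σ * τ) = c σ + c τ) :
    GQ →* Multiplicative (ZMod r) where
  toFun σ := Multiplicative.ofAdd (c σ)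
  map_one' := by
    have h : c 1 = c 1 + c 1 := by simpa using hc 1 1
    have h1 : c 1 = 0 := by simpa using h
    rw [h1]; rfl
  map_mul' σ τ := by rw [hc, ofAdd_add]

lemma charHom_apply {r : ℕ} (c : GQ → ZMod r) (hc : ∀ σ τ, c (σ * τ) = c σ + c τ) (σ : GQ) :
    charHom c hc σ = Multiplicative.ofAdd (c σ) := rfl

lemma charHom_eq_one_iff {r : ℕ} (c : GQ → ZMod r) (hc : ∀ σ τ, c (σ * τ) = c σ + c τ) (σ : GQ) :
    charHom c hc σ = 1 ↔ c σ = 0 := by
  rw [charHom_apply, ofAdd_eq_one]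

lemma isOpen_ker_charHom {r : ℕ} (c : GQ → ZMod r) (hc : ∀ σ τ, c (σ * τ) = c σ + c τ)
    (hl : IsLocallyConstant c) : IsOpen ((charHom c hc).ker : Set GQ) := by
  have h : ((charHom c hc).ker : Set GQ) = c ⁻¹' {0} := by
    ext σ
    simp only [SetLike.mem_coe, MonoidHom.mem_ker, charHom_eq_one_iff, Set.mem_preimage,
      Set.mem_singleton_iff]
  rw [h]
  exact hl.isOpen_fiber 0

/-- a character which is unramified everywhere is trivial -/
theorem char_eq_zero {N r : ℕ} {A : ValuationSubring Qb} (hA : A.LiesOverPrime N)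
    (c : GQ → ZMod r) (hc : ∀ σ τ, c (σ * τ) = c σ + c τ) (hl : IsLocallyConstant c)
    (h : ∀ q : ℕ, q.Prime → q ≠ N → ∀ B : ValuationSubring Qb, B.LiesOverPrime q →
      ∀ σ ∈ B.inertiaSubgroupIn ℚ, c σ = 0)
    (hN : ∀ σ ∈ A.inertiaSubgroupIn ℚ, c σ = 0) : c = 0 := by
  have h1 : charHom c hc = 1 := by
    refine H63.eq_one_of_isOpen_ker _ (isOpen_ker_charHom c hc hl) fun q hq => ?_
    by_cases hqN : q = N
    · subst hqN
      exact ⟨A, hA, fun σ hσ => (charHom_eq_one_iff c hc σ).mpr (hN σ hσ)⟩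
    · obtain ⟨B, hB⟩ := H63.exists_liesOverPrime Qb hq
      exact ⟨B, hB, fun σ hσ => (charHom_eq_one_iff c hc σ).mpr (h q hq hqN B hB σ hσ)⟩
  funext σ
  exact (charHom_eq_one_iff c hc σ).mp (by rw [h1]; rfl)

/-- a character of order `r` is determined on the inertia group at `N ≠ r` by its value at a
tame generator -/
theorem char_inertia {N r : ℕ} (hN : N.Prime) (hr : r.Prime) (hrN : r ≠ N)
    {A : ValuationSubring Qb} (hA : A.LiesOverPrime N) {σ₀ : GQ}
    (hσ₀ : σ₀ ∈ A.inertiaSubgroupIn ℚ)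
    (hne : haveI := Fact.mk hr; σ₀ (H53.piSys r N 1) ≠ H53.piSys r N 1)
    (c : GQ → ZMod r) (hc : ∀ σ τ, c (σ * τ) = c σ + c τ) (hl : IsLocallyConstant c)
    (h0 : c σ₀ = 0) : ∀ σ ∈ A.inertiaSubgroupIn ℚ, c σ = 0 := by
  have := Fact.mk hr
  intro σ hσ
  obtain ⟨m, hm⟩ := H53.exists_level hN hA hrN (isOpen_ker_charHom c hc hl) (fun τ _ => ⟨1, by
    rw [MonoidHom.mem_ker, map_pow, charHom_apply, pow_one, ← ofAdd_nsmul]
    rw [nsmul_eq_mul, CharP.cast_eq_zero, zero_mul]; rfl⟩)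
  obtain ⟨a, ha1, ha2⟩ := H53.exists_pow_fix hN hA hrN hσ₀ hne hσ m
  have h1 := hm _ ha1 ha2
  rw [MonoidHom.mem_ker, map_mul, map_inv, map_pow, (charHom_eq_one_iff c hc σ₀).mpr h0, one_pow,
    inv_one, one_mul, charHom_eq_one_iff] at h1
  exact h1

/-- **MZ-A2** -/
theorem charCount : CharCount := by
  intro N r hN _ hr hrN A hA
  have := Fact.mk hr
  have : NeZero r := ⟨hr.ne_zero⟩
  obtain ⟨σ₀, hσ₀, hne⟩ := H53.exists_tame_generator hN hA hrN (p := r)
  set S : Set (GQ → ZMod r) := {c : GQ → ZMod r | (∀ σ τ, c (σ * τ) = c σ + c τ) ∧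
      IsLocallyConstant c ∧ ∀ q : ℕ, q.Prime → q ≠ N → ∀ B : ValuationSubring Qb,
        B.LiesOverPrime q → ∀ σ ∈ B.inertiaSubgroupIn ℚ, c σ = 0} with hS
  have hinj : Set.InjOn (fun c : GQ → ZMod r => c σ₀) S := by
    rintro c ⟨hc1, hc2, hc3⟩ d ⟨hd1, hd2, hd3⟩ hcd
    have hcd' : c σ₀ = d σ₀ := hcd
    have he1 : ∀ σ τ, (c - d) (σ * τ) = (c - d) σ + (c - d) τ := by
      intro σ τ
      simp only [Pi.sub_apply, hc1, hd1]
      ring
    have he2 : IsLocallyConstant (c - d) := hc2.sub hd2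
    have he3 : ∀ q : ℕ, q.Prime → q ≠ N → ∀ B : ValuationSubring Qb, B.LiesOverPrime q →
        ∀ σ ∈ B.inertiaSubgroupIn ℚ, (c - d) σ = 0 := by
      intro q hq hqN B hB σ hσ
      rw [Pi.sub_apply, hc3 q hq hqN B hB σ hσ, hd3 q hq hqN B hB σ hσ, sub_zero]
    have h0 : (c - d) σ₀ = 0 := by rw [Pi.sub_apply, hcd', sub_self]
    exact sub_eq_zero.mp (char_eq_zero hA (c - d) he1 he2 he3
      (char_inertia hN hr hrN hA hσ₀ hne (c - d) he1 he2 h0))
  refine ⟨Set.Finite.of_finite_image (Set.toFinite _) hinj, ?_, ?_⟩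
  · calc S.ncard = ((fun c : GQ → ZMod r => c σ₀) '' S).ncard :=
        hinj.ncard_image.symm
      _ ≤ (Set.univ : Set (ZMod r)).ncard := Set.ncard_le_ncard (Set.subset_univ _)
      _ = r := by rw [Set.ncard_univ, Nat.card_zmod]
  · intro c hc hl h hN'
    exact char_eq_zero hA c hc hl h hN'

end Fermat.Agent.H8
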