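import Fermat.Agent.H15Glue
import Fermat.Agent.H75Cnt
import Fermat.Agent.H85JH2
import Fermat.Agent.H8CharCount
import Fermat.Agent.H47KummerCount

/-!
# MAZUR: the count theorem and the abstract core, unconditionally
-/

set_option autoImplicit false

namespace Fermat.Agent.H15

theorem countThm_uncond : CountThm :=
  H75.countThm H85.constituents_prop H8.charCount H47.kummerCount

theorem abstractCore_uncond : AbstractCore := abstractCore countThm_uncond

/-- S15 from the facts about `J₀(N)` and the moduli interpretation -/
theorem s15_of_inputs (hJ : T_core) (hP : T_modPlace) : H12.S15Statement :=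
  s15_of abstractCore_uncond hJ hP

end Fermat.Agent.H15
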