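import Mathlib
import Fermat.Agent.H15Fit
import Fermat.Agent.H70Frob

/-!
# Boundedness of the Kummer classes of rational points
-/

set_option autoImplicit false
set_option linter.unusedSectionVars false

noncomputable section

namespace Fermat.Agent.H15

open ModularCurve

variable {N r : ℕ} {J : Type} [AddCommGroup J] [Module HeckeAlg J] [DistribMulAction GQ J]
  [SMulCommClass GQ HeckeAlg J] {K : ValuationSubring Qb → AddSubgroup J}

lemma eq_zero_of_coprime {m n : ℕ} (h : m.Coprime n) {x : J} (h1 : m • x = 0) (h2 : n • x = 0) :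
    x = 0 := by
  have h3 := Nat.dvd_gcd (addOrderOf_dvd_iff_nsmul_eq_zero.mpr h1)
    (addOrderOf_dvd_iff_nsmul_eq_zero.mpr h2)
  rw [h, Nat.dvd_one, AddMonoid.addOrderOf_eq_one_iff] at h3
  exact h3

lemma hecke_nsmul (t : HeckeAlg) (n : ℕ) (x : J) : t • (n • x) = n • (t • x) := by
  rw [← Nat.cast_smul_eq_nsmul HeckeAlg, smul_comm, Nat.cast_smul_eq_nsmul HeckeAlg]

lemma isLocallyConstant_smul (h : BasicInputs N J K) (x : J) :
    IsLocallyConstant fun σ : GQ => σ • x := by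
  rw [IsLocallyConstant.iff_exists_open]
  intro σ
  refine ⟨(fun τ : GQ => σ⁻¹ * τ) ⁻¹' {τ : GQ | τ • x = x},
    (h.smooth x).preimage (continuous_const_mul _), by simp, fun τ hτ => ?_⟩
  have h1 : (σ⁻¹ * τ) • x = x := hτ
  rw [mul_smul] at h1
  calc τ • x = σ • (σ⁻¹ • τ • x) := by rw [smul_inv_smul]
    _ = σ • x := by rw [h1]

/-- the Kummer cocycle -/
def kc (ε : HeckeAlg) (R : J) (σ : GQ) : J := ε • (σ • R - R)

theorem kc_mem (h : CoreInputs N r J K) (hr : r.Prime) (hN : N.Prime) (hrN : r ≠ N) (k : ℕ)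
    (ε : HeckeAlg) (R : J) (hR : ∀ σ : GQ, σ • ((r ^ k : ℕ) • R) = (r ^ k : ℕ) • R)
    (hW : ∀ σ : GQ, ε • (σ • R - R) ∈ WSub N r J k) :
    kc ε R ∈ ZStar N r J k (WSub N r J k) := by
  have htors : ∀ σ : GQ, (r ^ k : ℕ) • (σ • R - R) = 0 := fun σ => by
    rw [smul_sub, ← smul_comm σ, hR, sub_self]
  refine ⟨hW, fun σ τ => ?_, ?_, ?_, ?_, ?_⟩
  · show ε • ((σ * τ) • R - R) = ε • (σ • R - R) + σ • (ε • (τ • R - R))
    rw [smul_comm σ ε, ← smul_add]
    congr 1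
    rw [mul_smul, smul_sub]
    abel
  · exact (isLocallyConstant_smul h.toBasicInputs R).comp fun y => ε • (y - R)
  · intro q hq hqr hqN A hA σ hσ
    have hqN' : ¬ q ∣ N := fun hd => hqN ((Nat.prime_dvd_prime_iff_eq hq hN).mp hd)
    have h1 : σ • R - R = 0 := h.torsion_inj q hq hqN' A hA (r ^ k)
      (fun hd => hqr ((Nat.prime_dvd_prime_iff_eq hq hr).mp (hq.dvd_of_dvd_pow hd))) _
      (h.inertia q hq hqN' A hA σ hσ R) (htors σ)
    show ε • (σ • R - R) = 0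
    rw [h1, smul_zero]
  · intro A hA σ hσ τ hτ
    show τ • (ε • (σ • R - R)) = ε • (σ • R - R)
    rw [smul_comm τ ε, h.ss A hA σ hσ τ hτ (r ^ k)
      (fun hd => hrN ((Nat.prime_dvd_prime_iff_eq hN hr).mp (hN.dvd_of_dvd_pow hd)).symm) R
      fun ρ _ => hR ρ]
  · intro A hA
    refine ⟨ε • R, fun σ _ => ?_, fun σ _ => ?_⟩
    · rw [← hecke_nsmul, smul_comm σ ε, hR]
    · show ε • (σ • R - R) = _
      rw [smul_comm σ ε, smul_sub]

variable (N r J) in
/-- `ZStar` as a group -/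
def ZGrp (k : ℕ) (G : AddSubgroup J) : AddSubgroup (GQ → J) where
  carrier := ZStar N r J k G
  zero_mem' := by
    refine ⟨fun σ => zero_mem _, fun σ τ => ?_, IsLocallyConstant.const 0, fun _ _ _ _ _ _ _ _ => rfl,
      fun A _ σ _ τ _ => smul_zero τ, fun A _ => ⟨0, fun σ _ => ?_, fun σ _ => ?_⟩⟩
    · show (0 : J) = 0 + σ • (0 : J)
      rw [smul_zero, add_zero]
    · rw [smul_zero, smul_zero]
    · show (0 : J) = σ • (0 : J) - 0
      rw [smul_zero, sub_zero]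
  add_mem' := by
    rintro ξ η ⟨a1, a2, a3, a4, a5, a6⟩ ⟨b1, b2, b3, b4, b5, b6⟩
    refine ⟨fun σ => add_mem (a1 σ) (b1 σ), fun σ τ => ?_, a3.add b3, ?_, ?_, ?_⟩
    · show ξ (σ * τ) + η (σ * τ) = ξ σ + η σ + σ • (ξ τ + η τ)
      rw [a2, b2, smul_add]
      abel
    · intro q hq h1 h2 A hA σ hσ
      show ξ σ + η σ = 0
      rw [a4 q hq h1 h2 A hA σ hσ, b4 q hq h1 h2 A hA σ hσ, add_zero]
    · intro A hA σ hσ τ hτ
      show τ • (ξ σ + η σ) = ξ σ + η σ
      rw [smul_add, a5 A hA σ hσ τ hτ, b5 A hA σ hσ τ hτ]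
    · intro A hA
      obtain ⟨R, h1, h2⟩ := a6 A hA
      obtain ⟨S, h3, h4⟩ := b6 A hA
      refine ⟨R + S, fun σ hσ => by rw [smul_add, smul_add, h1 σ hσ, h3 σ hσ], fun σ hσ => ?_⟩
      show ξ σ + η σ = _
      rw [h2 σ hσ, h4 σ hσ, smul_add]
      abel
  neg_mem' := by
    rintro ξ ⟨a1, a2, a3, a4, a5, a6⟩
    refine ⟨fun σ => neg_mem (a1 σ), fun σ τ => ?_, a3.neg, ?_, ?_, ?_⟩
    · show -ξ (σ * τ) = -ξ σ + σ • (-ξ τ)
      rw [a2, smul_neg]
      abel
    · intro q hq h1 h2 A hA σ hσ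
      show -ξ σ = 0
      rw [a4 q hq h1 h2 A hA σ hσ, neg_zero]
    · intro A hA σ hσ τ hτ
      show τ • (-ξ σ) = -ξ σ
      rw [smul_neg, a5 A hA σ hσ τ hτ]
    · intro A hA
      obtain ⟨R, h1, h2⟩ := a6 A hA
      refine ⟨-R, fun σ hσ => by rw [smul_neg, smul_neg, h1 σ hσ], fun σ hσ => ?_⟩
      show -ξ σ = _
      rw [h2 σ hσ, smul_neg]
      abel

variable (N r J) in
/-- the coboundary map -/
def cob (k : ℕ) : WSub N r J k →+ (GQ → J) where
  toFun g σ := σ • (g : J) - g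
  map_zero' := by
    funext σ
    show σ • (0 : J) - 0 = 0
    rw [smul_zero, sub_zero]
  map_add' g g' := by
    funext σ
    show σ • ((g : J) + g') - (g + g') = (σ • (g : J) - g) + (σ • (g' : J) - g')
    rw [smul_add]
    abel

theorem cob_mem (h : CoreInputs N r J K) (hr : r.Prime) (hN : N.Prime) (hrN : r ≠ N) (k : ℕ)
    (g : WSub N r J k) : cob N r J k g ∈ ZGrp N r J k (WSub N r J k) := by
  have h1 := kc_mem h hr hN hrN k 1 (g : J) (fun σ => by rw [g.2.1, smul_zero])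
    (fun σ => by rw [one_smul]; exact sub_mem (galois_mem_WSub σ g.2) g.2)
  have h2 : kc 1 (g : J) = cob N r J k g := by
    funext σ
    show (1 : HeckeAlg) • (σ • (g : J) - g) = σ • (g : J) - g
    rw [one_smul]
  rw [h2] at h1
  exact h1

/-- the rational points of `W_k` are killed by a fixed integer -/
theorem exists_bound_fixed (h : CoreInputs N r J K) (hr : r.Prime) (hN : N.Prime) :
    ∃ m : ℕ, m ≠ 0 ∧ ∀ k : ℕ, ∀ x ∈ WSub N r J k, (∀ σ : GQ, σ • x = x) → m • x = 0 := by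
  obtain ⟨q, hqgt, hq⟩ := Nat.exists_infinite_primes (r + N + 1)
  have hqN : ¬ q ∣ N := fun hd => by
    have := Nat.le_of_dvd hN.pos hd
    omega
  obtain ⟨A, σ, hA, hσ⟩ := H70.exists_place_frobenius hq
  obtain ⟨t, m, hm, htm⟩ := h.noEis ⟨q, hq⟩ hqN
  refine ⟨m, hm, fun k x hx hfix => ?_⟩
  have hx0 : (r ^ k : ℕ) • x = 0 := hx.1
  have h1 := h.frob q hq hqN A hA σ hσ x
  rw [hfix, hfix] at h1
  have h2 : x - heckeGen ⟨q, hq⟩ • x + q • x = 0 := by
    refine h.torsion_inj q hq hqN A hA (r ^ k) (fun hd => ?_) _ h1 ?_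
    · have := Nat.le_of_dvd hr.pos (hq.dvd_of_dvd_pow hd)
      omega
    · rw [smul_add, smul_sub, ← hecke_nsmul, hx0, smul_zero, smul_comm, hx0, smul_zero]
      simp
  have h3 := htm x ⟨r ^ k, pow_ne_zero _ hr.ne_zero, hx0⟩
  have h4 : (1 + q) • x - heckeGen ⟨q, hq⟩ • x = 0 := by
    rw [add_smul, one_smul]
    rw [← h2]
    abel
  have h5 : t • ((1 + ((⟨q, hq⟩ : Nat.Primes) : ℕ)) • x - heckeGen ⟨q, hq⟩ • x) = m • x := h3
  rw [← h5]
  show t • ((1 + q) • x - heckeGen ⟨q, hq⟩ • x) = 0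
  rw [h4, smul_zero]

/-- the classes of the cocycles in `ZStar` are killed by a fixed power of `r` -/
theorem exists_kill (hc : CountThm) (h : CoreInputs N r J K) (hr : r.Prime) (hN : N.Prime)
    (hN5 : 5 ≤ N) (hrN : r ≠ N) :
    ∃ B : ℕ, ∀ k : ℕ, ∀ ξ ∈ ZStar N r J k (WSub N r J k), ∃ g ∈ WSub N r J k,
      ∀ σ : GQ, (r ^ B : ℕ) • ξ σ = σ • g - g := by
  obtain ⟨t, hW, ⟨C1, hC1⟩, ⟨C2, hC2⟩⟩ := h.card
  obtain ⟨m, hm, hfix⟩ := exists_bound_fixed h hr hN
  obtain ⟨AN, hAN⟩ := H70.exists_liesOverPrime (L := Qb) hN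
  obtain ⟨Ar, hAr⟩ := H70.exists_liesOverPrime (L := Qb) hr
  have hfin := h.torsion_finite m hm
  refine ⟨C2 * C1 * {x : J | m • x = 0}.ncard, fun k ξ hξ => ?_⟩
  obtain ⟨hZfin, hZcard⟩ := hc N r hN hN5 hr hrN J K h k AN Ar hAN hAr
  set Z := ZGrp N r J k (WSub N r J k) with hZ
  have hZf : Finite Z := hZfin.to_subtype
  have hWf : Finite (WSub N r J k) := (WSub_finite hr.ne_zero h.torsion_finite k).to_subtype
  set D := (cob N r J k).range with hD
  have hDZ : D ≤ Z := by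
    rintro _ ⟨g, rfl⟩
    exact cob_mem h hr hN hrN k g
  have e1 : Nat.card D * Nat.card (cob N r J k).ker = r ^ (2 * t * k) := by
    rw [← hW k, ← AddSubgroup.card_mul_index (cob N r J k).ker, AddSubgroup.index_ker, mul_comm]
  have e2 : Nat.card (cob N r J k).ker ≤ {x : J | m • x = 0}.ncard := by
    rw [← Nat.card_coe_set_eq]
    have := hfin.to_subtype
    refine Nat.card_le_card_of_injective
      (fun g : (cob N r J k).ker => (⟨((g : WSub N r J k) : J), ?_⟩ : {x : J | m • x = 0})) ?_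
    · refine hfix k _ (g : WSub N r J k).2 fun σ => ?_
      exact sub_eq_zero.mp (congrFun (AddMonoidHom.mem_ker.mp g.2) σ)
    · intro g g' hg
      have h1 : ((g : WSub N r J k) : J) = ((g' : WSub N r J k) : J) :=
        congrArg (fun y : {x : J | m • x = 0} => (y : J)) hg
      exact Subtype.ext (Subtype.ext h1)
  set D' := D.addSubgroupOf Z with hD'
  have e3 : Nat.card D' = Nat.card D := Nat.card_congr (AddSubgroup.addSubgroupOfEquivOfLe hDZ)
  have e4 : Nat.card D * D'.index = Nat.card Z := by rw [← e3, AddSubgroup.card_mul_index]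
  have e5 : Nat.card Z ≤ (C2 * r ^ (t * k)) * (C1 * r ^ (t * k)) := by
    have h1 : Nat.card Z = (ZStar N r J k (WSub N r J k)).ncard := Nat.card_coe_set_eq _
    rw [h1]
    exact hZcard.trans (Nat.mul_le_mul (hC2 AN hAN k) (hC1 Ar hAr k))
  have e6 : D'.index ≤ C2 * C1 * {x : J | m • x = 0}.ncard := by
    have h1 : D'.index * r ^ (2 * t * k) ≤
        (C2 * C1 * {x : J | m • x = 0}.ncard) * r ^ (2 * t * k) := by
      calc D'.index * r ^ (2 * t * k)
          = (Nat.card D * D'.index) * Nat.card (cob N r J k).ker := by rw [← e1]; ring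
        _ = Nat.card Z * Nat.card (cob N r J k).ker := by rw [e4]
        _ ≤ ((C2 * r ^ (t * k)) * (C1 * r ^ (t * k))) * {x : J | m • x = 0}.ncard :=
            Nat.mul_le_mul e5 e2
        _ = (C2 * C1 * {x : J | m • x = 0}.ncard) * r ^ (2 * t * k) := by
            rw [show 2 * t * k = t * k + t * k by ring, pow_add]
            ring
    exact Nat.le_of_mul_le_mul_right h1 (pow_pos hr.pos _)
  have hindex : D'.index ≠ 0 := by
    intro h0
    rw [h0, mul_zero] at e4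
    exact Nat.card_pos.ne e4
  -- the order of the class of `ξ`
  let x : Z ⧸ D' := QuotientAddGroup.mk (⟨ξ, hξ⟩ : Z)
  have o1 : addOrderOf x ∣ D'.index := by
    rw [AddSubgroup.index]
    exact addOrderOf_dvd_natCard x
  have o2 : addOrderOf x ∣ r ^ k := by
    rw [addOrderOf_dvd_iff_nsmul_eq_zero]
    show QuotientAddGroup.mk ((r ^ k : ℕ) • (⟨ξ, hξ⟩ : Z)) = 0
    have h1 : (r ^ k : ℕ) • (⟨ξ, hξ⟩ : Z) = 0 := by
      apply Subtype.ext
      funext σ
      exact (hξ.1 σ).1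
    rw [h1]
    rfl
  obtain ⟨j, -, hj⟩ := (Nat.dvd_prime_pow hr).mp o2
  have hjB : j ≤ C2 * C1 * {x : J | m • x = 0}.ncard := by
    have h1 : j < r ^ j := Nat.lt_pow_self hr.one_lt
    have h2 := Nat.le_of_dvd (Nat.pos_of_ne_zero hindex) o1
    omega
  have h3 : (r ^ (C2 * C1 * {x : J | m • x = 0}.ncard) : ℕ) • x = 0 := by
    rw [← addOrderOf_dvd_iff_nsmul_eq_zero, hj]
    exact pow_dvd_pow r hjB
  have h4 : (r ^ (C2 * C1 * {x : J | m • x = 0}.ncard) : ℕ) • (⟨ξ, hξ⟩ : Z) ∈ D' :=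
    (QuotientAddGroup.eq_zero_iff _).mp h3
  rw [hD', AddSubgroup.mem_addSubgroupOf] at h4
  obtain ⟨g, hg⟩ := h4
  exact ⟨g, g.2, fun σ => (congrFun hg σ).symm⟩

end Fermat.Agent.H15
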