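import Mathlib
import Fermat.Agent.H15Bound
import Fermat.Agent.H33Cyclo

/-!
# The final argument: `AbstractCore` from the count theorem
-/

set_option autoImplicit false
set_option linter.unusedSectionVars false

noncomputable section

namespace Fermat.Agent.H15

open ModularCurve

variable {N r : ℕ} {J : Type} [AddCommGroup J] [Module HeckeAlg J] [DistribMulAction GQ J]
  [SMulCommClass GQ HeckeAlg J] {K : ValuationSubring Qb → AddSubgroup J}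

lemma exists_pow_div (h : DivRed N J K) (hr : r.Prime) {ℓ : ℕ} (hℓ : ℓ.Prime) (hℓN : ¬ ℓ ∣ N)
    {A : ValuationSubring Qb} (hA : A.LiesOverPrime ℓ) (s : ℕ) :
    ∀ x ∈ K A, ∃ y ∈ K A, (r ^ s : ℕ) • y = x := by
  induction s with
  | zero => exact fun x hx => ⟨x, hx, by rw [pow_zero, one_smul]⟩
  | succ s ih =>
    intro x hx
    obtain ⟨y, hy, hyx⟩ := ih x hx
    obtain ⟨w, hw, hwy⟩ := h ℓ hℓ hℓN A hA r hr y hy
    exact ⟨w, hw, by rw [pow_succ, mul_smul, hwy, hyx]⟩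

/-- the `r`-part of the reduction of a rational point is bounded -/
theorem exists_frob_bound (h : CoreInputs N r J K) (hr : r.Prime) {ℓ : ℕ} (hℓ : ℓ.Prime)
    (hℓN : ¬ ℓ ∣ N) {A : ValuationSubring Qb} (hA : A.LiesOverPrime ℓ) :
    ∃ c : ℕ, ∀ R : J, (∀ σ : GQ, σ • R = R) → ∃ m' : ℕ, ¬ r ∣ m' ∧ (m' * r ^ c) • R ∈ K A := by
  obtain ⟨σ, hσ⟩ := H70.exists_frobenius A hℓ hA
  obtain ⟨t, m, hm, htm'⟩ := h.noEis ⟨ℓ, hℓ⟩ hℓN
  obtain ⟨T, hT⟩ : ∃ T : HeckeAlg, T = heckeGen (⟨ℓ, hℓ⟩ : Nat.Primes) := ⟨_, rfl⟩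
  have htm : ∀ x : J, (∃ d : ℕ, d ≠ 0 ∧ d • x = 0) → t • ((1 + ℓ) • x - T • x) = m • x := by
    rw [hT]
    exact htm'
  have hfr : ∀ x : J, σ • σ • x - T • σ • x + ℓ • x ∈ K A := by
    rw [hT]
    exact h.frob ℓ hℓ hℓN A hA σ hσ
  obtain ⟨c, m₃, hm₃, hmc⟩ := Nat.exists_eq_pow_mul_and_not_dvd hm r hr.ne_one
  refine ⟨c, fun R hR => ?_⟩
  obtain ⟨m₁, hm₁, hR₁⟩ := h.tors ℓ hℓ hℓN A hA R
  obtain ⟨s, m₂, hm₂, hms⟩ := Nat.exists_eq_pow_mul_and_not_dvd hm₁ r hr.ne_one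
  refine ⟨m₂ * m₃, fun hd => (hr.dvd_mul.mp hd).elim hm₂ hm₃, ?_⟩
  obtain ⟨y, hy, hyR⟩ := exists_pow_div h.div hr hℓ hℓN hA s _ hR₁
  obtain ⟨w, hw⟩ : ∃ w, w = m₂ • R - y := ⟨_, rfl⟩
  have hw0 : (r ^ s : ℕ) • w = 0 := by
    rw [hw, smul_sub, hyR, smul_smul, ← hms, sub_self]
  have hdec := hσ.mem_decompositionSubgroup
  have h1 : σ • w - w ∈ K A := by
    have h2 : σ • w - w = y - σ • y := by
      rw [hw, smul_sub, smul_comm σ m₂ R, hR]
      abel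
    rw [h2]
    exact sub_mem hy (h.galois ℓ hℓ hℓN A hA σ hdec y hy)
  have h3 : w - T • w + ℓ • w ∈ K A := by
    have h4 := hfr w
    have h5 : σ • (σ • w - w) ∈ K A := h.galois ℓ hℓ hℓN A hA σ hdec _ h1
    have h6 : T • (σ • w - w) ∈ K A := h.hecke ℓ hℓ hℓN A hA _ _ h1
    have h7 : w - T • w + ℓ • w =
        (σ • σ • w - T • σ • w + ℓ • w) - σ • (σ • w - w) - (σ • w - w)
          + T • (σ • w - w) := by
      rw [smul_sub σ, smul_sub T]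
      abel
    rw [h7]
    exact add_mem (sub_mem (sub_mem h4 h5) h1) h6
  have h8 : m • w ∈ K A := by
    have h9 := htm w ⟨r ^ s, pow_ne_zero _ hr.ne_zero, hw0⟩
    rw [← h9]
    refine h.hecke ℓ hℓ hℓN A hA _ _ ?_
    have h10 : (1 + ℓ) • w - T • w = w - T • w + ℓ • w := by
      rw [add_smul, one_smul]
      abel
    rw [h10]
    exact h3
  have h11 : m • (m₂ • R) ∈ K A := by
    have h12 : m • (m₂ • R) = m • w + m • y := by
      rw [hw, smul_sub]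
      abel
    rw [h12]
    exact add_mem h8 (AddSubgroup.nsmul_mem _ hy m)
  rw [smul_smul, hmc] at h11
  rwa [show m₂ * m₃ * r ^ c = r ^ c * m₃ * m₂ by ring]

lemma hecke_pow_smul {y : J} (hy : ∀ q : Nat.Primes, (q : ℕ) ≠ N →
    heckeGen q • y = (1 + (q : ℕ)) • y) (i : ℕ) :
    ∀ t ∈ (eisP N r) ^ i, ∃ u : HeckeAlg, t • y = (r ^ i : ℕ) • (u • y) := by
  have hP : ∀ t ∈ eisP N r, ∀ u : HeckeAlg, ∃ v : HeckeAlg, t • (u • y) = r • (v • y) := by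
    intro t ht
    refine Submodule.span_induction (p := fun t _ => ∀ u : HeckeAlg, ∃ v : HeckeAlg,
      t • (u • y) = r • (v • y)) ?_ ?_ ?_ ?_ ht
    · rintro t (rfl | ⟨q, hq, rfl⟩) u
      · exact ⟨u, Nat.cast_smul_eq_nsmul HeckeAlg _ _⟩
      · refine ⟨0, ?_⟩
        rw [zero_smul, smul_zero, smul_comm, sub_smul, hy q hq]
        have h1 : (MvPolynomial.C (1 + (q : ℤ)) : HeckeAlg) • y = (1 + (q : ℕ)) • y := by
          rw [show (MvPolynomial.C (1 + (q : ℤ)) : HeckeAlg) = ((1 + (q : ℕ) : ℕ) : HeckeAlg) by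
            push_cast; simp]
          rw [Nat.cast_smul_eq_nsmul]
        rw [h1, sub_self, smul_zero]
    · exact fun u => ⟨0, by rw [zero_smul, zero_smul, smul_zero]⟩
    · intro a b _ _ ha hb u
      obtain ⟨v, hv⟩ := ha u
      obtain ⟨w, hw⟩ := hb u
      exact ⟨v + w, by rw [add_smul, hv, hw, add_smul, smul_add]⟩
    · intro a b _ hb u
      obtain ⟨v, hv⟩ := hb u
      refine ⟨a * v, ?_⟩
      rw [smul_eq_mul, mul_smul, hv, hecke_nsmul, mul_smul]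
  induction i with
  | zero => exact fun t _ => ⟨t, by rw [pow_zero, one_smul]⟩
  | succ i ih =>
    intro t ht
    rw [pow_succ] at ht
    refine Submodule.mul_induction_on ht ?_ ?_
    · intro a ha b hb
      obtain ⟨u, hu⟩ := hP b hb 1
      rw [one_smul] at hu
      obtain ⟨v, hv⟩ := ih a ha
      refine ⟨v * u, ?_⟩
      rw [mul_smul, hu, hecke_nsmul, smul_comm a u, hv, pow_succ', mul_smul, mul_comm v u,
        mul_smul, hecke_nsmul]
    · rintro a b ⟨u, hu⟩ ⟨v, hv⟩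
      exact ⟨u + v, by rw [add_smul, hu, hv, add_smul, smul_add]⟩

theorem core_aux (hc : CountThm) (h : CoreInputs N r J K) (hr : r.Prime) (hN : N.Prime)
    (hN5 : 5 ≤ N) (hrN : r ≠ N) (z : J) (hz : ∀ σ : GQ, σ • z = z)
    {q : ℕ} (hq : q.Prime) (hqN : ¬ q ∣ N) (hqr : q ≠ r) {A₀ : ValuationSubring Qb}
    (hA₀ : A₀.LiesOverPrime q) (hz₀ : z ∈ K A₀) :
    ∃ B : ℕ, ∀ k : ℕ, B ≤ k → ∀ ε : HeckeAlg,
      (∀ x : J, (r ^ k : ℕ) • x = 0 → ε • x ∈ WSub N r J k) →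
      ∃ R : J, (∀ σ : GQ, σ • R = R) ∧ ε • z = (r ^ (k - B) : ℕ) • R := by
  obtain ⟨B, hB⟩ := exists_kill hc h hr hN hN5 hrN
  obtain ⟨c, hcb⟩ := exists_frob_bound h hr hq hqN hA₀
  -- it is enough to take `k ≥ B + c`, and to write the point as a multiple of `r^(k-B-c)`
  refine ⟨B + c, fun k hk ε hε => ?_⟩
  obtain ⟨R, hR⟩ := h.divisible (r ^ k) (pow_ne_zero _ hr.ne_zero) z
  have hRfix : ∀ σ : GQ, σ • ((r ^ k : ℕ) • R) = (r ^ k : ℕ) • R := fun σ => by rw [hR, hz]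
  have htors : ∀ σ : GQ, (r ^ k : ℕ) • (σ • R - R) = 0 := fun σ => by
    rw [smul_sub, ← smul_comm σ, hRfix, sub_self]
  obtain ⟨g, hg, hgσ⟩ := hB k (kc ε R)
    (kc_mem h hr hN hrN k ε R hRfix fun σ => hε _ (htors σ))
  obtain ⟨S, hS⟩ : ∃ S, S = (r ^ B : ℕ) • (ε • R) - g := ⟨_, rfl⟩
  have hSfix : ∀ σ : GQ, σ • S = S := fun σ => by
    have h1 : (r ^ B : ℕ) • (ε • (σ • R - R)) = σ • g - g := hgσ σ
    rw [← sub_eq_zero]
    have h2 : σ • S - S = (r ^ B : ℕ) • (ε • (σ • R - R)) - (σ • g - g) := by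
      rw [hS, smul_sub σ, smul_comm σ (r ^ B), smul_comm σ ε, smul_sub ε, smul_sub (r ^ B)]
      abel
    rw [h2, h1, sub_self]
  obtain ⟨u, hu⟩ : ∃ u, u = ε • z - (r ^ (k - B) : ℕ) • S := ⟨_, rfl⟩
  have hu0 : (r ^ B : ℕ) • u = 0 := by
    have h1 : (r ^ k : ℕ) • S = (r ^ B : ℕ) • (ε • z) := by
      rw [hS, smul_sub, hg.1, sub_zero, smul_comm (r ^ k) (r ^ B), ← hecke_nsmul ε, hR]
    rw [hu, smul_sub, smul_smul, ← pow_add, Nat.add_sub_cancel' (by omega : B ≤ k), h1, sub_self]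
  obtain ⟨m', hm', hm'S⟩ := hcb S hSfix
  have hu1 : m' • u ∈ K A₀ := by
    have h1 : m' • u = ε • (m' • z) - (r ^ (k - B - c) : ℕ) • ((m' * r ^ c) • S) := by
      rw [hu, smul_sub, hecke_nsmul, smul_smul, smul_smul,
        show m' * r ^ (k - B) = r ^ (k - B - c) * (m' * r ^ c) by
          conv_lhs => rw [show k - B = (k - B - c) + c by omega, pow_add]
          ring]
    rw [h1]
    exact sub_mem (h.hecke q hq hqN A₀ hA₀ _ _ (AddSubgroup.nsmul_mem _ hz₀ _))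
      (AddSubgroup.nsmul_mem _ hm'S _)
  have hu2 : m' • u = 0 := by
    refine h.torsion_inj q hq hqN A₀ hA₀ (r ^ B) (fun hd =>
      hqr ((Nat.prime_dvd_prime_iff_eq hq hr).mp (hq.dvd_of_dvd_pow hd))) _ hu1 ?_
    rw [smul_comm, hu0, smul_zero]
  have hu3 : u = 0 := by
    refine eq_zero_of_coprime ?_ hu2 hu0
    exact Nat.Coprime.pow_right _ ((hr.coprime_iff_not_dvd.mpr hm').symm)
  refine ⟨(r ^ c : ℕ) • S, fun σ => by rw [smul_comm, hSfix], ?_⟩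
  rw [smul_smul, ← pow_add, show k - (B + c) + c = k - B by omega]
  rw [hu] at hu3
  exact sub_eq_zero.mp hu3

/-- an inertia element at `r ≥ 3` acting on `μ_{r^k}` by an exponent `≢ 1 mod r` -/
lemma exists_inertia_exponent (hr : r.Prime) (hr3 : 3 ≤ r) {A : ValuationSubring Qb}
    (hA : A.LiesOverPrime r) {k : ℕ} (hk : k ≠ 0) :
    ∃ σ ∈ A.inertiaSubgroupIn ℚ, ∃ n : ℕ, (∀ ζ : Qb, ζ ^ (r ^ k) = 1 → σ ζ = ζ ^ n) ∧
      ∃ b : ℕ, (n - 1 : ℤ) = b ∧ b.Coprime r := by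
  have : Fact r.Prime := ⟨hr⟩
  obtain ⟨σ, hσ, h2⟩ := H33.exists_inertia_cyclo hA 2 (fun hd => by
    have := Nat.le_of_dvd two_pos hd
    omega)
  have : NeZero (r ^ k) := ⟨pow_ne_zero _ hr.ne_zero⟩
  obtain ⟨ζ, hζ⟩ := HasEnoughRootsOfUnity.exists_primitiveRoot Qb (r ^ k)
  have h3 : (σ ζ) ^ (r ^ k) = 1 := by rw [← map_pow, hζ.pow_eq_one, map_one]
  obtain ⟨n₀, -, hn₀⟩ := hζ.eq_pow_of_pow_eq_one h3
  -- choose the exponent positive
  set n := n₀ + r ^ k with hn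
  have hn1 : ∀ ξ : Qb, ξ ^ (r ^ k) = 1 → σ ξ = ξ ^ n := by
    intro ξ hξ
    obtain ⟨i, -, rfl⟩ := hζ.eq_pow_of_pow_eq_one hξ
    rw [map_pow, ← hn₀, hn, pow_add, hξ, mul_one, ← pow_mul, ← pow_mul, mul_comm]
  refine ⟨σ, hσ, n, hn1, n - 1, ?_, ?_⟩
  · have : 0 < r ^ k := pow_pos hr.pos _
    rw [Nat.cast_sub (by omega), Nat.cast_one]
  · rw [Nat.coprime_comm, hr.coprime_iff_not_dvd]
    intro hd
    -- compare with the action on `μ_r`
    have hμ : IsPrimitiveRoot (ζ ^ (r ^ (k - 1))) r := by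
      refine hζ.pow (pow_pos hr.pos _) ?_
      rw [← pow_succ, Nat.sub_add_cancel (Nat.pos_of_ne_zero hk)]
    have h4 := hn1 (ζ ^ (r ^ (k - 1))) (by rw [← pow_mul, mul_comm, pow_mul, hζ.pow_eq_one, one_pow])
    have h5 := h2 (ζ ^ (r ^ (k - 1))) hμ.pow_eq_one
    rw [h4] at h5
    obtain ⟨t, ht⟩ := hd
    have hnpos : 0 < r ^ k := pow_pos hr.pos _
    have h6 : n = r * t + 1 := by omega
    have h7 : (ζ ^ (r ^ (k - 1))) ^ n = ζ ^ (r ^ (k - 1)) := by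
      rw [h6, pow_succ, pow_mul, hμ.pow_eq_one, one_pow, one_mul]
    rw [h7, pow_two] at h5
    have h8 : (ζ ^ (r ^ (k - 1))) ≠ 0 := hμ.ne_zero hr.ne_zero
    have h9 : ζ ^ (r ^ (k - 1)) = 1 := by
      have := mul_left_cancel₀ h8 (h5.symm.trans (mul_one _).symm)
      exact this
    exact hμ.ne_one hr.one_lt h9

theorem abstractCore (hc : CountThm) : AbstractCore := by
  intro N r hN hN5 hr hrN J _ _ _ _ K h c z n hn hnc hcr hcT hcfix hz A₂ A₃ A hA₂ hA₃ ℓ hℓ hℓN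
    hℓ2 hℓ3 hA hz₂ hz₃ hzc
  have hdvdN : ∀ q : ℕ, q.Prime → q ≠ N → ¬ q ∣ N := fun q hq hqN hd =>
    hqN ((Nat.prime_dvd_prime_iff_eq hq hN).mp hd)
  obtain ⟨B, hB⟩ : ∃ B : ℕ, ∀ k : ℕ, B ≤ k → ∀ ε : HeckeAlg,
      (∀ x : J, (r ^ k : ℕ) • x = 0 → ε • x ∈ WSub N r J k) →
      ∃ R : J, (∀ σ : GQ, σ • R = R) ∧ ε • z = (r ^ (k - B) : ℕ) • R := by
    by_cases hr2 : r = 2
    · exact core_aux hc h hr hN hN5 hrN z hz Nat.prime_three (hdvdN 3 Nat.prime_three (by omega))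
        (by omega) hA₃ hz₃
    · exact core_aux hc h hr hN hN5 hrN z hz Nat.prime_two (hdvdN 2 Nat.prime_two (by omega))
        (fun h2 => hr2 h2.symm) hA₂ hz₂
  have hℓN' := hdvdN ℓ hℓ hℓN
  obtain ⟨e, he⟩ := exists_frob_bound h hr hℓ hℓN' hA
  obtain ⟨a, n', hn', hnn'⟩ := Nat.exists_eq_pow_mul_and_not_dvd hn r hr.ne_one
  -- choose `k`
  obtain ⟨k, hk⟩ : ∃ k, k = B + e + a + 1 := ⟨_, rfl⟩
  obtain ⟨ε, hε1, hε2⟩ := exists_eps hr.ne_zero h.torsion_finite (N := N) k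
  obtain ⟨R, hRfix, hR⟩ := hB k (by omega) ε hε1
  obtain ⟨m', hm', hm'R⟩ := he R hRfix
  -- `m' ε c` reduces to zero
  have h1 : m' • (ε • z) ∈ K A := by
    have h2 : m' • (ε • z) = (r ^ (k - B - e) : ℕ) • ((m' * r ^ e) • R) := by
      rw [hR, smul_smul, smul_smul]
      congr 1
      conv_lhs => rw [show k - B = (k - B - e) + e by omega, pow_add]
      ring
    rw [h2]
    exact AddSubgroup.nsmul_mem _ hm'R _
  have h3 : m' • (ε • c) ∈ K A := by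
    have h4 : m' • (ε • c) = m' • (ε • z) - ε • (m' • (z - c)) := by
      rw [hecke_nsmul, smul_sub ε, smul_sub m']
      abel
    rw [h4]
    exact sub_mem h1 (h.hecke ℓ hℓ hℓN' A hA _ _ (AddSubgroup.nsmul_mem _ hzc _))
  -- the `r`-part of `c` lies in `W_k`
  have h5 : (r ^ a : ℕ) • (n' • c) = 0 := by rw [smul_smul, ← hnn', hnc]
  have h6 : n' • c ∈ WSub N r J k := by
    refine ⟨?_, a, fun t ht => ?_⟩
    · rw [hk, show B + e + a + 1 = (B + e + 1) + a by ring, pow_add, mul_smul, h5, smul_zero]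
    · obtain ⟨u, hu⟩ := hecke_pow_smul (y := n' • c) (fun q hq => by
        rw [hecke_nsmul, hcT q hq, smul_comm]) a t ht
      rw [hu, ← hecke_nsmul, h5, smul_zero]
  have h7 : (m' * n') • c ∈ K A := by
    have h8 : (m' * n') • c = n' • (m' • (ε • c)) := by
      rw [smul_comm n' m', ← hecke_nsmul, hε2 _ h6, mul_smul]
    rw [h8]
    exact AddSubgroup.nsmul_mem _ h3 _
  have h8 : (r ^ a : ℕ) • ((m' * n') • c) = 0 := by
    rw [mul_smul, smul_comm, h5, smul_zero]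
  have h9 : (m' * n') • c ≠ 0 := fun h0 =>
    (hr.dvd_mul.mp (hcr _ h0)).elim hm' hn'
  by_cases hℓr : ℓ = r
  · subst hℓr
    have hℓ5 : 3 ≤ ℓ := by
      have := hℓ.two_le
      omega
    obtain ⟨σ, hσ, n₁, hn₁, b, hb, hbr⟩ := exists_inertia_exponent hℓ hℓ5 hA (k := k) (by omega)
    have h10 : (m' * n') • c ∈ WSub N ℓ J k ⊓ K A :=
      ⟨by rw [mul_smul]; exact AddSubgroup.nsmul_mem _ h6 _, h7⟩
    have h11 := h.mult A hA k σ hσ n₁ hn₁ _ h10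
    have h12 : σ • ((m' * n') • c) = (m' * n') • c := by rw [smul_comm, hcfix]
    rw [h12] at h11
    have h13 : b • ((m' * n') • c) = 0 := by
      have h14 : n₁ = b + 1 := by omega
      rw [h14, add_smul, one_smul] at h11
      exact (add_eq_right.mp h11.symm)
    exact h9 (eq_zero_of_coprime (hbr.pow_right a) h13 h8)
  · exact h9 (h.torsion_inj ℓ hℓ hℓN' A hA (r ^ a) (fun hd =>
      hℓr ((Nat.prime_dvd_prime_iff_eq hℓ hr).mp (hℓ.dvd_of_dvd_pow hd))) _ h7 h8)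

end Fermat.Agent.H15
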