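import Mathlib
import Fermat.Agent.H15Final
import Fermat.Agent.H15Core
import Fermat.Agent.H9Core
import Fermat.Agent.H67Comm
import Fermat.Agent.H67Galois
import Fermat.Agent.H12Final

/-!
# MAZUR: glue (S15 from the inputs)
-/

set_option autoImplicit false
set_option linter.unusedSectionVars false

noncomputable section

namespace Fermat.Agent.H15

open ModularCurve AlgebraicCurve WeierstrassCurve
open scoped WeierstrassCurve.Affine

attribute [local instance] heckeModuleBar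
attribute [local instance] H67.smulCommClass_heckeAlg

/-- assembly of the inputs -/
theorem core (h1 : T_basic) (h2 : T_heckeRed) (h3 : T_torsRed) (h4 : T_divRed) (h5 : T_noEis)
    (h6 : T_ss) (h7 : T_cardW) (h8 : T_cardMult) (h9 : T_cardN) (h10 : T_mult) (h11 : T_unitR) :
    T_core := by
  intro N _ hN hN5 r hr hrN
  obtain ⟨t, ht, -⟩ := h7 N hN r hr hrN
  exact
    { toBasicInputs := h1 N
      hecke := h2 N
      tors := h3 N
      div := h4 N
      noEis := h5 N hN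
      ss := h6 N hN
      card := ⟨t, ht, h8 N hN r hr hrN t ht, h9 N hN r hr hrN t ht⟩
      mult := h10 N hN r hr hrN
      unit_r := h11 N hN r hr hrN }

theorem smul_diffClass {N : ℕ} [NeZero N] {x y : Place Qb (modularFunctionFieldBar N)}
    {z : JZero N} (hz : IsDiffClass N x y z) (σ : GQ)
    (hx : arithmeticGalois (modularFunctionFieldFull N) σ • x = x)
    (hy : arithmeticGalois (modularFunctionFieldFull N) σ • y = y) : σ • z = z := by
  obtain ⟨h, rfl⟩ := hz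
  rw [galois_smul_pic0_def, SemilinearAut.pic0_smul_mk]
  congr 1
  apply Subtype.ext
  show arithmeticGalois (modularFunctionFieldFull N) σ •
    (Finsupp.single x 1 - Finsupp.single y 1 : Divisor Qb (modularFunctionFieldBar N)) = _
  rw [smul_sub, SemilinearAut.smul_single, SemilinearAut.smul_single, hx, hy]

theorem neg_hyps {J : Type} [AddCommGroup J] [Module HeckeAlg J] [DistribMulAction GQ J]
    {N r n : ℕ} {c : J} (h1 : n • c = 0) (h2 : ∀ m : ℕ, m • c = 0 → r ∣ m)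
    (h3 : ∀ q : Nat.Primes, (q : ℕ) ≠ N → heckeGen q • c = (1 + (q : ℕ)) • c)
    (h4 : ∀ σ : GQ, σ • c = c) :
    n • (-c) = 0 ∧ (∀ m : ℕ, m • (-c) = 0 → r ∣ m) ∧
      (∀ q : Nat.Primes, (q : ℕ) ≠ N → heckeGen q • (-c) = (1 + (q : ℕ)) • (-c)) ∧
      ∀ σ : GQ, σ • (-c) = -c := by
  refine ⟨by rw [smul_neg, h1, neg_zero], fun m hm => h2 m ?_, fun q hq => ?_, fun σ => ?_⟩
  · rw [smul_neg, neg_eq_zero] at hm
    exact hm
  · rw [smul_neg, h3 q hq, smul_neg]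
  · rw [smul_neg, h4]

theorem s15_of (hA : AbstractCore) (hJ : T_core) (hP : T_modPlace) : H12.S15Statement := by
  intro N hN hN' W hΔ Q hQ hQN h2Δ h2c h2 h3Δ h3c h3 ℓ hℓ hℓN hℓΔ hℓc A hAℓ hzero
  have : Fact N.Prime := ⟨hN⟩
  have : NeZero N := ⟨hN.ne_zero⟩
  have hN5 : 5 ≤ N := by
    by_contra hlt
    have : N < 5 := by omega
    have h2N := hN.two_le
    have h3N : N ≠ 2 := fun h => hN' (by simp [h])
    have h4N : N ≠ 3 := fun h => hN' (by simp [h])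
    have h5N : N = 4 := by omega
    rw [h5N] at hN
    exact absurd hN (by norm_num)
  have hℓ2 : ℓ ≠ 2 := by
    rintro rfl
    exact h2 A hAℓ hzero
  have hℓ3 : ℓ ≠ 3 := by
    rintro rfl
    exact h3 A hAℓ hzero
  have hN2 : 2 ≠ N := by omega
  have hN3 : 3 ≠ N := by omega
  obtain ⟨r, x₀, x₁, c, hr, hrN, hx0, hx1, hc, hNc, hrc, hcfix, hcT⟩ := H9.cusp2 N hN hN'
  obtain ⟨i, o, S⟩ := H9.exists_cuspSpecBar N
  have hx0' := S.eq_zero hx0
  have hx1' := S.eq_inf hx1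
  obtain ⟨x, hxfix, hx⟩ := hP N hN hN' W hΔ Q hQ hQN
  have hdeg : ∀ v w : Place Qb (modularFunctionFieldBar N),
      (Finsupp.single v 1 - Finsupp.single w 1 : Divisor Qb (modularFunctionFieldBar N)) ∈
        Divisor.degZero := fun v w => by
    rw [Divisor.mem_degZero, map_sub, Divisor.degree_single, Divisor.degree_single, S.deg_eq,
      S.deg_eq, sub_self]
  -- the class of `x`
  have hz : IsDiffClass N x x₀ (Pic0.mk ⟨_, hdeg x x₀⟩) := ⟨hdeg x x₀, rfl⟩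
  have hz1 : IsDiffClass N x x₁ (Pic0.mk ⟨_, hdeg x x₁⟩) := ⟨hdeg x x₁, rfl⟩
  obtain ⟨A₂, hA₂⟩ := H70.exists_liesOverPrime (L := Qb) Nat.prime_two
  obtain ⟨A₃, hA₃⟩ := H70.exists_liesOverPrime (L := Qb) Nat.prime_three
  have hz2 := (hx x₀ x₁ hx0 hx1 2 Nat.prime_two hN2 (by exact_mod_cast h2Δ)
    (by exact_mod_cast h2c) A₂ hA₂).1 (h2 A₂ hA₂) _ hz
  have hz3 := (hx x₀ x₁ hx0 hx1 3 Nat.prime_three hN3 (by exact_mod_cast h3Δ)
    (by exact_mod_cast h3c) A₃ hA₃).1 (h3 A₃ hA₃) _ hz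
  have hzℓ := (hx x₀ x₁ hx0 hx1 ℓ hℓ hℓN hℓΔ hℓc A hAℓ).2 hzero _ hz1
  have hsum : (Pic0.mk ⟨_, hdeg x x₁⟩ : JZero N) = Pic0.mk ⟨_, hdeg x x₀⟩ - (-c) := by
    obtain ⟨hc', rfl⟩ := hc
    rw [sub_neg_eq_add]
    have : (⟨_, hdeg x x₁⟩ : Divisor.degZero (K := Qb) (F := modularFunctionFieldBar N)) =
        ⟨_, hdeg x x₀⟩ + ⟨_, hc'⟩ := by
      apply Subtype.ext
      show (Finsupp.single x 1 - Finsupp.single x₁ 1 : Divisor Qb (modularFunctionFieldBar N)) =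
        (Finsupp.single x 1 - Finsupp.single x₀ 1) + (Finsupp.single x₀ 1 - Finsupp.single x₁ 1)
      abel
    rw [this]
    rfl
  rw [hsum] at hzℓ
  obtain ⟨c1, c2, c3, c4⟩ := neg_hyps (N := N) hNc hrc hcT hcfix
  exact hA N r hN hN5 hr hrN (JZero N) (KJ N) (hJ N hN hN5 r hr hrN) (-c)
    (Pic0.mk ⟨_, hdeg x x₀⟩) (N - 1) (by omega) c1 c2 c3 c4
    (fun σ => smul_diffClass hz σ (hxfix σ) (by rw [hx0']; exact (S.smul_cusp σ).2))
    A₂ A₃ A hA₂ hA₃ ℓ hℓ hℓN hℓ2 hℓ3 hAℓ hz2 hz3 hzℓ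

end Fermat.Agent.H15
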