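import Fermat.Agent.H15Defs
import Fermat.Agent.H18S18
import Fermat.Agent.H19Main
import Fermat.Agent.H23RedPic
import Fermat.Agent.S19

/-!
# MZ-J4: points of the reduction of `J₀(N)` lift to inertia invariant points (helper18)

* `exists_goodRedModL`: a `H19.GoodRed` whose reduction of places is `placeReductionModL`;
* `redPic0_eq`: its reduction of classes is `reductionModL`;
* `surjRed : H15.T_surjRed`.
-/

set_option autoImplicit false
set_option synthInstance.maxHeartbeats 400000
set_option maxHeartbeats 4000000

noncomputable section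

open AlgebraicCurve ModularCurve WithZero

namespace Fermat.Agent.H18

open Fermat.Agent.H40 Fermat.Agent.H94 Fermat.Agent.H19 Fermat.Agent.H23

local notation "Qb" => AlgebraicClosure ℚ

/-- the good reduction data of `X₀(N)` with the reduction of places of the Prelude -/
theorem exists_goodRedModL {A : ValuationSubring Qb} {N : ℕ} [NeZero N]
    (hdeg : H42.DegLE Qb (IsLocalRing.ResidueField A) N) (hg : H42.GenusEq N A)
    (h : ReductionInputsModL A N) :
    ∃ S : GoodRed Qb (modularFunctionFieldBar N) (IsLocalRing.ResidueField A)
      (modularFunctionFieldFullC (IsLocalRing.ResidueField A) N),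
      S.toReductionData = H42.modRed hdeg ∧ S.r = placeReductionModL h := by
  have := H42.funField_left (k := IsLocalRing.ResidueField A) N hdeg
  have := H42.funField_right (L := Qb) N hdeg
  have hk : IsAlgClosed (IsLocalRing.ResidueField A) := isAlgClosed_residueField A
  obtain ⟨S₀, hS₀⟩ := exists_goodRed hdeg hg
  have hr : PlaceCompat (H42.modRed hdeg) (placeReductionModL h) :=
    placeCompat_of_isPlaceReductionAlong A (IsLocalRing.residue A) N
      IsLocalRing.residue_surjective hdeg (isPlaceReductionModL_placeReductionModL h)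
  have hdF : ∀ v : Place Qb (modularFunctionFieldBar N), v.deg = 1 := H94.deg_eq_one
  have hdE : ∀ v : Place (IsLocalRing.ResidueField A)
    (modularFunctionFieldFullC (IsLocalRing.ResidueField A) N), v.deg = 1 := H94.deg_eq_one
  have := S₀.pdF
  have := S₀.pdE
  exact ⟨{ toReductionData := H42.modRed hdeg
           g := S₀.g
           c := S₀.c
           r := placeReductionModL h
           pdF := S₀.pdF
           pdE := S₀.pdE
           riemF := S₀.riemF
           riemE := S₀.riemE
           isRed := fun D hD => ⟨H18.degree_mapDomain hdF hdE D,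
             red_eq S₀.riemF S₀.riemE hdF hdE hr hD.le⟩
           div_red := hr }, rfl, rfl⟩

theorem redPic0_eq {A : ValuationSubring Qb} {N : ℕ} [NeZero N]
    [IsAlgClosed (IsLocalRing.ResidueField A)]
    [H94.FunField (IsLocalRing.ResidueField A)
      (modularFunctionFieldFullC (IsLocalRing.ResidueField A) N)]
    (h : ReductionInputsModL A N)
    (S : GoodRed Qb (modularFunctionFieldBar N) (IsLocalRing.ResidueField A)
      (modularFunctionFieldFullC (IsLocalRing.ResidueField A) N))
    (hr : S.r = placeReductionModL h) (x : JZero N) :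
    redPic0 S x = reductionModL A N x := by
  obtain ⟨D, rfl⟩ := Pic0.mk_surjective x
  rw [redPic0_mk, reductionModL_mk h]
  congr 1
  apply Subtype.ext
  rw [coe_redDegZero, coe_reductionDegZeroAlong, hr]

/-- **MZ-J4**: points of the reduction lift to inertia invariant points -/
theorem surjRed : H15.T_surjRed := by
  intro N _ ℓ hℓ hℓN A hA x
  have : Fact ℓ.Prime := ⟨hℓ⟩
  have hg : H42.GenusEq N A := S19.genusEqAt N (NeZero.ne N) hℓ hℓN A hA
  have hdeg := H42.degLE_place hℓ hA hℓN
  have h := H42.reductionInputsModL_of_genusEq hℓ hA hℓN hg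
  have := H42.funField_left (k := IsLocalRing.ResidueField A) N hdeg
  have := H42.funField_right (L := Qb) N hdeg
  obtain ⟨S, hS, hr⟩ := exists_goodRedModL hdeg hg h
  obtain ⟨I, hI⟩ := modInertiaAction_Pinf hA hdeg S hS
  obtain ⟨y, hy, hyΓ⟩ := exists_fixed_class I (redPic0 S x)
  refine ⟨y, fun σ hσ => ?_, ?_⟩
  · exact hyΓ _ ⟨σ, hσ, rfl⟩
  · show reductionModL A N (x - y) = 0
    rw [← redPic0_eq h S hr, map_sub, hy, sub_self]

end Fermat.Agent.H18
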