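import Fermat.Agent.H15Abs
import Fermat.Agent.H05_ModPlace
import Fermat.Agent.H17DivRed
import Fermat.Agent.H95TorsRed
import Fermat.Agent.H18J4

/-!
# MAZUR: assembly (first part)
-/

set_option autoImplicit false

namespace Fermat.Agent.H15

theorem s15_of_core (hJ : T_core) : H12.S15Statement := s15_of_inputs hJ H05.modPlace

theorem core_of (h1 : T_basic) (h2 : T_heckeRed) (h5 : T_noEis) (h6 : T_ss) (h7 : T_cardW)
    (h8 : T_cardMult) (h9 : T_cardN) (h10 : T_mult) (h11 : T_unitR) : T_core :=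
  core h1 h2 H95.torsRed H17.divRed h5 h6 h7 h8 h9 h10 h11

end Fermat.Agent.H15
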