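import Mathlib
import Fermat.Agent.H15Defs
import Fermat.Agent.H47KummerCount
import Fermat.Agent.H85JH
import Fermat.Agent.H43Place
import Fermat.Agent.H45ResImage

/-!
# MAZUR (R3): the Kummer classes cut out at `r` are units (unramified norm trick)
-/

set_option autoImplicit false

namespace Fermat.Agent.H47

open Fermat.Agent.H15
open Fermat.Agent.H91 hiding Qb GQ
open scoped Pointwise

section norm

variable (N : ℕ) (J : Type) [AddCommGroup J] [DistribMulAction GQ J]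

/-- (J6) elements of the kernel of reduction are norms from unramified extensions -/
def NormRed (K : ValuationSubring Qb → AddSubgroup J) : Prop :=
  ∀ ℓ : ℕ, ℓ.Prime → ¬ ℓ ∣ N → ∀ A : ValuationSubring Qb, A.LiesOverPrime ℓ →
    ∀ φ : GQ, A.IsFrobeniusAt φ ℓ → ∀ x ∈ K A,
      (∀ σ ∈ A.inertiaSubgroupIn ℚ, σ • x = x) →
      ∀ m s₀ : ℕ, 0 < m → 0 < s₀ → ∃ s : ℕ, 0 < s ∧ s₀ ∣ s ∧ ∃ y ∈ K A,
        (∀ σ ∈ A.inertiaSubgroupIn ℚ, σ • y = y) ∧
          x = ∑ j ∈ Finset.range m, (φ ^ (s * j)) • y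

end norm

theorem pow_smul_eq_self {G X : Type*} [Group G] [MulAction G X] {g : G} {x : X} (h : g • x = x)
    (n : ℕ) : g ^ n • x = x := by
  induction n with
  | zero => rw [pow_zero, one_smul]
  | succ n ih => rw [pow_succ, mul_smul, h, ih]

/-- a power of `φ` acts trivially on a finite set of points and on the `m`-th roots of unity -/
theorem exists_pow_trivial {N : ℕ} {J : Type} [AddCommGroup J] [Module ModularCurve.HeckeAlg J]
    [DistribMulAction GQ J] {K : ValuationSubring Qb → AddSubgroup J} (hB : BasicInputs N J K)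
    {s : Set J} (hs : s.Finite) {m : ℕ} (hm : 0 < m) (φ : GQ) :
    ∃ s₀ : ℕ, 0 < s₀ ∧ ∀ t : ℕ, s₀ ∣ t →
      (∀ x ∈ s, φ ^ t • x = x) ∧ ∀ ζ : Qb, ζ ^ m = 1 → (φ ^ t) ζ = ζ := by
  obtain ⟨L, hL, hLs⟩ := H85.exists_level hB s hs
  have : NeZero m := ⟨hm.ne'⟩
  obtain ⟨z, hz⟩ := HasEnoughRootsOfUnity.exists_primitiveRoot Qb m
  have hfd : FiniteDimensional ℚ (IntermediateField.adjoin ℚ {z}) :=
    IntermediateField.adjoin.finiteDimensional (Algebra.IsAlgebraic.isAlgebraic z).isIntegral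
  set E := L ⊔ IntermediateField.adjoin ℚ {z} with hE
  have hEfd : FiniteDimensional ℚ E := inferInstance
  have hfin := H43.finite_quotient_fixingSubgroup E
  have hFI : E.fixingSubgroup.FiniteIndex := Subgroup.finiteIndex_of_finite_quotient
  have hidx : E.fixingSubgroup.index ≠ 0 := hFI.index_ne_zero
  obtain ⟨n, hn, -, hφn⟩ := Subgroup.exists_pow_mem_of_index_ne_zero hidx φ
  refine ⟨n, hn, ?_⟩
  rintro t ⟨c, rfl⟩
  have hmem : φ ^ (n * c) ∈ E.fixingSubgroup := by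
    rw [pow_mul]
    exact pow_mem hφn c
  rw [IntermediateField.mem_fixingSubgroup_iff] at hmem
  refine ⟨fun x hx => hLs _ (fun y hy => hmem y ?_) x hx, fun ζ hζ => ?_⟩
  · exact (le_sup_left : L ≤ E) hy
  · obtain ⟨i, -, rfl⟩ := hz.eq_pow_of_pow_eq_one hζ
    rw [map_pow, hmem z ((le_sup_right : _ ≤ E) (IntermediateField.mem_adjoin_simple_self ℚ z))]

theorem iterate_div {J : Type} [AddCommGroup J] {S : AddSubgroup J} {r : ℕ}
    (h : ∀ x ∈ S, ∃ y ∈ S, r • y = x) (k : ℕ) : ∀ x ∈ S, ∃ y ∈ S, (r ^ k : ℕ) • y = x := by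
  induction k with
  | zero => exact fun x hx => ⟨x, hx, by simp⟩
  | succ k ih =>
    intro x hx
    obtain ⟨y, hy, rfl⟩ := h x hx
    obtain ⟨z, hz, rfl⟩ := ih y hy
    exact ⟨z, hz, by rw [pow_succ', mul_smul]⟩

section main

variable {N r : ℕ} {J : Type} [AddCommGroup J] [Module ModularCurve.HeckeAlg J]
  [DistribMulAction GQ J] {K : ValuationSubring Qb → AddSubgroup J}

theorem pow_left_inj_val {Γ : Type*} [LinearOrderedCommGroupWithZero Γ] {a b : Γ} {n : ℕ}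
    (hn : n ≠ 0) (h : a ^ n = b ^ n) : a = b := by
  rcases lt_trichotomy a b with hlt | heq | hgt
  · exact absurd h (pow_lt_pow_left₀ hlt zero_le hn).ne
  · exact heq
  · exact absurd h (pow_lt_pow_left₀ hgt zero_le hn).ne'

theorem valuation_eq_one_of_pow {A : ValuationSubring Qb} {n : ℕ} (hn : n ≠ 0) {ζ : Qb}
    (h : ζ ^ n = 1) : A.valuation ζ = 1 := by
  have h1 := congrArg A.valuation h
  rw [map_pow, map_one] at h1
  exact pow_left_inj_val hn (by rw [h1, one_pow])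

theorem val_eq_one_iff_mem_inv {L : Type*} [Field L] (A : ValuationSubring L) {x : L}
    (hx : x ≠ 0) : A.valuation x = 1 ↔ x ∈ A ∧ x⁻¹ ∈ A := by
  rw [← A.valuation_le_one_iff, ← A.valuation_le_one_iff, map_inv₀]
  have h0 : 0 < A.valuation x := zero_lt_iff.2 ((Valuation.ne_zero_iff _).2 hx)
  constructor
  · intro h
    rw [h, inv_one]
    exact ⟨le_rfl, le_rfl⟩
  · rintro ⟨h1, h2⟩
    exact le_antisymm h1 ((inv_le_one₀ h0).1 h2)

/-- an element of the decomposition group preserves the valuation of elements some power of which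
has the valuation of a power of `r` -/
theorem valuation_apply_eq {A : ValuationSubring Qb} {r : ℕ} (hr : r ≠ 0) {n : ℕ} (hn : n ≠ 0)
    {x : Qb} {m : ℤ} (hx : A.valuation x ^ n = A.valuation (r : Qb) ^ m) {τ : GQ}
    (hτ : τ • A = A) : A.valuation (τ x) = A.valuation x := by
  have hr0 : (r : Qb) ≠ 0 := by exact_mod_cast hr
  have hx0 : x ≠ 0 := by
    rintro rfl
    rw [map_zero, zero_pow hn] at hx
    exact zpow_ne_zero m ((Valuation.ne_zero_iff _).2 hr0) hx.symm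
  apply pow_left_inj_val hn
  have key : ∀ y : Qb, A.valuation y = 1 → A.valuation (τ y) = 1 := by
    intro y hy
    have hy0 : y ≠ 0 := by
      rintro rfl
      rw [map_zero] at hy
      exact zero_ne_one hy
    rw [val_eq_one_iff_mem_inv A hy0] at hy
    rw [val_eq_one_iff_mem_inv A ((map_ne_zero τ).2 hy0)]
    refine ⟨(H43.apply_mem_iff hτ y).2 hy.1, ?_⟩
    rw [← map_inv₀]
    exact (H43.apply_mem_iff hτ _).2 hy.2
  have h1 : A.valuation (x ^ n / (r : Qb) ^ m) = 1 := by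
    rw [map_div₀, map_pow, map_zpow₀, hx, div_self (zpow_ne_zero m ((Valuation.ne_zero_iff _).2 hr0))]
  have h2 := key _ h1
  rw [map_div₀, map_pow, map_zpow₀, map_natCast, map_div₀, map_pow, map_zpow₀,
    div_eq_one_iff_eq (zpow_ne_zero m ((Valuation.ne_zero_iff _).2 hr0))] at h2
  rw [h2, hx]

/-- **(R3)** -/
theorem unitR_of [SMulCommClass GQ ModularCurve.HeckeAlg J] (hr : r.Prime) (hrN : ¬ r ∣ N)
    (hB : BasicInputs N J K) (hS : SurjRed N J K) (hD : DivRed N J K) (hH : HeckeRed N J K)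
    (hM : MultChar N r J K) (hN : NormRed N J K) : UnitR N r J K := by
  intro A hA k ψ R κ hR hκ
  set I := A.inertiaSubgroupIn ℚ with hI
  have hq0 : (r ^ k : ℕ) ≠ 0 := pow_ne_zero _ hr.ne_zero
  -- Step 1
  obtain ⟨Q, hQ, hRQ⟩ := hS r hr hrN A hA R
  have hDK : ∀ τ : GQ, τ • A = A → ∀ x ∈ K A, τ • x ∈ K A := fun τ hτ x hx =>
    hB.galois r hr hrN A hA τ hτ x hx
  have hIA : ∀ σ ∈ I, σ • A = A := fun σ hσ => H43.inertia_le hσ
  let M : AddSubgroup J :=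
    { carrier := {x | x ∈ K A ∧ (r ^ k : ℕ) • x = 0}
      zero_mem' := ⟨zero_mem _, smul_zero _⟩
      add_mem' := fun {x y} hx hy => ⟨add_mem hx.1 hy.1, by rw [smul_add, hx.2, hy.2, add_zero]⟩
      neg_mem' := fun {x} hx => ⟨neg_mem hx.1, by rw [smul_neg, hx.2, neg_zero]⟩ }
  obtain ⟨ε, hε1, hε2⟩ := H85.exists_epsilon N r J k (hB.torsion_finite _ hq0)
  have hεG : ∀ x ∈ M, ε • x ∈ WSub N r J k ⊓ K A := fun x hx =>
    ⟨hε1 x hx.2, hH r hr hrN A hA ε x hx.1⟩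
  let e : M →+ (WSub N r J k ⊓ K A : AddSubgroup J) :=
    { toFun := fun x => ⟨ε • (x : J), hεG x x.2⟩
      map_zero' := Subtype.ext (smul_zero _)
      map_add' := fun x y => Subtype.ext (smul_add _ _ _) }
  let ψ' : M →+ Additive Qbˣ := ψ.comp e
  have hψ' : ∀ (x : J) (hx : x ∈ WSub N r J k ⊓ K A) (hx' : x ∈ M), ψ' ⟨x, hx'⟩ = ψ ⟨x, hx⟩ := by
    intro x hx hx'
    exact congrArg ψ (Subtype.ext (hε2 x hx.1))
  have hψtor : ∀ x : M, (r ^ k : ℕ) • ψ' x = 0 := by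
    intro x
    rw [← map_nsmul, show (r ^ k : ℕ) • x = 0 from Subtype.ext x.2.2, map_zero]
  have hMI : ∀ σ ∈ I, ∀ x ∈ M, σ • x ∈ M := fun σ hσ x hx =>
    ⟨hDK σ (hIA σ hσ) x hx.1, by rw [smul_comm, hx.2, smul_zero]⟩
  have hψσ : ∀ σ ∈ I, ∀ (x : J) (hx : x ∈ M) (hx' : σ • x ∈ M),
      ψ' ⟨σ • x, hx'⟩ = σ • ψ' ⟨x, hx⟩ := by
    intro σ hσ x hx hx'
    obtain ⟨n, hn⟩ := H45.exists_pow_of_rootsOfUnity hq0 σ
    have h1 := hM A hA k σ hσ n hn (ε • x) (hεG x hx)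
    have h2 : e ⟨σ • x, hx'⟩ = n • e ⟨x, hx⟩ := by
      apply Subtype.ext
      show ε • σ • x = n • (ε • x)
      rw [← h1]
      exact (smul_comm σ ε x).symm
    have h3 : ψ' ⟨σ • x, hx'⟩ = n • ψ' ⟨x, hx⟩ := by
      show ψ (e ⟨σ • x, hx'⟩) = n • ψ (e ⟨x, hx⟩)
      rw [h2, map_nsmul]
    rw [h3]
    apply uval_injective
    rw [uval_nsmul, uval_smul]
    refine (hn _ ?_).symm
    rw [← uval_nsmul, hψtor, uval_zero]
  -- the group of points whose multiple is fixed by inertia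
  let N0 : AddSubgroup J :=
    { carrier := {X | X ∈ K A ∧ ∀ σ ∈ I, σ • ((r ^ k : ℕ) • X) = (r ^ k : ℕ) • X}
      zero_mem' := ⟨zero_mem _, fun σ _ => by rw [smul_zero, smul_zero]⟩
      add_mem' := fun {x y} hx hy => ⟨add_mem hx.1 hy.1, fun σ hσ => by
        rw [smul_add, smul_add, hx.2 σ hσ, hy.2 σ hσ]⟩
      neg_mem' := fun {x} hx => ⟨neg_mem hx.1, fun σ hσ => by
        rw [smul_neg, smul_neg, hx.2 σ hσ]⟩ }
  have hNM : ∀ σ ∈ I, ∀ X ∈ N0, σ • X - X ∈ M := fun σ hσ X hX =>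
    ⟨sub_mem (hDK σ (hIA σ hσ) X hX.1) hX.1, by
      rw [smul_sub, smul_comm, hX.2 σ hσ, sub_self]⟩
  let θ : ∀ σ ∈ I, N0 →+ Additive Qbˣ := fun σ hσ =>
    { toFun := fun X => ψ' ⟨σ • (X : J) - X, hNM σ hσ X X.2⟩
      map_zero' := by
        rw [← map_zero ψ']
        congr 1
        apply Subtype.ext
        show σ • (0 : J) - 0 = 0
        rw [smul_zero, sub_zero]
      map_add' := fun X Y => by
        rw [← map_add ψ']
        congr 1
        apply Subtype.ext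
        show σ • ((X : J) + Y) - (X + Y) = (σ • (X : J) - X) + (σ • (Y : J) - Y)
        rw [smul_add]
        abel }
  have hθ : ∀ (σ : GQ) (hσ : σ ∈ I) (X : J) (hX : X ∈ N0),
      θ σ hσ ⟨X, hX⟩ = ψ' ⟨σ • X - X, hNM σ hσ X hX⟩ := fun _ _ _ _ => rfl
  -- Frobenius
  obtain ⟨φ, hφ⟩ := H54.exists_isFrobeniusAt hr hA
  have hφA : φ • A = A := hφ.mem_decompositionSubgroup
  obtain ⟨s₀, hs₀, hs₀'⟩ := exists_pow_trivial hB (hB.torsion_finite _ hq0)
    (Nat.pos_of_ne_zero hq0) φ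
  set R₁ := R - Q with hR₁
  have hR₁σ : ∀ σ ∈ I, σ • R₁ - R₁ = σ • R - R := fun σ hσ => by
    rw [hR₁, smul_sub, hQ σ hσ]; abel
  have hR₁N : R₁ ∈ N0 := ⟨hRQ, fun σ hσ => by
    rw [hR₁, smul_sub, smul_sub, hR σ hσ, smul_comm, hQ σ hσ]⟩
  obtain ⟨s, hs, hs0, P', hP'K, hP'I, hP'⟩ := hN r hr hrN A hA φ hφ ((r ^ k : ℕ) • R₁)
    ((K A).nsmul_mem hRQ _) hR₁N.2 (r ^ k) s₀ (Nat.pos_of_ne_zero hq0) hs₀
  obtain ⟨R', hR'K, hR'⟩ := iterate_div (fun x hx => hD r hr hrN A hA r hr x hx) k P' hP'K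
  set F : ℕ → GQ := fun j => φ ^ (s * j) with hF
  have hFA : ∀ j, F j • A = A := fun j => pow_smul_eq_self hφA _
  have hF1 : ∀ j, ∀ x : J, (r ^ k : ℕ) • x = 0 → F j • x = x := fun j x hx =>
    (hs₀' _ (hs0.mul_right j)).1 x hx
  have hF2 : ∀ j, ∀ ζ : Qb, ζ ^ (r ^ k) = 1 → F j ζ = ζ := fun j =>
    (hs₀' _ (hs0.mul_right j)).2
  have hconj : ∀ j, ∀ σ ∈ I, (F j)⁻¹ * σ * F j ∈ I := fun j σ hσ =>
    H43.conj_mem_inertia hσ (hFA j)
  have hconj' : ∀ j, ∀ σ : GQ, σ * F j = F j * ((F j)⁻¹ * σ * F j) := fun j σ => by group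
  have hR'0 : R' ∈ N0 := ⟨hR'K, fun σ hσ => by rw [hR', hP'I σ hσ]⟩
  have hFR' : ∀ j, F j • R' ∈ N0 := fun j => ⟨hDK _ (hFA j) _ hR'K, fun σ hσ => by
    rw [smul_comm (r ^ k) (F j), hR', ← mul_smul, hconj', mul_smul, hP'I _ (hconj j σ hσ)]⟩
  have hsumN : ∑ j ∈ Finset.range (r ^ k), F j • R' ∈ N0 := sum_mem fun j _ => hFR' j
  set S := R₁ - ∑ j ∈ Finset.range (r ^ k), F j • R' with hSdef
  have hSM : S ∈ M := by
    refine ⟨sub_mem hRQ hsumN.1, ?_⟩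
    rw [hSdef, smul_sub, Finset.smul_sum, hP', sub_eq_zero]
    refine Finset.sum_congr rfl fun j _ => ?_
    rw [smul_comm (r ^ k) (F j), hR']
  have hSN : S ∈ N0 := sub_mem hR₁N hsumN
  -- the cocycle of `R'`
  have hlev : ∃ V ∈ krullFam.carrier, ∀ g ∈ V, g • R' = R' := by
    obtain ⟨L, hL, hLs⟩ := H85.exists_level hB {R'} (Set.finite_singleton _)
    exact ⟨_, ⟨L, hL, rfl⟩, fun g hg =>
      hLs g ((IntermediateField.mem_fixingSubgroup_iff L g).1 hg) R' rfl⟩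
  obtain ⟨a, ha⟩ := (faithfulOn_krullFam.restrict I).h90
    (fun σ : I => θ σ σ.2 ⟨R', hR'0⟩) (by
      intro g h
      show ψ' ⟨((g : GQ) * h) • R' - R', _⟩ = g • ψ' ⟨(h : GQ) • R' - R', _⟩ +
        ψ' ⟨(g : GQ) • R' - R', _⟩
      have h1 := hψσ g g.2 ((h : GQ) • R' - R') (hNM h h.2 R' hR'0)
        (hMI g g.2 _ (hNM h h.2 R' hR'0))
      have h2 : g • ψ' ⟨(h : GQ) • R' - R', hNM h h.2 R' hR'0⟩ =
        (g : GQ) • ψ' ⟨(h : GQ) • R' - R', hNM h h.2 R' hR'0⟩ := rfl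
      rw [h2, ← h1, ← map_add ψ']
      congr 1
      apply Subtype.ext
      show ((g : GQ) * h) • R' - R' = (g : GQ) • ((h : GQ) • R' - R') + ((g : GQ) • R' - R')
      rw [mul_smul, smul_sub]
      abel)
    (by
      obtain ⟨V, hV, hV'⟩ := hlev
      refine ⟨_, ⟨V, hV, rfl⟩, fun g s hs => ?_⟩
      show ψ' ⟨((g : GQ) * s) • R' - R', _⟩ = ψ' ⟨(g : GQ) • R' - R', _⟩
      congr 1
      apply Subtype.ext
      show ((g : GQ) * s) • R' - R' = (g : GQ) • R' - R'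
      rw [mul_smul, show (s : GQ) • R' = R' from hV' _ hs])
  have ha' : ∀ σ (hσ : σ ∈ I), θ σ hσ ⟨R', hR'0⟩ = σ • a - a := fun σ hσ => ha ⟨σ, hσ⟩
  -- the cocycle of `F j • R'`
  have hθF : ∀ j, ∀ σ (hσ : σ ∈ I), θ σ hσ ⟨F j • R', hFR' j⟩ = σ • F j • a - F j • a := by
    intro j σ hσ
    have h1 := ha' _ (hconj j σ hσ)
    have h2 : θ σ hσ ⟨F j • R', hFR' j⟩ = θ _ (hconj j σ hσ) ⟨R', hR'0⟩ := by
      rw [hθ σ hσ, hθ _ (hconj j σ hσ)]
      congr 1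
      apply Subtype.ext
      show σ • F j • R' - F j • R' = ((F j)⁻¹ * σ * F j) • R' - R'
      have h3 := hF1 j (((F j)⁻¹ * σ * F j) • R' - R') (hNM _ (hconj j σ hσ) R' hR'0).2
      rw [← h3, smul_sub, ← mul_smul (F j), ← hconj', mul_smul]
    have h4 : F j • (((F j)⁻¹ * σ * F j) • a - a) = ((F j)⁻¹ * σ * F j) • a - a := by
      apply uval_injective
      rw [uval_smul]
      refine hF2 j _ ?_
      rw [← uval_nsmul, ← h1, hθ _ (hconj j σ hσ), hψtor, uval_zero]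
    rw [h2, h1, ← h4, smul_sub, ← mul_smul (F j), ← hconj', mul_smul]
  have hθS : ∀ σ (hσ : σ ∈ I), θ σ hσ ⟨S, hSN⟩ = σ • ψ' ⟨S, hSM⟩ - ψ' ⟨S, hSM⟩ := by
    intro σ hσ
    rw [hθ σ hσ, ← hψσ σ hσ S hSM (hMI σ hσ S hSM), ← map_sub ψ']
    rfl
  set b : Additive Qbˣ := (∑ j ∈ Finset.range (r ^ k), F j • a) + ψ' ⟨S, hSM⟩ with hb
  have hθR : ∀ σ (hσ : σ ∈ I), θ σ hσ ⟨R₁, hR₁N⟩ = σ • b - b := by
    intro σ hσ
    have h1 : (⟨R₁, hR₁N⟩ : N0) =
        (∑ j ∈ Finset.range (r ^ k), ⟨F j • R', hFR' j⟩) + ⟨S, hSN⟩ := by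
      apply Subtype.ext
      rw [AddSubgroup.coe_add, AddSubgroup.val_finsetSum]
      show R₁ = (∑ j ∈ Finset.range (r ^ k), F j • R') + S
      rw [hSdef]
      abel
    rw [h1, map_add, map_sum, Finset.sum_congr rfl fun j _ => hθF j σ hσ, hθS σ hσ, hb, smul_add,
      Finset.smul_sum, Finset.sum_sub_distrib]
    abel
  -- compare with `κ`
  have hκb : ∀ σ ∈ I, σ • (umk (κ : Qb) κ.ne_zero - b) = umk (κ : Qb) κ.ne_zero - b := by
    intro σ hσ
    obtain ⟨h1, h2⟩ := hκ σ hσ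
    have h3 : ψ ⟨_, h1⟩ = σ • umk (κ : Qb) κ.ne_zero - umk (κ : Qb) κ.ne_zero := by
      apply uval_injective
      rw [uval_sub, uval_smul, uval_umk, eq_div_iff κ.ne_zero]
      exact h2
    have h4 : θ σ hσ ⟨R₁, hR₁N⟩ = ψ ⟨_, h1⟩ := by
      have h5 : σ • R - R ∈ M := by
        rw [← hR₁σ σ hσ]
        exact hNM σ hσ R₁ hR₁N
      rw [hθ σ hσ, ← hψ' _ h1 h5]
      congr 1
      exact Subtype.ext (hR₁σ σ hσ)
    rw [hθR σ hσ, h3] at h4
    rw [smul_sub, sub_eq_sub_iff_sub_eq_sub, ← h4]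
  -- valuations
  obtain ⟨n, hn⟩ := H44E.exists_valuation_eq_zpow hr hA
    (uval_ne_zero (umk (κ : Qb) κ.ne_zero - b)) fun σ hσ => by
      have := congrArg uval (hκb σ hσ)
      rwa [uval_smul] at this
  obtain ⟨m, hm⟩ : ∃ m : ℤ, A.valuation (uval a) ^ (r ^ k) = A.valuation (r : Qb) ^ m := by
    obtain ⟨m, hm⟩ := H44E.exists_valuation_eq_zpow hr hA
      (uval_ne_zero ((r ^ k : ℕ) • a)) fun σ hσ => by
        have h1 : σ • ((r ^ k : ℕ) • a) = (r ^ k : ℕ) • a := by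
          rw [smul_comm, ← sub_eq_zero, ← nsmul_sub, ← ha' σ hσ, hθ σ hσ, hψtor]
        exact congrArg uval h1
    exact ⟨m, by rw [← hm, uval_nsmul, map_pow]⟩
  have hvF : ∀ j, A.valuation (uval (F j • a)) = A.valuation (uval a) := fun j =>
    valuation_apply_eq hr.ne_zero hq0 hm (hFA j)
  have hvS : A.valuation (uval (ψ' ⟨S, hSM⟩)) = 1 := valuation_eq_one_of_pow hq0 (by
    rw [← uval_nsmul, hψtor, uval_zero])
  have hvb : A.valuation (uval b) = A.valuation (r : Qb) ^ m := by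
    rw [hb, uval_add, uval_sum, map_mul, map_prod, Finset.prod_congr rfl fun j _ => hvF j,
      Finset.prod_const, Finset.card_range, hvS, mul_one, hm]
  refine ⟨n + m, ?_⟩
  rw [zpow_add₀ (val_natCast_ne_zero A hr.ne_zero), ← hn, ← hvb, ← map_mul, ← uval_add,
    sub_add_cancel, uval_umk]

end main

end Fermat.Agent.H47

namespace Fermat.Agent.H47

open Fermat.Agent.H15 ModularCurve

attribute [local instance] heckeModuleBar

/-- (J6) for `J₀(N)` -/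
def T_norm : Prop := ∀ (N : ℕ) [NeZero N], NormRed N (JZero N) (KJ N)

/-- **(R3)** for `J₀(N)` -/
theorem T_unitR_of (hcomm : ∀ (N : ℕ) [NeZero N], SMulCommClass GQ HeckeAlg (JZero N))
    (hB : T_basic) (hS : T_surjRed) (hD : T_divRed) (hH : T_heckeRed) (hM : T_mult)
    (hN : T_norm) : T_unitR := by
  intro N _ hNp r hr hrN
  have := hcomm N
  exact unitR_of hr (fun h => hrN ((Nat.prime_dvd_prime_iff_eq hr hNp).1 h)) (hB N) (hS N) (hD N)
    (hH N) (hM N hNp r hr hrN) (hN N)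

end Fermat.Agent.H47
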