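import Fermat.Agent.H17NrmKer
import Fermat.Agent.H47UnitR

/-!
# MZ-J6/R3 glue (helper17)
-/

set_option autoImplicit false

noncomputable section

open AlgebraicCurve ModularCurve

namespace Fermat.Agent.H17

attribute [local instance] heckeModuleBar

/-- **MZ-J6** in the form used by helper47 -/
theorem t_norm : H47.T_norm := by
  intro N _ ℓ hℓ hℓN A hA φ hφ x hx hxI m s₀ hm hs₀
  exact norm_kernel N hℓ hℓN A hA hφ hx hxI hm hs₀

/-- (R3) from the remaining inputs -/
theorem t_unitR (hB : H15.T_basic) (hH : H15.T_heckeRed) (hM : H15.T_mult) : H15.T_unitR :=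
  H47.T_unitR_of (fun N _ => H31.smulCommClass N) hB surjRed divRed hH hM t_norm

end Fermat.Agent.H17
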