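import Fermat.Agent.H80SSAbs
import Fermat.Agent.H89Inst
import Fermat.Agent.H15Defs

/-!
# MZ-J8: semistability of `J₀(N)` at the prime `N` in the form (SS')
-/

set_option autoImplicit false

noncomputable section

open AlgebraicCurve ModularCurve Fermat.Agent.H89J Fermat.Agent.H34.Two

namespace Fermat.Agent.H80.SS

local notation "Qb" => AlgebraicClosure ℚ
local notation "GQ" => AlgebraicClosure ℚ ≃ₐ[ℚ] AlgebraicClosure ℚ

variable {m q : ℕ} [NeZero m] [NeZero q] [NeZero (m * q)]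

theorem ss_aux {A : ValuationSubring (AlgebraicClosure ℚ)} {k : Type*} [Field k] {π : A →+* k}
    [Fact q.Prime] [CharP k q] [IsAlgClosed k] [IsLocalHom π]
    (hπ : Function.Surjective π) (arch : ∀ a b : A, π a = 0 → b ≠ 0 → ∃ n, b ∣ a ^ n)
    (hFF : H94.FunField k (modularFunctionFieldFullC k m)) (D : ModTwo m q A k π)
    {d : ℕ} (hd : (d : k) ≠ 0) {σ τ : GQ} (hσ : σ ∈ A.inertiaSubgroupIn ℚ)
    (hτ : τ ∈ A.inertiaSubgroupIn ℚ)
    (x : JZero (m * q)) (hx : σ • (d • x) = d • x) : τ • (σ • x - x) = σ • x - x := by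
  have := hFF
  exact inertia_sq' D.T hπ arch hd (D.inertia σ hσ) (D.inertia τ hτ) x hx

/-- `(τ - 1)(σ - 1) R = 0` on `J₀(mq)`, `q ∤ m`, for `R` with `d R` fixed by `σ`, `q ∤ d`. -/
theorem ss_mq (hq : q.Prime) (hqm : ¬ q ∣ m) (A : ValuationSubring (AlgebraicClosure ℚ))
    (hA : A.LiesOverPrime q) {σ τ : GQ} (hσ : σ ∈ A.inertiaSubgroupIn ℚ)
    (hτ : τ ∈ A.inertiaSubgroupIn ℚ) {d : ℕ} (hd : ¬ q ∣ d) (R : JZero (m * q))
    (hR : σ • (d • R) = d • R) : τ • (σ • R - R) = σ • R - R := by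
  obtain ⟨D⟩ := nonempty_modTwo hq hqm A hA
  have : Fact q.Prime := ⟨hq⟩
  have : CharP (IsLocalRing.ResidueField A) q := H05.charP_residueField hq hA
  have : IsAlgClosed (IsLocalRing.ResidueField A) := H18.isAlgClosed_residueField A
  refine ss_aux IsLocalRing.residue_surjective (H89Arch.arch' hq hA)
    (H42.funField_res hq hA hqm) D ?_ hσ hτ R hR
  rw [Ne, CharP.cast_eq_zero_iff (IsLocalRing.ResidueField A) q]
  exact hd

omit [NeZero m] [NeZero (m * q)] in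
theorem ssn_of_eq (hq : q.Prime) (M : ℕ) [NeZero M] (hM : M = 1 * q) :
    Fermat.Agent.H15.SSN q (JZero M) := by
  subst hM
  intro A hA σ hσ τ hτ d hd R hR
  exact ss_mq hq (fun h => hq.one_lt.ne' (Nat.dvd_one.mp h)) A hA hσ hτ hd R (hR σ hσ)

/-- **MZ-J8.** -/
theorem ss : Fermat.Agent.H15.T_ss := fun N _ hN => ssn_of_eq hN N (one_mul N).symm

end Fermat.Agent.H80.SS
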