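import Fermat.Agent.H15Main1
import Fermat.Agent.H94NoEis
import Fermat.Agent.H80SS
import Fermat.Agent.H9J9H
import Fermat.Agent.H12FCard
import Fermat.Agent.H17Norm3

/-!
# MAZUR: assembly (second part)
-/

set_option autoImplicit false

namespace Fermat.Agent.H15

theorem cardMult_uncond : T_cardMult := H12F.cardMult_of H9.cardW

theorem core_of' (h1 : T_basic) (h2 : T_heckeRed) (h9 : T_cardN) (h10 : T_mult) : T_core :=
  core_of h1 h2 H94.NE.noEis H80.SS.ss H9.cardW cardMult_uncond h9 h10 (H17.t_unitR h1 h2 h10)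

end Fermat.Agent.H15
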