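import Fermat.Agent.H15S47Meet
import Fermat.Agent.H91ZBlockN

/-!
# S47 (helper15): S47 from the left half and block (T)
-/

set_option autoImplicit false

open AutomorphicForm FLT.ExplicitLift EisensteinWeightOne WeierstrassCurve LanglandsTunnell
open scoped MatrixGroups
open Fermat.Agent.S47T CongruenceSubgroup

noncomputable section

namespace Fermat.Agent.H15S47

local notation "Γℚ" => (AlgebraicClosure ℚ ≃ₐ[ℚ] AlgebraicClosure ℚ)

/-- The output of the left half (blocks GAL, D, C), as a closed statement. -/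
def LeftHalf : Prop :=
  ∀ ρ : Γℚ →* GL (Fin 2) (ZMod 3), Rho ρ →
    ∃ (N : ℕ) (c : Eis → ℝ) (F : H3 → ℂ), 3 ∣ N ∧ ICT N c F ∧ Fermat.Agent.H46Z.CArith ρ N c

/-- **S47 from the left half and block (T).** -/
theorem S47_of_left (hL : LeftHalf) (hT : BlockT)
    (ρ : Γℚ →* GL (Fin 2) (ZMod 3)) (hρ : Continuous ρ) (hsurj : Function.Surjective ρ)
    (hdet : ∀ σ : Γℚ, Matrix.GeneralLinearGroup.det (ρ σ) = modThreeCyclotomicChar σ)
    (Ψ : GL (Fin 2) (ZMod 3) →* GL (Fin 2) (ℤ√(-2)))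
    (hΨ : ∀ g, Matrix.GeneralLinearGroup.map red (Ψ g) = g) :
    ∃ (N : ℕ) (_ : NeZero N) (b : ℕ → ℤ√(-2)),
      FormalHecke.IsEigensystem
        (fun ℓ => if ℓ ∣ N then 0 else ((chiNegThree ℓ : ℤ) : ℤ√(-2))) b ∧
      CuspForm.IsWeightOneChiNegThreeRealized N b ∧
      ∀ p : ℕ, p.Prime → ¬ p ∣ 3 * N →
        ∀ A : ValuationSubring (AlgebraicClosure ℚ), A.LiesOverPrime p →
          ∀ σ : Γℚ, A.IsFrobeniusAt σ p →
            b p = ((Ψ (ρ σ) : GL (Fin 2) (ℤ√(-2))) : Matrix (Fin 2) (Fin 2) (ℤ√(-2))).trace :=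
  S47_right hL Fermat.Agent.H91.Z.blockN hT ρ hρ hsurj hdet Ψ hΨ

end Fermat.Agent.H15S47
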