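import Fermat.Agent.H16D1

/-!
# S47, block (D): assembly, part 2 (helper16, DE7)

`IsOuter m S T a F` : what the packages DE1 - DE5 deliver, a function `F` on the outer space
`(J → ℍ³) × XF (restr m.L.fam S)`; `IsOuter.isDForm` : its lift satisfies `H55D.IsDForm`.
-/

set_option autoImplicit false
set_option linter.unusedSectionVars false
set_option linter.unusedVariables false

noncomputable section

open IsDedekindDomain HeightOneSpectrum WithZero NumberField Matrix MeasureTheory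
open scoped MatrixGroups

namespace Fermat.Agent.H16D

open Fermat.Agent Fermat.Agent.H59XF Fermat.Agent.H59D Fermat.Agent.H76U
open Fermat.Agent.H5Z (chv Rk)
open Fermat.Agent.H7.Z (borP HeckeEq)

variable {K : Type*} [Field K] [NumberField K] {J : Type*} [Fintype J]

open Classical in
/-- The properties of the explicit form on the outer space. -/
structure IsOuter (m : Model K J) (S : Finset (HeightOneSpectrum (𝓞 K)))
    (T : HeightOneSpectrum (𝓞 K) → TD K) (a : HeightOneSpectrum (𝓞 K) → ℝ)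
    (F : Zm m → XF (restr m.L.fam S) → ℂ) : Prop where
  /-- upper unipotent elements -/
  n : ∀ b : K, (∀ w ∈ S, b ∈ (T w).B) → ∀ (z : Zm m) (y : XF (restr m.L.fam S)),
    (∏ w ∈ S, (T w).psi b) *
      F ((ProjGenLinGroup.mk (nM b) : PGL(2, K)) • z) ((ProjGenLinGroup.mk (nM b) : PGL(2, K)) • y)
        = F z y
  /-- diagonal elements -/
  d : ∀ t : Kˣ, (∀ w ∈ S, (t : K) - 1 ∈ (T w).A) → ∀ (z : Zm m) (y : XF (restr m.L.fam S)),
    F ((ProjGenLinGroup.mk (dM t) : PGL(2, K)) • z) ((ProjGenLinGroup.mk (dM t) : PGL(2, K)) • y)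
        = F z y
  /-- lower unipotent elements -/
  l : ∀ c : K, (∀ w ∈ S, c ∈ (T w).C) → ∀ (z : Zm m) (y : XF (restr m.L.fam S)),
    F ((ProjGenLinGroup.mk (lM c) : PGL(2, K)) • z) ((ProjGenLinGroup.mk (lM c) : PGL(2, K)) • y)
        = F z y
  /-- continuity at infinity -/
  cont : ∀ y : XF (restr m.L.fam S), Continuous fun z : J → H3 => F z y
  /-- radial kernels -/
  rad : ∀ κ : (J → ℝ) → ℂ, H9Z.Ker κ → ∀ (y : XF (restr m.L.fam S)) (z : J → H3),
    Rk κ (fun v => F v y) z = H9Z.hat κ * F z y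
  /-- Hecke operators -/
  hecke : ∀ w : {w // w ∉ S}, ∀ (ϖ : Kˣ), w.1.valuation K (ϖ : K) = exp (-(1 : ℤ)) →
    ∀ R : Finset K, H51Z.IsReps (w.1.valuation K) 1 R → ∀ z : J → H3,
      OutHecke m S (fun y => F z y) w ϖ R
        ((Real.sqrt (Ideal.absNorm w.1.asIdeal) * a w.1 : ℝ) : ℂ)
  /-- growth -/
  grow : ∀ y : XF (restr m.L.fam S), ∃ (A : ℕ) (C : ℝ), ∀ z : J → H3,
    ‖F z y‖ ≤ C * ∏ j, ((z j).y + ((z j).y)⁻¹) ^ A
  /-- non vanishing -/
  ne : ∃ z y, F z y ≠ 0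

variable {m : Model K J} {S : Finset (HeightOneSpectrum (𝓞 K))}
  {T : HeightOneSpectrum (𝓞 K) → TD K} {a : HeightOneSpectrum (𝓞 K) → ℝ}
  {F : Zm m → XF (restr m.L.fam S) → ℂ}

theorem IsOuter.outTyped (h : IsOuter m S T a F) (hS : S.Nonempty)
    (Ty : ∀ w, Typ (m.L.fam.U w)) (hH : ∀ w ∈ S, (Ty w).H = (T w).H)
    (hchi : ∀ w ∈ S, ∀ g ∈ (T w).H, (Ty w).chi g = (T w).chi g) : OutTyped Ty S F :=
  outTyped_of_three hS T Ty hH hchi h.n h.d h.l

/-- The moderate growth of the lifted form. -/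
theorem IsOuter.growth (h : IsOuter m S T a F) {Ty : ∀ w, Typ (m.L.fam.U w)}
    (hO : OutTyped Ty S F) (y : XF m.L.fam) :
    ∃ A : ℝ, ∀ c : ℝ, 0 < c → ∃ M : ℝ, ∀ τ : J → H3, (∀ j, c ≤ (τ j).y) →
      ‖form m S F (τ, y)‖ ≤ M * (∏ j, (τ j).y) ^ A :=
  form_growth hO h.grow y

/-- The lift of an outer form satisfies `IsDForm`. -/
theorem IsOuter.isDForm (h : IsOuter m S T a F) (hS : S.Nonempty)
    (Ty : ∀ w, Typ (m.L.fam.U w)) (hH : ∀ w ∈ S, (Ty w).H = (T w).H)
    (hchi : ∀ w ∈ S, ∀ g ∈ (T w).H, (Ty w).chi g = (T w).chi g) :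
    H55D.IsDForm m S Ty a (form m S F) := by
  classical
  have hO := h.outTyped hS Ty hH hchi
  refine ⟨form_smul hO, fun y => form_continuous h.cont y, fun y => h.growth hO y,
    fun κ hκ y τ => form_rad hO (h.rad κ hκ) y τ, ?_, ?_, ?_⟩
  · intro w hw ϖ hϖ R hR τ
    have := form_hecke hO ⟨w, hw⟩ (fun z => h.hecke ⟨w, hw⟩ ϖ hϖ R hR z) τ
    exact this
  · intro w hw g τ y
    exact form_typed hO hw g (show m.X from (τ, y))
  · obtain ⟨z, y, hzy⟩ := h.ne
    refine ⟨(show J → H3 from z, inj m.L.fam S y), ?_⟩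
    have h1 := form_inj hO z y
    intro h0
    exact hzy (h1.symm.trans h0)

end Fermat.Agent.H16D
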