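import Fermat.Agent.H16D3
import Fermat.Agent.H16D2
import Fermat.Agent.H36Psi
import Fermat.Agent.H30G4
import Fermat.Agent.H3G6
import Fermat.Agent.H46ZBlocks

/-!
# S47, block (D): the block statement from FIN (helper16)

* `ChiHyp E B S chi a` : the Hecke character of `B` delivered by (D3) and its properties;
* `exists_chiHyp` : existence, for the fields of a quaternion tower;
* `FIN` : the theorem of the analytic part, `ChiHyp E B S chi a → DOut E S a`;
* `blockD_of_fin : FIN → H46Z.BlockD`.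
-/

set_option autoImplicit false
set_option linter.unusedSectionVars false
set_option linter.unusedVariables false

noncomputable section

open IsDedekindDomain NumberField WithZero
open scoped Pointwise nonZeroDivisors
open Fermat.Agent.H47 (ordHom divHom smulPlace below)
open Fermat.Agent.H82 (above aboveSet NonSplit congr locNorm normGroup)
open Fermat.Agent.H89D (IsQ8Tower liftFix)

namespace Fermat.Agent.H16D

open Fermat.Agent

/-- The data over `E` delivered by (D3): a Hecke character `chi` of the quadratic extension `B` of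
`E`, unramified outside `S`, whose restriction to `E` is the quadratic character of `B/E`; the
numbers `a w` are the eigenvalues of its coefficients. -/
structure ChiHyp (E B : Type) [Field E] [NumberField E] [Field B] [NumberField B] [Algebra E B]
    (S : Finset (HeightOneSpectrum (𝓞 E))) (chi : Ideal (𝓞 B) →*₀ ℂ)
    (a : HeightOneSpectrum (𝓞 E) → ℤ) : Prop where
  tcE : IsTotallyComplex E
  tcB : IsTotallyComplex B
  deg : Module.finrank E B = 2
  gal : IsGalois E B
  ne : S.Nonempty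
  two : ∀ w ∉ S, w.valuation E (2 : E) = 1
  unr : ∀ w ∉ S, ∀ P ∈ above B w, w.asIdeal.ramificationIdx' P.asIdeal = 1
  unram : ∀ w ∉ S, H7.Z.Unram w
  chi_S : ∀ P : HeightOneSpectrum (𝓞 B), chi P.asIdeal = 0 ↔
    P ∈ aboveSet B (S : Set (HeightOneSpectrum (𝓞 E)))
  chi_pow : ∀ P ∉ aboveSet B (S : Set (HeightOneSpectrum (𝓞 E))), chi P.asIdeal ^ 4 = 1
  chi_span : ∃ m : Ideal (𝓞 B), m ≠ ⊥ ∧ (∀ P : HeightOneSpectrum (𝓞 B), m ≤ P.asIdeal ↔
    P ∈ aboveSet B (S : Set (HeightOneSpectrum (𝓞 E)))) ∧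
      ∀ x : 𝓞 B, x - 1 ∈ m → chi (Ideal.span {x}) = 1
  chi_E : ∀ w ∉ S, (NonSplit B w → chi (w.asIdeal.map (algebraMap (𝓞 E) (𝓞 B))) = -1) ∧
    (¬ NonSplit B w → chi (w.asIdeal.map (algebraMap (𝓞 E) (𝓞 B))) = 1)
  good : ∀ w ∉ S, H33D.IsGoodFor chi w.asIdeal ((a w : ℤ) : ℂ)

section Exists

variable {E B C K : Type} [Field E] [NumberField E] [IsTotallyComplex E] [Field B]
  [NumberField B] [IsTotallyComplex B] [Field C] [NumberField C] [Field K] [NumberField K]
  [Algebra E B] [Algebra E C] [Algebra E K] [Algebra B C] [Algebra B K] [Algebra C K]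
  [IsScalarTower E B C] [IsScalarTower E B K] [IsScalarTower E C K] [IsScalarTower B C K]

theorem exists_chiHyp (H : IsQ8Tower E B C K) {S : Finset (HeightOneSpectrum (𝓞 E))}
    (hSne : S.Nonempty) (h2 : ∀ v ∉ S, v.valuation E (2 : E) = 1)
    (hunr : ∀ v ∉ S, ∀ w ∈ above K v, v.asIdeal.ramificationIdx' w.asIdeal = 1)
    (hu : ∀ v ∉ S, H7.Z.Unram v) :
    ∃ chi : Ideal (𝓞 B) →*₀ ℂ, ChiHyp E B S chi (fun v => H89D.aw C K v) := by
  classical
  have h2' : ∀ v ∉ (S : Set (HeightOneSpectrum (𝓞 E))), v.valuation E (2 : E) = 1 :=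
    fun v hv => h2 v (by simpa using hv)
  have hunr' : ∀ v ∉ (S : Set (HeightOneSpectrum (𝓞 E))), ∀ w ∈ above K v,
      v.asIdeal.ramificationIdx' w.asIdeal = 1 := fun v hv => hunr v (by simpa using hv)
  obtain ⟨m, chi, hm, h1, h3, h4, h5, -, h7, h8, h9⟩ :=
    H77.Z.exists_chi_final H S.finite_toSet (by simpa using hSne) h2' hunr'
  have hgal := H.isGalois_EB
  have hur : ∀ v ∉ S, ∀ w ∈ above B v, v.asIdeal.ramificationIdx' w.asIdeal = 1 :=
    fun v hv => (H77.Z.unr_tower (C := B) (hunr v hv)).1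
  refine ⟨chi, inferInstance, inferInstance, H.finrank_EB, hgal, hSne, h2, hur, hu, h3,
    fun P hP => h5 P hP, ⟨m, hm, h1, h4⟩, ?_, ?_⟩
  · intro v hv
    have hv' : v ∉ (S : Set (HeightOneSpectrum (𝓞 E))) := by simpa using hv
    constructor
    · intro hns
      obtain ⟨P, hP⟩ := Set.ncard_eq_one.1 hns
      rw [map_eq hP (hur v hv)]
      exact (h9 v hv' hns).2 P (by rw [hP]; simp)
    · intro hns
      obtain ⟨P, P', hne, hPP⟩ := H.exists_pair hns
      have h11 := h7 v hv'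
      rw [if_neg hns, hPP, finprod_mem_pair hne] at h11
      rw [map_eq_mul hne hPP (hur v hv), map_mul]
      exact h11
  · intro v hv
    have hv' : v ∉ (S : Set (HeightOneSpectrum (𝓞 E))) := by simpa using hv
    have hu' := hur v hv
    by_cases hns : NonSplit B v
    · obtain ⟨P, hP⟩ := Set.ncard_eq_one.1 hns
      obtain ⟨h10, h11⟩ := h9 v hv' hns
      have h12 : chi P.asIdeal = -1 := h11 P (by rw [hP]; simp)
      have h13 := (isInert_of H.finrank_EB hP hu').isGoodFor h12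
      show H33D.IsGoodFor chi v.asIdeal ((H89D.aw C K v : ℤ) : ℂ)
      rw [h10, Int.cast_zero]
      exact h13
    · obtain ⟨P, P', hne, hPP⟩ := H.exists_pair hns
      have h10 := h8 v hv' hns
      have h11 := h7 v hv'
      rw [if_neg hns, hPP, finprod_mem_pair hne] at h11
      rw [hPP, finsum_mem_pair hne] at h10
      have h12 := (isSplit_of H.finrank_EB hne hPP hu').isGoodFor (χ := chi)
        (by rw [map_mul]; exact h11)
      rw [h10] at h12
      exact h12

end Exists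

/-- **FIN**: the analytic part of block (D). -/
def FIN : Prop :=
  ∀ (E B : Type) [Field E] [NumberField E] [Field B] [NumberField B] [Algebra E B]
    (S : Finset (HeightOneSpectrum (𝓞 E))) (chi : Ideal (𝓞 B) →*₀ ℂ)
    (a : HeightOneSpectrum (𝓞 E) → ℤ), ChiHyp E B S chi a →
    H55D.DOut E S (fun w => ((a w : ℤ) : ℝ))

/-- An integer contained in all ideals of a finite set of places. -/
theorem exists_nat_mem {F : Type*} [Field F] [NumberField F] {T : Set (HeightOneSpectrum (𝓞 F))}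
    (hT : T.Finite) : ∃ n : ℕ, n ≠ 0 ∧ ∀ w ∈ T, (n : 𝓞 F) ∈ w.asIdeal := by
  classical
  refine ⟨∏ w ∈ hT.toFinset, Ideal.absNorm w.asIdeal, ?_, fun w hw => ?_⟩
  · refine Finset.prod_ne_zero_iff.2 fun w _ => ?_
    rw [Ne, Ideal.absNorm_eq_zero_iff]
    exact w.ne_bot
  · rw [Nat.cast_prod]
    exact Ideal.mem_of_dvd _ (Finset.dvd_prod_of_mem _ (hT.mem_toFinset.2 hw))
      (Ideal.absNorm_mem w.asIdeal)

/-- **Block (D)** from the analytic part. -/
theorem blockD_of_fin (hF : FIN) : H46Z.BlockD := by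
  intro D
  classical
  obtain ⟨n₁, hn₁, h6, hbad⟩ := H30G.exists_bad D
  obtain ⟨n₂, hn₂, hun⟩ := exists_nat_mem (H36.Psi.finite_not_unram (K := D.E))
  refine ⟨n₁ * n₂, mul_ne_zero hn₁.ne' hn₂, fun N₀ hN₀ hdvd => ?_⟩
  have hd1 : n₁ ∣ N₀ := (dvd_mul_right _ _).trans hdvd
  have hd2 : n₂ ∣ N₀ := (dvd_mul_left _ _).trans hdvd
  have h2N : 2 ∣ N₀ := ((by norm_num : 2 ∣ 6).trans h6).trans hd1
  have hmem : ∀ (w : HeightOneSpectrum (𝓞 D.E)) (n : ℕ), n ∣ N₀ → (n : 𝓞 D.E) ∈ w.asIdeal →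
      w ∈ H46Z.divs D.E N₀ := by
    intro w n hn hw
    rw [H46Z.mem_divs hN₀]
    obtain ⟨k, rfl⟩ := hn
    rw [Nat.cast_mul]
    exact Ideal.mul_mem_right _ _ hw
  have hne : (H46Z.divs D.E N₀).Nonempty := by
    have h2 : Ideal.span {(2 : 𝓞 D.E)} ≠ ⊤ := by
      intro h
      rw [Ideal.span_singleton_eq_top] at h
      have h3 : IsLocalHom (algebraMap ℤ (𝓞 D.E)) :=
        (algebraMap_isIntegral_iff.2 inferInstance).isLocalHom
          (algebraMap ℤ (𝓞 D.E)).injective_int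
      have h4 : IsUnit (2 : ℤ) := IsUnit.of_map (algebraMap ℤ (𝓞 D.E)) 2 (by simpa using h)
      exact absurd (Int.isUnit_iff.1 h4) (by decide)
    obtain ⟨P, hP, hle⟩ := Ideal.exists_le_maximal _ h2
    have h2P : (2 : 𝓞 D.E) ∈ P := hle (Ideal.mem_span_singleton_self _)
    refine ⟨⟨P, hP.isPrime, fun h => ?_⟩, hmem _ 2 h2N (by exact_mod_cast h2P)⟩
    rw [h, Ideal.mem_bot] at h2P
    exact two_ne_zero h2P
  have h2 : ∀ v ∉ H46Z.divs D.E N₀, v.valuation D.E (2 : D.E) = 1 := by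
    intro v hv
    have h3 : (2 : 𝓞 D.E) ∉ v.asIdeal := fun h => hv (hmem v 2 h2N (by exact_mod_cast h))
    have h4 := (v.valuation_lt_one_iff_mem (K := D.E) (2 : 𝓞 D.E)).not.2 h3
    have h5 := v.valuation_le_one (K := D.E) (2 : 𝓞 D.E)
    have h6 := le_antisymm h5 (not_lt.1 h4)
    have h7 : algebraMap (𝓞 D.E) D.E 2 = 2 := map_ofNat _ 2
    exact (congrArg (v.valuation D.E) h7).symm.trans h6
  have hunr : ∀ v ∉ H46Z.divs D.E N₀, ∀ w ∈ above D.K v,
      v.asIdeal.ramificationIdx' w.asIdeal = 1 := by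
    intro v hv w hw
    obtain ⟨p, hp, hpv⟩ := H30G.exists_prime_mem v
    have hpN : ¬ p ∣ n₁ := fun h => hv (hmem v p (h.trans hd1) hpv)
    exact ((hbad p hp hpN).trivIn_EK hp w (H30G.mem_of_above hw hpv)).ramificationIdx' hw
  have hu : ∀ v ∉ H46Z.divs D.E N₀, H7.Z.Unram v := by
    intro v hv
    by_contra h
    exact hv (hmem v n₂ hd2 (hun v h))
  obtain ⟨chi, hchi⟩ := exists_chiHyp (D.isQ8Tower default) hne h2 hunr hu
  exact hF _ _ _ chi _ hchi

end Fermat.Agent.H16D
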