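import Fermat.Agent.H56ZTgt2
import Fermat.Agent.H79SBlk

/-!
# S47, block (C): the piece `TgtA` (helper56)
-/

set_option autoImplicit false

namespace Fermat.Agent.H56Z

/-- **[TGT-A]**. -/
theorem tgtA : H79S.TgtA := fun _ _ _ _ _ _ _ C _ _ _ hAdm hD => exists_eForm C hD hAdm

end Fermat.Agent.H56Z
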