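import Fermat.Agent.H15S47DC
import Fermat.Agent.H16D4
import Fermat.Agent.H79SBlk
import Fermat.Agent.H56ZTgtA

/-!
# S47 (helper15): S47 from the five remaining closed statements of blocks (D) and (C)
-/

set_option autoImplicit false

open AutomorphicForm FLT.ExplicitLift EisensteinWeightOne WeierstrassCurve LanglandsTunnell
open scoped MatrixGroups
open Fermat.Agent.S47T CongruenceSubgroup

noncomputable section

namespace Fermat.Agent.H15S47

local notation "Γℚ" => (AlgebraicClosure ℚ ≃ₐ[ℚ] AlgebraicClosure ℚ)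

/-- **S47 from the five remaining closed statements.** -/
theorem S47_of_five (hF : Fermat.Agent.H16D.FIN) (h1 : Fermat.Agent.H79S.SetupEx)
    (h3 : Fermat.Agent.H79S.CFamEx) (h4 : Fermat.Agent.H79S.Compar)
    (h5 : Fermat.Agent.H79S.IctOut)
    (ρ : Γℚ →* GL (Fin 2) (ZMod 3)) (hρ : Continuous ρ) (hsurj : Function.Surjective ρ)
    (hdet : ∀ σ : Γℚ, Matrix.GeneralLinearGroup.det (ρ σ) = modThreeCyclotomicChar σ)
    (Ψ : GL (Fin 2) (ZMod 3) →* GL (Fin 2) (ℤ√(-2)))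
    (hΨ : ∀ g, Matrix.GeneralLinearGroup.map red (Ψ g) = g) :
    ∃ (N : ℕ) (_ : NeZero N) (b : ℕ → ℤ√(-2)),
      FormalHecke.IsEigensystem
        (fun ℓ => if ℓ ∣ N then 0 else ((chiNegThree ℓ : ℤ) : ℤ√(-2))) b ∧
      CuspForm.IsWeightOneChiNegThreeRealized N b ∧
      ∀ p : ℕ, p.Prime → ¬ p ∣ 3 * N →
        ∀ A : ValuationSubring (AlgebraicClosure ℚ), A.LiesOverPrime p →
          ∀ σ : Γℚ, A.IsFrobeniusAt σ p →
            b p = ((Ψ (ρ σ) : GL (Fin 2) (ℤ√(-2))) : Matrix (Fin 2) (Fin 2) (ℤ√(-2))).trace :=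
  S47_of_DC (Fermat.Agent.H16D.blockD_of_fin hF)
    (Fermat.Agent.H79S.blockC_of h1 Fermat.Agent.H56Z.tgtA h3 h4 h5) ρ hρ hsurj hdet Ψ hΨ

end Fermat.Agent.H15S47
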