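import Fermat.Agent.H96TDef

/-!
# S47 (helper15): primes `p ≡ 1 mod 3` are norms from `ℤ[ω]`
-/

set_option autoImplicit false

namespace Fermat.Agent.H15S47

open Fermat.Agent.S47T

theorem exists_cubic_root {p : ℕ} (hp : p.Prime) (h : p % 3 = 1) :
    ∃ x : ZMod p, x ^ 2 + x + 1 = 0 := by
  have := Fact.mk hp
  have hcard : 3 ∣ Nat.card (ZMod p)ˣ := by
    rw [Nat.card_eq_fintype_card, ZMod.card_units]
    have := hp.two_le
    omega
  obtain ⟨u, hu⟩ := exists_prime_orderOf_dvd_card' 3 hcard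
  refine ⟨(u : ZMod p), ?_⟩
  have h3 : (u : ZMod p) ^ 3 = 1 := by
    have h4 := pow_orderOf_eq_one u
    rw [hu] at h4
    rw [← Units.val_pow_eq_pow_val, h4, Units.val_one]
  have h1 : (u : ZMod p) - 1 ≠ 0 := by
    intro h0
    have hu1 : u = 1 := Units.ext (by rw [Units.val_one]; exact sub_eq_zero.mp h0)
    rw [hu1, orderOf_one] at hu
    norm_num at hu
  have h2 : ((u : ZMod p) - 1) * ((u : ZMod p) ^ 2 + u + 1) = 0 := by
    linear_combination h3
  exact (mul_eq_zero.mp h2).resolve_left h1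

/-- Thue's lemma: a small solution of `a ≡ x b`. -/
theorem exists_small {p : ℕ} (hp : p.Prime) (x : ZMod p) :
    ∃ a b : ℤ, (a, b) ≠ (0, 0) ∧ a ^ 2 < p ∧ b ^ 2 < p ∧ (a : ZMod p) = x * b := by
  have := Fact.mk hp
  set k := Nat.sqrt p with hk
  have hk1 : p < (k + 1) * (k + 1) := Nat.lt_succ_sqrt p
  have hk2 : k * k < p := by
    rcases (Nat.sqrt_le p).lt_or_eq with h | h
    · exact h
    · exfalso
      have hk' : ¬ Irreducible (k * k) := by
        intro hi
        rcases hi.isUnit_or_isUnit rfl with h1 | h1 <;>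
        · have : k = 1 := Nat.isUnit_iff.mp h1
          rw [this] at hi
          exact hi.not_isUnit (by simp)
      apply hk'
      rw [h]
      exact hp
  let f : Fin (k + 1) × Fin (k + 1) → ZMod p := fun q => ((q.1 : ℕ) : ZMod p) - x * ((q.2 : ℕ) : ZMod p)
  have hcard : Fintype.card (ZMod p) < Fintype.card (Fin (k + 1) × Fin (k + 1)) := by
    rw [ZMod.card, Fintype.card_prod, Fintype.card_fin]
    exact hk1
  obtain ⟨q, q', hne, he⟩ := Fintype.exists_ne_map_eq_of_card_lt f hcard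
  have hb : ∀ u v : Fin (k + 1), (((u : ℕ) : ℤ) - ((v : ℕ) : ℤ)) ^ 2 < p := by
    intro u v
    have hu : ((u : ℕ) : ℤ) ≤ k := by have := u.2; omega
    have hv : ((v : ℕ) : ℤ) ≤ k := by have := v.2; omega
    have hu0 : (0 : ℤ) ≤ ((u : ℕ) : ℤ) := Int.natCast_nonneg _
    have hv0 : (0 : ℤ) ≤ ((v : ℕ) : ℤ) := Int.natCast_nonneg _
    have hkk : (k : ℤ) * k < p := by exact_mod_cast hk2
    nlinarith [abs_nonneg (((u : ℕ) : ℤ) - ((v : ℕ) : ℤ))]
  refine ⟨((q.1 : ℕ) : ℤ) - ((q'.1 : ℕ) : ℤ), ((q.2 : ℕ) : ℤ) - ((q'.2 : ℕ) : ℤ), ?_,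
    hb _ _, hb _ _, ?_⟩
  · intro h0
    apply hne
    have h1 := congrArg Prod.fst h0
    have h2 := congrArg Prod.snd h0
    simp only at h1 h2
    refine Prod.ext (Fin.ext ?_) (Fin.ext ?_) <;> omega
  · have he' : ((q.1 : ℕ) : ZMod p) - x * ((q.2 : ℕ) : ZMod p) =
        ((q'.1 : ℕ) : ZMod p) - x * ((q'.2 : ℕ) : ZMod p) := he
    push_cast
    linear_combination he'

/-- A prime `p ≡ 1 mod 3` is the norm of an element of `ℤ[ω]`. -/
theorem exists_norm_eq {p : ℕ} (hp : p.Prime) (h : p % 3 = 1) :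
    ∃ ϖ : Eis, Complex.normSq (ϖ : ℂ) = p := by
  obtain ⟨x, hx⟩ := exists_cubic_root hp h
  obtain ⟨a, b, hab, ha, hb, he⟩ := exists_small hp x
  have hdvd : (p : ℤ) ∣ a ^ 2 + a * b + b ^ 2 := by
    rw [← ZMod.intCast_zmod_eq_zero_iff_dvd]
    push_cast
    rw [he]
    linear_combination ((b : ZMod p)) ^ 2 * hx
  obtain ⟨m, hm⟩ := hdvd
  have hp0 : (0 : ℤ) < p := by exact_mod_cast hp.pos
  have hpos : 0 < a ^ 2 + a * b + b ^ 2 := by
    by_contra hcon
    push Not at hcon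
    have h1 : (2 * a + b) ^ 2 + 3 * b ^ 2 ≤ 0 := by nlinarith
    have hb0 : b = 0 := by nlinarith [sq_nonneg (2 * a + b), sq_nonneg b]
    have ha0 : a = 0 := by
      subst hb0
      nlinarith [sq_nonneg a]
    exact hab (by rw [ha0, hb0])
  have hlt : a ^ 2 + a * b + b ^ 2 < 3 * p := by nlinarith [sq_nonneg (a - b)]
  have hm0 : 0 < m := by
    by_contra hcon
    push Not at hcon
    nlinarith
  have hm3 : m < 3 := by
    by_contra hcon
    push Not at hcon
    nlinarith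
  have hm1 : m = 1 := by
    rcases (show m = 1 ∨ m = 2 by omega) with h1 | h1
    · exact h1
    · exfalso
      subst h1
      have hodd : p % 2 = 1 := by
        rcases hp.eq_two_or_odd with h2 | h2
        · rw [h2] at h; norm_num at h
        · exact h2
      have hev : (a ^ 2 + a * b + b ^ 2) % 2 = 0 := by omega
      have ha2 : a % 2 = 0 ∧ b % 2 = 0 := by
        rcases Int.emod_two_eq_zero_or_one a with h2 | h2 <;>
        rcases Int.emod_two_eq_zero_or_one b with h3 | h3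
        · exact ⟨h2, h3⟩
        all_goals
          exfalso
          simp [pow_two, Int.add_emod, Int.mul_emod, h2, h3] at hev
      obtain ⟨a', rfl⟩ := Int.dvd_of_emod_eq_zero ha2.1
      obtain ⟨b', rfl⟩ := Int.dvd_of_emod_eq_zero ha2.2
      have : (p : ℤ) = 2 * (a' ^ 2 + a' * b' + b' ^ 2) := by nlinarith
      omega
  refine ⟨⟨(a : ℂ) + ((-b : ℤ) : ℂ) * om, a, -b, rfl⟩, ?_⟩
  show Complex.normSq ((a : ℂ) + ((-b : ℤ) : ℂ) * om) = p
  rw [normSq_eis]
  have : a ^ 2 - a * (-b) + (-b) ^ 2 = (p : ℤ) := by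
    rw [hm1, mul_one] at hm
    linarith
  rw [this]
  simp

end Fermat.Agent.H15S47
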