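import Fermat.Agent.H15S47Def
import Fermat.Agent.H15S47Norm

/-!
# S47 (helper15): S47 from the outputs of the blocks
-/

set_option autoImplicit false

open AutomorphicForm FLT.ExplicitLift EisensteinWeightOne WeierstrassCurve LanglandsTunnell
open scoped MatrixGroups
open Fermat.Agent.S47T CongruenceSubgroup

noncomputable section

namespace Fermat.Agent.H15S47

local notation "Γℚ" => (AlgebraicClosure ℚ ≃ₐ[ℚ] AlgebraicClosure ℚ)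

/-- An embedding of `ℤ[√-2]` into `ℂ`. -/
def iota2 : ℤ√(-2) →+* ℂ := Zsqrtd.lift ⟨Complex.I * (Real.sqrt 2 : ℝ), by
  have h : ((Real.sqrt 2 : ℝ) : ℂ) * ((Real.sqrt 2 : ℝ) : ℂ) = 2 := by
    rw [← Complex.ofReal_mul, Real.mul_self_sqrt (by norm_num)]
    norm_num
  push_cast
  linear_combination (Complex.I * Complex.I) * h + 2 * Complex.I_mul_I⟩

theorem iota_ptr {Ψ : GL (Fin 2) (ZMod 3) →* GL (Fin 2) (ℤ√(-2))}
    (hΨ : ∀ g, Matrix.GeneralLinearGroup.map red (Ψ g) = g) (ι : ℤ√(-2) →+* ℂ)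
    {g : GL (Fin 2) (ZMod 3)} (h1 : Matrix.GeneralLinearGroup.det g = 1) (h4 : g ^ 4 = 1) :
    ι ((Ψ g : GL (Fin 2) (ℤ√(-2))) : Matrix (Fin 2) (Fin 2) (ℤ√(-2))).trace = ((trQ g : ℝ) : ℂ) := by
  have hg : g ∈ Fermat.Agent.H3G.Q8 := Fermat.Agent.H3G.mem_Q8_iff_pow.2 ⟨h1, h4⟩
  have h2 : ι 2 = 2 := by
    have h3 : (2 : ℤ√(-2)) = 1 + 1 := by ext <;> rfl
    rw [h3, map_add, map_one]
    norm_num
  show ι (Fermat.Agent.H3G.ptr Ψ g) = _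
  by_cases e1 : g = 1
  · subst e1
    rw [Fermat.Agent.H3G.ptr_one, trQ, if_pos rfl, h2]
    simp
  · by_cases e2 : g = -1
    · subst e2
      rw [Fermat.Agent.H3G.ptr_neg_one hΨ, trQ, if_neg e1, if_pos rfl, map_neg, h2]
      simp
    · rw [Fermat.Agent.H3G.ptr_of_mem_Q8 hΨ hg e1 e2, trQ, if_neg e1, if_neg e2]
      simp

/-- **S47 from the outputs of the blocks.** -/
theorem S47_of_blocks (hCD : BlockCD) (hN : BlockN) (hT : BlockT) (hZ : BlockZ)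
    (ρ : Γℚ →* GL (Fin 2) (ZMod 3)) (hρ : Continuous ρ) (hsurj : Function.Surjective ρ)
    (hdet : ∀ σ : Γℚ, Matrix.GeneralLinearGroup.det (ρ σ) = modThreeCyclotomicChar σ)
    (Ψ : GL (Fin 2) (ZMod 3) →* GL (Fin 2) (ℤ√(-2)))
    (hΨ : ∀ g, Matrix.GeneralLinearGroup.map red (Ψ g) = g) :
    ∃ (N : ℕ) (_ : NeZero N) (b : ℕ → ℤ√(-2)),
      FormalHecke.IsEigensystem
        (fun ℓ => if ℓ ∣ N then 0 else ((chiNegThree ℓ : ℤ) : ℤ√(-2))) b ∧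
      CuspForm.IsWeightOneChiNegThreeRealized N b ∧
      ∀ p : ℕ, p.Prime → ¬ p ∣ 3 * N →
        ∀ A : ValuationSubring (AlgebraicClosure ℚ), A.LiesOverPrime p →
          ∀ σ : Γℚ, A.IsFrobeniusAt σ p →
            b p = ((Ψ (ρ σ) : GL (Fin 2) (ℤ√(-2))) : Matrix (Fin 2) (Fin 2) (ℤ√(-2))).trace := by
  have hR : Rho ρ := ⟨hρ, hsurj, hdet⟩
  obtain ⟨N, c, F, h3, hF, hS, hI⟩ := hCD ρ hR
  obtain ⟨D, hD, M, hM, g, hg, hgT⟩ := hT N c F h3 hF (hN ρ hR N c F h3 hF hS hI)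
  refine hZ ρ hρ hsurj hdet Ψ hΨ M hM g hg N.primeFactors (3 * D) (by omega) iota2 ?_
  intro p hp hpM hpS hpD A hA σ hσ h1 h4
  have hp3 : p ≡ 1 [MOD 3] := hpD.of_mul_right D
  have hpD' : p ≡ 1 [MOD D] := hpD.of_mul_left 3
  have hpN : ¬ p ∣ N := fun h => hpS (Nat.mem_primeFactors.mpr ⟨hp, h, hF.pos.ne'⟩)
  obtain ⟨ϖ, hϖ⟩ := exists_norm_eq hp (show p % 3 = 1 from hp3)
  rw [hgT p hp hpM hpD' ϖ hϖ, hS p hp hpN A hA σ hσ h1 h4 ϖ hϖ, iota_ptr hΨ iota2 h1 h4]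

end Fermat.Agent.H15S47
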