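import Fermat.Agent.H15S47T3
import Fermat.Agent.H46ZBlocks
import Fermat.Agent.H3GA
import Fermat.Agent.H83ZEis2
import Fermat.Agent.H47TClass

/-!
# S47 (helper15): the left half from blocks (D) and (C)
-/

set_option autoImplicit false
set_option maxSynthPendingDepth 3

open AutomorphicForm FLT.ExplicitLift EisensteinWeightOne WeierstrassCurve LanglandsTunnell
open scoped MatrixGroups
open Fermat.Agent.S47T CongruenceSubgroup IsDedekindDomain NumberField
open Fermat.Agent.H3G Fermat.Agent.H46Z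

noncomputable section

namespace Fermat.Agent.H15S47

local notation "Γℚ" => (AlgebraicClosure ℚ ≃ₐ[ℚ] AlgebraicClosure ℚ)

/-- A place of norm a power of `p` does not contain an integer prime to `p`. -/
theorem natCast_notMem {F : Type*} [Field F] [NumberField F] {v : HeightOneSpectrum (𝓞 F)}
    {p f N : ℕ} (hp : p.Prime) (h : Ideal.absNorm v.asIdeal = p ^ f) (hN : ¬ p ∣ N) :
    (N : 𝓞 F) ∉ v.asIdeal := by
  intro hmem
  have hpm : ((p : ℕ) : 𝓞 F) ∈ v.asIdeal := Fermat.Agent.H3G.RD.mem_of_absNorm h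
  have hco : Nat.Coprime p N := (Nat.Prime.coprime_iff_not_dvd hp).2 hN
  have hb := Nat.isCoprime_iff_coprime.2 hco
  obtain ⟨a, b, hab⟩ := hb
  apply v.isPrime.ne_top
  rw [Ideal.eq_top_iff_one]
  have h1 : (1 : 𝓞 F) = (a : 𝓞 F) * ((p : ℕ) : 𝓞 F) + (b : 𝓞 F) * ((N : ℕ) : 𝓞 F) := by
    have := congrArg (Int.cast : ℤ → 𝓞 F) hab
    push_cast at this
    exact this.symm
  rw [h1]
  exact v.asIdeal.add_mem (v.asIdeal.mul_mem_left _ hpm) (v.asIdeal.mul_mem_left _ hmem)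

/-- **The left half of S47 from blocks (D) and (C).** -/
theorem leftHalf_of (hD : Fermat.Agent.H46Z.BlockD) (hC : Fermat.Agent.H46Z.BlockC) :
    LeftHalf := by
  intro ρ hρ
  obtain ⟨D, rfl⟩ : ∃ D : RD, D.ρ = ρ := ⟨⟨ρ, hρ.cont, hρ.surj, hρ.det⟩, rfl⟩
  obtain ⟨N₁, hN₁, hN⟩ := hD D
  obtain ⟨D₀, hD₀, hdict⟩ := D.exists_dict
  obtain ⟨N, c, F, h3, hdvd, hict, hc⟩ := hC D.M D.E D.finrank_ME D.e0
    (Fermat.Agent.H46Z.awR D) D.abs_awR_le D.awR_smulPlace D.ne_awR D.inertEx (N₁ * D₀)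
    (mul_ne_zero hN₁ hD₀) (fun N₀ h0 hd => hN N₀ h0 (dvd_of_mul_right_dvd hd))
  have hdict' : Fermat.Agent.H46Z.Dict D N :=
    D.dict_mono ((dvd_mul_left D₀ N₁).trans hdvd) hdict
  -- the common argument
  have key : ∀ (p : ℕ), p.Prime → ¬ p ∣ 3 * N → ∀ A : ValuationSubring (AlgebraicClosure ℚ),
      A.LiesOverPrime p → ∀ σ : Γℚ, A.IsFrobeniusAt σ p → ∀ (f : ℕ) (ϖ : Eis), Prime ϖ →
        Complex.normSq (ϖ : ℂ) = (p : ℝ) ^ f → D.ρ (σ ^ f) ∈ Q8 → c ϖ = val8 (D.ρ (σ ^ f)) := by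
    intro p hp hpN A hA σ hσ f ϖ hϖ hn h8
    have hpN' : ¬ p ∣ N := fun h => hpN (dvd_mul_of_dvd_right h 3)
    let v : HeightOneSpectrum (𝓞 D.M) :=
      Fermat.Agent.H83Z.placeOf (D.e0.comp (algebraMap D.M D.E)) ϖ hϖ
    have hv : v.asIdeal = Ideal.span
        {(Fermat.Agent.H83Z.eisO (D.e0.comp (algebraMap D.M D.E))).symm ϖ} := rfl
    have habs : Ideal.absNorm v.asIdeal = p ^ f := by
      have h1 := Fermat.Agent.H83Z.absNorm_eq hv
      rw [hn] at h1
      exact_mod_cast h1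
    obtain ⟨hns, hall⟩ := hdict' p hp hpN' A hA σ hσ f v habs h8
    obtain ⟨w, hw⟩ : (Fermat.Agent.H82.above D.E v).Nonempty :=
      Fermat.Agent.H47.above_nonempty (L := D.E) v
    rw [hc v (natCast_notMem hp habs hpN') hns w hw ϖ hv]
    exact hall w hw
  refine ⟨N, c, F, h3, hict, h3, ?_, ?_⟩
  · intro p hp hpN A hA σ hσ h8 ϖ hn
    have := key p hp hpN A hA σ hσ 1 ϖ (Fermat.Agent.H83Z.prime_of_normSq hp hn)
      (by rw [hn, pow_one]) (by rwa [pow_one])
    rwa [pow_one] at this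
  · intro p hp hpN A hA σ hσ hSL
    have hp3 : ¬ p ∣ 3 := fun h => hpN (dvd_mul_of_dvd_left h N)
    have hdet := det_frob hρ hp hp3 hA hσ
    have hp2 : p % 3 = 2 := by
      have h0 : (p : ZMod 3) ≠ 0 := by
        rw [Ne, ZMod.natCast_eq_zero_iff]
        intro h
        exact hp3 (((Nat.prime_dvd_prime_iff_eq Nat.prime_three hp).1 h) ▸ dvd_rfl)
      have h1 : (p : ZMod 3) ≠ 1 := by
        intro h
        apply hSL
        rw [mem_SL', ← h, ← hdet]
        rfl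
      have h2 : ((p % 3 : ℕ) : ZMod 3) = (p : ZMod 3) := by simp
      have h3' : p % 3 < 3 := Nat.mod_lt _ (by norm_num)
      interval_cases hh : p % 3
      · exact absurd (by simpa using h2.symm) h0
      · exact absurd (by simpa using h2.symm) h1
      · rfl
    have := key p hp hpN A hA σ hσ 2 (p : Eis) (Fermat.Agent.H83Z.prime_of_inert hp hp2)
      (by rw [Fermat.Agent.H83Z.normSq_natCast]) (by
        rw [map_pow]
        exact sq_mem_Q8_of_not_mem_SL hSL)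
    rwa [map_pow] at this

end Fermat.Agent.H15S47
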