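import Mathlib
import Fermat.Agent.H58Hecke1

/-!
# Multiplication of the coefficients by periodic functions, and `U_m`, on `S_k(Γ₁(N))`
-/

set_option autoImplicit false

noncomputable section

namespace Fermat.Agent.H48Z

open UpperHalfPlane hiding I
open ModularForm CongruenceSubgroup ModularFormClass Complex
open scoped MatrixGroups ModularForm OnePoint Manifold Real
open Matrix.SpecialLinearGroup (mapGL)
open Fermat.Agent.H58
open P2MW.S_CuspFormClass_isZeroAt_heckeT.ModularForm.S06W2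
  (ratUpperTriangularGL upperTriangularGL_eq_map isZeroAt_slash_ratCast isZeroAt_sum
    isZeroAt_heckeU)
open P2MW.S_UpperHalfPlane_qCoeff_heckeT.M4cP1W2

variable {N : ℕ} {k : ℤ}

/-- The translation matrix `(1 x; 0 1)`. -/
def trM (x : ℚ) : GL (Fin 2) ℝ := upperTriangularGL 1 (x : ℝ) 1 (by norm_num)

lemma val_trM (x : ℚ) : ((trM x : GL (Fin 2) ℝ) : Matrix (Fin 2) (Fin 2) ℝ) = !![1, (x : ℝ); 0, 1] :=
  rfl

lemma trM_eq_map (x : ℚ) : trM x = Matrix.GeneralLinearGroup.map (Rat.castHom ℝ)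
    (ratUpperTriangularGL 1 x 1 (by norm_num)) := by
  ext i j
  fin_cases i <;> fin_cases j <;>
    simp [trM, ratUpperTriangularGL, upperTriangularGL, Matrix.GeneralLinearGroup.mkOfDetNeZero]

lemma det_trM (x : ℚ) : ((trM x).det : ℝ) = 1 := by
  rw [Matrix.GeneralLinearGroup.val_det_apply, val_trM, Matrix.det_fin_two_of]
  ring

lemma coe_trM_smul (x : ℚ) (τ : ℍ) : ((trM x • τ : ℍ) : ℂ) = (τ : ℂ) + x := by
  rw [UpperHalfPlane.coe_smul_of_det_pos (by rw [det_trM]; norm_num)]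
  simp [UpperHalfPlane.num, UpperHalfPlane.denom, val_trM]

lemma slash_trM_apply (x : ℚ) (f : ℍ → ℂ) (τ : ℍ) : (f ∣[k] trM x) τ = f (trM x • τ) := by
  have h1 : UpperHalfPlane.σ (trM x) = .refl ℝ ℂ := by
    rw [UpperHalfPlane.σ, if_pos (by rw [det_trM]; norm_num)]
  have h2 : UpperHalfPlane.denom (trM x) τ = 1 := by
    simp [UpperHalfPlane.denom, val_trM]
  rw [ModularForm.slash_apply, h1, det_trM, h2]
  simp

/-- The `q`-expansion of `f(τ + x)`. -/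
lemma hasSum_trM [NeZero N] (f : CuspForm (Gamma1 N) k) (x : ℚ) (τ : ℍ) :
    HasSum (fun n : ℕ => (qCoeff f n * cexp (2 * π * I * x) ^ n) •
      Function.Periodic.qParam 1 τ ^ n) ((⇑f ∣[k] trM x) τ) := by
  have h := hasSum_qCoeff f (one_mem_strictPeriods_Gamma1 N) (trM x • τ)
  rw [slash_trM_apply]
  convert h using 1
  funext n
  rw [qParam_one, qParam_one, coe_trM_smul, smul_eq_mul, smul_eq_mul, mul_assoc, ← mul_pow,
    ← Complex.exp_add]
  congr 3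
  ring

lemma inv1_trM [NeZero N] (f : CuspForm (Gamma1 N) k) (m : ℕ) [NeZero m] (u : ℤ) :
    Inv1 (N * m ^ 2) k (⇑f ∣[k] trM ((u : ℚ) / m)) := by
  intro γ hγ
  have hm : (m : ℚ) ≠ 0 := by exact_mod_cast NeZero.ne m
  have hmR : (m : ℝ) ≠ 0 := by exact_mod_cast NeZero.ne m
  obtain ⟨h0, h1, h2⟩ := (Gamma1_mem _ _).mp hγ
  have ha : (((N * m ^ 2 : ℕ) : ℤ)) ∣ γ 0 0 - 1 := by
    rw [← ZMod.intCast_zmod_eq_zero_iff_dvd]; push_cast; rw [h0]; ring
  have hd : (((N * m ^ 2 : ℕ) : ℤ)) ∣ γ 1 1 - 1 := by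
    rw [← ZMod.intCast_zmod_eq_zero_iff_dvd]; push_cast; rw [h1]; ring
  have hc : (((N * m ^ 2 : ℕ) : ℤ)) ∣ γ 1 0 := by
    rw [← ZMod.intCast_zmod_eq_zero_iff_dvd]; exact h2
  obtain ⟨a', ha'⟩ := ha
  obtain ⟨d', hd'⟩ := hd
  obtain ⟨c', hc'⟩ := hc
  push_cast at ha' hd' hc'
  have hdet : γ 0 0 * γ 1 1 - γ 0 1 * γ 1 0 = 1 := by
    have := γ.det_coe
    rwa [Matrix.det_fin_two] at this
  -- the conjugate
  let A : ℤ := γ 0 0 + u * (N * m * c')
  let B : ℤ := γ 0 1 + u * (N * m * (d' - a')) - u ^ 2 * (N * c')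
  let C : ℤ := γ 1 0
  let D : ℤ := γ 1 1 - u * (N * m * c')
  have hdet' : (!![A, B; C, D] : Matrix (Fin 2) (Fin 2) ℤ).det = 1 := by
    rw [Matrix.det_fin_two_of]
    simp only [A, B, C, D]
    have e1 : γ 0 0 = 1 + (N * m ^ 2 : ℤ) * a' := by linarith
    have e2 : γ 1 1 = 1 + (N * m ^ 2 : ℤ) * d' := by linarith
    rw [hc', e1, e2] at hdet ⊢
    linear_combination hdet
  let δ : SL(2, ℤ) := ⟨!![A, B; C, D], hdet'⟩
  have hδ : δ ∈ Gamma1 N := by
    rw [Gamma1_mem]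
    refine ⟨?_, ?_, ?_⟩
    · show ((A : ℤ) : ZMod N) = 1
      rw [← sub_eq_zero, ← Int.cast_one, ← Int.cast_sub, ZMod.intCast_zmod_eq_zero_iff_dvd]
      refine ⟨m ^ 2 * a' + u * (m * c'), ?_⟩
      simp only [A]
      linear_combination ha'
    · show ((D : ℤ) : ZMod N) = 1
      rw [← sub_eq_zero, ← Int.cast_one, ← Int.cast_sub, ZMod.intCast_zmod_eq_zero_iff_dvd]
      refine ⟨m ^ 2 * d' - u * (m * c'), ?_⟩
      simp only [D]
      linear_combination hd'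
    · show ((C : ℤ) : ZMod N) = 0
      rw [ZMod.intCast_zmod_eq_zero_iff_dvd]
      refine ⟨m ^ 2 * c', ?_⟩
      simp only [C]
      linear_combination hc'
  have hent : ∀ (g : SL(2, ℤ)) (i j : Fin 2),
      ((mapGL ℝ g : GL (Fin 2) ℝ) : Matrix (Fin 2) (Fin 2) ℝ) i j = ((g i j : ℤ) : ℝ) :=
    fun _ _ _ => rfl
  have key : trM ((u : ℚ) / m) * mapGL ℝ γ = mapGL ℝ δ * trM ((u : ℚ) / m) := by
    apply Units.ext
    rw [Units.val_mul, Units.val_mul, val_trM]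
    have e1 : (γ 0 0 : ℤ) = 1 + (N * m ^ 2 : ℤ) * a' := by linarith
    have e2 : (γ 1 1 : ℤ) = 1 + (N * m ^ 2 : ℤ) * d' := by linarith
    have e1R : ((γ 0 0 : ℤ) : ℝ) = 1 + (N * m ^ 2 : ℝ) * a' := by exact_mod_cast congrArg (Int.cast (R := ℝ)) e1
    have e2R : ((γ 1 1 : ℤ) : ℝ) = 1 + (N * m ^ 2 : ℝ) * d' := by exact_mod_cast congrArg (Int.cast (R := ℝ)) e2
    have e3R : ((γ 1 0 : ℤ) : ℝ) = (N * m ^ 2 : ℝ) * c' := by exact_mod_cast congrArg (Int.cast (R := ℝ)) hc'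
    have f1 : ((δ 0 0 : ℤ) : ℝ) = 1 + (N * m ^ 2 : ℝ) * a' + u * (N * m * c') := by
      show ((A : ℤ) : ℝ) = _
      simp only [A]; push_cast; rw [e1R]
    have f2 : ((δ 0 1 : ℤ) : ℝ) = (γ 0 1 : ℤ) + u * (N * m * (d' - a')) - u ^ 2 * (N * c') := by
      show ((B : ℤ) : ℝ) = _
      simp only [B]; push_cast; ring
    have f3 : ((δ 1 0 : ℤ) : ℝ) = (N * m ^ 2 : ℝ) * c' := by
      show ((C : ℤ) : ℝ) = _
      simp only [C]; rw [e3R]
    have f4 : ((δ 1 1 : ℤ) : ℝ) = 1 + (N * m ^ 2 : ℝ) * d' - u * (N * m * c') := by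
      show ((D : ℤ) : ℝ) = _
      simp only [D]; push_cast; rw [e2R]
    ext i j
    fin_cases i <;> fin_cases j <;>
      simp only [Matrix.mul_apply, Fin.sum_univ_two, hent, Fin.zero_eta, Fin.mk_one, f1, f2, f3,
        f4, e1R, e2R, e3R, Matrix.of_apply, Matrix.cons_val_zero, Matrix.cons_val_one,
        Matrix.cons_val', Matrix.cons_val_fin_one, Rat.cast_div, Rat.cast_intCast,
        Rat.cast_natCast] <;>
      field_simp <;> ring
  rw [ModularForm.SL_slash, ← SlashAction.slash_mul]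
  erw [key]
  rw [SlashAction.slash_mul]
  congr 1
  exact inv1_of_class f δ hδ

lemma isCusp_mono {M : ℕ} [NeZero N] [NeZero M] {c : OnePoint ℝ}
    (hc : IsCusp c (Gamma1 M : Subgroup (GL (Fin 2) ℝ))) :
    IsCusp c (Gamma1 N : Subgroup (GL (Fin 2) ℝ)) := by
  rw [Subgroup.IsArithmetic.isCusp_iff_isCusp_SL2Z] at hc ⊢
  exact hc

/-- `f(τ + u/m)`. -/
def transl [NeZero N] (f : CuspForm (Gamma1 N) k) (m : ℕ) [NeZero m] (u : ℤ) :
    CuspForm (Gamma1 (N * m ^ 2)) k :=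
  mkCusp (⇑f ∣[k] trM ((u : ℚ) / m)) (inv1_trM f m u)
    (MDifferentiable.slash (CuspFormClass.holo f) k _)
    (fun hc => by
      rw [trM_eq_map]
      exact isZeroAt_slash_ratCast f _ (isCusp_mono hc))

lemma coe_transl [NeZero N] (f : CuspForm (Gamma1 N) k) (m : ℕ) [NeZero m] (u : ℤ) :
    ⇑(transl f m u) = ⇑f ∣[k] trM ((u : ℚ) / m) := rfl

lemma qCoeff_eq_of_hasSum [NeZero N] (F : CuspForm (Gamma1 N) k) (c : ℕ → ℂ)
    (h : ∀ τ : ℍ, HasSum (fun n : ℕ => c n • Function.Periodic.qParam 1 τ ^ n) (F τ)) (n : ℕ) :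
    qCoeff F n = c n :=
  (qExpansion_coeff_unique' (holo F).continuous
    (ModularFormClass.analyticAt_cuspFunction_zero F one_pos (one_mem_strictPeriods_Gamma1 N))
    h n).symm

lemma HasSum.congr_fun' {a b : ℕ → ℂ} {s : ℂ} (h : HasSum a s) (hab : ∀ n, b n = a n) :
    HasSum b s := by
  rwa [show b = a from funext hab]

/-- Multiplication of the coefficients by a periodic function. -/
theorem exists_mul_periodic [NeZero N] (f : CuspForm (Gamma1 N) k) (m : ℕ) [NeZero m]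
    (ψ : ZMod m → ℂ) :
    ∃ F : CuspForm (Gamma1 (N * m ^ 2)) k, ∀ n : ℕ, qCoeff F n = ψ n * qCoeff f n := by
  have hm0 : (m : ℂ) ≠ 0 := by exact_mod_cast NeZero.ne m
  have hN : NeZero (N * m ^ 2) := ⟨mul_ne_zero (NeZero.ne N) (pow_ne_zero 2 (NeZero.ne m))⟩
  let c : ZMod m → ℂ := fun j => (m : ℂ)⁻¹ * ZMod.dft ψ j
  let F : CuspForm (Gamma1 (N * m ^ 2)) k := ∑ j : ZMod m, c j • transl f m (j.val : ℤ)
  refine ⟨F, qCoeff_eq_of_hasSum F _ fun τ => ?_⟩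
  have hF : F τ = ∑ j : ZMod m, c j * (⇑f ∣[k] trM (((j.val : ℤ) : ℚ) / m)) τ := by
    have h1 : ⇑F = ∑ j : ZMod m, c j • (⇑f ∣[k] trM (((j.val : ℤ) : ℚ) / m)) := by
      show ⇑(∑ j : ZMod m, c j • transl f m (j.val : ℤ)) = _
      rw [FunLike.coe_sum]
      rfl
    rw [h1, Finset.sum_apply]
    rfl
  rw [hF]
  have h2 := hasSum_sum (s := (Finset.univ : Finset (ZMod m)))
    (fun j _ => (hasSum_trM f (((j.val : ℤ) : ℚ) / m) τ).mul_left (c j))
  refine HasSum.congr_fun' h2 fun n => ?_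
  have hinv : ψ (n : ZMod m) = ∑ j : ZMod m, c j * cexp (2 * π * I * ((((j.val : ℤ) : ℚ) / m : ℚ) : ℂ)) ^ n := by
    have h3 : ψ (n : ZMod m) = ZMod.dft.symm (ZMod.dft ψ) (n : ZMod m) := by
      rw [LinearEquiv.symm_apply_apply]
    rw [h3, ZMod.invDFT_apply, smul_eq_mul, Finset.mul_sum]
    refine Finset.sum_congr rfl fun j _ => ?_
    have h4 : ZMod.stdAddChar (j * (n : ZMod m)) =
        cexp (2 * π * I * ((((j.val : ℤ) : ℚ) / m : ℚ) : ℂ)) ^ n := by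
      have h5 : j * (n : ZMod m) = (((j.val * n : ℕ) : ℤ) : ZMod m) := by
        push_cast
        rw [ZMod.natCast_zmod_val]
      rw [h5, ZMod.stdAddChar_coe, ← Complex.exp_nat_mul]
      congr 1
      push_cast
      ring
    rw [h4, smul_eq_mul]
    simp only [c]
    ring
  rw [hinv, smul_eq_mul, Finset.sum_mul, Finset.sum_mul]
  refine Finset.sum_congr rfl fun j _ => ?_
  rw [smul_eq_mul]
  ring

/-! ### `U_m` -/

lemma vadd_int {h : ℍ → ℂ} (hh : Function.Periodic (h ∘ ofComplex) 1) (z : ℤ) {τ τ' : ℍ}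
    (e : (τ' : ℂ) = τ + z) : h τ' = h τ := by
  have h1 : (h ∘ ofComplex) ((τ : ℂ) + z) = (h ∘ ofComplex) (τ : ℂ) := by
    have := hh.int_mul z
    rw [mul_one] at this
    exact this (τ : ℂ)
  simp only [Function.comp_apply] at h1
  rw [← e, ofComplex_apply, ofComplex_apply] at h1
  exact h1

lemma slash_T_zpow {h : ℍ → ℂ} (hh : Function.Periodic (h ∘ ofComplex) 1) (z : ℤ) :
    h ∣[k] (ModularGroup.T ^ z) = h := by
  funext τ
  rw [ModularForm.SL_slash]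
  have key : (((ModularGroup.T ^ z : SL(2, ℤ)) : GL (Fin 2) ℝ)) = trM (z : ℚ) := by
    apply Units.ext
    rw [val_trM]
    ext i j
    have h1 : ((mapGL ℝ (ModularGroup.T ^ z) : GL (Fin 2) ℝ) : Matrix (Fin 2) (Fin 2) ℝ) i j =
        (((ModularGroup.T ^ z : SL(2, ℤ)) i j : ℤ) : ℝ) := rfl
    refine h1.trans ?_
    rw [ModularGroup.coe_T_zpow]
    fin_cases i <;> fin_cases j <;> simp
  erw [key]
  rw [slash_trM_apply]
  exact vadd_int hh z (by rw [coe_trM_smul]; simp)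

/-- Invariance of `f ∣ (1 j; 0 m)`. -/
lemma inv_heckeMatrix (f : CuspForm (Gamma1 N) k) (m : ℕ) [NeZero m] (j : ℕ) {γ : SL(2, ℤ)}
    (hγ : γ ∈ Gamma1 (N * m)) (hb : (m : ℤ) ∣ γ 0 1) :
    (⇑f ∣[k] heckeMatrix m j) ∣[k] γ = ⇑f ∣[k] heckeMatrix m j := by
  have hm0 : m ≠ 0 := NeZero.ne m
  have hmR : (m : ℝ) ≠ 0 := by exact_mod_cast hm0
  obtain ⟨h0, h1, h2⟩ := (Gamma1_mem _ _).mp hγ
  have ha : (((N * m : ℕ) : ℤ)) ∣ γ 0 0 - 1 := by
    rw [← ZMod.intCast_zmod_eq_zero_iff_dvd]; push_cast; rw [h0]; ring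
  have hd : (((N * m : ℕ) : ℤ)) ∣ γ 1 1 - 1 := by
    rw [← ZMod.intCast_zmod_eq_zero_iff_dvd]; push_cast; rw [h1]; ring
  have hc : (((N * m : ℕ) : ℤ)) ∣ γ 1 0 := by
    rw [← ZMod.intCast_zmod_eq_zero_iff_dvd]; exact h2
  obtain ⟨a', ha'⟩ := ha
  obtain ⟨d', hd'⟩ := hd
  obtain ⟨c', hc'⟩ := hc
  obtain ⟨b', hb'⟩ := hb
  push_cast at ha' hd' hc'
  have hdet : γ 0 0 * γ 1 1 - γ 0 1 * γ 1 0 = 1 := by
    have := γ.det_coe
    rwa [Matrix.det_fin_two] at this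
  have e1 : (γ 0 0 : ℤ) = 1 + (N * m : ℤ) * a' := by linarith
  have e2 : (γ 1 1 : ℤ) = 1 + (N * m : ℤ) * d' := by linarith
  let A : ℤ := γ 0 0 + j * γ 1 0
  let B : ℤ := b' + j * (N * (d' - a')) - j ^ 2 * (N * c')
  let C : ℤ := m * γ 1 0
  let D : ℤ := γ 1 1 - j * γ 1 0
  have hdet' : (!![A, B; C, D] : Matrix (Fin 2) (Fin 2) ℤ).det = 1 := by
    rw [Matrix.det_fin_two_of]
    simp only [A, B, C, D]
    rw [hc', e1, e2, hb'] at hdet
    rw [hc', e1, e2]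
    linear_combination hdet
  let δ : SL(2, ℤ) := ⟨!![A, B; C, D], hdet'⟩
  have hδ : δ ∈ Gamma1 N := by
    rw [Gamma1_mem]
    refine ⟨?_, ?_, ?_⟩
    · show ((A : ℤ) : ZMod N) = 1
      rw [← sub_eq_zero, ← Int.cast_one, ← Int.cast_sub, ZMod.intCast_zmod_eq_zero_iff_dvd]
      refine ⟨m * a' + j * (m * c'), ?_⟩
      simp only [A]
      linear_combination ha' + j * hc'
    · show ((D : ℤ) : ZMod N) = 1
      rw [← sub_eq_zero, ← Int.cast_one, ← Int.cast_sub, ZMod.intCast_zmod_eq_zero_iff_dvd]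
      refine ⟨m * d' - j * (m * c'), ?_⟩
      simp only [D]
      linear_combination hd' - j * hc'
    · show ((C : ℤ) : ZMod N) = 0
      rw [ZMod.intCast_zmod_eq_zero_iff_dvd]
      refine ⟨m * (m * c'), ?_⟩
      simp only [C]
      linear_combination m * hc'
  have hent : ∀ (g : SL(2, ℤ)) (i j : Fin 2),
      ((mapGL ℝ g : GL (Fin 2) ℝ) : Matrix (Fin 2) (Fin 2) ℝ) i j = ((g i j : ℤ) : ℝ) :=
    fun _ _ _ => rfl
  have key : heckeMatrix m j * mapGL ℝ γ = mapGL ℝ δ * heckeMatrix m j := by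
    apply Units.ext
    rw [Units.val_mul, Units.val_mul, val_heckeMatrix hm0]
    have e1R : ((γ 0 0 : ℤ) : ℝ) = 1 + (N * m : ℝ) * a' := by
      exact_mod_cast congrArg (Int.cast (R := ℝ)) e1
    have e2R : ((γ 1 1 : ℤ) : ℝ) = 1 + (N * m : ℝ) * d' := by
      exact_mod_cast congrArg (Int.cast (R := ℝ)) e2
    have e3R : ((γ 1 0 : ℤ) : ℝ) = (N * m : ℝ) * c' := by
      exact_mod_cast congrArg (Int.cast (R := ℝ)) hc'
    have e4R : ((γ 0 1 : ℤ) : ℝ) = (m : ℝ) * b' := by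
      exact_mod_cast congrArg (Int.cast (R := ℝ)) hb'
    have f1 : ((δ 0 0 : ℤ) : ℝ) = (1 + (N * m : ℝ) * a') + j * ((N * m : ℝ) * c') := by
      show ((A : ℤ) : ℝ) = _
      simp only [A]; push_cast; rw [e1R, e3R]
    have f2 : ((δ 0 1 : ℤ) : ℝ) = b' + j * (N * (d' - a')) - j ^ 2 * (N * c') := by
      show ((B : ℤ) : ℝ) = _
      simp only [B]; push_cast; ring
    have f3 : ((δ 1 0 : ℤ) : ℝ) = m * ((N * m : ℝ) * c') := by
      show ((C : ℤ) : ℝ) = _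
      simp only [C]; push_cast; rw [e3R]
    have f4 : ((δ 1 1 : ℤ) : ℝ) = (1 + (N * m : ℝ) * d') - j * ((N * m : ℝ) * c') := by
      show ((D : ℤ) : ℝ) = _
      simp only [D]; push_cast; rw [e2R, e3R]
    ext i j
    fin_cases i <;> fin_cases j <;>
      simp only [Matrix.mul_apply, Fin.sum_univ_two, hent, Fin.zero_eta, Fin.mk_one, f1, f2, f3,
        f4, e1R, e2R, e3R, e4R, Matrix.of_apply, Matrix.cons_val_zero, Matrix.cons_val_one,
        Matrix.cons_val', Matrix.cons_val_fin_one] <;>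
      ring
  rw [ModularForm.SL_slash, ← SlashAction.slash_mul]
  erw [key]
  rw [SlashAction.slash_mul]
  congr 1
  exact inv1_of_class f δ hδ

lemma inv1_heckeU [NeZero N] (f : CuspForm (Gamma1 N) k) (m : ℕ) [NeZero m] :
    Inv1 (N * m) k (heckeU k m ⇑f) := by
  have hper : Function.Periodic (heckeU k m ⇑f ∘ ofComplex) 1 :=
    periodic_heckeU_comp_ofComplex k m
      (SlashInvariantFormClass.periodic_comp_ofComplex f (one_mem_strictPeriods_Gamma1 N))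
  intro γ hγ
  obtain ⟨h0, h1, h2⟩ := (Gamma1_mem _ _).mp hγ
  obtain ⟨a', ha'⟩ : (((N * m : ℕ) : ℤ)) ∣ γ 0 0 - 1 := by
    rw [← ZMod.intCast_zmod_eq_zero_iff_dvd]; push_cast; rw [h0]; ring
  push_cast at ha'
  set z : ℤ := - γ 0 1 with hz
  have hT : ModularGroup.T ^ z ∈ Gamma1 (N * m) := by
    rw [Gamma1_mem, ModularGroup.coe_T_zpow]
    simp
  have hδ : γ * ModularGroup.T ^ z ∈ Gamma1 (N * m) := mul_mem hγ hT
  have hb : (m : ℤ) ∣ (γ * ModularGroup.T ^ z) 0 1 := by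
    refine ⟨- (N * a' * γ 0 1), ?_⟩
    rw [Matrix.SpecialLinearGroup.coe_mul, ModularGroup.coe_T_zpow, Matrix.mul_apply,
      Fin.sum_univ_two]
    simp only [Matrix.of_apply, Matrix.cons_val', Matrix.cons_val_one, Matrix.cons_val_fin_one,
      Matrix.cons_val_zero, hz]
    linear_combination (- γ 0 1) * ha'
  have h3 : heckeU k m ⇑f ∣[k] (γ * ModularGroup.T ^ z) = heckeU k m ⇑f := by
    rw [heckeU_def, SlashAction.sum_slash]
    exact Finset.sum_congr rfl fun j _ => inv_heckeMatrix f m j hδ hb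
  have h4 : γ = (γ * ModularGroup.T ^ z) * ModularGroup.T ^ (-z) := by
    rw [mul_assoc, ← zpow_add, add_neg_cancel, zpow_zero, mul_one]
  rw [h4, SlashAction.slash_mul, h3, slash_T_zpow hper]

/-- `U_m : S_k(Γ₁(N)) → S_k(Γ₁(N m))`. -/
theorem exists_U [NeZero N] (f : CuspForm (Gamma1 N) k) (m : ℕ) [NeZero m] :
    ∃ F : CuspForm (Gamma1 (N * m)) k, ∀ n : ℕ, qCoeff F n = qCoeff f (m * n) := by
  have hN : NeZero (N * m) := ⟨mul_ne_zero (NeZero.ne N) (NeZero.ne m)⟩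
  have hm0 : m ≠ 0 := NeZero.ne m
  refine ⟨mkCusp (heckeU k m ⇑f) (inv1_heckeU f m)
    (mdifferentiable_heckeU k m (CuspFormClass.holo f))
    (fun hc => isZeroAt_heckeU f m (isCusp_mono hc)), fun n => ?_⟩
  have : Fact (IsCusp OnePoint.infty (Gamma1 N : Subgroup (GL (Fin 2) ℝ))) :=
    ⟨Subgroup.isCusp_of_mem_strictPeriods one_pos (one_mem_strictPeriods_Gamma1 N)⟩
  have h := qCoeff_heckeU_bare hm0
    (SlashInvariantFormClass.periodic_comp_ofComplex f (one_mem_strictPeriods_Gamma1 N))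
    (holo f) (bdd_at_infty f) k n
  show qCoeff (heckeU k m ⇑f) n = _
  rw [h, coeffHeckeU_apply, mul_comm]

end Fermat.Agent.H48Z
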