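import Mathlib
import Fermat.Agent.H48ZCoef
import Fermat.Agent.H48Neb
import Fermat.Agent.H49DeligneSerre

/-!
# From a partial eigenvector to a normalised eigenform, weight one
-/

set_option autoImplicit false

noncomputable section

namespace Fermat.Agent.H48Z

open UpperHalfPlane hiding I
open ModularForm CongruenceSubgroup ModularFormClass Complex
open scoped MatrixGroups ModularForm OnePoint Manifold Real
open Fermat.Agent.H58

variable {N : ℕ} [NeZero N]

omit [NeZero N] in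
lemma isCoprime_of_prime {p : ℕ} (hp : p.Prime) (hpN : ¬ p ∣ N) : IsCoprime (p : ℤ) (N : ℤ) :=
  Nat.isCoprime_iff_coprime.mpr ((Nat.Prime.coprime_iff_not_dvd hp).mpr hpN)

/-- The Dirichlet character of an eigenvector of the diamond operators. -/
theorem exists_character {k : ℤ} (h : CuspForm (Gamma1 N) k) (h0 : h ≠ 0)
    (hd : ∀ d : ℤ, IsCoprime d (N : ℤ) → ∃ c : ℂ, dia N k d h = c • h) :
    ∃ ε : DirichletCharacter ℂ N, ∀ d : ℤ, IsCoprime d (N : ℤ) →
      dia N k d h = ε (d : ZMod N) • h := by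
  have huniq : ∀ c d : ℂ, c • h = d • h → c = d := fun c d e => smul_left_injective ℂ h0 e
  have hcop : ∀ u : (ZMod N)ˣ, IsCoprime (((u : ZMod N).val : ℕ) : ℤ) (N : ℤ) := fun u =>
    Nat.isCoprime_iff_coprime.mpr (ZMod.val_coe_unit_coprime u)
  choose c hc using fun u : (ZMod N)ˣ => hd _ (hcop u)
  have hcast : ∀ u : (ZMod N)ˣ, (((((u : ZMod N).val : ℕ) : ℤ)) : ZMod N) = (u : ZMod N) := by
    intro u
    rw [Int.cast_natCast, ZMod.natCast_zmod_val]
  let f : (ZMod N)ˣ →* ℂ :=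
    { toFun := c
      map_one' := by
        apply huniq
        rw [← hc, one_smul]
        have h1 : dia N k ((((1 : (ZMod N)ˣ) : ZMod N).val : ℕ) : ℤ) = dia N k 1 :=
          dia_congr (hcop 1) isCoprime_one_left (by rw [hcast]; simp)
        rw [h1, dia_one]
        rfl
      map_mul' := by
        intro u v
        apply huniq
        rw [← hc]
        have h1 : dia N k ((((u * v : (ZMod N)ˣ) : ZMod N).val : ℕ) : ℤ) =
            dia N k ((((u : ZMod N).val : ℕ) : ℤ) * (((v : ZMod N).val : ℕ) : ℤ)) :=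
          dia_congr (hcop _) ((hcop u).mul_left (hcop v))
            (by rw [hcast, Int.cast_mul, hcast, hcast]; simp)
        rw [h1, dia_mul (hcop u) (hcop v), Module.End.mul_apply, hc v, map_smul, hc u, smul_smul,
          mul_comm] }
  refine ⟨MulChar.ofUnitHom f.toHomUnits, fun d hdN => ?_⟩
  set u : (ZMod N)ˣ := ZMod.unitOfIsCoprime d hdN with hu
  have hud : ((u : (ZMod N)ˣ) : ZMod N) = (d : ZMod N) := ZMod.coe_unitOfIsCoprime d hdN
  have h1 : dia N k d = dia N k (((u : ZMod N).val : ℕ) : ℤ) :=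
    dia_congr hdN (hcop u) (by rw [hcast, hud])
  rw [h1, hc u, ← hud, MulChar.ofUnitHom_coe]
  rfl

/-- The Hecke relation in terms of coefficients. -/
def Rel (M : ℕ) (ε : DirichletCharacter ℂ M) (f : ℍ → ℂ) (μ : ℕ → ℂ) : Prop :=
  ∀ p : ℕ, p.Prime → ¬ p ∣ M → ∀ n : ℕ,
    qCoeff f (p * n) + ε (p : ZMod M) * (if p ∣ n then qCoeff f (n / p) else 0) =
      μ p * qCoeff f n

theorem exists_eigenform (g : CuspForm (Gamma1 N) 1) (hg : g ≠ 0) (P : Set ℕ) (lam : ℕ → ℂ)
    (hT : ∀ (p : ℕ) (hp : p.Prime) (hpN : ¬ p ∣ N), p ∈ P → T1L N 1 p hp hpN g = lam p • g) :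
    ∃ (M : ℕ) (_ : NeZero M) (ε : DirichletCharacter ℂ M) (f : CuspForm (Gamma1 M) 1),
      N ∣ M ∧ qCoeff f 1 = 1 ∧ Rel M ε f (qCoeff f) ∧
      ∀ p ∈ P, p.Prime → ¬ p ∣ M → qCoeff f p = lam p := by
  classical
  haveI : FiniteDimensional ℂ (CuspForm (Gamma1 N) 1) :=
    H50.finiteDimensional_cusp (Gamma1 N) 1 (one_mem_strictPeriods_Gamma1 N)
  -- the partial eigenspace
  let E : Submodule ℂ (CuspForm (Gamma1 N) 1) :=
    { carrier := {h | ∀ (p : ℕ) (hp : p.Prime) (hpN : ¬ p ∣ N), p ∈ P →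
        T1L N 1 p hp hpN h = lam p • h}
      zero_mem' := fun p hp hpN _ => by rw [map_zero, smul_zero]
      add_mem' := fun ha hb p hp hpN hP => by rw [map_add, ha p hp hpN hP, hb p hp hpN hP, smul_add]
      smul_mem' := fun c a ha p hp hpN hP => by
        rw [map_smul, ha p hp hpN hP, smul_comm] }
  let A : Set (Module.End ℂ (CuspForm (Gamma1 N) 1)) :=
    {t | (∃ (p : ℕ) (hp : p.Prime) (hpN : ¬ p ∣ N), t = T1L N 1 p hp hpN) ∨
      ∃ d : ℤ, IsCoprime d (N : ℤ) ∧ t = dia N 1 d}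
  have hcomm : ∀ s ∈ A, ∀ t ∈ A, Commute s t := by
    rintro s (⟨p, hp, hpN, rfl⟩ | ⟨d, hd, rfl⟩) t (⟨q, hq, hqN, rfl⟩ | ⟨e, he, rfl⟩)
    · exact T1L_T1L_comm hp hpN hq hqN
    · exact T1L_dia_comm hp hpN e
    · exact (T1L_dia_comm hq hqN d).symm
    · exact dia_comm hd he
  have hEne : E ≠ ⊥ := by
    intro h
    have : g ∈ E := hT
    rw [h, Submodule.mem_bot] at this
    exact hg this
  have hst : ∀ t ∈ A, ∀ v ∈ E, t v ∈ E := by
    intro t ht v hv p hp hpN hP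
    have h1 : Commute (T1L N 1 p hp hpN) t := hcomm _ (Or.inl ⟨p, hp, hpN, rfl⟩) t ht
    have h2 : T1L N 1 p hp hpN (t v) = t (T1L N 1 p hp hpN v) := LinearMap.congr_fun h1.eq v
    rw [h2, hv p hp hpN hP, map_smul]
  obtain ⟨h, hhE, h0, χ, hχ⟩ := H49.exists_common_eigenvector A hcomm E hEne hst
  obtain ⟨ε, hε⟩ := exists_character h h0
    (fun d hd => ⟨χ _, hχ _ (Or.inr ⟨d, hd, rfl⟩)⟩)
  -- the eigenvalues
  let μ : ℕ → ℂ := fun p => if H : p.Prime ∧ ¬ p ∣ N then χ (T1L N 1 p H.1 H.2) else 0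
  have hμ : ∀ (p : ℕ) (hp : p.Prime) (hpN : ¬ p ∣ N), T1L N 1 p hp hpN h = μ p • h := by
    intro p hp hpN
    rw [hχ _ (Or.inl ⟨p, hp, hpN, rfl⟩)]
    simp only [μ]
    rw [dif_pos ⟨hp, hpN⟩]
  have hrel : Rel N ε h μ := by
    intro p hp hpN n
    have h1 := qCoeff_T1L hp hpN h n
    rw [hμ p hp hpN, hε p (isCoprime_of_prime hp hpN)] at h1
    have h2 : ∀ (c : ℂ) (m : ℕ), qCoeff ((c • h : CuspForm (Gamma1 N) 1) : ℍ → ℂ) m =
        c * qCoeff h m := fun c m => H48.qCoeff_smul' c h m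
    rw [h2, h2, show ((1 : ℤ) - 1) = 0 by norm_num, zpow_zero, one_mul, Int.cast_natCast] at h1
    rw [h1]
    split_ifs <;> simp
  -- minimal coefficient
  have hex : ∃ m, qCoeff h m ≠ 0 := by
    by_contra hcon
    push Not at hcon
    apply h0
    apply ext_qCoeff
    intro n
    rw [hcon n, H48.qCoeff_zero']
  set m := Nat.find hex with hm
  have hm1 : qCoeff h m ≠ 0 := Nat.find_spec hex
  have hmin : ∀ j < m, qCoeff h j = 0 := fun j hj => not_not.mp (Nat.find_min hex hj)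
  have hm0 : m ≠ 0 := by
    intro e
    apply hm1
    rw [e]
    haveI : Fact (IsCusp OnePoint.infty (Gamma1 N : Subgroup (GL (Fin 2) ℝ))) :=
      ⟨Subgroup.isCusp_of_mem_strictPeriods one_pos (one_mem_strictPeriods_Gamma1 N)⟩
    exact CuspFormClass.qExpansion_coeff_zero h one_pos (one_mem_strictPeriods_Gamma1 N)
  have hmp : ∀ p : ℕ, p.Prime → ¬ p ∣ N → ¬ p ∣ m := by
    rintro p hp hpN ⟨m', hm'⟩
    have hm'0 : m' ≠ 0 := by
      rintro rfl
      exact hm0 (by rw [hm', mul_zero])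
    have hlt : m' < m := by
      rw [hm']
      exact lt_mul_of_one_lt_left (Nat.pos_of_ne_zero hm'0) hp.one_lt
    have h1 := hrel p hp hpN m'
    rw [← hm', hmin m' hlt, mul_zero] at h1
    have h2 : (if p ∣ m' then qCoeff h (m' / p) else 0) = 0 := by
      split_ifs
      · exact hmin _ (lt_of_le_of_lt (Nat.div_le_self _ _) hlt)
      · rfl
    rw [h2, mul_zero, add_zero] at h1
    exact hm1 h1
  haveI : NeZero m := ⟨hm0⟩
  haveI hNm : NeZero (N * m) := ⟨mul_ne_zero (NeZero.ne N) hm0⟩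
  obtain ⟨F, hF⟩ := exists_U h m
  let f : CuspForm (Gamma1 (N * m)) 1 := (qCoeff h m)⁻¹ • F
  have hf : ∀ n, qCoeff f n = (qCoeff h m)⁻¹ * qCoeff h (m * n) := by
    intro n
    have h1 : qCoeff f n = (qCoeff h m)⁻¹ * qCoeff F n := H48.qCoeff_smul' _ F n
    rw [h1, hF]
  have hf1 : qCoeff f 1 = 1 := by
    rw [hf, mul_one, inv_mul_cancel₀ hm1]
  have hrelμ : ∀ p : ℕ, p.Prime → ¬ p ∣ N * m → ∀ n : ℕ,
      qCoeff f (p * n) + ε (p : ZMod N) * (if p ∣ n then qCoeff f (n / p) else 0) =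
        μ p * qCoeff f n := by
    intro p hp hpM n
    have hpN : ¬ p ∣ N := fun hh => hpM (hh.mul_right m)
    have hpm : ¬ p ∣ m := hmp p hp hpN
    have h1 := hrel p hp hpN (m * n)
    have h2 : p ∣ m * n ↔ p ∣ n := by
      rw [hp.dvd_mul]
      exact ⟨fun hh => hh.resolve_left hpm, Or.inr⟩
    rw [if_congr h2 rfl rfl] at h1
    have h3 : p * (m * n) = m * (p * n) := by ring
    rw [h3] at h1
    by_cases hpn : p ∣ n
    · rw [if_pos hpn, Nat.mul_div_assoc _ hpn] at h1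
      rw [if_pos hpn, hf (p * n), hf n, hf (n / p)]
      linear_combination (qCoeff h m)⁻¹ * h1
    · rw [if_neg hpn] at h1
      rw [if_neg hpn, hf (p * n), hf n]
      linear_combination (qCoeff h m)⁻¹ * h1
  have hμf : ∀ p : ℕ, p.Prime → ¬ p ∣ N * m → μ p = qCoeff f p := by
    intro p hp hpM
    have h1 := hrelμ p hp hpM 1
    rw [if_neg hp.not_dvd_one, mul_zero, add_zero, mul_one, hf1, mul_one] at h1
    exact h1.symm
  refine ⟨N * m, hNm, ε.changeLevel (dvd_mul_right N m), f, dvd_mul_right N m, hf1, ?_, ?_⟩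
  · intro p hp hpM n
    have hcop : IsCoprime (p : ℤ) ((N * m : ℕ) : ℤ) := isCoprime_of_prime hp hpM
    have h1 := DirichletCharacter.changeLevel_eq_cast_of_dvd' ε (dvd_mul_right N m) hcop
    rw [Int.cast_natCast, Int.cast_natCast] at h1
    rw [h1, ← hμf p hp hpM]
    exact hrelμ p hp hpM n
  · intro p hP hp hpM
    have hpN : ¬ p ∣ N := fun hh => hpM (hh.mul_right m)
    rw [← hμf p hp hpM]
    have h1 := hhE p hp hpN hP
    rw [hμ p hp hpN] at h1
    exact smul_left_injective ℂ h0 h1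

end Fermat.Agent.H48Z
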