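import Mathlib

/-!
# Two by two complex matrices: traces determine an irreducible representation
-/

set_option autoImplicit false

noncomputable section

namespace Fermat.Agent.H48Z

open Matrix

local notation "M2C" => Matrix (Fin 2) (Fin 2) ℂ

theorem cayley (A : M2C) : A * A = A.trace • A - A.det • (1 : M2C) := by
  ext i j
  fin_cases i <;> fin_cases j <;>
    simp [Matrix.mul_apply, Fin.sum_univ_two, Matrix.trace_fin_two, Matrix.det_fin_two] <;> ring

/-- A matrix of finite order and trace `2` is the identity. -/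
theorem eq_one_of_trace {A : M2C} {n : ℕ} (hn : 0 < n) (hA : A ^ n = 1) (ht : A.trace = 2) :
    A = 1 := by
  obtain ⟨z, hz⟩ := IsAlgClosed.exists_pow_nat_eq (1 - A.det) (n := 2) (by norm_num)
  have key : ∀ l : ℂ, l * l - 2 * l + A.det = 0 → ‖l‖ = 1 := by
    intro l hl
    have hdet : (A - l • (1 : M2C)).det = 0 := by
      rw [Matrix.det_fin_two] at hl ⊢
      rw [Matrix.trace_fin_two] at ht
      simp only [Matrix.sub_apply, Matrix.smul_apply, Matrix.one_apply_eq, smul_eq_mul, mul_one,
        Matrix.one_apply, Fin.zero_eq_one_iff, Fin.one_eq_zero_iff]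
      norm_num
      linear_combination hl - l * ht
    obtain ⟨v, hv0, hv⟩ := Matrix.exists_mulVec_eq_zero_iff.mpr hdet
    have hAv : A *ᵥ v = l • v := by
      rw [Matrix.sub_mulVec, sub_eq_zero, Matrix.smul_mulVec, Matrix.one_mulVec] at hv
      exact hv
    have hpow : ∀ k : ℕ, (A ^ k) *ᵥ v = l ^ k • v := by
      intro k
      induction k with
      | zero => simp
      | succ k ih =>
        rw [pow_succ, ← Matrix.mulVec_mulVec, hAv, Matrix.mulVec_smul, ih, smul_smul, pow_succ,
          mul_comm]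
    have h1 := hpow n
    rw [hA, Matrix.one_mulVec] at h1
    have h2 : (l ^ n - 1) • v = 0 := by rw [sub_smul, one_smul, ← h1, sub_self]
    have h3 : l ^ n = 1 := by
      rcases smul_eq_zero.mp h2 with h | h
      · exact sub_eq_zero.mp h
      · exact absurd h hv0
    have h4 : ‖l‖ ^ n = 1 := by rw [← norm_pow, h3, norm_one]
    exact (pow_eq_one_iff_of_nonneg (norm_nonneg l) hn.ne').mp h4
  have h1 := key (1 + z) (by linear_combination hz)
  have h2 := key (1 - z) (by linear_combination hz)
  have h3 : z = 0 := by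
    have h5 := parallelogram_law_with_norm ℝ (1 : ℂ) z
    rw [h1, h2, norm_one] at h5
    have h6 : ‖z‖ * ‖z‖ = 0 := by linarith
    exact norm_eq_zero.mp (mul_self_eq_zero.mp h6)
  have hd : A.det = 1 := by
    rw [h3] at hz
    have : (1 : ℂ) - A.det = 0 := by rw [← hz]; norm_num
    exact (sub_eq_zero.mp this).symm
  have hCH := cayley A
  rw [ht, hd, one_smul] at hCH
  have hpow : ∀ k : ℕ, A ^ k = 1 + (k : ℂ) • (A - 1) := by
    intro k
    induction k with
    | zero => simp
    | succ k ih =>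
      rw [pow_succ, ih, add_mul, one_mul, smul_mul_assoc, sub_mul, one_mul, hCH]
      push_cast
      rw [add_smul, one_smul, show (2 : ℂ) • A - 1 - A = A - 1 by
        rw [two_smul]; abel]
      abel
  have h7 := hpow n
  rw [hA] at h7
  have h8 : (n : ℂ) • (A - 1) = 0 := by
    have := congrArg (fun X : M2C => X - 1) h7
    simp only [sub_self, add_sub_cancel_left] at this
    exact this.symm
  rcases smul_eq_zero.mp h8 with h | h
  · exact absurd (Nat.cast_eq_zero.mp h) hn.ne'
  · exact sub_eq_zero.mp h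

theorem eq_neg_one_of_trace {A : M2C} {n : ℕ} (hn : 0 < n) (hA : A ^ n = 1)
    (ht : A.trace = -2) : A = -1 := by
  have h1 : (-A) ^ (2 * n) = 1 := by
    rw [pow_mul, neg_sq, ← pow_mul, mul_comm, pow_mul, hA, one_pow]
  have h2 : -A = 1 := eq_one_of_trace (by omega) h1 (by rw [Matrix.trace_neg, ht]; norm_num)
  rw [← h2, neg_neg]

/-- The key comparison of traces of powers. -/
theorem trace_pow_eq {A B : M2C} {n j k : ℕ} (hn : 0 < n) (hA : A ^ n = 1)
    (ht : A.trace = B.trace) (hd : B.det = 1) (hB : B ^ 4 = 1) (hjk : B = (B ^ j) ^ k) :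
    (A ^ j).trace = (B ^ j).trace := by
  have hCH := cayley B
  rw [hd, one_smul] at hCH
  have h4 : B ^ 4 = (B * B) * (B * B) := by
    rw [show (4 : ℕ) = 2 + 2 from rfl, pow_add, sq]
  set t := B.trace with htdef
  have h5 : (t ^ 3 - 2 * t) • B = (t ^ 2) • (1 : M2C) := by
    have h6 : (B * B) * (B * B) = 1 := by rw [← h4, hB]
    rw [hCH] at h6
    have h7 : (t • B - 1) * (t • B - 1) = (t * t) • (B * B) - (2 * t) • B + 1 := by
      rw [sub_mul, mul_sub, smul_mul_smul_comm, mul_one, one_mul, two_mul, add_smul]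
      abel
    rw [h7, hCH] at h6
    have h8 : (t * t) • (t • B - 1) - (2 * t) • B = 0 := by
      have := congrArg (fun X : M2C => X - 1) h6
      simpa using this
    rw [smul_sub, smul_smul] at h8
    have h9 : (t ^ 3 - 2 * t) • B - (t ^ 2) • (1 : M2C) =
        (t * t * t) • B - (t * t) • (1 : M2C) - (2 * t) • B := by
      rw [sub_smul, show t ^ 3 = t * t * t by ring, sq]
      abel
    rw [← sub_eq_zero, h9]
    exact h8
  have h10 : t ^ 2 * (t ^ 2 - 4) = 0 := by
    have := congrArg Matrix.trace h5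
    rw [Matrix.trace_smul, Matrix.trace_smul, Matrix.trace_one, Fintype.card_fin, smul_eq_mul,
      smul_eq_mul, ← htdef] at this
    push_cast at this
    linear_combination this
  have h11 : t = 0 ∨ t = 2 ∨ t = -2 := by
    rcases mul_eq_zero.mp h10 with h | h
    · exact Or.inl (pow_eq_zero_iff (two_ne_zero)|>.mp h)
    · have : (t - 2) * (t + 2) = 0 := by linear_combination h
      rcases mul_eq_zero.mp this with h' | h'
      · exact Or.inr (Or.inl (sub_eq_zero.mp h'))
      · exact Or.inr (Or.inr (eq_neg_of_add_eq_zero_left h'))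
  rcases h11 with h | h | h
  · -- trace zero
    have hB2 : B ^ 2 = -1 := by
      rw [sq, hCH, h, zero_smul, zero_sub]
    have hA2 : A ^ 2 = (-A.det) • (1 : M2C) := by
      rw [sq, cayley, ht, h, zero_smul, zero_sub, neg_smul]
    rcases Nat.even_or_odd' j with ⟨i, hi | hi⟩
    · exfalso
      have h12 : B ^ j = (-1) ^ i := by rw [hi, pow_mul, hB2]
      rw [h12, ← pow_mul] at hjk
      have h13 : B = 1 ∨ B = -1 := by
        rcases neg_one_pow_eq_or M2C (i * k) with h' | h'
        · left; rw [hjk, h']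
        · right; rw [hjk, h']
      rcases h13 with h' | h'
      · rw [htdef, h', Matrix.trace_one] at h
        norm_num at h
      · rw [htdef, h', Matrix.trace_neg, Matrix.trace_one] at h
        norm_num at h
    · rw [hi, pow_succ, pow_mul, hA2, pow_succ, pow_mul, hB2, smul_pow, one_pow, smul_mul_assoc,
        one_mul, Matrix.trace_smul, ht, h, smul_zero]
      rcases neg_one_pow_eq_or M2C i with h' | h'
      · rw [h', one_mul, ← htdef, h]
      · rw [h', neg_one_mul, Matrix.trace_neg, ← htdef, h, neg_zero]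
  · have h12 : A = 1 := eq_one_of_trace hn hA (by rw [ht, h])
    have h13 : B = 1 := eq_one_of_trace (by norm_num) hB (by rw [← htdef, h])
    rw [h12, h13]
  · have h12 : A = -1 := eq_neg_one_of_trace hn hA (by rw [ht, h])
    have h13 : B = -1 := eq_neg_one_of_trace (by norm_num) hB (by rw [← htdef, h])
    rw [h12, h13]

/-- A matrix which commutes with a spanning set is scalar. -/
theorem scalar_of_commute {ι : Type*} (b : ι → M2C)
    (hspan : Submodule.span ℂ (Set.range b) = ⊤) {X : M2C} (hX : ∀ i, X * b i = b i * X) :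
    X = (X 0 0) • (1 : M2C) := by
  have h1 : ∀ Y : M2C, X * Y = Y * X := by
    intro Y
    have hY : Y ∈ Submodule.span ℂ (Set.range b) := by rw [hspan]; trivial
    induction hY using Submodule.span_induction with
    | mem y hy => obtain ⟨i, rfl⟩ := hy; exact hX i
    | zero => rw [mul_zero, zero_mul]
    | add y z _ _ hy hz => rw [mul_add, add_mul, hy, hz]
    | smul c y _ hy => rw [mul_smul_comm, smul_mul_assoc, hy]
  have h2 := h1 !![0, 1; 0, 0]
  have h3 := h1 !![0, 0; 1, 0]
  have e1 := congrFun (congrFun h2 0) 1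
  have e2 := congrFun (congrFun h2 0) 0
  have e3 := congrFun (congrFun h3 0) 0
  simp [Matrix.mul_apply, Fin.sum_univ_two] at e1 e2 e3
  ext i j
  fin_cases i <;> fin_cases j
  · simp
  · simp [e3]
  · simp [← e2]
  · simp [e1]

/-- Two representations on `ℂ²` with the same trace are conjugate, if the second one spans. -/
theorem conj_of_trace {H : Type} [Group H] (a b : H →* M2C)
    (htr : ∀ h, (a h).trace = (b h).trace)
    (hspan : Submodule.span ℂ (Set.range b) = ⊤) :
    ∃ P : GL (Fin 2) ℂ, ∀ h, a h = (P : M2C) * b h * ((P⁻¹ : GL (Fin 2) ℂ) : M2C) := by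
  classical
  let a' : MonoidAlgebra ℂ H →ₐ[ℂ] M2C := MonoidAlgebra.lift ℂ M2C H a
  let b' : MonoidAlgebra ℂ H →ₐ[ℂ] M2C := MonoidAlgebra.lift ℂ M2C H b
  have ha' : ∀ h, a' (MonoidAlgebra.of ℂ H h) = a h := fun h => MonoidAlgebra.lift_of a h
  have hb' : ∀ h, b' (MonoidAlgebra.of ℂ H h) = b h := fun h => MonoidAlgebra.lift_of b h
  have htr' : ∀ x, (a' x).trace = (b' x).trace := by
    intro x
    induction x using MonoidAlgebra.induction_on with
    | of h => rw [ha', hb', htr]
    | add x y hx hy => rw [map_add, map_add, Matrix.trace_add, Matrix.trace_add, hx, hy]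
    | smul c x hx => rw [map_smul, map_smul, Matrix.trace_smul, Matrix.trace_smul, hx]
  have hbsurj : Function.Surjective b' := by
    rw [← AlgHom.coe_toLinearMap, ← LinearMap.range_eq_top, eq_top_iff, ← hspan,
      Submodule.span_le]
    rintro _ ⟨h, rfl⟩
    exact ⟨MonoidAlgebra.of ℂ H h, hb' h⟩
  have hker1 : ∀ x, a' x = 0 → b' x = 0 := by
    intro x hx
    rw [Matrix.ext_iff_trace_mul_right]
    intro Y
    obtain ⟨y, rfl⟩ := hbsurj Y
    rw [← map_mul, ← htr', map_mul, hx, zero_mul, zero_mul]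
  obtain ⟨s, hs⟩ := LinearMap.exists_rightInverse_of_surjective b'.toLinearMap
    (LinearMap.range_eq_top.mpr hbsurj)
  have hs' : ∀ Y, b' (s Y) = Y := fun Y => LinearMap.congr_fun hs Y
  let L : M2C →ₗ[ℂ] M2C := a'.toLinearMap ∘ₗ s
  have hLinj : Function.Injective L := by
    rw [injective_iff_map_eq_zero]
    intro Y hY
    rw [← hs' Y]
    exact hker1 _ hY
  have hLsurj : Function.Surjective L := LinearMap.surjective_of_injective hLinj
  have hasurj : Function.Surjective a' := fun Y => by
    obtain ⟨Z, hZ⟩ := hLsurj Y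
    exact ⟨s Z, hZ⟩
  have hker2 : ∀ x, b' x = 0 → a' x = 0 := by
    intro x hx
    rw [Matrix.ext_iff_trace_mul_right]
    intro Y
    obtain ⟨y, rfl⟩ := hasurj Y
    rw [← map_mul, htr', map_mul, hx, zero_mul, zero_mul]
  have hL : ∀ x, L (b' x) = a' x := by
    intro x
    have h1 : b' (s (b' x) - x) = 0 := by rw [map_sub, hs', sub_self]
    have h2 := hker2 _ h1
    rw [map_sub, sub_eq_zero] at h2
    exact h2
  have hL1 : L 1 = 1 := by
    have h1 := hL 1
    rw [map_one b', map_one a'] at h1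
    exact h1
  have hLmul : ∀ X Y, L (X * Y) = L X * L Y := by
    intro X Y
    obtain ⟨x, rfl⟩ := hbsurj X
    obtain ⟨y, rfl⟩ := hbsurj Y
    rw [← map_mul b', hL, hL, hL, map_mul]
  let E : M2C ≃ₐ[ℂ] M2C := AlgEquiv.ofBijective (AlgHom.ofLinearMap L hL1 hLmul)
    ⟨hLinj, hLsurj⟩
  obtain ⟨T, hT⟩ := AlgEquiv.eq_linearEquivConjAlgEquiv
    ((Matrix.toLinAlgEquiv' (R := ℂ) (n := Fin 2)).symm.trans (E.trans Matrix.toLinAlgEquiv'))
  let P : GL (Fin 2) ℂ := ⟨LinearMap.toMatrix' T.toLinearMap, LinearMap.toMatrix' T.symm.toLinearMap,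
    by rw [← LinearMap.toMatrix'_comp]; simp, by rw [← LinearMap.toMatrix'_comp]; simp⟩
  refine ⟨P, fun h => ?_⟩
  have h1 : a h = L (b h) := by rw [← hb', hL, ha']
  have h2 : ∀ X : M2C, Matrix.toLin' (L X) = T.toLinearMap ∘ₗ Matrix.toLin' X ∘ₗ
      T.symm.toLinearMap := by
    intro X
    have h3 := DFunLike.congr_fun hT (Matrix.toLin' X)
    rw [LinearEquiv.conjAlgEquiv_apply] at h3
    rw [← h3]
    show Matrix.toLin' (L X) = Matrix.toLin' (L (LinearMap.toMatrix' (Matrix.toLin' X)))
    rw [LinearMap.toMatrix'_toLin']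
  rw [h1]
  apply Matrix.toLin'.injective
  rw [h2, mul_assoc, Matrix.toLin'_mul, Matrix.toLin'_mul]
  show _ = Matrix.toLin' (LinearMap.toMatrix' T.toLinearMap) ∘ₗ Matrix.toLin' (b h) ∘ₗ
    Matrix.toLin' (LinearMap.toMatrix' T.symm.toLinearMap)
  rw [Matrix.toLin'_toMatrix', Matrix.toLin'_toMatrix']

end Fermat.Agent.H48Z
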