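import Mathlib
import Fermat.Prelude.Def_LanglandsTunnell_ExplicitLift
import Fermat.Agent.H48ZLin

/-!
# Finite facts about `GL₂(𝔽₃)` and its lift to `GL₂(ℤ[√-2])`
-/

set_option autoImplicit false

noncomputable section

namespace Fermat.Agent.H48Z

open Matrix FLT.ExplicitLift

local notation "G3" => GL (Fin 2) (ZMod 3)
local notation "M23" => Matrix (Fin 2) (Fin 2) (ZMod 3)
local notation "ZR" => ℤ√(-2)

lemma f3_pow12 : ∀ a b c d : ZMod 3, a * d - b * c = 1 →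
    (!![a, b; c, d] : M23) ^ 12 = 1 := by
  decide +kernel

lemma f3_inv : ∀ a b c d : ZMod 3, a * d - b * c = 1 →
    ((!![1, 0; 0, 2] : M23) * !![a, b; c, d] * !![1, 0; 0, 2] * !![a, b; c, d]) ^ 4 = 1 := by
  decide +kernel

/-- `i` -/
def qi : G3 := ⟨!![0, 2; 1, 0], !![0, 1; 2, 0], by decide +kernel, by decide +kernel⟩
/-- `j` -/
def qj : G3 := ⟨!![1, 1; 1, 2], !![2, 2; 2, 1], by decide +kernel, by decide +kernel⟩
/-- the reflection -/
def qt : G3 := ⟨!![1, 0; 0, 2], !![1, 0; 0, 2], by decide +kernel, by decide +kernel⟩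
/-- auxiliary elements -/
def qa : G3 := ⟨!![1, 1; 2, 1], !![2, 1; 2, 2], by decide +kernel, by decide +kernel⟩
/-- auxiliary elements -/
def qb : G3 := ⟨!![1, 0; 1, 2], !![1, 0; 1, 2], by decide +kernel, by decide +kernel⟩

lemma qi_comm : qi = qt * qa * qt⁻¹ * qa⁻¹ := by
  rw [eq_mul_inv_iff_mul_eq, eq_mul_inv_iff_mul_eq]
  apply Units.ext
  show (!![0, 2; 1, 0] : M23) * !![1, 1; 2, 1] * !![1, 0; 0, 2] = !![1, 0; 0, 2] * !![1, 1; 2, 1]
  decide +kernel

lemma qj_comm : qj = qi * qb * qi⁻¹ * qb⁻¹ := by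
  rw [eq_mul_inv_iff_mul_eq, eq_mul_inv_iff_mul_eq]
  apply Units.ext
  show (!![1, 1; 1, 2] : M23) * !![1, 0; 1, 2] * !![0, 2; 1, 0] = !![0, 2; 1, 0] * !![1, 0; 1, 2]
  decide +kernel

lemma qi_pow : qi ^ 4 = 1 := by
  apply Units.ext
  rw [Units.val_pow_eq_pow_val]
  show (!![0, 2; 1, 0] : M23) ^ 4 = 1
  decide +kernel

lemma qj_pow : qj ^ 4 = 1 := by
  apply Units.ext
  rw [Units.val_pow_eq_pow_val]
  show (!![1, 1; 1, 2] : M23) ^ 4 = 1
  decide +kernel

lemma qij_pow : (qi * qj) ^ 4 = 1 := by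
  apply Units.ext
  rw [Units.val_pow_eq_pow_val, Units.val_mul]
  show ((!![0, 2; 1, 0] : M23) * !![1, 1; 1, 2]) ^ 4 = 1
  decide +kernel

lemma det_val (x : G3) : ((Matrix.GeneralLinearGroup.det x : (ZMod 3)ˣ) : ZMod 3) =
    (x : M23).det := rfl

lemma det_qi : Matrix.GeneralLinearGroup.det qi = 1 := by
  apply Units.ext
  rw [det_val, Matrix.det_fin_two]
  show (0 : ZMod 3) * 0 - 2 * 1 = 1
  decide +kernel

lemma det_qj : Matrix.GeneralLinearGroup.det qj = 1 := by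
  apply Units.ext
  rw [det_val, Matrix.det_fin_two]
  show (1 : ZMod 3) * 2 - 1 * 1 = 1
  decide +kernel

lemma pow12 {x : G3} (hx : Matrix.GeneralLinearGroup.det x = 1) : x ^ 12 = 1 := by
  apply Units.ext
  have h1 : (x : M23) 0 0 * (x : M23) 1 1 - (x : M23) 0 1 * (x : M23) 1 0 = 1 := by
    rw [← Matrix.det_fin_two, ← det_val, hx, Units.val_one]
  rw [Units.val_pow_eq_pow_val, Matrix.eta_fin_two (x : M23)]
  exact f3_pow12 _ _ _ _ h1

lemma qt_inv : qt⁻¹ = qt := rfl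

lemma inv_rel {x : G3} (hx : Matrix.GeneralLinearGroup.det x = 1) :
    (qt * x * qt⁻¹ * x) ^ 4 = 1 := by
  apply Units.ext
  have h1 : (x : M23) 0 0 * (x : M23) 1 1 - (x : M23) 0 1 * (x : M23) 1 0 = 1 := by
    rw [← Matrix.det_fin_two, ← det_val, hx, Units.val_one]
  rw [qt_inv, Units.val_pow_eq_pow_val, Units.val_mul, Units.val_mul, Units.val_mul,
    Matrix.eta_fin_two (x : M23)]
  exact f3_inv _ _ _ _ h1

/-! ### The lift -/

lemma unit_zsqrtd {x : ZR} (hx : IsUnit x) : x = 1 ∨ x = -1 := by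
  have h1 := (Zsqrtd.norm_eq_one_iff' (by norm_num) x).mpr hx
  rw [Zsqrtd.norm_def] at h1
  have h2 : x.im = 0 := by
    by_contra h
    have h3 : 0 < x.im * x.im := mul_self_pos.mpr h
    have h4 : 0 ≤ x.re * x.re := mul_self_nonneg _
    have h5 : x.re * x.re + 2 * (x.im * x.im) = 1 := by linear_combination h1
    omega
  rw [h2] at h1
  have h3 : x.re * x.re = 1 := by linear_combination h1
  rcases mul_self_eq_one_iff.mp h3 with h | h
  · left; ext <;> simp [h, h2]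
  · right; ext <;> simp [h, h2]

lemma zs_injective (ι : ZR →+* ℂ) : Function.Injective ι := by
  rw [injective_iff_map_eq_zero]
  intro x hx
  have h1 : ι ((x.norm : ℤ) : ZR) = 0 := by
    rw [Zsqrtd.norm_eq_mul_conj, map_mul, hx, zero_mul]
  rw [map_intCast, Int.cast_eq_zero] at h1
  exact (Zsqrtd.norm_eq_zero_iff (by norm_num) x).mp h1

section Lift

variable (Ψ : G3 →* GL (Fin 2) ZR) (hΨ : ∀ g, Matrix.GeneralLinearGroup.map red (Ψ g) = g)
include hΨ

lemma map_red (g : G3) : ((Ψ g : GL (Fin 2) ZR) : Matrix (Fin 2) (Fin 2) ZR).map red =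
    (g : M23) := by
  have := congrArg (fun y : G3 => (y : M23)) (hΨ g)
  exact this

lemma red_det (g : G3) : red ((Ψ g : GL (Fin 2) ZR) : Matrix (Fin 2) (Fin 2) ZR).det =
    (g : M23).det := by
  rw [← map_red Ψ hΨ g, ← RingHom.mapMatrix_apply, ← RingHom.map_det]

lemma det_lift (g : G3) :
    (((Ψ g : GL (Fin 2) ZR) : Matrix (Fin 2) (Fin 2) ZR).det = 1 ∧
      Matrix.GeneralLinearGroup.det g = 1) ∨
    (((Ψ g : GL (Fin 2) ZR) : Matrix (Fin 2) (Fin 2) ZR).det = -1 ∧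
      Matrix.GeneralLinearGroup.det g = -1) := by
  have h1 : IsUnit ((Ψ g : GL (Fin 2) ZR) : Matrix (Fin 2) (Fin 2) ZR).det :=
    (Matrix.GeneralLinearGroup.det (Ψ g)).isUnit
  rcases unit_zsqrtd h1 with h | h
  · left
    refine ⟨h, Units.ext ?_⟩
    rw [det_val, ← red_det Ψ hΨ, h, map_one, Units.val_one]
  · right
    refine ⟨h, Units.ext ?_⟩
    rw [det_val, ← red_det Ψ hΨ, h, map_neg, map_one, Units.val_neg, Units.val_one]

omit hΨ in
/-- The four elements `1, i, j, ij`. -/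
def q4 (p : Fin 2 × Fin 2) : G3 := (if p.1 = 0 then 1 else qi) * (if p.2 = 0 then 1 else qj)

omit hΨ in
lemma det_q4 : (Matrix.of fun p p' : Fin 2 × Fin 2 => (q4 p : M23) p'.1 p'.2).det ≠ 0 := by
  decide +kernel

lemma span_lift (ι : ZR →+* ℂ) : Submodule.span ℂ (Set.range fun p : Fin 2 × Fin 2 =>
    ((Ψ (q4 p) : GL (Fin 2) ZR) : Matrix (Fin 2) (Fin 2) ZR).map ι) = ⊤ := by
  set C : Matrix (Fin 2 × Fin 2) (Fin 2 × Fin 2) ZR :=
    Matrix.of fun p p' => ((Ψ (q4 p) : GL (Fin 2) ZR) : Matrix (Fin 2) (Fin 2) ZR) p'.1 p'.2 with hC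
  have h1 : C.det ≠ 0 := by
    intro h
    apply det_q4
    have h2 : C.map red = Matrix.of fun p p' : Fin 2 × Fin 2 => (q4 p : M23) p'.1 p'.2 := by
      ext p p'
      have := congrFun (congrFun (map_red Ψ hΨ (q4 p)) p'.1) p'.2
      exact this
    rw [← h2, ← RingHom.mapMatrix_apply, ← RingHom.map_det, h, map_zero]
  have hι : Function.Injective ι := zs_injective ι
  have h3 : IsUnit (C.map ι).det := by
    rw [← RingHom.mapMatrix_apply, ← RingHom.map_det, isUnit_iff_ne_zero]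
    intro h
    exact h1 (hι (by rw [h, map_zero]))
  rw [eq_top_iff]
  intro Y _
  set y : Fin 2 × Fin 2 → ℂ := fun p => Y p.1 p.2 with hy
  have h4 : (y ᵥ* (C.map ι)⁻¹) ᵥ* (C.map ι) = y := by
    rw [Matrix.vecMul_vecMul, Matrix.nonsing_inv_mul _ h3, Matrix.vecMul_one]
  have h5 : Y = ∑ p, (y ᵥ* (C.map ι)⁻¹) p •
      ((Ψ (q4 p) : GL (Fin 2) ZR) : Matrix (Fin 2) (Fin 2) ZR).map ι := by
    ext i j
    have h6 := congrFun h4 (i, j)
    rw [Matrix.sum_apply]
    rw [Matrix.vecMul, dotProduct] at h6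
    rw [hy] at h6
    exact h6.symm
  rw [h5]
  exact Submodule.sum_mem _ fun p _ => Submodule.smul_mem _ _ (Submodule.subset_span ⟨p, rfl⟩)

end Lift

end Fermat.Agent.H48Z
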