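import Mathlib
import Fermat.Prelude.Def_LanglandsTunnell_WeightOneRealizationCarriers
import Fermat.Agent.H48Det
import Fermat.Agent.H86DensityFinal
import Fermat.Agent.H63Minkowski
import Fermat.Agent.H48ZFin

/-!
# Recognising the octahedral representation from its restriction
-/

set_option autoImplicit false

noncomputable section

namespace Fermat.Agent.H48Z

open Matrix FLT.ExplicitLift WeierstrassCurve EisensteinWeightOne

local notation "Qb" => AlgebraicClosure ℚ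
local notation "Gq" => (AlgebraicClosure ℚ ≃ₐ[ℚ] AlgebraicClosure ℚ)
local notation "G3" => GL (Fin 2) (ZMod 3)
local notation "ZR" => ℤ√(-2)
local notation "M2C" => Matrix (Fin 2) (Fin 2) ℂ

local instance isAlgebraicQbZ : Algebra.IsAlgebraic ℚ Qb := AlgebraicClosure.isAlgebraic ℚ
local instance isAlgClosureQbZ : IsAlgClosure ℚ Qb := ⟨inferInstance, inferInstance⟩
local instance normalQbZ : Normal ℚ Qb := IsAlgClosure.normal ℚ Qb
local instance isGaloisQbZ : IsGalois ℚ Qb := ⟨⟩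

/-! ### Finite level -/

lemma finite_of_continuous {ρ : Gq →* G3} (hρ : Continuous ρ) :
    GaloisFactorsThroughFiniteLevel ρ := by
  have : DiscreteTopology G3 := inferInstance
  have ho : IsOpen {σ : Gq | ρ σ = 1} := (isOpen_discrete ({1} : Set G3)).preimage hρ
  obtain ⟨E, hE, hEs⟩ := (krullTopology_mem_nhds_one_iff ℚ Qb _).1 (ho.mem_nhds (map_one ρ))
  exact ⟨E, hE, fun σ hσ => hEs ((IntermediateField.mem_fixingSubgroup_iff E σ).mpr hσ)⟩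

lemma finite_prod {A B : Type} [MulOneClass A] [MulOneClass B] {f : Gq →* A} {g : Gq →* B}
    (hf : GaloisFactorsThroughFiniteLevel f) (hg : GaloisFactorsThroughFiniteLevel g) :
    GaloisFactorsThroughFiniteLevel (f.prod g) := by
  obtain ⟨L, hL, h1⟩ := hf
  obtain ⟨L', hL', h2⟩ := hg
  refine ⟨L ⊔ L', inferInstance, fun σ hσ => ?_⟩
  have e1 := h1 σ fun x hx => hσ x ((le_sup_left : L ≤ L ⊔ L') hx)
  have e2 := h2 σ fun x hx => hσ x ((le_sup_right : L' ≤ L ⊔ L') hx)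
  exact Prod.ext e1 e2

lemma exists_pow_eq_one {A : Type} [Monoid A] {f : Gq →* A}
    (hf : GaloisFactorsThroughFiniteLevel f) (σ : Gq) : ∃ n : ℕ, 0 < n ∧ f σ ^ n = 1 := by
  obtain ⟨L, hL, h1⟩ := hf
  have : Finite (Gq ⧸ L.fixingSubgroup) :=
    Subgroup.quotient_finite_of_isOpen _ (IntermediateField.fixingSubgroup_isOpen L)
  have : L.fixingSubgroup.FiniteIndex := Subgroup.finiteIndex_of_finite_quotient
  obtain ⟨n, hn, -, hσ⟩ := Subgroup.exists_pow_mem_of_index_ne_zero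
    (Subgroup.FiniteIndex.index_ne_zero (H := L.fixingSubgroup)) σ
  refine ⟨n, hn, ?_⟩
  rw [← map_pow]
  exact h1 _ ((IntermediateField.mem_fixingSubgroup_iff L _).mp hσ)

/-! ### Cyclotomic characters -/

lemma fix_of_cyc {N : ℕ} [NeZero N] {σ : Gq} (h : H48.cyc N σ = 1) (ζ : Qb) (hζ : ζ ^ N = 1) :
    σ ζ = ζ := by
  have hz : ζ ≠ 0 := by
    rintro rfl
    rw [zero_pow (NeZero.ne N)] at hζ
    exact zero_ne_one hζ
  have h1 : (Units.mk0 ζ hz) ∈ rootsOfUnity N Qb := by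
    rw [mem_rootsOfUnity]
    exact Units.ext hζ
  have h2 := modularCyclotomicCharacter.spec Qb (H48.natCard_rootsOfUnity_Qb N) (σ : Qb ≃+* Qb) h1
  have h3 : modularCyclotomicCharacter Qb (H48.natCard_rootsOfUnity_Qb N) (σ : Qb ≃+* Qb) = 1 := h
  rw [h3] at h2
  have h4 : σ ζ = ζ ^ (((1 : (ZMod N)ˣ) : ZMod N)).val := h2
  rw [h4, Units.val_one, ← Nat.cast_one, ZMod.val_natCast, ← pow_eq_pow_mod 1 hζ, pow_one]

lemma cyc_eq_one_of_dvd {N N' : ℕ} [NeZero N] [NeZero N'] (hN : N' ∣ N) {σ : Gq}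
    (h : H48.cyc N σ = 1) : H48.cyc N' σ = 1 := by
  apply H48.cyc_eq_one
  intro ζ hζ
  apply fix_of_cyc h
  obtain ⟨c, rfl⟩ := hN
  rw [pow_mul, hζ, one_pow]

lemma cyc_three (σ : Gq) : H48.cyc 3 σ = modThreeCyclotomicChar σ := rfl

theorem cyc_surjective (N : ℕ) [NeZero N] : Function.Surjective (H48.cyc N) := by
  intro u
  obtain ⟨p, hp⟩ := (Nat.infinite_setOfPred_prime_and_eq_mod (q := N) u.isUnit).nonempty
  have hpN : ¬ p ∣ N := by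
    intro h
    have h1 : IsUnit (p : ZMod N) := by rw [hp.2]; exact u.isUnit
    have h2 : Nat.Coprime p N := (ZMod.isUnit_iff_coprime p N).mp h1
    exact (Nat.Prime.coprime_iff_not_dvd hp.1).mp h2 h
  obtain ⟨A, hA⟩ := H63.exists_liesOverPrime Qb hp.1
  obtain ⟨σ, hσ⟩ := H54.exists_isFrobeniusAt hp.1 hA
  exact ⟨σ, Units.ext (by rw [H48.cyc_frob hp.1 hpN hA hσ, hp.2])⟩

/-! ### The quaternion group -/

lemma q8_entries : ∀ a b c d : ZMod 3, a * d - b * c = 1 → (!![a, b; c, d] :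
    Matrix (Fin 2) (Fin 2) (ZMod 3)) ^ 4 = 1 → ∀ a' b' c' d' : ZMod 3, a' * d' - b' * c' = 1 →
    (!![a', b'; c', d'] : Matrix (Fin 2) (Fin 2) (ZMod 3)) ^ 4 = 1 →
    ((!![a, b; c, d] : Matrix (Fin 2) (Fin 2) (ZMod 3)) * !![a', b'; c', d']) ^ 4 = 1 := by
  decide +kernel

lemma q8_mul {x y : G3} (hx : Matrix.GeneralLinearGroup.det x = 1) (hx4 : x ^ 4 = 1)
    (hy : Matrix.GeneralLinearGroup.det y = 1) (hy4 : y ^ 4 = 1) : (x * y) ^ 4 = 1 := by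
  have hd : ∀ z : G3, Matrix.GeneralLinearGroup.det z = 1 →
      (z : Matrix (Fin 2) (Fin 2) (ZMod 3)) 0 0 * (z : Matrix (Fin 2) (Fin 2) (ZMod 3)) 1 1 -
      (z : Matrix (Fin 2) (Fin 2) (ZMod 3)) 0 1 * (z : Matrix (Fin 2) (Fin 2) (ZMod 3)) 1 0 = 1 := by
    intro z hz
    rw [← Matrix.det_fin_two, ← det_val, hz, Units.val_one]
  have hp : ∀ z : G3, z ^ 4 = 1 → (z : Matrix (Fin 2) (Fin 2) (ZMod 3)) ^ 4 = 1 := by
    intro z hz
    rw [← Units.val_pow_eq_pow_val, hz, Units.val_one]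
  apply Units.ext
  have ex := hp x hx4
  have ey := hp y hy4
  rw [Matrix.eta_fin_two (x : Matrix (Fin 2) (Fin 2) (ZMod 3))] at ex
  rw [Matrix.eta_fin_two (y : Matrix (Fin 2) (Fin 2) (ZMod 3))] at ey
  rw [Units.val_pow_eq_pow_val, Units.val_mul,
    Matrix.eta_fin_two (x : Matrix (Fin 2) (Fin 2) (ZMod 3)),
    Matrix.eta_fin_two (y : Matrix (Fin 2) (Fin 2) (ZMod 3))]
  exact q8_entries _ _ _ _ (hd x hx) ex _ _ _ _ (hd y hy) ey

section Main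

variable (ρ : Gq →* G3) (Ψ : G3 →* GL (Fin 2) ZR)
  (hΨ : ∀ g, Matrix.GeneralLinearGroup.map red (Ψ g) = g) (ι : ZR →+* ℂ)

/-- The complex representation. -/
def rr : Gq →* GL (Fin 2) ℂ := (Matrix.GeneralLinearGroup.map ι).comp (Ψ.comp ρ)

lemma rr_val (σ : Gq) : ((rr ρ Ψ ι σ : GL (Fin 2) ℂ) : M2C) =
    ((Ψ (ρ σ) : GL (Fin 2) ZR) : Matrix (Fin 2) (Fin 2) ZR).map ι := rfl

lemma rr_trace (σ : Gq) : ((rr ρ Ψ ι σ : GL (Fin 2) ℂ) : M2C).trace =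
    ι ((Ψ (ρ σ) : GL (Fin 2) ZR) : Matrix (Fin 2) (Fin 2) ZR).trace := by
  rw [rr_val, Matrix.trace_fin_two, Matrix.trace_fin_two, map_add]
  rfl

lemma rr_det (σ : Gq) : ((rr ρ Ψ ι σ : GL (Fin 2) ℂ) : M2C).det =
    ι ((Ψ (ρ σ) : GL (Fin 2) ZR) : Matrix (Fin 2) (Fin 2) ZR).det := by
  rw [rr_val, ← RingHom.mapMatrix_apply, ← RingHom.map_det]

/-- The subgroup on which the traces agree. -/
def HH (D : ℕ) [NeZero D] : Subgroup Gq where
  carrier := {σ | Matrix.GeneralLinearGroup.det (ρ σ) = 1 ∧ (ρ σ) ^ 4 = 1 ∧ H48.cyc D σ = 1}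
  one_mem' := ⟨by rw [map_one, map_one], by rw [map_one, one_pow], map_one _⟩
  mul_mem' := by
    rintro x y ⟨h1, h2, h3⟩ ⟨h4, h5, h6⟩
    exact ⟨by rw [map_mul, map_mul, h1, h4, one_mul], by rw [map_mul]; exact q8_mul h1 h2 h4 h5,
      by rw [map_mul, h3, h6, one_mul]⟩
  inv_mem' := by
    rintro x ⟨h1, h2, h3⟩
    exact ⟨by rw [map_inv, map_inv, h1, inv_one], by rw [map_inv, inv_pow, h2, inv_one],
      by rw [map_inv, h3, inv_one]⟩

variable {ρ Ψ}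

lemma HH_conj {D : ℕ} [NeZero D] {h : Gq} (hh : h ∈ HH ρ D) (g : Gq) : g * h * g⁻¹ ∈ HH ρ D := by
  obtain ⟨h1, h2, h3⟩ := hh
  refine ⟨?_, ?_, ?_⟩
  · rw [map_mul, map_mul, map_mul, map_mul, h1, mul_one, map_inv, map_inv, mul_inv_cancel]
  · rw [map_mul, map_mul, map_inv, conj_pow, h2, mul_one, mul_inv_cancel]
  · rw [map_mul, map_mul, map_inv, h3, mul_one, mul_inv_cancel]

include hΨ in
theorem trace_eq (hρ : Continuous ρ) {D : ℕ} [NeZero D] {M : ℕ} [NeZero M] (S : Finset ℕ)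
    {ρf : Gq →* GL (Fin 2) ℂ} (hfin : GaloisFactorsThroughFiniteLevel ρf)
    (htr : ∀ p : ℕ, p.Prime → ¬ p ∣ M → p ∉ S → p ≡ 1 [MOD D] →
      ∀ A : ValuationSubring Qb, A.LiesOverPrime p → ∀ σ : Gq, A.IsFrobeniusAt σ p →
        Matrix.GeneralLinearGroup.det (ρ σ) = 1 → (ρ σ) ^ 4 = 1 →
        ((ρf σ : GL (Fin 2) ℂ) : M2C).trace =
          ι ((Ψ (ρ σ) : GL (Fin 2) ZR) : Matrix (Fin 2) (Fin 2) ZR).trace)
    {σ : Gq} (hσ : σ ∈ HH ρ D) :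
    ((ρf σ : GL (Fin 2) ℂ) : M2C).trace = ((rr ρ Ψ ι σ : GL (Fin 2) ℂ) : M2C).trace := by
  obtain ⟨h1, h2, h3⟩ := hσ
  have hR := finite_prod (finite_prod (finite_of_continuous hρ) (H48.cyc_finite D)) hfin
  obtain ⟨ℓ, hℓ, hS, A, hA, φ, hφ, j, k, hj, hk⟩ :=
    H86.density_hom H86.frobDensityFinite hR σ (S ∪ (M * D).primeFactors)
  have hj1 : ρ σ = ρ φ ^ j := congrArg (fun x => x.1.1) hj
  have hj3 : ρf σ = ρf φ ^ j := congrArg (fun x => x.2) hj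
  have hk1 : ρ φ = ρ σ ^ k := congrArg (fun x => x.1.1) hk
  have hk2 : H48.cyc D φ = H48.cyc D σ ^ k := congrArg (fun x => x.1.2) hk
  have e1 : Matrix.GeneralLinearGroup.det (ρ φ) = 1 := by rw [hk1, map_pow, h1, one_pow]
  have e2 : (ρ φ) ^ 4 = 1 := by rw [hk1, ← pow_mul, mul_comm, pow_mul, h2, one_pow]
  have e3 : H48.cyc D φ = 1 := by rw [hk2, h3, one_pow]
  rw [Finset.mem_union, not_or] at hS
  have hMD : ¬ ℓ ∣ M * D := fun h =>
    hS.2 (Nat.mem_primeFactors.mpr ⟨hℓ, h, mul_ne_zero (NeZero.ne M) (NeZero.ne D)⟩)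
  have hℓM : ¬ ℓ ∣ M := fun h => hMD (h.mul_right D)
  have hℓD : ¬ ℓ ∣ D := fun h => hMD (h.mul_left M)
  have e4 : ℓ ≡ 1 [MOD D] := by
    have := H48.cyc_frob hℓ hℓD hA hφ
    rw [e3, Units.val_one] at this
    exact (ZMod.natCast_eq_natCast_iff _ _ _).mp (by rw [← this, Nat.cast_one])
  have e5 := htr ℓ hℓ hℓM hS.1 e4 A hA φ hφ e1 e2
  rw [← rr_trace ρ Ψ ι] at e5
  obtain ⟨n, hn, hpow⟩ := exists_pow_eq_one hfin φ
  have f1 : ((ρf φ : GL (Fin 2) ℂ) : M2C) ^ n = 1 := by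
    rw [← Units.val_pow_eq_pow_val, hpow, Units.val_one]
  have f2 : ((rr ρ Ψ ι φ : GL (Fin 2) ℂ) : M2C).det = 1 := by
    rw [rr_det]
    rcases det_lift Ψ hΨ (ρ φ) with ⟨h, -⟩ | ⟨-, h⟩
    · rw [h, map_one]
    · rw [e1] at h
      exact absurd h (by decide)
  have f3 : ((rr ρ Ψ ι φ : GL (Fin 2) ℂ) : M2C) ^ 4 = 1 := by
    rw [← Units.val_pow_eq_pow_val]
    have : rr ρ Ψ ι φ ^ 4 = 1 := by
      show (Matrix.GeneralLinearGroup.map ι) (Ψ (ρ φ)) ^ 4 = 1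
      rw [← map_pow, ← map_pow, e2, map_one, map_one]
    rw [this, Units.val_one]
  have f4 : ((rr ρ Ψ ι φ : GL (Fin 2) ℂ) : M2C) =
      (((rr ρ Ψ ι φ : GL (Fin 2) ℂ) : M2C) ^ j) ^ k := by
    rw [← Units.val_pow_eq_pow_val, ← Units.val_pow_eq_pow_val]
    have : rr ρ Ψ ι φ = (rr ρ Ψ ι φ ^ j) ^ k := by
      show (Matrix.GeneralLinearGroup.map ι) (Ψ (ρ φ)) =
        ((Matrix.GeneralLinearGroup.map ι) (Ψ (ρ φ)) ^ j) ^ k
      rw [← map_pow, ← map_pow, ← map_pow, ← map_pow, ← hj1, ← hk1]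
    rw [← this]
  have f5 := trace_pow_eq hn f1 e5 f2 f3 f4
  have g1 : ((ρf σ : GL (Fin 2) ℂ) : M2C) = ((ρf φ : GL (Fin 2) ℂ) : M2C) ^ j := by
    rw [hj3, Units.val_pow_eq_pow_val]
  have g2 : ((rr ρ Ψ ι σ : GL (Fin 2) ℂ) : M2C) = ((rr ρ Ψ ι φ : GL (Fin 2) ℂ) : M2C) ^ j := by
    rw [← Units.val_pow_eq_pow_val]
    have : rr ρ Ψ ι σ = rr ρ Ψ ι φ ^ j := by
      show (Matrix.GeneralLinearGroup.map ι) (Ψ (ρ σ)) =
        (Matrix.GeneralLinearGroup.map ι) (Ψ (ρ φ)) ^ j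
      rw [← map_pow, ← map_pow, ← hj1]
    rw [this]
  rw [g1, g2]
  exact f5

/-- Elements of `H` over `1, i, j, ij`. -/
lemma exists_q4 (hsurj : Function.Surjective ρ) (D : ℕ) [NeZero D] (p : Fin 2 × Fin 2) :
    ∃ h ∈ HH ρ D, ρ h = q4 p := by
  obtain ⟨st, hst⟩ := hsurj qt
  obtain ⟨sa, hsa⟩ := hsurj qa
  obtain ⟨sb, hsb⟩ := hsurj qb
  obtain ⟨si, hsi⟩ := hsurj qi
  have hcomm : ∀ x y : Gq, H48.cyc D (x * y * x⁻¹ * y⁻¹) = 1 := by
    intro x y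
    rw [map_mul, map_mul, map_mul, map_inv, map_inv]
    rw [mul_comm (H48.cyc D x) (H48.cyc D y), mul_inv_cancel_right, mul_inv_cancel]
  have hi : ∃ h ∈ HH ρ D, ρ h = qi := by
    have e : ρ (st * sa * st⁻¹ * sa⁻¹) = qi := by
      rw [map_mul, map_mul, map_mul, map_inv, map_inv, hst, hsa, ← qi_comm]
    exact ⟨_, ⟨by rw [e]; exact det_qi, by rw [e]; exact qi_pow, hcomm _ _⟩, e⟩
  have hj : ∃ h ∈ HH ρ D, ρ h = qj := by
    have e : ρ (si * sb * si⁻¹ * sb⁻¹) = qj := by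
      rw [map_mul, map_mul, map_mul, map_inv, map_inv, hsi, hsb, ← qj_comm]
    exact ⟨_, ⟨by rw [e]; exact det_qj, by rw [e]; exact qj_pow, hcomm _ _⟩, e⟩
  obtain ⟨hi, hi1, hi2⟩ := hi
  obtain ⟨hj, hj1, hj2⟩ := hj
  refine ⟨(if p.1 = 0 then 1 else hi) * (if p.2 = 0 then 1 else hj), ?_, ?_⟩
  · apply Subgroup.mul_mem
    · split_ifs
      · exact Subgroup.one_mem _
      · exact hi1
    · split_ifs
      · exact Subgroup.one_mem _
      · exact hj1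
  · rw [map_mul, q4]
    congr 1
    · split_ifs
      · exact map_one ρ
      · exact hi2
    · split_ifs
      · exact map_one ρ
      · exact hj2

include hΨ in
lemma span_HH (hsurj : Function.Surjective ρ) (D : ℕ) [NeZero D] :
    Submodule.span ℂ (Set.range fun h : HH ρ D => ((rr ρ Ψ ι (h : Gq) : GL (Fin 2) ℂ) : M2C)) =
      ⊤ := by
  rw [eq_top_iff, ← span_lift Ψ hΨ ι, Submodule.span_le]
  rintro _ ⟨p, rfl⟩
  obtain ⟨h, hh, e⟩ := exists_q4 hsurj D p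
  refine Submodule.subset_span ⟨⟨h, hh⟩, ?_⟩
  show ((rr ρ Ψ ι h : GL (Fin 2) ℂ) : M2C) = _
  rw [rr_val, e]

include hΨ in
theorem exists_eta (hsurj : Function.Surjective ρ) {D : ℕ} [NeZero D]
    {ρf : Gq →* GL (Fin 2) ℂ}
    (htr : ∀ σ ∈ HH ρ D,
      ((ρf σ : GL (Fin 2) ℂ) : M2C).trace = ((rr ρ Ψ ι σ : GL (Fin 2) ℂ) : M2C).trace) :
    ∃ (P : GL (Fin 2) ℂ) (η : Gq →* ℂ), (∀ σ, ((ρf σ : GL (Fin 2) ℂ) : M2C) =
        η σ • ((P * rr ρ Ψ ι σ * P⁻¹ : GL (Fin 2) ℂ) : M2C)) ∧ ∀ σ ∈ HH ρ D, η σ = 1 := by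
  obtain ⟨P, hP⟩ := conj_of_trace ((Units.coeHom M2C).comp (ρf.comp (HH ρ D).subtype))
    ((Units.coeHom M2C).comp ((rr ρ Ψ ι).comp (HH ρ D).subtype)) (fun h => htr h h.2)
    (span_HH hΨ ι hsurj D)
  have hP' : ∀ h ∈ HH ρ D, ρf h = P * rr ρ Ψ ι h * P⁻¹ := fun h hh => Units.ext (hP ⟨h, hh⟩)
  have hX : ∀ g : Gq, ∃ c : ℂ, (((rr ρ Ψ ι g)⁻¹ * P⁻¹ * ρf g * P : GL (Fin 2) ℂ) : M2C) =
      c • (1 : M2C) := by
    intro g
    refine ⟨_, scalar_of_commute _ (span_HH hΨ ι hsurj D) fun h => ?_⟩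
    have h1 := hP' _ (HH_conj h.2 g)
    have h2 := hP' _ h.2
    rw [map_mul, map_mul, map_mul, map_mul, map_inv, map_inv, h2] at h1
    rw [← Units.val_mul, ← Units.val_mul]
    congr 1
    have h3 : ρf g * (P * rr ρ Ψ ι h) = P * (rr ρ Ψ ι g * rr ρ Ψ ι h * (rr ρ Ψ ι g)⁻¹) * P⁻¹ *
        ρf g * P := by
      rw [← h1]; group
    rw [mul_assoc, mul_assoc, mul_assoc, h3]
    group
  choose c hc using hX
  have hform : ∀ g, ((ρf g : GL (Fin 2) ℂ) : M2C) =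
      c g • ((P * rr ρ Ψ ι g * P⁻¹ : GL (Fin 2) ℂ) : M2C) := by
    intro g
    have h1 : ρf g = P * rr ρ Ψ ι g * ((rr ρ Ψ ι g)⁻¹ * P⁻¹ * ρf g * P) * P⁻¹ := by group
    rw [h1]
    rw [Units.val_mul, Units.val_mul (P * rr ρ Ψ ι g), hc, mul_smul_comm, mul_one, smul_mul_assoc,
      ← Units.val_mul]
  have huniq : ∀ (x : GL (Fin 2) ℂ) (a b : ℂ), a • (x : M2C) = b • (x : M2C) → a = b := by
    intro x a b h
    have h1 := congrArg (fun y : M2C => y * ((x⁻¹ : GL (Fin 2) ℂ) : M2C)) h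
    simp only [smul_mul_assoc, ← Units.val_mul, mul_inv_cancel, Units.val_one] at h1
    have h2 := congrFun (congrFun h1 0) 0
    simpa using h2
  have hc1 : c 1 = 1 := by
    apply huniq (P * rr ρ Ψ ι 1 * P⁻¹)
    rw [← hform, map_one, map_one, mul_one, mul_inv_cancel, Units.val_one, one_smul]
  have hcm : ∀ x y, c (x * y) = c x * c y := by
    intro x y
    apply huniq (P * rr ρ Ψ ι (x * y) * P⁻¹)
    rw [← hform, map_mul, Units.val_mul, hform x, hform y, smul_mul_smul_comm, ← Units.val_mul]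
    congr 2
    rw [map_mul]
    group
  have hcH : ∀ σ ∈ HH ρ D, c σ = 1 := by
    intro σ hσ
    apply huniq (P * rr ρ Ψ ι σ * P⁻¹)
    rw [one_smul, ← hform, hP' σ hσ]
  exact ⟨P, { toFun := c, map_one' := hc1, map_mul' := hcm }, hform, hcH⟩

/-- The twist is trivial on the kernel of the cyclotomic character mod `3 D`. -/
theorem eta_trivial (hsurj : Function.Surjective ρ)
    (hdet : ∀ σ : Gq, Matrix.GeneralLinearGroup.det (ρ σ) = modThreeCyclotomicChar σ)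
    {D : ℕ} [NeZero D] {η : Gq →* ℂ} (hη : ∀ σ ∈ HH ρ D, η σ = 1) {σ : Gq}
    (hσ : H48.cyc (3 * D) σ = 1) : η σ = 1 := by
  have h3 : H48.cyc 3 σ = 1 := cyc_eq_one_of_dvd (dvd_mul_right 3 D) hσ
  have hD : H48.cyc D σ = 1 := cyc_eq_one_of_dvd (dvd_mul_left D 3) hσ
  have hd : Matrix.GeneralLinearGroup.det (ρ σ) = 1 := by rw [hdet, ← cyc_three, h3]
  have e1 : η σ ^ 3 = 1 := by
    rw [← map_pow]
    apply hη
    refine ⟨by rw [map_pow, map_pow, hd, one_pow], ?_, by rw [map_pow, hD, one_pow]⟩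
    rw [map_pow, ← pow_mul]
    exact pow12 hd
  obtain ⟨t, ht⟩ := hsurj qt
  have e2 : η σ ^ 2 = 1 := by
    have h1 : η (t * σ * t⁻¹ * σ) = 1 := by
      apply hη
      refine ⟨?_, ?_, ?_⟩
      · rw [map_mul, map_mul, map_mul, map_mul, map_mul, map_mul, hd, mul_one, mul_one, map_inv,
          map_inv, mul_inv_cancel]
      · rw [map_mul, map_mul, map_mul, map_inv, ht]
        exact inv_rel hd
      · rw [map_mul, map_mul, map_mul, map_inv, hD, mul_one, mul_one, mul_inv_cancel]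
    rw [map_mul, map_mul, map_mul] at h1
    have h2 : η t * η t⁻¹ = 1 := by rw [← map_mul, mul_inv_cancel, map_one]
    linear_combination h1 - η σ ^ 2 * h2
  calc η σ = η σ ^ 3 * 1 - (η σ ^ 2 - 1) * η σ := by ring
    _ = 1 := by rw [e1, e2]; ring

/-- The determinant of the lift at a Frobenius element. -/
lemma det_lift_frob (hdet : ∀ σ : Gq, Matrix.GeneralLinearGroup.det (ρ σ) = modThreeCyclotomicChar σ)
    (hΨ : ∀ g, Matrix.GeneralLinearGroup.map red (Ψ g) = g)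
    {p : ℕ} (hp : p.Prime) (hp3 : ¬ p ∣ 3) {A : ValuationSubring Qb} (hA : A.LiesOverPrime p)
    {σ : Gq} (hσ : A.IsFrobeniusAt σ p) :
    ((Ψ (ρ σ) : GL (Fin 2) ZR) : Matrix (Fin 2) (Fin 2) ZR).det = ((chiNegThree p : ℤ) : ZR) := by
  have h1 := H48.cyc_frob hp hp3 hA hσ
  rw [cyc_three, ← hdet] at h1
  rcases det_lift Ψ hΨ (ρ σ) with ⟨h, h'⟩ | ⟨h, h'⟩
  · rw [h'] at h1
    have h2 : p % 3 = 1 := by
      have h3 : ((p : ℕ) : ZMod 3) = ((1 : ℕ) : ZMod 3) := by rw [← h1]; rfl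
      exact (ZMod.natCast_eq_natCast_iff _ _ _).mp h3
    rw [h, chiNegThree, if_pos h2, Int.cast_one]
  · rw [h'] at h1
    have h2 : p % 3 = 2 := by
      have h3 : ((p : ℕ) : ZMod 3) = ((2 : ℕ) : ZMod 3) := by rw [← h1]; decide
      exact (ZMod.natCast_eq_natCast_iff _ _ _).mp h3
    rw [h, chiNegThree, if_neg (by omega), if_pos h2, Int.cast_neg, Int.cast_one]

theorem exists_twist (hρ : Continuous ρ) (hsurj : Function.Surjective ρ)
    (hdet : ∀ σ : Gq, Matrix.GeneralLinearGroup.det (ρ σ) = modThreeCyclotomicChar σ)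
    (hΨ : ∀ g, Matrix.GeneralLinearGroup.map red (Ψ g) = g)
    {D : ℕ} [NeZero D] {M : ℕ} [NeZero M] (S : Finset ℕ) (ε : DirichletCharacter ℂ M)
    (a : ℕ → ℂ) {ρf : Gq →* GL (Fin 2) ℂ} (hfin : GaloisFactorsThroughFiniteLevel ρf)
    (hρf : ∀ p : ℕ, p.Prime → ¬ p ∣ M → ∀ A : ValuationSubring Qb, A.LiesOverPrime p →
      ∀ σ : Gq, A.IsFrobeniusAt σ p → ((ρf σ : GL (Fin 2) ℂ) : M2C).trace = a p ∧
        ((ρf σ : GL (Fin 2) ℂ) : M2C).det = ε (p : ZMod M))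
    (hQ : ∀ p : ℕ, p.Prime → ¬ p ∣ M → p ∉ S → p ≡ 1 [MOD D] →
      ∀ A : ValuationSubring Qb, A.LiesOverPrime p → ∀ σ : Gq, A.IsFrobeniusAt σ p →
        Matrix.GeneralLinearGroup.det (ρ σ) = 1 → (ρ σ) ^ 4 = 1 →
        a p = ι ((Ψ (ρ σ) : GL (Fin 2) ZR) : Matrix (Fin 2) (Fin 2) ZR).trace) :
    ∃ η₀ : DirichletCharacter ℂ (3 * D), ∀ p : ℕ, p.Prime → ¬ p ∣ M → ¬ p ∣ 3 * D →
      ∀ A : ValuationSubring Qb, A.LiesOverPrime p → ∀ σ : Gq, A.IsFrobeniusAt σ p →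
        a p = η₀ (p : ZMod (3 * D)) *
          ι ((Ψ (ρ σ) : GL (Fin 2) ZR) : Matrix (Fin 2) (Fin 2) ZR).trace ∧
        ε (p : ZMod M) = η₀ (p : ZMod (3 * D)) ^ 2 * ((chiNegThree p : ℤ) : ℂ) := by
  have htr : ∀ σ ∈ HH ρ D, ((ρf σ : GL (Fin 2) ℂ) : M2C).trace =
      ((rr ρ Ψ ι σ : GL (Fin 2) ℂ) : M2C).trace := by
    intro σ hσ
    refine trace_eq (M := M) hΨ ι hρ S hfin ?_ hσ
    intro p hp hpM hpS hpD A hA φ hφ h1 h4
    rw [(hρf p hp hpM A hA φ hφ).1]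
    exact hQ p hp hpM hpS hpD A hA φ hφ h1 h4
  obtain ⟨P, η, hη, hηH⟩ := exists_eta hΨ ι hsurj htr
  haveI : NeZero (3 * D) := ⟨mul_ne_zero (by norm_num) (NeZero.ne D)⟩
  have hker : (H48.cyc (3 * D)).ker ≤ (η.toHomUnits).ker := by
    intro σ hσ
    rw [MonoidHom.mem_ker] at hσ ⊢
    exact Units.ext (eta_trivial hsurj hdet hηH hσ)
  let f : (ZMod (3 * D))ˣ →* ℂˣ :=
    (H48.cyc (3 * D)).liftOfSurjective (cyc_surjective (3 * D)) ⟨η.toHomUnits, hker⟩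
  have hf : ∀ σ, ((f (H48.cyc (3 * D) σ) : ℂˣ) : ℂ) = η σ := by
    intro σ
    have h1 : f (H48.cyc (3 * D) σ) = η.toHomUnits σ :=
      MonoidHom.liftOfRightInverse_comp_apply _ _ _ ⟨η.toHomUnits, hker⟩ σ
    rw [h1]
    rfl
  refine ⟨MulChar.ofUnitHom f, fun p hp hpM hpD A hA σ hσ => ?_⟩
  have h1 : (MulChar.ofUnitHom f) ((p : ℕ) : ZMod (3 * D)) = η σ := by
    rw [← H48.cyc_frob hp hpD hA hσ, MulChar.ofUnitHom_coe, hf]
  obtain ⟨h2, h3⟩ := hρf p hp hpM A hA σ hσ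
  rw [h1]
  constructor
  · rw [← h2, hη, Matrix.trace_smul, smul_eq_mul, ← rr_trace ρ Ψ ι, Units.val_mul, Units.val_mul,
      Matrix.trace_mul_comm, ← mul_assoc, ← Units.val_mul, inv_mul_cancel, Units.val_one, one_mul]
  · rw [← h3, hη, Matrix.det_smul, Fintype.card_fin]
    congr 1
    have h4 : ((P * rr ρ Ψ ι σ * P⁻¹ : GL (Fin 2) ℂ) : M2C).det =
        ((rr ρ Ψ ι σ : GL (Fin 2) ℂ) : M2C).det := by
      rw [Units.val_mul, Units.val_mul, Matrix.det_mul, Matrix.det_mul, mul_comm, ← mul_assoc,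
        ← Matrix.det_mul, ← Units.val_mul, inv_mul_cancel, Units.val_one, Matrix.det_one, one_mul]
    rw [h4, rr_det, det_lift_frob hdet hΨ hp (fun h => hpD (h.mul_right D)) hA hσ, map_intCast]

end Main

end Fermat.Agent.H48Z
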