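import Fermat.Agent.H22TwES

/-!
# The Galois action on the characters of `Γ₁(M)`

`hasGalAction`: the interface `H48.HasGalAction M n` from (QE) and (KI′).
-/

set_option autoImplicit false

open Filter Topology Complex UpperHalfPlane Function CongruenceSubgroup ModularForm
open scoped Manifold MatrixGroups ModularForm Pointwise
open Fermat.Agent.H48 Fermat.Agent.H58

noncomputable section

namespace Fermat.Agent.H22.Tw

local notation "Qb" => AlgebraicClosure ℚ
local notation "Gq" => (AlgebraicClosure ℚ ≃ₐ[ℚ] AlgebraicClosure ℚ)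

variable {M n : ℕ} [NeZero M] (hM : 3 ≤ M) (hn : n.Prime) (hn5 : 5 ≤ n) (ι : Qb →+* ℂ)

/-- the Galois action on `Vn` -/
def galV : Gq →* AddMonoid.End (Vn (Gamma1 M) n) where
  toFun s := ((vnEquiv hM hn hn5 : Additive (parChar (pmG M) n) →+ Vn (Gamma1 M) n).comp
    (MonoidHom.toAdditive (cjHom (hyp_pmG hM) (odd_of_prime hn hn5) (liftC ι s : ℂ →+* ℂ)))).comp
      ((vnEquiv hM hn hn5).symm : Vn (Gamma1 M) n →+ Additive (parChar (pmG M) n))
  map_one' := by
    refine AddMonoidHom.ext fun χ => ?_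
    show vnEquiv hM hn hn5 (Additive.ofMul (gal (hyp_pmG hM) (odd_of_prime hn hn5) ι 1
      ((vnEquiv hM hn hn5).symm χ).toMul)) = χ
    rw [map_one]
    exact (vnEquiv hM hn hn5).apply_symm_apply χ
  map_mul' s t := by
    refine AddMonoidHom.ext fun χ => ?_
    show vnEquiv hM hn hn5 (Additive.ofMul (gal (hyp_pmG hM) (odd_of_prime hn hn5) ι (s * t)
      ((vnEquiv hM hn hn5).symm χ).toMul)) = vnEquiv hM hn hn5 (Additive.ofMul
        (gal (hyp_pmG hM) (odd_of_prime hn hn5) ι s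
        ((vnEquiv hM hn hn5).symm (vnEquiv hM hn hn5 (Additive.ofMul
          (gal (hyp_pmG hM) (odd_of_prime hn hn5) ι t
      ((vnEquiv hM hn hn5).symm χ).toMul)))).toMul))
    rw [AddEquiv.symm_apply_apply, map_mul]
    rfl

theorem galV_apply (s : Gq) (ψ : parChar (pmG M) n) :
    galV hM hn hn5 ι s (vnEquiv hM hn hn5 (Additive.ofMul ψ)) =
      vnEquiv hM hn hn5 (Additive.ofMul (gal (hyp_pmG hM) (odd_of_prime hn hn5) ι s ψ)) := by
  show vnEquiv hM hn hn5 (Additive.ofMul (gal (hyp_pmG hM) (odd_of_prime hn hn5) ι s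
      ((vnEquiv hM hn hn5).symm (vnEquiv hM hn hn5 (Additive.ofMul ψ))).toMul)) = _
  rw [AddEquiv.symm_apply_apply]
  rfl

omit [NeZero M] in
theorem exists_vn (χ : Vn (Gamma1 M) n) :
    ∃ ψ : parChar (pmG M) n, vnEquiv hM hn hn5 (Additive.ofMul ψ) = χ :=
  ⟨((vnEquiv hM hn hn5).symm χ).toMul, (vnEquiv hM hn hn5).apply_symm_apply χ⟩

theorem galV_homV (H : HeckeSys (Gamma1 M)) (s : Gq)
    (hH : ∀ ψ : parChar (pmG M) n, gal (hyp_pmG hM) (odd_of_prime hn hn5) ι s (hV hM hn hn5 H ψ) =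
      hV hM hn hn5 H (gal (hyp_pmG hM) (odd_of_prime hn hn5) ι s ψ)) (χ : Vn (Gamma1 M) n) :
    galV hM hn hn5 ι s (H.homV n χ) = H.homV n (galV hM hn hn5 ι s χ) := by
  obtain ⟨ψ, rfl⟩ := exists_vn hM hn hn5 χ
  rw [← vnEquiv_hV, galV_apply, galV_apply, hH, vnEquiv_hV]

include hM hn hn5 in
/-- **The Galois action on the characters of `Γ₁(M)` of order `n`.** -/
theorem hasGalAction_aux (hQE : QEIn M) (hKI : KIIn M n) : HasGalAction M n := by
  have halg : Algebra.IsAlgebraic ℚ (AlgebraicClosure ℚ) := AlgebraicClosure.isAlgebraic ℚ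
  let ι : Qb →+* ℂ :=
    (IsAlgClosed.lift (R := ℚ) (S := AlgebraicClosure ℚ) (M := ℂ)).toRingHom
  have hodd := odd_of_prime hn hn5
  refine ⟨galV hM hn hn5 ι, ?_, ?_, ?_, ?_⟩
  · obtain ⟨L, hL, hfix⟩ := gal_finite_level (hyp_pmG hM) hodd ι
    refine ⟨L, hL, fun s hs => ?_⟩
    refine AddMonoidHom.ext fun χ => ?_
    obtain ⟨ψ, rfl⟩ := exists_vn hM hn hn5 χ
    refine (galV_apply hM hn hn5 ι s ψ).trans ?_
    rw [hfix s hs]
    rfl
  · intro p hp hpM s χ
    exact galV_homV hM hn hn5 ι _ s (fun ψ => cj_T hM hn hn5 _ ψ hp hpM) χ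
  · intro d _ s χ
    exact galV_homV hM hn hn5 ι _ s (fun ψ => cj_dia hM hn hn5 _ ψ d) χ
  · intro p hp hpM hpn A hA
    refine ⟨fun s hs => ?_, fun s hs χ => ?_⟩
    · refine AddMonoidHom.ext fun χ => ?_
      obtain ⟨ψ, rfl⟩ := exists_vn hM hn hn5 χ
      refine (galV_apply hM hn hn5 ι s ψ).trans ?_
      rw [gal_inertia hM hn hn5 hKI hp hpM hpn hA ι hs]
      rfl
    · obtain ⟨ψ, rfl⟩ := exists_vn hM hn hn5 χ
      have h1 := gal_frob hM hn hn5 hQE hKI hp hpM hpn hA ι hs ψ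
      rw [← vnEquiv_hV, ← vnEquiv_hV, galV_apply, galV_apply, galV_apply, h1]
      have h2 : gal (hyp_pmG hM) hodd ι s (gal (hyp_pmG hM) hodd ι s ψ *
          (gal (hyp_pmG hM) hodd ι s⁻¹ (hV hM hn hn5 (sysDia M p) ψ)) ^ p) =
          gal (hyp_pmG hM) hodd ι s (gal (hyp_pmG hM) hodd ι s ψ) *
            (hV hM hn hn5 (sysDia M p) ψ) ^ p := by
        rw [map_mul, map_pow]
        congr 2
        have h3 : gal (hyp_pmG hM) hodd ι s (gal (hyp_pmG hM) hodd ι s⁻¹
            (hV hM hn hn5 (sysDia M p) ψ)) =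
            (gal (hyp_pmG hM) hodd ι (s * s⁻¹)) (hV hM hn hn5 (sysDia M p) ψ) := by
          rw [map_mul]
          rfl
        rw [h3, mul_inv_cancel, map_one]
        rfl
      rw [h2, ofMul_mul, ofMul_pow, map_add, map_nsmul]

/-- **The Galois action on the characters of `Γ₁(M)` of order `n`.** -/
theorem hasGalAction {M n : ℕ} (hM : 5 ≤ M) (hn : n.Prime) (hn5 : 5 ≤ n) (hQE : QEIn M)
    (hKI : KIIn M n) : HasGalAction M n :=
  have : NeZero M := ⟨by omega⟩
  hasGalAction_aux (by omega) hn hn5 hQE hKI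

end Fermat.Agent.H22.Tw
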