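import Fermat.Agent.H22TwConj
import Fermat.Agent.H50Arith

/-!
# Canonical twisted forms
-/

set_option autoImplicit false

open Filter Topology Complex UpperHalfPlane Function
open scoped Manifold MatrixGroups ModularForm

noncomputable section

namespace Fermat.Agent.H22.Tw

variable {Γ : Subgroup SL(2, ℤ)} {χ ψ : Γ →* ℂˣ} {k l : ℤ} {f g f' g' : ℍ → ℂ}

/-- a plain modular form as a bundled one -/
def IsM.toMF [Γ.FiniteIndex] (hf : IsM Γ k f) : ModularForm Γ k where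
  toFun := f
  slash_action_eq' := by
    rintro _ ⟨γ, hγ, rfl⟩
    exact hf.slash γ hγ
  holo' := hf.holo
  bdd_at_cusps' := by
    intro x hx
    rw [Subgroup.IsArithmetic.isCusp_iff_isCusp_SL2Z] at hx
    rw [OnePoint.isBoundedAt_iff_forall_SL2Z hx]
    intro γ _
    exact hf.bdd γ

@[simp] theorem IsM.coe_toMF [Γ.FiniteIndex] (hf : IsM Γ k f) : (hf.toMF : ℍ → ℂ) = f := rfl

theorem isM_of_modularForm [Γ.FiniteIndex] (F : ModularForm Γ k) : IsM Γ k (F : ℍ → ℂ) where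
  slash γ hγ := SlashInvariantFormClass.slash_action_eq F _ ⟨γ, hγ, rfl⟩
  holo := ModularFormClass.holo F
  bdd g := ModularFormClass.bdd_at_infty_slash F g

theorem strictPeriods_of_T (hT : ModularGroup.T ∈ Γ) :
    (1 : ℝ) ∈ (Γ : Subgroup (GL (Fin 2) ℝ)).strictPeriods := by
  rw [Subgroup.mem_strictPeriods_iff]
  refine ⟨ModularGroup.T, hT, ?_⟩
  ext i j
  fin_cases i <;> fin_cases j <;> simp [ModularGroup.T, Matrix.GeneralLinearGroup.upperRightHom]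

theorem coeff_pow_eq_zero {P : PowerSeries ℂ} {B : ℕ} (h : ∀ i ≤ B, P.coeff i = 0) {n : ℕ}
    (hn : n ≠ 0) : ∀ i ≤ B, (P ^ n).coeff i = 0 := by
  obtain ⟨m, rfl⟩ : ∃ m, n = m + 1 := ⟨n - 1, by omega⟩
  intro i hi
  rw [pow_succ', PowerSeries.coeff_mul]
  refine Finset.sum_eq_zero fun p hp => ?_
  have hp' := Finset.HasAntidiagonal.mem_antidiagonal.1 hp
  rw [h p.1 (by omega), zero_mul]

/-- a Sturm type bound for twisted forms -/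
theorem exists_sturm [Γ.FiniteIndex] (hT : ModularGroup.T ∈ Γ) {n : ℕ} (hn : n ≠ 0) (k : ℤ) :
    ∃ B : ℕ, ∀ (χ : Γ →* ℂˣ), χ ∈ parChar Γ n → ∀ (f : ℍ → ℂ) (P : PowerSeries ℂ),
      IsTw Γ χ k f → IsQ 1 f P → (∀ i ≤ B, P.coeff i = 0) → f = 0 := by
  refine ⟨H50.sturmB Γ ((n : ℤ) * k), fun χ hχ f P hf hP hB => ?_⟩
  have h1 := hf.isM_of_pow hχ.1
  have h2 : h1.toMF = 0 := by
    apply H50.mod_eq_zero_of_coeff Γ _ (strictPeriods_of_T hT)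
    intro i hi
    rw [IsM.coe_toMF, (hP.pow n).eq]
    exact coeff_pow_eq_zero hB hn i hi
  have h3 : f ^ n = 0 := by
    rw [← h1.coe_toMF, h2]
    rfl
  by_contra h0
  exact pow_ne_zero' h0 n h3

/-- The standing hypotheses on `Γ`. -/
structure Hyp (Γ : Subgroup SL(2, ℤ)) : Prop where
  fin : Γ.FiniteIndex
  T_mem : ModularGroup.T ∈ Γ
  neg_mem : (-1 : SL(2, ℤ)) ∈ Γ
  sep : HasSep Γ
  conj : ∀ σ : ℂ →+* ℂ, ConjStable Γ σ

variable {n : ℕ}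

theorem exists_nonzero (hΓ : Hyp Γ) (hodd : Odd n) (hχ : χ ∈ parChar Γ n) :
    ∃ E, IsTw Γ χ 4 E ∧ E ≠ 0 := by
  have := hΓ.fin
  have hn : n ≠ 0 := by rintro rfl; simp at hodd
  obtain ⟨E, hE, hEN⟩ := exists_tw_NV (k := 4) hΓ.neg_mem (norm_char hn hχ.1) hχ.2
    (char_neg_one hodd hΓ.neg_mem hχ.1) (by decide) (by norm_num)
  obtain ⟨c, hc, hlim⟩ := hEN 1
  rw [SlashAction.slash_one] at hlim
  exact ⟨E, hE, ne_zero_of_tendsto hc hlim⟩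

/-- the conjugate of a parabolic character -/
def cj (hΓ : Hyp Γ) (hodd : Odd n) (σ : ℂ →+* ℂ) (χ : parChar Γ n) : parChar Γ n :=
  have := hΓ.fin
  ⟨(exists_conj_char hΓ.T_mem hΓ.neg_mem hΓ.sep (hΓ.conj σ) hodd χ.2).choose,
    (exists_conj_char hΓ.T_mem hΓ.neg_mem hΓ.sep (hΓ.conj σ) hodd χ.2).choose_spec.1⟩

theorem cj_spec (hΓ : Hyp Γ) (hodd : Odd n) (σ : ℂ →+* ℂ) (χ : parChar Γ n) (hk : Even k)
    (hf : IsTw Γ χ k f) : ∃ f', IsTw Γ (cj hΓ hodd σ χ) k f' ∧ IsConj σ f f' :=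
  have := hΓ.fin
  (exists_conj_char hΓ.T_mem hΓ.neg_mem hΓ.sep (hΓ.conj σ) hodd χ.2).choose_spec.2 k f hk hf

theorem cj_of_isConj (hΓ : Hyp Γ) (hodd : Odd n) (σ : ℂ →+* ℂ) (χ : parChar Γ n) (hk : Even k)
    (hf : IsTw Γ χ k f) (hc : IsConj σ f f') : IsTw Γ (cj hΓ hodd σ χ) k f' := by
  obtain ⟨g, hg, hgc⟩ := cj_spec hΓ hodd σ χ hk hf
  rw [hc.unique hgc]
  exact hg

theorem cj_unique (hΓ : Hyp Γ) (hodd : Odd n) (σ : ℂ →+* ℂ) (χ : parChar Γ n) (hk : Even k)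
    (hf : IsTw Γ χ k f) (hf0 : f ≠ 0) {ψ : Γ →* ℂˣ} (hf' : IsTw Γ ψ k f') (hc : IsConj σ f f') :
    ψ = cj hΓ hodd σ χ := by
  exact hf'.char_unique (cj_of_isConj hΓ hodd σ χ hk hf hc) (hc.ne_zero hf0)

theorem IsConj.comp {σ τ : ℂ →+* ℂ} {f₁ f₂ f₃ : ℍ → ℂ} (h1 : IsConj τ f₁ f₂)
    (h2 : IsConj σ f₂ f₃) : IsConj (σ.comp τ) f₁ f₃ := by
  obtain ⟨P, hP, hP'⟩ := h1
  obtain ⟨Q, hQ, hQ'⟩ := h2
  have : Q = P.map τ := hQ.unique hP'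
  subst this
  refine ⟨P, hP, ?_⟩
  rw [PowerSeries.map_comp]
  exact hQ'

theorem IsConj.id (h : IsQ 1 f (qExpansion 1 f)) : IsConj (RingHom.id ℂ) f f :=
  ⟨_, h, by rw [PowerSeries.map_id]; exact h⟩

theorem cj_comp (hΓ : Hyp Γ) (hodd : Odd n) (σ τ : ℂ →+* ℂ) (χ : parChar Γ n) :
    cj hΓ hodd (σ.comp τ) χ = cj hΓ hodd σ (cj hΓ hodd τ χ) := by
  obtain ⟨E, hE, hE0⟩ := exists_nonzero hΓ hodd χ.2
  obtain ⟨E', hE', hc⟩ := cj_spec hΓ hodd τ χ (by decide) hE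
  obtain ⟨E'', hE'', hc'⟩ := cj_spec hΓ hodd σ _ (by decide) hE'
  exact Subtype.ext (cj_unique hΓ hodd _ χ (by decide) hE hE0 hE'' (hc.comp hc')).symm

theorem cj_id (hΓ : Hyp Γ) (hodd : Odd n) (χ : parChar Γ n) :
    cj hΓ hodd (RingHom.id ℂ) χ = χ := by
  obtain ⟨E, hE, hE0⟩ := exists_nonzero hΓ hodd χ.2
  exact Subtype.ext (cj_unique hΓ hodd _ χ (by decide) hE hE0 hE
    (IsConj.id (hE.isQ hΓ.T_mem χ.2.2))).symm

theorem cj_mul (hΓ : Hyp Γ) (hodd : Odd n) (σ : ℂ →+* ℂ) (χ ψ : parChar Γ n) :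
    cj hΓ hodd σ (χ * ψ) = cj hΓ hodd σ χ * cj hΓ hodd σ ψ := by
  obtain ⟨E, hE, hE0⟩ := exists_nonzero hΓ hodd χ.2
  obtain ⟨F, hF, hF0⟩ := exists_nonzero hΓ hodd ψ.2
  obtain ⟨E', hE', hc⟩ := cj_spec hΓ hodd σ χ (by decide) hE
  obtain ⟨F', hF', hc'⟩ := cj_spec hΓ hodd σ ψ (by decide) hF
  exact Subtype.ext (cj_unique hΓ hodd σ (χ * ψ) (by decide) (hE.mul hF)
    (mul_ne_zero_mdiff hE.holo hF.holo hE0 hF0) (hE'.mul hF') (hc.mul hc')).symm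

/-- conjugation as a monoid homomorphism -/
def cjHom (hΓ : Hyp Γ) (hodd : Odd n) (σ : ℂ →+* ℂ) : parChar Γ n →* parChar Γ n :=
  MonoidHom.mk' (cj hΓ hodd σ) (cj_mul hΓ hodd σ)

@[simp] theorem cjHom_apply (hΓ : Hyp Γ) (hodd : Odd n) (σ : ℂ →+* ℂ) (χ : parChar Γ n) :
    cjHom hΓ hodd σ χ = cj hΓ hodd σ χ := rfl

/-! ### Canonical forms -/

/-- the form of maximal order of vanishing at `∞`, normalised -/
structure IsCan (Γ : Subgroup SL(2, ℤ)) (χ : Γ →* ℂˣ) (m : ℕ) (f : ℍ → ℂ) (P : PowerSeries ℂ) :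
    Prop where
  tw : IsTw Γ χ 4 f
  q : IsQ 1 f P
  low : ∀ i < m, P.coeff i = 0
  lead : P.coeff m = 1
  max : ∀ g Q, IsTw Γ χ 4 g → IsQ 1 g Q → (∀ i ≤ m, Q.coeff i = 0) → g = 0

theorem IsCan.ne_zero {m : ℕ} {P : PowerSeries ℂ} (h : IsCan Γ χ m f P) : f ≠ 0 := by
  intro h0
  have h1 : P = 0 := (h.q.eq_zero_iff).1 h0
  have h2 := h.lead
  rw [h1] at h2
  simp at h2

theorem exists_can (hΓ : Hyp Γ) (hodd : Odd n) (hχ : χ ∈ parChar Γ n) :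
    ∃ m f P, IsCan Γ χ m f P := by
  classical
  have := hΓ.fin
  have hn : n ≠ 0 := by rintro rfl; simp at hodd
  obtain ⟨B, hB⟩ := exists_sturm (Γ := Γ) hΓ.T_mem hn 4
  have hex : ∃ m : ℕ, ∀ g Q, IsTw Γ χ 4 g → IsQ 1 g Q → (∀ i ≤ m, Q.coeff i = 0) → g = 0 :=
    ⟨B, fun g Q hg hQ h => hB χ hχ g Q hg hQ h⟩
  set m := Nat.find hex with hm
  have hspec := Nat.find_spec hex
  -- a non-zero form with vanishing coefficients below `m`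
  obtain ⟨g, Q, hg, hQ, hlow, hg0⟩ : ∃ g Q, IsTw Γ χ 4 g ∧ IsQ 1 g Q ∧
      (∀ i < m, Q.coeff i = 0) ∧ g ≠ 0 := by
    rcases Nat.eq_zero_or_pos m with h0 | hpos
    · obtain ⟨E, hE, hE0⟩ := exists_nonzero hΓ hodd hχ
      exact ⟨E, _, hE, hE.isQ hΓ.T_mem hχ.2, by simp [h0], hE0⟩
    · have h1 := Nat.find_min hex (m := m - 1) (by omega)
      push Not at h1
      obtain ⟨g, Q, hg, hQ, h2, h3⟩ := h1
      exact ⟨g, Q, hg, hQ, fun i hi => h2 i (by omega), h3⟩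
  have hQm : Q.coeff m ≠ 0 := by
    intro h
    apply hg0
    apply hspec g Q hg hQ
    intro i hi
    rcases Nat.lt_or_ge i m with h1 | h1
    · exact hlow i h1
    · have : i = m := le_antisymm hi h1
      rw [this, h]
  refine ⟨m, (Q.coeff m)⁻¹ • g, (Q.coeff m)⁻¹ • Q, hg.smul _, hQ.smul _, ?_, ?_, hspec⟩
  · intro i hi
    rw [PowerSeries.coeff_smul, hlow i hi, smul_zero]
  · rw [PowerSeries.coeff_smul, smul_eq_mul, inv_mul_cancel₀ hQm]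

theorem IsCan.m_le {m m' : ℕ} {P P' : PowerSeries ℂ} (h : IsCan Γ χ m f P)
    (h' : IsCan Γ χ m' f' P') : m ≤ m' := by
  by_contra hlt
  push Not at hlt
  exact h.ne_zero (h'.max f P h.tw h.q fun i hi => h.low i (by omega))

theorem IsCan.unique {m m' : ℕ} {P P' : PowerSeries ℂ} (h : IsCan Γ χ m f P)
    (h' : IsCan Γ χ m' f' P') : m = m' ∧ f = f' ∧ P = P' := by
  obtain rfl : m = m' := le_antisymm (h.m_le h') (h'.m_le h)
  have h1 : f - f' = 0 := by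
    apply h.max (f - f') (P - P') (h.tw.sub h'.tw) (h.q.sub h'.q)
    intro i hi
    rw [map_sub]
    rcases Nat.lt_or_ge i m with h1 | h1
    · rw [h.low i h1, h'.low i h1, sub_zero]
    · have : i = m := le_antisymm hi h1
      rw [this, h.lead, h'.lead, sub_self]
  have h2 : f = f' := sub_eq_zero.1 h1
  refine ⟨rfl, h2, ?_⟩
  have h3 := h'.q
  rw [← h2] at h3
  exact h.q.unique h3

theorem cj_symm (hΓ : Hyp Γ) (hodd : Odd n) (σ : ℂ ≃+* ℂ) (χ : parChar Γ n) :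
    cj hΓ hodd (σ.symm : ℂ →+* ℂ) (cj hΓ hodd (σ : ℂ →+* ℂ) χ) = χ := by
  rw [← cj_comp]
  have : (σ.symm : ℂ →+* ℂ).comp (σ : ℂ →+* ℂ) = RingHom.id ℂ := by ext; simp
  rw [this, cj_id]

theorem IsCan.conj (hΓ : Hyp Γ) (hodd : Odd n) (σ : ℂ ≃+* ℂ) {χ : parChar Γ n} {m : ℕ}
    {P : PowerSeries ℂ} (h : IsCan Γ χ m f P) :
    ∃ f', IsCan Γ (cj hΓ hodd (σ : ℂ →+* ℂ) χ) m f' (P.map (σ : ℂ →+* ℂ)) := by
  obtain ⟨f', hf', Q, hQ, hQ'⟩ := cj_spec hΓ hodd (σ : ℂ →+* ℂ) χ (by decide) h.tw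
  obtain rfl : Q = P := hQ.unique h.q
  refine ⟨f', hf', hQ', ?_, ?_, ?_⟩
  · intro i hi
    rw [PowerSeries.coeff_map, h.low i hi, map_zero]
  · rw [PowerSeries.coeff_map, h.lead, map_one]
  · intro g R hg hR hlow
    obtain ⟨g', hg', R', hR1, hR2⟩ := cj_spec hΓ hodd (σ.symm : ℂ →+* ℂ) _ (by decide) hg
    obtain rfl : R' = R := hR1.unique hR
    rw [cj_symm] at hg'
    have h1 : g' = 0 := by
      apply h.max g' _ hg' hR2
      intro i hi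
      rw [PowerSeries.coeff_map, hlow i hi, map_zero]
    have h2 : IsConj (σ.symm : ℂ →+* ℂ) g 0 := ⟨R', hR, by rw [← h1]; exact hR2⟩
    exact h2.injective isConj_zero

end Fermat.Agent.H22.Tw
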