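import Fermat.Agent.H22TwForms
import Fermat.Agent.H48Gal

/-!
# The inputs (QE) and (KI′) for the Galois action on the characters of `Γ₁(M)`

`pmG M = ±Γ₁(M)`.  `QEIn M`, `KIIn M n` are the two inputs from the reduction theory of modular
functions used by the Eichler–Shimura relation.
-/

set_option autoImplicit false

open Filter Topology Complex UpperHalfPlane Function CongruenceSubgroup
open scoped Manifold MatrixGroups ModularForm

noncomputable section

namespace Fermat.Agent.H22.Tw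

/-- `±Γ₁(M)` -/
def pmG (M : ℕ) : Subgroup SL(2, ℤ) where
  carrier := {γ | γ ∈ Gamma1 M ∨ -γ ∈ Gamma1 M}
  one_mem' := Or.inl (one_mem _)
  mul_mem' := by
    rintro a b (ha | ha) (hb | hb)
    · exact Or.inl (mul_mem ha hb)
    · right
      have := mul_mem ha hb
      rwa [mul_neg] at this
    · right
      have := mul_mem ha hb
      rwa [neg_mul] at this
    · left
      have := mul_mem ha hb
      rwa [neg_mul_neg] at this
  inv_mem' := by
    rintro a (ha | ha)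
    · exact Or.inl (inv_mem ha)
    · right
      have h1 := inv_mem ha
      have h2 : (-a)⁻¹ = -a⁻¹ := by
        rw [inv_eq_iff_mul_eq_one]
        simp
      rwa [h2] at h1

theorem mem_pmG {M : ℕ} {γ : SL(2, ℤ)} : γ ∈ pmG M ↔ γ ∈ Gamma1 M ∨ -γ ∈ Gamma1 M := Iff.rfl

theorem Gamma1_le_pmG (M : ℕ) : Gamma1 M ≤ pmG M := fun _ h => Or.inl h

/-- **Input (QE)** (`q`-expansion principle for the diamond operators): `p ∤ M`, `A ∣ p`; if the
`q`-expansion of `f ∈ M_k(Γ₁(M))` (`k` even) has coefficients in `A`, so has that of `f ∣ δ`,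
`δ ∈ Γ₀(M)`. -/
def QEIn (M : ℕ) : Prop :=
  ∀ p : ℕ, p.Prime → ¬ p ∣ M → ∀ A : ValuationSubring (AlgebraicClosure ℚ), A.LiesOverPrime p →
    ∀ (ι : AlgebraicClosure ℚ →+* ℂ) (k : ℤ), Even k → ∀ f : ℍ → ℂ, IsM (Gamma1 M) k f →
      (∀ i, ∃ a ∈ A, (qExpansion 1 f).coeff i = ι a) → ∀ δ ∈ Gamma0 M,
        ∀ i, ∃ a ∈ A, (qExpansion 1 (f ∣[k] δ)).coeff i = ι a

/-- **Input (KI′)** (injectivity of reduction on characters): `p ∤ M n`, `A ∣ p`; `x`, `y` forms of
even weight `k` on `±Γ₁(M)` with parabolic characters `χ₁`, `χ₂` of order dividing `n`; if `x ^ n`,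
`y ^ n` have `q`-expansions with coefficients in `A` and equal non-zero reductions then
`χ₁ = χ₂`. -/
def KIIn (M n : ℕ) : Prop :=
  ∀ p : ℕ, p.Prime → ¬ p ∣ M → ¬ p ∣ n → ∀ A : ValuationSubring (AlgebraicClosure ℚ),
    A.LiesOverPrime p → ∀ (ι : AlgebraicClosure ℚ →+* ℂ) (k : ℤ), Even k →
      ∀ χ₁ ∈ parChar (pmG M) n, ∀ χ₂ ∈ parChar (pmG M) n, ∀ x y : ℍ → ℂ,
        IsTw (pmG M) χ₁ k x → IsTw (pmG M) χ₂ k y → ∀ a b : ℕ → AlgebraicClosure ℚ,
          (∀ i, a i ∈ A) → (∀ i, b i ∈ A) →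
          (∀ i, (qExpansion 1 (x ^ n)).coeff i = ι (a i)) →
          (∀ i, (qExpansion 1 (y ^ n)).coeff i = ι (b i)) →
          (∀ i, a i - b i ∈ A.nonunits) → (∃ i, a i ∉ A.nonunits) → χ₁ = χ₂

end Fermat.Agent.H22.Tw
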