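import Fermat.Agent.H22TwGal
import Fermat.Agent.H22TwInt
import Fermat.Agent.H50Diamond
import Fermat.Agent.H4Periods

/-!
# The group `±Γ₁(M)` and the characters of `Γ₁(M)`
-/

set_option autoImplicit false

open Filter Topology Complex UpperHalfPlane Function CongruenceSubgroup
open scoped Manifold MatrixGroups ModularForm

noncomputable section

namespace Fermat.Agent.H22.Tw

variable {M n : ℕ} {k : ℤ} {f : ℍ → ℂ}

theorem neg_mem_pmG : (-1 : SL(2, ℤ)) ∈ pmG M := Or.inr (by rw [neg_neg]; exact one_mem _)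

theorem T_mem_Gamma1 : ModularGroup.T ∈ Gamma1 M := by
  rw [Gamma1_mem]
  simp [ModularGroup.T]

theorem T_mem_pmG : ModularGroup.T ∈ pmG M := Gamma1_le_pmG M T_mem_Gamma1

theorem finiteIndex_pmG [NeZero M] : (pmG M).FiniteIndex :=
  Subgroup.finiteIndex_of_le (Gamma1_le_pmG M)

theorem neg_notMem_Gamma1 (hM : 3 ≤ M) {γ : SL(2, ℤ)} (h : γ ∈ Gamma1 M) : -γ ∉ Gamma1 M := by
  intro h'
  have h1 := ((Gamma1_mem M γ).1 h).2.1
  have h2 := ((Gamma1_mem M _).1 h').2.1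
  have h3 : ((-γ : SL(2, ℤ)) : Matrix (Fin 2) (Fin 2) ℤ) 1 1 = -(γ 1 1) := by simp
  rw [h3] at h2
  push_cast at h2
  rw [h1] at h2
  have h4 : ((2 : ℕ) : ZMod M) = 0 := by
    push_cast
    linear_combination -h2
  rw [ZMod.natCast_eq_zero_iff] at h4
  have := Nat.le_of_dvd (by norm_num) h4
  omega

theorem slash_neg' (k : ℤ) (f : ℍ → ℂ) (γ : SL(2, ℤ)) :
    f ∣[k] (-γ) = ((-1 : ℂ) ^ k) • (f ∣[k] γ) := by
  funext τ
  rw [Pi.smul_apply, ModularForm.SL_slash_apply, ModularForm.SL_slash_apply]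
  have h1 : denom ((-γ : SL(2, ℤ)) : GL (Fin 2) ℝ) τ = (-1) * denom (γ : GL (Fin 2) ℝ) τ := by
    simp [denom]
    ring
  have h2 : (-γ) • τ = γ • τ := ModularGroup.SL_neg_smul γ τ
  have h3 : ((-1 : ℂ)) ^ (-k) = (-1) ^ k := by
    rw [zpow_neg, ← inv_zpow, inv_neg, inv_one]
  rw [h1, h2, mul_zpow, h3, smul_eq_mul]
  ring

theorem slash_neg_even (hk : Even k) (f : ℍ → ℂ) (γ : SL(2, ℤ)) : f ∣[k] (-γ) = f ∣[k] γ := by
  rw [slash_neg', hk.neg_one_zpow, one_smul]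

theorem isM_pmG_iff (hk : Even k) : IsM (pmG M) k f ↔ IsM (Gamma1 M) k f := by
  constructor
  · exact fun h => h.mono (Gamma1_le_pmG M)
  · intro h
    refine ⟨?_, h.holo, h.bdd⟩
    rintro γ (hγ | hγ)
    · exact h.slash γ hγ
    · rw [← neg_neg γ, slash_neg_even hk]
      exact h.slash _ hγ

theorem conjStable_pmG [NeZero M] (σ : ℂ →+* ℂ) : ConjStable (pmG M) σ := by
  intro k f hk hf
  have h1 := (isM_pmG_iff hk).1 hf
  obtain ⟨f', hf'⟩ := H50.exists_conj_mod H50.one_mem_strictPeriods_Gamma1 (H50.hasPrim_Gamma1 M)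
    σ h1.toMF
  have h2 : IsM (pmG M) k (f' : ℍ → ℂ) := (isM_pmG_iff hk).2 (isM_of_modularForm f')
  exact ⟨f', h2, _, hf.isQ T_mem_pmG, (h2.isQ T_mem_pmG).congr hf'⟩

/-- the discriminant -/
theorem isM_disc : IsM ⊤ 12 (ModularForm.discriminant : ℍ → ℂ) := isM_top_iff.2 H20.isL1_Δ

theorem disc_ne_zero' : (ModularForm.discriminant : ℍ → ℂ) ≠ 0 := fun h =>
  ModularForm.discriminant_ne_zero UpperHalfPlane.I (congrFun h UpperHalfPlane.I)

theorem hasSep_pmG [NeZero M] (hM : 3 ≤ M) : HasSep (pmG M) := by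
  obtain ⟨w, g, -, hst⟩ := H50.hasPrim_Gamma1 M
  have hg : IsM (Gamma1 M) w (g : ℍ → ℂ) := isM_of_modularForm g
  have hw : Odd w := by
    by_contra hw
    rw [Int.not_odd_iff_even] at hw
    have h1 : (g : ℍ → ℂ) ∣[w] (-1 : SL(2, ℤ)) = g := by
      rw [slash_neg_even hw, SlashAction.slash_one]
    exact neg_notMem_Gamma1 hM (one_mem _) (hst _ h1)
  have hg0 : (g : ℍ → ℂ) ≠ 0 := by
    intro h0
    have h1 : (g : ℍ → ℂ) ∣[w] (-1 : SL(2, ℤ)) = g := by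
      rw [h0, SlashAction.zero_slash]
    exact neg_notMem_Gamma1 hM (one_mem _) (hst _ h1)
  set m : ℕ := w.natAbs + 1 with hm
  have hΔ : IsM ⊤ ((m : ℤ) * 12) ((ModularForm.discriminant : ℍ → ℂ) ^ m) := isM_disc.pow m
  have hΔ0 : (ModularForm.discriminant : ℍ → ℂ) ^ m ≠ 0 := pow_ne_zero' disc_ne_zero' m
  have hpos : 2 ≤ w + 6 * m := by
    have h1 : (m : ℤ) = (w.natAbs : ℤ) + 1 := by rw [hm, Nat.cast_succ]
    omega
  have hev : Even (w + w + (m : ℤ) * 12) := ⟨w + m * 6, by ring⟩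
  have hwt : w + w + (m : ℤ) * 12 = 2 * ((w + 6 * m).toNat : ℤ) := by
    rw [Int.toNat_of_nonneg (by omega)]
    ring
  refine ⟨(w + 6 * m).toNat, (g : ℍ → ℂ) * g * (ModularForm.discriminant : ℍ → ℂ) ^ m, by omega,
    ?_, ?_, ?_⟩
  · rw [← hwt, isM_pmG_iff hev]
    exact (hg.mul hg).mul (hΔ.mono le_top)
  · exact mul_ne_zero_mdiff (hg.mul hg).holo hΔ.holo (mul_ne_zero_mdiff hg.holo hg.holo hg0 hg0)
      hΔ0
  · intro γ hγ
    rw [← hwt, ModularForm.mul_slash_SL2, ModularForm.mul_slash_SL2,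
      hΔ.slash γ (Subgroup.mem_top γ)] at hγ
    have hgγ : MDiff ((g : ℍ → ℂ) ∣[w] γ) := hg.holo.slash w _
    have h1 : (((g : ℍ → ℂ) ∣[w] γ - g) * ((g : ℍ → ℂ) ∣[w] γ + g)) *
        (ModularForm.discriminant : ℍ → ℂ) ^ m = 0 := by
      linear_combination hγ
    have h2 : ((g : ℍ → ℂ) ∣[w] γ - g) * ((g : ℍ → ℂ) ∣[w] γ + g) = 0 :=
      ((mul_eq_zero_iff ((hgγ.sub hg.holo).mul (hgγ.add hg.holo)) hΔ.holo).1 h1).resolve_right hΔ0
    rcases (mul_eq_zero_iff (hgγ.sub hg.holo) (hgγ.add hg.holo)).1 h2 with h3 | h3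
    · exact Or.inl (hst γ (sub_eq_zero.1 h3))
    · right
      apply hst
      rw [slash_neg', hw.neg_one_zpow, _root_.neg_smul, one_smul]
      exact neg_eq_of_add_eq_zero_right h3

theorem hyp_pmG [NeZero M] (hM : 3 ≤ M) : Hyp (pmG M) where
  fin := finiteIndex_pmG
  T_mem := T_mem_pmG
  neg_mem := neg_mem_pmG
  sep := hasSep_pmG hM
  conj := conjStable_pmG

/-! ### Restriction and extension of characters -/

/-- restriction to `Γ₁(M)` -/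
def resC (ψ : pmG M →* ℂˣ) : Gamma1 M →* ℂˣ := ψ.comp (Subgroup.inclusion (Gamma1_le_pmG M))

theorem resC_apply (ψ : pmG M →* ℂˣ) (γ : Gamma1 M) :
    resC ψ γ = ψ ⟨γ, Gamma1_le_pmG M γ.2⟩ := rfl

theorem isTw_pmG_iff (hk : Even k) {ψ : pmG M →* ℂˣ} (hψ : ψ ⟨-1, neg_mem_pmG⟩ = 1) :
    IsTw (pmG M) ψ k f ↔ IsTw (Gamma1 M) (resC ψ) k f := by
  constructor
  · intro h
    exact ⟨fun γ => h.slash ⟨γ, Gamma1_le_pmG M γ.2⟩, h.holo, h.bdd⟩
  · intro h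
    refine ⟨?_, h.holo, h.bdd⟩
    rintro ⟨γ, hγ | hγ⟩
    · exact h.slash ⟨γ, hγ⟩
    · have h1 : (⟨γ, Or.inr hγ⟩ : pmG M) = ⟨-1, neg_mem_pmG⟩ * ⟨-γ, Gamma1_le_pmG M hγ⟩ :=
        Subtype.ext (by simp)
      show f ∣[k] γ = _
      rw [h1, map_mul, hψ, one_mul]
      have h2 : f ∣[k] (-γ) = _ := h.slash ⟨-γ, hγ⟩
      rw [slash_neg_even hk] at h2
      exact h2

/-- extension of a character of `Γ₁(M)` to `±Γ₁(M)` -/
def extC (hM : 3 ≤ M) (χ : Gamma1 M →* ℂˣ) : pmG M →* ℂˣ :=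
  haveI : ∀ γ : SL(2, ℤ), Decidable (γ ∈ Gamma1 M) := fun _ => Classical.dec _
  MonoidHom.mk' (fun γ => if h : (γ : SL(2, ℤ)) ∈ Gamma1 M then χ ⟨γ, h⟩
    else χ ⟨-γ, γ.2.resolve_left h⟩) (by
    intro a b
    rcases a.2 with ha | ha <;> rcases b.2 with hb | hb
    · have hab : ((a * b : pmG M) : SL(2, ℤ)) ∈ Gamma1 M := mul_mem ha hb
      rw [dif_pos hab, dif_pos ha, dif_pos hb, ← map_mul]
      rfl
    · have hb' := neg_notMem_Gamma1 hM hb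
      rw [neg_neg] at hb'
      have hab : -((a * b : pmG M) : SL(2, ℤ)) ∈ Gamma1 M := by
        have := mul_mem ha hb
        rwa [mul_neg] at this
      have hab' := neg_notMem_Gamma1 hM hab
      rw [neg_neg] at hab'
      rw [dif_neg hab', dif_pos ha, dif_neg hb', ← map_mul]
      congr 1
      exact Subtype.ext (by simp)
    · have ha' := neg_notMem_Gamma1 hM ha
      rw [neg_neg] at ha'
      have hab : -((a * b : pmG M) : SL(2, ℤ)) ∈ Gamma1 M := by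
        have := mul_mem ha hb
        rwa [neg_mul] at this
      have hab' := neg_notMem_Gamma1 hM hab
      rw [neg_neg] at hab'
      rw [dif_neg hab', dif_neg ha', dif_pos hb, ← map_mul]
      congr 1
      exact Subtype.ext (by simp)
    · have ha' := neg_notMem_Gamma1 hM ha
      rw [neg_neg] at ha'
      have hb' := neg_notMem_Gamma1 hM hb
      rw [neg_neg] at hb'
      have hab : ((a * b : pmG M) : SL(2, ℤ)) ∈ Gamma1 M := by
        have := mul_mem ha hb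
        rwa [neg_mul_neg] at this
      rw [dif_pos hab, dif_neg ha', dif_neg hb', ← map_mul]
      congr 1
      exact Subtype.ext (by simp))

theorem extC_pos (hM : 3 ≤ M) (χ : Gamma1 M →* ℂˣ) (γ : pmG M) (h : (γ : SL(2, ℤ)) ∈ Gamma1 M) :
    extC hM χ γ = χ ⟨γ, h⟩ := dif_pos h

theorem extC_neg (hM : 3 ≤ M) (χ : Gamma1 M →* ℂˣ) (γ : pmG M)
    (h : -(γ : SL(2, ℤ)) ∈ Gamma1 M) : extC hM χ γ = χ ⟨-γ, h⟩ := by
  have h' := neg_notMem_Gamma1 hM h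
  rw [neg_neg] at h'
  exact dif_neg h'

theorem resC_extC (hM : 3 ≤ M) (χ : Gamma1 M →* ℂˣ) : resC (extC hM χ) = χ := by
  refine MonoidHom.ext fun γ => ?_
  rw [resC_apply, extC_pos hM χ _ γ.2]

theorem extC_neg_one (hM : 3 ≤ M) (χ : Gamma1 M →* ℂˣ) : extC hM χ ⟨-1, neg_mem_pmG⟩ = 1 := by
  rw [extC_neg hM χ _ (by simp)]
  have : (⟨-(((⟨-1, neg_mem_pmG⟩ : pmG M)) : SL(2, ℤ)), by simp⟩ :
    Gamma1 M) = 1 := Subtype.ext (by simp)
  rw [this, map_one]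

theorem ext_pmG {ψ ψ' : pmG M →* ℂˣ} (h : resC ψ = resC ψ')
    (hψ : ψ ⟨-1, neg_mem_pmG⟩ = ψ' ⟨-1, neg_mem_pmG⟩) : ψ = ψ' := by
  refine MonoidHom.ext ?_
  rintro ⟨γ, hγ | hγ⟩
  · exact DFunLike.congr_fun h ⟨γ, hγ⟩
  · have h1 : (⟨γ, Or.inr hγ⟩ : pmG M) = ⟨-1, neg_mem_pmG⟩ * ⟨-γ, Gamma1_le_pmG M hγ⟩ :=
      Subtype.ext (by simp)
    rw [h1, map_mul, map_mul, hψ]
    congr 1
    exact DFunLike.congr_fun h ⟨-γ, hγ⟩

/-! ### Parabolic and elliptic elements -/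

theorem exists_conj_lower (γ : SL(2, ℤ))
    (h : ((γ : Matrix (Fin 2) (Fin 2) ℤ)).trace ^ 2 = 4) :
    ∃ δ : SL(2, ℤ), (δ⁻¹ * γ * δ) 1 0 = 0 := by
  have hdet : γ 0 0 * γ 1 1 - γ 0 1 * γ 1 0 = 1 := by
    have := γ.det_coe
    rwa [Matrix.det_fin_two] at this
  rw [Matrix.trace_fin_two] at h
  have hε : ∃ ε : ℤ, ε * ε = 1 ∧ γ 0 0 + γ 1 1 = 2 * ε := by
    have h1 : (γ 0 0 + γ 1 1 - 2) * (γ 0 0 + γ 1 1 + 2) = 0 := by linear_combination h
    rcases mul_eq_zero.mp h1 with h1 | h1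
    · exact ⟨1, by norm_num, by linarith⟩
    · exact ⟨-1, by norm_num, by linarith⟩
  obtain ⟨ε, hε1, hε2⟩ := hε
  by_cases hc : γ 1 0 = 0
  · exact ⟨1, by simpa using hc⟩
  have hg : 0 < Int.gcd (γ 0 0 - ε) (γ 1 0) := Int.gcd_pos_of_ne_zero_right _ hc
  obtain ⟨p, q, hpq, hp, hq⟩ := Int.exists_gcd_one hg
  set g : ℤ := (Int.gcd (γ 0 0 - ε) (γ 1 0) : ℤ) with hgdef
  have hg0 : g ≠ 0 := by rw [hgdef]; exact_mod_cast hg.ne'
  obtain ⟨δ, h0, h1⟩ := (Int.isCoprime_iff_gcd_eq_one.mpr hpq).exists_SL2_col 0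
  refine ⟨δ, ?_⟩
  have e1 : γ 0 0 * p + γ 0 1 * q = ε * p := by
    apply mul_right_cancel₀ hg0
    have : γ 0 0 * (p * g) + γ 0 1 * (q * g) = ε * (p * g) := by
      rw [← hp, ← hq]
      linear_combination (γ 0 0) * hε2 - hdet + hε1
    linear_combination this
  have e2 : γ 1 0 * p + γ 1 1 * q = ε * q := by
    apply mul_right_cancel₀ hg0
    have : γ 1 0 * (p * g) + γ 1 1 * (q * g) = ε * (q * g) := by
      rw [← hp, ← hq]
      linear_combination (γ 1 0) * hε2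
    linear_combination this
  have : (δ⁻¹ * γ * δ) 1 0 = -(δ 1 0) * (γ 0 0 * δ 0 0 + γ 0 1 * δ 1 0) +
      δ 0 0 * (γ 1 0 * δ 0 0 + γ 1 1 * δ 1 0) := by
    simp [Matrix.SpecialLinearGroup.coe_mul, Matrix.SpecialLinearGroup.coe_inv, Matrix.mul_apply,
      Fin.sum_univ_two, Matrix.adjugate_fin_two, Matrix.vecMul, dotProduct]
    ring
  rw [this, h0, h1, e1, e2]
  ring

theorem exists_eq_conj_T (γ : SL(2, ℤ))
    (h : ((γ : Matrix (Fin 2) (Fin 2) ℤ)).trace ^ 2 = 4) :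
    ∃ (δ : SL(2, ℤ)) (m : ℤ), γ = δ * ModularGroup.T ^ m * δ⁻¹ ∨
      -γ = δ * ModularGroup.T ^ m * δ⁻¹ := by
  obtain ⟨δ, hδ⟩ := exists_conj_lower γ h
  obtain ⟨m, hm | hm⟩ := eq_T_zpow_of_c_eq_zero _ hδ
  · refine ⟨δ, m, Or.inl ?_⟩
    rw [← hm]
    group
  · refine ⟨δ, m, Or.inr ?_⟩
    rw [← neg_neg (ModularGroup.T ^ m), ← hm, mul_neg, neg_mul]
    congr 1
    group

theorem coprime_twelve (hn : n.Prime) (hn5 : 5 ≤ n) : Nat.Coprime 12 n := by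
  rw [Nat.coprime_comm, hn.coprime_iff_not_dvd]
  intro h
  have h1 := Nat.le_of_dvd (by norm_num) h
  interval_cases n <;> first | omega | (revert hn; decide)

theorem isPE_resC (hn : n.Prime) (hn5 : 5 ≤ n) {ψ : pmG M →* ℂˣ} (hψ : ψ ∈ parChar (pmG M) n) :
    H48.IsPE (MonoidHom.toAdditive (resC ψ)) := by
  have hodd : Odd n := hn.odd_of_ne_two (by omega)
  intro γ hγ
  show resC ψ γ = 1
  rcases hγ.lt_or_eq with h | h
  · have h1 : γ ^ 12 = 1 := by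
      apply Subtype.ext
      push_cast
      exact Fermat.Agent.H4.pow_twelve_eq_one _ h
    have h2 : (resC ψ γ) ^ 12 = 1 := by rw [← map_pow, h1, map_one]
    have h3 : (resC ψ γ) ^ n = 1 := apply_pow_char hψ.1 _
    have h4 : orderOf (resC ψ γ) ∣ 1 := by
      rw [← Nat.Coprime.gcd_eq_one (coprime_twelve hn hn5)]
      exact Nat.dvd_gcd (orderOf_dvd_of_pow_eq_one h2) (orderOf_dvd_of_pow_eq_one h3)
    exact orderOf_eq_one_iff.1 (Nat.dvd_one.1 h4)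
  · obtain ⟨δ, m, h1 | h1⟩ := exists_eq_conj_T _ h
    · exact hψ.2 _ δ m h1
    · have h2 : (⟨γ, Gamma1_le_pmG M γ.2⟩ : pmG M) = ⟨-1, neg_mem_pmG⟩ *
        ⟨-γ, Or.inr (by rw [neg_neg]; exact γ.2)⟩ := Subtype.ext (by simp)
      rw [resC_apply, h2, map_mul, char_neg_one hodd neg_mem_pmG hψ.1, one_mul]
      exact hψ.2 _ δ m h1

theorem trace_conj_T_zpow' (x : SL(2, ℤ)) (m : ℤ) :
    ((x * ModularGroup.T ^ m * x⁻¹ : SL(2, ℤ)) : Matrix (Fin 2) (Fin 2) ℤ).trace = 2 := by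
  rw [Matrix.SpecialLinearGroup.coe_mul, Matrix.trace_mul_comm,
    ← Matrix.SpecialLinearGroup.coe_mul, inv_mul_cancel_left, ModularGroup.coe_T_zpow,
    Matrix.trace_fin_two_of]
  norm_num

theorem extC_mem (hM : 3 ≤ M) {χ : Gamma1 M →* ℂˣ} (hχ : H48.IsPE (MonoidHom.toAdditive χ))
    (hχn : ∀ γ, χ γ ^ n = 1) : extC hM χ ∈ parChar (pmG M) n := by
  constructor
  · refine pow_char_of_forall ?_
    rintro ⟨γ, hγ | hγ⟩
    · rw [extC_pos hM χ _ hγ]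
      exact hχn _
    · rw [extC_neg hM χ _ hγ]
      exact hχn _
  · rintro ⟨γ, hγ | hγ⟩ g m h
    · rw [extC_pos hM χ _ hγ]
      refine hχ ⟨γ, hγ⟩ ?_
      show ((γ : SL(2, ℤ)) : Matrix (Fin 2) (Fin 2) ℤ).trace ^ 2 ≤ 4
      have h' : γ = g * ModularGroup.T ^ m * g⁻¹ := h
      rw [h', trace_conj_T_zpow']
      norm_num
    · rw [extC_neg hM χ _ hγ]
      refine hχ ⟨-γ, hγ⟩ ?_
      show ((-γ : SL(2, ℤ)) : Matrix (Fin 2) (Fin 2) ℤ).trace ^ 2 ≤ 4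
      have h' : γ = g * ModularGroup.T ^ m * g⁻¹ := h
      rw [Matrix.SpecialLinearGroup.coe_neg, Matrix.trace_neg, h', trace_conj_T_zpow']
      norm_num

/-- **The characters of `Γ₁(M)` and of `±Γ₁(M)`.** -/
def vnEquiv (hM : 3 ≤ M) (hn : n.Prime) (hn5 : 5 ≤ n) :
    Additive (parChar (pmG M) n) ≃+ H48.Vn (Gamma1 M) n where
  toFun ψ := ⟨MonoidHom.toAdditive (resC ψ.toMul.1), isPE_resC hn hn5 ψ.toMul.2, fun γ => by
    have h1 : (resC ψ.toMul.1 γ.toMul) ^ n = 1 := apply_pow_char ψ.toMul.2.1 _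
    exact h1⟩
  invFun χ := Additive.ofMul ⟨extC hM (MonoidHom.toAdditive.symm χ.1), extC_mem hM χ.2.1
    fun γ => χ.2.2 (Additive.ofMul γ)⟩
  left_inv ψ := by
    apply Subtype.ext
    apply ext_pmG
    · exact resC_extC hM _
    · show extC hM _ _ = _
      rw [extC_neg_one]
      exact (char_neg_one (hn.odd_of_ne_two (by omega)) neg_mem_pmG ψ.toMul.2.1).symm
  right_inv χ := by
    apply Subtype.ext
    show MonoidHom.toAdditive (resC (extC hM _)) = χ.1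
    rw [resC_extC]
    rfl
  map_add' ψ φ := by
    apply Subtype.ext
    rfl

theorem vnEquiv_apply (hM : 3 ≤ M) (hn : n.Prime) (hn5 : 5 ≤ n)
    (ψ : Additive (parChar (pmG M) n)) :
    (vnEquiv hM hn hn5 ψ : Additive (Gamma1 M) →+ Additive ℂˣ) =
      MonoidHom.toAdditive (resC ψ.toMul.1) := rfl

end Fermat.Agent.H22.Tw
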