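import Mathlib

open UpperHalfPlane ModularForm MatrixGroups CongruenceSubgroup
open scoped Manifold

noncomputable section

namespace Fermat.Agent.H20

/-- Vector-valued modular forms of weight `k` on a finite `SL(2,ℤ)`-set `X`. -/
structure IsVMF (X : Type*) [MulAction SL(2, ℤ) X] (k : ℤ) (F : X → ℍ → ℂ) : Prop where
  slash : ∀ (g : SL(2, ℤ)) (x : X), F x ∣[k] g = F (g⁻¹ • x)
  holo : ∀ x, MDiff (F x)
  bdd : ∀ x, IsBoundedAtImInfty (F x)

/-- Vector-valued cusp forms of weight `k` on a finite `SL(2,ℤ)`-set `X`. -/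
structure IsVCF (X : Type*) [MulAction SL(2, ℤ) X] (k : ℤ) (F : X → ℍ → ℂ) : Prop where
  slash : ∀ (g : SL(2, ℤ)) (x : X), F x ∣[k] g = F (g⁻¹ • x)
  holo : ∀ x, MDiff (F x)
  zero : ∀ x, IsZeroAtImInfty (F x)

/-- Level one modular forms of weight `k` as plain functions. -/
structure IsL1 (k : ℤ) (G : ℍ → ℂ) : Prop where
  slash : ∀ (g : SL(2, ℤ)), G ∣[k] g = G
  holo : MDiff G
  bdd : IsBoundedAtImInfty G

theorem mdiff_sum {ι : Type*} (s : Finset ι) {f : ι → ℍ → ℂ} (h : ∀ i ∈ s, MDiff (f i)) :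
    MDiff (∑ i ∈ s, f i) := by
  classical
  induction s using Finset.induction_on with
  | empty => simpa using! (mdifferentiable_const (c := (0:ℂ)))
  | insert i t hi ih =>
    simp only [Finset.sum_insert hi]
    exact (h i (Finset.mem_insert_self _ _)).add
      (ih fun j hj => h j (Finset.mem_insert_of_mem hj))

theorem mdiff_prod {ι : Type*} (s : Finset ι) {f : ι → ℍ → ℂ} (h : ∀ i ∈ s, MDiff (f i)) :
    MDiff (∏ i ∈ s, f i) := by
  classical
  induction s using Finset.induction_on with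
  | empty => simpa using! (mdifferentiable_const (c := (1:ℂ)))
  | insert i t hi ih =>
    simp only [Finset.prod_insert hi]
    exact (h i (Finset.mem_insert_self _ _)).mul
      (ih fun j hj => h j (Finset.mem_insert_of_mem hj))

theorem bdd_sum {ι : Type*} (s : Finset ι) {f : ι → ℍ → ℂ} (h : ∀ i ∈ s, IsBoundedAtImInfty (f i)) :
    IsBoundedAtImInfty (∑ i ∈ s, f i) := by
  classical
  induction s using Finset.induction_on with
  | empty => simpa using! Filter.const_boundedAtFilter _ (0 : ℂ)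
  | insert i t hi ih =>
    simp only [Finset.sum_insert hi]
    exact (h i (Finset.mem_insert_self _ _)).add
      (ih fun j hj => h j (Finset.mem_insert_of_mem hj))

theorem bdd_prod {ι : Type*} (s : Finset ι) {f : ι → ℍ → ℂ} (h : ∀ i ∈ s, IsBoundedAtImInfty (f i)) :
    IsBoundedAtImInfty (∏ i ∈ s, f i) := by
  classical
  induction s using Finset.induction_on with
  | empty => simpa using! Filter.const_boundedAtFilter _ (1 : ℂ)
  | insert i t hi ih =>
    simp only [Finset.prod_insert hi]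
    exact (h i (Finset.mem_insert_self _ _)).mul
      (ih fun j hj => h j (Finset.mem_insert_of_mem hj))

variable {X : Type*} [MulAction SL(2, ℤ) X] {k l : ℤ}

theorem IsVCF.isVMF {F : X → ℍ → ℂ} (hF : IsVCF X k F) : IsVMF X k F where
  slash := hF.slash
  holo := hF.holo
  bdd x := (hF.zero x).isBoundedAtImInfty

/-! ### level one -/

/-- A level one form as a bundled form. -/
def IsL1.toMF {G : ℍ → ℂ} (hG : IsL1 k G) : ModularForm 𝒮ℒ k where
  toFun := G
  slash_action_eq' := by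
    rintro γ ⟨g, rfl⟩
    exact hG.slash g
  holo' := hG.holo
  bdd_at_cusps' {c} hc := by
    rw [OnePoint.isBoundedAt_iff_forall_SL2Z hc]
    intro γ _
    show IsBoundedAtImInfty (G ∣[k] γ)
    rw [hG.slash γ]
    exact hG.bdd

@[simp] theorem IsL1.toMF_coe {G : ℍ → ℂ} (hG : IsL1 k G) : (hG.toMF : ℍ → ℂ) = G := rfl

theorem isL1_of_class {F : Type*} [FunLike F ℍ ℂ] [ModularFormClass F 𝒮ℒ k] (f : F) :
    IsL1 k (f : ℍ → ℂ) where
  slash g := SlashInvariantFormClass.slash_action_eq f _ ⟨g, rfl⟩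
  holo := ModularFormClass.holo f
  bdd := ModularFormClass.bdd_at_infty f

theorem IsL1.eq_zero_of_neg {G : ℍ → ℂ} (hG : IsL1 k G) (hk : k < 0) : G = 0 :=
  ModularFormClass.levelOne_neg_weight_eq_zero hk hG.toMF

theorem IsL1.const_of_zero {G : ℍ → ℂ} (hG : IsL1 0 G) : ∃ c, G = Function.const ℍ c :=
  ModularFormClass.levelOne_weight_zero_const hG.toMF

theorem IsL1.cast {G : ℍ → ℂ} (hG : IsL1 k G) (h : k = l) : IsL1 l G := h ▸ hG

theorem IsVMF.cast {F : X → ℍ → ℂ} (hF : IsVMF X k F) (h : k = l) : IsVMF X l F := h ▸ hF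

theorem IsL1.mul {G H : ℍ → ℂ} (hG : IsL1 k G) (hH : IsL1 l H) : IsL1 (k + l) (G * H) where
  slash g := by rw [mul_slash_SL2, hG.slash, hH.slash]
  holo := hG.holo.mul hH.holo
  bdd := hG.bdd.mul hH.bdd

theorem IsL1.const (c : ℂ) : IsL1 0 (fun _ : ℍ => c) where
  slash g := is_invariant_const g c
  holo := mdifferentiable_const
  bdd := Filter.const_boundedAtFilter _ c

theorem IsL1.smul {G : ℍ → ℂ} (hG : IsL1 k G) (c : ℂ) : IsL1 k (fun z => c * G z) := by
  simpa using! ((IsL1.const c).mul hG).cast (zero_add k)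

theorem IsL1.pow {G : ℍ → ℂ} (hG : IsL1 k G) (n : ℕ) : IsL1 (n * k) (G ^ n) := by
  induction n with
  | zero => simpa using! IsL1.const 1
  | succ n ih =>
    rw [pow_succ]
    exact (ih.mul hG).cast (by push_cast; ring)

theorem IsL1.add {G H : ℍ → ℂ} (hG : IsL1 k G) (hH : IsL1 k H) : IsL1 k (G + H) where
  slash g := by rw [SlashAction.add_slash, hG.slash, hH.slash]
  holo := hG.holo.add hH.holo
  bdd := hG.bdd.add hH.bdd

theorem isL1_E₄ : IsL1 4 (E₄ : ℍ → ℂ) := isL1_of_class E₄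
theorem isL1_E₆ : IsL1 6 (E₆ : ℍ → ℂ) := isL1_of_class E₆
theorem isL1_Δ : IsL1 12 discriminant := isL1_of_class CuspForm.discriminant

/-! ### operations on vector valued forms -/

theorem IsVMF.l1_mul {G : ℍ → ℂ} {F : X → ℍ → ℂ} (hG : IsL1 k G) (hF : IsVMF X l F) :
    IsVMF X (k + l) (fun x => G * F x) where
  slash g x := by rw [mul_slash_SL2, hG.slash, hF.slash]
  holo x := hG.holo.mul (hF.holo x)
  bdd x := hG.bdd.mul (hF.bdd x)

theorem IsVMF.add {F F' : X → ℍ → ℂ} (hF : IsVMF X k F) (hF' : IsVMF X k F') :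
    IsVMF X k (fun x => F x + F' x) where
  slash g x := by rw [SlashAction.add_slash, hF.slash, hF'.slash]
  holo x := (hF.holo x).add (hF'.holo x)
  bdd x := (hF.bdd x).add (hF'.bdd x)

theorem IsVMF.zero : IsVMF X k (fun _ => 0) where
  slash g x := by simp
  holo x := mdifferentiable_const
  bdd x := Filter.const_boundedAtFilter _ (0 : ℂ)

theorem IsVMF.sum {ι : Type*} (s : Finset ι) {F : ι → X → ℍ → ℂ}
    (hF : ∀ i ∈ s, IsVMF X k (F i)) : IsVMF X k (fun x => ∑ i ∈ s, F i x) := by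
  classical
  induction s using Finset.induction_on with
  | empty => simpa using IsVMF.zero
  | insert i t hi ih =>
    simp only [Finset.sum_insert hi]
    exact (hF i (Finset.mem_insert_self _ _)).add
      (ih fun j hj => hF j (Finset.mem_insert_of_mem hj))


theorem pairing_slash [Fintype X] {F F' : X → ℍ → ℂ}
    (hF : ∀ (g : SL(2, ℤ)) (x : X), F x ∣[k] g = F (g⁻¹ • x))
    (hF' : ∀ (g : SL(2, ℤ)) (x : X), F' x ∣[l] g = F' (g⁻¹ • x)) (g : SL(2, ℤ)) :
    (∑ x, F x * F' x) ∣[k + l] g = ∑ x, F x * F' x := by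
  rw [SlashAction.sum_slash]
  simp only [mul_slash_SL2, hF, hF']
  exact Equiv.sum_comp (MulAction.toPerm (g⁻¹) : Equiv.Perm X) (fun x => F x * F' x)

theorem IsVMF.pairing [Fintype X] {F F' : X → ℍ → ℂ} (hF : IsVMF X k F) (hF' : IsVMF X l F') :
    IsL1 (k + l) (∑ x, F x * F' x) where
  slash g := pairing_slash hF.slash hF'.slash g
  holo := mdiff_sum _ fun x _ => (hF.holo x).mul (hF'.holo x)
  bdd := bdd_sum _ fun x _ => (hF.bdd x).mul (hF'.bdd x)

/-- the modular form on the stabiliser of `x` given by the component `F x`. -/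
def IsVMF.toMF {F : X → ℍ → ℂ} (hF : IsVMF X k F) (x : X)
    [(MulAction.stabilizer SL(2, ℤ) x).FiniteIndex] :
    ModularForm ((MulAction.stabilizer SL(2, ℤ) x : Subgroup SL(2, ℤ)) :
      Subgroup (GL (Fin 2) ℝ)) k where
  toFun := F x
  slash_action_eq' := by
    rintro γ ⟨g, hg, rfl⟩
    have h1 := hF.slash g x
    have h2 : g⁻¹ • x = x := by
      have : g • x = x := hg
      rw [inv_smul_eq_iff, this]
    rw [h2] at h1
    exact h1
  holo' := hF.holo x
  bdd_at_cusps' {c} hc := by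
    rw [Subgroup.IsArithmetic.isCusp_iff_isCusp_SL2Z] at hc
    rw [OnePoint.isBoundedAt_iff_forall_SL2Z hc]
    intro γ _
    show IsBoundedAtImInfty (F x ∣[k] γ)
    rw [hF.slash γ]
    exact hF.bdd _

@[simp] theorem IsVMF.toMF_coe {F : X → ℍ → ℂ} (hF : IsVMF X k F) (x : X)
    [(MulAction.stabilizer SL(2, ℤ) x).FiniteIndex] : (hF.toMF x : ℍ → ℂ) = F x := rfl

instance stabilizer_finiteIndex [Finite X] (x : X) :
    (MulAction.stabilizer SL(2, ℤ) x).FiniteIndex := by
  refine ⟨?_⟩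
  have : Finite (SL(2, ℤ) ⧸ MulAction.stabilizer SL(2, ℤ) x) :=
    Finite.of_equiv _ (MulAction.orbitEquivQuotientStabilizer SL(2, ℤ) x)
  exact Subgroup.index_ne_zero_of_finite

theorem IsVMF.eq_zero_of_neg [Finite X] {F : X → ℍ → ℂ} (hF : IsVMF X k F) (hk : k < 0) (x : X) :
    F x = 0 := by
  have h := ModularForm.isZero_of_neg_weight hk (hF.toMF x)
  have h2 := congrArg (fun f : ModularForm _ k => (f : ℍ → ℂ)) h
  simpa using h2

theorem IsVMF.const_of_zero [Finite X] {F : X → ℍ → ℂ} (hF : IsVMF X 0 F) (x : X) :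
    ∃ c, F x = Function.const ℍ c :=
  ModularForm.eq_const_of_weight_zero (hF.toMF x)

theorem IsVCF.eq_zero_of_nonpos [Finite X] {F : X → ℍ → ℂ} (hF : IsVCF X k F) (hk : k ≤ 0) (x : X) :
    F x = 0 := by
  rcases hk.lt_or_eq with hk | rfl
  · exact hF.isVMF.eq_zero_of_neg hk x
  · obtain ⟨c, hc⟩ := hF.isVMF.const_of_zero x
    have h0 := hF.zero x
    rw [hc] at h0
    have : c = 0 := by
      have h1 : Filter.Tendsto (Function.const ℍ c) atImInfty (nhds c) := tendsto_const_nhds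
      exact tendsto_nhds_unique h1 h0
    rw [hc, this]; rfl

theorem IsVMF.weight_zero_const [Finite X] [MulAction.IsPretransitive SL(2, ℤ) X]
    {F : X → ℍ → ℂ} (hF : IsVMF X 0 F) (x₀ : X) :
    ∃ c, ∀ x, F x = Function.const ℍ c := by
  obtain ⟨c, hc⟩ := hF.const_of_zero x₀
  refine ⟨c, fun x => ?_⟩
  obtain ⟨g, rfl⟩ := MulAction.exists_smul_eq SL(2, ℤ) x₀ x
  have h := hF.slash g⁻¹ x₀
  rw [inv_inv] at h
  rw [← h, hc]
  exact is_invariant_const _ _

/-! ### homogeneous bases -/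

/-- The matrix of a family of vector valued forms: rows = components `x`, columns = index `i`. -/
def fmat (F : X → X → ℍ → ℂ) (τ : ℍ) : Matrix X X ℂ := Matrix.of fun x i => F i x τ

omit [MulAction SL(2, ℤ) X] in
@[simp] theorem fmat_apply (F : X → X → ℍ → ℂ) (τ : ℍ) (x i : X) : fmat F τ x i = F i x τ := rfl

/-- A homogeneous basis of the graded module of vector valued modular forms over the ring of
level one modular forms: `F i` has weight `k i`, every `H` of weight `w` is
`∑ i, G i * F i` with `G i` of level one and weight `w - k i`; generic independence is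
expressed by `det_ne`. -/
structure IsFreeBasis (X : Type*) [MulAction SL(2, ℤ) X] [Fintype X] [DecidableEq X]
    (k : X → ℤ) (F : X → X → ℍ → ℂ) : Prop where
  vmf : ∀ i, IsVMF X (k i) (F i)
  span : ∀ (w : ℤ) (H : X → ℍ → ℂ), IsVMF X w H →
    ∃ G : X → ℍ → ℂ, (∀ i, IsL1 (w - k i) (G i)) ∧ ∀ x, H x = ∑ i, G i * F i x
  det_ne : ∃ τ : ℍ, (fmat F τ).det ≠ 0

end Fermat.Agent.H20
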