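import Fermat.Agent.H22TwQ
import Fermat.Agent.H20VMF

/-!
# Twisted modular forms

`IsTw Γ χ k f`: `f` is a holomorphic modular form of weight `k` on `Γ ≤ SL(2,ℤ)` with character
`χ : Γ →* ℂˣ`.
-/

set_option autoImplicit false

open Filter Topology Complex UpperHalfPlane Function
open scoped Manifold MatrixGroups ModularForm

noncomputable section

namespace Fermat.Agent.H22.Tw

/-- Twisted modular forms. -/
structure IsTw (Γ : Subgroup SL(2, ℤ)) (χ : Γ →* ℂˣ) (k : ℤ) (f : ℍ → ℂ) : Prop where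
  slash : ∀ γ : Γ, f ∣[k] (γ : SL(2, ℤ)) = (χ γ : ℂ) • f
  holo : MDiff f
  bdd : ∀ g : SL(2, ℤ), IsBoundedAtImInfty (f ∣[k] g)

/-- Modular forms as plain functions. -/
structure IsM (Γ : Subgroup SL(2, ℤ)) (k : ℤ) (f : ℍ → ℂ) : Prop where
  slash : ∀ γ ∈ Γ, f ∣[k] γ = f
  holo : MDiff f
  bdd : ∀ g : SL(2, ℤ), IsBoundedAtImInfty (f ∣[k] g)

variable {Γ : Subgroup SL(2, ℤ)} {χ ψ : Γ →* ℂˣ} {k l : ℤ} {f g : ℍ → ℂ}

theorem isTw_one_iff : IsTw Γ 1 k f ↔ IsM Γ k f := by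
  constructor
  · intro h
    refine ⟨fun γ hγ => ?_, h.holo, h.bdd⟩
    have := h.slash ⟨γ, hγ⟩
    simpa using this
  · intro h
    refine ⟨fun γ => ?_, h.holo, h.bdd⟩
    rw [h.slash γ γ.2]
    simp

theorem IsTw.weight_eq (h : IsTw Γ χ k f) (hk : k = l) : IsTw Γ χ l f := hk ▸ h

theorem IsM.weight_eq (h : IsM Γ k f) (hk : k = l) : IsM Γ l f := hk ▸ h

theorem IsTw.char_eq (h : IsTw Γ χ k f) (hk : χ = ψ) : IsTw Γ ψ k f := hk ▸ h

theorem slash_prod {ι : Type*} (s : Finset ι) (kk : ι → ℤ) (F : ι → ℍ → ℂ) (A : SL(2, ℤ)) :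
    (∏ i ∈ s, F i) ∣[∑ i ∈ s, kk i] A = ∏ i ∈ s, (F i ∣[kk i] A) := by
  classical
  induction s using Finset.induction_on with
  | empty => simp [ModularForm.is_invariant_one]
  | insert a s ha ih =>
    rw [Finset.prod_insert ha, Finset.sum_insert ha, ModularForm.mul_slash_SL2, ih,
      Finset.prod_insert ha]

theorem slash_prod_const {ι : Type*} (s : Finset ι) (k : ℤ) (F : ι → ℍ → ℂ) (A : SL(2, ℤ)) :
    (∏ i ∈ s, F i) ∣[(s.card : ℤ) * k] A = ∏ i ∈ s, (F i ∣[k] A) := by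
  rw [← slash_prod]
  simp

theorem slash_pow (k : ℤ) (F : ℍ → ℂ) (n : ℕ) (A : SL(2, ℤ)) :
    (F ^ n) ∣[(n : ℤ) * k] A = (F ∣[k] A) ^ n := by
  have := slash_prod_const (Finset.range n) k (fun _ => F) A
  simpa using this

theorem smul_slash (k : ℤ) (A : SL(2, ℤ)) (f : ℍ → ℂ) (c : ℂ) :
    (c • f) ∣[k] A = c • (f ∣[k] A) := ModularForm.SL_smul_slash k A f c

theorem IsTw.mul (hf : IsTw Γ χ k f) (hg : IsTw Γ ψ l g) : IsTw Γ (χ * ψ) (k + l) (f * g) where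
  slash γ := by
    rw [ModularForm.mul_slash_SL2, hf.slash, hg.slash, smul_mul_smul_comm]
    simp
  holo := hf.holo.mul hg.holo
  bdd A := by
    rw [ModularForm.mul_slash_SL2]
    exact (hf.bdd A).mul (hg.bdd A)

theorem IsTw.add (hf : IsTw Γ χ k f) (hg : IsTw Γ χ k g) : IsTw Γ χ k (f + g) where
  slash γ := by
    rw [SlashAction.add_slash, hf.slash, hg.slash, smul_add]
  holo := hf.holo.add hg.holo
  bdd A := by
    rw [SlashAction.add_slash]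
    exact (hf.bdd A).add (hg.bdd A)

theorem IsTw.smul (hf : IsTw Γ χ k f) (c : ℂ) : IsTw Γ χ k (c • f) where
  slash γ := by
    rw [smul_slash, hf.slash, smul_comm]
  holo := hf.holo.const_smul c
  bdd A := by
    rw [smul_slash]
    exact (hf.bdd A).smul c

theorem isTw_zero (Γ : Subgroup SL(2, ℤ)) (χ : Γ →* ℂˣ) (k : ℤ) : IsTw Γ χ k 0 where
  slash γ := by simp
  holo := mdifferentiable_const
  bdd A := by
    rw [SlashAction.zero_slash]
    exact Filter.const_boundedAtFilter _ 0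

theorem IsTw.neg (hf : IsTw Γ χ k f) : IsTw Γ χ k (-f) := by simpa using hf.smul (-1)

theorem IsTw.sub (hf : IsTw Γ χ k f) (hg : IsTw Γ χ k g) : IsTw Γ χ k (f - g) := by
  simpa [sub_eq_add_neg] using hf.add hg.neg

theorem IsTw.sum {ι : Type*} (s : Finset ι) {F : ι → ℍ → ℂ} (hF : ∀ i ∈ s, IsTw Γ χ k (F i)) :
    IsTw Γ χ k (∑ i ∈ s, F i) := by
  classical
  induction s using Finset.induction_on with
  | empty => simpa using isTw_zero Γ χ k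
  | insert a s ha ih =>
    rw [Finset.sum_insert ha]
    exact (hF a (Finset.mem_insert_self a s)).add
      (ih fun i hi => hF i (Finset.mem_insert_of_mem hi))

theorem isTw_one (Γ : Subgroup SL(2, ℤ)) : IsTw Γ 1 0 1 where
  slash γ := by simp [ModularForm.is_invariant_one]
  holo := mdifferentiable_const
  bdd A := by
    rw [ModularForm.is_invariant_one]
    exact Filter.const_boundedAtFilter _ 1

theorem IsTw.pow (hf : IsTw Γ χ k f) (n : ℕ) : IsTw Γ (χ ^ n) ((n : ℤ) * k) (f ^ n) := by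
  induction n with
  | zero =>
    have h1 : (1 : Γ →* ℂˣ) = χ ^ 0 := by ext; simp
    rw [pow_zero]
    exact ((isTw_one Γ).weight_eq (by simp)).char_eq h1
  | succ n ih =>
    have h1 : χ ^ n * χ = χ ^ (n + 1) := by ext; simp [pow_succ]
    rw [pow_succ]
    exact ((ih.mul hf).weight_eq (by push_cast; ring)).char_eq h1

theorem IsM.isTw (hf : IsM Γ k f) : IsTw Γ 1 k f := isTw_one_iff.2 hf

theorem one_mul_one' : (1 : Γ →* ℂˣ) * 1 = 1 := by ext; simp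

theorem one_pow' (n : ℕ) : (1 : Γ →* ℂˣ) ^ n = 1 := by ext; simp

theorem IsM.mul (hf : IsM Γ k f) (hg : IsM Γ l g) : IsM Γ (k + l) (f * g) :=
  isTw_one_iff.1 ((hf.isTw.mul hg.isTw).char_eq one_mul_one')

theorem IsM.pow (hf : IsM Γ k f) (n : ℕ) : IsM Γ ((n : ℤ) * k) (f ^ n) :=
  isTw_one_iff.1 ((hf.isTw.pow n).char_eq (one_pow' n))

theorem IsM.add (hf : IsM Γ k f) (hg : IsM Γ k g) : IsM Γ k (f + g) :=
  isTw_one_iff.1 (hf.isTw.add hg.isTw)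

theorem IsM.smul (hf : IsM Γ k f) (c : ℂ) : IsM Γ k (c • f) :=
  isTw_one_iff.1 (hf.isTw.smul c)

theorem IsM.sub (hf : IsM Γ k f) (hg : IsM Γ k g) : IsM Γ k (f - g) :=
  isTw_one_iff.1 (hf.isTw.sub hg.isTw)

theorem isM_zero (Γ : Subgroup SL(2, ℤ)) (k : ℤ) : IsM Γ k 0 := isTw_one_iff.1 (isTw_zero Γ 1 k)

theorem isM_one (Γ : Subgroup SL(2, ℤ)) : IsM Γ 0 1 := isTw_one_iff.1 (isTw_one Γ)

theorem IsM.sum {ι : Type*} (s : Finset ι) {F : ι → ℍ → ℂ} (hF : ∀ i ∈ s, IsM Γ k (F i)) :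
    IsM Γ k (∑ i ∈ s, F i) :=
  isTw_one_iff.1 (IsTw.sum s fun i hi => (hF i hi).isTw)

theorem IsM.mono {Γ' : Subgroup SL(2, ℤ)} (hf : IsM Γ k f) (hle : Γ' ≤ Γ) : IsM Γ' k f :=
  ⟨fun γ hγ => hf.slash γ (hle hγ), hf.holo, hf.bdd⟩

theorem IsTw.isM_of_pow {n : ℕ} (hf : IsTw Γ χ k f) (hχ : χ ^ n = 1) :
    IsM Γ ((n : ℤ) * k) (f ^ n) := isTw_one_iff.1 ((hf.pow n).char_eq hχ)

theorem IsTw.isM_of_mul (hf : IsTw Γ χ k f) (hg : IsTw Γ ψ l g) (hχ : χ * ψ = 1) :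
    IsM Γ (k + l) (f * g) := isTw_one_iff.1 ((hf.mul hg).char_eq hχ)

/-- holomorphic functions form a domain -/
theorem pow_ne_zero' (h0 : f ≠ 0) (n : ℕ) : f ^ n ≠ 0 := by
  intro h
  apply h0
  funext τ
  have h1 : f τ ^ n = 0 := congrFun h τ
  exact eq_zero_of_pow_eq_zero h1

/-- The character is determined by a nonzero form. -/
theorem IsTw.char_unique (hf : IsTw Γ χ k f) (hf' : IsTw Γ ψ k f) (h0 : f ≠ 0) : χ = ψ := by
  obtain ⟨τ, hτ⟩ : ∃ τ, f τ ≠ 0 := by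
    by_contra hcon
    push Not at hcon
    exact h0 (funext hcon)
  ext γ
  have h1 := (hf.slash γ).symm.trans (hf'.slash γ)
  have h2 := congrFun h1 τ
  simp only [Pi.smul_apply, smul_eq_mul] at h2
  exact mul_right_cancel₀ hτ h2

/-- Quotients: if `A * f = B` with `A, B` twisted forms, then `f` transforms correctly. -/
theorem slash_of_mul_eq {A B : ℍ → ℂ} (hA : IsTw Γ χ k A) (hA0 : A ≠ 0) (hf : MDiff f)
    (hB : IsTw Γ ψ (k + l) B) (h : A * f = B) (γ : Γ) :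
    f ∣[l] (γ : SL(2, ℤ)) = ((χ⁻¹ * ψ) γ : ℂ) • f := by
  have h1 : (A * f) ∣[k + l] (γ : SL(2, ℤ)) = (ψ γ : ℂ) • (A * f) := by rw [h, hB.slash]
  rw [ModularForm.mul_slash_SL2, hA.slash] at h1
  have h2 : A * (f ∣[l] (γ : SL(2, ℤ)) - ((χ⁻¹ * ψ) γ : ℂ) • f) = 0 := by
    funext τ
    have h3 := congrFun h1 τ
    simp only [Pi.mul_apply, Pi.smul_apply, smul_eq_mul] at h3
    simp only [Pi.mul_apply, Pi.sub_apply, Pi.smul_apply, smul_eq_mul, MonoidHom.mul_apply,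
      MonoidHom.inv_apply, Units.val_mul, Units.val_inv_eq_inv_val, Pi.zero_apply]
    have h4 : (χ γ : ℂ) ≠ 0 := (χ γ).ne_zero
    have h5 : (χ γ : ℂ) * (A τ * ((f ∣[l] (γ : SL(2, ℤ))) τ - (χ γ : ℂ)⁻¹ * (ψ γ) * f τ)) = 0 := by
      rw [mul_sub, mul_sub]
      have h6 : (χ γ : ℂ) * (χ γ : ℂ)⁻¹ = 1 := mul_inv_cancel₀ h4
      linear_combination h3 - (A τ * (ψ γ) * f τ) * h6
    exact (mul_eq_zero.1 h5).resolve_left h4
  have h7 : MDiff (f ∣[l] (γ : SL(2, ℤ))) := hf.slash l _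
  rcases (mul_eq_zero_iff hA.holo (h7.sub (hf.const_smul _))).1 h2 with h8 | h8
  · exact absurd h8 hA0
  · exact sub_eq_zero.1 h8

/-- a parabolic character -/
def IsPar (χ : Γ →* ℂˣ) : Prop :=
  ∀ (γ : Γ) (g : SL(2, ℤ)) (m : ℤ), (γ : SL(2, ℤ)) = g * ModularGroup.T ^ m * g⁻¹ → χ γ = 1

theorem IsPar.mul (hχ : IsPar χ) (hψ : IsPar ψ) : IsPar (χ * ψ) := fun γ g m h => by
  rw [MonoidHom.mul_apply, hχ γ g m h, hψ γ g m h, mul_one]

theorem isPar_one : IsPar (1 : Γ →* ℂˣ) := fun _ _ _ _ => rfl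

theorem IsPar.inv (hχ : IsPar χ) : IsPar χ⁻¹ := fun γ g m h => by
  rw [MonoidHom.inv_apply, hχ γ g m h, inv_one]

theorem IsPar.pow (hχ : IsPar χ) (n : ℕ) : IsPar (χ ^ n) := fun γ g m h => by
  rw [MonoidHom.pow_apply, hχ γ g m h, one_pow]

/-- The group of parabolic characters of order dividing `n`. -/
def parChar (Γ : Subgroup SL(2, ℤ)) (n : ℕ) : Subgroup (Γ →* ℂˣ) where
  carrier := {χ | χ ^ n = 1 ∧ IsPar χ}
  one_mem' := ⟨one_pow' n, isPar_one⟩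
  mul_mem' := fun ha hb => ⟨by rw [mul_pow, ha.1, hb.1, one_mul_one'], ha.2.mul hb.2⟩
  inv_mem' := fun {χ} ha => ⟨by
    rw [inv_pow, ha.1]
    ext; simp, ha.2.inv⟩

theorem mem_parChar {n : ℕ} : χ ∈ parChar Γ n ↔ χ ^ n = 1 ∧ IsPar χ := Iff.rfl

/-- periodicity -/
theorem IsTw.periodic (hf : IsTw Γ χ k f) (hT : ModularGroup.T ∈ Γ)
    (hχ : χ ⟨ModularGroup.T, hT⟩ = 1) : Function.Periodic (f ∘ ofComplex) (1 : ℝ) := by
  refine periodic_of_forall fun τ => ?_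
  have h1 := congrFun (hf.slash ⟨ModularGroup.T, hT⟩) τ
  rw [hχ, ModularForm.SL_slash_apply] at h1
  simp only [Units.val_one, one_smul] at h1
  rw [← h1]
  have h2 : denom (ModularGroup.T : GL (Fin 2) ℝ) τ = 1 := by
    simp [denom, ModularGroup.T]
  rw [h2, one_zpow, mul_one]
  congr 1
  ext
  have h3 : ((ModularGroup.T • τ : ℍ) : ℂ) = τ + 1 := by
    rw [UpperHalfPlane.modular_T_smul]
    simp [add_comm]
  change _ = ((ModularGroup.T • τ : ℍ) : ℂ)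
  rw [h3]
  simp [add_comm]

theorem IsPar.T_eq_one (hχ : IsPar χ) (hT : ModularGroup.T ∈ Γ) :
    χ ⟨ModularGroup.T, hT⟩ = 1 := hχ _ 1 1 (by simp)

theorem IsTw.isQ (hf : IsTw Γ χ k f) (hT : ModularGroup.T ∈ Γ) (hχ : IsPar χ) :
    IsQ 1 f (qExpansion 1 f) := by
  have hb := hf.bdd 1
  rw [SlashAction.slash_one] at hb
  exact IsQ.of_periodic one_pos (hf.periodic hT (hχ.T_eq_one hT)) hf.holo hb

theorem IsM.isQ (hf : IsM Γ k f) (hT : ModularGroup.T ∈ Γ) :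
    IsQ 1 f (qExpansion 1 f) := hf.isTw.isQ hT isPar_one

end Fermat.Agent.H22.Tw
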