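import Mathlib
import Fermat.Agent.H58Sep1
import Fermat.Agent.H58Wp2
import Fermat.Agent.H24Ring
import Fermat.Agent.H61Formal
import Fermat.Agent.H23HauptL

/-!
# Functions of weight zero attached to differences of division values, and their expansions
-/

set_option autoImplicit false
set_option linter.unusedSectionVars false

namespace Fermat.Agent.H58

open UpperHalfPlane hiding I
open Complex MatrixGroups ModularForm Fermat.Agent.H24 Fermat.Agent.H61 Fermat.Agent.H28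
  Fermat.Agent.H66 ModularCurve
open scoped Manifold Real

noncomputable section

local notation "𝕢" => Function.Periodic.qParam

/-! ### Expansions from sums -/

theorem hasExpC_of_hasSum {D : ℕ} [NeZero D] {f : ℍ → ℂ} {c : ℕ → ℂ}
    (h : ∀ τ : ℍ, HasSum (fun n : ℕ => c n * 𝕢 (D : ℝ) τ ^ n) (f τ)) :
    HasExpC (fun τ : ℍ => 𝕢 (D : ℝ) τ) f (HahnSeries.ofPowerSeries ℤ ℂ (PowerSeries.mk c)) := by
  have h' : ∀ τ : ℍ, HasSum (fun n : ℕ => PowerSeries.coeff n (PowerSeries.mk c) *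
      𝕢 (D : ℝ) τ ^ n) (f τ) := by
    intro τ; simpa using h τ
  refine ⟨isConv_ofPowerSeries fun r hr0 hr1 => ?_, fun τ _ => evalAt_ofPowerSeries_of_hasSum (h' τ)⟩
  obtain ⟨τ, hτ⟩ := exists_qParam_eq_of_norm D (w := (r : ℂ)) (by exact_mod_cast hr0.ne')
    (by simpa [abs_of_pos hr0] using hr1)
  have h1 := (h' τ).summable.norm
  rw [hτ] at h1
  simpa [norm_mul, abs_of_pos hr0] using h1

theorem isConv_of_hasExp {f : ℍ → ℂ} {a : LaurentSeries ℂ} (h : HasExp 1 f a) : IsConv a := by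
  intro r hr0 hr1
  obtain ⟨τ, hτ⟩ := exists_qParam_eq_of_norm 1 (w := (r : ℂ)) (by exact_mod_cast hr0.ne')
    (by simpa [abs_of_pos hr0] using hr1)
  have h1 : HasSum _ _ := h τ
  have h2 := h1.summable.norm
  rw [Nat.cast_one] at hτ
  rw [hτ] at h2
  simpa [norm_mul, norm_zpow, abs_of_pos hr0] using h2

theorem hasExpC_of_hasExp (D : ℕ) [NeZero D] {f : ℍ → ℂ} {a : LaurentSeries ℂ}
    (h : HasExp 1 f a) : HasExpC (fun τ : ℍ => 𝕢 (D : ℝ) τ) f (qExpand ℂ D a) := by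
  have hc := isConv_of_hasExp h
  refine ⟨isConv_qExpand D hc, fun τ _ => ?_⟩
  rw [evalAt_qExpand D hc (Function.Periodic.qParam_ne_zero _) (qParam_norm_lt_one D τ),
    qParam_pow_self]
  exact (h τ).tsum_eq

theorem HasExpC.mul' {D : ℕ} [NeZero D] {f g : ℍ → ℂ} {F G : LaurentSeries ℂ}
    (hF : HasExpC (fun τ : ℍ => 𝕢 (D : ℝ) τ) f F) (hG : HasExpC (fun τ : ℍ => 𝕢 (D : ℝ) τ) g G) :
    HasExpC (fun τ : ℍ => 𝕢 (D : ℝ) τ) (f * g) (F * G) :=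
  ⟨hF.1.mul hG.1, fun τ h => by
    rw [evalAt_mul hF.1 hG.1 h (qParam_norm_lt_one D τ), hF.2 τ h, hG.2 τ h]; rfl⟩

theorem HasExpC.sub' {D : ℕ} [NeZero D] {f g : ℍ → ℂ} {F G : LaurentSeries ℂ}
    (hF : HasExpC (fun τ : ℍ => 𝕢 (D : ℝ) τ) f F) (hG : HasExpC (fun τ : ℍ => 𝕢 (D : ℝ) τ) g G) :
    HasExpC (fun τ : ℍ => 𝕢 (D : ℝ) τ) (f - g) (F - G) :=
  ⟨isConv_sub hF.1 hG.1, fun τ h => by
    rw [evalAt_sub hF.1 hG.1 h (qParam_norm_lt_one D τ), hF.2 τ h, hG.2 τ h]; rfl⟩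

/-! ### Division values with denominator `D` -/

/-- `x`-coordinate at `(a τ + b) / D`. -/
def X2 (D : ℕ) (a b : ℤ) : ℍ → ℂ := Pv ((a : ℝ) / D) ((b : ℝ) / D)

/-- `exp (2 π i b / D)` -/
def rt (D : ℕ) (b : ℤ) : ℂ := nm ((((b : ℝ) / D : ℝ)) : ℂ)

/-- the expansion of `X2` -/
def XS (D : ℕ) (a b : ℤ) : LaurentSeries ℂ :=
  HahnSeries.ofPowerSeries ℤ ℂ (PowerSeries.mk (cP D (a : ZMod D) (rt D b)))

/-- the point is not the origin -/
def NZ (D : ℕ) (a b : ℤ) : Prop := ¬ ((a : ZMod D) = 0 ∧ (b : ZMod D) = 0)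

section

variable {D : ℕ} [NeZero D]

theorem intCast_div_int_iff {a : ℤ} : (∃ m : ℤ, (a : ℝ) / D = m) ↔ (a : ZMod D) = 0 := by
  have hD : (D : ℝ) ≠ 0 := by exact_mod_cast NeZero.ne D
  rw [ZMod.intCast_zmod_eq_zero_iff_dvd]
  constructor
  · rintro ⟨m, hm⟩
    rw [div_eq_iff hD] at hm
    refine ⟨m, ?_⟩
    have : (a : ℝ) = (((D : ℤ) * m : ℤ) : ℝ) := by push_cast; linarith
    exact_mod_cast this
  · rintro ⟨m, rfl⟩
    refine ⟨m, ?_⟩
    push_cast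
    field_simp

theorem NI_iff {a b : ℤ} : NI ((a : ℝ) / D) ((b : ℝ) / D) ↔ NZ D a b := by
  rw [NI, NZ, intCast_div_int_iff, intCast_div_int_iff]

theorem rt_pow (b : ℤ) : rt D b ^ D = 1 := by
  have hD : (D : ℂ) ≠ 0 := by exact_mod_cast NeZero.ne D
  rw [rt, nm, ← Complex.exp_nat_mul]
  have : (D : ℂ) * (2 * π * Complex.I * (((b : ℝ) / D : ℝ) : ℂ)) = 2 * π * Complex.I * (b : ℂ) := by
    push_cast
    field_simp
  rw [this]
  exact nm_intCast b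

theorem rt_neg (b : ℤ) : rt D (-b) = (rt D b)⁻¹ := by
  rw [rt, rt, ← nm_neg]
  congr 1
  push_cast
  ring

theorem rt_eq_iff {b b' : ℤ} : rt D b = rt D b' ↔ (b : ZMod D) = (b' : ZMod D) := by
  have h1 : rt D b = rt D b' ↔ rt D (b - b') = 1 := by
    have h2 : rt D (b - b') = rt D b * (rt D b')⁻¹ := by
      rw [rt, rt, rt, ← nm_neg, ← nm_add]
      congr 1
      push_cast
      ring
    have h3 : rt D b' ≠ 0 := nm_ne_zero _
    rw [h2, mul_inv_eq_one₀ h3]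
  rw [h1, rt, nm_eq_one_iff, ← sub_eq_zero (a := (b : ZMod D)), ← Int.cast_sub,
    ← intCast_div_int_iff]
  constructor
  · rintro ⟨n, hn⟩; exact ⟨n, by exact_mod_cast hn⟩
  · rintro ⟨n, hn⟩; exact ⟨n, by exact_mod_cast hn⟩

theorem rt_eq_one_iff {b : ℤ} : rt D b = 1 ↔ (b : ZMod D) = 0 := by
  have h : rt D 0 = 1 := by simp [rt, nm_zero]
  rw [← h, rt_eq_iff, Int.cast_zero]

theorem NZ.cond {a b : ℤ} (h : NZ D a b) : ¬ ((a : ZMod D) = 0 ∧ rt D b = 1) := by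
  rw [rt_eq_one_iff]; exact h

theorem hasExpC_X2 {a b : ℤ} (h : NZ D a b) :
    HasExpC (fun τ : ℍ => 𝕢 (D : ℝ) τ) (X2 D a b) (XS D a b) := by
  refine hasExpC_of_hasSum fun τ => ?_
  exact hasSum_Pv (NI_iff.mpr h) τ

theorem X2_mem_Hol {a b : ℤ} (h : NZ D a b) : X2 D a b ∈ Hol := mdifferentiable_Pv (NI_iff.mpr h)

theorem XS_congr {a b a' b' : ℤ} (ha : (a : ZMod D) = a') (hb : (b : ZMod D) = b') :
    XS D a b = XS D a' b' := by
  rw [XS, XS, ha, rt_eq_iff.mpr hb]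

theorem XS_neg (a b : ℤ) : XS D (-a) (-b) = XS D a b := by
  rw [XS, XS, Int.cast_neg, rt_neg]
  congr 2
  ext n
  exact cP_neg _ (nm_ne_zero _) n

theorem X2_congr {a b a' b' : ℤ} (h : NZ D a b) (ha : (a : ZMod D) = a') (hb : (b : ZMod D) = b') :
    X2 D a b = X2 D a' b' := by
  have h' : NZ D a' b' := by rw [NZ, ← ha, ← hb]; exact h
  ext τ
  have h0 : 𝕢 (D : ℝ) τ ≠ 0 := Function.Periodic.qParam_ne_zero _
  rw [← (hasExpC_X2 h).2 τ h0, ← (hasExpC_X2 h').2 τ h0, XS_congr ha hb]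

theorem X2_neg (a b : ℤ) : X2 D (-a) (-b) = X2 D a b := by
  rw [X2, X2, ← Pv_neg]
  congr 1
  · push_cast; ring
  · push_cast; ring

theorem NZ.neg {a b : ℤ} (h : NZ D a b) : NZ D (-a) (-b) := by
  rw [NZ, Int.cast_neg, Int.cast_neg, neg_eq_zero, neg_eq_zero]; exact h

theorem NZ.mul {a b : ℤ} (h : NZ D a b) (γ : SL(2, ℤ)) :
    NZ D (a * γ 0 0 + b * γ 1 0) (a * γ 0 1 + b * γ 1 1) := by
  rw [← NI_iff]
  have := (NI_iff.mpr h).mul γ
  convert! this using 1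
  · push_cast; ring
  · push_cast; ring

end

/-! ### The weight `-2` factor -/

/-- `E₄ E₆ / Δ` -/
def uf : ℍ → ℂ := fun τ => E₄ τ * E₆ τ * (discriminant τ)⁻¹

/-- the expansion of `E₄ E₆ / Δ` -/
def uL (R : Type*) [CommRing R] : LaurentSeries R := E4L R * E6L R * deltaInvL R

theorem hasExp_uf : HasExp 1 uf (uL ℂ) :=
  (hasExp_E₄'.mul hasExp_E₆).mul hasExp_discriminant_inv

theorem uf_mem_Hol : uf ∈ Hol := by
  have h1 : MDiff (fun τ : ℍ => E₄ τ * E₆ τ) := (levelOne_mdiff E₄).mul (levelOne_mdiff E₆)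
  have h2 : MDiff (fun τ : ℍ => E₄ τ * E₆ τ / discriminant τ) :=
    h1.div disc_mdiff discriminant_ne_zero
  exact h2

theorem uf_smul (γ : SL(2, ℤ)) (τ : ℍ) : uf (γ • τ) = (denom γ τ ^ 2)⁻¹ * uf τ := by
  have h2 : denom γ τ ≠ 0 := denom_ne_zero _ _
  have h3 := discriminant_ne_zero τ
  show E₄ (γ • τ) * E₆ (γ • τ) * (discriminant (γ • τ))⁻¹ =
    (denom γ τ ^ 2)⁻¹ * (E₄ τ * E₆ τ * (discriminant τ)⁻¹)
  rw [E₄_smul, E₆_smul, disc_smul]
  field_simp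

theorem hasLead_toL' (K : Type*) [CommRing K] (f : PowerSeries ℤ)
    (hf : f.coeff 0 = 1) : HasLead (toL K f) 0 1 := by
  refine Fermat.Agent.H23.Haupt.hasLead_toL K f ?_
  rwa [← PowerSeries.coeff_zero_eq_constantCoeff_apply]

theorem hasLead_uL (K : Type*) [CommRing K] : HasLead (uL K) (-1) 1 := by
  have h4 : HasLead (E4L K) 0 1 := hasLead_toL' K _ (by simp [eisenstein4])
  have h6 : HasLead (E6L K) 0 1 := hasLead_toL' K _ (by simp [E6f])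
  have h := (h4.mul h6).mul (hasLead_deltaInvL K)
  norm_num at h
  exact h

theorem coeffMap_uL {R S : Type*} [CommRing R] [CommRing S] (φ : R →+* S) :
    coeffMap φ (uL R) = uL S := by
  rw [uL, map_mul, map_mul, E4L, E6L, coeffMap_toL, coeffMap_toL, coeffMap_deltaInvL]
  rfl

theorem uL_coeff_mem (R : Subring ℂ) (n : ℤ) : (uL ℂ).coeff n ∈ R := by
  rw [← coeffMap_uL (Int.castRingHom ℂ), coeffMap_coeff]
  exact intCast_mem R _

/-! ### Weight zero functions -/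

/-- `(x(aτ+b) - x(a'τ+b')) E₄ E₆ / Δ`, all points with denominator `D`. -/
def TH (D : ℕ) (a b a' b' : ℤ) : ℍ → ℂ := (X2 D a b - X2 D a' b') * uf

/-- the expansion of `TH` -/
def TS (D : ℕ) [NeZero D] (a b a' b' : ℤ) : LaurentSeries ℂ :=
  (XS D a b - XS D a' b') * qExpand ℂ D (uL ℂ)

section

variable {D : ℕ} [NeZero D] {a b a' b' : ℤ}

theorem TH_mem_Hol (h : NZ D a b) (h' : NZ D a' b') : TH D a b a' b' ∈ Hol :=
  Hol.mul_mem (Hol.sub_mem (X2_mem_Hol h) (X2_mem_Hol h')) uf_mem_Hol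

theorem hasExpC_TH (h : NZ D a b) (h' : NZ D a' b') :
    HasExpC (fun τ : ℍ => 𝕢 (D : ℝ) τ) (TH D a b a' b') (TS D a b a' b') :=
  HasExpC.mul' (HasExpC.sub' (hasExpC_X2 h) (hasExpC_X2 h')) (hasExpC_of_hasExp D hasExp_uf)

theorem TH_smul (γ : SL(2, ℤ)) (h : NZ D a b) (h' : NZ D a' b') :
    compHom γ (TH D a b a' b') = TH D (a * γ 0 0 + b * γ 1 0) (a * γ 0 1 + b * γ 1 1)
      (a' * γ 0 0 + b' * γ 1 0) (a' * γ 0 1 + b' * γ 1 1) := by
  ext τ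
  have h1 := congrFun (Dv_slash γ (NI_iff.mpr h) (NI_iff.mpr h')) τ
  rw [SL_slash_apply] at h1
  have hd : denom γ τ ≠ 0 := denom_ne_zero _ _
  have h2 : Dv ((a : ℝ) / D) ((b : ℝ) / D) ((a' : ℝ) / D) ((b' : ℝ) / D) (γ • τ) =
      denom γ τ ^ 2 * Dv ((a : ℝ) / D * γ 0 0 + (b : ℝ) / D * γ 1 0)
        ((a : ℝ) / D * γ 0 1 + (b : ℝ) / D * γ 1 1) ((a' : ℝ) / D * γ 0 0 + (b' : ℝ) / D * γ 1 0)
        ((a' : ℝ) / D * γ 0 1 + (b' : ℝ) / D * γ 1 1) τ := by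
    rw [← h1]
    have : denom γ τ ^ (-2 : ℤ) = (denom γ τ ^ 2)⁻¹ := by
      rw [zpow_neg]; norm_cast
    rw [this]
    field_simp
  show (Dv ((a : ℝ) / D) ((b : ℝ) / D) ((a' : ℝ) / D) ((b' : ℝ) / D) (γ • τ)) * uf (γ • τ) = _
  rw [h2, uf_smul]
  show _ = Dv (((a * γ 0 0 + b * γ 1 0 : ℤ) : ℝ) / D) (((a * γ 0 1 + b * γ 1 1 : ℤ) : ℝ) / D)
    (((a' * γ 0 0 + b' * γ 1 0 : ℤ) : ℝ) / D) (((a' * γ 0 1 + b' * γ 1 1 : ℤ) : ℝ) / D) τ * uf τ
  have e : ∀ (x y p q : ℤ), ((x * p + y * q : ℤ) : ℝ) / D = (x : ℝ) / D * p + (y : ℝ) / D * q := by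
    intro x y p q; push_cast; ring
  rw [e, e, e, e]
  field_simp

theorem XS_coeff_mem {R : Subring ℂ} (hR : IsCyc D R) (h : NZ D a b) (n : ℤ) :
    (XS D a b).coeff n ∈ R := by
  rw [XS]
  rcases lt_or_ge n 0 with hn | hn
  · rw [ofPowerSeries_coeff_of_neg _ hn]; exact R.zero_mem
  · obtain ⟨m, rfl⟩ := Int.eq_ofNat_of_zero_le hn
    rw [HahnSeries.ofPowerSeries_apply_coeff, PowerSeries.coeff_mk]
    exact hR.cP_mem (rt_pow b) h.cond m

theorem mul_coeff_mem {R : Subring ℂ} {x y : LaurentSeries ℂ} (hx : ∀ n, x.coeff n ∈ R)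
    (hy : ∀ n, y.coeff n ∈ R) (n : ℤ) : (x * y).coeff n ∈ R := by
  rw [HahnSeries.coeff_mul]
  exact R.sum_mem fun ij _ => R.mul_mem (hx _) (hy _)

theorem qExpand_coeff_mem {R : Subring ℂ} {x : LaurentSeries ℂ} (hx : ∀ n, x.coeff n ∈ R)
    (n : ℤ) : (qExpand ℂ D x).coeff n ∈ R := by
  by_cases h : (D : ℤ) ∣ n
  · obtain ⟨m, rfl⟩ := h
    rw [qExpand_coeff_mul]; exact hx m
  · rw [qExpand_coeff_of_not_dvd D _ h]; exact R.zero_mem

theorem TS_coeff_mem {R : Subring ℂ} (hR : IsCyc D R) (h : NZ D a b) (h' : NZ D a' b') (n : ℤ) :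
    (TS D a b a' b').coeff n ∈ R := by
  refine mul_coeff_mem (fun m => ?_) (qExpand_coeff_mem fun m => uL_coeff_mem R m) n
  rw [HahnSeries.coeff_sub]
  exact R.sub_mem (XS_coeff_mem hR h m) (XS_coeff_mem hR h' m)

/-- The difference of the expansions at two different points has a unit leading coefficient. -/
theorem hasLead_XS_sub {R : Subring ℂ} (hR : IsCyc D R) (h : NZ D a b) (h' : NZ D a' b')
    (hne : ¬ ((a : ZMod D) = a' ∧ (b : ZMod D) = b'))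
    (hne' : ¬ ((a : ZMod D) = -a' ∧ (b : ZMod D) = -b')) :
    ∃ (n : ℤ) (c : ℂ), c ≠ 0 ∧ c⁻¹ ∈ R ∧ HasLead (XS D a b - XS D a' b') n c := by
  obtain ⟨n, h1, h2, h3⟩ := unitLead (a := (a : ZMod D)) (a' := (a' : ZMod D)) hR (rt_pow b)
    (rt_pow b') h.cond h'.cond
    (fun ⟨e1, e2⟩ => hne ⟨e1, rt_eq_iff.mp e2⟩) (fun ⟨e1, e2⟩ => hne' ⟨e1, by
      rw [← rt_neg, rt_eq_iff] at e2
      rw [e2, Int.cast_neg]⟩)
  refine ⟨n, _, sub_ne_zero.mpr h2, h3, ?_, fun m hm => ?_⟩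
  · rw [HahnSeries.coeff_sub, XS, XS, HahnSeries.ofPowerSeries_apply_coeff,
      HahnSeries.ofPowerSeries_apply_coeff, PowerSeries.coeff_mk, PowerSeries.coeff_mk]
  · rw [HahnSeries.coeff_sub, XS, XS]
    rcases lt_or_ge m 0 with hm0 | hm0
    · rw [ofPowerSeries_coeff_of_neg _ hm0, ofPowerSeries_coeff_of_neg _ hm0, sub_zero]
    · obtain ⟨k, rfl⟩ := Int.eq_ofNat_of_zero_le hm0
      rw [HahnSeries.ofPowerSeries_apply_coeff, HahnSeries.ofPowerSeries_apply_coeff,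
        PowerSeries.coeff_mk, PowerSeries.coeff_mk, h1 k (by exact_mod_cast hm), sub_self]

end

end

end Fermat.Agent.H58
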