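import Mathlib
import Fermat.Agent.H24Ring

/-! # Laurent expansions at the cusp from growth (helper78) -/

set_option autoImplicit false

namespace Fermat.Agent.H78.FF

open UpperHalfPlane hiding I
open Complex MatrixGroups ModularGroup Fermat.Agent.H61 ModularCurve Fermat.Agent.H24 Filter Topology
open scoped Manifold Real

noncomputable section

local notation "𝕢" => Function.Periodic.qParam

theorem periodic_of_T {L : ℕ} {f : ℍ → ℂ} (hper : ∀ τ : ℍ, f (T ^ L • τ) = f τ) :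
    Function.Periodic (f ∘ ofComplex) (L : ℝ) := by
  intro z
  simp only [Function.comp_apply]
  by_cases hz : 0 < z.im
  · have hz' : 0 < (z + ((L : ℝ) : ℂ)).im := by simpa using hz
    rw [ofComplex_apply_of_im_pos hz, ofComplex_apply_of_im_pos hz', ← hper ⟨z, hz⟩]
    congr 1
    apply UpperHalfPlane.ext
    have := ModularGroup.coe_T_zpow_smul_eq (z := ⟨z, hz⟩) (n := L)
    rw [zpow_natCast] at this
    rw [this]
    simp
  · have hz' : ¬ 0 < (z + ((L : ℝ) : ℂ)).im := by simpa using hz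
    rw [ofComplex_apply_of_im_nonpos (not_lt.mp hz), ofComplex_apply_of_im_nonpos (not_lt.mp hz')]

theorem mdiff_qParam (L : ℕ) : MDiff (fun τ : ℍ => 𝕢 (L : ℝ) τ) := by
  rw [UpperHalfPlane.mdifferentiable_iff]
  have h1 : DifferentiableOn ℂ (fun z : ℂ => 𝕢 (L : ℝ) z) upperHalfPlaneSet := by
    simp only [Function.Periodic.qParam]
    fun_prop
  refine h1.congr fun z hz => ?_
  simp only [Function.comp_apply]
  rw [ofComplex_apply_of_im_pos hz]

theorem qParam_T_pow' (L : ℕ) [NeZero L] (k : ℕ) (τ : ℍ) :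
    𝕢 (L : ℝ) ((T ^ k • τ : ℍ) : ℂ) = ((zetaU L ^ k : ℂˣ) : ℂ) * 𝕢 (L : ℝ) τ := by
  induction k with
  | zero => simp
  | succ k ih =>
    rw [pow_succ', mul_smul, qParam_T_smul, ih, pow_succ']
    push_cast
    ring

theorem qParam_T_pow (L : ℕ) [NeZero L] (τ : ℍ) :
    𝕢 (L : ℝ) ((T ^ L • τ : ℍ) : ℂ) = 𝕢 (L : ℝ) τ := by
  rw [qParam_T_pow', Units.val_pow_eq_pow_val, (zetaU_isPrimitiveRoot L).pow_eq_one, one_mul]

/-- A periodic holomorphic function with at most a pole at the cusp has a Laurent expansion. -/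
theorem expAlg_of_bdd (L : ℕ) [NeZero L] {f : ℍ → ℂ} (hf : MDiff f)
    (hper : ∀ τ : ℍ, f (T ^ L • τ) = f τ) (N : ℕ)
    (hb : IsBoundedAtImInfty (fun τ : ℍ => 𝕢 (L : ℝ) τ ^ N * f τ)) :
    f ∈ ExpAlg (chart_qParam L) := by
  have hL : (0 : ℝ) < L := by exact_mod_cast Nat.pos_of_ne_zero (NeZero.ne L)
  set g : ℍ → ℂ := fun τ => 𝕢 (L : ℝ) τ ^ N * f τ with hg
  have hgd : MDiff g := ((mdiff_qParam L).pow N).mul hf
  have hgper : Function.Periodic (g ∘ ofComplex) (L : ℝ) := periodic_of_T fun τ => by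
    simp only [hg, hper, qParam_T_pow]
  have hsum := fun {q : ℂ} (hq : ‖q‖ < 1) => UpperHalfPlane.hasSum_qExpansion_of_norm_lt hL hgper hgd hb hq
  have hconv : IsConv (HahnSeries.ofPowerSeries ℤ ℂ (qExpansion (L : ℝ) g)) :=
    isConv_ofPowerSeries_of_hasSum (g := cuspFunction (L : ℝ) g) fun z _ hz => by
      simpa using hsum hz
  have heval : ∀ τ : ℍ, evalAt (𝕢 (L : ℝ) τ)
      (HahnSeries.ofPowerSeries ℤ ℂ (qExpansion (L : ℝ) g)) = g τ := fun τ =>
    evalAt_ofPowerSeries_of_hasSum (by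
      simpa using UpperHalfPlane.hasSum_qExpansion hL hgper hgd hb τ)
  refine ⟨HahnSeries.single (-(N : ℤ)) 1 * HahnSeries.ofPowerSeries ℤ ℂ (qExpansion (L : ℝ) g),
    (isConv_single _ _).mul hconv, fun τ hτ => ?_⟩
  rw [evalAt_mul (isConv_single _ _) hconv hτ ((chart_qParam L).lt τ), evalAt_single, heval]
  simp only [hg, one_mul, zpow_neg, zpow_natCast]
  rw [inv_mul_cancel_left₀ (pow_ne_zero _ hτ)]

/-- Growth of a function with a Laurent expansion at the cusp. -/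
theorem bdd_of_hasExpC (L : ℕ) [NeZero L] {f : ℍ → ℂ} {F : LaurentSeries ℂ}
    (hF : HasExpC (fun τ : ℍ => 𝕢 (L : ℝ) τ) f F) :
    ∃ N : ℕ, IsBoundedAtImInfty (fun τ : ℍ => 𝕢 (L : ℝ) τ ^ N * f τ) := by
  have hL : (0 : ℝ) < L := by exact_mod_cast Nat.pos_of_ne_zero (NeZero.ne L)
  set N : ℕ := (-F.order).toNat with hN
  refine ⟨N, ?_⟩
  have hcoef : ∀ n < -(N : ℤ), F.coeff n = 0 := fun n hn =>
    HahnSeries.coeff_eq_zero_of_lt_order (by omega)
  refine isBoundedAtImInfty_of_hasSum_qExpansion (c := fun k => F.coeff (k - N : ℤ)) hL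
    (fun τ => ?_)
  have h0 : 𝕢 (L : ℝ) τ ≠ 0 := Function.Periodic.qParam_ne_zero _
  have h1 := (hasSum_shift_iff hcoef).mp (hF.1.hasSum h0 ((chart_qParam L).lt τ))
  rw [hF.2 τ h0] at h1
  have h2 := h1.mul_left (𝕢 (L : ℝ) τ ^ N)
  have h3 : (fun k : ℕ => F.coeff (k - N : ℤ) • 𝕢 (L : ℝ) τ ^ k) =
      fun k : ℕ => 𝕢 (L : ℝ) τ ^ N * (F.coeff (-(N : ℤ) + k) * 𝕢 (L : ℝ) τ ^ (-(N : ℤ) + (k : ℤ))) := by
    funext k
    rw [smul_eq_mul, zpow_add₀ h0, zpow_neg, zpow_natCast, zpow_natCast,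
      show -(N : ℤ) + (k : ℤ) = k - N by ring]
    field_simp
  rw [h3]
  exact h2

end

end Fermat.Agent.H78.FF
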