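import Mathlib
import Fermat.Agent.H58Sep2
import Fermat.Agent.H22TwForms
import Fermat.Agent.H78FFExp
import Fermat.Agent.H78FFRing

/-!
# Modular forms of weight `k` and weight-zero functions: dictionary
-/

set_option autoImplicit false
set_option linter.unusedSectionVars false

namespace Fermat.Agent.H58

open UpperHalfPlane hiding I
open Complex MatrixGroups ModularForm Fermat.Agent.H24 Fermat.Agent.H61 Fermat.Agent.H28
  Fermat.Agent.H66 ModularCurve CongruenceSubgroup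
open Fermat.Agent.H22.Tw (IsM)
open scoped Manifold Real

noncomputable section

local notation "𝕢" => Function.Periodic.qParam

/-! ### Level one multipliers -/

/-- `E₄ ^ a E₆ ^ b / Δ ^ s` -/
def U (a b s : ℕ) : ℍ → ℂ := fun τ => E₄ τ ^ a * E₆ τ ^ b * (discriminant τ)⁻¹ ^ s

/-- expansion of `U` -/
def UL (a b s : ℕ) (R : Type*) [CommRing R] : LaurentSeries R :=
  E4L R ^ a * E6L R ^ b * deltaInvL R ^ s

variable {a b s : ℕ}

theorem hasExp_U : HasExp 1 (U a b s) (UL a b s ℂ) :=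
  ((hasExp_E₄'.pow a).mul (hasExp_E₆.pow b)).mul (hasExp_discriminant_inv.pow s)

theorem U_mem_Hol : U a b s ∈ Hol := by
  have h0 : MDiff (fun τ : ℍ => (discriminant τ)⁻¹) := by
    have h := (mdifferentiable_const (I := 𝓘(ℂ)) (c := (1 : ℂ))).div disc_mdiff
      discriminant_ne_zero
    refine (congrArg (fun f : ℍ → ℂ => MDiff f) ?_).mp h
    funext τ
    simp
  have h1 : (fun τ : ℍ => (discriminant τ)⁻¹) ∈ Hol := h0
  have h2 : (E₄ : ℍ → ℂ) ∈ Hol := levelOne_mdiff E₄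
  have h3 : (E₆ : ℍ → ℂ) ∈ Hol := levelOne_mdiff E₆
  exact Hol.mul_mem (Hol.mul_mem (Hol.pow_mem h2 a) (Hol.pow_mem h3 b)) (Hol.pow_mem h1 s)

theorem U_smul (γ : SL(2, ℤ)) (τ : ℍ) :
    U a b s (γ • τ) = denom γ τ ^ (4 * a + 6 * b - 12 * s : ℤ) * U a b s τ := by
  have h2 : denom γ τ ≠ 0 := denom_ne_zero _ _
  have h3 := discriminant_ne_zero τ
  show E₄ (γ • τ) ^ a * E₆ (γ • τ) ^ b * (discriminant (γ • τ))⁻¹ ^ s = _ *
    (E₄ τ ^ a * E₆ τ ^ b * (discriminant τ)⁻¹ ^ s)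
  rw [E₄_smul, E₆_smul, disc_smul, zpow_sub₀ h2, zpow_add₀ h2]
  have e1 : denom γ τ ^ (4 * (a : ℤ)) = (denom γ τ ^ 4) ^ a := by
    rw [← pow_mul, ← zpow_natCast]; push_cast; rfl
  have e2 : denom γ τ ^ (6 * (b : ℤ)) = (denom γ τ ^ 6) ^ b := by
    rw [← pow_mul, ← zpow_natCast]; push_cast; rfl
  have e3 : denom γ τ ^ (12 * (s : ℤ)) = (denom γ τ ^ 12) ^ s := by
    rw [← pow_mul, ← zpow_natCast]; push_cast; rfl
  rw [e1, e2, e3, mul_inv, mul_pow, mul_pow, mul_pow, inv_pow, inv_pow]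
  field_simp

theorem hasLead_UL (R : Type*) [CommRing R] : HasLead (UL a b s R) (-s) 1 := by
  have h4 : HasLead (E4L R) 0 1 := hasLead_toL' R _ (by simp [eisenstein4])
  have h6 : HasLead (E6L R) 0 1 := hasLead_toL' R _ (by simp [E6f])
  have h := ((h4.pow a).mul (h6.pow b)).mul ((hasLead_deltaInvL R).pow s)
  simp only [mul_zero, one_pow, mul_one, zero_add, mul_neg_one, add_zero] at h
  exact h

theorem coeffMap_UL {R S : Type*} [CommRing R] [CommRing S] (φ : R →+* S) :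
    coeffMap φ (UL a b s R) = UL a b s S := by
  rw [UL, map_mul, map_mul, map_pow, map_pow, map_pow, E4L, E6L, coeffMap_toL, coeffMap_toL,
    coeffMap_deltaInvL]
  rfl

theorem UL_coeff_intCast (R : Type*) [CommRing R] (n : ℤ) :
    ∃ m : ℤ, (UL a b s R).coeff n = (m : R) := by
  refine ⟨(UL a b s ℤ).coeff n, ?_⟩
  rw [← coeffMap_UL (Int.castRingHom R), coeffMap_coeff]
  rfl

theorem U_pow (n : ℕ) : U a b s ^ n = U (n * a) (n * b) (n * s) := by
  ext τ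
  simp only [U, Pi.pow_apply]
  rw [mul_pow, mul_pow, ← pow_mul, ← pow_mul, ← pow_mul, mul_comm a, mul_comm b, mul_comm s]

theorem UL_pow (R : Type*) [CommRing R] (n : ℕ) :
    UL a b s R ^ n = UL (n * a) (n * b) (n * s) R := by
  rw [UL, UL, mul_pow, mul_pow, ← pow_mul, ← pow_mul, ← pow_mul, mul_comm a, mul_comm b, mul_comm s]

theorem U_ne_zero : U a b s ≠ 0 := by
  intro h
  have h1 := hasExp_U (a := a) (b := b) (s := s)
  rw [h] at h1
  have h2 := HasExp.unique one_pos h1 HasExp.zero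
  exact (hasLead_UL ℂ).ne_zero one_ne_zero h2

/-- multipliers of every even weight -/
theorem exists_weight {k : ℤ} (hk : Even k) : ∃ a b s : ℕ, (4 * a + 6 * b - 12 * s : ℤ) = -k := by
  obtain ⟨m, rfl⟩ := hk
  have h0 : (6 : ℤ) ≤ 6 * ((m.natAbs + 1 : ℕ) : ℤ) - m := by
    have := m.le_natAbs
    have h5 : (0 : ℤ) ≤ (m.natAbs : ℤ) := Int.natCast_nonneg _
    rw [Nat.cast_add, Nat.cast_one]
    linarith
  have h1 : ∃ N : ℕ, (N : ℤ) = 6 * ((m.natAbs + 1 : ℕ) : ℤ) - m ∧ 2 ≤ N := by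
    refine ⟨(6 * ((m.natAbs + 1 : ℕ) : ℤ) - m : ℤ).toNat, ?_, ?_⟩
    · rw [Int.toNat_of_nonneg (by linarith)]
    · have h6 := Int.toNat_of_nonneg (a := 6 * ((m.natAbs + 1 : ℕ) : ℤ) - m) (by linarith)
      have h7 : (2 : ℤ) ≤ ((6 * ((m.natAbs + 1 : ℕ) : ℤ) - m : ℤ).toNat : ℤ) := by
        rw [h6]; linarith
      exact Int.ofNat_le.mp h7
  obtain ⟨N, hN, hN2⟩ := h1
  rcases Nat.even_or_odd' N with ⟨t, ht | ht⟩
  · refine ⟨t, 0, m.natAbs + 1, ?_⟩
    have h7 : (N : ℤ) = 2 * t := by exact_mod_cast ht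
    rw [Nat.cast_zero]
    linarith
  · refine ⟨t - 1, 1, m.natAbs + 1, ?_⟩
    have h3 : 1 ≤ t := by omega
    have h7 : (N : ℤ) = 2 * t + 1 := by exact_mod_cast ht
    rw [Nat.cast_sub h3, Nat.cast_one]
    linarith

/-! ### Weight zero functions -/

/-- transformation of `f U` -/
theorem compHom_mul_U {k : ℤ} (hk : (4 * a + 6 * b - 12 * s : ℤ) = -k) (f : ℍ → ℂ)
    (γ : SL(2, ℤ)) : compHom γ (f * U a b s) = (f ∣[k] γ) * U a b s := by
  ext τ
  have h2 : denom γ τ ≠ 0 := denom_ne_zero _ _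
  show f (γ • τ) * U a b s (γ • τ) = (f ∣[k] γ) τ * U a b s τ
  rw [U_smul, hk, SL_slash_apply]
  ring

/-! ### Expansions -/

theorem hasExp_of_bdd {f : ℍ → ℂ} (hf : MDiff f) (hper : ∀ τ : ℍ, f (ModularGroup.T • τ) = f τ)
    (hb : IsBoundedAtImInfty f) :
    HasExp 1 f (HahnSeries.ofPowerSeries ℤ ℂ (qExpansion 1 f)) := by
  intro τ
  have hp : Function.Periodic (f ∘ ofComplex) (1 : ℝ) := by
    have := Fermat.Agent.H78.FF.periodic_of_T (L := 1) (f := f) (by simpa using hper)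
    simpa using this
  have h := UpperHalfPlane.hasSum_qExpansion one_pos hp hf hb τ
  rw [LSum.ofPowerSeries]
  simpa [smul_eq_mul] using h

theorem ExpAlg_of_bdd (D : ℕ) [NeZero D] {f : ℍ → ℂ} (hf : MDiff f)
    (hper : ∀ τ : ℍ, f (ModularGroup.T ^ D • τ) = f τ)
    (hb : IsBoundedAtImInfty f) : f ∈ ExpAlg (chart_qParam D) :=
  Fermat.Agent.H78.FF.expAlg_of_bdd D hf hper 0 (by simpa using hb)

theorem slash_T_pow_apply (k : ℤ) (f : ℍ → ℂ) (n : ℕ) (τ : ℍ) :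
    (f ∣[k] (ModularGroup.T ^ n)) τ = f (ModularGroup.T ^ n • τ) := by
  generalize hg : ModularGroup.T ^ n = g
  rw [SL_slash_apply]
  have h : denom g τ = 1 := by
    rw [ModularGroup.denom_apply, ← hg]
    have h1 := ModularGroup.coe_T_zpow (n : ℤ)
    rw [zpow_natCast] at h1
    rw [h1]
    simp
  rw [h, one_zpow, mul_one]

/-- The data needed to produce a weight-zero function from a modular form of weight `k`. -/
theorem compHom_mem_ExpAlg {Γ : Subgroup SL(2, ℤ)} {k : ℤ} {f : ℍ → ℂ} (hf : IsM Γ k f)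
    (hk : (4 * a + 6 * b - 12 * s : ℤ) = -k) {D : ℕ} [NeZero D]
    (hD : ∀ γ : SL(2, ℤ), γ * ModularGroup.T ^ D * γ⁻¹ ∈ Γ) (γ : SL(2, ℤ)) :
    compHom γ (f * U a b s) ∈ ExpAlg (chart_qParam D) := by
  rw [compHom_mul_U hk]
  refine Subalgebra.mul_mem _ ?_ ⟨_, hasExpC_of_hasExp D hasExp_U⟩
  refine ExpAlg_of_bdd D (hf.holo.slash k γ) (fun τ => ?_) (hf.bdd γ)
  rw [← slash_T_pow_apply k (f ∣[k] γ) D τ, ← SlashAction.slash_mul]
  have h1 : γ * ModularGroup.T ^ D = (γ * ModularGroup.T ^ D * γ⁻¹) * γ := by group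
  rw [h1, SlashAction.slash_mul, hf.slash _ (hD γ)]

theorem IsM.T_per {Γ : Subgroup SL(2, ℤ)} {k : ℤ} {f : ℍ → ℂ} (hf : IsM Γ k f)
    (hT : ModularGroup.T ∈ Γ) (τ : ℍ) : f (ModularGroup.T • τ) = f τ := by
  have h := slash_T_pow_apply k f 1 τ
  rw [pow_one, hf.slash _ hT] at h
  exact h.symm

theorem IsM.hasExp {Γ : Subgroup SL(2, ℤ)} {k : ℤ} {f : ℍ → ℂ} (hf : IsM Γ k f)
    (hT : ModularGroup.T ∈ Γ) : HasExp 1 f (HahnSeries.ofPowerSeries ℤ ℂ (qExpansion 1 f)) := by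
  refine hasExp_of_bdd hf.holo (IsM.T_per hf hT) ?_
  have := hf.bdd 1
  rwa [SlashAction.slash_one] at this

/-- **Dictionary**: the weight-zero function attached to a modular form with coefficients in `K`. -/
theorem good_form {Γ : Subgroup SL(2, ℤ)} {k : ℤ} {f : ℍ → ℂ} (hf : IsM Γ k f)
    (hT : ModularGroup.T ∈ Γ) (hk : (4 * a + 6 * b - 12 * s : ℤ) = -k) {D : ℕ} [NeZero D]
    (hD : ∀ γ : SL(2, ℤ), γ * ModularGroup.T ^ D * γ⁻¹ ∈ Γ)
    (K : Type*) [Field K] [Algebra K ℂ] (c : ℕ → K)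
    (hc : ∀ i, (qExpansion 1 f).coeff i = algebraMap K ℂ (c i)) :
    Fermat.Agent.H78.FF.Good K Γ D
        (HahnSeries.ofPowerSeries ℤ K (PowerSeries.mk c) * UL a b s K) ∧
      ev K (HahnSeries.ofPowerSeries ℤ K (PowerSeries.mk c) * UL a b s K) = f * U a b s := by
  have hP : (PowerSeries.mk c).map (algebraMap K ℂ) = qExpansion 1 f := by
    ext i
    rw [PowerSeries.coeff_map, PowerSeries.coeff_mk, hc]
  have hincl : incl K (HahnSeries.ofPowerSeries ℤ K (PowerSeries.mk c) * UL a b s K) =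
      HahnSeries.ofPowerSeries ℤ ℂ (qExpansion 1 f) * UL a b s ℂ := by
    rw [map_mul]
    congr 1
    · rw [incl, coeffMap_ofPowerSeries, hP]
    · exact coeffMap_UL _
  have hexp : HasExp 1 (f * U a b s)
      (HahnSeries.ofPowerSeries ℤ ℂ (qExpansion 1 f) * UL a b s ℂ) :=
    (IsM.hasExp hf hT).mul hasExp_U
  have hev : ev K (HahnSeries.ofPowerSeries ℤ K (PowerSeries.mk c) * UL a b s K) =
      f * U a b s := by
    ext τ
    rw [ev, hincl]
    exact (hexp τ).tsum_eq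
  refine ⟨⟨?_, ?_, fun γ => ?_, fun γ hγ => ?_⟩, hev⟩
  · rw [hincl]; exact isConv_of_hasExp hexp
  · rw [hev]; exact Hol.mul_mem hf.holo U_mem_Hol
  · rw [hev]; exact compHom_mem_ExpAlg hf hk hD γ
  · rw [hev, compHom_mul_U hk, hf.slash γ hγ]

/-- expansion of a translate which is again periodic -/
theorem hasExpC_translate {Γ : Subgroup SL(2, ℤ)} {k : ℤ} {f : ℍ → ℂ} (hf : IsM Γ k f)
    (hk : (4 * a + 6 * b - 12 * s : ℤ) = -k) (D : ℕ) [NeZero D] {δ : SL(2, ℤ)}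
    (hδ : δ * ModularGroup.T * δ⁻¹ ∈ Γ) :
    HasExpC (fun τ : ℍ => 𝕢 (D : ℝ) τ) (compHom δ (f * U a b s))
      (qExpand ℂ D (HahnSeries.ofPowerSeries ℤ ℂ (qExpansion 1 (f ∣[k] δ)) * UL a b s ℂ)) := by
  rw [compHom_mul_U hk]
  refine hasExpC_of_hasExp D (HasExp.mul ?_ hasExp_U)
  refine hasExp_of_bdd (hf.holo.slash k δ) (fun τ => ?_) (hf.bdd δ)
  have h := slash_T_pow_apply k (f ∣[k] δ) 1 τ
  rw [pow_one, ← SlashAction.slash_mul] at h
  have h1 : δ * ModularGroup.T = (δ * ModularGroup.T * δ⁻¹) * δ := by group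
  rw [h1, SlashAction.slash_mul, hf.slash _ hδ] at h
  exact h.symm

end

end Fermat.Agent.H58
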