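import Mathlib
import Fermat.Agent.H78FFField
import Fermat.Agent.H22TwInt

/-! # The core statements of Kummer injectivity and of the `q`-expansion principle in terms of
weight-zero functions (helper78)

`CoreKI`, `CoreQE` are statements about `GoodAlg ℚ̄ (±Γ₁(M) ∩ Γ₀(r)) (M r)`, `r = 2, 3`, `r ≠ p`. -/

set_option autoImplicit false

namespace Fermat.Agent.H78.KI

open UpperHalfPlane hiding I
open Complex MatrixGroups ModularGroup CongruenceSubgroup Fermat.Agent.H61 ModularCurve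
open Fermat.Agent.H24 Fermat.Agent.H78.FF

noncomputable section

local notation "𝕢" => Function.Periodic.qParam

local notation "Qb" => AlgebraicClosure ℚ

/-- `±Γ₁(M) ∩ Γ₀(r)` -/
def GG (M r : ℕ) : Subgroup SL(2, ℤ) := Fermat.Agent.H22.Tw.pmG M ⊓ Gamma0 r

/-- **Core of (KI′)**: `u₁ = h₁ ^ n`, `u₂ = h₂ ^ n` with `h₁`, `h₂` holomorphic on `ℍ`, with equal
non-zero reductions, differ by the `n`-th power of a modular function. -/
def CoreKI (M r n : ℕ) [NeZero (M * r)] : Prop :=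
  ∀ p : ℕ, p.Prime → ¬ p ∣ M → p ≠ r → ¬ p ∣ n → ∀ A : ValuationSubring Qb, A.LiesOverPrime p →
    ∀ [Algebra Qb ℂ] (L : IntermediateField ℚ Qb), FiniteDimensional ℚ L →
      ∀ u₁ ∈ GoodAlg Qb (GG M r) (M * r), ∀ u₂ ∈ GoodAlg Qb (GG M r) (M * r),
        (∀ i, u₁.coeff i ∈ L) → (∀ i, u₂.coeff i ∈ L) →
        (∀ i, u₁.coeff i ∈ A) → (∀ i, u₂.coeff i ∈ A) →
        (∀ i, u₁.coeff i - u₂.coeff i ∈ A.nonunits) → (∃ i, u₁.coeff i ∉ A.nonunits) →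
        (n : ℤ) ∣ u₁.order → (n : ℤ) ∣ u₂.order →
        ∀ h₁ ∈ Hol, ∀ h₂ ∈ Hol, (∀ τ, h₁ τ ^ n = ev Qb u₁ τ) → (∀ τ, h₂ τ ^ n = ev Qb u₂ τ) →
          ∃ a ∈ GoodAlg Qb (GG M r) (M * r), ∃ b ∈ GoodAlg Qb (GG M r) (M * r),
            b ≠ 0 ∧ u₁ * b ^ n = a ^ n * u₂

/-- **Core of (QE)**: if `x` has `q`-expansion coefficients in `A` and the expansion of `x ∘ δ`,
`δ ∈ Γ₀(r)`, is `c` times a series with coefficients in `A`, not all in the maximal ideal, then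
`c ∈ A`. -/
def CoreQE (M r : ℕ) [NeZero (M * r)] : Prop :=
  ∀ p : ℕ, p.Prime → ¬ p ∣ M → p ≠ r → ∀ A : ValuationSubring Qb, A.LiesOverPrime p →
    ∀ [Algebra Qb ℂ] (L : IntermediateField ℚ Qb), FiniteDimensional ℚ L →
      ∀ x ∈ GoodAlg Qb (GG M r) (M * r), (∀ i, x.coeff i ∈ L) → (∀ i, x.coeff i ∈ A) →
        ∀ δ ∈ Gamma0 r, ∀ (X : LaurentSeries Qb) (c : Qb), (∀ i, X.coeff i ∈ A) →
          (∃ i, X.coeff i ∉ A.nonunits) →
          HasExpC (fun τ : ℍ => 𝕢 ((M * r : ℕ) : ℝ) τ) (compHom δ (ev Qb x))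
            (coeffMap (algebraMap Qb ℂ) (HahnSeries.C c * X)) → c ∈ A

end

end Fermat.Agent.H78.KI
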