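import Mathlib
import Fermat.Agent.H58Dict
import Fermat.Agent.H58Num
import Fermat.Agent.H78KICore
import Fermat.Agent.H50Inputs
import Fermat.Agent.H22TwPm
import Fermat.Agent.H22TwCanon

/-!
# `QEIn M` from `CoreQE M 2` and `CoreQE M 3`
-/

set_option autoImplicit false

noncomputable section

namespace Fermat.Agent.H50

open UpperHalfPlane hiding I
open Complex MatrixGroups CongruenceSubgroup ModularForm ModularFormClass ModularCurve
open Fermat.Agent.H24 Fermat.Agent.H22.Tw Fermat.Agent.H58 Fermat.Agent.H78.KI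
open scoped Manifold

local notation "𝕢" => Function.Periodic.qParam

section Alg

variable {N : ℕ} [NeZero N]

variable (N) in
/-- `f ↦ f ∣ δ` as a linear map. -/
def slashML (k : ℤ) (δ : Gamma0 N) : ModularForm (Gamma1 N) k →ₗ[ℂ] ModularForm (Gamma1 N) k where
  toFun f := slashM N f δ
  map_add' f g := by
    ext τ
    exact congrFun (SlashAction.add_slash k (δ : SL(2, ℤ)) (f : ℍ → ℂ) g) τ
  map_smul' c f := by
    ext τ
    exact congrFun (ModularForm.SL_smul_slash k (δ : SL(2, ℤ)) (f : ℍ → ℂ) c) τ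

/-- Diamond translates of a form with coefficients in `K` have coefficients in `K`. -/
theorem slashM_algebraic {K : Type*} [Field K] (ι : K →+* ℂ) {k : ℤ}
    (f : ModularForm (Gamma1 N) k)
    (hf : ∀ n, ∃ a, (qExpansion 1 f).coeff n = ι a) (δ : Gamma0 N) (n : ℕ) :
    ∃ a, (qExpansion 1 (slashM N f δ)).coeff n = ι a := by
  classical
  let _ := ι.toAlgebra
  have hT := one_mem_strictPeriods_Gamma1 (N := N)
  have hfd := finiteDimensional_mod (Gamma1 N) k hT
  have hs := integral_span_mod hT (hasPrim_Gamma1 N) k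
  obtain ⟨J, hJ, b, hb⟩ : ∃ (J : Type) (_ : Fintype J)
      (b : Module.Basis J ℂ (ModularForm (Gamma1 N) k)),
      ∀ i, ∀ n, ∃ z : ℤ, (qExpansion 1 (b i)).coeff n = z := by
    let b := Module.Basis.ofSpan hs.ge
    exact ⟨_, FiniteDimensional.fintypeBasisIndex b, b, fun i =>
      Module.Basis.ofSpan_subset hs.ge ⟨i, rfl⟩⟩
  choose z hz using hb
  choose a ha using hf
  obtain ⟨g, hg⟩ := LinearMap.exists_leftInverse_of_injective (Algebra.linearMap K ℂ)
    (LinearMap.ker_eq_bot.mpr ι.injective)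
  have hg' : ∀ x : K, g (ι x) = x := fun x => DFunLike.congr_fun hg x
  have hgz : ∀ (x : ℂ) (q : ℚ), g (x * (q : ℂ)) = g x * (q : K) := by
    intro x q
    have h1 : x * (q : ℂ) = (q : K) • x := by
      rw [Algebra.smul_def, mul_comm]
      congr 1
      exact (map_ratCast ι q).symm
    rw [h1, map_smul, smul_eq_mul, mul_comm]
  have hsum : ∀ m, (∑ i, b.repr f i * ((z i m : ℤ) : ℂ)) = ι (a m) := by
    intro m
    rw [← ha m]
    conv_rhs => rw [← b.sum_repr f]
    rw [← coeffM_apply (hT := hT), map_sum]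
    refine Finset.sum_congr rfl fun i _ => ?_
    rw [map_smul, coeffM_apply, hz, smul_eq_mul]
  -- the coordinates lie in `K`
  have hco : ∀ i, b.repr f i = ι (g (b.repr f i)) := by
    have h1 : f = ∑ i, ι (g (b.repr f i)) • b i := by
      rw [← sub_eq_zero]
      refine mod_eq_zero_of_coeff (Gamma1 N) k hT _ fun m _ => ?_
      rw [← coeffM_apply (hT := hT), map_sub, sub_eq_zero, coeffM_apply, ha, map_sum, ← hsum m]
      have h2 : ∀ i, coeffM (Gamma1 N) k hT m (ι (g (b.repr f i)) • b i) =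
          ι (g (b.repr f i * ((z i m : ℤ) : ℂ))) := by
        intro i
        rw [map_smul, coeffM_apply, hz, smul_eq_mul]
        have h3 := hgz (b.repr f i) (z i m : ℤ)
        rw [Rat.cast_intCast] at h3
        rw [h3, map_mul]
        simp
      rw [Finset.sum_congr rfl fun i _ => h2 i, ← map_sum, ← map_sum, hsum m, hg']
    intro i
    conv_lhs => rw [h1]
    rw [b.repr_sum_self]
  have hrat : ∀ i, ∃ q : ℚ, (qExpansion 1 (slashM N (b i) δ)).coeff n = (q : ℂ) := fun i =>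
    slashM_rational (b i) (fun m => ⟨z i m, by rw [hz]; simp⟩) δ n
  choose q hq using hrat
  refine ⟨∑ i, g (b.repr f i) * (q i : K), ?_⟩
  have hcoe : (slashM N f δ) = ∑ i, b.repr f i • slashM N (b i) δ := by
    have h1 := congrArg (slashML N k δ) (b.sum_repr f)
    rw [map_sum] at h1
    rw [show slashM N f δ = slashML N k δ f from rfl, ← h1]
    refine Finset.sum_congr rfl fun i _ => ?_
    rw [map_smul]
    rfl
  rw [hcoe, ← coeffM_apply (hT := hT), map_sum, map_sum]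
  refine Finset.sum_congr rfl fun i _ => ?_
  rw [map_smul, coeffM_apply, hq, smul_eq_mul, map_mul, ← hco i]
  simp

end Alg

section Lau

/-- coefficients of products -/
theorem mul_coeff_mem' {K : Type*} [CommRing K] (R : Subring K) {x y : LaurentSeries K}
    (hx : ∀ n, x.coeff n ∈ R) (hy : ∀ n, y.coeff n ∈ R) (n : ℤ) : (x * y).coeff n ∈ R := by
  rw [HahnSeries.coeff_mul]
  exact R.sum_mem fun ij _ => R.mul_mem (hx _) (hy _)

theorem ofPowerSeries_mk_coeff_mem {K : Type*} [CommRing K] (R : Subring K) {a : ℕ → K}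
    (ha : ∀ n, a n ∈ R) (n : ℤ) :
    (HahnSeries.ofPowerSeries ℤ K (PowerSeries.mk a)).coeff n ∈ R := by
  rcases lt_or_ge n 0 with hn | hn
  · rw [ofPowerSeries_coeff_neg _ hn]
    exact R.zero_mem
  · obtain ⟨m, rfl⟩ := Int.eq_ofNat_of_zero_le hn
    rw [HahnSeries.ofPowerSeries_apply_coeff, PowerSeries.coeff_mk]
    exact ha m

theorem UL_coeff_mem {K : Type*} [CommRing K] (R : Subring K) {a b s : ℕ} (n : ℤ) :
    (UL a b s K).coeff n ∈ R := by
  obtain ⟨m, hm⟩ := UL_coeff_intCast (a := a) (b := b) (s := s) K n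
  rw [hm]
  exact intCast_mem R m

/-- A product of a series with a unit coefficient with one with leading coefficient `1` has a
unit coefficient. -/
theorem exists_unit_coeff {K : Type*} [Field K] (A : ValuationSubring K) {y u : LaurentSeries K}
    (hy1 : ∃ n, y.coeff n ∉ A.nonunits) (hu : ∀ n, u.coeff n ∈ A)
    {m : ℤ} (hm : H66.HasLead u m 1) : ∃ n, (y * u).coeff n ∉ A.nonunits := by
  classical
  have hlow : ∀ n < y.order, y.coeff n = 0 := fun n hn => HahnSeries.coeff_eq_zero_of_lt_order hn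
  obtain ⟨n1, hn1⟩ := hy1
  have hge : ∀ n, y.coeff n ∉ A.nonunits → y.order ≤ n := by
    intro n hn
    by_contra h
    exact hn (by rw [hlow n (not_le.mp h)]; exact zero_mem _)
  obtain ⟨n0, hn0, hmin⟩ : ∃ n0, y.coeff n0 ∉ A.nonunits ∧ ∀ n < n0, y.coeff n ∈ A.nonunits := by
    obtain ⟨n0, hn0, hmin⟩ := Int.exists_least_of_bdd (P := fun n => y.coeff n ∉ A.nonunits)
      ⟨y.order, fun n hn => hge n hn⟩ ⟨n1, hn1⟩
    refine ⟨n0, hn0, fun n hn => ?_⟩
    by_contra h
    exact absurd (hmin n h) (not_le.mpr hn)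
  refine ⟨n0 + m, fun hcon => hn0 ?_⟩
  have hy0 : y.coeff n0 ≠ 0 := fun h => hn0 (by rw [h]; exact zero_mem _)
  have hu0 : u.coeff m ≠ 0 := by rw [hm.1]; exact one_ne_zero
  have hmem : (n0, m) ∈ Finset.antidiagonal y.isPWO_support u.isPWO_support (n0 + m) := by
    rw [Finset.mem_antidiagonal]
    exact ⟨hy0, hu0, rfl⟩
  rw [HahnSeries.coeff_mul, ← Finset.add_sum_erase _ _ hmem] at hcon
  have hrest : ∑ ij ∈ (Finset.antidiagonal y.isPWO_support u.isPWO_support (n0 + m)).erase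
      (n0, m), y.coeff ij.1 * u.coeff ij.2 ∈ A.nonunits := by
    refine sum_mem fun ij hij => ?_
    rw [Finset.mem_erase, Finset.mem_antidiagonal] at hij
    obtain ⟨hne, h1, h2, h3⟩ := hij
    have h4 : m ≤ ij.2 := by
      by_contra h
      exact h2 (hm.2 _ (not_le.mp h))
    have h5 : ij.1 < n0 := by
      rcases lt_or_eq_of_le h4 with h | h
      · omega
      · exfalso
        apply hne
        ext
        · show ij.1 = n0
          omega
        · exact h.symm
    have h6 := hmin _ h5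
    rw [ValuationSubring.mem_nonunits_iff] at h6 ⊢
    rw [map_mul]
    have h7 := (A.valuation_le_one_iff _).mpr (hu ij.2)
    exact mul_lt_one_of_lt_of_le h6 h7
  have h8 := sub_mem hcon hrest
  rw [add_sub_cancel_right, hm.1, mul_one] at h8
  exact h8

end Lau

section Main

theorem Gamma0_le_of_dvd {M N : ℕ} (h : M ∣ N) : Gamma0 N ≤ Gamma0 M := by
  intro γ hγ
  rw [Gamma0_mem] at hγ ⊢
  rw [ZMod.intCast_zmod_eq_zero_iff_dvd] at hγ ⊢
  exact (Int.natCast_dvd_natCast.mpr h).trans hγ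

theorem exists_delta {M r : ℕ} [NeZero (M * r)] {δ : SL(2, ℤ)} (hδ : δ ∈ Gamma0 M) :
    ∃ δ' ∈ Gamma0 M, δ' ∈ Gamma0 r ∧ ((δ' 1 1 : ℤ) : ZMod M) = ((δ 1 1 : ℤ) : ZMod M) := by
  have hu : IsUnit ((δ 1 1 : ℤ) : ZMod M) := IsUnit.of_mul_eq_one _ (Gamma0_inv_11 hδ)
  obtain ⟨v, hv⟩ := ZMod.unitsMap_surjective (Dvd.intro r rfl : M ∣ M * r) hu.unit
  have hd : IsCoprime (((v : ZMod (M * r)).val : ℕ) : ℤ) ((M * r : ℕ) : ℤ) :=
    Nat.isCoprime_iff_coprime.mpr (ZMod.val_coe_unit_coprime v)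
  obtain ⟨σ, hσ, hσ'⟩ := exists_sigma (M * r) hd
  refine ⟨σ, Gamma0_le_of_dvd (Dvd.intro r rfl) hσ, Gamma0_le_of_dvd (Dvd.intro_left M rfl) hσ, ?_⟩
  rw [hσ']
  have h1 := congrArg Units.val hv
  rw [ZMod.unitsMap_val] at h1
  rw [Int.cast_natCast, ZMod.natCast_val, h1]
  rfl

theorem T_pow_conj_mem {M r : ℕ} (γ : SL(2, ℤ)) :
    γ * ModularGroup.T ^ (M * r) * γ⁻¹ ∈ GG M r := by
  have h1 : ModularGroup.T ^ (M * r) ∈ CongruenceSubgroup.Gamma (M * r) := by
    have := ModularGroup_T_pow_mem_Gamma ((M * r : ℕ) : ℤ) ((M * r : ℕ) : ℤ) dvd_rfl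
    rwa [Int.natAbs_natCast, zpow_natCast] at this
  have h2 := (CongruenceSubgroup.Gamma_normal (M * r)).conj_mem _ h1 γ
  generalize γ * ModularGroup.T ^ (M * r) * γ⁻¹ = ε at h2
  rw [Gamma_mem] at h2
  obtain ⟨h00, h01, h10, h11⟩ := h2
  have hcast : ∀ (m : ℕ) (_ : m ∣ M * r) (x : ℤ) (y : ℤ), (x : ZMod (M * r)) = (y : ZMod (M * r)) →
      (x : ZMod m) = y := by
    intro m hm x y h
    have := congrArg (ZMod.castHom hm (ZMod m)) h
    rwa [map_intCast, map_intCast] at this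
  refine ⟨mem_pmG.mpr (Or.inl ?_), ?_⟩
  · rw [Gamma1_mem]
    have hm : M ∣ M * r := Dvd.intro r rfl
    refine ⟨?_, ?_, ?_⟩
    · simpa using hcast M hm (ε 0 0) 1 (by simpa using h00)
    · simpa using hcast M hm (ε 1 1) 1 (by simpa using h11)
    · simpa using hcast M hm (ε 1 0) 0 (by simpa using h10)
  · show ε ∈ Gamma0 r
    rw [Gamma0_mem]
    simpa using hcast r (Dvd.intro_left M rfl) (ε 1 0) 0 (by simpa using h10)

theorem exists_numberField_coeff {Γ : Subgroup SL(2, ℤ)} [Γ.FiniteIndex]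
    (hT : (1 : ℝ) ∈ (Γ : Subgroup (GL (Fin 2) ℝ)).strictPeriods) (hp : HasPrim Γ)
    (ι : AlgebraicClosure ℚ →+* ℂ) {k : ℤ} (f : ModularForm Γ k)
    (b : ℕ → AlgebraicClosure ℚ) (hb : ∀ n, (qExpansion 1 f).coeff n = ι (b n)) :
    ∃ L : IntermediateField ℚ (AlgebraicClosure ℚ), FiniteDimensional ℚ L ∧ ∀ n, b n ∈ L := by
  classical
  have hfg := fg_span_coeffM hT hp f
  have hfg' : (Submodule.span ℤ (Set.range b)).FG := by
    let L : AlgebraicClosure ℚ →ₗ[ℤ] ℂ := ι.toAddMonoidHom.toIntLinearMap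
    have hL : Function.Injective L := ι.injective
    refine Submodule.fg_of_fg_map_injective L hL ?_
    rw [Submodule.map_span]
    convert! hfg using 2
    ext y
    constructor
    · rintro ⟨_, ⟨n, rfl⟩, rfl⟩
      exact ⟨n, hb n⟩
    · rintro ⟨n, rfl⟩
      exact ⟨b n, ⟨n, rfl⟩, (hb n).symm⟩
  obtain ⟨s, hs⟩ := hfg'
  have hal : Algebra.IsAlgebraic ℚ (AlgebraicClosure ℚ) := AlgebraicClosure.isAlgebraic ℚ
  obtain ⟨L, hL, -, hsL, -⟩ := exists_finite_ext (⊥ : IntermediateField ℚ (AlgebraicClosure ℚ)) s 1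
    one_ne_zero
  refine ⟨L, hL, fun n => ?_⟩
  have h1 : b n ∈ Submodule.span ℤ (s : Set (AlgebraicClosure ℚ)) := by
    rw [hs]; exact Submodule.subset_span ⟨n, rfl⟩
  refine Submodule.span_induction (p := fun y _ => y ∈ L) (fun y hy => hsL y hy) (zero_mem _)
    (fun y z _ _ hy hz => add_mem hy hz) (fun a y _ hy => ?_) h1
  rw [zsmul_eq_mul]
  exact mul_mem (intCast_mem L a) hy

theorem T_mem_GG {M r : ℕ} : ModularGroup.T ∈ GG M r := by
  refine ⟨mem_pmG.mpr (Or.inl ?_), ?_⟩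
  · rw [Gamma1_mem]; simp [ModularGroup.T]
  · show ModularGroup.T ∈ Gamma0 r
    rw [Gamma0_mem]; simp [ModularGroup.T]

theorem T_conj_mem_GG {M r : ℕ} {δ : SL(2, ℤ)} (hM : δ ∈ Gamma0 M) (hr : δ ∈ Gamma0 r) :
    δ * ModularGroup.T * δ⁻¹ ∈ GG M r := by
  have hT : ModularGroup.T ∈ GG M r := T_mem_GG
  have hT1 : ModularGroup.T ∈ Gamma1 M := by rw [Gamma1_mem]; simp [ModularGroup.T]
  refine ⟨mem_pmG.mpr (Or.inl ?_), ?_⟩
  · have hT0 : ModularGroup.T ∈ Gamma0 M := Gamma1_in_Gamma0 M hT1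
    apply mem_Gamma1_of_Gamma0 (mul_mem (mul_mem hM hT0) (inv_mem hM))
    rw [mul_assoc, Gamma0_mul_11 hM, Gamma0_mul_11 hT0, ((Gamma1_mem M _).1 hT1).2.1, one_mul,
      Gamma0_inv_11 hM]
  · exact (Gamma0 r).mul_mem ((Gamma0 r).mul_mem hr hT.2) ((Gamma0 r).inv_mem hr)

theorem QEIn_aux {M r : ℕ} [NeZero M] [NeZero (M * r)] (hC : CoreQE M r) {p : ℕ} (hp : p.Prime)
    (hpM : ¬ p ∣ M) (hpr : p ≠ r) (A : ValuationSubring (AlgebraicClosure ℚ))
    (hA : A.LiesOverPrime p) (ι : AlgebraicClosure ℚ →+* ℂ) {k : ℤ} (hk : Even k) {f : ℍ → ℂ}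
    (hf : IsM (Gamma1 M) k f) (hcoef : ∀ i, ∃ a ∈ A, (qExpansion 1 f).coeff i = ι a)
    {δ : SL(2, ℤ)} (hδ : δ ∈ Gamma0 M) :
    ∀ i, ∃ a ∈ A, (qExpansion 1 (f ∣[k] δ)).coeff i = ι a := by
  classical
  -- replace `δ` by an element of `Γ₀(M) ∩ Γ₀(r)`
  obtain ⟨δ', hδM, hδr, hδδ⟩ := exists_delta (r := r) hδ
  have hInv : Inv1 M k f := fun γ hγ => hf.slash γ hγ
  rw [← hInv.slash_congr hδM hδ hδδ]
  clear hδ hδδ
  choose a haA ha using hcoef
  have hT := one_mem_strictPeriods_Gamma1 (N := M)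
  have hP := hasPrim_Gamma1 M
  set F : ModularForm (Gamma1 M) k := hf.toMF with hF
  have hFf : (F : ℍ → ℂ) = f := rfl
  set d : Gamma0 M := ⟨δ', hδM⟩ with hd
  have hGf : (slashM M F d : ℍ → ℂ) = f ∣[k] δ' := rfl
  rw [← hGf]
  have hbex : ∀ i, ∃ b, (qExpansion 1 (slashM M F d)).coeff i = ι b := fun i =>
    slashM_algebraic ι F (fun n => ⟨a n, ha n⟩) d i
  choose b hb using hbex
  suffices hbA : ∀ i, b i ∈ A from fun i => ⟨b i, hbA i, hb i⟩
  by_cases hG0 : slashM M F d = 0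
  · intro i
    have h1 := hb i
    rw [hG0, FunLike.coe_zero, qExpansion_zero, map_zero] at h1
    have h2 : b i = 0 := ι.injective (by rw [map_zero]; exact h1.symm)
    rw [h2]; exact zero_mem A
  obtain ⟨n0, hn0, hmax⟩ := exists_max_coeff hT hP ι A (slashM M F d) hG0 b hb
  obtain ⟨L, hL, hbL⟩ := exists_numberField_coeff hT hP ι F a ha
  obtain ⟨e, e', s, hes⟩ := exists_weight hk
  let _ := ι.toAlgebra
  have hf' : IsM (GG M r) k f := ((isM_pmG_iff hk).mpr hf).mono inf_le_left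
  have hTG : ModularGroup.T ∈ GG M r := T_mem_GG
  obtain ⟨hgood, hev⟩ := good_form hf' hTG hes (D := M * r) T_pow_conj_mem
    (AlgebraicClosure ℚ) a ha
  set x : LaurentSeries (AlgebraicClosure ℚ) :=
    HahnSeries.ofPowerSeries ℤ (AlgebraicClosure ℚ) (PowerSeries.mk a) *
      UL e e' s (AlgebraicClosure ℚ) with hx
  have hδT : δ' * ModularGroup.T * δ'⁻¹ ∈ GG M r := T_conj_mem_GG hδM hδr
  have hexp := hasExpC_translate hf' hes (M * r) hδT
  set y : LaurentSeries (AlgebraicClosure ℚ) :=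
    HahnSeries.ofPowerSeries ℤ (AlgebraicClosure ℚ) (PowerSeries.mk fun n => b n / b n0) *
      UL e e' s (AlgebraicClosure ℚ) with hy
  have hyA : ∀ i, y.coeff i ∈ A := mul_coeff_mem' A.toSubring
    (ofPowerSeries_mk_coeff_mem A.toSubring hmax) (UL_coeff_mem A.toSubring)
  have hyU : ∃ i, y.coeff i ∉ A.nonunits := by
    refine exists_unit_coeff A ⟨n0, ?_⟩ (UL_coeff_mem A.toSubring) (hasLead_UL _)
    rw [HahnSeries.ofPowerSeries_apply_coeff, PowerSeries.coeff_mk, div_self hn0]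
    rw [ValuationSubring.mem_nonunits_iff, map_one]
    exact lt_irrefl _
  have hcA : b n0 ∈ A := by
    refine hC p hp hpM hpr A hA L hL x hgood ?_ ?_ δ' hδr (qExpand _ (M * r) y) (b n0) ?_ ?_ ?_
    · exact mul_coeff_mem' L.toSubfield.toSubring
        (ofPowerSeries_mk_coeff_mem L.toSubfield.toSubring hbL) (UL_coeff_mem L.toSubfield.toSubring)
    · exact mul_coeff_mem' A.toSubring
        (ofPowerSeries_mk_coeff_mem A.toSubring haA) (UL_coeff_mem A.toSubring)
    · intro i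
      by_cases h : ((M * r : ℕ) : ℤ) ∣ i
      · obtain ⟨m, rfl⟩ := h
        rw [qExpand_coeff_mul]; exact hyA m
      · rw [qExpand_coeff_of_not_dvd (M * r) _ h]; exact zero_mem A
    · obtain ⟨i, hi⟩ := hyU
      exact ⟨((M * r : ℕ) : ℤ) * i, by rw [qExpand_coeff_mul]; exact hi⟩
    · rw [hev]
      have hser : coeffMap (algebraMap (AlgebraicClosure ℚ) ℂ)
          (HahnSeries.C (b n0) * qExpand (AlgebraicClosure ℚ) (M * r) y) =
          qExpand ℂ (M * r) (HahnSeries.ofPowerSeries ℤ ℂ (qExpansion 1 (f ∣[k] δ')) *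
            UL e e' s ℂ) := by
        rw [← qExpand_C (R := AlgebraicClosure ℚ) (N := M * r), ← map_mul, coeffMap_qExpand, hy,
          ← mul_assoc, map_mul, coeffMap_UL]
        congr 2
        have h1 : HahnSeries.C (b n0) * HahnSeries.ofPowerSeries ℤ (AlgebraicClosure ℚ)
            (PowerSeries.mk fun n => b n / b n0) =
            HahnSeries.ofPowerSeries ℤ (AlgebraicClosure ℚ) (PowerSeries.mk b) := by
          rw [← HahnSeries.ofPowerSeries_C, ← map_mul]
          congr 1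
          ext n
          rw [PowerSeries.coeff_C_mul, PowerSeries.coeff_mk, PowerSeries.coeff_mk,
            mul_div_cancel₀ _ hn0]
        rw [h1, coeffMap_ofPowerSeries]
        congr 1
        ext n
        rw [PowerSeries.coeff_map, PowerSeries.coeff_mk, ← hGf, hb]
        rfl
      rw [hser]
      exact hexp
  intro i
  have h1 : b i = (b i / b n0) * b n0 := by field_simp
  rw [h1]
  exact mul_mem (hmax i) hcA

/-- **(QE)** from the core statements. -/
theorem QEIn_of {M : ℕ} [NeZero (M * 2)] [NeZero (M * 3)] (h2 : CoreQE M 2) (h3 : CoreQE M 3) :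
    QEIn M := by
  have hM : NeZero M := ⟨fun h => NeZero.ne (M * 2) (by rw [h, zero_mul])⟩
  intro p hp hpM A hA ι k hk f hf hcoef δ hδ
  rcases eq_or_ne p 2 with h | h
  · exact QEIn_aux h3 hp hpM (by omega) A hA ι hk hf hcoef hδ
  · exact QEIn_aux h2 hp hpM h A hA ι hk hf hcoef hδ

end Main

end Fermat.Agent.H50
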