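import Fermat.Agent.H22TwForms
import Fermat.Agent.H4Root

/-!
# `n`-th roots of modular forms
-/

set_option autoImplicit false

open Filter Topology Complex UpperHalfPlane Function
open scoped Manifold MatrixGroups ModularForm

noncomputable section

namespace Fermat.Agent.H22.Tw

variable {Γ : Subgroup SL(2, ℤ)} {χ ψ : Γ →* ℂˣ} {k l : ℤ} {f g : ℍ → ℂ}

theorem mdiff_prod' {ι : Type*} (s : Finset ι) {F : ι → ℍ → ℂ} (h : ∀ i ∈ s, MDiff (F i)) :
    MDiff (∏ i ∈ s, F i) := by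
  classical
  induction s using Finset.induction_on with
  | empty => simpa using! (mdifferentiable_const (c := (1:ℂ)))
  | insert i t hi ih =>
    simp only [Finset.prod_insert hi]
    exact (h i (Finset.mem_insert_self _ _)).mul
      (ih fun j hj => h j (Finset.mem_insert_of_mem hj))

theorem prod_eq_zero_mdiff {ι : Type*} (s : Finset ι) {F : ι → ℍ → ℂ}
    (h : ∀ i ∈ s, MDiff (F i)) (h0 : ∏ i ∈ s, F i = 0) : ∃ i ∈ s, F i = 0 := by
  classical
  induction s using Finset.induction_on with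
  | empty =>
    have := congrFun h0 UpperHalfPlane.I
    simp at this
  | insert a s ha ih =>
    rw [Finset.prod_insert ha] at h0
    rcases (mul_eq_zero_iff (h a (Finset.mem_insert_self _ _))
      (mdiff_prod' s fun j hj => h j (Finset.mem_insert_of_mem hj))).1 h0 with h1 | h1
    · exact ⟨a, Finset.mem_insert_self _ _, h1⟩
    · obtain ⟨i, hi, h2⟩ := ih (fun j hj => h j (Finset.mem_insert_of_mem hj)) h1
      exact ⟨i, Finset.mem_insert_of_mem hi, h2⟩

/-- Two holomorphic functions with equal `n`-th powers differ by a root of unity. -/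
theorem exists_root_of_pow_eq {n : ℕ} (hn : n ≠ 0) (hf : MDiff f) (hg : MDiff g)
    (h : f ^ n = g ^ n) : ∃ ζ : ℂ, ζ ^ n = 1 ∧ f = ζ • g := by
  have hω := Complex.isPrimitiveRoot_exp n hn
  have h1 : ∏ ζ ∈ Polynomial.nthRootsFinset n (1 : ℂ), (f - ζ • g) = 0 := by
    funext τ
    have h2 := hω.pow_sub_pow_eq_prod_sub_mul (f τ) (g τ) (Nat.pos_of_ne_zero hn)
    have h3 : f τ ^ n = g τ ^ n := congrFun h τ
    rw [h3, sub_self] at h2
    simp only [Finset.prod_apply, Pi.sub_apply, Pi.smul_apply, smul_eq_mul, Pi.zero_apply]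
    exact h2.symm
  obtain ⟨ζ, hζ, h2⟩ := prod_eq_zero_mdiff _ (fun ζ _ => hf.sub (hg.const_smul ζ)) h1
  refine ⟨ζ, ?_, sub_eq_zero.1 h2⟩
  exact (Polynomial.mem_nthRootsFinset (Nat.pos_of_ne_zero hn) 1).1 hζ

/-- Two power series with equal `n`-th powers differ by a root of unity. -/
theorem exists_root_of_pow_eq_ps {n : ℕ} (hn : n ≠ 0) {P Q : PowerSeries ℂ}
    (h : P ^ n = Q ^ n) : ∃ ζ : ℂ, ζ ^ n = 1 ∧ P = ζ • Q := by
  have hω := Complex.isPrimitiveRoot_exp n hn
  have hω' : IsPrimitiveRoot (PowerSeries.C (R := ℂ) (Complex.exp (2 * Real.pi * Complex.I / n))) n :=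
    hω.map_of_injective PowerSeries.C_injective
  have h2 := hω'.pow_sub_pow_eq_prod_sub_mul P Q (Nat.pos_of_ne_zero hn)
  rw [h, sub_self] at h2
  obtain ⟨ζ, hζ, h3⟩ := Finset.prod_eq_zero_iff.1 h2.symm
  have h4 := (Polynomial.mem_nthRootsFinset (Nat.pos_of_ne_zero hn) 1).1 hζ
  have : NeZero n := ⟨hn⟩
  obtain ⟨i, -, hi⟩ := hω'.eq_pow_of_pow_eq_one h4
  refine ⟨Complex.exp (2 * Real.pi * Complex.I / n) ^ i, ?_, ?_⟩
  · rw [← pow_mul, Nat.mul_comm, pow_mul, hω.pow_eq_one, one_pow]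
  · rw [PowerSeries.smul_eq_C_mul, map_pow, hi]
    exact sub_eq_zero.1 h3

theorem analyticAt_of_mdiff (hf : MDiff f) (τ : ℍ) : AnalyticAt ℂ (f ∘ ofComplex) (τ : ℂ) := by
  rw [mdifferentiable_iff] at hf
  exact hf.analyticAt (isOpen_upperHalfPlaneSet.mem_nhds τ.2)

/-- Orders: if `G * H = F ^ n` and `H τ ≠ 0`, then `n` divides the order of `G` at `τ`. -/
theorem dvd_order {n : ℕ} {F G H : ℍ → ℂ} (hF : MDiff F) (hG : MDiff G) (hH : MDiff H)
    (h : G * H = F ^ n) {τ : ℍ} (hτ : H τ ≠ 0) :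
    n ∣ analyticOrderNatAt (G ∘ ofComplex) (τ : ℂ) := by
  have aF := analyticAt_of_mdiff hF τ
  have aG := analyticAt_of_mdiff hG τ
  have aH := analyticAt_of_mdiff hH τ
  have h1 : (G ∘ ofComplex) * (H ∘ ofComplex) = (F ∘ ofComplex) ^ n := by
    funext z
    exact congrFun h (ofComplex z)
  have h2 := analyticOrderAt_mul aG aH
  rw [h1, analyticOrderAt_pow aF] at h2
  have h3 : analyticOrderAt (H ∘ ofComplex) (τ : ℂ) = 0 := by
    rw [aH.analyticOrderAt_eq_zero]
    simpa [ofComplex_apply] using hτ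
  rw [h3, add_zero] at h2
  rw [analyticOrderNatAt, ← h2]
  simp

/-- An `n`-th root of a modular form, whose orders are divisible by `n`, is a twisted form. -/
theorem exists_tw_root {n : ℕ} (hn : n ≠ 0) {G : ℍ → ℂ} (hG : IsM Γ ((n : ℤ) * k) G)
    (hG0 : G ≠ 0)
    (hord : ∀ τ : ℍ, n ∣ analyticOrderNatAt (G ∘ ofComplex) (τ : ℂ)) :
    ∃ (χ : Γ →* ℂˣ) (g : ℍ → ℂ), χ ^ n = 1 ∧ IsTw Γ χ k g ∧ g ^ n = G := by
  obtain ⟨g, hg, hgn⟩ := H4.exists_nthRoot hn G hG.holo hG0 hord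
  have hgn' : g ^ n = G := funext hgn
  have hg0 : g ≠ 0 := by
    rintro rfl
    apply hG0
    rw [← hgn']
    funext τ
    simp [hn]
  obtain ⟨τ₀, hτ₀⟩ : ∃ τ, g τ ≠ 0 := by
    by_contra hcon
    push Not at hcon
    exact hg0 (funext hcon)
  -- the character
  have hc : ∀ γ : Γ, ∃ c : ℂ, c ^ n = 1 ∧ g ∣[k] (γ : SL(2, ℤ)) = c • g := by
    intro γ
    refine exists_root_of_pow_eq hn (hg.slash k _) hg ?_
    rw [← slash_pow, hgn', hG.slash γ γ.2]
  choose c hcn hc using hc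
  have hc0 : ∀ γ, c γ ≠ 0 := fun γ h => by
    have := hcn γ
    rw [h, zero_pow hn] at this
    exact zero_ne_one this
  have huniq : ∀ a b : ℂ, a • g = b • g → a = b := by
    intro a b hab
    have := congrFun hab τ₀
    simp only [Pi.smul_apply, smul_eq_mul] at this
    exact mul_right_cancel₀ hτ₀ this
  let χ : Γ →* ℂˣ :=
    { toFun := fun γ => Units.mk0 (c γ) (hc0 γ)
      map_one' := by
        ext
        simp only [Units.val_mk0, Units.val_one]
        apply huniq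
        rw [← hc 1]
        simp
      map_mul' := fun a b => by
        ext
        simp only [Units.val_mk0, Units.val_mul]
        apply huniq
        rw [← hc (a * b), mul_smul, ← hc b]
        have h1 : ((a * b : Γ) : SL(2, ℤ)) = (a : SL(2, ℤ)) * b := rfl
        rw [h1, SlashAction.slash_mul, hc a, smul_slash] }
  refine ⟨χ, g, ?_, ⟨fun γ => ?_, hg, fun A => ?_⟩, hgn'⟩
  · ext γ
    simp only [MonoidHom.pow_apply, Units.val_pow_eq_pow_val]
    exact hcn γ
  · exact hc γ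
  · have h1 := hG.bdd A
    rw [← hgn', slash_pow] at h1
    rw [isBoundedAtImInfty_iff] at h1 ⊢
    obtain ⟨M, B, hMB⟩ := h1
    refine ⟨max M 1, B, fun z hz => ?_⟩
    have h2 := hMB z hz
    have h3 : ‖(g ∣[k] A) z‖ ^ n ≤ M := by
      rw [← norm_pow]
      exact h2
    by_contra hcon
    push Not at hcon
    have h4 : 1 < ‖(g ∣[k] A) z‖ := lt_of_le_of_lt (le_max_right _ _) hcon
    have h5 : ‖(g ∣[k] A) z‖ ≤ ‖(g ∣[k] A) z‖ ^ n := le_self_pow₀ h4.le hn
    have h6 : M < ‖(g ∣[k] A) z‖ := lt_of_le_of_lt (le_max_left _ _) hcon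
    linarith

end Fermat.Agent.H22.Tw
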