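import Fermat.Agent.H94Genus
import Fermat.Agent.H50ParabGamma0
set_option autoImplicit false

/-!
# The genus formula from the local expansions (helper94)
-/

noncomputable section

open AlgebraicCurve IntermediateField ModularCurve
open scoped MatrixGroups

namespace Fermat.Agent.H94
variable {K F : Type*} [Field K] [Field F] [Algebra K F]

open CongruenceSubgroup in
/-- **S24 from the local expansions.** If a function field `F/K` with a transcendental `x = j` has
`[F : K(j)] = #(SL₂(ℤ)/Γ₀(N))` and has full families of Laurent expansions indexed by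
`SL₂(ℤ)/Γ₀(N)` with monodromy `ST` above `j = 0`, `S` above `j = 1728`, `T` above `j = ∞`
and trivial elsewhere, then its genus is given by the genus formula for `X₀(N)`. -/
theorem genus_eq_genusFormula (N : ℕ) [NeZero N] [CharZero K] [IsAlgClosed K] [FunField K F]
    [HasCanonicalDivisor (K := K) (F := F)] {x : F} (hx : Transcendental K x)
    {C : Type*} [Field C] [Algebra K C]
    (hcard : Nat.card (SL(2, ℤ) ⧸ Gamma0 N) = Module.finrank K⟮x⟯ F) {b : K} (hb : b ≠ 0)
    {e₀ e₁ e₂ : ℕ}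
    (h₀ : Nonempty (LocalEmb K F C (SL(2, ℤ) ⧸ Gamma0 N) x e₀
      (MulAction.toPerm (ModularGroup.S * ModularGroup.T))))
    (h₁ : Nonempty (LocalEmb K F C (SL(2, ℤ) ⧸ Gamma0 N) (x - algebraMap K F b) e₁
      (MulAction.toPerm ModularGroup.S)))
    (h₂ : Nonempty (LocalEmb K F C (SL(2, ℤ) ⧸ Gamma0 N) x⁻¹ e₂
      (MulAction.toPerm ModularGroup.T)))
    (h : ∀ a : K, a ≠ 0 → a ≠ b →
      Nonempty (LocalEmb K F C (SL(2, ℤ) ⧸ Gamma0 N) (x - algebraMap K F a) 1 1)) :
    (AlgebraicCurve.genus K F : ℚ) = genusFormula N := by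
  have key := genus_eq_of_localEmb hx hcard hb h₀ h₁ h₂ h
  obtain ⟨g, hg⟩ := Fermat.Agent.H50.exists_nat_genusFormula N
  have h2 := Fermat.Agent.H45.two_mul_genusFormula N
  have hn : Nat.card (SL(2, ℤ) ⧸ Gamma0 N) = dedekindPsi N := Fermat.Agent.H45.natCard_P1 N
  have hT : Nat.card (Quotient (Equiv.Perm.SameCycle.setoid (MulAction.toPerm ModularGroup.T :
      Equiv.Perm (SL(2, ℤ) ⧸ Gamma0 N)))) = cuspCount N :=
    (card_sameCycle_toPerm _).trans (Fermat.Agent.H45.natCard_TOrbits N)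
  have hS : Nat.card (Quotient (Equiv.Perm.SameCycle.setoid (MulAction.toPerm ModularGroup.S :
      Equiv.Perm (SL(2, ℤ) ⧸ Gamma0 N)))) = Fermat.Agent.H45.orbS N :=
    card_sameCycle_toPerm _
  have hST : Nat.card (Quotient (Equiv.Perm.SameCycle.setoid
      (MulAction.toPerm (ModularGroup.S * ModularGroup.T) :
      Equiv.Perm (SL(2, ℤ) ⧸ Gamma0 N)))) = Fermat.Agent.H45.orbST N :=
    card_sameCycle_toPerm _
  rw [hn, hT, hS, hST] at key
  rw [← hg] at h2
  have h3 : (2 * g : ℤ) = (dedekindPsi N : ℤ) - Fermat.Agent.H45.orbST N -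
      Fermat.Agent.H45.orbS N - cuspCount N + 2 := by
    have : ((2 * g : ℤ) : ℚ) = ((dedekindPsi N : ℤ) - Fermat.Agent.H45.orbST N -
      Fermat.Agent.H45.orbS N - cuspCount N + 2 : ℤ) := by
      push_cast
      rw [h2]; ring
    exact_mod_cast this
  rw [key, ← hg, ← h3]
  congr 1
  omega

end Fermat.Agent.H94
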