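import Mathlib
import Fermat.Agent.H24Field
import Fermat.Agent.H94S24
import Fermat.Prelude.Def_ModularCurve_ArithmeticGalois

/-! Genus of the function field of `X₀(N)`. -/

set_option autoImplicit false

namespace Fermat.Agent.H24

open UpperHalfPlane hiding I
open Complex MatrixGroups ModularGroup Fermat.Agent.H61 ModularCurve Polynomial Fermat.Agent.H94
open CongruenceSubgroup
open scoped Manifold Real

noncomputable section

local notation "𝕢" => Function.Periodic.qParam

section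

variable {K : Type*} [Field K] [Algebra K ℂ] {N : ℕ} [NeZero N] {z : ℍ → ℂ} (hz : GoodChart K N z)

theorem sF_smul_coeff' {γ₀ : SL(2, ℤ)} {ζ : ℂˣ} (hζ : ‖(ζ : ℂ)‖ = 1)
    (hγ₀ : ∀ τ, z (γ₀ • τ) = ζ * z τ)
    (g : SL(2, ℤ) ⧸ Gamma0 N) (f : modularFunctionFieldFullC K N) (n : ℤ) :
    (sF hz (γ₀ • g) f).coeff n = ((ζ⁻¹ : ℂˣ) : ℂ) ^ n * (sF hz g f).coeff n := by
  have h2 : ∀ τ, z (γ₀⁻¹ • τ) = (ζ⁻¹ : ℂˣ) * z τ := by
    intro τ
    have := hγ₀ (γ₀⁻¹ • τ)
    rw [smul_inv_smul] at this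
    rw [this, ← mul_assoc, Units.inv_mul, one_mul]
  have := sF_smul_coeff hz (by simp [hζ]) h2 g f n
  rwa [inv_inv] at this

theorem nonempty_localEmb {γ₀ : SL(2, ℤ)} {ζ : ℂˣ} (hζ : ‖(ζ : ℂ)‖ = 1)
    (hγ₀ : ∀ τ, z (γ₀ • τ) = ζ * z τ) {e : ℕ} (he : 0 < e) (hprim : IsPrimitiveRoot (ζ : ℂ) e)
    {x : modularFunctionFieldFullC K N} {y : LaurentSeries ℂ} (hx : ∀ g, sF hz g x = y)
    (hy : y.order = e) :
    Nonempty (LocalEmb K (modularFunctionFieldFullC K N) ℂ (SL(2, ℤ) ⧸ Gamma0 N) x e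
      (MulAction.toPerm γ₀)) :=
  ⟨{ s := sF hz
     inj := sF_injective hz
     y := y
     map_x := hx
     e_pos := he
     order_y := hy
     ζ := ((ζ⁻¹ : ℂˣ) : ℂ)
     prim := by
       have := hprim.inv
       simpa using this
     twist := fun g f n => sF_smul_coeff' hz hζ hγ₀ g f n }⟩

theorem nonempty_localEmb_one
    {x : modularFunctionFieldFullC K N} {y : LaurentSeries ℂ} (hx : ∀ g, sF hz g x = y)
    (hy : y.order = 1) :
    Nonempty (LocalEmb K (modularFunctionFieldFullC K N) ℂ (SL(2, ℤ) ⧸ Gamma0 N) x 1 1) :=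
  ⟨{ s := sF hz
     inj := sF_injective hz
     y := y
     map_x := hx
     e_pos := one_pos
     order_y := by simpa using hy
     ζ := 1
     prim := IsPrimitiveRoot.one
     twist := fun g f n => by simp }⟩

theorem algebraMap_K_laurent (c : K) :
    algebraMap K (LaurentSeries ℂ) c = algebraMap ℂ (LaurentSeries ℂ) (algebraMap K ℂ c) := by
  rw [algebraMap_eq_single, HahnSeries.algebraMap_apply', PowerSeries.algebraMap_apply]
  simp

/-- the expansion of `j - a` at a point above `a` -/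
theorem exists_expansion_sub (τ₀ : ℍ) {a : K} (ha : jInv τ₀ = algebraMap K ℂ a) {e : ℕ}
    (he : analyticOrderAt (fun z : ℂ => jInv (ofComplex z) - jInv τ₀) (τ₀ : ℂ) = e) :
    ∃ y : LaurentSeries ℂ, y.order = e ∧
      ∀ g, sF (goodChart_cayley K N τ₀) g (jF K N - algebraMap K _ a) = y := by
  have hf : MDiff (fun τ => jInv τ - jInv τ₀) :=
    Hol.sub_mem (x := jInv) (y := fun _ => jInv τ₀) jInv_mdiff (Hol.algebraMap_mem (jInv τ₀))
  obtain ⟨P, h1, h2, h3⟩ := exists_expansion_cayley τ₀ hf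
  refine ⟨HahnSeries.ofPowerSeries ℤ ℂ P, (h3 e he).2, fun g => ?_⟩
  have h4 : HasExpC (cayley τ₀) jInv
      (HahnSeries.ofPowerSeries ℤ ℂ P + algebraMap ℂ (LaurentSeries ℂ) (jInv τ₀)) := by
    have h5 : IsConv (algebraMap ℂ (LaurentSeries ℂ) (jInv τ₀)) := by
      rw [algebraMap_eq_single]; exact isConv_single _ _
    refine ⟨h1.add h5, fun τ hτ => ?_⟩
    rw [evalAt_add h1 h5 hτ (norm_cayley_lt_one τ₀ τ), h2, algebraMap_eq_single, evalAt_single]
    simp
  rw [map_sub, sF_jF _ g h4, AlgHom.commutes, algebraMap_K_laurent a, ← ha, add_sub_cancel_right]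

instance funField : FunField K (modularFunctionFieldFullC K N) :=
  ⟨jF K N, transcendental_jF, finiteDimensional_jF⟩

theorem order_inv' {y : LaurentSeries ℂ} (hy : y ≠ 0) : y⁻¹.order = - y.order := by
  have h := HahnSeries.order_mul hy (inv_ne_zero hy)
  rw [mul_inv_cancel₀ hy, HahnSeries.order_one] at h
  linarith

theorem localEmb_cusp : Nonempty (LocalEmb K (modularFunctionFieldFullC K N) ℂ
    (SL(2, ℤ) ⧸ Gamma0 N) (jF K N)⁻¹ N (MulAction.toPerm T)) := by
  have hq : HasExpC (fun τ : ℍ => 𝕢 (N : ℝ) τ) jInv (qExpand ℂ N (jqModC ℂ)) :=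
    ⟨isConv_qExpand N isConv_jqModC, fun τ _ => evalAt_qExpand_J isConv_jqModC evalAt_jqModC N τ⟩
  have hne : qExpand ℂ N (jqModC ℂ) ≠ 0 := by
    intro h
    have := order_qExpand N (jqModC ℂ)
    rw [h, order_jqModC, HahnSeries.order_zero] at this
    have hN : (N : ℤ) ≠ 0 := by exact_mod_cast NeZero.ne N
    apply hN; linarith
  refine nonempty_localEmb (goodChart_qParam K N) (norm_zetaU N) (qParam_T_smul N)
    (Nat.pos_of_ne_zero (NeZero.ne N)) (zetaU_isPrimitiveRoot N)
    (y := (qExpand ℂ N (jqModC ℂ))⁻¹) (fun g => ?_) ?_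
  · rw [map_inv₀, sF_jF _ g hq]
  · rw [order_inv' hne, order_qExpand, order_jqModC]; ring

theorem localEmb_zero : Nonempty (LocalEmb K (modularFunctionFieldFullC K N) ℂ
    (SL(2, ℤ) ⧸ Gamma0 N) (jF K N) 3 (MulAction.toPerm (S * T))) := by
  obtain ⟨ζ, hζ, hζ2⟩ := exists_cayley_ρ_ST
  obtain ⟨y, hy, hy2⟩ := exists_expansion_sub (K := K) (N := N) UpperHalfPlane.ρ (a := 0) (e := 3)
    (by rw [jInv_ρ, map_zero]) (by rw [analyticOrderAt_jInv, if_pos jInv_ρ]; rfl)
  rw [map_zero, sub_zero] at hy2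
  have h0 : ζ ≠ 0 := hζ.ne_zero (by norm_num)
  exact nonempty_localEmb (goodChart_cayley K N UpperHalfPlane.ρ) (ζ := Units.mk0 ζ h0)
    (hζ.norm'_eq_one (by norm_num)) hζ2 (by norm_num) hζ hy2 hy

theorem localEmb_1728 : Nonempty (LocalEmb K (modularFunctionFieldFullC K N) ℂ
    (SL(2, ℤ) ⧸ Gamma0 N) (jF K N - algebraMap K _ 1728) 2 (MulAction.toPerm S)) := by
  obtain ⟨y, hy, hy2⟩ := exists_expansion_sub (K := K) (N := N) UpperHalfPlane.I (a := 1728)
    (e := 2) (by rw [jInv_I, map_ofNat]) (by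
      rw [analyticOrderAt_jInv, if_neg (by rw [jInv_I]; norm_num), if_pos jInv_I]; rfl)
  exact nonempty_localEmb (goodChart_cayley K N UpperHalfPlane.I) (ζ := -1)
    (by simp) (fun τ => by rw [cayley_I_S]; simp) (by norm_num)
    (by simpa using IsPrimitiveRoot.neg_one 0 (by norm_num)) hy2 hy

theorem localEmb_other {a : K} (ha : a ≠ 0) (ha2 : a ≠ 1728) :
    Nonempty (LocalEmb K (modularFunctionFieldFullC K N) ℂ
    (SL(2, ℤ) ⧸ Gamma0 N) (jF K N - algebraMap K _ a) 1 1) := by
  obtain ⟨τ₀, hτ₀⟩ := jInv_surjective (algebraMap K ℂ a)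
  have h1 : jInv τ₀ ≠ 0 := by rw [hτ₀]; simpa using ha
  have h2 : jInv τ₀ ≠ 1728 := by
    rw [hτ₀]
    intro h
    apply ha2
    apply (algebraMap K ℂ).injective
    rw [h, map_ofNat]
  obtain ⟨y, hy, hy2⟩ := exists_expansion_sub (K := K) (N := N) τ₀ (a := a) (e := 1) hτ₀ (by
    rw [analyticOrderAt_jInv, if_neg h1, if_neg h2]; rfl)
  exact nonempty_localEmb_one (goodChart_cayley K N τ₀) hy2 (by exact_mod_cast hy)

theorem genus_fullC [IsAlgClosed K]
    [AlgebraicCurve.HasCanonicalDivisor (K := K) (F := modularFunctionFieldFullC K N)] :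
    (AlgebraicCurve.genus K (modularFunctionFieldFullC K N) : ℚ) = genusFormula N := by
  have : CharZero K := charZero_of_algebra
  have : Fintype (SL(2, ℤ) ⧸ Gamma0 N) := Fintype.ofFinite _
  refine genus_eq_genusFormula N (x := jF K N) transcendental_jF (C := ℂ) ?_ (b := 1728)
    (by norm_num) localEmb_zero localEmb_1728 localEmb_cusp fun a ha ha2 => localEmb_other ha ha2
  rw [finrank_eq, Nat.card_eq_fintype_card]

end

section BaseChange

variable (L : Type*) [Field L] [Algebra ℚ L]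

theorem coeffEmb_qExpand_jq (d : ℕ) [NeZero d] :
    coeffEmb L (qExpand ℚ d jq) = qExpand L d (jqModC L) := by
  rw [coeffEmb, coeffMap_qExpand, ← jqModC_rat, coeffMap_jqModC]

theorem coeffEmb_mem_full {N : ℕ} {y : LaurentSeries ℚ} (hy : y ∈ modularFunctionFieldFull N) :
    coeffEmb L y ∈ modularFunctionFieldFullC L N := by
  rw [modularFunctionFieldFull] at hy
  induction hy using IntermediateField.adjoin_induction with
  | mem y hy =>
    obtain ⟨d, hd, hdvd, rfl⟩ := hy
    rw [coeffEmb_qExpand_jq]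
    exact jqModCd_mem_full L N hdvd
  | algebraMap c =>
    rw [algebraMap_laurentSeries_eq_single, coeffEmb, coeffMap_single,
      ← algebraMap_laurentSeries_eq_single]
    exact (modularFunctionFieldFullC L N).algebraMap_mem _
  | add y z _ _ hy hz => rw [map_add]; exact add_mem hy hz
  | inv y _ hy => rw [map_inv₀]; exact inv_mem hy
  | mul y z _ _ hy hz => rw [map_mul]; exact mul_mem hy hz

/-- The two descriptions of the function field of `X₀(N)` agree. -/
theorem laurentBaseChange_full (N : ℕ) :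
    laurentBaseChange L (modularFunctionFieldFull N) = modularFunctionFieldFullC L N := by
  apply le_antisymm
  · rw [laurentBaseChange, IntermediateField.adjoin_le_iff]
    rintro _ ⟨y, hy, rfl⟩
    exact coeffEmb_mem_full L hy
  · rw [modularFunctionFieldFullC, IntermediateField.adjoin_le_iff]
    rintro _ ⟨d, hd, hdvd, rfl⟩
    rw [← coeffEmb_qExpand_jq]
    exact coeffEmb_mem_laurentBaseChange L (jqd_mem_full N hdvd)

/-- Transport of `genus_fullC` along an equality of intermediate fields. -/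
theorem genus_eq_of_eq {K : Type*} [Field K] [Algebra K ℂ] [IsAlgClosed K] {N : ℕ} [NeZero N]
    (F : IntermediateField K (LaurentSeries K)) (hF : F = modularFunctionFieldFullC K N)
    [h : AlgebraicCurve.HasCanonicalDivisor (K := K) (F := F)] :
    (AlgebraicCurve.genus K F : ℚ) = genusFormula N := by
  subst hF
  exact genus_fullC

/-- an embedding of the algebraic numbers in `ℂ` -/
def embBar : AlgebraicClosure ℚ →+* ℂ := by
  let a : Algebra ℚ (AlgebraicClosure ℚ) := AlgebraicClosure.instAlgebra ℚ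
  have : Algebra.IsAlgebraic ℚ (AlgebraicClosure ℚ) := AlgebraicClosure.isAlgebraic ℚ
  exact (IsAlgClosed.lift (R := ℚ) (S := AlgebraicClosure ℚ) (M := ℂ)).toRingHom

/-- **S24** -/
theorem genus_bar (N : ℕ) [NeZero N]
    [AlgebraicCurve.HasCanonicalDivisor (K := AlgebraicClosure ℚ) (F := modularFunctionFieldBar N)] :
    (AlgebraicCurve.genus (AlgebraicClosure ℚ) (modularFunctionFieldBar N) : ℚ) =
      genusFormula N := by
  let : Algebra (AlgebraicClosure ℚ) ℂ := embBar.toAlgebra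
  exact genus_eq_of_eq (modularFunctionFieldBar N) (laurentBaseChange_full (AlgebraicClosure ℚ) N)

end BaseChange

end

end Fermat.Agent.H24
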