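import Mathlib
import Fermat.Agent.H78FFField
import Fermat.Agent.H24Final

/-! # Places of the function field of `Γ` (helper78)

Every place of `FF K Γ M` comes from a coset of `Γ` and a standard chart (cusp, `ρ`, `i`, generic). -/

set_option autoImplicit false

namespace Fermat.Agent.H78.FF

open UpperHalfPlane hiding I
open Complex MatrixGroups ModularGroup Fermat.Agent.H61 ModularCurve Fermat.Agent.H24 Polynomial
open Fermat.Agent.H94 AlgebraicCurve
open scoped Manifold Real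

noncomputable section

local notation "𝕢" => Function.Periodic.qParam

section

variable {K : Type*} [Field K] [Algebra K ℂ] {Γ : Subgroup SL(2, ℤ)} {M : ℕ} [NeZero M]
  {z : ℍ → ℂ} (hz : GoodChart K Γ M z)

theorem sFF_smul_coeff' {γ₀ : SL(2, ℤ)} {ζ : ℂˣ} (hζ : ‖(ζ : ℂ)‖ = 1)
    (hγ₀ : ∀ τ, z (γ₀ • τ) = ζ * z τ)
    (g : SL(2, ℤ) ⧸ Γ) (f : FF K Γ M) (n : ℤ) :
    (sFF hz (γ₀ • g) f).coeff n = ((ζ⁻¹ : ℂˣ) : ℂ) ^ n * (sFF hz g f).coeff n := by
  have h2 : ∀ τ, z (γ₀⁻¹ • τ) = (ζ⁻¹ : ℂˣ) * z τ := by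
    intro τ
    have := hγ₀ (γ₀⁻¹ • τ)
    rw [smul_inv_smul] at this
    rw [this, ← mul_assoc, Units.inv_mul, one_mul]
  have := sFF_smul_coeff hz (by simp [hζ]) h2 g f n
  rwa [inv_inv] at this

/-- A standard chart with its local monodromy. -/
structure LChart (x : FF K Γ M) where
  z : ℍ → ℂ
  good : GoodChart K Γ M z
  γ₀ : SL(2, ℤ)
  ζ : ℂˣ
  e : ℕ
  e_pos : 0 < e
  norm_ζ : ‖(ζ : ℂ)‖ = 1
  prim : IsPrimitiveRoot (ζ : ℂ) e
  tw : ∀ τ, z (γ₀ • τ) = ζ * z τ
  y : LaurentSeries ℂ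
  map_x : ∀ g, sFF good g x = y
  order_y : y.order = e
  kind : γ₀ = 1 ∨ γ₀ = S ∨ γ₀ = S * T ∨ γ₀ = T
  exp : ∀ f ∈ Hol, (∀ γ, compHom γ f ∈ ExpAlg (chart_qParam M)) →
    ∀ γ, compHom γ f ∈ ExpAlg good.chart

/-- the expansion of `j - a` at a point above `a` -/
theorem exists_expansion_sub (τ₀ : ℍ) {a : K} (ha : jInv τ₀ = algebraMap K ℂ a) {e : ℕ}
    (he : analyticOrderAt (fun z : ℂ => jInv (ofComplex z) - jInv τ₀) (τ₀ : ℂ) = e) :
    ∃ y : LaurentSeries ℂ, y.order = e ∧
      ∀ g, sFF (goodChart_cayley K Γ M τ₀) g (jFF K Γ M - algebraMap K _ a) = y := by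
  have hf : MDiff (fun τ => jInv τ - jInv τ₀) :=
    Hol.sub_mem (x := jInv) (y := fun _ => jInv τ₀) jInv_mdiff (Hol.algebraMap_mem (jInv τ₀))
  obtain ⟨P, h1, h2, h3⟩ := exists_expansion_cayley τ₀ hf
  refine ⟨HahnSeries.ofPowerSeries ℤ ℂ P, (h3 e he).2, fun g => ?_⟩
  have h4 : HasExpC (cayley τ₀) jInv
      (HahnSeries.ofPowerSeries ℤ ℂ P + algebraMap ℂ (LaurentSeries ℂ) (jInv τ₀)) := by
    have h5 : IsConv (algebraMap ℂ (LaurentSeries ℂ) (jInv τ₀)) := by
      rw [algebraMap_eq_single]; exact isConv_single _ _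
    refine ⟨h1.add h5, fun τ hτ => ?_⟩
    rw [evalAt_add h1 h5 hτ (norm_cayley_lt_one τ₀ τ), h2, algebraMap_eq_single, evalAt_single]
    simp
  rw [map_sub, sFF_jFF _ g h4, AlgHom.commutes, algebraMap_K_laurent a, ← ha, add_sub_cancel_right]

theorem exp_cayley (τ₀ : ℍ) (hz : GoodChart K Γ M (cayley τ₀)) : ∀ f ∈ Hol,
    (∀ γ, compHom γ f ∈ ExpAlg (chart_qParam M)) → ∀ γ, compHom γ f ∈ ExpAlg hz.chart :=
  fun _ hf _ γ => Hol_le_ExpAlg_cayley τ₀ (compHom_mem_Hol γ hf)

variable (K Γ M) in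
/-- the chart at the cusps -/
theorem lchart_cusp : ∃ c : LChart (jFF K Γ M)⁻¹, c.γ₀ = T ∧ c.e = M ∧
    c.z = fun τ : ℍ => 𝕢 (M : ℝ) τ := by
  have hq : HasExpC (fun τ : ℍ => 𝕢 (M : ℝ) τ) jInv (qExpand ℂ M (jqModC ℂ)) :=
    ⟨isConv_qExpand M isConv_jqModC, fun τ _ => evalAt_qExpand_J isConv_jqModC evalAt_jqModC M τ⟩
  have hne : qExpand ℂ M (jqModC ℂ) ≠ 0 := by
    intro h
    have := order_qExpand M (jqModC ℂ)
    rw [h, order_jqModC, HahnSeries.order_zero] at this
    have hM : (M : ℤ) ≠ 0 := by exact_mod_cast NeZero.ne M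
    apply hM; linarith
  refine ⟨{ z := fun τ : ℍ => 𝕢 (M : ℝ) τ
            good := goodChart_qParam K Γ M
            γ₀ := T
            ζ := zetaU M
            e := M
            e_pos := Nat.pos_of_ne_zero (NeZero.ne M)
            norm_ζ := norm_zetaU M
            prim := zetaU_isPrimitiveRoot M
            tw := qParam_T_smul M
            y := (qExpand ℂ M (jqModC ℂ))⁻¹
            map_x := fun g => by rw [map_inv₀, sFF_jFF _ g hq]
            order_y := by rw [order_inv' hne, order_qExpand, order_jqModC]; ring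
            kind := by tauto
            exp := fun f _ hf γ => hf γ }, rfl, rfl, rfl⟩

variable (K Γ M) in
/-- the chart at `ρ` -/
theorem lchart_zero : ∃ c : LChart (jFF K Γ M), c.γ₀ = S * T ∧ c.e = 3 ∧
    c.z = cayley UpperHalfPlane.ρ := by
  obtain ⟨ζ, hζ, hζ2⟩ := exists_cayley_ρ_ST
  obtain ⟨y, hy, hy2⟩ := exists_expansion_sub (K := K) (Γ := Γ) (M := M) UpperHalfPlane.ρ
    (a := 0) (e := 3)
    (by rw [jInv_ρ, map_zero]) (by rw [analyticOrderAt_jInv, if_pos jInv_ρ]; rfl)
  rw [map_zero, sub_zero] at hy2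
  have h0 : ζ ≠ 0 := hζ.ne_zero (by norm_num)
  exact ⟨{ z := cayley UpperHalfPlane.ρ
           good := goodChart_cayley K Γ M UpperHalfPlane.ρ
           γ₀ := S * T
           ζ := Units.mk0 ζ h0
           e := 3
           e_pos := by norm_num
           norm_ζ := hζ.norm'_eq_one (by norm_num)
           prim := hζ
           tw := hζ2
           y := y
           map_x := hy2
           order_y := hy
           kind := by tauto
           exp := exp_cayley _ (goodChart_cayley K Γ M UpperHalfPlane.ρ) }, rfl, rfl, rfl⟩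

variable (K Γ M) in
/-- the chart at `i` -/
theorem lchart_1728 : ∃ c : LChart (jFF K Γ M - algebraMap K _ 1728), c.γ₀ = S ∧ c.e = 2 ∧
    c.z = cayley UpperHalfPlane.I := by
  obtain ⟨y, hy, hy2⟩ := exists_expansion_sub (K := K) (Γ := Γ) (M := M) UpperHalfPlane.I
    (a := 1728) (e := 2) (by rw [jInv_I, map_ofNat]) (by
      rw [analyticOrderAt_jInv, if_neg (by rw [jInv_I]; norm_num), if_pos jInv_I]; rfl)
  exact ⟨{ z := cayley UpperHalfPlane.I
           good := goodChart_cayley K Γ M UpperHalfPlane.I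
           γ₀ := S
           ζ := -1
           e := 2
           e_pos := by norm_num
           norm_ζ := by simp
           prim := by simpa using IsPrimitiveRoot.neg_one 0 (by norm_num)
           tw := fun τ => by rw [cayley_I_S]; simp
           y := y
           map_x := hy2
           order_y := hy
           kind := by tauto
           exp := exp_cayley _ (goodChart_cayley K Γ M UpperHalfPlane.I) }, rfl, rfl, rfl⟩

/-- the chart at a generic point -/
theorem lchart_other {a : K} (ha : a ≠ 0) (ha2 : a ≠ 1728) (τ₀ : ℍ)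
    (hτ₀ : jInv τ₀ = algebraMap K ℂ a) :
    ∃ c : LChart (jFF K Γ M - algebraMap K _ a), c.γ₀ = 1 ∧ c.e = 1 ∧ c.z = cayley τ₀ := by
  have h1 : jInv τ₀ ≠ 0 := by rw [hτ₀]; simpa using ha
  have h2 : jInv τ₀ ≠ 1728 := by
    rw [hτ₀]
    intro h
    apply ha2
    apply (algebraMap K ℂ).injective
    rw [h, map_ofNat]
  obtain ⟨y, hy, hy2⟩ := exists_expansion_sub (K := K) (Γ := Γ) (M := M) τ₀ (a := a) (e := 1)
    hτ₀ (by rw [analyticOrderAt_jInv, if_neg h1, if_neg h2]; rfl)
  exact ⟨{ z := cayley τ₀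
           good := goodChart_cayley K Γ M τ₀
           γ₀ := 1
           ζ := 1
           e := 1
           e_pos := one_pos
           norm_ζ := by simp
           prim := by simpa using IsPrimitiveRoot.one
           tw := fun τ => by simp
           y := y
           map_x := hy2
           order_y := by exact_mod_cast hy
           kind := by tauto
           exp := exp_cayley _ (goodChart_cayley K Γ M τ₀) }, rfl, rfl, rfl⟩

/-! ### abstract: places and embeddings -/

/-- Variant of `exists_places_orbits` with the multiplicities made explicit. -/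
theorem places_orbits {K F C ι : Type*} [Field K] [Field F] [Algebra K F] [Field C] [Algebra K C]
    [Finite ι] [CharZero K] [IsAlgClosed K] [FunField K F] {x : F}
    (hx : Transcendental K x) (s : ι → (F →ₐ[K] LaurentSeries C)) (hs : Function.Injective s)
    (hcard : Nat.card ι = Module.finrank (IntermediateField.adjoin K {x}) F) {y : LaurentSeries C}
    (hy : ∀ i, s i x = y) {e : ℕ} (he : 0 < e) (hye : y.order = e) {ζ : C}
    (hζ : IsPrimitiveRoot ζ e) {pm : Equiv.Perm ι}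
    (hpm : ∀ i f (n : ℤ), (s (pm i) f).coeff n = ζ ^ n * (s i f).coeff n) :
    ∃ (V : ι → Place K F) (m : ι → ℕ), (∀ i, 0 < m i ∧ m i * Function.minimalPeriod pm i = e) ∧
      (∀ i f, (s i f).order = m i * (V i).ord f) ∧
      (∀ i, 0 < (V i).ord x) ∧
      (∀ v : Place K F, 0 < v.ord x → ∃ i, V i = v) := by
  have : Fintype ι := Fintype.ofFinite ι
  rw [Nat.card_eq_fintype_card] at hcard
  obtain ⟨V, h1, h2, h3, h4, h5, h6⟩ := exists_places_orbits hx s hs hcard hy he hye hζ hpm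
  have hVm : ∀ i, ∃ m : ℕ, 0 < m ∧ ∀ f : F, (s i f).order = m * (V i).ord f := fun i => by
    obtain ⟨m, hm, hmo⟩ := exists_order_eq_mul (V i) (s i) (h1 i)
    obtain ⟨k, rfl⟩ := Int.eq_ofNat_of_zero_le hm.le
    exact ⟨k, by exact_mod_cast hm, hmo⟩
  choose m hm hmo using hVm
  refine ⟨V, m, fun i => ⟨hm i, ?_⟩, hmo, h2, h3⟩
  have h7 := hmo i x
  rw [hy, hye, h5] at h7
  exact_mod_cast h7.symm

end

section

variable {K : Type*} [Field K] [Algebra K ℂ] [IsAlgClosed K] {Γ : Subgroup SL(2, ℤ)}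
  [Γ.FiniteIndex] {M : ℕ} [NeZero M]

/-- The coset family of embeddings of a standard chart parametrises the places above. -/
theorem LChart.places {x : FF K Γ M} (c : LChart x) (hsep : Sep K Γ M) (hx : Transcendental K x)
    (hadj : IntermediateField.adjoin K {x} = IntermediateField.adjoin K {jFF K Γ M}) :
    ∃ (V : SL(2, ℤ) ⧸ Γ → Place K (FF K Γ M)) (m : SL(2, ℤ) ⧸ Γ → ℕ),
      (∀ g, 0 < m g ∧ m g * Function.minimalPeriod (fun g : SL(2, ℤ) ⧸ Γ => c.γ₀ • g) g = c.e) ∧
      (∀ g f, (sFF c.good g f).order = m g * (V g).ord f) ∧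
      (∀ g, 0 < (V g).ord x) ∧
      (∀ v : Place K (FF K Γ M), 0 < v.ord x → ∃ g, V g = v) := by
  have : CharZero K := charZero_of_algebra
  have : FunField K (FF K Γ M) := funField_FF K Γ M
  refine places_orbits (pm := MulAction.toPerm c.γ₀) (ζ := ((c.ζ⁻¹ : ℂˣ) : ℂ)) hx (sFF c.good)
    (sFF_injective c.good hsep) ?_ c.map_x c.e_pos c.order_y ?_ fun g f n =>
      sFF_smul_coeff' c.good c.norm_ζ c.tw g f n
  · rw [hadj, finrank_eq hsep]
  · have := c.prim.inv
    simpa using this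

end

end

end Fermat.Agent.H78.FF
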