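import Mathlib
import Fermat.Agent.H78FFPlace

/-! # Functions with a character and divisibility of orders (helper78) -/

set_option autoImplicit false

namespace Fermat.Agent.H78.FF

open UpperHalfPlane hiding I
open Complex MatrixGroups ModularGroup Fermat.Agent.H61 ModularCurve Fermat.Agent.H24 Polynomial
open Fermat.Agent.H94 AlgebraicCurve
open scoped Manifold Real

noncomputable section

local notation "𝕢" => Function.Periodic.qParam

/-- A function on `ℍ` transforming under `Γ` by the character `χ`, holomorphic on `ℍ` and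
meromorphic at the cusps. -/
structure IsTw (Γ : Subgroup SL(2, ℤ)) (M : ℕ) [NeZero M] (χ : Γ →* ℂˣ) (h : ℍ → ℂ) : Prop where
  hol : h ∈ Hol
  exp : ∀ γ : SL(2, ℤ), compHom γ h ∈ ExpAlg (chart_qParam M)
  tw : ∀ (γ : Γ) (τ : ℍ), h ((γ : SL(2, ℤ)) • τ) = (χ γ : ℂ) * h τ

/-- The character is trivial on the elements conjugate to powers of `S`, `ST`, `T`. -/
def PE {Γ : Subgroup SL(2, ℤ)} (χ : Γ →* ℂˣ) : Prop :=
  ∀ γ₀ : SL(2, ℤ), (γ₀ = 1 ∨ γ₀ = S ∨ γ₀ = S * T ∨ γ₀ = T) → ∀ (n : ℕ) (δ : SL(2, ℤ))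
    (h : δ * γ₀ ^ n * δ⁻¹ ∈ Γ), χ ⟨_, h⟩ = 1

section abstr

theorem adjoin_sub_algebraMap {K F : Type*} [Field K] [Field F] [Algebra K F] (x : F) (a : K) :
    IntermediateField.adjoin K {x - algebraMap K F a} = IntermediateField.adjoin K {x} := by
  apply le_antisymm
  · rw [IntermediateField.adjoin_simple_le_iff]
    exact sub_mem (IntermediateField.mem_adjoin_simple_self K x)
      (IntermediateField.algebraMap_mem _ _)
  · rw [IntermediateField.adjoin_simple_le_iff]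
    have := add_mem (IntermediateField.mem_adjoin_simple_self K (x - algebraMap K F a))
      (IntermediateField.algebraMap_mem
        (IntermediateField.adjoin K {x - algebraMap K F a}) a)
    rwa [sub_add_cancel] at this

theorem transcendental_sub {K F : Type*} [Field K] [Field F] [Algebra K F] {x : F}
    (hx : Transcendental K x) (a : K) : Transcendental K (x - algebraMap K F a) := by
  intro h
  apply hx
  have := h.add (isAlgebraic_algebraMap (A := F) a)
  rwa [sub_add_cancel] at this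

theorem ord_cases {K F : Type*} [Field K] [Field F] [Algebra K F] [IsAlgClosed K] [FunField K F]
    {x : F} (hx : Transcendental K x) (v : Place K F) :
    0 < v.ord x⁻¹ ∨ ∃ a : K, 0 < v.ord (x - algebraMap K F a) := by
  have hx0 : x ≠ 0 := fun h => hx (h ▸ isAlgebraic_zero)
  by_cases hmem : x ∈ v.toValuationSubring
  · right
    obtain ⟨a, ha⟩ := exists_sub_algebraMap_ord_pos v hmem
    refine ⟨a, ha.resolve_left fun h => ?_⟩
    exact (transcendental_sub hx a) (h ▸ isAlgebraic_zero)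
  · left
    rw [mem_iff_ord_nonneg v hx0] at hmem
    have := v.ord_inv x
    omega

end abstr

section

variable {K : Type*} [Field K] [Algebra K ℂ] [IsAlgClosed K] {Γ : Subgroup SL(2, ℤ)}
  [Γ.FiniteIndex] {M : ℕ} [NeZero M]

/-- Every place lies above the centre of a standard chart. -/
theorem exists_lchart (v : Place K (FF K Γ M)) : ∃ (x : FF K Γ M) (_ : LChart x),
    Transcendental K x ∧
    IntermediateField.adjoin K {x} = IntermediateField.adjoin K {jFF K Γ M} ∧ 0 < v.ord x := by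
  have : CharZero K := charZero_of_algebra
  have : FunField K (FF K Γ M) := funField_FF K Γ M
  have hj := transcendental_jFF K Γ M
  rcases ord_cases hj v with h | ⟨a, ha⟩
  · obtain ⟨c, -⟩ := lchart_cusp K Γ M
    exact ⟨_, c, transcendental_inv hj, adjoin_inv _, h⟩
  · by_cases h0 : a = 0
    · subst h0
      obtain ⟨c, -⟩ := lchart_zero K Γ M
      rw [map_zero, sub_zero] at ha
      exact ⟨_, c, hj, rfl, ha⟩
    · by_cases h1 : a = 1728
      · subst h1
        obtain ⟨c, -⟩ := lchart_1728 K Γ M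
        exact ⟨_, c, transcendental_sub hj _, adjoin_sub_algebraMap _ _, ha⟩
      · obtain ⟨τ₀, hτ₀⟩ := jInv_surjective (algebraMap K ℂ a)
        obtain ⟨c, -⟩ := lchart_other (Γ := Γ) (M := M) h0 h1 τ₀ hτ₀
        exact ⟨_, c, transcendental_sub hj _, adjoin_sub_algebraMap _ _, ha⟩

theorem coeff_dvd_of_twist {ζ : ℂˣ} {e p m : ℕ} (he : 0 < e) (hp : m * p = e)
    (hζ : IsPrimitiveRoot (ζ : ℂ) e)
    {H : LaurentSeries ℂ} (hH : twist (ζ ^ p) H = H) {n : ℤ} (hn : H.coeff n ≠ 0) :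
    (m : ℤ) ∣ n := by
  have h1 := congrArg (fun F : LaurentSeries ℂ => F.coeff n) hH
  simp only [twist_coeff] at h1
  have h2 : (((ζ ^ p) ^ n : ℂˣ) : ℂ) = 1 := mul_right_cancel₀ hn (h1.trans (one_mul _).symm)
  have h3 : (ζ : ℂ) ^ ((p : ℤ) * n) = 1 := by
    rw [zpow_mul, zpow_natCast, ← Units.val_pow_eq_pow_val, ← Units.val_zpow_eq_zpow_val]
    exact h2
  rw [hζ.zpow_eq_one_iff_dvd] at h3
  have hp0 : (p : ℤ) ≠ 0 := by
    rintro h
    have : p = 0 := by exact_mod_cast h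
    rw [this, mul_zero] at hp
    omega
  rw [← hp] at h3
  push_cast at h3
  rw [mul_comm (m : ℤ)] at h3
  exact Int.dvd_of_mul_dvd_mul_left hp0 h3

/-- The expansions of `h ∘ δ⁻¹` only involve exponents divisible by the ramification index. -/
theorem IsTw.dvd_of_coeff_ne_zero {χ : Γ →* ℂˣ} {h : ℍ → ℂ} (hh : IsTw Γ M χ h) (hPE : PE χ)
    {x : FF K Γ M} (c : LChart x) (δ : SL(2, ℤ)) {m : ℕ}
    (hm : m * Function.minimalPeriod (fun g : SL(2, ℤ) ⧸ Γ => c.γ₀ • g) (QuotientGroup.mk δ) = c.e)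
    {H : LaurentSeries ℂ} (hH : HasExpC c.z (compHom δ⁻¹ h) H) {n : ℤ} (hn : H.coeff n ≠ 0) :
    (m : ℤ) ∣ n := by
  set p := Function.minimalPeriod (fun g : SL(2, ℤ) ⧸ Γ => c.γ₀ • g) (QuotientGroup.mk δ) with hpdef
  have hper : c.γ₀ ^ p • (QuotientGroup.mk δ : SL(2, ℤ) ⧸ Γ) = QuotientGroup.mk δ := by
    have h1 := Function.iterate_minimalPeriod (f := fun g : SL(2, ℤ) ⧸ Γ => c.γ₀ • g)
      (x := QuotientGroup.mk δ)
    rw [← hpdef] at h1
    have h2 : ∀ (k : ℕ) (g : SL(2, ℤ) ⧸ Γ),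
        (fun g : SL(2, ℤ) ⧸ Γ => c.γ₀ • g)^[k] g = c.γ₀ ^ k • g := by
      intro k
      induction k with
      | zero => intro g; simp
      | succ k ih => intro g; rw [Function.iterate_succ_apply', ih, pow_succ', mul_smul]
    rw [h2] at h1
    exact h1
  have hmem : δ⁻¹ * c.γ₀ ^ p * δ⁻¹⁻¹ ∈ Γ := by
    have h1 : (QuotientGroup.mk (c.γ₀ ^ p * δ) : SL(2, ℤ) ⧸ Γ) = QuotientGroup.mk δ := hper
    have h2 := QuotientGroup.eq.mp h1.symm
    rw [inv_inv, mul_assoc]
    exact h2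
  have hχ := hPE c.γ₀ c.kind p δ⁻¹ hmem
  refine coeff_dvd_of_twist c.e_pos hm c.prim (H := H) ?_ hn
  have htw : ∀ (k : ℕ) τ, c.z (c.γ₀ ^ k • τ) = ((c.ζ ^ k : ℂˣ) : ℂ) * c.z τ := by
    intro k
    induction k with
    | zero => intro τ; simp
    | succ k ih =>
      intro τ
      rw [pow_succ, mul_smul, ih, c.tw, pow_succ]
      push_cast
      ring
  have hζ : ‖((c.ζ ^ p : ℂˣ) : ℂ)‖ = 1 := by
    rw [Units.val_pow_eq_pow_val, norm_pow, c.norm_ζ, one_pow]
  have h3 : HasExpC c.z (compHom δ⁻¹ h) (twist (c.ζ ^ p) H) := by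
    refine ⟨isConv_twist hζ hH.1, fun τ hτ => ?_⟩
    have h4 : c.z (c.γ₀ ^ p • τ) ≠ 0 := by
      rw [htw]; exact mul_ne_zero (c.ζ ^ p).ne_zero hτ
    rw [evalAt_twist, ← htw, hH.2 _ h4, compHom_apply, compHom_apply]
    have h5 := hh.tw ⟨_, hmem⟩ (δ⁻¹ • τ)
    rw [hχ, Units.val_one, one_mul] at h5
    rw [← h5]
    simp only [mul_smul, inv_inv, smul_inv_smul]
  exact h3.unique c.good.chart hH

/-- **(F3)** the `n`-th power of a twisted function has all its orders divisible by `n`. -/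
theorem IsTw.dvd_ord (hsep : Sep K Γ M) {χ : Γ →* ℂˣ} {h : ℍ → ℂ} (hh : IsTw Γ M χ h)
    (hPE : PE χ) {n : ℕ} (u : FF K Γ M) (hu : (u : LaurentSeries K) ∈ GoodAlg K Γ M)
    (huh : ∀ τ, ev K (u : LaurentSeries K) τ = h τ ^ n) (v : Place K (FF K Γ M)) :
    (n : ℤ) ∣ v.ord u := by
  obtain ⟨x, c, hx, hadj, hv⟩ := exists_lchart v
  obtain ⟨V, m, h1, h2, h3, h4⟩ := c.places hsep hx hadj
  obtain ⟨g, rfl⟩ := h4 v hv
  induction g using QuotientGroup.induction_on with
  | H δ =>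
    obtain ⟨H, hH⟩ := c.exp h hh.hol hh.exp δ⁻¹
    have hHn : sFF c.good (QuotientGroup.mk δ) u = H ^ n := by
      have e1 : u = algebraMap (GoodAlg K Γ M) _ ⟨_, hu⟩ := rfl
      rw [e1, sFF_algebraMap, sA_mk]
      apply phi_eq
      refine ⟨isConv_pow hH.1 n, fun τ hτ => ?_⟩
      rw [evalAt_pow hH.1 n hτ (c.good.chart.lt τ), hH.2 τ hτ]
      exact (huh _).symm
    have h5 := h2 (QuotientGroup.mk δ) u
    rw [hHn, order_pow'] at h5
    have hm0 : (m (QuotientGroup.mk δ) : ℤ) ≠ 0 := by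
      have := (h1 (QuotientGroup.mk δ)).1
      omega
    have h6 : (m (QuotientGroup.mk δ) : ℤ) ∣ H.order := by
      rcases eq_or_ne H 0 with h0 | h0
      · rw [h0, HahnSeries.order_zero]; exact dvd_zero _
      · exact hh.dvd_of_coeff_ne_zero hPE c δ (h1 _).2 hH
          (fun h => h0 (HahnSeries.coeff_order_eq_zero.mp h))
    obtain ⟨k, hk⟩ := h6
    refine ⟨k, ?_⟩
    rw [hk] at h5
    apply mul_left_cancel₀ hm0
    rw [← h5]; ring

end

end

end Fermat.Agent.H78.FF
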