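import Mathlib
import Fermat.Agent.H78FFTwist
import Fermat.Agent.H78FFExp
import Fermat.Agent.H4Root

/-! # `n`-th roots of modular functions all of whose orders are divisible by `n` (helper78) -/

set_option autoImplicit false

namespace Fermat.Agent.H78.FF

open UpperHalfPlane hiding I
open Complex MatrixGroups ModularGroup Fermat.Agent.H61 ModularCurve Fermat.Agent.H24 Polynomial
open Fermat.Agent.H94 AlgebraicCurve Filter Topology
open scoped Manifold Real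

noncomputable section

local notation "𝕢" => Function.Periodic.qParam

/-- in `ℂ((t))` the `n`-th roots of unity are constants -/
theorem exists_rootOfUnity_of_pow_eq {n : ℕ} (hn : n ≠ 0) {F G : LaurentSeries ℂ} (hG : G ≠ 0)
    (h : F ^ n = G ^ n) : ∃ ζ : ℂˣ, ζ ^ n = 1 ∧ F = HahnSeries.C (ζ : ℂ) * G := by
  haveI : NeZero n := ⟨hn⟩
  obtain ⟨ω, hω⟩ : ∃ ω : ℂˣ, IsPrimitiveRoot (ω : ℂ) n :=
    ⟨Units.mk0 _ (Complex.exp_ne_zero _), Complex.isPrimitiveRoot_exp n hn⟩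
  have hprim' : IsPrimitiveRoot (HahnSeries.C (ω : ℂ) : LaurentSeries ℂ) n :=
    hω.map_of_injective HahnSeries.C_injective
  have h1 : (F / G) ^ n = 1 := by rw [div_pow, h, div_self (pow_ne_zero n hG)]
  obtain ⟨i, -, hi⟩ := hprim'.eq_pow_of_pow_eq_one h1
  refine ⟨ω ^ i, ?_, ?_⟩
  · rw [← pow_mul, mul_comm, pow_mul]
    have : ω ^ n = 1 := by
      apply Units.ext
      rw [Units.val_pow_eq_pow_val, hω.pow_eq_one, Units.val_one]
    rw [this, one_pow]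
  · rw [Units.val_pow_eq_pow_val, map_pow, hi, div_mul_cancel₀ _ hG]

theorem hasExpC_ne_zero {z : ℍ → ℂ} (hz : Chart z) {f : ℍ → ℂ} (hf : f ∈ Hol) {F : LaurentSeries ℂ}
    (hF : HasExpC z f F) (h0 : f ≠ 0) : F ≠ 0 := by
  rintro rfl
  apply h0
  refine eq_of_mem_Hol_of_chart hz hf (Hol.zero_mem) fun τ hτ => ?_
  rw [← hF.2 τ hτ]
  simp [evalAt]

/-- proportionality of functions with the same `n`-th power -/
theorem exists_rootOfUnity_of_fun_pow_eq {n : ℕ} (hn : n ≠ 0) {f g : ℍ → ℂ} (hf : f ∈ Hol)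
    (hg : g ∈ Hol) (hg0 : g ≠ 0) (h : ∀ τ, f τ ^ n = g τ ^ n) :
    ∃ ζ : ℂˣ, ζ ^ n = 1 ∧ ∀ τ, f τ = ζ * g τ := by
  have hz := chart_cayley UpperHalfPlane.I
  obtain ⟨F, hF⟩ := Hol_le_ExpAlg_cayley UpperHalfPlane.I hf
  obtain ⟨G, hG⟩ := Hol_le_ExpAlg_cayley UpperHalfPlane.I hg
  have hG0 : G ≠ 0 := hasExpC_ne_zero hz hg hG hg0
  have hpow : F ^ n = G ^ n := by
    have h1 : HasExpC (cayley UpperHalfPlane.I) (fun τ => f τ ^ n) (F ^ n) :=
      ⟨isConv_pow hF.1 n, fun τ hτ => by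
        rw [evalAt_pow hF.1 n hτ (hz.lt τ), hF.2 τ hτ]⟩
    have h2 : HasExpC (cayley UpperHalfPlane.I) (fun τ => f τ ^ n) (G ^ n) :=
      ⟨isConv_pow hG.1 n, fun τ hτ => by
        rw [evalAt_pow hG.1 n hτ (hz.lt τ), hG.2 τ hτ]; exact (h τ).symm⟩
    exact h1.unique hz h2
  obtain ⟨ζ, hζ, hFG⟩ := exists_rootOfUnity_of_pow_eq hn hG0 hpow
  refine ⟨ζ, hζ, fun τ => ?_⟩
  have hg' : (algebraMap ℂ (ℍ → ℂ) (ζ : ℂ)) * g ∈ Hol := Hol.mul_mem (Hol.algebraMap_mem _) hg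
  have : f = (algebraMap ℂ (ℍ → ℂ) (ζ : ℂ)) * g := by
    refine eq_of_mem_Hol_of_chart hz hf hg' fun τ hτ => ?_
    have hC : IsConv (HahnSeries.C (ζ : ℂ)) := isConv_single 0 _
    rw [← hF.2 τ hτ, hFG, evalAt_mul hC hG.1 hτ (hz.lt τ), hG.2 τ hτ]
    congr 1
    have := evalAt_single 0 (ζ : ℂ) (cayley UpperHalfPlane.I τ)
    simpa using this
  rw [this]
  rfl

section

variable {Γ : Subgroup SL(2, ℤ)} [Γ.FiniteIndex] {M : ℕ} [NeZero M]

/-- divisibility of the vanishing orders on `ℍ` -/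
theorem dvd_analyticOrder {n : ℕ} (u : FF ℂ Γ M) (hu : (u : LaurentSeries ℂ) ∈ GoodAlg ℂ Γ M)
    (hdiv : ∀ v : Place ℂ (FF ℂ Γ M), (n : ℤ) ∣ v.ord u) (τ₀ : ℍ) :
    n ∣ analyticOrderNatAt (ev ℂ (u : LaurentSeries ℂ) ∘ ofComplex) (τ₀ : ℂ) := by
  have : FunField ℂ (FF ℂ Γ M) := funField_FF ℂ Γ M
  by_cases htop : analyticOrderAt (ev ℂ (u : LaurentSeries ℂ) ∘ ofComplex) (τ₀ : ℂ) = ⊤
  · rw [analyticOrderNatAt, htop]; exact dvd_zero _
  obtain ⟨r, hr⟩ := ENat.ne_top_iff_exists.mp htop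
  rw [analyticOrderNatAt, ← hr, ENat.toNat_natCast]
  set hz := goodChart_cayley ℂ Γ M τ₀
  set s := sFF hz (QuotientGroup.mk 1) with hs
  -- the place
  obtain ⟨e, he, he'⟩ : ∃ e : ℕ, 0 < e ∧
      analyticOrderAt (fun z : ℂ => jInv (ofComplex z) - jInv τ₀) (τ₀ : ℂ) = e := by
    rw [analyticOrderAt_jInv]
    split_ifs
    · exact ⟨3, by norm_num, rfl⟩
    · exact ⟨2, by norm_num, rfl⟩
    · exact ⟨1, by norm_num, rfl⟩
  obtain ⟨y, hy, hy2⟩ := exists_expansion_sub (K := ℂ) (Γ := Γ) (M := M) τ₀ (a := jInv τ₀) rfl he'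
  obtain ⟨v, hv⟩ := exists_place_of_embedding s (x := jFF ℂ Γ M - algebraMap ℂ _ (jInv τ₀))
    (by rw [hs, hy2, hy]; exact_mod_cast he)
  obtain ⟨m, hm, hmo⟩ := exists_order_eq_mul v s hv
  -- the order of `u`
  have hsu : (s u).order = r := by
    have hhol := (good_of_mem hu).hol
    obtain ⟨P, h1, h2, h3⟩ := exists_expansion_cayley τ₀ hhol
    have e2 : s u = HahnSeries.ofPowerSeries ℤ ℂ P := by
      show s (algebraMap (GoodAlg ℂ Γ M) _ ⟨_, hu⟩) = _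
      rw [hs, sFF_algebraMap, sA_mk]
      apply phi_eq
      refine ⟨h1, fun τ hτ => ?_⟩
      rw [h2, inv_one]
      show _ = ev ℂ (u : LaurentSeries ℂ) ((1 : SL(2, ℤ)) • τ)
      rw [one_smul]
    rw [e2]
    exact (h3 r hr.symm).2
  have h4 := hmo u
  rw [hsu] at h4
  obtain ⟨k, hk⟩ := hdiv v
  rw [hk] at h4
  have h5 : (n : ℤ) ∣ (r : ℤ) := ⟨m * k, by rw [h4]; ring⟩
  exact_mod_cast h5

/-- the expansion of `u ∘ δ` at the cusp has order divisible by `n` -/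
theorem exists_expansion_cusp {n : ℕ} (u : FF ℂ Γ M) (hu : (u : LaurentSeries ℂ) ∈ GoodAlg ℂ Γ M)
    (hdiv : ∀ v : Place ℂ (FF ℂ Γ M), (n : ℤ) ∣ v.ord u) (δ : SL(2, ℤ)) :
    ∃ F : LaurentSeries ℂ, HasExpC (fun τ : ℍ => 𝕢 (M : ℝ) τ)
      (compHom δ (ev ℂ (u : LaurentSeries ℂ))) F ∧ (n : ℤ) ∣ F.order := by
  have : FunField ℂ (FF ℂ Γ M) := funField_FF ℂ Γ M
  obtain ⟨c, h1, h2, h3⟩ := lchart_cusp ℂ Γ M
  set hz := goodChart_qParam ℂ Γ M
  have hq : HasExpC (fun τ : ℍ => 𝕢 (M : ℝ) τ) jInv (qExpand ℂ M (jqModC ℂ)) :=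
    ⟨isConv_qExpand M isConv_jqModC, fun τ _ => evalAt_qExpand_J isConv_jqModC evalAt_jqModC M τ⟩
  have hne : qExpand ℂ M (jqModC ℂ) ≠ 0 := by
    intro h
    have := order_qExpand M (jqModC ℂ)
    rw [h, order_jqModC, HahnSeries.order_zero] at this
    have hM : (M : ℤ) ≠ 0 := by exact_mod_cast NeZero.ne M
    apply hM; linarith
  set s := sFF hz (QuotientGroup.mk δ⁻¹) with hs
  obtain ⟨v, hv⟩ := exists_place_of_embedding s (x := (jFF ℂ Γ M)⁻¹) (by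
    rw [map_inv₀, hs, sFF_jFF hz _ hq, order_inv' hne, order_qExpand, order_jqModC]
    have : (0 : ℤ) < M := by exact_mod_cast Nat.pos_of_ne_zero (NeZero.ne M)
    linarith)
  obtain ⟨m, hm, hmo⟩ := exists_order_eq_mul v s hv
  have e2 : s u = phi hz δ ⟨_, hu⟩ := by
    show s (algebraMap (GoodAlg ℂ Γ M) _ ⟨_, hu⟩) = _
    rw [hs, sFF_algebraMap, sA_mk, inv_inv]
  refine ⟨s u, ?_, ?_⟩
  · rw [e2]; exact phi_spec hz δ ⟨_, hu⟩
  · rw [hmo]
    exact dvd_mul_of_dvd_right (hdiv v) _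

/-- the `n`-th root has Laurent expansions at the cusps -/
theorem root_exp {n : ℕ} (hn : n ≠ 0) (u : FF ℂ Γ M)
    (hu : (u : LaurentSeries ℂ) ∈ GoodAlg ℂ Γ M)
    (hu0 : ev ℂ (u : LaurentSeries ℂ) ≠ 0)
    (hdiv : ∀ v : Place ℂ (FF ℂ Γ M), (n : ℤ) ∣ v.ord u) {h : ℍ → ℂ} (hh : h ∈ Hol)
    (hhn : ∀ τ, h τ ^ n = ev ℂ (u : LaurentSeries ℂ) τ)
    (hwid : ∀ (δ : SL(2, ℤ)) (τ : ℍ), ev ℂ (u : LaurentSeries ℂ) (δ • T ^ M • τ) =
      ev ℂ (u : LaurentSeries ℂ) (δ • τ)) (δ : SL(2, ℤ)) :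
    compHom δ h ∈ ExpAlg (chart_qParam M) := by
  have hM0 : M ≠ 0 := NeZero.ne M
  haveI : NeZero n := ⟨hn⟩
  haveI : NeZero (M * n) := ⟨mul_ne_zero hM0 hn⟩
  set f := compHom δ h with hf
  have hfHol : f ∈ Hol := compHom_mem_Hol δ hh
  have hf0 : f ≠ 0 := by
    intro h0
    apply hu0
    ext τ
    rw [← hhn]
    have := congrFun h0 (δ⁻¹ • τ)
    simp only [hf, compHom_apply, smul_inv_smul, Pi.zero_apply] at this
    rw [this, zero_pow hn]; rfl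
  have hfn : ∀ τ, f τ ^ n = compHom δ (ev ℂ (u : LaurentSeries ℂ)) τ := fun τ => hhn _
  -- quasi-periodicity
  obtain ⟨ζ, hζ, hfT⟩ := exists_rootOfUnity_of_fun_pow_eq hn
    (f := fun τ => f (T ^ M • τ)) (g := f) (compHom_mem_Hol (T ^ M) hfHol) hfHol hf0 (fun τ => by
      rw [hfn, hfn, compHom_apply, compHom_apply, hwid])
  obtain ⟨F, hF, r', hr'⟩ := exists_expansion_cusp u hu hdiv δ
  -- growth
  obtain ⟨N, hN⟩ := bdd_of_hasExpC M hF
  have hqle : ∀ τ : ℍ, ‖𝕢 (M : ℝ) τ‖ ≤ 1 := fun τ => ((chart_qParam M).lt τ).le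
  -- boundedness in the coordinate of width `L`, `M ∣ L`
  have hbd : ∀ d : ℕ, 0 < d → ∀ [NeZero (M * d)],
      IsBoundedAtImInfty (fun τ : ℍ => 𝕢 ((M * d : ℕ) : ℝ) τ ^ (d * N) * f τ) := by
    intro d hd _
    haveI : NeZero d := ⟨hd.ne'⟩
    rw [UpperHalfPlane.isBoundedAtImInfty_iff] at hN ⊢
    obtain ⟨C, A, hC⟩ := hN
    refine ⟨max 1 C, A, fun τ hτ => ?_⟩
    have h1 := hC τ hτ
    have h2 : 𝕢 ((M * d : ℕ) : ℝ) τ ^ (d * N) = 𝕢 (M : ℝ) τ ^ N := by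
      rw [pow_mul, qParam_pow]
    rw [h2]
    by_contra hlt
    push Not at hlt
    have h3 : 1 < ‖𝕢 (M : ℝ) τ ^ N * f τ‖ := lt_of_le_of_lt (le_max_left _ _) hlt
    have h4 : ‖𝕢 (M : ℝ) τ ^ N * f τ‖ ≤ ‖𝕢 (M : ℝ) τ ^ N * f τ‖ ^ n :=
      le_self_pow₀ h3.le hn
    have h5 : ‖𝕢 (M : ℝ) τ ^ N * f τ‖ ^ n ≤
        ‖𝕢 (M : ℝ) τ ^ N * compHom δ (ev ℂ (u : LaurentSeries ℂ)) τ‖ := by
      rw [← hfn, ← norm_pow, mul_pow, norm_mul, norm_mul, norm_pow, norm_pow]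
      refine mul_le_mul_of_nonneg_right ?_ (norm_nonneg _)
      exact pow_le_of_le_one (by positivity) (pow_le_one₀ (norm_nonneg _) (hqle τ)) hn
    have h6 := le_max_right 1 C
    linarith
  -- expansion in the larger coordinate
  have hper : ∀ τ : ℍ, f (T ^ (M * n) • τ) = f τ := by
    have h1 : ∀ (k : ℕ) (τ : ℍ), f (T ^ (M * k) • τ) = (ζ : ℂ) ^ k * f τ := by
      intro k
      induction k with
      | zero => intro τ; simp
      | succ k ih =>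
        intro τ
        have h2 := hfT (T ^ (M * k) • τ)
        have h3 : T ^ (M * (k + 1)) = T ^ M * T ^ (M * k) := by
          rw [← pow_add]; congr 1; ring
        rw [h3, mul_smul]
        refine h2.trans ?_
        rw [ih, pow_succ]
        ring
    intro τ
    rw [h1, ← Units.val_pow_eq_pow_val, hζ]; simp
  have hn' : 0 < n := Nat.pos_of_ne_zero hn
  obtain ⟨G, hG⟩ := expAlg_of_bdd (M * n) hfHol hper _ (hbd n hn')
  have hG0 : G ≠ 0 := hasExpC_ne_zero (chart_qParam (M * n)) hfHol hG hf0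
  -- its order
  have hGF : G ^ n = qExpand ℂ n F := by
    have h1 : HasExpC (fun τ : ℍ => 𝕢 ((M * n : ℕ) : ℝ) τ)
        (compHom δ (ev ℂ (u : LaurentSeries ℂ))) (G ^ n) :=
      ⟨isConv_pow hG.1 n, fun τ hτ => by
        rw [evalAt_pow hG.1 n hτ ((chart_qParam (M * n)).lt τ), hG.2 τ hτ, hfn]⟩
    have h2 : HasExpC (fun τ : ℍ => 𝕢 ((M * n : ℕ) : ℝ) τ)
        (compHom δ (ev ℂ (u : LaurentSeries ℂ))) (qExpand ℂ n F) :=
      ⟨isConv_qExpand n hF.1, fun τ hτ => by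
        rw [evalAt_qExpand n hF.1 hτ ((chart_qParam (M * n)).lt τ), qParam_pow,
          hF.2 τ (Function.Periodic.qParam_ne_zero _)]⟩
    exact h1.unique (chart_qParam (M * n)) h2
  have hGo : G.order = n * r' := by
    have h1 := congrArg HahnSeries.order hGF
    rw [order_pow', order_qExpand, hr'] at h1
    exact mul_left_cancel₀ (by exact_mod_cast hn) h1
  -- the multiplier is trivial
  have hζ1 : ζ = 1 := by
    have hnorm : ‖((zetaU (M * n) ^ M : ℂˣ) : ℂ)‖ = 1 := by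
      rw [Units.val_pow_eq_pow_val, norm_pow, norm_zetaU, one_pow]
    have h1 : HasExpC (fun τ : ℍ => 𝕢 ((M * n : ℕ) : ℝ) τ) (fun τ => f (T ^ M • τ))
        (twist (zetaU (M * n) ^ M) G) := by
      refine ⟨isConv_twist hnorm hG.1, fun τ hτ => ?_⟩
      rw [evalAt_twist, ← qParam_T_pow', hG.2 _ (Function.Periodic.qParam_ne_zero _)]
    have hC : IsConv (HahnSeries.C (ζ : ℂ)) := isConv_single 0 _
    have h2 : HasExpC (fun τ : ℍ => 𝕢 ((M * n : ℕ) : ℝ) τ) (fun τ => f (T ^ M • τ))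
        (HahnSeries.C (ζ : ℂ) * G) := by
      refine ⟨hC.mul hG.1, fun τ hτ => ?_⟩
      rw [evalAt_mul hC hG.1 hτ ((chart_qParam (M * n)).lt τ), hG.2 _ hτ]
      refine Eq.trans ?_ (hfT τ).symm
      congr 1
      have := evalAt_single 0 (ζ : ℂ) (𝕢 ((M * n : ℕ) : ℝ) τ)
      simpa using this
    have h3 := congrArg (fun F : LaurentSeries ℂ => F.coeff G.order)
      (h1.unique (chart_qParam (M * n)) h2)
    have h4 : (HahnSeries.C (ζ : ℂ) * G).coeff G.order = (ζ : ℂ) * G.coeff G.order := by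
      rw [HahnSeries.C_mul_eq_smul, HahnSeries.coeff_smul, smul_eq_mul]
    simp only [twist_coeff] at h3
    rw [h4] at h3
    have h5 := mul_right_cancel₀ (fun h => hG0 (HahnSeries.coeff_order_eq_zero.mp h)) h3
    apply Units.ext
    rw [← h5, hGo]
    have h6 : (zetaU (M * n) ^ M) ^ ((n : ℤ) * r') = 1 := by
      rw [zpow_mul, zpow_natCast, ← pow_mul]
      have h7 : zetaU (M * n) ^ (M * n) = 1 := by
        apply Units.ext
        rw [Units.val_pow_eq_pow_val]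
        exact (zetaU_isPrimitiveRoot (M * n)).pow_eq_one
      rw [h7, one_zpow]
    rw [h6]
  have hper' : ∀ τ : ℍ, f (T ^ M • τ) = f τ := fun τ => by
    have := hfT τ
    rw [hζ1, Units.val_one, one_mul] at this
    exact this
  haveI : NeZero (M * 1) := ⟨by rw [mul_one]; exact hM0⟩
  have hb1 := hbd 1 one_pos
  refine expAlg_of_bdd M hfHol hper' (1 * N) ?_
  simpa using hb1

end

end

end Fermat.Agent.H78.FF
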