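import Mathlib
import Fermat.Agent.H58Dict
import Fermat.Agent.H58Num
import Fermat.Agent.H78KICore
import Fermat.Agent.H78FFRoot
import Fermat.Agent.H22TwCanon
import Fermat.Agent.H22TwRoot
import Fermat.Agent.H22TwPm
import Fermat.Agent.H50Inputs

/-!
# Kummer injectivity for `±Γ₁(M)` from the core statement on weight-zero functions
-/

set_option autoImplicit false
set_option linter.unusedSectionVars false

namespace Fermat.Agent.H58

open UpperHalfPlane hiding I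
open Complex MatrixGroups ModularForm Fermat.Agent.H24 Fermat.Agent.H61 Fermat.Agent.H28
  Fermat.Agent.H66 ModularCurve CongruenceSubgroup
open Fermat.Agent.H22.Tw
open Fermat.Agent.H78.KI (GG CoreKI)
open Fermat.Agent.H78.FF (GoodAlg Good)
open scoped Manifold Real

noncomputable section

local notation "𝕢" => Function.Periodic.qParam

local notation "Qb" => AlgebraicClosure ℚ

/-! ### Group theory -/

theorem pow_six_mem_Gamma0 {r : ℕ} (hr : r = 2 ∨ r = 3) (γ : SL(2, ℤ)) : γ ^ 6 ∈ Gamma0 r := by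
  have h2 : (γ ^ 2) 1 0 = γ 1 0 * (γ 0 0 + γ 1 1) := by
    rw [pow_two, Matrix.SpecialLinearGroup.coe_mul, Matrix.mul_apply, Fin.sum_univ_two]
    ring
  have hdet : γ 0 0 * γ 1 1 - γ 0 1 * γ 1 0 = 1 := by
    have := γ.det_coe
    rwa [Matrix.det_fin_two] at this
  have h3 : (γ ^ 3) 1 0 = γ 1 0 * ((γ 0 0 + γ 1 1) ^ 2 - 1) := by
    have h4 : (γ ^ 2) 1 1 = γ 1 0 * γ 0 1 + γ 1 1 * γ 1 1 := by
      rw [pow_two, Matrix.SpecialLinearGroup.coe_mul, Matrix.mul_apply, Fin.sum_univ_two]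
    rw [pow_succ, Matrix.SpecialLinearGroup.coe_mul, Matrix.mul_apply, Fin.sum_univ_two, h2, h4]
    linear_combination (- γ 1 0) * hdet
  have hdec : ∀ c t : ZMod r, c * t = 0 ∨ c * (t ^ 2 - 1) = 0 := by
    rcases hr with rfl | rfl <;> decide
  rcases hdec ((γ 1 0 : ℤ) : ZMod r) (((γ 0 0 + γ 1 1 : ℤ)) : ZMod r) with h | h
  · have h5 : γ ^ 2 ∈ Gamma0 r := by
      rw [Gamma0_mem, h2]
      push_cast at h ⊢
      exact h
    have := pow_mem h5 3
    rwa [← pow_mul] at this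
  · have h5 : γ ^ 3 ∈ Gamma0 r := by
      rw [Gamma0_mem, h3]
      push_cast at h ⊢
      exact h
    have := pow_mem h5 2
    rwa [← pow_mul] at this

theorem conj_T_pow_mem (M r : ℕ) (γ : SL(2, ℤ)) :
    γ * ModularGroup.T ^ (M * r) * γ⁻¹ ∈ GG M r := by
  have h1 : ModularGroup.T ^ (M * r) ∈ CongruenceSubgroup.Gamma (M * r) := by
    have := ModularGroup_T_pow_mem_Gamma ((M * r : ℕ) : ℤ) ((M * r : ℕ) : ℤ) (dvd_refl _)
    rw [zpow_natCast, Int.natAbs_natCast] at this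
    exact this
  have h2 := (Gamma_normal (M * r)).conj_mem _ h1 γ
  rw [Gamma_mem] at h2
  obtain ⟨ha, hb, hc, hd⟩ := h2
  generalize γ * ModularGroup.T ^ (M * r) * γ⁻¹ = g at ha hb hc hd ⊢
  have key : ∀ m : ℕ, m ∣ M * r → ((g 0 0 : ℤ) : ZMod m) = 1 ∧ ((g 1 0 : ℤ) : ZMod m) = 0 ∧
      ((g 1 1 : ℤ) : ZMod m) = 1 := by
    intro m hm
    have e : ∀ x : ℤ, ZMod.castHom hm (ZMod m) (x : ZMod (M * r)) = (x : ZMod m) := fun x =>
      map_intCast _ _
    refine ⟨?_, ?_, ?_⟩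
    · rw [← e, ha, map_one]
    · rw [← e, hc, map_zero]
    · rw [← e, hd, map_one]
  refine ⟨Or.inl ?_, ?_⟩
  · rw [Gamma1_mem]
    obtain ⟨h3, h4, h5⟩ := key M (dvd_mul_right _ _)
    exact ⟨h3, h5, h4⟩
  · exact Gamma0_mem.mpr (key r (dvd_mul_left _ _)).2.1

theorem GG_le_pmG (M r : ℕ) : GG M r ≤ pmG M := inf_le_left

theorem T_mem_GG (M r : ℕ) : ModularGroup.T ∈ GG M r := by
  refine ⟨T_mem_pmG, ?_⟩
  show ModularGroup.T ∈ Gamma0 r
  rw [Gamma0_mem]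
  simp [ModularGroup.T]

/-! ### Number fields -/

/-- Coefficients of a modular form lie in a number field. -/
theorem exists_numberField_coeff {M : ℕ} [NeZero M] (ι : Qb →+* ℂ) {k : ℤ} {f : ℍ → ℂ}
    (hf : IsM (Gamma1 M) k f) (b : ℕ → Qb) (hb : ∀ i, (qExpansion 1 f).coeff i = ι (b i)) :
    ∃ L : IntermediateField ℚ Qb, FiniteDimensional ℚ L ∧ ∀ i, b i ∈ L := by
  classical
  have hfg := H50.fg_span_coeffM (Γ := Gamma1 M) H50.one_mem_strictPeriods_Gamma1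
    (H50.hasPrim_Gamma1 M) hf.toMF
  have hfg' : (Submodule.span ℤ (Set.range b)).FG := by
    let L : Qb →ₗ[ℤ] ℂ := ι.toAddMonoidHom.toIntLinearMap
    have hL : Function.Injective L := ι.injective
    refine Submodule.fg_of_fg_map_injective L hL ?_
    rw [Submodule.map_span]
    convert! hfg using 2
    ext y
    constructor
    · rintro ⟨_, ⟨n, rfl⟩, rfl⟩
      exact ⟨n, hb n⟩
    · rintro ⟨n, rfl⟩
      exact ⟨b n, ⟨n, rfl⟩, (hb n).symm⟩
  obtain ⟨s, hs⟩ := hfg'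
  have halg : ∀ x : Qb, IsIntegral ℚ x := fun x =>
    ((AlgebraicClosure.isAlgebraic ℚ).isAlgebraic x).isIntegral
  refine ⟨IntermediateField.adjoin ℚ (s : Set Qb),
    IntermediateField.finiteDimensional_adjoin fun x _ => halg x, ?_⟩
  intro i
  have h1 : b i ∈ Submodule.span ℤ (s : Set Qb) := by
    rw [hs]; exact Submodule.subset_span ⟨i, rfl⟩
  refine Submodule.span_induction (p := fun y _ => y ∈ IntermediateField.adjoin ℚ (s : Set Qb))
    ?_ ?_ ?_ ?_ h1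
  · exact fun y hy => IntermediateField.subset_adjoin ℚ _ hy
  · exact zero_mem _
  · exact fun y z _ _ h1 h2 => add_mem h1 h2
  · intro a y _ h
    exact zsmul_mem h a

/-! ### Coefficients of `F * UL` -/

section Coeff

variable {K : Type*} [Field K] (a b s : ℕ)

/-- coefficients in a subring -/
theorem coeff_mul_UL_mem {S : Type*} [SetLike S K] [SubringClass S K] (A : S) (c : ℕ → K)
    (hc : ∀ i, c i ∈ A) (i : ℤ) :
    (HahnSeries.ofPowerSeries ℤ K (PowerSeries.mk c) * UL a b s K).coeff i ∈ A := by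
  have h1 : HahnSeries.ofPowerSeries ℤ K (PowerSeries.mk c) * UL a b s K =
      coeffMap (SubringClass.subtype A) (HahnSeries.ofPowerSeries ℤ A
        (PowerSeries.mk fun i => ⟨c i, hc i⟩) * UL a b s A) := by
    rw [map_mul, coeffMap_UL, coeffMap_ofPowerSeries]
    congr 2
  rw [h1, coeffMap_coeff]
  exact Subtype.prop _

variable (A : ValuationSubring K)

/-- reduction of `F * UL` -/
theorem coeffMap_residue_mul_UL (c : ℕ → K) (hc : ∀ i, c i ∈ A) :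
    ∃ F : LaurentSeries A, coeffMap A.subtype F =
        HahnSeries.ofPowerSeries ℤ K (PowerSeries.mk c) * UL a b s K ∧
      coeffMap (IsLocalRing.residue A) F =
        HahnSeries.ofPowerSeries ℤ _ (PowerSeries.mk fun i => IsLocalRing.residue A ⟨c i, hc i⟩) *
          UL a b s _ := by
  refine ⟨HahnSeries.ofPowerSeries ℤ A (PowerSeries.mk fun i => ⟨c i, hc i⟩) * UL a b s A, ?_, ?_⟩
  · rw [map_mul, coeffMap_UL, coeffMap_ofPowerSeries]
    congr 2
  · rw [map_mul, coeffMap_UL, coeffMap_ofPowerSeries]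
    congr 2

theorem coeff_sub_mem_nonunits {c d : ℕ → K} (hc : ∀ i, c i ∈ A) (hd : ∀ i, d i ∈ A)
    (hcd : ∀ i, c i - d i ∈ A.nonunits) (i : ℤ) :
    (HahnSeries.ofPowerSeries ℤ K (PowerSeries.mk c) * UL a b s K).coeff i -
      (HahnSeries.ofPowerSeries ℤ K (PowerSeries.mk d) * UL a b s K).coeff i ∈ A.nonunits := by
  obtain ⟨F, hF1, hF2⟩ := coeffMap_residue_mul_UL a b s A c hc
  obtain ⟨G, hG1, hG2⟩ := coeffMap_residue_mul_UL a b s A d hd
  have h : coeffMap (IsLocalRing.residue A) F = coeffMap (IsLocalRing.residue A) G := by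
    rw [hF2, hG2]
    congr 3
    ext j
    rw [← sub_eq_zero, ← map_sub, IsLocalRing.residue_eq_zero_iff]
    have h1 := hcd j
    rw [ValuationSubring.mem_nonunits_iff_exists_mem_maximalIdeal] at h1
    obtain ⟨_, h2⟩ := h1
    exact h2
  rw [← hF1, ← hG1, coeffMap_coeff, coeffMap_coeff,
    ValuationSubring.mem_nonunits_iff_exists_mem_maximalIdeal]
  refine ⟨A.sub_mem (F.coeff i).2 (G.coeff i).2, ?_⟩
  have h1 := congrArg (fun H : LaurentSeries (IsLocalRing.ResidueField A) => H.coeff i) h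
  simp only [coeffMap_coeff] at h1
  rw [← sub_eq_zero, ← map_sub, IsLocalRing.residue_eq_zero_iff] at h1
  exact h1

theorem exists_coeff_notMem_nonunits {c : ℕ → K} (hc : ∀ i, c i ∈ A)
    (hne : ∃ i, c i ∉ A.nonunits) :
    ∃ i : ℤ, (HahnSeries.ofPowerSeries ℤ K (PowerSeries.mk c) * UL a b s K).coeff i ∉
      A.nonunits := by
  obtain ⟨F, hF1, hF2⟩ := coeffMap_residue_mul_UL a b s A c hc
  by_contra hcon
  push Not at hcon
  have h1 : coeffMap (IsLocalRing.residue A) F = 0 := by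
    ext i
    rw [coeffMap_coeff, HahnSeries.coeff_zero, IsLocalRing.residue_eq_zero_iff]
    have h2 := hcon i
    rw [← hF1, coeffMap_coeff, ValuationSubring.mem_nonunits_iff_exists_mem_maximalIdeal] at h2
    obtain ⟨_, h3⟩ := h2
    exact h3
  rw [hF2, mul_eq_zero] at h1
  rcases h1 with h1 | h1
  · obtain ⟨i, hi⟩ := hne
    apply hi
    have h2 : (PowerSeries.mk fun i => IsLocalRing.residue A ⟨c i, hc i⟩) = 0 :=
      HahnSeries.ofPowerSeries_injective (h1.trans (map_zero _).symm)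
    have h3 := congrArg (PowerSeries.coeff i) h2
    rw [PowerSeries.coeff_mk, map_zero, IsLocalRing.residue_eq_zero_iff] at h3
    rw [ValuationSubring.mem_nonunits_iff_exists_mem_maximalIdeal]
    exact ⟨hc i, h3⟩
  · exact (hasLead_UL _).ne_zero one_ne_zero h1

end Coeff

/-! ### Orders -/

theorem order_coeffMap {R S : Type*} [CommRing R] [CommRing S] {φ : R →+* S}
    (hφ : Function.Injective φ) {x : LaurentSeries R} (hx : x ≠ 0) :
    (coeffMap φ x).order = x.order := by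
  have h0 : (coeffMap φ x).coeff x.order ≠ 0 := by
    rw [coeffMap_coeff]
    exact (map_ne_zero_iff φ hφ).mpr (HahnSeries.coeff_order_eq_zero.not.mpr hx)
  have h1 : coeffMap φ x ≠ 0 := by
    rintro h
    rw [h, HahnSeries.coeff_zero] at h0
    exact h0 rfl
  refine le_antisymm (HahnSeries.order_le_of_coeff_ne_zero h0)
    (HahnSeries.order_le_of_coeff_ne_zero ?_)
  intro h
  have h2 := HahnSeries.coeff_order_eq_zero.not.mpr h1
  rw [coeffMap_coeff, h, map_zero] at h2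
  exact h2 rfl

section Tw

variable {Γ : Subgroup SL(2, ℤ)} {χ : Γ →* ℂˣ} {k : ℤ} {x : ℍ → ℂ} {n : ℕ}

theorem IsTw.T_per (hx : IsTw Γ χ k x) (hT : ModularGroup.T ∈ Γ) (hχ : IsPar χ) (τ : ℍ) :
    x (ModularGroup.T • τ) = x τ := by
  have h := slash_T_pow_apply k x 1 τ
  have h1 := hx.slash ⟨ModularGroup.T, hT⟩
  rw [hχ.T_eq_one hT, Units.val_one, one_smul] at h1
  rw [pow_one, h1] at h
  exact h.symm

theorem IsTw.hasExp (hx : IsTw Γ χ k x) (hT : ModularGroup.T ∈ Γ) (hχ : IsPar χ) :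
    HasExp 1 x (HahnSeries.ofPowerSeries ℤ ℂ (qExpansion 1 x)) := by
  refine hasExp_of_bdd hx.holo (IsTw.T_per hx hT hχ) ?_
  have := hx.bdd 1
  rwa [SlashAction.slash_one] at this

variable {a b s : ℕ}

/-- the order of the weight-zero function `x ^ n U ^ n` is divisible by `n` -/
theorem dvd_order_of_tw (hx : IsTw Γ χ k x) (hT : ModularGroup.T ∈ Γ) (hχ : IsPar χ)
    (hχn : χ ^ n = 1) (K : Type*) [Field K] [Algebra K ℂ] (c : ℕ → K)
    (hc : ∀ i, (qExpansion 1 (x ^ n)).coeff i = algebraMap K ℂ (c i)) (h0 : ∃ i, c i ≠ 0) :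
    (n : ℤ) ∣ (HahnSeries.ofPowerSeries ℤ K (PowerSeries.mk c) *
      UL (n * a) (n * b) (n * s) K).order := by
  have hP : (PowerSeries.mk c).map (algebraMap K ℂ) = qExpansion 1 (x ^ n) := by
    ext i
    rw [PowerSeries.coeff_map, PowerSeries.coeff_mk, hc]
  have hincl : coeffMap (algebraMap K ℂ) (HahnSeries.ofPowerSeries ℤ K (PowerSeries.mk c) *
      UL (n * a) (n * b) (n * s) K) = (HahnSeries.ofPowerSeries ℤ ℂ (qExpansion 1 x) *
        UL a b s ℂ) ^ n := by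
    have h1 : HasExp 1 (x ^ n * U (n * a) (n * b) (n * s))
        (HahnSeries.ofPowerSeries ℤ ℂ (qExpansion 1 (x ^ n)) *
          UL (n * a) (n * b) (n * s) ℂ) :=
      (IsM.hasExp (hx.isM_of_pow hχn) hT).mul hasExp_U
    have h2 : HasExp 1 ((x * U a b s) ^ n) ((HahnSeries.ofPowerSeries ℤ ℂ (qExpansion 1 x) *
        UL a b s ℂ) ^ n) := ((IsTw.hasExp hx hT hχ).mul hasExp_U).pow n
    rw [mul_pow, U_pow] at h2
    rw [map_mul, coeffMap_UL, coeffMap_ofPowerSeries, hP]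
    exact HasExp.unique one_pos h1 h2
  have hne : HahnSeries.ofPowerSeries ℤ K (PowerSeries.mk c) *
      UL (n * a) (n * b) (n * s) K ≠ 0 := by
    refine mul_ne_zero ?_ ((hasLead_UL K).ne_zero one_ne_zero)
    intro h
    obtain ⟨i, hi⟩ := h0
    have h2 : PowerSeries.mk c = 0 :=
      HahnSeries.ofPowerSeries_injective (h.trans (map_zero _).symm)
    have h3 := congrArg (PowerSeries.coeff i) h2
    rw [PowerSeries.coeff_mk, map_zero] at h3
    exact hi h3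
  rw [← order_coeffMap (algebraMap K ℂ).injective hne, hincl, HahnSeries.order_pow, nsmul_eq_mul]
  exact dvd_mul_right _ _

theorem compHom_tw (hx : IsTw Γ χ k x) (hk : (4 * a + 6 * b - 12 * s : ℤ) = -k) (γ : Γ) :
    compHom (γ : SL(2, ℤ)) (x * U a b s) = (χ γ : ℂ) • (x * U a b s) := by
  rw [compHom_mul_U hk, hx.slash, smul_mul_assoc]

end Tw

/-- The two characters agree on `Γ' ≤ Γ` -/
theorem char_eq_of_rel {Γ : Subgroup SL(2, ℤ)} {χ₁ χ₂ : Γ →* ℂˣ} {n : ℕ} (hn : n ≠ 0)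
    {h₁ h₂ A B : ℍ → ℂ} (hh₁ : h₁ ∈ Hol) (hh₂ : h₂ ∈ Hol) (hA : A ∈ Hol) (hB : B ∈ Hol)
    (h10 : h₁ ≠ 0) (hB0 : B ≠ 0) (hrel : h₁ ^ n * B ^ n = A ^ n * h₂ ^ n) (γ : Γ)
    (h1 : compHom (γ : SL(2, ℤ)) h₁ = (χ₁ γ : ℂ) • h₁)
    (h2 : compHom (γ : SL(2, ℤ)) h₂ = (χ₂ γ : ℂ) • h₂)
    (hAγ : compHom (γ : SL(2, ℤ)) A = A) (hBγ : compHom (γ : SL(2, ℤ)) B = B) :
    χ₁ γ = χ₂ γ := by
  rw [← mul_pow, ← mul_pow] at hrel
  obtain ⟨ζ, -, hζ⟩ := exists_root_of_pow_eq hn (f := h₁ * B) (g := A * h₂)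
    (Hol.mul_mem hh₁ hB) (Hol.mul_mem hA hh₂) hrel
  have h3 := congrArg (compHom (γ : SL(2, ℤ))) hζ
  rw [map_mul, map_smul, map_mul, h1, h2, hAγ, hBγ, smul_mul_assoc, mul_smul_comm, smul_comm ζ,
    ← hζ] at h3
  have h4 : h₁ * B ≠ 0 := by
    intro h
    rcases (mul_eq_zero_iff (f := h₁) (g := B) hh₁ hB).1 h with h | h
    · exact h10 h
    · exact hB0 h
  obtain ⟨τ, hτ⟩ : ∃ τ, (h₁ * B) τ ≠ 0 := by
    by_contra hcon
    push Not at hcon
    exact h4 (funext hcon)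
  have h5 := congrFun h3 τ
  rw [Pi.smul_apply, Pi.smul_apply, smul_eq_mul, smul_eq_mul] at h5
  exact Units.ext (mul_right_cancel₀ hτ h5)

/-- Characters of order dividing `n`, `(n, 6) = 1`, are determined by their sixth powers. -/
theorem eq_of_pow_six {G : Type*} [CommGroup G] {u v : G} {n : ℕ} (hn : n.Prime) (hn5 : 5 ≤ n)
    (hu : u ^ n = 1) (hv : v ^ n = 1) (h : u ^ 6 = v ^ 6) : u = v := by
  have h1 : (u / v) ^ 6 = 1 := by rw [div_pow, h, div_self']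
  have h2 : (u / v) ^ n = 1 := by rw [div_pow, hu, hv, div_one]
  have hc : Nat.Coprime 6 n := by
    rw [show 6 = 2 * 3 from rfl, Nat.coprime_mul_iff_left]
    constructor
    · rw [Nat.coprime_primes Nat.prime_two hn]; omega
    · rw [Nat.coprime_primes Nat.prime_three hn]; omega
  have h3 : orderOf (u / v) ∣ Nat.gcd 6 n :=
    Nat.dvd_gcd (orderOf_dvd_of_pow_eq_one h1) (orderOf_dvd_of_pow_eq_one h2)
  rw [hc, Nat.dvd_one, orderOf_eq_one_iff, div_eq_one] at h3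
  exact h3

theorem ev_pow_of_good {K : Type*} [Field K] [Algebra K ℂ] {Γ : Subgroup SL(2, ℤ)} {D : ℕ}
    [NeZero D] {x : LaurentSeries K} (hx : x ∈ GoodAlg K Γ D) (n : ℕ) :
    ev K (x ^ n) = ev K x ^ n := by
  induction n with
  | zero =>
    have := ev_algebraMap K (1 : K)
    rw [map_one, map_one, map_one] at this
    rw [pow_zero, pow_zero, this]
  | succ n ih =>
    rw [pow_succ, pow_succ, ev_mul K (Fermat.Agent.H78.FF.good_of_mem (pow_mem hx n)).conv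
      (Fermat.Agent.H78.FF.good_of_mem hx).conv, ih]

/-- The core argument for one auxiliary prime `r`. -/
theorem char_eq_core {M n r : ℕ} [NeZero (M * r)] (hM : 5 ≤ M) (hn : n.Prime) (hn5 : 5 ≤ n)
    (hr : r = 2 ∨ r = 3) (hcore : CoreKI M r n) {p : ℕ} (hp : p.Prime) (hpM : ¬ p ∣ M)
    (hpn : ¬ p ∣ n) (hpr : p ≠ r) (A : ValuationSubring Qb) (hA : A.LiesOverPrime p)
    (ι : Qb →+* ℂ) {k : ℤ} (hk : Even k) {χ₁ χ₂ : pmG M →* ℂˣ} (hχ₁ : χ₁ ∈ parChar (pmG M) n)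
    (hχ₂ : χ₂ ∈ parChar (pmG M) n) {x y : ℍ → ℂ} (hx : IsTw (pmG M) χ₁ k x)
    (hy : IsTw (pmG M) χ₂ k y) (a b : ℕ → Qb) (haA : ∀ i, a i ∈ A) (hbA : ∀ i, b i ∈ A)
    (ha : ∀ i, (qExpansion 1 (x ^ n)).coeff i = ι (a i))
    (hb : ∀ i, (qExpansion 1 (y ^ n)).coeff i = ι (b i))
    (hab : ∀ i, a i - b i ∈ A.nonunits) (hne : ∃ i, a i ∉ A.nonunits) : χ₁ = χ₂ := by
  let : Algebra Qb ℂ := ι.toAlgebra
  have : NeZero M := ⟨by omega⟩
  have hn0 : n ≠ 0 := hn.ne_zero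
  obtain ⟨α, β, s, hw⟩ := exists_weight hk
  have hwn : (4 * ((n * α : ℕ) : ℤ) + 6 * ((n * β : ℕ) : ℤ) - 12 * ((n * s : ℕ) : ℤ) : ℤ) =
      -((n : ℤ) * k) := by
    push_cast
    linear_combination (n : ℤ) * hw
  have hxM : IsM (pmG M) ((n : ℤ) * k) (x ^ n) := hx.isM_of_pow hχ₁.1
  have hyM : IsM (pmG M) ((n : ℤ) * k) (y ^ n) := hy.isM_of_pow hχ₂.1
  obtain ⟨hg1, hev1⟩ := good_form (hxM.mono (GG_le_pmG M r)) (T_mem_GG M r) hwn (D := M * r)
    (conj_T_pow_mem M r) Qb a ha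
  obtain ⟨hg2, hev2⟩ := good_form (hyM.mono (GG_le_pmG M r)) (T_mem_GG M r) hwn (D := M * r)
    (conj_T_pow_mem M r) Qb b hb
  obtain ⟨L₁, hL₁, haL⟩ := exists_numberField_coeff ι (hxM.mono (Gamma1_le_pmG M)) a ha
  obtain ⟨L₂, hL₂, hbL⟩ := exists_numberField_coeff ι (hyM.mono (Gamma1_le_pmG M)) b hb
  have hnu0 : (0 : Qb) ∈ A.nonunits := by
    rw [ValuationSubring.mem_nonunits_iff_exists_mem_maximalIdeal]
    exact ⟨A.zero_mem, zero_mem _⟩
  have ha0 : ∃ i, a i ≠ 0 := by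
    obtain ⟨i, hi⟩ := hne
    exact ⟨i, fun h => hi (h ▸ hnu0)⟩
  have hb0 : ∃ i, b i ≠ 0 := by
    obtain ⟨i, hi⟩ := hne
    refine ⟨i, fun h => hi ?_⟩
    have := hab i
    rwa [h, sub_zero] at this
  have hx0 : x ≠ 0 := by
    rintro rfl
    obtain ⟨i, hi⟩ := ha0
    have h1 := ha i
    have h2 : ((0 : ℍ → ℂ) ^ n) = 0 := zero_pow hn0
    rw [h2, UpperHalfPlane.qExpansion_zero, map_zero] at h1
    exact hi ((map_eq_zero ι).1 h1.symm)
  obtain ⟨a', ha', b', hb', hb'0, hrel⟩ := hcore p hp hpM hpr hpn A hA (L₁ ⊔ L₂) inferInstance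
    _ hg1 _ hg2
    (coeff_mul_UL_mem _ _ _ (L₁ ⊔ L₂) a fun i => (le_sup_left : L₁ ≤ L₁ ⊔ L₂) (haL i))
    (coeff_mul_UL_mem _ _ _ (L₁ ⊔ L₂) b fun i => (le_sup_right : L₂ ≤ L₁ ⊔ L₂) (hbL i))
    (coeff_mul_UL_mem _ _ _ A a haA) (coeff_mul_UL_mem _ _ _ A b hbA)
    (coeff_sub_mem_nonunits _ _ _ A haA hbA hab) (exists_coeff_notMem_nonunits _ _ _ A haA hne)
    (dvd_order_of_tw hx T_mem_pmG hχ₁.2 hχ₁.1 Qb a ha ha0)
    (dvd_order_of_tw hy T_mem_pmG hχ₂.2 hχ₂.1 Qb b hb hb0)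
    (x * U α β s) (Hol.mul_mem hx.holo U_mem_Hol) (y * U α β s) (Hol.mul_mem hy.holo U_mem_Hol)
    (fun τ => by
      rw [hev1, ← U_pow, ← mul_pow]
      rfl)
    (fun τ => by
      rw [hev2, ← U_pow, ← mul_pow]
      rfl)
  have hga := Fermat.Agent.H78.FF.good_of_mem ha'
  have hgb := Fermat.Agent.H78.FF.good_of_mem hb'
  have hrel' : (x * U α β s) ^ n * ev Qb b' ^ n = ev Qb a' ^ n * (y * U α β s) ^ n := by
    have h1 := congrArg (ev Qb) hrel
    rw [ev_mul Qb hg1.conv (Fermat.Agent.H78.FF.good_of_mem (pow_mem hb' n)).conv,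
      ev_mul Qb (Fermat.Agent.H78.FF.good_of_mem (pow_mem ha' n)).conv hg2.conv,
      ev_pow_of_good hb', ev_pow_of_good ha', hev1, hev2, ← U_pow] at h1
    rw [mul_pow x, mul_pow y]
    exact h1
  have hevb : ev Qb b' ≠ 0 := by
    intro h
    apply hb'0
    refine ev_injective_of_conv Qb hgb.conv
      (Fermat.Agent.H78.FF.good_of_mem (zero_mem (GoodAlg Qb (GG M r) (M * r)))).conv ?_
    have := ev_algebraMap Qb (0 : Qb)
    rw [map_zero, map_zero, map_zero] at this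
    rw [h, this]
  have hxU : x * U α β s ≠ 0 := by
    intro h
    rcases (mul_eq_zero_iff (f := x) (g := U α β s) hx.holo U_mem_Hol).1 h with h | h
    · exact hx0 h
    · exact U_ne_zero h
  ext γ
  have h6 : (γ : SL(2, ℤ)) ^ 6 ∈ GG M r :=
    ⟨pow_mem γ.2 6, pow_six_mem_Gamma0 hr γ⟩
  have h7 : χ₁ (γ ^ 6) = χ₂ (γ ^ 6) :=
    char_eq_of_rel hn0 (Hol.mul_mem hx.holo U_mem_Hol) (Hol.mul_mem hy.holo U_mem_Hol)
      hga.hol hgb.hol hxU hevb hrel' (γ ^ 6) (compHom_tw hx hw _) (compHom_tw hy hw _)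
      (hga.inv _ h6) (hgb.inv _ h6)
  rw [map_pow, map_pow] at h7
  have h8 : χ₁ γ ^ n = 1 := by
    rw [← MonoidHom.pow_apply, hχ₁.1, MonoidHom.one_apply]
  have h9 : χ₂ γ ^ n = 1 := by
    rw [← MonoidHom.pow_apply, hχ₂.1, MonoidHom.one_apply]
  rw [eq_of_pow_six hn hn5 h8 h9 h7]

/-- **(KI′) from the core statements** at the auxiliary levels `2`, `3`. -/
theorem KIIn_of {M n : ℕ} [NeZero (M * 2)] [NeZero (M * 3)] (hM : 5 ≤ M) (hn : n.Prime)
    (hn5 : 5 ≤ n) (h2 : CoreKI M 2 n) (h3 : CoreKI M 3 n) : KIIn M n := by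
  intro p hp hpM hpn A hA ι k hk χ₁ hχ₁ χ₂ hχ₂ x y hx hy a b haA hbA ha hb hab hne
  by_cases hp2 : p = 2
  · exact char_eq_core hM hn hn5 (Or.inr rfl) h3 hp hpM hpn (by omega) A hA ι hk hχ₁ hχ₂ hx hy
      a b haA hbA ha hb hab hne
  · exact char_eq_core hM hn hn5 (Or.inl rfl) h2 hp hpM hpn hp2 A hA ι hk hχ₁ hχ₂ hx hy
      a b haA hbA ha hb hab hne

end

end Fermat.Agent.H58
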