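import Mathlib
import Fermat.Agent.H50QEIn
import Fermat.Agent.H58KIIn
import Fermat.Agent.H22TwMain
import Fermat.Agent.H85Cheb

/-!
# S48 from the core statements `CoreQE`, `CoreKI`
-/

set_option autoImplicit false

namespace Fermat.Agent.H50

open CongruenceSubgroup Fermat.Agent.H78.KI
open scoped MatrixGroups

local notation "Γℚ" => (AlgebraicClosure ℚ ≃ₐ[ℚ] AlgebraicClosure ℚ)

theorem hasGalAction_of_core {M n : ℕ} [NeZero (M * 2)] [NeZero (M * 3)] (hM : 5 ≤ M)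
    (hn : n.Prime) (hn5 : 5 ≤ n) (hQ2 : CoreQE M 2) (hQ3 : CoreQE M 3) (hK2 : CoreKI M 2 n)
    (hK3 : CoreKI M 3 n) : H48.HasGalAction M n :=
  H22.Tw.hasGalAction hM hn hn5 (QEIn_of hQ2 hQ3) (H58.KIIn_of hM hn hn5 hK2 hK3)

theorem S48_of_core
    (hQ : ∀ (M r : ℕ) [NeZero (M * r)], 5 ≤ M → (r = 2 ∨ r = 3) → CoreQE M r)
    (hK : ∀ (M r n : ℕ) [NeZero (M * r)], 5 ≤ M → (r = 2 ∨ r = 3) → n.Prime → 5 ≤ n →
      CoreKI M r n)
    (N : ℕ) [NeZero N] (ε : DirichletCharacter ℂ N) (f : CuspForm (Gamma1 N) 1)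
    (hf₁ : ModularFormClass.qCoeff f 1 = 1)
    (hT : ∀ p : ℕ, p.Prime → ¬ p ∣ N → ∀ n : ℕ,
        ModularFormClass.qCoeff f (p * n) +
            ε (p : ZMod N) * (if p ∣ n then ModularFormClass.qCoeff f (n / p) else 0) =
          ModularFormClass.qCoeff f p * ModularFormClass.qCoeff f n) :
    ∃ ρ : Γℚ →* GL (Fin 2) ℂ, GaloisFactorsThroughFiniteLevel ρ ∧
      (Deformation.matrixRepresentation ρ).IsIrreducible ∧
      ∀ p : ℕ, p.Prime → ¬ p ∣ N →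
        ∀ A : ValuationSubring (AlgebraicClosure ℚ), A.LiesOverPrime p →
          (∀ σ ∈ A.inertiaSubgroupIn ℚ, ρ σ = 1) ∧
          ∀ σ : Γℚ, A.IsFrobeniusAt σ p →
            ((ρ σ : GL (Fin 2) ℂ) : Matrix (Fin 2) (Fin 2) ℂ).trace = ModularFormClass.qCoeff f p ∧
            ((ρ σ : GL (Fin 2) ℂ) : Matrix (Fin 2) (Fin 2) ℂ).det = ε (p : ZMod N) := by
  refine H85.S48_of_hasGalAction N ε f (fun ℓ hℓ hℓ5 => ?_) hf₁ hT
  have hN : 1 ≤ N := Nat.one_le_iff_ne_zero.mpr (NeZero.ne N)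
  have hM : 5 ≤ N * ℓ := by nlinarith
  have h2 : NeZero (N * ℓ * 2) := ⟨by omega⟩
  have h3 : NeZero (N * ℓ * 3) := ⟨by omega⟩
  exact hasGalAction_of_core hM hℓ hℓ5 (hQ _ _ hM (Or.inl rfl)) (hQ _ _ hM (Or.inr rfl))
    (hK _ _ _ hM (Or.inl rfl) hℓ hℓ5) (hK _ _ _ hM (Or.inr rfl) hℓ hℓ5)

end Fermat.Agent.H50
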