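import Mathlib

/-!
# Trace criteria for nilpotency, in characteristic zero, and the Prüfer property of Dedekind domains
-/

set_option autoImplicit false

namespace Fermat.Agent.H29

open Polynomial

/-- An endomorphism of a finite dimensional vector space in characteristic zero all of whose
positive powers have trace zero is nilpotent. -/
theorem isNilpotent_of_trace_pow_eq_zero {κ V : Type*} [Field κ] [CharZero κ] [AddCommGroup V]
    [Module κ V] [FiniteDimensional κ V] (f : Module.End κ V)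
    (h : ∀ n : ℕ, 1 ≤ n → LinearMap.trace κ V (f ^ n) = 0) : IsNilpotent f := by
  have hm : minpoly κ f ≠ 0 := minpoly.ne_zero (Algebra.IsIntegral.isIntegral f)
  obtain ⟨q, hq, hnd⟩ := Polynomial.exists_eq_pow_rootMultiplicity_mul_and_not_dvd
    (minpoly κ f) hm 0
  set r := rootMultiplicity 0 (minpoly κ f)
  rw [C_0, sub_zero] at hq hnd
  have hco : IsCoprime (X ^ (r + 1) : κ[X]) q :=
    IsCoprime.pow_left ((Polynomial.irreducible_X.coprime_iff_not_dvd).mpr hnd)
  obtain ⟨u, v, huv⟩ := hco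
  have h0 : ∀ p : κ[X], p.coeff 0 = 0 → LinearMap.trace κ V (aeval f p) = 0 := by
    intro p hp
    rw [aeval_eq_sum_range, map_sum]
    refine Finset.sum_eq_zero fun i _ => ?_
    rw [map_smul]
    rcases Nat.eq_zero_or_pos i with rfl | hi
    · rw [hp, zero_smul]
    · rw [h i hi, smul_zero]
  set e : Module.End κ V := aeval f (u * X ^ (r + 1)) with he
  have hsum : e + aeval f (v * q) = 1 := by
    rw [he, ← map_add, huv, map_one]
  have hmz : aeval f (minpoly κ f) = 0 := minpoly.aeval κ f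
  have hprod : e * aeval f (v * q) = 0 := by
    rw [he, ← map_mul]
    have : u * X ^ (r + 1) * (v * q) = (u * v * X) * (X ^ r * q) := by ring
    rw [this, ← hq, map_mul, hmz, mul_zero]
  have hide : IsIdempotentElem e := by
    have : e * 1 = e := mul_one e
    rw [← hsum, mul_add, hprod, add_zero] at this
    exact this
  have htr : LinearMap.trace κ V e = 0 := h0 _ (by
    rw [mul_coeff_zero, coeff_X_pow, if_neg (by omega), mul_zero])
  have he0 : e = 0 := (LinearMap.IsIdempotentElem.eq_zero_of_trace_eq_zero hide htr)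
  rw [he0, zero_add] at hsum
  refine ⟨r, ?_⟩
  have : f ^ r = aeval f (X ^ r : κ[X]) := by rw [map_pow, aeval_X]
  rw [this, ← mul_one (aeval f (X ^ r : κ[X])), ← hsum, ← map_mul]
  have : X ^ r * (v * q) = v * (X ^ r * q) := by ring
  rw [this, ← hq, map_mul, hmz, mul_zero]

/-- Matrix version. -/
theorem matrix_isNilpotent_of_trace_pow_eq_zero {κ ι : Type*} [Field κ] [CharZero κ] [Fintype ι]
    [DecidableEq ι] (m : Matrix ι ι κ)
    (h : ∀ n : ℕ, 1 ≤ n → Matrix.trace (m ^ n) = 0) : IsNilpotent m := by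
  have h1 : IsNilpotent (Matrix.toLinAlgEquiv' m) := by
    apply isNilpotent_of_trace_pow_eq_zero
    intro n hn
    rw [← map_pow]
    have h2 := Matrix.trace_toLin'_eq (m ^ n)
    rw [h n hn] at h2
    exact h2
  obtain ⟨k, hk⟩ := h1
  refine ⟨k, ?_⟩
  rw [← map_pow] at hk
  exact (map_eq_zero_iff _ (Matrix.toLinAlgEquiv' (R := κ) (n := ι)).injective).mp hk

/-- Trace criterion for nilpotency modulo a maximal ideal with residue field of characteristic 0. -/
theorem exists_pow_mem_of_trace_mem {P C : Type*} [CommRing P] [CommRing C] [Algebra P C]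
    [Module.Free P C] [Module.Finite P C] (I : Ideal P) [hI : I.IsMaximal]
    [CharZero (P ⧸ I)] (a : C) (h : ∀ n : ℕ, 1 ≤ n → Algebra.trace P C (a ^ n) ∈ I) :
    ∃ M : ℕ, a ^ M ∈ I.map (algebraMap P C) := by
  classical
  let _ : Field (P ⧸ I) := Ideal.Quotient.field I
  let b := Module.Free.chooseBasis P C
  set m : Matrix _ _ P := Algebra.leftMulMatrix b a with hm
  have hnil : IsNilpotent (m.map (Ideal.Quotient.mk I)) := by
    apply matrix_isNilpotent_of_trace_pow_eq_zero
    intro n hn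
    have h1 : m.map (Ideal.Quotient.mk I) ^ n = (m ^ n).map (Ideal.Quotient.mk I) := by
      rw [← RingHom.mapMatrix_apply, ← map_pow, RingHom.mapMatrix_apply]
    rw [h1, ← AddMonoidHom.map_trace, hm, ← map_pow, ← Algebra.trace_eq_matrix_trace b]
    exact Ideal.Quotient.eq_zero_iff_mem.mpr (h n hn)
  obtain ⟨M, hM⟩ := hnil
  refine ⟨M, ?_⟩
  have h1 : m.map (Ideal.Quotient.mk I) ^ M = (m ^ M).map (Ideal.Quotient.mk I) := by
    rw [← RingHom.mapMatrix_apply, ← map_pow, RingHom.mapMatrix_apply]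
  rw [h1] at hM
  have h2 : ∀ i j, (m ^ M) i j ∈ I := by
    intro i j
    have := congrFun (congrFun hM i) j
    rw [Matrix.map_apply] at this
    exact Ideal.Quotient.eq_zero_iff_mem.mp this
  have h3 : ∀ j, a ^ M * b j ∈ I.map (algebraMap P C) := by
    intro j
    have : a ^ M * b j = ∑ i, (m ^ M) i j • b i := by
      rw [hm, ← map_pow]
      conv_lhs => rw [← b.sum_repr (a ^ M * b j)]
      refine Finset.sum_congr rfl fun i _ => ?_
      rw [Algebra.leftMulMatrix_eq_repr_mul]
    rw [this]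
    refine Ideal.sum_mem _ fun i _ => ?_
    rw [Algebra.smul_def]
    exact Ideal.mul_mem_right _ _ (Ideal.mem_map_of_mem _ (h2 i j))
  have h4 : a ^ M = ∑ j, b.repr 1 j • (a ^ M * b j) := by
    have : a ^ M = a ^ M * 1 := (mul_one _).symm
    conv_lhs => rw [this, ← b.sum_repr 1, Finset.mul_sum]
    refine Finset.sum_congr rfl fun j _ => ?_
    rw [mul_smul_comm]
  rw [h4]
  refine Ideal.sum_mem _ fun i _ => ?_
  rw [Algebra.smul_def]
  exact Ideal.mul_mem_left _ _ (h3 i)

/-- If a power of `u` lies in `𝔭 B` (with `B` finite free over `A`, `𝔭` prime), then the trace of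
`u` lies in `𝔭`. -/
theorem trace_mem_of_pow_mem {A B : Type*} [CommRing A] [CommRing B] [Algebra A B]
    [Module.Free A B] [Module.Finite A B] (I : Ideal A) [hI : I.IsPrime] (u : B) (M : ℕ)
    (h : u ^ M ∈ I.map (algebraMap A B)) : Algebra.trace A B u ∈ I := by
  classical
  let b := Module.Free.chooseBasis A B
  have key : ∀ x ∈ I.map (algebraMap A B), ∀ i j, Algebra.leftMulMatrix b x i j ∈ I := by
    intro x hx i j
    rw [Algebra.leftMulMatrix_eq_repr_mul]
    have hx' : x * b j ∈ I.map (algebraMap A B) := Ideal.mul_mem_right _ _ hx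
    revert hx'
    generalize x * b j = z
    intro hz
    rw [Ideal.map] at hz
    refine Submodule.span_induction (p := fun z _ => ∀ i, b.repr z i ∈ I) ?_ ?_ ?_ ?_ hz i
    · rintro _ ⟨a, ha, rfl⟩ i
      rw [← mul_one (algebraMap A B a), ← Algebra.smul_def, map_smul, Finsupp.smul_apply]
      exact Ideal.mul_mem_right _ _ ha
    · intro i; simp
    · intro z w _ _ hz hw i
      rw [map_add, Finsupp.add_apply]
      exact I.add_mem (hz i) (hw i)
    · intro c z _ hz i
      rw [smul_eq_mul]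
      have : c * z = ∑ j, b.repr z j • (c * b j) := by
        conv_lhs => rw [← b.sum_repr z, Finset.mul_sum]
        refine Finset.sum_congr rfl fun j _ => ?_
        rw [mul_smul_comm]
      rw [this, map_sum, Finsupp.finsetSum_apply]
      refine Ideal.sum_mem _ fun j _ => ?_
      rw [map_smul, Finsupp.smul_apply]
      exact Ideal.mul_mem_right _ _ (hz j)
  rw [Algebra.trace_eq_matrix_trace b, ← Ideal.Quotient.eq_zero_iff_mem]
  have h1 : IsNilpotent ((Algebra.leftMulMatrix b u).map (Ideal.Quotient.mk I)) := by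
    refine ⟨M, ?_⟩
    rw [← RingHom.mapMatrix_apply, ← map_pow, RingHom.mapMatrix_apply, ← map_pow]
    ext i j
    rw [Matrix.map_apply]
    exact Ideal.Quotient.eq_zero_iff_mem.mpr (key _ h i j)
  have h2 := Matrix.isNilpotent_trace_of_isNilpotent h1
  rw [← AddMonoidHom.map_trace] at h2
  exact h2.eq_zero

open scoped nonZeroDivisors in
/-- The Prüfer property of Dedekind domains. -/
theorem exists_prufer (C E : Type*) [CommRing C] [IsDedekindDomain C] [Field E] [Algebra C E]
    [IsFractionRing C E] (y : E) :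
    ∃ b₁ b₂ c₁ c₂ : C, algebraMap C E b₁ * y = algebraMap C E c₁ ∧
      algebraMap C E b₂ * y = algebraMap C E c₂ ∧
      algebraMap C E b₁ + algebraMap C E b₂ * y = 1 := by
  set I : FractionalIdeal C⁰ E := 1 + FractionalIdeal.spanSingleton C⁰ y with hI
  have h1 : (1 : E) ∈ I := by
    rw [hI, FractionalIdeal.mem_add]
    exact ⟨1, FractionalIdeal.one_mem_one _, 0, FractionalIdeal.zero_mem _, by simp⟩
  have hy : y ∈ I := by
    rw [hI, FractionalIdeal.mem_add]
    exact ⟨0, FractionalIdeal.zero_mem _, y, FractionalIdeal.mem_spanSingleton_self _ _, by simp⟩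
  have hI0 : I ≠ 0 := by
    intro h
    rw [h, FractionalIdeal.mem_zero_iff] at h1
    exact one_ne_zero h1
  have h2 : (1 : E) ∈ I * I⁻¹ := by
    rw [mul_inv_cancel₀ hI0]
    exact FractionalIdeal.one_mem_one _
  rw [hI, add_mul, one_mul, ← hI, FractionalIdeal.mem_add] at h2
  obtain ⟨b₁, hb₁, j, hj, h3⟩ := h2
  rw [FractionalIdeal.mem_singleton_mul] at hj
  obtain ⟨b₂, hb₂, rfl⟩ := hj
  rw [FractionalIdeal.mem_inv_iff hI0] at hb₁ hb₂
  obtain ⟨b₁', hb₁'⟩ := (FractionalIdeal.mem_one_iff C⁰).mp (mul_one b₁ ▸ hb₁ 1 h1)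
  obtain ⟨b₂', hb₂'⟩ := (FractionalIdeal.mem_one_iff C⁰).mp (mul_one b₂ ▸ hb₂ 1 h1)
  obtain ⟨c₁, hc₁⟩ := (FractionalIdeal.mem_one_iff C⁰).mp (hb₁ y hy)
  obtain ⟨c₂, hc₂⟩ := (FractionalIdeal.mem_one_iff C⁰).mp (hb₂ y hy)
  refine ⟨b₁', b₂', c₁, c₂, ?_, ?_, ?_⟩
  · rw [hc₁, hb₁']
  · rw [hc₂, hb₂']
  · rw [hb₁', hb₂', ← h3, mul_comm b₂ y]

end Fermat.Agent.H29
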