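import Mathlib
import Fermat.Agent.H29Trace

/-!
# Trace dual of an integral closure over a PID, in residue characteristic zero

If `C` is the integral closure of a PID `P` (residue fields of characteristic 0) in a finite
extension, and `C / g C` is reduced for all primes `g ∤ f`, then `f · C^∨ ⊆ √(f C)`.
-/

set_option autoImplicit false

namespace Fermat.Agent.H29

section

variable {P K₀ C E : Type*} [CommRing P] [IsDomain P] [IsPrincipalIdealRing P] [Field K₀]
  [Algebra P K₀] [IsFractionRing P K₀] [Field E] [Algebra K₀ E] [Algebra P E]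
  [IsScalarTower P K₀ E] [FiniteDimensional K₀ E] [Algebra.IsSeparable K₀ E]
  [CommRing C] [IsDomain C] [Algebra P C] [Algebra C E] [IsScalarTower P C E]
  [IsIntegralClosure C P E]

include K₀ in
theorem mem_radical_of_trace [Module.Free P C] [Module.Finite P C] [IsIntegrallyClosed C]
    {g : P}
    (hg : (Ideal.span {g}).IsMaximal)
    (hchar : CharZero (P ⧸ Ideal.span {g})) (a : C) (y : E)
    (b : C) (ha : algebraMap P E g * y * algebraMap C E b = algebraMap C E a)
    (hy : ∀ z : C, ∃ p : P, algebraMap P K₀ p = Algebra.trace K₀ E (y * algebraMap C E z)) :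
    a ∈ (Ideal.span {algebraMap P C g}).radical := by
  have h1 := exists_pow_mem_of_trace_mem (P := P) (C := C) (Ideal.span {g}) a (by
    intro n hn
    obtain ⟨m, rfl⟩ : ∃ m, n = m + 1 := ⟨n - 1, by omega⟩
    obtain ⟨p, hp⟩ := hy (b * a ^ m)
    rw [Ideal.mem_span_singleton]
    refine ⟨p, ?_⟩
    apply IsFractionRing.injective P K₀
    have hint : algebraMap P K₀ (Algebra.trace P C (a ^ (m + 1))) =
        Algebra.trace K₀ E (algebraMap C E (a ^ (m + 1))) := by
      rw [← Algebra.intTrace_eq_trace, Algebra.algebraMap_intTrace (A := P) (K := K₀) (L := E)]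
    have e1 : algebraMap C E (a ^ (m + 1)) =
        (algebraMap P K₀ g) • (y * algebraMap C E (b * a ^ m)) := by
      rw [pow_succ', map_mul, ← ha, Algebra.smul_def, ← IsScalarTower.algebraMap_apply, map_mul]
      ring
    rw [hint, map_mul, hp, e1, map_smul, smul_eq_mul])
  obtain ⟨M, hM⟩ := h1
  rw [Ideal.map_span, Set.image_singleton] at hM
  exact ⟨M, hM⟩

/-- `f · C^∨ ⊆ √(f C)`. -/
theorem dual_mem_radical (hP : ¬ IsField P) (f : P) 
    (hchar : ∀ g : P, Prime g → CharZero (P ⧸ Ideal.span {g}))
    (hred : ∀ g : P, Prime g → ¬ g ∣ f → (Ideal.span {algebraMap P C g}).IsRadical)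
    (y : E)
    (hy : ∀ z : C, ∃ p : P, algebraMap P K₀ p = Algebra.trace K₀ E (y * algebraMap C E z)) :
    ∃ u : C, algebraMap C E u = algebraMap P E f * y ∧
      u ∈ (Ideal.span {algebraMap P C f}).radical := by
  have : IsDedekindDomain C := IsIntegralClosure.isDedekindDomain P K₀ E C
  have : IsFractionRing C E := IsIntegralClosure.isFractionRing_of_finite_extension P K₀ E C
  have : Module.Finite P C := IsIntegralClosure.finite P K₀ E C
  have : Module.IsTorsionFree P E := by
    rw [Module.isTorsionFree_iff_algebraMap_injective, IsScalarTower.algebraMap_eq P K₀ E]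
    exact (algebraMap K₀ E).injective.comp (IsFractionRing.injective P K₀)
  have : Module.Free P C := IsIntegralClosure.module_free P K₀ E C
  have : Algebra.IsIntegral P C := IsIntegralClosure.isIntegral_algebra P E
  have hinj : Function.Injective (algebraMap C E) := IsFractionRing.injective C E
  -- the prime of `P` under a maximal ideal of `C`
  have hprime : ∀ Q : Ideal C, Q.IsMaximal → ∃ g : P, Prime g ∧ (Ideal.span {g}).IsMaximal ∧
      CharZero (P ⧸ Ideal.span {g}) ∧ Q.comap (algebraMap P C) = Ideal.span {g} ∧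
      algebraMap P C g ∈ Q ∧ (Ideal.span {algebraMap P C g}).radical ≤ Q := by
    intro Q hQ
    have hmax : (Q.comap (algebraMap P C)).IsMaximal :=
      Ideal.isMaximal_comap_of_isIntegral_of_isMaximal Q
    obtain ⟨g, hg⟩ := (IsPrincipalIdealRing.principal (Q.comap (algebraMap P C))).principal
    rw [← Ideal.span] at hg
    have hne : Q.comap (algebraMap P C) ≠ ⊥ := Ring.ne_bot_of_isMaximal_of_not_isField hmax hP
    have hg0 : g ≠ 0 := by
      rintro rfl
      apply hne
      rw [hg, Ideal.span_singleton_eq_bot]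
    have hgp : Prime g := by
      rw [← Ideal.span_singleton_prime hg0, ← hg]
      exact hmax.isPrime
    have hgQ : algebraMap P C g ∈ Q := by
      have : g ∈ Q.comap (algebraMap P C) := by
        rw [hg]; exact Ideal.mem_span_singleton_self g
      exact this
    refine ⟨g, hgp, hg ▸ hmax, hchar g hgp, hg, hgQ, ?_⟩
    rw [hQ.isPrime.radical_le_iff, Ideal.span_singleton_le_iff_mem]
    exact hgQ
  obtain ⟨b₁, b₂, c₁, c₂, h₁, h₂, h₃⟩ := exists_prufer C E (algebraMap P E f * y)
  -- the denominator ideal of `f y`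
  let I : Ideal C :=
    { carrier := {b | ∃ c : C, algebraMap C E b * (algebraMap P E f * y) = algebraMap C E c}
      add_mem' := by
        rintro b b' ⟨c, hc⟩ ⟨c', hc'⟩
        exact ⟨c + c', by rw [map_add, map_add, add_mul, hc, hc']⟩
      zero_mem' := ⟨0, by simp⟩
      smul_mem' := by
        rintro x b ⟨c, hc⟩
        exact ⟨x * c, by rw [smul_eq_mul, map_mul, map_mul, mul_assoc, hc]⟩ }
  have hI : I = ⊤ := by
    by_contra hne
    obtain ⟨Q, hQ, hIQ⟩ := Ideal.exists_le_maximal I hne
    obtain ⟨g, hgp, hgmax, hgchar, hQg, hgQ, hradQ⟩ := hprime Q hQ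
    by_cases hgf : g ∣ f
    · -- cusps
      obtain ⟨f', rfl⟩ := hgf
      have hc₂ : c₂ ∈ Q := by
        apply hradQ
        refine mem_radical_of_trace (K₀ := K₀) hgmax hgchar c₂ y (b₂ * algebraMap P C f') ?_ hy
        rw [← h₂, map_mul, map_mul, ← IsScalarTower.algebraMap_apply]
        ring
      have hb₁ : b₁ ∈ Q := hIQ ⟨c₁, h₁⟩
      have h1 : b₁ + c₂ = 1 := by
        apply hinj
        rw [map_add, ← h₂, h₃, map_one]
      apply hQ.ne_top
      rw [Ideal.eq_top_iff_one, ← h1]
      exact Q.add_mem hb₁ hc₂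
    · -- outside the cusps
      have hr := hred g hgp hgf
      obtain ⟨b₁, b₂, c₁, c₂, h₁, h₂, h₃⟩ := exists_prufer C E (algebraMap P E g * y)
      have hmem : ∀ b c : C, algebraMap C E b * (algebraMap P E g * y) = algebraMap C E c →
          c ∈ Ideal.span {algebraMap P C g} := by
        intro b c hbc
        apply hr
        refine mem_radical_of_trace (K₀ := K₀) hgmax hgchar c y b ?_ hy
        rw [← hbc]; ring
      have hc₂ : c₂ ∈ Q := by
        have := hmem b₂ c₂ h₂
        exact (Ideal.span_singleton_le_iff_mem (I := Q)).mpr hgQ this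
      have hb₁ : b₁ ∈ Q := by
        apply hIQ
        obtain ⟨d, hd⟩ := Ideal.mem_span_singleton'.mp (hmem b₁ c₁ h₁)
        refine ⟨algebraMap P C f * d, ?_⟩
        have hg0 : algebraMap P E g ≠ 0 := by
          rw [IsScalarTower.algebraMap_apply P K₀ E]
          have := (IsFractionRing.injective P K₀).ne hgp.ne_zero
          rw [map_zero] at this
          exact (map_ne_zero _).mpr this
        apply mul_left_cancel₀ hg0
        rw [map_mul]
        have h4 : algebraMap C E d * algebraMap P E g = algebraMap C E c₁ := by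
          rw [← hd, map_mul, ← IsScalarTower.algebraMap_apply]
        rw [← IsScalarTower.algebraMap_apply]
        calc algebraMap P E g * (algebraMap C E b₁ * (algebraMap P E f * y))
            = algebraMap P E f * (algebraMap C E b₁ * (algebraMap P E g * y)) := by ring
          _ = algebraMap P E f * (algebraMap C E d * algebraMap P E g) := by rw [h₁, h4]
          _ = _ := by ring
      have h1 : b₁ + c₂ = 1 := by
        apply hinj
        rw [map_add, ← h₂, h₃, map_one]
      apply hQ.ne_top
      rw [Ideal.eq_top_iff_one, ← h1]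
      exact Q.add_mem hb₁ hc₂
  obtain ⟨u, hu⟩ : (1 : C) ∈ I := by rw [hI]; trivial
  rw [map_one, one_mul] at hu
  refine ⟨u, hu.symm, ?_⟩
  rw [Ideal.radical_eq_sInf, Submodule.mem_sInf]
  rintro Q ⟨hfQ, hQp⟩
  rw [Ideal.span_singleton_le_iff_mem] at hfQ
  by_cases hQbot : Q = ⊥
  · -- then `f = 0`
    subst hQbot
    rw [Ideal.mem_bot] at hfQ ⊢
    apply hinj
    rw [← hu, IsScalarTower.algebraMap_apply P C E, hfQ, map_zero, zero_mul]
  have hQp : Ideal.IsPrime Q := hQp
  have hQ : Ideal.IsMaximal Q := hQp.isMaximal hQbot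
  obtain ⟨g, hgp, hgmax, hgchar, hQg, hgQ, hradQ⟩ := hprime Q hQ
  have hgf : g ∣ f := by
    rw [← Ideal.mem_span_singleton, ← hQg]
    exact hfQ
  obtain ⟨f', hf'⟩ := hgf
  have hc : ∀ b c : C, algebraMap C E b * (algebraMap P E f * y) = algebraMap C E c → c ∈ Q := by
    intro b c hbc
    apply hradQ
    refine mem_radical_of_trace (K₀ := K₀) hgmax hgchar c y (b * algebraMap P C f') ?_ hy
    rw [← hbc, map_mul, ← IsScalarTower.algebraMap_apply, hf', map_mul]
    ring
  have h1 : b₁ + c₂ = 1 := by
    apply hinj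
    rw [map_add, ← h₂, h₃, map_one]
  have hb₁ : b₁ ∉ Q := by
    intro hb
    apply hQ.ne_top
    rw [Ideal.eq_top_iff_one, ← h1]
    exact Q.add_mem hb (hc b₂ c₂ h₂)
  have h2 : b₁ * u ∈ Q := by
    have : b₁ * u = c₁ := by
      apply hinj
      rw [map_mul, ← hu, h₁]
    rw [this]
    exact hc b₁ c₁ h₁
  exact (hQp.mem_or_mem h2).resolve_left hb₁

end

end Fermat.Agent.H29
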