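import Mathlib

/-!
# Integrality over an integrally closed domain via coefficients of the minimal polynomial
-/

set_option autoImplicit false

namespace Fermat.Agent.H29

open Polynomial

section

variable {A K₀ E : Type*} [CommRing A] [IsDomain A] [IsIntegrallyClosed A] [Field K₀]
  [Algebra A K₀] [IsFractionRing A K₀] [Field E] [Algebra K₀ E] [Algebra A E]
  [IsScalarTower A K₀ E]

theorem isIntegral_iff_coeff_minpoly {z : E} (hz : IsIntegral K₀ z) :
    IsIntegral A z ↔ ∀ i, (minpoly K₀ z).coeff i ∈ Set.range (algebraMap A K₀) := by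
  constructor
  · intro h i
    rw [minpoly.isIntegrallyClosed_eq_field_fractions' K₀ h, coeff_map]
    exact ⟨_, rfl⟩
  · intro h
    have hl : minpoly K₀ z ∈ Polynomial.lifts (algebraMap A K₀) := by
      rw [Polynomial.lifts_iff_coeff_lifts]
      exact h
    obtain ⟨q, hq, -, hmon⟩ := Polynomial.lifts_and_natDegree_eq_and_monic hl (minpoly.monic hz)
    refine ⟨q, hmon, ?_⟩
    rw [IsScalarTower.algebraMap_eq A K₀ E, ← eval₂_map, hq, ← aeval_def, minpoly.aeval]

theorem isIntegral_smul_coeff {z : E} (hz : IsIntegral K₀ z) {s : A} (hs : s ≠ 0)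
    (h : IsIntegral A (s • z)) (i : ℕ) :
    (algebraMap A K₀ s) ^ ((minpoly K₀ z).natDegree - i) * (minpoly K₀ z).coeff i ∈
      Set.range (algebraMap A K₀) := by
  have hs' : algebraMap A K₀ s ≠ 0 := by
    have := (IsFractionRing.injective A K₀).ne hs
    rwa [map_zero] at this
  have h1 : s • z = (algebraMap A K₀ s) • z := by
    rw [Algebra.smul_def, Algebra.smul_def, ← IsScalarTower.algebraMap_apply]
  have h2 := (isIntegral_iff_coeff_minpoly (A := A) (K₀ := K₀)
    (h1 ▸ hz.smul (algebraMap A K₀ s))).mp h i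
  rw [h1, IsIntegrallyClosed.minpoly_smul hs' hz, coeff_scaleRoots, mul_comm] at h2
  exact h2

/-- Intersection lemma: integrality can be tested after multiplication with two elements which
together detect membership in `A`. -/
theorem isIntegral_of_smul_of_smul {z : E} (hz : IsIntegral K₀ z) {s₁ s₂ : A} (h₁ : s₁ ≠ 0)
    (h₂ : s₂ ≠ 0)
    (hA : ∀ (c : K₀) (m : ℕ), algebraMap A K₀ s₁ ^ m * c ∈ Set.range (algebraMap A K₀) →
      algebraMap A K₀ s₂ ^ m * c ∈ Set.range (algebraMap A K₀) → c ∈ Set.range (algebraMap A K₀))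
    (hz₁ : IsIntegral A (s₁ • z)) (hz₂ : IsIntegral A (s₂ • z)) : IsIntegral A z := by
  rw [isIntegral_iff_coeff_minpoly (K₀ := K₀) hz]
  intro i
  exact hA _ _ (isIntegral_smul_coeff hz h₁ hz₁ i) (isIntegral_smul_coeff hz h₂ hz₂ i)

theorem mem_range_of_prime {π a : A} (hπ : Prime π) (ha : ¬ π ∣ a) (c : K₀) (n m m' : ℕ)
    (h₁ : algebraMap A K₀ (π ^ n) ^ m * c ∈ Set.range (algebraMap A K₀))
    (h₂ : algebraMap A K₀ a ^ m' * c ∈ Set.range (algebraMap A K₀)) :
    c ∈ Set.range (algebraMap A K₀) := by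
  obtain ⟨x, hx⟩ := h₁
  obtain ⟨y, hy⟩ := h₂
  have hinj := IsFractionRing.injective A K₀
  have h3 : a ^ m' * x = (π ^ n) ^ m * y := by
    apply hinj
    rw [map_mul, map_mul, hx, hy]
    simp only [map_pow]
    ring
  have h4 : (π ^ n) ^ m ∣ x := by
    rw [← pow_mul]
    refine hπ.pow_dvd_of_dvd_mul_left _ (a := a ^ m') (b := x) ?_ ?_
    · intro h
      exact ha (hπ.dvd_of_dvd_pow h)
    · rw [h3, ← pow_mul]
      exact dvd_mul_right _ _
  obtain ⟨w, hw⟩ := h4
  refine ⟨w, ?_⟩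
  have hne : algebraMap A K₀ (π ^ n) ^ m ≠ 0 := by
    rw [← map_pow]
    have := hinj.ne (pow_ne_zero m (pow_ne_zero n hπ.ne_zero))
    rwa [map_zero] at this
  apply mul_left_cancel₀ hne
  rw [← hx, hw, map_mul, map_pow, map_pow, map_pow]

/-- If `π ^ n • z` and `a • z` are integral, `π` prime, `π ∤ a`, then `z` is integral. -/
theorem isIntegral_of_prime {z : E} (hz : IsIntegral K₀ z) {π a : A} (hπ : Prime π)
    (ha : ¬ π ∣ a) (n : ℕ) (h₁ : IsIntegral A (π ^ n • z)) (h₂ : IsIntegral A (a • z)) :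
    IsIntegral A z := by
  refine isIntegral_of_smul_of_smul (K₀ := K₀) hz (pow_ne_zero n hπ.ne_zero) ?_ ?_ h₁ h₂
  · rintro rfl
    exact ha (dvd_zero _)
  · intro c m h₁ h₂
    exact mem_range_of_prime hπ ha c n m m h₁ h₂

end

end Fermat.Agent.H29
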