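import Mathlib
import Fermat.Agent.H29Dual
import Fermat.Agent.H29Integral

/-!
# Reduction of an integral closure modulo a prime element: coordinates, traces and functionals
-/

set_option autoImplicit false
set_option linter.unusedSectionVars false

namespace Fermat.Agent.H29

open Module

section Chart

variable {A K₀ E R B D : Type*} [CommRing A] [IsDomain A] [IsIntegrallyClosed A]
  [Field K₀] [Algebra A K₀] [IsFractionRing A K₀] [Field E] [Algebra K₀ E] [Algebra A E]
  [IsScalarTower A K₀ E] [FiniteDimensional K₀ E]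
  [CommRing R] [IsDomain R] [Algebra A R] [Algebra R E] [IsScalarTower A R E]
  [IsIntegralClosure R A E]
  [CommRing B] [IsDomain B] [CommRing D] [Algebra B D]
  {π : A} (hπ : Prime π) {ρA : A →+* B} {ρ : R →+* D}
  (hρA : Function.Surjective ρA) (hkA : ∀ a, ρA a = 0 ↔ π ∣ a)
  (hρ : Function.Surjective ρ) (hk : ∀ r, ρ r = 0 ↔ algebraMap A R π ∣ r)
  (hc : ∀ a, ρ (algebraMap A R a) = algebraMap B D (ρA a))

include hπ hρA hkA hρ hk hc K₀ E in
theorem chart_torsionFree (x : B) (d : D) (h : x • d = 0) : x = 0 ∨ d = 0 := by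
  obtain ⟨a, rfl⟩ := hρA x
  obtain ⟨r, rfl⟩ := hρ d
  by_cases ha : ρA a = 0
  · exact Or.inl ha
  right
  rw [Algebra.smul_def, ← hc, ← map_mul, hk] at h
  obtain ⟨r', hr'⟩ := h
  have ha' : ¬ π ∣ a := fun h => ha ((hkA a).mpr h)
  have hπE : algebraMap A E π ≠ 0 := by
    rw [IsScalarTower.algebraMap_apply A K₀ E]
    have := (IsFractionRing.injective A K₀).ne hπ.ne_zero
    rw [map_zero] at this
    exact (map_ne_zero _).mpr this
  have hint : ∀ z : R, IsIntegral A (algebraMap R E z) := fun z =>
    IsIntegralClosure.isIntegral_iff.mpr ⟨z, rfl⟩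
  set z : E := algebraMap R E r / algebraMap A E π with hz
  have h1 : π • z = algebraMap R E r := by
    rw [Algebra.smul_def, hz, mul_div_cancel₀ _ hπE]
  have h2 : a • z = algebraMap R E r' := by
    apply mul_left_cancel₀ hπE
    have : algebraMap R E (algebraMap A R a * r) = algebraMap R E (algebraMap A R π * r') := by
      rw [hr']
    rw [map_mul, map_mul, ← IsScalarTower.algebraMap_apply, ← IsScalarTower.algebraMap_apply]
      at this
    rw [← this, ← h1, Algebra.smul_def, Algebra.smul_def]
    ring
  have h3 : IsIntegral A z := by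
    refine isIntegral_of_prime (K₀ := K₀) (Algebra.IsIntegral.isIntegral z) hπ ha' 1 ?_ ?_
    · rw [pow_one, h1]; exact hint r
    · rw [h2]; exact hint r'
  obtain ⟨w, hw⟩ := (IsIntegralClosure.isIntegral_iff (A := R)).mp h3
  rw [hk]
  refine ⟨w, ?_⟩
  apply IsIntegralClosure.algebraMap_injective R A E
  rw [map_mul, hw, ← h1, Algebra.smul_def, ← IsScalarTower.algebraMap_apply]

variable {ι : Type*} [Fintype ι] (b : Basis ι B D) (r : ι → R) (hr : ∀ i, ρ (r i) = b i)

include hρA hkA hk hc hr in
theorem chart_nakayama [Module.Finite A R] :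
    ∃ t : A, ρA t = 1 ∧ ∀ z : R, ∃ α : ι → A, t • z = ∑ i, α i • r i := by
  classical
  obtain ⟨t, ht1, ht⟩ := Submodule.exists_sub_one_mem_and_smul_le_of_fg_of_le_sup
    (I := Ideal.span {π}) (N := Submodule.span A (Set.range r)) (N' := (⊤ : Submodule A R))
    (P := ⊤) (Module.Finite.fg_top) le_rfl (by
      intro z _
      have h1 : ∀ i, ∃ a : A, ρA a = b.repr (ρ z) i := fun i => hρA _
      choose a ha using h1
      have h2 : ρ (z - ∑ i, a i • r i) = 0 := by
        rw [map_sub, map_sum, sub_eq_zero]
        conv_lhs => rw [← b.sum_repr (ρ z)]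
        refine Finset.sum_congr rfl fun i _ => ?_
        rw [Algebra.smul_def (a i), map_mul, hc, ha, hr, Algebra.smul_def]
      rw [hk] at h2
      obtain ⟨w, hw⟩ := h2
      have h3 : z = (∑ i, a i • r i) + π • w := by
        rw [Algebra.smul_def, ← hw]; ring
      rw [h3]
      refine Submodule.add_mem_sup ?_ ?_
      · refine Submodule.sum_mem _ fun i _ => Submodule.smul_mem _ _ ?_
        exact Submodule.subset_span ⟨i, rfl⟩
      · exact Submodule.smul_mem_smul (Ideal.mem_span_singleton_self π) trivial)
  refine ⟨t, ?_, ?_⟩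
  · rw [Ideal.mem_span_singleton, ← hkA, map_sub, map_one, sub_eq_zero] at ht1
    exact ht1
  · intro z
    have h4 : t • z ∈ Submodule.span A (Set.range r) :=
      ht (Submodule.smul_mem_pointwise_smul z t ⊤ trivial)
    rw [Submodule.mem_span_range_iff_exists_fun] at h4
    obtain ⟨α, hα⟩ := h4
    exact ⟨α, hα.symm⟩

include hπ hkA hc hr in
theorem chart_linindep [WfDvdMonoid A] [Module.IsTorsionFree A R] (α : ι → A)
    (h : ∑ i, α i • r i = 0) : α = 0 := by
  classical
  have key : ∀ n : ℕ, ∀ α : ι → A, ∑ i, α i • r i = 0 → ∀ i, π ^ n ∣ α i := by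
    intro n
    induction n with
    | zero => intro α _ i; simp
    | succ n ih =>
      intro α hα
      have h1 : ∀ i, π ∣ α i := by
        have h2 : ∑ i, ρA (α i) • b i = 0 := by
          rw [← map_zero ρ, ← hα, map_sum]
          refine Finset.sum_congr rfl fun i _ => ?_
          rw [Algebra.smul_def (α i), map_mul, hc, hr, Algebra.smul_def]
        have h3 := Fintype.linearIndependent_iff.mp b.linearIndependent _ h2
        intro i
        rw [← hkA]; exact h3 i
      choose β hβ using h1
      have h4 : π • ∑ i, β i • r i = 0 := by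
        rw [Finset.smul_sum, ← hα]
        refine Finset.sum_congr rfl fun i _ => ?_
        rw [smul_smul, ← hβ]
      have h5 : ∑ i, β i • r i = 0 := (smul_eq_zero.mp h4).resolve_left hπ.ne_zero
      intro i
      rw [hβ i, pow_succ']
      exact mul_dvd_mul_left _ (ih β h5 i)
  funext i
  by_contra hne
  have hfin : FiniteMultiplicity π (α i) := FiniteMultiplicity.of_prime_left hπ hne
  obtain ⟨n, hn⟩ := hfin
  exact hn (key (n + 1) α h i)

include hπ hρA hkA hk hc hr in
theorem chart_basis [WfDvdMonoid A] [Module.Finite A R] :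
    ∃ bE : Basis ι K₀ E, ∀ i, bE i = algebraMap R E (r i) := by
  classical
  have hinjR := IsIntegralClosure.algebraMap_injective R A E
  have hinjA := IsFractionRing.injective A K₀
  have htf : Module.IsTorsionFree A R := by
    rw [Module.isTorsionFree_iff_algebraMap_injective]
    have : Function.Injective (algebraMap A E) := by
      rw [IsScalarTower.algebraMap_eq A K₀ E]
      exact (algebraMap K₀ E).injective.comp hinjA
    rw [IsScalarTower.algebraMap_eq A R E] at this
    exact Function.Injective.of_comp this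
  obtain ⟨t, ht1, ht⟩ := chart_nakayama hρA hkA hk hc b r hr
  have hli : LinearIndependent A (fun i => algebraMap R E (r i)) := by
    rw [Fintype.linearIndependent_iff]
    intro α hα i
    have h1 : ∑ i, α i • r i = 0 := by
      apply hinjR
      rw [map_zero, map_sum, ← hα]
      refine Finset.sum_congr rfl fun i _ => ?_
      rw [Algebra.smul_def, Algebra.smul_def, map_mul, ← IsScalarTower.algebraMap_apply]
    exact congrFun (chart_linindep hπ hkA hc b r hr α h1) i
  have hliK : LinearIndependent K₀ (fun i => algebraMap R E (r i)) :=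
    (LinearIndependent.iff_fractionRing A K₀).mp hli
  have ht0 : algebraMap A E t ≠ 0 := by
    rw [IsScalarTower.algebraMap_apply A K₀ E]
    refine (map_ne_zero _).mpr ?_
    have : t ≠ 0 := by
      rintro rfl
      rw [map_zero] at ht1
      exact zero_ne_one ht1
    have := hinjA.ne this
    rwa [map_zero] at this
  have hspan : ∀ z : R, algebraMap R E z ∈
      Submodule.span K₀ (Set.range fun i => algebraMap R E (r i)) := by
    intro z
    obtain ⟨α, hα⟩ := ht z
    have h2 : algebraMap A K₀ t • algebraMap R E z =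
        ∑ i, algebraMap A K₀ (α i) • algebraMap R E (r i) := by
      have := congrArg (algebraMap R E) hα
      rw [Algebra.smul_def, map_mul, map_sum] at this
      rw [Algebra.smul_def, ← IsScalarTower.algebraMap_apply, IsScalarTower.algebraMap_apply A R E,
        this]
      refine Finset.sum_congr rfl fun i _ => ?_
      rw [Algebra.smul_def, Algebra.smul_def, map_mul, ← IsScalarTower.algebraMap_apply,
        ← IsScalarTower.algebraMap_apply]
    have ht0' : algebraMap A K₀ t ≠ 0 := by
      intro h; apply ht0; rw [IsScalarTower.algebraMap_apply A K₀ E, h, map_zero]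
    rw [← inv_smul_smul₀ ht0' (algebraMap R E z), h2]
    refine Submodule.smul_mem _ _ (Submodule.sum_mem _ fun i _ => Submodule.smul_mem _ _ ?_)
    exact Submodule.subset_span ⟨i, rfl⟩
  have htop : ⊤ ≤ Submodule.span K₀ (Set.range fun i => algebraMap R E (r i)) := by
    intro e _
    have hloc := IsIntegralClosure.isLocalization A K₀ E R
    obtain ⟨z, ⟨_, a, ha, rfl⟩, hz⟩ := IsLocalization.exists_mk'_eq
      (Algebra.algebraMapSubmonoid R (nonZeroDivisors A)) e
    rw [IsLocalization.mk'_eq_iff_eq_mul] at hz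
    rw [← IsScalarTower.algebraMap_apply] at hz
    have ha0 : algebraMap A K₀ a ≠ 0 := by
      have := hinjA.ne (nonZeroDivisors.ne_zero ha)
      rwa [map_zero] at this
    rw [← inv_smul_smul₀ ha0 e]
    refine Submodule.smul_mem _ _ ?_
    rw [Algebra.smul_def, ← IsScalarTower.algebraMap_apply, mul_comm, ← hz]
    exact hspan z
  refine ⟨Basis.mk hliK htop, fun i => ?_⟩
  rw [Basis.mk_apply]

include hc hr in
theorem chart_trace {t : A} (ht1 : ρA t = 1)
    (ht : ∀ z : R, ∃ α : ι → A, t • z = ∑ i, α i • r i)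
    (bE : Basis ι K₀ E) (hbE : ∀ i, bE i = algebraMap R E (r i)) :
    (∀ z : R, ∀ i, ∃ α : A, algebraMap A K₀ α = algebraMap A K₀ t * bE.repr (algebraMap R E z) i ∧
      ρA α = b.repr (ρ z) i) ∧
    ∀ z : R, ∃ α : A,
      algebraMap A K₀ α = algebraMap A K₀ t * Algebra.trace K₀ E (algebraMap R E z) ∧
      ρA α = Algebra.trace B D (ρ z) := by
  classical
  have h1 : ∀ z : R, ∀ i, ∃ α : A, algebraMap A K₀ α =
      algebraMap A K₀ t * bE.repr (algebraMap R E z) i ∧ ρA α = b.repr (ρ z) i := by
    intro z i
    obtain ⟨α, hα⟩ := ht z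
    refine ⟨α i, ?_, ?_⟩
    · have h2 : algebraMap A K₀ t • algebraMap R E z = ∑ i, algebraMap A K₀ (α i) • bE i := by
        have := congrArg (algebraMap R E) hα
        rw [Algebra.smul_def, map_mul, map_sum] at this
        rw [Algebra.smul_def, ← IsScalarTower.algebraMap_apply,
          IsScalarTower.algebraMap_apply A R E, this]
        refine Finset.sum_congr rfl fun i _ => ?_
        rw [hbE, Algebra.smul_def, Algebra.smul_def, map_mul, ← IsScalarTower.algebraMap_apply,
          ← IsScalarTower.algebraMap_apply]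
      have h3 := congrArg (fun x => bE.repr x i) h2
      simp only [map_smul, Finsupp.smul_apply, smul_eq_mul] at h3
      rw [h3, bE.repr_sum_self]
    · have h2 : ρ z = ∑ i, ρA (α i) • b i := by
        have := congrArg ρ hα
        rw [Algebra.smul_def, map_mul, hc, ht1, map_one, one_mul, map_sum] at this
        rw [this]
        refine Finset.sum_congr rfl fun i _ => ?_
        rw [Algebra.smul_def (α i), map_mul, hc, hr, Algebra.smul_def]
      rw [h2, b.repr_sum_self]
  refine ⟨h1, fun z => ?_⟩
  have h2 : ∀ i, ∃ α : A, algebraMap A K₀ α =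
      algebraMap A K₀ t * bE.repr (algebraMap R E (z * r i)) i ∧
      ρA α = b.repr (ρ (z * r i)) i := fun i => h1 _ i
  choose α hα1 hα2 using h2
  refine ⟨∑ i, α i, ?_, ?_⟩
  · rw [Algebra.trace_eq_matrix_trace bE, Matrix.trace, Finset.mul_sum, map_sum]
    refine Finset.sum_congr rfl fun i _ => ?_
    rw [hα1, Matrix.diag_apply, Algebra.leftMulMatrix_eq_repr_mul, hbE, map_mul]
  · rw [Algebra.trace_eq_matrix_trace b, Matrix.trace, map_sum]
    refine Finset.sum_congr rfl fun i _ => ?_
    rw [hα2, Matrix.diag_apply, Algebra.leftMulMatrix_eq_repr_mul, ← hr, map_mul]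

include hc hr in
theorem chart_dual [Algebra.IsSeparable K₀ E] {t : A} (ht1 : ρA t = 1)
    (ht : ∀ z : R, ∃ α : ι → A, t • z = ∑ i, α i • r i)
    (bE : Basis ι K₀ E) (hbE : ∀ i, bE i = algebraMap R E (r i)) (i : ι) :
    ∃ y : E, ∀ z : R, ∃ α : A,
      algebraMap A K₀ α = Algebra.trace K₀ E (y * algebraMap R E z) ∧
      ρA α = b.repr (ρ z) i := by
  let φ : Module.Dual K₀ E := algebraMap A K₀ t • bE.coord i
  let y : E := ((Algebra.traceForm K₀ E).toDual (traceForm_nondegenerate K₀ E)).symm φ
  refine ⟨y, fun z => ?_⟩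
  obtain ⟨α, hα1, hα2⟩ := (chart_trace hc b r hr ht1 ht bE hbE).1 z i
  refine ⟨α, ?_, hα2⟩
  rw [hα1]
  have h1 : Algebra.traceForm K₀ E y (algebraMap R E z) = φ (algebraMap R E z) := by
    have := LinearMap.BilinForm.apply_toDual_symm_apply (B := Algebra.traceForm K₀ E)
      (hB := traceForm_nondegenerate K₀ E) φ (algebraMap R E z)
    exact this
  rw [Algebra.traceForm_apply] at h1
  rw [h1]
  rfl

end Chart

end Fermat.Agent.H29
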