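import Mathlib
import Fermat.Agent.H29ChartA

/-!
# The chart theorem: the special fibre of an integral closure is normal

Abstract duality argument.
-/

set_option autoImplicit false
set_option linter.unusedSectionVars false

namespace Fermat.Agent.H29

open Module nonZeroDivisors

section Chart

variable {A K₀ E R B D κ Q : Type*} [CommRing A] [IsDomain A] [IsIntegrallyClosed A]
  [Field K₀] [Algebra A K₀] [IsFractionRing A K₀] [Field E] [Algebra K₀ E] [Algebra A E]
  [IsScalarTower A K₀ E] [FiniteDimensional K₀ E] [Algebra.IsSeparable K₀ E]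
  [CommRing R] [IsDomain R] [Algebra A R] [Algebra R E] [IsScalarTower A R E]
  [IsIntegralClosure R A E]
  [CommRing B] [IsDomain B] [CommRing D] [Algebra B D]
  {π : A} (hπ : Prime π) {ρA : A →+* B} {ρ : R →+* D}
  (hρA : Function.Surjective ρA) (hkA : ∀ a, ρA a = 0 ↔ π ∣ a)
  (hρ : Function.Surjective ρ) (hk : ∀ r, ρ r = 0 ↔ algebraMap A R π ∣ r)
  (hc : ∀ a, ρ (algebraMap A R a) = algebraMap B D (ρA a))
  [Field κ] [Algebra B κ] [IsFractionRing B κ] [CommRing Q] [Algebra κ Q] [Algebra B Q]
  [Algebra D Q] [IsScalarTower B κ Q] [IsScalarTower B D Q]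
  [IsLocalization (Algebra.algebraMapSubmonoid D B⁰) Q]

include κ in
theorem isUnit_algebraMap_of_ne_zero (x : B) (hx : x ≠ 0) : IsUnit (algebraMap B Q x) := by
  rw [IsScalarTower.algebraMap_apply B κ Q]
  apply IsUnit.map
  rw [isUnit_iff_ne_zero]
  have := (IsFractionRing.injective B κ).ne hx
  rwa [map_zero] at this

variable (κ) (D) in
theorem trace_subalgebra [IsPrincipalIdealRing B] (D₁ : Subalgebra B Q)
    (hD : ∀ d : D, algebraMap D Q d ∈ D₁) [Module.Finite B D₁] :
    Module.Free B D₁ ∧ ∀ u : D₁, algebraMap B κ (Algebra.trace B D₁ u) = Algebra.trace κ Q u := by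
  have hunit := isUnit_algebraMap_of_ne_zero (B := B) (κ := κ) (Q := Q)
  have htf : Module.IsTorsionFree B D₁ := by
    rw [Module.isTorsionFree_iff_smul_eq_zero]
    intro x m
    rw [or_iff_not_imp_left]
    intro h hx
    apply Subtype.ext
    have h1 : x • (m : Q) = 0 := by
      have := congrArg Subtype.val h
      simpa using this
    rw [Algebra.smul_def] at h1
    exact (hunit x hx).mul_right_eq_zero.mp h1
  have hfree : Module.Free B D₁ := Module.free_of_finite_type_torsion_free'
  refine ⟨hfree, fun u => ?_⟩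
  have hloc : IsLocalization (Algebra.algebraMapSubmonoid D₁ B⁰) Q := by
    rw [isLocalization_iff]
    refine ⟨?_, ?_, ?_⟩
    · rintro ⟨_, x, hx, rfl⟩
      exact hunit x (nonZeroDivisors.ne_zero hx)
    · intro z
      obtain ⟨⟨d, ⟨_, x, hx, rfl⟩⟩, hz⟩ := IsLocalization.surj
        (Algebra.algebraMapSubmonoid D B⁰) z
      refine ⟨⟨⟨_, hD d⟩, ⟨_, x, hx, rfl⟩⟩, ?_⟩
      simp only at hz ⊢
      rw [← IsScalarTower.algebraMap_apply] at hz
      exact hz
    · intro x y hxy
      refine ⟨1, ?_⟩
      congr 1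
      exact Subtype.ext hxy
  have := Algebra.trace_localization B B⁰ (Rₘ := κ) (Sₘ := Q) u
  rw [← this]
  rfl

variable (κ) in
include hπ hρA hkA hρ hk hc κ in
/-- **Chart theorem**, abstract form. -/
theorem chart_main [IsPrincipalIdealRing B] [WfDvdMonoid A] [Module.Finite A R]
    (f : A) (hf0 : ρA f ≠ 0) (hfrad : (Ideal.span {ρA f}).IsRadical)
    (Hdual : ∀ y : E, (∀ z : R, ∃ α : A, algebraMap A K₀ α =
        Algebra.trace K₀ E (y * algebraMap R E z)) →
      ∃ (a : A) (w u c : R) (M : ℕ), ¬ π ∣ a ∧ algebraMap R E w = algebraMap A E a * y ∧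
        algebraMap R E u = algebraMap A E f * y ∧ u ^ M = algebraMap A R f * c)
    (x : Q) (hx : IsIntegral B x) : ∃ d : D, algebraMap D Q d = x := by
  classical
  have hunit := isUnit_algebraMap_of_ne_zero (B := B) (κ := κ) (Q := Q)
  have hinjκ := IsFractionRing.injective B κ
  have hinjA := IsFractionRing.injective A K₀
  have hinjR := IsIntegralClosure.algebraMap_injective R A E
  have hDtf0 := chart_torsionFree (K₀ := K₀) (E := E) hπ hρA hkA hρ hk hc
  have hDtf : Module.IsTorsionFree B D := by
    rw [Module.isTorsionFree_iff_smul_eq_zero]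
    exact fun x d h => hDtf0 x d h
  have hDfin : Module.Finite B D := by
    obtain ⟨s, hs⟩ := Module.Finite.fg_top (R := A) (M := R)
    refine ⟨⟨s.image ρ, ?_⟩⟩
    rw [eq_top_iff]
    rintro d -
    obtain ⟨z, rfl⟩ := hρ d
    have hz : z ∈ Submodule.span A (s : Set R) := by rw [hs]; trivial
    induction hz using Submodule.span_induction with
    | mem z hz => exact Submodule.subset_span (by
        rw [Finset.coe_image]; exact ⟨z, hz, rfl⟩)
    | zero => rw [map_zero]; exact Submodule.zero_mem _
    | add y z _ _ hy hz => rw [map_add]; exact Submodule.add_mem _ hy hz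
    | smul a z _ hz =>
      rw [Algebra.smul_def, map_mul, hc, ← Algebra.smul_def]
      exact Submodule.smul_mem _ _ hz
  have hDfree : Module.Free B D := Module.free_of_finite_type_torsion_free'
  set ι := Module.Free.ChooseBasisIndex B D
  let b : Basis ι B D := Module.Free.chooseBasis B D
  choose r hr using fun i => hρ (b i)
  obtain ⟨t, ht1, ht⟩ := chart_nakayama hρA hkA hk hc b r hr
  obtain ⟨bE, hbE⟩ := chart_basis (K₀ := K₀) (E := E) hπ hρA hkA hk hc b r hr
  have htr := (chart_trace hc b r hr ht1 ht bE hbE).2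
  -- the subalgebra generated by `D` and `x`
  let D₁ : Subalgebra B Q :=
    Algebra.adjoin B (insert x (Set.range fun i => algebraMap D Q (b i)))
  have hD : ∀ d : D, algebraMap D Q d ∈ D₁ := by
    intro d
    rw [← b.sum_repr d, map_sum]
    refine Subalgebra.sum_mem _ fun i _ => ?_
    rw [Algebra.smul_def, map_mul, ← IsScalarTower.algebraMap_apply, ← Algebra.smul_def]
    refine Subalgebra.smul_mem _ (Algebra.subset_adjoin ?_) _
    exact Set.mem_insert_of_mem _ ⟨i, rfl⟩
  have hx1 : x ∈ D₁ := Algebra.subset_adjoin (Set.mem_insert _ _)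
  have hD₁fin : Module.Finite B D₁ := by
    have hfg : (Subalgebra.toSubmodule D₁).FG := by
      refine fg_adjoin_of_finite ((Set.finite_range _).insert x) ?_
      rintro y (rfl | ⟨i, rfl⟩)
      · exact hx
      · exact (Algebra.IsIntegral.isIntegral (R := B) (b i)).map
          (IsScalarTower.toAlgHom B D Q)
    exact Module.Finite.iff_fg.mpr hfg
  obtain ⟨hD₁free, hD₁tr⟩ := trace_subalgebra D κ D₁ hD
  have hDtr : ∀ d : D, algebraMap B κ (Algebra.trace B D d) =
      Algebra.trace κ Q (algebraMap D Q d) := fun d =>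
    (Algebra.trace_localization B B⁰ (Rₘ := κ) (Sₘ := Q) d).symm
  have hinjQ : ∀ d d' : D, algebraMap D Q d = algebraMap D Q d' → d = d' := by
    intro d d' h
    obtain ⟨⟨_, y, hy, rfl⟩, hc'⟩ := (IsLocalization.eq_iff_exists
      (Algebra.algebraMapSubmonoid D B⁰) Q).mp h
    simp only at hc'
    rw [← sub_eq_zero, ← mul_sub, ← Algebra.smul_def] at hc'
    rcases hDtf0 _ _ hc' with h1 | h1
    · exact absurd h1 (nonZeroDivisors.ne_zero hy)
    · exact sub_eq_zero.mp h1
  -- the key step
  have key : ∀ g : B, Prime g → ∀ δ ∈ D₁, ∀ d : D, algebraMap B Q g * δ = algebraMap D Q d →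
      ∃ d' : D, δ = algebraMap D Q d' := by
    intro g hg δ hδ d hd
    obtain ⟨z, rfl⟩ := hρ d
    have h1 : ∀ i, g ∣ b.repr (ρ z) i := by
      intro i
      obtain ⟨y, hy⟩ := chart_dual hc b r hr ht1 ht bE hbE i
      obtain ⟨a, w, u, c, M, ha, hw, hu, huM⟩ := Hdual y (fun z => by
        obtain ⟨α, hα, -⟩ := hy z
        exact ⟨α, hα⟩)
      obtain ⟨α, hα1, hα2⟩ := hy z
      obtain ⟨α', hα'1, hα'2⟩ := htr (w * z)
      have e1 : α' = t * (a * α) := by
        apply hinjA
        have e0 : algebraMap R E (w * z) = algebraMap A K₀ a • (y * algebraMap R E z) := by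
          rw [map_mul, hw, Algebra.smul_def, ← IsScalarTower.algebraMap_apply, mul_assoc]
        rw [hα'1, e0, map_smul, smul_eq_mul, ← hα1, ← map_mul, ← map_mul]
      have e2 : ρA a * b.repr (ρ z) i = Algebra.trace B D (ρ (w * z)) := by
        rw [← hα'2, e1, map_mul, map_mul, ht1, one_mul, hα2]
      have e3 : algebraMap A R f * w = algebraMap A R a * u := by
        apply hinjR
        rw [map_mul, map_mul, hw, hu, ← IsScalarTower.algebraMap_apply,
          ← IsScalarTower.algebraMap_apply]
        ring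
      have e4 : ρA f • ρ w = ρA a • ρ u := by
        rw [Algebra.smul_def, Algebra.smul_def, ← hc, ← hc, ← map_mul, ← map_mul, e3]
      -- the trace of `ū δ`
      let v : D₁ := ⟨algebraMap D Q (ρ u) * δ, D₁.mul_mem (hD _) hδ⟩
      have hv : Algebra.trace B D₁ v ∈ Ideal.span {ρA f} := by
        rw [← hfrad.radical, Ideal.radical_eq_sInf, Submodule.mem_sInf]
        rintro I ⟨hI, hIp⟩
        have hIp' : Ideal.IsPrime I := hIp
        refine trace_mem_of_pow_mem I v M ?_
        have hfI : ρA f ∈ I := hI (Ideal.mem_span_singleton_self _)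
        have e5 : v ^ M = algebraMap B D₁ (ρA f) * (⟨algebraMap D Q (ρ c) * δ ^ M,
            D₁.mul_mem (hD _) (D₁.pow_mem hδ M)⟩ : D₁) := by
          apply Subtype.ext
          change (algebraMap D Q (ρ u) * δ) ^ M = algebraMap B Q (ρA f) *
            (algebraMap D Q (ρ c) * δ ^ M)
          rw [mul_pow, ← map_pow, ← map_pow, huM, map_mul, hc, map_mul,
            ← IsScalarTower.algebraMap_apply]
          ring
        rw [e5]
        exact Ideal.mul_mem_right _ _ (Ideal.mem_map_of_mem _ hfI)
      obtain ⟨τ, hτ⟩ := Ideal.mem_span_singleton'.mp hv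
      refine ⟨τ, ?_⟩
      have e6 : algebraMap B κ (Algebra.trace B D₁ v) =
          Algebra.trace κ Q (algebraMap D Q (ρ u) * δ) := hD₁tr v
      have e7 : algebraMap B κ (ρA f * (ρA a * b.repr (ρ z) i)) =
          algebraMap B κ (ρA a * g * (τ * ρA f)) := by
        have e8 : algebraMap B Q (ρA f) * algebraMap D Q (ρ w) =
            algebraMap B Q (ρA a) * algebraMap D Q (ρ u) := by
          have := congrArg (algebraMap D Q) e4
          rw [Algebra.smul_def, Algebra.smul_def, map_mul, map_mul,
            ← IsScalarTower.algebraMap_apply, ← IsScalarTower.algebraMap_apply] at this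
          exact this
        have e10 : algebraMap B κ (ρA f) • algebraMap D Q (ρ (w * z)) =
            algebraMap B κ (ρA a * g) • (algebraMap D Q (ρ u) * δ) := by
          rw [Algebra.smul_def, Algebra.smul_def, ← IsScalarTower.algebraMap_apply,
            ← IsScalarTower.algebraMap_apply, map_mul, map_mul, map_mul, ← hd]
          linear_combination (algebraMap B Q g * δ) * e8
        rw [hτ, e2, map_mul, hDtr, map_mul (algebraMap B κ) (ρA a * g), e6, ← smul_eq_mul,
          ← map_smul, e10, map_smul, smul_eq_mul]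
      have e9 := hinjκ e7
      have ha0 : ρA a ≠ 0 := fun h => ha ((hkA a).mp h)
      have : (ρA f * ρA a) * b.repr (ρ z) i = (ρA f * ρA a) * (g * τ) := by
        linear_combination e9
      exact mul_left_cancel₀ (mul_ne_zero hf0 ha0) this
    choose τ hτ using h1
    refine ⟨∑ i, τ i • b i, ?_⟩
    apply (hunit g hg.ne_zero).mul_left_cancel
    rw [hd]
    conv_lhs => rw [← b.sum_repr (ρ z)]
    rw [IsScalarTower.algebraMap_apply B D Q, ← map_mul, Finset.mul_sum]
    congr 1
    refine Finset.sum_congr rfl fun i _ => ?_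
    rw [hτ i, mul_smul, Algebra.smul_def]
  -- induction on the denominator
  have hind : ∀ a : B, a ≠ 0 → ∀ δ ∈ D₁, ∀ d : D, algebraMap B Q a * δ = algebraMap D Q d →
      ∃ d' : D, δ = algebraMap D Q d' := by
    intro a
    induction a using UniqueFactorizationMonoid.induction_on_prime with
    | h₁ => intro h; exact absurd rfl h
    | h₂ a ha =>
      intro _ δ _ d hd
      obtain ⟨a', ha'⟩ := ha.exists_left_inv
      refine ⟨algebraMap B D a' * d, ?_⟩
      rw [map_mul, ← IsScalarTower.algebraMap_apply, ← hd, ← mul_assoc, ← map_mul, ha', map_one,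
        one_mul]
    | h₃ a g ha hg ih =>
      intro _ δ hδ d hd
      have h1 : algebraMap B Q a * δ ∈ D₁ := D₁.mul_mem (D₁.algebraMap_mem a) hδ
      obtain ⟨d', hd'⟩ := key g hg _ h1 d (by rw [← mul_assoc, ← map_mul, hd])
      exact ih ha δ hδ d' hd'
  obtain ⟨⟨d, ⟨_, a, ha, rfl⟩⟩, hz⟩ := IsLocalization.surj (Algebra.algebraMapSubmonoid D B⁰) x
  simp only at hz
  rw [← IsScalarTower.algebraMap_apply, mul_comm] at hz
  obtain ⟨d', hd'⟩ := hind a (nonZeroDivisors.ne_zero ha) x hx1 d hz
  exact ⟨d', hd'.symm⟩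

end Chart

end Fermat.Agent.H29
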