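import Mathlib
import Fermat.Agent.H29ChartB

/-!
# The chart theorem: from local hypotheses to lifting of idempotents
-/

set_option autoImplicit false
set_option linter.unusedSectionVars false

namespace Fermat.Agent.H29

open Module nonZeroDivisors

theorem isIntegral_of_sq_eq {B Q : Type*} [CommRing B] [Nontrivial B] [CommRing Q] [Algebra B Q]
    (x : Q) (h : x ^ 2 = x) : IsIntegral B x := by
  refine ⟨Polynomial.X ^ 2 - Polynomial.X, ?_, ?_⟩
  · refine Polynomial.monic_X_pow_sub (n := 2) ?_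
    rw [Polynomial.degree_X]
    exact_mod_cast one_lt_two
  · rw [Polynomial.eval₂_sub, Polynomial.eval₂_X_pow, Polynomial.eval₂_X, h, sub_self]

section Chart

variable {A K₀ E R B D κ Q P C : Type*} [CommRing A] [IsDomain A] [IsIntegrallyClosed A]
  [Field K₀] [Algebra A K₀] [IsFractionRing A K₀] [Field E] [Algebra K₀ E] [Algebra A E]
  [IsScalarTower A K₀ E] [FiniteDimensional K₀ E] [Algebra.IsSeparable K₀ E]
  [CommRing R] [IsDomain R] [Algebra A R] [Algebra R E] [IsScalarTower A R E]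
  [IsIntegralClosure R A E]
  [CommRing B] [IsDomain B] [CommRing D] [Algebra B D]
  [CommRing P] [IsDomain P] [IsPrincipalIdealRing P] [Algebra P K₀] [IsFractionRing P K₀]
  [Algebra P E] [IsScalarTower P K₀ E]
  [CommRing C] [IsDomain C] [Algebra P C] [Algebra C E] [IsScalarTower P C E]
  [IsIntegralClosure C P E]
  {π : A} (hπ : Prime π) {ρA : A →+* B} {ρ : R →+* D}
  (hρA : Function.Surjective ρA) (hkA : ∀ a, ρA a = 0 ↔ π ∣ a)
  (hρ : Function.Surjective ρ) (hk : ∀ r, ρ r = 0 ↔ algebraMap A R π ∣ r)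
  (hc : ∀ a, ρ (algebraMap A R a) = algebraMap B D (ρA a))
  [Field κ] [Algebra B κ] [IsFractionRing B κ] [CommRing Q] [Algebra κ Q] [Algebra B Q]
  [Algebra D Q] [IsScalarTower B κ Q] [IsScalarTower B D Q]
  [IsLocalization (Algebra.algebraMapSubmonoid D B⁰) Q]
  (f : A) (fP : P) (hfP : algebraMap P K₀ fP = algebraMap A K₀ f)
  (hCR : ∀ z : C, ∃ (n : ℕ) (r : R), algebraMap R E r = algebraMap A E (π ^ n) * algebraMap C E z)
  (hAP : ∀ (α : A) (n : ℕ), ∃ p : P, algebraMap P K₀ p * algebraMap A K₀ (π ^ n) =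
    algebraMap A K₀ α)
  (hP : ¬ IsField P) (hchar : ∀ g : P, Prime g → CharZero (P ⧸ Ideal.span {g}))
  (H1 : ∀ y : E, (∀ z : R, ∃ α : A, algebraMap A K₀ α =
      Algebra.trace K₀ E (y * algebraMap R E z)) →
    ∃ a : A, ¬ π ∣ a ∧ ∃ w : R, algebraMap R E w = algebraMap A E a * y)
  (H2 : ∀ g : P, Prime g → ¬ g ∣ fP → (Ideal.span {algebraMap P C g}).IsRadical)

include hπ hfP hCR hAP hP hchar H1 H2 in
theorem chart_Hdual (hf : ¬ π ∣ f) (y : E) (hy : ∀ z : R, ∃ α : A, algebraMap A K₀ α =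
        Algebra.trace K₀ E (y * algebraMap R E z)) :
      ∃ (a : A) (w u c : R) (M : ℕ), ¬ π ∣ a ∧ algebraMap R E w = algebraMap A E a * y ∧
        algebraMap R E u = algebraMap A E f * y ∧ u ^ M = algebraMap A R f * c := by
  obtain ⟨a, ha, w, hw⟩ := H1 y hy
  have hinjA := IsFractionRing.injective A K₀
  have hinjR := IsIntegralClosure.algebraMap_injective R A E
  have hintR : ∀ z : R, IsIntegral A (algebraMap R E z) := fun z =>
    IsIntegralClosure.isIntegral_iff.mpr ⟨z, rfl⟩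
  have hπK : ∀ n : ℕ, algebraMap A K₀ (π ^ n) ≠ 0 := by
    intro n
    have := hinjA.ne (pow_ne_zero n hπ.ne_zero)
    rwa [map_zero] at this
  have hfE : algebraMap P E fP = algebraMap A E f := by
    rw [IsScalarTower.algebraMap_apply P K₀ E, hfP, ← IsScalarTower.algebraMap_apply]
  have key : ∀ (z : C) (b : A), ¬ π ∣ b → IsIntegral A (b • algebraMap C E z) →
      ∃ r : R, algebraMap R E r = algebraMap C E z := by
    intro z b hb hbz
    obtain ⟨n, r, hr⟩ := hCR z
    have : IsIntegral A (algebraMap C E z) := by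
      refine isIntegral_of_prime (K₀ := K₀) (Algebra.IsIntegral.isIntegral _) hπ hb n ?_ hbz
      rw [Algebra.smul_def, ← hr]
      exact hintR r
    exact (IsIntegralClosure.isIntegral_iff (A := R)).mp this
  obtain ⟨u', hu', M, hM⟩ := dual_mem_radical (P := P) (K₀ := K₀) (C := C) (E := E) hP fP hchar H2
    y (by
      intro z
      obtain ⟨n, r, hr⟩ := hCR z
      obtain ⟨α, hα⟩ := hy r
      obtain ⟨p, hp⟩ := hAP α n
      refine ⟨p, ?_⟩
      apply mul_right_cancel₀ (hπK n)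
      have e1 : y * algebraMap R E r = algebraMap A K₀ (π ^ n) • (y * algebraMap C E z) := by
        rw [Algebra.smul_def, ← IsScalarTower.algebraMap_apply, hr]; ring
      rw [hp, hα, e1, map_smul, smul_eq_mul, mul_comm])
  obtain ⟨c', hc'⟩ := Ideal.mem_span_singleton'.mp hM
  rw [hfE] at hu'
  obtain ⟨u, hu⟩ := key u' a ha (by
    rw [hu', Algebra.smul_def]
    have : algebraMap A E a * (algebraMap A E f * y) = algebraMap R E (algebraMap A R f * w) := by
      rw [map_mul, hw, ← IsScalarTower.algebraMap_apply]; ring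
    rw [this]
    exact hintR _)
  have hcf : algebraMap A E f * algebraMap C E c' = algebraMap R E (u ^ M) := by
    rw [map_pow, hu, ← map_pow, ← hc', map_mul, ← hfE, ← IsScalarTower.algebraMap_apply]; ring
  obtain ⟨c, hc⟩ := key c' f hf (by
    rw [Algebra.smul_def, hcf]
    exact hintR _)
  refine ⟨a, w, u, c, M, ha, hw, by rw [hu, hu'], ?_⟩
  apply hinjR
  rw [← hcf, map_mul, hc, ← IsScalarTower.algebraMap_apply]

variable (κ Q) in
include hπ hρA hkA hρ hk hc hfP hCR hAP hP hchar H1 H2 κ Q in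
/-- Lifting of idempotents (chart theorem). -/
theorem chart_idem_abs [IsPrincipalIdealRing B] [WfDvdMonoid A] [Module.Finite A R]
    (hfrad : (Ideal.span {ρA f}).IsRadical) (hf : ¬ π ∣ f)
    (x : E) (a₀ b₀ : A) (r₀ r₁ : R) (ha₀ : ¬ π ∣ a₀) (hb₀ : ¬ π ∣ b₀)
    (h₀ : algebraMap R E r₀ = algebraMap A E a₀ * x)
    (h₁ : algebraMap A E b₀ * (x ^ 2 - x) = algebraMap A E π * algebraMap R E r₁) :
    ∃ (r r₂ : R), algebraMap A E a₀ * (x - algebraMap R E r) =
      algebraMap A E π * algebraMap R E r₂ := by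
  have hinjR := IsIntegralClosure.algebraMap_injective R A E
  have hunit := isUnit_algebraMap_of_ne_zero (B := B) (κ := κ) (Q := Q)
  have hf0 : ρA f ≠ 0 := fun h => hf ((hkA f).mp h)
  have ha0 : ρA a₀ ≠ 0 := fun h => ha₀ ((hkA a₀).mp h)
  have hb0 : ρA b₀ ≠ 0 := fun h => hb₀ ((hkA b₀).mp h)
  have hDtf0 := chart_torsionFree (K₀ := K₀) (E := E) hπ hρA hkA hρ hk hc
  have h2 : ρ (algebraMap A R b₀ * (r₀ ^ 2 - algebraMap A R a₀ * r₀)) = 0 := by
    rw [hk]
    refine ⟨algebraMap A R a₀ ^ 2 * r₁, ?_⟩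
    apply hinjR
    simp only [map_mul, map_sub, map_pow, ← IsScalarTower.algebraMap_apply, h₀]
    linear_combination (algebraMap A E a₀) ^ 2 * h₁
  have h3 : ρ r₀ ^ 2 = algebraMap B D (ρA a₀) * ρ r₀ := by
    rw [map_mul, hc, ← Algebra.smul_def] at h2
    rcases hDtf0 _ _ h2 with h | h
    · exact absurd h hb0
    · rw [map_sub, map_pow, map_mul, hc, sub_eq_zero] at h
      exact h
  obtain ⟨xb, hvx⟩ : ∃ xb : Q, algebraMap B Q (ρA a₀) * xb = algebraMap D Q (ρ r₀) := by
    obtain ⟨v, hv⟩ := hunit (ρA a₀) ha0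
    exact ⟨↑v⁻¹ * algebraMap D Q (ρ r₀), by rw [← hv, Units.mul_inv_cancel_left]⟩
  have h4 : xb ^ 2 = xb := by
    have h5 : algebraMap B Q (ρA a₀) * (algebraMap B Q (ρA a₀) * xb ^ 2) =
        algebraMap B Q (ρA a₀) * (algebraMap B Q (ρA a₀) * xb) := by
      have e1 : algebraMap B Q (ρA a₀) * (algebraMap B Q (ρA a₀) * xb ^ 2) =
          (algebraMap B Q (ρA a₀) * xb) ^ 2 := by ring
      rw [e1, hvx, ← map_pow, h3, map_mul, ← IsScalarTower.algebraMap_apply]
    exact (hunit _ ha0).mul_left_cancel ((hunit _ ha0).mul_left_cancel h5)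
  have hint : IsIntegral B xb := isIntegral_of_sq_eq xb h4
  obtain ⟨d, hd⟩ := chart_main κ hπ hρA hkA hρ hk hc f hf0 hfrad
    (fun y hy => chart_Hdual (P := P) (C := C) hπ f fP hfP hCR hAP hP hchar H1 H2 hf y hy) xb hint
  obtain ⟨r, rfl⟩ := hρ d
  have h6 : algebraMap D Q (ρ r₀) = algebraMap D Q (algebraMap B D (ρA a₀) * ρ r) := by
    rw [map_mul, hd, ← IsScalarTower.algebraMap_apply, hvx]
  have h7 : ρ r₀ = algebraMap B D (ρA a₀) * ρ r := by
    obtain ⟨⟨_, y, hy, rfl⟩, hc'⟩ := (IsLocalization.eq_iff_exists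
      (Algebra.algebraMapSubmonoid D B⁰) Q).mp h6
    simp only at hc'
    rw [← sub_eq_zero, ← mul_sub, ← Algebra.smul_def] at hc'
    rcases hDtf0 _ _ hc' with h1 | h1
    · exact absurd h1 (nonZeroDivisors.ne_zero hy)
    · exact sub_eq_zero.mp h1
  have h8 : ρ (r₀ - algebraMap A R a₀ * r) = 0 := by
    rw [map_sub, map_mul, hc, h7, sub_self]
  rw [hk] at h8
  obtain ⟨r₂, hr₂⟩ := h8
  refine ⟨r, r₂, ?_⟩
  have := congrArg (algebraMap R E) hr₂
  simp only [map_mul, map_sub, ← IsScalarTower.algebraMap_apply, h₀] at this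
  linear_combination this

end Chart

end Fermat.Agent.H29
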