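import Mathlib
import Fermat.Agent.H29ChartC

/-!
# The chart theorem over a discrete valuation ring
-/

set_option autoImplicit false
set_option linter.unusedSectionVars false

namespace Fermat.Agent.H29

open Module nonZeroDivisors Polynomial IsLocalRing

/-- `x` is integral over `𝔯[s]`. -/
def IntOver (𝔯 : Type*) {E : Type*} [CommRing 𝔯] [Field E] [Algebra 𝔯 E] (s x : E) : Prop :=
  ((aeval s : 𝔯[X] →ₐ[𝔯] E) : 𝔯[X] →+* E).IsIntegralElem x

section Basic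

variable {𝔯 E : Type*} [CommRing 𝔯] [Field E] [Algebra 𝔯 E] {s x y : E}

theorem intOver_iff (A : Type*) [CommRing A] [Algebra A E] (e : 𝔯[X] ≃+* A)
    (he : ∀ p, algebraMap A E (e p) = aeval s p) : IntOver 𝔯 s x ↔ IsIntegral A x := by
  have h1 : (algebraMap A E).comp (e : 𝔯[X] →+* A) =
      ((aeval s : 𝔯[X] →ₐ[𝔯] E) : 𝔯[X] →+* E) := by
    ext p
    · simp [← he]
    · have := he X
      simp at this
      simp [this]
  unfold IntOver IsIntegral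
  rw [← h1]
  constructor
  · rintro ⟨q, hq, hq0⟩
    refine ⟨q.map (e : 𝔯[X] →+* A), hq.map _, ?_⟩
    rw [eval₂_map]; exact hq0
  · rintro ⟨q, hq, hq0⟩
    refine ⟨q.map (e.symm : A →+* 𝔯[X]), hq.map _, ?_⟩
    rw [eval₂_map]
    convert hq0 using 2
    ext a
    simp

theorem IntOver.add (hx : IntOver 𝔯 s x) (hy : IntOver 𝔯 s y) : IntOver 𝔯 s (x + y) :=
  RingHom.IsIntegralElem.add _ hx hy

theorem IntOver.mul (hx : IntOver 𝔯 s x) (hy : IntOver 𝔯 s y) : IntOver 𝔯 s (x * y) :=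
  RingHom.IsIntegralElem.mul _ hx hy

theorem IntOver.neg (hx : IntOver 𝔯 s x) : IntOver 𝔯 s (-x) :=
  RingHom.IsIntegralElem.neg _ hx

theorem IntOver.sub (hx : IntOver 𝔯 s x) (hy : IntOver 𝔯 s y) : IntOver 𝔯 s (x - y) :=
  RingHom.IsIntegralElem.sub _ hx hy

theorem intOver_aeval (p : 𝔯[X]) : IntOver 𝔯 s (aeval s p) :=
  RingHom.isIntegralElem_map (f := ((aeval s : 𝔯[X] →ₐ[𝔯] E) : 𝔯[X] →+* E)) (x := p)

theorem intOver_algebraMap (a : 𝔯) : IntOver 𝔯 s (algebraMap 𝔯 E a) := by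
  have := intOver_aeval (s := s) (C a)
  rwa [aeval_C] at this

theorem intOver_self : IntOver 𝔯 s s := by
  have := intOver_aeval (𝔯 := 𝔯) (s := s) X
  rwa [aeval_X] at this

theorem intOver_one : IntOver 𝔯 s 1 := by
  have := intOver_algebraMap (𝔯 := 𝔯) (s := s) 1
  rwa [map_one] at this

theorem intOver_zero : IntOver 𝔯 s 0 := by
  have := intOver_algebraMap (𝔯 := 𝔯) (s := s) 0
  rwa [map_zero] at this

theorem IntOver.pow (hx : IntOver 𝔯 s x) (n : ℕ) : IntOver 𝔯 s (x ^ n) := by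
  induction n with
  | zero => rw [pow_zero]; exact intOver_one
  | succ n ih => rw [pow_succ]; exact ih.mul hx

theorem IntOver.of_map {𝔯' : Type*} [CommRing 𝔯'] [Algebra 𝔯' E] [Algebra 𝔯 𝔯']
    [IsScalarTower 𝔯 𝔯' E] (hx : IntOver 𝔯 s x) : IntOver 𝔯' s x := by
  obtain ⟨q, hq, hq0⟩ := hx
  have h : ((aeval s : 𝔯'[X] →ₐ[𝔯'] E) : 𝔯'[X] →+* E).comp (mapRingHom (algebraMap 𝔯 𝔯')) =
      ((aeval s : 𝔯[X] →ₐ[𝔯] E) : 𝔯[X] →+* E) := by
    apply Polynomial.ringHom_ext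
    · intro a
      simp [← IsScalarTower.algebraMap_apply]
    · simp
  refine ⟨q.map (mapRingHom (algebraMap 𝔯 𝔯')), hq.map _, ?_⟩
  rw [eval₂_map, h]
  exact hq0

end Basic

section DVR

variable {𝔬 : Type*} [CommRing 𝔬] [IsDomain 𝔬] [IsDiscreteValuationRing 𝔬]

theorem residue_eq_zero_iff_dvd {ϖ : 𝔬} (hϖ : Irreducible ϖ) (a : 𝔬) :
    residue 𝔬 a = 0 ↔ ϖ ∣ a := by
  rw [residue_eq_zero_iff, hϖ.maximalIdeal_eq, Ideal.mem_span_singleton]

theorem map_residue_eq_zero_iff {ϖ : 𝔬} (hϖ : Irreducible ϖ) (p : 𝔬[X]) :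
    p.map (residue 𝔬) = 0 ↔ C ϖ ∣ p := by
  rw [C_dvd_iff_dvd_coeff]
  constructor
  · intro h i
    rw [← residue_eq_zero_iff_dvd hϖ, ← coeff_map, h, coeff_zero]
  · intro h
    ext i
    rw [coeff_map, coeff_zero, residue_eq_zero_iff_dvd hϖ]
    exact h i

end DVR

section Main

variable {𝔬 L₀ K₀ E : Type*} [CommRing 𝔬] [IsDomain 𝔬] [IsDiscreteValuationRing 𝔬]
  [Field L₀] [CharZero L₀] [Algebra 𝔬 L₀] [IsFractionRing 𝔬 L₀]
  [Field K₀] [Algebra L₀ K₀] [Algebra 𝔬 K₀] [IsScalarTower 𝔬 L₀ K₀]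
  [Field E] [Algebra K₀ E] [Algebra L₀ E] [Algebra 𝔬 E] [IsScalarTower L₀ K₀ E]
  [IsScalarTower 𝔬 K₀ E] [FiniteDimensional K₀ E]

/-- `K₀ = L₀(s)` with `s` transcendental. -/
structure IsRatGen (L₀ : Type*) {K₀ : Type*} [Field L₀] [Field K₀] [Algebra L₀ K₀] (s : K₀) :
    Prop where
  transc : ∀ p : L₀[X], aeval s p = 0 → p = 0
  surj : ∀ x : K₀, ∃ p q : L₀[X], q ≠ 0 ∧ x * aeval s q = aeval s p

theorem exists_smul_map_eq (p : L₀[X]) : ∃ (d : 𝔬) (q : 𝔬[X]), d ≠ 0 ∧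
    q.map (algebraMap 𝔬 L₀) = C (algebraMap 𝔬 L₀ d) * p := by
  obtain ⟨d, hd, h⟩ := IsLocalization.integerNormalization_spec (nonZeroDivisors 𝔬) p
  refine ⟨d, IsLocalization.integerNormalization 𝔬⁰ p, nonZeroDivisors.ne_zero hd, ?_⟩
  rw [h, Algebra.smul_def, Polynomial.algebraMap_apply]

attribute [local instance] Polynomial.algebra Polynomial.isLocalization in
theorem exists_intOver_mul [IsScalarTower 𝔬 L₀ E] (s x : E) (hx : IntOver L₀ s x) :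
    ∃ d : 𝔬, d ≠ 0 ∧ IntOver 𝔬 s (algebraMap 𝔬 E d * x) := by
  let a2 : Algebra 𝔬[X] E := ((aeval s : 𝔬[X] →ₐ[𝔬] E) : 𝔬[X] →+* E).toAlgebra
  let a4 : Algebra L₀[X] E := ((aeval s : L₀[X] →ₐ[L₀] E) : L₀[X] →+* E).toAlgebra
  have ht2 : IsScalarTower 𝔬[X] L₀[X] E := IsScalarTower.of_algebraMap_eq fun p => by
    change aeval s p = aeval s (p.map (algebraMap 𝔬 L₀))
    rw [aeval_map_algebraMap]
  have hx' : IsIntegral L₀[X] x := hx
  obtain ⟨⟨_, d, hd, rfl⟩, hm⟩ := IsIntegral.exists_multiple_integral_of_isLocalization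
    (Submonoid.map (C : 𝔬 →+* 𝔬[X]) 𝔬⁰) x hx'
  refine ⟨d, nonZeroDivisors.ne_zero hd, ?_⟩
  have h1 : (⟨(C : 𝔬 →+* 𝔬[X]) d, Submonoid.mem_map_of_mem _ hd⟩ :
      Submonoid.map (C : 𝔬 →+* 𝔬[X]) 𝔬⁰) • x = algebraMap 𝔬 E d * x := by
    rw [Submonoid.smul_def, Algebra.smul_def]
    change aeval s (C d) * x = _
    rw [aeval_C]
  have h2 : IsIntegral 𝔬[X] (algebraMap 𝔬 E d * x) := by
    rw [← h1]; exact hm
  exact h2

variable {s : K₀} (hs : IsRatGen L₀ s)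

include hs in
theorem isFractionRing_L [Algebra L₀[X] K₀]
    (h : ∀ p : L₀[X], algebraMap L₀[X] K₀ p = aeval s p) : IsFractionRing L₀[X] K₀ := by
  unfold IsFractionRing
  rw [isLocalization_iff]
  refine ⟨?_, ?_, ?_⟩
  · rintro ⟨p, hp⟩
    rw [isUnit_iff_ne_zero, h]
    intro h0
    exact nonZeroDivisors.ne_zero hp (hs.transc p h0)
  · intro z
    obtain ⟨p, q, hq, hz⟩ := hs.surj z
    exact ⟨⟨p, ⟨q, mem_nonZeroDivisors_of_ne_zero hq⟩⟩, by simp only [h]; exact hz⟩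
  · intro p q hpq
    refine ⟨1, ?_⟩
    congr 1
    rw [h, h, ← sub_eq_zero, ← map_sub] at hpq
    exact sub_eq_zero.mp (hs.transc _ hpq)

include hs in
theorem isFractionRing_O [Algebra 𝔬[X] K₀]
    (h : ∀ p : 𝔬[X], algebraMap 𝔬[X] K₀ p = aeval s p) : IsFractionRing 𝔬[X] K₀ := by
  have hmap : ∀ p : 𝔬[X], aeval s p = aeval s (p.map (algebraMap 𝔬 L₀)) := by
    intro p; rw [aeval_map_algebraMap]
  have hinjm : Function.Injective (Polynomial.map (algebraMap 𝔬 L₀)) :=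
    Polynomial.map_injective _ (IsFractionRing.injective 𝔬 L₀)
  unfold IsFractionRing
  rw [isLocalization_iff]
  refine ⟨?_, ?_, ?_⟩
  · rintro ⟨p, hp⟩
    rw [isUnit_iff_ne_zero, h, hmap]
    intro h0
    have := hs.transc _ h0
    exact nonZeroDivisors.ne_zero hp (hinjm (by rw [this, Polynomial.map_zero]))
  · intro z
    obtain ⟨p, q, hq, hz⟩ := hs.surj z
    obtain ⟨d₁, p', hd₁, hp'⟩ := exists_smul_map_eq (𝔬 := 𝔬) p
    obtain ⟨d₂, q', hd₂, hq'⟩ := exists_smul_map_eq (𝔬 := 𝔬) q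
    have hd₂' : algebraMap 𝔬 L₀ d₂ ≠ 0 := by
      have := (IsFractionRing.injective 𝔬 L₀).ne hd₂
      rwa [map_zero] at this
    have hq'0 : C d₁ * q' ≠ 0 := by
      refine mul_ne_zero (C_ne_zero.mpr hd₁) ?_
      rintro rfl
      rw [Polynomial.map_zero] at hq'
      exact mul_ne_zero (C_ne_zero.mpr hd₂') hq hq'.symm
    refine ⟨⟨C d₂ * p', ⟨C d₁ * q', mem_nonZeroDivisors_of_ne_zero hq'0⟩⟩, ?_⟩
    simp only [h]
    rw [hmap (C d₁ * q'), hmap (C d₂ * p'), Polynomial.map_mul, Polynomial.map_mul, hp', hq',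
      Polynomial.map_C, Polynomial.map_C, map_mul, map_mul, map_mul, map_mul]
    linear_combination (aeval s (C (algebraMap 𝔬 L₀ d₁)) * aeval s (C (algebraMap 𝔬 L₀ d₂))) * hz
  · intro p q hpq
    refine ⟨1, ?_⟩
    congr 1
    rw [h, h, ← sub_eq_zero, ← map_sub, hmap] at hpq
    have := hs.transc _ hpq
    exact sub_eq_zero.mp (hinjm (by rw [this, Polynomial.map_zero]))

end Main

end Fermat.Agent.H29
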