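import Mathlib
import Fermat.Agent.H29ChartD

/-!
# Lifting idempotents of the special fibre over a chart `𝔬[s]`
-/

set_option autoImplicit false
set_option linter.unusedSectionVars false

namespace Fermat.Agent.H29

open Module nonZeroDivisors Polynomial IsLocalRing

section Main

variable {𝔬 L₀ K₀ E : Type*} [CommRing 𝔬] [IsDomain 𝔬] [IsDiscreteValuationRing 𝔬]
  [Field L₀] [CharZero L₀] [Algebra 𝔬 L₀] [IsFractionRing 𝔬 L₀]
  [Field K₀] [Algebra L₀ K₀] [Algebra 𝔬 K₀] [IsScalarTower 𝔬 L₀ K₀]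
  [Field E] [Algebra K₀ E] [Algebra L₀ E] [Algebra 𝔬 E] [IsScalarTower L₀ K₀ E]
  [IsScalarTower 𝔬 K₀ E] [FiniteDimensional K₀ E]
  {s : K₀} (hs : IsRatGen L₀ s) {ϖ : 𝔬} (hϖ : Irreducible ϖ)

/-- hypothesis at the Gauss valuation: the trace dual of the integral closure is contained in
its localization. -/
def GaussDual (𝔬 : Type*) {K₀ E : Type*} [CommRing 𝔬] [IsLocalRing 𝔬] [Field K₀] [Field E]
    [Algebra K₀ E] [Algebra 𝔬 K₀] [Algebra 𝔬 E] (s : K₀) (y : E) : Prop :=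
  (∀ z : E, IntOver 𝔬 (algebraMap K₀ E s) z →
    ∃ α : 𝔬[X], aeval s α = Algebra.trace K₀ E (y * z)) →
  ∃ a : 𝔬[X], a.map (residue 𝔬) ≠ 0 ∧
    IntOver 𝔬 (algebraMap K₀ E s) (aeval (algebraMap K₀ E s) a * y)

/-- hypothesis in characteristic zero: the integral closure of `L₀[s]` is unramified at the prime
`g`. -/
def RedAt (L₀ : Type*) {E : Type*} [Field L₀] [Field E] [Algebra L₀ E] (s : E) (g : L₀[X]) : Prop :=
  ∀ a b : E, IntOver L₀ s a → IntOver L₀ s b → a ^ 2 = aeval s g * b →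
    ∃ c : E, IntOver L₀ s c ∧ a = aeval s g * c

include hs hϖ in
theorem chart_idem (f : 𝔬[X]) (hf : f.map (residue 𝔬) ≠ 0)
    (hfrad : (Ideal.span {f.map (residue 𝔬)}).IsRadical)
    (H1 : ∀ y : E, GaussDual 𝔬 s y)
    (H2 : ∀ g : L₀[X], Irreducible g → ¬ g ∣ f.map (algebraMap 𝔬 L₀) →
      RedAt L₀ (algebraMap K₀ E s) g)
    (x : E) (a₀ b₀ : 𝔬[X]) (ha₀ : a₀.map (residue 𝔬) ≠ 0) (hb₀ : b₀.map (residue 𝔬) ≠ 0)
    (r₁ : E)
    (h₀ : IntOver 𝔬 (algebraMap K₀ E s) (aeval (algebraMap K₀ E s) a₀ * x))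
    (h₁ : IntOver 𝔬 (algebraMap K₀ E s) r₁)
    (h₂ : aeval (algebraMap K₀ E s) b₀ * (x ^ 2 - x) = algebraMap 𝔬 E ϖ * r₁) :
    ∃ r r₂ : E, IntOver 𝔬 (algebraMap K₀ E s) r ∧ IntOver 𝔬 (algebraMap K₀ E s) r₂ ∧
      aeval (algebraMap K₀ E s) a₀ * (x - r) = algebraMap 𝔬 E ϖ * r₂ := by
  classical
  set sE : E := algebraMap K₀ E s with hsE
  -- characteristic zero
  have hcharK : CharZero K₀ := charZero_of_injective_algebraMap (algebraMap L₀ K₀).injective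
  have hsep : Algebra.IsSeparable K₀ E := Algebra.IsAlgebraic.isSeparable_of_perfectField
  -- algebra structures
  let a1 : Algebra 𝔬[X] K₀ := ((aeval s : 𝔬[X] →ₐ[𝔬] K₀) : 𝔬[X] →+* K₀).toAlgebra
  let a2 : Algebra 𝔬[X] E := ((aeval sE : 𝔬[X] →ₐ[𝔬] E) : 𝔬[X] →+* E).toAlgebra
  let a3 : Algebra L₀[X] K₀ := ((aeval s : L₀[X] →ₐ[L₀] K₀) : L₀[X] →+* K₀).toAlgebra
  let a4 : Algebra L₀[X] E := ((aeval sE : L₀[X] →ₐ[L₀] E) : L₀[X] →+* E).toAlgebra
  have m1 : ∀ p : 𝔬[X], algebraMap 𝔬[X] K₀ p = aeval s p := fun _ => rfl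
  have m2 : ∀ p : 𝔬[X], algebraMap 𝔬[X] E p = aeval sE p := fun _ => rfl
  have m3 : ∀ p : L₀[X], algebraMap L₀[X] K₀ p = aeval s p := fun _ => rfl
  have m4 : ∀ p : L₀[X], algebraMap L₀[X] E p = aeval sE p := fun _ => rfl
  have t1 : IsScalarTower 𝔬[X] K₀ E := IsScalarTower.of_algebraMap_eq fun p => by
    rw [m1, m2, hsE, aeval_algebraMap_apply]
  have t2 : IsScalarTower L₀[X] K₀ E := IsScalarTower.of_algebraMap_eq fun p => by
    rw [m3, m4, hsE, aeval_algebraMap_apply]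
  have f1 : IsFractionRing 𝔬[X] K₀ := isFractionRing_O hs m1
  have f2 : IsFractionRing L₀[X] K₀ := isFractionRing_L hs m3
  -- reduction
  have hsurjA : Function.Surjective (mapRingHom (residue 𝔬)) :=
    Polynomial.map_surjective _ residue_surjective
  have hkA : ∀ a : 𝔬[X], mapRingHom (residue 𝔬) a = 0 ↔ C ϖ ∣ a := fun a =>
    map_residue_eq_zero_iff hϖ a
  have hπ : Prime (C ϖ : 𝔬[X]) := Polynomial.prime_C_iff.mpr hϖ.prime
  let R := integralClosure 𝔬[X] E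
  have : Module.Finite 𝔬[X] R := IsIntegralClosure.finite 𝔬[X] K₀ E R
  obtain ⟨D, instD, ρ, hρ, hk⟩ : ∃ (D : Type _) (_ : CommRing D) (ρ : R →+* D),
      Function.Surjective ρ ∧ ∀ r, ρ r = 0 ↔ algebraMap 𝔬[X] R (C ϖ) ∣ r :=
    ⟨R ⧸ Ideal.span {algebraMap 𝔬[X] R (C ϖ)}, inferInstance, Ideal.Quotient.mk _,
      Ideal.Quotient.mk_surjective, fun r => by
        rw [Ideal.Quotient.eq_zero_iff_mem, Ideal.mem_span_singleton]⟩
  have hker : RingHom.ker (mapRingHom (residue 𝔬)) ≤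
      RingHom.ker (ρ.comp (algebraMap 𝔬[X] R)) := by
    intro a ha
    rw [RingHom.mem_ker, hkA] at ha
    obtain ⟨b, rfl⟩ := ha
    rw [RingHom.mem_ker, RingHom.comp_apply, hk, map_mul]
    exact dvd_mul_right _ _
  let φD : (ResidueField 𝔬)[X] →+* D :=
    RingHom.liftOfSurjective (mapRingHom (residue 𝔬)) hsurjA ⟨_, hker⟩
  let a5 : Algebra (ResidueField 𝔬)[X] D := φD.toAlgebra
  have hc : ∀ a : 𝔬[X], ρ (algebraMap 𝔬[X] R a) =
      algebraMap (ResidueField 𝔬)[X] D (mapRingHom (residue 𝔬) a) := by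
    intro a
    exact (RingHom.liftOfSurjective_comp_apply (mapRingHom (residue 𝔬)) hsurjA
      ⟨_, hker⟩ a).symm
  let Q := Localization (Algebra.algebraMapSubmonoid D (ResidueField 𝔬)[X]⁰)
  let C' := integralClosure L₀[X] E
  have hdom1 : Function.Injective (algebraMap 𝔬 L₀) := IsFractionRing.injective 𝔬 L₀
  have hϖ0 : algebraMap 𝔬 L₀ ϖ ≠ 0 := by
    have := hdom1.ne hϖ.ne_zero
    rwa [map_zero] at this
  have hR : ∀ z : R, IntOver 𝔬 sE (algebraMap R E z) := fun z => z.2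
  have hR' : ∀ z : E, IntOver 𝔬 sE z → ∃ r : R, algebraMap R E r = z := fun z hz => ⟨⟨z, hz⟩, rfl⟩
  -- clearing denominators
  have hCR0 : ∀ z : E, IntOver L₀ sE z → ∃ n : ℕ, IntOver 𝔬 sE (algebraMap 𝔬 E (ϖ ^ n) * z) := by
    intro z hz
    have ht : IsScalarTower 𝔬 L₀ E := IsScalarTower.of_algebraMap_eq fun a => by
      rw [IsScalarTower.algebraMap_apply 𝔬 K₀ E, IsScalarTower.algebraMap_apply 𝔬 L₀ K₀,
        ← IsScalarTower.algebraMap_apply L₀ K₀ E]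
    obtain ⟨d, hd, hdz⟩ := exists_intOver_mul (𝔬 := 𝔬) sE z hz
    obtain ⟨n, u, hu⟩ := IsDiscreteValuationRing.eq_unit_mul_pow_irreducible hd hϖ
    refine ⟨n, ?_⟩
    have e1 : algebraMap 𝔬 E (ϖ ^ n) * z =
        algebraMap 𝔬 E ↑u⁻¹ * (algebraMap 𝔬 E d * z) := by
      rw [hu, ← mul_assoc, ← map_mul, ← mul_assoc, Units.inv_mul, one_mul]
    rw [e1]
    exact (intOver_algebraMap _).mul hdz
  have key := chart_idem_abs (A := 𝔬[X]) (K₀ := K₀) (E := E) (R := R)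
    (B := (ResidueField 𝔬)[X]) (D := D) (P := L₀[X]) (C := C') (π := C ϖ)
    (FractionRing (ResidueField 𝔬)[X]) Q hπ hsurjA hkA hρ hk
    hc f (f.map (algebraMap 𝔬 L₀)) (by rw [m1, m3, aeval_map_algebraMap])
    (by
      intro z
      obtain ⟨n, hn⟩ := hCR0 _ z.2
      obtain ⟨r, hr⟩ := hR' _ hn
      refine ⟨n, r, ?_⟩
      rw [hr, m2, ← C_pow, aeval_C]
      rfl)
    (by
      intro α n
      refine ⟨C ((algebraMap 𝔬 L₀ (ϖ ^ n))⁻¹) * α.map (algebraMap 𝔬 L₀), ?_⟩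
      rw [m3, m1, m1, ← C_pow, map_mul, aeval_C, aeval_C, aeval_map_algebraMap,
        IsScalarTower.algebraMap_apply 𝔬 L₀ K₀ (ϖ ^ n), map_inv₀]
      have : algebraMap L₀ K₀ (algebraMap 𝔬 L₀ (ϖ ^ n)) ≠ 0 := by
        rw [map_pow, map_pow]
        exact pow_ne_zero _ ((_root_.map_ne_zero _).mpr hϖ0)
      field_simp)
    (Polynomial.not_isField L₀)
    (by
      intro g hg
      have : Nontrivial (L₀[X] ⧸ Ideal.span {g}) := by
        apply Ideal.Quotient.nontrivial_iff.mpr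
        rw [Ne, Ideal.span_singleton_eq_top]
        exact hg.not_isUnit
      exact charZero_of_injective_algebraMap
        (algebraMap L₀ (L₀[X] ⧸ Ideal.span {g})).injective)
    (by
      intro y hy
      obtain ⟨a, ha, hya⟩ := H1 y (by
        intro z hz
        obtain ⟨r, rfl⟩ := hR' z hz
        exact hy r)
      obtain ⟨w, hw⟩ := hR' _ hya
      exact ⟨a, fun h => ha ((hkA a).mpr h), w, hw⟩)
    (by
      intro g hg hgf
      rw [Ideal.isRadical_iff_pow_one_lt 2 one_lt_two]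
      intro a ha
      obtain ⟨b, hb⟩ := Ideal.mem_span_singleton'.mp ha
      obtain ⟨c, hc, hac⟩ := H2 g hg.irreducible hgf (algebraMap C' E a) (algebraMap C' E b)
        a.2 b.2 (by
          have := congrArg (algebraMap C' E) hb
          rw [map_mul, map_pow, ← IsScalarTower.algebraMap_apply, m4] at this
          rw [← this, mul_comm])
      rw [Ideal.mem_span_singleton]
      refine ⟨⟨c, hc⟩, ?_⟩
      apply Subtype.ext
      exact hac)
    hfrad (by rwa [← hkA]) x a₀ b₀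
  obtain ⟨r₀, hr₀⟩ := hR' _ h₀
  obtain ⟨r₁', hr₁'⟩ := hR' _ h₁
  obtain ⟨r, r₂, hfin⟩ := key r₀ r₁' (by rwa [← hkA]) (by rwa [← hkA])
    (by rw [hr₀, m2]) (by rw [m2, m2, hr₁', aeval_C]; exact h₂)
  refine ⟨algebraMap R E r, algebraMap R E r₂, hR r, hR r₂, ?_⟩
  rw [m2, m2, aeval_C] at hfin
  exact hfin

end Main

end Fermat.Agent.H29
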