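import Mathlib
import Fermat.Agent.H29ChartE

/-!
# The two charts `𝔬[s]`, `𝔬[s⁻¹]` and the Gauss valuation ring
-/

set_option autoImplicit false
set_option linter.unusedSectionVars false

namespace Fermat.Agent.H29

open Module nonZeroDivisors Polynomial IsLocalRing

section Reflect

variable {𝔯 F : Type*} [CommRing 𝔯] [Field F] [Algebra 𝔯 F]

theorem aeval_reflect {s : F} (hs : s ≠ 0) (p : 𝔯[X]) {N : ℕ} (hN : p.natDegree ≤ N) :
    aeval s⁻¹ (reflect N p) * s ^ N = aeval s p := by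
  let _ : Invertible s := invertibleOfNonzero hs
  have := eval₂_reflect_mul_pow (algebraMap 𝔯 F) s N p hN
  rw [invOf_eq_inv] at this
  exact this

theorem aeval_reflect' {s : F} (hs : s ≠ 0) (p : 𝔯[X]) {N : ℕ} (hN : p.natDegree ≤ N) :
    aeval s⁻¹ (reflect N p) = aeval s p * s⁻¹ ^ N := by
  rw [← aeval_reflect hs p hN, mul_assoc, ← mul_pow, mul_inv_cancel₀ hs, one_pow, mul_one]

theorem aeval_reflect'' {s : F} (hs : s ≠ 0) (p : 𝔯[X]) {N : ℕ} (hN : p.natDegree ≤ N) :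
    aeval s (reflect N p) = aeval s⁻¹ p * s ^ N := by
  have := aeval_reflect' (inv_ne_zero hs) p hN
  rwa [inv_inv] at this

/-- splitting of Laurent polynomials -/
theorem exists_split {s : F} (hs : s ≠ 0) (n : ℕ) : ∀ a : 𝔯[X],
    ∃ p q : 𝔯[X], aeval s a * s⁻¹ ^ n = aeval s p + aeval s⁻¹ q := by
  induction n with
  | zero => intro a; exact ⟨a, 0, by simp⟩
  | succ n ih =>
    intro a
    obtain ⟨p, q, hpq⟩ := ih (divX a)
    refine ⟨p, q + C (a.coeff 0) * X ^ (n + 1), ?_⟩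
    conv_lhs => rw [← divX_mul_X_add a]
    simp only [map_add, map_mul, aeval_X, aeval_C, map_pow]
    have h1 : (s * s⁻¹) = 1 := mul_inv_cancel₀ hs
    calc (aeval s a.divX * s + algebraMap 𝔯 F (a.coeff 0)) * s⁻¹ ^ (n + 1)
        = aeval s a.divX * s⁻¹ ^ n * (s * s⁻¹) + algebraMap 𝔯 F (a.coeff 0) * s⁻¹ ^ (n + 1) := by
          ring
      _ = _ := by rw [h1, mul_one, hpq]; ring

end Reflect

section Inv

variable {𝔯 E : Type*} [CommRing 𝔯] [Field E] [Algebra 𝔯 E]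

/-- an element integral over `𝔯[s]` becomes integral over `𝔯[s⁻¹]` after multiplication with a
power of `s⁻¹`. -/
theorem IntOver.exists_inv {s x : E} (hs : s ≠ 0) (hx : IntOver 𝔯 s x) :
    ∃ n : ℕ, IntOver 𝔯 s⁻¹ (s⁻¹ ^ n * x) := by
  have hsi : s⁻¹ ≠ 0 := inv_ne_zero hs
  let a1 : Algebra 𝔯[X] E := ((aeval s⁻¹ : 𝔯[X] →ₐ[𝔯] E) : 𝔯[X] →+* E).toAlgebra
  have m1 : ∀ p : 𝔯[X], algebraMap 𝔯[X] E p = aeval s⁻¹ p := fun _ => rfl
  have hu : IsUnit (algebraMap 𝔯[X] E X) := by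
    rw [m1, aeval_X]; exact hsi.isUnit
  let g : Localization.Away (X : 𝔯[X]) →+* E := IsLocalization.Away.lift (X : 𝔯[X]) hu
  have hg : ∀ p, g (algebraMap 𝔯[X] _ p) = aeval s⁻¹ p := fun p =>
    IsLocalization.Away.lift_eq X hu p
  have hginv : g (IsLocalization.Away.invSelf (X : 𝔯[X])) = s := by
    have h1 : g (algebraMap 𝔯[X] _ X * IsLocalization.Away.invSelf (X : 𝔯[X])) = g 1 := by
      rw [IsLocalization.Away.mul_invSelf]
    rw [map_mul, map_one, hg, aeval_X] at h1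
    rw [eq_inv_of_mul_eq_one_right h1, inv_inv]
  let a2 : Algebra (Localization.Away (X : 𝔯[X])) E := g.toAlgebra
  have t1 : IsScalarTower 𝔯[X] (Localization.Away (X : 𝔯[X])) E :=
    IsScalarTower.of_algebraMap_eq fun p => (hg p).symm
  let f : 𝔯[X] →+* Localization.Away (X : 𝔯[X]) :=
    eval₂RingHom ((algebraMap 𝔯[X] _).comp C) (IsLocalization.Away.invSelf (X : 𝔯[X]))
  have hgf : g.comp f = ((aeval s : 𝔯[X] →ₐ[𝔯] E) : 𝔯[X] →+* E) := by
    apply Polynomial.ringHom_ext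
    · intro a
      simp [f, hg]
    · simp [f, hginv]
  have hint : IsIntegral (Localization.Away (X : 𝔯[X])) x := by
    obtain ⟨q, hq, hq0⟩ := hx
    refine ⟨q.map f, hq.map _, ?_⟩
    rw [eval₂_map]
    change eval₂ (g.comp f) x q = 0
    rw [hgf]
    exact hq0
  obtain ⟨⟨_, n, rfl⟩, hm⟩ := IsIntegral.exists_multiple_integral_of_isLocalization
    (Submonoid.powers (X : 𝔯[X])) x hint
  refine ⟨n, ?_⟩
  have h2 : IsIntegral 𝔯[X] ((X : 𝔯[X]) ^ n • x) := hm
  rw [Algebra.smul_def, m1, map_pow, aeval_X] at h2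
  exact h2

end Inv

section Main

variable {𝔬 L₀ K₀ E : Type*} [CommRing 𝔬] [IsDomain 𝔬] [IsDiscreteValuationRing 𝔬]
  [Field L₀] [CharZero L₀] [Algebra 𝔬 L₀] [IsFractionRing 𝔬 L₀]
  [Field K₀] [Algebra L₀ K₀] [Algebra 𝔬 K₀] [IsScalarTower 𝔬 L₀ K₀]
  [Field E] [Algebra K₀ E] [Algebra L₀ E] [Algebra 𝔬 E] [IsScalarTower L₀ K₀ E]
  [IsScalarTower 𝔬 K₀ E] [FiniteDimensional K₀ E]
  {s : K₀} (hs : IsRatGen L₀ s)

include hs in
theorem IsRatGen.ne_zero : s ≠ 0 := by
  rintro rfl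
  have := hs.transc X (by rw [aeval_X])
  exact X_ne_zero this

include hs in
theorem IsRatGen.inv : IsRatGen L₀ s⁻¹ where
  transc := by
    intro p hp
    have h1 := aeval_reflect'' hs.ne_zero p le_rfl
    rw [hp, zero_mul] at h1
    exact reflect_eq_zero_iff.mp (hs.transc _ h1)
  surj := by
    intro x
    obtain ⟨p, q, hq, hx⟩ := hs.surj x
    let N := max p.natDegree q.natDegree
    refine ⟨reflect N p, reflect N q, ?_, ?_⟩
    · exact fun h => hq (reflect_eq_zero_iff.mp h)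
    · rw [aeval_reflect' hs.ne_zero p (le_max_left _ _), aeval_reflect' hs.ne_zero q
        (le_max_right _ _), ← hx, mul_assoc]

include hs in
/-- transcendence over `𝔬` -/
theorem IsRatGen.aeval_eq_zero {p : 𝔬[X]} (h : aeval s p = 0) : p = 0 := by
  have h1 : aeval s (p.map (algebraMap 𝔬 L₀)) = 0 := by rw [aeval_map_algebraMap, h]
  have h2 := hs.transc _ h1
  exact (Polynomial.map_injective _ (IsFractionRing.injective 𝔬 L₀))
    (by rw [h2, Polynomial.map_zero])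

/-- The Gauss valuation ring of `K₀ = L₀(s)`. -/
def gaussRing (𝔬 : Type*) {K₀ : Type*} [CommRing 𝔬] [IsLocalRing 𝔬] [Field K₀]
    [Algebra 𝔬 K₀] (s : K₀) : Subring K₀ where
  carrier := {c | ∃ a b : 𝔬[X], b.map (residue 𝔬) ≠ 0 ∧ c * aeval s b = aeval s a}
  mul_mem' := by
    rintro c c' ⟨a, b, hb, h⟩ ⟨a', b', hb', h'⟩
    refine ⟨a * a', b * b', by rw [Polynomial.map_mul]; exact mul_ne_zero hb hb', ?_⟩
    rw [map_mul, map_mul, ← h, ← h']; ring
  one_mem' := ⟨1, 1, by rw [Polynomial.map_one]; exact one_ne_zero, by simp⟩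
  add_mem' := by
    rintro c c' ⟨a, b, hb, h⟩ ⟨a', b', hb', h'⟩
    refine ⟨a * b' + a' * b, b * b', by rw [Polynomial.map_mul]; exact mul_ne_zero hb hb', ?_⟩
    rw [map_add, map_mul, map_mul, map_mul, ← h, ← h']; ring
  zero_mem' := ⟨0, 1, by rw [Polynomial.map_one]; exact one_ne_zero, by simp⟩
  neg_mem' := by
    rintro c ⟨a, b, hb, h⟩
    exact ⟨-a, b, hb, by rw [map_neg, ← h]; ring⟩

theorem mem_gaussRing {c : K₀} : c ∈ gaussRing 𝔬 s ↔
    ∃ a b : 𝔬[X], b.map (residue 𝔬) ≠ 0 ∧ c * aeval s b = aeval s a := Iff.rfl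

theorem aeval_mem_gaussRing (p : 𝔬[X]) : aeval s p ∈ gaussRing 𝔬 s :=
  ⟨p, 1, by rw [Polynomial.map_one]; exact one_ne_zero, by simp⟩

include hs in
theorem inv_aeval_mem_gaussRing {p : 𝔬[X]} (hp : p.map (residue 𝔬) ≠ 0) :
    (aeval s p)⁻¹ ∈ gaussRing 𝔬 s := by
  refine ⟨1, p, hp, ?_⟩
  rw [inv_mul_cancel₀, map_one]
  intro h
  apply hp
  rw [hs.aeval_eq_zero h, Polynomial.map_zero]

theorem gaussRing_inv_le (hs0 : s ≠ 0) : gaussRing 𝔬 s ≤ gaussRing 𝔬 s⁻¹ := by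
  rintro c ⟨a, b, hb, h⟩
  let N := max a.natDegree b.natDegree
  refine ⟨reflect N a, reflect N b, ?_, ?_⟩
  · rw [← reflect_map]
    exact fun h => hb (reflect_eq_zero_iff.mp h)
  · rw [aeval_reflect' hs0 a (le_max_left _ _), aeval_reflect' hs0 b
        (le_max_right _ _), ← h, mul_assoc]

theorem gaussRing_inv (hs0 : s ≠ 0) : gaussRing 𝔬 s⁻¹ = gaussRing 𝔬 s := by
  apply le_antisymm
  · have := gaussRing_inv_le (𝔬 := 𝔬) (inv_ne_zero hs0)
    rwa [inv_inv] at this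
  · exact gaussRing_inv_le hs0

include hs in
/-- elements integral over the Gauss ring are fractions. -/
theorem isIntegral_gaussRing_iff (x : E) : IsIntegral (gaussRing 𝔬 s) x ↔
    ∃ a : 𝔬[X], a.map (residue 𝔬) ≠ 0 ∧
      IntOver 𝔬 (algebraMap K₀ E s) (aeval (algebraMap K₀ E s) a * x) := by
  let V := gaussRing 𝔬 s
  let a0 : Algebra 𝔬[X] E :=
    ((aeval (algebraMap K₀ E s) : 𝔬[X] →ₐ[𝔬] E) : 𝔬[X] →+* E).toAlgebra
  let φ : 𝔬[X] →+* V := ((aeval s : 𝔬[X] →ₐ[𝔬] K₀) : 𝔬[X] →+* K₀).codRestrict V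
    aeval_mem_gaussRing
  let a1 : Algebra 𝔬[X] V := φ.toAlgebra
  have m1 : ∀ p : 𝔬[X], ((algebraMap 𝔬[X] V p : V) : K₀) = aeval s p := fun _ => rfl
  have m2 : ∀ p : 𝔬[X], algebraMap 𝔬[X] E p = aeval (algebraMap K₀ E s) p := fun _ => rfl
  have m3 : ∀ v : V, algebraMap V E v = algebraMap K₀ E v := fun _ => rfl
  have t1 : IsScalarTower 𝔬[X] V E := IsScalarTower.of_algebraMap_eq fun p => by
    rw [m2, m3, m1, aeval_algebraMap_apply]
  constructor
  · intro hx
    let M : Submonoid 𝔬[X] :=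
      { carrier := {a | a.map (residue 𝔬) ≠ 0}
        one_mem' := by
          change (1 : 𝔬[X]).map (residue 𝔬) ≠ 0
          rw [Polynomial.map_one]; exact one_ne_zero
        mul_mem' := by
          intro a b ha hb
          change (a * b).map (residue 𝔬) ≠ 0
          rw [Polynomial.map_mul]; exact mul_ne_zero ha hb }
    have hloc : IsLocalization M V := by
      rw [isLocalization_iff]
      refine ⟨?_, ?_, ?_⟩
      · rintro ⟨a, ha⟩
        have h1 : aeval s a ≠ 0 := by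
          intro h
          apply ha
          rw [hs.aeval_eq_zero h, Polynomial.map_zero]
        refine IsUnit.of_mul_eq_one (⟨(aeval s a)⁻¹, inv_aeval_mem_gaussRing hs ha⟩ : V) ?_
        apply Subtype.ext
        change aeval s a * (aeval s a)⁻¹ = 1
        exact mul_inv_cancel₀ h1
      · rintro ⟨c, a, b, hb, h⟩
        refine ⟨⟨a, ⟨b, hb⟩⟩, ?_⟩
        apply Subtype.ext
        exact h
      · intro a b hab
        refine ⟨1, ?_⟩
        congr 1
        have h1 := congrArg Subtype.val hab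
        rw [m1, m1, ← sub_eq_zero, ← map_sub] at h1
        exact sub_eq_zero.mp (hs.aeval_eq_zero h1)
    obtain ⟨⟨a, ha⟩, hm⟩ := IsIntegral.exists_multiple_integral_of_isLocalization M x hx
    refine ⟨a, ha, ?_⟩
    have h2 : IsIntegral 𝔬[X] (a • x) := hm
    rw [Algebra.smul_def, m2] at h2
    exact h2
  · rintro ⟨a, ha, hx⟩
    have h1 : IsIntegral V (aeval (algebraMap K₀ E s) a * x) := by
      have h2 : IsIntegral 𝔬[X] (aeval (algebraMap K₀ E s) a * x) := hx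
      exact h2.tower_top
    have h3 : IsIntegral V (algebraMap V E ⟨(aeval s a)⁻¹, inv_aeval_mem_gaussRing hs ha⟩) :=
      isIntegral_algebraMap
    have h4 := h3.mul h1
    have h5 : aeval s a ≠ 0 := by
      intro h
      apply ha
      rw [hs.aeval_eq_zero h, Polynomial.map_zero]
    have h6 : algebraMap V E ⟨(aeval s a)⁻¹, inv_aeval_mem_gaussRing hs ha⟩ *
        (aeval (algebraMap K₀ E s) a * x) = x := by
      rw [m3, aeval_algebraMap_apply, ← mul_assoc, ← map_mul]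
      change algebraMap K₀ E ((aeval s a)⁻¹ * aeval s a) * x = x
      rw [inv_mul_cancel₀ h5, map_one, one_mul]
    rwa [h6] at h4

end Main

end Fermat.Agent.H29
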