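import Mathlib
import Fermat.Agent.H29Charts

/-!
# Global sections with bounded poles form a finitely generated module
-/

set_option autoImplicit false
set_option linter.unusedSectionVars false

namespace Fermat.Agent.H29

open Module nonZeroDivisors Polynomial IsLocalRing

section Main

variable {𝔬 L₀ K₀ E : Type*} [CommRing 𝔬] [IsDomain 𝔬] [IsDiscreteValuationRing 𝔬]
  [Field L₀] [CharZero L₀] [Algebra 𝔬 L₀] [IsFractionRing 𝔬 L₀]
  [Field K₀] [Algebra L₀ K₀] [Algebra 𝔬 K₀] [IsScalarTower 𝔬 L₀ K₀]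
  [Field E] [Algebra K₀ E] [Algebra L₀ E] [Algebra 𝔬 E] [IsScalarTower L₀ K₀ E]
  [IsScalarTower 𝔬 K₀ E] [FiniteDimensional K₀ E]
  {s : K₀} (hs : IsRatGen L₀ s)

include hs in
/-- traces of elements integral over `𝔬[s]` are polynomials in `s`. -/
theorem exists_trace_eq (z : E) (hz : IntOver 𝔬 (algebraMap K₀ E s) z) :
    ∃ α : 𝔬[X], aeval s α = Algebra.trace K₀ E z := by
  let a1 : Algebra 𝔬[X] K₀ := ((aeval s : 𝔬[X] →ₐ[𝔬] K₀) : 𝔬[X] →+* K₀).toAlgebra
  let a2 : Algebra 𝔬[X] E :=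
    ((aeval (algebraMap K₀ E s) : 𝔬[X] →ₐ[𝔬] E) : 𝔬[X] →+* E).toAlgebra
  have m1 : ∀ p : 𝔬[X], algebraMap 𝔬[X] K₀ p = aeval s p := fun _ => rfl
  have m2 : ∀ p : 𝔬[X], algebraMap 𝔬[X] E p = aeval (algebraMap K₀ E s) p := fun _ => rfl
  have t1 : IsScalarTower 𝔬[X] K₀ E := IsScalarTower.of_algebraMap_eq fun p => by
    rw [m1, m2, aeval_algebraMap_apply]
  have f1 : IsFractionRing 𝔬[X] K₀ := isFractionRing_O hs m1
  have h1 : IsIntegral 𝔬[X] z := hz
  have h2 : IsIntegral 𝔬[X] (Algebra.trace K₀ E z) := Algebra.isIntegral_trace h1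
  obtain ⟨α, hα⟩ := IsIntegrallyClosed.isIntegral_iff.mp h2
  exact ⟨α, hα⟩

include hs in
/-- degree bound. -/
theorem natDegree_le_of_aeval {p q : 𝔬[X]} {N : ℕ} (h : aeval s p * s⁻¹ ^ N = aeval s⁻¹ q) :
    p.natDegree ≤ N := by
  have hs0 := hs.ne_zero
  by_cases hp : p = 0
  · rw [hp]; simp
  set D := q.natDegree
  have h1 : aeval s (reflect D q) = aeval s⁻¹ q * s ^ D := aeval_reflect'' hs0 q le_rfl
  have h2 : aeval s (p * X ^ D) = aeval s (reflect D q * X ^ N) := by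
    rw [map_mul, map_mul, map_pow, map_pow, aeval_X, h1, ← h]
    have h3 : s⁻¹ ^ N * s ^ N = 1 := by rw [← mul_pow, inv_mul_cancel₀ hs0, one_pow]
    calc aeval s p * s ^ D = aeval s p * s ^ D * (s⁻¹ ^ N * s ^ N) := by rw [h3, mul_one]
      _ = _ := by ring
  have h4 : p * X ^ D = reflect D q * X ^ N := by
    rw [← sub_eq_zero]
    apply hs.aeval_eq_zero
    rw [map_sub, h2, sub_self]
  have h5 := congrArg natDegree h4
  rw [natDegree_mul_X_pow _ hp] at h5
  have h6 : reflect D q ≠ 0 := by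
    intro h0
    rw [h0, zero_mul] at h4
    exact mul_ne_zero hp (pow_ne_zero _ X_ne_zero) h4
  rw [natDegree_mul_X_pow _ h6] at h5
  have h7 : (reflect D q).natDegree ≤ max D q.natDegree := natDegree_reflect_le
  omega

/-- global sections with poles bounded by `M` at infinity -/
def secs (𝔬 : Type*) {E : Type*} [CommRing 𝔬] [Field E] [Algebra 𝔬 E] (s : E) (M : ℕ) :
    Submodule 𝔬 E where
  carrier := {z | IntOver 𝔬 s z ∧ IntOver 𝔬 s⁻¹ (s⁻¹ ^ M * z)}
  add_mem' := by
    rintro x y ⟨h1, h2⟩ ⟨h3, h4⟩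
    exact ⟨h1.add h3, by rw [mul_add]; exact h2.add h4⟩
  zero_mem' := ⟨intOver_zero, by rw [mul_zero]; exact intOver_zero⟩
  smul_mem' := by
    rintro c x ⟨h1, h2⟩
    refine ⟨?_, ?_⟩
    · rw [Algebra.smul_def]; exact (intOver_algebraMap c).mul h1
    · have : s⁻¹ ^ M * c • x = algebraMap 𝔬 E c * (s⁻¹ ^ M * x) := by
        rw [Algebra.smul_def]; ring
      rw [this]
      exact (intOver_algebraMap c).mul h2

theorem mem_secs {s z : E} {M : ℕ} : z ∈ secs 𝔬 s M ↔
    IntOver 𝔬 s z ∧ IntOver 𝔬 s⁻¹ (s⁻¹ ^ M * z) := Iff.rfl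

include hs in
/-- `R = integral closure` is generated by finitely many elements -/
theorem exists_generators : ∃ S : Finset E, (∀ x ∈ S, IntOver 𝔬 (algebraMap K₀ E s) x) ∧
    (∀ z : E, IntOver 𝔬 (algebraMap K₀ E s) z → ∃ a : E → 𝔬[X],
      z = ∑ x ∈ S, aeval (algebraMap K₀ E s) (a x) * x) := by
  classical
  have hcharK : CharZero K₀ := charZero_of_injective_algebraMap (algebraMap L₀ K₀).injective
  have hsep : Algebra.IsSeparable K₀ E := Algebra.IsAlgebraic.isSeparable_of_perfectField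
  let a1 : Algebra 𝔬[X] K₀ := ((aeval s : 𝔬[X] →ₐ[𝔬] K₀) : 𝔬[X] →+* K₀).toAlgebra
  let a2 : Algebra 𝔬[X] E :=
    ((aeval (algebraMap K₀ E s) : 𝔬[X] →ₐ[𝔬] E) : 𝔬[X] →+* E).toAlgebra
  have m1 : ∀ p : 𝔬[X], algebraMap 𝔬[X] K₀ p = aeval s p := fun _ => rfl
  have m2 : ∀ p : 𝔬[X], algebraMap 𝔬[X] E p = aeval (algebraMap K₀ E s) p := fun _ => rfl
  have t1 : IsScalarTower 𝔬[X] K₀ E := IsScalarTower.of_algebraMap_eq fun p => by
    rw [m1, m2, aeval_algebraMap_apply]
  have f1 : IsFractionRing 𝔬[X] K₀ := isFractionRing_O hs m1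
  let R := integralClosure 𝔬[X] E
  have hfin : Module.Finite 𝔬[X] R := IsIntegralClosure.finite 𝔬[X] K₀ E R
  obtain ⟨T, hT⟩ := hfin.fg_top
  refine ⟨T.image (fun r : R => (r : E)), ?_, ?_⟩
  · intro x hx
    rw [Finset.mem_image] at hx
    obtain ⟨r, -, rfl⟩ := hx
    exact r.2
  · intro z hz
    have h1 : (⟨z, hz⟩ : R) ∈ Submodule.span 𝔬[X] (T : Set R) := by rw [hT]; trivial
    rw [Submodule.mem_span_finset] at h1
    obtain ⟨a, -, ha⟩ := h1
    have h2 := congrArg (fun r : R => (r : E)) ha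
    simp only at h2
    rw [AddSubmonoidClass.coe_finsetSum] at h2
    refine ⟨fun x => if hx : ∃ r : R, (r : E) = x then a hx.choose else 0, ?_⟩
    rw [← h2, Finset.sum_image (fun r _ r' _ h => Subtype.ext h)]
    refine Finset.sum_congr rfl fun r _ => ?_
    have hex : ∃ r' : R, (r' : E) = r := ⟨r, rfl⟩
    beta_reduce
    rw [dif_pos hex]
    have h3 : hex.choose = r := Subtype.ext hex.choose_spec
    rw [h3]
    change (a r • (r : R) : R).1 = _
    rw [← m2, ← Algebra.smul_def]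
    rfl

include hs in
theorem secs_fg (M : ℕ) : (secs 𝔬 (algebraMap K₀ E s) M).FG := by
  classical
  have hs0 := hs.ne_zero
  have hsE : algebraMap K₀ E s ≠ 0 := (_root_.map_ne_zero _).mpr hs0
  have hcharK : CharZero K₀ := charZero_of_injective_algebraMap (algebraMap L₀ K₀).injective
  have hsep : Algebra.IsSeparable K₀ E := Algebra.IsAlgebraic.isSeparable_of_perfectField
  obtain ⟨S, hS, hgen⟩ := exists_generators (𝔬 := 𝔬) (E := E) hs
  -- common pole bound for the generators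
  have h1 : ∀ x ∈ S, ∃ n : ℕ, IntOver 𝔬 (algebraMap K₀ E s)⁻¹ ((algebraMap K₀ E s)⁻¹ ^ n * x) :=
    fun x hx => (hS x hx).exists_inv hsE
  choose! n hn using h1
  let m := S.sup n
  have hm : ∀ x ∈ S, IntOver 𝔬 (algebraMap K₀ E s)⁻¹ ((algebraMap K₀ E s)⁻¹ ^ m * x) := by
    intro x hx
    obtain ⟨l, hl⟩ := Nat.exists_eq_add_of_le (Finset.le_sup hx : n x ≤ S.sup n)
    have : (algebraMap K₀ E s)⁻¹ ^ m * x =
        (algebraMap K₀ E s)⁻¹ ^ l * ((algebraMap K₀ E s)⁻¹ ^ n x * x) := by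
      rw [show m = n x + l from hl, pow_add]; ring
    rw [this]
    exact (intOver_self.pow l).mul (hn x hx)
  -- trace map
  let T : E →ₗ[𝔬] (S → K₀) :=
    { toFun := fun z x => Algebra.trace K₀ E (z * x)
      map_add' := by
        intro z w; funext x
        simp only [Pi.add_apply, add_mul, map_add]
      map_smul' := by
        intro c z; funext x
        simp only [RingHom.id_apply, Pi.smul_apply]
        rw [Algebra.smul_def, Algebra.smul_def, IsScalarTower.algebraMap_apply 𝔬 K₀ E, mul_assoc,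
          ← Algebra.smul_def, map_smul, smul_eq_mul] }
  have hTinj : Function.Injective T := by
    rw [injective_iff_map_eq_zero]
    intro z hz
    have h2 : ∀ x ∈ S, Algebra.trace K₀ E (z * x) = 0 := fun x hx => congrFun hz ⟨x, hx⟩
    have h3 : ∀ w : E, IntOver 𝔬 (algebraMap K₀ E s) w → Algebra.trace K₀ E (z * w) = 0 := by
      intro w hw
      obtain ⟨a, rfl⟩ := hgen w hw
      rw [Finset.mul_sum, map_sum]
      refine Finset.sum_eq_zero fun x hx => ?_
      have : z * (aeval (algebraMap K₀ E s) (a x) * x) = aeval s (a x) • (z * x) := by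
        rw [Algebra.smul_def, aeval_algebraMap_apply]; ring
      rw [this, map_smul, h2 x hx, smul_zero]
    -- every element of `E` is a fraction
    have h4 : ∀ w : E, Algebra.trace K₀ E (z * w) = 0 := by
      intro w
      let a1 : Algebra 𝔬[X] K₀ := ((aeval s : 𝔬[X] →ₐ[𝔬] K₀) : 𝔬[X] →+* K₀).toAlgebra
      let a2 : Algebra 𝔬[X] E :=
        ((aeval (algebraMap K₀ E s) : 𝔬[X] →ₐ[𝔬] E) : 𝔬[X] →+* E).toAlgebra
      have m1 : ∀ p : 𝔬[X], algebraMap 𝔬[X] K₀ p = aeval s p := fun _ => rfl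
      have m2 : ∀ p : 𝔬[X], algebraMap 𝔬[X] E p = aeval (algebraMap K₀ E s) p := fun _ => rfl
      have t1 : IsScalarTower 𝔬[X] K₀ E := IsScalarTower.of_algebraMap_eq fun p => by
        rw [m1, m2, aeval_algebraMap_apply]
      have f1 : IsFractionRing 𝔬[X] K₀ := isFractionRing_O hs m1
      have halg : IsAlgebraic 𝔬[X] w :=
        (IsFractionRing.isAlgebraic_iff 𝔬[X] K₀ E).mpr (Algebra.IsAlgebraic.isAlgebraic w)
      obtain ⟨y, hy0, hy⟩ := halg.exists_integral_multiple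
      have h5 : IntOver 𝔬 (algebraMap K₀ E s) (y • w) := hy
      have h6 := h3 _ h5
      rw [Algebra.smul_def, m2, aeval_algebraMap_apply] at h6
      have h7 : z * (algebraMap K₀ E (aeval s y) * w) = aeval s y • (z * w) := by
        rw [Algebra.smul_def]; ring
      rw [h7, map_smul, smul_eq_mul] at h6
      refine (mul_eq_zero.mp h6).resolve_left ?_
      intro h8
      exact hy0 (hs.aeval_eq_zero h8)
    by_contra hz0
    have h5 := h4 z⁻¹
    have h6 : ∀ w, Algebra.trace K₀ E w = 0 := by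
      intro w
      have := h4 (z⁻¹ * w)
      rwa [← mul_assoc, mul_inv_cancel₀ hz0, one_mul] at this
    exact Algebra.trace_ne_zero K₀ E (LinearMap.ext h6)
  -- the target lattice
  let W₀ : Submodule 𝔬 K₀ := Submodule.span 𝔬 ((Finset.range (M + m + 1)).image fun i => s ^ i)
  let W : Submodule 𝔬 (S → K₀) := Submodule.pi Set.univ fun _ => W₀
  have hWfg : W.FG := Submodule.fg_pi fun _ => ⟨_, rfl⟩
  have hWn : IsNoetherian 𝔬 W := isNoetherian_of_fg_of_noetherian W hWfg
  have hle : (secs 𝔬 (algebraMap K₀ E s) M).map T ≤ W := by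
    rintro _ ⟨z, ⟨hz1, hz2⟩, rfl⟩
    rw [Submodule.mem_pi]
    rintro ⟨x, hx⟩ -
    change Algebra.trace K₀ E (z * x) ∈ W₀
    obtain ⟨α, hα⟩ := exists_trace_eq hs (z * x) (hz1.mul (hS x hx))
    have hinv : (algebraMap K₀ E s)⁻¹ = algebraMap K₀ E s⁻¹ := (map_inv₀ _ _).symm
    have h2 : IntOver 𝔬 (algebraMap K₀ E s⁻¹) (algebraMap K₀ E (s⁻¹ ^ (M + m)) * (z * x)) := by
      have h3 := hz2.mul (hm x hx)
      rw [hinv] at h3
      convert h3 using 1
      rw [pow_add, map_mul, map_pow, map_pow]; ring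
    obtain ⟨β, hβ⟩ := exists_trace_eq hs.inv _ h2
    rw [← Algebra.smul_def, map_smul, smul_eq_mul, ← hα, mul_comm] at hβ
    have h4 := natDegree_le_of_aeval hs hβ.symm
    rw [← hα, aeval_eq_sum_range]
    refine Submodule.sum_mem _ fun i hi => Submodule.smul_mem _ _ (Submodule.subset_span ?_)
    rw [Finset.coe_image]
    refine ⟨i, ?_, rfl⟩
    rw [Finset.mem_range] at hi
    rw [Finset.mem_coe, Finset.mem_range]
    omega
  have hfg : ((secs 𝔬 (algebraMap K₀ E s) M).map T).FG := by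
    have h5 : ((secs 𝔬 (algebraMap K₀ E s) M).map T) =
        (((secs 𝔬 (algebraMap K₀ E s) M).map T).comap W.subtype).map W.subtype := by
      rw [Submodule.map_comap_subtype, inf_eq_right.mpr hle]
    rw [h5]
    exact Submodule.FG.map _ (IsNoetherian.noetherian _)
  exact Submodule.fg_of_fg_map_injective T hTinj hfg

end Main

end Fermat.Agent.H29
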