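import Mathlib

/-!
# Almost idempotents in a lattice of Laurent series
-/

set_option autoImplicit false
set_option linter.unusedSectionVars false

namespace Fermat.Agent.H29

open Filter

section

variable {𝔬 L₀ : Type*} [CommRing 𝔬] [IsDomain 𝔬] [IsDiscreteValuationRing 𝔬]
  [Field L₀] [Algebra 𝔬 L₀] [IsFractionRing 𝔬 L₀] {ϖ : 𝔬} (hϖ : Irreducible ϖ)

/-- `x ∈ ϖ ^ n 𝔬`. -/
def InPow (ϖ : 𝔬) (n : ℕ) (x : L₀) : Prop := ∃ e : 𝔬, x = algebraMap 𝔬 L₀ (ϖ ^ n * e)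

theorem InPow.add {n : ℕ} {x y : L₀} (hx : InPow ϖ n x) (hy : InPow ϖ n y) :
    InPow ϖ n (x + y) := by
  obtain ⟨a, rfl⟩ := hx
  obtain ⟨b, rfl⟩ := hy
  exact ⟨a + b, by rw [mul_add, map_add]⟩

theorem InPow.zero {n : ℕ} : InPow (L₀ := L₀) ϖ n 0 := ⟨0, by rw [mul_zero, map_zero]⟩

include hϖ in
theorem InPow.cancel {n m : ℕ} {x y : L₀} (h : InPow ϖ (n + m) (x * y)) :
    InPow ϖ n x ∨ InPow ϖ m y := by
  have hinj := IsFractionRing.injective 𝔬 L₀
  have hϖn : ∀ n : ℕ, algebraMap 𝔬 L₀ (ϖ ^ n) ≠ 0 := by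
    intro n
    have := hinj.ne (pow_ne_zero n hϖ.ne_zero)
    rwa [map_zero] at this
  have key : ∀ (n : ℕ) (x : L₀), InPow ϖ n x ∨ ∃ a : 𝔬, ¬ IsUnit a ∧ x ≠ 0 ∧
      algebraMap 𝔬 L₀ a * x = algebraMap 𝔬 L₀ (ϖ ^ n) := by
    intro n x
    rcases ValuationRing.isInteger_or_isInteger 𝔬 (x / algebraMap 𝔬 L₀ (ϖ ^ n)) with h | h
    · obtain ⟨e, he⟩ := h
      left
      refine ⟨e, ?_⟩
      rw [map_mul, he, mul_div_cancel₀ _ (hϖn n)]
    · by_cases hx : x = 0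
      · left; rw [hx]; exact InPow.zero
      obtain ⟨a, ha⟩ := h
      rw [inv_div] at ha
      by_cases hau : IsUnit a
      · left
        obtain ⟨u, rfl⟩ := hau
        refine ⟨↑u⁻¹, ?_⟩
        have h1 : algebraMap 𝔬 L₀ (u : 𝔬) * x = algebraMap 𝔬 L₀ (ϖ ^ n) := by
          rw [ha, div_mul_cancel₀ _ hx]
        rw [map_mul, ← h1, mul_comm _ x, mul_assoc, ← map_mul, Units.mul_inv, map_one, mul_one]
      · right
        exact ⟨a, hau, hx, by rw [ha, div_mul_cancel₀ _ hx]⟩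
  rcases key n x with h1 | ⟨a, ha, hx, hax⟩
  · exact Or.inl h1
  rcases key m y with h2 | ⟨b, hb, hy, hby⟩
  · exact Or.inr h2
  exfalso
  obtain ⟨e, he⟩ := h
  have h3 : algebraMap 𝔬 L₀ (a * b * e) = algebraMap 𝔬 L₀ 1 := by
    have h4 : algebraMap 𝔬 L₀ (ϖ ^ (n + m)) ≠ 0 := hϖn _
    apply mul_right_cancel₀ h4
    rw [map_mul, map_mul, map_one, one_mul]
    calc algebraMap 𝔬 L₀ a * algebraMap 𝔬 L₀ b * algebraMap 𝔬 L₀ e * algebraMap 𝔬 L₀ (ϖ ^ (n + m))
        = algebraMap 𝔬 L₀ a * algebraMap 𝔬 L₀ b * algebraMap 𝔬 L₀ (ϖ ^ (n + m) * e) := by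
          rw [map_mul]; ring
      _ = (algebraMap 𝔬 L₀ a * x) * (algebraMap 𝔬 L₀ b * y) := by rw [← he]; ring
      _ = algebraMap 𝔬 L₀ (ϖ ^ (n + m)) := by rw [hax, hby, ← map_mul, pow_add]
  have h5 := hinj h3
  exact ha (IsUnit.of_mul_eq_one (b * e) (by rw [← mul_assoc, h5]))

variable (𝔬 L₀) in
/-- bounded sequences -/
def bdd : Subring (ℕ → L₀) where
  carrier := {f | ∃ d : 𝔬, d ≠ 0 ∧ ∀ j, ∃ e : 𝔬, algebraMap 𝔬 L₀ d * f j = algebraMap 𝔬 L₀ e}
  mul_mem' := by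
    rintro f g ⟨d, hd, hf⟩ ⟨d', hd', hg⟩
    refine ⟨d * d', mul_ne_zero hd hd', fun j => ?_⟩
    obtain ⟨e, he⟩ := hf j
    obtain ⟨e', he'⟩ := hg j
    refine ⟨e * e', ?_⟩
    rw [map_mul, map_mul, ← he, ← he', Pi.mul_apply]; ring
  one_mem' := ⟨1, one_ne_zero, fun j => ⟨1, by simp⟩⟩
  add_mem' := by
    rintro f g ⟨d, hd, hf⟩ ⟨d', hd', hg⟩
    refine ⟨d * d', mul_ne_zero hd hd', fun j => ?_⟩
    obtain ⟨e, he⟩ := hf j
    obtain ⟨e', he'⟩ := hg j
    refine ⟨d' * e + d * e', ?_⟩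
    rw [map_mul, map_add, map_mul, map_mul, ← he, ← he', Pi.add_apply]; ring
  zero_mem' := ⟨1, one_ne_zero, fun j => ⟨0, by simp⟩⟩
  neg_mem' := by
    rintro f ⟨d, hd, hf⟩
    refine ⟨d, hd, fun j => ?_⟩
    obtain ⟨e, he⟩ := hf j
    exact ⟨-e, by rw [map_neg, ← he, Pi.neg_apply]; ring⟩

/-- infinitesimal sequences along an ultrafilter -/
def infi {ϖ : 𝔬} (hϖ : Irreducible ϖ) (𝒰 : Ultrafilter ℕ) : Ideal (bdd 𝔬 L₀) where
  carrier := {f | ∀ n : ℕ, ∀ᶠ j in (𝒰 : Filter ℕ), InPow ϖ n ((f : ℕ → L₀) j)}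
  add_mem' := by
    intro f g hf hg n
    filter_upwards [hf n, hg n] with j h1 h2
    exact h1.add h2
  zero_mem' := by
    intro n
    exact Eventually.of_forall fun j => InPow.zero
  smul_mem' := by
    rintro ⟨c, d, hd, hc⟩ f hf n
    -- `d = unit * ϖ ^ k`
    obtain ⟨k, u, hu⟩ := IsDiscreteValuationRing.eq_unit_mul_pow_irreducible hd hϖ
    filter_upwards [hf (n + k)] with j hj
    obtain ⟨e, he⟩ := hj
    obtain ⟨e', he'⟩ := hc j
    refine ⟨e * e' * ↑u⁻¹, ?_⟩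
    have hd' : algebraMap 𝔬 L₀ d ≠ 0 := by
      have := (IsFractionRing.injective 𝔬 L₀).ne hd
      rwa [map_zero] at this
    apply mul_left_cancel₀ hd'
    change algebraMap 𝔬 L₀ d * (c j * (f : ℕ → L₀) j) = _
    rw [← mul_assoc, he', he, ← map_mul, ← map_mul]
    congr 1
    rw [hu]
    calc e' * (ϖ ^ (n + k) * e) = e' * (ϖ ^ (n + k) * e) * ((u : 𝔬) * ↑u⁻¹) := by
          rw [Units.mul_inv, mul_one]
      _ = _ := by rw [pow_add]; ring

theorem infi_isPrime (𝒰 : Ultrafilter ℕ) : (infi (L₀ := L₀) hϖ 𝒰).IsPrime := by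
  rw [Ideal.isPrime_iff]
  constructor
  · intro h
    rw [Ideal.eq_top_iff_one] at h
    obtain ⟨j, e, he⟩ := (h 1).exists
    have h1 : algebraMap 𝔬 L₀ 1 = algebraMap 𝔬 L₀ (ϖ ^ 1 * e) := by rw [map_one]; exact he
    have := IsFractionRing.injective 𝔬 L₀ h1
    exact hϖ.not_isUnit (IsUnit.of_mul_eq_one e (by rw [this, pow_one]))
  · intro f g hfg
    by_contra hne
    rw [not_or] at hne
    obtain ⟨hf, hg⟩ := hne
    have hf' : ∃ n, ¬ ∀ᶠ j in (𝒰 : Filter ℕ), InPow ϖ n ((f : ℕ → L₀) j) := by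
      by_contra h; push Not at h; exact hf h
    have hg' : ∃ n, ¬ ∀ᶠ j in (𝒰 : Filter ℕ), InPow ϖ n ((g : ℕ → L₀) j) := by
      by_contra h; push Not at h; exact hg h
    obtain ⟨n, hn⟩ := hf'
    obtain ⟨m, hm⟩ := hg'
    have hn' := Ultrafilter.eventually_not.mpr hn
    have hm' := Ultrafilter.eventually_not.mpr hm
    obtain ⟨j, h1, h2, h3⟩ := (hn'.and (hm'.and (hfg (n + m)))).exists
    rcases InPow.cancel hϖ h3 with h | h
    · exact h1 h
    · exact h2 h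

include hϖ in
theorem exists_inPow_mul (g : L₀) : ∃ n : ℕ, ∀ x : L₀, InPow ϖ n x → InPow ϖ 1 (g * x) := by
  obtain ⟨⟨a, b⟩, hab⟩ := IsLocalization.surj (nonZeroDivisors 𝔬) g
  simp only at hab
  obtain ⟨k, u, hu⟩ := IsDiscreteValuationRing.eq_unit_mul_pow_irreducible
    (nonZeroDivisors.ne_zero b.2) hϖ
  refine ⟨k + 1, ?_⟩
  rintro x ⟨e, rfl⟩
  refine ⟨a * e * ↑u⁻¹, ?_⟩
  have hb : algebraMap 𝔬 L₀ b ≠ 0 := by
    have := (IsFractionRing.injective 𝔬 L₀).ne (nonZeroDivisors.ne_zero b.2)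
    rwa [map_zero] at this
  apply mul_right_cancel₀ hb
  calc g * algebraMap 𝔬 L₀ (ϖ ^ (k + 1) * e) * algebraMap 𝔬 L₀ b
      = g * algebraMap 𝔬 L₀ b * algebraMap 𝔬 L₀ (ϖ ^ (k + 1) * e) := by ring
    _ = algebraMap 𝔬 L₀ (a * (ϖ ^ (k + 1) * e)) := by rw [hab, ← map_mul]
    _ = algebraMap 𝔬 L₀ (ϖ ^ 1 * (a * e * ↑u⁻¹) * b) := by
        congr 1
        rw [hu]
        calc a * (ϖ ^ (k + 1) * e) = a * (ϖ ^ (k + 1) * e) * ((u : 𝔬) * ↑u⁻¹) := by
              rw [Units.mul_inv, mul_one]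
          _ = _ := by ring
    _ = _ := by rw [map_mul]

include hϖ in
/-- elements of a lattice of Laurent series all of whose coefficients are infinitesimal. -/
theorem window_aux {E : Type*} [Field E] [Algebra L₀ E] [Algebra 𝔬 E] [IsScalarTower 𝔬 L₀ E]
    (ψ : E →+* LaurentSeries L₀) (hψ : ∀ c : L₀, ψ (algebraMap L₀ E c) = HahnSeries.C c)
    (N : Submodule 𝔬 E) (hN : N.FG) (𝒰 : Ultrafilter ℕ)
    (z : ℕ → E) (hz : ∀ j, z j ∈ N)
    (hzz : ∀ (i : ℤ) (n : ℕ), ∀ᶠ j in (𝒰 : Filter ℕ), InPow ϖ n ((ψ (z j)).coeff i)) :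
    ∃ j, ∃ ρ ∈ N, z j = algebraMap 𝔬 E ϖ * ρ := by
  classical
  have hinj := IsFractionRing.injective 𝔬 L₀
  have hfin : Module.Finite 𝔬 N := Module.Finite.iff_fg.mpr hN
  have htfE : Module.IsTorsionFree 𝔬 E := by
    rw [Module.isTorsionFree_iff_algebraMap_injective, IsScalarTower.algebraMap_eq 𝔬 L₀ E]
    exact (algebraMap L₀ E).injective.comp hinj
  have hfree : Module.Free 𝔬 N := Module.free_of_finite_type_torsion_free'
  let κ := Module.Free.ChooseBasisIndex 𝔬 N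
  let ν : Module.Basis κ 𝔬 N := Module.Free.chooseBasis 𝔬 N
  have hli : LinearIndependent L₀ (fun k => (ν k : E)) := by
    rw [← LinearIndependent.iff_fractionRing 𝔬 L₀]
    exact ν.linearIndependent.map' N.subtype (Submodule.ker_subtype N)
  -- coefficient functionals
  let c : ℤ → Module.Dual L₀ (κ → L₀) := fun i =>
    { toFun := fun x => (ψ (∑ k, algebraMap L₀ E (x k) * (ν k : E))).coeff i
      map_add' := by
        intro x y
        rw [← HahnSeries.coeff_add, ← map_add, ← Finset.sum_add_distrib]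
        congr 2
        refine Finset.sum_congr rfl fun k _ => ?_
        rw [Pi.add_apply, map_add, add_mul]
      map_smul' := by
        intro a x
        rw [RingHom.id_apply, ← HahnSeries.coeff_smul, ← HahnSeries.C_mul_eq_smul, ← hψ, ← map_mul,
          Finset.mul_sum]
        congr 2
        refine Finset.sum_congr rfl fun k _ => ?_
        rw [Pi.smul_apply, smul_eq_mul, map_mul, mul_assoc] }
  have hspan : Submodule.span L₀ (Set.range c) = ⊤ := by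
    rw [← Subspace.dualCoannihilator_dualAnnihilator_eq (W := Submodule.span L₀ (Set.range c)),
      eq_top_iff]
    have h0 : (Submodule.span L₀ (Set.range c)).dualCoannihilator = ⊥ := by
      rw [eq_bot_iff]
      intro x hx
      rw [Submodule.mem_dualCoannihilator] at hx
      have h2 : ψ (∑ k, algebraMap L₀ E (x k) * (ν k : E)) = 0 := by
        ext i
        exact hx (c i) (Submodule.subset_span ⟨i, rfl⟩)
      have h3 : ∑ k, x k • (ν k : E) = 0 := by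
        have := (map_eq_zero ψ).mp h2
        rw [← this]
        refine Finset.sum_congr rfl fun k _ => ?_
        rw [Algebra.smul_def]
      have h4 := Fintype.linearIndependent_iff.mp hli x h3
      rw [Submodule.mem_bot]
      funext k
      exact h4 k
    rw [h0, Submodule.dualAnnihilator_bot]
  have hg : ∀ k : κ, ∃ g : ℤ →₀ L₀, (g.sum fun i a => a • c i) = LinearMap.proj k := by
    intro k
    have : (LinearMap.proj k : Module.Dual L₀ (κ → L₀)) ∈ Submodule.span L₀ (Set.range c) := by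
      rw [hspan]; trivial
    exact Finsupp.mem_span_range_iff_exists_finsupp.mp this
  choose g hg using hg
  have hn : ∀ a : L₀, ∃ n : ℕ, ∀ x : L₀, InPow ϖ n x → InPow ϖ 1 (a * x) :=
    exists_inPow_mul hϖ
  choose n hn using hn
  have hev : ∀ᶠ j in (𝒰 : Filter ℕ), ∀ k : κ, ∀ i ∈ (g k).support,
      InPow ϖ (n (g k i)) ((ψ (z j)).coeff i) := by
    rw [Filter.eventually_all]
    intro k
    rw [Filter.eventually_all_finset]
    intro i _
    exact hzz i _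
  obtain ⟨j, hj⟩ := hev.exists
  refine ⟨j, ?_⟩
  let a := ν.repr ⟨z j, hz j⟩
  have hza : z j = ∑ k, algebraMap L₀ E (algebraMap 𝔬 L₀ (a k)) * (ν k : E) := by
    have := congrArg Subtype.val (ν.sum_repr ⟨z j, hz j⟩)
    simp only [AddSubmonoidClass.coe_finsetSum, Submodule.coe_smul] at this
    rw [← this]
    refine Finset.sum_congr rfl fun k _ => ?_
    rw [Algebra.smul_def, IsScalarTower.algebraMap_apply 𝔬 L₀ E]
  have hak : ∀ k, ∃ b : 𝔬, a k = ϖ * b := by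
    intro k
    have h5 := congrArg (fun φ : Module.Dual L₀ (κ → L₀) => φ (fun k => algebraMap 𝔬 L₀ (a k)))
      (hg k)
    simp only [LinearMap.proj_apply] at h5
    have h6 : InPow ϖ 1 (algebraMap 𝔬 L₀ (a k)) := by
      rw [← h5, Finsupp.sum, LinearMap.sum_apply]
      have h7 : ∀ i ∈ (g k).support, InPow ϖ 1
          ((g k i • c i) (fun k => algebraMap 𝔬 L₀ (a k))) := by
        intro i hi
        have h8 : (g k i • c i) (fun k => algebraMap 𝔬 L₀ (a k)) =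
            g k i * (ψ (z j)).coeff i := by
          rw [LinearMap.smul_apply, smul_eq_mul, hza]
          rfl
        rw [h8]
        exact hn _ _ (hj k i hi)
      exact Finset.sum_induction _ (InPow ϖ 1) (fun _ _ => InPow.add) InPow.zero h7
    obtain ⟨b, hb⟩ := h6
    exact ⟨b, by rw [pow_one] at hb; exact hinj hb⟩
  choose b hb using hak
  refine ⟨∑ k, b k • (ν k : E), Submodule.sum_mem _ fun k _ =>
    Submodule.smul_mem _ _ (ν k).2, ?_⟩
  rw [hza, Finset.mul_sum]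
  refine Finset.sum_congr rfl fun k _ => ?_
  rw [hb k, Algebra.smul_def, ← IsScalarTower.algebraMap_apply, map_mul, mul_assoc]

include hϖ in
/-- Almost idempotents in a lattice of Laurent series are close to `0` or `1`. -/
theorem window {E : Type*} [Field E] [Algebra L₀ E] [Algebra 𝔬 E] [IsScalarTower 𝔬 L₀ E]
    (ψ : E →+* LaurentSeries L₀) (hψ : ∀ c : L₀, ψ (algebraMap L₀ E c) = HahnSeries.C c)
    (N : Submodule 𝔬 E) (hN : N.FG) (h1 : (1 : E) ∈ N)
    (z : ℕ → E) (hz : ∀ j, z j ∈ N)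
    (hzz : ∀ j, ∃ ρ ∈ N, z j ^ 2 - z j = algebraMap 𝔬 E (ϖ ^ (j + 1)) * ρ) :
    ∃ j, (∃ ρ ∈ N, z j = algebraMap 𝔬 E ϖ * ρ) ∨ (∃ ρ ∈ N, z j - 1 = algebraMap 𝔬 E ϖ * ρ) := by
  classical
  have hinj := IsFractionRing.injective 𝔬 L₀
  have hψinj : Function.Injective ψ := ψ.injective
  have hψs : ∀ (c : 𝔬) (x : E) (i : ℤ), (ψ (algebraMap 𝔬 E c * x)).coeff i =
      algebraMap 𝔬 L₀ c * (ψ x).coeff i := by
    intro c x i
    rw [map_mul, IsScalarTower.algebraMap_apply 𝔬 L₀ E, hψ, HahnSeries.C_mul_eq_smul,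
      HahnSeries.coeff_smul, smul_eq_mul]
  let 𝒰 : Ultrafilter ℕ := Filter.hyperfilter ℕ
  -- uniform bounds
  obtain ⟨S, hS⟩ := hN
  have hbound : ∀ i : ℤ, ∃ d : 𝔬, d ≠ 0 ∧ ∀ n ∈ N, ∃ e : 𝔬,
      algebraMap 𝔬 L₀ d * (ψ n).coeff i = algebraMap 𝔬 L₀ e := by
    intro i
    obtain ⟨⟨d, hd⟩, hdS⟩ := IsLocalization.exist_integer_multiples_of_finset
      (nonZeroDivisors 𝔬) (S.image fun n => (ψ n).coeff i)
    refine ⟨d, nonZeroDivisors.ne_zero hd, fun n hn => ?_⟩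
    rw [← hS] at hn
    induction hn using Submodule.span_induction with
    | mem n hn =>
      obtain ⟨e, he⟩ := hdS _ (Finset.mem_image_of_mem _ hn)
      exact ⟨e, by rw [he]; exact (Algebra.smul_def _ _).symm⟩
    | zero => exact ⟨0, by simp⟩
    | add x y _ _ hx hy =>
      obtain ⟨e, he⟩ := hx
      obtain ⟨e', he'⟩ := hy
      exact ⟨e + e', by rw [map_add, HahnSeries.coeff_add, mul_add, he, he', map_add]⟩
    | smul a x _ hx =>
      obtain ⟨e, he⟩ := hx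
      refine ⟨a * e, ?_⟩
      rw [Algebra.smul_def, hψs, map_mul, ← he]; ring
  have horder : ∃ a : ℤ, ∀ n ∈ N, ∀ i < a, (ψ n).coeff i = 0 := by
    have h0 : ∀ n ∈ S, ∃ a : ℤ, ∀ i < a, (ψ n).coeff i = 0 := fun n _ =>
      ⟨(ψ n).order, fun i hi => HahnSeries.coeff_eq_zero_of_lt_order hi⟩
    choose! a ha using h0
    obtain ⟨b, hb⟩ : ∃ b : ℤ, ∀ n ∈ S, b ≤ a n := by
      rcases S.eq_empty_or_nonempty with rfl | hne
      · exact ⟨0, by simp⟩
      · exact ⟨S.inf' hne a, fun n hn => Finset.inf'_le _ hn⟩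
    refine ⟨b, fun n hn => ?_⟩
    rw [← hS] at hn
    induction hn using Submodule.span_induction with
    | mem n hn => exact fun i hi => ha n hn i (hi.trans_le (hb n hn))
    | zero => intro i _; simp
    | add x y _ _ hx hy =>
      intro i hi
      rw [map_add, HahnSeries.coeff_add, hx i hi, hy i hi, add_zero]
    | smul c x _ hx =>
      intro i hi
      rw [Algebra.smul_def, hψs, hx i hi, mul_zero]
  obtain ⟨a, ha⟩ := horder
  -- the Laurent series over bounded sequences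
  let Zc : ℤ → bdd 𝔬 L₀ := fun i => ⟨fun j => (ψ (z j)).coeff i, by
    obtain ⟨d, hd, h⟩ := hbound i
    exact ⟨d, hd, fun j => h _ (hz j)⟩⟩
  let Z : LaurentSeries (bdd 𝔬 L₀) := HahnSeries.ofSuppBddBelow Zc ⟨a, fun i hi => by
    by_contra hlt
    rw [not_le] at hlt
    apply hi
    apply Subtype.ext
    funext j
    exact ha _ (hz j) i hlt⟩
  let ev : ℕ → (bdd 𝔬 L₀ →+* L₀) := fun j => (Pi.evalRingHom (fun _ => L₀) j).comp (bdd 𝔬 L₀).subtype
  have hZev : ∀ j, Z.map (ev j) = ψ (z j) := by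
    intro j
    ext i
    rfl
  let I := infi (L₀ := L₀) hϖ 𝒰
  have hI : I.IsPrime := infi_isPrime hϖ 𝒰
  have hZZ : ∀ i, (Z * Z - Z).coeff i ∈ I := by
    intro i n
    obtain ⟨d, hd, hb⟩ := hbound i
    obtain ⟨k, u, hu⟩ := IsDiscreteValuationRing.eq_unit_mul_pow_irreducible hd hϖ
    have hev : ∀ᶠ j in (𝒰 : Filter ℕ), n + k ≤ j := by
      have : (𝒰 : Filter ℕ) ≤ Filter.cofinite := Filter.hyperfilter_le_cofinite
      rw [Nat.cofinite_eq_atTop] at this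
      exact this (Filter.eventually_ge_atTop (n + k))
    filter_upwards [hev] with j hj
    obtain ⟨ρ, hρ, hρz⟩ := hzz j
    obtain ⟨e, he⟩ := hb ρ hρ
    have h2 : (((Z * Z - Z).coeff i : bdd 𝔬 L₀) : ℕ → L₀) j =
        ((Z * Z - Z).map (ev j)).coeff i := rfl
    have h3 : (Z * Z - Z).map (ev j) = ψ (z j ^ 2 - z j) := by
      have h4 : (Z * Z - Z).map (ev j) = (Z * Z).map (ev j) - Z.map (ev j) := by
        ext i
        simp [HahnSeries.map_coeff]
      have h5 : (Z * Z).map (ev j) = Z.map (ev j) * Z.map (ev j) :=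
        HahnSeries.map_mul (ev j : bdd 𝔬 L₀ →ₙ+* L₀)
      rw [h4, h5, hZev, map_sub, map_pow, sq]
    rw [h2, h3, hρz]
    rw [hψs]
    have hd' : algebraMap 𝔬 L₀ d ≠ 0 := by
      have := hinj.ne hd
      rwa [map_zero] at this
    obtain ⟨l, hl⟩ := Nat.exists_eq_add_of_le hj
    refine ⟨ϖ ^ (l + 1) * e * ↑u⁻¹, ?_⟩
    apply mul_left_cancel₀ hd'
    calc algebraMap 𝔬 L₀ d * (algebraMap 𝔬 L₀ (ϖ ^ (j + 1)) * (ψ ρ).coeff i)
        = algebraMap 𝔬 L₀ (ϖ ^ (j + 1)) * (algebraMap 𝔬 L₀ d * (ψ ρ).coeff i) := by ring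
      _ = algebraMap 𝔬 L₀ (ϖ ^ (j + 1) * e) := by rw [he, map_mul]
      _ = algebraMap 𝔬 L₀ (d * (ϖ ^ n * (ϖ ^ (l + 1) * e * ↑u⁻¹))) := by
          congr 1
          calc ϖ ^ (j + 1) * e = ϖ ^ (j + 1) * e * ((u : 𝔬) * ↑u⁻¹) := by
                rw [Units.mul_inv, mul_one]
            _ = _ := by rw [hu, hl]; ring
      _ = _ := by rw [map_mul]
  let q := Ideal.Quotient.mk I
  have hqZ : Z.map q * Z.map q = Z.map q := by
    have h5 : (Z * Z).map q = Z.map q * Z.map q :=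
      HahnSeries.map_mul (q : bdd 𝔬 L₀ →ₙ+* (bdd 𝔬 L₀ ⧸ I))
    rw [← h5]
    ext i
    rw [HahnSeries.map_coeff, HahnSeries.map_coeff, ← sub_eq_zero, ← map_sub,
      ← HahnSeries.coeff_sub]
    exact Ideal.Quotient.eq_zero_iff_mem.mpr (hZZ i)
  have hqZ' : Z.map q = 0 ∨ Z.map q = 1 := by
    have : Z.map q * (Z.map q - 1) = 0 := by rw [mul_sub, mul_one, hqZ, sub_self]
    rcases mul_eq_zero.mp this with h | h
    · exact Or.inl h
    · exact Or.inr (sub_eq_zero.mp h)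
  rcases hqZ' with h | h
  · obtain ⟨j, ρ, hρ, hj⟩ := window_aux hϖ ψ hψ N ⟨S, hS⟩ 𝒰 z hz (by
      intro i n
      have h7 : Zc i ∈ I := by
        rw [← Ideal.Quotient.eq_zero_iff_mem]
        have := congrArg (fun f : LaurentSeries (bdd 𝔬 L₀ ⧸ I) => f.coeff i) h
        exact this
      exact h7 n)
    exact ⟨j, Or.inl ⟨ρ, hρ, hj⟩⟩
  · obtain ⟨j, ρ, hρ, hj⟩ := window_aux hϖ ψ hψ N ⟨S, hS⟩ 𝒰 (fun j => z j - 1)
      (fun j => N.sub_mem (hz j) h1) (by
      intro i n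
      have h7 : Zc i - (1 : LaurentSeries (bdd 𝔬 L₀)).coeff i ∈ I := by
        rw [← Ideal.Quotient.eq_zero_iff_mem, map_sub, sub_eq_zero]
        have := congrArg (fun f : LaurentSeries (bdd 𝔬 L₀ ⧸ I) => f.coeff i) h
        have h8 : ((1 : LaurentSeries (bdd 𝔬 L₀)).map q) = 1 := by
          ext i
          rw [HahnSeries.map_coeff, HahnSeries.coeff_one, HahnSeries.coeff_one]
          split_ifs <;> simp
        rw [← h8] at this
        exact this
      filter_upwards [h7 n] with j hj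
      have h9 : ((Zc i - (1 : LaurentSeries (bdd 𝔬 L₀)).coeff i : bdd 𝔬 L₀) : ℕ → L₀) j =
          (ψ (z j - 1)).coeff i := by
        rw [map_sub, map_one, HahnSeries.coeff_sub]
        change (ψ (z j)).coeff i - _ = _
        congr 1
        rw [HahnSeries.coeff_one, HahnSeries.coeff_one]
        split_ifs <;> rfl
      rw [← h9]
      exact hj)
    exact ⟨j, Or.inr ⟨ρ, hρ, hj⟩⟩

end

end Fermat.Agent.H29
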