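import Mathlib
import Fermat.Agent.H29Lattice
import Fermat.Agent.H29Window

/-!
# Connectedness of the special fibre
-/

set_option autoImplicit false
set_option linter.unusedSectionVars false

namespace Fermat.Agent.H29

open Module nonZeroDivisors Polynomial IsLocalRing

theorem dvd_pow_sub_pow_of_dvd {R : Type*} [CommRing R] {π : R} {p : ℕ} (hp : π ∣ (p : R))
    {a b : R} (h : π ∣ a - b) (j : ℕ) : π ^ (j + 1) ∣ a ^ (p ^ j) - b ^ (p ^ j) := by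
  induction j with
  | zero => simpa using h
  | succ j ih =>
    have h1 : a ^ p ^ (j + 1) - b ^ p ^ (j + 1) = (a ^ p ^ j) ^ p - (b ^ p ^ j) ^ p := by
      rw [← pow_mul, ← pow_mul, ← pow_succ]
    rw [h1, ← geom_sum₂_mul, pow_succ' π (j + 1)]
    refine mul_dvd_mul ?_ ih
    rw [← Ideal.mem_span_singleton, ← Ideal.Quotient.eq_zero_iff_mem, map_sum]
    have h2 : Ideal.Quotient.mk (Ideal.span {π}) (a ^ p ^ j) =
        Ideal.Quotient.mk (Ideal.span {π}) (b ^ p ^ j) := by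
      rw [Ideal.Quotient.eq, Ideal.mem_span_singleton]
      exact (Dvd.intro_left (π ^ j) (by ring)).trans ih
    have h3 : ∀ i ∈ Finset.range p, Ideal.Quotient.mk (Ideal.span {π})
        ((a ^ p ^ j) ^ i * (b ^ p ^ j) ^ (p - 1 - i)) =
        Ideal.Quotient.mk (Ideal.span {π}) ((b ^ p ^ j) ^ (p - 1)) := by
      intro i hi
      rw [Finset.mem_range] at hi
      rw [map_mul, map_pow, h2, ← map_pow, ← map_mul, ← pow_add]
      congr 2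
      omega
    rw [Finset.sum_congr rfl h3, Finset.sum_const, Finset.card_range, ← map_nsmul,
      Ideal.Quotient.eq_zero_iff_mem, Ideal.mem_span_singleton, nsmul_eq_mul]
    exact Dvd.dvd.mul_right hp _

section Sub

variable {E : Type*} [Field E]

theorem subring_pow_congr (T : Subring E) {π : E} (hπ : π ∈ T) {p : ℕ}
    (hp : ∃ t ∈ T, (p : E) = π * t) {a b : E} (ha : a ∈ T) (hb : b ∈ T)
    (h : ∃ t ∈ T, a - b = π * t) (j : ℕ) :
    ∃ t ∈ T, a ^ (p ^ j) - b ^ (p ^ j) = π ^ (j + 1) * t := by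
  obtain ⟨t, ht, h⟩ := h
  obtain ⟨t', ht', h'⟩ := hp
  have h1 : (⟨π, hπ⟩ : T) ∣ (⟨a, ha⟩ : T) - ⟨b, hb⟩ := ⟨⟨t, ht⟩, Subtype.ext h⟩
  have h2 : (⟨π, hπ⟩ : T) ∣ ((p : ℕ) : T) := ⟨⟨t', ht'⟩, Subtype.ext (by
    simpa using h')⟩
  obtain ⟨⟨w, hw⟩, hww⟩ := dvd_pow_sub_pow_of_dvd h2 h1 j
  exact ⟨w, hw, by simpa using congrArg Subtype.val hww⟩

theorem subring_pow_congr' (T : Subring E) {π : E} {a b : E} (ha : a ∈ T) (hb : b ∈ T)
    (h : ∃ t ∈ T, a - b = π * t) (n : ℕ) :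
    ∃ t ∈ T, a ^ n - b ^ n = π * t := by
  obtain ⟨t, ht, h⟩ := h
  refine ⟨t * ∑ i ∈ Finset.range n, a ^ i * b ^ (n - 1 - i), ?_, ?_⟩
  · exact T.mul_mem ht (T.sum_mem fun i _ => T.mul_mem (T.pow_mem ha _) (T.pow_mem hb _))
  · rw [← geom_sum₂_mul, h]; ring

theorem subring_idem_pow (T : Subring E) {π : E} {a : E} (ha : a ∈ T)
    (h : ∃ t ∈ T, a ^ 2 - a = π * t) (n : ℕ) (hn : 1 ≤ n) :
    ∃ t ∈ T, a ^ n - a = π * t := by
  obtain ⟨t, ht, h⟩ := h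
  obtain ⟨m, rfl⟩ : ∃ m, n = m + 1 := ⟨n - 1, by omega⟩
  refine ⟨t * ∑ i ∈ Finset.range m, a ^ i * 1 ^ (m - 1 - i), ?_, ?_⟩
  · exact T.mul_mem ht (T.sum_mem fun i _ => T.mul_mem (T.pow_mem ha _) (T.pow_mem T.one_mem _))
  · have h1 := geom_sum₂_mul a 1 m
    rw [one_pow] at h1
    calc a ^ (m + 1) - a = a * (a ^ m - 1) := by ring
      _ = (a ^ 2 - a) * ∑ i ∈ Finset.range m, a ^ i * 1 ^ (m - 1 - i) := by rw [← h1]; ring
      _ = _ := by rw [h]; ring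

end Sub

/-- the subring of elements integral over `𝔯[s]` -/
def intSub (𝔯 : Type*) {E : Type*} [CommRing 𝔯] [Field E] [Algebra 𝔯 E] (s : E) : Subring E where
  carrier := {x | IntOver 𝔯 s x}
  mul_mem' := IntOver.mul
  one_mem' := intOver_one
  add_mem' := IntOver.add
  zero_mem' := intOver_zero
  neg_mem' := IntOver.neg

/-- the subring of elements integral over `𝔯[s, s⁻¹]` -/
def intSub₂ (𝔯 : Type*) {E : Type*} [CommRing 𝔯] [Field E] [Algebra 𝔯 E] (s : E) : Subring E where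
  carrier := {x | ∃ n : ℕ, IntOver 𝔯 s (s ^ n * x)}
  mul_mem' := by
    rintro x y ⟨n, hn⟩ ⟨m, hm⟩
    refine ⟨n + m, ?_⟩
    have : s ^ (n + m) * (x * y) = (s ^ n * x) * (s ^ m * y) := by rw [pow_add]; ring
    rw [this]; exact hn.mul hm
  one_mem' := ⟨0, by simpa using intOver_one⟩
  add_mem' := by
    rintro x y ⟨n, hn⟩ ⟨m, hm⟩
    refine ⟨n + m, ?_⟩
    have : s ^ (n + m) * (x + y) = s ^ m * (s ^ n * x) + s ^ n * (s ^ m * y) := by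
      rw [pow_add]; ring
    rw [this]; exact ((intOver_self.pow m).mul hn).add ((intOver_self.pow n).mul hm)
  zero_mem' := ⟨0, by simpa using intOver_zero⟩
  neg_mem' := by
    rintro x ⟨n, hn⟩
    exact ⟨n, by rw [mul_neg]; exact hn.neg⟩

section Main

variable {𝔬 L₀ K₀ E : Type*} [CommRing 𝔬] [IsDomain 𝔬] [IsDiscreteValuationRing 𝔬]
  [Field L₀] [CharZero L₀] [Algebra 𝔬 L₀] [IsFractionRing 𝔬 L₀]
  [Field K₀] [Algebra L₀ K₀] [Algebra 𝔬 K₀] [IsScalarTower 𝔬 L₀ K₀]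
  [Field E] [Algebra K₀ E] [Algebra L₀ E] [Algebra 𝔬 E] [IsScalarTower L₀ K₀ E]
  [IsScalarTower 𝔬 K₀ E] [FiniteDimensional K₀ E]
  {s : K₀} (hs : IsRatGen L₀ s) {ϖ : 𝔬} (hϖ : Irreducible ϖ)

include hs in
theorem exists_decomp : ∃ m₀ : ℕ, ∀ z ∈ intSub₂ 𝔬 (algebraMap K₀ E s),
    ∃ u v : E, IntOver 𝔬 (algebraMap K₀ E s) u ∧ IntOver 𝔬 (algebraMap K₀ E s)⁻¹ v ∧
      z = u + algebraMap K₀ E s ^ m₀ * v := by
  classical
  set t : E := algebraMap K₀ E s with ht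
  have hsE : t ≠ 0 := (_root_.map_ne_zero _).mpr hs.ne_zero
  obtain ⟨S, hS, hgen⟩ := exists_generators (𝔬 := 𝔬) (E := E) hs
  rw [← ht] at hS hgen
  have h1 : ∀ x ∈ S, ∃ n : ℕ, IntOver 𝔬 t⁻¹ (t⁻¹ ^ n * x) :=
    fun x hx => (hS x hx).exists_inv hsE
  choose! n hn using h1
  refine ⟨S.sup n, ?_⟩
  have hm : ∀ x ∈ S, IntOver 𝔬 t⁻¹ (t⁻¹ ^ (S.sup n) * x) := by
    intro x hx
    obtain ⟨l, hl⟩ := Nat.exists_eq_add_of_le (Finset.le_sup hx : n x ≤ S.sup n)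
    have : t⁻¹ ^ (S.sup n) * x = t⁻¹ ^ l * (t⁻¹ ^ n x * x) := by
      rw [hl, pow_add]; ring
    rw [this]
    exact (intOver_self.pow l).mul (hn x hx)
  rintro z ⟨k, hk⟩
  obtain ⟨a, ha⟩ := hgen _ hk
  have h2 : ∀ x, ∃ p q : 𝔬[X], aeval t (a x) * t⁻¹ ^ k = aeval t p + aeval t⁻¹ q :=
    fun x => exists_split hsE k (a x)
  choose p q hpq using h2
  refine ⟨∑ x ∈ S, aeval t (p x) * x, ∑ x ∈ S, aeval t⁻¹ (q x) * (t⁻¹ ^ (S.sup n) * x), ?_, ?_, ?_⟩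
  · exact (intSub 𝔬 t).sum_mem fun x hx => IntOver.mul (intOver_aeval _) (hS x hx)
  · exact (intSub 𝔬 t⁻¹).sum_mem fun x hx => IntOver.mul (intOver_aeval _) (hm x hx)
  · have h3 : z = t⁻¹ ^ k * (t ^ k * z) := by
      rw [← mul_assoc, ← mul_pow, inv_mul_cancel₀ hsE, one_pow, one_mul]
    rw [h3, ha, Finset.mul_sum, Finset.mul_sum, ← Finset.sum_add_distrib]
    refine Finset.sum_congr rfl fun x _ => ?_
    have h4 : t ^ (S.sup n) * (aeval t⁻¹ (q x) * (t⁻¹ ^ (S.sup n) * x)) = aeval t⁻¹ (q x) * x := by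
      have : t ^ (S.sup n) * t⁻¹ ^ (S.sup n) = 1 := by
        rw [← mul_pow, mul_inv_cancel₀ hsE, one_pow]
      calc _ = (t ^ (S.sup n) * t⁻¹ ^ (S.sup n)) * (aeval t⁻¹ (q x) * x) := by ring
        _ = _ := by rw [this, one_mul]
    rw [h4, ← add_mul, ← hpq]; ring

include hs hϖ in
/-- `ϖ ^ n z` integral over `𝔬[s]`, `z` integral over the Gauss ring imply `z` integral over
`𝔬[s]`. -/
theorem intOver_of_gauss {z : E} (n : ℕ)
    (h1 : IntOver 𝔬 (algebraMap K₀ E s) (algebraMap 𝔬 E (ϖ ^ n) * z))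
    (h2 : IsIntegral (gaussRing 𝔬 s) z) : IntOver 𝔬 (algebraMap K₀ E s) z := by
  let a1 : Algebra 𝔬[X] K₀ := ((aeval s : 𝔬[X] →ₐ[𝔬] K₀) : 𝔬[X] →+* K₀).toAlgebra
  let a2 : Algebra 𝔬[X] E :=
    ((aeval (algebraMap K₀ E s) : 𝔬[X] →ₐ[𝔬] E) : 𝔬[X] →+* E).toAlgebra
  have m1 : ∀ p : 𝔬[X], algebraMap 𝔬[X] K₀ p = aeval s p := fun _ => rfl
  have m2 : ∀ p : 𝔬[X], algebraMap 𝔬[X] E p = aeval (algebraMap K₀ E s) p := fun _ => rfl
  have t1 : IsScalarTower 𝔬[X] K₀ E := IsScalarTower.of_algebraMap_eq fun p => by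
    rw [m1, m2, aeval_algebraMap_apply]
  have f1 : IsFractionRing 𝔬[X] K₀ := isFractionRing_O hs m1
  obtain ⟨a, ha, haz⟩ := (isIntegral_gaussRing_iff hs z).mp h2
  have hπ : Prime (C ϖ : 𝔬[X]) := Polynomial.prime_C_iff.mpr hϖ.prime
  have h3 : IsIntegral 𝔬[X] z := by
    refine isIntegral_of_prime (K₀ := K₀) (Algebra.IsIntegral.isIntegral z) hπ (a := a) ?_ n ?_ ?_
    · rw [← map_residue_eq_zero_iff hϖ]; exact ha
    · rw [Algebra.smul_def, m2, ← C_pow, aeval_C]; exact h1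
    · rw [Algebra.smul_def, m2]; exact haz
  exact h3

include hs in
/-- from self-duality at the Gauss valuation -/
theorem gaussDual_of (H1S : ∀ y : E, (∀ z : E, IsIntegral (gaussRing 𝔬 s) z →
      Algebra.trace K₀ E (y * z) ∈ gaussRing 𝔬 s) → IsIntegral (gaussRing 𝔬 s) y) (y : E) :
    GaussDual 𝔬 s y := by
  intro hy
  rw [← isIntegral_gaussRing_iff hs]
  apply H1S
  intro z hz
  obtain ⟨a, ha, haz⟩ := (isIntegral_gaussRing_iff hs z).mp hz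
  obtain ⟨α, hα⟩ := hy _ haz
  refine ⟨α, a, ha, ?_⟩
  have : y * (aeval (algebraMap K₀ E s) a * z) = aeval s a • (y * z) := by
    rw [Algebra.smul_def, aeval_algebraMap_apply]; ring
  rw [hα, this, map_smul, smul_eq_mul, mul_comm]

include hs hϖ in
theorem lift_chart (f : 𝔬[X]) (hf : f.map (residue 𝔬) ≠ 0)
    (hfrad : (Ideal.span {f.map (residue 𝔬)}).IsRadical)
    (H1S : ∀ y : E, (∀ z : E, IsIntegral (gaussRing 𝔬 s) z →
      Algebra.trace K₀ E (y * z) ∈ gaussRing 𝔬 s) → IsIntegral (gaussRing 𝔬 s) y)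
    (H2 : ∀ g : L₀[X], Irreducible g → ¬ g ∣ f.map (algebraMap 𝔬 L₀) →
      RedAt L₀ (algebraMap K₀ E s) g)
    (ε σ : E) (hε : IsIntegral (gaussRing 𝔬 s) ε) (hσ : IsIntegral (gaussRing 𝔬 s) σ)
    (h : ε ^ 2 - ε = algebraMap 𝔬 E ϖ * σ) :
    ∃ x σ₁ : E, IntOver 𝔬 (algebraMap K₀ E s) x ∧ IsIntegral (gaussRing 𝔬 s) σ₁ ∧
      x - ε = algebraMap 𝔬 E ϖ * σ₁ := by
  obtain ⟨a₀, ha₀, h₀⟩ := (isIntegral_gaussRing_iff hs ε).mp hε
  obtain ⟨b₀, hb₀, h₁⟩ := (isIntegral_gaussRing_iff hs σ).mp hσ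
  obtain ⟨r, r₂, hr, hr₂, hrr⟩ := chart_idem hs hϖ f hf hfrad (gaussDual_of hs H1S) H2 ε a₀ b₀
    ha₀ hb₀ _ h₀ h₁ (by rw [h]; ring)
  have hinj : Function.Injective (algebraMap 𝔬 E) := by
    rw [IsScalarTower.algebraMap_eq 𝔬 K₀ E, IsScalarTower.algebraMap_eq 𝔬 L₀ K₀]
    exact (algebraMap K₀ E).injective.comp
      ((algebraMap L₀ K₀).injective.comp (IsFractionRing.injective 𝔬 L₀))
  have hϖ0 : algebraMap 𝔬 E ϖ ≠ 0 := by
    have := hinj.ne hϖ.ne_zero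
    rwa [map_zero] at this
  refine ⟨r, (r - ε) / algebraMap 𝔬 E ϖ, hr, ?_, by rw [mul_div_cancel₀ _ hϖ0]⟩
  rw [isIntegral_gaussRing_iff hs]
  refine ⟨a₀, ha₀, ?_⟩
  have : aeval (algebraMap K₀ E s) a₀ * ((r - ε) / algebraMap 𝔬 E ϖ) = - r₂ := by
    rw [← mul_div_assoc, div_eq_iff hϖ0]
    linear_combination -hrr
  rw [this]
  exact hr₂.neg

end Main

end Fermat.Agent.H29
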