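import Mathlib
import Fermat.Agent.H29Connected

/-!
# Connectedness of the special fibre: the theorem
-/

set_option autoImplicit false
set_option linter.unusedSectionVars false

namespace Fermat.Agent.H29

open Module nonZeroDivisors Polynomial IsLocalRing

section Defs

variable (𝔬 L₀ : Type*) {K₀ : Type*} (E : Type*) [CommRing 𝔬] [IsDomain 𝔬]
  [IsDiscreteValuationRing 𝔬]
  [Field L₀] [Algebra 𝔬 L₀]
  [Field K₀] [Algebra L₀ K₀] [Algebra 𝔬 K₀]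
  [Field E] [Algebra K₀ E] [Algebra L₀ E] [Algebra 𝔬 E]

/-- The integral closure of the Gauss valuation ring in `E`. -/
def intGauss (s : K₀) : Subring E := (integralClosure (gaussRing 𝔬 s) E).toSubring

variable {E} in
theorem mem_intGauss {s : K₀} {x : E} : x ∈ intGauss 𝔬 E s ↔ IsIntegral (gaussRing 𝔬 s) x :=
  Iff.rfl

/-- Self-duality at the Gauss valuation: the extension is unramified there. -/
def SelfDual (s : K₀) : Prop :=
  ∀ y : E, (∀ z : E, IsIntegral (gaussRing 𝔬 s) z →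
      Algebra.trace K₀ E (y * z) ∈ gaussRing 𝔬 s) → IsIntegral (gaussRing 𝔬 s) y

/-- In the chart `𝔬[s]`: unramified in characteristic zero outside the zeros of a polynomial `f`
with squarefree nonzero reduction. -/
def ChartUnram (s : K₀) : Prop :=
  ∃ f : 𝔬[X], f.map (residue 𝔬) ≠ 0 ∧ (Ideal.span {f.map (residue 𝔬)}).IsRadical ∧
    ∀ g : L₀[X], Irreducible g → ¬ g ∣ f.map (algebraMap 𝔬 L₀) →
      RedAt L₀ (algebraMap K₀ E s) g

end Defs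

section Main

variable {𝔬 L₀ K₀ E : Type*} [CommRing 𝔬] [IsDomain 𝔬] [IsDiscreteValuationRing 𝔬]
  [Field L₀] [CharZero L₀] [Algebra 𝔬 L₀] [IsFractionRing 𝔬 L₀]
  [Field K₀] [Algebra L₀ K₀] [Algebra 𝔬 K₀] [IsScalarTower 𝔬 L₀ K₀]
  [Field E] [Algebra K₀ E] [Algebra L₀ E] [Algebra 𝔬 E] [IsScalarTower L₀ K₀ E]
  [IsScalarTower 𝔬 K₀ E] [FiniteDimensional K₀ E]
  {s : K₀} (hs : IsRatGen L₀ s) {ϖ : 𝔬} (hϖ : Irreducible ϖ)

include hs in
theorem IntOver.mem_intGauss {z : E} (hz : IntOver 𝔬 (algebraMap K₀ E s) z) :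
    z ∈ intGauss 𝔬 E s := by
  rw [Fermat.Agent.H29.mem_intGauss, isIntegral_gaussRing_iff hs]
  refine ⟨1, ?_, ?_⟩
  · rw [Polynomial.map_one]; exact one_ne_zero
  · rw [map_one, one_mul]; exact hz

include hs in
theorem IntOver.mem_intGauss_inv {z : E} (hz : IntOver 𝔬 (algebraMap K₀ E s)⁻¹ z) :
    z ∈ intGauss 𝔬 E s := by
  have h1 : IntOver 𝔬 (algebraMap K₀ E s⁻¹) z := by rw [map_inv₀]; exact hz
  have h2 := h1.mem_intGauss hs.inv
  rw [Fermat.Agent.H29.mem_intGauss, gaussRing_inv hs.ne_zero] at h2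
  exact h2

theorem algebraMap_mem_intGauss (c : 𝔬) : algebraMap 𝔬 E c ∈ intGauss 𝔬 E s := by
  have h1 : algebraMap 𝔬 K₀ c ∈ gaussRing 𝔬 s := by
    have := aeval_mem_gaussRing (s := s) (C c)
    rwa [aeval_C] at this
  have h2 : IsIntegral (gaussRing 𝔬 s) (algebraMap (gaussRing 𝔬 s) E ⟨_, h1⟩) :=
    isIntegral_algebraMap
  have h3 : algebraMap (gaussRing 𝔬 s) E ⟨_, h1⟩ = algebraMap 𝔬 E c := by
    change algebraMap K₀ E (algebraMap 𝔬 K₀ c) = _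
    rw [← IsScalarTower.algebraMap_apply]
  rw [h3] at h2
  exact h2

include hs hϖ in
/-- **Connectedness**: almost idempotents of the ring of Gauss integers are `0` or `1`. -/
theorem connected (p : ℕ) (hp : ϖ ∣ (p : 𝔬)) (hp1 : 1 ≤ p)
    (H1S : SelfDual 𝔬 E s)
    (H2 : ChartUnram 𝔬 L₀ E s) (H2' : ChartUnram 𝔬 L₀ E s⁻¹)
    (ψ : E →+* LaurentSeries L₀) (hψ : ∀ c : L₀, ψ (algebraMap L₀ E c) = HahnSeries.C c)
    (ε σ : E) (hε : ε ∈ intGauss 𝔬 E s) (hσ : σ ∈ intGauss 𝔬 E s)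
    (h : ε ^ 2 - ε = algebraMap 𝔬 E ϖ * σ) :
    (∃ ρ ∈ intGauss 𝔬 E s, ε = algebraMap 𝔬 E ϖ * ρ) ∨
      (∃ ρ ∈ intGauss 𝔬 E s, ε - 1 = algebraMap 𝔬 E ϖ * ρ) := by
  classical
  obtain ⟨f, hf, hfrad, H2⟩ := H2
  obtain ⟨f', hf', hfrad', H2'⟩ := H2'
  have hs0 := hs.ne_zero
  set t : E := algebraMap K₀ E s with ht
  have ht0 : t ≠ 0 := (_root_.map_ne_zero _).mpr hs0
  have htinv : algebraMap K₀ E s⁻¹ = t⁻¹ := map_inv₀ _ _
  set S := intGauss 𝔬 E s with hS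
  set π : E := algebraMap 𝔬 E ϖ with hπ
  have htow : IsScalarTower 𝔬 L₀ E := IsScalarTower.of_algebraMap_eq fun a => by
    rw [IsScalarTower.algebraMap_apply 𝔬 K₀ E, IsScalarTower.algebraMap_apply 𝔬 L₀ K₀,
      ← IsScalarTower.algebraMap_apply L₀ K₀ E]
  have hinj : Function.Injective (algebraMap 𝔬 E) := by
    rw [IsScalarTower.algebraMap_eq 𝔬 L₀ E]
    exact (algebraMap L₀ E).injective.comp (IsFractionRing.injective 𝔬 L₀)
  have hπ0 : π ≠ 0 := by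
    have := hinj.ne hϖ.ne_zero
    rwa [map_zero] at this
  have hπS : π ∈ S := algebraMap_mem_intGauss ϖ
  have hpi : ∀ T : Subring E, (∀ c : 𝔬, algebraMap 𝔬 E c ∈ T) → ∃ u ∈ T, (p : E) = π * u := by
    intro T hT
    obtain ⟨c, hc⟩ := hp
    exact ⟨algebraMap 𝔬 E c, hT c, by rw [hπ, ← map_mul, ← hc, map_natCast]⟩
  -- integrality over both charts from the Gauss ring
  have hdesc : ∀ (n : ℕ) (z : E), z ∈ S → IntOver 𝔬 t (algebraMap 𝔬 E (ϖ ^ n) * z) →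
      IntOver 𝔬 t z := fun n z hz h => intOver_of_gauss hs hϖ n h hz
  have hdesc' : ∀ (n : ℕ) (z : E), z ∈ S → IntOver 𝔬 t⁻¹ (algebraMap 𝔬 E (ϖ ^ n) * z) →
      IntOver 𝔬 t⁻¹ z := by
    intro n z hz h
    rw [← htinv] at h ⊢
    refine intOver_of_gauss hs.inv hϖ n h ?_
    rw [gaussRing_inv hs0]
    exact hz
  -- the two lifts
  obtain ⟨x, σ₁, hx, hσ₁, hx1⟩ := lift_chart hs hϖ f hf hfrad H1S H2 ε σ hε hσ h
  obtain ⟨x', σ₂, hx', hσ₂, hx2⟩ := lift_chart (E := E) hs.inv hϖ f' hf' hfrad' (by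
    rw [gaussRing_inv hs0]; exact H1S) H2' ε σ (by rw [gaussRing_inv hs0]; exact hε)
    (by rw [gaussRing_inv hs0]; exact hσ) h
  rw [gaussRing_inv hs0] at hσ₂
  rw [htinv] at hx'
  rw [← ht] at hx
  have hxS : x ∈ S := hx.mem_intGauss hs
  have hx'S : x' ∈ S := hx'.mem_intGauss_inv hs
  -- the overlap
  have hsub1 : ∀ z, IntOver 𝔬 t z → z ∈ intSub₂ 𝔬 t := fun z hz => ⟨0, by simpa using hz⟩
  have hsub2 : ∀ z, IntOver 𝔬 t⁻¹ z → z ∈ intSub₂ 𝔬 t := by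
    intro z hz
    obtain ⟨n, hn⟩ := hz.exists_inv (inv_ne_zero ht0)
    rw [inv_inv] at hn
    exact ⟨n, hn⟩
  have htpow : ∀ n : ℕ, t ^ n ∈ S := fun n => (intOver_self.pow n).mem_intGauss hs
  have htipow : ∀ n : ℕ, t⁻¹ ^ n ∈ S := fun n => (intOver_self.pow n).mem_intGauss_inv hs
  set z : E := σ₁ - σ₂ with hz
  have hzx : x - x' = π * z := by
    rw [hz, mul_sub, ← hx1, ← hx2]; ring
  have hzS : z ∈ S := S.sub_mem hσ₁ hσ₂
  have hz2 : z ∈ intSub₂ 𝔬 t := by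
    have h1 : π * z ∈ intSub₂ 𝔬 t := by
      rw [← hzx]
      exact (intSub₂ 𝔬 t).sub_mem (hsub1 _ hx) (hsub2 _ hx')
    obtain ⟨n, hn⟩ := h1
    refine ⟨n, hdesc 1 _ (S.mul_mem (htpow n) hzS) ?_⟩
    rw [pow_one]
    convert hn using 1
    rw [hπ]; ring
  obtain ⟨m₀, hm₀⟩ := exists_decomp (𝔬 := 𝔬) (E := E) hs
  rw [← ht] at hm₀
  have hpow : ∀ j : ℕ, ∃ w ∈ intSub₂ 𝔬 t, x ^ (p ^ j) - x' ^ (p ^ j) = π ^ (j + 1) * w :=
    fun j => subring_pow_congr (intSub₂ 𝔬 t) (hsub1 _ (intOver_algebraMap ϖ))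
      (hpi _ fun c => hsub1 _ (intOver_algebraMap c)) (hsub1 _ hx) (hsub2 _ hx') ⟨z, hz2, hzx⟩ j
  choose w hw hwx using hpow
  choose u v hu hv huv using fun j => hm₀ (w j) (hw j)
  -- the approximations
  let y : ℕ → E := fun j => x ^ (p ^ j) - π ^ (j + 1) * u j
  have hy' : ∀ j, y j = x' ^ (p ^ j) + π ^ (j + 1) * (t ^ m₀ * v j) := by
    intro j
    have := hwx j
    rw [huv j] at this
    change x ^ (p ^ j) - π ^ (j + 1) * u j = _
    linear_combination this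
  have hπi : ∀ n, IntOver 𝔬 t (π ^ n) := fun n => (intOver_algebraMap ϖ).pow n
  have hπi' : ∀ n, IntOver 𝔬 t⁻¹ (π ^ n) := fun n => (intOver_algebraMap ϖ).pow n
  have hy1 : ∀ j, IntOver 𝔬 t (y j) := fun j => (hx.pow _).sub ((hπi _).mul (hu j))
  have hy2 : ∀ j, IntOver 𝔬 t⁻¹ (t⁻¹ ^ m₀ * y j) := by
    intro j
    have h1 : t⁻¹ ^ m₀ * t ^ m₀ = 1 := by rw [← mul_pow, inv_mul_cancel₀ ht0, one_pow]
    have h2 : t⁻¹ ^ m₀ * y j = t⁻¹ ^ m₀ * x' ^ (p ^ j) + π ^ (j + 1) * v j := by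
      rw [hy']
      linear_combination (π ^ (j + 1) * v j) * h1
    rw [h2]
    exact ((intOver_self.pow _).mul (hx'.pow _)).add ((hπi' _).mul (hv j))
  have hyS : ∀ j, y j ∈ S := fun j => (hy1 j).mem_intGauss hs
  -- squares
  have hxx : ∃ r ∈ S, x ^ 2 - x = π * r := by
    refine ⟨σ + σ₁ * (2 * ε + π * σ₁ - 1), ?_, ?_⟩
    · refine S.add_mem hσ (S.mul_mem hσ₁ (S.sub_mem (S.add_mem (S.mul_mem ?_ hε)
        (S.mul_mem hπS hσ₁)) S.one_mem))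
      have : (2 : E) = 1 + 1 := by norm_num
      rw [this]; exact S.add_mem S.one_mem S.one_mem
    · have h3 : x = ε + π * σ₁ := by rw [← hx1]; ring
      rw [h3]
      linear_combination h
  have hyy : ∀ j, ∃ r ∈ S, y j ^ 2 - y j = π ^ (j + 1) * r := by
    intro j
    obtain ⟨r, hr, hrx⟩ := hxx
    obtain ⟨r', hr', hrx'⟩ := subring_pow_congr S hπS (hpi _ fun c => algebraMap_mem_intGauss c)
      (S.pow_mem hxS 2) hxS ⟨r, hr, hrx⟩ j
    have huS : u j ∈ S := (hu j).mem_intGauss hs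
    refine ⟨r' + u j * (1 - 2 * x ^ (p ^ j) + π ^ (j + 1) * u j), ?_, ?_⟩
    · have : (2 : E) = 1 + 1 := by norm_num
      refine S.add_mem hr' (S.mul_mem huS (S.add_mem (S.sub_mem S.one_mem (S.mul_mem ?_
        (S.pow_mem hxS _))) (S.mul_mem (S.pow_mem hπS _) huS)))
      rw [this]; exact S.add_mem S.one_mem S.one_mem
    · change (x ^ (p ^ j) - π ^ (j + 1) * u j) ^ 2 - (x ^ (p ^ j) - π ^ (j + 1) * u j) = _
      have h4 : (x ^ 2) ^ (p ^ j) = (x ^ (p ^ j)) ^ 2 := by rw [← pow_mul, ← pow_mul, mul_comm]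
      rw [h4] at hrx'
      linear_combination hrx'
  have hN := secs_fg (𝔬 := 𝔬) (E := E) hs (2 * m₀)
  rw [← ht] at hN
  have h2m : ∀ j, IntOver 𝔬 t⁻¹ (t⁻¹ ^ (2 * m₀) * y j) := by
    intro j
    have : t⁻¹ ^ (2 * m₀) * y j = t⁻¹ ^ m₀ * (t⁻¹ ^ m₀ * y j) := by
      rw [two_mul, pow_add]; ring
    rw [this]; exact (intOver_self.pow _).mul (hy2 j)
  obtain ⟨j, hj⟩ := window hϖ ψ hψ (secs 𝔬 t (2 * m₀)) hN
    ⟨intOver_one, by rw [mul_one]; exact intOver_self.pow _⟩ y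
    (fun j => ⟨hy1 j, h2m j⟩)
    (by
      intro j
      obtain ⟨r, hr, hry⟩ := hyy j
      refine ⟨r, ⟨?_, ?_⟩, by rw [map_pow]; exact hry⟩
      · refine hdesc (j + 1) r hr ?_
        rw [map_pow, ← hπ, ← hry]
        exact ((hy1 j).pow 2).sub (hy1 j)
      · refine hdesc' (j + 1) _ (S.mul_mem (htipow _) hr) ?_
        have h5 : algebraMap 𝔬 E (ϖ ^ (j + 1)) * (t⁻¹ ^ (2 * m₀) * r) =
            (t⁻¹ ^ m₀ * y j) ^ 2 - t⁻¹ ^ (2 * m₀) * y j := by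
          rw [map_pow, ← hπ, two_mul, pow_add]
          linear_combination -(t⁻¹ ^ m₀ * t⁻¹ ^ m₀) * hry
        rw [h5]
        exact ((hy2 j).pow 2).sub (h2m j))
  -- conclusion
  have hyε : ∃ r ∈ S, y j - ε = π * r := by
    obtain ⟨r, hr, hrx⟩ := subring_idem_pow S hxS hxx (p ^ j) (Nat.one_le_pow _ _ hp1)
    have huS : u j ∈ S := (hu j).mem_intGauss hs
    refine ⟨r - π ^ j * u j + σ₁, S.add_mem (S.sub_mem hr (S.mul_mem (S.pow_mem hπS _) huS)) hσ₁,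
      ?_⟩
    change x ^ (p ^ j) - π ^ (j + 1) * u j - ε = _
    rw [pow_succ π j]
    linear_combination hrx + hx1
  obtain ⟨r, hr, hry⟩ := hyε
  rcases hj with ⟨ρ, hρ, hρ'⟩ | ⟨ρ, hρ, hρ'⟩
  · left
    refine ⟨ρ - r, S.sub_mem (hρ.1.mem_intGauss hs) hr, ?_⟩
    rw [← hπ] at hρ'
    linear_combination hρ' - hry
  · right
    refine ⟨ρ - r, S.sub_mem (hρ.1.mem_intGauss hs) hr, ?_⟩
    rw [← hπ] at hρ'
    linear_combination hρ' - hry

end Main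

end Fermat.Agent.H29
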