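import Mathlib
import Fermat.Agent.H29ConnThm

/-!
# Unramifiedness from embeddings into Laurent series
-/

set_option autoImplicit false
set_option linter.unusedSectionVars false

namespace Fermat.Agent.H29

open Module nonZeroDivisors Polynomial IsLocalRing

section PS

variable {Υ : Type*} [Field Υ]

/-- power series inside Laurent series -/
noncomputable abbrev psl (f : PowerSeries Υ) : LaurentSeries Υ := algebraMap (PowerSeries Υ) (LaurentSeries Υ) f

theorem psl_injective : Function.Injective (psl : PowerSeries Υ → LaurentSeries Υ) :=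
  IsFractionRing.injective _ _

theorem psl_of_isIntegral {z : LaurentSeries Υ} (hz : IsIntegral (PowerSeries Υ) z) :
    ∃ f, z = psl f := by
  obtain ⟨f, hf⟩ := IsIntegrallyClosed.isIntegral_iff.mp hz
  exact ⟨f, hf.symm⟩

theorem psl_of_sq {z : LaurentSeries Υ} {g b : PowerSeries Υ}
    (h0 : PowerSeries.constantCoeff g = 0) (h1 : PowerSeries.coeff 1 g ≠ 0)
    (h : z ^ 2 * psl g = psl b) : ∃ f, z = psl f := by
  obtain ⟨u, rfl⟩ := PowerSeries.X_dvd_iff.mpr h0
  have hu : PowerSeries.constantCoeff u ≠ 0 := by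
    have := PowerSeries.coeff_succ_X_mul 0 u
    rw [zero_add] at this
    rw [this] at h1
    simpa using h1
  have huu : u * u⁻¹ = 1 := PowerSeries.mul_inv_cancel u hu
  have h2 : (z * psl PowerSeries.X) ^ 2 = psl (b * PowerSeries.X * u⁻¹) := by
    have h3 : psl u * psl u⁻¹ = 1 := by
      rw [← map_mul, huu, map_one]
    have h4 : z ^ 2 * (psl PowerSeries.X * psl u) = psl b := by
      rw [← map_mul]; exact h
    calc (z * psl PowerSeries.X) ^ 2
        = z ^ 2 * (psl PowerSeries.X * psl u) * psl PowerSeries.X * psl u⁻¹ := by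
          linear_combination (-z ^ 2 * psl PowerSeries.X ^ 2) * h3
      _ = psl b * psl PowerSeries.X * psl u⁻¹ := by rw [h4]
      _ = _ := by rw [psl, psl, psl, ← map_mul, ← map_mul]
  have h3 : IsIntegral (PowerSeries Υ) (z * psl PowerSeries.X) := by
    apply IsIntegral.of_pow (n := 2) two_pos
    rw [h2]
    exact isIntegral_algebraMap
  obtain ⟨c, hc⟩ := psl_of_isIntegral h3
  rw [hc, psl, psl, ← map_pow] at h2
  have h4 := psl_injective h2
  have h5 : (PowerSeries.X : PowerSeries Υ) ∣ c ^ 2 := by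
    rw [h4]
    exact ⟨b * u⁻¹, by ring⟩
  obtain ⟨c', rfl⟩ := PowerSeries.X_prime.dvd_of_dvd_pow h5
  refine ⟨c', ?_⟩
  have hX : psl (PowerSeries.X : PowerSeries Υ) ≠ 0 := by
    intro h0
    have : (PowerSeries.X : PowerSeries Υ) = 0 := psl_injective (by rw [h0, psl, map_zero])
    exact PowerSeries.X_ne_zero this
  apply mul_right_cancel₀ hX
  rw [hc, psl, psl, ← map_mul, mul_comm]

/-- `m`-th roots of power series -/
theorem exists_root_ps [IsAlgClosed Υ] {m : ℕ} (hm : (m : Υ) ≠ 0) (f : PowerSeries Υ)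
    (hf : PowerSeries.constantCoeff f ≠ 0) : ∃ g : PowerSeries Υ, g ^ m = f := by
  have hm0 : m ≠ 0 := by rintro rfl; exact hm (by simp)
  obtain ⟨a, ha⟩ := IsAlgClosed.exists_pow_nat_eq (PowerSeries.constantCoeff f)
    (Nat.pos_of_ne_zero hm0)
  have ha0 : a ≠ 0 := by
    rintro rfl
    rw [zero_pow hm0] at ha
    exact hf ha.symm
  have hH : HenselianRing (PowerSeries Υ) (Ideal.span {PowerSeries.X}) := inferInstance
  have hX : ∀ g : PowerSeries Υ, g ∈ Ideal.span {(PowerSeries.X : PowerSeries Υ)} ↔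
      PowerSeries.constantCoeff g = 0 := by
    intro g
    rw [Ideal.mem_span_singleton, PowerSeries.X_dvd_iff]
  obtain ⟨g, hg, -⟩ := hH.is_henselian (X ^ m - C f) (monic_X_pow_sub_C f hm0) (PowerSeries.C a)
    (by
      rw [hX]
      simp [ha])
    (by
      have h1 : (derivative (X ^ m - C f : (PowerSeries Υ)[X])).eval (PowerSeries.C a) =
          PowerSeries.C ((m : Υ) * a ^ (m - 1)) := by
        simp [derivative_X_pow]
      rw [h1]
      apply IsUnit.map
      exact (PowerSeries.isUnit_iff_constantCoeff.mpr (by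
        simpa using (mul_ne_zero hm (pow_ne_zero _ ha0)).isUnit)))
  refine ⟨g, ?_⟩
  have : g ^ m - f = 0 := by simpa [IsRoot] using hg
  exact sub_eq_zero.mp this

theorem exists_root_ls [IsAlgClosed Υ] {m : ℕ} (hm : (m : Υ) ≠ 0) (f : LaurentSeries Υ)
    (hf : f ≠ 0) (hd : (m : ℤ) ∣ f.order) : ∃ g : LaurentSeries Υ, g ^ m = f := by
  obtain ⟨k, hk⟩ := hd
  have h0 : PowerSeries.constantCoeff f.powerSeriesPart ≠ 0 := by
    have : PowerSeries.coeff 0 f.powerSeriesPart = f.coeff (f.order + (0 : ℕ)) :=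
      f.powerSeriesPart_coeff 0
    rw [← PowerSeries.coeff_zero_eq_constantCoeff_apply, this]
    simpa using HahnSeries.coeff_order_eq_zero.not.mpr hf
  obtain ⟨g, hg⟩ := exists_root_ps hm _ h0
  refine ⟨HahnSeries.single k 1 * psl g, ?_⟩
  have h1 : (HahnSeries.single k (1 : Υ)) ^ m = HahnSeries.single ((m : ℤ) * k) 1 := by
    rw [HahnSeries.single_pow, one_pow, nsmul_eq_mul]
  have h2 : (psl g) ^ m = psl f.powerSeriesPart := by rw [psl, psl, ← map_pow, hg]
  rw [mul_pow, h1, h2]
  have := f.single_order_mul_powerSeriesPart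
  rw [hk] at this
  exact this

end PS

section Main

variable {L₀ K₀ E : Type*} 
  [Field L₀] [CharZero L₀]
  [Field K₀] [Algebra L₀ K₀]
  [Field E] [Algebra K₀ E] [Algebra L₀ E] [IsScalarTower L₀ K₀ E]
  [FiniteDimensional K₀ E]
  {s : K₀} (hs : IsRatGen L₀ s)

/-- A full set of embeddings into Laurent series at a point where `s` takes the value `α` and is a
local coordinate. -/
structure EmbAt (L₀ Υ : Type*) {K₀ : Type*} (E : Type*) [Field L₀] [Field Υ] [Algebra L₀ Υ]
    [Field K₀] [Algebra L₀ K₀] [Field E] [Algebra K₀ E] (s : K₀) (α : Υ) where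
  φ : K₀ →+* LaurentSeries Υ
  hφ : ∀ c : L₀, φ (algebraMap L₀ K₀ c) = psl (PowerSeries.C (algebraMap L₀ Υ c))
  y : PowerSeries Υ
  hy : φ s = psl y
  y0 : PowerSeries.constantCoeff y = α
  y1 : PowerSeries.coeff 1 y ≠ 0
  ι : Type
  fin : Finite ι
  card : Nat.card ι = finrank K₀ E
  σ : ι → (E →+* LaurentSeries Υ)
  inj : Function.Injective σ
  ext : ∀ i x, σ i (algebraMap K₀ E x) = φ x

variable {Υ : Type*} [Field Υ] [Algebra L₀ Υ] {α : Υ}

/-- evaluation of polynomials at the power series `y`. -/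
noncomputable def EmbAt.ev (D : EmbAt L₀ Υ E s α) : Υ[X] →+* PowerSeries Υ :=
  eval₂RingHom (PowerSeries.C) D.y

theorem EmbAt.constantCoeff_ev (D : EmbAt L₀ Υ E s α) (P : Υ[X]) :
    PowerSeries.constantCoeff (D.ev P) = P.eval α := by
  have h : (PowerSeries.constantCoeff (R := Υ)).comp D.ev = evalRingHom α := by
    apply Polynomial.ringHom_ext
    · intro a; simp [EmbAt.ev]
    · simp [EmbAt.ev, D.y0]
  exact congrArg (fun f : Υ[X] →+* Υ => f P) h

theorem EmbAt.φ_aeval (D : EmbAt L₀ Υ E s α) (P : L₀[X]) :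
    D.φ (aeval s P) = psl (D.ev (P.map (algebraMap L₀ Υ))) := by
  have h : D.φ.comp ((aeval s : L₀[X] →ₐ[L₀] K₀) : L₀[X] →+* K₀) =
      (algebraMap (PowerSeries Υ) (LaurentSeries Υ)).comp (D.ev.comp
        (mapRingHom (algebraMap L₀ Υ))) := by
    apply Polynomial.ringHom_ext
    · intro a
      simp only [RingHom.comp_apply, RingHom.coe_coe, aeval_C, D.hφ, coe_mapRingHom,
        Polynomial.map_C, EmbAt.ev, coe_eval₂RingHom, eval₂_C]
    · simp only [RingHom.comp_apply, RingHom.coe_coe, aeval_X, D.hy, coe_mapRingHom,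
        Polynomial.map_X, EmbAt.ev, coe_eval₂RingHom, eval₂_X]
  exact congrArg (fun f : L₀[X] →+* LaurentSeries Υ => f P) h

theorem EmbAt.σ_aeval (D : EmbAt L₀ Υ E s α) (i : D.ι) (P : L₀[X]) :
    D.σ i (aeval (algebraMap K₀ E s) P) = psl (D.ev (P.map (algebraMap L₀ Υ))) := by
  rw [aeval_algebraMap_apply, D.ext, D.φ_aeval]

theorem EmbAt.σ_intOver (D : EmbAt L₀ Υ E s α) (i : D.ι) {b : E}
    (hb : IntOver L₀ (algebraMap K₀ E s) b) : ∃ f, D.σ i b = psl f := by
  apply psl_of_isIntegral
  obtain ⟨q, hq, hqb⟩ := hb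
  have h : (D.σ i).comp ((aeval (algebraMap K₀ E s) : L₀[X] →ₐ[L₀] E) : L₀[X] →+* E) =
      (algebraMap (PowerSeries Υ) (LaurentSeries Υ)).comp (D.ev.comp
        (mapRingHom (algebraMap L₀ Υ))) := RingHom.ext fun P => D.σ_aeval i P
  refine ⟨q.map (D.ev.comp (mapRingHom (algebraMap L₀ Υ))), hq.map _, ?_⟩
  rw [eval₂_map, ← h]
  have := congrArg (D.σ i) hqb
  rw [hom_eval₂, map_zero] at this
  exact this

/-- at a simple root -/
theorem EmbAt.coeff_one_ev (D : EmbAt L₀ Υ E s α) (g : L₀[X]) (hg : Irreducible g)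
    (hα : aeval α g = 0) :
    PowerSeries.constantCoeff (D.ev (g.map (algebraMap L₀ Υ))) = 0 ∧
    PowerSeries.coeff 1 (D.ev (g.map (algebraMap L₀ Υ))) ≠ 0 := by
  have h0 : (g.map (algebraMap L₀ Υ)).IsRoot α := by
    rw [IsRoot, eval_map_algebraMap]; exact hα
  refine ⟨by rw [D.constantCoeff_ev]; exact h0, ?_⟩
  obtain ⟨h, hh⟩ := dvd_iff_isRoot.mpr h0
  have h1 : h.eval α ≠ 0 := by
    have hsep := hg.separable
    have h2 := hsep.eval₂_derivative_ne_zero (algebraMap L₀ Υ) (x := α)
      (by rw [← eval_map]; exact h0)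
    rw [← eval_map, ← derivative_map, hh] at h2
    simpa using h2
  rw [hh, map_mul]
  have h3 : D.ev (X - C α) = D.y - PowerSeries.C α := by simp [EmbAt.ev]
  rw [h3]
  obtain ⟨v, hv⟩ : PowerSeries.X ∣ (D.y - PowerSeries.C α) := by
    rw [PowerSeries.X_dvd_iff, map_sub, D.y0]; simp
  have hv1 : PowerSeries.constantCoeff v ≠ 0 := by
    have h4 := congrArg (PowerSeries.coeff 1) hv
    rw [show (1 : ℕ) = 0 + 1 from rfl, PowerSeries.coeff_succ_X_mul, map_sub] at h4
    have h5 : PowerSeries.coeff (0 + 1) (PowerSeries.C α) = 0 := by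
      rw [PowerSeries.coeff_C]; simp
    rw [h5, sub_zero] at h4
    intro h6
    apply D.y1
    rw [show (1 : ℕ) = 0 + 1 from rfl, h4, PowerSeries.coeff_zero_eq_constantCoeff_apply, h6]
  rw [hv, mul_assoc, show (1 : ℕ) = 0 + 1 from rfl, PowerSeries.coeff_succ_X_mul,
    PowerSeries.coeff_zero_eq_constantCoeff_apply, map_mul, D.constantCoeff_ev]
  exact mul_ne_zero hv1 h1

include hs in
/-- descent of integrality at `g` -/
theorem EmbAt.descent (D : EmbAt L₀ Υ E s α) (g : L₀[X]) (hg : Irreducible g)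
    (hα : aeval α g = 0) (κ : K₀) (f : PowerSeries Υ) (hf : D.φ κ = psl f) :
    ∀ (N : ℕ) (P : L₀[X]), (aeval s g) ^ N * κ = aeval s P → ∃ Q : L₀[X], κ = aeval s Q := by
  intro N
  induction N with
  | zero =>
    intro P hP
    rw [pow_zero, one_mul] at hP
    exact ⟨P, hP⟩
  | succ N ih =>
    intro P hP
    have h1 := congrArg D.φ hP
    rw [map_mul, map_pow, D.φ_aeval, D.φ_aeval, hf, psl, psl, psl, ← map_pow, ← map_mul] at h1
    have h2 := congrArg PowerSeries.constantCoeff (psl_injective h1)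
    rw [map_mul, map_pow, (D.coeff_one_ev g hg hα).1, zero_pow (Nat.succ_ne_zero N), zero_mul,
      D.constantCoeff_ev, eval_map_algebraMap] at h2
    have h3 : g ∣ P := by
      by_contra hnd
      have hco : IsCoprime g P := (hg.coprime_iff_not_dvd).mpr hnd
      obtain ⟨u, v, huv⟩ := hco
      have := congrArg (aeval α) huv
      rw [map_add, map_mul, map_mul, hα, ← h2, mul_zero, mul_zero, add_zero, map_one] at this
      exact zero_ne_one this
    obtain ⟨P', rfl⟩ := h3
    have hg0 : aeval s g ≠ 0 := fun h => hg.ne_zero (hs.transc g h)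
    apply ih P'
    apply mul_left_cancel₀ hg0
    rw [← map_mul, ← hP, pow_succ]; ring

include hs in
/-- **Reducedness from embeddings** -/
theorem redAt_of_emb (g : L₀[X]) (hg : Irreducible g) (hα : aeval α g = 0)
    (D : EmbAt L₀ Υ E s α) : RedAt L₀ (algebraMap K₀ E s) g := by
  classical
  intro a b ha hb hab
  set t : E := algebraMap K₀ E s with ht
  have hcharK : CharZero K₀ := charZero_of_injective_algebraMap (algebraMap L₀ K₀).injective
  have hsep : Algebra.IsSeparable K₀ E := Algebra.IsAlgebraic.isSeparable_of_perfectField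
  have hg0 : aeval s g ≠ 0 := fun h => hg.ne_zero (hs.transc g h)
  have hgt : aeval t g ≠ 0 := by
    rw [ht, aeval_algebraMap_apply]; exact (_root_.map_ne_zero _).mpr hg0
  let a3 : Algebra L₀[X] K₀ := ((aeval s : L₀[X] →ₐ[L₀] K₀) : L₀[X] →+* K₀).toAlgebra
  let a4 : Algebra L₀[X] E := ((aeval t : L₀[X] →ₐ[L₀] E) : L₀[X] →+* E).toAlgebra
  have m3 : ∀ p : L₀[X], algebraMap L₀[X] K₀ p = aeval s p := fun _ => rfl
  have m4 : ∀ p : L₀[X], algebraMap L₀[X] E p = aeval t p := fun _ => rfl
  have t2 : IsScalarTower L₀[X] K₀ E := IsScalarTower.of_algebraMap_eq fun p => by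
    rw [m3, m4, ht, aeval_algebraMap_apply]
  have f2 : IsFractionRing L₀[X] K₀ := isFractionRing_L hs m3
  set c : E := a / aeval t g with hc
  have hca : a = aeval t g * c := by rw [hc, mul_div_cancel₀ _ hgt]
  have hcb : c ^ 2 * aeval t g = b := by
    apply mul_left_cancel₀ hgt
    rw [← hab, hca]; ring
  have hcint : IsIntegral K₀ c := Algebra.IsIntegral.isIntegral c
  refine ⟨c, ?_, hca⟩
  have key : IsIntegral L₀[X] c := by
    rw [isIntegral_iff_coeff_minpoly (K₀ := K₀) hcint]
    intro i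
    -- power of `g` times the coefficient
    obtain ⟨P, hP⟩ := isIntegral_smul_coeff (A := L₀[X]) hcint hg.ne_zero (by
      rw [Algebra.smul_def, m4, ← hca]; exact ha) i
    rw [m3, m3] at hP
    -- the roots
    obtain ⟨f, hf⟩ : ∃ f, D.φ ((minpoly K₀ c).coeff i) = psl f := by
      let M := AlgebraicClosure (LaurentSeries Υ)
      let j : LaurentSeries Υ →+* M := algebraMap _ _
      let aM : Algebra K₀ M := (j.comp D.φ).toAlgebra
      have mM : ∀ x : K₀, algebraMap K₀ M x = j (D.φ x) := fun _ => rfl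
      have := D.fin
      let τ : D.ι → (E →ₐ[K₀] M) := fun i =>
        { (j.comp (D.σ i)) with
          commutes' := fun x => by
            change j (D.σ i (algebraMap K₀ E x)) = _
            rw [D.ext, mM] }
      have hτ : ∀ i x, τ i x = j (D.σ i x) := fun _ _ => rfl
      have hτinj : Function.Injective τ := by
        intro i i' h
        apply D.inj
        ext x : 1
        apply j.injective
        rw [← hτ, ← hτ, h]
      have hcard : Nat.card D.ι = Nat.card (E →ₐ[K₀] M) := by
        rw [D.card, Nat.card_eq_fintype_card, AlgHom.card K₀ E M]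
      have hbij : Function.Bijective τ :=
        (Nat.bijective_iff_injective_and_card τ).mpr ⟨hτinj, hcard⟩
      have hσc : ∀ i, ∃ f, D.σ i c = psl f := by
        intro i
        obtain ⟨fb, hfb⟩ := D.σ_intOver i hb
        have hgev := D.coeff_one_ev g hg hα
        apply psl_of_sq hgev.1 hgev.2 (b := fb)
        rw [← hfb, ← D.σ_aeval i g, ← map_pow, ← map_mul, hcb]
      have hroots : ∀ r ∈ ((minpoly K₀ c).map (algebraMap K₀ M)).roots,
          r ∈ (j.comp (algebraMap (PowerSeries Υ) (LaurentSeries Υ))).range := by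
        intro r hr
        have h1 : r ∈ (minpoly K₀ c).rootSet M := by
          rw [mem_rootSet]
          refine ⟨minpoly.ne_zero hcint, ?_⟩
          rw [mem_roots', IsRoot, eval_map_algebraMap] at hr
          exact hr.2
        rw [← Algebra.IsAlgebraic.range_eval_eq_rootSet_minpoly M c] at h1
        obtain ⟨ψ, rfl⟩ := h1
        obtain ⟨i, rfl⟩ := hbij.2 ψ
        obtain ⟨f, hf⟩ := hσc i
        exact ⟨f, by
          change j (psl f) = τ i c
          rw [hτ, hf]⟩
      have hlift := (IsAlgClosed.splits ((minpoly K₀ c).map (algebraMap K₀ M))).mem_lift_of_roots_mem_range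
        ((minpoly.monic hcint).map _) _ hroots
      rw [lifts_iff_coeff_lifts] at hlift
      obtain ⟨f, hf⟩ := hlift i
      refine ⟨f, ?_⟩
      apply j.injective
      rw [coeff_map, mM] at hf
      exact hf.symm
    obtain ⟨Q, hQ⟩ := D.descent hs g hg hα _ f hf _ P hP.symm
    exact ⟨Q, hQ.symm⟩
  exact key

end Main

end Fermat.Agent.H29
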