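import Mathlib
import Fermat.Agent.H29ConnThm

/-!
# The Gauss valuation ring is a DVR; its integral closure is a DVR if connected and unramified
-/

set_option autoImplicit false
set_option linter.unusedSectionVars false

namespace Fermat.Agent.H29

open Module nonZeroDivisors Polynomial IsLocalRing

section Main

variable {𝔬 L₀ K₀ E : Type*} [CommRing 𝔬] [IsDomain 𝔬] [IsDiscreteValuationRing 𝔬]
  [Field L₀] [CharZero L₀] [Algebra 𝔬 L₀] [IsFractionRing 𝔬 L₀]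
  [Field K₀] [Algebra L₀ K₀] [Algebra 𝔬 K₀] [IsScalarTower 𝔬 L₀ K₀]
  [Field E] [Algebra K₀ E] [Algebra L₀ E] [Algebra 𝔬 E] [IsScalarTower L₀ K₀ E]
  [IsScalarTower 𝔬 K₀ E] [FiniteDimensional K₀ E]
  {s : K₀} (hs : IsRatGen L₀ s) {ϖ : 𝔬} (hϖ : Irreducible ϖ)

theorem algebraMap_mem_gaussRing (c : 𝔬) : algebraMap 𝔬 K₀ c ∈ gaussRing 𝔬 s := by
  have := aeval_mem_gaussRing (s := s) (C c)
  rwa [aeval_C] at this

/-- the uniformizer -/
def gaussPi (s : K₀) (ϖ : 𝔬) : gaussRing 𝔬 s := ⟨algebraMap 𝔬 K₀ ϖ, algebraMap_mem_gaussRing ϖ⟩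

include hϖ in
theorem exists_content (a : 𝔬[X]) (ha : a ≠ 0) :
    ∃ (n : ℕ) (b : 𝔬[X]), b.map (residue 𝔬) ≠ 0 ∧ a = C (ϖ ^ n) * b := by
  have hπ : Prime (C ϖ : 𝔬[X]) := Polynomial.prime_C_iff.mpr hϖ.prime
  obtain ⟨n, b, hb, hab⟩ := WfDvdMonoid.max_power_factor ha hπ.irreducible
  exact ⟨n, b, fun h => hb ((map_residue_eq_zero_iff hϖ b).mp h), by rw [C_pow]; exact hab⟩

include hs in
theorem gauss_isUnit {c : gaussRing 𝔬 s} (a b : 𝔬[X]) (ha : a.map (residue 𝔬) ≠ 0)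
    (hb : b.map (residue 𝔬) ≠ 0) (h : (c : K₀) * aeval s b = aeval s a) : IsUnit c := by
  have hb0 : aeval s b ≠ 0 := by
    intro h; apply hb; rw [hs.aeval_eq_zero h, Polynomial.map_zero]
  have ha0 : aeval s a ≠ 0 := by
    intro h; apply ha; rw [hs.aeval_eq_zero h, Polynomial.map_zero]
  have hc : (c : K₀) = aeval s a / aeval s b := by rw [eq_div_iff hb0, h]
  refine IsUnit.of_mul_eq_one (⟨aeval s b / aeval s a, b, a, ha, by
    rw [div_mul_cancel₀ _ ha0]⟩ : gaussRing 𝔬 s) ?_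
  apply Subtype.ext
  change (c : K₀) * (aeval s b / aeval s a) = 1
  rw [hc, div_mul_div_cancel₀ hb0, div_self ha0]

include hs hϖ in
theorem gauss_factor (c : gaussRing 𝔬 s) (hc : c ≠ 0) :
    ∃ (n : ℕ) (u : (gaussRing 𝔬 s)ˣ), c = gaussPi s ϖ ^ n * u := by
  obtain ⟨c, a, b, hb, h⟩ := c
  have hc0 : c ≠ 0 := fun h => hc (Subtype.ext h)
  have hb0 : aeval s b ≠ 0 := by
    intro h; apply hb; rw [hs.aeval_eq_zero h, Polynomial.map_zero]
  have ha0 : a ≠ 0 := by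
    rintro rfl
    rw [map_zero] at h
    exact mul_ne_zero hc0 hb0 h
  obtain ⟨n, a', ha', haa⟩ := exists_content hϖ a ha0
  let u : gaussRing 𝔬 s := ⟨aeval s a' / aeval s b, a', b, hb, div_mul_cancel₀ _ hb0⟩
  have hu : IsUnit u := gauss_isUnit hs a' b ha' hb (div_mul_cancel₀ _ hb0)
  refine ⟨n, hu.unit, ?_⟩
  apply Subtype.ext
  change c = (algebraMap 𝔬 K₀ ϖ) ^ n * (aeval s a' / aeval s b)
  rw [← mul_div_assoc, eq_div_iff hb0, h, haa, map_mul, aeval_C, map_pow]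

include hs hϖ in
theorem gaussPi_not_isUnit : ¬ IsUnit (gaussPi s ϖ) := by
  intro hu
  obtain ⟨⟨c, a, b, hb, h⟩, hc⟩ := hu.exists_right_inv
  have h1 : algebraMap 𝔬 K₀ ϖ * c = 1 := congrArg Subtype.val hc
  have h2 : b = C ϖ * a := by
    rw [← sub_eq_zero]
    apply hs.aeval_eq_zero
    rw [map_sub, map_mul, aeval_C, ← h, ← mul_assoc, h1, one_mul, sub_self]
  exact hb ((map_residue_eq_zero_iff hϖ b).mpr ⟨a, h2⟩)

include hs hϖ in
theorem gaussPi_ne_zero : gaussPi s ϖ ≠ 0 := by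
  intro h
  have h1 : algebraMap 𝔬 K₀ ϖ = 0 := congrArg Subtype.val h
  have h2 : aeval s (C ϖ) = 0 := by rw [aeval_C, h1]
  have h3 := hs.aeval_eq_zero h2
  rw [C_eq_zero] at h3
  exact hϖ.ne_zero h3

include hs hϖ in
theorem gaussPi_irreducible : Irreducible (gaussPi s ϖ) := by
  refine ⟨gaussPi_not_isUnit hs hϖ, ?_⟩
  intro x y hxy
  have hnu := gaussPi_not_isUnit hs hϖ
  have hx0 : x ≠ 0 := by
    rintro rfl; rw [zero_mul] at hxy; exact gaussPi_ne_zero hs hϖ hxy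
  have hy0 : y ≠ 0 := by
    rintro rfl; rw [mul_zero] at hxy; exact gaussPi_ne_zero hs hϖ hxy
  obtain ⟨n, u, rfl⟩ := gauss_factor hs hϖ x hx0
  obtain ⟨m, v, rfl⟩ := gauss_factor hs hϖ y hy0
  rcases Nat.eq_zero_or_pos n with rfl | hn
  · left; rw [pow_zero, one_mul]; exact u.isUnit
  rcases Nat.eq_zero_or_pos m with rfl | hm
  · right; rw [pow_zero, one_mul]; exact v.isUnit
  exfalso
  apply hnu
  obtain ⟨n, rfl⟩ : ∃ k, n = k + 1 := ⟨n - 1, by omega⟩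
  obtain ⟨m, rfl⟩ : ∃ k, m = k + 1 := ⟨m - 1, by omega⟩
  have h1 : gaussPi s ϖ * (gaussPi s ϖ * (gaussPi s ϖ ^ n * gaussPi s ϖ ^ m * u * v)) =
      gaussPi s ϖ * 1 := by
    rw [mul_one]
    conv_rhs => rw [hxy]
    ring
  have h2 := mul_left_cancel₀ (gaussPi_ne_zero hs hϖ) h1
  exact IsUnit.of_mul_eq_one _ h2

include hs hϖ in
theorem gauss_isDVR : IsDiscreteValuationRing (gaussRing 𝔬 s) :=
  IsDiscreteValuationRing.ofHasUnitMulPowIrreducibleFactorization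
    ⟨gaussPi s ϖ, gaussPi_irreducible hs hϖ, fun {x} hx => by
      obtain ⟨n, u, hu⟩ := gauss_factor hs hϖ x hx
      exact ⟨n, u, hu.symm⟩⟩

include hs hϖ in
theorem gauss_fraction : IsFractionRing (gaussRing 𝔬 s) K₀ := by
  unfold IsFractionRing
  rw [isLocalization_iff]
  refine ⟨?_, ?_, ?_⟩
  · rintro ⟨c, hc⟩
    rw [isUnit_iff_ne_zero]
    intro h0
    exact nonZeroDivisors.ne_zero hc (Subtype.ext h0)
  · intro z
    let a1 : Algebra 𝔬[X] K₀ := ((aeval s : 𝔬[X] →ₐ[𝔬] K₀) : 𝔬[X] →+* K₀).toAlgebra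
    have m1 : ∀ p : 𝔬[X], algebraMap 𝔬[X] K₀ p = aeval s p := fun _ => rfl
    have f1 : IsFractionRing 𝔬[X] K₀ := isFractionRing_O hs m1
    obtain ⟨⟨p, ⟨q, hq⟩⟩, hz⟩ := IsLocalization.surj 𝔬[X]⁰ z
    simp only [m1] at hz
    have hq0 : aeval s q ≠ 0 := fun h => nonZeroDivisors.ne_zero hq (hs.aeval_eq_zero h)
    refine ⟨⟨⟨aeval s p, aeval_mem_gaussRing p⟩, ⟨⟨aeval s q, aeval_mem_gaussRing q⟩, ?_⟩⟩, hz⟩
    exact mem_nonZeroDivisors_of_ne_zero (fun h => hq0 (congrArg Subtype.val h))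
  · intro a b hab
    refine ⟨1, ?_⟩
    congr 1
    exact Subtype.ext hab

include hs hϖ in
theorem gauss_maximalIdeal [IsDiscreteValuationRing (gaussRing 𝔬 s)] :
    maximalIdeal (gaussRing 𝔬 s) = Ideal.span {gaussPi s ϖ} :=
  (gaussPi_irreducible hs hϖ).maximalIdeal_eq

theorem gaussPi_coe : algebraMap (gaussRing 𝔬 s) E (gaussPi s ϖ) = algebraMap 𝔬 E ϖ := by
  change algebraMap K₀ E (algebraMap 𝔬 K₀ ϖ) = _
  rw [← IsScalarTower.algebraMap_apply]

include hs hϖ in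
theorem trace_mem_gauss {z : E} (hz : z ∈ intGauss 𝔬 E s) :
    Algebra.trace K₀ E z ∈ gaussRing 𝔬 s := by
  have := gauss_isDVR hs hϖ
  have := gauss_fraction (𝔬 := 𝔬) hs hϖ
  have h1 : IsIntegral (gaussRing 𝔬 s) (Algebra.trace K₀ E z) := Algebra.isIntegral_trace hz
  obtain ⟨v, hv⟩ := IsIntegrallyClosed.isIntegral_iff.mp h1
  rw [← hv]
  exact v.2

include hs hϖ in
/-- traces of topologically nilpotent elements -/
theorem trace_mem_of_pow {z : E} (hz : z ∈ intGauss 𝔬 E s) (n : ℕ)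
    (h : ∃ w ∈ intGauss 𝔬 E s, z ^ n = algebraMap 𝔬 E ϖ * w) :
    ∃ c ∈ gaussRing 𝔬 s, Algebra.trace K₀ E z = algebraMap 𝔬 K₀ ϖ * c := by
  have hcharK : CharZero K₀ := charZero_of_injective_algebraMap (algebraMap L₀ K₀).injective
  have hsep : Algebra.IsSeparable K₀ E := Algebra.IsAlgebraic.isSeparable_of_perfectField
  have := gauss_isDVR hs hϖ
  have := gauss_fraction (𝔬 := 𝔬) hs hϖ
  let V := gaussRing 𝔬 s
  let S := integralClosure V E
  have : IsScalarTower V K₀ E := IsScalarTower.of_algebraMap_eq fun _ => rfl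
  have hfin : Module.Finite V S := IsIntegralClosure.finite V K₀ E S
  have htf : Module.IsTorsionFree V S := by
    rw [Module.isTorsionFree_iff_algebraMap_injective]
    intro a b hab
    have h1 : algebraMap V E a = algebraMap V E b := congrArg Subtype.val hab
    exact Subtype.ext ((algebraMap K₀ E).injective h1)
  have hfree : Module.Free V S := Module.free_of_finite_type_torsion_free'
  obtain ⟨w, hw, hzw⟩ := h
  have h1 : (⟨z, hz⟩ : S) ^ n ∈ (maximalIdeal V).map (algebraMap V S) := by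
    have h2 : (⟨z, hz⟩ : S) ^ n = algebraMap V S (gaussPi s ϖ) * ⟨w, hw⟩ := by
      apply Subtype.ext
      change z ^ n = algebraMap V E (gaussPi s ϖ) * w
      rw [gaussPi_coe]; exact hzw
    rw [h2]
    apply Ideal.mul_mem_right
    apply Ideal.mem_map_of_mem
    rw [gauss_maximalIdeal hs hϖ]
    exact Ideal.mem_span_singleton_self _
  have h2 := trace_mem_of_pow_mem (maximalIdeal V) (⟨z, hz⟩ : S) n h1
  rw [gauss_maximalIdeal hs hϖ, Ideal.mem_span_singleton'] at h2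
  obtain ⟨c, hc⟩ := h2
  have hloc := IsIntegralClosure.isLocalization V K₀ E S
  have h3 := Algebra.trace_localization V V⁰ (Rₘ := K₀) (Sₘ := E) (⟨z, hz⟩ : S)
  refine ⟨c, c.2, ?_⟩
  change Algebra.trace K₀ E z = _ at h3
  rw [h3, ← hc, mul_comm c, map_mul]
  rfl

include hs hϖ in
/-- the special fibre is reduced -/
theorem gauss_reduced (H1S : SelfDual 𝔬 E s) {y : E} (hy : y ∈ intGauss 𝔬 E s) (n : ℕ)
    (h : ∃ w ∈ intGauss 𝔬 E s, y ^ n = algebraMap 𝔬 E ϖ * w) :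
    ∃ w ∈ intGauss 𝔬 E s, y = algebraMap 𝔬 E ϖ * w := by
  set S := intGauss 𝔬 E s with hS
  have hinj : Function.Injective (algebraMap 𝔬 E) := by
    rw [IsScalarTower.algebraMap_eq 𝔬 K₀ E, IsScalarTower.algebraMap_eq 𝔬 L₀ K₀]
    exact (algebraMap K₀ E).injective.comp
      ((algebraMap L₀ K₀).injective.comp (IsFractionRing.injective 𝔬 L₀))
  have hϖ0 : algebraMap 𝔬 E ϖ ≠ 0 := by
    have := hinj.ne hϖ.ne_zero
    rwa [map_zero] at this
  have hϖ0' : algebraMap 𝔬 K₀ ϖ ≠ 0 := by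
    intro h
    apply hϖ0
    rw [IsScalarTower.algebraMap_apply 𝔬 K₀ E, h, map_zero]
  obtain ⟨w, hw, hyw⟩ := h
  refine ⟨y / algebraMap 𝔬 E ϖ, ?_, by rw [mul_div_cancel₀ _ hϖ0]⟩
  apply H1S
  intro z hz
  obtain ⟨c, hc, hcc⟩ := trace_mem_of_pow hs hϖ (S.mul_mem hy hz) n
    ⟨w * z ^ n, S.mul_mem hw (S.pow_mem hz n), by rw [mul_pow, hyw]; ring⟩
  have h1 : y * z = algebraMap 𝔬 K₀ ϖ • (y / algebraMap 𝔬 E ϖ * z) := by
    rw [Algebra.smul_def, ← IsScalarTower.algebraMap_apply]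
    field_simp
  rw [h1, map_smul, smul_eq_mul] at hcc
  rw [mul_left_cancel₀ hϖ0' hcc]
  exact hc

include hs hϖ in
/-- `1 + ϖ S` consists of units. -/
theorem inv_mem_intGauss {w σ : E} (hσ : σ ∈ intGauss 𝔬 E s)
    (h : w - 1 = algebraMap 𝔬 E ϖ * σ) : w⁻¹ ∈ intGauss 𝔬 E s ∧ w ≠ 0 := by
  have := gauss_isDVR hs hϖ
  let V := gaussRing 𝔬 s
  let S := integralClosure V E
  have hw : w = 1 + algebraMap 𝔬 E ϖ * σ := by rw [← h]; ring
  let σ' : S := ⟨σ, hσ⟩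
  have hint : Algebra.IsIntegral V S := inferInstance
  let W : S := 1 + algebraMap V S (gaussPi s ϖ) * σ'
  have hW : IsUnit W := by
    by_contra hnu
    obtain ⟨M, hM, hWM⟩ := exists_max_ideal_of_mem_nonunits hnu
    have h2 : (M.comap (algebraMap V S)).IsMaximal :=
      Ideal.isMaximal_comap_of_isIntegral_of_isMaximal (R := V) M
    have h3 : M.comap (algebraMap V S) = maximalIdeal V := IsLocalRing.eq_maximalIdeal h2
    have h4 : algebraMap V S (gaussPi s ϖ) ∈ M := by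
      rw [← Ideal.mem_comap, h3, gauss_maximalIdeal hs hϖ]
      exact Ideal.mem_span_singleton_self _
    have h5 : (1 : S) ∈ M := by
      have := M.sub_mem hWM (M.mul_mem_right σ' h4)
      rwa [add_sub_cancel_right] at this
    exact hM.ne_top ((Ideal.eq_top_iff_one _).mpr h5)
  obtain ⟨T, hT⟩ := hW.exists_right_inv
  have hWw : (W : E) = w := by
    rw [hw]
    change 1 + algebraMap V E (gaussPi s ϖ) * σ = _
    rw [gaussPi_coe]
  have h6 : w * (T : E) = 1 := by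
    rw [← hWw]; exact congrArg Subtype.val hT
  refine ⟨?_, left_ne_zero_of_mul_eq_one h6⟩
  rw [inv_eq_of_mul_eq_one_right h6]
  exact T.2

end Main

end Fermat.Agent.H29
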