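import Mathlib
import Fermat.Agent.H29Local

/-!
# The integral closure of the Gauss valuation ring is a DVR if it is connected and unramified
-/

set_option autoImplicit false
set_option linter.unusedSectionVars false

namespace Fermat.Agent.H29

open Module nonZeroDivisors Polynomial IsLocalRing

section Main

variable {𝔬 L₀ K₀ E : Type*} [CommRing 𝔬] [IsDomain 𝔬] [IsDiscreteValuationRing 𝔬]
  [Field L₀] [CharZero L₀] [Algebra 𝔬 L₀] [IsFractionRing 𝔬 L₀]
  [Field K₀] [Algebra L₀ K₀] [Algebra 𝔬 K₀] [IsScalarTower 𝔬 L₀ K₀]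
  [Field E] [Algebra K₀ E] [Algebra L₀ E] [Algebra 𝔬 E] [IsScalarTower L₀ K₀ E]
  [IsScalarTower 𝔬 K₀ E] [FiniteDimensional K₀ E]
  {s : K₀} (hs : IsRatGen L₀ s) {ϖ : 𝔬} (hϖ : Irreducible ϖ)

/-- the special fibre is connected -/
def GaussConn (𝔬 : Type*) {K₀ : Type*} (E : Type*) [CommRing 𝔬] [IsDomain 𝔬]
    [IsDiscreteValuationRing 𝔬] [Field K₀] [Algebra 𝔬 K₀] [Field E] [Algebra K₀ E]
    [Algebra 𝔬 E] (s : K₀) (ϖ : 𝔬) : Prop :=
  ∀ ε σ : E, ε ∈ intGauss 𝔬 E s → σ ∈ intGauss 𝔬 E s →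
    ε ^ 2 - ε = algebraMap 𝔬 E ϖ * σ →
    (∃ ρ ∈ intGauss 𝔬 E s, ε = algebraMap 𝔬 E ϖ * ρ) ∨
      (∃ ρ ∈ intGauss 𝔬 E s, ε - 1 = algebraMap 𝔬 E ϖ * ρ)

theorem aeval_mem_intGauss {y : E} (hy : y ∈ intGauss 𝔬 E s) (p : (gaussRing 𝔬 s)[X]) :
    aeval y p ∈ intGauss 𝔬 E s := by
  have h : IsIntegral (gaussRing 𝔬 s) (aeval y p) := by
    have hy' : y ∈ integralClosure (gaussRing 𝔬 s) E := hy
    have := Subalgebra.aeval_coe (integralClosure (gaussRing 𝔬 s) E) ⟨y, hy'⟩ p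
    have h2 : aeval y p = ((aeval (⟨y, hy'⟩ : integralClosure (gaussRing 𝔬 s) E) p :
        integralClosure (gaussRing 𝔬 s) E) : E) := this
    rw [h2]
    exact (aeval (⟨y, hy'⟩ : integralClosure (gaussRing 𝔬 s) E) p).2
  exact h

include hs hϖ in
theorem unit_of_not_dvd (H1S : SelfDual 𝔬 E s) (hconn : GaussConn 𝔬 E s ϖ)
    {y : E} (hy : y ∈ intGauss 𝔬 E s) (hy0 : ¬ ∃ w ∈ intGauss 𝔬 E s, y = algebraMap 𝔬 E ϖ * w) :
    y⁻¹ ∈ intGauss 𝔬 E s := by
  have hdvr := gauss_isDVR hs hϖ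
  have hirr := gaussPi_irreducible hs hϖ
  set V := gaussRing 𝔬 s with hV
  set S := intGauss 𝔬 E s with hS
  set π : E := algebraMap 𝔬 E ϖ with hπ
  have hπS : π ∈ S := algebraMap_mem_intGauss ϖ
  have hyint : IsIntegral V y := hy
  obtain ⟨P, hP, hPy⟩ := hyint
  have hPy' : aeval y P = 0 := hPy
  set Pb : (ResidueField V)[X] := P.map (residue V) with hPb
  have hPb0 : Pb ≠ 0 := (hP.map _).ne_zero
  obtain ⟨Qb, hQ, hnd⟩ := Polynomial.exists_eq_pow_rootMultiplicity_mul_and_not_dvd Pb hPb0 0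
  set r := rootMultiplicity 0 Pb
  rw [C_0, sub_zero] at hQ hnd
  have hco : IsCoprime (X ^ (r + 1) : (ResidueField V)[X]) Qb :=
    IsCoprime.pow_left ((Polynomial.irreducible_X.coprime_iff_not_dvd).mpr hnd)
  obtain ⟨ub, vb, huv⟩ := hco
  have hsurj : Function.Surjective (Polynomial.map (residue V)) :=
    Polynomial.map_surjective _ residue_surjective
  obtain ⟨u, rfl⟩ := hsurj ub
  obtain ⟨v, rfl⟩ := hsurj vb
  obtain ⟨Q, rfl⟩ := hsurj Qb
  have h1 : (u * X ^ (r + 1) + v * Q - 1).map (residue V) = 0 := by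
    rw [Polynomial.map_sub, Polynomial.map_add, Polynomial.map_mul, Polynomial.map_mul,
      Polynomial.map_pow, Polynomial.map_X, huv, Polynomial.map_one, sub_self]
  have h2 : (X * P - X ^ (r + 1) * Q).map (residue V) = 0 := by
    rw [Polynomial.map_sub, Polynomial.map_mul, Polynomial.map_mul, Polynomial.map_X,
      Polynomial.map_pow, Polynomial.map_X, ← hPb, hQ, pow_succ]
    ring
  obtain ⟨t₁, ht₁⟩ := (map_residue_eq_zero_iff hirr _).mp h1
  obtain ⟨t₂, ht₂⟩ := (map_residue_eq_zero_iff hirr _).mp h2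
  have e1 := congrArg (aeval y) ht₁
  have e2 := congrArg (aeval y) ht₂
  simp only [map_sub, map_add, map_mul, map_pow, aeval_X, map_one, aeval_C, hPy', mul_zero,
    zero_sub] at e1 e2
  rw [gaussPi_coe, ← hπ] at e1 e2
  have hu := aeval_mem_intGauss hy u
  have hv := aeval_mem_intGauss hy v
  have hQS := aeval_mem_intGauss hy Q
  have ht1 := aeval_mem_intGauss hy t₁
  have ht2 := aeval_mem_intGauss hy t₂
  set U := aeval y u
  set Vv := aeval y v
  set QQ := aeval y Q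
  set T₁ := aeval y t₁
  set T₂ := aeval y t₂
  have hyp : ∀ n : ℕ, y ^ n ∈ S := fun n => S.pow_mem hy n
  rcases hconn (U * y ^ (r + 1)) (U * y ^ (r + 1) * T₁ + U * Vv * T₂)
    (S.mul_mem hu (hyp _))
    (S.add_mem (S.mul_mem (S.mul_mem hu (hyp _)) ht1) (S.mul_mem (S.mul_mem hu hv) ht2))
    (by
      rw [← hπ]
      linear_combination (U * y ^ (r + 1)) * e1 + (U * Vv) * e2) with
    ⟨ρ, hρ, h⟩ | ⟨ρ, hρ, h⟩
  · exfalso
    apply hy0
    rw [← hπ] at h
    apply gauss_reduced hs hϖ H1S hy (r + 1)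
    refine ⟨y ^ (r + 1) * ρ - Vv * T₂ - y ^ (r + 1) * T₁, ?_, ?_⟩
    · exact S.sub_mem (S.sub_mem (S.mul_mem (hyp _) hρ) (S.mul_mem hv ht2))
        (S.mul_mem (hyp _) ht1)
    · rw [← hπ]
      linear_combination (-(y ^ (r + 1))) * e1 - Vv * e2 + y ^ (r + 1) * h
  · have hw := inv_mem_intGauss (E := E) hs hϖ hρ h
    have hy0' : y ≠ 0 := by
      rintro rfl
      exact hy0 ⟨0, S.zero_mem, by rw [mul_zero]⟩
    have hU0 : U * y ^ (r + 1) ≠ 0 := hw.2
    have h3 : y⁻¹ = (U * y ^ r) * (U * y ^ (r + 1))⁻¹ := by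
      rw [eq_mul_inv_iff_mul_eq₀ hU0, pow_succ]
      field_simp
    rw [h3]
    exact S.mul_mem (S.mul_mem hu (hyp _)) hw.1

include hs hϖ in
/-- Every element is a fraction `y / ϖ ^ k`. -/
theorem exists_pow_mul_mem (x : E) : ∃ k : ℕ, algebraMap 𝔬 E ϖ ^ k * x ∈ intGauss 𝔬 E s := by
  have := gauss_isDVR hs hϖ
  have := gauss_fraction (𝔬 := 𝔬) hs hϖ
  let V := gaussRing 𝔬 s
  have : IsScalarTower V K₀ E := IsScalarTower.of_algebraMap_eq fun _ => rfl
  have halg : IsAlgebraic V x :=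
    (IsFractionRing.isAlgebraic_iff V K₀ E).mpr (Algebra.IsAlgebraic.isAlgebraic x)
  obtain ⟨c, hc0, hc⟩ := halg.exists_integral_multiple
  obtain ⟨n, u, rfl⟩ := gauss_factor hs hϖ c hc0
  refine ⟨n, ?_⟩
  have h1 : IsIntegral V (algebraMap V E ((u⁻¹ : Vˣ) : V)) := isIntegral_algebraMap
  have h2 := h1.mul hc
  have h3 : algebraMap V E ((u⁻¹ : Vˣ) : V) * ((gaussPi s ϖ ^ n * (u : V)) • x) =
      algebraMap 𝔬 E ϖ ^ n * x := by
    rw [Algebra.smul_def, ← mul_assoc, ← map_mul]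
    have : ((u⁻¹ : Vˣ) : V) * (gaussPi s ϖ ^ n * (u : V)) = gaussPi s ϖ ^ n := by
      rw [mul_comm, mul_assoc, Units.mul_inv, mul_one]
    rw [this, map_pow, gaussPi_coe]
  rw [h3] at h2
  exact h2

include hs hϖ in
/-- Nonzero elements of `S` are not infinitely divisible by `ϖ`. -/
theorem exists_max_pow {y : E} (hy : y ∈ intGauss 𝔬 E s) (hy0 : y ≠ 0) :
    ∃ (k : ℕ) (z : E), z ∈ intGauss 𝔬 E s ∧ y = algebraMap 𝔬 E ϖ ^ k * z ∧
      ¬ ∃ w ∈ intGauss 𝔬 E s, z = algebraMap 𝔬 E ϖ * w := by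
  have hdvr := gauss_isDVR hs hϖ
  have hfr := gauss_fraction (𝔬 := 𝔬) hs hϖ
  let V := gaussRing 𝔬 s
  have : IsScalarTower V K₀ E := IsScalarTower.of_algebraMap_eq fun _ => rfl
  have hcharK : CharZero K₀ := charZero_of_injective_algebraMap (algebraMap L₀ K₀).injective
  have hsep : Algebra.IsSeparable K₀ E := Algebra.IsAlgebraic.isSeparable_of_perfectField
  set S := intGauss 𝔬 E s with hS
  set π : E := algebraMap 𝔬 E ϖ with hπ
  -- the ring `S` is Noetherian and `π` is not a unit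
  let S' := integralClosure V E
  have hN : IsNoetherian V S' := IsIntegralClosure.isNoetherian V K₀ E S'
  have hN' : IsNoetherianRing S' := isNoetherian_of_tower V hN
  have hwf : WfDvdMonoid S' := inferInstance
  let P : S' := algebraMap V S' (gaussPi s ϖ)
  have hP : ¬ IsUnit P := by
    intro hu
    have hint : Algebra.IsIntegral V S' := inferInstance
    have hinj : Function.Injective (algebraMap V S') := by
      intro a b hab
      have h1 : algebraMap V E a = algebraMap V E b := congrArg Subtype.val hab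
      exact Subtype.ext ((algebraMap K₀ E).injective h1)
    have hloc := (algebraMap_isIntegral_iff.mpr hint).isLocalHom hinj
    exact gaussPi_not_isUnit hs hϖ (hloc.map_nonunit _ hu)
  have hPπ : (P : E) = π := by
    change algebraMap V E (gaussPi s ϖ) = _
    rw [gaussPi_coe]
  have hy0' : (⟨y, hy⟩ : S') ≠ 0 := fun h => hy0 (congrArg Subtype.val h)
  obtain ⟨k, z, hz, hyz⟩ := WfDvdMonoid.max_power_factor' hy0' hP
  refine ⟨k, z, z.2, ?_, ?_⟩
  · have := congrArg Subtype.val hyz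
    rw [← hPπ]
    exact this
  · rintro ⟨w, hw, hzw⟩
    apply hz
    refine ⟨⟨w, hw⟩, Subtype.ext ?_⟩
    change (z : E) = P * w
    rw [hPπ]; exact hzw

include hs hϖ in
/-- The ring of Gauss integers is a valuation ring -/
theorem mem_or_inv (H1S : SelfDual 𝔬 E s) (hconn : GaussConn 𝔬 E s ϖ) {x : E}
    (hx : x ∉ intGauss 𝔬 E s) : ∃ w ∈ intGauss 𝔬 E s, x⁻¹ = algebraMap 𝔬 E ϖ * w := by
  set S := intGauss 𝔬 E s with hS
  set π : E := algebraMap 𝔬 E ϖ with hπ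
  have hπS : π ∈ S := algebraMap_mem_intGauss ϖ
  have hx0 : x ≠ 0 := by
    rintro rfl; exact hx S.zero_mem
  have hinj : Function.Injective (algebraMap 𝔬 E) := by
    rw [IsScalarTower.algebraMap_eq 𝔬 K₀ E, IsScalarTower.algebraMap_eq 𝔬 L₀ K₀]
    exact (algebraMap K₀ E).injective.comp
      ((algebraMap L₀ K₀).injective.comp (IsFractionRing.injective 𝔬 L₀))
  have hπ0 : π ≠ 0 := by
    have := hinj.ne hϖ.ne_zero
    rwa [map_zero] at this
  obtain ⟨k, hk⟩ := exists_pow_mul_mem (𝔬 := 𝔬) (E := E) hs hϖ x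
  have hkx : π ^ k * x ≠ 0 := mul_ne_zero (pow_ne_zero _ hπ0) hx0
  obtain ⟨l, z, hz, hkz, hz0⟩ := exists_max_pow hs hϖ hk hkx
  rw [← hπ] at hkz
  have hzinv := unit_of_not_dvd hs hϖ H1S hconn hz hz0
  have hlk : l < k := by
    by_contra hle
    rw [not_lt] at hle
    obtain ⟨m, rfl⟩ := Nat.exists_eq_add_of_le hle
    apply hx
    have : x = π ^ m * z := by
      apply mul_left_cancel₀ (pow_ne_zero k hπ0)
      rw [hkz, pow_add]; ring
    rw [this]
    exact S.mul_mem (S.pow_mem hπS _) hz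
  obtain ⟨m, rfl⟩ := Nat.exists_eq_add_of_lt hlk
  refine ⟨π ^ m * z⁻¹, S.mul_mem (S.pow_mem hπS _) hzinv, ?_⟩
  have hz1 : z ≠ 0 := by
    rintro rfl
    rw [mul_zero] at hkz
    exact hkx hkz
  have h2 : π ^ (m + 1) * x = z := by
    apply mul_left_cancel₀ (pow_ne_zero l hπ0)
    rw [← hkz]; ring
  rw [← h2]
  rw [pow_succ]
  field_simp

include hs hϖ in
/-- **Uniqueness** of the extension of the Gauss valuation. -/
theorem unique_valuation (H1S : SelfDual 𝔬 E s) (hconn : GaussConn 𝔬 E s ϖ)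
    (W : Subring E) (h1 : ∀ c ∈ gaussRing 𝔬 s, algebraMap K₀ E c ∈ W)
    (h2 : ∀ x : E, x ∉ W → x⁻¹ ∈ W) (h3 : (algebraMap 𝔬 E ϖ)⁻¹ ∉ W) : W = intGauss 𝔬 E s := by
  have hS : intGauss 𝔬 E s ≤ W := by
    intro x hx
    by_contra hxW
    obtain ⟨p, hp, hpx⟩ : IsIntegral (gaussRing 𝔬 s) x := hx
    have hxi := h2 x hxW
    have hx0 : x ≠ 0 := by rintro rfl; exact hxW W.zero_mem
    apply hxW
    -- `x = - ∑ coeff * x⁻¹ ^ ..`
    have hpx' : aeval x p = 0 := hpx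
    have hmonic := hp.as_sum
    set n := p.natDegree
    by_cases hn : n = 0
    · exfalso
      have : p = 1 := by
        rw [← hp.natDegree_eq_zero]
        exact hn
      rw [this, map_one] at hpx'
      exact one_ne_zero hpx'
    obtain ⟨m, hm⟩ : ∃ m, n = m + 1 := ⟨n - 1, by omega⟩
    rw [hmonic, map_add, map_pow, aeval_X, map_sum] at hpx'
    have key : x = - ∑ i ∈ Finset.range n, algebraMap (gaussRing 𝔬 s) E (p.coeff i) *
        x⁻¹ ^ (m - i) := by
      have h4 : x⁻¹ ^ m * x ^ n = x := by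
        rw [hm, pow_succ, ← mul_assoc, ← mul_pow, inv_mul_cancel₀ hx0, one_pow, one_mul]
      have h5 : x⁻¹ ^ m * (x ^ n + ∑ i ∈ Finset.range n, aeval x (C (p.coeff i) * X ^ i)) = 0 := by
        rw [hpx', mul_zero]
      rw [mul_add, h4, Finset.mul_sum] at h5
      rw [eq_neg_iff_add_eq_zero, ← h5]
      congr 1
      refine Finset.sum_congr rfl fun i hi => ?_
      rw [Finset.mem_range] at hi
      rw [map_mul, aeval_C, map_pow, aeval_X]
      obtain ⟨l, hl⟩ := Nat.exists_eq_add_of_le (show i ≤ m by omega)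
      have h6 : x⁻¹ ^ m * x ^ i = x⁻¹ ^ (m - i) := by
        rw [hl, Nat.add_sub_cancel_left, pow_add]
        calc x⁻¹ ^ i * x⁻¹ ^ l * x ^ i = (x⁻¹ * x) ^ i * x⁻¹ ^ l := by rw [mul_pow]; ring
          _ = _ := by rw [inv_mul_cancel₀ hx0, one_pow, one_mul]
      rw [← h6]; ring
    rw [key]
    refine W.neg_mem (W.sum_mem fun i _ => W.mul_mem ?_ (W.pow_mem hxi _))
    exact h1 _ (p.coeff i).2
  refine le_antisymm ?_ hS
  intro x hx
  by_contra hxS
  obtain ⟨w, hw, hxw⟩ := mem_or_inv hs hϖ H1S hconn hxS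
  apply h3
  have hx0 : x ≠ 0 := by rintro rfl; exact hxS (intGauss 𝔬 E s).zero_mem
  have hπ0 : algebraMap 𝔬 E ϖ ≠ 0 := by
    intro h0
    rw [h0, zero_mul] at hxw
    exact inv_ne_zero hx0 hxw
  have h4 : (algebraMap 𝔬 E ϖ)⁻¹ = w * x := by
    rw [inv_eq_iff_eq_inv, mul_inv, hxw]
    have hw0 : w ≠ 0 := by
      rintro rfl
      rw [mul_zero] at hxw
      exact inv_ne_zero hx0 hxw
    field_simp
  rw [h4]
  exact W.mul_mem (hS hw) hx

end Main

end Fermat.Agent.H29
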