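import Mathlib
import Fermat.Agent.H29Field

/-!
# Kummer extensions `K = E(h)`, `h ^ m = w ≡ 1 mod ϖ`
-/

set_option autoImplicit false
set_option linter.unusedSectionVars false

namespace Fermat.Agent.H29

open Module nonZeroDivisors Polynomial IsLocalRing

section Trace

variable {E K : Type*} [Field E] [Field K] [Algebra E K] (pb : PowerBasis E K) {w : E}

theorem kummer_trace_pow (hgen : pb.gen ^ pb.dim = algebraMap E K w) (k : ℕ) (hk : 0 < k)
    (hk' : k < pb.dim) : Algebra.trace E K (pb.gen ^ k) = 0 := by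
  classical
  rw [Algebra.trace_eq_matrix_trace pb.basis, Matrix.trace]
  refine Finset.sum_eq_zero fun j _ => ?_
  rw [Matrix.diag_apply, Algebra.leftMulMatrix_eq_repr_mul, pb.coe_basis, ← pow_add]
  by_cases h : k + (j : ℕ) < pb.dim
  · have h1 : pb.gen ^ (k + (j : ℕ)) = pb.basis ⟨k + j, h⟩ := by rw [pb.coe_basis]
    rw [h1, Basis.repr_self, Finsupp.single_apply, if_neg]
    intro h2
    have := congrArg Fin.val h2
    simp only at this
    omega
  · obtain ⟨l, hl⟩ := Nat.exists_eq_add_of_le (not_lt.mp h)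
    have hlt : l < pb.dim := by omega
    have h1 : pb.gen ^ (k + (j : ℕ)) = w • pb.basis ⟨l, hlt⟩ := by
      rw [pb.coe_basis, hl, pow_add, hgen, Algebra.smul_def]
    rw [h1, map_smul, Basis.repr_self, Finsupp.smul_apply, Finsupp.single_apply, if_neg, smul_zero]
    intro h2
    have := congrArg Fin.val h2
    simp only at this
    omega

theorem trace_one' : Algebra.trace E K 1 = (finrank E K : E) := by
  rw [← map_one (algebraMap E K), Algebra.trace_algebraMap, nsmul_eq_mul, mul_one]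

/-- coordinates through traces -/
theorem kummer_trace_coord (hgen : pb.gen ^ pb.dim = algebraMap E K w) (hw : w ≠ 0) (y : K)
    (i : Fin pb.dim) :
    Algebra.trace E K (y * (pb.gen ^ (pb.dim - (i : ℕ)) * algebraMap E K w⁻¹)) =
      pb.dim * pb.basis.repr y i := by
  classical
  have hgen0 : pb.gen ≠ 0 := by
    intro h
    rw [h, zero_pow pb.dim_pos.ne'] at hgen
    exact hw ((_root_.map_eq_zero (algebraMap E K)).mp hgen.symm)
  have hw' : algebraMap E K w ≠ 0 := (_root_.map_ne_zero _).mpr hw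
  conv_lhs => rw [← pb.basis.sum_repr y]
  rw [Finset.sum_mul, map_sum, Finset.sum_eq_single i]
  · rw [pb.coe_basis, smul_mul_assoc, map_smul]
    have h1 : pb.gen ^ (i : ℕ) * (pb.gen ^ (pb.dim - (i : ℕ)) * algebraMap E K w⁻¹) = 1 := by
      rw [← mul_assoc, ← pow_add, Nat.add_sub_cancel' i.2.le, hgen, ← map_mul,
        mul_inv_cancel₀ hw, map_one]
    rw [h1, trace_one', pb.finrank, smul_eq_mul, mul_comm]
  · intro j _ hj
    rw [pb.coe_basis, smul_mul_assoc, map_smul]
    have h1 : Algebra.trace E K (pb.gen ^ (j : ℕ) *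
        (pb.gen ^ (pb.dim - (i : ℕ)) * algebraMap E K w⁻¹)) = 0 := by
      have h2 : pb.gen ^ (j : ℕ) * (pb.gen ^ (pb.dim - (i : ℕ)) * algebraMap E K w⁻¹) =
          w⁻¹ • pb.gen ^ ((j : ℕ) + (pb.dim - (i : ℕ))) := by
        rw [Algebra.smul_def, pow_add]; ring
      rw [h2, map_smul]
      have hi := i.2
      have hj2 := j.2
      have hne : (j : ℕ) ≠ i := fun h => hj (Fin.ext h)
      rcases lt_or_gt_of_ne hne with h | h
      · rw [kummer_trace_pow pb hgen _ (by omega) (by omega), smul_zero]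
      · have h3 : (j : ℕ) + (pb.dim - (i : ℕ)) = pb.dim + (j - i) := by omega
        rw [h3, pow_add, hgen, ← Algebra.smul_def, map_smul,
          kummer_trace_pow pb hgen _ (by omega) (by omega), smul_zero, smul_zero]
    rw [h1, smul_zero]
  · intro h; exact absurd (Finset.mem_univ i) h

end Trace

section Main

variable {𝔬 L₀ K₀ E : Type*} [CommRing 𝔬] [IsDomain 𝔬] [IsDiscreteValuationRing 𝔬]
  [Field L₀] [CharZero L₀] [Algebra 𝔬 L₀] [IsFractionRing 𝔬 L₀]
  [Field K₀] [Algebra L₀ K₀] [Algebra 𝔬 K₀] [IsScalarTower 𝔬 L₀ K₀]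
  [Field E] [Algebra K₀ E] [Algebra L₀ E] [Algebra 𝔬 E] [IsScalarTower L₀ K₀ E]
  [IsScalarTower 𝔬 K₀ E] [FiniteDimensional K₀ E]
  {s : K₀} (hs : IsRatGen L₀ s) {ϖ : 𝔬} (hϖ : Irreducible ϖ)

include hs hϖ in
theorem not_one_mem : ¬ ∃ ρ ∈ intGauss 𝔬 E s, 1 = algebraMap 𝔬 E ϖ * ρ := by
  rintro ⟨ρ, hρ, h⟩
  let V := gaussRing 𝔬 s
  let S' := integralClosure V E
  have hint : Algebra.IsIntegral V S' := inferInstance
  have hinj : Function.Injective (algebraMap V S') := by
    intro a b hab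
    have h1 : algebraMap V E a = algebraMap V E b := congrArg Subtype.val hab
    exact Subtype.ext ((algebraMap K₀ E).injective h1)
  have hloc := (algebraMap_isIntegral_iff.mpr hint).isLocalHom hinj
  apply gaussPi_not_isUnit (𝔬 := 𝔬) hs hϖ
  apply hloc.map_nonunit
  refine IsUnit.of_mul_eq_one (⟨ρ, hρ⟩ : S') ?_
  apply Subtype.ext
  change algebraMap V E (gaussPi s ϖ) * ρ = 1
  rw [gaussPi_coe, ← h]

variable {K : Type*} [Field K] [Algebra E K] [Algebra K₀ K] [IsScalarTower K₀ E K]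
  [Algebra 𝔬 K] [IsScalarTower 𝔬 K₀ K]

omit [FiniteDimensional K₀ E] in
theorem map_mem_intGauss {x : E} (hx : x ∈ intGauss 𝔬 E s) :
    algebraMap E K x ∈ intGauss 𝔬 K s := by
  have : IsScalarTower (gaussRing 𝔬 s) E K := IsScalarTower.of_algebraMap_eq fun c => by
    change algebraMap K₀ K c = algebraMap E K (algebraMap K₀ E c)
    rw [← IsScalarTower.algebraMap_apply]
  have h1 : IsIntegral (gaussRing 𝔬 s) x := hx
  exact h1.algebraMap

include hs hϖ in
theorem trace_mem_intGauss [FiniteDimensional E K] {x : K} (hx : x ∈ intGauss 𝔬 K s) :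
    Algebra.trace E K x ∈ intGauss 𝔬 E s := by
  have : IsScalarTower (gaussRing 𝔬 s) E K := IsScalarTower.of_algebraMap_eq fun c => by
    change algebraMap K₀ K c = algebraMap E K (algebraMap K₀ E c)
    rw [← IsScalarTower.algebraMap_apply]
  have h1 : IsIntegral (gaussRing 𝔬 s) x := hx
  exact Algebra.isIntegral_trace h1

include hs hϖ in
/-- A Kummer extension by a root of `w ≡ 1` is unramified at the Gauss valuation -/
theorem kummer_selfDual (H1S : SelfDual 𝔬 E s) (pb : PowerBasis E K) {w : E}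
    (hgen : pb.gen ^ pb.dim = algebraMap E K w) (hm : IsUnit (pb.dim : 𝔬)) {σ₀ : E}
    (hσ₀ : σ₀ ∈ intGauss 𝔬 E s) (hw : w - 1 = algebraMap 𝔬 E ϖ * σ₀) : SelfDual 𝔬 K s := by
  have hfin : FiniteDimensional E K := pb.finite
  have htow : IsScalarTower (gaussRing 𝔬 s) E K := IsScalarTower.of_algebraMap_eq fun c => by
    change algebraMap K₀ K c = algebraMap E K (algebraMap K₀ E c)
    rw [← IsScalarTower.algebraMap_apply]
  obtain ⟨hwinv, hw0⟩ := inv_mem_intGauss (E := E) hs hϖ hσ₀ hw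
  set SK := intGauss 𝔬 K s with hSK
  have hwS : w ∈ intGauss 𝔬 E s := by
    have : w = 1 + algebraMap 𝔬 E ϖ * σ₀ := by rw [← hw]; ring
    rw [this]
    exact Subring.add_mem _ (Subring.one_mem _) (Subring.mul_mem _ (algebraMap_mem_intGauss ϖ) hσ₀)
  have hgS : pb.gen ∈ SK := by
    have h1 : IsIntegral (gaussRing 𝔬 s) (pb.gen ^ pb.dim) := by
      rw [hgen]; exact map_mem_intGauss hwS
    exact IsIntegral.of_pow pb.dim_pos h1
  obtain ⟨u, hu⟩ := hm
  have huE : (pb.dim : E) * algebraMap 𝔬 E ((u⁻¹ : 𝔬ˣ) : 𝔬) = 1 := by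
    have : (pb.dim : E) = algebraMap 𝔬 E (u : 𝔬) := by rw [hu, map_natCast]
    rw [this, ← map_mul, Units.mul_inv, map_one]
  intro y hy
  -- coordinates
  have hc : ∀ i, pb.basis.repr y i ∈ intGauss 𝔬 E s := by
    intro i
    have h1 : Algebra.trace E K (y * (pb.gen ^ (pb.dim - (i : ℕ)) * algebraMap E K w⁻¹)) ∈
        intGauss 𝔬 E s := by
      apply H1S
      intro z hz
      have h2 : Algebra.trace K₀ E (Algebra.trace E K (y * (pb.gen ^ (pb.dim - (i : ℕ)) *
          algebraMap E K w⁻¹)) * z) = Algebra.trace K₀ K (y * ((pb.gen ^ (pb.dim - (i : ℕ)) *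
          algebraMap E K w⁻¹) * algebraMap E K z)) := by
        rw [← Algebra.trace_trace (R := K₀) (S := E) (y * ((pb.gen ^ (pb.dim - (i : ℕ)) *
          algebraMap E K w⁻¹) * algebraMap E K z))]
        congr 1
        have h3 : y * ((pb.gen ^ (pb.dim - (i : ℕ)) * algebraMap E K w⁻¹) * algebraMap E K z) =
            z • (y * (pb.gen ^ (pb.dim - (i : ℕ)) * algebraMap E K w⁻¹)) := by
          rw [Algebra.smul_def]; ring
        rw [h3, map_smul, smul_eq_mul, mul_comm]
      rw [h2]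
      apply hy
      exact SK.mul_mem (SK.mul_mem (SK.pow_mem hgS _) (map_mem_intGauss hwinv))
        (map_mem_intGauss hz)
    rw [kummer_trace_coord pb hgen hw0] at h1
    have h2 : pb.basis.repr y i = algebraMap 𝔬 E ((u⁻¹ : 𝔬ˣ) : 𝔬) *
        (pb.dim * pb.basis.repr y i) := by
      rw [← mul_assoc, mul_comm (algebraMap 𝔬 E _), huE, one_mul]
    rw [h2]
    exact Subring.mul_mem _ (algebraMap_mem_intGauss _) h1
  rw [← pb.basis.sum_repr y]
  have h3 : ∑ i, pb.basis.repr y i • pb.basis i ∈ SK := by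
    refine SK.sum_mem fun i _ => ?_
    rw [Algebra.smul_def, pb.coe_basis]
    exact SK.mul_mem (map_mem_intGauss (hc i)) (SK.pow_mem hgS _)
  exact h3

include hs hϖ in
/-- A Kummer extension by a root of `w ≡ 1` has disconnected special fibre. -/
theorem kummer_not_conn (pb : PowerBasis E K) {w : E}
    (hgen : pb.gen ^ pb.dim = algebraMap E K w) (hm : IsUnit (pb.dim : 𝔬)) (hm2 : 2 ≤ pb.dim)
    {σ₀ : E} (hσ₀ : σ₀ ∈ intGauss 𝔬 E s) (hw : w - 1 = algebraMap 𝔬 E ϖ * σ₀) :
    ¬ GaussConn 𝔬 K s ϖ := by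
  intro hconn
  have hfin : FiniteDimensional E K := pb.finite
  have htow : IsScalarTower (gaussRing 𝔬 s) E K := IsScalarTower.of_algebraMap_eq fun c => by
    change algebraMap K₀ K c = algebraMap E K (algebraMap K₀ E c)
    rw [← IsScalarTower.algebraMap_apply]
  have htow' : IsScalarTower 𝔬 E K := IsScalarTower.of_algebraMap_eq fun c => by
    rw [IsScalarTower.algebraMap_apply 𝔬 K₀ E, ← IsScalarTower.algebraMap_apply K₀ E K,
      ← IsScalarTower.algebraMap_apply]
  set SK := intGauss 𝔬 K s with hSK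
  set SE := intGauss 𝔬 E s with hSE
  have hwS : w ∈ SE := by
    have : w = 1 + algebraMap 𝔬 E ϖ * σ₀ := by rw [← hw]; ring
    rw [this]
    exact SE.add_mem SE.one_mem (SE.mul_mem (algebraMap_mem_intGauss ϖ) hσ₀)
  have hgS : pb.gen ∈ SK := by
    have h1 : IsIntegral (gaussRing 𝔬 s) (pb.gen ^ pb.dim) := by
      rw [hgen]; exact map_mem_intGauss hwS
    exact IsIntegral.of_pow pb.dim_pos h1
  obtain ⟨u, hu⟩ := hm
  have huE : (pb.dim : E) * algebraMap 𝔬 E ((u⁻¹ : 𝔬ˣ) : 𝔬) = 1 := by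
    have : (pb.dim : E) = algebraMap 𝔬 E (u : 𝔬) := by rw [hu, map_natCast]
    rw [this, ← map_mul, Units.mul_inv, map_one]
  set v : E := algebraMap 𝔬 E ((u⁻¹ : 𝔬ˣ) : 𝔬) with hv
  have hvS : v ∈ SE := algebraMap_mem_intGauss _
  set h := pb.gen with hh
  set m := pb.dim with hmdef
  set G : K := ∑ i ∈ Finset.range m, h ^ i with hG
  set ε : K := algebraMap E K v * G with hε
  have hGS : G ∈ SK := SK.sum_mem fun i _ => SK.pow_mem hgS _
  have hεS : ε ∈ SK := SK.mul_mem (map_mem_intGauss hvS) hGS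
  have hmul : (h - 1) * G = algebraMap E K (w - 1) := by
    rw [hG, mul_comm, geom_sum_mul, hgen, map_sub, map_one]
  -- `h ^ i G = G + (w - 1)(1 + ... + h ^ (i-1))`
  have hpow : ∀ i : ℕ, h ^ i * G = G + algebraMap E K (w - 1) * ∑ l ∈ Finset.range i, h ^ l := by
    intro i
    have := geom_sum_mul h i
    have h2 : h ^ i = 1 + (∑ l ∈ Finset.range i, h ^ l) * (h - 1) := by rw [this]; ring
    rw [h2]
    linear_combination (∑ l ∈ Finset.range i, h ^ l) * hmul
  have hGG : G * G = m * G + algebraMap E K (w - 1) *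
      ∑ i ∈ Finset.range m, ∑ l ∈ Finset.range i, h ^ l := by
    conv_lhs => rw [hG, Finset.sum_mul, ← hG]
    rw [Finset.sum_congr rfl fun i _ => hpow i, Finset.sum_add_distrib, Finset.sum_const,
      Finset.card_range, nsmul_eq_mul]
    congr 1
    exact (Finset.mul_sum _ _ _).symm
  have hmv : (m : K) * algebraMap E K v = 1 := by
    have := congrArg (algebraMap E K) huE
    rwa [map_mul, map_one, map_natCast] at this
  set T : K := ∑ i ∈ Finset.range m, ∑ l ∈ Finset.range i, h ^ l with hT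
  have hTS : T ∈ SK := SK.sum_mem fun i _ => SK.sum_mem fun l _ => SK.pow_mem hgS _
  have hεε : ε ^ 2 - ε = algebraMap 𝔬 K ϖ * (algebraMap E K (v ^ 2 * σ₀) * T) := by
    have h1 : algebraMap E K (w - 1) = algebraMap 𝔬 K ϖ * algebraMap E K σ₀ := by
      rw [hw, map_mul, ← IsScalarTower.algebraMap_apply]
    rw [h1] at hGG
    rw [hε, map_mul, map_pow]
    linear_combination (algebraMap E K v) ^ 2 * hGG + (algebraMap E K v * G) * hmv
  have htr1 : Algebra.trace E K ε = 1 := by
    rw [hε, ← Algebra.smul_def, map_smul, hG, map_sum, Finset.sum_eq_single 0]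
    · rw [pow_zero, trace_one', pb.finrank, smul_eq_mul, mul_comm]
      exact huE
    · intro i hi hi0
      rw [Finset.mem_range] at hi
      exact kummer_trace_pow pb hgen i (Nat.pos_of_ne_zero hi0) hi
    · intro h0
      exact absurd (Finset.mem_range.mpr (by omega)) h0
  have htrϖ : ∀ x : K, Algebra.trace E K (algebraMap 𝔬 K ϖ * x) =
      algebraMap 𝔬 E ϖ * Algebra.trace E K x := by
    intro x
    rw [IsScalarTower.algebraMap_apply 𝔬 E K, ← Algebra.smul_def, map_smul, smul_eq_mul]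
  rcases hconn ε (algebraMap E K (v ^ 2 * σ₀) * T) hεS
    (SK.mul_mem (map_mem_intGauss (SE.mul_mem (SE.pow_mem hvS 2) hσ₀)) hTS) hεε with
    ⟨ρ, hρ, hρε⟩ | ⟨ρ, hρ, hρε⟩
  · apply not_one_mem (𝔬 := 𝔬) (E := E) hs hϖ
    refine ⟨Algebra.trace E K ρ, trace_mem_intGauss hs hϖ hρ, ?_⟩
    rw [← htrϖ, ← hρε, htr1]
  · have h2 : Algebra.trace E K (h * (ε - 1)) = w := by
      have h3 : h * (ε - 1) = ε + algebraMap E K (v * (w - 1)) - h := by
        rw [hε, map_mul]
        linear_combination (algebraMap E K v) * hmul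
      have h4 : Algebra.trace E K h = 0 := by
        have := kummer_trace_pow pb hgen 1 one_pos (by omega)
        rwa [pow_one] at this
      rw [h3, map_sub, map_add, htr1, h4, Algebra.trace_algebraMap, pb.finrank, nsmul_eq_mul]
      linear_combination (w - 1) * huE
    apply not_one_mem (𝔬 := 𝔬) (E := E) hs hϖ
    refine ⟨Algebra.trace E K (h * ρ) - σ₀, SE.sub_mem (trace_mem_intGauss hs hϖ
      (SK.mul_mem hgS hρ)) hσ₀, ?_⟩
    rw [hρε] at h2
    have h5 : h * (algebraMap 𝔬 K ϖ * ρ) = algebraMap 𝔬 K ϖ * (h * ρ) := by ring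
    rw [h5, htrϖ] at h2
    linear_combination -h2 - hw

end Main

end Fermat.Agent.H29
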