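import Mathlib
import Fermat.Agent.H29Emb
import Fermat.Agent.H29Kummer

/-!
# Embeddings: inversion, charts, Kummer extensions
-/

set_option autoImplicit false
set_option linter.unusedSectionVars false

namespace Fermat.Agent.H29

open Module nonZeroDivisors Polynomial IsLocalRing

section Main

variable {L₀ K₀ E : Type*} [Field L₀] [CharZero L₀]
  [Field K₀] [Algebra L₀ K₀]
  [Field E] [Algebra K₀ E] [Algebra L₀ E] [IsScalarTower L₀ K₀ E]
  [FiniteDimensional K₀ E]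
  {s : K₀}
  {Υ : Type*} [Field Υ] [Algebra L₀ Υ] {α : Υ}

/-- inversion of the coordinate -/
noncomputable def EmbAt.inv (D : EmbAt L₀ Υ E s α) (hα : α ≠ 0) : EmbAt L₀ Υ E s⁻¹ α⁻¹ where
  φ := D.φ
  hφ := D.hφ
  y := D.y⁻¹
  hy := by
    have h1 : psl D.y * psl D.y⁻¹ = 1 := by
      rw [psl, psl, ← map_mul, PowerSeries.mul_inv_cancel _ (by rw [D.y0]; exact hα), map_one]
    rw [map_inv₀, D.hy]
    exact inv_eq_of_mul_eq_one_right h1
  y0 := by rw [PowerSeries.constantCoeff_inv, D.y0]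
  y1 := by
    have h1 : D.y * D.y⁻¹ = 1 := PowerSeries.mul_inv_cancel _ (by rw [D.y0]; exact hα)
    have h2 := congrArg (PowerSeries.coeff 1) h1
    rw [PowerSeries.coeff_one_mul, PowerSeries.coeff_one, if_neg one_ne_zero,
      PowerSeries.constantCoeff_inv, D.y0] at h2
    intro h3
    rw [h3, zero_mul, add_zero] at h2
    exact mul_ne_zero D.y1 (inv_ne_zero hα) h2
  ι := D.ι
  fin := D.fin
  card := D.card
  σ := D.σ
  inj := D.inj
  ext := D.ext

theorem exists_orders_inv {w : E} {m : ℤ} (hα : α ≠ 0)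
    (h : ∃ D : EmbAt L₀ Υ E s α, ∀ i, m ∣ (D.σ i w).order) :
    ∃ D : EmbAt L₀ Υ E s⁻¹ α⁻¹, ∀ i, m ∣ (D.σ i w).order := by
  obtain ⟨D, hD⟩ := h
  exact ⟨D.inv hα, hD⟩

section Chart

variable {𝔬 : Type*} [CommRing 𝔬] [IsDomain 𝔬] [IsDiscreteValuationRing 𝔬]
  [Algebra 𝔬 L₀] [IsFractionRing 𝔬 L₀] [Algebra 𝔬 K₀] [IsScalarTower 𝔬 L₀ K₀]
  [Algebra 𝔬 E] [IsScalarTower 𝔬 K₀ E] [IsAlgClosed Υ]

theorem chart_of_emb (hs : IsRatGen L₀ s) (c : 𝔬) (hc : IsUnit c)
    (h : ∀ α : Υ, α ≠ 0 → α ≠ algebraMap L₀ Υ (algebraMap 𝔬 L₀ c) →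
      Nonempty (EmbAt L₀ Υ E s α)) : ChartUnram 𝔬 L₀ E s := by
  have hc' : residue 𝔬 c ≠ 0 := by
    intro h0
    rw [residue_eq_zero_iff] at h0
    exact (IsLocalRing.notMem_maximalIdeal.mpr hc) h0
  have hmap : (X * (X - C c) : 𝔬[X]).map (residue 𝔬) = X * (X - C (residue 𝔬 c)) := by
    rw [Polynomial.map_mul, Polynomial.map_sub, Polynomial.map_X, Polynomial.map_C]
  refine ⟨X * (X - C c), ?_, ?_, ?_⟩
  · rw [hmap]
    exact mul_ne_zero X_ne_zero (X_sub_C_ne_zero _)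
  · rw [hmap, ← isRadical_iff_span_singleton]
    apply Squarefree.isRadical
    apply Polynomial.Separable.squarefree
    apply Polynomial.Separable.mul separable_X (separable_X_sub_C)
    have h1 := isCoprime_X_sub_C_of_isUnit_sub (R := ResidueField 𝔬) (a := 0) (b := residue 𝔬 c)
      (by rw [zero_sub]; exact (neg_ne_zero.mpr hc').isUnit)
    rwa [C_0, sub_zero] at h1
  · intro g hg hnd
    have hgΥ : (g.map (algebraMap L₀ Υ)).degree ≠ 0 := by
      rw [degree_map]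
      exact hg.degree_pos.ne'
    obtain ⟨α, hα⟩ := IsAlgClosed.exists_root _ hgΥ
    have hα' : aeval α g = 0 := by
      rw [IsRoot, eval_map_algebraMap] at hα; exact hα
    have hfα : aeval α ((X * (X - C c) : 𝔬[X]).map (algebraMap 𝔬 L₀)) ≠ 0 := by
      intro h0
      apply hnd
      by_contra hnd'
      obtain ⟨u, v, huv⟩ := (hg.coprime_iff_not_dvd).mpr hnd'
      have := congrArg (aeval α) huv
      rw [map_add, map_mul, map_mul, hα', h0, mul_zero, mul_zero, add_zero, map_one] at this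
      exact zero_ne_one this
    rw [Polynomial.map_mul, Polynomial.map_sub, Polynomial.map_X, Polynomial.map_C, map_mul,
      map_sub, aeval_X, aeval_C] at hfα
    obtain ⟨D⟩ := h α (left_ne_zero_of_mul hfα) (sub_ne_zero.mp (right_ne_zero_of_mul hfα))
    exact redAt_of_emb hs g hg hα' D

theorem chart_of_emb_inv (hs : IsRatGen L₀ s) (c : 𝔬) (hc : IsUnit c)
    (h : ∀ α : Υ, α ≠ 0 → α ≠ algebraMap L₀ Υ (algebraMap 𝔬 L₀ c) →
      Nonempty (EmbAt L₀ Υ E s α)) : ChartUnram 𝔬 L₀ E s⁻¹ := by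
  obtain ⟨u, rfl⟩ := hc
  refine chart_of_emb (Υ := Υ) hs.inv ((u⁻¹ : 𝔬ˣ) : 𝔬) (u⁻¹).isUnit ?_
  intro α hα hα'
  obtain ⟨D⟩ := h α⁻¹ (inv_ne_zero hα) (by
    intro h1
    apply hα'
    have h2 : algebraMap L₀ Υ (algebraMap 𝔬 L₀ (u : 𝔬)) *
        algebraMap L₀ Υ (algebraMap 𝔬 L₀ ((u⁻¹ : 𝔬ˣ) : 𝔬)) = 1 := by
      rw [← map_mul, ← map_mul, Units.mul_inv, map_one, map_one]
    rw [← inv_inv α, h1]
    exact inv_eq_of_mul_eq_one_right h2)
  have := D.inv (inv_ne_zero hα)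
  rw [inv_inv] at this
  exact ⟨this⟩

end Chart

section Kummer

variable {K : Type*} [Field K] [Algebra E K] [Algebra K₀ K] [IsScalarTower K₀ E K]
  (pb : PowerBasis E K) {w : E}

theorem kummer_minpoly (hgen : pb.gen ^ pb.dim = algebraMap E K w) :
    minpoly E pb.gen = X ^ pb.dim - C w := by
  have hfin := pb.finite
  have h1 : minpoly E pb.gen ∣ X ^ pb.dim - C w := by
    apply minpoly.dvd
    rw [map_sub, map_pow, aeval_X, aeval_C, hgen, sub_self]
  have h2 : (minpoly E pb.gen).natDegree = (X ^ pb.dim - C w : E[X]).natDegree := by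
    rw [pb.natDegree_minpoly, natDegree_X_pow_sub_C]
  exact (eq_of_monic_of_dvd_of_natDegree_le (minpoly.monic pb.isIntegral_gen)
    (monic_X_pow_sub_C w pb.dim_pos.ne') h1 h2.ge).symm ▸ rfl

variable [IsAlgClosed Υ] [CharZero Υ]

/-- Embeddings of Kummer extensions -/
theorem kummer_emb (hgen : pb.gen ^ pb.dim = algebraMap E K w) (hw : w ≠ 0)
    (D : EmbAt L₀ Υ E s α) (hD : ∀ i, (pb.dim : ℤ) ∣ (D.σ i w).order) :
    Nonempty (EmbAt L₀ Υ K s α) := by
  classical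
  have hfin := pb.finite
  have hm : (pb.dim : Υ) ≠ 0 := Nat.cast_ne_zero.mpr pb.dim_pos.ne'
  have hne : NeZero (pb.dim) := ⟨pb.dim_pos.ne'⟩
  obtain ⟨ζ, hζ⟩ := HasEnoughRootsOfUnity.exists_primitiveRoot Υ pb.dim
  have hwσ : ∀ i, D.σ i w ≠ 0 := fun i => (_root_.map_ne_zero _).mpr hw
  choose g hg using fun i => exists_root_ls hm (D.σ i w) (hwσ i) (hD i)
  have hg0 : ∀ i, g i ≠ 0 := by
    intro i h0
    apply hwσ i
    rw [← hg i, h0, zero_pow pb.dim_pos.ne']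
  let c : Υ →+* LaurentSeries Υ := HahnSeries.C
  have hc : Function.Injective c := c.injective
  have hroot : ∀ (i : D.ι) (k : Fin pb.dim), (c (ζ ^ (k : ℕ)) * g i) ^ pb.dim = D.σ i w := by
    intro i k
    rw [mul_pow, hg, ← map_pow, ← pow_mul, mul_comm (k : ℕ), pow_mul, hζ.pow_eq_one, one_pow,
      map_one, one_mul]
  have hlift : ∀ (i : D.ι) (k : Fin pb.dim), ∃ τ : K →+* LaurentSeries Υ,
      (∀ x, τ (algebraMap E K x) = D.σ i x) ∧ τ pb.gen = c (ζ ^ (k : ℕ)) * g i := by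
    intro i k
    let _ : Algebra E (LaurentSeries Υ) := (D.σ i).toAlgebra
    have h1 : aeval (c (ζ ^ (k : ℕ)) * g i) (minpoly E pb.gen) = 0 := by
      rw [kummer_minpoly pb hgen, map_sub, map_pow, aeval_X, aeval_C, hroot]
      exact sub_self _
    refine ⟨(pb.lift _ h1 : K →ₐ[E] LaurentSeries Υ), ?_, ?_⟩
    · intro x
      exact (pb.lift _ h1).commutes x
    · exact pb.lift_gen _ h1
  choose τ hτ hτg using hlift
  have := D.fin
  refine ⟨{ φ := D.φ, hφ := D.hφ, y := D.y, hy := D.hy, y0 := D.y0, y1 := D.y1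
            ι := D.ι × Fin pb.dim, fin := inferInstance, card := ?_, σ := fun p => τ p.1 p.2
            inj := ?_, ext := ?_ }⟩
  · rw [Nat.card_prod, D.card, Nat.card_eq_fintype_card, Fintype.card_fin, ← pb.finrank,
      Module.finrank_mul_finrank]
  · rintro ⟨i, k⟩ ⟨i', k'⟩ h
    simp only at h
    have h1 : i = i' := by
      apply D.inj
      ext x : 1
      rw [← hτ i k, ← hτ i' k', h]
    subst h1
    have h2 : c (ζ ^ (k : ℕ)) * g i = c (ζ ^ (k' : ℕ)) * g i := by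
      rw [← hτg, ← hτg, h]
    have h3 := hc (mul_right_cancel₀ (hg0 i) h2)
    have h4 := hζ.pow_inj k.2 k'.2 h3
    rw [Fin.ext h4]
  · rintro ⟨i, k⟩ x
    rw [IsScalarTower.algebraMap_apply K₀ E K, hτ, D.ext]

end Kummer

end Main

end Fermat.Agent.H29
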