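import Mathlib
import Fermat.Agent.H29EmbB

/-!
# Kummer injectivity over a discrete valuation ring
-/

set_option autoImplicit false
set_option linter.unusedSectionVars false

namespace Fermat.Agent.H29

open Module nonZeroDivisors Polynomial IsLocalRing

section Main

variable {𝔬 L₀ K₀ E Υ : Type*} [CommRing 𝔬] [IsDomain 𝔬] [IsDiscreteValuationRing 𝔬]
  [Field L₀] [CharZero L₀] [Algebra 𝔬 L₀] [IsFractionRing 𝔬 L₀]
  [Field K₀] [Algebra L₀ K₀] [Algebra 𝔬 K₀] [IsScalarTower 𝔬 L₀ K₀]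
  [Field E] [Algebra K₀ E] [Algebra L₀ E] [Algebra 𝔬 E] [IsScalarTower L₀ K₀ E]
  [IsScalarTower 𝔬 K₀ E] [FiniteDimensional K₀ E]
  [Field Υ] [CharZero Υ] [IsAlgClosed Υ] [Algebra L₀ Υ]
  {s : K₀} (hs : IsRatGen L₀ s) {ϖ : 𝔬} (hϖ : Irreducible ϖ)

include hs hϖ in
/-- Connectedness of the special fibre from embeddings. -/
theorem gaussConn_of_emb (p : ℕ) (hp : ϖ ∣ (p : 𝔬)) (hp1 : 1 ≤ p) (H1S : SelfDual 𝔬 E s)
    (c : 𝔬) (hc : IsUnit c)
    (hemb : ∀ α : Υ, α ≠ 0 → α ≠ algebraMap L₀ Υ (algebraMap 𝔬 L₀ c) →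
      Nonempty (EmbAt L₀ Υ E s α))
    (ψ : E →+* LaurentSeries L₀) (hψ : ∀ c : L₀, ψ (algebraMap L₀ E c) = HahnSeries.C c) :
    GaussConn 𝔬 E s ϖ := fun ε σ hε hσ h =>
  connected hs hϖ p hp hp1 H1S (chart_of_emb hs c hc hemb) (chart_of_emb_inv hs c hc hemb) ψ hψ
    ε σ hε hσ h

include hs hϖ in
/-- **Kummer injectivity**, prime exponent. -/
theorem ki_prime (p : ℕ) (hp : ϖ ∣ (p : 𝔬)) (hp1 : 1 ≤ p) (H1S : SelfDual 𝔬 E s)
    (c : 𝔬) (hc : IsUnit c) (ψ : E →+* LaurentSeries L₀)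
    (hψ : ∀ c : L₀, ψ (algebraMap L₀ E c) = HahnSeries.C c)
    {m : ℕ} (hm : m.Prime) (hmu : IsUnit (m : 𝔬)) {w : E}
    (hemb : ∀ α : Υ, α ≠ 0 → α ≠ algebraMap L₀ Υ (algebraMap 𝔬 L₀ c) →
      ∃ D : EmbAt L₀ Υ E s α, ∀ i, (m : ℤ) ∣ (D.σ i w).order)
    {σ₀ : E} (hσ₀ : σ₀ ∈ intGauss 𝔬 E s) (hw : w - 1 = algebraMap 𝔬 E ϖ * σ₀)
    (h₀ : LaurentSeries L₀) (hh : h₀ ^ m = ψ w) : ∃ g : E, g ^ m = w := by
  classical
  by_contra hne
  push Not at hne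
  have hw0 : w ≠ 0 := (inv_mem_intGauss (E := E) hs hϖ hσ₀ hw).2
  have hirr : Irreducible (X ^ m - C w : E[X]) := X_pow_sub_C_irreducible_of_prime hm hne
  have hfact : Fact (Irreducible (X ^ m - C w : E[X])) := ⟨hirr⟩
  let K := AdjoinRoot (X ^ m - C w : E[X])
  let pb : PowerBasis E K := AdjoinRoot.powerBasis hirr.ne_zero
  have hdim : pb.dim = m := natDegree_X_pow_sub_C
  have hgen : pb.gen ^ pb.dim = algebraMap E K w := by
    rw [hdim]
    have h1 := AdjoinRoot.eval₂_root (X ^ m - C w : E[X])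
    rw [eval₂_sub, eval₂_X_pow, eval₂_C, sub_eq_zero] at h1
    exact h1
  have hfin : FiniteDimensional E K := pb.finite
  have hfin' : FiniteDimensional K₀ K := FiniteDimensional.trans K₀ E K
  -- embedding of `K` in Laurent series
  let ψK : K →+* LaurentSeries L₀ := AdjoinRoot.lift ψ h₀ (by
    rw [eval₂_sub, eval₂_X_pow, eval₂_C, hh, sub_self])
  have hψK : ∀ x : E, ψK (algebraMap E K x) = ψ x := fun x => AdjoinRoot.lift_of _
  have tow1 : IsScalarTower L₀ E K := inferInstance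
  have tow2 : IsScalarTower L₀ K₀ K := IsScalarTower.of_algebraMap_eq fun x => by
    rw [IsScalarTower.algebraMap_apply L₀ E K, IsScalarTower.algebraMap_apply L₀ K₀ E,
      ← IsScalarTower.algebraMap_apply K₀ E K]
  have tow3 : IsScalarTower 𝔬 E K := inferInstance
  have tow4 : IsScalarTower 𝔬 K₀ K := IsScalarTower.of_algebraMap_eq fun x => by
    rw [IsScalarTower.algebraMap_apply 𝔬 E K, IsScalarTower.algebraMap_apply 𝔬 K₀ E,
      ← IsScalarTower.algebraMap_apply K₀ E K]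
  have hSD : SelfDual 𝔬 K s := kummer_selfDual hs hϖ H1S pb hgen (by rw [hdim]; exact hmu) hσ₀ hw
  have hE : ∀ α : Υ, α ≠ 0 → α ≠ algebraMap L₀ Υ (algebraMap 𝔬 L₀ c) →
      Nonempty (EmbAt L₀ Υ K s α) := by
    intro α h1 h2
    obtain ⟨D, hD⟩ := hemb α h1 h2
    exact kummer_emb pb hgen hw0 D (by rw [hdim]; exact hD)
  have hconn : GaussConn 𝔬 K s ϖ := gaussConn_of_emb hs hϖ p hp hp1 hSD c hc hE ψK (by
    intro x
    rw [IsScalarTower.algebraMap_apply L₀ E K, hψK, hψ])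
  exact kummer_not_conn hs hϖ pb hgen (by rw [hdim]; exact hmu) (by rw [hdim]; exact hm.two_le)
    hσ₀ hw hconn

end Main

end Fermat.Agent.H29
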