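import Mathlib
import Fermat.Agent.H78FFTwist
import Fermat.Agent.H78FFExp
import Fermat.Agent.H23HauptL

/-!
# The Hauptmoduln `t₂`, `t₃` as functions on the upper half plane
-/

set_option autoImplicit false

noncomputable section

namespace Fermat.Agent.H50.Haupt

open UpperHalfPlane hiding I
open Complex MatrixGroups ModularGroup Fermat.Agent.H61 ModularCurve Fermat.Agent.H24
open Fermat.Agent.H28 Fermat.Agent.H23.Haupt Fermat.Agent.H78.FF
open scoped Manifold Real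

local notation "𝕢" => Function.Periodic.qParam

/-! ### generalities on expansions -/

theorem isConv_of_hasExp {f : ℍ → ℂ} {F : LaurentSeries ℂ} (h : HasExp 1 f F) : IsConv F := by
  intro r hr0 hr1
  obtain ⟨τ, hτ⟩ := exists_qParam_eq_of_norm 1 (w := (r : ℂ)) (by exact_mod_cast hr0.ne')
    (by simpa [abs_of_pos hr0] using hr1)
  have h := (h τ : HasSum _ _).summable.norm
  rw [Nat.cast_one] at hτ
  rw [hτ] at h
  simpa [norm_mul, norm_zpow, abs_of_pos hr0] using h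

theorem evalAt_of_hasExp {f : ℍ → ℂ} {F : LaurentSeries ℂ} (h : HasExp 1 f F) (τ : ℍ) :
    evalAt (𝕢 (1 : ℝ) τ) F = f τ := (h τ : HasSum _ _).tsum_eq

theorem hasExp_scale {f : ℍ → ℂ} {F : LaurentSeries ℂ} (h : HasExp 1 f F) (N : ℕ) [NeZero N] :
    HasExp 1 (fun τ => f (scale N τ)) (qExpand ℂ N F) := by
  intro τ
  have h1 : HasSum (fun n : ℤ => F.coeff n * (𝕢 (1 : ℝ) τ ^ N) ^ n) (f (scale N τ)) := by
    have h2 := (h (scale N τ) : HasSum _ _)
    have h3 : 𝕢 (1 : ℝ) (scale N τ : ℍ) = 𝕢 (1 : ℝ) τ ^ N := by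
      simp only [Function.Periodic.qParam, coe_scale]
      rw [← Complex.exp_nat_mul]
      congr 1
      push_cast
      ring
    rwa [h3] at h2
  exact (hasSum_qExpand_iff N).mpr h1

/-! ### the functions -/

/-- the Euler product -/
def P (τ : ℍ) : ℂ := ∏' n : ℕ, (1 - (𝕢 1 τ) ^ (n + 1))

theorem hasExp_P : HasExp 1 P (toL ℂ etaProd) := hasExp_eta_tprod

theorem P_pow : ∀ τ : ℍ, 𝕢 1 τ * P τ ^ 24 = ModularForm.discriminant τ := fun τ =>
  congrFun qParam_mul_tprod_eq_discriminant τ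

theorem P_ne_zero (τ : ℍ) : P τ ≠ 0 := by
  intro h
  have := P_pow τ
  rw [h] at this
  exact ModularForm.discriminant_ne_zero τ (by rw [← this]; simp)

theorem mdiff_P : MDiff P := by
  have h1 : MDiff (fun τ : ℍ => 𝕢 (1 : ℝ) τ) := by
    have := mdiff_qParam 1
    simpa using this
  rw [UpperHalfPlane.mdifferentiable_iff] at h1 ⊢
  have h2 : DifferentiableOn ℂ (fun q : ℂ => ∏' n : ℕ, (1 - q ^ (n + 1))) (Metric.ball 0 1) :=
    ModularForm.differentiableOn_tprod_one_sub_pow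
  refine (h2.comp h1 ?_)
  intro z hz
  simp only [Metric.mem_ball, dist_zero_right]
  exact norm_qParam_one _

/-- `∏ (1 - q^n)⁻¹²` -/
theorem hasExp_P_inv : HasExp 1 (fun τ => (P τ)⁻¹ ^ 12) (toL ℂ eta12Inv) := by
  obtain ⟨a, ha⟩ := exists_hasExp_inv_eta_tprod
  have h1 : HasExp 1 (fun τ => (P τ)⁻¹) a := ha
  have h2 := (hasExp_P.pow 12).mul (h1.pow 12)
  have h3 : P ^ 12 * (fun τ => (P τ)⁻¹) ^ 12 = 1 := by
    funext τ
    simp only [Pi.mul_apply, Pi.pow_apply, Pi.one_apply]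
    rw [← mul_pow, mul_inv_cancel₀ (P_ne_zero τ), one_pow]
  rw [h3] at h2
  have h4 := HasExp.unique one_pos h2 HasExp.one
  have h5 : toL ℂ etaProd ^ 12 * toL ℂ eta12Inv = 1 := by
    have := congrArg (toL ℂ) etaProd_mul_eta12Inv
    simpa only [toL, map_mul, map_pow, map_one] using this
  have h6 : a ^ 12 = toL ℂ eta12Inv := by
    calc a ^ 12 = (toL ℂ etaProd ^ 12 * toL ℂ eta12Inv) * a ^ 12 := by rw [h5, one_mul]
      _ = toL ℂ eta12Inv * (toL ℂ etaProd ^ 12 * a ^ 12) := by ring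
      _ = toL ℂ eta12Inv := by rw [h4, mul_one]
  have h7 := h1.pow 12
  rw [h6] at h7
  exact h7

/-- `t₂ = Δ(τ) / Δ(2τ)` -/
def t2f (τ : ℍ) : ℂ := ModularForm.discriminant τ * (ModularForm.discriminant (scale 2 τ))⁻¹

/-- `t₃ = (η(τ) / η(3τ))^12` -/
def t3f (τ : ℍ) : ℂ := (𝕢 (1 : ℝ) τ)⁻¹ * P τ ^ 12 * (P (scale 3 τ))⁻¹ ^ 12

theorem hasExp_t2 : HasExp 1 t2f (t2 ℂ) :=
  hasExp_discriminant.mul (hasExp_scale hasExp_discriminant_inv 2)

theorem hasExp_t3 : HasExp 1 t3f (t3 ℂ) := by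
  have h := (hasExp_qParam_inv.mul (hasExp_P.pow 12)).mul (hasExp_scale hasExp_P_inv 3)
  have h2 : toL ℂ (etaProd ^ 12) = toL ℂ etaProd ^ 12 := by
    simp only [toL, map_pow]
  rw [t3, h2]
  exact h

theorem t2f_ne_zero (τ : ℍ) : t2f τ ≠ 0 :=
  mul_ne_zero (ModularForm.discriminant_ne_zero τ)
    (inv_ne_zero (ModularForm.discriminant_ne_zero _))

theorem t3f_ne_zero (τ : ℍ) : t3f τ ≠ 0 := by
  refine mul_ne_zero (mul_ne_zero (inv_ne_zero (Function.Periodic.qParam_ne_zero _))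
    (pow_ne_zero _ (P_ne_zero _))) (pow_ne_zero _ (inv_ne_zero (P_ne_zero _)))

theorem mdiff_inv {f : ℍ → ℂ} (hf : MDiff f) (h0 : ∀ τ, f τ ≠ 0) : MDiff (fun τ => (f τ)⁻¹) := by
  rw [UpperHalfPlane.mdifferentiable_iff] at hf ⊢
  exact hf.inv fun z _ => h0 _

theorem mdiff_disc : MDiff ModularForm.discriminant :=
  ModularFormClass.holo CuspForm.discriminant

theorem mdiff_t2f : MDiff t2f :=
  mdiff_disc.mul (mdiff_inv (mdiff_scale 2 mdiff_disc) fun _ => ModularForm.discriminant_ne_zero _)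

theorem mdiff_t3f : MDiff t3f := by
  have h1 : MDiff (fun τ : ℍ => 𝕢 (1 : ℝ) τ) := by
    have := mdiff_qParam 1
    simpa using this
  exact ((mdiff_inv h1 fun _ => Function.Periodic.qParam_ne_zero _).mul (mdiff_P.pow 12)).mul
    ((mdiff_inv (mdiff_scale 3 mdiff_P) fun _ => P_ne_zero _).pow 12)

/-! ### identities -/

theorem hasExp_jInv : HasExp 1 jInv (jqModC ℂ) := hasSum_jqModC

theorem hasExp_ofNat (n : ℕ) [n.AtLeastTwo] :
    HasExp 1 (fun _ => (OfNat.ofNat n : ℂ)) (OfNat.ofNat n : LaurentSeries ℂ) := by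
  have := HasExp.const (h := 1) (OfNat.ofNat n : ℂ)
  rwa [map_ofNat] at this

theorem t2f_E1 (τ : ℍ) : (t2f τ + 256) ^ 3 = jInv τ * t2f τ ^ 2 := by
  have h1 := (hasExp_t2.add (hasExp_ofNat 256)).pow 3
  have h2 := hasExp_jInv.mul (hasExp_t2.pow 2)
  rw [t2_E1] at h1
  exact congrFun (h1.fun_eq h2) τ

theorem t2f_E2 (τ : ℍ) : (t2f τ + 16) ^ 3 = jInv (scale 2 τ) * t2f τ := by
  have h1 := (hasExp_t2.add (hasExp_ofNat 16)).pow 3
  have h2 := (hasExp_scale hasExp_jInv 2).mul hasExp_t2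
  rw [t2_E2] at h1
  exact congrFun (h1.fun_eq h2) τ

theorem t3f_E3 (τ : ℍ) : (t3f τ + 27) * (t3f τ + 243) ^ 3 = jInv τ * t3f τ ^ 3 := by
  have h1 := (hasExp_t3.add (hasExp_ofNat 27)).mul ((hasExp_t3.add (hasExp_ofNat 243)).pow 3)
  have h2 := hasExp_jInv.mul (hasExp_t3.pow 3)
  rw [t3_E3] at h1
  exact congrFun (h1.fun_eq h2) τ

theorem t3f_E4 (τ : ℍ) : (t3f τ + 27) * (t3f τ + 3) ^ 3 = jInv (scale 3 τ) * t3f τ := by
  have h1 := (hasExp_t3.add (hasExp_ofNat 27)).mul ((hasExp_t3.add (hasExp_ofNat 3)).pow 3)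
  have h2 := (hasExp_scale hasExp_jInv 3).mul hasExp_t3
  rw [t3_E4] at h1
  exact congrFun (h1.fun_eq h2) τ

/-! ### invariance -/

theorem disc_scale_smul (d : ℕ) [NeZero d] {γ : SL(2, ℤ)} (hγ : γ ∈ CongruenceSubgroup.Gamma0 d)
    (τ : ℍ) : ModularForm.discriminant (scale d (γ • τ)) =
      denom γ τ ^ 12 * ModularForm.discriminant (scale d τ) := by
  rw [CongruenceSubgroup.Gamma0_mem, ZMod.intCast_zmod_eq_zero_iff_dvd] at hγ
  obtain ⟨c', hc'⟩ := hγ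
  have hdet := SL_det_eq γ
  have hMdet : (!![γ 0 0, (d : ℤ) * γ 0 1; c', γ 1 1]).det = 1 := by
    rw [Matrix.det_fin_two_of]
    rw [hc'] at hdet
    linear_combination hdet
  set M : SL(2, ℤ) := ⟨!![γ 0 0, (d : ℤ) * γ 0 1; c', γ 1 1], hMdet⟩ with hM
  have hM00 : M 0 0 = γ 0 0 := rfl
  have hM01 : M 0 1 = (d : ℤ) * γ 0 1 := rfl
  have hM10 : M 1 0 = c' := rfl
  have hM11 : M 1 1 = γ 1 1 := rfl
  have hcC : ((γ 1 0 : ℤ) : ℂ) = d * c' := by exact_mod_cast hc'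
  have h1 : scale d (γ • τ) = M • scale d τ := by
    apply UpperHalfPlane.ext
    rw [coe_scale, coe_SL_smul, coe_SL_smul, coe_scale]
    rw [hM00, hM01, hM10, hM11]
    have h1 := SL_denom_ne_zero γ τ
    rw [hcC] at h1 ⊢
    push_cast
    rw [mul_div_assoc']
    congr 1
    · ring
    · ring
  have h2 : denom M (scale d τ) = denom γ τ := by
    rw [ModularGroup.denom_apply, ModularGroup.denom_apply, hM10, hM11, coe_scale, hcC]
    ring
  rw [h1, disc_smul, h2]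

theorem t2f_smul {γ : SL(2, ℤ)} (hγ : γ ∈ CongruenceSubgroup.Gamma0 2) (τ : ℍ) :
    t2f (γ • τ) = t2f τ := by
  have h0 : denom γ τ ≠ 0 := denom_ne_zero _ _
  have h1 := ModularForm.discriminant_ne_zero (scale 2 τ)
  rw [t2f, t2f, disc_scale_smul 2 hγ, disc_smul, mul_inv]
  field_simp

theorem t3f_sq (τ : ℍ) : t3f τ ^ 2 = ModularForm.discriminant τ *
    (ModularForm.discriminant (scale 3 τ))⁻¹ := by
  have h1 : HasExp 1 (fun τ => ModularForm.discriminant τ *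
    (ModularForm.discriminant (scale 3 τ))⁻¹) (deltaL ℂ * qExpand ℂ 3 (deltaInvL ℂ)) :=
    hasExp_discriminant.mul (hasExp_scale hasExp_discriminant_inv 3)
  have h2 := hasExp_t3.pow 2
  rw [t3_sq] at h2
  exact congrFun (h2.fun_eq h1) τ

theorem t3f_smul_sq {γ : SL(2, ℤ)} (hγ : γ ∈ CongruenceSubgroup.Gamma0 3) (τ : ℍ) :
    t3f (γ • τ) ^ 2 = t3f τ ^ 2 := by
  have h0 : denom γ τ ≠ 0 := denom_ne_zero _ _
  have h1 := ModularForm.discriminant_ne_zero (scale 3 τ)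
  rw [t3f_sq, t3f_sq, disc_scale_smul 3 hγ, disc_smul, mul_inv]
  field_simp

theorem t3f_smul {γ : SL(2, ℤ)} (hγ : γ ∈ CongruenceSubgroup.Gamma0 3) (τ : ℍ) :
    t3f (γ • τ) = t3f τ := by
  rcases sq_eq_sq_iff_eq_or_eq_neg.mp (t3f_smul_sq hγ τ) with h | h
  · exact h
  · -- `E3` and `E4` at `γ τ` and `τ`
    exfalso
    have e1 := t3f_E3 τ
    have e2 := t3f_E3 (γ • τ)
    have e3 := t3f_E4 τ
    have e4 := t3f_E4 (γ • τ)
    rw [jInv_smul, h] at e2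
    rw [jInv_scale_eq_of_mem_Gamma0 3 3 dvd_rfl hγ, h] at e4
    have hne := t3f_ne_zero τ
    -- even parts of the two quartics
    have f1 : t3f τ ^ 4 + 3 * 27 * 243 * t3f τ ^ 2 + 3 * 243 ^ 2 * t3f τ ^ 2 +
      27 * 243 ^ 3 = 0 := by linear_combination (1/2) * e1 + (1/2) * e2
    have f2 : t3f τ ^ 4 + 3 * 27 * 3 * t3f τ ^ 2 + 3 * 3 ^ 2 * t3f τ ^ 2 + 27 * 3 ^ 3 = 0 := by
      linear_combination (1/2) * e3 + (1/2) * e4
    have f3 : t3f τ ^ 2 = -1971 := by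
      linear_combination (1/196560) * f1 - (1/196560) * f2
    have f4 : (3353400 : ℂ) = 0 := by
      linear_combination f2 - (t3f τ ^ 2 - 1971 + 270) * f3
    norm_num at f4

/-! ### separation -/

theorem mem_Gamma0_of_t2f {γ : SL(2, ℤ)} (h : ∀ τ, t2f (γ • τ) = t2f τ) :
    γ ∈ CongruenceSubgroup.Gamma0 2 := by
  refine mem_Gamma0_of_jInv_scale_eq isConv_jqModC order_jqModC evalAt_jqModC 2 γ fun τ => ?_
  have h1 := t2f_E2 τ
  have h2 := t2f_E2 (γ • τ)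
  rw [h, h1] at h2
  exact (mul_right_cancel₀ (t2f_ne_zero τ) h2).symm

theorem mem_Gamma0_of_t3f {γ : SL(2, ℤ)} (h : ∀ τ, t3f (γ • τ) = t3f τ) :
    γ ∈ CongruenceSubgroup.Gamma0 3 := by
  refine mem_Gamma0_of_jInv_scale_eq isConv_jqModC order_jqModC evalAt_jqModC 3 γ fun τ => ?_
  have h1 := t3f_E4 τ
  have h2 := t3f_E4 (γ • τ)
  rw [h, h1] at h2
  exact (mul_right_cancel₀ (t3f_ne_zero τ) h2).symm

end Fermat.Agent.H50.Haupt
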