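import Mathlib
import Fermat.Agent.H50HauptA

/-!
# The Hauptmoduln `t₂`, `t₃` and their inverses are good series
-/

set_option autoImplicit false

noncomputable section

namespace Fermat.Agent.H50.Haupt

open UpperHalfPlane hiding I
open Complex MatrixGroups ModularGroup Fermat.Agent.H61 ModularCurve Fermat.Agent.H24
open Fermat.Agent.H28 Fermat.Agent.H23.Haupt Fermat.Agent.H78.FF
open scoped Manifold Real

local notation "𝕢" => Function.Periodic.qParam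

/-! ### bounds for roots -/

theorem norm_le3 {t a b c : ℂ} (h : t ^ 3 = a * t ^ 2 + b * t + c) :
    ‖t‖ ≤ 1 + ‖a‖ + ‖b‖ + ‖c‖ := by
  rcases le_or_gt ‖t‖ 1 with h1 | h1
  · have := norm_nonneg a
    have := norm_nonneg b
    have := norm_nonneg c
    linarith
  · have h2 : ‖t‖ ^ 3 ≤ (‖a‖ + ‖b‖ + ‖c‖) * ‖t‖ ^ 2 := by
      rw [← norm_pow, h]
      refine (norm_add₃_le).trans ?_
      rw [norm_mul, norm_mul, norm_pow]
      have h3 : ‖t‖ ≤ ‖t‖ ^ 2 := by nlinarith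
      have h4 : 1 ≤ ‖t‖ ^ 2 := by nlinarith
      have h5 : ‖b‖ * ‖t‖ ≤ ‖b‖ * ‖t‖ ^ 2 := mul_le_mul_of_nonneg_left h3 (norm_nonneg _)
      have h6 : ‖c‖ ≤ ‖c‖ * ‖t‖ ^ 2 := le_mul_of_one_le_right (norm_nonneg _) h4
      nlinarith
    have h3 : ‖t‖ ≤ ‖a‖ + ‖b‖ + ‖c‖ := by
      have h4 : 0 < ‖t‖ ^ 2 := by positivity
      refine le_of_mul_le_mul_right ?_ h4
      calc ‖t‖ * ‖t‖ ^ 2 = ‖t‖ ^ 3 := by ring
        _ ≤ _ := h2
    linarith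

theorem norm_le4 {t a b c d : ℂ} (h : t ^ 4 = a * t ^ 3 + b * t ^ 2 + c * t + d) :
    ‖t‖ ≤ 1 + ‖a‖ + ‖b‖ + ‖c‖ + ‖d‖ := by
  rcases le_or_gt ‖t‖ 1 with h1 | h1
  · have := norm_nonneg a
    have := norm_nonneg b
    have := norm_nonneg c
    have := norm_nonneg d
    linarith
  · have h2 : ‖t‖ ^ 4 ≤ (‖a‖ + ‖b‖ + ‖c‖ + ‖d‖) * ‖t‖ ^ 3 := by
      rw [← norm_pow, h]
      refine (norm_add₄_le).trans ?_
      rw [norm_mul, norm_mul, norm_mul, norm_pow, norm_pow]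
      have h3 : ‖t‖ ^ 2 ≤ ‖t‖ ^ 3 := pow_le_pow_right₀ h1.le (by norm_num)
      have h4 : ‖t‖ ≤ ‖t‖ ^ 3 := le_self_pow₀ h1.le (by norm_num)
      have h5 : 1 ≤ ‖t‖ ^ 3 := one_le_pow₀ h1.le
      have h6 : ‖b‖ * ‖t‖ ^ 2 ≤ ‖b‖ * ‖t‖ ^ 3 := mul_le_mul_of_nonneg_left h3 (norm_nonneg _)
      have h7 : ‖c‖ * ‖t‖ ≤ ‖c‖ * ‖t‖ ^ 3 := mul_le_mul_of_nonneg_left h4 (norm_nonneg _)
      have h8 : ‖d‖ ≤ ‖d‖ * ‖t‖ ^ 3 := le_mul_of_one_le_right (norm_nonneg _) h5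
      nlinarith
    have h3 : ‖t‖ ≤ ‖a‖ + ‖b‖ + ‖c‖ + ‖d‖ := by
      have h4 : 0 < ‖t‖ ^ 3 := by positivity
      refine le_of_mul_le_mul_right ?_ h4
      calc ‖t‖ * ‖t‖ ^ 3 = ‖t‖ ^ 4 := by ring
        _ ≤ _ := h2
    linarith

/-- A function dominated by `j` has expansions at the cusps. -/
theorem mem_expAlg_of_le {f : ℍ → ℂ} (hf : MDiff f) (M : ℕ) [NeZero M] (C : ℝ)
    (hb : ∀ τ, ‖f τ‖ ≤ C + ‖jInv τ‖)
    (hinv : ∀ (γ : SL(2, ℤ)) (τ : ℍ), f (γ • T ^ M • τ) = f (γ • τ)) (γ : SL(2, ℤ)) :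
    compHom γ f ∈ ExpAlg (chart_qParam M) := by
  have hq : HasExpC (fun τ : ℍ => 𝕢 (M : ℝ) τ) jInv (qExpand ℂ M (jqModC ℂ)) :=
    ⟨isConv_qExpand M isConv_jqModC, fun τ _ => evalAt_qExpand_J isConv_jqModC evalAt_jqModC M τ⟩
  obtain ⟨N, hN⟩ := bdd_of_hasExpC M hq
  refine expAlg_of_bdd M (compHom_mem_Hol γ hf) (fun τ => hinv γ τ) N ?_
  rw [UpperHalfPlane.isBoundedAtImInfty_iff] at hN ⊢
  obtain ⟨B, A, hB⟩ := hN
  refine ⟨max C 0 + B, A, fun τ hτ => ?_⟩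
  have h1 := hb (γ • τ)
  rw [jInv_smul] at h1
  have h2 : ‖𝕢 (M : ℝ) (τ : ℂ)‖ ^ N ≤ 1 := pow_le_one₀ (norm_nonneg _) (qParam_norm_lt_one M τ).le
  have h3 := hB τ hτ
  rw [norm_mul, norm_pow] at h3 ⊢
  have h4 : ‖𝕢 (M : ℝ) (τ : ℂ)‖ ^ N * ‖compHom γ f τ‖ ≤
      ‖𝕢 (M : ℝ) (τ : ℂ)‖ ^ N * (C + ‖jInv τ‖) :=
    mul_le_mul_of_nonneg_left h1 (by positivity)
  have h5 : ‖𝕢 (M : ℝ) (τ : ℂ)‖ ^ N * C ≤ max C 0 := by
    calc ‖𝕢 (M : ℝ) (τ : ℂ)‖ ^ N * C ≤ ‖𝕢 (M : ℝ) (τ : ℂ)‖ ^ N * max C 0 :=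
          mul_le_mul_of_nonneg_left (le_max_left _ _) (by positivity)
      _ ≤ 1 * max C 0 := mul_le_mul_of_nonneg_right h2 (le_max_right _ _)
      _ = max C 0 := one_mul _
  linarith [mul_add (‖𝕢 (M : ℝ) (τ : ℂ)‖ ^ N) C ‖jInv τ‖]

theorem norm_t2f_le (τ : ℍ) : ‖t2f τ‖ ≤ 17000000 + ‖jInv τ‖ := by
  have h := t2f_E1 τ
  have h1 : t2f τ ^ 3 = (jInv τ - 768) * t2f τ ^ 2 + (-196608) * t2f τ + (-16777216) := by
    linear_combination h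
  have h2 := norm_le3 h1
  have h3 : ‖jInv τ - 768‖ ≤ ‖jInv τ‖ + 768 := by
    refine (norm_sub_le _ _).trans ?_
    rw [RCLike.norm_ofNat]
  rw [norm_neg, norm_neg, RCLike.norm_ofNat, RCLike.norm_ofNat] at h2
  linarith

theorem norm_t2f_inv_le (τ : ℍ) : ‖(t2f τ)⁻¹‖ ≤ 17000000 + ‖jInv τ‖ := by
  have h := t2f_E1 τ
  have h0 := t2f_ne_zero τ
  have h1 : (t2f τ)⁻¹ ^ 3 = (-(3 / 256)) * (t2f τ)⁻¹ ^ 2 +
      (jInv τ / 16777216 - 3 / 65536) * (t2f τ)⁻¹ + (-(1 / 16777216)) := by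
    field_simp
    linear_combination 16777216 * h
  have h2 := norm_le3 h1
  have h3 : ‖jInv τ / 16777216 - 3 / 65536‖ ≤ ‖jInv τ‖ + 1 := by
    refine (norm_sub_le _ _).trans ?_
    rw [norm_div, norm_div, RCLike.norm_ofNat, RCLike.norm_ofNat, RCLike.norm_ofNat]
    have := norm_nonneg (jInv τ)
    have : ‖jInv τ‖ / 16777216 ≤ ‖jInv τ‖ := by linarith
    linarith
  rw [norm_neg, norm_neg, norm_div, norm_div, RCLike.norm_ofNat, RCLike.norm_ofNat, norm_one,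
    RCLike.norm_ofNat] at h2
  linarith

theorem norm_t3f_le (τ : ℍ) : ‖t3f τ‖ ≤ 500000000 + ‖jInv τ‖ := by
  have h := t3f_E3 τ
  have h1 : t3f τ ^ 4 = (jInv τ - 756) * t3f τ ^ 3 + (-196830) * t3f τ ^ 2 +
      (-19131876) * t3f τ + (-387420489) := by
    linear_combination h
  have h2 := norm_le4 h1
  have h3 : ‖jInv τ - 756‖ ≤ ‖jInv τ‖ + 756 := by
    refine (norm_sub_le _ _).trans ?_
    rw [RCLike.norm_ofNat]
  have h4 : ‖(-196830 : ℂ)‖ = 196830 := by rw [norm_neg, RCLike.norm_ofNat]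
  have h5 : ‖(-19131876 : ℂ)‖ = 19131876 := by rw [norm_neg, RCLike.norm_ofNat]
  have h6 : ‖(-387420489 : ℂ)‖ = 387420489 := by rw [norm_neg, RCLike.norm_ofNat]
  rw [h4, h5, h6] at h2
  linarith

theorem norm_t3f_inv_le (τ : ℍ) : ‖(t3f τ)⁻¹‖ ≤ 500000000 + ‖jInv τ‖ := by
  have h := t3f_E3 τ
  have h0 := t3f_ne_zero τ
  have h1 : (t3f τ)⁻¹ ^ 4 = (-(19131876 / 387420489)) * (t3f τ)⁻¹ ^ 3 +
      (-(196830 / 387420489)) * (t3f τ)⁻¹ ^ 2 +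
      (jInv τ / 387420489 - 756 / 387420489) * (t3f τ)⁻¹ + (-(1 / 387420489)) := by
    field_simp
    linear_combination h
  have h2 := norm_le4 h1
  have h3 : ‖jInv τ / 387420489 - 756 / 387420489‖ ≤ ‖jInv τ‖ + 1 := by
    refine (norm_sub_le _ _).trans ?_
    rw [norm_div, norm_div, RCLike.norm_ofNat, RCLike.norm_ofNat]
    have := norm_nonneg (jInv τ)
    have : ‖jInv τ‖ / 387420489 ≤ ‖jInv τ‖ := by linarith
    linarith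
  have h4 : ‖(-(19131876 / 387420489) : ℂ)‖ = 19131876 / 387420489 := by
    rw [norm_neg, norm_div, RCLike.norm_ofNat, RCLike.norm_ofNat]
  have h5 : ‖(-(196830 / 387420489) : ℂ)‖ = 196830 / 387420489 := by
    rw [norm_neg, norm_div, RCLike.norm_ofNat, RCLike.norm_ofNat]
  have h6 : ‖(-(1 / 387420489) : ℂ)‖ = 1 / 387420489 := by
    rw [norm_neg, norm_div, norm_one, RCLike.norm_ofNat]
  rw [h4, h5, h6] at h2
  linarith

/-! ### invariance under conjugates of `T ^ M` -/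

theorem conj_T_pow_mem (r M : ℕ) (h : r ∣ M) (γ : SL(2, ℤ)) :
    γ * T ^ M * γ⁻¹ ∈ CongruenceSubgroup.Gamma0 r := by
  rw [CongruenceSubgroup.Gamma0_mem, ZMod.intCast_zmod_eq_zero_iff_dvd]
  obtain ⟨m, rfl⟩ := h
  have h1 : ((T ^ (r * m) : SL(2, ℤ)) : Matrix (Fin 2) (Fin 2) ℤ) = !![1, ((r * m : ℕ) : ℤ); 0, 1] := by
    rw [← zpow_natCast, ModularGroup.coe_T_zpow]
  have h2 : (γ * T ^ (r * m) * γ⁻¹) 1 0 = -(γ 1 0) ^ 2 * ((r * m : ℕ) : ℤ) := by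
    have h3 : ((γ * T ^ (r * m) * γ⁻¹ : SL(2, ℤ)) : Matrix (Fin 2) (Fin 2) ℤ) =
        (γ : Matrix (Fin 2) (Fin 2) ℤ) * !![1, ((r * m : ℕ) : ℤ); 0, 1] *
          (γ : Matrix (Fin 2) (Fin 2) ℤ).adjugate := by
      rw [Matrix.SpecialLinearGroup.coe_mul, Matrix.SpecialLinearGroup.coe_mul, h1,
        Matrix.SpecialLinearGroup.coe_inv]
    have h5 : (γ * T ^ (r * m) * γ⁻¹) 1 0 = ((γ * T ^ (r * m) * γ⁻¹ : SL(2, ℤ)) :
        Matrix (Fin 2) (Fin 2) ℤ) 1 0 := rfl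
    rw [h5, h3, Matrix.adjugate_fin_two]
    simp [Matrix.mul_apply, Fin.sum_univ_two]
    ring
  rw [h2]
  exact ⟨-(γ 1 0) ^ 2 * m, by push_cast; ring⟩

theorem inv_conj_T {r M : ℕ} (h : r ∣ M) {f : ℍ → ℂ}
    (hf : ∀ γ ∈ CongruenceSubgroup.Gamma0 r, ∀ τ, f (γ • τ) = f τ) (γ : SL(2, ℤ)) (τ : ℍ) :
    f (γ • T ^ M • τ) = f (γ • τ) := by
  have h1 := hf _ (conj_T_pow_mem r M h γ) (γ • τ)
  rw [← h1, ← mul_smul, ← mul_smul]
  congr 2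
  group

/-! ### good series -/

theorem hasExp_inv {f : ℍ → ℂ} {F G : LaurentSeries ℂ} (h0 : ∀ τ, f τ ≠ 0) (hF : HasExp 1 f F)
    (hG : HasExp 1 (fun τ => (f τ)⁻¹) G) : G = F⁻¹ := by
  have h1 := hF.mul hG
  have h2 : f * (fun τ => (f τ)⁻¹) = 1 := by
    funext τ
    exact mul_inv_cancel₀ (h0 τ)
  rw [h2] at h1
  exact (eq_inv_of_mul_eq_one_right (HasExp.unique one_pos h1 HasExp.one))

theorem hasExp_t2_inv : HasExp 1 (fun τ => (t2f τ)⁻¹) (t2 ℂ)⁻¹ := by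
  have h1 := hasExp_discriminant_inv.mul (hasExp_scale hasExp_discriminant 2)
  have h2 : (fun τ => (ModularForm.discriminant τ)⁻¹) *
      (fun τ => ModularForm.discriminant (scale 2 τ)) = fun τ => (t2f τ)⁻¹ := by
    funext τ
    simp only [Pi.mul_apply, t2f, mul_inv, inv_inv]
  rw [h2] at h1
  rwa [hasExp_inv t2f_ne_zero hasExp_t2 h1] at h1

theorem hasExp_t3_inv : HasExp 1 (fun τ => (t3f τ)⁻¹) (t3 ℂ)⁻¹ := by
  have h1 := (hasExp_qParam.mul hasExp_P_inv).mul ((hasExp_scale hasExp_P 3).pow 12)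
  have h2 : ((fun τ : ℍ => 𝕢 (1 : ℝ) (τ : ℂ)) * (fun τ => (P τ)⁻¹ ^ 12)) *
      (fun τ => P (scale 3 τ)) ^ 12 = fun τ => (t3f τ)⁻¹ := by
    funext τ
    simp only [Pi.mul_apply, Pi.pow_apply, t3f, mul_inv, inv_inv, inv_pow]
  rw [h2] at h1
  rwa [hasExp_inv t3f_ne_zero hasExp_t3 h1] at h1

section Good

variable (K : Type*) [Field K] [Algebra K ℂ]

theorem incl_t2 : incl K (t2 K) = t2 ℂ := coeffMap_t2 _
theorem incl_t3 : incl K (t3 K) = t3 ℂ := coeffMap_t3 _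
theorem incl_t2_inv : incl K (t2 K)⁻¹ = (t2 ℂ)⁻¹ := by rw [map_inv₀, incl_t2]
theorem incl_t3_inv : incl K (t3 K)⁻¹ = (t3 ℂ)⁻¹ := by rw [map_inv₀, incl_t3]

theorem ev_t2 : ev K (t2 K) = t2f := by
  funext τ
  rw [ev, incl_t2]
  exact evalAt_of_hasExp hasExp_t2 τ

theorem ev_t3 : ev K (t3 K) = t3f := by
  funext τ
  rw [ev, incl_t3]
  exact evalAt_of_hasExp hasExp_t3 τ

theorem ev_t2_inv : ev K (t2 K)⁻¹ = fun τ => (t2f τ)⁻¹ := by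
  funext τ
  rw [ev, incl_t2_inv]
  exact evalAt_of_hasExp hasExp_t2_inv τ

theorem ev_t3_inv : ev K (t3 K)⁻¹ = fun τ => (t3f τ)⁻¹ := by
  funext τ
  rw [ev, incl_t3_inv]
  exact evalAt_of_hasExp hasExp_t3_inv τ

variable {Γ : Subgroup SL(2, ℤ)} {M : ℕ} [NeZero M]

theorem good_t2 (hΓ : Γ ≤ CongruenceSubgroup.Gamma0 2) (hM : 2 ∣ M) : Good K Γ M (t2 K) where
  conv := by rw [incl_t2]; exact isConv_of_hasExp hasExp_t2
  hol := by rw [ev_t2]; exact mdiff_t2f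
  exp γ := by
    rw [ev_t2]
    exact mem_expAlg_of_le mdiff_t2f M _ norm_t2f_le
      (inv_conj_T hM fun γ hγ τ => t2f_smul hγ τ) γ
  inv γ hγ := by
    rw [ev_t2]
    exact funext fun τ => t2f_smul (hΓ hγ) τ

theorem good_t2_inv (hΓ : Γ ≤ CongruenceSubgroup.Gamma0 2) (hM : 2 ∣ M) :
    Good K Γ M (t2 K)⁻¹ where
  conv := by rw [incl_t2_inv]; exact isConv_of_hasExp hasExp_t2_inv
  hol := by rw [ev_t2_inv]; exact mdiff_inv mdiff_t2f t2f_ne_zero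
  exp γ := by
    rw [ev_t2_inv]
    exact mem_expAlg_of_le (mdiff_inv mdiff_t2f t2f_ne_zero) M _ norm_t2f_inv_le
      (inv_conj_T (f := fun τ => (t2f τ)⁻¹) hM
        fun γ hγ τ => congrArg (fun z : ℂ => z⁻¹) (t2f_smul hγ τ)) γ
  inv γ hγ := by
    rw [ev_t2_inv]
    refine funext fun τ => ?_
    show (t2f (γ • τ))⁻¹ = _
    rw [t2f_smul (hΓ hγ) τ]

theorem good_t3 (hΓ : Γ ≤ CongruenceSubgroup.Gamma0 3) (hM : 3 ∣ M) : Good K Γ M (t3 K) where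
  conv := by rw [incl_t3]; exact isConv_of_hasExp hasExp_t3
  hol := by rw [ev_t3]; exact mdiff_t3f
  exp γ := by
    rw [ev_t3]
    exact mem_expAlg_of_le mdiff_t3f M _ norm_t3f_le
      (inv_conj_T hM fun γ hγ τ => t3f_smul hγ τ) γ
  inv γ hγ := by
    rw [ev_t3]
    exact funext fun τ => t3f_smul (hΓ hγ) τ

theorem good_t3_inv (hΓ : Γ ≤ CongruenceSubgroup.Gamma0 3) (hM : 3 ∣ M) :
    Good K Γ M (t3 K)⁻¹ where
  conv := by rw [incl_t3_inv]; exact isConv_of_hasExp hasExp_t3_inv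
  hol := by rw [ev_t3_inv]; exact mdiff_inv mdiff_t3f t3f_ne_zero
  exp γ := by
    rw [ev_t3_inv]
    exact mem_expAlg_of_le (mdiff_inv mdiff_t3f t3f_ne_zero) M _ norm_t3f_inv_le
      (inv_conj_T (f := fun τ => (t3f τ)⁻¹) hM
        fun γ hγ τ => congrArg (fun z : ℂ => z⁻¹) (t3f_smul hγ τ)) γ
  inv γ hγ := by
    rw [ev_t3_inv]
    refine funext fun τ => ?_
    show (t3f (γ • τ))⁻¹ = _
    rw [t3f_smul (hΓ hγ) τ]

/-- the Hauptmoduln separate `Γ₀(2)`, `Γ₀(3)` -/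
theorem sep_Gamma0_two (hM : 2 ∣ M) : Sep K (CongruenceSubgroup.Gamma0 2) M := fun γ h =>
  mem_Gamma0_of_t2f fun τ => by
    have := congrFun (h _ (good_t2 K le_rfl hM)) τ
    rwa [ev_t2] at this

theorem sep_Gamma0_three (hM : 3 ∣ M) : Sep K (CongruenceSubgroup.Gamma0 3) M := fun γ h =>
  mem_Gamma0_of_t3f fun τ => by
    have := congrFun (h _ (good_t3 K le_rfl hM)) τ
    rwa [ev_t3] at this

end Good

end Fermat.Agent.H50.Haupt
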