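import Mathlib
import Fermat.Agent.H50HauptB
import Fermat.Agent.H18Haupt
import Fermat.Agent.H45P1Index

/-!
# Ramification over the Hauptmoduln `t₂`, `t₃`
-/

set_option autoImplicit false

noncomputable section

namespace Fermat.Agent.H50.Haupt

open UpperHalfPlane hiding I
open Complex MatrixGroups ModularGroup Fermat.Agent.H61 ModularCurve Fermat.Agent.H24
open Fermat.Agent.H28 Fermat.Agent.H23.Haupt Fermat.Agent.H78.FF
open scoped Manifold Real
open AlgebraicCurve

section Abstract

open Fermat.Agent.H18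

variable {K F : Type*} [Field K] [Field F] [Algebra K F]

/-- the ramification of `v` over the `j`-line is `≤ 3, 2, 1` -/
structure JRamAt (v : Place K F) (j : F) : Prop where
  zero : 0 < v.ord j → v.ord j ∣ 3
  e1728 : 0 < v.ord (j - algebraMap K F 1728) → v.ord (j - algebraMap K F 1728) ∣ 2
  other : ∀ a : K, a ≠ 0 → a ≠ 1728 → 0 < v.ord (j - algebraMap K F a) →
    v.ord (j - algebraMap K F a) = 1

theorem mem_val_of_sub {v : Place K F} {t : F} {c : K} (h : 0 < v.ord (t - algebraMap K F c)) :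
    t ∈ v.toValuationSubring := by
  have h1 : t - algebraMap K F c ∈ v.toValuationSubring := H94.mem_of_ord_nonneg v h.le
  have h2 : algebraMap K F c ∈ v.toValuationSubring := v.algebraMap_mem' c
  have := add_mem h1 h2
  rwa [sub_add_cancel] at this

theorem ord_pos_of_sub {v : Place K F} {t : F} {c : K} (hc : c ≠ 0)
    (h : 0 < v.ord (t - algebraMap K F c)) : v.ord t = 0 := by
  have := ord_sub_eq_zero v hc h
  rwa [map_zero, sub_zero] at this

/-- **Ramification over `t₂`.** -/
theorem ord_le_one_two [CharZero K] {v : Place K F} {t j : F} (hj : JRamAt v j)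
    (hrel : (t + 256) ^ 3 = j * t ^ 2) (htr : ∀ c : K, t ≠ algebraMap K F c)
    (hjtr : ∀ c : K, j ≠ algebraMap K F c) {c : K} (hc0 : c ≠ 0) (hc : c ≠ -64) :
    v.ord (t - algebraMap K F c) ≤ 1 := by
  by_contra hcon
  push Not at hcon
  have hpos : 0 < v.ord (t - algebraMap K F c) := by omega
  have ht : v.ord t = 0 := ord_pos_of_sub hc0 hpos
  have htm := mem_val_of_sub hpos
  have hcm : ∀ x : K, algebraMap K F x ∈ v.toValuationSubring := v.algebraMap_mem'
  have ht0 : t ≠ 0 := by have := htr 0; rwa [map_zero] at this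
  have hj0 : j ≠ 0 := by have := hjtr 0; rwa [map_zero] at this
  have htc : ∀ x : K, t - algebraMap K F x ≠ 0 := fun x => sub_ne_zero.mpr (htr x)
  have hjc : ∀ x : K, j - algebraMap K F x ≠ 0 := fun x => sub_ne_zero.mpr (hjtr x)
  by_cases h1 : c = -256
  · -- above `j = 0`
    have e1 : t + 256 = t - algebraMap K F c := by
      rw [h1, map_neg, map_ofNat, sub_neg_eq_add]
    have h2 := congrArg v.ord hrel
    rw [e1, ord_pow', v.ord_mul hj0 (pow_ne_zero _ ht0), ord_pow', ht, mul_zero, add_zero] at h2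
    have h3 := hj.zero (by omega)
    rw [← h2] at h3
    have h4 := Int.le_of_dvd (by norm_num) h3
    push_cast at h4
    omega
  by_cases h2 : c = 512
  · -- above `j = 1728`
    have hrel2 : (t - algebraMap K F (-64)) * (t - algebraMap K F c) ^ 2 =
        (j - algebraMap K F 1728) * t ^ 2 := by
      rw [h2, map_neg, map_ofNat, map_ofNat, map_ofNat]
      linear_combination hrel
    have h3 := congrArg v.ord hrel2
    rw [v.ord_mul (htc _) (pow_ne_zero _ (htc _)), v.ord_mul (hjc _) (pow_ne_zero _ ht0), ord_pow',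
      ord_pow', ht, mul_zero, add_zero, ord_sub_eq_zero v hc hpos, zero_add] at h3
    have h4 := hj.e1728 (by omega)
    rw [← h3] at h4
    have h5 := Int.le_of_dvd (by norm_num) h4
    push_cast at h5
    omega
  · -- generic
    set a : K := (c + 256) ^ 3 / c ^ 2 with ha
    have hac : a * c ^ 2 = (c + 256) ^ 3 := by rw [ha]; field_simp
    have hacF : algebraMap K F a * algebraMap K F c ^ 2 = (algebraMap K F c + 256) ^ 3 := by
      have := congrArg (algebraMap K F) hac
      simpa only [map_mul, map_pow, map_add, map_ofNat] using this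
    have ha0 : a ≠ 0 := by
      rw [ha, div_ne_zero_iff]
      refine ⟨pow_ne_zero _ fun h => h1 (by linear_combination h), pow_ne_zero _ hc0⟩
    have ha1 : a ≠ 1728 := by
      intro h
      have h3 : (c + 64) * (c - 512) ^ 2 = 0 := by
        rw [h] at hac
        linear_combination -hac
      rcases mul_eq_zero.mp h3 with h4 | h4
      · exact hc (by linear_combination h4)
      · exact h2 (by linear_combination pow_eq_zero_iff (two_ne_zero) |>.mp h4)
    set Q : F := algebraMap K F c ^ 2 * t ^ 2 - (196608 * algebraMap K F c + 16777216) * t -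
      16777216 * algebraMap K F c with hQ
    have hQm : Q ∈ v.toValuationSubring := by
      have hn : ∀ n : ℕ, (n : F) ∈ v.toValuationSubring := fun n => natCast_mem _ n
      have e1 : (196608 : F) ∈ v.toValuationSubring := by exact_mod_cast hn 196608
      have e2 : (16777216 : F) ∈ v.toValuationSubring := by exact_mod_cast hn 16777216
      exact sub_mem (sub_mem (mul_mem (pow_mem (hcm c) 2) (pow_mem htm 2))
        (mul_mem (add_mem (mul_mem e1 (hcm c)) e2) htm)) (mul_mem e2 (hcm c))
    have hrel3 : algebraMap K F c ^ 2 * ((j - algebraMap K F a) * t ^ 2) =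
        (t - algebraMap K F c) * Q := by
      rw [hQ]
      linear_combination -(algebraMap K F c ^ 2) * hrel - t ^ 2 * hacF
    have hQ0 : Q ≠ 0 := by
      intro h
      rw [h, mul_zero] at hrel3
      have hcF : algebraMap K F c ≠ 0 := (_root_.map_ne_zero _).mpr hc0
      exact (mul_ne_zero (pow_ne_zero 2 hcF) (mul_ne_zero (hjc a) (pow_ne_zero 2 ht0))) hrel3
    have h3 := congrArg v.ord hrel3
    have hcF : algebraMap K F c ≠ 0 := (_root_.map_ne_zero _).mpr hc0
    rw [v.ord_mul (pow_ne_zero _ hcF) (mul_ne_zero (hjc a) (pow_ne_zero 2 ht0)),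
      v.ord_mul (hjc a) (pow_ne_zero 2 ht0), ord_pow', ord_pow', ht, mul_zero, add_zero,
      H40.ord_algebraMap, mul_zero, zero_add, v.ord_mul (htc c) hQ0] at h3
    have h4 := H94.ord_nonneg_of_mem v hQm
    have h5 := hj.other a ha0 ha1 (by omega)
    omega

/-- **Ramification over `t₃`.** -/
theorem ord_le_one_three [CharZero K] {v : Place K F} {t j : F} (hj : JRamAt v j)
    (hrel : (t + 27) * (t + 243) ^ 3 = j * t ^ 3) (htr : ∀ c : K, t ≠ algebraMap K F c)
    (hjtr : ∀ c : K, j ≠ algebraMap K F c) {c : K} (hc0 : c ≠ 0) (hc : c ≠ -27) :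
    v.ord (t - algebraMap K F c) ≤ 1 := by
  by_contra hcon
  push Not at hcon
  have hpos : 0 < v.ord (t - algebraMap K F c) := by omega
  have ht : v.ord t = 0 := ord_pos_of_sub hc0 hpos
  have htm := mem_val_of_sub hpos
  have hcm : ∀ x : K, algebraMap K F x ∈ v.toValuationSubring := v.algebraMap_mem'
  have ht0 : t ≠ 0 := by have := htr 0; rwa [map_zero] at this
  have hj0 : j ≠ 0 := by have := hjtr 0; rwa [map_zero] at this
  have htc : ∀ x : K, t - algebraMap K F x ≠ 0 := fun x => sub_ne_zero.mpr (htr x)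
  have hjc : ∀ x : K, j - algebraMap K F x ≠ 0 := fun x => sub_ne_zero.mpr (hjtr x)
  by_cases h1 : c = -243
  · -- above `j = 0`
    have hrel2 : (t - algebraMap K F (-27)) * (t - algebraMap K F c) ^ 3 = j * t ^ 3 := by
      rw [h1, map_neg, map_neg, map_ofNat, map_ofNat]
      linear_combination hrel
    have h3 := congrArg v.ord hrel2
    rw [v.ord_mul (htc _) (pow_ne_zero _ (htc _)), v.ord_mul hj0 (pow_ne_zero _ ht0), ord_pow',
      ord_pow', ht, mul_zero, add_zero, ord_sub_eq_zero v hc hpos, zero_add] at h3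
    have h4 := hj.zero (by omega)
    rw [← h3] at h4
    have h5 := Int.le_of_dvd (by norm_num) h4
    push_cast at h5
    omega
  by_cases h2 : c ^ 2 - 486 * c - 19683 = 0
  · -- above `j = 1728`
    have hne : c ≠ 486 - c := by
      intro h
      have h3 : c = 243 := by linear_combination (1/2) * h
      rw [h3] at h2
      norm_num at h2
    have h2F : algebraMap K F c ^ 2 - 486 * algebraMap K F c - 19683 = 0 := by
      have := congrArg (algebraMap K F) h2
      simpa only [map_sub, map_mul, map_pow, map_ofNat, map_zero] using this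
    have hrel2 : ((t - algebraMap K F c) * (t - algebraMap K F (486 - c))) ^ 2 =
        (j - algebraMap K F 1728) * t ^ 3 := by
      have e1 : (t - algebraMap K F c) * (t - algebraMap K F (486 - c)) =
          t ^ 2 - 486 * t - 19683 := by
        rw [map_sub, map_ofNat]
        linear_combination -h2F
      rw [e1, map_ofNat]
      linear_combination hrel
    have h3 := congrArg v.ord hrel2
    rw [ord_pow', v.ord_mul (htc _) (htc _), v.ord_mul (hjc _) (pow_ne_zero _ ht0),
      ord_pow', ht, mul_zero, add_zero, ord_sub_eq_zero v hne hpos, add_zero] at h3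
    have h4 := hj.e1728 (by omega)
    rw [← h3] at h4
    have h5 := Int.le_of_dvd (by norm_num) h4
    push_cast at h5
    omega
  · -- generic
    set a : K := (c + 27) * (c + 243) ^ 3 / c ^ 3 with ha
    have hac : a * c ^ 3 = (c + 27) * (c + 243) ^ 3 := by rw [ha]; field_simp
    have hacF : algebraMap K F a * algebraMap K F c ^ 3 =
        (algebraMap K F c + 27) * (algebraMap K F c + 243) ^ 3 := by
      have := congrArg (algebraMap K F) hac
      simpa only [map_mul, map_pow, map_add, map_ofNat] using this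
    have ha0 : a ≠ 0 := by
      rw [ha, div_ne_zero_iff]
      refine ⟨mul_ne_zero (fun h => hc (by linear_combination h))
        (pow_ne_zero _ fun h => h1 (by linear_combination h)), pow_ne_zero _ hc0⟩
    have ha1 : a ≠ 1728 := by
      intro h
      apply h2
      have h3 : (c ^ 2 - 486 * c - 19683) ^ 2 = 0 := by
        rw [h] at hac
        linear_combination -hac
      exact pow_eq_zero_iff (two_ne_zero) |>.mp h3
    set u : F := algebraMap K F c with hu
    set Q : F := u ^ 3 * t ^ 3 - (196830 * u ^ 2 + 19131876 * u + 387420489) * t ^ 2 -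
      (19131876 * u ^ 2 + 387420489 * u) * t - 387420489 * u ^ 2 with hQ
    have hQm : Q ∈ v.toValuationSubring := by
      have hn : ∀ n : ℕ, (n : F) ∈ v.toValuationSubring := fun n => natCast_mem _ n
      have e1 : (196830 : F) ∈ v.toValuationSubring := by exact_mod_cast hn 196830
      have e2 : (19131876 : F) ∈ v.toValuationSubring := by exact_mod_cast hn 19131876
      have e3 : (387420489 : F) ∈ v.toValuationSubring := by exact_mod_cast hn 387420489
      have hum := hcm c
      exact sub_mem (sub_mem (sub_mem (mul_mem (pow_mem hum 3) (pow_mem htm 3))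
        (mul_mem (add_mem (add_mem (mul_mem e1 (pow_mem hum 2)) (mul_mem e2 hum)) e3)
          (pow_mem htm 2)))
        (mul_mem (add_mem (mul_mem e2 (pow_mem hum 2)) (mul_mem e3 hum)) htm))
        (mul_mem e3 (pow_mem hum 2))
    have hrel3 : u ^ 3 * ((j - algebraMap K F a) * t ^ 3) = (t - u) * Q := by
      rw [hQ]
      linear_combination -(u ^ 3) * hrel - t ^ 3 * hacF
    have hcF : u ≠ 0 := (_root_.map_ne_zero _).mpr hc0
    have hQ0 : Q ≠ 0 := by
      intro h
      rw [h, mul_zero] at hrel3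
      exact (mul_ne_zero (pow_ne_zero 3 hcF) (mul_ne_zero (hjc a) (pow_ne_zero 3 ht0))) hrel3
    have h3 := congrArg v.ord hrel3
    have hou : v.ord u = 0 := H40.ord_algebraMap _ _
    have htu : t - u ≠ 0 := htc c
    rw [v.ord_mul (pow_ne_zero _ hcF) (mul_ne_zero (hjc a) (pow_ne_zero 3 ht0)),
      v.ord_mul (hjc a) (pow_ne_zero 3 ht0), ord_pow', ord_pow', ht, mul_zero, add_zero,
      hou, mul_zero, zero_add, v.ord_mul htu hQ0] at h3
    have h4 := H94.ord_nonneg_of_mem v hQm
    have h5 := hj.other a ha0 ha1 (by omega)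
    omega

end Abstract

section FFs

variable {K : Type*} [Field K] [Algebra K ℂ] [IsAlgClosed K] {Γ : Subgroup SL(2, ℤ)}
  [Γ.FiniteIndex] {M : ℕ} [NeZero M]

theorem LChart_ord_dvd {x : FF K Γ M} (c : LChart x) (hsep : Sep K Γ M) (hx : Transcendental K x)
    (hadj : IntermediateField.adjoin K {x} = IntermediateField.adjoin K {jFF K Γ M})
    (v : Place K (FF K Γ M)) (hv : 0 < v.ord x) : v.ord x ∣ (c.e : ℤ) := by
  obtain ⟨V, m, h1, h2, h3, h4⟩ := c.places hsep hx hadj
  obtain ⟨g, rfl⟩ := h4 v hv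
  have h5 := h2 g x
  rw [c.map_x, c.order_y] at h5
  exact ⟨m g, by rw [h5, mul_comm]⟩

omit [IsAlgClosed K] in
theorem exists_tau (a : K) : ∃ τ : ℍ, jInv τ = algebraMap K ℂ a := jInv_surjective _

/-- ramification over the `j`-line -/
theorem jRamAt (hsep : Sep K Γ M) (v : Place K (FF K Γ M)) : JRamAt v (jFF K Γ M) where
  zero h := by
    obtain ⟨c, -, he, -⟩ := lchart_zero K Γ M
    have := LChart_ord_dvd c hsep (transcendental_jFF K Γ M) rfl v h
    rwa [he] at this
  e1728 h := by
    obtain ⟨c, -, he, -⟩ := lchart_1728 K Γ M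
    have := LChart_ord_dvd c hsep (transcendental_sub (transcendental_jFF K Γ M) _)
      (adjoin_sub_algebraMap _ _) v h
    rwa [he] at this
  other a ha ha2 h := by
    obtain ⟨τ₀, hτ₀⟩ := exists_tau a
    obtain ⟨c, -, he, -⟩ := lchart_other (Γ := Γ) (M := M) ha ha2 τ₀ hτ₀
    have := LChart_ord_dvd c hsep (transcendental_sub (transcendental_jFF K Γ M) _)
      (adjoin_sub_algebraMap _ _) v h
    rw [he, Nat.cast_one] at this
    exact Int.eq_one_of_dvd_one h.le this

variable (K Γ M) in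
/-- `t₂` as an element of the function field of `Γ ≤ Γ₀(2)` -/
def t2FF (hΓ : Γ ≤ CongruenceSubgroup.Gamma0 2) (hM : 2 ∣ M) : FF K Γ M :=
  ⟨t2 K, goodAlg_le_FF K Γ M (good_t2 K hΓ hM)⟩

variable (K Γ M) in
/-- `t₃` as an element of the function field of `Γ ≤ Γ₀(3)` -/
def t3FF (hΓ : Γ ≤ CongruenceSubgroup.Gamma0 3) (hM : 3 ∣ M) : FF K Γ M :=
  ⟨t3 K, goodAlg_le_FF K Γ M (good_t3 K hΓ hM)⟩

omit [IsAlgClosed K] [Γ.FiniteIndex] in
theorem t2FF_rel (hΓ : Γ ≤ CongruenceSubgroup.Gamma0 2) (hM : 2 ∣ M) :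
    (t2FF K Γ M hΓ hM + 256) ^ 3 = jFF K Γ M * t2FF K Γ M hΓ hM ^ 2 :=
  Subtype.ext (t2_E1 K)

omit [IsAlgClosed K] [Γ.FiniteIndex] in
theorem t3FF_rel (hΓ : Γ ≤ CongruenceSubgroup.Gamma0 3) (hM : 3 ∣ M) :
    (t3FF K Γ M hΓ hM + 27) * (t3FF K Γ M hΓ hM + 243) ^ 3 =
      jFF K Γ M * t3FF K Γ M hΓ hM ^ 3 :=
  Subtype.ext (t3_E3 K)

omit [IsAlgClosed K] [Γ.FiniteIndex] in
theorem transcendental_t2FF (hΓ : Γ ≤ CongruenceSubgroup.Gamma0 2) (hM : 2 ∣ M) :
    Transcendental K (t2FF K Γ M hΓ hM) := by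
  have : CharZero K := charZero_of_algebra
  have : CharZero (FF K Γ M) := charZero_of_injective_algebraMap (algebraMap K (FF K Γ M)).injective
  intro h
  apply transcendental_jFF K Γ M
  have hrel := t2FF_rel (K := K) hΓ hM
  have h0 : t2FF K Γ M hΓ hM ≠ 0 := by
    intro h0
    rw [h0] at hrel
    norm_num at hrel
  have h1 : jFF K Γ M = (t2FF K Γ M hΓ hM + 256) ^ 3 * ((t2FF K Γ M hΓ hM) ^ 2)⁻¹ := by
    rw [hrel, mul_assoc, mul_inv_cancel₀ (pow_ne_zero _ h0), mul_one]
  have h256 : IsAlgebraic K (256 : FF K Γ M) := by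
    have := isAlgebraic_algebraMap (A := FF K Γ M) (256 : K)
    rwa [map_ofNat] at this
  rw [h1]
  exact ((h.add h256).pow 3).mul (h.pow 2).inv

omit [IsAlgClosed K] [Γ.FiniteIndex] in
theorem transcendental_t3FF (hΓ : Γ ≤ CongruenceSubgroup.Gamma0 3) (hM : 3 ∣ M) :
    Transcendental K (t3FF K Γ M hΓ hM) := by
  have : CharZero K := charZero_of_algebra
  have : CharZero (FF K Γ M) := charZero_of_injective_algebraMap (algebraMap K (FF K Γ M)).injective
  intro h
  apply transcendental_jFF K Γ M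
  have hrel := t3FF_rel (K := K) hΓ hM
  have h0 : t3FF K Γ M hΓ hM ≠ 0 := by
    intro h0
    rw [h0] at hrel
    norm_num at hrel
  have h1 : jFF K Γ M = (t3FF K Γ M hΓ hM + 27) * (t3FF K Γ M hΓ hM + 243) ^ 3 *
      ((t3FF K Γ M hΓ hM) ^ 3)⁻¹ := by
    rw [hrel, mul_assoc, mul_inv_cancel₀ (pow_ne_zero _ h0), mul_one]
  have h27 : IsAlgebraic K (27 : FF K Γ M) := by
    have := isAlgebraic_algebraMap (A := FF K Γ M) (27 : K)
    rwa [map_ofNat] at this
  have h243 : IsAlgebraic K (243 : FF K Γ M) := by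
    have := isAlgebraic_algebraMap (A := FF K Γ M) (243 : K)
    rwa [map_ofNat] at this
  rw [h1]
  exact ((h.add h27).mul ((h.add h243).pow 3)).mul (h.pow 3).inv

omit [IsAlgClosed K] [Γ.FiniteIndex] in
theorem ne_const_of_transcendental {x : FF K Γ M} (hx : Transcendental K x) (c : K) :
    x ≠ algebraMap K _ c := by
  rintro rfl
  exact hx (isAlgebraic_algebraMap c)

/-- **`t₂` is unramified outside `0, -64, ∞`.** -/
theorem ord_t2_sub_le (hsep : Sep K Γ M) (hΓ : Γ ≤ CongruenceSubgroup.Gamma0 2) (hM : 2 ∣ M)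
    (v : Place K (FF K Γ M)) {c : K} (hc0 : c ≠ 0) (hc : c ≠ -64) :
    v.ord (t2FF K Γ M hΓ hM - algebraMap K _ c) ≤ 1 := by
  have : CharZero K := charZero_of_algebra
  exact ord_le_one_two (jRamAt hsep v) (t2FF_rel hΓ hM)
    (ne_const_of_transcendental (transcendental_t2FF hΓ hM))
    (ne_const_of_transcendental (transcendental_jFF K Γ M)) hc0 hc

/-- **`t₃` is unramified outside `0, -27, ∞`.** -/
theorem ord_t3_sub_le (hsep : Sep K Γ M) (hΓ : Γ ≤ CongruenceSubgroup.Gamma0 3) (hM : 3 ∣ M)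
    (v : Place K (FF K Γ M)) {c : K} (hc0 : c ≠ 0) (hc : c ≠ -27) :
    v.ord (t3FF K Γ M hΓ hM - algebraMap K _ c) ≤ 1 := by
  have : CharZero K := charZero_of_algebra
  exact ord_le_one_three (jRamAt hsep v) (t3FF_rel hΓ hM)
    (ne_const_of_transcendental (transcendental_t3FF hΓ hM))
    (ne_const_of_transcendental (transcendental_jFF K Γ M)) hc0 hc

theorem three_mul_finrank_t2 (hsep : Sep K Γ M) (hΓ : Γ ≤ CongruenceSubgroup.Gamma0 2)
    (hM : 2 ∣ M) :
    3 * Module.finrank (IntermediateField.adjoin K {t2FF K Γ M hΓ hM}) (FF K Γ M) =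
      Nat.card (SL(2, ℤ) ⧸ Γ) := by
  have : CharZero K := charZero_of_algebra
  have : H94.FunField K (FF K Γ M) := funField_FF K Γ M
  rw [← finrank_eq hsep]
  exact (H18.finrank_two (transcendental_t2FF hΓ hM) (transcendental_jFF K Γ M) two_ne_zero
    (t2FF_rel hΓ hM)).symm

theorem four_mul_finrank_t3 (hsep : Sep K Γ M) (hΓ : Γ ≤ CongruenceSubgroup.Gamma0 3)
    (hM : 3 ∣ M) :
    4 * Module.finrank (IntermediateField.adjoin K {t3FF K Γ M hΓ hM}) (FF K Γ M) =
      Nat.card (SL(2, ℤ) ⧸ Γ) := by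
  have : CharZero K := charZero_of_algebra
  have : H94.FunField K (FF K Γ M) := funField_FF K Γ M
  rw [← finrank_eq hsep]
  exact (H18.finrank_three (transcendental_t3FF hΓ hM) (transcendental_jFF K Γ M) three_ne_zero
    (t3FF_rel hΓ hM)).symm

theorem card_Gamma0_two : Nat.card (SL(2, ℤ) ⧸ CongruenceSubgroup.Gamma0 2) = 3 := by
  have h := H45.index_Gamma0 2
  have h2 := H45.dedekindPsi_mul_of_not_dvd (M := 1) Nat.prime_two one_ne_zero (by norm_num)
  rw [mul_one, dedekindPsi_one] at h2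
  rw [h2] at h
  exact h

theorem card_Gamma0_three : Nat.card (SL(2, ℤ) ⧸ CongruenceSubgroup.Gamma0 3) = 4 := by
  have h := H45.index_Gamma0 3
  have h2 := H45.dedekindPsi_mul_of_not_dvd (M := 1) Nat.prime_three one_ne_zero (by norm_num)
  rw [mul_one, dedekindPsi_one] at h2
  rw [h2] at h
  exact h

/-- `[F_Γ : K(t₂)] = [Γ₀(2) : Γ]` -/
theorem finrank_t2 (hsep : Sep K Γ M) (hΓ : Γ ≤ CongruenceSubgroup.Gamma0 2) (hM : 2 ∣ M) :
    Module.finrank (IntermediateField.adjoin K {t2FF K Γ M hΓ hM}) (FF K Γ M) =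
      Γ.relIndex (CongruenceSubgroup.Gamma0 2) := by
  have h1 := three_mul_finrank_t2 hsep hΓ hM
  have h2 : Γ.relIndex (CongruenceSubgroup.Gamma0 2) * (CongruenceSubgroup.Gamma0 2).index =
      Γ.index := Subgroup.relIndex_mul_index hΓ
  have h3 : (CongruenceSubgroup.Gamma0 2).index = 3 := card_Gamma0_two
  have h4 : Nat.card (SL(2, ℤ) ⧸ Γ) = Γ.index := rfl
  rw [h4, ← h2, h3] at h1
  omega

/-- `[F_Γ : K(t₃)] = [Γ₀(3) : Γ]` -/
theorem finrank_t3 (hsep : Sep K Γ M) (hΓ : Γ ≤ CongruenceSubgroup.Gamma0 3) (hM : 3 ∣ M) :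
    Module.finrank (IntermediateField.adjoin K {t3FF K Γ M hΓ hM}) (FF K Γ M) =
      Γ.relIndex (CongruenceSubgroup.Gamma0 3) := by
  have h1 := four_mul_finrank_t3 hsep hΓ hM
  have h2 : Γ.relIndex (CongruenceSubgroup.Gamma0 3) * (CongruenceSubgroup.Gamma0 3).index =
      Γ.index := Subgroup.relIndex_mul_index hΓ
  have h3 : (CongruenceSubgroup.Gamma0 3).index = 4 := card_Gamma0_three
  have h4 : Nat.card (SL(2, ℤ) ⧸ Γ) = Γ.index := rfl
  rw [h4, ← h2, h3] at h1
  omega

end FFs

end Fermat.Agent.H50.Haupt
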