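import Mathlib
import Fermat.Agent.H50HauptC

/-!
# The Hauptmoduln are surjective onto `ℂ^×` and local coordinates outside the elliptic points
-/

set_option autoImplicit false

noncomputable section

namespace Fermat.Agent.H50.Haupt

open UpperHalfPlane hiding I
open Complex MatrixGroups ModularGroup Fermat.Agent.H61 ModularCurve Fermat.Agent.H24
open Fermat.Agent.H28 Fermat.Agent.H23.Haupt Fermat.Agent.H78.FF
open scoped Manifold Real
open Polynomial

/-! ### the domain of holomorphic functions -/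

instance : NoZeroDivisors Hol where
  eq_zero_or_eq_zero_of_mul_eq_zero {f g} h := by
    have h1 : (f : ℍ → ℂ) * (g : ℍ → ℂ) = 0 := congrArg Subtype.val h
    rcases (UpperHalfPlane.mul_eq_zero_iff f.2 g.2).mp h1 with h2 | h2
    · exact Or.inl (Subtype.ext h2)
    · exact Or.inr (Subtype.ext h2)

instance : Nontrivial Hol := ⟨0, 1, fun h => by
  have := congrFun (congrArg Subtype.val h) UpperHalfPlane.I
  simp at this⟩

instance : IsDomain Hol := NoZeroDivisors.to_isDomain _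

theorem eq_prod_of_roots {A : Type*} [CommRing A] [IsDomain A] {ι : Type*} [Fintype ι] (f : ι → A)
    (hf : Function.Injective f) (P : A[X]) (hP : P.Monic) (hd : P.natDegree = Fintype.card ι)
    (hr : ∀ i, P.eval (f i) = 0) : P = ∏ i, (X - C (f i)) := by
  classical
  have hm : (∏ i, (X - C (f i))).Monic := monic_prod_of_monic _ _ fun _ _ => monic_X_sub_C _
  have hd2 : (∏ i, (X - C (f i))).natDegree = Fintype.card ι := by
    rw [natDegree_prod_of_monic _ _ fun _ _ => monic_X_sub_C _]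
    simp
  refine eq_of_degree_sub_lt_of_eval_index_eq (v := f) Finset.univ hf.injOn ?_ ?_
  · have h1 : P.degree = (∏ i, (X - C (f i))).degree := by
      rw [degree_eq_natDegree hP.ne_zero, degree_eq_natDegree hm.ne_zero, hd, hd2]
    have h2 := degree_sub_lt_left h1 hP.ne_zero (by rw [hP.leadingCoeff, hm.leadingCoeff])
    rwa [degree_eq_natDegree hP.ne_zero, hd] at h2
  · intro i _
    rw [hr, eval_prod]
    symm
    exact Finset.prod_eq_zero (Finset.mem_univ i) (by simp)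

/-- evaluation at a point -/
def evPt (τ : ℍ) : Hol →+* ℂ where
  toFun f := (f : ℍ → ℂ) τ
  map_one' := rfl
  map_mul' _ _ := rfl
  map_zero' := rfl
  map_add' _ _ := rfl

/-- `f ∘ γ` in `Hol` -/
def compH (γ : SL(2, ℤ)) (f : Hol) : Hol := ⟨compHom γ f, compHom_mem_Hol γ f.2⟩

/-- Values of a function generating the functions on `Γ \ ℍ`. -/
theorem exists_value_of_root {Γ : Subgroup SL(2, ℤ)} [Γ.FiniteIndex] (f : Hol)
    (hsep : ∀ γ : SL(2, ℤ), (∀ τ, (f : ℍ → ℂ) (γ • τ) = (f : ℍ → ℂ) τ) → γ ∈ Γ)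
    (P : Polynomial Hol) (hP : P.Monic) (hd : P.natDegree = Nat.card (SL(2, ℤ) ⧸ Γ))
    (hr : ∀ γ : SL(2, ℤ), P.eval (compH γ f) = 0) (τ : ℍ) (α : ℂ)
    (h : (P.map (evPt τ)).eval α = 0) : ∃ γ : SL(2, ℤ), (f : ℍ → ℂ) (γ • τ) = α := by
  classical
  have : Fintype (SL(2, ℤ) ⧸ Γ) := Fintype.ofFinite _
  rw [Nat.card_eq_fintype_card] at hd
  let F : SL(2, ℤ) ⧸ Γ → Hol := fun g => compH (Quotient.out g)⁻¹ f
  have hF : Function.Injective F := by
    intro g g' hgg
    have h1 : ∀ τ, (f : ℍ → ℂ) ((Quotient.out g)⁻¹ • τ) = (f : ℍ → ℂ) ((Quotient.out g')⁻¹ • τ) :=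
      fun τ => congrFun (congrArg Subtype.val hgg) τ
    have h2 : (Quotient.out g)⁻¹ * Quotient.out g' ∈ Γ := by
      apply hsep
      intro τ
      rw [mul_smul, h1, inv_smul_smul]
    rw [← Quotient.out_eq g, ← Quotient.out_eq g']
    exact QuotientGroup.eq.mpr h2
  have h1 := eq_prod_of_roots F hF P hP hd fun g => hr _
  rw [h1, Polynomial.map_prod, eval_prod, Finset.prod_eq_zero_iff] at h
  obtain ⟨g, -, hg⟩ := h
  rw [Polynomial.map_sub, map_X, map_C, eval_sub, eval_X, eval_C, sub_eq_zero] at hg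
  exact ⟨(Quotient.out g)⁻¹, hg.symm⟩

/-- `j` in `Hol` -/
def jH : Hol := ⟨jInv, jInv_mdiff⟩
/-- `t₂` in `Hol` -/
def t2H : Hol := ⟨t2f, mdiff_t2f⟩
/-- `t₃` in `Hol` -/
def t3H : Hol := ⟨t3f, mdiff_t3f⟩

theorem t2f_surj {α : ℂ} (hα : α ≠ 0) : ∃ τ, t2f τ = α := by
  obtain ⟨τ, hτ⟩ := jInv_surjective ((α + 256) ^ 3 / α ^ 2)
  have hτ' : jInv τ * α ^ 2 = (α + 256) ^ 3 := by rw [hτ]; field_simp
  let P : Polynomial Hol := X ^ 3 + (C (768 - jH) * X ^ 2 + C 196608 * X + C 16777216)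
  have hlt : (C (768 - jH) * X ^ 2 + C 196608 * X + C 16777216 : Polynomial Hol).degree < 3 := by
    refine lt_of_le_of_lt (degree_quadratic_le) (by norm_num)
  have hP : P.Monic := monic_X_pow_add hlt
  have hd : P.natDegree = 3 := by
    rw [natDegree_add_eq_left_of_degree_lt (by rw [degree_X_pow]; exact hlt), natDegree_X_pow]
  have hev : ∀ x : Hol, P.eval x = (x + 256) ^ 3 - jH * x ^ 2 := by
    intro x
    simp only [P, eval_add, eval_mul, eval_pow, eval_X, eval_C]
    ring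
  obtain ⟨γ, hγ⟩ := exists_value_of_root (Γ := CongruenceSubgroup.Gamma0 2) t2H
    (fun γ h => mem_Gamma0_of_t2f h) P hP
    (by rw [hd, card_Gamma0_two]) (fun γ => by
      rw [hev]
      apply Subtype.ext
      funext σ
      have h1 := t2f_E1 (γ • σ)
      rw [jInv_smul] at h1
      show (t2f (γ • σ) + 256) ^ 3 - jInv σ * t2f (γ • σ) ^ 2 = 0
      rw [h1, sub_self]) τ α (by
      simp only [P, Polynomial.map_add, Polynomial.map_mul, Polynomial.map_pow, map_X, map_C,
        eval_add, eval_mul, eval_pow, eval_X, eval_C]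
      have e1 : evPt τ (768 - jH) = 768 - jInv τ := rfl
      have e2 : evPt τ 196608 = 196608 := rfl
      have e3 : evPt τ 16777216 = 16777216 := rfl
      rw [e1, e2, e3]
      linear_combination -hτ')
  exact ⟨γ • τ, hγ⟩

theorem t3f_surj {α : ℂ} (hα : α ≠ 0) : ∃ τ, t3f τ = α := by
  obtain ⟨τ, hτ⟩ := jInv_surjective ((α + 27) * (α + 243) ^ 3 / α ^ 3)
  have hτ' : jInv τ * α ^ 3 = (α + 27) * (α + 243) ^ 3 := by rw [hτ]; field_simp
  let P : Polynomial Hol := X ^ 4 + (C (756 - jH) * X ^ 3 + C 196830 * X ^ 2 + C 19131876 * X +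
    C 387420489)
  have hlt : (C (756 - jH) * X ^ 3 + C 196830 * X ^ 2 + C 19131876 * X +
    C 387420489 : Polynomial Hol).degree < 4 := by
    refine lt_of_le_of_lt (degree_cubic_le) (by norm_num)
  have hP : P.Monic := monic_X_pow_add hlt
  have hd : P.natDegree = 4 := by
    rw [natDegree_add_eq_left_of_degree_lt (by rw [degree_X_pow]; exact hlt), natDegree_X_pow]
  have hev : ∀ x : Hol, P.eval x = (x + 27) * (x + 243) ^ 3 - jH * x ^ 3 := by
    intro x
    simp only [P, eval_add, eval_mul, eval_pow, eval_X, eval_C]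
    ring
  obtain ⟨γ, hγ⟩ := exists_value_of_root (Γ := CongruenceSubgroup.Gamma0 3) t3H
    (fun γ h => mem_Gamma0_of_t3f h) P hP
    (by rw [hd, card_Gamma0_three]) (fun γ => by
      rw [hev]
      apply Subtype.ext
      funext σ
      have h1 := t3f_E3 (γ • σ)
      rw [jInv_smul] at h1
      show (t3f (γ • σ) + 27) * (t3f (γ • σ) + 243) ^ 3 - jInv σ * t3f (γ • σ) ^ 3 = 0
      rw [h1, sub_self]) τ α (by
      simp only [P, Polynomial.map_add, Polynomial.map_mul, Polynomial.map_pow, map_X, map_C,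
        eval_add, eval_mul, eval_pow, eval_X, eval_C]
      have e1 : evPt τ (756 - jH) = 756 - jInv τ := rfl
      have e2 : evPt τ 196830 = 196830 := rfl
      have e3 : evPt τ 19131876 = 19131876 := rfl
      have e4 : evPt τ 387420489 = 387420489 := rfl
      rw [e1, e2, e3, e4]
      linear_combination -hτ')
  exact ⟨γ • τ, hγ⟩

/-! ### local orders -/

theorem analyticAt_of_mdiff {f : ℍ → ℂ} (hf : MDiff f) (τ₀ : ℍ) :
    AnalyticAt ℂ (fun z : ℂ => f (ofComplex z)) (τ₀ : ℂ) := by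
  have h1 : DifferentiableOn ℂ (f ∘ ofComplex) {z : ℂ | 0 < z.im} :=
    UpperHalfPlane.mdifferentiable_iff.1 hf
  exact h1.analyticAt ((isOpen_lt continuous_const Complex.continuous_im).mem_nhds τ₀.im_pos)

/-- order of vanishing of a holomorphic function -/
def oAt (τ₀ : ℍ) (f : ℍ → ℂ) : ℕ∞ := analyticOrderAt (fun z : ℂ => f (ofComplex z)) (τ₀ : ℂ)

variable {τ₀ : ℍ}

theorem oAt_mul {f g : ℍ → ℂ} (hf : MDiff f) (hg : MDiff g) :
    oAt τ₀ (f * g) = oAt τ₀ f + oAt τ₀ g :=
  analyticOrderAt_mul (analyticAt_of_mdiff hf τ₀) (analyticAt_of_mdiff hg τ₀)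

theorem oAt_pow {f : ℍ → ℂ} (hf : MDiff f) (n : ℕ) : oAt τ₀ (f ^ n) = n • oAt τ₀ f :=
  analyticOrderAt_pow (analyticAt_of_mdiff hf τ₀) n

theorem oAt_eq_zero {f : ℍ → ℂ} (hf : MDiff f) (h : f τ₀ ≠ 0) : oAt τ₀ f = 0 := by
  rw [oAt, (analyticAt_of_mdiff hf τ₀).analyticOrderAt_eq_zero]
  rwa [ofComplex_apply]

theorem one_le_oAt {f : ℍ → ℂ} (hf : MDiff f) (h : f τ₀ = 0) : 1 ≤ oAt τ₀ f := by
  rw [Order.one_le_iff_ne_zero, oAt, Ne, (analyticAt_of_mdiff hf τ₀).analyticOrderAt_eq_zero]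
  rw [ofComplex_apply]
  exact not_not.mpr h

theorem mdiff_const (c : ℂ) : MDiff (fun _ : ℍ => c) := Hol.algebraMap_mem c

theorem oAt_j (τ₀ : ℍ) : oAt τ₀ (fun τ => jInv τ - jInv τ₀) =
    if jInv τ₀ = 0 then 3 else if jInv τ₀ = 1728 then 2 else 1 := analyticOrderAt_jInv τ₀

theorem eq_one_of_nsmul {n : ℕ} (hn : n ≠ 0) {e : ℕ∞} (h : n • e = n) : e = 1 := by
  rw [nsmul_eq_mul] at h
  cases e with
  | top =>
    rw [ENat.mul_top (by exact_mod_cast hn)] at h
    exact absurd h (ENat.top_ne_natCast _)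
  | coe e =>
    have h1 : n * e = n := by exact_mod_cast h
    have h2 : e = 1 := Nat.eq_of_mul_eq_mul_left (Nat.pos_of_ne_zero hn) (by rw [h1, mul_one])
    rw [h2]
    rfl

theorem order_t2f (τ₀ : ℍ) (h64 : t2f τ₀ ≠ -64) : oAt τ₀ (fun τ => t2f τ - t2f τ₀) = 1 := by
  set α := t2f τ₀ with hα
  have hα0 : α ≠ 0 := t2f_ne_zero τ₀
  have hrel0 := t2f_E1 τ₀
  rw [← hα] at hrel0
  have hTm : MDiff t2f := mdiff_t2f
  have hTα : MDiff (fun τ => t2f τ - α) := hTm.sub (mdiff_const α)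
  have hJm : MDiff (fun τ => jInv τ - jInv τ₀) := jInv_mdiff.sub (mdiff_const _)
  have hT0 : oAt τ₀ t2f = 0 := oAt_eq_zero hTm hα0
  have he1 : 1 ≤ oAt τ₀ (fun τ => t2f τ - α) := one_le_oAt hTα (by simp [hα])
  have hj := oAt_j τ₀
  by_cases h1 : α = -256
  · have hj0 : jInv τ₀ = 0 := by
      rw [h1] at hrel0
      norm_num at hrel0
      exact hrel0
    rw [if_pos hj0] at hj
    have hfun : (fun τ => t2f τ - α) ^ 3 = (fun τ => jInv τ - jInv τ₀) * t2f ^ 2 := by
      funext τ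
      simp only [Pi.pow_apply, Pi.mul_apply]
      rw [h1, hj0, sub_zero, ← t2f_E1 τ]
      ring
    have h2 := congrArg (oAt τ₀) hfun
    rw [oAt_pow hTα, oAt_mul hJm (hTm.pow 2), oAt_pow hTm, hT0, smul_zero, add_zero, hj] at h2
    exact eq_one_of_nsmul three_ne_zero h2
  by_cases h2 : α = 512
  · have hj0 : jInv τ₀ = 1728 := by
      rw [h2] at hrel0
      have h3 : (jInv τ₀ - 1728) * 262144 = 0 := by linear_combination -hrel0
      have h4 := (mul_eq_zero.mp h3).resolve_right (by norm_num)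
      linear_combination h4
    rw [if_neg (by rw [hj0]; norm_num), if_pos hj0] at hj
    have h64m : MDiff (fun τ => t2f τ + 64) := hTm.add (mdiff_const 64)
    have h640 : oAt τ₀ (fun τ => t2f τ + 64) = 0 := oAt_eq_zero h64m (by
      show t2f τ₀ + 64 ≠ 0
      rw [← hα]
      intro h; exact h64 (by linear_combination h))
    have hfun : (fun τ => t2f τ + 64) * (fun τ => t2f τ - α) ^ 2 =
        (fun τ => jInv τ - jInv τ₀) * t2f ^ 2 := by
      funext τ
      simp only [Pi.pow_apply, Pi.mul_apply]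
      rw [h2, hj0]
      linear_combination t2f_E1 τ
    have h3 := congrArg (oAt τ₀) hfun
    rw [oAt_mul h64m (hTα.pow 2), oAt_pow hTα, oAt_mul hJm (hTm.pow 2), oAt_pow hTm, hT0,
      smul_zero, add_zero, hj, h640, zero_add] at h3
    exact eq_one_of_nsmul two_ne_zero h3
  · have hj0 : jInv τ₀ ≠ 0 := by
      intro h
      rw [h, zero_mul] at hrel0
      exact h1 (by linear_combination pow_eq_zero_iff (three_ne_zero) |>.mp hrel0)
    have hj1 : jInv τ₀ ≠ 1728 := by
      intro h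
      rw [h] at hrel0
      have h3 : (α + 64) * (α - 512) ^ 2 = 0 := by linear_combination hrel0
      rcases mul_eq_zero.mp h3 with h4 | h4
      · exact h64 (by linear_combination h4)
      · exact h2 (by linear_combination pow_eq_zero_iff (two_ne_zero) |>.mp h4)
    rw [if_neg hj0, if_neg hj1] at hj
    set Q : ℍ → ℂ := fun τ => α ^ 2 * t2f τ ^ 2 - (196608 * α + 16777216) * t2f τ -
      16777216 * α with hQ
    have hQm : MDiff Q :=
      (((mdiff_const (α ^ 2)).mul (hTm.pow 2)).sub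
        ((mdiff_const (196608 * α + 16777216)).mul hTm)).sub (mdiff_const (16777216 * α))
    have hcm := mdiff_const (α ^ 2)
    have hc0 : oAt τ₀ (fun _ => α ^ 2) = 0 := oAt_eq_zero hcm (pow_ne_zero 2 hα0)
    have hfun : (fun _ => α ^ 2) * ((fun τ => jInv τ - jInv τ₀) * t2f ^ 2) =
        (fun τ => t2f τ - α) * Q := by
      funext τ
      simp only [Pi.pow_apply, Pi.mul_apply, hQ]
      linear_combination -(α ^ 2) * t2f_E1 τ + t2f τ ^ 2 * hrel0
    have h3 := congrArg (oAt τ₀) hfun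
    rw [oAt_mul hcm (hJm.mul (hTm.pow 2)), oAt_mul hJm (hTm.pow 2), oAt_pow hTm, hT0,
      smul_zero, add_zero, hj, hc0, zero_add, oAt_mul hTα hQm] at h3
    refine le_antisymm ?_ he1
    rw [h3]
    exact le_self_add

theorem order_t3f (τ₀ : ℍ) (h27 : t3f τ₀ ≠ -27) : oAt τ₀ (fun τ => t3f τ - t3f τ₀) = 1 := by
  set α := t3f τ₀ with hα
  have hα0 : α ≠ 0 := t3f_ne_zero τ₀
  have hrel0 := t3f_E3 τ₀
  rw [← hα] at hrel0
  have hTm : MDiff t3f := mdiff_t3f
  have hTα : MDiff (fun τ => t3f τ - α) := hTm.sub (mdiff_const α)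
  have hJm : MDiff (fun τ => jInv τ - jInv τ₀) := jInv_mdiff.sub (mdiff_const _)
  have hT0 : oAt τ₀ t3f = 0 := oAt_eq_zero hTm hα0
  have he1 : 1 ≤ oAt τ₀ (fun τ => t3f τ - α) := one_le_oAt hTα (by simp [hα])
  have hj := oAt_j τ₀
  by_cases h1 : α = -243
  · have hj0 : jInv τ₀ = 0 := by
      rw [h1] at hrel0
      norm_num at hrel0
      exact hrel0
    rw [if_pos hj0] at hj
    have h27m : MDiff (fun τ => t3f τ + 27) := hTm.add (mdiff_const 27)
    have h270 : oAt τ₀ (fun τ => t3f τ + 27) = 0 := oAt_eq_zero h27m (by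
      show t3f τ₀ + 27 ≠ 0
      rw [← hα]
      intro h; exact h27 (by linear_combination h))
    have hfun : (fun τ => t3f τ + 27) * (fun τ => t3f τ - α) ^ 3 =
        (fun τ => jInv τ - jInv τ₀) * t3f ^ 3 := by
      funext τ
      simp only [Pi.pow_apply, Pi.mul_apply]
      rw [h1, hj0, sub_zero, ← t3f_E3 τ]
      ring
    have h2 := congrArg (oAt τ₀) hfun
    rw [oAt_mul h27m (hTα.pow 3), oAt_pow hTα, oAt_mul hJm (hTm.pow 3), oAt_pow hTm, hT0,
      smul_zero, add_zero, hj, h270, zero_add] at h2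
    exact eq_one_of_nsmul three_ne_zero h2
  by_cases h2 : α ^ 2 - 486 * α - 19683 = 0
  · have hj0 : jInv τ₀ = 1728 := by
      have h3 : (jInv τ₀ - 1728) * α ^ 3 = 0 := by
        linear_combination -hrel0 + (α ^ 2 - 486 * α - 19683) * h2
      have h4 := (mul_eq_zero.mp h3).resolve_right (pow_ne_zero _ hα0)
      linear_combination h4
    rw [if_neg (by rw [hj0]; norm_num), if_pos hj0] at hj
    have hcm : MDiff (fun τ => t3f τ - (486 - α)) := hTm.sub (mdiff_const _)
    have hc0 : oAt τ₀ (fun τ => t3f τ - (486 - α)) = 0 := oAt_eq_zero hcm (by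
      show t3f τ₀ - (486 - α) ≠ 0
      rw [← hα]
      intro h
      have h3 : α = 243 := by linear_combination (1/2) * h
      rw [h3] at h2
      norm_num at h2)
    have hfun : ((fun τ => t3f τ - α) * (fun τ => t3f τ - (486 - α))) ^ 2 =
        (fun τ => jInv τ - jInv τ₀) * t3f ^ 3 := by
      funext τ
      simp only [Pi.pow_apply, Pi.mul_apply]
      rw [hj0]
      have e1 : (t3f τ - α) * (t3f τ - (486 - α)) = t3f τ ^ 2 - 486 * t3f τ - 19683 := by
        linear_combination -h2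
      rw [e1]
      linear_combination t3f_E3 τ
    have h3 := congrArg (oAt τ₀) hfun
    rw [oAt_pow (hTα.mul hcm), oAt_mul hTα hcm, oAt_mul hJm (hTm.pow 3), oAt_pow hTm, hT0,
      smul_zero, add_zero, hj, hc0, add_zero] at h3
    exact eq_one_of_nsmul two_ne_zero h3
  · have hj0 : jInv τ₀ ≠ 0 := by
      intro h
      rw [h, zero_mul] at hrel0
      rcases mul_eq_zero.mp hrel0 with h3 | h3
      · exact h27 (by linear_combination h3)
      · exact h1 (by linear_combination pow_eq_zero_iff (three_ne_zero) |>.mp h3)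
    have hj1 : jInv τ₀ ≠ 1728 := by
      intro h
      rw [h] at hrel0
      have h3 : (α ^ 2 - 486 * α - 19683) ^ 2 = 0 := by linear_combination hrel0
      exact h2 (pow_eq_zero_iff (two_ne_zero) |>.mp h3)
    rw [if_neg hj0, if_neg hj1] at hj
    set Q : ℍ → ℂ := fun τ => α ^ 3 * t3f τ ^ 3 -
      (196830 * α ^ 2 + 19131876 * α + 387420489) * t3f τ ^ 2 -
      (19131876 * α ^ 2 + 387420489 * α) * t3f τ - 387420489 * α ^ 2 with hQ
    have hQm : MDiff Q :=
      ((((mdiff_const (α ^ 3)).mul (hTm.pow 3)).sub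
        ((mdiff_const (196830 * α ^ 2 + 19131876 * α + 387420489)).mul (hTm.pow 2))).sub
        ((mdiff_const (19131876 * α ^ 2 + 387420489 * α)).mul hTm)).sub
        (mdiff_const (387420489 * α ^ 2))
    have hcm := mdiff_const (α ^ 3)
    have hc0 : oAt τ₀ (fun _ => α ^ 3) = 0 := oAt_eq_zero hcm (pow_ne_zero 3 hα0)
    have hfun : (fun _ => α ^ 3) * ((fun τ => jInv τ - jInv τ₀) * t3f ^ 3) =
        (fun τ => t3f τ - α) * Q := by
      funext τ
      simp only [Pi.pow_apply, Pi.mul_apply, hQ]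
      linear_combination -(α ^ 3) * t3f_E3 τ + t3f τ ^ 3 * hrel0
    have h3 := congrArg (oAt τ₀) hfun
    rw [oAt_mul hcm (hJm.mul (hTm.pow 3)), oAt_mul hJm (hTm.pow 3), oAt_pow hTm, hT0,
      smul_zero, add_zero, hj, hc0, zero_add, oAt_mul hTα hQm] at h3
    refine le_antisymm ?_ he1
    rw [h3]
    exact le_self_add

end Fermat.Agent.H50.Haupt
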