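import Mathlib
import Fermat.Agent.H50EmbA
import Fermat.Agent.H29KI

/-!
# Embeddings of function fields over the Hauptmodul line
-/

set_option autoImplicit false

noncomputable section

namespace Fermat.Agent.H50.Haupt

open UpperHalfPlane hiding I
open Complex MatrixGroups ModularGroup Fermat.Agent.H61 ModularCurve Fermat.Agent.H24
open Fermat.Agent.H28 Fermat.Agent.H23.Haupt Fermat.Agent.H78.FF
open scoped Manifold Real
open Polynomial IntermediateField

local notation "𝕢" => Function.Periodic.qParam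

/-! ### abstract field theory -/

section Abstract

variable {K F C : Type*} [Field K] [Field F] [Algebra K F] [Field C] [Algebra K C]

/-- Two embeddings agreeing at `t` agree on `K(t)`. -/
theorem algHom_eq_on_adjoin {t : F} {σ σ' : F →ₐ[K] C} (h : σ t = σ' t) {x : F} (hx : x ∈ K⟮t⟯) :
    σ x = σ' x := by
  rw [IntermediateField.mem_adjoin_simple_iff] at hx
  obtain ⟨p, q, rfl⟩ := hx
  rw [map_div₀, map_div₀, ← aeval_algHom_apply, ← aeval_algHom_apply, ← aeval_algHom_apply,
    ← aeval_algHom_apply, h]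

/-- lower bound for the degree of a minimal polynomial -/
theorem card_le_natDegree_minpoly {j t : F} (hint : IsIntegral K⟮j⟯ t) {ι : Type*} [Fintype ι]
    (σ : ι → (F →ₐ[K] C)) {y : C} (hj : ∀ i, σ i j = y)
    (hinj : Function.Injective fun i => σ i t) : Fintype.card ι ≤ (minpoly K⟮j⟯ t).natDegree := by
  classical
  rcases isEmpty_or_nonempty ι with hι | ⟨⟨i₀⟩⟩
  · simp
  · let φ : K⟮j⟯ →+* C := (σ i₀ : F →+* C).comp (algebraMap K⟮j⟯ F)
    have hφ : ∀ i (x : K⟮j⟯), σ i (x : F) = φ x := fun i x =>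
      algHom_eq_on_adjoin ((hj i).trans (hj i₀).symm) x.2
    set P := (minpoly K⟮j⟯ t).map φ with hP
    have hm : (minpoly K⟮j⟯ t).Monic := minpoly.monic hint
    have hP0 : P ≠ 0 := (hm.map φ).ne_zero
    have hroot : ∀ i, P.eval (σ i t) = 0 := by
      intro i
      have h2 : φ = (σ i : F →+* C).comp (algebraMap K⟮j⟯ F) := by
        ext x
        exact (hφ i x).symm
      rw [hP, eval_map, h2]
      show eval₂ ((σ i : F →+* C).comp (algebraMap K⟮j⟯ F)) ((σ i : F →+* C) t) _ = 0
      rw [← Polynomial.hom_eval₂, ← aeval_def, minpoly.aeval, map_zero]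
    have h3 : (Finset.univ.image fun i => σ i t).card ≤ P.natDegree := by
      refine (Finset.card_le_card ?_).trans (P.roots.toFinset_card_le.trans P.card_roots')
      intro z hz
      rw [Finset.mem_image] at hz
      obtain ⟨i, -, rfl⟩ := hz
      rw [Multiset.mem_toFinset, mem_roots hP0]
      exact hroot i
    rwa [Finset.card_image_of_injective _ hinj, Finset.card_univ, hP, hm.natDegree_map] at h3

/-- `[F : K(j)] = deg(t / K(j)) [F : K(t)]` if `j ∈ K(t)` -/
theorem natDegree_mul_finrank {j t : F} (hint : IsIntegral K⟮j⟯ t) (hj : j ∈ K⟮t⟯) :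
    (minpoly K⟮j⟯ t).natDegree * Module.finrank K⟮t⟯ F = Module.finrank K⟮j⟯ F := by
  have hle : K⟮j⟯ ≤ K⟮t⟯ := adjoin_simple_le_iff.mpr hj
  rw [← relfinrank_mul_finrank_top hle, relfinrank_eq_finrank_of_le hle, extendScalars_adjoin hle,
    IntermediateField.adjoin.finrank hint]

theorem isRatGen_gen {t : F} (ht : Transcendental K t) :
    H29.IsRatGen K (AdjoinSimple.gen K t) where
  transc p hp := by
    have h1 := congrArg (algebraMap K⟮t⟯ F) hp
    rw [← aeval_algebraMap_apply, map_zero, AdjoinSimple.algebraMap_gen] at h1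
    exact (transcendental_iff.mp ht) p h1
  surj x := by
    have hx := x.2
    rw [IntermediateField.mem_adjoin_simple_iff] at hx
    obtain ⟨p, q, hpq⟩ := hx
    by_cases h : aeval t q = 0
    · refine ⟨0, 1, one_ne_zero, ?_⟩
      rw [h, div_zero] at hpq
      rw [map_zero, map_one, mul_one]
      exact Subtype.ext hpq
    · refine ⟨p, q, ?_, ?_⟩
      · rintro rfl
        exact h (map_zero _)
      · apply (algebraMap K⟮t⟯ F).injective
        rw [map_mul, ← aeval_algebraMap_apply, ← aeval_algebraMap_apply,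
          AdjoinSimple.algebraMap_gen]
        show (x : F) * _ = _
        rw [hpq, div_mul_cancel₀ _ h]

end Abstract

/-! ### a common interface for `t₂` and `t₃` -/

/-- A Hauptmodul for `Γ₀(r)`, as a series over `K` and as a function. -/
structure Haup (K : Type*) [Field K] [Algebra K ℂ] (r : ℕ) [NeZero r] (M : ℕ) [NeZero M] where
  /-- the series -/
  t : LaurentSeries K
  /-- the function -/
  f : ℍ → ℂ
  /-- the elliptic value -/
  c : ℂ
  good : Good K (CongruenceSubgroup.Gamma0 r) M t
  ev_t : ev K t = f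
  sep : ∀ γ : SL(2, ℤ), (∀ τ, f (γ • τ) = f τ) → γ ∈ CongruenceSubgroup.Gamma0 r
  surj : ∀ α : ℂ, α ≠ 0 → ∃ τ, f τ = α
  order : ∀ τ₀ : ℍ, f τ₀ ≠ c → oAt τ₀ (fun τ => f τ - f τ₀) = 1
  /-- the equation over the `j`-line -/
  P : Polynomial (Polynomial K)
  P_monic : P.Monic
  P_deg : P.natDegree = Nat.card (SL(2, ℤ) ⧸ CongruenceSubgroup.Gamma0 r)
  P_eval : (P.map (aeval (jqModC K) : K[X] →ₐ[K] LaurentSeries K).toRingHom).eval t = 0
  j_mem : jqModC K ∈ IntermediateField.adjoin K {t}

theorem adj_j_of_rel {K F : Type*} [Field K] [Field F] [Algebra K F] {j t u v : F}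
    (hu : u ∈ IntermediateField.adjoin K {t}) (hv : v ∈ IntermediateField.adjoin K {t})
    (hv0 : v ≠ 0) (h : u = j * v) : j ∈ IntermediateField.adjoin K {t} := by
  have : j = u / v := by rw [h, mul_div_cancel_right₀ _ hv0]
  rw [this]
  exact div_mem hu hv

section Inst

variable (K : Type*) [Field K] [Algebra K ℂ] (M : ℕ) [NeZero M]

omit [Algebra K ℂ] in
theorem t2_ne_zero : t2 K ≠ 0 := by
  intro h
  have := (hasLead_t2 K).1
  rw [h] at this
  simp at this

omit [Algebra K ℂ] in
theorem t3_ne_zero : t3 K ≠ 0 := by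
  intro h
  have := (hasLead_t3 K).1
  rw [h] at this
  simp at this

/-- `t₂` -/
def haup2 (hM : 2 ∣ M) : Haup K 2 M where
  t := t2 K
  f := t2f
  c := -64
  good := good_t2 K le_rfl hM
  ev_t := ev_t2 K
  sep γ h := mem_Gamma0_of_t2f h
  surj _ h := t2f_surj h
  order := order_t2f
  P := X ^ 3 + (C (768 - X) * X ^ 2 + C 196608 * X + C 16777216)
  P_monic := monic_X_pow_add (lt_of_le_of_lt degree_quadratic_le (by norm_num))
  P_deg := by
    rw [natDegree_add_eq_left_of_degree_lt
      (by rw [degree_X_pow]; exact lt_of_le_of_lt degree_quadratic_le (by norm_num)),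
      natDegree_X_pow, card_Gamma0_two]
  P_eval := by
    have h := t2_E1 K
    simp only [Polynomial.map_add, Polynomial.map_mul, Polynomial.map_pow, Polynomial.map_X,
      Polynomial.map_C, eval_add, eval_mul, eval_pow, eval_X, eval_C]
    simp only [AlgHom.toRingHom_eq_coe, RingHom.coe_coe, map_sub, map_ofNat, aeval_X]
    linear_combination h
  j_mem := by
    have hs := mem_adjoin_simple_self K (t2 K)
    refine adj_j_of_rel (u := (t2 K + 256) ^ 3) (v := t2 K ^ 2) ?_ (pow_mem hs 2)
      (pow_ne_zero 2 (t2_ne_zero K)) (t2_E1 K)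
    exact pow_mem (add_mem hs (ofNat_mem _ 256)) 3

/-- `t₃` -/
def haup3 (hM : 3 ∣ M) : Haup K 3 M where
  t := t3 K
  f := t3f
  c := -27
  good := good_t3 K le_rfl hM
  ev_t := ev_t3 K
  sep γ h := mem_Gamma0_of_t3f h
  surj _ h := t3f_surj h
  order := order_t3f
  P := X ^ 4 + (C (756 - X) * X ^ 3 + C 196830 * X ^ 2 + C 19131876 * X + C 387420489)
  P_monic := monic_X_pow_add (lt_of_le_of_lt degree_cubic_le (by norm_num))
  P_deg := by
    rw [natDegree_add_eq_left_of_degree_lt
      (by rw [degree_X_pow]; exact lt_of_le_of_lt degree_cubic_le (by norm_num)),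
      natDegree_X_pow, card_Gamma0_three]
  P_eval := by
    have h := t3_E3 K
    simp only [Polynomial.map_add, Polynomial.map_mul, Polynomial.map_pow, Polynomial.map_X,
      Polynomial.map_C, eval_add, eval_mul, eval_pow, eval_X, eval_C]
    simp only [AlgHom.toRingHom_eq_coe, RingHom.coe_coe, map_sub, map_ofNat, aeval_X]
    linear_combination h
  j_mem := by
    have hs := mem_adjoin_simple_self K (t3 K)
    refine adj_j_of_rel (u := (t3 K + 27) * (t3 K + 243) ^ 3) (v := t3 K ^ 3) ?_ (pow_mem hs 3)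
      (pow_ne_zero 3 (t3_ne_zero K)) (t3_E3 K)
    exact mul_mem (add_mem hs (ofNat_mem _ 27)) (pow_mem (add_mem hs (ofNat_mem _ 243)) 3)

end Inst

end Fermat.Agent.H50.Haupt
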