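import Mathlib
import Fermat.Agent.H50EmbB

/-!
# Embeddings of function fields over the Hauptmodul line, II
-/

set_option autoImplicit false

noncomputable section

namespace Fermat.Agent.H50.Haupt

open UpperHalfPlane hiding I
open Complex MatrixGroups ModularGroup Fermat.Agent.H61 ModularCurve Fermat.Agent.H24
open Fermat.Agent.H28 Fermat.Agent.H23.Haupt Fermat.Agent.H78.FF
open scoped Manifold Real
open Polynomial IntermediateField

local notation "𝕢" => Function.Periodic.qParam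

variable {K : Type*} [Field K] [Algebra K ℂ] {r : ℕ} [NeZero r] {M : ℕ} [NeZero M]
  (H : Haup K r M) {Γ : Subgroup SL(2, ℤ)} (hΓ : Γ ≤ CongruenceSubgroup.Gamma0 r)

namespace Haup

/-- the Hauptmodul in `GoodAlg` -/
def tG : GoodAlg K Γ M := ⟨H.t, good_mono hΓ H.good⟩

/-- the Hauptmodul in the function field -/
def tF : FF K Γ M := ⟨H.t, goodAlg_le_FF K Γ M (good_mono hΓ H.good)⟩

theorem algebraMap_tG : algebraMap (GoodAlg K Γ M) (FF K Γ M) (H.tG hΓ) = H.tF hΓ := rfl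

theorem f_mem : H.f ∈ Hol := by
  have := H.good.hol
  rwa [H.ev_t] at this

theorem inv_f {γ : SL(2, ℤ)} (hγ : γ ∈ CongruenceSubgroup.Gamma0 r) (τ : ℍ) :
    H.f (γ • τ) = H.f τ := by
  have := congrFun (H.good.inv γ hγ) τ
  rwa [H.ev_t] at this

theorem jFF_mem : jFF K Γ M ∈ K⟮H.tF hΓ⟯ := by
  have h := H.j_mem
  rw [IntermediateField.mem_adjoin_simple_iff] at h ⊢
  obtain ⟨p, q, h⟩ := h
  refine ⟨p, q, Subtype.ext ?_⟩
  show jqModC K = _
  rw [h]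
  have e : ∀ p : K[X], ((aeval (H.tF hΓ) p : FF K Γ M) : LaurentSeries K) = aeval H.t p := by
    intro p
    exact (aeval_algHom_apply (FF K Γ M).val (H.tF hΓ) p).symm
  rw [← e, ← e]
  rfl

theorem transcendental_tF : Transcendental K (H.tF hΓ) := by
  intro h
  apply transcendental_jFF K Γ M
  have h1 : Algebra.IsAlgebraic K K⟮H.tF hΓ⟯ :=
    IntermediateField.isAlgebraic_adjoin_simple h.isIntegral
  have h2 : IsAlgebraic K (⟨jFF K Γ M, H.jFF_mem hΓ⟩ : K⟮H.tF hΓ⟯) := h1.isAlgebraic _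
  exact h2.algebraMap (A := FF K Γ M)

/-- the relation over the `j`-line -/
theorem tF_root : (H.P.map (aeval (AdjoinSimple.gen K (jFF K Γ M)) :
    K[X] →ₐ[K] K⟮jFF K Γ M⟯).toRingHom).eval₂ (algebraMap K⟮jFF K Γ M⟯ (FF K Γ M)) (H.tF hΓ) = 0 := by
  apply (FF K Γ M).val.toRingHom.injective
  rw [map_zero, Polynomial.hom_eval₂, eval₂_map]
  have h := H.P_eval
  rw [eval_map] at h
  convert! h using 1
  congr 1
  apply Polynomial.ringHom_ext
  · intro a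
    simp
  · simp
    rfl

theorem isIntegral_tF : IsIntegral K⟮jFF K Γ M⟯ (H.tF hΓ) :=
  ⟨_, H.P_monic.map _, H.tF_root hΓ⟩

variable [Γ.FiniteIndex]

omit [Γ.FiniteIndex] in
/-- the images of the Hauptmodul under the embeddings -/
theorem sFF_tF_eq_iff {z : ℍ → ℂ} (hz : GoodChart K Γ M z) (γ γ' : SL(2, ℤ)) :
    sFF hz (QuotientGroup.mk γ) (H.tF hΓ) = sFF hz (QuotientGroup.mk γ') (H.tF hΓ) ↔
      γ⁻¹ * γ' ∈ CongruenceSubgroup.Gamma0 r := by
  rw [← algebraMap_tG, sFF_algebraMap, sFF_algebraMap, H78.FF.sA_mk, H78.FF.sA_mk,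
    H78.FF.phi_eq_phi_iff]
  show (∀ τ, ev K H.t _ = ev K H.t _) ↔ _
  rw [H.ev_t]
  constructor
  · intro h
    apply H.sep
    intro τ
    rw [mul_smul, h, inv_smul_smul]
  · intro h τ
    have h1 := H.inv_f h (γ'⁻¹ • τ)
    rw [mul_smul, smul_inv_smul] at h1
    exact h1

omit [Γ.FiniteIndex] in
theorem card_le : Nat.card (SL(2, ℤ) ⧸ CongruenceSubgroup.Gamma0 r) ≤
    (minpoly K⟮jFF K Γ M⟯ (H.tF hΓ)).natDegree := by
  have : Fintype (SL(2, ℤ) ⧸ CongruenceSubgroup.Gamma0 r) := Fintype.ofFinite _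
  rw [Nat.card_eq_fintype_card]
  have hz := goodChart_qParam K Γ M
  refine card_le_natDegree_minpoly (H.isIntegral_tF hΓ)
    (fun i : SL(2, ℤ) ⧸ CongruenceSubgroup.Gamma0 r => sFF hz (QuotientGroup.mk (Quotient.out i)))
    (fun i => sFF_jFF hz _ (hasExpC_jInv hz)) ?_
  intro i i' h
  have h1 := (H.sFF_tF_eq_iff hΓ hz _ _).mp h
  rw [← Quotient.out_eq i, ← Quotient.out_eq i']
  exact QuotientGroup.eq.mpr h1

omit [Γ.FiniteIndex] in
theorem natDegree_minpoly : (minpoly K⟮jFF K Γ M⟯ (H.tF hΓ)).natDegree =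
    Nat.card (SL(2, ℤ) ⧸ CongruenceSubgroup.Gamma0 r) := by
  refine le_antisymm ?_ (H.card_le hΓ)
  rw [← H.P_deg]
  have h1 := minpoly.min K⟮jFF K Γ M⟯ (H.tF hΓ) (H.P_monic.map _) (H.tF_root hΓ)
  have h2 := natDegree_le_natDegree h1
  exact h2.trans natDegree_map_le

/-- **Degree over the Hauptmodul line.** -/
theorem finrank_tF (hsep : Sep K Γ M) :
    Module.finrank K⟮H.tF hΓ⟯ (FF K Γ M) = Γ.relIndex (CongruenceSubgroup.Gamma0 r) := by
  have h1 := natDegree_mul_finrank (H.isIntegral_tF hΓ) (H.jFF_mem hΓ)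
  rw [H.natDegree_minpoly hΓ, finrank_eq hsep] at h1
  have h2 : Γ.relIndex (CongruenceSubgroup.Gamma0 r) * (CongruenceSubgroup.Gamma0 r).index =
      Γ.index := Subgroup.relIndex_mul_index hΓ
  have h3 : Nat.card (SL(2, ℤ) ⧸ CongruenceSubgroup.Gamma0 r) =
    (CongruenceSubgroup.Gamma0 r).index := rfl
  have h4 : Nat.card (SL(2, ℤ) ⧸ Γ) = Γ.index := rfl
  have h5 : 0 < (CongruenceSubgroup.Gamma0 r).index := by
    have : (CongruenceSubgroup.Gamma0 r).FiniteIndex := inferInstance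
    exact Nat.pos_of_ne_zero this.index_ne_zero
  rw [h3, h4, ← h2, mul_comm] at h1
  exact Nat.eq_of_mul_eq_mul_right h5 h1

theorem finiteDimensional_tF (hsep : Sep K Γ M) : FiniteDimensional K⟮H.tF hΓ⟯ (FF K Γ M) := by
  apply FiniteDimensional.of_finrank_pos
  rw [H.finrank_tF hΓ hsep]
  have h2 : Γ.relIndex (CongruenceSubgroup.Gamma0 r) * (CongruenceSubgroup.Gamma0 r).index =
      Γ.index := Subgroup.relIndex_mul_index hΓ
  have h3 : Γ.index ≠ 0 := Subgroup.FiniteIndex.index_ne_zero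
  refine Nat.pos_of_ne_zero fun h => h3 ?_
  rw [← h2, h, zero_mul]

omit [Γ.FiniteIndex] in
theorem isRatGen : H29.IsRatGen K (AdjoinSimple.gen K (H.tF hΓ)) :=
  isRatGen_gen (H.transcendental_tF hΓ)

/-! ### embeddings in a chart -/

theorem psl_C (c : ℂ) : H29.psl (PowerSeries.C c) = HahnSeries.single (0 : ℤ) c := by
  show HahnSeries.ofPowerSeries ℤ ℂ (PowerSeries.C c) = _
  rw [HahnSeries.ofPowerSeries_C]
  rfl

theorem exists_y (τ₀ : ℍ) (h : H.f τ₀ ≠ H.c) : ∃ y : PowerSeries ℂ,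
    HasExpC (cayley τ₀) H.f (H29.psl y) ∧ PowerSeries.constantCoeff y = H.f τ₀ ∧
      PowerSeries.coeff 1 y ≠ 0 := by
  have hf : MDiff (fun τ => H.f τ - H.f τ₀) := (H.f_mem : MDiff H.f).sub (mdiff_const _)
  obtain ⟨P, h1, h2, h3⟩ := exists_expansion_cayley τ₀ hf
  obtain ⟨h4, h5⟩ := h3 1 (by exact_mod_cast H.order τ₀ h)
  have hc0 : PowerSeries.coeff 0 P = 0 := by
    have := HahnSeries.coeff_eq_zero_of_lt_order (x := HahnSeries.ofPowerSeries ℤ ℂ P) (i := 0)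
      (by rw [h5]; norm_num)
    rw [← this]
    exact (HahnSeries.ofPowerSeries_apply_coeff P 0).symm
  have hc1 : PowerSeries.coeff 1 P ≠ 0 := by
    have := HahnSeries.coeff_order_eq_zero.not.mpr h4
    rw [h5] at this
    have e : (HahnSeries.ofPowerSeries ℤ ℂ P).coeff ((1 : ℕ) : ℤ) = PowerSeries.coeff 1 P :=
      HahnSeries.ofPowerSeries_apply_coeff P 1
    rw [← e]
    exact_mod_cast this
  refine ⟨P + PowerSeries.C (H.f τ₀), ⟨?_, fun τ hτ => ?_⟩, ?_, ?_⟩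
  · have h6 : H29.psl (P + PowerSeries.C (H.f τ₀)) = HahnSeries.ofPowerSeries ℤ ℂ P +
        HahnSeries.single 0 (H.f τ₀) := by
      rw [← psl_C, H29.psl, map_add]
      rfl
    rw [h6]
    exact h1.add (isConv_single _ _)
  · have h6 : H29.psl (P + PowerSeries.C (H.f τ₀)) = HahnSeries.ofPowerSeries ℤ ℂ P +
        HahnSeries.single 0 (H.f τ₀) := by
      rw [← psl_C, H29.psl, map_add]
      rfl
    rw [h6, evalAt_add h1 (isConv_single _ _) hτ (norm_cayley_lt_one τ₀ τ), h2, evalAt_single]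
    simp
  · rw [map_add, ← PowerSeries.coeff_zero_eq_constantCoeff_apply, hc0, zero_add]
    simp
  · rw [map_add]
    simpa [PowerSeries.coeff_C] using hc1

omit [Γ.FiniteIndex] in
theorem sFF_tF (τ₀ : ℍ) {y : PowerSeries ℂ} (hy : HasExpC (cayley τ₀) H.f (H29.psl y))
    {γ : SL(2, ℤ)} (hγ : γ ∈ CongruenceSubgroup.Gamma0 r) :
    sFF (goodChart_cayley K Γ M τ₀) (QuotientGroup.mk γ) (H.tF hΓ) = H29.psl y := by
  rw [← algebraMap_tG, sFF_algebraMap, H78.FF.sA_mk]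
  apply H78.FF.phi_eq
  refine ⟨hy.1, fun τ hτ => ?_⟩
  rw [hy.2 τ hτ]
  show H.f τ = ev K H.t (γ⁻¹ • τ)
  rw [H.ev_t, H.inv_f (inv_mem hγ)]

variable (Γ r) in
/-- the cosets of `Γ` in `Γ₀(r)` -/
def cosetMap (i : CongruenceSubgroup.Gamma0 r ⧸ Γ.subgroupOf (CongruenceSubgroup.Gamma0 r)) :
    SL(2, ℤ) ⧸ Γ :=
  QuotientGroup.mk ((Quotient.out i : CongruenceSubgroup.Gamma0 r) : SL(2, ℤ))

omit [Γ.FiniteIndex] [NeZero r] in
theorem cosetMap_injective : Function.Injective (cosetMap r Γ) := by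
  intro i i' h
  have h1 := QuotientGroup.eq.mp h
  rw [← Quotient.out_eq i, ← Quotient.out_eq i']
  refine QuotientGroup.eq.mpr ?_
  rw [Subgroup.mem_subgroupOf]
  exact h1

/-- **The embeddings at a point of the Hauptmodul line.** -/
def embAt (hsep : Sep K Γ M) (τ₀ : ℍ) (h : H.f τ₀ ≠ H.c) :
    H29.EmbAt K ℂ (FF K Γ M) (AdjoinSimple.gen K (H.tF hΓ)) (H.f τ₀) where
  φ := (sFF (goodChart_cayley K Γ M τ₀) (QuotientGroup.mk 1) : FF K Γ M →+* LaurentSeries ℂ).comp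
    (algebraMap K⟮H.tF hΓ⟯ (FF K Γ M))
  hφ c := by
    show sFF (goodChart_cayley K Γ M τ₀) (QuotientGroup.mk 1) (algebraMap K (FF K Γ M) c) = _
    rw [AlgHom.commutes, psl_C]
    rw [HahnSeries.algebraMap_apply', PowerSeries.algebraMap_apply]
    simp
  y := (H.exists_y τ₀ h).choose
  hy := by
    exact H.sFF_tF hΓ τ₀ (H.exists_y τ₀ h).choose_spec.1 (one_mem _)
  y0 := (H.exists_y τ₀ h).choose_spec.2.1
  y1 := (H.exists_y τ₀ h).choose_spec.2.2
  ι := CongruenceSubgroup.Gamma0 r ⧸ Γ.subgroupOf (CongruenceSubgroup.Gamma0 r)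
  fin := by
    have := Subgroup.instFiniteIndex_subgroupOf Γ (CongruenceSubgroup.Gamma0 r)
    exact Subgroup.finite_quotient_of_finiteIndex
  card := (H.finrank_tF hΓ hsep).symm
  σ i := (sFF (goodChart_cayley K Γ M τ₀) (cosetMap r Γ i) : FF K Γ M →+* LaurentSeries ℂ)
  inj i i' hi := by
    apply cosetMap_injective
    apply sFF_injective (goodChart_cayley K Γ M τ₀) hsep
    exact AlgHom.coe_ringHom_injective hi
  ext i x := by
    have hy := (H.exists_y τ₀ h).choose_spec.1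
    refine algHom_eq_on_adjoin (σ := sFF (goodChart_cayley K Γ M τ₀) (cosetMap r Γ i))
      (σ' := sFF (goodChart_cayley K Γ M τ₀) (QuotientGroup.mk 1)) (t := H.tF hΓ) ?_ x.2
    rw [H.sFF_tF hΓ τ₀ hy (one_mem _)]
    exact H.sFF_tF hΓ τ₀ hy (Quotient.out i).2

theorem exists_embAt (hsep : Sep K Γ M) (α : ℂ) (h0 : α ≠ 0) (hc : α ≠ H.c) :
    Nonempty (H29.EmbAt K ℂ (FF K Γ M) (AdjoinSimple.gen K (H.tF hΓ)) α) := by
  obtain ⟨τ₀, rfl⟩ := H.surj α h0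
  exact ⟨H.embAt hΓ hsep τ₀ hc⟩

end Haup

/-! ### orders of `m`-th powers -/

/-- the expansion at `τ₀` of a product `A ^ m * U` -/
theorem phi_eq_pow_mul (τ₀ : ℍ) (γ : SL(2, ℤ)) (m : ℕ) (a : GoodAlg K Γ M) {A U : ℍ → ℂ}
    (hA : MDiff A) (hU : MDiff U) (ha : ∀ τ, ev K (a : LaurentSeries K) τ = A τ ^ m * U τ) :
    H78.FF.phi (goodChart_cayley K Γ M τ₀) γ a =
      expHom (chart_cayley τ₀) ⟨compHom γ A, Hol_le_ExpAlg_cayley τ₀ (compHom_mem_Hol γ hA)⟩ ^ m *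
      expHom (chart_cayley τ₀) ⟨compHom γ U, Hol_le_ExpAlg_cayley τ₀ (compHom_mem_Hol γ hU)⟩ := by
  rw [← map_pow, ← map_mul]
  apply H78.FF.phi_eq
  have h1 := expHom_spec (chart_cayley τ₀)
    (⟨compHom γ A, Hol_le_ExpAlg_cayley τ₀ (compHom_mem_Hol γ hA)⟩ ^ m *
      ⟨compHom γ U, Hol_le_ExpAlg_cayley τ₀ (compHom_mem_Hol γ hU)⟩)
  refine ⟨h1.1, fun τ hτ => ?_⟩
  rw [h1.2 τ hτ]
  exact (ha (γ • τ)).symm

theorem order_pow' {x : LaurentSeries ℂ} (m : ℕ) : (x ^ m).order = m * x.order := by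
  rw [HahnSeries.order_pow]
  simp

theorem dvd_order_div (τ₀ : ℍ) (g : SL(2, ℤ) ⧸ Γ) (m : ℕ) (a b : GoodAlg K Γ M) {A B U : ℍ → ℂ}
    (hA : MDiff A) (hB : MDiff B) (hU : MDiff U)
    (ha : ∀ τ, ev K (a : LaurentSeries K) τ = A τ ^ m * U τ)
    (hb : ∀ τ, ev K (b : LaurentSeries K) τ = B τ ^ m * U τ) :
    (m : ℤ) ∣ (sFF (goodChart_cayley K Γ M τ₀) g
      (algebraMap (GoodAlg K Γ M) (FF K Γ M) a / algebraMap (GoodAlg K Γ M) (FF K Γ M) b)).order := by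
  induction g using QuotientGroup.induction_on with
  | H γ =>
    rw [map_div₀, sFF_algebraMap, sFF_algebraMap, H78.FF.sA_mk, phi_eq_pow_mul τ₀ γ⁻¹ m a hA hU ha,
      phi_eq_pow_mul τ₀ γ⁻¹ m b hB hU hb]
    set EA := expHom (chart_cayley τ₀)
      ⟨compHom γ⁻¹ A, Hol_le_ExpAlg_cayley τ₀ (compHom_mem_Hol γ⁻¹ hA)⟩
    set EB := expHom (chart_cayley τ₀)
      ⟨compHom γ⁻¹ B, Hol_le_ExpAlg_cayley τ₀ (compHom_mem_Hol γ⁻¹ hB)⟩
    set EU := expHom (chart_cayley τ₀)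
      ⟨compHom γ⁻¹ U, Hol_le_ExpAlg_cayley τ₀ (compHom_mem_Hol γ⁻¹ hU)⟩
    by_cases hEU : EU = 0
    · rw [hEU, mul_zero, zero_div, HahnSeries.order_zero]
      exact dvd_zero _
    · rw [mul_div_mul_right _ _ hEU, ← div_pow, order_pow']
      exact dvd_mul_right _ _

/-- **Kummer version of the embeddings.** -/
theorem Haup.exists_embAt_dvd [Γ.FiniteIndex] (hsep : Sep K Γ M) (m : ℕ) (a b : GoodAlg K Γ M)
    {A B U : ℍ → ℂ} (hA : MDiff A) (hB : MDiff B) (hU : MDiff U)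
    (ha : ∀ τ, ev K (a : LaurentSeries K) τ = A τ ^ m * U τ)
    (hb : ∀ τ, ev K (b : LaurentSeries K) τ = B τ ^ m * U τ)
    (α : ℂ) (h0 : α ≠ 0) (hc : α ≠ H.c) :
    ∃ D : H29.EmbAt K ℂ (FF K Γ M) (AdjoinSimple.gen K (H.tF hΓ)) α,
      ∀ i, (m : ℤ) ∣ (D.σ i
        (algebraMap (GoodAlg K Γ M) (FF K Γ M) a / algebraMap (GoodAlg K Γ M) (FF K Γ M) b)).order := by
  obtain ⟨τ₀, rfl⟩ := H.surj α h0
  exact ⟨H.embAt hΓ hsep τ₀ hc, fun i => dvd_order_div τ₀ _ m a b hA hB hU ha hb⟩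

end Fermat.Agent.H50.Haupt
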