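import Mathlib
import Fermat.Agent.H58Sep2
import Fermat.Agent.H22TwInt
import Fermat.Agent.H78FFRing

/-!
# A generator of the field of modular functions for `±Γ₁(M) ∩ Γ₀(r)` (`r = 2, 3`) whose conjugates
over `Γ₀(r)` are pairwise distinct modulo every prime not dividing `M r`
-/

set_option autoImplicit false
set_option linter.unusedSectionVars false

namespace Fermat.Agent.H58

open UpperHalfPlane hiding I
open Complex MatrixGroups ModularForm Fermat.Agent.H24 Fermat.Agent.H61 Fermat.Agent.H28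
  Fermat.Agent.H66 ModularCurve CongruenceSubgroup
open Fermat.Agent.H22.Tw (pmG mem_pmG)
open scoped Manifold Real

noncomputable section

local notation "𝕢" => Function.Periodic.qParam

/-- The generator: `(x(1/M) - x(1/r)) E₄ E₆ / Δ`. -/
def th (M r : ℕ) : ℍ → ℂ := TH (M * r) 0 r 0 M

/-- The expansion of `th ∘ γ` in `q^{1/(M r)}`. -/
def thS (M r : ℕ) [NeZero (M * r)] (γ : SL(2, ℤ)) : LaurentSeries ℂ :=
  TS (M * r) (r * γ 1 0) (r * γ 1 1) (M * γ 1 0) (M * γ 1 1)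

variable {M r : ℕ} [NeZero (M * r)]

theorem pos_of_neZero : 0 < M ∧ 0 < r := by
  have h := NeZero.ne (M * r)
  constructor
  · rcases Nat.eq_zero_or_pos M with h0 | h0
    · rw [h0, zero_mul] at h; exact absurd rfl h
    · exact h0
  · rcases Nat.eq_zero_or_pos r with h0 | h0
    · rw [h0, mul_zero] at h; exact absurd rfl h
    · exact h0

/-- multiples of `r` modulo `M r` -/
theorem mul_left_iff (x y : ℤ) :
    (((r : ℤ) * x : ℤ) : ZMod (M * r)) = (((r : ℤ) * y : ℤ) : ZMod (M * r)) ↔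
      (x : ZMod M) = (y : ZMod M) := by
  have hr : (r : ℤ) ≠ 0 := by exact_mod_cast (pos_of_neZero (M := M) (r := r)).2.ne'
  rw [← sub_eq_zero, ← Int.cast_sub, ZMod.intCast_zmod_eq_zero_iff_dvd, ← mul_sub,
    ← sub_eq_zero (a := (x : ZMod M)), ← Int.cast_sub, ZMod.intCast_zmod_eq_zero_iff_dvd]
  push_cast
  rw [mul_comm (M : ℤ) (r : ℤ)]
  exact mul_dvd_mul_iff_left hr

/-- multiples of `M` modulo `M r` -/
theorem mul_right_iff (x y : ℤ) :
    (((M : ℤ) * x : ℤ) : ZMod (M * r)) = (((M : ℤ) * y : ℤ) : ZMod (M * r)) ↔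
      (x : ZMod r) = (y : ZMod r) := by
  have hM : (M : ℤ) ≠ 0 := by exact_mod_cast (pos_of_neZero (M := M) (r := r)).1.ne'
  rw [← sub_eq_zero, ← Int.cast_sub, ZMod.intCast_zmod_eq_zero_iff_dvd, ← mul_sub,
    ← sub_eq_zero (a := (x : ZMod r)), ← Int.cast_sub, ZMod.intCast_zmod_eq_zero_iff_dvd]
  push_cast
  exact mul_dvd_mul_iff_left hM

theorem NZ_left (hM : 2 ≤ M) : NZ (M * r) 0 r := by
  rintro ⟨-, h⟩
  have h1 := (mul_left_iff (M := M) (r := r) 1 0).mp (by simpa using h)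
  have h2 : ((1 : ℤ) : ZMod M) = ((0 : ℤ) : ZMod M) := h1
  rw [ZMod.intCast_eq_intCast_iff_dvd_sub] at h2
  rw [zero_sub, dvd_neg] at h2
  have h3 := Int.le_of_dvd one_pos h2
  omega

theorem NZ_right (hr : 2 ≤ r) : NZ (M * r) 0 M := by
  rintro ⟨-, h⟩
  have h1 := (mul_right_iff (M := M) (r := r) 1 0).mp (by simpa using h)
  have h2 : ((1 : ℤ) : ZMod r) = ((0 : ℤ) : ZMod r) := h1
  rw [ZMod.intCast_eq_intCast_iff_dvd_sub] at h2
  rw [zero_sub, dvd_neg] at h2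
  have h3 := Int.le_of_dvd one_pos h2
  omega

theorem NZ_left' (hM : 2 ≤ M) (γ : SL(2, ℤ)) : NZ (M * r) (r * γ 1 0) (r * γ 1 1) := by
  simpa using (NZ_left (r := r) hM).mul γ

theorem NZ_right' (hr : 2 ≤ r) (γ : SL(2, ℤ)) : NZ (M * r) (M * γ 1 0) (M * γ 1 1) := by
  simpa using (NZ_right (M := M) hr).mul γ

theorem th_smul (hM : 2 ≤ M) (hr : 2 ≤ r) (γ : SL(2, ℤ)) :
    compHom γ (th M r) = TH (M * r) (r * γ 1 0) (r * γ 1 1) (M * γ 1 0) (M * γ 1 1) := by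
  rw [th, TH_smul γ (NZ_left hM) (NZ_right hr)]
  simp

/-- `th` is holomorphic. -/
theorem th_mem_Hol (hM : 2 ≤ M) (hr : 2 ≤ r) : th M r ∈ Hol :=
  TH_mem_Hol (NZ_left hM) (NZ_right hr)

/-- Expansions of all the translates of `th`. -/
theorem hasExpC_th (hM : 2 ≤ M) (hr : 2 ≤ r) (γ : SL(2, ℤ)) :
    HasExpC (fun τ : ℍ => 𝕢 ((M * r : ℕ) : ℝ) τ) (compHom γ (th M r)) (thS M r γ) := by
  rw [th_smul hM hr]
  exact hasExpC_TH (NZ_left' hM γ) (NZ_right' hr γ)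

/-- Integrality of the expansions. -/
theorem thS_coeff_mem {R : Subring ℂ} (hR : IsCyc (M * r) R) (hM : 2 ≤ M) (hr : 2 ≤ r)
    (γ : SL(2, ℤ)) (n : ℤ) : (thS M r γ).coeff n ∈ R :=
  TS_coeff_mem hR (NZ_left' hM γ) (NZ_right' hr γ) n

omit [NeZero (M * r)] in
/-- For `r = 2, 3` units modulo `r` are `± 1`. -/
theorem eq_one_or_neg_one_of_coprime (hr : r = 2 ∨ r = 3) {γ : SL(2, ℤ)} (hγ : γ ∈ Gamma0 r) :
    ((γ 1 1 : ℤ) : ZMod r) = ((1 : ℤ) : ZMod r) ∨ ((γ 1 1 : ℤ) : ZMod r) = ((-1 : ℤ) : ZMod r) := by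
  have hdet := Matrix.det_fin_two (γ : Matrix (Fin 2) (Fin 2) ℤ)
  rw [γ.2] at hdet
  have h0 := Gamma0_mem.mp hγ
  have h1 : ((γ 0 0 : ℤ) : ZMod r) * ((γ 1 1 : ℤ) : ZMod r) = 1 := by
    have := congrArg (fun z : ℤ => (z : ZMod r)) hdet
    simp only [Int.cast_one, Int.cast_sub, Int.cast_mul] at this
    rw [show ((γ 1 0 : ℤ) : ZMod r) = 0 from h0, mul_zero, sub_zero] at this
    exact this.symm
  have key : ∀ a : ZMod r, (∃ b, b * a = 1) → a = ((1 : ℤ) : ZMod r) ∨ a = ((-1 : ℤ) : ZMod r) := by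
    rcases hr with rfl | rfl <;> decide
  exact key _ ⟨_, h1⟩

/-- the second vector only changes by a sign -/
theorem XS_right (hr : r = 2 ∨ r = 3) {γ : SL(2, ℤ)} (hγ : γ ∈ Gamma0 r) :
    XS (M * r) (M * γ 1 0) (M * γ 1 1) = XS (M * r) 0 M := by
  have h0 : ((γ 1 0 : ℤ) : ZMod r) = ((0 : ℤ) : ZMod r) := by
    rw [Int.cast_zero]; exact Gamma0_mem.mp hγ
  have h1 : (((M : ℤ) * γ 1 0 : ℤ) : ZMod (M * r)) = ((0 : ℤ) : ZMod (M * r)) := by
    have := (mul_right_iff (M := M) (r := r) _ _).mpr h0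
    simpa using this
  rcases eq_one_or_neg_one_of_coprime hr hγ with h2 | h2
  · refine XS_congr h1 ?_
    have := (mul_right_iff (M := M) (r := r) _ _).mpr h2
    simpa using this
  · rw [← XS_neg 0 (M : ℤ)]
    refine XS_congr (by rw [h1]; simp) ?_
    have := (mul_right_iff (M := M) (r := r) _ _).mpr h2
    simpa using this

theorem thS_eq (hr : r = 2 ∨ r = 3) {γ : SL(2, ℤ)} (hγ : γ ∈ Gamma0 r) :
    thS M r γ = (XS (M * r) (r * γ 1 0) (r * γ 1 1) - XS (M * r) 0 M) *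
      qExpand ℂ (M * r) (uL ℂ) := by
  rw [thS, TS, XS_right hr hγ]

omit [NeZero (M * r)] in
theorem mem_Gamma1_of_row {δ : SL(2, ℤ)} (h0 : ((δ 1 0 : ℤ) : ZMod M) = 0)
    (h1 : ((δ 1 1 : ℤ) : ZMod M) = 1) : δ ∈ Gamma1 M := by
  rw [Gamma1_mem]
  refine ⟨?_, h1, h0⟩
  have hdet := Matrix.det_fin_two (δ : Matrix (Fin 2) (Fin 2) ℤ)
  rw [δ.2] at hdet
  have := congrArg (fun z : ℤ => (z : ZMod M)) hdet
  simp only [Int.cast_one, Int.cast_sub, Int.cast_mul] at this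
  rw [show ((δ 1 0 : ℤ) : ZMod M) = 0 from h0, show ((δ 1 1 : ℤ) : ZMod M) = 1 from h1, mul_zero,
    sub_zero, mul_one] at this
  exact this.symm

omit [NeZero (M * r)] in
theorem coe_mul_inv_row (γ γ' : SL(2, ℤ)) :
    (γ' * γ⁻¹) 1 0 = γ' 1 0 * γ 1 1 - γ' 1 1 * γ 1 0 ∧
      (γ' * γ⁻¹) 1 1 = γ' 1 1 * γ 0 0 - γ' 1 0 * γ 0 1 := by
  have h : (γ' * γ⁻¹ : SL(2, ℤ)) = γ' * γ⁻¹ := rfl
  constructor
  · rw [Matrix.SpecialLinearGroup.coe_mul, Matrix.SpecialLinearGroup.coe_inv,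
      Matrix.adjugate_fin_two, Matrix.mul_apply, Fin.sum_univ_two]
    simp
    ring
  · rw [Matrix.SpecialLinearGroup.coe_mul, Matrix.SpecialLinearGroup.coe_inv,
      Matrix.adjugate_fin_two, Matrix.mul_apply, Fin.sum_univ_two]
    simp
    ring

omit [NeZero (M * r)] in
/-- equality of the second rows modulo `M` up to sign -/
theorem mem_pmG_of_rows {γ γ' : SL(2, ℤ)}
    (h : (((γ 1 0 : ℤ) : ZMod M) = ((γ' 1 0 : ℤ) : ZMod M) ∧
        ((γ 1 1 : ℤ) : ZMod M) = ((γ' 1 1 : ℤ) : ZMod M)) ∨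
      (((γ 1 0 : ℤ) : ZMod M) = ((-γ' 1 0 : ℤ) : ZMod M) ∧
        ((γ 1 1 : ℤ) : ZMod M) = ((-γ' 1 1 : ℤ) : ZMod M))) : γ' * γ⁻¹ ∈ pmG M := by
  have hdet := Matrix.det_fin_two (γ : Matrix (Fin 2) (Fin 2) ℤ)
  rw [γ.2] at hdet
  have hdet' : (1 : ZMod M) = (γ 0 0 : ℤ) * (γ 1 1 : ℤ) - (γ 0 1 : ℤ) * (γ 1 0 : ℤ) := by
    have := congrArg (fun z : ℤ => (z : ZMod M)) hdet
    simpa only [Int.cast_one, Int.cast_sub, Int.cast_mul] using this
  obtain ⟨e0, e1⟩ := coe_mul_inv_row γ γ'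
  rw [mem_pmG]
  rcases h with ⟨h0, h1⟩ | ⟨h0, h1⟩
  · left
    apply mem_Gamma1_of_row
    · rw [e0]; push_cast; rw [← h0, ← h1]; ring
    · rw [e1]; push_cast; rw [← h0, ← h1, hdet']; ring
  · right
    push_cast at h0 h1
    apply mem_Gamma1_of_row
    · have : (-(γ' * γ⁻¹) : SL(2, ℤ)) 1 0 = -((γ' * γ⁻¹) 1 0) := rfl
      rw [this, e0]; push_cast
      linear_combination ((γ' 1 1 : ℤ) : ZMod M) * h0 - ((γ' 1 0 : ℤ) : ZMod M) * h1
    · have : (-(γ' * γ⁻¹) : SL(2, ℤ)) 1 1 = -((γ' * γ⁻¹) 1 1) := rfl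
      rw [this, e1]; push_cast
      rw [hdet']
      linear_combination ((γ 0 1 : ℤ) : ZMod M) * h0 - ((γ 0 0 : ℤ) : ZMod M) * h1

/-- **Separation**: translates of `th` under `γ, γ' ∈ Γ₀(r)` in different cosets of `±Γ₁(M)`:
the difference of the expansions has a unit as leading coefficient. -/
theorem hasLead_thS_sub {R : Subring ℂ} (hR : IsCyc (M * r) R) (hM : 2 ≤ M)
    (hr : r = 2 ∨ r = 3) {γ γ' : SL(2, ℤ)} (hγ : γ ∈ Gamma0 r) (hγ' : γ' ∈ Gamma0 r)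
    (hne : γ' * γ⁻¹ ∉ pmG M) :
    ∃ (n : ℤ) (c : ℂ), c ≠ 0 ∧ c ∈ R ∧ c⁻¹ ∈ R ∧ HasLead (thS M r γ - thS M r γ') n c := by
  have hr2 : 2 ≤ r := by rcases hr with rfl | rfl <;> norm_num
  obtain ⟨n, c, hc, hcR, hl⟩ := hasLead_XS_sub (D := M * r) hR (NZ_left' (r := r) hM γ)
    (NZ_left' (r := r) hM γ')
    (fun ⟨h0, h1⟩ => hne (mem_pmG_of_rows (Or.inl ⟨(mul_left_iff _ _).mp h0,
      (mul_left_iff _ _).mp h1⟩)))
    (fun ⟨h0, h1⟩ => hne (mem_pmG_of_rows (Or.inr ⟨(mul_left_iff (r := r) _ _).mp (by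
        rw [h0]; push_cast; ring), (mul_left_iff (r := r) _ _).mp (by rw [h1]; push_cast; ring)⟩)))
  have hu := (hasLead_uL ℂ).qExpand (M * r)
  have h2 := hl.mul hu
  have e : thS M r γ - thS M r γ' =
      (XS (M * r) (r * γ 1 0) (r * γ 1 1) - XS (M * r) (r * γ' 1 0) (r * γ' 1 1)) *
        qExpand ℂ (M * r) (uL ℂ) := by
    rw [thS_eq hr hγ, thS_eq hr hγ']; ring
  rw [← e, mul_one] at h2
  refine ⟨_, c, hc, ?_, hcR, h2⟩
  rw [← h2.1, HahnSeries.coeff_sub]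
  exact R.sub_mem (thS_coeff_mem hR hM hr2 γ _) (thS_coeff_mem hR hM hr2 γ' _)

/-- reductions of the translates are distinct -/
theorem exists_ne_thS {R : Subring ℂ} (hR : IsCyc (M * r) R) (hM : 2 ≤ M)
    (hr : r = 2 ∨ r = 3) (hr2 : 2 ≤ r) {k : Type*} [Field k] (φ : R →+* k)
    {γ γ' : SL(2, ℤ)} (hγ : γ ∈ Gamma0 r) (hγ' : γ' ∈ Gamma0 r) (hne : γ' * γ⁻¹ ∉ pmG M) :
    ∃ n : ℤ, φ ⟨(thS M r γ).coeff n, thS_coeff_mem hR hM hr2 γ n⟩ ≠
      φ ⟨(thS M r γ').coeff n, thS_coeff_mem hR hM hr2 γ' n⟩ := by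
  obtain ⟨n, c, hc, hcR, hciR, hl⟩ := hasLead_thS_sub hR hM hr hγ hγ' hne
  refine ⟨n, fun h => ?_⟩
  rw [← sub_eq_zero, ← map_sub] at h
  have h1 : (⟨(thS M r γ).coeff n, thS_coeff_mem hR hM hr2 γ n⟩ -
      ⟨(thS M r γ').coeff n, thS_coeff_mem hR hM hr2 γ' n⟩ : R) = ⟨c, hcR⟩ := by
    apply Subtype.ext
    have := hl.1
    rw [HahnSeries.coeff_sub] at this
    exact this
  rw [h1] at h
  have h2 : (⟨c, hcR⟩ : R) * ⟨c⁻¹, hciR⟩ = 1 := Subtype.ext (mul_inv_cancel₀ hc)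
  have h3 := congrArg φ h2
  rw [map_mul, h, zero_mul, map_one] at h3
  exact zero_ne_one h3

/-- Two translates of `th` are equal iff they belong to the same coset. -/
theorem th_comp_eq_iff (hM : 2 ≤ M) (hr : r = 2 ∨ r = 3) {γ γ' : SL(2, ℤ)} (hγ : γ ∈ Gamma0 r)
    (hγ' : γ' ∈ Gamma0 r) : compHom γ (th M r) = compHom γ' (th M r) ↔ γ' * γ⁻¹ ∈ pmG M := by
  have hr2 : 2 ≤ r := by rcases hr with rfl | rfl <;> norm_num
  constructor
  · intro h
    by_contra hne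
    have hR : IsCyc (M * r) ⊤ := ⟨fun _ _ => Subring.mem_top _, Subring.mem_top _⟩
    obtain ⟨n, c, hc, -, -, hl⟩ := hasLead_thS_sub hR hM hr hγ hγ' hne
    have h1 := hasExpC_th hM hr2 γ
    rw [h] at h1
    have h2 := h1.unique (chart_qParam (M * r)) (hasExpC_th hM hr2 γ')
    rw [h2, sub_self] at hl
    exact hc hl.1.symm
  · intro h
    -- `δ = γ' γ⁻¹` fixes `th`
    set δ := γ' * γ⁻¹ with hδ
    have hδ0 : δ ∈ Gamma0 r := mul_mem hγ' (inv_mem hγ)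
    have hfix : compHom δ (th M r) = th M r := by
      have key : XS (M * r) (r * δ 1 0) (r * δ 1 1) = XS (M * r) 0 r := by
        rw [mem_pmG] at h
        rcases h with h | h
        · rw [Gamma1_mem] at h
          refine XS_congr ?_ ?_
          · have := (mul_left_iff (M := M) (r := r) (δ 1 0) 0).mpr (by rw [Int.cast_zero]; exact h.2.2)
            simpa using this
          · have := (mul_left_iff (M := M) (r := r) (δ 1 1) 1).mpr (by rw [Int.cast_one]; exact h.2.1)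
            simpa using this
        · rw [Gamma1_mem] at h
          rw [← XS_neg]
          refine XS_congr ?_ ?_
          · have := (mul_left_iff (M := M) (r := r) (-δ 1 0) 0).mpr (by
              rw [Int.cast_zero]; exact h.2.2)
            simpa using this
          · have := (mul_left_iff (M := M) (r := r) (-δ 1 1) 1).mpr (by
              rw [Int.cast_one]; exact h.2.1)
            simpa using this
      have h1 := hasExpC_th hM hr2 δ
      have h2 := hasExpC_th hM hr2 (1 : SL(2, ℤ))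
      have e1 : thS M r δ = thS M r 1 := by
        rw [thS_eq hr hδ0, thS_eq hr (one_mem _), key]
        congr 2
        simp
      have h1' : compHom (1 : SL(2, ℤ)) (th M r) = th M r := by
        ext τ; simp
      rw [h1'] at h2
      rw [e1] at h1
      ext τ
      have h0 : 𝕢 ((M * r : ℕ) : ℝ) τ ≠ 0 := Function.Periodic.qParam_ne_zero _
      rw [← h1.2 τ h0, ← h2.2 τ h0]
    have h3 : γ' = δ * γ := by rw [hδ, inv_mul_cancel_right]
    rw [h3, ← compHom_mul, hfix]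

theorem th_inv (hM : 2 ≤ M) (hr : r = 2 ∨ r = 3) {γ : SL(2, ℤ)} (hγ : γ ∈ pmG M ⊓ Gamma0 r) :
    compHom γ (th M r) = th M r := by
  have h := (th_comp_eq_iff hM hr (one_mem (Gamma0 r)) hγ.2).mpr (by simpa using hγ.1)
  rw [← h]
  ext τ; simp

omit [NeZero (M * r)] in
theorem T_mem_inf : ModularGroup.T ∈ pmG M ⊓ Gamma0 r := by
  refine ⟨mem_pmG.mpr (Or.inl ?_), ?_⟩
  · rw [Gamma1_mem]; simp [ModularGroup.T]
  · show ModularGroup.T ∈ Gamma0 r
    rw [Gamma0_mem]; simp [ModularGroup.T]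

/-- `th` as an element of the ring of good series over `K ∋ ζ_{M r}`. -/
theorem exists_good (hM : 2 ≤ M) (hr : r = 2 ∨ r = 3) (K : Type*) [Field K] [Algebra K ℂ]
    (hK : ∀ z : ℂ, z ^ (M * r) = 1 → z ∈ (algebraMap K ℂ).range) :
    ∃ x : LaurentSeries K, Fermat.Agent.H78.FF.Good K (pmG M ⊓ Gamma0 r) (M * r) x ∧
      ev K x = th M r ∧ qExpand ℂ (M * r) (incl K x) = thS M r 1 := by
  have hr2 : 2 ≤ r := by rcases hr with rfl | rfl <;> norm_num
  have hR : IsCyc (M * r) (algebraMap K ℂ).range := by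
    refine ⟨hK, ⟨((M * r : ℕ) : K)⁻¹, ?_⟩⟩
    rw [map_inv₀, map_natCast]
  have hexp := hasExpC_th hM hr2 (1 : SL(2, ℤ))
  have h1' : compHom (1 : SL(2, ℤ)) (th M r) = th M r := by
    ext τ; simp
  rw [h1'] at hexp
  have hT := th_inv hM hr (T_mem_inf (M := M) (r := r))
  have hdvd : ∀ n : ℤ, (thS M r 1).coeff n ≠ 0 → ((M * r : ℕ) : ℤ) ∣ n := fun n hn =>
    dvd_of_coeff_ne_zero (M * r) (f := th M r) (fun τ => congrFun hT τ) hexp.1
      (fun τ => hexp.2 τ (Function.Periodic.qParam_ne_zero _)) hn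
  have hch : ∀ n : ℤ, ∃ a : K, algebraMap K ℂ a = (thS M r 1).coeff (((M * r : ℕ) : ℤ) * n) :=
    fun n => thS_coeff_mem hR hM hr2 1 _
  choose a ha using hch
  have hpos : (0 : ℤ) < ((M * r : ℕ) : ℤ) := by exact_mod_cast Nat.pos_of_ne_zero (NeZero.ne (M * r))
  have hbdd : BddBelow (Function.support a) := by
    refine ⟨-((thS M r 1).order.natAbs : ℤ), fun n hn => ?_⟩
    by_contra hlt
    push Not at hlt
    apply hn
    apply (algebraMap K ℂ).injective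
    rw [ha, map_zero]
    apply HahnSeries.coeff_eq_zero_of_lt_order
    have : ((M * r : ℕ) : ℤ) * n ≤ n := by nlinarith
    omega
  let x : LaurentSeries K := ⟨a, by
    have h2 := hbdd.isWF
    exact Set.IsWF.isPWO h2⟩
  have hx : qExpand ℂ (M * r) (incl K x) = thS M r 1 := by
    ext n
    by_cases h : ((M * r : ℕ) : ℤ) ∣ n
    · obtain ⟨m, rfl⟩ := h
      rw [qExpand_coeff_mul, incl_coeff]
      exact ha m
    · rw [qExpand_coeff_of_not_dvd (M * r) _ h]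
      by_contra hne
      exact h (hdvd n (Ne.symm hne))
  have hconv : IsConv (incl K x) := by
    intro ρ hρ0 hρ1
    have hD : (0 : ℝ) < ((M * r : ℕ) : ℝ) := by exact_mod_cast Nat.pos_of_ne_zero (NeZero.ne (M * r))
    set s : ℝ := ρ ^ (((M * r : ℕ) : ℝ)⁻¹) with hs
    have hs0 : 0 < s := Real.rpow_pos_of_pos hρ0 _
    have hs1 : s < 1 := Real.rpow_lt_one hρ0.le hρ1 (by positivity)
    have hsD : s ^ (M * r) = ρ := by
      rw [hs, ← Real.rpow_natCast, ← Real.rpow_mul hρ0.le, inv_mul_cancel₀ hD.ne', Real.rpow_one]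
    have h1 := hexp.1 s hs0 hs1
    have hinj : Function.Injective (fun k : ℤ => ((M * r : ℕ) : ℤ) * k) :=
      mul_right_injective₀ hpos.ne'
    have h2 := h1.comp_injective hinj
    refine h2.congr fun k => ?_
    simp only [Function.comp_apply]
    rw [← hx, qExpand_coeff_mul, zpow_mul, zpow_natCast, hsD]
  have hev : ev K x = th M r := by
    ext τ
    have h0 : 𝕢 ((M * r : ℕ) : ℝ) τ ≠ 0 := Function.Periodic.qParam_ne_zero _
    rw [← hexp.2 τ h0, ← hx, evalAt_qExpand (M * r) hconv h0 (qParam_norm_lt_one (M * r) τ),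
      qParam_pow_self]
    rfl
  refine ⟨x, ⟨hconv, by rw [hev]; exact th_mem_Hol hM hr2, fun γ => ?_, fun γ hγ => ?_⟩, hev, hx⟩
  · rw [hev]; exact ⟨_, hasExpC_th hM hr2 γ⟩
  · rw [hev]; exact th_inv hM hr hγ

end

end Fermat.Agent.H58
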