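import Mathlib
import Fermat.Agent.H29KI

/-!
# Self-duality at the Gauss valuation from a generator with distinct conjugates mod `ϖ`
-/

set_option autoImplicit false
set_option linter.unusedSectionVars false

namespace Fermat.Agent.H29

open Module nonZeroDivisors Polynomial IsLocalRing

/-- A realisation of the Gauss valuation of `L₀(s)`: `i : B → F` a subring (e.g. Laurent series with
integral coefficients), `ρ : B → κ` its reduction, `φ : K₀ → F` an embedding for which `s` comes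
from `B` with reduction transcendental over the residue field of `𝔬`. -/
structure GaussRed (𝔬 : Type*) [CommRing 𝔬] [IsLocalRing 𝔬] {K₀ : Type*} [Field K₀]
    [Algebra 𝔬 K₀] (s : K₀) (B F κ : Type*) [CommRing B] [Field F] [Field κ] where
  i : B →+* F
  inj : Function.Injective i
  ρ : B →+* κ
  φ : K₀ →+* F
  o : 𝔬 →+* B
  hφ : ∀ c : 𝔬, φ (algebraMap 𝔬 K₀ c) = i (o c)
  s₀ : B
  hs₀ : φ s = i s₀
  red : ∀ c ∈ maximalIdeal 𝔬, ρ (o c) = 0
  trans : ∀ p : 𝔬[X], p.map (residue 𝔬) ≠ 0 → ρ (eval₂ o s₀ p) ≠ 0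

section Loc

variable {𝔬 : Type*} [CommRing 𝔬] [IsLocalRing 𝔬] {K₀ : Type*} [Field K₀]
    [Algebra 𝔬 K₀] {s : K₀} {B F κ : Type*} [CommRing B] [Field F] [Field κ]
    (R : GaussRed 𝔬 s B F κ)

/-- elements of `F` with denominators having nonzero reduction -/
def GaussRed.loc : Subring F where
  carrier := {x | ∃ b b' : B, R.ρ b' ≠ 0 ∧ x * R.i b' = R.i b}
  mul_mem' := by
    rintro x y ⟨a, a', ha, h⟩ ⟨b, b', hb, h'⟩
    refine ⟨a * b, a' * b', by rw [map_mul]; exact mul_ne_zero ha hb, ?_⟩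
    rw [map_mul, map_mul, ← h, ← h']; ring
  one_mem' := ⟨1, 1, by rw [map_one]; exact one_ne_zero, by rw [one_mul]⟩
  add_mem' := by
    rintro x y ⟨a, a', ha, h⟩ ⟨b, b', hb, h'⟩
    refine ⟨a * b' + b * a', a' * b', by rw [map_mul]; exact mul_ne_zero ha hb, ?_⟩
    rw [map_mul, map_add, map_mul, map_mul, ← h, ← h']; ring
  zero_mem' := ⟨0, 1, by rw [map_one]; exact one_ne_zero, by rw [zero_mul, map_zero]⟩
  neg_mem' := by
    rintro x ⟨a, a', ha, h⟩
    exact ⟨-a, a', ha, by rw [map_neg, ← h]; ring⟩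

theorem GaussRed.mem_loc {x : F} : x ∈ R.loc ↔ ∃ b b' : B, R.ρ b' ≠ 0 ∧ x * R.i b' = R.i b :=
  Iff.rfl

theorem GaussRed.i_mem_loc (b : B) : R.i b ∈ R.loc :=
  ⟨b, 1, by rw [map_one]; exact one_ne_zero, by rw [map_one, mul_one]⟩

theorem GaussRed.inv_mem_loc {b : B} (hb : R.ρ b ≠ 0) : (R.i b)⁻¹ ∈ R.loc := by
  have hb0 : R.i b ≠ 0 := by
    intro h
    apply hb
    rw [R.inj (h.trans (map_zero _).symm), map_zero]
  exact ⟨1, b, hb, by rw [inv_mul_cancel₀ hb0, map_one]⟩

theorem GaussRed.φ_aeval (p : 𝔬[X]) : R.φ (aeval s p) = R.i (eval₂ R.o R.s₀ p) := by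
  have h : R.φ.comp ((aeval s : 𝔬[X] →ₐ[𝔬] K₀) : 𝔬[X] →+* K₀) =
      R.i.comp (eval₂RingHom R.o R.s₀) := by
    apply Polynomial.ringHom_ext
    · intro a; simp [R.hφ]
    · simp [R.hs₀]
  exact congrArg (fun f : 𝔬[X] →+* F => f p) h

theorem GaussRed.φ_gauss {c : K₀} (hc : c ∈ gaussRing 𝔬 s) : R.φ c ∈ R.loc := by
  obtain ⟨a, b, hb, h⟩ := hc
  refine ⟨eval₂ R.o R.s₀ a, eval₂ R.o R.s₀ b, R.trans b hb, ?_⟩
  rw [← R.φ_aeval, ← R.φ_aeval, ← map_mul, h]

end Loc

section Main

variable {𝔬 L₀ K₀ E : Type*} [CommRing 𝔬] [IsDomain 𝔬] [IsDiscreteValuationRing 𝔬]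
  [Field L₀] [CharZero L₀] [Algebra 𝔬 L₀] [IsFractionRing 𝔬 L₀]
  [Field K₀] [Algebra L₀ K₀] [Algebra 𝔬 K₀] [IsScalarTower 𝔬 L₀ K₀]
  [Field E] [Algebra K₀ E] [Algebra L₀ E] [Algebra 𝔬 E] [IsScalarTower L₀ K₀ E]
  [IsScalarTower 𝔬 K₀ E] [FiniteDimensional K₀ E]
  {s : K₀} (hs : IsRatGen L₀ s) {ϖ : 𝔬} (hϖ : Irreducible ϖ)
  {B F κ : Type*} [CommRing B] [Field F] [Field κ]
  (R : GaussRed 𝔬 s B F κ)

include hs hϖ in
theorem GaussRed.inv_not_mem : (R.i (R.o ϖ))⁻¹ ∉ R.loc := by
  rintro ⟨b, b', hb', h⟩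
  have hϖ0 : R.ρ (R.o ϖ) = 0 := R.red ϖ (by
    rw [hϖ.maximalIdeal_eq]; exact Ideal.mem_span_singleton_self _)
  by_cases h0 : R.i (R.o ϖ) = 0
  · rw [h0, inv_zero, zero_mul] at h
    have hb0 : b = 0 := R.inj (by rw [← h, map_zero])
    -- `o ϖ = 0` contradicts transcendence
    have h1 : R.o ϖ = 0 := R.inj (by rw [h0, map_zero])
    have h2 : R.φ (algebraMap 𝔬 K₀ ϖ) = 0 := by rw [R.hφ, h0]
    have h3 : algebraMap 𝔬 K₀ ϖ = 0 := (_root_.map_eq_zero _).mp h2
    have h4 : (C ϖ : 𝔬[X]) = 0 := hs.aeval_eq_zero (by rw [aeval_C, h3])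
    exact hϖ.ne_zero (C_eq_zero.mp h4)
  · have h1 : R.i b' = R.i (R.o ϖ * b) := by
      rw [map_mul, ← h]
      field_simp
    have h2 := R.inj h1
    apply hb'
    rw [h2, map_mul, hϖ0, zero_mul]

include hs hϖ in
/-- the Gauss ring is detected by `φ` -/
theorem GaussRed.gauss_of_φ {c : K₀} (hc : R.φ c ∈ R.loc) : c ∈ gaussRing 𝔬 s := by
  have := gauss_isDVR hs hϖ
  have := gauss_fraction (𝔬 := 𝔬) hs hϖ
  let V := gaussRing 𝔬 s
  by_contra hcV
  have hc0 : c ≠ 0 := by rintro rfl; exact hcV (Subring.zero_mem _)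
  rcases ValuationRing.isInteger_or_isInteger V c with h | h
  · obtain ⟨v, hv⟩ := h
    exact hcV (by rw [← hv]; exact v.2)
  obtain ⟨v, hv⟩ := h
  have hv' : (v : K₀) = c⁻¹ := hv
  have hv0 : v ≠ 0 := by
    rintro rfl
    exact inv_ne_zero hc0 hv'.symm
  obtain ⟨n, u, hu⟩ := gauss_factor hs hϖ v hv0
  rcases Nat.eq_zero_or_pos n with rfl | hn
  · apply hcV
    rw [pow_zero, one_mul] at hu
    have h1 : c = ((u⁻¹ : Vˣ) : V) := by
      have h2 : ((u : V) : K₀) * (((u⁻¹ : Vˣ) : V) : K₀) = 1 := by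
        have := congrArg (fun x : V => (x : K₀)) (Units.mul_inv u)
        exact this
      rw [← hu, hv'] at h2
      rw [eq_comm, ← inv_inv c]
      exact (inv_eq_of_mul_eq_one_right h2).symm
    rw [h1]
    exact ((u⁻¹ : Vˣ) : V).2
  · obtain ⟨n, rfl⟩ : ∃ k, n = k + 1 := ⟨n - 1, by omega⟩
    apply R.inv_not_mem hs hϖ
    -- `ϖ⁻¹ = c * (ϖ ^ n * u)`
    have h1 : c * (v : K₀) = 1 := by rw [hv', mul_inv_cancel₀ hc0]
    have h2 : (v : K₀) = algebraMap 𝔬 K₀ ϖ * ((gaussPi s ϖ ^ n * (u : V) : V) : K₀) := by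
      rw [hu, pow_succ]
      change (((gaussPi s ϖ) ^ n * gaussPi s ϖ * (u : V) : V) : K₀) = _
      have : (gaussPi s ϖ) ^ n * gaussPi s ϖ * (u : V) =
          gaussPi s ϖ * ((gaussPi s ϖ) ^ n * (u : V)) := by ring
      rw [this]; rfl
    have h3 : R.i (R.o ϖ) * (R.φ c * R.φ ((gaussPi s ϖ ^ n * (u : V) : V) : K₀)) = 1 := by
      rw [← R.hφ, ← map_mul, ← map_mul, ← map_one R.φ, ← h1, h2]
      congr 1; ring
    rw [inv_eq_of_mul_eq_one_right h3]
    exact R.loc.mul_mem hc (R.φ_gauss (Subtype.property _))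

include hs hϖ in
/-- integrality over the Gauss ring can be tested on all conjugates -/
theorem GaussRed.mem_of_conj {ι : Type*} [Finite ι] (τ : ι → (E →+* F))
    (hτ : Function.Injective τ) (hcard : Nat.card ι = finrank K₀ E)
    (hext : ∀ i x, τ i (algebraMap K₀ E x) = R.φ x) {z : E} (hz : ∀ i, τ i z ∈ R.loc) :
    z ∈ intGauss 𝔬 E s := by
  classical
  have hcharK : CharZero K₀ := charZero_of_injective_algebraMap (algebraMap L₀ K₀).injective
  have hsep : Algebra.IsSeparable K₀ E := Algebra.IsAlgebraic.isSeparable_of_perfectField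
  have := gauss_isDVR hs hϖ
  have := gauss_fraction (𝔬 := 𝔬) hs hϖ
  let V := gaussRing 𝔬 s
  have : IsScalarTower V K₀ E := IsScalarTower.of_algebraMap_eq fun _ => rfl
  have hint : IsIntegral K₀ z := Algebra.IsIntegral.isIntegral z
  have key : IsIntegral V z := by
    rw [isIntegral_iff_coeff_minpoly (K₀ := K₀) hint]
    intro k
    have h1 : R.φ ((minpoly K₀ z).coeff k) ∈ R.loc := by
      let M := AlgebraicClosure F
      let j : F →+* M := algebraMap _ _
      let aM : Algebra K₀ M := (j.comp R.φ).toAlgebra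
      have mM : ∀ x : K₀, algebraMap K₀ M x = j (R.φ x) := fun _ => rfl
      let T : ι → (E →ₐ[K₀] M) := fun i =>
        { (j.comp (τ i)) with
          commutes' := fun x => by
            change j (τ i (algebraMap K₀ E x)) = _
            rw [hext, mM] }
      have hT : ∀ i x, T i x = j (τ i x) := fun _ _ => rfl
      have hTinj : Function.Injective T := by
        intro i i' h
        apply hτ
        ext x : 1
        apply j.injective
        rw [← hT, ← hT, h]
      have hcard : Nat.card ι = Nat.card (E →ₐ[K₀] M) := by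
        rw [hcard, Nat.card_eq_fintype_card, AlgHom.card K₀ E M]
      have hbij : Function.Bijective T :=
        (Nat.bijective_iff_injective_and_card T).mpr ⟨hTinj, hcard⟩
      have hroots : ∀ r ∈ ((minpoly K₀ z).map (algebraMap K₀ M)).roots,
          r ∈ (j.comp R.loc.subtype).range := by
        intro r hr
        have h1 : r ∈ (minpoly K₀ z).rootSet M := by
          rw [mem_rootSet]
          refine ⟨minpoly.ne_zero hint, ?_⟩
          rw [mem_roots', IsRoot, eval_map_algebraMap] at hr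
          exact hr.2
        rw [← Algebra.IsAlgebraic.range_eval_eq_rootSet_minpoly M z] at h1
        obtain ⟨ψ, rfl⟩ := h1
        obtain ⟨i, rfl⟩ := hbij.2 ψ
        exact ⟨⟨τ i z, hz i⟩, rfl⟩
      have hlift := (IsAlgClosed.splits
        ((minpoly K₀ z).map (algebraMap K₀ M))).mem_lift_of_roots_mem_range
        ((minpoly.monic hint).map _) _ hroots
      rw [lifts_iff_coeff_lifts] at hlift
      obtain ⟨f, hf⟩ := hlift k
      rw [coeff_map, mM] at hf
      have : R.φ ((minpoly K₀ z).coeff k) = f := j.injective hf.symm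
      rw [this]
      exact f.2
    exact ⟨⟨_, R.gauss_of_φ hs hϖ h1⟩, rfl⟩
  exact key

variable {ι : Type*} [Finite ι] (τ : ι → (E →+* F)) (hcard : Nat.card ι = finrank K₀ E)
    (hext : ∀ i x, τ i (algebraMap K₀ E x) = R.φ x) (θ : E) (a : ι → B)
    (ha : ∀ i, τ i θ = R.i (a i)) (hdist : ∀ i j, i ≠ j → R.ρ (a i) ≠ R.ρ (a j))

include ha hdist in
theorem GaussRed.inj_of_dist : Function.Injective τ := by
  intro i j hij
  by_contra hne
  apply hdist i j hne
  have : R.i (a i) = R.i (a j) := by rw [← ha, ← ha, hij]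
  rw [R.inj this]

include hs hϖ hcard hext ha hdist in
/-- the structure of the Gauss integers -/
theorem GaussRed.etale_aux : Algebra.adjoin K₀ {θ} = ⊤ ∧ θ ∈ intGauss 𝔬 E s ∧
    (aeval θ (derivative (minpoly K₀ θ)))⁻¹ ∈ intGauss 𝔬 E s ∧
    aeval θ (derivative (minpoly K₀ θ)) ≠ 0 ∧
    ∀ i, τ i (aeval θ (derivative (minpoly K₀ θ)))⁻¹ ∈ R.loc := by
  classical
  have := Fintype.ofFinite ι
  have hτ := R.inj_of_dist τ θ a ha hdist
  have hint : IsIntegral K₀ θ := Algebra.IsIntegral.isIntegral θ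
  have hθ : θ ∈ intGauss 𝔬 E s := R.mem_of_conj hs hϖ τ hτ hcard hext fun i => by
    rw [ha]; exact R.i_mem_loc _
  have hcard' : Fintype.card ι = finrank K₀ E := by rw [← hcard, Nat.card_eq_fintype_card]
  -- the minimal polynomial splits
  set P := minpoly K₀ θ with hP
  set Pi : F[X] := ∏ i : ι, (X - C (R.i (a i))) with hPi
  have hainj : Function.Injective (fun i => R.i (a i)) := by
    intro i j hij
    by_contra hne
    exact hdist i j hne (by rw [R.inj hij])
  have hroot : ∀ i, (P.map R.φ).IsRoot (R.i (a i)) := by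
    intro i
    have h1 : R.φ = (τ i).comp (algebraMap K₀ E) := RingHom.ext fun x => (hext i x).symm
    rw [IsRoot, ← ha i, eval_map, h1, ← hom_eval₂]
    have h2 : eval₂ (algebraMap K₀ E) θ P = 0 := minpoly.aeval K₀ θ
    rw [h2, map_zero]
  have hmonP : (P.map R.φ).Monic := (minpoly.monic hint).map _
  have hmonPi : Pi.Monic := monic_prod_of_monic _ _ fun i _ => monic_X_sub_C _
  have hdvd : Pi ∣ P.map R.φ := by
    apply Finset.prod_dvd_of_coprime
    · intro i _ j _ hij
      exact isCoprime_X_sub_C_of_isUnit_sub (sub_ne_zero_of_ne (hainj.ne hij)).isUnit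
    · intro i _
      exact dvd_iff_isRoot.mpr (hroot i)
  have hdegPi : Pi.natDegree = finrank K₀ E := by
    rw [hPi, natDegree_prod_of_monic _ _ fun i _ => monic_X_sub_C _]
    simp [hcard']
  have hdegP : (P.map R.φ).natDegree ≤ Pi.natDegree := by
    rw [natDegree_map, hdegPi]
    exact minpoly.natDegree_le θ
  have hPPi : P.map R.φ = Pi := eq_of_monic_of_dvd_of_natDegree_le hmonPi hmonP hdvd hdegP
  have hprim : IntermediateField.adjoin K₀ {θ} = ⊤ := by
    rw [Field.primitive_element_iff_minpoly_natDegree_eq, ← hP, ← hdegPi, ← hPPi, natDegree_map]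
  have htop : Algebra.adjoin K₀ {θ} = ⊤ := by
    rw [← IntermediateField.adjoin_simple_toSubalgebra_of_isAlgebraic hint.isAlgebraic, hprim,
      IntermediateField.top_toSubalgebra]
  -- the derivative
  have hder : ∀ i, τ i (aeval θ (derivative P)) = R.i (∏ j ∈ Finset.univ.erase i, (a i - a j)) := by
    intro i
    have h1 : R.φ = (τ i).comp (algebraMap K₀ E) := RingHom.ext fun x => (hext i x).symm
    have h2 : τ i (aeval θ (derivative P)) = (derivative Pi).eval (R.i (a i)) := by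
      rw [← hPPi, derivative_map, eval_map, ← ha i, h1, ← hom_eval₂]
      rfl
    rw [h2, hPi, derivative_prod_finset, eval_finsetSum, Finset.sum_eq_single i]
    · rw [derivative_X_sub_C, mul_one, eval_prod, map_prod]
      refine Finset.prod_congr rfl fun j _ => ?_
      rw [eval_sub, eval_X, eval_C, map_sub]
    · intro j _ hji
      rw [derivative_X_sub_C, mul_one, eval_prod]
      apply Finset.prod_eq_zero (i := i)
      · rw [Finset.mem_erase]; exact ⟨hji.symm, Finset.mem_univ _⟩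
      · rw [eval_sub, eval_X, eval_C, sub_self]
    · intro h; exact absurd (Finset.mem_univ i) h
  have hρ : ∀ i, R.ρ (∏ j ∈ Finset.univ.erase i, (a i - a j)) ≠ 0 := by
    intro i
    rw [map_prod]
    refine Finset.prod_ne_zero_iff.mpr fun j hj => ?_
    rw [map_sub]
    exact sub_ne_zero.mpr (hdist i j (Finset.ne_of_mem_erase hj).symm)
  have hloc : ∀ i, τ i (aeval θ (derivative P))⁻¹ ∈ R.loc := by
    intro i
    rw [map_inv₀, hder]
    exact R.inv_mem_loc (hρ i)
  refine ⟨htop, hθ, R.mem_of_conj hs hϖ τ hτ hcard hext hloc, ?_, hloc⟩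
  · intro h0
    have hpos : 0 < Nat.card ι := by rw [hcard]; exact finrank_pos
    have hne : Nonempty ι := (Nat.card_pos_iff.mp hpos).1
    obtain ⟨i⟩ := hne
    apply hρ i
    have h1 := hder i
    rw [h0, map_zero] at h1
    rw [R.inj ((map_zero R.i).trans h1).symm, map_zero]

include hs hϖ hcard hext ha hdist in
/-- the dual of the Gauss integers -/
theorem GaussRed.dual_form (y : E) (hy : ∀ z ∈ intGauss 𝔬 E s,
    Algebra.trace K₀ E (y * z) ∈ gaussRing 𝔬 s) :
    ∃ b ∈ Algebra.adjoin (gaussRing 𝔬 s) {θ},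
      y = (aeval θ (derivative (minpoly K₀ θ)))⁻¹ * b := by
  have hcharK : CharZero K₀ := charZero_of_injective_algebraMap (algebraMap L₀ K₀).injective
  have hsep : Algebra.IsSeparable K₀ E := Algebra.IsAlgebraic.isSeparable_of_perfectField
  have := gauss_isDVR hs hϖ
  have := gauss_fraction (𝔬 := 𝔬) hs hϖ
  let V := gaussRing 𝔬 s
  have : IsScalarTower V K₀ E := IsScalarTower.of_algebraMap_eq fun _ => rfl
  obtain ⟨htop, hθ, hinv, hne, -⟩ := R.etale_aux hs hϖ τ hcard hext θ a ha hdist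
  have hθ' : IsIntegral V θ := hθ
  have h1 := traceForm_dualSubmodule_adjoin V K₀ htop hθ'
  have hsub : ∀ b ∈ Algebra.adjoin V {θ}, b ∈ intGauss 𝔬 E s := by
    intro b hb
    have h2 : Algebra.adjoin V {θ} ≤ integralClosure V E := by
      rw [Algebra.adjoin_le_iff]
      rintro _ rfl
      exact hθ'
    exact h2 hb
  have h2 : y ∈ (Algebra.traceForm K₀ E).dualSubmodule
      (Subalgebra.toSubmodule (Algebra.adjoin V {θ})) := by
    rw [LinearMap.BilinForm.mem_dualSubmodule]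
    intro b hb
    rw [Submodule.mem_one, Algebra.traceForm_apply]
    exact ⟨⟨_, hy b (hsub b hb)⟩, rfl⟩
  rw [h1] at h2
  obtain ⟨b, hb, hby⟩ := h2
  refine ⟨b, hb, ?_⟩
  rw [← hby]
  rfl

include hs hϖ hcard hext ha hdist in
/-- **Self-duality** from a generator with distinct conjugates. -/
theorem GaussRed.selfDual : SelfDual 𝔬 E s := by
  intro y hy
  obtain ⟨htop, hθ, hinv, hne, -⟩ := R.etale_aux hs hϖ τ hcard hext θ a ha hdist
  obtain ⟨b, hb, rfl⟩ := R.dual_form hs hϖ τ hcard hext θ a ha hdist y hy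
  have h2 : Algebra.adjoin (gaussRing 𝔬 s) {θ} ≤ integralClosure (gaussRing 𝔬 s) E := by
    rw [Algebra.adjoin_le_iff]
    rintro _ rfl
    exact hθ
  exact Subring.mul_mem (intGauss 𝔬 E s) hinv (h2 hb)

include hs hϖ hcard hext ha hdist in
/-- Gauss integers have integral conjugates. -/
theorem GaussRed.conj_of_mem {z : E} (hz : z ∈ intGauss 𝔬 E s) (i : ι) : τ i z ∈ R.loc := by
  have := Fintype.ofFinite ι
  obtain ⟨b, hb, rfl⟩ := R.dual_form hs hϖ τ hcard hext θ a ha hdist z (fun x hx =>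
    trace_mem_gauss hs hϖ (Subring.mul_mem _ hz hx))
  have hinv : τ i (aeval θ (derivative (minpoly K₀ θ)))⁻¹ ∈ R.loc :=
    (R.etale_aux hs hϖ τ hcard hext θ a ha hdist).2.2.2.2 i
  rw [map_mul]
  refine R.loc.mul_mem hinv ?_
  -- the subring of elements with integral `i`-th conjugate
  let W : Subalgebra (gaussRing 𝔬 s) E :=
    { (R.loc.comap (τ i)) with
      algebraMap_mem' := fun v => by
        change τ i (algebraMap K₀ E v) ∈ R.loc
        rw [hext]
        exact R.φ_gauss v.2 }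
  have h2 : Algebra.adjoin (gaussRing 𝔬 s) {θ} ≤ W := by
    rw [Algebra.adjoin_le_iff]
    rintro _ rfl
    change τ i _ ∈ R.loc
    rw [ha]
    exact R.i_mem_loc _
  exact h2 hb

include hs hϖ hcard hext ha hdist in
/-- If the special fibre is connected, one integral conjugate is enough. -/
theorem GaussRed.mem_of_one (hconn : GaussConn 𝔬 E s ϖ) {z : E} (i : ι) (hz : τ i z ∈ R.loc) :
    z ∈ intGauss 𝔬 E s := by
  have H1S := R.selfDual hs hϖ τ hcard hext θ a ha hdist
  have hS : ∀ x ∈ intGauss 𝔬 E s, τ i x ∈ R.loc := fun x hx =>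
    R.conj_of_mem hs hϖ τ hcard hext θ a ha hdist hx i
  have := unique_valuation hs hϖ H1S hconn (R.loc.comap (τ i))
    (by
      intro c hc
      change τ i (algebraMap K₀ E c) ∈ R.loc
      rw [hext]
      exact R.φ_gauss hc)
    (by
      intro x hx
      by_cases hxS : x ∈ intGauss 𝔬 E s
      · exact absurd (hS x hxS) hx
      · obtain ⟨w, hw, hxw⟩ := mem_or_inv hs hϖ H1S hconn hxS
        rw [hxw]
        exact hS _ (Subring.mul_mem _ (algebraMap_mem_intGauss ϖ) hw))
    (by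
      intro h
      apply R.inv_not_mem hs hϖ
      have h1 : τ i (algebraMap 𝔬 E ϖ)⁻¹ ∈ R.loc := h
      rw [map_inv₀, IsScalarTower.algebraMap_apply 𝔬 K₀ E, hext, R.hφ] at h1
      exact h1)
  rw [← this]
  exact hz

include hs hϖ hcard hext ha hdist in
/-- congruences of `q`-expansions are congruences in the ring of Gauss integers. -/
theorem GaussRed.congr_one (hconn : GaussConn 𝔬 E s ϖ) {w : E} (i : ι) (P Q : B)
    (hPQ : τ i w * R.i Q = R.i P) (hQ : R.ρ Q ≠ 0) (hP : R.ρ P = R.ρ Q) :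
    ∃ σ ∈ intGauss 𝔬 E s, w - 1 = algebraMap 𝔬 E ϖ * σ := by
  have H1S := R.selfDual hs hϖ τ hcard hext θ a ha hdist
  have hw : w ∈ intGauss 𝔬 E s := R.mem_of_one hs hϖ τ hcard hext θ a ha hdist hconn i
    ⟨P, Q, hQ, hPQ⟩
  have hw1 : w - 1 ∈ intGauss 𝔬 E s := Subring.sub_mem _ hw (Subring.one_mem _)
  by_contra hne
  have hinv := unit_of_not_dvd hs hϖ H1S hconn hw1 hne
  obtain ⟨b, b', hb', hbb⟩ := R.conj_of_mem hs hϖ τ hcard hext θ a ha hdist hinv i
  have hw0 : w - 1 ≠ 0 := by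
    intro h0
    apply hne
    exact ⟨0, Subring.zero_mem _, by rw [h0, mul_zero]⟩
  have hτ0 : τ i (w - 1) ≠ 0 := (_root_.map_ne_zero _).mpr hw0
  rw [map_inv₀] at hbb
  have h1 : R.i (b' * Q) = R.i (b * (P - Q)) := by
    rw [map_mul, map_mul, map_sub, ← hPQ, ← hbb]
    rw [map_sub, map_one] at hτ0 ⊢
    field_simp
  have h2 := congrArg R.ρ (R.inj h1)
  rw [map_mul, map_mul, map_sub, hP, sub_self, mul_zero] at h2
  exact mul_ne_zero hb' hQ h2

end Main

end Fermat.Agent.H29
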