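import Mathlib
import Fermat.Agent.H29Etale

/-!
# Kummer injectivity and the `q`-expansion principle, in `q`-expansion form
-/

set_option autoImplicit false
set_option linter.unusedSectionVars false

namespace Fermat.Agent.H29

open Module nonZeroDivisors Polynomial IsLocalRing

section Main

variable {𝔬 L₀ K₀ E Υ : Type*} [CommRing 𝔬] [IsDomain 𝔬] [IsDiscreteValuationRing 𝔬]
  [Field L₀] [CharZero L₀] [Algebra 𝔬 L₀] [IsFractionRing 𝔬 L₀]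
  [Field K₀] [Algebra L₀ K₀] [Algebra 𝔬 K₀] [IsScalarTower 𝔬 L₀ K₀]
  [Field E] [Algebra K₀ E] [Algebra L₀ E] [Algebra 𝔬 E] [IsScalarTower L₀ K₀ E]
  [IsScalarTower 𝔬 K₀ E] [FiniteDimensional K₀ E]
  [Field Υ] [CharZero Υ] [IsAlgClosed Υ] [Algebra L₀ Υ]
  {s : K₀} (hs : IsRatGen L₀ s) {ϖ : 𝔬} (hϖ : Irreducible ϖ)
  {B F κ : Type*} [CommRing B] [Field F] [Field κ]
  (R : GaussRed 𝔬 s B F κ)
  {ι : Type*} [Finite ι] (τ : ι → (E →+* F)) (hcard : Nat.card ι = finrank K₀ E)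
    (hext : ∀ i x, τ i (algebraMap K₀ E x) = R.φ x) (θ : E) (a : ι → B)
    (ha : ∀ i, τ i θ = R.i (a i)) (hdist : ∀ i j, i ≠ j → R.ρ (a i) ≠ R.ρ (a j))
  (p : ℕ) (hp : ϖ ∣ (p : 𝔬)) (hp1 : 1 ≤ p)
  (c : 𝔬) (hc : IsUnit c) (ψ : E →+* LaurentSeries L₀)
  (hψ : ∀ c : L₀, ψ (algebraMap L₀ E c) = HahnSeries.C c)

include hs hϖ hcard hext ha hdist hp hp1 hc hψ in
/-- **The `q`-expansion principle**: if one conjugate of `z` is Gauss-integral, so are all. -/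
theorem qexp_principle
    (hemb : ∀ α : Υ, α ≠ 0 → α ≠ algebraMap L₀ Υ (algebraMap 𝔬 L₀ c) →
      Nonempty (EmbAt L₀ Υ E s α)) {z : E} (i j : ι) (hz : τ i z ∈ R.loc) : τ j z ∈ R.loc := by
  have H1S := R.selfDual hs hϖ τ hcard hext θ a ha hdist
  have hconn := gaussConn_of_emb hs hϖ p hp hp1 H1S c hc hemb ψ hψ
  exact R.conj_of_mem hs hϖ τ hcard hext θ a ha hdist
    (R.mem_of_one hs hϖ τ hcard hext θ a ha hdist hconn i hz) j

include hs hϖ hcard hext ha hdist hp hp1 hc hψ in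
/-- congruences of one conjugate imply congruences of all the others -/
theorem qexp_congr
    (hemb : ∀ α : Υ, α ≠ 0 → α ≠ algebraMap L₀ Υ (algebraMap 𝔬 L₀ c) →
      Nonempty (EmbAt L₀ Υ E s α)) {w : E} (i j : ι) (P Q : B)
    (hPQ : τ i w * R.i Q = R.i P) (hQ : R.ρ Q ≠ 0) (hP : R.ρ P = R.ρ Q) :
    ∃ P' Q' : B, τ j w * R.i Q' = R.i P' ∧ R.ρ Q' ≠ 0 ∧ R.ρ P' = R.ρ Q' := by
  have H1S := R.selfDual hs hϖ τ hcard hext θ a ha hdist
  have hconn := gaussConn_of_emb hs hϖ p hp hp1 H1S c hc hemb ψ hψ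
  obtain ⟨σ, hσ, hw⟩ := R.congr_one hs hϖ τ hcard hext θ a ha hdist hconn i P Q hPQ hQ hP
  obtain ⟨b, b', hb', hb⟩ := R.conj_of_mem hs hϖ τ hcard hext θ a ha hdist hσ j
  refine ⟨b' + R.o ϖ * b, b', ?_, hb', ?_⟩
  · have h1 : w = 1 + algebraMap 𝔬 E ϖ * σ := by rw [← hw]; ring
    rw [h1, map_add, map_one, map_mul, IsScalarTower.algebraMap_apply 𝔬 K₀ E, hext, R.hφ,
      map_add, map_mul, ← hb]
    ring
  · rw [map_add, map_mul, R.red ϖ (by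
      rw [hϖ.maximalIdeal_eq]; exact Ideal.mem_span_singleton_self _), zero_mul, add_zero]

include hs hϖ hcard hext ha hdist hp hp1 hc hψ in
/-- **Kummer injectivity** in `q`-expansion form. -/
theorem ki_qexp {m : ℕ} (hm : m.Prime) (hmu : IsUnit (m : 𝔬)) {w : E}
    (hemb : ∀ α : Υ, α ≠ 0 → α ≠ algebraMap L₀ Υ (algebraMap 𝔬 L₀ c) →
      ∃ D : EmbAt L₀ Υ E s α, ∀ i, (m : ℤ) ∣ (D.σ i w).order)
    (i : ι) (P Q : B)
    (hPQ : τ i w * R.i Q = R.i P) (hQ : R.ρ Q ≠ 0) (hP : R.ρ P = R.ρ Q)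
    (h₀ : LaurentSeries L₀) (hh : h₀ ^ m = ψ w) : ∃ g : E, g ^ m = w := by
  have H1S := R.selfDual hs hϖ τ hcard hext θ a ha hdist
  have hconn := gaussConn_of_emb hs hϖ p hp hp1 H1S c hc (fun α h1 h2 => by
    obtain ⟨D, -⟩ := hemb α h1 h2
    exact ⟨D⟩) ψ hψ
  obtain ⟨σ, hσ, hw⟩ := R.congr_one hs hϖ τ hcard hext θ a ha hdist hconn i P Q hPQ hQ hP
  exact ki_prime hs hϖ p hp hp1 H1S c hc ψ hψ hm hmu hemb hσ hw h₀ hh

end Main

end Fermat.Agent.H29
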