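import Mathlib
import Fermat.Agent.H29Final
import Fermat.Agent.H50EmbB
import Fermat.Agent.H58Num
import Fermat.Prelude.Def_ModularCurve_LaurentCoeff

/-! # Kummer injectivity and the `q`-expansion principle for a field with Laurent expansions
over a valuation ring (helper78) -/

set_option autoImplicit false
set_option linter.unusedSectionVars false

namespace Fermat.Agent.H78.KI

open Polynomial ModularCurve IntermediateField Fermat.Agent.H29 IsLocalRing Module

noncomputable section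

theorem coeffMap_C' {R S : Type*} [CommRing R] [CommRing S] (f : R →+* S) (c : R) :
    coeffMap f (HahnSeries.C c) = HahnSeries.C (f c) := by
  rw [HahnSeries.C_apply, HahnSeries.C_apply, coeffMap_single]

theorem coeffMap_inj' {R S : Type*} [CommRing R] [CommRing S] {f : R →+* S}
    (hf : Function.Injective f) : Function.Injective (coeffMap f) := by
  intro x y h
  ext n
  apply hf
  have := congrArg (fun z : LaurentSeries S => z.coeff n) h
  exact this

/-- a Laurent series of negative order is transcendental over the constants. -/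
theorem eval₂_ne_zero_of_order_neg {k : Type*} [Field k] {x : LaurentSeries k} (hx : x.order < 0)
    {p : k[X]} (hp : p ≠ 0) : eval₂ (HahnSeries.C : k →+* LaurentSeries k) x p ≠ 0 := by
  have hx0 : x ≠ 0 := by rintro rfl; simp at hx
  set n := p.natDegree with hn
  -- the coefficient at `n * order x`
  intro h
  have hc := congrArg (fun z : LaurentSeries k => z.coeff ((n : ℤ) * x.order)) h
  simp only [HahnSeries.coeff_zero] at hc
  rw [eval₂_eq_sum_range, HahnSeries.coeff_sum, Finset.sum_range_succ, Finset.sum_eq_zero] at hc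
  · rw [zero_add, HahnSeries.C_mul_eq_smul, HahnSeries.coeff_smul, smul_eq_mul] at hc
    have h1 : ((n : ℤ) * x.order) = (x ^ n).order := by
      rw [HahnSeries.order_pow]; simp
    rw [h1] at hc
    rcases mul_eq_zero.mp hc with h2 | h2
    · exact hp (leadingCoeff_eq_zero.mp h2)
    · exact HahnSeries.coeff_order_eq_zero.not.mpr (pow_ne_zero n hx0) h2
  · intro i hi
    rw [Finset.mem_range] at hi
    rw [HahnSeries.C_mul_eq_smul, HahnSeries.coeff_smul, smul_eq_mul]
    have h1 : (x ^ i).coeff ((n : ℤ) * x.order) = 0 := by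
      apply HahnSeries.coeff_eq_zero_of_lt_order
      rw [HahnSeries.order_pow]
      simp only [nsmul_eq_mul]
      have : (i : ℤ) < n := by exact_mod_cast hi
      nlinarith
    rw [h1, mul_zero]

section Abs

variable {Ω : Type*} [Field Ω] [Algebra Ω ℂ] (A : ValuationSubring Ω)

/-- the inclusion in `ℂ` -/
def aC : A →+* ℂ := (algebraMap Ω ℂ).comp A.subtype

theorem aC_injective : Function.Injective (aC A) :=
  (algebraMap Ω ℂ).injective.comp Subtype.val_injective

variable {𝔬 K E : Type*} [CommRing 𝔬] [IsDomain 𝔬] [IsDiscreteValuationRing 𝔬]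
  [Field K] [CharZero K] [Algebra 𝔬 K] [IsFractionRing 𝔬 K] [Algebra K Ω] [Algebra K ℂ]
  [IsScalarTower K Ω ℂ] [Field E] [Algebra K E]
  (oA : 𝔬 →+* A) [IsLocalHom oA] (hoA : ∀ c : 𝔬, ((oA c : A) : Ω) = algebraMap K Ω (algebraMap 𝔬 K c))
  {t : E} (ht : Transcendental K t)
  (tA : LaurentSeries A) (htA : (coeffMap (residue A) tA).order < 0)
  {ι : Type*} [Finite ι] (τ : ι → (E →ₐ[K] LaurentSeries ℂ))
  (hcard : Nat.card ι = finrank K⟮t⟯ E) (hτt : ∀ i, τ i t = coeffMap (aC A) tA)
  (θ : E) (a : ι → LaurentSeries A) (ha : ∀ i, τ i θ = coeffMap (aC A) (a i))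
  (hdist : ∀ i j, i ≠ j → coeffMap (residue A) (a i) ≠ coeffMap (residue A) (a j))

/-- the Gauss reduction data -/
def gaussRed (i₀ : ι) [Algebra 𝔬 E] [IsScalarTower 𝔬 K E] :
    GaussRed 𝔬 (AdjoinSimple.gen K t) (LaurentSeries A) (LaurentSeries ℂ)
      (LaurentSeries (ResidueField A)) where
  i := coeffMap (aC A)
  inj := coeffMap_inj' (aC_injective A)
  ρ := coeffMap (residue A)
  φ := (τ i₀ : E →+* LaurentSeries ℂ).comp (algebraMap K⟮t⟯ E)
  o := HahnSeries.C.comp oA
  hφ c := by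
    show τ i₀ (algebraMap K⟮t⟯ E (algebraMap 𝔬 K⟮t⟯ c)) = coeffMap (aC A) (HahnSeries.C (oA c))
    rw [coeffMap_C', IsScalarTower.algebraMap_apply 𝔬 K K⟮t⟯,
      ← IsScalarTower.algebraMap_apply K K⟮t⟯ E, AlgHom.commutes]
    have h1 : aC A (oA c) = algebraMap K ℂ (algebraMap 𝔬 K c) := by
      rw [IsScalarTower.algebraMap_apply K Ω ℂ, ← hoA]
      rfl
    rw [h1, HahnSeries.algebraMap_apply', PowerSeries.algebraMap_apply]
    simp
  s₀ := tA
  hs₀ := hτt i₀
  red c hc := by
    have h1 : oA c ∈ maximalIdeal A := by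
      rw [mem_maximalIdeal, mem_nonunits_iff]
      intro h
      rw [mem_maximalIdeal, mem_nonunits_iff] at hc
      exact hc (isUnit_of_map_unit oA c h)
    show coeffMap (residue A) (HahnSeries.C (oA c)) = 0
    rw [coeffMap_C', (residue_eq_zero_iff _).mpr h1, map_zero]
  trans p hp := by
    have h1 : coeffMap (residue A) (eval₂ (HahnSeries.C.comp oA) tA p) =
        eval₂ (HahnSeries.C : ResidueField A →+* LaurentSeries (ResidueField A))
          (coeffMap (residue A) tA) ((p.map (residue 𝔬)).map (ResidueField.map oA)) := by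
      rw [Polynomial.hom_eval₂, eval₂_map, eval₂_map]
      congr 1
      ext1 c
      simp only [RingHom.comp_apply, coeffMap_C', ResidueField.map_residue]
    rw [h1]
    apply eval₂_ne_zero_of_order_neg htA
    rw [Ne, Polynomial.map_eq_zero]
    exact hp

variable (p : ℕ) (hp1 : 1 ≤ p) (hpA : residue A (p : A) = 0)
  (c : 𝔬) (hc : IsUnit c) (ψ : E →ₐ[K] LaurentSeries K) [FiniteDimensional K⟮t⟯ E]

include oA hpA in
theorem dvd_p (ϖ : 𝔬) (hϖ : Irreducible ϖ) : ϖ ∣ (p : 𝔬) := by
  rw [← Ideal.mem_span_singleton, ← hϖ.maximalIdeal_eq, mem_maximalIdeal, mem_nonunits_iff]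
  intro h
  have h1 : IsUnit ((p : ℕ) : A) := by
    have := h.map oA
    rwa [map_natCast] at this
  rw [residue_eq_zero_iff, mem_maximalIdeal, mem_nonunits_iff] at hpA
  exact hpA h1

include hoA ht htA hcard hτt ha hdist hp1 hpA hc ψ in
/-- **Kummer injectivity**, abstract form. -/
theorem ki_abs {m : ℕ} (hm : m.Prime) (hmu : IsUnit (m : 𝔬)) {w : E}
    (hemb : ∀ α : ℂ, α ≠ 0 → α ≠ algebraMap K ℂ (algebraMap 𝔬 K c) →
      ∃ D : EmbAt K ℂ E (AdjoinSimple.gen K t) α, ∀ i, (m : ℤ) ∣ (D.σ i w).order)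
    (i : ι) (P Q : LaurentSeries A)
    (hPQ : τ i w * coeffMap (aC A) Q = coeffMap (aC A) P)
    (hQ : coeffMap (residue A) Q ≠ 0) (hP : coeffMap (residue A) P = coeffMap (residue A) Q)
    (h₀ : LaurentSeries K) (hh : h₀ ^ m = ψ w) : ∃ g : E, g ^ m = w := by
  letI : Algebra 𝔬 E := ((algebraMap K E).comp (algebraMap 𝔬 K)).toAlgebra
  haveI : IsScalarTower 𝔬 K E := IsScalarTower.of_algebraMap_eq fun _ => rfl
  haveI : IsScalarTower 𝔬 K⟮t⟯ E := IsScalarTower.of_algebraMap_eq fun _ => rfl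
  obtain ⟨ϖ, hϖ⟩ := IsDiscreteValuationRing.exists_irreducible 𝔬
  have hs := Fermat.Agent.H50.Haupt.isRatGen_gen ht
  exact Fermat.Agent.H29.ki_qexp hs hϖ (gaussRed A oA hoA tA htA τ hτt i)
    (fun j => (τ j : E →+* LaurentSeries ℂ)) hcard
    (fun j x => Fermat.Agent.H50.Haupt.algHom_eq_on_adjoin ((hτt j).trans (hτt i).symm) x.2)
    θ a ha hdist p (dvd_p A oA p hpA ϖ hϖ) hp1 c hc (ψ : E →+* LaurentSeries K)
    (fun c => by
      show ψ (algebraMap K E c) = _
      rw [AlgHom.commutes, algebraMap_laurentSeries_eq_single]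
      rfl)
    hm hmu hemb i P Q hPQ hQ hP h₀ hh

include hoA ht htA hcard hτt ha hdist hp1 hpA hc ψ in
/-- **The `q`-expansion principle**, abstract form. -/
theorem qe_abs
    (hemb : ∀ α : ℂ, α ≠ 0 → α ≠ algebraMap K ℂ (algebraMap 𝔬 K c) →
      Nonempty (EmbAt K ℂ E (AdjoinSimple.gen K t) α)) {z : E} (i j : ι)
    (hz : ∃ P Q : LaurentSeries A, coeffMap (residue A) Q ≠ 0 ∧
      τ i z * coeffMap (aC A) Q = coeffMap (aC A) P) :
    ∃ P Q : LaurentSeries A, coeffMap (residue A) Q ≠ 0 ∧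
      τ j z * coeffMap (aC A) Q = coeffMap (aC A) P := by
  letI : Algebra 𝔬 E := ((algebraMap K E).comp (algebraMap 𝔬 K)).toAlgebra
  haveI : IsScalarTower 𝔬 K E := IsScalarTower.of_algebraMap_eq fun _ => rfl
  haveI : IsScalarTower 𝔬 K⟮t⟯ E := IsScalarTower.of_algebraMap_eq fun _ => rfl
  obtain ⟨ϖ, hϖ⟩ := IsDiscreteValuationRing.exists_irreducible 𝔬
  have hs := Fermat.Agent.H50.Haupt.isRatGen_gen ht
  exact Fermat.Agent.H29.qexp_principle hs hϖ (gaussRed A oA hoA tA htA τ hτt i)
    (fun j => (τ j : E →+* LaurentSeries ℂ)) hcard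
    (fun j x => Fermat.Agent.H50.Haupt.algHom_eq_on_adjoin ((hτt j).trans (hτt i).symm) x.2)
    θ a ha hdist p (dvd_p A oA p hpA ϖ hϖ) hp1 c hc (ψ : E →+* LaurentSeries K)
    (fun c => by
      show ψ (algebraMap K E c) = _
      rw [AlgHom.commutes, algebraMap_laurentSeries_eq_single]
      rfl)
    hemb i j hz

end Abs

end

end Fermat.Agent.H78.KI
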