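import Mathlib
import Fermat.Agent.H78KIAbs
import Fermat.Agent.H78KICore
import Fermat.Agent.H50EmbC
import Fermat.Agent.H58Sep
import Fermat.Agent.H22TwPm
import Fermat.Agent.H05_FreyGood

/-! # The data of the abstract theorems for `±Γ₁(M) ∩ Γ₀(r)` (helper78) -/

set_option autoImplicit false
set_option linter.unusedSectionVars false

namespace Fermat.Agent.H78.KI

open UpperHalfPlane hiding I
open Complex MatrixGroups ModularGroup CongruenceSubgroup Fermat.Agent.H61 ModularCurve Polynomial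
open Fermat.Agent.H24 Fermat.Agent.H78.FF Fermat.Agent.H50.Haupt Fermat.Agent.H58
open IntermediateField IsLocalRing Module
open Fermat.Agent.H66 (HasLead)
open Fermat.Agent.H22.Tw (pmG mem_pmG)

noncomputable section

local notation "𝕢" => Function.Periodic.qParam

/-! ### the Hauptmodul with its integral expansion -/

/-- a Hauptmodul with an integral expansion -/
structure HaupZ (K : Type*) [Field K] [Algebra K ℂ] (r : ℕ) [NeZero r] (N : ℕ) [NeZero N]
    extends Haup K r N where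
  /-- the integral expansion -/
  tZ : LaurentSeries ℤ
  lead : HasLead tZ (-1) 1
  t_eq : coeffMap (Int.castRingHom K) tZ = t
  /-- the elliptic value -/
  cZ : ℤ
  c_eq : c = (cZ : ℂ)
  c_pow : ∃ k : ℕ, cZ = -((r : ℤ) ^ k)

theorem exists_haupZ (K : Type*) [Field K] [Algebra K ℂ] (r : ℕ) [NeZero r] (N : ℕ) [NeZero N]
    (hr : r = 2 ∨ r = 3) (hN : r ∣ N) : Nonempty (HaupZ K r N) := by
  rcases hr with rfl | rfl
  · exact ⟨{ haup2 K N hN with
      tZ := Fermat.Agent.H23.Haupt.t2 ℤ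
      lead := Fermat.Agent.H23.Haupt.hasLead_t2 ℤ
      t_eq := Fermat.Agent.H23.Haupt.coeffMap_t2 _
      cZ := -64
      c_eq := by show (-64 : ℂ) = _; norm_num
      c_pow := ⟨6, by norm_num⟩ }⟩
  · exact ⟨{ haup3 K N hN with
      tZ := Fermat.Agent.H23.Haupt.t3 ℤ
      lead := Fermat.Agent.H23.Haupt.hasLead_t3 ℤ
      t_eq := Fermat.Agent.H23.Haupt.coeffMap_t3 _
      cZ := -27
      c_eq := by show (-27 : ℂ) = _; norm_num
      c_pow := ⟨3, by norm_num⟩ }⟩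

/-! ### roots of unity, lifts -/

section Lifts

variable {Ω : Type*} [Field Ω] [CharZero Ω] [IsAlgClosed Ω] [Algebra Ω ℂ]

theorem exists_root_Ω (D : ℕ) [NeZero D] {z : ℂ} (hz : z ^ D = 1) :
    ∃ w : Ω, w ^ D = 1 ∧ algebraMap Ω ℂ w = z := by
  have hD : ((D : ℕ) : Ω) ≠ 0 := by exact_mod_cast NeZero.ne D
  have hne : NeZero ((D : ℕ) : Ω) := ⟨hD⟩
  obtain ⟨w, hw⟩ := HasEnoughRootsOfUnity.exists_primitiveRoot Ω D
  have hw' : IsPrimitiveRoot (algebraMap Ω ℂ w) D := hw.map_of_injective (algebraMap Ω ℂ).injective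
  obtain ⟨i, -, hi⟩ := hw'.eq_pow_of_pow_eq_one hz
  exact ⟨w ^ i, by rw [← pow_mul, mul_comm, pow_mul, hw.pow_eq_one, one_pow], by
    rw [map_pow, hi]⟩

theorem roots_mem {K : Type*} [Field K] [Algebra K Ω] [Algebra K ℂ] [IsScalarTower K Ω ℂ]
    (D : ℕ) [NeZero D] (hK : ∀ z : Ω, z ^ D = 1 → z ∈ (algebraMap K Ω).range) :
    ∀ z : ℂ, z ^ D = 1 → z ∈ (algebraMap K ℂ).range := by
  intro z hz
  obtain ⟨w, hw, rfl⟩ := exists_root_Ω (Ω := Ω) D hz
  obtain ⟨y, rfl⟩ := hK w hw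
  exact ⟨y, IsScalarTower.algebraMap_apply K Ω ℂ y⟩

variable (A : ValuationSubring Ω)

theorem mem_of_pow_eq_one {D : ℕ} [NeZero D] {w : Ω} (hw : w ^ D = 1) : w ∈ A := by
  have h1 : IsIntegral A w := by
    refine ⟨X ^ D - C 1, monic_X_pow_sub_C 1 (NeZero.ne D), ?_⟩
    simp [hw]
  obtain ⟨b, hb⟩ := IsIntegrallyClosed.isIntegral_iff.mp h1
  rw [← hb]
  exact b.2

theorem isCyc_aC (D : ℕ) [NeZero D] (hD : IsUnit (D : A)) : IsCyc D (aC A).range := by
  constructor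
  · intro z hz
    obtain ⟨w, hw, rfl⟩ := exists_root_Ω (Ω := Ω) D hz
    exact ⟨⟨w, mem_of_pow_eq_one A hw⟩, rfl⟩
  · obtain ⟨u, hu⟩ := hD
    refine ⟨((u⁻¹ : Aˣ) : A), ?_⟩
    apply eq_inv_of_mul_eq_one_left
    have : ((D : ℕ) : ℂ) = aC A (u : A) := by rw [hu, map_natCast]
    rw [this, ← map_mul, u.inv_mul, map_one]

theorem exists_lift_laurent (x : LaurentSeries ℂ) (hx : ∀ n, x.coeff n ∈ (aC A).range) :
    ∃ a : LaurentSeries A, coeffMap (aC A) a = x := by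
  choose a ha using hx
  refine ⟨⟨a, ?_⟩, ?_⟩
  · refine x.isPWO_support.mono ?_
    intro n hn
    rw [Function.mem_support] at hn
    rw [HahnSeries.mem_support]
    intro h
    apply hn
    apply aC_injective A
    rw [ha, h, map_zero]
  · ext n
    exact ha n

end Lifts

/-! ### the group -/

instance finiteIndex_GG (M r : ℕ) [NeZero M] [NeZero r] : (GG M r).FiniteIndex := by
  have h1 : (pmG M).FiniteIndex := Fermat.Agent.H22.Tw.finiteIndex_pmG
  have h2 : (Gamma0 r).FiniteIndex := inferInstance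
  exact inferInstanceAs (pmG M ⊓ Gamma0 r).FiniteIndex

theorem GG_le (M r : ℕ) : GG M r ≤ Gamma0 r := inf_le_right

section Group

variable {K : Type*} [Field K] [CharZero K] [Algebra K ℂ]
  {M r : ℕ} [NeZero M] [NeZero r] [NeZero (M * r)] (hM : 2 ≤ M) (hr : r = 2 ∨ r = 3)

include hM hr in
theorem sep_GG (hK : ∀ z : ℂ, z ^ (M * r) = 1 → z ∈ (algebraMap K ℂ).range)
    (H : HaupZ K r (M * r)) : Sep K (GG M r) (M * r) := by
  intro γ hγ
  have h0 : γ ∈ Gamma0 r := by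
    apply H.sep
    intro τ
    have h1 := hγ H.t (good_mono (GG_le M r) H.good)
    rw [H.ev_t] at h1
    exact congrFun h1 τ
  obtain ⟨x, hx, hev, -⟩ := exists_good (M := M) (r := r) hM hr K hK
  have h1 := hγ x hx
  rw [hev] at h1
  have h2 := (th_comp_eq_iff (M := M) hM hr (one_mem (Gamma0 r)) h0).mp (by
    rw [h1]; ext τ; simp)
  rw [inv_one, mul_one] at h2
  exact ⟨h2, h0⟩

theorem phi_one_eq {Γ : Subgroup SL(2, ℤ)} {N : ℕ} [NeZero N] (x : GoodAlg K Γ N) :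
    H78.FF.phi (H78.FF.goodChart_qParam K Γ N) 1 x = qExpand ℂ N (incl K (x : LaurentSeries K)) := by
  apply H78.FF.phi_eq
  have hc := (good_of_mem x.2).conv
  refine ⟨isConv_qExpand N hc, fun τ hτ => ?_⟩
  rw [evalAt_qExpand N hc hτ (qParam_norm_lt_one N τ), qParam_pow_self]
  show _ = ev K (x : LaurentSeries K) ((1 : SL(2, ℤ)) • τ)
  rw [one_smul]
  rfl

/-- the embeddings over the Hauptmodul line -/
def tau (K : Type*) [Field K] [Algebra K ℂ] (M r : ℕ) [NeZero (M * r)]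
    (i : Gamma0 r ⧸ (GG M r).subgroupOf (Gamma0 r)) :
    FF K (GG M r) (M * r) →ₐ[K] LaurentSeries ℂ :=
  sFF (goodChart_qParam K (GG M r) (M * r)) (Haup.cosetMap r (GG M r) i)

theorem sFF_goodAlg {Γ : Subgroup SL(2, ℤ)} {N : ℕ} [NeZero N] (γ : SL(2, ℤ)) (x : GoodAlg K Γ N)
    {F : LaurentSeries ℂ} (hF : HasExpC (fun τ : ℍ => 𝕢 (N : ℝ) τ)
      (compHom γ⁻¹ (ev K (x : LaurentSeries K))) F) :
    sFF (goodChart_qParam K Γ N) (QuotientGroup.mk γ) (algebraMap _ _ x) = F := by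
  rw [sFF_algebraMap, H78.FF.sA_mk]
  exact H78.FF.phi_eq _ hF

theorem tau_tF (H : HaupZ K r (M * r)) (i : Gamma0 r ⧸ (GG M r).subgroupOf (Gamma0 r)) :
    tau K M r i (H.tF (GG_le M r)) =
      qExpand ℂ (M * r) (coeffMap (Int.castRingHom ℂ) H.tZ) := by
  have h1 : phi (goodChart_qParam K (GG M r) (M * r)) 1 (H.tG (GG_le M r)) =
      qExpand ℂ (M * r) (incl K H.t) := phi_one_eq _
  have h2 : incl K H.t = coeffMap (Int.castRingHom ℂ) H.tZ := by
    rw [← H.t_eq, incl, coeffMap_coeffMap]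
    exact coeffMap_congr (RingHom.ext_int _ _) _
  rw [← h2, ← h1, ← Haup.algebraMap_tG, tau, Haup.cosetMap]
  apply sFF_goodAlg
  have h3 := phi_spec (goodChart_qParam K (GG M r) (M * r)) 1 (H.tG (GG_le M r))
  refine ⟨h3.1, fun τ hτ => ?_⟩
  rw [h3.2 τ hτ]
  show ev K H.t ((1 : SL(2, ℤ)) • τ) = ev K H.t (_ • τ)
  rw [H.ev_t, H.inv_f (inv_mem (Quotient.out i).2), one_smul]

theorem card_tau (hsep : Sep K (GG M r) (M * r)) (H : HaupZ K r (M * r)) :
    Nat.card (Gamma0 r ⧸ (GG M r).subgroupOf (Gamma0 r)) =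
      finrank K⟮H.tF (GG_le M r)⟯ (FF K (GG M r) (M * r)) :=
  (H.finrank_tF (GG_le M r) hsep).symm

end Group

end

end Fermat.Agent.H78.KI
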