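import Mathlib
import Fermat.Agent.H78KISetup
import Fermat.Prelude.Thm_ModularCurve_coeffMap_qExpand

/-! # Kummer injectivity and the `q`-expansion principle for `±Γ₁(M) ∩ Γ₀(r)` over a number
field (helper78) -/

set_option autoImplicit false
set_option linter.unusedSectionVars false

namespace Fermat.Agent.H78.KI

open UpperHalfPlane hiding I
open Complex MatrixGroups ModularGroup CongruenceSubgroup Fermat.Agent.H61 ModularCurve Polynomial
open Fermat.Agent.H24 Fermat.Agent.H78.FF Fermat.Agent.H50.Haupt Fermat.Agent.H58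
open IntermediateField IsLocalRing Module
open Fermat.Agent.H66 (HasLead)
open Fermat.Agent.H22.Tw (pmG mem_pmG)

noncomputable section

local notation "𝕢" => Function.Periodic.qParam

section Main

variable {Ω : Type*} [Field Ω] [CharZero Ω] [IsAlgClosed Ω] [Algebra Ω ℂ] (A : ValuationSubring Ω)
  {K : Type*} [Field K] [CharZero K] [Algebra K Ω] [Algebra K ℂ] [IsScalarTower K Ω ℂ]
  {M r : ℕ} [NeZero M] [NeZero r] [NeZero (M * r)] (hM : 2 ≤ M) (hr : r = 2 ∨ r = 3)
  (hK : ∀ z : Ω, z ^ (M * r) = 1 → z ∈ (algebraMap K Ω).range)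

include hM hr hK in
/-- the generator with distinct reductions of the conjugates -/
theorem exists_theta (hD : IsUnit ((M * r : ℕ) : A)) : ∃ (θ : FF K (GG M r) (M * r))
    (a : Gamma0 r ⧸ (GG M r).subgroupOf (Gamma0 r) → LaurentSeries A),
      (∀ i, tau K M r i θ = coeffMap (aC A) (a i)) ∧
      ∀ i j, i ≠ j → coeffMap (residue A) (a i) ≠ coeffMap (residue A) (a j) := by
  have hr2 : 2 ≤ r := by rcases hr with rfl | rfl <;> norm_num
  have hK' := roots_mem (K := K) (M * r) hK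
  obtain ⟨x, hx, hev, -⟩ := exists_good (M := M) (r := r) hM hr K hK'
  have hR := isCyc_aC A (M * r) hD
  have hlift : ∀ i : Gamma0 r ⧸ (GG M r).subgroupOf (Gamma0 r), ∃ a : LaurentSeries A,
      coeffMap (aC A) a = thS M r ((Quotient.out i : Gamma0 r) : SL(2, ℤ))⁻¹ := fun i =>
    exists_lift_laurent A _ (thS_coeff_mem hR hM hr2 _)
  choose a ha using hlift
  refine ⟨algebraMap (GoodAlg K (GG M r) (M * r)) _ ⟨x, hx⟩, a, fun i => ?_, fun i j hij h => ?_⟩
  · rw [ha]
    apply sFF_goodAlg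
    show HasExpC _ (compHom _ (ev K x)) _
    rw [hev]
    exact hasExpC_th hM hr2 _
  · have hbij : Function.Bijective (aC A).rangeRestrict := by
      refine ⟨fun x y hxy => aC_injective A ?_, (aC A).rangeRestrict_surjective⟩
      exact congrArg Subtype.val hxy
    let e : A ≃+* (aC A).range := RingEquiv.ofBijective _ hbij
    let φ : (aC A).range →+* ResidueField A := (residue A).comp (e.symm : (aC A).range →+* A)
    have hφ : ∀ (y : A) (z : (aC A).range), aC A y = z → φ z = residue A y := by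
      intro y z hyz
      have h1 : e y = z := Subtype.ext hyz
      show residue A (e.symm z) = _
      rw [← h1, e.symm_apply_apply]
    have hne : ((Quotient.out j : Gamma0 r) : SL(2, ℤ))⁻¹ *
        (((Quotient.out i : Gamma0 r) : SL(2, ℤ))⁻¹)⁻¹ ∉ pmG M := by
      intro hmem
      apply hij
      rw [← Quotient.out_eq i, ← Quotient.out_eq j]
      symm
      refine QuotientGroup.eq.mpr ?_
      rw [Subgroup.mem_subgroupOf]
      refine ⟨?_, ?_⟩
      · rw [inv_inv] at hmem; exact hmem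
      · exact ((Quotient.out j)⁻¹ * Quotient.out i : Gamma0 r).2
    obtain ⟨n, hn⟩ := exists_ne_thS hR hM hr hr2 φ (inv_mem (Quotient.out i).2)
      (inv_mem (Quotient.out j).2) hne
    apply hn
    rw [hφ ((a i).coeff n) _ (by
        have := congrArg (fun z : LaurentSeries ℂ => z.coeff n) (ha i)
        exact this),
      hφ ((a j).coeff n) _ (by
        have := congrArg (fun z : LaurentSeries ℂ => z.coeff n) (ha j)
        exact this)]
    exact congrArg (fun z : LaurentSeries (ResidueField A) => z.coeff n) h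

theorem isUnit_natCast {p : ℕ} (hp : p.Prime) (hA : A.LiesOverPrime p) {n : ℕ} (hn : ¬ p ∣ n) :
    IsUnit ((n : ℕ) : A) := by
  have h1 := Fermat.Agent.H05.natCast_residue_ne_zero hp hA hn
  rw [← map_natCast (residue A)] at h1
  exact (residue_ne_zero_iff_isUnit _).mp h1

theorem residue_p {p : ℕ} (hA : A.LiesOverPrime p) : residue A ((p : ℕ) : A) = 0 := by
  rw [residue_eq_zero_iff, ← A.coe_mem_nonunits_iff]
  exact_mod_cast hA

/-- the identity coset -/
def i₀ (M r : ℕ) : Gamma0 r ⧸ (GG M r).subgroupOf (Gamma0 r) := QuotientGroup.mk 1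

theorem cosetMap_mk (γ : Gamma0 r) :
    Haup.cosetMap r (GG M r) (QuotientGroup.mk γ) = QuotientGroup.mk (γ : SL(2, ℤ)) := by
  rw [Haup.cosetMap]
  have h1 : (QuotientGroup.mk (Quotient.out (QuotientGroup.mk γ :
      Gamma0 r ⧸ (GG M r).subgroupOf (Gamma0 r))) :
      Gamma0 r ⧸ (GG M r).subgroupOf (Gamma0 r)) = QuotientGroup.mk γ := Quotient.out_eq _
  have h2 := QuotientGroup.eq.mp h1
  rw [Subgroup.mem_subgroupOf] at h2
  exact QuotientGroup.eq.mpr h2

theorem tau_mk (γ : Gamma0 r) (x : GoodAlg K (GG M r) (M * r))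
    {F : LaurentSeries ℂ} (hF : HasExpC (fun τ : ℍ => 𝕢 ((M * r : ℕ) : ℝ) τ)
      (compHom (γ : SL(2, ℤ))⁻¹ (ev K (x : LaurentSeries K))) F) :
    tau K M r (QuotientGroup.mk γ) (algebraMap _ _ x) = F := by
  rw [tau, cosetMap_mk]
  exact sFF_goodAlg _ x hF

theorem tau_i₀ (x : GoodAlg K (GG M r) (M * r)) :
    tau K M r (i₀ M r) (algebraMap _ _ x) =
      qExpand ℂ (M * r) (incl K (x : LaurentSeries K)) := by
  apply tau_mk
  rw [← phi_one_eq]
  have h3 := H78.FF.phi_spec (H78.FF.goodChart_qParam K (GG M r) (M * r)) 1 x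
  refine ⟨h3.1, fun τ hτ => ?_⟩
  rw [h3.2 τ hτ]
  simp

/-- the integral expansion of the Hauptmodul -/
def tAA (H : HaupZ K r (M * r)) : LaurentSeries A :=
  coeffMap (Int.castRingHom A) (qExpand ℤ (M * r) H.tZ)

theorem coeffMap_tAA (H : HaupZ K r (M * r)) :
    coeffMap (aC A) (tAA A H) = qExpand ℂ (M * r) (coeffMap (Int.castRingHom ℂ) H.tZ) := by
  rw [tAA, coeffMap_coeffMap, ← ModularCurve.coeffMap_qExpand]
  exact coeffMap_congr (RingHom.ext_int _ _) _

theorem order_tAA (H : HaupZ K r (M * r)) : (coeffMap (residue A) (tAA A H)).order < 0 := by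
  have h1 := (H.lead.qExpand (M * r))
  have h2 : HasLead (coeffMap (residue A) (tAA A H)) (((M * r : ℕ) : ℤ) * -1) 1 := by
    rw [tAA, coeffMap_coeffMap]
    constructor
    · rw [coeffMap_coeff, h1.1, map_one]
    · intro m hm
      rw [coeffMap_coeff, h1.2 m hm, map_zero]
  have h3 : (coeffMap (residue A) (tAA A H)).order ≤ ((M * r : ℕ) : ℤ) * -1 := by
    apply HahnSeries.order_le_of_coeff_ne_zero
    rw [h2.1]
    exact one_ne_zero
  have h4 : (0 : ℤ) < ((M * r : ℕ) : ℤ) := by exact_mod_cast Nat.pos_of_ne_zero (NeZero.ne (M * r))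
  linarith

theorem finite_ι : Finite (Gamma0 r ⧸ (GG M r).subgroupOf (Gamma0 r)) := by
  have := Subgroup.instFiniteIndex_subgroupOf (GG M r) (Gamma0 r)
  exact Subgroup.finite_quotient_of_finiteIndex

theorem isUnit_comap_natCast {p : ℕ} (hp : p.Prime) (hA : A.LiesOverPrime p) {n : ℕ}
    (hn : ¬ p ∣ n) : IsUnit ((n : ℕ) : A.comap (algebraMap K Ω)) := by
  apply isUnit_of_map_unit (comapIncl (L := K) A)
  rw [map_natCast]
  exact isUnit_natCast A hp hA hn

theorem isUnit_cZ {p : ℕ} (hp : p.Prime) (hA : A.LiesOverPrime p) (hr : ¬ p ∣ r)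
    (H : HaupZ K r (M * r)) : IsUnit ((H.cZ : ℤ) : A.comap (algebraMap K Ω)) := by
  obtain ⟨k, hk⟩ := H.c_pow
  rw [hk]
  push_cast
  exact ((isUnit_comap_natCast A hp hA hr).pow k).neg

theorem not_dvd_mul {p : ℕ} (hp : p.Prime) (hr : r = 2 ∨ r = 3) (hpM : ¬ p ∣ M) (hpr : p ≠ r) :
    ¬ p ∣ r ∧ ¬ p ∣ M * r := by
  have hrp : r.Prime := by rcases hr with rfl | rfl <;> norm_num
  have h1 : ¬ p ∣ r := fun h => hpr ((Nat.prime_dvd_prime_iff_eq hp hrp).mp h)
  exact ⟨h1, fun h => (hp.dvd_mul.mp h).elim hpM h1⟩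

variable [IsDiscreteValuationRing (A.comap (algebraMap K Ω))]

theorem coe_comapIncl' (c : A.comap (algebraMap K Ω)) :
    ((comapIncl (L := K) A c : A) : Ω) =
      algebraMap K Ω (algebraMap (A.comap (algebraMap K Ω)) K c) := rfl

include hM hr hK in
/-- **Kummer injectivity** for `±Γ₁(M) ∩ Γ₀(r)` over `K`. -/
theorem ki_FF {n p : ℕ} (hn : n.Prime) (hp : p.Prime) (hA : A.LiesOverPrime p) (hpM : ¬ p ∣ M)
    (hpr : p ≠ r) (hpn : ¬ p ∣ n) (u₁ u₂ : GoodAlg K (GG M r) (M * r)) {h₁ h₂ : ℍ → ℂ}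
    (hh₁ : h₁ ∈ Hol) (hh₂ : h₂ ∈ Hol)
    (e₁ : ∀ τ, h₁ τ ^ n = ev K (u₁ : LaurentSeries K) τ)
    (e₂ : ∀ τ, h₂ τ ^ n = ev K (u₂ : LaurentSeries K) τ)
    (P Q : LaurentSeries A) (hP : coeffMap (aC A) P = incl K (u₁ : LaurentSeries K))
    (hQ : coeffMap (aC A) Q = incl K (u₂ : LaurentSeries K))
    (hQ0 : coeffMap (residue A) Q ≠ 0) (hPQ : coeffMap (residue A) P = coeffMap (residue A) Q)
    (h₀ : LaurentSeries K) (hh₀ : h₀ ^ n * (u₂ : LaurentSeries K) = u₁) :
    ∃ g : FF K (GG M r) (M * r), g ^ n * algebraMap (GoodAlg K (GG M r) (M * r)) _ u₂ =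
      algebraMap (GoodAlg K (GG M r) (M * r)) _ u₁ := by
  obtain ⟨hpr', hpMr⟩ := not_dvd_mul (M := M) hp hr hpM hpr
  obtain ⟨H⟩ := exists_haupZ K r (M * r) hr (dvd_mul_left r M)
  have hsep := sep_GG hM hr (roots_mem (M * r) hK) H
  obtain ⟨θ, a, ha, hdist⟩ := exists_theta A hM hr hK (isUnit_natCast A hp hA hpMr)
  have := finite_ι (M := M) (r := r)
  have := H.finiteDimensional_tF (GG_le M r) hsep
  have hu₂ : (u₂ : LaurentSeries K) ≠ 0 := by
    intro h
    rw [h, map_zero] at hQ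
    have : Q = 0 := coeffMap_inj' (aC_injective A) (by rw [hQ, map_zero])
    exact hQ0 (by rw [this, map_zero])
  have hu₂' : algebraMap (GoodAlg K (GG M r) (M * r)) (FF K (GG M r) (M * r)) u₂ ≠ 0 := by
    intro h
    exact hu₂ (congrArg (fun z : FF K (GG M r) (M * r) => (z : LaurentSeries K)) h)
  set w : FF K (GG M r) (M * r) := algebraMap (GoodAlg K (GG M r) (M * r)) _ u₁ /
    algebraMap (GoodAlg K (GG M r) (M * r)) _ u₂ with hw
  obtain ⟨g, hg⟩ := ki_abs (w := w) A (comapIncl (L := K) A) (coe_comapIncl' A)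
    (H.transcendental_tF (GG_le M r)) (tAA A H) (order_tAA A H) (tau K M r) (card_tau hsep H)
    (fun i => (tau_tF H i).trans (coeffMap_tAA A H).symm) θ a ha hdist p hp.one_le
    (residue_p A hA) (H.cZ : A.comap (algebraMap K Ω)) (isUnit_cZ A hp hA hpr' H)
    (FF K (GG M r) (M * r)).val hn (isUnit_comap_natCast A hp hA hpn)
    (fun α h0 hc => by
      refine H.exists_embAt_dvd (GG_le M r) hsep n u₁ u₂ (A := h₁) (B := h₂) (U := fun _ => 1)
        hh₁ hh₂ (Hol.one_mem) (fun τ => by rw [mul_one, e₁]) (fun τ => by rw [mul_one, e₂]) α h0 ?_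
      rw [H.c_eq]
      rwa [map_intCast, map_intCast] at hc)
    (i₀ M r) (qExpand A (M * r) P) (qExpand A (M * r) Q)
    (by
      rw [ModularCurve.coeffMap_qExpand, ModularCurve.coeffMap_qExpand, hP, hQ, ← tau_i₀,
        ← tau_i₀, ← map_mul, hw, div_mul_cancel₀ _ hu₂'])
    (by
      rw [ModularCurve.coeffMap_qExpand]
      exact (map_ne_zero_iff _ (ModularCurve.qExpand_injective (M * r))).mpr hQ0)
    (by
      rw [ModularCurve.coeffMap_qExpand, ModularCurve.coeffMap_qExpand, hPQ])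
    h₀ (by
      show h₀ ^ n = (w : LaurentSeries K)
      exact eq_div_of_mul_eq hu₂ hh₀)
  refine ⟨g, ?_⟩
  rw [hg, hw, div_mul_cancel₀ _ hu₂']

include hM hr hK in
/-- **The `q`-expansion principle** for `±Γ₁(M) ∩ Γ₀(r)` over `K`. -/
theorem qe_FF {p : ℕ} (hp : p.Prime) (hA : A.LiesOverPrime p) (hpM : ¬ p ∣ M)
    (hpr : p ≠ r) (x : GoodAlg K (GG M r) (M * r)) (P : LaurentSeries A)
    (hP : coeffMap (aC A) P = incl K (x : LaurentSeries K))
    (j : Gamma0 r ⧸ (GG M r).subgroupOf (Gamma0 r)) :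
    ∃ P' Q' : LaurentSeries A, coeffMap (residue A) Q' ≠ 0 ∧
      tau K M r j (algebraMap (GoodAlg K (GG M r) (M * r)) _ x) * coeffMap (aC A) Q' =
        coeffMap (aC A) P' := by
  obtain ⟨hpr', hpMr⟩ := not_dvd_mul (M := M) hp hr hpM hpr
  obtain ⟨H⟩ := exists_haupZ K r (M * r) hr (dvd_mul_left r M)
  have hsep := sep_GG hM hr (roots_mem (M * r) hK) H
  obtain ⟨θ, a, ha, hdist⟩ := exists_theta A hM hr hK (isUnit_natCast A hp hA hpMr)
  have := finite_ι (M := M) (r := r)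
  have := H.finiteDimensional_tF (GG_le M r) hsep
  refine qe_abs A (comapIncl (L := K) A) (coe_comapIncl' A)
    (H.transcendental_tF (GG_le M r)) (tAA A H) (order_tAA A H) (tau K M r) (card_tau hsep H)
    (fun i => (tau_tF H i).trans (coeffMap_tAA A H).symm) θ a ha hdist p hp.one_le
    (residue_p A hA) (H.cZ : A.comap (algebraMap K Ω)) (isUnit_cZ A hp hA hpr' H)
    (FF K (GG M r) (M * r)).val
    (fun α h0 hc => by
      refine H.exists_embAt (GG_le M r) hsep α h0 ?_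
      rw [H.c_eq]
      rwa [map_intCast, map_intCast] at hc)
    (i₀ M r) j ⟨qExpand A (M * r) P, 1, ?_, ?_⟩
  · rw [map_one]; exact one_ne_zero
  · rw [map_one, mul_one, ModularCurve.coeffMap_qExpand, hP, tau_i₀]

include hM hr hK in
/-- **The `q`-expansion principle**, second form. -/
theorem qe_const {p : ℕ} (hp : p.Prime) (hA : A.LiesOverPrime p) (hpM : ¬ p ∣ M)
    (hpr : p ≠ r) (x : GoodAlg K (GG M r) (M * r)) (P : LaurentSeries A)
    (hP : coeffMap (aC A) P = incl K (x : LaurentSeries K)) {δ : SL(2, ℤ)} (hδ : δ ∈ Gamma0 r)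
    (X : LaurentSeries A) (c : Ω) (hX : coeffMap (residue A) X ≠ 0)
    (hexp : HasExpC (fun τ : ℍ => 𝕢 ((M * r : ℕ) : ℝ) τ) (compHom δ (ev K (x : LaurentSeries K)))
      (coeffMap (algebraMap Ω ℂ) (HahnSeries.C c * coeffMap A.subtype X))) : c ∈ A := by
  obtain ⟨P', Q', hQ', h⟩ := qe_FF A hM hr hK hp hA hpM hpr x P hP
    (QuotientGroup.mk (⟨δ, hδ⟩ : Gamma0 r)⁻¹)
  rw [tau_mk (⟨δ, hδ⟩ : Gamma0 r)⁻¹ x (F := coeffMap (algebraMap Ω ℂ)
    (HahnSeries.C c * coeffMap A.subtype X)) (by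
      convert! hexp using 2
      simp)] at h
  have e : ∀ Y : LaurentSeries A, coeffMap (aC A) Y =
      coeffMap (algebraMap Ω ℂ) (coeffMap A.subtype Y) := fun Y => by
    rw [coeffMap_coeffMap]; rfl
  rw [e, e, ← map_mul] at h
  have h1 := coeffMap_inj' (algebraMap Ω ℂ).injective h
  by_contra hc
  have hc0 : c ≠ 0 := by rintro rfl; exact hc (zero_mem A)
  have hci : c⁻¹ ∈ A.nonunits := A.inv_mem_nonunits_iff.mpr (Or.inr hc)
  have hci' : c⁻¹ ∈ A := A.nonunits_subset hci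
  have h2 : X * Q' = HahnSeries.C (⟨c⁻¹, hci'⟩ : A) * P' := by
    apply coeffMap_inj' (f := A.subtype) Subtype.val_injective
    rw [map_mul, map_mul, coeffMap_C', ← h1]
    have h3 : (HahnSeries.C (A.subtype ⟨c⁻¹, hci'⟩) : LaurentSeries Ω) * HahnSeries.C c = 1 := by
      rw [← map_mul]
      show HahnSeries.C (c⁻¹ * c) = 1
      rw [inv_mul_cancel₀ hc0, map_one]
    rw [← mul_assoc, ← mul_assoc, h3, one_mul]
  have h4 := congrArg (coeffMap (residue A)) h2
  rw [map_mul, map_mul, coeffMap_C'] at h4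
  have h5 : residue A ⟨c⁻¹, hci'⟩ = 0 := by
    rw [residue_eq_zero_iff, ← A.coe_mem_nonunits_iff]
    exact hci
  rw [h5, map_zero, zero_mul] at h4
  exact (mul_ne_zero hX hQ') h4

end Main

end

end Fermat.Agent.H78.KI
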