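import Mathlib
import Fermat.Agent.H78KIMain

/-! # Proof of `CoreKI` and `CoreQE` (helper78) -/

set_option autoImplicit false
set_option linter.unusedSectionVars false

namespace Fermat.Agent.H78.KI

open UpperHalfPlane hiding I
open Complex MatrixGroups ModularGroup CongruenceSubgroup Fermat.Agent.H61 ModularCurve Polynomial
open Fermat.Agent.H24 Fermat.Agent.H78.FF Fermat.Agent.H50.Haupt Fermat.Agent.H58
open IntermediateField IsLocalRing Module

noncomputable section

local notation "𝕢" => Function.Periodic.qParam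

local notation "Qb" => AlgebraicClosure ℚ

/-- change of the constant field -/
theorem good_change {K K' : Type*} [Field K] [Algebra K ℂ] [Field K'] [Algebra K' ℂ]
    {Γ : Subgroup SL(2, ℤ)} {N : ℕ} [NeZero N] {x : LaurentSeries K} {x' : LaurentSeries K'}
    (h : incl K x = incl K' x') (hx : x ∈ GoodAlg K Γ N) : x' ∈ GoodAlg K' Γ N := by
  have hev : ev K x = ev K' x' := by
    funext τ
    show evalAt _ (incl K x) = evalAt _ (incl K' x')
    rw [h]
  have hg := good_of_mem hx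
  exact ⟨h ▸ hg.conv, hev ▸ hg.hol, fun γ => hev ▸ hg.exp γ, fun γ hγ => by
    rw [← hev]; exact hg.inv γ hγ⟩

theorem exists_descent {R S : Type*} [CommRing R] [CommRing S] (f : R →+* S)
    (hf : Function.Injective f) (x : LaurentSeries S) (hx : ∀ n, ∃ a, f a = x.coeff n) :
    ∃ x' : LaurentSeries R, coeffMap f x' = x := by
  choose a ha using hx
  refine ⟨⟨a, ?_⟩, ?_⟩
  · refine x.isPWO_support.mono ?_
    intro n hn
    rw [Function.mem_support] at hn
    rw [HahnSeries.mem_support]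
    intro h
    apply hn
    apply hf
    rw [ha, h, map_zero]
  · ext n
    exact ha n

theorem order_coeffMap {R S : Type*} [Field R] [Field S] (f : R →+* S) (x : LaurentSeries R) :
    (coeffMap f x).order = x.order := by
  by_cases hx : x = 0
  · rw [hx, map_zero]; simp
  · apply le_antisymm
    · apply HahnSeries.order_le_of_coeff_ne_zero
      rw [coeffMap_coeff, Ne, map_eq_zero]
      exact HahnSeries.coeff_order_eq_zero.not.mpr hx
    · have hx' : coeffMap f x ≠ 0 := fun h => hx (coeffMap_inj' f.injective (by rw [h, map_zero]))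
      apply HahnSeries.order_le_of_coeff_ne_zero
      intro h
      apply HahnSeries.coeff_order_eq_zero.not.mpr hx'
      rw [coeffMap_coeff, h, map_zero]

theorem inv_notMem_of_liesOver {Ω : Type*} [Field Ω] [CharZero Ω] (A : ValuationSubring Ω) {p : ℕ}
    (hp : p.Prime) (hA : A.LiesOverPrime p) : ((p : Ω))⁻¹ ∉ A := by
  have hp0 : ((p : ℕ) : Ω) ≠ 0 := by exact_mod_cast hp.ne_zero
  have h1 : (((p : ℕ) : Ω)⁻¹)⁻¹ ∈ A.nonunits := by rw [inv_inv]; exact hA
  rcases A.inv_mem_nonunits_iff.mp h1 with h | h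
  · exact absurd h (inv_ne_zero hp0)
  · exact h

section

variable {M r : ℕ} [NeZero (M * r)] (hM : 2 ≤ M) (hr : r = 2 ∨ r = 3)

include hM hr in
/-- **`CoreQE`.** -/
theorem coreQE : CoreQE M r := by
  intro p hp hpM hpr A hA _ L _ x hx hxL hxA δ hδ X c hXA hX hexp
  obtain ⟨hM0, hr0⟩ := pos_of_neZero (M := M) (r := r)
  haveI : NeZero M := ⟨hM0.ne'⟩
  haveI : NeZero r := ⟨hr0.ne'⟩
  haveI : Algebra.IsAlgebraic ℚ Qb := AlgebraicClosure.isAlgebraic ℚ
  obtain ⟨L', hfin, hLL', -, hroots⟩ := exists_finite_ext L ∅ (M * r) (NeZero.ne _)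
  haveI : NumberField L' := { to_charZero := inferInstance, to_finiteDimensional := hfin }
  haveI : IsDiscreteValuationRing (A.comap (algebraMap L' Qb)) :=
    isDVR_comap A (p := p) (inv_notMem_of_liesOver A hp hA)
  have hK : ∀ z : Qb, z ^ (M * r) = 1 → z ∈ (algebraMap L' Qb).range := fun z hz =>
    ⟨⟨z, hroots z hz⟩, rfl⟩
  obtain ⟨x', hx'⟩ := exists_descent (algebraMap L' Qb) (algebraMap L' Qb).injective x
    fun n => ⟨⟨x.coeff n, hLL' (hxL n)⟩, rfl⟩
  have hincl : incl Qb x = incl L' x' := by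
    rw [← hx', incl, incl, coeffMap_coeffMap]
    rfl
  have hxg := good_change hincl hx
  obtain ⟨P, hP⟩ := exists_descent A.subtype Subtype.val_injective x fun n => ⟨⟨_, hxA n⟩, rfl⟩
  obtain ⟨X', hX'⟩ := exists_descent A.subtype Subtype.val_injective X fun n => ⟨⟨_, hXA n⟩, rfl⟩
  have hev : ev Qb x = ev L' x' := by
    funext τ
    show evalAt _ (incl Qb x) = evalAt _ (incl L' x')
    rw [hincl]
  refine qe_const A hM hr hK hp hA hpM hpr ⟨x', hxg⟩ P ?_ hδ X' c ?_ ?_
  · show coeffMap (aC A) P = incl L' x'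
    rw [← hincl, ← hP, incl, coeffMap_coeffMap]
    rfl
  · intro h
    obtain ⟨i, hi⟩ := hX
    apply hi
    have h1 := congrArg (fun z : LaurentSeries (ResidueField A) => z.coeff i) h
    have h2 : residue A (X'.coeff i) = 0 := h1
    rw [residue_eq_zero_iff, ← A.coe_mem_nonunits_iff] at h2
    rw [← hX']
    exact h2
  · rw [hX']
    show HasExpC _ (compHom δ (ev L' x')) _
    rw [← hev]
    exact hexp

include hM hr in
/-- **`CoreKI`.** -/
theorem coreKI {n : ℕ} (hn : n.Prime) : CoreKI M r n := by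
  intro p hp hpM hpr hpn A hA _ L _ u₁ hu₁ u₂ hu₂ hL₁ hL₂ hA₁ hA₂ hcong hne hd₁ hd₂ h₁ hh₁ h₂ hh₂
    e₁ e₂
  obtain ⟨hM0, hr0⟩ := pos_of_neZero (M := M) (r := r)
  haveI : NeZero M := ⟨hM0.ne'⟩
  haveI : NeZero r := ⟨hr0.ne'⟩
  haveI : Algebra.IsAlgebraic ℚ Qb := AlgebraicClosure.isAlgebraic ℚ
  obtain ⟨P, hP⟩ := exists_descent A.subtype Subtype.val_injective u₁ fun n => ⟨⟨_, hA₁ n⟩, rfl⟩
  obtain ⟨Q, hQ⟩ := exists_descent A.subtype Subtype.val_injective u₂ fun n => ⟨⟨_, hA₂ n⟩, rfl⟩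
  have hPQ : coeffMap (residue A) P = coeffMap (residue A) Q := by
    ext i
    rw [coeffMap_coeff, coeffMap_coeff, ← sub_eq_zero, ← map_sub, residue_eq_zero_iff,
      ← A.coe_mem_nonunits_iff]
    have h := hcong i
    rw [← hP, ← hQ] at h
    exact h
  have hP0 : coeffMap (residue A) P ≠ 0 := by
    intro h
    obtain ⟨i, hi⟩ := hne
    apply hi
    have h1 := congrArg (fun z : LaurentSeries (ResidueField A) => z.coeff i) h
    have h2 : residue A (P.coeff i) = 0 := h1
    rw [residue_eq_zero_iff, ← A.coe_mem_nonunits_iff] at h2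
    rw [← hP]
    exact h2
  have hQ0 : coeffMap (residue A) Q ≠ 0 := hPQ ▸ hP0
  have hu₁0 : u₁ ≠ 0 := by
    intro h
    have : P = 0 := coeffMap_inj' (f := A.subtype) Subtype.val_injective (by rw [hP, h, map_zero])
    exact hP0 (by rw [this, map_zero])
  have hu₂0 : u₂ ≠ 0 := by
    intro h
    have : Q = 0 := coeffMap_inj' (f := A.subtype) Subtype.val_injective (by rw [hQ, h, map_zero])
    exact hQ0 (by rw [this, map_zero])
  obtain ⟨α, hα⟩ := IsAlgClosed.exists_pow_nat_eq ((u₁ / u₂).coeff (u₁ / u₂).order) hn.pos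
  obtain ⟨L', hfin, hLL', hS, hroots⟩ := exists_finite_ext L {α} (M * r) (NeZero.ne _)
  have hαL : α ∈ L' := hS α (Finset.mem_singleton_self α)
  haveI : NumberField L' := { to_charZero := inferInstance, to_finiteDimensional := hfin }
  haveI : IsDiscreteValuationRing (A.comap (algebraMap L' Qb)) :=
    isDVR_comap A (p := p) (inv_notMem_of_liesOver A hp hA)
  have hK : ∀ z : Qb, z ^ (M * r) = 1 → z ∈ (algebraMap L' Qb).range := fun z hz =>
    ⟨⟨z, hroots z hz⟩, rfl⟩
  have hinj : Function.Injective (coeffMap (algebraMap L' Qb)) :=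
    coeffMap_inj' (algebraMap L' Qb).injective
  obtain ⟨v₁, hv₁⟩ := exists_descent (algebraMap L' Qb) (algebraMap L' Qb).injective u₁
    fun n => ⟨⟨u₁.coeff n, hLL' (hL₁ n)⟩, rfl⟩
  obtain ⟨v₂, hv₂⟩ := exists_descent (algebraMap L' Qb) (algebraMap L' Qb).injective u₂
    fun n => ⟨⟨u₂.coeff n, hLL' (hL₂ n)⟩, rfl⟩
  have hincl : ∀ v : LaurentSeries L', incl Qb (coeffMap (algebraMap L' Qb) v) = incl L' v := by
    intro v
    rw [incl, incl, coeffMap_coeffMap]
    rfl
  have hev : ∀ v : LaurentSeries L', ev Qb (coeffMap (algebraMap L' Qb) v) = ev L' v := by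
    intro v
    funext τ
    show evalAt _ (incl Qb _) = evalAt _ (incl L' v)
    rw [hincl]
  have hv₁g : v₁ ∈ GoodAlg L' (GG M r) (M * r) := good_change (hincl v₁) (hv₁ ▸ hu₁)
  have hv₂g : v₂ ∈ GoodAlg L' (GG M r) (M * r) := good_change (hincl v₂) (hv₂ ▸ hu₂)
  have hv₂0 : v₂ ≠ 0 := by
    rintro rfl
    exact hu₂0 (by rw [← hv₂, map_zero])
  have hv₁0 : v₁ ≠ 0 := by
    rintro rfl
    exact hu₁0 (by rw [← hv₁, map_zero])
  have hq : coeffMap (algebraMap L' Qb) (v₁ / v₂) = u₁ / u₂ := by rw [map_div₀, hv₁, hv₂]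
  obtain ⟨h₀, hh₀⟩ := exists_root_laurent (K := L') (m := n) (by exact_mod_cast hn.ne_zero)
    (v₁ / v₂) (div_ne_zero hv₁0 hv₂0) (by
      rw [← order_coeffMap (algebraMap L' Qb), hq]
      have h1 : u₁.order = (u₁ / u₂).order + u₂.order := by
        conv_lhs => rw [← div_mul_cancel₀ u₁ hu₂0]
        exact HahnSeries.order_mul (div_ne_zero hu₁0 hu₂0) hu₂0
      have h2 : (u₁ / u₂).order = u₁.order - u₂.order := by omega
      rw [h2]
      exact dvd_sub hd₁ hd₂) (a := ⟨α, hαL⟩) (by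
      apply (algebraMap L' Qb).injective
      rw [map_pow]
      have h1 := congrArg (fun z : LaurentSeries Qb => z.coeff (v₁ / v₂).order) hq
      have h2 : algebraMap L' Qb ((v₁ / v₂).coeff (v₁ / v₂).order) =
        (u₁ / u₂).coeff (v₁ / v₂).order := h1
      rw [h2, ← order_coeffMap (algebraMap L' Qb), hq, ← hα]
      rfl)
  obtain ⟨g, hg⟩ := ki_FF A hM hr hK hn hp hA hpM hpr hpn ⟨v₁, hv₁g⟩ ⟨v₂, hv₂g⟩ hh₁ hh₂
    (fun τ => by
      rw [e₁, ← hv₁, hev])
    (fun τ => by
      rw [e₂, ← hv₂, hev]) P Q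
    (by
      show coeffMap (aC A) P = incl L' v₁
      rw [← hincl, hv₁, ← hP, incl, coeffMap_coeffMap]
      rfl)
    (by
      show coeffMap (aC A) Q = incl L' v₂
      rw [← hincl, hv₂, ← hQ, incl, coeffMap_coeffMap]
      rfl) hQ0 hPQ h₀ (by
      show h₀ ^ n * v₂ = v₁
      rw [hh₀, div_mul_cancel₀ _ hv₂0])
  obtain ⟨a, b, hb, hab⟩ := IsFractionRing.div_surjective (A := GoodAlg L' (GG M r) (M * r)) g
  have hb0 : (b : LaurentSeries L') ≠ 0 := fun h => nonZeroDivisors.ne_zero hb (Subtype.ext h)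
  have hgab : (g : LaurentSeries L') = (a : LaurentSeries L') / (b : LaurentSeries L') := by
    rw [← hab]; rfl
  have hg' : (g : LaurentSeries L') ^ n * v₂ = v₁ :=
    congrArg (fun z : FF L' (GG M r) (M * r) => (z : LaurentSeries L')) hg
  refine ⟨coeffMap (algebraMap L' Qb) a, good_change (hincl _).symm a.2,
    coeffMap (algebraMap L' Qb) b, good_change (hincl _).symm b.2, fun h => hb0 (hinj (by
      rw [h, map_zero])), ?_⟩
  rw [← hv₁, ← hv₂, ← map_pow, ← map_mul, ← map_pow, ← map_mul, ← hg', hgab, div_pow]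
  congr 1
  field_simp

end

end

end Fermat.Agent.H78.KI
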