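import Mathlib
import Fermat.Prelude.Def_LanglandsTunnell_WeightOneRealizationCarriers
import Fermat.Agent.S48
import Fermat.Agent.H48ZEig
import Fermat.Agent.H48ZGal

/-!
# The end of S47: from a form with the right eigenvalues at the primes of the quaternion field
-/

set_option autoImplicit false

noncomputable section

namespace Fermat.Agent.H48Z

open Matrix FLT.ExplicitLift WeierstrassCurve EisensteinWeightOne
open CongruenceSubgroup ModularFormClass
open scoped MatrixGroups ModularForm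
open Fermat.Agent.H58

local notation "Qb" => AlgebraicClosure ℚ
local notation "Γℚ" => (AlgebraicClosure ℚ ≃ₐ[ℚ] AlgebraicClosure ℚ)
local notation "G3" => GL (Fin 2) (ZMod 3)
local notation "ZR" => ℤ√(-2)

/-- Formal part: an eigenform `f` of level `M` whose eigenvalues are a twist of `t`, gives the
eigensystem. -/
theorem realize (ι : ZR →+* ℂ) {M : ℕ} [NeZero M] {D : ℕ} [NeZero D]
    (ε : DirichletCharacter ℂ M) (f : CuspForm (Gamma1 M) 1) (hf1 : qCoeff f 1 = 1)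
    (hrel : Rel M ε f (qCoeff f)) (ηc : DirichletCharacter ℂ (3 * D)) (t : ℕ → ZR)
    (ht : ∀ p : ℕ, p.Prime → ¬ p ∣ M → ¬ p ∣ 3 * D →
      qCoeff f p = ηc (p : ZMod (3 * D)) * ι (t p) ∧
      ε (p : ZMod M) = ηc (p : ZMod (3 * D)) ^ 2 * ((chiNegThree p : ℤ) : ℂ)) :
    ∃ (N : ℕ) (_ : NeZero N) (b : ℕ → ZR),
      FormalHecke.IsEigensystem
        (fun ℓ => if ℓ ∣ N then 0 else ((chiNegThree ℓ : ℤ) : ZR)) b ∧
      CuspForm.IsWeightOneChiNegThreeRealized N b ∧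
      ∀ p : ℕ, p.Prime → ¬ p ∣ N → ¬ p ∣ M ∧ ¬ p ∣ 3 * D ∧ b p = t p := by
  have hι := zs_injective ι
  have : NeZero (3 * D * M) :=
    ⟨mul_ne_zero (mul_ne_zero (by norm_num) (NeZero.ne D)) (NeZero.ne M)⟩
  set m : ℕ := 3 * D * M with hm
  have hm3 : 3 ≤ m := by
    rw [hm, mul_assoc]
    exact Nat.le_mul_of_pos_right 3 (Nat.pos_of_ne_zero (mul_ne_zero (NeZero.ne D) (NeZero.ne M)))
  have hDm : 3 * D ∣ m := dvd_mul_right _ _
  have hMm : M ∣ m := dvd_mul_left _ _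
  let ψ : DirichletCharacter ℂ m := (ηc.changeLevel hDm)⁻¹
  obtain ⟨F, hF⟩ := exists_mul_periodic f m (fun n => ψ n)
  have hNe : NeZero (M * m ^ 2) := ⟨mul_ne_zero (NeZero.ne M) (pow_ne_zero 2 (NeZero.ne m))⟩
  have hdvd : ∀ p : ℕ, p.Prime → (p ∣ M * m ^ 2 ↔ p ∣ m) := by
    intro p hp
    constructor
    · intro h
      rcases hp.dvd_mul.mp h with h | h
      · exact h.trans hMm
      · exact hp.dvd_of_dvd_pow h
    · intro h
      exact (h.trans (dvd_pow_self m two_ne_zero)).mul_left M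
  have hψmul : ∀ a b : ℕ, ψ ((a * b : ℕ) : ZMod m) = ψ (a : ZMod m) * ψ (b : ZMod m) := by
    intro a b
    rw [Nat.cast_mul, map_mul]
  have hψ0 : ∀ p : ℕ, p.Prime → p ∣ m → ψ (p : ZMod m) = 0 := by
    intro p hp h
    apply MulChar.map_nonunit
    intro hu
    have h2 : Nat.Coprime p m := (ZMod.isUnit_iff_coprime p m).mp hu
    exact (Nat.Prime.coprime_iff_not_dvd hp).mp h2 h
  have hψ1 : ∀ p : ℕ, p.Prime → ¬ p ∣ m →
      ψ (p : ZMod m) * ηc (p : ZMod (3 * D)) = 1 := by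
    intro p hp h
    have hcop : IsCoprime (p : ℤ) (m : ℤ) := isCoprime_of_prime hp h
    have h1 := DirichletCharacter.changeLevel_eq_cast_of_dvd' ηc hDm hcop
    rw [Int.cast_natCast, Int.cast_natCast] at h1
    have h2 : IsUnit ((p : ℕ) : ZMod m) :=
      (ZMod.isUnit_iff_coprime p m).mpr ((Nat.Prime.coprime_iff_not_dvd hp).mpr h)
    rw [← h1]
    show (ηc.changeLevel hDm)⁻¹ ((p : ℕ) : ZMod m) * (ηc.changeLevel hDm) ((p : ℕ) : ZMod m) = 1
    rw [← MulChar.mul_apply, inv_mul_cancel, MulChar.one_apply h2]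
  have hc1 : qCoeff F 1 = 1 := by
    rw [hF, hf1, mul_one, Nat.cast_one, map_one]
  have hcp : ∀ p : ℕ, p.Prime → ¬ p ∣ m → qCoeff F p = ι (t p) := by
    intro p hp h
    have h1 := (ht p hp (fun h' => h (h'.trans hMm)) (fun h' => h (h'.trans hDm))).1
    rw [hF, h1, ← mul_assoc, hψ1 p hp h, one_mul]
  have hcp0 : ∀ p : ℕ, p.Prime → p ∣ m → ∀ n : ℕ, qCoeff F (p * n) = 0 := by
    intro p hp h n
    rw [hF, hψmul, hψ0 p hp h, zero_mul, zero_mul]
  have hrec : ∀ p : ℕ, p.Prime → ¬ p ∣ m → ∀ n : ℕ,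
      qCoeff F (p * n) + ((chiNegThree p : ℤ) : ℂ) * (if p ∣ n then qCoeff F (n / p) else 0) =
        ι (t p) * qCoeff F n := by
    intro p hp h n
    have hpM : ¬ p ∣ M := fun h' => h (h'.trans hMm)
    have hpD : ¬ p ∣ 3 * D := fun h' => h (h'.trans hDm)
    obtain ⟨h1, h2⟩ := ht p hp hpM hpD
    have h3 := hrel p hp hpM n
    have h4 := hψ1 p hp h
    rw [h1, h2] at h3
    rw [hF (p * n), hF n, hψmul]
    by_cases hpn : p ∣ n
    · obtain ⟨n', rfl⟩ := hpn
      rw [if_pos (dvd_mul_right p n'), Nat.mul_div_cancel_left _ hp.pos] at h3 ⊢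
      rw [hF n', hψmul]
      linear_combination ψ (p : ZMod m) * ψ (p : ZMod m) * ψ (n' : ZMod m) * h3 +
        ((ψ (p : ZMod m) * ψ (n' : ZMod m)) * ι (t p) * qCoeff f (p * n') -
        (ψ (p : ZMod m) * ηc (p : ZMod (3 * D)) + 1) * ψ (n' : ZMod m) *
          ((chiNegThree p : ℤ) : ℂ) * qCoeff f n') * h4
    · rw [if_neg hpn] at h3 ⊢
      linear_combination ψ (p : ZMod m) * ψ (n : ZMod m) * h3 +
        ψ (n : ZMod m) * ι (t p) * qCoeff f n * h4
  have hrange : ∀ n : ℕ, qCoeff F n ∈ ι.range := by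
    intro n
    induction n using Nat.strong_induction_on with
    | _ n ih =>
      rcases Nat.eq_zero_or_pos n with rfl | hn
      · rw [hF]
        have : ψ ((0 : ℕ) : ZMod m) = 0 := by
          apply MulChar.map_nonunit
          intro hu
          have h2 : Nat.Coprime 0 m := (ZMod.isUnit_iff_coprime 0 m).mp hu
          rw [Nat.coprime_zero_left] at h2
          omega
        rw [this, zero_mul]
        exact Subring.zero_mem _
      · rcases Nat.lt_or_ge n 2 with h2 | h2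
        · have : n = 1 := by omega
          rw [this, hc1]
          exact Subring.one_mem _
        · have hp := Nat.minFac_prime (by omega : n ≠ 1)
          set p := n.minFac
          obtain ⟨n', hn'⟩ := Nat.minFac_dvd n
          have hn'0 : 0 < n' := by
            rcases Nat.eq_zero_or_pos n' with h | h
            · rw [h, mul_zero] at hn'; omega
            · exact h
          have hlt : n' < n := by
            rw [hn']
            exact lt_mul_of_one_lt_left hn'0 hp.one_lt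
          by_cases hpm : p ∣ m
          · rw [hn', hcp0 p hp hpm]
            exact Subring.zero_mem _
          · have h3 := hrec p hp hpm n'
            have h4 : qCoeff F n = ι (t p) * qCoeff F n' -
                ((chiNegThree p : ℤ) : ℂ) * (if p ∣ n' then qCoeff F (n' / p) else 0) := by
              rw [← h3]
              have : n = p * n' := hn'
              rw [← this]
              ring
            rw [h4]
            refine Subring.sub_mem _ (Subring.mul_mem _ ⟨_, rfl⟩ (ih n' hlt))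
              (Subring.mul_mem _ ⟨((chiNegThree p : ℤ) : ZR), map_intCast ι _⟩ ?_)
            split_ifs
            · exact ih _ (lt_of_le_of_lt (Nat.div_le_self _ _) hlt)
            · exact Subring.zero_mem _
  choose b hb using hrange
  have hb' : ∀ n, qCoeff F n = ι (b n) := fun n => (hb n).symm
  refine ⟨M * m ^ 2, hNe, b, ⟨?_, ?_⟩, ⟨ι, F, hb'⟩, ?_⟩
  · apply hι
    rw [← hb', hc1, map_one]
  · intro p hp n
    apply hι
    rw [map_add, map_mul, map_mul, ← hb', ← hb', ← hb' n]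
    have e1 : ι (if p ∣ n then b (n / p) else 0) = if p ∣ n then qCoeff F (n / p) else 0 := by
      split_ifs
      · rw [← hb']
      · exact map_zero ι
    rw [e1]
    by_cases hpm : p ∣ m
    · simp only
      rw [if_pos ((hdvd p hp).mpr hpm), map_zero, zero_mul, add_zero, hcp0 p hp hpm]
      have := hcp0 p hp hpm 1
      rw [mul_one] at this
      rw [this, zero_mul]
    · simp only
      rw [if_neg (fun h => hpm ((hdvd p hp).mp h)), map_intCast, hcp p hp hpm]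
      exact hrec p hp hpm n
  · intro p hp hpN
    have hpm : ¬ p ∣ m := fun h => hpN ((hdvd p hp).mpr h)
    refine ⟨fun h' => hpm (h'.trans hMm), fun h' => hpm (h'.trans hDm), ?_⟩
    apply hι
    rw [← hb', hcp p hp hpm]

/-- **The end of S47.**  A nonzero weight one cusp form whose Hecke eigenvalues at the primes
`p ≡ 1 mod D` with `ρ(Frob_p)` in the quaternion group are the traces of the lift of `ρ`. -/
theorem s47_of_form
    (ρ : Γℚ →* GL (Fin 2) (ZMod 3)) (hρ : Continuous ρ) (hsurj : Function.Surjective ρ)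
    (hdet : ∀ σ : Γℚ, Matrix.GeneralLinearGroup.det (ρ σ) = modThreeCyclotomicChar σ)
    (Ψ : GL (Fin 2) (ZMod 3) →* GL (Fin 2) (ℤ√(-2)))
    (hΨ : ∀ g, Matrix.GeneralLinearGroup.map red (Ψ g) = g)
    (N : ℕ) [NeZero N] (g : CuspForm (Gamma1 N) 1) (hg : g ≠ 0)
    (S : Finset ℕ) (D : ℕ) (hD : 0 < D) (ι : ℤ√(-2) →+* ℂ)
    (hT : ∀ (p : ℕ) (hp : p.Prime) (hpN : ¬ p ∣ N), p ∉ S → p ≡ 1 [MOD D] →
      ∀ A : ValuationSubring (AlgebraicClosure ℚ), A.LiesOverPrime p →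
        ∀ σ : Γℚ, A.IsFrobeniusAt σ p →
        Matrix.GeneralLinearGroup.det (ρ σ) = 1 → (ρ σ) ^ 4 = 1 →
        T1L N 1 p hp hpN g =
          (ι ((Ψ (ρ σ) : GL (Fin 2) (ℤ√(-2))) : Matrix (Fin 2) (Fin 2) (ℤ√(-2))).trace) • g) :
    ∃ (N : ℕ) (_ : NeZero N) (b : ℕ → ℤ√(-2)),
      FormalHecke.IsEigensystem
        (fun ℓ => if ℓ ∣ N then 0 else ((chiNegThree ℓ : ℤ) : ℤ√(-2))) b ∧
      CuspForm.IsWeightOneChiNegThreeRealized N b ∧
      ∀ p : ℕ, p.Prime → ¬ p ∣ 3 * N →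
        ∀ A : ValuationSubring (AlgebraicClosure ℚ), A.LiesOverPrime p →
          ∀ σ : Γℚ, A.IsFrobeniusAt σ p →
            b p = ((Ψ (ρ σ) : GL (Fin 2) (ℤ√(-2))) : Matrix (Fin 2) (Fin 2) (ℤ√(-2))).trace := by
  classical
  have : NeZero D := ⟨hD.ne'⟩
  let P : Set ℕ := {p | p ∉ S ∧ p ≡ 1 [MOD D] ∧ ∃ A : ValuationSubring Qb, A.LiesOverPrime p ∧
    ∃ σ : Γℚ, A.IsFrobeniusAt σ p ∧ Matrix.GeneralLinearGroup.det (ρ σ) = 1 ∧ (ρ σ) ^ 4 = 1}
  let lam : ℕ → ℂ := fun p => if H : ∃ c : ℂ, ∀ (hp : p.Prime) (hpN : ¬ p ∣ N),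
    T1L N 1 p hp hpN g = c • g then H.choose else 0
  have hlam : ∀ (p : ℕ) (hp : p.Prime) (hpN : ¬ p ∣ N), p ∈ P →
      T1L N 1 p hp hpN g = lam p • g := by
    rintro p hp hpN ⟨hS, hmod, A, hA, σ, hσ, h1, h4⟩
    have H : ∃ c : ℂ, ∀ (hp : p.Prime) (hpN : ¬ p ∣ N), T1L N 1 p hp hpN g = c • g :=
      ⟨_, fun hp hpN => hT p hp hpN hS hmod A hA σ hσ h1 h4⟩
    have e : lam p = H.choose := dif_pos H
    rw [e]
    exact H.choose_spec hp hpN
  obtain ⟨M, hM, ε, f, hNM, hf1, hrel, hfP⟩ := exists_eigenform g hg P lam hlam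
  obtain ⟨ρf, hfin, -, hloc⟩ := Fermat.Agent.S48.result M ε f hf1 hrel
  have hQ : ∀ p : ℕ, p.Prime → ¬ p ∣ M → p ∉ S → p ≡ 1 [MOD D] →
      ∀ A : ValuationSubring Qb, A.LiesOverPrime p → ∀ σ : Γℚ, A.IsFrobeniusAt σ p →
        Matrix.GeneralLinearGroup.det (ρ σ) = 1 → (ρ σ) ^ 4 = 1 →
        qCoeff f p = ι ((Ψ (ρ σ) : GL (Fin 2) ZR) : Matrix (Fin 2) (Fin 2) ZR).trace := by
    intro p hp hpM hS hmod A hA σ hσ h1 h4
    have hpN : ¬ p ∣ N := fun h => hpM (h.trans hNM)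
    have hpP : p ∈ P := ⟨hS, hmod, A, hA, σ, hσ, h1, h4⟩
    rw [hfP p hpP hp hpM]
    have e1 := hT p hp hpN hS hmod A hA σ hσ h1 h4
    rw [hlam p hp hpN hpP] at e1
    exact smul_left_injective ℂ hg e1
  obtain ⟨ηc, hηc⟩ := exists_twist (M := M) ι hρ hsurj hdet hΨ S ε (fun p => qCoeff f p) hfin
    (fun p hp hpM A hA σ hσ => (hloc p hp hpM A hA).2 σ hσ) hQ
  -- the traces
  let t : ℕ → ZR := fun p => if H : ∃ A : ValuationSubring Qb, A.LiesOverPrime p ∧
      ∃ σ : Γℚ, A.IsFrobeniusAt σ p then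
    ((Ψ (ρ H.choose_spec.2.choose) : GL (Fin 2) ZR) : Matrix (Fin 2) (Fin 2) ZR).trace else 0
  have htp : ∀ p : ℕ, p.Prime → ∃ A : ValuationSubring Qb, A.LiesOverPrime p ∧
      ∃ σ : Γℚ, A.IsFrobeniusAt σ p ∧
      t p = ((Ψ (ρ σ) : GL (Fin 2) ZR) : Matrix (Fin 2) (Fin 2) ZR).trace := by
    intro p hp
    have H : ∃ A : ValuationSubring Qb, A.LiesOverPrime p ∧ ∃ σ : Γℚ, A.IsFrobeniusAt σ p := by
      obtain ⟨A, hA⟩ := H63.exists_liesOverPrime Qb hp
      exact ⟨A, hA, H54.exists_isFrobeniusAt hp hA⟩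
    exact ⟨H.choose, H.choose_spec.1, H.choose_spec.2.choose, H.choose_spec.2.choose_spec,
      dif_pos H⟩
  obtain ⟨N', hN', b, hb1, hb2, hb3⟩ := realize ι ε f hf1 hrel ηc t (by
    intro p hp hpM hpD
    obtain ⟨A, hA, σ, hσ, ht⟩ := htp p hp
    rw [ht]
    exact hηc p hp hpM hpD A hA σ hσ)
  refine ⟨N', hN', b, hb1, hb2, ?_⟩
  intro p hp hpN A hA σ hσ
  have hpN' : ¬ p ∣ N' := fun h => hpN (h.mul_left 3)
  obtain ⟨hpM, hpD, hbp⟩ := hb3 p hp hpN'
  obtain ⟨A', hA', σ', hσ', ht⟩ := htp p hp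
  have e1 := (hηc p hp hpM hpD A hA σ hσ).1
  have e2 := (hηc p hp hpM hpD A' hA' σ' hσ').1
  have hne : ηc (p : ZMod (3 * D)) ≠ 0 := by
    intro h
    have hu : IsUnit ((p : ℕ) : ZMod (3 * D)) :=
      (ZMod.isUnit_iff_coprime p (3 * D)).mpr ((Nat.Prime.coprime_iff_not_dvd hp).mpr hpD)
    exact (hu.map ηc).ne_zero h
  rw [hbp, ht]
  apply zs_injective ι
  apply mul_left_cancel₀ hne
  rw [← e1, ← e2]

end Fermat.Agent.H48Z
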