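import Fermat.Agent.H15S47Glue
import Fermat.Agent.H46ZMeet
import Fermat.Agent.H48ZEnd

/-!
# S47 (helper15): block (Z) is proved; the meeting point with the left half

* `blockZ : BlockZ` (helper48's `s47_of_form`);
* `S47_right`: S47 from `H46Z.CArith` (with `3 ∣ N`) and the blocks (N), (T).
-/

set_option autoImplicit false

open AutomorphicForm FLT.ExplicitLift EisensteinWeightOne WeierstrassCurve LanglandsTunnell
open scoped MatrixGroups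
open Fermat.Agent.S47T CongruenceSubgroup

noncomputable section

namespace Fermat.Agent.H15S47

local notation "Γℚ" => (AlgebraicClosure ℚ ≃ₐ[ℚ] AlgebraicClosure ℚ)

/-- Block (Z) is helper48's theorem. -/
theorem blockZ : BlockZ := fun ρ hρ hsurj hdet Ψ hΨ N _ g hg S D hD ι hT =>
  Fermat.Agent.H48Z.s47_of_form ρ hρ hsurj hdet Ψ hΨ N g hg S D hD ι hT

/-- The determinant of `ρ` at a Frobenius element. -/
theorem det_frob {ρ : Γℚ →* GL (Fin 2) (ZMod 3)} (hR : Rho ρ) {p : ℕ} (hp : p.Prime)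
    (hp3 : ¬ p ∣ 3) {A : ValuationSubring (AlgebraicClosure ℚ)} (hA : A.LiesOverPrime p) {σ : Γℚ}
    (hσ : A.IsFrobeniusAt σ p) :
    ((Matrix.GeneralLinearGroup.det (ρ σ) : (ZMod 3)ˣ) : ZMod 3) = p := by
  rw [hR.det]
  exact Fermat.Agent.H48.cyc_frob hp hp3 hA hσ

theorem val8_eq (g : GL (Fin 2) (ZMod 3)) : Fermat.Agent.H46Z.val8 g = trQ g := rfl

theorem SplitVal_of_CArith {ρ : Γℚ →* GL (Fin 2) (ZMod 3)} {N : ℕ} {c : Eis → ℝ}
    (h3 : 3 ∣ N) (h : Fermat.Agent.H46Z.CArith ρ N c) : SplitVal ρ N c := by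
  intro p hp hpN A hA σ hσ h1 h4 ϖ hϖ
  have hp3N : ¬ p ∣ 3 * N := fun hd => by
    rcases (Nat.Prime.dvd_mul hp).mp hd with h' | h'
    · exact hpN (((Nat.prime_dvd_prime_iff_eq hp Nat.prime_three).mp h') ▸ h3)
    · exact hpN h'
  rw [h.split p hp hp3N A hA σ hσ (Fermat.Agent.H3G.mem_Q8_iff_pow.2 ⟨h1, h4⟩) ϖ hϖ, val8_eq]

theorem InertVal_of_CArith {ρ : Γℚ →* GL (Fin 2) (ZMod 3)} (hR : Rho ρ) {N : ℕ} {c : Eis → ℝ}
    (h3 : 3 ∣ N) (h : Fermat.Agent.H46Z.CArith ρ N c) : InertVal ρ N c := by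
  intro p hp hpN hp2 A hA σ hσ
  have hp3 : ¬ p ∣ 3 := fun h' =>
    hpN (((Nat.prime_dvd_prime_iff_eq hp Nat.prime_three).mp h') ▸ h3)
  have hp3N : ¬ p ∣ 3 * N := fun hd => by
    rcases (Nat.Prime.dvd_mul hp).mp hd with h' | h'
    · exact hp3 h'
    · exact hpN h'
  have hSL : ρ σ ∉ Fermat.Agent.H3G.SL := by
    intro hmem
    have h1 : Matrix.GeneralLinearGroup.det (ρ σ) = 1 := hmem
    have h2 := det_frob hR hp hp3 hA hσ
    rw [h1, Units.val_one] at h2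
    have h4 : ((1 : ℕ) : ZMod 3) = ((p : ℕ) : ZMod 3) := by rw [← h2, Nat.cast_one]
    have h5 : 1 % 3 = p % 3 := (ZMod.natCast_eq_natCast_iff _ _ _).mp h4
    omega
  rw [h.inert p hp hp3N A hA σ hσ hSL, val8_eq]

/-- **S47 from the left half and the blocks (N), (T).** -/
theorem S47_right
    (hL : ∀ ρ : Γℚ →* GL (Fin 2) (ZMod 3), Rho ρ →
      ∃ (N : ℕ) (c : Eis → ℝ) (F : H3 → ℂ), 3 ∣ N ∧ ICT N c F ∧ Fermat.Agent.H46Z.CArith ρ N c)
    (hN : BlockN) (hT : BlockT)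
    (ρ : Γℚ →* GL (Fin 2) (ZMod 3)) (hρ : Continuous ρ) (hsurj : Function.Surjective ρ)
    (hdet : ∀ σ : Γℚ, Matrix.GeneralLinearGroup.det (ρ σ) = modThreeCyclotomicChar σ)
    (Ψ : GL (Fin 2) (ZMod 3) →* GL (Fin 2) (ℤ√(-2)))
    (hΨ : ∀ g, Matrix.GeneralLinearGroup.map red (Ψ g) = g) :
    ∃ (N : ℕ) (_ : NeZero N) (b : ℕ → ℤ√(-2)),
      FormalHecke.IsEigensystem
        (fun ℓ => if ℓ ∣ N then 0 else ((chiNegThree ℓ : ℤ) : ℤ√(-2))) b ∧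
      CuspForm.IsWeightOneChiNegThreeRealized N b ∧
      ∀ p : ℕ, p.Prime → ¬ p ∣ 3 * N →
        ∀ A : ValuationSubring (AlgebraicClosure ℚ), A.LiesOverPrime p →
          ∀ σ : Γℚ, A.IsFrobeniusAt σ p →
            b p = ((Ψ (ρ σ) : GL (Fin 2) (ℤ√(-2))) : Matrix (Fin 2) (Fin 2) (ℤ√(-2))).trace := by
  have hCD : BlockCD := fun ρ hR => by
    obtain ⟨N, c, F, h3, hF, hC⟩ := hL ρ hR
    exact ⟨N, c, F, h3, hF, SplitVal_of_CArith h3 hC, InertVal_of_CArith hR h3 hC⟩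
  exact S47_of_blocks hCD hN hT blockZ ρ hρ hsurj hdet Ψ hΨ

end Fermat.Agent.H15S47
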