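import Fermat.Agent.H96TDef
import Fermat.Agent.H58Hecke1

/-!
# The pieces of block (T) of S47 as closed statements (helper96)
-/

set_option autoImplicit false

noncomputable section

open MeasureTheory CongruenceSubgroup
open scoped ComplexConjugate Real UpperHalfPlane MatrixGroups

namespace Fermat.Agent.S47T

/-- The principal congruence subgroup of level `m` over `ℤ[ω]`. -/
def GamP (m : ℕ) : Subgroup (GL (Fin 2) ℂ) where
  carrier := {g | (g : Matrix (Fin 2) (Fin 2) ℂ).det = 1 ∧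
    ∀ i j, ∃ x ∈ Eis, (g : Matrix (Fin 2) (Fin 2) ℂ) i j =
      (1 : Matrix (Fin 2) (Fin 2) ℂ) i j + m * x}
  mul_mem' := by
    rintro g h ⟨hg1, hg2⟩ ⟨hh1, hh2⟩
    refine ⟨by rw [Units.val_mul, Matrix.det_mul, hg1, hh1, one_mul], fun i j => ?_⟩
    choose x hx hgx using hg2
    choose y hy hhy using hh2
    refine ⟨x i j + y i j + m * ∑ k, x i k * y k j, ?_, ?_⟩
    · refine Eis.add_mem (Eis.add_mem (hx _ _) (hy _ _)) (Eis.mul_mem (natCast_mem _ _) ?_)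
      exact Eis.sum_mem fun k _ => Eis.mul_mem (hx _ _) (hy _ _)
    · rw [Units.val_mul, Matrix.mul_apply]
      have e : ∀ k, (g : Matrix (Fin 2) (Fin 2) ℂ) i k * (h : Matrix (Fin 2) (Fin 2) ℂ) k j =
          (1 : Matrix (Fin 2) (Fin 2) ℂ) i k * (1 : Matrix (Fin 2) (Fin 2) ℂ) k j +
          m * (x i k * (1 : Matrix (Fin 2) (Fin 2) ℂ) k j) +
          m * ((1 : Matrix (Fin 2) (Fin 2) ℂ) i k * y k j) + m * (m * (x i k * y k j)) := by
        intro k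
        rw [hgx, hhy]
        ring
      rw [Finset.sum_congr rfl fun k _ => e k, Finset.sum_add_distrib, Finset.sum_add_distrib,
        Finset.sum_add_distrib, ← Finset.mul_sum, ← Finset.mul_sum, ← Finset.mul_sum,
        ← Finset.mul_sum, ← Matrix.mul_apply, Matrix.one_mul]
      have e1 : ∑ k, x i k * (1 : Matrix (Fin 2) (Fin 2) ℂ) k j = x i j := by
        simp [Matrix.one_apply]
      have e2 : ∑ k, (1 : Matrix (Fin 2) (Fin 2) ℂ) i k * y k j = y i j := by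
        simp [Matrix.one_apply]
      rw [e1, e2]
      ring
  one_mem' := by
    refine ⟨by simp, fun i j => ⟨0, Eis.zero_mem, by simp⟩⟩
  inv_mem' := by
    rintro g ⟨hg1, hg2⟩
    have hinv : ((g⁻¹ : GL (Fin 2) ℂ) : Matrix (Fin 2) (Fin 2) ℂ) =
        (g : Matrix (Fin 2) (Fin 2) ℂ).adjugate := by
      rw [Matrix.coe_units_inv, Matrix.inv_def, hg1, Ring.inverse_one, one_smul]
    refine ⟨by rw [hinv, Matrix.det_adjugate, hg1, one_pow], fun i j => ?_⟩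
    choose x hx hgx using hg2
    rw [hinv, Matrix.adjugate_fin_two]
    fin_cases i <;> fin_cases j
    · exact ⟨x 1 1, hx _ _, by simpa using hgx 1 1⟩
    · refine ⟨-x 0 1, Eis.neg_mem (hx _ _), ?_⟩
      have := hgx 0 1
      simp only [Matrix.one_apply_ne (show (0 : Fin 2) ≠ 1 by decide)] at this
      simp [this]
    · refine ⟨-x 1 0, Eis.neg_mem (hx _ _), ?_⟩
      have := hgx 1 0
      simp only [Matrix.one_apply_ne (show (1 : Fin 2) ≠ 0 by decide)] at this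
      simp [this]
    · exact ⟨x 0 0, hx _ _, by simpa using hgx 0 0⟩

/-- (T1a), helper45: a finite family of theta kernels, unitary under the two generators of
`SL₂(ℤ)`, invariant under a principal congruence subgroup in `w`, whose span contains the theta
kernel of `phiN N`. -/
def T1a (N : ℕ) : Prop :=
  ∃ (m : ℕ) (_ : 0 < m) (I : Type) (_ : Fintype I) (_ : DecidableEq I) (φs : I → Lat → ℂ)
    (A B : Matrix I I ℂ) (a : I → ℂ),
    A ∈ Matrix.unitaryGroup I ℂ ∧ B ∈ Matrix.unitaryGroup I ℂ ∧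
    (∀ i x, ‖φs i x‖ ≤ 1) ∧
    (∀ g ∈ GamP m, ∀ i τ w, 0 < τ.im → Theta N (φs i) τ (g • w) = Theta N (φs i) τ w) ∧
    (∀ i τ w, 0 < τ.im → Theta N (φs i) (τ + 1) w = ∑ j, A i j * Theta N (φs j) τ w) ∧
    (∀ i τ w, 0 < τ.im → Theta N (φs i) (-1 / τ) w = τ * ∑ j, B i j * Theta N (φs j) τ w) ∧
    (∀ τ w, 0 < τ.im → Theta 1 (phiN N) τ w = ∑ i, a i * Theta N (φs i) τ w)

/-- (T1b): `Γ₁(M)`-modularity of weight one of `Theta 1 (phiN N) (3 τ) w`, `M = 9 N²`. -/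
def T1b (N : ℕ) : Prop :=
  ∀ γ ∈ Gamma1 (9 * N ^ 2), ∀ (τ : ℍ) (w : H3),
    Theta 1 (phiN N) (3 * ((γ • τ : ℍ) : ℂ)) w =
      ((γ 1 0 : ℤ) * (τ : ℂ) + (γ 1 1 : ℤ)) * Theta 1 (phiN N) (3 * (τ : ℂ)) w

/-- (T1c), invariance in `w`. -/
def T1c (N : ℕ) : Prop :=
  ∀ g ∈ Gam N, ∀ τ w, Theta 1 (phiN N) τ (g • w) = Theta 1 (phiN N) τ w

/-- (T-HOL): the lift is holomorphic and `√v |g|` is bounded. -/
def THol (N : ℕ) (F : H3 → ℂ) : Prop :=
  ∀ χ, IsCut (Gam N) χ →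
    DifferentiableOn ℂ (lift χ F 1 (phiN N)) {τ | 0 < τ.im} ∧
    ∃ C : ℝ, ∀ τ : ℂ, 0 < τ.im → ‖lift χ F 1 (phiN N) τ‖ ≤ C / Real.sqrt τ.im

/-- (T4), helper29: Hecke. -/
def T4 (N : ℕ) (c : Eis → ℝ) (F : H3 → ℂ) : Prop :=
  ∀ χ, IsCut (Gam N) χ → ∀ p : ℕ, p.Prime → ¬ p ∣ 3 * N →
    ∀ ϖ : Eis, Complex.normSq (ϖ : ℂ) = p → ∀ τ : ℂ, 0 < τ.im →
      (∑ j ∈ Finset.range p, lift χ F 1 (phiN N) (3 * ((τ + j) / p))) / p +
        lift χ F 1 (phiN N) (3 * (p * τ)) = c ϖ * lift χ F 1 (phiN N) (3 * τ)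

/-- (DUnb), block (N): the Asai series is unbounded as `s → 1+`. -/
def DUnb (c : Eis → ℝ) : Prop :=
  ∀ K : ℝ, ∃ s₀ : ℝ, 1 < s₀ ∧ ∀ s : ℝ, 1 < s → s < s₀ →
    Summable (fun n : ℕ => c (n : Eis) / (n : ℝ) ^ s) ∧
    K < ∑' n : ℕ, c (n : Eis) / (n : ℝ) ^ s

/-- (T56): nonvanishing. -/
def T56 (N : ℕ) (F : H3 → ℂ) : Prop :=
  ∀ χ, IsCut (Gam N) χ → ∃ τ : ℂ, 0 < τ.im ∧ lift χ F 1 (phiN N) τ ≠ 0

/-- Existence of cut-off functions (T-RED), helper47. -/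
def CutEx (N : ℕ) : Prop := ∃ χ, IsCut (Gam N) χ

/-- The output of block (T), in the shape of helper48's (Z). -/
def TOut (c : Eis → ℝ) : Prop :=
  ∃ (D : ℕ) (_ : 0 < D) (M : ℕ) (_ : NeZero M) (g : CuspForm (Gamma1 M) 1), g ≠ 0 ∧
    ∀ (p : ℕ) (hp : p.Prime) (hpM : ¬ p ∣ M), p ≡ 1 [MOD D] →
      ∀ ϖ : Eis, Complex.normSq (ϖ : ℂ) = p →
        H58.T1L M 1 p hp hpM g = (c ϖ : ℂ) • g

end Fermat.Agent.S47T
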