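import Fermat.Agent.H47RCong
import Fermat.Agent.H96TIface

/-!
# `CutEx` and finite index of `GamP m` (helper47)
-/

set_option autoImplicit false
set_option linter.unusedSectionVars false

noncomputable section

open MeasureTheory Matrix Complex
open scoped ComplexConjugate Real ENNReal

namespace Fermat.Agent.H47.Red

open Fermat.Agent.S47T

theorem GamP_eq (m : ℕ) : GamP m = PrG Eis (m : Eis) := by
  refine le_antisymm ?_ ?_
  · rintro g ⟨h1, h2⟩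
    refine ⟨⟨fun i j => ?_, h1⟩, h2⟩
    obtain ⟨x, hx, h⟩ := h2 i j
    rw [h]
    refine Eis.add_mem ?_ (Eis.mul_mem (natCast_mem _ _) hx)
    rw [Matrix.one_apply]
    split_ifs
    · exact Eis.one_mem
    · exact Eis.zero_mem
  · rintro g ⟨h1, h2⟩
    exact ⟨h1.2, h2⟩

theorem GamP_le_SLO (m : ℕ) : GamP m ≤ SLO Eis := by
  rw [GamP_eq]
  exact PrG_le _

theorem GamP_le_Gam (m : ℕ) : GamP m ≤ Gam m := by
  rw [GamP_eq]
  exact PrG_le_Gam m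

theorem finIdx_GamP {m : ℕ} (hm : m ≠ 0) : FinIdx Eis (GamP m) := by
  rw [GamP_eq]
  exact finIdx_PrG_Eis hm

/-- `GamP m` is normal in `SL₂(ℤ[ω])`. -/
theorem GamP_normal {m : ℕ} {g h : GL (Fin 2) ℂ} (hg : g ∈ SLO Eis) (hh : h ∈ GamP m) :
    g * h * g⁻¹ ∈ GamP m := by
  rw [GamP_eq] at hh ⊢
  refine ⟨(SLO Eis).mul_mem ((SLO Eis).mul_mem hg hh.1) ((SLO Eis).inv_mem hg), fun i j => ?_⟩
  have hgi := (SLO Eis).inv_mem hg
  choose x hx hgx using hh.2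
  refine ⟨∑ k, (∑ l, (g : Matrix (Fin 2) (Fin 2) ℂ) i l * x l k) *
    ((g⁻¹ : GL (Fin 2) ℂ) : Matrix (Fin 2) (Fin 2) ℂ) k j, ?_, ?_⟩
  · exact Eis.sum_mem fun k _ => Eis.mul_mem (Eis.sum_mem fun l _ =>
      Eis.mul_mem (hg.1 _ _) (hx _ _)) (hgi.1 _ _)
  · have e0 : ((m : Eis) : ℂ) = (m : ℂ) := by simp
    have hX : (h : Matrix (Fin 2) (Fin 2) ℂ) = 1 + (m : ℂ) • Matrix.of x := by
      ext i j
      rw [hgx i j, e0]
      rfl
    have h1 : ((g * h * g⁻¹ : GL (Fin 2) ℂ) : Matrix (Fin 2) (Fin 2) ℂ) =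
        1 + (m : ℂ) • ((g : Matrix (Fin 2) (Fin 2) ℂ) * Matrix.of x *
          ((g⁻¹ : GL (Fin 2) ℂ) : Matrix (Fin 2) (Fin 2) ℂ)) := by
      rw [Units.val_mul, Units.val_mul, hX, mul_add, add_mul, Matrix.mul_one, ← Units.val_mul,
        mul_inv_cancel, Units.val_one, Matrix.mul_smul, Matrix.smul_mul]
    rw [h1, e0, Matrix.add_apply, Matrix.smul_apply, smul_eq_mul, Matrix.mul_apply]
    rfl

theorem cutEx {N : ℕ} (hN : N ≠ 0) : CutEx N := by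
  obtain ⟨χ, h, -⟩ := exists_isCut (finIdx_Gam hN)
  exact ⟨χ, h⟩

end Fermat.Agent.H47.Red
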