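import Mathlib

/-!
# [T-HOL], part 1: Green's formula on the fundamental domain of `SL₂(ℤ)`

If `H : ℍ → ℂ` is `C¹`, has weight two for `SL₂(ℤ)`, decays at `i∞`, and `2 ∂H/∂τ̄ = P ≥ 0`, then
`P = 0` on the fundamental domain.
-/

set_option autoImplicit false
set_option maxHeartbeats 400000

noncomputable section

open Complex MeasureTheory Set Filter Topology

namespace Fermat.Agent.H93.THol

/-- `2 ∂/∂τ̄` (unnormalised): `D f z 1 + i D f z i` -/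
def dbar (f : ℂ → ℂ) (z : ℂ) : ℂ := fderiv ℝ f z 1 + I * fderiv ℝ f z I

/-- `2 ∂/∂τ` (unnormalised): `D f z 1 - i D f z i` -/
def dd (f : ℂ → ℂ) (z : ℂ) : ℂ := fderiv ℝ f z 1 - I * fderiv ℝ f z I

/-- the upper half plane -/
def UH : Set ℂ := {z | 0 < z.im}

theorem isOpen_UH : IsOpen UH := isOpen_lt continuous_const Complex.continuous_im

section Arc

/-- the lower boundary of the fundamental domain -/
def sq (u : ℝ) : ℝ := Real.sqrt (1 - u ^ 2)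

/-- its derivative -/
def dsq (u : ℝ) : ℝ := -u / Real.sqrt (1 - u ^ 2)

theorem pos_of {u : ℝ} (hu : |u| < 1) : 0 < 1 - u ^ 2 := by
  have := (abs_lt.mp hu)
  nlinarith

theorem sq_pos {u : ℝ} (hu : |u| < 1) : 0 < sq u := Real.sqrt_pos.mpr (pos_of hu)

theorem sq_sq {u : ℝ} (hu : |u| < 1) : sq u ^ 2 = 1 - u ^ 2 := Real.sq_sqrt (pos_of hu).le

theorem sq_neg (u : ℝ) : sq (-u) = sq u := by simp [sq]

theorem dsq_neg (u : ℝ) : dsq (-u) = -dsq u := by simp [dsq, neg_div]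

theorem hasDerivAt_sq {u : ℝ} (hu : |u| < 1) : HasDerivAt sq (dsq u) u := by
  have h1 : HasDerivAt (fun x : ℝ => 1 - x ^ 2) (-(2 * u)) u := by
    have := (hasDerivAt_pow 2 u).const_sub 1
    simpa using this
  have h2 := h1.sqrt (pos_of hu).ne'
  unfold sq dsq
  convert! h2 using 1
  have : Real.sqrt (1 - u ^ 2) ≠ 0 := (sq_pos hu).ne'
  field_simp

theorem differentiableAt_dsq {u : ℝ} (hu : |u| < 1) : DifferentiableAt ℝ dsq u := by
  have h1 : DifferentiableAt ℝ (fun x : ℝ => 1 - x ^ 2) u := by fun_prop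
  have h2 := h1.sqrt (pos_of hu).ne'
  exact (differentiableAt_id.neg).div h2 (sq_pos hu).ne'

/-- coordinates: `(u, t) ↦ u + i (√(1-u²) + t)` -/
def Zc (x : ℝ × ℝ) : ℂ := ⟨x.1, sq x.1 + x.2⟩

theorem Zc_eq (x : ℝ × ℝ) : Zc x = (x.1 : ℂ) + ((sq x.1 + x.2 : ℝ) : ℂ) * I := by
  apply Complex.ext <;> simp [Zc]

/-- the derivative of the coordinates -/
def dZc (x : ℝ × ℝ) : ℝ × ℝ →L[ℝ] ℂ :=
  (ContinuousLinearMap.fst ℝ ℝ ℝ).smulRight ((1 : ℂ) + (dsq x.1 : ℂ) * I) +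
    (ContinuousLinearMap.snd ℝ ℝ ℝ).smulRight I

theorem hasFDerivAt_Zc {x : ℝ × ℝ} (hx : |x.1| < 1) : HasFDerivAt Zc (dZc x) x := by
  have h1 : HasFDerivAt (fun y : ℝ × ℝ => y.1) (ContinuousLinearMap.fst ℝ ℝ ℝ) x :=
    hasFDerivAt_fst
  have h2 : HasFDerivAt (fun y : ℝ × ℝ => y.2) (ContinuousLinearMap.snd ℝ ℝ ℝ) x :=
    hasFDerivAt_snd
  have h3 : HasFDerivAt (fun y : ℝ × ℝ => sq y.1)
      ((dsq x.1) • (ContinuousLinearMap.fst ℝ ℝ ℝ)) x :=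
    (hasDerivAt_sq hx).comp_hasFDerivAt x h1
  have h4 := (Complex.ofRealCLM.hasFDerivAt.comp x h1)
  have h5 := (Complex.ofRealCLM.hasFDerivAt.comp x (h3.add h2))
  have h6 := h4.add (h5.mul_const I)
  refine (h6.congr_fderiv ?_).congr_of_eventuallyEq ?_
  · ext <;> simp [dZc, mul_comm]
  · exact Filter.Eventually.of_forall fun y => by
      rw [Zc_eq]; simp

end Arc

section Green

variable {H : ℂ → ℂ} {P : ℂ → ℝ}

theorem Zc_mem {x : ℝ × ℝ} (hx : |x.1| < 1) (h2 : 0 ≤ x.2) : Zc x ∈ UH := by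
  have := sq_pos hx
  show 0 < sq x.1 + x.2
  linarith

theorem abs_lt_one_of_mem {x : ℝ × ℝ} {T : ℝ} (hx : x ∈ Icc ((-1/2 : ℝ), (0 : ℝ)) (1/2, T)) :
    |x.1| < 1 := by
  have h1 : (-1/2 : ℝ) ≤ x.1 := hx.1.1
  have h2 : x.1 ≤ 1/2 := hx.2.1
  rw [abs_lt]
  constructor <;> linarith

/-- the first component of the vector field -/
def fF (H : ℂ → ℂ) (x : ℝ × ℝ) : ℂ := H (Zc x)

/-- the second component of the vector field -/
def gF (H : ℂ → ℂ) (x : ℝ × ℝ) : ℂ := (I - (dsq x.1 : ℂ)) * H (Zc x)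

/-- derivative of `fF` -/
def dfF (H : ℂ → ℂ) (x : ℝ × ℝ) : ℝ × ℝ →L[ℝ] ℂ := (fderiv ℝ H (Zc x)).comp (dZc x)

/-- derivative of `gF` -/
def dgF (H : ℂ → ℂ) (x : ℝ × ℝ) : ℝ × ℝ →L[ℝ] ℂ :=
  (I - (dsq x.1 : ℂ)) • dfF H x +
    H (Zc x) • (ContinuousLinearMap.fst ℝ ℝ ℝ).smulRight (-((deriv dsq x.1 : ℝ) : ℂ))

theorem hasFDerivAt_fF (hd : ∀ z ∈ UH, DifferentiableAt ℝ H z) {x : ℝ × ℝ} (hx : |x.1| < 1)
    (h2 : 0 ≤ x.2) : HasFDerivAt (fF H) (dfF H x) x :=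
  (hd _ (Zc_mem hx h2)).hasFDerivAt.comp x (hasFDerivAt_Zc hx)

theorem hasFDerivAt_gF (hd : ∀ z ∈ UH, DifferentiableAt ℝ H z) {x : ℝ × ℝ} (hx : |x.1| < 1)
    (h2 : 0 ≤ x.2) : HasFDerivAt (gF H) (dgF H x) x := by
  have h1 : HasFDerivAt (fun y : ℝ × ℝ => y.1) (ContinuousLinearMap.fst ℝ ℝ ℝ) x :=
    hasFDerivAt_fst
  have h3 := (differentiableAt_dsq hx).hasDerivAt.comp_hasFDerivAt x h1
  have h4 := (Complex.ofRealCLM.hasFDerivAt.comp x h3)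
  have h5 := h4.const_sub I
  have h6 := h5.mul (hasFDerivAt_fF hd hx h2)
  refine (h6.congr_fderiv ?_).congr_of_eventuallyEq ?_
  · ext <;> simp [dgF, fF]
  · exact Filter.Eventually.of_forall fun y => by simp [gF, fF]

theorem div_eq (hP : ∀ z ∈ UH, dbar H z = (P z : ℂ)) {x : ℝ × ℝ} (hx : |x.1| < 1)
    (h2 : 0 ≤ x.2) : dfF H x (1, 0) + dgF H x (0, 1) = (P (Zc x) : ℂ) := by
  rw [← hP _ (Zc_mem hx h2), dbar]
  have e1 : dZc x (1, 0) = 1 + (dsq x.1) • I := by simp [dZc]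
  have e2 : dZc x (0, 1) = I := by simp [dZc]
  have e3 : dfF H x (1, 0) = fderiv ℝ H (Zc x) 1 + (dsq x.1 : ℂ) * fderiv ℝ H (Zc x) I := by
    show (fderiv ℝ H (Zc x)) (dZc x (1, 0)) = _
    rw [e1, map_add, map_smul, Complex.real_smul]
  have e4 : dfF H x (0, 1) = fderiv ℝ H (Zc x) I := by
    show (fderiv ℝ H (Zc x)) (dZc x (0, 1)) = _
    rw [e2]
  have e5 : dgF H x (0, 1) = (I - (dsq x.1 : ℂ)) * fderiv ℝ H (Zc x) I := by
    simp [dgF, e4]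
  rw [e3, e5]
  ring

theorem continuousOn_Zc {T : ℝ} : ContinuousOn Zc (Icc ((-1/2 : ℝ), (0 : ℝ)) (1/2, T)) :=
  fun _ hx => (hasFDerivAt_Zc (abs_lt_one_of_mem hx)).continuousAt.continuousWithinAt

theorem mapsTo_Zc {T : ℝ} : MapsTo Zc (Icc ((-1/2 : ℝ), (0 : ℝ)) (1/2, T)) UH :=
  fun _ hx => Zc_mem (abs_lt_one_of_mem hx) hx.1.2

theorem gF_neg (hS : ∀ z ∈ UH, H (-z⁻¹) = z ^ 2 * H z) {u : ℝ} (hu : |u| < 1) :
    gF H (-u, 0) = -gF H (u, 0) := by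
  have hs := sq_pos hu
  have hss := sq_sq hu
  have hz : Zc (u, 0) ∈ UH := Zc_mem (x := (u, 0)) hu le_rfl
  have hne : Zc (u, 0) ≠ 0 := by
    intro h
    have := hz
    rw [h] at this
    exact lt_irrefl (0 : ℝ) this
  have h1 : Zc (-u, 0) = -(Zc (u, 0))⁻¹ := by
    rw [eq_neg_iff_add_eq_zero]
    field_simp
    apply Complex.ext
    · simp [Zc, sq_neg]
      nlinarith
    · simp [Zc, sq_neg]
      ring
  have hsC : ((sq u : ℝ) : ℂ) ^ 2 = 1 - (u : ℂ) ^ 2 := by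
    have := congrArg (fun r : ℝ => (r : ℂ)) hss
    push_cast at this
    exact this
  have hsne : ((sq u : ℝ) : ℂ) ≠ 0 := by exact_mod_cast hs.ne'
  have hdsq : ((dsq u : ℝ) : ℂ) = -(u : ℂ) / (sq u : ℂ) := by
    rw [dsq, sq]
    push_cast
    rfl
  simp only [gF]
  rw [h1, hS _ hz, dsq_neg]
  push_cast
  rw [hdsq]
  have hZ : Zc (u, 0) = (u : ℂ) + (sq u : ℂ) * I := by rw [Zc_eq]; simp
  have key : (I - -(-(u : ℂ) / (sq u : ℂ))) * Zc (u, 0) ^ 2 = -(I - -(u : ℂ) / (sq u : ℂ)) := by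
    rw [hZ]
    have hI : I ^ 2 = -1 := Complex.I_sq
    have hN : ((u : ℂ) - (sq u : ℂ) * I) * ((u : ℂ) + (sq u : ℂ) * I) = 1 := by
      linear_combination (-((sq u : ℂ) ^ 2)) * hI + hsC
    have e1 : (I - -(-(u : ℂ) / (sq u : ℂ))) = -((u : ℂ) - (sq u : ℂ) * I) / (sq u : ℂ) := by
      field_simp
      ring
    have e2 : -(I - -(u : ℂ) / (sq u : ℂ)) = -((u : ℂ) + (sq u : ℂ) * I) / (sq u : ℂ) := by
      field_simp
      ring
    rw [e1, e2]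
    linear_combination (-((u : ℂ) + (sq u : ℂ) * I) / (sq u : ℂ)) * hN
  rw [← mul_assoc, key]
  ring

theorem Zc_side (H : ℂ → ℂ) (hT : ∀ z ∈ UH, H (z + 1) = H z) {y : ℝ} (hy : 0 ≤ y) :
    fF H (1/2, y) = fF H (-1/2, y) := by
  have h1 : Zc ((1/2 : ℝ), y) = Zc ((-1/2 : ℝ), y) + 1 := by
    have e : sq (1/2) = sq (-1/2) := by
      rw [show (-1/2 : ℝ) = -(1/2) by norm_num, sq_neg]
    apply Complex.ext
    · simp [Zc]; norm_num
    · show sq (1/2) + y = (Zc ((-1/2 : ℝ), y)).im + (1 : ℂ).im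
      rw [e, Complex.one_im, add_zero]
      rfl
  have h2 : Zc ((-1/2 : ℝ), y) ∈ UH :=
    Zc_mem (x := ((-1/2 : ℝ), y)) (by show |(-1/2 : ℝ)| < 1; rw [abs_lt]; constructor <;> norm_num) hy
  rw [fF, fF, h1, hT _ h2]

theorem dsq_abs_le {u : ℝ} (h1 : -1/2 ≤ u) (h2 : u ≤ 1/2) : |dsq u| ≤ 1 := by
  have hu : |u| ≤ 1/2 := abs_le.mpr ⟨by linarith, h2⟩
  have hu' : |u| < 1 := by linarith
  have hs := sq_pos hu'
  have hss := sq_sq hu'
  have h3 : |u| ≤ sq u := by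
    apply abs_le_of_sq_le_sq _ hs.le
    nlinarith
  rw [dsq, abs_div, abs_neg, abs_of_pos (show 0 < Real.sqrt (1 - u ^ 2) from hs)]
  exact div_le_one_of_le₀ h3 hs.le

theorem norm_gF_le {C c : ℝ} (hdec : ∀ z ∈ UH, 1/2 ≤ z.im → ‖H z‖ ≤ C * Real.exp (-c * z.im))
    (hC : 0 ≤ C) (hc : 0 < c) {u T : ℝ} (h1 : -1/2 ≤ u) (h2 : u ≤ 1/2) (hT : 1 ≤ T) :
    ‖gF H (u, T)‖ ≤ 2 * (C * Real.exp (-c * T)) := by
  have hu : |u| < 1 := by rw [abs_lt]; constructor <;> linarith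
  have hs := sq_pos hu
  have hz : Zc (u, T) ∈ UH := Zc_mem (x := (u, T)) hu (by show 0 ≤ T; linarith)
  have him : (Zc (u, T)).im = sq u + T := rfl
  have h3 := hdec _ hz (by rw [him]; linarith)
  have h4 : ‖I - (dsq u : ℂ)‖ ≤ 2 := by
    have := norm_sub_le I (dsq u : ℂ)
    rw [Complex.norm_I, Complex.norm_real, Real.norm_eq_abs] at this
    linarith [dsq_abs_le h1 h2]
  have h5 : Real.exp (-c * (Zc (u, T)).im) ≤ Real.exp (-c * T) := by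
    apply Real.exp_le_exp.mpr
    rw [him]
    nlinarith
  rw [gF, norm_mul]
  apply mul_le_mul h4 _ (norm_nonneg _) (by norm_num)
  exact h3.trans (mul_le_mul_of_nonneg_left h5 hC)

theorem continuousOn_fF (hd : ∀ z ∈ UH, DifferentiableAt ℝ H z) {T : ℝ} :
    ContinuousOn (fF H) (Icc ((-1/2 : ℝ), (0 : ℝ)) (1/2, T)) :=
  fun _ hx => (hasFDerivAt_fF hd (abs_lt_one_of_mem hx) hx.1.2).continuousAt.continuousWithinAt

theorem continuousOn_gF (hd : ∀ z ∈ UH, DifferentiableAt ℝ H z) {T : ℝ} :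
    ContinuousOn (gF H) (Icc ((-1/2 : ℝ), (0 : ℝ)) (1/2, T)) :=
  fun _ hx => (hasFDerivAt_gF hd (abs_lt_one_of_mem hx) hx.1.2).continuousAt.continuousWithinAt

/-- Green's formula on the truncated fundamental domain -/
theorem green (hd : ∀ z ∈ UH, DifferentiableAt ℝ H z)
    (hP : ∀ z ∈ UH, dbar H z = (P z : ℂ)) (hPc : ContinuousOn P UH)
    (hT : ∀ z ∈ UH, H (z + 1) = H z) (hS : ∀ z ∈ UH, H (-z⁻¹) = z ^ 2 * H z)
    {T : ℝ} (h0 : 0 ≤ T) :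
    ((∫ x in Icc ((-1/2 : ℝ), (0 : ℝ)) (1/2, T), P (Zc x) : ℝ) : ℂ) =
      ∫ u in (-1/2 : ℝ)..(1/2), gF H (u, T) := by
  have hPZ : ContinuousOn (fun x => P (Zc x)) (Icc ((-1/2 : ℝ), (0 : ℝ)) (1/2, T)) :=
    hPc.comp continuousOn_Zc mapsTo_Zc
  have hE : EqOn (fun x => dfF H x (1, 0) + dgF H x (0, 1)) (fun x => (P (Zc x) : ℂ))
      (Icc ((-1/2 : ℝ), (0 : ℝ)) (1/2, T)) := fun x hx => div_eq hP (abs_lt_one_of_mem hx) hx.1.2
  have hint : IntegrableOn (fun x => dfF H x (1, 0) + dgF H x (0, 1))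
      (Icc ((-1/2 : ℝ), (0 : ℝ)) (1/2, T)) := by
    have h1 : ContinuousOn (fun x => (P (Zc x) : ℂ)) (Icc ((-1/2 : ℝ), (0 : ℝ)) (1/2, T)) :=
      Complex.continuous_ofReal.comp_continuousOn hPZ
    exact (h1.congr hE).integrableOn_Icc
  have hle : ((-1/2 : ℝ), (0 : ℝ)) ≤ (1/2, T) := ⟨by show (-1/2 : ℝ) ≤ 1/2; norm_num, h0⟩
  have hsub : ∀ x ∈ Ioo (-1/2 : ℝ) (1/2) ×ˢ Ioo (0 : ℝ) T,
      x ∈ Icc ((-1/2 : ℝ), (0 : ℝ)) (1/2, T) := fun x hx =>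
    ⟨⟨hx.1.1.le, hx.2.1.le⟩, ⟨hx.1.2.le, hx.2.2.le⟩⟩
  have key := MeasureTheory.integral_divergence_prod_Icc_of_hasFDerivAt_of_le (fF H) (gF H)
    (dfF H) (dgF H) ((-1/2 : ℝ), (0 : ℝ)) (1/2, T) hle (continuousOn_fF hd) (continuousOn_gF hd)
    (fun x hx => hasFDerivAt_fF hd (abs_lt_one_of_mem (hsub x hx)) (hsub x hx).1.2)
    (fun x hx => hasFDerivAt_gF hd (abs_lt_one_of_mem (hsub x hx)) (hsub x hx).1.2) hint
  have h1 : (∫ x in Icc ((-1/2 : ℝ), (0 : ℝ)) (1/2, T), dfF H x (1, 0) + dgF H x (0, 1)) =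
      ((∫ x in Icc ((-1/2 : ℝ), (0 : ℝ)) (1/2, T), P (Zc x) : ℝ) : ℂ) := by
    refine (setIntegral_congr_fun measurableSet_Icc hE).trans ?_
    exact integral_ofReal (𝕜 := ℂ)
  rw [← h1, key]
  have h2 : (∫ y in (0 : ℝ)..T, fF H (1/2, y)) = ∫ y in (0 : ℝ)..T, fF H (-1/2, y) := by
    apply intervalIntegral.integral_congr
    intro y hy
    rw [uIcc_of_le h0] at hy
    exact Zc_side H hT hy.1
  have h3 : (∫ x in (-1/2 : ℝ)..(1/2), gF H (x, 0)) = 0 := by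
    have h4 := intervalIntegral.integral_comp_neg (a := (-1/2 : ℝ)) (b := 1/2)
      (fun x : ℝ => gF H (x, 0))
    have h5 : (∫ x in (-1/2 : ℝ)..(1/2), gF H (-x, 0)) =
        -∫ x in (-1/2 : ℝ)..(1/2), gF H (x, 0) := by
      rw [← intervalIntegral.integral_neg]
      apply intervalIntegral.integral_congr
      intro u hu
      rw [uIcc_of_le (by norm_num)] at hu
      exact gF_neg hS (by rw [abs_lt]; constructor <;> linarith [hu.1, hu.2])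
    rw [h5, show (-(1/2) : ℝ) = -1/2 by norm_num, show (-(-1/2) : ℝ) = 1/2 by norm_num] at h4
    have h6 : (2 : ℂ) * (∫ x in (-1/2 : ℝ)..(1/2), gF H (x, 0)) = 0 := by
      linear_combination -h4
    simpa using h6
  simp only [h2, h3]
  ring

theorem green_zero (hd : ∀ z ∈ UH, DifferentiableAt ℝ H z)
    (hP : ∀ z ∈ UH, dbar H z = (P z : ℂ)) (hPc : ContinuousOn P UH) (hP0 : ∀ z ∈ UH, 0 ≤ P z)
    (hT : ∀ z ∈ UH, H (z + 1) = H z) (hS : ∀ z ∈ UH, H (-z⁻¹) = z ^ 2 * H z)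
    {C c : ℝ} (hc : 0 < c)
    (hdec : ∀ z ∈ UH, 1/2 ≤ z.im → ‖H z‖ ≤ C * Real.exp (-c * z.im))
    {x : ℝ × ℝ} (hx1 : -1/2 ≤ x.1) (hx2 : x.1 ≤ 1/2) (hx3 : 0 ≤ x.2) : P (Zc x) = 0 := by
  have hC : 0 ≤ C := by
    have h1 := hdec I (by show 0 < I.im; simp) (by simp; norm_num)
    by_contra hcon
    push Not at hcon
    have := mul_neg_of_neg_of_pos hcon (Real.exp_pos (-c * I.im))
    linarith [norm_nonneg (H I)]
  have hPZ : ∀ T : ℝ, ContinuousOn (fun x => P (Zc x)) (Icc ((-1/2 : ℝ), (0 : ℝ)) (1/2, T)) :=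
    fun T => hPc.comp continuousOn_Zc mapsTo_Zc
  set J : ℝ → ℝ := fun T => ∫ x in Icc ((-1/2 : ℝ), (0 : ℝ)) (1/2, T), P (Zc x) with hJ
  have hnn : ∀ T : ℝ, ∀ x ∈ Icc ((-1/2 : ℝ), (0 : ℝ)) (1/2, T), 0 ≤ P (Zc x) :=
    fun T x hx => hP0 _ (mapsTo_Zc hx)
  have hJ0 : ∀ T, 0 ≤ J T := fun T => setIntegral_nonneg measurableSet_Icc (hnn T)
  have hmono : ∀ S T, S ≤ T → J S ≤ J T := by
    intro S T hST
    apply setIntegral_mono_set (hPZ T).integrableOn_Icc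
    · exact (ae_restrict_iff' measurableSet_Icc).mpr (Eventually.of_forall (hnn T))
    · have hle : ((1/2 : ℝ), S) ≤ (1/2, T) := ⟨le_rfl, hST⟩
      exact (Icc_subset_Icc_right hle).eventuallyLE
  have hup : ∀ T, 1 ≤ T → J T ≤ 2 * (C * Real.exp (-c * T)) := by
    intro T hT1
    have h1 := green hd hP hPc hT hS (T := T) (by linarith)
    have h2 : ‖∫ u in (-1/2 : ℝ)..(1/2), gF H (u, T)‖ ≤
        2 * (C * Real.exp (-c * T)) * |1/2 - (-1/2)| := by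
      apply intervalIntegral.norm_integral_le_of_norm_le_const
      intro u hu
      rw [uIoc_of_le (by norm_num)] at hu
      exact norm_gF_le hdec hC hc hu.1.le hu.2 hT1
    rw [← h1, Complex.norm_real, Real.norm_eq_abs, abs_of_nonneg (hJ0 T)] at h2
    rw [show |(1/2 : ℝ) - (-1/2)| = 1 by norm_num, mul_one] at h2
    exact h2
  have hlim : Tendsto (fun T : ℝ => 2 * (C * Real.exp (-c * T))) atTop (𝓝 0) := by
    have h1 : Tendsto (fun T : ℝ => -c * T) atTop atBot :=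
      tendsto_id.const_mul_atTop_of_neg (by linarith)
    have h2 := (Real.tendsto_exp_atBot.comp h1).const_mul C
    have h3 := h2.const_mul 2
    simpa using h3
  have hzero : ∀ T, J T = 0 := by
    intro T
    apply le_antisymm _ (hJ0 T)
    apply ge_of_tendsto hlim
    filter_upwards [eventually_ge_atTop (max 1 T)] with S hS'
    exact (hmono T S ((le_max_right _ _).trans hS')).trans (hup S ((le_max_left _ _).trans hS'))
  set T : ℝ := x.2 + 1 with hTdef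
  have hmem : x ∈ Icc ((-1/2 : ℝ), (0 : ℝ)) (1/2, T) :=
    ⟨⟨hx1, hx3⟩, ⟨hx2, by show x.2 ≤ x.2 + 1; linarith⟩⟩
  have hae : (fun x => P (Zc x)) =ᵐ[volume.restrict (Icc ((-1/2 : ℝ), (0 : ℝ)) (1/2, T))]
      (fun _ => (0 : ℝ)) := by
    have := (setIntegral_eq_zero_iff_of_nonneg_ae
      ((ae_restrict_iff' measurableSet_Icc).mpr (Eventually.of_forall (hnn T)))
      (hPZ T).integrableOn_Icc).mp (hzero T)
    exact this
  refine Measure.eqOn_of_ae_eq hae (hPZ T) continuousOn_const ?_ hmem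
  have hT0 : (0 : ℝ) ≠ T := by
    have : 0 < T := by linarith
    exact this.ne
  rw [Icc_prod_eq, interior_prod_eq, closure_prod_eq]
  simp only [interior_Icc]
  rw [closure_Ioo hT0, closure_Ioo (by norm_num)]

end Green

end Fermat.Agent.H93.THol
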