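import Mathlib
import Fermat.Agent.H93TGreen

/-!
# [T-HOL], part 2: vector valued weight one forms with holomorphic `ξ`-image are holomorphic
-/

set_option autoImplicit false
set_option maxHeartbeats 400000

noncomputable section

open Complex MeasureTheory Set Filter Topology ComplexConjugate

namespace Fermat.Agent.H93.THol

section Calculus

theorem clm_apply_eq (L : ℂ →L[ℝ] ℂ) (v : ℂ) : L v = (v.re : ℂ) * L 1 + (v.im : ℂ) * L I := by
  have h : v = v.re • (1 : ℂ) + v.im • I := by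
    apply Complex.ext <;> simp
  conv_lhs => rw [h]
  rw [map_add, map_smul, map_smul, Complex.real_smul, Complex.real_smul]

theorem dbar_congr {f g : ℂ → ℂ} {z : ℂ} (h : f =ᶠ[𝓝 z] g) : dbar f z = dbar g z := by
  rw [dbar, dbar, h.fderiv_eq]

theorem dbar_congr_UH {f g : ℂ → ℂ} (h : ∀ w ∈ UH, f w = g w) {z : ℂ} (hz : z ∈ UH) :
    dbar f z = dbar g z :=
  dbar_congr (Filter.eventuallyEq_of_mem (isOpen_UH.mem_nhds hz) h)

theorem dd_congr_UH {f g : ℂ → ℂ} (h : ∀ w ∈ UH, f w = g w) {z : ℂ} (hz : z ∈ UH) :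
    dd f z = dd g z := by
  have h1 : f =ᶠ[𝓝 z] g := Filter.eventuallyEq_of_mem (isOpen_UH.mem_nhds hz) h
  rw [dd, dd, h1.fderiv_eq]

theorem dbar_mul {f g : ℂ → ℂ} {z : ℂ} (hf : DifferentiableAt ℝ f z)
    (hg : DifferentiableAt ℝ g z) :
    dbar (fun w => f w * g w) z = dbar f z * g z + f z * dbar g z := by
  have h := (hf.hasFDerivAt.mul hg.hasFDerivAt).fderiv
  have h' : fderiv ℝ (fun w => f w * g w) z = f z • fderiv ℝ g z + g z • fderiv ℝ f z := h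
  simp only [dbar, h', add_apply, smul_apply, smul_eq_mul]
  ring

theorem dbar_sum {ι : Type*} (s : Finset ι) {f : ι → ℂ → ℂ} {z : ℂ}
    (hf : ∀ i ∈ s, DifferentiableAt ℝ (f i) z) :
    dbar (fun w => ∑ i ∈ s, f i w) z = ∑ i ∈ s, dbar (f i) z := by
  have h := (HasFDerivAt.fun_sum (u := s) fun i hi => (hf i hi).hasFDerivAt).fderiv
  simp only [dbar, h, sum_apply, Finset.mul_sum, Finset.sum_add_distrib]

theorem dbar_const_mul {f : ℂ → ℂ} {z : ℂ} (a : ℂ) (hf : DifferentiableAt ℝ f z) :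
    dbar (fun w => a * f w) z = a * dbar f z := by
  have h : fderiv ℝ (fun w => a * f w) z = a • fderiv ℝ f z := (hf.hasFDerivAt.const_mul a).fderiv
  simp only [dbar, h, smul_apply, smul_eq_mul]
  ring

theorem dbar_of_holo {f : ℂ → ℂ} {z : ℂ} (hf : DifferentiableAt ℂ f z) : dbar f z = 0 := by
  have h := (differentiableAt_complex_iff_differentiableAt_real.mp hf).2
  rw [dbar, h, smul_eq_mul, ← mul_assoc, Complex.I_mul_I]
  ring

theorem holo_of_dbar {f : ℂ → ℂ} {z : ℂ} (hf : DifferentiableAt ℝ f z) (h : dbar f z = 0) :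
    DifferentiableAt ℂ f z := by
  refine differentiableAt_complex_iff_differentiableAt_real.mpr ⟨hf, ?_⟩
  rw [smul_eq_mul]
  rw [dbar] at h
  linear_combination (-I) * h + (fderiv ℝ f z I) * Complex.I_mul_I

theorem dbar_comp {f S : ℂ → ℂ} {z S' : ℂ} (hS : HasDerivAt S S' z)
    (hf : DifferentiableAt ℝ f (S z)) :
    dbar (fun w => f (S w)) z = conj S' * dbar f (S z) := by
  have h1 : HasFDerivAt S ((ContinuousLinearMap.toSpanSingleton ℂ S').restrictScalars ℝ) z :=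
    hS.hasFDerivAt.restrictScalars ℝ
  have h2 := (hf.hasFDerivAt.comp z h1).fderiv
  have h3 : fderiv ℝ (fun w => f (S w)) z = _ := h2
  have e1 : fderiv ℝ (fun w => f (S w)) z 1 = fderiv ℝ f (S z) S' := by
    rw [h3]; simp
  have e2 : fderiv ℝ (fun w => f (S w)) z I = fderiv ℝ f (S z) (I * S') := by
    rw [h3]; simp
  rw [dbar, dbar, e1, e2, clm_apply_eq _ S', clm_apply_eq _ (I * S')]
  have e3 : conj S' = (S'.re : ℂ) - (S'.im : ℂ) * I := by
    apply Complex.ext <;> simp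
  have e4 : (I * S').re = -S'.im := by simp
  have e5 : (I * S').im = S'.re := by simp
  rw [e3, e4, e5]
  push_cast
  linear_combination ((S'.im : ℂ) * fderiv ℝ f (S z) I) * Complex.I_mul_I

theorem dbar_conj {f : ℂ → ℂ} {z : ℂ} (hf : DifferentiableAt ℝ f z) :
    dbar (fun w => conj (f w)) z = conj (dd f z) := by
  have h1 : HasFDerivAt (fun w => conj (f w))
      ((Complex.conjCLE : ℂ →L[ℝ] ℂ).comp (fderiv ℝ f z)) z :=
    (Complex.conjCLE : ℂ →L[ℝ] ℂ).hasFDerivAt.comp z hf.hasFDerivAt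
  rw [dbar, h1.fderiv, dd]
  simp

theorem differentiableAt_conj {f : ℂ → ℂ} {z : ℂ} (hf : DifferentiableAt ℝ f z) :
    DifferentiableAt ℝ (fun w => conj (f w)) z :=
  ((Complex.conjCLE : ℂ →L[ℝ] ℂ).hasFDerivAt.comp z hf.hasFDerivAt).differentiableAt

theorem contDiffOn_dbar {f : ℂ → ℂ} (hf : ContDiffOn ℝ 2 f UH) : ContDiffOn ℝ 1 (dbar f) UH := by
  have h1 : ContDiffOn ℝ 1 (fderiv ℝ f) UH := hf.fderiv_of_isOpen isOpen_UH (by norm_num)
  have h2 : ContDiffOn ℝ 1 (fun z => fderiv ℝ f z 1) UH := h1.clm_apply contDiffOn_const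
  have h3 : ContDiffOn ℝ 1 (fun z => fderiv ℝ f z I) UH := h1.clm_apply contDiffOn_const
  exact h2.add (contDiffOn_const.mul h3)

end Calculus

section Main

set_option linter.unusedSectionVars false

variable {ι : Type*} [Fintype ι] [DecidableEq ι] {g : ι → ℂ → ℂ} {A B : Matrix ι ι ℂ}

/-- `v ∂g/∂τ̄` (up to the factor 2) -/
def phi (g : ι → ℂ → ℂ) (i : ι) (z : ℂ) : ℂ := (z.im : ℂ) * dbar (g i) z

/-- the weight two function -/
def HH (g : ι → ℂ → ℂ) (z : ℂ) : ℂ := ∑ i, g i z * conj (phi g i z)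

/-- its `∂̄` -/
def PP (g : ι → ℂ → ℂ) (z : ℂ) : ℝ := z.im * ∑ i, ‖dbar (g i) z‖ ^ 2

theorem add_one_mem {z : ℂ} (hz : z ∈ UH) : z + 1 ∈ UH := by
  show 0 < (z + 1).im
  rw [Complex.add_im, Complex.one_im, add_zero]
  exact hz

theorem neg_inv_mem {z : ℂ} (hz : z ∈ UH) : -z⁻¹ ∈ UH := by
  have h1 : 0 < z.im := hz
  have h2 : z ≠ 0 := by
    intro h
    rw [h] at h1
    exact lt_irrefl (0 : ℝ) h1
  show 0 < (-z⁻¹).im
  rw [Complex.neg_im, Complex.inv_im, neg_div, neg_neg]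
  exact div_pos h1 (Complex.normSq_pos.mpr h2)

theorem ne_zero_of_mem {z : ℂ} (hz : z ∈ UH) : z ≠ 0 := by
  have h1 : 0 < z.im := hz
  intro h
  rw [h] at h1
  exact lt_irrefl (0 : ℝ) h1

theorem dbar_T (hd : ∀ i, ∀ z ∈ UH, DifferentiableAt ℝ (g i) z)
    (hT : ∀ i, ∀ z ∈ UH, g i (z + 1) = ∑ j, A i j * g j z) (i : ι) {z : ℂ} (hz : z ∈ UH) :
    dbar (g i) (z + 1) = ∑ j, A i j * dbar (g j) z := by
  have h1 : HasDerivAt (fun w : ℂ => w + 1) 1 z := (hasDerivAt_id z).add_const 1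
  have h2 := dbar_comp (f := g i) h1 (hd i _ (add_one_mem hz))
  rw [map_one, one_mul] at h2
  rw [← h2, dbar_congr_UH (hT i) hz]
  rw [dbar_sum _ fun j _ => (hd j z hz).const_mul _]
  exact Finset.sum_congr rfl fun j _ => dbar_const_mul _ (hd j z hz)

theorem dbar_S (hd : ∀ i, ∀ z ∈ UH, DifferentiableAt ℝ (g i) z)
    (hS : ∀ i, ∀ z ∈ UH, g i (-z⁻¹) = z * ∑ j, B i j * g j z) (i : ι) {z : ℂ} (hz : z ∈ UH) :
    dbar (g i) (-z⁻¹) = (conj z) ^ 2 * (z * ∑ j, B i j * dbar (g j) z) := by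
  have hz0 := ne_zero_of_mem hz
  have h1 : HasDerivAt (fun w : ℂ => -w⁻¹) ((z ^ 2)⁻¹) z := by
    have := (hasDerivAt_inv hz0).neg
    rw [neg_neg] at this
    exact this
  have h2 := dbar_comp (f := g i) h1 (hd i _ (neg_inv_mem hz))
  rw [dbar_congr_UH (hS i) hz] at h2
  have h3 : DifferentiableAt ℝ (fun w => ∑ j, B i j * g j w) z :=
    DifferentiableAt.fun_sum fun j _ => (hd j z hz).const_mul _
  rw [dbar_mul (f := fun w => w) differentiableAt_fun_id h3,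
    dbar_of_holo (f := fun w => w) differentiableAt_fun_id, zero_mul, zero_add,
    dbar_sum _ fun j _ => (hd j z hz).const_mul _] at h2
  have h4 : ∑ j, dbar (fun w => B i j * g j w) z = ∑ j, B i j * dbar (g j) z :=
    Finset.sum_congr rfl fun j _ => dbar_const_mul _ (hd j z hz)
  rw [h4] at h2
  have hz1 : conj z ≠ 0 := (map_ne_zero _).mpr hz0
  rw [map_inv₀, map_pow] at h2
  have h5 : dbar (g i) (-z⁻¹) = (conj z) ^ 2 * (((conj z) ^ 2)⁻¹ * dbar (g i) (-z⁻¹)) := by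
    field_simp
  rw [h5, ← h2]

theorem phi_T (hd : ∀ i, ∀ z ∈ UH, DifferentiableAt ℝ (g i) z)
    (hT : ∀ i, ∀ z ∈ UH, g i (z + 1) = ∑ j, A i j * g j z) (i : ι) {z : ℂ} (hz : z ∈ UH) :
    phi g i (z + 1) = ∑ j, A i j * phi g j z := by
  simp only [phi]
  rw [dbar_T hd hT i hz, Complex.add_im, Complex.one_im, add_zero, Finset.mul_sum]
  exact Finset.sum_congr rfl fun j _ => by ring

theorem phi_S (hd : ∀ i, ∀ z ∈ UH, DifferentiableAt ℝ (g i) z)
    (hS : ∀ i, ∀ z ∈ UH, g i (-z⁻¹) = z * ∑ j, B i j * g j z) (i : ι) {z : ℂ} (hz : z ∈ UH) :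
    phi g i (-z⁻¹) = conj z * ∑ j, B i j * phi g j z := by
  have hz0 := ne_zero_of_mem hz
  have hz1 : conj z ≠ 0 := (map_ne_zero _).mpr hz0
  simp only [phi]
  rw [dbar_S hd hS i hz, Complex.neg_im, Complex.inv_im, neg_div, neg_neg]
  push_cast
  rw [← Complex.mul_conj]
  have h1 : ∑ j, B i j * ((z.im : ℂ) * dbar (g j) z) = (z.im : ℂ) * ∑ j, B i j * dbar (g j) z := by
    rw [Finset.mul_sum]
    exact Finset.sum_congr rfl fun j _ => by ring
  rw [h1]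
  field_simp

open Matrix in
theorem unitary_sum (hA : Aᴴ * A = 1) (x y : ι → ℂ) :
    ∑ i, (∑ j, A i j * x j) * conj (∑ j, A i j * y j) = ∑ j, x j * conj (y j) := by
  have h1 : (star (A *ᵥ y)) ⬝ᵥ (A *ᵥ x) = star y ⬝ᵥ x := by
    rw [Matrix.star_mulVec, Matrix.dotProduct_mulVec, Matrix.vecMul_vecMul, hA,
      Matrix.vecMul_one]
  simp only [dotProduct, mulVec, Pi.star_apply] at h1
  calc _ = ∑ i, star (∑ j, A i j * y j) * (∑ j, A i j * x j) :=
        Finset.sum_congr rfl fun i _ => mul_comm _ _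
    _ = _ := h1
    _ = _ := Finset.sum_congr rfl fun i _ => mul_comm _ _

theorem HH_T (hA : A.conjTranspose * A = 1) (hd : ∀ i, ∀ z ∈ UH, DifferentiableAt ℝ (g i) z)
    (hT : ∀ i, ∀ z ∈ UH, g i (z + 1) = ∑ j, A i j * g j z) {z : ℂ} (hz : z ∈ UH) :
    HH g (z + 1) = HH g z := by
  rw [HH, HH, ← unitary_sum hA (fun j => g j z) (fun j => phi g j z)]
  exact Finset.sum_congr rfl fun i _ => by rw [hT i z hz, phi_T hd hT i hz]

theorem HH_S (hB : B.conjTranspose * B = 1) (hd : ∀ i, ∀ z ∈ UH, DifferentiableAt ℝ (g i) z)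
    (hS : ∀ i, ∀ z ∈ UH, g i (-z⁻¹) = z * ∑ j, B i j * g j z) {z : ℂ} (hz : z ∈ UH) :
    HH g (-z⁻¹) = z ^ 2 * HH g z := by
  rw [HH, HH, ← unitary_sum hB (fun j => g j z) (fun j => phi g j z), Finset.mul_sum]
  refine Finset.sum_congr rfl fun i _ => ?_
  rw [hS i z hz, phi_S hd hS i hz, map_mul, Complex.conj_conj]
  ring

theorem contDiffOn_phi (hC2 : ∀ i, ContDiffOn ℝ 2 (g i) UH) (i : ι) :
    ContDiffOn ℝ 1 (phi g i) UH := by
  have h1 : ContDiff ℝ 1 (fun z : ℂ => (z.im : ℂ)) :=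
    (Complex.ofRealCLM.contDiff).comp Complex.imCLM.contDiff
  exact h1.contDiffOn.mul (contDiffOn_dbar (hC2 i))

theorem differentiableAt_of_contDiffOn {f : ℂ → ℂ} {n : WithTop ℕ∞} (hn : n ≠ 0)
    (hf : ContDiffOn ℝ n f UH) {z : ℂ} (hz : z ∈ UH) : DifferentiableAt ℝ f z :=
  (hf.differentiableOn hn).differentiableAt (isOpen_UH.mem_nhds hz)

theorem dbar_HH (hd : ∀ i, ∀ z ∈ UH, DifferentiableAt ℝ (g i) z)
    (hxi : ∀ i, ∀ z ∈ UH, DifferentiableAt ℂ (fun w => conj (phi g i w)) z)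
    {z : ℂ} (hz : z ∈ UH) : dbar (HH g) z = (PP g z : ℂ) := by
  have hp : ∀ i, DifferentiableAt ℝ (fun w => conj (phi g i w)) z := fun i =>
    (hxi i z hz).restrictScalars ℝ
  have h1 : dbar (HH g) z = ∑ i, dbar (fun w => g i w * conj (phi g i w)) z :=
    dbar_sum _ fun i _ => (hd i z hz).mul (hp i)
  rw [h1, PP]
  push_cast
  rw [Finset.mul_sum]
  refine Finset.sum_congr rfl fun i _ => ?_
  rw [dbar_mul (hd i z hz) (hp i), dbar_of_holo (hxi i z hz),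
    mul_zero, add_zero, phi, map_mul, Complex.conj_ofReal]
  have h2 := Complex.mul_conj (dbar (g i) z)
  rw [Complex.normSq_eq_norm_sq] at h2
  push_cast at h2
  linear_combination (z.im : ℂ) * h2

theorem differentiableAt_HH (hd : ∀ i, ∀ z ∈ UH, DifferentiableAt ℝ (g i) z)
    (hxi : ∀ i, ∀ z ∈ UH, DifferentiableAt ℂ (fun w => conj (phi g i w)) z)
    {z : ℂ} (hz : z ∈ UH) : DifferentiableAt ℝ (HH g) z :=
  DifferentiableAt.fun_sum fun i _ => (hd i z hz).mul ((hxi i z hz).restrictScalars ℝ)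

theorem continuousOn_PP
    (hxi : ∀ i, ∀ z ∈ UH, DifferentiableAt ℂ (fun w => conj (phi g i w)) z) :
    ContinuousOn (PP g) UH := by
  refine Complex.continuous_im.continuousOn.mul (continuousOn_finsetSum _ fun i _ => ?_)
  refine ContinuousOn.pow ?_ 2
  have h1 : ContinuousOn (fun z => ‖conj (phi g i z)‖ / z.im) UH := by
    refine ContinuousOn.div ?_ Complex.continuous_im.continuousOn fun z hz => (ne_of_gt hz)
    exact ContinuousOn.norm fun z hz => (hxi i z hz).continuousAt.continuousWithinAt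
  refine h1.congr fun z hz => ?_
  have hz0 : 0 < z.im := hz
  show ‖dbar (g i) z‖ = ‖conj (phi g i z)‖ / z.im
  rw [RCLike.norm_conj, phi, norm_mul, Complex.norm_real, Real.norm_eq_abs, abs_of_pos hz0]
  field_simp

theorem PP_nonneg {z : ℂ} (hz : z ∈ UH) : 0 ≤ PP g z :=
  mul_nonneg (le_of_lt hz) (Finset.sum_nonneg fun _ _ => by positivity)

theorem HH_decay {C c : ℝ} (hc : 0 < c)
    (hdec : ∀ i, ∀ z ∈ UH, 1/2 ≤ z.im → ‖g i z‖ ≤ C * Real.exp (-c * z.im) ∧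
      ‖dbar (g i) z‖ ≤ C * Real.exp (-c * z.im)) :
    ∀ z ∈ UH, 1/2 ≤ z.im →
      ‖HH g z‖ ≤ (Fintype.card ι * (C * (C * c⁻¹))) * Real.exp (-c * z.im) := by
  intro z hz him
  have hz0 : 0 < z.im := hz
  have h1 : ∀ i, ‖g i z * conj (phi g i z)‖ ≤ (C * (C * c⁻¹)) * Real.exp (-c * z.im) := by
    intro i
    obtain ⟨h2, h3⟩ := hdec i z hz him
    have hC : 0 ≤ C := by
      by_contra hcon
      push Not at hcon
      have := mul_neg_of_neg_of_pos hcon (Real.exp_pos (-c * z.im))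
      linarith [norm_nonneg (g i z)]
    rw [norm_mul, RCLike.norm_conj, phi, norm_mul, Complex.norm_real, Real.norm_eq_abs,
      abs_of_pos hz0]
    have h4 : z.im * Real.exp (-c * z.im) ≤ c⁻¹ := by
      have h5 := Real.add_one_le_exp (c * z.im)
      have h6 : Real.exp (-c * z.im) = (Real.exp (c * z.im))⁻¹ := by
        rw [← Real.exp_neg]; congr 1; ring
      rw [h6, ← div_eq_mul_inv, div_le_iff₀ (Real.exp_pos _)]
      have h7 : z.im = c⁻¹ * (c * z.im) := by field_simp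
      calc z.im = c⁻¹ * (c * z.im) := h7
        _ ≤ c⁻¹ * Real.exp (c * z.im) :=
          mul_le_mul_of_nonneg_left (by linarith) (inv_nonneg.mpr hc.le)
    have h8 : z.im * ‖dbar (g i) z‖ ≤ C * c⁻¹ := by
      calc z.im * ‖dbar (g i) z‖ ≤ z.im * (C * Real.exp (-c * z.im)) :=
            mul_le_mul_of_nonneg_left h3 hz0.le
        _ = C * (z.im * Real.exp (-c * z.im)) := by ring
        _ ≤ C * c⁻¹ := mul_le_mul_of_nonneg_left h4 hC
    calc ‖g i z‖ * (z.im * ‖dbar (g i) z‖) ≤ (C * Real.exp (-c * z.im)) * (C * c⁻¹) :=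
          mul_le_mul h2 h8 (by positivity) (by positivity)
      _ = _ := by ring
  calc ‖HH g z‖ ≤ ∑ i, ‖g i z * conj (phi g i z)‖ := norm_sum_le _ _
    _ ≤ ∑ _i : ι, (C * (C * c⁻¹)) * Real.exp (-c * z.im) := Finset.sum_le_sum fun i _ => h1 i
    _ = _ := by
      rw [Finset.sum_const, Finset.card_univ, nsmul_eq_mul]
      ring

/-- vanishing on the fundamental domain -/
theorem dbar_zero_fd (hA : A.conjTranspose * A = 1) (hB : B.conjTranspose * B = 1)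
    (hd : ∀ i, ∀ z ∈ UH, DifferentiableAt ℝ (g i) z)
    (hT : ∀ i, ∀ z ∈ UH, g i (z + 1) = ∑ j, A i j * g j z)
    (hS : ∀ i, ∀ z ∈ UH, g i (-z⁻¹) = z * ∑ j, B i j * g j z)
    (hxi : ∀ i, ∀ z ∈ UH, DifferentiableAt ℂ (fun w => conj (phi g i w)) z)
    {C c : ℝ} (hc : 0 < c)
    (hdec : ∀ i, ∀ z ∈ UH, 1/2 ≤ z.im → ‖g i z‖ ≤ C * Real.exp (-c * z.im) ∧
      ‖dbar (g i) z‖ ≤ C * Real.exp (-c * z.im))
    {z : ℂ} (hz : z ∈ UH) (h1 : |z.re| ≤ 1/2) (h2 : 1 ≤ Complex.normSq z) (i : ι) :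
    dbar (g i) z = 0 := by
  have hz0 : 0 < z.im := hz
  have hre := abs_le.mp h1
  have hlt : |z.re| < 1 := by linarith
  have hsq := sq_sq hlt
  have hsp := sq_pos hlt
  have h3 : sq z.re ≤ z.im := by
    rw [Complex.normSq_apply] at h2
    nlinarith
  have h4 := green_zero (H := HH g) (P := PP g) (fun z hz => differentiableAt_HH hd hxi hz)
    (fun z hz => dbar_HH hd hxi hz) (continuousOn_PP hxi) (fun z hz => PP_nonneg hz)
    (fun z hz => HH_T hA hd hT hz) (fun z hz => HH_S hB hd hS hz) hc (HH_decay hc hdec)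
    (x := (z.re, z.im - sq z.re)) (by show -1/2 ≤ z.re; linarith) hre.2
    (by show 0 ≤ z.im - sq z.re; linarith)
  have h5 : Zc (z.re, z.im - sq z.re) = z := by
    apply Complex.ext <;> simp [Zc]
  rw [h5, PP, mul_eq_zero] at h4
  rcases h4 with h4 | h4
  · exact absurd h4 hz0.ne'
  · have h6 := (Finset.sum_eq_zero_iff_of_nonneg (fun _ _ => by positivity)).mp h4 i
      (Finset.mem_univ i)
    simpa using h6

end Main

section Transport

open UpperHalfPlane ModularGroup Matrix.SpecialLinearGroup ModularForm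
open scoped MatrixGroups Manifold

set_option linter.unusedSectionVars false

variable {ι : Type*} [Fintype ι] [DecidableEq ι] {g : ι → ℂ → ℂ} {A B : Matrix ι ι ℂ}

theorem coe_mem_UH (τ : ℍ) : (τ : ℂ) ∈ UH := τ.im_pos

theorem coe_T_smul (τ : ℍ) : ((T • τ : ℍ) : ℂ) = (τ : ℂ) + 1 := by
  rw [modular_T_smul, coe_vadd, add_comm]
  simp

theorem coe_S_smul (τ : ℍ) : ((S • τ : ℍ) : ℂ) = -(τ : ℂ)⁻¹ := by
  rw [modular_S_smul]
  show (-(τ : ℂ))⁻¹ = _
  rw [inv_neg]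

/-- the common zero set of the `∂̄ g_i` -/
def ZZ (g : ι → ℂ → ℂ) : Set ℍ := {τ | ∀ i, dbar (g i) (τ : ℂ) = 0}

open Matrix in
theorem mulVec_eq_zero_of_unitary (hA : Aᴴ * A = 1) {x : ι → ℂ} (h : ∀ i, ∑ j, A i j * x j = 0) :
    ∀ i, x i = 0 := by
  have h1 : A *ᵥ x = 0 := funext h
  have h2 : x = 0 := by
    calc x = (1 : Matrix ι ι ℂ) *ᵥ x := (Matrix.one_mulVec x).symm
      _ = Aᴴ *ᵥ (A *ᵥ x) := by rw [← hA, Matrix.mulVec_mulVec]
      _ = 0 := by rw [h1, Matrix.mulVec_zero]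
  exact fun i => congrFun h2 i

theorem ZZ_T (hA : A.conjTranspose * A = 1) (hd : ∀ i, ∀ z ∈ UH, DifferentiableAt ℝ (g i) z)
    (hT : ∀ i, ∀ z ∈ UH, g i (z + 1) = ∑ j, A i j * g j z) (τ : ℍ) :
    T • τ ∈ ZZ g ↔ τ ∈ ZZ g := by
  have h1 : ∀ i, dbar (g i) ((T • τ : ℍ) : ℂ) = ∑ j, A i j * dbar (g j) τ := fun i => by
    rw [coe_T_smul]
    exact dbar_T hd hT i (coe_mem_UH τ)
  constructor
  · intro h
    exact mulVec_eq_zero_of_unitary hA fun i => by rw [← h1 i]; exact h i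
  · intro h i
    rw [h1 i]
    exact Finset.sum_eq_zero fun j _ => by rw [h j, mul_zero]

theorem ZZ_S (hB : B.conjTranspose * B = 1) (hd : ∀ i, ∀ z ∈ UH, DifferentiableAt ℝ (g i) z)
    (hS : ∀ i, ∀ z ∈ UH, g i (-z⁻¹) = z * ∑ j, B i j * g j z) (τ : ℍ) :
    S • τ ∈ ZZ g ↔ τ ∈ ZZ g := by
  have h1 : ∀ i, dbar (g i) ((S • τ : ℍ) : ℂ) =
      (conj (τ : ℂ)) ^ 2 * ((τ : ℂ) * ∑ j, B i j * dbar (g j) τ) := fun i => by
    rw [coe_S_smul]
    exact dbar_S hd hS i (coe_mem_UH τ)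
  have h0 : (τ : ℂ) ≠ 0 := ne_zero_of_mem (coe_mem_UH τ)
  have h0' : (conj (τ : ℂ)) ^ 2 ≠ 0 := pow_ne_zero _ ((map_ne_zero _).mpr h0)
  constructor
  · intro h
    refine mulVec_eq_zero_of_unitary hB fun i => ?_
    have h2 := h i
    rw [h1 i] at h2
    rcases mul_eq_zero.mp h2 with h3 | h3
    · exact absurd h3 h0'
    · rcases mul_eq_zero.mp h3 with h4 | h4
      · exact absurd h4 h0
      · exact h4
  · intro h i
    rw [h1 i, Finset.sum_eq_zero fun j _ => by rw [h j, mul_zero]]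
    ring

theorem ZZ_SL (hA : A.conjTranspose * A = 1) (hB : B.conjTranspose * B = 1)
    (hd : ∀ i, ∀ z ∈ UH, DifferentiableAt ℝ (g i) z)
    (hT : ∀ i, ∀ z ∈ UH, g i (z + 1) = ∑ j, A i j * g j z)
    (hS : ∀ i, ∀ z ∈ UH, g i (-z⁻¹) = z * ∑ j, B i j * g j z) (γ : SL(2, ℤ)) :
    ∀ τ : ℍ, γ • τ ∈ ZZ g ↔ τ ∈ ZZ g := by
  have : γ ∈ Subgroup.closure {S, T} := by simp [SpecialLinearGroup.SL2Z_generators]
  induction this using Subgroup.closure_induction with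
  | one => intro τ; rw [one_smul]
  | mem x hx =>
    simp only [mem_insert_iff, mem_singleton_iff] at hx
    rcases hx with h1 | h1
    · intro τ; rw [h1]; exact ZZ_S hB hd hS τ
    · intro τ; rw [h1]; exact ZZ_T hA hd hT τ
  | mul x y _ _ hx hy =>
    intro τ
    rw [mul_smul, hx, hy]
  | inv x _ hx =>
    intro τ
    rw [← hx, smul_inv_smul]

/-- **[T-HOL]** a vector valued (unitary) weight one form `g` such that the conjugate of `v ∂̄ g`
is holomorphic, with exponential decay, is holomorphic. -/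
theorem dbar_eq_zero (hA : A.conjTranspose * A = 1) (hB : B.conjTranspose * B = 1)
    (hd : ∀ i, ∀ z ∈ UH, DifferentiableAt ℝ (g i) z)
    (hT : ∀ i, ∀ z ∈ UH, g i (z + 1) = ∑ j, A i j * g j z)
    (hS : ∀ i, ∀ z ∈ UH, g i (-z⁻¹) = z * ∑ j, B i j * g j z)
    (hxi : ∀ i, ∀ z ∈ UH, DifferentiableAt ℂ (fun w => conj (phi g i w)) z)
    {C c : ℝ} (hc : 0 < c)
    (hdec : ∀ i, ∀ z ∈ UH, 1/2 ≤ z.im → ‖g i z‖ ≤ C * Real.exp (-c * z.im) ∧
      ‖dbar (g i) z‖ ≤ C * Real.exp (-c * z.im))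
    (i : ι) {z : ℂ} (hz : z ∈ UH) : dbar (g i) z = 0 := by
  obtain ⟨γ, hγ⟩ := exists_smul_mem_fd (⟨z, hz⟩ : ℍ)
  have h1 : γ • (⟨z, hz⟩ : ℍ) ∈ ZZ g := fun i =>
    dbar_zero_fd hA hB hd hT hS hxi hc hdec (coe_mem_UH _) hγ.2 hγ.1 i
  exact (ZZ_SL hA hB hd hT hS γ _).mp h1 i

theorem differentiableAt_complex (hA : A.conjTranspose * A = 1) (hB : B.conjTranspose * B = 1)
    (hd : ∀ i, ∀ z ∈ UH, DifferentiableAt ℝ (g i) z)
    (hT : ∀ i, ∀ z ∈ UH, g i (z + 1) = ∑ j, A i j * g j z)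
    (hS : ∀ i, ∀ z ∈ UH, g i (-z⁻¹) = z * ∑ j, B i j * g j z)
    (hxi : ∀ i, ∀ z ∈ UH, DifferentiableAt ℂ (fun w => conj (phi g i w)) z)
    {C c : ℝ} (hc : 0 < c)
    (hdec : ∀ i, ∀ z ∈ UH, 1/2 ≤ z.im → ‖g i z‖ ≤ C * Real.exp (-c * z.im) ∧
      ‖dbar (g i) z‖ ≤ C * Real.exp (-c * z.im))
    (i : ι) {z : ℂ} (hz : z ∈ UH) : DifferentiableAt ℂ (g i) z :=
  holo_of_dbar (hd i z hz) (dbar_eq_zero hA hB hd hT hS hxi hc hdec i hz)

/-- the version with the differential equation `∂(v ∂̄ g) = 0` for `C²` functions -/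
theorem differentiableAt_complex_of_pde (hA : A.conjTranspose * A = 1)
    (hB : B.conjTranspose * B = 1) (hC2 : ∀ i, ContDiffOn ℝ 2 (g i) UH)
    (hT : ∀ i, ∀ z ∈ UH, g i (z + 1) = ∑ j, A i j * g j z)
    (hS : ∀ i, ∀ z ∈ UH, g i (-z⁻¹) = z * ∑ j, B i j * g j z)
    (hPDE : ∀ i, ∀ z ∈ UH, dd (phi g i) z = 0)
    {C c : ℝ} (hc : 0 < c)
    (hdec : ∀ i, ∀ z ∈ UH, 1/2 ≤ z.im → ‖g i z‖ ≤ C * Real.exp (-c * z.im) ∧
      ‖dbar (g i) z‖ ≤ C * Real.exp (-c * z.im))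
    (i : ι) {z : ℂ} (hz : z ∈ UH) : DifferentiableAt ℂ (g i) z := by
  refine differentiableAt_complex hA hB (fun i z hz =>
    differentiableAt_of_contDiffOn (by norm_num) (hC2 i) hz) hT hS (fun i z hz => ?_) hc hdec i hz
  have hp : DifferentiableAt ℝ (phi g i) z :=
    differentiableAt_of_contDiffOn (by norm_num) (contDiffOn_phi hC2 i) hz
  refine holo_of_dbar (differentiableAt_conj hp) ?_
  rw [dbar_conj hp, hPDE i z hz, map_zero]

/-- the invariant function `v Σ |g_i|²` -/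
def EE (g : ι → ℂ → ℂ) (z : ℂ) : ℝ := z.im * ∑ i, ‖g i z‖ ^ 2

theorem sum_normSq (x : ι → ℂ) : ((∑ i, ‖x i‖ ^ 2 : ℝ) : ℂ) = ∑ i, x i * conj (x i) := by
  push_cast
  refine Finset.sum_congr rfl fun i _ => ?_
  rw [Complex.mul_conj, Complex.normSq_eq_norm_sq]
  push_cast
  rfl

theorem unitary_norm (hA : A.conjTranspose * A = 1) (x : ι → ℂ) :
    ∑ i, ‖∑ j, A i j * x j‖ ^ 2 = ∑ j, ‖x j‖ ^ 2 := by
  have h := unitary_sum hA x x
  rw [← sum_normSq, ← sum_normSq] at h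
  exact_mod_cast h

theorem EE_T (hA : A.conjTranspose * A = 1)
    (hT : ∀ i, ∀ z ∈ UH, g i (z + 1) = ∑ j, A i j * g j z) {z : ℂ} (hz : z ∈ UH) :
    EE g (z + 1) = EE g z := by
  rw [EE, EE, Complex.add_im, Complex.one_im, add_zero, ← unitary_norm hA (fun j => g j z)]
  congr 1
  exact Finset.sum_congr rfl fun i _ => by rw [hT i z hz]

theorem EE_S (hB : B.conjTranspose * B = 1)
    (hS : ∀ i, ∀ z ∈ UH, g i (-z⁻¹) = z * ∑ j, B i j * g j z) {z : ℂ} (hz : z ∈ UH) :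
    EE g (-z⁻¹) = EE g z := by
  have hz0 := ne_zero_of_mem hz
  have hn : Complex.normSq z ≠ 0 := (Complex.normSq_pos.mpr hz0).ne'
  rw [EE, EE, Complex.neg_im, Complex.inv_im, neg_div, neg_neg,
    ← unitary_norm hB (fun j => g j z)]
  have h1 : ∀ i, ‖g i (-z⁻¹)‖ ^ 2 = Complex.normSq z * ‖∑ j, B i j * g j z‖ ^ 2 := fun i => by
    rw [hS i z hz, norm_mul, mul_pow, Complex.normSq_eq_norm_sq]
  rw [Finset.sum_congr rfl fun i _ => h1 i, ← Finset.mul_sum]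
  field_simp

theorem EE_SL (hA : A.conjTranspose * A = 1) (hB : B.conjTranspose * B = 1)
    (hT : ∀ i, ∀ z ∈ UH, g i (z + 1) = ∑ j, A i j * g j z)
    (hS : ∀ i, ∀ z ∈ UH, g i (-z⁻¹) = z * ∑ j, B i j * g j z) (γ : SL(2, ℤ)) :
    ∀ τ : ℍ, EE g ((γ • τ : ℍ) : ℂ) = EE g τ := by
  have : γ ∈ Subgroup.closure {S, T} := by simp [SpecialLinearGroup.SL2Z_generators]
  induction this using Subgroup.closure_induction with
  | one => intro τ; rw [one_smul]
  | mem x hx =>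
    simp only [mem_insert_iff, mem_singleton_iff] at hx
    rcases hx with h1 | h1
    · intro τ; rw [h1, coe_S_smul]; exact EE_S hB hS (coe_mem_UH τ)
    · intro τ; rw [h1, coe_T_smul]; exact EE_T hA hT (coe_mem_UH τ)
  | mul x y _ _ hx hy =>
    intro τ
    rw [mul_smul, hx, hy]
  | inv x _ hx =>
    intro τ
    rw [← hx, smul_inv_smul]

theorem mul_exp_le {c y : ℝ} (hc : 0 < c) : y * Real.exp (-c * y) ≤ c⁻¹ := by
  have h5 := Real.add_one_le_exp (c * y)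
  have h6 : Real.exp (-c * y) = (Real.exp (c * y))⁻¹ := by
    rw [← Real.exp_neg]; congr 1; ring
  rw [h6, ← div_eq_mul_inv, div_le_iff₀ (Real.exp_pos _)]
  have h7 : y = c⁻¹ * (c * y) := by field_simp
  calc y = c⁻¹ * (c * y) := h7
    _ ≤ c⁻¹ * Real.exp (c * y) :=
      mul_le_mul_of_nonneg_left (by linarith) (inv_nonneg.mpr hc.le)

/-- `√v |g|` is bounded -/
theorem sqrt_bound (hA : A.conjTranspose * A = 1) (hB : B.conjTranspose * B = 1)
    (hT : ∀ i, ∀ z ∈ UH, g i (z + 1) = ∑ j, A i j * g j z)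
    (hS : ∀ i, ∀ z ∈ UH, g i (-z⁻¹) = z * ∑ j, B i j * g j z)
    {C c : ℝ} (hc : 0 < c)
    (hdec : ∀ i, ∀ z ∈ UH, 1/2 ≤ z.im → ‖g i z‖ ≤ C * Real.exp (-c * z.im)) :
    ∃ K : ℝ, ∀ i, ∀ z ∈ UH, ‖g i z‖ ≤ K / Real.sqrt z.im := by
  set K0 : ℝ := Fintype.card ι * (C ^ 2 * (2 * c)⁻¹) with hK0
  have hfd : ∀ τ : ℍ, τ ∈ fd → EE g τ ≤ K0 := by
    intro τ hτ
    have h3 := three_le_four_mul_im_sq_of_mem_fd hτ
    have h4 : 0 < τ.im := τ.im_pos
    have h5 : 1/2 ≤ (τ : ℂ).im := by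
      have : (τ : ℂ).im = τ.im := rfl
      rw [this]
      nlinarith
    have h6 : ∀ i, ‖g i τ‖ ^ 2 ≤ C ^ 2 * Real.exp (-(2 * c) * (τ : ℂ).im) := fun i => by
      have h7 := hdec i τ (coe_mem_UH τ) h5
      have h8 := pow_le_pow_left₀ (norm_nonneg _) h7 2
      rw [mul_pow, ← Real.exp_nat_mul] at h8
      have e : ((2 : ℕ) : ℝ) * (-c * (τ : ℂ).im) = -(2 * c) * (τ : ℂ).im := by
        push_cast
        ring
      rw [e] at h8
      exact h8
    have h9 : EE g τ ≤ (τ : ℂ).im * ∑ _i : ι, C ^ 2 * Real.exp (-(2 * c) * (τ : ℂ).im) :=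
      mul_le_mul_of_nonneg_left (Finset.sum_le_sum fun i _ => h6 i) (le_of_lt h4)
    refine h9.trans ?_
    rw [Finset.sum_const, Finset.card_univ, nsmul_eq_mul, hK0]
    have h10 := mul_exp_le (c := 2 * c) (y := (τ : ℂ).im) (by linarith)
    have h11 : (τ : ℂ).im * ((Fintype.card ι : ℝ) * (C ^ 2 * Real.exp (-(2 * c) * (τ : ℂ).im))) =
        (Fintype.card ι : ℝ) * (C ^ 2 * ((τ : ℂ).im * Real.exp (-(2 * c) * (τ : ℂ).im))) := by
      ring
    rw [h11]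
    gcongr
  refine ⟨Real.sqrt K0, fun i z hz => ?_⟩
  obtain ⟨γ, hγ⟩ := exists_smul_mem_fd (⟨z, hz⟩ : ℍ)
  have h1 := hfd _ hγ
  rw [EE_SL hA hB hT hS γ] at h1
  have hz0 : 0 < z.im := hz
  have h2 : z.im * ‖g i z‖ ^ 2 ≤ K0 := by
    refine le_trans ?_ h1
    show _ ≤ z.im * ∑ i, ‖g i z‖ ^ 2
    exact mul_le_mul_of_nonneg_left
      (Finset.single_le_sum (f := fun i => ‖g i z‖ ^ 2) (fun _ _ => by positivity)
        (Finset.mem_univ i)) hz0.le
  rw [le_div_iff₀ (Real.sqrt_pos.mpr hz0)]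
  apply Real.le_sqrt_of_sq_le
  rw [mul_pow, Real.sq_sqrt hz0.le]
  linarith

end Transport

end Fermat.Agent.H93.THol
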