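import Mathlib
import Fermat.Agent.H93THol

/-!
# [T-HOL], part 3: final statements (holomorphy of the theta lift, cusp forms of weight one)
-/

set_option autoImplicit false
set_option maxHeartbeats 400000

noncomputable section

open Complex MeasureTheory Set Filter Topology ComplexConjugate
open UpperHalfPlane hiding I
open ModularGroup Matrix.SpecialLinearGroup ModularForm CongruenceSubgroup
open scoped MatrixGroups Manifold

namespace Fermat.Agent.H93.THol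

section Hol

theorem dbar_of_hasFDerivAt {f : ℂ → ℂ} {z a k : ℂ}
    (h : HasFDerivAt f (a • ContinuousLinearMap.id ℝ ℂ +
      k • Complex.ofRealCLM.comp Complex.imCLM) z) : dbar f z = I * k := by
  rw [dbar, h.fderiv]
  simp only [add_apply, smul_apply, ContinuousLinearMap.id_apply, ContinuousLinearMap.comp_apply,
    Complex.imCLM_apply, Complex.ofRealCLM_apply, Complex.one_im, Complex.I_im, smul_eq_mul,
    Complex.ofReal_zero, Complex.ofReal_one, mul_one, mul_zero, add_zero]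
  linear_combination a * Complex.I_mul_I

theorem sqrt_exp_le {c v : ℝ} (hc : 0 < c) (hv : 1/2 ≤ v) :
    √v * Real.exp (-(c * v)) ≤ (4 / c) * Real.exp (-(c / 2) * v) := by
  have h1 : √v ≤ 2 * v := Real.sqrt_le_iff.mpr ⟨by linarith, by nlinarith⟩
  have h2 : Real.exp (-(c * v)) = Real.exp (-(c / 2) * v) * Real.exp (-(c / 2) * v) := by
    rw [← Real.exp_add]
    congr 1
    ring
  have h3 := mul_exp_le (c := c / 2) (y := v) (by linarith)
  have h4 := Real.exp_pos (-(c / 2) * v)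
  calc √v * Real.exp (-(c * v)) ≤ (2 * v) * (Real.exp (-(c / 2) * v) * Real.exp (-(c / 2) * v)) := by
        rw [h2]
        exact mul_le_mul_of_nonneg_right h1 (by positivity)
    _ = 2 * (v * Real.exp (-(c / 2) * v)) * Real.exp (-(c / 2) * v) := by ring
    _ ≤ 2 * (c / 2)⁻¹ * Real.exp (-(c / 2) * v) := by gcongr
    _ = _ := by
      congr 1
      field_simp
      norm_num

variable {ι : Type*} [Fintype ι] [DecidableEq ι] {g xi : ι → ℂ → ℂ} {A B : Matrix ι ι ℂ}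

/-- **[T-HOL], final form.** -/
theorem thol (hA : A ∈ Matrix.unitaryGroup ι ℂ) (hB : B ∈ Matrix.unitaryGroup ι ℂ)
    (hg : ∀ i (τ : ℂ), 0 < τ.im → ∃ a : ℂ, HasFDerivAt (g i) (a • ContinuousLinearMap.id ℝ ℂ +
      (2 / I * (xi i τ / τ.im)) • Complex.ofRealCLM.comp Complex.imCLM) τ)
    (hxi : ∀ i, DifferentiableOn ℂ (fun τ => conj (xi i τ)) {τ | 0 < τ.im})
    (hT : ∀ i τ, 0 < τ.im → g i (τ + 1) = ∑ j, A i j * g j τ)
    (hS : ∀ i τ, 0 < τ.im → g i (-1 / τ) = τ * ∑ j, B i j * g j τ)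
    {C c : ℝ} (hc : 0 < c)
    (hdec : ∀ i τ, 1/2 ≤ τ.im → ‖g i τ‖ ≤ C * (√τ.im * Real.exp (-(c * τ.im))) ∧
      ‖xi i τ‖ ≤ C * (√τ.im * Real.exp (-(c * τ.im)))) :
    (∀ i, DifferentiableOn ℂ (g i) {τ | 0 < τ.im}) ∧
      ∃ K : ℝ, ∀ i τ, 0 < τ.im → ‖g i τ‖ ≤ K / √τ.im := by
  have hA' : A.conjTranspose * A = 1 := (Matrix.mem_unitaryGroup_iff').mp hA
  have hB' : B.conjTranspose * B = 1 := (Matrix.mem_unitaryGroup_iff').mp hB
  have hd : ∀ i, ∀ z ∈ UH, DifferentiableAt ℝ (g i) z := fun i z hz => by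
    obtain ⟨a, ha⟩ := hg i z hz
    exact ha.differentiableAt
  have hdb : ∀ i, ∀ z ∈ UH, dbar (g i) z = 2 * (xi i z / z.im) := fun i z hz => by
    obtain ⟨a, ha⟩ := hg i z hz
    rw [dbar_of_hasFDerivAt ha]
    have := Complex.I_ne_zero
    field_simp
  have hphi : ∀ i, ∀ z ∈ UH, phi g i z = 2 * xi i z := fun i z hz => by
    have hz0 : (z.im : ℂ) ≠ 0 := by
      have : 0 < z.im := hz
      exact_mod_cast this.ne'
    rw [phi, hdb i z hz]
    field_simp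
  have hxi' : ∀ i, ∀ z ∈ UH, DifferentiableAt ℂ (fun w => conj (phi g i w)) z :=
    fun i z hz => by
    have h1 : DifferentiableAt ℂ (fun w => 2 * conj (xi i w)) z :=
      (((hxi i) z hz).differentiableAt (isOpen_UH.mem_nhds hz)).const_mul 2
    refine h1.congr_of_eventuallyEq ?_
    refine Filter.eventuallyEq_of_mem (isOpen_UH.mem_nhds hz) fun w hw => ?_
    show conj (phi g i w) = 2 * conj (xi i w)
    rw [hphi i w hw, map_mul, map_ofNat]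
  have hS' : ∀ i, ∀ z ∈ UH, g i (-z⁻¹) = z * ∑ j, B i j * g j z := fun i z hz => by
    rw [← hS i z hz, neg_div, one_div]
  have hdec' : ∀ i, ∀ z ∈ UH, 1/2 ≤ z.im →
      ‖g i z‖ ≤ (|C| * (16 / c)) * Real.exp (-(c / 2) * z.im) ∧
      ‖dbar (g i) z‖ ≤ (|C| * (16 / c)) * Real.exp (-(c / 2) * z.im) := by
    intro i z hz him
    obtain ⟨h1, h2⟩ := hdec i z him
    have h3 := sqrt_exp_le hc him
    have h4 : C * (√z.im * Real.exp (-(c * z.im))) ≤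
        |C| * ((4 / c) * Real.exp (-(c / 2) * z.im)) :=
      mul_le_mul (le_abs_self C) h3 (by positivity) (abs_nonneg C)
    have h5 : 0 ≤ |C| * ((4 / c) * Real.exp (-(c / 2) * z.im)) := by positivity
    constructor
    · calc ‖g i z‖ ≤ |C| * ((4 / c) * Real.exp (-(c / 2) * z.im)) := h1.trans h4
        _ ≤ 4 * (|C| * ((4 / c) * Real.exp (-(c / 2) * z.im))) := by linarith
        _ = _ := by ring
    · have hz0 : 0 < z.im := hz
      rw [hdb i z hz, norm_mul, norm_div, Complex.norm_real, Real.norm_eq_abs, abs_of_pos hz0,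
        Complex.norm_ofNat]
      have h6 : ‖xi i z‖ / z.im ≤ 2 * ‖xi i z‖ := by
        rw [div_le_iff₀ hz0]
        nlinarith [norm_nonneg (xi i z)]
      calc 2 * (‖xi i z‖ / z.im) ≤ 4 * ‖xi i z‖ := by linarith
        _ ≤ 4 * (|C| * ((4 / c) * Real.exp (-(c / 2) * z.im))) := by linarith [h2.trans h4]
        _ = _ := by ring
  have hc2 : 0 < c / 2 := by linarith
  constructor
  · intro i z hz
    exact (differentiableAt_complex hA' hB' hd hT hS' hxi' hc2 hdec' i hz).differentiableWithinAt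
  · obtain ⟨K, hK⟩ := sqrt_bound hA' hB' hT hS' hc2 (fun i z hz him => (hdec' i z hz him).1)
    exact ⟨K, fun i τ hτ => hK i τ hτ⟩

end Hol

section Cusp

theorem coe_smul_eq (γ : SL(2, ℤ)) (τ : ℍ) :
    ((γ • τ : ℍ) : ℂ) = ((γ 0 0 : ℤ) * (τ : ℂ) + (γ 0 1 : ℤ)) / ((γ 1 0 : ℤ) * (τ : ℂ) + (γ 1 1 : ℤ)) := by
  rw [coe_specialLinearGroup_apply]
  simp

theorem denom_eq (γ : SL(2, ℤ)) (τ : ℍ) :
    denom (γ : GL (Fin 2) ℝ) τ = (γ 1 0 : ℤ) * (τ : ℂ) + (γ 1 1 : ℤ) := by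
  rw [denom_apply]

/-- A holomorphic function `f` with `√v |f|` bounded which is invariant of weight one under
`Γ₁(M)` is a cusp form. -/
theorem exists_cuspForm (M : ℕ) [NeZero M] (f : ℂ → ℂ)
    (hf : DifferentiableOn ℂ f {τ | 0 < τ.im})
    (hb : ∃ K : ℝ, ∀ τ : ℂ, 0 < τ.im → ‖f τ‖ ≤ K / √τ.im)
    (hinv : ∀ γ ∈ Gamma1 M, ∀ τ : ℍ, f ((γ • τ : ℍ) : ℂ) =
      ((γ 1 0 : ℤ) * (τ : ℂ) + (γ 1 1 : ℤ)) * f τ) :
    ∃ F : CuspForm (Gamma1 M) 1, ∀ τ : ℍ, F τ = f τ := by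
  obtain ⟨K, hK⟩ := hb
  have hne : ∀ (γ : SL(2, ℤ)) (τ : ℍ), denom (γ : GL (Fin 2) ℝ) τ ≠ 0 := fun γ τ =>
    denom_ne_zero _ τ
  have hslash : ∀ γ ∈ Gamma1 M, (fun τ : ℍ => f τ) ∣[(1 : ℤ)] γ = fun τ : ℍ => f τ := by
    intro γ hγ
    ext τ
    rw [SL_slash_apply, hinv γ hγ τ, ← denom_eq, zpow_neg_one]
    have := hne γ τ
    field_simp
  refine ⟨{
    toFun := fun τ : ℍ => f τ
    slash_action_eq' := ?_
    holo' := ?_
    zero_at_cusps' := ?_ }, fun τ => rfl⟩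
  · rintro _ ⟨γ, hγ, rfl⟩
    exact hslash γ hγ
  · rw [UpperHalfPlane.mdifferentiable_iff]
    refine hf.congr fun z hz => ?_
    show f ((ofComplex z : ℍ) : ℂ) = f z
    rw [ofComplex_apply_of_im_pos hz]
  · intro c hc
    rw [Subgroup.IsArithmetic.isCusp_iff_isCusp_SL2Z] at hc
    rw [OnePoint.isZeroAt_iff_forall_SL2Z hc]
    intro γ _
    rw [isZeroAtImInfty_iff]
    intro ε hε
    refine ⟨(K / ε) ^ 2 + 1, fun τ hτ => ?_⟩
    have hτ0 : 0 < τ.im := τ.im_pos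
    show ‖((fun τ : ℍ => f τ) ∣[(1 : ℤ)] γ) τ‖ ≤ ε
    rw [SL_slash_apply, norm_mul, zpow_neg_one, norm_inv]
    have h1 := hK ((γ • τ : ℍ) : ℂ) (γ • τ).im_pos
    have h2 : ((γ • τ : ℍ) : ℂ).im = τ.im / Complex.normSq (denom (γ : GL (Fin 2) ℝ) τ) :=
      ModularGroup.im_smul_eq_div_normSq γ τ
    have h3 : 0 < ‖denom (γ : GL (Fin 2) ℝ) τ‖ := norm_pos_iff.mpr (hne γ τ)
    have h4 : √((γ • τ : ℍ) : ℂ).im = √τ.im / ‖denom (γ : GL (Fin 2) ℝ) τ‖ := by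
      rw [h2, Complex.normSq_eq_norm_sq, Real.sqrt_div hτ0.le, Real.sqrt_sq h3.le]
    rw [h4] at h1
    have h5 : 0 < √τ.im := Real.sqrt_pos.mpr hτ0
    have h6 : ‖f ((γ • τ : ℍ) : ℂ)‖ * ‖denom (γ : GL (Fin 2) ℝ) τ‖⁻¹ ≤ K / √τ.im := by
      calc ‖f ((γ • τ : ℍ) : ℂ)‖ * ‖denom (γ : GL (Fin 2) ℝ) τ‖⁻¹
          ≤ (K / (√τ.im / ‖denom (γ : GL (Fin 2) ℝ) τ‖)) * ‖denom (γ : GL (Fin 2) ℝ) τ‖⁻¹ :=
            mul_le_mul_of_nonneg_right h1 (by positivity)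
        _ = K / √τ.im := by field_simp
    refine h6.trans ?_
    rw [div_le_iff₀ h5]
    have h7 : K / ε ≤ √τ.im := by
      apply Real.le_sqrt_of_sq_le
      linarith
    rw [div_le_iff₀ hε] at h7
    linarith

/-- The same with `Γ(m)` and `f(m τ)`. -/
theorem exists_cuspForm_level (m : ℕ) [NeZero m] (f : ℂ → ℂ)
    (hf : DifferentiableOn ℂ f {τ | 0 < τ.im})
    (hb : ∃ K : ℝ, ∀ τ : ℂ, 0 < τ.im → ‖f τ‖ ≤ K / √τ.im)
    (hinv : ∀ γ ∈ CongruenceSubgroup.Gamma m, ∀ τ : ℍ, f ((γ • τ : ℍ) : ℂ) =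
      ((γ 1 0 : ℤ) * (τ : ℂ) + (γ 1 1 : ℤ)) * f τ) :
    ∃ F : CuspForm (Gamma1 (m ^ 2)) 1, ∀ τ : ℍ, F τ = f (m * (τ : ℂ)) := by
  have hm : 0 < m := Nat.pos_of_ne_zero (NeZero.ne m)
  have hmR : (0 : ℝ) < m := by exact_mod_cast hm
  have hmC : (m : ℂ) ≠ 0 := by exact_mod_cast hm.ne'
  have him : ∀ z : ℂ, ((m : ℂ) * z).im = m * z.im := fun z => by simp
  have : NeZero (m ^ 2) := ⟨pow_ne_zero 2 hm.ne'⟩
  refine exists_cuspForm (m ^ 2) (fun z => f (m * z)) ?_ ?_ ?_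
  · refine hf.comp (differentiableOn_id.const_mul _) fun z hz => ?_
    show 0 < ((m : ℂ) * z).im
    rw [him]
    exact mul_pos hmR hz
  · obtain ⟨K, hK⟩ := hb
    refine ⟨K / √m, fun τ hτ => ?_⟩
    have h1 := hK (m * τ) (by rw [him]; exact mul_pos hmR hτ)
    rw [him, Real.sqrt_mul hmR.le, ← div_div] at h1
    exact h1
  · intro γ hγ τ
    rw [Gamma1_mem] at hγ
    obtain ⟨ha, hd, hc⟩ := hγ
    have hc' : ((m ^ 2 : ℕ) : ℤ) ∣ γ 1 0 := (ZMod.intCast_zmod_eq_zero_iff_dvd _ _).mp hc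
    obtain ⟨e, he⟩ := hc'
    have hdet := γ.det_coe
    rw [Matrix.det_fin_two] at hdet
    let γ' : SL(2, ℤ) := ⟨!![γ 0 0, m * γ 0 1; m * e, γ 1 1], by
      rw [Matrix.det_fin_two_of]
      rw [he] at hdet
      push_cast at hdet
      linear_combination hdet⟩
    have hγ' : γ' ∈ CongruenceSubgroup.Gamma m := by
      rw [Gamma_mem]
      have hcast : ∀ x : ℤ, (x : ZMod (m ^ 2)) = 1 → (x : ZMod m) = 1 := by
        intro x hx
        have := congrArg (ZMod.castHom (Dvd.intro_left (m ^ 1) (by ring) : m ∣ m ^ 2) (ZMod m)) hx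
        simpa using this
      refine ⟨hcast _ ha, ?_, ?_, hcast _ hd⟩
      · show (((m : ℤ) * γ 0 1 : ℤ) : ZMod m) = 0
        push_cast
        simp
      · show (((m : ℤ) * e : ℤ) : ZMod m) = 0
        push_cast
        simp
    have hpos : 0 < ((m : ℂ) * (τ : ℂ)).im := by
      rw [him]
      exact mul_pos hmR τ.im_pos
    have h1 := hinv γ' hγ' ⟨(m : ℂ) * τ, hpos⟩
    rw [coe_smul_eq] at h1
    have e00 : γ' 0 0 = γ 0 0 := rfl
    have e01 : γ' 0 1 = m * γ 0 1 := rfl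
    have e10 : γ' 1 0 = m * e := rfl
    have e11 : γ' 1 1 = γ 1 1 := rfl
    rw [e00, e01, e10, e11] at h1
    rw [coe_smul_eq]
    have e2 : ((γ 1 0 : ℤ) : ℂ) = (m : ℂ) * ((m : ℂ) * e) := by
      rw [he]
      push_cast
      ring
    have e3 : ((⟨(m : ℂ) * τ, hpos⟩ : ℍ) : ℂ) = (m : ℂ) * τ := rfl
    rw [e3] at h1
    have e4 : (m : ℂ) * (((γ 0 0 : ℤ) * (τ : ℂ) + (γ 0 1 : ℤ)) /
        ((γ 1 0 : ℤ) * (τ : ℂ) + (γ 1 1 : ℤ))) =
        ((γ 0 0 : ℤ) * ((m : ℂ) * (τ : ℂ)) + ((m * γ 0 1 : ℤ) : ℂ)) /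
          (((m * e : ℤ) : ℂ) * ((m : ℂ) * (τ : ℂ)) + (γ 1 1 : ℤ)) := by
      rw [e2, ← mul_div_assoc]
      push_cast
      congr 1 <;> ring
    show f (m * _) = _
    rw [e4, h1, e2]
    push_cast
    ring

end Cusp

end Fermat.Agent.H93.THol
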