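import Fermat.Agent.H49T4
import Fermat.Agent.H93THol2

/-!
# Assembly of block (T) of S47

`ICT N c F → THol N F → T4 N c F → T56 N F → CutEx N → TOut c`.
-/

set_option autoImplicit false

noncomputable section

open Matrix MatrixGroups ModularGroup UpperHalfPlane CongruenceSubgroup
open scoped ComplexConjugate Real

namespace Fermat.Agent.H49T

open Fermat.Agent.S47T (sq3 om Eis hQ pair qL pL Theta phiN omE sq3E IsCut Gam lift qint THol T4
  T56 CutEx TOut ICT)

/-- The lift satisfies the `Γ(6 N²)`-law. -/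
theorem lift_congr {N : ℕ} (hN : 0 < N) (χ : H3 → ℝ) (F : H3 → ℂ) {γ : SL(2, ℤ)}
    (hγ : γ ∈ Gamma (6 * N ^ 2)) (τ : ℍ) :
    S47T.lift χ F 1 (phiN N) ((γ • τ : ℍ) : ℂ) =
      ((γ 1 0 : ℤ) * (τ : ℂ) + (γ 1 1 : ℤ)) * S47T.lift χ F 1 (phiN N) τ := by
  rw [S47T.lift, S47T.lift, S47T.qint, S47T.qint, ← MeasureTheory.integral_const_mul]
  refine MeasureTheory.integral_congr_ae (Filter.Eventually.of_forall fun w => ?_)
  simp only
  rw [Theta_phiN_congr hN hγ]
  ring

/-- `3 q(x)` is an integer. -/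
theorem three_qL (x : S47T.Lat) : ∃ k : ℤ, 3 * qL x = k := by
  obtain ⟨a, b, hab⟩ := (x.2.1).2
  refine ⟨a ^ 2 - a * b + b ^ 2 - 3 * (x.1 * x.2.2), ?_⟩
  have hs : Complex.normSq sq3 = 3 := by
    have h1 : ((Complex.normSq sq3 : ℝ) : ℂ) = (3 : ℝ) := by
      rw [← Complex.mul_conj, S47T.conj_sq3]
      push_cast
      linear_combination -S47T.sq3_mul_sq3
    exact_mod_cast h1
  rw [qL, hQ, Complex.normSq_div, hs, hab, S47T.normSq_eis]
  push_cast
  ring

/-- The theta kernel has period three. -/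
theorem Theta_add_three (φ : S47T.Lat → ℂ) (τ : ℂ) (w : H3) :
    Theta 1 φ (τ + 3) w = Theta 1 φ τ w := by
  rw [Theta, Theta]
  have him : (τ + 3).im = τ.im := by simp
  rw [him]
  congr 1
  refine tsum_congr fun x => ?_
  have h : S47T.ee ((τ + 3) * ((qL x / ((1 : ℕ) : ℝ) ^ 2 : ℝ))) =
      S47T.ee (τ * ((qL x / ((1 : ℕ) : ℝ) ^ 2 : ℝ))) := by
    obtain ⟨k, hk⟩ := three_qL x
    have h1 : ((3 * qL x : ℝ) : ℂ) = (k : ℂ) := by rw [hk]; simp
    rw [S47T.ee, S47T.ee]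
    have h2 : 2 * (π : ℂ) * Complex.I * ((τ + 3) * ((qL x / ((1 : ℕ) : ℝ) ^ 2 : ℝ))) =
        2 * (π : ℂ) * Complex.I * (τ * ((qL x / ((1 : ℕ) : ℝ) ^ 2 : ℝ))) +
          (k : ℂ) * (2 * π * Complex.I) := by
      rw [← h1]
      push_cast
      ring
    rw [h2, Complex.exp_periodic.int_mul k]
  rw [h]

theorem lift_add_three (χ : H3 → ℝ) (F : H3 → ℂ) (φ : S47T.Lat → ℂ) (τ : ℂ) :
    S47T.lift χ F 1 φ (τ + 3) = S47T.lift χ F 1 φ τ := by
  rw [S47T.lift, S47T.lift]
  congr 1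
  funext w
  rw [Theta_add_three]

/-- A function with period three on the residues mod `p`. -/
theorem sum_residues {p : ℕ} (hp : p.Prime) {m : ℕ} (hpm : ¬ p ∣ m) (G : ℂ → ℂ)
    (hG : ∀ τ, G (τ + 3) = G τ) (τ : ℂ) :
    ∑ j ∈ Finset.range p, G ((τ + (3 * m : ℕ) * j) / p) =
      ∑ j ∈ Finset.range p, G ((τ + 3 * j) / p) := by
  have hp0 : (p : ℂ) ≠ 0 := by exact_mod_cast hp.ne_zero
  -- periodicity
  have hGn : ∀ (n : ℕ) (τ : ℂ), G (τ + 3 * n) = G τ := by
    intro n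
    induction n with
    | zero => intro τ; simp
    | succ n ih =>
      intro τ
      have : τ + 3 * ((n + 1 : ℕ) : ℂ) = (τ + 3 * n) + 3 := by push_cast; ring
      rw [this, hG, ih]
  have hmod : ∀ j : ℕ, G ((τ + 3 * (j : ℂ)) / p) = G ((τ + 3 * ((j % p : ℕ) : ℂ)) / p) := by
    intro j
    have h1 : (j : ℂ) = ((j % p : ℕ) : ℂ) + p * ((j / p : ℕ) : ℂ) := by
      have := Nat.mod_add_div j p
      exact_mod_cast this.symm
    have h2 : (τ + 3 * (j : ℂ)) / p = (τ + 3 * ((j % p : ℕ) : ℂ)) / p + 3 * ((j / p : ℕ) : ℂ) := by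
      field_simp
      linear_combination 3 * h1
    rw [h2, hGn]
  -- reindex by multiplication by `m`
  have hinj : Set.InjOn (fun j => (m * j) % p) (Finset.range p : Set ℕ) := by
    intro a ha b hb hab
    simp only [Finset.coe_range, Set.mem_Iio] at ha hb
    have h1 : m * a ≡ m * b [MOD p] := hab
    have h2 : a ≡ b [MOD p] :=
      Nat.ModEq.cancel_left_of_coprime ((Nat.Prime.coprime_iff_not_dvd hp).mpr hpm) h1
    exact Nat.ModEq.eq_of_lt_of_lt h2 ha hb
  have hmaps : Set.MapsTo (fun j => (m * j) % p) (Finset.range p : Set ℕ) (Finset.range p) := by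
    intro j _
    simp only [Finset.coe_range, Set.mem_Iio]
    exact Nat.mod_lt _ hp.pos
  have himg : (Finset.range p).image (fun j => (m * j) % p) = Finset.range p :=
    Finset.eq_of_subset_of_card_le (Finset.image_subset_iff.mpr fun j hj => hmaps hj)
      (by rw [Finset.card_image_of_injOn hinj])
  conv_rhs => rw [← himg, Finset.sum_image hinj]
  refine Finset.sum_congr rfl fun j _ => ?_
  rw [← hmod]
  congr 3
  push_cast
  ring

/-- **Assembly of block (T).** -/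
theorem tOut_of {N : ℕ} {c : Eis → ℝ} {F : H3 → ℂ} (hI : ICT N c F) (hHol : THol N F)
    (h4 : T4 N c F) (h56 : T56 N F) (hcut : CutEx N) : TOut c := by
  obtain ⟨χ, hχ⟩ := hcut
  obtain ⟨hholo, hbd⟩ := hHol χ hχ
  have hN := hI.pos
  set K : ℕ := 6 * N ^ 2 with hK
  have hK0 : 0 < K := by positivity
  have : NeZero K := ⟨hK0.ne'⟩
  have hKR : (0 : ℝ) < K := by exact_mod_cast hK0
  have hKC : (K : ℂ) ≠ 0 := by exact_mod_cast hK0.ne'
  obtain ⟨g, hg⟩ := H93.THol.exists_cuspForm_level K (S47T.lift χ F 1 (phiN N)) hholo hbd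
    (fun γ hγ τ => lift_congr hN χ F hγ τ)
  have : NeZero (K ^ 2) := ⟨(pow_pos hK0 2).ne'⟩
  refine ⟨K ^ 2, pow_pos hK0 2, K ^ 2, inferInstance, g, ?_, ?_⟩
  · -- nonvanishing
    intro h0
    obtain ⟨τ, hτ, hne⟩ := h56 χ hχ
    apply hne
    have him : 0 < (τ / K).im := by
      rw [Complex.div_natCast_im]
      positivity
    have h1 := hg ⟨τ / K, him⟩
    rw [h0] at h1
    have h2 : (K : ℂ) * (τ / K) = τ := mul_div_cancel₀ _ hKC
    have h3 : ((⟨τ / K, him⟩ : ℍ) : ℂ) = τ / K := rfl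
    rw [h3, h2] at h1
    rw [← h1]
    rfl
  · intro p hp hpM hpD ϖ hϖ
    have hpK : ¬ p ∣ K := fun h => hpM (h.trans (Dvd.intro_left _ (by rw [sq])))
    have hp3N : ¬ p ∣ 3 * N := by
      intro h
      apply hpK
      rw [hK]
      exact h.trans ⟨2 * N, by ring⟩
    have hp2N : ¬ p ∣ 2 * N ^ 2 := by
      intro h
      apply hpK
      rw [hK]
      exact h.trans ⟨3, by ring⟩
    have hdia : H58.dia (K ^ 2) 1 (p : ℤ) = 1 := by
      have hcop : IsCoprime (p : ℤ) ((K ^ 2 : ℕ) : ℤ) := by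
        rw [Nat.isCoprime_iff_coprime]
        exact (Nat.Prime.coprime_iff_not_dvd hp).mpr hpM
      rw [H58.dia_congr hcop isCoprime_one_left, H58.dia_one]
      have h1 : ((p : ℕ) : ZMod (K ^ 2)) = ((1 : ℕ) : ZMod (K ^ 2)) :=
        (ZMod.natCast_eq_natCast_iff _ _ _).mpr hpD
      simpa using h1
    ext τ
    rw [H58.coe_T1L, hdia]
    simp only [Pi.add_apply, Module.End.one_apply]
    rw [ModularForm.heckeU_apply 1 hp.ne_zero, ModularForm.slash_heckeDiagMatrix_apply 1 hp.ne_zero]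
    set G : ℂ → ℂ := S47T.lift χ F 1 (phiN N) with hG
    have hτ3 : 0 < ((K : ℂ) * τ / 3).im := by
      have h1 : (K : ℂ) * τ / 3 = ((K / 3 : ℝ) : ℂ) * τ := by
        push_cast
        ring
      rw [h1, Complex.im_ofReal_mul]
      have := τ.im_pos
      positivity
    have h5 := h4 χ hχ p hp hp3N ϖ hϖ ((K : ℂ) * τ / 3) hτ3
    have h6 : ∀ j ∈ Finset.range p, g (ModularForm.heckeMatrix p j • τ) =
        G (((K : ℂ) * τ + ((3 * (2 * N ^ 2) : ℕ) : ℂ) * j) / p) := by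
      intro j _
      rw [hg, ModularForm.coe_heckeMatrix_smul hp.ne_zero]
      congr 1
      rw [hK]
      push_cast
      ring
    rw [Finset.sum_congr rfl h6, sum_residues hp hp2N G (lift_add_three χ F (phiN N))]
    have h7 : g (ModularForm.heckeDiagMatrix p • τ) = G (3 * (p * ((K : ℂ) * τ / 3))) := by
      rw [hg, ModularForm.coe_heckeDiagMatrix_smul hp.ne_zero]
      congr 1
      ring
    have h8 : ∑ j ∈ Finset.range p, G (((K : ℂ) * τ + 3 * j) / p) =
        ∑ j ∈ Finset.range p, G (3 * (((K : ℂ) * τ / 3 + j) / p)) := by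
      refine Finset.sum_congr rfl fun j _ => ?_
      congr 1
      ring
    have h9 : 3 * ((K : ℂ) * τ / 3) = K * τ := by ring
    rw [h9] at h5
    rw [h7, h8, sub_self, zpow_zero, one_mul, mul_comm _ (∑ j ∈ Finset.range p, _), ← div_eq_mul_inv,
      h5, FunLike.coe_smul, Pi.smul_apply, hg, smul_eq_mul]

end Fermat.Agent.H49T
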