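import Fermat.Agent.H45TB

/-!
# Theta kernel of signature (3,1), part C: summability and Poisson summation with characteristics
(S47-T1, helper45)
-/

set_option autoImplicit false

noncomputable section

namespace Fermat.Agent.H45.TK

open Complex Real Matrix
open Fermat.Agent.H45

local notation "conj" => starRingEnd ℂ

/-- the index set of a lattice of rank four -/
abbrev Ix : Type := ℤ × (Fin 2 → ℤ) × ℤ

theorem Bin.norm_bt (B : Bin) (τ β κ : ℂ) (x : Fin 2 → ℤ) :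
    ‖Bin.bt B.e τ β κ x‖ = Real.exp (-(2 * π * τ.im * ‖emb B.e (fun i => x i) + β‖ ^ 2)) := by
  rw [Bin.bt, Complex.norm_exp]
  congr 1
  rw [add_re]
  have h1 : (2 * π * I * ((ip κ (emb B.e (fun i => x i) + β) : ℝ) : ℂ)).re = 0 := by
    have : (2 * π * I * ((ip κ (emb B.e (fun i => x i) + β) : ℝ) : ℂ) : ℂ) =
      ((2 * π * ip κ (emb B.e (fun i => x i) + β) : ℝ) : ℂ) * I := by push_cast; ring
    rw [this, re_ofReal_mul, I_re, mul_zero]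
  have h2 : (2 * π * I * τ * ((‖emb B.e (fun i => x i) + β‖ ^ 2 : ℝ) : ℂ) : ℂ) =
      ((2 * π * ‖emb B.e (fun i => x i) + β‖ ^ 2 : ℝ) : ℂ) * (I * τ) := by push_cast; ring
  rw [h1, add_zero, h2, re_ofReal_mul, I_mul_re]
  ring

/-- summability of a Gaussian over a rank four lattice -/
theorem summable_gauss3 (B : Bin) {α δ ε : ℝ} (hα : 0 < α) (hδ : 0 < δ) (hε : 0 < ε)
    (a0 d0 : ℝ) (b0 : ℂ) :
    Summable fun p : Ix => Real.exp (-(ε * ((a0 + α * p.1) ^ 2 +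
      (‖b0 + emb B.e fun i => p.2.1 i‖ ^ 2 + (d0 + δ * p.2.2) ^ 2)))) := by
  have key : ∀ {β : ℝ}, 0 < β → ∀ t : ℝ,
      Summable fun m : ℤ => Real.exp (-(ε * (t + β * m) ^ 2)) := by
    intro β hβ t
    refine (summable_exp_neg_sq (ε * β ^ 2 / π) (by positivity) (t / β)).congr fun m => ?_
    congr 1
    field_simp
    ring
  have h2 : Summable fun x : Fin 2 → ℤ => Real.exp (-(ε * ‖b0 + emb B.e fun i => x i‖ ^ 2)) := by
    have h := (B.summable_bt (τ := ((ε / (2 * π) : ℝ) : ℂ) * I) (by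
      rw [im_ofReal_mul, I_im, mul_one]; positivity) b0 0).norm
    refine h.congr fun x => ?_
    rw [B.norm_bt, im_ofReal_mul, I_im, mul_one, add_comm b0]
    congr 1
    field_simp
  have h3 := (key hα a0).mul_of_nonneg (h2.mul_of_nonneg (key hδ d0) (fun _ => (Real.exp_pos _).le)
    (fun _ => (Real.exp_pos _).le)) (fun _ => (Real.exp_pos _).le)
    (fun _ => mul_nonneg (Real.exp_pos _).le (Real.exp_pos _).le)
  refine h3.congr fun p => ?_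
  rw [← Real.exp_add, ← Real.exp_add]
  congr 1
  ring

theorem summable_of_gauss3 (B : Bin) {α δ ε C : ℝ} (hα : 0 < α) (hδ : 0 < δ) (hε : 0 < ε)
    (a0 d0 : ℝ) (b0 : ℂ) {F : Ix → ℂ}
    (h : ∀ p : Ix, ‖F p‖ ≤ C * Real.exp (-(ε * ((a0 + α * p.1) ^ 2 +
      (‖b0 + emb B.e fun i => p.2.1 i‖ ^ 2 + (d0 + δ * p.2.2) ^ 2))))) : Summable F :=
  Summable.of_norm_bounded ((summable_gauss3 B hα hδ hε a0 d0 b0).mul_left C) h

/-- the norm of the kernel -/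
theorem norm_fK (τ z : ℂ) (y : ℝ) (a : ℝ) (b : ℂ) (d : ℝ) :
    ‖fK τ z y a b d‖ = √τ.im * Real.exp (-(2 * π * τ.im * Qw z y a b d)) := by
  rw [fK, norm_mul, norm_mul, Complex.norm_real, Real.norm_of_nonneg (Real.sqrt_nonneg _),
    Complex.norm_exp, Complex.norm_exp, mul_assoc, ← Real.exp_add]
  congr 2
  have h2 : (2 * π * I * τ * (Qv a b d : ℂ) : ℂ) = ((2 * π * Qv a b d : ℝ) : ℂ) * (I * τ) := by
    push_cast; ring
  rw [h2, re_ofReal_mul, I_mul_re, ← ofReal_neg, ofReal_re, Qw]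
  ring

/-- the norm of the partial Fourier transform -/
theorem norm_gK (τ z : ℂ) (y : ℝ) (c : ℝ) (b : ℂ) (d : ℝ) :
    ‖gK τ z y c b d‖ = Real.exp (-(π * y ^ 2 * ‖(c : ℂ) + d * τ‖ ^ 2 / τ.im +
      2 * π * τ.im * ‖b - d * z‖ ^ 2)) := by
  rw [gK, norm_mul, norm_mul, norm_e1, mul_one, Complex.norm_exp, Complex.norm_exp,
    ← Real.exp_add]
  congr 1
  have h2 : (2 * π * I * τ * ((‖b - d * z‖ ^ 2 : ℝ) : ℂ) : ℂ) =
      ((2 * π * ‖b - d * z‖ ^ 2 : ℝ) : ℂ) * (I * τ) := by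
    push_cast; ring
  rw [h2, re_ofReal_mul, I_mul_re, ← ofReal_neg, ofReal_re]
  ring

theorem norm_sq_add_le (x y : ℂ) : ‖x + y‖ ^ 2 ≤ 2 * ‖x‖ ^ 2 + 2 * ‖y‖ ^ 2 := by
  have h := norm_add_le x y
  have h1 : ‖x + y‖ ^ 2 ≤ (‖x‖ + ‖y‖) ^ 2 := pow_le_pow_left₀ (norm_nonneg _) h 2
  nlinarith [sq_nonneg (‖x‖ - ‖y‖)]

theorem norm_b_le (b z : ℂ) (d : ℝ) :
    ‖b‖ ^ 2 ≤ 2 * ‖b - d * z‖ ^ 2 + 2 * (d ^ 2 * ‖z‖ ^ 2) := by
  have h := norm_sq_add_le (b - d * z) (d * z)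
  rw [sub_add_cancel, norm_mul, mul_pow, Complex.norm_real, Real.norm_eq_abs, sq_abs] at h
  exact h

theorem ip_sq_le (b z : ℂ) : ip b z ^ 2 ≤ 4 * (‖b‖ ^ 2 * ‖z‖ ^ 2) := by
  have h1 : |(b * conj z).re| ≤ ‖b * conj z‖ := abs_re_le_norm _
  rw [norm_mul, RCLike.norm_conj] at h1
  have h2 : (b * conj z).re ^ 2 ≤ (‖b‖ * ‖z‖) ^ 2 := by
    rw [← sq_abs]
    exact pow_le_pow_left₀ (abs_nonneg _) h1 2
  rw [ip]
  nlinarith

/-- the majorant is positive definite, with an explicit constant -/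
theorem Qw_lower {z : ℂ} {y : ℝ} (hy : 0 < y) : ∃ ε : ℝ, 0 < ε ∧ ∀ (a : ℝ) (b : ℂ) (d : ℝ),
    ε * (a ^ 2 + (‖b‖ ^ 2 + d ^ 2)) ≤ Qw z y a b d := by
  set r := ‖z‖ ^ 2 with hr
  have hr0 : 0 ≤ r := by positivity
  -- `C` large
  set C : ℝ := 6 * y ^ 2 + 2 * (12 * r + 1) + 2 * ((12 * r + 1) * (2 * r) + (3 * r ^ 2 + 1)) / y ^ 2
    with hC
  have hC0 : 0 < C := by positivity
  refine ⟨C⁻¹, by positivity, fun a b d => ?_⟩
  rw [inv_mul_le_iff₀ hC0, Qw_eq hy]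
  set a' := a - ip b z + d * r with ha'
  set N := ‖b - d * z‖ ^ 2 with hN
  have hN0 : 0 ≤ N := by positivity
  have h1 : ‖b‖ ^ 2 ≤ 2 * N + 2 * (d ^ 2 * r) := norm_b_le b z d
  have h2 : ip b z ^ 2 ≤ 4 * (‖b‖ ^ 2 * r) := ip_sq_le b z
  have h3 : a ^ 2 ≤ 3 * (a' ^ 2 + ip b z ^ 2 + d ^ 2 * r ^ 2) := by
    have : a = a' + ip b z - d * r := by rw [ha']; ring
    rw [this]
    nlinarith [sq_nonneg (a' - ip b z), sq_nonneg (a' + d * r), sq_nonneg (ip b z + d * r)]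
  have hb0 : 0 ≤ ‖b‖ ^ 2 := by positivity
  have h4 : a ^ 2 + (‖b‖ ^ 2 + d ^ 2) ≤ 3 * a' ^ 2 + (12 * r + 1) * (2 * N) +
      ((12 * r + 1) * (2 * r) + (3 * r ^ 2 + 1)) * d ^ 2 := by
    have h5 : (12 * r + 1) * ‖b‖ ^ 2 ≤ (12 * r + 1) * (2 * N + 2 * (d ^ 2 * r)) :=
      mul_le_mul_of_nonneg_left h1 (by positivity)
    nlinarith
  refine h4.trans ?_
  have hy2 : 0 < y ^ 2 := by positivity
  set K := (12 * r + 1) * (2 * r) + (3 * r ^ 2 + 1) with hK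
  have hK0 : 0 ≤ K := by positivity
  have e1 : 3 * a' ^ 2 = 6 * y ^ 2 * (a' ^ 2 / (2 * y ^ 2)) := by field_simp; ring
  have e2 : K * d ^ 2 = 2 * K / y ^ 2 * (d ^ 2 * y ^ 2 / 2) := by field_simp
  have f1 : 6 * y ^ 2 ≤ C := by rw [hC]; have : 0 ≤ 2 * K / y ^ 2 := by positivity
                                nlinarith
  have f2 : 2 * (12 * r + 1) ≤ C := by rw [hC]; have : 0 ≤ 2 * K / y ^ 2 := by positivity
                                       nlinarith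
  have f3 : 2 * K / y ^ 2 ≤ C := by rw [hC]; nlinarith
  have g1 : 0 ≤ a' ^ 2 / (2 * y ^ 2) := by positivity
  have g3 : 0 ≤ d ^ 2 * y ^ 2 / 2 := by positivity
  rw [e1, e2]
  have k1 := mul_le_mul_of_nonneg_right f1 g1
  have k2 := mul_le_mul_of_nonneg_right f2 hN0
  have k3 := mul_le_mul_of_nonneg_right f3 g3
  nlinarith

/-- the exponent of the partial Fourier transform is positive definite -/
theorem gK_lower {τ z : ℂ} (hτ : 0 < τ.im) {y : ℝ} (hy : 0 < y) :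
    ∃ ε : ℝ, 0 < ε ∧ ∀ (c : ℝ) (b : ℂ) (d : ℝ), ε * (c ^ 2 + (‖b‖ ^ 2 + d ^ 2)) ≤
      π * y ^ 2 * ‖(c : ℂ) + d * τ‖ ^ 2 / τ.im + 2 * π * τ.im * ‖b - d * z‖ ^ 2 := by
  set r := ‖z‖ ^ 2 with hr
  have hr0 : 0 ≤ r := by positivity
  set v := τ.im with hv
  set u := τ.re with hu
  set κ : ℝ := π * y ^ 2 / v with hκ
  have hκ0 : 0 < κ := by positivity
  -- `c² + |b|² + d² ≤ 2 (c + du)² + 2 |b - dz|² + (2 u² + 2 r + 1) d²`
  set C : ℝ := 2 / κ + 1 / (π * v) + (2 * u ^ 2 + 2 * r + 1) / (κ * v ^ 2) with hC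
  have hC0 : 0 < C := by positivity
  refine ⟨C⁻¹, by positivity, fun c b d => ?_⟩
  rw [inv_mul_le_iff₀ hC0, norm_c_add, ← hv, ← hu]
  set N := ‖b - d * z‖ ^ 2 with hN
  have hN0 : 0 ≤ N := by positivity
  have h1 : ‖b‖ ^ 2 ≤ 2 * N + 2 * (d ^ 2 * r) := norm_b_le b z d
  have h2 : c ^ 2 ≤ 2 * (c + d * u) ^ 2 + 2 * (d * u) ^ 2 := by
    nlinarith [sq_nonneg (c + 2 * (d * u))]
  have h4 : c ^ 2 + (‖b‖ ^ 2 + d ^ 2) ≤ 2 * (c + d * u) ^ 2 + 2 * N +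
      (2 * u ^ 2 + 2 * r + 1) * d ^ 2 := by nlinarith
  refine h4.trans ?_
  have e0 : π * y ^ 2 * ((c + d * u) ^ 2 + (d * v) ^ 2) / v =
      κ * (c + d * u) ^ 2 + κ * v ^ 2 * d ^ 2 := by rw [hκ]; ring
  rw [e0]
  set K := 2 * u ^ 2 + 2 * r + 1 with hK
  have hK0 : 0 ≤ K := by positivity
  have e1 : 2 * (c + d * u) ^ 2 = 2 / κ * (κ * (c + d * u) ^ 2) := by field_simp
  have e2 : K * d ^ 2 = K / (κ * v ^ 2) * (κ * v ^ 2 * d ^ 2) := by field_simp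
  have e3 : 2 * N = 1 / (π * v) * (2 * π * v * N) := by field_simp
  have p1 : 0 ≤ 2 / κ := by positivity
  have p2 : 0 ≤ 1 / (π * v) := by positivity
  have p3 : 0 ≤ K / (κ * v ^ 2) := by positivity
  have f1 : 2 / κ ≤ C := by rw [hC]; linarith
  have f2 : 1 / (π * v) ≤ C := by rw [hC]; linarith
  have f3 : K / (κ * v ^ 2) ≤ C := by rw [hC]; linarith
  have g1 : 0 ≤ κ * (c + d * u) ^ 2 := by positivity
  have g2 : 0 ≤ 2 * π * v * N := by positivity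
  have g3 : 0 ≤ κ * v ^ 2 * d ^ 2 := by positivity
  rw [e1, e2, e3]
  have k1 := mul_le_mul_of_nonneg_right f1 g1
  have k2 := mul_le_mul_of_nonneg_right f2 g2
  have k3 := mul_le_mul_of_nonneg_right f3 g3
  nlinarith

/-- **absolute convergence** of the theta kernel -/
theorem summable_fK (B : Bin) {α δ : ℝ} (hα : 0 < α) (hδ : 0 < δ) (a0 d0 : ℝ) (b0 : ℂ)
    {τ : ℂ} (hτ : 0 < τ.im) (z : ℂ) {y : ℝ} (hy : 0 < y) {ψ : Ix → ℂ} {M : ℝ}
    (hψ : ∀ p, ‖ψ p‖ ≤ M) :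
    Summable fun p : Ix => fK τ z y (a0 + α * p.1) (b0 + emb B.e fun i => p.2.1 i)
      (d0 + δ * p.2.2) * ψ p := by
  obtain ⟨ε, hε, h⟩ := Qw_lower (z := z) hy
  refine summable_of_gauss3 B hα hδ (ε := 2 * π * τ.im * ε) (by positivity) a0 d0 b0
    (C := √τ.im * M) fun p => ?_
  rw [norm_mul, norm_fK]
  have h1 := h (a0 + α * p.1) (b0 + emb B.e fun i => p.2.1 i) (d0 + δ * p.2.2)
  have h2 : Real.exp (-(2 * π * τ.im * Qw z y (a0 + α * p.1) (b0 + emb B.e fun i => p.2.1 i)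
      (d0 + δ * p.2.2))) ≤ Real.exp (-(2 * π * τ.im * ε * ((a0 + α * p.1) ^ 2 +
      (‖b0 + emb B.e fun i => p.2.1 i‖ ^ 2 + (d0 + δ * p.2.2) ^ 2)))) := by
    apply Real.exp_le_exp.mpr
    have : 0 < 2 * π * τ.im := by positivity
    nlinarith
  have hM : 0 ≤ M := (norm_nonneg _).trans (hψ p)
  calc √τ.im * _ * ‖ψ p‖ ≤ √τ.im * _ * M :=
        mul_le_mul (mul_le_mul_of_nonneg_left h2 (Real.sqrt_nonneg _)) (hψ p) (norm_nonneg _)
          (mul_nonneg (Real.sqrt_nonneg _) (Real.exp_pos _).le)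
    _ = _ := by ring

theorem summable_gK (B : Bin) {α δ : ℝ} (hα : 0 < α) (hδ : 0 < δ) (a0 d0 : ℝ) (b0 : ℂ)
    {τ : ℂ} (hτ : 0 < τ.im) (z : ℂ) {y : ℝ} (hy : 0 < y) {ψ : Ix → ℂ} {M : ℝ}
    (hψ : ∀ p, ‖ψ p‖ ≤ M) :
    Summable fun p : Ix => gK τ z y (a0 + α * p.1) (b0 + emb B.e fun i => p.2.1 i)
      (d0 + δ * p.2.2) * ψ p := by
  obtain ⟨ε, hε, h⟩ := gK_lower (z := z) hτ hy
  refine summable_of_gauss3 B hα hδ (ε := ε) hε a0 d0 b0 (C := M) fun p => ?_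
  rw [norm_mul, norm_gK, mul_comm]
  have h1 := h (a0 + α * p.1) (b0 + emb B.e fun i => p.2.1 i) (d0 + δ * p.2.2)
  have hM : 0 ≤ M := (norm_nonneg _).trans (hψ p)
  exact mul_le_mul (hψ p) (Real.exp_le_exp.mpr (neg_le_neg h1)) (Real.exp_pos _).le hM

/-! ### Reordering triple sums -/

section

variable {ι : Type*} {F : ℤ × ι × ℤ → ℂ}

theorem tsum_mxn (h : Summable F) : ∑' p, F p = ∑' m, ∑' x, ∑' n, F (m, x, n) := by
  rw [h.tsum_prod]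
  refine tsum_congr fun m => ?_
  exact (h.prod_factor m).tsum_prod

theorem tsum_mnx (h : Summable F) : ∑' p, F p = ∑' m, ∑' n, ∑' x, F (m, x, n) := by
  rw [tsum_mxn h]
  refine tsum_congr fun m => ?_
  exact (Summable.tsum_comm (f := fun x n => F (m, x, n)) (h.prod_factor m)).symm

/-- exchange of the two integral variables -/
def exE (ι : Type*) : ℤ × ι × ℤ ≃ ℤ × ι × ℤ where
  toFun p := (p.2.2, p.2.1, p.1)
  invFun p := (p.2.2, p.2.1, p.1)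
  left_inv _ := rfl
  right_inv _ := rfl

theorem tsum_nxm (h : Summable F) : ∑' p, F p = ∑' n, ∑' x, ∑' m, F (m, x, n) := by
  rw [← (exE ι).tsum_eq]
  exact tsum_mxn (F := fun p => F (exE ι p)) ((exE ι).summable_iff.mpr h)

end

/-- **Poisson summation with two real characteristics.** -/
theorem poissonV (B : Bin) {α δ : ℝ} (hα : 0 < α) (hδ : 0 < δ) (a0 d0 a1 d1 : ℝ) (b0 b1 : ℂ)
    {τ : ℂ} (hτ : 0 < τ.im) (z : ℂ) {y : ℝ} (hy : 0 < y) :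
    ∑' p : Ix, fK (-1 / τ) z y (a0 + α * p.1) (b0 + emb B.e fun i => p.2.1 i) (d0 + δ * p.2.2) *
        e1 (ip (b0 + emb B.e fun i => p.2.1 i) b1 - (a0 + α * p.1) * d1 - (d0 + δ * p.2.2) * a1) =
      (-I * τ / (α * δ * B.vol : ℝ)) *
      ∑' p : Ix, fK τ z y (a1 + p.1 / δ) (b1 + emb B.f fun i => p.2.1 i) (d1 + p.2.2 / α) *
        e1 (-(ip b0 (emb B.f fun i => p.2.1 i) - a0 * (p.2.2 / α) - d0 * (p.1 / δ))) := by
  have hτ' : 0 < (-1 / τ : ℂ).im := im_neg_one_div_pos hτ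
  have hαc : (α : ℂ) ≠ 0 := by exact_mod_cast hα.ne'
  have hδc : (δ : ℂ) ≠ 0 := by exact_mod_cast hδ.ne'
  have hyc : (y : ℂ) ≠ 0 := by exact_mod_cast hy.ne'
  have hvc : (B.vol : ℂ) ≠ 0 := by exact_mod_cast B.vol_pos.ne'
  -- first step
  have s1 := summable_fK B hα hδ a0 d0 b0 hτ' z hy (M := 1) (ψ := fun p => e1 (ip (b0 + emb B.e
    fun i => p.2.1 i) b1 - (a0 + α * p.1) * d1 - (d0 + δ * p.2.2) * a1))
    (fun p => (norm_e1 _).le)
  rw [tsum_nxm s1]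
  have h1 : ∀ (n : ℤ) (x : Fin 2 → ℤ), ∑' m : ℤ,
      fK (-1 / τ) z y (a0 + α * m) (b0 + emb B.e fun i => x i) (d0 + δ * n) *
        e1 (ip (b0 + emb B.e fun i => x i) b1 - (a0 + α * m) * d1 - (d0 + δ * n) * a1) =
      ((y / α : ℝ) : ℂ) * ∑' m : ℤ, gK (-1 / τ) z y (d1 + m / α) (b0 + emb B.e fun i => x i)
        (d0 + δ * n) * (e1 (ip (b0 + emb B.e fun i => x i) b1) * e1 (-(d0 + δ * n) * a1) *
          e1 (a0 * (m / α))) := by
    intro n x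
    have h := step1 hα hτ' z hy a0 d1 (b0 + emb B.e fun i => x i) (d0 + δ * n)
    have h' := congrArg (fun t => e1 (ip (b0 + emb B.e fun i => x i) b1) *
      e1 (-(d0 + δ * n) * a1) * t) h
    simp only [← tsum_mul_left] at h'
    rw [← tsum_mul_left]
    refine Eq.trans (tsum_congr fun m => ?_) (h'.trans (tsum_congr fun m => ?_))
    · rw [show ip (b0 + emb B.e fun i => (x i : ℝ)) b1 - (a0 + α * m) * d1 - (d0 + δ * n) * a1 =
        ip (b0 + emb B.e fun i => (x i : ℝ)) b1 + -(d0 + δ * n) * a1 + -(a0 + α * m) * d1 by ring,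
        e1_add, e1_add]
      ring
    · ring
  have h1' : ∑' n : ℤ, ∑' x : Fin 2 → ℤ, ∑' m : ℤ,
      fK (-1 / τ) z y (a0 + α * m) (b0 + emb B.e fun i => x i) (d0 + δ * n) *
        e1 (ip (b0 + emb B.e fun i => x i) b1 - (a0 + α * m) * d1 - (d0 + δ * n) * a1) =
      ((y / α : ℝ) : ℂ) * ∑' n : ℤ, ∑' x : Fin 2 → ℤ, ∑' m : ℤ,
        gK (-1 / τ) z y (d1 + α⁻¹ * m) (b0 + emb B.e fun i => x i)
        (d0 + δ * n) * (e1 (ip (b0 + emb B.e fun i => x i) b1) * e1 (-(d0 + δ * n) * a1) *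
          e1 (a0 * (m / α))) := by
    rw [← tsum_mul_left]
    refine tsum_congr fun n => ?_
    rw [← tsum_mul_left]
    refine tsum_congr fun x => ?_
    rw [h1 n x]
    simp only [div_eq_inv_mul]
  rw [h1']
  -- second step
  have s2 := summable_gK B (inv_pos.mpr hα) hδ d1 d0 b0 hτ' z hy (M := 1) (ψ := fun p =>
    e1 (ip (b0 + emb B.e fun i => p.2.1 i) b1) * e1 (-(d0 + δ * p.2.2) * a1) *
      e1 (a0 * (p.1 / α))) (fun p => by rw [norm_mul, norm_mul, norm_e1, norm_e1, norm_e1]; simp)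
  rw [← tsum_nxm s2, tsum_mnx s2]
  have h2 : ∀ (m n : ℤ), ∑' x : Fin 2 → ℤ,
      gK (-1 / τ) z y (d1 + α⁻¹ * m) (b0 + emb B.e fun i => x i)
        (d0 + δ * n) * (e1 (ip (b0 + emb B.e fun i => x i) b1) * e1 (-(d0 + δ * n) * a1) *
          e1 (a0 * (m / α))) =
      (-I * τ / B.vol) * ∑' k : Fin 2 → ℤ, gK τ z y (-(d0 + δ * n)) (b1 + emb B.f fun i => k i)
        (d1 + α⁻¹ * m) * (e1 (-ip b0 (emb B.f fun i => k i)) * e1 (-(d0 + δ * n) * a1) *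
          e1 (a0 * (m / α))) := by
    intro m n
    have h := step2 B hτ z y (d1 + α⁻¹ * m) (d0 + δ * n) b0 b1
    have h' := congrArg (fun t => e1 (-(d0 + δ * n) * a1) * e1 (a0 * (m / α)) * t) h
    simp only [← tsum_mul_left] at h'
    rw [← tsum_mul_left]
    refine Eq.trans (tsum_congr fun m => ?_) (h'.trans (tsum_congr fun m => ?_))
    · ring
    · ring
  have h2' : ∑' m : ℤ, ∑' n : ℤ, ∑' x : Fin 2 → ℤ,
      gK (-1 / τ) z y (d1 + α⁻¹ * m) (b0 + emb B.e fun i => x i)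
        (d0 + δ * n) * (e1 (ip (b0 + emb B.e fun i => x i) b1) * e1 (-(d0 + δ * n) * a1) *
          e1 (a0 * (m / α))) =
      (-I * τ / B.vol) * ∑' m : ℤ, ∑' n : ℤ, ∑' k : Fin 2 → ℤ,
        gK τ z y (-d0 + δ * (-n : ℤ)) (b1 + emb B.dualB.e fun i => k i)
        (d1 + α⁻¹ * m) * (e1 (-ip b0 (emb B.f fun i => k i)) * e1 ((-d0 + δ * (-n : ℤ)) * a1) *
          e1 (a0 * (m / α))) := by
    rw [← tsum_mul_left]
    refine tsum_congr fun m => ?_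
    rw [← tsum_mul_left]
    refine tsum_congr fun n => ?_
    rw [h2 m n, Bin.dualB_e]
    have : -(d0 + δ * n) = -d0 + δ * ((-n : ℤ) : ℝ) := by push_cast; ring
    rw [this]
  rw [h2']
  have hneg : ∀ m : ℤ, ∑' n : ℤ, ∑' k : Fin 2 → ℤ,
        gK τ z y (-d0 + δ * (-n : ℤ)) (b1 + emb B.dualB.e fun i => k i)
        (d1 + α⁻¹ * m) * (e1 (-ip b0 (emb B.f fun i => k i)) * e1 ((-d0 + δ * (-n : ℤ)) * a1) *
          e1 (a0 * (m / α))) =
      ∑' n : ℤ, ∑' k : Fin 2 → ℤ,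
        gK τ z y (-d0 + δ * n) (b1 + emb B.dualB.e fun i => k i)
        (d1 + α⁻¹ * m) * (e1 (-ip b0 (emb B.f fun i => k i)) * e1 ((-d0 + δ * n) * a1) *
          e1 (a0 * (m / α))) := fun m =>
    (Equiv.neg ℤ).tsum_eq (fun n : ℤ => ∑' k : Fin 2 → ℤ,
        gK τ z y (-d0 + δ * n) (b1 + emb B.dualB.e fun i => k i)
        (d1 + α⁻¹ * m) * (e1 (-ip b0 (emb B.f fun i => k i)) * e1 ((-d0 + δ * n) * a1) *
          e1 (a0 * (m / α))))
  rw [tsum_congr hneg]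
  -- third step
  have s3 := summable_gK B.dualB hδ (inv_pos.mpr hα) (-d0) d1 b1 hτ z hy (M := 1) (ψ := fun p =>
    e1 (-ip b0 (emb B.f fun i => p.2.1 i)) * e1 ((-d0 + δ * p.1) * a1) *
      e1 (a0 * (p.2.2 / α))) (fun p => by rw [norm_mul, norm_mul, norm_e1, norm_e1, norm_e1]; simp)
  have s3' := (exE (Fin 2 → ℤ)).summable_iff.mpr s3
  have hswap : ∑' m : ℤ, ∑' n : ℤ, ∑' k : Fin 2 → ℤ,
        gK τ z y (-d0 + δ * n) (b1 + emb B.dualB.e fun i => k i)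
        (d1 + α⁻¹ * m) * (e1 (-ip b0 (emb B.f fun i => k i)) * e1 ((-d0 + δ * n) * a1) *
          e1 (a0 * (m / α))) = ∑' m : ℤ, ∑' k : Fin 2 → ℤ, ∑' n : ℤ,
        gK τ z y (-d0 + δ * n) (b1 + emb B.dualB.e fun i => k i)
        (d1 + α⁻¹ * m) * (e1 (-ip b0 (emb B.f fun i => k i)) * e1 ((-d0 + δ * n) * a1) *
          e1 (a0 * (m / α))) := (tsum_mnx s3').symm.trans (tsum_mxn s3')
  rw [hswap]
  have h3 : ∀ (m : ℤ) (k : Fin 2 → ℤ), ∑' n : ℤ,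
        gK τ z y (-d0 + δ * n) (b1 + emb B.dualB.e fun i => k i)
        (d1 + α⁻¹ * m) * (e1 (-ip b0 (emb B.f fun i => k i)) * e1 ((-d0 + δ * n) * a1) *
          e1 (a0 * (m / α))) =
      ((1 / (y * δ) : ℝ) : ℂ) * ∑' n : ℤ, fK τ z y (a1 + n / δ) (b1 + emb B.f fun i => k i)
        (d1 + m / α) * e1 (-(ip b0 (emb B.f fun i => k i) - a0 * (m / α) - d0 * (n / δ))) := by
    intro m k
    have h := step1 (inv_pos.mpr hδ) hτ z hy a1 (-d0) (b1 + emb B.f fun i => k i) (d1 + α⁻¹ * m)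
    have h' := congrArg (fun t => ((1 / (y * δ) : ℝ) : ℂ) *
      (e1 (-ip b0 (emb B.f fun i => k i)) * e1 (a0 * (m / α)) * e1 (-d0 * a1)) * t) h
    rw [← mul_assoc (((1 / (y * δ) : ℝ) : ℂ) * _) (((y / δ⁻¹ : ℝ)) : ℂ)] at h'
    simp only [← tsum_mul_left] at h'
    rw [← tsum_mul_left]
    refine Eq.trans (tsum_congr fun n => ?_) (h'.symm.trans (tsum_congr fun n => ?_))
    · have e1' : e1 ((-d0 + δ * n) * a1) = e1 (-d0 * a1) * e1 (a1 * (n / δ⁻¹)) := by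
        rw [← e1_add]
        congr 1
        rw [div_inv_eq_mul]
        ring
      have e2 : ((1 / (y * δ) : ℝ) : ℂ) * (((y / δ⁻¹ : ℝ)) : ℂ) = 1 := by
        rw [← ofReal_mul]
        have : 1 / (y * δ) * (y / δ⁻¹) = 1 := by
          have := hδ.ne'
          have := hy.ne'
          field_simp
        rw [this, ofReal_one]
      rw [e1', div_inv_eq_mul, Bin.dualB_e, mul_comm (n : ℝ) δ]
      linear_combination (-(gK τ z y (-d0 + δ * n) (b1 + emb B.f fun i => k i)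
        (d1 + α⁻¹ * m) * (e1 (-ip b0 (emb B.f fun i => k i)) * (e1 (-d0 * a1) * e1 (a1 * (δ * n))) *
          e1 (a0 * (m / α))))) * e2
    · have e3 : e1 (-(ip b0 (emb B.f fun i => k i) - a0 * (m / α) - d0 * (n / δ))) =
          e1 (-ip b0 (emb B.f fun i => k i)) * e1 (a0 * (m / α)) * e1 (-d0 * a1) *
            e1 (-(a1 + δ⁻¹ * n) * -d0) := by
        rw [← e1_add, ← e1_add, ← e1_add]
        congr 1
        rw [div_eq_inv_mul (n : ℝ) δ]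
        ring
      rw [e3, div_eq_inv_mul (n : ℝ) δ, div_eq_inv_mul (m : ℝ) α]
      ring
  have s4 := summable_fK B.dualB (inv_pos.mpr hδ) (inv_pos.mpr hα) a1 d1 b1 hτ z hy (M := 1)
    (ψ := fun p => e1 (-(ip b0 (emb B.f fun i => p.2.1 i) - a0 * (p.2.2 / α) - d0 * (p.1 / δ))))
    (fun p => (norm_e1 _).le)
  have h4 : ∑' p : Ix, fK τ z y (a1 + p.1 / δ) (b1 + emb B.f fun i => p.2.1 i) (d1 + p.2.2 / α) *
        e1 (-(ip b0 (emb B.f fun i => p.2.1 i) - a0 * (p.2.2 / α) - d0 * (p.1 / δ))) =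
      ∑' p : Ix, fK τ z y (a1 + δ⁻¹ * p.1) (b1 + emb B.dualB.e fun i => p.2.1 i)
        (d1 + α⁻¹ * p.2.2) *
        e1 (-(ip b0 (emb B.f fun i => p.2.1 i) - a0 * (p.2.2 / α) - d0 * (p.1 / δ))) := by
    refine tsum_congr fun p => ?_
    rw [Bin.dualB_e, ← div_eq_inv_mul, ← div_eq_inv_mul]
  have s4' := (exE (Fin 2 → ℤ)).summable_iff.mpr s4
  rw [h4, ← (exE (Fin 2 → ℤ)).tsum_eq (fun p : Ix => fK τ z y (a1 + δ⁻¹ * p.1)
    (b1 + emb B.dualB.e fun i => p.2.1 i) (d1 + α⁻¹ * p.2.2) *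
        e1 (-(ip b0 (emb B.f fun i => p.2.1 i) - a0 * (p.2.2 / α) - d0 * (p.1 / δ)))),
    tsum_mxn (F := fun p : Ix => fK τ z y (a1 + δ⁻¹ * (exE (Fin 2 → ℤ) p).1)
    (b1 + emb B.dualB.e fun i => (exE (Fin 2 → ℤ) p).2.1 i) (d1 + α⁻¹ * (exE (Fin 2 → ℤ) p).2.2) *
        e1 (-(ip b0 (emb B.f fun i => (exE (Fin 2 → ℤ) p).2.1 i) -
          a0 * ((exE (Fin 2 → ℤ) p).2.2 / α) - d0 * ((exE (Fin 2 → ℤ) p).1 / δ)))) s4']
  have h5 : ∀ m : ℤ, ∑' k : Fin 2 → ℤ, ∑' n : ℤ,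
        gK τ z y (-d0 + δ * n) (b1 + emb B.dualB.e fun i => k i)
        (d1 + α⁻¹ * m) * (e1 (-ip b0 (emb B.f fun i => k i)) * e1 ((-d0 + δ * n) * a1) *
          e1 (a0 * (m / α))) = ((1 / (y * δ) : ℝ) : ℂ) * ∑' k : Fin 2 → ℤ, ∑' n : ℤ,
        fK τ z y (a1 + δ⁻¹ * n) (b1 + emb B.dualB.e fun i => k i) (d1 + α⁻¹ * m) *
        e1 (-(ip b0 (emb B.f fun i => k i) - a0 * (m / α) - d0 * (n / δ))) := by
    intro m
    rw [← tsum_mul_left]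
    refine tsum_congr fun k => ?_
    rw [h3 m k]
    simp only [Bin.dualB_e, ← div_eq_inv_mul]
  have h6 : ∑' m : ℤ, ∑' k : Fin 2 → ℤ, ∑' n : ℤ,
        gK τ z y (-d0 + δ * n) (b1 + emb B.dualB.e fun i => k i)
        (d1 + α⁻¹ * m) * (e1 (-ip b0 (emb B.f fun i => k i)) * e1 ((-d0 + δ * n) * a1) *
          e1 (a0 * (m / α))) = ((1 / (y * δ) : ℝ) : ℂ) * ∑' m : ℤ, ∑' k : Fin 2 → ℤ, ∑' n : ℤ,
        fK τ z y (a1 + δ⁻¹ * n) (b1 + emb B.dualB.e fun i => k i) (d1 + α⁻¹ * m) *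
        e1 (-(ip b0 (emb B.f fun i => k i) - a0 * (m / α) - d0 * (n / δ))) := by
    rw [← tsum_mul_left]
    exact tsum_congr h5
  refine (congrArg (fun t => ((y / α : ℝ) : ℂ) * ((-I * τ / B.vol) * t)) h6).trans ?_
  change _ = _ * ∑' m : ℤ, ∑' k : Fin 2 → ℤ, ∑' n : ℤ,
        fK τ z y (a1 + δ⁻¹ * n) (b1 + emb B.dualB.e fun i => k i) (d1 + α⁻¹ * m) *
        e1 (-(ip b0 (emb B.f fun i => k i) - a0 * (m / α) - d0 * (n / δ)))
  rw [← mul_assoc, ← mul_assoc]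
  congr 1
  push_cast
  field_simp

end Fermat.Agent.H45.TK
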