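import Fermat.Agent.H8T1
import Fermat.Agent.H96TDef

/-!
# S47, (T2b): the majorant on the index set `S47T.Lat`, action of `SL₂(ℤ[ω])`
-/

set_option autoImplicit false
set_option linter.unusedSectionVars false

noncomputable section

open MeasureTheory
open scoped ComplexConjugate Real

namespace Fermat.Agent.H8T

open S47T

/-! ### The majorant -/

/-- The majorant `Q_w(x) = Q(x) + 2 (x, X_w)²`. -/
def QW (x : S47T.Lat) (w : H3) : ℝ := qL x + 2 * pL x w ^ 2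

theorem qL_eq (x : S47T.Lat) : qL x = qf x.1 x.2.2 ((x.2.1 : ℂ) / sq3) := by
  rw [qL, hQ, qf, Complex.normSq_eq_norm_sq]

theorem QW_eq (x : S47T.Lat) (w : H3) : QW x w = mf w.z w.y x.1 x.2.2 ((x.2.1 : ℂ) / sq3) := by
  rw [QW, mf, qL_eq]
  congr 2
  rw [pL, pair, tf, tf.conj', Complex.normSq_eq_norm_sq]
  have h : ((x.2.1 : ℂ) / sq3 * conj w.z).re = (conj ((x.2.1 : ℂ) / sq3) * w.z).re := by
    simp only [Complex.mul_re, Complex.conj_re, Complex.conj_im]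
    ring
  rw [h, div_pow, div_pow]
  congr 1
  ring

theorem abs_qL_le (x : S47T.Lat) (w : H3) : |qL x| ≤ QW x w := by
  rw [QW_eq, qL_eq]
  exact neg_qf_le_mf w.pos _ _ _

theorem QW_nonneg (x : S47T.Lat) (w : H3) : 0 ≤ QW x w := (abs_nonneg _).trans (abs_qL_le x w)

theorem norm_sq3 : ‖sq3‖ = √3 := by
  rw [sq3, norm_mul, Complex.norm_I, one_mul, Complex.norm_real, Real.norm_eq_abs,
    abs_of_nonneg (Real.sqrt_nonneg _)]

theorem isLatt_Lat : IsLatt (fun x : S47T.Lat => (x.1 : ℝ)) (fun x : S47T.Lat => (x.2.2 : ℝ))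
    (fun x : S47T.Lat => (x.2.1 : ℂ) / sq3) := by
  refine ⟨4, fun x => (x.1, x.2.2, eisEquiv.symm x.2.1), ?_, ?_⟩
  · rintro ⟨a, β, d⟩ ⟨a', β', d'⟩ h
    simp only [Prod.mk.injEq] at h
    obtain ⟨h1, h2, h3⟩ := h
    have := eisEquiv.symm.injective (Prod.ext (congrArg Prod.fst h3) (congrArg Prod.snd h3))
    rw [h1, h2, this]
  · rintro ⟨a, β, d⟩
    obtain ⟨⟨m, n⟩, rfl⟩ := eisEquiv.surjective β
    simp only [Equiv.symm_apply_apply, coe_eisEquiv]
    have h1 : (0 : ℝ) ≤ ‖((m : ℂ) + n * om) / sq3‖ := norm_nonneg _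
    have h2 : ‖(m : ℂ) + n * om‖ ^ 2 = (m : ℝ) ^ 2 - m * n + n ^ 2 := by
      rw [← Complex.normSq_eq_norm_sq, normSq_eis]; push_cast; ring
    have h3 : ‖(m : ℂ) + n * om‖ ≤ 2 * ‖((m : ℂ) + n * om) / sq3‖ := by
      rw [norm_div, norm_sq3]
      have h4 : √3 ≤ 2 := by rw [Real.sqrt_le_left (by norm_num)]; norm_num
      have h5 : 0 < √3 := Real.sqrt_pos.mpr (by norm_num)
      rw [mul_div_assoc', le_div_iff₀ h5]
      nlinarith [norm_nonneg ((m : ℂ) + n * om)]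
    have hm : |(m : ℝ)| ≤ 2 * ‖(m : ℂ) + n * om‖ := by
      refine le_of_sq_le_sq ?_ (by positivity)
      rw [sq_abs, mul_pow, h2]
      nlinarith [sq_nonneg ((m : ℝ) - 2 * n), sq_nonneg ((m : ℝ))]
    have hn : |(n : ℝ)| ≤ 2 * ‖(m : ℂ) + n * om‖ := by
      refine le_of_sq_le_sq ?_ (by positivity)
      rw [sq_abs, mul_pow, h2]
      nlinarith [sq_nonneg ((n : ℝ) - 2 * m), sq_nonneg ((n : ℝ))]
    have ha := abs_nonneg (a : ℝ)
    have hd := abs_nonneg (d : ℝ)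
    unfold nf
    refine ⟨by linarith, by linarith, by linarith, by linarith⟩

theorem maj (j : ℕ) {ε : ℝ} (hε : 0 < ε) (R : ℝ) {y₀ : ℝ} (hy₀ : 0 < y₀) :
    ∃ C : ℝ, 0 < C ∧ ∀ w : H3, ‖w.z‖ ≤ R → y₀ ≤ w.y →
    Summable (fun x : S47T.Lat => (1 + QW x w) ^ j * Real.exp (-(ε * QW x w))) ∧
    ∑' x : S47T.Lat, (1 + QW x w) ^ j * Real.exp (-(ε * QW x w)) ≤ C * w.y ^ 8 := by
  obtain ⟨C, hC, h⟩ := isLatt_Lat.maj j hε R hy₀
  refine ⟨C, hC, fun w hz hy => ?_⟩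
  simp only [QW_eq]
  exact h w.z w.y hz hy

theorem maj_unif (j : ℕ) {ε : ℝ} (hε : 0 < ε) (R : ℝ) {y₀ : ℝ} (hy₀ : 0 < y₀) (Y : ℝ) :
    ∃ u : S47T.Lat → ℝ, Summable u ∧ ∀ w : H3, ‖w.z‖ ≤ R → y₀ ≤ w.y → w.y ≤ Y → ∀ x,
      (1 + QW x w) ^ j * Real.exp (-(ε * QW x w)) ≤ u x := by
  obtain ⟨u, hu, h⟩ := isLatt_Lat.maj_unif j hε R hy₀ Y
  refine ⟨u, hu, fun w hz hy hY x => ?_⟩
  simp only [QW_eq]
  exact h w.z w.y hz hy hY x

theorem summable_QW (j : ℕ) {ε : ℝ} (hε : 0 < ε) (w : H3) :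
    Summable (fun x : S47T.Lat => (1 + QW x w) ^ j * Real.exp (-(ε * QW x w))) := by
  simp only [QW_eq]
  exact summable_mf isLatt_Lat j hε w.z w.pos

theorem maj_decay (j : ℕ) {c : ℝ} (hc : 0 < c) (R : ℝ) {y₀ : ℝ}
    (hy₀ : 0 < y₀) {δ : ℝ} {v₀ : ℝ} (hv₀ : 0 < v₀) :
    ∃ C : ℝ, 0 < C ∧ ∀ (w : H3) (v : ℝ), ‖w.z‖ ≤ R → y₀ ≤ w.y → v₀ ≤ v → ∀ s : Set S47T.Lat,
      (∀ x ∈ s, δ ≤ |qL x|) →
    ∑' x : s, (1 + QW x w) ^ j * Real.exp (-(c * v * QW x w)) ≤
      C * w.y ^ 8 * Real.exp (-(c * δ / 2 * v)) := by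
  obtain ⟨C, hC, h⟩ := isLatt_Lat.maj_decay j hc R hy₀ (δ := δ) hv₀
  refine ⟨C, hC, fun w v hz hy hv s hs => ?_⟩
  simp only [QW_eq]
  exact h w.z w.y v hz hy hv s fun x hx => by rw [← qL_eq]; exact hs x hx

/-! ### The action of `SL₂(ℤ[ω])` on `S47T.Lat` -/

/-- the Hermitian matrix of an index -/
def hmatL (x : S47T.Lat) : Matrix (Fin 2) (Fin 2) ℂ := hmat x.1 ((x.2.1 : ℂ) / sq3) x.2.2

theorem hmatL_injective : Function.Injective hmatL := by
  rintro ⟨a, β, d⟩ ⟨a', β', d'⟩ h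
  have h00 := congrFun (congrFun h 0) 0
  have h01 := congrFun (congrFun h 0) 1
  have h11 := congrFun (congrFun h 1) 1
  simp only [hmatL, hmat, Matrix.of_apply, Matrix.cons_val', Matrix.cons_val_one,
    Matrix.cons_val_zero, Matrix.cons_val_fin_one] at h00 h01 h11
  have e1 : a = a' := by exact_mod_cast h00
  have e2 : d = d' := by exact_mod_cast h11
  have e3 : (β : ℂ) = β' := (div_left_inj' sq3_ne_zero).mp h01
  rw [e1, e2, Subtype.ext e3]

theorem normSq_int (u : ℂ) (hu : u ∈ Eis) : ∃ k : ℤ, u * conj u = k := by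
  obtain ⟨m, n, rfl⟩ := hu
  refine ⟨m ^ 2 - m * n + n ^ 2, ?_⟩
  rw [Complex.mul_conj, normSq_eis]
  push_cast
  ring

theorem tr_int (u : ℂ) (hu : u ∈ Eis) : ∃ k : ℤ, u / sq3 + conj (u / sq3) = k := by
  obtain ⟨m, n, rfl⟩ := hu
  refine ⟨n, ?_⟩
  rw [map_div₀, conj_sq3, map_add, map_mul, conj_om, map_intCast, map_intCast]
  have h := sq3_ne_zero
  field_simp
  rw [sq3_eq]
  ring

theorem exists_act {g : GL (Fin 2) ℂ} (hg : g ∈ Gam 1) (x : S47T.Lat) :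
    ∃ x' : S47T.Lat, hmatL x' = (g : Matrix (Fin 2) (Fin 2) ℂ) * hmatL x *
      (g : Matrix (Fin 2) (Fin 2) ℂ).conjTranspose := by
  obtain ⟨a, β, d⟩ := x
  obtain ⟨-, hE, -⟩ := hg
  set p := (g : Matrix (Fin 2) (Fin 2) ℂ) 0 0 with hp
  set q := (g : Matrix (Fin 2) (Fin 2) ℂ) 0 1 with hq
  set r := (g : Matrix (Fin 2) (Fin 2) ℂ) 1 0 with hr
  set s := (g : Matrix (Fin 2) (Fin 2) ℂ) 1 1 with hs
  have hpE : p ∈ Eis := hE 0 0
  have hqE : q ∈ Eis := hE 0 1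
  have hrE : r ∈ Eis := hE 1 0
  have hsE : s ∈ Eis := hE 1 1
  obtain ⟨kp, hkp⟩ := normSq_int p hpE
  obtain ⟨kq, hkq⟩ := normSq_int q hqE
  obtain ⟨kr, hkr⟩ := normSq_int r hrE
  obtain ⟨ks, hks⟩ := normSq_int s hsE
  obtain ⟨t1, ht1⟩ := tr_int (p * conj q * β) (Eis.mul_mem (Eis.mul_mem hpE (conj_mem hqE)) β.2)
  obtain ⟨t2, ht2⟩ := tr_int (r * conj s * β) (Eis.mul_mem (Eis.mul_mem hrE (conj_mem hsE)) β.2)
  have hb : sq3 * (p * conj r * a + q * conj s * d) + p * conj s * β - q * conj r * conj (β : ℂ)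
      ∈ Eis := by
    refine Eis.sub_mem (Eis.add_mem (Eis.mul_mem sq3_mem (Eis.add_mem ?_ ?_)) ?_) ?_
    · exact Eis.mul_mem (Eis.mul_mem hpE (conj_mem hrE)) (intCast_mem Eis a)
    · exact Eis.mul_mem (Eis.mul_mem hqE (conj_mem hsE)) (intCast_mem Eis d)
    · exact Eis.mul_mem (Eis.mul_mem hpE (conj_mem hsE)) β.2
    · exact Eis.mul_mem (Eis.mul_mem hqE (conj_mem hrE)) (conj_mem β.2)
  refine ⟨(kp * a + t1 + kq * d, ⟨_, hb⟩, kr * a + t2 + ks * d), ?_⟩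
  have h3 := sq3_ne_zero
  have hc3 := conj_sq3
  ext i j
  fin_cases i <;> fin_cases j <;>
    simp only [hmatL, hmat, Matrix.mul_apply, Fin.sum_univ_two, Matrix.conjTranspose_apply,
      Matrix.of_apply, Matrix.cons_val', Matrix.cons_val_one, Matrix.cons_val_zero,
      Matrix.cons_val_fin_one, Fin.zero_eta, Fin.mk_one, Complex.star_def, ← hp, ← hq, ← hr, ← hs]
  · push_cast
    rw [← hkp, ← hkq, ← ht1]
    simp only [map_div₀, map_mul, Complex.conj_conj, hc3]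
    field_simp
    ring
  · push_cast
    simp only [map_div₀, hc3]
    field_simp
    ring
  · push_cast
    simp only [map_div₀, hc3, map_add, map_sub, map_mul, Complex.conj_conj, Complex.conj_ofReal,
      map_intCast]
    field_simp
    ring
  · push_cast
    rw [← hkr, ← hks, ← ht2]
    simp only [map_div₀, map_mul, Complex.conj_conj, hc3]
    field_simp
    ring

/-- The action of `SL₂(ℤ[ω])` on the index set, `X ↦ g X gᴴ`. -/
def actL {g : GL (Fin 2) ℂ} (hg : g ∈ Gam 1) (x : S47T.Lat) : S47T.Lat :=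
  Classical.choose (exists_act hg x)

theorem hmatL_actL {g : GL (Fin 2) ℂ} (hg : g ∈ Gam 1) (x : S47T.Lat) :
    hmatL (actL hg x) = (g : Matrix (Fin 2) (Fin 2) ℂ) * hmatL x *
      (g : Matrix (Fin 2) (Fin 2) ℂ).conjTranspose :=
  Classical.choose_spec (exists_act hg x)

theorem actL_mul {g h : GL (Fin 2) ℂ} (hg : g ∈ Gam 1) (hh : h ∈ Gam 1) (x : S47T.Lat) :
    actL ((Gam 1).mul_mem hg hh) x = actL hg (actL hh x) := by
  apply hmatL_injective
  rw [hmatL_actL, hmatL_actL, hmatL_actL, Units.val_mul, Matrix.conjTranspose_mul]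
  simp only [Matrix.mul_assoc]

theorem actL_one (x : S47T.Lat) : actL (Gam 1).one_mem x = x := by
  apply hmatL_injective
  rw [hmatL_actL, Units.val_one, Matrix.conjTranspose_one, Matrix.one_mul, Matrix.mul_one]

theorem actL_congr {g h : GL (Fin 2) ℂ} (hgh : g = h) (hg : g ∈ Gam 1) (x : S47T.Lat) :
    actL hg x = actL (hgh ▸ hg : h ∈ Gam 1) x := by
  subst hgh; rfl

/-- the action as a permutation -/
def permL {g : GL (Fin 2) ℂ} (hg : g ∈ Gam 1) : S47T.Lat ≃ S47T.Lat where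
  toFun := actL hg
  invFun := actL ((Gam 1).inv_mem hg)
  left_inv x := by
    rw [← actL_mul ((Gam 1).inv_mem hg) hg, actL_congr (inv_mul_cancel g)]
    exact actL_one x
  right_inv x := by
    rw [← actL_mul hg ((Gam 1).inv_mem hg), actL_congr (mul_inv_cancel g)]
    exact actL_one x

@[simp] theorem permL_apply {g : GL (Fin 2) ℂ} (hg : g ∈ Gam 1) (x : S47T.Lat) :
    permL hg x = actL hg x := rfl

theorem qL_actL {g : GL (Fin 2) ℂ} (hg : g ∈ Gam 1) (x : S47T.Lat) : qL (actL hg x) = qL x := by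
  have h1 := det_hmat (actL hg x).1 (((actL hg x).2.1 : ℂ) / sq3) (actL hg x).2.2
  have h2 := det_hmat x.1 ((x.2.1 : ℂ) / sq3) x.2.2
  have h3 := congrArg Matrix.det (hmatL_actL hg x)
  rw [Matrix.det_mul, Matrix.det_mul, Matrix.det_conjTranspose, hg.1, star_one, mul_one,
    one_mul] at h3
  have h4 : ((-qL (actL hg x) : ℝ) : ℂ) = ((-qL x : ℝ) : ℂ) := by
    rw [qL, qL, ← h1, ← h2]; exact h3
  have h5 : -qL (actL hg x) = -qL x := by exact_mod_cast h4
  linarith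

theorem pL_actL {g : GL (Fin 2) ℂ} (hg : g ∈ Gam 1) (x : S47T.Lat) (w : H3) :
    pL (actL hg x) (g • w) = pL x w := by
  have h1 := trace_hmat (actL hg x).1 (((actL hg x).2.1 : ℂ) / sq3) (actL hg x).2.2 (g • w)
  have h2 := trace_hmat x.1 ((x.2.1 : ℂ) / sq3) x.2.2 w
  have h3 : (hmatL (actL hg x) * (H3.herm (g • w)).adjugate).trace =
      (hmatL x * (H3.herm w).adjugate).trace := by
    rw [hmatL_actL, H3.herm_smul, hg.1, norm_one]
    rw [Complex.ofReal_one, inv_one, one_smul, Matrix.adjugate_mul_distrib,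
      Matrix.adjugate_mul_distrib]
    set G := (g : Matrix (Fin 2) (Fin 2) ℂ) with hG
    have hd : (G.conjTranspose).det = 1 := by rw [Matrix.det_conjTranspose, hg.1, star_one]
    calc (G * hmatL x * G.conjTranspose *
          ((G.conjTranspose).adjugate * ((H3.herm w).adjugate * G.adjugate))).trace
        = (G * (hmatL x * ((G.conjTranspose * (G.conjTranspose).adjugate) *
            ((H3.herm w).adjugate * G.adjugate)))).trace := by
          simp only [Matrix.mul_assoc]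
      _ = (G * (hmatL x * ((H3.herm w).adjugate * G.adjugate))).trace := by
          rw [Matrix.mul_adjugate, hd, one_smul, Matrix.one_mul]
      _ = ((hmatL x * (H3.herm w).adjugate) * (G.adjugate * G)).trace := by
          rw [Matrix.trace_mul_comm]
          simp only [Matrix.mul_assoc]
      _ = _ := by rw [Matrix.adjugate_mul, hg.1, one_smul, Matrix.mul_one]
  have h4 : ((2 * pL (actL hg x) (g • w) : ℝ) : ℂ) = ((2 * pL x w : ℝ) : ℂ) := by
    rw [pL, pL, ← h1, ← h2]; exact h3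
  have h5 : 2 * pL (actL hg x) (g • w) = 2 * pL x w := by exact_mod_cast h4
  linarith

theorem QW_actL {g : GL (Fin 2) ℂ} (hg : g ∈ Gam 1) (x : S47T.Lat) (w : H3) :
    QW (actL hg x) (g • w) = QW x w := by
  rw [QW, QW, qL_actL, pL_actL]

/-- The full theta majorant is invariant under `SL₂(ℤ[ω])`. -/
theorem tsum_QW_smul {E : Type*} [AddCommMonoid E] [TopologicalSpace E] {g : GL (Fin 2) ℂ}
    (hg : g ∈ Gam 1) (f : ℝ → E) (w : H3) :
    ∑' x : S47T.Lat, f (QW x (g • w)) = ∑' x : S47T.Lat, f (QW x w) := by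
  rw [← (permL hg).tsum_eq (fun x : S47T.Lat => f (QW x (g • w)))]
  simp only [permL_apply, QW_actL]

end Fermat.Agent.H8T
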