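import Fermat.Agent.H49T3
import Fermat.Agent.H45TC
import Fermat.Agent.H96TIface
import Fermat.Agent.H8T2

/-!
# `Γ(6 n²)`-law of the theta kernel, final form
-/

set_option autoImplicit false

noncomputable section

open Matrix MatrixGroups ModularGroup UpperHalfPlane CongruenceSubgroup
open scoped ComplexConjugate Real

namespace Fermat.Agent.H49T

open Fermat.Agent.S47T (sq3 om Eis hQ pair qL pL Theta phiN omE sq3E)

theorem ip_e1_e2 (i j : Fin 2) : H45.TK.ip (e1 i) (e2 j) = if i = j then 1 else 0 := by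
  have h := BB_emb ((0, Pi.single i 1, 0) : PI) ((0, Pi.single j 1, 0) : PI)
  rw [BB_apply] at h
  have e : ∀ (f : Fin 2 → ℂ) (i : Fin 2), (embV f ((0, Pi.single i 1, 0) : PI)).2.1 = f i := by
    intro f i
    rw [embV_apply]
    fin_cases i <;> simp
  rw [e, e] at h
  rw [H45.TK.ip]
  have h0 : (embV e1 ((0, Pi.single i 1, 0) : PI)).1 = 0 := by rw [embV_apply]; simp
  have h1 : (embV e2 ((0, Pi.single j 1, 0) : PI)).1 = 0 := by rw [embV_apply]; simp
  rw [h0, h1] at h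
  simp only [zero_mul, sub_zero] at h
  rw [h]
  fin_cases i <;> fin_cases j <;> simp

/-- The basis of `ℤ[ω]` with its dual basis. -/
def BE : H45.TK.Bin where
  e := e1
  f := e2
  dual := ip_e1_e2

theorem ker_eq_fK (τ : ℂ) (w : H3) (X : VV) :
    ker τ w X = H45.TK.fK τ w.z w.y X.1 X.2.1 X.2.2 := by
  have h1 : S47T.ee (τ * (QQ X : ℝ)) =
      Complex.exp (2 * π * Complex.I * τ * (H45.TK.Qv X.1 X.2.1 X.2.2 : ℂ)) := by
    rw [S47T.ee, QQ, hQ, H45.TK.Qv, Complex.normSq_eq_norm_sq]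
    congr 1
    ring
  have h2 : PP X w = H45.TK.tw w.z w.y X.1 X.2.1 X.2.2 := by
    rw [PP, pair, H45.TK.tw, Complex.normSq_eq_norm_sq]
  rw [ker, h1, h2, H45.TK.fK, ← mul_assoc]
  congr 1
  rw [Complex.ofReal_exp]
  congr 1
  push_cast
  ring

theorem ee_eq_e1 (x : ℝ) : ee x = H45.TK.e1 x := rfl

theorem poissonAt (B : H45.TK.Bin) (w : H3) : PoissonAt B.e B.f w (-Complex.I / B.vol) := by
  intro l m τ
  have h := H45.TK.poissonV B (α := 1) (δ := 1) one_pos one_pos l.1 l.2.2 m.1 m.2.2 l.2.1 m.2.1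
    (τ := τ) τ.im_pos w.z w.pos
  have hS : ((S • τ : ℍ) : ℂ) = -1 / (τ : ℂ) := by
    rw [modular_S_smul]
    simp [neg_div, inv_neg]
  have e1' : ∀ p : PI, ker ((S • τ : ℍ) : ℂ) w (l + embV B.e p) * ee (BB (l + embV B.e p) m) =
      H45.TK.fK (-1 / (τ : ℂ)) w.z w.y (l.1 + 1 * p.1) (l.2.1 + H45.TK.emb B.e fun i => p.2.1 i)
        (l.2.2 + 1 * p.2.2) * H45.TK.e1 (H45.TK.ip (l.2.1 + H45.TK.emb B.e fun i => p.2.1 i) m.2.1 -
          (l.1 + 1 * p.1) * m.2.2 - (l.2.2 + 1 * p.2.2) * m.1) := by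
    intro p
    rw [ker_eq_fK, hS, ee_eq_e1]
    have hb : (l + embV B.e p).2.1 = l.2.1 + H45.TK.emb B.e fun i => p.2.1 i := by
      rw [embV_apply, H45.TK.emb]
      simp
    have ha : (l + embV B.e p).1 = l.1 + 1 * p.1 := by
      rw [embV_apply]
      simp
    have hd : (l + embV B.e p).2.2 = l.2.2 + 1 * p.2.2 := by
      rw [embV_apply]
      simp
    rw [BB_apply, ha, hb, hd, H45.TK.ip]
    congr 2
    ring
  have e2' : ∀ p : PI, ker τ w (m + embV B.f p) * ee (-(BB l (embV B.f p))) =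
      H45.TK.fK τ w.z w.y (m.1 + p.1 / 1) (m.2.1 + H45.TK.emb B.f fun i => p.2.1 i)
        (m.2.2 + p.2.2 / 1) * H45.TK.e1 (-(H45.TK.ip l.2.1 (H45.TK.emb B.f fun i => p.2.1 i) -
          l.1 * (p.2.2 / 1) - l.2.2 * (p.1 / 1))) := by
    intro p
    rw [ker_eq_fK, ee_eq_e1]
    have hb : (m + embV B.f p).2.1 = m.2.1 + H45.TK.emb B.f fun i => p.2.1 i := by
      rw [embV_apply, H45.TK.emb]
      simp
    have ha : (m + embV B.f p).1 = m.1 + p.1 / 1 := by
      rw [embV_apply]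
      simp
    have hd : (m + embV B.f p).2.2 = m.2.2 + p.2.2 / 1 := by
      rw [embV_apply]
      simp
    have hb0 : (embV B.f p).2.1 = H45.TK.emb B.f fun i => p.2.1 i := by
      rw [embV_apply, H45.TK.emb]
      simp
    have ha0 : (embV B.f p).1 = (p.1 : ℝ) / 1 := by
      rw [embV_apply]
      simp
    have hd0 : (embV B.f p).2.2 = (p.2.2 : ℝ) / 1 := by
      rw [embV_apply]
      simp
    rw [ha, hb, hd, BB_apply, hb0, ha0, hd0, H45.TK.ip]
    congr 2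
    ring
  rw [tsum_congr e1', tsum_congr e2', h]
  congr 1
  push_cast
  ring

theorem summable_ker (τ : ℍ) (w : H3) (l : VV) :
    Summable fun p : PI => ker τ w (l + embV e1 p) := by
  have h := H45.TK.summable_fK BE (α := 1) (δ := 1) one_pos one_pos l.1 l.2.2 l.2.1 τ.im_pos w.z
    w.pos (ψ := fun _ => 1) (M := 1) (fun _ => by simp)
  refine h.congr fun p => ?_
  rw [mul_one, ker_eq_fK]
  have hb : (l + embV e1 p).2.1 = l.2.1 + H45.TK.emb BE.e fun i => p.2.1 i := by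
    rw [embV_apply, H45.TK.emb]
    simp [BE]
  have ha : (l + embV e1 p).1 = l.1 + 1 * p.1 := by
    rw [embV_apply]
    simp
  have hd : (l + embV e1 p).2.2 = l.2.2 + 1 * p.2.2 := by
    rw [embV_apply]
    simp
  rw [ha, hb, hd]

/-- The Poisson formulas for the two lattices. -/
theorem poisson12 (w : H3) : PoissonAt e1 e2 w (-Complex.I / BE.vol) := poissonAt BE w

theorem poisson21 (w : H3) : PoissonAt e2 e1 w (-Complex.I / BE.dualB.vol) := poissonAt BE.dualB w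

theorem const_mul : (-Complex.I / (BE.vol : ℂ)) * (-Complex.I / (BE.dualB.vol : ℂ)) = -1 := by
  rw [div_mul_div_comm, ← Complex.ofReal_mul, H45.TK.Bin.vol_mul]
  simp

/-- Summability over the index set of the theta kernel. -/
theorem summable_Lat {s : ℕ} (hs : 0 < s) {φ : S47T.Lat → ℂ} {M : ℝ} (hφ : ∀ x, ‖φ x‖ ≤ M)
    (τ : ℍ) (w : H3) : Summable fun x : S47T.Lat => φ x * ker τ w (vec s x) := by
  have hs' : (0 : ℝ) < s := by exact_mod_cast hs
  have hτ : 0 < (τ : ℂ).im := τ.im_pos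
  have hε : 0 < 2 * π * (τ : ℂ).im / s ^ 2 := by positivity
  have h := (H8T.summable_QW 0 hε w).mul_left (M * √(τ : ℂ).im)
  refine Summable.of_norm_bounded h fun x => ?_
  rw [norm_mul]
  have h1 : ‖ker τ w (vec s x)‖ = √(τ : ℂ).im * Real.exp (-(2 * π * (τ : ℂ).im / s ^ 2 * H8T.QW x w)) := by
    have h2 : ‖S47T.ee ((τ : ℂ) * (QQ (vec s x) : ℝ))‖ =
        Real.exp (-(2 * π * (τ : ℂ).im * QQ (vec s x))) := by
      rw [S47T.ee, Complex.norm_exp]
      congr 1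
      simp only [Complex.mul_re, Complex.mul_im, Complex.I_re, Complex.I_im, Complex.ofReal_re,
        Complex.ofReal_im, Complex.re_ofNat, Complex.im_ofNat]
      ring
    rw [ker, norm_mul, norm_mul, h2, Complex.norm_real, Complex.norm_real, Real.norm_eq_abs,
      Real.norm_eq_abs, abs_of_nonneg (Real.sqrt_nonneg _), abs_of_nonneg (Real.exp_pos _).le,
      ← Real.exp_add, QQ_vec, PP_vec, H8T.QW]
    congr 2
    field_simp
    ring
  rw [h1, pow_zero, one_mul]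
  have h3 : 0 ≤ √(τ : ℂ).im * Real.exp (-(2 * π * (τ : ℂ).im / s ^ 2 * H8T.QW x w)) := by positivity
  calc ‖φ x‖ * (√(τ : ℂ).im * Real.exp (-(2 * π * (τ : ℂ).im / s ^ 2 * H8T.QW x w)))
      ≤ M * (√(τ : ℂ).im * Real.exp (-(2 * π * (τ : ℂ).im / s ^ 2 * H8T.QW x w))) :=
        mul_le_mul_of_nonneg_right (hφ x) h3
    _ = _ := by ring

/-- **Congruence property of the theta kernel**, for every bounded periodic test function. -/
theorem Theta_congr {s n : ℕ} (hs : 0 < s) (hn : 0 < n) (hsn : s ∣ n)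
    {φ : S47T.Lat → ℂ} {M : ℝ} (hM : ∀ x, ‖φ x‖ ≤ M) (hφ : ∀ x p, φ (x + per (s * n) p) = φ x)
    {γ : SL(2, ℤ)} (hγ : γ ∈ Gamma (6 * n ^ 2)) (τ : ℍ) (w : H3) :
    Theta s φ ((γ • τ : ℍ) : ℂ) w = ((γ 1 0 : ℤ) * (τ : ℂ) + (γ 1 1 : ℤ)) * Theta s φ τ w :=
  Theta_automorphy (poisson12 w) (poisson21 w) const_mul (fun l τ => summable_ker τ w l) hs hn hsn
    hφ (fun τ => summable_Lat hs hM τ w) hγ τ

/-- `phiN N` is periodic. -/
theorem phiN_per {N : ℕ} (x : S47T.Lat) (p : PI) : phiN N (x + per (1 * N) p) = phiN N x := by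
  have h1 : (N : ℤ) ∣ (x + per (1 * N) p).2.2 ↔ (N : ℤ) ∣ x.2.2 := by
    rw [per_apply, one_mul]
    simp only [Prod.snd_add]
    exact dvd_add_left (Dvd.intro _ rfl)
  have h2 : IsCoprime (x + per (1 * N) p).2.1 (N : Eis) ↔ IsCoprime x.2.1 (N : Eis) := by
    rw [per_apply, one_mul]
    simp only [Prod.snd_add, Prod.fst_add]
    exact IsCoprime.add_mul_left_left_iff
  rw [phiN, phiN]
  by_cases h : (N : ℤ) ∣ x.2.2 ∧ IsCoprime x.2.1 (N : Eis)
  · rw [if_pos h, if_pos ⟨h1.mpr h.1, h2.mpr h.2⟩]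
  · rw [if_neg h, if_neg (fun h' => h ⟨h1.mp h'.1, h2.mp h'.2⟩)]

theorem norm_phiN_le (N : ℕ) (x : S47T.Lat) : ‖phiN N x‖ ≤ 1 := by
  rw [phiN]
  split_ifs <;> simp

/-- The `Γ(6 N²)`-law for the test function of block (T). -/
theorem Theta_phiN_congr {N : ℕ} (hN : 0 < N) {γ : SL(2, ℤ)} (hγ : γ ∈ Gamma (6 * N ^ 2)) (τ : ℍ)
    (w : H3) : Theta 1 (phiN N) ((γ • τ : ℍ) : ℂ) w =
      ((γ 1 0 : ℤ) * (τ : ℂ) + (γ 1 1 : ℤ)) * Theta 1 (phiN N) τ w :=
  Theta_congr one_pos hN (one_dvd _) (norm_phiN_le N) phiN_per hγ τ w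

end Fermat.Agent.H49T
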