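import Fermat.Agent.H96TC
import Fermat.Agent.H49T4
import Fermat.Agent.H93THol2
import Fermat.Agent.H47RGamP

/-!
# Final assembly of block (T) of S47 (helper96)
-/

set_option autoImplicit false

noncomputable section

open MeasureTheory CongruenceSubgroup
open scoped ComplexConjugate Real UpperHalfPlane MatrixGroups ModularForm

namespace Fermat.Agent.S47T

/-- The congruence law of the theta kernel, level `K`. -/
def T1bK (N K : ℕ) : Prop :=
  ∀ γ ∈ Gamma K, ∀ (τ : ℍ) (w : H3),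
    Theta 1 (phiN N) ((γ • τ : ℍ) : ℂ) w =
      ((γ 1 0 : ℤ) * (τ : ℂ) + (γ 1 1 : ℤ)) * Theta 1 (phiN N) (τ : ℂ) w

/-- The packaging statement of helper93 (`exists_cuspForm`). -/
def CuspPack : Prop :=
  ∀ (M : ℕ) [NeZero M] (f : ℂ → ℂ), DifferentiableOn ℂ f {τ | 0 < τ.im} →
    (∃ K : ℝ, ∀ τ : ℂ, 0 < τ.im → ‖f τ‖ ≤ K / √τ.im) →
    (∀ γ ∈ Gamma1 M, ∀ τ : ℍ, f ((γ • τ : ℍ) : ℂ) =
      ((γ 1 0 : ℤ) * (τ : ℂ) + (γ 1 1 : ℤ)) * f τ) →
    ∃ F : CuspForm (Gamma1 M) 1, ∀ τ : ℍ, F τ = f τ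

theorem qL_three (x : Lat) : ∃ n : ℤ, ((3 * qL x : ℝ) : ℂ) = n := by
  obtain ⟨n, hn⟩ := exists_norm x.2.1
  refine ⟨n - 3 * x.1 * x.2.2, ?_⟩
  have h1 : ((Complex.normSq ((x.2.1 : ℂ) / sq3) : ℝ) : ℂ) = n / 3 := by
    rw [← Complex.mul_conj, map_div₀, conj_sq3]
    have h3 := sq3_ne_zero
    have : (x.2.1 : ℂ) / sq3 * (conj (x.2.1 : ℂ) / -sq3) =
        ((x.2.1 : ℂ) * conj (x.2.1 : ℂ)) / (-(sq3 * sq3)) := by
      field_simp
    rw [this, hn, sq3_mul_sq3, neg_neg]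
  rw [qL, hQ]
  push_cast
  rw [h1]
  ring

theorem ee_add (x y : ℂ) : ee (x + y) = ee x * ee y := by
  rw [ee, ee, ee, ← Complex.exp_add]
  ring_nf

theorem ee_int (n : ℤ) : ee n = 1 := by
  rw [ee, show 2 * (π : ℂ) * Complex.I * n = n * (2 * π * Complex.I) by ring]
  exact Complex.exp_int_mul_two_pi_mul_I n

theorem Theta_add_three (φ : Lat → ℂ) (τ : ℂ) (w : H3) :
    Theta 1 φ (τ + 3) w = Theta 1 φ τ w := by
  have him : (τ + 3).im = τ.im := by simp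
  rw [Theta, Theta, him]
  congr 1
  refine tsum_congr fun x => ?_
  obtain ⟨n, hn⟩ := qL_three x
  have : (τ + 3) * ((qL x / (1 : ℕ) ^ 2 : ℝ) : ℂ) =
      τ * ((qL x / (1 : ℕ) ^ 2 : ℝ) : ℂ) + n := by
    rw [← hn]
    push_cast
    ring
  rw [this, ee_add, ee_int, mul_one]

theorem sum_range_perm {p k : ℕ} (hp : 0 < p) (hk : Nat.Coprime k p) (P : ℕ → ℂ)
    (hP : ∀ i, P (i + p) = P i) :
    ∑ j ∈ Finset.range p, P (k * j) = ∑ j ∈ Finset.range p, P j := by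
  have hmod : ∀ i, P (i % p) = P i := by
    intro i
    have key : ∀ q r : ℕ, P (r + q * p) = P r := by
      intro q
      induction q with
      | zero => intro r; simp
      | succ q ih =>
        intro r
        rw [Nat.succ_mul, ← Nat.add_assoc, hP, ih]
    conv_rhs => rw [← Nat.mod_add_div i p, Nat.mul_comm p (i / p)]
    rw [key]
  have hmaps : Set.MapsTo (fun j => k * j % p) (Finset.range p : Set ℕ)
      (Finset.range p : Set ℕ) := fun j _ => by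
    simpa using Nat.mod_lt _ hp
  have hinj : Set.InjOn (fun j => k * j % p) (Finset.range p : Set ℕ) := by
    intro i hi j hj hij
    simp only [Finset.coe_range, Set.mem_Iio] at hi hj
    have h1 : k * i ≡ k * j [MOD p] := hij
    have h2 := Nat.ModEq.cancel_left_of_coprime (by rw [Nat.gcd_comm]; exact hk) h1
    exact Nat.ModEq.eq_of_lt_of_lt h2 hi hj
  refine Finset.sum_nbij (fun j => k * j % p) hmaps hinj ?_ ?_
  · exact Finset.surjOn_of_injOn_of_card_le _ hmaps hinj le_rfl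
  · intro j _
    exact (hmod (k * j)).symm

section

variable {N : ℕ} {c : Eis → ℝ} {F : H3 → ℂ} {χ : H3 → ℝ}

theorem lift_law {K : ℕ} (h : T1bK N K) {γ : SL(2, ℤ)} (hγ : γ ∈ Gamma K) (τ : ℍ) :
    lift χ F 1 (phiN N) ((γ • τ : ℍ) : ℂ) =
      ((γ 1 0 : ℤ) * (τ : ℂ) + (γ 1 1 : ℤ)) * lift χ F 1 (phiN N) (τ : ℂ) := by
  rw [lift, lift, qint, qint, ← integral_const_mul]
  congr 1
  funext w
  rw [h γ hγ τ w]
  ring

theorem lift_add_three (τ : ℂ) :
    lift χ F 1 (phiN N) (τ + 3) = lift χ F 1 (phiN N) τ := by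
  simp only [lift, Theta_add_three]

/-- The matrix `(a, K b; c / K, d)`. -/
theorem exists_conj {K : ℕ} {γ : SL(2, ℤ)} (hγ : γ ∈ Gamma1 (K ^ 2)) :
    ∃ γ' ∈ Gamma K, (γ' 0 0 : ℤ) = γ 0 0 ∧ (γ' 0 1 : ℤ) = K * γ 0 1 ∧
      (K : ℤ) * γ' 1 0 = γ 1 0 ∧ (γ' 1 1 : ℤ) = γ 1 1 := by
  rw [Gamma1_mem] at hγ
  obtain ⟨h1, h2, h3⟩ := hγ
  have hc : ((K ^ 2 : ℕ) : ℤ) ∣ γ 1 0 := (ZMod.intCast_zmod_eq_zero_iff_dvd _ _).mp h3
  have ha : ((K ^ 2 : ℕ) : ℤ) ∣ γ 0 0 - 1 := by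
    rw [← ZMod.intCast_zmod_eq_zero_iff_dvd]
    push_cast
    rw [h1, sub_self]
  have hd : ((K ^ 2 : ℕ) : ℤ) ∣ γ 1 1 - 1 := by
    rw [← ZMod.intCast_zmod_eq_zero_iff_dvd]
    push_cast
    rw [h2, sub_self]
  obtain ⟨e, he⟩ := hc
  have hdet := γ.det_coe
  rw [Matrix.det_fin_two] at hdet
  have hK2 : ((K ^ 2 : ℕ) : ℤ) = (K : ℤ) * K := by push_cast; ring
  refine ⟨⟨!![γ 0 0, K * γ 0 1; K * e, γ 1 1], ?_⟩, ?_, rfl, rfl, ?_, rfl⟩
  · rw [Matrix.det_fin_two_of]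
    rw [he, hK2] at hdet
    linear_combination hdet
  · have hKd : (K : ℤ) ∣ ((K ^ 2 : ℕ) : ℤ) := ⟨K, hK2⟩
    refine Gamma_mem.mpr ⟨?_, ?_, ?_, ?_⟩
    · show ((γ 0 0 : ℤ) : ZMod K) = 1
      have := (ZMod.intCast_zmod_eq_zero_iff_dvd _ K).mpr (hKd.trans ha)
      push_cast at this
      exact sub_eq_zero.mp this
    · show ((K * γ 0 1 : ℤ) : ZMod K) = 0
      push_cast
      simp
    · show ((K * e : ℤ) : ZMod K) = 0
      push_cast
      simp
    · show ((γ 1 1 : ℤ) : ZMod K) = 1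
      have := (ZMod.intCast_zmod_eq_zero_iff_dvd _ K).mpr (hKd.trans hd)
      push_cast at this
      exact sub_eq_zero.mp this
  · show (K : ℤ) * (K * e) = γ 1 0
    rw [he, hK2]
    ring

theorem coe_smul_SL (γ : SL(2, ℤ)) (τ : ℍ) :
    ((γ • τ : ℍ) : ℂ) = ((γ 0 0 : ℤ) * (τ : ℂ) + (γ 0 1 : ℤ)) /
      ((γ 1 0 : ℤ) * (τ : ℂ) + (γ 1 1 : ℤ)) := by
  rw [UpperHalfPlane.specialLinearGroup_apply]
  simp

/-- **Final assembly of block (T).** -/
theorem tOut_of {K : ℕ} (hK : 0 < K) (h3K : 3 ∣ K)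
    (hKN : ∀ p : ℕ, p.Prime → p ∣ 3 * N → p ∣ K)
    (hcusp : CuspPack) (h1 : T1bK N K) (h2 : THol N F) (h4 : T4 N c F) (h5 : T56 N F)
    (h6 : CutEx N) : TOut c := by
  obtain ⟨χ, hχ⟩ := h6
  obtain ⟨hdiff, C, hC⟩ := h2 χ hχ
  obtain ⟨τ₀, hτ₀, hne⟩ := h5 χ hχ
  have hKC : (K : ℂ) ≠ 0 := by exact_mod_cast hK.ne'
  have hKR : (0 : ℝ) < K := by exact_mod_cast hK
  have him : ∀ τ : ℂ, ((K : ℂ) * τ).im = K * τ.im := by
    intro τ
    simp
  set L : ℂ → ℂ := lift χ F 1 (phiN N) with hL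
  set f : ℂ → ℂ := fun τ => L (K * τ) with hf
  have hM : NeZero (K ^ 2) := ⟨(pow_pos hK 2).ne'⟩
  obtain ⟨g, hg⟩ : ∃ g : CuspForm (Gamma1 (K ^ 2)) 1, ∀ τ : ℍ, g τ = f τ := by
    refine hcusp (K ^ 2) f ?_ ⟨C, ?_⟩ ?_
    · intro τ hτ
      have h := hdiff (K * τ) (by show 0 < ((K : ℂ) * τ).im; rw [him]; exact mul_pos hKR hτ)
      refine h.comp τ (((differentiable_const _).mul differentiable_id).differentiableAt).differentiableWithinAt ?_
      intro t ht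
      show 0 < ((K : ℂ) * t).im
      rw [him]
      exact mul_pos hKR ht
    · intro τ hτ
      have hpos : 0 < ((K : ℂ) * τ).im := by rw [him]; exact mul_pos hKR hτ
      have h := hC (K * τ) hpos
      have hC0 : 0 ≤ C := by
        by_contra hlt
        have h' : C / √((K : ℂ) * τ).im < 0 :=
          div_neg_of_neg_of_pos (not_le.mp hlt) (Real.sqrt_pos.mpr hpos)
        exact absurd (h.trans_lt h') (not_lt.mpr (norm_nonneg _))
      refine h.trans ?_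
      apply div_le_div_of_nonneg_left hC0 (Real.sqrt_pos.mpr hτ)
      apply Real.sqrt_le_sqrt
      rw [him]
      have : (1 : ℝ) ≤ K := by exact_mod_cast hK
      nlinarith
    · intro γ hγ τ
      obtain ⟨γ', hγ', e1, e2, e3, e4⟩ := exists_conj hγ
      have hpos : 0 < ((K : ℂ) * τ).im := by rw [him]; exact mul_pos hKR τ.im_pos
      let τ' : ℍ := ⟨(K : ℂ) * τ, hpos⟩
      have hτ' : (τ' : ℂ) = K * τ := rfl
      have e3' : (K : ℂ) * ((γ' 1 0 : ℤ) : ℂ) = ((γ 1 0 : ℤ) : ℂ) := by exact_mod_cast e3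
      have h := lift_law (F := F) (χ := χ) h1 hγ' τ'
      have hco : ((γ' 1 0 : ℤ) : ℂ) * (τ' : ℂ) + ((γ' 1 1 : ℤ) : ℂ) =
          ((γ 1 0 : ℤ) : ℂ) * (τ : ℂ) + ((γ 1 1 : ℤ) : ℂ) := by
        rw [hτ', e4, ← e3']
        ring
      have hpt : ((γ' • τ' : ℍ) : ℂ) = K * ((γ • τ : ℍ) : ℂ) := by
        rw [coe_smul_SL, coe_smul_SL, hco, hτ', e1, e2]
        push_cast
        ring
      rw [hco, hpt] at h
      exact h
  refine ⟨K ^ 2, pow_pos hK 2, K ^ 2, hM, g, ?_, ?_⟩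
  · intro hg0
    have hpos : 0 < (τ₀ / K).im := by
      rw [Complex.div_natCast_im]
      exact div_pos hτ₀ hKR
    have h := hg ⟨τ₀ / K, hpos⟩
    rw [hg0] at h
    apply hne
    have h' : (0 : ℂ) = L (K * (τ₀ / K)) := h
    rw [mul_div_cancel₀ _ hKC] at h'
    exact h'.symm
  · intro p hp hpM hp1 ϖ hϖ
    have hpK : ¬ p ∣ K := fun h => hpM (h.trans ⟨K, by ring⟩)
    have hp3N : ¬ p ∣ 3 * N := fun h => hpK (hKN p hp h)
    have hpC : (p : ℂ) ≠ 0 := by exact_mod_cast hp.ne_zero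
    have hdia : H58.dia (K ^ 2) 1 (p : ℤ) = 1 := by
      rw [← H58.dia_one (N := K ^ 2) (k := 1)]
      apply H58.dia_congr
      · rw [Int.isCoprime_iff_gcd_eq_one]
        exact_mod_cast (Nat.Prime.coprime_iff_not_dvd hp).mpr hpM
      · exact isCoprime_one_left
      · have := (ZMod.natCast_eq_natCast_iff _ _ _).mpr hp1
        push_cast at this
        push_cast
        exact this
    have hp0 : 0 < p := hp.pos
    obtain ⟨k, rfl⟩ := h3K
    have hk : Nat.Coprime k p := by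
      rw [Nat.coprime_comm, Nat.Prime.coprime_iff_not_dvd hp]
      exact fun h => hpK (h.mul_left 3)
    apply DFunLike.coe_injective
    rw [H58.coe_T1L, hdia]
    funext τ
    rw [Pi.add_apply, ModularForm.heckeU_apply 1 hp.ne_zero,
      ModularForm.slash_heckeDiagMatrix_apply 1 hp.ne_zero, Module.End.one_apply]
    have hgf : ∀ σ : ℍ, g σ = L (((3 * k : ℕ) : ℂ) * σ) := hg
    have e1 : ∀ j : ℕ, g (ModularForm.heckeMatrix p j • τ) =
        L ((((3 * k : ℕ) : ℂ) * τ + 3 * ((k * j : ℕ) : ℂ)) / p) := by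
      intro j
      rw [hgf, ModularForm.coe_heckeMatrix_smul hp.ne_zero]
      congr 1
      push_cast
      field_simp
    have e2 : g (ModularForm.heckeDiagMatrix p • τ) =
        L (3 * (p * (((3 * k : ℕ) : ℂ) * τ / 3))) := by
      rw [hgf, ModularForm.coe_heckeDiagMatrix_smul hp.ne_zero]
      congr 1
      ring
    set P : ℕ → ℂ := fun i => L ((((3 * k : ℕ) : ℂ) * τ + 3 * (i : ℂ)) / p) with hPdef
    have hper : ∀ i, P (i + p) = P i := by
      intro i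
      show lift χ F 1 (phiN N) _ = lift χ F 1 (phiN N) _
      rw [← lift_add_three ((((3 * k : ℕ) : ℂ) * τ + 3 * (i : ℂ)) / p)]
      congr 1
      push_cast
      field_simp
      ring
    have hsum : ∑ j ∈ Finset.range p, P (k * j) = ∑ j ∈ Finset.range p, P j :=
      sum_range_perm hp0 hk P hper
    have hposU : 0 < (((3 * k : ℕ) : ℂ) * τ / 3).im := by
      rw [show ((3 * k : ℕ) : ℂ) * (τ : ℂ) / 3 = (k : ℂ) * τ by push_cast; ring]
      have h1 : ((k : ℂ) * τ).im = k * τ.im := by simp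
      rw [h1]
      have hk0 : 0 < k := by omega
      have : (0 : ℝ) < k := by exact_mod_cast hk0
      exact mul_pos this τ.im_pos
    have hT := h4 χ hχ p hp hp3N ϖ hϖ (((3 * k : ℕ) : ℂ) * τ / 3) hposU
    have e3 : ∀ j : ℕ, lift χ F 1 (phiN N) (3 * ((((3 * k : ℕ) : ℂ) * τ / 3 + j) / p)) =
        P j := by
      intro j
      show lift χ F 1 (phiN N) _ = lift χ F 1 (phiN N) _
      congr 1
      field_simp
    simp only [e3] at hT
    rw [← hL] at hT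
    have e4 : L (3 * (((3 * k : ℕ) : ℂ) * τ / 3)) = g τ := by
      rw [hgf]
      congr 1
      ring
    rw [e4] at hT
    have e5 : ∑ j ∈ Finset.range p, g (ModularForm.heckeMatrix p j • τ) =
        ∑ j ∈ Finset.range p, P j := by
      rw [← hsum]
      exact Finset.sum_congr rfl fun j _ => e1 j
    rw [e5, e2]
    show (p : ℂ)⁻¹ * ∑ j ∈ Finset.range p, P j + (p : ℂ) ^ ((1 : ℤ) - 1) * _ = (c ϖ : ℂ) * g τ
    rw [sub_self, zpow_zero, one_mul, ← hT]
    ring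

/-- helper93's packaging theorem. -/
theorem cuspPack : CuspPack := fun M _ f hf hb hinv => H93.THol.exists_cuspForm M f hf hb hinv

/-- helper49's congruence law. -/
theorem t1bK (hN : 0 < N) : T1bK N (6 * N ^ 2) := fun _ hγ τ w =>
  H49T.Theta_phiN_congr hN hγ τ w

/-- **Block (T)** from (THol), (T4), (T56). -/
theorem tOut_of_pieces (hN : 0 < N) (h2 : THol N F) (h4 : T4 N c F) (h5 : T56 N F) : TOut c :=
  tOut_of (K := 6 * N ^ 2) (by positivity) ⟨2 * N ^ 2, by ring⟩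
    (fun p hp h => by
      rcases (Nat.Prime.dvd_mul hp).mp h with h | h
      · exact (h.trans ⟨2, by norm_num⟩ : p ∣ 6).mul_right _
      · exact (h.trans (dvd_pow_self N two_ne_zero)).mul_left _)
    cuspPack (t1bK hN) h2 h4 h5 (H47.Red.cutEx hN.ne')

end

end Fermat.Agent.S47T
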