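import Fermat.Agent.H15S47Fin
import Fermat.Agent.H96TOut
import Fermat.Agent.H49TOut
import Fermat.Agent.H47RGamP

/-!
# S47 (helper15): block (T) from its three analytic pieces; S47 from the left half and these pieces
-/

set_option autoImplicit false

open AutomorphicForm FLT.ExplicitLift EisensteinWeightOne WeierstrassCurve LanglandsTunnell
open scoped MatrixGroups
open Fermat.Agent.S47T CongruenceSubgroup

noncomputable section

namespace Fermat.Agent.H15S47

local notation "Γℚ" => (AlgebraicClosure ℚ ≃ₐ[ℚ] AlgebraicClosure ℚ)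

/-- (T-HOL), closed form (owner helper93). -/
def PieceHol : Prop :=
  ∀ (N : ℕ) (c : Eis → ℝ) (F : H3 → ℂ), 3 ∣ N → ICT N c F → THol N F

/-- (T4), closed form (owner helper29). -/
def PieceT4 : Prop :=
  ∀ (N : ℕ) (c : Eis → ℝ) (F : H3 → ℂ), 3 ∣ N → ICT N c F → T4 N c F

/-- (T5), (T6), closed form (owner helper90). -/
def PieceT56 : Prop :=
  ∀ (N : ℕ) (c : Eis → ℝ) (F : H3 → ℂ), 3 ∣ N → ICT N c F → DUnb c → T56 N F

/-- **Block (T) from its three pieces.** -/
theorem blockT_of (hHol : PieceHol) (h4 : PieceT4) (h56 : PieceT56) : BlockT := by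
  intro N c F h3 hI hD
  exact Fermat.Agent.H49T.tOut_of hI (hHol N c F h3 hI) (h4 N c F h3 hI) (h56 N c F h3 hI hD)
    (Fermat.Agent.H47.Red.cutEx hI.pos.ne')

end Fermat.Agent.H15S47
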