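import Fermat.Agent.H22ZFEc

/-!
# Fourier expansion of bounded eigenfunctions on products of hyperbolic 3-spaces

Main results: `coefA_eq` (shape of the Fourier coefficients), `norm_wcoef_le` (bound),
`hasSum_expansion` (the Fourier expansion), `eq_zero_of_wcoef`, `norm_le_exp` (decay).
-/

set_option autoImplicit false
set_option linter.unusedSectionVars false

open MeasureTheory Set Filter Topology Module Function

noncomputable section

namespace Fermat.Agent.H22Z

open H5Z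

/-- `x K₀(x) ≤ C e^{-x/2}` for all `x > 0`. -/
theorem exists_mul_K0_le : ∃ C : ℝ, 0 < C ∧ ∀ x > 0, x * K0 x ≤ C * Real.exp (-x / 2) := by
  obtain ⟨C, hC0, hC⟩ := KJ_le 0 (a := 1) one_pos
  rw [KJ_zero] at hC
  refine ⟨3 * Real.exp (1 / 2) + 2 * C, by positivity, fun x hx => ?_⟩
  have hepos := Real.exp_pos (-x / 2)
  rcases le_total x 1 with h1 | h1
  · -- `x K₀ x ≤ x |log x| + 2 x ≤ 1 + 2`
    have h2 := K0_le_log hx
    have h3 : x * |Real.log x| ≤ 1 := by
      rw [abs_of_nonpos (Real.log_nonpos hx.le h1)]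
      have h4 := Real.add_one_le_exp (-Real.log x)
      rw [Real.exp_neg, Real.exp_log hx] at h4
      have h5 : x * (-Real.log x + 1) ≤ x * x⁻¹ := mul_le_mul_of_nonneg_left h4 hx.le
      rw [mul_inv_cancel₀ hx.ne'] at h5
      linarith
    have h6 : x * K0 x ≤ 3 := by
      have := mul_le_mul_of_nonneg_left h2 hx.le
      nlinarith
    have h7 : 1 ≤ Real.exp (1 / 2) * Real.exp (-x / 2) := by
      rw [← Real.exp_add]
      apply Real.one_le_exp
      linarith
    have h8 : 0 ≤ 2 * C * Real.exp (-x / 2) := by positivity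
    nlinarith
  · have h2 := hC x h1
    have h3 : x ≤ 2 * Real.exp (x / 2) := by
      have := Real.add_one_le_exp (x / 2)
      linarith
    have h4 : x * K0 x ≤ 2 * Real.exp (x / 2) * (C * Real.exp (-x)) :=
      mul_le_mul h3 h2 (K0_pos hx).le (by positivity)
    have h5 : Real.exp (x / 2) * Real.exp (-x) = Real.exp (-x / 2) := by
      rw [← Real.exp_add]
      congr 1
      ring
    have h6 : 2 * Real.exp (x / 2) * (C * Real.exp (-x)) = 2 * C * Real.exp (-x / 2) := by
      rw [← h5]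
      ring
    have h7 : 0 ≤ 3 * Real.exp (1 / 2) * Real.exp (-x / 2) := by positivity
    nlinarith

variable {ι : Type*} [Fintype ι] [DecidableEq ι] {κ : Type*} [Fintype κ]

/-- Bounded, smooth, periodic eigenfunction in all variables (eigenvalue `-1`). -/
structure IsEig (b : Basis κ ℝ (ι → ℂ)) (f : (ι → ℂ × ℝ) → ℂ) (M : ℝ) : Prop where
  contDiffOn : ContDiffOn ℝ 2 f (Dom ι)
  per : ∀ y : ι → ℝ, (∀ j, 0 < y j) → Per b fun z => f (pz z y)
  lap : ∀ j, ∀ p ∈ Dom ι, lapc j f p = -f p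
  bound : ∀ p ∈ Dom ι, ‖f p‖ ≤ M

/-- The normalised Fourier coefficient. -/
def wcoef (b : Basis κ ℝ (ι → ℂ)) (f : (ι → ℂ × ℝ) → ℂ) (ν : ι → ℂ) : ℂ :=
  coefA b ν f 1 / ((∏ j, K0 (4 * Real.pi * ‖ν j‖) : ℝ) : ℂ)

/-- The product of the Bessel functions. -/
def bes (ν : ι → ℂ) (y : ι → ℝ) : ℝ := ∏ j, (y j * K0 (4 * Real.pi * ‖ν j‖ * y j))

theorem bes_pos {ν : ι → ℂ} (hν : ∀ j, ν j ≠ 0) {y : ι → ℝ} (hy : ∀ j, 0 < y j) :
    0 < bes ν y := by
  refine Finset.prod_pos fun j _ => mul_pos (hy j) (K0_pos ?_)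
  have := norm_pos_iff.mpr (hν j)
  have := Real.pi_pos
  have := hy j
  positivity

variable {b : Basis κ ℝ (ι → ℂ)} {f : (ι → ℂ × ℝ) → ℂ} {M : ℝ}

theorem coefA_eq_zero (hf : IsEig b f M) {ν : ι → ℂ} (hν : IsDual b ν) (h0 : ∃ j, ν j = 0)
    {y : ι → ℝ} (hy : ∀ j, 0 < y j) : coefA b ν f y = 0 := by
  obtain ⟨j, hj⟩ := h0
  unfold coefA
  rw [int_eq_zero b hf.contDiffOn hf.per j (hf.lap j) hf.bound hy hν hj, mul_zero]

theorem wcoef_eq_zero (hf : IsEig b f M) {ν : ι → ℂ} (hν : IsDual b ν) (h0 : ∃ j, ν j = 0) :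
    wcoef b f ν = 0 := by
  unfold wcoef
  rw [coefA_eq_zero hf hν h0 (y := 1) (fun _ => one_pos), zero_div]

/-- **Shape of the Fourier coefficients.** -/
theorem coefA_eq (hf : IsEig b f M) {ν : ι → ℂ} (hν : IsDual b ν) {y : ι → ℝ}
    (hy : ∀ j, 0 < y j) : coefA b ν f y = wcoef b f ν * (bes ν y : ℝ) := by
  by_cases h0 : ∃ j, ν j = 0
  · rw [coefA_eq_zero hf hν h0 hy, wcoef_eq_zero hf hν h0, zero_mul]
  · push Not at h0
    have hpos : ∀ j, 0 < 4 * Real.pi * ‖ν j‖ := fun j => by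
      have := norm_pos_iff.mpr (h0 j)
      have := Real.pi_pos
      positivity
    have h1 := eq_mul_prod (A := coefA b ν f)
      (φ := fun j t => t * K0 (4 * Real.pi * ‖ν j‖ * t))
      (fun j t ht => mul_pos ht (K0_pos (mul_pos (hpos j) ht))) (fun j y hy => by
        obtain ⟨D, hD⟩ := int_eq_K0 b hf.contDiffOn hf.per j (hf.lap j) hf.bound hy hν (h0 j)
        refine ⟨((volume : Measure (ι → ℂ)).real (ZSpan.fundamentalDomain b) : ℂ)⁻¹ * D,
          fun t ht => ?_⟩
        unfold coefA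
        rw [hD t ht]
        push_cast
        ring) y hy
    rw [h1]
    unfold wcoef bes
    simp only [mul_one, one_mul]

theorem norm_coefA_le (hM : ∀ p ∈ Dom ι, ‖f p‖ ≤ M) (ν : ι → ℂ) {y : ι → ℝ}
    (hy : ∀ j, 0 < y j) : ‖coefA b ν f y‖ ≤ M := by
  have hpos := measureReal_fundamentalDomain_pos (volume : Measure (ι → ℂ)) b
  unfold coefA
  rw [norm_mul, norm_inv, Complex.norm_real, Real.norm_of_nonneg hpos.le, inv_mul_le_iff₀ hpos]
  have := norm_int_le b ν hM hy
  linarith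

theorem bound_nonneg (hM : ∀ p ∈ Dom ι, ‖f p‖ ≤ M) : 0 ≤ M :=
  (norm_nonneg _).trans (hM (pz 0 1) (pz_mem fun _ => one_pos))

/-- **Bound for the Fourier coefficients.** -/
theorem norm_wcoef_le (hf : IsEig b f M) {ν : ι → ℂ} (hν : IsDual b ν) :
    ‖wcoef b f ν‖ ≤ M * ∏ j, (‖ν j‖ / K0 (4 * Real.pi)) := by
  have hM := bound_nonneg hf.bound
  have hK : 0 < K0 (4 * Real.pi) := K0_pos (by positivity)
  by_cases h0 : ∃ j, ν j = 0
  · rw [wcoef_eq_zero hf hν h0, norm_zero]
    exact mul_nonneg hM (Finset.prod_nonneg fun j _ => by positivity)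
  · push Not at h0
    have hpos : ∀ j, 0 < ‖ν j‖ := fun j => norm_pos_iff.mpr (h0 j)
    have hy : ∀ j, 0 < ‖ν j‖⁻¹ := fun j => inv_pos.mpr (hpos j)
    have h1 := norm_coefA_le (b := b) hf.bound ν hy
    rw [coefA_eq hf hν hy, norm_mul, Complex.norm_real,
      Real.norm_of_nonneg (bes_pos h0 hy).le] at h1
    have h2 : bes ν (fun j => ‖ν j‖⁻¹) = ∏ j, (K0 (4 * Real.pi) / ‖ν j‖) := by
      unfold bes
      refine Finset.prod_congr rfl fun j _ => ?_
      rw [mul_assoc (4 * Real.pi), mul_inv_cancel₀ (hpos j).ne', mul_one, mul_comm, div_eq_mul_inv]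
    rw [h2] at h1
    have h3 : (∏ j, (K0 (4 * Real.pi) / ‖ν j‖)) * ∏ j, (‖ν j‖ / K0 (4 * Real.pi)) = 1 := by
      rw [← Finset.prod_mul_distrib]
      refine Finset.prod_eq_one fun j _ => ?_
      have := (hpos j).ne'
      field_simp
    have h4 : 0 ≤ ∏ j, (‖ν j‖ / K0 (4 * Real.pi)) :=
      Finset.prod_nonneg fun j _ => div_nonneg (norm_nonneg _) hK.le
    calc ‖wcoef b f ν‖ = ‖wcoef b f ν‖ * (∏ j, (K0 (4 * Real.pi) / ‖ν j‖)) *
          ∏ j, (‖ν j‖ / K0 (4 * Real.pi)) := by rw [mul_assoc, h3, mul_one]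
      _ ≤ _ := mul_le_mul_of_nonneg_right h1 h4

/-- constant in `x K₀(x) ≤ C e^{-x/2}` -/
def cK : ℝ := exists_mul_K0_le.choose

theorem cK_pos : 0 < cK := exists_mul_K0_le.choose_spec.1

theorem mul_K0_le {x : ℝ} (hx : 0 < x) : x * K0 x ≤ cK * Real.exp (-x / 2) :=
  exists_mul_K0_le.choose_spec.2 x hx

/-- constant in `norm_term_le` -/
def cT (ι : Type*) [Fintype ι] : ℝ := ∏ _j : ι, (cK / (4 * Real.pi * K0 (4 * Real.pi)))

theorem cT_pos : 0 < cT ι := by
  refine Finset.prod_pos fun _ _ => ?_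
  have := cK_pos
  have := K0_pos (x := 4 * Real.pi) (by positivity)
  positivity

/-- **Uniform bound for the terms of the Fourier expansion.** -/
theorem norm_term_le (hf : IsEig b f M) {ν : ι → ℂ} (hν : IsDual b ν) {y : ι → ℝ}
    (hy : ∀ j, 0 < y j) : ‖wcoef b f ν * (bes ν y : ℝ)‖ ≤
      M * (cT ι * Real.exp (-(2 * Real.pi) * ∑ j, ‖ν j‖ * y j)) := by
  have hM := bound_nonneg hf.bound
  have hK : 0 < K0 (4 * Real.pi) := K0_pos (by positivity)
  by_cases h0 : ∃ j, ν j = 0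
  · rw [wcoef_eq_zero hf hν h0, zero_mul, norm_zero]
    have := cT_pos (ι := ι)
    positivity
  · push Not at h0
    have hpos : ∀ j, 0 < ‖ν j‖ := fun j => norm_pos_iff.mpr (h0 j)
    have hb := bes_pos h0 hy
    rw [norm_mul, Complex.norm_real, Real.norm_of_nonneg hb.le]
    have h1 := norm_wcoef_le hf hν
    calc ‖wcoef b f ν‖ * bes ν y ≤ (M * ∏ j, (‖ν j‖ / K0 (4 * Real.pi))) * bes ν y :=
          mul_le_mul_of_nonneg_right h1 hb.le
      _ = M * ∏ j, ((‖ν j‖ / K0 (4 * Real.pi)) * (y j * K0 (4 * Real.pi * ‖ν j‖ * y j))) := by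
          rw [Finset.prod_mul_distrib]
          unfold bes
          ring
      _ ≤ M * ∏ j, ((cK / (4 * Real.pi * K0 (4 * Real.pi))) *
            Real.exp (-(2 * Real.pi) * (‖ν j‖ * y j))) := by
          refine mul_le_mul_of_nonneg_left (Finset.prod_le_prod (fun j _ => ?_) fun j _ => ?_) hM
          · have h2 : 0 < K0 (4 * Real.pi * ‖ν j‖ * y j) := by
              refine K0_pos ?_
              have := hpos j
              have := hy j
              positivity
            have := hpos j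
            have := hy j
            positivity
          · have h2 : 0 < 4 * Real.pi * ‖ν j‖ * y j := by
              have := hpos j
              have := hy j
              positivity
            have h3 := mul_K0_le h2
            have h4 : (‖ν j‖ / K0 (4 * Real.pi)) * (y j * K0 (4 * Real.pi * ‖ν j‖ * y j)) =
                (4 * Real.pi * ‖ν j‖ * y j) * K0 (4 * Real.pi * ‖ν j‖ * y j) /
                  (4 * Real.pi * K0 (4 * Real.pi)) := by
              field_simp
            rw [h4, div_mul_eq_mul_div]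
            refine div_le_div_of_nonneg_right ?_ (by positivity)
            refine h3.trans (le_of_eq ?_)
            congr 2
            ring
      _ = _ := by
          rw [Finset.prod_mul_distrib, ← Real.exp_sum, ← Finset.mul_sum]
          rfl

theorem fcoef_eq_coefA (b : Basis κ ℝ (ι → ℂ)) (f : (ι → ℂ × ℝ) → ℂ) (n : κ → ℤ) (y : ι → ℝ) :
    fcoef (volume : Measure (ι → ℂ)) b n (fun z => f (pz z y)) = coefA b (dualOf b n) f y := by
  unfold fcoef coefA
  rw [← dualOf_neg]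
  simp only [ev_dualOf]

theorem summable_bound (b : Basis κ ℝ (ι → ℂ)) {y : ι → ℝ} (hy : ∀ j, 0 < y j) :
    Summable fun n : κ → ℤ => Real.exp (-(2 * Real.pi) * ∑ j, ‖dualOf b n j‖ * y j) := by
  obtain ⟨t, ht, hty⟩ : ∃ t : ℝ, 0 < t ∧ ∀ j, t ≤ y j := by
    by_cases hne : Nonempty ι
    · obtain ⟨j0, -, hj0⟩ := Finset.exists_min_image Finset.univ y Finset.univ_nonempty
      exact ⟨y j0, hy j0, fun j => hj0 j (Finset.mem_univ j)⟩
    · exact ⟨1, one_pos, fun j => absurd ⟨j⟩ hne⟩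
  refine Summable.of_nonneg_of_le (fun n => (Real.exp_pos _).le) (fun n => ?_)
    (summable_dual b (a := 2 * Real.pi * t) (by positivity))
  apply Real.exp_le_exp.mpr
  have h1 : (∑ j, ‖dualOf b n j‖) * t ≤ ∑ j, ‖dualOf b n j‖ * y j := by
    rw [Finset.sum_mul]
    exact Finset.sum_le_sum fun j _ => mul_le_mul_of_nonneg_left (hty j) (norm_nonneg _)
  have h2 := mul_le_mul_of_nonneg_left h1 (show (0 : ℝ) ≤ 2 * Real.pi by positivity)
  linarith

/-- **Fourier expansion**, sum over `κ → ℤ`. -/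
theorem hasSum_expansion' (hf : IsEig b f M) (z : ι → ℂ) {y : ι → ℝ} (hy : ∀ j, 0 < y j) :
    HasSum (fun n : κ → ℤ => wcoef b f (dualOf b n) * (bes (dualOf b n) y : ℝ) *
      ev (dualOf b n) z) (f (pz z y)) := by
  have hcont := continuous_slice hf.contDiffOn.continuousOn hy
  have hcoef : ∀ n, fcoef (volume : Measure (ι → ℂ)) b n (fun z => f (pz z y)) =
      wcoef b f (dualOf b n) * (bes (dualOf b n) y : ℝ) := fun n => by
    rw [fcoef_eq_coefA, coefA_eq hf (isDual_dualOf b n) hy]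
  have hs : Summable fun n => fcoef (volume : Measure (ι → ℂ)) b n (fun z => f (pz z y)) := by
    refine Summable.of_norm_bounded (g := fun n => M * (cT ι *
      Real.exp (-(2 * Real.pi) * ∑ j, ‖dualOf b n j‖ * y j)))
      (((summable_bound b hy).mul_left _).mul_left _) fun n => ?_
    rw [hcoef]
    exact norm_term_le hf (isDual_dualOf b n) hy
  have h := hasSum_fcoef (volume : Measure (ι → ℂ)) (hf.per y hy) hcont hs z
  simp only [hcoef, ← ev_dualOf] at h
  exact h

/-- **Fourier expansion** of a bounded eigenfunction, sum over the dual lattice. -/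
theorem hasSum_expansion (hf : IsEig b f M) (z : ι → ℂ) {y : ι → ℝ} (hy : ∀ j, 0 < y j) :
    HasSum (fun ν : {ν : ι → ℂ // IsDual b ν} => wcoef b f ν * (bes (ν : ι → ℂ) y : ℝ) *
      ev (ν : ι → ℂ) z) (f (pz z y)) := by
  rw [← (dualEquiv b).hasSum_iff]
  exact hasSum_expansion' hf z hy

/-- `f` vanishes if all its Fourier coefficients vanish. -/
theorem eq_zero_of_wcoef (hf : IsEig b f M)
    (h0 : ∀ ν : ι → ℂ, IsDual b ν → (∀ j, ν j ≠ 0) → wcoef b f ν = 0) :
    ∀ p ∈ Dom ι, f p = 0 := by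
  intro p hp
  have h1 := hasSum_expansion hf (fun j => (p j).1) (y := fun j => (p j).2) hp
  have h2 : ∀ ν : {ν : ι → ℂ // IsDual b ν}, wcoef b f ν = 0 := by
    intro ν
    by_cases h : ∃ j, ν.1 j = 0
    · exact wcoef_eq_zero hf ν.2 h
    · push Not at h
      exact h0 ν.1 ν.2 h
  simp only [h2, zero_mul] at h1
  have h3 := h1.unique hasSum_zero
  exact h3

/-- **Decay**: uniform in `f`. -/
theorem norm_le_exp [hne : Nonempty ι] (b : Basis κ ℝ (ι → ℂ)) {y₀ : ℝ} (hy₀ : 0 < y₀) :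
    ∃ C c : ℝ, 0 < C ∧ 0 < c ∧ ∀ {f : (ι → ℂ × ℝ) → ℂ} {M : ℝ}, IsEig b f M →
      ∀ T ≥ y₀, ∀ p : ι → ℂ × ℝ, (∀ j, T ≤ (p j).2) → ‖f p‖ ≤ C * M * Real.exp (-c * T) := by
  obtain ⟨δ, hδ, hδ'⟩ := exists_norm_dualOf b
  have hsum := summable_dual b (a := Real.pi * y₀) (by positivity)
  set S := ∑' n : κ → ℤ, Real.exp (-(Real.pi * y₀) * ∑ j, ‖dualOf b n j‖) with hS
  have hS0 : 0 ≤ S := tsum_nonneg fun n => (Real.exp_pos _).le
  refine ⟨cT ι * S + 1, Real.pi * δ, by have := cT_pos (ι := ι); positivity, by positivity,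
    fun {f M} hf T hT p hp => ?_⟩
  have hM := bound_nonneg hf.bound
  have hT0 : 0 < T := lt_of_lt_of_le hy₀ hT
  have hy : ∀ j, 0 < (p j).2 := fun j => lt_of_lt_of_le hT0 (hp j)
  have h1 := hasSum_expansion' hf (fun j => (p j).1) (y := fun j => (p j).2) hy
  have hterm : ∀ n : κ → ℤ, ‖wcoef b f (dualOf b n) * (bes (dualOf b n) (fun j => (p j).2) : ℝ) *
      ev (dualOf b n) (fun j => (p j).1)‖ ≤ M * (cT ι * (Real.exp (-(Real.pi * δ) * T) *
        Real.exp (-(Real.pi * y₀) * ∑ j, ‖dualOf b n j‖))) := by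
    intro n
    rw [norm_mul, norm_ev, mul_one]
    by_cases hn : n = 0
    · have h2 : dualOf b n = 0 := by
        rw [hn]
        unfold dualOf
        simp only [Pi.zero_apply, Int.cast_zero]
        exact map_zero _
      rw [h2, wcoef_eq_zero hf (by rw [← h2]; exact isDual_dualOf b n)
        ⟨hne.some, rfl⟩, zero_mul, norm_zero]
      have := cT_pos (ι := ι)
      positivity
    · refine (norm_term_le hf (isDual_dualOf b n) hy).trans ?_
      refine mul_le_mul_of_nonneg_left (mul_le_mul_of_nonneg_left ?_ cT_pos.le) hM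
      rw [← Real.exp_add]
      apply Real.exp_le_exp.mpr
      have h2 : (1 : ℝ) ≤ ‖fun i => (n i : ℝ)‖ := by
        obtain ⟨i, hi⟩ : ∃ i, n i ≠ 0 := by
          by_contra hcon
          push Not at hcon
          exact hn (funext hcon)
        refine le_trans ?_ (norm_le_pi_norm (fun i => (n i : ℝ)) i)
        rw [Real.norm_eq_abs]
        exact_mod_cast Int.one_le_abs hi
      have h3 : δ ≤ ∑ j, ‖dualOf b n j‖ := by
        have h4 := hδ' n
        have h5 := norm_le_sum_norm (dualOf b n)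
        nlinarith
      have h4 : (∑ j, ‖dualOf b n j‖) * T ≤ ∑ j, ‖dualOf b n j‖ * (p j).2 := by
        rw [Finset.sum_mul]
        exact Finset.sum_le_sum fun j _ => mul_le_mul_of_nonneg_left (hp j) (norm_nonneg _)
      set σ := ∑ j, ‖dualOf b n j‖ with hσ
      have hσ0 : 0 ≤ σ := hδ.le.trans h3
      have h5 : δ * T ≤ σ * T := mul_le_mul_of_nonneg_right h3 hT0.le
      have h6 : y₀ * σ ≤ σ * T := by nlinarith
      have hpi := Real.pi_pos
      have h7 : Real.pi * (δ * T + y₀ * σ) ≤ Real.pi * (2 * ∑ j, ‖dualOf b n j‖ * (p j).2) :=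
        mul_le_mul_of_nonneg_left (by linarith) hpi.le
      linarith
  have hsum2 : HasSum (fun n : κ → ℤ => M * (cT ι * (Real.exp (-(Real.pi * δ) * T) *
      Real.exp (-(Real.pi * y₀) * ∑ j, ‖dualOf b n j‖))))
      (M * (cT ι * (Real.exp (-(Real.pi * δ) * T) * S))) :=
    ((hsum.hasSum.mul_left _).mul_left _).mul_left _
  have h2 : ‖f p‖ ≤ M * (cT ι * (Real.exp (-(Real.pi * δ) * T) * S)) := by
    have h3 : f (pz (fun j => (p j).1) fun j => (p j).2) = f p := rfl
    rw [← h3, ← h1.tsum_eq]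
    exact tsum_of_norm_bounded hsum2 hterm
  refine h2.trans ?_
  have h3 : 0 ≤ M * Real.exp (-(Real.pi * δ) * T) := by positivity
  nlinarith

end Fermat.Agent.H22Z
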