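import Fermat.Agent.H96TDef

/-!
# The real basis `(m, m ω)` of `ℂ` (S47, T2, helper60)

`eisB m hm` is the real basis `(m, m ω)` of `ℂ`; its `ℤ`-span is `m ℤ[ω]`.
-/

set_option autoImplicit false

noncomputable section

open MeasureTheory Matrix
open scoped ComplexConjugate Real

namespace Fermat.Agent.H60T

open S47T

theorem om_re' : om.re = -1 / 2 := by
  rw [om, sq3]
  simp

theorem om_im' : om.im = Real.sqrt 3 / 2 := by
  rw [om, sq3]
  simp

/-! ### The lattice `m ℤ[ω]` -/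

/-- The real coordinates with respect to `(m, m ω)`. -/
def eisLin (m : ℕ) (hm : 0 < m) : ℂ ≃ₗ[ℝ] (Fin 2 → ℝ) where
  toFun z := ![(z.re + z.im / Real.sqrt 3) / m, 2 * z.im / Real.sqrt 3 / m]
  invFun p := ((p 0 * m : ℝ) : ℂ) + ((p 1 * m : ℝ) : ℂ) * om
  map_add' x y := by
    ext i
    fin_cases i
    · simp
      ring
    · simp
      ring
  map_smul' c x := by
    ext i
    fin_cases i
    · simp
      ring
    · simp
      ring
  left_inv z := by
    have h : (0 : ℝ) < Real.sqrt 3 := Real.sqrt_pos.mpr (by norm_num)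
    have hm' : (m : ℝ) ≠ 0 := by positivity
    apply Complex.ext
    · simp only [Complex.add_re, Complex.mul_re, Complex.ofReal_re,
        Complex.ofReal_im, om_re', om_im', Matrix.cons_val_zero, Matrix.cons_val_one,
        Matrix.cons_val_fin_one]
      field_simp
      ring
    · simp only [Complex.add_im, Complex.mul_im, Complex.ofReal_re,
        Complex.ofReal_im, om_re', om_im', Matrix.cons_val_zero, Matrix.cons_val_one,
        Matrix.cons_val_fin_one]
      field_simp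
      ring
  right_inv p := by
    have h : (0 : ℝ) < Real.sqrt 3 := Real.sqrt_pos.mpr (by norm_num)
    have hm' : (m : ℝ) ≠ 0 := by positivity
    ext i
    fin_cases i
    · simp only [Complex.add_im, Complex.mul_im, Complex.add_re, Complex.mul_re, Complex.ofReal_re,
        Complex.ofReal_im, om_re', om_im', Matrix.cons_val_zero, Fin.zero_eta]
      field_simp
      ring
    · simp only [Complex.add_im, Complex.mul_im, Complex.ofReal_re,
        Complex.ofReal_im, om_re', om_im', Matrix.cons_val_one,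
        Matrix.cons_val_fin_one, Fin.mk_one]
      field_simp
      ring

/-- The real basis `(m, m ω)` of `ℂ`. -/
def eisB (m : ℕ) (hm : 0 < m) : Module.Basis (Fin 2) ℝ ℂ := Module.Basis.ofEquivFun (eisLin m hm)

theorem eisB_zero (m : ℕ) (hm : 0 < m) : eisB m hm 0 = m := by
  rw [eisB, Module.Basis.coe_ofEquivFun]
  show (((Pi.single (0 : Fin 2) (1 : ℝ) : Fin 2 → ℝ) 0 * m : ℝ) : ℂ) +
    (((Pi.single (0 : Fin 2) (1 : ℝ) : Fin 2 → ℝ) 1 * m : ℝ) : ℂ) * om = m
  simp

theorem eisB_one (m : ℕ) (hm : 0 < m) : eisB m hm 1 = m * om := by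
  rw [eisB, Module.Basis.coe_ofEquivFun]
  show (((Pi.single (1 : Fin 2) (1 : ℝ) : Fin 2 → ℝ) 0 * m : ℝ) : ℂ) +
    (((Pi.single (1 : Fin 2) (1 : ℝ) : Fin 2 → ℝ) 1 * m : ℝ) : ℂ) * om = m * om
  simp

/-- The lattice spanned by the basis is `m ℤ[ω]`. -/
theorem mem_span_eisB {m : ℕ} (hm : 0 < m) {z : ℂ} :
    z ∈ Submodule.span ℤ (Set.range (eisB m hm)) ↔ ∃ x ∈ Eis, z = m * x := by
  constructor
  · intro h
    induction h using Submodule.span_induction with
    | mem x hx =>
      obtain ⟨i, rfl⟩ := hx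
      fin_cases i
      · exact ⟨1, Eis.one_mem, by rw [Fin.zero_eta, eisB_zero, mul_one]⟩
      · exact ⟨om, om_mem, by rw [Fin.mk_one, eisB_one]⟩
    | zero => exact ⟨0, Eis.zero_mem, by simp⟩
    | add x y _ _ hx hy =>
      obtain ⟨a, ha, rfl⟩ := hx
      obtain ⟨b, hb, rfl⟩ := hy
      exact ⟨a + b, Eis.add_mem ha hb, by ring⟩
    | smul k x _ hx =>
      obtain ⟨a, ha, rfl⟩ := hx
      exact ⟨k * a, Eis.mul_mem (intCast_mem Eis k) ha, by rw [zsmul_eq_mul]; ring⟩
  · rintro ⟨x, ⟨a, b, rfl⟩, rfl⟩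
    have h0 : (m : ℂ) ∈ Submodule.span ℤ (Set.range (eisB m hm)) :=
      Submodule.subset_span ⟨0, eisB_zero m hm⟩
    have h1 : (m : ℂ) * om ∈ Submodule.span ℤ (Set.range (eisB m hm)) :=
      Submodule.subset_span ⟨1, eisB_one m hm⟩
    have : (m : ℂ) * (a + b * om) = a • (m : ℂ) + b • ((m : ℂ) * om) := by
      rw [zsmul_eq_mul, zsmul_eq_mul]
      ring
    rw [this]
    exact Submodule.add_mem _ (Submodule.smul_mem _ _ h0) (Submodule.smul_mem _ _ h1)

/-- Exactly one translate by `m ℤ[ω]` lies in the fundamental parallelogram. -/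
theorem existsUnique_eisB {m : ℕ} (hm : 0 < m) (z : ℂ) :
    ∃! x : Eis, z + m * (x : ℂ) ∈ ZSpan.fundamentalDomain (eisB m hm) := by
  have hm' : (m : ℂ) ≠ 0 := by exact_mod_cast hm.ne'
  obtain ⟨v, hv, hu⟩ := ZSpan.exist_unique_vadd_mem_fundamentalDomain (eisB m hm) z
  obtain ⟨x, hx, hvx⟩ := (mem_span_eisB hm).mp v.2
  have hv' : (v : ℂ) + z ∈ ZSpan.fundamentalDomain (eisB m hm) := hv
  refine ⟨⟨x, hx⟩, ?_, ?_⟩
  · show z + m * x ∈ _
    rw [← hvx, add_comm]
    exact hv'
  · rintro ⟨y, hy⟩ h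
    have h1 : (m : ℂ) * y ∈ Submodule.span ℤ (Set.range (eisB m hm)) :=
      (mem_span_eisB hm).mpr ⟨y, hy, rfl⟩
    have h2 := hu ⟨_, h1⟩ (by
      show (m : ℂ) * y + z ∈ _
      rw [add_comm]
      exact h)
    have h3 : (m : ℂ) * y = v := congrArg Subtype.val h2
    rw [hvx] at h3
    exact Subtype.ext (mul_left_cancel₀ hm' h3)

end Fermat.Agent.H60T
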