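import Fermat.Agent.H8T5
import Fermat.Agent.H60TB
import Fermat.Agent.H22ZFEd

/-!
# S47, (T2a): constant terms vanish, exponential decay at all cusps
-/

set_option autoImplicit false
set_option linter.unusedSectionVars false

noncomputable section

open MeasureTheory Set
open scoped ComplexConjugate Real ContDiff

namespace Fermat.Agent.H8T

open S47T H47.Red H74.C3 H60T

/-- `ℂ ≃ (Unit → ℂ)` -/
def eU : ℂ ≃ₗ[ℝ] (Unit → ℂ) := (LinearEquiv.funUnique Unit ℝ ℂ).symm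

/-- the basis `(m, m ω)` on `Unit → ℂ` -/
def bU (m : ℕ) (hm : 0 < m) : Module.Basis (Fin 2) ℝ (Unit → ℂ) := (eisB m hm).map eU

theorem bU_apply (m : ℕ) (hm : 0 < m) (i : Fin 2) (j : Unit) : bU m hm i j = eisB m hm i := rfl

theorem mem_span_bU {m : ℕ} (hm : 0 < m) {v : Unit → ℂ}
    (hv : v ∈ Submodule.span ℤ (Set.range (bU m hm))) : ∃ β : Eis, v () = m * β := by
  have h1 : v () ∈ Submodule.span ℤ (Set.range (eisB m hm)) := by
    induction hv using Submodule.span_induction with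
    | mem x hx =>
      obtain ⟨i, rfl⟩ := hx
      exact Submodule.subset_span ⟨i, rfl⟩
    | zero => exact Submodule.zero_mem _
    | add x y _ _ hx hy => exact Submodule.add_mem _ hx hy
    | smul k x _ hx => exact Submodule.smul_mem _ k hx
  obtain ⟨x, hx, h⟩ := (mem_span_eisB hm).mp h1
  exact ⟨⟨x, hx⟩, h⟩

/-- `F` in the coordinates of helper22's Fourier expansion. -/
def fU (F : H3 → ℂ) (p : Unit → ℂ × ℝ) : ℂ := F (pt (p ()).1 (p ()).2)

theorem pt_add {z v : ℂ} {y : ℝ} (hy : 0 < y) : pt (z + v) y = H3.nMat v • pt z y := by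
  rw [H3.nMat_smul]
  ext
  · rfl
  · simp [pt_y hy]

theorem lapc_fU (F : H3 → ℂ) {p : Unit → ℂ × ℝ} (hp : 0 < (p ()).2) :
    H22Z.lapc () (fU F) p = Lap F (pt (p ()).1 (p ()).2) := by
  unfold H22Z.lapc Lap dz1 dz2 dyy dy
  simp only [pt_y hp, pt_z, fU, Function.update_self]

theorem isEig {F : H3 → ℂ} (hc : Continuous F) (h : Eig F) {M : ℝ} (hM : ∀ w, ‖F w‖ ≤ M) {m : ℕ}
    (hm : 0 < m) (hper : ∀ (β : Eis) (w : H3), F (H3.nMat (m * β) • w) = F w) :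
    H22Z.IsEig (bU m hm) (fU F) M where
  contDiffOn := (h.backward hc).1.of_le (by norm_cast)
  per y hy := by
    intro z v hv
    obtain ⟨β, hβ⟩ := mem_span_bU hm hv
    show F (pt (z () + v ()) (y ())) = F (pt (z ()) (y ()))
    rw [hβ, pt_add (hy ()), hper]
  lap j p hp := by
    rw [lapc_fU F (hp ()), h.lap hc]
    rfl
  bound p _ := hM _

/-- **(T2a), decay**: uniform in the function. -/
theorem exists_decay {m : ℕ} (hm : 0 < m) {y₀ : ℝ} (hy₀ : 0 < y₀) : ∃ C c : ℝ, 0 < C ∧ 0 < c ∧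
    ∀ (F : H3 → ℂ) (M : ℝ), Continuous F → Eig F → (∀ w, ‖F w‖ ≤ M) →
      (∀ (β : Eis) (w : H3), F (H3.nMat (m * β) • w) = F w) →
      ∀ w : H3, y₀ ≤ w.y → ‖F w‖ ≤ C * M * Real.exp (-(c * w.y)) := by
  obtain ⟨C, c, hC, hc, h⟩ := H22Z.norm_le_exp (bU m hm) hy₀
  refine ⟨C, c, hC, hc, fun F M hF hE hM hper w hw => ?_⟩
  have h1 := h (isEig hF hE hM hm hper) w.y hw (fun _ => (w.z, w.y)) fun _ => le_rfl
  rw [neg_mul] at h1
  simpa [fU] using h1

/-- **(T2a), constant term.** -/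
theorem integral_fd_eq_zero {F : H3 → ℂ} (hc : Continuous F) (h : Eig F) {M : ℝ}
    (hM : ∀ w, ‖F w‖ ≤ M) {m : ℕ} (hm : 0 < m)
    (hper : ∀ (β : Eis) (w : H3), F (H3.nMat (m * β) • w) = F w) {y : ℝ} (hy : 0 < y) :
    ∫ z in ZSpan.fundamentalDomain (eisB m hm), F (pt z y) = 0 := by
  have h0 : H22Z.IsDual (bU m hm) 0 := fun v _ => ⟨0, by simp [H22Z.prg]⟩
  have h1 := H22Z.coefA_eq_zero (isEig hc h hM hm hper) h0 ⟨(), rfl⟩ (y := fun _ => y)
    fun _ => hy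
  rw [H22Z.coefA] at h1
  have hpos : ((volume : Measure (Unit → ℂ)).real (ZSpan.fundamentalDomain (bU m hm)) : ℂ) ≠ 0 := by
    have := ZSpan.measure_fundamentalDomain_ne_zero (bU m hm) (μ := volume)
    have h2 := H22Z.vol_fd_lt_top (bU m hm)
    rw [Measure.real]
    exact_mod_cast (ENNReal.toReal_pos this h2.ne).ne'
  have h2 := (mul_eq_zero.mp h1).resolve_left (inv_ne_zero hpos)
  have h3 : ∀ z : Unit → ℂ, H22Z.ev (-0) z * fU F (H22Z.pz z fun _ => y) = F (pt (z ()) y) := by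
    intro z
    simp [H22Z.ev, H22Z.prg, fU, H22Z.pz]
  simp only [h3] at h2
  have hpre : (MeasurableEquiv.funUnique Unit ℂ) ⁻¹' (ZSpan.fundamentalDomain (eisB m hm)) =
      ZSpan.fundamentalDomain (bU m hm) := by
    ext v
    simp only [Set.mem_preimage, ZSpan.mem_fundamentalDomain]
    rfl
  rw [← h2, ← hpre]
  exact ((volume_preserving_funUnique Unit ℂ).setIntegral_preimage_emb
    (MeasurableEquiv.funUnique Unit ℂ).measurableEmbedding (fun z => F (pt z y)) _).symm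

/-! ### General statements for functions invariant under a principal congruence subgroup -/

section GamP

variable {F : H3 → ℂ} {m : ℕ}

theorem decay_of_GamP (hc : Continuous F) (h : Eig F) (hb : ∃ M, ∀ w, ‖F w‖ ≤ M) (hm : 0 < m)
    (hinv : ∀ g ∈ GamP m, ∀ w, F (g • w) = F w) {y₀ : ℝ} (hy₀ : 0 < y₀) :
    ∃ C c : ℝ, 0 < C ∧ 0 < c ∧ ∀ g ∈ Gam 1, ∀ w : H3, y₀ ≤ w.y →
      ‖F (g • w)‖ ≤ C * Real.exp (-(c * w.y)) := by
  obtain ⟨M, hM⟩ := hb
  obtain ⟨C, c, hC, hc', h'⟩ := exists_decay hm hy₀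
  have hM0 : 0 ≤ M := (norm_nonneg _).trans (hM H3.base)
  refine ⟨C * (M + 1), c, by positivity, hc', fun g hg w hw => ?_⟩
  have h1 := h' (fun w => F (g • w)) M (hc.comp (continuous_const_smul g)) (h.smul g)
    (fun w => hM _) (fun β w => periodic_smul hinv hg β w) w hw
  refine h1.trans (mul_le_mul_of_nonneg_right ?_ (Real.exp_pos _).le)
  nlinarith

theorem decay_ht_of_GamP (hc : Continuous F) (h : Eig F) (hb : ∃ M, ∀ w, ‖F w‖ ≤ M) (hm : 0 < m)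
    (hinv : ∀ g ∈ GamP m, ∀ w, F (g • w) = F w) :
    ∃ C c : ℝ, 0 < C ∧ 0 < c ∧ ∀ w : H3, ‖F w‖ ≤ C * Real.exp (-(c * ht Eis w)) := by
  obtain ⟨C, c, hC, hc', h'⟩ := decay_of_GamP hc h hb hm hinv (y₀ := 4 / 5) (by norm_num)
  exact ⟨C, c, hC, hc', decay_ht eucOrder_Eis h'⟩

theorem const_of_GamP (hc : Continuous F) (h : Eig F) (hb : ∃ M, ∀ w, ‖F w‖ ≤ M) (hm : 0 < m)
    (hinv : ∀ g ∈ GamP m, ∀ w, F (g • w) = F w) {g : GL (Fin 2) ℂ} (hg : g ∈ Gam 1) {y : ℝ}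
    (hy : 0 < y) : ∫ z in ZSpan.fundamentalDomain (eisB m hm), F (g • (⟨z, y, hy⟩ : H3)) = 0 := by
  obtain ⟨M, hM⟩ := hb
  have h1 := integral_fd_eq_zero (F := fun w => F (g • w)) (hc.comp (continuous_const_smul g))
    (h.smul g) (fun w => hM _) hm (fun β w => periodic_smul hinv hg β w) hy
  have h2 : ∀ z : ℂ, pt z y = (⟨z, y, hy⟩ : H3) := fun z => by
    ext
    · rfl
    · exact pt_y hy
  simp only [h2] at h1
  exact h1

end GamP

/-! ### (I-CT) -/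

section ICT

variable {N : ℕ} {c : Eis → ℝ} {F : H3 → ℂ}

theorem ict_inv (hF : ICT N c F) {m : ℕ} (hNm : N ∣ m) : ∀ g ∈ GamP m, ∀ w, F (g • w) = F w :=
  inv_GamP hNm hF.inv

/-- **(T2a)** exponential decay of `F` at all cusps. -/
theorem ict_decay (hF : ICT N c F) {y₀ : ℝ} (hy₀ : 0 < y₀) : ∃ C c' : ℝ, 0 < C ∧ 0 < c' ∧
    ∀ g ∈ Gam 1, ∀ w : H3, y₀ ≤ w.y → ‖F (g • w)‖ ≤ C * Real.exp (-(c' * w.y)) :=
  decay_of_GamP hF.cont hF.eig hF.bdd hF.pos (ict_inv hF dvd_rfl) hy₀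

/-- **(T2a)** in terms of the height. -/
theorem ict_decay_ht (hF : ICT N c F) : ∃ C c' : ℝ, 0 < C ∧ 0 < c' ∧
    ∀ w : H3, ‖F w‖ ≤ C * Real.exp (-(c' * ht Eis w)) :=
  decay_ht_of_GamP hF.cont hF.eig hF.bdd hF.pos (ict_inv hF dvd_rfl)

/-- rapid decay, polynomial form -/
theorem ict_decay_pow (hF : ICT N c F) (A : ℕ) : ∃ C : ℝ, 0 < C ∧ ∀ g ∈ Gam 1, ∀ w : H3,
    1 / 2 ≤ w.y → ‖F (g • w)‖ ≤ C / w.y ^ A := by
  obtain ⟨C, c', hC, hc', h⟩ := ict_decay hF (y₀ := 1 / 2) (by norm_num)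
  refine ⟨C * (A.factorial * Real.exp c' / c' ^ A), by positivity, fun g hg w hw => ?_⟩
  have hy := w.pos
  have h1 := pow_mul_exp_le A hc' hy.le
  rw [le_div_iff₀ (by positivity)]
  calc ‖F (g • w)‖ * w.y ^ A ≤ C * Real.exp (-(c' * w.y)) * (1 + w.y) ^ A := by
        refine mul_le_mul (h g hg w hw) (pow_le_pow_left₀ hy.le (by linarith) A) (by positivity)
          (by positivity)
    _ = C * ((1 + w.y) ^ A * Real.exp (-(c' * w.y))) := by ring
    _ ≤ _ := mul_le_mul_of_nonneg_left h1 hC.le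

/-- **(T2a)** the constant terms of `F` vanish at all cusps. -/
theorem ict_const (hF : ICT N c F) {m : ℕ} (hm : 0 < m) (hNm : N ∣ m) {g : GL (Fin 2) ℂ}
    (hg : g ∈ Gam 1) {y : ℝ} (hy : 0 < y) :
    ∫ z in ZSpan.fundamentalDomain (eisB m hm), F (g • (⟨z, y, hy⟩ : H3)) = 0 :=
  const_of_GamP hF.cont hF.eig hF.bdd hm (ict_inv hF hNm) hg hy

/-- **(M)** for (I-CT): `|F|` times the theta majorant times any power of the height is bounded. -/
theorem ict_bound (hF : ICT N c F) (j k : ℕ) {ε : ℝ} (hε : 0 < ε) : ∃ B : ℝ, 0 < B ∧ ∀ w,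
    ‖F w‖ * (∑' x : S47T.Lat, (1 + QW x w) ^ j * Real.exp (-(ε * QW x w))) * ht Eis w ^ k ≤ B := by
  obtain ⟨C, c', hC, hc', h⟩ := ict_decay_ht hF
  exact bound_ht eucOrder_Eis hc' hC h j k hε

end ICT

end Fermat.Agent.H8T
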