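import Fermat.Agent.H29T7
import Fermat.Agent.H8T6

/-!
# S47, block (T), package T4: the closed statement
-/

set_option autoImplicit false

namespace Fermat.Agent.H29T

open S47T

/-- **(T4)**: `ICT N c F → T4 N c F` -/
theorem t4_ict {N : ℕ} {c : Eis → ℝ} {F : H3 → ℂ} (hF : ICT N c F) : T4 N c F :=
  t4_of hF (H8T.ict_decay_ht hF)

end Fermat.Agent.H29T
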