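import Fermat.Agent.H81T5d

/-!
# Fourier coefficients of the theta lift (S47, T5a)

* `lift_eq` : `lift χ F 1 φ (u + i v) = √v ∑_x e(u qL x) cf x`, `cf x = ∫ χ F φ(x) e^{-2πv(q + 2p²)}`;
* `coef` : `∫_0^3 lift(u + i v) e(-m u/3) du = 3 √v ∑_{qL x = m/3} cf x`;
* `coef_zero` : the consequence of the vanishing of the lift for the period integral.
-/

set_option autoImplicit false
set_option linter.unusedSectionVars false

noncomputable section

open Matrix MeasureTheory CongruenceSubgroup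
open scoped ComplexConjugate Real ENNReal

namespace Fermat.Agent.S47T.Orb

open Fermat.Agent.H90T Fermat.Agent.H81.T5 Fermat.Agent.H81.Unf Fermat.Agent.H8T
open Fermat.Agent.H47.Red

/-- the real weight of an index -/
def wt (v : ℝ) (w : H3) (x : Lat) : ℝ := Real.exp (-(2 * π * v * QW x w))

theorem wt_pos (v : ℝ) (w : H3) (x : Lat) : 0 < wt v w x := Real.exp_pos _

theorem measurable_wt (v : ℝ) (x : Lat) : Measurable fun w : H3 => wt v w x := by
  unfold wt QW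
  exact Real.measurable_exp.comp (measurable_const.mul (measurable_const.add
    (measurable_const.mul ((measurable_pL x).pow_const 2)))).neg

/-- one term of the theta kernel -/
theorem theta_term (φ : Lat → ℂ) (u v : ℝ) (w : H3) (x : Lat) :
    φ x * ee (((u : ℂ) + v * Complex.I) * (qL x / ((1 : ℕ) : ℝ) ^ 2 : ℝ)) *
      (Real.exp (-4 * π * ((u : ℂ) + v * Complex.I).im * (pL x w / ((1 : ℕ) : ℝ)) ^ 2) : ℝ) =
    ee ((u * qL x : ℝ)) * (φ x * (wt v w x : ℝ)) := by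
  have him : ((u : ℂ) + v * Complex.I).im = v := by simp
  rw [him, wt, ee, ee, Complex.ofReal_exp, Complex.ofReal_exp]
  have h1 : Complex.exp (2 * π * Complex.I * (((u : ℂ) + v * Complex.I) *
      ((qL x / ((1 : ℕ) : ℝ) ^ 2 : ℝ) : ℂ))) * Complex.exp
        ((-4 * π * v * (pL x w / ((1 : ℕ) : ℝ)) ^ 2 : ℝ) : ℂ) =
      Complex.exp (2 * π * Complex.I * ((u * qL x : ℝ) : ℂ)) *
        Complex.exp ((-(2 * π * v * QW x w) : ℝ) : ℂ) := by
    rw [← Complex.exp_add, ← Complex.exp_add]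
    congr 1
    rw [QW]
    push_cast
    linear_combination (2 * π * v * qL x) * Complex.I_mul_I
  linear_combination (φ x) * h1

/-- The hypothesis (M) at `v`. -/
def MV (χ : H3 → ℝ) (F : H3 → ℂ) (φ : Lat → ℂ) (v : ℝ) : Prop :=
  ∫⁻ w, ENNReal.ofReal (χ w) * (‖F w‖ₑ * ∑' x : Lat, ‖φ x‖ₑ * ENNReal.ofReal (wt v w x)) ≠ ∞

/-- (M) from decay at the cusps. -/
theorem MV_of_decays {N : ℕ} (hN : N ≠ 0) {χ : H3 → ℝ} (hχ : IsCut (Gam N) χ) {F : H3 → ℂ}
    (hdec : Decays F) (hinv : ∀ g ∈ Gam N, ∀ w, F (g • w) = F w) {φ : Lat → ℂ}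
    (hφ : ∀ x, ‖φ x‖ ≤ 1) {v : ℝ} (hv : 0 < v) : MV χ F φ v := by
  obtain ⟨C, c, hC, hc, h1⟩ := hdec.unif (Nat.pos_of_ne_zero hN) (fun g hg w =>
    hinv g (Fermat.Agent.H8T.GamP_le_Gam N hg) w)
  obtain ⟨B, hB, h2⟩ := bound_ht eucOrder_Eis hc hC (decay_ht eucOrder_Eis h1) 0 0
    (ε := 2 * π * v) (by positivity)
  have h3 : ∀ w, ‖F w‖ₑ * ∑' x : Lat, ‖φ x‖ₑ * ENNReal.ofReal (wt v w x) ≤ ENNReal.ofReal B := by
    intro w
    have hs := summable_QW 0 (ε := 2 * π * v) (by positivity) w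
    have h4 := h2 w
    simp only [pow_zero, one_mul, mul_one] at h4 hs
    calc ‖F w‖ₑ * ∑' x : Lat, ‖φ x‖ₑ * ENNReal.ofReal (wt v w x)
        ≤ ‖F w‖ₑ * ∑' x : Lat, ENNReal.ofReal (wt v w x) := by
          gcongr with x
          calc ‖φ x‖ₑ * ENNReal.ofReal (wt v w x) ≤ 1 * ENNReal.ofReal (wt v w x) := by
                gcongr
                rw [← ofReal_norm]
                exact ENNReal.ofReal_le_one.mpr (hφ x)
            _ = _ := one_mul _
      _ = ENNReal.ofReal (‖F w‖ * ∑' x : Lat, wt v w x) := by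
          rw [← ENNReal.ofReal_tsum_of_nonneg (fun x => (wt_pos v w x).le) hs,
            ENNReal.ofReal_mul (norm_nonneg _), ofReal_norm]
      _ ≤ ENNReal.ofReal B := ENNReal.ofReal_le_ofReal h4
  have h4 : ∫⁻ w, ENNReal.ofReal (χ w) * (‖F w‖ₑ *
      ∑' x : Lat, ‖φ x‖ₑ * ENNReal.ofReal (wt v w x)) ≤
      (∫⁻ w, ENNReal.ofReal (χ w)) * ENNReal.ofReal B := by
    rw [← lintegral_mul_const' _ _ ENNReal.ofReal_ne_top]
    exact lintegral_mono fun w => by gcongr; exact h3 w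
  have h5 : ∫⁻ w, ENNReal.ofReal (χ w) < ∞ := by
    have h6 := hχ.integrable_self (finIdx_Gam hN)
    exact h6.lintegral_lt_top
  exact ne_top_of_le_ne_top (ENNReal.mul_ne_top h5.ne ENNReal.ofReal_ne_top) h4

/-- the coefficient at an index -/
def cf (χ : H3 → ℝ) (F : H3 → ℂ) (φ : Lat → ℂ) (v : ℝ) (x : Lat) : ℂ :=
  ∫ w, (χ w : ℂ) * (F w * (φ x * (wt v w x : ℝ)))

variable {χ : H3 → ℝ} {F : H3 → ℂ} {φ : Lat → ℂ} {v : ℝ}

theorem meas_term (hχ : Measurable χ) (hF : Measurable F) (x : Lat) :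
    Measurable fun w => (χ w : ℂ) * (F w * (φ x * (wt v w x : ℝ))) :=
  (Complex.measurable_ofReal.comp hχ).mul (hF.mul (measurable_const.mul
    (Complex.measurable_ofReal.comp (measurable_wt v x))))

theorem enorm_term (hχ : ∀ w, 0 ≤ χ w) (x : Lat) (w : H3) :
    ‖(χ w : ℂ) * (F w * (φ x * (wt v w x : ℝ)))‖ₑ =
      ENNReal.ofReal (χ w) * (‖F w‖ₑ * (‖φ x‖ₑ * ENNReal.ofReal (wt v w x))) := by
  rw [enorm_ofReal_mul (hχ w), enorm_mul, mul_comm (φ x), enorm_ofReal_mul (wt_pos v w x).le,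
    mul_comm (‖φ x‖ₑ)]

theorem tsum_lintegral_term (hχ : Measurable χ) (hχ0 : ∀ w, 0 ≤ χ w) (hF : Measurable F)
    (hM : MV χ F φ v) :
    ∑' x : Lat, ∫⁻ w, ‖(χ w : ℂ) * (F w * (φ x * (wt v w x : ℝ)))‖ₑ ≠ ∞ := by
  rw [← lintegral_tsum fun x => (meas_term hχ hF x).enorm.aemeasurable]
  simp_rw [enorm_term hχ0]
  have h1 : ∀ w, ∑' x : Lat, ENNReal.ofReal (χ w) * (‖F w‖ₑ * (‖φ x‖ₑ *
      ENNReal.ofReal (wt v w x))) = ENNReal.ofReal (χ w) * (‖F w‖ₑ *
      ∑' x : Lat, (‖φ x‖ₑ * ENNReal.ofReal (wt v w x))) := fun w => by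
    rw [ENNReal.tsum_mul_left, ENNReal.tsum_mul_left]
  simp_rw [h1]
  exact hM

theorem tsum_enorm_cf (hχ : Measurable χ) (hχ0 : ∀ w, 0 ≤ χ w) (hF : Measurable F)
    (hM : MV χ F φ v) : ∑' x : Lat, ‖cf χ F φ v x‖ₑ ≠ ∞ :=
  ne_top_of_le_ne_top (tsum_lintegral_term hχ hχ0 hF hM)
    (ENNReal.tsum_le_tsum fun x => enorm_integral_le_lintegral_enorm _)

/-- the lift as a series -/
theorem lift_eq (hχ : Measurable χ) (hχ0 : ∀ w, 0 ≤ χ w) (hF : Measurable F)
    (hM : MV χ F φ v) (u : ℝ) :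
    lift χ F 1 φ ((u : ℂ) + v * Complex.I) =
      (Real.sqrt v : ℝ) * ∑' x : Lat, ee ((u * qL x : ℝ)) * cf χ F φ v x := by
  have him : ((u : ℂ) + v * Complex.I).im = v := by simp
  have he : ∀ t : ℝ, ‖ee (t : ℂ)‖ₑ = 1 := by
    intro t
    have h1 : ee (t : ℂ) = Complex.exp (((2 * π * t : ℝ) : ℂ) * Complex.I) := by
      rw [ee]; congr 1; push_cast; ring
    rw [h1, ← ofReal_norm, Complex.norm_exp_ofReal_mul_I, ENNReal.ofReal_one]
  have h1 : ∀ w, (χ w : ℂ) * (F w * Theta 1 φ ((u : ℂ) + v * Complex.I) w) =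
      (Real.sqrt v : ℝ) * ∑' x : Lat, ee ((u * qL x : ℝ)) *
        ((χ w : ℂ) * (F w * (φ x * (wt v w x : ℝ)))) := by
    intro w
    rw [Theta]
    simp_rw [theta_term]
    rw [him]
    have h2 : ∀ x : Lat, ee ((u * qL x : ℝ)) * ((χ w : ℂ) * (F w * (φ x * (wt v w x : ℝ)))) =
        ((χ w : ℂ) * F w) * (ee ((u * qL x : ℝ)) * (φ x * (wt v w x : ℝ))) := fun x => by ring
    simp_rw [h2]
    rw [tsum_mul_left]
    ring
  rw [S47T.lift, qint]
  simp_rw [h1]
  rw [integral_const_mul]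
  congr 1
  rw [integral_tsum]
  · exact tsum_congr fun x => integral_const_mul _ _
  · exact fun x => ((meas_term hχ hF x).const_mul _).aestronglyMeasurable
  · have h3 : ∀ (x : Lat) (w : H3), ‖ee ((u * qL x : ℝ)) *
        ((χ w : ℂ) * (F w * (φ x * (wt v w x : ℝ))))‖ₑ =
        ‖(χ w : ℂ) * (F w * (φ x * (wt v w x : ℝ)))‖ₑ := fun x w => by
      rw [enorm_mul, he, one_mul]
    simp_rw [h3]
    exact tsum_lintegral_term hχ hχ0 hF hM

/-! ### extraction of a coefficient -/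

theorem exists_int_qL (x : Lat) : ∃ k : ℤ, qL x = k / 3 := by
  obtain ⟨a, ⟨_, p, q, rfl⟩, d⟩ := x
  refine ⟨p ^ 2 - p * q + q ^ 2 - 3 * (a * d), ?_⟩
  rw [qL, hQ, Complex.normSq_div, normSq_sq3]
  show Complex.normSq ((p : ℂ) + q * om) / 3 - _ = _
  rw [normSq_eis]
  push_cast
  ring

theorem norm_ee (t : ℝ) : ‖ee (t : ℂ)‖ = 1 := by
  have h1 : ee (t : ℂ) = Complex.exp (((2 * π * t : ℝ) : ℂ) * Complex.I) := by
    rw [ee]; congr 1; push_cast; ring
  rw [h1, Complex.norm_exp_ofReal_mul_I]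

theorem continuous_ee_mul (q : ℝ) : Continuous fun u : ℝ => ee ((u * q : ℝ) : ℂ) := by
  unfold ee
  fun_prop

/-- orthogonality -/
theorem integral_ee (k : ℤ) : ∫ u in (0 : ℝ)..3, ee ((u * (k / 3) : ℝ) : ℂ) =
    if k = 0 then 3 else 0 := by
  split_ifs with hk
  · subst hk
    have h1 : ∀ u : ℝ, ee ((u * (((0 : ℤ) : ℝ) / 3) : ℝ) : ℂ) = 1 := by
      intro u
      simp [ee]
    simp_rw [h1]
    rw [intervalIntegral.integral_const]
    simp
  · have hc : (2 * π * Complex.I * (k / 3) : ℂ) ≠ 0 := by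
      have h1 : (k : ℂ) ≠ 0 := by exact_mod_cast hk
      have h2 : (π : ℂ) ≠ 0 := by exact_mod_cast Real.pi_ne_zero
      have h3 := Complex.I_ne_zero
      exact mul_ne_zero (mul_ne_zero (mul_ne_zero two_ne_zero h2) h3)
        (div_ne_zero h1 (by norm_num))
    have h1 : ∀ u : ℝ, ee ((u * (k / 3) : ℝ) : ℂ) =
        Complex.exp ((2 * π * Complex.I * (k / 3)) * (u : ℂ)) := by
      intro u
      rw [ee]
      congr 1
      push_cast
      ring
    simp_rw [h1]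
    rw [integral_exp_mul_complex hc]
    have h2 : Complex.exp (2 * π * Complex.I * (k / 3) * ((3 : ℝ) : ℂ)) = 1 := by
      rw [Complex.exp_eq_one_iff]
      exact ⟨k, by push_cast; ring⟩
    rw [h2]
    simp

theorem coef (hχ : Measurable χ) (hχ0 : ∀ w, 0 ≤ χ w) (hF : Measurable F)
    (hM : MV χ F φ v) (m : ℤ) :
    ∫ u in (0 : ℝ)..3, lift χ F 1 φ ((u : ℂ) + v * Complex.I) * ee ((u * (-m / 3) : ℝ) : ℂ) =
      (Real.sqrt v : ℝ) * (3 * ∑' x : Lat, (haveI := Classical.propDecidable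
        if qL x = m / 3 then cf χ F φ v x else 0)) := by
  classical
  have h1 : ∀ u : ℝ, lift χ F 1 φ ((u : ℂ) + v * Complex.I) * ee ((u * (-m / 3) : ℝ) : ℂ) =
      (Real.sqrt v : ℝ) * ∑' x : Lat, ee ((u * (qL x - m / 3) : ℝ) : ℂ) * cf χ F φ v x := by
    intro u
    rw [lift_eq hχ hχ0 hF hM, mul_assoc, ← tsum_mul_right]
    congr 1
    refine tsum_congr fun x => ?_
    have h2 : ee ((u * (qL x - m / 3) : ℝ) : ℂ) =
        ee ((u * qL x : ℝ) : ℂ) * ee ((u * (-m / 3) : ℝ) : ℂ) := by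
      rw [ee, ee, ee, ← Complex.exp_add]
      congr 1
      push_cast
      ring
    rw [h2]
    ring
  simp_rw [h1]
  rw [intervalIntegral.integral_const_mul]
  congr 1
  rw [intervalIntegral.integral_of_le (by norm_num), integral_tsum, ← tsum_mul_left]
  · refine tsum_congr fun x => ?_
    rw [integral_mul_const, ← intervalIntegral.integral_of_le (by norm_num)]
    obtain ⟨k, hk⟩ := exists_int_qL x
    have h3 : ∀ u : ℝ, u * (qL x - m / 3) = u * (((k - m : ℤ) : ℝ) / 3) := by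
      intro u
      rw [hk]; push_cast; ring
    simp_rw [h3]
    rw [integral_ee]
    by_cases h : k = m
    · subst h
      rw [sub_self, if_pos rfl, if_pos hk]
    · rw [if_neg (sub_ne_zero.mpr h), if_neg, zero_mul, mul_zero]
      rw [hk]
      intro h'
      apply h
      have h'' : (k : ℝ) = m := by linarith
      exact_mod_cast h''
  · exact fun x => ((continuous_ee_mul _).mul continuous_const).aestronglyMeasurable
  · have h3 : ∀ (x : Lat), ∫⁻ u in Set.Ioc (0 : ℝ) 3,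
        ‖ee ((u * (qL x - m / 3) : ℝ) : ℂ) * cf χ F φ v x‖ₑ = 3 * ‖cf χ F φ v x‖ₑ := by
      intro x
      have h4 : ∀ u : ℝ, ‖ee ((u * (qL x - m / 3) : ℝ) : ℂ) * cf χ F φ v x‖ₑ =
          ‖cf χ F φ v x‖ₑ := by
        intro u
        rw [enorm_mul, ← ofReal_norm (ee _), norm_ee, ENNReal.ofReal_one, one_mul]
      simp_rw [h4]
      rw [lintegral_const, Measure.restrict_apply_univ, Real.volume_Ioc, mul_comm]
      norm_num
    simp_rw [h3]
    rw [ENNReal.tsum_mul_left]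
    exact ENNReal.mul_ne_top (by simp) (tsum_enorm_cf hχ hχ0 hF hM)

/-- sums of coefficients over a set of indices as integrals -/
theorem tsum_cf (hχ : Measurable χ) (hχ0 : ∀ w, 0 ≤ χ w) (hF : Measurable F)
    (hM : MV χ F φ v) (P : Lat → Prop) [DecidablePred P] :
    ∑' x : Lat, (if P x then cf χ F φ v x else 0) =
      ∫ w, (χ w : ℂ) * (F w * ∑' x : Lat, if P x then φ x * (wt v w x : ℝ) else 0) := by
  have h1 : ∀ x : Lat, (if P x then cf χ F φ v x else 0) =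
      ∫ w, (if P x then (χ w : ℂ) * (F w * (φ x * (wt v w x : ℝ))) else 0) := by
    intro x
    split_ifs with h
    · rfl
    · simp
  simp_rw [h1]
  rw [← integral_tsum]
  · refine integral_congr_ae (Filter.Eventually.of_forall fun w => ?_)
    simp only
    rw [← tsum_mul_left, ← tsum_mul_left]
    refine tsum_congr fun x => ?_
    split_ifs <;> simp
  · intro x
    split_ifs
    · exact (meas_term hχ hF x).aestronglyMeasurable
    · exact aestronglyMeasurable_const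
  · refine ne_top_of_le_ne_top (tsum_lintegral_term hχ hχ0 hF hM)
      (ENNReal.tsum_le_tsum fun x => ?_)
    refine lintegral_mono fun w => ?_
    split_ifs
    · exact le_rfl
    · simp

/-! ### the coefficient at `1/3` and the period integral -/

/-- the Gaussian -/
def gs (v t : ℝ) : ℂ := (Real.exp (-(4 * π * v * t ^ 2)) : ℝ)

theorem measurable_gs (v : ℝ) : Measurable (gs v) := by
  unfold gs
  exact Complex.measurable_ofReal.comp (by fun_prop)

theorem gs_neg (v t : ℝ) : gs v (-t) = gs v t := by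
  rw [gs, gs, neg_sq]

theorem third_eq (N : ℕ) (v : ℝ) (w : H3) (x : Lat) :
    (haveI := Classical.propDecidable
      if qL x = ((1 : ℤ) : ℝ) / 3 then phiN N x * (wt v w x : ℝ) else 0) =
      (Real.exp (-(2 * π * v / 3)) : ℝ) * third N (gs v) w x := by
  classical
  rw [third]
  by_cases hq : qL x = 1 / 3
  · rw [if_pos hq, if_pos (by rw [hq]; norm_num), wt, QW, hq, gs]
    have h1 : Real.exp (-(2 * π * v * (1 / 3 + 2 * pL x w ^ 2))) =
        Real.exp (-(2 * π * v / 3)) * Real.exp (-(4 * π * v * pL x w ^ 2)) := by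
      rw [← Real.exp_add]
      congr 1
      ring
    rw [h1]
    push_cast
    ring
  · rw [if_neg hq, if_neg, mul_zero]
    intro h
    apply hq
    rw [h]; norm_num

/-- The coefficient at `1/3` of the theta lift. -/
theorem coef_third {N : ℕ} (hχ : Measurable χ) (hχ0 : ∀ w, 0 ≤ χ w) (hF : Measurable F)
    (hM : MV χ F (phiN N) v) :
    ∫ u in (0 : ℝ)..3, lift χ F 1 (phiN N) ((u : ℂ) + v * Complex.I) *
        ee ((u * (-((1 : ℤ) : ℝ) / 3) : ℝ) : ℂ) =
      (Real.sqrt v : ℝ) * (3 * ((Real.exp (-(2 * π * v / 3)) : ℝ) *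
        ∫ w, (χ w : ℂ) * (F w * ∑' x : Lat, third N (gs v) w x))) := by
  classical
  rw [coef hχ hχ0 hF hM 1]
  congr 2
  rw [tsum_cf hχ hχ0 hF hM fun x => qL x = ((1 : ℤ) : ℝ) / 3, ← integral_const_mul]
  refine integral_congr_ae (Filter.Eventually.of_forall fun w => ?_)
  simp only
  have h1 : ∑' x : Lat, (if qL x = ((1 : ℤ) : ℝ) / 3 then phiN N x * (wt v w x : ℝ) else 0) =
      (Real.exp (-(2 * π * v / 3)) : ℝ) * ∑' x : Lat, third N (gs v) w x := by
    rw [← tsum_mul_left]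
    refine tsum_congr fun x => ?_
    rw [← third_eq]
  rw [h1]
  ring

/-- **The coefficient at `1/3` vanishes iff the period integral does.**  If the theta lift of `F`
vanishes identically, then `∫ χZ(w) F(w) exp(-4 π v (Im z / (√3 y))²) dw = 0` for all `v > 0`. -/
theorem period_eq_zero {N : ℕ} (hN : N ≠ 0) {χ χZ : H3 → ℝ} (hχ : IsCut (Gam N) χ)
    (hm : Measurable χZ) (h0 : ∀ w, 0 ≤ χZ w)
    (hs : ∀ w : H3, HasSum (fun k : Gamma0 N => χZ (toC k • w)) 1)
    {F : H3 → ℂ} (hF : Measurable F) (hinv : ∀ g ∈ Gam N, ∀ w, F (g • w) = F w)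
    (hdec : Decays F) (hzero : ∀ τ : ℂ, 0 < τ.im → lift χ F 1 (phiN N) τ = 0)
    {v : ℝ} (hv : 0 < v) :
    ∫⁻ w, ENNReal.ofReal (χZ w) * ‖F w * gs v (w.z.im / (Real.sqrt 3 * w.y))‖ₑ ≠ ∞ ∧
      ∫ w, (χZ w : ℂ) * (F w * gs v (w.z.im / (Real.sqrt 3 * w.y))) = 0 := by
  have hφ : ∀ x, ‖phiN N x‖ ≤ 1 := by
    intro x
    rw [phiN]
    split_ifs <;> simp
  have hM := MV_of_decays hN hχ hdec hinv hφ hv
  have h1 := coef_third hχ.meas hχ.nonneg hF hM
  have h2 : ∫ u in (0 : ℝ)..3, lift χ F 1 (phiN N) ((u : ℂ) + v * Complex.I) *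
      ee ((u * (-((1 : ℤ) : ℝ) / 3) : ℝ) : ℂ) = 0 := by
    have h3 : ∀ u : ℝ, lift χ F 1 (phiN N) ((u : ℂ) + v * Complex.I) = 0 := fun u =>
      hzero _ (by simpa using hv)
    simp_rw [h3]
    simp
  rw [h2] at h1
  have h3 : ∫ w, (χ w : ℂ) * (F w * ∑' x : Lat, third N (gs v) w x) = 0 := by
    have h4 : ((Real.sqrt v : ℝ) : ℂ) ≠ 0 := by exact_mod_cast (Real.sqrt_pos.mpr hv).ne'
    have h5 : ((Real.exp (-(2 * π * v / 3)) : ℝ) : ℂ) ≠ 0 := by
      exact_mod_cast (Real.exp_pos _).ne'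
    rcases mul_eq_zero.mp h1.symm with h | h
    · exact absurd h h4
    · rcases mul_eq_zero.mp h with h | h
      · norm_num at h
      · exact (mul_eq_zero.mp h).resolve_left h5
  have hfin : ∫⁻ w, ENNReal.ofReal (χ w) * (‖F w‖ₑ * ∑' x : Lat, ‖third N (gs v) w x‖ₑ) ≠ ∞ := by
    have hc0 : (0 : ℝ) < Real.exp (-(2 * π * v / 3)) := Real.exp_pos _
    have h4 : ∀ w, ENNReal.ofReal (Real.exp (-(2 * π * v / 3))) * (ENNReal.ofReal (χ w) *
        (‖F w‖ₑ * ∑' x : Lat, ‖third N (gs v) w x‖ₑ)) ≤ ENNReal.ofReal (χ w) * (‖F w‖ₑ *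
        ∑' x : Lat, ‖phiN N x‖ₑ * ENNReal.ofReal (wt v w x)) := by
      intro w
      have h5 : ENNReal.ofReal (Real.exp (-(2 * π * v / 3))) * ∑' x : Lat, ‖third N (gs v) w x‖ₑ ≤
          ∑' x : Lat, ‖phiN N x‖ₑ * ENNReal.ofReal (wt v w x) := by
        rw [← ENNReal.tsum_mul_left]
        refine ENNReal.tsum_le_tsum fun x => ?_
        rw [← enorm_ofReal_mul hc0.le, ← third_eq]
        split_ifs
        · rw [mul_comm, enorm_ofReal_mul (wt_pos v w x).le, mul_comm]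
        · simp
      calc ENNReal.ofReal (Real.exp (-(2 * π * v / 3))) * (ENNReal.ofReal (χ w) *
          (‖F w‖ₑ * ∑' x : Lat, ‖third N (gs v) w x‖ₑ)) = ENNReal.ofReal (χ w) * (‖F w‖ₑ *
          (ENNReal.ofReal (Real.exp (-(2 * π * v / 3))) *
            ∑' x : Lat, ‖third N (gs v) w x‖ₑ)) := by ring
        _ ≤ _ := by gcongr
    intro htop
    apply hM
    have h5 := lintegral_mono (μ := (volume : Measure H3)) h4
    rw [lintegral_const_mul' _ _ ENNReal.ofReal_ne_top, htop, ENNReal.mul_top (by simpa using hc0),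
      top_le_iff] at h5
    exact h5
  obtain ⟨h4, h5⟩ := unfold_third hN hχ hm h0 hs hF hinv (measurable_gs v) (gs_neg v) hfin
  simp_rw [pL_x0] at h4 h5
  refine ⟨h4, ?_⟩
  rw [h3] at h5
  have h6 := h5.symm
  rcases mul_eq_zero.mp h6 with h | h
  · norm_num at h
  · exact h

end Fermat.Agent.S47T.Orb
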