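import Mathlib
import Fermat.Agent.H31Hyp2

/-!
# The coordinates `H3 = ℍ × ℝ` around the plane `{Im z = 0}` (S47, T5b, helper90)

`pt (τ, r) = (re τ + i im τ tanh r, im τ / cosh r)`.
-/

set_option autoImplicit false

noncomputable section

open MeasureTheory Set Real UpperHalfPlane
open scoped ComplexConjugate ENNReal MatrixGroups

namespace Fermat.Agent.H90T

/-- The point of `H3` with coordinates `(τ, r)`. -/
def pt (p : ℍ × ℝ) : H3 where
  z := ⟨p.1.re, p.1.im * tanh p.2⟩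
  y := p.1.im / cosh p.2
  pos := div_pos p.1.im_pos (cosh_pos p.2)

@[simp] theorem pt_z (p : ℍ × ℝ) : (pt p).z = ⟨p.1.re, p.1.im * tanh p.2⟩ := rfl
@[simp] theorem pt_y (p : ℍ × ℝ) : (pt p).y = p.1.im / cosh p.2 := rfl

theorem continuous_tanh' : Continuous tanh := by
  have : tanh = fun x => sinh x / cosh x := by funext x; exact tanh_eq_sinh_div_cosh x
  rw [this]
  exact continuous_sinh.div continuous_cosh fun x => (cosh_pos x).ne'

theorem continuous_pt : Continuous pt := by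
  refine H3.continuous_mk ?_ ?_
  · have h : (fun p : ℍ × ℝ => (pt p).z) = fun p => ((p.1.re : ℝ) : ℂ) +
        ((p.1.im * tanh p.2 : ℝ) : ℂ) * Complex.I := by
      funext p
      apply Complex.ext <;> simp [Complex.tanh_ofReal_re]
    rw [h]
    refine Continuous.add ?_ (Continuous.mul ?_ continuous_const)
    · exact Complex.continuous_ofReal.comp (continuous_re.comp continuous_fst)
    · exact Complex.continuous_ofReal.comp ((continuous_im.comp continuous_fst).mul
        (continuous_tanh'.comp continuous_snd))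
  · exact (continuous_im.comp continuous_fst).div (continuous_cosh.comp continuous_snd)
      fun p => (cosh_pos p.2).ne'

theorem tanh_sq_add (r : ℝ) : tanh r ^ 2 + (cosh r ^ 2)⁻¹ = 1 := by
  have hc := (cosh_pos r).ne'
  rw [tanh_eq_sinh_div_cosh]
  field_simp
  nlinarith [cosh_sq r]

/-- the inverse coordinates -/
def ptInv (w : H3) : ℍ × ℝ :=
  (⟨⟨w.z.re, √(w.z.im ^ 2 + w.y ^ 2)⟩, by
    have := w.pos
    show 0 < √(w.z.im ^ 2 + w.y ^ 2)
    exact sqrt_pos.mpr (by positivity)⟩, arsinh (w.z.im / w.y))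

theorem ptInv_pt (p : ℍ × ℝ) : ptInv (pt p) = p := by
  have hc := cosh_pos p.2
  have hi := p.1.im_pos
  have h1 : √((pt p).z.im ^ 2 + (pt p).y ^ 2) = p.1.im := by
    have : (pt p).z.im ^ 2 + (pt p).y ^ 2 = p.1.im ^ 2 := by
      show (p.1.im * tanh p.2) ^ 2 + (p.1.im / cosh p.2) ^ 2 = p.1.im ^ 2
      have h := tanh_sq_add p.2
      calc (p.1.im * tanh p.2) ^ 2 + (p.1.im / cosh p.2) ^ 2
          = p.1.im ^ 2 * (tanh p.2 ^ 2 + (cosh p.2 ^ 2)⁻¹) := by ring
        _ = _ := by rw [h, mul_one]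
    rw [this, sqrt_sq hi.le]
  have h2 : (pt p).z.im / (pt p).y = sinh p.2 := by
    show p.1.im * tanh p.2 / (p.1.im / cosh p.2) = sinh p.2
    rw [tanh_eq_sinh_div_cosh]
    field_simp
  refine Prod.ext ?_ ?_
  · refine UpperHalfPlane.ext ?_
    show (⟨(pt p).z.re, √((pt p).z.im ^ 2 + (pt p).y ^ 2)⟩ : ℂ) = _
    rw [h1]
    rfl
  · show arsinh ((pt p).z.im / (pt p).y) = p.2
    rw [h2, arsinh_sinh]

theorem pt_ptInv (w : H3) : pt (ptInv w) = w := by
  have hy := w.pos
  set u := w.z.im with hu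
  have h0 : 0 < u ^ 2 + w.y ^ 2 := by positivity
  have h3 : cosh (arsinh (u / w.y)) = √(u ^ 2 + w.y ^ 2) / w.y := by
    rw [cosh_arsinh]
    have : 1 + (u / w.y) ^ 2 = (u ^ 2 + w.y ^ 2) / w.y ^ 2 := by field_simp; ring
    rw [this, sqrt_div h0.le, sqrt_sq hy.le]
  have h4 : 0 < √(u ^ 2 + w.y ^ 2) := sqrt_pos.mpr h0
  ext
  · apply Complex.ext
    · rfl
    · show √(u ^ 2 + w.y ^ 2) * tanh (arsinh (u / w.y)) = u
      rw [tanh_eq_sinh_div_cosh, sinh_arsinh, h3]
      field_simp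
  · show √(u ^ 2 + w.y ^ 2) / cosh (arsinh (u / w.y)) = w.y
    rw [h3]
    field_simp

theorem injective_pt : Function.Injective pt := fun p q h => by
  rw [← ptInv_pt p, ← ptInv_pt q, h]

theorem surjective_pt : Function.Surjective pt := fun w => ⟨_, pt_ptInv w⟩



theorem measurableEmbedding_pt : MeasurableEmbedding pt :=
  continuous_pt.measurableEmbedding injective_pt

/-! ### Integration -/

/-- `dx dy / y²` on the upper half plane. -/
theorem lintegral_uhp (g : ℂ → ℝ≥0∞) (hg : Measurable g) :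
    ∫⁻ τ : ℍ, g τ = ∫⁻ x : ℝ, ∫⁻ y in Ioi (0 : ℝ), ENNReal.ofReal ((y ^ 2)⁻¹) * g ⟨x, y⟩ := by
  have hd : (fun z : ℍ => (((1 / NNReal.mk z.im z.im_pos.le : NNReal) ^ 2 : NNReal) : ℝ≥0∞)) =
      fun z : ℍ => ENNReal.ofReal (((z : ℂ).im ^ 2)⁻¹) := by
    funext z
    rw [← ENNReal.ofReal_coe_nnreal]
    congr 1
    push_cast
    show (1 / z.im) ^ 2 = _
    rw [one_div, inv_pow]
    rfl
  have hm : Measurable (fun z : ℂ => ENNReal.ofReal ((z.im ^ 2)⁻¹)) :=
    ((Complex.measurable_im.pow_const 2).inv).ennreal_ofReal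
  have hm' : Measurable (fun z : ℍ => ENNReal.ofReal (((z : ℂ).im ^ 2)⁻¹)) :=
    hm.comp measurable_coe
  have hg' : Measurable (fun z : ℍ => g z) := hg.comp measurable_coe
  rw [volume_def, hd, lintegral_withDensity_eq_lintegral_mul _ hm' hg']
  have h1 := measurableEmbedding_coe.lintegral_map (μ := (volume : Measure ℂ).comap UpperHalfPlane.coe)
    (fun z => ENNReal.ofReal ((z.im ^ 2)⁻¹) * g z)
  rw [measurableEmbedding_coe.map_comap] at h1
  have h2 : ∫⁻ a, ((fun z : ℍ => ENNReal.ofReal (((z : ℂ).im ^ 2)⁻¹)) * fun τ : ℍ => g τ) a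
      ∂((volume : Measure ℂ).comap UpperHalfPlane.coe) =
      ∫⁻ a, (fun z => ENNReal.ofReal ((z.im ^ 2)⁻¹) * g z) ((a : ℍ) : ℂ)
        ∂((volume : Measure ℂ).comap UpperHalfPlane.coe) := rfl
  rw [h2, ← h1]
  have h3 := Complex.volume_preserving_equiv_real_prod.symm.setLIntegral_comp_preimage_emb
    (Complex.measurableEquivRealProd.symm.measurableEmbedding)
    (fun z => ENNReal.ofReal ((z.im ^ 2)⁻¹) * g z) (range UpperHalfPlane.coe)
  rw [← h3]
  have h4 : (Complex.measurableEquivRealProd.symm : ℝ × ℝ → ℂ) ⁻¹' (range UpperHalfPlane.coe) =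
      univ ×ˢ Ioi (0 : ℝ) := by
    ext p
    simp only [mem_preimage, mem_prod, mem_univ, true_and, mem_Ioi]
    constructor
    · rintro ⟨τ, hτ⟩
      have := congrArg Complex.im hτ
      have h5 : (Complex.measurableEquivRealProd.symm p).im = p.2 := rfl
      rw [h5] at this
      rw [← this]
      exact τ.im_pos
    · intro hp
      exact ⟨⟨⟨p.1, p.2⟩, hp⟩, rfl⟩
  rw [h4, Measure.volume_eq_prod, ← Measure.prod_restrict, Measure.restrict_univ]
  refine (lintegral_prod _ ?_).trans ?_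
  · exact ((hm.mul hg).comp Complex.measurableEquivRealProd.symm.measurable).aemeasurable
  · rfl

theorem lintegral_sinh {y : ℝ} (hy : 0 < y) (g : ℝ → ℝ≥0∞) :
    ∫⁻ u, g u = ∫⁻ r, ENNReal.ofReal (y * cosh r) * g (y * sinh r) := by
  have hd : ∀ r ∈ (univ : Set ℝ), HasDerivWithinAt (fun r => y * sinh r) (y * cosh r) univ r :=
    fun r _ => ((hasDerivAt_sinh r).const_mul y).hasDerivWithinAt
  have hinj : InjOn (fun r => y * sinh r) univ := fun a _ b _ h =>
    sinh_injective (mul_left_cancel₀ hy.ne' h)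
  have h := lintegral_image_eq_lintegral_abs_deriv_mul MeasurableSet.univ hd hinj g
  have h2 : (fun r => y * sinh r) '' univ = univ := by
    rw [image_univ, eq_univ_iff_forall]
    intro u
    refine ⟨arsinh (u / y), ?_⟩
    show y * sinh (arsinh (u / y)) = u
    rw [sinh_arsinh]
    field_simp
  rw [h2, Measure.restrict_univ] at h
  rw [h]
  refine lintegral_congr fun r => ?_
  rw [abs_of_pos (mul_pos hy (cosh_pos r))]

theorem lintegral_scale {c : ℝ} (hc : 0 < c) (g : ℝ → ℝ≥0∞) :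
    ∫⁻ y in Ioi (0 : ℝ), g y = ∫⁻ ρ in Ioi (0 : ℝ), ENNReal.ofReal (c⁻¹) * g (ρ / c) := by
  have hd : ∀ r ∈ Ioi (0 : ℝ), HasDerivWithinAt (fun ρ => ρ / c) (c⁻¹) (Ioi 0) r := fun r _ => by
    simpa [div_eq_mul_inv] using ((hasDerivAt_id r).div_const c).hasDerivWithinAt
  have hinj : InjOn (fun ρ => ρ / c) (Ioi (0 : ℝ)) := fun a _ b _ h =>
    (div_left_inj' hc.ne').mp h
  have h := lintegral_image_eq_lintegral_abs_deriv_mul measurableSet_Ioi hd hinj g
  have h2 : (fun ρ => ρ / c) '' Ioi (0 : ℝ) = Ioi 0 := by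
    ext y
    constructor
    · rintro ⟨ρ, hρ, rfl⟩
      exact div_pos hρ hc
    · intro hy
      exact ⟨y * c, mul_pos hy hc, by field_simp⟩
  rw [h2] at h
  rw [h]
  refine lintegral_congr fun r => ?_
  rw [abs_of_pos (inv_pos.mpr hc)]

/-- the measure `cosh² r dr` -/
def rMeasure : Measure ℝ := volume.withDensity fun r => ENNReal.ofReal (cosh r ^ 2)

instance : SFinite rMeasure := by unfold rMeasure; infer_instance

theorem measurable_rdens : Measurable (fun r : ℝ => ENNReal.ofReal (cosh r ^ 2)) :=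
  (measurable_cosh.pow_const 2).ennreal_ofReal

/-- **The integration formula**: `volume = μ_ℍ × cosh² r dr` in the coordinates `(τ, r)`. -/
theorem lintegral_pt (g : H3 → ℝ≥0∞) (hg : Measurable g) :
    ∫⁻ w, g w = ∫⁻ p, g (pt p) ∂((volume : Measure ℍ).prod rMeasure) := by
  set e : H3 → ℂ × ℝ := fun w => (w.z, w.y) with he
  have hee : MeasurableEmbedding e := H3.measurableEmbedding_zy
  set f : ℂ × ℝ → ℝ≥0∞ := Function.extend e g 0 with hf
  have hfm : Measurable f := hee.measurable_extend hg measurable_const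
  have hfe : ∀ w, f (w.z, w.y) = g w := fun w => hee.injective.extend_apply g 0 w
  have hL : ∫⁻ w, g w = ∫⁻ y in Ioi (0 : ℝ), (∫⁻ z : ℂ, f (z, y)) *
      ENNReal.ofReal ((y ^ 3)⁻¹) := by
    rw [← H3.lintegral_eq (fun z y => f (z, y)) hfm]
    exact lintegral_congr fun w => (hfe w).symm
  -- the function on the level of `(x, r, y)`
  have hm1 : Measurable (fun q : ℝ × ℝ × ℝ => f (⟨q.1, q.2.2 * sinh q.2.1⟩, q.2.2)) := by
    refine hfm.comp (Measurable.prodMk ?_ (measurable_snd.comp measurable_snd))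
    have h : (fun q : ℝ × ℝ × ℝ => (⟨q.1, q.2.2 * sinh q.2.1⟩ : ℂ)) = fun q =>
        ((q.1 : ℝ) : ℂ) + ((q.2.2 * sinh q.2.1 : ℝ) : ℂ) * Complex.I := by
      funext q
      apply Complex.ext <;> simp [Complex.sinh_ofReal_re]
    rw [h]
    fun_prop
  have hz : ∀ y : ℝ, ∫⁻ z : ℂ, f (z, y) = ∫⁻ x : ℝ, ∫⁻ u : ℝ, f (⟨x, u⟩, y) := by
    intro y
    rw [← Complex.volume_preserving_equiv_real_prod.symm.lintegral_comp_emb
      Complex.measurableEquivRealProd.symm.measurableEmbedding (fun z => f (z, y)),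
      Measure.volume_eq_prod]
    refine (lintegral_prod _ ?_).trans ?_
    · exact ((hfm.comp (measurable_id.prodMk measurable_const)).comp
        Complex.measurableEquivRealProd.symm.measurable).aemeasurable
    · rfl
  have h1 : ∀ y ∈ Ioi (0 : ℝ), (∫⁻ z : ℂ, f (z, y)) * ENNReal.ofReal ((y ^ 3)⁻¹) =
      ∫⁻ x : ℝ, ∫⁻ r : ℝ, ENNReal.ofReal ((y ^ 3)⁻¹) * (ENNReal.ofReal (y * cosh r) *
        f (⟨x, y * sinh r⟩, y)) := by
    intro y hy
    rw [hz y, mul_comm, ← lintegral_const_mul']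
    · refine lintegral_congr fun x => ?_
      rw [lintegral_sinh hy, ← lintegral_const_mul']
      exact ENNReal.ofReal_ne_top
    · exact ENNReal.ofReal_ne_top
  rw [hL, setLIntegral_congr_fun measurableSet_Ioi h1]
  -- exchange of the integrations
  have hm2 : Measurable (fun q : ℝ × ℝ × ℝ => ENNReal.ofReal ((q.2.2 ^ 3)⁻¹) *
      (ENNReal.ofReal (q.2.2 * cosh q.2.1) * f (⟨q.1, q.2.2 * sinh q.2.1⟩, q.2.2))) := by
    refine Measurable.mul ?_ (Measurable.mul ?_ hm1)
    · exact (((measurable_snd.comp measurable_snd).pow_const 3).inv).ennreal_ofReal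
    · exact ((measurable_snd.comp measurable_snd).mul
        (measurable_cosh.comp (measurable_fst.comp measurable_snd))).ennreal_ofReal
  rw [lintegral_lintegral_swap (f := fun y x => ∫⁻ r : ℝ, ENNReal.ofReal ((y ^ 3)⁻¹) *
    (ENNReal.ofReal (y * cosh r) * f (⟨x, y * sinh r⟩, y)))]
  swap
  · refine Measurable.aemeasurable (Measurable.lintegral_prod_right' (f := fun q : (ℝ × ℝ) × ℝ =>
      ENNReal.ofReal ((q.1.1 ^ 3)⁻¹) * (ENNReal.ofReal (q.1.1 * cosh q.2) *
        f (⟨q.1.2, q.1.1 * sinh q.2⟩, q.1.1))) ?_)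
    exact hm2.comp (f := fun q : (ℝ × ℝ) × ℝ => (q.1.2, q.2, q.1.1)) (by fun_prop)
  have h2 : ∀ x : ℝ, ∫⁻ y in Ioi (0 : ℝ), ∫⁻ r : ℝ, ENNReal.ofReal ((y ^ 3)⁻¹) *
      (ENNReal.ofReal (y * cosh r) * f (⟨x, y * sinh r⟩, y)) =
      ∫⁻ r : ℝ, ENNReal.ofReal (cosh r ^ 2) * ∫⁻ ρ in Ioi (0 : ℝ), ENNReal.ofReal ((ρ ^ 2)⁻¹) *
        f (⟨x, ρ * tanh r⟩, ρ / cosh r) := by
    intro x
    rw [lintegral_lintegral_swap (f := fun y r => ENNReal.ofReal ((y ^ 3)⁻¹) *
      (ENNReal.ofReal (y * cosh r) * f (⟨x, y * sinh r⟩, y)))]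
    swap
    · exact (hm2.comp (f := fun q : ℝ × ℝ => (x, q.2, q.1)) (by fun_prop)).aemeasurable
    refine lintegral_congr fun r => ?_
    have hc := cosh_pos r
    rw [lintegral_scale hc, ← lintegral_const_mul' _ _ ENNReal.ofReal_ne_top]
    refine setLIntegral_congr_fun measurableSet_Ioi fun ρ hρ => ?_
    have hρ' : (0 : ℝ) < ρ := hρ
    show ENNReal.ofReal (cosh r)⁻¹ * (ENNReal.ofReal (((ρ / cosh r) ^ 3)⁻¹) *
      (ENNReal.ofReal (ρ / cosh r * cosh r) * f (⟨x, ρ / cosh r * sinh r⟩, ρ / cosh r))) =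
      ENNReal.ofReal (cosh r ^ 2) * (ENNReal.ofReal ((ρ ^ 2)⁻¹) *
        f (⟨x, ρ * tanh r⟩, ρ / cosh r))
    have e1 : ρ / cosh r * sinh r = ρ * tanh r := by rw [tanh_eq_sinh_div_cosh]; ring
    rw [e1, ← mul_assoc, ← mul_assoc, ← mul_assoc, ← ENNReal.ofReal_mul (by positivity),
      ← ENNReal.ofReal_mul (by positivity), ← ENNReal.ofReal_mul (by positivity)]
    congr 2
    field_simp
  simp only [h2]
  -- right hand side
  have hgm : Measurable (fun p : ℍ × ℝ => g (pt p)) := hg.comp continuous_pt.measurable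
  have hm3 : Measurable (fun q : ℝ × ℝ × ℝ => ENNReal.ofReal ((q.2.2 ^ 2)⁻¹) *
      f (⟨q.1, q.2.2 * tanh q.2.1⟩, q.2.2 / cosh q.2.1)) := by
    refine Measurable.mul ?_ (hfm.comp (Measurable.prodMk ?_ (by fun_prop)))
    · exact (((measurable_snd.comp measurable_snd).pow_const 2).inv).ennreal_ofReal
    have h : (fun q : ℝ × ℝ × ℝ => (⟨q.1, q.2.2 * tanh q.2.1⟩ : ℂ)) = fun q =>
        ((q.1 : ℝ) : ℂ) + ((q.2.2 * tanh q.2.1 : ℝ) : ℂ) * Complex.I := by
      funext q
      apply Complex.ext <;> simp [Complex.tanh_ofReal_re]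
    rw [h]
    have ht : Measurable tanh := continuous_tanh'.measurable
    exact ((Complex.measurable_ofReal.comp measurable_fst)).add
      ((Complex.measurable_ofReal.comp ((measurable_snd.comp measurable_snd).mul
        (ht.comp (measurable_fst.comp measurable_snd)))).mul measurable_const)
  rw [lintegral_prod_symm _ hgm.aemeasurable, rMeasure,
    lintegral_withDensity_eq_lintegral_mul _ measurable_rdens hgm.lintegral_prod_left']
  have h5 : ∀ r : ℝ, ∫⁻ τ : ℍ, g (pt (τ, r)) = ∫⁻ x : ℝ, ∫⁻ y in Ioi (0 : ℝ),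
      ENNReal.ofReal ((y ^ 2)⁻¹) * f (⟨x, y * tanh r⟩, y / cosh r) := by
    intro r
    rw [← lintegral_uhp (fun z => f (⟨z.re, z.im * tanh r⟩, z.im / cosh r))]
    · exact lintegral_congr fun τ => (hfe _).symm
    · refine hfm.comp (Measurable.prodMk ?_ (by fun_prop))
      have h : (fun z : ℂ => (⟨z.re, z.im * tanh r⟩ : ℂ)) = fun z =>
          ((z.re : ℝ) : ℂ) + ((z.im * tanh r : ℝ) : ℂ) * Complex.I := by
        funext q
        apply Complex.ext <;> simp [Complex.tanh_ofReal_re]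
      rw [h]
      fun_prop
  simp only [Pi.mul_apply, h5]
  rw [lintegral_lintegral_swap]
  · refine lintegral_congr fun r => ?_
    rw [lintegral_const_mul' _ _ ENNReal.ofReal_ne_top]
  · refine Measurable.aemeasurable ?_
    refine Measurable.mul (measurable_rdens.comp measurable_snd) ?_
    exact Measurable.lintegral_prod_right' (f := fun q : (ℝ × ℝ) × ℝ =>
      ENNReal.ofReal ((q.2 ^ 2)⁻¹) * f (⟨q.1.1, q.2 * tanh q.1.2⟩, q.2 / cosh q.1.2))
      (hm3.comp (f := fun q : (ℝ × ℝ) × ℝ => (q.1.1, q.1.2, q.2)) (by fun_prop))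

/-- `pt` preserves the measures. -/
theorem measurePreserving_pt : MeasurePreserving pt ((volume : Measure ℍ).prod rMeasure) volume :=
  ⟨continuous_pt.measurable, Measure.ext_of_lintegral _ fun g hg => by
    rw [lintegral_map hg continuous_pt.measurable, lintegral_pt g hg]⟩

theorem integral_rMeasure (g : ℝ → ℂ) : ∫ r, g r ∂rMeasure = ∫ r, (cosh r ^ 2 : ℝ) * g r := by
  rw [rMeasure, integral_withDensity_eq_integral_toReal_smul measurable_rdens
    (Filter.Eventually.of_forall fun y => ENNReal.ofReal_lt_top)]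
  refine integral_congr_ae (Filter.Eventually.of_forall fun r => ?_)
  show (ENNReal.ofReal (cosh r ^ 2)).toReal • g r = _
  rw [ENNReal.toReal_ofReal (by positivity)]
  exact Complex.real_smul

/-! ### Equivariance -/

/-- `SL(2,ℤ)` in `GL(2,ℂ)`. -/
def toC : SL(2, ℤ) →* GL (Fin 2) ℂ :=
  Matrix.SpecialLinearGroup.toGL.comp (Matrix.SpecialLinearGroup.map (Int.castRingHom ℂ))

@[simp] theorem toC_apply (g : SL(2, ℤ)) (i j : Fin 2) : (toC g) i j = ((g i j : ℤ) : ℂ) := rfl

theorem det_toC (g : SL(2, ℤ)) : ((toC g : GL (Fin 2) ℂ) : Matrix (Fin 2) (Fin 2) ℂ).det = 1 :=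
  (Matrix.SpecialLinearGroup.map (Int.castRingHom ℂ) g).det_coe

theorem toC_smul_pt (g : SL(2, ℤ)) (τ : ℍ) (r : ℝ) : toC g • pt (τ, r) = pt (g • τ, r) := by
  have hdet : ((g 0 0 : ℤ) : ℝ) * (g 1 1 : ℤ) - (g 0 1 : ℤ) * (g 1 0 : ℤ) = 1 := by
    have := g.det_coe
    rw [Matrix.det_fin_two] at this
    exact_mod_cast this
  set a : ℝ := ((g 0 0 : ℤ) : ℝ) with ha
  set b : ℝ := ((g 0 1 : ℤ) : ℝ) with hb
  set c : ℝ := ((g 1 0 : ℤ) : ℝ) with hc
  set d : ℝ := ((g 1 1 : ℤ) : ℝ) with hd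
  have hτ := τ.im_pos
  have hch := cosh_pos r
  have hts := tanh_sq_add r
  set x := τ.re with hx
  set v := τ.im with hv
  set D : ℝ := (c * x + d) ^ 2 + c ^ 2 * v ^ 2 with hD
  have hD0 : 0 < D := by
    have h0 : (c ≠ 0) ∨ (c * x + d ≠ 0) := by
      by_contra h
      push Not at h
      rw [h.1] at hdet
      have h2 := h.2
      rw [h.1, zero_mul, zero_add] at h2
      rw [h2] at hdet
      norm_num at hdet
    rcases h0 with h0 | h0
    · have := sq_nonneg (c * x + d)
      have h3 : 0 < c ^ 2 * v ^ 2 := by positivity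
      linarith
    · have h3 : 0 < (c * x + d) ^ 2 := by positivity
      have h4 : 0 ≤ c ^ 2 * v ^ 2 := by positivity
      linarith
  -- the action on the upper half plane
  have hu : ((g • τ : ℍ) : ℂ) = ⟨((a * x + b) * (c * x + d) + a * c * v ^ 2) / D, v / D⟩ := by
    rw [coe_specialLinearGroup_apply]
    have h1 : (τ : ℂ) = ⟨x, v⟩ := rfl
    have hne : ((c : ℂ) * (τ : ℂ) + (d : ℂ)) ≠ 0 := by
      intro h
      have h2 := congrArg Complex.normSq h
      rw [h1, map_zero, Complex.normSq_apply] at h2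
      simp at h2
      nlinarith
    have e00 : ((algebraMap ℤ ℝ (g 0 0) : ℝ) : ℂ) = (a : ℂ) := by simp [ha]
    have e01 : ((algebraMap ℤ ℝ (g 0 1) : ℝ) : ℂ) = (b : ℂ) := by simp [hb]
    have e10 : ((algebraMap ℤ ℝ (g 1 0) : ℝ) : ℂ) = (c : ℂ) := by simp [hc]
    have e11 : ((algebraMap ℤ ℝ (g 1 1) : ℝ) : ℂ) = (d : ℂ) := by simp [hd]
    rw [e00, e01, e10, e11, div_eq_iff hne, h1]
    apply Complex.ext
    · simp only [Complex.add_re, Complex.mul_re, Complex.ofReal_re, Complex.ofReal_im,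
        Complex.add_im, Complex.mul_im]
      field_simp
      rw [hD]
      linear_combination (-(c * v ^ 2)) * hdet
    · simp only [Complex.add_re, Complex.mul_re, Complex.ofReal_re, Complex.ofReal_im,
        Complex.add_im, Complex.mul_im]
      field_simp
      rw [hD]
      linear_combination (v * (c * x + d)) * hdet
  have f00 : (toC g) 0 0 = (a : ℂ) := by simp [ha]
  have f01 : (toC g) 0 1 = (b : ℂ) := by simp [hb]
  have f10 : (toC g) 1 0 = (c : ℂ) := by simp [hc]
  have f11 : (toC g) 1 1 = (d : ℂ) := by simp [hd]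
  have hT : (v * tanh r) ^ 2 + (v / cosh r) ^ 2 = v ^ 2 := by
    calc (v * tanh r) ^ 2 + (v / cosh r) ^ 2 = v ^ 2 * (tanh r ^ 2 + (cosh r ^ 2)⁻¹) := by
          rw [div_pow]; ring
      _ = _ := by rw [hts, mul_one]
  have hden : H3.den (toC g : GL (Fin 2) ℂ) (pt (τ, r)) = D := by
    rw [H3.den, f10, f11, Complex.normSq_apply, Complex.normSq_ofReal]
    simp only [pt_z, pt_y, Complex.add_re, Complex.mul_re, Complex.ofReal_re, Complex.ofReal_im,
        Complex.add_im, Complex.mul_im]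
    rw [← hx, ← hv, hD]
    linear_combination (c ^ 2) * hT
  have hur : (g • τ).re = ((a * x + b) * (c * x + d) + a * c * v ^ 2) / D := congrArg Complex.re hu
  have hui : (g • τ).im = v / D := congrArg Complex.im hu
  ext
  · rw [H3.smul_z, hden, f00, f01, f10, f11, pt_z, pt_z, hur, hui]
    have hDc : (D : ℂ) ≠ 0 := by exact_mod_cast hD0.ne'
    rw [div_eq_iff hDc]
    apply Complex.ext
    · simp only [pt_y, Complex.add_re, Complex.mul_re, Complex.ofReal_re, Complex.ofReal_im,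
        Complex.add_im, Complex.mul_im, Complex.conj_re, Complex.conj_im, ← Complex.ofReal_pow]
      rw [← hx, ← hv, div_mul_cancel₀ _ hD0.ne']
      linear_combination (a * c) * hT
    · simp only [pt_y, Complex.add_re, Complex.mul_re, Complex.ofReal_re, Complex.ofReal_im,
        Complex.add_im, Complex.mul_im, Complex.conj_re, Complex.conj_im, ← Complex.ofReal_pow]
      have e2 : v / D * tanh r * D = v * tanh r := by field_simp
      rw [← hx, ← hv, e2]
      linear_combination (v * tanh r) * hdet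
  · rw [H3.smul_y, hden, det_toC, norm_one, one_mul, pt_y, pt_y, hui]
    show v / cosh r / D = _
    field_simp

end Fermat.Agent.H90T
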