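import Fermat.Agent.H22ZK0

/-!
# The Bessel function `K₀`, II: integral formulas and uniqueness
-/

set_option autoImplicit false

open MeasureTheory Set Real Filter Topology
open scoped ContDiff

noncomputable section

namespace Fermat.Agent.H22Z

/-! ### Substitution `u = e^t` -/

theorem integral_Ioi_inv_smul {E : Type*} [NormedAddCommGroup E] [NormedSpace ℝ E] (g : ℝ → E) :
    ∫ u in Ioi (0 : ℝ), u⁻¹ • g u = ∫ t : ℝ, g (exp t) := by
  have himg : exp '' univ = Ioi (0 : ℝ) := by rw [image_univ, range_exp]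
  rw [← himg, integral_image_eq_integral_abs_deriv_smul MeasurableSet.univ
    (fun x _ => (hasDerivAt_exp x).hasDerivWithinAt) exp_injective.injOn, setIntegral_univ]
  refine integral_congr_ae (Eventually.of_forall fun t => ?_)
  show |exp t| • ((exp t)⁻¹ • g (exp t)) = g (exp t)
  rw [abs_of_pos (exp_pos t), smul_smul, mul_inv_cancel₀ (exp_pos t).ne', one_smul]

theorem integrableOn_Ioi_inv_smul {E : Type*} [NormedAddCommGroup E] [NormedSpace ℝ E]
    (g : ℝ → E) :
    IntegrableOn (fun u => u⁻¹ • g u) (Ioi (0 : ℝ)) ↔ Integrable fun t : ℝ => g (exp t) := by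
  have himg : exp '' univ = Ioi (0 : ℝ) := by rw [image_univ, range_exp]
  rw [← himg, integrableOn_image_iff_integrableOn_abs_deriv_smul MeasurableSet.univ
    (fun x _ => (hasDerivAt_exp x).hasDerivWithinAt) exp_injective.injOn, integrableOn_univ]
  refine integrable_congr (Eventually.of_forall fun t => ?_)
  show |exp t| • ((exp t)⁻¹ • g (exp t)) = g (exp t)
  rw [abs_of_pos (exp_pos t), smul_smul, mul_inv_cancel₀ (exp_pos t).ne', one_smul]

theorem integrable_exp_cosh {c : ℝ} (hc : 0 < c) : Integrable fun t : ℝ => exp (-c * cosh t) := by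
  have h := (integrableOn_exp_cosh hc 0)
  have h2 : Integrable fun t : ℝ => exp (-c * cosh |t|) := by
    rw [← integrableOn_univ, ← Iic_union_Ioi (a := (0 : ℝ)), integrableOn_union]
    constructor
    · rw [← Measure.map_neg_eq_self (volume : Measure ℝ)]
      have m : MeasurableEmbedding fun x : ℝ => -x := (Homeomorph.neg ℝ).measurableEmbedding
      rw [m.integrableOn_map_iff]
      simp only [Function.comp_def, abs_neg, neg_preimage, neg_Iic, neg_zero]
      rw [integrableOn_Ici_iff_integrableOn_Ioi]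
      refine h.congr_fun (fun t ht => ?_) measurableSet_Ioi
      simp only [abs_of_pos (show (0 : ℝ) < t from ht)]
    · refine h.congr_fun (fun t ht => ?_) measurableSet_Ioi
      simp only [abs_of_pos (show (0 : ℝ) < t from ht)]
  simpa [cosh_abs] using h2

theorem integral_exp_cosh (c : ℝ) : ∫ t : ℝ, exp (-c * cosh t) = 2 * K0 c := by
  have h := integral_comp_abs (f := fun t => exp (-c * cosh t))
  simp only [cosh_abs] at h
  rw [h, K0]

/-- `∫_0^∞ exp (-a u - b / u) du / u = 2 K₀ (2 √(a b))` -/
theorem integral_exp_add_inv {a b : ℝ} (ha : 0 < a) (hb : 0 < b) :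
    ∫ u in Ioi (0 : ℝ), u⁻¹ * exp (-a * u - b / u) = 2 * K0 (2 * √(a * b)) := by
  have h1 := integral_Ioi_inv_smul fun u => exp (-a * u - b / u)
  simp only [smul_eq_mul] at h1
  rw [h1, ← integral_exp_cosh]
  have hl : (0 : ℝ) < √(b / a) := sqrt_pos.2 (div_pos hb ha)
  rw [← integral_add_right_eq_self (fun t => exp (-a * exp t - b / exp t)) (log (√(b / a)))]
  refine integral_congr_ae (Eventually.of_forall fun t => ?_)
  show exp _ = exp _
  congr 1
  rw [exp_add, exp_log hl, cosh_eq, exp_neg]
  have e1 : a * √(b / a) = √(a * b) := by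
    rw [show a * b = a ^ 2 * (b / a) by field_simp, sqrt_mul (by positivity), sqrt_sq ha.le]
  have e2 : b / √(b / a) = √(a * b) := by
    rw [sqrt_div hb.le, sqrt_mul ha.le]
    have := mul_self_sqrt hb.le
    have h0 : √b ≠ 0 := (sqrt_pos.2 hb).ne'
    field_simp
    linear_combination (-1 : ℝ) * this
  have h3 := (exp_pos t).ne'
  have e3 : b / (exp t * √(b / a)) = √(a * b) * (exp t)⁻¹ := by
    rw [← e2]
    field_simp
  rw [e3]
  linear_combination (-exp t) * e1

theorem integrableOn_exp_add_inv {a b : ℝ} (ha : 0 < a) (hb : 0 < b) :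
    IntegrableOn (fun u => u⁻¹ * exp (-a * u - b / u)) (Ioi 0) := by
  by_contra hcon
  have h := integral_exp_add_inv ha hb
  rw [integral_undef hcon] at h
  have : 0 < K0 (2 * √(a * b)) := K0_pos (by positivity)
  linarith

/-! ### Bounds -/

theorem K0_le_log {x : ℝ} (hx : 0 < x) : K0 x ≤ |log x| + 2 := by
  set T : ℝ := |log x| with hT
  have hT0 : 0 ≤ T := abs_nonneg _
  have h1 : K0 x = (∫ t in Ioc 0 T, exp (-x * cosh t)) + ∫ t in Ioi T, exp (-x * cosh t) := by
    rw [K0, ← Ioc_union_Ioi_eq_Ioi hT0, setIntegral_union Ioc_disjoint_Ioi_same measurableSet_Ioi]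
    · exact (integrableOn_exp_cosh hx 0).mono_set Ioc_subset_Ioi_self
    · exact integrableOn_exp_cosh hx T
  rw [h1]
  have h2 : (∫ t in Ioc 0 T, exp (-x * cosh t)) ≤ T := by
    have := setIntegral_mono_on (μ := volume) (s := Ioc 0 T) (f := fun t => exp (-x * cosh t))
      (g := fun _ => (1 : ℝ)) ((integrableOn_exp_cosh hx 0).mono_set Ioc_subset_Ioi_self)
      (by simp) measurableSet_Ioc (fun t _ => by
        have := cosh_pos t
        have h3 : -x * cosh t ≤ 0 := by nlinarith
        simpa using exp_le_one_iff.2 h3)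
    refine this.trans ?_
    simp [hT0]
  have h3 : (∫ t in Ioi T, exp (-x * cosh t)) ≤ 2 := by
    have hi : IntegrableOn (fun t => exp (T / 2) * exp (-(1 / 2) * t)) (Ioi T) :=
      (exp_neg_integrableOn_Ioi T (by norm_num : (0 : ℝ) < 1 / 2)).const_mul _
    have h4 := setIntegral_mono_on (integrableOn_exp_cosh hx T) hi measurableSet_Ioi
      (fun t ht => by
        rw [← exp_add]
        apply exp_le_exp.2
        have ht' : T < t := ht
        have e1 : exp (t - T) ≤ x * exp t := by
          rw [exp_sub, div_le_iff₀ (exp_pos T)]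
          have : 1 ≤ x * exp T := by
            have : exp (-T) ≤ x := by
              calc exp (-T) ≤ exp (log x) := exp_le_exp.2 (by rw [hT]; exact neg_abs_le _)
                _ = x := exp_log hx
            calc (1 : ℝ) = exp (-T) * exp T := by rw [← exp_add]; simp
              _ ≤ x * exp T := by gcongr
          nlinarith [exp_pos t]
        have e2 : t - T ≤ exp (t - T) := by
          have := add_one_le_exp (t - T)
          linarith
        have e3 : exp t / 2 ≤ cosh t := by
          rw [cosh_eq]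
          have := exp_pos (-t)
          linarith
        nlinarith)
    refine h4.trans (le_of_eq ?_)
    rw [integral_const_mul, integral_exp_mul_Ioi (by norm_num) T, ← mul_div_assoc, mul_neg,
      ← exp_add]
    have : T / 2 + -(1 / 2) * T = 0 := by ring
    rw [this, exp_zero]
    norm_num
  linarith

/-! ### The Mellin transform -/

theorem lintegral_K0 {s : ℝ} (hs : 0 < s) :
    ∫⁻ x in Ioi (0 : ℝ), ENNReal.ofReal (x ^ (s - 1) * (2 * K0 x)) =
      ENNReal.ofReal (2 ^ (s - 1) * Gamma (s / 2) ^ 2) := by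
  have hs2 : 0 < s / 2 := half_pos hs
  have hG : 0 < Gamma (s / 2) := Gamma_pos_of_pos hs2
  have h1 : ∀ x ∈ Ioi (0 : ℝ), ENNReal.ofReal (x ^ (s - 1) * (2 * K0 x)) =
      ∫⁻ p in Ioi (0 : ℝ), ENNReal.ofReal (x ^ (s - 1) * (p⁻¹ * exp (-1 * p - x ^ 2 / 4 / p))) := by
    intro x hx
    have hx' : 0 < x := hx
    have e : 2 * √(1 * (x ^ 2 / 4)) = x := by
      rw [one_mul, show x ^ 2 / 4 = (x / 2) ^ 2 by ring, sqrt_sq (by positivity)]
      ring
    have h2 := integral_exp_add_inv one_pos (show (0 : ℝ) < x ^ 2 / 4 by positivity)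
    rw [e] at h2
    rw [← h2, ← integral_const_mul, ← ofReal_integral_eq_lintegral_ofReal]
    · exact (integrableOn_exp_add_inv one_pos (show (0 : ℝ) < x ^ 2 / 4 by positivity)).const_mul _
    · filter_upwards [ae_restrict_mem measurableSet_Ioi] with p hp
      have : (0 : ℝ) < p := hp
      positivity
  rw [setLIntegral_congr_fun measurableSet_Ioi h1]
  rw [lintegral_lintegral_swap]
  · have h3 : ∀ p ∈ Ioi (0 : ℝ), ∫⁻ x in Ioi (0 : ℝ),
        ENNReal.ofReal (x ^ (s - 1) * (p⁻¹ * exp (-1 * p - x ^ 2 / 4 / p))) =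
        ENNReal.ofReal ((2 ^ (s - 1) * Gamma (s / 2)) * (exp (-p) * p ^ (s / 2 - 1))) := by
      intro p hp
      have hp' : 0 < p := hp
      have hb : 0 < 1 / (4 * p) := by positivity
      have hint := integrableOn_rpow_mul_exp_neg_mul_rpow (s := s - 1) (p := 2) (b := 1 / (4 * p))
        (by linarith) (by norm_num) hb
      have hval := integral_rpow_mul_exp_neg_mul_rpow (p := 2) (q := s - 1) (b := 1 / (4 * p))
        (by norm_num) (by linarith) hb
      have hfun : ∀ x ∈ Ioi (0 : ℝ), x ^ (s - 1) * (p⁻¹ * exp (-1 * p - x ^ 2 / 4 / p)) =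
          (p⁻¹ * exp (-p)) * (x ^ (s - 1) * exp (-(1 / (4 * p)) * x ^ (2 : ℝ))) := by
        intro x hx
        have : -1 * p - x ^ 2 / 4 / p = -p + -(1 / (4 * p)) * x ^ (2 : ℝ) := by
          rw [rpow_two]
          field_simp
          ring
        rw [this, exp_add]
        ring
      rw [setLIntegral_congr_fun measurableSet_Ioi fun x hx => congrArg ENNReal.ofReal (hfun x hx),
        ← ofReal_integral_eq_lintegral_ofReal (hint.const_mul _), integral_const_mul, hval]
      · congr 1
        have e1 : (s - 1 + 1) / 2 = s / 2 := by ring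
        have e1' : -(s - 1 + 1) / 2 = -(s / 2) := by ring
        rw [e1, e1', one_div, inv_rpow (by positivity), rpow_neg (by positivity), inv_inv,
          mul_rpow (by norm_num) hp'.le, rpow_sub_one hp'.ne', rpow_sub_one (by norm_num)]
        have e2 : (4 : ℝ) ^ (s / 2) = 2 ^ s := by
          rw [show (4 : ℝ) = 2 ^ (2 : ℝ) by norm_num, ← rpow_mul (by norm_num)]
          congr 1
          ring
        rw [e2]
        field_simp
      · filter_upwards [ae_restrict_mem measurableSet_Ioi] with x hx
        have : (0 : ℝ) < x := hx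
        positivity
    rw [setLIntegral_congr_fun measurableSet_Ioi h3,
      ← ofReal_integral_eq_lintegral_ofReal ((GammaIntegral_convergent hs2).const_mul _),
      integral_const_mul, ← Gamma_eq_integral hs2]
    · congr 1
      ring
    · filter_upwards [ae_restrict_mem measurableSet_Ioi] with p hp
      have : (0 : ℝ) < p := hp
      positivity
  · refine Measurable.aemeasurable ?_
    refine ENNReal.measurable_ofReal.comp ?_
    fun_prop

theorem integrableOn_K0_rpow {s : ℝ} (hs : 0 < s) :
    IntegrableOn (fun x => x ^ (s - 1) * K0 x) (Ioi 0) := by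
  have h := lintegral_K0 hs
  have h2 : IntegrableOn (fun x => x ^ (s - 1) * (2 * K0 x)) (Ioi 0) := by
    refine ⟨?_, ?_⟩
    · refine ContinuousOn.aestronglyMeasurable ?_ measurableSet_Ioi
      refine ContinuousOn.mul ?_ (continuousOn_K0.const_smul (2 : ℝ))
      exact fun x hx => (continuousAt_rpow_const x _ (Or.inl (ne_of_gt hx))).continuousWithinAt
    · rw [hasFiniteIntegral_iff_ofReal, h]
      · exact ENNReal.ofReal_lt_top
      · filter_upwards [ae_restrict_mem measurableSet_Ioi] with x hx
        have h0 : (0 : ℝ) < x := hx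
        have := K0_pos h0
        positivity
  refine IntegrableOn.congr_fun (h2.const_mul (1 / 2)) (fun x _ => ?_) measurableSet_Ioi
  ring

/-- `∫_0^∞ x^{s-1} K₀(x) dx = 2^{s-2} Γ(s/2)²` -/
theorem integral_K0_rpow {s : ℝ} (hs : 0 < s) :
    ∫ x in Ioi (0 : ℝ), x ^ (s - 1) * K0 x = 2 ^ (s - 2) * Gamma (s / 2) ^ 2 := by
  have h := lintegral_K0 hs
  have hnn : 0 ≤ᵐ[volume.restrict (Ioi (0 : ℝ))] fun x => x ^ (s - 1) * (2 * K0 x) := by
    filter_upwards [ae_restrict_mem measurableSet_Ioi] with x hx
    have h0 : (0 : ℝ) < x := hx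
    have := K0_pos h0
    show 0 ≤ x ^ (s - 1) * (2 * K0 x)
    positivity
  have hi : IntegrableOn (fun x => x ^ (s - 1) * (2 * K0 x)) (Ioi 0) :=
    IntegrableOn.congr_fun ((integrableOn_K0_rpow hs).const_mul 2) (fun x _ => by ring)
      measurableSet_Ioi
  rw [← ofReal_integral_eq_lintegral_ofReal hi hnn, ENNReal.ofReal_eq_ofReal_iff
    (integral_nonneg_of_ae hnn) (by positivity)] at h
  have e : ∫ x in Ioi (0 : ℝ), x ^ (s - 1) * (2 * K0 x) =
      2 * ∫ x in Ioi (0 : ℝ), x ^ (s - 1) * K0 x := by
    rw [← integral_const_mul]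
    refine integral_congr_ae (Eventually.of_forall fun x => ?_)
    show x ^ (s - 1) * (2 * K0 x) = 2 * (x ^ (s - 1) * K0 x)
    ring
  rw [e] at h
  have e2 : (2 : ℝ) ^ (s - 1) = 2 * 2 ^ (s - 2) := by
    rw [show s - 1 = 1 + (s - 2) by ring, rpow_add (by norm_num), rpow_one]
  rw [e2] at h
  linarith

end Fermat.Agent.H22Z
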