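import Mathlib
import Fermat.Agent.H22ZK0b

/-!
# Integrals of `K₀` against powers and cosines (S47, T5b, helper90)
-/

set_option autoImplicit false

open MeasureTheory Set Real Filter Topology

noncomputable section

namespace Fermat.Agent.H90T

open Fermat.Agent.H22Z

theorem integrableOn_exp_cos {c : ℝ} (hc : 0 < c) (b : ℝ) :
    IntegrableOn (fun t => exp (-(c * t)) * cos (b * t)) (Ioi 0) := by
  have h := exp_neg_integrableOn_Ioi (0 : ℝ) hc
  refine Integrable.mono' h ?_ ?_
  · exact (Continuous.aestronglyMeasurable (by fun_prop))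
  · refine Eventually.of_forall fun t => ?_
    rw [norm_mul, norm_of_nonneg (exp_pos _).le, norm_eq_abs]
    calc exp (-(c * t)) * |cos (b * t)| ≤ exp (-(c * t)) * 1 :=
          mul_le_mul_of_nonneg_left (abs_cos_le_one _) (exp_pos _).le
      _ = exp (-c * t) := by rw [mul_one, neg_mul]

theorem integral_exp_cos {c : ℝ} (hc : 0 < c) (b : ℝ) :
    ∫ t in Ioi (0 : ℝ), exp (-(c * t)) * cos (b * t) = c / (c ^ 2 + b ^ 2) := by
  have h := integral_exp_mul_complex_Ioi (a := (-c + b * Complex.I : ℂ)) (by simpa using hc) 0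
  have hre : (∫ t in Ioi (0 : ℝ), Complex.exp ((-c + b * Complex.I) * t)).re =
      ∫ t in Ioi (0 : ℝ), exp (-(c * t)) * cos (b * t) := by
    rw [← Complex.reCLM_apply, ← ContinuousLinearMap.integral_comp_comm]
    · refine integral_congr_ae (Eventually.of_forall fun t => ?_)
      show (Complex.exp ((-c + b * Complex.I) * t)).re = exp (-(c * t)) * cos (b * t)
      rw [Complex.exp_re]
      congr 2 <;> simp
    · exact integrableOn_exp_mul_complex_Ioi (by simpa using hc) 0
  rw [← hre, h]
  have h0 : (-c + b * Complex.I : ℂ) ≠ 0 := by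
    intro h0
    have := congrArg Complex.re h0
    simp at this
    exact hc.ne' this
  rw [Complex.ofReal_zero, mul_zero, Complex.exp_zero, Complex.div_re]
  simp only [Complex.neg_re, Complex.one_re, Complex.add_re, Complex.ofReal_re, Complex.mul_re,
    Complex.I_re, mul_zero, Complex.ofReal_im, Complex.I_im, mul_one, sub_self, add_zero,
    Complex.neg_im, Complex.one_im, neg_zero, zero_mul, zero_div, Complex.normSq_apply,
    Complex.add_im, Complex.mul_im, zero_add]
  rw [show (-c * -c + b * b : ℝ) = c ^ 2 + b ^ 2 by ring]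
  ring

theorem hasDerivAt_arctan_sinh {a m : ℝ} (hm : 0 < m) (u : ℝ) :
    HasDerivAt (fun u => m⁻¹ * arctan (a * sinh u / m))
      (a * cosh u / (m ^ 2 + (a * sinh u) ^ 2)) u := by
  have h1 : HasDerivAt (fun u => a * sinh u / m) (a * cosh u / m) u :=
    ((hasDerivAt_sinh u).const_mul a).div_const m
  have h2 := (h1.arctan).const_mul m⁻¹
  have h3 : (1 : ℝ) + (a * sinh u / m) ^ 2 ≠ 0 := by positivity
  have h4 : m ^ 2 + (a * sinh u) ^ 2 ≠ 0 := by positivity
  have h5 : a * cosh u / (m ^ 2 + (a * sinh u) ^ 2) =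
      m⁻¹ * (1 / (1 + (a * sinh u / m) ^ 2) * (a * cosh u / m)) := by
    have h6 : 1 + (a * sinh u / m) ^ 2 = (m ^ 2 + (a * sinh u) ^ 2) / m ^ 2 := by
      field_simp
    rw [h6]
    field_simp
  rw [h5]
  exact h2

theorem tendsto_sinh_atTop' : Tendsto sinh atTop atTop := by
  refine tendsto_atTop_mono' atTop ?_ tendsto_id
  filter_upwards [eventually_ge_atTop 0] with u hu
  exact self_le_sinh_iff.mpr hu

theorem integrableOn_cosh_div {a : ℝ} (ha : 0 < a) (b : ℝ) :
    IntegrableOn (fun u => a * cosh u / ((a * cosh u) ^ 2 + b ^ 2)) (Ioi 0) ∧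
    ∫ u in Ioi (0 : ℝ), a * cosh u / ((a * cosh u) ^ 2 + b ^ 2) = (π / 2) / √(a ^ 2 + b ^ 2) := by
  set m := √(a ^ 2 + b ^ 2) with hm
  have hm0 : 0 < m := sqrt_pos.mpr (by positivity)
  have hm2 : m ^ 2 = a ^ 2 + b ^ 2 := sq_sqrt (by positivity)
  have hE : ∀ u : ℝ, a * cosh u / ((a * cosh u) ^ 2 + b ^ 2) =
      a * cosh u / (m ^ 2 + (a * sinh u) ^ 2) := by
    intro u
    congr 1
    rw [hm2]
    nlinarith [cosh_sq u]
  simp_rw [hE]
  have hd : ∀ u ∈ Ici (0 : ℝ), HasDerivAt (fun u => m⁻¹ * arctan (a * sinh u / m))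
      (a * cosh u / (m ^ 2 + (a * sinh u) ^ 2)) u := fun u _ => hasDerivAt_arctan_sinh hm0 u
  have hp : ∀ u ∈ Ioi (0 : ℝ), 0 ≤ a * cosh u / (m ^ 2 + (a * sinh u) ^ 2) := fun u _ => by
    have := cosh_pos u
    positivity
  have ht : Tendsto (fun u => m⁻¹ * arctan (a * sinh u / m)) atTop (𝓝 (m⁻¹ * (π / 2))) := by
    refine Tendsto.const_mul _ ?_
    have h1 : Tendsto (fun u => a * sinh u / m) atTop atTop :=
      (tendsto_sinh_atTop'.const_mul_atTop ha).atTop_div_const hm0
    exact (tendsto_arctan_atTop.mono_right nhdsWithin_le_nhds).comp h1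
  refine ⟨integrableOn_Ioi_deriv_of_nonneg' hd hp ht, ?_⟩
  rw [integral_Ioi_of_hasDerivAt_of_nonneg' hd hp ht]
  simp only [sinh_zero, mul_zero, zero_div, arctan_zero, sub_zero]
  rw [mul_comm, ← div_eq_mul_inv]

/-- `∫_0^∞ K₀(a t) cos(b t) dt = (π/2) / √(a² + b²)` -/
theorem integral_K0_cos {a : ℝ} (ha : 0 < a) (b : ℝ) :
    ∫ t in Ioi (0 : ℝ), K0 (a * t) * cos (b * t) = (π / 2) / √(a ^ 2 + b ^ 2) := by
  have hint : Integrable (Function.uncurry fun t u : ℝ => exp (-(a * cosh u * t)) * cos (b * t))
      ((volume.restrict (Ioi (0 : ℝ))).prod (volume.restrict (Ioi (0 : ℝ)))) := by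
    rw [integrable_prod_iff']
    · constructor
      · refine Eventually.of_forall fun u => ?_
        exact integrableOn_exp_cos (mul_pos ha (cosh_pos u)) b
      · have h1 : IntegrableOn (fun u => (a * cosh u)⁻¹) (Ioi 0) := by
          have h2 := (integrableOn_cosh_div ha 0).1
          refine h2.congr_fun (fun u _ => ?_) measurableSet_Ioi
          have := mul_pos ha (cosh_pos u)
          simp only
          field_simp
          ring
        refine Integrable.mono' h1 ?_ ?_
        · refine AEStronglyMeasurable.norm ?_ |>.integral_prod_right'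
            (f := fun p : ℝ × ℝ => ‖exp (-(a * cosh p.1 * p.2)) * cos (b * p.2)‖)
          exact Continuous.aestronglyMeasurable (by fun_prop)
        · refine Eventually.of_forall fun u => ?_
          have hc := mul_pos ha (cosh_pos u)
          rw [norm_of_nonneg (integral_nonneg fun _ => norm_nonneg _)]
          calc ∫ t in Ioi (0 : ℝ), ‖exp (-(a * cosh u * t)) * cos (b * t)‖
              ≤ ∫ t in Ioi (0 : ℝ), exp (-(a * cosh u * t)) * cos (0 * t) := by
                refine integral_mono (integrableOn_exp_cos hc b).norm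
                  (integrableOn_exp_cos hc 0) fun t => ?_
                show ‖_‖ ≤ _
                rw [norm_mul, norm_of_nonneg (exp_pos _).le, norm_eq_abs, zero_mul, cos_zero]
                exact mul_le_mul_of_nonneg_left (abs_cos_le_one _) (exp_pos _).le
            _ = (a * cosh u)⁻¹ := by
                rw [integral_exp_cos hc 0]
                field_simp
                ring
    · exact Continuous.aestronglyMeasurable (by unfold Function.uncurry; fun_prop)
  have h := integral_integral_swap hint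
  have hL : ∀ t : ℝ, ∫ u in Ioi (0 : ℝ), exp (-(a * cosh u * t)) * cos (b * t) =
      K0 (a * t) * cos (b * t) := by
    intro t
    rw [integral_mul_const, K0]
    congr 1
    refine integral_congr_ae (Eventually.of_forall fun u => ?_)
    show exp _ = exp _
    congr 1; ring
  have hR : ∀ u : ℝ, ∫ t in Ioi (0 : ℝ), exp (-(a * cosh u * t)) * cos (b * t) =
      a * cosh u / ((a * cosh u) ^ 2 + b ^ 2) := fun u =>
    integral_exp_cos (mul_pos ha (cosh_pos u)) b
  simp only [hL, hR] at h
  rw [h, (integrableOn_cosh_div ha b).2]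

end Fermat.Agent.H90T
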