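import Mathlib
import Fermat.Agent.H90TBess

/-!
# The function `G(s)` of the unfolding on `H2 × ℝ` (S47, T5b, helper90)
-/

set_option autoImplicit false

open MeasureTheory Set Real Filter Topology

noncomputable section

namespace Fermat.Agent.H90T

open Fermat.Agent.H22Z

/-- `(0, ∞) × ℝ` with Lebesgue measure -/
abbrev μP : Measure (ℝ × ℝ) := (volume.restrict (Ioi (0 : ℝ))).prod volume

/-- the term of frequency `m` -/
def term (κ : ℝ) (W : ℝ → ℝ) (s m : ℝ) (p : ℝ × ℝ) : ℝ :=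
  W p.2 * ((cosh p.2)⁻¹ * (p.1 ^ (s - 1) *
    (K0 (κ * m / cosh p.2 * p.1) * cos (κ * m * tanh p.2 * p.1))))

/-- the archimedean factor -/
def G (κ : ℝ) (W : ℝ → ℝ) (s : ℝ) : ℝ := ∫ p, term κ W s 1 p ∂μP

variable {κ : ℝ} {W : ℝ → ℝ}

theorem measurable_K0 : Measurable K0 := by
  have h : K0 = fun x => ∫ t in Ioi (0 : ℝ), exp (-x * cosh t) := rfl
  rw [h]
  exact (StronglyMeasurable.integral_prod_right
    (f := fun x t : ℝ => exp (-x * cosh t))
    (Continuous.stronglyMeasurable (by unfold Function.uncurry; fun_prop))).measurable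

theorem aesm_term (hW : AEStronglyMeasurable W) (s m : ℝ) :
    AEStronglyMeasurable (term κ W s m) μP := by
  unfold term
  refine AEStronglyMeasurable.mul ?_ ?_
  · exact hW.comp_snd
  · refine Measurable.aestronglyMeasurable ?_
    refine Measurable.mul (by fun_prop) (Measurable.mul ?_ (Measurable.mul ?_ ?_))
    · exact (measurable_fst).pow_const (s - 1)
    · exact measurable_K0.comp (by fun_prop)
    · have h1 : Measurable tanh := by
        have : tanh = fun x => sinh x / cosh x := by funext x; exact tanh_eq_sinh_div_cosh x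
        rw [this]; fun_prop
      exact measurable_cos.comp (((measurable_const.mul (h1.comp measurable_snd))).mul
        measurable_fst)

/-- scaling of the Mellin transform of `K₀` -/
theorem integral_rpow_K0_mul {s a : ℝ} (ha : 0 < a) :
    ∫ x in Ioi (0 : ℝ), x ^ (s - 1) * K0 (a * x) =
      a ^ (-s) * ∫ x in Ioi (0 : ℝ), x ^ (s - 1) * K0 x := by
  have h := integral_comp_mul_left_Ioi (fun x => x ^ (s - 1) * K0 x) 0 ha
  rw [mul_zero] at h
  have h2 : ∫ x in Ioi (0 : ℝ), (a * x) ^ (s - 1) * K0 (a * x) =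
      a ^ (s - 1) * ∫ x in Ioi (0 : ℝ), x ^ (s - 1) * K0 (a * x) := by
    rw [← integral_const_mul]
    refine setIntegral_congr_fun measurableSet_Ioi fun x hx => ?_
    have hx' : (0 : ℝ) < x := hx
    show (a * x) ^ (s - 1) * K0 (a * x) = a ^ (s - 1) * (x ^ (s - 1) * K0 (a * x))
    rw [mul_rpow ha.le hx'.le]; ring
  rw [h2] at h
  have h3 : a ^ (s - 1) ≠ 0 := (rpow_pos_of_pos ha _).ne'
  have h4 : a ^ (-s) = (a ^ (s - 1))⁻¹ * a⁻¹ := by
    rw [← rpow_neg ha.le, ← rpow_neg_one a, ← rpow_add ha]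
    congr 1; ring
  rw [h4, mul_assoc]
  rw [smul_eq_mul] at h
  rw [← h]
  field_simp

theorem integrableOn_rpow_K0_mul {s a : ℝ} (hs : 0 < s) (ha : 0 < a) :
    IntegrableOn (fun x => x ^ (s - 1) * K0 (a * x)) (Ioi 0) := by
  have h := (integrableOn_Ioi_comp_mul_left_iff (fun x => x ^ (s - 1) * K0 x) 0 ha).mpr
    (by rw [mul_zero]; exact integrableOn_K0_rpow hs)
  have h3 : a ^ (s - 1) ≠ 0 := (rpow_pos_of_pos ha _).ne'
  have h2 := h.const_mul (a ^ (s - 1))⁻¹
  refine IntegrableOn.congr_fun h2 (fun x hx => ?_) measurableSet_Ioi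
  have hx' : (0 : ℝ) < x := hx
  show (a ^ (s - 1))⁻¹ * ((a * x) ^ (s - 1) * K0 (a * x)) = x ^ (s - 1) * K0 (a * x)
  rw [mul_rpow ha.le hx'.le]
  field_simp

/-- the Mellin transform of `K₀` -/
def mel (s : ℝ) : ℝ := ∫ x in Ioi (0 : ℝ), x ^ (s - 1) * K0 x

theorem mel_nonneg (s : ℝ) : 0 ≤ mel s := by
  refine setIntegral_nonneg measurableSet_Ioi fun x hx => ?_
  have hx' : (0 : ℝ) < x := hx
  exact mul_nonneg (rpow_nonneg hx'.le _) (K0_pos hx').le

/-- the majorant -/
def maj (κ : ℝ) (W : ℝ → ℝ) (s m : ℝ) (p : ℝ × ℝ) : ℝ :=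
  W p.2 * ((cosh p.2)⁻¹ * (p.1 ^ (s - 1) * K0 (κ * m / cosh p.2 * p.1)))

theorem ae_fst_pos : ∀ᵐ p ∂μP, (0 : ℝ) < p.1 :=
  Measure.quasiMeasurePreserving_fst.ae (ae_restrict_mem measurableSet_Ioi)

theorem norm_term_le (hκ : 0 < κ) (hW0 : ∀ r, 0 ≤ W r) {s m : ℝ} (hm : 0 < m) {p : ℝ × ℝ}
    (hp : 0 < p.1) : ‖term κ W s m p‖ ≤ maj κ W s m p := by
  have hc := cosh_pos p.2
  have hK : 0 < K0 (κ * m / cosh p.2 * p.1) := K0_pos (by positivity)
  unfold term maj
  rw [norm_mul, norm_mul, norm_mul, norm_mul, norm_of_nonneg (hW0 _),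
    norm_of_nonneg (inv_pos.mpr hc).le, norm_of_nonneg (rpow_nonneg hp.le _),
    norm_of_nonneg hK.le, norm_eq_abs]
  have h1 := abs_cos_le_one (κ * m * tanh p.2 * p.1)
  gcongr
  · exact hW0 _
  · nlinarith

theorem integral_maj_inner (hκ : 0 < κ) {s m : ℝ} (hm : 0 < m) (r : ℝ) :
    ∫ x in Ioi (0 : ℝ), maj κ W s m (x, r) =
      W r * ((cosh r)⁻¹ * ((κ * m / cosh r) ^ (-s) * mel s)) := by
  unfold maj
  simp only
  rw [integral_const_mul, integral_const_mul,
    integral_rpow_K0_mul (by have := cosh_pos r; positivity)]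
  rfl

theorem inner_le (hκ : 0 < κ) (hW0 : ∀ r, 0 ≤ W r) {s m : ℝ} (hs2 : s ≤ 2) (hm : 0 < m) (r : ℝ) :
    W r * ((cosh r)⁻¹ * ((κ * m / cosh r) ^ (-s) * mel s)) ≤
      (κ * m) ^ (-s) * mel s * (W r * cosh r) := by
  have hc := one_le_cosh r
  have hc0 := cosh_pos r
  have h1 : (κ * m / cosh r) ^ (-s) = (κ * m) ^ (-s) * cosh r ^ s := by
    rw [div_rpow (by positivity) hc0.le, rpow_neg hc0.le, div_inv_eq_mul]
  have h2 : cosh r ^ s ≤ cosh r ^ (2 : ℝ) := rpow_le_rpow_of_exponent_le hc hs2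
  have h3 : cosh r ^ (2 : ℝ) = cosh r * cosh r := by
    rw [rpow_two]; ring
  rw [h1]
  have h4 : 0 ≤ (κ * m) ^ (-s) * mel s :=
    mul_nonneg (rpow_nonneg (by positivity) _) (mel_nonneg s)
  calc W r * ((cosh r)⁻¹ * ((κ * m) ^ (-s) * cosh r ^ s * mel s))
      = ((κ * m) ^ (-s) * mel s) * (W r * ((cosh r)⁻¹ * cosh r ^ s)) := by ring
    _ ≤ ((κ * m) ^ (-s) * mel s) * (W r * ((cosh r)⁻¹ * (cosh r * cosh r))) := by
        rw [← h3]
        gcongr
        exact hW0 r
    _ = _ := by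
        congr 2
        field_simp

theorem inner_nonneg (hκ : 0 < κ) (hW0 : ∀ r, 0 ≤ W r) {s m : ℝ} (hm : 0 < m) (r : ℝ) :
    0 ≤ W r * ((cosh r)⁻¹ * ((κ * m / cosh r) ^ (-s) * mel s)) := by
  have hc := cosh_pos r
  exact mul_nonneg (hW0 r) (mul_nonneg (inv_pos.mpr hc).le
    (mul_nonneg (rpow_nonneg (by positivity) _) (mel_nonneg s)))

theorem integrable_maj (hκ : 0 < κ) (hW0 : ∀ r, 0 ≤ W r) (hWm : AEStronglyMeasurable W)
    (hW : Integrable fun r => W r * cosh r) {s m : ℝ} (hs : 0 < s) (hs2 : s ≤ 2) (hm : 0 < m) :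
    Integrable (maj κ W s m) μP := by
  have hmeas : AEStronglyMeasurable (maj κ W s m) μP := by
    unfold maj
    refine AEStronglyMeasurable.mul (f := fun p : ℝ × ℝ => W p.2)
      (g := fun p : ℝ × ℝ => (cosh p.2)⁻¹ * (p.1 ^ (s - 1) *
        K0 (κ * m / cosh p.2 * p.1))) hWm.comp_snd ?_
    refine Measurable.aestronglyMeasurable ?_
    refine Measurable.mul (by fun_prop) (Measurable.mul ?_ ?_)
    · exact (measurable_fst).pow_const (s - 1)
    · exact measurable_K0.comp (by fun_prop)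
  rw [integrable_prod_iff' hmeas]
  constructor
  · refine Eventually.of_forall fun r => ?_
    have h0 : IntegrableOn (fun x => x ^ (s - 1) * K0 (κ * m / cosh r * x)) (Ioi 0) :=
      integrableOn_rpow_K0_mul hs (by have := cosh_pos r; positivity)
    exact (h0.const_mul (cosh r)⁻¹).const_mul (W r)
  · have h1 : ∀ r : ℝ, ∫ x in Ioi (0 : ℝ), ‖maj κ W s m (x, r)‖ =
        W r * ((cosh r)⁻¹ * ((κ * m / cosh r) ^ (-s) * mel s)) := by
      intro r
      rw [← integral_maj_inner hκ hm r]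
      refine setIntegral_congr_fun measurableSet_Ioi fun x hx => ?_
      have hx' : (0 : ℝ) < x := hx
      have hc := cosh_pos r
      have hK : 0 < K0 (κ * m / cosh r * x) := K0_pos (by positivity)
      exact norm_of_nonneg (mul_nonneg (hW0 r) (by positivity))
    simp only [h1]
    refine Integrable.mono' (hW.const_mul ((κ * m) ^ (-s) * mel s)) ?_ ?_
    · refine AEStronglyMeasurable.mul (f := fun r : ℝ => W r)
        (g := fun r : ℝ => (cosh r)⁻¹ * ((κ * m / cosh r) ^ (-s) * mel s)) hWm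
        (Measurable.aestronglyMeasurable ?_)
      fun_prop
    · refine Eventually.of_forall fun r => ?_
      rw [norm_of_nonneg (inner_nonneg hκ hW0 hm r)]
      exact inner_le hκ hW0 hs2 hm r

theorem integrable_term (hκ : 0 < κ) (hW0 : ∀ r, 0 ≤ W r) (hWm : AEStronglyMeasurable W)
    (hW : Integrable fun r => W r * cosh r) {s m : ℝ} (hs : 0 < s) (hs2 : s ≤ 2) (hm : 0 < m) :
    Integrable (term κ W s m) μP :=
  Integrable.mono' (integrable_maj hκ hW0 hWm hW hs hs2 hm) (aesm_term hWm s m)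
    (ae_fst_pos.mono fun _ hp => norm_term_le hκ hW0 hm hp)

theorem integral_norm_term_le (hκ : 0 < κ) (hW0 : ∀ r, 0 ≤ W r) (hWm : AEStronglyMeasurable W)
    (hW : Integrable fun r => W r * cosh r) {s m : ℝ} (hs : 0 < s) (hs2 : s ≤ 2) (hm : 0 < m) :
    ∫ p, ‖term κ W s m p‖ ∂μP ≤ m ^ (-s) * (κ ^ (-s) * mel s * ∫ r, W r * cosh r) := by
  have hI := integrable_maj hκ hW0 hWm hW hs hs2 hm
  calc ∫ p, ‖term κ W s m p‖ ∂μP ≤ ∫ p : ℝ × ℝ, maj κ W s m p ∂μP :=
        integral_mono_ae (integrable_term hκ hW0 hWm hW hs hs2 hm).norm hI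
          (ae_fst_pos.mono fun _ hp => norm_term_le hκ hW0 hm hp)
    _ = ∫ r, W r * ((cosh r)⁻¹ * ((κ * m / cosh r) ^ (-s) * mel s)) := by
        rw [integral_prod_symm _ hI]
        simp only [integral_maj_inner hκ hm]
    _ ≤ ∫ r, (κ * m) ^ (-s) * mel s * (W r * cosh r) :=
        integral_mono_of_nonneg (Eventually.of_forall fun r => inner_nonneg hκ hW0 hm r)
          (hW.const_mul _) (Eventually.of_forall fun r => inner_le hκ hW0 hs2 hm r)
    _ = m ^ (-s) * (κ ^ (-s) * mel s * ∫ r, W r * cosh r) := by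
        rw [integral_const_mul, mul_rpow hκ.le hm.le]
        ring

/-- The frequency `m` contributes `m^{-s} G(s)`. -/
theorem integral_term (hκ : 0 < κ) (hW0 : ∀ r, 0 ≤ W r) (hWm : AEStronglyMeasurable W)
    (hW : Integrable fun r => W r * cosh r) {s m : ℝ} (hs : 0 < s) (hs2 : s ≤ 2) (hm : 0 < m) :
    ∫ p, term κ W s m p ∂μP = m ^ (-s) * G κ W s := by
  have h1 := integrable_term hκ hW0 hWm hW hs hs2 hm
  have h2 := integrable_term hκ hW0 hWm hW hs hs2 one_pos
  rw [G, integral_prod_symm _ h1, integral_prod_symm _ h2, ← integral_const_mul]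
  refine integral_congr_ae (Eventually.of_forall fun r => ?_)
  show ∫ x in Ioi (0 : ℝ), term κ W s m (x, r) = m ^ (-s) * ∫ x in Ioi (0 : ℝ), term κ W s 1 (x, r)
  have h := integral_comp_mul_left_Ioi (fun x => term κ W s 1 (x, r)) 0 hm
  rw [mul_zero, smul_eq_mul] at h
  have h3 : ∀ x ∈ Ioi (0 : ℝ), term κ W s m (x, r) = m ^ (1 - s) * term κ W s 1 (m * x, r) := by
    intro x hx
    have hx' : (0 : ℝ) < x := hx
    unfold term
    simp only
    rw [mul_rpow hm.le hx'.le]
    have h4 : m ^ (1 - s) * m ^ (s - 1) = 1 := by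
      rw [← rpow_add hm]; simp
    have h5 : κ * m / cosh r * x = κ * 1 / cosh r * (m * x) := by ring
    have h6 : κ * m * tanh r * x = κ * 1 * tanh r * (m * x) := by ring
    rw [h5, h6]
    linear_combination (-(W r * ((cosh r)⁻¹ * (x ^ (s - 1) *
      (K0 (κ * 1 / cosh r * (m * x)) * cos (κ * 1 * tanh r * (m * x))))))) * h4
  rw [setIntegral_congr_fun measurableSet_Ioi h3, integral_const_mul, h]
  rw [← mul_assoc]
  congr 1
  rw [← rpow_neg_one m, ← rpow_add hm]
  congr 1; ring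

/-- **The unfolded integral**: `∫ Σ_n c_n (...) = D(s) G(s)`. -/
theorem hasSum_unfold (hκ : 0 < κ) (hW0 : ∀ r, 0 ≤ W r) (hWm : AEStronglyMeasurable W)
    (hW : Integrable fun r => W r * cosh r) {s : ℝ} (hs : 0 < s) (hs2 : s ≤ 2)
    {ι : Type*} [Countable ι] (c : ι → ℝ) (m : ι → ℝ) (hm : ∀ i, 0 < m i)
    (hc : Summable fun i => |c i| * m i ^ (-s)) :
    (∫ p, ∑' i, c i * term κ W s (m i) p ∂μP) = (∑' i, c i * m i ^ (-s)) * G κ W s := by
  rw [← tsum_mul_right]
  rw [← integral_tsum_of_summable_integral_norm (fun i =>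
    (integrable_term hκ hW0 hWm hW hs hs2 (hm i)).const_mul (c i))]
  · refine tsum_congr fun i => ?_
    rw [integral_const_mul, integral_term hκ hW0 hWm hW hs hs2 (hm i)]
    ring
  · refine Summable.of_nonneg_of_le (fun i => integral_nonneg fun _ => norm_nonneg _) (fun i => ?_)
      (hc.mul_right (κ ^ (-s) * mel s * ∫ r, W r * cosh r))
    simp only [norm_mul, norm_eq_abs]
    rw [integral_const_mul]
    have h1 := integral_norm_term_le hκ hW0 hWm hW hs hs2 (hm i)
    simp only [norm_eq_abs] at h1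
    calc |c i| * ∫ p, |term κ W s (m i) p| ∂μP ≤
        |c i| * (m i ^ (-s) * (κ ^ (-s) * mel s * ∫ r, W r * cosh r)) :=
          mul_le_mul_of_nonneg_left h1 (abs_nonneg _)
      _ = _ := by ring

/-- `G` is continuous at `1` from the right. -/
theorem tendsto_G (hκ : 0 < κ) (hW0 : ∀ r, 0 ≤ W r) (hWm : AEStronglyMeasurable W)
    (hW : Integrable fun r => W r * cosh r) : Tendsto (G κ W) (𝓝[>] 1) (𝓝 (G κ W 1)) := by
  unfold G
  refine tendsto_integral_filter_of_dominated_convergence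
    (fun p => maj κ W 1 1 p + maj κ W 2 1 p) ?_ ?_ ?_ ?_
  · exact Eventually.of_forall fun s => aesm_term hWm s 1
  · have h1 : ∀ᶠ s : ℝ in 𝓝[>] 1, s < 2 := nhdsWithin_le_nhds (eventually_lt_nhds one_lt_two)
    filter_upwards [self_mem_nhdsWithin, h1] with s hs hs2
    have hs' : 1 < s := hs
    filter_upwards [ae_fst_pos] with p hp
    refine (norm_term_le hκ hW0 one_pos hp).trans ?_
    unfold maj
    have hc := cosh_pos p.2
    have hK : 0 < K0 (κ * 1 / cosh p.2 * p.1) := K0_pos (by positivity)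
    have h3 : p.1 ^ (s - 1) ≤ p.1 ^ ((1 : ℝ) - 1) + p.1 ^ ((2 : ℝ) - 1) := by
      rw [sub_self, rpow_zero, show (2 : ℝ) - 1 = 1 by norm_num, rpow_one]
      by_cases h4 : p.1 ≤ 1
      · have : p.1 ^ (s - 1) ≤ 1 := rpow_le_one hp.le h4 (by linarith)
        linarith
      · have : p.1 ^ (s - 1) ≤ p.1 ^ (1 : ℝ) :=
          rpow_le_rpow_of_exponent_le (not_le.mp h4).le (by linarith)
        rw [rpow_one] at this
        linarith
    have h5 : 0 ≤ W p.2 * ((cosh p.2)⁻¹ * K0 (κ * 1 / cosh p.2 * p.1)) :=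
      mul_nonneg (hW0 _) (by positivity)
    nlinarith [mul_le_mul_of_nonneg_left h3 h5]
  · exact (integrable_maj hκ hW0 hWm hW one_pos one_le_two one_pos).add
      (integrable_maj hκ hW0 hWm hW two_pos le_rfl one_pos)
  · filter_upwards [ae_fst_pos] with p hp
    have h1 : Tendsto (fun s : ℝ => p.1 ^ (s - 1)) (𝓝[>] 1) (𝓝 (p.1 ^ ((1 : ℝ) - 1))) := by
      have h2 : ContinuousAt (fun s : ℝ => p.1 ^ (s - 1)) 1 := by
        refine ContinuousAt.rpow (by fun_prop) (by fun_prop) (Or.inl hp.ne')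
      exact h2.tendsto.mono_left nhdsWithin_le_nhds
    unfold term
    exact ((h1.mul_const _).const_mul _).const_mul _

/-- The value at `1`. -/
theorem G_one (hκ : 0 < κ) (hW0 : ∀ r, 0 ≤ W r) (hWm : AEStronglyMeasurable W)
    (hW : Integrable fun r => W r * cosh r) :
    G κ W 1 = (π / 2) / κ * ∫ r, W r * (cosh r)⁻¹ := by
  rw [G, integral_prod_symm _ (integrable_term hκ hW0 hWm hW one_pos one_le_two one_pos),
    ← integral_const_mul]
  refine integral_congr_ae (Eventually.of_forall fun r => ?_)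
  show ∫ x in Ioi (0 : ℝ), term κ W 1 1 (x, r) = _
  have hc := cosh_pos r
  have h1 : ∀ x ∈ Ioi (0 : ℝ), term κ W 1 1 (x, r) = W r * (cosh r)⁻¹ *
      (K0 (κ / cosh r * x) * cos (κ * tanh r * x)) := by
    intro x _
    unfold term
    simp only [sub_self, rpow_zero, mul_one, one_mul]
    ring
  rw [setIntegral_congr_fun measurableSet_Ioi h1, integral_const_mul,
    integral_K0_cos (div_pos hκ hc)]
  have h2 : (κ / cosh r) ^ 2 + (κ * tanh r) ^ 2 = κ ^ 2 := by
    rw [tanh_eq_sinh_div_cosh]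
    field_simp
    nlinarith [cosh_sq r]
  rw [h2, sqrt_sq hκ.le]
  ring

theorem G_one_pos (hκ : 0 < κ) (hW0 : ∀ r, 0 < W r) (hWm : AEStronglyMeasurable W)
    (hW : Integrable fun r => W r * cosh r) : 0 < G κ W 1 := by
  rw [G_one hκ (fun r => (hW0 r).le) hWm hW]
  have h1 : 0 < ∫ r, W r * (cosh r)⁻¹ := by
    rw [integral_pos_iff_support_of_nonneg]
    · have : (Function.support fun r => W r * (cosh r)⁻¹) = univ := by
        ext r
        have := cosh_pos r
        have := hW0 r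
        simp only [Function.mem_support, mem_univ, iff_true]
        positivity
      rw [this]
      simp
    · intro r
      have := cosh_pos r
      have := hW0 r
      show 0 ≤ _
      positivity
    · refine Integrable.mono' hW ?_ ?_
      · exact AEStronglyMeasurable.mul hWm (Measurable.aestronglyMeasurable (by fun_prop))
      · refine Eventually.of_forall fun r => ?_
        have hc := one_le_cosh r
        have hc0 := cosh_pos r
        rw [norm_of_nonneg (mul_nonneg (hW0 r).le (inv_pos.mpr hc0).le)]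
        refine mul_le_mul_of_nonneg_left ?_ (hW0 r).le
        exact (inv_le_one_of_one_le₀ hc).trans hc
  positivity

end Fermat.Agent.H90T
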