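import Mathlib

/-!
# The Bessel function `K₀`

`K0 x = ∫_0^∞ exp (-x cosh t) dt`: positivity, derivatives, differential equation, decay,
uniqueness of the solution of moderate growth.
-/

set_option autoImplicit false

open MeasureTheory Set Real Filter Topology
open scoped ContDiff

noncomputable section

namespace Fermat.Agent.H22Z

/-- `∫_0^∞ (cosh t)^j exp (-x cosh t) dt` -/
def KJ (j : ℕ) (x : ℝ) : ℝ := ∫ t in Ioi (0 : ℝ), cosh t ^ j * exp (-x * cosh t)

/-- The Bessel function `K₀`. -/
def K0 (x : ℝ) : ℝ := ∫ t in Ioi (0 : ℝ), exp (-x * cosh t)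

theorem KJ_zero : KJ 0 = K0 := by
  funext x
  simp [KJ, K0]

theorem half_le_cosh (t : ℝ) : t / 2 ≤ cosh t := by
  rw [cosh_eq]
  have h1 := add_one_le_exp t
  have h2 := exp_pos (-t)
  linarith

theorem pow_mul_exp_le (j : ℕ) {a : ℝ} (ha : 0 < a) :
    ∃ C : ℝ, 0 < C ∧ ∀ u : ℝ, 0 ≤ u → u ^ j * exp (-a * u) ≤ C * exp (-(a / 2) * u) := by
  refine ⟨(j.factorial : ℝ) / (a / 2) ^ j, by positivity, fun u hu => ?_⟩
  have h1 : (a / 2 * u) ^ j / (j.factorial : ℝ) ≤ exp (a / 2 * u) :=
    pow_div_factorial_le_exp _ (by positivity) j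
  have h2 : u ^ j ≤ (j.factorial : ℝ) / (a / 2) ^ j * exp (a / 2 * u) := by
    rw [mul_pow, div_le_iff₀ (by positivity)] at h1
    rw [div_mul_eq_mul_div, le_div_iff₀ (by positivity)]
    linarith
  calc u ^ j * exp (-a * u) ≤ ((j.factorial : ℝ) / (a / 2) ^ j * exp (a / 2 * u)) * exp (-a * u) := by
        gcongr
    _ = (j.factorial : ℝ) / (a / 2) ^ j * exp (-(a / 2) * u) := by
        rw [mul_assoc, ← exp_add]
        congr 2
        ring

theorem integrableOn_exp_cosh {a : ℝ} (ha : 0 < a) (b : ℝ) :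
    IntegrableOn (fun t => exp (-a * cosh t)) (Ioi b) := by
  have h := exp_neg_integrableOn_Ioi b (half_pos ha)
  refine Integrable.mono' h ?_ ?_
  · exact (Continuous.aestronglyMeasurable (by fun_prop))
  · refine Eventually.of_forall fun t => ?_
    rw [norm_of_nonneg (exp_pos _).le]
    apply exp_le_exp.2
    nlinarith [half_le_cosh t]

theorem integrableOn_KJ (j : ℕ) {a : ℝ} (ha : 0 < a) (b : ℝ) :
    IntegrableOn (fun t => cosh t ^ j * exp (-a * cosh t)) (Ioi b) := by
  obtain ⟨C, hC, h⟩ := pow_mul_exp_le j ha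
  refine Integrable.mono' ((integrableOn_exp_cosh (half_pos ha) b).const_mul C) ?_ ?_
  · exact (Continuous.aestronglyMeasurable (by fun_prop))
  · refine Eventually.of_forall fun t => ?_
    have h0 := cosh_pos t
    rw [norm_of_nonneg (by positivity)]
    exact h _ h0.le

theorem hasDerivAt_KJ (j : ℕ) {x : ℝ} (hx : 0 < x) :
    HasDerivAt (KJ j) (-(KJ (j + 1) x)) x := by
  have hx2 : 0 < x / 2 := half_pos hx
  have key := hasDerivAt_integral_of_dominated_loc_of_deriv_le (μ := volume.restrict (Ioi (0 : ℝ)))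
    (F := fun y t => cosh t ^ j * exp (-y * cosh t))
    (F' := fun y t => -(cosh t ^ (j + 1) * exp (-y * cosh t))) (x₀ := x)
    (bound := fun t => cosh t ^ (j + 1) * exp (-(x / 2) * cosh t))
    (s := Ioi (x / 2)) (Ioi_mem_nhds (by linarith)) ?_ ?_ ?_ ?_ ?_ ?_
  · have h2 := key.2
    simp only [integral_neg] at h2
    exact h2
  · exact Eventually.of_forall fun y => Continuous.aestronglyMeasurable (by fun_prop)
  · exact integrableOn_KJ j hx 0
  · exact Continuous.aestronglyMeasurable (by fun_prop)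
  · refine Eventually.of_forall fun t y hy => ?_
    have h0 := cosh_pos t
    rw [norm_neg, norm_of_nonneg (by positivity)]
    have hy' : x / 2 < y := hy
    have : -y * cosh t ≤ -(x / 2) * cosh t := by nlinarith
    gcongr
  · exact integrableOn_KJ (j + 1) hx2 0
  · refine Eventually.of_forall fun t y _ => ?_
    have h1 : HasDerivAt (fun y : ℝ => -y * cosh t) (-1 * cosh t) y := by
      simpa using (hasDerivAt_id y).neg.mul_const (cosh t)
    have h2 := (h1.exp).const_mul (cosh t ^ j)
    refine h2.congr_deriv ?_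
    ring

theorem KJ_pos (j : ℕ) {x : ℝ} (hx : 0 < x) : 0 < KJ j x := by
  unfold KJ
  rw [integral_pos_iff_support_of_nonneg]
  · have : (Function.support fun t => cosh t ^ j * exp (-x * cosh t)) = univ := by
      ext t
      have := cosh_pos t
      simp only [Function.mem_support, mem_univ, iff_true]
      positivity
    rw [this]
    simp
  · intro t
    have := cosh_pos t
    positivity
  · exact integrableOn_KJ j hx 0

theorem K0_pos {x : ℝ} (hx : 0 < x) : 0 < K0 x := by
  rw [← KJ_zero]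
  exact KJ_pos 0 hx

/-- minus the derivative of `K₀` -/
def K1 (x : ℝ) : ℝ := KJ 1 x

theorem K1_pos {x : ℝ} (hx : 0 < x) : 0 < K1 x := KJ_pos 1 hx

theorem hasDerivAt_K0 {x : ℝ} (hx : 0 < x) : HasDerivAt K0 (-(K1 x)) x := by
  rw [← KJ_zero]
  exact hasDerivAt_KJ 0 hx

theorem hasDerivAt_K1 {x : ℝ} (hx : 0 < x) : HasDerivAt K1 (-(KJ 2 x)) x := hasDerivAt_KJ 1 hx

theorem contDiffOn_KJ (n : ℕ) (j : ℕ) : ContDiffOn ℝ n (KJ j) (Ioi 0) := by
  induction n generalizing j with
  | zero =>
    rw [Nat.cast_zero, contDiffOn_zero]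
    exact fun x hx => (hasDerivAt_KJ j hx).continuousAt.continuousWithinAt
  | succ n ih =>
    rw [Nat.cast_succ, contDiffOn_succ_iff_deriv_of_isOpen isOpen_Ioi]
    refine ⟨fun x hx => (hasDerivAt_KJ j hx).differentiableAt.differentiableWithinAt, by simp, ?_⟩
    refine ((ih (j + 1)).neg).congr fun x hx => ?_
    exact (hasDerivAt_KJ j hx).deriv

theorem contDiffOn_K0 : ContDiffOn ℝ ∞ K0 (Ioi 0) := by
  rw [← KJ_zero, contDiffOn_infty]
  exact fun n => contDiffOn_KJ n 0

theorem continuousOn_K0 : ContinuousOn K0 (Ioi 0) := fun _ hx =>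
  (hasDerivAt_K0 hx).continuousAt.continuousWithinAt

theorem continuousOn_K1 : ContinuousOn K1 (Ioi 0) := fun _ hx =>
  (hasDerivAt_K1 hx).continuousAt.continuousWithinAt

/-- the differential equation of `K₀`: `x K₀'' + K₀' = x K₀` -/
theorem K0_ode {x : ℝ} (hx : 0 < x) : x * KJ 2 x - K1 x = x * K0 x := by
  have hd : ∀ t ∈ Ici (0 : ℝ), HasDerivAt (fun t => sinh t * exp (-x * cosh t))
      (cosh t * exp (-x * cosh t) - x * (cosh t ^ 2 * exp (-x * cosh t)) +
        x * exp (-x * cosh t)) t := by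
    intro t _
    have h1 : HasDerivAt (fun t : ℝ => -x * cosh t) (-x * sinh t) t :=
      (hasDerivAt_cosh t).const_mul (-x)
    have h2 := (hasDerivAt_sinh t).mul h1.exp
    refine h2.congr_deriv ?_
    have := cosh_sq t
    linear_combination (x * exp (-x * cosh t)) * this
  have hint : IntegrableOn (fun t => cosh t * exp (-x * cosh t) -
      x * (cosh t ^ 2 * exp (-x * cosh t)) + x * exp (-x * cosh t)) (Ioi 0) := by
    have h1 : IntegrableOn (fun t => cosh t * exp (-x * cosh t)) (Ioi 0) := by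
      simpa using integrableOn_KJ 1 hx 0
    exact (h1.sub ((integrableOn_KJ 2 hx 0).const_mul x)).add
      ((integrableOn_exp_cosh hx 0).const_mul x)
  have hlim : Tendsto (fun t => sinh t * exp (-x * cosh t)) atTop (𝓝 0) := by
    obtain ⟨C, hC, h⟩ := pow_mul_exp_le 1 hx
    have h3 : Tendsto (fun t : ℝ => C * exp (-(x / 2) * cosh t)) atTop (𝓝 0) := by
      rw [← mul_zero C]
      refine Tendsto.const_mul C ?_
      refine tendsto_exp_atBot.comp ?_
      refine Tendsto.const_mul_atTop_of_neg (by linarith) ?_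
      exact tendsto_atTop_mono half_le_cosh (tendsto_id.atTop_div_const (by norm_num))
    refine squeeze_zero' ?_ ?_ h3
    · filter_upwards [eventually_ge_atTop 0] with t ht
      have := sinh_nonneg_iff.2 ht
      positivity
    · filter_upwards with t
      have h4 := h (cosh t) (cosh_pos t).le
      rw [pow_one] at h4
      refine le_trans ?_ h4
      have := sinh_lt_cosh t
      gcongr
  have h := integral_Ioi_of_hasDerivAt_of_tendsto' hd hint hlim
  rw [sinh_zero, zero_mul, sub_zero] at h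
  have h1 : IntegrableOn (fun t => cosh t * exp (-x * cosh t)) (Ioi 0) := by
    simpa using integrableOn_KJ 1 hx 0
  have h2 : IntegrableOn (fun t => x * (cosh t ^ 2 * exp (-x * cosh t))) (Ioi 0) :=
    (integrableOn_KJ 2 hx 0).const_mul x
  have h12 : IntegrableOn (fun t => cosh t * exp (-x * cosh t) -
      x * (cosh t ^ 2 * exp (-x * cosh t))) (Ioi 0) := h1.sub h2
  have h3 : IntegrableOn (fun t => x * exp (-x * cosh t)) (Ioi 0) :=
    (integrableOn_exp_cosh hx 0).const_mul x
  rw [integral_add h12 h3, integral_sub h1 h2, integral_const_mul, integral_const_mul] at h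
  have e1 : K1 x = ∫ t in Ioi (0 : ℝ), cosh t * exp (-x * cosh t) := by
    simp [K1, KJ]
  have e2 : KJ 2 x = ∫ t in Ioi (0 : ℝ), cosh t ^ 2 * exp (-x * cosh t) := rfl
  have e3 : K0 x = ∫ t in Ioi (0 : ℝ), exp (-x * cosh t) := rfl
  rw [← e1, ← e2, ← e3] at h
  linarith

/-- exponential decay of all `KJ` -/
theorem KJ_le (j : ℕ) {a : ℝ} (ha : 0 < a) :
    ∃ C : ℝ, 0 < C ∧ ∀ x : ℝ, a ≤ x → KJ j x ≤ C * exp (-x) := by
  refine ⟨KJ j a * exp a, mul_pos (KJ_pos j ha) (exp_pos _), fun x hx => ?_⟩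
  have h1 : KJ j x ≤ exp (-(x - a)) * KJ j a := by
    unfold KJ
    rw [← integral_const_mul]
    refine setIntegral_mono_on (integrableOn_KJ j (ha.trans_le hx) 0)
      ((integrableOn_KJ j ha 0).const_mul _) measurableSet_Ioi fun t _ => ?_
    have h2 := one_le_cosh t
    have h0 := cosh_pos t
    calc cosh t ^ j * exp (-x * cosh t) = cosh t ^ j * exp (-a * cosh t) *
          exp (-(x - a) * cosh t) := by
          rw [mul_assoc, ← exp_add]
          congr 2
          ring
      _ ≤ cosh t ^ j * exp (-a * cosh t) * exp (-(x - a)) := by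
          have : -(x - a) * cosh t ≤ -(x - a) := by nlinarith
          gcongr
      _ = _ := by ring
  refine h1.trans (le_of_eq ?_)
  rw [neg_sub, exp_sub, exp_neg]
  field_simp

theorem K0_le_of_le {a x : ℝ} (ha : 0 < a) (hx : a ≤ x) : K0 x ≤ K0 a := by
  unfold K0
  refine setIntegral_mono_on (integrableOn_exp_cosh (ha.trans_le hx) 0)
    (integrableOn_exp_cosh ha 0) measurableSet_Ioi fun t _ => ?_
  have h0 := cosh_pos t
  apply exp_le_exp.2
  nlinarith

end Fermat.Agent.H22Z
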