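import Mathlib
import Fermat.Agent.H96TDef
import Fermat.Agent.H22ZK0

/-!
# Restriction of the Fourier expansion to the slices `Im z = u` (S47, T5b, helper90)
-/

set_option autoImplicit false

noncomputable section

open MeasureTheory Set Real Filter Topology
open scoped ComplexConjugate

namespace Fermat.Agent.H90T

open Fermat.Agent.S47T

/-- `4π/√3` -/
def kap : ℝ := 4 * π / √3

theorem kap_pos : 0 < kap := by unfold kap; positivity

theorem K0_eq : (S47T.K0 : ℝ → ℝ) = H22Z.K0 := by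
  funext x
  unfold S47T.K0 H22Z.K0
  simp only [neg_mul]

/-- the phase of the term `a + b ω` -/
theorem phase (a b : ℤ) (x u : ℝ) :
    2 * ((((a : ℂ) + b * om) * (⟨x, u⟩ : ℂ) / sq3).re) = b * x + (2 * a - b) * u / √3 := by
  have h3 : (0 : ℝ) < √3 := by positivity
  have h33 : √3 * √3 = 3 := mul_self_sqrt (by norm_num)
  have h1 : ((a : ℂ) + b * om) * (⟨x, u⟩ : ℂ) / sq3 =
      (((b : ℝ) * x + (2 * a - b) * u / √3 : ℝ) / 2 : ℂ) +
      (((b : ℝ) * u - (2 * a - b) * x / √3 : ℝ) / 2 : ℂ) * Complex.I := by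
    rw [div_eq_iff sq3_ne_zero, om, sq3]
    apply Complex.ext
    · simp
      field_simp
      nlinarith
    · simp
      field_simp
      nlinarith
  rw [h1]
  simp
  ring

/-- the term of the expansion at `a + b ω` on the slice -/
theorem fterm_slice (c : Eis → ℝ) (a b : ℤ) (x u Y : ℝ) (hY : 0 < Y) :
    fterm c ⟨⟨x, u⟩, Y, hY⟩ (eisEquiv (a, b)) =
      (c (eisEquiv (a, b)) * Y * H22Z.K0 (4 * π * ‖((eisEquiv (a, b) : Eis) : ℂ)‖ * Y / √3) : ℝ) *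
        ee (((2 * a - b) * u / √3 : ℝ)) * Complex.exp ((2 * π * Complex.I * b) * x) := by
  rw [fterm, K0_eq]
  have h : 2 * (((eisEquiv (a, b) : Eis) : ℂ) * (⟨⟨x, u⟩, Y, hY⟩ : H3).z / sq3).re =
      b * x + (2 * a - b) * u / √3 := by
    rw [coe_eisEquiv]
    exact phase a b x u
  have e : ee (((b : ℝ) * x + (2 * a - b) * u / √3 : ℝ) : ℂ) =
      ee (((2 * a - b) * u / √3 : ℝ)) * Complex.exp ((2 * π * Complex.I * b) * x) := by
    simp only [ee]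
    rw [← Complex.exp_add]
    congr 1
    push_cast
    ring
  rw [h, e, mul_assoc (_ : ℂ) _ (Complex.exp _)]

/-- the integral of a term over a period of `x` -/
theorem integral_fterm (c : Eis → ℝ) (a b : ℤ) (u Y : ℝ) (hY : 0 < Y) :
    ∫ x in (0 : ℝ)..1, fterm c ⟨⟨x, u⟩, Y, hY⟩ (eisEquiv (a, b)) =
      if b = 0 then (c (a : Eis) * Y * H22Z.K0 (kap * |(a : ℝ)| * Y) : ℝ) *
        ee ((2 * a * u / √3 : ℝ)) else 0 := by
  simp only [fterm_slice]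
  rw [intervalIntegral.integral_const_mul]
  split_ifs with hb
  · subst hb
    have h1 : (eisEquiv (a, 0) : Eis) = (a : Eis) := Subtype.ext (by simp)
    have h2 : ‖(((a : Eis) : Eis) : ℂ)‖ = |(a : ℝ)| := by
      rw [show (((a : Eis) : Eis) : ℂ) = ((a : ℝ) : ℂ) by simp, Complex.norm_real, norm_eq_abs]
    rw [h1, h2]
    have h3 : 4 * π * |(a : ℝ)| * Y / √3 = kap * |(a : ℝ)| * Y := by unfold kap; ring
    rw [h3]
    simp
  · have hc : (2 * π * Complex.I * b : ℂ) ≠ 0 := by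
      have : (b : ℂ) ≠ 0 := by exact_mod_cast hb
      have h2 : (π : ℂ) ≠ 0 := by exact_mod_cast pi_ne_zero
      simp [this, h2]
    rw [integral_exp_mul_complex hc]
    have h1 : Complex.exp (2 * π * Complex.I * b * ((1 : ℝ) : ℂ)) = 1 := by
      rw [Complex.exp_eq_one_iff]
      exact ⟨b, by push_cast; ring⟩
    rw [h1]
    simp

theorem norm_ee (t : ℝ) : ‖ee (t : ℂ)‖ = 1 := by
  rw [ee, show (2 * π * Complex.I * (t : ℂ) : ℂ) = ((2 * π * t : ℝ) : ℂ) * Complex.I by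
    push_cast; ring, Complex.norm_exp_ofReal_mul_I]

theorem norm_fterm (c : Eis → ℝ) (w : H3) (α : Eis) :
    ‖fterm c w α‖ = |c α * w.y * S47T.K0 (4 * π * ‖(α : ℂ)‖ * w.y / √3)| := by
  rw [fterm, norm_mul, norm_ee, mul_one, Complex.norm_real, norm_eq_abs]

theorem continuous_ee : Continuous ee := by unfold ee; fun_prop

theorem ee_add_neg (t : ℝ) : ee (t : ℂ) + ee ((-t : ℝ) : ℂ) = ((2 * cos (2 * π * t) : ℝ) : ℂ) := by
  have h1 : ∀ s : ℝ, ee (s : ℂ) = Complex.exp (((2 * π * s : ℝ) : ℂ) * Complex.I) := by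
    intro s
    rw [ee]
    congr 1
    push_cast
    ring
  rw [h1, h1, Complex.exp_mul_I, Complex.exp_mul_I]
  push_cast
  rw [show (2 * (π : ℂ) * -(t : ℂ)) = -(2 * π * t) by ring, Complex.cos_neg, Complex.sin_neg]
  ring

/-- **The Fourier expansion on the slices.** -/
theorem hasSum_slice {N : ℕ} {c : Eis → ℝ} {F : H3 → ℂ} (h : ICT N c F) (u Y : ℝ) (hY : 0 < Y) :
    HasSum (fun n : ℕ => ((2 * (c ((n + 1 : ℕ) : Eis) * (Y * (H22Z.K0 (kap * (n + 1 : ℝ) * Y) *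
      cos (kap * (n + 1 : ℝ) * u)))) : ℝ) : ℂ)) (∫ x in (0 : ℝ)..1, F ⟨⟨x, u⟩, Y, hY⟩) := by
  -- termwise integration
  have hb : ∀ (x : ℝ) (α : Eis), ‖fterm c ⟨⟨x, u⟩, Y, hY⟩ α‖ = ‖fterm c ⟨0, Y, hY⟩ α‖ := by
    intro x α
    rw [norm_fterm, norm_fterm]
  have hsum : Summable fun α : Eis => ‖fterm c ⟨0, Y, hY⟩ α‖ := (h.expn ⟨0, Y, hY⟩).summable.norm
  have h1 : HasSum (fun α : Eis => ∫ x in (0 : ℝ)..1, fterm c ⟨⟨x, u⟩, Y, hY⟩ α)
      (∫ x in (0 : ℝ)..1, F ⟨⟨x, u⟩, Y, hY⟩) := by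
    refine intervalIntegral.hasSum_integral_of_dominated_convergence
      (fun α _ => ‖fterm c ⟨0, Y, hY⟩ α‖) ?_ ?_ ?_ ?_ ?_
    · intro α
      have hx : (fun x : ℝ => 2 * ((α : ℂ) * (⟨⟨x, u⟩, Y, hY⟩ : H3).z / sq3).re) =
          fun x : ℝ => 2 * ((α : ℂ) * ((x : ℂ) + u * Complex.I) / sq3).re := by
        funext x
        have : (⟨x, u⟩ : ℂ) = (x : ℂ) + u * Complex.I := by apply Complex.ext <;> simp
        show 2 * ((α : ℂ) * (⟨x, u⟩ : ℂ) / sq3).re = _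
        rw [this]
      have hx' : Continuous (fun x : ℝ => 2 * ((α : ℂ) * (⟨⟨x, u⟩, Y, hY⟩ : H3).z / sq3).re) := by
        rw [hx]
        fun_prop
      have hx2 : Continuous (fun x : ℝ => fterm c ⟨⟨x, u⟩, Y, hY⟩ α) := by
        have e : (fun x : ℝ => fterm c ⟨⟨x, u⟩, Y, hY⟩ α) = fun x : ℝ =>
            ((c α * Y * S47T.K0 (4 * π * ‖(α : ℂ)‖ * Y / √3) : ℝ) : ℂ) *
            ee ((2 * ((α : ℂ) * (⟨⟨x, u⟩, Y, hY⟩ : H3).z / sq3).re : ℝ) : ℂ) := rfl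
        rw [e]
        exact continuous_const.mul (continuous_ee.comp (Complex.continuous_ofReal.comp hx'))
      exact hx2.aestronglyMeasurable
    · exact fun α => Eventually.of_forall fun x _ => (hb x α).le
    · exact Eventually.of_forall fun x _ => hsum
    · exact intervalIntegrable_const
    · exact Eventually.of_forall fun x _ => h.expn _
  -- the indices in `ℤ`
  have h2 := (Equiv.hasSum_iff eisEquiv).mpr h1
  have hinj : Function.Injective (fun a : ℤ => ((a, 0) : ℤ × ℤ)) := fun a b hab =>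
    congrArg Prod.fst hab
  have h3 := (hinj.hasSum_iff (f := (fun α : Eis => ∫ x in (0 : ℝ)..1,
    fterm c ⟨⟨x, u⟩, Y, hY⟩ α) ∘ eisEquiv) ?_).mpr h2
  swap
  · rintro ⟨a, b⟩ hab
    have hb : b ≠ 0 := by
      rintro rfl
      exact hab ⟨a, rfl⟩
    show ∫ x in (0 : ℝ)..1, fterm c ⟨⟨x, u⟩, Y, hY⟩ (eisEquiv (a, b)) = 0
    rw [integral_fterm, if_neg hb]
  have h4 := h3.nat_add_neg
  -- the value at zero
  have hval : ∀ a : ℤ, ((fun α : Eis => ∫ x in (0 : ℝ)..1, fterm c ⟨⟨x, u⟩, Y, hY⟩ α) ∘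
      eisEquiv ∘ fun a : ℤ => ((a, 0) : ℤ × ℤ)) a = (c (a : Eis) * Y * H22Z.K0 (kap * |(a : ℝ)| * Y) : ℝ) *
        ee ((2 * a * u / √3 : ℝ)) := by
    intro a
    show ∫ x in (0 : ℝ)..1, fterm c ⟨⟨x, u⟩, Y, hY⟩ (eisEquiv (a, 0)) = _
    rw [integral_fterm, if_pos rfl]
  have h0 : ((fun α : Eis => ∫ x in (0 : ℝ)..1, fterm c ⟨⟨x, u⟩, Y, hY⟩ α) ∘
      eisEquiv ∘ fun a : ℤ => ((a, 0) : ℤ × ℤ)) 0 = 0 := by
    rw [hval, show ((0 : ℤ) : Eis) = 0 by simp, h.c_zero]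
    simp
  rw [show (((fun α : Eis => ∫ x in (0 : ℝ)..1, fterm c ⟨⟨x, u⟩, Y, hY⟩ α) ∘ eisEquiv) ∘
    fun a : ℤ => ((a, 0) : ℤ × ℤ)) = (fun α : Eis => ∫ x in (0 : ℝ)..1,
      fterm c ⟨⟨x, u⟩, Y, hY⟩ α) ∘ eisEquiv ∘ fun a : ℤ => ((a, 0) : ℤ × ℤ) from rfl] at h4
  have h5 := (hasSum_nat_add_iff' 1).mpr h4
  rw [h0, add_zero, Finset.sum_range_one, Nat.cast_zero, neg_zero, h0, add_zero, sub_zero] at h5
  have h6 : ∀ n : ℕ, ((2 * (c ((n + 1 : ℕ) : Eis) * (Y * (H22Z.K0 (kap * (n + 1 : ℝ) * Y) *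
      cos (kap * (n + 1 : ℝ) * u)))) : ℝ) : ℂ) =
      ((fun α : Eis => ∫ x in (0 : ℝ)..1, fterm c ⟨⟨x, u⟩, Y, hY⟩ α) ∘ eisEquiv ∘
        fun a : ℤ => ((a, 0) : ℤ × ℤ)) ((n + 1 : ℕ) : ℤ) +
      ((fun α : Eis => ∫ x in (0 : ℝ)..1, fterm c ⟨⟨x, u⟩, Y, hY⟩ α) ∘ eisEquiv ∘
        fun a : ℤ => ((a, 0) : ℤ × ℤ)) (-((n + 1 : ℕ) : ℤ)) := by
    intro n
    rw [hval, hval]
    have e1 : c ((-((n + 1 : ℕ) : ℤ) : ℤ) : Eis) = c ((n + 1 : ℕ) : Eis) := by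
      have := h.c_unit (-1) ((n + 1 : ℕ) : Eis) isUnit_one.neg
      rw [← this]
      congr 1
      push_cast
      ring
    have e2 : c ((((n + 1 : ℕ) : ℤ) : ℤ) : Eis) = c ((n + 1 : ℕ) : Eis) := by
      congr 1
    have e3 : |((-((n + 1 : ℕ) : ℤ) : ℤ) : ℝ)| = (n + 1 : ℝ) := by
      push_cast
      rw [abs_neg, abs_of_nonneg (by positivity)]
    have e4 : |((((n + 1 : ℕ) : ℤ) : ℤ) : ℝ)| = (n + 1 : ℝ) := by
      push_cast
      rw [abs_of_nonneg (by positivity)]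
    have e5 : (2 * ((-((n + 1 : ℕ) : ℤ) : ℤ) : ℝ) * u / √3 : ℝ) =
        -(2 * ((((n + 1 : ℕ) : ℤ) : ℤ) : ℝ) * u / √3) := by
      push_cast
      ring
    rw [e1, e2, e3, e4, e5, ← mul_add, ee_add_neg, ← Complex.ofReal_mul]
    congr 1
    have e6 : 2 * π * (2 * ((((n + 1 : ℕ) : ℤ) : ℤ) : ℝ) * u / √3) = kap * (n + 1 : ℝ) * u := by
      unfold kap
      push_cast
      ring
    rw [e6]
    ring
  simp only [h6]
  exact h5

end Fermat.Agent.H90T
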