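import Mathlib

/-!
# Integration over the upper half plane in coordinates

`∫ τ, h τ = ∫ y in Ioi 0, (∫ x, h (x + i y)) * (y ^ 2)⁻¹` for the invariant measure, and the same
over the strip `0 ≤ x < 1`.
-/

set_option autoImplicit false

open MeasureTheory UpperHalfPlane Set
open scoped ENNReal NNReal

namespace Fermat.Agent.H97T

/-- the density `y⁻²` -/
noncomputable def dens (τ : ℍ) : ℝ≥0 := (1 / NNReal.mk τ.im τ.im_pos.le : ℝ≥0) ^ 2

theorem dens_coe (τ : ℍ) : (dens τ : ℝ) = (τ.im ^ 2)⁻¹ := by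
  simp [dens]

theorem measurable_im' : Measurable (fun τ : ℍ => τ.im) :=
  Complex.measurable_im.comp measurable_coe

theorem measurable_re' : Measurable (fun τ : ℍ => τ.re) :=
  Complex.measurable_re.comp measurable_coe

theorem measurable_dens : Measurable dens := by
  have : Measurable (fun τ : ℍ => NNReal.mk τ.im τ.im_pos.le) := measurable_im'.subtype_mk
  exact (measurable_const.div this).pow_const 2

theorem volume_eq : (volume : Measure ℍ) =
    ((volume : Measure ℂ).comap UpperHalfPlane.coe).withDensity (fun τ => (dens τ : ℝ≥0∞)) := rfl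

/-- the map to `ℝ × ℝ` -/
def toProd (τ : ℍ) : ℝ × ℝ := (τ.re, τ.im)

theorem toProd_eq (τ : ℍ) : toProd τ = Complex.measurableEquivRealProd (τ : ℂ) := rfl

theorem measurableEmbedding_toProd : MeasurableEmbedding toProd :=
  Complex.measurableEquivRealProd.measurableEmbedding.comp measurableEmbedding_coe

theorem range_toProd : range toProd = univ ×ˢ Ioi (0 : ℝ) := by
  ext ⟨x, y⟩
  constructor
  · rintro ⟨τ, hτ⟩
    have : τ.im = y := congrArg Prod.snd hτ
    exact ⟨mem_univ _, this ▸ τ.im_pos⟩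
  · rintro ⟨-, hy⟩
    exact ⟨⟨⟨x, y⟩, hy⟩, rfl⟩

theorem map_toProd : ((volume : Measure ℂ).comap UpperHalfPlane.coe).map toProd =
    (volume : Measure (ℝ × ℝ)).restrict (univ ×ˢ Ioi (0 : ℝ)) := by
  have h1 : (toProd : ℍ → ℝ × ℝ) = Complex.measurableEquivRealProd ∘ UpperHalfPlane.coe := rfl
  rw [h1, ← Measure.map_map Complex.measurableEquivRealProd.measurable measurable_coe,
    measurableEmbedding_coe.map_comap]
  have h2 : (range UpperHalfPlane.coe : Set ℂ) =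
      Complex.measurableEquivRealProd ⁻¹' (univ ×ˢ Ioi (0 : ℝ)) := by
    ext z
    constructor
    · rintro ⟨τ, rfl⟩
      exact ⟨mem_univ _, τ.im_pos⟩
    · rintro ⟨-, h⟩
      exact ⟨⟨z, h⟩, rfl⟩
  rw [h2, ← Measure.restrict_map Complex.measurableEquivRealProd.measurable
    (MeasurableSet.univ.prod measurableSet_Ioi),
    Complex.volume_preserving_equiv_real_prod.map_eq]

/-- **Coordinates**, nonnegative functions. -/
theorem lintegral_coord {h : ℍ → ℝ≥0∞} (hm : Measurable h) {H : ℝ → ℝ → ℝ≥0∞}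
    (hH : ∀ x y (hy : 0 < y), h ⟨⟨x, y⟩, hy⟩ = H x y) :
    ∫⁻ τ, h τ = ∫⁻ y in Ioi (0 : ℝ), (∫⁻ x, H x y) * ENNReal.ofReal (y ^ 2)⁻¹ := by
  have hd : Measurable (fun τ : ℍ => (dens τ : ℝ≥0∞)) :=
    measurable_coe_nnreal_ennreal.comp measurable_dens
  rw [volume_eq, lintegral_withDensity_eq_lintegral_mul _ hd hm]
  obtain ⟨G, hG, hGh⟩ : ∃ G : ℝ × ℝ → ℝ≥0∞, Measurable G ∧ ∀ τ, G (toProd τ) = (dens τ : ℝ≥0∞) * h τ := by
    obtain ⟨G, hG, h1⟩ := measurableEmbedding_toProd.exists_measurable_extend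
      (((measurable_coe_nnreal_ennreal.comp measurable_dens).mul hm)) (fun _ => ⟨0⟩)
    exact ⟨G, hG, fun τ => congrFun h1 τ⟩
  have h1 : ∫⁻ τ, ((fun τ => (dens τ : ℝ≥0∞)) * h) τ ∂((volume : Measure ℂ).comap UpperHalfPlane.coe) =
      ∫⁻ p in univ ×ˢ Ioi (0 : ℝ), G p := by
    rw [← map_toProd, measurableEmbedding_toProd.lintegral_map]
    exact lintegral_congr fun τ => (hGh τ).symm
  have h2 : (volume : Measure (ℝ × ℝ)).restrict (univ ×ˢ Ioi (0 : ℝ)) =
      (volume : Measure ℝ).prod ((volume : Measure ℝ).restrict (Ioi 0)) := by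
    rw [Measure.volume_eq_prod, ← Measure.prod_restrict, Measure.restrict_univ]
  refine h1.trans ?_
  rw [h2, lintegral_prod_symm' _ hG]
  refine setLIntegral_congr_fun measurableSet_Ioi fun y hy => ?_
  have hy' : (0 : ℝ) < y := hy
  have h3 : ∀ x, G (x, y) = H x y * ENNReal.ofReal (y ^ 2)⁻¹ := by
    intro x
    have := hGh ⟨⟨x, y⟩, hy'⟩
    rw [hH] at this
    rw [show ((x, y) : ℝ × ℝ) = toProd ⟨⟨x, y⟩, hy'⟩ from rfl, this, mul_comm]
    congr 1
    rw [← ENNReal.ofReal_coe_nnreal, dens_coe]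
    rfl
  simp_rw [h3]
  rw [lintegral_mul_const' _ _ ENNReal.ofReal_ne_top]

/-- integrability in coordinates -/
theorem integrable_coord {E : Type*} [NormedAddCommGroup E] [NormedSpace ℝ E] {h : ℍ → E}
    {G : ℝ × ℝ → E} (hG : ∀ τ, G (toProd τ) = (dens τ : ℝ) • h τ) :
    Integrable h ↔
      Integrable G ((volume : Measure ℝ).prod ((volume : Measure ℝ).restrict (Ioi 0))) := by
  rw [volume_eq, integrable_withDensity_iff_integrable_smul measurable_dens]
  have h2 : (volume : Measure (ℝ × ℝ)).restrict (univ ×ˢ Ioi (0 : ℝ)) =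
      (volume : Measure ℝ).prod ((volume : Measure ℝ).restrict (Ioi 0)) := by
    rw [Measure.volume_eq_prod, ← Measure.prod_restrict, Measure.restrict_univ]
  rw [← h2, ← map_toProd, measurableEmbedding_toProd.integrable_map_iff]
  refine integrable_congr (Filter.Eventually.of_forall fun τ => ?_)
  exact (hG τ).symm

/-- **Coordinates**, integrable functions. -/
theorem integral_coord {E : Type*} [NormedAddCommGroup E] [NormedSpace ℝ E] {h : ℍ → E}
    (hi : Integrable h) {H : ℝ → ℝ → E} (hH : ∀ x y (hy : 0 < y), h ⟨⟨x, y⟩, hy⟩ = H x y) :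
    ∫ τ, h τ = ∫ y in Ioi (0 : ℝ), (y ^ 2)⁻¹ • ∫ x, H x y := by
  classical
  let G : ℝ × ℝ → E := fun p => (p.2 ^ 2)⁻¹ • H p.1 p.2
  have hG : ∀ τ, G (toProd τ) = (dens τ : ℝ) • h τ := by
    intro τ
    have h1 := hH τ.re τ.im τ.im_pos
    rw [dens_coe]
    change (τ.im ^ 2)⁻¹ • H τ.re τ.im = _
    rw [← h1]
    rfl
  have hGi := (integrable_coord hG).mp hi
  have h2 : (volume : Measure (ℝ × ℝ)).restrict (univ ×ˢ Ioi (0 : ℝ)) =
      (volume : Measure ℝ).prod ((volume : Measure ℝ).restrict (Ioi 0)) := by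
    rw [Measure.volume_eq_prod, ← Measure.prod_restrict, Measure.restrict_univ]
  rw [volume_eq, integral_withDensity_eq_integral_smul measurable_dens]
  have h1 : ∫ τ, dens τ • h τ ∂((volume : Measure ℂ).comap UpperHalfPlane.coe) =
      ∫ p in univ ×ˢ Ioi (0 : ℝ), G p := by
    rw [← map_toProd, measurableEmbedding_toProd.integral_map]
    exact integral_congr_ae (Filter.Eventually.of_forall fun τ => (hG τ).symm)
  rw [h1, h2, integral_prod_symm _ hGi]
  refine integral_congr_ae (Filter.Eventually.of_forall fun y => ?_)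
  change (∫ x, (y ^ 2)⁻¹ • H x y) = (y ^ 2)⁻¹ • ∫ x, H x y
  exact integral_smul _ _

/-- the strip -/
def stripSet : Set ℍ := {τ | 0 ≤ τ.re ∧ τ.re < 1}

theorem measurableSet_stripSet : MeasurableSet stripSet :=
  (measurableSet_le measurable_const measurable_re').inter
    (measurableSet_lt measurable_re' measurable_const)

/-- **[T6-COORD]** Integration over the strip `0 ≤ x < 1`. -/
theorem integral_strip {h : ℍ → ℂ} (hi : IntegrableOn h {τ : ℍ | 0 ≤ τ.re ∧ τ.re < 1})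
    {H : ℝ → ℝ → ℂ} (hH : ∀ x y (hy : 0 < y), h ⟨⟨x, y⟩, hy⟩ = H x y) :
    ∫ τ in {τ : ℍ | 0 ≤ τ.re ∧ τ.re < 1}, h τ =
      ∫ y in Ioi (0 : ℝ), (∫ x in Ico (0 : ℝ) 1, H x y) * (((y ^ 2)⁻¹ : ℝ) : ℂ) := by
  have h0 : MeasurableSet {τ : ℍ | 0 ≤ τ.re ∧ τ.re < 1} := measurableSet_stripSet
  rw [← integral_indicator h0, integral_coord ((integrable_indicator_iff h0).mpr hi)
    (H := fun x y => (Ico (0 : ℝ) 1).indicator (fun x => H x y) x)]
  · refine integral_congr_ae (Filter.Eventually.of_forall fun y => ?_)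
    simp only
    rw [integral_indicator measurableSet_Ico, Complex.real_smul, mul_comm]
  · intro x y hy
    by_cases hx : x ∈ Ico (0 : ℝ) 1
    · rw [indicator_of_mem hx, indicator_of_mem (by exact hx), hH]
    · rw [indicator_of_notMem hx, indicator_of_notMem (by exact hx)]

/-- **[T6-COORD]** Integration over the strip `0 ≤ x < 1`, with interval integrals. -/
theorem integral_strip' {h : ℍ → ℂ} (hi : IntegrableOn h {τ : ℍ | 0 ≤ τ.re ∧ τ.re < 1})
    {H : ℝ → ℝ → ℂ} (hH : ∀ x y (hy : 0 < y), h ⟨⟨x, y⟩, hy⟩ = H x y) :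
    ∫ τ in {τ : ℍ | 0 ≤ τ.re ∧ τ.re < 1}, h τ =
      ∫ y in Ioi (0 : ℝ), (∫ x in (0 : ℝ)..1, H x y) * (((y ^ 2)⁻¹ : ℝ) : ℂ) := by
  rw [integral_strip hi hH]
  refine integral_congr_ae (Filter.Eventually.of_forall fun y => ?_)
  simp only
  rw [intervalIntegral.integral_of_le zero_le_one, integral_Ico_eq_integral_Ioo,
    integral_Ioc_eq_integral_Ioo]

/-- Integration over the strip with `ofComplex`. -/
theorem integral_strip_ofComplex {h : ℍ → ℂ}
    (hi : IntegrableOn h {τ : ℍ | 0 ≤ τ.re ∧ τ.re < 1}) :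
    ∫ τ in {τ : ℍ | 0 ≤ τ.re ∧ τ.re < 1}, h τ =
      ∫ y in Ioi (0 : ℝ), (∫ x in (0 : ℝ)..1, h (ofComplex (x + y * Complex.I))) *
        (((y ^ 2)⁻¹ : ℝ) : ℂ) := by
  refine integral_strip' hi (H := fun x y => h (ofComplex (x + y * Complex.I))) fun x y hy => ?_
  have h1 : ((x : ℂ) + y * Complex.I) = ((⟨⟨x, y⟩, hy⟩ : ℍ) : ℂ) := by
    apply Complex.ext <;> simp
  rw [h1, ofComplex_apply]

/-- Nonnegative functions over the strip. -/
theorem lintegral_strip {h : ℍ → ℝ≥0∞} (hm : Measurable h) {H : ℝ → ℝ → ℝ≥0∞}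
    (hH : ∀ x y (hy : 0 < y), h ⟨⟨x, y⟩, hy⟩ = H x y) :
    ∫⁻ τ in {τ : ℍ | 0 ≤ τ.re ∧ τ.re < 1}, h τ =
      ∫⁻ y in Ioi (0 : ℝ), (∫⁻ x in Ico (0 : ℝ) 1, H x y) * ENNReal.ofReal (y ^ 2)⁻¹ := by
  have h0 : MeasurableSet {τ : ℍ | 0 ≤ τ.re ∧ τ.re < 1} := measurableSet_stripSet
  rw [← lintegral_indicator h0, lintegral_coord (hm.indicator h0)
    (H := fun x y => (Ico (0 : ℝ) 1).indicator (fun x => H x y) x)]
  · refine lintegral_congr fun y => ?_
    rw [lintegral_indicator measurableSet_Ico]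
  · intro x y hy
    by_cases hx : x ∈ Ico (0 : ℝ) 1
    · rw [indicator_of_mem hx, indicator_of_mem (by exact hx), hH]
    · rw [indicator_of_notMem hx, indicator_of_notMem (by exact hx)]

/-- An integrability criterion on the strip: measurable and dominated by a function of `y`. -/
theorem integrableOn_strip_of_le {h : ℍ → ℂ} (hm : Measurable h) {g : ℝ → ℝ}
    (hg : IntegrableOn (fun y => g y * (y ^ 2)⁻¹) (Ioi 0))
    (hle : ∀ τ : ℍ, 0 ≤ τ.re → τ.re < 1 → ‖h τ‖ ≤ g τ.im) :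
    IntegrableOn h {τ : ℍ | 0 ≤ τ.re ∧ τ.re < 1} := by
  classical
  have h0 : MeasurableSet {τ : ℍ | 0 ≤ τ.re ∧ τ.re < 1} := measurableSet_stripSet
  refine ⟨hm.aestronglyMeasurable, ?_⟩
  rw [hasFiniteIntegral_iff_enorm]
  have hms : Measurable (fun τ : ℍ => ‖h τ‖ₑ) := hm.enorm
  rw [lintegral_strip hms (H := fun x y => if hy : 0 < y then ‖h ⟨⟨x, y⟩, hy⟩‖ₑ else 0)
    (fun x y hy => by rw [dif_pos hy])]
  refine lt_of_le_of_lt ?_ hg.2
  rw [show (∫⁻ y in Ioi (0 : ℝ), ‖g y * (y ^ 2)⁻¹‖ₑ) = ∫⁻ y in Ioi (0 : ℝ), ‖g y‖ₑ *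
    ENNReal.ofReal (y ^ 2)⁻¹ from ?_]
  · refine setLIntegral_mono' measurableSet_Ioi fun y hy => ?_
    refine mul_le_mul' ?_ le_rfl
    have h1 : ∫⁻ x in Ico (0 : ℝ) 1, (if hy : 0 < y then ‖h ⟨⟨x, y⟩, hy⟩‖ₑ else 0) ≤
        ∫⁻ _ in Ico (0 : ℝ) 1, ‖g y‖ₑ := by
      refine setLIntegral_mono' measurableSet_Ico fun x hx => ?_
      rw [dif_pos (show (0 : ℝ) < y from hy)]
      have := hle ⟨⟨x, y⟩, hy⟩ hx.1 hx.2
      have h2 : ‖h ⟨⟨x, y⟩, hy⟩‖ ≤ ‖g y‖ := this.trans (le_abs_self _)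
      exact enorm_le_iff_norm_le.mpr h2
    refine h1.trans ?_
    rw [setLIntegral_const, Real.volume_Ico, sub_zero, ENNReal.ofReal_one, mul_one]
  · refine setLIntegral_congr_fun measurableSet_Ioi fun y hy => ?_
    rw [enorm_mul]
    congr 1
    rw [Real.enorm_eq_ofReal (by positivity)]

end Fermat.Agent.H97T
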