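import Fermat.Agent.H99C1
import Fermat.Agent.H97TCoord

/-!
# Cut-off functions for `Γ₀(N)` on the upper half plane
-/

set_option autoImplicit false

open MeasureTheory UpperHalfPlane ModularGroup Set
open scoped Modular MatrixGroups ENNReal NNReal

namespace Fermat.Agent.H97T

noncomputable section

/-- representatives up to sign of the `g` with `𝒟 ∩ g⁻¹ 𝒟 ≠ ∅` -/
def fdList : List SL(2, ℤ) :=
  [1, T, T⁻¹, S, T * S, T⁻¹ * S * T⁻¹, S * T⁻¹, S * T, T * S * T, T⁻¹ * S]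

theorem mem_fdList {z : ℍ} {g : SL(2, ℤ)} (hz : z ∈ 𝒟) (hg : g • z ∈ 𝒟) :
    ∃ x ∈ fdList, g = x ∨ g = -x := by
  rcases cases_of_mem_fd_smul_mem_fd hz hg with
    h | ⟨h, -⟩ | ⟨h, -⟩ | ⟨h, -⟩ | ⟨h, -⟩ | ⟨h, -⟩ | ⟨h, -⟩ | ⟨h, -⟩ | ⟨h, -⟩ | ⟨h, -⟩
  all_goals
    refine ⟨_, ?_, h⟩
    simp only [fdList, List.mem_cons, true_or, or_true]

/-- the finite set of all `g` with `𝒟 ∩ g⁻¹ 𝒟 ≠ ∅` -/
theorem exists_finset_fd : ∃ s : Set SL(2, ℤ), s.Finite ∧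
    ∀ (z : ℍ) (g : SL(2, ℤ)), z ∈ 𝒟 → g • z ∈ 𝒟 → g ∈ s := by
  have hf : {x : SL(2, ℤ) | x ∈ fdList}.Finite := fdList.finite_toSet
  refine ⟨{x | x ∈ fdList} ∪ (fun x => -x) '' {x | x ∈ fdList}, hf.union (hf.image _),
    fun z g hz hg => ?_⟩
  obtain ⟨x, hx, rfl | rfl⟩ := mem_fdList hz hg
  · exact Or.inl hx
  · exact Or.inr ⟨x, hx, rfl⟩

/-- the number of `g` with `g • τ ∈ 𝒟` -/
def cnt (τ : ℍ) : ℝ≥0∞ := ∑' g : SL(2, ℤ), (𝒟).indicator (1 : ℍ → ℝ≥0∞) (g • τ)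

theorem cnt_smul (h : SL(2, ℤ)) (τ : ℍ) : cnt (h • τ) = cnt τ := by
  unfold cnt
  rw [← (Equiv.mulRight h).tsum_eq (fun g => (𝒟).indicator (1 : ℍ → ℝ≥0∞) (g • τ))]
  refine tsum_congr fun g => ?_
  rw [Equiv.coe_mulRight, mul_smul]

theorem one_le_cnt (τ : ℍ) : 1 ≤ cnt τ := by
  obtain ⟨g, hg⟩ := exists_smul_mem_fd τ
  refine le_trans ?_ (ENNReal.le_tsum g)
  rw [indicator_of_mem hg]
  rfl

theorem finite_smul_mem_fd (τ : ℍ) : {g : SL(2, ℤ) | g • τ ∈ 𝒟}.Finite := by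
  obtain ⟨s, hs, h⟩ := exists_finset_fd
  obtain ⟨g₀, hg₀⟩ := exists_smul_mem_fd τ
  refine (hs.image (fun g => g * g₀)).subset fun g hg => ?_
  refine ⟨g * g₀⁻¹, h (g₀ • τ) _ hg₀ ?_, by simp⟩
  rw [smul_smul, inv_mul_cancel_right]
  exact hg

theorem cnt_ne_top (τ : ℍ) : cnt τ ≠ ∞ := by
  have hf := finite_smul_mem_fd τ
  unfold cnt
  rw [tsum_eq_sum (s := hf.toFinset)]
  · refine (ENNReal.sum_lt_top.mpr fun g _ => ?_).ne
    exact lt_of_le_of_lt (Set.indicator_le_self _ _ _) ENNReal.one_lt_top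
  · intro g hg
    apply indicator_of_notMem
    intro h
    exact hg (hf.mem_toFinset.mpr h)

theorem measurable_cnt : Measurable cnt :=
  Measurable.tsum fun g =>
    (measurable_one.indicator H99C.measurableSet_fd).comp (H99C.measurable_sl g)

/-- the cut-off function of `SL(2, ℤ)` -/
def cut1 (τ : ℍ) : ℝ≥0∞ := (𝒟).indicator (1 : ℍ → ℝ≥0∞) τ / cnt τ

theorem measurable_cut1 : Measurable cut1 :=
  (measurable_one.indicator H99C.measurableSet_fd).div measurable_cnt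

theorem cut1_le (τ : ℍ) : cut1 τ ≤ (𝒟).indicator (1 : ℍ → ℝ≥0∞) τ := by
  unfold cut1
  exact ENNReal.div_le_of_le_mul (le_mul_of_one_le_right zero_le (one_le_cnt τ))

theorem tsum_cut1 (τ : ℍ) : ∑' g : SL(2, ℤ), cut1 (g • τ) = 1 := by
  unfold cut1
  simp_rw [cnt_smul, div_eq_mul_inv]
  rw [ENNReal.tsum_mul_right]
  exact ENNReal.mul_inv_cancel (zero_lt_one.trans_le (one_le_cnt τ)).ne' (cnt_ne_top τ)

variable (Γ : Subgroup SL(2, ℤ))

/-- the cut-off function of a subgroup -/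
def cutE (τ : ℍ) : ℝ≥0∞ := ∑' q : SL(2, ℤ) ⧸ Γ, cut1 (q.out • τ)

theorem measurable_cutE : Measurable (cutE Γ) := by
  have : Countable (SL(2, ℤ) ⧸ Γ) := Quotient.countable
  exact Measurable.tsum fun q => measurable_cut1.comp (H99C.measurable_sl _)

/-- cosets times the subgroup -/
def cosEquiv : Γ × (SL(2, ℤ) ⧸ Γ) ≃ SL(2, ℤ) :=
  Equiv.ofBijective (fun p => p.2.out * p.1) (by
    constructor
    · rintro ⟨g, q⟩ ⟨g', q'⟩ h
      simp only at h
      have h1 : q = q' := by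
        rw [← QuotientGroup.out_eq' q, ← QuotientGroup.out_eq' q', QuotientGroup.eq]
        have : (Quotient.out q)⁻¹ * Quotient.out q' = (g : SL(2, ℤ)) * (g' : SL(2, ℤ))⁻¹ := by
          rw [eq_mul_inv_iff_mul_eq, mul_assoc, ← h, inv_mul_cancel_left]
        rw [this]
        exact Γ.mul_mem g.2 (Γ.inv_mem g'.2)
      subst h1
      have h2 := mul_left_cancel h
      rw [Subtype.ext h2]
    · intro x
      refine ⟨⟨⟨((x : SL(2, ℤ) ⧸ Γ).out)⁻¹ * x, ?_⟩, (x : SL(2, ℤ) ⧸ Γ)⟩, ?_⟩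
      · rw [← QuotientGroup.eq]
        exact QuotientGroup.out_eq' _
      · exact mul_inv_cancel_left _ _)

theorem cosEquiv_apply (p : Γ × (SL(2, ℤ) ⧸ Γ)) : cosEquiv Γ p = p.2.out * p.1 := rfl

theorem tsum_cutE (τ : ℍ) : ∑' g : Γ, cutE Γ ((g : SL(2, ℤ)) • τ) = 1 := by
  unfold cutE
  rw [← ENNReal.tsum_prod, ← tsum_cut1 τ, ← (cosEquiv Γ).tsum_eq]
  refine tsum_congr fun p => ?_
  rw [cosEquiv_apply, mul_smul]

/-- The standard fundamental domain has finite volume. -/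
theorem volume_fd_lt_top : (volume : Measure ℍ) 𝒟 < ∞ := by
  have h1 : (volume : Measure ℍ) 𝒟 ≤ ∫⁻ τ, ({τ : ℍ | |τ.re| ≤ 1 / 2 ∧ 1 / 2 ≤ τ.im}).indicator
      (1 : ℍ → ℝ≥0∞) τ := by
    rw [← lintegral_indicator_one H99C.measurableSet_fd]
    refine lintegral_mono fun τ => ?_
    refine indicator_le_indicator_of_subset ?_ (fun _ => zero_le) τ
    intro z hz
    refine ⟨hz.2, ?_⟩
    have := three_le_four_mul_im_sq_of_mem_fd hz
    nlinarith [z.im_pos]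
  refine lt_of_le_of_lt h1 ?_
  have hm : MeasurableSet {τ : ℍ | |τ.re| ≤ 1 / 2 ∧ 1 / 2 ≤ τ.im} :=
    (measurableSet_le measurable_re'.abs measurable_const).inter
      (measurableSet_le measurable_const measurable_im')
  rw [lintegral_coord (measurable_one.indicator hm)
    (H := fun x y => (Icc (-(1 / 2) : ℝ) (1 / 2)).indicator (fun _ =>
      (Ici (1 / 2 : ℝ)).indicator (fun _ => (1 : ℝ≥0∞)) y) x)]
  · have h2 : ∀ y : ℝ, (∫⁻ x, (Icc (-(1 / 2) : ℝ) (1 / 2)).indicator (fun _ =>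
      (Ici (1 / 2 : ℝ)).indicator (fun _ => (1 : ℝ≥0∞)) y) x) =
        (Ici (1 / 2 : ℝ)).indicator (fun _ => (1 : ℝ≥0∞)) y := by
      intro y
      rw [lintegral_indicator measurableSet_Icc, setLIntegral_const, Real.volume_Icc]
      norm_num
    simp_rw [h2]
    have h3 : ∫⁻ y in Ioi (0 : ℝ), (Ici (1 / 2 : ℝ)).indicator (fun _ => (1 : ℝ≥0∞)) y *
        ENNReal.ofReal (y ^ 2)⁻¹ ≤ ∫⁻ y in Ici (1 / 2 : ℝ), ENNReal.ofReal (y ^ 2)⁻¹ := by
      rw [← lintegral_indicator measurableSet_Ici]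
      refine (setLIntegral_le_lintegral _ _).trans (lintegral_mono fun y => ?_)
      by_cases hy : y ∈ Ici (1 / 2 : ℝ)
      · rw [indicator_of_mem hy, indicator_of_mem hy, one_mul]
      · rw [indicator_of_notMem hy, indicator_of_notMem hy, zero_mul]
    refine lt_of_le_of_lt h3 ?_
    have h4 : IntegrableOn (fun y : ℝ => y ^ (-2 : ℝ)) (Ioi (1 / 2 : ℝ)) :=
      integrableOn_Ioi_rpow_of_lt (by norm_num) (by norm_num)
    have h5 : IntegrableOn (fun y : ℝ => (y ^ 2)⁻¹) (Ici (1 / 2 : ℝ)) := by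
      rw [integrableOn_Ici_iff_integrableOn_Ioi]
      refine h4.congr_fun (fun y hy => ?_) measurableSet_Ioi
      have hy0 : (0 : ℝ) ≤ y := le_trans (by norm_num) (le_of_lt hy)
      simp only
      rw [Real.rpow_neg hy0, Real.rpow_two]
    exact h5.lintegral_lt_top
  · intro x y hy
    by_cases hx : x ∈ Icc (-(1 / 2) : ℝ) (1 / 2)
    · by_cases hy' : y ∈ Ici (1 / 2 : ℝ)
      · rw [indicator_of_mem hx, indicator_of_mem hy', indicator_of_mem]
        · rfl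
        · exact ⟨abs_le.mpr ⟨hx.1, hx.2⟩, hy'⟩
      · rw [indicator_of_mem hx, indicator_of_notMem hy', indicator_of_notMem]
        exact fun h => hy' h.2
    · rw [indicator_of_notMem hx, indicator_of_notMem]
      exact fun h => hx (abs_le.mp h.1)

theorem lintegral_cut1 : ∫⁻ τ, cut1 τ < ∞ := by
  refine lt_of_le_of_lt (lintegral_mono cut1_le) ?_
  rw [lintegral_indicator_one H99C.measurableSet_fd]
  exact volume_fd_lt_top

theorem lintegral_cutE [Finite (SL(2, ℤ) ⧸ Γ)] : ∫⁻ τ, cutE Γ τ < ∞ := by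
  have := Fintype.ofFinite (SL(2, ℤ) ⧸ Γ)
  have hq : ∀ q : SL(2, ℤ) ⧸ Γ, AEMeasurable (fun τ : ℍ => cut1 (q.out • τ)) :=
    fun q => (measurable_cut1.comp (H99C.measurable_sl (Quotient.out q))).aemeasurable
  unfold cutE
  rw [lintegral_tsum hq, tsum_fintype]
  refine ENNReal.sum_lt_top.mpr fun q _ => ?_
  rw [(H99C.measurePreserving_sl (Quotient.out q)).lintegral_comp measurable_cut1]
  exact lintegral_cut1

/-- **Cut-off functions** for subgroups of finite index. -/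
theorem exists_cut_of_finiteIndex [Finite (SL(2, ℤ) ⧸ Γ)] :
    ∃ χ : ℍ → ℝ, Measurable χ ∧ (∀ τ, 0 ≤ χ τ) ∧
      (∀ τ, HasSum (fun g : Γ => χ ((g : SL(2, ℤ)) • τ)) 1) ∧ Integrable χ := by
  refine ⟨fun τ => (cutE Γ τ).toReal, (measurable_cutE Γ).ennreal_toReal,
    fun τ => ENNReal.toReal_nonneg, fun τ => ?_, ?_⟩
  · have h1 := tsum_cutE Γ τ
    have h2 : ∑' g : Γ, cutE Γ ((g : SL(2, ℤ)) • τ) ≠ ∞ := by rw [h1]; exact ENNReal.one_ne_top
    have h3 := ENNReal.hasSum_toReal h2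
    rw [← ENNReal.tsum_toReal_eq fun g => ENNReal.ne_top_of_tsum_ne_top h2 g, h1,
      ENNReal.toReal_one] at h3
    exact h3
  · exact integrable_toReal_of_lintegral_ne_top (measurable_cutE Γ).aemeasurable
      (lintegral_cutE Γ).ne

/-- **[T6-CUT]** -/
theorem exists_cut (N : ℕ) [NeZero N] : ∃ χ : ℍ → ℝ, Measurable χ ∧ (∀ τ, 0 ≤ χ τ) ∧
    (∀ τ, HasSum (fun g : CongruenceSubgroup.Gamma0 N => χ ((g : SL(2, ℤ)) • τ)) 1) ∧
    Integrable χ :=
  haveI : Finite (SL(2, ℤ) ⧸ CongruenceSubgroup.Gamma0 N) :=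
    Subgroup.finite_quotient_of_finiteIndex
  exists_cut_of_finiteIndex _

end

end Fermat.Agent.H97T
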