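import Fermat.Agent.H99C6

/-!
# T6: a vanishing period makes the Dirichlet series bounded (S47)

If `f` is `Γ₀(N)`-invariant on the upper half plane, decays at every cusp and has integral zero over
`Γ₀(N)\ℍ`, then `∫_{0 ≤ x < 1} f(x + i y) y^s dx dy / y²` stays bounded for `s → 1+`.
-/

namespace Fermat.Agent.H99C

open UpperHalfPlane MeasureTheory ModularGroup Matrix.SpecialLinearGroup
open scoped Modular MatrixGroups ENNReal

noncomputable section

theorem T_zpow_mem (N : ℕ) (n : ℤ) : (T ^ n : SL(2, ℤ)) ∈ CongruenceSubgroup.Gamma0 N := by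
  rw [CongruenceSubgroup.Gamma0_mem, coe_T_zpow]
  simp

section

variable {N : ℕ} {χ : ℍ → ℝ≥0∞} {f : ℍ → ℂ} {C0 : ℝ}

/-- The integrand of the unfolding. -/
def uf (f : ℍ → ℂ) (s : ℝ) (τ : ℍ) : ℂ := f τ * ((τ.im ^ s : ℝ) : ℂ)

theorem measurable_uf (hf : Measurable f) (s : ℝ) : Measurable (uf f s) :=
  hf.mul (Complex.measurable_ofReal.comp (measurable_im.pow_const s))

theorem uf_T (hinv : ∀ g ∈ CongruenceSubgroup.Gamma0 N, ∀ τ, f (g • τ) = f τ) (s : ℝ) (n : ℤ)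
    (τ : ℍ) : uf f s (T ^ n • τ) = uf f s τ := by
  unfold uf
  rw [hinv _ (T_zpow_mem N n), im_T_zpow_smul]

theorem sec_mem (r : CPN N) : sec r.1 ∈ CongruenceSubgroup.Gamma0 N := by
  have := T_zpow_mul_sec_mem r 0
  simpa using this

theorem uf_sec (hinv : ∀ g ∈ CongruenceSubgroup.Gamma0 N, ∀ τ, f (g • τ) = f τ) (s : ℝ)
    (r : CPN N) (τ : ℍ) :
    uf f s (sec r.1 • τ) = f τ * (((sec r.1 • τ).im ^ s : ℝ) : ℂ) := by
  unfold uf
  rw [hinv _ (sec_mem r)]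

theorem norm_uf_sec (hinv : ∀ g ∈ CongruenceSubgroup.Gamma0 N, ∀ τ, f (g • τ) = f τ) (s : ℝ)
    (r : CPN N) (τ : ℍ) :
    ‖uf f s (sec r.1 • τ)‖ₑ = ‖f τ‖ₑ * ENNReal.ofReal ((sec r.1 • τ).im ^ s) := by
  rw [uf_sec hinv, enorm_mul]
  congr 1
  rw [← ofReal_norm, Complex.norm_real, Real.norm_of_nonneg (Real.rpow_nonneg (im_pos _).le _)]

/-- Sum of the norms of the unfolded terms. -/
theorem tsum_lintegral_norm (hχm : Measurable χ) (hf : Measurable f)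
    (hinv : ∀ g ∈ CongruenceSubgroup.Gamma0 N, ∀ τ, f (g • τ) = f τ) {s : ℝ} (hs : 1 < s) :
    ∑' r : CPN N, ∫⁻ τ, χ τ * ‖uf f s (sec r.1 • τ)‖ₑ =
      ∫⁻ τ, χ τ * (‖f τ‖ₑ * ENNReal.ofReal (EN N τ s)) := by
  rw [← lintegral_tsum]
  · refine lintegral_congr fun τ => ?_
    rw [ENNReal.tsum_mul_left]
    congr 1
    simp_rw [norm_uf_sec hinv]
    rw [ENNReal.tsum_mul_left]
    congr 1
    rw [EN, ENNReal.ofReal_tsum_of_nonneg (fun r => Real.rpow_nonneg (im_pos _).le _)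
      (summable_EN N τ hs)]
  · intro r
    exact (hχm.mul ((measurable_uf hf s).comp (measurable_sl _)).enorm).aemeasurable

theorem exists_large (τ : ℍ) : ∃ g : SL(2, ℤ), 1 / 2 ≤ (g • τ).im :=
  exists_one_half_le_im_smul τ

theorem norm_mul_le (hC0 : 0 ≤ C0) (hdec : ∀ (g : SL(2, ℤ)) τ, ‖f τ‖ ≤ C0 * ((g • τ).im ^ 2)⁻¹)
    {A : ℝ} {τ : ℍ} {x : ℝ}
    (hx : ∀ g : SL(2, ℤ), 1 / 2 ≤ (g • τ).im → |x| ≤ A * (g • τ).im ^ 2) :
    ‖f τ‖ * |x| ≤ C0 * A := by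
  obtain ⟨g, hg⟩ := exists_large τ
  have h1 := hdec g τ
  have h2 := hx g hg
  have h3 : 0 < (g • τ).im ^ 2 := pow_pos (by linarith) 2
  calc ‖f τ‖ * |x| ≤ (C0 * ((g • τ).im ^ 2)⁻¹) * (A * (g • τ).im ^ 2) :=
        mul_le_mul h1 h2 (abs_nonneg _) (by positivity)
    _ = C0 * A := by field_simp

end

/-- **T6, `ℝ≥0∞` version of the cut-off.** -/
theorem period_zero_bounded_aux {N : ℕ} (hN : 0 < N) {χ : ℍ → ℝ≥0∞} (hχm : Measurable χ)
    (hχ : ∀ τ, ∑' g : CongruenceSubgroup.Gamma0 N, χ ((g : SL(2, ℤ)) • τ) = 1)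
    (hfin : ∫⁻ τ, χ τ ≠ ⊤) {f : ℍ → ℂ} (hf : Measurable f)
    (hinv : ∀ g ∈ CongruenceSubgroup.Gamma0 N, ∀ τ, f (g • τ) = f τ) {C0 : ℝ}
    (hdec : ∀ (g : SL(2, ℤ)) τ, ‖f τ‖ ≤ C0 * ((g • τ).im ^ 2)⁻¹)
    (h0 : ∫ τ, f τ ∂((volume : Measure ℍ).withDensity χ) = 0) :
    ∃ C : ℝ, ∀ s : ℝ, 1 < s → s ≤ 2 →
      IntegrableOn (uf f s) strip ∧ ‖∫ τ in strip, uf f s τ‖ ≤ C := by
  have hC0 : 0 ≤ C0 := by
    have h1 := (norm_nonneg _).trans (hdec 1 UpperHalfPlane.I)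
    rw [one_smul] at h1
    have h2 : (0 : ℝ) < ((UpperHalfPlane.I : ℍ).im ^ 2)⁻¹ := by
      have := (UpperHalfPlane.I : ℍ).im_pos
      positivity
    exact nonneg_of_mul_nonneg_left h1 h2
  obtain ⟨C, hC, hEN⟩ := EN_estimate N hN
  set ν : Measure ℍ := (volume : Measure ℍ).withDensity χ with hν
  have hνfin : IsFiniteMeasure ν := by
    refine ⟨?_⟩
    rw [hν, withDensity_apply _ MeasurableSet.univ, setLIntegral_univ]
    exact lt_top_iff_ne_top.mpr hfin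
  refine ⟨C0 * C * ν.real Set.univ, fun s hs hs2 => ?_⟩
  have hLN := one_le_LN N hs
  have hLN0 : 0 < LN N s := by linarith
  -- bounds
  have hb1 : ∀ τ : ℍ, ‖f τ‖ * |LN N s * EN N τ s - KN N s| ≤ C0 * C := fun τ =>
    norm_mul_le hC0 hdec (hEN s hs hs2 τ)
  have hb2 : ∀ τ : ℍ, ‖f τ‖ * |EN N τ s| ≤ C0 * (C + 4 * |KN N s|) := by
    intro τ
    refine norm_mul_le hC0 hdec fun g hg => ?_
    have h1 := hEN s hs hs2 τ g hg
    have h2 : |LN N s * EN N τ s| ≤ C * (g • τ).im ^ 2 + |KN N s| := by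
      have := abs_sub_abs_le_abs_sub (LN N s * EN N τ s) (KN N s)
      linarith
    rw [abs_mul, abs_of_pos hLN0] at h2
    have h3 : |EN N τ s| ≤ LN N s * |EN N τ s| := le_mul_of_one_le_left (abs_nonneg _) hLN
    have h4 : 1 / 4 ≤ (g • τ).im ^ 2 := by nlinarith
    nlinarith [abs_nonneg (KN N s)]
  -- integrability
  have hlin : ∑' r : CPN N, ∫⁻ τ, χ τ * ‖uf f s (sec r.1 • τ)‖ₑ ≠ ⊤ := by
    rw [tsum_lintegral_norm hχm hf hinv hs]
    refine ne_top_of_le_ne_top ?_ (lintegral_mono (g := fun τ =>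
      χ τ * ENNReal.ofReal (C0 * (C + 4 * |KN N s|))) fun τ => ?_)
    · rw [lintegral_mul_const _ hχm]
      exact ENNReal.mul_ne_top hfin ENNReal.ofReal_ne_top
    · dsimp only
      gcongr
      rw [← ofReal_norm, ← ENNReal.ofReal_mul (norm_nonneg _)]
      refine ENNReal.ofReal_le_ofReal ?_
      have := hb2 τ
      rwa [abs_of_nonneg (EN_nonneg N τ s)] at this
  have hum := measurable_uf hf s
  have huT := fun n τ => uf_T (N := N) hinv s n τ
  have hint : IntegrableOn (uf f s) strip := by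
    refine ⟨hum.aestronglyMeasurable, ?_⟩
    rw [hasFiniteIntegral_iff_enorm]
    rw [← tsum_lintegral_cut hχm hχ (fun τ => ‖uf f s τ‖ₑ) hum.enorm (fun n τ => by
      simp only [huT n τ])]
    exact lt_top_iff_ne_top.mpr hlin
  refine ⟨hint, ?_⟩
  have h1 := (hasSum_integral_cut hχm hχ hum huT hint).tsum_eq
  have h2 : ∑' r : CPN N, ∫ τ, uf f s (sec r.1 • τ) ∂ν =
      ∫ τ, ∑' r : CPN N, uf f s (sec r.1 • τ) ∂ν := by
    rw [integral_tsum]
    · intro r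
      exact (hum.comp (measurable_sl _)).aestronglyMeasurable
    · have h3 : ∀ r : CPN N, ∫⁻ τ, ‖uf f s (sec r.1 • τ)‖ₑ ∂ν =
          ∫⁻ τ, χ τ * ‖uf f s (sec r.1 • τ)‖ₑ := by
        intro r
        have hm : Measurable fun τ => ‖uf f s (sec r.1 • τ)‖ₑ :=
          (hum.comp (measurable_sl _)).enorm
        rw [hν, lintegral_withDensity_eq_lintegral_mul _ hχm hm]
        rfl
      simp_rw [h3]
      exact hlin
  have h3 : ∀ τ : ℍ, ∑' r : CPN N, uf f s (sec r.1 • τ) = f τ * ((EN N τ s : ℝ) : ℂ) := by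
    intro τ
    simp_rw [uf_sec hinv]
    rw [tsum_mul_left, EN, Complex.ofReal_tsum]
  have h4 : ∫ τ in strip, uf f s τ = ∫ τ, f τ * ((EN N τ s : ℝ) : ℂ) ∂ν := by
    rw [← h1, h2]
    exact integral_congr_ae (Filter.Eventually.of_forall h3)
  have hmE : Measurable fun τ : ℍ => EN N τ s := by
    unfold EN
    exact Measurable.tsum fun r => (measurable_im.comp (measurable_sl _)).pow_const s
  have hif : Integrable f ν := by
    refine Integrable.of_bound hf.aestronglyMeasurable (C0 * 4) ?_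
    refine Filter.Eventually.of_forall fun τ => ?_
    have := norm_mul_le hC0 hdec (A := 4) (τ := τ) (x := 1) (fun g hg => by
      rw [abs_one]; nlinarith)
    simpa using this
  have hiE : Integrable (fun τ => f τ * ((LN N s * EN N τ s - KN N s : ℝ) : ℂ)) ν := by
    refine Integrable.of_bound (hf.mul (Complex.measurable_ofReal.comp
      ((hmE.const_mul _).sub_const _))).aestronglyMeasurable (C0 * C) ?_
    refine Filter.Eventually.of_forall fun τ => ?_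
    rw [norm_mul, Complex.norm_real, Real.norm_eq_abs]
    exact hb1 τ
  have h5 : ((LN N s : ℝ) : ℂ) * ∫ τ in strip, uf f s τ =
      ∫ τ, f τ * ((LN N s * EN N τ s - KN N s : ℝ) : ℂ) ∂ν := by
    rw [h4, ← integral_const_mul]
    have h6 : ∀ τ : ℍ, ((LN N s : ℝ) : ℂ) * (f τ * ((EN N τ s : ℝ) : ℂ)) =
        f τ * ((LN N s * EN N τ s - KN N s : ℝ) : ℂ) + f τ * ((KN N s : ℝ) : ℂ) := by
      intro τ; push_cast; ring
    simp_rw [h6]
    rw [integral_add hiE (hif.mul_const _), integral_mul_const, h0, zero_mul, add_zero]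
  have h7 : ‖((LN N s : ℝ) : ℂ) * ∫ τ in strip, uf f s τ‖ ≤ C0 * C * ν.real Set.univ := by
    rw [h5]
    refine norm_integral_le_of_norm_le_const (Filter.Eventually.of_forall fun τ => ?_)
    rw [norm_mul, Complex.norm_real, Real.norm_eq_abs]
    exact hb1 τ
  rw [norm_mul, Complex.norm_real, Real.norm_eq_abs, abs_of_pos hLN0] at h7
  exact (le_mul_of_one_le_left (norm_nonneg _) hLN).trans h7

/-- **T6** (= N5). `χ` is a cut-off function of `Γ₀(N)` on the upper half plane. -/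
theorem period_zero_bounded {N : ℕ} (hN : 0 < N) {χ : ℍ → ℝ} (hχm : Measurable χ)
    (hχ0 : ∀ τ, 0 ≤ χ τ)
    (hχ : ∀ τ, HasSum (fun g : CongruenceSubgroup.Gamma0 N => χ ((g : SL(2, ℤ)) • τ)) 1)
    (hfin : Integrable χ) {f : ℍ → ℂ} (hf : Measurable f)
    (hinv : ∀ g ∈ CongruenceSubgroup.Gamma0 N, ∀ τ, f (g • τ) = f τ) {C0 : ℝ}
    (hdec : ∀ (g : SL(2, ℤ)) τ, ‖f τ‖ ≤ C0 * ((g • τ).im ^ 2)⁻¹)
    (h0 : ∫ τ, (χ τ : ℂ) * f τ = 0) :
    ∃ C : ℝ, ∀ s : ℝ, 1 < s → s ≤ 2 →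
      IntegrableOn (fun τ : ℍ => f τ * ((τ.im ^ s : ℝ) : ℂ)) strip ∧
        ‖∫ τ in strip, f τ * ((τ.im ^ s : ℝ) : ℂ)‖ ≤ C := by
  have hχm' : Measurable fun τ => ENNReal.ofReal (χ τ) := hχm.ennreal_ofReal
  refine period_zero_bounded_aux hN (χ := fun τ => ENNReal.ofReal (χ τ)) hχm' ?_ ?_ hf hinv hdec ?_
  · intro τ
    rw [← ENNReal.ofReal_tsum_of_nonneg (fun g => hχ0 _) (hχ τ).summable, (hχ τ).tsum_eq]
    simp
  · have := hfin.2
    rw [hasFiniteIntegral_iff_ofReal (Filter.Eventually.of_forall hχ0)] at this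
    exact this.ne
  · rw [integral_withDensity_eq_integral_toReal_smul hχm'
      (Filter.Eventually.of_forall fun τ => ENNReal.ofReal_lt_top), ← h0]
    refine integral_congr_ae (Filter.Eventually.of_forall fun τ => ?_)
    simp only
    rw [ENNReal.toReal_ofReal (hχ0 τ), Complex.real_smul]

end

end Fermat.Agent.H99C
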