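import Mathlib
import Fermat.Agent.H90TCoord
import Fermat.Agent.H90TSlice
import Fermat.Agent.H90TG
import Fermat.Agent.H99C7
import Fermat.Agent.H97TCoord
import Fermat.Agent.H97TCut
import Fermat.Agent.H47RCong
import Fermat.Agent.H96TIface

/-!
# The period on `ℍ × ℝ` and the Asai series (S47, T5b / T56, helper90)

`ff F W τ = ∫ F (pt (τ, r)) W(r) dr` is `Γ₀(N)`-invariant, decays, and its integral over the strip
against `(im τ)^s` is `2 D(s) G(s)`.
-/

set_option autoImplicit false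

noncomputable section

open MeasureTheory Set Real Filter Topology UpperHalfPlane
open scoped ComplexConjugate ENNReal MatrixGroups

namespace Fermat.Agent.H90T

open Fermat.Agent.S47T Fermat.Agent.H47.Red

variable {N : ℕ} {c : Eis → ℝ} {F : H3 → ℂ} {W : ℝ → ℝ}

/-- the integral over `r` -/
def ff (F : H3 → ℂ) (W : ℝ → ℝ) (τ : ℍ) : ℂ := ∫ r, F (pt (τ, r)) * (W r : ℂ)

theorem measurable_ff (hF : Continuous F) (hW : Measurable W) : Measurable (ff F W) := by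
  have h : StronglyMeasurable (Function.uncurry fun (τ : ℍ) (r : ℝ) => F (pt (τ, r)) * (W r : ℂ)) := by
    refine Measurable.stronglyMeasurable ?_
    exact (hF.comp continuous_pt).measurable.mul
      (Complex.measurable_ofReal.comp (hW.comp measurable_snd))
  exact (h.integral_prod_right).measurable

theorem toC_mem_Gam {g : SL(2, ℤ)} (hg : g ∈ CongruenceSubgroup.Gamma0 N) : toC g ∈ Gam N := by
  refine mem_Gam.mpr ⟨det_toC g, fun i j => ?_, ?_⟩
  · exact ⟨g i j, 0, by simp⟩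
  · rw [CongruenceSubgroup.Gamma0_mem, ZMod.intCast_zmod_eq_zero_iff_dvd] at hg
    obtain ⟨k, hk⟩ := hg
    refine ⟨k, ⟨k, 0, by simp⟩, ?_⟩
    show ((g 1 0 : ℤ) : ℂ) = _
    rw [hk]
    push_cast
    ring

theorem toC_mem_SLO (g : SL(2, ℤ)) : toC g ∈ SLO Eis := by
  refine mem_SLO.mpr ⟨fun i j => ⟨g i j, 0, by simp⟩, det_toC g⟩

theorem ff_smul (hF : ∀ g ∈ Gam N, ∀ w, F (g • w) = F w) {g : SL(2, ℤ)}
    (hg : g ∈ CongruenceSubgroup.Gamma0 N) (τ : ℍ) : ff F W (g • τ) = ff F W τ := by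
  unfold ff
  refine integral_congr_ae (Eventually.of_forall fun r => ?_)
  show F (pt (g • τ, r)) * _ = F (pt (τ, r)) * _
  rw [← toC_smul_pt, hF _ (toC_mem_Gam hg)]

theorem norm_ff_le {C : ℝ} (hC : ∀ w, ‖F w‖ * ht Eis w ^ 2 ≤ C) (hW0 : ∀ r, 0 ≤ W r)
    (hW : Integrable fun r => W r * cosh r ^ 2) (g : SL(2, ℤ)) (τ : ℍ) :
    ‖ff F W τ‖ ≤ (C * ∫ r, W r * cosh r ^ 2) * ((g • τ).im ^ 2)⁻¹ := by
  have hgi := (g • τ).im_pos
  have h1 : ∀ r, ‖F (pt (τ, r)) * (W r : ℂ)‖ ≤ C * ((g • τ).im ^ 2)⁻¹ * (W r * cosh r ^ 2) := by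
    intro r
    have hc := cosh_pos r
    have h2 : (g • τ).im / cosh r ≤ ht Eis (pt (τ, r)) := by
      have := eucOrder_Eis.le_ht (toC_mem_SLO g) (pt (τ, r))
      rw [toC_smul_pt, pt_y] at this
      exact this
    have h3 : ((g • τ).im / cosh r) ^ 2 ≤ ht Eis (pt (τ, r)) ^ 2 := by
      have : 0 < (g • τ).im / cosh r := by positivity
      gcongr
    have h4 : ‖F (pt (τ, r))‖ * ((g • τ).im / cosh r) ^ 2 ≤ C :=
      (mul_le_mul_of_nonneg_left h3 (norm_nonneg _)).trans (hC _)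
    rw [norm_mul, Complex.norm_real, norm_of_nonneg (hW0 r)]
    have h5 : ‖F (pt (τ, r))‖ ≤ C * ((g • τ).im ^ 2)⁻¹ * cosh r ^ 2 := by
      rw [div_pow, ← mul_div_assoc, div_le_iff₀ (by positivity)] at h4
      rw [← div_eq_mul_inv, div_mul_eq_mul_div, le_div_iff₀ (by positivity)]
      exact h4
    calc ‖F (pt (τ, r))‖ * W r ≤ C * ((g • τ).im ^ 2)⁻¹ * cosh r ^ 2 * W r :=
          mul_le_mul_of_nonneg_right h5 (hW0 r)
      _ = _ := by ring
  calc ‖ff F W τ‖ ≤ ∫ r, C * ((g • τ).im ^ 2)⁻¹ * (W r * cosh r ^ 2) :=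
        norm_integral_le_of_norm_le (hW.const_mul _) (Eventually.of_forall h1)
    _ = _ := by rw [integral_const_mul]; ring

/-- integrability of a series of functions -/
theorem integrable_tsum {α ι : Type*} [Countable ι] [MeasurableSpace α] {μ : Measure α}
    {f : ι → α → ℝ} (hm : ∀ i, Measurable (f i)) (hi : ∀ i, Integrable (f i) μ)
    (hs : Summable fun i => ∫ a, ‖f i a‖ ∂μ) : Integrable (fun a => ∑' i, f i a) μ := by
  refine ⟨(Measurable.tsum hm).aestronglyMeasurable, ?_⟩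
  rw [hasFiniteIntegral_iff_enorm]
  calc ∫⁻ a, ‖∑' i, f i a‖ₑ ∂μ ≤ ∫⁻ a, ∑' i, ‖f i a‖ₑ ∂μ :=
        lintegral_mono fun a => enorm_tsum_le_tsum_enorm
    _ = ∑' i, ∫⁻ a, ‖f i a‖ₑ ∂μ := lintegral_tsum fun i => (hm i).enorm.aemeasurable
    _ = ∑' i, ENNReal.ofReal (∫ a, ‖f i a‖ ∂μ) := by
        refine tsum_congr fun i => ?_
        rw [ofReal_integral_norm_eq_lintegral_enorm (hi i)]
    _ < ∞ := by
        rw [← ENNReal.ofReal_tsum_of_nonneg (fun i => integral_nonneg fun _ => norm_nonneg _) hs]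
        exact ENNReal.ofReal_lt_top

theorem measurable_term (hW : Measurable W) (κ s m : ℝ) : Measurable (term κ W s m) := by
  unfold term
  refine (hW.comp measurable_snd).mul (Measurable.mul (by fun_prop) (Measurable.mul ?_
    (Measurable.mul ?_ ?_)))
  · exact (measurable_fst).pow_const (s - 1)
  · exact measurable_K0.comp (by fun_prop)
  · exact measurable_cos.comp (((measurable_const.mul (continuous_tanh'.measurable.comp
      measurable_snd))).mul measurable_fst)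

/-- the sum of the unfolded terms -/
def Phi (c : Eis → ℝ) (W : ℝ → ℝ) (s : ℝ) (p : ℝ × ℝ) : ℝ :=
  ∑' n : ℕ, c ((n + 1 : ℕ) : Eis) * term kap W s (n + 1 : ℝ) p

/-- **The inner integral over `x` and `r`.** -/
theorem integral_slice (h : ICT N c F) (hW0 : ∀ r, 0 ≤ W r) (hWm : Measurable W)
    (hW : Integrable W) {y : ℝ} (hy : 0 < y) (s : ℝ) :
    (∫ x in (0 : ℝ)..1, ff F W ⟨⟨x, y⟩, hy⟩ * ((y ^ s : ℝ) : ℂ)) * (((y ^ 2)⁻¹ : ℝ) : ℂ) =
      ((2 * ∫ r, Phi c W s (y, r) : ℝ) : ℂ) := by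
  obtain ⟨C, hC⟩ := h.bdd
  -- continuity of the point
  have hcx : Continuous (fun x : ℝ => (⟨⟨x, y⟩, hy⟩ : ℍ)) := by
    rw [isEmbedding_coe.continuous_iff]
    have : (UpperHalfPlane.coe ∘ fun x : ℝ => (⟨⟨x, y⟩, hy⟩ : ℍ)) =
        fun x : ℝ => (x : ℂ) + y * Complex.I := by
      funext x
      apply Complex.ext <;> simp
    rw [this]
    fun_prop
  have hm : Measurable (fun p : ℝ × ℝ => F (pt (⟨⟨p.1, y⟩, hy⟩, p.2)) * (W p.2 : ℂ)) := by
    have h1 : Continuous (fun p : ℝ × ℝ => F (pt (⟨⟨p.1, y⟩, hy⟩, p.2))) :=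
      h.cont.comp (continuous_pt.comp ((hcx.comp continuous_fst).prodMk continuous_snd))
    exact h1.measurable.mul (Complex.measurable_ofReal.comp (hWm.comp measurable_snd))
  have hint : Integrable (fun p : ℝ × ℝ => F (pt (⟨⟨p.1, y⟩, hy⟩, p.2)) * (W p.2 : ℂ))
      ((volume.restrict (Ioc (0 : ℝ) 1)).prod volume) := by
    have h2 : Integrable (fun p : ℝ × ℝ => C * W p.2) ((volume.restrict (Ioc (0 : ℝ) 1)).prod volume) :=
      (hW.comp_snd _).const_mul C
    refine Integrable.mono' h2 hm.aestronglyMeasurable (Eventually.of_forall fun p => ?_)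
    rw [norm_mul, Complex.norm_real, norm_of_nonneg (hW0 _)]
    exact mul_le_mul_of_nonneg_right (hC _) (hW0 _)
  rw [intervalIntegral.integral_mul_const, intervalIntegral.integral_of_le zero_le_one]
  unfold ff
  rw [integral_integral_swap hint, ← integral_mul_const, ← integral_mul_const]
  have key : ∀ r : ℝ, (∫ x in Ioc (0 : ℝ) 1, F (pt (⟨⟨x, y⟩, hy⟩, r)) * (W r : ℂ)) *
      ((y ^ s : ℝ) : ℂ) * (((y ^ 2)⁻¹ : ℝ) : ℂ) = ((2 * Phi c W s (y, r) : ℝ) : ℂ) := by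
    intro r
    have hc := cosh_pos r
    have hY : 0 < y / cosh r := div_pos hy hc
    have h1 : ∫ x in Ioc (0 : ℝ) 1, F (pt (⟨⟨x, y⟩, hy⟩, r)) * (W r : ℂ) =
        (∫ x in (0 : ℝ)..1, F ⟨⟨x, y * tanh r⟩, y / cosh r, hY⟩) * (W r : ℂ) := by
      rw [integral_mul_const, intervalIntegral.integral_of_le zero_le_one]
      rfl
    rw [h1, ← (hasSum_slice h (y * tanh r) (y / cosh r) hY).tsum_eq, ← Complex.ofReal_tsum,
      ← Complex.ofReal_mul, ← Complex.ofReal_mul, ← Complex.ofReal_mul]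
    congr 1
    rw [Phi, ← tsum_mul_right, ← tsum_mul_right, ← tsum_mul_right, ← tsum_mul_left]
    refine tsum_congr fun n => ?_
    rw [term]
    have e1 : y ^ (s - 1) = y ^ s * y⁻¹ := by rw [rpow_sub_one hy.ne', div_eq_mul_inv]
    have e2 : kap * ((n : ℝ) + 1) / cosh r * y = kap * ((n : ℝ) + 1) * (y / cosh r) := by ring
    have e3 : kap * ((n : ℝ) + 1) * tanh r * y = kap * ((n : ℝ) + 1) * (y * tanh r) := by ring
    simp only
    rw [e1, e2, e3]
    field_simp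
  rw [← integral_const_mul]
  exact (integral_congr_ae (Eventually.of_forall key)).trans integral_complex_ofReal

/-- the Asai series, shifted index -/
theorem tsum_shift (h : ICT N c F) {s : ℝ}
    (hsum : Summable fun n : ℕ => c (n : Eis) / (n : ℝ) ^ s) :
    (Summable fun n : ℕ => |c ((n + 1 : ℕ) : Eis)| * (n + 1 : ℝ) ^ (-s)) ∧
      ∑' n : ℕ, c ((n + 1 : ℕ) : Eis) * (n + 1 : ℝ) ^ (-s) =
        ∑' n : ℕ, c (n : Eis) / (n : ℝ) ^ s := by
  have h1 : ∀ n : ℕ, c ((n + 1 : ℕ) : Eis) / ((n + 1 : ℕ) : ℝ) ^ s =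
      c ((n + 1 : ℕ) : Eis) * (n + 1 : ℝ) ^ (-s) := by
    intro n
    rw [rpow_neg (by positivity), div_eq_mul_inv]
    push_cast
    rfl
  constructor
  · have h2 := ((summable_nat_add_iff 1).mpr hsum).norm
    refine h2.congr fun n => ?_
    rw [h1, norm_mul, norm_eq_abs, norm_of_nonneg (rpow_nonneg (by positivity) _)]
  · rw [hsum.tsum_eq_zero_add]
    simp only [h1, Nat.cast_zero, h.c_zero, zero_div, zero_add]

/-- **The strip integral**: `∫ f (im τ)^s = 2 D(s) G(s)`. -/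
theorem integral_strip_ff (h : ICT N c F) (hW0 : ∀ r, 0 ≤ W r) (hWm : Measurable W)
    (hW : Integrable W) (hW1 : Integrable fun r => W r * cosh r) {s : ℝ} (hs0 : 0 < s) (hs2 : s ≤ 2)
    (hsum : Summable fun n : ℕ => c (n : Eis) / (n : ℝ) ^ s)
    (hi : IntegrableOn (fun τ : ℍ => ff F W τ * ((τ.im ^ s : ℝ) : ℂ)) H99C.strip) :
    ∫ τ in H99C.strip, ff F W τ * ((τ.im ^ s : ℝ) : ℂ) =
      ((2 * ((∑' n : ℕ, c (n : Eis) / (n : ℝ) ^ s) * G kap W s) : ℝ) : ℂ) := by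
  obtain ⟨hsm, hse⟩ := tsum_shift h hsum
  have h1 := H97T.integral_strip' (h := fun τ : ℍ => ff F W τ * ((τ.im ^ s : ℝ) : ℂ)) hi
    (H := fun x y => if hy : 0 < y then ff F W ⟨⟨x, y⟩, hy⟩ * ((y ^ s : ℝ) : ℂ) else 0)
    (fun x y hy => by rw [dif_pos hy]; rfl)
  have h2 : ∀ y ∈ Ioi (0 : ℝ), (∫ x in (0 : ℝ)..1, (if hy : 0 < y then
      ff F W ⟨⟨x, y⟩, hy⟩ * ((y ^ s : ℝ) : ℂ) else 0)) * (((y ^ 2)⁻¹ : ℝ) : ℂ) =
      ((2 * ∫ r, Phi c W s (y, r) : ℝ) : ℂ) := by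
    intro y hy
    have hy' : (0 : ℝ) < y := hy
    simp only [hy', dif_pos]
    exact integral_slice h hW0 hWm hW hy' s
  refine h1.trans ?_
  rw [setIntegral_congr_fun measurableSet_Ioi h2]
  refine integral_complex_ofReal.trans ?_
  congr 1
  rw [integral_const_mul]
  congr 1
  have hterm : ∀ n : ℕ, Integrable (fun p => c ((n + 1 : ℕ) : Eis) *
      term kap W s (n + 1 : ℝ) p) μP := fun n =>
    (integrable_term kap_pos hW0 hWm.aestronglyMeasurable hW1 hs0 hs2 (by positivity)).const_mul _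
  have hPhi : Integrable (Phi c W s) μP := by
    refine integrable_tsum (fun n => (measurable_term hWm kap s _).const_mul _) hterm ?_
    refine Summable.of_nonneg_of_le (fun i => integral_nonneg fun _ => norm_nonneg _) (fun i => ?_)
      (hsm.mul_right (kap ^ (-s) * mel s * ∫ r, W r * cosh r))
    simp only [norm_mul, norm_eq_abs]
    rw [integral_const_mul]
    have h3 := integral_norm_term_le kap_pos hW0 hWm.aestronglyMeasurable hW1 hs0 hs2
      (m := (i + 1 : ℝ)) (by positivity)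
    simp only [norm_eq_abs] at h3
    calc |c ((i + 1 : ℕ) : Eis)| * ∫ p, |term kap W s (i + 1 : ℝ) p| ∂μP ≤
        |c ((i + 1 : ℕ) : Eis)| * ((i + 1 : ℝ) ^ (-s) * (kap ^ (-s) * mel s *
          ∫ r, W r * cosh r)) := mul_le_mul_of_nonneg_left h3 (abs_nonneg _)
      _ = _ := by ring
  rw [← integral_prod (Phi c W s) hPhi]
  have h4 := hasSum_unfold kap_pos hW0 hWm.aestronglyMeasurable hW1 hs0 hs2
    (fun n : ℕ => c ((n + 1 : ℕ) : Eis)) (fun n : ℕ => (n + 1 : ℝ)) (fun n => by positivity) hsm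
  rw [← hse]
  exact h4

/-- **The period does not vanish.** -/
theorem period_ne_zero (h : ICT N c F) {C₁ : ℝ} (hdec : ∀ w, ‖F w‖ * ht Eis w ^ 2 ≤ C₁)
    (hD : DUnb c) (hW0 : ∀ r, 0 < W r) (hWm : Measurable W)
    (hW2 : Integrable fun r => W r * cosh r ^ 2) {χ : ℍ → ℝ} (hχm : Measurable χ)
    (hχ0 : ∀ τ, 0 ≤ χ τ)
    (hχ : ∀ τ, HasSum (fun g : CongruenceSubgroup.Gamma0 N => χ ((g : SL(2, ℤ)) • τ)) 1)
    (hfin : Integrable χ) : ∫ τ, (χ τ : ℂ) * ff F W τ ≠ 0 := by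
  intro h0
  have hW0' : ∀ r, 0 ≤ W r := fun r => (hW0 r).le
  have hW : Integrable W := by
    refine Integrable.mono' hW2 hWm.aestronglyMeasurable (Eventually.of_forall fun r => ?_)
    rw [norm_of_nonneg (hW0' r)]
    have := one_le_cosh r
    nlinarith [hW0 r, mul_pos (hW0 r) (cosh_pos r)]
  have hW1 : Integrable fun r => W r * cosh r := by
    refine Integrable.mono' hW2 (hWm.mul measurable_cosh).aestronglyMeasurable
      (Eventually.of_forall fun r => ?_)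
    have h1 := one_le_cosh r
    have h2 := mul_pos (hW0 r) (cosh_pos r)
    rw [norm_of_nonneg h2.le]
    nlinarith
  obtain ⟨C, hC⟩ := H99C.period_zero_bounded h.pos hχm hχ0 hχ hfin (measurable_ff h.cont hWm)
    (fun g hg τ => ff_smul h.inv hg τ) (norm_ff_le hdec hW0' hW2) h0
  have hG1 := G_one_pos kap_pos hW0 hWm.aestronglyMeasurable hW1
  have hG := tendsto_G kap_pos hW0' hWm.aestronglyMeasurable hW1
  have hev : ∀ᶠ s in 𝓝[>] (1 : ℝ), G kap W 1 / 2 < G kap W s :=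
    hG.eventually_const_lt (half_lt_self hG1)
  obtain ⟨s₀, hs₀, hDs⟩ := hD (max 0 (C / G kap W 1))
  have hev2 : ∀ᶠ s in 𝓝[>] (1 : ℝ), s < s₀ := nhdsWithin_le_nhds (eventually_lt_nhds hs₀)
  have hev3 : ∀ᶠ s in 𝓝[>] (1 : ℝ), s < 2 := nhdsWithin_le_nhds (eventually_lt_nhds one_lt_two)
  obtain ⟨s, hs1, hs2, hs3, hs4⟩ := (hev.and (hev2.and (hev3.and
    (self_mem_nhdsWithin : Ioi (1 : ℝ) ∈ 𝓝[>] (1 : ℝ))))).exists
  have hs4' : 1 < s := hs4
  obtain ⟨hi, hb⟩ := hC s hs4' hs3.le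
  obtain ⟨hsum, hK⟩ := hDs s hs4' hs2
  rw [integral_strip_ff h hW0' hWm hW hW1 (by linarith) hs3.le hsum hi, Complex.norm_real,
    norm_eq_abs] at hb
  set D := ∑' n : ℕ, c (n : Eis) / (n : ℝ) ^ s with hDdef
  have hD0 : 0 < D := (le_max_left _ _).trans_lt hK
  have hDC : C / G kap W 1 < D := (le_max_right _ _).trans_lt hK
  rw [div_lt_iff₀ hG1] at hDC
  have h3 := (le_abs_self _).trans hb
  nlinarith [mul_lt_mul_of_pos_left hs1 hD0]

end Fermat.Agent.H90T
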