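import Mathlib
import Fermat.Agent.H90TUnf
import Fermat.Agent.H81T5e
import Fermat.Agent.H8T6

/-!
# (T56): the theta lift of an `ICT` function does not vanish (S47, helper90)
-/

set_option autoImplicit false

noncomputable section

open MeasureTheory Set Real Filter Topology UpperHalfPlane
open scoped ComplexConjugate ENNReal MatrixGroups

namespace Fermat.Agent.H90T

open Fermat.Agent.S47T Fermat.Agent.H47.Red

variable {N : ℕ} {c : Eis → ℝ} {F : H3 → ℂ}

/-- the weight at `v = 1` -/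
def W1 (r : ℝ) : ℝ := rexp (-(4 * π * 1 * (sinh r / √3) ^ 2)) * cosh r ^ 2

theorem W1_pos (r : ℝ) : 0 < W1 r := mul_pos (exp_pos _) (pow_pos (cosh_pos r) 2)

theorem continuous_W1 : Continuous W1 := by unfold W1; fun_prop

theorem integrable_W1 : Integrable fun r => W1 r * cosh r ^ 2 := by
  have h1 : Integrable fun r : ℝ => rexp (-1 * r ^ 2) := integrable_exp_neg_mul_sq one_pos
  refine Integrable.mono' h1 (continuous_W1.mul (continuous_cosh.pow 2)).aestronglyMeasurable
    (Eventually.of_forall fun r => ?_)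
  rw [norm_of_nonneg (mul_pos (W1_pos r) (pow_pos (cosh_pos r) 2)).le]
  have h2 : r ^ 2 ≤ sinh r ^ 2 := by
    rw [← sq_abs r, ← sq_abs (sinh r), abs_sinh]
    have h3 := abs_nonneg r
    have h4 : |r| ≤ sinh |r| := self_le_sinh_iff.mpr h3
    gcongr
  have h5 : (sinh r / √3) ^ 2 = sinh r ^ 2 / 3 := by
    rw [div_pow, sq_sqrt (by norm_num)]
  have h6 : 1 + sinh r ^ 2 ≤ rexp (sinh r ^ 2) := by
    have := add_one_le_exp (sinh r ^ 2)
    linarith
  have h7 : cosh r ^ 2 ≤ rexp (sinh r ^ 2) := by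
    rw [cosh_sq]
    linarith
  have hpi := pi_gt_three
  calc W1 r * cosh r ^ 2 = rexp (-(4 * π * 1 * (sinh r / √3) ^ 2)) * (cosh r ^ 2 * cosh r ^ 2) := by
        rw [W1]; ring
    _ ≤ rexp (-(4 * π * 1 * (sinh r / √3) ^ 2)) * (rexp (sinh r ^ 2) * rexp (sinh r ^ 2)) := by
        gcongr
    _ = rexp (-(4 * π * 1 * (sinh r ^ 2 / 3)) + (sinh r ^ 2 + sinh r ^ 2)) := by
        rw [h5, exp_add, exp_add]
    _ ≤ rexp (-1 * r ^ 2) := by
        apply exp_le_exp.mpr
        nlinarith [sq_nonneg (sinh r)]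

theorem continuous_ptInv_fst : Continuous fun w : H3 => (ptInv w).1 := by
  rw [isEmbedding_coe.continuous_iff]
  have : (UpperHalfPlane.coe ∘ fun w : H3 => (ptInv w).1) =
      fun w : H3 => ((w.z.re : ℝ) : ℂ) + ((√(w.z.im ^ 2 + w.y ^ 2) : ℝ) : ℂ) * Complex.I := by
    funext w
    apply Complex.ext <;> simp [ptInv]
  rw [this]
  have hz := H3.continuous_z
  have hy := H3.continuous_y
  have h1 : Continuous fun w : H3 => w.z.re := Complex.continuous_re.comp hz
  have h2 : Continuous fun w : H3 => w.z.im := Complex.continuous_im.comp hz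
  exact (Complex.continuous_ofReal.comp h1).add
    ((Complex.continuous_ofReal.comp ((h2.pow 2).add (hy.pow 2)).sqrt).mul continuous_const)

/-- **(T56)**. -/
theorem t56 (h : ICT N c F) (hD : DUnb c) : T56 N F := by
  intro χ hχ
  by_contra hcon
  push Not at hcon
  have : NeZero N := ⟨h.pos.ne'⟩
  obtain ⟨χ₂, hχm, hχ0, hχs, hχi⟩ := H97T.exists_cut N
  set χZ : H3 → ℝ := fun w => χ₂ (ptInv w).1 with hχZ
  have hm : Measurable χZ := hχm.comp continuous_ptInv_fst.measurable
  have hs : ∀ w : H3, HasSum (fun k : CongruenceSubgroup.Gamma0 N => χZ (toC k • w)) 1 := by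
    intro w
    have h1 := hχs (ptInv w).1
    have h2 : ∀ k : CongruenceSubgroup.Gamma0 N, χZ (toC k • w) =
        χ₂ ((k : SL(2, ℤ)) • (ptInv w).1) := by
      intro k
      have h3 : toC k • w = pt ((k : SL(2, ℤ)) • (ptInv w).1, (ptInv w).2) := by
        rw [← toC_smul_pt]
        rw [show ((ptInv w).1, (ptInv w).2) = ptInv w from rfl, pt_ptInv]
      show χ₂ (ptInv (toC k • w)).1 = _
      rw [h3, ptInv_pt]
    simp only [h2]
    exact h1
  have hdec : H8T.Decays F := by
    obtain ⟨C, c', _, hc', h1⟩ := H8T.ict_decay h (y₀ := 4 / 5) (by norm_num)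
    exact fun g hg => ⟨C, c', hc', fun w hw => h1 g hg w hw⟩
  obtain ⟨hfin, hzero⟩ := S47T.Orb.period_eq_zero h.pos.ne' hχ hm (fun w => hχ0 _) hs
    h.cont.measurable h.inv hdec hcon (v := 1) one_pos
  -- the integrand
  set g : H3 → ℂ := fun w => (χZ w : ℂ) * (F w * S47T.Orb.gs 1 (w.z.im / (√3 * w.y))) with hg
  have hgm : Measurable g := by
    refine (Complex.measurable_ofReal.comp hm).mul (h.cont.measurable.mul
      ((S47T.Orb.measurable_gs 1).comp ?_))
    exact (Complex.measurable_im.comp H3.measurable_z).div (measurable_const.mul H3.measurable_y)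
  have hgi : Integrable g := by
    refine ⟨hgm.aestronglyMeasurable, ?_⟩
    rw [hasFiniteIntegral_iff_enorm]
    refine lt_of_eq_of_lt (lintegral_congr fun w => ?_) hfin.lt_top
    rw [hg]
    simp only
    rw [enorm_mul]
    congr 1
    rw [← ofReal_norm, Complex.norm_real, norm_of_nonneg (hχ0 _)]
  have hgp : Integrable (fun p => g (pt p)) ((volume : Measure ℍ).prod rMeasure) :=
    (measurePreserving_pt.integrable_comp_emb measurableEmbedding_pt).mpr hgi
  have h1 : ∫ p, g (pt p) ∂((volume : Measure ℍ).prod rMeasure) = 0 :=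
    (measurePreserving_pt.integral_comp measurableEmbedding_pt g).trans hzero
  rw [integral_prod _ hgp] at h1
  have h2 : ∀ τ : ℍ, ∫ r, g (pt (τ, r)) ∂rMeasure = (χ₂ τ : ℂ) * ff F W1 τ := by
    intro τ
    rw [integral_rMeasure, ff, ← integral_const_mul]
    refine integral_congr_ae (Eventually.of_forall fun r => ?_)
    have h3 : χZ (pt (τ, r)) = χ₂ τ := by
      show χ₂ (ptInv (pt (τ, r))).1 = _
      rw [ptInv_pt]
    have h4 : (pt (τ, r)).z.im / (√3 * (pt (τ, r)).y) = sinh r / √3 := by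
      have hτ := τ.im_pos
      have hc := cosh_pos r
      have h0 : (0 : ℝ) < √3 := by positivity
      rw [pt_z, pt_y]
      simp only
      rw [tanh_eq_sinh_div_cosh]
      field_simp
    show ((cosh r ^ 2 : ℝ) : ℂ) * ((χZ (pt (τ, r)) : ℂ) * (F (pt (τ, r)) *
      S47T.Orb.gs 1 ((pt (τ, r)).z.im / (√3 * (pt (τ, r)).y)))) =
      (χ₂ τ : ℂ) * (F (pt (τ, r)) * (W1 r : ℂ))
    rw [h3, h4, S47T.Orb.gs, W1]
    push_cast
    ring
  simp only [h2] at h1
  obtain ⟨C, c', hC, hc', h5⟩ := H8T.ict_decay_ht h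
  have h6 : ∀ w, ‖F w‖ * ht Eis w ^ 2 ≤ C * (2 / c' ^ 2) := by
    intro w
    have h7 := eucOrder_Eis.ht_pos w
    have h8 : (c' * ht Eis w) ^ 2 / 2 ≤ rexp (c' * ht Eis w) := by
      have := quadratic_le_exp_of_nonneg (x := c' * ht Eis w) (by positivity)
      nlinarith [mul_pos hc' h7]
    have h9 : ‖F w‖ * ht Eis w ^ 2 ≤ C * rexp (-(c' * ht Eis w)) * ht Eis w ^ 2 :=
      mul_le_mul_of_nonneg_right (h5 w) (by positivity)
    refine h9.trans ?_
    rw [exp_neg, mul_assoc]
    refine mul_le_mul_of_nonneg_left ?_ hC.le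
    rw [← div_eq_inv_mul, div_le_div_iff₀ (exp_pos _) (by positivity)]
    nlinarith
  exact period_ne_zero h h6 hD W1_pos continuous_W1.measurable integrable_W1 hχm hχ0 hχs hχi h1

end Fermat.Agent.H90T
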