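import Fermat.Agent.H15S47T
import Fermat.Agent.H29T8
import Fermat.Agent.H90T56

/-!
# S47 (helper15): block (T) from (T-HOL) only
-/

set_option autoImplicit false

open Fermat.Agent.S47T

noncomputable section

namespace Fermat.Agent.H15S47

/-- (T4) is proved by helper29. -/
theorem pieceT4 : PieceT4 := fun _ _ _ _ hI => Fermat.Agent.H29T.t4_ict hI

/-- (T5), (T6) are proved by helper90, helper81, helper99. -/
theorem pieceT56 : PieceT56 := fun _ _ _ _ hI hD => Fermat.Agent.H90T.t56 hI hD

/-- **Block (T) from (T-HOL).** -/
theorem blockT_of_hol (hHol : PieceHol) : BlockT := blockT_of hHol pieceT4 pieceT56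

end Fermat.Agent.H15S47
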