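import Fermat.Agent.H31Hyp1

/-!
# The Laplace operator on `H3` and radial kernels (helper74, package C3, part a)

* `pt z y` : the point with coordinates `(z, y)` (total function: `y = 1` if `y ≤ 0`);
* `Lap F w = y² (F_{x₁x₁} + F_{x₂x₂} + F_{yy}) - y F_y`;
* `Lop κ u = (u² - 1) κ'' u + 3 u κ' u`;
* `Lap_ch : Lap (fun w => κ (ch w w')) w = Lop κ (ch w w')`.
-/

set_option autoImplicit false
set_option linter.style.haveILetI false

noncomputable section

open Filter Topology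
open scoped ContDiff

namespace Fermat.Agent.H74.C3

open Fermat.Agent Fermat.Agent.H3

/-- The point with coordinates `(z, y)`; a total function, with junk value `y = 1` if `y ≤ 0`. -/
def pt (z : ℂ) (y : ℝ) : H3 :=
  ⟨z, if 0 < y then y else 1, by split_ifs with h; exacts [h, one_pos]⟩

@[simp] theorem pt_z (z : ℂ) (y : ℝ) : (pt z y).z = z := rfl

theorem pt_y {z : ℂ} {y : ℝ} (h : 0 < y) : (pt z y).y = y := if_pos h

@[simp] theorem pt_self (w : H3) : pt w.z w.y = w := by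
  ext
  · rfl
  · exact pt_y w.pos

theorem pt_eq {z : ℂ} {y : ℝ} (h : 0 < y) : pt z y = ⟨z, y, h⟩ := by
  ext
  · rfl
  · exact pt_y h

/-- Second derivative in the direction `1` of `z`. -/
def dz1 (F : H3 → ℂ) (w : H3) : ℂ :=
  deriv (deriv fun t : ℝ => F (pt (w.z + t) w.y)) 0

/-- Second derivative in the direction `i` of `z`. -/
def dz2 (F : H3 → ℂ) (w : H3) : ℂ :=
  deriv (deriv fun t : ℝ => F (pt (w.z + t * Complex.I) w.y)) 0

/-- First derivative in `y`. -/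
def dy (F : H3 → ℂ) (w : H3) : ℂ := deriv (fun t : ℝ => F (pt w.z t)) w.y

/-- Second derivative in `y`. -/
def dyy (F : H3 → ℂ) (w : H3) : ℂ := deriv (deriv fun t : ℝ => F (pt w.z t)) w.y

/-- The Laplace operator of hyperbolic 3-space. -/
def Lap (F : H3 → ℂ) (w : H3) : ℂ :=
  (w.y : ℂ) ^ 2 * (dz1 F w + dz2 F w + dyy F w) - w.y * dy F w

/-- The radial part of the Laplace operator in the variable `u = cosh d`. -/
def Lop (κ : ℝ → ℂ) (u : ℝ) : ℂ :=
  ((u : ℂ) ^ 2 - 1) * deriv (deriv κ) u + 3 * u * deriv κ u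

/-! ### Chain rule -/

theorem hasDerivAt_comp_real {κ : ℝ → ℂ} {g : ℝ → ℝ} {t g1 : ℝ}
    (hκ : DifferentiableAt ℝ κ (g t)) (h : HasDerivAt g g1 t) :
    HasDerivAt (fun t => κ (g t)) ((g1 : ℂ) * deriv κ (g t)) t := by
  have := HasDerivAt.scomp t hκ.hasDerivAt h
  simpa [Function.comp_def] using this

theorem deriv2_comp {κ : ℝ → ℂ} (hκ : ContDiff ℝ 2 κ) {g g1 : ℝ → ℝ} {t0 g2 : ℝ}
    (h1 : ∀ᶠ t in 𝓝 t0, HasDerivAt g (g1 t) t) (h2 : HasDerivAt g1 g2 t0) :
    deriv (deriv fun t => κ (g t)) t0 =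
      deriv (deriv κ) (g t0) * (g1 t0 : ℂ) ^ 2 + deriv κ (g t0) * g2 := by
  have hd : Differentiable ℝ κ := hκ.differentiable (by norm_num)
  have hκ' : ContDiff ℝ 1 (deriv κ) := by
    have : ContDiff ℝ (1 + 1) κ := by
      rw [one_add_one_eq_two]
      exact hκ
    exact ((contDiff_succ_iff_deriv (n := 1)).mp this).2.2
  have hd' : Differentiable ℝ (deriv κ) := hκ'.differentiable (by norm_num)
  have e : (deriv fun t => κ (g t)) =ᶠ[𝓝 t0] fun t => (g1 t : ℂ) * deriv κ (g t) := by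
    filter_upwards [h1] with t ht
    exact (hasDerivAt_comp_real (hd _) ht).deriv
  rw [e.deriv_eq]
  have h3 : HasDerivAt (fun t => ((g1 t : ℝ) : ℂ)) (g2 : ℂ) t0 := h2.ofReal_comp
  have h4 := hasDerivAt_comp_real (hd' (g t0)) h1.self_of_nhds
  have h5 := h3.mul h4
  have h6 : deriv (fun t => (g1 t : ℂ) * deriv κ (g t)) t0 = _ := h5.deriv
  rw [h6]
  ring

/-! ### `ch` along the coordinate lines -/

section lines

variable (z : ℂ) (y : ℝ) (w' : H3)

theorem ch_pt {z : ℂ} {y : ℝ} (h : 0 < y) (w' : H3) : ch (pt z y) w' =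
    (((z.re - w'.z.re) ^ 2 + (z.im - w'.z.im) ^ 2) + y ^ 2 + w'.y ^ 2) / (2 * y * w'.y) := by
  rw [ch, pt_y h, pt_z, Complex.normSq_apply, Complex.sub_re, Complex.sub_im]
  ring_nf

theorem hasDerivAt_ch_re {z : ℂ} {y : ℝ} (h : 0 < y) (w' : H3) (t : ℝ) :
    HasDerivAt (fun t : ℝ => ch (pt (z + t) y) w') ((z.re + t - w'.z.re) / (y * w'.y)) t := by
  have hy := w'.pos
  have e : (fun t : ℝ => ch (pt (z + t) y) w') = fun t : ℝ =>
      (((z.re + t - w'.z.re) ^ 2 + (z.im - w'.z.im) ^ 2) + y ^ 2 + w'.y ^ 2) /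
        (2 * y * w'.y) := by
    funext t
    rw [ch_pt h]
    simp
  rw [e]
  have h1 : HasDerivAt (fun t : ℝ => z.re + t - w'.z.re) 1 t :=
    ((hasDerivAt_id t).const_add z.re).sub_const _
  have h2 := ((((h1.pow 2).add_const ((z.im - w'.z.im) ^ 2)).add_const (y ^ 2)).add_const
    (w'.y ^ 2)).div_const (2 * y * w'.y)
  refine HasDerivAt.congr_deriv h2 ?_
  field_simp
  norm_num
  ring

theorem hasDerivAt_ch_im {z : ℂ} {y : ℝ} (h : 0 < y) (w' : H3) (t : ℝ) :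
    HasDerivAt (fun t : ℝ => ch (pt (z + t * Complex.I) y) w')
      ((z.im + t - w'.z.im) / (y * w'.y)) t := by
  have hy := w'.pos
  have e : (fun t : ℝ => ch (pt (z + t * Complex.I) y) w') = fun t : ℝ =>
      (((z.re - w'.z.re) ^ 2 + (z.im + t - w'.z.im) ^ 2) + y ^ 2 + w'.y ^ 2) /
        (2 * y * w'.y) := by
    funext t
    rw [ch_pt h]
    simp
  rw [e]
  have h1 : HasDerivAt (fun t : ℝ => z.im + t - w'.z.im) 1 t :=
    ((hasDerivAt_id t).const_add z.im).sub_const _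
  have h2 := ((((h1.pow 2).const_add ((z.re - w'.z.re) ^ 2)).add_const (y ^ 2)).add_const
    (w'.y ^ 2)).div_const (2 * y * w'.y)
  refine HasDerivAt.congr_deriv h2 ?_
  field_simp
  norm_num
  ring

/-- `|z - z'|² + y'²`. -/
def nn (z : ℂ) (w' : H3) : ℝ := ((z.re - w'.z.re) ^ 2 + (z.im - w'.z.im) ^ 2) + w'.y ^ 2

theorem hasDerivAt_ch_y (z : ℂ) {t : ℝ} (h : 0 < t) (w' : H3) :
    HasDerivAt (fun t : ℝ => ch (pt z t) w')
      ((1 - nn z w' / t ^ 2) / (2 * w'.y)) t := by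
  have hy := w'.pos
  have e : (fun t : ℝ => ch (pt z t) w') =ᶠ[𝓝 t] fun t : ℝ =>
      (nn z w' + t ^ 2) / (2 * t * w'.y) := by
    filter_upwards [lt_mem_nhds h] with s hs
    rw [ch_pt hs, nn]
    ring_nf
  refine HasDerivAt.congr_of_eventuallyEq ?_ e
  have h1 : HasDerivAt (fun t : ℝ => nn z w' + t ^ 2) (2 * t) t := by
    simpa using ((hasDerivAt_pow 2 t).const_add (nn z w'))
  have h2 : HasDerivAt (fun t : ℝ => 2 * t * w'.y) (2 * w'.y) t := by
    simpa using ((hasDerivAt_id t).const_mul 2).mul_const w'.y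
  have h3 := h1.div h2 (by positivity)
  refine HasDerivAt.congr_deriv h3 ?_
  field_simp
  ring

theorem hasDerivAt_ch_yy (z : ℂ) {t : ℝ} (h : 0 < t) (w' : H3) :
    HasDerivAt (fun t : ℝ => (1 - nn z w' / t ^ 2) / (2 * w'.y))
      (nn z w' / (t ^ 3 * w'.y)) t := by
  have hy := w'.pos
  have h1 : HasDerivAt (fun t : ℝ => nn z w' / t ^ 2) (-(2 * nn z w') / t ^ 3) t := by
    have h2 := (hasDerivAt_const t (nn z w')).div (hasDerivAt_pow 2 t) (by positivity)
    refine HasDerivAt.congr_deriv h2 ?_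
    field_simp
    norm_num
    ring
  have h2 := (h1.const_sub 1).div_const (2 * w'.y)
  refine HasDerivAt.congr_deriv h2 ?_
  field_simp

end lines

/-! ### The Laplacian of a radial kernel -/

theorem dy_ch {κ : ℝ → ℂ} (hκ : Differentiable ℝ κ) (w w' : H3) :
    dy (fun w => κ (ch w w')) w =
      (((1 - nn w.z w' / w.y ^ 2) / (2 * w'.y) : ℝ) : ℂ) * deriv κ (ch w w') := by
  have := (hasDerivAt_comp_real (hκ _) (hasDerivAt_ch_y w.z w.pos w')).deriv
  rw [pt_self] at this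
  exact this

theorem dyy_ch {κ : ℝ → ℂ} (hκ : ContDiff ℝ 2 κ) (w w' : H3) :
    dyy (fun w => κ (ch w w')) w =
      deriv (deriv κ) (ch w w') * (((1 - nn w.z w' / w.y ^ 2) / (2 * w'.y) : ℝ) : ℂ) ^ 2 +
        deriv κ (ch w w') * ((nn w.z w' / (w.y ^ 3 * w'.y) : ℝ) : ℂ) := by
  have h := deriv2_comp hκ (g := fun t : ℝ => ch (pt w.z t) w')
    (g1 := fun t : ℝ => (1 - nn w.z w' / t ^ 2) / (2 * w'.y)) (t0 := w.y)
    (g2 := nn w.z w' / (w.y ^ 3 * w'.y))
    (by filter_upwards [lt_mem_nhds w.pos] with t ht using hasDerivAt_ch_y w.z ht w')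
    (hasDerivAt_ch_yy w.z w.pos w')
  simp only [pt_self] at h
  exact h

theorem dz1_ch {κ : ℝ → ℂ} (hκ : ContDiff ℝ 2 κ) (w w' : H3) :
    dz1 (fun w => κ (ch w w')) w =
      deriv (deriv κ) (ch w w') * (((w.z.re - w'.z.re) / (w.y * w'.y) : ℝ) : ℂ) ^ 2 +
        deriv κ (ch w w') * ((1 / (w.y * w'.y) : ℝ) : ℂ) := by
  have h := deriv2_comp hκ (g := fun t : ℝ => ch (pt (w.z + t) w.y) w')
    (g1 := fun t : ℝ => (w.z.re + t - w'.z.re) / (w.y * w'.y)) (t0 := 0)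
    (g2 := 1 / (w.y * w'.y))
    (Eventually.of_forall fun t => hasDerivAt_ch_re w.pos w' t)
    ((((hasDerivAt_id (0 : ℝ)).const_add w.z.re).sub_const _).div_const _)
  simp only [Complex.ofReal_zero, add_zero, pt_self] at h
  exact h

theorem dz2_ch {κ : ℝ → ℂ} (hκ : ContDiff ℝ 2 κ) (w w' : H3) :
    dz2 (fun w => κ (ch w w')) w =
      deriv (deriv κ) (ch w w') * (((w.z.im - w'.z.im) / (w.y * w'.y) : ℝ) : ℂ) ^ 2 +
        deriv κ (ch w w') * ((1 / (w.y * w'.y) : ℝ) : ℂ) := by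
  have h := deriv2_comp hκ (g := fun t : ℝ => ch (pt (w.z + t * Complex.I) w.y) w')
    (g1 := fun t : ℝ => (w.z.im + t - w'.z.im) / (w.y * w'.y)) (t0 := 0)
    (g2 := 1 / (w.y * w'.y))
    (Eventually.of_forall fun t => hasDerivAt_ch_im w.pos w' t)
    ((((hasDerivAt_id (0 : ℝ)).const_add w.z.im).sub_const _).div_const _)
  simp only [Complex.ofReal_zero, zero_mul, add_zero, pt_self] at h
  exact h

/-- **The Laplacian of a radial kernel.** -/
theorem Lap_ch {κ : ℝ → ℂ} (hκ : ContDiff ℝ 2 κ) (w w' : H3) :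
    Lap (fun w => κ (ch w w')) w = Lop κ (ch w w') := by
  have hd : Differentiable ℝ κ := hκ.differentiable (by norm_num)
  have hy := w.y_ne
  have hy' := w'.y_ne
  have hch : ((ch w w' : ℝ) : ℂ) = (((w.z.re : ℂ) - w'.z.re) ^ 2 + ((w.z.im : ℂ) - w'.z.im) ^ 2 +
      (w.y : ℂ) ^ 2 + (w'.y : ℂ) ^ 2) / (2 * w.y * w'.y) := by
    have h := ch_pt (z := w.z) w.pos w'
    rw [pt_self] at h
    rw [h]
    push_cast
    ring
  rw [Lap, dz1_ch hκ, dz2_ch hκ, dyy_ch hκ, dy_ch hd, Lop, hch]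
  generalize deriv (deriv κ) (ch w w') = A
  generalize deriv κ (ch w w') = B
  simp only [nn]
  push_cast
  field_simp
  ring

theorem Lap_const_mul (c : ℂ) (F : H3 → ℂ) (w : H3) :
    Lap (fun w => c * F w) w = c * Lap F w := by
  have e : ∀ f : ℝ → ℂ, (deriv fun t => c * f t) = fun t => c * deriv f t := fun f => by
    funext t
    exact deriv_const_mul_field c
  simp only [Lap, dz1, dz2, dy, dyy, e, deriv_const_mul_field]
  ring

end Fermat.Agent.H74.C3
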