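import Fermat.Agent.H34T4
import Fermat.Agent.H74C3a

/-!
# `kap0 ((L + 1) κ) = 0` (helper34, S47 T3)
-/

set_option autoImplicit false

open MeasureTheory Set Filter
open scoped ENNReal Real Topology

noncomputable section

namespace Fermat.Agent.H34T

/-- the radial part of the Laplace operator, plus one -/
def Lop1 (κ : ℝ → ℝ) (t : ℝ) : ℝ := (t ^ 2 - 1) * deriv (deriv κ) t + 3 * t * deriv κ t + κ t

theorem eventually_zero {κ : ℝ → ℝ} (hs : HasCompactSupport κ) : ∀ᶠ t in atTop, κ t = 0 := by
  obtain ⟨R, hR⟩ := hs.isCompact.bddAbove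
  filter_upwards [eventually_gt_atTop R] with t ht
  by_contra h0
  exact absurd (hR (subset_tsupport _ h0)) (not_le.mpr ht)

theorem integral_Lop1 {κ : ℝ → ℝ} (hκ : ContDiff ℝ 2 κ) (hs : HasCompactSupport κ) (a : ℝ) :
    ∫ t in Ioi a, Lop1 κ t = -((a ^ 2 - 1) * deriv κ a + a * κ a) := by
  have hd : Differentiable ℝ κ := hκ.differentiable (by norm_num)
  have hc1 : ContDiff ℝ 1 (deriv κ) := by
    have := (contDiff_succ_iff_deriv (n := 1)).mp (by rw [one_add_one_eq_two]; exact hκ)
    exact this.2.2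
  have hd2 : Differentiable ℝ (deriv κ) := hc1.differentiable (by norm_num)
  have hc2 : Continuous (deriv (deriv κ)) := hc1.continuous_deriv (by norm_num)
  have hs1 : HasCompactSupport (deriv κ) := hs.deriv
  have hs2 : HasCompactSupport (deriv (deriv κ)) := hs1.deriv
  have hder : ∀ t ∈ Ioi a, HasDerivAt (fun t => (t ^ 2 - 1) * deriv κ t + t * κ t) (Lop1 κ t) t := by
    intro t _
    have h1 : HasDerivAt (fun t : ℝ => t ^ 2 - 1) (2 * t) t := by
      simpa using (hasDerivAt_pow 2 t).sub_const 1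
    have h2 := (h1.mul (hd2 t).hasDerivAt).add ((hasDerivAt_id t).mul (hd t).hasDerivAt)
    refine h2.congr_deriv ?_
    simp only [Lop1, id]
    ring
  have hcont : Continuous (fun t => (t ^ 2 - 1) * deriv κ t + t * κ t) := by
    have := hd2.continuous
    have := hd.continuous
    fun_prop
  have hint : IntegrableOn (Lop1 κ) (Ioi a) := by
    have hcL : Continuous (Lop1 κ) := by
      unfold Lop1
      have := hd2.continuous
      have := hd.continuous
      fun_prop
    have hsL : HasCompactSupport (Lop1 κ) := by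
      have h1 : HasCompactSupport (fun t => (t ^ 2 - 1) * deriv (deriv κ) t) :=
        HasCompactSupport.mul_left (f := fun t : ℝ => t ^ 2 - 1) hs2
      have h2 : HasCompactSupport (fun t => 3 * t * deriv κ t) :=
        HasCompactSupport.mul_left (f := fun t : ℝ => 3 * t) hs1
      exact (h1.add h2).add hs
    exact (hcL.integrable_of_hasCompactSupport hsL).integrableOn
  have hlim : Tendsto (fun t => (t ^ 2 - 1) * deriv κ t + t * κ t) atTop (𝓝 0) := by
    refine Tendsto.congr' ?_ tendsto_const_nhds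
    filter_upwards [eventually_zero hs, eventually_zero hs1] with t h1 h2
    rw [h1, h2, mul_zero, mul_zero, add_zero]
  rw [integral_Ioi_of_hasDerivAt_of_tendsto hcont.continuousWithinAt hder hint hlim, zero_sub]

theorem kap0_Lop1 {κ : ℝ → ℝ} (hκ : ContDiff ℝ 2 κ) (hs : HasCompactSupport κ) :
    S47T.kap0 (Lop1 κ) = 0 := by
  rw [S47T.kap0]
  simp only [integral_Lop1 hκ hs]
  have hd : Differentiable ℝ κ := hκ.differentiable (by norm_num)
  have hc1 : Continuous (deriv κ) := hκ.continuous_deriv (by norm_num)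
  have hder : ∀ u ∈ Ioi (0 : ℝ), HasDerivAt (fun u => Real.sinh u * κ (Real.cosh u))
      ((Real.cosh u ^ 2 - 1) * deriv κ (Real.cosh u) + Real.cosh u * κ (Real.cosh u)) u := by
    intro u _
    have h2 := (Real.hasDerivAt_sinh u).mul
      ((hd (Real.cosh u)).hasDerivAt.comp u (Real.hasDerivAt_cosh u))
    refine h2.congr_deriv ?_
    have := Real.cosh_sq u
    simp only [Function.comp]
    rw [show Real.cosh u ^ 2 - 1 = Real.sinh u ^ 2 by linarith]
    ring
  have hz : ∀ {f : ℝ → ℝ}, HasCompactSupport f → ∀ᶠ u in atTop, f (Real.cosh u) = 0 := by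
    intro f hf
    have ht : Tendsto Real.cosh atTop atTop := by
      refine tendsto_atTop_mono' atTop ?_ tendsto_id
      filter_upwards with u
      have h1 := Real.add_one_le_exp u
      have h2 := Real.exp_pos (-u)
      rw [id, Real.cosh_eq]
      have h3 := Real.quadratic_le_exp_of_nonneg (x := |u|) (abs_nonneg u)
      have h4 : Real.exp |u| ≤ Real.exp u + Real.exp (-u) := by
        rcases abs_cases u with ⟨h, _⟩ | ⟨h, _⟩
        · rw [h]; linarith
        · rw [h]; linarith [Real.exp_pos u]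
      have h5 := le_abs_self u
      nlinarith [sq_nonneg (|u| - 1), abs_nonneg u]
    exact ht.eventually (eventually_zero hf)
  have hcont : Continuous (fun u => Real.sinh u * κ (Real.cosh u)) := by
    have := hd.continuous
    fun_prop
  have hcd : Continuous (fun u => (Real.cosh u ^ 2 - 1) * deriv κ (Real.cosh u) +
      Real.cosh u * κ (Real.cosh u)) := by
    have := hd.continuous
    fun_prop
  have hint : IntegrableOn (fun u => (Real.cosh u ^ 2 - 1) * deriv κ (Real.cosh u) +
      Real.cosh u * κ (Real.cosh u)) (Ioi 0) := by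
    obtain ⟨R, hR⟩ := ((hz hs).and (hz hs.deriv)).exists_forall_of_atTop
    have h1 : IntegrableOn (fun u => (Real.cosh u ^ 2 - 1) * deriv κ (Real.cosh u) +
      Real.cosh u * κ (Real.cosh u)) (Icc 0 (max R 0)) :=
      hcd.continuousOn.integrableOn_Icc
    have h2 : IntegrableOn (fun u => (Real.cosh u ^ 2 - 1) * deriv κ (Real.cosh u) +
      Real.cosh u * κ (Real.cosh u)) (Ioi (max R 0)) := by
      refine (integrableOn_zero).congr_fun (fun u hu => ?_) measurableSet_Ioi
      obtain ⟨h3, h4⟩ := hR u (le_trans (le_max_left _ _) (le_of_lt hu))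
      simp only [h3, h4, mul_zero, add_zero]
    refine (h1.union h2).mono_set fun u hu => ?_
    rcases le_or_gt u (max R 0) with h | h
    · exact Or.inl ⟨le_of_lt hu, h⟩
    · exact Or.inr h
  have hlim : Tendsto (fun u => Real.sinh u * κ (Real.cosh u)) atTop (𝓝 0) := by
    refine Tendsto.congr' ?_ tendsto_const_nhds
    filter_upwards [hz hs] with t h1
    rw [h1, mul_zero]
  have hI := integral_Ioi_of_hasDerivAt_of_tendsto hcont.continuousWithinAt hder hint hlim
  rw [Real.sinh_zero, zero_mul, sub_zero] at hI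
  have h6 : ∀ u : ℝ, 2 * π * -((Real.cosh u ^ 2 - 1) * deriv κ (Real.cosh u) +
      Real.cosh u * κ (Real.cosh u)) = (-(2 * π)) * ((Real.cosh u ^ 2 - 1) * deriv κ (Real.cosh u) +
      Real.cosh u * κ (Real.cosh u)) := fun u => by ring
  simp only [h6]
  rw [integral_const_mul, hI, mul_zero, mul_zero]

/-- the relation with the complex operator of H74C3a -/
theorem Lop_ofReal {κ : ℝ → ℝ} (hκ : ContDiff ℝ 2 κ) (t : ℝ) :
    H74.C3.Lop (fun s => (κ s : ℂ)) t + (κ t : ℂ) = ((Lop1 κ t : ℝ) : ℂ) := by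
  have hd : Differentiable ℝ κ := hκ.differentiable (by norm_num)
  have hc1 : ContDiff ℝ 1 (deriv κ) := by
    have := (contDiff_succ_iff_deriv (n := 1)).mp (by rw [one_add_one_eq_two]; exact hκ)
    exact this.2.2
  have hd2 : Differentiable ℝ (deriv κ) := hc1.differentiable (by norm_num)
  have h1 : deriv (fun s : ℝ => (κ s : ℂ)) = fun s => ((deriv κ s : ℝ) : ℂ) := by
    funext s
    exact (hd s).hasDerivAt.ofReal_comp.deriv
  have h2 : deriv (deriv (fun s : ℝ => (κ s : ℂ))) = fun s => ((deriv (deriv κ) s : ℝ) : ℂ) := by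
    rw [h1]
    funext s
    exact (hd2 s).hasDerivAt.ofReal_comp.deriv
  rw [H74.C3.Lop, h2, h1, Lop1]
  push_cast
  ring

theorem kap0_pos {κ : ℝ → ℝ} (hκ : Continuous κ) (hs : HasCompactSupport κ)
    (h0 : ∀ t, 0 ≤ κ t) {t₀ : ℝ} (ht₀ : 1 < t₀) (hpos : 0 < κ t₀) : 0 < S47T.kap0 κ := by
  rw [kap0_eq hκ.stronglyMeasurable (integrableOn_arcosh hκ hs)]
  have hi1 : IntegrableOn (fun t => (4 * π * Real.arcosh t) * κ t) (Ioi 1) := by
    have := Integrable.const_mul (integrableOn_arcosh hκ hs) (4 * π)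
    simp only [← mul_assoc] at this
    exact this
  have hnn : 0 ≤ᵐ[volume.restrict (Ioi 1)] fun t => (4 * π * Real.arcosh t) * κ t := by
    refine (ae_restrict_iff' measurableSet_Ioi).mpr (Filter.Eventually.of_forall fun t ht => ?_)
    have ht' : (1 : ℝ) < t := ht
    exact mul_nonneg (mul_nonneg (by positivity) (Real.arcosh_nonneg ht'.le)) (h0 t)
  rw [integral_pos_iff_support_of_nonneg_ae hnn hi1]
  have hopen : IsOpen ({t : ℝ | 0 < κ t} ∩ Ioi 1) :=
    (isOpen_lt continuous_const hκ).inter isOpen_Ioi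
  have hne : ({t : ℝ | 0 < κ t} ∩ Ioi 1).Nonempty := ⟨t₀, hpos, ht₀⟩
  refine lt_of_lt_of_le (hopen.measure_pos volume hne) ?_
  rw [Measure.restrict_apply' measurableSet_Ioi]
  refine measure_mono fun t ht => ⟨?_, ht.2⟩
  have h1 : 0 < κ t := ht.1
  have h2 : 0 < Real.arcosh t := Real.arcosh_pos ht.2
  rw [Function.mem_support]
  exact (mul_pos (mul_pos (by positivity) h2) h1).ne'

end Fermat.Agent.H34T
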