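import Fermat.Agent.H74C3a
import Fermat.Agent.H31Hyp3

/-!
# Green's identity on `H3` (helper75, package C3, forward theorem, part 2)

`F G : H3 → ℂ` of class `C²`, `G` with compact support: `∫ G * Lap F = ∫ Lap G * F`.
-/

set_option autoImplicit false

noncomputable section

open MeasureTheory Filter Topology Set
open scoped ContDiff

namespace Fermat.Agent.H75Y

open Fermat.Agent Fermat.Agent.H3 Fermat.Agent.H74.C3

/-- The open half space in `ℂ × ℝ`. -/
def U : Set (ℂ × ℝ) := {p | 0 < p.2}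

theorem isOpen_U : IsOpen U := isOpen_lt continuous_const continuous_snd

/-- `F` of class `C^n` (in the coordinates `(z, y)`). -/
def CC (n : ℕ∞) (F : H3 → ℂ) : Prop :=
  ContDiffOn ℝ n (fun p : ℂ × ℝ => F (pt p.1 p.2)) {p | 0 < p.2}

/-- directional derivative -/
def D (v : ℂ × ℝ) (f : ℂ × ℝ → ℂ) (p : ℂ × ℝ) : ℂ := fderiv ℝ f p v

/-- first basis vector -/
def e1 : ℂ × ℝ := (1, 0)
/-- second basis vector -/
def e2 : ℂ × ℝ := (Complex.I, 0)
/-- third basis vector -/
def e3 : ℂ × ℝ := (0, 1)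

section basic

variable {f : ℂ × ℝ → ℂ}

theorem hasFDerivAt_of (hf : ContDiffOn ℝ 2 f U) {p : ℂ × ℝ} (hp : p ∈ U) :
    HasFDerivAt f (fderiv ℝ f p) p :=
  ((hf.differentiableOn (by norm_num)).differentiableAt (isOpen_U.mem_nhds hp)).hasFDerivAt

theorem contDiffOn_D (hf : ContDiffOn ℝ 2 f U) (v : ℂ × ℝ) : ContDiffOn ℝ 1 (D v f) U := by
  have h1 : ContDiffOn ℝ 1 (fderiv ℝ f) U := by
    have : ContDiffOn ℝ (1 + 1) f U := by
      rw [one_add_one_eq_two]
      exact hf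
    exact ((contDiffOn_succ_iff_fderiv_of_isOpen isOpen_U).mp this).2.2
  exact h1.clm_apply contDiffOn_const

theorem hasFDerivAt_D (hf : ContDiffOn ℝ 2 f U) (v : ℂ × ℝ) {p : ℂ × ℝ} (hp : p ∈ U) :
    HasFDerivAt (D v f) (fderiv ℝ (D v f) p) p :=
  (((contDiffOn_D hf v).differentiableOn (by norm_num)).differentiableAt
    (isOpen_U.mem_nhds hp)).hasFDerivAt

theorem continuousOn_DD (hf : ContDiffOn ℝ 2 f U) (v u : ℂ × ℝ) : ContinuousOn (D u (D v f)) U := by
  have h1 : ContDiffOn ℝ 0 (fderiv ℝ (D v f)) U := by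
    have : ContDiffOn ℝ (0 + 1) (D v f) U := by
      rw [zero_add]
      exact contDiffOn_D hf v
    exact ((contDiffOn_succ_iff_fderiv_of_isOpen isOpen_U).mp this).2.2
  exact h1.continuousOn.clm_apply continuousOn_const

theorem hasDerivAt_line {f' : ℂ × ℝ →L[ℝ] ℂ} {q v : ℂ × ℝ} {t : ℝ}
    (h : HasFDerivAt f f' (q + t • v)) : HasDerivAt (fun t : ℝ => f (q + t • v)) (f' v) t := by
  have h1 : HasDerivAt (fun t : ℝ => q + t • v) v t := by
    simpa using ((hasDerivAt_id t).smul_const v).const_add q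
  exact h.comp_hasDerivAt t h1

theorem deriv_line (hf : ContDiffOn ℝ 2 f U) {q v : ℂ × ℝ} {t : ℝ} (h : q + t • v ∈ U) :
    deriv (fun t : ℝ => f (q + t • v)) t = D v f (q + t • v) :=
  (hasDerivAt_line (hasFDerivAt_of hf h)).deriv

theorem deriv2_line (hf : ContDiffOn ℝ 2 f U) {q v : ℂ × ℝ} {t : ℝ} (h : q + t • v ∈ U) :
    deriv (deriv fun t : ℝ => f (q + t • v)) t = D v (D v f) (q + t • v) := by
  have hc : Continuous fun t : ℝ => q + t • v := by fun_prop
  have e : (deriv fun t : ℝ => f (q + t • v)) =ᶠ[𝓝 t] fun t => D v f (q + t • v) := by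
    filter_upwards [hc.continuousAt.eventually (isOpen_U.mem_nhds h)] with s hs
    exact deriv_line hf hs
  rw [e.deriv_eq]
  exact (hasDerivAt_line (hasFDerivAt_D hf v h)).deriv

/-- The Laplace operator in coordinates. -/
def LL (f : ℂ × ℝ → ℂ) (p : ℂ × ℝ) : ℂ :=
  (p.2 : ℂ) ^ 2 * (D e1 (D e1 f) p + D e2 (D e2 f) p + D e3 (D e3 f) p) - p.2 * D e3 f p

theorem continuousOn_LL (hf : ContDiffOn ℝ 2 f U) : ContinuousOn (LL f) U := by
  have h : ContinuousOn (fun p : ℂ × ℝ => (p.2 : ℂ)) U :=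
    (Complex.continuous_ofReal.comp continuous_snd).continuousOn
  exact ((h.pow 2).mul (((continuousOn_DD hf _ _).add (continuousOn_DD hf _ _)).add
    (continuousOn_DD hf _ _))).sub (h.mul (contDiffOn_D hf _).continuousOn)

end basic

theorem mem_U (w : H3) : (w.z, w.y) ∈ U := w.pos

theorem Lap_eq {F : H3 → ℂ} (hF : CC 2 F) (w : H3) :
    Lap F w = LL (fun p : ℂ × ℝ => F (pt p.1 p.2)) (w.z, w.y) := by
  have hF' : ContDiffOn ℝ 2 (fun p : ℂ × ℝ => F (pt p.1 p.2)) U := hF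
  have h1 : dz1 F w = D e1 (D e1 fun p : ℂ × ℝ => F (pt p.1 p.2)) (w.z, w.y) := by
    have h := deriv2_line hF' (q := (w.z, w.y)) (v := e1) (t := 0) (by simpa using mem_U w)
    simpa [e1, dz1] using h
  have h2 : dz2 F w = D e2 (D e2 fun p : ℂ × ℝ => F (pt p.1 p.2)) (w.z, w.y) := by
    have h := deriv2_line hF' (q := (w.z, w.y)) (v := e2) (t := 0) (by simpa using mem_U w)
    simpa [e2, dz2] using h
  have h3 : dyy F w = D e3 (D e3 fun p : ℂ × ℝ => F (pt p.1 p.2)) (w.z, w.y) := by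
    have h := deriv2_line hF' (q := (w.z, 0)) (v := e3) (t := w.y) (by simpa [e3] using mem_U w)
    simpa [e3, dyy] using h
  have h4 : dy F w = D e3 (fun p : ℂ × ℝ => F (pt p.1 p.2)) (w.z, w.y) := by
    have h := deriv_line hF' (q := (w.z, 0)) (v := e3) (t := w.y) (by simpa [e3] using mem_U w)
    simpa [e3, dy] using h
  rw [Lap, LL, h1, h2, h3, h4]

theorem continuous_zy : Continuous (fun w : H3 => (w.z, w.y)) := continuous_z.prodMk continuous_y

theorem continuous_of_coord {f : ℂ × ℝ → ℂ} (hf : ContinuousOn f U) :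
    Continuous (fun w : H3 => f (w.z, w.y)) :=
  hf.comp_continuous continuous_zy mem_U

theorem continuous_of_CC {F : H3 → ℂ} {n : ℕ∞} (hF : CC n F) : Continuous F := by
  have h := continuous_of_coord (f := fun p : ℂ × ℝ => F (pt p.1 p.2)) hF.continuousOn
  simpa using h

theorem continuous_Lap {F : H3 → ℂ} (hF : CC 2 F) : Continuous (Lap F) := by
  have h : Lap F = fun w => LL (fun p : ℂ × ℝ => F (pt p.1 p.2)) (w.z, w.y) :=
    funext fun w => Lap_eq hF w
  rw [h]
  exact continuous_of_coord (continuousOn_LL hF)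

/-! ### Compact sets -/

theorem continuousOn_pt : ContinuousOn (fun p : ℂ × ℝ => pt p.1 p.2) U := by
  have h1 : ContinuousOn (fun p : ℂ × ℝ => (p.1 / (p.2 : ℂ), Real.log p.2)) U := by
    refine ContinuousOn.prodMk ?_ ?_
    · refine continuousOn_fst.div (Complex.continuous_ofReal.comp continuous_snd).continuousOn ?_
      intro p hp
      exact_mod_cast (show (0 : ℝ) < p.2 from hp).ne'
    · exact continuousOn_snd.log fun p hp => (show (0 : ℝ) < p.2 from hp).ne'
  refine (coord.symm.continuous.comp_continuousOn h1).congr fun p hp => ?_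
  have hp' : (0 : ℝ) < p.2 := hp
  refine coord.injective ?_
  simp [coord_apply, pt_y hp']

/-- standard compact sets -/
def KK (a b : ℝ) : Set (ℂ × ℝ) := {p | ‖p.1‖ ≤ b ∧ a ≤ p.2 ∧ p.2 ≤ b}

theorem isCompact_KK (a b : ℝ) : IsCompact (KK a b) := by
  have h : KK a b = (Metric.closedBall (0 : ℂ) b) ×ˢ (Icc a b) := by
    ext p
    simp [KK]
  rw [h]
  exact (isCompact_closedBall _ _).prod isCompact_Icc

theorem isClosed_KK (a b : ℝ) : IsClosed (KK a b) := (isCompact_KK a b).isClosed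

theorem isCompact_H3 {a : ℝ} (ha : 0 < a) (b : ℝ) :
    IsCompact {w : H3 | ‖w.z‖ ≤ b ∧ a ≤ w.y ∧ w.y ≤ b} := by
  have h : {w : H3 | ‖w.z‖ ≤ b ∧ a ≤ w.y ∧ w.y ≤ b} = (fun p : ℂ × ℝ => pt p.1 p.2) '' KK a b := by
    ext w
    constructor
    · intro hw
      exact ⟨(w.z, w.y), hw, pt_self w⟩
    · rintro ⟨p, hp, rfl⟩
      have hy : (pt p.1 p.2).y = p.2 := pt_y (ha.trans_le hp.2.1)
      refine ⟨hp.1, ?_, ?_⟩
      · show a ≤ (pt p.1 p.2).y
        rw [hy]
        exact hp.2.1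
      · show (pt p.1 p.2).y ≤ b
        rw [hy]
        exact hp.2.2
  rw [h]
  exact (isCompact_KK a b).image_of_continuousOn
    (continuousOn_pt.mono fun p hp => (ha.trans_le hp.2.1 : 0 < p.2))

/-- Continuous functions with compact support on `H3` are integrable. -/
theorem integrable_of_continuous {E : Type*} [NormedAddCommGroup E] {G : H3 → E}
    (hG : Continuous G) {a b : ℝ} (ha : 0 < a)
    (hS : ∀ w : H3, G w ≠ 0 → ‖w.z‖ ≤ b ∧ a ≤ w.y ∧ w.y ≤ b) : Integrable G := by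
  have hc : HasCompactSupport G := by
    refine HasCompactSupport.of_support_subset_isCompact (isCompact_H3 ha b) ?_
    intro w hw
    exact hS w hw
  have h1 : Integrable (G ∘ coord.symm) := by
    refine (hG.comp coord.symm.continuous).integrable_of_hasCompactSupport ?_
    exact hc.comp_homeomorph coord.symm
  exact (measurePreserving_coord_symm.integrable_comp_emb
    coord.symm.measurableEmbedding).mp h1

/-! ### Extension by zero -/

section ext

variable {φ : ℂ × ℝ → ℂ} {a b : ℝ}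

theorem eventuallyEq_indicator {p : ℂ × ℝ} (hp : p ∈ U) :
    (fun p => U.indicator φ p) =ᶠ[𝓝 p] φ := by
  filter_upwards [isOpen_U.mem_nhds hp] with q hq
  exact indicator_of_mem hq φ

theorem eventuallyEq_zero (ha : 0 < a) (h0 : ∀ p ∈ U, p ∉ KK a b → φ p = 0) {p : ℂ × ℝ}
    (hp : p ∉ U) : (fun p => U.indicator φ p) =ᶠ[𝓝 p] fun _ => 0 := by
  have hpK : p ∉ KK a b := fun h => hp (ha.trans_le h.2.1 : 0 < p.2)
  filter_upwards [(isClosed_KK a b).isOpen_compl.mem_nhds hpK] with q hq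
  by_cases hqU : q ∈ U
  · rw [indicator_of_mem hqU]
    exact h0 q hqU hq
  · rw [indicator_of_notMem hqU]

theorem continuous_indicator (ha : 0 < a) (hφ : ContinuousOn φ U)
    (h0 : ∀ p ∈ U, p ∉ KK a b → φ p = 0) : Continuous (U.indicator φ) := by
  rw [continuous_iff_continuousAt]
  intro p
  by_cases hp : p ∈ U
  · exact (hφ.continuousAt (isOpen_U.mem_nhds hp)).congr (eventuallyEq_indicator hp).symm
  · exact continuousAt_const.congr (eventuallyEq_zero ha h0 hp).symm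

theorem integrable_indicator (ha : 0 < a) (hφ : ContinuousOn φ U)
    (h0 : ∀ p ∈ U, p ∉ KK a b → φ p = 0) : Integrable (U.indicator φ) := by
  refine (continuous_indicator ha hφ h0).integrable_of_hasCompactSupport ?_
  refine HasCompactSupport.of_support_subset_isCompact (isCompact_KK a b) ?_
  intro p hp
  by_contra h
  apply hp
  by_cases hpU : p ∈ U
  · rw [indicator_of_mem hpU]
    exact h0 p hpU h
  · exact indicator_of_notMem hpU φ

theorem hasLineDerivAt_indicator (ha : 0 < a) {ψ : ℂ × ℝ → ℂ} {v : ℂ × ℝ}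
    (h : ∀ p ∈ U, HasLineDerivAt ℝ φ (ψ p) p v)
    (h0 : ∀ p ∈ U, p ∉ KK a b → φ p = 0) (p : ℂ × ℝ) :
    HasLineDerivAt ℝ (U.indicator φ) (U.indicator ψ p) p v := by
  by_cases hp : p ∈ U
  · rw [indicator_of_mem hp]
    exact (h p hp).congr_of_eventuallyEq (eventuallyEq_indicator hp)
  · rw [indicator_of_notMem hp]
    have h1 : HasFDerivAt (fun _ : ℂ × ℝ => (0 : ℂ)) (0 : ℂ × ℝ →L[ℝ] ℂ) p := hasFDerivAt_const _ _
    have h2 := h1.congr_of_eventuallyEq (eventuallyEq_zero ha h0 hp)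
    simpa using h2.hasLineDerivAt v

end ext

/-- The integral of a derivative of a compactly supported function vanishes. -/
theorem integral_lineDeriv_eq_zero {h h' : ℂ × ℝ → ℂ} {v : ℂ × ℝ}
    (hh : ∀ p, HasLineDerivAt ℝ h (h' p) p v) (hi : Integrable h) (hi' : Integrable h') :
    ∫ p, h' p = 0 := by
  have : (volume : Measure (ℂ × ℝ)).IsAddHaarMeasure := by
    rw [Measure.volume_eq_prod]
    infer_instance
  have key := integral_bilinear_hasLineDerivAt_right_eq_neg_left_of_integrable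
    (μ := (volume : Measure (ℂ × ℝ))) (f := fun _ => (1 : ℂ)) (f' := fun _ => (0 : ℂ))
    (g := h) (g' := h') (v := v) (B := ContinuousLinearMap.mul ℝ ℂ)
    (by simp) (by simpa using hi') (by simpa using hi)
    (fun x _ => by
      have h1 : HasFDerivAt (fun _ : ℂ × ℝ => (1 : ℂ)) (0 : ℂ × ℝ →L[ℝ] ℂ) x :=
        hasFDerivAt_const _ _
      simpa using h1.hasLineDerivAt v)
    (fun x _ => hh x)
  simpa using key

/-! ### Green's identity -/

section green

variable {f g : ℂ × ℝ → ℂ} {a b : ℝ}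

/-- the current in the direction `v` -/
def JV (f g : ℂ × ℝ → ℂ) (v : ℂ × ℝ) (p : ℂ × ℝ) : ℂ :=
  (p.2 : ℂ)⁻¹ * (g p * D v f p - f p * D v g p)

/-- its derivative -/
def JV' (f g : ℂ × ℝ → ℂ) (v : ℂ × ℝ) (p : ℂ × ℝ) : ℂ :=
  (p.2 : ℂ)⁻¹ * (g p * D v (D v f) p - f p * D v (D v g) p) -
    (v.2 : ℂ) * ((p.2 : ℂ)⁻¹) ^ 2 * (g p * D v f p - f p * D v g p)

theorem hasLineDerivAt_JV (hf : ContDiffOn ℝ 2 f U) (hg : ContDiffOn ℝ 2 g U) (v : ℂ × ℝ)
    {p : ℂ × ℝ} (hp : p ∈ U) : HasLineDerivAt ℝ (JV f g v) (JV' f g v p) p v := by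
  have hp0 : (p.2 : ℂ) ≠ 0 := by exact_mod_cast (show (0 : ℝ) < p.2 from hp).ne'
  have hf0 := (hasFDerivAt_of hf hp).hasLineDerivAt v
  have hg0 := (hasFDerivAt_of hg hp).hasLineDerivAt v
  have hf1 := (hasFDerivAt_D hf v hp).hasLineDerivAt v
  have hg1 := (hasFDerivAt_D hg v hp).hasLineDerivAt v
  rw [HasLineDerivAt] at hf0 hg0 hf1 hg1 ⊢
  have h2 : HasDerivAt (fun t : ℝ => (((p + t • v).2 : ℝ) : ℂ)⁻¹)
      (-(v.2 : ℂ) / (p.2 : ℂ) ^ 2) 0 := by
    have h3 : HasDerivAt (fun t : ℝ => (p + t • v).2) v.2 0 := by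
      have : HasDerivAt (fun t : ℝ => p.2 + t * v.2) v.2 0 := by
        simpa using ((hasDerivAt_id (0 : ℝ)).mul_const v.2).const_add p.2
      exact this
    have h4 : HasDerivAt (fun t : ℝ => (((p + t • v).2 : ℝ) : ℂ)) (v.2 : ℂ) 0 := h3.ofReal_comp
    have h5 := h4.fun_inv (by simpa using hp0)
    simpa using h5
  have h6 := h2.mul ((hg0.mul hf1).sub (hf0.mul hg1))
  refine HasDerivAt.congr_deriv h6 ?_
  simp only [JV', zero_smul, add_zero, D, Pi.sub_apply, Pi.mul_apply]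
  field_simp
  ring

theorem continuousOn_inv : ContinuousOn (fun p : ℂ × ℝ => (p.2 : ℂ)⁻¹) U := by
  refine ContinuousOn.inv₀ (Complex.continuous_ofReal.comp continuous_snd).continuousOn ?_
  intro p hp
  have h : (p.2 : ℂ) ≠ 0 := by exact_mod_cast (show (0 : ℝ) < p.2 from hp).ne'
  exact h

theorem continuousOn_JV (hf : ContDiffOn ℝ 2 f U) (hg : ContDiffOn ℝ 2 g U) (v : ℂ × ℝ) :
    ContinuousOn (JV f g v) U := by
  have h := continuousOn_inv
  exact h.mul ((hg.continuousOn.mul (contDiffOn_D hf v).continuousOn).sub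
    (hf.continuousOn.mul (contDiffOn_D hg v).continuousOn))

theorem continuousOn_JV' (hf : ContDiffOn ℝ 2 f U) (hg : ContDiffOn ℝ 2 g U) (v : ℂ × ℝ) :
    ContinuousOn (JV' f g v) U := by
  have h := continuousOn_inv
  refine (h.mul ((hg.continuousOn.mul (continuousOn_DD hf v v)).sub
    (hf.continuousOn.mul (continuousOn_DD hg v v)))).sub ?_
  exact (continuousOn_const.mul (h.pow 2)).mul
    ((hg.continuousOn.mul (contDiffOn_D hf v).continuousOn).sub
    (hf.continuousOn.mul (contDiffOn_D hg v).continuousOn))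

theorem D_eq_zero {g : ℂ × ℝ → ℂ} (h0 : ∀ p ∈ U, p ∉ KK a b → g p = 0) (v : ℂ × ℝ) :
    ∀ p ∈ U, p ∉ KK a b → D v g p = 0 := by
  intro p hp hpK
  have h : g =ᶠ[𝓝 p] fun _ => 0 := by
    filter_upwards [(isClosed_KK a b).isOpen_compl.mem_nhds hpK, isOpen_U.mem_nhds hp]
      with q hq hqU
    exact h0 q hqU hq
  rw [D, h.fderiv_eq]
  simp

theorem JV_eq_zero (h0 : ∀ p ∈ U, p ∉ KK a b → g p = 0) (v : ℂ × ℝ) :
    ∀ p ∈ U, p ∉ KK a b → JV f g v p = 0 := by
  intro p hp hpK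
  rw [JV, h0 p hp hpK, D_eq_zero h0 v p hp hpK]
  ring

theorem JV'_eq_zero (h0 : ∀ p ∈ U, p ∉ KK a b → g p = 0) (v : ℂ × ℝ) :
    ∀ p ∈ U, p ∉ KK a b → JV' f g v p = 0 := by
  intro p hp hpK
  rw [JV', h0 p hp hpK, D_eq_zero h0 v p hp hpK, D_eq_zero (D_eq_zero h0 v) v p hp hpK]
  ring

theorem integral_JV' (ha : 0 < a) (hf : ContDiffOn ℝ 2 f U) (hg : ContDiffOn ℝ 2 g U)
    (h0 : ∀ p ∈ U, p ∉ KK a b → g p = 0) (v : ℂ × ℝ) :
    Integrable (U.indicator (JV' f g v)) ∧ ∫ p, U.indicator (JV' f g v) p = 0 := by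
  have hi' := integrable_indicator (b := b) ha (continuousOn_JV' hf hg v) (JV'_eq_zero h0 v)
  exact ⟨hi', integral_lineDeriv_eq_zero
    (hasLineDerivAt_indicator (b := b) ha (fun p hp => hasLineDerivAt_JV hf hg v hp)
      (JV_eq_zero h0 v))
    (integrable_indicator (b := b) ha (continuousOn_JV hf hg v) (JV_eq_zero h0 v)) hi'⟩

theorem sum_JV' {p : ℂ × ℝ} (hp : p ∈ U) : JV' f g e1 p + JV' f g e2 p + JV' f g e3 p =
    ((p.2 : ℂ) ^ 3)⁻¹ * (g p * LL f p - LL g p * f p) := by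
  have hp0 : (p.2 : ℂ) ≠ 0 := by exact_mod_cast (show (0 : ℝ) < p.2 from hp).ne'
  simp only [JV', LL, e1, e2, e3]
  push_cast
  field_simp
  ring

theorem green_coord (ha : 0 < a) (hf : ContDiffOn ℝ 2 f U) (hg : ContDiffOn ℝ 2 g U)
    (h0 : ∀ p ∈ U, p ∉ KK a b → g p = 0) :
    ∫ p, U.indicator (fun p : ℂ × ℝ => ((p.2 : ℂ) ^ 3)⁻¹ * (g p * LL f p - LL g p * f p)) p = 0 := by
  obtain ⟨i1, j1⟩ := integral_JV' ha hf hg h0 e1
  obtain ⟨i2, j2⟩ := integral_JV' ha hf hg h0 e2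
  obtain ⟨i3, j3⟩ := integral_JV' ha hf hg h0 e3
  have h : (fun p => U.indicator (fun p : ℂ × ℝ =>
      ((p.2 : ℂ) ^ 3)⁻¹ * (g p * LL f p - LL g p * f p)) p) = fun p =>
      (U.indicator (JV' f g e1) p + U.indicator (JV' f g e2) p) + U.indicator (JV' f g e3) p := by
    funext p
    by_cases hp : p ∈ U
    · rw [indicator_of_mem hp, indicator_of_mem hp, indicator_of_mem hp, indicator_of_mem hp,
        sum_JV' hp]
    · rw [indicator_of_notMem hp, indicator_of_notMem hp, indicator_of_notMem hp,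
        indicator_of_notMem hp]
      ring
  have hadd := integral_add (i1.add i2) i3
  simp only [Pi.add_apply] at hadd
  rw [h]
  refine hadd.trans ?_
  have hadd' := integral_add i1 i2
  rw [j3, add_zero]
  refine hadd'.trans ?_
  rw [j1, j2, add_zero]

end green

/-- Integration on `H3` in the coordinates, as one integral. -/
theorem integral_H3_eq {φ : ℂ × ℝ → ℂ} (hi : Integrable (fun w : H3 => φ (w.z, w.y)))
    (hi' : Integrable (U.indicator (fun p : ℂ × ℝ => ((p.2 : ℂ) ^ 3)⁻¹ * φ p))) :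
    ∫ w : H3, φ (w.z, w.y) = ∫ p, U.indicator (fun p : ℂ × ℝ => ((p.2 : ℂ) ^ 3)⁻¹ * φ p) p := by
  have h1 := integral_eq (fun z y => φ (z, y)) hi
  have h2 := integral_prod_symm _ hi'
  refine h1.trans (Eq.trans ?_ h2.symm)
  rw [← integral_indicator measurableSet_Ioi]
  refine integral_congr_ae (Filter.Eventually.of_forall fun y => ?_)
  by_cases hy : 0 < y
  · have hy' : y ∈ Ioi (0 : ℝ) := hy
    simp only [indicator_of_mem hy']
    rw [← integral_smul]
    refine integral_congr_ae (Filter.Eventually.of_forall fun z => ?_)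
    have hz : (z, y) ∈ U := hy
    simp only [indicator_of_mem hz, Complex.real_smul]
    push_cast
    rfl
  · have hy' : y ∉ Ioi (0 : ℝ) := hy
    simp only [indicator_of_notMem hy']
    have : ∀ z : ℂ, U.indicator (fun p : ℂ × ℝ => ((p.2 : ℂ) ^ 3)⁻¹ * φ p) (z, y) = 0 := by
      intro z
      have hz : (z, y) ∉ U := hy
      exact indicator_of_notMem hz _
    simp [this]

/-- **Green's identity on `H3`.** -/
theorem green {F G : H3 → ℂ} (hF : CC 2 F) (hG : CC 2 G) {a b : ℝ} (ha : 0 < a)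
    (hS : ∀ w : H3, G w ≠ 0 → ‖w.z‖ ≤ b ∧ a ≤ w.y ∧ w.y ≤ b) :
    Integrable (fun w => G w * Lap F w) ∧ Integrable (fun w => Lap G w * F w) ∧
      ∫ w, G w * Lap F w = ∫ w, Lap G w * F w := by
  set f : ℂ × ℝ → ℂ := fun p => F (pt p.1 p.2) with hf_def
  set g : ℂ × ℝ → ℂ := fun p => G (pt p.1 p.2) with hg_def
  have hf : ContDiffOn ℝ 2 f U := hF
  have hg : ContDiffOn ℝ 2 g U := hG
  have hfw : ∀ w : H3, F w = f (w.z, w.y) := fun w => by simp [hf_def]
  have hgw : ∀ w : H3, G w = g (w.z, w.y) := fun w => by simp [hg_def]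
  have h0 : ∀ p ∈ U, p ∉ KK a b → g p = 0 := by
    intro p hp hpK
    by_contra hne
    apply hpK
    have := hS (pt p.1 p.2) hne
    rw [pt_y hp] at this
    exact this
  have h0L : ∀ p ∈ U, p ∉ KK a b → LL g p = 0 := by
    intro p hp hpK
    simp only [LL, D_eq_zero h0 _ p hp hpK, D_eq_zero (D_eq_zero h0 _) _ p hp hpK]
    ring
  have hLS : ∀ w : H3, Lap G w ≠ 0 → ‖w.z‖ ≤ b ∧ a ≤ w.y ∧ w.y ≤ b := by
    intro w hw
    by_contra hc
    apply hw
    rw [Lap_eq hG]
    exact h0L (w.z, w.y) w.pos hc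
  have i1 : Integrable (fun w => G w * Lap F w) :=
    integrable_of_continuous ((continuous_of_CC hG).mul (continuous_Lap hF)) ha
      fun w hw => hS w (left_ne_zero_of_mul hw)
  have i2 : Integrable (fun w => Lap G w * F w) :=
    integrable_of_continuous ((continuous_Lap hG).mul (continuous_of_CC hF)) ha
      fun w hw => hLS w (left_ne_zero_of_mul hw)
  refine ⟨i1, i2, ?_⟩
  rw [← sub_eq_zero, ← integral_sub i1 i2]
  have e : (fun w : H3 => G w * Lap F w - Lap G w * F w) =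
      fun w => (fun p : ℂ × ℝ => g p * LL f p - LL g p * f p) (w.z, w.y) := by
    funext w
    simp only [Lap_eq hF, Lap_eq hG]
    rw [hfw w, hgw w]
  rw [e]
  refine (integral_H3_eq ?_ ?_).trans (green_coord ha hf hg h0)
  · rw [← e]
    exact i1.sub i2
  · refine integrable_indicator (b := b) ha ?_ ?_
    · have h : ContinuousOn (fun p : ℂ × ℝ => ((p.2 : ℂ) ^ 3)⁻¹) U :=
        (continuousOn_inv.pow 3).congr fun p _ => by simp [inv_pow]
      exact h.mul ((hg.continuousOn.mul (continuousOn_LL hf)).sub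
        ((continuousOn_LL hg).mul hf.continuousOn))
    · intro p hp hpK
      simp only [h0 p hp hpK, h0L p hp hpK]
      ring

end Fermat.Agent.H75Y
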