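import Fermat.Agent.H75Y1
import Fermat.Agent.H75Y2

/-!
# The forward mean value theorem on `H3` (helper75, package C3)

`F : H3 → ℂ` of class `C²` with `Lap F = -F`, `κ : ℝ → ℂ` continuous, zero on `[R, ∞)`:
`∫ w', κ (ch w w') * F w' = hatK κ * F w`, where `hatK κ = ∫ w', κ (ch base w') * w'.y`.
-/

set_option autoImplicit false

noncomputable section

open MeasureTheory Filter Topology Set
open scoped ContDiff

namespace Fermat.Agent.H75Y

open Fermat.Agent Fermat.Agent.H3 Fermat.Agent.H74.C3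

/-! ### Radial kernels -/

theorem CC_ch {κ : ℝ → ℂ} {n : ℕ∞} (hκ : ContDiff ℝ n κ) (w : H3) :
    CC n (fun w' => κ (ch w w')) := by
  have h1 : ContDiffOn ℝ n (fun p : ℂ × ℝ => (((p.1.re - w.z.re) ^ 2 + (p.1.im - w.z.im) ^ 2) +
      p.2 ^ 2 + w.y ^ 2) / (2 * p.2 * w.y)) U := by
    have hre : ContDiff ℝ n (fun p : ℂ × ℝ => p.1.re) :=
      Complex.reCLM.contDiff.comp contDiff_fst
    have him : ContDiff ℝ n (fun p : ℂ × ℝ => p.1.im) :=
      Complex.imCLM.contDiff.comp contDiff_fst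
    have hy : ContDiff ℝ n (fun p : ℂ × ℝ => p.2) := contDiff_snd
    refine ContDiffOn.div ?_ ?_ ?_
    · exact ((((hre.sub contDiff_const).pow 2).add ((him.sub contDiff_const).pow 2)).add
        (hy.pow 2) |>.add contDiff_const).contDiffOn
    · exact ((contDiff_const.mul hy).mul contDiff_const).contDiffOn
    · intro p hp
      have h1 : (0 : ℝ) < p.2 := hp
      have h2 := w.pos
      positivity
  have h2 : ContDiffOn ℝ n (fun p : ℂ × ℝ => κ ((((p.1.re - w.z.re) ^ 2 +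
      (p.1.im - w.z.im) ^ 2) + p.2 ^ 2 + w.y ^ 2) / (2 * p.2 * w.y))) U := hκ.comp_contDiffOn h1
  refine h2.congr fun p hp => ?_
  have hp' : (0 : ℝ) < p.2 := hp
  show κ (ch w (pt p.1 p.2)) = _
  rw [ch_comm, ch_pt hp']

theorem ch_bounds {R : ℝ} {w w' : H3} (h : ch w w' ≤ R) :
    w.y ≤ 2 * R * w'.y ∧ w'.y ≤ 2 * R * w.y ∧ ‖w'.z - w.z‖ ≤ 2 * R * w.y := by
  have h1 := w.pos
  have h2 := w'.pos
  have hR : 1 ≤ R := (one_le_ch w w').trans h
  rw [ch, div_le_iff₀ (by positivity), Complex.normSq_eq_norm_sq] at h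
  rw [norm_sub_rev]
  have h3 : w.y ≤ 2 * R * w'.y := by nlinarith [sq_nonneg ‖w.z - w'.z‖, sq_nonneg w'.y]
  have h4 : w'.y ≤ 2 * R * w.y := by nlinarith [sq_nonneg ‖w.z - w'.z‖, sq_nonneg w.y]
  refine ⟨h3, h4, ?_⟩
  have h5 : ‖w.z - w'.z‖ ^ 2 ≤ (2 * R * w.y) ^ 2 := by nlinarith [sq_nonneg w.y, sq_nonneg w'.y]
  exact (pow_le_pow_iff_left₀ (norm_nonneg _) (by positivity) two_ne_zero).mp h5

/-- lower bound for the height -/
def aa (R : ℝ) (w : H3) : ℝ := w.y / (2 * R)
/-- upper bound for the coordinates -/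
def bb (R : ℝ) (w : H3) : ℝ := ‖w.z‖ + 2 * R * w.y

theorem aa_pos {R : ℝ} (hR : 1 < R) (w : H3) : 0 < aa R w :=
  div_pos w.pos (by linarith)

theorem mem_of_ch {R : ℝ} {w w' : H3} (h : ch w w' ≤ R) :
    ‖w'.z‖ ≤ bb R w ∧ aa R w ≤ w'.y ∧ w'.y ≤ bb R w := by
  obtain ⟨h1, h2, h3⟩ := ch_bounds h
  have hR : 1 ≤ R := (one_le_ch w w').trans h
  refine ⟨?_, ?_, ?_⟩
  · have : ‖w'.z‖ ≤ ‖w.z‖ + ‖w'.z - w.z‖ := by
      have := norm_add_le w.z (w'.z - w.z)
      simpa using this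
    rw [bb]
    linarith
  · rw [aa, div_le_iff₀ (by linarith)]
    linarith
  · rw [bb]
    linarith [norm_nonneg w.z]

theorem continuous_ch_right (w : H3) : Continuous (fun w' => ch w w') :=
  continuous_ch.comp (Continuous.prodMk_right w)

section integrable

variable {E : Type*} [NormedAddCommGroup E] {R : ℝ}

theorem integrable_of_ch {G : H3 → E} (hG : Continuous G) (w : H3)
    (hS : ∀ w', R ≤ ch w w' → G w' = 0) : Integrable G := by
  have h1 : 1 < max R 2 := lt_max_of_lt_right one_lt_two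
  refine integrable_of_continuous hG (aa_pos h1 w) (b := bb (max R 2) w) fun w' hw' => ?_
  refine mem_of_ch (le_of_not_ge fun h => hw' (hS w' ((le_max_left _ _).trans h)))

theorem integrable_ker {κ : ℝ → ℂ} (hκ : Continuous κ) (hR : ∀ t, R ≤ t → κ t = 0)
    {F : H3 → ℂ} (hF : Continuous F) (w : H3) : Integrable fun w' => κ (ch w w') * F w' :=
  integrable_of_ch ((hκ.comp (continuous_ch_right w)).mul hF) w fun w' h => by
    rw [hR _ h, zero_mul]

end integrable

/-- **Green's identity for radial kernels.** -/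
theorem green_ch {κ : ℝ → ℂ} (hκ : ContDiff ℝ 2 κ) {R : ℝ} (hR : ∀ t, R ≤ t → κ t = 0)
    {F : H3 → ℂ} (hF : CC 2 F) (w : H3) :
    Integrable (fun w' => κ (ch w w') * Lap F w') ∧
      Integrable (fun w' => Lop κ (ch w w') * F w') ∧
      ∫ w', κ (ch w w') * Lap F w' = ∫ w', Lop κ (ch w w') * F w' := by
  have h1 : 1 < max R 2 := lt_max_of_lt_right one_lt_two
  have hL : Lap (fun w' => κ (ch w w')) = fun w' => Lop κ (ch w w') := by
    funext w'
    have h := Lap_ch hκ w' w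
    simp only [ch_comm _ w] at h
    exact h
  have key := green hF (CC_ch hκ w) (aa_pos h1 w) (b := bb (max R 2) w) fun w' hw' =>
    mem_of_ch (le_of_not_ge fun h => hw' (hR _ ((le_max_left _ _).trans h)))
  rw [hL] at key
  exact key

/-! ### The radial equation with a cut-off -/

theorem exists_eta_global {κ : ℝ → ℝ} {R : ℝ} (hκ : ContDiff ℝ 1 κ) (hR1 : 1 < R)
    (hR : ∀ t, R ≤ t → κ t = 0) (h0 : hatJ κ R = 0) :
    ∃ η : ℝ → ℂ, ContDiff ℝ 2 η ∧ (∀ t, 1 ≤ t → Lop η t + η t = (κ t : ℂ)) ∧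
      ∀ t, R ≤ t → η t = 0 := by
  obtain ⟨η, η1, η2, h1, h2, h3, h4, h5⟩ := exists_eta hκ hR1 hR h0
  let χ : ℝ → ℝ := fun t => Real.smoothTransition (2 * t)
  have hχ : ContDiff ℝ 2 χ := Real.smoothTransition.contDiff.comp (contDiff_const.mul contDiff_id)
  have hχ0 : ∀ t, t ≤ 0 → χ t = 0 := fun t ht =>
    Real.smoothTransition.zero_of_nonpos (by linarith)
  have hχ1 : ∀ t, 1 / 2 ≤ t → χ t = 1 := fun t ht =>
    Real.smoothTransition.one_of_one_le (by linarith)
  have hη1 : ContDiffOn ℝ 1 η1 (Ioi (-1)) := by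
    have : ContDiffOn ℝ (0 + 1) η1 (Ioi (-1)) := by
      rw [contDiffOn_succ_iff_deriv_of_isOpen isOpen_Ioi]
      refine ⟨fun t ht => (h2 t ht).differentiableAt.differentiableWithinAt, by simp, ?_⟩
      refine (contDiffOn_zero.mpr h3).congr fun t ht => (h2 t ht).deriv
    simpa using this
  have hη : ContDiffOn ℝ 2 η (Ioi (-1)) := by
    have : ContDiffOn ℝ (1 + 1) η (Ioi (-1)) := by
      rw [contDiffOn_succ_iff_deriv_of_isOpen isOpen_Ioi]
      refine ⟨fun t ht => (h1 t ht).differentiableAt.differentiableWithinAt, by simp, ?_⟩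
      exact hη1.congr fun t ht => (h1 t ht).deriv
    rwa [one_add_one_eq_two] at this
  have hc : ContDiff ℝ 2 (fun t => χ t * η t) := by
    rw [contDiff_iff_contDiffAt]
    intro t
    by_cases ht : -1 < t
    · exact hχ.contDiffAt.mul (hη.contDiffAt (isOpen_Ioi.mem_nhds ht))
    · have : (fun t => χ t * η t) =ᶠ[𝓝 t] fun _ => 0 := by
        filter_upwards [isOpen_Iio.mem_nhds (show t ∈ Iio (0 : ℝ) by simp; linarith)] with s hs
        rw [hχ0 s (le_of_lt hs), zero_mul]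
      exact contDiffAt_const.congr_of_eventuallyEq this
  refine ⟨fun t => ((χ t * η t : ℝ) : ℂ), Complex.ofRealCLM.contDiff.comp hc, ?_, ?_⟩
  · have d1 : ∀ t : ℝ, 1 / 2 < t → HasDerivAt (fun t => ((χ t * η t : ℝ) : ℂ)) (η1 t : ℂ) t := by
      intro t ht
      have : (fun t => χ t * η t) =ᶠ[𝓝 t] η := by
        filter_upwards [isOpen_Ioi.mem_nhds (show t ∈ Ioi (1 / 2 : ℝ) from ht)] with s hs
        rw [hχ1 s (le_of_lt hs), one_mul]
      exact ((h1 t (by linarith)).congr_of_eventuallyEq this).ofReal_comp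
    intro t ht
    have e1 : deriv (fun t => ((χ t * η t : ℝ) : ℂ)) t = (η1 t : ℂ) := (d1 t (by linarith)).deriv
    have e2 : deriv (deriv (fun t => ((χ t * η t : ℝ) : ℂ))) t = (η2 t : ℂ) := by
      have : deriv (fun t => ((χ t * η t : ℝ) : ℂ)) =ᶠ[𝓝 t] fun t => (η1 t : ℂ) := by
        filter_upwards [isOpen_Ioi.mem_nhds (show t ∈ Ioi (1 / 2 : ℝ) by simp; linarith)] with s hs
        exact (d1 s hs).deriv
      rw [this.deriv_eq]
      exact (h2 t (by linarith)).ofReal_comp.deriv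
    rw [Lop, e1, e2]
    simp only []
    rw [hχ1 t (by linarith), one_mul, ← h4 t (by linarith)]
    push_cast
    ring
  · intro t ht
    simp only [h5 t ht, mul_zero, Complex.ofReal_zero]

/-- Kernels with `hatJ κ = 0` annihilate eigenfunctions. -/
theorem annihilate {κ : ℝ → ℝ} {R : ℝ} (hκ : ContDiff ℝ 1 κ) (hR1 : 1 < R)
    (hR : ∀ t, R ≤ t → κ t = 0) (h0 : hatJ κ R = 0) {F : H3 → ℂ} (hF : CC 2 F)
    (hL : ∀ w, Lap F w = -F w) (w : H3) : ∫ w', (κ (ch w w') : ℂ) * F w' = 0 := by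
  obtain ⟨η, h1, h2, h3⟩ := exists_eta_global hκ hR1 hR h0
  obtain ⟨i1, i2, hg⟩ := green_ch h1 h3 hF w
  have e : (fun w' => (κ (ch w w') : ℂ) * F w') =
      fun w' => Lop η (ch w w') * F w' - η (ch w w') * Lap F w' := by
    funext w'
    rw [← h2 _ (one_le_ch w w'), hL]
    ring
  rw [e, integral_sub i2 i1, hg, sub_self]

/-! ### Linearity of `hatJ` -/

section hatJ

variable {κ κ' : ℝ → ℝ} {R : ℝ}

theorem K1_lin (hκ : Continuous κ) (hκ' : Continuous κ') (a b t : ℝ) :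
    K1 (fun t => a * κ t + b * κ' t) R t = a * K1 κ R t + b * K1 κ' R t := by
  rw [K1, K1, K1, intervalIntegral.integral_add, intervalIntegral.integral_const_mul,
    intervalIntegral.integral_const_mul]
  · exact (continuous_const.mul hκ).intervalIntegrable _ _
  · exact (continuous_const.mul hκ').intervalIntegrable _ _

theorem continuous_K1 (hκ : Continuous κ) : Continuous (K1 κ R) := by
  rw [continuous_iff_continuousAt]
  exact fun t => (hasDerivAt_K1 hκ t).continuousAt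

theorem continuous_integrand (hκ : Continuous κ) :
    Continuous (fun v : ℝ => K1 κ R (1 + v ^ 2) / √(2 + v ^ 2)) := by
  refine ((continuous_K1 hκ).comp (by fun_prop)).div (by fun_prop) fun v => ?_
  exact (Real.sqrt_pos.mpr (by positivity)).ne'

theorem hatJ_lin (hκ : Continuous κ) (hκ' : Continuous κ') (a b : ℝ) :
    hatJ (fun t => a * κ t + b * κ' t) R = a * hatJ κ R + b * hatJ κ' R := by
  rw [hatJ, hatJ, hatJ, ← intervalIntegral.integral_const_mul,
    ← intervalIntegral.integral_const_mul, ← intervalIntegral.integral_add]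
  · refine intervalIntegral.integral_congr fun v _ => ?_
    simp only [K1_lin hκ hκ']
    ring
  · exact (continuous_const.mul (continuous_integrand hκ)).intervalIntegrable _ _
  · exact (continuous_const.mul (continuous_integrand hκ')).intervalIntegrable _ _

theorem hatJ_pos (hκ : Continuous κ) (hR1 : 1 < R) (h0 : ∀ t, 0 ≤ κ t) (h1 : 0 < κ 1) :
    0 < hatJ κ R := by
  have hK : ∀ t, t ≤ R → 0 ≤ K1 κ R t := fun t ht =>
    intervalIntegral.integral_nonneg ht fun s _ => h0 s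
  have hs : 0 < √(R - 1) := Real.sqrt_pos.mpr (by linarith)
  refine intervalIntegral.integral_pos hs (continuous_integrand hκ).continuousOn ?_ ?_
  · intro v hv
    refine div_nonneg (hK _ ?_) (Real.sqrt_nonneg _)
    have h2 : v ^ 2 ≤ √(R - 1) ^ 2 := pow_le_pow_left₀ hv.1.le hv.2 2
    rw [Real.sq_sqrt (by linarith)] at h2
    linarith
  · refine ⟨0, ⟨le_rfl, hs.le⟩, div_pos ?_ (Real.sqrt_pos.mpr (by norm_num))⟩
    simp only [ne_eq, OfNat.ofNat_ne_zero, not_false_eq_true, zero_pow, add_zero]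
    exact intervalIntegral.integral_pos hR1 hκ.continuousOn (fun s _ => h0 s)
      ⟨1, ⟨le_rfl, hR1.le⟩, h1⟩

end hatJ

/-- Proportionality. -/
theorem proportional {κ κ' : ℝ → ℝ} {R : ℝ} (hκ : ContDiff ℝ 1 κ) (hκ' : ContDiff ℝ 1 κ')
    (hR1 : 1 < R) (hR : ∀ t, R ≤ t → κ t = 0) (hR' : ∀ t, R ≤ t → κ' t = 0) {F : H3 → ℂ}
    (hF : CC 2 F) (hL : ∀ w, Lap F w = -F w) (w : H3) :
    (hatJ κ' R : ℂ) * ∫ w', (κ (ch w w') : ℂ) * F w' =
      hatJ κ R * ∫ w', (κ' (ch w w') : ℂ) * F w' := by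
  have hc : ContDiff ℝ 1 (fun t => hatJ κ' R * κ t + (-hatJ κ R) * κ' t) :=
    (contDiff_const.mul hκ).add (contDiff_const.mul hκ')
  have h := annihilate hc hR1 (fun t ht => by rw [hR t ht, hR' t ht]; ring)
    (by rw [hatJ_lin hκ.continuous hκ'.continuous]; ring) hF hL w
  have hFc := continuous_of_CC hF
  have i1 : Integrable fun w' => (κ (ch w w') : ℂ) * F w' :=
    integrable_ker (κ := fun t => (κ t : ℂ)) (R := R)
      (Complex.continuous_ofReal.comp hκ.continuous)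
      (fun t ht => by rw [hR t ht, Complex.ofReal_zero]) hFc w
  have i2 : Integrable fun w' => (κ' (ch w w') : ℂ) * F w' :=
    integrable_ker (κ := fun t => (κ' t : ℂ)) (R := R)
      (Complex.continuous_ofReal.comp hκ'.continuous)
      (fun t ht => by rw [hR' t ht, Complex.ofReal_zero]) hFc w
  have e : (fun w' => ((hatJ κ' R * κ (ch w w') + (-hatJ κ R) * κ' (ch w w') : ℝ) : ℂ) * F w') =
      fun w' => (hatJ κ' R : ℂ) * ((κ (ch w w') : ℂ) * F w') -
        (hatJ κ R : ℂ) * ((κ' (ch w w') : ℂ) * F w') := by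
    funext w'
    push_cast
    ring
  rw [e, integral_sub (i1.const_mul _) (i2.const_mul _), integral_const_mul,
    integral_const_mul, sub_eq_zero] at h
  exact h

/-! ### The function `y` -/

/-- the function `y` -/
def Y (w : H3) : ℂ := (w.y : ℂ)

theorem CC_Y {n : ℕ∞} : CC n Y := by
  have h : ContDiffOn ℝ n (fun p : ℂ × ℝ => (p.2 : ℂ)) U :=
    (Complex.ofRealCLM.contDiff.comp contDiff_snd).contDiffOn
  refine h.congr fun p hp => ?_
  show ((pt p.1 p.2).y : ℂ) = _
  rw [pt_y hp]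

theorem Lap_Y (w : H3) : Lap Y w = -Y w := by
  have h1 : dz1 Y w = 0 := by
    have : (fun t : ℝ => Y (pt (w.z + t) w.y)) = fun _ => (w.y : ℂ) := by
      funext t
      rw [Y, pt_y w.pos]
    rw [dz1, this]
    simp
  have h2 : dz2 Y w = 0 := by
    have : (fun t : ℝ => Y (pt (w.z + t * Complex.I) w.y)) = fun _ => (w.y : ℂ) := by
      funext t
      rw [Y, pt_y w.pos]
    rw [dz2, this]
    simp
  have hd : ∀ s : ℝ, 0 < s → HasDerivAt (fun t : ℝ => Y (pt w.z t)) 1 s := by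
    intro s hs
    have h : HasDerivAt (fun t : ℝ => (t : ℂ)) 1 s := by
      simpa using (hasDerivAt_id s).ofReal_comp
    refine h.congr_of_eventuallyEq ?_
    filter_upwards [lt_mem_nhds hs] with t ht
    rw [Y, pt_y ht]
  have h3 : dy Y w = 1 := (hd w.y w.pos).deriv
  have h4 : dyy Y w = 0 := by
    have : (deriv fun t : ℝ => Y (pt w.z t)) =ᶠ[𝓝 w.y] fun _ => 1 := by
      filter_upwards [lt_mem_nhds w.pos] with t ht using (hd t ht).deriv
    rw [dyy, this.deriv_eq]
    simp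
  rw [Lap, h1, h2, h3, h4, Y]
  ring

/-! ### Small balls -/

theorem exists_ball {f : H3 → ℂ} (hf : Continuous f) (w : H3) {θ : ℝ} (hθ : 0 < θ) :
    ∃ ε, 0 < ε ∧ ε ≤ 1 ∧ ∀ w', ch w w' < 1 + ε → ‖f w' - f w‖ < θ := by
  by_contra hc
  push Not at hc
  choose v hv1 hv2 using fun n : ℕ => hc (1 / (n + 1)) (by positivity)
    (by rw [div_le_one (by positivity)]; linarith [n.cast_nonneg (α := ℝ)])
  have hK := isCompact_H3 (aa_pos (R := 2) one_lt_two w) (bb 2 w)
  have hmem : ∀ n, v n ∈ {w' : H3 | ‖w'.z‖ ≤ bb 2 w ∧ aa 2 w ≤ w'.y ∧ w'.y ≤ bb 2 w} := by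
    intro n
    refine mem_of_ch ((hv1 n).le.trans ?_)
    have : (1 : ℝ) / (n + 1) ≤ 1 := by
      rw [div_le_one (by positivity)]; linarith [n.cast_nonneg (α := ℝ)]
    linarith
  obtain ⟨u, -, φ, hφ, hlim⟩ := hK.tendsto_subseq hmem
  have h1 : ch w u = 1 := by
    have hl : Tendsto (fun n => ch w (v (φ n))) atTop (𝓝 (ch w u)) :=
      ((continuous_ch_right w).tendsto u).comp hlim
    have hr : Tendsto (fun n : ℕ => 1 + 1 / ((φ n : ℝ) + 1)) atTop (𝓝 (1 + 0)) :=
      tendsto_const_nhds.add (tendsto_one_div_add_atTop_nhds_zero_nat.comp hφ.tendsto_atTop)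
    rw [add_zero] at hr
    refine le_antisymm (le_of_tendsto_of_tendsto' hl hr fun n => (hv1 _).le) (one_le_ch w u)
  rw [ch_eq_one_iff] at h1
  have h2 : Tendsto (fun n => ‖f (v (φ n)) - f w‖) atTop (𝓝 ‖f u - f w‖) :=
    ((((hf.sub continuous_const).norm).tendsto u)).comp hlim
  have h3 : θ ≤ ‖f u - f w‖ := ge_of_tendsto' h2 fun n => hv2 _
  rw [← h1, sub_self, norm_zero] at h3
  linarith

/-- The statement for `C¹` real kernels. -/
theorem forward_C1 {κ : ℝ → ℝ} {R : ℝ} (hκ : ContDiff ℝ 1 κ) (hR1 : 2 ≤ R)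
    (hR : ∀ t, R ≤ t → κ t = 0) {F : H3 → ℂ} (hF : CC 2 F) (hL : ∀ w, Lap F w = -F w) (w : H3) :
    (∫ w', (κ (ch w w') : ℂ) * F w') * w.y = (∫ w', (κ (ch w w') : ℂ) * Y w') * F w := by
  have hR1' : 1 < R := by linarith
  -- delta sequence
  let δ : ℝ → ℝ → ℝ := fun ε t => expNegInvGlue (1 + ε - t)
  have hδc : ∀ ε, ContDiff ℝ 1 (δ ε) := fun ε =>
    expNegInvGlue.contDiff.comp (contDiff_const.sub contDiff_id)
  have hδ0 : ∀ ε t, 1 + ε ≤ t → δ ε t = 0 := fun ε t ht =>
    expNegInvGlue.zero_of_nonpos (by linarith)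
  have hδn : ∀ ε t, 0 ≤ δ ε t := fun ε t => expNegInvGlue.nonneg _
  have hδp : ∀ ε, 0 < ε → 0 < hatJ (δ ε) R := fun ε hε =>
    hatJ_pos (hδc ε).continuous hR1' (hδn ε) (expNegInvGlue.pos_of_pos (by linarith))
  have hδR : ∀ ε, ε ≤ 1 → ∀ t, R ≤ t → δ ε t = 0 := fun ε hε t ht => hδ0 ε t (by linarith)
  have hFc := continuous_of_CC hF
  have hYc : Continuous Y := continuous_of_CC (n := 0) CC_Y
  have hint : ∀ ε, ∀ G : H3 → ℂ, Continuous G →
      Integrable fun w' => (δ ε (ch w w') : ℂ) * G w' := fun ε G hG =>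
    integrable_ker (κ := fun t => (δ ε t : ℂ)) (R := 1 + ε)
      (Complex.continuous_ofReal.comp (hδc ε).continuous)
      (fun t ht => by rw [hδ0 ε t ht, Complex.ofReal_zero]) hG w
  set X : ℂ := (∫ w', (κ (ch w w') : ℂ) * F w') * w.y - (∫ w', (κ (ch w w') : ℂ) * Y w') * F w
    with hX
  suffices hX0 : X = 0 by
    rw [hX, sub_eq_zero] at hX0
    exact hX0
  have main : ∀ θ : ℝ, 0 < θ → ‖X‖ * hatJ (δ 1) R ≤
      |hatJ κ R| * θ * ‖∫ w', (δ 1 (ch w w') : ℂ) * Y w'‖ := by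
    intro θ hθ
    -- the quotient `F w' * w.y / w'.y`
    have hq : Continuous (fun w' : H3 => F w' * w.y / (w'.y : ℂ)) :=
      (hFc.mul continuous_const).div (Complex.continuous_ofReal.comp continuous_y)
        fun w' => w'.y_ne
    obtain ⟨ε, hε0, hε1, hε⟩ := exists_ball hq w hθ
    have hqw : F w * w.y / (w.y : ℂ) = F w := by
      have := w.y_ne
      field_simp
    rw [hqw] at hε
    set A := ∫ w', (δ ε (ch w w') : ℂ) * F w' with hA
    set B := ∫ w', (δ ε (ch w w') : ℂ) * Y w' with hB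
    have hBr : B = ((∫ w', δ ε (ch w w') * w'.y : ℝ) : ℂ) := by
      rw [hB, ← integral_complex_ofReal]
      refine integral_congr_ae (Filter.Eventually.of_forall fun w' => ?_)
      simp [Y]
    have hBn : ‖B‖ = ∫ w', δ ε (ch w w') * w'.y := by
      rw [hBr, Complex.norm_real, Real.norm_of_nonneg]
      exact integral_nonneg fun w' => mul_nonneg (hδn _ _) w'.pos.le
    have hbound : ‖A * w.y - B * F w‖ ≤ θ * ‖B‖ := by
      have e : A * w.y - B * F w = ∫ w', (δ ε (ch w w') : ℂ) * (F w' * w.y - Y w' * F w) := by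
        rw [hA, hB, ← integral_mul_const, ← integral_mul_const, ← integral_sub]
        · refine integral_congr_ae (Filter.Eventually.of_forall fun w' => ?_)
          simp only
          ring
        · exact (hint ε F hFc).mul_const _
        · exact (hint ε Y hYc).mul_const _
      rw [e, hBn, ← integral_const_mul]
      refine norm_integral_le_of_norm_le ?_ (Filter.Eventually.of_forall fun w' => ?_)
      · have hi : Integrable fun w' => δ ε (ch w w') * w'.y :=
          integrable_of_ch (R := 1 + ε) (((hδc ε).continuous.comp (continuous_ch_right w)).mul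
            continuous_y) w fun w' h => by rw [hδ0 ε _ h, zero_mul]
        exact hi.const_mul θ
      · rw [norm_mul, Complex.norm_real, Real.norm_of_nonneg (hδn _ _)]
        by_cases h : ch w w' < 1 + ε
        · have h1 := hε w' h
          have h2 : F w' * w.y - Y w' * F w = (w'.y : ℂ) * (F w' * w.y / w'.y - F w) := by
            have := w'.y_ne
            rw [Y]
            field_simp
          rw [h2, norm_mul, Complex.norm_real, Real.norm_of_nonneg w'.pos.le]
          have h3 := mul_le_mul_of_nonneg_left h1.le (mul_nonneg (hδn ε (ch w w')) w'.pos.le)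
          calc _ = δ ε (ch w w') * w'.y * ‖F w' * w.y / w'.y - F w‖ := by ring
            _ ≤ _ := h3
            _ = _ := by ring
        · rw [hδ0 ε _ (not_lt.mp h)]
          simp
    have p1 := proportional hκ (hδc ε) hR1' hR (hδR ε hε1) hF hL w
    have p2 := proportional hκ (hδc ε) hR1' hR (hδR ε hε1) CC_Y Lap_Y w
    have p3 := proportional (hδc 1) (hδc ε) hR1' (hδR 1 le_rfl) (hδR ε hε1) CC_Y Lap_Y w
    rw [← hA] at p1
    rw [← hB] at p2 p3
    have e1 : (hatJ (δ ε) R : ℂ) * X = hatJ κ R * (A * w.y - B * F w) := by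
      rw [hX]
      linear_combination (w.y : ℂ) * p1 - F w * p2
    have n1 : hatJ (δ ε) R * ‖X‖ = |hatJ κ R| * ‖A * w.y - B * F w‖ := by
      have := congrArg norm e1
      rwa [norm_mul, norm_mul, Complex.norm_real, Complex.norm_real,
        Real.norm_of_nonneg (hδp ε hε0).le, Real.norm_eq_abs] at this
    have n3 : hatJ (δ ε) R * ‖∫ w', (δ 1 (ch w w') : ℂ) * Y w'‖ = hatJ (δ 1) R * ‖B‖ := by
      have := congrArg norm p3
      rwa [norm_mul, norm_mul, Complex.norm_real, Complex.norm_real,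
        Real.norm_of_nonneg (hδp ε hε0).le, Real.norm_of_nonneg (hδp 1 one_pos).le] at this
    have hpos := hδp ε hε0
    have hpos1 := hδp 1 one_pos
    refine le_of_mul_le_mul_left ?_ hpos
    calc hatJ (δ ε) R * (‖X‖ * hatJ (δ 1) R) = (hatJ (δ ε) R * ‖X‖) * hatJ (δ 1) R := by ring
      _ = |hatJ κ R| * ‖A * w.y - B * F w‖ * hatJ (δ 1) R := by rw [n1]
      _ ≤ |hatJ κ R| * (θ * ‖B‖) * hatJ (δ 1) R := by gcongr
      _ = |hatJ κ R| * θ * (hatJ (δ 1) R * ‖B‖) := by ring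
      _ = |hatJ κ R| * θ * (hatJ (δ ε) R * ‖∫ w', (δ 1 (ch w w') : ℂ) * Y w'‖) := by rw [n3]
      _ = _ := by ring
  have hlim : Tendsto (fun θ : ℝ => |hatJ κ R| * θ * ‖∫ w', (δ 1 (ch w w') : ℂ) * Y w'‖)
      (𝓝[>] 0) (𝓝 0) := by
    have : Tendsto (fun θ : ℝ => |hatJ κ R| * θ * ‖∫ w', (δ 1 (ch w w') : ℂ) * Y w'‖)
        (𝓝 0) (𝓝 (|hatJ κ R| * 0 * ‖∫ w', (δ 1 (ch w w') : ℂ) * Y w'‖)) := by
      apply Continuous.tendsto
      fun_prop
    rw [mul_zero, zero_mul] at this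
    exact this.mono_left nhdsWithin_le_nhds
  have h0 : ‖X‖ * hatJ (δ 1) R ≤ 0 :=
    ge_of_tendsto hlim (eventually_mem_nhdsWithin.mono fun θ hθ => main θ hθ)
  have h1 : ‖X‖ ≤ 0 := by
    by_contra h
    have := mul_pos (not_le.mp h) (hδp 1 one_pos)
    linarith
  exact norm_le_zero_iff.mp h1

end Fermat.Agent.H75Y
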