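import Fermat.Agent.H23TH
import Fermat.Agent.H75Y3
import Fermat.Agent.H34T5

/-!
# The theta lift satisfies the weight one Laplace equation (helper23, S47 T3)
-/

set_option autoImplicit false

noncomputable section

open Complex MeasureTheory Set
open scoped ComplexConjugate Real ENNReal

namespace Fermat.Agent.H23T

open Fermat.Agent.S47T Fermat.Agent.H8T Fermat.Agent.H47.Red Fermat.Agent.H75Y
open Fermat.Agent.H74.C3 (Lap Lop)

/-! ### Green's identity for the terms -/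

theorem Lop_bk (t : ℝ) : Lop (fun s => ((bk s : ℝ) : ℂ)) t + (bk t : ℂ) = (L1 bk t : ℂ) := by
  have h := H34T.Lop_ofReal (κ := (bk : ℝ → ℝ)) bk.contDiff t
  rw [h]
  rfl

/-- the term of the theta kernel, as a function of `w` -/
def trm (n : ℕ) (x : S47T.Lat) (τ : ℂ) (w : H3) : ℂ := H98T.th (qn n x) (mn n x w) τ

/-- `(Δ + 1)` of the term -/
def ptrm (n : ℕ) (x : S47T.Lat) (τ : ℂ) (w : H3) : ℂ := H98T.pT (qn n x) (mn n x w) τ

theorem qn_eq (n : ℕ) (x : S47T.Lat) :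
    qn n x = 1 / (n : ℝ) ^ 2 * hQ x.1 ((x.2.1 : ℂ) / sq3) x.2.2 := by
  rw [qn, qL]; ring

theorem mn_eq' (n : ℕ) (x : S47T.Lat) (w : H3) :
    mn n x w = 1 / (n : ℝ) ^ 2 * hQ x.1 ((x.2.1 : ℂ) / sq3) x.2.2 +
      2 * (1 / (n : ℝ) ^ 2 * pair x.1 ((x.2.1 : ℂ) / sq3) x.2.2 w ^ 2) := by
  rw [mn, qL, pL]; ring

theorem Lap_trm (n : ℕ) (x : S47T.Lat) (τ : ℂ) (w : H3) :
    Lap (trm n x τ) w + trm n x τ w = ptrm n x τ w := by
  have h1 : trm n x τ = fun w => H98T.th (1 / (n : ℝ) ^ 2 * hQ x.1 ((x.2.1 : ℂ) / sq3) x.2.2)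
      (1 / (n : ℝ) ^ 2 * hQ x.1 ((x.2.1 : ℂ) / sq3) x.2.2 +
        2 * (1 / (n : ℝ) ^ 2 * pair x.1 ((x.2.1 : ℂ) / sq3) x.2.2 w ^ 2)) τ := by
    funext w
    rw [trm, qn_eq, mn_eq']
  rw [h1, ptrm, qn_eq, mn_eq']
  exact Lap_th _ _ _ _ _ _

theorem CC_trm (n : ℕ) (x : S47T.Lat) (τ : ℂ) : CC 2 (trm n x τ) := by
  have h1 : trm n x τ = fun w => H98T.th (1 / (n : ℝ) ^ 2 * hQ x.1 ((x.2.1 : ℂ) / sq3) x.2.2)
      (1 / (n : ℝ) ^ 2 * hQ x.1 ((x.2.1 : ℂ) / sq3) x.2.2 +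
        2 * (1 / (n : ℝ) ^ 2 * pair x.1 ((x.2.1 : ℂ) / sq3) x.2.2 w ^ 2)) τ := by
    funext w
    rw [trm, qn_eq, mn_eq']
  rw [h1]
  exact contDiffOn_th _ _ _ _ _

theorem continuous_trm (n : ℕ) (x : S47T.Lat) (τ : ℂ) : Continuous (trm n x τ) :=
  continuous_adm H98T.adm_th n x τ

theorem continuous_ptrm (n : ℕ) (x : S47T.Lat) (τ : ℂ) : Continuous (ptrm n x τ) :=
  continuous_adm adm_pT n x τ

theorem green_term (n : ℕ) (x : S47T.Lat) (τ : ℂ) (w : H3) :
    ∫ w', (bk (H3.ch w w') : ℂ) * ptrm n x τ w' = ∫ w', (L1 bk (H3.ch w w') : ℂ) * trm n x τ w' := by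
  have hκ : ContDiff ℝ 2 (fun s => ((bk s : ℝ) : ℂ)) :=
    ofRealCLM.contDiff.comp bk.contDiff
  have hR : ∀ t, (4 : ℝ) ≤ t → ((bk t : ℝ) : ℂ) = 0 := fun t ht => by
    rw [bk_zero_of_ge ht, ofReal_zero]
  obtain ⟨i1, i2, h⟩ := green_ch hκ hR (CC_trm n x τ) w
  have i3 := integrable_ker (κ := fun s => ((bk s : ℝ) : ℂ)) hκ.continuous hR
    (continuous_trm n x τ) w
  calc ∫ w', (bk (H3.ch w w') : ℂ) * ptrm n x τ w'
      = ∫ w', ((bk (H3.ch w w') : ℂ) * Lap (trm n x τ) w' + (bk (H3.ch w w') : ℂ) * trm n x τ w') := by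
        congr 1
        funext w'
        rw [← Lap_trm]
        ring
    _ = (∫ w', Lop (fun s => ((bk s : ℝ) : ℂ)) (H3.ch w w') * trm n x τ w') +
        ∫ w', (bk (H3.ch w w') : ℂ) * trm n x τ w' := by
        rw [integral_add i1 i3, h]
    _ = _ := by
        rw [← integral_add i2 i3]
        congr 1
        funext w'
        rw [← Lop_bk]
        ring

/-! ### Invariance of the two sums -/

section Inv

variable {n : ℕ} {φ : S47T.Lat → ℂ} {Cφ : ℝ}

theorem dat_point (hn : 0 < n) (hφ : ∀ x, ‖φ x‖ ≤ Cφ) (w : H3) :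
    H98T.Dat (Measure.count : Measure S47T.Lat) φ (qn n) (fun x => mn n x w) where
  measA := (measurable_of_countable φ).aestronglyMeasurable
  measq := (measurable_of_countable _).aestronglyMeasurable
  measm := (measurable_of_countable _).aestronglyMeasurable
  le x := abs_qn_le n x w
  int ε hε := by
    rw [integrable_count_iff]
    have hn' : (0 : ℝ) < n := by exact_mod_cast hn
    have hs := summable_QW 0 (ε := ε / (n : ℝ) ^ 2) (by positivity) w
    simp only [pow_zero, one_mul] at hs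
    refine Summable.of_nonneg_of_le (fun x => norm_nonneg _) (fun x => ?_) (hs.mul_left Cφ)
    rw [norm_mul, norm_norm, Real.norm_of_nonneg (Real.exp_pos _).le]
    refine mul_le_mul (hφ x) (le_of_eq ?_) (Real.exp_pos _).le ((norm_nonneg _).trans (hφ x))
    rw [mn_eq]
    congr 2
    ring

theorem gT_point (w : H3) (τ : ℂ) :
    H98T.gT (Measure.count : Measure S47T.Lat) φ (qn n) (fun x => mn n x w) τ = Theta n φ τ w := by
  rw [H98T.gT, integral_count_eq, Theta_eq]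

theorem lin_inj {a b a' b' : ℂ} (h : a • ContinuousLinearMap.id ℝ ℂ + b • H98T.imC =
    a' • ContinuousLinearMap.id ℝ ℂ + b' • H98T.imC) : a = a' ∧ b = b' := by
  have h1 := congrArg (fun L : ℂ →L[ℝ] ℂ => L 1) h
  have h2 := congrArg (fun L : ℂ →L[ℝ] ℂ => L I) h
  simp at h1 h2
  refine ⟨h1, ?_⟩
  rw [h1] at h2
  exact add_left_cancel h2

theorem sumU_ptrm_inv (hn : 0 < n) (hφ : ∀ x, ‖φ x‖ ≤ Cφ) {w w' : H3}
    (h : ∀ τ : ℂ, 0 < τ.im → Theta n φ τ w' = Theta n φ τ w) {τ : ℂ} (hτ : 0 < τ.im) :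
    sumU (fun x w => φ x * ptrm n x τ w) w' = sumU (fun x w => φ x * ptrm n x τ w) w := by
  have D := dat_point hn hφ w
  have D' := dat_point hn hφ w'
  have hopen : ∀ τ : ℂ, 0 < τ.im → ∀ᶠ z in nhds τ, 0 < z.im := fun τ hτ =>
    H98T.isOpen_HH.mem_nhds hτ
  have hxi : ∀ τ : ℂ, 0 < τ.im →
      H98T.xiT (Measure.count : Measure S47T.Lat) φ (qn n) (fun x => mn n x w') τ =
      H98T.xiT (Measure.count : Measure S47T.Lat) φ (qn n) (fun x => mn n x w) τ := by
    intro τ hτ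
    have e1 := H98T.hasFDerivAt_gT' D hτ
    have e2 := H98T.hasFDerivAt_gT' D' hτ
    have e3 := e2.congr_of_eventuallyEq (f₁ := H98T.gT (Measure.count : Measure S47T.Lat) φ (qn n)
      (fun x => mn n x w)) (by
        filter_upwards [hopen τ hτ] with z hz
        rw [gT_point, gT_point, h z hz])
    obtain ⟨-, h2⟩ := lin_inj (e1.unique e3)
    have hv : (τ.im : ℂ) ≠ 0 := by exact_mod_cast hτ.ne'
    have hI := Complex.I_ne_zero
    field_simp at h2
    exact h2.symm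
  have e1 := H98T.hasFDerivAt_xiT D hτ
  have e2 := H98T.hasFDerivAt_xiT D' hτ
  have e3 := e2.congr_of_eventuallyEq (f₁ := H98T.xiT (Measure.count : Measure S47T.Lat) φ (qn n)
    (fun x => mn n x w)) (by
      filter_upwards [hopen τ hτ] with z hz
      rw [hxi z hz])
  obtain ⟨h1, h2⟩ := lin_inj (e1.unique e3)
  have f1 := H98T.int_aX D hτ
  have f2 := H98T.int_aX D' hτ
  rw [h1, h2, f2] at f1
  have hv : (τ.im : ℂ) ≠ 0 := by exact_mod_cast hτ.ne'
  have f3 : ∀ w, ∫ y, φ y * H98T.pT (qn n y) (mn n y w) τ ∂(Measure.count : Measure S47T.Lat) =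
      sumU (fun x w => φ x * ptrm n x τ w) w := fun w => by
    rw [integral_count_eq]
    rfl
  rw [f3, f3] at f1
  have hc : (1 / (16 * (τ.im : ℂ))) ≠ 0 := by
    simp [hv]
  exact mul_left_cancel₀ hc f1

end Inv

/-! ### The main theorem -/

/-- the measure `χ vol` -/
def nuC (χ : H3 → ℝ) : Measure H3 := volume.withDensity fun w => ENNReal.ofReal (χ w)

instance (χ : H3 → ℝ) : SFinite (nuC χ) := by
  unfold nuC
  infer_instance

/-- the measure on `Lat × H3` -/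
def MC (χ : H3 → ℝ) : Measure (S47T.Lat × H3) := (Measure.count : Measure S47T.Lat).prod (nuC χ)

/-- the amplitude -/
def AF (φ : S47T.Lat → ℂ) (F : H3 → ℂ) (y : S47T.Lat × H3) : ℂ := φ y.1 * F y.2

/-- the hypotheses of the main theorem: `F` a bounded automorphic eigenfunction which decays
exponentially, `Θ` invariant under `Γ` -/
structure TData (Γ : Subgroup (GL (Fin 2) ℂ)) (χ : H3 → ℝ) (F : H3 → ℂ) (n : ℕ)
    (φ : S47T.Lat → ℂ) : Prop where
  fin : FinIdx Eis Γ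
  cut : IsCut Γ χ
  cont : Continuous F
  inv : ∀ g ∈ Γ, ∀ w, F (g • w) = F w
  eig : ∀ κ : ℝ → ℝ, ContDiff ℝ ((⊤ : ℕ∞) : WithTop ℕ∞) κ → HasCompactSupport κ →
    ∀ w, ∫ w', (κ (H3.ch w w') : ℂ) * F w' = kap0 κ * F w
  decay : ∃ C c : ℝ, 0 < C ∧ 0 < c ∧ ∀ w, ‖F w‖ ≤ C * Real.exp (-(c * ht Eis w))
  npos : 0 < n
  bdd : ∃ C, ∀ x, ‖φ x‖ ≤ C
  theta : ∀ g ∈ Γ, ∀ τ : ℂ, 0 < τ.im → ∀ w, Theta n φ τ (g • w) = Theta n φ τ w

theorem lintegral_nuC {χ : H3 → ℝ} (hm : Measurable χ) {f : H3 → ℝ≥0∞} (hf : Measurable f) :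
    ∫⁻ w, f w ∂(nuC χ) = ∫⁻ w, ENNReal.ofReal (χ w) * f w := by
  rw [nuC, lintegral_withDensity_eq_lintegral_mul _ hm.ennreal_ofReal hf]
  rfl

theorem integral_nuC {χ : H3 → ℝ} (hm : Measurable χ) (h0 : ∀ w, 0 ≤ χ w) (f : H3 → ℂ) :
    ∫ w, f w ∂(nuC χ) = ∫ w, (χ w : ℂ) * f w := by
  have h := integral_withDensity_eq_integral_toReal_smul (μ := (volume : Measure H3))
    hm.ennreal_ofReal (Filter.Eventually.of_forall fun w => ENNReal.ofReal_lt_top) f
  rw [nuC, h]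
  refine integral_congr_ae (Filter.Eventually.of_forall fun w => ?_)
  simp only
  rw [ENNReal.toReal_ofReal (h0 w), Complex.real_smul]

section Main

variable {Γ : Subgroup (GL (Fin 2) ℂ)} {χ : H3 → ℝ} {F : H3 → ℂ} {n : ℕ} {φ : S47T.Lat → ℂ}

theorem TData.nu_lt_top (h : TData Γ χ F n φ) : nuC χ univ < ∞ := by
  have h1 := IsCut.lintegral_lt_top h.cut h.fin (a := 0) (by norm_num)
  rw [nuC, withDensity_apply _ MeasurableSet.univ, Measure.restrict_univ]
  simpa using h1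

/-- the data of the theta integral in the sense of helper98 -/
theorem TData.dat (h : TData Γ χ F n φ) :
    H98T.Dat (MC χ) (AF φ F) (fun y => qn n y.1) (fun y => mn n y.1 y.2) where
  measA := (((measurable_of_countable φ).comp measurable_fst).mul
    (h.cont.measurable.comp measurable_snd)).aestronglyMeasurable
  measq := ((measurable_of_countable (qn n)).comp measurable_fst).aestronglyMeasurable
  measm := (measurable_from_prod_countable_right fun x =>
    (continuous_mn n x).measurable).aestronglyMeasurable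
  le y := abs_qn_le n y.1 y.2
  int ε hε := by
    obtain ⟨C, c, hC, hc, hF⟩ := h.decay
    obtain ⟨Cφ, hφ⟩ := h.bdd
    have hCφ : 0 ≤ Cφ := (norm_nonneg _).trans (hφ 0)
    have hn' : (0 : ℝ) < n := by exact_mod_cast h.npos
    obtain ⟨C₁, hC₁, h₁⟩ := maj_ht eucOrder_Eis 0 (ε := ε / (n : ℝ) ^ 2) (by positivity)
    have hm : Measurable (fun y : S47T.Lat × H3 => ‖AF φ F y‖ * Real.exp (-(ε * mn n y.1 y.2))) :=
      (((measurable_of_countable φ).comp measurable_fst).mul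
        (h.cont.measurable.comp measurable_snd)).norm.mul
        ((measurable_const.mul (measurable_from_prod_countable_right fun x =>
          (continuous_mn n x).measurable)).neg.exp)
    refine ⟨hm.aestronglyMeasurable, ?_⟩
    rw [HasFiniteIntegral, MC, lintegral_prod_symm' _ hm.enorm]
    have key : ∀ w : H3, ∑' x : S47T.Lat, ENNReal.ofReal (Cφ * Real.exp (-(ε * mn n x w))) ≤
        ENNReal.ofReal (Cφ * C₁ * ht Eis w ^ 8) := by
      intro w
      have hs := summable_QW 0 (ε := ε / (n : ℝ) ^ 2) (by positivity) w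
      have h2 := h₁ w
      simp only [pow_zero, one_mul] at hs h2
      have e : ∀ x, Cφ * Real.exp (-(ε * mn n x w)) =
          Cφ * Real.exp (-(ε / (n : ℝ) ^ 2 * QW x w)) := fun x => by
        rw [mn_eq]
        congr 3
        ring
      simp_rw [e]
      rw [← ENNReal.ofReal_tsum_of_nonneg (fun x => by positivity) (hs.mul_left _), tsum_mul_left]
      refine ENNReal.ofReal_le_ofReal ?_
      rw [mul_assoc]
      exact mul_le_mul_of_nonneg_left h2 hCφ
    refine lt_of_le_of_lt (lintegral_mono fun w => ?_)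
      (dom0 hc hC.le hF h.nu_lt_top (by positivity : 0 ≤ Cφ * C₁) key)
    rw [lintegral_count, ← ENNReal.tsum_mul_left]
    refine ENNReal.tsum_le_tsum fun x => ?_
    rw [AF, enorm_mul, enorm_norm, enorm_mul, mul_comm ‖φ x‖ₑ, mul_assoc]
    refine mul_le_mul_right ?_ _
    rw [ENNReal.ofReal_mul hCφ, ← ofReal_norm, ← ofReal_norm,
      Real.norm_of_nonneg (Real.exp_pos _).le]
    exact mul_le_mul_left (ENNReal.ofReal_le_ofReal (hφ x)) _

/-- the domination for `star_abs₂` -/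
theorem TData.dom (h : TData Γ χ F n φ) {Φ : ℝ → ℝ → ℂ → ℂ} (hΦ : H98T.Adm Φ) {κ : ℝ → ℂ}
    (hm : Continuous κ) (hs : HasCompactSupport κ) {τ : ℂ} (hτ : 0 < τ.im) :
    ∫⁻ x, ‖F x‖ₑ * (∫⁻ y, ‖κ (H3.ch x y)‖ₑ *
      ∑' i, ‖φ i * Φ (qn n i) (mn n i y) τ‖ₑ) ∂(nuC χ) < ∞ := by
  obtain ⟨C, c, hC, hc, hF⟩ := h.decay
  obtain ⟨Cφ, hφ⟩ := h.bdd
  obtain ⟨K, hK, h1⟩ := maj_adm hΦ h.npos hφ hτ
  obtain ⟨M, hM⟩ := hm.bounded_above_of_compact_support hs
  obtain ⟨R, hR⟩ : ∃ R : ℝ, ∀ t, R < t → κ t = 0 := by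
    obtain ⟨R, hR⟩ := hs.isCompact.bddAbove
    refine ⟨R, fun t ht => ?_⟩
    by_contra h0
    exact absurd (hR (subset_tsupport _ h0)) (not_le.mpr ht)
  obtain ⟨K', hK', h2⟩ := dom1 hm.measurable (le_max_right R 1) hM
    (fun t ht => hR t ((le_max_left _ _).trans_lt ht)) hK h1
  exact dom0 hc hC.le hF h.nu_lt_top hK' h2

theorem TData.dom' (h : TData Γ χ F n φ) {Φ : ℝ → ℝ → ℂ → ℂ} (hΦ : H98T.Adm Φ)
    {τ : ℂ} (hτ : 0 < τ.im) :
    ∫⁻ x, ‖F x‖ₑ * ∑' i, ‖φ i * Φ (qn n i) (mn n i x) τ‖ₑ ∂(nuC χ) < ∞ := by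
  obtain ⟨C, c, hC, hc, hF⟩ := h.decay
  obtain ⟨Cφ, hφ⟩ := h.bdd
  obtain ⟨K, hK, h1⟩ := maj_adm hΦ h.npos hφ hτ
  exact dom0 hc hC.le hF h.nu_lt_top hK h1

/-- the integral of an admissible family as an iterated integral -/
theorem TData.integral_eq (h : TData Γ χ F n φ) {Φ : ℝ → ℝ → ℂ → ℂ} (hΦ : H98T.Adm Φ)
    {τ : ℂ} (hτ : 0 < τ.im) :
    ∫ y, AF φ F y * Φ (qn n y.1) (mn n y.1 y.2) τ ∂(MC χ) =
      ∫ w, F w * sumU (fun x w => φ x * Φ (qn n x) (mn n x w) τ) w ∂(nuC χ) := by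
  have h1 := (integral_prod_eq (μ := nuC χ) (F := F) h.cont.measurable
    (u := fun x w => φ x * Φ (qn n x) (mn n x w) τ)
    (fun x => (continuous_const.mul (continuous_adm hΦ n x τ)).measurable) (h.dom' hΦ hτ)).2
  rw [← h1, MC]
  congr 1
  funext y
  rw [AF]
  ring

/-- the lift is the theta integral -/
theorem TData.lift_eq (h : TData Γ χ F n φ) {τ : ℂ} (hτ : 0 < τ.im) :
    lift χ F n φ τ = H98T.gT (MC χ) (AF φ F) (fun y => qn n y.1) (fun y => mn n y.1 y.2) τ := by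
  rw [H98T.gT, h.integral_eq H98T.adm_th hτ, integral_nuC h.cut.meas h.cut.nonneg]
  unfold S47T.lift qint
  refine integral_congr_ae (Filter.Eventually.of_forall fun w => ?_)
  simp only
  rw [Theta_eq]
  rfl

/-- **(star)** -/
theorem TData.star (h : TData Γ χ F n φ) {τ : ℂ} (hτ : 0 < τ.im) :
    ∫ y, AF φ F y * H98T.pT (qn n y.1) (mn n y.1 y.2) τ ∂(MC χ) = 0 := by
  rw [h.integral_eq adm_pT hτ]
  have : Countable Γ := eucOrder_Eis.countable_of_le h.fin.1
  obtain ⟨Cφ, hφ⟩ := h.bdd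
  have hcont : ∀ {κ : ℝ → ℝ}, Continuous κ →
      Measurable (Function.uncurry fun x y : H3 => ((κ (H3.ch x y) : ℝ) : ℂ)) := fun hκ =>
    (Complex.continuous_ofReal.comp (hκ.comp H3.continuous_ch)).measurable
  have hL1c : Continuous (L1 bk) := (contDiff_L1 contDiff_bk).continuous
  refine star_abs₂ (Γ := Γ) (μ := (volume : Measure H3))
    (χ := fun w => ENNReal.ofReal (χ w)) (F := F)
    (k := fun x y => ((bk (H3.ch x y) : ℝ) : ℂ)) (k' := fun x y => ((L1 bk (H3.ch x y) : ℝ) : ℂ))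
    (c := (kap0 bk : ℝ)) (u := fun x w => φ x * ptrm n x τ w) (u' := fun x w => φ x * trm n x τ w)
    (fun g => H3.measurePreserving_smul (g : GL (Fin 2) ℂ)) h.cut.meas.ennreal_ofReal ?_
    h.cont.measurable (fun g x => h.inv g g.2 x) (hcont bk.continuous) (hcont hL1c) ?_ ?_ ?_ ?_ ?_
    (fun x => (continuous_const.mul (continuous_ptrm n x τ)).measurable)
    (fun x => (continuous_const.mul (continuous_trm n x τ)).measurable) ?_ ?_ ?_ ?_ ?_
  · intro w
    have h1 := (h.cut.sum w)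
    show ∑' g : Γ, ENNReal.ofReal (χ ((g : GL (Fin 2) ℂ) • w)) = 1
    rw [← ENNReal.ofReal_tsum_of_nonneg (fun g => h.cut.nonneg _) h1.summable]
    · simpa using congrArg ENNReal.ofReal h1.tsum_eq
  · intro g x y
    rw [show H3.ch (g • x) (g • y) = H3.ch x y from H3.ch_smul (g : GL (Fin 2) ℂ) x y]
  · intro g x y
    rw [show H3.ch (g • x) (g • y) = H3.ch x y from H3.ch_smul (g : GL (Fin 2) ℂ) x y]
  · exact_mod_cast kap0_bk_pos.ne'
  · intro y
    rw [← h.eig bk contDiff_bk hasCompactSupport_bk y]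
    simp_rw [H3.ch_comm y]
  · intro y
    have h1 := h.eig (L1 bk) (contDiff_L1 contDiff_bk) (hasCompactSupport_L1 hasCompactSupport_bk) y
    rw [kap0_L1 contDiff_bk hasCompactSupport_bk, ofReal_zero, zero_mul] at h1
    rw [← h1]
    simp_rw [H3.ch_comm y]
  · intro g w
    exact sumU_ptrm_inv h.npos hφ (fun τ' hτ' => h.theta g g.2 τ' hτ' w) hτ
  · intro g w
    have h1 := h.theta g g.2 τ hτ w
    rw [Theta_eq, Theta_eq] at h1
    exact h1
  · intro x w
    have h1 := green_term n x τ w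
    calc ∫ y, ((bk (H3.ch w y) : ℝ) : ℂ) * (φ x * ptrm n x τ y)
        = φ x * ∫ y, ((bk (H3.ch w y) : ℝ) : ℂ) * ptrm n x τ y := by
          rw [← integral_const_mul]
          congr 1; funext y; ring
      _ = _ := by
          rw [h1, ← integral_const_mul]
          congr 1; funext y; ring
  · exact h.dom adm_pT (Complex.continuous_ofReal.comp bk.continuous)
      (hasCompactSupport_bk.comp_left (g := fun t : ℝ => (t : ℂ)) ofReal_zero) hτ
  · exact h.dom H98T.adm_th (Complex.continuous_ofReal.comp hL1c)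
      ((hasCompactSupport_L1 hasCompactSupport_bk).comp_left (g := fun t : ℝ => (t : ℂ))
        ofReal_zero) hτ

/-- `v ∂/∂τ̄` of the lift -/
def xiL (χ : H3 → ℝ) (F : H3 → ℂ) (n : ℕ) (φ : S47T.Lat → ℂ) (τ : ℂ) : ℂ :=
  H98T.xiT (MC χ) (AF φ F) (fun y => qn n y.1) (fun y => mn n y.1 y.2) τ

/-- the real derivative of the lift: the input `hg` of helper93's `thol` -/
theorem TData.hasFDerivAt_lift (h : TData Γ χ F n φ) {τ : ℂ} (hτ : 0 < τ.im) :
    ∃ a : ℂ, HasFDerivAt (lift χ F n φ) (a • ContinuousLinearMap.id ℝ ℂ +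
      (2 / I * (xiL χ F n φ τ / τ.im)) • ofRealCLM.comp imCLM) τ := by
  refine ⟨_, (H98T.hasFDerivAt_gT' h.dat hτ).congr_of_eventuallyEq ?_⟩
  filter_upwards [H98T.isOpen_HH.mem_nhds hτ] with z hz
  exact h.lift_eq hz

/-- the conjugate of `v ∂/∂τ̄` of the lift is holomorphic: the input `hxi` of `thol` -/
theorem TData.differentiableOn_conj_xiL (h : TData Γ χ F n φ) :
    DifferentiableOn ℂ (fun τ => conj (xiL χ F n φ τ)) {τ | 0 < τ.im} :=
  H98T.differentiableOn_conj_xiT h.dat fun _ hτ => h.star hτ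

theorem TData.continuousOn_lift (h : TData Γ χ F n φ) :
    ContinuousOn (lift χ F n φ) {τ | 0 < τ.im} :=
  (H98T.continuousOn_gT h.dat).congr fun _ hτ => h.lift_eq hτ

end Main

end Fermat.Agent.H23T
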