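import Fermat.Agent.H96TDef

/-!
# The discriminant group of the theta kernels (helper98, S47 block (T), T1-U)

* `nE`, `tE` : norm and trace form on `ℤ[ω]` as integers, `qI = 3 q`, `bI = 3 B` on `Lat`;
* `lam n : Lat →+ Lat`, the embedding of the lattice `n L₁` in `n⁻¹ L₁^#`, `DD n = Lat / lam n`;
* `bD n : DD n →+ DD n →+ ZMod (3 n²)` the non degenerate pairing, `qD` the quadratic form;
* `Amat`, `Bmat` and their unitarity.
-/

set_option autoImplicit false

noncomputable section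

open scoped ComplexConjugate Real

namespace Fermat.Agent.H98U

open Fermat.Agent Fermat.Agent.S47T

local notation "LL" => Fermat.Agent.S47T.Lat

/-! ### Integer coordinates -/

def cr (β : Eis) : ℤ := (eisEquiv.symm β).1
def ci (β : Eis) : ℤ := (eisEquiv.symm β).2

theorem coe_eis (β : Eis) : (β : ℂ) = cr β + ci β * om := by
  have h := congrArg (fun x : Eis => (x : ℂ)) (eisEquiv.apply_symm_apply β)
  exact h.symm

theorem eis_coord_unique {β : Eis} {a b : ℤ} (h : (β : ℂ) = a + b * om) : cr β = a ∧ ci β = b := by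
  rw [coe_eis] at h
  have h1 := om_indep (a := cr β - a) (b := ci β - b) (by push_cast; linear_combination h)
  exact ⟨sub_eq_zero.mp h1.1, sub_eq_zero.mp h1.2⟩

theorem coord_add (β γ : Eis) : cr (β + γ) = cr β + cr γ ∧ ci (β + γ) = ci β + ci γ :=
  eis_coord_unique (by
    rw [Subring.coe_add, coe_eis β, coe_eis γ]
    push_cast
    ring)

theorem cr_add (β γ : Eis) : cr (β + γ) = cr β + cr γ := (coord_add β γ).1
theorem ci_add (β γ : Eis) : ci (β + γ) = ci β + ci γ := (coord_add β γ).2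

theorem coord_zero : cr 0 = 0 ∧ ci 0 = 0 := eis_coord_unique (by simp)
theorem coord_one : cr 1 = 1 ∧ ci 1 = 0 := eis_coord_unique (by simp)
theorem coord_om : cr omE = 0 ∧ ci omE = 1 := eis_coord_unique (by simp)

theorem eis_ext {β γ : Eis} (h1 : cr β = cr γ) (h2 : ci β = ci γ) : β = γ := by
  apply Subtype.ext
  rw [coe_eis β, coe_eis γ, h1, h2]

/-- multiplication by `m √-3` -/
theorem coord_sq3 (m : ℤ) (β : Eis) : cr ((m : Eis) * (sq3E * β)) = m * (cr β - 2 * ci β) ∧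
    ci ((m : Eis) * (sq3E * β)) = m * (2 * cr β - ci β) :=
  eis_coord_unique (by
    rw [Subring.coe_mul, Subring.coe_mul, coe_sq3E, coe_eis β, sq3_eq, Subring.coe_intCast]
    push_cast
    linear_combination (2 * m * ci β : ℂ) * om_rel)

def nE (β : Eis) : ℤ := cr β ^ 2 - cr β * ci β + ci β ^ 2
def tE (β γ : Eis) : ℤ :=
  2 * cr β * cr γ - cr β * ci γ - ci β * cr γ + 2 * ci β * ci γ

theorem normSq_coe (β : Eis) : Complex.normSq (β : ℂ) = nE β := by
  rw [coe_eis, normSq_eis, nE]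

theorem nE_add (β γ : Eis) : nE (β + γ) = nE β + nE γ + tE β γ := by
  rw [nE, nE, nE, tE, cr_add, ci_add]
  ring

theorem two_re_mul_conj (β γ : Eis) : 2 * ((β : ℂ) * conj (γ : ℂ)).re = tE β γ := by
  have h := Complex.normSq_add (β : ℂ) (γ : ℂ)
  rw [← Subring.coe_add, normSq_coe, normSq_coe, normSq_coe, nE_add] at h
  push_cast at h
  linarith

/-! ### The quadratic form -/

def qI (x : LL) : ℤ := nE x.2.1 - 3 * (x.1 * x.2.2)
def bI (x y : LL) : ℤ := tE x.2.1 y.2.1 - 3 * (x.1 * y.2.2 + y.1 * x.2.2)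

theorem qL_eq (x : LL) : qL x = qI x / 3 := by
  rw [qL, hQ, Complex.normSq_div, normSq_coe, qI]
  have h : Complex.normSq sq3 = 3 := by
    have h1 := congrArg (fun z : ℂ => ‖z‖) sq3_mul_sq3
    simp only [norm_mul, norm_neg] at h1
    rw [Complex.normSq_eq_norm_sq, sq, h1]
    simp
  rw [h]
  push_cast
  ring

theorem qI_add (x y : LL) : qI (x + y) = qI x + qI y + bI x y := by
  rw [qI, qI, qI, bI, Prod.fst_add, Prod.snd_add, Prod.fst_add, Prod.snd_add, nE_add]
  ring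

theorem bI_add_right (x y z : LL) : bI x (y + z) = bI x y + bI x z := by
  simp only [bI, tE, Prod.fst_add, Prod.snd_add, cr_add, ci_add]
  ring

theorem bI_comm (x y : LL) : bI x y = bI y x := by
  simp only [bI, tE]
  ring

theorem bI_add_left (x y z : LL) : bI (x + y) z = bI x z + bI y z := by
  rw [bI_comm, bI_add_right, bI_comm z x, bI_comm z y]

/-! ### The lattice `n L₁` -/

/-- the embedding of `n L₁` -/
def lam (n : ℕ) : LL →+ LL where
  toFun y := ((n : ℤ) ^ 2 * y.1, (((n : ℤ) ^ 2 : ℤ) : Eis) * (sq3E * y.2.1), (n : ℤ) ^ 2 * y.2.2)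
  map_zero' := by simp
  map_add' x y := by
    refine Prod.ext ?_ (Prod.ext ?_ ?_)
    · simp [mul_add]
    · simp [mul_add]
    · simp [mul_add]

theorem lam_apply (n : ℕ) (y : LL) : lam n y =
    ((n : ℤ) ^ 2 * y.1, (((n : ℤ) ^ 2 : ℤ) : Eis) * (sq3E * y.2.1), (n : ℤ) ^ 2 * y.2.2) := rfl

theorem bI_lam (n : ℕ) (x y : LL) : (3 * (n : ℤ) ^ 2) ∣ bI x (lam n y) := by
  refine ⟨ci x.2.1 * cr y.2.1 - cr x.2.1 * ci y.2.1 - (x.1 * y.2.2 + y.1 * x.2.2), ?_⟩
  rw [lam_apply]
  simp only [bI, tE, (coord_sq3 ((n : ℤ) ^ 2) y.2.1).1, (coord_sq3 ((n : ℤ) ^ 2) y.2.1).2]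
  ring

theorem qI_lam (n : ℕ) (y : LL) : (3 * (n : ℤ) ^ 2) ∣ qI (lam n y) := by
  refine ⟨(n : ℤ) ^ 2 * (nE y.2.1 - y.1 * y.2.2), ?_⟩
  rw [lam_apply]
  simp only [qI, nE, (coord_sq3 ((n : ℤ) ^ 2) y.2.1).1, (coord_sq3 ((n : ℤ) ^ 2) y.2.1).2]
  ring

/-- non degeneracy -/
theorem mem_range_lam {n : ℕ} {x : LL} (h : ∀ y, (3 * (n : ℤ) ^ 2) ∣ bI x y) :
    x ∈ (lam n).range := by
  obtain ⟨a, ha⟩ := h (0, 0, 1)
  obtain ⟨d, hd⟩ := h (1, 0, 0)
  obtain ⟨u, hu⟩ := h (0, 1, 0)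
  obtain ⟨v, hv⟩ := h (0, omE, 0)
  simp only [bI, tE, coord_zero.1, coord_zero.2, coord_one.1, coord_one.2, coord_om.1,
    coord_om.2] at ha hd hu hv
  refine ⟨(-a, eisEquiv (v, -u), -d), ?_⟩
  have hc : cr (eisEquiv (v, -u)) = v ∧ ci (eisEquiv (v, -u)) = -u :=
    eis_coord_unique (by rw [coe_eisEquiv])
  rw [lam_apply]
  refine Prod.ext ?_ (Prod.ext ?_ ?_)
  · show (n : ℤ) ^ 2 * -a = x.1
    linarith
  · show (((n : ℤ) ^ 2 : ℤ) : Eis) * (sq3E * eisEquiv (v, -u)) = x.2.1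
    apply eis_ext
    · rw [(coord_sq3 _ _).1, hc.1, hc.2]
      linarith
    · rw [(coord_sq3 _ _).2, hc.1, hc.2]
      linarith
  · show (n : ℤ) ^ 2 * -d = x.2.2
    linarith

/-- the discriminant group -/
abbrev DD (n : ℕ) : Type := LL ⧸ (lam n).range

theorem intCast_eq_zero_iff' (n : ℕ) (k : ℤ) :
    ((k : ℤ) : ZMod (3 * n ^ 2)) = 0 ↔ (3 * (n : ℤ) ^ 2) ∣ k := by
  rw [ZMod.intCast_zmod_eq_zero_iff_dvd]
  push_cast
  rfl

/-- the pairing on `LL` with values in `ZMod (3 n²)` -/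
def bZ (n : ℕ) (x : LL) : LL →+ ZMod (3 * n ^ 2) :=
  AddMonoidHom.mk' (fun y => ((bI x y : ℤ) : ZMod (3 * n ^ 2))) fun y z => by
    rw [bI_add_right, Int.cast_add]

/-- the pairing `LL × DD n → ZMod (3 n²)` -/
def bD1 (n : ℕ) (x : LL) : DD n →+ ZMod (3 * n ^ 2) :=
  QuotientAddGroup.lift (lam n).range (bZ n x) (by
    rintro _ ⟨y, rfl⟩
    exact (intCast_eq_zero_iff' n _).mpr (bI_lam n x y))

theorem bD1_mk (n : ℕ) (x y : LL) :
    bD1 n x (y : DD n) = ((bI x y : ℤ) : ZMod (3 * n ^ 2)) := rfl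

/-- the pairing on `DD n` -/
def bD (n : ℕ) : DD n →+ DD n →+ ZMod (3 * n ^ 2) :=
  QuotientAddGroup.lift (lam n).range (AddMonoidHom.mk' (bD1 n) fun x y => by
    ext z
    show ((bI (x + y) z : ℤ) : ZMod (3 * n ^ 2)) = (bI x z : ℤ) + (bI y z : ℤ)
    rw [bI_add_left, Int.cast_add]) (by
    rintro _ ⟨y, rfl⟩
    ext z
    show ((bI (lam n y) z : ℤ) : ZMod (3 * n ^ 2)) = 0
    rw [bI_comm, intCast_eq_zero_iff']
    exact bI_lam n z y)

theorem bD_mk (n : ℕ) (x y : LL) :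
    bD n (x : DD n) (y : DD n) = ((bI x y : ℤ) : ZMod (3 * n ^ 2)) := rfl

theorem bD_comm (n : ℕ) (h k : DD n) : bD n h k = bD n k h := by
  induction h using QuotientAddGroup.induction_on with
  | H x =>
    induction k using QuotientAddGroup.induction_on with
    | H y => rw [bD_mk, bD_mk, bI_comm]

theorem bD_eq_zero {n : ℕ} {h : DD n} (hh : ∀ k, bD n h k = 0) : h = 0 := by
  induction h using QuotientAddGroup.induction_on with
  | H x =>
    rw [QuotientAddGroup.eq_zero_iff]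
    apply mem_range_lam
    intro y
    rw [← intCast_eq_zero_iff', ← bD_mk]
    exact hh _

instance (n : ℕ) [NeZero n] : NeZero (3 * n ^ 2) :=
  ⟨mul_ne_zero (by norm_num) (pow_ne_zero 2 (NeZero.ne n))⟩

instance (n : ℕ) [NeZero n] : Finite (DD n) := by
  let f : DD n → Fin 4 → ZMod (3 * n ^ 2) := fun h =>
    ![bD n h ((0, 0, 1) : LL), bD n h ((1, 0, 0) : LL), bD n h ((0, 1, 0) : LL),
      bD n h ((0, omE, 0) : LL)]
  refine Finite.of_injective f fun h k hk => ?_
  rw [← sub_eq_zero]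
  apply bD_eq_zero
  have h0 := congrFun hk 0
  have h1 := congrFun hk 1
  have h2 := congrFun hk 2
  have h3 := congrFun hk 3
  simp only [f, Matrix.cons_val_zero, Matrix.cons_val_one, Matrix.cons_val] at h0 h1 h2 h3
  intro z
  induction z using QuotientAddGroup.induction_on with
  | H y =>
    have hy : y = y.1 • ((1, 0, 0) : LL) + (cr y.2.1 • ((0, 1, 0) : LL) +
        (ci y.2.1 • ((0, omE, 0) : LL) + y.2.2 • ((0, 0, 1) : LL))) := by
      refine Prod.ext ?_ (Prod.ext ?_ ?_)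
      · simp
      · apply Subtype.ext
        show ((y.2.1 : Eis) : ℂ) = ((y.1 • (0 : Eis) + (cr y.2.1 • (1 : Eis) +
          (ci y.2.1 • omE + y.2.2 • (0 : Eis))) : Eis) : ℂ)
        rw [smul_zero, smul_zero, zero_add, add_zero, zsmul_eq_mul, zsmul_eq_mul, mul_one,
          Subring.coe_add, Subring.coe_mul, Subring.coe_intCast, Subring.coe_intCast, coe_omE]
        exact coe_eis y.2.1
      · simp
    have hy' : ((y : LL) : DD n) = y.1 • (((1, 0, 0) : LL) : DD n) +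
        (cr y.2.1 • (((0, 1, 0) : LL) : DD n) +
        (ci y.2.1 • (((0, omE, 0) : LL) : DD n) + y.2.2 • (((0, 0, 1) : LL) : DD n))) := by
      conv_lhs => rw [hy]
      simp only [QuotientAddGroup.mk_add, QuotientAddGroup.mk_zsmul]
    rw [hy']
    simp only [map_sub, AddMonoidHom.sub_apply, map_add, map_zsmul, h0, h1, h2, h3, sub_self,
      smul_zero, add_zero]

instance (n : ℕ) [NeZero n] : Fintype (DD n) := Fintype.ofFinite _
instance (n : ℕ) : DecidableEq (DD n) := Classical.decEq _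

/-! ### The quadratic form on `DD n` -/

/-- the quadratic form on `DD n`, with values in `ZMod (3 n²)` -/
def qD (n : ℕ) (h : DD n) : ZMod (3 * n ^ 2) :=
  Quotient.liftOn' h (fun x => ((qI x : ℤ) : ZMod (3 * n ^ 2))) fun x y hxy => by
    rw [QuotientAddGroup.leftRel_apply] at hxy
    obtain ⟨z, hz⟩ := hxy
    have hy : y = x + lam n z := by rw [hz]; abel
    rw [hy, qI_add, Int.cast_add, Int.cast_add, (intCast_eq_zero_iff' n _).mpr (qI_lam n z),
      (intCast_eq_zero_iff' n _).mpr (bI_lam n x z), add_zero, add_zero]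

theorem qD_mk (n : ℕ) (x : LL) : qD n (x : DD n) = ((qI x : ℤ) : ZMod (3 * n ^ 2)) := rfl

/-- the diagonal matrix of `T` -/
def Amat (n : ℕ) [NeZero n] : Matrix (DD n) (DD n) ℂ :=
  Matrix.diagonal fun h => ZMod.stdAddChar (qD n h)

/-- the matrix of `S`: `κ e(-B(h, k))` -/
def Bmat (n : ℕ) [NeZero n] (κ : ℂ) : Matrix (DD n) (DD n) ℂ :=
  fun h k => κ * ZMod.stdAddChar (-(bD n h k))

theorem star_stdAddChar {N : ℕ} [NeZero N] (a : ZMod N) :
    star (ZMod.stdAddChar a : ℂ) = ZMod.stdAddChar (-a) := by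
  rw [ZMod.stdAddChar_apply, ZMod.stdAddChar_apply, AddChar.map_neg_eq_inv, Circle.coe_inv_eq_conj]
  rfl

theorem stdAddChar_mul_star {N : ℕ} [NeZero N] (a : ZMod N) :
    (ZMod.stdAddChar a : ℂ) * star (ZMod.stdAddChar a : ℂ) = 1 := by
  rw [star_stdAddChar, ← AddChar.map_add_eq_mul, add_neg_cancel, AddChar.map_zero_eq_one]

theorem Amat_unitary (n : ℕ) [NeZero n] : Amat n * star (Amat n) = 1 := by
  rw [Amat, Matrix.star_eq_conjTranspose, Matrix.diagonal_conjTranspose, Matrix.diagonal_mul_diagonal,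
    ← Matrix.diagonal_one]
  congr 1
  funext h
  exact stdAddChar_mul_star _

theorem sum_stdAddChar (n : ℕ) [NeZero n] (h : DD n) :
    ∑ k : DD n, (ZMod.stdAddChar (bD n h k) : ℂ) = if h = 0 then (Fintype.card (DD n) : ℂ) else 0 := by
  classical
  have h1 := AddChar.sum_eq_ite ((ZMod.stdAddChar (N := 3 * n ^ 2)).compAddMonoidHom (bD n h))
  have h2 : ((ZMod.stdAddChar (N := 3 * n ^ 2)).compAddMonoidHom (bD n h) = 0) ↔ h = 0 := by
    constructor
    · intro h3
      apply bD_eq_zero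
      intro k
      have h4 := DFunLike.congr_fun h3 k
      rw [AddChar.compAddMonoidHom_apply, AddChar.zero_apply] at h4
      exact ZMod.injective_stdAddChar (by rw [h4, AddChar.map_zero_eq_one])
    · rintro rfl
      ext k
      rw [AddChar.compAddMonoidHom_apply, AddChar.zero_apply, map_zero, AddMonoidHom.zero_apply,
        AddChar.map_zero_eq_one]
  simp only [h2] at h1
  exact h1

theorem Bmat_mul_star (n : ℕ) [NeZero n] (κ : ℂ) :
    Bmat n κ * star (Bmat n κ) = (κ * star κ * Fintype.card (DD n)) • 1 := by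
  ext h k
  rw [Matrix.mul_apply, Matrix.smul_apply, Matrix.one_apply]
  have h1 : ∀ l, Bmat n κ h l * star (Bmat n κ) l k =
      κ * star κ * ZMod.stdAddChar (bD n (k - h) l) := by
    intro l
    rw [Matrix.star_apply, Bmat, Bmat, star_mul, star_stdAddChar, neg_neg, map_sub,
      AddMonoidHom.sub_apply, sub_eq_add_neg, AddChar.map_add_eq_mul]
    ring
  simp only [h1]
  rw [← Finset.mul_sum, sum_stdAddChar]
  by_cases hk : h = k
  · rw [if_pos hk, if_pos (by rw [hk, sub_self]), smul_eq_mul, mul_one]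
  · rw [if_neg hk, if_neg (fun h2 => hk (sub_eq_zero.mp h2).symm), smul_eq_mul, mul_zero, mul_zero]

end Fermat.Agent.H98U
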