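import Fermat.Agent.H60TIso
import Fermat.Agent.H23TI
import Fermat.Agent.H8T6
import Fermat.Agent.H34T4
import Fermat.Agent.H98U1

/-!
# Decay of the theta lift (S47, T2e, helper60)

For `TData (GamP m) χ F n φ` with `3 ≤ m` and a `GamP m`-invariant test function `φ`, the lift and
`v ∂/∂τ̄` of the lift are `O(√v exp (- c v))` for `v ≥ 1/2`: the isotropic vectors contribute zero.
-/

set_option autoImplicit false

noncomputable section

open MeasureTheory Matrix
open scoped ComplexConjugate Real ENNReal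

namespace Fermat.Agent.H60T

open S47T H23T

/-- Integrals over `Lat × H3` as sums. -/
theorem hasSum_MC {χ : H3 → ℝ} (hm : Measurable χ) (h0 : ∀ w, 0 ≤ χ w)
    {f : S47T.Lat × H3 → ℂ} (hf : Integrable f (MC χ)) :
    HasSum (fun x : S47T.Lat => ∫ w, (χ w : ℂ) * f (x, w)) (∫ p, f p ∂(MC χ)) := by
  have h1 := integral_prod f hf
  have h2 : Integrable (fun x => ∫ w, f (x, w) ∂(nuC χ)) Measure.count := hf.integral_prod_left
  have h3 : Summable (fun x => ‖∫ w, f (x, w) ∂(nuC χ)‖) := integrable_count_iff.mp h2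
  have h4 : ∫ p, f p ∂(MC χ) = ∑' x, ∫ w, (χ w : ℂ) * f (x, w) := by
    rw [MC, h1, integral_countable h2]
    refine tsum_congr fun x => ?_
    rw [measureReal_def, Measure.count_singleton, ENNReal.toReal_one, one_smul,
      integral_nuC hm h0]
  rw [h4]
  refine Summable.hasSum ?_
  have h5 := h3.of_norm
  refine h5.congr fun x => ?_
  exact integral_nuC hm h0 _

theorem hm_zero : hm (0 : S47T.Lat) = 0 := by
  ext i j
  fin_cases i <;> fin_cases j <;> simp [hm, hmat]

theorem smul_eq_zero_iff_lat {m : ℕ} (γ : GamP m) (x : S47T.Lat) : γ • x = 0 ↔ x = 0 := by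
  have h0 : ∀ δ : GamP m, δ • (0 : S47T.Lat) = 0 := by
    intro δ
    apply hm_injective
    rw [hm_smul, hm_zero, Matrix.mul_zero, Matrix.zero_mul]
  constructor
  · intro h
    have h1 : γ⁻¹ • (γ • x) = γ⁻¹ • (0 : S47T.Lat) := by rw [h]
    rwa [inv_smul_smul, h0] at h1
  · rintro rfl
    exact h0 γ

/-- The integral data with a restricted test function. -/
theorem dat_indicator {Γ : Subgroup (GL (Fin 2) ℂ)} {χ : H3 → ℝ} {F : H3 → ℂ} {n : ℕ}
    {φ : S47T.Lat → ℂ} (h : TData Γ χ F n φ) (S : Set S47T.Lat) :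
    H98T.Dat (MC χ) (AF (S.indicator φ) F) (fun y => qn n y.1) (fun y => mn n y.1 y.2) where
  measA := (((measurable_of_countable (S.indicator φ)).comp measurable_fst).mul
    (h.cont.measurable.comp measurable_snd)).aestronglyMeasurable
  measq := h.dat.measq
  measm := h.dat.measm
  le := h.dat.le
  int ε hε := by
    refine (h.dat.int ε hε).mono' ?_ (Filter.Eventually.of_forall fun y => ?_)
    · have h1 : Measurable (AF (S.indicator φ) F) :=
        ((measurable_of_countable (S.indicator φ)).comp measurable_fst).mul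
          (h.cont.measurable.comp measurable_snd)
      have h2 : Measurable (fun y : S47T.Lat × H3 => mn n y.1 y.2) :=
        measurable_from_prod_countable_right fun x => (continuous_mn n x).measurable
      exact (h1.norm.mul ((measurable_const.mul h2).neg.exp)).aestronglyMeasurable
    · rw [norm_mul, norm_norm, Real.norm_of_nonneg (Real.exp_pos _).le]
      refine mul_le_mul_of_nonneg_right ?_ (Real.exp_pos _).le
      rw [AF, AF, norm_mul, norm_mul]
      refine mul_le_mul_of_nonneg_right ?_ (norm_nonneg _)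
      exact norm_indicator_le_norm_self _ _

section Main

variable {m : ℕ} {χ : H3 → ℝ} {F : H3 → ℂ} {n : ℕ} {φ : S47T.Lat → ℂ}

/-- The vectors with `q = 0` contribute zero to every admissible theta integral. -/
theorem integral_Q_zero (hm3 : 3 ≤ m) (h : TData (GamP m) χ F n φ)
    (hφ : ∀ (g : GamP m) (x : S47T.Lat), φ (g • x) = φ x) {Φ : ℝ → ℝ → ℂ → ℂ}
    (hΦ : H98T.Adm Φ) {τ : ℂ} (hτ : 0 < τ.im) :
    ∫ y, AF (({x : S47T.Lat | qL x = 0}).indicator φ) F y *
      Φ (qn n y.1) (mn n y.1 y.2) τ ∂(MC χ) = 0 := by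
  classical
  set S₀ : Set S47T.Lat := {x | qL x = 0} with hS₀
  set S : Set S47T.Lat := {x | x ≠ 0 ∧ qL x = 0} with hS
  set φ' : S47T.Lat → ℂ := S.indicator φ with hφ'
  set ht : ℝ → ℂ := fun s => Φ 0 (2 * (s / n) ^ 2) τ with hht
  have hhm : Measurable ht :=
    ((hΦ.1 τ).comp (continuous_const.prodMk (continuous_const.mul
      ((continuous_id.div_const _).pow 2)))).measurable
  have hSmul : ∀ (γ : GamP m) (x : S47T.Lat), γ • x ∈ S ↔ x ∈ S := by
    intro γ x
    rw [hS, Set.mem_ofPred_eq, Set.mem_ofPred_eq, qL_smul, Ne, Ne, smul_eq_zero_iff_lat]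
  have hφ'i : ∀ (g : GamP m) (x : S47T.Lat), φ' (g • x) = φ' x := by
    intro g x
    by_cases hx : x ∈ S
    · rw [hφ', Set.indicator_of_mem ((hSmul g x).mpr hx), Set.indicator_of_mem hx, hφ]
    · rw [hφ', Set.indicator_of_notMem (fun h => hx ((hSmul g x).mp h)),
        Set.indicator_of_notMem hx]
  have hval : ∀ x ∈ S, ∀ w, Φ (qn n x) (mn n x w) τ = ht (pL x w) := by
    intro x hx w
    rw [hht, qn, mn, hx.2, zero_div, zero_add]
  have hFm := h.cont.measurable
  -- integrability for `φ'`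
  have hintS := (dat_indicator h S).integrable hΦ hτ
  have hM : ∑' x : S47T.Lat, ∫⁻ w, ‖(χ w : ℂ) * (φ' x * F w * ht (pL x w))‖ₑ < ∞ := by
    have h1 : ∫⁻ p, ‖AF φ' F p * Φ (qn n p.1) (mn n p.1 p.2) τ‖ₑ ∂(MC χ) < ∞ := hintS.2
    rw [MC, lintegral_prod _ hintS.1.enorm, lintegral_count] at h1
    refine lt_of_eq_of_lt (tsum_congr fun x => ?_) h1
    have hmx : Measurable (fun w => ‖AF φ' F (x, w) * Φ (qn n x) (mn n x w) τ‖ₑ) := by
      have a1 : Measurable (fun w : H3 => φ' x * F w) := measurable_const.mul hFm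
      have a2 : Measurable (fun w : H3 => Φ (qn n x) (mn n x w) τ) :=
        (continuous_adm hΦ n x τ).measurable
      exact (a1.mul a2).enorm
    rw [lintegral_nuC h.cut.meas hmx]
    refine lintegral_congr fun w => ?_
    rw [enorm_mul, ← ofReal_norm (χ w : ℂ), Complex.norm_of_nonneg (h.cut.nonneg w)]
    congr 2
    rw [AF]
    by_cases hx : x ∈ S
    · rw [hval x hx]
    · rw [hφ', Set.indicator_of_notMem hx, zero_mul, zero_mul, zero_mul]
  obtain ⟨Cb, hCb⟩ : ∃ M, ∀ w, ‖F w‖ ≤ M := by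
    obtain ⟨C, c, hC, hc, hF⟩ := h.decay
    refine ⟨C, fun w => (hF w).trans ?_⟩
    have := H47.Red.eucOrder_Eis.ht_pos w
    have h1 : Real.exp (-(c * H47.Red.ht Eis w)) ≤ 1 := by
      rw [Real.exp_le_one_iff]
      nlinarith
    nlinarith
  have hm0 : 0 < m := by omega
  have hct : ∀ g ∈ H47.Red.SLO Eis, ∀ (y : ℝ) (hy : 0 < y),
      ∫ z in ZSpan.fundamentalDomain (eisB m hm0), F (g • (⟨z, y, hy⟩ : H3)) = 0 := by
    intro g hg y hy
    exact H8T.const_of_GamP h.cont h.eig ⟨Cb, hCb⟩ hm0 h.inv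
      (by rw [H47.Red.Gam_one]; exact hg) hy
  have key := hasSum_iso hm3 h.cut hFm h.inv hct hφ'i hhm hM
  -- all terms
  have hint₀ := (dat_indicator h S₀).integrable hΦ hτ
  have h2 := hasSum_MC h.cut.meas h.cut.nonneg hint₀
  have h3 : HasSum (fun x : S47T.Lat => ∫ w, (χ w : ℂ) *
      (AF (S₀.indicator φ) F (x, w) * Φ (qn n x) (mn n x w) τ)) 0 := by
    refine hasSum_of_eq ((hasSum_subtype_iff_indicator (s := S) (f := fun x : S47T.Lat =>
      ∫ w, (χ w : ℂ) * (φ' x * F w * ht (pL x w)))).mp key) fun x => ?_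
    by_cases hx : x ∈ S
    · rw [Set.indicator_of_mem hx]
      refine integral_congr_ae (Filter.Eventually.of_forall fun w => ?_)
      simp only
      rw [AF, hval x hx, hφ', Set.indicator_of_mem hx,
        Set.indicator_of_mem (show x ∈ S₀ from hx.2)]
    · rw [Set.indicator_of_notMem hx]
      by_cases hx0 : x ∈ S₀
      · have hx1 : x = 0 := by
          by_contra hne
          exact hx ⟨hne, hx0⟩
        subst hx1
        have hp : ∀ w, mn n (0 : S47T.Lat) w = 0 := by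
          intro w
          have h4 : pL (0 : S47T.Lat) w = 0 := by
            simp [pL, pair]
          rw [mn, show qL (0 : S47T.Lat) = 0 from hx0, h4]
          simp
        have hT := H34T.qint_eq_zero_of_eig h.cut h.cont.aestronglyMeasurable h.inv h.eig
        rw [qint] at hT
        have h5 : (fun w => (χ w : ℂ) * (AF (S₀.indicator φ) F ((0 : S47T.Lat), w) *
            Φ (qn n (0 : S47T.Lat)) (mn n (0 : S47T.Lat) w) τ)) = fun w =>
            (S₀.indicator φ (0 : S47T.Lat) * Φ (qn n (0 : S47T.Lat)) 0 τ) *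
              ((χ w : ℂ) * F w) := by
          funext w
          rw [AF, hp]
          ring
        rw [h5, integral_const_mul, hT, mul_zero]
      · simp only [AF, Set.indicator_of_notMem hx0, zero_mul, mul_zero, integral_zero]
  exact h2.unique h3

theorem abs_qn_ge (hn : 0 < n) {x : S47T.Lat} (hx : qL x ≠ 0) (w : H3) :
    1 / (3 * (n : ℝ) ^ 2) ≤ mn n x w := by
  refine le_trans ?_ (abs_qn_le n x w)
  have hn' : (0 : ℝ) < n := by exact_mod_cast hn
  have h1 := H98U.qL_eq x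
  have h2 : H98U.qI x ≠ 0 := by
    intro h
    apply hx
    rw [h1, h]
    simp
  have h3 : (1 : ℝ) ≤ |(H98U.qI x : ℝ)| := by
    have : (1 : ℤ) ≤ |H98U.qI x| := Int.one_le_abs h2
    exact_mod_cast this
  rw [qn, h1, abs_div, abs_div, abs_of_pos (show (0 : ℝ) < (n : ℝ) ^ 2 by positivity),
    abs_of_pos (show (0 : ℝ) < 3 by norm_num), div_div]
  exact div_le_div_of_nonneg_right h3 (by positivity)

/-- Every admissible theta integral only sees the vectors with `q ≠ 0`. -/
theorem integral_Q_ne (hm3 : 3 ≤ m) (h : TData (GamP m) χ F n φ)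
    (hφ : ∀ (g : GamP m) (x : S47T.Lat), φ (g • x) = φ x) {Φ : ℝ → ℝ → ℂ → ℂ}
    (hΦ : H98T.Adm Φ) {τ : ℂ} (hτ : 0 < τ.im) :
    ∫ y, AF φ F y * Φ (qn n y.1) (mn n y.1 y.2) τ ∂(MC χ) =
    ∫ y, AF (({x : S47T.Lat | qL x ≠ 0}).indicator φ) F y *
      Φ (qn n y.1) (mn n y.1 y.2) τ ∂(MC χ) := by
  have h0 := integral_Q_zero hm3 h hφ hΦ hτ
  have i0 := (dat_indicator h {x : S47T.Lat | qL x = 0}).integrable hΦ hτ
  have i1 := (dat_indicator h {x : S47T.Lat | qL x ≠ 0}).integrable hΦ hτ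
  have h2 := integral_add i0 i1
  rw [h0, zero_add] at h2
  rw [← h2]
  refine integral_congr_ae (Filter.Eventually.of_forall fun y => ?_)
  simp only
  rw [← add_mul]
  congr 1
  rw [AF, AF, AF, ← add_mul]
  congr 1
  by_cases hy : qL y.1 = 0
  · rw [Set.indicator_of_mem (show y.1 ∈ {x : S47T.Lat | qL x = 0} from hy),
      Set.indicator_of_notMem (show y.1 ∉ {x : S47T.Lat | qL x ≠ 0} from fun h => h hy), add_zero]
  · rw [Set.indicator_of_notMem (show y.1 ∉ {x : S47T.Lat | qL x = 0} from hy),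
      Set.indicator_of_mem (show y.1 ∈ {x : S47T.Lat | qL x ≠ 0} from hy), zero_add]

/-- **(T2e)** Decay of the lift and of its `∂/∂τ̄`-derivative: the input `hdec` of helper93's
`thol`. -/
theorem hdec (hm3 : 3 ≤ m) (h : TData (GamP m) χ F n φ)
    (hφ : ∀ (g : GamP m) (x : S47T.Lat), φ (g • x) = φ x) :
    ∃ C : ℝ, 0 ≤ C ∧ ∀ τ : ℂ, 1 / 2 ≤ τ.im →
      ‖lift χ F n φ τ‖ ≤ C * (√τ.im *
        Real.exp (-(Real.pi / 2 * (1 / (3 * (n : ℝ) ^ 2)) * τ.im))) ∧
      ‖xiL χ F n φ τ‖ ≤ C * (√τ.im *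
        Real.exp (-(Real.pi / 2 * (1 / (3 * (n : ℝ) ^ 2)) * τ.im))) := by
  have hn' : (0 : ℝ) < n := by exact_mod_cast h.npos
  have hm0 : (0 : ℝ) ≤ 1 / (3 * (n : ℝ) ^ 2) := by positivity
  set m₀ : ℝ := 1 / (3 * (n : ℝ) ^ 2) with hm₀
  have D := dat_indicator h {x : S47T.Lat | qL x ≠ 0}
  have hA : ∀ y : S47T.Lat × H3, AF (({x : S47T.Lat | qL x ≠ 0}).indicator φ) F y ≠ 0 →
      m₀ ≤ mn n y.1 y.2 := by
    intro y hy
    refine abs_qn_ge h.npos ?_ y.2
    intro h0
    apply hy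
    rw [AF, Set.indicator_of_notMem (show y.1 ∉ {x : S47T.Lat | qL x ≠ 0} from fun h => h h0),
      zero_mul]
  set I₀ : ℝ := ∫ y, ‖AF (({x : S47T.Lat | qL x ≠ 0}).indicator φ) F y‖ *
    Real.exp (-(Real.pi * (1 / 2) * mn n y.1 y.2)) ∂(MC χ) with hI₀
  have hI : 0 ≤ I₀ := integral_nonneg fun y => mul_nonneg (norm_nonneg _) (Real.exp_pos _).le
  refine ⟨4 * I₀, by positivity, fun τ hτ => ?_⟩
  have hτ0 : 0 < τ.im := by linarith
  have hpi := Real.pi_pos
  constructor
  · rw [h.lift_eq hτ0]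
    have e := integral_Q_ne hm3 h hφ H98T.adm_th hτ0
    rw [H98T.gT, e]
    refine (H98T.norm_gT_le D (by norm_num : (0 : ℝ) < 1 / 2) hm0 hA hτ).trans ?_
    rw [← hI₀]
    have h1 : Real.exp (-(Real.pi * m₀ * τ.im)) ≤ Real.exp (-(Real.pi / 2 * m₀ * τ.im)) := by
      rw [Real.exp_le_exp]
      nlinarith [mul_nonneg (mul_nonneg hpi.le hm0) hτ0.le]
    calc √τ.im * Real.exp (-(Real.pi * m₀ * τ.im)) * I₀
        ≤ √τ.im * Real.exp (-(Real.pi / 2 * m₀ * τ.im)) * I₀ := by gcongr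
      _ ≤ √τ.im * Real.exp (-(Real.pi / 2 * m₀ * τ.im)) * (4 * I₀) := by
          refine mul_le_mul_of_nonneg_left (by linarith) (by positivity)
      _ = _ := by ring
  · rw [xiL]
    have e := integral_Q_ne hm3 h hφ H98T.adm_xt hτ0
    rw [H98T.xiT, e]
    refine (H98T.norm_xiT_le D (by norm_num : (0 : ℝ) < 1 / 2) hm0 hA hτ).trans ?_
    rw [← hI₀]
    exact le_of_eq (by ring)

end Main

end Fermat.Agent.H60T
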