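import Fermat.Agent.H23TI

/-!
# `TData` from (I-CT) (helper23, S47 T3)
-/

set_option autoImplicit false

noncomputable section

open Complex MeasureTheory Set
open scoped ComplexConjugate Real ENNReal

namespace Fermat.Agent.H23T

open Fermat.Agent.S47T Fermat.Agent.H8T Fermat.Agent.H47.Red

variable {N : ℕ} {c : Eis → ℝ} {F : H3 → ℂ}

theorem decay_of_ict (hF : ICT N c F) (hd : Decays F) :
    ∃ C c : ℝ, 0 < C ∧ 0 < c ∧ ∀ w, ‖F w‖ ≤ C * Real.exp (-(c * ht Eis w)) := by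
  obtain ⟨C, c, hC, hc, h⟩ := hd.unif hF.pos fun g hg w => hF.inv g (GamP_le_Gam N hg) w
  exact ⟨C, c, hC, hc, decay_ht eucOrder_Eis h⟩

theorem TData.of_ict (hF : ICT N c F) (hd : Decays F) {Γ : Subgroup (GL (Fin 2) ℂ)}
    (hΓ : FinIdx Eis Γ) (hΓN : Γ ≤ Gam N) {χ : H3 → ℝ} (hχ : IsCut Γ χ) {n : ℕ} (hn : 0 < n)
    {φ : S47T.Lat → ℂ} {C : ℝ} (hφ : ∀ x, ‖φ x‖ ≤ C)
    (hθ : ∀ g ∈ Γ, ∀ τ : ℂ, 0 < τ.im → ∀ w, Theta n φ τ (g • w) = Theta n φ τ w) :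
    TData Γ χ F n φ where
  fin := hΓ
  cut := hχ
  cont := hF.cont
  inv g hg w := hF.inv g (hΓN hg) w
  eig := hF.eig
  decay := decay_of_ict hF hd
  npos := hn
  bdd := ⟨C, hφ⟩
  theta := hθ

end Fermat.Agent.H23T
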