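import Fermat.Agent.H47RBase

/-!
# Siegel sets for `SL₂(O)` on hyperbolic 3-space: finiteness, volume, integrability (helper47)
-/

set_option autoImplicit false
set_option linter.unusedSectionVars false

noncomputable section

open MeasureTheory Matrix Complex
open scoped ComplexConjugate Real ENNReal

namespace Fermat.Agent.H47.Red

variable {O : Subring ℂ}

/-- Siegel sets. -/
def Sieg (R t : ℝ) : Set H3 := {w | normSq w.z ≤ R ∧ t ≤ w.y}

theorem measurableSet_Sieg (R t : ℝ) : MeasurableSet (Sieg R t) := by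
  have h1 : Measurable fun w : H3 => normSq w.z :=
    Complex.continuous_normSq.measurable.comp H3.measurable_z
  exact (measurableSet_le h1 measurable_const).inter (measurableSet_le measurable_const
    H3.measurable_y)

theorem isClosed_Sieg (R t : ℝ) : IsClosed (Sieg R t) :=
  (isClosed_le (Complex.continuous_normSq.comp H3.continuous_z) continuous_const).inter
    (isClosed_le continuous_const H3.continuous_y)

theorem measurableSet_S0 : MeasurableSet S0 := by
  have h1 : Measurable fun w : H3 => normSq w.z :=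
    Complex.continuous_normSq.measurable.comp H3.measurable_z
  exact (measurableSet_le h1 measurable_const).inter (measurableSet_le measurable_const
    (h1.add (H3.measurable_y.pow_const 2)))

theorem S0_subset : S0 ⊆ Sieg (1 / 3) (4 / 5) := by
  intro w hw
  refine ⟨hw.1, ?_⟩
  have h1 := y_sq_of_mem_S0 hw
  have h2 := w.pos
  nlinarith

theorem Sieg_mono {R R' t t' : ℝ} (hR : R ≤ R') (ht : t' ≤ t) : Sieg R t ⊆ Sieg R' t' :=
  fun _ hw => ⟨hw.1.trans hR, ht.trans hw.2⟩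

/-- `D c d w ≥ y²` for `c ≠ 0`. -/
theorem EucOrder.sq_le_D (hO : EucOrder O) {c : ℂ} (d : ℂ) (hc : c ∈ O) (hc0 : c ≠ 0) (w : H3) :
    w.y ^ 2 ≤ D c d w := by
  rw [D]
  have h1 := hO.one_le c hc hc0
  have h2 := normSq_nonneg (c * w.z + d)
  have h3 : 0 ≤ w.y ^ 2 := sq_nonneg _
  nlinarith

theorem EucOrder.one_le_D (hO : EucOrder O) {d : ℂ} (hd : d ∈ O) (hd0 : d ≠ 0) (w : H3) :
    1 ≤ D 0 d w := by
  rw [D]
  have h1 := hO.one_le d hd hd0
  simpa using h1

/-- The height is at most `max y (1/y)`. -/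
theorem EucOrder.ht_le (hO : EucOrder O) (w : H3) : ht O w ≤ max w.y (1 / w.y) := by
  obtain ⟨g, hg, h⟩ := hO.exists_ht w
  rw [← h, smul_y_of_mem hg, den_eq_D]
  have hy := w.pos
  by_cases hc : (g : Matrix (Fin 2) (Fin 2) ℂ) 1 0 = 0
  · have hd : (g : Matrix (Fin 2) (Fin 2) ℂ) 1 1 ≠ 0 := fun hd => bottom_ne_zero hg ⟨hc, hd⟩
    have h1 := hO.one_le_D (hg.1 1 1) hd w
    rw [hc]
    refine le_trans ?_ (le_max_left _ _)
    exact div_le_self hy.le h1
  · have h1 := hO.sq_le_D ((g : Matrix (Fin 2) (Fin 2) ℂ) 1 1) (hg.1 1 0) hc w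
    refine le_trans ?_ (le_max_right _ _)
    rw [div_le_div_iff₀ (lt_of_lt_of_le (by positivity) h1) hy]
    nlinarith

/-- On a Siegel set the height is comparable to `y`. -/
theorem EucOrder.ht_le_of_mem (hO : EucOrder O) {R t : ℝ} (ht0 : 0 < t) {w : H3}
    (hw : w ∈ Sieg R t) : ht O w ≤ max 1 (1 / t ^ 2) * w.y := by
  have hy := w.pos
  refine (hO.ht_le w).trans (max_le ?_ ?_)
  · nlinarith [le_max_left (1 : ℝ) (1 / t ^ 2)]
  · have h1 : 1 / w.y ≤ 1 / t ^ 2 * w.y := by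
      rw [div_mul_eq_mul_div, one_mul, div_le_div_iff₀ hy (by positivity)]
      nlinarith [hw.2]
    exact h1.trans (mul_le_mul_of_nonneg_right (le_max_right _ _) hy.le)

/-- **Siegel finiteness.** -/
theorem EucOrder.finite_Sieg (hO : EucOrder O) {R t : ℝ} (ht0 : 0 < t) :
    {g : GL (Fin 2) ℂ | g ∈ SLO O ∧ ∃ w ∈ Sieg R t, g • w ∈ Sieg R t}.Finite := by
  -- all entries of such a `g` lie in a finite set
  obtain ⟨K, hK⟩ : ∃ K : ℝ, K = 1 + (1 / t) * (1 + Real.sqrt R) + (1 / t) * (1 + Real.sqrt R)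
    + 2 * Real.sqrt R := ⟨_, rfl⟩
  have hsR := Real.sqrt_nonneg R
  have ht1 : 0 < 1 / t := by positivity
  have key : ∀ g ∈ SLO O, ∀ w ∈ Sieg R t, g • w ∈ Sieg R t →
      ‖(g : Matrix (Fin 2) (Fin 2) ℂ) 1 0‖ ≤ K ∧ ‖(g : Matrix (Fin 2) (Fin 2) ℂ) 1 1‖ ≤ K ∧
      ((g : Matrix (Fin 2) (Fin 2) ℂ) 1 0 = 0 → ‖(g : Matrix (Fin 2) (Fin 2) ℂ) 1 1‖ = 1) := by
    intro g hg w hw hgw
    have hy := w.pos
    have hz : ‖w.z‖ ≤ Real.sqrt R := by
      apply Real.le_sqrt_of_sq_le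
      rw [← normSq_eq_norm_sq]
      exact hw.1
    obtain ⟨c, hc⟩ : ∃ c, c = (g : Matrix (Fin 2) (Fin 2) ℂ) 1 0 := ⟨_, rfl⟩
    obtain ⟨d, hd⟩ : ∃ d, d = (g : Matrix (Fin 2) (Fin 2) ℂ) 1 1 := ⟨_, rfl⟩
    have hD := hgw.2
    rw [smul_y_of_mem hg, den_eq_D, ← hc, ← hd] at hD
    have hnz : ¬ (c = 0 ∧ d = 0) := by rw [hc, hd]; exact bottom_ne_zero hg
    have hDpos := D_pos hnz w
    rw [le_div_iff₀ hDpos] at hD
    rw [← hc, ← hd]
    by_cases hc0 : c = 0
    · -- `c = 0`: `d` is a unit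
      have hdet := hg.2
      rw [Matrix.det_fin_two, ← hc, ← hd, hc0, mul_zero, sub_zero] at hdet
      have hdO : d ∈ O := by rw [hd]; exact hg.1 1 1
      have haO := hg.1 0 0
      have hd0 : d ≠ 0 := fun h => hnz ⟨hc0, h⟩
      have ha0 : (g : Matrix (Fin 2) (Fin 2) ℂ) 0 0 ≠ 0 := by
        intro h
        rw [h, zero_mul] at hdet
        exact zero_ne_one hdet
      have h1 := hO.one_le _ hdO hd0
      have h2 := hO.one_le _ haO ha0
      have h3 : normSq ((g : Matrix (Fin 2) (Fin 2) ℂ) 0 0) * normSq d = 1 := by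
        rw [← normSq_mul, hdet, map_one]
      have h4 : normSq d = 1 := by nlinarith
      have h5 : ‖d‖ = 1 := by
        have : ‖d‖ ^ 2 = 1 := by rw [← normSq_eq_norm_sq, h4]
        nlinarith [norm_nonneg d]
      refine ⟨?_, ?_, fun _ => h5⟩
      · rw [hc0, norm_zero, hK]
        positivity
      · rw [h5, hK]
        nlinarith [mul_nonneg ht1.le (add_nonneg zero_le_one hsR)]
    · have hcO : c ∈ O := by rw [hc]; exact hg.1 1 0
      have h1 := hO.one_le _ hcO hc0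
      have hn0 : 0 ≤ normSq (c * w.z + d) := normSq_nonneg _
      have hn1 : 0 ≤ normSq c := normSq_nonneg _
      rw [D] at hD
      have hyt := hw.2
      -- `y ≤ 1/t`, `normSq c ≤ 1/t²`, `normSq (cz+d) ≤ 1/t²`
      have h2 : normSq c * w.y * t ≤ 1 := by
        have h3 : t * (normSq c * w.y ^ 2) ≤ w.y := by nlinarith [mul_nonneg ht0.le hn0]
        have h4 : (normSq c * w.y * t) * w.y ≤ 1 * w.y := by nlinarith
        exact le_of_mul_le_mul_right h4 hy
      have h3 : w.y * t ≤ 1 := by nlinarith [mul_nonneg hy.le ht0.le]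
      have h4 : normSq c * t ^ 2 ≤ 1 := by nlinarith [mul_nonneg hn1 ht0.le]
      have h5 : normSq (c * w.z + d) * t ^ 2 ≤ 1 := by
        have h6 : t * normSq (c * w.z + d) ≤ w.y := by
          nlinarith [mul_nonneg ht0.le (mul_nonneg hn1 (sq_nonneg w.y))]
        nlinarith
      have h6 : ‖c‖ ≤ 1 / t := by
        rw [le_div_iff₀ ht0]
        have : (‖c‖ * t) ^ 2 ≤ 1 := by rw [mul_pow, ← normSq_eq_norm_sq]; exact h4
        nlinarith [norm_nonneg c, mul_nonneg (norm_nonneg c) ht0.le]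
      have h7 : ‖c * w.z + d‖ ≤ 1 / t := by
        rw [le_div_iff₀ ht0]
        have : (‖c * w.z + d‖ * t) ^ 2 ≤ 1 := by rw [mul_pow, ← normSq_eq_norm_sq]; exact h5
        nlinarith [norm_nonneg (c * w.z + d), mul_nonneg (norm_nonneg (c * w.z + d)) ht0.le]
      have h8 : ‖d‖ ≤ 1 / t + 1 / t * Real.sqrt R := by
        calc ‖d‖ = ‖(c * w.z + d) - c * w.z‖ := by ring_nf
          _ ≤ ‖c * w.z + d‖ + ‖c * w.z‖ := norm_sub_le _ _
          _ ≤ 1 / t + 1 / t * Real.sqrt R := by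
              rw [norm_mul]
              gcongr
      refine ⟨?_, ?_, fun h => absurd h hc0⟩
      · rw [hK]
        nlinarith [mul_nonneg ht1.le hsR]
      · rw [hK]
        nlinarith [mul_nonneg ht1.le hsR]
  -- the entries
  have hfin := hO.finite_ball (K + K * K + K)
  have hfin4 := ((hfin.prod hfin).prod (hfin.prod hfin))
  refine Set.Finite.of_finite_image (f := fun g : GL (Fin 2) ℂ =>
    ((((g : Matrix (Fin 2) (Fin 2) ℂ) 0 0, (g : Matrix (Fin 2) (Fin 2) ℂ) 0 1),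
      ((g : Matrix (Fin 2) (Fin 2) ℂ) 1 0, (g : Matrix (Fin 2) (Fin 2) ℂ) 1 1)) :
        (ℂ × ℂ) × (ℂ × ℂ))) (hfin4.subset ?_) ?_
  · rintro _ ⟨g, ⟨hg, w, hw, hgw⟩, rfl⟩
    obtain ⟨h1, h2, h3⟩ := key g hg w hw hgw
    have hginv : g⁻¹ ∈ SLO O := (SLO O).inv_mem hg
    obtain ⟨h1', h2', h3'⟩ := key g⁻¹ hginv (g • w) hgw (by rw [inv_smul_smul]; exact hw)
    have hinv : ((g⁻¹ : GL (Fin 2) ℂ) : Matrix (Fin 2) (Fin 2) ℂ) =
        (g : Matrix (Fin 2) (Fin 2) ℂ).adjugate := by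
      rw [Matrix.coe_units_inv, Matrix.inv_def, hg.2, Ring.inverse_one, one_smul]
    have e11 : ((g⁻¹ : GL (Fin 2) ℂ) : Matrix (Fin 2) (Fin 2) ℂ) 1 1 =
        (g : Matrix (Fin 2) (Fin 2) ℂ) 0 0 := by
      rw [hinv, Matrix.adjugate_fin_two]; rfl
    rw [e11] at h2'
    have hK0 : 1 ≤ K := by
      rw [hK]
      nlinarith [mul_nonneg ht1.le (add_nonneg zero_le_one hsR)]
    have hKK : K ≤ K + K * K + K := by nlinarith
    have hb : ‖(g : Matrix (Fin 2) (Fin 2) ℂ) 0 1‖ ≤ K + K * K + K := by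
      have hdet := hg.2
      rw [Matrix.det_fin_two] at hdet
      obtain ⟨a, ha⟩ : ∃ a, a = (g : Matrix (Fin 2) (Fin 2) ℂ) 0 0 := ⟨_, rfl⟩
      obtain ⟨b, hb⟩ : ∃ b, b = (g : Matrix (Fin 2) (Fin 2) ℂ) 0 1 := ⟨_, rfl⟩
      obtain ⟨c, hc⟩ : ∃ c, c = (g : Matrix (Fin 2) (Fin 2) ℂ) 1 0 := ⟨_, rfl⟩
      obtain ⟨d, hd⟩ : ∃ d, d = (g : Matrix (Fin 2) (Fin 2) ℂ) 1 1 := ⟨_, rfl⟩
      have hcO : c ∈ O := by rw [hc]; exact hg.1 1 0
      rw [← ha, ← hb, ← hc, ← hd] at hdet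
      rw [← ha] at h2'
      rw [← hc] at h1 h3
      rw [← hd] at h2 h3
      rw [← hb]
      by_cases hc0 : c = 0
      · -- `z' = a z \bar d + b \bar d`
        have hd1 := h3 hc0
        have hzz : ‖w.z‖ ≤ Real.sqrt R := by
          apply Real.le_sqrt_of_sq_le
          rw [← normSq_eq_norm_sq]
          exact hw.1
        have hzz' : ‖(g • w).z‖ ≤ Real.sqrt R := by
          apply Real.le_sqrt_of_sq_le
          rw [← normSq_eq_norm_sq]
          exact hgw.1
        have hz' : (g • w).z = (a * w.z + b) * conj d := by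
          rw [H3.smul_z, H3.den, ← ha, ← hb, ← hc, ← hd, hc0]
          have : normSq d = 1 := by rw [normSq_eq_norm_sq, hd1, one_pow]
          simp [this]
        have hab : ‖a * w.z + b‖ ≤ Real.sqrt R := by
          rw [hz', norm_mul, RCLike.norm_conj, hd1, mul_one] at hzz'
          exact hzz'
        calc ‖b‖ = ‖(a * w.z + b) - a * w.z‖ := by ring_nf
          _ ≤ ‖a * w.z + b‖ + ‖a * w.z‖ := norm_sub_le _ _
          _ ≤ Real.sqrt R + K * Real.sqrt R := by
              rw [norm_mul]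
              gcongr
          _ ≤ K + K * K + K := by
              have : Real.sqrt R ≤ K := by
                rw [hK]
                nlinarith [mul_nonneg ht1.le (add_nonneg zero_le_one hsR)]
              nlinarith
      · have hcn : 1 ≤ ‖c‖ := by
          have := hO.one_le _ hcO hc0
          rw [normSq_eq_norm_sq] at this
          nlinarith [norm_nonneg c]
        have h5 : b * c = a * d - 1 := by linear_combination -hdet
        have h6 : ‖b‖ * ‖c‖ ≤ K * K + 1 := by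
          rw [← norm_mul, h5]
          calc ‖a * d - 1‖ ≤ ‖a * d‖ + ‖(1 : ℂ)‖ := norm_sub_le _ _
            _ ≤ K * K + 1 := by
                rw [norm_mul, norm_one]
                gcongr
        nlinarith [norm_nonneg b]
    exact ⟨⟨⟨hg.1 0 0, h2'.trans hKK⟩, ⟨hg.1 0 1, hb⟩⟩, ⟨⟨hg.1 1 0, h1.trans hKK⟩,
      ⟨hg.1 1 1, h2.trans hKK⟩⟩⟩
  · intro g _ g' _ h
    simp only [Prod.mk.injEq] at h
    obtain ⟨⟨h1, h2⟩, h3, h4⟩ := h
    apply Units.ext
    ext i j
    fin_cases i <;> fin_cases j <;> assumption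

/-- For each point only finitely many elements of `SLO O` send it to a given Siegel set. -/
theorem EucOrder.finite_smul_mem (hO : EucOrder O) {R t : ℝ} (ht0 : 0 < t) (w : H3) :
    {g : GL (Fin 2) ℂ | g ∈ SLO O ∧ g • w ∈ Sieg R t}.Finite := by
  by_cases h : ∃ g ∈ SLO O, g • w ∈ Sieg R t
  · obtain ⟨g₀, hg₀, hw₀⟩ := h
    have hfin := hO.finite_Sieg (R := R) ht0
    refine (hfin.image fun g => g * g₀).subset ?_
    rintro g ⟨hg, hw⟩
    refine ⟨g * g₀⁻¹, ⟨(SLO O).mul_mem hg ((SLO O).inv_mem hg₀), g₀ • w, hw₀, ?_⟩, ?_⟩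
    · rwa [mul_smul, inv_smul_smul]
    · simp
  · push Not at h
    refine Set.Finite.subset Set.finite_empty ?_
    rintro g ⟨hg, hw⟩
    exact h g hg hw

end Fermat.Agent.H47.Red
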