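import Fermat.Agent.H8T2
import Fermat.Agent.H96TIface
import Fermat.Agent.H47RSiegel

/-!
# S47, (T2b), part 3: heights, finite classes, boundedness of `|F| * majorant`
-/

set_option autoImplicit false
set_option linter.unusedSectionVars false

noncomputable section

open MeasureTheory
open scoped ComplexConjugate Real

namespace Fermat.Agent.H8T

open S47T H47.Red

/-! ### Groups -/

theorem mem_SLO_iff {g : GL (Fin 2) ℂ} : g ∈ SLO Eis ↔ g ∈ Gam 1 := by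
  constructor
  · rintro ⟨h1, h2⟩
    exact ⟨h2, h1, _, h1 1 0, by simp⟩
  · rintro ⟨h2, h1, -⟩
    exact ⟨h1, h2⟩

theorem Gam_le_one (N : ℕ) : Gam N ≤ Gam 1 := by
  rintro g ⟨h1, h2, -⟩
  exact ⟨h1, h2, _, h2 1 0, by simp⟩

theorem GamP_le_one (N : ℕ) : GamP N ≤ Gam 1 := by
  rintro g ⟨h1, h2⟩
  have h3 : ∀ i j, (g : Matrix (Fin 2) (Fin 2) ℂ) i j ∈ Eis := by
    intro i j
    obtain ⟨x, hx, h⟩ := h2 i j
    rw [h]
    refine Eis.add_mem ?_ (Eis.mul_mem (natCast_mem _ _) hx)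
    rw [Matrix.one_apply]
    split_ifs
    · exact Eis.one_mem
    · exact Eis.zero_mem
  exact ⟨h1, h3, _, h3 1 0, by simp⟩

theorem GamP_le_Gam (N : ℕ) : GamP N ≤ Gam N := by
  intro g hg
  obtain ⟨h1, h2, -⟩ := GamP_le_one N hg
  obtain ⟨x, hx, h⟩ := hg.2 1 0
  refine ⟨h1, h2, x, hx, ?_⟩
  rw [h]
  simp

/-- If `g ≡ s mod N` entrywise then `g s⁻¹` is in `GamP N`. -/
theorem mul_inv_mem_GamP {N : ℕ} {g s : GL (Fin 2) ℂ} (hg : g ∈ Gam 1) (hs : s ∈ Gam 1)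
    (h : ∀ i j, ∃ x ∈ Eis, (g : Matrix (Fin 2) (Fin 2) ℂ) i j =
      (s : Matrix (Fin 2) (Fin 2) ℂ) i j + N * x) : g * s⁻¹ ∈ GamP N := by
  have hs' := (Gam 1).inv_mem hs
  choose x hx hgx using h
  refine ⟨((Gam 1).mul_mem hg hs').1, fun i j => ?_⟩
  refine ⟨∑ k, x i k * ((s⁻¹ : GL (Fin 2) ℂ) : Matrix (Fin 2) (Fin 2) ℂ) k j,
    Eis.sum_mem fun k _ => Eis.mul_mem (hx _ _) (hs'.2.1 _ _), ?_⟩
  rw [Units.val_mul, Matrix.mul_apply, Finset.mul_sum]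
  have h1 : (1 : Matrix (Fin 2) (Fin 2) ℂ) i j =
      ∑ k, (s : Matrix (Fin 2) (Fin 2) ℂ) i k *
        ((s⁻¹ : GL (Fin 2) ℂ) : Matrix (Fin 2) (Fin 2) ℂ) k j := by
    rw [← Matrix.mul_apply, ← Units.val_mul, mul_inv_cancel, Units.val_one]
  rw [h1, ← Finset.sum_add_distrib]
  refine Finset.sum_congr rfl fun k _ => ?_
  rw [hgx]
  ring

/-- The reduction of an element of `ℤ[ω]` modulo `N`. -/
def redE (N : ℕ) (x : Eis) : ZMod N × ZMod N :=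
  (((eisEquiv.symm x).1 : ZMod N), ((eisEquiv.symm x).2 : ZMod N))

theorem redE_eq {N : ℕ} {x y : Eis} (h : redE N x = redE N y) :
    ∃ z ∈ Eis, (x : ℂ) = y + N * z := by
  obtain ⟨⟨a, b⟩, rfl⟩ := eisEquiv.surjective x
  obtain ⟨⟨c, d⟩, rfl⟩ := eisEquiv.surjective y
  simp only [redE, Equiv.symm_apply_apply, Prod.mk.injEq] at h
  obtain ⟨h1, h2⟩ := h
  have h1' : ((a - c : ℤ) : ZMod N) = 0 := by push_cast; rw [h1, sub_self]
  have h2' : ((b - d : ℤ) : ZMod N) = 0 := by push_cast; rw [h2, sub_self]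
  obtain ⟨u, hu⟩ := (ZMod.intCast_zmod_eq_zero_iff_dvd _ N).mp h1'
  obtain ⟨v, hv⟩ := (ZMod.intCast_zmod_eq_zero_iff_dvd _ N).mp h2'
  refine ⟨u + v * om, ⟨u, v, rfl⟩, ?_⟩
  rw [coe_eisEquiv, coe_eisEquiv]
  have h3 : (a : ℂ) = c + N * u := by
    have : a = c + N * u := by linarith
    rw [this]; push_cast; ring
  have h4 : (b : ℂ) = d + N * v := by
    have : b = d + N * v := by linarith
    rw [this]; push_cast; ring
  simp only
  rw [h3, h4]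
  ring

/-- Finitely many classes modulo `GamP N`. -/
theorem exists_finset (N : ℕ) (hN : 0 < N) : ∃ S : Finset (GL (Fin 2) ℂ), (∀ s ∈ S, s ∈ Gam 1) ∧
    ∀ g ∈ Gam 1, ∃ s ∈ S, ∃ γ ∈ GamP N, g = γ * s := by
  classical
  haveI : NeZero N := ⟨hN.ne'⟩
  let red : Gam 1 → (Fin 2 → Fin 2 → ZMod N × ZMod N) := fun g i j =>
    redE N ⟨((g : GL (Fin 2) ℂ) : Matrix (Fin 2) (Fin 2) ℂ) i j, g.2.2.1 i j⟩
  have hfin : (Set.range red).Finite := Set.toFinite _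
  choose f hf using fun x : Set.range red => x.2
  haveI := hfin.fintype
  refine ⟨Finset.univ.image fun x => ((f x : Gam 1) : GL (Fin 2) ℂ), ?_, ?_⟩
  · intro s hs
    obtain ⟨x, -, rfl⟩ := Finset.mem_image.mp hs
    exact (f x).2
  · intro g hg
    set x : Set.range red := ⟨red ⟨g, hg⟩, ⟨g, hg⟩, rfl⟩ with hx
    refine ⟨((f x : Gam 1) : GL (Fin 2) ℂ), Finset.mem_image_of_mem _ (Finset.mem_univ x),
      g * ((f x : Gam 1) : GL (Fin 2) ℂ)⁻¹, ?_, by group⟩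
    refine mul_inv_mem_GamP hg (f x).2 fun i j => ?_
    have h1 : red (f x) = red ⟨g, hg⟩ := hf x
    have h2 := congrFun (congrFun h1 i) j
    obtain ⟨z, hz, h3⟩ := redE_eq h2.symm
    exact ⟨z, hz, h3⟩

/-! ### Heights -/

variable {F : H3 → ℂ}

/-- Exponential decay at every cusp. -/
def Decays (F : H3 → ℂ) : Prop := ∀ g ∈ Gam 1, ∃ C c : ℝ, 0 < c ∧ ∀ w : H3, 4 / 5 ≤ w.y →
  ‖F (g • w)‖ ≤ C * Real.exp (-(c * w.y))

/-- uniform decay -/
theorem Decays.unif {N : ℕ} (hN : 0 < N) (hF : Decays F)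
    (hinv : ∀ g ∈ GamP N, ∀ w, F (g • w) = F w) : ∃ C c : ℝ, 0 < C ∧ 0 < c ∧
    ∀ g ∈ Gam 1, ∀ w : H3, 4 / 5 ≤ w.y → ‖F (g • w)‖ ≤ C * Real.exp (-(c * w.y)) := by
  obtain ⟨S, hS, hcov⟩ := exists_finset N hN
  choose! C c hc hb using hF
  have hc' : ∀ T : Finset (GL (Fin 2) ℂ), (∀ s ∈ T, s ∈ Gam 1) → ∃ C₀ c₀ : ℝ, 0 < C₀ ∧ 0 < c₀ ∧
      ∀ s ∈ T, ∀ w : H3, 4 / 5 ≤ w.y → ‖F (s • w)‖ ≤ C₀ * Real.exp (-(c₀ * w.y)) := by
    classical
    intro T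
    induction T using Finset.induction_on with
    | empty => intro _; exact ⟨1, 1, one_pos, one_pos, fun s hs => absurd hs (Finset.notMem_empty s)⟩
    | insert a T _ ih =>
      intro hT
      obtain ⟨C₁, c₁, hC₁, hc₁, h₁⟩ := ih fun s hs => hT s (Finset.mem_insert_of_mem hs)
      have ha := hT a (Finset.mem_insert_self a T)
      refine ⟨max C₁ (C a), min c₁ (c a), lt_max_of_lt_left hC₁, lt_min hc₁ (hc a ha), ?_⟩
      intro s hs w hw
      have hw0 := w.pos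
      have e1 : ∀ c' : ℝ, min c₁ (c a) ≤ c' → Real.exp (-(c' * w.y)) ≤
          Real.exp (-(min c₁ (c a) * w.y)) := fun c' h => by
        apply Real.exp_le_exp.mpr
        nlinarith
      rcases Finset.mem_insert.mp hs with rfl | hs
      · refine (hb s ha w hw).trans ?_
        have h3 : C s * Real.exp (-(c s * w.y)) ≤ max C₁ (C s) * Real.exp (-(c s * w.y)) :=
          mul_le_mul_of_nonneg_right (le_max_right _ _) (Real.exp_pos _).le
        refine h3.trans (mul_le_mul_of_nonneg_left (e1 _ (min_le_right _ _)) ?_)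
        exact (lt_max_of_lt_left hC₁).le
      · refine (h₁ s hs w hw).trans ?_
        have h3 : C₁ * Real.exp (-(c₁ * w.y)) ≤ max C₁ (C a) * Real.exp (-(c₁ * w.y)) :=
          mul_le_mul_of_nonneg_right (le_max_left _ _) (Real.exp_pos _).le
        refine h3.trans (mul_le_mul_of_nonneg_left (e1 _ (min_le_left _ _)) ?_)
        exact (lt_max_of_lt_left hC₁).le
  obtain ⟨C₀, c₀, hC₀, hc₀, h₀⟩ := hc' S hS
  refine ⟨C₀, c₀, hC₀, hc₀, fun g hg w hw => ?_⟩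
  obtain ⟨s, hs, γ, hγ, rfl⟩ := hcov g hg
  rw [mul_smul, hinv γ hγ]
  exact h₀ s hs w hw

/-- decay in terms of the height -/
theorem decay_ht (hE : EucOrder Eis) {C c : ℝ}
    (h : ∀ g ∈ Gam 1, ∀ w : H3, 4 / 5 ≤ w.y → ‖F (g • w)‖ ≤ C * Real.exp (-(c * w.y))) (w : H3) :
    ‖F w‖ ≤ C * Real.exp (-(c * ht Eis w)) := by
  obtain ⟨g, hg, h1, h2⟩ := hE.exists_mem_S0 w
  have h3 := h g⁻¹ ((Gam 1).inv_mem (mem_SLO_iff.mp hg)) (g • w) (S0_subset h1).2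
  rwa [inv_smul_smul, h2] at h3

/-- the theta majorant in terms of the height -/
theorem maj_ht (hE : EucOrder Eis) (j : ℕ) {ε : ℝ} (hε : 0 < ε) : ∃ C : ℝ, 0 < C ∧ ∀ w : H3,
    ∑' x : S47T.Lat, (1 + QW x w) ^ j * Real.exp (-(ε * QW x w)) ≤ C * ht Eis w ^ 8 := by
  obtain ⟨C, hC, h⟩ := maj j hε 1 (y₀ := 4 / 5) (by norm_num)
  refine ⟨C, hC, fun w => ?_⟩
  obtain ⟨g, hg, h1, h2⟩ := hE.exists_mem_S0 w
  rw [← tsum_QW_smul (mem_SLO_iff.mp hg) (fun q => (1 + q) ^ j * Real.exp (-(ε * q))) w]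
  have h3 : ‖(g • w).z‖ ≤ 1 := by
    have h4 := h1.1
    rw [Complex.normSq_eq_norm_sq] at h4
    nlinarith [norm_nonneg (g • w).z]
  have h5 := (h (g • w) h3 (S0_subset h1).2).2
  rwa [h2] at h5

theorem ht_pow_mul_exp_le (hE : EucOrder Eis) (k : ℕ) {c : ℝ} (hc : 0 < c) : ∃ C : ℝ, 0 < C ∧
    ∀ w : H3, ht Eis w ^ k * Real.exp (-(c * ht Eis w)) ≤ C := by
  refine ⟨k.factorial * Real.exp c / c ^ k, by positivity, fun w => ?_⟩
  have h1 := hE.ht_pos w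
  refine le_trans (mul_le_mul_of_nonneg_right (pow_le_pow_left₀ h1.le ?_ k) (Real.exp_pos _).le)
    (pow_mul_exp_le k hc h1.le)
  linarith

/-- **(M)**, pointwise: `|F|` times the theta majorant times any power of the height is bounded. -/
theorem bound_ht (hE : EucOrder Eis) {C c : ℝ} (hc : 0 < c) (hC : 0 < C)
    (hF : ∀ w, ‖F w‖ ≤ C * Real.exp (-(c * ht Eis w))) (j k : ℕ) {ε : ℝ} (hε : 0 < ε) :
    ∃ B : ℝ, 0 < B ∧ ∀ w, ‖F w‖ * (∑' x : S47T.Lat, (1 + QW x w) ^ j * Real.exp (-(ε * QW x w))) *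
      ht Eis w ^ k ≤ B := by
  obtain ⟨C₁, hC₁, h₁⟩ := maj_ht hE j hε
  obtain ⟨C₂, hC₂, h₂⟩ := ht_pow_mul_exp_le hE (8 + k) hc
  refine ⟨C * C₁ * C₂, by positivity, fun w => ?_⟩
  have h0 := hE.ht_pos w
  have h3 : 0 ≤ ∑' x : S47T.Lat, (1 + QW x w) ^ j * Real.exp (-(ε * QW x w)) :=
    tsum_nonneg fun x => by
      have := QW_nonneg x w
      positivity
  calc ‖F w‖ * (∑' x : S47T.Lat, (1 + QW x w) ^ j * Real.exp (-(ε * QW x w))) * ht Eis w ^ k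
      ≤ (C * Real.exp (-(c * ht Eis w))) * (C₁ * ht Eis w ^ 8) * ht Eis w ^ k := by
        refine mul_le_mul_of_nonneg_right ?_ (by positivity)
        exact mul_le_mul (hF w) (h₁ w) h3 (by positivity)
    _ = C * C₁ * (ht Eis w ^ (8 + k) * Real.exp (-(c * ht Eis w))) := by ring
    _ ≤ C * C₁ * C₂ := mul_le_mul_of_nonneg_left (h₂ w) (by positivity)

end Fermat.Agent.H8T
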