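import Fermat.Agent.H29T6
import Fermat.Agent.H96TC
import Fermat.Agent.H8T3
import Fermat.Agent.H47RCong

/-!
# S47, block (T), package T4: `T_p (lift) = c(ϖ) lift`
-/

set_option autoImplicit false
set_option linter.unusedSectionVars false

noncomputable section

open Complex MeasureTheory Matrix Filter
open scoped ComplexConjugate Real Topology

namespace Fermat.Agent.H29T

open S47T NormTrace H47.Red H8T

attribute [local instance] starEis normTraceEis

/-! ### the height of a Hecke translate -/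

theorem ht_smul_le {g : GL (Fin 2) ℂ} (hg : ∀ i j, (g : Matrix (Fin 2) (Fin 2) ℂ) i j ∈ Eis)
    (w : H3) : ht Eis (g • w) ≤ ‖(g : Matrix (Fin 2) (Fin 2) ℂ).det‖ * ht Eis w := by
  have hE := eucOrder_Eis
  obtain ⟨γ, hγ, h1⟩ := hE.exists_ht (g • w)
  obtain ⟨g₀, hg₀, hmin⟩ := hE.exists_min w
  rw [← h1, ← mul_smul]
  set m := γ * g with hm
  have hdet : (m : Matrix (Fin 2) (Fin 2) ℂ).det = (g : Matrix (Fin 2) (Fin 2) ℂ).det := by
    rw [hm, Units.val_mul, Matrix.det_mul, (mem_SLO.mp hγ).2, one_mul]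
  have hent : ∀ i j, (m : Matrix (Fin 2) (Fin 2) ℂ) i j ∈ Eis := by
    intro i j
    rw [hm, Units.val_mul, Matrix.mul_apply, Fin.sum_univ_two]
    exact Eis.add_mem (Eis.mul_mem ((mem_SLO.mp hγ).1 _ _) (hg _ _))
      (Eis.mul_mem ((mem_SLO.mp hγ).1 _ _) (hg _ _))
  have hne : ¬ ((m : Matrix (Fin 2) (Fin 2) ℂ) 1 0 = 0 ∧ (m : Matrix (Fin 2) (Fin 2) ℂ) 1 1 = 0) := by
    rintro ⟨h2, h3⟩
    have h4 := m.det.ne_zero
    apply h4
    show (m : Matrix (Fin 2) (Fin 2) ℂ).det = 0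
    rw [Matrix.det_fin_two, h2, h3]
    ring
  have h5 := hmin _ (hent 1 0) _ (hent 1 1) hne
  have hd0 : 0 < H3.den (g₀ : Matrix (Fin 2) (Fin 2) ℂ) w := H3.den_pos g₀.det.ne_zero w
  have h6 := hE.le_ht hg₀ w
  rw [smul_y_of_mem hg₀] at h6
  rw [H3.smul_y, hdet]
  have h7 : H3.den (m : Matrix (Fin 2) (Fin 2) ℂ) w =
    D ((m : Matrix (Fin 2) (Fin 2) ℂ) 1 0) ((m : Matrix (Fin 2) (Fin 2) ℂ) 1 1) w := rfl
  rw [h7, mul_div_assoc]
  refine mul_le_mul_of_nonneg_left ?_ (norm_nonneg _)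
  refine le_trans ?_ h6
  exact div_le_div_of_nonneg_left w.pos.le hd0 h5

/-! ### size, summability and measurability of the kernel -/

/-- one term of the theta series -/
def thT (φ : S47T.Lat → ℂ) (τ : ℂ) (w : H3) (x : S47T.Lat) : ℂ :=
  φ x * ee (τ * (qL x / (1 : ℕ) ^ 2 : ℝ)) * (Real.exp (-4 * π * τ.im * (pL x w / (1 : ℕ)) ^ 2) : ℝ)

lemma norm_ee (τ : ℂ) (r : ℝ) : ‖ee (τ * (r : ℂ))‖ = Real.exp (-(2 * π * τ.im * r)) := by
  rw [ee, Complex.norm_exp]
  congr 1
  have : 2 * π * I * (τ * (r : ℂ)) = ((2 * π * r : ℝ) : ℂ) * (I * τ) := by push_cast; ring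
  rw [this, Complex.re_ofReal_mul, Complex.I_mul_re]
  ring

lemma norm_thT {φ : S47T.Lat → ℂ} (hφ : ∀ x, ‖φ x‖ ≤ 1) (τ : ℂ) (w : H3) (x : S47T.Lat) :
    ‖thT φ τ w x‖ ≤ (1 + QW x w) ^ 0 * Real.exp (-(2 * π * τ.im * QW x w)) := by
  rw [thT, norm_mul, norm_mul, norm_ee, Complex.norm_real, Real.norm_of_nonneg (Real.exp_pos _).le,
    mul_assoc, ← Real.exp_add]
  have e : -(2 * π * τ.im * (qL x / (1 : ℕ) ^ 2)) + -4 * π * τ.im * (pL x w / (1 : ℕ)) ^ 2 =
      -(2 * π * τ.im * QW x w) := by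
    rw [QW]; push_cast; ring
  rw [e, pow_zero]
  exact mul_le_mul_of_nonneg_right (hφ x) (Real.exp_pos _).le

lemma summable_thT {φ : S47T.Lat → ℂ} (hφ : ∀ x, ‖φ x‖ ≤ 1) {τ : ℂ} (hτ : 0 < τ.im) (w : H3) :
    Summable (thT φ τ w) := by
  have hε : 0 < 2 * π * τ.im := by positivity
  exact Summable.of_norm_bounded (summable_QW 0 hε w) fun x => norm_thT hφ τ w x

lemma Theta_eq_thT (φ : S47T.Lat → ℂ) (τ : ℂ) (w : H3) :
    Theta 1 φ τ w = (Real.sqrt τ.im : ℝ) * ∑' x, thT φ τ w x := rfl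

lemma norm_phiN_le (N : ℕ) (x : S47T.Lat) : ‖phiN N x‖ ≤ 1 := by
  rw [phiN]
  split_ifs <;> simp

/-- polynomial growth of the kernel in the height -/
theorem exists_Theta_le (N : ℕ) {τ : ℂ} (hτ : 0 < τ.im) : ∃ C : ℝ, 0 < C ∧ ∀ w : H3,
    ‖Theta 1 (phiN N) τ w‖ ≤ C * ht Eis w ^ 8 := by
  have hε : 0 < 2 * π * τ.im := by positivity
  obtain ⟨C, hC, h⟩ := maj_ht eucOrder_Eis 0 hε
  refine ⟨Real.sqrt τ.im * C, mul_pos (Real.sqrt_pos.mpr hτ) hC, fun w => ?_⟩
  rw [Theta_eq_thT, norm_mul, Complex.norm_real, Real.norm_of_nonneg (Real.sqrt_nonneg _),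
    mul_assoc]
  refine mul_le_mul_of_nonneg_left ?_ (Real.sqrt_nonneg _)
  refine le_trans ?_ (h w)
  exact tsum_of_norm_bounded (summable_QW 0 hε w).hasSum
    fun x => norm_thT (norm_phiN_le N) τ w x

lemma continuous_pL (x : S47T.Lat) : Continuous fun w : H3 => pL x w := by
  unfold pL pair
  refine Continuous.div ?_ (continuous_const.mul H3.continuous_y) fun w => ?_
  · refine ((continuous_const.sub (continuous_const.mul ?_)).add (continuous_const.mul ?_))
    · exact Complex.continuous_re.comp (continuous_const.mul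
        (Complex.continuous_conj.comp H3.continuous_z))
    · exact (Complex.continuous_normSq.comp H3.continuous_z).add (H3.continuous_y.pow 2)
  · exact mul_ne_zero two_ne_zero w.pos.ne'

lemma continuous_thT (φ : S47T.Lat → ℂ) (τ : ℂ) (x : S47T.Lat) :
    Continuous fun w : H3 => thT φ τ w x := by
  unfold thT
  refine continuous_const.mul (Complex.continuous_ofReal.comp (Real.continuous_exp.comp ?_))
  exact continuous_const.mul (((continuous_pL x).div_const _).pow 2)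

theorem measurable_Theta {φ : S47T.Lat → ℂ} (hφ : ∀ x, ‖φ x‖ ≤ 1) {τ : ℂ} (hτ : 0 < τ.im) :
    Measurable fun w : H3 => Theta 1 φ τ w := by
  have h1 : Measurable fun w : H3 => ∑' x, thT φ τ w x := by
    refine measurable_of_tendsto_metrizable' (atTop : Filter (Finset S47T.Lat))
      (f := fun s w => ∑ x ∈ s, thT φ τ w x) (fun s => ?_) ?_
    · exact Finset.measurable_sum _ fun x _ => (continuous_thT φ τ x).measurable
    · rw [tendsto_pi_nhds]
      exact fun w => (summable_thT hφ hτ w).hasSum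
  exact measurable_const.mul h1

/-! ### integrability -/

/-- exponential decay in the height -/
def DecHt (F : H3 → ℂ) : Prop := ∃ C c : ℝ, 0 < C ∧ 0 < c ∧ ∀ w : H3,
  ‖F w‖ ≤ C * Real.exp (-(c * ht Eis w))

theorem decHt_of {N : ℕ} {c : Eis → ℝ} {F : H3 → ℂ} (hF : ICT N c F) (hD : Decays F) :
    DecHt F := by
  obtain ⟨C, k, hC, hk, h⟩ := hD.unif hF.pos (fun g hg w => hF.inv g (GamP_le_Gam N hg) w)
  exact ⟨C, k, hC, hk, fun w => decay_ht eucOrder_Eis h w⟩

theorem integrable_mul {N : ℕ} (hN : N ≠ 0) {χ : H3 → ℝ} (hχ : IsCut (Gam N) χ) {F : H3 → ℂ}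
    (hFc : Continuous F) (hF : DecHt F) {τ : ℂ} (hτ : 0 < τ.im) (g : GL (Fin 2) ℂ)
    (hg : ∀ i j, (g : Matrix (Fin 2) (Fin 2) ℂ) i j ∈ Eis) :
    Integrable fun w => (χ w : ℂ) * (F w * Theta 1 (phiN N) τ (g • w)) := by
  obtain ⟨C, k, hC, hk, h⟩ := hF
  obtain ⟨C₁, hC₁, h₁⟩ := exists_Theta_le N hτ
  obtain ⟨C₂, hC₂, h₂⟩ := ht_pow_mul_exp_le eucOrder_Eis 8 hk
  set D := ‖(g : Matrix (Fin 2) (Fin 2) ℂ).det‖ with hD
  refine hχ.integrable_of_bounded (finIdx_Gam hN) ?_ (C := C * C₁ * D ^ 8 * C₂) fun w => ?_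
  · refine (hFc.measurable.mul ((measurable_Theta (norm_phiN_le N) hτ).comp ?_)).aestronglyMeasurable
    exact (H3.continuous_smul_const g).measurable
  · have h0 := eucOrder_Eis.ht_pos w
    have h3 : ht Eis (g • w) ^ 8 ≤ (D * ht Eis w) ^ 8 :=
      pow_le_pow_left₀ (eucOrder_Eis.ht_pos _).le (ht_smul_le hg w) 8
    rw [norm_mul]
    calc ‖F w‖ * ‖Theta 1 (phiN N) τ (g • w)‖
        ≤ (C * Real.exp (-(k * ht Eis w))) * (C₁ * (D * ht Eis w) ^ 8) := by
          refine mul_le_mul (h w) ((h₁ _).trans (mul_le_mul_of_nonneg_left h3 hC₁.le))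
            (norm_nonneg _) (by positivity)
      _ = C * C₁ * D ^ 8 * (ht Eis w ^ 8 * Real.exp (-(k * ht Eis w))) := by ring
      _ ≤ C * C₁ * D ^ 8 * C₂ := mul_le_mul_of_nonneg_left (h₂ w) (by positivity)

/-- **(T4)** -/
theorem t4_of {N : ℕ} {c : Eis → ℝ} {F : H3 → ℂ} (hF : ICT N c F) (hD : DecHt F) : T4 N c F := by
  intro χ hχ p hp hpN ϖ hϖ τ₀ hτ₀
  have hN : N ≠ 0 := hF.pos.ne'
  have hp3 : p ≠ 3 := by
    rintro rfl
    exact hpN (dvd_mul_right _ _)
  have h : SplitPrime Eis p ϖ := splitPrime hp hp3 hϖ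
  have hp0 : (0 : ℝ) < p := by exact_mod_cast hp.pos
  have hpc : (p : ℂ) ≠ 0 := by exact_mod_cast hp.ne_zero
  set τ : ℂ := 3 * τ₀ with hτdef
  have hτ : 0 < τ.im := by
    have : τ.im = 3 * τ₀.im := by
      rw [hτdef, Complex.mul_im]; simp
    rw [this]; positivity
  have hτp : 0 < (τ / p).im := by
    rw [Complex.div_natCast_im]; positivity
  -- rewrite the arguments
  have e1 : ∀ j : ℕ, 3 * ((τ₀ + j) / p) = (τ + 3 * j) / p := by
    intro j; rw [hτdef]; field_simp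
  have e2 : 3 * (p * τ₀) = p * τ := by rw [hτdef]; ring
  simp only [e1]
  rw [e2]
  -- positivity of the imaginary parts
  have him1 : ∀ j : ℕ, 0 < ((τ + 3 * j) / p).im := by
    intro j
    rw [Complex.div_natCast_im, Complex.add_im]
    have : ((3 : ℂ) * j).im = 0 := by
      have : (3 : ℂ) * j = ((3 * j : ℕ) : ℂ) := by push_cast; ring
      rw [this, Complex.natCast_im]
    rw [this, add_zero]
    positivity
  have him2 : 0 < ((p : ℂ) * τ).im := by
    rw [← Complex.ofReal_natCast, Complex.im_ofReal_mul]; positivity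
  -- integrability
  have hI : ∀ {σ : ℂ}, 0 < σ.im →
      Integrable fun w => (χ w : ℂ) * (F w * Theta 1 (phiN N) σ w) := by
    intro σ hσ
    have := integrable_mul hN hχ hF.cont hD hσ (1 : GL (Fin 2) ℂ) (by
      intro i j
      rw [Units.val_one, Matrix.one_apply]
      split_ifs
      · exact Eis.one_mem
      · exact Eis.zero_mem)
    simpa only [one_smul] using this
  have hIa : ∀ i, Integrable fun w => (χ w : ℂ) * (F w * Theta 1 (phiN N) τ (al h i • w)) :=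
    fun i => integrable_mul hN hχ hF.cont hD hτ _ (al_mem (N := N) h i).2.1
  -- adjointness
  have hadj := adjoint_gam h hpN hχ hF.inv (fun g hg w => t1c N g hg τ w) hIa
  -- the Hecke relation for the kernel
  have hs0 : (Real.sqrt p : ℂ) ≠ 0 := by
    exact_mod_cast (Real.sqrt_pos.mpr hp0).ne'
  have hsum : ∀ (G : GL (Fin 2) ℂ → ℂ), ∑ i, G (al h i) =
      ∑ t ∈ Finset.range p, G (alT t (ϖ : ℂ) (coe_ne h)) + G (H3.dMat (ϖ : ℂ) (coe_ne h)) := by
    intro G
    rw [Fintype.sum_option, add_comm]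
    congr 1
    rw [← Fin.sum_univ_eq_sum_range (fun t : ℕ => G (alT t (ϖ : ℂ) (coe_ne h)))]
    rfl
  have hK : ∀ w, ∑ i, Theta 1 (phiN N) τ (al h i • w) =
      Real.sqrt p * (1 / p * ∑ j ∈ Finset.range p, Theta 1 (phiN N) ((τ + 3 * j) / p) w +
        Theta 1 (phiN N) (p * τ) w) := by
    intro w
    rw [hsum fun g => Theta 1 (phiN N) τ (g • w)]
    refine theta_hecke h hpN hτ w ?_
    exact summable_thT (norm_phiN_le N) hτp w
  have hFH : ∀ w, ∑ i, F (al h i • w) = Real.sqrt p * c ϖ * F w := by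
    intro w
    rw [hsum fun g => F (g • w)]
    exact hecke_F h hpN hF.c_zero hF.c_mul hF.c_rec hF.expn w
  simp only [hK, hFH] at hadj
  -- assemble
  have hL : ∫ w, (χ w : ℂ) * (F w * (Real.sqrt p * (1 / p * ∑ j ∈ Finset.range p,
      Theta 1 (phiN N) ((τ + 3 * j) / p) w + Theta 1 (phiN N) (p * τ) w))) =
      Real.sqrt p * ((∑ j ∈ Finset.range p, lift χ F 1 (phiN N) ((τ + 3 * j) / p)) / p +
        lift χ F 1 (phiN N) (p * τ)) := by
    have e3 : ∀ w, (χ w : ℂ) * (F w * (Real.sqrt p * (1 / p * ∑ j ∈ Finset.range p,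
        Theta 1 (phiN N) ((τ + 3 * j) / p) w + Theta 1 (phiN N) (p * τ) w))) =
        Real.sqrt p * ((1 / p) * (∑ j ∈ Finset.range p,
          (χ w : ℂ) * (F w * Theta 1 (phiN N) ((τ + 3 * j) / p) w)) +
          (χ w : ℂ) * (F w * Theta 1 (phiN N) (p * τ) w)) := by
      intro w
      rw [← Finset.mul_sum, ← Finset.mul_sum]
      ring
    simp only [e3]
    rw [integral_const_mul, integral_add, integral_const_mul, integral_finsetSum]
    · simp only [S47T.lift, qint]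
      ring
    · exact fun j _ => hI (him1 j)
    · exact (integrable_finsetSum _ fun j _ => hI (him1 j)).const_mul _
    · exact hI him2
  have hR : ∫ w, (χ w : ℂ) * (Real.sqrt p * c ϖ * F w * Theta 1 (phiN N) τ w) =
      Real.sqrt p * (c ϖ * lift χ F 1 (phiN N) τ) := by
    have e4 : ∀ w, (χ w : ℂ) * (Real.sqrt p * c ϖ * F w * Theta 1 (phiN N) τ w) =
        (Real.sqrt p * c ϖ) * ((χ w : ℂ) * (F w * Theta 1 (phiN N) τ w)) := by
      intro w; ring
    simp only [e4]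
    rw [integral_const_mul]
    simp only [S47T.lift, qint]
    ring
  rw [hL, hR] at hadj
  exact mul_left_cancel₀ hs0 hadj

/-- **(T4)** from (T2a) -/
theorem t4 {N : ℕ} {c : Eis → ℝ} {F : H3 → ℂ} (hF : ICT N c F) (hD : Decays F) : T4 N c F :=
  t4_of hF (decHt_of hF hD)

end Fermat.Agent.H29T
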