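import Fermat.Agent.H8T6
import Fermat.Agent.H29T7

/-!
# S47, block (T): `Decays F` and (T4) from (I-CT)
-/

set_option autoImplicit false

noncomputable section

open Fermat.Agent.S47T

namespace Fermat.Agent.H8T

variable {N : ℕ} {c : Eis → ℝ} {F : H3 → ℂ}

theorem ict_decays (hF : ICT N c F) : Decays F := by
  intro g hg
  obtain ⟨C, c', -, hc', h⟩ := ict_decay hF (y₀ := 4 / 5) (by norm_num)
  exact ⟨C, c', hc', h g hg⟩

/-- (T4) from (I-CT) alone. -/
theorem t4_of_ict (hF : ICT N c F) : T4 N c F := H29T.t4 hF (ict_decays hF)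

end Fermat.Agent.H8T
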