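import Fermat.Agent.H93TAsm
import Fermat.Agent.H23TJ
import Fermat.Agent.H8T7

/-!
# (T-HOL) for the theta lift from the decay statement (T2e)
-/

set_option autoImplicit false
set_option maxHeartbeats 400000

noncomputable section

open MeasureTheory
open scoped ComplexConjugate Real MatrixGroups

namespace Fermat.Agent.H93.TAsm

open Fermat.Agent Fermat.Agent.S47T Fermat.Agent.H47.Red

/-- the decay statement (T2e) for one test function -/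
def Dec (χ : H3 → ℝ) (F : H3 → ℂ) (n : ℕ) (φ : S47T.Lat → ℂ) : Prop :=
  ∃ C c : ℝ, 0 < c ∧ ∀ τ : ℂ, 1/2 ≤ τ.im →
    ‖S47T.lift χ F n φ τ‖ ≤ C * (√τ.im * Real.exp (-(c * τ.im))) ∧
      ‖H23T.xiL χ F n φ τ‖ ≤ C * (√τ.im * Real.exp (-(c * τ.im)))

theorem liftOK_of_TData {Γ : Subgroup (GL (Fin 2) ℂ)} {χ : H3 → ℝ} {F : H3 → ℂ} {n : ℕ}
    {φ : S47T.Lat → ℂ} (h : H23T.TData Γ χ F n φ) (hd : Dec χ F n φ) : LiftOK χ F n φ := by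
  obtain ⟨C, c, hc, hb⟩ := hd
  exact ⟨H23T.xiL χ F n φ, C, c, hc, fun τ hτ => h.hasFDerivAt_lift hτ,
    h.differentiableOn_conj_xiL, hb⟩

theorem GamP_le_of_dvd {N m : ℕ} (h : N ∣ m) : GamP m ≤ Gam N := by
  intro g hg
  obtain ⟨h1, h2, x, hx, h3⟩ := H47.Red.GamP_le_Gam m hg
  obtain ⟨k, rfl⟩ := h
  refine ⟨h1, h2, k * x, Eis.mul_mem (natCast_mem _ _) hx, ?_⟩
  rw [h3]
  push_cast
  ring

theorem tdata {N m : ℕ} {c : Eis → ℝ} {F : H3 → ℂ} (hI : ICT N c F) (hm : 0 < m) (hNm : N ∣ m)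
    {φ : S47T.Lat → ℂ} {χ : H3 → ℝ} (hφ : ∀ x, ‖φ x‖ ≤ 1)
    (hinv : ∀ g ∈ GamP m, ∀ (hE : ∀ i j, (g : Matrix (Fin 2) (Fin 2) ℂ) i j ∈ Eis) x,
        φ (gL (g : Matrix (Fin 2) (Fin 2) ℂ) hE x) = φ x)
    (hχ : S47T.IsCut (GamP m) χ) : H23T.TData (GamP m) χ F N φ := by
  refine H23T.TData.of_ict hI (H8T.ict_decays hI) (finIdx_GamP hm.ne') (GamP_le_of_dvd hNm) hχ
    hI.pos hφ ?_
  intro g hg τ _ w
  have hE := GamP_le_SLO m hg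
  have hE' := GamP_le_SLO m ((GamP m).inv_mem hg)
  exact Theta_smul N φ τ w g hE.2 hE.1 hE'.1 (fun x => hinv g hg hE.1 x)

/-- **(T-HOL)** from (T2e). -/
theorem thol_of_dec {N : ℕ} {c : Eis → ℝ} {F : H3 → ℂ} (hI : ICT N c F)
    (hdec : ∀ (m : ℕ) (φ : S47T.Lat → ℂ) (χ : H3 → ℝ), 3 ∣ m → N ∣ m → 0 < m →
      (∀ g ∈ GamP m, ∀ (hE : ∀ i j, (g : Matrix (Fin 2) (Fin 2) ℂ) i j ∈ Eis) x,
        φ (gL (g : Matrix (Fin 2) (Fin 2) ℂ) hE x) = φ x) →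
      H23T.TData (GamP m) χ F N φ → Dec χ F N φ) : THol N F :=
  thol_of_liftOK hI fun m φ χ h3 hN hm hφ hinv hχ =>
    liftOK_of_TData (tdata hI hm hN hφ hinv hχ)
      (hdec m φ χ h3 hN hm hinv (tdata hI hm hN hφ hinv hχ))

end Fermat.Agent.H93.TAsm
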