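import Fermat.Agent.H15S47T2
import Fermat.Agent.H93TFin
import Fermat.Agent.H60THdec

/-!
# S47 (helper15): block (T) is complete
-/

set_option autoImplicit false

open AutomorphicForm FLT.ExplicitLift EisensteinWeightOne WeierstrassCurve LanglandsTunnell
open scoped MatrixGroups
open Fermat.Agent.S47T CongruenceSubgroup Fermat.Agent.H47.Red

noncomputable section

namespace Fermat.Agent.H15S47

local notation "Γℚ" => (AlgebraicClosure ℚ ≃ₐ[ℚ] AlgebraicClosure ℚ)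

/-- (T-HOL): helper93's assembly and helper60's decay theorem. -/
theorem pieceHol : PieceHol := by
  intro N c F _ hI
  refine Fermat.Agent.H93.TAsm.thol_of_dec hI ?_
  intro m φ χ h3 _ hm hinv h
  have hm3 : 3 ≤ m := Nat.le_of_dvd hm h3
  obtain ⟨C, _, hC⟩ := Fermat.Agent.H60T.hdec hm3 h (fun g x => by
    rw [Fermat.Agent.H60T.smul_eq_gL]
    exact hinv g g.2 _ x)
  have hN : (0 : ℝ) < N := by exact_mod_cast hI.pos
  exact ⟨C, Real.pi / 2 * (1 / (3 * (N : ℝ) ^ 2)), by positivity, hC⟩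

/-- **Block (T).** -/
theorem blockT : BlockT := blockT_of_hol pieceHol

/-- **S47 from the left half.** -/
theorem S47_of_leftHalf (hL : LeftHalf)
    (ρ : Γℚ →* GL (Fin 2) (ZMod 3)) (hρ : Continuous ρ) (hsurj : Function.Surjective ρ)
    (hdet : ∀ σ : Γℚ, Matrix.GeneralLinearGroup.det (ρ σ) = modThreeCyclotomicChar σ)
    (Ψ : GL (Fin 2) (ZMod 3) →* GL (Fin 2) (ℤ√(-2)))
    (hΨ : ∀ g, Matrix.GeneralLinearGroup.map red (Ψ g) = g) :
    ∃ (N : ℕ) (_ : NeZero N) (b : ℕ → ℤ√(-2)),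
      FormalHecke.IsEigensystem
        (fun ℓ => if ℓ ∣ N then 0 else ((chiNegThree ℓ : ℤ) : ℤ√(-2))) b ∧
      CuspForm.IsWeightOneChiNegThreeRealized N b ∧
      ∀ p : ℕ, p.Prime → ¬ p ∣ 3 * N →
        ∀ A : ValuationSubring (AlgebraicClosure ℚ), A.LiesOverPrime p →
          ∀ σ : Γℚ, A.IsFrobeniusAt σ p →
            b p = ((Ψ (ρ σ) : GL (Fin 2) (ℤ√(-2))) : Matrix (Fin 2) (Fin 2) (ℤ√(-2))).trace :=
  S47_of_left hL blockT ρ hρ hsurj hdet Ψ hΨ

end Fermat.Agent.H15S47
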