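import Fermat.Agent.H19W3

/-!
# The Whittaker function of a function on `(H3)^ι × Y` (helper19)

`Y` is a set with an action of the group of the matrices `(a b; 0 1)`, `a ∈ Kˣ`, `b ∈ K`
(`tY b`, `dY a`), `Φ : (ι → H3) → Y → ℂ` is invariant, and `Φ(·, y)` has a Fourier expansion for
every `y` (`Expands`).  Then there is a unique function `κ : Y → ℂ` with
`Φ(x, y) = ∑_{α ≠ 0} κ(dY α y) ∏_j ω(|α_j| y_j) ψ(α z)`.
-/

set_option autoImplicit false
set_option linter.unusedSectionVars false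

noncomputable section

open Fermat.Agent (H3)

namespace Fermat.Agent.H19W

variable {K : Type*} [Field K] [CharZero K] {ι : Type*} [Fintype ι] (e : ι → K →+* ℂ)

theorem LatSupp.zero' : LatSupp e (0 : K → ℂ) ↔ ∃ B : Finset K, Submodule.span ℚ (B : Set K) = ⊤ := by
  simp [LatSupp]

theorem LatSupp.add {c c' : K → ℂ} (h : LatSupp e c) (h' : LatSupp e c') :
    LatSupp e (fun α => c α + c' α) := by
  obtain ⟨B, hB, h1⟩ := exists_common_lattice e h h'
  refine ⟨B, hB, fun α hα b hb => h1 α ?_ b hb⟩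
  by_contra hcon
  push Not at hcon
  exact hα (by show c α + c' α = 0; rw [hcon.1, hcon.2, add_zero])

theorem LatSupp.of_imp {c c' : K → ℂ} (h : LatSupp e c) (hc : ∀ α, c' α ≠ 0 → c α ≠ 0) :
    LatSupp e c' := by
  obtain ⟨B, hB, h1⟩ := h
  exact ⟨B, hB, fun α hα => h1 α (hc α hα)⟩

/-- the coefficients at `α a` -/
theorem LatSupp.comp_mul {c : K → ℂ} (h : LatSupp e c) (a : Kˣ) :
    LatSupp e (fun α => c (α * a)) := by
  classical
  obtain ⟨B, hB, h1⟩ := h
  refine ⟨B.image fun b => (a : K) * b, ?_, ?_⟩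
  · rw [eq_top_iff]
    intro x _
    have hx : (a : K)⁻¹ * x ∈ Submodule.span ℚ (B : Set K) := by rw [hB]; trivial
    have h2 := Submodule.mem_map_of_mem (f := (LinearMap.mulLeft ℚ (a : K))) hx
    rw [Submodule.map_span] at h2
    have h3 : LinearMap.mulLeft ℚ (a : K) ((a : K)⁻¹ * x) = x := by
      rw [LinearMap.mulLeft_apply, mul_inv_cancel_left₀ a.ne_zero]
    rw [h3] at h2
    rw [Finset.coe_image]
    exact h2
  · intro α hα b' hb'
    obtain ⟨b, hb, rfl⟩ := Finset.mem_image.mp hb'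
    obtain ⟨m, hm⟩ := h1 _ hα b hb
    exact ⟨m, by rw [← mul_assoc, hm]⟩

section Laws

variable {e} {ω : ℝ → ℝ} {Φ Φ' : (ι → H3) → ℂ} {c c' : K → ℂ}

theorem Expands.congr (h : Expands e ω Φ c) (hΦ : ∀ x, Φ' x = Φ x) : Expands e ω Φ' c :=
  ⟨h.zero, h.supp, fun x => by rw [hΦ]; exact h.sum x⟩

theorem Expands.add (h : Expands e ω Φ c) (h' : Expands e ω Φ' c') :
    Expands e ω (fun x => Φ x + Φ' x) (fun α => c α + c' α) :=
  ⟨by rw [h.zero, h'.zero, add_zero], h.supp.add e h'.supp, fun x => by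
    convert (h.sum x).add (h'.sum x) using 2
    ring⟩

theorem Expands.smul (h : Expands e ω Φ c) (a : ℂ) :
    Expands e ω (fun x => a * Φ x) (fun α => a * c α) :=
  ⟨by rw [h.zero, mul_zero], h.supp.of_imp e fun α hα => right_ne_zero_of_mul hα, fun x => by
    have h1 := (h.sum x).mul_left a
    simp only [← mul_assoc] at h1
    exact h1⟩

theorem Expands.zero_fun (h : LatSupp e (0 : K → ℂ)) :
    Expands e ω (fun _ => (0 : ℂ)) (0 : K → ℂ) :=
  ⟨rfl, h, fun x => by simp⟩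

theorem Expands.latSupp_zero (h : Expands e ω Φ c) : LatSupp e (0 : K → ℂ) := by
  obtain ⟨B, hB, -⟩ := h.supp
  exact (LatSupp.zero' e).mpr ⟨B, hB⟩

theorem Expands.sum' {T : Type*} (s : Finset T) (h0 : LatSupp e (0 : K → ℂ))
    {F : T → (ι → H3) → ℂ} {f : T → K → ℂ} (h : ∀ i ∈ s, Expands e ω (F i) (f i)) :
    Expands e ω (fun x => ∑ i ∈ s, F i x) (fun α => ∑ i ∈ s, f i α) := by
  classical
  induction s using Finset.induction_on with
  | empty =>
    simp only [Finset.sum_empty]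
    exact Expands.zero_fun h0
  | insert i s hi ih =>
    simp only [Finset.sum_insert hi]
    exact (h i (Finset.mem_insert_self _ _)).add
      (ih fun j hj => h j (Finset.mem_insert_of_mem hj))

theorem Expands.trans (h : Expands e ω Φ c) (b : K) :
    Expands e ω (fun x => Φ (trans e b x)) (fun α => c α * psi e (α * b)) := by
  refine ⟨by rw [h.zero, zero_mul], h.supp.of_imp e fun α hα => left_ne_zero_of_mul hα,
    fun x => ?_⟩
  convert h.sum (H19W.trans e b x) using 2 with α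
  have e1 : wt e ω α (H19W.trans e b x) = wt e ω α x := rfl
  have e2 : chi e α (fun j => (H19W.trans e b x j).z) = chi e α (fun j => (x j).z) *
      psi e (α * b) := by
    have : (fun j => (H19W.trans e b x j).z) = (fun j => (x j).z) + fun j => e j b := rfl
    rw [this, chi, chi, psi, pair_add_right, pair_embed, ← Complex.exp_add]
    congr 1; push_cast; ring
  rw [e1, e2]; ring

theorem wt_dil (a : Kˣ) (α : K) (x : ι → H3) : wt e ω α (H19W.dil e a x) = wt e ω (α * a) x := by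
  rw [wt, wt]
  refine Finset.prod_congr rfl fun j _ => ?_
  rw [map_mul, norm_mul]
  change ω (‖e j α‖ * (‖e j a‖ * (x j).y)) = _
  rw [mul_assoc]

theorem chi_dil (a : Kˣ) (α : K) (x : ι → H3) :
    chi e α (fun j => (H19W.dil e a x j).z) = chi e (α * a) (fun j => (x j).z) := by
  rw [chi, chi, pair, pair]
  congr 3
  refine Finset.sum_congr rfl fun j _ => ?_
  change 2 * (e j α * (e j a * (x j).z)).re = _
  rw [map_mul, mul_assoc]

theorem Expands.dil (h : Expands e ω Φ c) (a : Kˣ) :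
    Expands e ω (fun x => Φ (dil e a x)) (fun α => c (α * ↑a⁻¹)) := by
  refine ⟨by rw [zero_mul, h.zero], h.supp.comp_mul e a⁻¹, fun x => ?_⟩
  have h1 := h.sum (H19W.dil e a x)
  simp only [wt_dil, chi_dil] at h1
  rw [← (Equiv.mulRight₀ (a : K) a.ne_zero).hasSum_iff]
  convert h1 using 2 with α
  change c (α * a * ↑a⁻¹) * _ * _ = _
  rw [mul_assoc α, Units.mul_inv, mul_one]
  rfl

/-- Automorphisms of `K`. -/
theorem Expands.perm (h : Expands e ω Φ c) (s : K ≃+* K) (σ : Equiv.Perm ι)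
    (hσ : ∀ j (α : K), e j α = e (σ j) (s α)) :
    Expands e ω (fun x => Φ (fun j => x (σ j))) (fun α => c (s.symm α)) := by
  classical
  have hwt : ∀ (α : K) (x : ι → H3), wt e ω α (fun j => x (σ j)) = wt e ω (s α) x := by
    intro α x
    rw [wt, wt, ← Equiv.prod_comp σ (fun j => ω (‖e j (s α)‖ * (x j).y))]
    refine Finset.prod_congr rfl fun j _ => ?_
    rw [hσ j]
  have hchi : ∀ (α : K) (z : ι → ℂ), chi e α (fun j => z (σ j)) = chi e (s α) z := by
    intro α z
    rw [chi, chi, pair, pair, ← Equiv.sum_comp σ (fun j => 2 * (e j (s α) * z j).re)]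
    congr 3
    refine Finset.sum_congr rfl fun j _ => ?_
    rw [hσ j]
  have htr : ∀ α : K, trr e (s α) = trr e α := by
    intro α
    rw [trr, trr, ← Equiv.sum_comp σ (fun j => 2 * (e j (s α)).re)]
    refine Finset.sum_congr rfl fun j _ => ?_
    rw [hσ j]
  refine ⟨by rw [map_zero, h.zero], ?_, fun x => ?_⟩
  · obtain ⟨B, hB, h1⟩ := h.supp
    refine ⟨B.image s, ?_, ?_⟩
    · rw [eq_top_iff]
      intro x _
      have hx : s.symm x ∈ Submodule.span ℚ (B : Set K) := by rw [hB]; trivial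
      have h2 := Submodule.mem_map_of_mem (f := (s : K →+* K).toRatAlgHom.toLinearMap) hx
      rw [Submodule.map_span] at h2
      have h3 : (s : K →+* K).toRatAlgHom.toLinearMap (s.symm x) = x := s.apply_symm_apply x
      rw [h3] at h2
      rw [Finset.coe_image]
      exact h2
    · intro α hα b' hb'
      obtain ⟨b, hb, rfl⟩ := Finset.mem_image.mp hb'
      obtain ⟨m, hm⟩ := h1 _ hα b hb
      refine ⟨m, ?_⟩
      rw [← hm, ← htr (s.symm α * b), map_mul, s.apply_symm_apply]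
  · have h1 := h.sum (fun j => x (σ j))
    rw [← s.toEquiv.hasSum_iff]
    convert h1 using 2 with α
    change c (s.symm (s α)) * wt e ω (s α) x * chi e (s α) _ = _
    rw [s.symm_apply_apply, hwt, ← hchi α (fun j => (x j).z)]

theorem Expands.eq_zero_of (h : Expands e ω Φ c) (hc : ∀ α, c α = 0) (x : ι → H3) : Φ x = 0 := by
  have h1 := h.sum x
  simp only [hc, zero_mul] at h1
  exact h1.unique hasSum_zero

end Laws

/-! ### Whittaker functions -/

section WFun

variable {Y : Type*} (dY : Kˣ → Y → Y)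

open Classical in
/-- the coefficient function at `y` built from the Whittaker function -/
def coef (κ : Y → ℂ) (y : Y) (α : K) : ℂ :=
  if h : α = 0 then 0 else κ (dY (Units.mk0 α h) y)

@[simp] theorem coef_zero (κ : Y → ℂ) (y : Y) : coef dY κ y (0 : K) = 0 := by
  rw [coef, dif_pos rfl]

theorem coef_unit (κ : Y → ℂ) (y : Y) (a : Kˣ) : coef dY κ y (a : K) = κ (dY a y) := by
  rw [coef, dif_neg a.ne_zero, Units.mk0_val]

/-- `κ` is the Whittaker function of `Φ`. -/
def IsW (ω : ℝ → ℝ) (Φ : (ι → H3) → Y → ℂ) (κ : Y → ℂ) : Prop :=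
  ∀ y, Expands e ω (fun x => Φ x y) (coef dY κ y)

variable {e dY} {ω : ℝ → ℝ} {Φ Φ' : (ι → H3) → Y → ℂ} {κ κ' : Y → ℂ}

/-- **Existence of the Whittaker function.** -/
theorem exists_isW [Nonempty ι] (hω : ∀ u, 0 < u → ω u ≠ 0)
    (hdil : ∀ (a : Kˣ) x y, Φ (dil e a x) (dY a y) = Φ x y) (c : Y → K → ℂ)
    (hc : ∀ y, Expands e ω (fun x => Φ x y) (c y)) : IsW e dY ω Φ (fun y => c y 1) := by
  intro y
  convert hc y using 1
  funext α
  by_cases hα : α = 0
  · subst hα; rw [coef_zero, (hc y).zero]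
  obtain ⟨a, rfl⟩ : ∃ a : Kˣ, (a : K) = α := ⟨Units.mk0 α hα, rfl⟩
  rw [coef_unit]
  have h1 := (hc (dY a y)).dil a
  have h2 : Expands e ω (fun x => Φ x y) (fun α => c (dY a y) (α * ↑a⁻¹)) :=
    h1.congr fun x => (hdil a x y).symm
  have h3 := h2.unique e hω (hc y)
  have h4 := congrFun h3 a
  simp only [Units.mul_inv] at h4
  exact h4

theorem IsW.apply_eq (_h : IsW e dY ω Φ κ) (h1 : ∀ y, dY 1 y = y) (y : Y) :
    coef dY κ y (1 : K) = κ y := by
  have := coef_unit dY κ y 1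
  rw [h1] at this
  exact this

theorem IsW.unique [Nonempty ι] (hω : ∀ u, 0 < u → ω u ≠ 0) (h1 : ∀ y, dY 1 y = y)
    (h : IsW e dY ω Φ κ) (h' : IsW e dY ω Φ κ') : κ = κ' := by
  funext y
  rw [← h.apply_eq h1, ← h'.apply_eq h1, (h y).unique e hω (h' y)]

/-- `Φ` is determined by its Whittaker function. -/
theorem IsW.ext (h : IsW e dY ω Φ κ) (h' : IsW e dY ω Φ' κ) (x : ι → H3) (y : Y) :
    Φ x y = Φ' x y :=
  ((h y).sum x).unique ((h' y).sum x)

theorem IsW.eq_zero (h : IsW e dY ω Φ 0) (x : ι → H3) (y : Y) : Φ x y = 0 :=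
  (h y).eq_zero_of (fun α => by
    rw [coef]
    split_ifs <;> rfl) x

/-- The behaviour under translations. -/
theorem IsW.trans [Nonempty ι] (hω : ∀ u, 0 < u → ω u ≠ 0) (h1 : ∀ y, dY 1 y = y)
    (h : IsW e dY ω Φ κ) {tY : K → Y → Y}
    (htr : ∀ (b : K) x y, Φ (H19W.trans e b x) (tY b y) = Φ x y) (b : K) (y : Y) :
    κ (tY b y) * psi e b = κ y := by
  have h2 := (h (tY b y)).trans b
  have h3 : Expands e ω (fun x => Φ x y) (fun α => coef dY κ (tY b y) α * psi e (α * b)) :=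
    h2.congr fun x => (htr b x y).symm
  have h4 := congrFun (h3.unique e hω (h y)) 1
  simp only [one_mul] at h4
  rw [h.apply_eq h1, h.apply_eq h1] at h4
  exact h4

/-- **Operators**: if `Ψ(·, y) = ∑ aᵢ Φ(·, yᵢ)` then `κ_Ψ(y) = ∑ aᵢ κ_Φ(yᵢ)`. -/
theorem IsW.operator [Nonempty ι] (hω : ∀ u, 0 < u → ω u ≠ 0) (h1 : ∀ y, dY 1 y = y)
    (h : IsW e dY ω Φ κ) (h' : IsW e dY ω Φ' κ') {T : Type*} (s : Finset T) (a : T → ℂ) (f : T → Y)
    (y : Y) (hy : ∀ x, Φ' x y = ∑ i ∈ s, a i * Φ x (f i)) : κ' y = ∑ i ∈ s, a i * κ (f i) := by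
  have h2 : Expands e ω (fun x => ∑ i ∈ s, a i * Φ x (f i))
      (fun α => ∑ i ∈ s, a i * coef dY κ (f i) α) :=
    Expands.sum' s (h y).latSupp_zero fun i _ => (h (f i)).smul (a i)
  have h3 : Expands e ω (fun x => Φ' x y) (fun α => ∑ i ∈ s, a i * coef dY κ (f i) α) :=
    h2.congr hy
  have h4 := congrFun ((h' y).unique e hω h3) 1
  rw [h'.apply_eq h1] at h4
  rw [h4]
  exact Finset.sum_congr rfl fun i _ => by rw [h.apply_eq h1]

/-- linear combinations -/
theorem IsW.add (h : IsW e dY ω Φ κ) (h' : IsW e dY ω Φ' κ') :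
    IsW e dY ω (fun x y => Φ x y + Φ' x y) (κ + κ') := by
  intro y
  convert (h y).add (h' y) using 1
  funext α
  rw [coef, coef, coef]
  split_ifs
  · rw [add_zero]
  · rfl

theorem IsW.smul (h : IsW e dY ω Φ κ) (a : ℂ) :
    IsW e dY ω (fun x y => a * Φ x y) (a • κ) := by
  intro y
  convert (h y).smul a using 1
  funext α
  rw [coef, coef]
  split_ifs
  · rw [mul_zero]
  · rfl

/-- **Automorphisms**: the Whittaker function of `Φ ∘ (σ, s_Y)`. -/
theorem IsW.perm (h : IsW e dY ω Φ κ) (s : K ≃+* K) (σ : Equiv.Perm ι)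
    (hσ : ∀ j (α : K), e j α = e (σ j) (s α)) (sY : Y → Y)
    (hs : ∀ (a : Kˣ) (y : Y), sY (dY a y) = dY (Units.map (s.symm : K →* K) a) (sY y)) :
    IsW e dY ω (fun x y => Φ (fun j => x (σ j)) (sY y)) (fun y => κ (sY y)) := by
  intro y
  convert (h (sY y)).perm s σ hσ using 1
  funext α
  by_cases hα : α = 0
  · subst hα; rw [coef_zero, map_zero, coef_zero]
  obtain ⟨a, rfl⟩ : ∃ a : Kˣ, (a : K) = α := ⟨Units.mk0 α hα, rfl⟩
  rw [coef_unit, hs]
  exact (coef_unit dY κ (sY y) (Units.map (s.symm : K →* K) a)).symm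

/-- `κ y = 0` unless the stabiliser of `y` in the unipotent group is integral -/
theorem IsW.eq_zero_of_stab [Nonempty ι] (hω : ∀ u, 0 < u → ω u ≠ 0) (h1 : ∀ y, dY 1 y = y)
    (h : IsW e dY ω Φ κ) {tY : K → Y → Y}
    (htr : ∀ (b : K) x y, Φ (H19W.trans e b x) (tY b y) = Φ x y) {b : K} {y : Y} (hb : tY b y = y)
    (hpsi : psi e b ≠ 1) : κ y = 0 := by
  have h2 := h.trans hω h1 htr b y
  rw [hb] at h2
  by_contra hcon
  exact hpsi (mul_left_cancel₀ hcon (h2.trans (mul_one _).symm))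

end WFun

end Fermat.Agent.H19W
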