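import Fermat.Agent.H40K2

/-!
# S47, package C21: `PreICT → ICT` (helper40)
-/

set_option autoImplicit false

noncomputable section

open Matrix MeasureTheory
open scoped ComplexConjugate Real

namespace Fermat.Agent.H40K

open Fermat.Agent Fermat.Agent.S47T Fermat.Agent.H91.Z

/-- The input of the classical part of C21. -/
structure PreICT (N : ℕ) (lam : Eis → ℝ) (a : Eis → ℂ) (f : H3 → ℂ) : Prop where
  pos : 0 < N
  cont : Continuous f
  bdd : ∃ C, ∀ w, ‖f w‖ ≤ C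
  inv : ∀ g ∈ Gam N, ∀ w, f (g • w) = f w
  eig : ∀ κ : ℝ → ℝ, ContDiff ℝ ((⊤ : ℕ∞) : WithTop ℕ∞) κ → HasCompactSupport κ →
    ∀ w, ∫ w', (κ (H3.ch w w') : ℂ) * f w' = kap0 κ * f w
  expn : ∀ w : H3, HasSum (fun α : Eis =>
    a α * ((w.y * K0 (4 * π * ‖(α : ℂ)‖ * w.y / Real.sqrt 3) : ℝ) : ℂ) *
      ee ((2 * ((α : ℂ) * w.z / sq3).re : ℝ))) (f w)
  a_zero : a 0 = 0
  a_one : a 1 ≠ 0
  a_unit : ∀ u α : Eis, IsUnit u → a (u * α) = a α
  a_rec : ∀ ϖ : Eis, Prime ϖ → IsCoprime ϖ (N : Eis) → ∀ α : Eis, IsCoprime α (N : Eis) →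
    a (ϖ * (ϖ * α)) = lam ϖ * a (ϖ * α) - a α
  a_rec0 : ∀ ϖ : Eis, Prime ϖ → IsCoprime ϖ (N : Eis) → ∀ α : Eis, IsCoprime α (N : Eis) →
    ¬ ϖ ∣ α → a (ϖ * α) = lam ϖ * a α

/-- The final coefficients. -/
def cfin (N : ℕ) (a : Eis → ℂ) (α : Eis) : ℂ :=
  haveI := Classical.propDecidable
  if IsCoprime α (N : Eis) then a α / a 1 else 0

theorem isCoprime_iff_unit {N : ℕ} {α : Eis} : IsCoprime α (N : Eis) ↔
    ∃ v ∈ Eis, ∃ t ∈ Eis, (α : ℂ) * v = 1 + (N : ℂ) * t := by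
  constructor
  · rintro ⟨u, v, h⟩
    refine ⟨u, u.2, -v, Eis.neg_mem v.2, ?_⟩
    have h1 := congrArg (Subtype.val : Eis → ℂ) h
    push_cast at h1
    linear_combination h1
  · rintro ⟨v, hv, t, ht, h⟩
    refine ⟨⟨v, hv⟩, ⟨-t, Eis.neg_mem ht⟩, Subtype.ext ?_⟩
    push_cast
    linear_combination h

theorem continuous_dep {q : ℂ} {R : Finset ℂ} {G : ℂ → ℂ} {f : H3 → ℂ} (hf : Continuous f) :
    Continuous (dep q R G f) := by
  refine continuous_finsetSum _ fun r _ => continuous_const.mul ?_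
  exact hf.comp (continuous_const_smul _)

theorem norm_dep_le {q : ℂ} {R : Finset ℂ} {G : ℂ → ℂ} {f : H3 → ℂ} {C : ℝ}
    (hf : ∀ w, ‖f w‖ ≤ C) (w : H3) : ‖dep q R G f w‖ ≤ ∑ r ∈ R, ‖G r‖ * C := by
  refine (norm_sum_le _ _).trans (Finset.sum_le_sum fun r _ => ?_)
  rw [norm_mul]
  exact mul_le_mul_of_nonneg_left (hf _) (norm_nonneg _)

theorem ker1_of {κ : ℝ → ℝ} (h1 : Continuous κ) (h2 : HasCompactSupport κ) :
    H9Z.Ker1 (fun t => (κ t : ℂ)) := by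
  refine ⟨(Complex.continuous_ofReal.comp h1).continuousOn, ?_⟩
  obtain ⟨T, hT⟩ := h2.isCompact.isBounded.subset_closedBall 0
  refine ⟨T, fun t _ ht => ?_⟩
  have : t ∉ tsupport κ := by
    intro hm
    have h3 := hT hm
    rw [mem_closedBall_zero_iff, Real.norm_eq_abs] at h3
    exact absurd ((le_abs_self t).trans h3) (not_le.mpr ht)
  rw [image_eq_zero_of_notMem_tsupport this, Complex.ofReal_zero]

/-- The eigenfunction property of a twisted function. -/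
theorem eig_dep {q : ℂ} {R : Finset ℂ} {G : ℂ → ℂ} {f : H3 → ℂ} (hf : Continuous f) {κ : ℝ → ℝ}
    (h1 : Continuous κ) (h2 : HasCompactSupport κ) {c : ℂ}
    (he : ∀ w, ∫ w', (κ (H3.ch w w') : ℂ) * f w' = c * f w) (w : H3) :
    ∫ w', (κ (H3.ch w w') : ℂ) * dep q R G f w' = c * dep q R G f w := by
  have hint : ∀ r ∈ R, Integrable fun w' : H3 =>
      G r * ((κ (H3.ch w w') : ℂ) * f (H3.nMat (r / q) • w')) := by
    intro r _
    refine Integrable.const_mul ?_ _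
    exact (ker1_of h1 h2).integrable w
      ((hf.comp (continuous_const_smul _)).locallyIntegrable)
  have e1 : (fun w' : H3 => (κ (H3.ch w w') : ℂ) * dep q R G f w') =
      fun w' => ∑ r ∈ R, G r * ((κ (H3.ch w w') : ℂ) * f (H3.nMat (r / q) • w')) := by
    funext w'
    rw [dep, Finset.mul_sum]
    exact Finset.sum_congr rfl fun r _ => by ring
  rw [e1, integral_finsetSum R hint, dep, Finset.mul_sum]
  refine Finset.sum_congr rfl fun r _ => ?_
  rw [integral_const_mul]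
  have e2 : ∫ w', (κ (H3.ch w w') : ℂ) * f (H3.nMat (r / q) • w') =
      ∫ w', (κ (H3.ch (H3.nMat (r / q) • w) w') : ℂ) * f w' := by
    have e3 := (H3.measurePreserving_smul (H3.nMat (r / q))).integral_comp
      (Homeomorph.smul (H3.nMat (r / q))).measurableEmbedding
      (fun w' => (κ (H3.ch (H3.nMat (r / q) • w) w') : ℂ) * f w')
    rw [← e3]
    refine integral_congr_ae (Filter.Eventually.of_forall fun w' => ?_)
    show _ = (κ (H3.ch (H3.nMat (r / q) • w) (H3.nMat (r / q) • w')) : ℂ) * _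
    rw [H3.ch_smul]
  rw [e2, he]
  ring

/-- **`PreICT → ICT`.** -/
theorem ict_of_pre {N : ℕ} {lam : Eis → ℝ} {a : Eis → ℂ} {f : H3 → ℂ} (h : PreICT N lam a f) :
    ∃ (c : Eis → ℝ) (F : H3 → ℂ), ICT (N ^ 3) c F ∧
      ∀ ϖ : Eis, Prime ϖ → IsCoprime ϖ ((N ^ 3 : ℕ) : Eis) → c ϖ = lam ϖ := by
  classical
  obtain ⟨R, hR⟩ := exists_isReps h.pos
  have hN0 : (N : ℂ) ≠ 0 := by exact_mod_cast h.pos.ne'
  have hNm : (N : ℂ) ∈ Eis := natCast_mem Eis N
  have h1 : ∀ x ∈ Eis, chr sq3 x = 1 := fun x hx => chr_sq3_of_mem hx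
  have h2 : ∀ x : ℂ, (∀ b ∈ Eis, chr sq3 (x * b) = 1) → x ∈ Eis := fun x hx => mem_of_chr_sq3 hx
  set a' : Eis → ℂ := cfin N a with ha'
  have hcop : ∀ α : Eis, IsCoprime α ((N ^ 3 : ℕ) : Eis) ↔ IsCoprime α (N : Eis) := by
    intro α
    rw [Nat.cast_pow]
    exact IsCoprime.pow_right_iff (by norm_num)
  have a'0 : a' 0 = 0 := by
    rw [ha', cfin]
    split_ifs
    · rw [h.a_zero, zero_div]
    · rfl
  have a'1 : a' 1 = 1 := by
    rw [ha', cfin, if_pos isCoprime_one_left, div_self h.a_one]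
  have hcopu : ∀ u α : Eis, IsUnit u → (IsCoprime (u * α) (N : Eis) ↔ IsCoprime α (N : Eis)) :=
    fun u α hu => isCoprime_mul_unit_left_left hu α N
  have a'u : ∀ u α : Eis, IsUnit u → a' (u * α) = a' α := by
    intro u α hu
    rw [ha', cfin, cfin, h.a_unit u α hu]
    simp only [hcopu u α hu]
  have a's : ∀ α : Eis, ¬ IsCoprime α (N : Eis) → a' α = 0 := by
    intro α hα
    rw [ha', cfin, if_neg hα]
  have hcopm : ∀ ϖ α : Eis, IsCoprime ϖ (N : Eis) →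
      (IsCoprime (ϖ * α) (N : Eis) ↔ IsCoprime α (N : Eis)) := by
    intro ϖ α hϖ
    exact ⟨fun hh => hh.of_mul_left_right, fun hh => hϖ.mul_left hh⟩
  have a'r : ∀ ϖ : Eis, Prime ϖ → IsCoprime ϖ (N : Eis) → ∀ α : Eis,
      a' (ϖ * (ϖ * α)) = (lam ϖ : ℂ) * a' (ϖ * α) - a' α := by
    intro ϖ hϖ hc α
    by_cases hα : IsCoprime α (N : Eis)
    · have e1 := (hcopm ϖ α hc).mpr hα
      have e2 := (hcopm ϖ (ϖ * α) hc).mpr e1
      rw [ha', cfin, cfin, cfin, if_pos e2, if_pos e1, if_pos hα, h.a_rec ϖ hϖ hc α hα]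
      ring
    · have e1 : ¬ IsCoprime (ϖ * α) (N : Eis) := fun hh => hα ((hcopm ϖ α hc).mp hh)
      have e2 : ¬ IsCoprime (ϖ * (ϖ * α)) (N : Eis) := fun hh => e1 ((hcopm ϖ _ hc).mp hh)
      rw [a's _ e1, a's _ e2, a's _ hα]
      ring
  have a'r0 : ∀ ϖ : Eis, Prime ϖ → IsCoprime ϖ (N : Eis) → ∀ α : Eis, ¬ ϖ ∣ α →
      a' (ϖ * α) = (lam ϖ : ℂ) * a' α := by
    intro ϖ hϖ hc α hd
    by_cases hα : IsCoprime α (N : Eis)
    · have e1 := (hcopm ϖ α hc).mpr hα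
      rw [ha', cfin, cfin, if_pos e1, if_pos hα, h.a_rec0 ϖ hϖ hc α hα hd]
      ring
    · have e1 : ¬ IsCoprime (ϖ * α) (N : Eis) := fun hh => hα ((hcopm ϖ α hc).mp hh)
      rw [a's _ e1, a's _ hα]
      ring
  have hreal : ∀ α, conj (a' α) = a' α := coeff_real a'0 a'1 a'u a's a'r a'r0
  have hmul : ∀ α β, IsCoprime α β → a' (α * β) = a' α * a' β :=
    fun α => coeff_mul a'0 a'1 a'u a's (lam := fun ϖ => (lam ϖ : ℂ)) a'r a'r0 α
  have hre : ∀ α, (((a' α).re : ℝ) : ℂ) = a' α := fun α => Complex.conj_eq_iff_re.mp (hreal α)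
  set G := uw Eis sq3 (N : ℂ) R with hG
  set F : H3 → ℂ := fun w => (a 1)⁻¹ * dep (N : ℂ) R G f w with hF
  refine ⟨fun α => (a' α).re, F, ?_, ?_⟩
  · refine ⟨pow_pos h.pos 3, ?_, ?_, ?_, ?_, ?_, ?_, ?_, ?_, ?_, ?_, ?_⟩
    · exact continuous_const.mul (continuous_dep h.cont)
    · obtain ⟨C, hC⟩ := h.bdd
      refine ⟨‖(a 1)⁻¹‖ * ∑ r ∈ R, ‖G r‖ * C, fun w => ?_⟩
      rw [hF, norm_mul]
      exact mul_le_mul_of_nonneg_left (norm_dep_le hC w) (norm_nonneg _)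
    · intro g hg w
      rw [hF]
      simp only
      congr 1
      obtain ⟨hdet, hmem, x, hx, hlow⟩ := mem_Gam.mp hg
      refine dep_inv (N := (N : ℂ)) hNm hNm hN0 hR (G := G) ?_ (uw_inv hNm hN0 hR h1) ?_ w
      · rintro g' ⟨d', m', t', ht', l'⟩ w'
        exact h.inv g' (mem_Gam.mpr ⟨d', m', t', ht', l'⟩) w'
      · refine ⟨hdet, hmem, x, hx, ?_⟩
        rw [hlow]
        push_cast
        ring
    · intro κ hκ1 hκ2 w
      have h3 := eig_dep (q := (N : ℂ)) (R := R) (G := G) h.cont hκ1.continuous hκ2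
        (h.eig κ hκ1 hκ2) w
      rw [hF]
      simp only
      have h4 : (fun w' : H3 => (κ (H3.ch w w') : ℂ) * ((a 1)⁻¹ * dep (N : ℂ) R G f w')) =
          fun w' => (a 1)⁻¹ * ((κ (H3.ch w w') : ℂ) * dep (N : ℂ) R G f w') := by
        funext w'
        ring
      rw [h4, integral_const_mul, h3]
      ring
    · intro w
      have h3 := dep_hasSum (O := Eis) (δ := sq3) (q := (N : ℂ)) (R := R) G (f := f) (a := a)
        (W := fun α y => ((y * K0 (4 * π * ‖(α : ℂ)‖ * y / Real.sqrt 3) : ℝ) : ℂ)) h.expn w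
      have h4 := h3.mul_left (a 1)⁻¹
      refine h4.congr_fun fun α => ?_
      rw [fterm]
      obtain ⟨s1, s2⟩ := sum_uw hN0 hR h1 h2 α.2
      have h5 : (((a' α).re : ℝ) : ℂ) = (a 1)⁻¹ *
          (a α * ∑ r ∈ R, G r * chr sq3 ((α : ℂ) * (r / (N : ℂ)))) := by
        rw [hre]
        by_cases hα : IsCoprime α (N : Eis)
        · rw [hG, s1 (isCoprime_iff_unit.mp hα), ha', cfin, if_pos hα]
          field_simp
        · rw [hG, s2 (fun hh => hα (isCoprime_iff_unit.mpr hh)), a's α hα]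
          ring
      have h6 : ((((a' α).re) * w.y * K0 (4 * π * ‖(α : ℂ)‖ * w.y / Real.sqrt 3) : ℝ) : ℂ) =
          (((a' α).re : ℝ) : ℂ) *
            ((w.y * K0 (4 * π * ‖(α : ℂ)‖ * w.y / Real.sqrt 3) : ℝ) : ℂ) := by
        push_cast
        ring
      rw [h6, h5]
      have h7 : chr sq3 ((α : ℂ) * w.z) = ee ((2 * ((α : ℂ) * w.z / sq3).re : ℝ)) := rfl
      rw [h7]
      ring
    · rw [a'0, Complex.zero_re]
    · rw [a'1, Complex.one_re]
    · intro u α hu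
      rw [a'u u α hu]
    · intro α β hαβ
      have h3 := hmul α β hαβ
      have h4 : (((a' (α * β)).re : ℝ) : ℂ) = (((a' α).re * (a' β).re : ℝ) : ℂ) := by
        rw [hre, h3]
        push_cast
        rw [hre, hre]
      exact_mod_cast h4
    · intro ϖ k hϖ hc
      have hc' := (hcop ϖ).mp hc
      have h3 : a' ϖ = lam ϖ := by
        have h4 := a'r0 ϖ hϖ hc' 1 (fun hd => hϖ.not_isUnit (isUnit_of_dvd_one hd))
        rwa [mul_one, a'1, mul_one] at h4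
      have h4 : ϖ ^ (k + 2) = ϖ * (ϖ * ϖ ^ k) := by ring
      have h5 : ϖ ^ (k + 1) = ϖ * ϖ ^ k := by ring
      have h6 : (((a' (ϖ ^ (k + 2))).re : ℝ) : ℂ) =
          (((a' ϖ).re * (a' (ϖ ^ (k + 1))).re - (a' (ϖ ^ k)).re : ℝ) : ℂ) := by
        push_cast
        rw [hre, hre, hre, hre, h4, a'r ϖ hϖ hc', h3, h5]
      exact_mod_cast h6
    · intro α hα
      rw [a's α (fun hh => hα ((hcop α).mpr hh)), Complex.zero_re]
  · intro ϖ hϖ hc
    have hc' := (hcop ϖ).mp hc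
    have h4 := a'r0 ϖ hϖ hc' 1 (fun hd => hϖ.not_isUnit (isUnit_of_dvd_one hd))
    rw [mul_one, a'1, mul_one] at h4
    show (a' ϖ).re = lam ϖ
    rw [h4, Complex.ofReal_re]

end Fermat.Agent.H40K
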