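import Fermat.Agent.H7ZMod
import Fermat.Agent.H19W4
import Fermat.Agent.H40K3

/-!
# S47, package C21: the Whittaker coefficients of the averaged form (helper40)

`m : Model M J`, `κ : XF m.L.fam → ℂ` a Whittaker function with types at the places of `S`, a
Hecke eigenfunction outside `S ∪ {w₀}`.  For the sum `∑ κ(d(α) y)` over the unit diagonal points
`y ∈ UD` we prove: it is zero unless `α` is integral and a unit at `S`, and then it is
`κ (zpt α)`; recursion and invariance under units.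
-/

set_option autoImplicit false
set_option linter.unusedSectionVars false

open IsDedekindDomain HeightOneSpectrum WithZero NumberField Matrix
open scoped MatrixGroups

noncomputable section

namespace Fermat.Agent.H40K

open Fermat.Agent.H59XF Fermat.Agent.H59D Fermat.Agent.H7.Z

variable {M : Type*} [Field M] [NumberField M]

/-- The cosets of the diagonal matrices `diag(t, 1)`, `t` a unit at `w`. -/
def UDw (L : Level (𝓞 M) M) (w : HeightOneSpectrum (𝓞 M)) : Set (PGL(2, M) ⧸ L.fam.U w) :=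
  {c | ∃ t : Mˣ, w.valuation M (t : M) = 1 ∧ c = (((borP M).d t : PGL(2, M)) : PGL(2, M) ⧸ L.fam.U w)}

/-- The unit diagonal points. -/
def UD (L : Level (𝓞 M) M) : Set (XF L.fam) := {y | ∀ w, y w ∈ UDw L w}

/-- The assumptions on the Whittaker function. -/
structure CoefData [DecidableEq (HeightOneSpectrum (𝓞 M))] (L : Level (𝓞 M) M)
    (κ : XF L.fam → ℂ) (S : Finset (HeightOneSpectrum (𝓞 M)))
    (w0 : HeightOneSpectrum (𝓞 M)) (lam : HeightOneSpectrum (𝓞 M) → ℝ) : Prop where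
  whit : Whit (borP M) L.fam κ
  good : ∀ w ∉ S, GoodAt (borP M) L.fam w
  hecke : ∀ w ∉ S, w ≠ w0 → ∀ ϖ : Mˣ, w.valuation M (ϖ : M) = exp (-1 : ℤ) →
    ∃ R : Finset M, (∀ b ∈ R, w.valuation M b ≤ 1) ∧ R.card = Ideal.absNorm w.asIdeal ∧
      HeckeEq (borP M) L.fam κ w ϖ R ((Real.sqrt (Ideal.absNorm w.asIdeal) * lam w : ℝ) : ℂ)
  bad : ∀ w ∈ S, ∃ Bw : Set M, TypeAt (borP M) L.fam κ w Bw ∧ DualAt (borP M) L.fam w Bw
  base : κ (XF.base L.fam) ≠ 0

open Classical in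
/-- The point which is the base point at `S` and `diag(α, 1)` elsewhere. -/
def zpt (L : Level (𝓞 M) M) (S : Finset (HeightOneSpectrum (𝓞 M))) (α : Mˣ) : XF L.fam where
  val w := if w ∈ S then ((1 : PGL(2, M)) : PGL(2, M) ⧸ L.fam.U w) else
    (((borP M).d α : PGL(2, M)) : PGL(2, M) ⧸ L.fam.U w)
  fin := by
    refine (L.fam.adm ((borP M).d α)).subset fun w hw => ?_
    by_contra hcon
    apply hw
    split_ifs with h
    · rfl
    · rw [eq_comm, QuotientGroup.eq]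
      simpa using hcon

theorem zpt_mem {L : Level (𝓞 M) M} {S : Finset (HeightOneSpectrum (𝓞 M))} {α : Mˣ}
    {w : HeightOneSpectrum (𝓞 M)} (hw : w ∈ S) :
    zpt L S α w = ((1 : PGL(2, M)) : PGL(2, M) ⧸ L.fam.U w) := if_pos hw

theorem zpt_not_mem {L : Level (𝓞 M) M} {S : Finset (HeightOneSpectrum (𝓞 M))} {α : Mˣ}
    {w : HeightOneSpectrum (𝓞 M)} (hw : w ∉ S) :
    zpt L S α w = (((borP M).d α : PGL(2, M)) : PGL(2, M) ⧸ L.fam.U w) := if_neg hw

theorem d_coset_eq {L : Level (𝓞 M) M} {w : HeightOneSpectrum (𝓞 M)}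
    (hw : GoodAt (borP M) L.fam w) {a b : Mˣ}
    (h : w.valuation M (a : M) = w.valuation M (b : M)) :
    (((borP M).d a : PGL(2, M)) : PGL(2, M) ⧸ L.fam.U w) =
      (((borP M).d b : PGL(2, M)) : PGL(2, M) ⧸ L.fam.U w) := by
  rw [QuotientGroup.eq, ← Bor.d_inv, ← Bor.d_mul]
  apply hw.d_mem
  rw [Units.val_mul, Units.val_inv_eq_inv_val, map_mul, map_inv₀, h]
  exact inv_mul_cancel₀ ((Valuation.ne_zero_iff _).mpr b.ne_zero)

variable [DecidableEq (HeightOneSpectrum (𝓞 M))] {L : Level (𝓞 M) M} {κ : XF L.fam → ℂ}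
  {S : Finset (HeightOneSpectrum (𝓞 M))} {w0 : HeightOneSpectrum (𝓞 M)}
  {lam : HeightOneSpectrum (𝓞 M) → ℝ}

namespace CoefData

/-- At a bad place a nonzero value forces the diagonal coordinate into the level. -/
theorem d_mem_of_ne (h : CoefData L κ S w0 lam) {w : HeightOneSpectrum (𝓞 M)} (hw : w ∈ S)
    (y : XF L.fam) (a : Mˣ)
    (hy : y w = (((borP M).d a : PGL(2, M)) : PGL(2, M) ⧸ L.fam.U w)) (hne : κ y ≠ 0) :
    (borP M).d a ∈ L.fam.U w := by
  obtain ⟨Bw, ht, hd⟩ := h.bad w hw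
  have hy' : XF.upd y w (((borP M).d a : PGL(2, M)) : PGL(2, M) ⧸ L.fam.U w) = y := by
    rw [← hy, XF.upd_self]
  apply hd
  intro b hb
  have h2 := Whit.loc (bLevel L) h.whit
    (XF.upd y w (((borP M).d a : PGL(2, M)) : PGL(2, M) ⧸ L.fam.U w)) w ((a : M) * b)
  rw [XF.upd_same, XF.upd_upd] at h2
  have h3 : (borP M).n ((a : M) * b) • (((borP M).d a : PGL(2, M)) : PGL(2, M) ⧸ L.fam.U w) =
      (((borP M).d a * (borP M).n b : PGL(2, M)) : PGL(2, M) ⧸ L.fam.U w) := by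
    change (((borP M).n ((a : M) * b) * (borP M).d a : PGL(2, M)) : PGL(2, M) ⧸ L.fam.U w) = _
    rw [← (borP M).conj]
  rw [h3, ht y ((borP M).d a) b hb] at h2
  have h0 : κ (XF.upd y w (((borP M).d a : PGL(2, M)) : PGL(2, M) ⧸ L.fam.U w)) ≠ 0 := by
    rw [hy']
    exact hne
  have h4 := mul_right_cancel₀ h0 h2
  have h5 : ((a : M) - 1) * b = (a : M) * b + (-b) := by ring
  rw [h5, AddChar.map_add_eq_mul, ← h4, ← AddChar.map_add_eq_mul, add_neg_cancel,
    AddChar.map_zero_eq_one]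

/-- At a good place a nonzero value forces integrality. -/
theorem int_of_ne (h : CoefData L κ S w0 lam) {w : HeightOneSpectrum (𝓞 M)} (hw : w ∉ S)
    (y : XF L.fam) (a : Mˣ)
    (hy : y w = (((borP M).d a : PGL(2, M)) : PGL(2, M) ⧸ L.fam.U w)) (hne : κ y ≠ 0) :
    w.valuation M (a : M) ≤ 1 := by
  by_contra hcon
  apply hne
  have := Whit.vanish (bLevel L) h.whit (h.good w hw) y a hcon
  rwa [← hy, XF.upd_self] at this

/-- The points of `UD` are the base point at good places. -/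
theorem UD_good (h : CoefData L κ S w0 lam) {y : XF L.fam} (hy : y ∈ UD L)
    {w : HeightOneSpectrum (𝓞 M)} (hw : w ∉ S) :
    y w = ((1 : PGL(2, M)) : PGL(2, M) ⧸ L.fam.U w) := by
  obtain ⟨t, ht, e⟩ := hy w
  rw [e, ← (borP M).d_one]
  exact d_coset_eq (h.good w hw) (by rw [ht]; simp)

/-- The value of `κ` at `d(α) y`, `y ∈ UD`: zero or `κ (zpt α)`. -/
theorem smul_eq_zpt (h : CoefData L κ S w0 lam) {y : XF L.fam} (hy : y ∈ UD L) {α : Mˣ}
    (hne : κ ((borP M).d α • y) ≠ 0) :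
    (borP M).d α • y = zpt L S α := by
  apply XF.ext
  intro w
  by_cases hw : w ∈ S
  · rw [zpt_mem hw]
    obtain ⟨t, ht, e⟩ := hy w
    have h1 : ((borP M).d α • y) w =
        (((borP M).d (α * t) : PGL(2, M)) : PGL(2, M) ⧸ L.fam.U w) := by
      rw [XF.smul_apply, e, (borP M).d_mul]
      rfl
    have h2 := h.d_mem_of_ne hw _ (α * t) h1 hne
    rw [h1, eq_comm, QuotientGroup.eq]
    simpa using h2
  · rw [zpt_not_mem hw, XF.smul_apply, h.UD_good hy hw]
    change (((borP M).d α * 1 : PGL(2, M)) : PGL(2, M) ⧸ L.fam.U w) = _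
    rw [mul_one]

/-- `κ (zpt α) ≠ 0` forces `α` to be integral outside `S`. -/
theorem int_of_zpt (h : CoefData L κ S w0 lam) {α : Mˣ} (hne : κ (zpt L S α) ≠ 0)
    {w : HeightOneSpectrum (𝓞 M)} (hw : w ∉ S) : w.valuation M (α : M) ≤ 1 :=
  h.int_of_ne hw _ α (zpt_not_mem hw) hne

/-- Units do not change the value. -/
theorem zpt_unit (h : CoefData L κ S w0 lam) {u α : Mˣ}
    (hu : ∀ w, w ∉ S → w.valuation M (u : M) = 1) : zpt L S (u * α) = zpt L S α := by
  apply XF.ext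
  intro w
  by_cases hw : w ∈ S
  · rw [zpt_mem hw, zpt_mem hw]
  · rw [zpt_not_mem hw, zpt_not_mem hw]
    refine d_coset_eq (h.good w hw) ?_
    rw [Units.val_mul, map_mul, hu w hw, one_mul]

theorem zpt_one : zpt L S (1 : Mˣ) = XF.base L.fam := by
  apply XF.ext
  intro w
  by_cases hw : w ∈ S
  · rw [zpt_mem hw, XF.base_apply]
  · rw [zpt_not_mem hw, XF.base_apply, (borP M).d_one]

theorem upd_zpt (h : CoefData L κ S w0 lam) {w : HeightOneSpectrum (𝓞 M)} (hw : w ∉ S)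
    {ϖ α : Mˣ} (hϖ : ∀ w', w' ∉ S → w' ≠ w → w'.valuation M (ϖ : M) = 1) :
    XF.upd (zpt L S α) w (((borP M).d (α * ϖ) : PGL(2, M)) : PGL(2, M) ⧸ L.fam.U w) =
      zpt L S (ϖ * α) := by
  apply XF.ext
  intro w'
  by_cases hww : w' = w
  · subst hww
    rw [XF.upd_same, zpt_not_mem hw, mul_comm]
  · rw [XF.upd_ne _ hww]
    by_cases hw' : w' ∈ S
    · rw [zpt_mem hw', zpt_mem hw']
    · rw [zpt_not_mem hw', zpt_not_mem hw']
      refine d_coset_eq (h.good w' hw') ?_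
      rw [Units.val_mul, map_mul, hϖ w' hw' hww, one_mul]

/-- The recursion at a good place. -/
theorem zpt_rec (h : CoefData L κ S w0 lam) {w : HeightOneSpectrum (𝓞 M)} (hw : w ∉ S)
    (hw0 : w ≠ w0) {ϖ α : Mˣ} (hϖ : w.valuation M (ϖ : M) = exp (-1 : ℤ))
    (hϖ' : ∀ w', w' ∉ S → w' ≠ w → w'.valuation M (ϖ : M) = 1)
    (hα : w.valuation M (α : M) ≤ 1) :
    ((Real.sqrt (Ideal.absNorm w.asIdeal) * lam w : ℝ) : ℂ) * κ (zpt L S α) =
      (Ideal.absNorm w.asIdeal : ℂ) * κ (zpt L S (ϖ * α)) + κ (zpt L S (ϖ⁻¹ * α)) := by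
  obtain ⟨R, hR, hcard, hH⟩ := h.hecke w hw hw0 ϖ hϖ
  have h1 := h.whit.rec_good (bLevel L) hR hH (zpt L S α) α hα
  have h2 : XF.upd (zpt L S α) w (((borP M).d α : PGL(2, M)) : PGL(2, M) ⧸ L.fam.U w) =
      zpt L S α := by
    rw [← zpt_not_mem hw, XF.upd_self]
  rw [h2, h.upd_zpt hw hϖ', hcard] at h1
  rw [h1]
  congr 2
  refine h.upd_zpt hw (ϖ := ϖ⁻¹) fun w' hw' hne => ?_
  rw [Units.val_inv_eq_inv_val, map_inv₀, hϖ' w' hw' hne, inv_one]

/-- vanishing when `α / ϖ` is not integral -/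
theorem zpt_vanish (h : CoefData L κ S w0 lam) {w : HeightOneSpectrum (𝓞 M)} (hw : w ∉ S)
    {α : Mˣ} (hα : ¬ w.valuation M (α : M) ≤ 1) : κ (zpt L S α) = 0 := by
  by_contra hcon
  exact hα (h.int_of_zpt hcon hw)

omit [DecidableEq (HeightOneSpectrum (𝓞 M))] in
theorem d_smul_mk (α t : Mˣ) (w : HeightOneSpectrum (𝓞 M)) :
    (borP M).d α • (((borP M).d t : PGL(2, M)) : PGL(2, M) ⧸ L.fam.U w) =
      (((borP M).d (α * t) : PGL(2, M)) : PGL(2, M) ⧸ L.fam.U w) := by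
  rw [(borP M).d_mul]
  rfl

omit [DecidableEq (HeightOneSpectrum (𝓞 M))] in
/-- The candidate `y ∈ UD` for a given `α`. -/
theorem inv_smul_zpt_mem {α : Mˣ}
    (hα : ∀ w ∈ S, w.valuation M (α : M) = 1) : ((borP M).d α)⁻¹ • zpt L S α ∈ UD L := by
  intro w
  rw [XF.smul_apply, ← (borP M).d_inv]
  by_cases hw : w ∈ S
  · refine ⟨α⁻¹, by rw [Units.val_inv_eq_inv_val, map_inv₀, hα w hw, inv_one], ?_⟩
    rw [zpt_mem hw, ← (borP M).d_one, d_smul_mk, mul_one]
  · refine ⟨1, by simp, ?_⟩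
    rw [zpt_not_mem hw, d_smul_mk, inv_mul_cancel]

/-- **The sum over the unit diagonal points.** -/
theorem sum_UD (h : CoefData L κ S w0 lam) (hfin : (UD L).Finite) {α : Mˣ}
    (hα : ∀ w ∈ S, w.valuation M (α : M) = 1) :
    ∑ y ∈ hfin.toFinset, κ ((borP M).d α • y) = κ (zpt L S α) := by
  classical
  have hmem : ((borP M).d α)⁻¹ • zpt L S α ∈ hfin.toFinset := by
    rw [Set.Finite.mem_toFinset]
    exact inv_smul_zpt_mem hα
  rw [Finset.sum_eq_single_of_mem _ hmem, smul_inv_smul]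
  intro y hy hne
  by_contra hcon
  apply hne
  rw [← h.smul_eq_zpt ((Set.Finite.mem_toFinset _).mp hy) hcon, inv_smul_smul]

/-- Vanishing of all the terms when `α` is not integral or not a unit at `S`. -/
theorem eq_zero_of_not (h : CoefData L κ S w0 lam)
    (hdu : ∀ w ∈ S, ∀ a : Mˣ, (borP M).d a ∈ L.U w → w.valuation M (a : M) = 1) {α : Mˣ}
    {y : XF L.fam} (hy : y ∈ UD L)
    (hα : ¬ ((∀ w ∈ S, w.valuation M (α : M) = 1) ∧
      ∀ w : HeightOneSpectrum (𝓞 M), w.valuation M (α : M) ≤ 1)) :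
    κ ((borP M).d α • y) = 0 := by
  by_contra hcon
  apply hα
  have h1 := h.smul_eq_zpt hy hcon
  have hS : ∀ w ∈ S, w.valuation M (α : M) = 1 := by
    intro w hw
    obtain ⟨t, ht, e⟩ := hy w
    have h2 : ((borP M).d α • y) w =
        (((borP M).d (α * t) : PGL(2, M)) : PGL(2, M) ⧸ L.fam.U w) := by
      rw [XF.smul_apply, e, d_smul_mk]
    have h3 := h.d_mem_of_ne hw _ (α * t) h2 hcon
    have h4 := hdu w hw _ h3
    rw [Units.val_mul, map_mul, ht, mul_one] at h4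
    exact h4
  refine ⟨hS, fun w => ?_⟩
  by_cases hw : w ∈ S
  · exact (hS w hw).le
  · rw [h1] at hcon
    exact h.int_of_zpt hcon hw

end CoefData

end Fermat.Agent.H40K
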