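import Fermat.Agent.H85I3
import Fermat.Agent.H7ZForm
import Fermat.Agent.H40K4

/-!
# S47, package C21: the Whittaker function of the output of block (C) (helper85)

* `val_eq_one_of_d_mem` : `diag(t, 1) ∈ L.U w` implies that `t` is a unit at `w` (any level);
* `coefData_of` : Whittaker function and `CoefData` (helper40) from the clauses of `COut`.
-/

set_option autoImplicit false
set_option linter.unusedSectionVars false
set_option linter.unusedVariables false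

noncomputable section

open IsDedekindDomain HeightOneSpectrum WithZero NumberField Matrix MeasureTheory
open scoped MatrixGroups

namespace Fermat.Agent.H85I

open Fermat.Agent.H59XF Fermat.Agent.H59D Fermat.Agent.H7.Z Fermat.Agent.H76U Fermat.Agent.H79S
open Fermat.Agent.H51Z (bm)

section Bdd

variable {K : Type*} [Field K] [NumberField K]

/-- Elements of `U0 w` have integral `tr² / det`. -/
theorem trace_sq_le {w : HeightOneSpectrum (𝓞 K)} {h : GL (Fin 2) K}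
    (hh : (ProjGenLinGroup.mk h : PGL(2, K)) ∈ H59D.U0 w) :
    w.valuation K ((h : Matrix (Fin 2) (Fin 2) K).trace) ^ 2 ≤
      w.valuation K (h : Matrix (Fin 2) (Fin 2) K).det := by
  obtain ⟨k, hk, he⟩ := hh
  rw [ProjGenLinGroup.mk_eq_mk_iff] at he
  obtain ⟨u, hu⟩ := he
  have hm : (h : Matrix (Fin 2) (Fin 2) K) = (u : K) • (k : Matrix (Fin 2) (Fin 2) K) := by
    rw [← hu, Units.val_mul, GeneralLinearGroup.coe_scalar]
    ext i j
    rw [Matrix.scalar_apply, Matrix.mul_diagonal, Matrix.smul_apply, smul_eq_mul, mul_comm]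
  rw [hm, Matrix.trace_smul, Matrix.det_smul, Fintype.card_fin, smul_eq_mul, map_mul, map_mul,
    map_pow, mul_pow, hk.2, mul_one]
  refine mul_le_of_le_one_right' (pow_le_one' ?_ 2)
  rw [Matrix.trace_fin_two]
  exact (Valuation.map_add _ _ _).trans (max_le (hk.1 0 0) (hk.1 1 1))

/-- If `diag(t, 1)` lies in a level at `w`, then `t` is a unit at `w`. -/
theorem val_eq_one_of_d_mem (L : Level (𝓞 K) K) (w : HeightOneSpectrum (𝓞 K)) (t : Kˣ)
    (ht : (borP K).d t ∈ L.U w) : w.valuation K (t : K) = 1 := by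
  obtain ⟨c, hc⟩ := L.bdd w
  have h1 := hc _ ht
  obtain ⟨c', rfl⟩ := ProjGenLinGroup.mk_surjective c
  have h2 : (ProjGenLinGroup.mk c' : PGL(2, K))⁻¹ * (borP K).d t * ProjGenLinGroup.mk c' =
      ProjGenLinGroup.mk (c'⁻¹ * bm t 0 * c') := by
    rw [borP_d, map_mul, map_mul, map_inv]
  rw [h2] at h1
  have h3 := trace_sq_le h1
  have hinv : (c' : Matrix (Fin 2) (Fin 2) K) * ((c'⁻¹ : GL (Fin 2) K) :
      Matrix (Fin 2) (Fin 2) K) = 1 := by rw [← Units.val_mul, mul_inv_cancel, Units.val_one]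
  have htr : ((c'⁻¹ * bm t 0 * c' : GL (Fin 2) K) : Matrix (Fin 2) (Fin 2) K).trace = t + 1 := by
    rw [Units.val_mul, Matrix.trace_mul_comm, Units.val_mul, ← Matrix.mul_assoc, hinv,
      Matrix.one_mul, bm_coe, Matrix.trace_fin_two]
    simp
  have hdt : ((c'⁻¹ * bm t 0 * c' : GL (Fin 2) K) : Matrix (Fin 2) (Fin 2) K).det = t := by
    rw [Units.val_mul, Matrix.det_mul_comm, Units.val_mul, ← Matrix.mul_assoc, hinv,
      Matrix.one_mul, bm_coe, Matrix.det_fin_two_of]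
    simp
  rw [htr, hdt] at h3
  have ht0 : w.valuation K (t : K) ≠ 0 := (Valuation.ne_zero_iff _).mpr t.ne_zero
  rcases lt_trichotomy (w.valuation K (t : K)) 1 with h | h | h
  · exfalso
    have h4 : w.valuation K ((t : K) + 1) = 1 := by
      rw [add_comm]
      exact (w.valuation K).map_one_add_of_lt h
    rw [h4, one_pow] at h3
    exact absurd h3 (not_le.mpr h)
  · exact h
  · exfalso
    have h4 : w.valuation K ((t : K) + 1) = w.valuation K (t : K) := by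
      rw [Valuation.map_add_eq_of_lt_left _ (by rw [map_one]; exact h)]
    rw [h4, sq] at h3
    have h5 : w.valuation K (t : K) ≤ 1 := by
      by_contra hcon
      push Not at hcon
      have h6 : w.valuation K (t : K) * 1 < w.valuation K (t : K) * w.valuation K (t : K) :=
        (mul_lt_mul_iff_right₀ (zero_lt_iff.mpr ht0)).mpr hcon
      rw [mul_one] at h6
      exact absurd h3 (not_le.mpr h6)
    exact absurd h5 (not_le.mpr h)

end Bdd

section Coef

variable {K : Type*} [Field K] [NumberField K] {J : Type*} [Fintype J] [Nonempty J]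
  {m : Model K J} {S : Finset (HeightOneSpectrum (𝓞 K))} {v0 : HeightOneSpectrum (𝓞 K)}
  {T : HeightOneSpectrum (𝓞 K) → TD K} {a : HeightOneSpectrum (𝓞 K) → ℝ} {Φ : m.X → ℂ}

theorem goodAt_Iw (h0 : m.L.U v0 = H83Z.Iw v0) (hur : H7.Z.Unram v0) :
    GoodAt (borP K) m.L.fam v0 where
  n_mem b hb := by
    rw [Level.fam_U, h0]
    refine ⟨bm 1 b, ⟨bm_mem_GLw (by simp) hb, ?_⟩, rfl⟩
    change v0.valuation K (0 : K) ≤ _
    simp
  d_mem t ht := by
    rw [Level.fam_U, h0]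
    refine ⟨bm t 0, ⟨bm_mem_GLw ht (by simp), ?_⟩, rfl⟩
    change v0.valuation K (0 : K) ≤ _
    simp
  unram := hur

theorem bm_mem_H {T : TD K} {b : K} (hb : b ∈ T.B) : bm 1 b ∈ T.GH := by
  rw [TD.mem_GH]
  refine ⟨?_, hb, ?_, ?_⟩
  · change ((1 : Kˣ) : K) - 1 ∈ T.A
    rw [Units.val_one, sub_self]
    exact T.A.zero_mem
  · exact T.C.zero_mem
  · change (1 : K) - 1 ∈ T.A
    rw [sub_self]
    exact T.A.zero_mem

open Classical in
/-- Type equivariance in the sense of helper7. -/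
theorem typeX_of (hpsi : ∀ v ∈ S, ∀ x, (T v).psi x = H7.Z.psi v x)
    (h : IsMForm m S v0 T a Φ) {w : HeightOneSpectrum (𝓞 K)} (hw : w ∈ S) :
    TypeX m Φ w ((T w).B : Set K) := by
  intro x y g b hb
  have h1 := h.typ w hw ((borP K).n b) ⟨bm 1 b, bm_mem_H hb, rfl⟩ x y g
  rw [borP_n, TD.chi_of_mem _ (bm_mem_H hb)] at h1
  have h2 : (T w).psi ((bm (1 : Kˣ) b : GL (Fin 2) K) 0 1) = H7.Z.psi w b := hpsi w hw b
  rw [h2] at h1
  exact h1

open Classical in
/-- **The Whittaker function and `CoefData`.** -/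
theorem coefData_of (hv0 : v0 ∉ S)
    (hS : ∀ v ∈ S, m.L.U v = (T v).U) (h0 : m.L.U v0 = H83Z.Iw v0)
    (hg : ∀ v ∉ S, v ≠ v0 → m.L.U v = H59D.U0 v) (hur : ∀ v ∉ S, H7.Z.Unram v)
    (hpsi : ∀ v ∈ S, ∀ x, (T v).psi x = H7.Z.psi v x)
    (hdual : ∀ v ∈ S, H7.Z.DualAt (H7.Z.borP K) m.L.fam v (T v).B)
    (h : IsMForm m S v0 T a Φ) :
    ∃ κ : XF m.L.fam → ℂ, H19W.IsWM m (fun u => H22Z.K0 (4 * Real.pi * u)) Φ κ ∧
      H40K.CoefData m.L κ S v0 a := by
  -- the Whittaker function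
  have hmeas : ∀ y : XF m.L.fam, Measurable fun τ : J → H3 => Φ (τ, y) := fun y =>
    (h.cont y).measurable
  obtain ⟨M, hM⟩ := h.bdd
  have hEig : ∀ y : XF m.L.fam, H9Z.IsEig fun τ : J → H3 => Φ (τ, y) := by
    intro y
    refine ⟨(h.cont y).locallyIntegrable, fun κ hκ w => h.rad κ hκ y w⟩
  obtain ⟨κ, hW⟩ : ∃ κ : XF m.L.fam → ℂ,
      H19W.IsWM m (fun u => H22Z.K0 (4 * Real.pi * u)) Φ κ := by
    refine H19W.exists_kappa m (fun u hu => H22Z.k0_ne hu) (H22Z.feThm J) Φ h.inv fun y => ?_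
    refine ⟨M, ⟨?_, ?_, fun τ => hM (τ, y)⟩⟩
    · exact (hEig y).contDiffOn.of_le (WithTop.coe_le_coe.2 (le_top : (2 : ℕ∞) ≤ ⊤))
    · exact fun j w => (hEig y).lap j w
  have hω : ∀ u : ℝ, 0 < u → u * H22Z.K0 (4 * Real.pi * u) ≠ 0 := fun u hu =>
    mul_ne_zero hu.ne' (H22Z.k0_ne hu)
  have hgood : ∀ w ∉ S, GoodAt (borP K) m.L.fam w := by
    intro w hw
    by_cases hw0 : w = v0
    · subst hw0
      exact goodAt_Iw h0 (hur w hw)
    · exact goodAt_of_max (hg w hw hw0) (hur w hw)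
  have hrep : ∀ w : HeightOneSpectrum (𝓞 K), ∃ (ϖ : Kˣ) (R : Finset K),
      w.valuation K (ϖ : K) = exp (-(1 : ℤ)) ∧ H51Z.IsReps (w.valuation K) 1 R ∧ R.Nonempty := by
    intro w
    obtain ⟨ϖ, hϖ⟩ := H51Z.exists_unif (K := K) w
    obtain ⟨R, hR, -, -⟩ := H51Z.exists_isReps_card (K := K) w 1
    refine ⟨ϖ, R, hϖ, hR, ?_⟩
    obtain ⟨b, hb, -⟩ := hR.exists_mem 0 (by simp)
    exact ⟨b, hb⟩
  refine ⟨κ, hW, ⟨whit_of (fun _ hu => H22Z.k0_ne hu) hW h.inv, hgood, ?_, ?_, ?_⟩⟩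
  · -- Hecke
    intro w hw hw0 ϖ hϖ
    obtain ⟨R, hR, -, -⟩ := H51Z.exists_isReps_card (K := K) w 1
    refine ⟨R, hR.le_one, ?_, ?_⟩
    · rw [H51Z.card_reps_nf w 1 hR, pow_one]
    · exact heckeEq_of hω (isW_of hW) (h.hecke w hw hw0 ϖ hϖ R hR)
  · -- types
    intro w hw
    exact ⟨(T w).B, typeAt_of hω (isW_of hW) (typeX_of hpsi h hw), hdual w hw⟩
  · -- nonvanishing
    refine base_ne_zeroX (fun u hu => H22Z.k0_ne hu) h.inv hW (fun w => ?_) h.ne
    by_cases hw : w ∈ S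
    · right
      exact ⟨(T w).B, hdual w hw, typeX_of hpsi h hw⟩
    · left
      obtain ⟨ϖ, R, hϖ, hR, hR0⟩ := hrep w
      refine ⟨hgood w hw, ϖ, hϖ, R, ?_⟩
      by_cases hw0 : w = v0
      · subst hw0
        obtain ⟨u, -, hu⟩ := h.U
        exact ⟨u, hR0, hR.le_one, Or.inr (hu ϖ hϖ R hR)⟩
      · exact ⟨_, hR0, hR.le_one, Or.inl (h.hecke w hw hw0 ϖ hϖ R hR)⟩

end Coef

end Fermat.Agent.H85I
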