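import Fermat.Agent.H40K6
import Fermat.Agent.H85I4
import Fermat.Agent.H79SOut

/-!
# S47, package C21: the final theorem (helper40)

`COutE K e' S v0 a → ∃ N c F, ICT N c F` with `c ϖ = a v` for all `v = (ϖ)` prime to `N`.
-/

set_option autoImplicit false
set_option linter.unusedSectionVars false

open IsDedekindDomain HeightOneSpectrum WithZero NumberField Matrix
open scoped MatrixGroups Real

noncomputable section

namespace Fermat.Agent.H40K

open Fermat.Agent.H59XF Fermat.Agent.H59D Fermat.Agent.H7.Z Fermat.Agent.H72R Fermat.Agent.S47T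
open Fermat.Agent.H79S Fermat.Agent.H76U

variable {K : Type*} [Field K] [NumberField K] [IsCyclotomicExtension {3} ℚ K]

theorem ef_of (e : K →+* ℂ) : EF e where
  deg := by
    rw [IsCyclotomicExtension.Rat.finrank 3 K]
    decide
  zeta := by
    obtain ⟨z, -, hz, -⟩ := H83Z.exists_om e
    refine ⟨z, e.injective ?_⟩
    rw [map_add, map_add, map_pow, map_one, map_zero, hz]
    exact om_rel

/-- A positive integer divisible by finitely many places and by `q`. -/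
theorem exists_nat_mem (S : Finset (HeightOneSpectrum (𝓞 K))) (q : ℕ) (hq : 0 < q) :
    ∃ n : ℕ, 0 < n ∧ q ∣ n ∧ ∀ v ∈ S, (n : 𝓞 K) ∈ v.asIdeal := by
  classical
  refine ⟨q * ∏ v ∈ S, Ideal.absNorm v.asIdeal, ?_, dvd_mul_right _ _, fun v hv => ?_⟩
  · refine Nat.mul_pos hq (Finset.prod_pos fun v _ => ?_)
    exact Nat.pos_of_ne_zero (Ideal.absNorm_ne_zero_of_nonZeroDivisors
      ⟨v.asIdeal, mem_nonZeroDivisors_of_ne_zero v.ne_bot⟩)
  · obtain ⟨k, hk⟩ := (Finset.dvd_prod_of_mem (fun v : HeightOneSpectrum (𝓞 K) =>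
      Ideal.absNorm v.asIdeal) hv).mul_left q
    rw [hk]
    push_cast
    exact v.asIdeal.mul_mem_right _ (Ideal.absNorm_mem _)

/-- **C21.** -/
theorem ict_of_cOut {m : Model K (Fin 1)} {S : Finset (HeightOneSpectrum (𝓞 K))}
    {v0 : HeightOneSpectrum (𝓞 K)} {T : HeightOneSpectrum (𝓞 K) → TD K}
    {a : HeightOneSpectrum (𝓞 K) → ℝ} {Φ : m.X → ℂ} (hv0 : v0 ∉ S)
    (hS : ∀ v ∈ S, m.L.U v = (T v).U) (h0 : m.L.U v0 = H83Z.Iw v0)
    (hg : ∀ v ∉ S, v ≠ v0 → m.L.U v = H59D.U0 v) (hur : ∀ v ∉ S, H7.Z.Unram v)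
    (hpsi : ∀ v ∈ S, ∀ x, (T v).psi x = H7.Z.psi v x)
    (hdual : ∀ v ∈ S, H7.Z.DualAt (H7.Z.borP K) m.L.fam v (T v).B)
    (hlow : ∀ v ∈ S, (∀ b : K, (∀ r : K, v.valuation K r ≤ 1 → H7.Z.psi v (b * r) = 1) →
      b ∈ (T v).B) ∧ ∃ k : ℕ, ∀ c : K, v.valuation K c ≤ exp (-(k : ℤ)) → c ∈ (T v).C)
    (h : IsMForm m S v0 T a Φ) (q : ℕ) (hq : 0 < q) :
    ∃ (N : ℕ) (c : Eis → ℝ) (F : H3 → ℂ), 3 ∣ N ∧ q ∣ N ∧ ICT N c F ∧
      (∀ v ∈ S, (N : 𝓞 K) ∈ v.asIdeal) ∧ (N : 𝓞 K) ∈ v0.asIdeal ∧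
      ∀ v : HeightOneSpectrum (𝓞 K), (N : 𝓞 K) ∉ v.asIdeal → ∀ ϖ : Eis,
        v.asIdeal = Ideal.span {(H83Z.eisO (m.e 0)).symm ϖ} → c ϖ = a v := by
  classical
  obtain ⟨q', hq'0, hqq', hq'S⟩ := exists_nat_mem (insert v0 S) (3 * q) (by positivity)
  obtain ⟨N, hN0, hqN, hcont, hbdd, hinv, heig⟩ :=
    H85I.exists_fields hv0 hS h0 hg hur hpsi hlow h q' hq'0
  obtain ⟨κ, hW, hC⟩ := H85I.coefData_of hv0 hS h0 hg hur hpsi hdual h
  have hL := H85I.levelOK_of hv0 hS h0 hg hur hpsi hlow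
  have hfin : (UD m.L).Finite := H85I.finite_UD hL
  have hE : EF (m.e default) := ef_of _
  have hdu : ∀ w ∈ S, ∀ t : Kˣ, (borP K).d t ∈ m.L.U w → w.valuation K (t : K) = 1 :=
    fun w _ t ht => H85I.val_eq_one_of_d_mem m.L w t ht
  have hmem : ∀ v ∈ insert v0 S, (N : 𝓞 K) ∈ v.asIdeal := by
    intro v hv
    obtain ⟨k, hk⟩ := hqN
    rw [hk]
    push_cast
    exact v.asIdeal.mul_mem_right _ (hq'S v hv)
  have hNS : ∀ w ∈ S, (N : 𝓞 K) ∈ w.asIdeal := fun w hw => hmem w (Finset.mem_insert_of_mem hw)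
  have hNw : (N : 𝓞 K) ∈ v0.asIdeal := hmem v0 (Finset.mem_insert_self _ _)
  have hpre : PreICT N (lamE hE a) (aco hE κ hfin.toFinset) (H85I.f1 m Φ) :=
    { pos := hN0
      cont := hcont
      bdd := hbdd
      inv := hinv
      eig := heig
      expn := fun w => by
        rw [H85I.f1_eq_sum hL Φ w]
        exact expn_f1 hE hW hC hdu hfin w
      a_zero := by rw [aco, ksum_zero, mul_zero]
      a_one := aco_one hE hC hfin
      a_unit := fun u α hu => aco_unit hE hC hdu hfin u α hu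
      a_rec := fun ϖ hϖ hc α hα => aco_rec hE hC hfin hN0.ne' hNS hNw ϖ hϖ hc α hα
      a_rec0 := fun ϖ hϖ hc α hα hd => aco_rec0 hE hC hfin hN0.ne' hNS hNw ϖ hϖ hc α hα hd }
  obtain ⟨c, F, hICT, hcl⟩ := ict_of_pre hpre
  have hdvd : 3 * q ∣ N := hqq'.trans hqN
  have hpow : ∀ v : HeightOneSpectrum (𝓞 K), (N : 𝓞 K) ∈ v.asIdeal →
      ((N ^ 3 : ℕ) : 𝓞 K) ∈ v.asIdeal := by
    intro v hv
    push_cast
    exact Ideal.pow_mem_of_mem _ hv 3 (by norm_num)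
  refine ⟨N ^ 3, c, F, ?_, ?_, hICT, fun v hv => hpow v (hNS v hv), hpow v0 hNw, ?_⟩
  · exact ((dvd_mul_right 3 q).trans hdvd).trans (dvd_pow_self N (by norm_num))
  · exact ((dvd_mul_left q 3).trans hdvd).trans (dvd_pow_self N (by norm_num))
  · intro v hv ϖ hϖv
    have heq : (H83Z.eisO (m.e 0)).symm ϖ = hE.eO.symm ϖ := by
      apply RingOfIntegers.coe_injective
      apply (m.e 0).injective
      rw [H83Z.e_symm]
      exact (hE.e_symm ϖ).symm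
    rw [heq] at hϖv
    have hne : hE.eO.symm ϖ ≠ 0 := by
      intro hz
      apply v.ne_bot
      rw [hϖv, hz, Ideal.span_singleton_eq_bot]
    have hprime : Prime ϖ := by
      have h1 : Prime (hE.eO.symm ϖ) := by
        rw [← Ideal.span_singleton_prime hne, ← hϖv]
        exact v.isPrime
      have h2 : Prime (hE.eO (hE.eO.symm ϖ)) := (MulEquiv.prime_iff hE.eO.toMulEquiv).mpr h1
      rwa [RingEquiv.apply_symm_apply] at h2
    have hplace : hE.place ϖ hprime = v := by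
      apply HeightOneSpectrum.ext
      rw [hE.place_asIdeal, EF.id]
      exact hϖv.symm
    have hcop : IsCoprime ϖ ((N ^ 3 : ℕ) : Eis) := by
      rw [hE.isCoprime_natCast_iff (by positivity)]
      intro w hw
      refine val_ne_place hE hprime fun hww => hv ?_
      rw [← hplace, ← hww]
      exact hw
    rw [hcl ϖ hprime hcop, lamE_of hE hprime, hplace]

/-- **C21**, in terms of the interface `COutE`. -/
theorem ict_of_COutE {K : Type} [Field K] [NumberField K] [IsCyclotomicExtension {3} ℚ K]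
    {e' : K →+* ℂ} {S : Finset (HeightOneSpectrum (𝓞 K))} {v0 : HeightOneSpectrum (𝓞 K)}
    {a : HeightOneSpectrum (𝓞 K) → ℝ} (h : COutE K e' S v0 a) (q : ℕ) (hq : 0 < q) :
    ∃ (N : ℕ) (c : Eis → ℝ) (F : H3 → ℂ), 3 ∣ N ∧ q ∣ N ∧ ICT N c F ∧
      (∀ v ∈ S, (N : 𝓞 K) ∈ v.asIdeal) ∧ (N : 𝓞 K) ∈ v0.asIdeal ∧
      ∀ v : HeightOneSpectrum (𝓞 K), (N : 𝓞 K) ∉ v.asIdeal → ∀ ϖ : Eis,
        v.asIdeal = Ideal.span {(H83Z.eisO e').symm ϖ} → c ϖ = a v := by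
  obtain ⟨m, T, Φ, rfl, hv0, hS, h0, hg, hur, hpsi, hdual, hlow, h⟩ := h
  exact ict_of_cOut hv0 hS h0 hg hur hpsi hdual hlow h q hq

end Fermat.Agent.H40K
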