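import Mathlib

/-!
# Kummer generator of a cubic extension (helper22, S47 CSETUP)
-/

set_option autoImplicit false

namespace Fermat.Agent.H22C

/-- `s` of order three, `om` a fixed primitive cube root of unity: `s th = om th` for some
`th ≠ 0`. -/
theorem exists_kummer {E : Type*} [Field E] (s : E ≃+* E) (hs : ∃ x, s x ≠ x)
    (s3 : ∀ x, s (s (s x)) = x) {om : E} (hom : om ^ 2 + om + 1 = 0) (hsom : s om = om) :
    ∃ th : E, th ≠ 0 ∧ s th = om * th := by
  by_contra hcon
  push Not at hcon
  have hom3 : om ^ 3 = 1 := by linear_combination (om - 1) * hom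
  have hom0 : om ≠ 0 := by
    intro h0; rw [h0] at hom; simp at hom
  have h0 : ∀ x, x + om ^ 2 * s x + om * s (s x) = 0 := by
    intro x
    by_contra h
    refine hcon _ h ?_
    simp only [map_add, map_mul, map_pow, hsom, s3]
    linear_combination (-(s x)) * hom3
  obtain ⟨y, hy⟩ := hs
  have h1 : ∀ x, om ^ 2 * s x * (s y - y) + om * s (s x) * (s (s y) - y) = 0 := by
    intro x
    have e1 := h0 (x * y)
    have e2 := h0 x
    simp only [map_mul] at e1
    linear_combination e1 - y * e2
  have h2 := h1 1
  simp only [map_one, mul_one] at h2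
  have h3 : ∀ x, s x = s (s x) := by
    intro x
    have e1 := h1 x
    have e2 : om ^ 2 * (s y - y) * (s x - s (s x)) = 0 := by
      linear_combination e1 - s (s x) * h2
    rcases mul_eq_zero.mp e2 with e3 | e3
    · rcases mul_eq_zero.mp e3 with e4 | e4
      · exact absurd (pow_eq_zero_iff (by norm_num) |>.mp e4) hom0
      · exact absurd (sub_eq_zero.mp e4) hy
    · exact sub_eq_zero.mp e3
  have h4 := h3 (s (s y))
  rw [s3] at h4
  exact hy h4.symm

end Fermat.Agent.H22C
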