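import Fermat.Agent.H25ZV0c
import Fermat.Agent.H57CDict
import Fermat.Agent.H79SDef
import Fermat.Agent.H51ZDisc

/-!
# S47, block (C), package C14: the place `v₀` in the shape `PM` of `H57CDict`, and on a `CSetup`

* `pm_v0` : `PM` at `v₀` for kernels of `Iw diag(ϖ^m, 1) Iw` and `Iw diag(ϖ^(3m), 1) Iw`;
* `isInd_lpow` : powers of the local kernel `U`;
* `CSetup.pm_v0` : `PM` at `v₀` for the monomial kernels of a `CSetup`.
-/

set_option autoImplicit false

noncomputable section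

namespace Fermat.Agent.H25V

open Fermat.Agent.H59XF Fermat.Agent.H57C Fermat.Agent.H59D Matrix WithZero IsDedekindDomain
  NumberField
open scoped MatrixGroups Classical
open H20.S47 (incP sP nP EllReg)

/-! ### `PM` at `v₀` -/

section PMv0

variable {F E : Type*} [Field F] [NumberField F] [Field E] [NumberField E] [Algebra F E]
  {LE : LevelFam PGL(2, E) (HeightOneSpectrum (𝓞 E))}
  {LF : LevelFam PGL(2, F) (HeightOneSpectrum (𝓞 F))}

/-- **C14** in the shape `PM`. -/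
theorem pm_v0 (s : E ≃ₐ[F] E) (h3 : ∀ x, s (s (s x)) = x)
    (hfix : ∀ x, s x = x → x ∈ Set.range (algebraMap F E))
    (t : Twist LE) (hts : ∀ g, t.s g = sP s g)
    (π : HeightOneSpectrum (𝓞 E) → HeightOneSpectrum (𝓞 F)) (hπ : ∀ w, π (t.σ w) = π w)
    (w : HeightOneSpectrum (𝓞 E)) (v : HeightOneSpectrum (𝓞 F)) (hw : π w = v)
    (huniq : ∀ i, π i = v → i = w)
    (hsw : ∀ x, w.valuation E (s x) = w.valuation E x)
    (hval : ∀ x : F, w.valuation E (algebraMap F E x) = v.valuation F x)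
    (hL : LE.U w = Iw w) (hL' : LF.U v = Iw v) {m : ℕ} (hm : 1 ≤ m)
    (a : GlobKer LE) (b : GlobKer LF) (ha : IsUKer w m (a.loc w))
    (hb : IsUKer v (3 * m) (b.loc v)) {H : Subgroup PGL(2, F)} (hH : H = LF.U v) :
    PM s t π hπ a b H v := by
  refine PM.of_direct hH fun d γ hd => ?_
  refine exists_locMatch_v0 t π hπ (s : E ≃+* E) hts w v hw huniq hsw h3 (fun y => s.commutes y)
    (fun x hx => hfix x hx) hval hL hL' hm a (b.loc v) ha hb d γ ?_ ?_
    (fun c : Subgroup.centralizer ({γ} : Set PGL(2, F)) => (c : PGL(2, F)))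
  · have h := hd.norm
    rw [hts, hts]
    exact h.symm
  · exact (hd.comm γ rfl).symm

end PMv0

/-! ### Powers of `U` -/

section Pow

open H51Z H79S

variable {K : Type*} [Field K] {v : Valuation K ℤᵐ⁰}

theorem eq_Uker_of_isInd (h : Disc v) {m : ℕ} {κ : LocKer (H51Z.Iw v)}
    (hκ : IsInd κ (cellU v (exp (-(m : ℤ))))) : κ = Uker h m := by
  ext x y
  obtain ⟨x, rfl⟩ := QuotientGroup.mk_surjective x
  obtain ⟨y, rfl⟩ := QuotientGroup.mk_surjective y
  rw [Uker_k]
  by_cases hc : x⁻¹ * y ∈ cellU v (exp (-(m : ℤ)))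
  · rw [if_pos hc]; exact (hκ x y).1 hc
  · rw [if_neg hc]; exact (hκ x y).2 hc

theorem isInd_Uker (h : Disc v) (m : ℕ) : IsInd (Uker h m) (cellU v (exp (-(m : ℤ)))) := by
  intro g g'
  rw [Uker_k]
  exact ⟨fun hc => if_pos hc, fun hc => if_neg hc⟩

theorem lpow_Uker (h : Disc v) (m : ℕ) : lpow (Uker h 1) m = Uker h m := by
  induction m with
  | zero => rw [lpow_zero, Uker_zero]
  | succ m ih => rw [lpow_succ, ih, Uker_mul, add_comm]

/-- the values of the powers of `U` -/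
theorem isInd_lpow (h : Disc v) {U : Subgroup PGL(2, K)} (hU : U = H51Z.Iw v) {κ : LocKer U}
    (hκ : IsInd κ (cellU v (exp (-(1 : ℤ))))) (m : ℕ) :
    IsInd (lpow κ m) (cellU v (exp (-(m : ℤ)))) := by
  subst hU
  have e : κ = Uker h 1 := eq_Uker_of_isInd h (by simpa using hκ)
  rw [e, lpow_Uker]
  exact isInd_Uker h m

end Pow

theorem isUKer_of_isInd {R : Type*} [CommRing R] [IsDedekindDomain R] {K : Type*} [Field K]
    [Algebra R K] [IsFractionRing R K] {w : HeightOneSpectrum R} {m : ℕ}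
    {U : Subgroup PGL(2, K)} {κ : LocKer U}
    (hκ : H79S.IsInd κ (H51Z.cellU (w.valuation K) (exp (-(m : ℤ))))) : IsUKer w m κ := by
  intro g g'
  by_cases hc : Cell (w.valuation K) (exp (-(m : ℤ)))
      ((g⁻¹ * g' : GL (Fin 2) K) : Matrix (Fin 2) (Fin 2) K)
  · rw [if_pos hc]
    refine (hκ _ _).1 ?_
    rw [← map_inv, ← map_mul]
    exact (H51Z.mk_mem_cellU _).mpr (cell_iff_H51.mpr hc)
  · rw [if_neg hc]
    refine (hκ _ _).2 fun h' => hc ?_
    rw [← map_inv, ← map_mul] at h'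
    exact cell_iff_H51.mp ((H51Z.mk_mem_cellU _).mp h')

/-- the component at `w₀` of the monomial kernels -/
theorem isUKer_mono {K : Type*} [Field K] [NumberField K] {J : Type*} [Fintype J]
    {m : Model K J} {S : Finset (HeightOneSpectrum (𝓞 K))} {w0 : HeightOneSpectrum (𝓞 K)}
    {T : HeightOneSpectrum (𝓞 K) → H76U.TD K} (k : H79S.KerData m S w0 T)
    (n : HeightOneSpectrum (𝓞 K) →₀ ℕ) (j : ℕ) : IsUKer w0 j ((k.D.mono n j).loc w0) := by
  refine isUKer_of_isInd ?_
  have hD : k.D.w0 = w0 := k.D_w0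
  have e : (k.D.mono n j).loc w0 = H79S.lpow (k.D.U w0) j := by
    rw [H79S.HData.mono_loc]
    have h1 : w0 ∉ k.D.S := by
      have := k.D.w0S
      rwa [hD] at this
    rw [H79S.HData.loc, if_neg h1, if_pos hD.symm]
  rw [e]
  refine isInd_lpow (H51Z.disc_nf w0) ?_ k.U_ind j
  show m.L.U w0 = _
  rw [k.lev_w0, H51Z.Iw_eq]

/-! ### On a `CSetup` -/

section Setup

open H79S

variable {F E : Type} [Field F] [NumberField F] [Field E] [NumberField E] [Algebra F E]
  (C : CSetup F E)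

theorem cs_three (x : E) : C.s (C.s (C.s x)) = x := by
  have := C.gal
  exact H83Z.s_app_three C.h3 C.s x

theorem cs_fix {x : E} (hx : C.s x = x) : x ∈ Set.range (algebraMap F E) := by
  have := C.gal
  exact H83Z.fixed_of_s C.h3 C.s C.hs hx

theorem cs_twist_s (g : PGL(2, E)) : C.aE.twist.s g = sP C.s g := by
  show ProjGenLinGroup.map (C.aE.s : E →+* E) g = ProjGenLinGroup.map (C.s : E →+* E) g
  have : (C.aE.s : E →+* E) = ((C.s : E →+* E)) := by
    ext x
    exact C.s_eq x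
  rw [this]

/-- the permutation of the places -/
theorem cs_sigma (w : HeightOneSpectrum (𝓞 E)) : C.aE.σ w = H83Z.placePerm C.s w := by
  apply HeightOneSpectrum.eq_of_valuation_isEquiv_valuation (K := E)
  rw [Valuation.isEquiv_iff_val_lt_one]
  intro x
  obtain ⟨y, rfl⟩ := C.s.surjective x
  rw [H83Z.placePerm_val, ← C.s_eq, C.aE.val]

theorem cs_below_sigma (w : HeightOneSpectrum (𝓞 E)) :
    H47.below F (C.aE.σ w) = H47.below F w := by
  rw [cs_sigma, H83Z.below_placePerm]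

theorem cs_mem_above {v : HeightOneSpectrum (𝓞 F)} {w : HeightOneSpectrum (𝓞 E)} :
    w ∈ H82.above E v ↔ H47.below F w = v :=
  ⟨fun h => (H47.eq_below_of_mem_above h).symm, fun h => h ▸ H47.mem_above_below w⟩

theorem cs_below_w0 : H47.below F C.w0 = C.v0 := by
  rw [← cs_mem_above, C.above_v0]
  rfl

theorem cs_uniq_w0 {i : HeightOneSpectrum (𝓞 E)} (hi : H47.below F i = C.v0) : i = C.w0 := by
  rw [← cs_mem_above, C.above_v0] at hi
  exact hi

/-- the valuation outside `SF` -/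
theorem cs_val {v : HeightOneSpectrum (𝓞 F)} (hv : v ∉ C.SF) {w : HeightOneSpectrum (𝓞 E)}
    (hw : H47.below F w = v) (x : F) :
    w.valuation E (algebraMap F E x) = v.valuation F x := by
  have hw' := (cs_mem_above (E := E)).2 hw
  have : w.asIdeal.LiesOver v.asIdeal := ⟨hw'.symm⟩
  exact val_of_unram w v (C.unr v hv w hw') x

/-- **C14 on a `CSetup`.** -/
theorem cs_pm_v0 {m : ℕ} (hm : 1 ≤ m) (n : HeightOneSpectrum (𝓞 E) →₀ ℕ)
    (n' : HeightOneSpectrum (𝓞 F) →₀ ℕ)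
    (hπ : ∀ w, H47.below F (C.aE.twist.σ w) = H47.below F w) {H : Subgroup PGL(2, F)}
    (hH : H = C.mF.L.fam.U C.v0) :
    PM C.s C.aE.twist (H47.below F) hπ (C.kE.D.mono n m) (C.kF.D.mono n' (3 * m)) H C.v0 := by
  have hσ : C.aE.σ C.w0 = C.w0 := cs_uniq_w0 C (by rw [cs_below_sigma, cs_below_w0])
  refine pm_v0 C.s (cs_three C) (fun x => cs_fix C) C.aE.twist (cs_twist_s C) _ hπ C.w0 C.v0
    (cs_below_w0 C) (fun i hi => cs_uniq_w0 C hi) (fun x => ?_) (cs_val C C.v0S (cs_below_w0 C))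
    ?_ ?_ hm _ _ (isUKer_mono C.kE n m) (isUKer_mono C.kF n' (3 * m)) hH
  · have := C.aE.val C.w0 x
    rw [hσ, C.s_eq] at this
    exact this
  · show C.mE.L.U C.w0 = _
    rw [C.kE.lev_w0, Iw_eq_H83]
  · show C.mF.L.U C.v0 = _
    rw [C.kF.lev_w0, Iw_eq_H83]

end Setup

end Fermat.Agent.H25V
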