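import Fermat.Agent.H61K10
import Fermat.Agent.H25ZV0d

/-!
# S47, block (C), package C12: good nonsplit places on a `CSetup` ([G1-INERT])
-/

set_option autoImplicit false
set_option linter.unusedSectionVars false
set_option linter.unusedVariables false

noncomputable section

namespace Fermat.Agent.H61K

open Matrix IsDedekindDomain HeightOneSpectrum NumberField WithZero
open scoped MatrixGroups
open Fermat.Agent.H57C Fermat.Agent.H59XF Fermat.Agent.H59D Fermat.Agent.H79S Fermat.Agent.H25V
open Fermat.Agent.H20.S47 (incP sP nP EllReg)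

/-- away from the bad places the monomial kernel is trivial where the exponent vanishes -/
theorem mono_one {K : Type*} [Field K] [NumberField K] {J : Type*} [Fintype J]
    {m : Model K J} {S : Finset (HeightOneSpectrum (𝓞 K))} {w0 : HeightOneSpectrum (𝓞 K)}
    {T : HeightOneSpectrum (𝓞 K) → H76U.TD K} (k : KerData m S w0 T)
    (n : HeightOneSpectrum (𝓞 K) →₀ ℕ) (j : ℕ) {w : HeightOneSpectrum (𝓞 K)} (hw : w ∉ S)
    (hw0 : w ≠ w0) (hn : n w = 0) : (k.D.mono n j).loc w = LocKer.one := by
  rw [HData.mono_loc, k.D.loc_good (by rw [k.D_S]; exact hw) (by rw [k.D_w0]; exact hw0), hn,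
    lpow_zero]

variable {F E : Type} [Field F] [NumberField F] [Field E] [NumberField E] [Algebra F E]
  (C : CSetup F E)

/-- **[G1-INERT]** matching at a nonsplit place outside `SF ∪ {v0}`. -/
theorem cs_pm0_inert {n : HeightOneSpectrum (𝓞 E) →₀ ℕ} (hn : C.OkN n) (j j' : ℕ)
    (hπ : ∀ w, H47.below F (C.aE.twist.σ w) = H47.below F w)
    {v : HeightOneSpectrum (𝓞 F)} (hv : v ∉ C.SF) (hv0 : v ≠ C.v0) (hns : H82.NonSplit E v)
    {H : Subgroup PGL(2, F)} (hH : H = C.mF.L.fam.U v) :
    PM0 C.s C.aE.twist (H47.below F) hπ (C.kE.D.mono n j)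
      (C.kF.D.mono (n.mapDomain (H47.below F)) j') H v := by
  classical
  obtain ⟨w, hw⟩ := Set.ncard_eq_one.1 hns
  have hvw : ∀ i, H47.below F i = v ↔ i = w := by
    intro i
    rw [← cs_mem_above, hw]
    rfl
  have hbw : H47.below F w = v := (hvw w).2 rfl
  have hσ : C.aE.σ w = w := (hvw _).1 (by rw [cs_below_sigma, hbw])
  have hwS : w ∉ C.SE := by rw [C.mem_SE, hbw]; exact hv
  have hw0 : w ≠ C.w0 := by
    rintro rfl
    exact hv0 (hbw.symm.trans (cs_below_w0 C))
  have hnw : n w = 0 := by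
    by_contra h
    exact (hn w (Finsupp.mem_support_iff.2 h)).2 (by rw [hbw]; exact hns)
  have hnv : n.mapDomain (H47.below F) v = 0 := by
    by_contra h
    have h1 := Finsupp.mapDomain_support (Finsupp.mem_support_iff.2 h)
    rw [Finset.mem_image] at h1
    obtain ⟨i, hi, hiv⟩ := h1
    exact (hn i hi).2 (by rw [hiv]; exact hns)
  refine pm0_good C.s (cs_three C) C.hs (fun x => cs_fix C) C.aE.twist (cs_twist_s C)
    (H47.below F) hπ _ _ w v hvw (fun x => ?_) (cs_val C hv hbw) (C.kE.lev_good w hwS hw0)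
    (C.kF.lev_good v hv hv0) (mono_one C.kE n j hwS hw0 hnw) (mono_one C.kF _ j' hv hv0 hnv) hH
  have := C.aE.val w x
  rw [hσ, C.s_eq] at this
  exact this

end Fermat.Agent.H61K
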