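import Fermat.Agent.H76U4

/-!
# C13, interface: the types at a nonsplit bad place (S47, block C)

`NS s w v TE TF D κ π al be ga`: `w` the place of `E` over the nonsplit place `v` of `F`; the type
`TE` over `E` is the self-dual one (`SD.td`) with radii `w(al)`, `w(be)`, `w(ga)`, the type `TF` is
the standard one with radii `v(al)`, `v(be)`, `v(ga)`.
-/

set_option autoImplicit false

namespace Fermat.Agent.H43Z

open Fermat.Agent.H76U IsDedekindDomain NumberField WithZero

variable {F E : Type*} [Field F] [NumberField F] [Field E] [NumberField E] [Algebra F E]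

/-- The data at a nonsplit bad place (hypotheses of C13). -/
structure NS (s : E ≃ₐ[F] E) (w : HeightOneSpectrum (𝓞 E)) (v : HeightOneSpectrum (𝓞 F))
    (TE : TD E) (TF : TD F) (D : SD E) (κ : ℤᵐ⁰) (π al be ga : F) : Prop where
  s_eq : ∀ x, D.s x = s x
  κ1 : 1 ≤ κ
  /-- structure constants of the self-dual basis -/
  str : ∀ i j, D.b i * D.b j ∈ D.Lat (w.valuation E) κ
  π0 : π ≠ 0
  π1 : w.valuation E (algebraMap F E π) < 1
  al0 : al ≠ 0
  be0 : be ≠ 0
  ga0 : ga ≠ 0
  κa : κ * w.valuation E (algebraMap F E al) ≤ w.valuation E (algebraMap F E π)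
  κκ : κ * κ * w.valuation E (algebraMap F E al) ≤ 1
  bc : w.valuation E (algebraMap F E be) * w.valuation E (algebraMap F E ga) ≤
    w.valuation E (algebraMap F E al) * w.valuation E (algebraMap F E al)
  A : TE.A = D.Lat (w.valuation E) (w.valuation E (algebraMap F E al))
  B : TE.B = D.Lat (w.valuation E) (w.valuation E (algebraMap F E be))
  C : TE.C = D.Lat (w.valuation E) (w.valuation E (algebraMap F E ga))
  A' : TF.A = ball (v.valuation F) (v.valuation F al)
  B' : TF.B = ball (v.valuation F) (v.valuation F be)
  C' : TF.C = ball (v.valuation F) (v.valuation F ga)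

end Fermat.Agent.H43Z
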