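import Fermat.Agent.H94YSetup
import Fermat.Agent.H43ZDef

/-!
# C17 at the bad nonsplit places

`suppOK_typ`: the idempotent of the type with radii `v(al)`, `v(be)`, `v(ga)`, where
`v(be) v(ga) ≤ v(al)²` and `v(al) < v(ζ - 1)³`, satisfies the norm condition.
-/

set_option autoImplicit false
set_option linter.unusedSectionVars false

noncomputable section

open IsDedekindDomain NumberField WithZero Matrix
open scoped MatrixGroups
open Matrix.ProjGenLinGroup (mk mk_surjective)

namespace Fermat.Agent.H94Y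

open Fermat.Agent.H59D Fermat.Agent.H59XF Fermat.Agent.H82 Fermat.Agent.H20.S47
open Fermat.Agent.H79S Fermat.Agent.H76U

variable {F : Type} [Field F] [NumberField F] {E : Type} [Field E] [NumberField E] [Algebra F E]
  {ζ : F} {v : HeightOneSpectrum (𝓞 F)}

theorem exists_deep (hζ : IsPrimitiveRoot ζ 3) {al : F} (hal0 : al ≠ 0)
    (hal : v.valuation F al < v.valuation F (ζ - 1) ^ 3) :
    ∃ M : ℕ, Deep ζ 3 v M ∧ v.valuation F al ≤ exp (-(M : ℤ)) := by
  have hv0 : v.valuation F al ≠ 0 := (Valuation.ne_zero_iff _).mpr hal0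
  obtain ⟨m, hm⟩ : ∃ m : ℤ, v.valuation F al = exp m :=
    ⟨log (v.valuation F al), (exp_log hv0).symm⟩
  have h1 : v.valuation F (ζ - 1) ≤ 1 := by
    have hint : ∀ x : F, IsIntegral ℤ x → v.valuation F x ≤ 1 := fun x hx =>
      v.valuation_le_one (⟨x, hx⟩ : 𝓞 F)
    exact hint _ ((hζ.isIntegral (by norm_num)).sub isIntegral_one)
  have h2 : v.valuation F al < 1 := lt_of_lt_of_le hal (pow_le_one₀ zero_le h1)
  rw [hm, ← exp_zero, exp_lt_exp] at h2
  refine ⟨m.natAbs, ?_, ?_⟩
  · rw [Deep]
    have h3 : -((m.natAbs : ℕ) : ℤ) = m := by omega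
    rw [h3, ← hm]
    exact hal
  · have h3 : -((m.natAbs : ℕ) : ℤ) = m := by omega
    rw [h3, hm]

/-- **The norm condition for the idempotent of a type.** -/
theorem suppOK_typ (hζ : IsPrimitiveRoot ζ 3) {T : TD F} {U : Subgroup PGL(2, F)} {κ : LocKer U}
    {χ : PGL(2, F) → ℂ} (hκ : IsTyp κ T.H χ) {al be ga : F} (hal0 : al ≠ 0) (hbe0 : be ≠ 0)
    (hA : ∀ x ∈ T.A, v.valuation F x ≤ v.valuation F al)
    (hB : ∀ x ∈ T.B, v.valuation F x ≤ v.valuation F be)
    (hC : ∀ x ∈ T.C, v.valuation F x ≤ v.valuation F ga)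
    (hbc : v.valuation F be * v.valuation F ga ≤ v.valuation F al * v.valuation F al)
    (hal : v.valuation F al < v.valuation F (ζ - 1) ^ 3) : H94W.SuppOK E ζ v κ := by
  obtain ⟨M, hM, hMal⟩ := exists_deep hζ hal0 hal
  have va0 : v.valuation F al ≠ 0 := (Valuation.ne_zero_iff _).mpr hal0
  have vb0 : v.valuation F be ≠ 0 := (Valuation.ne_zero_iff _).mpr hbe0
  refine H94W.suppOK_group hM (T.H : Set PGL(2, F)) (fun y y' h => ?_)
    (mk (dM (Units.mk0 (be / al) (div_ne_zero hbe0 hal0)))) (fun h hh => ?_)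
  · by_contra hne
    exact h ((hκ y y').2 hne)
  obtain ⟨g, hg, rfl⟩ := T.mem_H.mp hh
  obtain ⟨g00, g01, g10, g11⟩ := T.mem_GH.mp hg
  set t : Fˣ := Units.mk0 (be / al) (div_ne_zero hbe0 hal0) with ht
  have ht' : (t : F) = be / al := rfl
  have hconj : (dM t)⁻¹ * g * dM t = GeneralLinearGroup.mkOfDetNeZero
      !![g 0 0, (t : F)⁻¹ * g 0 1; (t : F) * g 1 0, g 1 1] (by
        rw [Matrix.det_fin_two_of]
        have h0 : (g : Matrix (Fin 2) (Fin 2) F).det ≠ 0 := g.det.ne_zero
        rw [Matrix.det_fin_two] at h0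
        have h1 : (t : F)⁻¹ * g 0 1 * ((t : F) * g 1 0) = g 0 1 * g 1 0 := by
          field_simp
        rw [h1]
        exact h0) := by
    rw [mul_assoc, inv_mul_eq_iff_eq_mul]
    ext i j
    rw [Units.val_mul, Units.val_mul]
    fin_cases i <;> fin_cases j <;>
      simp [Matrix.mul_apply, Fin.sum_univ_two, coe_dM, GeneralLinearGroup.mkOfDetNeZero, mul_comm]
  refine ⟨(dM t)⁻¹ * g * dM t, 1, !![g 0 0 - 1, (t : F)⁻¹ * g 0 1; (t : F) * g 1 0, g 1 1 - 1],
    by rw [map_mul, map_mul, map_inv], one_ne_zero, ?_, ?_⟩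
  · rw [hconj, one_smul]
    ext i j
    fin_cases i <;> fin_cases j <;> simp [GeneralLinearGroup.mkOfDetNeZero]
  · have e00 := (hA _ g00).trans hMal
    have e11 := (hA _ g11).trans hMal
    have e01 : v.valuation F ((t : F)⁻¹ * g 0 1) ≤ exp (-(M : ℤ)) := by
      refine le_trans ?_ hMal
      rw [ht', map_mul, map_inv₀, map_div₀, inv_div]
      calc v.valuation F al / v.valuation F be * v.valuation F (g 0 1)
          ≤ v.valuation F al / v.valuation F be * v.valuation F be :=
            mul_le_mul_right (hB _ g01) _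
        _ = v.valuation F al := div_mul_cancel₀ _ vb0
    have e10 : v.valuation F ((t : F) * g 1 0) ≤ exp (-(M : ℤ)) := by
      refine le_trans ?_ hMal
      rw [ht', map_mul, map_div₀]
      calc v.valuation F be / v.valuation F al * v.valuation F (g 1 0)
          ≤ v.valuation F be / v.valuation F al * v.valuation F ga :=
            mul_le_mul_right (hC _ g10) _
        _ = v.valuation F be * v.valuation F ga / v.valuation F al := by
            rw [div_mul_eq_mul_div]
        _ ≤ v.valuation F al * v.valuation F al / v.valuation F al := by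
            rw [div_eq_mul_inv, div_eq_mul_inv]
            exact mul_le_mul_left hbc _
        _ = v.valuation F al := mul_div_cancel_right₀ _ va0
    intro i j
    fin_cases i <;> fin_cases j
    · exact e00
    · exact e01
    · exact e10
    · exact e11

/-- **`hbad` of `geom_of_local`**, from the data `H43Z.NS` at a bad nonsplit place. -/
theorem suppOK_bad (C : CSetup F E) (hζ : IsPrimitiveRoot ζ 3) (hv : v ∈ C.SF)
    {w : HeightOneSpectrum (𝓞 E)} (hw : w ∈ above E v) {D : SD E} {κ : ℤᵐ⁰} {π al be ga : F}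
    (h : H43Z.NS C.s w v (C.TE w) (C.TF v) D κ π al be ga)
    (hal : v.valuation F al < v.valuation F (ζ - 1) ^ 3) : H94W.SuppOK E ζ v (C.kF.D.e v) := by
  have hbc : v.valuation F be * v.valuation F ga ≤ v.valuation F al * v.valuation F al := by
    have h1 := h.bc
    rw [← map_mul, ← map_mul, ← map_mul, ← map_mul, valuation_above hw, valuation_above hw] at h1
    have h2 := (pow_le_pow_iff_left₀ zero_le zero_le (ramificationIdx'_ne_zero hw)).mp h1
    rwa [map_mul, map_mul] at h2
  refine suppOK_typ hζ (C.kF.e_typ v hv) h.al0 h.be0 (fun x hx => ?_) (fun x hx => ?_)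
    (fun x hx => ?_) hbc hal
  · rw [h.A'] at hx
    exact hx
  · rw [h.B'] at hx
    exact hx
  · rw [h.C'] at hx
    exact hx

end Fermat.Agent.H94Y

end
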