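import Fermat.Agent.H57CFin
import Fermat.Agent.H68G1
import Fermat.Agent.H61K11
import Fermat.Agent.H94ZBad

/-!
# Block (C) of S47: GEOM on helper79's setup, part 3

`PM0at_good`: the local matchings at all good places.
`geom_of_bad`: `C.Geom` from the local matchings at the bad places.
-/

set_option linter.unusedSectionVars false

noncomputable section

namespace Fermat.Agent.H57C

open MeasureTheory Filter H59D H59XF IsDedekindDomain NumberField Matrix H79S
open scoped ENNReal MatrixGroups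
open H20.S47 (incP sP nP EllReg)

variable {F E : Type} [Field F] [NumberField F] [Field E] [NumberField E] [Algebra F E]
  (C : CSetup F E)

theorem PM0at_good {n : HeightOneSpectrum (𝓞 E) →₀ ℕ} (hn : C.OkN n) (k : ℕ)
    {v : HeightOneSpectrum (𝓞 F)} (hv : v ∉ C.SF) (hv0 : v ≠ C.v0) : PM0at C n k v := by
  by_cases hns : H82.NonSplit E v
  · exact H61K.cs_pm0_inert C hn k (3 * k) (below_σ C) hv hv0 hns (HT_good C hv)
  · exact H68G.pm0_split C n k hv hns (below_σ C) (HT_good C hv)

/-- **`C.Geom` from the local matchings at the bad places.** -/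
theorem geom_of_bad {ζ : F} (hζ : IsPrimitiveRoot ζ 3)
    (h3v : ∀ v ∉ C.SF, v.valuation F (3 : F) = 1)
    (hb : ∀ v ∈ C.SF, ∃ c : PGL(2, F), ∀ g ∈ (C.TF v).H, c⁻¹ * g * c ∈ U0 v)
    (hsupp : ∀ v ∈ C.SF, H82.NonSplit E v → H94W.SuppOK E ζ v (C.kF.D.e v))
    (hbad : ∀ v ∈ C.SF, PMat C 0 0 v) : C.Geom :=
  geom_of_PM C hζ h3v hb hsupp hbad fun _ hn k _ hv hv0 => PM0at_good C hn k hv hv0

end Fermat.Agent.H57C
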