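import Fermat.Agent.H76V1
import Fermat.Agent.H43ZDef

/-!
# S47, [TYPE-INST]: the output (helper76)

`TInst F E s k c₀` : types at all places of `F` and `E`, compatible with `E/F` cyclic of degree
three and with the automorphism `s`, as deep as prescribed.
-/

set_option autoImplicit false
set_option linter.unusedSectionVars false

noncomputable section

open IsDedekindDomain HeightOneSpectrum WithZero NumberField Matrix
open scoped MatrixGroups

namespace Fermat.Agent.H76V

open Fermat.Agent.H59XF Fermat.Agent.H59D Fermat.Agent.H76U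

/-- Types at all places of `F` and `E`. -/
structure TInst (F E : Type*) [Field F] [NumberField F] [Field E] [NumberField E] [Algebra F E]
    (s : E ≃ₐ[F] E) (k c₀ : ℕ) where
  TF : HeightOneSpectrum (𝓞 F) → TD F
  TE : HeightOneSpectrum (𝓞 E) → TD E
  niceF : ∀ v, Nice v (TF v) k c₀
  niceE : ∀ w, Nice w (TE w) k c₀
  psiF : ∀ v x, (TF v).psi x = H7.Z.psi v x
  psiE : ∀ w x, (TE w).psi x = H7.Z.psi w x
  /-- `B` contains the dual of the integers -/
  lowB : ∀ v (b : F), (∀ r : F, v.valuation F r ≤ 1 → H7.Z.psi v (b * r) = 1) → b ∈ (TF v).B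
  /-- stability under `s` -/
  stab : ∀ w w' : HeightOneSpectrum (𝓞 E), (∀ x, w'.valuation E (s x) = w.valuation E x) →
    ∀ x, (s x ∈ (TE w').A ↔ x ∈ (TE w).A) ∧ (s x ∈ (TE w').B ↔ x ∈ (TE w).B) ∧
      (s x ∈ (TE w').C ↔ x ∈ (TE w).C)
  /-- at split places the type over `F` is the restriction of the type over `E` -/
  split : ∀ v, ¬ H82.NonSplit E v → ∀ w ∈ H82.above E v, ∀ x : F,
    (algebraMap F E x ∈ (TE w).A ↔ x ∈ (TF v).A) ∧ (algebraMap F E x ∈ (TE w).B ↔ x ∈ (TF v).B) ∧
      (algebraMap F E x ∈ (TE w).C ↔ x ∈ (TF v).C) ∧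
      (TE w).psi (algebraMap F E x) = (TF v).psi x
  /-- at nonsplit places the type over `E` is self-dual -/
  ns : ∀ v, H82.NonSplit E v → ∀ w ∈ H82.above E v,
    ∃ (D : SD E) (κ : ℤᵐ⁰) (π al be ga : F), H43Z.NS s w v (TE w) (TF v) D κ π al be ga
  /-- at nonsplit places the characters are related by the trace -/
  psi_tr : ∀ v, H82.NonSplit E v → ∀ w ∈ H82.above E v, ∀ x : E,
    (TE w).psi x = (TF v).psi (Algebra.trace F E x)

end Fermat.Agent.H76V
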