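import Fermat.Agent.H76U2
import Fermat.Agent.H83ZInst2

/-!
# S47, block (C): types under automorphisms (helper22)

`T`, `T'` lattice data of types on `K`, `s : K ≃+* K` with `s x ∈ T'.A ↔ x ∈ T.A` (same for `B`,
`C`) and `T'.psi (s x) = T.psi x`: then `s` maps `T.H`, `T.chi`, `T.U` to `T'.H`, `T'.chi`, `T'.U`.
-/

set_option autoImplicit false
set_option linter.unusedSectionVars false

noncomputable section

open IsDedekindDomain HeightOneSpectrum WithZero NumberField Matrix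
open scoped MatrixGroups

namespace Fermat.Agent.H22C

open Fermat.Agent.H76U

variable {K : Type*} [Field K] [NumberField K] (s : K ≃+* K) {T T' : TD K}

section

variable (hA : ∀ x, s x ∈ T'.A ↔ x ∈ T.A) (hB : ∀ x, s x ∈ T'.B ↔ x ∈ T.B)
  (hC : ∀ x, s x ∈ T'.C ↔ x ∈ T.C)

include hA hB hC

theorem mem_GH_map (g : GL (Fin 2) K) :
    g ∈ T.GH ↔ GeneralLinearGroup.map (s : K →+* K) g ∈ T'.GH := by
  have h1 : ∀ i j, (GeneralLinearGroup.map (s : K →+* K) g) i j = s (g i j) := fun i j => rfl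
  rw [T.mem_GH, T'.mem_GH, h1, h1, h1, h1]
  have e : ∀ x : K, s x - 1 = s (x - 1) := fun x => by rw [map_sub, map_one]
  rw [e, e, hA, hA, hB, hC]

theorem mem_H_map (g : PGL(2, K)) :
    g ∈ T.H ↔ (ProjGenLinGroup.map (s : K →+* K) g : PGL(2, K)) ∈ T'.H :=
  H83Z.map_mem_of_stable s T.GH T'.GH (mem_GH_map s hA hB hC) g

end

theorem chi_map (hpsi : ∀ x, T'.psi (s x) = T.psi x) (g : PGL(2, K)) :
    T'.chi (ProjGenLinGroup.map (s : K →+* K) g) = T.chi g := by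
  obtain ⟨x, rfl⟩ := ProjGenLinGroup.mk_surjective g
  rw [H83Z.map_mk, T.chi_mk, T'.chi_mk]
  have h1 : ∀ i j, (GeneralLinearGroup.map (s : K →+* K) x) i j = s (x i j) := fun i j => rfl
  rw [h1, h1, ← map_div₀, hpsi]

theorem mem_U_map (hA : ∀ x, s x ∈ T'.A ↔ x ∈ T.A) (hB : ∀ x, s x ∈ T'.B ↔ x ∈ T.B)
    (hC : ∀ x, s x ∈ T'.C ↔ x ∈ T.C) (hpsi : ∀ x, T'.psi (s x) = T.psi x) (g : PGL(2, K)) :
    g ∈ T.U ↔ (ProjGenLinGroup.map (s : K →+* K) g : PGL(2, K)) ∈ T'.U := by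
  rw [T.mem_U, T'.mem_U, ← mem_H_map s hA hB hC, chi_map s hpsi]

end Fermat.Agent.H22C
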