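import Fermat.Agent.H7ZPsi
import Fermat.Agent.H83ZInst1
import Fermat.Agent.H82Kummer

/-!
# S47, block (C) (helper92): the local additive characters under automorphisms and extensions

`H7.Z.psi w` is the local component of the standard additive character of a number field.

* `psi_aut` : compatibility with automorphisms.
* `val_trace_le_one` : traces of integral elements are integral, at one place.
* `prod_psi_above` : `∏_{w | v} ψ_w (x) = ψ_v (Tr x)`.
* `psi_nonsplit` : `ψ_w (x) = ψ_v (Tr x)` if `w` is the only place above `v`.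
* `psi_split` : `ψ_w (x) = ψ_v (x)` for `x ∈ F` if the decomposition group of `w` is trivial.
* `trace_cubic` : `Tr x = x + s x + s (s x)`.
-/

set_option autoImplicit false

open IsDedekindDomain HeightOneSpectrum WithZero NumberField

noncomputable section

namespace Fermat.Agent.H92P

open Fermat.Agent.H7.Z

section Aut

variable {K : Type*} [Field K] [NumberField K]

theorem trace_ringEquiv {K' : Type*} [Field K'] [NumberField K'] (s : K ≃+* K') (x : K) :
    Algebra.trace ℚ K' (s x) = Algebra.trace ℚ K x := by
  let s' : K ≃ₐ[ℚ] K' := AlgEquiv.ofRingEquiv (f := s) (fun q => by simp)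
  exact Algebra.trace_eq_of_algEquiv s' x

/-- The local characters are compatible with automorphisms. -/
theorem psi_aut (s : K ≃+* K) {w w' : HeightOneSpectrum (𝓞 K)}
    (σ : Equiv.Perm (HeightOneSpectrum (𝓞 K)))
    (hσ : ∀ u x, (σ u).valuation K (s x) = u.valuation K x) (hw : σ w = w') (x : K) :
    psi w' (s x) = psi w x := by
  subst hw
  obtain ⟨h1, h2⟩ := part_spec w x
  rw [psi_eq w h1 h2, psi_eq (σ w) (β' := s (part w x)) ?_ ?_, trace_ringEquiv]
  · rw [← map_sub, hσ]
    exact h1
  · intro u hu
    obtain ⟨u', rfl⟩ := σ.surjective u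
    rw [hσ]
    exact h2 u' (fun h => hu (by rw [h]))

end Aut

section Ext

variable {F E : Type*} [Field F] [NumberField F] [Field E] [NumberField E] [Algebra F E]

theorem val_le_one_iff {v : HeightOneSpectrum (𝓞 F)} {w : HeightOneSpectrum (𝓞 E)}
    (hw : w ∈ H82.above E v) (x : F) :
    w.valuation E (algebraMap F E x) ≤ 1 ↔ v.valuation F x ≤ 1 := by
  rw [H82.valuation_above hw]
  exact pow_le_one_iff (H82.ramificationIdx'_ne_zero hw)

variable [IsGalois F E]

/-- The trace of an element which is integral above `v` is integral at `v`. -/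
theorem val_trace_le_one {v : HeightOneSpectrum (𝓞 F)} {y : E}
    (h : ∀ w ∈ H82.above E v, w.valuation E y ≤ 1) :
    v.valuation F (Algebra.trace F E y) ≤ 1 := by
  obtain ⟨w, hw⟩ := H47.above_nonempty (L := E) v
  rw [← val_le_one_iff hw, trace_eq_sum_automorphisms]
  refine Valuation.map_sum_le _ fun g _ => ?_
  have h1 : w.valuation E (g y) = (H47.smulPlace g⁻¹ w).valuation E y := by
    rw [← H47.valuation_smulPlace g (H47.smulPlace g⁻¹ w) y, ← H83Z.smulPlace_mul, mul_inv_cancel,
      H83Z.smulPlace_one]
  rw [h1]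
  exact h _ (H47.smulPlace_mem_above g⁻¹ hw)

/-- **The product formula over one place.** -/
theorem prod_psi_above {v : HeightOneSpectrum (𝓞 F)} (S : Finset (HeightOneSpectrum (𝓞 E)))
    (hS : ∀ w, w ∈ S ↔ w ∈ H82.above E v) (x : E) :
    ∏ w ∈ S, psi w x = psi v (Algebra.trace F E x) := by
  classical
  have hint : ∀ w ∈ S, w.valuation E (x - ∑ u ∈ S, part u x) ≤ 1 := by
    intro w hw
    have e : x - ∑ u ∈ S, part u x = (x - part w x) - ∑ u ∈ S.erase w, part u x := by
      rw [← Finset.add_sum_erase S _ hw]
      ring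
    rw [e]
    refine (Valuation.map_sub _ _ _).trans (max_le (part_spec w x).1
      (Valuation.map_sum_le _ fun u hu => ?_))
    exact (part_spec u x).2 w (Finset.ne_of_mem_erase hu).symm
  have hout : ∀ w, w ∉ S → w.valuation E (∑ u ∈ S, part u x) ≤ 1 := by
    intro w hw
    refine Valuation.map_sum_le _ fun u hu => ?_
    exact (part_spec u x).2 w (fun h => hw (h ▸ hu))
  rw [psi_eq v (β' := Algebra.trace F E (∑ u ∈ S, part u x))]
  · have h1 : ∀ w ∈ S, psi w x = ee (-Algebra.trace ℚ E (part w x)) := fun w _ =>
      psi_eq w (part_spec w x).1 (part_spec w x).2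
    rw [Finset.prod_congr rfl h1, Algebra.trace_trace, map_sum, ← Finset.sum_neg_distrib]
    have h2 : ∀ (T : Finset (HeightOneSpectrum (𝓞 E))) (f : HeightOneSpectrum (𝓞 E) → ℚ),
        ∏ w ∈ T, ee (f w) = ee (∑ w ∈ T, f w) := by
      intro T f
      induction T using Finset.induction_on with
      | empty => simp [ee_zero]
      | insert a T ha ih => rw [Finset.prod_insert ha, Finset.sum_insert ha, ee_add, ih]
    exact h2 _ _
  · rw [← map_sub]
    exact val_trace_le_one fun w hw => hint w ((hS w).2 hw)
  · intro v' hv'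
    refine val_trace_le_one fun w hw => hout w fun hwS => hv' ?_
    have h1 := (hS w).1 hwS
    exact HeightOneSpectrum.ext (hw.symm.trans h1)

/-- The local character at a place `w` which is the only place above `v`. -/
theorem psi_nonsplit {v : HeightOneSpectrum (𝓞 F)} {w : HeightOneSpectrum (𝓞 E)}
    (h : ∀ u, u ∈ H82.above E v ↔ u = w) (x : E) :
    psi w x = psi v (Algebra.trace F E x) := by
  rw [← prod_psi_above (v := v) {w} (fun u => by rw [Finset.mem_singleton, h]) x,
    Finset.prod_singleton]

/-- The local character at a place with trivial decomposition group. -/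
theorem psi_split {v : HeightOneSpectrum (𝓞 F)} {w : HeightOneSpectrum (𝓞 E)}
    (hw : w ∈ H82.above E v) (hdec : ∀ g : E ≃ₐ[F] E, H47.smulPlace g w = w → g = 1) (x : F) :
    psi w (algebraMap F E x) = psi v x := by
  classical
  obtain ⟨h1, h2⟩ := part_spec w (algebraMap F E x)
  rw [psi_eq w h1 h2, psi_eq v (β' := Algebra.trace F E (part w (algebraMap F E x))),
    Algebra.trace_trace]
  · rw [← val_le_one_iff hw, map_sub, trace_eq_sum_automorphisms,
      ← Finset.add_sum_erase _ _ (Finset.mem_univ (1 : E ≃ₐ[F] E))]
    have e : ∀ a b c : E, a - (b + c) = (a - b) - c := fun a b c => by ring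
    rw [e]
    refine (Valuation.map_sub _ _ _).trans (max_le h1 (Valuation.map_sum_le _ fun g hg => ?_))
    have h3 : w.valuation E (g (part w (algebraMap F E x))) =
        (H47.smulPlace g⁻¹ w).valuation E (part w (algebraMap F E x)) := by
      rw [← H47.valuation_smulPlace g (H47.smulPlace g⁻¹ w), ← H83Z.smulPlace_mul, mul_inv_cancel,
        H83Z.smulPlace_one]
    rw [h3]
    refine h2 _ fun h => Finset.ne_of_mem_erase hg ?_
    exact inv_eq_one.1 (hdec _ h)
  · intro v' hv'
    refine val_trace_le_one fun u hu => h2 u fun huw => hv' ?_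
    subst huw
    exact HeightOneSpectrum.ext (hu.symm.trans hw)

end Ext

section Cubic

variable {F E : Type*} [Field F] [Field E] [Algebra F E] [FiniteDimensional F E] [IsGalois F E]

/-- The trace in a cyclic cubic extension. -/
theorem trace_cubic (h3 : Module.finrank F E = 3) (s : E ≃ₐ[F] E) (hs : s ≠ 1) (x : E) :
    algebraMap F E (Algebra.trace F E x) = x + s x + s (s x) := by
  classical
  have hs3 : s ^ 3 = 1 := H83Z.s_pow_three h3 s
  have hs2 : s ^ 2 ≠ 1 := by
    intro h
    apply hs
    have : s ^ 3 = s ^ 2 * s := pow_succ s 2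
    rw [hs3, h, one_mul] at this
    exact this.symm
  have hs12 : s ≠ s ^ 2 := by
    intro h
    apply hs
    have : s * 1 = s * s := by rw [mul_one, ← pow_two]; exact h
    exact (mul_left_cancel this).symm
  rw [trace_eq_sum_automorphisms]
  have huniv : (Finset.univ : Finset (E ≃ₐ[F] E)) = {1, s, s ^ 2} := by
    ext g
    simp only [Finset.mem_univ, Finset.mem_insert, Finset.mem_singleton, true_iff]
    obtain ⟨i, hi, rfl⟩ := H83Z.exists_pow_eq h3 s hs g
    interval_cases i
    · left; exact pow_zero s
    · right; left; exact pow_one s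
    · right; right; rfl
  rw [huniv, Finset.sum_insert, Finset.sum_insert, Finset.sum_singleton, pow_two]
  · show x + (s x + s (s x)) = _
    ring
  · simpa using hs12
  · simp only [Finset.mem_insert, Finset.mem_singleton, not_or]
    exact ⟨fun h => hs h.symm, fun h => hs2 h.symm⟩

end Cubic

section CubicPlace

variable {F E : Type*} [Field F] [NumberField F] [Field E] [NumberField E] [Algebra F E]
  [IsGalois F E]

/-- The local character at a split place of a cyclic cubic extension. -/
theorem psi_split_cubic (h3 : Module.finrank F E = 3) (s : E ≃ₐ[F] E) (hs : s ≠ 1)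
    {v : HeightOneSpectrum (𝓞 F)} {w : HeightOneSpectrum (𝓞 E)} (hw : w ∈ H82.above E v)
    (hsw : H83Z.placePerm s w ≠ w) (x : F) :
    psi w (algebraMap F E x) = psi v x := by
  refine psi_split hw (fun g hg => ?_) x
  obtain ⟨i, hi, rfl⟩ := H83Z.exists_pow_eq h3 s hs g
  rw [← H83Z.placePerm_pow] at hg
  interval_cases i
  · exact pow_zero s
  · exact absurd hg (by simpa using hsw)
  · exfalso
    apply hsw
    have h1 : (H83Z.placePerm s ^ 3) w = w := by
      rw [H83Z.placePerm_pow, H83Z.s_pow_three h3 s, H83Z.smulPlace_one]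
    rw [pow_succ', Equiv.Perm.mul_apply, hg] at h1
    exact h1

/-- The restriction to `F` of the local character at a nonsplit place is `ψ_v ^ 3`. -/
theorem psi_nonsplit_algebraMap {v : HeightOneSpectrum (𝓞 F)} {w : HeightOneSpectrum (𝓞 E)}
    (h : ∀ u, u ∈ H82.above E v ↔ u = w) (x : F) :
    psi w (algebraMap F E x) = psi v x ^ Module.finrank F E := by
  rw [psi_nonsplit h, Algebra.trace_algebraMap, AddChar.map_nsmul_eq_pow]

end CubicPlace

end Fermat.Agent.H92P
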