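import Mathlib
import Fermat.Agent.H83ZInst4
import Fermat.Agent.H22Stab
import Fermat.Agent.H92Psi
import Fermat.Agent.H51ZKD2
import Fermat.Agent.H79SBlk
import Fermat.Agent.H76VDef

/-!
# S47, block (C): construction of the concrete models, part 5: the setup from the types

* `cinOf` : the record `CIn` from helper76's types `H76V.TInst`;
* `exists_setup` : the setup `H79S.CSetup`.
-/

set_option autoImplicit false
set_option linter.unusedSectionVars false
set_option linter.unusedVariables false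

noncomputable section

open IsDedekindDomain HeightOneSpectrum WithZero NumberField Matrix
open scoped MatrixGroups

namespace Fermat.Agent.H83Z

open Fermat.Agent.H59D Fermat.Agent.H76U
open Fermat.Agent.H46Z (divs mem_divs InertEx)

theorem exists_aut_ne_one {F E : Type*} [Field F] [Field E] [Algebra F E] [FiniteDimensional F E]
    [IsGalois F E] (h3 : Module.finrank F E = 3) : ∃ s : E ≃ₐ[F] E, s ≠ 1 := by
  have hc : Nat.card (E ≃ₐ[F] E) = 3 := by rw [IsGalois.card_aut_eq_finrank, h3]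
  by_contra hcon
  push Not at hcon
  have : Subsingleton (E ≃ₐ[F] E) := ⟨fun a b => by rw [hcon a, hcon b]⟩
  have h1 : Nat.card (E ≃ₐ[F] E) = 1 := Nat.card_unique
  omega

variable {M E : Type} [Field M] [NumberField M] [IsCyclotomicExtension {3} ℚ M] [Field E]
    [NumberField E] [Algebra M E] [IsGalois M E] {s : E ≃ₐ[M] E} {k c₀ N₀ : ℕ}

/-- **The record `CIn` from the types.** -/
def cinOf (hdeg : Module.finrank M E = 3) (e : E →+* ℂ) (hs : s ≠ 1) (hN₀ : N₀ ≠ 0)
    (t : H76V.TInst M E s k c₀)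
    (h : (∀ v ∉ divs M N₀, ∀ w ∈ H82.above E v, v.asIdeal.ramificationIdx' w.asIdeal = 1) ∧
      (∀ w ∉ divs E N₀, H7.Z.Unram w) ∧ (∀ v ∉ divs M N₀, H7.Z.Unram v))
    {v0 : HeightOneSpectrum (𝓞 M)} {w0 : HeightOneSpectrum (𝓞 E)} (hv0 : v0 ∉ divs M N₀)
    (hw0 : w0 ∉ divs E N₀) (hab : H82.above E v0 = {w0}) : CIn M E where
  h2 := finrank_two
  h3 := hdeg
  gal := inferInstance
  cF := totallyComplex_M
  cE := haveI := totallyComplex_M (M := M); isTotallyComplex_of_algebra (F := M)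
  e₀ := e
  s := s
  hs := hs
  SF := divs M N₀
  SE := divs E N₀
  mem_SE w := mem_divs_below hN₀ w
  v0 := v0
  w0 := w0
  above_v0 := hab
  unr := h.1
  unramE := h.2.1
  unramF := h.2.2
  TE := t.TE
  TF := t.TF
  psiE w _ := t.psiE w
  psiF v _ := t.psiF v
  TE_s w _ := t.stab w _ (placePerm_val s w)
  TE_U w _ g := by
    refine H22C.mem_U_map (s : E ≃+* E) (fun x => (t.stab w _ (placePerm_val s w) x).1)
      (fun x => (t.stab w _ (placePerm_val s w) x).2.1)
      (fun x => (t.stab w _ (placePerm_val s w) x).2.2) (fun x => ?_) g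
    rw [t.psiE, t.psiE]
    exact H92P.psi_aut (s : E ≃+* E) (placePerm s) (placePerm_val s) rfl x
  levE := ⟨hw0, fun w _ => (t.niceE w).gam, fun w _ => (t.niceE w).bdd⟩
  levF := ⟨hv0, fun v _ => (t.niceF v).gam, fun v _ => (t.niceF v).bdd⟩
  indexE w _ := (t.niceE w).idx
  indexF v _ := (t.niceF v).idx
  dualE w _ x hx := (t.niceE w).dual _ fun b hb => hx b hb
  dualF v _ x hx := (t.niceF v).dual _ fun b hb => hx b hb
  lowF v _ := ⟨t.lowB v, (t.niceF v).lowC⟩

/-- **The setup from the types.** -/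
theorem exists_setup (hdeg : Module.finrank M E = 3) (e : E →+* ℂ) (hs : s ≠ 1)
    (hI : InertEx M E) (hN₀ : N₀ ≠ 0)
    (h : (∀ v ∉ divs M N₀, ∀ w ∈ H82.above E v, v.asIdeal.ramificationIdx' w.asIdeal = 1) ∧
      (∀ w ∉ divs E N₀, H7.Z.Unram w) ∧ (∀ v ∉ divs M N₀, H7.Z.Unram v))
    (t : H76V.TInst M E s k c₀) :
    ∃ C : H79S.CSetup M E, C.s = s ∧ C.TE = t.TE ∧ C.TF = t.TF ∧ C.SF = divs M N₀ ∧
      C.SE = divs E N₀ ∧ C.mF.e 0 = e.comp (algebraMap M E) := by
  obtain ⟨v0, w0, hv0, hw0, hab⟩ := exists_v0 (F := M) (E := E) hI hN₀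
  let C := cinOf hdeg e hs hN₀ t h hv0 hw0 hab
  obtain ⟨kE⟩ := H51Z.exists_kerData C.mE C.SE C.w0 C.TE C.levE.w0S
    (fun w hw => lev_S C.levE hw) (fun w hw h0 => lev_good C.levE hw h0) (lev_w0 C.levE) C.indexE
  obtain ⟨kF⟩ := H51Z.exists_kerData C.mF C.SF C.v0 C.TF C.levF.w0S
    (fun w hw => lev_S C.levF hw) (fun w hw h0 => lev_good C.levF hw h0) (lev_w0 C.levF) C.indexF
  exact ⟨C.csetup kE kF, rfl, rfl, rfl, rfl, rfl, rfl⟩

end Fermat.Agent.H83Z
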