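import Fermat.Agent.H57CDict
import Fermat.Agent.H79SDef
import Fermat.Agent.H26ZCut

/-!
# Block (C) of S47: GEOM on helper79's setup, part 1 (set-up)

Facts on `C : CSetup F E`: the permutation of the places, the fibres of `below`; the third level
`HT C v`, the third model `mT`; the local statements `PMat`, `PM0at`; `geomC`: `C.Geom` from the
local statements and the convergence / norm statements.
-/

set_option linter.unusedSectionVars false

noncomputable section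

namespace Fermat.Agent.H57C

open MeasureTheory Filter H59D H59XF IsDedekindDomain NumberField Matrix H79S
open scoped ENNReal MatrixGroups
open H20.S47 (incP sP nP EllReg)

theorem eq_of_valuation {K : Type*} [Field K] [NumberField K] {v w : HeightOneSpectrum (𝓞 K)}
    (h : ∀ x : K, v.valuation K x = w.valuation K x) : v = w := by
  apply HeightOneSpectrum.ext
  ext x
  rw [← HeightOneSpectrum.valuation_lt_one_iff_mem (K := K) v,
    ← HeightOneSpectrum.valuation_lt_one_iff_mem (K := K) w, h]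

variable {F E : Type} [Field F] [NumberField F] [Field E] [NumberField E] [Algebra F E]
  (C : CSetup F E)

theorem σ_eq (w : HeightOneSpectrum (𝓞 E)) : C.aE.σ w = H83Z.placePerm C.s w := by
  apply eq_of_valuation
  intro x
  obtain ⟨y, rfl⟩ := C.s.surjective x
  rw [H83Z.placePerm_val, ← C.s_eq, C.aE.val]

theorem below_σ (w : HeightOneSpectrum (𝓞 E)) :
    H47.below F (C.aE.σ w) = H47.below F w := by
  rw [σ_eq, H83Z.below_placePerm]

theorem s3 (x : E) : C.s (C.s (C.s x)) = x := by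
  have := C.gal
  exact H83Z.s_app_three C.h3 C.s x

theorem s_ne : C.s ≠ AlgEquiv.refl := C.hs

theorem s_fix (x : E) (hx : C.s x = x) : x ∈ Set.range (algebraMap F E) := by
  have := C.gal
  exact H83Z.fixed_of_s C.h3 C.s C.hs hx

theorem σ_three (w : HeightOneSpectrum (𝓞 E)) : C.aE.σ (C.aE.σ (C.aE.σ w)) = w := by
  have := C.gal
  rw [σ_eq, σ_eq, σ_eq, H83Z.placePerm_three C.h3]

theorem twist_s (g : PGL(2, E)) : C.aE.twist.s g = sP C.s g := by
  have : (C.aE.s : E →+* E) = ((C.s : E →+* E)) := by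
    ext x
    exact C.s_eq x
  show ProjGenLinGroup.map (C.aE.s : E →+* E) g = ProjGenLinGroup.map (C.s : E →+* E) g
  rw [this]

theorem mem_above_iff (v : HeightOneSpectrum (𝓞 F)) (w : HeightOneSpectrum (𝓞 E)) :
    w ∈ H82.above E v ↔ H47.below F w = v :=
  ⟨fun h => (H47.eq_below_of_mem_above h).symm, fun h => h ▸ H47.mem_above_below w⟩

include C in
theorem fib_finite (v : HeightOneSpectrum (𝓞 F)) :
    {w : HeightOneSpectrum (𝓞 E) | H47.below F w = v}.Finite := by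
  have := C.gal
  refine (H83Z.above_finite C.h3 C.s C.hs v).subset ?_
  intro w hw
  exact (mem_above_iff v w).2 hw

/-- nonsplit: `σ w = w` -/
theorem nonSplit_iff {v : HeightOneSpectrum (𝓞 F)} {w : HeightOneSpectrum (𝓞 E)}
    (hw : H47.below F w = v) : H82.NonSplit E v ↔ C.aE.σ w = w := by
  have := C.gal
  rw [σ_eq]
  exact H83Z.nonSplit_iff C.h3 C.s C.hs ((mem_above_iff v w).2 hw)

theorem exists_above (v : HeightOneSpectrum (𝓞 F)) :
    ∃ w : HeightOneSpectrum (𝓞 E), H47.below F w = v := by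
  obtain ⟨w, hw⟩ := H47.above_nonempty (L := E) v
  exact ⟨w, (mem_above_iff v w).1 hw⟩

/-- the places over a nonsplit place -/
theorem below_iff_of_nonSplit {v : HeightOneSpectrum (𝓞 F)} {w : HeightOneSpectrum (𝓞 E)}
    (hw : H47.below F w = v) (hv : H82.NonSplit E v) (i : HeightOneSpectrum (𝓞 E)) :
    H47.below F i = v ↔ i = w := by
  obtain ⟨a, ha⟩ := Set.ncard_eq_one.1 hv
  have h1 : w ∈ ({a} : Set _) := ha ▸ (mem_above_iff v w).2 hw
  rw [Set.mem_singleton_iff] at h1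
  rw [← mem_above_iff v i, ha, Set.mem_singleton_iff, h1]

/-- the places over a split place -/
theorem cover_split {v : HeightOneSpectrum (𝓞 F)} {w : HeightOneSpectrum (𝓞 E)}
    (hw : H47.below F w = v) (i : HeightOneSpectrum (𝓞 E)) (hi : H47.below F i = v) :
    i = w ∨ i = C.aE.σ w ∨ i = C.aE.σ (C.aE.σ w) := by
  have := C.gal
  rw [σ_eq, σ_eq]
  exact (H83Z.mem_above_iff_exists C.h3 C.s C.hs ((mem_above_iff v w).2 hw)).1
    ((mem_above_iff v i).2 hi)

theorem σ_ne_of_split {v : HeightOneSpectrum (𝓞 F)} {w : HeightOneSpectrum (𝓞 E)}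
    (hw : H47.below F w = v) (hv : ¬ H82.NonSplit E v) : C.aE.σ w ≠ w := fun h =>
  hv ((nonSplit_iff C hw).2 h)

theorem below_w0 : H47.below F C.w0 = C.v0 := by
  have h : C.w0 ∈ H82.above E C.v0 := by
    rw [C.above_v0]
    rfl
  exact (mem_above_iff _ _).1 h

theorem nonSplit_v0 : H82.NonSplit E C.v0 := by
  unfold H82.NonSplit
  rw [C.above_v0, Set.ncard_singleton]

theorem σ_w0 : C.aE.σ C.w0 = C.w0 := (nonSplit_iff C (below_w0 C)).1 (nonSplit_v0 C)

open Classical in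
/-- the group of the third level at `v` -/
def HT (v : HeightOneSpectrum (𝓞 F)) : Subgroup PGL(2, F) :=
  if v ∈ C.SF ∧ H82.NonSplit E v then (C.TF v).H else C.mF.L.U v

theorem HT_bad {v : HeightOneSpectrum (𝓞 F)} (h : v ∈ C.SF) (hv : H82.NonSplit E v) :
    HT C v = (C.TF v).H := if_pos ⟨h, hv⟩

theorem HT_split {v : HeightOneSpectrum (𝓞 F)} (hv : ¬ H82.NonSplit E v) :
    HT C v = C.mF.L.fam.U v := if_neg fun h => hv h.2

theorem HT_good {v : HeightOneSpectrum (𝓞 F)} (hv : v ∉ C.SF) :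
    HT C v = C.mF.L.fam.U v := if_neg fun h => hv h.1

open Classical in
/-- the third level -/
def LT (hb : ∀ v ∈ C.SF, ∃ c : PGL(2, F), ∀ g ∈ (C.TF v).H, c⁻¹ * g * c ∈ U0 v) :
    Level (𝓞 F) F where
  U := HT C
  fin := by
    refine (C.SF.finite_toSet.union (Set.finite_singleton C.v0)).subset ?_
    intro v hv
    by_contra hcon
    simp only [Set.mem_union, Finset.mem_coe, Set.mem_singleton_iff, not_or] at hcon
    apply hv
    rw [HT_good C hcon.1]
    exact C.kF.lev_good v hcon.1 hcon.2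
  isOpen v := by
    by_cases h : v ∈ C.SF ∧ H82.NonSplit E v
    · obtain ⟨n, hn⟩ := C.mF.L.isOpen v
      refine ⟨n, ?_⟩
      rw [HT_bad C h.1 h.2]
      rw [C.kF.lev_S v h.1] at hn
      exact hn.trans fun g hg => hg.1
    · have : HT C v = C.mF.L.U v := if_neg h
      rw [this]
      exact C.mF.L.isOpen v
  bdd v := by
    by_cases h : v ∈ C.SF ∧ H82.NonSplit E v
    · rw [HT_bad C h.1 h.2]
      exact hb v h.1
    · have : HT C v = C.mF.L.U v := if_neg h
      rw [this]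
      exact C.mF.L.bdd v

/-- the third model -/
def mT (hb : ∀ v ∈ C.SF, ∃ c : PGL(2, F), ∀ g ∈ (C.TF v).H, c⁻¹ * g * c ∈ U0 v) :
    Model F (Fin 1) where
  e := C.mF.e
  e_bij := C.mF.e_bij
  e_cx := C.mF.e_cx
  L := LT C hb

/-- Local matching at `v` for the monomial kernels, without base points. -/
def PMat (n : HeightOneSpectrum (𝓞 E) →₀ ℕ) (k : ℕ) (v : HeightOneSpectrum (𝓞 F)) : Prop :=
  PM C.s C.aE.twist (H47.below F) (below_σ C) (C.kE.D.mono n k)
    (C.kF.D.mono (n.mapDomain (H47.below F)) (3 * k)) (HT C v) v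

/-- Local matching at `v` for the monomial kernels, with base points. -/
def PM0at (n : HeightOneSpectrum (𝓞 E) →₀ ℕ) (k : ℕ) (v : HeightOneSpectrum (𝓞 F)) : Prop :=
  PM0 C.s C.aE.twist (H47.below F) (below_σ C) (C.kE.D.mono n k)
    (C.kF.D.mono (n.mapDomain (H47.below F)) (3 * k)) (HT C v) v

/-- `PM` only depends on the local kernels over `v`. -/
theorem PM.congr {LE : LevelFam PGL(2, E) (HeightOneSpectrum (𝓞 E))}
    {LF : LevelFam PGL(2, F) (HeightOneSpectrum (𝓞 F))} {s : E ≃ₐ[F] E} {t : Twist LE}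
    {π : HeightOneSpectrum (𝓞 E) → HeightOneSpectrum (𝓞 F)}
    {hπ : ∀ w, π (t.σ w) = π w} {a a' : GlobKer LE} {b b' : GlobKer LF} {H : Subgroup PGL(2, F)}
    {v : HeightOneSpectrum (𝓞 F)} (ha : ∀ w, π w = v → a'.loc w = a.loc w)
    (hb : b'.loc v = b.loc v) (h : PM s t π hπ a b H v) : PM s t π hπ a' b' H v := by
  intro γ hγ
  obtain ⟨ψ, hψ⟩ := h γ hγ
  refine ⟨ψ, fun d hd => ⟨?_, ?_⟩⟩
  · obtain ⟨β, hβ, -⟩ := (hψ d hd).E
    refine ⟨β, ?_, fun h => h.elim⟩
    have : phiv t π hπ a' d v = phiv t π hπ a d v := by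
      funext x
      refine finprod_congr fun i => ?_
      rw [ha i.1 i.2]
    rw [this]
    exact hβ
  · obtain ⟨β, hβ, -⟩ := (hψ d hd).F
    refine ⟨β, ?_, fun h => h.elim⟩
    rw [hb]
    exact hβ

/-- At the bad places the monomial kernels are the type idempotents. -/
theorem PMat_of_bad {v : HeightOneSpectrum (𝓞 F)} (hv : v ∈ C.SF)
    {n : HeightOneSpectrum (𝓞 E) →₀ ℕ} {k : ℕ} (h : PMat C 0 0 v) : PMat C n k v := by
  refine PM.congr (fun w hw => ?_) ?_ h
  · have hS : w ∈ C.kE.D.S := by rw [C.kE.D_S, C.mem_SE, hw]; exact hv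
    rw [HData.mono_loc, HData.mono_loc, HData.loc_S _ hS, HData.loc_S _ hS]
  · have hS : v ∈ C.kF.D.S := by rw [C.kF.D_S]; exact hv
    rw [HData.mono_loc, HData.mono_loc, HData.loc_S _ hS, HData.loc_S _ hS]

theorem measurable_isRC {J : Type*} [Fintype J] {κ : (J → ℝ) → ℂ} (h : H56Z.IsRC κ) :
    Measurable κ := h.cont.measurable

/-- **`C.Geom` from the local statements**, the convergence / regularity / norm statements (C17, C16)
and the matching at infinity. -/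
theorem geomC (hb : ∀ v ∈ C.SF, ∃ c : PGL(2, F), ∀ g ∈ (C.TF v).H, c⁻¹ * g * c ∈ U0 v)
    (p : (Fin 3 → H3) → (Fin 1 → H3))
    (hp : ∀ (τ : PGL(2, F)) x, p (C.mE.actInf (incP E τ) x) = C.mF.actInf τ (p x))
    (hinf : ∀ κ : (Fin 3 → ℝ) → ℂ, H56Z.IsRC κ → ∀ d γ, nP C.s d = incP E γ →
      InfMatch volume volume p
      (fun x => κ (Model.chJ x (C.mE.actInf d (C.aE.actInf x))))
      (fun x => H67M.bF κ (Model.chJ x (C.mF.actInf γ x))))
    (h17 : ∀ κ : (Fin 3 → ℝ) → ℂ, H56Z.IsRC κ → ∀ n, C.OkN n → ∃ k0 : ℕ, ∀ k ≥ k0,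
      (∀ (d : PGL(2, E)) x, C.tkE κ n k x (d • C.aE.act x) ≠ 0 → EllReg (nP C.s d)) ∧
      (∀ χ : C.mE.X → ℝ≥0∞, H94U.IsCutoff PGL(2, E) χ → ∑' d : PGL(2, E),
        ∫⁻ x, ‖C.tkE κ n k x (d • C.aE.act x)‖ₑ ∂(C.mE.μ.withDensity χ) ≠ ⊤) ∧
      (∀ (γ : PGL(2, F)) y, C.tkB κ n k y (γ • y) ≠ 0 →
        EllReg γ ∧ ∃ d, nP C.s d = incP E γ) ∧
      (∀ χ : C.mF.X → ℝ≥0∞, H94U.IsCutoff PGL(2, F) χ → ∑' γ : PGL(2, F),
        ∫⁻ y, ‖C.tkB κ n k y (γ • y)‖ₑ ∂(C.mF.μ.withDensity χ) ≠ ⊤))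
    (hbad : ∀ v ∈ C.SF, PMat C 0 0 v)
    (hv0 : ∀ n, C.OkN n → ∀ k, 1 ≤ k → PMat C n k C.v0)
    (hgood : ∀ n, C.OkN n → ∀ k, ∀ v ∉ C.SF, v ≠ C.v0 → PM0at C n k v) : C.Geom := by
  intro cE cF κ hκ n hn
  obtain ⟨k0, hk0⟩ := h17 κ hκ n hn
  refine ⟨max k0 1, fun k hk => ?_⟩
  obtain ⟨hE1, hE2, hF1, hF2⟩ := hk0 k ((le_max_left _ _).trans hk)
  have hk1 : 1 ≤ k := (le_max_right _ _).trans hk
  obtain ⟨χT, -⟩ := H26Z.exists_cutOff (mT C hb)
  have hκF : H56Z.IsRC (H67M.bF κ) := H67M.isRC_bF hκ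
  exact geom' C.s (s3 C) (s_ne C) (s_fix C) C.mE C.aE C.s_eq C.mF (mT C hb) rfl (H47.below F)
    (below_σ C) (fib_finite C) κ (H67M.bF κ) (measurable_isRC hκ) (measurable_isRC hκF)
    (C.kE.D.mono n k) (C.kF.D.mono (n.mapDomain (H47.below F)) (3 * k)) p hp (hinf κ hκ)
    (χE := cE.χ) ⟨cE.meas, cE.sum_eq⟩ (χF := cF.χ) ⟨cF.meas, cF.sum_eq⟩
    (χT := χT.χ) ⟨χT.meas, χT.sum_eq⟩ hE1 (hE2 _ ⟨cE.meas, cE.sum_eq⟩) hF1
    (hF2 _ ⟨cF.meas, cF.sum_eq⟩)
    (S := (C.SF : Set _) ∪ {C.v0}) (C.SF.finite_toSet.union (Set.finite_singleton _))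
    (by
      rintro v (hv | hv)
      · exact PMat_of_bad C hv (hbad v hv)
      · obtain rfl := hv
        exact hv0 n hn k hk1)
    (by
      intro v hv
      simp only [Set.mem_union, Finset.mem_coe, Set.mem_singleton_iff, not_or] at hv
      exact hgood n hn k v hv.1 hv.2)

end Fermat.Agent.H57C
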