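import Fermat.Agent.H84ZBad
import Fermat.Agent.H57CSet

/-!
# S47, block (C): [G1-BADSPLIT] in the shape `PMat` of `H57CSet`
-/

set_option autoImplicit false

noncomputable section

open scoped MatrixGroups
open IsDedekindDomain NumberField WithZero Matrix

namespace Fermat.Agent.H84Z

open Fermat.Agent.H57C Fermat.Agent.H79S

variable {F E : Type} [Field F] [NumberField F] [Field E] [NumberField E] [Algebra F E]
  (C : CSetup F E)

/-- **[G1-BADSPLIT]**: `PM0at` (hence `PMat`) at the bad split places, all monomials. -/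
theorem pm0at_badsplit {v : HeightOneSpectrum (𝓞 F)} (hv : v ∈ C.SF) (hns : ¬ H82.NonSplit E v)
    {w : HeightOneSpectrum (𝓞 E)} (hw : H47.below F w = v)
    (hSP : ∀ x : F, (x ∈ (C.TF v).A ↔ algebraMap F E x ∈ (C.TE w).A) ∧
      (x ∈ (C.TF v).B ↔ algebraMap F E x ∈ (C.TE w).B) ∧
      (x ∈ (C.TF v).C ↔ algebraMap F E x ∈ (C.TE w).C))
    (n : HeightOneSpectrum (𝓞 E) →₀ ℕ) (k : ℕ) : PM0at C n k v :=
  cs_pm0_badsplit C hv hw hns hSP n _ k _ (below_σ C) (HT_split C hns)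

/-- **[G1-BADSPLIT]** in the shape `PMat`. -/
theorem pmat_badsplit {v : HeightOneSpectrum (𝓞 F)} (hv : v ∈ C.SF) (hns : ¬ H82.NonSplit E v)
    {w : HeightOneSpectrum (𝓞 E)} (hw : H47.below F w = v)
    (hSP : ∀ x : F, (x ∈ (C.TF v).A ↔ algebraMap F E x ∈ (C.TE w).A) ∧
      (x ∈ (C.TF v).B ↔ algebraMap F E x ∈ (C.TE w).B) ∧
      (x ∈ (C.TF v).C ↔ algebraMap F E x ∈ (C.TE w).C))
    (n : HeightOneSpectrum (𝓞 E) →₀ ℕ) (k : ℕ) : PMat C n k v :=
  (pm0at_badsplit C hv hns hw hSP n k).pm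

end Fermat.Agent.H84Z
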