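import Fermat.Agent.H94WNorm
import Fermat.Agent.H79SDef

/-!
# The norm condition for deep types

* `suppOK_nice`: the idempotent of a type whose group is conjugate to a subgroup of the principal
  congruence subgroup of depth `k`, `Deep ζ 3 v k`;
* `exists_depth`: one depth for all the places of a finite set.
-/

set_option autoImplicit false

noncomputable section

open IsDedekindDomain NumberField WithZero Matrix
open scoped MatrixGroups
open Matrix.ProjGenLinGroup (mk mk_surjective)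

namespace Fermat.Agent.H94Y

open Fermat.Agent.H59D Fermat.Agent.H59XF Fermat.Agent.H82 Fermat.Agent.H20.S47
open Fermat.Agent.H79S Fermat.Agent.H76U

variable {F : Type} [Field F] [NumberField F] {E : Type} [Field E] [NumberField E] [Algebra F E]
  {ζ : F} {v : HeightOneSpectrum (𝓞 F)}

theorem suppOK_nice {T : TD F} {U : Subgroup PGL(2, F)} {κ : LocKer U} {χ : PGL(2, F) → ℂ}
    (hκ : IsTyp κ T.H χ) {k : ℕ} (hk : Deep ζ 3 v k)
    (hc : ∃ c : PGL(2, F), ∀ h ∈ T.H, ∃ g : GL (Fin 2) F, mk g = c⁻¹ * h * c ∧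
      ∀ i j, v.valuation F (g i j - (1 : Matrix (Fin 2) (Fin 2) F) i j) ≤ exp (-(k : ℤ))) :
    H94W.SuppOK E ζ v κ := by
  obtain ⟨c, hc⟩ := hc
  refine H94W.suppOK_group hk (T.H : Set PGL(2, F)) (fun y y' h => ?_) c (fun h hh => ?_)
  · by_contra hne
    exact h ((hκ y y').2 hne)
  · obtain ⟨g, hg, hgk⟩ := hc h hh
    refine ⟨g, 1, (g : Matrix (Fin 2) (Fin 2) F) - 1, hg, one_ne_zero, ?_, fun i j => hgk i j⟩
    rw [one_smul, add_sub_cancel]

/-- One depth for all the places of a finite set. -/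
theorem exists_depth (hζ : IsPrimitiveRoot ζ 3) (S : Finset (HeightOneSpectrum (𝓞 F))) :
    ∃ k0 : ℕ, ∀ k ≥ k0, ∀ v ∈ S, Deep ζ 3 v k := by
  have h0 : ζ - 1 ≠ 0 := sub_ne_zero.mpr (hζ.ne_one (by norm_num))
  have h1 : ∀ v : HeightOneSpectrum (𝓞 F), ∃ k0 : ℕ, ∀ k ≥ k0, Deep ζ 3 v k := by
    intro v
    have hv0 : v.valuation F (ζ - 1) ≠ 0 := (Valuation.ne_zero_iff _).mpr h0
    obtain ⟨m, hm⟩ : ∃ m : ℤ, v.valuation F (ζ - 1) = exp m :=
      ⟨log (v.valuation F (ζ - 1)), (exp_log hv0).symm⟩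
    refine ⟨3 * m.natAbs + 1, fun k hk => ?_⟩
    rw [Deep, hm, ← WithZero.exp_nsmul, exp_lt_exp, nsmul_eq_mul]
    push_cast
    omega
  choose f hf using h1
  refine ⟨S.sup f, fun k hk v hv => hf v k (le_trans (Finset.le_sup hv) hk)⟩

end Fermat.Agent.H94Y

end
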