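import Mathlib
import Fermat.Agent.H83ZInst5
import Fermat.Agent.H22Kum
import Fermat.Agent.H57CGood
import Fermat.Agent.H94ZDeep
import Fermat.Agent.H84ZBadP
import Fermat.Agent.H76VDef
import Fermat.Agent.H79SBlk

/-!
# S47, block (C): the setup exists, from the types and the matchings at the bad places (helper22)
-/

set_option autoImplicit false
set_option linter.unusedSectionVars false
set_option linter.unusedVariables false

noncomputable section

open IsDedekindDomain HeightOneSpectrum WithZero NumberField Matrix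
open scoped MatrixGroups

namespace Fermat.Agent.H22C

open Fermat.Agent.H59D Fermat.Agent.H76U Fermat.Agent.H79S
open Fermat.Agent.H46Z (divs mem_divs InertEx)

/-- The types exist (helper76). -/
def TInstEx : Prop :=
  ∀ (F E : Type) [Field F] [NumberField F] [Field E] [NumberField E] [Algebra F E]
    [IsGalois F E] (_ : Module.finrank F E = 3) (s : E ≃ₐ[F] E) (_ : s ≠ 1) (om : F)
    (_ : om ^ 2 + om + 1 = 0) (th : E) (_ : th ≠ 0) (_ : s th = algebraMap F E om * th)
    (k c₀ : ℕ), Nonempty (H76V.TInst F E s k c₀)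

/-- The matchings at the bad nonsplit places (helper43). -/
def NSPM : Prop :=
  ∀ (F E : Type) [Field F] [NumberField F] [Field E] [NumberField E] [Algebra F E]
    (C : CSetup F E), ∀ v ∈ C.SF, H82.NonSplit E v → ∀ w ∈ H82.above E v,
    (∃ (D : SD E) (κ : ℤᵐ⁰) (π al be ga : F),
      H43Z.NS C.s w v (C.TE w) (C.TF v) D κ π al be ga) → H57C.PMat C 0 0 v

/-- **The geometric comparison for types given by `TInst`.** -/
theorem geom_of {F E : Type} [Field F] [NumberField F] [Field E] [NumberField E]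
    [Algebra F E] (hNS : NSPM) (C : CSetup F E) {ζ : F} (hζ : IsPrimitiveRoot ζ 3)
    (h3v : ∀ v ∉ C.SF, v.valuation F (3 : F) = 1) {k c₀ : ℕ} (T : H76V.TInst F E C.s k c₀)
    (hTE : C.TE = T.TE) (hTF : C.TF = T.TF) (hk : ∀ v ∈ C.SF, H82.Deep ζ 3 v k) : C.Geom := by
  have hgal : IsGalois F E := C.gal
  refine H57C.geom_of_bad C hζ h3v (fun v _ => ?_) (fun v hv _ => ?_) fun v hv => ?_
  · rw [hTF]
    exact (T.niceF v).bdd
  · have h := C.kF.e_typ v hv
    refine H94Y.suppOK_nice h (hk v hv) ?_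
    rw [hTF]
    exact (T.niceF v).conj
  · obtain ⟨w, hw⟩ := H47.above_nonempty (L := E) v
    by_cases hns : H82.NonSplit E v
    · refine hNS F E C v hv hns w hw ?_
      rw [hTE, hTF]
      exact T.ns v hns w hw
    · refine H84Z.pmat_badsplit C hv hns (H47.eq_below_of_mem_above hw).symm (fun x => ?_) 0 0
      have h := T.split v hns w hw x
      rw [hTE, hTF]
      exact ⟨h.1.symm, h.2.1.symm, h.2.2.1.symm⟩

/-- **The setup exists.** -/
theorem setupEx_of (hT : TInstEx) (hNS : NSPM) : SetupEx := by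
  intro M E _ _ _ _ _ _ _ h3 e hI N₁ hN₁
  have hfd : FiniteDimensional M E := Module.finite_of_finrank_pos (by omega)
  obtain ⟨N₂, hN₂, h6, hgood⟩ := H83Z.exists_N2 (F := M) (E := E)
  obtain ⟨ζ, hζ⟩ : ∃ ζ : M, IsPrimitiveRoot ζ 3 :=
    IsCyclotomicExtension.exists_isPrimitiveRoot ℚ M (Set.mem_singleton 3) (by norm_num)
  have hom : ζ ^ 2 + ζ + 1 = 0 := by
    have h := hζ.geom_sum_eq_zero (by norm_num)
    rw [Finset.sum_range_succ, Finset.sum_range_succ, Finset.sum_range_one] at h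
    linear_combination h
  obtain ⟨s, hs⟩ := H83Z.exists_aut_ne_one (F := M) (E := E) h3
  obtain ⟨th, hth, hsth⟩ := exists_kummer (s : E ≃+* E)
    (by
      by_contra hcon
      push Not at hcon
      exact hs (AlgEquiv.ext hcon))
    (fun x => H83Z.s_app_three h3 s x) (om := algebraMap M E ζ)
    (by rw [← map_pow, ← map_add, ← map_one (algebraMap M E), ← map_add, hom, map_zero])
    (AlgEquiv.commutes s ζ)
  have hN₀ : N₁ * N₂ ≠ 0 := mul_ne_zero hN₁ hN₂
  obtain ⟨hunr, hunrE, hunrM, h3v⟩ := hgood (N₁ * N₂) hN₀ (Dvd.intro_left _ rfl)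
  obtain ⟨k0, hk0⟩ := H94Y.exists_depth hζ (divs M (N₁ * N₂))
  refine ⟨N₁ * N₂, hN₀, Dvd.intro _ rfl, h6.trans (Dvd.intro_left _ rfl), fun k c₀ => ?_⟩
  obtain ⟨T⟩ := hT M E h3 s hs ζ hom th hth hsth (max k k0) c₀
  obtain ⟨C, hCs, hTE, hTF, hSF, hSE, he⟩ := H83Z.exists_setup h3 e hs hI hN₀
    ⟨hunr, hunrE, hunrM⟩ T
  refine ⟨C, he, hSF, hSE, fun w _ => ?_, ?_⟩
  · rw [hTE]
    exact ((T.niceE w).mono (le_max_left k k0) le_rfl).adm
  · subst hCs
    refine geom_of hNS C hζ ?_ T hTE hTF ?_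
    · rw [hSF]; exact h3v
    · rw [hSF]; exact hk0 _ (le_max_right k k0)

end Fermat.Agent.H22C
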