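import Fermat.Agent.H76V2
import Fermat.Agent.H83ZInst1

/-!
# S47, [TYPE-INST], part 3: existence of the types (helper76)

* `dexp_split` : the conductors of the local characters agree at split places;
* `exists_tinst` : **existence of the types**.
-/

set_option autoImplicit false
set_option linter.unusedSectionVars false

noncomputable section

open IsDedekindDomain HeightOneSpectrum WithZero NumberField Matrix
open scoped MatrixGroups

namespace Fermat.Agent.H76V

open Fermat.Agent.H59XF Fermat.Agent.H59D Fermat.Agent.H76U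

variable {F E : Type*} [Field F] [NumberField F] [Field E] [NumberField E] [Algebra F E]

section Split

variable [IsGalois F E]

theorem dense_above (h3 : Module.finrank F E = 3) (s : E ≃ₐ[F] E) (hs : s ≠ 1)
    {v : HeightOneSpectrum (𝓞 F)} {w : HeightOneSpectrum (𝓞 E)} (hw : w ∈ H82.above E v)
    (hv : ¬ H82.NonSplit E v) : H84Z.Dense F (K := E) w :=
  H84Z.dense_split (algebraMap F E) (s : E ≃+* E) (H83Z.placePerm s) (H83Z.placePerm_val s)
    (H83Z.s_app_three h3 s) (fun _ hx => H83Z.fixed_of_s h3 s hs hx) w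
    (H83Z.ne_of_split h3 s hs hw hv).1

theorem val_split (h3 : Module.finrank F E = 3) (s : E ≃ₐ[F] E) (hs : s ≠ 1)
    {v : HeightOneSpectrum (𝓞 F)} {w : HeightOneSpectrum (𝓞 E)} (hw : w ∈ H82.above E v)
    (hv : ¬ H82.NonSplit E v) (x : F) :
    w.valuation E (algebraMap F E x) = v.valuation F x := by
  have : w.asIdeal.LiesOver v.asIdeal := ⟨hw.symm⟩
  exact H84Z.val_eq v w (dense_above h3 s hs hw hv) x

theorem psi_split' (h3 : Module.finrank F E = 3) (s : E ≃ₐ[F] E) (hs : s ≠ 1)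
    {v : HeightOneSpectrum (𝓞 F)} {w : HeightOneSpectrum (𝓞 E)} (hw : w ∈ H82.above E v)
    (hv : ¬ H82.NonSplit E v) (x : F) :
    H7.Z.psi w (algebraMap F E x) = H7.Z.psi v x :=
  H92P.psi_split_cubic h3 s hs hw (H83Z.ne_of_split h3 s hs hw hv).1 x

/-- The conductors agree at split places. -/
theorem dexp_split (h3 : Module.finrank F E = 3) (s : E ≃ₐ[F] E) (hs : s ≠ 1)
    {v : HeightOneSpectrum (𝓞 F)} {w : HeightOneSpectrum (𝓞 E)} (hw : w ∈ H82.above E v)
    (hv : ¬ H82.NonSplit E v) : H36.Psi.dexp w = H36.Psi.dexp v := by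
  have hd := dense_above h3 s hs hw hv
  have hval := val_split h3 s hs hw hv
  have hps := psi_split' h3 s hs hw hv
  apply le_antisymm
  · -- take `x ∈ F` of valuation `exp (dexp w)`
    obtain ⟨t, ht⟩ := H36.Psi.exists_val_eq_exp v (H36.Psi.dexp w : ℤ)
    have h1 : ∀ r : F, v.valuation F r ≤ 1 → H7.Z.psi v ((t : F) * r) = 1 := by
      intro r hr
      rw [← hps, map_mul]
      refine (H36.Psi.dual_iff_zero w (algebraMap F E (t : F))).2 ?_ _ (by rw [hval]; exact hr)
      rw [hval, ht]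
    have h2 := (H36.Psi.dual_iff_zero v (t : F)).1 h1
    rw [ht, exp_le_exp] at h2
    exact_mod_cast h2
  · obtain ⟨t, ht⟩ := H36.Psi.exists_val_eq_exp w (H36.Psi.dexp v : ℤ)
    have hone : (1 : ℤᵐ⁰) ≤ exp (H36.Psi.dexp v : ℤ) := by
      rw [← exp_zero, exp_le_exp]; simp
    have h1 : ∀ r : E, w.valuation E r ≤ 1 → H7.Z.psi w ((t : E) * r) = 1 := by
      intro r hr
      obtain ⟨y, hy⟩ := hd ((t : E) * r) 0
      have hy' : w.valuation E ((t : E) * r - algebraMap F E y) ≤ 1 := by simpa using hy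
      have h3 : (t : E) * r = ((t : E) * r - algebraMap F E y) + algebraMap F E y := by ring
      have h4 : H7.Z.psi w ((t : E) * r - algebraMap F E y) = 1 := by
        apply H36.Psi.psi_eq_one_of_le
        refine hy'.trans ?_
        rw [← exp_zero, exp_le_exp]; simp
      have h5 : v.valuation F y ≤ exp (H36.Psi.dexp v : ℤ) := by
        rw [← hval]
        have h6 : algebraMap F E y = (t : E) * r - ((t : E) * r - algebraMap F E y) := by ring
        rw [h6]
        refine Valuation.map_sub_le _ ?_ (hy'.trans hone)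
        rw [map_mul, ht]
        calc exp (H36.Psi.dexp v : ℤ) * w.valuation E r ≤ exp (H36.Psi.dexp v : ℤ) * 1 :=
              mul_le_mul' le_rfl hr
          _ = _ := mul_one _
      rw [h3, AddChar.map_add_eq_mul, h4, one_mul, hps]
      exact H36.Psi.psi_eq_one_of_le v h5
    have h2 := (H36.Psi.dual_iff_zero w (t : E)).1 h1
    rw [ht, exp_le_exp] at h2
    exact_mod_cast h2

end Split

/-- The place below is determined by the valuation on `F`. -/
theorem below_eq_of_val {s : E ≃ₐ[F] E} {w w' : HeightOneSpectrum (𝓞 E)}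
    (h : ∀ x, w'.valuation E (s x) = w.valuation E x) : H83Z.placePerm s w = w' := by
  apply HeightOneSpectrum.eq_of_valuation_isEquiv_valuation (K := E)
  have h1 : (H83Z.placePerm s w).valuation E = w'.valuation E := by
    ext x
    obtain ⟨y, rfl⟩ := s.surjective x
    rw [H83Z.placePerm_val, h]
  rw [h1]

theorem ball_s_iff {s : E ≃ₐ[F] E} {w w' : HeightOneSpectrum (𝓞 E)}
    (h : ∀ x, w'.valuation E (s x) = w.valuation E x) {T T' : AddSubgroup E} {r : ℤᵐ⁰}
    (hT : ∀ x, x ∈ T ↔ w.valuation E x ≤ r) (hT' : ∀ x, x ∈ T' ↔ w'.valuation E x ≤ r) (x : E) :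
    s x ∈ T' ↔ x ∈ T := by
  rw [hT, hT', h]

/-- The lattice is stable. -/
theorem lat_s_iff (D : SD E) {s : E ≃ₐ[F] E} (hD : ∀ x, D.s x = s x)
    (v : Valuation E ℤᵐ⁰) (r : ℤᵐ⁰) (x : E) : s x ∈ D.Lat v r ↔ x ∈ D.Lat v r := by
  constructor
  · intro h
    rw [← hD] at h
    have h1 := D.s_mem_Lat v (D.s_mem_Lat v h)
    rwa [D.s3] at h1
  · intro h
    rw [← hD]
    exact D.s_mem_Lat v h

/-- The constants of a basis at a place. -/
theorem exists_const (D : SD E) (w : HeightOneSpectrum (𝓞 E)) :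
    ∃ C : ℕ, (∀ i, w.valuation E (D.b i) ≤ exp (C : ℤ)) ∧
      ∀ i j, D.b i * D.b j ∈ D.Lat (w.valuation E) (exp (C : ℤ)) := by
  have h0 : ∀ (ι : Type) [Fintype ι] (f : ι → E), ∃ C : ℕ, ∀ i, w.valuation E (f i) ≤ exp (C : ℤ) := by
    intro ι _ f
    choose m hm using fun i : ι => H7.Z.exists_le_exp w (f i)
    refine ⟨∑ i, m i, fun i => (hm i).trans ?_⟩
    rw [exp_le_exp]
    have h1 : m i ≤ ∑ i, m i := Finset.single_le_sum (fun _ _ => Nat.zero_le _) (Finset.mem_univ i)
    exact_mod_cast h1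
  obtain ⟨C1, hC1⟩ := h0 (Fin 3) D.b
  obtain ⟨C2, hC2⟩ := h0 (Fin 3 × Fin 3 × Fin 3) (fun p => D.T (D.b p.1 * D.b p.2.1 * D.b p.2.2))
  have hle1 : exp (C1 : ℤ) ≤ exp ((C1 + C2 : ℕ) : ℤ) := by rw [exp_le_exp]; push_cast; omega
  have hle2 : exp (C2 : ℤ) ≤ exp ((C1 + C2 : ℕ) : ℤ) := by rw [exp_le_exp]; push_cast; omega
  refine ⟨C1 + C2, fun i => (hC1 i).trans hle1, fun i j => ?_⟩
  rw [SD.mem_Lat]
  intro k
  have h1 := hC2 (i, j, k)
  exact h1.trans hle2

/-- **Existence of the types.** -/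
theorem exists_tinst_sd [IsGalois F E] (h3 : Module.finrank F E = 3) (s : E ≃ₐ[F] E) (hs : s ≠ 1)
    (D : SD E) (hD : ∀ x, D.s x = s x) (k c₀ : ℕ) : Nonempty (TInst F E s k c₀) := by
  classical
  choose Cw hCw1 hCw2 using fun w => exists_const D w
  have habf := fun v : HeightOneSpectrum (𝓞 F) => H83Z.above_finite h3 s hs v
  let Cv : HeightOneSpectrum (𝓞 F) → ℕ := fun v => ∑ w ∈ (habf v).toFinset, Cw w
  have hCv : ∀ v, ∀ w ∈ H82.above E v, Cw w ≤ Cv v := fun v w hw =>
    Finset.single_le_sum (f := Cw) (fun _ _ => Nat.zero_le _) ((habf v).mem_toFinset.2 hw)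
  let n : HeightOneSpectrum (𝓞 F) → ℕ := fun v => 2 * Cv v + k + 1
  let M : HeightOneSpectrum (𝓞 F) → ℕ := fun v => 3 * n v + H36.Psi.dexp v + 3 * Cv v + c₀
  -- the types over `F`
  have hF := fun v => exists_std v (d := H36.Psi.dexp v) (n := n v) (M := M v) (k := k) (c₀ := c₀) rfl
    (by show k + 1 ≤ 2 * Cv v + k + 1; omega)
    (by show 3 * n v + H36.Psi.dexp v + c₀ ≤ 3 * n v + H36.Psi.dexp v + 3 * Cv v + c₀; omega)
  choose TF hFpsi hFA hFB hFC hFN using hF
  -- the types over `E`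
  have hE : ∀ w : HeightOneSpectrum (𝓞 E), ∃ T : TD E, T.psi = H7.Z.psi w ∧ Nice w T k c₀ ∧
      (H82.NonSplit E (H47.below F w) →
        T.A = D.Lat (w.valuation E)
          (exp ((((H47.below F w).asIdeal.ramificationIdx' w.asIdeal : ℕ) : ℤ) *
            (-(n (H47.below F w) : ℤ)))) ∧
        T.B = D.Lat (w.valuation E)
          (exp ((((H47.below F w).asIdeal.ramificationIdx' w.asIdeal : ℕ) : ℤ) *
            ((n (H47.below F w) : ℤ) + H36.Psi.dexp (H47.below F w)))) ∧
        T.C = D.Lat (w.valuation E)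
          (exp ((((H47.below F w).asIdeal.ramificationIdx' w.asIdeal : ℕ) : ℤ) *
            (-(M (H47.below F w) : ℤ))))) ∧
      (¬ H82.NonSplit E (H47.below F w) →
        (∀ x, x ∈ T.A ↔ w.valuation E x ≤ exp (-(n (H47.below F w) : ℤ))) ∧
        (∀ x, x ∈ T.B ↔ w.valuation E x ≤
          exp ((n (H47.below F w) : ℤ) + H36.Psi.dexp (H47.below F w))) ∧
        (∀ x, x ∈ T.C ↔ w.valuation E x ≤ exp (-(M (H47.below F w) : ℤ)))) := by
    intro w
    have hw := H47.mem_above_below (K := F) w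
    by_cases hns : H82.NonSplit E (H47.below F w)
    · have hab : H82.above E (H47.below F w) = {w} := by
        obtain ⟨u, hu⟩ := Set.ncard_eq_one.1 hns
        have h1 : w ∈ ({u} : Set (HeightOneSpectrum (𝓞 E))) := hu ▸ hw
        rw [Set.mem_singleton_iff] at h1
        rw [hu, h1]
      have hC := hCv _ w hw
      have hle : exp (Cw w : ℤ) ≤ exp (Cv (H47.below F w) : ℤ) := by
        rw [exp_le_exp]; exact_mod_cast hC
      obtain ⟨T, h1, h2, h4, h5, h6⟩ := exists_sd D h3 s hs hD hw hab (n := n (H47.below F w))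
        (M := M (H47.below F w)) (k := k) (c₀ := c₀) rfl rfl
        (fun i => (hCw1 w i).trans hle) (fun i j k => (hCw2 w i j k).trans hle) le_rfl le_rfl
      exact ⟨T, h1, h6, fun _ => ⟨h2, h4, h5⟩, fun h => absurd hns h⟩
    · obtain ⟨T, h1, h2, h4, h5, h6⟩ := exists_std w (n := n (H47.below F w))
        (M := M (H47.below F w)) (k := k) (c₀ := c₀) (dexp_split h3 s hs hw hns)
        (by show k + 1 ≤ 2 * Cv _ + k + 1; omega)
        (by show 3 * n _ + H36.Psi.dexp _ + c₀ ≤ 3 * n _ + H36.Psi.dexp _ + 3 * Cv _ + c₀; omega)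
      exact ⟨T, h1, h6, fun h => absurd h hns, fun _ => ⟨h2, h4, h5⟩⟩
  choose TE hEpsi hEN hEns hEsp using hE
  refine ⟨{ TF := TF
            TE := TE
            niceF := hFN
            niceE := hEN
            psiF := fun v x => by rw [hFpsi]
            psiE := fun w x => by rw [hEpsi]
            lowB := ?_
            stab := ?_
            split := ?_
            ns := ?_
            psi_tr := ?_ }⟩
  · intro v b hb
    rw [hFB]
    refine ((H36.Psi.dual_iff_zero v b).1 hb).trans ?_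
    rw [exp_le_exp]
    have : (0 : ℤ) ≤ n v := by positivity
    linarith
  · intro w w' hww
    have hp := below_eq_of_val hww
    have hbel : H47.below F w' = H47.below F w := by rw [← hp, H83Z.below_placePerm]
    intro x
    by_cases hns : H82.NonSplit E (H47.below F w)
    · have h1 := (H83Z.nonSplit_iff h3 s hs (H47.mem_above_below w)).1 hns
      have h2 : w' = w := hp.symm.trans h1
      subst h2
      obtain ⟨hA, hB, hC⟩ := hEns w' hns
      rw [hA, hB, hC]
      exact ⟨lat_s_iff D hD _ _ _, lat_s_iff D hD _ _ _, lat_s_iff D hD _ _ _⟩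
    · obtain ⟨hA, hB, hC⟩ := hEsp w hns
      obtain ⟨hA', hB', hC'⟩ := hEsp w' (by rw [hbel]; exact hns)
      rw [hbel] at hA' hB' hC'
      exact ⟨ball_s_iff hww hA hA' x, ball_s_iff hww hB hB' x, ball_s_iff hww hC hC' x⟩
  · intro v hns w hw x
    have hv := H47.eq_below_of_mem_above hw
    subst hv
    obtain ⟨hA, hB, hC⟩ := hEsp w hns
    rw [hA, hB, hC, hFA, hFB, hFC, val_split h3 s hs hw hns, hEpsi, hFpsi]
    exact ⟨Iff.rfl, Iff.rfl, Iff.rfl, psi_split' h3 s hs hw hns x⟩
  · intro v hns w hw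
    have hv := H47.eq_below_of_mem_above hw
    subst hv
    obtain ⟨hA, hB, hC⟩ := hEns w hns
    set v := H47.below F w with hvdef
    set e := v.asIdeal.ramificationIdx' w.asIdeal with hedef
    have he0 : e ≠ 0 := H82.ramificationIdx'_ne_zero hw
    have he1 : 1 ≤ e := Nat.one_le_iff_ne_zero.2 he0
    obtain ⟨pi, hpi⟩ := H36.Psi.exists_val_eq_exp v (-1)
    obtain ⟨al, hal⟩ := H36.Psi.exists_val_eq_exp v (-(n v : ℤ))
    obtain ⟨be, hbe⟩ := H36.Psi.exists_val_eq_exp v ((n v : ℤ) + H36.Psi.dexp v)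
    obtain ⟨ga, hga⟩ := H36.Psi.exists_val_eq_exp v (-(M v : ℤ))
    have hpi' := val_alg_exp hw hpi
    have hal' := val_alg_exp hw hal
    have hbe' := val_alg_exp hw hbe
    have hga' := val_alg_exp hw hga
    rw [← hedef] at hpi' hal' hbe' hga'
    have hC0 := hCv v w hw
    have hle : exp (Cw w : ℤ) ≤ exp (Cv v : ℤ) := by
      rw [exp_le_exp]; exact_mod_cast hC0
    -- numerical facts
    have hn : n v = 2 * Cv v + k + 1 := rfl
    have hM : M v = 3 * n v + H36.Psi.dexp v + 3 * Cv v + c₀ := rfl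
    have hen : e * 1 + e * (2 * Cv v) ≤ e * n v := by
      rw [← Nat.mul_add]; exact Nat.mul_le_mul_left e (by omega)
    have h2C : 2 * Cv v ≤ e * (2 * Cv v) := Nat.le_mul_of_pos_left _ he1
    have heM : e * (3 * n v + H36.Psi.dexp v) ≤ e * M v := Nat.mul_le_mul_left e (by omega)
    have heM' : e * (3 * n v + H36.Psi.dexp v) = 3 * (e * n v) + e * H36.Psi.dexp v := by ring
    have i1 : (e : ℤ) * 1 + e * (2 * Cv v) ≤ e * n v := by exact_mod_cast hen
    have i2 : 2 * (Cv v : ℤ) ≤ e * (2 * Cv v) := by exact_mod_cast h2C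
    have i3 : 3 * ((e : ℤ) * n v) + e * H36.Psi.dexp v ≤ e * M v := by
      have := heM'.symm.le.trans heM
      exact_mod_cast this
    have i4 : (0 : ℤ) ≤ Cv v := by positivity
    have i5 : (1 : ℤ) ≤ e := by exact_mod_cast he1
    refine ⟨D, exp (Cv v : ℤ), pi, al, be, ga, ?_⟩
    refine { s_eq := hD, κ1 := ?_, str := fun i j k => (hCw2 w i j k).trans hle,
             π0 := pi.ne_zero, π1 := ?_, al0 := al.ne_zero, be0 := be.ne_zero, ga0 := ga.ne_zero,
             κa := ?_, κκ := ?_, bc := ?_, A := ?_, B := ?_, C := ?_, A' := ?_, B' := ?_, C' := ?_ }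
    · rw [← exp_zero, exp_le_exp]; exact i4
    · rw [hpi', ← exp_zero, exp_lt_exp]; linarith
    · rw [hal', hpi', ← exp_add, exp_le_exp]; linarith
    · rw [hal', ← exp_add, ← exp_add, ← exp_zero, exp_le_exp]; linarith
    · rw [hbe', hga', hal', ← exp_add, ← exp_add, exp_le_exp]
      linarith
    · rw [hal', hA]
    · rw [hbe', hB]
    · rw [hga', hC]
    · ext x; rw [hal, hFA]; rfl
    · ext x; rw [hbe, hFB]; rfl
    · ext x; rw [hga, hFC]; rfl
  · intro v hns w hw x
    have hab : H82.above E v = {w} := by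
      obtain ⟨u, hu⟩ := Set.ncard_eq_one.1 hns
      have h1 : w ∈ ({u} : Set (HeightOneSpectrum (𝓞 E))) := hu ▸ hw
      rw [Set.mem_singleton_iff] at h1
      rw [hu, h1]
    rw [hEpsi, hFpsi]
    exact H36.Psi.psi_single hab x

/-- **Existence of the types**, Kummer form. -/
theorem exists_tinst [IsGalois F E] (h3 : Module.finrank F E = 3) (s : E ≃ₐ[F] E) (hs : s ≠ 1)
    {om : F} (hom : om ^ 2 + om + 1 = 0) {th : E} (hth : th ≠ 0)
    (hsth : s th = algebraMap F E om * th) (k c₀ : ℕ) : Nonempty (TInst F E s k c₀) := by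
  let D : SD E := SD.kummer (s : E ≃+* E) (algebraMap F E om) th (by norm_num)
    (by rw [← map_pow, ← map_add, ← map_one (algebraMap F E), ← map_add, hom, map_zero])
    (s.commutes om) hth hsth (H83Z.s_app_three h3 s)
  exact exists_tinst_sd h3 s hs D (fun x => rfl) k c₀

end Fermat.Agent.H76V
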