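import Fermat.Agent.H43Z9
import Fermat.Agent.H22CFin
import Fermat.Agent.H76V3

/-!
# S47, block (C): the setup exists
-/

set_option autoImplicit false

namespace Fermat.Agent.H43Z

open Fermat.Agent.H79S

/-- The matchings at the bad nonsplit places. -/
theorem nspm : H22C.NSPM := by
  intro F E _ _ _ _ _ C v hv hns w hw h
  obtain ⟨D, κ, π, al, be, ga, h⟩ := h
  exact pmat C hv hns (H47.eq_below_of_mem_above hw).symm h

/-- The types exist. -/
theorem tinstEx : H22C.TInstEx := by
  intro F E _ _ _ _ _ _ h3 s hs om hom th hth hsth k c₀
  exact H76V.exists_tinst h3 s hs hom hth hsth k c₀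

/-- **The setup of block (C) exists**, with the geometric comparison. -/
theorem setupEx : SetupEx := H22C.setupEx_of tinstEx nspm

end Fermat.Agent.H43Z
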