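import Mathlib
import Fermat.Agent.H15Defs

/-!
# Definitions for THEOREM Y (quotient of an elliptic curve by a subgroup of odd order)
-/

set_option autoImplicit false

noncomputable section

namespace Fermat.Agent.H15

open ModularCurve AlgebraicCurve WeierstrassCurve
open scoped WeierstrassCurve.Affine

section Quot

variable {K : Type*} [Field K] [DecidableEq K]

/-- `x`-coordinate (`0` at the origin) -/
def xPt {W : Affine K} : W.Point → K
  | .zero => 0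
  | .some x _ _ => x

/-- `H_e = ∏_{P ∈ C, P ≠ 0} (x(P) - e)` -/
def HP (W : Affine K) (C : AddSubgroup W.Point) (e : K) : K :=
  ∏ᶠ P ∈ {P : W.Point | P ∈ C ∧ P ≠ 0}, (xPt P - e)

/-- `e, f, g` are the `x`-coordinates of the `2`-torsion points -/
def TwoTors (W : Affine K) (e f g : K) : Prop :=
  W.b₂ = -4 * (e + f + g) ∧ W.b₄ = 2 * (e * f + f * g + g * e) ∧ W.b₆ = -4 * (e * f * g)

def D1 (N : ℕ) (W : Affine K) (C : AddSubgroup W.Point) (e f g : K) : K :=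
  (f - e) ^ N * HP W C g ^ 2

def D2 (N : ℕ) (W : Affine K) (C : AddSubgroup W.Point) (e f g : K) : K :=
  (g - e) ^ N * HP W C f ^ 2

/-- the `j`-invariant of the quotient of `W` by `C`, `#C = N` odd: the quotient is isomorphic to
`y² = x (x - D1) (x - D2)` (formulas of helper12's `H12Velu`, up to a twist) -/
def jQuot (N : ℕ) (W : Affine K) (C : AddSubgroup W.Point) (e f g : K) : K :=
  256 * (D1 N W C e f g ^ 2 - D1 N W C e f g * D2 N W C e f g + D2 N W C e f g ^ 2) ^ 3 /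
    (D1 N W C e f g ^ 2 * D2 N W C e f g ^ 2 * (D1 N W C e f g - D2 N W C e f g) ^ 2)

end Quot

/-- algebraic facts about the quotient (`H12Velu`) -/
def Y_alg : Prop := ∀ (K : Type) [Field K] [DecidableEq K] [CharZero K] [IsAlgClosed K]
  (W : Affine K), W.Δ ≠ 0 → ∀ e f g : K, TwoTors W e f g →
  ∀ (N : ℕ), N.Prime → N ≠ 2 → ∀ C : AddSubgroup W.Point, Nat.card C = N →
    D1 N W C e f g ≠ 0 ∧ D2 N W C e f g ≠ 0 ∧
    D2 N W C e f g - D1 N W C e f g = (g - f) ^ N * HP W C e ^ 2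

/-- the moduli interpretation of the modular polynomial -/
def Y_main : Prop := ∀ (N : ℕ) [NeZero N], N.Prime → N ≠ 2 →
  ∀ (W : Affine Qb), W.Δ ≠ 0 → ∀ e f g : Qb, TwoTors W e f g →
  ∀ C : AddSubgroup W.Point, Nat.card C = N →
  ∀ P : MvPolynomial (Fin 2) ℚ, MvPolynomial.aeval ![jq, qExpand ℚ N jq] P = 0 →
    MvPolynomial.aeval ![W.c₄ ^ 3 / W.Δ, jQuot N W C e f g] P = 0

/-- the same over `ℂ` -/
def Y_mainC : Prop := ∀ (N : ℕ) [NeZero N], N.Prime → N ≠ 2 →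
  ∀ (W : Affine ℂ), W.Δ ≠ 0 → ∀ e f g : ℂ, TwoTors W e f g →
  ∀ C : AddSubgroup W.Point, Nat.card C = N →
  ∀ P : MvPolynomial (Fin 2) ℚ, MvPolynomial.aeval ![jq, qExpand ℚ N jq] P = 0 →
    MvPolynomial.aeval ![W.c₄ ^ 3 / W.Δ, jQuot N W C e f g] P = 0

/-- valuation of the `j`-invariant of the quotient at a multiplicative place. `v_A(j(E/C))` is
compared with `v_A(j(E))`; `hdich` is supplied by the dichotomy. -/
def Y_val : Prop := ∀ (N : ℕ), N.Prime → N ≠ 2 → ∀ (W : WeierstrassCurve ℤ), W.Δ ≠ 0 →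
  ∀ ℓ : ℕ, ℓ.Prime → ℓ ≠ N → (ℓ : ℤ) ∣ W.Δ → ¬ (ℓ : ℤ) ∣ W.c₄ →
  ∀ A : ValuationSubring Qb, A.LiesOverPrime ℓ →
  ∀ C : AddSubgroup ((W.map (Int.castRingHom ℚ))⁄Qb).Point, Nat.card C = N →
  ∀ e f g : Qb, TwoTors ((W.map (Int.castRingHom ℚ))⁄Qb) e f g →
    ((∀ P ∈ C, W.InZeroComponentAt A P) →
      A.valuation (jQuot N ((W.map (Int.castRingHom ℚ))⁄Qb) C e f g) =
        A.valuation ((W.c₄ : Qb) ^ 3 / (W.Δ : Qb)) ^ N) ∧
    ((∃ P ∈ C, ¬ W.InZeroComponentAt A P) →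
      A.valuation (jQuot N ((W.map (Int.castRingHom ℚ))⁄Qb) C e f g) ≠
        A.valuation ((W.c₄ : Qb) ^ 3 / (W.Δ : Qb)) ^ N)

section Lattice

variable (L : PeriodPair)

/-- the Weierstrass curve `y² = x³ - (g₂/4) x - g₃/4` of a lattice -/
def latCurve : Affine ℂ := ⟨0, 0, 0, -L.g₂ / 4, -L.g₃ / 4⟩

/-- addition theorem: `z ↦ (℘(z), ℘'(z)/2)` is an injective homomorphism modulo the lattice. -/
def Y_add : Prop := ∀ L : PeriodPair, (latCurve L).Δ ≠ 0 ∧ ∃ φ : ℂ →+ (latCurve L).Point,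
  (∀ z, φ z = 0 ↔ z ∈ L.lattice) ∧
  ∀ z, z ∉ L.lattice → ∃ h, φ z = .some (L.weierstrassP z) (L.derivWeierstrassP z / 2) h

/-- uniformization -/
def Y_unif : Prop := ∀ A B : ℂ, 4 * A ^ 3 + 27 * B ^ 2 ≠ 0 →
  ∃ L : PeriodPair, -L.g₂ / 4 = A ∧ -L.g₃ / 4 = B

end Lattice

end Fermat.Agent.H15
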