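import Mathlib
import Fermat.Prelude.Def_CuspForm_HeckeLocal
import Fermat.Prelude.Def_CuspForm_HeckeEvalForms
import Fermat.Prelude.Def_HeckeGalois_EichlerShimura
import Fermat.Prelude.Def_ModularCurve_ModularUnit
import Fermat.Agent.H16Defs
import Fermat.Agent.H71Eigenform

/-!
S16-ALG: Hecke duality, and the index of the Eisenstein ideal in terms of `EisCong`.
-/

set_option autoImplicit false
open ModularCurve CuspForm

namespace Fermat.Agent.H16

namespace Alg

open ModularFormClass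

/-! ### the arithmetic function `sigmaP` -/

lemma sigmaP_one (p : ℕ) (hp : p.Prime) : sigmaP p 1 = 1 := by
  have : ¬ p ∣ 1 := fun h => hp.one_lt.ne' (Nat.dvd_one.mp h)
  simp [sigmaP, Finset.filter_singleton, this]

lemma divisors_mul_prime {k l : ℕ} (hk : k ≠ 0) (hl : l.Prime) :
    (k * l).divisors = k.divisors ∪ k.divisors.image (fun d => d * l) := by
  ext d
  simp only [Nat.mem_divisors, Finset.mem_union, Finset.mem_image, ne_eq, mul_eq_zero, hk,
    hl.ne_zero, or_self, not_false_eq_true, and_true]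
  constructor
  · intro h
    by_cases hld : l ∣ d
    · obtain ⟨e, rfl⟩ := hld
      right
      refine ⟨e, ?_, mul_comm _ _⟩
      rw [mul_comm k l] at h
      exact Nat.dvd_of_mul_dvd_mul_left hl.pos h
    · left
      have : Nat.Coprime d l := ((Nat.Prime.coprime_iff_not_dvd hl).mpr hld).symm
      exact this.dvd_of_dvd_mul_right h
  · rintro (h | ⟨e, he, rfl⟩)
    · exact h.mul_right l
    · exact Nat.mul_dvd_mul_right he l

lemma divisors_inter_image {k l : ℕ} (hk : k ≠ 0) (hl : l.Prime) :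
    k.divisors ∩ k.divisors.image (fun d => d * l) =
      if l ∣ k then (k / l).divisors.image (fun d => d * l) else ∅ := by
  split_ifs with hlk
  · obtain ⟨m, rfl⟩ := hlk
    have hm : m ≠ 0 := by rintro rfl; simp at hk
    rw [Nat.mul_div_cancel_left _ hl.pos]
    ext d
    simp only [Finset.mem_inter, Nat.mem_divisors, Finset.mem_image, ne_eq, mul_eq_zero, hm,
      hl.ne_zero, or_self, not_false_eq_true, and_true]
    constructor
    · rintro ⟨h1, e, -, rfl⟩
      refine ⟨e, ?_, rfl⟩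
      rw [mul_comm e l] at h1
      exact Nat.dvd_of_mul_dvd_mul_left hl.pos h1
    · rintro ⟨e, he, rfl⟩
      refine ⟨?_, e, he.mul_left l, rfl⟩
      rw [mul_comm l m]
      exact Nat.mul_dvd_mul_right he l
  · ext d
    simp only [Finset.mem_inter, Nat.mem_divisors, Finset.mem_image, Finset.notMem_empty,
      iff_false]
    rintro ⟨⟨h1, -⟩, e, -, rfl⟩
    exact hlk ((Dvd.intro_left e rfl).trans h1)

lemma sum_filter_image {p l : ℕ} (hp : p.Prime) (hl : l.Prime) (hpl : l ≠ p) (s : Finset ℕ) :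
    ∑ d ∈ s.image (fun d => d * l) with ¬ p ∣ d, d = l * ∑ d ∈ s with ¬ p ∣ d, d := by
  rw [Finset.filter_image, Finset.sum_image (fun a _ b _ h => Nat.eq_of_mul_eq_mul_right hl.pos h),
    Finset.mul_sum]
  have : (s.filter fun d => ¬ p ∣ d * l) = s.filter fun d => ¬ p ∣ d := by
    apply Finset.filter_congr
    intro d _
    rw [hp.dvd_mul, not_or]
    constructor
    · exact fun h => h.1
    · exact fun h => ⟨h, fun h' => hpl ((Nat.prime_dvd_prime_iff_eq hp hl).mp h').symm⟩
  rw [this]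
  exact Finset.sum_congr rfl fun d _ => mul_comm _ _

lemma sigmaP_mul_prime {p l k : ℕ} (hp : p.Prime) (hl : l.Prime) (hpl : l ≠ p) (hk : k ≠ 0) :
    sigmaP p (k * l) + (if l ∣ k then l * sigmaP p (k / l) else 0) = (1 + l) * sigmaP p k := by
  have h1 := Finset.sum_union_inter (s₁ := k.divisors.filter fun d => ¬ p ∣ d)
    (s₂ := (k.divisors.image (fun d => d * l)).filter fun d => ¬ p ∣ d) (f := fun d => d)
  rw [← Finset.filter_union, ← Finset.filter_inter_distrib, divisors_inter_image hk hl,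
    ← divisors_mul_prime hk hl, sum_filter_image hp hl hpl] at h1
  unfold sigmaP
  have h2 : (∑ d ∈ (if l ∣ k then (k / l).divisors.image (fun d => d * l) else ∅) with ¬ p ∣ d, d) =
      if l ∣ k then l * ∑ d ∈ (k / l).divisors with ¬ p ∣ d, d else 0 := by
    split_ifs
    · rw [sum_filter_image hp hl hpl]
    · simp
  rw [h2] at h1
  rw [h1]
  ring

lemma sigmaP_mul_self {p k : ℕ} (hp : p.Prime) (hk : k ≠ 0) :
    sigmaP p (k * p) = sigmaP p k := by
  unfold sigmaP
  congr 1
  ext d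
  simp only [Finset.mem_filter, Nat.mem_divisors, ne_eq, mul_eq_zero, hk, hp.ne_zero, or_self,
    not_false_eq_true, and_true, and_congr_left_iff]
  intro hpd
  have : Nat.Coprime d p := ((Nat.Prime.coprime_iff_not_dvd hp).mpr hpd).symm
  exact ⟨fun h => this.dvd_of_dvd_mul_right h, fun h => h.mul_right p⟩

/-! ### the surjection from the abstract Hecke algebra -/

section

variable (p : ℕ) [Fact p.Prime]

local notation "Γ₀(" N ")" => CongruenceSubgroup.Gamma0 N

/-- the structure map `HeckeAlg → 𝕋`. -/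
noncomputable def piHom : HeckeAlg →+* ↥(heckeLatticeAlgebra p ∅) :=
  (latticeRestrictHom p ∅).toRingHom.comp (heckeEvalForms p 2)

/-- evaluation at the Eisenstein system. -/
noncomputable def evHom : HeckeAlg →+* ℤ :=
  (MvPolynomial.aeval (R := ℤ) (eisensteinSystem p)).toRingHom

omit [Fact p.Prime] in
lemma ker_evHom : RingHom.ker (evHom p) = eisensteinIdeal p := rfl

omit [Fact p.Prime] in
lemma evHom_surjective : Function.Surjective (evHom p) := by
  intro m
  refine ⟨(m : HeckeAlg), ?_⟩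
  simp

lemma heckeEvalForms_surjective : Function.Surjective (heckeEvalForms p 2) := by
  rintro ⟨t, ht⟩
  have : ∀ t (ht : t ∈ heckeAlgebra p 2 ∅), ∃ P, heckeEvalForms p 2 P = ⟨t, ht⟩ := by
    intro t ht
    refine Algebra.adjoin_induction
      (p := fun t ht => ∃ P, heckeEvalForms p 2 P = (⟨t, ht⟩ : heckeAlgebra p 2 ∅)) ?_ ?_ ?_ ?_ ht
    · rintro x (⟨ℓ, hℓ, hℓN, -, rfl⟩ | ⟨q, hqN, hq, -, rfl⟩)
      · exact ⟨heckeGen ⟨ℓ, hℓ⟩, heckeEvalForms_heckeGen_of_not_dvd (ℓ := ⟨ℓ, hℓ⟩) hℓN⟩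
      · exact ⟨heckeGen ⟨q, hq⟩, heckeEvalForms_heckeGen_of_dvd (q := ⟨q, hq⟩) hqN⟩
    · intro r
      exact ⟨MvPolynomial.C r, heckeEvalForms_C p 2 r⟩
    · rintro x y hx hy ⟨P, hP⟩ ⟨Q, hQ⟩
      exact ⟨P + Q, by rw [map_add, hP, hQ]; rfl⟩
    · rintro x y hx hy ⟨P, hP⟩ ⟨Q, hQ⟩
      exact ⟨P * Q, by rw [map_mul, hP, hQ]; rfl⟩
  exact this t ht

lemma piHom_surjective : Function.Surjective (piHom p) :=
  (latticeRestrictHom_surjective p ∅).comp (heckeEvalForms_surjective p)

/-- action of the abstract Hecke algebra on forms -/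
noncomputable def act (P : HeckeAlg) : Module.End ℂ (CuspForm Γ₀(p) 2) :=
  (heckeEvalForms p 2 P : Module.End ℂ (CuspForm Γ₀(p) 2))

lemma coe_piHom_apply (P : HeckeAlg) (f : ↥(intLattice p 2)) :
    ((((piHom p P : ↥(heckeLatticeAlgebra p ∅)) : Module.End ℤ ↥(intLattice p 2)) f :
      ↥(intLattice p 2)) : CuspForm Γ₀(p) 2) = act p P f := rfl

lemma act_mul (P Q : HeckeAlg) (f : CuspForm Γ₀(p) 2) : act p (P * Q) f = act p P (act p Q f) := by
  simp [act]

lemma act_add (P Q : HeckeAlg) (f : CuspForm Γ₀(p) 2) : act p (P + Q) f = act p P f + act p Q f := by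
  simp [act]

lemma act_C (a : ℤ) (f : CuspForm Γ₀(p) 2) : act p (MvPolynomial.C a) f = a • f := by
  rw [act, heckeEvalForms_C]
  show (algebraMap ℤ (Module.End ℂ (CuspForm Γ₀(p) 2)) a) f = a • f
  rw [Algebra.algebraMap_eq_smul_one]
  simp

lemma qCoeff_act_gen (l : Nat.Primes) (f : CuspForm Γ₀(p) 2) (k : ℕ) :
    qCoeff (act p (heckeGen l) f) k =
      qCoeff f (k * l) + if (l : ℕ) = p then 0 else
        (if (l : ℕ) ∣ k then (l : ℂ) * qCoeff f (k / l) else 0) := by
  have hp : p.Prime := Fact.out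
  by_cases h : (l : ℕ) ∣ p
  · have hlp : (l : ℕ) = p := (Nat.prime_dvd_prime_iff_eq l.2 hp).mp h
    rw [if_pos hlp, act, heckeEvalForms_heckeGen_of_dvd h, heckeAlgebra.coe_U,
      coe_heckeULin_apply, ModularFormClass.qCoeff_heckeU f (H71.hΓ p) l.2.ne_zero,
      ModularForm.coeffHeckeU_apply, add_zero]
  · have hlp : (l : ℕ) ≠ p := fun h' => h (h' ▸ dvd_rfl)
    rw [if_neg hlp, act, heckeEvalForms_heckeGen_of_not_dvd h, heckeAlgebra.coe_T,
      coe_heckeTLin_apply, ModularFormClass.qCoeff_heckeT f (H71.hΓ p) l.2.ne_zero,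
      ModularForm.coeffHeckeT_apply]
    norm_num

lemma evHom_gen (l : Nat.Primes) : evHom p (heckeGen l) = if (l : ℕ) = p then 1 else 1 + (l : ℤ) := by
  have hp : p.Prime := Fact.out
  have : evHom p (heckeGen l) = eisensteinSystem p l := MvPolynomial.aeval_X _ l
  rw [this, eisensteinSystem]
  by_cases h : (l : ℕ) ∣ p
  · have hlp : (l : ℕ) = p := (Nat.prime_dvd_prime_iff_eq l.2 hp).mp h
    rw [if_pos h, if_pos hlp]
  · have hlp : (l : ℕ) ≠ p := fun h' => h (h' ▸ dvd_rfl)
    rw [if_neg h, if_neg hlp]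

omit [Fact p.Prime] in
lemma evHom_C (a : ℤ) : evHom p (MvPolynomial.C a) = a :=
  MvPolynomial.aeval_C _ a

/-- the Eisenstein recursion for `sigmaP` -/
lemma sigmaP_rec (l : Nat.Primes) {k : ℕ} (hk : k ≠ 0) :
    ((sigmaP p (k * l) : ℕ) : ℤ) + (if (l : ℕ) = p then 0 else
      (if (l : ℕ) ∣ k then (l : ℤ) * (sigmaP p (k / l) : ℕ) else 0)) =
      evHom p (heckeGen l) * (sigmaP p k : ℕ) := by
  have hp : p.Prime := Fact.out
  rw [evHom_gen]
  by_cases hlp : (l : ℕ) = p
  · rw [if_pos hlp, if_pos hlp, hlp, sigmaP_mul_self hp hk]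
    ring
  · rw [if_neg hlp, if_neg hlp]
    have := sigmaP_mul_prime hp l.2 hlp hk
    rw [← Nat.cast_inj (R := ℤ)] at this
    push_cast at this
    exact this

/-- if the coefficients of `f` are congruent to the Eisenstein series mod `d`, then so are those
of `P f` up to the factor `ev P`. -/
lemma act_congr {d : ℕ} {f : CuspForm Γ₀(p) 2}
    (hf : ∀ k : ℕ, ∃ a : ℤ, qCoeff f k = a ∧ (1 ≤ k → (d : ℤ) ∣ a - sigmaP p k)) (P : HeckeAlg) :
    ∀ k : ℕ, ∃ a : ℤ, qCoeff (act p P f) k = a ∧ (1 ≤ k → (d : ℤ) ∣ a - evHom p P * sigmaP p k) := by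
  induction P using MvPolynomial.induction_on with
  | C a =>
    intro k
    obtain ⟨b, hb, hb'⟩ := hf k
    refine ⟨a * b, ?_, fun hk => ?_⟩
    · rw [act_C, H71.qCoeff_zsmul, hb]
      push_cast
      ring
    · rw [evHom_C, ← mul_sub]
      exact (hb' hk).mul_left a
  | add P Q hP hQ =>
    intro k
    obtain ⟨a, ha, ha'⟩ := hP k
    obtain ⟨b, hb, hb'⟩ := hQ k
    refine ⟨a + b, ?_, fun hk => ?_⟩
    · rw [act_add, H71.qCoeff_add, ha, hb]
      push_cast
      ring
    · rw [map_add, show a + b - (evHom p P + evHom p Q) * (sigmaP p k : ℤ) =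
        (a - evHom p P * sigmaP p k) + (b - evHom p Q * sigmaP p k) by ring]
      exact dvd_add (ha' hk) (hb' hk)
  | mul_X P l hP =>
    intro k
    have hX : MvPolynomial.X l = heckeGen l := rfl
    rw [hX]
    obtain ⟨a, ha, ha'⟩ := hP (k * l)
    obtain ⟨b, hb, hb'⟩ := hP (k / l)
    refine ⟨a + if (l : ℕ) = p then 0 else (if (l : ℕ) ∣ k then (l : ℤ) * b else 0), ?_,
      fun hk => ?_⟩
    · rw [mul_comm P, act_mul, qCoeff_act_gen, ha, hb]
      push_cast
      split_ifs <;> simp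
    · have hrec := sigmaP_rec p l (k := k) (by omega)
      have h1 := ha' (Nat.mul_pos hk l.2.pos)
      have h2 : (d : ℤ) ∣ (if (l : ℕ) = p then 0 else (if (l : ℕ) ∣ k then (l : ℤ) * b else 0)) -
          evHom p P * (if (l : ℕ) = p then 0 else
            (if (l : ℕ) ∣ k then (l : ℤ) * (sigmaP p (k / l) : ℕ) else 0)) := by
        split_ifs with c1 c2
        · simp
        · have h3 := hb' (Nat.div_pos (Nat.le_of_dvd hk c2) l.2.pos)
          rw [show (l : ℤ) * b - evHom p P * ((l : ℤ) * (sigmaP p (k / l) : ℤ)) =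
            (l : ℤ) * (b - evHom p P * (sigmaP p (k / l) : ℤ)) by ring]
          exact h3.mul_left (l : ℤ)
        · simp
      have h5 := dvd_add h1 h2
      rw [map_mul, mul_assoc, ← hrec, mul_add, add_sub_add_comm]
      exact h5

/-- the "operators `T_k`": for each `k ≥ 1` there is an element of the abstract Hecke algebra
computing the `k`-th coefficient from the first and with the right Eisenstein eigenvalue -/
lemma exists_coeff_op : ∀ k : ℕ, 1 ≤ k → ∃ P : HeckeAlg, evHom p P = sigmaP p k ∧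
    ∀ f : CuspForm Γ₀(p) 2, qCoeff (act p P f) 1 = qCoeff f k := by
  have hp : p.Prime := Fact.out
  intro k
  induction k using Nat.strong_induction_on with
  | _ k ih =>
    intro hk
    rcases eq_or_ne k 1 with rfl | hk1
    · refine ⟨1, ?_, fun f => ?_⟩
      · rw [map_one, sigmaP_one p hp]
        rfl
      · have : (1 : HeckeAlg) = MvPolynomial.C 1 := (MvPolynomial.C_1).symm
        rw [this, act_C, one_smul]
    obtain ⟨l, hl, m, rfl⟩ := Nat.exists_prime_and_dvd hk1
    have hm : 1 ≤ m := Nat.pos_of_mul_pos_left hk |> fun _ => by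
      rcases Nat.eq_zero_or_pos m with rfl | h
      · simp at hk
      · exact h
    have hlt : m < l * m := by
      have := hl.two_le
      nlinarith
    obtain ⟨P, hP1, hP2⟩ := ih m hlt hm
    let L : Nat.Primes := ⟨l, hl⟩
    have hrec := sigmaP_rec p L (k := m) (by omega)
    by_cases h : l = p ∨ ¬ l ∣ m
    · have hzero : (if (L : ℕ) = p then (0 : ℤ) else
        (if (L : ℕ) ∣ m then (L : ℤ) * (sigmaP p (m / L) : ℕ) else 0)) = 0 := by
        rcases h with h | h
        · exact if_pos h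
        · rw [if_neg (show ¬ (L : ℕ) ∣ m from h), ite_self]
      refine ⟨P * heckeGen L, ?_, fun f => ?_⟩
      · rw [hzero, add_zero] at hrec
        rw [map_mul, hP1, mul_comm l m]
        have : ((sigmaP p (m * (L : ℕ)) : ℕ) : ℤ) = sigmaP p (m * l) := rfl
        rw [← this, hrec, mul_comm]
      · rw [act_mul, hP2, qCoeff_act_gen, mul_comm l m]
        rcases h with h | h
        · rw [if_pos (show (L : ℕ) = p from h), add_zero]
        · have : ¬ (L : ℕ) ∣ m := h
          rw [if_neg this, ite_self, add_zero]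
    · push Not at h
      obtain ⟨hlp, hlm⟩ := h
      have hdiv : 1 ≤ m / l := Nat.div_pos (Nat.le_of_dvd hm hlm) hl.pos
      have hlt2 : m / l < l * m := lt_of_le_of_lt (Nat.div_le_self _ _) hlt
      obtain ⟨Q, hQ1, hQ2⟩ := ih (m / l) hlt2 hdiv
      refine ⟨P * heckeGen L + MvPolynomial.C (-(l : ℤ)) * Q, ?_, fun f => ?_⟩
      · rw [if_neg (show ¬ (L : ℕ) = p from hlp), if_pos (show (L : ℕ) ∣ m from hlm)] at hrec
        rw [map_add, map_mul, map_mul, hP1, hQ1, evHom_C, mul_comm l m]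
        have e1 : ((sigmaP p (m * (L : ℕ)) : ℕ) : ℤ) = sigmaP p (m * l) := rfl
        have e2 : ((sigmaP p (m / (L : ℕ)) : ℕ) : ℤ) = sigmaP p (m / l) := rfl
        have e3 : ((L : ℕ) : ℤ) = l := rfl
        rw [e1, e2, e3] at hrec
        linarith
      · rw [act_add, act_mul, act_mul, act_C, H71.qCoeff_add, H71.qCoeff_zsmul, hP2, hQ2,
          qCoeff_act_gen, mul_comm l m,
          if_neg (show ¬ (L : ℕ) = p from hlp), if_pos (show (L : ℕ) ∣ m from hlm)]
        have e1 : ((L : ℕ) : ℂ) = l := rfl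
        have e2 : m / (L : ℕ) = m / l := rfl
        have e3 : m * (L : ℕ) = m * l := rfl
        rw [e1, e2, e3]
        push_cast
        ring

/-! ### duality -/

/-- the `n`-th coefficient as a linear functional on the integral lattice -/
noncomputable def coeffLin (n : ℕ) : ↥(intLattice p 2) →ₗ[ℤ] ℤ where
  toFun f := Classical.choose ((H71.mem_intLattice_iff (f : CuspForm Γ₀(p) 2)).mp f.2 n)
  map_add' f g := by
    have hf := Classical.choose_spec ((H71.mem_intLattice_iff (f : CuspForm Γ₀(p) 2)).mp f.2 n)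
    have hg := Classical.choose_spec ((H71.mem_intLattice_iff (g : CuspForm Γ₀(p) 2)).mp g.2 n)
    have hfg := Classical.choose_spec
      ((H71.mem_intLattice_iff ((f + g : ↥(intLattice p 2)) : CuspForm Γ₀(p) 2)).mp (f + g).2 n)
    have h1 : ((f + g : ↥(intLattice p 2)) : CuspForm Γ₀(p) 2) = (f : CuspForm Γ₀(p) 2) + g := rfl
    have h2 := H71.qCoeff_add (f : CuspForm Γ₀(p) 2) (g : CuspForm Γ₀(p) 2) n
    rw [← h1, hf, hg, hfg] at h2
    exact_mod_cast h2
  map_smul' c f := by
    have hf := Classical.choose_spec ((H71.mem_intLattice_iff (f : CuspForm Γ₀(p) 2)).mp f.2 n)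
    have hcf := Classical.choose_spec
      ((H71.mem_intLattice_iff ((c • f : ↥(intLattice p 2)) : CuspForm Γ₀(p) 2)).mp (c • f).2 n)
    have h1 : ((c • f : ↥(intLattice p 2)) : CuspForm Γ₀(p) 2) = c • (f : CuspForm Γ₀(p) 2) := rfl
    have h2 := H71.qCoeff_zsmul c (f : CuspForm Γ₀(p) 2) n
    rw [← h1, hf, hcf] at h2
    apply Int.cast_injective (α := ℂ)
    rw [h2, RingHom.id_apply, smul_eq_mul, Int.cast_mul]

omit [Fact p.Prime] in
lemma coeffLin_spec (n : ℕ) (f : ↥(intLattice p 2)) :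
    qCoeff (f : CuspForm Γ₀(p) 2) n = (coeffLin p n f : ℂ) :=
  Classical.choose_spec ((H71.mem_intLattice_iff (f : CuspForm Γ₀(p) 2)).mp f.2 n)

/-- the Hecke pairing `(f, t) ↦ a₁(t f)` -/
noncomputable def pair : ↥(intLattice p 2) →ₗ[ℤ] (↥(heckeLatticeAlgebra p ∅) →ₗ[ℤ] ℤ) :=
  LinearMap.mk₂ ℤ (fun f t => coeffLin p 1 ((t : Module.End ℤ ↥(intLattice p 2)) f))
    (fun f g t => by simp)
    (fun c f t => by simp)
    (fun f s t => by simp)
    (fun c f t => by simp)

lemma pair_apply (f : ↥(intLattice p 2)) (t : ↥(heckeLatticeAlgebra p ∅)) :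
    pair p f t = coeffLin p 1 ((t : Module.End ℤ ↥(intLattice p 2)) f) := rfl

lemma eq_zero_of_forall (f : ↥(intLattice p 2)) (h : ∀ P : HeckeAlg, pair p f (piHom p P) = 0) :
    f = 0 := by
  apply Subtype.ext
  apply H71.eq_zero_of_forall_qCoeff_eq_zero
  intro k
  rcases Nat.eq_zero_or_pos k with rfl | hk
  · exact H71.qCoeff_zero_eq_zero _
  · obtain ⟨P, -, hP⟩ := exists_coeff_op p k hk
    rw [← hP, ← coe_piHom_apply, coeffLin_spec, ← pair_apply, h, Int.cast_zero]

lemma pair_injective : Function.Injective (pair p) := by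
  rw [injective_iff_map_eq_zero]
  intro f hf
  exact eq_zero_of_forall p f fun P => by rw [hf]; rfl

lemma pair_flip_injective : Function.Injective (pair p).flip := by
  rw [injective_iff_map_eq_zero]
  intro t ht
  apply Subtype.ext
  refine LinearMap.ext fun f => ?_
  show (t : Module.End ℤ ↥(intLattice p 2)) f = 0
  apply eq_zero_of_forall
  intro P
  rw [pair_apply]
  have h1 : ((piHom p P : ↥(heckeLatticeAlgebra p ∅)) : Module.End ℤ ↥(intLattice p 2))
      ((t : Module.End ℤ ↥(intLattice p 2)) f) =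
      (t : Module.End ℤ ↥(intLattice p 2))
        (((piHom p P : ↥(heckeLatticeAlgebra p ∅)) : Module.End ℤ ↥(intLattice p 2)) f) := by
    have := congrArg (fun x : ↥(heckeLatticeAlgebra p ∅) =>
      (x : Module.End ℤ ↥(intLattice p 2)) f) (mul_comm (piHom p P) t)
    exact this
  rw [h1]
  exact LinearMap.congr_fun ht _

lemma exists_smul_eq {L D : Type*} [AddCommGroup L] [AddCommGroup D] [Module.Free ℤ L]
    [Module.Finite ℤ L] [Module.Free ℤ D] [Module.Finite ℤ D] (Φ : L →ₗ[ℤ] D)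
    (hΦ : Function.Injective Φ) (hrank : Module.finrank ℤ D ≤ Module.finrank ℤ L) (φ : D) :
    ∃ (g : L) (a : ℤ), a ≠ 0 ∧ Φ g = a • φ := by
  let Ψ : (L × ℤ) →ₗ[ℤ] D := Φ.coprod (LinearMap.toSpanSingleton ℤ _ φ)
  have hΨ : ¬ Function.Injective Ψ := by
    intro hinj
    have := LinearMap.finrank_le_finrank_of_injective hinj
    rw [Module.finrank_prod] at this
    simp at this
    omega
  rw [injective_iff_map_eq_zero] at hΨ
  push Not at hΨ
  obtain ⟨⟨g, a⟩, hga, hne⟩ := hΨ
  have hga' : Φ g + a • φ = 0 := by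
    simpa [Ψ] using hga
  have ha : a ≠ 0 := by
    rintro rfl
    apply hne
    rw [zero_smul, add_zero] at hga'
    rw [(injective_iff_map_eq_zero Φ).mp hΦ g hga']
    rfl
  refine ⟨-g, a, ha, ?_⟩
  rw [map_neg, neg_eq_iff_add_eq_zero, hga']

lemma finrank_dual_le : Module.finrank ℤ (↥(heckeLatticeAlgebra p ∅) →ₗ[ℤ] ℤ) ≤
    Module.finrank ℤ ↥(intLattice p 2) := by
  have := intLattice.moduleFinite p
  have := intLattice.moduleFree p
  have h := LinearMap.finrank_le_finrank_of_injective (pair_flip_injective p)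
  rw [Module.finrank_linearMap, Module.finrank_self, mul_one] at h ⊢
  exact h

lemma eq_of_smul_eq {L T : Type*} [AddCommGroup L] [AddCommGroup T] [Module ℤ L] [Module ℤ T]
    (Φ : L →ₗ[ℤ] (T →ₗ[ℤ] ℤ)) (φ : T →ₗ[ℤ] ℤ) {g f : L} {a : ℤ} (ha : a ≠ 0)
    (hga : Φ g = a • φ) (hgf : g = a • f) (t : T) : Φ f t = φ t := by
  rw [hgf, map_zsmul] at hga
  have h : a * Φ f t = a * φ t := LinearMap.congr_fun hga t
  exact mul_left_cancel₀ ha h

lemma coeff_of_pair_eq {φ : ↥(heckeLatticeAlgebra p ∅) →ₗ[ℤ] ℤ} {g : ↥(intLattice p 2)} {a : ℤ}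
    (hga : pair p g = a • φ) {P : HeckeAlg} {n : ℕ}
    (hP : ∀ f : CuspForm Γ₀(p) 2, qCoeff (act p P f) 1 = qCoeff f n) :
    qCoeff (g : CuspForm Γ₀(p) 2) n = ((a * φ (piHom p P) : ℤ) : ℂ) := by
  have e1 : pair p g (piHom p P) = a * φ (piHom p P) := LinearMap.congr_fun hga (piHom p P)
  rw [← hP, ← coe_piHom_apply, coeffLin_spec, ← e1]
  rfl

lemma exists_dual (φ : ↥(heckeLatticeAlgebra p ∅) →ₗ[ℤ] ℤ) :
    ∃ f : ↥(intLattice p 2), ∀ t, pair p f t = φ t := by
  have := intLattice.moduleFinite p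
  have := intLattice.moduleFree p
  obtain ⟨g, a, ha, hga⟩ := exists_smul_eq (pair p) (pair_injective p) (finrank_dual_le p) φ
  -- divisibility of the coefficients of g
  have hdiv : ∀ n, ∃ m : ℤ, qCoeff (g : CuspForm Γ₀(p) 2) n = ((a * m : ℤ) : ℂ) := by
    intro n
    rcases Nat.eq_zero_or_pos n with rfl | hn
    · exact ⟨0, by rw [H71.qCoeff_zero_eq_zero]; simp⟩
    · obtain ⟨P, -, hP⟩ := exists_coeff_op p n hn
      exact ⟨φ (piHom p P), coeff_of_pair_eq p hga hP⟩
  obtain ⟨f, hf, hgf⟩ := H71.exists_eq_smul_of_forall_dvd ha (g : CuspForm Γ₀(p) 2) hdiv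
  exact ⟨⟨f, hf⟩, eq_of_smul_eq (pair p) φ ha hga (Subtype.ext hgf)⟩

end

/-! ### the two quotients -/

lemma exists_equiv {R A B : Type*} [CommRing R] [CommRing A] [CommRing B] (f : R →+* A)
    (g : R →+* B) (hf : Function.Surjective f) (hg : Function.Surjective g) :
    ∃ e : (A ⧸ Ideal.map f (RingHom.ker g)) ≃+* (B ⧸ Ideal.map g (RingHom.ker f)),
      ∀ r, e (Ideal.Quotient.mk _ (f r)) = Ideal.Quotient.mk _ (g r) := by
  let a : R →+* A ⧸ Ideal.map f (RingHom.ker g) := (Ideal.Quotient.mk _).comp f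
  let b : R →+* B ⧸ Ideal.map g (RingHom.ker f) := (Ideal.Quotient.mk _).comp g
  have ha : Function.Surjective a := Ideal.Quotient.mk_surjective.comp hf
  have hb : Function.Surjective b := Ideal.Quotient.mk_surjective.comp hg
  have hker : RingHom.ker a = RingHom.ker b := by
    have h1 : RingHom.ker a = RingHom.ker g ⊔ RingHom.ker f := by
      rw [← RingHom.comap_ker, Ideal.mk_ker, Ideal.comap_map_of_surjective f hf]
      rfl
    have h2 : RingHom.ker b = RingHom.ker f ⊔ RingHom.ker g := by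
      rw [← RingHom.comap_ker, Ideal.mk_ker, Ideal.comap_map_of_surjective g hg]
      rfl
    rw [h1, h2, sup_comm]
  let e := (RingHom.quotientKerEquivOfSurjective ha).symm.trans
    ((Ideal.quotEquivOfEq hker).trans (RingHom.quotientKerEquivOfSurjective hb))
  refine ⟨e, fun r => ?_⟩
  have h1 : (RingHom.quotientKerEquivOfSurjective ha).symm (Ideal.Quotient.mk _ (f r)) =
      Ideal.Quotient.mk _ r := by
    rw [RingEquiv.symm_apply_eq]
    rfl
  show (RingHom.quotientKerEquivOfSurjective hb) ((Ideal.quotEquivOfEq hker)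
    ((RingHom.quotientKerEquivOfSurjective ha).symm (Ideal.Quotient.mk _ (f r)))) = _
  rw [h1]
  rfl

end Alg

open Alg in
/-- abstract form of the two quotients over `ℤ` -/
lemma exists_equiv_zmod {R A : Type*} [CommRing R] [CommRing A] (f : R →+* A) (g : R →+* ℤ)
    (hf : Function.Surjective f) (hg : Function.Surjective g) :
    ∃ (m : ℕ) (e : (A ⧸ Ideal.map f (RingHom.ker g)) ≃+* ZMod m),
      (∀ r, e (Ideal.Quotient.mk _ (f r)) = ((g r : ℤ) : ZMod m)) ∧
      ∃ r, f r = 0 ∧ g r = m := by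
  obtain ⟨e, he⟩ := exists_equiv f g hf hg
  obtain ⟨m, hm⟩ : ∃ m : ℕ, Ideal.map g (RingHom.ker f) = Ideal.span {(m : ℤ)} := by
    refine ⟨(Submodule.IsPrincipal.generator (Ideal.map g (RingHom.ker f))).natAbs, ?_⟩
    rw [Int.span_natAbs, Ideal.span_singleton_generator]
  refine ⟨m, e.trans ((Ideal.quotEquivOfEq hm).trans (Int.quotientSpanNatEquivZMod m)), ?_, ?_⟩
  · intro P
    show Int.quotientSpanNatEquivZMod m ((Ideal.quotEquivOfEq hm)
      (e (Ideal.Quotient.mk _ (f P)))) = _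
    rw [he]
    simp
  · have hmem : (m : ℤ) ∈ Ideal.map g (RingHom.ker f) := by
      rw [hm]
      exact Ideal.mem_span_singleton_self _
    rw [Ideal.mem_map_iff_of_surjective _ hg] at hmem
    obtain ⟨r, hr, hr'⟩ := hmem
    exact ⟨r, hr, hr'⟩

open Alg in
theorem natCard_quotient_eq (p : ℕ) [Fact p.Prime] (n : ℕ) (hn : 0 < n)
    (h : ∀ m : ℕ, 0 < m → (EisCong p m ↔ m ∣ n)) :
    Nat.card (↥(heckeLatticeAlgebra p ∅) ⧸
        Ideal.map ((latticeRestrictHom p ∅).toRingHom.comp (heckeEvalForms p 2))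
          (eisensteinIdeal p)) = n := by
  obtain ⟨m, e', he', P, hP, hPm⟩ := exists_equiv_zmod (piHom p) (evHom p) (piHom_surjective p)
    (evHom_surjective p)
  have hcard : Nat.card (↥(heckeLatticeAlgebra p ∅) ⧸
        Ideal.map ((latticeRestrictHom p ∅).toRingHom.comp (heckeEvalForms p 2))
          (eisensteinIdeal p)) = m := by
    rw [← Nat.card_zmod m]
    exact Nat.card_congr e'.toEquiv
  rw [hcard]
  -- `n ∣ m`
  have h1 : n ∣ m := by
    obtain ⟨f, hf⟩ := (h n hn).mpr dvd_rfl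
    have hfL : f ∈ intLattice p 2 := by
      rw [H71.mem_intLattice_iff]
      intro k
      obtain ⟨a, ha, -⟩ := hf k
      exact ⟨a, ha⟩
    obtain ⟨a, ha, ha'⟩ := act_congr p hf P 1
    have hz : act p P f = 0 := by
      have := coe_piHom_apply p P ⟨f, hfL⟩
      rw [← this, hP]
      rfl
    have ha0 : a = 0 := by
      rw [hz] at ha
      have h2 := H71.qCoeff_smul (0 : ℂ) (0 : CuspForm (CongruenceSubgroup.Gamma0 p) 2) 1
      rw [zero_smul, zero_mul] at h2
      rw [h2] at ha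
      exact_mod_cast ha.symm
    have h3 := ha' le_rfl
    rw [ha0, sigmaP_one p Fact.out, hPm] at h3
    simpa [Int.natCast_dvd_natCast] using h3
  -- a form congruent to the Eisenstein series mod `m`
  have h2 : ∃ f : CuspForm (CongruenceSubgroup.Gamma0 p) 2, ∀ k : ℕ, ∃ a : ℤ,
      ModularFormClass.qCoeff f k = a ∧ (1 ≤ k → (m : ℤ) ∣ a - sigmaP p k) := by
    let g : ↥(heckeLatticeAlgebra p ∅) →ₗ[ℤ] ZMod m :=
      (e'.toRingHom.comp (Ideal.Quotient.mk _)).toIntAlgHom.toLinearMap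
    obtain ⟨φ, hφ⟩ := Module.projective_lifting_property (Algebra.linearMap ℤ (ZMod m)) g
      (ZMod.intCast_surjective)
    obtain ⟨f, hf⟩ := exists_dual p φ
    refine ⟨f, fun k => ⟨coeffLin p k f, coeffLin_spec p k f, fun hk => ?_⟩⟩
    obtain ⟨P, hP1, hP2⟩ := exists_coeff_op p k hk
    have h3 : (coeffLin p k f : ℂ) = (φ (piHom p P) : ℂ) := by
      rw [← coeffLin_spec, ← hP2, ← coe_piHom_apply, coeffLin_spec, ← pair_apply, hf]
    have h4 : coeffLin p k f = φ (piHom p P) := by exact_mod_cast h3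
    have h5 : ((φ (piHom p P) : ℤ) : ZMod m) = ((evHom p P : ℤ) : ZMod m) := by
      rw [← he']
      exact LinearMap.congr_fun hφ (piHom p P)
    rw [h4, ← hP1]
    exact (ZMod.intCast_eq_intCast_iff_dvd_sub _ _ _).mp h5.symm
  rcases Nat.eq_zero_or_pos m with hm0 | hmpos
  · exfalso
    have : EisCong p (n + 1) := by
      obtain ⟨f, hf⟩ := h2
      refine ⟨f, fun k => ?_⟩
      obtain ⟨a, ha, ha'⟩ := hf k
      refine ⟨a, ha, fun hk => ?_⟩
      have := ha' hk
      rw [hm0, Nat.cast_zero, zero_dvd_iff] at this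
      rw [this]
      exact dvd_zero _
    have := Nat.le_of_dvd hn ((h (n + 1) (Nat.succ_pos n)).mp this)
    omega
  · exact Nat.dvd_antisymm ((h m hmpos).mp h2) h1

end Fermat.Agent.H16
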