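import Mathlib
import Fermat.Agent.H16Defs

set_option autoImplicit false

namespace Fermat.Agent.H16

namespace Arith

/-- the product of two nonsquares is a square -/
theorem isSquare_mul_of_not {p : ℕ} [Fact p.Prime] {a b : ZMod p}
    (ha : ¬ IsSquare a) (hb : ¬ IsSquare b) : IsSquare (a * b) := by
  have ha0 : a ≠ 0 := by rintro rfl; exact ha ⟨0, by simp⟩
  have hb0 : b ≠ 0 := by rintro rfl; exact hb ⟨0, by simp⟩
  rw [← quadraticChar_one_iff_isSquare (mul_ne_zero ha0 hb0), map_mul,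
    quadraticChar_neg_one_iff_not_isSquare.mpr ha, quadraticChar_neg_one_iff_not_isSquare.mpr hb]
  norm_num

/-- there is a residue `c ≠ 0` mod `p` with `-c` not a square -/
theorem exists_neg_not_isSquare (p : ℕ) [Fact p.Prime] (hp2 : p ≠ 2) :
    ∃ c : ZMod p, ¬ IsSquare (-c) := by
  obtain ⟨c, hc⟩ := FiniteField.exists_nonsquare (F := ZMod p) (by
    rw [ZMod.ringChar_zmod_n]; exact hp2)
  exact ⟨-c, by rwa [neg_neg]⟩

theorem exists_prime_congr (p : ℕ) (hp : p.Prime) (hp2 : p ≠ 2) (c : ZMod p) (hc : c ≠ 0) :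
    ∃ q : ℕ, q.Prime ∧ q % 4 = 3 ∧ q ≠ p ∧ (q : ZMod p) = c := by
  have := Fact.mk hp
  have hcop : Nat.Coprime 4 p := by
    have : Nat.Coprime 2 p := (Nat.coprime_primes Nat.prime_two hp).mpr (Ne.symm hp2)
    simpa using Nat.Coprime.pow_left 2 this
  obtain ⟨x, hx4, hxp⟩ := Nat.chineseRemainder hcop 3 c.val
  have hxp' : (x : ZMod p) = c := by
    have := (ZMod.natCast_eq_natCast_iff _ _ _).mpr hxp
    rw [this, ZMod.natCast_val, ZMod.cast_id', id]
  have : NeZero (4 * p) := ⟨mul_ne_zero (by norm_num) hp.ne_zero⟩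
  have hu : IsUnit ((x : ℕ) : ZMod (4 * p)) := by
    rw [ZMod.isUnit_iff_coprime]
    apply Nat.Coprime.mul_right
    · have h1 : x % 4 = 3 := by simpa [Nat.ModEq] using hx4
      rw [Nat.Coprime, Nat.gcd_comm x 4, Nat.gcd_rec, h1]
      norm_num
    · rw [Nat.coprime_comm, Nat.Prime.coprime_iff_not_dvd hp]
      intro hd
      apply hc
      rw [← hxp']
      exact (ZMod.natCast_eq_zero_iff _ _).mpr hd
  obtain ⟨q, hgt, hq, hmod⟩ := Nat.forall_exists_prime_gt_and_eq_mod hu p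
  refine ⟨q, hq, ?_, by omega, ?_⟩
  · have h := (ZMod.natCast_eq_natCast_iff _ _ _).mp hmod
    have h4 : q ≡ x [MOD 4] := h.of_dvd (Dvd.intro p rfl)
    have := h4.trans hx4
    simpa [Nat.ModEq] using this
  · have h := (ZMod.natCast_eq_natCast_iff _ _ _).mp hmod
    have h4 : q ≡ x [MOD p] := h.of_dvd (Dvd.intro_left 4 rfl)
    rw [← hxp']
    exact (ZMod.natCast_eq_natCast_iff _ _ _).mpr h4

end Arith

theorem exists_prime_aux (p : ℕ) (hp : p.Prime) (hp5 : 5 ≤ p) :
    ∃ q : ℕ, q.Prime ∧ q % 4 = 3 ∧ q ≠ p ∧ ¬ IsSquare (-(q : ZMod p)) ∧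
      ∃ a : ℤ, (q : ℤ) ∣ a ^ 2 + p := by
  have := Fact.mk hp
  have hp2 : p ≠ 2 := by omega
  obtain ⟨c, hc⟩ := Arith.exists_neg_not_isSquare p hp2
  have hc0 : c ≠ 0 := by
    rintro rfl
    exact hc ⟨0, by simp⟩
  obtain ⟨q, hq, hq4, hqp, hqc⟩ := Arith.exists_prime_congr p hp hp2 c hc0
  have := Fact.mk hq
  refine ⟨q, hq, hq4, hqp, by rwa [hqc], ?_⟩
  have hq2 : q ≠ 2 := by rintro rfl; omega
  -- (-p / q) = 1
  have hkey : IsSquare (-(p : ZMod q)) := by
    have hp4 : p % 4 = 1 ∨ p % 4 = 3 := by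
      have := hp.eq_two_or_odd
      omega
    have hm1q : ¬ IsSquare (-1 : ZMod q) := by
      rw [ZMod.exists_sq_eq_neg_one_iff]
      omega
    have hp0 : (p : ZMod q) ≠ 0 := by
      rw [Ne, ZMod.natCast_eq_zero_iff]
      intro h
      exact hqp ((Nat.prime_dvd_prime_iff_eq hq hp).mp h)
    have hpn : ¬ IsSquare (p : ZMod q) := by
      rcases hp4 with h1 | h3
      · have h := ZMod.exists_sq_eq_prime_iff_of_mod_four_eq_one (p := p) (q := q) h1 hq2
        rw [← h, hqc]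
        intro hsq
        apply hc
        have : IsSquare (-1 : ZMod p) := ZMod.exists_sq_eq_neg_one_iff.mpr (by omega)
        rw [neg_eq_neg_one_mul]
        exact this.mul hsq
      · have h := ZMod.exists_sq_eq_prime_iff_of_mod_four_eq_three (p := p) (q := q) h3 hq4 (Ne.symm hqp)
        rw [← not_iff_not.mpr h |>.trans not_not, hqc]
        intro hsq
        apply hsq
        have hm1 : ¬ IsSquare (-1 : ZMod p) := by
          rw [ZMod.exists_sq_eq_neg_one_iff]
          omega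
        have := Arith.isSquare_mul_of_not hm1 hc
        simpa using this
    have := Arith.isSquare_mul_of_not hm1q hpn
    simpa using this
  obtain ⟨b, hb⟩ := hkey
  refine ⟨b.val, ?_⟩
  have : (((b.val : ℤ) ^ 2 + p : ℤ) : ZMod q) = 0 := by
    push_cast
    rw [ZMod.natCast_val, ZMod.cast_id', id, pow_two, ← hb]
    ring
  exact (ZMod.intCast_zmod_eq_zero_iff_dvd _ _).mp this

end Fermat.Agent.H16
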