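import Fermat.Agent.H05_FreyGood

/-!
# Places of `ℚ̄` above a prime have rank one
-/

set_option autoImplicit false

open Polynomial

namespace Fermat.Agent.H89Arch

local notation "Qb" => AlgebraicClosure ℚ

variable {A : ValuationSubring (AlgebraicClosure ℚ)} {q : ℕ}

theorem isUnit_intCast (hq : q.Prime) (hA : A.LiesOverPrime q) {n : ℤ} (hn : ¬ (q : ℤ) ∣ n) :
    IsUnit (n : A) := by
  have h1 := H05.charP_residueField hq hA
  have h2 : (n : IsLocalRing.ResidueField A) ≠ 0 := by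
    rwa [Ne, CharP.intCast_eq_zero_iff (IsLocalRing.ResidueField A) q n]
  have h3 : IsLocalRing.residue A (n : A) ≠ 0 := by rwa [map_intCast]
  exact (IsLocalRing.residue_ne_zero_iff_isUnit _).mp h3

theorem isAlgebraic_int (a : A) : IsAlgebraic ℤ a := by
  have h1 : IsAlgebraic ℤ (a : Qb) := by
    have hQ : Algebra.IsAlgebraic ℚ Qb := AlgebraicClosure.isAlgebraic ℚ
    have h2 : IsAlgebraic ℚ (a : Qb) := Algebra.IsAlgebraic.isAlgebraic _
    exact (IsFractionRing.isAlgebraic_iff ℤ ℚ Qb).mpr h2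
  obtain ⟨p, hp, hpa⟩ := h1
  refine ⟨p, hp, ?_⟩
  apply Subtype.val_injective
  have h3 : A.subtype (aeval a p) = aeval (A.subtype a) p := by
    rw [aeval_def, aeval_def, hom_eval₂]
    congr 1
  exact h3.trans hpa

theorem natCast_ne_zero (hq : q.Prime) : ((q : ℕ) : A) ≠ 0 := by
  intro h
  have := congrArg Subtype.val h
  simp at this
  exact hq.ne_zero this

theorem exists_dvd_pow (hq : q.Prime) (hA : A.LiesOverPrime q) {b : A} (hb : b ≠ 0) :
    ∃ s : ℕ, b ∣ (q : A) ^ s := by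
  obtain ⟨r, hr, hbr⟩ := (isAlgebraic_int b).exists_nonzero_dvd
    (mem_nonZeroDivisors_of_ne_zero hb)
  have hfin : FiniteMultiplicity (q : ℤ) r := by
    rw [Int.finiteMultiplicity_iff]
    exact ⟨by rw [Int.natAbs_natCast]; exact hq.ne_one, hr⟩
  obtain ⟨u, hu, hqu⟩ := hfin.exists_eq_pow_mul_and_not_dvd
  refine ⟨multiplicity (q : ℤ) r, ?_⟩
  have h1 := isUnit_intCast hq hA hqu
  have h2 : (algebraMap ℤ A r) = (q : A) ^ multiplicity (q : ℤ) r * (u : A) := by
    conv_lhs => rw [hu]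
    rw [map_mul, map_pow]
    simp
  rw [h2] at hbr
  exact (h1.dvd_mul_right).mp hbr

theorem exists_q_dvd_pow (hq : q.Prime) (hA : A.LiesOverPrime q) {a : A} (ha : ¬ IsUnit a) :
    ∃ n : ℕ, (q : A) ∣ a ^ n := by
  classical
  obtain ⟨p₀, hp₀, hp₀a⟩ := isAlgebraic_int a
  set p := p₀.primPart with hp
  have hpa : aeval a p = 0 := by
    have h1 := p₀.eq_C_content_mul_primPart
    rw [h1, map_mul, aeval_C] at hp₀a
    rcases mul_eq_zero.mp hp₀a with h | h
    · exfalso
      rw [algebraMap_int_eq, eq_intCast] at h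
      have h2 := congrArg Subtype.val h
      simp only [ZeroMemClass.coe_zero, SubringClass.coe_intCast, Int.cast_eq_zero] at h2
      exact hp₀ (content_eq_zero_iff.mp h2)
    · exact h
  have hex : ∃ i, ¬ (q : ℤ) ∣ p.coeff i := by
    by_contra hcon
    push Not at hcon
    have h1 : (C (q : ℤ)) ∣ p := (C_dvd_iff_dvd_coeff _ _).mpr hcon
    have h2 := p₀.isPrimitive_primPart (q : ℤ) h1
    have h3 := Int.isUnit_iff_natAbs_eq.mp h2
    rw [Int.natAbs_natCast] at h3
    exact hq.ne_one h3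
  set i₀ := Nat.find hex with hi₀
  have hi₀' : ¬ (q : ℤ) ∣ p.coeff i₀ := Nat.find_spec hex
  have hlt : ∀ i < i₀, (q : ℤ) ∣ p.coeff i := fun i hi => by
    by_contra h
    exact absurd hi (not_lt.mpr (Nat.find_min' hex h))
  refine ⟨i₀, ?_⟩
  obtain ⟨u, hu⟩ := isUnit_intCast hq hA hi₀'
  -- the sum
  have hterm : ∀ i ∈ p.support.erase i₀, ∃ x y : A,
      (p.coeff i : A) * a ^ i = q * x + a ^ (i₀ + 1) * y := by
    intro i hi
    rcases lt_trichotomy i i₀ with h | h | h
    · obtain ⟨c, hc⟩ := hlt i h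
      exact ⟨c * a ^ i, 0, by rw [hc]; push_cast; ring⟩
    · exact absurd h (Finset.ne_of_mem_erase hi)
    · obtain ⟨j, rfl⟩ := Nat.exists_eq_add_of_lt h
      exact ⟨0, p.coeff (i₀ + j + 1) * a ^ j, by ring⟩
  choose! x y hxy using hterm
  have hi₀s : i₀ ∈ p.support := by
    rw [mem_support_iff]
    intro h
    exact hi₀' (h ▸ dvd_zero _)
  have hsum : (u : A) * a ^ i₀ + ∑ i ∈ p.support.erase i₀, (p.coeff i : A) * a ^ i = 0 := by
    rw [hu, Finset.add_sum_erase _ (fun i => (p.coeff i : A) * a ^ i) hi₀s]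
    rw [aeval_eq_sum_range, ← Finset.sum_subset (s₁ := p.support)] at hpa
    · rw [← hpa]
      refine Finset.sum_congr rfl fun i _ => ?_
      rw [zsmul_eq_mul]
    · intro i hi
      rw [Finset.mem_range]
      exact Nat.lt_succ_of_le (le_natDegree_of_mem_supp i hi)
    · intro i _ hi
      rw [notMem_support_iff.mp hi, zero_smul]
  rw [Finset.sum_congr rfl hxy, Finset.sum_add_distrib, ← Finset.mul_sum, ← Finset.mul_sum] at hsum
  set X := ∑ i ∈ p.support.erase i₀, x i
  set Y := ∑ i ∈ p.support.erase i₀, y i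
  -- `a ^ i₀ (u + a Y) = - q X`
  have hunit : IsUnit ((u : A) + a * Y) := by
    by_contra h
    have h1 : (u : A) + a * Y ∈ nonunits A := h
    have h2 : a * Y ∈ nonunits A := fun h' => ha (isUnit_of_mul_isUnit_left h')
    have h3 := IsLocalRing.nonunits_add h1 (show -(a * Y) ∈ nonunits A from fun h' =>
      h2 (by simpa using h'.neg))
    rw [add_neg_cancel_right] at h3
    exact h3 u.isUnit
  have hkey : a ^ i₀ * ((u : A) + a * Y) = q * (-X) := by
    linear_combination hsum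
  exact (hunit.dvd_mul_right).mp (hkey ▸ dvd_mul_right _ _)

/-- Places of `ℚ̄` above a prime have rank one. -/
theorem arch (hq : q.Prime) (hA : A.LiesOverPrime q) (a b : A) (ha : ¬ IsUnit a) (hb : b ≠ 0) :
    ∃ n : ℕ, b ∣ a ^ n := by
  obtain ⟨s, hs⟩ := exists_dvd_pow hq hA hb
  obtain ⟨n, hn⟩ := exists_q_dvd_pow hq hA ha
  refine ⟨n * s, hs.trans ?_⟩
  rw [pow_mul]
  exact pow_dvd_pow_of_dvd hn s

theorem arch' (hq : q.Prime) (hA : A.LiesOverPrime q) (a b : A)
    (ha : IsLocalRing.residue A a = 0) (hb : b ≠ 0) : ∃ n : ℕ, b ∣ a ^ n :=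
  arch hq hA a b (fun h => (IsLocalRing.residue_ne_zero_iff_isUnit a).mpr h ha) hb

end Fermat.Agent.H89Arch
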