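import Fermat.Agent.H38DvC
import Fermat.Agent.H31EqL
import Fermat.Agent.H89Arch
import Fermat.Agent.H54Frobenius
import Fermat.Agent.H17HkDeg
import Fermat.Agent.H9Hecke

/-!
# Supersingular places and the degeneracy maps, in characteristic `p` (helper16, S39/S40, step 7A)

`4 ∣ M`, `p ∤ M`, `ℓ ≠ p`.  The function `ū` with expansion `Δ̄^{p-1}` has order `-12` at the
supersingular places of `X_0(M)` (the nodes of the model of `X_0(Mp)`) and order `0` at the other
non-cuspidal places.  Using this at the levels `M` and `Mℓ`: for a non-cuspidal place `v` of level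
`Mℓ` the three places `v`, `α(v)`, `β(v)` are simultaneously supersingular, and `α`, `β` are
unramified at the supersingular places.
-/

set_option autoImplicit false
set_option linter.unusedSectionVars false
set_option linter.style.haveILetI false
set_option maxHeartbeats 1000000
set_option synthInstance.maxHeartbeats 200000

noncomputable section

open AlgebraicCurve ModularCurve IntermediateField WithZero
open Fermat.Agent.H97 Fermat.Agent.H97.Sheets Fermat.Agent.H34.Two Fermat.Agent.H61.Nd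
open Fermat.Agent.H28 Fermat.Agent.H31.In Fermat.Agent.H31 Fermat.Agent.H17

namespace Fermat.Agent.H16.C7

local notation "Qb" => AlgebraicClosure ℚ

section Cases

variable {p : ℕ} [hp : Fact p.Prime] {A : ValuationSubring Qb} (hA : A.LiesOverPrime p)

local notation "kA" => IsLocalRing.ResidueField A

include hA in
/-- the orders of `Δ̄^{p-1}` at the non-cuspidal places. -/
theorem ord_ubar_cases {M : ℕ} [NeZero M] (h4M : 4 ∣ M) (hpM : ¬ p ∣ M)
    {ub : modularFunctionFieldFullC kA M} (hub : (ub : LaurentSeries kA) = deltaL kA ^ (p - 1))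
    (x : Place kA (modularFunctionFieldFullC kA M)) (hx : 0 ≤ x.ord (jk kA M)) :
    x.ord ub = -12 ∨ x.ord ub = 0 := by
  haveI : NeZero p := ⟨hp.out.ne_zero⟩
  haveI : NeZero (M * p) := ⟨mul_ne_zero (NeZero.ne M) hp.out.ne_zero⟩
  haveI hk1 : IsAlgClosed kA := H18.isAlgClosed_residueField A
  haveI hk2 : CharP kA p := H1.charP_of_liesOver A hA (IsLocalRing.residue A)
  haveI hk3 : Infinite kA := IsAlgClosed.instInfinite
  have hdeg : H42.DegLE Qb kA M := H18.degLE_of_not_dvd M hpM A hA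
  have hco : M.Coprime p := ((Nat.Prime.coprime_iff_not_dvd hp.out).2 hpM).symm
  obtain ⟨w⟩ := H99.nonempty_AL (L := Qb) H67.embQbar hco
  obtain ⟨r, c, hr1, hr2, -⟩ := EqI.exists_r hpM hA hdeg
  have arch : Arch A := H89Arch.arch hp.out hA
  haveI j1 : H3RR.IsFF Qb (H99.FX Qb M) := isFF_FF Qb M
  haveI j2 : H3RR.IsFF Qb (H99.FX Qb (M * p)) := isFF_FF Qb (M * p)
  haveI j3 : H3RR.IsFF kA (modularFunctionFieldFullC kA M) := isFF_right (L := Qb) hdeg
  haveI j4 : H94.FunField Qb (H99.FX Qb M) := H3RR.funField_of_isFF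
  haveI j5 : H94.FunField Qb (H99.FX Qb (M * p)) := H3RR.funField_of_isFF
  by_cases hN : (sheets w IsLocalRing.residue_surjective hdeg hpM arch r hr1 hr2).Node x
  · exact Or.inl (H38.Dv.ord_ubar_node w IsLocalRing.residue_surjective hdeg hpM H67.embQbar
      (Or.inl rfl) h4M arch r hr1 hr2 hN hub)
  · exact Or.inr (H38.Dv.ord_ubar_smooth w IsLocalRing.residue_surjective hdeg hpM arch r hr1
      hr2 hN hx hub)

end Cases

section Gen

variable {K : Type*} [Field K] [IsAlgClosed K] {M ℓ : ℕ} [NeZero M] [NeZero ℓ] [Fact ℓ.Prime]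
  {F : IntermediateField K (LaurentSeries K)} [H94.FunField K F]

/-- a place where `j` is finite is a place where `j(q^ℓ)` is finite. -/
theorem ord_jl_nonneg (hℓ0 : (ℓ : K) ≠ 0) (hF : modularFunctionFieldFullC K ℓ ≤ F)
    (v : Place K F) {j j' : F} (hj : (j : LaurentSeries K) = jqModC K)
    (hj' : (j' : LaurentSeries K) = qExpand K ℓ (jqModC K)) (hv : 0 ≤ v.ord j) :
    0 ≤ v.ord j' := by
  let φ : modularFunctionFieldFullC K ℓ →ₐ[K] F := IntermediateField.inclusion hF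
  haveI := H9.funField_full K ℓ hℓ0
  have hφ := H67.isIntegral_of_finiteAlong (H67.finiteAlong_of_funField φ)
  have e1 : φ (H9.j₁ K ℓ) = j := Subtype.ext (by
    rw [hj]
    exact H66.J_one K)
  have e2 : φ (H9.jₚ K ℓ) = j' := Subtype.ext (by
    rw [hj']
    exact (H66.J_eq K ℓ))
  have h1 := v.ord_restrictAlong φ hφ (H9.j₁ K ℓ)
  have h2 := v.ord_restrictAlong φ hφ (H9.jₚ K ℓ)
  rw [e1] at h1
  rw [e2] at h2
  set u := v.restrictAlong φ hφ with hu
  have he : 0 < v.ramificationIndexAlong φ := H9.ramificationIndexAlong_pos φ hφ v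
  by_contra hcon
  push Not at hcon
  rw [h2] at hcon
  have h3 : u.ord (H9.jₚ K ℓ) < 0 := by
    by_contra h
    push Not at h
    have : (0 : ℤ) ≤ v.ramificationIndexAlong φ * u.ord (H9.jₚ K ℓ) := by positivity
    omega
  have h4 : u.ord (H9.j₁ K ℓ) < 0 := by
    rcases H9.eq_cusp_of_ord_jₚ_neg K ℓ hℓ0 h3 with h | h
    · rw [h, H9.infPl_ord_j₁]
      norm_num
    · rw [h, H9.zeroPl_ord_j₁]
      have := (Fact.out : ℓ.Prime).pos
      omega
  have h5 : v.ord j < 0 := by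
    rw [h1]
    have he' : (0 : ℤ) < v.ramificationIndexAlong φ := by exact_mod_cast he
    exact mul_neg_of_pos_of_neg he' h4
  omega

/-- restriction along the first degeneracy map, characteristic free -/
theorem ord_ubar_alpha [H94.FunField K (modularFunctionFieldFullC K M)]
    [H94.FunField K (modularFunctionFieldFullC K (M * ℓ))]
    {n : ℤ} (hn : n ≠ 0)
    {ub : modularFunctionFieldFullC K M} {ub' : modularFunctionFieldFullC K (M * ℓ)}
    (hub : (ub' : LaurentSeries K) = ub)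
    (hM : ∀ x : Place K (modularFunctionFieldFullC K M), 0 ≤ x.ord (jk K M) →
      x.ord ub = n ∨ x.ord ub = 0)
    (hMl : ∀ x : Place K (modularFunctionFieldFullC K (M * ℓ)), 0 ≤ x.ord (jk K (M * ℓ)) →
      x.ord ub' = n ∨ x.ord ub' = 0)
    (hα : (alphaC K M ℓ).toRingHom.IsIntegral)
    (v : Place K (modularFunctionFieldFullC K (M * ℓ))) (hv : 0 ≤ v.ord (jk K (M * ℓ))) :
    0 ≤ (v.restrictAlong (alphaC K M ℓ) hα).ord (jk K M) ∧
    (v.restrictAlong (alphaC K M ℓ) hα).ord ub = v.ord ub' ∧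
    (v.ord ub' ≠ 0 → v.ramificationIndexAlong (alphaC K M ℓ) = 1) := by
  have e1 : alphaC K M ℓ (jk K M) = jk K (M * ℓ) := Subtype.ext (coe_alphaC K M ℓ _)
  have e2 : alphaC K M ℓ ub = ub' := Subtype.ext (by rw [coe_alphaC, hub])
  have h1 := v.ord_restrictAlong (alphaC K M ℓ) hα (jk K M)
  have h2 := v.ord_restrictAlong (alphaC K M ℓ) hα ub
  rw [e1] at h1
  rw [e2] at h2
  have he : 0 < v.ramificationIndexAlong (alphaC K M ℓ) :=
    H9.ramificationIndexAlong_pos (alphaC K M ℓ) hα v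
  have he' : (0 : ℤ) < v.ramificationIndexAlong (alphaC K M ℓ) := by exact_mod_cast he
  have h3 : 0 ≤ (v.restrictAlong (alphaC K M ℓ) hα).ord (jk K M) := by
    by_contra hcon
    push Not at hcon
    have := mul_neg_of_pos_of_neg he' hcon
    omega
  refine ⟨h3, ?_⟩
  rcases hM _ h3 with h4 | h4
  · rw [h4] at h2 ⊢
    rcases hMl v hv with h5 | h5
    · rw [h5] at h2 ⊢
      refine ⟨rfl, fun _ => ?_⟩
      have h6 : ((v.ramificationIndexAlong (alphaC K M ℓ) : ℤ) - 1) * n = 0 := by linarith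
      rcases mul_eq_zero.mp h6 with h7 | h7
      · omega
      · exact absurd h7 hn
    · rw [h5] at h2
      rcases mul_eq_zero.mp h2.symm with h7 | h7
      · omega
      · exact absurd h7 hn
  · rw [h4, mul_zero] at h2
    rw [h4, h2]
    exact ⟨rfl, fun h => absurd rfl h⟩

/-- restriction along the second degeneracy map, characteristic free: `β(f)(q) = f(q^ℓ)`.
`ub` has the expansion `Δ^d`. -/
theorem ord_ubar_beta [H94.FunField K (modularFunctionFieldFullC K M)]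
    [H94.FunField K (modularFunctionFieldFullC K (M * ℓ))]
    (hℓ0 : (ℓ : K) ≠ 0) {n : ℤ} (hn : n ≠ 0) {d : ℕ}
    {ub : modularFunctionFieldFullC K M} {ub' : modularFunctionFieldFullC K (M * ℓ)}
    (hub : (ub : LaurentSeries K) = deltaL K ^ d) (hub' : (ub' : LaurentSeries K) = deltaL K ^ d)
    (hM : ∀ x : Place K (modularFunctionFieldFullC K M), 0 ≤ x.ord (jk K M) →
      x.ord ub = n ∨ x.ord ub = 0)
    (hMl : ∀ x : Place K (modularFunctionFieldFullC K (M * ℓ)), 0 ≤ x.ord (jk K (M * ℓ)) →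
      x.ord ub' = n ∨ x.ord ub' = 0)
    (hβ : (betaC K M ℓ).toRingHom.IsIntegral)
    (v : Place K (modularFunctionFieldFullC K (M * ℓ))) (hv : 0 ≤ v.ord (jk K (M * ℓ))) :
    0 ≤ (v.restrictAlong (betaC K M ℓ) hβ).ord (jk K M) ∧
    (v.restrictAlong (betaC K M ℓ) hβ).ord ub = v.ord ub' ∧
    (v.ord ub' ≠ 0 → v.ramificationIndexAlong (betaC K M ℓ) = 1) := by
  have hle : modularFunctionFieldFullC K ℓ ≤ modularFunctionFieldFullC K (M * ℓ) :=
    full_degeneracyC_le K (dvd_mul_left ℓ M)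
  have e1 : 0 ≤ v.ord (betaC K M ℓ (jk K M)) :=
    ord_jl_nonneg hℓ0 hle v (j := jk K (M * ℓ)) rfl (coe_betaC K M ℓ _) hv
  -- the unit
  let R : modularFunctionFieldFullC K (M * ℓ) :=
    ⟨H9.deltaRatio K ℓ, hle (H9.ratio K ℓ hℓ0).2⟩
  have hR : v.ord R = 0 := H38.Dv.ord_unit hℓ0 v (J₀ := jk K (M * ℓ)) rfl rfl hv
  have hR0 : R ≠ 0 := by
    intro h
    exact H9.deltaRatio_ne_zero (K := K) ℓ (congrArg Subtype.val h)
  have hub0 : ub' ≠ 0 := by
    rintro rfl
    exact pow_ne_zero d (H9.deltaL_ne_zero (K := K)) hub'.symm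
  have e2 : betaC K M ℓ ub = ub' * R ^ d := Subtype.ext (by
    rw [coe_betaC, hub]
    show _ = (ub' : LaurentSeries K) * (H9.deltaRatio K ℓ) ^ d
    rw [hub', ← mul_pow, H9.deltaRatio_eq_div, mul_div_cancel₀ _ (H9.deltaL_ne_zero (K := K)),
      map_pow])
  have h1 := v.ord_restrictAlong (betaC K M ℓ) hβ (jk K M)
  have h2 := v.ord_restrictAlong (betaC K M ℓ) hβ ub
  rw [h1] at e1
  rw [e2, v.ord_mul hub0 (pow_ne_zero d hR0), ← zpow_natCast, v.ord_zpow, hR, mul_zero,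
    add_zero] at h2
  have he : 0 < v.ramificationIndexAlong (betaC K M ℓ) :=
    H9.ramificationIndexAlong_pos (betaC K M ℓ) hβ v
  have he' : (0 : ℤ) < v.ramificationIndexAlong (betaC K M ℓ) := by exact_mod_cast he
  have h3 : 0 ≤ (v.restrictAlong (betaC K M ℓ) hβ).ord (jk K M) := by
    by_contra hcon
    push Not at hcon
    have := mul_neg_of_pos_of_neg he' hcon
    omega
  refine ⟨h3, ?_⟩
  rcases hM _ h3 with h4 | h4
  · rw [h4] at h2 ⊢
    rcases hMl v hv with h5 | h5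
    · rw [h5] at h2 ⊢
      refine ⟨rfl, fun _ => ?_⟩
      have h6 : ((v.ramificationIndexAlong (betaC K M ℓ) : ℤ) - 1) * n = 0 := by linarith
      rcases mul_eq_zero.mp h6 with h7 | h7
      · omega
      · exact absurd h7 hn
    · rw [h5] at h2
      rcases mul_eq_zero.mp h2.symm with h7 | h7
      · omega
      · exact absurd h7 hn
  · rw [h4, mul_zero] at h2
    rw [h4, h2]
    exact ⟨rfl, fun h => absurd rfl h⟩

end Gen

section Main

variable {p : ℕ} [hp : Fact p.Prime] {A : ValuationSubring Qb} (hA : A.LiesOverPrime p)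

local notation "kA" => IsLocalRing.ResidueField A

include hA in
/-- **[7A]** `t` a place of `X_0(Mℓ)` in characteristic `p` above (via `α`) a place `s` where `j`
is finite and `Δ̄^{p-1}` has non-zero order (a supersingular place): `α`, `β` are unramified at
`t`, and `β(t)` is again supersingular. -/
theorem ubar_beta_of_alpha {M ℓ : ℕ} [NeZero M] [NeZero ℓ] [NeZero (M * ℓ)] (hℓ : ℓ.Prime)
    (h4M : 4 ∣ M) (hpM : ¬ p ∣ M) (hℓp : ℓ ≠ p)
    {ub : modularFunctionFieldFullC kA M} (hub : (ub : LaurentSeries kA) = deltaL kA ^ (p - 1))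
    (hα : (alphaC kA M ℓ).toRingHom.IsIntegral) (hβ : (betaC kA M ℓ).toRingHom.IsIntegral)
    (t : Place kA (modularFunctionFieldFullC kA (M * ℓ)))
    (hj : 0 ≤ (t.restrictAlong (alphaC kA M ℓ) hα).ord (jk kA M))
    (hs : (t.restrictAlong (alphaC kA M ℓ) hα).ord ub ≠ 0) :
    t.ramificationIndexAlong (alphaC kA M ℓ) = 1 ∧
    t.ramificationIndexAlong (betaC kA M ℓ) = 1 ∧
    0 ≤ (t.restrictAlong (betaC kA M ℓ) hβ).ord (jk kA M) ∧
    (t.restrictAlong (betaC kA M ℓ) hβ).ord ub = -12 := by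
  haveI : Fact ℓ.Prime := ⟨hℓ⟩
  haveI hk1 : IsAlgClosed kA := H18.isAlgClosed_residueField A
  haveI hk2 : CharP kA p := H1.charP_of_liesOver A hA (IsLocalRing.residue A)
  have hpl : ¬ p ∣ ℓ := fun h => hℓp ((Nat.prime_dvd_prime_iff_eq hp.out hℓ).mp h).symm
  have hpMl : ¬ p ∣ M * ℓ := fun h => (hp.out.dvd_mul.mp h).elim hpM hpl
  have c1 : ∀ n : ℕ, ¬ p ∣ n → (n : kA) ≠ 0 := fun n hn h0 =>
    hn ((CharP.cast_eq_zero_iff kA p n).mp h0)
  haveI : H94.FunField kA (modularFunctionFieldFullC kA M) := H9.funField_full kA M (c1 M hpM)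
  haveI : H94.FunField kA (modularFunctionFieldFullC kA (M * ℓ)) :=
    H9.funField_full kA (M * ℓ) (c1 _ hpMl)
  let ub' : modularFunctionFieldFullC kA (M * ℓ) := alphaC kA M ℓ ub
  have hub' : (ub' : LaurentSeries kA) = deltaL kA ^ (p - 1) := by
    rw [← hub]; exact coe_alphaC kA M ℓ ub
  have hM := fun x hx => ord_ubar_cases hA h4M hpM hub x hx
  have hMl := fun x hx => ord_ubar_cases hA (h4M.mul_right ℓ) hpMl hub' x hx
  -- `t` is not a cusp
  have e1 : alphaC kA M ℓ (jk kA M) = jk kA (M * ℓ) := Subtype.ext (coe_alphaC kA M ℓ _)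
  have h1 := t.ord_restrictAlong (alphaC kA M ℓ) hα (jk kA M)
  rw [e1] at h1
  have hjt : 0 ≤ t.ord (jk kA (M * ℓ)) := by
    rw [h1]; positivity
  obtain ⟨-, h2, h3⟩ := ord_ubar_alpha (n := -12) (by norm_num) (coe_alphaC kA M ℓ ub) hM hMl hα
    t hjt
  obtain ⟨h4, h5, h6⟩ := ord_ubar_beta (c1 ℓ hpl) (n := -12) (by norm_num) hub hub' hM hMl hβ
    t hjt
  have h7 : t.ord ub' ≠ 0 := by rw [← h2]; exact hs
  refine ⟨h3 h7, h6 h7, h4, ?_⟩
  rcases hM _ h4 with h8 | h8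
  · exact h8
  · rw [h5] at h8
    exact absurd h8 h7

include hA in
/-- `Δ̄^{p-1}` has non-zero order at `α(t)` iff at `β(t)`. -/
theorem ubar_beta_iff {M ℓ : ℕ} [NeZero M] [NeZero ℓ] [NeZero (M * ℓ)] (hℓ : ℓ.Prime)
    (h4M : 4 ∣ M) (hpM : ¬ p ∣ M) (hℓp : ℓ ≠ p)
    {ub : modularFunctionFieldFullC kA M} (hub : (ub : LaurentSeries kA) = deltaL kA ^ (p - 1))
    (hα : (alphaC kA M ℓ).toRingHom.IsIntegral) (hβ : (betaC kA M ℓ).toRingHom.IsIntegral)
    (t : Place kA (modularFunctionFieldFullC kA (M * ℓ)))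
    (hj : 0 ≤ t.ord (jk kA (M * ℓ))) :
    (t.restrictAlong (betaC kA M ℓ) hβ).ord ub = (t.restrictAlong (alphaC kA M ℓ) hα).ord ub := by
  haveI : Fact ℓ.Prime := ⟨hℓ⟩
  haveI hk1 : IsAlgClosed kA := H18.isAlgClosed_residueField A
  haveI hk2 : CharP kA p := H1.charP_of_liesOver A hA (IsLocalRing.residue A)
  have hpl : ¬ p ∣ ℓ := fun h => hℓp ((Nat.prime_dvd_prime_iff_eq hp.out hℓ).mp h).symm
  have hpMl : ¬ p ∣ M * ℓ := fun h => (hp.out.dvd_mul.mp h).elim hpM hpl
  have c1 : ∀ n : ℕ, ¬ p ∣ n → (n : kA) ≠ 0 := fun n hn h0 =>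
    hn ((CharP.cast_eq_zero_iff kA p n).mp h0)
  haveI : H94.FunField kA (modularFunctionFieldFullC kA M) := H9.funField_full kA M (c1 M hpM)
  haveI : H94.FunField kA (modularFunctionFieldFullC kA (M * ℓ)) :=
    H9.funField_full kA (M * ℓ) (c1 _ hpMl)
  let ub' : modularFunctionFieldFullC kA (M * ℓ) := alphaC kA M ℓ ub
  have hub' : (ub' : LaurentSeries kA) = deltaL kA ^ (p - 1) := by
    rw [← hub]; exact coe_alphaC kA M ℓ ub
  have hM := fun x hx => ord_ubar_cases hA h4M hpM hub x hx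
  have hMl := fun x hx => ord_ubar_cases hA (h4M.mul_right ℓ) hpMl hub' x hx
  obtain ⟨-, h2, -⟩ := ord_ubar_alpha (n := -12) (by norm_num) (coe_alphaC kA M ℓ ub) hM hMl hα
    t hj
  obtain ⟨-, h5, -⟩ := ord_ubar_beta (c1 ℓ hpl) (n := -12) (by norm_num) hub hub' hM hMl hβ
    t hj
  rw [h5, h2]

end Main

section Node

variable {A : ValuationSubring Qb} {M p : ℕ} [NeZero M] [NeZero p] [hp : Fact p.Prime]
  [CharP (IsLocalRing.ResidueField A) p] [IsAlgClosed (IsLocalRing.ResidueField A)]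
  [Infinite (IsLocalRing.ResidueField A)] (w : H99.AL Qb M p)
  (hπ : Function.Surjective (IsLocalRing.residue A))
  (hdeg : H42.DegLE Qb (IsLocalRing.ResidueField A) M) (hpM : ¬ p ∣ M) (arch : Arch A)
  (r : Place Qb (H99.FX Qb M) → Place (IsLocalRing.ResidueField A)
    (modularFunctionFieldFullC (IsLocalRing.ResidueField A) M))
  {c : ℕ}
  (hr1 : ∀ D : Divisor Qb (H99.FX Qb M), (c : ℤ) < Divisor.degree D →
    (H42.modReductionData A (IsLocalRing.residue A) M hπ hdeg).IsRed D (Finsupp.mapDomain r D))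
  (hr2 : H34.GR.DivCompat (H42.modReductionData A (IsLocalRing.residue A) M hπ hdeg) r)
  [H3RR.IsFF Qb (H99.FX Qb M)] [H3RR.IsFF Qb (H99.FX Qb (M * p))]
  [H3RR.IsFF (IsLocalRing.ResidueField A)
    (modularFunctionFieldFullC (IsLocalRing.ResidueField A) M)]
  [H94.FunField Qb (H99.FX Qb M)] [H94.FunField Qb (H99.FX Qb (M * p))]

local notation "kA" => IsLocalRing.ResidueField A

/-- nodes = non-cuspidal places where `Δ̄^{p-1}` has order `-12`. -/
theorem node_iff (h4M : 4 ∣ M) {ub : modularFunctionFieldFullC kA M}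
    (hub : (ub : LaurentSeries kA) = deltaL kA ^ (p - 1))
    (x : Place kA (modularFunctionFieldFullC kA M)) :
    (sheets w hπ hdeg hpM arch r hr1 hr2).Node x ↔
      0 ≤ x.ord (jk kA M) ∧ x.ord ub ≠ 0 := by
  constructor
  · intro hx
    refine ⟨node_ord_jk w hπ hdeg hpM arch r hr1 hr2 hx, ?_⟩
    rw [H38.Dv.ord_ubar_node w hπ hdeg hpM H67.embQbar (Or.inl rfl) h4M arch r hr1 hr2 hx hub]
    norm_num
  · rintro ⟨hj, hx⟩
    by_contra hN
    exact hx (H38.Dv.ord_ubar_smooth w hπ hdeg hpM arch r hr1 hr2 hN hj hub)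

/-- **[7A]** for nodes: `t` a place of `X_0(Mℓ)` in characteristic `p` above (via `α`) a node of
the model of `X_0(Mp)`: `α`, `β` are unramified at `t` and `β(t)` is a node. -/
theorem node_beta_of_alpha (hA : A.LiesOverPrime p) {ℓ : ℕ} [NeZero ℓ] [NeZero (M * ℓ)]
    (hℓ : ℓ.Prime) (h4M : 4 ∣ M) (hℓp : ℓ ≠ p)
    (hα : (alphaC kA M ℓ).toRingHom.IsIntegral) (hβ : (betaC kA M ℓ).toRingHom.IsIntegral)
    (t : Place kA (modularFunctionFieldFullC kA (M * ℓ)))
    (ht : (sheets w hπ hdeg hpM arch r hr1 hr2).Node (t.restrictAlong (alphaC kA M ℓ) hα)) :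
    t.ramificationIndexAlong (alphaC kA M ℓ) = 1 ∧
    t.ramificationIndexAlong (betaC kA M ℓ) = 1 ∧
    (sheets w hπ hdeg hpM arch r hr1 hr2).Node (t.restrictAlong (betaC kA M ℓ) hβ) := by
  obtain ⟨ub, hub⟩ := H38.Dv.exists_ubar w hπ hdeg hpM arch r hr1 hr2
  obtain ⟨hj, hs⟩ := (node_iff w hπ hdeg hpM arch r hr1 hr2 h4M hub _).mp ht
  obtain ⟨h1, h2, h3, h4⟩ := ubar_beta_of_alpha hA hℓ h4M hpM hℓp hub hα hβ t hj hs
  exact ⟨h1, h2, (node_iff w hπ hdeg hpM arch r hr1 hr2 h4M hub _).mpr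
    ⟨h3, by rw [h4]; norm_num⟩⟩

/-- `α(t)` is a node iff `β(t)` is a node. -/
theorem node_beta_iff_alpha (hA : A.LiesOverPrime p) {ℓ : ℕ} [NeZero ℓ] [NeZero (M * ℓ)]
    (hℓ : ℓ.Prime) (h4M : 4 ∣ M) (hℓp : ℓ ≠ p)
    (hα : (alphaC kA M ℓ).toRingHom.IsIntegral) (hβ : (betaC kA M ℓ).toRingHom.IsIntegral)
    (t : Place kA (modularFunctionFieldFullC kA (M * ℓ)))
    (hj : 0 ≤ t.ord (jk kA (M * ℓ))) :
    (sheets w hπ hdeg hpM arch r hr1 hr2).Node (t.restrictAlong (betaC kA M ℓ) hβ) ↔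
    (sheets w hπ hdeg hpM arch r hr1 hr2).Node (t.restrictAlong (alphaC kA M ℓ) hα) := by
  haveI : Fact ℓ.Prime := ⟨hℓ⟩
  obtain ⟨ub, hub⟩ := H38.Dv.exists_ubar w hπ hdeg hpM arch r hr1 hr2
  have hpl : ¬ p ∣ ℓ := fun h => hℓp ((Nat.prime_dvd_prime_iff_eq hp.out hℓ).mp h).symm
  have hpMl : ¬ p ∣ M * ℓ := fun h => (hp.out.dvd_mul.mp h).elim hpM hpl
  have c1 : ∀ n : ℕ, ¬ p ∣ n → (n : kA) ≠ 0 := fun n hn h0 =>
    hn ((CharP.cast_eq_zero_iff kA p n).mp h0)
  haveI : H94.FunField kA (modularFunctionFieldFullC kA M) := H9.funField_full kA M (c1 M hpM)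
  haveI : H94.FunField kA (modularFunctionFieldFullC kA (M * ℓ)) :=
    H9.funField_full kA (M * ℓ) (c1 _ hpMl)
  have e := ubar_beta_iff hA hℓ h4M hpM hℓp hub hα hβ t hj
  -- `j` is finite at `α(t)` and at `β(t)`
  have e1 : alphaC kA M ℓ (jk kA M) = jk kA (M * ℓ) := Subtype.ext (coe_alphaC kA M ℓ _)
  have h1 := t.ord_restrictAlong (alphaC kA M ℓ) hα (jk kA M)
  have h2 := t.ord_restrictAlong (betaC kA M ℓ) hβ (jk kA M)
  have h3 : 0 ≤ t.ord (betaC kA M ℓ (jk kA M)) :=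
    ord_jl_nonneg (c1 ℓ hpl) (full_degeneracyC_le kA (dvd_mul_left ℓ M)) t
      (j := jk kA (M * ℓ)) rfl (coe_betaC kA M ℓ _) hj
  rw [e1] at h1
  have a1 : (0 : ℤ) < t.ramificationIndexAlong (alphaC kA M ℓ) := by
    exact_mod_cast H9.ramificationIndexAlong_pos (alphaC kA M ℓ) hα t
  have a2 : (0 : ℤ) < t.ramificationIndexAlong (betaC kA M ℓ) := by
    exact_mod_cast H9.ramificationIndexAlong_pos (betaC kA M ℓ) hβ t
  have b1 : 0 ≤ (t.restrictAlong (alphaC kA M ℓ) hα).ord (jk kA M) := by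
    by_contra hcon
    push Not at hcon
    have := mul_neg_of_pos_of_neg a1 hcon
    omega
  have b2 : 0 ≤ (t.restrictAlong (betaC kA M ℓ) hβ).ord (jk kA M) := by
    by_contra hcon
    push Not at hcon
    have := mul_neg_of_pos_of_neg a2 hcon
    omega
  rw [node_iff w hπ hdeg hpM arch r hr1 hr2 h4M hub, node_iff w hπ hdeg hpM arch r hr1 hr2 h4M
    hub, e]
  exact ⟨fun h => ⟨b1, h.2⟩, fun h => ⟨b2, h.2⟩⟩

end Node

end Fermat.Agent.H16.C7

end
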