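import Fermat.Agent.H16C7A
import Fermat.Agent.H17HkDeg

/-!
# The correspondence `T_ℓ` modulo `p` at the supersingular places (helper16, S39/S40, step 7)

`corr_congr`: value modulo `p` of a correspondence `ψ_* φ^*` at a place `s` such that `φ`, `ψ` are
unramified above `s` and the divisor is constant modulo `p` on the image.
`dvd_ord_of_hecke`: on `X_0(M)`, `4 ∣ M`, in characteristic `p`, a function whose orders are
divisible by `p` outside the supersingular places and constant modulo `p` on them, and which is an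
eigenvector of `T_ℓ` modulo `p` for one non Eisenstein prime `ℓ`, has all its orders divisible
by `p`.
-/

set_option autoImplicit false
set_option linter.unusedSectionVars false
set_option linter.style.haveILetI false
set_option maxHeartbeats 1000000
set_option synthInstance.maxHeartbeats 200000

noncomputable section

open AlgebraicCurve ModularCurve IntermediateField WithZero
open Fermat.Agent.H97 Fermat.Agent.H97.Sheets Fermat.Agent.H34.Two Fermat.Agent.H61.Nd
open Fermat.Agent.H28 Fermat.Agent.H31.In Fermat.Agent.H31 Fermat.Agent.H17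

namespace Fermat.Agent.H16.C7

local notation "Qb" => AlgebraicClosure ℚ

section Corr

variable {K F F' : Type*} [Field K] [Field F] [Field F'] [Algebra K F] [Algebra K F']
variable [HasPrincipalDivisors K F']

theorem pushforwardAlong_apply_fiber (ψ : F →ₐ[K] F') (hψ : ψ.toRingHom.IsIntegral)
    (hdeg : ∀ w : Place K F', w.deg = 1) (E : Divisor K F') (s : Place K F) :
    Divisor.pushforwardAlong ψ hψ E s = ∑ w ∈ Place.fiberAlong ψ hψ s, E w := by
  classical
  have h1 : Divisor.pushforwardAlong ψ hψ E s =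
      ∑ w ∈ E.support, if w.restrictAlong ψ hψ = s then E w * (w.inertiaDegAlong ψ hψ : ℤ)
        else 0 := by
    letI := algebraAlong ψ
    haveI := isScalarTower_along ψ
    haveI := isIntegral_along ψ hψ
    exact Divisor.pushforward_apply E s
  rw [h1, ← Finset.sum_filter]
  have h2 : ∀ w ∈ E.support.filter (fun w => w.restrictAlong ψ hψ = s),
      E w * (w.inertiaDegAlong ψ hψ : ℤ) = E w := by
    intro w _
    rw [H9.inertiaDegAlong_eq_one ψ hψ w (hdeg w), Nat.cast_one, mul_one]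
  rw [Finset.sum_congr rfl h2]
  refine Finset.sum_subset ?_ ?_
  · intro w hw
    rw [Finset.mem_filter] at hw
    exact Place.mem_fiberAlong.mpr hw.2
  · intro w hw hw'
    by_contra hne
    exact hw' (Finset.mem_filter.mpr ⟨Finsupp.mem_support_iff.mpr hne,
      Place.mem_fiberAlong.mp hw⟩)

/-- a correspondence modulo `p` at a place above which everything is unramified. -/
theorem corr_congr (φ ψ : F →ₐ[K] F') (hφ : φ.toRingHom.IsIntegral)
    (hψ : ψ.toRingHom.IsIntegral) (hFI : FundamentalIdentityAlong K ψ hψ)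
    (hdeg : ∀ w : Place K F', w.deg = 1) {p : ℤ} {c : ℤ}
    (D : Divisor K F) (s : Place K F) (hs : s.deg = 1)
    (h : ∀ y : Place K F', y.restrictAlong ψ hψ = s →
      y.ramificationIndexAlong ψ = 1 ∧ y.ramificationIndexAlong φ = 1 ∧
      p ∣ D (y.restrictAlong φ hφ) - c) :
    p ∣ Divisor.correspondence φ ψ hφ hψ D s - (finrankAlong K ψ : ℤ) * c := by
  rw [Divisor.correspondence_apply, pushforwardAlong_apply_fiber ψ hψ hdeg,
    ← H9.sum_ramificationIndexAlong ψ hψ hFI hdeg s hs, Finset.sum_mul, ← Finset.sum_sub_distrib]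
  refine Finset.dvd_sum fun y hy => ?_
  obtain ⟨h1, h2, h3⟩ := h y (Place.mem_fiberAlong.mp hy)
  rw [Divisor.pullbackAlong_apply, h1, h2, Nat.cast_one, one_mul, one_mul]
  exact h3

end Corr

section Main

variable {p : ℕ} [hp : Fact p.Prime] {A : ValuationSubring Qb} (hA : A.LiesOverPrime p)

local notation "kA" => IsLocalRing.ResidueField A

theorem finrank_alphaC_eq {K : Type*} [Field K] [IsAlgClosed K] {M ℓ : ℕ} [NeZero M] [NeZero ℓ]
    (hℓ : ℓ.Prime) (hℓM : ¬ ℓ ∣ M) (h0 : ((M * ℓ : ℕ) : K) ≠ 0) :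
    finrankAlong K (alphaC K M ℓ) = ℓ + 1 := by
  have h1 := finrank_alphaC K M ℓ h0
  have h2 := H45.dedekindPsi_mul_of_not_dvd hℓ (NeZero.ne M) hℓM
  rw [mul_comm ℓ M] at h2
  rw [h2, mul_comm (ℓ + 1)] at h1
  exact Nat.eq_of_mul_eq_mul_left (H67.dedekindPsi_pos M) h1

include hA in
/-- **Step 7**: see the header.  `hrel` is the Hecke relation
`T_ℓ (div g) = a div g + p div h`, `T_ℓ = α_* β^*`. -/
theorem dvd_ord_of_hecke {M ℓ : ℕ} [NeZero M] [NeZero ℓ] (h4M : 4 ∣ M)
    (hpM : ¬ p ∣ M) (hℓ : ℓ.Prime) (hℓM : ¬ ℓ ∣ M) (hℓp : ℓ ≠ p)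
    [IsAlgClosed kA] [H94.FunField kA (modularFunctionFieldFullC kA M)]
    [HasPrincipalDivisors kA (modularFunctionFieldFullC kA (M * ℓ))]
    (hα : (alphaC kA M ℓ).toRingHom.IsIntegral) (hβ : (betaC kA M ℓ).toRingHom.IsIntegral)
    {g : modularFunctionFieldFullC kA M} {D : Divisor kA (modularFunctionFieldFullC kA M)}
    (hD : ∀ v, D v = v.ord g)
    {ub : modularFunctionFieldFullC kA M} (hub : (ub : LaurentSeries kA) = deltaL kA ^ (p - 1))
    (hsm : ∀ s : Place kA (modularFunctionFieldFullC kA M),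
      ¬ (0 ≤ s.ord (jk kA M) ∧ s.ord ub ≠ 0) → (p : ℤ) ∣ s.ord g)
    (hss : ∀ s s' : Place kA (modularFunctionFieldFullC kA M),
      0 ≤ s.ord (jk kA M) → s.ord ub ≠ 0 → 0 ≤ s'.ord (jk kA M) → s'.ord ub ≠ 0 →
        (p : ℤ) ∣ s.ord g - s'.ord g)
    {a : ℤ} {h : modularFunctionFieldFullC kA M}
    (hrel : ∀ s, Divisor.correspondence (betaC kA M ℓ) (alphaC kA M ℓ) hβ hα D s =
      a * s.ord g + p * s.ord h)
    (ha : ¬ (p : ℤ) ∣ a - (ℓ + 1)) (s : Place kA (modularFunctionFieldFullC kA M)) :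
    (p : ℤ) ∣ s.ord g := by
  by_cases hs : 0 ≤ s.ord (jk kA M) ∧ s.ord ub ≠ 0
  swap
  · exact hsm s hs
  haveI : NeZero (M * ℓ) := ⟨mul_ne_zero (NeZero.ne M) hℓ.ne_zero⟩
  haveI : Fact ℓ.Prime := ⟨hℓ⟩
  haveI hk2 : CharP kA p := H1.charP_of_liesOver A hA (IsLocalRing.residue A)
  have hpl : ¬ p ∣ ℓ := fun h => hℓp ((Nat.prime_dvd_prime_iff_eq hp.out hℓ).mp h).symm
  have hpMl : ¬ p ∣ M * ℓ := fun h => (hp.out.dvd_mul.mp h).elim hpM hpl
  have c1 : ∀ n : ℕ, ¬ p ∣ n → ((n : ℕ) : kA) ≠ 0 := fun n hn h0 =>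
    hn ((CharP.cast_eq_zero_iff kA p n).mp h0)
  haveI : H94.FunField kA (modularFunctionFieldFullC kA (M * ℓ)) :=
    H9.funField_full kA (M * ℓ) (c1 _ hpMl)
  have h1 := corr_congr (betaC kA M ℓ) (alphaC kA M ℓ) hβ hα
    (fundamentalIdentityAlong_of_funField (alphaC kA M ℓ) hα) H94.deg_eq_one (p := p)
    (c := s.ord g) D s (H94.deg_eq_one s) (fun y hy => by
      have hj : 0 ≤ (y.restrictAlong (alphaC kA M ℓ) hα).ord (jk kA M) := by rw [hy]; exact hs.1
      have hu : (y.restrictAlong (alphaC kA M ℓ) hα).ord ub ≠ 0 := by rw [hy]; exact hs.2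
      obtain ⟨e1, e2, e3, e4⟩ := ubar_beta_of_alpha hA hℓ h4M hpM hℓp hub hα hβ y hj hu
      refine ⟨e1, e2, ?_⟩
      rw [hD]
      exact hss _ _ e3 (by rw [e4]; norm_num) hs.1 hs.2)
  rw [finrank_alphaC_eq hℓ hℓM (c1 _ hpMl), hrel] at h1
  have h2 : (p : ℤ) ∣ (a - (ℓ + 1)) * s.ord g := by
    have h3 : (a - (ℓ + 1)) * s.ord g =
        (a * s.ord g + p * s.ord h - ((ℓ + 1 : ℕ) : ℤ) * s.ord g) - p * s.ord h := by
      push_cast
      ring
    rw [h3]
    exact dvd_sub h1 (Dvd.intro _ rfl)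
  exact ((Nat.prime_iff_prime_int.mp hp.out).dvd_or_dvd h2).resolve_left ha

end Main

end Fermat.Agent.H16.C7

end
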