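import Fermat.Agent.H40CDef
import Fermat.Agent.H16C7P

/-!
# `InP7` (helper16, S39/S40, step 7)
-/

set_option autoImplicit false
set_option linter.unusedSectionVars false
set_option linter.style.haveILetI false
set_option maxHeartbeats 1000000
set_option synthInstance.maxHeartbeats 200000

noncomputable section

open AlgebraicCurve ModularCurve
open Fermat.Agent.H28 Fermat.Agent.H17 Fermat.Agent.H40C

namespace Fermat.Agent.H16.C7

local notation "Qb" => AlgebraicClosure ℚ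

/-- **[P7]** of S39/S40. -/
theorem inP7 : InP7 := by
  intro p hp A hA M _ h4M hpM ℓ _ hℓ hℓN g hg hsm hss a hrel ha s
  haveI : Fact p.Prime := ⟨hp⟩
  have hℓM : ¬ ℓ ∣ M := fun h => hℓN (h.mul_right p)
  have hℓp : ℓ ≠ p := by
    rintro rfl
    exact hℓN (dvd_mul_left ℓ M)
  haveI : NeZero (M * ℓ) := ⟨mul_ne_zero (NeZero.ne M) hℓ.ne_zero⟩
  haveI hk1 : IsAlgClosed (kA A) := H18.isAlgClosed_residueField A
  haveI hk2 : CharP (kA A) p := H1.charP_of_liesOver A hA (IsLocalRing.residue A)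
  have hpl : ¬ p ∣ ℓ := fun h => hℓp ((Nat.prime_dvd_prime_iff_eq hp hℓ).mp h).symm
  have hpMl : ¬ p ∣ M * ℓ := fun h => (hp.dvd_mul.mp h).elim hpM hpl
  have c1 : ∀ n : ℕ, ¬ p ∣ n → ((n : ℕ) : kA A) ≠ 0 := fun n hn h0 =>
    hn ((CharP.cast_eq_zero_iff (kA A) p n).mp h0)
  haveI : H94.FunField (kA A) (FC (kA A) M) := H9.funField_full (kA A) M (c1 M hpM)
  haveI : H94.FunField (kA A) (FC (kA A) (M * ℓ)) :=
    H9.funField_full (kA A) (M * ℓ) (c1 _ hpMl)
  haveI : HasPrincipalDivisors (kA A) (FC (kA A) M) := H18.hasPrincipalDivisors _ _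
  haveI : HasPrincipalDivisors (kA A) (FC (kA A) (M * ℓ)) := H18.hasPrincipalDivisors _ _
  obtain ⟨h, -, hh⟩ := hrel
  obtain ⟨D, hD, -⟩ := HasPrincipalDivisors.exists_divisor (K := kA A) g hg
  obtain ⟨ub, hub⟩ : ∃ ub : FC (kA A) M, (ub : LaurentSeries (kA A)) = deltaL (kA A) ^ (p - 1) :=
    ⟨⟨_, H39.ubar_mem hA M hpM⟩, rfl⟩
  -- supersingular places
  have hS : ∀ s : Place (kA A) (FC (kA A) M),
      SSp p s ↔ 0 ≤ s.ord (H34.Two.jk (kA A) M) ∧ s.ord ub ≠ 0 := by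
    intro s
    constructor
    · rintro ⟨h1, h2⟩
      refine ⟨h1, ?_⟩
      rw [h2 ub hub]
      norm_num
    · rintro ⟨h1, h2⟩
      refine ⟨h1, fun ub' hub' => ?_⟩
      have e : ub' = ub := Subtype.ext (hub'.trans hub.symm)
      rw [e]
      exact (ord_ubar_cases hA h4M hpM hub s h1).resolve_right h2
  exact dvd_ord_of_hecke hA h4M hpM hℓ hℓM hℓp (isIntegral_of_funField (alphaC (kA A) M ℓ))
    (isIntegral_of_funField (betaC (kA A) M ℓ)) hD hub
    (fun s hs => hsm s (fun h => hs ((hS s).mp h)))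
    (fun s s' h1 h2 h3 h4 => hss s s' ((hS s).mpr ⟨h1, h2⟩) ((hS s').mpr ⟨h3, h4⟩))
    (h := h) (fun s => hh _ _ D hD s) ha s

end Fermat.Agent.H16.C7

end
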