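import Mathlib

set_option autoImplicit false

namespace Fermat.Agent.H16

open PowerSeries UpperHalfPlane ModularForm ModularFormClass MatrixGroups SlashInvariantForm
  Matrix.SpecialLinearGroup

noncomputable section

abbrev G0 (p : ℕ) : Subgroup (GL (Fin 2) ℝ) := (CongruenceSubgroup.Gamma0 p : Subgroup (GL (Fin 2) ℝ))

/-- `S T^j` -/
def stj (j : ℕ) : SL(2, ℤ) := ModularGroup.S * ModularGroup.T ^ j

lemma T_pow_coe (j : ℕ) : ((ModularGroup.T ^ j : SL(2, ℤ)) : Matrix (Fin 2) (Fin 2) ℤ) =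
    !![1, (j : ℤ); 0, 1] := by
  have := ModularGroup.coe_T_zpow (j : ℤ)
  simpa using this

lemma stj_coe (j : ℕ) : ((stj j : SL(2, ℤ)) : Matrix (Fin 2) (Fin 2) ℤ) = !![0, -1; 1, (j : ℤ)] := by
  rw [stj, Matrix.SpecialLinearGroup.coe_mul, T_pow_coe, ModularGroup.S]
  ext i k
  fin_cases i <;> fin_cases k <;> simp [Matrix.mul_apply, Fin.sum_univ_two]

lemma stj_inv_coe (j : ℕ) : (((stj j)⁻¹ : SL(2, ℤ)) : Matrix (Fin 2) (Fin 2) ℤ) =
    !![(j : ℤ), 1; -1, 0] := by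
  rw [Matrix.SpecialLinearGroup.coe_inv, stj_coe, Matrix.adjugate_fin_two]
  ext i k
  fin_cases i <;> fin_cases k <;> simp

variable {p : ℕ}

lemma mapGL_mem_G0 {γ : SL(2, ℤ)} : mapGL ℝ γ ∈ G0 p ↔ γ ∈ CongruenceSubgroup.Gamma0 p := by
  rw [G0, Subgroup.mem_map]
  constructor
  · rintro ⟨δ, hδ, h⟩
    rwa [← mapGL_injective h]
  · exact fun h => ⟨γ, h, rfl⟩

lemma mem_Gamma0_iff {γ : SL(2, ℤ)} : γ ∈ CongruenceSubgroup.Gamma0 p ↔ (p : ℤ) ∣ γ 1 0 := by
  rw [CongruenceSubgroup.Gamma0_mem, ZMod.intCast_zmod_eq_zero_iff_dvd]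

/-- the elements of `𝒮ℒ` -/
def toSL (γ : SL(2, ℤ)) : 𝒮ℒ := ⟨mapGL ℝ γ, ⟨γ, rfl⟩⟩

lemma mk_toSL_eq {γ δ : SL(2, ℤ)} :
    (QuotientGroup.mk (toSL γ) : 𝒮ℒ ⧸ ((G0 p).subgroupOf 𝒮ℒ)) = QuotientGroup.mk (toSL δ) ↔
      γ⁻¹ * δ ∈ CongruenceSubgroup.Gamma0 p := by
  rw [QuotientGroup.eq, Subgroup.mem_subgroupOf, ← mapGL_mem_G0]
  simp [toSL]

/-- coset representatives -/
def cosetMap (p : ℕ) : Option (Fin p) → 𝒮ℒ ⧸ ((G0 p).subgroupOf 𝒮ℒ)
  | none => QuotientGroup.mk (toSL 1)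
  | some j => QuotientGroup.mk (toSL (stj j)⁻¹)

lemma cosetMap_bijective (p : ℕ) [hp : Fact p.Prime] : Function.Bijective (cosetMap p) := by
  have hp1 : ¬ (p : ℤ) ∣ 1 := by
    intro h
    have := hp.out.one_lt
    have h2 := Int.natAbs_dvd_natAbs.mpr h
    simp at h2
    omega
  constructor
  · rintro (_ | i) (_ | j) h
    · rfl
    · exfalso
      rw [cosetMap, cosetMap, mk_toSL_eq, mem_Gamma0_iff] at h
      simp only [inv_one, one_mul, stj_inv_coe] at h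
      apply hp1
      simpa using h
    · exfalso
      rw [cosetMap, cosetMap, mk_toSL_eq, mem_Gamma0_iff] at h
      simp only [inv_inv, mul_one, stj_coe] at h
      apply hp1
      simpa using h
    · rw [cosetMap, cosetMap, mk_toSL_eq, mem_Gamma0_iff] at h
      simp only [inv_inv, Matrix.SpecialLinearGroup.coe_mul, stj_coe, stj_inv_coe] at h
      simp only [Matrix.mul_apply, Fin.sum_univ_two] at h
      simp at h
      have h2 : ((i : ℕ) : ℤ) - ((j : ℕ) : ℤ) = 0 := by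
        apply Int.eq_zero_of_abs_lt_dvd (m := (p : ℤ))
        · have h3 := (dvd_neg.mpr h)
          have h4 : -(((j : ℕ) : ℤ) + -((i : ℕ) : ℤ)) = ((i : ℕ) : ℤ) - ((j : ℕ) : ℤ) := by ring
          rwa [h4] at h3
        · have hi := i.2
          have hj := j.2
          rw [abs_lt]
          constructor <;> omega
      congr 1
      apply Fin.ext
      omega
  · intro x
    induction x using QuotientGroup.induction_on with | H g =>
    obtain ⟨g, γ, rfl⟩ := g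
    by_cases hc : (p : ℤ) ∣ γ⁻¹ 1 0
    · refine ⟨none, ?_⟩
      change QuotientGroup.mk (toSL 1) = QuotientGroup.mk (toSL γ)
      rw [eq_comm, mk_toSL_eq, mul_one, mem_Gamma0_iff]
      exact hc
    · -- choose `j` with `c j = d mod p`
      have hu : IsCoprime (γ⁻¹ 1 0) (p : ℤ) := by
        have hpp : Prime (p : ℤ) := Nat.prime_iff_prime_int.mp hp.out
        exact ((Prime.coprime_iff_not_dvd hpp).mpr hc).symm
      obtain ⟨u, v, huv⟩ := hu
      have hp0 : 0 < (p : ℤ) := by exact_mod_cast hp.out.pos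
      set t : ℤ := (u * γ⁻¹ 1 1) % p with ht
      have ht0 : 0 ≤ t := Int.emod_nonneg _ hp0.ne'
      have htp : t < p := Int.emod_lt_of_pos _ hp0
      refine ⟨some ⟨t.toNat, by omega⟩, ?_⟩
      change QuotientGroup.mk (toSL (stj t.toNat)⁻¹) = QuotientGroup.mk (toSL γ)
      rw [eq_comm, mk_toSL_eq, mem_Gamma0_iff]
      have htt : ((t.toNat : ℕ) : ℤ) = t := Int.toNat_of_nonneg ht0
      simp only [Matrix.SpecialLinearGroup.coe_mul, stj_inv_coe, Matrix.mul_apply,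
        Fin.sum_univ_two, htt]
      simp only [Matrix.cons_val', Matrix.cons_val_zero, Matrix.cons_val_one, Matrix.of_apply]
      have h1 : (p : ℤ) ∣ u * γ⁻¹ 1 1 - t := Int.dvd_self_sub_of_emod_eq ht.symm
      obtain ⟨w, hw⟩ := h1
      have : (γ⁻¹ 1 0) * t + (γ⁻¹ 1 1) * (-1) = (p : ℤ) * (-(γ⁻¹ 1 0) * w - v * γ⁻¹ 1 1) := by
        have h3 : t = u * γ⁻¹ 1 1 - p * w := by linarith
        rw [h3]
        linear_combination (γ⁻¹ 1 1) * huv
      exact ⟨_, this⟩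


section

variable [hp : Fact p.Prime] {k : ℤ}

example : (G0 p).IsFiniteRelIndex 𝒮ℒ := inferInstance

lemma natCard_quotient : Nat.card (𝒮ℒ ⧸ ((G0 p).subgroupOf 𝒮ℒ)) = p + 1 := by
  rw [← Nat.card_congr (Equiv.ofBijective _ (cosetMap_bijective p))]
  simp

lemma quotientFunc_none (f : ModularForm (G0 p) k) :
    quotientFunc (ℋ := 𝒮ℒ) f (cosetMap p none) = f := by
  change quotientFunc (ℋ := 𝒮ℒ) f ⟦toSL 1⟧ = f
  rw [quotientFunc_mk]
  simp [toSL]

lemma quotientFunc_some (f : ModularForm (G0 p) k) (j : Fin p) :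
    quotientFunc (ℋ := 𝒮ℒ) f (cosetMap p (some j)) = (f : ℍ → ℂ) ∣[k] (stj j) := by
  change quotientFunc (ℋ := 𝒮ℒ) f ⟦toSL (stj j)⁻¹⟧ = _
  rw [quotientFunc_mk]
  simp only [toSL, map_inv, inv_inv]
  rfl

lemma coe_norm_eq (f : ModularForm (G0 p) k) :
    (ModularForm.norm 𝒮ℒ f : ℍ → ℂ) = f * ∏ j : Fin p, (f : ℍ → ℂ) ∣[k] (stj j) := by
  rw [ModularForm.coe_norm]
  letI : Fintype (𝒮ℒ ⧸ ((G0 p).subgroupOf 𝒮ℒ)) := Fintype.ofFinite _
  rw [← (Equiv.ofBijective _ (cosetMap_bijective p)).prod_comp, Fintype.prod_option]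
  simp only [Equiv.ofBijective_apply, quotientFunc_none, quotientFunc_some]

lemma coe_trace_eq (f : ModularForm (G0 p) k) :
    (ModularForm.trace 𝒮ℒ f : ℍ → ℂ) = f + ∑ j : Fin p, (f : ℍ → ℂ) ∣[k] (stj j) := by
  rw [ModularForm.coe_trace]
  letI : Fintype (𝒮ℒ ⧸ ((G0 p).subgroupOf 𝒮ℒ)) := Fintype.ofFinite _
  rw [← (Equiv.ofBijective _ (cosetMap_bijective p)).sum_comp, Fintype.sum_option]
  simp only [Equiv.ofBijective_apply, quotientFunc_none, quotientFunc_some]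

end

end

end Fermat.Agent.H16
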