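import Mathlib

set_option autoImplicit false

namespace Fermat.Agent.H16

open PowerSeries UpperHalfPlane ModularForm ModularFormClass MatrixGroups EisensteinSeries

noncomputable section

/-! ### Integral series for `E₄`, `E₆`, `Δ` -/

/-- `∑ σ_k(n) X^n` -/
def sigmaSeries (k : ℕ) : PowerSeries ℤ := PowerSeries.mk fun n => (ArithmeticFunction.sigma k n : ℤ)

lemma coeff_sigmaSeries (k n : ℕ) :
    (sigmaSeries k).coeff n = (ArithmeticFunction.sigma k n : ℤ) := by
  simp [sigmaSeries]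

def E4Z : PowerSeries ℤ := 1 + 240 * sigmaSeries 3
def E6Z : PowerSeries ℤ := 1 - 504 * sigmaSeries 5

/-- the series `∑ (5σ₃+7σ₅)/12 X^n` -/
def mixSeries : PowerSeries ℤ :=
  PowerSeries.mk fun n => (5 * (ArithmeticFunction.sigma 3 n : ℤ) + 7 * (ArithmeticFunction.sigma 5 n : ℤ)) / 12

lemma twelve_dvd_aux (d : ℤ) : (12 : ℤ) ∣ 5 * d ^ 3 + 7 * d ^ 5 := by
  have h : ∀ x : ZMod 12, 5 * x ^ 3 + 7 * x ^ 5 = 0 := by decide
  have := h (d : ZMod 12)
  exact (ZMod.intCast_zmod_eq_zero_iff_dvd _ 12).mp (by push_cast; exact this)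

lemma sigma_int (k n : ℕ) :
    (ArithmeticFunction.sigma k n : ℤ) = ∑ d ∈ n.divisors, (d : ℤ) ^ k := by
  rw [ArithmeticFunction.sigma_apply]; push_cast; rfl

lemma twelve_dvd (n : ℕ) :
    (12 : ℤ) ∣ 5 * (ArithmeticFunction.sigma 3 n : ℤ) + 7 * (ArithmeticFunction.sigma 5 n : ℤ) := by
  rw [sigma_int, sigma_int, Finset.mul_sum, Finset.mul_sum, ← Finset.sum_add_distrib]
  exact Finset.dvd_sum fun d _ => twelve_dvd_aux d

lemma twelve_mul_mixSeries : 12 * mixSeries = 5 * sigmaSeries 3 + 7 * sigmaSeries 5 := by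
  ext n
  have h12 : (12 : PowerSeries ℤ) = PowerSeries.C (12 : ℤ) := by simp
  have h5 : (5 : PowerSeries ℤ) = PowerSeries.C (5 : ℤ) := by simp
  have h7 : (7 : PowerSeries ℤ) = PowerSeries.C (7 : ℤ) := by simp
  rw [h12, h5, h7, map_add, PowerSeries.coeff_C_mul, PowerSeries.coeff_C_mul,
    PowerSeries.coeff_C_mul, coeff_sigmaSeries, coeff_sigmaSeries, mixSeries, PowerSeries.coeff_mk]
  exact Int.mul_ediv_cancel' (twelve_dvd n)

def DZ : PowerSeries ℤ :=
  mixSeries + 100 * sigmaSeries 3 ^ 2 + 8000 * sigmaSeries 3 ^ 3 - 147 * sigmaSeries 5 ^ 2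

lemma DZ_eq : 1728 * DZ = E4Z ^ 3 - E6Z ^ 2 := by
  have h := twelve_mul_mixSeries
  rw [DZ, E4Z, E6Z]
  linear_combination 144 * h

lemma map_E4Z : E4Z.map (Int.castRingHom ℂ) = qExpansion 1 E₄ := by
  ext n
  rw [E_qExpansion_coeff (by norm_num : 3 ≤ 4) ⟨2, rfl⟩, E4Z]
  have h : (240 : PowerSeries ℤ) = PowerSeries.C (240 : ℤ) := by simp
  rw [h, PowerSeries.coeff_map, map_add, PowerSeries.coeff_C_mul, coeff_sigmaSeries,
    PowerSeries.coeff_one]
  have hb : (bernoulli 4 : ℚ) = -1 / 30 := by decide +kernel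
  rw [hb]
  split_ifs with h0
  · subst h0; simp
  · push_cast; norm_num

lemma map_E6Z : E6Z.map (Int.castRingHom ℂ) = qExpansion 1 E₆ := by
  ext n
  rw [E_qExpansion_coeff (by norm_num : 3 ≤ 6) ⟨3, rfl⟩, E6Z]
  have h : (504 : PowerSeries ℤ) = PowerSeries.C (504 : ℤ) := by simp
  rw [h, PowerSeries.coeff_map, map_sub, PowerSeries.coeff_C_mul, coeff_sigmaSeries,
    PowerSeries.coeff_one]
  have hb : (bernoulli 6 : ℚ) = 1 / 42 := by decide +kernel
  rw [hb]
  split_ifs with h0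
  · subst h0; simp
  · push_cast; norm_num

lemma qExpansion_disc :
    (1728 : PowerSeries ℂ) * qExpansion 1 discriminant
      = qExpansion 1 E₄ ^ 3 - qExpansion 1 E₆ ^ 2 := by
  have h1 : ((1728 : ℂ) • (discriminant : ℍ → ℂ)) =
      (ModularForm.mcast (by decide) (E₄.pow 3) - ModularForm.mcast (by decide) (E₆.pow 2) : ModularForm 𝒮ℒ 12) := by
    funext z
    simp only [Pi.smul_apply, smul_eq_mul, sub_apply, coe_mcast, ModularForm.coe_pow, Pi.pow_apply]
    rw [discriminant_eq_E₄_cube_sub_E₆_sq]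
    ring
  have h2 : qExpansion 1 ((1728 : ℂ) • (discriminant : ℍ → ℂ)) = (1728 : ℂ) • qExpansion 1 discriminant := by
    have := ModularForm.qExpansion_smul one_pos one_mem_strictPeriods_SL (1728 : ℂ)
      CuspForm.discriminant
    simpa using this
  have h3 : (1728 : PowerSeries ℂ) * qExpansion 1 discriminant = (1728 : ℂ) • qExpansion 1 discriminant := by
    rw [← map_ofNat (PowerSeries.C (R := ℂ)) 1728, PowerSeries.smul_eq_C_mul]
  rw [h3, ← h2, h1]
  simp only [FunLike.coe_sub, coe_mcast,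
    ModularForm.qExpansion_sub one_pos one_mem_strictPeriods_SL,
    ModularForm.qExpansion_pow one_pos one_mem_strictPeriods_SL]

lemma map_DZ : DZ.map (Int.castRingHom ℂ) = qExpansion 1 discriminant := by
  have h := congrArg (PowerSeries.map (Int.castRingHom ℂ)) DZ_eq
  rw [map_mul, map_sub, map_pow, map_pow, map_E4Z, map_E6Z, ← qExpansion_disc] at h
  have h1728 : (PowerSeries.map (Int.castRingHom ℂ)) (1728 : PowerSeries ℤ) = 1728 := by
    exact map_ofNat _ 1728
  rw [h1728] at h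
  have hne : (1728 : PowerSeries ℂ) ≠ 0 := by
    rw [← map_ofNat (PowerSeries.C (R := ℂ)) 1728]
    intro h0
    have := congrArg (PowerSeries.coeff 0) h0
    simp at this
  exact mul_left_cancel₀ hne h

lemma DZ_coeff_zero : DZ.coeff 0 = 0 := by
  have h := congrArg (fun φ : PowerSeries ℂ => φ.coeff 0) map_DZ
  simp only [PowerSeries.coeff_map] at h
  have h0 : (qExpansion 1 discriminant).coeff 0 = 0 := by
    simpa using CuspFormClass.qExpansion_coeff_zero CuspForm.discriminant one_pos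
      one_mem_strictPeriods_SL
  rw [h0] at h
  simpa using h

lemma DZ_coeff_one : DZ.coeff 1 = 1 := by
  have h := congrArg (fun φ : PowerSeries ℂ => φ.coeff 1) map_DZ
  simp only [PowerSeries.coeff_map] at h
  rw [discriminant_qExpansion_coeff_one] at h
  have : ((DZ.coeff 1 : ℤ) : ℂ) = ((1 : ℤ) : ℂ) := by simpa using h
  exact_mod_cast this

/-! ### Reduction of power series -/

section Red

variable {A : Subring ℂ} {κ : Type*} [Field κ] (r : A →+* κ)

/-- The ring of pairs (power series with coefficients in `A`, its reduction to `κ`). -/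
def redRing : Subring (PowerSeries ℂ × PowerSeries κ) :=
  ((PowerSeries.map A.subtype).prod (PowerSeries.map r)).range

variable {r}

lemma mem_redRing_iff {x : PowerSeries ℂ × PowerSeries κ} :
    x ∈ redRing r ↔ ∃ χ : PowerSeries A, PowerSeries.map A.subtype χ = x.1 ∧
      PowerSeries.map r χ = x.2 := by
  constructor
  · rintro ⟨χ, rfl⟩; exact ⟨χ, rfl, rfl⟩
  · rintro ⟨χ, h1, h2⟩; exact ⟨χ, Prod.ext h1 h2⟩

lemma map_mem_redRing (χ : PowerSeries A) :
    (PowerSeries.map A.subtype χ, PowerSeries.map r χ) ∈ redRing r := ⟨χ, rfl⟩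

lemma int_mem_redRing (φ : PowerSeries ℤ) :
    (PowerSeries.map (Int.castRingHom ℂ) φ, PowerSeries.map (Int.castRingHom κ) φ) ∈ redRing r := by
  have h1 : PowerSeries.map (Int.castRingHom ℂ) φ =
      PowerSeries.map A.subtype (PowerSeries.map (Int.castRingHom A) φ) := by
    ext n; simp
  have h2 : PowerSeries.map (Int.castRingHom κ) φ =
      PowerSeries.map r (PowerSeries.map (Int.castRingHom A) φ) := by
    ext n; simp
  rw [h1, h2]
  exact map_mem_redRing _

lemma C_mem_redRing (a : A) :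
    (PowerSeries.C (a : ℂ), PowerSeries.C (r a)) ∈ redRing r := by
  have h1 : PowerSeries.C (a : ℂ) = PowerSeries.map A.subtype (PowerSeries.C a) := by simp
  have h2 : PowerSeries.C (r a) = PowerSeries.map r (PowerSeries.C a) := by simp
  rw [h1, h2]
  exact map_mem_redRing _

lemma redRing_unique {φ : PowerSeries ℂ} {ψ ψ' : PowerSeries κ} (h : (φ, ψ) ∈ redRing r)
    (h' : (φ, ψ') ∈ redRing r) : ψ = ψ' := by
  obtain ⟨χ, h1, h2⟩ := mem_redRing_iff.mp h
  obtain ⟨χ', h1', h2'⟩ := mem_redRing_iff.mp h'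
  have : χ = χ' := by
    ext n
    have := congrArg (PowerSeries.coeff n) (h1.trans h1'.symm)
    simpa using this
  simp only at h2 h2'
  rw [← h2, ← h2', this]

lemma redRing_mul {φ φ' : PowerSeries ℂ} {ψ ψ' : PowerSeries κ} (h : (φ, ψ) ∈ redRing r)
    (h' : (φ', ψ') ∈ redRing r) : (φ * φ', ψ * ψ') ∈ redRing r := mul_mem h h'

lemma redRing_add {φ φ' : PowerSeries ℂ} {ψ ψ' : PowerSeries κ} (h : (φ, ψ) ∈ redRing r)
    (h' : (φ', ψ') ∈ redRing r) : (φ + φ', ψ + ψ') ∈ redRing r := add_mem h h'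

lemma redRing_sub {φ φ' : PowerSeries ℂ} {ψ ψ' : PowerSeries κ} (h : (φ, ψ) ∈ redRing r)
    (h' : (φ', ψ') ∈ redRing r) : (φ - φ', ψ - ψ') ∈ redRing r := sub_mem h h'

lemma redRing_pow {φ : PowerSeries ℂ} {ψ : PowerSeries κ} (h : (φ, ψ) ∈ redRing r)
    (n : ℕ) : (φ ^ n, ψ ^ n) ∈ redRing r := pow_mem h n

lemma redRing_one : ((1 : PowerSeries ℂ), (1 : PowerSeries κ)) ∈ redRing r := one_mem _

lemma redRing_prod {ι : Type*} (s : Finset ι) {φ : ι → PowerSeries ℂ} {ψ : ι → PowerSeries κ}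
    (h : ∀ i ∈ s, (φ i, ψ i) ∈ redRing r) : (∏ i ∈ s, φ i, ∏ i ∈ s, ψ i) ∈ redRing r := by
  classical
  induction s using Finset.induction_on with
  | empty => simpa using redRing_one
  | insert a s ha ih =>
    rw [Finset.prod_insert ha, Finset.prod_insert ha]
    exact redRing_mul (h a (Finset.mem_insert_self a s))
      (ih fun i hi => h i (Finset.mem_insert_of_mem hi))

/-- Division by the discriminant series. -/
lemma redRing_div_disc {φ φ' : PowerSeries ℂ} {ψ : PowerSeries κ} (h : (φ, ψ) ∈ redRing r)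
    (hφ : φ = PowerSeries.map (Int.castRingHom ℂ) DZ * φ') :
    ∃ ψ' : PowerSeries κ, (φ', ψ') ∈ redRing r ∧
      ψ = PowerSeries.map (Int.castRingHom κ) DZ * ψ' := by
  obtain ⟨U, hU⟩ : ∃ U : PowerSeries ℤ, DZ = PowerSeries.X * U :=
    PowerSeries.X_dvd_iff.mpr (by simpa using DZ_coeff_zero)
  have hU0 : PowerSeries.constantCoeff U = 1 := by
    have := DZ_coeff_one
    rw [hU, show (1 : ℕ) = 0 + 1 from rfl, PowerSeries.coeff_succ_X_mul] at this
    simpa using this
  obtain ⟨V, hV⟩ : ∃ V : PowerSeries ℤ, U * V = 1 := by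
    refine ⟨PowerSeries.invOfUnit U 1, ?_⟩
    exact PowerSeries.mul_invOfUnit U 1 (by simpa using hU0)
  obtain ⟨χ, h1, h2⟩ := mem_redRing_iff.mp h
  simp only at h1 h2
  have hχ : PowerSeries.X ∣ χ := by
    rw [PowerSeries.X_dvd_iff]
    have := congrArg (PowerSeries.coeff 0) (h1.trans hφ)
    rw [hU, PowerSeries.coeff_map] at this
    simpa using this
  obtain ⟨χ', hχ'⟩ := hχ
  have e1 : φ' = PowerSeries.map (Int.castRingHom ℂ) V * PowerSeries.map A.subtype χ' := by
    have h3 : PowerSeries.X * PowerSeries.map A.subtype χ' =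
        PowerSeries.X * (PowerSeries.map (Int.castRingHom ℂ) U * φ') := by
      rw [← mul_assoc, ← PowerSeries.map_X (Int.castRingHom ℂ), ← map_mul, ← hU, ← hφ, ← h1, hχ',
        map_mul, PowerSeries.map_X, PowerSeries.map_X]
    have h4 := mul_left_cancel₀ PowerSeries.X_ne_zero h3
    rw [h4, ← mul_assoc, ← map_mul, mul_comm V U, hV, map_one, one_mul]
  refine ⟨PowerSeries.map (Int.castRingHom κ) V * PowerSeries.map r χ', ?_, ?_⟩
  · rw [e1]
    exact redRing_mul (int_mem_redRing V) (map_mem_redRing χ')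
  · rw [← mul_assoc, ← map_mul, hU, mul_assoc, hV, mul_one, PowerSeries.map_X, ← h2, hχ', map_mul,
      PowerSeries.map_X]

lemma order_map_DZ : (PowerSeries.map (Int.castRingHom κ) DZ).order = 1 := by
  refine PowerSeries.order_eq_nat.mpr ⟨?_, ?_⟩
  · rw [PowerSeries.coeff_map, DZ_coeff_one]; simp
  · intro i hi
    obtain rfl : i = 0 := by omega
    rw [PowerSeries.coeff_map, DZ_coeff_zero]; simp

/-- **Lemma A** : Sturm bound for level one forms, modulo a maximal ideal. -/
theorem sturm_mod_levelOne (k : ℕ) (f : ModularForm 𝒮ℒ (k : ℤ)) {ψ : PowerSeries κ}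
    (h : (qExpansion 1 f, ψ) ∈ redRing r) (hψ : ψ ≠ 0) : ψ.order ≤ ((k / 12 : ℕ) : ℕ∞) := by
  induction k using Nat.strong_induction_on generalizing ψ with | _ k ih =>
  by_cases h0 : ψ.coeff 0 ≠ 0
  · have : ψ.order = 0 := by
      have := PowerSeries.order_le (φ := ψ) 0 h0
      simpa using this
    rw [this]; exact zero_le
  push Not at h0
  rcases Nat.even_or_odd k with hk | hk
  swap
  · exfalso
    apply hψ
    have hf : f = 0 := ModularForm.levelOne_odd_weight_eq_zero (mod_cast hk) f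
    rw [hf] at h
    have h00 : qExpansion 1 ((0 : ModularForm 𝒮ℒ (k : ℤ)) : ℍ → ℂ) = 0 := by
      simpa using qExpansion_zero 1
    rw [h00] at h
    exact redRing_unique h (zero_mem _)
  by_cases hk2 : k = 2
  · exfalso
    subst hk2
    apply hψ
    have hf : f = 0 := by
      have := ModularForm.levelOne_weight_two_rank_zero
      rw [rank_zero_iff_forall_zero] at this
      exact this f
    rw [hf] at h
    have h00 : qExpansion 1 ((0 : ModularForm 𝒮ℒ ((2 : ℕ) : ℤ)) : ℍ → ℂ) = 0 := by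
      simpa using qExpansion_zero 1
    rw [h00] at h
    exact redRing_unique h (zero_mem _)
  -- now `k = 4a+6b`
  obtain ⟨a, b, hab⟩ : ∃ a b : ℕ, 4 * a + 6 * b = k := by
    obtain ⟨m, rfl⟩ := hk
    rcases Nat.even_or_odd m with ⟨j, rfl⟩ | ⟨j, rfl⟩
    · exact ⟨j, 0, by ring⟩
    · have : 1 ≤ j := by omega
      exact ⟨j - 1, 1, by omega⟩
  have hwt : ((a : ℤ) * 4 + (b : ℤ) * 6) = (k : ℤ) := by rw [← hab]; push_cast; ring
  let G : ModularForm 𝒮ℒ (k : ℤ) := ModularForm.mcast hwt ((E₄.pow a).mul (E₆.pow b))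
  have hGq : qExpansion 1 G = PowerSeries.map (Int.castRingHom ℂ) (E4Z ^ a * E6Z ^ b) := by
    rw [map_mul, map_pow, map_pow, map_E4Z, map_E6Z]
    simp only [G, coe_mcast]
    rw [ModularForm.qExpansion_mul one_pos one_mem_strictPeriods_SL,
      ModularForm.qExpansion_pow one_pos one_mem_strictPeriods_SL,
      ModularForm.qExpansion_pow one_pos one_mem_strictPeriods_SL]
  have hG0 : (qExpansion 1 G).coeff 0 = 1 := by
    rw [hGq, PowerSeries.coeff_map]
    simp [E4Z, E6Z, sigmaSeries]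
  obtain ⟨χ, h1, h2⟩ := mem_redRing_iff.mp h
  simp only at h1 h2
  set a0 : A := χ.coeff 0 with ha0
  have hra0 : r a0 = 0 := by
    have := congrArg (PowerSeries.coeff 0) h2
    rw [PowerSeries.coeff_map, h0] at this
    exact this
  let g : ModularForm 𝒮ℒ (k : ℤ) := f - (a0 : ℂ) • G
  have hgq : qExpansion 1 g = qExpansion 1 f - PowerSeries.C (a0 : ℂ) *
      PowerSeries.map (Int.castRingHom ℂ) (E4Z ^ a * E6Z ^ b) := by
    have e1 : (g : ℍ → ℂ) = (f : ℍ → ℂ) - (((a0 : ℂ) • G : ModularForm 𝒮ℒ (k : ℤ)) : ℍ → ℂ) := by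
      simp only [g, FunLike.coe_sub]
    rw [e1, ModularForm.qExpansion_sub one_pos one_mem_strictPeriods_SL f ((a0 : ℂ) • G),
      FunLike.coe_smul, ModularForm.qExpansion_smul one_pos one_mem_strictPeriods_SL,
      PowerSeries.smul_eq_C_mul, hGq]
  have hgmem : (qExpansion 1 g, ψ) ∈ redRing r := by
    have h3 := redRing_sub h (redRing_mul (C_mem_redRing a0) (int_mem_redRing (κ := κ) (r := r)
      (E4Z ^ a * E6Z ^ b)))
    rw [hra0, map_zero, zero_mul, sub_zero] at h3
    rw [hgq]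
    exact h3
  have hg0 : (qExpansion 1 g).coeff 0 = 0 := by
    rw [hgq, map_sub, PowerSeries.coeff_C_mul, ← hGq, hG0, ← h1, PowerSeries.coeff_map]
    simp [ha0]
  have hfac := ModularForm.qExpansion_eq_qExpansion_discriminant_mul g hg0
  rw [← map_DZ] at hfac
  obtain ⟨ψ', hψ', hψeq⟩ := redRing_div_disc hgmem hfac
  have hψ'0 : ψ' ≠ 0 := by
    rintro rfl
    apply hψ
    rw [hψeq, mul_zero]
  rw [hψeq, PowerSeries.order_mul, order_map_DZ]
  set F := CuspForm.discriminantEquiv (toCuspForm g hg0) with hF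
  rcases lt_or_ge k 12 with hk12 | hk12
  · exfalso
    have hF0 : F = 0 :=
      rank_zero_iff_forall_zero.mp (levelOne_neg_weight_rank_zero (by omega)) F
    apply hψ'0
    rw [hF0] at hψ'
    have h00 : qExpansion 1 ((0 : ModularForm 𝒮ℒ ((k : ℤ) - 12)) : ℍ → ℂ) = 0 := by
      simpa using qExpansion_zero 1
    rw [h00] at hψ'
    exact redRing_unique hψ' (zero_mem _)
  · have := ih (k - 12) (by omega) (ModularForm.mcast (b := ((k - 12 : ℕ) : ℤ)) (by omega) F)
      (by simpa using hψ') hψ'0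
    calc 1 + ψ'.order ≤ 1 + (((k - 12) / 12 : ℕ) : ℕ∞) := by gcongr
      _ = ((k / 12 : ℕ) : ℕ∞) := by
        have : k / 12 = 1 + (k - 12) / 12 := by omega
        rw [this]; push_cast; rfl

end Red

end

end Fermat.Agent.H16
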