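import Mathlib
import Fermat.Agent.H16LevelOne
import Fermat.Agent.H16Cosets
import Fermat.Prelude.Def_ModularForm_HeckeOperator
import Fermat.Prelude.Thm_ModularFormClass_qCoeff_heckeU
import Fermat.Prelude.Thm_UpperHalfPlane_qExpansion_prod

set_option autoImplicit false

namespace Fermat.Agent.H16

open UpperHalfPlane ModularForm ModularFormClass MatrixGroups SlashInvariantForm
  Matrix.SpecialLinearGroup
open scoped Pointwise

noncomputable section

local notation "𝕢" => Function.Periodic.qParam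

variable {p : ℕ}

lemma p_mem_strictPeriods_conj (γ : SL(2, ℤ)) :
    (p : ℝ) ∈ (ConjAct.toConjAct (mapGL ℝ γ)⁻¹ • G0 p).strictPeriods := by
  rw [Subgroup.mem_strictPeriods_iff, Subgroup.mem_pointwise_smul_iff_inv_smul_mem,
    ← ConjAct.toConjAct_inv, inv_inv, ConjAct.toConjAct_smul]
  have h1 : (Matrix.GeneralLinearGroup.upperRightHom (p : ℝ) : GL (Fin 2) ℝ) =
      mapGL ℝ (ModularGroup.T ^ p) := by
    ext i j
    simp only [Matrix.GeneralLinearGroup.upperRightHom_apply, mapGL_coe_matrix, map_apply_coe,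
      RingHom.mapMatrix_apply, Matrix.map_apply, T_pow_coe]
    fin_cases i <;> fin_cases j <;> simp
  rw [h1, ← map_inv, ← map_mul, ← map_mul, mapGL_mem_G0, mem_Gamma0_iff]
  refine ⟨-(γ 1 0) ^ 2, ?_⟩
  simp only [Matrix.SpecialLinearGroup.coe_mul, Matrix.SpecialLinearGroup.coe_inv,
    Matrix.adjugate_fin_two, Matrix.mul_apply, Fin.sum_univ_two, T_pow_coe]
  simp
  ring

variable [hp : Fact p.Prime] {k : ℤ}

lemma p_pos : (0 : ℝ) < p := by exact_mod_cast hp.out.pos

lemma hasSum_slash (f : ModularForm (G0 p) k) (γ : SL(2, ℤ)) (τ : ℍ) :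
    HasSum (fun m => (qExpansion p ((f : ℍ → ℂ) ∣[k] γ)).coeff m * 𝕢 p τ ^ m)
      (((f : ℍ → ℂ) ∣[k] γ) τ) := by
  haveI : Fact (IsCusp OnePoint.infty (ConjAct.toConjAct (mapGL ℝ γ)⁻¹ • G0 p)) :=
    ⟨Subgroup.isCusp_of_mem_strictPeriods p_pos (p_mem_strictPeriods_conj γ)⟩
  exact ModularForm.hasSum_qExpansion (ModularForm.translate f (mapGL ℝ γ)) p_pos
    (p_mem_strictPeriods_conj γ) τ

lemma analyticAt_slash (f : ModularForm (G0 p) k) (γ : SL(2, ℤ)) :
    AnalyticAt ℂ (cuspFunction p ((f : ℍ → ℂ) ∣[k] γ)) 0 := by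
  exact ModularFormClass.analyticAt_cuspFunction_zero (ModularForm.translate f (mapGL ℝ γ)) p_pos
    (p_mem_strictPeriods_conj γ)

omit hp in
lemma qParam_add_nat (p : ℕ) (τ : ℍ) (j : ℕ) :
    𝕢 p ((τ : ℂ) + j) = Complex.exp (2 * Real.pi * Complex.I * j / p) * 𝕢 p τ := by
  rw [Function.Periodic.qParam, Function.Periodic.qParam, ← Complex.exp_add]
  congr 1
  push_cast
  ring

omit hp in
lemma qParam_one_eq_pow {p : ℕ} (hp : p ≠ 0) (τ : ℍ) : 𝕢 1 τ = 𝕢 p τ ^ p := by
  rw [Function.Periodic.qParam, Function.Periodic.qParam, ← Complex.exp_nat_mul]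
  congr 1
  have : (p : ℂ) ≠ 0 := by exact_mod_cast hp
  push_cast
  field_simp

/-- general uniqueness: expansion in `q^{1/p}` from an expansion in `q`. -/
lemma hasSum_expand {φ : PowerSeries ℂ} {τ : ℍ} {x : ℂ} {p : ℕ} (hp : p ≠ 0)
    (h : HasSum (fun m => φ.coeff m * 𝕢 1 τ ^ m) x) :
    HasSum (fun m => (PowerSeries.expand p hp φ).coeff m * 𝕢 p τ ^ m) x := by
  have hinj : Function.Injective (fun m : ℕ => p * m) := fun a b hab =>
    Nat.eq_of_mul_eq_mul_left (Nat.pos_of_ne_zero hp) hab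
  rw [← hinj.hasSum_iff]
  · convert! h using 2 with m
    simp only [Function.comp_apply, PowerSeries.coeff_expand_mul, qParam_one_eq_pow hp τ, pow_mul]
  · intro m hm
    rw [PowerSeries.coeff_expand_of_not_dvd, zero_mul]
    rintro ⟨c, rfl⟩
    exact hm ⟨c, rfl⟩

lemma G0_one_mem_strictPeriods : (1 : ℝ) ∈ (G0 p).strictPeriods := by
  rw [Subgroup.strictPeriods_eq_zmultiples_one_of_T_mem]
  · exact AddSubgroup.mem_zmultiples 1
  · rw [mem_Gamma0_iff, ModularGroup.T]; simp

omit hp in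
lemma nat_mem_strictPeriods {Γ : Subgroup (GL (Fin 2) ℝ)} (h : (1 : ℝ) ∈ Γ.strictPeriods) (p : ℕ) :
    (p : ℝ) ∈ Γ.strictPeriods := by
  have := nsmul_mem h p
  simpa using this

lemma qExpansion_expand {Γ : Subgroup (GL (Fin 2) ℝ)} (h : (1 : ℝ) ∈ Γ.strictPeriods)
    (f : ModularForm Γ k) :
    qExpansion p f = PowerSeries.expand p hp.out.ne_zero (qExpansion 1 f) := by
  ext m
  symm
  refine ModularFormClass.qExpansion_coeff_unique (f := f)
    (c := fun m => (PowerSeries.expand p hp.out.ne_zero (qExpansion 1 f)).coeff m)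
    p_pos (nat_mem_strictPeriods h p) ?_ m
  intro τ
  haveI : Fact (IsCusp OnePoint.infty Γ) := ⟨Subgroup.isCusp_of_mem_strictPeriods one_pos h⟩
  exact hasSum_expand hp.out.ne_zero (ModularForm.hasSum_qExpansion f one_pos h τ)

/-- the `p`-th root of unity `exp(2πi/p)` -/
def zetaP (p : ℕ) : ℂ := Complex.exp (2 * Real.pi * Complex.I / p)

lemma zetaP_pow (p j : ℕ) : zetaP p ^ j = Complex.exp (2 * Real.pi * Complex.I * j / p) := by
  rw [zetaP, ← Complex.exp_nat_mul]
  congr 1
  ring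

omit hp in
lemma slash_T_pow (g : ℍ → ℂ) (k : ℤ) (j : ℕ) (τ : ℍ) :
    (g ∣[k] (ModularGroup.T ^ j : SL(2, ℤ))) τ = g ((j : ℝ) +ᵥ τ) := by
  have h1 : (ModularGroup.T ^ j : SL(2, ℤ)) • τ = (j : ℝ) +ᵥ τ := by
    have := modular_T_zpow_smul τ (j : ℤ)
    simpa using this
  rw [ModularForm.SL_slash_apply, h1]
  have h2 : denom (ModularGroup.T ^ j : SL(2, ℤ)) τ = 1 := by
    rw [ModularGroup.denom_apply, T_pow_coe]
    simp
  rw [h2]
  simp

lemma qExpansion_slash_stj (f : ModularForm (G0 p) k) (j : ℕ) :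
    qExpansion p ((f : ℍ → ℂ) ∣[k] stj j) =
      PowerSeries.rescale (zetaP p ^ j) (qExpansion p ((f : ℍ → ℂ) ∣[k] ModularGroup.S)) := by
  ext m
  symm
  refine ModularFormClass.qExpansion_coeff_unique (f := ModularForm.translate f (mapGL ℝ (stj j)))
    (c := fun m => (PowerSeries.rescale (zetaP p ^ j)
      (qExpansion p ((f : ℍ → ℂ) ∣[k] ModularGroup.S))).coeff m)
    p_pos (p_mem_strictPeriods_conj (stj j)) ?_ m
  intro τ
  change HasSum _ (((f : ℍ → ℂ) ∣[k] stj j) τ)
  have h1 : ((f : ℍ → ℂ) ∣[k] stj j) τ =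
      ((f : ℍ → ℂ) ∣[k] ModularGroup.S) ((j : ℝ) +ᵥ τ) := by
    rw [stj, SlashAction.slash_mul, slash_T_pow]
  rw [h1]
  have h2 := hasSum_slash f ModularGroup.S ((j : ℝ) +ᵥ τ)
  convert! h2 using 2 with m
  rw [PowerSeries.coeff_rescale, smul_eq_mul, zetaP_pow]
  have h3 : (((j : ℝ) +ᵥ τ : ℍ) : ℂ) = (τ : ℂ) + j := by
    rw [UpperHalfPlane.coe_vadd]; push_cast; ring
  rw [h3, qParam_add_nat, mul_pow]
  ring

lemma analyticAt_self {Γ : Subgroup (GL (Fin 2) ℝ)} (h : (1 : ℝ) ∈ Γ.strictPeriods)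
    (f : ModularForm Γ k) : AnalyticAt ℂ (cuspFunction p (f : ℍ → ℂ)) 0 :=
  ModularFormClass.analyticAt_cuspFunction_zero f p_pos (nat_mem_strictPeriods h p)

omit hp in
lemma analyticAt_zero_fun (h : ℝ) : AnalyticAt ℂ (cuspFunction h (0 : ℍ → ℂ)) 0 := by
  have h1 : cuspFunction h (0 : ℍ → ℂ) = 0 := by
    ext q
    rcases eq_or_ne q 0 with rfl | hq
    · simp [cuspFunction, Function.Periodic.cuspFunction]
      exact Filter.Tendsto.limUnder_eq tendsto_const_nhds
    · simp [cuspFunction, Function.Periodic.cuspFunction_eq_of_nonzero h _ hq]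
  rw [h1]
  exact analyticAt_const

omit hp in
lemma analyticAt_one_fun (h : ℝ) : AnalyticAt ℂ (cuspFunction h (1 : ℍ → ℂ)) 0 := by
  have h1 : cuspFunction h (1 : ℍ → ℂ) = 1 := by
    ext q
    rcases eq_or_ne q 0 with rfl | hq
    · simp [cuspFunction, Function.Periodic.cuspFunction]
      exact Filter.Tendsto.limUnder_eq tendsto_const_nhds
    · simp [cuspFunction, Function.Periodic.cuspFunction_eq_of_nonzero h _ hq]
  rw [h1]
  exact analyticAt_const

omit hp in
lemma analyticAt_add {h : ℝ} {f g : ℍ → ℂ} (hf : AnalyticAt ℂ (cuspFunction h f) 0)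
    (hg : AnalyticAt ℂ (cuspFunction h g) 0) : AnalyticAt ℂ (cuspFunction h (f + g)) 0 := by
  rw [cuspFunction_add hf.continuousAt hg.continuousAt]
  exact hf.add hg

omit hp in
lemma analyticAt_mul {h : ℝ} {f g : ℍ → ℂ} (hf : AnalyticAt ℂ (cuspFunction h f) 0)
    (hg : AnalyticAt ℂ (cuspFunction h g) 0) : AnalyticAt ℂ (cuspFunction h (f * g)) 0 := by
  rw [cuspFunction_mul hf.continuousAt hg.continuousAt]
  exact hf.mul hg

omit hp in
lemma analyticAt_prod {h : ℝ} {ι : Type*} (s : Finset ι) {F : ι → ℍ → ℂ}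
    (hF : ∀ i ∈ s, AnalyticAt ℂ (cuspFunction h (F i)) 0) :
    AnalyticAt ℂ (cuspFunction h (∏ i ∈ s, F i)) 0 := by
  induction s using Finset.cons_induction with
  | empty => simpa using analyticAt_one_fun h
  | cons a s ha ih =>
    rw [Finset.prod_cons]
    exact analyticAt_mul (hF a (Finset.mem_cons_self a s))
      (ih fun i hi ↦ hF i (Finset.mem_cons_of_mem hi))

omit hp in
lemma analyticAt_sum {h : ℝ} {ι : Type*} (s : Finset ι) {F : ι → ℍ → ℂ}
    (hF : ∀ i ∈ s, AnalyticAt ℂ (cuspFunction h (F i)) 0) :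
    AnalyticAt ℂ (cuspFunction h (∑ i ∈ s, F i)) 0 := by
  induction s using Finset.cons_induction with
  | empty => simpa using analyticAt_zero_fun h
  | cons a s ha ih =>
    rw [Finset.sum_cons]
    exact analyticAt_add (hF a (Finset.mem_cons_self a s))
      (ih fun i hi ↦ hF i (Finset.mem_cons_of_mem hi))

omit hp in
lemma qExpansion_sum' {h : ℝ} {ι : Type*} (s : Finset ι) {F : ι → ℍ → ℂ}
    (hF : ∀ i ∈ s, AnalyticAt ℂ (cuspFunction h (F i)) 0) :
    qExpansion h (∑ i ∈ s, F i) = ∑ i ∈ s, qExpansion h (F i) := by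
  induction s using Finset.cons_induction with
  | empty => simpa using qExpansion_zero h
  | cons a s ha ih =>
    rw [Finset.sum_cons, Finset.sum_cons, qExpansion_add (hF a (Finset.mem_cons_self a s))
      (analyticAt_sum s fun i hi ↦ hF i (Finset.mem_cons_of_mem hi)),
      ih fun i hi ↦ hF i (Finset.mem_cons_of_mem hi)]

lemma qExpansion_norm (f : ModularForm (G0 p) k) :
    PowerSeries.expand p hp.out.ne_zero (qExpansion 1 (ModularForm.norm 𝒮ℒ f)) =
      PowerSeries.expand p hp.out.ne_zero (qExpansion 1 f) *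
        ∏ j : Fin p, PowerSeries.rescale (zetaP p ^ (j : ℕ))
          (qExpansion p ((f : ℍ → ℂ) ∣[k] ModularGroup.S)) := by
  rw [← qExpansion_expand one_mem_strictPeriods_SL, ← qExpansion_expand G0_one_mem_strictPeriods,
    coe_norm_eq, qExpansion_mul (analyticAt_self G0_one_mem_strictPeriods f),
    UpperHalfPlane.qExpansion_prod]
  · simp_rw [qExpansion_slash_stj]
  · intro j _
    exact analyticAt_slash f _
  · exact analyticAt_prod _ fun j _ => analyticAt_slash f _

lemma qExpansion_trace (f : ModularForm (G0 p) k) :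
    PowerSeries.expand p hp.out.ne_zero (qExpansion 1 (ModularForm.trace 𝒮ℒ f)) =
      PowerSeries.expand p hp.out.ne_zero (qExpansion 1 f) +
        ∑ j : Fin p, PowerSeries.rescale (zetaP p ^ (j : ℕ))
          (qExpansion p ((f : ℍ → ℂ) ∣[k] ModularGroup.S)) := by
  rw [← qExpansion_expand one_mem_strictPeriods_SL, ← qExpansion_expand G0_one_mem_strictPeriods,
    coe_trace_eq, qExpansion_add (analyticAt_self G0_one_mem_strictPeriods f), qExpansion_sum']
  · simp_rw [qExpansion_slash_stj]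
  · intro j _
    exact analyticAt_slash f _
  · exact analyticAt_sum _ fun j _ => analyticAt_slash f _

/-! ### reduction and `expand`, `rescale` -/

section Red

variable {A : Subring ℂ} {κ : Type*} [Field κ] {r : A →+* κ}

omit hp in
lemma redRing_expand {φ : PowerSeries ℂ} {ψ : PowerSeries κ} (p : ℕ) (hp : p ≠ 0)
    (h : (φ, ψ) ∈ redRing r) :
    (PowerSeries.expand p hp φ, PowerSeries.expand p hp ψ) ∈ redRing r := by
  obtain ⟨χ, h1, h2⟩ := mem_redRing_iff.mp h
  simp only at h1 h2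
  rw [← h1, ← h2, ← PowerSeries.map_expand, ← PowerSeries.map_expand]
  exact map_mem_redRing _

omit hp in
lemma redRing_of_expand {φ : PowerSeries ℂ} {Ψ : PowerSeries κ} (p : ℕ) (hp : p ≠ 0)
    (h : (PowerSeries.expand p hp φ, Ψ) ∈ redRing r) :
    ∃ ψ : PowerSeries κ, (φ, ψ) ∈ redRing r ∧ PowerSeries.expand p hp ψ = Ψ := by
  obtain ⟨χ, h1, h2⟩ := mem_redRing_iff.mp h
  simp only at h1 h2
  obtain ⟨χ', hχ'⟩ : ∃ χ' : PowerSeries A, χ = PowerSeries.expand p hp χ' := by
    refine ⟨PowerSeries.mk fun n => χ.coeff (p * n), ?_⟩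
    ext n
    by_cases hn : p ∣ n
    · obtain ⟨m, rfl⟩ := hn
      rw [PowerSeries.coeff_expand_mul, PowerSeries.coeff_mk]
    · rw [PowerSeries.coeff_expand_of_not_dvd p hp _ hn]
      have := congrArg (PowerSeries.coeff n) h1
      rw [PowerSeries.coeff_map, PowerSeries.coeff_expand_of_not_dvd p hp _ hn] at this
      simpa using this
  subst hχ'
  refine ⟨PowerSeries.map r χ', ?_, ?_⟩
  · rw [PowerSeries.map_expand] at h1
    have hinj : Function.Injective (PowerSeries.expand (R := ℂ) p hp) := by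
      intro a b hab
      ext n
      have := congrArg (PowerSeries.coeff (p * n)) hab
      simpa using this
    rw [← hinj h1]
    exact map_mem_redRing _
  · rw [← h2, PowerSeries.map_expand]

omit hp in
lemma redRing_rescale {φ : PowerSeries ℂ} {ψ : PowerSeries κ} (a : A)
    (h : (φ, ψ) ∈ redRing r) :
    (PowerSeries.rescale (a : ℂ) φ, PowerSeries.rescale (r a) ψ) ∈ redRing r := by
  obtain ⟨χ, h1, h2⟩ := mem_redRing_iff.mp h
  simp only at h1 h2
  rw [← h1, ← h2, show (a : ℂ) = A.subtype a from rfl, PowerSeries.rescale_map,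
    PowerSeries.rescale_map]
  exact map_mem_redRing _

omit hp in
lemma redRing_sum {ι : Type*} (s : Finset ι) {φ : ι → PowerSeries ℂ} {ψ : ι → PowerSeries κ}
    (h : ∀ i ∈ s, (φ i, ψ i) ∈ redRing r) : (∑ i ∈ s, φ i, ∑ i ∈ s, ψ i) ∈ redRing r := by
  induction s using Finset.cons_induction with
  | empty =>
    rw [Finset.sum_empty, Finset.sum_empty]
    exact zero_mem (redRing r)
  | cons a s ha ih =>
    rw [Finset.sum_cons, Finset.sum_cons]
    exact redRing_add (h a (Finset.mem_cons_self a s))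
      (ih fun i hi => h i (Finset.mem_cons_of_mem hi))

omit hp in
lemma order_rescale {c : κ} (hc : c ≠ 0) (ψ : PowerSeries κ) :
    (PowerSeries.rescale c ψ).order = ψ.order := by
  apply le_antisymm
  · apply PowerSeries.le_order
    intro i hi
    have h1 := PowerSeries.coeff_of_lt_order i hi
    rw [PowerSeries.coeff_rescale] at h1
    exact (mul_eq_zero.mp h1).resolve_left (pow_ne_zero _ hc)
  · apply PowerSeries.le_order
    intro i hi
    rw [PowerSeries.coeff_rescale, PowerSeries.coeff_of_lt_order i hi, mul_zero]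

end Red

end

end Fermat.Agent.H16
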