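import Fermat.Agent.H76U2
import Fermat.Agent.H59Def
import Fermat.Agent.H7ZApprox

/-!
# S47: the semilocal machine on the concrete model (helper76)

* `wa m S` : weak approximation for `m.L.fam`;
* `Zm m` : the space `J → ℍ³` with its `PGL(2, K)`-action as an instance;
* `toX`, typed invariant functions on `m.X`.
-/

set_option autoImplicit false
set_option linter.unusedSectionVars false

noncomputable section

open IsDedekindDomain HeightOneSpectrum WithZero NumberField Matrix MeasureTheory
open scoped MatrixGroups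

namespace Fermat.Agent.H76U

open Fermat.Agent.H59XF Fermat.Agent.H59D

section Local

variable {R : Type*} [CommRing R] [IsDedekindDomain R] {K : Type*} [Field K] [Algebra R K]
  [IsFractionRing R K]

/-- A matrix congruent to one at `w` is in the principal congruence subgroup. -/
theorem mem_GLcong_of_sub_one {w : HeightOneSpectrum R} {n : ℕ} (hn : 1 ≤ n) {g : GL (Fin 2) K}
    (h : ∀ i j, w.valuation K
      ((g : Matrix (Fin 2) (Fin 2) K) i j - (1 : Matrix (Fin 2) (Fin 2) K) i j) ≤ exp (-(n : ℤ))) :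
    g ∈ GLcong w n := by
  have hlt : exp (-(n : ℤ)) < (1 : ℤᵐ⁰) := by
    rw [← exp_zero, exp_lt_exp]; omega
  have h1 : ∀ i j, w.valuation K (g i j) ≤ 1 := by
    intro i j
    have h2 : g i j = ((g : Matrix (Fin 2) (Fin 2) K) i j - (1 : Matrix (Fin 2) (Fin 2) K) i j) +
      (1 : Matrix (Fin 2) (Fin 2) K) i j := by ring
    rw [h2]
    refine Valuation.map_add_le _ ((h i j).trans hlt.le) ?_
    rw [Matrix.one_apply]
    split_ifs <;> simp
  refine ⟨⟨h1, ?_⟩, h⟩
  have h00 := h 0 0
  have h01 := h 0 1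
  have h10 := h 1 0
  have h11 := h 1 1
  simp only [Matrix.one_apply, if_true, Fin.zero_eq_one_iff, OfNat.ofNat_ne_one, if_false,
    Fin.one_eq_zero_iff, sub_zero] at h00 h01 h10 h11
  have hd : (g : Matrix (Fin 2) (Fin 2) K).det - 1 =
      ((g : Matrix (Fin 2) (Fin 2) K) 0 0 - 1) * (g : Matrix (Fin 2) (Fin 2) K) 1 1 +
        ((g : Matrix (Fin 2) (Fin 2) K) 1 1 - 1) -
        (g : Matrix (Fin 2) (Fin 2) K) 0 1 * (g : Matrix (Fin 2) (Fin 2) K) 1 0 := by
    rw [Matrix.det_fin_two]; ring
  have hd1 : w.valuation K ((g : Matrix (Fin 2) (Fin 2) K).det - 1) < 1 := by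
    rw [hd]
    refine lt_of_le_of_lt (Valuation.map_sub_le _ (Valuation.map_add_le _ ?_ h11) ?_) hlt
    · rw [map_mul]
      exact (mul_le_mul' h00 (h1 1 1)).trans (by rw [mul_one])
    · rw [map_mul]
      exact (mul_le_mul' h01 (h1 1 0)).trans (by rw [mul_one])
  have h3 : (g : Matrix (Fin 2) (Fin 2) K).det = 1 + ((g : Matrix (Fin 2) (Fin 2) K).det - 1) := by
    ring
  rw [h3, Valuation.map_one_add_of_lt _ hd1]

/-- **Weak approximation** for `PGL₂(K)` at a finite set of places. -/
theorem wa_level (L : Level R K) (S : Finset (HeightOneSpectrum R)) : WA L.fam S := by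
  intro g
  have hx0 : ∀ w, ∃ x : GL (Fin 2) K, ProjGenLinGroup.mk x = g w := fun w =>
    ProjGenLinGroup.mk_surjective (g w)
  choose x hx using hx0
  choose n hn using L.isOpen
  obtain ⟨γ, hγ⟩ := H7.Z.exists_approx_GL S x (fun w => n w + 1)
  refine ⟨ProjGenLinGroup.mk γ, fun w hw => ?_⟩
  have h1 : (x w)⁻¹ * γ ∈ GLcong w (n w + 1) := mem_GLcong_of_sub_one (by omega) (hγ w hw)
  have h2 : (g w)⁻¹ * ProjGenLinGroup.mk γ = ProjGenLinGroup.mk ((x w)⁻¹ * γ) := by
    rw [map_mul, map_inv, hx]
  rw [h2]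
  exact hn w (Gam_antitone w (Nat.le_succ _) ⟨_, h1, rfl⟩)

end Local

variable {K : Type*} [Field K] [NumberField K] {J : Type*} [Fintype J]

/-- Weak approximation for the model. -/
theorem wa (m : Model K J) (S : Finset (HeightOneSpectrum (𝓞 K))) : WA m.L.fam S :=
  wa_level m.L S

/-- The archimedean space with its action of `PGL₂(K)` as an instance. -/
def Zm (_m : Model K J) : Type _ := J → H3

namespace Zm

variable (m : Model K J)

instance : MulAction PGL(2, K) (Zm m) where
  smul g x := m.actInf g x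
  one_smul x := funext fun j => by
    show (ProjGenLinGroup.map (m.e j) (1 : PGL(2, K)) : PGL(2, ℂ)) • (x : J → H3) j
      = (x : J → H3) j
    rw [map_one, one_smul]
  mul_smul g h x := funext fun j => by
    show (ProjGenLinGroup.map (m.e j) (g * h) : PGL(2, ℂ)) • (x : J → H3) j = _
    rw [map_mul, mul_smul]; rfl

theorem smul_def (g : PGL(2, K)) (x : Zm m) : g • x = m.actInf g x := rfl

instance : TopologicalSpace (Zm m) := inferInstanceAs (TopologicalSpace (J → H3))
instance : MeasurableSpace (Zm m) := inferInstanceAs (MeasurableSpace (J → H3))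

instance : ContinuousConstSMul PGL(2, K) (Zm m) :=
  ⟨fun g => continuous_pi fun j => (continuous_const_smul (ProjGenLinGroup.map (m.e j) g)).comp
    (continuous_apply j)⟩

instance : MeasurableConstSMul PGL(2, K) (Zm m) :=
  ⟨fun g => measurable_pi_lambda _ fun j =>
    (measurePreserving_smul (ProjGenLinGroup.map (m.e j) g)).measurable.comp (measurable_pi_apply j)⟩

end Zm

variable {m : Model K J}

/-- A function of two variables as a function on `m.X`. -/
def toX (F : Zm m → XF m.L.fam → ℂ) : m.X → ℂ := fun x => F x.1 x.2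

@[simp] theorem toX_mk (F : Zm m → XF m.L.fam → ℂ) (z : J → H3) (y : XF m.L.fam) :
    toX F (z, y) = F z y := rfl

theorem toX_smul {F : Zm m → XF m.L.fam → ℂ} (hF : Inv F) (g : PGL(2, K)) (x : m.X) :
    toX F (g • x) = toX F x := hF g x.1 x.2

/-- The `PGL₂(K)`-invariant function on `m.X` attached to a function on the outer space. -/
def form (m : Model K J) (S : Finset (HeightOneSpectrum (𝓞 K)))
    (F : Zm m → XF (restr m.L.fam S) → ℂ) : m.X → ℂ := toX (lift (wa m S) F)

section Form

variable {S : Finset (HeightOneSpectrum (𝓞 K))} {T : ∀ w, Typ (m.L.fam.U w)}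
  {F : Zm m → XF (restr m.L.fam S) → ℂ}

theorem form_smul (hF : OutTyped T S F) (g : PGL(2, K)) (x : m.X) :
    form m S F (g • x) = form m S F x := toX_smul (lift_smul (wa m S) hF) g x

theorem form_eq (hF : OutTyped T S F) (x : m.X) {γ : PGL(2, K)}
    (hγ : ∀ w ∈ S, x.2 w = ((γ : PGL(2, K)) : PGL(2, K) ⧸ m.L.fam.U w)) :
    form m S F x = F (m.actInf γ⁻¹ x.1) (γ⁻¹ • proj m.L.fam S x.2) :=
  lift_eq (wa m S) hF x.1 x.2 hγ

/-- The values at the points with base coordinates in `S`. -/
theorem form_inj (hF : OutTyped T S F) (z : J → H3) (y : XF (restr m.L.fam S)) :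
    form m S F (z, inj m.L.fam S y) = F z y := by
  have h := congrFun (congrFun (res_lift (wa m S) hF) z) y
  exact h

theorem form_base (hF : OutTyped T S F) (z : J → H3) :
    form m S F (z, XF.base m.L.fam) = F z (XF.base _) := by
  rw [← form_inj hF]
  congr 2
  apply XF.ext; intro w
  by_cases h : w ∈ S
  · rw [inj_apply_mem _ h]; rfl
  · rw [inj_apply_notMem _ h]; rfl

open Classical in
/-- Right translations by the elements of the types. -/
theorem form_typed (hF : OutTyped T S F) {w : HeightOneSpectrum (𝓞 K)} (hw : w ∈ S)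
    (h : (T w).H) (x : m.X) :
    form m S F (x.1, XF.upd x.2 w ((T w).rt h (x.2 w))) = (T w).chi h * form m S F x :=
  lift_typed (wa m S) hF w hw h x.1 x.2

theorem form_continuous (hc : ∀ y, Continuous fun z => F z y) (y : XF m.L.fam) :
    Continuous fun z : J → H3 => form m S F (z, y) := continuous_lift (wa m S) hc y

theorem form_measurable [Countable (XF m.L.fam)] (hc : ∀ y, Measurable fun z => F z y) :
    Measurable (form m S F) := by
  refine measurable_from_prod_countable_left fun y => ?_
  exact measurable_lift (wa m S) hc y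

theorem form_ne_zero (hF : OutTyped T S F) (h : F ≠ 0) : form m S F ≠ 0 := by
  intro h0
  apply lift_ne_zero (wa m S) hF h
  funext z x
  exact congrFun h0 (z, x)

theorem norm_form_le {C : ℝ} (hC : ∀ z y, ‖F z y‖ ≤ C) (x : m.X) : ‖form m S F x‖ ≤ C :=
  norm_lift_le (wa m S) hC x.1 x.2

open Classical in
/-- Local operators at a place outside `S`. -/
theorem form_opLoc (hF : OutTyped T S F) {w : HeightOneSpectrum (𝓞 K)} (hw : w ∉ S)
    (k : LocKer (m.L.fam.U w)) {c : ℂ}
    (hc : ∀ z (y : XF (restr m.L.fam S)),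
      ∑ᶠ a, k.k (y ⟨w, hw⟩) a * F z (XF.upd y ⟨w, hw⟩ a) = c * F z y) (x : m.X) :
    ∑ᶠ a, k.k (x.2 w) a * form m S F (x.1, XF.upd x.2 w a) = c * form m S F x :=
  opLoc_lift_eig (wa m S) hF ⟨w, hw⟩ k hc x.1 x.2

/-- Archimedean operators commuting with the action. -/
theorem form_arch (hF : OutTyped T S F) (Rop : ((J → H3) → ℂ) → ((J → H3) → ℂ))
    (hR : ∀ (g : PGL(2, K)) (f : (J → H3) → ℂ) (z : J → H3),
      Rop (fun z' => f (m.actInf g z')) z = Rop f (m.actInf g z)) {c : ℂ}
    (hc : ∀ y z, Rop (fun z' => F z' y) z = c * F z y) (y : XF m.L.fam) (z : J → H3) :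
    Rop (fun z' => form m S F (z', y)) z = c * form m S F (z, y) :=
  arch_lift_eig (wa m S) hF Rop hR hc z y

end Form

end Fermat.Agent.H76U
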