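import Fermat.Agent.H59Def2
import Fermat.Agent.H55DC
import Fermat.Agent.H76U3
import Fermat.Agent.H35BK1
import Fermat.Agent.H56ZRad3

/-!
# S47, block (D): assembly, part 1 (helper16, DE7)

From a function `F` on the outer space `(J → ℍ³) × XF (restr m.L.fam S)` with the transformation law
`OutTyped` to the function `H76U.form m S F` on `m.X`:

* `form_rad` : radial kernels;
* `form_hecke` : Hecke operators in the form `H7.Z.HeckeEq`;
* `form_growth` : moderate growth.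
-/

set_option autoImplicit false
set_option linter.unusedSectionVars false
set_option linter.unusedVariables false

noncomputable section

open IsDedekindDomain HeightOneSpectrum WithZero NumberField Matrix MeasureTheory
open scoped MatrixGroups

namespace Fermat.Agent.H16D

open Fermat.Agent Fermat.Agent.H59XF Fermat.Agent.H59D Fermat.Agent.H76U
open Fermat.Agent.H5Z (chv Rk)
open Fermat.Agent.H7.Z (borP HeckeEq)

variable {K : Type*} [Field K] [NumberField K] {J : Type*} [Fintype J]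

/-! ### Radial kernels commute with the group -/

/-- The action of an element on `J → ℍ³` as a measurable equivalence. -/
def actE (m : Model K J) (g : PGL(2, K)) : (J → H3) ≃ᵐ (J → H3) where
  toFun := m.actInf g
  invFun := m.actInf g⁻¹
  left_inv z := by
    funext j
    show (ProjGenLinGroup.map (m.e j) g⁻¹ : PGL(2, ℂ)) •
      ((ProjGenLinGroup.map (m.e j) g : PGL(2, ℂ)) • z j) = z j
    rw [smul_smul, ← map_mul, inv_mul_cancel, map_one, one_smul]
  right_inv z := by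
    funext j
    show (ProjGenLinGroup.map (m.e j) g : PGL(2, ℂ)) •
      ((ProjGenLinGroup.map (m.e j) g⁻¹ : PGL(2, ℂ)) • z j) = z j
    rw [smul_smul, ← map_mul, mul_inv_cancel, map_one, one_smul]
  measurable_toFun := m.measurable_actInf g
  measurable_invFun := m.measurable_actInf g⁻¹

@[simp] theorem actE_apply (m : Model K J) (g : PGL(2, K)) (z : J → H3) :
    actE m g z = m.actInf g z := rfl

theorem chv_actInf (m : Model K J) (g : PGL(2, K)) (x y : J → H3) :
    chv (m.actInf g x) (m.actInf g y) = chv x y := m.chJ_actInf g x y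

theorem Rk_actInf (m : Model K J) (κ : (J → ℝ) → ℂ) (g : PGL(2, K)) (f : (J → H3) → ℂ)
    (z : J → H3) : Rk κ (fun z' => f (m.actInf g z')) z = Rk κ f (m.actInf g z) := by
  have h := (m.measurePreserving_actInf g).integral_comp' (f := actE m g)
    (fun w => κ (chv (m.actInf g z) w) * f w)
  rw [Rk, Rk, ← h]
  refine integral_congr_ae (Filter.Eventually.of_forall fun w => ?_)
  show κ (chv z w) * f (m.actInf g w) = κ (chv (m.actInf g z) (m.actInf g w)) * f (m.actInf g w)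
  rw [chv_actInf]

variable {m : Model K J} {S : Finset (HeightOneSpectrum (𝓞 K))} {T : ∀ w, Typ (m.L.fam.U w)}
  {F : Zm m → XF (restr m.L.fam S) → ℂ}

/-- Radial kernels on the lifted form. -/
theorem form_rad (hF : OutTyped T S F) {κ : (J → ℝ) → ℂ} {c : ℂ}
    (hc : ∀ (y : XF (restr m.L.fam S)) (z : J → H3),
      Rk κ (fun z' => F z' y) z = c * F z y) (y : XF m.L.fam) (z : J → H3) :
    Rk κ (fun v => form m S F (v, y)) z = c * form m S F (z, y) :=
  form_arch hF (Rk κ) (fun g f z => Rk_actInf m κ g f z) hc y z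

/-! ### Hecke operators -/

section Hecke

variable [DecidableEq (HeightOneSpectrum (𝓞 K))]

/-- The Hecke equation of a function on the outer space. -/
def OutHecke (m : Model K J) (S : Finset (HeightOneSpectrum (𝓞 K)))
    (f : XF (restr m.L.fam S) → ℂ) (w : {w // w ∉ S}) (ϖ : Kˣ) (R : Finset K) (lam : ℂ) : Prop :=
  ∀ (y : XF (restr m.L.fam S)) (g : PGL(2, K)),
    y w = (g : PGL(2, K) ⧸ (restr m.L.fam S).U w) →
    lam * f y = ∑ b ∈ R, f (XF.upd y w
        ((g * (borP K).n b * (borP K).d ϖ : PGL(2, K)) : PGL(2, K) ⧸ (restr m.L.fam S).U w)) +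
      f (XF.upd y w ((g * ((borP K).d ϖ)⁻¹ : PGL(2, K)) : PGL(2, K) ⧸ (restr m.L.fam S).U w))

/-- Hecke operators on the lifted form. -/
theorem form_hecke (hF : OutTyped T S F) (w : {w // w ∉ S}) {ϖ : Kˣ} {R : Finset K} {lam : ℂ}
    (h : ∀ z : J → H3, OutHecke m S (fun y => F z y) w ϖ R lam) (z : J → H3) :
    HeckeEq (borP K) m.L.fam (fun y => form m S F (z, y)) w.1 ϖ R lam := by
  intro y g hg
  obtain ⟨γ, hγ⟩ := (wa m S).exists_rep y
  have key : ∀ a : PGL(2, K), form m S F (z, XF.upd y w.1 ((a : PGL(2, K)) :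
      PGL(2, K) ⧸ m.L.fam.U w.1)) = F (m.actInf γ⁻¹ z) (XF.upd (γ⁻¹ • proj m.L.fam S y) w
        ((γ⁻¹ * a : PGL(2, K)) : PGL(2, K) ⧸ (restr m.L.fam S).U w)) := fun a =>
    lift_upd (wa m S) hF z y w _ hγ
  have h1 : (γ⁻¹ • proj m.L.fam S y) w
      = ((γ⁻¹ * g : PGL(2, K)) : PGL(2, K) ⧸ (restr m.L.fam S).U w) := by
    rw [XF.smul_apply, proj_apply, hg]
    rfl
  have h2 := h (m.actInf γ⁻¹ z) (γ⁻¹ • proj m.L.fam S y) (γ⁻¹ * g) h1
  show lam * form m S F (z, y) = ∑ b ∈ R, form m S F (z, XF.upd y w.1 _) +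
    form m S F (z, XF.upd y w.1 _)
  rw [form_eq hF (z, y) hγ, key]
  rw [Finset.sum_congr rfl fun b _ => key _]
  simp only [← mul_assoc]
  exact h2

end Hecke

/-! ### Growth -/

theorem y_add_inv_le (w : H3) : w.y + w.y⁻¹ ≤ 2 * H3.ch w H3.base := by
  have hw := w.pos
  have hb : H3.base.y = 1 := rfl
  rw [H3.ch, hb]
  have h1 : 2 * ((Complex.normSq (w.z - H3.base.z) + w.y ^ 2 + 1 ^ 2) / (2 * w.y * 1)) =
      (Complex.normSq (w.z - H3.base.z) + w.y ^ 2 + 1) / w.y := by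
    field_simp
  rw [h1]
  have h2 : w.y + w.y⁻¹ = (w.y ^ 2 + 1) / w.y := by
    field_simp
  rw [h2]
  gcongr
  have := Complex.normSq_nonneg (w.z - H3.base.z)
  linarith

theorem ch_base_le (w : H3) : H3.ch w H3.base ≤ (1 + ‖w.z‖ ^ 2) * (w.y + w.y⁻¹) := by
  have hw := w.pos
  have hb : H3.base.y = 1 := rfl
  have hz : H3.base.z = 0 := rfl
  rw [H3.ch, hb, hz, sub_zero, Complex.normSq_eq_norm_sq]
  have h1 : (‖w.z‖ ^ 2 + w.y ^ 2 + 1 ^ 2) / (2 * w.y * 1) =
      (‖w.z‖ ^ 2 + w.y ^ 2 + 1) * (2⁻¹ * w.y⁻¹) := by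
    field_simp
  rw [h1]
  have h2 : (1 + ‖w.z‖ ^ 2) * (w.y + w.y⁻¹) =
      (1 + ‖w.z‖ ^ 2) * (w.y ^ 2 + 1) * w.y⁻¹ := by
    field_simp
  rw [h2]
  have h3 : 0 < w.y⁻¹ := inv_pos.mpr hw
  have h4 : (‖w.z‖ ^ 2 + w.y ^ 2 + 1) * (2⁻¹ * w.y⁻¹) =
      ((‖w.z‖ ^ 2 + w.y ^ 2 + 1) * 2⁻¹) * w.y⁻¹ := by ring
  rw [h4]
  refine mul_le_mul_of_nonneg_right ?_ h3.le
  nlinarith [sq_nonneg ‖w.z‖, sq_nonneg w.y, mul_nonneg (sq_nonneg ‖w.z‖) (sq_nonneg w.y)]

/-- Heights of translates. -/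
theorem exists_y_le (m : Model K J) (g : PGL(2, K)) : ∃ C : ℝ, 1 ≤ C ∧ ∀ (z : J → H3) (j : J),
    (m.actInf g z j).y + ((m.actInf g z j).y)⁻¹ ≤
      C * ((1 + ‖(z j).z‖ ^ 2) * ((z j).y + ((z j).y)⁻¹)) := by
  refine ⟨1 + ∑ j : J, 4 * H3.ch H3.base (ProjGenLinGroup.map (m.e j) g⁻¹ • H3.base), ?_, ?_⟩
  · have : 0 ≤ ∑ j : J, 4 * H3.ch H3.base (ProjGenLinGroup.map (m.e j) g⁻¹ • H3.base) :=
      Finset.sum_nonneg fun j _ => by
        have := H3.one_le_ch H3.base (ProjGenLinGroup.map (m.e j) g⁻¹ • H3.base)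
        positivity
    linarith
  · intro z j
    have h1 := y_add_inv_le (m.actInf g z j)
    have h2 : H3.ch (m.actInf g z j) H3.base =
        H3.ch (z j) (ProjGenLinGroup.map (m.e j) g⁻¹ • H3.base) := by
      rw [← ch_smul (ProjGenLinGroup.map (m.e j) g) (z j)
        (ProjGenLinGroup.map (m.e j) g⁻¹ • H3.base), smul_smul, ← map_mul, mul_inv_cancel,
        map_one, one_smul]
      rfl
    have h3 := H56Z.ch_triangle (z j) H3.base (ProjGenLinGroup.map (m.e j) g⁻¹ • H3.base)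
    have h4 := ch_base_le (z j)
    set X := (1 + ‖(z j).z‖ ^ 2) * ((z j).y + ((z j).y)⁻¹) with hX
    have hX0 : 0 ≤ X := by
      have := (z j).pos
      positivity
    set a := H3.ch H3.base (ProjGenLinGroup.map (m.e j) g⁻¹ • H3.base) with ha
    have ha1 : 1 ≤ a := H3.one_le_ch _ _
    have h5 : 4 * a ≤ 1 + ∑ j : J, 4 * H3.ch H3.base
        (ProjGenLinGroup.map (m.e j) g⁻¹ • H3.base) := by
      have h6 := Finset.single_le_sum (f := fun j : J => 4 * H3.ch H3.base
        (ProjGenLinGroup.map (m.e j) g⁻¹ • H3.base)) (fun i _ => by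
          have := H3.one_le_ch H3.base (ProjGenLinGroup.map (m.e i) g⁻¹ • H3.base)
          positivity) (Finset.mem_univ j)
      have h7 : 4 * a ≤ ∑ j : J, 4 * H3.ch H3.base
        (ProjGenLinGroup.map (m.e j) g⁻¹ • H3.base) := h6
      linarith
    calc (m.actInf g z j).y + ((m.actInf g z j).y)⁻¹ ≤ 2 * (2 * H3.ch (z j) H3.base * a) := by
          linarith [h1, h2 ▸ h3]
      _ = 4 * a * H3.ch (z j) H3.base := by ring
      _ ≤ 4 * a * X := by
          refine mul_le_mul_of_nonneg_left h4 (by linarith)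
      _ ≤ _ := mul_le_mul_of_nonneg_right h5 hX0

theorem nonempty_J (m : Model K J) : Nonempty J := by
  obtain ⟨v⟩ : Nonempty (InfinitePlace K) := inferInstance
  obtain ⟨j, -⟩ := m.e_bij.2 v
  exact ⟨j⟩

/-- Moderate growth passes to the lifted form. -/
theorem form_growth (hF : OutTyped T S F)
    (hgrow : ∀ y : XF (restr m.L.fam S), ∃ (A : ℕ) (C : ℝ), ∀ z : J → H3,
      ‖F z y‖ ≤ C * ∏ j, ((z j).y + ((z j).y)⁻¹) ^ A) (y : XF m.L.fam) :
    ∃ A : ℝ, ∀ c : ℝ, 0 < c → ∃ M : ℝ, ∀ τ : J → H3, (∀ j, c ≤ (τ j).y) →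
      ‖form m S F (τ, y)‖ ≤ M * (∏ j, (τ j).y) ^ A := by
  classical
  have hJ := nonempty_J m
  obtain ⟨γ, hγ⟩ := (wa m S).exists_rep y
  obtain ⟨A, C, hC⟩ := hgrow (γ⁻¹ • proj m.L.fam S y)
  obtain ⟨D, hD1, hD⟩ := exists_y_le m γ⁻¹
  obtain ⟨B, R, hB1, hR0, hbal⟩ := H35BK.bal m (Set.finite_singleton y)
  have hC0 : 0 ≤ C := by
    have h := hC fun _ => H3.base
    have h1 : (0 : ℝ) ≤ ‖F (fun _ => H3.base) (γ⁻¹ • proj m.L.fam S y)‖ := norm_nonneg _
    have h2 : (0 : ℝ) < ∏ j : J, ((H3.base).y + ((H3.base).y)⁻¹) ^ A :=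
      Finset.prod_pos fun j _ => by
        have := H3.base.pos
        positivity
    by_contra hneg
    push Not at hneg
    have h3 := mul_neg_of_neg_of_pos hneg h2
    linarith
  set r : ℕ := Fintype.card J with hr
  have hr0 : 0 < r := Fintype.card_pos
  refine ⟨((A * r : ℕ) : ℝ), fun c hc => ?_⟩
  set E1 : ℝ := D * (1 + R ^ 2) with hE1
  have hE1pos : 0 < E1 := by positivity
  set b : ℝ := c / B with hb
  have hbpos : 0 < b := by positivity
  set E2 : ℝ := (1 / b) ^ (r - 1) + (1 / b) * (1 / c) ^ r with hE2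
  have hE2pos : 0 < E2 := by positivity
  refine ⟨C * (E1 * E2) ^ (A * r), fun τ hτ => ?_⟩
  set h : ℝ := ∏ j, (τ j).y with hh
  have hcr : c ^ r ≤ h := by
    have := Finset.prod_le_prod (s := (Finset.univ : Finset J)) (f := fun _ => c)
      (g := fun j => (τ j).y) (fun j _ => hc.le) (fun j _ => hτ j)
    rwa [Finset.prod_const, Finset.card_univ] at this
  have hhpos : 0 < h := lt_of_lt_of_le (pow_pos hc r) hcr
  obtain ⟨g, hg1, hg2, hg3, hg4, hg5⟩ := hbal y (Set.mem_singleton y) τ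
  set w := m.actInf g τ with hw
  have hht : H95S.ht τ = h := rfl
  rw [hht] at hg2 hg4
  have hroot : c ≤ h ^ (1 / (r : ℝ)) := by
    have h1 : (c ^ r) ^ (1 / (r : ℝ)) = c := by
      rw [one_div, Real.pow_rpow_inv_natCast hc.le hr0.ne']
    rw [← h1]
    exact Real.rpow_le_rpow (pow_nonneg hc.le r) hcr (by positivity)
  have hlow : ∀ j, b ≤ (w j).y := fun j => by
    rw [hb, div_le_iff₀ (by positivity), mul_comm]
    exact hroot.trans (hg4 j)
  have hup : ∀ j, (w j).y ≤ h * (1 / b) ^ (r - 1) := fun j => by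
    have h1 : (w j).y * ∏ i ∈ Finset.univ.erase j, (w i).y = h := by
      rw [Finset.mul_prod_erase _ (fun i => (w i).y) (Finset.mem_univ j)]
      exact hg2
    have h2 : b ^ (r - 1) ≤ ∏ i ∈ Finset.univ.erase j, (w i).y := by
      have := Finset.prod_le_prod (s := (Finset.univ.erase j : Finset J)) (f := fun _ => b)
        (g := fun j => (w j).y) (fun j _ => hbpos.le) (fun j _ => hlow j)
      rwa [Finset.prod_const, Finset.card_erase_of_mem (Finset.mem_univ j),
        Finset.card_univ] at this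
    have h3 : (w j).y * b ^ (r - 1) ≤ h := by
      rw [← h1]
      exact mul_le_mul_of_nonneg_left h2 (w j).pos.le
    rw [one_div, inv_pow, ← div_eq_mul_inv, le_div_iff₀ (pow_pos hbpos _)]
    exact h3
  have hsum : ∀ j, (w j).y + ((w j).y)⁻¹ ≤ h * E2 := fun j => by
    have h1 : ((w j).y)⁻¹ ≤ 1 / b := by
      rw [one_div]
      exact inv_anti₀ hbpos (hlow j)
    have h2 : (1 : ℝ) ≤ h * (1 / c) ^ r := by
      rw [one_div, inv_pow, ← div_eq_mul_inv, le_div_iff₀ (pow_pos hc r), one_mul]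
      exact hcr
    have h3 : 1 / b ≤ h * ((1 / b) * (1 / c) ^ r) := by
      have : 1 / b * 1 ≤ 1 / b * (h * (1 / c) ^ r) :=
        mul_le_mul_of_nonneg_left h2 (by positivity)
      calc 1 / b = 1 / b * 1 := (mul_one _).symm
        _ ≤ 1 / b * (h * (1 / c) ^ r) := this
        _ = h * ((1 / b) * (1 / c) ^ r) := by ring
    rw [hE2, mul_add]
    exact add_le_add (hup j) (h1.trans h3)
  have hfac : ∀ j, (m.actInf γ⁻¹ w j).y + ((m.actInf γ⁻¹ w j).y)⁻¹ ≤ E1 * E2 * h := fun j => by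
    refine (hD w j).trans ?_
    have h1 : 1 + ‖(w j).z‖ ^ 2 ≤ 1 + R ^ 2 := by
      have := hg5 j
      gcongr
    have h2 : (1 + ‖(w j).z‖ ^ 2) * ((w j).y + ((w j).y)⁻¹) ≤ (1 + R ^ 2) * (h * E2) := by
      have := (w j).pos
      exact mul_le_mul h1 (hsum j) (by positivity) (by positivity)
    calc D * ((1 + ‖(w j).z‖ ^ 2) * ((w j).y + ((w j).y)⁻¹)) ≤ D * ((1 + R ^ 2) * (h * E2)) :=
          mul_le_mul_of_nonneg_left h2 (by linarith)
      _ = E1 * E2 * h := by rw [hE1]; ring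
  have hform : form m S F (τ, y) = F (m.actInf γ⁻¹ w) (γ⁻¹ • proj m.L.fam S y) := by
    have h0 := form_smul hF g (show m.X from (τ, y))
    have h1 : g • (show m.X from (τ, y)) = (show m.X from (w, y)) := Prod.ext rfl hg1
    rw [h1] at h0
    exact h0.symm.trans (form_eq hF (show m.X from (w, y)) hγ)
  rw [hform]
  refine (hC (m.actInf γ⁻¹ w)).trans ?_
  rw [mul_assoc]
  refine mul_le_mul_of_nonneg_left ?_ hC0
  have hprod : ∏ j, ((m.actInf γ⁻¹ w j).y + ((m.actInf γ⁻¹ w j).y)⁻¹) ^ A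
      ≤ ∏ j : J, (E1 * E2 * h) ^ A := by
    refine Finset.prod_le_prod (fun j _ => ?_) fun j _ => ?_
    · have := (m.actInf γ⁻¹ w j).pos
      positivity
    · have := (m.actInf γ⁻¹ w j).pos
      exact pow_le_pow_left₀ (by positivity) (hfac j) A
  refine hprod.trans (le_of_eq ?_)
  rw [Finset.prod_const, Finset.card_univ, ← hr, ← pow_mul, mul_pow, Real.rpow_natCast]

end Fermat.Agent.H16D
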