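import Fermat.Agent.H77ZFin
import Fermat.Agent.H33DCoef

/-!
# S47, block (D): the coefficients of the dihedral form are good (helper16, D-GOOD)

For `B/E` quadratic and a place `v` of `E` unramified in `B`: `v 𝓞_B = P P'` or `v 𝓞_B = P`
(`map_eq_mul`, `map_eq`).  For the quartic Hecke character of a quaternion tower
(`H77.Z.exists_chi_final`) the coefficients `H33D.coef chi` satisfy the Hecke recursion with
`a_w = H89D.aw C K w` at every `w ∉ S`.
-/

set_option autoImplicit false
set_option linter.unusedSectionVars false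
set_option linter.unusedVariables false

noncomputable section

open IsDedekindDomain NumberField WithZero UniqueFactorizationMonoid
open scoped Pointwise nonZeroDivisors
open Fermat.Agent.H47 (ordHom divHom smulPlace below)
open Fermat.Agent.H82 (above aboveSet NonSplit congr locNorm normGroup)
open Fermat.Agent.H89D (IsQ8Tower liftFix)

namespace Fermat.Agent.H16D

open Fermat.Agent

section Quad

variable {E B : Type*} [Field E] [NumberField E] [Field B] [NumberField B] [Algebra E B]

theorem map_ne_bot (v : HeightOneSpectrum (𝓞 E)) :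
    v.asIdeal.map (algebraMap (𝓞 E) (𝓞 B)) ≠ ⊥ :=
  Ideal.map_ne_bot_of_ne_bot v.ne_bot

/-- A prime factor of `v 𝓞_B` is a place above `v`. -/
theorem mem_above_of_dvd {v : HeightOneSpectrum (𝓞 E)} {Q : HeightOneSpectrum (𝓞 B)}
    (h : Q.asIdeal ∣ v.asIdeal.map (algebraMap (𝓞 E) (𝓞 B))) : Q ∈ above B v := by
  have h1 : v.asIdeal.map (algebraMap (𝓞 E) (𝓞 B)) ≤ Q.asIdeal := Ideal.le_of_dvd h
  have h2 : v.asIdeal ≤ Q.asIdeal.under (𝓞 E) := Ideal.map_le_iff_le_comap.1 h1
  have := v.isMaximal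
  have h3 : Q.asIdeal.under (𝓞 E) ≠ ⊤ := by
    have := Q.isPrime
    exact (Ideal.IsPrime.under (𝓞 E) Q.asIdeal).ne_top
  exact (this.eq_of_le h3 h2).symm

theorem count_eq [DecidableEq (Ideal (𝓞 B))] {v : HeightOneSpectrum (𝓞 E)}
    {Q : HeightOneSpectrum (𝓞 B)}
    (h : v.asIdeal.ramificationIdx' Q.asIdeal = 1) :
    (normalizedFactors (v.asIdeal.map (algebraMap (𝓞 E) (𝓞 B)))).count Q.asIdeal = 1 := by
  have h1 := Ideal.IsDedekindDomain.ramificationIdx'_eq_normalizedFactors_count
    (map_ne_bot (B := B) v) Q.isPrime Q.ne_bot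
  rw [h] at h1
  convert h1.symm

theorem eq_of_count {I I' : Ideal (𝓞 B)} (hI : I ≠ ⊥) (hI' : I' ≠ ⊥)
    [DecidableEq (Ideal (𝓞 B))] (h : ∀ Q : HeightOneSpectrum (𝓞 B),
      (normalizedFactors I).count Q.asIdeal = (normalizedFactors I').count Q.asIdeal) :
    I = I' := by
  have h1 : normalizedFactors I = normalizedFactors I' := by
    ext Q
    by_cases hQ : Prime Q
    · exact h ⟨Q, Ideal.isPrime_of_prime hQ, hQ.ne_zero⟩
    · have h2 : ∀ J : Ideal (𝓞 B), (normalizedFactors J).count Q = 0 := fun J =>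
        Multiset.count_eq_zero.2 fun h3 => hQ (prime_of_normalized_factor Q h3)
      rw [h2, h2]
  exact associated_iff_eq.1
    ((associated_iff_normalizedFactors_eq_normalizedFactors hI hI').2 h1)

/-- A split unramified place. -/
theorem map_eq_mul {v : HeightOneSpectrum (𝓞 E)} {P P' : HeightOneSpectrum (𝓞 B)} (hne : P ≠ P')
    (hv : above B v = {P, P'})
    (hunr : ∀ w ∈ above B v, v.asIdeal.ramificationIdx' w.asIdeal = 1) :
    v.asIdeal.map (algebraMap (𝓞 E) (𝓞 B)) = P.asIdeal * P'.asIdeal := by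
  classical
  have hne' : P.asIdeal ≠ P'.asIdeal := fun h => hne (HeightOneSpectrum.ext h)
  refine eq_of_count (map_ne_bot v) (mul_ne_zero P.ne_bot P'.ne_bot) fun Q => ?_
  rw [normalizedFactors_mul P.ne_bot P'.ne_bot, Multiset.count_add,
    normalizedFactors_irreducible P.irreducible, normalizedFactors_irreducible P'.irreducible,
    normalize_eq, normalize_eq, Multiset.count_singleton, Multiset.count_singleton]
  by_cases hQ : Q ∈ above B v
  · rw [count_eq (hunr Q hQ)]
    rw [hv] at hQ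
    rcases hQ with rfl | hQ
    · rw [if_pos rfl, if_neg hne']
    · rw [Set.mem_singleton_iff] at hQ
      subst hQ
      rw [if_pos rfl, if_neg hne'.symm]
  · rw [Multiset.count_eq_zero.2 fun h => hQ (mem_above_of_dvd (dvd_of_mem_normalizedFactors h))]
    rw [hv] at hQ
    rw [if_neg, if_neg]
    · intro h; exact hQ (Or.inr (HeightOneSpectrum.ext h))
    · intro h; exact hQ (Or.inl (HeightOneSpectrum.ext h))

/-- A nonsplit unramified place. -/
theorem map_eq {v : HeightOneSpectrum (𝓞 E)} {P : HeightOneSpectrum (𝓞 B)}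
    (hv : above B v = {P})
    (hunr : ∀ w ∈ above B v, v.asIdeal.ramificationIdx' w.asIdeal = 1) :
    v.asIdeal.map (algebraMap (𝓞 E) (𝓞 B)) = P.asIdeal := by
  classical
  refine eq_of_count (map_ne_bot v) P.ne_bot fun Q => ?_
  rw [normalizedFactors_irreducible P.irreducible, normalize_eq, Multiset.count_singleton]
  by_cases hQ : Q ∈ above B v
  · rw [count_eq (hunr Q hQ)]
    rw [hv, Set.mem_singleton_iff] at hQ
    subst hQ
    rw [if_pos rfl]
  · rw [Multiset.count_eq_zero.2 fun h => hQ (mem_above_of_dvd (dvd_of_mem_normalizedFactors h))]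
    rw [hv] at hQ
    rw [if_neg]
    intro h; exact hQ (HeightOneSpectrum.ext h)

theorem prime_asIdeal {F : Type*} [Field F] [NumberField F] (v : HeightOneSpectrum (𝓞 F)) :
    Prime v.asIdeal := Ideal.prime_of_isPrime v.ne_bot v.isPrime

variable [IsGalois E B]

theorem finrank_ringOfIntegers : Module.finrank (𝓞 E) (𝓞 B) = Module.finrank E B :=
  (IsFractionRing.finrank_eq (𝓞 E) E (𝓞 B) B).symm

theorem isSplit_of {v : HeightOneSpectrum (𝓞 E)} {P P' : HeightOneSpectrum (𝓞 B)}
    (hrank : Module.finrank E B = 2) (hne : P ≠ P') (hv : above B v = {P, P'})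
    (hunr : ∀ w ∈ above B v, v.asIdeal.ramificationIdx' w.asIdeal = 1) :
    H33D.IsSplit v.asIdeal P.asIdeal P'.asIdeal :=
  H33D.IsSplit.mk' (by rw [finrank_ringOfIntegers, hrank]) (prime_asIdeal v) (prime_asIdeal P)
    (prime_asIdeal P') (fun h => hne (HeightOneSpectrum.ext h)) (map_eq_mul hne hv hunr)

theorem isInert_of {v : HeightOneSpectrum (𝓞 E)} {P : HeightOneSpectrum (𝓞 B)}
    (hrank : Module.finrank E B = 2) (hv : above B v = {P})
    (hunr : ∀ w ∈ above B v, v.asIdeal.ramificationIdx' w.asIdeal = 1) :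
    H33D.IsInert v.asIdeal P.asIdeal := by
  have h1 := map_eq hv hunr
  have h2 := H33D.IsInert.mk' (S := 𝓞 B) (by rw [finrank_ringOfIntegers, hrank])
    (prime_asIdeal v) (by rw [h1]; exact prime_asIdeal P)
  rwa [h1] at h2

end Quad

section Good

variable {E B C K : Type} [Field E] [NumberField E] [IsTotallyComplex E] [Field B]
  [NumberField B] [Field C] [NumberField C] [Field K] [NumberField K] [Algebra E B]
  [Algebra E C] [Algebra E K] [Algebra B C] [Algebra B K] [Algebra C K] [IsScalarTower E B C]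
  [IsScalarTower E B K] [IsScalarTower E C K] [IsScalarTower B C K]

/-- **D-GOOD**: the quartic Hecke character of a quaternion tower, with the Hecke recursion of the
coefficients at all good places. -/
theorem exists_chi_good (H : IsQ8Tower E B C K)
    {S : Set (HeightOneSpectrum (𝓞 E))} (hS : S.Finite) (hSne : S.Nonempty)
    (h2 : ∀ v ∉ S, v.valuation E (2 : E) = 1)
    (hunr : ∀ v ∉ S, ∀ w ∈ above K v, v.asIdeal.ramificationIdx' w.asIdeal = 1) :
    ∃ (m : Ideal (𝓞 B)) (chi : Ideal (𝓞 B) →*₀ ℂ), m ≠ ⊥ ∧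
      (∀ P : HeightOneSpectrum (𝓞 B), m ≤ P.asIdeal ↔ P ∈ aboveSet B S) ∧
      (∀ P : HeightOneSpectrum (𝓞 B), chi P.asIdeal = 0 ↔ P ∈ aboveSet B S) ∧
      (∀ a : 𝓞 B, a - 1 ∈ m → chi (Ideal.span {a}) = 1) ∧
      (∀ P : HeightOneSpectrum (𝓞 B), P ∉ aboveSet B S → chi P.asIdeal ^ 4 = 1) ∧
      (∀ v ∉ S, H33D.IsGoodFor chi v.asIdeal ((H89D.aw C K v : ℤ) : ℂ)) := by
  classical
  obtain ⟨m, chi, hm, h1, h3, h4, h5, -, h7, h8, h9⟩ :=
    H77.Z.exists_chi_final H hS hSne h2 hunr
  refine ⟨m, chi, hm, h1, h3, h4, h5, fun v hv => ?_⟩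
  have := H.isGalois_EB
  have hu : ∀ w ∈ above B v, v.asIdeal.ramificationIdx' w.asIdeal = 1 :=
    (H77.Z.unr_tower (C := B) (hunr v hv)).1
  by_cases hns : NonSplit B v
  · obtain ⟨P, hP⟩ := Set.ncard_eq_one.1 hns
    obtain ⟨h10, h11⟩ := h9 v hv hns
    have h12 : chi P.asIdeal = -1 := h11 P (by rw [hP]; simp)
    have h13 := (isInert_of H.finrank_EB hP hu).isGoodFor h12
    rw [h10, Int.cast_zero]
    exact h13
  · obtain ⟨P, P', hne, hPP⟩ := H.exists_pair hns
    have h10 := h8 v hv hns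
    have h11 := h7 v hv
    rw [if_neg hns, hPP, finprod_mem_pair hne] at h11
    rw [hPP, finsum_mem_pair hne] at h10
    have h12 := (isSplit_of H.finrank_EB hne hPP hu).isGoodFor (χ := chi)
      (by rw [map_mul]; exact h11)
    rw [h10] at h12
    exact h12

end Good

end Fermat.Agent.H16D
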