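import Fermat.Agent.H33DCoef
import Fermat.Agent.H47TUnits

/-!
# A multiplicative function on ideals extended to fractional ideals (helper33, block (D) of S47)

`chiF χ J = ∏ χ(v) ^ (v-adic order of J)`; counts of sums; the group of fractional ideals prime to
a set of places.
-/

set_option autoImplicit false

open IsDedekindDomain FractionalIdeal
open scoped nonZeroDivisors

namespace Fermat.Agent.H33D

variable {R : Type*} [CommRing R] [IsDedekindDomain R] {K : Type*} [Field K] [Algebra R K]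
  [IsFractionRing R K]

section ChiF

/-- the extension of `χ` to fractional ideals -/
noncomputable def chiF (χ : Ideal R →*₀ ℂ) (J : FractionalIdeal R⁰ K) : ℂ :=
  ∏ᶠ v : HeightOneSpectrum R, χ v.asIdeal ^ count K v J

theorem finite_count_ne (J : FractionalIdeal R⁰ K) :
    {v : HeightOneSpectrum R | count K v J ≠ 0}.Finite := by
  have h := FractionalIdeal.finite_factors (R := R) (K := K) J
  rwa [Filter.eventually_cofinite] at h

theorem finite_mulSupport_chiF (χ : Ideal R →*₀ ℂ) (J : FractionalIdeal R⁰ K) :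
    (Function.mulSupport fun v : HeightOneSpectrum R => χ v.asIdeal ^ count K v J).Finite := by
  refine (finite_count_ne J).subset fun v hv h => hv ?_
  simp only [h, zpow_zero]

theorem chiF_one (χ : Ideal R →*₀ ℂ) : chiF χ (1 : FractionalIdeal R⁰ K) = 1 := by
  rw [chiF]
  exact finprod_eq_one_of_forall_eq_one fun v => by rw [count_one, zpow_zero]

/-- `J` is prime to the zeros of `χ` -/
def ChiGood (χ : Ideal R →*₀ ℂ) (J : FractionalIdeal R⁰ K) : Prop :=
  J ≠ 0 ∧ ∀ v : HeightOneSpectrum R, χ v.asIdeal = 0 → count K v J = 0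

theorem ChiGood.one (χ : Ideal R →*₀ ℂ) : ChiGood χ (1 : FractionalIdeal R⁰ K) :=
  ⟨one_ne_zero, fun v _ => count_one K v⟩

theorem ChiGood.mul {χ : Ideal R →*₀ ℂ} {J J' : FractionalIdeal R⁰ K} (h : ChiGood χ J)
    (h' : ChiGood χ J') : ChiGood χ (J * J') :=
  ⟨mul_ne_zero h.1 h'.1, fun v hv => by rw [count_mul K v h.1 h'.1, h.2 v hv, h'.2 v hv, add_zero]⟩

theorem ChiGood.inv {χ : Ideal R →*₀ ℂ} {J : FractionalIdeal R⁰ K} (h : ChiGood χ J) :
    ChiGood χ J⁻¹ :=
  ⟨inv_ne_zero h.1, fun v hv => by rw [count_inv, h.2 v hv, neg_zero]⟩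

theorem chiF_mul {χ : Ideal R →*₀ ℂ} {J J' : FractionalIdeal R⁰ K} (h : ChiGood χ J)
    (h' : ChiGood χ J') : chiF χ (J * J') = chiF χ J * chiF χ J' := by
  rw [chiF, chiF, chiF,
    ← finprod_mul_distrib (finite_mulSupport_chiF χ J) (finite_mulSupport_chiF χ J')]
  refine finprod_congr fun v => ?_
  by_cases hv : χ v.asIdeal = 0
  · rw [(h.mul h').2 v hv, h.2 v hv, h'.2 v hv, zpow_zero, one_mul]
  · rw [count_mul K v h.1 h'.1, zpow_add₀ hv]

theorem chiF_ne_zero {χ : Ideal R →*₀ ℂ} {J : FractionalIdeal R⁰ K} (h : ChiGood χ J) :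
    chiF χ J ≠ 0 := by
  have h1 := chiF_mul h h.inv
  rw [mul_inv_cancel₀ h.1, chiF_one] at h1
  exact left_ne_zero_of_mul (h1 ▸ one_ne_zero)

theorem chiF_inv {χ : Ideal R →*₀ ℂ} {J : FractionalIdeal R⁰ K} (h : ChiGood χ J) :
    chiF χ J⁻¹ = (chiF χ J)⁻¹ := by
  have h1 := chiF_mul h h.inv
  rw [mul_inv_cancel₀ h.1, chiF_one] at h1
  exact eq_inv_of_mul_eq_one_right h1.symm

theorem count_coe_eq {I : Ideal R} (hI : I ≠ 0) (v : HeightOneSpectrum R) :
    count K v (I : FractionalIdeal R⁰ K) = (multiplicity v.asIdeal I : ℤ) := by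
  classical
  rw [count_coe K v hI, Ideal.count_associates_factors_eq hI v.isPrime v.ne_bot,
    HeightOneSpectrum.count_normalizedFactors_eq_multiplicity hI]

theorem chiF_coe (χ : Ideal R →*₀ ℂ) {I : Ideal R} (hI : I ≠ 0) :
    chiF χ (I : FractionalIdeal R⁰ K) = χ I := by
  classical
  conv_rhs => rw [← Ideal.finprod_heightOneSpectrum_pow_multiplicity hI]
  have h1 := MonoidHom.map_finprod (χ : Ideal R →* ℂ)
    (f := fun v : HeightOneSpectrum R => v.asIdeal ^ multiplicity v.asIdeal I) ?_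
  · refine Eq.trans ?_ h1.symm
    rw [chiF]
    refine finprod_congr fun v => ?_
    rw [count_coe_eq hI, zpow_natCast]
    exact (map_pow χ _ _).symm
  · have h2 := Ideal.hasFiniteMulSupport hI
    simpa only [HeightOneSpectrum.maxPowDividing_eq_pow_multiplicity hI] using h2

end ChiF

section Count

theorem count_spanSingleton_coe_mul {a : R} (ha : a ≠ 0) {I : FractionalIdeal R⁰ K} (hI : I ≠ 0)
    (v : HeightOneSpectrum R) : count K v (spanSingleton R⁰ (algebraMap R K a)⁻¹ * I) =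
      count K v (spanSingleton R⁰ (algebraMap R K a)⁻¹) + count K v I := by
  refine count_mul K v ?_ hI
  rw [Ne, spanSingleton_eq_zero_iff, inv_eq_zero, IsFractionRing.to_map_eq_zero_iff]
  exact ha

theorem count_add {I J : FractionalIdeal R⁰ K} (hI : I ≠ 0) (hJ : J ≠ 0)
    (v : HeightOneSpectrum R) : count K v (I + J) = min (count K v I) (count K v J) := by
  obtain ⟨a, I', ha, hI'⟩ := exists_eq_spanSingleton_mul I
  obtain ⟨b, J', hb, hJ'⟩ := exists_eq_spanSingleton_mul J
  have hab : spanSingleton R⁰ (algebraMap R K (a * b))⁻¹ ≠ 0 := by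
    rw [Ne, spanSingleton_eq_zero_iff, inv_eq_zero, IsFractionRing.to_map_eq_zero_iff]
    exact mul_ne_zero ha hb
  have hI2 : I = spanSingleton R⁰ (algebraMap R K (a * b))⁻¹ *
      ((Ideal.span {b} * I' : Ideal R) : FractionalIdeal R⁰ K) := by
    rw [hI', coeIdeal_mul, coeIdeal_span_singleton, ← mul_assoc, spanSingleton_mul_spanSingleton,
      map_mul, mul_inv, mul_assoc, inv_mul_cancel₀, mul_one]
    rwa [Ne, IsFractionRing.to_map_eq_zero_iff]
  have hJ2 : J = spanSingleton R⁰ (algebraMap R K (a * b))⁻¹ *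
      ((Ideal.span {a} * J' : Ideal R) : FractionalIdeal R⁰ K) := by
    rw [hJ', coeIdeal_mul, coeIdeal_span_singleton, ← mul_assoc, spanSingleton_mul_spanSingleton,
      map_mul, mul_inv, mul_right_comm, inv_mul_cancel₀, one_mul]
    rwa [Ne, IsFractionRing.to_map_eq_zero_iff]
  have hI0 : Ideal.span {b} * I' ≠ 0 := by
    rintro h
    rw [h, Ideal.zero_eq_bot, coeIdeal_bot, mul_zero] at hI2
    exact hI hI2
  have hJ0 : Ideal.span {a} * J' ≠ 0 := by
    rintro h
    rw [h, Ideal.zero_eq_bot, coeIdeal_bot, mul_zero] at hJ2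
    exact hJ hJ2
  have hs0 : Ideal.span {b} * I' ⊔ Ideal.span {a} * J' ≠ 0 := by
    intro h
    exact hI0 (le_bot_iff.mp (le_sup_left.trans (le_of_eq h)))
  have h3 : I + J = spanSingleton R⁰ (algebraMap R K (a * b))⁻¹ *
      ((Ideal.span {b} * I' ⊔ Ideal.span {a} * J' : Ideal R) : FractionalIdeal R⁰ K) := by
    rw [coeIdeal_sup, mul_add, ← hI2, ← hJ2]
  rw [h3, hI2, hJ2, count_mul K v hab (coeIdeal_ne_zero.mpr hI0),
    count_mul K v hab (coeIdeal_ne_zero.mpr hJ0), count_mul K v hab (coeIdeal_ne_zero.mpr hs0),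
    count_coe_eq hI0, count_coe_eq hJ0, count_coe_eq hs0,
    HeightOneSpectrum.multiplicity_sup v hI0 hJ0, min_add_add_left]
  norm_cast

theorem count_nonneg_of_le_one {J : FractionalIdeal R⁰ K} (hJ : J ≠ 0) (h : J ≤ 1)
    (v : HeightOneSpectrum R) : 0 ≤ count K v J := by
  have := count_mono K v hJ h
  rwa [count_one] at this

theorem le_iff_count {I J : FractionalIdeal R⁰ K} (hI : I ≠ 0) (hJ : J ≠ 0) :
    I ≤ J ↔ ∀ v : HeightOneSpectrum R, count K v J ≤ count K v I := by
  refine ⟨fun h v => count_mono K v hI h, fun h => ?_⟩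
  have h1 : I * J⁻¹ ≤ 1 := by
    refine le_one_of_count_nonneg (mul_ne_zero hI (inv_ne_zero hJ)) fun v => ?_
    rw [count_mul K v hI (inv_ne_zero hJ), count_inv]
    have := h v
    omega
  calc I = I * J⁻¹ * J := by rw [mul_assoc, inv_mul_cancel₀ hJ, mul_one]
    _ ≤ 1 * J := mul_le_mul_left h1 J
    _ = J := one_mul J

theorem count_pos_of_le {I : Ideal R} (hI : I ≠ 0) {v : HeightOneSpectrum R}
    (h : I ≤ v.asIdeal) : 1 ≤ count K v (I : FractionalIdeal R⁰ K) := by
  rw [← count_self K v]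
  exact count_mono K v (coeIdeal_ne_zero.mpr hI) (coeIdeal_le_coeIdeal K |>.mpr h)

end Count

section Principal

theorem chiGood_coe {χ : Ideal R →*₀ ℂ} {I : Ideal R} (h : χ I ≠ 0) :
    ChiGood χ (I : FractionalIdeal R⁰ K) := by
  have hI : I ≠ 0 := by
    rintro rfl
    exact h (map_zero χ)
  refine ⟨coeIdeal_ne_zero.mpr hI, fun v hv => ?_⟩
  rw [count_coe_eq hI, Nat.cast_eq_zero, multiplicity_eq_zero]
  rintro ⟨J, rfl⟩
  exact h (by rw [map_mul, hv, zero_mul])

/-- every element which is a unit at the divisors of `m` has a denominator `≡ 1` modulo `m` -/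
theorem exists_denom {m : Ideal R} {x : K} (hx : x ≠ 0)
    (hv : ∀ v : HeightOneSpectrum R, m ≤ v.asIdeal → 0 ≤ count K v (spanSingleton R⁰ x)) :
    ∃ b a : R, b - 1 ∈ m ∧ algebraMap R K b * x = algebraMap R K a := by
  have hx0 : spanSingleton R⁰ x ≠ 0 := by rwa [Ne, spanSingleton_eq_zero_iff]
  have hs0 : (1 : FractionalIdeal R⁰ K) + spanSingleton R⁰ x ≠ 0 := by
    intro h
    have h1 : (1 : FractionalIdeal R⁰ K) ≤ 0 := by
      rw [← h, ← sup_eq_add]
      exact le_sup_left
    exact one_ne_zero (FractionalIdeal.le_zero_iff.mp h1)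
  have hD1 : ((1 : FractionalIdeal R⁰ K) + spanSingleton R⁰ x)⁻¹ ≤ 1 := by
    refine le_one_of_count_nonneg (inv_ne_zero hs0) fun v => ?_
    rw [count_inv, count_add (one_ne_zero : (1 : FractionalIdeal R⁰ K) ≠ 0) hx0, count_one]
    omega
  obtain ⟨den, hden⟩ := le_one_iff_exists_coeIdeal.mp hD1
  have hden0 : den ≠ 0 := by
    rintro rfl
    rw [Ideal.zero_eq_bot, coeIdeal_bot] at hden
    exact inv_ne_zero hs0 hden.symm
  have hsup : den ⊔ m = ⊤ := by
    by_contra hne
    obtain ⟨M, hM, hle⟩ := Ideal.exists_le_maximal _ hne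
    have hM0 : M ≠ ⊥ := by
      rintro rfl
      exact hden0 (le_bot_iff.mp (le_sup_left.trans hle))
    have h1 := count_pos_of_le (K := K) hden0 (v := ⟨M, hM.isPrime, hM0⟩) (le_sup_left.trans hle)
    have h2 := hv ⟨M, hM.isPrime, hM0⟩ (le_sup_right.trans hle)
    rw [hden, count_inv, count_add (one_ne_zero : (1 : FractionalIdeal R⁰ K) ≠ 0) hx0,
      count_one] at h1
    omega
  obtain ⟨b, hb, c, hc, hbc⟩ := Submodule.mem_sup.mp (hsup ▸ Submodule.mem_top : (1 : R) ∈ den ⊔ m)
  refine ⟨b, ?_⟩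
  have hbx : algebraMap R K b * x ∈ (1 : FractionalIdeal R⁰ K) := by
    have h1 : algebraMap R K b ∈ ((1 : FractionalIdeal R⁰ K) + spanSingleton R⁰ x)⁻¹ := by
      rw [← hden]
      exact (mem_coeIdeal R⁰).mpr ⟨b, hb, rfl⟩
    have h2 : x ∈ (1 : FractionalIdeal R⁰ K) + spanSingleton R⁰ x := by
      rw [← sup_eq_add]
      exact (le_sup_right : spanSingleton R⁰ x ≤ _) (mem_spanSingleton_self R⁰ x)
    have h3 := FractionalIdeal.mul_mem_mul h1 h2
    rwa [inv_mul_cancel₀ hs0] at h3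
  obtain ⟨a, ha⟩ := mem_one_iff R⁰ |>.mp hbx
  refine ⟨a, ?_, ha.symm⟩
  rw [show b - 1 = -c by rw [← hbc]; ring]
  exact m.neg_mem hc

theorem count_spanSingleton (v : HeightOneSpectrum R) {x : K} (hx : x ≠ 0) :
    v.valuation K x = WithZero.exp (-count K v (spanSingleton R⁰ x)) := by
  have h := H47.valuation_eq_exp_ordHom v (Units.mk0 x hx)
  rwa [H47.ordHom_eq_count] at h

/-- membership in an ideal by valuations -/
theorem mem_of_valuation_le {m : Ideal R} (hm : m ≠ 0) {a : R}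
    (h : ∀ v : HeightOneSpectrum R, m ≤ v.asIdeal →
      v.valuation K (algebraMap R K a) ≤ WithZero.exp (-(multiplicity v.asIdeal m : ℤ))) :
    a ∈ m := by
  by_cases ha : a = 0
  · rw [ha]; exact m.zero_mem
  have ha' : algebraMap R K a ≠ 0 := by rwa [Ne, IsFractionRing.to_map_eq_zero_iff]
  have hs : spanSingleton R⁰ (algebraMap R K a) ≠ 0 := by rwa [Ne, spanSingleton_eq_zero_iff]
  have h1 : spanSingleton R⁰ (algebraMap R K a) ≤ (m : FractionalIdeal R⁰ K) := by
    rw [le_iff_count hs (coeIdeal_ne_zero.mpr hm)]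
    intro v
    rw [count_coe_eq hm]
    by_cases hv : m ≤ v.asIdeal
    · have h2 := h v hv
      rw [count_spanSingleton v ha', WithZero.exp_le_exp] at h2
      omega
    · rw [multiplicity_eq_zero.mpr (fun hd => hv (Ideal.le_of_dvd hd)), Nat.cast_zero]
      refine count_nonneg_of_le_one hs ?_ v
      rw [spanSingleton_le_iff_mem, mem_one_iff]
      exact ⟨a, rfl⟩
  rw [spanSingleton_le_iff_mem, mem_coeIdeal] at h1
  obtain ⟨a', ha2, ha3⟩ := h1
  rwa [← IsFractionRing.injective R K ha3]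

/-- **`χ` is trivial on principal fractional ideals with generator `≡ 1` modulo `m`.** -/
theorem chiF_spanSingleton {χ : Ideal R →*₀ ℂ} {m : Ideal R} (hm : m ≠ 0)
    (h1 : ∀ a : R, a - 1 ∈ m → χ (Ideal.span {a}) = 1) {x : K} (hx : x ≠ 0)
    (hv : ∀ v : HeightOneSpectrum R, m ≤ v.asIdeal → v.valuation K x = 1 ∧
      v.valuation K (x - 1) ≤ WithZero.exp (-(multiplicity v.asIdeal m : ℤ))) :
    ChiGood χ (spanSingleton R⁰ x) ∧ chiF χ (spanSingleton R⁰ x) = 1 := by
  obtain ⟨b, a, hb, hab⟩ := exists_denom (m := m) hx (fun v hvm => by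
    have h2 := (hv v hvm).1
    rw [count_spanSingleton v hx, ← WithZero.exp_zero, WithZero.exp_inj] at h2
    omega)
  have hχ0 : χ (Ideal.span {(0 : R)}) = 0 := by
    rw [Ideal.span_singleton_eq_bot.mpr rfl]
    exact map_zero χ
  have hb0 : b ≠ 0 := by
    rintro rfl
    have := h1 _ hb
    rw [hχ0] at this
    exact zero_ne_one this
  have hb0' : algebraMap R K b ≠ 0 := by rwa [Ne, IsFractionRing.to_map_eq_zero_iff]
  have ha : a - 1 ∈ m := by
    refine mem_of_valuation_le (K := K) hm fun v hvm => ?_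
    have h2 : algebraMap R K (a - 1) = algebraMap R K b * (x - 1) + algebraMap R K (b - 1) := by
      rw [map_sub, map_sub, ← hab, map_one]; ring
    rw [h2]
    refine (Valuation.map_add _ _ _).trans (max_le ?_ ?_)
    · rw [map_mul]
      calc v.valuation K (algebraMap R K b) * v.valuation K (x - 1) ≤ 1 * v.valuation K (x - 1) :=
            mul_le_mul_left (HeightOneSpectrum.valuation_le_one v b) _
        _ ≤ _ := by rw [one_mul]; exact (hv v hvm).2
    · rw [HeightOneSpectrum.valuation_of_algebraMap,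
        HeightOneSpectrum.intValuation_le_pow_iff_mem]
      exact Ideal.le_of_dvd (pow_multiplicity_dvd _ _) hb
  have hχb := h1 b hb
  have hχa := h1 a ha
  have hgb : ChiGood χ (spanSingleton R⁰ (algebraMap R K b)) := by
    rw [← coeIdeal_span_singleton]
    exact chiGood_coe (by rw [hχb]; exact one_ne_zero)
  have hga : ChiGood χ (spanSingleton R⁰ (algebraMap R K a)) := by
    rw [← coeIdeal_span_singleton]
    exact chiGood_coe (by rw [hχa]; exact one_ne_zero)
  have hxe : spanSingleton R⁰ x = spanSingleton R⁰ (algebraMap R K a) *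
      (spanSingleton R⁰ (algebraMap R K b))⁻¹ := by
    rw [spanSingleton_inv, spanSingleton_mul_spanSingleton, ← hab, mul_right_comm,
      mul_inv_cancel₀ hb0', one_mul]
  rw [hxe]
  refine ⟨hga.mul hgb.inv, ?_⟩
  rw [chiF_mul hga hgb.inv, chiF_inv hgb, ← coeIdeal_span_singleton, ← coeIdeal_span_singleton,
    chiF_coe, chiF_coe, hχb, hχa, inv_one, mul_one]
  · rwa [Ne, Ideal.zero_eq_bot, Ideal.span_singleton_eq_bot]
  · rw [Ne, Ideal.zero_eq_bot, Ideal.span_singleton_eq_bot]
    rintro rfl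
    rw [hχ0] at hχa
    exact zero_ne_one hχa

end Principal

end Fermat.Agent.H33D
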