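import Fermat.Agent.H16D4
import Fermat.Agent.H71UDefs
import Fermat.Agent.H33DChiF

/-!
# S47, block (D): the data of the theta kernel (helper16)

`exists_dd` : from `ChiHyp E B S chi a`, for every open subgroup `US` of `Eˣ` which is deep enough
at the places of `S`, data `d : H71D.DD E B J` with `d.Good`.
-/

set_option autoImplicit false
set_option linter.unusedSectionVars false
set_option linter.unusedVariables false

noncomputable section

open IsDedekindDomain NumberField WithZero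
open scoped Pointwise nonZeroDivisors
open Fermat.Agent.H47 (ordHom divHom smulPlace below)
open Fermat.Agent.H82 (above aboveSet NonSplit congr locNorm normGroup)

namespace Fermat.Agent.H16D

open Fermat.Agent Fermat.Agent.H71D

section

variable {E B : Type} [Field E] [NumberField E] [Field B] [NumberField B] [Algebra E B]
  {S : Finset (HeightOneSpectrum (𝓞 E))} {chi : Ideal (𝓞 B) →*₀ ℂ}
  {a : HeightOneSpectrum (𝓞 E) → ℤ}

/-- The modulus of `chi` in terms of valuations. -/
theorem ChiHyp.exists_n2 (h : ChiHyp E B S chi a) : ∃ n2 : ℕ, 0 < n2 ∧ ∀ n ≥ n2,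
    ∀ x : 𝓞 B, (∀ P ∈ aboveSet B (S : Set (HeightOneSpectrum (𝓞 E))),
      P.valuation B ((x : B) - 1) ≤ exp (-(n : ℤ))) → chi (Ideal.span {x}) = 1 := by
  classical
  obtain ⟨m, hm, h1, h2⟩ := h.chi_span
  have hT : (aboveSet B (S : Set (HeightOneSpectrum (𝓞 E)))).Finite :=
    H65.finite_aboveSet S.finite_toSet
  refine ⟨1 + ∑ P ∈ hT.toFinset, multiplicity P.asIdeal m, by omega, fun n hn x hx => h2 x ?_⟩
  refine H33D.mem_of_valuation_le (K := B) hm fun P hP => ?_
  have hP' := (h1 P).1 hP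
  have h3 : multiplicity P.asIdeal m ≤ ∑ P ∈ hT.toFinset, multiplicity P.asIdeal m :=
    Finset.single_le_sum (f := fun P : HeightOneSpectrum (𝓞 B) => multiplicity P.asIdeal m)
      (fun _ _ => Nat.zero_le _) (hT.mem_toFinset.2 hP')
  have h4 : algebraMap (𝓞 B) B (x - 1) = (x : B) - 1 := by rw [map_sub, map_one]
  rw [h4]
  refine (hx P hP').trans ?_
  rw [exp_le_exp]
  omega

theorem ChiHyp.norm_chi (h : ChiHyp E B S chi a) (P : HeightOneSpectrum (𝓞 B))
    (hP : P ∉ aboveSet B (S : Set (HeightOneSpectrum (𝓞 E)))) : ‖chi P.asIdeal‖ = 1 := by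
  have h1 := h.chi_pow P hP
  have h2 : ‖chi P.asIdeal‖ ^ 4 = 1 := by rw [← norm_pow, h1, norm_one]
  exact (pow_eq_one_iff_of_nonneg (norm_nonneg _) (by norm_num)).1 h2

/-- **D-DATA**: the data of the theta kernel. -/
theorem exists_dd (h : ChiHyp E B S chi a) (n₀ : ℕ) :
    ∃ n2 k : ℕ, n₀ ≤ n2 ∧ 0 < n2 ∧ ∀ (J : Type) [Fintype J] (e : J → (E →+* ℂ))
      (_ : Function.Bijective fun j => InfinitePlace.mk (e j)) (US : Subgroup Eˣ)
      (_ : ∃ k' : ℕ, ∀ α : Eˣ, (∀ w ∈ S, α ∈ congr w k') → α ∈ US)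
      (_ : ∀ α ∈ US, ∀ w ∈ S, α ∈ congr w k),
      ∃ d : DD E B J, d.e = e ∧ d.S = S ∧ d.US = US ∧ d.n2 = n2 ∧ d.chi = chi ∧ d.Good := by
  classical
  have := h.gal
  have := h.tcE
  have := h.tcB
  obtain ⟨n2, hn2, hspan⟩ := h.exists_n2
  obtain ⟨k, hk⟩ := H77.Z.exists_norm_lift (K := E) (L := B) h.deg
    (S := (S : Set (HeightOneSpectrum (𝓞 E)))) S.finite_toSet
    (fun v hv => h.two v (by simpa using hv)) (fun v hv => h.unr v (by simpa using hv)) (n2 + n₀)
  obtain ⟨τ, hτ⟩ := H77.Z.exists_aut_ne_one (K := E) (L := B) h.deg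
  refine ⟨n2 + n₀, k, by omega, by omega, fun J _ e he US hUo hUk => ?_⟩
  have hext : ∀ j, ∃ f : B →+* ℂ, f.comp (algebraMap E B) = e j := by
    intro j
    let _ : Algebra E ℂ := (e j).toAlgebra
    have hfd : FiniteDimensional E B := Module.Finite.of_restrictScalars_finite ℚ E B
    exact ⟨(IsAlgClosed.lift (R := E) (S := B) (M := ℂ) : B →ₐ[E] ℂ).toRingHom,
      (IsAlgClosed.lift (R := E) (S := B) (M := ℂ) : B →ₐ[E] ℂ).comp_algebraMap⟩
  choose b hb using hext
  refine ⟨⟨τ, e, b, S, US, n2 + n₀, chi⟩, rfl, rfl, rfl, rfl, rfl, ?_⟩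
  refine
    { tau_ne := hτ
      deg := h.deg
      hb := hb
      he := he
      tcE := h.tcE
      tcB := h.tcB
      ne := h.ne
      two := h.two
      unr := h.unr
      n2_pos := by show 0 < n2 + n₀; omega
      US_open := hUo
      US_unit := fun α hα w hw => (hUk α hα w hw).1
      lift := ?_
      chi_S := h.chi_S
      chi_norm := fun P hP => h.norm_chi P hP
      chi_span := fun x hx => hspan (n2 + n₀) (by omega) x hx
      chi_E := h.chi_E }
  intro α hα hev
  obtain ⟨y, hy, hy'⟩ := hk α (fun v hv => hUk α hα v (by simpa using hv)) (fun v hv hns => by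
    obtain ⟨j, hj⟩ := hev v (by simpa using hv) hns
    have h1 := H47.valuation_eq_exp_ordHom (K := E) v α
    rw [h1, exp_inj] at hj
    exact ⟨-j, by show ordHom v (Additive.ofMul α) = _; omega⟩)
  have hy'' : Algebra.norm E (y : B) = (α : E) := congrArg Units.val hy
  refine ⟨y, ⟨fun P hP => (hy' P hP).2, α, hα, hy''.symm⟩, hy''⟩

end

end Fermat.Agent.H16D
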