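import Fermat.Agent.H16D5

/-!
# S47, block (D): FIN from the two analytic statements (helper16)

* `NbarEx` : the explicit series is invariant under the lower unipotent elements which are small
  at `S`, uniformly in the depth of the type;
* `OuterEx` : the explicit series defines a function on the outer space with all the properties
  `IsOuter`;
* `fin_of : OuterEx → NbarEx → FIN`, `blockD_of : OuterEx → NbarEx → H46Z.BlockD`.
-/

set_option autoImplicit false
set_option linter.unusedSectionVars false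
set_option linter.unusedVariables false

noncomputable section

open IsDedekindDomain NumberField WithZero
open scoped Pointwise nonZeroDivisors
open Fermat.Agent.H47 (ordHom divHom smulPlace below)
open Fermat.Agent.H82 (above aboveSet NonSplit congr locNorm normGroup)

namespace Fermat.Agent.H16D

open Fermat.Agent Fermat.Agent.H71D Fermat.Agent.H59D Fermat.Agent.H59XF Fermat.Agent.H76U

/-- **(NBAR)**: invariance of the explicit series under small lower unipotent elements. -/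
def NbarEx : Prop :=
  ∀ (E B : Type) [Field E] [NumberField E] [Field B] [NumberField B] [Algebra E B]
    (S : Finset (HeightOneSpectrum (𝓞 E))) (chi : Ideal (𝓞 B) →*₀ ℂ)
    (a : HeightOneSpectrum (𝓞 E) → ℤ), ChiHyp E B S chi a →
    ∀ n2 : ℕ, ∃ c₀ : ℕ, ∀ (J : Type) [Fintype J] (d : DD E B J), d.Good → d.S = S →
      d.chi = chi → d.n2 = n2 → ∀ n : HeightOneSpectrum (𝓞 E) → ℕ, (∀ w ∈ S, n2 ≤ n w) →
        (∀ α : Eˣ, (∀ w ∈ S, α ∈ congr w (n w)) → α ∈ d.US) →
        NbarSer d {c : E | ∀ w ∈ S, w.valuation E c ≤ exp (-((2 * n w + c₀ : ℕ) : ℤ))}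

/-- **(OUTER)**: the form on the outer space. -/
def OuterEx : Prop :=
  ∀ (E B : Type) [Field E] [NumberField E] [Field B] [NumberField B] [Algebra E B]
    (S : Finset (HeightOneSpectrum (𝓞 E))) (chi : Ideal (𝓞 B) →*₀ ℂ)
    (a : HeightOneSpectrum (𝓞 E) → ℤ), ChiHyp E B S chi a →
    ∀ (J : Type) [Fintype J] (m : Model E J) (T : HeightOneSpectrum (𝓞 E) → TD E),
      (∀ w ∈ S, ∀ x, (T w).psi x = H7.Z.psi w x) →
      (∀ w ∈ S, ∀ x ∈ (T w).A, w.valuation E x ≤ exp (-(1 : ℤ))) →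
      (∀ w ∈ S, ∃ n : ℕ, ∀ x : E, w.valuation E x ≤ exp (-(n : ℤ)) → x ∈ (T w).A) →
      (∀ w ∉ S, m.L.U w = U0 w) →
      ∀ d : DD E B J, d.Good → d.e = m.e → d.S = S → d.chi = chi →
        (∀ t : Eˣ, t ∈ d.US ↔ ∀ w ∈ S, (t : E) - 1 ∈ (T w).A) →
        NbarSer d {c : E | ∀ w ∈ S, c ∈ (T w).C} →
        ∃ F : Zm m → XF (restr m.L.fam S) → ℂ, IsOuter m S T (fun w => ((a w : ℤ) : ℝ)) F

/-- The group of the elements `t` with `t - 1 ∈ A_w` for all `w ∈ S`. -/
def USof {E : Type*} [Field E] [NumberField E] (S : Finset (HeightOneSpectrum (𝓞 E)))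
    (T : HeightOneSpectrum (𝓞 E) → TD E) : Subgroup Eˣ where
  carrier := {t | ∀ w ∈ S, (t : E) - 1 ∈ (T w).A}
  one_mem' w _ := by rw [Units.val_one, sub_self]; exact (T w).A.zero_mem
  mul_mem' {x y} hx hy w hw := by
    have h : ((x * y : Eˣ) : E) - 1 = ((x : E) - 1) * ((y : E) - 1) + ((x : E) - 1) +
        ((y : E) - 1) := by push_cast; ring
    rw [h]
    exact (T w).A.add_mem ((T w).A.add_mem ((T w).AA _ (hx w hw) _ (hy w hw)) (hx w hw)) (hy w hw)
  inv_mem' {x} hx w hw := by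
    have h := (T w).inv _ (hx w hw)
    rw [add_sub_cancel] at h
    rw [Units.val_inv_eq_inv_val]
    exact h

theorem mem_USof {E : Type*} [Field E] [NumberField E] {S : Finset (HeightOneSpectrum (𝓞 E))}
    {T : HeightOneSpectrum (𝓞 E) → TD E} {t : Eˣ} :
    t ∈ USof S T ↔ ∀ w ∈ S, (t : E) - 1 ∈ (T w).A := Iff.rfl

/-- **FIN** from (OUTER) and (NBAR). -/
theorem fin_of (hO : OuterEx) (hN : NbarEx) : FIN := by
  intro E B _ _ _ _ _ S chi a h
  classical
  obtain ⟨n2, k, -, hn2, hdd⟩ := exists_dd h 1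
  obtain ⟨c₀, hc₀⟩ := hN E B S chi a h n2
  refine ⟨max (max k n2) 1, c₀, ?_⟩
  intro J _ m T Ty hAdm hH hchi hL
  have hk1 : 1 ≤ max (max k n2) 1 := le_max_right _ _
  have hkk : k ≤ max (max k n2) 1 := (le_max_left _ _).trans (le_max_left _ _)
  have hkn : n2 ≤ max (max k n2) 1 := (le_max_right _ _).trans (le_max_left _ _)
  generalize max (max k n2) 1 = K at hAdm hk1 hkk hkn
  have hlev : ∀ w, ∃ n : ℕ, w ∈ S → ((∀ x : E, w.valuation E x ≤ exp (-(n : ℤ)) → x ∈ (T w).A) ∧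
      (∀ c ∈ (T w).C, w.valuation E c ≤ exp (-((2 * n + c₀ : ℕ) : ℤ))) ∧ n2 ≤ n) := by
    intro w
    by_cases hw : w ∈ S
    · obtain ⟨n, h1, h2⟩ := (hAdm w hw).lev
      refine ⟨n, fun _ => ⟨h1, h2, ?_⟩⟩
      obtain ⟨t, ht⟩ := H36.Psi.exists_val_eq_exp w (-(n : ℤ))
      have h3 := (hAdm w hw).deep _ (h1 (t : E) ht.le)
      rw [ht, exp_le_exp] at h3
      omega
    · exact ⟨0, fun h => absurd h hw⟩
  choose n hn using hlev
  have hUk : ∀ α ∈ USof S T, ∀ w ∈ S, α ∈ congr w k := by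
    intro α hα w hw
    have h1 := (hAdm w hw).deep _ (hα w hw)
    refine ⟨?_, h1.trans (by rw [exp_le_exp]; omega)⟩
    have h2 : w.valuation E ((α : E) - 1) < 1 := h1.trans_lt (by rw [← exp_zero, exp_lt_exp]; omega)
    have h3 : w.valuation E (((α : E) - 1) + 1) = w.valuation E 1 := by
      refine Valuation.map_add_eq_of_lt_right (w.valuation E) ?_
      rw [(w.valuation E).map_one]
      exact h2
    rw [sub_add_cancel, (w.valuation E).map_one] at h3
    exact h3
  have hUn : ∀ α : Eˣ, (∀ w ∈ S, α ∈ congr w (n w)) → α ∈ USof S T :=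
    fun α hα w hw => (hn w hw).1 _ (hα w hw).2
  have hUo : ∃ k' : ℕ, ∀ α : Eˣ, (∀ w ∈ S, α ∈ congr w k') → α ∈ USof S T := by
    refine ⟨∑ w ∈ S, n w, fun α hα => hUn α fun w hw => ?_⟩
    exact H82.congr_anti w (Finset.single_le_sum (f := n) (fun _ _ => Nat.zero_le _) hw) (hα w hw)
  obtain ⟨d, hde, hdS, hdU, hdn, hdc, hd⟩ := hdd J m.e m.e_bij (USof S T) hUo hUk
  have hN' := hc₀ J d hd hdS hdc hdn n (fun w hw => (hn w hw).2.2)
    (fun α hα => by rw [hdU]; exact hUn α hα)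
  have hN'' : NbarSer d {c : E | ∀ w ∈ S, c ∈ (T w).C} :=
    fun c hc => hN' c fun w hw => (hn w hw).2.1 c (hc w hw)
  obtain ⟨F, hF⟩ := hO E B S chi a h J m T (fun w hw => (hAdm w hw).psi)
    (fun w hw x hx => ((hAdm w hw).deep x hx).trans (by rw [exp_le_exp]; omega))
    (fun w hw => ⟨n w, (hn w hw).1⟩) hL d hd hde hdS hdc (fun t => by rw [hdU, mem_USof]) hN''
  exact ⟨form m S F, hF.isDForm h.ne Ty hH hchi⟩

/-- **Block (D)** from (OUTER) and (NBAR). -/
theorem blockD_of (hO : OuterEx) (hN : NbarEx) : H46Z.BlockD := blockD_of_fin (fin_of hO hN)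

end Fermat.Agent.H16D
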