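import Fermat.Agent.H18DP5
import Fermat.Agent.H16D6

/-!
# S47, block (D): `OuterEx` (helper18)
-/

set_option autoImplicit false

namespace Fermat.Agent.H18D

open Fermat.Agent

/-- **(OUTER)** -/
theorem outerEx : H16D.OuterEx := by
  intro E B _ _ _ _ _ S chi a hC J _ m T hpsi _ _ hL d hd hde hdS hdchi hUS hN
  exact isOuter hC m hL T hpsi d hd hde hdS hdchi hUS (fun c hc => hc) hN

end Fermat.Agent.H18D
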