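import Fermat.Agent.H66TMain
import Fermat.Agent.H13ZB
import Fermat.Agent.H53Z8
import Fermat.Agent.H78Unr

/-!
# NBAR-theta, uniform form (S47, block D)
-/

set_option linter.all false

namespace Fermat.Agent.H66T

open IsDedekindDomain HeightOneSpectrum WithZero NumberField Fermat.Agent.H66D Fermat.Agent.H78G
open Fermat.Agent.H71D
open Fermat.Agent.H47 (smulPlace below)
open Fermat.Agent.H82 (above aboveSet NonSplit congr)
open Fermat.Agent.H7.Z (ee psi)

variable {E B : Type*} [Field E] [NumberField E] [Field B] [NumberField B] [Algebra E B]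

/-- **NBAR-theta**, with a constant depending on `E`, `B`, `S` only. -/
theorem nbarTheta_unif (hdeg : Module.finrank E B = 2) (S : Finset (HeightOneSpectrum (𝓞 E)))
    (hE : ∀ w ∉ S, H7.Z.Unram w) :
    ∃ c₀ : ℕ, ∀ (J : Type) [Fintype J] (d : DD E B J), d.Good → d.S = S → GSProp d →
      ∀ n : HeightOneSpectrum (𝓞 E) → ℕ, (∀ w ∈ S, d.n2 ≤ n w) →
        (∀ α : Eˣ, (∀ w ∈ S, α ∈ congr w (n w)) → α ∈ d.US) →
        NbarTheta d {c : E | ∀ w ∈ S, w.valuation E c ≤ exp (-((2 * n w + c₀ : ℕ) : ℤ))} := by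
  obtain ⟨c₀, hc₀⟩ := H53Z.exists_supp_norm (B := B) S hdeg
  refine ⟨c₀, fun J _ d hd hS hGS n hn2 hn => ?_⟩
  subst hS
  have hunB : ∀ P ∉ aboveSet B (d.S : Set (HeightOneSpectrum (𝓞 E))), H7.Z.Unram P := by
    intro P hP
    have h1 : below E P ∉ d.S := fun h => hP ⟨below E P, h, H47.mem_above_below P⟩
    exact H78R.unramB (hE _ h1) (hd.unr _ h1 P (H47.mem_above_below P))
  refine nbarTheta_of d hd hunB hGS
    (m := fun P => (below E P).asIdeal.ramificationIdx' P.asIdeal * n (below E P))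
    (fun x hx y hy => H13Z.VS_add hd hn hn2 hx hy) ?_
  intro x hx c hc w hw
  have h1 := hc₀ d.tau hd.tau_ne n 0 x (fun y hy => hx y fun P hP => by
    have := hy P hP
    rwa [add_zero] at this) w hw
  have h2 : w.valuation E c ≤ exp (-((2 * n w + c₀ : ℕ) : ℤ)) := hc w hw
  rw [map_mul]
  calc w.valuation E c * w.valuation E (Algebra.norm E x)
      ≤ exp (-((2 * n w + c₀ : ℕ) : ℤ)) * exp (2 * (n w : ℤ) + 2 * ((0 : ℕ) : ℤ) + c₀) :=
        mul_le_mul' h2 h1
    _ = exp (-((2 * n w + c₀ : ℕ) : ℤ) + (2 * (n w : ℤ) + 2 * ((0 : ℕ) : ℤ) + c₀)) :=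
        (exp_add _ _).symm
    _ = 1 := by
        rw [← exp_zero]
        congr 1
        push_cast
        ring

end Fermat.Agent.H66T
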