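import Mathlib

/-!
# Unfolding bijection (helper33, block (D) of S47, (C3))

Abstract form: `π : U → I` homomorphism of commutative groups (`U = Bˣ`, `I` = fractional ideals),
`σ`, `τ` compatible endomorphisms (conjugation), `V ≤ U` (elements `≡ 1` at the bad places),
`Int` = the integral ideals. For `A : I` let `J = {b | b τ(b) = A}`; the group
`G = {β ∈ V | β σ(β) = 1}` acts on `J`. If `r i` represents the orbits and `R i` represents
`{ξ ∈ V | π ξ · τ (r i) integral}` modulo `Γ = G ∩ ker π`, then `(i, ξ) ↦ π ξ · τ (r i)` is a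
bijection from `{(i, ξ) | ξ ∈ R i, ξ σ(ξ) = α}` onto the integral `I` with `I τ(I) = π(α) A`,
if these are norms.
-/

set_option autoImplicit false
set_option linter.style.haveILetI false

namespace Fermat.Agent.H33D

section Abstract

variable {U I : Type*} [CommGroup U] [CommGroup I] (π : U →* I) (σ : U →* U) (τ : I →* I)

/-- the elements of norm one in `V` -/
def normOne (V : Subgroup U) : Subgroup U where
  carrier := {β | β ∈ V ∧ β * σ β = 1}
  one_mem' := ⟨V.one_mem, by rw [map_one, mul_one]⟩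
  mul_mem' := by
    rintro a b ⟨ha, ha'⟩ ⟨hb, hb'⟩
    refine ⟨V.mul_mem ha hb, ?_⟩
    rw [map_mul, mul_mul_mul_comm, ha', hb', mul_one]
  inv_mem' := by
    rintro a ⟨ha, ha'⟩
    refine ⟨V.inv_mem ha, ?_⟩
    rw [map_inv, ← mul_inv, ha', inv_one]

theorem mem_normOne {V : Subgroup U} {β : U} : β ∈ normOne σ V ↔ β ∈ V ∧ β * σ β = 1 := Iff.rfl

/-- the units of norm one in `V` -/
def unitOne (V : Subgroup U) : Subgroup U := normOne σ V ⊓ π.ker

theorem mem_unitOne {V : Subgroup U} {β : U} :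
    β ∈ unitOne π σ V ↔ (β ∈ V ∧ β * σ β = 1) ∧ π β = 1 := Iff.rfl

/-- the elements of the `i`-th lattice -/
def latt (V : Subgroup U) (Int : Set I) (b : I) : Set U := {ξ | ξ ∈ V ∧ π ξ * τ b ∈ Int}

/-- Data of representatives. -/
structure Reps (V : Subgroup U) (Int : Set I) (A : I) {ι : Type*} (r : ι → I)
    (R : ι → Set U) : Prop where
  /-- `r i ∈ J` -/
  norm : ∀ i, r i * τ (r i) = A
  /-- every orbit is represented -/
  exists_rep : ∀ b : I, b * τ b = A → ∃ i, ∃ β ∈ normOne σ V, b = π β * r i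
  /-- exactly once -/
  rep_unique : ∀ i j, ∀ β ∈ normOne σ V, r j = π β * r i → i = j
  /-- `R i` is contained in the lattice -/
  sub : ∀ i, R i ⊆ latt π τ V Int (r i)
  /-- every element of the lattice is represented -/
  exists_unit : ∀ i, ∀ ξ ∈ latt π τ V Int (r i), ∃ ξ' ∈ R i, ∃ u ∈ unitOne π σ V, ξ = u * ξ'
  /-- exactly once -/
  unit_unique : ∀ i, ∀ ξ ∈ R i, ∀ ξ' ∈ R i, ∀ u ∈ unitOne π σ V, ξ' = u * ξ → ξ = ξ'

variable {π σ τ} {V : Subgroup U} {Int : Set I} {A : I} {ι : Type*} {r : ι → I} {R : ι → Set U}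

/-- **The unfolding bijection.** -/
theorem Reps.bijOn (h : Reps π σ τ V Int A r R) (hπ : ∀ x, π (σ x) = τ (π x))
    (hσ : ∀ x, σ (σ x) = x) (hτ : ∀ x, τ (τ x) = x) (hVσ : ∀ x ∈ V, σ x ∈ V) {α : U}
    (hlift : ∀ K ∈ Int, K * τ K = π α * A → ∃ ξ ∈ V, ξ * σ ξ = α) :
    Set.BijOn (fun p : ι × U => π p.2 * τ (r p.1)) {p | p.2 ∈ R p.1 ∧ p.2 * σ p.2 = α}
      {K | K ∈ Int ∧ K * τ K = π α * A} := by
  refine ⟨?_, ?_, ?_⟩
  · rintro ⟨i, ξ⟩ ⟨h1, h2⟩
    refine ⟨(h.sub i h1).2, ?_⟩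
    change π ξ * τ (r i) * τ (π ξ * τ (r i)) = π α * A
    rw [map_mul, hτ, ← hπ, mul_mul_mul_comm, ← map_mul, mul_comm (τ (r i)), h.norm i]
    exact congrArg (fun x => π x * A) h2
  · rintro ⟨i, ξ⟩ ⟨h1, h2⟩ ⟨j, ξ'⟩ ⟨h1', h2'⟩ heq
    change ξ ∈ R i at h1
    change ξ' ∈ R j at h1'
    change ξ * σ ξ = α at h2
    change ξ' * σ ξ' = α at h2'
    change π ξ * τ (r i) = π ξ' * τ (r j) at heq
    have hβ : ξ * ξ'⁻¹ ∈ normOne σ V := by
      refine ⟨V.mul_mem (h.sub i h1).1 (V.inv_mem (h.sub j h1').1), ?_⟩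
      rw [map_mul, map_inv, mul_mul_mul_comm, h2, ← mul_inv, h2', mul_inv_cancel]
    have hσβ : σ (ξ * ξ'⁻¹) ∈ normOne σ V := by
      refine ⟨hVσ _ hβ.1, ?_⟩
      rw [hσ, mul_comm]
      exact hβ.2
    have h3 : r j = π (σ (ξ * ξ'⁻¹)) * r i := by
      have h4 : τ (r j) = π (ξ * ξ'⁻¹) * τ (r i) := by
        rw [map_mul, map_inv, mul_right_comm, heq, mul_right_comm, mul_inv_cancel, one_mul]
      have h5 := congrArg τ h4
      rwa [hτ, map_mul, hτ, ← hπ] at h5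
    obtain rfl := h.rep_unique i j _ hσβ h3
    have h4 : π (ξ' * ξ⁻¹) = 1 := by
      have h5 := mul_right_cancel heq
      rw [map_mul, map_inv, h5, mul_inv_cancel]
    have hβ' : ξ' * ξ⁻¹ ∈ normOne σ V := by
      have h6 := (normOne σ V).inv_mem hβ
      rwa [mul_inv_rev, inv_inv] at h6
    have h5 := h.unit_unique i ξ h1 ξ' h1' (ξ' * ξ⁻¹) ⟨hβ', h4⟩ (by rw [inv_mul_cancel_right])
    rw [h5]
  · rintro K ⟨hK, hK'⟩
    obtain ⟨ξ, hξ, hξα⟩ := hlift K hK hK'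
    -- the ideal `b = τ x` with `K = π ξ x`
    obtain ⟨x, hx⟩ : ∃ x, K = π ξ * x := ⟨π ξ⁻¹ * K, by
      rw [← mul_assoc, ← map_mul, mul_inv_cancel, map_one, one_mul]⟩
    have hb : τ x * τ (τ x) = A := by
      rw [hτ, mul_comm]
      rw [hx, map_mul, ← hπ, mul_mul_mul_comm, ← map_mul, hξα] at hK'
      exact mul_left_cancel hK'
    obtain ⟨i, β, hβ, h1⟩ := h.exists_rep _ hb
    have hx' : x = π (σ β) * τ (r i) := by
      have h2 := congrArg τ h1
      rwa [hτ, map_mul, ← hπ] at h2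
    have hK2 : K = π (ξ * σ β) * τ (r i) := by rw [hx, hx', map_mul, mul_assoc]
    obtain ⟨ξ', h2, u, hu, h3⟩ := h.exists_unit i (ξ * σ β)
      ⟨V.mul_mem hξ (hVσ _ hβ.1), hK2 ▸ hK⟩
    refine ⟨(i, ξ'), ⟨h2, ?_⟩, ?_⟩
    · change ξ' * σ ξ' = α
      have h4 : ξ' = u⁻¹ * (ξ * σ β) := by rw [h3, inv_mul_cancel_left]
      have h5 : u * σ u = 1 := hu.1.2
      have h6 : β * σ β = 1 := hβ.2
      calc ξ' * σ ξ' = (u * σ u)⁻¹ * (ξ * σ ξ) * (β * σ β) := by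
            rw [h4, map_mul, map_mul, map_inv, hσ]
            simp only [mul_inv, mul_assoc, mul_comm, mul_left_comm]
        _ = α := by rw [h5, h6, hξα, inv_one, one_mul, mul_one]
    · change π ξ' * τ (r i) = K
      rw [hK2, h3, map_mul, (hu.2 : π u = 1), one_mul]

/-- The sum over the integral elements of norm `π α · A` of a function which is constant on the
`π V`-classes. -/
theorem Reps.finsum_eq (h : Reps π σ τ V Int A r R) (hπ : ∀ x, π (σ x) = τ (π x))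
    (hσ : ∀ x, σ (σ x) = x) (hτ : ∀ x, τ (τ x) = x) (hVσ : ∀ x ∈ V, σ x ∈ V) {α : U}
    (hlift : ∀ K ∈ Int, K * τ K = π α * A → ∃ ξ ∈ V, ξ * σ ξ = α)
    {M : Type*} [AddCommMonoid M] (f : I → M) (hf : ∀ v ∈ V, ∀ K, f (π v * K) = f K) :
    ∑ᶠ K ∈ {K | K ∈ Int ∧ K * τ K = π α * A}, f K =
      ∑ᶠ p ∈ {p : ι × U | p.2 ∈ R p.1 ∧ p.2 * σ p.2 = α}, f (τ (r p.1)) := by
  symm
  refine finsum_mem_eq_of_bijOn _ (h.bijOn hπ hσ hτ hVσ hlift) ?_
  rintro ⟨i, ξ⟩ ⟨h1, -⟩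
  exact (hf ξ (h.sub i h1).1 _).symm

variable (π σ τ) in
/-- the orbit relation on `{b | b τ(b) = A}` -/
def orbSetoid (V : Subgroup U) (A : I) : Setoid {b : I // b * τ b = A} where
  r b b' := ∃ β ∈ normOne σ V, (b' : I) = π β * b
  iseqv := by
    refine ⟨fun b => ⟨1, one_mem _, by rw [map_one, one_mul]⟩, ?_, ?_⟩
    · rintro b b' ⟨β, hβ, h⟩
      exact ⟨β⁻¹, inv_mem hβ, by rw [h, ← mul_assoc, ← map_mul, inv_mul_cancel, map_one, one_mul]⟩
    · rintro b b' b'' ⟨β, hβ, h⟩ ⟨β', hβ', h'⟩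
      exact ⟨β' * β, mul_mem hβ' hβ, by rw [h', h, map_mul, mul_assoc]⟩

variable (π σ τ) in
/-- the classes of `b` -/
def Cls (V : Subgroup U) (A : I) : Type _ := Quotient (orbSetoid π σ τ V A)

variable (π σ τ) in
/-- the unit orbit relation on a lattice -/
def unitSetoid (V : Subgroup U) (Int : Set I) (b : I) : Setoid (latt π τ V Int b) where
  r ξ ξ' := ∃ u ∈ unitOne π σ V, (ξ' : U) = u * ξ
  iseqv := by
    refine ⟨fun b => ⟨1, one_mem _, by rw [one_mul]⟩, ?_, ?_⟩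
    · rintro b b' ⟨β, hβ, h⟩
      exact ⟨β⁻¹, inv_mem hβ, by rw [h, inv_mul_cancel_left]⟩
    · rintro b b' b'' ⟨β, hβ, h⟩ ⟨β', hβ', h'⟩
      exact ⟨β' * β, mul_mem hβ' hβ, by rw [h', h, mul_assoc]⟩

variable (π σ τ) in
/-- Existence of representatives. -/
theorem exists_reps (V : Subgroup U) (Int : Set I) (A : I) :
    ∃ (r : Cls π σ τ V A → I) (R : Cls π σ τ V A → Set U), Reps π σ τ V Int A r R := by
  classical
  letI := orbSetoid π σ τ V A
  let r : Cls π σ τ V A → I := fun c => (Quotient.out c : {b : I // b * τ b = A})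
  let R : Cls π σ τ V A → Set U := fun c =>
    {ξ | ∃ q : Quotient (unitSetoid π σ τ V Int (r c)), ξ = (Quotient.out q : latt π τ V Int (r c))}
  refine ⟨r, R, ?_, ?_, ?_, ?_, ?_, ?_⟩
  · exact fun c => (Quotient.out c : {b : I // b * τ b = A}).2
  · intro b hb
    refine ⟨Quotient.mk (orbSetoid π σ τ V A) ⟨b, hb⟩, ?_⟩
    exact Quotient.mk_out (s := orbSetoid π σ τ V A) ⟨b, hb⟩
  · intro i j β hβ h
    rw [← Quotient.out_eq i, ← Quotient.out_eq j]
    exact Quotient.sound (s := orbSetoid π σ τ V A) ⟨β, hβ, h⟩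
  · rintro i ξ ⟨q, rfl⟩
    exact Subtype.coe_prop _
  · intro i ξ hξ
    refine ⟨_, ⟨Quotient.mk (unitSetoid π σ τ V Int (r i)) ⟨ξ, hξ⟩, rfl⟩, ?_⟩
    exact Quotient.mk_out (s := unitSetoid π σ τ V Int (r i)) ⟨ξ, hξ⟩
  · rintro i ξ ⟨q, rfl⟩ ξ' ⟨q', rfl⟩ u hu h
    have h1 : q = q' := by
      rw [← Quotient.out_eq q, ← Quotient.out_eq q']
      exact Quotient.sound (s := unitSetoid π σ τ V Int (r i)) ⟨u, hu, h⟩
    rw [h1]

/-- Finiteness of the set of classes: it is enough that `J` is contained in finitely many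
classes modulo elements `d τ(d)⁻¹` with `d ∈ π V'`. -/
theorem finite_cls {V : Subgroup U} {A : I} (hπ : ∀ x, π (σ x) = τ (π x))
    (hσ : ∀ x, σ (σ x) = x) {W : Subgroup U} (hW : ∀ κ ∈ W, κ * (σ κ)⁻¹ ∈ V)
    {D : Set I} {C : Type*} [Finite C] (cl : I → C)
    (hcl : ∀ d ∈ D, ∀ d' ∈ D, cl d = cl d' → ∃ κ ∈ W, d' = π κ * d)
    (h90 : ∀ b b' : I, b * τ b = A → b' * τ b' = A → ∃ d ∈ D, b' = d * (τ d)⁻¹ * b) :
    Finite (Cls π σ τ V A) := by
  classical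
  by_cases hne : Nonempty {b : I // b * τ b = A}
  · obtain ⟨b₀, hb₀⟩ := hne
    choose! d hd hd' using fun b' (hb' : b' * τ b' = A) => h90 b₀ b' hb₀ hb'
    refine Finite.of_injective
      (fun c : Cls π σ τ V A => cl (d (Quotient.out c : {b : I // b * τ b = A}))) ?_
    intro c c' hcc
    have h1 := (Quotient.out c : {b : I // b * τ b = A}).2
    have h2 := (Quotient.out c' : {b : I // b * τ b = A}).2
    obtain ⟨κ, hκ, h3⟩ := hcl _ (hd _ h1) _ (hd _ h2) hcc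
    rw [← Quotient.out_eq c, ← Quotient.out_eq c']
    refine Quotient.sound (s := orbSetoid π σ τ V A) ⟨κ * (σ κ)⁻¹, ⟨hW κ hκ, ?_⟩, ?_⟩
    · rw [map_mul, map_inv, hσ, mul_mul_mul_comm, ← mul_inv, mul_comm (σ κ) κ, mul_inv_cancel]
    · rw [hd' _ h2, hd' _ h1, h3, map_mul π, map_inv π, hπ, map_mul τ, mul_inv]
      simp only [mul_assoc, mul_comm, mul_left_comm]
  · have : IsEmpty (Cls π σ τ V A) := ⟨fun c => hne ⟨Quotient.out c⟩⟩
    infer_instance

end Abstract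

end Fermat.Agent.H33D
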