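import Fermat.Agent.H33DRay
import Fermat.Agent.H77ZAdj

/-!
# Conjugation and norms of fractional ideals in a quadratic extension (helper33, block (D) of S47)

`B / E` quadratic extension of number fields, `τ` the conjugation. `conj τ J` = conjugate
fractional ideal, `up n` = extension of a fractional ideal of `E`. The condition `N J = n` is
`J * conj τ J = up n`.
-/

set_option autoImplicit false

open IsDedekindDomain FractionalIdeal NumberField
open scoped nonZeroDivisors Pointwise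

namespace Fermat.Agent.H33D

section General

variable {R : Type*} [CommRing R] [IsDedekindDomain R] {K : Type*} [Field K] [Algebra R K]
  [IsFractionRing R K]

/-- the class number trick -/
theorem exists_pow_eq_spanSingleton [Finite (ClassGroup R)] {J : FractionalIdeal R⁰ K}
    (hJ : J ≠ 0) : ∃ h : ℕ, 0 < h ∧ ∃ x : Kˣ, J ^ h = spanSingleton R⁰ (x : K) := by
  refine ⟨Nat.card (ClassGroup R), Nat.card_pos, ?_⟩
  have h1 : ClassGroup.mk K ((Units.mk0 J hJ) ^ Nat.card (ClassGroup R)) = 1 := by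
    rw [map_pow, pow_card_eq_one']
  rw [H47.mk_eq_one_iff_mem_range] at h1
  obtain ⟨x, hx⟩ := h1
  refine ⟨x, ?_⟩
  have h2 := congrArg Units.val hx
  rw [coe_toPrincipalIdeal] at h2
  rw [h2, Units.val_pow_eq_pow_val, Units.val_mk0]

/-- roots of ideals are unique -/
theorem eq_of_pow_eq {I J : FractionalIdeal R⁰ K} (hI : I ≠ 0) (hJ : J ≠ 0) {h : ℕ} (hh : 0 < h)
    (e : I ^ h = J ^ h) : I = J := by
  refine H47.ext_count hI hJ fun v => ?_
  have h1 := congrArg (count K v) e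
  rw [count_pow, count_pow] at h1
  exact mul_left_cancel₀ (by exact_mod_cast hh.ne') h1

theorem count_inj_of_pow {h : ℕ} (hh : 0 < h) {a b : ℤ} (e : (h : ℤ) * a = h * b) : a = b :=
  mul_left_cancel₀ (by exact_mod_cast hh.ne') e

end General

section Conj

variable {E B : Type*} [Field E] [Field B] [NumberField B] [Algebra E B]

/-- conjugation on fractional ideals -/
noncomputable def conj (τ : B ≃ₐ[E] B) :
    FractionalIdeal (𝓞 B)⁰ B ≃+* FractionalIdeal (𝓞 B)⁰ B :=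
  FractionalIdeal.ringEquivOfRingEquiv B B (RingOfIntegers.mapRingEquiv (τ : B ≃+* B))

theorem conj_spanSingleton (τ : B ≃ₐ[E] B) (x : B) :
    conj τ (spanSingleton (𝓞 B)⁰ x) = spanSingleton (𝓞 B)⁰ (τ x) := by
  rw [conj, ringEquivOfRingEquiv_spanSingleton]
  congr 1
  obtain ⟨a, b, hb, rfl⟩ := IsFractionRing.div_surjective (A := 𝓞 B) x
  rw [map_div₀, map_div₀, IsFractionRing.ringEquivOfRingEquiv_algebraMap,
    IsFractionRing.ringEquivOfRingEquiv_algebraMap]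
  rfl

theorem conj_le_conj {τ : B ≃ₐ[E] B} {I J : FractionalIdeal (𝓞 B)⁰ B} :
    conj τ I ≤ conj τ J ↔ I ≤ J := by
  rw [← sup_eq_right, ← sup_eq_right, sup_eq_add, sup_eq_add, ← map_add, (conj τ).injective.eq_iff]

theorem apply_mem_conj {τ : B ≃ₐ[E] B} {J : FractionalIdeal (𝓞 B)⁰ B} {x : B} :
    τ x ∈ conj τ J ↔ x ∈ J := by
  rw [← spanSingleton_le_iff_mem, ← conj_spanSingleton, conj_le_conj, spanSingleton_le_iff_mem]

theorem mem_conj {τ : B ≃ₐ[E] B} {J : FractionalIdeal (𝓞 B)⁰ B} {x : B} :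
    x ∈ conj τ J ↔ τ.symm x ∈ J := by
  rw [← apply_mem_conj (τ := τ) (J := J) (x := τ.symm x), AlgEquiv.apply_symm_apply]

theorem conj_le_one {τ : B ≃ₐ[E] B} {J : FractionalIdeal (𝓞 B)⁰ B} :
    conj τ J ≤ 1 ↔ J ≤ 1 := by
  conv_lhs => rw [← map_one (conj τ)]
  exact conj_le_conj

theorem conj_conj {τ : B ≃ₐ[E] B} (hτ : ∀ x, τ (τ x) = x) (J : FractionalIdeal (𝓞 B)⁰ B) :
    conj τ (conj τ J) = J := by
  ext x
  rw [mem_conj, mem_conj]
  have h1 : ∀ x, τ.symm x = τ x := fun x => by rw [AlgEquiv.symm_apply_eq, hτ]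
  rw [h1, h1, hτ]

theorem conj_coe (τ : B ≃ₐ[E] B) (I : Ideal (𝓞 B)) :
    conj τ (I : FractionalIdeal (𝓞 B)⁰ B) = ((τ • I : Ideal (𝓞 B)) : FractionalIdeal (𝓞 B)⁰ B) := by
  ext x
  rw [mem_conj, mem_coeIdeal, mem_coeIdeal]
  constructor
  · rintro ⟨a, ha, hx⟩
    refine ⟨τ • a, (Ideal.smul_mem_pointwise_smul_iff).mpr ha, ?_⟩
    have : algebraMap (𝓞 B) B (τ • a) = τ (algebraMap (𝓞 B) B a) := rfl
    rw [this, hx, AlgEquiv.apply_symm_apply]
  · rintro ⟨a, ha, rfl⟩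
    refine ⟨τ⁻¹ • a, ?_, ?_⟩
    · rwa [← Ideal.smul_mem_pointwise_smul_iff (a := τ), smul_inv_smul]
    · rfl

theorem count_conj (τ : B ≃ₐ[E] B) (P : HeightOneSpectrum (𝓞 B)) (J : FractionalIdeal (𝓞 B)⁰ B) :
    count B (H47.smulPlace τ P) (conj τ J) = count B P J := by
  by_cases hJ : J = 0
  · rw [hJ, map_zero, count_zero, count_zero]
  obtain ⟨h, hh, x, hx⟩ := exists_pow_eq_spanSingleton hJ
  refine count_inj_of_pow hh ?_
  rw [← count_pow, ← count_pow, ← map_pow, hx, conj_spanSingleton, ← H47.ordHom_eq_count]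
  have h1 := H47.ordHom_smulPlace τ P x
  rw [H47.ordHom_eq_count, H47.ordHom_eq_count] at h1
  rw [H47.ordHom_eq_count]
  exact h1

end Conj

section Up

variable {E B : Type*} [Field E] [NumberField E] [Field B] [NumberField B] [Algebra E B]

variable (B) in
/-- extension of fractional ideals -/
noncomputable def up : FractionalIdeal (𝓞 E)⁰ E →+* FractionalIdeal (𝓞 B)⁰ B :=
  FractionalIdeal.extendedHom B (𝓞 B)

theorem up_spanSingleton (x : E) :
    up B (spanSingleton (𝓞 E)⁰ x) = spanSingleton (𝓞 B)⁰ (algebraMap E B x) := by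
  rw [up, extendedHom_spanSingleton]
  congr 1
  obtain ⟨a, b, hb, rfl⟩ := IsFractionRing.div_surjective (A := 𝓞 E) x
  rw [map_div₀, map_div₀, IsFractionRing.map, IsLocalization.map_eq, IsLocalization.map_eq]
  rfl

theorem up_coe (n : Ideal (𝓞 E)) : up B (n : FractionalIdeal (𝓞 E)⁰ E) =
    ((n.map (algebraMap (𝓞 E) (𝓞 B)) : Ideal (𝓞 B)) : FractionalIdeal (𝓞 B)⁰ B) :=
  extendedHom_coeIdeal_eq_map B (𝓞 B) n

theorem up_ne_zero {n : FractionalIdeal (𝓞 E)⁰ E} (hn : n ≠ 0) : up B n ≠ 0 := by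
  exact (extendedHom_eq_zero_iff B (𝓞 B)).not.mpr hn

theorem up_injective : Function.Injective (up B : FractionalIdeal (𝓞 E)⁰ E → _) :=
  extendedHom_injective (𝓞 E) E B (𝓞 B)

theorem up_le_one_iff {n : FractionalIdeal (𝓞 E)⁰ E} : up B n ≤ 1 ↔ n ≤ 1 :=
  extendedHom_le_one_iff B (𝓞 B)

theorem conj_up (τ : B ≃ₐ[E] B) (n : FractionalIdeal (𝓞 E)⁰ E) : conj τ (up B n) = up B n := by
  by_cases hn : n = 0
  · rw [hn, map_zero, map_zero]
  obtain ⟨h, hh, x, hx⟩ := exists_pow_eq_spanSingleton hn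
  refine eq_of_pow_eq ((_root_.map_ne_zero _).mpr (up_ne_zero hn)) (up_ne_zero hn) hh ?_
  rw [← map_pow, ← map_pow, hx, up_spanSingleton, conj_spanSingleton, AlgEquiv.commutes]

theorem count_up {v : HeightOneSpectrum (𝓞 E)} {P : HeightOneSpectrum (𝓞 B)}
    (hP : P ∈ H82.above B v) (n : FractionalIdeal (𝓞 E)⁰ E) :
    count B P (up B n) = v.asIdeal.ramificationIdx' P.asIdeal * count E v n := by
  by_cases hn : n = 0
  · rw [hn, map_zero, count_zero, count_zero, mul_zero]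
  obtain ⟨h, hh, x, hx⟩ := exists_pow_eq_spanSingleton hn
  refine count_inj_of_pow hh ?_
  have h1 := H47.ordHom_algebraMap hP x
  rw [H47.ordHom_eq_count, H47.ordHom_eq_count] at h1
  rw [← count_pow, mul_left_comm, ← count_pow, ← map_pow, hx, up_spanSingleton]
  exact h1

variable [IsGalois E B]

theorem span_mul_conj {τ : B ≃ₐ[E] B} (hdeg : Module.finrank E B = 2) (hτ : τ ≠ 1) (x : B) :
    spanSingleton (𝓞 B)⁰ x * conj τ (spanSingleton (𝓞 B)⁰ x) =
      up B (spanSingleton (𝓞 E)⁰ (Algebra.norm E x)) := by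
  rw [conj_spanSingleton, spanSingleton_mul_spanSingleton, up_spanSingleton,
    H77.Z.algebraMap_norm hdeg hτ]

omit [IsGalois E B] in
theorem relNorm_pow_principal {I : Ideal (𝓞 B)} {h : ℕ} {a : 𝓞 B}
    (ha : I ^ h = Ideal.span {a}) :
    Ideal.relNorm (𝓞 E) I ^ h = Ideal.span {Algebra.intNorm (𝓞 E) (𝓞 B) a} := by
  rw [← map_pow, ha, Ideal.relNorm_singleton]

/-- `N(I) O_B = I τ(I)` -/
theorem up_relNorm {τ : B ≃ₐ[E] B} (hdeg : Module.finrank E B = 2) (hτ : τ ≠ 1)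
    {I : Ideal (𝓞 B)} (hI : I ≠ 0) :
    up B ((Ideal.relNorm (𝓞 E) I : Ideal (𝓞 E)) : FractionalIdeal (𝓞 E)⁰ E) =
      (I : FractionalIdeal (𝓞 B)⁰ B) * conj τ I := by
  have hI' : (I : FractionalIdeal (𝓞 B)⁰ B) ≠ 0 := coeIdeal_ne_zero.mpr hI
  have hN : Ideal.relNorm (𝓞 E) I ≠ 0 := by
    rw [Ne, Ideal.zero_eq_bot, Ideal.relNorm_eq_bot_iff]
    exact hI
  obtain ⟨h, hh, x, hx⟩ := exists_pow_eq_spanSingleton hI'
  have h1 : (x : B) ∈ ((I ^ h : Ideal (𝓞 B)) : FractionalIdeal (𝓞 B)⁰ B) := by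
    rw [coeIdeal_pow, hx]
    exact mem_spanSingleton_self _ _
  obtain ⟨a, ha, hax⟩ := (mem_coeIdeal _).mp h1
  have h2 : I ^ h = Ideal.span {a} := by
    rw [← coeIdeal_inj (K := B), coeIdeal_pow, hx, coeIdeal_span_singleton, hax]
  refine eq_of_pow_eq (up_ne_zero (coeIdeal_ne_zero.mpr hN))
    (mul_ne_zero hI' ((_root_.map_ne_zero _).mpr hI')) hh ?_
  rw [← map_pow, ← coeIdeal_pow, relNorm_pow_principal h2, mul_pow, ← map_pow, hx,
    span_mul_conj hdeg hτ, coeIdeal_span_singleton, Algebra.algebraMap_intNorm (K := E) (L := B),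
    hax]

/-- integral ideals of norm `n` -/
theorem relNorm_eq_iff {τ : B ≃ₐ[E] B} (hdeg : Module.finrank E B = 2) (hτ : τ ≠ 1)
    {I : Ideal (𝓞 B)} (hI : I ≠ 0) {n : Ideal (𝓞 E)} :
    Ideal.relNorm (𝓞 E) I = n ↔
      (I : FractionalIdeal (𝓞 B)⁰ B) * conj τ I = up B (n : FractionalIdeal (𝓞 E)⁰ E) := by
  rw [← up_relNorm hdeg hτ hI, up_injective.eq_iff, coeIdeal_inj]

/-- `cf` as a sum over integral fractional ideals `K` with `K * conj τ K = up n` -/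
theorem cf_eq_finsum {τ : B ≃ₐ[E] B} (hdeg : Module.finrank E B = 2) (hτ : τ ≠ 1)
    (χ : Ideal (𝓞 B) →*₀ ℂ) {n : FractionalIdeal (𝓞 E)⁰ E} (hn : n ≠ 0) :
    cf χ n = ∑ᶠ J ∈ {J : FractionalIdeal (𝓞 B)⁰ B | J ≤ 1 ∧ J * conj τ J = up B n}, chiF χ J := by
  by_cases h1 : n ≤ 1
  · obtain ⟨n₀, rfl⟩ := le_one_iff_exists_coeIdeal.mp h1
    have hn0 : n₀ ≠ 0 := coeIdeal_ne_zero.mp hn
    have hne : ∀ I : Ideal (𝓞 B), I ∈ normSet (S := 𝓞 B) (𝓞 E) n₀ → I ≠ 0 := by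
      rintro I hI rfl
      rw [mem_normSet, map_zero] at hI
      exact hn0 hI.symm
    rw [cf_coe, coef]
    refine finsum_mem_eq_of_bijOn (fun I : Ideal (𝓞 B) => (I : FractionalIdeal (𝓞 B)⁰ B)) ?_ ?_
    · refine ⟨fun I hI => ⟨coeIdeal_le_one, ?_⟩, fun I _ J _ h => coeIdeal_injective h, ?_⟩
      · exact (relNorm_eq_iff hdeg hτ (hne I hI)).mp hI
      · rintro J ⟨hJ1, hJ2⟩
        obtain ⟨I, rfl⟩ := le_one_iff_exists_coeIdeal.mp hJ1
        have hI0 : I ≠ 0 := by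
          rintro rfl
          rw [Ideal.zero_eq_bot, coeIdeal_bot, zero_mul] at hJ2
          exact up_ne_zero hn hJ2.symm
        exact ⟨I, (relNorm_eq_iff hdeg hτ hI0).mpr hJ2, rfl⟩
    · intro I hI
      exact (chiF_coe χ (hne I hI)).symm
  · rw [cf_of_not_le χ h1]
    have h2 : {J : FractionalIdeal (𝓞 B)⁰ B | J ≤ 1 ∧ J * conj τ J = up B n} = ∅ := by
      ext J
      simp only [Set.mem_ofPred_eq, Set.mem_empty_iff_false, iff_false]
      rintro ⟨hJ1, hJ2⟩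
      refine h1 ((up_le_one_iff (B := B)).mp ?_)
      rw [← hJ2]
      exact mul_le_one' hJ1 (conj_le_one.mpr hJ1)
    rw [h2, finsum_mem_empty]

/-- finiteness -/
theorem finite_normSet_frac {τ : B ≃ₐ[E] B} (hdeg : Module.finrank E B = 2) (hτ : τ ≠ 1)
    {n : FractionalIdeal (𝓞 E)⁰ E} (hn : n ≠ 0) :
    {J : FractionalIdeal (𝓞 B)⁰ B | J ≤ 1 ∧ J * conj τ J = up B n}.Finite := by
  by_cases h1 : n ≤ 1
  · obtain ⟨n₀, rfl⟩ := le_one_iff_exists_coeIdeal.mp h1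
    have hn0 : n₀ ≠ 0 := coeIdeal_ne_zero.mp hn
    refine ((finite_normSet (S := 𝓞 B) hn0).image
      (fun I : Ideal (𝓞 B) => (I : FractionalIdeal (𝓞 B)⁰ B))).subset ?_
    rintro J ⟨hJ1, hJ2⟩
    obtain ⟨I, rfl⟩ := le_one_iff_exists_coeIdeal.mp hJ1
    have hI0 : I ≠ 0 := by
      rintro rfl
      rw [Ideal.zero_eq_bot, coeIdeal_bot, zero_mul] at hJ2
      exact up_ne_zero hn hJ2.symm
    exact ⟨I, (relNorm_eq_iff hdeg hτ hI0).mpr hJ2, rfl⟩
  · refine Set.Finite.subset Set.finite_empty ?_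
    rintro J ⟨hJ1, hJ2⟩
    refine h1 ((up_le_one_iff (B := B)).mp ?_)
    rw [← hJ2]
    exact mul_le_one' hJ1 (conj_le_one.mpr hJ1)

end Up

end Fermat.Agent.H33D
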