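import Fermat.Agent.H33DRay

/-!
# The modulus given by a finite set of places and an exponent (helper33, block (D) of S47)
-/

set_option autoImplicit false

open IsDedekindDomain FractionalIdeal WithZero
open scoped nonZeroDivisors

namespace Fermat.Agent.H33D

variable {R : Type*} [CommRing R] [IsDedekindDomain R]

/-- the ideal of the elements of order at least `n` at all places of `T` -/
def mT (T : Set (HeightOneSpectrum R)) (n : ℕ) : Ideal R where
  carrier := {a | ∀ P ∈ T, P.intValuation a ≤ exp (-(n : ℤ))}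
  zero_mem' P _ := by rw [map_zero]; exact zero_le
  add_mem' ha hb P hP := (Valuation.map_add _ _ _).trans (max_le (ha P hP) (hb P hP))
  smul_mem' c a ha P hP := by
    rw [smul_eq_mul, map_mul]
    exact (mul_le_mul_left (P.intValuation_le_one c) _).trans (by rw [one_mul]; exact ha P hP)

variable {T : Set (HeightOneSpectrum R)} {n : ℕ}

theorem mem_mT_iff_pow {a : R} : a ∈ mT T n ↔ ∀ P ∈ T, a ∈ P.asIdeal ^ n :=
  forall₂_congr fun P _ => P.intValuation_le_pow_iff_mem a n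

theorem mT_le_pow {P : HeightOneSpectrum R} (hP : P ∈ T) : mT T n ≤ P.asIdeal ^ n :=
  fun _ ha => mem_mT_iff_pow.mp ha P hP

theorem prod_le_mT (hT : T.Finite) : ∏ Q ∈ hT.toFinset, Q.asIdeal ^ n ≤ mT T n := by
  classical
  intro a ha
  rw [mem_mT_iff_pow]
  intro P hP
  exact Ideal.le_of_dvd (Finset.dvd_prod_of_mem (fun Q : HeightOneSpectrum R => Q.asIdeal ^ n)
    (hT.mem_toFinset.mpr hP)) ha

theorem mT_ne_zero (hT : T.Finite) : mT T n ≠ 0 := by
  intro h
  have h1 := prod_le_mT (n := n) hT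
  rw [h, Ideal.zero_eq_bot, le_bot_iff, ← Ideal.zero_eq_bot, Finset.prod_eq_zero_iff] at h1
  obtain ⟨Q, -, hQ⟩ := h1
  exact pow_ne_zero n Q.ne_bot hQ

theorem mem_of_mT_le (hT : T.Finite) {P : HeightOneSpectrum R} (h : mT T n ≤ P.asIdeal) :
    P ∈ T := by
  classical
  have h1 := (prod_le_mT (n := n) hT).trans h
  have h2 := P.isPrime
  rw [Ideal.IsPrime.prod_le h2] at h1
  obtain ⟨Q, hQ, h3⟩ := h1
  have h4 : Q.asIdeal ≤ P.asIdeal := Ideal.IsPrime.le_of_pow_le h3
  have h5 : Q = P := HeightOneSpectrum.ext (Q.isMaximal.eq_of_le P.isPrime.ne_top h4)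
  rw [← h5]
  exact hT.mem_toFinset.mp hQ

theorem mT_le_of_mem (hn : 0 < n) {P : HeightOneSpectrum R} (hP : P ∈ T) :
    mT T n ≤ P.asIdeal :=
  (mT_le_pow hP).trans (Ideal.pow_le_self hn.ne')

theorem le_multiplicity_mT (hT : T.Finite) {P : HeightOneSpectrum R} (hP : P ∈ T) :
    n ≤ multiplicity P.asIdeal (mT T n) := by
  refine (FiniteMultiplicity.of_prime_left P.prime (mT_ne_zero hT)).le_multiplicity_of_pow_dvd ?_
  exact Ideal.dvd_iff_le.mpr (mT_le_pow hP)

variable {K : Type*} [Field K] [Algebra R K] [IsFractionRing R K]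

theorem mem_mT {a : R} :
    a ∈ mT T n ↔ ∀ P ∈ T, P.valuation K (algebraMap R K a) ≤ exp (-(n : ℤ)) :=
  forall₂_congr fun P _ => by rw [HeightOneSpectrum.valuation_of_algebraMap]

/-- denominators `≡ 1` -/
theorem exists_denomT (hT : T.Finite) (n : ℕ) {x : K} (hx : x ≠ 0)
    (h : ∀ P ∈ T, P.valuation K x ≤ 1) :
    ∃ b a : R, (∀ P ∈ T, P.valuation K (algebraMap R K b - 1) ≤ exp (-(n : ℤ))) ∧
      algebraMap R K b * x = algebraMap R K a := by
  obtain ⟨b, a, hb, hab⟩ := exists_denom (m := mT T n) hx (fun v hv => by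
    have h1 := h v (mem_of_mT_le hT hv)
    rw [count_spanSingleton v hx, ← exp_zero, exp_le_exp] at h1
    omega)
  refine ⟨b, a, fun P hP => ?_, hab⟩
  have h2 := mem_mT (K := K).mp hb P hP
  rwa [map_sub, map_one] at h2

theorem valuation_eq_one_of_congr (hn : 0 < n) {P : HeightOneSpectrum R} {x : K}
    (h : P.valuation K (x - 1) ≤ exp (-(n : ℤ))) : P.valuation K x = 1 := by
  have h2 : P.valuation K (x - 1) < P.valuation K (1 : K) := by
    rw [map_one, ← exp_zero]
    refine h.trans_lt ?_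
    rw [exp_lt_exp]
    omega
  have h3 := Valuation.map_add_eq_of_lt_right (P.valuation K) h2
  rwa [sub_add_cancel, map_one] at h3

/-- `chiF` is trivial on principal fractional ideals with generator `≡ 1` -/
theorem chiF_of_congr (hT : T.Finite) (hn : 0 < n) {χ : Ideal R →*₀ ℂ}
    (h1 : ∀ a : R, (∀ P ∈ T, P.valuation K (algebraMap R K a - 1) ≤ exp (-(n : ℤ))) →
      χ (Ideal.span {a}) = 1) {x : K} (hx : x ≠ 0)
    (hv : ∀ P ∈ T, P.valuation K (x - 1) ≤ exp (-(n : ℤ))) :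
    ChiGood χ (spanSingleton R⁰ x) ∧ chiF χ (spanSingleton R⁰ x) = 1 := by
  have hv1 : ∀ P ∈ T, P.valuation K x = 1 := fun P hP => valuation_eq_one_of_congr hn (hv P hP)
  obtain ⟨b, a, hb, hab⟩ := exists_denomT hT n hx (fun P hP => (hv1 P hP).le)
  have hχ0 : χ (Ideal.span {(0 : R)}) = 0 := by
    rw [Ideal.span_singleton_eq_bot.mpr rfl]
    exact map_zero χ
  have hb0 : b ≠ 0 := by
    rintro rfl
    have := h1 _ hb
    rw [hχ0] at this
    exact zero_ne_one this
  have hb0' : algebraMap R K b ≠ 0 := by rwa [Ne, IsFractionRing.to_map_eq_zero_iff]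
  have ha : ∀ P ∈ T, P.valuation K (algebraMap R K a - 1) ≤ exp (-(n : ℤ)) := by
    intro P hP
    have h2 : algebraMap R K a - 1 = algebraMap R K b * (x - 1) + (algebraMap R K b - 1) := by
      rw [← hab]; ring
    rw [h2]
    refine (Valuation.map_add _ _ _).trans (max_le ?_ (hb P hP))
    rw [map_mul, valuation_eq_one_of_congr hn (hb P hP), one_mul]
    exact hv P hP
  have hχb := h1 b hb
  have hχa := h1 a ha
  have hgb : ChiGood χ (spanSingleton R⁰ (algebraMap R K b)) := by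
    rw [← coeIdeal_span_singleton]
    exact chiGood_coe (by rw [hχb]; exact one_ne_zero)
  have hga : ChiGood χ (spanSingleton R⁰ (algebraMap R K a)) := by
    rw [← coeIdeal_span_singleton]
    exact chiGood_coe (by rw [hχa]; exact one_ne_zero)
  have hxe : spanSingleton R⁰ x = spanSingleton R⁰ (algebraMap R K a) *
      (spanSingleton R⁰ (algebraMap R K b))⁻¹ := by
    rw [spanSingleton_inv, spanSingleton_mul_spanSingleton, ← hab, mul_right_comm,
      mul_inv_cancel₀ hb0', one_mul]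
  rw [hxe]
  refine ⟨hga.mul hgb.inv, ?_⟩
  rw [chiF_mul hga hgb.inv, chiF_inv hgb, ← coeIdeal_span_singleton, ← coeIdeal_span_singleton,
    chiF_coe, chiF_coe, hχb, hχa, inv_one, mul_one]
  · rwa [Ne, Ideal.zero_eq_bot, Ideal.span_singleton_eq_bot]
  · rw [Ne, Ideal.zero_eq_bot, Ideal.span_singleton_eq_bot]
    rintro rfl
    rw [hχ0] at hχa
    exact zero_ne_one hχa

/-- finiteness of ray classes -/
theorem exists_finite_classesT [Finite (ClassGroup R)] (hT : T.Finite) (hn : 0 < n)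
    [Finite (R ⧸ mT T n)] :
    ∃ cl : FractionalIdeal R⁰ K → ClassGroup R × (R ⧸ mT T n), ∀ d d' : FractionalIdeal R⁰ K,
      d ≠ 0 → d' ≠ 0 → (∀ P ∈ T, count K P d = 0) → (∀ P ∈ T, count K P d' = 0) → cl d = cl d' →
      ∃ κ : Kˣ, (∀ P ∈ T, P.valuation K (κ : K) = 1 ∧
        P.valuation K ((κ : K) - 1) ≤ exp (-(n : ℤ))) ∧ d' = spanSingleton R⁰ (κ : K) * d := by
  obtain ⟨cl, hcl⟩ := exists_finite_classes (K := K) (mT_ne_zero (n := n) hT)
  refine ⟨cl, fun d d' hd hd' h h' heq => ?_⟩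
  obtain ⟨κ, h1, h2⟩ := hcl d d' ⟨hd, fun v hv => h v (mem_of_mT_le hT hv)⟩
    ⟨hd', fun v hv => h' v (mem_of_mT_le hT hv)⟩ heq
  refine ⟨κ, fun P hP => ?_, h2⟩
  obtain ⟨h3, h4⟩ := h1 P (mT_le_of_mem hn hP)
  refine ⟨h3, h4.trans ?_⟩
  rw [exp_le_exp]
  have := le_multiplicity_mT (n := n) hT hP
  omega

end Fermat.Agent.H33D
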