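import Fermat.Agent.H71UDefs
import Fermat.Agent.H33DMod
import Fermat.Agent.H33DBij
import Fermat.Agent.H33DConj

/-!
# Unfolding, arithmetic part, in the language of `H71UDefs` (helper33, block (D) of S47)
-/

set_option autoImplicit false
set_option linter.unusedSectionVars false

open IsDedekindDomain FractionalIdeal NumberField WithZero
open scoped nonZeroDivisors Pointwise

noncomputable section

namespace Fermat.Agent.H33D

open Fermat.Agent.H71D Fermat.Agent.H71U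
open Fermat.Agent.H47 (smulPlace below)
open Fermat.Agent.H82 (above aboveSet NonSplit congr)

variable {E B : Type*} [Field E] [NumberField E] [Field B] [NumberField B] [Algebra E B]
  {J : Type*} [Fintype J] (d : DD E B J)

/-- the places above `S` -/
abbrev TS : Set (HeightOneSpectrum (𝓞 B)) := aboveSet B (d.S : Set (HeightOneSpectrum (𝓞 E)))

theorem finite_TS : (TS d).Finite := H65.finite_aboveSet d.S.finite_toSet

/-- **the modulus** -/
def mS : Ideal (𝓞 B) := mT (TS d) d.n2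

theorem mS_ne_bot : mS d ≠ ⊥ := mT_ne_zero (finite_TS d)

theorem mem_mS {a : 𝓞 B} :
    a ∈ mS d ↔ ∀ P ∈ TS d, P.valuation B (a : B) ≤ exp (-(d.n2 : ℤ)) := mem_mT

/-- the fractional ideals prime to `S` -/
def IT : Subgroup (FI B) where
  carrier := {A | ∀ P ∈ TS d, cE A P = 0}
  one_mem' P _ := cE_one P
  mul_mem' ha hb P hP := by rw [cE_mul, ha P hP, hb P hP, add_zero]
  inv_mem' ha P hP := by rw [cE_inv, ha P hP, neg_zero]

/-- the units at `S` -/
def UT : Subgroup Bˣ where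
  carrier := {x | ∀ P ∈ TS d, P.valuation B (x : B) = 1}
  one_mem' P _ := by rw [Units.val_one, map_one]
  mul_mem' ha hb P hP := by rw [Units.val_mul, map_mul, ha P hP, hb P hP, one_mul]
  inv_mem' ha P hP := by rw [Units.val_inv_eq_inv_val, map_inv₀, ha P hP, inv_one]

theorem cE_principal (x : Bˣ) (P : HeightOneSpectrum (𝓞 B)) :
    P.valuation B (x : B) = exp (-cE (toPrincipalIdeal (𝓞 B) B x) P) := by
  rw [cE, coe_toPrincipalIdeal, ← count_spanSingleton P x.ne_zero]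

/-- principal ideals -/
def piT : UT d →* IT d :=
  ((toPrincipalIdeal (𝓞 B) B).comp (UT d).subtype).codRestrict (IT d) fun x P hP => by
    have h := x.2 P hP
    rw [cE_principal, ← exp_zero, exp_inj, neg_eq_zero] at h
    exact h

theorem coe_piT (x : UT d) : ((piT d x : FI B) : FractionalIdeal (𝓞 B)⁰ B) =
    spanSingleton (𝓞 B)⁰ ((x : Bˣ) : B) := coe_toPrincipalIdeal _

variable {d}

theorem smulPlace_mem_TS {P : HeightOneSpectrum (𝓞 B)} (h : P ∈ TS d) :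
    smulPlace d.tau P ∈ TS d := (H47.smulPlace_mem_aboveSet_iff d.tau).mpr h

section Good

theorem tau_tau (hd : d.Good) (x : B) : d.tau (d.tau x) = x :=
  have := H73U.isGalois d.tau hd.tau_ne hd.deg
  H77.Z.aut_apply_apply hd.deg hd.tau_ne x

theorem tau_mul_self (hd : d.Good) : d.tau * d.tau = 1 :=
  have := H73U.isGalois d.tau hd.tau_ne hd.deg
  H77.Z.aut_mul_self hd.deg hd.tau_ne

theorem valuation_tau (hd : d.Good) (P : HeightOneSpectrum (𝓞 B)) (x : B) :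
    P.valuation B (d.tau x) = (smulPlace d.tau P).valuation B x :=
  have := H73U.isGalois d.tau hd.tau_ne hd.deg
  H77.Z.valuation_smulPlace' d.tau P x (tau_mul_self hd)

theorem smulPlace_smulPlace (hd : d.Good) (P : HeightOneSpectrum (𝓞 B)) :
    smulPlace d.tau (smulPlace d.tau P) = P := by
  apply HeightOneSpectrum.ext
  rw [H47.smulPlace_asIdeal, H47.smulPlace_asIdeal, smul_smul, tau_mul_self hd, one_smul]

theorem norm_mul_tau (hd : d.Good) (x : B) :
    x * d.tau x = algebraMap E B (Algebra.norm E x) :=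
  have := H73U.isGalois d.tau hd.tau_ne hd.deg
  (H77.Z.algebraMap_norm hd.deg hd.tau_ne x).symm

theorem count_conj' (hd : d.Good) (P : HeightOneSpectrum (𝓞 B)) (A : FractionalIdeal (𝓞 B)⁰ B) :
    count B P (conj d.tau A) = count B (smulPlace d.tau P) A := by
  rw [← count_conj d.tau (smulPlace d.tau P), smulPlace_smulPlace hd]

end Good

variable (d) in
/-- conjugation on units -/
def sigT (hd : d.Good) : UT d →* UT d :=
  ((Units.map ((d.tau : B →+* B) : B →* B)).comp (UT d).subtype).codRestrict (UT d)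
    fun x P hP => by
      change P.valuation B (d.tau ((x : Bˣ) : B)) = 1
      rw [valuation_tau hd]
      exact x.2 _ (smulPlace_mem_TS hP)

theorem coe_sigT (hd : d.Good) (x : UT d) :
    ((sigT d hd x : Bˣ) : B) = d.tau ((x : Bˣ) : B) := rfl

variable (d) in
/-- conjugation on ideals -/
def tauT (hd : d.Good) : IT d →* IT d :=
  ((Units.map (MonoidHomClass.toMonoidHom (conj d.tau))).comp (IT d).subtype).codRestrict (IT d) fun A P hP => by
      change count B P (conj d.tau ((A : FI B) : FractionalIdeal (𝓞 B)⁰ B)) = 0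
      rw [count_conj' hd]
      exact A.2 _ (smulPlace_mem_TS hP)

theorem coe_tauT (hd : d.Good) (A : IT d) :
    ((tauT d hd A : FI B) : FractionalIdeal (𝓞 B)⁰ B) = conj d.tau ((A : FI B) : _) := rfl

theorem IT_ext {A A' : IT d} (h : ((A : FI B) : FractionalIdeal (𝓞 B)⁰ B) = (A' : FI B)) :
    A = A' := Subtype.ext (Units.ext h)

theorem UT_ext {x y : UT d} (h : ((x : Bˣ) : B) = (y : Bˣ)) : x = y :=
  Subtype.ext (Units.ext h)

theorem pi_sig (hd : d.Good) (x : UT d) : piT d (sigT d hd x) = tauT d hd (piT d x) := by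
  apply IT_ext
  rw [coe_piT, coe_tauT, coe_piT, coe_sigT, conj_spanSingleton]

theorem sig_sig (hd : d.Good) (x : UT d) : sigT d hd (sigT d hd x) = x := by
  apply UT_ext
  rw [coe_sigT, coe_sigT, tau_tau hd]

theorem tauT_tauT (hd : d.Good) (A : IT d) : tauT d hd (tauT d hd A) = A := by
  apply IT_ext
  rw [coe_tauT, coe_tauT, conj_conj (tau_tau hd)]

variable (d) in
/-- the group `V` -/
def VT : Subgroup (UT d) :=
  ((⨅ P ∈ TS d, congr P d.n2) ⊓ d.US.comap (nmU E B)).comap (UT d).subtype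

theorem mem_VT {x : UT d} : x ∈ VT d ↔
    (∀ P ∈ TS d, P.valuation B (((x : Bˣ) : B) - 1) ≤ exp (-(d.n2 : ℤ))) ∧
      nmU E B (x : Bˣ) ∈ d.US := by
  rw [VT, Subgroup.mem_comap, Subgroup.mem_inf, Subgroup.mem_comap]
  refine and_congr ?_ Iff.rfl
  simp only [Subgroup.mem_iInf]
  refine forall₂_congr fun P hP => ?_
  rw [Subgroup.coe_subtype, H82.mem_congr]
  exact ⟨fun h => h.2, fun h => ⟨x.2 P hP, h⟩⟩

theorem coe_mem_VS_iff {x : UT d} : ((x : Bˣ) : B) ∈ d.VS ↔ x ∈ VT d := by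
  rw [DD.mem_VS, mem_VT]
  refine and_congr Iff.rfl ⟨?_, fun h => ⟨_, h, rfl⟩⟩
  rintro ⟨α, hα, h⟩
  have : nmU E B (x : Bˣ) = α := Units.ext h.symm
  rwa [this]

theorem mem_UT_of_mem_VS (hd : d.Good) {x : Bˣ} (h : (x : B) ∈ d.VS) : x ∈ UT d :=
  fun P hP => valuation_eq_one_of_congr hd.n2_pos (h.1 P hP)

theorem sig_mem_VT (hd : d.Good) (x : UT d) (h : x ∈ VT d) : sigT d hd x ∈ VT d := by
  rw [mem_VT] at h ⊢
  refine ⟨fun P hP => ?_, ?_⟩
  · rw [coe_sigT]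
    have : d.tau ((x : Bˣ) : B) - 1 = d.tau (((x : Bˣ) : B) - 1) := by rw [map_sub, map_one]
    rw [this, valuation_tau hd]
    exact h.1 _ (smulPlace_mem_TS hP)
  · have h2 : nmU E B (sigT d hd x : Bˣ) = nmU E B (x : Bˣ) := by
      apply Units.ext
      exact Algebra.norm_eq_of_algEquiv d.tau ((x : Bˣ) : B)
    rw [h2]
    exact h.2

variable (d) in
/-- the integral ideals -/
def IntT : Set (IT d) := {A | ((A : FI B) : FractionalIdeal (𝓞 B)⁰ B) ≤ 1}

/-- the group `W` of the ray classes -/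
def WT (d : DD E B J) : Subgroup (UT d) := (⨅ P ∈ TS d, congr P d.n2).comap (UT d).subtype

theorem mem_WT {x : UT d} : x ∈ WT d ↔
    ∀ P ∈ TS d, P.valuation B (((x : Bˣ) : B) - 1) ≤ exp (-(d.n2 : ℤ)) := by
  rw [WT, Subgroup.mem_comap]
  simp only [Subgroup.mem_iInf]
  refine forall₂_congr fun P hP => ?_
  rw [Subgroup.coe_subtype, H82.mem_congr]
  exact ⟨fun h => h.2, fun h => ⟨x.2 P hP, h⟩⟩

theorem sig_mem_WT (hd : d.Good) {x : UT d} (h : x ∈ WT d) : sigT d hd x ∈ WT d := by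
  rw [mem_WT] at h ⊢
  intro P hP
  rw [coe_sigT]
  have : d.tau ((x : Bˣ) : B) - 1 = d.tau (((x : Bˣ) : B) - 1) := by rw [map_sub, map_one]
  rw [this, valuation_tau hd]
  exact h _ (smulPlace_mem_TS hP)

theorem nmU_sig (hd : d.Good) (x : UT d) : nmU E B (sigT d hd x : Bˣ) = nmU E B (x : Bˣ) := by
  apply Units.ext
  exact Algebra.norm_eq_of_algEquiv d.tau ((x : Bˣ) : B)

theorem div_sig_mem (hd : d.Good) (κ : UT d) (h : κ ∈ WT d) : κ * (sigT d hd κ)⁻¹ ∈ VT d := by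
  have h1 : κ * (sigT d hd κ)⁻¹ ∈ WT d := (WT d).mul_mem h ((WT d).inv_mem (sig_mem_WT hd h))
  rw [mem_VT]
  refine ⟨mem_WT.mp h1, ?_⟩
  have h2 : nmU E B ((κ * (sigT d hd κ)⁻¹ : UT d) : Bˣ) = 1 := by
    rw [Subgroup.coe_mul, Subgroup.coe_inv, map_mul, map_inv, nmU_sig, mul_inv_cancel]
  rw [h2]
  exact one_mem _

/-- Hilbert 90 for ideals -/
theorem h90T (hd : d.Good) {A b b' : IT d} (h : b * tauT d hd b = A)
    (h' : b' * tauT d hd b' = A) : ∃ D : IT d, b' = D * (tauT d hd D)⁻¹ * b := by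
  have hc : (b' * b⁻¹) * tauT d hd (b' * b⁻¹) = 1 := by
    rw [map_mul, map_inv, mul_mul_mul_comm, h', ← mul_inv, h, mul_inv_cancel]
  set c : IT d := b' * b⁻¹ with hcdef
  have hb' : b' = c * b := by rw [hcdef, inv_mul_cancel_right]
  set C : FractionalIdeal (𝓞 B)⁰ B := ((c : FI B) : FractionalIdeal (𝓞 B)⁰ B) with hC
  have hC0 : C ≠ 0 := (c : FI B).ne_zero
  have hCC : C * conj d.tau C = 1 := by
    exact congrArg (fun x : IT d => ((x : FI B) : FractionalIdeal (𝓞 B)⁰ B)) hc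
  have hCinv : conj d.tau C = C⁻¹ := eq_inv_of_mul_eq_one_right hCC
  have hs0 : (1 : FractionalIdeal (𝓞 B)⁰ B) + C⁻¹ ≠ 0 := by
    intro h
    have h1 : (1 : FractionalIdeal (𝓞 B)⁰ B) ≤ 0 := by
      rw [← h, ← sup_eq_add]
      exact le_sup_left
    exact one_ne_zero (FractionalIdeal.le_zero_iff.mp h1)
  have hs1 : (1 : FractionalIdeal (𝓞 B)⁰ B) + C ≠ 0 := by
    intro h
    have h1 : (1 : FractionalIdeal (𝓞 B)⁰ B) ≤ 0 := by
      rw [← h, ← sup_eq_add]
      exact le_sup_left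
    exact one_ne_zero (FractionalIdeal.le_zero_iff.mp h1)
  have hcount : ∀ P ∈ TS d, cE (Units.mk0 _ (inv_ne_zero hs0)) P = 0 := by
    intro P hP
    have h1 : count B P C = 0 := c.2 P hP
    rw [cE, Units.val_mk0, count_inv, count_add (one_ne_zero : (1 : FractionalIdeal (𝓞 B)⁰ B) ≠ 0)
      (inv_ne_zero hC0), count_inv, h1, count_one]
    simp
  obtain ⟨D, hD⟩ : ∃ D : IT d, ((D : FI B) : FractionalIdeal (𝓞 B)⁰ B) =
      ((1 : FractionalIdeal (𝓞 B)⁰ B) + C⁻¹)⁻¹ := ⟨⟨Units.mk0 _ (inv_ne_zero hs0), hcount⟩, rfl⟩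
  have h1 : c = D * (tauT d hd D)⁻¹ := by
    rw [eq_mul_inv_iff_mul_eq]
    apply IT_ext
    change C * conj d.tau ((D : FI B) : FractionalIdeal (𝓞 B)⁰ B) =
      ((D : FI B) : FractionalIdeal (𝓞 B)⁰ B)
    rw [hD, map_inv₀, map_add, map_one, map_inv₀, hCinv, inv_inv]
    refine eq_inv_of_mul_eq_one_left ?_
    rw [mul_right_comm, mul_add, mul_one, mul_inv_cancel₀ hC0, add_comm C, mul_inv_cancel₀ hs1]
  exact ⟨D, by rw [hb', h1]⟩

theorem finite_Cls (hd : d.Good) (A : IT d) :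
    Finite (Cls (piT d) (sigT d hd) (tauT d hd) (VT d) A) := by
  have hT := finite_TS d
  have : Finite (𝓞 B ⧸ mT (TS d) d.n2) := Ideal.finiteQuotientOfFreeOfNeBot _ (mT_ne_zero hT)
  obtain ⟨cl, hcl⟩ := exists_finite_classesT (K := B) hT hd.n2_pos
  refine finite_cls (D := Set.univ) (W := WT d) (pi_sig hd) (sig_sig hd)
    (div_sig_mem hd) (fun b : IT d => cl ((b : FI B) : FractionalIdeal (𝓞 B)⁰ B)) ?_ ?_
  · intro D _ D' _ heq
    obtain ⟨κ, h1, h2⟩ := hcl _ _ (D : FI B).ne_zero (D' : FI B).ne_zero D.2 D'.2 heq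
    refine ⟨⟨κ, fun P hP => (h1 P hP).1⟩, mem_WT.mpr fun P hP => (h1 P hP).2, ?_⟩
    apply IT_ext
    rw [Subgroup.coe_mul, Units.val_mul, coe_piT]
    exact h2
  · intro b b' h h'
    obtain ⟨D, hD⟩ := h90T hd h h'
    exact ⟨D, Set.mem_univ _, hD⟩

/-! ### Norms -/

theorem count_up_unr (hd : d.Good) {P : HeightOneSpectrum (𝓞 B)} (hP : P ∉ TS d)
    (n : FractionalIdeal (𝓞 E)⁰ E) : count B P (up B n) = count E (below E P) n := by
  have hv : below E P ∉ d.S := fun h => hP ⟨_, h, H47.mem_above_below P⟩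
  rw [count_up (H47.mem_above_below P), hd.unr _ hv P (H47.mem_above_below P), Nat.cast_one,
    one_mul]

theorem count_up_S {n : FI E} (hn : ∀ w ∈ d.S, cE n w = 0) {P : HeightOneSpectrum (𝓞 B)}
    (hP : P ∈ TS d) : count B P (up B (n : FractionalIdeal (𝓞 E)⁰ E)) = 0 := by
  obtain ⟨v, hv, hPv⟩ := hP
  have h := hn v hv
  rw [cE] at h
  rw [count_up hPv, h, mul_zero]

/-- extension of ideals prime to `S` -/
def upT (n : FI E) (hn : ∀ w ∈ d.S, cE n w = 0) : IT d :=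
  ⟨Units.map (MonoidHomClass.toMonoidHom (up B)) n, fun _ hP => count_up_S hn hP⟩

theorem coe_upT (n : FI E) (hn : ∀ w ∈ d.S, cE n w = 0) :
    ((upT n hn : FI B) : FractionalIdeal (𝓞 B)⁰ B) = up B (n : FractionalIdeal (𝓞 E)⁰ E) := rfl

theorem tauT_upT (hd : d.Good) (n : FI E) (hn : ∀ w ∈ d.S, cE n w = 0) :
    tauT d hd (upT n hn) = upT n hn := by
  apply IT_ext
  rw [coe_tauT, coe_upT, conj_up]

theorem smulPlace_mem_TS_iff {P : HeightOneSpectrum (𝓞 B)} :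
    smulPlace d.tau P ∈ TS d ↔ P ∈ TS d := H47.smulPlace_mem_aboveSet_iff d.tau

/-- the two forms of the norm condition -/
theorem isNm_iff (hd : d.Good) {n : FI E} (hn : ∀ w ∈ d.S, cE n w = 0) {h : FI B} :
    IsNm d.S d.tau h (cE n) ↔ ∃ hh : h ∈ IT d, (⟨h, hh⟩ : IT d) * tauT d hd ⟨h, hh⟩ = upT n hn := by
  constructor
  · intro hN
    refine ⟨hN.prime, ?_⟩
    apply IT_ext
    change (h : FractionalIdeal (𝓞 B)⁰ B) * conj d.tau (h : FractionalIdeal (𝓞 B)⁰ B) =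
      up B (n : FractionalIdeal (𝓞 E)⁰ E)
    refine H47.ext_count (mul_ne_zero h.ne_zero ((_root_.map_ne_zero _).mpr h.ne_zero))
      (up_ne_zero n.ne_zero) fun P => ?_
    rw [count_mul B P h.ne_zero ((_root_.map_ne_zero _).mpr h.ne_zero), count_conj' hd]
    by_cases hP : P ∈ TS d
    · rw [count_up_S hn hP]
      have h1 := hN.prime P hP
      have h2 := hN.prime _ (smulPlace_mem_TS hP)
      rw [cE] at h1 h2
      rw [h1, h2, add_zero]
    · rw [count_up_unr hd hP]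
      exact hN.norm P hP
  · rintro ⟨hh, hN⟩
    refine ⟨hh, fun P hP => ?_⟩
    have h1 : (h : FractionalIdeal (𝓞 B)⁰ B) * conj d.tau (h : FractionalIdeal (𝓞 B)⁰ B) =
      up B (n : FractionalIdeal (𝓞 E)⁰ E) :=
      congrArg (fun x : IT d => ((x : FI B) : FractionalIdeal (𝓞 B)⁰ B)) hN
    have h2 := congrArg (count B P) h1
    rw [count_mul B P h.ne_zero ((_root_.map_ne_zero _).mpr h.ne_zero), count_conj' hd,
      count_up_unr hd hP] at h2
    exact h2

/-- `α ∈ US` as an element of `UT` -/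
theorem up_mem_UT (hd : d.Good) {α : Eˣ} (hα : α ∈ d.US) :
    H77.Z.up E B α ∈ UT d := by
  rintro P ⟨v, hv, hP⟩
  change P.valuation B (algebraMap E B (α : E)) = 1
  rw [H82.valuation_above hP, hd.US_unit α hα v hv, one_pow]

theorem mul_sig_eq (hd : d.Good) (x : UT d) {α : Eˣ} (hα : α ∈ d.US) :
    x * sigT d hd x = ⟨_, up_mem_UT hd hα⟩ ↔ nmU E B (x : Bˣ) = α := by
  constructor
  · intro h
    have h1 : ((x : Bˣ) : B) * d.tau ((x : Bˣ) : B) = algebraMap E B (α : E) :=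
      congrArg (fun y : UT d => ((y : Bˣ) : B)) h
    rw [norm_mul_tau hd] at h1
    exact Units.ext ((algebraMap E B).injective h1)
  · intro h
    apply UT_ext
    change ((x : Bˣ) : B) * d.tau ((x : Bˣ) : B) = algebraMap E B (α : E)
    rw [norm_mul_tau hd, ← h]
    rfl

theorem smulPlace_eq_of_nonsplit {P : HeightOneSpectrum (𝓞 B)}
    (h : NonSplit B (below E P)) : smulPlace d.tau P = P := by
  obtain ⟨Q, hQ⟩ := Set.ncard_eq_one.mp h
  have h1 : P ∈ above B (below E P) := H47.mem_above_below P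
  have h2 := H47.smulPlace_mem_above d.tau h1
  rw [hQ, Set.mem_singleton_iff] at h1 h2
  rw [h1] at h2 ⊢
  exact h2

theorem hliftT (hd : d.Good) {A b₀ : IT d} (hb₀ : b₀ * tauT d hd b₀ = A) {α : Eˣ}
    (hα : α ∈ d.US) (K : IT d) (hK : K * tauT d hd K = piT d ⟨_, up_mem_UT hd hα⟩ * A) :
    ∃ ξ ∈ VT d, ξ * sigT d hd ξ = ⟨_, up_mem_UT hd hα⟩ := by
  have hc : (K * b₀⁻¹) * tauT d hd (K * b₀⁻¹) = piT d ⟨_, up_mem_UT hd hα⟩ := by
    rw [map_mul, map_inv, mul_mul_mul_comm, hK, ← mul_inv, hb₀, mul_inv_cancel_right]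
  generalize K * b₀⁻¹ = c at hc
  have hC : ((c : FI B) : FractionalIdeal (𝓞 B)⁰ B) * conj d.tau ((c : FI B) : _) =
      up B (spanSingleton (𝓞 E)⁰ (α : E)) := by
    rw [up_spanSingleton]
    have := congrArg (fun x : IT d => ((x : FI B) : FractionalIdeal (𝓞 B)⁰ B)) hc
    simp only [coe_piT] at this
    exact this
  obtain ⟨x, hx, hxα⟩ := hd.lift α hα (fun w hw hns => by
    obtain ⟨P, hP⟩ := H47.above_nonempty (L := B) w
    obtain rfl := H47.eq_below_of_mem_above hP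
    have hPT : P ∉ TS d := by
      rintro ⟨v, hv, hPv⟩
      rw [H47.eq_below_of_mem_above hPv] at hv
      exact hw hv
    have h2 := congrArg (count B P) hC
    rw [count_mul B P (c : FI B).ne_zero ((_root_.map_ne_zero _).mpr (c : FI B).ne_zero),
      count_conj' hd, smulPlace_eq_of_nonsplit hns, count_up_unr hd hPT] at h2
    refine ⟨-count B P ((c : FI B) : FractionalIdeal (𝓞 B)⁰ B), ?_⟩
    rw [count_spanSingleton _ α.ne_zero, ← h2]
    congr 1
    ring)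
  have hx0 : x ≠ 0 := by
    rintro rfl
    rw [Algebra.norm_zero] at hxα
    exact α.ne_zero hxα.symm
  have hxU : Units.mk0 x hx0 ∈ UT d := mem_UT_of_mem_VS hd hx
  refine ⟨⟨Units.mk0 x hx0, hxU⟩, coe_mem_VS_iff.mp hx, ?_⟩
  rw [mul_sig_eq hd _ hα]
  exact Units.ext hxα

/-! ### Units -/

theorem mem_range_incl (hd : d.Good) {x : UT d} :
    x ∈ unitOne (piT d) (sigT d hd) (VT d) ↔ (x : Bˣ) ∈ (incl d.tau (mS d)).range := by
  constructor
  · rintro ⟨⟨hV, hN⟩, hπ⟩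
    have h1 : spanSingleton (𝓞 B)⁰ ((x : Bˣ) : B) = 1 := by
      rw [← coe_piT, MonoidHom.mem_ker.mp hπ]
      rfl
    have h2 : spanSingleton (𝓞 B)⁰ (((x : Bˣ) : B)⁻¹) = 1 := by
      rw [← spanSingleton_inv, h1, inv_one]
    obtain ⟨a, ha⟩ := (mem_one_iff _).mp (h1 ▸ mem_spanSingleton_self (𝓞 B)⁰ ((x : Bˣ) : B))
    obtain ⟨b, hb⟩ := (mem_one_iff _).mp (h2 ▸ mem_spanSingleton_self (𝓞 B)⁰ (((x : Bˣ) : B)⁻¹))
    have hab : a * b = 1 := by
      apply RingOfIntegers.coe_injective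
      rw [map_mul, ha, hb, map_one]
      exact mul_inv_cancel₀ (x : Bˣ).ne_zero
    refine ⟨⟨⟨a, b, hab, by rw [mul_comm, hab]⟩, ?_, ?_⟩, ?_⟩
    · change algebraMap (𝓞 B) B a * d.tau (algebraMap (𝓞 B) B a) = 1
      rw [ha]
      exact congrArg (fun y : UT d => ((y : Bˣ) : B)) hN
    · rw [mem_mS]
      intro P hP
      have := (mem_VT.mp hV).1 P hP
      rw [← ha] at this
      simpa using this
    · exact Units.ext ha
  · rintro ⟨u, hu⟩
    have hxu : ((x : Bˣ) : B) = (((u : (𝓞 B)ˣ) : 𝓞 B) : B) := by rw [← hu]; rfl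
    have hN : ((x : Bˣ) : B) * d.tau ((x : Bˣ) : B) = 1 := by rw [hxu]; exact u.2.1
    refine ⟨⟨mem_VT.mpr ⟨fun P hP => ?_, ?_⟩, UT_ext hN⟩, ?_⟩
    · rw [hxu]
      have := (mem_mS d).mp u.2.2 P hP
      simpa using this
    · have h3 : nmU E B (x : Bˣ) = 1 := by
        apply Units.ext
        apply (algebraMap E B).injective
        change algebraMap E B (Algebra.norm E ((x : Bˣ) : B)) = algebraMap E B 1
        rw [← norm_mul_tau hd, hN, map_one]
      rw [h3]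
      exact one_mem _
    · apply IT_ext
      rw [coe_piT, hxu]
      change spanSingleton (𝓞 B)⁰ (algebraMap (𝓞 B) B ((u : (𝓞 B)ˣ) : 𝓞 B)) = 1
      rw [← coeIdeal_span_singleton, Ideal.span_singleton_eq_top.mpr (u : (𝓞 B)ˣ).isUnit,
        coeIdeal_top]

/-! ### Lattices -/

variable (d) in
/-- the lattices -/
def LT (D : FI E) (h : FI B) : Set Bˣ :=
  {x | (x : B) ∈ d.VS ∧ (x : B) ∈ RB B d.S (d.dlt D h)}

theorem mem_LT_iff (hd : d.Good) {D : FI E} (hD : ∀ w ∈ d.S, cE D w = 0) {h : IT d} {x : UT d} :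
    (x : Bˣ) ∈ LT d D (h : FI B) ↔
      x ∈ latt (piT d) (tauT d hd) (VT d) (IntT d) (h * (upT D hD)⁻¹) := by
  refine and_congr coe_mem_VS_iff ?_
  set K : FractionalIdeal (𝓞 B)⁰ B := spanSingleton (𝓞 B)⁰ ((x : Bˣ) : B) *
    (conj d.tau ((h : FI B) : FractionalIdeal (𝓞 B)⁰ B) *
      (up B (D : FractionalIdeal (𝓞 E)⁰ E))⁻¹) with hK
  have hx0 : spanSingleton (𝓞 B)⁰ ((x : Bˣ) : B) ≠ 0 := by
    rw [Ne, spanSingleton_eq_zero_iff]; exact (x : Bˣ).ne_zero
  have hh0 : conj d.tau ((h : FI B) : FractionalIdeal (𝓞 B)⁰ B) ≠ 0 :=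
    (_root_.map_ne_zero _).mpr (h : FI B).ne_zero
  have hD0 : (up B (D : FractionalIdeal (𝓞 E)⁰ E))⁻¹ ≠ 0 := inv_ne_zero (up_ne_zero D.ne_zero)
  have hcount : ∀ P, count B P K = count B P (spanSingleton (𝓞 B)⁰ ((x : Bˣ) : B)) +
      (count B (smulPlace d.tau P) ((h : FI B) : FractionalIdeal (𝓞 B)⁰ B) -
        count B P (up B (D : FractionalIdeal (𝓞 E)⁰ E))) := by
    intro P
    rw [hK, count_mul B P hx0 (mul_ne_zero hh0 hD0), count_mul B P hh0 hD0, count_inv,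
      count_conj' hd, sub_eq_add_neg]
  have hint : piT d x * tauT d hd (h * (upT D hD)⁻¹) ∈ IntT d ↔ K ≤ 1 := by
    rw [map_mul, map_inv, tauT_upT]
    exact Iff.of_eq (congrArg (fun z : FractionalIdeal (𝓞 B)⁰ B => z ≤ 1) (by
      rw [Subgroup.coe_mul, Subgroup.coe_mul, Subgroup.coe_inv, Units.val_mul, Units.val_mul,
        Units.val_inv_eq_inv_val, coe_piT, coe_tauT, coe_upT]))
  rw [hint]
  have hK0 : K ≠ 0 := mul_ne_zero hx0 (mul_ne_zero hh0 hD0)
  constructor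
  · intro hx
    refine le_one_of_count_nonneg hK0 fun P => ?_
    rw [hcount]
    by_cases hP : P ∈ TS d
    · have h1 := (piT d x).2 P hP
      have h2 : count B (smulPlace d.tau P) ((h : FI B) : FractionalIdeal (𝓞 B)⁰ B) = 0 :=
        h.2 _ (smulPlace_mem_TS hP)
      rw [cE, coe_piT] at h1
      rw [h1, h2, count_up_S hD hP]
      norm_num
    · have h1 := mem_RB.mp hx P hP
      rw [count_spanSingleton P (x : Bˣ).ne_zero, exp_le_exp, DD.dlt, cE, cE] at h1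
      rw [count_up_unr hd hP]
      omega
  · intro hx
    rw [mem_RB]
    intro P hP
    have h1 := count_nonneg_of_le_one hK0 hx P
    rw [hcount, count_up_unr hd hP] at h1
    rw [count_spanSingleton P (x : Bˣ).ne_zero, exp_le_exp, DD.dlt, cE, cE]
    omega

/-! ### The character -/

section Chi

variable {R : Type*} [CommRing R] [IsDedekindDomain R] {K : Type*} [Field K] [Algebra R K]
  [IsFractionRing R K]

theorem chiF_pow {χ : Ideal R →*₀ ℂ} {A : FractionalIdeal R⁰ K} (h : ChiGood χ A) (k : ℕ) :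
    ChiGood χ (A ^ k) ∧ chiF χ (A ^ k) = chiF χ A ^ k := by
  induction k with
  | zero => rw [pow_zero, pow_zero]; exact ⟨ChiGood.one χ, chiF_one χ⟩
  | succ k ih => rw [pow_succ, pow_succ, chiF_mul ih.1 h, ih.2]; exact ⟨ih.1.mul h, rfl⟩

theorem chiF_zpow {χ : Ideal R →*₀ ℂ} {A : FractionalIdeal R⁰ K} (h : ChiGood χ A) (k : ℤ) :
    ChiGood χ (A ^ k) ∧ chiF χ (A ^ k) = chiF χ A ^ k := by
  obtain ⟨n, rfl | rfl⟩ := k.eq_nat_or_neg
  · rw [zpow_natCast, zpow_natCast]; exact chiF_pow h n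
  · have h1 := chiF_pow h n
    rw [zpow_neg, zpow_neg, zpow_natCast, zpow_natCast, chiF_inv h1.1, h1.2]
    exact ⟨h1.1.inv, rfl⟩

theorem chiF_prod {ι : Type*} {χ : Ideal R →*₀ ℂ} (s : Finset ι) (f : ι → FractionalIdeal R⁰ K)
    (h : ∀ i ∈ s, ChiGood χ (f i)) :
    ChiGood χ (∏ i ∈ s, f i) ∧ chiF χ (∏ i ∈ s, f i) = ∏ i ∈ s, chiF χ (f i) := by
  classical
  induction s using Finset.induction_on with
  | empty => rw [Finset.prod_empty, Finset.prod_empty]; exact ⟨ChiGood.one χ, chiF_one χ⟩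
  | insert a s ha ih =>
    have h1 := ih fun i hi => h i (Finset.mem_insert_of_mem hi)
    have h2 := h a (Finset.mem_insert_self a s)
    rw [Finset.prod_insert ha, Finset.prod_insert ha, chiF_mul h2 h1.1, h1.2]
    exact ⟨h2.mul h1.1, rfl⟩

end Chi

theorem chiGood_IT (hd : d.Good) (A : IT d) :
    ChiGood d.chi ((A : FI B) : FractionalIdeal (𝓞 B)⁰ B) :=
  ⟨(A : FI B).ne_zero, fun v hv => A.2 v ((hd.chi_S v).mp hv)⟩

theorem chiF_piT (hd : d.Good) {x : UT d} (hx : x ∈ VT d) :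
    chiF d.chi ((piT d x : FI B) : FractionalIdeal (𝓞 B)⁰ B) = 1 := by
  rw [coe_piT]
  exact (chiF_of_congr (finite_TS d) hd.n2_pos hd.chi_span (x : Bˣ).ne_zero (mem_VT.mp hx).1).2

theorem chiF_up_place (hd : d.Good) {w : HeightOneSpectrum (𝓞 E)} (hw : w ∉ d.S) :
    ChiGood d.chi (up B (w.asIdeal : FractionalIdeal (𝓞 E)⁰ E)) ∧
    chiF d.chi (up B (w.asIdeal : FractionalIdeal (𝓞 E)⁰ E)) =
      d.chi (w.asIdeal.map (algebraMap (𝓞 E) (𝓞 B))) := by
  have hw0 : (w.asIdeal : FractionalIdeal (𝓞 E)⁰ E) ≠ 0 := coeIdeal_ne_zero.mpr w.ne_bot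
  have h0 : w.asIdeal.map (algebraMap (𝓞 E) (𝓞 B)) ≠ 0 := by
    intro h
    have := up_ne_zero (B := B) hw0
    rw [up_coe, h] at this
    exact this coeIdeal_bot
  refine ⟨⟨up_ne_zero hw0, fun P hP => ?_⟩, ?_⟩
  · obtain ⟨v, hv, hPv⟩ := (hd.chi_S P).mp hP
    have hvw : w ≠ v := by
      rintro rfl
      exact hw hv
    rw [count_up hPv, count_maximal_coprime E v hvw, mul_zero]
  · rw [up_coe, chiF_coe _ h0]

/-- **`chi` on the ideals of `E`** -/
theorem chiF_up (hd : d.Good) {D : FI E} (hD : ∀ w ∈ d.S, cE D w = 0) :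
    chiF d.chi (up B (D : FractionalIdeal (𝓞 E)⁰ E)) = om B d.S D := by
  classical
  set D' : FractionalIdeal (𝓞 E)⁰ E := (D : FractionalIdeal (𝓞 E)⁰ E) with hD'
  set s := (finite_count_ne D').toFinset with hs
  have hmem : ∀ w, w ∈ s ↔ count E w D' ≠ 0 := fun w => (finite_count_ne D').mem_toFinset
  have hfac : D' = ∏ w ∈ s, (w.asIdeal : FractionalIdeal (𝓞 E)⁰ E) ^ count E w D' := by
    refine (finprod_heightOneSpectrum_factorization' E D.ne_zero).symm.trans ?_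
    refine finprod_eq_prod_of_mulSupport_subset _ fun w hw => ?_
    rw [Finset.mem_coe, hmem]
    intro h
    exact hw (by change _ ^ count E w D' = 1; rw [h, zpow_zero])
  have hom : om B d.S D = ∏ w ∈ s, (if w ∉ d.S ∧ NonSplit B w then (-1 : ℂ) else 1) ^
      count E w D' := by
    rw [om]
    refine finprod_eq_prod_of_mulSupport_subset _ fun w hw => ?_
    rw [Finset.mem_coe, hmem]
    intro h
    exact hw (by change _ ^ cE D w = 1; rw [cE, ← hD', h, zpow_zero])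
  have hS : ∀ w ∈ s, w ∉ d.S := fun w hw h => (hmem w).mp hw (hD w h)
  have hgood := fun w hw => chiF_zpow (chiF_up_place hd (hS w hw)).1 (count E w D')
  rw [hom]
  conv_lhs => rw [hfac, map_prod]
  simp only [map_zpow₀]
  rw [(chiF_prod s _ fun w hw => (hgood w hw).1).2]
  refine Finset.prod_congr rfl fun w hw => ?_
  rw [(hgood w hw).2, (chiF_up_place hd (hS w hw)).2]
  congr 1
  by_cases h : NonSplit B w
  · rw [if_pos ⟨hS w hw, h⟩, (hd.chi_E w (hS w hw)).1 h]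
  · rw [if_neg (fun h' => h h'.2), (hd.chi_E w (hS w hw)).2 h]

theorem om_mul_self (D : FI E) : om B d.S D * om B d.S D = 1 := by
  classical
  have hfin : (Function.mulSupport fun w : HeightOneSpectrum (𝓞 E) =>
      (if w ∉ d.S ∧ NonSplit B w then (-1 : ℂ) else 1) ^ (cE D w)).Finite := by
    refine (finite_count_ne (D : FractionalIdeal (𝓞 E)⁰ E)).subset fun w hw h => hw ?_
    change _ ^ cE D w = 1
    rw [cE, h, zpow_zero]
  rw [om, ← finprod_mul_distrib hfin hfin]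
  refine finprod_eq_one_of_forall_eq_one fun w => ?_
  rw [← mul_zpow]
  split_ifs <;> norm_num

/-! ### The final identity -/

/-- prime-to-`S` integral ideals of norm `n` -/
theorem mem_IT_of_norm (hd : d.Good) {n : FI E} (hn : ∀ w ∈ d.S, cE n w = 0)
    {A : FractionalIdeal (𝓞 B)⁰ B} (h1 : A ≤ 1)
    (h2 : A * conj d.tau A = up B (n : FractionalIdeal (𝓞 E)⁰ E)) (hA : A ≠ 0) :
    Units.mk0 A hA ∈ IT d := by
  intro P hP
  have h3 := congrArg (count B P) h2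
  rw [count_mul B P hA ((_root_.map_ne_zero _).mpr hA), count_conj' hd, count_up_S hn hP] at h3
  have h4 := count_nonneg_of_le_one hA h1 P
  have h5 := count_nonneg_of_le_one hA h1 (smulPlace d.tau P)
  rw [cE, Units.val_mk0]
  omega

theorem cf_eq_finsum_IT (hd : d.Good) {n : FI E} (hn : ∀ w ∈ d.S, cE n w = 0) :
    cf d.chi (n : FractionalIdeal (𝓞 E)⁰ E) =
      ∑ᶠ A ∈ {A : IT d | A ∈ IntT d ∧ A * tauT d hd A = upT n hn},
        chiF d.chi ((A : FI B) : FractionalIdeal (𝓞 B)⁰ B) := by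
  have := H73U.isGalois d.tau hd.tau_ne hd.deg
  rw [cf_eq_finsum hd.deg hd.tau_ne d.chi n.ne_zero]
  symm
  refine finsum_mem_eq_of_bijOn (fun A : IT d => ((A : FI B) : FractionalIdeal (𝓞 B)⁰ B)) ?_
    (fun _ _ => rfl)
  refine ⟨fun A hA => ⟨hA.1, ?_⟩, fun A _ A' _ h => IT_ext h, ?_⟩
  · exact congrArg (fun x : IT d => ((x : FI B) : FractionalIdeal (𝓞 B)⁰ B)) hA.2
  · rintro A ⟨h1, h2⟩
    have hA : A ≠ 0 := by
      rintro rfl
      rw [zero_mul] at h2
      exact up_ne_zero n.ne_zero h2.symm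
    exact ⟨⟨Units.mk0 A hA, mem_IT_of_norm hd hn h1 h2 hA⟩, ⟨h1, IT_ext h2⟩, rfl⟩

theorem finite_IT_norm (hd : d.Good) {n : FI E} (hn : ∀ w ∈ d.S, cE n w = 0) :
    {A : IT d | A ∈ IntT d ∧ A * tauT d hd A = upT n hn}.Finite := by
  have := H73U.isGalois d.tau hd.tau_ne hd.deg
  refine Set.Finite.of_finite_image (f := fun A : IT d =>
    ((A : FI B) : FractionalIdeal (𝓞 B)⁰ B)) ((finite_normSet_frac hd.deg hd.tau_ne
      n.ne_zero).subset ?_) (fun A _ A' _ h => IT_ext h)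
  rintro _ ⟨A, hA, rfl⟩
  exact ⟨hA.1, congrArg (fun x : IT d => ((x : FI B) : FractionalIdeal (𝓞 B)⁰ B)) hA.2⟩

/-- representatives for `A D⁻¹` from representatives for `A D` -/
theorem reps_of (hd : d.Good) {ι : Type*} {n : FI E} (hn : ∀ w ∈ d.S, cE n w = 0)
    {r : ι → IT d} (hnorm : ∀ i, r i * tauT d hd (r i) = upT n hn)
    (hrep : ∀ b : IT d, b * tauT d hd b = upT n hn →
      ∃ i, ∃ β ∈ normOne (sigT d hd) (VT d), b = piT d β * r i)
    (huniq : ∀ i j, ∀ β ∈ normOne (sigT d hd) (VT d), r j = piT d β * r i → i = j)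
    {A D : FI E} (hD : ∀ w ∈ d.S, cE D w = 0) (hAD : A * D = n)
    {a : FI E} (ha : ∀ w ∈ d.S, cE a w = 0) (haAD : a = A * D⁻¹) :
    Reps (piT d) (sigT d hd) (tauT d hd) (VT d) (IntT d) (upT a ha)
      (fun i => r i * (upT D hD)⁻¹)
      (fun i => {ξ | (ξ : Bˣ) ∈ LT d D (r i : FI B) ∧
        (ξ : Bˣ) = Quotient.out ((ξ : Bˣ) : H71U.Cls d.tau (mS d))}) := by
  have hup : upT a ha * (upT D hD * upT D hD) = upT n hn := by
    apply IT_ext
    change up B (a : FractionalIdeal (𝓞 E)⁰ E) * (up B (D : FractionalIdeal (𝓞 E)⁰ E) *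
      up B (D : FractionalIdeal (𝓞 E)⁰ E)) = up B (n : FractionalIdeal (𝓞 E)⁰ E)
    rw [← map_mul, ← map_mul, ← Units.val_mul, ← Units.val_mul, haAD, ← hAD]
    congr 2
    rw [← mul_assoc, inv_mul_cancel_right]
  refine ⟨?_, ?_, ?_, ?_, ?_, ?_⟩
  · intro i
    rw [map_mul, map_inv, tauT_upT, mul_mul_mul_comm, hnorm, ← hup, ← mul_inv, mul_inv_cancel_right]
  · intro b hb
    obtain ⟨i, β, hβ, h⟩ := hrep (b * upT D hD) (by
      rw [map_mul, tauT_upT, mul_mul_mul_comm, hb, hup])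
    exact ⟨i, β, hβ, by rw [← mul_assoc, ← h, mul_inv_cancel_right]⟩
  · intro i j β hβ h
    refine huniq i j β hβ ?_
    rw [← mul_assoc] at h
    exact mul_right_cancel h
  · rintro i ξ ⟨h1, -⟩
    exact (mem_LT_iff hd hD).mp h1
  · intro i ξ hξ
    have hstab : ∀ x : UT d, x ∈ latt (piT d) (tauT d hd) (VT d) (IntT d) (r i * (upT D hD)⁻¹) →
        ∀ u ∈ unitOne (piT d) (sigT d hd) (VT d),
        u * x ∈ latt (piT d) (tauT d hd) (VT d) (IntT d) (r i * (upT D hD)⁻¹) := by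
      rintro x ⟨hx1, hx2⟩ u ⟨⟨hu1, hu2⟩, hu3⟩
      refine ⟨(VT d).mul_mem hu1 hx1, ?_⟩
      rwa [map_mul, MonoidHom.mem_ker.mp hu3, one_mul]
    -- the representative
    have h1 : ((Quotient.out ((ξ : Bˣ) : H71U.Cls d.tau (mS d))) : Bˣ)⁻¹ * (ξ : Bˣ) ∈
        (incl d.tau (mS d)).range := QuotientGroup.eq.1 (Quotient.out_eq' _)
    set ξ' : Bˣ := Quotient.out ((ξ : Bˣ) : H71U.Cls d.tau (mS d)) with hξ'
    have hrange : (incl d.tau (mS d)).range ≤ UT d := by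
      rintro _ ⟨u, rfl⟩ P hP
      refine valuation_eq_one_of_congr hd.n2_pos ?_
      have h7 : P.valuation B (algebraMap (𝓞 B) B (((u : (𝓞 B)ˣ) : 𝓞 B) - 1)) ≤
        exp (-(d.n2 : ℤ)) := (mem_mS d).mp u.2.2 P hP
      rw [map_sub, map_one] at h7
      exact h7
    have hξ'U : ξ' ∈ UT d := by
      have h2 : ξ' = (ξ : Bˣ) * (ξ'⁻¹ * (ξ : Bˣ))⁻¹ := by
        rw [mul_inv_rev, inv_inv, ← mul_assoc, mul_inv_cancel, one_mul]
      rw [h2]
      exact (UT d).mul_mem ξ.2 ((UT d).inv_mem (hrange h1))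
    have h3 : (⟨ξ', hξ'U⟩ : UT d)⁻¹ * ξ ∈ unitOne (piT d) (sigT d hd) (VT d) := by
      rw [mem_range_incl hd]
      exact h1
    have h4 : (⟨ξ', hξ'U⟩ : UT d) ∈
        latt (piT d) (tauT d hd) (VT d) (IntT d) (r i * (upT D hD)⁻¹) := by
      have h5 := hstab ξ hξ _ (inv_mem h3)
      rwa [mul_inv_rev, inv_inv, mul_comm ξ⁻¹, inv_mul_cancel_right] at h5
    refine ⟨⟨ξ', hξ'U⟩, ⟨(mem_LT_iff hd hD).mpr h4, ?_⟩, _, h3, ?_⟩
    · change ξ' = Quotient.out ((ξ' : Bˣ) : H71U.Cls d.tau (mS d))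
      have h6 : ((ξ' : Bˣ) : H71U.Cls d.tau (mS d)) = ((ξ : Bˣ) : H71U.Cls d.tau (mS d)) :=
        QuotientGroup.eq.2 h1
      rw [h6]
    · rw [mul_right_comm, inv_mul_cancel, one_mul]
  · rintro i ξ ⟨-, h1⟩ ξ' ⟨-, h2⟩ u hu h
    rw [mem_range_incl hd] at hu
    have h3 : ((ξ : Bˣ) : H71U.Cls d.tau (mS d)) = ((ξ' : Bˣ) : H71U.Cls d.tau (mS d)) := by
      refine QuotientGroup.eq.2 ?_
      rw [h, Subgroup.coe_mul, mul_comm (u : Bˣ), inv_mul_cancel_left]
      exact hu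
    apply Subtype.ext
    rw [h1, h2, h3]

/-- the coefficient identity, arithmetic form -/
theorem finsum_out_eq (hd : d.Good) {ι : Type*} {n : FI E} (hn : ∀ w ∈ d.S, cE n w = 0)
    {r : ι → IT d} (hnorm : ∀ i, r i * tauT d hd (r i) = upT n hn)
    (hrep : ∀ b : IT d, b * tauT d hd b = upT n hn →
      ∃ i, ∃ β ∈ normOne (sigT d hd) (VT d), b = piT d β * r i)
    (huniq : ∀ i j, ∀ β ∈ normOne (sigT d hd) (VT d), r j = piT d β * r i → i = j)
    {b₀ : IT d} (hb₀ : b₀ * tauT d hd b₀ = upT n hn)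
    {A D : FI E} (hA : ∀ w ∈ d.S, cE A w = 0) (hD : ∀ w ∈ d.S, cE D w = 0) (hAD : A * D = n)
    {α : Eˣ} (hα : α ∈ d.US) :
    ∑ᶠ p ∈ {p : ι × H71U.Cls d.tau (mS d) | (p.2.out : Bˣ) ∈ LT d D (r p.1 : FI B) ∧
        nmU E B p.2.out = α},
      chiF d.chi (conj d.tau ((r p.1 : FI B) : FractionalIdeal (𝓞 B)⁰ B)) * om B d.S D =
    cf d.chi (spanSingleton (𝓞 E)⁰ (α : E) * ((A * D⁻¹ : FI E) : FractionalIdeal (𝓞 E)⁰ E)) ∧
    {p : ι × H71U.Cls d.tau (mS d) | (p.2.out : Bˣ) ∈ LT d D (r p.1 : FI B) ∧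
        nmU E B p.2.out = α}.Finite := by
  have ha : ∀ w ∈ d.S, cE (A * D⁻¹) w = 0 := fun w hw => by
    rw [cE_mul, cE_inv, hA w hw, hD w hw, neg_zero, add_zero]
  have hαT : ∀ w ∈ d.S, cE (toPrincipalIdeal (𝓞 E) E α) w = 0 := fun w hw => by
    have h1 := hd.US_unit α hα w hw
    rw [count_spanSingleton w α.ne_zero, ← exp_zero, exp_inj] at h1
    rw [cE, coe_toPrincipalIdeal]
    omega
  set nα : FI E := toPrincipalIdeal (𝓞 E) E α * (A * D⁻¹) with hnα
  have hnαT : ∀ w ∈ d.S, cE nα w = 0 := fun w hw => by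
    rw [hnα, cE_mul, hαT w hw, ha w hw, add_zero]
  have hcoe : ((nα : FI E) : FractionalIdeal (𝓞 E)⁰ E) =
      spanSingleton (𝓞 E)⁰ (α : E) * ((A * D⁻¹ : FI E) : FractionalIdeal (𝓞 E)⁰ E) := by
    rw [hnα, Units.val_mul, coe_toPrincipalIdeal]
  set αT : UT d := ⟨_, up_mem_UT hd hα⟩ with hαTdef
  have hup : upT nα hnαT = piT d αT * upT (A * D⁻¹) ha := by
    apply IT_ext
    change up B ((nα : FI E) : FractionalIdeal (𝓞 E)⁰ E) =
      ((piT d αT : FI B) : FractionalIdeal (𝓞 B)⁰ B) *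
      up B ((A * D⁻¹ : FI E) : FractionalIdeal (𝓞 E)⁰ E)
    rw [hcoe, map_mul, coe_piT, up_spanSingleton]
    rfl
  have hR := reps_of hd hn hnorm hrep huniq hD hAD ha rfl
  -- a reference element of norm `A D⁻¹`
  have hb₁ : (b₀ * (upT D hD)⁻¹) * tauT d hd (b₀ * (upT D hD)⁻¹) = upT (A * D⁻¹) ha := by
    have h1 : upT (A * D⁻¹) ha * (upT D hD * upT D hD) = upT n hn := by
      apply IT_ext
      change up B ((A * D⁻¹ : FI E) : FractionalIdeal (𝓞 E)⁰ E) *
        (up B (D : FractionalIdeal (𝓞 E)⁰ E) * up B (D : FractionalIdeal (𝓞 E)⁰ E)) =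
        up B (n : FractionalIdeal (𝓞 E)⁰ E)
      rw [← map_mul, ← map_mul, ← Units.val_mul, ← Units.val_mul, ← hAD]
      congr 2
      rw [← mul_assoc, inv_mul_cancel_right]
    rw [map_mul, map_inv, tauT_upT, mul_mul_mul_comm, hb₀, ← h1, ← mul_inv, mul_inv_cancel_right]
  have hlift : ∀ K ∈ IntT d, K * tauT d hd K = piT d αT * upT (A * D⁻¹) ha →
      ∃ ξ ∈ VT d, ξ * sigT d hd ξ = αT := fun K _ hK => hliftT hd hb₁ hα K hK
  have hbij := hR.bijOn (pi_sig hd) (sig_sig hd) (tauT_tauT hd) (sig_mem_VT hd) hlift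
  have hsum := hR.finsum_eq (pi_sig hd) (sig_sig hd) (tauT_tauT hd) (sig_mem_VT hd) hlift
    (fun K : IT d => chiF d.chi ((K : FI B) : FractionalIdeal (𝓞 B)⁰ B)) (fun v hv K => by
      rw [Subgroup.coe_mul, Units.val_mul, chiF_mul (chiGood_IT hd _) (chiGood_IT hd _),
        chiF_piT hd hv, one_mul])
  rw [← hup] at hsum hbij
  -- the bijection between the two index sets
  have hbij2 : Set.BijOn (fun p : ι × UT d => (p.1, ((p.2 : Bˣ) : H71U.Cls d.tau (mS d))))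
      {p : ι × UT d | p.2 ∈ {ξ : UT d | (ξ : Bˣ) ∈ LT d D (r p.1 : FI B) ∧
        (ξ : Bˣ) = Quotient.out ((ξ : Bˣ) : H71U.Cls d.tau (mS d))} ∧
        p.2 * sigT d hd p.2 = αT}
      {p : ι × H71U.Cls d.tau (mS d) | (p.2.out : Bˣ) ∈ LT d D (r p.1 : FI B) ∧
        nmU E B p.2.out = α} := by
    refine ⟨?_, ?_, ?_⟩
    · rintro ⟨i, ξ⟩ ⟨⟨h1, h2⟩, h3⟩
      refine ⟨?_, ?_⟩
      · change (Quotient.out ((ξ : Bˣ) : H71U.Cls d.tau (mS d)) : Bˣ) ∈ LT d D (r i : FI B)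
        rw [← h2]; exact h1
      · change nmU E B (Quotient.out ((ξ : Bˣ) : H71U.Cls d.tau (mS d)) : Bˣ) = α
        rw [← h2]
        exact (mul_sig_eq hd ξ hα).mp h3
    · rintro ⟨i, ξ⟩ ⟨⟨-, h2⟩, -⟩ ⟨j, ξ'⟩ ⟨⟨-, h2'⟩, -⟩ h
      have h3 := congrArg Prod.fst h
      have h4 := congrArg Prod.snd h
      simp only at h3 h4
      change (ξ : Bˣ) = _ at h2
      change (ξ' : Bˣ) = _ at h2'
      rw [← h4, ← h2] at h2'
      rw [h3, Subtype.ext h2'.symm]
    · rintro ⟨i, x⟩ ⟨h1, h2⟩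
      change (x.out : Bˣ) ∈ LT d D (r i : FI B) at h1
      change nmU E B x.out = α at h2
      have hU : (x.out : Bˣ) ∈ UT d := mem_UT_of_mem_VS hd h1.1
      have hx : (((x.out : Bˣ)) : H71U.Cls d.tau (mS d)) = x := Quotient.out_eq' x
      refine ⟨(i, ⟨x.out, hU⟩), ⟨⟨h1, ?_⟩, (mul_sig_eq hd _ hα).mpr h2⟩, ?_⟩
      · change (x.out : Bˣ) = Quotient.out (((x.out : Bˣ)) : H71U.Cls d.tau (mS d))
        rw [hx]
      · change (i, (((x.out : Bˣ)) : H71U.Cls d.tau (mS d))) = (i, x)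
        rw [hx]
  refine ⟨?_, ?_⟩
  · rw [← hcoe, cf_eq_finsum_IT hd hnαT, hsum]
    symm
    refine finsum_mem_eq_of_bijOn _ hbij2 ?_
    rintro ⟨i, ξ⟩ -
    change chiF d.chi ((tauT d hd (r i * (upT D hD)⁻¹) : FI B) : FractionalIdeal (𝓞 B)⁰ B) =
      chiF d.chi (conj d.tau ((r i : FI B) : FractionalIdeal (𝓞 B)⁰ B)) * om B d.S D
    have h1 : chiF d.chi (((upT D hD : IT d) : FI B) : FractionalIdeal (𝓞 B)⁰ B) = om B d.S D :=
      chiF_up hd hD
    rw [map_mul, map_inv, tauT_upT, Subgroup.coe_mul, Subgroup.coe_inv, Units.val_mul,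
      Units.val_inv_eq_inv_val, chiF_mul (chiGood_IT hd _) (chiGood_IT hd _).inv,
      chiF_inv (chiGood_IT hd _), h1, inv_eq_of_mul_eq_one_right (om_mul_self D)]
    rfl
  · have h1 := (finite_IT_norm hd hnαT)
    have h2 := Set.Finite.of_injOn hbij.mapsTo hbij.injOn h1
    exact (h2.image _).subset hbij2.surjOn

/-- `LT` is stable under the relative units -/
theorem incl_mul_mem_LT (hd : d.Good) (D : FI E) (h : FI B) (u : H73U.U1 d.tau (mS d)) (x : Bˣ) :
    incl d.tau (mS d) u * x ∈ LT d D h ↔ x ∈ LT d D h := by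
  have key : ∀ (u : H73U.U1 d.tau (mS d)) (x : Bˣ), x ∈ LT d D h →
      incl d.tau (mS d) u * x ∈ LT d D h := by
    rintro u x ⟨⟨h1, α, hα, h2⟩, h3⟩
    have hu : ∀ P ∈ TS d, P.valuation B (((incl d.tau (mS d) u : Bˣ) : B) - 1) ≤
        exp (-(d.n2 : ℤ)) := by
      intro P hP
      have h7 : P.valuation B (algebraMap (𝓞 B) B (((u : (𝓞 B)ˣ) : 𝓞 B) - 1)) ≤
        exp (-(d.n2 : ℤ)) := (mem_mS d).mp u.2.2 P hP
      rw [map_sub, map_one] at h7
      exact h7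
    refine ⟨⟨fun P hP => ?_, α, hα, ?_⟩, ?_⟩
    · have e1 : ((incl d.tau (mS d) u * x : Bˣ) : B) - 1 = ((incl d.tau (mS d) u : Bˣ) : B) *
          ((x : B) - 1) + (((incl d.tau (mS d) u : Bˣ) : B) - 1) := by
        rw [Units.val_mul]; ring
      rw [e1]
      refine (Valuation.map_add _ _ _).trans (max_le ?_ (hu P hP))
      rw [map_mul, valuation_eq_one_of_congr hd.n2_pos (hu P hP), one_mul]
      exact h1 P hP
    · rw [h2]
      have e2 := congrArg Units.val (nmU_incl d.tau (mS d) hd.tau_ne hd.deg u)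
      have e3 : Algebra.norm E ((incl d.tau (mS d) u : Bˣ) : B) = 1 := e2
      rw [Units.val_mul, map_mul, e3, one_mul]
    · rw [mem_RB] at h3 ⊢
      intro P hP
      rw [Units.val_mul, map_mul]
      refine le_trans ?_ (h3 P hP)
      calc P.valuation B ((incl d.tau (mS d) u : Bˣ) : B) * P.valuation B (x : B)
          ≤ 1 * P.valuation B (x : B) := mul_le_mul_left (P.valuation_le_one _) _
        _ = P.valuation B (x : B) := one_mul _
  refine ⟨fun hx => ?_, key u x⟩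
  have h1 := key u⁻¹ _ hx
  rwa [map_inv, inv_mul_cancel_left] at h1

theorem hasSum_subtype_of_finite {X : Type*} {s : Set X} (hs : s.Finite) (f : X → ℂ) :
    HasSum (fun x : s => f x) (∑ᶠ x ∈ s, f x) := by
  have := hs.fintype
  rw [← finsum_set_coe_eq_finsum_mem, finsum_eq_sum_of_fintype]
  exact hasSum_fintype _

/-- **The coefficient identity** in the form needed for `H71U.hasSum_unfold_norm`. The
representatives `h i` only depend on the ideal `n = A D`. -/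
theorem exists_hcoef (hd : d.Good) {n : FI E} (hn : ∀ w ∈ d.S, cE n w = 0)
    (hne : ∃ h₀ : FI B, IsNm d.S d.tau h₀ (cE n)) :
    ∃ (k : ℕ) (h : Fin k → FI B), (∀ i, IsNm d.S d.tau (h i) (cE n)) ∧
      ∀ A D : FI E, (∀ w ∈ d.S, cE A w = 0) → (∀ w ∈ d.S, cE D w = 0) → A * D = n →
      ∀ α : Eˣ, HasSum (fun p : {p : Fin k × H71U.Cls d.tau (mS d) //
          (p.2.out : Bˣ) ∈ LT d D (h p.1) ∧ nmU E B p.2.out = α} =>
          chiF d.chi (conj d.tau ((h p.1.1 : FI B) : FractionalIdeal (𝓞 B)⁰ B)) * om B d.S D)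
        (haveI := Classical.propDecidable (α ∈ d.US)
          if α ∈ d.US then cf d.chi (spanSingleton (𝓞 E)⁰ (α : E) *
            ((A * D⁻¹ : FI E) : FractionalIdeal (𝓞 E)⁰ E)) else 0) := by
  classical
  obtain ⟨h₀, hh₀⟩ := hne
  obtain ⟨hh₀T, hh₀n⟩ := (isNm_iff hd hn).mp hh₀
  obtain ⟨r, R, hR⟩ := exists_reps (piT d) (sigT d hd) (tauT d hd) (VT d) (IntT d) (upT n hn)
  have hfin := finite_Cls hd (upT n hn)
  let e := (Finite.equivFin (Cls (piT d) (sigT d hd) (tauT d hd) (VT d) (upT n hn))).symm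
  refine ⟨_, fun i => (r (e i) : FI B), fun i => ?_, ?_⟩
  · exact (isNm_iff hd hn).mpr ⟨(r (e i)).2, hR.norm (e i)⟩
  intro A D hA hD hAD α
  by_cases hα : α ∈ d.US
  · rw [if_pos hα]
    obtain ⟨h1, h2⟩ := finsum_out_eq hd hn (r := fun i => r (e i)) (fun i => hR.norm (e i))
      (fun b hb => by
        obtain ⟨i, β, hβ, h⟩ := hR.exists_rep b hb
        exact ⟨e.symm i, β, hβ, by rw [h, Equiv.apply_symm_apply]⟩)
      (fun i j β hβ h => e.injective (hR.rep_unique (e i) (e j) β hβ h)) hh₀n hA hD hAD hα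
    rw [← h1]
    exact hasSum_subtype_of_finite h2 fun p : Fin _ × H71U.Cls d.tau (mS d) =>
      chiF d.chi (conj d.tau ((r (e p.1) : FI B) : FractionalIdeal (𝓞 B)⁰ B)) * om B d.S D
  · rw [if_neg hα]
    have hempty : IsEmpty {p : Fin _ × H71U.Cls d.tau (mS d) //
        (p.2.out : Bˣ) ∈ LT d D (r (e p.1) : FI B) ∧ nmU E B p.2.out = α} := by
      refine ⟨fun p => hα ?_⟩
      obtain ⟨α', hα', h1⟩ := p.2.1.1.2
      have h2 : nmU E B p.1.2.out = α' := Units.ext h1.symm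
      rwa [← p.2.2, h2]
    exact hasSum_empty

end Fermat.Agent.H33D
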