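import Fermat.Agent.H71UDefs

/-!
# Algebra of `cE`, `om`, `aN` (H71UDefs) (helper82)
-/

set_option autoImplicit false
set_option linter.unusedSectionVars false

open IsDedekindDomain NumberField WithZero FractionalIdeal
open scoped nonZeroDivisors

noncomputable section

namespace Fermat.Agent.H82W

open Fermat.Agent.H71D
open Fermat.Agent.H82 (above aboveSet NonSplit congr)

section ce

variable {K : Type*} [Field K] [NumberField K]

theorem finite_cE (A : FI K) : {w : HeightOneSpectrum (𝓞 K) | cE A w ≠ 0}.Finite := by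
  have h := finite_factors (K := K) (A : FractionalIdeal (𝓞 K)⁰ K)
  rw [Filter.eventually_cofinite] at h
  exact h

theorem cE_pow (A : FI K) (n : ℕ) (w : HeightOneSpectrum (𝓞 K)) : cE (A ^ n) w = n * cE A w := by
  rw [cE, Units.val_pow_eq_pow_val, count_pow, cE]

theorem cE_div (A D : FI K) (w : HeightOneSpectrum (𝓞 K)) : cE (A / D) w = cE A w - cE D w := by
  rw [div_eq_mul_inv, cE_mul, cE_inv, sub_eq_add_neg]

/-- A fractional ideal is determined by its orders. -/
theorem ext_cE {A D : FI K} (h : ∀ w, cE A w = cE D w) : A = D := by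
  apply Units.ext
  rw [← finprod_heightOneSpectrum_factorization' (K := K) A.ne_zero,
    ← finprod_heightOneSpectrum_factorization' (K := K) D.ne_zero]
  exact finprod_congr fun w => by
    have h1 : count K w (A : FractionalIdeal (𝓞 K)⁰ K) = count K w (D : FractionalIdeal (𝓞 K)⁰ K) :=
      h w
    rw [h1]

end ce

section om

variable {E B : Type*} [Field E] [NumberField E] [Field B] [NumberField B] [Algebra E B]
  {S : Finset (HeightOneSpectrum (𝓞 E))}

open Classical in
/-- The local sign. -/
def sgn (B : Type*) [Field B] [NumberField B] [Algebra E B] (S : Finset (HeightOneSpectrum (𝓞 E)))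
    (w : HeightOneSpectrum (𝓞 E)) : ℂ := if w ∉ S ∧ NonSplit B w then -1 else 1

theorem sgn_mul_self (w : HeightOneSpectrum (𝓞 E)) : sgn B S w * sgn B S w = 1 := by
  rw [sgn]; split_ifs <;> norm_num

theorem sgn_ne_zero (w : HeightOneSpectrum (𝓞 E)) : sgn B S w ≠ 0 := by
  intro h
  have := sgn_mul_self (B := B) (S := S) w
  rw [h, zero_mul] at this
  exact zero_ne_one this

theorem om_eq (D : FI E) : om B S D = ∏ᶠ w, sgn B S w ^ cE D w := rfl

theorem mulSupport_om (D : FI E) :
    Function.mulSupport (fun w => sgn B S w ^ cE D w) ⊆ {w | cE D w ≠ 0} := by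
  intro w hw h
  apply hw
  show sgn B S w ^ cE D w = 1
  rw [h, zpow_zero]

theorem finite_mulSupport_om (D : FI E) :
    (Function.mulSupport fun w => sgn B S w ^ cE D w).Finite :=
  (finite_cE D).subset (mulSupport_om D)

theorem om_one : om B S (1 : FI E) = 1 := by
  rw [om_eq]
  simp only [cE_one, zpow_zero, finprod_one]

theorem om_mul (A D : FI E) : om B S (A * D) = om B S A * om B S D := by
  rw [om_eq, om_eq, om_eq, ← finprod_mul_distrib (finite_mulSupport_om A) (finite_mulSupport_om D)]
  refine finprod_congr fun w => ?_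
  rw [cE_mul, zpow_add₀ (sgn_ne_zero w)]

theorem om_sq (D : FI E) : om B S D * om B S D = 1 := by
  rw [om_eq, ← finprod_mul_distrib (finite_mulSupport_om D) (finite_mulSupport_om D)]
  rw [← finprod_one (α := HeightOneSpectrum (𝓞 E))]
  refine finprod_congr fun w => ?_
  rw [← mul_zpow, sgn_mul_self, one_zpow]

theorem om_ne_zero (D : FI E) : om B S D ≠ 0 := by
  intro h
  have := om_sq (B := B) (S := S) D
  rw [h, zero_mul] at this
  exact zero_ne_one this

theorem om_inv (D : FI E) : om B S D⁻¹ = om B S D := by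
  have h1 : om B S (D⁻¹ * D) = 1 := by rw [inv_mul_cancel, om_one]
  rw [om_mul] at h1
  have h2 := om_sq (B := B) (S := S) D
  exact mul_right_cancel₀ (om_ne_zero D) (h1.trans h2.symm)

theorem om_div (A D : FI E) : om B S (A / D) = om B S A * om B S D := by
  rw [div_eq_mul_inv, om_mul, om_inv]

theorem om_eq_one_or (D : FI E) : om B S D = 1 ∨ om B S D = -1 :=
  mul_self_eq_one_iff.1 (om_sq D)

theorem norm_om (D : FI E) : ‖om B S D‖ = 1 := by
  rcases om_eq_one_or (B := B) (S := S) D with h | h <;> rw [h] <;> simp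

/-- `om` only depends on the parities of the orders at the inert places outside `S`. -/
theorem om_congr {A D : FI E}
    (h : ∀ w ∉ S, NonSplit B w → Even (cE A w - cE D w)) : om B S A = om B S D := by
  have h1 : om B S (A / D) = 1 := by
    rw [om_eq, ← finprod_one (α := HeightOneSpectrum (𝓞 E))]
    refine finprod_congr fun w => ?_
    by_cases hw : w ∉ S ∧ NonSplit B w
    · obtain ⟨k, hk⟩ := h w hw.1 hw.2
      rw [cE_div, hk, zpow_add₀ (sgn_ne_zero w), ← mul_zpow, sgn_mul_self, one_zpow]
    · rw [sgn, if_neg hw, one_zpow]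
  rw [om_div] at h1
  exact mul_right_cancel₀ (om_ne_zero D) (h1.trans (om_sq D).symm)

theorem om_congr' {A D : FI E} (h : ∀ w ∉ S, cE A w = cE D w) : om B S A = om B S D :=
  om_congr fun w hw _ => by rw [h w hw, sub_self]; exact Even.zero

end om

section aN

variable {E : Type*} [Field E] [NumberField E]

theorem aN_one : aN (1 : FI E) = 1 := by
  rw [aN, Units.val_one, absNorm_one, Rat.cast_one]

theorem aN_mul (A D : FI E) : aN (A * D) = aN A * aN D := by
  rw [aN, Units.val_mul, map_mul, Rat.cast_mul]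
  rfl

theorem aN_pos (A : FI E) : 0 < aN A := by
  rw [aN, Rat.cast_pos]
  refine lt_of_le_of_ne (absNorm_nonneg _) fun h => ?_
  exact A.ne_zero (absNorm_eq_zero_iff.1 h.symm)

theorem aN_ne_zero (A : FI E) : aN A ≠ 0 := (aN_pos A).ne'

theorem aN_inv (A : FI E) : aN A⁻¹ = (aN A)⁻¹ := by
  have h : aN (A⁻¹ * A) = 1 := by rw [inv_mul_cancel, aN_one]
  rw [aN_mul] at h
  exact eq_inv_of_mul_eq_one_left h

theorem aN_div (A D : FI E) : aN (A / D) = aN A / aN D := by
  rw [div_eq_mul_inv, aN_mul, aN_inv, div_eq_mul_inv]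

theorem aN_pow (A : FI E) (n : ℕ) : aN (A ^ n) = aN A ^ n := by
  induction n with
  | zero => rw [pow_zero, pow_zero, aN_one]
  | succ n ih => rw [pow_succ, pow_succ, aN_mul, ih]

/-- The norm of a principal fractional ideal. -/
theorem aN_span {A : FI E} {x : E}
    (h : (A : FractionalIdeal (𝓞 E)⁰ E) = spanSingleton (𝓞 E)⁰ x) :
    aN A = |(Algebra.norm ℚ x : ℝ)| := by
  rw [aN, h, absNorm_span_singleton, Rat.cast_abs]

end aN

end Fermat.Agent.H82W
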