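import Fermat.Agent.H71U2
import Fermat.Agent.H87VRel
import Fermat.Agent.H82W1
import Fermat.Agent.H33DConj

/-!
# S47, block (D), DE5: unfolding of the theta kernel, part 3

Bridges: from the (C3) bijection of helper33 (fractional ideal `n`) to `HCoef` and to
`H87V.Unfold`.
-/

set_option autoImplicit false
set_option linter.unusedSectionVars false

open IsDedekindDomain NumberField WithZero FractionalIdeal MeasureTheory
open scoped nonZeroDivisors Pointwise

noncomputable section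

namespace Fermat.Agent.H71D

open Fermat.Agent Fermat.Agent.H53Z Fermat.Agent.H71U
open Fermat.Agent.H47 (smulPlace below)
open Fermat.Agent.H82 (above aboveSet NonSplit congr)
open Fermat.Agent.H73U (U1 lg)

/-- fractional ideals with prescribed orders -/
theorem exists_FI {K : Type*} [Field K] [NumberField K] (n : HeightOneSpectrum (𝓞 K) → ℤ)
    (hn : {w | n w ≠ 0}.Finite) : ∃ A : FI K, ∀ w, cE A w = n w := by
  have h0 : (∏ᶠ v : HeightOneSpectrum (𝓞 K), (v.asIdeal : FractionalIdeal (𝓞 K)⁰ K) ^ n v) ≠ 0 := by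
    refine finprod_induction (p := fun z : FractionalIdeal (𝓞 K)⁰ K => z ≠ 0) one_ne_zero
      (fun x y hx hy => mul_ne_zero hx hy) fun v => ?_
    exact zpow_ne_zero _ (coeIdeal_ne_zero.mpr v.ne_bot)
  refine ⟨Units.mk0 _ h0, fun w => ?_⟩
  rw [cE, Units.val_mk0]
  refine count_finprod K w n ?_
  rw [Filter.eventually_cofinite]
  exact hn

variable {E B : Type} [Field E] [NumberField E] [Field B] [NumberField B] [Algebra E B]
  {J : Type*} [Fintype J] {d : DD E B J}

theorem finite_smulPlace_cE (τ : B ≃ₐ[E] B) (h : FI B) :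
    {P : HeightOneSpectrum (𝓞 B) | cE h (smulPlace τ P) ≠ 0}.Finite := by
  refine (finite_cE h).preimage (Set.injOn_of_injective ?_)
  intro P Q hPQ
  have h3 := congrArg (smulPlace τ⁻¹) hPQ
  have h4 : ∀ P : HeightOneSpectrum (𝓞 B), smulPlace τ⁻¹ (smulPlace τ P) = P := by
    intro P
    apply HeightOneSpectrum.ext
    rw [Fermat.Agent.H47.smulPlace_asIdeal, Fermat.Agent.H47.smulPlace_asIdeal, inv_smul_smul]
  rwa [h4, h4] at h3

/-- the order function of a norm, as a fractional ideal prime to `S` -/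
theorem exists_FI_of_isNm {S : Finset (HeightOneSpectrum (𝓞 E))} {τ : B ≃ₐ[E] B} {h : FI B}
    {n : HeightOneSpectrum (𝓞 E) → ℤ} (hN : IsNm S τ h n) :
    ∃ A : FI E, (∀ w ∈ S, cE A w = 0) ∧ ∀ w ∉ S, cE A w = n w := by
  classical
  obtain ⟨A, hA⟩ := exists_FI (K := E) (fun w => if w ∈ S then 0 else n w) (by
    refine (((finite_cE h).union (finite_smulPlace_cE τ h)).image (below E)).subset ?_
    intro w hw
    by_cases hwS : w ∈ S
    · exact absurd (if_pos hwS) hw
    · have hw' : n w ≠ 0 := by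
        intro h0
        exact hw (by rw [if_neg hwS, h0])
      obtain ⟨P, hP⟩ := Fermat.Agent.H47.above_nonempty (L := B) w
      have hPw : below E P = w := (Fermat.Agent.H47.eq_below_of_mem_above hP).symm
      refine ⟨P, ?_, hPw⟩
      by_contra hcon
      simp only [Set.mem_union, Set.mem_ofPred_eq, not_or, not_not] at hcon
      have h1 := hN.norm P (by
        rintro ⟨v, hv, hPv⟩
        have hPv' : below E P = v := (Fermat.Agent.H47.eq_below_of_mem_above hPv).symm
        rw [hPw] at hPv'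
        rw [← hPv'] at hv
        exact hwS hv)
      rw [hcon.1, hcon.2, hPw, add_zero] at h1
      exact hw' h1.symm)
  refine ⟨A, fun w hw => ?_, fun w hw => ?_⟩
  · rw [hA, if_pos hw]
  · rw [hA, if_neg hw]

/-- The bridge from the form with a fractional ideal `n`. -/
theorem hcoef_of_fin {n : FI E} (hn : ∀ w ∈ d.S, cE n w = 0) (m : Ideal (𝓞 B)) (hm : m = d.idm)
    (H : ∃ (k : ℕ) (h : Fin k → FI B) (g : Fin k → ℂ),
      (∀ i, IsNm d.S d.tau (h i) (cE n)) ∧
      ∀ A D : FI E, (∀ w ∈ d.S, cE A w = 0 ∧ cE D w = 0) → A * D = n → ∀ α ∈ d.US,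
        HasSum (fun p : {p : Fin k × Cls d.tau m // ((p.2.out : Bˣ) : B) ∈ d.VS ∧
          ((p.2.out : Bˣ) : B) ∈ RB B d.S (d.dlt D (h p.1)) ∧ nmU E B p.2.out = α} =>
            g p.1.1 * om B d.S D)
          (H33D.cf d.chi (spanSingleton (𝓞 E)⁰ (α : E) *
            ((A * D⁻¹ : FI E) : FractionalIdeal (𝓞 E)⁰ E)))) :
    HCoef d (cE n) := by
  subst hm
  obtain ⟨k, h, g, hh, H⟩ := H
  refine ⟨Fin k, inferInstance, h, g, hh, fun A D hAD hn' α hα => ?_⟩
  refine H A D hAD (H82W.ext_cE fun w => ?_) α hα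
  by_cases hw : w ∈ d.S
  · rw [cE_mul, (hAD w hw).1, (hAD w hw).2, hn w hw, add_zero]
  · exact hn' w hw

/-- **(UNFOLD)** in the shape of `H87V.Unfold`. -/
theorem unfold_of (hd : d.Good)
    (H : ∀ n : FI E, (∀ w ∈ d.S, cE n w = 0) → (∃ h₀ : FI B, IsNm d.S d.tau h₀ (cE n)) →
      HCoef d (cE n)) : H87V.Unfold d := by
  rintro n ⟨h₀, hh₀⟩
  obtain ⟨A, hA, hA'⟩ := exists_FI_of_isNm hh₀
  obtain ⟨ι, hι, h, g, c, R, -, hh, hser⟩ := unfold hd
    (H A hA ⟨h₀, hh₀.congr fun w hw => (hA' w hw).symm⟩)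
  refine ⟨ι, hι, h, g, c, fun i => (hh i).congr hA', fun A' D hAD hn u w => ?_⟩
  exact hser A' D hAD (fun w hw => (hn w hw).trans (hA' w hw).symm) u w

/-- **(NBAR-ser)** from (NBAR-theta), the coefficient identity and the vanishing. -/
theorem nbarSer_of_hcoef (hd : d.Good) {CS : Set E}
    (hCS : ∀ α ∈ d.US, ∀ c ∈ CS, ((α⁻¹ : Eˣ) : E) * c ∈ CS)
    (H : ∀ n : FI E, (∀ w ∈ d.S, cE n w = 0) → (∃ h₀ : FI B, IsNm d.S d.tau h₀ (cE n)) →
      HCoef d (cE n)) (hZ : H87V.ZeroSer d) (hθ : NbarTheta d CS) : NbarSer d CS :=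
  H87V.nbarSer_of hd hCS hθ (unfold_of hd H) hZ

/-- The set of small elements at `S` is stable under the units at `S`. -/
theorem smul_mem_CS (hd : d.Good) (M : ℕ) {α : Eˣ} (hα : α ∈ d.US) {c : E}
    (hc : c ∈ {c : E | ∀ w ∈ d.S, w.valuation E c ≤ exp (-(M : ℤ))}) :
    ((α⁻¹ : Eˣ) : E) * c ∈ {c : E | ∀ w ∈ d.S, w.valuation E c ≤ exp (-(M : ℤ))} := by
  intro w hw
  have h1 := hd.US_unit α hα w hw
  rw [map_mul, Units.val_inv_eq_inv_val, map_inv₀, h1, inv_one, one_mul]
  exact hc w hw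

end Fermat.Agent.H71D
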