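import Fermat.Agent.H87VZero
import Fermat.Agent.H71U3
import Fermat.Agent.H33DUnf

/-!
# S47, block (D), DE5 (helper87): (NBAR-ser) from (NBAR-theta), unconditional form
-/

set_option autoImplicit false

open IsDedekindDomain NumberField WithZero FractionalIdeal MeasureTheory
open scoped nonZeroDivisors Pointwise

noncomputable section

namespace Fermat.Agent.H87V

open Fermat.Agent Fermat.Agent.H53Z Fermat.Agent.H71D

variable {E B : Type} [Field E] [NumberField E] [Field B] [NumberField B] [Algebra E B]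
  {J : Type*} [Fintype J] {d : DD E B J}

theorem mS_eq_idm : H33D.mS d = d.idm := by
  ext x
  rw [H33D.mem_mS, mem_idm]

/-- the coefficient identity -/
theorem hcoef (hG : d.Good) {n : FI E} (hn : ∀ w ∈ d.S, cE n w = 0)
    (hne : ∃ h₀ : FI B, IsNm d.S d.tau h₀ (cE n)) : HCoef d (cE n) := by
  classical
  obtain ⟨k, h, hh, H⟩ := H33D.exists_hcoef hG hn hne
  refine hcoef_of_fin hn (H33D.mS d) mS_eq_idm ⟨k, h, fun i => H33D.chiF d.chi
    (H33D.conj d.tau ((h i : FI B) : FractionalIdeal (𝓞 B)⁰ B)), hh, fun A D hAD hn' α hα => ?_⟩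
  have h1 := H A D (fun w hw => (hAD w hw).1) (fun w hw => (hAD w hw).2) hn' α
  rw [if_pos hα] at h1
  let ε : {p : Fin k × H71U.Cls d.tau (H33D.mS d) // ((p.2.out : Bˣ) : B) ∈ d.VS ∧
      ((p.2.out : Bˣ) : B) ∈ RB B d.S (d.dlt D (h p.1)) ∧ H71U.nmU E B p.2.out = α} ≃
      {p : Fin k × H71U.Cls d.tau (H33D.mS d) //
        (p.2.out : Bˣ) ∈ H33D.LT d D (h p.1) ∧ H71U.nmU E B p.2.out = α} :=
    Equiv.subtypeEquivRight fun p => by
      show _ ↔ ((_ ∧ _) ∧ _)
      rw [and_assoc]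
  exact (Equiv.hasSum_iff ε).2 h1

/-- **(NBAR-ser)** from (NBAR-theta). -/
theorem nbarSer_of_theta (hG : d.Good) {CS : Set E}
    (hCS : ∀ α ∈ d.US, ∀ c ∈ CS, ((α⁻¹ : Eˣ) : E) * c ∈ CS) (hθ : NbarTheta d CS) :
    NbarSer d CS :=
  nbarSer_of_hcoef hG hCS (fun _ hn hne => hcoef hG hn hne) (zeroSer hG) hθ

end Fermat.Agent.H87V
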