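import Fermat.Agent.H78RL
import Fermat.Agent.H71UDefs

/-!
# S47, package DE2: the key identity in the notation of `H71UDefs` (helper78)
-/

set_option autoImplicit false
set_option linter.unusedSectionVars false

open IsDedekindDomain HeightOneSpectrum WithZero NumberField
open scoped Pointwise

noncomputable section

namespace Fermat.Agent.H78R

open Fermat.Agent.H7.Z
open Fermat.Agent.H47 (smulPlace below)
open Fermat.Agent.H82 (above aboveSet NonSplit)
open Fermat.Agent.H78G Fermat.Agent.H71D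

variable {E B : Type*} [Field E] [NumberField E] [Field B] [NumberField B] [Algebra E B]

theorem isGalois_of (hdeg : Module.finrank E B = 2) : IsGalois E B := by
  have h1 : Algebra.IsQuadraticExtension E B := ⟨hdeg⟩
  infer_instance

theorem psS_eq (S : Finset (HeightOneSpectrum (𝓞 E))) : H71D.psS S = H18D.psS S := rfl

/-- the places above `S` as a finset -/
def SBf (B : Type*) [Field B] [NumberField B] [Algebra E B]
    (S : Finset (HeightOneSpectrum (𝓞 E))) : Finset (HeightOneSpectrum (𝓞 B)) :=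
  (H65.finite_aboveSet (L := B) (T := (S : Set (HeightOneSpectrum (𝓞 E))))
    S.finite_toSet).toFinset

theorem mem_SBf' {S : Finset (HeightOneSpectrum (𝓞 E))} {P : HeightOneSpectrum (𝓞 B)} :
    P ∈ SBf B S ↔ P ∈ aboveSet B (S : Set (HeightOneSpectrum (𝓞 E))) :=
  Set.Finite.mem_toFinset _

theorem mem_SBf {S : Finset (HeightOneSpectrum (𝓞 E))} {P : HeightOneSpectrum (𝓞 B)} :
    P ∈ SBf B S ↔ below E P ∈ S := by
  rw [mem_SBf', mem_aboveSet_iff]
  rfl

theorem RB_eq (S : Finset (HeightOneSpectrum (𝓞 E))) (δ : HeightOneSpectrum (𝓞 B) → ℤ) :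
    RB B S δ = RL (SBf B S : Set (HeightOneSpectrum (𝓞 B))) δ := by
  ext x
  rw [mem_RB, mem_RL]
  constructor
  · exact fun h P hP => h P (fun hh => hP (mem_SBf'.2 hh))
  · exact fun h P hP => h P (fun hh => hP (mem_SBf'.1 hh))


theorem finite_cE {K : Type*} [Field K] [NumberField K] (A : FI K) : {w | cE A w ≠ 0}.Finite := by
  have h := FractionalIdeal.finite_factors (K := K) (A : FractionalIdeal (nonZeroDivisors (𝓞 K)) K)
  exact h

theorem finite_below {T : Set (HeightOneSpectrum (𝓞 E))} (hT : T.Finite) :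
    {P : HeightOneSpectrum (𝓞 B) | below E P ∈ T}.Finite := by
  refine (H65.finite_aboveSet (L := B) hT).subset fun P hP => ?_
  rw [mem_aboveSet_iff]
  exact hP

variable {J : Type*} [Fintype J] {d : DD E B J} {A D : FI E} {h : FI B}

theorem finite_dlt (hd : d.Good) : {P | d.dlt D h P ≠ 0}.Finite := by
  have := isGalois_of hd.deg
  refine ((finite_below (B := B) (finite_cE D)).union
    ((finite_cE h).image (smulPlace d.tau))).subset fun P hP => ?_
  by_cases h1 : cE D (below E P) = 0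
  · right
    refine ⟨smulPlace d.tau P, fun h2 => hP ?_, smulPlace_smulPlace hd.deg hd.tau_ne P⟩
    unfold DD.dlt
    rw [h1, h2, sub_zero]
  · exact Or.inl h1

theorem lat2_of (hd : d.Good)
    (hunB : ∀ P ∉ aboveSet B (d.S : Set (HeightOneSpectrum (𝓞 E))), Unram P)
    (hh : IsNm d.S d.tau h (cE (A * D))) :
    Lat2 d.tau d.S (SBf B d.S) (d.dlt D h) (fun w => cE D w - cE A w) := by
  have := isGalois_of hd.deg
  refine ⟨fun P => mem_SBf, fun P hP => ?_, fun P hP => hunB P fun hh => hP (mem_SBf'.2 hh),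
    (finite_dlt hd).subset fun P hP => hP.2, fun P hP => ?_⟩
  · exact hd.unr _ (fun hh => hP (mem_SBf.2 hh)) P (H47.mem_above_below P)
  · have h1 := hh.norm P (fun hh => hP (mem_SBf'.2 hh))
    rw [cE_mul] at h1
    unfold DD.dlt
    rw [smulPlace_smulPlace hd.deg hd.tau_ne, below_smulPlace]
    linarith

theorem upair_of {S : Finset (HeightOneSpectrum (𝓞 E))} {n g : HeightOneSpectrum (𝓞 E) → ℤ}
    {u u2 : E}
    (hu : ∀ w ∉ S, exp (-g w) = max (w.valuation E u) (exp (n w)) ∧
      w.valuation E u2 ≤ exp (-n w) ∧ w.valuation E (u * u2) ≤ 1 ∧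
      w.valuation E ((1 + u * u2) * u) ≤ exp (n w)) : Upair S n g u u2 :=
  ⟨fun w hw => (hu w hw).1, fun w hw => (hu w hw).2.1, fun w hw => (hu w hw).2.2.1,
    fun w hw => (hu w hw).2.2.2⟩

/-- **The key identity** in the notation of `H71UDefs`. -/
theorem key_DD (hd : d.Good)
    (hunB : ∀ P ∉ aboveSet B (d.S : Set (HeightOneSpectrum (𝓞 E))), Unram P)
    (hh : IsNm d.S d.tau h (cE (A * D))) {u u2 : E} {g : HeightOneSpectrum (𝓞 E) → ℤ}
    (hu : ∀ w ∉ d.S, exp (-g w) = max (w.valuation E u) (exp (cE D w - cE A w)) ∧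
      w.valuation E u2 ≤ exp (-(cE D w - cE A w)) ∧ w.valuation E (u * u2) ≤ 1 ∧
      w.valuation E ((1 + u * u2) * u) ≤ exp (cE D w - cE A w))
    {L2 : AddSubgroup B} (hle : L2 ≤ RB B d.S (d.dlt D h))
    (hT2 : ∀ x ∈ L2, ∀ y ∈ RB B d.S (d.dlt D h), ∀ w ∉ d.S,
      w.valuation E (u * Algebra.trace E B (x * d.tau y)) ≤ 1)
    (hN2 : ∀ x ∈ L2, ∀ w ∉ d.S, w.valuation E (u * Algebra.norm E x) ≤ 1)
    [Finite (RB B d.S (d.dlt D h) ⧸ L2.addSubgroupOf (RB B d.S (d.dlt D h)))] {ξ : B}
    (hξ : ∀ x ∈ L2, ∀ w ∉ d.S, w.valuation E (Algebra.trace E B (x * d.tau ξ)) ≤ 1) :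
    mean (RB B d.S (d.dlt D h)) L2
        (fun x => H71D.psS d.S (u * Algebra.norm E x - Algebra.trace E B (x * d.tau ξ))) =
      open Classical in
      if ξ ∈ RB B d.S (fun P => d.dlt D h P + g (below E P)) then
        H71D.psS d.S (u2 * Algebra.norm E ξ) *
          mean (RB B d.S (d.dlt D h)) L2 (fun x => H71D.psS d.S (u * Algebra.norm E x))
      else 0 := by
  have := isGalois_of hd.deg
  have hl := lat2_of (A := A) hd hunB hh
  have hU := upair_of hu
  rw [psS_eq, RB_eq d.S (fun P => d.dlt D h P + g (below E P))]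
  have key : ∀ L : AddSubgroup B, L = RL (SBf B d.S : Set (HeightOneSpectrum (𝓞 B))) (d.dlt D h) →
      Finite (L ⧸ L2.addSubgroupOf L) → L2 ≤ L →
      (∀ x ∈ L2, ∀ y ∈ L, ∀ w ∉ d.S,
        w.valuation E (u * Algebra.trace E B (x * d.tau y)) ≤ 1) →
      mean L L2 (fun x => H18D.psS d.S
        (u * Algebra.norm E x - Algebra.trace E B (x * d.tau ξ))) =
      open Classical in
      if ξ ∈ RL (SBf B d.S : Set (HeightOneSpectrum (𝓞 B)))
          (fun P => d.dlt D h P + g (below E P)) then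
        H18D.psS d.S (u2 * Algebra.norm E ξ) *
          mean L L2 (fun x => H18D.psS d.S (u * Algebra.norm E x))
      else 0 := by
    rintro _ rfl hfin hle' hT'
    exact hl.key (hdeg := hd.deg) (hτ := hd.tau_ne) hU (L' := L2)
      (fun x hx => ⟨hle' hx, fun y hy w hw => hT' x hx y hy w hw,
        fun w hw => hN2 x hx w hw⟩) (ξ := ξ) (fun x hx w hw => hξ x hx w hw)
  exact key _ (RB_eq _ _) inferInstance hle hT2

/-- a period for the key identity -/
theorem exists_period (hd : d.Good) (D : FI E) (h : FI B) (u : E) (ξ : B) :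
    ∃ δ : HeightOneSpectrum (𝓞 B) → ℤ, {P | δ P ≠ 0}.Finite ∧ (∀ P, d.dlt D h P ≤ δ P) ∧
      ∀ x ∈ RB B d.S δ, (∀ y ∈ RB B d.S (d.dlt D h), ∀ w ∉ d.S,
          w.valuation E (u * Algebra.trace E B (x * d.tau y)) ≤ 1) ∧
        (∀ w ∉ d.S, w.valuation E (u * Algebra.norm E x) ≤ 1) ∧
        ∀ w ∉ d.S, w.valuation E (Algebra.trace E B (x * d.tau ξ)) ≤ 1 := by
  classical
  have := isGalois_of hd.deg
  have hexE : ∀ w : HeightOneSpectrum (𝓞 E), ∃ e : ℕ, w.valuation E u ≤ exp (e : ℤ) ∧
      (w.valuation E u ≤ 1 → e = 0) := by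
    intro w
    by_cases h1 : w.valuation E u ≤ 1
    · exact ⟨0, by simpa using h1, fun _ => rfl⟩
    · obtain ⟨e, he⟩ := exists_le_exp w u
      exact ⟨e, he, fun h2 => absurd h2 h1⟩
  have hexB : ∀ P : HeightOneSpectrum (𝓞 B), ∃ e : ℕ, P.valuation B ξ ≤ exp (e : ℤ) ∧
      (P.valuation B ξ ≤ 1 → e = 0) := by
    intro P
    by_cases h1 : P.valuation B ξ ≤ 1
    · exact ⟨0, by simpa using h1, fun _ => rfl⟩
    · obtain ⟨e, he⟩ := exists_le_exp P ξ
      exact ⟨e, he, fun h2 => absurd h2 h1⟩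
  choose e he he' using hexE
  choose f hf hf' using hexB
  let δ : HeightOneSpectrum (𝓞 B) → ℤ := fun P => |d.dlt D h P| + |d.dlt D h (smulPlace d.tau P)|
    + e (below E P) + f (smulPlace d.tau P)
  have hss := smulPlace_smulPlace hd.deg hd.tau_ne
  have hfinτ : ∀ {T : Set (HeightOneSpectrum (𝓞 B))}, T.Finite →
      {P | smulPlace d.tau P ∈ T}.Finite := by
    intro T hT
    refine (hT.image (smulPlace d.tau)).subset fun P hP => ?_
    exact ⟨smulPlace d.tau P, hP, hss P⟩
  have hpos : ∀ P, 0 ≤ |d.dlt D h P| := fun P => abs_nonneg _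
  have hef : ∀ P : HeightOneSpectrum (𝓞 B), (0 : ℤ) ≤ e (below E P) := fun P => Int.natCast_nonneg _
  have hff : ∀ P : HeightOneSpectrum (𝓞 B), (0 : ℤ) ≤ f P := fun P => Int.natCast_nonneg _
  have hram : ∀ w ∉ d.S, ∀ P ∈ above B w, (below E P).asIdeal.ramificationIdx' P.asIdeal = 1 := by
    intro w hw P hP
    rw [← H47.eq_below_of_mem_above hP]
    exact hd.unr w hw P hP
  have hnot : ∀ w ∉ d.S, ∀ P ∈ above B w,
      P ∉ aboveSet B (d.S : Set (HeightOneSpectrum (𝓞 E))) := by
    intro w hw P hP hh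
    rw [mem_aboveSet_iff, ← H47.eq_below_of_mem_above hP] at hh
    exact hw hh
  refine ⟨δ, ?_, fun P => ?_, fun x hx => ⟨fun y hy w hw => ?_, fun w hw => ?_, fun w hw => ?_⟩⟩
  · refine ((((finite_dlt (D := D) (h := h) hd).union
      (hfinτ (finite_dlt (D := D) (h := h) hd))).union
      (finite_below (B := B) (finite_not_integral u))).union
      (hfinτ (finite_not_integral ξ))).subset fun P hP => ?_
    by_contra hne
    simp only [Set.mem_union, not_or, Set.mem_ofPred_eq, not_not] at hne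
    obtain ⟨⟨⟨h1, h2⟩, h3⟩, h4⟩ := hne
    apply hP
    simp only [δ]
    rw [h1, h2, he' _ h3, hf' _ h4]
    simp
  · simp only [δ]
    have h1 := le_abs_self (d.dlt D h P)
    have h2 := hpos (smulPlace d.tau P)
    have h3 := hef P
    have h4 := hff (smulPlace d.tau P)
    linarith
  · have h0 : u * Algebra.trace E B (x * d.tau y) = Algebra.trace E B (u • x * d.tau y) := by
      rw [smul_mul_assoc, map_smul, smul_eq_mul]
    rw [h0]
    refine H36.Psi.trace_le_one fun P hP => ?_
    rw [map_mul, val_tau hd.deg hd.tau_ne, Algebra.smul_def, map_mul,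
      val_algebraMap (hram w hw P hP)]
    have hτP := H47.smulPlace_mem_above d.tau hP
    refine (mul_le_mul' (mul_le_mul' (he _) (hx P (hnot w hw P hP)))
      (hy _ (hnot w hw _ hτP))).trans ?_
    rw [← exp_add, ← exp_add, ← exp_zero, exp_le_exp]
    simp only [δ]
    have h1 := neg_le_abs (d.dlt D h (smulPlace d.tau P))
    have h2 := hpos P
    have h4 := hff (smulPlace d.tau P)
    linarith
  · obtain ⟨P, hP⟩ := H47.above_nonempty (L := B) w
    have hb := H47.eq_below_of_mem_above hP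
    have hτP := H47.smulPlace_mem_above d.tau hP
    subst hb
    rw [map_mul, val_norm hd.deg hd.tau_ne (hram _ hw P hP)]
    refine (mul_le_mul' (he _) (mul_le_mul' (hx P (hnot _ hw P hP))
      (hx _ (hnot _ hw _ hτP)))).trans ?_
    rw [← exp_add, ← exp_add, ← exp_zero, exp_le_exp]
    simp only [δ]
    rw [hss, below_smulPlace]
    have h1 := hpos P
    have h2 := hpos (smulPlace d.tau P)
    have h3 := hff P
    have h4 := hff (smulPlace d.tau P)
    have h5 := hef P
    linarith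
  · refine H36.Psi.trace_le_one fun P hP => ?_
    rw [map_mul, val_tau hd.deg hd.tau_ne]
    refine (mul_le_mul' (hx P (hnot w hw P hP)) (hf _)).trans ?_
    rw [← exp_add, ← exp_zero, exp_le_exp]
    simp only [δ]
    have h1 := hpos P
    have h2 := hpos (smulPlace d.tau P)
    have h5 := hef P
    linarith

end Fermat.Agent.H78R
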