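import Mathlib

/-! # Level invariance of the Weil representation without Gauss sums (helper78)

Package `[D-GAUSS]` of `S47`. `E`, `B` are fields, `N : B → E` a multiplicative quadratic form with
polar form `T`, `ψ` an additive character of `E`. For an abstract translation invariant integral on a
space of functions `B → ℂ` we compute the integral operator with kernel
`ψ ((a N x - T (x, y) + d N y) / c)` on the characteristic function of a coset `y₀ + L`. -/

set_option autoImplicit false
set_option linter.style.haveILetI false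

namespace Fermat.Agent.H78G

open scoped Classical in
/-- the characteristic function of the coset `y₀ + L` -/
noncomputable def chi {B : Type*} [AddCommGroup B] (L : AddSubgroup B) (y₀ : B) (y : B) : ℂ :=
  if y - y₀ ∈ L then 1 else 0

section chi

variable {B : Type*} [AddCommGroup B] {L : AddSubgroup B}

theorem chi_of_mem {y₀ y : B} (h : y - y₀ ∈ L) : chi L y₀ y = 1 := if_pos h

theorem chi_of_notMem {y₀ y : B} (h : y - y₀ ∉ L) : chi L y₀ y = 0 := if_neg h

theorem chi_add_right {y₀ y z : B} : chi L y₀ (y + z) = chi L (y₀ - z) y := by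
  have h : y + z - y₀ = y - (y₀ - z) := by abel
  unfold chi
  rw [h]

theorem chi_congr {y₀ y₁ : B} (h : y₁ - y₀ ∈ L) : chi L y₀ = chi L y₁ := by
  funext y
  by_cases hy : y - y₀ ∈ L
  · rw [chi_of_mem hy, chi_of_mem]
    have := L.sub_mem hy h
    rwa [sub_sub_sub_cancel_right] at this
  · rw [chi_of_notMem hy, chi_of_notMem]
    intro hy'
    apply hy
    have := L.add_mem hy' h
    rwa [sub_add_sub_cancel] at this

end chi

/-- a quadratic form `N` with polar form `T` -/
structure NT (E B : Type*) [Field E] [Field B] [Algebra E B] where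
  N : B → E
  T : B → B → E
  N_add : ∀ x y, N (x + y) = N x + T x y + N y
  T_add : ∀ x y z, T x (y + z) = T x y + T x z
  N_smul : ∀ (e : E) (x : B), N (e • x) = e ^ 2 * N x
  T_smul : ∀ (e : E) (x y : B), T x (e • y) = e * T x y
  T_comm : ∀ x y, T x y = T y x

namespace NT

variable {E B : Type*} [Field E] [Field B] [Algebra E B] (D : NT E B)

theorem add_T (x y z : B) : D.T (x + y) z = D.T x z + D.T y z := by
  rw [D.T_comm, D.T_add, D.T_comm z x, D.T_comm z y]

theorem smul_T (e : E) (x y : B) : D.T (e • x) y = e * D.T x y := by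
  rw [D.T_comm, D.T_smul, D.T_comm y x]

theorem N_zero : D.N 0 = 0 := by
  have := D.N_smul 0 0
  simpa using this

theorem T_zero (x : B) : D.T x 0 = 0 := by
  have := D.T_smul 0 x 0
  simpa using this

theorem T_neg (x y : B) : D.T x (-y) = - D.T x y := by
  have := D.T_smul (-1) x y
  simpa using this

theorem T_sub (x y z : B) : D.T x (y - z) = D.T x y - D.T x z := by
  rw [sub_eq_add_neg, D.T_add, D.T_neg, sub_eq_add_neg]

theorem sub_T (x y z : B) : D.T (x - y) z = D.T x z - D.T y z := by
  rw [D.T_comm, D.T_sub, D.T_comm z x, D.T_comm z y]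

theorem T_self (x : B) : D.T x x = 2 * D.N x := by
  have h1 := D.N_add x x
  have h2 := D.N_smul 2 x
  rw [two_smul] at h2
  rw [h2] at h1
  linear_combination -h1

end NT

variable {E B : Type*} [Field E] [Field B] [Algebra E B] (D : NT E B) (ψ : AddChar E ℂ)

/-- an abstract translation invariant integral -/
structure SInt where
  S : Submodule ℂ (B → ℂ)
  I : (B → ℂ) → ℂ
  add : ∀ f ∈ S, ∀ g ∈ S, I (f + g) = I f + I g
  smul : ∀ (c : ℂ), ∀ f ∈ S, I (c • f) = c * I f
  trans : ∀ f ∈ S, ∀ z : B, I (fun y => f (y + z)) = I f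
  S_trans : ∀ f ∈ S, ∀ z : B, (fun y => f (y + z)) ∈ S
  S_N : ∀ f ∈ S, ∀ e : E, (fun y => f y * ψ (e * D.N y)) ∈ S
  S_T : ∀ f ∈ S, ∀ x : B, (fun y => f y * ψ (D.T x y)) ∈ S

/-- the phase of the kernel -/
def phase (a c d : E) (x y : B) : E := (a * D.N x - D.T x y + d * D.N y) / c

variable {D ψ}

theorem chi_phase_mem (J : SInt D ψ) {L : AddSubgroup B} {y₀ : B} (hS : chi L y₀ ∈ J.S)
    (a c d : E) (x : B) : (fun y => chi L y₀ y * ψ (phase D a c d x y)) ∈ J.S := by
  have h1 := J.S_T _ (J.S_N _ hS (d / c)) ((-c⁻¹) • x)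
  have h2 := J.S.smul_mem (ψ (a * D.N x / c)) h1
  have h3 : (fun y => chi L y₀ y * ψ (phase D a c d x y)) =
      ψ (a * D.N x / c) • fun y => chi L y₀ y * ψ (d / c * D.N y) * ψ (D.T ((-c⁻¹) • x) y) := by
    funext y
    simp only [Pi.smul_apply, smul_eq_mul, phase]
    rw [show (a * D.N x - D.T x y + d * D.N y) / c =
      a * D.N x / c + (d / c * D.N y + D.T ((-c⁻¹) • x) y) by
        rw [D.smul_T]
        ring, AddChar.map_add_eq_mul, AddChar.map_add_eq_mul]
    ring
  rw [h3]
  exact h2

/-- the kernel applied to the characteristic function of a coset: the coset itself. -/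
theorem gauss_mem (J : SInt D ψ) {L : AddSubgroup B} {y₀ : B} (hS : chi L y₀ ∈ J.S)
    {a b c d : E} (hc : c ≠ 0) (hdet : a * d - b * c = 1)
    (haL : ∀ l ∈ L, a • l ∈ L)
    (hbN : ∀ l ∈ L, ψ (b * D.N l) = 1) (habN : ∀ l ∈ L, ψ (a * b * D.N l) = 1)
    (hbT : ∀ l ∈ L, ψ (b * D.T y₀ l) = 1)
    (hbd : ψ (b * (d - 1) * D.N y₀) = 1) (hd₀ : (d - 1) • y₀ ∈ L) {x : B} (hx : x - y₀ ∈ L) :
    J.I (fun y => chi L y₀ y * ψ (phase D a c d x y)) =
      ψ (b * D.N y₀) * J.I (fun l => chi L 0 l * ψ (d * D.N l / c)) := by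
  set z := x - d • y₀ with hz
  have hzL : z ∈ L := by
    have h : z = (x - y₀) - (d - 1) • y₀ := by
      rw [hz, sub_smul, one_smul]
      abel
    rw [h]
    exact L.sub_mem hx hd₀
  have hbTL : ∀ l ∈ L, ψ (b * D.T z l) = 1 := by
    intro l hl
    have h1 := hbN _ (L.add_mem hzL hl)
    rw [D.N_add, mul_add, mul_add, AddChar.map_add_eq_mul, AddChar.map_add_eq_mul, hbN z hzL,
      hbN l hl, one_mul, mul_one] at h1
    exact h1
  have hS' := chi_phase_mem J hS a c d x
  rw [← J.trans _ hS' (y₀ + a • z)]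
  have key : (fun y => chi L y₀ (y + (y₀ + a • z)) * ψ (phase D a c d x (y + (y₀ + a • z)))) =
      ψ (b * D.N y₀) • fun l => chi L 0 l * ψ (d * D.N l / c) := by
    funext l
    simp only [Pi.smul_apply, smul_eq_mul]
    by_cases hl : l ∈ L
    · have hl' : l + (y₀ + a • z) - y₀ ∈ L := by
        rw [show l + (y₀ + a • z) - y₀ = l + a • z by abel]
        exact L.add_mem hl (haL z hzL)
      rw [chi_of_mem hl', chi_of_mem (by rwa [sub_zero]), one_mul, one_mul,
        ← AddChar.map_add_eq_mul]
      -- the computation of the phase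
      have hxz : x = z + d • y₀ := by rw [hz]; abel
      have e1 : phase D a c d x (l + (y₀ + a • z)) =
          (b * D.N y₀ + d * D.N l / c) + (b * D.T z l + (b * D.T y₀ z + (a * b * D.N z +
            b * (d - 1) * D.N y₀))) := by
        have hbc : b * c = a * d - 1 := by linear_combination -hdet
        unfold phase
        rw [hxz]
        simp only [D.N_add, D.T_add, D.add_T, D.T_smul, D.smul_T, D.N_smul, D.T_self]
        rw [D.T_comm z y₀, D.T_comm l y₀, D.T_comm l z]
        field_simp
        linear_combination (d * D.N y₀ + a * D.N z + D.T y₀ z + D.T z l) * hdet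
      rw [e1, AddChar.map_add_eq_mul _ (b * D.N y₀ + d * D.N l / c),
        AddChar.map_add_eq_mul _ (b * D.T z l), AddChar.map_add_eq_mul _ (b * D.T y₀ z),
        AddChar.map_add_eq_mul _ (a * b * D.N z), hbTL l hl, hbT z hzL, habN z hzL, hbd]
      ring
    · have hl' : l + (y₀ + a • z) - y₀ ∉ L := by
        rw [show l + (y₀ + a • z) - y₀ = l + a • z by abel]
        intro h
        apply hl
        have := L.sub_mem h (haL z hzL)
        rwa [add_sub_cancel_right] at this
      rw [chi_of_notMem hl', chi_of_notMem (by rwa [sub_zero]), zero_mul, zero_mul, mul_zero]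
  rw [key]
  have h0 : (fun l => chi L 0 l * ψ (d * D.N l / c)) ∈ J.S := by
    have h1 : chi L 0 ∈ J.S := by
      have := J.S_trans _ hS y₀
      have h2 : (fun y => chi L y₀ (y + y₀)) = chi L 0 := by
        funext y
        rw [chi_add_right, sub_self]
      rwa [h2] at this
    have h2 := J.S_N _ h1 (d / c)
    have h3 : (fun y => chi L 0 y * ψ (d / c * D.N y)) = fun l => chi L 0 l * ψ (d * D.N l / c) := by
      funext y
      rw [div_mul_eq_mul_div]
    rwa [h3] at h2
  exact J.smul _ _ h0

/-- the kernel applied to the characteristic function of a coset: outside of the coset. -/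
theorem gauss_notMem (J : SInt D ψ) {L : AddSubgroup B} {y₀ : B} (hS : chi L y₀ ∈ J.S)
    {a c d : E} (hc : c ≠ 0) {x m : B} (hm : c • m ∈ L)
    (hdT : ∀ l ∈ L, ψ (d * D.T l m) = 1) (hdN : ψ (d * c * D.N m) = 1)
    (hz : ψ (D.T (x - d • y₀) m) ≠ 1) :
    J.I (fun y => chi L y₀ y * ψ (phase D a c d x y)) = 0 := by
  have hS' := chi_phase_mem J hS a c d x
  have h1 := J.trans _ hS' (c • m)
  have key : (fun y => chi L y₀ (y + c • m) * ψ (phase D a c d x (y + c • m))) =
      ψ (- D.T (x - d • y₀) m) • fun y => chi L y₀ y * ψ (phase D a c d x y) := by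
    funext y
    simp only [Pi.smul_apply, smul_eq_mul]
    by_cases hy : y - y₀ ∈ L
    · have hy' : y + c • m - y₀ ∈ L := by
        rw [show y + c • m - y₀ = y - y₀ + c • m by abel]
        exact L.add_mem hy hm
      rw [chi_of_mem hy', chi_of_mem hy, one_mul, one_mul]
      have e1 : phase D a c d x (y + c • m) = - D.T (x - d • y₀) m + (phase D a c d x y +
          (d * D.T (y - y₀) m + d * c * D.N m)) := by
        unfold phase
        simp only [D.N_add, D.T_add, D.T_smul, D.N_smul, D.sub_T, D.smul_T]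
        field_simp
        ring
      rw [e1, AddChar.map_add_eq_mul, AddChar.map_add_eq_mul _ (phase D a c d x y),
        AddChar.map_add_eq_mul _ (d * D.T (y - y₀) m), hdT _ hy, hdN, one_mul, mul_one]
    · have hy' : y + c • m - y₀ ∉ L := by
        rw [show y + c • m - y₀ = y - y₀ + c • m by abel]
        intro h
        apply hy
        have := L.sub_mem h hm
        rwa [add_sub_cancel_right] at this
      rw [chi_of_notMem hy', chi_of_notMem hy, zero_mul, zero_mul, mul_zero]
  rw [key, J.smul _ _ hS'] at h1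
  have hne : ψ (- D.T (x - d • y₀) m) ≠ 1 := by
    intro h
    apply hz
    rw [AddChar.map_neg_eq_inv, inv_eq_one] at h
    exact h
  by_contra hI
  apply hne
  have h2 : (ψ (- D.T (x - d • y₀) m) - 1) *
      J.I (fun y => chi L y₀ y * ψ (phase D a c d x y)) = 0 := by
    rw [sub_mul, one_mul, h1, sub_self]
  rcases mul_eq_zero.mp h2 with h | h
  · linear_combination h
  · exact absurd h hI

/-! ### the Gauss sum -/

theorem chi_zero_of_le {L L' : AddSubgroup B} (h : L' ≤ L) {l : B} (hl : l ∈ L) {y : B}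
    (hy : y - l ∈ L') : y ∈ L := by
  have := L.add_mem (h hy) hl
  rwa [sub_add_cancel] at this

/-- the integral of a function on `L` which is periodic modulo `L'`. -/
theorem I_periodic (J : SInt D ψ) {L L' : AddSubgroup B} (h : L' ≤ L)
    [Fintype (L ⧸ L'.addSubgroupOf L)] (hS' : chi L' 0 ∈ J.S) (f : B → ℂ)
    (hf : ∀ l ∈ L, ∀ l' ∈ L', f (l + l') = f l) :
    J.I (fun y => chi L 0 y * f y) =
      (∑ q : L ⧸ L'.addSubgroupOf L, f (q.out : L)) * J.I (chi L' 0) := by
  classical
  have hSt : ∀ z : B, chi L' z ∈ J.S := by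
    intro z
    have := J.S_trans _ hS' (-z)
    have h2 : (fun y => chi L' 0 (y + -z)) = chi L' z := by
      funext y
      rw [chi_add_right, zero_sub, neg_neg]
    rwa [h2] at this
  have hIt : ∀ z : B, J.I (chi L' z) = J.I (chi L' 0) := by
    intro z
    have := J.trans _ hS' (-z)
    have h2 : (fun y => chi L' 0 (y + -z)) = chi L' z := by
      funext y
      rw [chi_add_right, zero_sub, neg_neg]
    rwa [h2] at this
  have key : (fun y => chi L 0 y * f y) =
      ∑ q : L ⧸ L'.addSubgroupOf L, f (q.out : L) • chi L' ((q.out : L) : B) := by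
    funext y
    rw [Finset.sum_apply]
    simp only [Pi.smul_apply, smul_eq_mul]
    by_cases hy : y ∈ L
    · rw [chi_of_mem (by rwa [sub_zero]), one_mul]
      let q₀ : L ⧸ L'.addSubgroupOf L := QuotientAddGroup.mk ⟨y, hy⟩
      rw [Finset.sum_eq_single q₀]
      · have h1 : (QuotientAddGroup.mk (q₀.out : L) : L ⧸ L'.addSubgroupOf L) =
            QuotientAddGroup.mk ⟨y, hy⟩ := Quotient.out_eq _
        rw [QuotientAddGroup.eq] at h1
        have h2 : y - ((q₀.out : L) : B) ∈ L' := by
          have := (AddSubgroup.mem_addSubgroupOf).mp h1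
          rw [AddSubgroup.coe_add, NegMemClass.coe_neg] at this
          rwa [neg_add_eq_sub] at this
        rw [chi_of_mem h2, mul_one]
        have h3 := hf _ (q₀.out : L).2 _ h2
        rw [add_sub_cancel] at h3
        exact h3
      · intro q _ hq
        rw [chi_of_notMem, mul_zero]
        intro h2
        apply hq
        rw [← Quotient.out_eq q]
        show (QuotientAddGroup.mk (q.out : L) : L ⧸ L'.addSubgroupOf L) = QuotientAddGroup.mk ⟨y, hy⟩
        rw [QuotientAddGroup.eq, AddSubgroup.mem_addSubgroupOf, AddSubgroup.coe_add,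
          NegMemClass.coe_neg, neg_add_eq_sub]
        exact h2
      · intro h
        exact absurd (Finset.mem_univ _) h
    · rw [chi_of_notMem (by rwa [sub_zero]), zero_mul]
      symm
      apply Finset.sum_eq_zero
      intro q _
      rw [chi_of_notMem, mul_zero]
      intro h2
      exact hy (chi_zero_of_le h (q.out : L).2 h2)
  rw [key]
  have hsum : ∀ s : Finset (L ⧸ L'.addSubgroupOf L),
      (∑ q ∈ s, f (q.out : L) • chi L' ((q.out : L) : B)) ∈ J.S ∧
      J.I (∑ q ∈ s, f (q.out : L) • chi L' ((q.out : L) : B)) =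
        (∑ q ∈ s, f (q.out : L)) * J.I (chi L' 0) := by
    intro s
    induction s using Finset.induction_on with
    | empty =>
      rw [Finset.sum_empty, Finset.sum_empty, zero_mul]
      refine ⟨J.S.zero_mem, ?_⟩
      have := J.smul 0 _ hS'
      rwa [zero_smul, zero_mul] at this
    | insert q s hq ih =>
      rw [Finset.sum_insert hq, Finset.sum_insert hq]
      have h1 : f (q.out : L) • chi L' ((q.out : L) : B) ∈ J.S := J.S.smul_mem _ (hSt _)
      refine ⟨J.S.add_mem h1 ih.1, ?_⟩
      rw [J.add _ h1 _ ih.1, J.smul _ _ (hSt _), hIt, ih.2, add_mul]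
  exact (hsum Finset.univ).2

/-- The Gauss sum does not depend on `d` if `d` is a norm in the appropriate sense. -/
theorem gauss_sum_eq (J : SInt D ψ) {L L' : AddSubgroup B} (h : L' ≤ L)
    [Finite (L ⧸ L'.addSubgroupOf L)] (hS' : chi L' 0 ∈ J.S) {c d : E} (u : B → B)
    (hu_add : ∀ x y, u (x + y) = u x + u y)
    (huL : ∀ l ∈ L, u l ∈ L) (huL' : ∀ l ∈ L', u l ∈ L') (hinj : ∀ l ∈ L, u l ∈ L' → l ∈ L')
    (hper : ∀ l ∈ L, ∀ l' ∈ L', ψ (D.N (l + l') / c) = ψ (D.N l / c))
    (hdu : ∀ l ∈ L, ψ (d * D.N l / c) = ψ (D.N (u l) / c)) :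
    J.I (fun l => chi L 0 l * ψ (d * D.N l / c)) = J.I (fun l => chi L 0 l * ψ (D.N l / c)) := by
  classical
  haveI := Fintype.ofFinite (L ⧸ L'.addSubgroupOf L)
  have hper2 : ∀ l ∈ L, ∀ l' ∈ L', ψ (d * D.N (l + l') / c) = ψ (d * D.N l / c) := by
    intro l hl l' hl'
    rw [hdu _ (L.add_mem hl (h hl')), hdu _ hl, hu_add]
    exact hper _ (huL _ hl) _ (huL' _ hl')
  rw [I_periodic J h hS' (fun l => ψ (d * D.N l / c)) hper2,
    I_periodic J h hS' (fun l => ψ (D.N l / c)) hper]
  congr 1
  -- the bijection induced by `u`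
  let U : L →+ L :=
    { toFun := fun l => ⟨u l, huL _ l.2⟩
      map_zero' := by
        apply Subtype.ext
        have := hu_add 0 0
        rw [add_zero] at this
        exact left_eq_add.mp this
      map_add' := fun x y => Subtype.ext (hu_add _ _) }
  have hU : L'.addSubgroupOf L ≤ (L'.addSubgroupOf L).comap U := by
    intro x hx
    rw [AddSubgroup.mem_comap, AddSubgroup.mem_addSubgroupOf]
    exact huL' _ (AddSubgroup.mem_addSubgroupOf.mp hx)
  let Ub : L ⧸ L'.addSubgroupOf L →+ L ⧸ L'.addSubgroupOf L :=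
    QuotientAddGroup.map _ _ U hU
  have hUinj : Function.Injective Ub := by
    rw [injective_iff_map_eq_zero]
    intro q hq
    induction q using QuotientAddGroup.induction_on with
    | H l =>
      have h1 : (QuotientAddGroup.mk (U l) : L ⧸ L'.addSubgroupOf L) = 0 := hq
      rw [QuotientAddGroup.eq_zero_iff, AddSubgroup.mem_addSubgroupOf] at h1
      rw [QuotientAddGroup.eq_zero_iff, AddSubgroup.mem_addSubgroupOf]
      exact hinj _ l.2 h1
  have hUbij : Function.Bijective Ub := Finite.injective_iff_bijective.mp hUinj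
  refine Fintype.sum_bijective Ub hUbij _ _ ?_
  intro q
  rw [hdu _ (q.out : L).2]
  have h1 : (QuotientAddGroup.mk ((Ub q).out : L) : L ⧸ L'.addSubgroupOf L) =
      QuotientAddGroup.mk (U (q.out : L)) := by
    have h2 : (QuotientAddGroup.mk ((Ub q).out : L) : L ⧸ L'.addSubgroupOf L) = Ub q :=
      Quotient.out_eq _
    have h3 : Ub q = QuotientAddGroup.mk (U (q.out : L)) := by
      have h4 : (QuotientAddGroup.mk (q.out : L) : L ⧸ L'.addSubgroupOf L) = q := Quotient.out_eq _
      conv_lhs => rw [← h4]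
      rfl
    rw [h2, h3]
  rw [QuotientAddGroup.eq] at h1
  have h2 := AddSubgroup.mem_addSubgroupOf.mp h1
  rw [AddSubgroup.coe_add, NegMemClass.coe_neg, neg_add_eq_sub] at h2
  have h3 := hper _ ((Ub q).out : L).2 _ h2
  rw [add_sub_cancel] at h3
  exact h3

end Fermat.Agent.H78G
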