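import Mathlib
import Fermat.Agent.H78Gauss

/-! # The Fourier transform of a quadratic exponential on a lattice (helper78)

Package `DE2` of `S47`: mean values of periodic functions on a group, and the key identity
`mean_{x ∈ b} ψ (u N x - T (x, ξ)) = ψ (u' N ξ) · mean_{x ∈ b} ψ (u N x)` for `ξ ∈ u b + b^*`,
`= 0` otherwise. -/

set_option autoImplicit false
set_option linter.style.haveILetI false

namespace Fermat.Agent.H78G

section Mean

variable {B : Type*} [AddCommGroup B]

/-- the mean value over `L / L'` of a function on `L` -/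
noncomputable def mean (L L' : AddSubgroup B) (f : B → ℂ) : ℂ :=
  (Nat.card (L ⧸ L'.addSubgroupOf L) : ℂ)⁻¹ * ∑ᶠ q : L ⧸ L'.addSubgroupOf L, f (q.out : L)

/-- `f` is periodic modulo `L'` on `L`. -/
def Per (L L' : AddSubgroup B) (f : B → ℂ) : Prop := ∀ l ∈ L, ∀ l' ∈ L', f (l + l') = f l

theorem Per.mono {L L' L'' : AddSubgroup B} {f : B → ℂ} (h : Per L L' f) (h' : L'' ≤ L') :
    Per L L'' f := fun l hl l' hl' => h l hl l' (h' hl')

theorem Per.mono_left {L₀ L L' : AddSubgroup B} {f : B → ℂ} (h : Per L L' f) (h' : L₀ ≤ L) :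
    Per L₀ L' f := fun l hl l' hl' => h l (h' hl) l' hl'

/-- the function on the quotient -/
def Per.lift {L L' : AddSubgroup B} {f : B → ℂ} (h : Per L L' f) :
    L ⧸ L'.addSubgroupOf L → ℂ :=
  Quotient.lift (fun l : L => f l) (by
    intro a b hab
    have h1 : (QuotientAddGroup.mk a : L ⧸ L'.addSubgroupOf L) = QuotientAddGroup.mk b :=
      Quotient.sound hab
    rw [QuotientAddGroup.eq] at h1
    have h2 := AddSubgroup.mem_addSubgroupOf.mp h1
    rw [AddSubgroup.coe_add, NegMemClass.coe_neg, neg_add_eq_sub] at h2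
    have h3 := h a a.2 _ h2
    rw [add_sub_cancel] at h3
    exact h3.symm)

theorem Per.lift_mk {L L' : AddSubgroup B} {f : B → ℂ} (h : Per L L' f) (l : L) :
    h.lift (QuotientAddGroup.mk l) = f l := rfl

theorem Per.lift_out {L L' : AddSubgroup B} {f : B → ℂ} (h : Per L L' f)
    (q : L ⧸ L'.addSubgroupOf L) : f (q.out : L) = h.lift q := by
  rw [← h.lift_mk]
  congr 1
  exact Quotient.out_eq q

theorem mean_eq {L L' : AddSubgroup B} {f : B → ℂ} (h : Per L L' f) :
    mean L L' f = (Nat.card (L ⧸ L'.addSubgroupOf L) : ℂ)⁻¹ *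
      ∑ᶠ q : L ⧸ L'.addSubgroupOf L, h.lift q := by
  unfold mean
  congr 1
  exact finsum_congr fun q => h.lift_out q

theorem mean_congr {L L' : AddSubgroup B} {f g : B → ℂ} (h : ∀ l ∈ L, f l = g l) :
    mean L L' f = mean L L' g := by
  unfold mean
  congr 1
  exact finsum_congr fun q => h _ (q.out : L).2

theorem mean_mul_left {L L' : AddSubgroup B} [Finite (L ⧸ L'.addSubgroupOf L)] (c : ℂ)
    (f : B → ℂ) : mean L L' (fun x => c * f x) = c * mean L L' f := by
  haveI := Fintype.ofFinite (L ⧸ L'.addSubgroupOf L)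
  unfold mean
  rw [finsum_eq_sum_of_fintype, finsum_eq_sum_of_fintype, ← Finset.mul_sum]
  ring

/-- invariance under translations -/
theorem mean_shift {L L' : AddSubgroup B} [Finite (L ⧸ L'.addSubgroupOf L)] {f : B → ℂ}
    (h : Per L L' f) {η : B} (hη : η ∈ L) : mean L L' (fun x => f (x + η)) = mean L L' f := by
  have h' : Per L L' (fun x => f (x + η)) := by
    intro l hl l' hl'
    show f (l + l' + η) = f (l + η)
    rw [add_right_comm]
    exact h _ (L.add_mem hl hη) _ hl'
  rw [mean_eq h, mean_eq h']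
  congr 1
  have hb : Function.Bijective
      (fun q : L ⧸ L'.addSubgroupOf L => q + QuotientAddGroup.mk ⟨η, hη⟩) :=
    (Equiv.addRight (QuotientAddGroup.mk ⟨η, hη⟩ : L ⧸ L'.addSubgroupOf L)).bijective
  refine finsum_eq_of_bijective _ hb ?_
  intro q
  induction q using QuotientAddGroup.induction_on with
  | H l => rfl

/-- the mean value vanishes if a translation multiplies the function by a constant `≠ 1`. -/
theorem mean_eq_zero {L L' : AddSubgroup B} [Finite (L ⧸ L'.addSubgroupOf L)] {f : B → ℂ}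
    (h : Per L L' f) {η : B} (hη : η ∈ L) {c : ℂ} (hc : c ≠ 1)
    (hf : ∀ l ∈ L, f (l + η) = c * f l) : mean L L' f = 0 := by
  have h1 := mean_shift h hη
  rw [mean_congr hf, mean_mul_left] at h1
  have h2 : (c - 1) * mean L L' f = 0 := by rw [sub_mul, one_mul, h1, sub_self]
  rcases mul_eq_zero.mp h2 with h3 | h3
  · exact absurd (by linear_combination h3) hc
  · exact h3

/-- The mean value does not depend on the lattice: `L₀ + L' = L`. -/
theorem mean_of_sup {L₀ L L' : AddSubgroup B} {f : B → ℂ} (h : Per L L' f)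
    (h₀ : L₀ ≤ L) (hsup : ∀ l ∈ L, ∃ l₀ ∈ L₀, l - l₀ ∈ L') :
    mean L₀ L' f = mean L L' f := by
  rw [mean_eq h, mean_eq (h.mono_left h₀)]
  let φ : (L₀ ⧸ L'.addSubgroupOf L₀) → (L ⧸ L'.addSubgroupOf L) :=
    Quotient.map' (AddSubgroup.inclusion h₀) (by
      intro a b hab
      rw [QuotientAddGroup.leftRel_apply] at hab ⊢
      exact hab)
  have hφ : Function.Bijective φ := by
    constructor
    · intro a b hab
      induction a using QuotientAddGroup.induction_on with
      | H a =>
        induction b using QuotientAddGroup.induction_on with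
        | H b =>
          have h1 : (QuotientAddGroup.mk (AddSubgroup.inclusion h₀ a) : L ⧸ L'.addSubgroupOf L) =
            QuotientAddGroup.mk (AddSubgroup.inclusion h₀ b) := hab
          rw [QuotientAddGroup.eq] at h1 ⊢
          exact h1
    · intro q
      induction q using QuotientAddGroup.induction_on with
      | H l =>
        obtain ⟨l₀, hl₀, hl⟩ := hsup l l.2
        refine ⟨QuotientAddGroup.mk ⟨l₀, hl₀⟩, ?_⟩
        show (QuotientAddGroup.mk (AddSubgroup.inclusion h₀ ⟨l₀, hl₀⟩) : L ⧸ L'.addSubgroupOf L) =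
          QuotientAddGroup.mk l
        rw [QuotientAddGroup.eq, AddSubgroup.mem_addSubgroupOf, AddSubgroup.coe_add,
          NegMemClass.coe_neg, neg_add_eq_sub]
        exact hl
  congr 1
  · rw [Nat.card_congr (Equiv.ofBijective φ hφ)]
  · refine finsum_eq_of_bijective φ hφ ?_
    intro q
    induction q using QuotientAddGroup.induction_on with
    | H l => rfl

/-- The mean value does not depend on the period. -/
theorem mean_of_le {L L' L'' : AddSubgroup B} {f : B → ℂ} (h : Per L L' f) (h' : L'' ≤ L')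
    [Finite (L ⧸ L''.addSubgroupOf L)] :
    mean L L'' f = mean L L' f := by
  haveI := Fintype.ofFinite (L ⧸ L''.addSubgroupOf L)
  let π : (L ⧸ L''.addSubgroupOf L) →+ (L ⧸ L'.addSubgroupOf L) :=
    QuotientAddGroup.map _ _ (AddMonoidHom.id L) (by
      intro x hx
      rw [AddSubgroup.mem_comap]
      exact AddSubgroup.mem_addSubgroupOf.mpr (h' (AddSubgroup.mem_addSubgroupOf.mp hx)))
  have hπ : Function.Surjective π := by
    intro q
    induction q using QuotientAddGroup.induction_on with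
    | H l => exact ⟨QuotientAddGroup.mk l, rfl⟩
  haveI : Finite (L ⧸ L'.addSubgroupOf L) := Finite.of_surjective π hπ
  haveI := Fintype.ofFinite (L ⧸ L'.addSubgroupOf L)
  rw [mean_eq h, mean_eq (h.mono h'), finsum_eq_sum_of_fintype, finsum_eq_sum_of_fintype]
  classical
  have hfib : ∀ q, (h.mono h').lift q = h.lift (π q) := by
    intro q
    induction q using QuotientAddGroup.induction_on with
    | H l => rfl
  have hcard : ∀ q : L ⧸ L'.addSubgroupOf L,
      (Finset.univ.filter (fun x => π x = q)).card = Nat.card π.ker := by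
    intro q
    obtain ⟨x₀, rfl⟩ := hπ q
    rw [← Fintype.card_subtype, ← Nat.card_eq_fintype_card]
    refine Nat.card_congr ?_
    refine
      { toFun := fun x => ⟨x.1 - x₀, by
          rw [AddMonoidHom.mem_ker, map_sub, x.2, sub_self]⟩
        invFun := fun k => ⟨k.1 + x₀, by
          rw [map_add, AddMonoidHom.mem_ker.mp k.2, zero_add]⟩
        left_inv := fun x => by simp
        right_inv := fun k => by simp }
  have hsum : ∑ q, (h.mono h').lift q =
      (Nat.card π.ker : ℂ) * ∑ q, h.lift q := by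
    rw [← Finset.sum_fiberwise Finset.univ π, Finset.mul_sum]
    refine Finset.sum_congr rfl fun q _ => ?_
    rw [Finset.sum_congr rfl (g := fun _ => h.lift q), Finset.sum_const, hcard, nsmul_eq_mul]
    intro x hx
    rw [Finset.mem_filter] at hx
    rw [hfib, hx.2]
  have htot : Nat.card (L ⧸ L''.addSubgroupOf L) =
      Nat.card π.ker * Nat.card (L ⧸ L'.addSubgroupOf L) := by
    have h1 := AddSubgroup.card_eq_card_quotient_mul_card_addSubgroup π.ker
    rw [h1, mul_comm]
    congr 1
    exact Nat.card_congr (QuotientAddGroup.quotientKerEquivOfSurjective π hπ).toEquiv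
  rw [hsum, htot]
  have hk : (Nat.card π.ker : ℂ) ≠ 0 := by
    exact_mod_cast Nat.card_pos.ne'
  push_cast
  field_simp

end Mean

/-! ### The key identity -/

variable {E B : Type*} [Field E] [Field B] [Algebra E B] {D : NT E B} {ψ : AddChar E ℂ}

/-- the elements of `b` on which the quadratic form `u N` is integral, together with its polar
form with `b`. -/
def ker (D : NT E B) (R : Subring E) (b : AddSubgroup B) (u : E) : AddSubgroup B where
  carrier := {x | x ∈ b ∧ (∀ y ∈ b, u * D.T x y ∈ R) ∧ u * D.N x ∈ R}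
  zero_mem' := ⟨b.zero_mem, fun y _ => by
    rw [D.T_comm, D.T_zero, mul_zero]; exact R.zero_mem, by
    rw [D.N_zero, mul_zero]; exact R.zero_mem⟩
  add_mem' := by
    rintro x y ⟨hx, hx1, hx2⟩ ⟨hy, hy1, hy2⟩
    refine ⟨b.add_mem hx hy, fun z hz => ?_, ?_⟩
    · rw [D.add_T, mul_add]
      exact R.add_mem (hx1 z hz) (hy1 z hz)
    · rw [D.N_add, mul_add, mul_add]
      exact R.add_mem (R.add_mem hx2 (hx1 y hy)) hy2
  neg_mem' := by
    rintro x ⟨hx, hx1, hx2⟩
    refine ⟨b.neg_mem hx, fun z hz => ?_, ?_⟩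
    · rw [D.T_comm, D.T_neg, D.T_comm, mul_neg]
      exact R.neg_mem (hx1 z hz)
    · have h := D.N_smul (-1) x
      rw [neg_smul, one_smul, neg_one_sq, one_mul] at h
      rw [h]
      exact hx2

theorem mem_ker {R : Subring E} {b : AddSubgroup B} {u : E} {x : B} :
    x ∈ ker D R b u ↔ x ∈ b ∧ (∀ y ∈ b, u * D.T x y ∈ R) ∧ u * D.N x ∈ R := Iff.rfl

theorem ker_le (R : Subring E) (b : AddSubgroup B) (u : E) : ker D R b u ≤ b := fun _ h => h.1

/-- the phase `u N x - T (x, ξ)` for `ξ = u η + δ` -/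
theorem phase_key {u : E} (x η δ : B) :
    u * D.N (x + η) - D.T (x + η) (u • η + δ) =
      -(u * D.N η) + (u * D.N x - D.T x δ - D.T η δ) := by
  simp only [D.N_add, D.T_add, D.T_smul, D.add_T, D.T_self]
  ring

/-- **Key identity, on the support.** -/
theorem mean_key {R : Subring E} (hψ : ∀ z ∈ R, ψ z = 1) {b L' : AddSubgroup B} {u u' : E}
    (hL' : L' ≤ ker D R b u) [Finite (b ⧸ L'.addSubgroupOf b)]
    {η δ : B} (hη : η ∈ b) (hδ : ∀ x ∈ b, D.T x δ ∈ R)
    (hδN : u' * D.N δ ∈ R) (huu : u * u' ∈ R) (huN : (1 + u * u') * (u * D.N η) ∈ R) :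
    mean b L' (fun x => ψ (u * D.N x - D.T x (u • η + δ))) =
      ψ (u' * D.N (u • η + δ)) * mean b L' (fun x => ψ (u * D.N x)) := by
  have hper0 : Per b L' (fun x => ψ (u * D.N x)) := by
    intro l hl l' hl'
    obtain ⟨-, h2, h3⟩ := hL' hl'
    show ψ (u * D.N (l + l')) = ψ (u * D.N l)
    rw [D.N_add, mul_add, mul_add, AddChar.map_add_eq_mul, AddChar.map_add_eq_mul,
      D.T_comm, hψ _ (h2 l hl), hψ _ h3, mul_one, mul_one]
  have hper : Per b L' (fun x => ψ (u * D.N x - D.T x (u • η + δ))) := by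
    intro l hl l' hl'
    obtain ⟨h1, h2, h3⟩ := hL' hl'
    show ψ (u * D.N (l + l') - D.T (l + l') (u • η + δ)) = ψ (u * D.N l - D.T l (u • η + δ))
    rw [D.N_add, D.add_T, show u * (D.N l + D.T l l' + D.N l') -
      (D.T l (u • η + δ) + D.T l' (u • η + δ)) = (u * D.N l - D.T l (u • η + δ)) +
      (u * D.T l' l + (u * D.N l' + (-(u * D.T l' η) + -D.T l' δ))) by
        rw [D.T_add, D.T_smul, D.T_comm l l', D.T_add l', D.T_smul]
        ring, AddChar.map_add_eq_mul, hψ (u * D.T l' l + _), mul_one]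
    exact R.add_mem (h2 l hl) (R.add_mem h3 (R.add_mem (R.neg_mem (h2 η hη))
      (R.neg_mem (hδ l' h1))))
  rw [← mean_shift hper hη]
  have h1 : ∀ x ∈ b, ψ (u * D.N (x + η) - D.T (x + η) (u • η + δ)) =
      ψ (-(u * D.N η)) * ψ (u * D.N x) := by
    intro x hx
    rw [phase_key, AddChar.map_add_eq_mul, show u * D.N x - D.T x δ - D.T η δ =
      u * D.N x + (-D.T x δ + -D.T η δ) by ring, AddChar.map_add_eq_mul (ψ := ψ) (u * D.N x),
      hψ (-D.T x δ + -D.T η δ) (R.add_mem (R.neg_mem (hδ x hx)) (R.neg_mem (hδ η hη))), mul_one]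
  rw [mean_congr h1, mean_mul_left]
  congr 1
  have h2 : u' * D.N (u • η + δ) = -(u * D.N η) + ((1 + u * u') * (u * D.N η) +
      (u * u' * D.T η δ + u' * D.N δ)) := by
    rw [D.N_add, D.N_smul, D.smul_T]
    ring
  rw [h2, AddChar.map_add_eq_mul, hψ ((1 + u * u') * (u * D.N η) + _), mul_one]
  exact R.add_mem huN (R.add_mem (R.mul_mem huu (hδ η hη)) hδN)

/-- **Key identity, outside the support.** -/
theorem mean_key_zero {R : Subring E} (hψ : ∀ z ∈ R, ψ z = 1) {b L' : AddSubgroup B} {u : E}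
    [Finite (b ⧸ L'.addSubgroupOf b)] {ξ x₀ : B}
    (hper : Per b L' (fun x => ψ (u * D.N x - D.T x ξ))) (hx₀ : x₀ ∈ ker D R b u)
    (hξ : ψ (D.T x₀ ξ) ≠ 1) :
    mean b L' (fun x => ψ (u * D.N x - D.T x ξ)) = 0 := by
  obtain ⟨h1, h2, h3⟩ := hx₀
  have hne : ψ (-D.T x₀ ξ) ≠ 1 := by
    intro h
    apply hξ
    rw [AddChar.map_neg_eq_inv, inv_eq_one] at h
    exact h
  refine mean_eq_zero hper h1 hne ?_
  intro l hl
  rw [D.N_add, D.add_T, show u * (D.N l + D.T l x₀ + D.N x₀) - (D.T l ξ + D.T x₀ ξ) =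
    -D.T x₀ ξ + ((u * D.N l - D.T l ξ) + (u * D.T x₀ l + u * D.N x₀)) by
      rw [D.T_comm l x₀]; ring, AddChar.map_add_eq_mul,
    AddChar.map_add_eq_mul (ψ := ψ) (u * D.N l - D.T l ξ),
    hψ (u * D.T x₀ l + u * D.N x₀) (R.add_mem (h2 l hl) h3), mul_one]

end Fermat.Agent.H78G
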