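import Fermat.Agent.H66DWeil
import Fermat.Agent.H78Key

/-!
# Means over lattices and the Haar functional (S47, block D, THETA)
-/

set_option linter.all false

namespace Fermat.Agent.H66T

open Fermat.Agent.H66D Fermat.Agent.H78G

section MeanMul

variable {B : Type*} [AddCommGroup B]

/-- the mean of a function over its period, in comparison with a common smaller period -/
theorem mean_eq_mean {L L₁ L₂ : AddSubgroup B} {f : B → ℂ} (hf₁ : Per L L₁ f) (hf₂ : Per L L₂ f)
    [Finite (L ⧸ L₁.addSubgroupOf L)] [Finite (L ⧸ L₂.addSubgroupOf L)] :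
    mean L L₁ f = mean L L₂ f := by
  haveI : Finite (L ⧸ (L₁ ⊓ L₂).addSubgroupOf L) := by
    let e : (L ⧸ (L₁ ⊓ L₂).addSubgroupOf L) →
        (L ⧸ L₁.addSubgroupOf L) × (L ⧸ L₂.addSubgroupOf L) := fun q =>
      (Quotient.map' id (by
        intro a b hab
        rw [QuotientAddGroup.leftRel_apply] at hab ⊢
        exact AddSubgroup.mem_addSubgroupOf.2 (AddSubgroup.mem_addSubgroupOf.1 hab).1) q,
        Quotient.map' id (by
        intro a b hab
        rw [QuotientAddGroup.leftRel_apply] at hab ⊢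
        exact AddSubgroup.mem_addSubgroupOf.2 (AddSubgroup.mem_addSubgroupOf.1 hab).2) q)
    refine Finite.of_injective e ?_
    intro a b hab
    induction a using QuotientAddGroup.induction_on with
    | H a =>
      induction b using QuotientAddGroup.induction_on with
      | H b =>
        have h3 : (QuotientAddGroup.mk a : L ⧸ L₁.addSubgroupOf L) = QuotientAddGroup.mk b :=
          congrArg Prod.fst hab
        have h4 : (QuotientAddGroup.mk a : L ⧸ L₂.addSubgroupOf L) = QuotientAddGroup.mk b :=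
          congrArg Prod.snd hab
        rw [QuotientAddGroup.eq] at h3 h4 ⊢
        exact AddSubgroup.mem_addSubgroupOf.2
          ⟨AddSubgroup.mem_addSubgroupOf.1 h3, AddSubgroup.mem_addSubgroupOf.1 h4⟩
  rw [← mean_of_le (L'' := L₁ ⊓ L₂) hf₁ inf_le_left, ← mean_of_le (L'' := L₁ ⊓ L₂) hf₂ inf_le_right]

end MeanMul

section Haar

variable {V : Type*} [AddCommGroup V] [Module ℚ V] {Λ : AddSubgroup V}

/-- `L` is commensurable with `Λ` -/
def Comm (Λ L : AddSubgroup V) : Prop :=
  (∃ m : ℕ, m ≠ 0 ∧ ∀ x ∈ L, m • x ∈ Λ) ∧ ∃ m : ℕ, m ≠ 0 ∧ mL Λ m ≤ L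

open Classical in
/-- the function `g` on `L`, `0` outside -/
noncomputable def cut (L : AddSubgroup V) (g : V → ℂ) (x : V) : ℂ := if x ∈ L then g x else 0

lemma Comm.finite (hΛ : IsFull Λ) {L : AddSubgroup V} (hL : Comm Λ L) {m : ℕ} (hm : m ≠ 0) :
    Finite (L ⧸ (mL Λ m).addSubgroupOf L) := by
  obtain ⟨⟨n, hn, hn'⟩, -⟩ := hL
  have hf := hΛ.finite_quot hn hm
  have : Finite {q : V ⧸ mL Λ m | ∃ x : V, n • x ∈ Λ ∧ (x : V ⧸ mL Λ m) = q} := hf
  let e : (L ⧸ (mL Λ m).addSubgroupOf L) →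
      {q : V ⧸ mL Λ m | ∃ x : V, n • x ∈ Λ ∧ (x : V ⧸ mL Λ m) = q} := fun q =>
    ⟨((q.out : L) : V), (q.out : L), hn' _ (q.out : L).2, rfl⟩
  refine Finite.of_injective e ?_
  intro a b hab
  have h1 : (((a.out : L) : V) : V ⧸ mL Λ m) = (((b.out : L) : V) : V ⧸ mL Λ m) :=
    congrArg Subtype.val hab
  rw [QuotientAddGroup.eq] at h1
  rw [← QuotientAddGroup.out_eq' a, ← QuotientAddGroup.out_eq' b, QuotientAddGroup.eq,
    AddSubgroup.mem_addSubgroupOf]
  exact h1

lemma cut_level {L L' : AddSubgroup V} {g : V → ℂ} (hg : Per L L' g) (hle : L' ≤ L) {m : ℕ}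
    (hm : m ≠ 0)
    (h1 : ∀ x ∈ L, m • x ∈ Λ) (h2 : mL Λ m ≤ L') : IsLevel Λ (cut L g) m := by
  refine ⟨hm, fun x hx => ?_, fun x y hy => ?_⟩
  · apply h1
    by_contra h
    exact hx (by unfold cut; rw [if_neg h])
  · unfold cut
    have hy' : m • y ∈ L' := h2 (nsmul_mem_mL hy)
    have h3 : x + m • y ∈ L ↔ x ∈ L := L.add_mem_cancel_right (hle hy')
    by_cases hx : x ∈ L
    · rw [if_pos hx, if_pos (h3.2 hx), hg x hx _ hy']
    · rw [if_neg hx, if_neg (fun h => hx (h3.1 h))]

/-- the Haar functional on a function supported on `L` -/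
theorem HIfun_cut (hΛ : IsFull Λ) {L L' : AddSubgroup V} (hL : Comm Λ L)
    {g : V → ℂ} (hg : Per L L' g) (hle : L' ≤ L) (hL' : ∃ m : ℕ, m ≠ 0 ∧ mL Λ m ≤ L') :
    HIfun Λ (cut L g) = HIfun Λ (cut L fun _ => 1) * mean L L' g := by
  obtain ⟨⟨n, hn, hn'⟩, -⟩ := hL
  obtain ⟨l, hl, hl'⟩ := hL'
  set m := n * l with hm
  have hm0 : m ≠ 0 := mul_ne_zero hn hl
  have h1 : ∀ x ∈ L, m • x ∈ Λ := by
    intro x hx
    rw [hm, mul_nsmul]
    exact Λ.nsmul_mem (hn' x hx) l
  have h2 : mL Λ m ≤ L' := by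
    rw [hm, mul_comm]
    exact (mL_mul_le Λ l n).trans hl'
  have hlev := cut_level (Λ := Λ) hg hle hm0 h1 h2
  have hone : Per L L' (fun _ : V => (1 : ℂ)) := fun _ _ _ _ => rfl
  have hlev1 := cut_level (Λ := Λ) hone hle hm0 h1 h2
  have hLc : Comm Λ L := ⟨⟨n, hn, hn'⟩, ⟨m, hm0, h2.trans hle⟩⟩
  have hfin : Finite (L ⧸ (mL Λ m).addSubgroupOf L) := hLc.finite hΛ hm0
  rw [HIfun_eq hΛ hlev, HIfun_eq hΛ hlev1]
  -- the sum over `V / mΛ` is the sum over `L / mΛ`
  have key : ∀ (u : V → ℂ) (hu : Per L (mL Λ m) u), qS (mL Λ m) (cut L u)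
      = (Nat.card (L ⧸ (mL Λ m).addSubgroupOf L) : ℂ) * mean L (mL Λ m) u := by
    intro u hu
    have hcard : (Nat.card (L ⧸ (mL Λ m).addSubgroupOf L) : ℂ) ≠ 0 := by
      exact_mod_cast Nat.card_pos.ne'
    rw [mean_eq hu, ← mul_assoc, mul_inv_cancel₀ hcard, one_mul]
    have hle' : mL Λ m ≤ L := h2.trans hle
    have hper : ∀ x, ∀ y ∈ mL Λ m, cut L u (x + y) = cut L u x := by
      intro x y hy
      unfold cut
      have h3 : x + y ∈ L ↔ x ∈ L := L.add_mem_cancel_right (hle' hy)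
      by_cases hx : x ∈ L
      · rw [if_pos hx, if_pos (h3.2 hx), hu x hx _ hy]
      · rw [if_neg hx, if_neg (fun h => hx (h3.1 h))]
    let ι : (L ⧸ (mL Λ m).addSubgroupOf L) → (V ⧸ mL Λ m) :=
      Quotient.map' (fun x : L => (x : V)) (by
        intro a b hab
        rw [QuotientAddGroup.leftRel_apply] at hab ⊢
        exact AddSubgroup.mem_addSubgroupOf.1 hab)
    have hι : Function.Injective ι := by
      intro a b hab
      induction a using QuotientAddGroup.induction_on with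
      | H a =>
        induction b using QuotientAddGroup.induction_on with
        | H b =>
          have h1 : (((a : L) : V) : V ⧸ mL Λ m) = (((b : L) : V) : V ⧸ mL Λ m) := hab
          rw [QuotientAddGroup.eq] at h1 ⊢
          exact AddSubgroup.mem_addSubgroupOf.2 h1
    unfold qS
    have h4 : (fun q : V ⧸ mL Λ m => cut L u q.out).support ⊆ Set.range ι := by
      intro q hq
      have hq' : (q.out : V) ∈ L := by
        by_contra h
        exact hq (by show cut L u q.out = 0; unfold cut; rw [if_neg h])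
      exact ⟨((⟨q.out, hq'⟩ : L) : L ⧸ (mL Λ m).addSubgroupOf L), QuotientAddGroup.out_eq' q⟩
    have h5 : (∑ᶠ q : V ⧸ mL Λ m, cut L u q.out) = ∑ᶠ q ∈ Set.range ι, cut L u q.out := by
      rw [← finsum_mem_univ]
      refine finsum_mem_inter_support_eq _ _ _ ?_
      rw [Set.univ_inter]
      exact (Set.inter_eq_right.2 h4).symm
    rw [h5, finsum_mem_range hι]
    refine finsum_congr fun q => ?_
    induction q using QuotientAddGroup.induction_on with
    | H x =>
      have h6 : cut L u (((x : V) : V ⧸ mL Λ m)).out = cut L u x := periodic_out hper x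
      show cut L u (((x : V) : V ⧸ mL Λ m)).out = u x
      rw [h6]
      unfold cut
      rw [if_pos x.2]
  have hgm : Per L (mL Λ m) g := hg.mono h2
  have hfin' : Finite (L ⧸ L'.addSubgroupOf L) := by
    let π : (L ⧸ (mL Λ m).addSubgroupOf L) → (L ⧸ L'.addSubgroupOf L) :=
      Quotient.map' id (by
        intro a b hab
        rw [QuotientAddGroup.leftRel_apply] at hab ⊢
        exact AddSubgroup.mem_addSubgroupOf.2 (h2 (AddSubgroup.mem_addSubgroupOf.1 hab)))
    refine Finite.of_surjective π ?_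
    intro q
    induction q using QuotientAddGroup.induction_on with
    | H x => exact ⟨QuotientAddGroup.mk x, rfl⟩
  have e1 : mean L (mL Λ m) g = mean L L' g := mean_of_le hg h2
  have e2 : mean L (mL Λ m) (fun _ => (1 : ℂ)) = 1 := by
    unfold mean
    haveI := Fintype.ofFinite (L ⧸ (mL Λ m).addSubgroupOf L)
    rw [finsum_eq_sum_of_fintype, Finset.sum_const, Finset.card_univ, nsmul_eq_mul, mul_one,
      Nat.card_eq_fintype_card, inv_mul_cancel₀]
    exact_mod_cast Fintype.card_ne_zero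
  unfold HIm
  rw [key g hgm, key _ (fun _ _ _ _ => rfl), e1, e2]
  ring

end Haar

end Fermat.Agent.H66T
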