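import Fermat.Agent.H97DVol
import Fermat.Agent.H71UDefs
import Fermat.Agent.H66TMean

/-!
# S47, block (D): volume of the lattice `D h̄⁻¹` ([D-VOL], part 2)

* `count_map`: orders of the extension of an ideal;
* `absNorm_FI_below`: the norm of the extension of a divisor of `E` to `B`;
* `absNorm_FI_smul`: invariance of the norm under automorphisms;
* `absNorm_dlt`, `HIfun_dlt`: the norm and the volume of the lattice `D h̄⁻¹`.
-/

set_option autoImplicit false
set_option linter.unusedSectionVars false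

open NumberField IsDedekindDomain HeightOneSpectrum WithZero FractionalIdeal
open scoped nonZeroDivisors Pointwise

noncomputable section

namespace Fermat.Agent.H97D

open Fermat.Agent.H66D Fermat.Agent.H71D
open Fermat.Agent.H47 (smulPlace below)
open Fermat.Agent.H82 (above aboveSet NonSplit)

section Count

variable {R : Type*} [CommRing R] [IsDedekindDomain R] {K : Type*} [Field K] [Algebra R K]
  [IsFractionRing R K]

theorem count_eq_multiplicity (P : HeightOneSpectrum R) {J : Ideal R} (hJ : J ≠ ⊥) :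
    count K P (J : FractionalIdeal R⁰ K) = (multiplicity P.asIdeal J : ℤ) := by
  classical
  rw [count_coe K P hJ, Ideal.count_associates_factors_eq hJ P.isPrime P.ne_bot,
    count_normalizedFactors_eq_multiplicity hJ]

theorem ext_count {I I' : FractionalIdeal R⁰ K} (hI : I ≠ 0) (hI' : I' ≠ 0)
    (h : ∀ P : HeightOneSpectrum R, count K P I = count K P I') : I = I' := by
  rw [← FI_count hI, ← FI_count hI']
  congr 1
  funext P
  exact h P

end Count

section Ext

variable {E B : Type*} [Field E] [NumberField E] [Field B] [NumberField B] [Algebra E B]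

/-- orders of the extension of an ideal -/
theorem count_map {I : Ideal (𝓞 E)} (hI : I ≠ ⊥) (P : HeightOneSpectrum (𝓞 B)) :
    count B P (I.map (algebraMap (𝓞 E) (𝓞 B)) : FractionalIdeal (𝓞 B)⁰ B) =
      ((below E P).asIdeal.ramificationIdx' P.asIdeal : ℤ) *
        count E (below E P) (I : FractionalIdeal (𝓞 E)⁰ E) := by
  have hmap : I.map (algebraMap (𝓞 E) (𝓞 B)) ≠ ⊥ := Ideal.map_ne_bot_of_ne_bot hI
  rw [count_eq_multiplicity P hmap, count_eq_multiplicity _ hI]
  have h1 : P.asIdeal.LiesOver (below E P).asIdeal := ⟨rfl⟩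
  have h := Ideal.IsDedekindDomain.emultiplicity_map_eq_ramificationIdx'_mul (S := 𝓞 B) hI
    (below E P).irreducible P.irreducible P.ne_bot
  have f1 : FiniteMultiplicity P.asIdeal (I.map (algebraMap (𝓞 E) (𝓞 B))) :=
    FiniteMultiplicity.of_prime_left P.prime hmap
  have f2 : FiniteMultiplicity (below E P).asIdeal I :=
    FiniteMultiplicity.of_prime_left (below E P).prime hI
  rw [f1.emultiplicity_eq_multiplicity, f2.emultiplicity_eq_multiplicity] at h
  exact_mod_cast h

theorem finite_below {n : HeightOneSpectrum (𝓞 E) → ℤ} (hn : {w | n w ≠ 0}.Finite) :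
    {P : HeightOneSpectrum (𝓞 B) | n (below E P) ≠ 0}.Finite := by
  have h1 : {P : HeightOneSpectrum (𝓞 B) | n (below E P) ≠ 0} ⊆
      ⋃ w ∈ {w | n w ≠ 0}, above B w := by
    intro P hP
    exact Set.mem_biUnion hP (H47.mem_above_below P)
  refine (hn.biUnion fun w _ => ?_).subset h1
  have h2 := Ideal.finite_factors (I := w.asIdeal.map (algebraMap (𝓞 E) (𝓞 B)))
    (Ideal.map_ne_bot_of_ne_bot w.ne_bot)
  refine h2.subset fun P hP => ?_
  show P.asIdeal ∣ _
  rw [Ideal.dvd_iff_le, Ideal.map_le_iff_le_comap]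
  exact (show P.asIdeal.under (𝓞 E) = w.asIdeal from hP).ge

/-- the norm of the extension of an effective divisor -/
theorem absNorm_FI_below_nat {n : HeightOneSpectrum (𝓞 E) → ℕ} (hn : {w | n w ≠ 0}.Finite)
    (hunr : ∀ w, n w ≠ 0 → ∀ P ∈ above B w, w.asIdeal.ramificationIdx' P.asIdeal = 1) :
    absNorm (FI B fun P : HeightOneSpectrum (𝓞 B) => (n (below E P) : ℤ)) =
      absNorm (FI E fun w => (n w : ℤ)) ^ Module.finrank E B := by
  have hn' : {w | (fun w => (n w : ℤ)) w ≠ 0}.Finite := by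
    refine hn.subset fun w hw => ?_
    simpa using hw
  set I : Ideal (𝓞 E) := ∏ᶠ w : HeightOneSpectrum (𝓞 E), w.asIdeal ^ n w with hI
  have hIF : (I : FractionalIdeal (𝓞 E)⁰ E) = FI E fun w => (n w : ℤ) := by
    rw [hI, FractionalIdeal.coeIdeal_finprod (𝓞 E)⁰ E le_rfl]
    unfold FI
    refine finprod_congr fun w => ?_
    rw [FractionalIdeal.coeIdeal_pow, zpow_natCast]
  have hI0 : I ≠ ⊥ := by
    intro h
    apply FI_ne_zero (K := E) (fun w => (n w : ℤ))
    rw [← hIF, h, FractionalIdeal.coeIdeal_bot]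
  have hmap : I.map (algebraMap (𝓞 E) (𝓞 B)) ≠ ⊥ := Ideal.map_ne_bot_of_ne_bot hI0
  have h1 : (I.map (algebraMap (𝓞 E) (𝓞 B)) : FractionalIdeal (𝓞 B)⁰ B) =
      FI B fun P : HeightOneSpectrum (𝓞 B) => (n (below E P) : ℤ) := by
    refine ext_count (FractionalIdeal.coeIdeal_ne_zero.2 hmap) (FI_ne_zero _) fun P => ?_
    rw [count_FI (finite_below hn'), count_map hI0, hIF, count_FI hn']
    by_cases h : n (below E P) = 0
    · simp [h]
    · rw [hunr _ h P (H47.mem_above_below P)]
      simp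
  rw [← h1, ← hIF, coeIdeal_absNorm, coeIdeal_absNorm, Ideal.absNorm_algebraMap]
  have h2 : Module.finrank (𝓞 E) (𝓞 B) = Module.finrank E B :=
    (IsFractionRing.finrank_eq (𝓞 E) E (𝓞 B) B).symm
  rw [h2]
  push_cast
  rfl

/-- the norm of the extension of a divisor -/
theorem absNorm_FI_below {n : HeightOneSpectrum (𝓞 E) → ℤ} (hn : {w | n w ≠ 0}.Finite)
    (hunr : ∀ w, n w ≠ 0 → ∀ P ∈ above B w, w.asIdeal.ramificationIdx' P.asIdeal = 1) :
    absNorm (FI B fun P : HeightOneSpectrum (𝓞 B) => n (below E P)) = absNorm (FI E n) ^ Module.finrank E B := by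
  have hp : {w | (n w).toNat ≠ 0}.Finite := hn.subset fun w hw h => hw (by rw [h]; rfl)
  have hm : {w | (-n w).toNat ≠ 0}.Finite := hn.subset fun w hw h => hw (by rw [h]; rfl)
  have hp' : {w | (fun w => ((n w).toNat : ℤ)) w ≠ 0}.Finite := by
    refine hp.subset fun w hw => ?_
    simpa using hw
  have hm' : {w | (fun w => ((-n w).toNat : ℤ)) w ≠ 0}.Finite := by
    refine hm.subset fun w hw => ?_
    simpa using hw
  have e1 := absNorm_FI_below_nat (B := B) hp fun w hw => hunr w fun h => hw (by rw [h]; rfl)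
  have e2 := absNorm_FI_below_nat (B := B) hm fun w hw => hunr w fun h => hw (by rw [h]; rfl)
  have k1 : FI E n * FI E (fun w => ((-n w).toNat : ℤ)) = FI E (fun w => ((n w).toNat : ℤ)) := by
    rw [← FI_add hn hm']
    congr 1
    funext w
    omega
  have k2 : FI B (fun P : HeightOneSpectrum (𝓞 B) => n (below E P)) * FI B (fun P : HeightOneSpectrum (𝓞 B) => ((-n (below E P)).toNat : ℤ)) =
      FI B (fun P : HeightOneSpectrum (𝓞 B) => ((n (below E P)).toNat : ℤ)) := by
    rw [← FI_add (finite_below hn) (finite_below hm')]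
    congr 1
    funext w
    omega
  have l1 := congrArg absNorm k1
  have l2 := congrArg absNorm k2
  rw [map_mul] at l1 l2
  rw [e1, e2, ← l1, mul_pow] at l2
  have hne : absNorm (FI E (fun w => ((-n w).toNat : ℤ))) ^ Module.finrank E B ≠ 0 :=
    pow_ne_zero _ (absNorm_FI_pos _).ne'
  exact mul_right_cancel₀ hne l2

end Ext

section Aut

variable {E B : Type*} [Field E] [NumberField E] [Field B] [NumberField B] [Algebra E B]

theorem absNorm_smulPlace (s : B ≃ₐ[E] B) (P : HeightOneSpectrum (𝓞 B)) :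
    Ideal.absNorm (smulPlace s P).asIdeal = Ideal.absNorm P.asIdeal := by
  rw [H47.smulPlace_asIdeal, Ideal.absNorm_apply, Ideal.absNorm_apply, Submodule.cardQuot_apply,
    Submodule.cardQuot_apply]
  exact (Nat.card_congr (Ideal.quotientEquiv P.asIdeal (s • P.asIdeal)
    (MulSemiringAction.toRingEquiv _ (𝓞 B) s) rfl).toEquiv).symm

/-- the permutation of the places -/
def permPlace (s : B ≃ₐ[E] B) : Equiv.Perm (HeightOneSpectrum (𝓞 B)) where
  toFun := smulPlace s
  invFun := smulPlace s⁻¹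
  left_inv P := by
    apply HeightOneSpectrum.ext
    rw [H47.smulPlace_asIdeal, H47.smulPlace_asIdeal, inv_smul_smul]
  right_inv P := by
    apply HeightOneSpectrum.ext
    rw [H47.smulPlace_asIdeal, H47.smulPlace_asIdeal, smul_inv_smul]

@[simp] theorem permPlace_apply (s : B ≃ₐ[E] B) (P : HeightOneSpectrum (𝓞 B)) :
    permPlace s P = smulPlace s P := rfl

theorem finite_smul (s : B ≃ₐ[E] B) {d : HeightOneSpectrum (𝓞 B) → ℤ}
    (hd : {P | d P ≠ 0}.Finite) : {P | d (smulPlace s P) ≠ 0}.Finite :=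
  hd.preimage (permPlace s).injective.injOn

/-- the norm is invariant under automorphisms -/
theorem absNorm_FI_smul (s : B ≃ₐ[E] B) {d : HeightOneSpectrum (𝓞 B) → ℤ}
    (hd : {P | d P ≠ 0}.Finite) :
    absNorm (FI B fun P => d (smulPlace s P)) = absNorm (FI B d) := by
  rw [absNorm_FI hd, absNorm_FI (finite_smul s hd),
    ← finprod_comp_equiv (permPlace s)
      (f := fun P : HeightOneSpectrum (𝓞 B) => (Ideal.absNorm P.asIdeal : ℚ) ^ d P)]
  refine finprod_congr fun P => ?_
  rw [permPlace_apply, absNorm_smulPlace]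

theorem below_smulPlace (s : B ≃ₐ[E] B) (P : HeightOneSpectrum (𝓞 B)) :
    below E (smulPlace s P) = below E P :=
  (H47.eq_below_of_mem_above (H47.smulPlace_mem_above s (H47.mem_above_below P))).symm

theorem mem_aboveSet_iff {T : Set (HeightOneSpectrum (𝓞 E))} {P : HeightOneSpectrum (𝓞 B)} :
    P ∈ aboveSet B T ↔ below E P ∈ T := by
  constructor
  · rintro ⟨v, hv, hP⟩
    rwa [← H47.eq_below_of_mem_above hP]
  · intro h
    exact ⟨_, h, H47.mem_above_below P⟩

end Aut

section Main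

variable {E B : Type*} [Field E] [NumberField E] [Field B] [NumberField B] [Algebra E B]

theorem finite_cE {K : Type*} [Field K] [NumberField K] (A : H71D.FI K) :
    {w | cE A w ≠ 0}.Finite := by
  have h := finite_factors (A : FractionalIdeal (𝓞 K)⁰ K)
  rw [Filter.eventually_cofinite] at h
  exact h

theorem FI_cE {K : Type*} [Field K] [NumberField K] (A : H71D.FI K) :
    FI K (cE A) = (A : FractionalIdeal (𝓞 K)⁰ K) := FI_count A.ne_zero

variable {J : Type*} [Fintype J]

theorem finite_dlt (d : DD E B J) (D : H71D.FI E) (h : H71D.FI B) :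
    {P | d.dlt D h P ≠ 0}.Finite := by
  refine ((finite_below (finite_cE D)).union (finite_smul d.tau (finite_cE h))).subset ?_
  intro P hP
  by_contra hcon
  simp only [Set.mem_union, Set.mem_ofPred_eq, not_or, not_not] at hcon
  apply hP
  unfold DD.dlt
  rw [hcon.1, hcon.2, sub_zero]

/-- **the norm of the lattice `D h̄⁻¹`** -/
theorem absNorm_dlt (d : DD E B J) (hdeg : Module.finrank E B = 2)
    (hunr : ∀ w ∉ d.S, ∀ P ∈ above B w, w.asIdeal.ramificationIdx' P.asIdeal = 1)
    {A D : H71D.FI E} {h : H71D.FI B}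
    (hS : ∀ w ∈ d.S, cE A w = 0 ∧ cE D w = 0) (hh : IsNm d.S d.tau h (cE (A * D))) :
    absNorm (FI B (d.dlt D h)) = (absNorm (A : FractionalIdeal (𝓞 E)⁰ E))⁻¹ *
      absNorm (D : FractionalIdeal (𝓞 E)⁰ E) := by
  have hfin := finite_dlt d D h
  have hsum : ∀ P, d.dlt D h P + d.dlt D h (smulPlace d.tau P) = cE (A⁻¹ * D) (below E P) := by
    intro P
    rw [cE_mul, cE_inv]
    unfold DD.dlt
    rw [below_smulPlace]
    by_cases hP : P ∈ aboveSet B (d.S : Set (HeightOneSpectrum (𝓞 E)))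
    · have h1 := hS _ (mem_aboveSet_iff.1 hP)
      have h2 : smulPlace d.tau P ∈ aboveSet B (d.S : Set (HeightOneSpectrum (𝓞 E))) :=
        (H47.smulPlace_mem_aboveSet_iff _).2 hP
      have h3 : smulPlace d.tau (smulPlace d.tau P) ∈
          aboveSet B (d.S : Set (HeightOneSpectrum (𝓞 E))) :=
        (H47.smulPlace_mem_aboveSet_iff _).2 h2
      rw [h1.1, h1.2, hh.prime _ h2, hh.prime _ h3]
      rfl
    · have h2 : smulPlace d.tau P ∉ aboveSet B (d.S : Set (HeightOneSpectrum (𝓞 E))) :=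
        fun h' => hP ((H47.smulPlace_mem_aboveSet_iff _).1 h')
      have h3 := hh.norm _ h2
      rw [below_smulPlace, cE_mul] at h3
      omega
  have h1 : absNorm (FI B (d.dlt D h)) ^ 2 = absNorm (FI E (cE (A⁻¹ * D))) ^ 2 := by
    have e1 := absNorm_FI_below (B := B) (finite_cE (A⁻¹ * D)) (fun w hw => hunr w fun hwS => hw (by
      rw [cE_mul, cE_inv, (hS w hwS).1, (hS w hwS).2]; rfl))
    rw [hdeg] at e1
    have e2 : FI B (d.dlt D h) * FI B (fun P => d.dlt D h (smulPlace d.tau P)) =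
        FI B fun P : HeightOneSpectrum (𝓞 B) => cE (A⁻¹ * D) (below E P) := by
      rw [← FI_add hfin (finite_smul d.tau hfin)]
      congr 1
      funext P
      exact hsum P
    have e3 := congrArg absNorm e2
    rw [map_mul, absNorm_FI_smul d.tau hfin, e1] at e3
    rw [sq]
    exact e3
  have h2 : absNorm (FI B (d.dlt D h)) = absNorm (FI E (cE (A⁻¹ * D))) := by
    have p1 := absNorm_FI_pos (B := B) (d.dlt D h)
    have p2 := absNorm_FI_pos (B := E) (cE (A⁻¹ * D))
    nlinarith
  rw [h2, FI_cE, Units.val_mul, map_mul, Units.val_inv_eq_inv_val, map_inv₀]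

theorem aN_eq (A : H71D.FI E) : aN A = ((absNorm (A : FractionalIdeal (𝓞 E)⁰ E) : ℚ) : ℝ) := rfl

theorem aN_pos (A : H71D.FI E) : 0 < aN A := by
  rw [aN_eq]
  have h := absNorm_FI_pos (B := E) (cE A)
  rw [FI_cE] at h
  exact_mod_cast h

theorem aN_mul (A A' : H71D.FI E) : aN (A * A') = aN A * aN A' := by
  rw [aN_eq, Units.val_mul, map_mul, Rat.cast_mul]
  rfl

theorem aN_inv (A : H71D.FI E) : aN A⁻¹ = (aN A)⁻¹ := by
  rw [aN_eq, Units.val_inv_eq_inv_val, map_inv₀, Rat.cast_inv]
  rfl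

/-- **[D-VOL]: the volume of the lattice `D h̄⁻¹`** -/
theorem HIfun_dlt (d : DD E B J) (hdeg : Module.finrank E B = 2)
    (hunr : ∀ w ∉ d.S, ∀ P ∈ above B w, w.asIdeal.ramificationIdx' P.asIdeal = 1)
    {A D : H71D.FI E} {h : H71D.FI B}
    (hS : ∀ w ∈ d.S, cE A w = 0 ∧ cE D w = 0) (hh : IsNm d.S d.tau h (cE (A * D))) :
    HIfun (OLat B) (H66T.cut (LV B (d.dlt D h)) fun _ => 1) = ((aN (A * D⁻¹) : ℝ) : ℂ) := by
  have h1 := HIfun_LV (finite_dlt d D h)
  have h2 : (H66T.cut (LV B (d.dlt D h)) fun _ => (1 : ℂ)) =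
      fun x => by classical exact if x ∈ LV B (d.dlt D h) then (1 : ℂ) else 0 := by
    funext x
    unfold H66T.cut
    congr
  rw [h2, h1, absNorm_dlt d hdeg hunr hS hh, aN_mul, aN_inv, aN_eq, aN_eq]
  push_cast
  rw [mul_inv, inv_inv]

/-- the orders of `D h̄⁻¹` vanish above `S` -/
theorem dlt_eq_zero (d : DD E B J) {D : H71D.FI E} {h : H71D.FI B}
    (hD : ∀ w ∈ d.S, cE D w = 0)
    (hh : ∀ P ∈ aboveSet B (d.S : Set (HeightOneSpectrum (𝓞 E))), cE h P = 0)
    {P : HeightOneSpectrum (𝓞 B)} (hP : P ∈ aboveSet B (d.S : Set (HeightOneSpectrum (𝓞 E)))) :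
    d.dlt D h P = 0 := by
  unfold DD.dlt
  rw [hD _ (mem_aboveSet_iff.1 hP), hh _ ((H47.smulPlace_mem_aboveSet_iff _).2 hP), sub_zero]

/-- the lattice `D h̄⁻¹`: elements of the `R`-lattice which are integral above `S` -/
theorem mem_LV_dlt (d : DD E B J) {D : H71D.FI E} {h : H71D.FI B}
    (hD : ∀ w ∈ d.S, cE D w = 0)
    (hh : ∀ P ∈ aboveSet B (d.S : Set (HeightOneSpectrum (𝓞 E))), cE h P = 0) {x : B} :
    x ∈ LV B (d.dlt D h) ↔ x ∈ RB B d.S (d.dlt D h) ∧
      ∀ P ∈ aboveSet B (d.S : Set (HeightOneSpectrum (𝓞 E))), P.valuation B x ≤ 1 := by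
  rw [mem_LV, mem_RB]
  constructor
  · intro hx
    refine ⟨fun P _ => hx P, fun P hP => ?_⟩
    have h1 := hx P
    rwa [dlt_eq_zero d hD hh hP, neg_zero, exp_zero] at h1
  · rintro ⟨h1, h2⟩ P
    by_cases hP : P ∈ aboveSet B (d.S : Set (HeightOneSpectrum (𝓞 E)))
    · rw [dlt_eq_zero d hD hh hP, neg_zero, exp_zero]
      exact h2 P hP
    · exact h1 P hP

/-- multiplicativity of the volume in the divisor -/
theorem HIfun_LV_add {δ k : HeightOneSpectrum (𝓞 B) → ℤ} (hδ : {P | δ P ≠ 0}.Finite)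
    (hk : {P | k P ≠ 0}.Finite) :
    HIfun (OLat B) (H66T.cut (LV B fun P => δ P + k P) fun _ => 1) =
      HIfun (OLat B) (H66T.cut (LV B δ) fun _ => 1) *
        ∏ᶠ P : HeightOneSpectrum (𝓞 B), (Ideal.absNorm P.asIdeal : ℂ) ^ (-k P) := by
  have hδk : {P | δ P + k P ≠ 0}.Finite := by
    refine (hδ.union hk).subset fun P hP => ?_
    by_contra hcon
    simp only [Set.mem_union, Set.mem_ofPred_eq, not_or, not_not] at hcon
    apply hP
    rw [hcon.1, hcon.2, add_zero]
  have h2 : ∀ δ : HeightOneSpectrum (𝓞 B) → ℤ, (H66T.cut (LV B δ) fun _ => (1 : ℂ)) =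
      fun x => by classical exact if x ∈ LV B δ then (1 : ℂ) else 0 := by
    intro δ
    funext x
    unfold H66T.cut
    congr
  rw [h2, h2, HIfun_LV' hδk, HIfun_LV' hδ,
    ← finprod_mul_distrib (mulSupport_finite (d := fun P => -δ P) (by simpa using hδ) _)
      (mulSupport_finite (d := fun P => -k P) (by simpa using hk) _)]
  refine finprod_congr fun P => ?_
  have hN : (Ideal.absNorm P.asIdeal : ℂ) ≠ 0 := by
    rw [Nat.cast_ne_zero, Ne, Ideal.absNorm_eq_zero_iff]
    exact P.ne_bot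
  rw [← zpow_add₀ hN]
  congr 1
  ring

end Main

end Fermat.Agent.H97D
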