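import Fermat.Agent.H66TPhi
import Fermat.Agent.H13ZA
import Fermat.Agent.H12Rel
import Fermat.Agent.H97DVol2
import Fermat.Agent.H78RLd
import Fermat.Agent.H82W1

/-!
# NBAR-theta: invariance of the theta kernel under small lower unipotents (S47, block D)
-/

set_option linter.all false

namespace Fermat.Agent.H66T

open IsDedekindDomain HeightOneSpectrum WithZero NumberField Fermat.Agent.H66D Fermat.Agent.H78G
open Fermat.Agent.H71D
open Fermat.Agent.H47 (smulPlace below)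
open Fermat.Agent.H82 (above aboveSet NonSplit congr)
open Fermat.Agent.H7.Z (ee psi)

section fin

variable {B : Type*} [Field B] [NumberField B] {SB : Set (HeightOneSpectrum (𝓞 B))}

lemma RS_sup (hSB : SB.Finite) {c c' : HeightOneSpectrum (𝓞 B) → ℤ}
    (hc : {P | P ∉ SB ∧ c P ≠ 0}.Finite) (hc' : {P | P ∉ SB ∧ c' P ≠ 0}.Finite)
    (hle : ∀ P ∉ SB, c P ≤ c' P) : ∀ x ∈ RS SB c, ∃ a ∈ LB SB c 0, x - a ∈ RS SB c' := by
  intro x hx
  obtain ⟨K, hK⟩ : ∃ K : ℕ, ∀ P ∈ SB, P.valuation B x ≤ exp (-(-(K : ℤ))) := by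
    classical
    choose e he using fun P : HeightOneSpectrum (𝓞 B) => H7.Z.exists_le_exp (K := B) P x
    refine ⟨∑ P ∈ hSB.toFinset, e P, fun P hP => (he P).trans ?_⟩
    rw [neg_neg, exp_le_exp]
    exact_mod_cast Finset.single_le_sum (f := e) (fun _ _ => Nat.zero_le _)
      (hSB.mem_toFinset.2 hP)
  have hx' : x ∈ LB SB c (-(K : ℤ)) := mem_LB.2 ⟨hx, hK⟩
  obtain ⟨a, ha, ha'⟩ := LB_sup hSB (k := -(K : ℤ)) (k₁ := 0) (k₂ := -(K : ℤ)) hc hc hc'
    (fun P _ => le_rfl) hle (fun P _ => Or.inl rfl) (by simp) le_rfl (Or.inr rfl) x hx'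
  exact ⟨a, ha, (mem_LB.1 ha').1⟩

lemma finite_RS' (hSB : SB.Finite) {c c' : HeightOneSpectrum (𝓞 B) → ℤ}
    (hc : {P | P ∉ SB ∧ c P ≠ 0}.Finite) (hc' : {P | P ∉ SB ∧ c' P ≠ 0}.Finite)
    (hle : ∀ P ∉ SB, c P ≤ c' P) :
    Finite ((RS SB c) ⧸ (RS SB c').addSubgroupOf (RS SB c)) := by
  have hfin := finite_RS hSB hc hc' 0
  have h0 : LB SB c 0 ≤ RS SB c := fun x hx => (mem_LB.1 hx).1
  let π : (LB SB c 0 ⧸ (RS SB c').addSubgroupOf (LB SB c 0)) →
      ((RS SB c) ⧸ (RS SB c').addSubgroupOf (RS SB c)) :=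
    Quotient.map' (AddSubgroup.inclusion h0) (by
      intro a b hab
      rw [QuotientAddGroup.leftRel_apply] at hab ⊢
      exact hab)
  refine Finite.of_surjective π ?_
  intro q
  induction q using QuotientAddGroup.induction_on with
  | H x =>
    obtain ⟨a, ha, ha'⟩ := RS_sup hSB hc hc' hle x x.2
    refine ⟨QuotientAddGroup.mk ⟨a, ha⟩, ?_⟩
    show (QuotientAddGroup.mk ⟨a, h0 ha⟩ : (RS SB c) ⧸ (RS SB c').addSubgroupOf (RS SB c)) =
      QuotientAddGroup.mk x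
    rw [QuotientAddGroup.eq, AddSubgroup.mem_addSubgroupOf, AddSubgroup.coe_add,
      NegMemClass.coe_neg, neg_add_eq_sub]
    exact ha'

open Classical in
/-- the product of an `S`-function and a periodic function outside `S` is in `SF` -/
theorem mem_SF_cut (hSB : SB.Finite) {k : ℕ} {gS : B → ℂ} (hS : SFun SB k gS)
    {c c' : HeightOneSpectrum (𝓞 B) → ℤ}
    (hc : {P | P ∉ SB ∧ c P ≠ 0}.Finite) (hc' : {P | P ∉ SB ∧ c' P ≠ 0}.Finite)
    (hle : ∀ P ∉ SB, c P ≤ c' P) {g : B → ℂ} (hg : Per (RS SB c) (RS SB c') g) :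
    (fun x => if x ∈ RS SB c then gS x * g x else 0) ∈ SF (OLat B) := by
  have h0 : LB SB c 0 ≤ RS SB c := fun x hx => (mem_LB.1 hx).1
  have hL₁ : LB SB c k ≤ LB SB c 0 := by
    intro x hx
    rw [mem_LB] at hx ⊢
    refine ⟨hx.1, fun P hP => (hx.2 P hP).trans ?_⟩
    rw [exp_le_exp]; simp
  have hg2 : Per (LB SB c 0) (LB SB c' 0) g :=
    (hg.mono_left h0).mono fun x hx => (mem_LB.1 hx).1
  have hg1 : Per (LB SB c 0) (LB SB c k) gS := hS.per' _ _
  have hper : Per (LB SB c 0) (LB SB c k ⊓ LB SB c' 0) (fun x => gS x * g x) := by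
    intro l hl l' hl'
    show gS (l + l') * g (l + l') = gS l * g l
    rw [hg1 l hl l' hl'.1, hg2 l hl l' hl'.2]
  obtain ⟨m₁, hm₁, h1⟩ := (Comm_LV (dv_support hSB hc (k : ℤ))).2
  obtain ⟨m₂, hm₂, h2⟩ := (Comm_LV (dv_support hSB hc' 0)).2
  obtain ⟨m₃, hm₃, h3⟩ := (Comm_LV (dv_support hSB hc 0)).1
  rw [cut_SFun hS]
  refine ⟨m₁ * m₂ * m₃, cut_level hper (inf_le_left.trans hL₁)
    (mul_ne_zero (mul_ne_zero hm₁ hm₂) hm₃) ?_ ?_⟩
  · intro x hx
    have := h3 x hx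
    rw [mul_comm, mul_nsmul]
    exact (OLat B).nsmul_mem this _
  · refine (mL_mul_le _ _ _).trans (le_inf ((mL_mul_le _ m₁ m₂).trans h1) ?_)
    rw [mul_comm]
    exact (mL_mul_le _ m₂ m₁).trans h2

lemma HIfun_const_mul {f : B → ℂ} (hf : f ∈ SF (OLat B)) (c : ℂ) :
    HIfun (OLat B) (fun y => c * f y) = c * HIfun (OLat B) f := by
  have h := (HI (isFull_OLat (B := B))).map_smul c ⟨f, hf⟩
  rw [smul_eq_mul] at h
  exact h

end fin

section main

variable {E B : Type*} [Field E] [NumberField E] [Field B] [NumberField B] [Algebra E B]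
  {J : Type*} [Fintype J] (d : DD E B J)

/-- the mean value of the `S`-part -/
noncomputable def MS (k : ℕ) (x : B) : ℂ :=
  mean (LB (SB d) (fun _ => 0) 0) (LB (SB d) (fun _ => 0) k) (gS d x)

/-- the normalisation constant -/
noncomputable def cst (A D : FI E) : ℂ :=
  om B d.S D * (((aN (A * D⁻¹)) ^ (-(1 / 2) : ℝ) : ℝ) : ℂ)

/-- Gauss sums (helper88) -/
def GSProp : Prop :=
  ∀ (A D : FI E) (u u2 : E) (h : FI B) (g : HeightOneSpectrum (𝓞 E) → ℤ),
    (∀ w ∈ d.S, cE A w = 0 ∧ cE D w = 0) → IsNm d.S d.tau h (cE (A * D)) →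
    H12R.GoodU d.S A D u u2 g → ∀ Q : FI E,
    (∀ w ∈ d.S, cE Q w = 0) → (∀ w ∉ d.S, cE Q w = cE A w - cE D w - g w) →
    ∀ δ : HeightOneSpectrum (𝓞 B) → ℤ, {P | δ P ≠ 0}.Finite → (∀ P, d.dlt D h P ≤ δ P) →
    (∀ x ∈ RB B d.S δ, (∀ y ∈ RB B d.S (d.dlt D h), ∀ w ∉ d.S,
          w.valuation E (u * Algebra.trace E B (x * d.tau y)) ≤ 1) ∧
        (∀ w ∉ d.S, w.valuation E (u * Algebra.norm E x) ≤ 1)) →
    mean (RB B d.S (d.dlt D h)) (RB B d.S δ) (fun x => psS d.S (u * Algebra.norm E x)) =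
      om B d.S Q * ((aN Q : ℝ) : ℂ)⁻¹

open Classical in
/-- the Fourier transform of the theta kernel function -/
theorem HF_phi (hd : d.Good)
    (hunB : ∀ P ∉ aboveSet B (d.S : Set (HeightOneSpectrum (𝓞 E))), H7.Z.Unram P)
    (hGS : GSProp d) {A D : FI E} {u u2 : E} {h : FI B} {g : HeightOneSpectrum (𝓞 E) → ℤ}
    (hS : ∀ w ∈ d.S, cE A w = 0 ∧ cE D w = 0) (hh : IsNm d.S d.tau h (cE (A * D)))
    (hu : H12R.GoodU d.S A D u u2 g) {Q : FI E}
    (hQ : ∀ w ∈ d.S, cE Q w = 0) (hQ' : ∀ w ∉ d.S, cE Q w = cE A w - cE D w - g w)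
    {k : ℕ} {x : B} (hk : SFun (SB d) k (gS d x)) :
    H13Z.HF d.tau (d.phi A D u h) x = (cst d A D * ((aN (A * D⁻¹) : ℝ) : ℂ) *
      (om B d.S Q * ((aN Q : ℝ) : ℂ)⁻¹)) * (MS d k x *
        (if x ∈ RB B d.S (fun P => d.dlt D h P + g (below E P)) then
          psS d.S (u2 * Algebra.norm E x) else 0)) := by
  obtain ⟨δ, hδ, hle, hδ'⟩ := H78R.exists_period hd D h u x
  have hc : {P | P ∉ SB d ∧ d.dlt D h P ≠ 0}.Finite :=
    (H78R.finite_dlt hd).subset fun P hP => hP.2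
  have hc' : {P | P ∉ SB d ∧ δ P ≠ 0}.Finite := hδ.subset fun P hP => hP.2
  haveI : Finite ((RB B d.S (d.dlt D h)) ⧸ (RB B d.S δ).addSubgroupOf (RB B d.S (d.dlt D h))) :=
    finite_RS' (SB_finite d) hc hc' fun P _ => hle P
  have hper : Per (RS (SB d) (d.dlt D h)) (RS (SB d) δ) (gO d u x) := by
    refine per_gO d hd fun z hz => ⟨fun y hy w hw => ?_, fun w hw => ?_, fun w hw => ?_⟩
    · rw [neg_zero, exp_zero, trace_symm hd.deg hd.tau_ne]
      exact (hδ' z hz).1 y hy w hw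
    · rw [neg_zero, exp_zero]
      exact (hδ' z hz).2.1 w hw
    · rw [neg_zero, exp_zero, trace_symm hd.deg hd.tau_ne]
      exact (hδ' z hz).2.2 w hw
  have h1 : H13Z.HF d.tau (d.phi A D u h) x = cst d A D *
      HIfun (OLat B) (fun y => if y ∈ RS (SB d) (d.dlt D h) then gS d x y * gO d u x y else 0) := by
    unfold H13Z.HF
    have h2 : (fun y => H13Z.er ((Algebra.trace ℚ B (x * d.tau y) : ℚ) : ℝ) * d.phi A D u h y) =
        fun y => cst d A D *
          (if y ∈ RS (SB d) (d.dlt D h) then gS d x y * gO d u x y else 0) := by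
      funext y
      rw [phi_mul]
      rfl
    rw [h2, HIfun_const_mul (mem_SF_cut (SB_finite d) hk hc hc' (fun P _ => hle P) hper)]
  rw [h1, HIfun_SFun_mul (SB_finite d) hk hc hc' (fun P _ => hle P) hper]
  have h3 : HIfun (OLat B) (cut (LB (SB d) (d.dlt D h) 0) fun _ => 1) =
      ((aN (A * D⁻¹) : ℝ) : ℂ) := by
    rw [← H97D.HIfun_dlt d hd.deg hd.unr hS hh]
    have h4 : LB (SB d) (d.dlt D h) 0 = H97D.LV B (d.dlt D h) := by
      ext y
      rw [H97D.mem_LV_dlt d (fun w hw => (hS w hw).2) hh.prime, mem_LB, RS_eq, neg_zero, exp_zero]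
    rw [h4]
  have h5 : mean (RS (SB d) (d.dlt D h)) (RS (SB d) δ) (gO d u x) =
      (if x ∈ RB B d.S (fun P => d.dlt D h P + g (below E P)) then
        psS d.S (u2 * Algebra.norm E x) else 0) * (om B d.S Q * ((aN Q : ℝ) : ℂ)⁻¹) := by
    have h6 := H78R.key_DD hd hunB hh hu (L2 := RB B d.S δ)
      (fun y hy P hP => (hy P hP).trans (by rw [exp_le_exp]; exact neg_le_neg (hle P)))
      (fun y hy => (hδ' y hy).1) (fun y hy => (hδ' y hy).2.1) (ξ := x)
      (fun y hy => (hδ' y hy).2.2)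
    have h7 : (gO d u x) = (fun y => psS d.S (u * Algebra.norm E y -
        Algebra.trace E B (y * d.tau x))) := by
      funext y
      rw [gO, trace_symm hd.deg hd.tau_ne]
    rw [RS_eq, RS_eq, h7]
    refine h6.trans ?_
    have h8 := hGS A D u u2 h g hS hh hu Q hQ hQ' δ hδ hle
      (fun y hy => ⟨(hδ' y hy).1, (hδ' y hy).2.1⟩)
    rw [h8]
    split_ifs
    · rfl
    · rw [zero_mul]
  rw [h3, h5]
  unfold MS
  ring

/-- the theta kernel function is in `SF` -/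
theorem phi_mem (hd : d.Good) (A D : FI E) (u : E) (h : FI B) {k : ℕ}
    (hk : SFun (SB d) k (gS d 0)) : d.phi A D u h ∈ SF (OLat B) := by
  classical
  obtain ⟨δ, hδ, hle, hδ'⟩ := H78R.exists_period hd D h u 0
  have hc : {P | P ∉ SB d ∧ d.dlt D h P ≠ 0}.Finite :=
    (H78R.finite_dlt hd).subset fun P hP => hP.2
  have hc' : {P | P ∉ SB d ∧ δ P ≠ 0}.Finite := hδ.subset fun P hP => hP.2
  have hper : Per (RS (SB d) (d.dlt D h)) (RS (SB d) δ) (gO d u 0) := by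
    refine per_gO d hd fun z hz => ⟨fun y hy w hw => ?_, fun w hw => ?_, fun w hw => ?_⟩
    · rw [neg_zero, exp_zero, trace_symm hd.deg hd.tau_ne]
      exact (hδ' z hz).1 y hy w hw
    · rw [neg_zero, exp_zero]
      exact (hδ' z hz).2.1 w hw
    · rw [neg_zero, exp_zero, trace_symm hd.deg hd.tau_ne]
      exact (hδ' z hz).2.2 w hw
  have h1 := mem_SF_cut (SB_finite d) hk hc hc' (fun P _ => hle P) hper
  have h2 : d.phi A D u h = cst d A D •
      (fun y => if y ∈ RS (SB d) (d.dlt D h) then gS d 0 y * gO d u 0 y else 0) := by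
    funext y
    have h3 := phi_mul d A D u h 0 y
    rw [zero_mul, map_zero] at h3
    have h4 : H13Z.er (((0 : ℚ)) : ℝ) = 1 := by simp [H13Z.er]
    rw [h4, one_mul] at h3
    rw [h3]
    rfl
  rw [h2]
  exact (SF (OLat B)).smul_mem _ h1

/-- equality of the constants -/
theorem cst_eq {A D A₁ D₁ Q Q₁ : FI E} (h1 : A * D = A₁ * D₁) (h2 : Q * A₁ = Q₁ * A) :
    cst d A D * ((aN (A * D⁻¹) : ℝ) : ℂ) * (om B d.S Q * ((aN Q : ℝ) : ℂ)⁻¹) =
      cst d A₁ D₁ * ((aN (A₁ * D₁⁻¹) : ℝ) : ℂ) * (om B d.S Q₁ * ((aN Q₁ : ℝ) : ℂ)⁻¹) := by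
  have hom : om B d.S D * om B d.S Q = om B d.S D₁ * om B d.S Q₁ := by
    have e1 : om B d.S D * om B d.S Q * om B d.S A₁ = om B d.S D₁ * om B d.S Q₁ * om B d.S A₁ := by
      rw [mul_assoc, ← H82W.om_mul, h2, H82W.om_mul]
      have e2 : om B d.S A * om B d.S D = om B d.S A₁ * om B d.S D₁ := by
        rw [← H82W.om_mul, ← H82W.om_mul, h1]
      linear_combination (om B d.S Q₁) * e2
    exact mul_right_cancel₀ (H82W.om_ne_zero A₁) e1
  have haN : ((aN (A * D⁻¹)) ^ (-(1 / 2) : ℝ)) * aN (A * D⁻¹) * (aN Q)⁻¹ =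
      ((aN (A₁ * D₁⁻¹)) ^ (-(1 / 2) : ℝ)) * aN (A₁ * D₁⁻¹) * (aN Q₁)⁻¹ := by
    have key : ∀ A D Q : FI E, ((aN (A * D⁻¹)) ^ (-(1 / 2) : ℝ)) * aN (A * D⁻¹) * (aN Q)⁻¹ =
        Real.sqrt (aN A * (aN D)⁻¹ * ((aN Q)⁻¹) ^ 2) := by
      intro A D Q
      have hA := H82W.aN_pos A
      have hD := H82W.aN_pos D
      have hQ := H82W.aN_pos Q
      have hAD : 0 < aN (A * D⁻¹) := H82W.aN_pos _
      have e : aN (A * D⁻¹) = aN A * (aN D)⁻¹ := by rw [H82W.aN_mul, H82W.aN_inv]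
      rw [Real.sqrt_mul (by positivity), Real.sqrt_sq (by positivity), ← e]
      congr 1
      rw [Real.sqrt_eq_rpow]
      nth_rewrite 2 [← Real.rpow_one (aN (A * D⁻¹))]
      rw [← Real.rpow_add hAD]
      norm_num
    rw [key, key]
    congr 1
    have hA := (H82W.aN_pos A).ne'
    have hD := (H82W.aN_pos D).ne'
    have hQ := (H82W.aN_pos Q).ne'
    have hA₁ := (H82W.aN_pos A₁).ne'
    have hD₁ := (H82W.aN_pos D₁).ne'
    have hQ₁ := (H82W.aN_pos Q₁).ne'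
    have e1 : aN A * aN D = aN A₁ * aN D₁ := by rw [← H82W.aN_mul, ← H82W.aN_mul, h1]
    have e2 : aN Q * aN A₁ = aN Q₁ * aN A := by rw [← H82W.aN_mul, ← H82W.aN_mul, h2]
    field_simp
    have e3 : aN A₁ * (aN A * (aN Q₁) ^ 2 * aN D₁) = aN A₁ * (aN D * (aN A₁ * (aN Q) ^ 2)) := by
      linear_combination (-(aN D) * (aN Q * aN A₁ + aN Q₁ * aN A)) * e2 -
        aN A * aN Q₁ ^ 2 * e1
    have e4 := mul_left_cancel₀ hA₁ e3
    linear_combination e4
  have haN' : (((aN (A * D⁻¹)) ^ (-(1 / 2) : ℝ) : ℝ) : ℂ) * ((aN (A * D⁻¹) : ℝ) : ℂ) *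
      ((aN Q : ℝ) : ℂ)⁻¹ = (((aN (A₁ * D₁⁻¹)) ^ (-(1 / 2) : ℝ) : ℝ) : ℂ) *
      ((aN (A₁ * D₁⁻¹) : ℝ) : ℂ) * ((aN Q₁ : ℝ) : ℂ)⁻¹ := by
    exact_mod_cast haN
  unfold cst
  calc _ = (om B d.S D * om B d.S Q) * ((((aN (A * D⁻¹)) ^ (-(1 / 2) : ℝ) : ℝ) : ℂ) *
        ((aN (A * D⁻¹) : ℝ) : ℂ) * ((aN Q : ℝ) : ℂ)⁻¹) := by ring
    _ = (om B d.S D₁ * om B d.S Q₁) * ((((aN (A₁ * D₁⁻¹)) ^ (-(1 / 2) : ℝ) : ℝ) : ℂ) *
        ((aN (A₁ * D₁⁻¹) : ℝ) : ℂ) * ((aN Q₁ : ℝ) : ℂ)⁻¹) := by rw [hom, haN']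
    _ = _ := by ring

/-- if the mean of the `S`-part does not vanish then `x` is in the dual of the period of `VS` -/
theorem psi_eq_one_of_MS (hd : d.Good) {m : HeightOneSpectrum (𝓞 B) → ℕ}
    (hper : ∀ x ∈ d.VS, ∀ y : B, (∀ P ∈ SB d, P.valuation B y ≤ exp (-(m P : ℤ))) →
      x + y ∈ d.VS) {k : ℕ} {x : B} (hk : SFun (SB d) k (gS d x)) (hMS : MS d k x ≠ 0)
    (y : B) (hy : ∀ P ∈ SB d, P.valuation B y ≤ exp (-(m P : ℤ))) :
    ∏ w ∈ d.S, psi w (Algebra.trace E B (x * d.tau y)) = 1 := by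
  classical
  haveI := H73U.isGalois d.tau hd.tau_ne hd.deg
  obtain ⟨f, hf0, hff, hf⟩ := exists_bound (B := B) x
  obtain ⟨η, hη1, hη2⟩ := H7.Z.exists_approx (K := B) (SB_finite d).toFinset (fun _ => y)
    (fun P => max (m P) (f (smulPlace d.tau P)).toNat)
  have hη1' : ∀ P ∈ SB d, P.valuation B (η - y) ≤
      exp (-((max (m P) (f (smulPlace d.tau P)).toNat : ℕ) : ℤ)) := fun P hP =>
    hη1 P ((SB_finite d).mem_toFinset.2 hP)
  have hηm : ∀ P ∈ SB d, P.valuation B η ≤ exp (-(m P : ℤ)) := by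
    intro P hP
    have h1 : η = (η - y) + y := by ring
    rw [h1]
    refine (Valuation.map_add _ _ _).trans (max_le ((hη1' P hP).trans ?_) (hy P hP))
    rw [exp_le_exp]
    have := le_max_left (m P) (f (smulPlace d.tau P)).toNat
    omega
  have h00 : {P : HeightOneSpectrum (𝓞 B) | P ∉ SB d ∧ (fun _ => (0 : ℤ)) P ≠ 0}.Finite := by
    simp
  have hηL : η ∈ LB (SB d) (fun _ => 0) 0 := by
    rw [mem_LB]
    refine ⟨fun P hP => ?_, fun P hP => ?_⟩
    · rw [neg_zero, exp_zero]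
      exact hη2 P (fun h => hP ((SB_finite d).mem_toFinset.1 h))
    · refine (hηm P hP).trans ?_
      rw [exp_le_exp]; simp
  -- the value at `η`
  have key : ∏ w ∈ d.S, psi w (-(Algebra.trace E B (x * d.tau η))) = 1 := by
    by_contra hne
    apply hMS
    unfold MS
    haveI := finite_LV (dv_support (SB_finite d) h00 0) (dv_support (SB_finite d) h00 (k : ℤ))
    refine mean_eq_zero (hk.per' _ _) hηL hne fun l _ => ?_
    have hVS : l + η ∈ d.VS ↔ l ∈ d.VS := by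
      constructor
      · intro h
        have h1 := hper _ h (-η) (fun P hP => by rw [Valuation.map_neg]; exact hηm P hP)
        rwa [add_neg_cancel_right] at h1
      · intro h
        exact hper _ h η hηm
    unfold gS
    by_cases hl : l ∈ d.VS
    · rw [if_pos hl, if_pos (hVS.2 hl), ← Finset.prod_mul_distrib]
      refine Finset.prod_congr rfl fun w hw => ?_
      rw [map_add d.tau, mul_add, map_add (Algebra.trace E B), neg_add, AddChar.map_add_eq_mul,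
        mul_comm]
    · rw [if_neg hl, if_neg (fun h => hl (hVS.1 h)), mul_zero]
  have key2 : ∏ w ∈ d.S, psi w (Algebra.trace E B (x * d.tau η)) = 1 := by
    have h1 : ∀ w ∈ d.S, psi w (Algebra.trace E B (x * d.tau η)) =
        (psi w (-(Algebra.trace E B (x * d.tau η))))⁻¹ := by
      intro w _
      rw [AddChar.map_neg_eq_inv, inv_inv]
    rw [Finset.prod_congr rfl h1, Finset.prod_inv_distrib, key, inv_one]
  rw [← key2]
  refine Finset.prod_congr rfl fun w hw => ?_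
  refine H7.Z.psi_congr w ?_
  have h1 : Algebra.trace E B (x * d.tau y) - Algebra.trace E B (x * d.tau η) =
      Algebra.trace E B (x * d.tau (y - η)) := by
    rw [map_sub d.tau, mul_sub, map_sub (Algebra.trace E B)]
  rw [h1]
  refine trace_val hd.deg hd.tau_ne fun P hP => ?_
  rw [map_mul, val_tau d hd]
  have hP' : smulPlace d.tau P ∈ SB d :=
    (H47.smulPlace_mem_aboveSet_iff d.tau).2 (above_mem d hw hP)
  have h2 : y - η = -(η - y) := by ring
  have h3 := hη1' _ hP'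
  rw [smulPlace_smulPlace d hd] at h3
  rw [h2, Valuation.map_neg]
  calc P.valuation B x * (smulPlace d.tau P).valuation B (η - y)
      ≤ exp (f P) * exp (-((max (m (smulPlace d.tau P)) (f P).toNat : ℕ) : ℤ)) :=
        mul_le_mul' (hf P) h3
    _ = exp (f P + -((max (m (smulPlace d.tau P)) (f P).toNat : ℕ) : ℤ)) := by rw [exp_add]
    _ ≤ exp 0 := by
        rw [exp_le_exp]
        have h4 := le_max_right (m (smulPlace d.tau P)) (f P).toNat
        have h5 := Int.toNat_of_nonneg (hf0 P)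
        have h6 : ((f P).toNat : ℤ) ≤ ((max (m (smulPlace d.tau P)) (f P).toNat : ℕ) : ℤ) := by
          exact_mod_cast h4
        linarith
    _ = 1 := exp_zero

/-- a fractional ideal with prescribed orders -/
lemma exists_FI' {K : Type*} [Field K] [NumberField K] {n : HeightOneSpectrum (𝓞 K) → ℤ}
    (hn : {w | n w ≠ 0}.Finite) : ∃ G : FI K, ∀ w, cE G w = n w := by
  refine ⟨Units.mk0 (H97D.FI K n) (H97D.FI_ne_zero n), fun w => ?_⟩
  exact H97D.count_FI hn w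

/-- **NBAR-theta.** -/
theorem nbarTheta_of (hd : d.Good)
    (hunB : ∀ P ∉ aboveSet B (d.S : Set (HeightOneSpectrum (𝓞 E))), H7.Z.Unram P)
    (hGS : GSProp d) {m : HeightOneSpectrum (𝓞 B) → ℕ} {CS : Set E}
    (hPER : ∀ x ∈ d.VS, ∀ y : B, (∀ P ∈ SB d, P.valuation B y ≤ exp (-(m P : ℤ))) →
      x + y ∈ d.VS)
    (hSUPP : ∀ x : B, (∀ y : B, (∀ P ∈ SB d, P.valuation B y ≤ exp (-(m P : ℤ))) →
      ∏ w ∈ d.S, psi w (Algebra.trace E B (x * d.tau y)) = 1) → ∀ c ∈ CS, ∀ w ∈ d.S,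
        w.valuation E (c * Algebra.norm E x) ≤ 1) :
    NbarTheta d CS := by
  classical
  intro c hc A D u A₁ D₁ u₁ h hS hREL hh hh₁ w s
  obtain ⟨k0, hk0⟩ := H13Z.exists_VS_add hd
  obtain ⟨u2, g, g₁, hu, hu₁, heq, hg, hg₁⟩ := H12R.exists_goodU hREL
  -- the ideals `Q`, `Q₁`
  have hS1 : ∀ w ∈ d.S, cE A w = 0 ∧ cE D w = 0 := fun w hw => ⟨(hS w hw).1, (hS w hw).2.1⟩
  have hS2 : ∀ w ∈ d.S, cE A₁ w = 0 ∧ cE D₁ w = 0 :=
    fun w hw => ⟨(hS w hw).2.2.1, (hS w hw).2.2.2⟩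
  have hex : ∀ (A D : FI E) (g : HeightOneSpectrum (𝓞 E) → ℤ), {w | g w ≠ 0}.Finite →
      (∀ w ∈ d.S, cE A w = 0 ∧ cE D w = 0) → ∃ Q : FI E, (∀ w ∈ d.S, cE Q w = 0) ∧
        ∀ w ∉ d.S, cE Q w = cE A w - cE D w - g w := by
    intro A D g hg hAD
    obtain ⟨G, hG⟩ := exists_FI' (n := fun w => if w ∈ d.S then 0 else g w)
      (hg.subset fun w hw => by
        have hw' : (if w ∈ d.S then (0 : ℤ) else g w) ≠ 0 := hw
        split_ifs at hw' with h1
        · exact absurd rfl hw'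
        · exact hw')
    refine ⟨A / D / G, fun w hw => ?_, fun w hw => ?_⟩
    · rw [H82W.cE_div, H82W.cE_div, hG, (hAD w hw).1, (hAD w hw).2, if_pos hw]
      simp
    · rw [H82W.cE_div, H82W.cE_div, hG, if_neg hw]
  obtain ⟨Q, hQ, hQ'⟩ := hex A D g hg hS1
  obtain ⟨Q₁, hQ₁, hQ₁'⟩ := hex A₁ D₁ g₁ hg₁ hS2
  have e1 : A * D = A₁ * D₁ := by
    refine H82W.ext_cE fun w => ?_
    rw [cE_mul, cE_mul]
    by_cases hw : w ∈ d.S
    · rw [(hS1 w hw).1, (hS1 w hw).2, (hS2 w hw).1, (hS2 w hw).2]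
    · exact (heq w hw).2
  have e2 : Q * A₁ = Q₁ * A := by
    refine H82W.ext_cE fun w => ?_
    rw [cE_mul, cE_mul]
    by_cases hw : w ∈ d.S
    · rw [hQ w hw, hQ₁ w hw, (hS2 w hw).1, (hS1 w hw).1]
    · rw [hQ' w hw, hQ₁' w hw]
      have := (heq w hw).1
      linarith
  obtain ⟨k₀, hk₀⟩ := sfun_gS d hd hk0 0
  show H13Z.thB d.b d.tau (d.phi A₁ D₁ u₁ h) (d.nbAct c w) s =
    H13Z.thB d.b d.tau (d.phi A D u h) w s
  refine H13Z.nb_red hd (phi_mem d hd A D u h (hk₀ _ le_rfl))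
    (phi_mem d hd A₁ D₁ u₁ h (hk₀ _ le_rfl)) (fun x => ?_) w s
  obtain ⟨k, hk⟩ := sfun_gS d hd hk0 x
  have hk' := hk _ le_rfl
  rw [HF_phi d hd hunB hGS hS1 hh hu hQ hQ' hk', HF_phi d hd hunB hGS hS2 hh₁ hu₁ hQ₁ hQ₁' hk',
    cst_eq d e1 e2]
  by_cases hMS : MS d k x = 0
  · rw [hMS]; ring
  have hone := fun y hy => psi_eq_one_of_MS d hd hPER hk' hMS y hy
  have hval := hSUPP x hone c hc
  have hch : H13Z.er (-((Algebra.trace ℚ E (c * Algebra.norm E x) : ℚ) : ℝ)) =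
      psS d.S (c * Algebra.norm E x) := by
    rw [psS_of_integral hval, ← er_eq]
    push_cast
    rfl
  have hmem : x ∈ RB B d.S (fun P => d.dlt D₁ h P + g₁ (below E P)) ↔
      x ∈ RB B d.S (fun P => d.dlt D h P + g (below E P)) := by
    rw [mem_RB, mem_RB]
    refine forall₂_congr fun P hP => ?_
    have h1 : below E P ∉ d.S := fun h => hP ⟨below E P, h, H47.mem_above_below P⟩
    have h2 : d.dlt D₁ h P + g₁ (below E P) = d.dlt D h P + g (below E P) := by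
      unfold DD.dlt
      have := (heq _ h1).1
      linarith
    rw [h2]
  rw [hch]
  by_cases hx : x ∈ RB B d.S (fun P => d.dlt D h P + g (below E P))
  · rw [if_pos hx, if_pos (hmem.2 hx), sub_mul, AddChar.map_sub_eq_div]
    have hne : psS d.S (c * Algebra.norm E x) ≠ 0 := by
      intro h0
      have := norm_psS d.S (c * Algebra.norm E x)
      rw [h0, norm_zero] at this
      exact zero_ne_one this
    have h3 : psS d.S (c * Algebra.norm E x) * (psS d.S (u2 * Algebra.norm E x) /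
        psS d.S (c * Algebra.norm E x)) = psS d.S (u2 * Algebra.norm E x) :=
      mul_div_cancel₀ _ hne
    linear_combination (-(cst d A₁ D₁ * ((aN (A₁ * D₁⁻¹) : ℝ) : ℂ) *
      (om B d.S Q₁ * ((aN Q₁ : ℝ) : ℂ)⁻¹) * MS d k x)) * h3
  · rw [if_neg hx, if_neg (fun h => hx (hmem.1 h))]
    ring

end main

end Fermat.Agent.H66T
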