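import Fermat.Agent.H88GS9
import Fermat.Agent.H66TMain

/-! # Lemma GS in the form used by the theta kernel (helper88, S47 DE2b) -/

set_option autoImplicit false
set_option linter.style.haveILetI false
set_option linter.unusedSectionVars false

open IsDedekindDomain NumberField WithZero FractionalIdeal
open scoped nonZeroDivisors Pointwise

noncomputable section

namespace Fermat.Agent.H88T

open Fermat.Agent Fermat.Agent.H78G Fermat.Agent.H71D
open Fermat.Agent.H47 (smulPlace below)
open Fermat.Agent.H82 (above aboveSet NonSplit)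
open Fermat.Agent.H7.Z (ee psi Unram exists_approx exists_le_exp psi_congr psi_of_integral)

variable {E B : Type*} [Field E] [NumberField E] [Field B] [NumberField B] [Algebra E B]
  {J : Type*} [Fintype J]

/-- the value in terms of `om` and `aN` -/
theorem prod_eq_om {S : Finset (HeightOneSpectrum (𝓞 E))} {Q : FI E}
    (hQ : ∀ w ∈ S, cE Q w = 0) (hQ' : ∀ w, 0 ≤ cE Q w) {T : Finset (HeightOneSpectrum (𝓞 E))}
    (hT : ∀ w, cE Q w ≠ 0 → w ∈ T) (hTS : ∀ w ∈ T, w ∉ S) :
    ∏ w ∈ T, (sgn B w / (Nat.card (𝓞 E ⧸ w.asIdeal) : ℂ)) ^ (cE Q w).toNat =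
      om B S Q * ((aN Q : ℝ) : ℂ)⁻¹ := by
  classical
  have h1 : om B S Q = ∏ w ∈ T, sgn B w ^ (cE Q w).toNat := by
    unfold om
    rw [finprod_eq_prod_of_mulSupport_subset _ (s := T)]
    · refine Finset.prod_congr rfl fun w hw => ?_
      have h2 : ((cE Q w).toNat : ℤ) = cE Q w := Int.toNat_of_nonneg (hQ' w)
      unfold sgn
      have h3 := hTS w hw
      by_cases h4 : NonSplit B w
      · rw [if_pos ⟨h3, h4⟩, if_pos h4, ← zpow_natCast, h2]
      · rw [if_neg (fun h => h4 h.2), if_neg h4, one_zpow, one_pow]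
    · intro w hw
      by_contra h
      apply hw
      have h2 : cE Q w = 0 := by
        by_contra h3
        exact h (hT w h3)
      show _ ^ cE Q w = 1
      rw [h2, zpow_zero]
  have h2 : ((aN Q : ℝ) : ℂ) = ∏ w ∈ T, (Nat.card (𝓞 E ⧸ w.asIdeal) : ℂ) ^ (cE Q w).toNat := by
    unfold aN
    rw [← H97D.FI_cE, H97D.absNorm_FI (H97D.finite_cE Q),
      finprod_eq_prod_of_mulSupport_subset _ (s := T)]
    · push_cast
      refine Finset.prod_congr rfl fun w hw => ?_
      have h3 : ((cE Q w).toNat : ℤ) = cE Q w := Int.toNat_of_nonneg (hQ' w)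
      rw [← zpow_natCast, h3]
      rfl
    · intro w hw
      by_contra h
      apply hw
      have h3 : cE Q w = 0 := by
        by_contra h3
        exact h (hT w h3)
      show _ ^ cE Q w = 1
      rw [h3, zpow_zero]
  rw [h1, h2, ← Finset.prod_inv_distrib, ← Finset.prod_mul_distrib]
  refine Finset.prod_congr rfl fun w _ => ?_
  rw [div_pow, div_eq_mul_inv]

/-- **Lemma GS, the form used by the theta kernel.** -/
theorem gsProp (d : DD E B J) (hd : d.Good) (hE : ∀ w ∉ d.S, Unram w)
    (hunB : ∀ P ∉ aboveSet B (d.S : Set (HeightOneSpectrum (𝓞 E))), Unram P) :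
    H66T.GSProp d := by
  classical
  haveI := H73U.isGalois d.tau hd.tau_ne hd.deg
  intro A D u u2 h g hS hh hu Q hQ hQ' δ hδ hle hδ'
  have hSB : ∀ P : HeightOneSpectrum (𝓞 B), below E P ∉ d.S →
      P ∉ aboveSet B (d.S : Set (HeightOneSpectrum (𝓞 E))) := by
    intro P hP hP'
    exact hP (by simpa using H78R.mem_aboveSet_iff.mp hP')
  have hval : ∀ w ∉ d.S, max 1 (w.valuation E u * exp (-(cE D w - cE A w))) = exp (cE Q w) := by
    intro w hw
    obtain ⟨h1, -, -, -⟩ := hu w hw
    rw [hQ' w hw]
    have e : cE A w - cE D w - g w = -(cE D w - cE A w) + -g w := by ring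
    rw [e, exp_add, h1, mul_max, ← exp_add, neg_add_cancel, exp_zero, max_comm, mul_comm]
  have hQ0 : ∀ w, 0 ≤ cE Q w := by
    intro w
    by_cases hw : w ∈ d.S
    · rw [hQ w hw]
    · have h1 : (1 : WithZero (Multiplicative ℤ)) ≤ exp (cE Q w) := by
        rw [← hval w hw]
        exact le_max_left _ _
      rwa [← exp_zero, exp_le_exp] at h1
  have hfin : {w | cE Q w ≠ 0}.Finite := H97D.finite_cE Q
  have hTmem : ∀ w, w ∈ hfin.toFinset ↔ cE Q w ≠ 0 := fun w => by
    rw [Set.Finite.mem_toFinset]
    rfl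
  have hL : LatU d.tau d.S (d.dlt D h) (fun w => cE D w - cE A w) u
      (fun w => (cE Q w).toNat) hfin.toFinset :=
    { ne := hd.tau_ne
      deg := hd.deg
      ram := fun P hP => hd.unr _ hP P (H47.mem_above_below P)
      unE := hE
      unB := fun P hP => hunB P (hSB P hP)
      cfin := (H97D.finite_dlt d D h).subset fun P hP => hP.2
      nrm := by
        intro P hP
        have h1 := hh.norm P (hSB P hP)
        show (cE D (below E P) - cE h (smulPlace d.tau P)) +
          (cE D (below E (smulPlace d.tau P)) - cE h (smulPlace d.tau (smulPlace d.tau P))) =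
            cE D (below E P) - cE A (below E P)
        rw [H78R.below_smulPlace, H78R.smulPlace_smulPlace hd.deg hd.tau_ne]
        rw [cE_mul] at h1
        linarith
      hk := by
        intro w hw
        rw [hval w hw, Int.toNat_of_nonneg (hQ0 w)]
      hT := by
        intro w hw hwS
        rw [hTmem] at hw
        exact hw (hQ w hwS)
      hT' := by
        intro w _ hw
        rw [hTmem, not_not] at hw
        show (cE Q w).toNat = 0
        rw [hw]
        rfl }
  have hper : Per (RB B d.S (d.dlt D h)) (RB B d.S δ) (fun x => psS d.S (u * Algebra.norm E x)) := by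
    intro l hl l' hl'
    obtain ⟨h1, h2⟩ := hδ' l' hl'
    show psS d.S (u * Algebra.norm E (l + l')) = psS d.S (u * Algebra.norm E l)
    have e : Algebra.norm E (l + l') = Algebra.norm E l + (Algebra.trace E B (l' * d.tau l) +
        Algebra.norm E l') := by
      apply (algebraMap E B).injective
      rw [map_add (algebraMap E B), map_add (algebraMap E B), norm_tau d.tau hd.tau_ne hd.deg,
        norm_tau d.tau hd.tau_ne hd.deg, norm_tau d.tau hd.tau_ne hd.deg,
        trace_tau d.tau hd.tau_ne hd.deg, map_add, map_mul,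
        H73U.tau_tau d.tau hd.tau_ne hd.deg]
      ring
    rw [e, mul_add, AddChar.map_add_eq_mul, psS_eq_one (z := u * (_ + _)), mul_one]
    intro w hw
    rw [mul_add]
    exact (Valuation.map_add _ _ _).trans (max_le (h1 l hl w hw) (h2 w hw))
  haveI hf : Finite ((RB B d.S (d.dlt D h)) ⧸ (RB B d.S δ).addSubgroupOf (RB B d.S (d.dlt D h))) :=
    H66T.finite_RS' (H66T.SB_finite d) ((H97D.finite_dlt d D h).subset fun P hP => hP.2)
      (hδ.subset fun P hP => hP.2) fun P _ => hle P
  rw [hL.mean_lattice hper]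
  exact prod_eq_om hQ hQ0 (fun w hw => (hTmem w).mpr hw) hL.hT

end Fermat.Agent.H88T
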