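import Fermat.Agent.H16D6
import Fermat.Agent.H18DOut
import Fermat.Agent.H66TFin
import Fermat.Agent.H87VFin
import Fermat.Agent.H88GS10

/-!
# S47, block (D): the final theorem (helper16)

* `nbarEx : NbarEx` : from the theta kernel (`H66T.nbarTheta_unif`, `H88T.gsProp`) and the
  unfolding (`H87V.nbarSer_of_theta`);
* `blockD : H46Z.BlockD` : the dihedral form over `E`.
-/

set_option autoImplicit false
set_option linter.unusedSectionVars false
set_option linter.unusedVariables false

noncomputable section

open IsDedekindDomain NumberField WithZero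
open scoped nonZeroDivisors
open Fermat.Agent.H47 (smulPlace below)
open Fermat.Agent.H82 (above aboveSet NonSplit congr)

namespace Fermat.Agent.H16D

open Fermat.Agent Fermat.Agent.H71D

/-- **(NBAR)**. -/
theorem nbarEx : NbarEx := by
  intro E B _ _ _ _ _ S chi a h n2
  obtain ⟨c₀, hc₀⟩ := H66T.nbarTheta_unif (B := B) h.deg S h.unram
  refine ⟨c₀, fun J _ d hd hS hchi hdn n hn hU => ?_⟩
  have hE : ∀ w ∉ d.S, H7.Z.Unram w := fun w hw => h.unram w (hS ▸ hw)
  have hunB : ∀ P ∉ aboveSet B (d.S : Set (HeightOneSpectrum (𝓞 E))), H7.Z.Unram P := by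
    intro P hP
    have h1 : below E P ∉ d.S := fun h => hP ⟨below E P, h, H47.mem_above_below P⟩
    exact H78R.unramB (hE _ h1) (hd.unr _ h1 P (H47.mem_above_below P))
  refine H87V.nbarSer_of_theta hd ?_
    (hc₀ J d hd hS (H88T.gsProp d hd hE hunB) n (fun w hw => hdn ▸ hn w hw) hU)
  intro α hα c hc w hw
  rw [map_mul, Units.val_inv_eq_inv_val, map_inv₀, hd.US_unit α hα w (hS ▸ hw), inv_one, one_mul]
  exact hc w hw

/-- **Block (D)**: the dihedral form over `E`. -/
theorem blockD : H46Z.BlockD := blockD_of H18D.outerEx nbarEx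

end Fermat.Agent.H16D
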