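import Mathlib
import Fermat.Agent.H16Arith

set_option autoImplicit false

open Matrix

namespace Fermat.Agent.H16

/-- the integral data entering the quaternary form of level `p` -/
structure ThetaData (p : ℕ) where
  q : ℤ
  r : ℤ
  m : ℤ
  a : ℤ
  b : ℤ
  k : ℤ
  n : ℤ
  hq : 0 < q
  h1 : 4 * r = q + 1
  h2 : q * m = a ^ 2 + p
  h3 : q * b = a + p * k
  h4 : m - a * b = p * n
  hns : ¬ IsSquare (-(q : ZMod p))

namespace ThetaData

theorem exists_data (p : ℕ) (hp : p.Prime) (hp5 : 5 ≤ p) : Nonempty (ThetaData p) := by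
  obtain ⟨q, hq, hq4, hqp, hns, a, m, ham⟩ := exists_prime_aux p hp hp5
  have hcop : IsCoprime (q : ℤ) (p : ℤ) :=
    Nat.isCoprime_iff_coprime.mpr ((Nat.coprime_primes hq hp).mpr hqp)
  obtain ⟨x, y, hxy⟩ := hcop
  -- x * q + y * p = 1;  b = a x, k = - a y
  have hr : (4 : ℤ) ∣ (q : ℤ) + 1 := by omega
  obtain ⟨r, hr⟩ := hr
  have hdvd : (p : ℤ) ∣ m - a * (a * x) := by
    have hc : IsCoprime (p : ℤ) (q : ℤ) := ⟨y, x, by linear_combination hxy⟩
    apply hc.dvd_of_dvd_mul_left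
    refine ⟨1 + a ^ 2 * y, ?_⟩
    linear_combination -ham - a ^ 2 * hxy
  obtain ⟨n, hn⟩ := hdvd
  exact ⟨⟨q, r, m, a, a * x, - a * y, n, by exact_mod_cast hq.pos, by linarith,
    by linear_combination -ham, by linear_combination a * hxy, hn, by simpa using hns⟩⟩

variable {p : ℕ} (D : ThetaData p)

/-- the last coefficient of the discriminant form -/
def c : ℤ := D.b * D.k + D.n

/-- the Gram matrix -/
noncomputable def G : Matrix (Fin 4) (Fin 4) ℝ :=
  !![2, 1, 0, 0; 1, 2 * D.r, 0, D.a; 0, 0, 2 * p * D.r, p; 0, D.a, p, 2 * D.m]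

/-- `p` times the inverse of the Gram matrix -/
noncomputable def P : Matrix (Fin 4) (Fin 4) ℝ :=
  !![2 * D.r * D.m, -(D.a ^ 2 + D.m), -D.a, 2 * D.r * D.a;
     -(D.a ^ 2 + D.m), 2 * (D.a ^ 2 + D.m), 2 * D.a, -4 * D.r * D.a;
     -D.a, 2 * D.a, 2, -D.q;
     2 * D.r * D.a, -4 * D.r * D.a, -D.q, 2 * D.r * D.q]

theorem qn (hp : p ≠ 0) : D.q * D.n = 1 - D.a * D.k := by
  have hp' : (p : ℤ) ≠ 0 := by exact_mod_cast hp
  apply mul_left_cancel₀ hp'
  linear_combination D.h2 - D.a * D.h3 - D.q * D.h4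

theorem h1R : (4 : ℝ) * D.r = D.q + 1 := by exact_mod_cast D.h1
theorem h2R : (D.q : ℝ) * D.m = D.a ^ 2 + p := by exact_mod_cast D.h2
theorem h3R : (D.q : ℝ) * D.b = D.a + p * D.k := by exact_mod_cast D.h3
theorem h4R : (D.m : ℝ) - D.a * D.b = p * D.n := by exact_mod_cast D.h4

theorem G_mul_P : D.G * D.P = (p : ℝ) • 1 := by
  have h1 := D.h1R
  have h2 := D.h2R
  ext i j
  fin_cases i <;> fin_cases j <;> simp [G, P, Matrix.mul_apply, Fin.sum_univ_four]
  · linear_combination D.m * h1 + h2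
  · ring
  · ring
  · ring
  · linear_combination D.m * h1 + h2
  · linear_combination D.a * h1
  · linear_combination -2 * D.r * D.a * h1
  · ring
  · ring
  · linear_combination p * h1
  · ring
  · linear_combination D.a * (D.m * h1 + h2)
  · linear_combination -2 * D.a * (D.m * h1 + h2)
  · linear_combination -2 * h2
  · linear_combination 4 * D.r * h2 + p * h1

theorem det_G : D.G.det = (p : ℝ) ^ 2 := by
  have h1 := D.h1R
  have h2 := D.h2R
  rw [G, Matrix.det_succ_row_zero]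
  simp [Fin.sum_univ_succ, Matrix.det_fin_three, Fin.succAbove, Matrix.submatrix]
  linear_combination (4 * p * D.r) * h2 + 4 * p * D.r * D.m * h1

theorem inv_G (hp : p ≠ 0) : D.G⁻¹ = (p : ℝ)⁻¹ • D.P := by
  have hp' : (p : ℝ) ≠ 0 := by exact_mod_cast hp
  apply Matrix.inv_eq_right_inv
  rw [Matrix.mul_smul, G_mul_P, smul_smul, inv_mul_cancel₀ hp', one_smul]

/-- twice the quadratic form -/
theorem dot_G (x : Fin 4 → ℝ) : x ⬝ᵥ (D.G *ᵥ x) =
    2 * (x 0 ^ 2 + x 0 * x 1 + D.r * x 1 ^ 2 + p * D.r * x 2 ^ 2 + D.a * x 1 * x 3 +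
      p * x 2 * x 3 + D.m * x 3 ^ 2) := by
  simp [G, Matrix.mulVec, dotProduct, Fin.sum_univ_four]
  ring

theorem posDef_G (hp : 0 < p) : D.G.PosDef := by
  have h1 := D.h1R
  have h2 := D.h2R
  have hq : (0 : ℝ) < D.q := by exact_mod_cast D.hq
  have hp' : (0 : ℝ) < p := by exact_mod_cast hp
  rw [Matrix.posDef_iff_dotProduct_mulVec]
  constructor
  · ext i j
    fin_cases i <;> fin_cases j <;> simp [G]
  · intro x hx
    rw [star_trivial, dot_G]
    have key : (x 0 ^ 2 + x 0 * x 1 + D.r * x 1 ^ 2 + p * D.r * x 2 ^ 2 + D.a * x 1 * x 3 +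
      p * x 2 * x 3 + D.m * x 3 ^ 2 : ℝ) = (x 0 + x 1 / 2) ^ 2 + D.q * (x 1 / 2 + D.a * x 3 / D.q) ^ 2
        + p * ((x 2 / 2) ^ 2 + D.q * (x 2 / 2 + x 3 / D.q) ^ 2) := by
      have hr : (D.r : ℝ) = (D.q + 1) / 4 := by linarith
      have hm : (D.m : ℝ) = (D.a ^ 2 + p) / D.q := by rw [← h2]; field_simp
      rw [hr, hm]
      field_simp
      ring
    rw [key]
    by_contra hneg
    push Not at hneg
    have e1 := sq_nonneg (x 0 + x 1 / 2)
    have e2 := mul_nonneg hq.le (sq_nonneg (x 1 / 2 + D.a * x 3 / D.q))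
    have e3 := mul_nonneg hp'.le (sq_nonneg (x 2 / 2))
    have e4 := mul_nonneg hp'.le (mul_nonneg hq.le (sq_nonneg (x 2 / 2 + x 3 / D.q)))
    have z3 : x 2 = 0 := by
      have : (p : ℝ) * (x 2 / 2) ^ 2 = 0 := by nlinarith
      have := (mul_eq_zero.mp this).resolve_left hp'.ne'
      have := pow_eq_zero_iff (two_ne_zero) |>.mp this
      linarith
    have z4 : x 3 = 0 := by
      have : (p : ℝ) * (D.q * (x 2 / 2 + x 3 / D.q) ^ 2) = 0 := by nlinarith
      have := (mul_eq_zero.mp this).resolve_left hp'.ne'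
      have := (mul_eq_zero.mp this).resolve_left hq.ne'
      have := pow_eq_zero_iff (two_ne_zero) |>.mp this
      rw [z3] at this
      field_simp at this
      linarith
    have z2 : x 1 = 0 := by
      have : (D.q : ℝ) * (x 1 / 2 + D.a * x 3 / D.q) ^ 2 = 0 := by nlinarith
      have := (mul_eq_zero.mp this).resolve_left hq.ne'
      have := pow_eq_zero_iff (two_ne_zero) |>.mp this
      rw [z4, mul_zero, zero_div, add_zero] at this
      linarith
    have z1 : x 0 = 0 := by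
      have : (x 0 + x 1 / 2) ^ 2 = 0 := by nlinarith
      have := pow_eq_zero_iff (two_ne_zero) |>.mp this
      linarith
    apply hx
    ext i
    fin_cases i
    · exact z1
    · exact z2
    · exact z3
    · exact z4

end ThetaData

end Fermat.Agent.H16
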