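import Mathlib
import Fermat.Agent.H16Defs

set_option autoImplicit false

/-!
# The Weil representation argument (job S16-WEIL)
-/

namespace Fermat.Agent.H16

open Complex Real UpperHalfPlane
open scoped MatrixGroups ModularForm

/-- the binary form A s^2 + B s t + C t^2 over ZMod p -/
def binQ {p : ℕ} (A B C : ZMod p) (u : ZMod p × ZMod p) : ZMod p :=
  A * u.1 ^ 2 + B * u.1 * u.2 + C * u.2 ^ 2

/-- its polar form -/
def binB {p : ℕ} (A B C : ZMod p) (u v : ZMod p × ZMod p) : ZMod p :=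
  2 * A * u.1 * v.1 + B * (u.1 * v.2 + u.2 * v.1) + 2 * C * u.2 * v.2

section gauss

variable {p : ℕ} [Fact p.Prime]

/-- the complex quadratic character -/
noncomputable def etaC (p : ℕ) [Fact p.Prime] : MulChar (ZMod p) ℂ :=
  (quadraticChar (ZMod p)).ringHomComp (Int.castRingHom ℂ)

lemma etaC_apply (a : ZMod p) : etaC p a = (quadraticChar (ZMod p) a : ℂ) := rfl

lemma weil_ringChar (hp2 : p ≠ 2) : ringChar (ZMod p) ≠ 2 := by
  rwa [ZMod.ringChar_zmod_n]

lemma sum_stdAddChar_sq (hp2 : p ≠ 2) (k : ZMod p) (hk : k ≠ 0) :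
    ∑ x : ZMod p, ZMod.stdAddChar (k * x ^ 2) = etaC p k * gaussSum (etaC p) ZMod.stdAddChar := by
  classical
  have h1 : ∑ x : ZMod p, ZMod.stdAddChar (k * x ^ 2) =
      ∑ a : ZMod p, (etaC p a + 1) * ZMod.stdAddChar (k * a) := by
    rw [← Finset.sum_fiberwise' Finset.univ (fun x : ZMod p => x ^ 2)
      (fun a => ZMod.stdAddChar (k * a))]
    refine Finset.sum_congr rfl fun a _ => ?_
    rw [Finset.sum_const, nsmul_eq_mul]
    congr 1
    have h2 := quadraticChar_card_sqrts (weil_ringChar hp2) a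
    rw [etaC_apply]
    have h3 : (Finset.univ.filter fun x : ZMod p => x ^ 2 = a) = {x : ZMod p | x ^ 2 = a}.toFinset := by
      ext x; simp
    rw [h3]
    exact_mod_cast congrArg (Int.cast : ℤ → ℂ) h2
  have h4 : ∑ a : ZMod p, (ZMod.stdAddChar (k * a) : ℂ) = 0 := by
    have := AddChar.sum_mulShift k (ZMod.isPrimitive_stdAddChar p)
    rw [if_neg hk] at this
    rw [← Nat.cast_zero, ← this]
    exact Finset.sum_congr rfl fun a _ => by rw [mul_comm]
  have h5 : ∑ a : ZMod p, etaC p a * ZMod.stdAddChar (k * a) =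
      gaussSum (etaC p) (ZMod.stdAddChar.mulShift k) := rfl
  rw [h1]
  simp_rw [add_mul, one_mul]
  rw [Finset.sum_add_distrib, h4, add_zero, h5]
  have h6 := gaussSum_mulShift (etaC p) ZMod.stdAddChar (Units.mk0 k hk)
  rw [Units.val_mk0] at h6
  have h7 : etaC p k * etaC p k = 1 := by
    rw [etaC_apply, ← Int.cast_mul, ← sq, quadraticChar_sq_one hk, Int.cast_one]
  rw [← h6, ← mul_assoc, h7, one_mul]

lemma gaussSum_etaC_sq (hp2 : p ≠ 2) :
    gaussSum (etaC p) ZMod.stdAddChar ^ 2 = etaC p (-1) * (p : ℂ) := by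
  have h1 : etaC p ≠ 1 := by
    intro h
    apply quadraticChar_ne_one (weil_ringChar hp2)
    ext a
    have := congrArg (fun χ : MulChar (ZMod p) ℂ => χ a) h
    simp only [etaC_apply, MulChar.one_apply_coe] at this
    rw [MulChar.one_apply_coe]
    exact_mod_cast this
  have h2 : (etaC p).IsQuadratic := (quadraticChar_isQuadratic (ZMod p)).comp _
  rw [gaussSum_sq h1 h2 (ZMod.isPrimitive_stdAddChar p), ZMod.card]

lemma weil_two_ne_zero (hp2 : p ≠ 2) : (2 : ZMod p) ≠ 0 := by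
  intro h
  have : ((2 : ℕ) : ZMod p) = 0 := by exact_mod_cast h
  rw [ZMod.natCast_eq_zero_iff] at this
  exact hp2 ((Nat.prime_dvd_prime_iff_eq Fact.out Nat.prime_two).mp this)

theorem sum_binQ (hp2 : p ≠ 2) (A B C : ZMod p) (hdisc : ¬ IsSquare (B ^ 2 - 4 * A * C))
    (j : ZMod p) (hj : j ≠ 0) :
    ∑ u : ZMod p × ZMod p, (ZMod.stdAddChar (j * binQ A B C u) : ℂ) = -(p : ℂ) := by
  classical
  have h2 := weil_two_ne_zero hp2
  have hA : A ≠ 0 := by
    rintro rfl
    apply hdisc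
    exact ⟨B, by ring⟩
  have h4A : 4 * A ≠ 0 := by
    have : (4 : ZMod p) = 2 * 2 := by norm_num
    rw [this]
    exact mul_ne_zero (mul_ne_zero h2 h2) hA
  set D := B ^ 2 - 4 * A * C with hD
  have hD0 : D ≠ 0 := fun h => hdisc (h ▸ IsSquare.zero)
  set k := j / (4 * A) with hk
  have hk0 : k ≠ 0 := div_ne_zero hj h4A
  have hform : ∀ s t : ZMod p, j * binQ A B C (s, t) =
      k * (2 * A * s + B * t) ^ 2 + (-k * D) * t ^ 2 := by
    intro s t
    have : j = k * (4 * A) := by rw [hk, div_mul_cancel₀ _ h4A]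
    rw [this, binQ, hD]
    ring
  rw [Fintype.sum_prod_type_right]
  have h3 : ∀ t : ZMod p, ∑ s : ZMod p, (ZMod.stdAddChar (j * binQ A B C (s, t)) : ℂ) =
      (∑ x : ZMod p, ZMod.stdAddChar (k * x ^ 2)) * ZMod.stdAddChar ((-k * D) * t ^ 2) := by
    intro t
    rw [Finset.sum_mul]
    have hbij : Function.Bijective fun s : ZMod p => 2 * A * s + B * t := by
      rw [Fintype.bijective_iff_injective_and_card]
      refine ⟨fun s s' h => ?_, rfl⟩
      have h' : 2 * A * s = 2 * A * s' := add_right_cancel h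
      exact mul_left_cancel₀ (mul_ne_zero h2 hA) h'
    rw [← hbij.sum_comp (fun x => ZMod.stdAddChar (k * x ^ 2) *
      ZMod.stdAddChar ((-k * D) * t ^ 2))]
    refine Finset.sum_congr rfl fun s _ => ?_
    rw [hform, AddChar.map_add_eq_mul]
  rw [Finset.sum_congr rfl fun t _ => h3 t, ← Finset.mul_sum, sum_stdAddChar_sq hp2 k hk0,
    sum_stdAddChar_sq hp2 (-k * D) (mul_ne_zero (neg_ne_zero.mpr hk0) hD0)]
  have h5 : etaC p k * gaussSum (etaC p) ZMod.stdAddChar *
      (etaC p (-k * D) * gaussSum (etaC p) ZMod.stdAddChar) =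
      etaC p k * etaC p (-k * D) * gaussSum (etaC p) ZMod.stdAddChar ^ 2 := by ring
  rw [h5, gaussSum_etaC_sq hp2, ← mul_assoc, ← map_mul, ← map_mul]
  have h6 : etaC p (k * (-k * D) * -1) = -1 := by
    rw [etaC_apply, show k * (-k * D) * -1 = k ^ 2 * D by ring, map_mul, quadraticChar_sq_one' hk0,
      one_mul, quadraticChar_neg_one_iff_not_isSquare.mpr hdisc]
    norm_num
  rw [h6, neg_one_mul]

lemma sum_binB (hp2 : p ≠ 2) (A B C : ZMod p) (hdisc : ¬ IsSquare (B ^ 2 - 4 * A * C))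
    (v : ZMod p × ZMod p) :
    ∑ u : ZMod p × ZMod p, (ZMod.stdAddChar (-(binB A B C u v)) : ℂ) =
      if v = 0 then (p : ℂ) ^ 2 else 0 := by
  classical
  have hform : ∀ u : ZMod p × ZMod p, -(binB A B C u v) =
      u.1 * (-(2 * A * v.1 + B * v.2)) + u.2 * (-(B * v.1 + 2 * C * v.2)) := by
    intro u
    rw [binB]; ring
  simp_rw [hform, AddChar.map_add_eq_mul]
  rw [Fintype.sum_prod_type]
  simp only
  simp_rw [← Finset.mul_sum]
  rw [← Finset.sum_mul, AddChar.sum_mulShift _ (ZMod.isPrimitive_stdAddChar p),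
    AddChar.sum_mulShift _ (ZMod.isPrimitive_stdAddChar p)]
  have h2 := weil_two_ne_zero hp2
  have hA : A ≠ 0 := by
    rintro rfl
    apply hdisc
    exact ⟨B, by ring⟩
  have hD0 : B ^ 2 - 4 * A * C ≠ 0 := fun h => hdisc (h ▸ IsSquare.zero)
  by_cases hv : v = 0
  · subst hv
    simp [ZMod.card, sq]
  · rw [if_neg hv]
    by_cases h3 : -(2 * A * v.1 + B * v.2) = 0
    · by_cases h4 : -(B * v.1 + 2 * C * v.2) = 0
      · exfalso
        have e1 : 2 * A * v.1 + B * v.2 = 0 := neg_eq_zero.mp h3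
        have e2 : B * v.1 + 2 * C * v.2 = 0 := neg_eq_zero.mp h4
        have e3 : (B ^ 2 - 4 * A * C) * v.2 = 0 := by linear_combination B * e1 - 2 * A * e2
        have e4 : v.2 = 0 := (mul_eq_zero.mp e3).resolve_left hD0
        rw [e4, mul_zero, add_zero] at e1
        have e5 : v.1 = 0 := (mul_eq_zero.mp e1).resolve_left (mul_ne_zero h2 hA)
        exact hv (Prod.ext e5 e4)
      · rw [if_neg h4]; simp
    · rw [if_neg h3]; simp

end gauss

section theta

variable {p : ℕ} [Fact p.Prime]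

/-- linear combinations of the `e u` -/
noncomputable def lc (e : ZMod p × ZMod p → ℍ → ℂ) (c : ZMod p × ZMod p → ℂ) : ℍ → ℂ :=
  ∑ u, c u • e u

lemma lc_apply (e : ZMod p × ZMod p → ℍ → ℂ) (c : ZMod p × ZMod p → ℂ) (z : ℍ) :
    lc e c z = ∑ u, c u * e u z := by
  rw [lc, Finset.sum_apply]
  rfl

lemma lc_slash_T (A B C : ZMod p) (e : ZMod p × ZMod p → ℍ → ℂ)
    (hT : ∀ u (z : ℍ), e u ((1 : ℝ) +ᵥ z) = ZMod.stdAddChar (binQ A B C u) * e u z)
    (c : ZMod p × ZMod p → ℂ) :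
    lc e c ∣[(2 : ℤ)] ModularGroup.T = lc e fun u => c u * ZMod.stdAddChar (binQ A B C u) := by
  ext z
  rw [ModularForm.SL_slash_apply, lc_apply, lc_apply, modular_T_smul]
  have h1 : denom ModularGroup.T z = 1 := by
    rw [ModularGroup.denom_apply]
    simp [ModularGroup.coe_T]
  rw [h1, one_zpow, mul_one]
  refine Finset.sum_congr rfl fun u _ => ?_
  rw [hT, mul_assoc]

lemma lc_slash_S (A B C : ZMod p) (e : ZMod p × ZMod p → ℍ → ℂ)
    (hS : ∀ u (z : ℍ), e u (ModularGroup.S • z) =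
      -((z : ℂ) ^ 2 / p) * ∑ v, ZMod.stdAddChar (-(binB A B C u v)) * e v z)
    (c : ZMod p × ZMod p → ℂ) :
    lc e c ∣[(2 : ℤ)] ModularGroup.S =
      lc e fun v => -(1 / (p : ℂ)) * ∑ u, c u * ZMod.stdAddChar (-(binB A B C u v)) := by
  ext z
  rw [ModularForm.SL_slash_apply, lc_apply, lc_apply]
  have h1 : denom ModularGroup.S z = z := ModularGroup.denom_S z
  have hz : (z : ℂ) ≠ 0 := UpperHalfPlane.ne_zero z
  rw [h1]
  simp_rw [hS, Finset.mul_sum, Finset.sum_mul]
  rw [Finset.sum_comm]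
  refine Finset.sum_congr rfl fun v _ => Finset.sum_congr rfl fun u _ => ?_
  rw [zpow_neg, zpow_ofNat]
  field_simp

/-- the coefficients of the translate of `e 0` attached to a bottom row -/
noncomputable def coef (A B C : ZMod p) (c d : ZMod p) : ZMod p × ZMod p → ℂ := fun u =>
  if c = 0 then (if u = 0 then 1 else 0) else
    -(1 / (p : ℂ)) * ZMod.stdAddChar (d / c * binQ A B C u)

lemma coef_T (A B C : ZMod p) (c d : ZMod p) :
    (fun u => coef A B C c d u * ZMod.stdAddChar (binQ A B C u)) = coef A B C c (d + c) := by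
  funext u
  rw [coef, coef]
  by_cases hc : c = 0
  · rw [if_pos hc, if_pos hc]
    by_cases hu : u = 0
    · rw [if_pos hu, hu, binQ]
      simp
    · rw [if_neg hu, zero_mul]
  · rw [if_neg hc, if_neg hc, mul_assoc, ← AddChar.map_add_eq_mul]
    congr 2
    rw [add_div, div_self hc]
    ring

lemma coef_S (hp2 : p ≠ 2) (A B C : ZMod p) (hdisc : ¬ IsSquare (B ^ 2 - 4 * A * C))
    (c d : ZMod p) (hcd : c ≠ 0 ∨ d ≠ 0) :
    (fun v => -(1 / (p : ℂ)) * ∑ u, coef A B C c d u * ZMod.stdAddChar (-(binB A B C u v))) =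
      coef A B C d (-c) := by
  have hp0 : (p : ℂ) ≠ 0 := by
    have : p.Prime := Fact.out
    exact_mod_cast this.ne_zero
  funext v
  simp only [coef]
  by_cases hc : c = 0
  · have hd : d ≠ 0 := hcd.resolve_left (not_not.mpr hc)
    simp only [if_neg hd, ite_mul, one_mul, zero_mul, hc]
    simp [binB, Finset.sum_ite_eq']
  · simp only [if_neg hc]
    by_cases hd : d = 0
    · simp only [hd, zero_div, zero_mul, AddChar.map_zero_eq_one, mul_one, if_true]
      rw [← Finset.mul_sum, sum_binB hp2 A B C hdisc]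
      by_cases hv : v = 0
      · rw [if_pos hv, if_pos hv]
        field_simp
      · rw [if_neg hv, if_neg hv, mul_zero, mul_zero]
    · simp only [if_neg hd]
      have h1 : ∀ u : ZMod p × ZMod p,
          -(1 / (p : ℂ)) * ZMod.stdAddChar (d / c * binQ A B C u) *
            ZMod.stdAddChar (-(binB A B C u v)) =
          -(1 / (p : ℂ)) * ZMod.stdAddChar (-c / d * binQ A B C v) *
            ZMod.stdAddChar (d / c * binQ A B C (u + -(c / d) • v)) := by
        intro u
        rw [mul_assoc, mul_assoc, ← AddChar.map_add_eq_mul, ← AddChar.map_add_eq_mul]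
        congr 2
        simp only [binQ, binB, Prod.fst_add, Prod.snd_add, Prod.smul_fst, Prod.smul_snd,
          smul_eq_mul]
        field_simp
        ring
      rw [Finset.sum_congr rfl fun u _ => h1 u, ← Finset.mul_sum]
      have h2 : ∑ u : ZMod p × ZMod p,
          (ZMod.stdAddChar (d / c * binQ A B C (u + -(c / d) • v)) : ℂ) = -(p : ℂ) := by
        rw [← sum_binQ hp2 A B C hdisc (d / c) (div_ne_zero hd hc)]
        exact Equiv.sum_comp (Equiv.addRight (-(c / d) • v))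
          (fun u => (ZMod.stdAddChar (d / c * binQ A B C u) : ℂ))
      rw [h2]
      field_simp

lemma row_mul_S (x : SL(2, ℤ)) : (x * ModularGroup.S) 1 0 = x 1 1 ∧
    (x * ModularGroup.S) 1 1 = -(x 1 0) := by
  constructor
  · show ((x * ModularGroup.S : SL(2, ℤ)) : Matrix (Fin 2) (Fin 2) ℤ) 1 0 = _
    rw [Matrix.SpecialLinearGroup.coe_mul, ModularGroup.coe_S, Matrix.mul_apply, Fin.sum_univ_two]
    simp
  · show ((x * ModularGroup.S : SL(2, ℤ)) : Matrix (Fin 2) (Fin 2) ℤ) 1 1 = _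
    rw [Matrix.SpecialLinearGroup.coe_mul, ModularGroup.coe_S, Matrix.mul_apply, Fin.sum_univ_two]
    simp

lemma row_mul_T (x : SL(2, ℤ)) : (x * ModularGroup.T) 1 0 = x 1 0 ∧
    (x * ModularGroup.T) 1 1 = x 1 1 + x 1 0 := by
  constructor
  · show ((x * ModularGroup.T : SL(2, ℤ)) : Matrix (Fin 2) (Fin 2) ℤ) 1 0 = _
    rw [Matrix.SpecialLinearGroup.coe_mul, ModularGroup.coe_T, Matrix.mul_apply, Fin.sum_univ_two]
    simp
  · show ((x * ModularGroup.T : SL(2, ℤ)) : Matrix (Fin 2) (Fin 2) ℤ) 1 1 = _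
    rw [Matrix.SpecialLinearGroup.coe_mul, ModularGroup.coe_T, Matrix.mul_apply, Fin.sum_univ_two]
    simp [add_comm]

end theta

-- JOB S16-WEIL : Weil representation argument
/-- e_0 is invariant under Γ₀(p), and every SL₂(ℤ)-translate of e_0 is a linear combination of the e_h -/
theorem weil_invariance (p : ℕ) [Fact p.Prime] (hp2 : p ≠ 2) (A B C : ZMod p)
    (hdisc : ¬ IsSquare (B ^ 2 - 4 * A * C))
    (e : ZMod p × ZMod p → ℍ → ℂ)
    (hT : ∀ u (z : ℍ), e u ((1 : ℝ) +ᵥ z) = ZMod.stdAddChar (binQ A B C u) * e u z)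
    (hS : ∀ u (z : ℍ), e u (ModularGroup.S • z) =
      -((z : ℂ) ^ 2 / p) * ∑ v, ZMod.stdAddChar (-(binB A B C u v)) * e v z) :
    (∀ γ ∈ CongruenceSubgroup.Gamma0 p, (e 0) ∣[(2 : ℤ)] γ = e 0) ∧
    (∀ γ : SL(2, ℤ), ∃ c : ZMod p × ZMod p → ℂ, (e 0) ∣[(2 : ℤ)] γ = ∑ u, c u • e u) := by
  have h0 : ∀ d : ZMod p, lc e (coef A B C 0 d) = e 0 := by
    intro d
    ext z
    rw [lc_apply]
    simp [coef]
  have hTl : ∀ c d : ZMod p, lc e (coef A B C c d) ∣[(2 : ℤ)] ModularGroup.T =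
      lc e (coef A B C c (d + c)) := by
    intro c d
    rw [lc_slash_T A B C e hT, coef_T]
  have hSl : ∀ c d : ZMod p, (c ≠ 0 ∨ d ≠ 0) → lc e (coef A B C c d) ∣[(2 : ℤ)] ModularGroup.S =
      lc e (coef A B C d (-c)) := by
    intro c d hcd
    rw [lc_slash_S A B C e hS, coef_S hp2 A B C hdisc c d hcd]
  have hne : ∀ γ : SL(2, ℤ), ((γ 1 0 : ℤ) : ZMod p) ≠ 0 ∨ ((γ 1 1 : ℤ) : ZMod p) ≠ 0 := by
    intro γ
    by_contra h
    push Not at h
    have hdet := Matrix.det_fin_two (γ : Matrix (Fin 2) (Fin 2) ℤ)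
    rw [γ.det_coe] at hdet
    have := congrArg (Int.cast : ℤ → ZMod p) hdet
    push_cast at this
    rw [h.1, h.2, mul_zero, mul_zero, sub_zero] at this
    exact one_ne_zero this
  have key : ∀ γ : SL(2, ℤ), (e 0) ∣[(2 : ℤ)] γ =
      lc e (coef A B C ((γ 1 0 : ℤ) : ZMod p) ((γ 1 1 : ℤ) : ZMod p)) := by
    intro γ
    have hγ : γ ∈ Subgroup.closure {ModularGroup.S, ModularGroup.T} := by
      simp [SpecialLinearGroup.SL2Z_generators]
    induction hγ using Subgroup.closure_induction_right with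
    | one =>
      rw [SlashAction.slash_one]
      simp only [Matrix.SpecialLinearGroup.coe_one, Matrix.one_apply_ne (one_ne_zero),
        Int.cast_zero]
      rw [h0]
    | mul_right x hx y hy ih =>
      rw [SlashAction.slash_mul, ih]
      rcases hy with rfl | rfl
      · rw [hSl _ _ (hne x), (row_mul_S x).1, (row_mul_S x).2]
        push_cast
        rfl
      · rw [hTl, (row_mul_T x).1, (row_mul_T x).2]
        push_cast
        rfl
    | mul_inv_cancel x hx y hy ih =>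
      rw [SlashAction.slash_mul, ih]
      have h3 : lc e (coef A B C (((x * y⁻¹ : SL(2, ℤ)) 1 0 : ℤ) : ZMod p)
          (((x * y⁻¹ : SL(2, ℤ)) 1 1 : ℤ) : ZMod p)) ∣[(2 : ℤ)] y =
          lc e (coef A B C ((x 1 0 : ℤ) : ZMod p) ((x 1 1 : ℤ) : ZMod p)) := by
        obtain ⟨w, rfl⟩ : ∃ w : SL(2, ℤ), x = w * y := ⟨x * y⁻¹, by group⟩
        rw [mul_inv_cancel_right]
        rcases hy with rfl | rfl
        · rw [hSl _ _ (hne w), (row_mul_S w).1, (row_mul_S w).2]
          push_cast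
          rfl
        · rw [hTl, (row_mul_T w).1, (row_mul_T w).2]
          push_cast
          rfl
      rw [← h3, ← SlashAction.slash_mul, mul_inv_cancel, SlashAction.slash_one]
  constructor
  · intro γ hγ
    rw [key γ, CongruenceSubgroup.Gamma0_mem.mp hγ, h0]
  · intro γ
    exact ⟨_, key γ⟩

end Fermat.Agent.H16
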