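import Mathlib
import Fermat.Agent.H16Lattice
import Fermat.Agent.H16Weil

set_option autoImplicit false

open Matrix

namespace Fermat.Agent.H16

namespace ThetaData

variable {p : ℕ} (D : ThetaData p)

/-- `p` times the representative in the dual lattice of the class `u` of the discriminant group -/
def vec (u : ZMod p × ZMod p) : Fin 4 → ℤ :=
  ![D.b * u.2.val, -2 * D.b * u.2.val, u.1.val, u.2.val]

/-- representative in the dual lattice of the class `u` of the discriminant group -/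
noncomputable def h (u : ZMod p × ZMod p) : Fin 4 → ℝ := fun i => (D.vec u i : ℝ) / p

/-- `G (x + h_u)` as an integral vector -/
def Φ (u : ZMod p × ZMod p) (x : Fin 4 → ℤ) : Fin 4 → ℤ :=
  ![2 * x 0 + x 1, x 0 + 2 * D.r * x 1 + D.a * x 3 - D.k * u.2.val,
    2 * p * D.r * x 2 + p * x 3 + 2 * D.r * u.1.val + u.2.val,
    D.a * x 1 + p * x 2 + 2 * D.m * x 3 + u.1.val + 2 * D.n * u.2.val]

theorem G_mulVec (hp : p ≠ 0) (u : ZMod p × ZMod p) (x : Fin 4 → ℤ) :
    D.G *ᵥ (fun i => (x i : ℝ) + D.h u i) = fun i => (D.Φ u x i : ℝ) := by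
  have hp' : (p : ℝ) ≠ 0 := by exact_mod_cast hp
  have h1 := D.h1R
  have h2 := D.h2R
  have h3 := D.h3R
  have h4 := D.h4R
  ext i
  fin_cases i
  · simp [G, h, vec, Φ, Matrix.mulVec, dotProduct, Fin.sum_univ_four]
    field_simp
    ring
  · simp [G, h, vec, Φ, Matrix.mulVec, dotProduct, Fin.sum_univ_four]
    field_simp
    linear_combination (-(u.2.val : ℝ) * D.b) * h1 - (u.2.val : ℝ) * h3
  · simp [G, h, vec, Φ, Matrix.mulVec, dotProduct, Fin.sum_univ_four]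
    field_simp
    ring
  · simp [G, h, vec, Φ, Matrix.mulVec, dotProduct, Fin.sum_univ_four]
    field_simp
    linear_combination (2 * (u.2.val : ℝ)) * h4

theorem inv_mulVec (hp : 0 < p) (u : ZMod p × ZMod p) (x : Fin 4 → ℤ) :
    D.G⁻¹ *ᵥ (fun i => (D.Φ u x i : ℝ)) = fun i => (x i : ℝ) + D.h u i := by
  have hu : IsUnit D.G.det := by
    rw [det_G, isUnit_iff_ne_zero]
    exact pow_ne_zero _ (by exact_mod_cast hp.ne')
  rw [← D.G_mulVec hp.ne', Matrix.mulVec_mulVec, Matrix.nonsing_inv_mul _ hu, Matrix.one_mulVec]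

theorem dot_inv (hp : 0 < p) (u : ZMod p × ZMod p) (x : Fin 4 → ℤ) :
    (fun i => (D.Φ u x i : ℝ)) ⬝ᵥ (D.G⁻¹ *ᵥ (fun i => (D.Φ u x i : ℝ))) =
      (fun i => (x i : ℝ) + D.h u i) ⬝ᵥ (D.G *ᵥ (fun i => (x i : ℝ) + D.h u i)) := by
  rw [D.inv_mulVec hp, ← D.G_mulVec hp.ne', dotProduct_comm]

/-- the form on the dual lattice, times `p` -/
def N (u : ZMod p × ZMod p) (x : Fin 4 → ℤ) : ℤ :=
  p * (x 0 ^ 2 + x 0 * x 1 + D.r * x 1 ^ 2 + p * D.r * x 2 ^ 2 + D.a * x 1 * x 3 +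
      p * x 2 * x 3 + D.m * x 3 ^ 2) +
    p * (u.1.val * (2 * D.r * x 2 + x 3) + u.2.val * (-D.k * x 1 + x 2 + 2 * D.n * x 3)) +
    (D.r * u.1.val ^ 2 + u.1.val * u.2.val + D.c * u.2.val ^ 2)

theorem dot_eq (hp : p ≠ 0) (u : ZMod p × ZMod p) (x : Fin 4 → ℤ) :
    (fun i => (x i : ℝ) + D.h u i) ⬝ᵥ (D.G *ᵥ (fun i => (x i : ℝ) + D.h u i)) =
      2 * (D.N u x : ℝ) / p := by
  have hp' : (p : ℝ) ≠ 0 := by exact_mod_cast hp
  have h1 := D.h1R
  have h2 := D.h2R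
  have h3 := D.h3R
  have h4 := D.h4R
  rw [D.G_mulVec hp]
  simp [h, vec, Φ, N, dotProduct, Fin.sum_univ_four, c]
  field_simp
  linear_combination (-(u.2.val : ℝ) * x 1) * (D.b * h1 + h3) + (2 * (u.2.val : ℝ) * x 3) * h4

theorem N_cast [NeZero p] (u : ZMod p × ZMod p) (x : Fin 4 → ℤ) :
    (D.N u x : ZMod p) = binQ (D.r : ZMod p) 1 (D.c : ZMod p) u := by
  simp [N, binQ]

/-- `p` times the pairing -/
def M (u v : ZMod p × ZMod p) (x : Fin 4 → ℤ) : ℤ :=
  D.Φ v x 0 * (D.b * u.2.val) + D.Φ v x 1 * (-2 * D.b * u.2.val) + D.Φ v x 2 * u.1.val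
    + D.Φ v x 3 * u.2.val

theorem dot_h (u v : ZMod p × ZMod p) (x : Fin 4 → ℤ) :
    (fun i => (D.Φ v x i : ℝ)) ⬝ᵥ D.h u = (D.M u v x : ℝ) / p := by
  simp [h, vec, M, dotProduct, Fin.sum_univ_four]
  ring

theorem M_cast [NeZero p] (u v : ZMod p × ZMod p) (x : Fin 4 → ℤ) :
    (D.M u v x : ZMod p) = binB (D.r : ZMod p) 1 (D.c : ZMod p) u v := by
  have h1 : (4 : ZMod p) * D.r = D.q + 1 := by exact_mod_cast congrArg (Int.cast : ℤ → ZMod p) D.h1
  have h3 : (D.q : ZMod p) * D.b = D.a := by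
    have := congrArg (Int.cast : ℤ → ZMod p) D.h3
    push_cast at this
    simpa using this
  have h4 : (D.m : ZMod p) - D.a * D.b = 0 := by
    have := congrArg (Int.cast : ℤ → ZMod p) D.h4
    push_cast at this
    simpa using this
  simp [M, Φ, binB, c]
  linear_combination (-u.2 * x 1) * (D.b * h1 + h3) + (2 * u.2 * x 3) * h4

theorem disc_not_isSquare [Fact p.Prime] :
    ¬ IsSquare ((1 : ZMod p) ^ 2 - 4 * (D.r : ZMod p) * (D.c : ZMod p)) := by
  have h1 : (4 : ZMod p) * D.r = D.q + 1 := by exact_mod_cast congrArg (Int.cast : ℤ → ZMod p) D.h1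
  have hp : p ≠ 0 := (Fact.out : p.Prime).ne_zero
  have h3 : (D.q : ZMod p) * D.b = D.a := by
    have := congrArg (Int.cast : ℤ → ZMod p) D.h3
    push_cast at this
    simpa using this
  have h5 : (D.q : ZMod p) * D.n = 1 - D.a * D.k := by
    have := congrArg (Int.cast : ℤ → ZMod p) (D.qn hp)
    push_cast at this
    simpa using this
  have hc : (D.q : ZMod p) * D.c = 1 := by
    simp only [c]
    push_cast
    linear_combination D.k * h3 + h5
  rintro ⟨d, hd⟩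
  apply D.hns
  refine ⟨D.q * d, ?_⟩
  linear_combination ((D.q : ZMod p) ^ 2) * hd + (D.q : ZMod p) ^ 2 * D.c * h1 +
    ((D.q : ZMod p) + (D.q : ZMod p) ^ 2) * hc

/-- the integral points of the dual lattice -/
theorem Φ_bijective (hp : 0 < p) : Function.Bijective
    (fun ux : (ZMod p × ZMod p) × (Fin 4 → ℤ) => D.Φ ux.1 ux.2) := by
  have : NeZero p := ⟨hp.ne'⟩
  have hp' : (p : ℤ) ≠ 0 := by exact_mod_cast hp.ne'
  have h1 := D.h1
  have h2 := D.h2
  have h3 := D.h3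
  have h4 := D.h4
  have h5 := D.qn hp.ne'
  constructor
  · rintro ⟨u, x⟩ ⟨u', x'⟩ hxx
    simp only at hxx
    have e0 : D.Φ u x 0 = D.Φ u' x' 0 := congrFun hxx 0
    have e1 : D.Φ u x 1 = D.Φ u' x' 1 := congrFun hxx 1
    have e2 : D.Φ u x 2 = D.Φ u' x' 2 := congrFun hxx 2
    have e3 : D.Φ u x 3 = D.Φ u' x' 3 := congrFun hxx 3
    simp only [Φ, Matrix.cons_val] at e0 e1 e2 e3
    -- third and fourth coordinates of `p G⁻¹`
    have k2 : p * x 2 + u.1.val = p * x' 2 + u'.1.val := by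
      linear_combination -D.a * e0 + 2 * D.a * e1 + 2 * e2 - D.q * e3 -
        ((D.a * (x 1 - x' 1) + p * (x 2 - x' 2) + (u.1.val - u'.1.val)) * h1 -
          2 * (x 3 - x' 3) * h2 - 2 * (u.2.val - u'.2.val) * h5)
    have k3 : p * x 3 + u.2.val = p * x' 3 + u'.2.val := by
      linear_combination 2 * D.r * D.a * e0 - 4 * D.r * D.a * e1 - D.q * e2 + 2 * D.r * D.q * e3 -
        ((-2 * D.r * D.a * (x 1 - x' 1) + p * (x 3 - x' 3) + (u.2.val - u'.2.val)) * h1 +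
          4 * D.r * (x 3 - x' 3) * h2 + 4 * D.r * (u.2.val - u'.2.val) * h5)
    have u1 : u.1 = u'.1 := by
      have := congrArg (Int.cast : ℤ → ZMod p) k2
      simpa using this
    have u2 : u.2 = u'.2 := by
      have := congrArg (Int.cast : ℤ → ZMod p) k3
      simpa using this
    have x2 : x 2 = x' 2 := by
      rw [u1] at k2
      exact mul_left_cancel₀ hp' (by linarith)
    have x3 : x 3 = x' 3 := by
      rw [u2] at k3
      exact mul_left_cancel₀ hp' (by linarith)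
    have x0 : x 0 = x' 0 := by
      rw [u2, x3] at e1
      refine mul_left_cancel₀ D.hq.ne' ?_
      linear_combination 2 * D.r * e0 - e1 - (x 0 - x' 0) * h1
    have x1 : x 1 = x' 1 := by
      linarith
    have hu : u = u' := Prod.ext u1 u2
    have hx : x = x' := by
      ext i
      fin_cases i
      · exact x0
      · exact x1
      · exact x2
      · exact x3
    rw [hu, hx]
  · intro y
    obtain ⟨A, hA⟩ : ∃ A : ℤ, -D.a * y 0 + 2 * D.a * y 1 + 2 * y 2 - D.q * y 3 =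
      (((-D.a * y 0 + 2 * D.a * y 1 + 2 * y 2 - D.q * y 3 : ℤ) : ZMod p).val : ℤ) + p * A := by
      refine ⟨(-D.a * y 0 + 2 * D.a * y 1 + 2 * y 2 - D.q * y 3) / p, ?_⟩
      rw [ZMod.val_intCast, Int.emod_add_mul_ediv]
    obtain ⟨B, hB⟩ : ∃ B : ℤ, 2 * D.r * D.a * y 0 - 4 * D.r * D.a * y 1 - D.q * y 2 + 2 * D.r * D.q * y 3 =
      (((2 * D.r * D.a * y 0 - 4 * D.r * D.a * y 1 - D.q * y 2 + 2 * D.r * D.q * y 3 : ℤ) : ZMod p).val : ℤ) + p * B := by
      refine ⟨(2 * D.r * D.a * y 0 - 4 * D.r * D.a * y 1 - D.q * y 2 + 2 * D.r * D.q * y 3) / p, ?_⟩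
      rw [ZMod.val_intCast, Int.emod_add_mul_ediv]
    set s := ((-D.a * y 0 + 2 * D.a * y 1 + 2 * y 2 - D.q * y 3 : ℤ) : ZMod p)
    set t := ((2 * D.r * D.a * y 0 - 4 * D.r * D.a * y 1 - D.q * y 2 + 2 * D.r * D.q * y 3 : ℤ) : ZMod p)
    refine ⟨((s, t), ![2 * D.r * D.n * y 0 + (D.a * D.k - D.n) * y 1 + D.k * y 2 - 2 * D.r * D.k * y 3 + D.b * B,
      y 0 - 2 * (2 * D.r * D.n * y 0 + (D.a * D.k - D.n) * y 1 + D.k * y 2 - 2 * D.r * D.k * y 3) - 2 * D.b * B, A, B]), ?_⟩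
    ext i
    fin_cases i
    · simp only [Φ, Fin.zero_eta, Matrix.cons_val]
      ring
    · simp only [Φ, Fin.mk_one, Matrix.cons_val]
      linear_combination (-(2 * D.r * D.n * y 0 + (D.a * D.k - D.n) * y 1 + D.k * y 2
        - 2 * D.r * D.k * y 3) - D.b * B + D.a * D.k * y 1) * h1 - B * h3 + D.k * hB -
        (2 * D.r * y 0 - y 1) * h5
    · simp only [Φ, Fin.reduceFinMk, Matrix.cons_val]
      linear_combination -2 * D.r * hA - hB + y 2 * h1
    · simp only [Φ, Fin.reduceFinMk, Matrix.cons_val]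
      linear_combination -hA + 2 * B * h4 - 2 * D.n * hB + y 1 * (-2 * D.a * h5 - 2 * D.a * D.n * h1)
        - 2 * y 2 * h5 + y 3 * (4 * D.r * h5 + h1)

end ThetaData

end Fermat.Agent.H16
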