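import Mathlib
import Fermat.Agent.H16Cusp0
import Fermat.Agent.H80Stab

set_option autoImplicit false

namespace Fermat.Agent.H16

open UpperHalfPlane ModularForm ModularFormClass MatrixGroups SlashInvariantForm
  Matrix.SpecialLinearGroup
open scoped Pointwise

noncomputable section

local notation "𝕢" => Function.Periodic.qParam

variable {p : ℕ} [hp : Fact p.Prime]


/-! ### The form `Δ(pz)` -/

lemma heckeDiag_mul_S (p : ℕ) [hp : Fact p.Prime] :
    heckeDiagMatrix p * (mapGL ℝ ModularGroup.S) = (mapGL ℝ ModularGroup.S) * heckeMatrix p 0 := by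
  apply Units.ext
  rw [Units.val_mul, Units.val_mul, val_heckeDiagMatrix hp.out.ne_zero,
    val_heckeMatrix hp.out.ne_zero]
  ext i j
  simp only [Matrix.mul_apply, Fin.sum_univ_two, H80.mapGL_entry, ModularGroup.S]
  fin_cases i <;> fin_cases j <;> simp

/-- slash by `S` of a raised level one form -/
lemma raise_slash_S {k : ℤ} {g : ℍ → ℂ} (hg : g ∣[k] (mapGL ℝ ModularGroup.S) = g) (τ : ℍ) :
    ((g ∣[k] heckeDiagMatrix p) ∣[k] ModularGroup.S) τ =
      (p : ℂ)⁻¹ * g (heckeMatrix p 0 • τ) := by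
  have h1 : (g ∣[k] heckeDiagMatrix p) ∣[k] ModularGroup.S = g ∣[k] heckeMatrix p 0 := by
    change (g ∣[k] heckeDiagMatrix p) ∣[k] (mapGL ℝ ModularGroup.S) = _
    rw [← SlashAction.slash_mul, heckeDiag_mul_S, SlashAction.slash_mul, hg]
  rw [h1, slash_heckeMatrix_apply _ hp.out.ne_zero]

lemma qParam_p_eq (τ : ℍ) : 𝕢 1 ((heckeMatrix p 0 • τ : ℍ) : ℂ) = 𝕢 p τ := by
  rw [coe_heckeMatrix_smul hp.out.ne_zero, Function.Periodic.qParam, Function.Periodic.qParam]
  congr 1
  push_cast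
  ring

lemma qParam_diag (τ : ℍ) : 𝕢 1 ((heckeDiagMatrix p • τ : ℍ) : ℂ) = 𝕢 1 τ ^ p := by
  rw [coe_heckeDiagMatrix_smul hp.out.ne_zero, Function.Periodic.qParam,
    Function.Periodic.qParam, ← Complex.exp_nat_mul]
  congr 1
  push_cast
  ring

lemma qExpansion_dN_slash_S :
    qExpansion p ((H80.dN p : ℍ → ℂ) ∣[(12 : ℤ)] ModularGroup.S) =
      PowerSeries.C (p : ℂ)⁻¹ * DZ.map (Int.castRingHom ℂ) := by
  haveI : NeZero p := ⟨hp.out.ne_zero⟩
  ext m
  symm
  refine ModularFormClass.qExpansion_coeff_unique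
    (f := ModularForm.translate (H80.dNForm p) (mapGL ℝ ModularGroup.S))
    (c := fun m => (PowerSeries.C (p : ℂ)⁻¹ * DZ.map (Int.castRingHom ℂ)).coeff m)
    p_pos (p_mem_strictPeriods_conj ModularGroup.S) ?_ m
  intro τ
  change HasSum _ (((H80.dN p : ℍ → ℂ) ∣[(12 : ℤ)] ModularGroup.S) τ)
  have h1 : ((H80.dN p : ℍ → ℂ) ∣[(12 : ℤ)] ModularGroup.S) τ =
      (p : ℂ)⁻¹ * discriminant (heckeMatrix p 0 • τ) :=
    raise_slash_S (H80.discriminant_slash ModularGroup.S) τ
  rw [h1, map_DZ]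
  have h2 := ModularForm.hasSum_qExpansion (CuspForm.discriminant : CuspForm 𝒮ℒ 12) one_pos
    one_mem_strictPeriods_SL (heckeMatrix p 0 • τ)
  have h3 := h2.mul_left (p : ℂ)⁻¹
  convert! h3 using 2 with m
  rw [PowerSeries.coeff_C_mul, qParam_p_eq, smul_eq_mul, mul_assoc]
  rfl

lemma qExpansion_dN : qExpansion 1 (H80.dN p : ℍ → ℂ) =
    PowerSeries.C ((p : ℂ) ^ 11) *
      PowerSeries.expand p hp.out.ne_zero (DZ.map (Int.castRingHom ℂ)) := by
  have : NeZero p := ⟨hp.out.ne_zero⟩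
  ext m
  symm
  refine ModularFormClass.qExpansion_coeff_unique (f := H80.dNForm p)
    (c := fun m => (PowerSeries.C ((p : ℂ) ^ 11) *
      PowerSeries.expand p hp.out.ne_zero (DZ.map (Int.castRingHom ℂ))).coeff m)
    one_pos G0_one_mem_strictPeriods ?_ m
  intro τ
  change HasSum _ ((H80.dN p : ℍ → ℂ) τ)
  have h1 : (H80.dN p : ℍ → ℂ) τ = (p : ℂ) ^ 11 * discriminant (heckeDiagMatrix p • τ) := by
    rw [H80.dN, slash_heckeDiagMatrix_apply _ hp.out.ne_zero,
      show (12 : ℤ) - 1 = ((11 : ℕ) : ℤ) by norm_num, zpow_natCast]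
  rw [h1, map_DZ]
  have h2 := ModularForm.hasSum_qExpansion (CuspForm.discriminant : CuspForm 𝒮ℒ 12) one_pos
    one_mem_strictPeriods_SL (heckeDiagMatrix p • τ)
  have hinj : Function.Injective (fun m : ℕ => p * m) := fun a b hab =>
    Nat.eq_of_mul_eq_mul_left hp.out.pos hab
  have h4 : HasSum (fun m => (PowerSeries.expand p hp.out.ne_zero
      (qExpansion 1 discriminant)).coeff m * 𝕢 1 τ ^ m) (discriminant (heckeDiagMatrix p • τ)) := by
    rw [← hinj.hasSum_iff]
    · convert! h2 using 2 with m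
      simp only [Function.comp_apply, PowerSeries.coeff_expand_mul, qParam_diag, pow_mul]
      rfl
    · intro m hm
      rw [PowerSeries.coeff_expand_of_not_dvd, zero_mul]
      rintro ⟨c, rfl⟩
      exact hm ⟨c, rfl⟩
  have h3 := h4.mul_left ((p : ℂ) ^ 11)
  convert! h3 using 2 with m
  rw [PowerSeries.coeff_C_mul, smul_eq_mul, mul_assoc]

section Red

variable {A : Subring ℂ} {κ : Type*} [Field κ] {r : A →+* κ}

/-- reduction of the `q`-expansion of the norm. -/
lemma redRing_norm {k : ℤ} (f : ModularForm (G0 p) k) (z : A) (hz : (z : ℂ) = zetaP p)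
    {ψ ψ₀ : PowerSeries κ}
    (h : (qExpansion 1 f, ψ) ∈ redRing r)
    (h0 : (qExpansion p ((f : ℍ → ℂ) ∣[k] ModularGroup.S), ψ₀) ∈ redRing r) :
    ∃ Ψ : PowerSeries κ, (qExpansion 1 (ModularForm.norm 𝒮ℒ f), Ψ) ∈ redRing r ∧
      PowerSeries.expand p hp.out.ne_zero Ψ = PowerSeries.expand p hp.out.ne_zero ψ *
        ∏ j : Fin p, PowerSeries.rescale (r z ^ (j : ℕ)) ψ₀ := by
  apply redRing_of_expand p hp.out.ne_zero
  rw [qExpansion_norm]
  apply redRing_mul
  · exact redRing_expand p hp.out.ne_zero h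
  · apply redRing_prod
    intro j _
    have := redRing_rescale (z ^ (j : ℕ)) h0
    rwa [map_pow, SubmonoidClass.coe_pow, hz] at this

lemma redRing_trace {k : ℤ} (f : ModularForm (G0 p) k) (z : A) (hz : (z : ℂ) = zetaP p)
    {ψ ψ₀ : PowerSeries κ}
    (h : (qExpansion 1 f, ψ) ∈ redRing r)
    (h0 : (qExpansion p ((f : ℍ → ℂ) ∣[k] ModularGroup.S), ψ₀) ∈ redRing r) :
    ∃ Ψ : PowerSeries κ, (qExpansion 1 (ModularForm.trace 𝒮ℒ f), Ψ) ∈ redRing r ∧
      PowerSeries.expand p hp.out.ne_zero Ψ = PowerSeries.expand p hp.out.ne_zero ψ +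
        ∑ j : Fin p, PowerSeries.rescale (r z ^ (j : ℕ)) ψ₀ := by
  apply redRing_of_expand p hp.out.ne_zero
  rw [qExpansion_trace]
  apply redRing_add
  · exact redRing_expand p hp.out.ne_zero h
  · apply redRing_sum
    intro j _
    have := redRing_rescale (z ^ (j : ℕ)) h0
    rwa [map_pow, SubmonoidClass.coe_pow, hz] at this

omit hp in
lemma rz_ne_zero [hp : Fact p.Prime] (z : A) (hz : (z : ℂ) = zetaP p) : r z ≠ 0 := by
  intro h
  have h1 : z ^ p = 1 := by
    apply Subtype.ext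
    rw [SubmonoidClass.coe_pow, hz, zetaP_pow]
    have hp0 : (p : ℂ) ≠ 0 := by exact_mod_cast hp.out.ne_zero
    rw [mul_div_assoc, div_self hp0, mul_one, Complex.exp_two_pi_mul_I]
    rfl
  have h2 := congrArg r h1
  rw [map_pow, h, map_one, zero_pow hp.out.ne_zero] at h2
  exact zero_ne_one h2

/-- **Sturm bound mod `λ` on `Γ₀(p)`** with both cusps. -/
theorem sturm_mod_Gamma0 (k : ℕ) (f : ModularForm (G0 p) (k : ℤ)) (z : A)
    (hz : (z : ℂ) = zetaP p) {ψ ψ₀ : PowerSeries κ}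
    (h : (qExpansion 1 f, ψ) ∈ redRing r)
    (h0 : (qExpansion p ((f : ℍ → ℂ) ∣[(k : ℤ)] ModularGroup.S), ψ₀) ∈ redRing r)
    (hψ : ψ ≠ 0) (hψ₀ : ψ₀ ≠ 0) :
    ψ.order + ψ₀.order ≤ (k * (p + 1) / 12 : ℕ) := by
  obtain ⟨Ψ, h1, h2⟩ := redRing_norm f z hz h h0
  have h3 := congrArg PowerSeries.order h2
  rw [PowerSeries.order_expand, PowerSeries.order_mul, PowerSeries.order_expand,
    PowerSeries.order_prod] at h3
  have h4 : ∑ j : Fin p, (PowerSeries.rescale (r z ^ (j : ℕ)) ψ₀).order = p • ψ₀.order := by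
    rw [Finset.sum_congr rfl fun j _ => order_rescale (pow_ne_zero _ (rz_ne_zero z hz)) ψ₀]
    simp
  rw [h4] at h3
  have hΨ : Ψ ≠ 0 := by
    rintro rfl
    rw [PowerSeries.order_zero] at h3
    have e1 : ψ.order ≠ ⊤ := by rwa [ne_eq, PowerSeries.order_eq_top]
    have e2 : ψ₀.order ≠ ⊤ := by rwa [ne_eq, PowerSeries.order_eq_top]
    lift ψ.order to ℕ using e1 with a
    lift ψ₀.order to ℕ using e2 with b
    have : p • (⊤ : ℕ∞) = ⊤ := by
      rw [nsmul_eq_mul, ENat.mul_top]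
      exact_mod_cast hp.out.ne_zero
    rw [this, nsmul_eq_mul, nsmul_eq_mul] at h3
    norm_cast at h3
  have h5 : Ψ.order = ψ.order + ψ₀.order := by
    have e0 : Ψ.order ≠ ⊤ := by rwa [ne_eq, PowerSeries.order_eq_top]
    have e1 : ψ.order ≠ ⊤ := by rwa [ne_eq, PowerSeries.order_eq_top]
    have e2 : ψ₀.order ≠ ⊤ := by rwa [ne_eq, PowerSeries.order_eq_top]
    lift Ψ.order to ℕ using e0 with c
    lift ψ.order to ℕ using e1 with a
    lift ψ₀.order to ℕ using e2 with b
    rw [nsmul_eq_mul, nsmul_eq_mul, nsmul_eq_mul] at h3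
    norm_cast at h3 ⊢
    rw [← mul_add] at h3
    exact Nat.eq_of_mul_eq_mul_left hp.out.pos h3
  rw [← h5]
  have hk : (k : ℤ) * Nat.card (𝒮ℒ ⧸ ((G0 p).subgroupOf 𝒮ℒ)) = ((k * (p + 1) : ℕ) : ℤ) := by
    rw [natCard_quotient]; push_cast; ring
  exact sturm_mod_levelOne (k * (p + 1)) (ModularForm.mcast hk (ModularForm.norm 𝒮ℒ f)) h1 hΨ

/-- **Lemma C**: if `f` has integral expansion at both cusps, `p` is a unit in the residue field,
and the expansion at the cusp `0` reduces to zero, then so does the expansion at `∞`. -/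
theorem eq_zero_of_slash_S_eq_zero (k : ℕ) (hk : k < 12 * (p - 1))
    (f : ModularForm (G0 p) (k : ℤ)) (z : A)
    (hz : (z : ℂ) = zetaP p) (hpA : (p : ℂ)⁻¹ ∈ A) {ψ : PowerSeries κ}
    (h : (qExpansion 1 f, ψ) ∈ redRing r)
    (h0 : (qExpansion p ((f : ℍ → ℂ) ∣[(k : ℤ)] ModularGroup.S), 0) ∈ redRing r) :
    ψ = 0 := by
  have : NeZero p := ⟨hp.out.ne_zero⟩
  by_contra hψ
  set D : ModularForm (G0 p) 12 := H80.dNForm p with hD
  set H : ModularForm (G0 p) ((k : ℤ) + 12) := f.mul D with hH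
  -- expansion at infinity
  have e1 : qExpansion 1 H = qExpansion 1 f * qExpansion 1 (H80.dN p : ℍ → ℂ) :=
    ModularForm.qExpansion_mul one_pos G0_one_mem_strictPeriods f D
  have e2 : (qExpansion 1 H, ψ * (PowerSeries.C (r (p : A) ^ 11) *
      PowerSeries.expand p hp.out.ne_zero (DZ.map (Int.castRingHom κ)))) ∈ redRing r := by
    rw [e1, qExpansion_dN]
    refine redRing_mul h (redRing_mul ?_ (redRing_expand p hp.out.ne_zero (int_mem_redRing DZ)))
    have := C_mem_redRing (r := r) ((p : A) ^ 11)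
    rw [map_pow] at this
    simpa using this
  have e3 : (H : ℍ → ℂ) ∣[(k : ℤ) + 12] ModularGroup.S =
      ((f : ℍ → ℂ) ∣[(k : ℤ)] ModularGroup.S) * ((H80.dN p : ℍ → ℂ) ∣[(12 : ℤ)] ModularGroup.S) := by
    rw [hH, ModularForm.coe_mul, ModularForm.mul_slash_SL2]
    rfl
  have e4 : (qExpansion p ((H : ℍ → ℂ) ∣[(k : ℤ) + 12] ModularGroup.S), 0) ∈ redRing r := by
    have e5 := analyticAt_slash D ModularGroup.S
    rw [hD, H80.coe_dNForm] at e5
    rw [e3, qExpansion_mul (analyticAt_slash f _) e5, qExpansion_dN_slash_S]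
    have := redRing_mul h0 (redRing_mul (C_mem_redRing (r := r) ⟨(p : ℂ)⁻¹, hpA⟩)
      (int_mem_redRing (r := r) DZ))
    rwa [zero_mul] at this
  obtain ⟨Ψ, h1, h2⟩ := redRing_trace H z hz e2 e4
  have hrp : r (p : A) ≠ 0 := by
    intro h
    have h3 : (p : A) * ⟨(p : ℂ)⁻¹, hpA⟩ = 1 := by
      apply Subtype.ext
      have hp0 : (p : ℂ) ≠ 0 := by exact_mod_cast hp.out.ne_zero
      simp [hp0]
    have := congrArg r h3
    rw [map_mul, h, zero_mul, map_one] at this
    exact zero_ne_one this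
  have h3 : Ψ = ψ * (PowerSeries.C (r (p : A) ^ 11) *
      PowerSeries.expand p hp.out.ne_zero (DZ.map (Int.castRingHom κ))) := by
    have hinj : Function.Injective (PowerSeries.expand (R := κ) p hp.out.ne_zero) := by
      intro a b hab
      ext n
      have := congrArg (PowerSeries.coeff (p * n)) hab
      simpa using this
    apply hinj
    rw [h2]
    simp
  have h4 : (PowerSeries.C (r (p : A) ^ 11) : PowerSeries κ).order = 0 := by
    rw [PowerSeries.order_zero_of_unit]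
    exact (isUnit_iff_ne_zero.mpr (pow_ne_zero _ hrp)).map PowerSeries.C
  have h5 : (p : ℕ∞) ≤ Ψ.order := by
    rw [h3, PowerSeries.order_mul, PowerSeries.order_mul, PowerSeries.order_expand,
      order_map_DZ, h4]
    simp
  have hΨ : Ψ ≠ 0 := by
    rw [h3]
    refine mul_ne_zero hψ (mul_ne_zero ?_ ?_)
    · intro h
      rw [h] at h4
      simp at h4
    · intro h
      have := congrArg PowerSeries.order h
      rw [PowerSeries.order_expand, order_map_DZ] at this
      simp at this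
  have h6 := sturm_mod_levelOne (k + 12) (ModularForm.mcast (by push_cast; rfl)
    (ModularForm.trace 𝒮ℒ H)) h1 hΨ
  have h7 := h5.trans h6
  have h8 : p ≤ (k + 12) / 12 := by exact_mod_cast h7
  have := hp.out.two_le
  omega

end Red

end

end Fermat.Agent.H16
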