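import Mathlib
import Fermat.Agent.H16Sturm

set_option autoImplicit false

namespace Fermat.Agent.H16

open UpperHalfPlane ModularForm ModularFormClass MatrixGroups SlashInvariantForm
  Matrix.SpecialLinearGroup
open scoped Pointwise

noncomputable section

local notation "𝕢" => Function.Periodic.qParam

variable {p : ℕ} [hp : Fact p.Prime]

/-- The Fricke matrix `[0 -1; p 0]`, as the product `S * diag(p, 1)`. -/
def wMat (p : ℕ) : GL (Fin 2) ℝ := mapGL ℝ ModularGroup.S * heckeDiagMatrix p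

omit hp in
lemma val_wMat [hp : Fact p.Prime] : (wMat p : Matrix (Fin 2) (Fin 2) ℝ) = !![0, -1; (p : ℝ), 0] := by
  rw [wMat, Units.val_mul, val_heckeDiagMatrix hp.out.ne_zero]
  ext i j
  simp only [Matrix.mul_apply, Fin.sum_univ_two, H80.mapGL_entry, ModularGroup.S]
  fin_cases i <;> fin_cases j <;> simp

lemma wMat_mul_conj {γ : SL(2, ℤ)} (hγ : γ ∈ CongruenceSubgroup.Gamma0 p) :
    ∃ δ ∈ CongruenceSubgroup.Gamma0 p, wMat p * mapGL ℝ γ = mapGL ℝ δ * wMat p := by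
  obtain ⟨c, hc⟩ := mem_Gamma0_iff.mp hγ
  have hdet := γ.det_coe
  rw [Matrix.det_fin_two] at hdet
  obtain ⟨δ, e00, e01, e10, e11⟩ : ∃ δ : SL(2, ℤ), δ 0 0 = γ 1 1 ∧ δ 0 1 = - c ∧
      δ 1 0 = -(p * γ 0 1) ∧ δ 1 1 = γ 0 0 := by
    refine ⟨⟨!![γ 1 1, -c; -(p * γ 0 1), γ 0 0], ?_⟩, rfl, rfl, rfl, rfl⟩
    rw [Matrix.det_fin_two_of]
    rw [hc] at hdet
    linarith
  refine ⟨δ, ?_, ?_⟩
  · rw [mem_Gamma0_iff, e10]
    exact (Dvd.intro _ rfl).neg_right
  · apply Units.ext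
    have hcR : ((γ 1 0 : ℤ) : ℝ) = (p : ℝ) * (c : ℝ) := by rw [hc]; push_cast; ring
    rw [Units.val_mul, Units.val_mul, val_wMat]
    ext i j
    simp only [Matrix.mul_apply, Fin.sum_univ_two, H80.mapGL_entry]
    fin_cases i <;> fin_cases j <;> simp [hcR, mul_comm, e00, e01, e10, e11]

/-- Fricke involution (Mathlib normalisation of the slash operator). -/
def wForm {k : ℤ} (F : ModularForm (G0 p) k) : ModularForm (G0 p) k where
  toFun := (F : ℍ → ℂ) ∣[k] wMat p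
  slash_action_eq' A hA := by
    obtain ⟨γ, hγ, rfl⟩ := hA
    obtain ⟨δ, hδ, h⟩ := wMat_mul_conj hγ
    rw [← SlashAction.slash_mul, h, SlashAction.slash_mul]
    congr 1
    exact SlashInvariantFormClass.slash_action_eq F _ ⟨δ, hδ, rfl⟩
  holo' := MDifferentiable.slash F.holo' k _
  bdd_at_cusps' {c} hc := by
    have hc' : IsCusp c (ConjAct.toConjAct (wMat p)⁻¹ • G0 p) := by
      refine hc.mono ?_
      rintro _ ⟨γ, hγ, rfl⟩
      obtain ⟨δ, hδ, h⟩ := wMat_mul_conj hγ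
      rw [Subgroup.mem_pointwise_smul_iff_inv_smul_mem]
      refine ⟨δ, hδ, ?_⟩
      rw [ConjAct.smul_def]
      simp [h]
    exact (ModularForm.translate F (wMat p)).bdd_at_cusps' hc'

@[simp] lemma coe_wForm {k : ℤ} (F : ModularForm (G0 p) k) :
    (wForm F : ℍ → ℂ) = (F : ℍ → ℂ) ∣[k] wMat p := rfl

lemma wMat_mul_stj (j : ℕ) : wMat p * mapGL ℝ (stj j) = -heckeMatrix p j := by
  apply Units.ext
  rw [Units.val_mul, val_wMat, Units.val_neg, val_heckeMatrix hp.out.ne_zero]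
  have h : ∀ i j', ((mapGL ℝ (stj j) : GL (Fin 2) ℝ) : Matrix (Fin 2) (Fin 2) ℝ) i j' =
      ((!![0, -1; 1, (j : ℤ)] i j' : ℤ) : ℝ) := by
    intro i j'
    rw [← stj_coe]; rfl
  ext i j'
  simp only [Matrix.mul_apply, Fin.sum_univ_two, h]
  fin_cases i <;> fin_cases j' <;> simp

omit hp in
lemma slash_neg_even {k : ℤ} (hk : Even k) (g : ℍ → ℂ) (M : GL (Fin 2) ℝ) :
    g ∣[k] (-M) = g ∣[k] M := by
  have h1 : g ∣[k] (-1 : GL (Fin 2) ℝ) = g := by
    funext τ
    have hd : ((-1 : GL (Fin 2) ℝ).det : ℝ) = 1 := by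
      rw [Matrix.GeneralLinearGroup.val_det_apply]
      simp [Matrix.det_fin_two]
    have hk' : Even (-k) := hk.neg
    rw [slash_apply, UpperHalfPlane.σ, hd]
    simp [denom, hk'.neg_one_zpow]
  rw [← neg_one_mul, SlashAction.slash_mul, h1]

lemma coe_trace_wForm {k : ℤ} (hk : Even k) (F : ModularForm (G0 p) k) :
    (ModularForm.trace 𝒮ℒ (wForm F) : ℍ → ℂ) =
      (F : ℍ → ℂ) ∣[k] wMat p + heckeU k p F := by
  rw [coe_trace_eq, coe_wForm, heckeU_def, Finset.sum_range]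
  congr 1
  refine Finset.sum_congr rfl fun j _ => ?_
  change ((F : ℍ → ℂ) ∣[k] wMat p) ∣[k] (mapGL ℝ (stj j)) = _
  rw [← SlashAction.slash_mul, wMat_mul_stj, slash_neg_even hk]

lemma wForm_eq_neg_heckeU (F : ModularForm (G0 p) 2) :
    (wForm F : ℍ → ℂ) = - heckeU 2 p F := by
  have h1 : ModularForm.trace 𝒮ℒ (wForm F) = 0 :=
    rank_zero_iff_forall_zero.mp levelOne_weight_two_rank_zero _
  have h2 := coe_trace_wForm (by decide) F
  rw [h1] at h2
  rw [coe_wForm]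
  exact eq_neg_of_add_eq_zero_left h2.symm

lemma coeff_wForm (F : ModularForm (G0 p) 2) (m : ℕ) :
    (qExpansion 1 (wForm F)).coeff m = - (qExpansion 1 F).coeff (p * m) := by
  have h1 := ModularFormClass.qCoeff_heckeU F G0_one_mem_strictPeriods hp.out.ne_zero m
  have h2 : (heckeU 2 p F : ℍ → ℂ) = -(wForm F : ℍ → ℂ) := by rw [wForm_eq_neg_heckeU, neg_neg]
  have h3 : qExpansion 1 (heckeU 2 p F : ℍ → ℂ) = - qExpansion 1 (wForm F) := by
    rw [h2]
    exact ModularForm.qExpansion_neg one_pos G0_one_mem_strictPeriods (wForm F)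
  have h4 : (qExpansion 1 (heckeU 2 p F : ℍ → ℂ)).coeff m = (qExpansion 1 F).coeff (p * m) := by
    rw [coeffHeckeU_apply] at h1
    rw [mul_comm p m]
    exact h1
  rw [h3] at h4
  rw [← h4]
  simp

/-- **Fact W**. -/
theorem qExpansion_slash_S_two (F : ModularForm (G0 p) 2) :
    qExpansion p ((F : ℍ → ℂ) ∣[(2 : ℤ)] ModularGroup.S) =
      PowerSeries.C (-(p : ℂ)⁻¹) * PowerSeries.mk fun m => (qExpansion 1 F).coeff (p * m) := by
  ext m
  symm
  refine ModularFormClass.qExpansion_coeff_unique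
    (f := ModularForm.translate F (mapGL ℝ ModularGroup.S))
    (c := fun m => (PowerSeries.C (-(p : ℂ)⁻¹) *
      PowerSeries.mk fun m => (qExpansion 1 F).coeff (p * m)).coeff m)
    p_pos (p_mem_strictPeriods_conj ModularGroup.S) ?_ m
  intro τ
  change HasSum _ (((F : ℍ → ℂ) ∣[(2 : ℤ)] ModularGroup.S) τ)
  have hp0 : (p : ℂ) ≠ 0 := by exact_mod_cast hp.out.ne_zero
  have h1 : ((F : ℍ → ℂ) ∣[(2 : ℤ)] ModularGroup.S) τ =
      (p : ℂ)⁻¹ * wForm F (heckeMatrix p 0 • τ) := by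
    have h2 : heckeDiagMatrix p • heckeMatrix p 0 • τ = τ := by
      apply UpperHalfPlane.ext
      rw [coe_heckeDiagMatrix_smul hp.out.ne_zero, coe_heckeMatrix_smul hp.out.ne_zero]
      field_simp
      simp
    have h3 : wForm F (heckeMatrix p 0 • τ) =
        (((F : ℍ → ℂ) ∣[(2 : ℤ)] (mapGL ℝ ModularGroup.S)) ∣[(2 : ℤ)] heckeDiagMatrix p)
          (heckeMatrix p 0 • τ) := by
      rw [← SlashAction.slash_mul]; rfl
    rw [h3, slash_heckeDiagMatrix_apply _ hp.out.ne_zero, h2]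
    norm_num
    rw [← mul_assoc, inv_mul_cancel₀ hp0, one_mul]
    rfl
  rw [h1]
  have h2 := ModularForm.hasSum_qExpansion (wForm F) one_pos G0_one_mem_strictPeriods
    (heckeMatrix p 0 • τ)
  have h3 := h2.mul_left (p : ℂ)⁻¹
  convert! h3 using 2 with m
  rw [PowerSeries.coeff_C_mul, PowerSeries.coeff_mk, coeff_wForm, qParam_p_eq]
  simp only [smul_eq_mul]
  ring

end

end Fermat.Agent.H16
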