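import Mathlib
import Fermat.Agent.H16Weight2

set_option autoImplicit false

namespace Fermat.Agent.H16

open UpperHalfPlane ModularForm ModularFormClass MatrixGroups SlashInvariantForm
  Matrix.SpecialLinearGroup
open scoped Pointwise

noncomputable section

/-! ### existence of a place of `ℂ` above `ℓ` -/

theorem exists_red (ℓ : ℕ) (hℓ : ℓ.Prime) : ∃ (A : Subring ℂ) (κ : Type) (_ : Field κ)
    (r : A →+* κ), (∀ x : ℂ, IsIntegral ℤ x → x ∈ A) ∧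
      (∀ n : ℕ, ¬ ℓ ∣ n → (n : ℂ)⁻¹ ∈ A) ∧ CharP κ ℓ := by
  let R : Subring ℂ := (Int.castRingHom ℂ).range
  let I : Ideal R := Ideal.span {(⟨(ℓ : ℂ), ⟨(ℓ : ℤ), by simp⟩⟩ : R)}
  have hI : I ≠ ⊤ := by
    intro h
    rw [Ideal.span_singleton_eq_top] at h
    obtain ⟨u, hu⟩ := h.exists_right_inv
    have hu' := congrArg Subtype.val hu
    obtain ⟨n, hn⟩ := u.2
    simp only [MulMemClass.coe_mul, OneMemClass.coe_one] at hu'
    rw [← hn] at hu'
    have h2 : ((ℓ * n : ℤ) : ℂ) = ((1 : ℤ) : ℂ) := by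
      push_cast
      simpa using hu'
    have h3 : (ℓ : ℤ) * n = 1 := Int.cast_injective h2
    have h4 : (ℓ : ℤ) ∣ 1 := ⟨n, h3.symm⟩
    have h5 := Int.le_of_dvd one_pos h4
    have := hℓ.two_le
    omega
  obtain ⟨V, hV1, hV2⟩ := Ideal.image_subset_nonunits_valuationSubring I hI
  have hV3 : (ℓ : ℂ) ∈ V.nonunits := hV2 ⟨_, Ideal.mem_span_singleton_self _, rfl⟩
  have hℓ0 : IsLocalRing.residue V (ℓ : V) = 0 := by
    rw [IsLocalRing.residue_eq_zero_iff]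
    have h1 : (ℓ : ℂ) = (((ℓ : V) : V) : ℂ) := by simp
    rw [h1, ValuationSubring.mem_nonunits_iff] at hV3
    exact (ValuationSubring.valuation_lt_one_iff V (ℓ : V)).mpr hV3
  have hchar : CharP (IsLocalRing.ResidueField V) ℓ := by
    have h1 : ((ℓ : ℕ) : IsLocalRing.ResidueField V) = 0 := by
      rw [← map_natCast (IsLocalRing.residue V)]; exact hℓ0
    obtain ⟨q, hq⟩ := CharP.exists (IsLocalRing.ResidueField V)
    have h2 := (CharP.cast_eq_zero_iff _ q ℓ).mp h1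
    rcases (Nat.dvd_prime hℓ).mp h2 with h3 | h3
    · exact absurd h3 (CharP.char_ne_one (IsLocalRing.ResidueField V) q)
    · rwa [h3] at hq
  refine ⟨V.toSubring, IsLocalRing.ResidueField V, inferInstance, IsLocalRing.residue V, ?_, ?_,
    hchar⟩
  · intro x hx
    have hb' : IsIntegral V x := hx.tower_top
    obtain ⟨y, hy⟩ := IsIntegrallyClosed.isIntegral_iff.mp hb'
    rw [← hy]
    exact y.2
  · intro n hn
    have h1 : (n : IsLocalRing.ResidueField V) ≠ 0 := by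
      rwa [ne_eq, CharP.cast_eq_zero_iff _ ℓ n]
    rw [← map_natCast (IsLocalRing.residue V), ne_eq, IsLocalRing.residue_eq_zero_iff,
      IsLocalRing.mem_maximalIdeal, mem_nonunits_iff, not_not] at h1
    obtain ⟨u, hu⟩ := h1
    have h2 : (n : ℂ) * (((u⁻¹ : Vˣ) : V) : ℂ) = 1 := by
      have : (n : V) * ((u⁻¹ : Vˣ) : V) = 1 := by rw [← hu]; simp
      have := congrArg (fun y : V => (y : ℂ)) this
      simpa using this
    rw [inv_eq_of_mul_eq_one_right h2]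
    exact ((u⁻¹ : Vˣ) : V).2

lemma isIntegral_zetaP {p : ℕ} (hp : 0 < p) : IsIntegral ℤ (zetaP p) := by
  refine IsIntegral.of_pow hp ?_
  rw [zetaP_pow]
  have hp0 : (p : ℂ) ≠ 0 := by exact_mod_cast hp.ne'
  rw [mul_div_assoc, div_self hp0, mul_one, Complex.exp_two_pi_mul_I]
  exact isIntegral_one

/-! ### Pairs of expansions at the two cusps -/

variable (p : ℕ) [hp : Fact p.Prime]

/-- `φ`, `φ₀` are the expansions of a form of weight `k` on `Γ₀(p)` at `∞` and `0`. -/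
def HasExp (k : ℕ) (φ φ₀ : PowerSeries ℂ) : Prop :=
  ∃ F : ModularForm (G0 p) (k : ℤ), qExpansion 1 F = φ ∧
    qExpansion p ((F : ℍ → ℂ) ∣[(k : ℤ)] ModularGroup.S) = φ₀

variable {p}

lemma HasExp.add {k : ℕ} {φ φ₀ ψ ψ₀ : PowerSeries ℂ} (h : HasExp p k φ φ₀)
    (h' : HasExp p k ψ ψ₀) : HasExp p k (φ + ψ) (φ₀ + ψ₀) := by
  obtain ⟨F, h1, h2⟩ := h
  obtain ⟨G, h3, h4⟩ := h'
  refine ⟨F + G, ?_, ?_⟩
  · rw [← h1, ← h3]
    exact ModularForm.qExpansion_add one_pos G0_one_mem_strictPeriods F G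
  · rw [← h2, ← h4, FunLike.coe_add, SlashAction.add_slash,
      qExpansion_add (analyticAt_slash F _) (analyticAt_slash G _)]

lemma HasExp.smul {k : ℕ} {φ φ₀ : PowerSeries ℂ} (c : ℂ) (h : HasExp p k φ φ₀) :
    HasExp p k (PowerSeries.C c * φ) (PowerSeries.C c * φ₀) := by
  obtain ⟨F, h1, h2⟩ := h
  refine ⟨c • F, ?_, ?_⟩
  · rw [← h1, ← PowerSeries.smul_eq_C_mul]
    exact ModularForm.qExpansion_smul one_pos G0_one_mem_strictPeriods c F
  · rw [← h2, ← PowerSeries.smul_eq_C_mul, ← qExpansion_smul (analyticAt_slash F _)]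
    congr 1
    rw [FunLike.coe_smul]
    exact ModularForm.SL_smul_slash _ _ _ _

lemma HasExp.mul {k l : ℕ} {φ φ₀ ψ ψ₀ : PowerSeries ℂ} (h : HasExp p k φ φ₀)
    (h' : HasExp p l ψ ψ₀) : HasExp p (k + l) (φ * ψ) (φ₀ * ψ₀) := by
  obtain ⟨F, h1, h2⟩ := h
  obtain ⟨G, h3, h4⟩ := h'
  refine ⟨ModularForm.mcast (by push_cast; rfl) (F.mul G), ?_, ?_⟩
  · rw [← h1, ← h3]
    exact ModularForm.qExpansion_mul one_pos G0_one_mem_strictPeriods F G
  · rw [← h2, ← h4, ← qExpansion_mul (analyticAt_slash F _) (analyticAt_slash G _),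
      ← ModularForm.mul_slash_SL2]
    rfl

/-- a level one form viewed on `Γ₀(p)` -/
def ofLevelOne {k : ℤ} (g : ModularForm 𝒮ℒ k) : ModularForm (G0 p) k where
  toFun := g
  slash_action_eq' A hA := by
    obtain ⟨γ, hγ, rfl⟩ := hA
    exact SlashInvariantFormClass.slash_action_eq g _ ⟨γ, rfl⟩
  holo' := g.holo'
  bdd_at_cusps' {c} hc := by
    refine g.bdd_at_cusps' (hc.mono ?_)
    rintro _ ⟨γ, hγ, rfl⟩
    exact ⟨γ, rfl⟩

lemma HasExp.ofLevelOne {k : ℕ} (g : ModularForm 𝒮ℒ (k : ℤ)) :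
    HasExp p k (qExpansion 1 g) (PowerSeries.expand p hp.out.ne_zero (qExpansion 1 g)) := by
  refine ⟨H16.ofLevelOne g, rfl, ?_⟩
  rw [← qExpansion_expand one_mem_strictPeriods_SL]
  congr 1
  exact SlashInvariantFormClass.slash_action_eq g _ ⟨ModularGroup.S, rfl⟩

lemma HasExp.two (F : ModularForm (G0 p) 2) :
    HasExp p 2 (qExpansion 1 F)
      (PowerSeries.C (-(p : ℂ)⁻¹) * PowerSeries.mk fun m => (qExpansion 1 F).coeff (p * m)) :=
  ⟨F, rfl, qExpansion_slash_S_two F⟩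

/-! ### Integral versions -/

/-- base change of integral power series -/
abbrev toC : PowerSeries ℤ →+* PowerSeries ℂ := PowerSeries.map (Int.castRingHom ℂ)

lemma toC_injective : Function.Injective toC :=
  PowerSeries.map_injective _ Int.cast_injective

/-- integral version of `HasExp` -/
def HasExpZ (p : ℕ) [hp : Fact p.Prime] (k : ℕ) (Φ Φ₀ : PowerSeries ℤ) : Prop :=
  HasExp p k (toC Φ) (toC Φ₀)

lemma toC_C (n : ℤ) : toC (PowerSeries.C n) = PowerSeries.C (n : ℂ) := by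
  simp [toC]

lemma HasExpZ.add {k : ℕ} {φ φ₀ ψ ψ₀ : PowerSeries ℤ} (h : HasExpZ p k φ φ₀)
    (h' : HasExpZ p k ψ ψ₀) : HasExpZ p k (φ + ψ) (φ₀ + ψ₀) := by
  have := HasExp.add h h'
  rwa [← map_add, ← map_add] at this

lemma HasExpZ.smul {k : ℕ} {φ φ₀ : PowerSeries ℤ} (c : ℤ) (h : HasExpZ p k φ φ₀) :
    HasExpZ p k (PowerSeries.C c * φ) (PowerSeries.C c * φ₀) := by
  have := HasExp.smul (c : ℂ) h
  rwa [← toC_C, ← map_mul, ← map_mul] at this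

lemma HasExpZ.mul {k l : ℕ} {φ φ₀ ψ ψ₀ : PowerSeries ℤ} (h : HasExpZ p k φ φ₀)
    (h' : HasExpZ p l ψ ψ₀) : HasExpZ p (k + l) (φ * ψ) (φ₀ * ψ₀) := by
  have := HasExp.mul h h'
  rwa [← map_mul, ← map_mul] at this

lemma HasExpZ.div {k : ℕ} {φ φ₀ : PowerSeries ℤ} {c : ℤ} (hc : c ≠ 0)
    (h : HasExpZ p k (PowerSeries.C c * φ) (PowerSeries.C c * φ₀)) : HasExpZ p k φ φ₀ := by
  have := HasExp.smul ((c : ℂ)⁻¹) h
  have hc' : (c : ℂ) ≠ 0 := by exact_mod_cast hc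
  rw [map_mul, map_mul, toC_C, ← mul_assoc, ← mul_assoc, ← map_mul, inv_mul_cancel₀ hc', map_one,
    one_mul, one_mul] at this
  exact this

lemma HasExpZ.E4 : HasExpZ p 4 E4Z (PowerSeries.expand p hp.out.ne_zero E4Z) := by
  have := HasExp.ofLevelOne (p := p) (k := 4) E₄
  rwa [← map_E4Z, ← PowerSeries.map_expand] at this

lemma HasExpZ.E6 : HasExpZ p 6 E6Z (PowerSeries.expand p hp.out.ne_zero E6Z) := by
  have := HasExp.ofLevelOne (p := p) (k := 6) E₆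
  rwa [← map_E6Z, ← PowerSeries.map_expand] at this

lemma coeff_map_eq_zero_iff {κ : Type*} [Field κ] {ℓ : ℕ} [CharP κ ℓ] (Φ : PowerSeries ℤ) (i : ℕ) :
    (PowerSeries.map (Int.castRingHom κ) Φ).coeff i = 0 ↔ (ℓ : ℤ) ∣ Φ.coeff i := by
  rw [PowerSeries.coeff_map, eq_intCast, CharP.intCast_eq_zero_iff κ ℓ]

/-- Sturm bound at both cusps, integral version. -/
theorem HasExpZ.sturm {ℓ : ℕ} (hℓ : ℓ.Prime) {k : ℕ} {Φ Φ₀ : PowerSeries ℤ}
    (h : HasExpZ p k Φ Φ₀) (n n₀ : ℕ)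
    (h1 : ∀ i < n, (ℓ : ℤ) ∣ Φ.coeff i) (h1' : ∃ i, ¬ (ℓ : ℤ) ∣ Φ.coeff i)
    (h0 : ∀ i < n₀, (ℓ : ℤ) ∣ Φ₀.coeff i) (h0' : ∃ i, ¬ (ℓ : ℤ) ∣ Φ₀.coeff i) :
    n + n₀ ≤ k * (p + 1) / 12 := by
  obtain ⟨A, κ, _, r, hA1, hA2, hκ⟩ := exists_red ℓ hℓ
  obtain ⟨F, hF1, hF2⟩ := h
  have h2 := sturm_mod_Gamma0 (r := r) k F
    ⟨zetaP p, hA1 _ (isIntegral_zetaP hp.out.pos)⟩ rfl
    (ψ := PowerSeries.map (Int.castRingHom κ) Φ) (ψ₀ := PowerSeries.map (Int.castRingHom κ) Φ₀)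
    (by rw [hF1]; exact int_mem_redRing Φ) (by rw [hF2]; exact int_mem_redRing Φ₀)
    (by
      intro h
      obtain ⟨i, hi⟩ := h1'
      apply hi
      rw [← coeff_map_eq_zero_iff (κ := κ), h, map_zero])
    (by
      intro h
      obtain ⟨i, hi⟩ := h0'
      apply hi
      rw [← coeff_map_eq_zero_iff (κ := κ), h, map_zero])
  have h3 : (n : ℕ∞) ≤ (PowerSeries.map (Int.castRingHom κ) Φ).order := by
    refine PowerSeries.nat_le_order _ _ fun i hi => ?_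
    rw [coeff_map_eq_zero_iff (ℓ := ℓ)]
    exact h1 i hi
  have h4 : (n₀ : ℕ∞) ≤ (PowerSeries.map (Int.castRingHom κ) Φ₀).order := by
    refine PowerSeries.nat_le_order _ _ fun i hi => ?_
    rw [coeff_map_eq_zero_iff (ℓ := ℓ)]
    exact h0 i hi
  exact_mod_cast (add_le_add h3 h4).trans h2

/-- integral version of lemma C. -/
theorem HasExpZ.dvd_coeff {ℓ : ℕ} (hℓ : ℓ.Prime) (hℓp : ¬ ℓ ∣ p) {k : ℕ} (hk : k < 12 * (p - 1))
    {Φ Φ₀ : PowerSeries ℤ} (h : HasExpZ p k Φ Φ₀)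
    (h0 : ∀ i, (ℓ : ℤ) ∣ Φ₀.coeff i) (i : ℕ) : (ℓ : ℤ) ∣ Φ.coeff i := by
  obtain ⟨A, κ, _, r, hA1, hA2, hκ⟩ := exists_red ℓ hℓ
  obtain ⟨F, hF1, hF2⟩ := h
  have h2 := eq_zero_of_slash_S_eq_zero (r := r) k hk F
    ⟨zetaP p, hA1 _ (isIntegral_zetaP hp.out.pos)⟩ rfl (hA2 p hℓp)
    (ψ := PowerSeries.map (Int.castRingHom κ) Φ)
    (by rw [hF1]; exact int_mem_redRing Φ)
    (by
      rw [hF2]
      have h3 : PowerSeries.map (Int.castRingHom κ) Φ₀ = 0 := by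
        ext i
        rw [map_zero, coeff_map_eq_zero_iff (ℓ := ℓ)]
        exact h0 i
      rw [← h3]
      exact int_mem_redRing Φ₀)
  rw [← coeff_map_eq_zero_iff (κ := κ), h2, map_zero]

end

end Fermat.Agent.H16
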