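import Fermat.Agent.H68TwoBase
import Fermat.Agent.H18Insep
import Fermat.Agent.H42RedInputs

/-!
# CARAYOL C3: residues of chart functions (`r_mem`)
-/

set_option autoImplicit false
set_option linter.unusedSectionVars false

noncomputable section

open Polynomial ModularCurve Fermat.Agent.H99 Fermat.Agent.H66 IntermediateField

namespace Fermat.Agent.H68

section Frame

variable {K : Type*} [Field K] [Algebra ℚ K] [CharZero K] {m q : ℕ} [NeZero m] [NeZero q]
  [hq : Fact q.Prime]
variable {A : ValuationSubring K} {k : Type*} [Field k] [CharP k q] {π : A →+* k}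
variable (w : AL K m q) (hϖ : Unif A π (q : A))

theorem mem_FX_J {d : ℕ} (h : d ∣ m) : J K d ∈ FX K (m * q) :=
  J_mem_FX (NeZero.ne _) (h.trans (dvd_mul_right _ _))

theorem mem_FX_Jq {d : ℕ} (h : d ∣ m) : J K (q * d) ∈ FX K (m * q) :=
  J_mem_FX (NeZero.ne _) (by rw [mul_comm m q]; exact mul_dvd_mul_left q h)

theorem emb_jF (i : Fin 2) :
    emb w i (jF K (m * q)) = if i = 0 then J K 1 else J K q := by
  fin_cases i
  · rfl
  · show ((w.W (jF K (m * q)) : FX K (m * q)) : LaurentSeries K) = J K q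
    have h := w.W_J (one_dvd m) (mem_FX_J (one_dvd m)) (mem_FX_Jq (one_dvd m))
    have e : jF K (m * q) = ⟨J K 1, mem_FX_J (one_dvd m)⟩ := rfl
    rw [e, h]
    show J K (q * 1) = J K q
    rw [mul_one]

theorem emb_jF_mem (i : Fin 2) : emb w i (jF K (m * q)) ∈ GR A π := by
  rw [emb_jF]
  split_ifs
  · exact J_mem_GR 1
  · exact J_mem_GR q

theorem gres_emb_jF (i : Fin 2) : gres A π (emb w i (jF K (m * q))) =
    if i = 0 then jqModC k else jqModC k ^ q := by
  rw [emb_jF]
  split_ifs
  · rw [gres_J, J_one]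
  · rw [gres_J, J_prime_eq_pow]

theorem transcendental_pow {F : Type*} [Field F] [Algebra k F] {x : F} (hx : Transcendental k x)
    {n : ℕ} (hn : 0 < n) : Transcendental k (x ^ n) := fun h => hx (h.of_pow hn)

theorem resTrans : H84.ResTrans (comp (k := k) w hϖ) (jF K (m * q)) := by
  intro i
  refine ⟨emb_jF_mem w i, ?_⟩
  rw [comp_red, gres_emb_jF]
  split_ifs
  · exact H42.transcendental_jqModC k
  · exact transcendental_pow (H42.transcendental_jqModC k) hq.out.pos

/-! ### incomparability -/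

/-- Kronecker's element `j(q z) - j(z)^q` -/
def kron : FX K (m * q) :=
  JF K q (dvd_mul_left q m) - jF K (m * q) ^ q

theorem emb_zero_kron : emb w 0 (kron (K := K) (m := m) (q := q)) = J K q - jqModC K ^ q := by
  show ((kron (K := K) (m := m) (q := q) : FX K (m * q)) : LaurentSeries K) = _
  unfold kron
  push_cast
  rw [coe_JF, coe_jF]

theorem W_JFq : w.W (JF K q (dvd_mul_left q m)) = jF K (m * q) := by
  have h := w.W_Jq (one_dvd m) (mem_FX_J (one_dvd m)) (mem_FX_Jq (one_dvd m))
  have e : JF K q (dvd_mul_left q m) = ⟨J K (q * 1), mem_FX_Jq (one_dvd m)⟩ :=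
    Subtype.ext (show J K q = J K (q * 1) by rw [mul_one])
  rw [e, h]
  rfl

theorem W_jF : w.W (jF K (m * q)) = JF K q (dvd_mul_left q m) := by
  rw [← W_JFq w, w.invol]

theorem emb_one_kron : emb w 1 (kron (K := K) (m := m) (q := q)) = jqModC K - J K q ^ q := by
  show ((w.W (kron (K := K) (m := m) (q := q)) : FX K (m * q)) : LaurentSeries K) = _
  unfold kron
  rw [map_sub, map_pow, W_JFq, W_jF]
  push_cast
  rw [coe_JF, coe_jF]

theorem jq_mem_GR : jqModC K ∈ GR A π := by
  rw [← J_one K]
  exact J_mem_GR 1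

theorem gres_jq : gres A π (jqModC K) = jqModC k := by
  rw [← J_one K, gres_J, J_one]

theorem gres_kron_zero : J K q - jqModC K ^ q ∈ GR A π ∧
    gres A π (J K q - jqModC K ^ q) = 0 := by
  have h1 : jqModC K ^ q ∈ GR A π := pow_mem jq_mem_GR q
  refine ⟨sub_mem (J_mem_GR q) h1, ?_⟩
  rw [gres_sub (J_mem_GR q) h1, gres_pow jq_mem_GR, gres_jq, gres_J, J_prime_eq_pow, sub_self]

theorem gres_kron_one : jqModC K - J K q ^ q ∈ GR A π ∧
    gres A π (jqModC K - J K q ^ q) ≠ 0 := by
  have h1 : J K q ^ q ∈ GR A π := pow_mem (J_mem_GR q) q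
  refine ⟨sub_mem jq_mem_GR h1, ?_⟩
  rw [gres_sub jq_mem_GR h1, gres_pow (J_mem_GR q), gres_jq, gres_J, J_prime_eq_pow]
  intro h0
  have h2 := transcendental_iff.mp (H42.transcendental_jqModC k) (X - (X ^ q) ^ q) (by
    simpa using h0)
  have h3 := congrArg (fun p => p.coeff 1) h2
  simp only [coeff_sub, coeff_X_one, ← pow_mul, coeff_X_pow, coeff_zero] at h3
  have h4 : ¬ 1 = q * q := by
    have := hq.out.one_lt
    nlinarith
  rw [if_neg h4, sub_zero] at h3
  exact one_ne_zero h3

theorem q_mul_gres {x : LaurentSeries K} (hx : x ∈ GR A π) :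
    gres A π (algebraMap K (LaurentSeries K) ((q : A) : K) * x) = 0 := by
  rw [gres_mul (const_mem _) hx, gres_const]
  have : π (q : A) = 0 := by rw [map_natCast]; exact CharP.cast_eq_zero k q
  rw [this, map_zero, zero_mul]

theorem not_le_aux {i j : Fin 2} {z : FX K (m * q)} (h0 : emb w i z ∈ GR A π)
    (h1 : gres A π (emb w i z) = 0) (h2 : gres A π (emb w j z) ≠ 0) :
    ¬ (comp (k := k) w hϖ i).V ≤ (comp (k := k) w hϖ j).V := by
  intro hle
  have h3 : z / (q : FX K (m * q)) ∈ (comp (k := k) w hϖ i).V := by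
    have := (twoSys (k := k) w hϖ).pow_div i ⟨z, h0⟩ h1
    have e : (twoSys (k := k) w hϖ).e i = 1 := rfl
    rw [e, pow_one] at this
    exact this
  have h4 : emb w j (z / (q : FX K (m * q))) ∈ GR A π := hle h3
  apply h2
  have hq0 : algebraMap K (LaurentSeries K) ((q : A) : K) ≠ 0 := by
    rw [ne_eq, map_eq_zero]
    exact fun h => hϖ.ne_zero (Subtype.ext h)
  have h5 : emb w j z = algebraMap K (LaurentSeries K) ((q : A) : K) *
      emb w j (z / (q : FX K (m * q))) := by
    rw [emb_div_q (A := A), mul_div_cancel₀ _ hq0]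
  rw [h5]
  exact q_mul_gres h4

theorem incomparable (i j : Fin 2) (hij : i ≠ j) :
    ¬ (comp (k := k) w hϖ i).V ≤ (comp (k := k) w hϖ j).V := by
  have h0 : emb w 0 (kron (K := K) (m := m) (q := q)) ∈ GR A π ∧
      gres A π (emb w 0 (kron (K := K) (m := m) (q := q))) = 0 := by
    rw [emb_zero_kron]
    exact gres_kron_zero
  have h1 : emb w 1 (kron (K := K) (m := m) (q := q)) ∈ GR A π ∧
      gres A π (emb w 1 (kron (K := K) (m := m) (q := q))) ≠ 0 := by
    rw [emb_one_kron]
    exact gres_kron_one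
  have e0 : emb w 0 (w.W (kron (K := K) (m := m) (q := q))) =
      emb w 1 (kron (K := K) (m := m) (q := q)) := rfl
  have e1 : emb w 1 (w.W (kron (K := K) (m := m) (q := q))) =
      emb w 0 (kron (K := K) (m := m) (q := q)) := by
    rw [emb_one, w.invol, emb_zero]
  fin_cases i <;> fin_cases j
  · exact (hij rfl).elim
  · exact not_le_aux w hϖ (i := 0) (j := 1) h0.1 h0.2 h1.2
  · exact not_le_aux w hϖ (i := 1) (j := 0) (z := w.W kron) (by rw [e1]; exact h0.1)
      (by rw [e1]; exact h0.2) (by rw [e0]; exact h1.2)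
  · exact (hij rfl).elim

/-! ### images of the residue maps -/

variable (hπ : Function.Surjective π)

include hπ in
theorem full_le_image (i : Fin 2) (t : LaurentSeries k) (ht : t ∈ modularFunctionFieldFullC k m) :
    t ∈ (comp (k := k) w hϖ i).image := by
  let I : IntermediateField k (LaurentSeries k) :=
    (comp (k := k) w hϖ i).image.toIntermediateField (fun a => by
      obtain ⟨b, rfl⟩ := hπ a
      rw [← (comp (k := k) w hϖ i).red_algebraMap b]
      exact (comp (k := k) w hϖ i).red_mem_image _)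
  have hI : modularFunctionFieldFullC k m ≤ I := by
    rw [full_le_iff (NeZero.ne m)]
    intro d hd
    show J k d ∈ (comp (k := k) w hϖ i).image
    fin_cases i
    · have h : (comp (k := k) w hϖ 0).red ⟨J K d, mem_FX_J hd⟩ = J k d := by
        rw [comp_red, emb_zero, gres_J]
      rw [← h]
      exact (comp (k := k) w hϖ 0).red_mem_image _
    · have h : (comp (k := k) w hϖ 1).red ⟨J K (q * d), mem_FX_Jq hd⟩ = J k d := by
        rw [comp_red, emb_one, w.W_Jq hd (mem_FX_J hd) (mem_FX_Jq hd), gres_J]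
      rw [← h]
      exact (comp (k := k) w hϖ 1).red_mem_image _
  exact hI ht

/-! ### degrees -/

theorem finrank_jFull [IsAlgClosed k] (hm : (m : k) ≠ 0) :
    Module.finrank k⟮H18.jFull k m⟯ (modularFunctionFieldFullC k m) = dedekindPsi m := by
  have h := H66.relfinrank_full k m hm
  rw [H42.relfinrank_eq_finrank_adjoin _ (jqModC_mem_full k m)] at h
  exact h

theorem finrank_jFull_pow [IsAlgClosed k] (hm : (m : k) ≠ 0) :
    Module.finrank k⟮H18.jFull k m ^ q⟯ (modularFunctionFieldFullC k m) = q * dedekindPsi m := by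
  have htr : Transcendental k (H18.jFull k m) := H42.transcendental_jFull k m
  have h1 := H18.relfinrank_adjoin_pow htr q
  have hle : k⟮H18.jFull k m ^ q⟯ ≤ k⟮H18.jFull k m⟯ := by
    rw [adjoin_le_iff, Set.singleton_subset_iff]
    exact pow_mem (mem_adjoin_simple_self k _) q
  have h2 := relfinrank_mul_relfinrank hle (le_top : k⟮H18.jFull k m⟯ ≤ ⊤)
  rw [relfinrank_top_right, relfinrank_top_right, h1, finrank_jFull hm] at h2
  exact h2.symm

theorem finrank_jF (hdeg : H67.DegreeFact K) (N : ℕ) [NeZero N] :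
    Module.finrank K⟮jF K N⟯ (FX K N) = dedekindPsi N := by
  have h := hdeg N
  have hmem : jqModC K ∈ FX K N := by
    rw [← coe_jF K N]
    exact (jF K N).2
  rw [← FX_eq, H42.relfinrank_eq_finrank_adjoin _ hmem] at h
  have e : jF K N = ⟨jqModC K, hmem⟩ := Subtype.ext (coe_jF K N)
  rw [e]
  exact h

/-- the generator of the smaller residue field -/
def xk (k : Type*) [Field k] (m q : ℕ) (i : Fin 2) : modularFunctionFieldFullC k m :=
  if i = 0 then H18.jFull k m else H18.jFull k m ^ q

theorem coe_xk (i : Fin 2) : (modularFunctionFieldFullC k m).val (xk k m q i) =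
    (comp (k := k) w hϖ i).red (jF K (m * q)) := by
  rw [comp_red, gres_emb_jF, xk]
  split_ifs
  · rfl
  · rw [map_pow]
    rfl

theorem finrank_xk [IsAlgClosed k] (hm : (m : k) ≠ 0) (i : Fin 2) :
    Module.finrank k⟮xk k m q i⟯ (modularFunctionFieldFullC k m) =
      if i = 0 then dedekindPsi m else q * dedekindPsi m := by
  by_cases h : i = 0
  · have e : xk k m q i = H18.jFull k m := if_pos h
    rw [e, if_pos h]
    exact finrank_jFull hm
  · have e : xk k m q i = H18.jFull k m ^ q := if_neg h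
    rw [e, if_neg h]
    exact finrank_jFull_pow hm

theorem psi_ne_zero (N : ℕ) [NeZero N] : 0 < dedekindPsi N := H67.dedekindPsi_pos N

theorem finiteDimensional_xk [IsAlgClosed k] (hm : (m : k) ≠ 0) (i : Fin 2) :
    FiniteDimensional k⟮xk k m q i⟯ (modularFunctionFieldFullC k m) := by
  apply FiniteDimensional.of_finrank_pos
  rw [finrank_xk hm]
  split_ifs
  · exact psi_ne_zero m
  · exact Nat.mul_pos hq.out.pos (psi_ne_zero m)

theorem finiteDimensional_jF (hdeg : H67.DegreeFact K) (N : ℕ) [NeZero N] :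
    FiniteDimensional K⟮jF K N⟯ (FX K N) := by
  apply FiniteDimensional.of_finrank_pos
  rw [finrank_jF hdeg]
  exact psi_ne_zero N

theorem finrank_le_sum [IsAlgClosed k] (hdeg : H67.DegreeFact K) (hqm : ¬ q ∣ m)
    (hm : (m : k) ≠ 0) : Module.finrank K⟮jF K (m * q)⟯ (FX K (m * q)) ≤
    ∑ i, Module.finrank k⟮xk k m q i⟯ (modularFunctionFieldFullC k m) := by
  rw [finrank_jF hdeg, Fin.sum_univ_two, finrank_xk hm, finrank_xk hm, if_pos rfl,
    if_neg (by decide), mul_comm m q, H45.dedekindPsi_mul_of_not_dvd hq.out (NeZero.ne m) hqm]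
  ring_nf
  exact le_rfl

include hπ in
/-- **Residues of chart functions lie in the coordinate ring of the special fibre.** -/
theorem r_mem [IsAlgClosed k] (hdeg : H67.DegreeFact K) (hqm : ¬ q ∣ m) (hm : (m : k) ≠ 0)
    (i : Fin 2) {b : FX K (m * q)} (hb : b ∈ (twoSys (k := k) w hϖ).B) :
    gres A π (emb w i b) ∈ H18.Cm k m := by
  have hBmem := (twoSys (k := k) w hϖ).mem_B.1 hb
  have hbB : b ∈ H84.B (comp (k := k) w hϖ) := by
    rw [H84.mem_B]
    exact hBmem.2
  have hfd := finiteDimensional_jF hdeg (m * q)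
  have hfd' := finiteDimensional_xk (q := q) (k := k) (m := m) hm
  have hinf : Infinite k := IsAlgClosed.instInfinite
  obtain ⟨bs, hbs⟩ := H84.exists_isFrame_of_sum (comp (k := k) w hϖ) (jF K (m * q))
    (modularFunctionFieldFullC k m).val (xk k m q) hπ (incomparable w hϖ) (resTrans w hϖ)
    (coe_xk w hϖ) (fun i t => full_le_image w hϖ hπ i _ t.2) (finrank_le_sum hdeg hqm hm)
  have hint := hbs.isIntegral_red hπ (resTrans w hϖ) hbB hBmem.1 i
  have himg := H84.image_le_range_of_sum (comp (k := k) w hϖ) (jF K (m * q))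
    (modularFunctionFieldFullC k m).val (xk k m q) hπ (incomparable w hϖ) (resTrans w hϖ)
    (coe_xk w hϖ) (fun i t => full_le_image w hϖ hπ i _ t.2) (finrank_le_sum hdeg hqm hm) i
    ((comp (k := k) w hϖ i).red_mem_image b)
  rw [comp_red] at himg
  rw [comp_red, comp_red, gres_emb_jF] at hint
  obtain ⟨t, ht⟩ := himg
  rw [H18.mem_Cm]
  refine ⟨?_, ?_⟩
  · rw [← ht]
    exact t.2
  · by_cases h0 : i = 0
    · rw [if_pos h0] at hint
      exact hint
    · rw [if_neg h0] at hint
      refine isIntegral_adjoin_trans hint ?_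
      have : jqModC k ^ q = algebraMap (Algebra.adjoin k {jqModC k}) (LaurentSeries k)
          (⟨jqModC k, Algebra.self_mem_adjoin_singleton k _⟩ ^ q) := rfl
      rw [this]
      exact isIntegral_algebraMap

end Frame

end Fermat.Agent.H68
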