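import Mathlib
import Fermat.Agent.H16Gs
import Fermat.Agent.H68TwoData
import Fermat.Agent.H68TwoFrame
import Fermat.Agent.H83WindA
import Fermat.Agent.H99Hor

/-!
# CARAYOL [C6] for the modular instance (helper16)
-/

set_option autoImplicit false
set_option linter.unusedSectionVars false

noncomputable section

open Polynomial ModularCurve Fermat.Agent.H99 Fermat.Agent.H66 IntermediateField
open Fermat.Agent.H83 Fermat.Agent.H68

namespace Fermat.Agent.H16.Ch

section Base

variable {K : Type*} [Field K] {A : ValuationSubring K} {k : Type*} [Field k] {π : A →+* k}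

theorem prime_of_unif {ϖ : A} (hϖ : Unif A π ϖ) : Prime ϖ := by
  rw [← Ideal.span_singleton_prime hϖ.ne_zero]
  have h : Ideal.span {ϖ} = RingHom.ker π := by
    apply le_antisymm
    · rw [Ideal.span_singleton_le_iff_mem]
      exact hϖ.map
    · intro a ha
      rw [Ideal.mem_span_singleton]
      exact hϖ.dvd a ha
  rw [h]
  exact RingHom.ker_isPrime π

theorem transcendental_jF (K : Type*) [Field K] [Algebra ℚ K] (N : ℕ) [NeZero N] :
    Transcendental K (jF K N) := by
  intro h
  exact H42.transcendental_jqModC K (by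
    have := h.algHom (FX K N).val
    have e : (FX K N).val (jF K N) = jqModC K := coe_jF K N
    rwa [e] at this)

end Base

section Inst

variable {K : Type*} [Field K] [Algebra ℚ K] [CharZero K] {m q : ℕ} [NeZero m] [NeZero q]
  [hq : Fact q.Prime]
variable {A : ValuationSubring K} {k : Type*} [Field k] [IsAlgClosed k] [CharP k q] {π : A →+* k}
variable {w : AL K m q} {hϖ : Unif A π (q : A)}
  {R : ResData k (LaurentSeries k) q} {T : TwoData R (FX K (m * q))}
  {S : CompSys (FX K (m * q * q)) (LaurentSeries k) q (Fin 3)}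

theorem φ_jq (hφ : ∀ x, R.φ x = coeffMap (frobenius k q) x) : R.φ (jqModC k) = jqModC k := by
  rw [hφ]
  exact coeffMap_jqModC (frobenius k q)

theorem φ_X {c : ℕ} (hφ : ∀ x, R.φ x = coeffMap (frobenius k q) x) (hX : R.X = H1.Xc c k) :
    R.φ R.X = R.X := by
  rw [hφ, hX]
  exact H1.coeffMap_Xc c (frobenius k q)

/-- `JData` for the modular instance -/
theorem jData (hT : T.toCompSys = twoSys w hϖ) (hC : ∀ x, x ∈ R.C ↔ x ∈ H18.Cm k m)
    (hφ : ∀ x, R.φ x = coeffMap (frobenius k q) x) (hS : S.Consts A π) :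
    JData T S (heckeAlphaBar K (m * q) q : FX K (m * q) →+* FX K (m * q * q)) π
      (jF K (m * q)) (jqModC k) where
  red_eq_zero a ha := hϖ.dvd a ha
  O_mem i a := hS.mem i a
  res_O i a := hS.res i a
  J_mem i := by
    rw [hT, mem_twoSys_V]
    exact emb_jF_mem w i
  res_J := by
    rw [hT, twoSys_res, gres_emb_jF]
    rfl
  res_WJ := by
    rw [hT, twoSys_res, gres_emb_jF]
    rfl
  φ_jb := φ_jq hφ
  transc := H42.transcendental_jqModC k
  jb_mem := (hC _).2 H18.jqModC_mem_Cm

theorem alpha_jF : (heckeAlphaBar K (m * q) q : FX K (m * q) →+* FX K (m * q * q))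
    (jF K (m * q)) = jF K (m * q * q) := alpha_jX

variable {α β : FX K (m * q) →+* FX K (m * q * q)}

/-- **`gs_eq`** of `CoreHyp` for the modular instance -/
theorem gs_iff_inst [IsDiscreteValuationRing A] (hqm : ¬ q ∣ m)
    (hT : T.toCompSys = twoSys w hϖ) (hC : ∀ x, x ∈ R.C ↔ x ∈ H18.Cm k m)
    (hφ : ∀ x, R.φ x = coeffMap (frobenius k q) x) (hφX : R.φ R.X = R.X) (hS : S.Consts A π)
    (hα : α = (heckeAlphaBar K (m * q) q : FX K (m * q) →+* FX K (m * q * q)))
    (P : PreThree T S α β) (x : FX K (m * q * q)) :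
    x ∈ H36.gs A (jF K (m * q * q)) ↔ ∀ i, x ∈ S.V i := by
  have hm : (m : k) ≠ 0 := by
    rw [Ne, CharP.cast_eq_zero_iff k q]; exact hqm
  subst hα
  rw [← alpha_jF]
  refine P.gs_iff_psi (K := K) hφX (jData hT hC hφ hS) (prime_of_unif hϖ) hm hqm
    (SetLike.ext hC) ?_ ?_ x
  · rw [alpha_jF, finrank_jF (H99.degreeFact K)]
  · rw [alpha_jF]
    exact transcendental_jF K _

/-- **`B_eq` and `noeth`** for the modular instance (chart `j` or chart `1/j`) -/
theorem B_eq_inst [IsDiscreteValuationRing A] (hqm : ¬ q ∣ m)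
    (hT : T.toCompSys = twoSys w hϖ) (hC : ∀ x, x ∈ R.C ↔ x ∈ H18.Cm k m)
    (hφ : ∀ x, R.φ x = coeffMap (frobenius k q) x) (hφX : R.φ R.X = R.X) (hS : S.Consts A π)
    (hα : α = (heckeAlphaBar K (m * q) q : FX K (m * q) →+* FX K (m * q * q)))
    (P : PreThree T S α β) (t : FX K (m * q * q))
    (ht : t = jF K (m * q * q) ∨ t = (jF K (m * q * q))⁻¹) (hhor : S.hor = H36.chart K t) :
    S.B = H36.chart A t ∧ IsNoetherianRing S.B := by
  have hm : (m : k) ≠ 0 := by
    rw [Ne, CharP.cast_eq_zero_iff k q]; exact hqm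
  subst hα
  rw [← alpha_jF] at ht
  refine P.isNoetherianRing_B_chart (K := K) hφX (jData hT hC hφ hS) (prime_of_unif hϖ) hm hqm
    (SetLike.ext hC) ?_ ?_ t ht hhor
  · rw [alpha_jF, finrank_jF (H99.degreeFact K)]
  · rw [alpha_jF]
    exact transcendental_jF K _

end Inst

end Fermat.Agent.H16.Ch

end
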