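import Mathlib

/-!
# LT block T, piece W4 (helper16): lattice combinatorics for binary theta products

`𝓞 K = ℤ[s]`, `s² = -N`.  For nonzero ideals `I`, `J` the representation numbers
`rep2 I J d d' n = #{(x,y) ∈ I × J : d N_I(x) + d' N_J(y) = n}`, `N_I(x) = N(x)/N(I)`.

* `rep2_inert_right`, `rep2_inert_left` : action of `U_q`, `q` inert;
* `rep2_four` : `rep2 (16 n) = rep2 (4 n)` under the 2-adic non norm condition.
-/

set_option autoImplicit false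

namespace Fermat.Agent.H16.LT

open NumberField Ideal

/-- `𝓞 K = ℤ[s]`, `s² = -N`. -/
structure QuadZ (K : Type*) [Field K] [NumberField K] (N : ℕ) (s : 𝓞 K) : Prop where
  pos : 0 < N
  finrank : Module.finrank ℚ K = 2
  sq : s ^ 2 = -(N : 𝓞 K)
  gen : ∀ x : 𝓞 K, ∃ a b : ℤ, x = (a : 𝓞 K) + b * s

section Norm

variable {K : Type*} [Field K] [NumberField K] {N : ℕ} {s : 𝓞 K}

theorem QuadZ.eq_zero (h : QuadZ K N s) {a b : ℤ} (hab : (a : 𝓞 K) + b * s = 0) :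
    a = 0 ∧ b = 0 := by
  have h1 : ((a : 𝓞 K) + b * s) * ((a : 𝓞 K) - b * s) = ((a ^ 2 + N * b ^ 2 : ℤ) : 𝓞 K) := by
    push_cast
    linear_combination (-(b : 𝓞 K) ^ 2) * h.sq
  rw [hab, zero_mul] at h1
  have h2 : (a ^ 2 + N * b ^ 2 : ℤ) = 0 := by
    have h3 : ((a ^ 2 + N * b ^ 2 : ℤ) : 𝓞 K) = ((0 : ℤ) : 𝓞 K) := by rw [← h1]; simp
    exact_mod_cast h3
  have hN := h.pos
  have hN' : (0 : ℤ) < N := by exact_mod_cast hN
  have hb : b = 0 := by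
    by_contra hb
    have : 0 < b ^ 2 := by positivity
    nlinarith [sq_nonneg a]
  subst hb
  have ha : a ^ 2 = 0 := by nlinarith
  exact ⟨by simpa using ha, rfl⟩

theorem QuadZ.norm (h : QuadZ K N s) (a b : ℤ) :
    Algebra.norm ℤ ((a : 𝓞 K) + b * s) = a ^ 2 + N * b ^ 2 := by
  have hli : LinearIndependent ℤ ![(1 : 𝓞 K), s] := by
    rw [LinearIndependent.pair_iff]
    intro a b hab
    apply h.eq_zero
    rw [← hab]
    simp
  have hsp : ⊤ ≤ Submodule.span ℤ (Set.range ![(1 : 𝓞 K), s]) := by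
    intro x _
    obtain ⟨a, b, rfl⟩ := h.gen x
    have h1 : (a : 𝓞 K) + b * s = a • (1 : 𝓞 K) + b • s := by simp
    rw [h1]
    exact add_mem (Submodule.smul_mem _ _ (Submodule.subset_span ⟨0, rfl⟩))
      (Submodule.smul_mem _ _ (Submodule.subset_span ⟨1, rfl⟩))
  let B : Module.Basis (Fin 2) ℤ (𝓞 K) := Module.Basis.mk hli hsp
  have hB0 : B 0 = 1 := by simp [B]
  have hB1 : B 1 = s := by simp [B]
  have hcol0 : ((a : 𝓞 K) + b * s) * B 0 = a • B 0 + b • B 1 := by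
    rw [hB0, hB1]; simp
  have hcol1 : ((a : 𝓞 K) + b * s) * B 1 = (-(N : ℤ) * b) • B 0 + a • B 1 := by
    rw [hB0, hB1]
    simp only [zsmul_eq_mul, mul_one]
    push_cast
    linear_combination (b : 𝓞 K) * h.sq
  rw [Algebra.norm_eq_matrix_det B, Matrix.det_fin_two]
  have e : ∀ i j, Algebra.leftMulMatrix B ((a : 𝓞 K) + b * s) i j =
      B.repr (((a : 𝓞 K) + b * s) * B j) i := by
    intro i j
    rw [Algebra.leftMulMatrix_eq_repr_mul]
  rw [e, e, e, e, hcol0, hcol1]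
  simp only [map_add, map_smul, Module.Basis.repr_self, Finsupp.coe_add, Finsupp.coe_smul,
    Pi.add_apply, Pi.smul_apply, smul_eq_mul]
  simp
  ring

theorem QuadZ.absNorm_span (h : QuadZ K N s) (a b : ℤ) :
    ((absNorm (span {(a : 𝓞 K) + b * s}) : ℕ) : ℤ) = a ^ 2 + N * b ^ 2 := by
  rw [absNorm_span_singleton, h.norm, Int.natAbs_of_nonneg (by positivity)]

theorem QuadZ.absNorm_span_nat (h : QuadZ K N s) (d : ℕ) :
    absNorm (span {(d : 𝓞 K)}) = d ^ 2 := by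
  have h1 := h.absNorm_span d 0
  simp only [Int.cast_natCast, Int.cast_zero, zero_mul, add_zero] at h1
  have h2 : ((absNorm (span {(d : 𝓞 K)}) : ℕ) : ℤ) = ((d ^ 2 : ℕ) : ℤ) := by
    rw [h1]; push_cast; ring
  exact_mod_cast h2

end Norm

section Local

variable {K : Type*} [Field K] [NumberField K] {N : ℕ} {s : 𝓞 K}

/-- the normalised norm `N(x) / N(I)` -/
noncomputable def nI (I : Ideal (𝓞 K)) (x : 𝓞 K) : ℕ := absNorm (span {x}) / absNorm I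

theorem nI_mul {I : Ideal (𝓞 K)} {x : 𝓞 K} (hx : x ∈ I) :
    nI I x * absNorm I = absNorm (span {x}) := by
  apply Nat.div_mul_cancel
  exact absNorm_dvd_absNorm_of_le ((span_singleton_le_iff_mem I).mpr hx)

theorem nI_zero (I : Ideal (𝓞 K)) : nI I 0 = 0 := by
  simp [nI]

theorem absNorm_pos {I : Ideal (𝓞 K)} (hI : I ≠ ⊥) : 0 < absNorm I :=
  Nat.pos_of_ne_zero (by rwa [Ne, absNorm_eq_zero_iff])

theorem nI_eq_zero {I : Ideal (𝓞 K)} {x : 𝓞 K} (hx : x ∈ I) : nI I x = 0 ↔ x = 0 := by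
  constructor
  · intro h
    have h1 := nI_mul hx
    rw [h, zero_mul] at h1
    have h2 := absNorm_eq_zero_iff.mp h1.symm
    rwa [span_singleton_eq_bot] at h2
  · rintro rfl
    exact nI_zero I

/-- a factorisation `(x) = I C` with `N(C) = N_I(x)` -/
theorem exists_factor {I : Ideal (𝓞 K)} (hI : I ≠ ⊥) {x : 𝓞 K} (hx : x ∈ I) :
    ∃ C : Ideal (𝓞 K), span {x} = I * C ∧ absNorm C = nI I x := by
  obtain ⟨C, hC⟩ := dvd_iff_le.mpr ((span_singleton_le_iff_mem I).mpr hx)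
  refine ⟨C, hC, ?_⟩
  rw [nI, hC, map_mul, Nat.mul_div_cancel_left _ (absNorm_pos hI)]

/-- If `m ∣ a² + N b²` forces `d ∣ a, b`, then `m ∣ N_I(x)` forces `x ∈ d I`. -/
theorem QuadZ.mem_of_dvd (h : QuadZ K N s) {m d : ℕ}
    (hd : ∀ a b : ℤ, (m : ℤ) ∣ a ^ 2 + N * b ^ 2 → (d : ℤ) ∣ a ∧ (d : ℤ) ∣ b)
    {I : Ideal (𝓞 K)} (hI : I ≠ ⊥) {x : 𝓞 K} (hx : x ∈ I) (hm : m ∣ nI I x) :
    ∃ z ∈ I, (d : 𝓞 K) * z = x := by
  obtain ⟨C, hC, hCn⟩ := exists_factor hI hx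
  have hle : C ≤ span {(d : 𝓞 K)} := by
    intro c hc
    obtain ⟨a, b, rfl⟩ := h.gen c
    have h1 : absNorm C ∣ absNorm (span {(a : 𝓞 K) + b * s}) :=
      absNorm_dvd_absNorm_of_le ((span_singleton_le_iff_mem C).mpr hc)
    rw [hCn] at h1
    have h2 : (m : ℤ) ∣ a ^ 2 + N * b ^ 2 := by
      rw [← h.absNorm_span]
      exact_mod_cast hm.trans h1
    obtain ⟨⟨a', rfl⟩, ⟨b', rfl⟩⟩ := hd a b h2
    rw [mem_span_singleton]
    refine ⟨(a' : 𝓞 K) + b' * s, ?_⟩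
    push_cast
    ring
  have h1 : x ∈ I * span {(d : 𝓞 K)} := by
    have h2 : x ∈ span {x} := mem_span_singleton_self x
    rw [hC] at h2
    exact (mul_mono_right hle) h2
  obtain ⟨z, hz, hzx⟩ := mem_mul_span_singleton.mp h1
  exact ⟨z, hz, by rw [mul_comm]; exact hzx⟩

theorem QuadZ.nI_nat_mul (h : QuadZ K N s) (I : Ideal (𝓞 K)) (d : ℕ) {z : 𝓞 K} (hz : z ∈ I) :
    nI I ((d : 𝓞 K) * z) = d ^ 2 * nI I z := by
  rw [nI, ← span_singleton_mul_span_singleton, map_mul, h.absNorm_span_nat, nI,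
    Nat.mul_div_assoc]
  exact absNorm_dvd_absNorm_of_le ((span_singleton_le_iff_mem I).mpr hz)

/-- `q` is inert: `-N` is not a square mod the prime `q`. -/
theorem inert_dvd {q : ℕ} (hq : q.Prime) (hns : ∀ z : ℤ, ¬ (q : ℤ) ∣ z ^ 2 + N) (a b : ℤ)
    (hab : (q : ℤ) ∣ a ^ 2 + N * b ^ 2) : (q : ℤ) ∣ a ∧ (q : ℤ) ∣ b := by
  have hqZ : Prime (q : ℤ) := Nat.prime_iff_prime_int.mp hq
  have hb : (q : ℤ) ∣ b := by
    by_contra hb
    have hcop : IsCoprime b (q : ℤ) := by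
      rw [isCoprime_comm]
      exact (Prime.coprime_iff_not_dvd hqZ).mpr hb
    obtain ⟨c, e, hce⟩ := hcop
    -- c b ≡ 1 mod q
    apply hns (a * c)
    obtain ⟨f, hf⟩ := hab
    have h1 : (a * c) ^ 2 + N = c ^ 2 * (a ^ 2 + N * b ^ 2) + N * (1 - (c * b) ^ 2) := by ring
    rw [h1, hf]
    have h2 : (1 - (c * b) ^ 2 : ℤ) = q * (e * (1 + c * b)) := by
      have : c * b = 1 - e * q := by linarith
      rw [this]; ring
    rw [h2]
    exact ⟨c ^ 2 * f + N * (e * (1 + c * b)), by ring⟩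
  refine ⟨?_, hb⟩
  have h1 : (q : ℤ) ∣ a ^ 2 := by
    have h2 : (q : ℤ) ∣ N * b ^ 2 := Dvd.dvd.mul_left (dvd_pow hb two_ne_zero) _
    exact (dvd_add_left h2).mp hab
  exact hqZ.dvd_of_dvd_pow h1

/-- `2` is ramified. -/
theorem four_dvd (hN : N % 4 = 2) (a b : ℤ) (hab : ((4 : ℕ) : ℤ) ∣ a ^ 2 + N * b ^ 2) :
    ((2 : ℕ) : ℤ) ∣ a ∧ ((2 : ℕ) : ℤ) ∣ b := by
  have hN' : (N : ℤ) % 4 = 2 := by omega
  push_cast at hab ⊢
  have key : ∀ a b n : ZMod 4, n = 2 → a ^ 2 + n * b ^ 2 = 0 → (a = 0 ∨ a = 2) ∧ (b = 0 ∨ b = 2) := by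
    decide
  have h1 : ((a : ZMod 4)) ^ 2 + ((N : ℤ) : ZMod 4) * (b : ZMod 4) ^ 2 = 0 := by
    have := (ZMod.intCast_zmod_eq_zero_iff_dvd (a ^ 2 + N * b ^ 2) 4).mpr (by exact_mod_cast hab)
    push_cast at this ⊢
    exact this
  have h2 : ((N : ℤ) : ZMod 4) = 2 := by
    rw [show (2 : ZMod 4) = ((2 : ℤ) : ZMod 4) by norm_num, ZMod.intCast_eq_intCast_iff]
    change (N : ℤ) % ((4 : ℕ) : ℤ) = 2 % ((4 : ℕ) : ℤ)
    push_cast
    omega
  obtain ⟨h3, h4⟩ := key _ _ _ h2 h1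
  have conv : ∀ c : ℤ, ((c : ZMod 4) = 0 ∨ (c : ZMod 4) = 2) → (2 : ℤ) ∣ c := by
    intro c hc
    rcases hc with hc | hc
    · have := (ZMod.intCast_zmod_eq_zero_iff_dvd c 4).mp hc
      omega
    · have : ((c - 2 : ℤ) : ZMod 4) = 0 := by push_cast; rw [hc]; ring
      have := (ZMod.intCast_zmod_eq_zero_iff_dvd (c - 2) 4).mp this
      omega
  exact ⟨conv a h3, conv b h4⟩

/-- an odd integer which is the norm of an element of `K` is `1` or `1 + N` mod `8`. -/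
theorem odd_norm_mod (hN : N % 4 = 2) : ∀ (c : ℕ), c ≠ 0 → ∀ (t a b : ℤ), Odd t →
    t * c ^ 2 = a ^ 2 + N * b ^ 2 → (8 : ℤ) ∣ t - 1 ∨ (8 : ℤ) ∣ t - 1 - N := by
  intro c
  induction c using Nat.strong_induction_on with
  | _ c ih =>
    intro hc t a b ht hab
    rcases Nat.even_or_odd' c with ⟨c', rfl | rfl⟩
    · -- c even
      have h4 : ((4 : ℕ) : ℤ) ∣ a ^ 2 + N * b ^ 2 := by
        rw [← hab]
        exact ⟨t * c' ^ 2, by push_cast; ring⟩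
      obtain ⟨⟨a', rfl⟩, ⟨b', rfl⟩⟩ := four_dvd hN a b h4
      refine ih c' (by omega) (by rintro rfl; simp at hc) t a' b' ht ?_
      push_cast at hab
      nlinarith
    · -- c odd
      have hN' : (N : ℤ) % 4 = 2 := by omega
      obtain ⟨t', rfl⟩ := ht
      have h1 : ∀ z : ℤ, ∃ w : ℤ, (2 * z + 1) ^ 2 = 8 * w + 1 := by
        intro z
        rcases Int.even_or_odd' z with ⟨y, rfl | rfl⟩
        · exact ⟨2 * y ^ 2 + y, by ring⟩
        · exact ⟨2 * y ^ 2 + 3 * y + 1, by ring⟩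
      obtain ⟨w, hw⟩ := h1 c'
      push_cast at hab
      rw [hw] at hab
      -- parity of a
      have ha : Odd a := by
        by_contra ha
        rw [Int.not_odd_iff_even] at ha
        obtain ⟨a', rfl⟩ := ha
        have : ((a' + a') ^ 2 + N * b ^ 2 : ℤ) % 2 = 0 := by
          have hNe : ∃ n, (N : ℤ) = 2 * n := ⟨N / 2, by omega⟩
          obtain ⟨n, hn⟩ := hNe
          rw [hn]
          have : ((a' + a') ^ 2 + 2 * n * b ^ 2 : ℤ) = 2 * (2 * a' ^ 2 + n * b ^ 2) := by ring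
          rw [this]; exact Int.mul_emod_right 2 _
        rw [← hab] at this
        have h2 : ((2 * t' + 1) * (8 * w + 1) : ℤ) = 2 * (8 * t' * w + t' + 4 * w) + 1 := by ring
        rw [h2] at this
        omega
      obtain ⟨a', rfl⟩ := ha
      obtain ⟨w', hw'⟩ := h1 a'
      rw [hw'] at hab
      rcases Int.even_or_odd' b with ⟨b', rfl | rfl⟩
      · left
        obtain ⟨n, hn⟩ : ∃ n, (N : ℤ) = 2 * n := ⟨N / 2, by omega⟩
        refine ⟨w' + n * b' ^ 2 - (2 * t' + 1) * w, ?_⟩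
        rw [hn] at hab
        linear_combination hab
      · right
        obtain ⟨w'', hw''⟩ := h1 b'
        rw [hw''] at hab
        refine ⟨w' + N * w'' - (2 * t' + 1) * w, ?_⟩
        linear_combination hab

end Local

section Count

variable {K : Type*} [Field K] [NumberField K] {N : ℕ} {s : 𝓞 K}

/-- representation numbers of `d N_I(x) + d' N_J(y)`. -/
noncomputable def rep2 (I J : Ideal (𝓞 K)) (d d' n : ℕ) : ℕ :=
  Nat.card {p : I × J // d * nI I (p.1 : 𝓞 K) + d' * nI J (p.2 : 𝓞 K) = n}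

theorem rep2_one (I J : Ideal (𝓞 K)) (Q n : ℕ) : rep2 I J 1 Q n =
    Nat.card {p : I × J // nI I (p.1 : 𝓞 K) + Q * nI J (p.2 : 𝓞 K) = n} := by
  simp only [rep2, one_mul]

theorem rep2_comm (I J : Ideal (𝓞 K)) (d d' n : ℕ) : rep2 I J d d' n = rep2 J I d' d n := by
  refine Nat.card_congr ⟨fun p => ⟨(p.1.2, p.1.1), ?_⟩, fun p => ⟨(p.1.2, p.1.1), ?_⟩,
    fun p => rfl, fun p => rfl⟩
  · have := p.2; simp only at this ⊢; omega
  · have := p.2; simp only at this ⊢; omega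

/-- multiplication by `d` on an ideal -/
def dmul (I : Ideal (𝓞 K)) (d : ℕ) (x : I) : I := ⟨(d : 𝓞 K) * x, I.mul_mem_left _ x.2⟩

theorem dmul_injective (I : Ideal (𝓞 K)) {d : ℕ} (hd : d ≠ 0) :
    Function.Injective (dmul I d) := by
  intro x y hxy
  have h1 : (d : 𝓞 K) * x = (d : 𝓞 K) * y := congrArg Subtype.val hxy
  have h2 : (d : 𝓞 K) ≠ 0 := Nat.cast_ne_zero.mpr hd
  exact Subtype.ext (mul_left_cancel₀ h2 h1)

/-- **(b)** the action of `U_q`, `q` inert prime, `q ∤ d`. -/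
theorem QuadZ.rep2_inert (h : QuadZ K N s) {q : ℕ} (hq : q.Prime)
    (hns : ∀ z : ℤ, ¬ (q : ℤ) ∣ z ^ 2 + N) {I : Ideal (𝓞 K)} (hI : I ≠ ⊥) (J : Ideal (𝓞 K))
    {d : ℕ} (hd : ¬ q ∣ d) (e n : ℕ) :
    rep2 I J d (q * e) (q * n) = rep2 I J (q * d) e n := by
  symm
  have hq0 := hq.pos
  refine Nat.card_congr (Equiv.ofBijective
    (fun p => ⟨(dmul I q p.1.1, p.1.2), ?_⟩) ⟨?_, ?_⟩)
  · obtain ⟨⟨x, y⟩, hxy⟩ := p
    simp only [dmul] at hxy ⊢
    rw [h.nI_nat_mul I q x.2, ← hxy]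
    ring
  · rintro ⟨⟨x, y⟩, hxy⟩ ⟨⟨x', y'⟩, hxy'⟩ heq
    simp only [Subtype.mk.injEq, Prod.mk.injEq] at heq ⊢
    exact ⟨dmul_injective I hq.ne_zero heq.1, heq.2⟩
  · rintro ⟨⟨x, y⟩, hxy⟩
    simp only at hxy
    have h1 : q ∣ d * nI I (x : 𝓞 K) := by
      have h2 : q ∣ d * nI I (x : 𝓞 K) + q * e * nI J (y : 𝓞 K) := hxy ▸ dvd_mul_right q n
      exact (Nat.dvd_add_left ⟨e * nI J (y : 𝓞 K), by ring⟩).mp h2
    have h2 : q ∣ nI I (x : 𝓞 K) := (hq.dvd_mul.mp h1).resolve_left hd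
    obtain ⟨z, hz, hzx⟩ := h.mem_of_dvd (inert_dvd hq hns) hI x.2 h2
    refine ⟨⟨(⟨z, hz⟩, y), ?_⟩, ?_⟩
    · simp only
      rw [← hzx, h.nI_nat_mul I q hz] at hxy
      apply Nat.eq_of_mul_eq_mul_left hq0
      rw [← hxy]
      ring
    · apply Subtype.ext
      exact Prod.ext (Subtype.ext hzx) rfl

/-- **(b)** the action of `U_q`, `q` inert prime, `q ∤ d`, other side. -/
theorem QuadZ.rep2_inert' (h : QuadZ K N s) {q : ℕ} (hq : q.Prime)
    (hns : ∀ z : ℤ, ¬ (q : ℤ) ∣ z ^ 2 + N) (I : Ideal (𝓞 K)) {J : Ideal (𝓞 K)} (hJ : J ≠ ⊥)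
    {d : ℕ} (hd : ¬ q ∣ d) (e n : ℕ) :
    rep2 I J (q * e) d (q * n) = rep2 I J e (q * d) n := by
  rw [rep2_comm, h.rep2_inert hq hns hJ I hd, rep2_comm]

/-- **(b)** `U_q² = 1` on `θ_I(τ) θ_J(Qτ)`, `q ∥ Q`. -/
theorem QuadZ.rep2_inert_sq (h : QuadZ K N s) {q : ℕ} (hq : q.Prime)
    (hns : ∀ z : ℤ, ¬ (q : ℤ) ∣ z ^ 2 + N) {I J : Ideal (𝓞 K)} (hI : I ≠ ⊥) (hJ : J ≠ ⊥)
    {d e : ℕ} (hd : ¬ q ∣ d) (he : ¬ q ∣ e) (n : ℕ) :
    rep2 I J d (q * e) (q * (q * n)) = rep2 I J d (q * e) n := by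
  rw [h.rep2_inert hq hns hI J hd, h.rep2_inert' hq hns I hJ he]

/-- **(c1)** -/
theorem QuadZ.four_dvd_of_sixteen (h : QuadZ K N s) (hN : N % 4 = 2) {I J B : Ideal (𝓞 K)}
    (hI : I ≠ ⊥) (hJ : J ≠ ⊥) {α β : 𝓞 K} (hα : α ≠ 0) (hβ : β ≠ 0)
    (hIJ : span {α} * J = span {β} * (I * B)) (hB : Odd (absNorm B)) {Q : ℕ} (hQ : Odd Q)
    (h1 : ¬ 8 ∣ Q * absNorm B + 1) (h2 : ¬ 8 ∣ Q * absNorm B + 1 + N) {x y : 𝓞 K} (hx : x ∈ I)
    (hy : y ∈ J) (h16 : 16 ∣ nI I x + Q * nI J y) : 4 ∣ nI I x ∧ 4 ∣ nI J y := by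
  by_contra hcon
  set u := nI I x with hu
  set v := nI J y with hv
  -- step 1
  have step1 : ∃ k u' v', u = 2 ^ k * u' ∧ v = 2 ^ k * v' ∧ Odd u' ∧ Odd v' ∧
      8 ∣ u' + Q * v' := by
    obtain ⟨Q', rfl⟩ := hQ
    rcases Nat.even_or_odd u with hue | huo
    · obtain ⟨u', hu'⟩ := hue
      have hve : Even v := by
        by_contra hvo
        rw [Nat.not_even_iff_odd] at hvo
        obtain ⟨v', hv'⟩ := hvo
        obtain ⟨w, hw⟩ := h16
        rw [hu', hv'] at hw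
        have : (u' + u' + (2 * Q' + 1) * (2 * v' + 1)) = 2 * (u' + 2 * Q' * v' + Q' + v') + 1 := by
          ring
        omega
      obtain ⟨v', hv'⟩ := hve
      have h8 : 8 ∣ u' + (2 * Q' + 1) * v' := by
        obtain ⟨w, hw⟩ := h16
        refine ⟨w, ?_⟩
        rw [hu', hv'] at hw
        have : (u' + u' + (2 * Q' + 1) * (v' + v')) = 2 * (u' + (2 * Q' + 1) * v') := by ring
        omega
      have hpar : (Even u' ↔ Even v') := by
        obtain ⟨w, hw⟩ := h8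
        have h5 : u' + (2 * Q' + 1) * v' = (u' + v') + 2 * (Q' * v') := by ring
        rw [Nat.even_iff, Nat.even_iff]
        omega
      have hodd : Odd u' := by
        by_contra hne
        rw [Nat.not_odd_iff_even] at hne
        have hne' := hpar.mp hne
        obtain ⟨a, rfl⟩ := hne
        obtain ⟨b, rfl⟩ := hne'
        exact hcon ⟨⟨a, by omega⟩, ⟨b, by omega⟩⟩
      have hodd' : Odd v' := by
        rw [← Nat.not_even_iff_odd] at hodd ⊢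
        exact fun h => hodd (hpar.mpr h)
      exact ⟨1, u', v', by omega, by omega, hodd, hodd', h8⟩
    · have hvo : Odd v := by
        by_contra hve
        rw [Nat.not_odd_iff_even] at hve
        obtain ⟨v', hv'⟩ := hve
        obtain ⟨u', hu'⟩ := huo
        obtain ⟨w, hw⟩ := h16
        rw [hu', hv'] at hw
        have : 2 * u' + 1 + (2 * Q' + 1) * (v' + v') = 2 * (u' + (2 * Q' + 1) * v') + 1 := by ring
        omega
      exact ⟨0, u, v, by simp, by simp, huo, hvo, (show 8 ∣ 16 by norm_num).trans h16⟩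
  obtain ⟨k, u', v', hu', hv', hou, hov, h8⟩ := step1
  -- step 2 : the norm equation
  obtain ⟨a, b, hab⟩ := h.gen (x * y * α * β)
  have hnorm : absNorm (span {x * y * α * β}) = u' * v' * absNorm B *
      (2 ^ k * absNorm I * absNorm (span {β})) ^ 2 := by
    rw [← span_singleton_mul_span_singleton, ← span_singleton_mul_span_singleton,
      ← span_singleton_mul_span_singleton, map_mul, map_mul, map_mul, ← nI_mul hx, ← nI_mul hy,
      ← hu, ← hv, hu', hv']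
    have h3 : absNorm (span {α}) * absNorm J = absNorm (span {β}) * (absNorm I * absNorm B) := by
      rw [← map_mul, hIJ, map_mul, map_mul]
    calc 2 ^ k * u' * absNorm I * (2 ^ k * v' * absNorm J) * absNorm (span {α}) *
          absNorm (span {β})
        = 2 ^ k * u' * absNorm I * (2 ^ k * v') * (absNorm (span {α}) * absNorm J) *
          absNorm (span {β}) := by ring
      _ = _ := by rw [h3]; ring
  have hc0 : 2 ^ k * absNorm I * absNorm (span {β}) ≠ 0 := by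
    have h4 := (absNorm_pos hI).ne'
    have h5 : absNorm (span {β}) ≠ 0 := by
      rw [Ne, absNorm_eq_zero_iff, span_singleton_eq_bot]; exact hβ
    positivity
  have ht : Odd ((u' * v' * absNorm B : ℕ) : ℤ) := by
    rw [Int.odd_coe_nat]
    exact (hou.mul hov).mul hB
  have heq : ((u' * v' * absNorm B : ℕ) : ℤ) *
      ((2 ^ k * absNorm I * absNorm (span {β}) : ℕ) : ℤ) ^ 2 = a ^ 2 + N * b ^ 2 := by
    rw [← h.absNorm_span, ← hab, hnorm]
    push_cast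
    ring
  have hres := odd_norm_mod hN _ hc0 _ a b ht heq
  -- step 3 : congruence
  obtain ⟨w, hw⟩ := h8
  obtain ⟨v₁, hv₁⟩ := hov
  have hv2 : ∃ z : ℤ, ((v' : ℤ)) ^ 2 = 8 * z + 1 := by
    rw [hv₁]
    push_cast
    rcases Int.even_or_odd' (v₁ : ℤ) with ⟨t, ht | ht⟩
    · exact ⟨2 * t ^ 2 + t, by rw [ht]; ring⟩
    · exact ⟨2 * t ^ 2 + 3 * t + 1, by rw [ht]; ring⟩
  obtain ⟨z, hz⟩ := hv2
  have hu3 : (u' : ℤ) = 8 * w - Q * v' := by
    have : (u' : ℤ) + Q * v' = 8 * w := by exact_mod_cast hw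
    linarith
  have hfin : ((u' * v' * absNorm B : ℕ) : ℤ) =
      8 * (w * v' * absNorm B - Q * absNorm B * z) - Q * absNorm B := by
    push_cast
    rw [hu3]
    linear_combination (-(Q : ℤ) * absNorm B) * hz
  rw [hfin] at hres
  rcases hres with hres | hres
  · apply h1
    obtain ⟨w', hw'⟩ := hres
    have : (8 : ℤ) ∣ ((Q * absNorm B + 1 : ℕ) : ℤ) :=
      ⟨(w * v' * absNorm B - Q * absNorm B * z) - w', by push_cast; linarith⟩
    exact_mod_cast this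
  · apply h2
    obtain ⟨w', hw'⟩ := hres
    have : (8 : ℤ) ∣ ((Q * absNorm B + 1 + N : ℕ) : ℤ) :=
      ⟨(w * v' * absNorm B - Q * absNorm B * z) - w', by push_cast; linarith⟩
    exact_mod_cast this

/-- **(c2)** `U_2⁴ = U_2²` on `θ_I(τ) θ_J(Qτ)`. -/
theorem QuadZ.rep2_sixteen (h : QuadZ K N s) (hN : N % 4 = 2) {I J B : Ideal (𝓞 K)}
    (hI : I ≠ ⊥) (hJ : J ≠ ⊥) {α β : 𝓞 K} (hα : α ≠ 0) (hβ : β ≠ 0)
    (hIJ : span {α} * J = span {β} * (I * B)) (hB : Odd (absNorm B)) {Q : ℕ} (hQ : Odd Q)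
    (h1 : ¬ 8 ∣ Q * absNorm B + 1) (h2 : ¬ 8 ∣ Q * absNorm B + 1 + N) (n : ℕ) :
    rep2 I J 1 Q (16 * n) = rep2 I J 1 Q (4 * n) := by
  symm
  refine Nat.card_congr (Equiv.ofBijective
    (fun p => ⟨(dmul I 2 p.1.1, dmul J 2 p.1.2), ?_⟩) ⟨?_, ?_⟩)
  · obtain ⟨⟨x, y⟩, hxy⟩ := p
    simp only [dmul] at hxy ⊢
    rw [h.nI_nat_mul I 2 x.2, h.nI_nat_mul J 2 y.2]
    linarith
  · rintro ⟨⟨x, y⟩, hxy⟩ ⟨⟨x', y'⟩, hxy'⟩ heq
    simp only [Subtype.mk.injEq, Prod.mk.injEq] at heq ⊢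
    exact ⟨dmul_injective I two_ne_zero heq.1, dmul_injective J two_ne_zero heq.2⟩
  · rintro ⟨⟨x, y⟩, hxy⟩
    simp only at hxy
    have h16 : 16 ∣ nI I (x : 𝓞 K) + Q * nI J (y : 𝓞 K) := by
      rw [one_mul] at hxy; rw [hxy]; exact dvd_mul_right 16 n
    obtain ⟨h4, h5⟩ := h.four_dvd_of_sixteen hN hI hJ hα hβ hIJ hB hQ h1 h2 x.2 y.2 h16
    obtain ⟨z, hz, hzx⟩ := h.mem_of_dvd (four_dvd hN) hI x.2 h4
    obtain ⟨z', hz', hzx'⟩ := h.mem_of_dvd (four_dvd hN) hJ y.2 h5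
    refine ⟨⟨(⟨z, hz⟩, ⟨z', hz'⟩), ?_⟩, ?_⟩
    · simp only
      rw [← hzx, h.nI_nat_mul I 2 hz, ← hzx', h.nI_nat_mul J 2 hz'] at hxy
      linarith
    · apply Subtype.ext
      exact Prod.ext (Subtype.ext hzx) (Subtype.ext hzx')

/-- **(c2)** with the class group condition `[J] = [I] [B]`. -/
theorem QuadZ.rep2_sixteen_mk0 (h : QuadZ K N s) (hN : N % 4 = 2)
    (I J B : nonZeroDivisors (Ideal (𝓞 K)))
    (hIJ : ClassGroup.mk0 J = ClassGroup.mk0 I * ClassGroup.mk0 B)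
    (hB : Odd (absNorm (B : Ideal (𝓞 K)))) {Q : ℕ} (hQ : Odd Q)
    (h1 : ¬ 8 ∣ Q * absNorm (B : Ideal (𝓞 K)) + 1)
    (h2 : ¬ 8 ∣ Q * absNorm (B : Ideal (𝓞 K)) + 1 + N) (n : ℕ) :
    rep2 (I : Ideal (𝓞 K)) J 1 Q (16 * n) = rep2 (I : Ideal (𝓞 K)) J 1 Q (4 * n) := by
  rw [← map_mul, ClassGroup.mk0_eq_mk0_iff] at hIJ
  obtain ⟨α, β, hα, hβ, hαβ⟩ := hIJ
  exact h.rep2_sixteen hN (nonZeroDivisors.coe_ne_zero I) (nonZeroDivisors.coe_ne_zero J) hα hβ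
    (by simpa using hαβ) hB hQ h1 h2 n

end Count

end Fermat.Agent.H16.LT
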