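import Mathlib
import Fermat.Prelude.Def_ModularCurve_ModularUnit
import Fermat.Prelude.Thm_ModularForm_sturm_bound_Gamma0
import Fermat.Prelude.Thm_CongruenceSubgroup_one_mem_strictPeriods_Gamma0
import Fermat.Agent.H16Defs
import Fermat.Agent.H16Cosets
import Fermat.Agent.H16Eis

set_option autoImplicit false

namespace Fermat.Agent.H16

namespace Lower

open PowerSeries UpperHalfPlane ModularForm ModularFormClass MatrixGroups SlashInvariantForm
  Matrix.SpecialLinearGroup Filter Topology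

noncomputable section

open ConjAct Pointwise in
lemma conj_isArithmetic (Γ : Subgroup (GL (Fin 2) ℝ)) [Γ.IsArithmetic] (γ : SL(2, ℤ)) :
    Subgroup.IsArithmetic (toConjAct ((γ : SL(2, ℤ)) : GL (Fin 2) ℝ)⁻¹ • Γ) := by
  have := Subgroup.IsArithmetic.conj Γ ((γ⁻¹ : SL(2, ℤ)) : GL (Fin 2) ℚ)
  have h : ((γ : SL(2, ℤ)) : GL (Fin 2) ℝ)⁻¹ =
      (((γ⁻¹ : SL(2, ℤ)) : GL (Fin 2) ℚ).map (Rat.castHom ℝ)) := by
    rw [← map_inv, ← map_inv]
    generalize γ⁻¹ = δ
    ext i j
    simp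
  rw [h]
  exact this

/-- a modular form of arithmetic level tends to a limit at `i∞`, and so do its translates -/
lemma exists_tendsto_slash {Γ : Subgroup (GL (Fin 2) ℝ)} [Γ.IsArithmetic] {k : ℤ}
    (f : ModularForm Γ k) (γ : SL(2, ℤ)) :
    ∃ c : ℂ, Tendsto ((f : ℍ → ℂ) ∣[k] γ) atImInfty (𝓝 c) := by
  have := conj_isArithmetic Γ γ
  obtain ⟨C, hC, hO⟩ := ModularFormClass.exp_decay_sub_atImInfty'
    (ModularForm.translate f ((γ : SL(2, ℤ)) : GL (Fin 2) ℝ))
  refine ⟨_, tendsto_sub_nhds_zero_iff.mp (hO.trans_tendsto ?_)⟩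
  have h1 : Tendsto (fun x : ℝ => Real.exp (-C * x)) atTop (𝓝 0) := by
    have := Real.tendsto_exp_neg_atTop_nhds_zero.comp (tendsto_id.const_mul_atTop hC)
    refine this.congr fun x => ?_
    simp
  exact h1.comp (tendsto_comap)

lemma tendsto_vadd_atImInfty (x : ℝ) :
    Tendsto (fun z : ℍ => x +ᵥ z) atImInfty atImInfty := by
  rw [atImInfty, tendsto_comap_iff]
  have : (UpperHalfPlane.im ∘ fun z : ℍ => x +ᵥ z) = UpperHalfPlane.im := by
    funext z; simp
  rw [this]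
  exact tendsto_comap

lemma slash_T_pow_apply (F : ℍ → ℂ) (k : ℤ) (j : ℕ) (z : ℍ) :
    (F ∣[k] (ModularGroup.T ^ j : SL(2, ℤ))) z = F ((j : ℝ) +ᵥ z) := by
  rw [SL_slash_apply]
  have h1 : (ModularGroup.T ^ j : SL(2, ℤ)) • z = (j : ℝ) +ᵥ z := by
    have := UpperHalfPlane.modular_T_zpow_smul z (j : ℤ)
    simpa using this
  have h2 : denom (ModularGroup.T ^ j : SL(2, ℤ)) z = 1 := by
    rw [ModularGroup.denom_apply, T_pow_coe]
    simp
  rw [h1, h2]
  simp

lemma tendsto_slash_stj {F : ℍ → ℂ} {k : ℤ} {c : ℂ}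
    (h : Tendsto (F ∣[k] ModularGroup.S) atImInfty (𝓝 c)) (j : ℕ) :
    Tendsto (F ∣[k] (stj j)) atImInfty (𝓝 c) := by
  rw [stj, SlashAction.slash_mul]
  refine (h.comp (tendsto_vadd_atImInfty (j : ℝ))).congr fun z => ?_
  rw [slash_T_pow_apply]
  rfl

/-- the constant coefficient is the limit at `i∞` -/
lemma tendsto_qCoeff_zero {N : ℕ} [NeZero N] {k : ℤ}
    (f : ModularForm (CongruenceSubgroup.Gamma0 N) k) :
    Tendsto f atImInfty (𝓝 (qCoeff f 0)) := by
  have hΓ := CongruenceSubgroup.one_mem_strictPeriods_Gamma0 N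
  have hA := ModularFormClass.analyticAt_cuspFunction_zero f one_pos hΓ
  have h0 : qCoeff f 0 = cuspFunction 1 f 0 := by
    simp [qCoeff, qExpansion_coeff]
  rw [h0]
  refine (hA.continuousAt.tendsto.comp (qParam_tendsto_atImInfty one_pos)).congr fun τ => ?_
  exact SlashInvariantFormClass.eq_cuspFunction f τ hΓ one_ne_zero

lemma trace_eq_zero {p : ℕ} [hp : Fact p.Prime] (f : ModularForm (G0 p) 2) :
    (f : ℍ → ℂ) + ∑ j : Fin p, (f : ℍ → ℂ) ∣[(2 : ℤ)] (stj j) = 0 := by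
  rw [← coe_trace_eq]
  have h : ModularForm.trace 𝒮ℒ f = 0 := by
    have := ModularForm.levelOne_weight_two_rank_zero
    rw [rank_zero_iff_forall_zero] at this
    exact this _
  rw [h]
  rfl

/-- A weight two form of prime level with vanishing constant term at `∞` vanishes at all cusps. -/
lemma tendsto_slash_zero {p : ℕ} [hp : Fact p.Prime] (f : ModularForm (G0 p) 2)
    (h0 : qCoeff f 0 = 0) (γ : SL(2, ℤ)) :
    Tendsto ((f : ℍ → ℂ) ∣[(2 : ℤ)] γ) atImInfty (𝓝 0) := by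
  have hf0 : Tendsto (f : ℍ → ℂ) atImInfty (𝓝 0) := by
    have := tendsto_qCoeff_zero (N := p) f
    rwa [h0] at this
  obtain ⟨b, hb⟩ := exists_tendsto_slash f ModularGroup.S
  have hb0 : b = 0 := by
    have h1 : Tendsto ((f : ℍ → ℂ) + ∑ j : Fin p, (f : ℍ → ℂ) ∣[(2 : ℤ)] (stj j)) atImInfty
        (𝓝 (0 + ∑ j : Fin p, b)) := by
      refine hf0.add ?_
      have := tendsto_finsetSum (Finset.univ : Finset (Fin p))
        (fun j _ => tendsto_slash_stj hb (j : ℕ))
      refine this.congr fun z => ?_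
      rw [Finset.sum_apply]
    rw [trace_eq_zero] at h1
    have h1' : Tendsto (0 : ℍ → ℂ) atImInfty (𝓝 (0 : ℂ)) := tendsto_const_nhds
    have h2 := tendsto_nhds_unique h1 h1'
    have hp0 : (p : ℂ) ≠ 0 := by exact_mod_cast hp.out.ne_zero
    simpa [hp0] using h2
  subst hb0
  obtain ⟨x, hx⟩ := (cosetMap_bijective p).2 (QuotientGroup.mk (toSL γ⁻¹))
  have hinv : ∀ δ : SL(2, ℤ), δ ∈ CongruenceSubgroup.Gamma0 p →
      (f : ℍ → ℂ) ∣[(2 : ℤ)] δ = f := fun δ hδ =>
    f.slash_action_eq' _ ⟨δ, hδ, rfl⟩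
  rcases x with _ | j
  · change QuotientGroup.mk (toSL 1) = QuotientGroup.mk (toSL γ⁻¹) at hx
    rw [mk_toSL_eq, inv_one, one_mul] at hx
    rw [hinv γ (by simpa using inv_mem hx)]
    exact hf0
  · change QuotientGroup.mk (toSL (stj j)⁻¹) = QuotientGroup.mk (toSL γ⁻¹) at hx
    rw [mk_toSL_eq, inv_inv] at hx
    have hg : γ = (stj j * γ⁻¹)⁻¹ * stj j := by group
    rw [hg, SlashAction.slash_mul, hinv _ (inv_mem hx)]
    exact tendsto_slash_stj hb j

/-- A weight two form of prime level with vanishing constant term at `∞` is a cusp form. -/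
theorem exists_cuspForm {p : ℕ} [hp : Fact p.Prime]
    (f : ModularForm (CongruenceSubgroup.Gamma0 p) 2) (h0 : qCoeff f 0 = 0) :
    ∃ g : CuspForm (CongruenceSubgroup.Gamma0 p) 2, (g : ℍ → ℂ) = f := by
  refine ⟨{ f with zero_at_cusps' := ?_ }, rfl⟩
  intro c hc
  have hc' : IsCusp c 𝒮ℒ := by rwa [Subgroup.IsArithmetic.isCusp_iff_isCusp_SL2Z] at hc
  rw [OnePoint.isZeroAt_iff_forall_SL2Z hc']
  intro γ _
  exact tendsto_slash_zero f h0 γ

lemma qCoeff_add' {N : ℕ} {k : ℤ} (f g : ModularForm (CongruenceSubgroup.Gamma0 N) k) (n : ℕ) :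
    qCoeff ((f + g : ModularForm (CongruenceSubgroup.Gamma0 N) k) : ℍ → ℂ) n =
      qCoeff f n + qCoeff g n := by
  rw [qCoeff, FunLike.coe_add, ModularForm.qExpansion_add one_pos
    (CongruenceSubgroup.one_mem_strictPeriods_Gamma0 N) f g, map_add]
  rfl

lemma qCoeff_smul' {N : ℕ} {k : ℤ} (c : ℂ) (f : ModularForm (CongruenceSubgroup.Gamma0 N) k)
    (n : ℕ) :
    qCoeff ((c • f : ModularForm (CongruenceSubgroup.Gamma0 N) k) : ℍ → ℂ) n =
      c * qCoeff f n := by
  rw [qCoeff, FunLike.coe_smul, ModularForm.qExpansion_smul one_pos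
    (CongruenceSubgroup.one_mem_strictPeriods_Gamma0 N) c f, PowerSeries.coeff_smul]
  rfl

end

end Lower

open ModularFormClass Lower ModularCurve in
/-- Existence of the congruence from the Eisenstein series and a theta series. -/
theorem eisCong_of (p : ℕ) (hp : p.Prime)
    (hE : ∃ E : ModularForm (CongruenceSubgroup.Gamma0 p) 2,
      ModularFormClass.qCoeff E 0 = ((p : ℂ) - 1) / 24 ∧
      ∀ k : ℕ, 1 ≤ k → ModularFormClass.qCoeff E k = (sigmaP p k : ℂ))
    (hθ : ∃ θ : ModularForm (CongruenceSubgroup.Gamma0 p) 2,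
      ModularFormClass.qCoeff θ 0 = 1 ∧
      ∀ k : ℕ, 1 ≤ k → ∃ m : ℤ, ModularFormClass.qCoeff θ k = 2 * (m : ℂ)) :
    EisCong p (eisensteinNumerator p) := by
  have : Fact p.Prime := ⟨hp⟩
  obtain ⟨E, hE0, hEk⟩ := hE
  obtain ⟨θ, hθ0, hθk⟩ := hθ
  set n := eisensteinNumerator p with hn
  set g := Nat.gcd (p - 1) 12 with hg
  have hng : n * g = p - 1 := Nat.div_mul_cancel (Nat.gcd_dvd_left _ _)
  have hbez := Nat.gcd_eq_gcd_ab (p - 1) 12
  rw [← hg] at hbez
  set v := Nat.gcdA (p - 1) 12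
  set u := Nat.gcdB (p - 1) 12
  have hp1 : ((p - 1 : ℕ) : ℂ) = (p : ℂ) - 1 := by
    rw [Nat.cast_sub hp.one_lt.le]; simp
  have hbezC : (g : ℂ) = ((p : ℂ) - 1) * v + 12 * u := by
    rw [← hp1]
    exact_mod_cast hbez
  have hngC : (n : ℂ) * g = (p : ℂ) - 1 := by
    rw [← hp1, ← hng]
    push_cast
    rfl
  let F : ModularForm (CongruenceSubgroup.Gamma0 p) 2 := ((u : ℂ) / 2) • θ + (v : ℂ) • E
  have hF : ∀ k, qCoeff F k = (u : ℂ) / 2 * qCoeff θ k + v * qCoeff E k := fun k => by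
    rw [qCoeff_add', qCoeff_smul', qCoeff_smul']
  let f : ModularForm (CongruenceSubgroup.Gamma0 p) 2 := E + (-(n : ℂ)) • F
  have hf : ∀ k, qCoeff f k = qCoeff E k + -n * ((u : ℂ) / 2 * qCoeff θ k + v * qCoeff E k) :=
    fun k => by rw [qCoeff_add', qCoeff_smul', hF]
  have hf0 : qCoeff f 0 = 0 := by
    rw [hf, hE0, hθ0]
    linear_combination (-(1 / 24 : ℂ)) * hngC + (n / 24 : ℂ) * hbezC
  obtain ⟨c, hc⟩ := exists_cuspForm f hf0
  refine ⟨c, fun k => ?_⟩
  rw [hc]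
  rcases Nat.eq_zero_or_pos k with rfl | hk
  · exact ⟨0, by rw [hf0]; simp, fun h => absurd h (by norm_num)⟩
  · obtain ⟨m, hm⟩ := hθk k hk
    refine ⟨sigmaP p k - n * (u * m + v * sigmaP p k), ?_, fun _ => ?_⟩
    · rw [hf, hEk k hk, hm]
      push_cast
      ring
    · exact ⟨-(u * m + v * sigmaP p k), by ring⟩

open ModularCurve in
/-- `EisCong p (eisensteinNumerator p)`, from the existence of a suitable theta series. -/
theorem eisCong_eisensteinNumerator_of_theta (p : ℕ) (hp : p.Prime)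
    (hθ : ∃ θ : ModularForm (CongruenceSubgroup.Gamma0 p) 2,
      ModularFormClass.qCoeff θ 0 = 1 ∧
      ∀ k : ℕ, 1 ≤ k → ∃ m : ℤ, ModularFormClass.qCoeff θ k = 2 * (m : ℂ)) :
    EisCong p (eisensteinNumerator p) :=
  eisCong_of p hp (exists_eisenstein p hp) hθ

open ModularFormClass Lower UpperHalfPlane MatrixGroups in
/-- For `p = 2, 3` there is no non-trivial congruence. -/
theorem eisCong_small {p : ℕ} (hp : p = 2 ∨ p = 3) (m : ℕ) : EisCong p m ↔ m ∣ 1 := by
  have : Fact p.Prime := ⟨by rcases hp with rfl | rfl <;> norm_num⟩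
  have hidx : (CongruenceSubgroup.Gamma0 p).index = p + 1 := by
    have h1 : (G0 p).relIndex 𝒮ℒ = (CongruenceSubgroup.Gamma0 p).index := by
      rw [MonoidHom.range_eq_map, ← Subgroup.relIndex_comap, Subgroup.relIndex_top_right]
      congr 1
      exact Subgroup.comap_map_eq_self_of_injective Matrix.SpecialLinearGroup.mapGL_injective _
    rw [← h1]
    exact natCard_quotient (p := p)
  have hz : ∀ f : CuspForm (CongruenceSubgroup.Gamma0 p) 2, ∀ k, qCoeff f k = 0 := by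
    intro f k
    have hc0 : qCoeff f 0 = 0 := CuspFormClass.qExpansion_coeff_zero f one_pos
      (CongruenceSubgroup.one_mem_strictPeriods_Gamma0 p)
    have hne : NeZero p := ⟨this.out.ne_zero⟩
    have h0 : (ModularFormClass.modularForm f :
        ModularForm (CongruenceSubgroup.Gamma0 p) 2) = 0 := by
      refine ModularForm.sturm_bound_Gamma0 p _ fun n hn => ?_
      have hn0 : n = 0 := by
        rw [hidx] at hn
        have : ((2 : ℤ) * ((p + 1 : ℕ) : ℤ)).toNat / 12 = 0 := by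
          rcases hp with rfl | rfl <;> rfl
        omega
      rw [hn0]
      exact hc0
    have h1 : (f : ℍ → ℂ) = 0 := congrArg (fun g : ModularForm _ 2 => (g : ℍ → ℂ)) h0
    rw [h1, qCoeff, qExpansion_zero, map_zero]
  have hs : sigmaP p 1 = 1 := by
    rcases hp with rfl | rfl <;> decide
  constructor
  · rintro ⟨f, hf⟩
    obtain ⟨a, ha, hm⟩ := hf 1
    rw [hz] at ha
    have ha0 : a = 0 := by exact_mod_cast ha.symm
    have := hm le_rfl
    rw [ha0, hs] at this
    have h2 : (m : ℤ) ∣ ((1 : ℕ) : ℤ) := by simpa using this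
    exact_mod_cast h2
  · intro h
    obtain rfl : m = 1 := Nat.dvd_one.mp h
    exact ⟨0, fun k => ⟨0, by rw [hz]; simp, fun _ => by simp⟩⟩

end Fermat.Agent.H16
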