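import Mathlib

set_option autoImplicit false

/-!
# Completing the square for positive definite real matrices
-/

namespace Fermat.Agent.H45

/-- the quadratic form of a matrix -/
def qf {n : ℕ} (A : Matrix (Fin n) (Fin n) ℝ) (x : Fin n → ℝ) : ℝ :=
  dotProduct x (Matrix.mulVec A x)

lemma qf_expand {n : ℕ} (A : Matrix (Fin n) (Fin n) ℝ) (x : Fin n → ℝ) :
    qf A x = ∑ i, ∑ j, x i * A i j * x j := by
  simp only [qf, dotProduct, Matrix.mulVec, Finset.mul_sum, mul_assoc]

lemma schur_mulVec {n : ℕ} (A : Matrix (Fin (n + 1)) (Fin (n + 1)) ℝ) (hsym : ∀ i j, A i j = A j i)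
    (a : ℝ) (ha : a = A 0 0) (ha0 : a ≠ 0) (β : Fin n → ℝ) (hβ : β = fun j => A 0 j.succ / a)
    (S : Matrix (Fin n) (Fin n) ℝ)
    (hS : S = Matrix.of fun i j => A i.succ j.succ - A i.succ 0 * A 0 j.succ / a)
    (v : Fin (n + 1) → ℝ) :
    Matrix.mulVec A v = Fin.cons (a * (v 0 + dotProduct β (Fin.tail v)))
      ((a * (v 0 + dotProduct β (Fin.tail v))) • β + Matrix.mulVec S (Fin.tail v)) := by
  have hdot : a * dotProduct β (Fin.tail v) = ∑ j, A 0 (Fin.succ j) * v j.succ := by
    rw [dotProduct, Finset.mul_sum]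
    refine Finset.sum_congr rfl fun j _ => ?_
    rw [hβ, Fin.tail]
    field_simp
  funext i
  refine Fin.cases ?_ (fun i => ?_) i
  · rw [Fin.cons_zero, Matrix.mulVec, dotProduct, Fin.sum_univ_succ, mul_add, hdot, ha]
  · rw [Fin.cons_succ, Matrix.mulVec, dotProduct, Fin.sum_univ_succ, Pi.add_apply, Pi.smul_apply,
      smul_eq_mul, mul_add, hdot, Matrix.mulVec, dotProduct]
    have h1 : ∀ j, S i j * Fin.tail v j =
        A i.succ j.succ * v j.succ - A i.succ 0 / a * (A 0 j.succ * v j.succ) := by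
      intro j
      rw [hS, Matrix.of_apply, Fin.tail]
      ring
    rw [Finset.sum_congr rfl fun j _ => h1 j, Finset.sum_sub_distrib, ← Finset.mul_sum, hβ]
    simp only
    rw [hsym i.succ 0]
    field_simp
    ring

theorem schur_decomp {n : ℕ} (A : Matrix (Fin (n + 1)) (Fin (n + 1)) ℝ) (hA : A.PosDef) :
    ∃ (a : ℝ) (β : Fin n → ℝ) (S : Matrix (Fin n) (Fin n) ℝ), 0 < a ∧ S.PosDef ∧
      (∀ x : Fin (n + 1) → ℝ, qf A x = a * (x 0 + dotProduct β (Fin.tail x)) ^ 2 +
        qf S (Fin.tail x)) ∧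
      A.det = a * S.det ∧
      (∀ u : Fin (n + 1) → ℝ, qf A⁻¹ u = (u 0) ^ 2 / a + qf S⁻¹ (Fin.tail u - u 0 • β)) := by
  have hsym : ∀ i j, A i j = A j i := fun i j => by
    have := hA.isHermitian.apply j i
    simpa using this
  have ha : 0 < A 0 0 := hA.diag_pos
  have ha0 : A 0 0 ≠ 0 := ha.ne'
  set a := A 0 0 with ha'
  let β : Fin n → ℝ := fun j => A 0 j.succ / a
  let S : Matrix (Fin n) (Fin n) ℝ :=
    Matrix.of fun i j => A i.succ j.succ - A i.succ 0 * A 0 j.succ / a
  have hmv := schur_mulVec A hsym a ha' ha0 β rfl S rfl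
  have hq : ∀ x : Fin (n + 1) → ℝ, qf A x = a * (x 0 + dotProduct β (Fin.tail x)) ^ 2 +
        qf S (Fin.tail x) := by
    intro x
    rw [qf, hmv x, dotProduct, Fin.sum_univ_succ, Fin.cons_zero]
    simp only [Fin.cons_succ, Pi.add_apply, Pi.smul_apply, smul_eq_mul, mul_add,
      Finset.sum_add_distrib]
    have h1 : ∀ c : ℝ, ∑ i : Fin n, x i.succ * (c * β i) = c * dotProduct β (Fin.tail x) := by
      intro c
      rw [dotProduct, Finset.mul_sum]
      exact Finset.sum_congr rfl fun i _ => by rw [Fin.tail]; ring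
    have h2 : ∑ i : Fin n, x i.succ * (Matrix.mulVec S (Fin.tail x)) i = qf S (Fin.tail x) := rfl
    rw [h2]
    have h3 : ∀ i : Fin n, x i.succ * (a * x 0 * β i) + x i.succ * (a * dotProduct β (Fin.tail x) * β i)
        = x i.succ * ((a * x 0 + a * dotProduct β (Fin.tail x)) * β i) := fun i => by ring
    have h4 : ∑ i : Fin n, x i.succ * ((a * x 0 + a * dotProduct β (Fin.tail x)) * β i) =
        (a * x 0 + a * dotProduct β (Fin.tail x)) * dotProduct β (Fin.tail x) := h1 _
    rw [h4]
    ring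
  have hSsym : S.IsHermitian := by
    ext i j
    simp only [Matrix.conjTranspose_apply, star_trivial, S, Matrix.of_apply]
    rw [hsym j.succ i.succ, hsym j.succ 0, hsym 0 i.succ]
    ring
  have hS : S.PosDef := by
    refine Matrix.PosDef.of_dotProduct_mulVec_pos hSsym fun x hx => ?_
    have h1 := hq (Fin.cons (-(dotProduct β x)) x)
    rw [Fin.cons_zero, Fin.tail_cons, neg_add_cancel, zero_pow two_ne_zero, mul_zero,
      zero_add] at h1
    rw [star_trivial]
    change 0 < qf S x
    rw [← h1]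
    have h2 : (Fin.cons (-(dotProduct β x)) x : Fin (n + 1) → ℝ) ≠ 0 := by
      intro h
      apply hx
      have := congrArg Fin.tail h
      rw [Fin.tail_cons] at this
      rw [this]; rfl
    have h3 := hA.dotProduct_mulVec_pos h2
    rwa [star_trivial] at h3
  refine ⟨a, β, S, ha, hS, hq, ?_, ?_⟩
  · -- determinant
    let B : Matrix (Fin (n + 1)) (Fin (n + 1)) ℝ :=
      Matrix.of (Fin.cons (A 0) (fun i => Fin.cons 0 (S i)))
    have hB : A.det = B.det := by
      refine Matrix.det_eq_of_forall_row_eq_smul_add_const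
        (Fin.cons 0 fun i => A i.succ 0 / a) 0 (Fin.cons_zero _ _) ?_
      intro i j
      refine Fin.cases ?_ (fun i => ?_) i
      · simp [B]
      · refine Fin.cases ?_ (fun j => ?_) j
        · simp only [B, Matrix.of_apply, Fin.cons_succ, Fin.cons_zero]
          rw [← ha']
          field_simp
          ring
        · simp only [B, S, Matrix.of_apply, Fin.cons_succ, Fin.cons_zero]
          ring
    rw [hB, Matrix.det_succ_column_zero, Fin.sum_univ_succ]
    have h1 : ∀ i : Fin n, (-1 : ℝ) ^ ((i.succ : Fin (n + 1)) : ℕ) * B i.succ 0 *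
        (B.submatrix i.succ.succAbove Fin.succ).det = 0 := by
      intro i
      simp [B]
    rw [Finset.sum_congr rfl fun i _ => h1 i, Finset.sum_const_zero, add_zero]
    have h2 : B.submatrix (Fin.succAbove 0) Fin.succ = S := by
      ext i j
      simp [B]
    rw [h2]
    simp [B, a]
  · -- inverse form
    intro u
    have hdet : IsUnit A.det := (Matrix.isUnit_iff_isUnit_det A).mp hA.isUnit
    have hdetS : IsUnit S.det := (Matrix.isUnit_iff_isUnit_det S).mp hS.isUnit
    obtain ⟨v, rfl⟩ : ∃ v, Matrix.mulVec A v = u := ⟨Matrix.mulVec A⁻¹ u, by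
      rw [Matrix.mulVec_mulVec, Matrix.mul_nonsing_inv _ hdet, Matrix.one_mulVec]⟩
    have h1 : qf A⁻¹ (Matrix.mulVec A v) = qf A v := by
      rw [qf, Matrix.mulVec_mulVec, Matrix.nonsing_inv_mul _ hdet, Matrix.one_mulVec, qf,
        dotProduct_comm]
    have h2 : ∀ w, qf S⁻¹ (Matrix.mulVec S w) = qf S w := by
      intro w
      rw [qf, Matrix.mulVec_mulVec, Matrix.nonsing_inv_mul _ hdetS, Matrix.one_mulVec, qf,
        dotProduct_comm]
    rw [h1, hq v, hmv v, Fin.cons_zero, Fin.tail_cons, add_sub_cancel_left, h2]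
    congr 1
    field_simp

end Fermat.Agent.H45
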