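import Mathlib
import Fermat.Agent.H45Poisson1

set_option autoImplicit false

/-!
# Poisson summation for Gaussians in `n` variables
-/

namespace Fermat.Agent.H45

open Complex Real

lemma ofReal_mul_cpow_half (a : ℝ) (ha : 0 < a) (z : ℂ) (hz : z ≠ 0) :
    ((a : ℂ) * z) ^ (1 / 2 : ℂ) = (√a : ℝ) * z ^ (1 / 2 : ℂ) := by
  rw [cpow_def_of_ne_zero (mul_ne_zero (ofReal_ne_zero.mpr ha.ne') hz),
    cpow_def_of_ne_zero hz, Complex.log_ofReal_mul ha hz, add_mul, Complex.exp_add]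
  congr 1
  rw [Real.sqrt_eq_rpow, Real.rpow_def_of_pos ha, Complex.ofReal_exp]
  push_cast
  rfl

lemma gaussian_one_dim (a : ℝ) (ha : 0 < a) (z : ℂ) (hz : 0 < z.im) (t w : ℝ) :
    ∑' x : ℤ, cexp (π * I * z * ((a * ((x : ℝ) + t) ^ 2 : ℝ) : ℂ) +
      2 * π * I * ((w * ((x : ℝ) + t) : ℝ) : ℂ)) =
    1 / (-I * z) ^ (1 / 2 : ℂ) * (1 / (√a : ℝ)) *
      ∑' y : ℤ, cexp (-π * I / z * ((((y : ℝ) - w) ^ 2 / a : ℝ) : ℂ) +
        2 * π * I * (((y : ℝ) * t : ℝ) : ℂ)) := by
  have hz0 : z ≠ 0 := by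
    rintro rfl
    simp at hz
  have ha0 : (a : ℂ) ≠ 0 := ofReal_ne_zero.mpr ha.ne'
  have h1 : ∀ x : ℤ, cexp (π * I * z * ((a * ((x : ℝ) + t) ^ 2 : ℝ) : ℂ) +
      2 * π * I * ((w * ((x : ℝ) + t) : ℝ) : ℂ)) =
      cexp (π * I * z * (a * t ^ 2) + 2 * π * I * (w * t)) *
        jacobiTheta₂_term x (z * a * t + w) (a * z) := by
    intro x
    rw [jacobiTheta₂_term, ← Complex.exp_add]
    congr 1
    push_cast
    ring
  have h2 : ∀ y : ℤ, cexp (-π * I / z * ((((y : ℝ) - w) ^ 2 / a : ℝ) : ℂ) +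
        2 * π * I * (((y : ℝ) * t : ℝ) : ℂ)) =
      cexp (-π * I * (w ^ 2 / (a * z))) *
        jacobiTheta₂_term y ((z * a * t + w) / (a * z)) (-1 / (a * z)) := by
    intro y
    rw [jacobiTheta₂_term, ← Complex.exp_add]
    congr 1
    push_cast
    field_simp
    ring
  simp_rw [h1, h2]
  rw [tsum_mul_left, tsum_mul_left]
  change _ * jacobiTheta₂ _ _ = _ * (_ * jacobiTheta₂ _ _)
  rw [jacobiTheta₂_functional_equation, show -I * (a * z) = a * (-I * z) by ring,
    ofReal_mul_cpow_half a ha _ (mul_ne_zero (neg_ne_zero.mpr I_ne_zero) hz0)]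
  have h3 : cexp (π * I * z * (a * t ^ 2) + 2 * π * I * (w * t)) *
      cexp (-π * I * (z * a * t + w) ^ 2 / (a * z)) = cexp (-π * I * (w ^ 2 / (a * z))) := by
    rw [← Complex.exp_add]
    congr 1
    field_simp
    ring
  rw [← h3, one_div_mul_one_div, mul_comm ((√a : ℝ) : ℂ)]
  ring

/-- Euclidean part of the exponent: real part -/
lemma norm_cexp_gauss (z : ℂ) (r s : ℝ) :
    ‖cexp (π * I * z * (r : ℂ) + 2 * π * I * (s : ℂ))‖ = Real.exp (-π * z.im * r) := by
  rw [Complex.norm_exp]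
  congr 1
  simp

lemma norm_cexp_gauss' (z : ℂ) (r s : ℝ) :
    ‖cexp (-π * I / z * (r : ℂ) + 2 * π * I * (s : ℂ))‖ = Real.exp (-π * (-1 / z).im * r) := by
  have h : -π * I / z * (r : ℂ) = π * I * (-1 / z) * (r : ℂ) := by ring
  rw [h, norm_cexp_gauss]

lemma im_neg_one_div_pos {z : ℂ} (hz : 0 < z.im) : 0 < (-1 / z).im := by
  have hz0 : z ≠ 0 := by
    rintro rfl
    simp at hz
  rw [neg_div, one_div, neg_im, inv_im, neg_div, neg_neg]
  exact div_pos hz (normSq_pos.mpr hz0)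

/-- summability of a shifted Gaussian over `ℤ` -/
lemma summable_exp_neg_sq (c : ℝ) (hc : 0 < c) (t : ℝ) :
    Summable fun x : ℤ => Real.exp (-π * c * ((x : ℝ) + t) ^ 2) := by
  have h := (summable_jacobiTheta₂_term_iff (c * t * I) (c * I)).mpr (by simpa using hc)
  have h2 := (h.norm.mul_left (Real.exp (-π * c * t ^ 2)))
  refine h2.congr fun x => ?_
  rw [norm_jacobiTheta₂_term, ← Real.exp_add]
  congr 1
  simp
  ring

/-- uniform bound for shifted Gaussians over `ℤ` -/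
lemma exists_bound_tsum_exp_neg_sq (c : ℝ) (hc : 0 < c) :
    ∃ M : ℝ, ∀ t : ℝ, ∑' x : ℤ, Real.exp (-π * c * ((x : ℝ) + t) ^ 2) ≤ M := by
  refine ⟨‖(1 / (-I * I) ^ (1 / 2 : ℂ) * (1 / (√c : ℝ)) : ℂ)‖ *
    ∑' y : ℤ, Real.exp (-π * (1 / c) * ((y : ℝ) + 0) ^ 2), fun t => ?_⟩
  have h := gaussian_one_dim c hc I (by simp) t 0
  have h1 : ∑' x : ℤ, cexp (π * I * I * ((c * ((x : ℝ) + t) ^ 2 : ℝ) : ℂ) +
      2 * π * I * ((0 * ((x : ℝ) + t) : ℝ) : ℂ)) =
      ((∑' x : ℤ, Real.exp (-π * c * ((x : ℝ) + t) ^ 2) : ℝ) : ℂ) := by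
    rw [Complex.ofReal_tsum]
    refine tsum_congr fun x => ?_
    rw [Complex.ofReal_exp]
    congr 1
    push_cast
    rw [mul_assoc (π : ℂ) I I, I_mul_I]
    ring
  rw [h1] at h
  have h2 : ∑' x : ℤ, Real.exp (-π * c * ((x : ℝ) + t) ^ 2) ≤
      ‖((∑' x : ℤ, Real.exp (-π * c * ((x : ℝ) + t) ^ 2) : ℝ) : ℂ)‖ := by
    rw [Complex.norm_real]
    exact Real.le_norm_self _
  refine h2.trans ?_
  rw [h, norm_mul]
  refine mul_le_mul_of_nonneg_left ?_ (norm_nonneg _)
  have h3 : ∀ y : ℤ, ‖cexp (-π * I / I * ((((y : ℝ) - 0) ^ 2 / c : ℝ) : ℂ) +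
        2 * π * I * (((y : ℝ) * t : ℝ) : ℂ))‖ = Real.exp (-π * (1 / c) * ((y : ℝ) + 0) ^ 2) := by
    intro y
    rw [norm_cexp_gauss']
    congr 1
    have : (-1 / I : ℂ).im = 1 := by simp
    rw [this]
    ring
  have h4 := summable_exp_neg_sq (1 / c) (by positivity) 0
  refine (norm_tsum_le_tsum_norm (h4.congr fun y => (h3 y).symm)).trans ?_
  rw [tsum_congr h3]

/-- splitting off the first coordinate -/
def consE (n : ℕ) : (Fin n → ℤ) × ℤ ≃ (Fin (n + 1) → ℤ) where
  toFun x := Fin.cons x.2 x.1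
  invFun x := (Fin.tail x, x 0)
  left_inv x := by simp
  right_inv x := by simp

/-- the shifted real point -/
def sh {n : ℕ} (h : Fin n → ℝ) (x : Fin n → ℤ) : Fin n → ℝ := fun i => (x i : ℝ) + h i

lemma sh_consE_zero {n : ℕ} (h : Fin (n + 1) → ℝ) (x : (Fin n → ℤ) × ℤ) :
    sh h (consE n x) 0 = (x.2 : ℝ) + h 0 := rfl

lemma tail_sh_consE {n : ℕ} (h : Fin (n + 1) → ℝ) (x : (Fin n → ℤ) × ℤ) :
    Fin.tail (sh h (consE n x)) = sh (Fin.tail h) x.1 := rfl

theorem summable_gauss : ∀ (n : ℕ) (A : Matrix (Fin n) (Fin n) ℝ), A.PosDef →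
    ∀ (c : ℝ), 0 < c → ∀ h : Fin n → ℝ,
    Summable fun x : Fin n → ℤ => Real.exp (-π * c * qf A (sh h x)) := by
  intro n
  induction n with
  | zero =>
    intro A hA c hc h
    exact Summable.of_finite
  | succ n ih =>
    intro A hA c hc h
    obtain ⟨a, β, S, ha, hS, hq, -, -⟩ := schur_decomp A hA
    rw [← (consE n).summable_iff]
    have h1 : ∀ x : (Fin n → ℤ) × ℤ, Real.exp (-π * c * qf A (sh h (consE n x))) =
        Real.exp (-π * c * qf S (sh (Fin.tail h) x.1)) *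
          Real.exp (-π * (c * a) *
            ((x.2 : ℝ) + (h 0 + dotProduct β (sh (Fin.tail h) x.1))) ^ 2) := by
      intro x
      rw [hq, sh_consE_zero, tail_sh_consE, ← Real.exp_add]
      congr 1
      ring
    have h1' : ((fun x : Fin (n + 1) → ℤ => Real.exp (-π * c * qf A (sh h x))) ∘ ⇑(consE n)) =
      fun x : (Fin n → ℤ) × ℤ => Real.exp (-π * c * qf S (sh (Fin.tail h) x.1)) *
          Real.exp (-π * (c * a) *
            ((x.2 : ℝ) + (h 0 + dotProduct β (sh (Fin.tail h) x.1))) ^ 2) := funext h1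
    rw [h1']
    have hca : 0 < c * a := mul_pos hc ha
    obtain ⟨M, hM⟩ := exists_bound_tsum_exp_neg_sq (c * a) hca
    rw [summable_prod_of_nonneg (fun x => by positivity)]
    constructor
    · intro x
      exact (summable_exp_neg_sq (c * a) hca
        (h 0 + dotProduct β (sh (Fin.tail h) x))).mul_left
          (Real.exp (-π * c * qf S (sh (Fin.tail h) x)))
    · refine Summable.of_nonneg_of_le (fun x => tsum_nonneg fun y => by positivity) (fun x => ?_)
        ((ih S hS c hc (Fin.tail h)).mul_right M)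
      dsimp only
      rw [tsum_mul_left]
      exact mul_le_mul_of_nonneg_left (hM _) (Real.exp_pos _).le


/-- the terms of the theta series with characteristics -/
noncomputable def gt {n : ℕ} (A : Matrix (Fin n) (Fin n) ℝ) (h w : Fin n → ℝ) (z : ℂ)
    (x : Fin n → ℤ) : ℂ :=
  cexp (π * I * z * ((qf A (sh h x) : ℝ) : ℂ) + 2 * π * I * ((dotProduct w (sh h x) : ℝ) : ℂ))

/-- the terms of the dual theta series -/
noncomputable def gt' {n : ℕ} (A : Matrix (Fin n) (Fin n) ℝ) (h w : Fin n → ℝ) (z : ℂ)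
    (y : Fin n → ℤ) : ℂ :=
  cexp (-π * I / z * ((qf A⁻¹ (fun i => (y i : ℝ) - w i) : ℝ) : ℂ) +
    2 * π * I * ((dotProduct (fun i => (y i : ℝ)) h : ℝ) : ℂ))

lemma norm_gt {n : ℕ} (A : Matrix (Fin n) (Fin n) ℝ) (h w : Fin n → ℝ) (z : ℂ)
    (x : Fin n → ℤ) : ‖gt A h w z x‖ = Real.exp (-π * z.im * qf A (sh h x)) :=
  norm_cexp_gauss _ _ _

lemma norm_gt' {n : ℕ} (A : Matrix (Fin n) (Fin n) ℝ) (h w : Fin n → ℝ) (z : ℂ)
    (y : Fin n → ℤ) : ‖gt' A h w z y‖ =
      Real.exp (-π * (-1 / z).im * qf A⁻¹ (sh (fun i => - w i) y)) :=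
  norm_cexp_gauss' _ _ _

lemma summable_gt {n : ℕ} (A : Matrix (Fin n) (Fin n) ℝ) (hA : A.PosDef) (h w : Fin n → ℝ)
    (z : ℂ) (hz : 0 < z.im) : Summable (gt A h w z) := by
  refine Summable.of_norm ?_
  exact (summable_gauss n A hA z.im hz h).congr fun x => (norm_gt A h w z x).symm

lemma summable_gt' {n : ℕ} (A : Matrix (Fin n) (Fin n) ℝ) (hA : A.PosDef) (h w : Fin n → ℝ)
    (z : ℂ) (hz : 0 < z.im) : Summable (gt' A h w z) := by
  refine Summable.of_norm ?_
  exact (summable_gauss n A⁻¹ hA.inv _ (im_neg_one_div_pos hz) _).congr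
    fun x => (norm_gt' A h w z x).symm

theorem poisson_gt (z : ℂ) (hz : 0 < z.im) : ∀ (n : ℕ) (A : Matrix (Fin n) (Fin n) ℝ), A.PosDef →
    ∀ h w : Fin n → ℝ, ∑' x, gt A h w z x =
      (1 / (-I * z) ^ (1 / 2 : ℂ)) ^ n * (1 / (√A.det : ℝ)) * ∑' y, gt' A h w z y := by
  intro n
  induction n with
  | zero =>
    intro A hA h w
    rw [tsum_eq_single default (fun x hx => absurd (Subsingleton.elim x default) hx),
      tsum_eq_single default (fun x hx => absurd (Subsingleton.elim x default) hx)]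
    simp [gt, gt', qf, dotProduct]
  | succ n ih =>
    intro A hA h w
    obtain ⟨a, β, S, ha, hS, hq, hdet, hq'⟩ := schur_decomp A hA
    set κ : ℂ := 1 / (-I * z) ^ (1 / 2 : ℂ) with hκ
    -- first coordinate split
    rw [← (consE n).tsum_eq (gt A h w z), ← (consE n).tsum_eq (gt' A h w z)]
    have hs1 : Summable fun x : (Fin n → ℤ) × ℤ => gt A h w z (consE n x) :=
      ((consE n).summable_iff (f := gt A h w z)).mpr (summable_gt A hA h w z hz)
    have hs2 : Summable fun x : (Fin n → ℤ) × ℤ => gt' A h w z (consE n x) :=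
      ((consE n).summable_iff (f := gt' A h w z)).mpr (summable_gt' A hA h w z hz)
    -- the mixed terms
    let E : ℤ → ℂ := fun y => cexp (-π * I / z * ((((y : ℝ) - w 0) ^ 2 / a : ℝ) : ℂ) +
        2 * π * I * (((y : ℝ) * h 0 : ℝ) : ℂ))
    let W : ℤ → (Fin n → ℝ) := fun y => Fin.tail w + ((y : ℝ) - w 0) • β
    let G : (Fin n → ℤ) × ℤ → ℂ := fun x => gt S (Fin.tail h) (W x.2) z x.1 * E x.2
    have hGs : Summable G := by
      refine Summable.of_norm ?_
      have h1 := summable_gauss n S hS z.im hz (Fin.tail h)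
      have him := im_neg_one_div_pos hz
      have h2 := summable_exp_neg_sq ((-1 / z).im / a) (div_pos him ha) (-w 0)
      refine (h1.mul_of_nonneg h2 (fun x => (Real.exp_pos _).le)
        (fun x => (Real.exp_pos _).le)).congr fun x => ?_
      show _ = ‖gt S (Fin.tail h) (W x.2) z x.1 * E x.2‖
      rw [norm_mul, norm_gt, norm_cexp_gauss']
      congr 2
      rw [← sub_eq_add_neg]
      ring
    have hF1 : ∀ x' : Fin n → ℤ, ∑' x0 : ℤ, gt A h w z (consE n (x', x0)) =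
        κ * (1 / (√a : ℝ)) * ∑' y0 : ℤ, G (x', y0) := by
      intro x'
      have h1 := gaussian_one_dim a ha z hz (h 0 + dotProduct β (sh (Fin.tail h) x')) (w 0)
      rw [← hκ] at h1
      set R : ℂ := cexp (π * I * z * ((qf S (sh (Fin.tail h) x') : ℝ) : ℂ) +
        2 * π * I * ((dotProduct (Fin.tail w - w 0 • β) (sh (Fin.tail h) x') : ℝ) : ℂ)) with hR
      have h2 : ∀ x0 : ℤ, gt A h w z (consE n (x', x0)) = R *
          cexp (π * I * z * ((a * ((x0 : ℝ) + (h 0 + dotProduct β (sh (Fin.tail h) x'))) ^ 2 : ℝ)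
            : ℂ) + 2 * π * I *
              ((w 0 * ((x0 : ℝ) + (h 0 + dotProduct β (sh (Fin.tail h) x'))) : ℝ) : ℂ)) := by
        intro x0
        rw [gt, hR, ← Complex.exp_add, hq, tail_sh_consE, sh_consE_zero]
        have h3 : dotProduct w (sh h (consE n (x', x0))) =
            w 0 * ((x0 : ℝ) + h 0) + dotProduct (Fin.tail w) (sh (Fin.tail h) x') := by
          rw [dotProduct, Fin.sum_univ_succ]
          rfl
        rw [h3, sub_dotProduct, smul_dotProduct, smul_eq_mul]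
        congr 1
        push_cast
        ring
      have h4 : ∀ y0 : ℤ, G (x', y0) = R *
          cexp (-π * I / z * ((((y0 : ℝ) - w 0) ^ 2 / a : ℝ) : ℂ) +
            2 * π * I * (((y0 : ℝ) * (h 0 + dotProduct β (sh (Fin.tail h) x')) : ℝ) : ℂ)) := by
        intro y0
        show gt S (Fin.tail h) (W y0) z x' * E y0 = _
        rw [gt, hR, ← Complex.exp_add, ← Complex.exp_add]
        simp only [W]
        rw [add_dotProduct, smul_dotProduct, smul_eq_mul, sub_dotProduct, smul_dotProduct,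
          smul_eq_mul]
        congr 1
        push_cast
        ring
      rw [tsum_congr h2, tsum_congr h4, tsum_mul_left, tsum_mul_left, h1]
      ring
    have hF3 : ∀ y0 : ℤ, ∑' x' : Fin n → ℤ, G (x', y0) =
        κ ^ n * (1 / (√S.det : ℝ)) * ∑' y' : Fin n → ℤ, gt' A h w z (consE n (y', y0)) := by
      intro y0
      show ∑' x' : Fin n → ℤ, gt S (Fin.tail h) (W y0) z x' * E y0 = _
      rw [tsum_mul_right, ih S hS, mul_assoc, ← tsum_mul_right]
      congr 1
      refine tsum_congr fun y' => ?_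
      show gt' S (Fin.tail h) (W y0) z y' * E y0 = gt' A h w z (consE n (y', y0))
      rw [gt', gt', ← Complex.exp_add, hq']
      have h1 : Fin.tail (fun i => ((consE n (y', y0) i : ℤ) : ℝ) - w i) -
          ((consE n (y', y0) 0 : ℤ) - w 0 : ℝ) • β = fun i => (y' i : ℝ) - W y0 i := by
        funext i
        simp only [Fin.tail, consE, Equiv.coe_fn_mk, Fin.cons_succ, Fin.cons_zero, Pi.sub_apply,
          Pi.smul_apply, smul_eq_mul, W, Pi.add_apply]
        ring
      have h2 : dotProduct (fun i => ((consE n (y', y0) i : ℤ) : ℝ)) h =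
          (y0 : ℝ) * h 0 + dotProduct (fun i => (y' i : ℝ)) (Fin.tail h) := by
        rw [dotProduct, Fin.sum_univ_succ]
        rfl
      have h3 : ((consE n (y', y0) 0 : ℤ) : ℝ) = y0 := rfl
      rw [h1, h2, h3]
      congr 1
      push_cast
      ring
    have hGs' : Summable (Function.uncurry fun (x' : Fin n → ℤ) (y0 : ℤ) => G (x', y0)) := hGs
    have hs2' : Summable (Function.uncurry fun (x' : Fin n → ℤ) (y0 : ℤ) =>
      gt' A h w z (consE n (x', y0))) := hs2
    rw [hs1.tsum_prod, hs2.tsum_prod, tsum_congr hF1, tsum_mul_left, ← hGs'.tsum_comm,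
      tsum_congr hF3, tsum_mul_left, ← hs2'.tsum_comm, hdet, Real.sqrt_mul ha.le, pow_succ]
    push_cast
    rw [← one_div_mul_one_div]
    ring

end Fermat.Agent.H45
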