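import Mathlib
import Fermat.Agent.H45Poisson2

set_option autoImplicit false

/-!
# Four dimensional Poisson summation for Gaussians (job S16-POISSON)
-/

namespace Fermat.Agent.H16

open Complex Real UpperHalfPlane Matrix

theorem gaussian_poisson (A : Matrix (Fin 4) (Fin 4) ℝ) (hA : A.PosDef) (h : Fin 4 → ℝ) (z : ℍ) :
    ∑' x : Fin 4 → ℤ, cexp (π * Complex.I * z *
        ((((fun i => (x i : ℝ) + h i) ⬝ᵥ (A *ᵥ (fun i => (x i : ℝ) + h i)) : ℝ) : ℂ))) =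
      -(1 / (z : ℂ) ^ 2) * (1 / (√A.det : ℝ)) *
        ∑' y : Fin 4 → ℤ, cexp (-π * Complex.I / z *
          ((((fun i => (y i : ℝ)) ⬝ᵥ (A⁻¹ *ᵥ (fun i => (y i : ℝ))) : ℝ) : ℂ)) +
          2 * π * Complex.I * (((fun i => (y i : ℝ)) ⬝ᵥ h : ℝ) : ℂ)) := by
  have h1 := Fermat.Agent.H45.poisson_gt (z : ℂ) z.im_pos 4 A hA h 0
  have h2 : ∀ x : Fin 4 → ℤ, Fermat.Agent.H45.gt A h 0 z x = cexp (π * Complex.I * z *
        ((((fun i => (x i : ℝ) + h i) ⬝ᵥ (A *ᵥ (fun i => (x i : ℝ) + h i)) : ℝ) : ℂ))) := by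
    intro x
    rw [Fermat.Agent.H45.gt, zero_dotProduct, Complex.ofReal_zero, mul_zero, add_zero]
    rfl
  have h3 : ∀ y : Fin 4 → ℤ, Fermat.Agent.H45.gt' A h 0 z y = cexp (-π * Complex.I / z *
          ((((fun i => (y i : ℝ)) ⬝ᵥ (A⁻¹ *ᵥ (fun i => (y i : ℝ))) : ℝ) : ℂ)) +
          2 * π * Complex.I * (((fun i => (y i : ℝ)) ⬝ᵥ h : ℝ) : ℂ)) := by
    intro y
    simp only [Fermat.Agent.H45.gt', Pi.zero_apply, sub_zero]
    rfl
  rw [tsum_congr h2, tsum_congr h3] at h1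
  rw [h1]
  congr 2
  have hz : (z : ℂ) ≠ 0 := UpperHalfPlane.ne_zero z
  have h4 : ((-Complex.I * (z : ℂ)) ^ (1 / 2 : ℂ)) ^ 4 = -(z : ℂ) ^ 2 := by
    rw [← Complex.cpow_nat_mul, show ((4 : ℕ) : ℂ) * (1 / 2) = ((2 : ℕ) : ℂ) by norm_num,
      Complex.cpow_natCast, mul_pow, neg_sq, Complex.I_sq]
    ring
  rw [_root_.one_div_pow, h4, one_div, one_div, inv_neg]

theorem gaussian_summable (A : Matrix (Fin 4) (Fin 4) ℝ) (hA : A.PosDef) (h : Fin 4 → ℝ) (z : ℍ) :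
    Summable fun x : Fin 4 → ℤ => cexp (π * Complex.I * z *
        ((((fun i => (x i : ℝ) + h i) ⬝ᵥ (A *ᵥ (fun i => (x i : ℝ) + h i)) : ℝ) : ℂ))) := by
  have h1 := Fermat.Agent.H45.summable_gt A hA h 0 (z : ℂ) z.im_pos
  refine h1.congr fun x => ?_
  rw [Fermat.Agent.H45.gt, zero_dotProduct, Complex.ofReal_zero, mul_zero, add_zero]
  rfl

end Fermat.Agent.H16
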