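import Mathlib
import Fermat.Prelude.Thm_CongruenceSubgroup_one_mem_strictPeriods_Gamma0
import Fermat.Agent.H16Disc
import Fermat.Agent.H16Poisson

set_option autoImplicit false

open Complex Real UpperHalfPlane Matrix
open scoped MatrixGroups ModularForm Manifold

namespace Fermat.Agent.H16

namespace ThetaData

variable {p : ℕ} (D : ThetaData p)

/-- the general term of the theta series -/
noncomputable def term (u : ZMod p × ZMod p) (z : ℂ) (x : Fin 4 → ℤ) : ℂ :=
  cexp (π * Complex.I * z *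
        ((((fun i => (x i : ℝ) + D.h u i) ⬝ᵥ (D.G *ᵥ (fun i => (x i : ℝ) + D.h u i)) : ℝ) : ℂ)))

/-- the vector valued theta series -/
noncomputable def e (u : ZMod p × ZMod p) (z : ℍ) : ℂ := ∑' x : Fin 4 → ℤ, D.term u z x

theorem term_summable (hp : 0 < p) (u : ZMod p × ZMod p) (z : ℍ) :
    Summable (D.term u z) :=
  gaussian_summable D.G (D.posDef_G hp) (D.h u) z

theorem term_eq (hp : p ≠ 0) (u : ZMod p × ZMod p) (z : ℂ) (x : Fin 4 → ℤ) :
    D.term u z x = cexp (2 * π * Complex.I * z * ((D.N u x : ℂ) / p)) := by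
  rw [term, D.dot_eq hp]
  congr 1
  push_cast
  ring

theorem e_T [NeZero p] (hp : 0 < p) (u : ZMod p × ZMod p) (z : ℍ) :
    D.e u ((1 : ℝ) +ᵥ z) =
      ZMod.stdAddChar (binQ (D.r : ZMod p) 1 (D.c : ZMod p) u) * D.e u z := by
  rw [e, e, ← tsum_mul_left]
  congr 1
  ext x
  rw [D.term_eq hp.ne', D.term_eq hp.ne', ← D.N_cast u x, ZMod.stdAddChar_coe, ← Complex.exp_add]
  congr 1
  rw [UpperHalfPlane.coe_vadd]
  push_cast
  ring

theorem e_S [NeZero p] (hp : 0 < p) (u : ZMod p × ZMod p) (z : ℍ) :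
    D.e u (ModularGroup.S • z) =
      -((z : ℂ) ^ 2 / p) * ∑ v, ZMod.stdAddChar (-(binB (D.r : ZMod p) 1 (D.c : ZMod p) u v))
        * D.e v z := by
  have hz : (z : ℂ) ≠ 0 := UpperHalfPlane.ne_zero z
  have hSz : ((ModularGroup.S • z : ℍ) : ℂ) = -1 / z := by
    rw [UpperHalfPlane.modular_S_smul, UpperHalfPlane.coe_mk, inv_neg, ← one_div, neg_div]
  have hP := gaussian_poisson D.G (D.posDef_G hp) (D.h u) (ModularGroup.S • z)
  have hdet : (√D.G.det : ℝ) = p := by
    rw [D.det_G, Real.sqrt_sq (by positivity)]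
  rw [hdet] at hP
  have h1 : D.e u (ModularGroup.S • z) = -((z : ℂ) ^ 2 / p) *
      ∑' y : Fin 4 → ℤ, cexp (π * Complex.I * z *
          ((((fun i => (y i : ℝ)) ⬝ᵥ (D.G⁻¹ *ᵥ (fun i => (y i : ℝ))) : ℝ) : ℂ)) +
          2 * π * Complex.I * (((fun i => (y i : ℝ)) ⬝ᵥ D.h u : ℝ) : ℂ)) := by
    rw [e]
    simp only [term]
    rw [hP]
    congr 1
    · rw [hSz]
      push_cast
      field_simp
    · congr 1
      ext y
      congr 2
      rw [hSz]
      field_simp
  rw [h1]
  congr 1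
  -- regroup
  obtain ⟨E, hEdef⟩ : ∃ E : (ZMod p × ZMod p) × (Fin 4 → ℤ) ≃ (Fin 4 → ℤ),
      ∀ vx, E vx = -D.Φ vx.1 vx.2 :=
    ⟨(Equiv.ofBijective _ (D.Φ_bijective hp)).trans (Equiv.neg (Fin 4 → ℤ)), fun _ => rfl⟩
  rw [← E.tsum_eq]
  have hF : ∀ vx : (ZMod p × ZMod p) × (Fin 4 → ℤ),
      cexp (π * Complex.I * z *
          ((((fun i => (E vx i : ℝ)) ⬝ᵥ (D.G⁻¹ *ᵥ (fun i => (E vx i : ℝ))) : ℝ) : ℂ)) +
          2 * π * Complex.I * (((fun i => (E vx i : ℝ)) ⬝ᵥ D.h u : ℝ) : ℂ)) =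
        ZMod.stdAddChar (-(binB (D.r : ZMod p) 1 (D.c : ZMod p) u vx.1)) * D.term vx.1 z vx.2 := by
    rintro ⟨v, x⟩
    have hE : (fun i => ((E (v, x) i : ℤ) : ℝ)) = -(fun i => (D.Φ v x i : ℝ)) := by
      ext i
      rw [hEdef]
      simp
    rw [hE, Matrix.mulVec_neg, dotProduct_neg, neg_dotProduct, neg_neg, neg_dotProduct,
      D.dot_inv hp, D.dot_h, ← D.M_cast u v x, ← Int.cast_neg, ZMod.stdAddChar_coe, term,
      ← Complex.exp_add]
    congr 1
    push_cast
    ring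
  simp_rw [hF]
  have hsum : Summable fun vx : (ZMod p × ZMod p) × (Fin 4 → ℤ) =>
      ZMod.stdAddChar (-(binB (D.r : ZMod p) 1 (D.c : ZMod p) u vx.1)) * D.term vx.1 z vx.2 := by
    apply Summable.of_norm
    rw [summable_prod_of_nonneg (fun _ => norm_nonneg _)]
    refine ⟨fun v => ?_, Summable.of_finite⟩
    have hs := ((D.term_summable hp v z).mul_left
      (ZMod.stdAddChar (-(binB (D.r : ZMod p) 1 (D.c : ZMod p) u v)))).norm
    exact hs
  rw [hsum.tsum_prod, tsum_fintype]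
  refine Finset.sum_congr rfl fun v _ => ?_
  rw [e, ← tsum_mul_left]

theorem N_nonneg (hp : 0 < p) (u : ZMod p × ZMod p) (x : Fin 4 → ℤ) : 0 ≤ D.N u x := by
  have hp' : (0 : ℝ) < p := by exact_mod_cast hp
  have h := (D.posDef_G hp).posSemidef.dotProduct_mulVec_nonneg
    (fun i => (x i : ℝ) + D.h u i)
  rw [star_trivial, D.dot_eq hp.ne', le_div_iff₀ hp', zero_mul] at h
  have : (0 : ℝ) ≤ D.N u x := by linarith
  exact_mod_cast this

theorem norm_term (hp : 0 < p) (u : ZMod p × ZMod p) (z : ℂ) (x : Fin 4 → ℤ) :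
    ‖D.term u z x‖ = Real.exp (-(2 * π * z.im * (D.N u x / p))) := by
  rw [D.term_eq hp.ne', Complex.norm_exp]
  congr 1
  have : 2 * π * Complex.I * z * ((D.N u x : ℂ) / p) =
      ((2 * π * (D.N u x / p) : ℝ) : ℂ) * (Complex.I * z) := by
    push_cast
    ring
  rw [this, Complex.re_ofReal_mul]
  simp
  ring

theorem norm_term_le (hp : 0 < p) (u : ZMod p × ZMod p) (z w : ℂ) (h : w.im ≤ z.im)
    (x : Fin 4 → ℤ) : ‖D.term u z x‖ ≤ ‖D.term u w x‖ := by
  rw [D.norm_term hp, D.norm_term hp]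
  apply Real.exp_le_exp.mpr
  have h0 : (0 : ℝ) ≤ D.N u x / p := by
    have := D.N_nonneg hp u x
    positivity
  have := mul_le_mul_of_nonneg_right h (mul_nonneg Real.two_pi_pos.le h0)
  nlinarith [this]

theorem differentiable_term (u : ZMod p × ZMod p) (x : Fin 4 → ℤ) :
    Differentiable ℂ fun z => D.term u z x := by
  unfold term
  fun_prop

theorem mdifferentiable_e (hp : 0 < p) (u : ZMod p × ZMod p) :
    MDiff (D.e u) := by
  rw [UpperHalfPlane.mdifferentiable_iff]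
  intro z hz
  have hz' : 0 < z.im := hz
  let y0 : ℍ := ⟨(z.im / 2 : ℝ) * Complex.I, by simpa using hz'⟩
  have hy0 : (y0 : ℂ).im = z.im / 2 := by simp [y0]
  have hopen : IsOpen {w : ℂ | (y0 : ℂ).im < w.im} := isOpen_lt continuous_const Complex.continuous_im
  have hd : DifferentiableOn ℂ (fun w : ℂ => ∑' x, D.term u w x) {w : ℂ | (y0 : ℂ).im < w.im} := by
    apply differentiableOn_tsum_of_summable_norm (D.term_summable hp u y0).norm
    · intro x
      exact (D.differentiable_term u x).differentiableOn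
    · exact hopen
    · intro x w hw
      exact D.norm_term_le hp u w y0 hw.le x
  have hzmem : z ∈ {w : ℂ | (y0 : ℂ).im < w.im} := by
    rw [Set.mem_ofPred_eq, hy0]
    linarith
  have hda := hd.differentiableAt (hopen.mem_nhds hzmem)
  have heq : (D.e u ∘ UpperHalfPlane.ofComplex) =ᶠ[nhds z] fun w : ℂ => ∑' x, D.term u w x := by
    filter_upwards [hopen.mem_nhds hzmem] with w hw
    have hw' : 0 < w.im := by
      have : (y0 : ℂ).im < w.im := hw
      rw [hy0] at this
      linarith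
    rw [Function.comp_apply, UpperHalfPlane.ofComplex_apply_of_im_pos hw', e]
  exact (hda.congr_of_eventuallyEq heq).differentiableWithinAt

theorem isBoundedAtImInfty_e (hp : 0 < p) (u : ZMod p × ZMod p) :
    IsBoundedAtImInfty (D.e u) := by
  rw [UpperHalfPlane.isBoundedAtImInfty_iff]
  refine ⟨∑' x, ‖D.term u UpperHalfPlane.I x‖, 1, fun z hz => ?_⟩
  have hle : ∀ x, ‖D.term u z x‖ ≤ ‖D.term u UpperHalfPlane.I x‖ := by
    intro x
    apply D.norm_term_le hp
    simpa using hz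
  exact (norm_tsum_le_tsum_norm (D.term_summable hp u z).norm).trans
    ((D.term_summable hp u z).norm.tsum_le_tsum hle (D.term_summable hp u UpperHalfPlane.I).norm)

/-- the value of the form at an integral vector -/
def Q (x : Fin 4 → ℤ) : ℕ :=
  (x 0 ^ 2 + x 0 * x 1 + D.r * x 1 ^ 2 + p * D.r * x 2 ^ 2 + D.a * x 1 * x 3 +
      p * x 2 * x 3 + D.m * x 3 ^ 2).toNat

theorem N_zero [NeZero p] (x : Fin 4 → ℤ) : D.N 0 x = p * D.Q x := by
  have hp : 0 < p := Nat.pos_of_ne_zero (NeZero.ne p)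
  have h1 := D.N_nonneg hp 0 x
  have h2 : D.N 0 x = p * (x 0 ^ 2 + x 0 * x 1 + D.r * x 1 ^ 2 + p * D.r * x 2 ^ 2 +
      D.a * x 1 * x 3 + p * x 2 * x 3 + D.m * x 3 ^ 2) := by
    simp [N]
  rw [h2] at h1
  have h3 := nonneg_of_mul_nonneg_right h1 (by exact_mod_cast hp)
  rw [h2, Q, Int.toNat_of_nonneg h3]

theorem Q_eq_zero [NeZero p] (x : Fin 4 → ℤ) : D.Q x = 0 ↔ x = 0 := by
  have hp : 0 < p := Nat.pos_of_ne_zero (NeZero.ne p)
  constructor
  · intro h
    by_contra hx
    have hx' : (fun i => (x i : ℝ) + D.h 0 i) ≠ 0 := by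
      intro h0
      apply hx
      ext i
      have := congrFun h0 i
      have hh : D.h 0 i = 0 := by
        fin_cases i <;> simp [ThetaData.h, vec]
      rw [hh] at this
      simpa using this
    have := (D.posDef_G hp).dotProduct_mulVec_pos hx'
    rw [star_trivial, D.dot_eq hp.ne', D.N_zero, h] at this
    simp at this
  · rintro rfl
    simp [Q]

theorem Q_neg (x : Fin 4 → ℤ) : D.Q (-x) = D.Q x := by
  simp [Q]

/-- the number of representations -/
noncomputable def rep (n : ℕ) : ℕ := Nat.card {x : Fin 4 → ℤ // D.Q x = n}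

theorem term_zero [NeZero p] (z : ℍ) (x : Fin 4 → ℤ) :
    D.term 0 z x = Function.Periodic.qParam 1 z ^ D.Q x := by
  have hp : (p : ℂ) ≠ 0 := by exact_mod_cast NeZero.ne p
  rw [D.term_eq (NeZero.ne p), D.N_zero, Function.Periodic.qParam, ← Complex.exp_nat_mul]
  congr 1
  push_cast
  field_simp

theorem finite_rep [NeZero p] (n : ℕ) : Finite {x : Fin 4 → ℤ // D.Q x = n} := by
  have hp : 0 < p := Nat.pos_of_ne_zero (NeZero.ne p)
  by_contra h
  rw [not_finite_iff_infinite] at h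
  have h1 := (D.term_summable hp 0 UpperHalfPlane.I).subtype {x : Fin 4 → ℤ | D.Q x = n}
  have h2 : Summable fun _ : {x : Fin 4 → ℤ // D.Q x = n} =>
      (Function.Periodic.qParam 1 UpperHalfPlane.I) ^ n := by
    refine h1.congr fun x => ?_
    have : D.Q x = n := x.2
    rw [Function.comp_apply, D.term_zero, this]
  rw [summable_const_iff] at h2
  exact pow_ne_zero _ (Function.Periodic.qParam_ne_zero _) h2

theorem hasSum_e_zero [NeZero p] (z : ℍ) :
    HasSum (fun n => (D.rep n : ℂ) • Function.Periodic.qParam 1 z ^ n) (D.e 0 z) := by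
  have hp : 0 < p := Nat.pos_of_ne_zero (NeZero.ne p)
  have h1 := (D.term_summable hp 0 z).hasSum
  rw [← (Equiv.sigmaFiberEquiv D.Q).hasSum_iff] at h1
  refine h1.sigma fun n => ?_
  have := D.finite_rep n
  have := Fintype.ofFinite {x : Fin 4 → ℤ // D.Q x = n}
  have h2 : (D.rep n : ℂ) • Function.Periodic.qParam 1 z ^ n =
      ∑ x : {x : Fin 4 → ℤ // D.Q x = n}, Function.Periodic.qParam 1 z ^ n := by
    simp [rep]
  rw [h2]
  have h3 : (fun x : {x : Fin 4 → ℤ // D.Q x = n} =>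
      (D.term 0 z ∘ (Equiv.sigmaFiberEquiv D.Q)) ⟨n, x⟩) =
        fun _ => Function.Periodic.qParam 1 z ^ n := by
    ext x
    have : D.Q x = n := x.2
    rw [Function.comp_apply, Equiv.sigmaFiberEquiv_apply, D.term_zero, this]
  rw [h3]
  exact hasSum_fintype _

theorem rep_zero [NeZero p] : D.rep 0 = 1 := by
  rw [rep, Nat.card_eq_one_iff_unique]
  refine ⟨⟨fun x y => Subtype.ext ?_⟩, ⟨⟨0, (D.Q_eq_zero 0).mpr rfl⟩⟩⟩
  rw [(D.Q_eq_zero x.1).mp x.2, (D.Q_eq_zero y.1).mp y.2]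

theorem even_rep [NeZero p] {n : ℕ} (hn : n ≠ 0) : Even (D.rep n) := by
  have := D.finite_rep n
  have := Fintype.ofFinite {x : Fin 4 → ℤ // D.Q x = n}
  rw [rep, Nat.card_eq_fintype_card, ← ZMod.natCast_eq_zero_iff_even]
  have h := Finset.sum_involution (s := (Finset.univ : Finset {x : Fin 4 → ℤ // D.Q x = n}))
    (f := fun _ => (1 : ZMod 2)) (fun x _ => ⟨-x.1, by rw [D.Q_neg]; exact x.2⟩)
    (fun _ _ => by decide) (fun x _ _ hx => by
      have h1 : -x.1 = x.1 := congrArg Subtype.val hx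
      have h2 : x.1 = 0 := by
        ext i
        have := congrFun h1 i
        simp only [Pi.neg_apply, Pi.zero_apply] at this ⊢
        omega
      apply hn
      rw [← x.2, (D.Q_eq_zero x.1).mpr h2]) (fun _ _ => Finset.mem_univ _)
    (fun x _ => Subtype.ext (neg_neg _))
  simpa using h

variable [Fact p.Prime]

theorem slash_e (hp2 : p ≠ 2) :
    (∀ γ ∈ CongruenceSubgroup.Gamma0 p, (D.e 0) ∣[(2 : ℤ)] γ = D.e 0) ∧
    (∀ γ : SL(2, ℤ), ∃ c : ZMod p × ZMod p → ℂ, (D.e 0) ∣[(2 : ℤ)] γ = ∑ u, c u • D.e u) :=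
  weil_invariance p hp2 D.r 1 D.c D.disc_not_isSquare D.e
    (D.e_T (Fact.out : p.Prime).pos) (D.e_S (Fact.out : p.Prime).pos)

/-- the theta series as a modular form -/
noncomputable def theta (hp2 : p ≠ 2) : ModularForm (CongruenceSubgroup.Gamma0 p) 2 where
  toFun := D.e 0
  slash_action_eq' := by
    intro γ hγ
    obtain ⟨γ', hγ', rfl⟩ := hγ
    exact (D.slash_e hp2).1 γ' hγ'
  holo' := D.mdifferentiable_e (Fact.out : p.Prime).pos 0
  bdd_at_cusps' := by
    intro c hc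
    rw [Subgroup.IsArithmetic.isCusp_iff_isCusp_SL2Z] at hc
    rw [OnePoint.isBoundedAt_iff_forall_SL2Z hc]
    intro γ _
    obtain ⟨c, hc⟩ := (D.slash_e hp2).2 γ
    rw [hc]
    have : ∀ s : Finset (ZMod p × ZMod p), IsBoundedAtImInfty (∑ u ∈ s, c u • D.e u) := by
      intro s
      induction s using Finset.induction_on with
      | empty =>
        rw [Finset.sum_empty]
        exact Filter.const_boundedAtFilter atImInfty (0 : ℂ)
      | insert u s hu ih =>
        rw [Finset.sum_insert hu]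
        exact ((D.isBoundedAtImInfty_e (Fact.out : p.Prime).pos u).smul (c u)).add ih
    exact this Finset.univ

end ThetaData

theorem exists_theta (p : ℕ) (hp : p.Prime) (hp5 : 5 ≤ p) :
    ∃ θ : ModularForm (CongruenceSubgroup.Gamma0 p) 2,
      ModularFormClass.qCoeff θ 0 = 1 ∧
      ∀ k : ℕ, 1 ≤ k → ∃ m : ℤ, ModularFormClass.qCoeff θ k = 2 * (m : ℂ) := by
  have := Fact.mk hp
  obtain ⟨D⟩ := ThetaData.exists_data p hp hp5
  have hq : ∀ k, ModularFormClass.qCoeff (D.theta (by omega)) k = D.rep k := by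
    intro k
    rw [ModularFormClass.qCoeff]
    exact (ModularFormClass.qExpansion_coeff_unique (f := D.theta (by omega)) one_pos
      (CongruenceSubgroup.one_mem_strictPeriods_Gamma0 p) (fun τ => D.hasSum_e_zero τ) k).symm
  refine ⟨D.theta (by omega), ?_, fun k hk => ?_⟩
  · rw [hq, D.rep_zero, Nat.cast_one]
  · obtain ⟨m, hm⟩ := D.even_rep (show k ≠ 0 by omega)
    refine ⟨m, ?_⟩
    rw [hq, hm]
    push_cast
    ring

end Fermat.Agent.H16
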