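import Mathlib
import Fermat.Agent.H16Exp
import Fermat.Agent.H16Eis
import Fermat.Prelude.Def_ModularCurve_ModularUnit

set_option autoImplicit false

namespace Fermat.Agent.H16

open PowerSeries

noncomputable section

variable {p : ℕ} [hp : Fact p.Prime]

/-- a weight two form `G` with expansions `≡ c mod M` (with `p G` instead of `G`). -/
def Key (p : ℕ) [Fact p.Prime] (c M : ℤ) : Prop :=
  ∃ g g₀ : PowerSeries ℤ, HasExpZ p 2 (C (p : ℤ) * (C c + C M * g)) (-(C c + C M * g₀))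

/-- expanded sigma series -/
def sigE (p : ℕ) [hp : Fact p.Prime] (k : ℕ) : PowerSeries ℤ :=
  PowerSeries.expand p hp.out.ne_zero (sigmaSeries k)

lemma coeff_sigE_of_lt (k i : ℕ) (hi : i < p) : (sigE p k).coeff i = 0 := by
  by_cases h0 : i = 0
  · subst h0
    have : (sigE p k).coeff (p * 0) = 0 := by
      rw [sigE, coeff_expand_mul, coeff_sigmaSeries]; simp
    simpa using this
  · rw [sigE, coeff_expand_of_not_dvd]
    intro h
    exact absurd (Nat.le_of_dvd (Nat.pos_of_ne_zero h0) h) (by omega)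

lemma coeff_sigE_p (k : ℕ) : (sigE p k).coeff p = 1 := by
  have : (sigE p k).coeff (p * 1) = 1 := by
    rw [sigE, coeff_expand_mul, coeff_sigmaSeries]; simp
  simpa using this

lemma coeff_sigmaSeries_zero (k : ℕ) : (sigmaSeries k).coeff 0 = 0 := by
  rw [coeff_sigmaSeries]; simp

lemma coeff_sigmaSeries_one (k : ℕ) : (sigmaSeries k).coeff 1 = 1 := by
  rw [coeff_sigmaSeries]; simp

lemma expand_E4Z : PowerSeries.expand p hp.out.ne_zero E4Z = 1 + 240 * sigE p 3 := by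
  rw [E4Z, map_add, map_one, map_mul, map_ofNat, sigE]

lemma expand_E6Z : PowerSeries.expand p hp.out.ne_zero E6Z = 1 - 504 * sigE p 5 := by
  rw [E6Z, map_sub, map_one, map_mul, map_ofNat, sigE]

lemma HasExpZ.congr {k : ℕ} {φ φ₀ ψ ψ₀ : PowerSeries ℤ} (h : HasExpZ p k φ φ₀)
    (h1 : φ = ψ) (h2 : φ₀ = ψ₀) : HasExpZ p k ψ ψ₀ := by
  subst h1 h2; exact h

/-- `c² E₄ - (pG)²` -/
lemma Key.form4 {c M : ℤ} {g g₀ : PowerSeries ℤ}
    (h : HasExpZ p 2 (C (p : ℤ) * (C c + C M * g)) (-(C c + C M * g₀))) :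
    HasExpZ p 4 (C (c ^ 2) * E4Z - (C (p : ℤ) * (C c + C M * g)) ^ 2)
      (C (c ^ 2) * (1 + 240 * sigE p 3) - (C c + C M * g₀) ^ 2) := by
  have h1 := (HasExpZ.E4 (p := p)).smul (c ^ 2)
  have h2 := (h.mul h).smul (-1)
  refine (h1.add h2).congr ?_ ?_
  · rw [map_neg, map_one]; ring
  · rw [expand_E4Z, map_neg, map_one]; ring

/-- `c³ E₆ + (pG)³` -/
lemma Key.form6 {c M : ℤ} {g g₀ : PowerSeries ℤ}
    (h : HasExpZ p 2 (C (p : ℤ) * (C c + C M * g)) (-(C c + C M * g₀))) :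
    HasExpZ p 6 (C (c ^ 3) * E6Z + (C (p : ℤ) * (C c + C M * g)) ^ 3)
      (C (c ^ 3) * (1 - 504 * sigE p 5) - (C c + C M * g₀) ^ 3) := by
  have h1 := (HasExpZ.E6 (p := p)).smul (c ^ 3)
  have h2 := (h.mul h).mul h
  refine (h1.add h2).congr ?_ ?_
  · ring
  · rw [expand_E6Z]; ring

/-- `c E₆ + pG E₄` -/
lemma Key.form6' {c M : ℤ} {g g₀ : PowerSeries ℤ}
    (h : HasExpZ p 2 (C (p : ℤ) * (C c + C M * g)) (-(C c + C M * g₀))) :
    HasExpZ p 6 (C c * E6Z + C (p : ℤ) * (C c + C M * g) * E4Z)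
      (C c * (1 - 504 * sigE p 5) - (C c + C M * g₀) * (1 + 240 * sigE p 3)) := by
  have h1 := (HasExpZ.E6 (p := p)).smul c
  have h2 := h.mul (HasExpZ.E4 (p := p))
  refine (h1.add h2).congr ?_ ?_
  · ring
  · rw [expand_E6Z, expand_E4Z]; ring

lemma coeff_combo (a b M : ℤ) (s X : PowerSeries ℤ) (i : ℕ) :
    (C a + C b * s + C M * X).coeff i = (if i = 0 then a else 0) + b * s.coeff i +
      M * X.coeff i := by
  rw [map_add, map_add, coeff_C, coeff_C_mul, coeff_C_mul]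

lemma not_dvd_of_combo {ℓ : ℕ} {b s x : ℤ} (hs : s = 1) (hb : ¬ (ℓ : ℤ) ∣ b) :
    ¬ (ℓ : ℤ) ∣ 0 + b * s + ℓ * x := by
  rw [hs, mul_one, zero_add]
  rwa [dvd_add_left (Dvd.intro _ rfl)]

/-- common argument for `ℓ ≥ 7, 5, 3` -/
lemma combo_contra {ℓ : ℕ} (hℓ : ℓ.Prime) {k : ℕ} (hk : k ≤ 6) {Φ Φ₀ : PowerSeries ℤ}
    (h : HasExpZ p k Φ Φ₀) {a b b' : ℤ} {X Y : PowerSeries ℤ} {j : ℕ} 
    (h1 : Φ = C a + C b * sigmaSeries j + C (ℓ : ℤ) * X)
    (h2 : Φ₀ = C 0 + C b' * sigE p j + C (ℓ : ℤ) * Y) (hb : ¬ (ℓ : ℤ) ∣ b)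
    (hb' : ¬ (ℓ : ℤ) ∣ b') : False := by
  have h3 := h.sturm hℓ 0 p (by simp) ⟨1, by
      rw [h1, coeff_combo, if_neg one_ne_zero]
      exact not_dvd_of_combo (coeff_sigmaSeries_one j) hb⟩
    (fun i hi => by
      rw [h2, coeff_combo, coeff_sigE_of_lt j i hi]
      simp) ⟨p, by
      rw [h2, coeff_combo, if_neg hp.out.ne_zero]
      exact not_dvd_of_combo (coeff_sigE_p j) hb'⟩
  have h4 : k * (p + 1) / 12 ≤ 6 * (p + 1) / 12 :=
    Nat.div_le_div_right (Nat.mul_le_mul_right _ hk)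
  have := hp.out.two_le
  omega

theorem Key.contra_ge_seven {ℓ : ℕ} (hℓ : ℓ.Prime) (h7 : 7 ≤ ℓ) {c : ℤ} (hc : ¬ (ℓ : ℤ) ∣ c)
    (h : Key p c ℓ) : False := by
  obtain ⟨g, g₀, h⟩ := h
  have hℓ' : Prime (ℓ : ℤ) := Nat.prime_iff_prime_int.mp hℓ
  have h240 : ¬ (ℓ : ℤ) ∣ 240 := by
    intro h
    have h' : ℓ ∣ 240 := by exact_mod_cast h
    have : (240 : ℕ) = 2 ^ 4 * 3 * 5 := by norm_num
    rw [this, hℓ.dvd_mul, hℓ.dvd_mul] at h'
    rcases h' with (h' | h') | h'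
    · have := Nat.le_of_dvd (by norm_num) (hℓ.dvd_of_dvd_pow h'); omega
    · have := Nat.le_of_dvd (by norm_num) h'; omega
    · have := Nat.le_of_dvd (by norm_num) h'; omega
  have hb : ¬ (ℓ : ℤ) ∣ 240 * c ^ 2 := by
    intro h
    rcases hℓ'.dvd_or_dvd h with h | h
    · exact h240 h
    · exact hc (hℓ'.dvd_of_dvd_pow h)
  refine combo_contra hℓ (by norm_num) (Key.form4 h) (j := 3) (a := c ^ 2 * (1 - p ^ 2))
    (b := 240 * c ^ 2) (b' := 240 * c ^ 2)
    (X := - (C (p : ℤ) ^ 2 * (2 * C c * g + C (ℓ : ℤ) * g ^ 2)))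
    (Y := - (2 * C c * g₀ + C (ℓ : ℤ) * g₀ ^ 2)) ?_ ?_ hb hb
  · rw [E4Z]
    simp only [map_mul, map_sub, map_one, map_pow, map_ofNat]
    ring
  · simp only [map_mul, map_sub, map_one, map_pow, map_ofNat, map_zero]
    ring

theorem Key.contra_five {c : ℤ} (hc : ¬ (5 : ℤ) ∣ c)
    (h : Key p c 5) : False := by
  obtain ⟨g, g₀, h⟩ := h
  have hℓ' : Prime (5 : ℤ) := by norm_num
  have hb : ¬ ((5 : ℕ) : ℤ) ∣ -504 * c ^ 3 := by
    intro h
    rcases hℓ'.dvd_or_dvd h with h | h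
    · norm_num at h
    · exact hc (hℓ'.dvd_of_dvd_pow h)
  refine combo_contra (ℓ := 5) (by norm_num) (by norm_num) (Key.form6 h) (j := 5)
    (a := c ^ 3 * (1 + p ^ 3))
    (b := -504 * c ^ 3) (b' := -504 * c ^ 3)
    (X := (C (p : ℤ) ^ 3 * (3 * C c ^ 2 * g + 15 * C c * g ^ 2 + 25 * g ^ 3)))
    (Y := - (3 * C c ^ 2 * g₀ + 15 * C c * g₀ ^ 2 + 25 * g₀ ^ 3)) ?_ ?_ hb hb
  · rw [E6Z]
    simp only [map_mul, map_add, map_one, map_pow, map_ofNat, map_neg, Nat.cast_ofNat]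
    ring
  · simp only [map_mul, map_add, map_one, map_pow, map_ofNat, map_neg, map_zero, Nat.cast_ofNat]
    ring

theorem Key.contra_nine (h3 : ¬ 3 ∣ p) {c : ℤ} (hc : ¬ (3 : ℤ) ∣ c)
    (h : Key p c 9) : False := by
  obtain ⟨g, g₀, h⟩ := h
  have hℓ' : Prime (3 : ℤ) := by norm_num
  have hb : ¬ ((3 : ℕ) : ℤ) ∣ 80 * c ^ 2 := by
    intro h
    rcases hℓ'.dvd_or_dvd h with h | h
    · norm_num at h
    · exact hc (hℓ'.dvd_of_dvd_pow h)
  obtain ⟨u, hu⟩ : (3 : ℤ) ∣ 1 - (p : ℤ) ^ 2 := by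
    have h4 : (p : ℤ) % 3 = 1 ∨ (p : ℤ) % 3 = 2 := by omega
    apply Int.dvd_of_emod_eq_zero
    rcases h4 with h4 | h4 <;> simp [Int.sub_emod, pow_two, Int.mul_emod, h4]
  have h1 : HasExpZ p 4 (C (c ^ 2 * u) + C (80 * c ^ 2) * sigmaSeries 3 + C ((3 : ℕ) : ℤ) *
      (-(C (p : ℤ) ^ 2 * (2 * C c * g + 9 * g ^ 2)))) (C 0 + C (80 * c ^ 2) * sigE p 3 +
        C ((3 : ℕ) : ℤ) * (-(2 * C c * g₀ + 9 * g₀ ^ 2))) := by
    refine HasExpZ.div (c := 3) (by norm_num) ((Key.form4 h).congr ?_ ?_)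
    · rw [E4Z]
      have hu' : C (1 - (p : ℤ) ^ 2) = C (R := ℤ) 3 * C u := by rw [hu, map_mul]
      simp only [map_mul, map_sub, map_one, map_pow, map_ofNat, Nat.cast_ofNat] at hu' ⊢
      linear_combination C c ^ 2 * hu'
    · simp only [map_mul, map_sub, map_one, map_pow, map_ofNat, map_zero, Nat.cast_ofNat]
      ring
  exact combo_contra (ℓ := 3) (by norm_num) (by norm_num) h1 rfl rfl hb hb

theorem Key.contra_three (h3 : p % 3 = 1) {c : ℤ} (hc : ¬ (3 : ℤ) ∣ c)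
    (h : Key p c 3) : False := by
  obtain ⟨g, g₀, h⟩ := h
  have hℓ' : Prime (3 : ℤ) := by norm_num
  have h5 := hp.out.two_le
  have h1 := (Key.form6' h).dvd_coeff (ℓ := 3) (by norm_num) (by omega) (by omega)
    (fun i => by
      have h2 : (C c * (1 - 504 * sigE p 5) - (C c + C 3 * g₀) * (1 + 240 * sigE p 3)) =
        C 3 * (C c * (- 168 * sigE p 5) - g₀ * (1 + 240 * sigE p 3) - 80 * C c * sigE p 3) := by
        simp only [map_ofNat]
        ring
      rw [h2, coeff_C_mul]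
      exact Dvd.intro _ rfl) 0
  have h2 : (C c * E6Z + C (p : ℤ) * (C c + C 3 * g) * E4Z) = C (c * (1 + p)) +
      C 3 * (C c * (- 168 * sigmaSeries 5) + C (p : ℤ) * g * E4Z +
        80 * C (p : ℤ) * C c * sigmaSeries 3) := by
    rw [E6Z, E4Z]
    simp only [map_ofNat, map_mul, map_add, map_one]
    ring
  rw [h2, map_add, coeff_zero_C, coeff_C_mul, Nat.cast_ofNat, dvd_add_left (Dvd.intro _ rfl)] at h1
  rcases hℓ'.dvd_or_dvd h1 with h | h
  · exact hc h
  · omega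

/-- the `2`-adic step: if `2 ^ s ∣ p + 1`, `s ≤ 2`, `s < t` then `2 ^ (s + 1) ∣ p + 1`. -/
theorem Key.two_step (hp3 : 3 ≤ p) (s : ℕ) (hs : s ≤ 2) {c u : ℤ} (hc : ¬ (2 : ℤ) ∣ c)
    (hu : (1 + p : ℤ) = 2 ^ s * u) (h : Key p c (2 ^ s * 2)) : (2 : ℤ) ∣ u := by
  obtain ⟨g, g₀, h⟩ := h
  have hℓ' : Prime (2 : ℤ) := by norm_num
  have hp2 : ¬ 2 ∣ p := by
    intro h
    have := (Nat.prime_dvd_prime_iff_eq Nat.prime_two hp.out).mp h
    omega
  obtain ⟨d, hd⟩ : (2 ^ s : ℤ) ∣ 4 := by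
    have := pow_dvd_pow (2 : ℤ) hs
    norm_num at this
    exact this
  have hd' : (4 : PowerSeries ℤ) = C (2 ^ s : ℤ) * C d := by
    rw [← map_mul, ← hd, map_ofNat]
  have hu' : 1 + C (p : ℤ) = C (2 ^ s : ℤ) * C u := by
    rw [← map_mul, ← hu, map_add, map_one]
  have h1 : HasExpZ p 6 (C (c * u) + C 2 * (C d * (30 * C (p : ℤ) * C c * sigmaSeries 3 -
      63 * C c * sigmaSeries 5) + C (p : ℤ) * g * E4Z))
      (C 2 * (C d * (-(30 * C c * sigE p 3) - 63 * C c * sigE p 5) - 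
      g₀ * (1 + 240 * sigE p 3))) := by
    refine HasExpZ.div (c := 2 ^ s) (by positivity) ((Key.form6' h).congr ?_ ?_)
    · rw [E4Z, E6Z]
      simp only [map_ofNat, map_mul]
      linear_combination C c * hu' + (60 * C (p : ℤ) * C c * sigmaSeries 3 -
        126 * C c * sigmaSeries 5) * hd'
    · simp only [map_ofNat, map_mul]
      linear_combination (-(60 * C c * sigE p 3) - 126 * C c * sigE p 5) * hd'
  have h2 := h1.dvd_coeff (ℓ := 2) (by norm_num) hp2 (by omega)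
    (fun i => by rw [coeff_C_mul]; exact Dvd.intro _ rfl) 0
  rw [map_add, coeff_zero_C, coeff_C_mul, Nat.cast_ofNat, dvd_add_left (Dvd.intro _ rfl)] at h2
  exact (hℓ'.dvd_or_dvd h2).resolve_left hc

lemma mixSeries_coeff_zero : mixSeries.coeff 0 = 0 := by
  have h := congrArg (PowerSeries.coeff 0) twelve_mul_mixSeries
  have h12 : (12 : PowerSeries ℤ) = PowerSeries.C (12 : ℤ) := by simp
  have h5 : (5 : PowerSeries ℤ) = PowerSeries.C (5 : ℤ) := by simp
  have h7 : (7 : PowerSeries ℤ) = PowerSeries.C (7 : ℤ) := by simp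
  rw [h12, h5, h7, map_add, coeff_C_mul, coeff_C_mul, coeff_C_mul, coeff_sigmaSeries_zero,
    coeff_sigmaSeries_zero] at h
  omega

lemma mixSeries_coeff_one : mixSeries.coeff 1 = 1 := by
  have h := congrArg (PowerSeries.coeff 1) twelve_mul_mixSeries
  have h12 : (12 : PowerSeries ℤ) = PowerSeries.C (12 : ℤ) := by simp
  have h5 : (5 : PowerSeries ℤ) = PowerSeries.C (5 : ℤ) := by simp
  have h7 : (7 : PowerSeries ℤ) = PowerSeries.C (7 : ℤ) := by simp
  rw [h12, h5, h7, map_add, coeff_C_mul, coeff_C_mul, coeff_C_mul, coeff_sigmaSeries_one,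
    coeff_sigmaSeries_one] at h
  omega

/-- the series `-27 mix + 225 σ₃²` -/
def tSeries : PowerSeries ℤ := -27 * mixSeries + 225 * sigmaSeries 3 ^ 2

lemma tSeries_coeff_zero : tSeries.coeff 0 = 0 := by
  rw [tSeries, coeff_zero_eq_constantCoeff, map_add, map_mul, map_mul, map_pow,
    ← coeff_zero_eq_constantCoeff_apply mixSeries,
    ← coeff_zero_eq_constantCoeff_apply (sigmaSeries 3), mixSeries_coeff_zero,
    coeff_sigmaSeries_zero]
  simp

lemma tSeries_coeff_one : tSeries.coeff 1 = -27 := by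
  have h27 : (-27 : PowerSeries ℤ) = PowerSeries.C (-27 : ℤ) := by simp
  have h225 : (225 : PowerSeries ℤ) = PowerSeries.C (225 : ℤ) := by simp
  have h1 : (sigmaSeries 3 ^ 2).coeff 1 = 0 := by
    rw [pow_two, coeff_mul, Finset.Nat.antidiagonal_succ]
    simp [coeff_sigmaSeries]
  rw [tSeries, h27, h225, map_add, coeff_C_mul, coeff_C_mul, mixSeries_coeff_one, h1]
  norm_num

theorem Key.contra_eight {c : ℤ} (hc : ¬ (2 : ℤ) ∣ c) (h8 : (8 : ℤ) ∣ 1 + p)
    (h : Key p c 8) : False := by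
  obtain ⟨g, g₀, h⟩ := h
  obtain ⟨u, hu⟩ := h8
  have hℓ' : Prime (2 : ℤ) := by norm_num
  -- the form `-pG`
  have hA : HasExpZ p 2 (C c + 8 * (g - C u * C c - 8 * C u * g)) (C c + 8 * g₀) := by
    refine (h.smul (-1)).congr ?_ ?_
    · have hu' : 1 + C (p : ℤ) = 8 * C u := by
        rw [← map_ofNat (C (R := ℤ)) 8, ← map_mul, ← hu, map_add, map_one]
      simp only [map_ofNat, map_neg, map_one]
      linear_combination (-(C c + 8 * g)) * hu'
    · simp only [map_ofNat, map_neg, map_one]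
      ring
  generalize g - C u * C c - 8 * C u * g = x at hA
  have h2 := hA.mul hA
  have h4 := h2.mul h2
  have hE4 := HasExpZ.E4 (p := p)
  have hE6 := HasExpZ.E6 (p := p)
  have hΩ := (((h4.smul 5).add ((h2.mul hE4).smul (-14 * c ^ 2))).add
    ((hA.mul hE6).smul (8 * c ^ 3))).add ((hE4.mul hE4).smul (c ^ 4))
  have hmix := twelve_mul_mixSeries
  have hmixE : 12 * PowerSeries.expand p hp.out.ne_zero mixSeries = 5 * sigE p 3 + 7 * sigE p 5 := by
    have := congrArg (PowerSeries.expand p hp.out.ne_zero) hmix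
    rwa [map_mul, map_add, map_mul, map_mul, map_ofNat, map_ofNat, map_ofNat] at this
  have hF : HasExpZ p 8
      (C (c ^ 4) * tSeries + C 2 * (2 * C c ^ 2 * x ^ 2 + 20 * C c * x ^ 3 + 40 * x ^ 4 -
        105 * C c ^ 3 * x * sigmaSeries 3 - 420 * C c ^ 2 * x ^ 2 * sigmaSeries 3 -
        63 * C c ^ 3 * x * sigmaSeries 5))
      (C (c ^ 4) * PowerSeries.expand p hp.out.ne_zero tSeries +
        C 2 * (2 * C c ^ 2 * g₀ ^ 2 + 20 * C c * g₀ ^ 3 + 40 * g₀ ^ 4 -
        105 * C c ^ 3 * g₀ * sigE p 3 - 420 * C c ^ 2 * g₀ ^ 2 * sigE p 3 -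
        63 * C c ^ 3 * g₀ * sigE p 5)) := by
    refine HasExpZ.div (c := 256) (by norm_num) (hΩ.congr ?_ ?_)
    · rw [E4Z, E6Z, tSeries]
      simp only [map_ofNat, map_neg, map_mul, map_pow]
      linear_combination (576 * C c ^ 4) * hmix
    · have e1 : PowerSeries.expand p hp.out.ne_zero tSeries =
          -27 * PowerSeries.expand p hp.out.ne_zero mixSeries + 225 * sigE p 3 ^ 2 := by
        rw [tSeries, map_add, map_mul, map_mul, map_pow, map_neg, map_ofNat, map_ofNat]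
        rfl
      rw [expand_E4Z, expand_E6Z, e1]
      simp only [map_ofNat, map_neg, map_mul, map_pow]
      linear_combination (576 * C c ^ 4) * hmixE
  have hodd : ∀ X : ℤ, ¬ ((2 : ℕ) : ℤ) ∣ c ^ 4 * (-27) + 2 * X := by
    intro X hX
    rw [Nat.cast_ofNat, dvd_add_left (Dvd.intro _ rfl)] at hX
    rcases hℓ'.dvd_or_dvd hX with h | h
    · exact hc (hℓ'.dvd_of_dvd_pow h)
    · norm_num at h
  have h3 := hF.sturm (ℓ := 2) Nat.prime_two 1 p
    (fun i hi => by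
      have hi0 : i = 0 := by omega
      subst hi0
      rw [map_add, coeff_C_mul, coeff_C_mul, tSeries_coeff_zero, mul_zero, zero_add]
      exact Dvd.intro _ rfl)
    ⟨1, by
      rw [map_add, coeff_C_mul, coeff_C_mul, tSeries_coeff_one]
      exact hodd _⟩
    (fun i hi => by
      have h0 : (PowerSeries.expand p hp.out.ne_zero tSeries).coeff i = 0 := by
        by_cases h0 : i = 0
        · subst h0
          have : (PowerSeries.expand p hp.out.ne_zero tSeries).coeff (p * 0) = 0 := by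
            rw [coeff_expand_mul, tSeries_coeff_zero]
          simpa using this
        · rw [coeff_expand_of_not_dvd]
          intro h
          exact absurd (Nat.le_of_dvd (Nat.pos_of_ne_zero h0) h) (by omega)
      rw [map_add, coeff_C_mul, coeff_C_mul, h0, mul_zero, zero_add]
      exact Dvd.intro _ rfl)
    ⟨p, by
      have h1 : (PowerSeries.expand p hp.out.ne_zero tSeries).coeff p = -27 := by
        have : (PowerSeries.expand p hp.out.ne_zero tSeries).coeff (p * 1) = -27 := by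
          rw [coeff_expand_mul, tSeries_coeff_one]
        simpa using this
      rw [map_add, coeff_C_mul, coeff_C_mul, h1]
      exact hodd _⟩
  have := hp.out.two_le
  omega

/-! ### From a congruence to `Key` -/

lemma key_of_form (F : ModularForm (G0 p) 2) (b : ℕ → ℤ)
    (hb : ∀ k, 1 ≤ k → (UpperHalfPlane.qExpansion 1 F).coeff k = b k) {m : ℤ} (hm : m ≠ 0)
    (h0 : 24 * m * (UpperHalfPlane.qExpansion 1 F).coeff 0 = (p : ℂ) - 1) {q M D c : ℤ}
    (h1 : 24 * m = q * (M * D)) (h2 : (p : ℤ) - 1 = q * c) : Key p c M := by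
  have hp0 : (p : ℂ) ≠ 0 := by exact_mod_cast hp.out.ne_zero
  have hq : (q : ℂ) ≠ 0 := by
    have : q ≠ 0 := by
      rintro rfl
      rw [zero_mul] at h1
      omega
    exact_mod_cast this
  refine ⟨PowerSeries.mk fun k => if k = 0 then 0 else D * b k,
    PowerSeries.mk fun k => if k = 0 then 0 else D * b (p * k), ?_⟩
  have h3 : ((M * D : ℤ) : ℂ) * (UpperHalfPlane.qExpansion 1 F).coeff 0 = c := by
    apply mul_left_cancel₀ hq
    have h1' : (24 * m : ℂ) = q * ((M * D : ℤ) : ℂ) := by exact_mod_cast h1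
    have h2' : (p : ℂ) - 1 = q * c := by exact_mod_cast h2
    rw [← mul_assoc, ← h1', ← h2', h0]
  have h4 : ∀ k, 1 ≤ k → ((M * D : ℤ) : ℂ) * (UpperHalfPlane.qExpansion 1 F).coeff k =
      M * (D * b k) := by
    intro k hk
    rw [hb k hk]; push_cast; ring
  have h5 := (HasExp.two F).smul ((p : ℂ) * ((M * D : ℤ) : ℂ))
  unfold HasExpZ
  convert h5 using 1
  · ext k
    simp only [map_mul, toC_C, map_add, coeff_C_mul, mul_assoc, coeff_C, coeff_map, coeff_mk,
      PowerSeries.map_C, Int.cast_natCast]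
    congr 1
    rcases Nat.eq_zero_or_pos k with rfl | hk
    · simpa using h3.symm
    · rw [h4 k hk]
      simp [hk.ne']
  · ext k
    rw [← mul_assoc, ← map_mul]
    rw [coeff_C_mul, coeff_mk]
    have h6 : (p : ℂ) * ((M * D : ℤ) : ℂ) * -(p : ℂ)⁻¹ = - ((M * D : ℤ) : ℂ) := by
      field_simp
    rw [h6]
    simp only [map_mul, map_neg, toC_C, map_add, coeff_C_mul, coeff_C, coeff_map, coeff_mk,
      PowerSeries.map_C, Int.cast_natCast]
    rcases Nat.eq_zero_or_pos k with rfl | hk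
    · rw [neg_mul, mul_zero, h3]
      simp
    · rw [neg_mul, h4 (p * k) (Nat.mul_pos hp.out.pos hk)]
      simp [hk.ne']

lemma key_of_eisCong {m : ℕ} (hm : 0 < m) (h : EisCong p m) {q M D c : ℤ}
    (h1 : 24 * (m : ℤ) = q * (M * D)) (h2 : (p : ℤ) - 1 = q * c) : Key p c M := by
  obtain ⟨E, hE0, hE⟩ := exists_eisenstein p hp.out
  obtain ⟨f, hf⟩ := h
  choose a ha hac using hf
  have hm0 : (m : ℂ) ≠ 0 := by exact_mod_cast hm.ne'
  have hdvd : ∀ k, ∃ b : ℤ, 1 ≤ k → (sigmaP p k : ℤ) - a k = m * b := by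
    intro k
    by_cases hk : 1 ≤ k
    · obtain ⟨b, hb⟩ := hac k hk
      exact ⟨-b, fun _ => by linarith⟩
    · exact ⟨0, fun h => absurd h hk⟩
  choose b hb using hdvd
  have hq : ∀ k, (UpperHalfPlane.qExpansion 1
      ((m : ℂ)⁻¹ • (E - ModularFormClass.modularForm f) : ModularForm (G0 p) 2)).coeff k =
      (m : ℂ)⁻¹ * (ModularFormClass.qCoeff E k - ModularFormClass.qCoeff f k) := by
    intro k
    rw [FunLike.coe_smul, ModularForm.qExpansion_smul one_pos G0_one_mem_strictPeriods,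
      coeff_smul, FunLike.coe_sub, ModularForm.qExpansion_sub one_pos G0_one_mem_strictPeriods,
      map_sub, smul_eq_mul]
    rfl
  have hf0 : ModularFormClass.qCoeff f 0 = 0 := by
    exact CuspFormClass.qExpansion_coeff_zero f one_pos G0_one_mem_strictPeriods
  refine key_of_form ((m : ℂ)⁻¹ • (E - ModularFormClass.modularForm f) : ModularForm (G0 p) 2) b
    (fun k hk => ?_) (m := m) (by exact_mod_cast hm.ne') ?_ h1 h2
  · rw [hq, hE k hk, ha k]
    have := hb k hk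
    have h3 : (sigmaP p k : ℂ) - a k = m * b k := by exact_mod_cast this
    rw [h3, ← mul_assoc, inv_mul_cancel₀ hm0, one_mul]
  · rw [hq, hE0, hf0]
    push_cast
    field_simp
    ring

lemma aux_two (d e : ℕ) (h : 24 = d * e) (h8 : ¬ 8 ∣ d) : 2 ∣ e := by
  have h1 : d ≤ 24 := Nat.le_of_dvd (by norm_num) ⟨e, h⟩
  interval_cases d <;> omega

lemma aux_four (d e : ℕ) (h : 24 = d * e) (h8 : ¬ 4 ∣ d) : 4 ∣ e := by
  have h1 : d ≤ 24 := Nat.le_of_dvd (by norm_num) ⟨e, h⟩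
  interval_cases d <;> omega

/-- **Upper bound**: an Eisenstein congruence modulo `m` forces `m ∣ num ((p - 1) / 12)`. -/
theorem EisCong.dvd {p m : ℕ} (hp : p.Prime) (hp5 : 5 ≤ p) (hm : 0 < m) (h : EisCong p m) :
    m ∣ ModularCurve.eisensteinNumerator p := by
  have : Fact p.Prime := ⟨hp⟩
  set d := Nat.gcd (p - 1) 12 with hd
  have hd0 : 0 < d := Nat.gcd_pos_of_pos_right _ (by norm_num)
  have hdp : d ∣ p - 1 := Nat.gcd_dvd_left _ _
  have hd12 : d ∣ 12 := Nat.gcd_dvd_right _ _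
  rw [ModularCurve.eisensteinNumerator, ← hd]
  suffices hmain : m * d ∣ p - 1 by
    obtain ⟨x, hx⟩ := hmain
    refine ⟨x, ?_⟩
    rw [hx, mul_right_comm, Nat.mul_div_cancel _ hd0]
  obtain ⟨e, he⟩ := hd12.trans (show 12 ∣ 24 by norm_num)
  have hpz : ((p - 1 : ℕ) : ℤ) = (p : ℤ) - 1 := by
    have := hp.one_le
    push_cast [Nat.cast_sub this]
    ring
  have hp10 : p - 1 ≠ 0 := by omega
  rw [Nat.dvd_iff_prime_pow_dvd_dvd]
  intro ℓ k hℓ hk
  by_contra hnot
  -- valuation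
  set α := (p - 1).factorization ℓ with hα
  obtain ⟨c, hc⟩ := Nat.ordProj_dvd (p - 1) ℓ
  rw [← hα] at hc
  have hc' : ¬ ℓ ∣ c := by
    intro ⟨c', hc'⟩
    have : ℓ ^ (α + 1) ∣ p - 1 := ⟨c', by rw [hc, hc', pow_succ]; ring⟩
    have := (hℓ.pow_dvd_iff_le_factorization hp10).mp this
    omega
  have hαk : α + 1 ≤ k := by
    by_contra hlt
    push Not at hlt
    apply hnot
    exact (pow_dvd_pow ℓ (by omega)).trans (Dvd.intro _ hc.symm)
  obtain ⟨x, hx⟩ := (pow_dvd_pow ℓ hαk).trans hk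
  have hcz : ¬ (ℓ : ℤ) ∣ (c : ℤ) := by exact_mod_cast hc'
  have hcp : (p : ℤ) - 1 = (ℓ : ℤ) ^ α * c := by rw [← hpz, hc]; push_cast; ring
  have h24 : 24 * m = ℓ ^ α * (ℓ * (x * e)) := by
    calc 24 * m = m * d * e := by rw [he]; ring
      _ = ℓ ^ α * (ℓ * (x * e)) := by rw [hx, pow_succ]; ring
  have h24z : 24 * (m : ℤ) = (ℓ : ℤ) ^ α * ((ℓ : ℤ) * (x * e)) := by exact_mod_cast h24
  have hℓ2 := hℓ.two_le
  rcases (by omega : 7 ≤ ℓ ∨ ℓ = 6 ∨ ℓ = 5 ∨ ℓ = 4 ∨ ℓ = 3 ∨ ℓ = 2) with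
    h7 | rfl | rfl | rfl | rfl | rfl
  · exact Key.contra_ge_seven hℓ h7 hcz (key_of_eisCong hm h h24z hcp)
  · norm_num at hℓ
  · exact Key.contra_five (by exact_mod_cast hc') (key_of_eisCong hm h h24z hcp)
  · norm_num at hℓ
  · have h3p : ¬ 3 ∣ p := by
      intro h
      have := (Nat.prime_dvd_prime_iff_eq Nat.prime_three hp).mp h
      omega
    by_cases hp3 : p % 3 = 1
    · exact Key.contra_three hp3 (by exact_mod_cast hc') (key_of_eisCong hm h h24z hcp)
    · -- 3 divides e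
      have h3d : ¬ 3 ∣ d := by
        intro h
        have := h.trans hdp
        omega
      have h3e : 3 ∣ e := by
        have : 3 ∣ d * e := by rw [← he]; norm_num
        exact (Nat.prime_three.dvd_mul.mp this).resolve_left h3d
      obtain ⟨e', rfl⟩ := h3e
      refine Key.contra_nine h3p (by exact_mod_cast hc') (key_of_eisCong hm h (q := (3 : ℤ) ^ α)
        (D := x * e') ?_ hcp)
      rw [h24z]; push_cast; ring
  · have h2p : ¬ 2 ∣ p := by
      intro h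
      have := (Nat.prime_dvd_prime_iff_eq Nat.prime_two hp).mp h
      omega
    have hc2 : ¬ (2 : ℤ) ∣ (c : ℤ) := by exact_mod_cast hc'
    have h8d : ¬ 8 ∣ d := by
      intro h
      have := h.trans hd12
      norm_num at this
    by_cases hp4 : p % 4 = 1
    · -- 2 divides e
      have h2e : 2 ∣ e := aux_two d e he h8d
      obtain ⟨e', rfl⟩ := h2e
      have hkey : Key p c (2 ^ 1 * 2) := key_of_eisCong hm h (q := (2 : ℤ) ^ α)
        (D := x * e') (by rw [h24z]; push_cast; ring) hcp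
      obtain ⟨u, hu⟩ : (2 : ℤ) ∣ 1 + p := by omega
      have := Key.two_step (by omega) 1 (by norm_num) hc2 (by rw [hu]; ring) hkey
      omega
    · have h4d : ¬ 4 ∣ d := by
        intro h
        have := h.trans hdp
        omega
      have h4e : 4 ∣ e := aux_four d e he h4d
      obtain ⟨e', rfl⟩ := h4e
      have hkey : Key p c (2 ^ 2 * 2) := key_of_eisCong hm h (q := (2 : ℤ) ^ α)
        (D := x * e') (by rw [h24z]; push_cast; ring) hcp
      obtain ⟨u, hu⟩ : (4 : ℤ) ∣ 1 + p := by omega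
      have h2u := Key.two_step (by omega) 2 (by norm_num) hc2 (by rw [hu]; ring) hkey
      have h8 : (8 : ℤ) ∣ 1 + p := by omega
      exact Key.contra_eight hc2 h8 (by norm_num at hkey; exact hkey)

end

end Fermat.Agent.H16
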