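import Fermat.Agent.H50ZLvl
import Fermat.Agent.H51ZIwEq
import Fermat.Agent.H51ZDisc
import Fermat.Agent.H79SDef

/-!
# The model with maximal level at one place (helper50, [TGT], S47 block (C))

* `dnL L w₀`, `dn m w₀`: the level `L` (the model `m`) with `U0 w₀` at the place `w₀`;
* `le_dn`: `m.L.U w ≤ (dn m w₀).L.U w`, so that `pullX` maps `m.X` to `(dn m w₀).X`;
* `CSetup.m0`: the model of block (D) for the setup of block (C).
-/

set_option autoImplicit false

noncomputable section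

open IsDedekindDomain HeightOneSpectrum WithZero NumberField Matrix
open scoped MatrixGroups

namespace Fermat.Agent.H50Z

open Fermat.Agent.H59XF Fermat.Agent.H59D

section Dn

variable {R : Type*} [CommRing R] [IsDedekindDomain R] {K : Type*} [Field K] [Algebra R K]
  [IsFractionRing R K]

open Classical in
/-- The level `L` with the maximal compact subgroup at `w₀`. -/
def dnL (L : Level R K) (w₀ : HeightOneSpectrum R) : Level R K where
  U w := if w = w₀ then U0 w else L.U w
  fin := L.fin.subset fun w hw => by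
    by_cases h : w = w₀
    · simp [h] at hw
    · simpa [h] using hw
  isOpen w := by
    by_cases h : w = w₀
    · exact ⟨0, by rw [if_pos h]; exact Gam_le w 0⟩
    · simpa [h] using L.isOpen w
  bdd w := by
    by_cases h : w = w₀
    · exact ⟨1, fun g hg => by simpa [h] using hg⟩
    · simpa [h] using L.bdd w

theorem dnL_self (L : Level R K) (w₀ : HeightOneSpectrum R) : (dnL L w₀).U w₀ = U0 w₀ := by
  simp [dnL]

theorem dnL_of_ne (L : Level R K) {w₀ w : HeightOneSpectrum R} (h : w ≠ w₀) :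
    (dnL L w₀).U w = L.U w := by
  simp [dnL, h]

theorem le_dnL (L : Level R K) {w₀ : HeightOneSpectrum R} (h : L.U w₀ ≤ U0 w₀)
    (w : HeightOneSpectrum R) : L.U w ≤ (dnL L w₀).U w := by
  by_cases hw : w = w₀
  · subst hw
    rw [dnL_self]
    exact h
  · rw [dnL_of_ne L hw]

end Dn

variable {K : Type*} [Field K] [NumberField K] {J : Type*} [Fintype J]

/-- The model `m` with maximal level at `w₀`. -/
def dn (m : Model K J) (w₀ : HeightOneSpectrum (𝓞 K)) : Model K J where
  e := m.e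
  e_bij := m.e_bij
  e_cx := m.e_cx
  L := dnL m.L w₀

variable {m : Model K J} {w₀ : HeightOneSpectrum (𝓞 K)}

@[simp] theorem dn_e (m : Model K J) (w₀ : HeightOneSpectrum (𝓞 K)) : (dn m w₀).e = m.e := rfl

theorem dn_e' (j : J) : m.e j = (dn m w₀).e j := rfl

theorem dn_self (m : Model K J) (w₀ : HeightOneSpectrum (𝓞 K)) : (dn m w₀).L.U w₀ = U0 w₀ :=
  dnL_self _ _

theorem dn_of_ne (m : Model K J) {w : HeightOneSpectrum (𝓞 K)} (h : w ≠ w₀) :
    (dn m w₀).L.U w = m.L.U w := dnL_of_ne _ h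

theorem le_dn (h : m.L.U w₀ ≤ U0 w₀) (w : HeightOneSpectrum (𝓞 K)) :
    m.L.U w ≤ (dn m w₀).L.U w := le_dnL _ h w

end Fermat.Agent.H50Z

namespace Fermat.Agent.H79S.CSetup

open Fermat.Agent.H59XF Fermat.Agent.H59D Fermat.Agent.H50Z

variable {F E : Type} [Field F] [NumberField F] [Field E] [NumberField E] [Algebra F E]
  (C : CSetup F E)

/-- The model of block (D): maximal level at `w0`. -/
def m0 : Model E (Fin 3) := dn C.mE C.w0

theorem m0_e : C.m0.e = C.mE.e := rfl

theorem m0_w0 : C.m0.L.U C.w0 = U0 C.w0 := dn_self _ _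

theorem m0_of_ne {w : HeightOneSpectrum (𝓞 E)} (h : w ≠ C.w0) : C.m0.L.U w = C.mE.L.U w :=
  dn_of_ne _ h

theorem w0S : C.w0 ∉ C.SE := by
  rw [C.mem_SE]
  have h : C.w0 ∈ H82.above E C.v0 := by rw [C.above_v0]; exact Set.mem_singleton _
  rw [← H47.eq_below_of_mem_above h]
  exact C.v0S

theorem m0_S {w : HeightOneSpectrum (𝓞 E)} (h : w ∈ C.SE) : C.m0.L.U w = (C.TE w).U := by
  rw [C.m0_of_ne (fun h0 => C.w0S (h0 ▸ h)), C.kE.lev_S w h]

theorem m0_good {w : HeightOneSpectrum (𝓞 E)} (h : w ∉ C.SE) : C.m0.L.U w = U0 w := by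
  by_cases h0 : w = C.w0
  · subst h0
    exact C.m0_w0
  · rw [C.m0_of_ne h0, C.kE.lev_good w h h0]

theorem le_m0 (w : HeightOneSpectrum (𝓞 E)) : C.mE.L.U w ≤ C.m0.L.U w :=
  le_dn (by rw [C.kE.lev_w0]; exact H83Z.Iw_le _) w

end Fermat.Agent.H79S.CSetup

end
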