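import Fermat.Agent.H56ZTgt1
import Fermat.Agent.H50ZDn
import Fermat.Agent.H79SFam

/-!
# S47, block (C), [TGT-A] (helper56)

`isEForm_of_isDForm` : the pull back to Iwahori level at `w0` of the form delivered by block (D) is
a form in the sense of `IsEForm`; `exists_eForm` : existence from `DOut`.
-/

set_option autoImplicit false
set_option linter.unusedSectionVars false

open IsDedekindDomain HeightOneSpectrum WithZero NumberField Matrix
open scoped MatrixGroups Classical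

noncomputable section

namespace Fermat.Agent.H56Z

open Fermat.Agent.H59XF Fermat.Agent.H59D Fermat.Agent.H76U Fermat.Agent.H51Z Fermat.Agent.H79S
open Fermat.Agent.H7.Z (HeckeEq borP)
open Fermat.Agent.H50Z (pull pullX cproj)

/-! ### The Hecke equation and the change of level -/

section Pull

variable {K : Type*} [Field K] [NumberField K]
  {L' L : LevelFam PGL(2, K) (HeightOneSpectrum (𝓞 K))}

theorem heckeEq_pull (h : ∀ w, L'.U w ≤ L.U w) {φ : XF L → ℂ} {w : HeightOneSpectrum (𝓞 K)}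
    {ϖ : Kˣ} {R : Finset K} {lam : ℂ} (hH : HeckeEq (borP K) L φ w ϖ R lam) :
    HeckeEq (borP K) L' (fun y => φ (pull h y)) w ϖ R lam := by
  intro y g hg
  have h1 : pull h y w = ((g : PGL(2, K)) : PGL(2, K) ⧸ L.U w) := by
    rw [H50Z.pull_apply, hg, H50Z.cproj_mk]
  rw [hH (pull h y) g h1]
  congr 1
  · refine Finset.sum_congr rfl fun b _ => ?_
    show _ = φ (pull h (XF.upd y w _))
    rw [H50Z.pull_upd, H50Z.cproj_mk]
  · show _ = φ (pull h (XF.upd y w _))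
    rw [H50Z.pull_upd, H50Z.cproj_mk]

theorem typed_pull (h : ∀ w, L'.U w ≤ L.U w) {φ : XF L → ℂ} {w : HeightOneSpectrum (𝓞 K)}
    {t : Typ (L.U w)} {t' : Typ (L'.U w)} (hH : t'.H = t.H) (hc : ∀ g ∈ t.H, t'.chi g = t.chi g)
    (hφ : ∀ (a : t.H) (y : XF L), φ (XF.upd y w (t.rt a (y w))) = t.chi a * φ y) :
    H84Z.IsTypedAt t' (fun y => φ (pull h y)) := by
  intro a y
  have ha : (a : PGL(2, K)) ∈ t.H := hH ▸ a.2
  obtain ⟨g, hg⟩ := QuotientGroup.mk_surjective (y w)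
  have h1 : pull h y w = ((g : PGL(2, K)) : PGL(2, K) ⧸ L.U w) := by
    rw [H50Z.pull_apply, ← hg, H50Z.cproj_mk]
  have h2 : pull h (XF.upd y w (t'.rt a (y w))) =
      XF.upd (pull h y) w (t.rt ⟨a, ha⟩ (pull h y w)) := by
    rw [H50Z.pull_upd, h1, ← hg, Typ.rt_mk, Typ.rt_mk, H50Z.cproj_mk]
  show φ (pull h (XF.upd y w (t'.rt a (y w)))) = t'.chi a • φ (pull h y)
  rw [h2, hφ ⟨a, ha⟩ (pull h y), hc _ ha, smul_eq_mul]

end Pull

/-! ### The form -/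

variable {F E : Type} [Field F] [NumberField F] [Field E] [NumberField E] [Algebra F E]

/-- **[TGT-A]**: the pull back of the form of block (D). -/
theorem isEForm_of_isDForm (C : CSetup F E) {a : HeightOneSpectrum (𝓞 E) → ℝ}
    {Ty : ∀ w, Typ (C.m0.L.fam.U w)} (hH : ∀ w ∈ C.SE, (Ty w).H = (C.TE w).H)
    (hchi : ∀ w ∈ C.SE, ∀ g ∈ (C.TE w).H, (Ty w).chi g = (C.TE w).chi g) {Φ : C.m0.X → ℂ}
    (hΦ : H55D.IsDForm C.m0 C.SE Ty a Φ) : IsEForm C a (fun x => Φ (pullX C.le_m0 x)) where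
  inv g x := by
    show Φ (pullX C.le_m0 (g • x)) = _
    rw [H50Z.pullX_smul C.le_m0 (fun _ => rfl), hΦ.inv]
  cont y := hΦ.cont (pull (L' := C.mE.L.fam) (L := C.m0.L.fam) C.le_m0 y)
  growth y := hΦ.growth (pull (L' := C.mE.L.fam) (L := C.m0.L.fam) C.le_m0 y)
  rad κ hκ y τ := hΦ.rad κ hκ (pull (L' := C.mE.L.fam) (L := C.m0.L.fam) C.le_m0 y) τ
  hecke w hw h0 x := by
    have hd := disc_nf w
    have h1 := hΦ.hecke w hw hd.pi hd.v_pi (hd.reps 1) (hd.isReps 1) x.1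
    have h2 := heckeEq_pull (L' := C.mE.L.fam) (L := C.m0.L.fam) C.le_m0 h1
    have h3 := lop_of_heckeEq (κ := C.kE.D.T w) (C.kE.lev_good w hw h0) (C.kE.T_ind w hw h0)
      hd.v_pi (hd.isReps 1) h2
    rw [H17S.gX_eq_gop, gop_single]
    exact congrFun h3 x.2
  eS x := by
    rw [H17S.gX_eq_gop]
    refine congrFun (gop_eS_of C.kE.D (φ := fun y : XF C.mE.L.fam => Φ (pullX C.le_m0 (x.1, y)))
      fun w hw => ?_) x.2
    rw [C.kE.D_S] at hw
    set t' := tyOf C.mE.L C.SE C.TE C.kE.lev_S w with ht'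
    have e1 : t'.H = (C.TE w).H := tyOf_H C.kE.lev_S hw
    have e2 : t'.chi = (C.TE w).chi := tyOf_chi C.kE.lev_S hw
    have hf : (C.mE.L.fam.U w).relIndex t'.H ≠ 0 := by
      rw [e1, Level.fam_U, C.kE.lev_S w hw]
      exact C.kE.e_index w hw
    have hk : C.kE.D.e w = H84Z.eker t' hf := by
      refine isTyp_eq_eker ?_ hf
      rw [e1, e2]
      exact C.kE.e_typ w hw
    rw [hk]
    refine H84Z.IsTypedAt.lop_eker (typed_pull (L' := C.mE.L.fam) (L := C.m0.L.fam) C.le_m0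
      (t := Ty w) (φ := fun y => Φ (x.1, y)) (e1.trans (hH w hw).symm) ?_ ?_)
    · intro g hg
      rw [hH w hw] at hg
      rw [hchi w hw g hg, e2]
    · exact fun b y => hΦ.typ w hw b x.1 y
  inv0 τ y g u hu := by
    have h1 : ∀ x : PGL(2, E), pullX C.le_m0 (τ, XF.upd y C.w0
        ((x : PGL(2, E)) : PGL(2, E) ⧸ C.mE.L.fam.U C.w0)) =
        (τ, XF.upd (pull (L' := C.mE.L.fam) (L := C.m0.L.fam) C.le_m0 y) C.w0
        ((x : PGL(2, E)) : PGL(2, E) ⧸ C.m0.L.fam.U C.w0)) := by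
      intro x
      exact Prod.ext rfl (H50Z.pull_upd (L' := C.mE.L.fam) (L := C.m0.L.fam) C.le_m0 y C.w0 _)
    show Φ (pullX C.le_m0 _) = Φ (pullX C.le_m0 _)
    rw [h1, h1]
    have h2 : (((g * u : PGL(2, E))) : PGL(2, E) ⧸ C.m0.L.fam.U C.w0) =
        ((g : PGL(2, E)) : PGL(2, E) ⧸ C.m0.L.fam.U C.w0) := by
      rw [eq_comm, QuotientGroup.eq]
      show g⁻¹ * (g * u) ∈ C.m0.L.U C.w0
      rw [C.m0_w0, inv_mul_cancel_left]
      exact hu
    rw [h2]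
  hecke0 ϖ hϖ R hR := by
    intro τ y g hg
    exact heckeEq_pull (L' := C.mE.L.fam) (L := C.m0.L.fam) C.le_m0
      (hΦ.hecke C.w0 C.w0S ϖ hϖ R hR τ) y g hg
  ne := by
    obtain ⟨x, hx⟩ := hΦ.ne
    obtain ⟨x', rfl⟩ := H50Z.pullX_surjective C.le_m0 x
    exact ⟨x', hx⟩

/-- **[TGT-A]**: existence of the form from the output of block (D). -/
theorem exists_eForm (C : CSetup F E) {a : HeightOneSpectrum (𝓞 E) → ℝ} {k c₀ : ℕ}
    (hD : ∀ (J : Type) [Fintype J] (m : Model E J)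
      (T : HeightOneSpectrum (𝓞 E) → TD E) (Ty : ∀ w, Typ (m.L.fam.U w)),
      (∀ w ∈ C.SE, H55D.Adm w (T w) k c₀) → (∀ w ∈ C.SE, (Ty w).H = (T w).H) →
      (∀ w ∈ C.SE, ∀ g ∈ (T w).H, (Ty w).chi g = (T w).chi g) →
      (∀ w ∉ C.SE, m.L.U w = H59D.U0 w) → ∃ Φ : m.X → ℂ, H55D.IsDForm m C.SE Ty a Φ)
    (hAdm : ∀ w ∈ C.SE, H55D.Adm w (C.TE w) k c₀) : ∃ Φ : C.mE.X → ℂ, IsEForm C a Φ := by
  obtain ⟨Φ, hΦ⟩ := hD (Fin 3) C.m0 C.TE (tyOf C.m0.L C.SE C.TE fun w hw => C.m0_S hw) hAdm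
    (fun w hw => tyOf_H _ hw) (fun w hw g _ => by rw [tyOf_chi _ hw])
    (fun w hw => C.m0_good hw)
  exact ⟨_, isEForm_of_isDForm C (fun w hw => tyOf_H _ hw)
    (fun w hw g _ => by rw [tyOf_chi _ hw]) hΦ⟩

end Fermat.Agent.H56Z
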