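import Fermat.Agent.H17B1
import Fermat.Agent.H56ZTgt2

/-!
# S47, block (C): the form on `E` is bounded (helper17, CFAM)

* `zct_of_eig` : eigenfunctions of the cuspidal operator have no constant terms;
* `bounded_of_radial` : cuspidal eigenfunctions of one radial kernel, of moderate growth (exponent
  depending on the point of `X_f`), are bounded;
* `IsEForm`: eigenvalues of the pure kernels; `bounded_eform`.
-/

set_option autoImplicit false
set_option linter.unusedSectionVars false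

noncomputable section

open MeasureTheory Set Filter
open scoped ENNReal ComplexConjugate MatrixGroups

namespace Fermat.Agent.H17S

open Fermat.Agent.H32Z Fermat.Agent.H59XF Fermat.Agent.H59D Fermat.Agent.H51Z Fermat.Agent.H56Z
  Fermat.Agent.H5Z Fermat.Agent.H59K

section Gen

variable {K : Type*} [Field K] [NumberField K] {J : Type*} [Fintype J] {m : Model K J}

variable {I : Type*} {s : Finset I} {κ : I → (J → ℝ) → ℂ} {f : I → GlobKer m.L.fam}

theorem opF_const_mul (c : ℂ) (Φ : m.X → ℂ) (x : m.X) :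
    opF s κ f (fun x => c * Φ x) x = c * opF s κ f Φ x := by
  unfold opF gX RI Rk
  rw [Finset.mul_sum]
  refine Finset.sum_congr rfl fun i _ => ?_
  rw [Finset.mul_sum]
  refine Finset.sum_congr rfl fun y _ => ?_
  have h1 : (fun v : J → H3 => κ i (chv x.1 v) * (c * Φ (v, y))) =
      fun v => c * (κ i (chv x.1 v) * Φ (v, y)) := by
    funext v
    ring
  show (f i).k x.2 y * ∫ v : J → H3, κ i (chv x.1 v) * (c * Φ (v, y)) = _
  rw [h1, integral_const_mul]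
  ring

/-- Eigenfunctions of the operator have no constant terms. -/
theorem zct_of_eig (h5 : C5 m s κ f) {Φ : m.X → ℂ} (hlb : FLB Φ)
    (hinv : ∀ (g : PGL(2, K)) x, Φ (g • x) = Φ x) {c : ℂ} (hc : c ≠ 0)
    (heig : ∀ x, opF s κ f Φ x = c * Φ x) : ZCT Φ := by
  have h1 : opF s κ f (fun x => c⁻¹ * Φ x) = Φ := by
    funext x
    rw [opF_const_mul, heig, ← mul_assoc, inv_mul_cancel₀ hc, one_mul]
  have h2 := h5 (fun x => c⁻¹ * Φ x) (fun g x => by rw [hinv]) fun y => ?_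
  · rwa [h1] at h2
  · refine ⟨((hlb y).1).const_mul _, fun C hC => ?_⟩
    obtain ⟨B, hB⟩ := (hlb y).2 C hC
    refine ⟨‖c⁻¹‖ * B, fun x hx => ?_⟩
    rw [norm_mul]
    exact mul_le_mul_of_nonneg_left (hB x hx) (norm_nonneg _)

/-- Cuspidal eigenfunctions of one radial kernel of moderate growth are bounded. -/
theorem bounded_of_radial {a : (J → ℝ) → ℂ} {T L Ma : ℝ} (ha : H95S.Ker a T L Ma) {Φ : m.X → ℂ}
    (hlb : FLB Φ) (hinv : ∀ (g : PGL(2, K)) x, Φ (g • x) = Φ x)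
    (hgrow : ∀ y : XF m.L.fam, ∃ A : ℝ, ∀ c > 0, ∃ M : ℝ, ∀ w : J → H3, (∀ j, c ≤ (w j).y) →
      ‖Φ (w, y)‖ ≤ M * H95S.ht w ^ A) {c : ℂ} (hc : c ≠ 0)
    (heig : ∀ x, RI a Φ x = c * Φ x) (hz : ZCT Φ) : ∃ B : ℝ, ∀ x, ‖Φ x‖ ≤ B := by
  have : Nonempty J := nonempty_J m
  have hJ : 0 < Fintype.card J := Fintype.card_pos
  have := H35BK.isTotallyComplex m
  obtain ⟨Y0, c₀, C, R, hY0, hc₀, -, -, hcov⟩ := H2Z.exists_cover m.e m.e_bij (H64L.lat m.L)
    (H64L.lat_smul m.L) (H64L.finite_fiber_numberField m.L)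
  obtain ⟨δ, hδ⟩ := cusp_of_ct0 m hY0.toFinset
  obtain ⟨B, -, hB⟩ := H35BK.hbal m hY0
  refine H95S.bounded_of_eigen' ha hY0 hJ Φ (fun η _ => hgrow η) (fun η _ => (hlb η).1) hc
    (fun η _ w => heig (w, η)) (δ := δ) ?_ (fun x y : m.X => ∃ g : PGL(2, K), g • x = y) ?_ hc₀ hB ?_
  · have h1 := hδ Φ hinv hlb fun y _ x => hz y x
    rwa [Set.Finite.coe_toFinset] at h1
  · rintro x y ⟨g, rfl⟩
    exact (hinv g x).symm
  · intro (x : m.X)
    obtain ⟨g, hg1, hg2⟩ := hcov x.1 x.2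
    exact ⟨(g • x).1, (g • x).2, hg2, ⟨g, rfl⟩, fun j => hg1.1 j⟩

end Gen

/-! ### The form on `E` -/

section EForm

open IsDedekindDomain NumberField Fermat.Agent.H79S

variable {F E : Type} [Field F] [NumberField F] [Field E] [NumberField E] [Algebra F E]
  {C : CSetup F E} {a : HeightOneSpectrum (𝓞 E) → ℝ} {Φ : C.mE.X → ℂ}

theorem ker9 {J : Type*} [Fintype J] {κ : (J → ℝ) → ℂ} (h : IsRC κ) : H9Z.Ker κ := by
  obtain ⟨R, hR⟩ := h.supp
  exact ⟨h.cont.continuousOn, R, fun t _ ht => hR t ht⟩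

theorem eform_RI (h : IsEForm C a Φ) {κ : (Fin 3 → ℝ) → ℂ} (hκ : IsRC κ) (x : C.mE.X) :
    RI κ Φ x = H9Z.hat κ * Φ x := h.rad κ (ker9 hκ) x.2 x.1

theorem ok_ne_w0 {w : HeightOneSpectrum (𝓞 E)} (h : C.Ok w) : w ≠ C.w0 := by
  rintro rfl
  apply h.2
  have h1 : C.w0 ∈ H82.above E C.v0 := by rw [C.above_v0]; exact Set.mem_singleton _
  have h2 : H47.below F C.w0 = C.v0 := HeightOneSpectrum.ext h1
  rw [h2, H82.NonSplit, C.above_v0, Set.ncard_singleton]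

theorem eform_gX (h : IsEForm C a Φ) {n : HeightOneSpectrum (𝓞 E) →₀ ℕ} (hn : C.OkN n)
    (x : C.mE.X) :
    gX (C.kE.D.mono n 0) Φ x = (n.prod fun w k => (evT a w : ℂ) ^ k) * Φ x := by
  have he : gop C.kE.D.eS (fun y => Φ (x.1, y)) = fun y => Φ (x.1, y) :=
    funext fun y => h.eS (x.1, y)
  have hT : ∀ i ∉ C.kE.D.S, i ≠ C.kE.D.w0 →
      lop i (C.kE.D.T i) (fun y => Φ (x.1, y)) = (evT a i : ℂ) • fun y => Φ (x.1, y) := by
    intro i hi h0
    rw [C.kE.D_S] at hi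
    rw [C.kE.D_w0] at h0
    rw [← gop_single]
    exact funext fun y => h.hecke i hi h0 (x.1, y)
  have h1 := gop_mono (D := C.kE.D) he hT n fun i hi => by
    rw [C.kE.D_S, C.kE.D_w0]
    exact ⟨(hn i hi).1, ok_ne_w0 (hn i hi)⟩
  exact congrFun h1 x.2

variable {I : Type*} {s : Finset I} {κ : I → (Fin 3 → ℝ) → ℂ}
  {n : I → HeightOneSpectrum (𝓞 E) →₀ ℕ}

theorem eform_opF (h : IsEForm C a Φ) (hκ : ∀ i ∈ s, IsRC (κ i)) (hn : ∀ i ∈ s, C.OkN (n i))
    (x : C.mE.X) :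
    opF s κ (fun i => C.kE.D.mono (n i) 0) Φ x = (∑ i ∈ s, evP a (κ i) (n i)) * Φ x := by
  unfold opF
  rw [Finset.sum_mul]
  refine Finset.sum_congr rfl fun i hi => ?_
  have h1 : RI (κ i) Φ = fun x => H9Z.hat (κ i) * Φ x := funext fun x => eform_RI h (hκ i hi) x
  have h2 : gX (C.kE.D.mono (n i) 0) (RI (κ i) Φ) x =
      H9Z.hat (κ i) * gX (C.kE.D.mono (n i) 0) Φ x := by
    rw [h1]
    unfold gX
    rw [Finset.mul_sum]
    exact Finset.sum_congr rfl fun y _ => by ring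
  rw [h2, eform_gX h (hn i hi), evP]
  ring

theorem eform_flb (h : IsEForm C a Φ) : FLB Φ := by
  intro y
  refine ⟨(h.cont y).measurable, fun K hK => ?_⟩
  obtain ⟨B, hB⟩ := hK.exists_bound_of_continuousOn (h.cont y).continuousOn
  exact ⟨B, hB⟩

/-- **The form on `E` is bounded.** -/
theorem bounded_eform (h : IsEForm C a Φ) (hκ : ∀ i ∈ s, IsRC (κ i))
    (hn : ∀ i ∈ s, C.OkN (n i))
    (h5 : C5 C.mE s κ fun i => C.kE.D.mono (n i) 0) (hv : ∑ i ∈ s, evP a (κ i) (n i) ≠ 0)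
    {b : (Fin 3 → ℝ) → ℂ} {T L M : ℝ} (hb : H95S.Ker b T L M) (hb0 : H9Z.hat b ≠ 0) :
    ∃ B : ℝ, ∀ x, ‖Φ x‖ ≤ B := by
  have hRC : IsRC b := ⟨hb.continuous, ⟨M, hb.bdd⟩, ⟨T, hb.zero⟩⟩
  exact bounded_of_radial hb (eform_flb h) h.inv h.growth hb0 (eform_RI h hRC)
    (zct_of_eig h5 (eform_flb h) h.inv hv (eform_opF h hκ hn))

end EForm

end Fermat.Agent.H17S
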