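/-
H17Null: Nullstellensatz bounds (project S17; statements frozen by helper17, proofs by the job owner; helper lemmas may be added)
-/
import Mathlib
import Fermat.Agent.H17Defs

set_option autoImplicit false

noncomputable section

open AlgebraicCurve WithZero Polynomial

namespace Fermat.Agent.H17

open Fermat.Agent.H3RR

/-! ### L3: Nullstellensatz bound (file H17Null) -/
section Null

variable {K V : Type*} [Field K] (𝔸 : AbsFam K V)

theorem abv_monomial_le {σ : Type*} [Fintype σ] (v : V) (s : σ → K) (m : σ →₀ ℕ) {B : ℝ}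
    (hB : ∀ j, 𝔸.abv v (s j) ≤ B) :
    𝔸.abv v (∏ j, s j ^ m j) ≤ B ^ (m.sum fun _ e => e) := by
  rw [map_prod, Finsupp.sum_fintype _ _ (fun _ => rfl), ← Finset.prod_pow_eq_pow_sum]
  refine Finset.prod_le_prod (fun j _ => (𝔸.abv v).nonneg _) fun j _ => ?_
  rw [map_pow]
  exact pow_le_pow_left₀ ((𝔸.abv v).nonneg _) (hB j) _

theorem exists_coeff_bound {σ : Type*} (f : MvPolynomial σ K) :
    ∃ C : V → ℝ, IsMC C ∧ ∀ v m, 𝔸.abv v (f.coeff m) ≤ C v := by
  classical
  choose C hC hC' using fun m : f.support => 𝔸.exists_isMC_abv_le (f.coeff m)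
  obtain ⟨D, hD, hD'⟩ := exists_isMC_forall hC
  refine ⟨D, hD, fun v m => ?_⟩
  by_cases hm : m ∈ f.support
  · exact (hC' ⟨m, hm⟩ v).trans (hD' ⟨m, hm⟩ v)
  · rw [MvPolynomial.notMem_support_iff.1 hm, map_zero]
    exact hD.nonneg v

/-- upper bound for the values of a polynomial -/
theorem exists_eval_bound {σ : Type*} [Finite σ] [Nonempty σ] (f : MvPolynomial σ K) {d : ℕ}
    (hf : f.IsHomogeneous d) :
    ∃ C, IsMC C ∧ ∀ v (s : σ → K),
      𝔸.abv v (MvPolynomial.eval s f) ≤ C v * (⨆ j, 𝔸.abv v (s j)) ^ d := by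
  classical
  have := Fintype.ofFinite σ
  obtain ⟨C, hC, hC'⟩ := exists_coeff_bound 𝔸 f
  refine ⟨_, (𝔸.isMC_card f.support.card).mul hC, fun v s => ?_⟩
  set B := ⨆ j, 𝔸.abv v (s j) with hB
  have hle : ∀ j, 𝔸.abv v (s j) ≤ B := fun j => le_ciSup (Set.finite_range fun j => 𝔸.abv v (s j)).bddAbove j
  have hB0 : 0 ≤ B := ((𝔸.abv v).nonneg _).trans (hle (Classical.arbitrary σ))
  rw [MvPolynomial.eval_eq', mul_assoc]
  refine 𝔸.abv_sum_le _ _ v (mul_nonneg (hC.nonneg v) (pow_nonneg hB0 _)) fun m hm => ?_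
  rw [map_mul]
  refine mul_le_mul (hC' v m) ?_ ((𝔸.abv v).nonneg _) (hC.nonneg v)
  have hdeg : (m.sum fun _ e => e) = d := by
    have := hf (MvPolynomial.mem_support_iff.1 hm)
    rw [Finsupp.weight_apply] at this
    simpa using this
  rw [← hdeg]
  exact abv_monomial_le 𝔸 v s m hle

/-- inhomogeneous upper bound: arguments bounded by an M-constant give value bounded by an M-constant -/
theorem exists_eval_bound' {σ : Type*} [Finite σ] (f : MvPolynomial σ K) {R : V → ℝ} (hR : IsMC R) :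
    ∃ C, IsMC C ∧ ∀ v (s : σ → K), (∀ j, 𝔸.abv v (s j) ≤ R v) →
      𝔸.abv v (MvPolynomial.eval s f) ≤ C v := by
  classical
  have := Fintype.ofFinite σ
  obtain ⟨C, hC, hC'⟩ := exists_coeff_bound 𝔸 f
  refine ⟨_, (𝔸.isMC_card f.support.card).mul (hC.mul (hR.pow f.totalDegree)), fun v s hs => ?_⟩
  rw [MvPolynomial.eval_eq']
  refine 𝔸.abv_sum_le _ _ v (mul_nonneg (hC.nonneg v) (pow_nonneg (hR.nonneg v) _)) fun m hm => ?_
  rw [map_mul]
  refine mul_le_mul (hC' v m) ?_ ((𝔸.abv v).nonneg _) (hC.nonneg v)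
  refine (abv_monomial_le 𝔸 v s m hs).trans ?_
  exact pow_le_pow_right₀ (hR.one_le v) (MvPolynomial.le_totalDegree hm)

attribute [local instance] MvPolynomial.gradedAlgebra in
theorem homogeneousComponent_mul_right {σ R : Type*} [CommRing R] {f g : MvPolynomial σ R}
    {d n : ℕ} (hf : f.IsHomogeneous d) (h : d ≤ n) :
    MvPolynomial.homogeneousComponent n (g * f) =
      MvPolynomial.homogeneousComponent (n - d) g * f := by
  have := DirectSum.coe_decompose_mul_of_right_mem_of_le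
    (𝒜 := MvPolynomial.homogeneousSubmodule σ R) (a := g) (b := f) hf h
  have e : ∀ (φ : MvPolynomial σ R) (i : ℕ),
      (DirectSum.decompose (MvPolynomial.homogeneousSubmodule σ R) φ i : MvPolynomial σ R) =
        MvPolynomial.homogeneousComponent i φ :=
    fun φ i => MvPolynomial.decomposition.decompose'_apply φ i
  rwa [e, e] at this

theorem exists_pow_eq [IsAlgClosed K] {σ ι : Type*} [Finite σ] [Fintype ι]
    (f : ι → MvPolynomial σ K) {d : ℕ} (hf : ∀ i, (f i).IsHomogeneous d)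
    (h0 : ∀ s : σ → K, (∀ i, MvPolynomial.eval s (f i) = 0) → s = 0) (j : σ) :
    ∃ M, d ≤ M ∧ ∃ g : ι → MvPolynomial σ K, (∀ i, (g i).IsHomogeneous (M - d)) ∧
      MvPolynomial.X j ^ M = ∑ i, g i * f i := by
  have h1 : (MvPolynomial.X j : MvPolynomial σ K) ∈
      MvPolynomial.vanishingIdeal K (MvPolynomial.zeroLocus K (Ideal.span (Set.range f))) := by
    rw [MvPolynomial.mem_vanishingIdeal_iff]
    intro s hs
    rw [MvPolynomial.mem_zeroLocus_iff] at hs
    have : s = 0 := h0 s fun i => by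
      have := hs (f i) (Ideal.subset_span ⟨i, rfl⟩)
      simpa [MvPolynomial.aeval_eq_eval] using this
    rw [this]
    simp
  rw [MvPolynomial.vanishingIdeal_zeroLocus_eq_radical] at h1
  obtain ⟨M₀, hM₀⟩ := h1
  have h2 : (MvPolynomial.X j : MvPolynomial σ K) ^ (M₀ + d) ∈ Ideal.span (Set.range f) := by
    rw [pow_add]
    exact Ideal.mul_mem_right _ _ hM₀
  rw [Ideal.mem_span_range_iff_exists_fun] at h2
  obtain ⟨g, hg⟩ := h2
  refine ⟨M₀ + d, Nat.le_add_left _ _, fun i =>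
    MvPolynomial.homogeneousComponent (M₀ + d - d) (g i), fun i =>
      MvPolynomial.homogeneousComponent_isHomogeneous _ _, ?_⟩
  have h3 : MvPolynomial.homogeneousComponent (M₀ + d)
      ((MvPolynomial.X j : MvPolynomial σ K) ^ (M₀ + d)) = MvPolynomial.X j ^ (M₀ + d) := by
    rw [MvPolynomial.homogeneousComponent_eq_self]
    exact MvPolynomial.isHomogeneous_X_pow j _
  rw [← h3, ← hg, map_sum]
  exact Finset.sum_congr rfl fun i _ => homogeneousComponent_mul_right (hf i) (Nat.le_add_left _ _)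

theorem exists_null_bound [IsAlgClosed K] {σ ι : Type*} [Finite σ] [Nonempty σ] [Finite ι] [Nonempty ι]
    (f : ι → MvPolynomial σ K) {d : ℕ} (hd : 0 < d) (hf : ∀ i, (f i).IsHomogeneous d)
    (h0 : ∀ s : σ → K, (∀ i, MvPolynomial.eval s (f i) = 0) → s = 0) :
    ∃ C, IsMC C ∧ ∀ v (s : σ → K),
      (⨆ j, 𝔸.abv v (s j)) ^ d ≤ C v * ⨆ i, 𝔸.abv v (MvPolynomial.eval s (f i)) := by
  classical
  have := Fintype.ofFinite σ
  have := Fintype.ofFinite ι
  choose M hM g hg hX using exists_pow_eq f hf h0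
  choose C hC hC' using fun ji : σ × ι => exists_eval_bound 𝔸 (g ji.1 ji.2) (hg ji.1 ji.2)
  obtain ⟨D, hD, hD'⟩ := exists_isMC_forall hC
  refine ⟨_, (𝔸.isMC_card (Finset.univ : Finset ι).card).mul hD, fun v s => ?_⟩
  set B := ⨆ j, 𝔸.abv v (s j) with hB
  set E := ⨆ i, 𝔸.abv v (MvPolynomial.eval s (f i)) with hE
  have hle : ∀ j, 𝔸.abv v (s j) ≤ B := fun j => le_ciSup (Set.finite_range fun j => 𝔸.abv v (s j)).bddAbove j
  have hB0 : 0 ≤ B := ((𝔸.abv v).nonneg _).trans (hle (Classical.arbitrary σ))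
  have hEle : ∀ i, 𝔸.abv v (MvPolynomial.eval s (f i)) ≤ E := fun i =>
    le_ciSup (Set.finite_range fun i => 𝔸.abv v (MvPolynomial.eval s (f i))).bddAbove i
  have hE0 : 0 ≤ E := ((𝔸.abv v).nonneg _).trans (hEle (Classical.arbitrary ι))
  obtain ⟨j, hj⟩ := exists_eq_ciSup_of_finite (f := fun j => 𝔸.abv v (s j))
  rw [← hB] at hj
  rcases hB0.eq_or_lt with h | hpos
  · rw [← h, zero_pow hd.ne']
    exact mul_nonneg (mul_nonneg ((𝔸.isMC_card _).nonneg v) (hD.nonneg v)) hE0
  have key : B ^ M j ≤ 𝔸.card (Finset.univ : Finset ι).card v *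
      (D v * B ^ (M j - d) * E) := by
    have h1 : B ^ M j = 𝔸.abv v (∑ i, MvPolynomial.eval s (g j i) * MvPolynomial.eval s (f i)) := by
      rw [← hj, ← map_pow]
      congr 1
      have := congrArg (MvPolynomial.eval s) (hX j)
      rw [map_pow, MvPolynomial.eval_X, map_sum] at this
      rw [this]
      exact Finset.sum_congr rfl fun i _ => map_mul _ _ _
    rw [h1]
    refine 𝔸.abv_sum_le _ _ v (mul_nonneg (mul_nonneg (hD.nonneg v) (pow_nonneg hB0 _)) hE0)
      fun i _ => ?_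
    rw [map_mul]
    refine mul_le_mul ?_ (hEle i) ((𝔸.abv v).nonneg _)
      (mul_nonneg (hD.nonneg v) (pow_nonneg hB0 _))
    exact (hC' (j, i) v s).trans (mul_le_mul_of_nonneg_right (hD' (j, i) v) (pow_nonneg hB0 _))
  have hsplit : B ^ M j = B ^ d * B ^ (M j - d) := by
    rw [← pow_add, Nat.add_sub_cancel' (hM j)]
  rw [hsplit] at key
  have hp : 0 < B ^ (M j - d) := pow_pos hpos _
  refine le_of_mul_le_mul_right ?_ hp
  calc B ^ d * B ^ (M j - d) ≤ _ := key
    _ = _ := by ring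

end Null

end Fermat.Agent.H17
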