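/-
H62Int: functions regular where `y` is regular are integral over `K[y]` and are bounded where `y` is bounded;
they separate the places where `y` is regular.
-/
import Mathlib
import Fermat.Agent.H17Defs
import Fermat.Agent.H94Divisors

set_option autoImplicit false

noncomputable section

open AlgebraicCurve WithZero Polynomial

namespace Fermat.Agent.H62

open Fermat.Agent.H3RR Fermat.Agent.H17

variable {K F V : Type*} [Field K] [Field F] [Algebra K F] [IsFF K F]

/-- A function regular wherever `y` is regular is integral over `K[y]`: monic relation. -/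
theorem exists_monic_rel (y f : F)
    (hf : ∀ P : Place K F, y ∈ P.toValuationSubring → f ∈ P.toValuationSubring) :
    ∃ (n : ℕ) (c : ℕ → K[X]), f ^ n = ∑ i ∈ Finset.range n, aeval y (c i) * f ^ i := by
  classical
  have hcl : (Subring.closure ((Algebra.adjoin K {y} : Subalgebra K F) : Set F)) =
      (Algebra.adjoin K {y}).toSubring := Subring.closure_eq (Algebra.adjoin K {y}).toSubring
  have h1 : f ∈ (integralClosure (Subring.closure ((Algebra.adjoin K {y} : Subalgebra K F) : Set F))
      F).toSubring := by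
    rw [← iInf_valuationSubring_superset]
    rw [Subring.mem_iInf]
    rintro ⟨B, hB⟩
    by_contra hfB
    have hfB' : f ∉ B := hfB
    have hK : ∀ a : K, algebraMap K F a ∈ B := fun a => hB ((Algebra.adjoin K {y}).algebraMap_mem a)
    have htop : B ≠ ⊤ := by
      rintro rfl
      exact hfB' trivial
    have hy : y ∈ (placeOf B hK htop).toValuationSubring :=
      hB (Algebra.self_mem_adjoin_singleton K y)
    exact hfB' (hf _ hy)
  obtain ⟨p, hp, hpf⟩ := h1
  have hc : ∀ i, ∃ q : K[X], aeval y q = ((p.coeff i : Subring.closure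
      ((Algebra.adjoin K {y} : Subalgebra K F) : Set F)) : F) := fun i => by
    have h2 : ((p.coeff i : Subring.closure
      ((Algebra.adjoin K {y} : Subalgebra K F) : Set F)) : F) ∈ (Algebra.adjoin K {y}).toSubring := by
      rw [← hcl]; exact (p.coeff i).2
    exact (Algebra.adjoin_singleton_eq_range_aeval K y).le h2
  choose q hq using hc
  refine ⟨p.natDegree, fun i => -q i, ?_⟩
  rw [Polynomial.eval₂_eq_sum_range, Finset.sum_range_succ, hp.coeff_natDegree, map_one, one_mul] at hpf
  have h3 : f ^ p.natDegree = - ∑ x ∈ Finset.range p.natDegree, (algebraMap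
      (Subring.closure ((Algebra.adjoin K {y} : Subalgebra K F) : Set F)) F) (p.coeff x) * f ^ x := by
    rw [eq_neg_iff_add_eq_zero, add_comm]; exact hpf
  rw [h3, ← Finset.sum_neg_distrib]
  refine Finset.sum_congr rfl fun i _ => ?_
  rw [map_neg, hq i, neg_mul]
  rfl

variable (𝔸 : AbsFam K V)

/-- polynomials in one variable are bounded where the argument is -/
theorem exists_polyEval_le (p : K[X]) {R : V → ℝ} (hR : IsMC R) :
    ∃ C, IsMC C ∧ ∀ v (t : K), 𝔸.abv v t ≤ R v → 𝔸.abv v (p.eval t) ≤ C v := by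
  classical
  choose A hA hA' using fun i : ℕ => 𝔸.exists_isMC_abv_le (p.coeff i)
  obtain ⟨B, hB, hB'⟩ := exists_isMC_forall (ι := Fin (p.natDegree + 1)) (fun i => hA i)
  refine ⟨fun v => 𝔸.card (Finset.range (p.natDegree + 1)).card v * (B v * R v ^ p.natDegree),
    (𝔸.isMC_card _).mul (hB.mul (hR.pow _)), fun v t ht => ?_⟩
  rw [Polynomial.eval_eq_sum_range]
  refine 𝔸.abv_sum_le _ _ v (mul_nonneg (hB.nonneg v) (pow_nonneg (hR.nonneg v) _)) fun i hi => ?_
  rw [map_mul, map_pow]
  refine mul_le_mul ?_ ?_ (pow_nonneg ((𝔸.abv v).nonneg _) _) (hB.nonneg v)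
  · exact (hA' i v).trans (hB' ⟨i, Finset.mem_range.mp hi⟩ v)
  · calc 𝔸.abv v t ^ i ≤ R v ^ i := pow_le_pow_left₀ ((𝔸.abv v).nonneg _) ht i
      _ ≤ R v ^ p.natDegree :=
        pow_le_pow_right₀ (hR.one_le v) (Nat.lt_succ_iff.mp (Finset.mem_range.mp hi))

/-- roots of monic polynomials with bounded coefficients are bounded -/
theorem abv_le_of_pow_eq_sum (n : ℕ) (v : V) (y : K) (a : ℕ → K) {D : ℝ} (hD : 1 ≤ D)
    (ha : ∀ i < n, 𝔸.abv v (a i) ≤ D) (h : y ^ n = ∑ i ∈ Finset.range n, a i * y ^ i) :
    𝔸.abv v y ≤ 𝔸.card n v * D := by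
  have hc := (𝔸.isMC_card n).one_le v
  have hCD : 1 ≤ 𝔸.card n v * D := one_le_mul_of_one_le_of_one_le hc hD
  by_contra hlt
  push Not at hlt
  have hy1 : 1 < 𝔸.abv v y := hCD.trans_lt hlt
  rcases n with _ | n
  · simp at h
  have h1 : 𝔸.abv v (y ^ (n + 1)) ≤ 𝔸.card (Finset.range (n + 1)).card v *
      (D * 𝔸.abv v y ^ n) := by
    rw [h]
    refine 𝔸.abv_sum_le _ _ v (by positivity) fun i hi => ?_
    rw [map_mul, map_pow]
    exact mul_le_mul (ha i (Finset.mem_range.mp hi)) (pow_le_pow_right₀ hy1.le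
      (Nat.lt_succ_iff.mp (Finset.mem_range.mp hi))) (by positivity) (by positivity)
  rw [Finset.card_range, map_pow, pow_succ', ← mul_assoc] at h1
  exact absurd (le_of_mul_le_mul_right h1 (by positivity)) (not_le.mpr hlt)

variable [IsAlgClosed K]

/-- functions regular where `y` is regular are bounded where `y` is bounded -/
theorem exists_val_le (y f : F) {R : V → ℝ} (hR : IsMC R)
    (hf : ∀ P : Place K F, y ∈ P.toValuationSubring → f ∈ P.toValuationSubring) :
    ∃ C, IsMC C ∧ ∀ v (P : Place K F), y ∈ P.toValuationSubring → 𝔸.abv v (val P y) ≤ R v →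
      𝔸.abv v (val P f) ≤ C v := by
  classical
  obtain ⟨n, c, hn⟩ := exists_monic_rel y f hf
  choose A hA hA' using fun i : ℕ => exists_polyEval_le 𝔸 (c i) hR
  obtain ⟨B, hB, hB'⟩ := exists_isMC_forall (ι := Fin n) (fun i => hA i)
  refine ⟨fun v => 𝔸.card n v * B v, (𝔸.isMC_card _).mul hB, fun v P hP hv => ?_⟩
  have hfP := hf P hP
  have hyP : ∀ q : K[X], aeval y q ∈ P.toValuationSubring := fun q =>
    aeval_mem P.toValuationSubring P.algebraMap_mem' hP q
  refine abv_le_of_pow_eq_sum 𝔸 n v (val P f) (fun i => (c i).eval (val P y)) (hB.one_le v)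
    (fun i hi => (hA' i v _ hv).trans (hB' ⟨i, hi⟩ v)) ?_
  rw [← val_pow P hfP, hn, val_sum P _ _ fun i _ => mul_mem (hyP _) (pow_mem hfP i)]
  exact Finset.sum_congr rfl fun i _ => by
    rw [val_mul P (hyP _) (pow_mem hfP i), val_aeval P hP, val_pow P hfP]

/-- functions regular where `y` is regular separate the places where `y` is regular -/
theorem eq_of_forall_val_eq [CharZero K] {y : F} (hy : Transcendental K y) {P Q : Place K F}
    (hP : y ∈ P.toValuationSubring) (hQ : y ∈ Q.toValuationSubring)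
    (h : ∀ f : F, (∀ R : Place K F, y ∈ R.toValuationSubring → f ∈ R.toValuationSubring) →
      val P f = val Q f) : P = Q := by
  have := IsFF.finiteDimensional (K := K) (F := F) hy
  have := H94.isDedekindDomain_intRing (F := F) hy
  have := H94.isFractionRing_intRing (K := K) (F := F) (x := y)
  have hRP : ∀ r : H94.IntRing K y, algebraMap _ F r ∈ P.toValuationSubring := H94.mem_of_intRing hP
  have hRQ : ∀ r : H94.IntRing K y, algebraMap _ F r ∈ Q.toValuationSubring := H94.mem_of_intRing hQ
  have key : ∀ (P : Place K F) (hR : ∀ r : H94.IntRing K y, algebraMap _ F r ∈ P.toValuationSubring)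
      (r : H94.IntRing K y), r ∈ (H94.primeBelow P hR).asIdeal ↔ val P (algebraMap _ F r) = 0 := by
    intro P hR r
    rw [H94.mem_primeBelow_iff]
    rcases eq_or_ne r 0 with rfl | hr
    · simp
    · have hr' : algebraMap (H94.IntRing K y) F r ≠ 0 := by
        rw [ne_eq, map_eq_zero_iff _ (IsFractionRing.injective _ F)]; exact hr
      rw [or_iff_right hr, val_eq_zero_iff P hr' (hR r)]
  have hPQ : H94.primeBelow P hRP = H94.primeBelow Q hRQ := by
    apply IsDedekindDomain.HeightOneSpectrum.ext
    ext r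
    rw [key P hRP, key Q hRQ, h _ fun R hR => H94.mem_of_intRing hR r]
  rw [← H94.ofHeightOneSpectrum_primeBelow P hRP, ← H94.ofHeightOneSpectrum_primeBelow Q hRQ, hPQ]

end Fermat.Agent.H62
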