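/-
H17Int: integrality bounds (project S17; statements frozen by helper17, proofs by the job owner; helper lemmas may be added)
-/
import Mathlib
import Fermat.Agent.H17Nrm
import Fermat.Agent.H17Null
import Fermat.Agent.H62Int

set_option autoImplicit false

noncomputable section

open AlgebraicCurve WithZero Polynomial

namespace Fermat.Agent.H17

open Fermat.Agent.H3RR

namespace HSetup

variable {K F V : Type*} [Field K] [Field F] [Algebra K F] [IsAlgClosed K] [CharZero K] [IsFF K F]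
variable (S : HSetup K F V)

/-! ### L5: integrality bounds (file H17Int) -/

/-- functions regular where `x` is regular are bounded where `x` is bounded -/
theorem exists_val_le {R : V → ℝ} (hR : IsMC R) (f : F)
    (hf : ∀ P : Place K F, S.x ∈ P.toValuationSubring → f ∈ P.toValuationSubring) :
    ∃ C, IsMC C ∧ ∀ v (P : Place K F), S.x ∈ P.toValuationSubring → S.𝔸.abv v (val P S.x) ≤ R v →
      S.𝔸.abv v (val P f) ≤ C v := Fermat.Agent.H62.exists_val_le S.𝔸 S.x f hR hf

theorem x_ne_zero : S.x ≠ 0 := transcendental_ne_zero S.hx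

/-- sections are regular where `x` is regular -/
theorem mem_of_mem_W {N : ℕ} {s : F} (hs : s ∈ W K S.x N) {P : Place K F}
    (hP : S.x ∈ P.toValuationSubring) : s ∈ P.toValuationSubring := by
  have h := hs P
  rwa [nf_of_mem hP, one_pow, mul_one] at h

/-- `s x⁻ᴺ` is regular where `x⁻¹` is regular -/
theorem mul_inv_pow_mem {N : ℕ} {s : F} (hs : s ∈ W K S.x N) {P : Place K F}
    (hP : S.x⁻¹ ∈ P.toValuationSubring) : s * S.x⁻¹ ^ N ∈ P.toValuationSubring := by
  by_cases h : S.x ∈ P.toValuationSubring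
  · exact mul_mem (S.mem_of_mem_W hs h) (pow_mem hP N)
  · have h' := hs P
    rwa [nf_of_notMem h] at h'

/-- the value of a fixed section is bounded by the values of `1` and `x` -/
theorem exists_ev_le_max {N : ℕ} {s : F} (hs : s ∈ W K S.x N) :
    ∃ C, IsMC C ∧ ∀ v (P : Place K F), S.𝔸.abv v (ev S.x N P s) ≤
      C v * max (S.𝔸.abv v (ev S.x 1 P 1)) (S.𝔸.abv v (ev S.x 1 P S.x)) ^ N := by
  obtain ⟨C, hC, hC'⟩ := Fermat.Agent.H62.exists_val_le S.𝔸 S.x s isMC_one
    (fun P hP => S.mem_of_mem_W hs hP)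
  obtain ⟨D, hD, hD'⟩ := Fermat.Agent.H62.exists_val_le S.𝔸 S.x⁻¹ (s * S.x⁻¹ ^ N) isMC_one
    (fun P hP => S.mul_inv_pow_mem hs hP)
  refine ⟨fun v => max (C v) (D v), hC.max hD, fun v P => ?_⟩
  by_cases hP : S.x ∈ P.toValuationSubring
  · rw [ev_of_mem hP, ev_one_of_mem hP, ev_self_of_mem hP, map_one]
    rcases le_or_gt (S.𝔸.abv v (val P S.x)) 1 with h1 | h1
    · rw [max_eq_left h1, one_pow, mul_one]
      exact (hC' v P hP h1).trans (le_max_left _ _)
    · rw [max_eq_right h1.le]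
      have hx0 : val P S.x ≠ 0 := by
        intro h; rw [h, map_zero] at h1; exact absurd h1 (not_lt.mpr zero_le_one)
      obtain ⟨h2, h3⟩ := val_inv P hP hx0
      have h4 : S.𝔸.abv v (val P S.x⁻¹) ≤ 1 := by
        rw [h3, map_inv₀]; exact inv_le_one_of_one_le₀ h1.le
      have h5 : s = (s * S.x⁻¹ ^ N) * S.x ^ N := by
        rw [mul_assoc, ← mul_pow, inv_mul_cancel₀ S.x_ne_zero, one_pow, mul_one]
      rw [h5, val_mul P (S.mul_inv_pow_mem hs h2) (pow_mem hP N), val_pow P hP, map_mul, map_pow]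
      exact mul_le_mul_of_nonneg_right ((hD' v P h2 h4).trans (le_max_right _ _))
        (pow_nonneg ((S.𝔸.abv v).nonneg _) _)
  · have h2 := inv_mem_of_notMem P hP
    rw [ev_of_notMem hP, ev_self_of_notMem hP, map_one]
    have h4 : S.𝔸.abv v (val P S.x⁻¹) ≤ 1 := by
      rw [val_inv_of_notMem P hP, map_zero]; exact zero_le_one
    calc S.𝔸.abv v (val P (s * S.x⁻¹ ^ N)) ≤ D v := hD' v P h2 h4
      _ ≤ max (C v) (D v) := le_max_right _ _
      _ ≤ max (C v) (D v) * max (S.𝔸.abv v (ev S.x 1 P 1)) 1 ^ N :=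
        le_mul_of_one_le_right ((hC.max hD).nonneg v) (one_le_pow₀ (le_max_right _ _))

/-- value of a section in terms of coordinates -/
theorem ev_eq_sum {N : ℕ} {s : F} (hs : s ∈ W K S.x N) (P : Place K F) :
    ev S.x N P s = ∑ i, (S.b N).repr ⟨s, hs⟩ i * ev S.x N P ((S.b N i : W K S.x N) : F) := by
  have h1 := (S.b N).sum_repr ⟨s, hs⟩
  have h2 : s = ∑ i, (S.b N).repr ⟨s, hs⟩ i • ((S.b N i : W K S.x N) : F) := by
    conv_lhs => rw [show s = ((⟨s, hs⟩ : W K S.x N) : F) from rfl, ← h1]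
    rw [AddSubmonoidClass.coe_finsetSum]
    exact Finset.sum_congr rfl fun i _ => rfl
  conv_lhs => rw [h2]
  rw [ev_sum _ _ fun i _ => (W K S.x N).smul_mem _ (S.b N i).2]
  exact Finset.sum_congr rfl fun i _ => ev_smul (S.b N i).2 _ P

theorem exists_le_w_aux {s : F} (hs : s ∈ W K S.x 1) : ∃ C, IsMC C ∧ ∀ v (P : Place K F),
    S.𝔸.abv v (ev S.x 1 P s) ≤ C v * S.w v P := by
  obtain ⟨C, hC, hC'⟩ := S.exists_nrm_le 1 s
  refine ⟨fun v => S.𝔸.card (Finset.univ : Finset (Fin (S.r 1))).card v * C v,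
    (S.𝔸.isMC_card _).mul hC, fun v P => ?_⟩
  rw [S.ev_eq_sum hs, mul_assoc]
  refine S.𝔸.abv_sum_le _ _ v (mul_nonneg (hC.nonneg v) (S.w_pos v P).le) fun i _ => ?_
  rw [map_mul]
  exact mul_le_mul ((S.abv_repr_le hs v i).trans (hC' v)) (S.abv_e_le v P i)
    ((S.𝔸.abv v).nonneg _) (hC.nonneg v)

theorem exists_le_w : ∃ C, IsMC C ∧ ∀ v (P : Place K F),
    max (S.𝔸.abv v (ev S.x 1 P 1)) (S.𝔸.abv v (ev S.x 1 P S.x)) ≤ C v * S.w v P := by
  obtain ⟨C, hC, hC'⟩ := S.exists_le_w_aux (one_mem_W S.x 1)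
  obtain ⟨D, hD, hD'⟩ := S.exists_le_w_aux (self_mem_W S.x)
  refine ⟨fun v => max (C v) (D v), hC.max hD, fun v P => max_le ?_ ?_⟩
  · exact (hC' v P).trans (mul_le_mul_of_nonneg_right (le_max_left _ _) (S.w_pos v P).le)
  · exact (hD' v P).trans (mul_le_mul_of_nonneg_right (le_max_right _ _) (S.w_pos v P).le)

/-- the fundamental upper bound for the value of a section -/
theorem exists_ev_le (N : ℕ) : ∃ C, IsMC C ∧ ∀ v (P : Place K F), ∀ s ∈ W K S.x N,
    S.𝔸.abv v (ev S.x N P s) ≤ C v * (S.nrm N v s * S.w v P ^ N) := by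
  choose A hA hA' using fun i : Fin (S.r N) => S.exists_ev_le_max (S.b N i).2
  obtain ⟨B, hB, hB'⟩ := exists_isMC_forall hA
  obtain ⟨D, hD, hD'⟩ := S.exists_le_w
  refine ⟨fun v => S.𝔸.card (Finset.univ : Finset (Fin (S.r N))).card v * (B v * D v ^ N),
    (S.𝔸.isMC_card _).mul (hB.mul (hD.pow N)), fun v P s hs => ?_⟩
  rw [S.ev_eq_sum hs, mul_assoc]
  have hw := (S.w_pos v P).le
  have hn := S.nrm_nonneg N v s
  refine (S.𝔸.abv_sum_le _ _ v (B := S.nrm N v s * (B v * (D v * S.w v P) ^ N)) (mul_nonneg hn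
    (mul_nonneg (hB.nonneg v) (pow_nonneg (mul_nonneg (hD.nonneg v) hw) _))) fun i _ => ?_).trans
    (le_of_eq (by ring))
  rw [map_mul]
  refine mul_le_mul (S.abv_repr_le hs v i) ?_ ((S.𝔸.abv v).nonneg _) hn
  refine (hA' i v P).trans (mul_le_mul (hB' i v) ?_ ?_ (hB.nonneg v))
  · exact pow_le_pow_left₀ (le_max_of_le_left ((S.𝔸.abv v).nonneg _)) (hD' v P) _
  · exact pow_nonneg (le_max_of_le_left ((S.𝔸.abv v).nonneg _)) _

/-- `w` is comparable to the maximum of the values of `1` and `x` -/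
theorem exists_w_le : ∃ C, IsMC C ∧ ∀ v (P : Place K F),
    S.w v P ≤ C v * max (S.𝔸.abv v (ev S.x 1 P 1)) (S.𝔸.abv v (ev S.x 1 P S.x)) := by
  choose A hA hA' using fun i : Fin (S.r 1) => S.exists_ev_le_max (S.b 1 i).2
  obtain ⟨B, hB, hB'⟩ := exists_isMC_forall hA
  refine ⟨B, hB, fun v P => ciSup_le fun i => ?_⟩
  refine (hA' i v P).trans ?_
  rw [pow_one]
  exact mul_le_mul_of_nonneg_right (hB' i v) (le_max_of_le_left ((S.𝔸.abv v).nonneg _))

/-- `w` is bounded above on the bounded part of the affine chart -/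
theorem exists_w_le_of_le {R : V → ℝ} (hR : IsMC R) : ∃ C, IsMC C ∧ ∀ v (P : Place K F),
    S.x ∈ P.toValuationSubring → S.𝔸.abv v (val P S.x) ≤ R v → S.w v P ≤ C v ∧ 1 ≤ C v * S.w v P := by
  obtain ⟨C, hC, hC'⟩ := S.exists_w_le
  obtain ⟨D, hD, hD'⟩ := S.exists_le_w
  refine ⟨fun v => max (C v * R v) (D v), (hC.mul hR).max hD, fun v P hP hv => ⟨?_, ?_⟩⟩
  · refine ((hC' v P).trans ?_).trans (le_max_left _ _)
    refine mul_le_mul_of_nonneg_left ?_ (hC.nonneg v)
    rw [ev_one_of_mem hP, ev_self_of_mem hP, map_one]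
    exact max_le (hR.one_le v) hv
  · have h1 := hD' v P
    rw [ev_one_of_mem hP, map_one] at h1
    exact ((le_max_left _ _).trans h1).trans
      (mul_le_mul_of_nonneg_right (le_max_right _ _) (S.w_pos v P).le)

/-- Lipschitz bound on the bounded part of the affine chart -/
theorem exists_lipschitz {R : V → ℝ} (hR : IsMC R) (f : F)
    (hf : ∀ P : Place K F, S.x ∈ P.toValuationSubring → f ∈ P.toValuationSubring) :
    ∃ C, IsMC C ∧ ∀ v (P Q : Place K F), S.x ∈ P.toValuationSubring → S.x ∈ Q.toValuationSubring →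
      S.𝔸.abv v (val P S.x) ≤ R v → S.𝔸.abv v (val Q S.x) ≤ R v →
      S.𝔸.abv v (val P f - val Q f) ≤ C v * S.dist v P Q := by
  have hreg : ∀ g ∈ Algebra.adjoin K (W K S.x 1 : Set F), ∀ P : Place K F,
      S.x ∈ P.toValuationSubring → g ∈ P.toValuationSubring := by
    intro g hg P hP
    have : Algebra.adjoin K (W K S.x 1 : Set F) ≤
        { P.toValuationSubring.toSubring with algebraMap_mem' := P.algebraMap_mem' } :=
      Algebra.adjoin_le fun s hs => S.mem_of_mem_W hs hP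
    exact this hg
  have two : ∀ (v : V) (a b : K) {B : ℝ}, 0 ≤ B → S.𝔸.abv v a ≤ B → S.𝔸.abv v b ≤ B →
      S.𝔸.abv v (a + b) ≤ S.𝔸.card 2 v * B := by
    intro v a b B hB ha hb
    have := S.𝔸.abv_sum_le (Finset.univ : Finset (Fin 2)) ![a, b] v hB (by
      intro i _
      fin_cases i
      · exact ha
      · exact hb)
    simpa using this
  have key := S.gen0 f hf
  induction key using Algebra.adjoin_induction with
  | mem s hs =>
    obtain ⟨C, hC, hC'⟩ := S.exists_minor_le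
    obtain ⟨A, hA, hA'⟩ := S.exists_nrm_le 1 s
    obtain ⟨B, hB, hB'⟩ := S.exists_nrm_le 1 (1 : F)
    obtain ⟨D, hD, hD'⟩ := S.exists_w_le_of_le hR
    refine ⟨fun v => C v * (A v * B v * (D v * D v)), hC.mul ((hA.mul hB).mul (hD.mul hD)),
      fun v P Q hP hQ hvP hvQ => ?_⟩
    have h1 := hC' v Q P s hs 1 (one_mem_W S.x 1)
    rw [ev_one_of_mem hP, ev_one_of_mem hQ, one_mul, mul_one, ev_of_mem hP, ev_of_mem hQ] at h1
    refine h1.trans ?_
    rw [S.dist_comm v Q P, mul_assoc (C v), mul_assoc (A v * B v)]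
    refine mul_le_mul_of_nonneg_left ?_ (hC.nonneg v)
    refine mul_le_mul (mul_le_mul (hA' v) (hB' v) (S.nrm_nonneg 1 v _) (hA.nonneg v)) ?_
      (mul_nonneg (mul_nonneg (S.w_pos v Q).le (S.w_pos v P).le) (S.dist_nonneg v P Q))
      ((hA.mul hB).nonneg v)
    refine mul_le_mul_of_nonneg_right ?_ (S.dist_nonneg v P Q)
    exact mul_le_mul (hD' v Q hQ hvQ).1 (hD' v P hP hvP).1 (S.w_pos v P).le (hD.nonneg v)
  | algebraMap c =>
    refine ⟨_, isMC_one, fun v P Q _ _ _ _ => ?_⟩
    rw [val_algebraMap, val_algebraMap, sub_self, map_zero, one_mul]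
    exact S.dist_nonneg v P Q
  | add g h hg hh ihg ihh =>
    obtain ⟨C, hC, hC'⟩ := ihg (hreg g hg)
    obtain ⟨D, hD, hD'⟩ := ihh (hreg h hh)
    refine ⟨fun v => S.𝔸.card 2 v * max (C v) (D v), (S.𝔸.isMC_card 2).mul (hC.max hD),
      fun v P Q hP hQ hvP hvQ => ?_⟩
    have e : val P (g + h) - val Q (g + h) = (val P g - val Q g) + (val P h - val Q h) := by
      rw [val_add P (hreg g hg P hP) (hreg h hh P hP), val_add Q (hreg g hg Q hQ) (hreg h hh Q hQ)]
      ring
    have hd := S.dist_nonneg v P Q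
    rw [e, mul_assoc]
    refine two v _ _ (mul_nonneg ((hC.max hD).nonneg v) hd) ?_ ?_
    · exact (hC' v P Q hP hQ hvP hvQ).trans (mul_le_mul_of_nonneg_right (le_max_left _ _) hd)
    · exact (hD' v P Q hP hQ hvP hvQ).trans (mul_le_mul_of_nonneg_right (le_max_right _ _) hd)
  | mul g h hg hh ihg ihh =>
    obtain ⟨C, hC, hC'⟩ := ihg (hreg g hg)
    obtain ⟨D, hD, hD'⟩ := ihh (hreg h hh)
    obtain ⟨A, hA, hA'⟩ := S.exists_val_le hR g (hreg g hg)
    obtain ⟨B, hB, hB'⟩ := S.exists_val_le hR h (hreg h hh)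
    refine ⟨fun v => S.𝔸.card 2 v * max (A v * D v) (B v * C v), (S.𝔸.isMC_card 2).mul
      ((hA.mul hD).max (hB.mul hC)), fun v P Q hP hQ hvP hvQ => ?_⟩
    have e : val P (g * h) - val Q (g * h) = val P g * (val P h - val Q h)
        + val Q h * (val P g - val Q g) := by
      rw [val_mul P (hreg g hg P hP) (hreg h hh P hP), val_mul Q (hreg g hg Q hQ) (hreg h hh Q hQ)]
      ring
    have hd := S.dist_nonneg v P Q
    rw [e, mul_assoc]
    refine two v _ _ (mul_nonneg (((hA.mul hD).max (hB.mul hC)).nonneg v) hd) ?_ ?_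
    · refine le_trans ?_ (mul_le_mul_of_nonneg_right (le_max_left _ _) hd)
      rw [map_mul, mul_assoc]
      exact mul_le_mul (hA' v P hP hvP) (hD' v P Q hP hQ hvP hvQ) ((S.𝔸.abv v).nonneg _)
        (hA.nonneg v)
    · refine le_trans ?_ (mul_le_mul_of_nonneg_right (le_max_right _ _) hd)
      rw [map_mul, mul_assoc]
      exact mul_le_mul (hB' v Q hQ hvQ) (hC' v P Q hP hQ hvP hvQ) ((S.𝔸.abv v).nonneg _)
        (hB.nonneg v)

/-- if all minors of two coordinate vectors vanish, the places are equal -/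
theorem eq_of_minors {P Q : Place K F}
    (h : ∀ i j, S.e P i * S.e Q j - S.e P j * S.e Q i = 0) : P = Q := by
  -- all minors of sections of `D` vanish
  have hyz : ∀ y ∈ W K S.x 1, ∀ z ∈ W K S.x 1,
      ev S.x 1 P z * ev S.x 1 Q y = ev S.x 1 P y * ev S.x 1 Q z := by
    intro y hy z hz
    rw [S.ev_eq_sum hy P, S.ev_eq_sum hy Q, S.ev_eq_sum hz P, S.ev_eq_sum hz Q,
      Finset.sum_mul_sum, Finset.sum_mul_sum, Finset.sum_comm]
    refine Finset.sum_congr rfl fun i _ => Finset.sum_congr rfl fun j _ => ?_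
    have hij := h j i
    simp only [e] at hij
    linear_combination (S.b 1).repr ⟨y, hy⟩ i * (S.b 1).repr ⟨z, hz⟩ j * hij
  by_cases hP : S.x ∈ P.toValuationSubring
  · by_cases hQ : S.x ∈ Q.toValuationSubring
    · refine Fermat.Agent.H62.eq_of_forall_val_eq S.hx hP hQ fun f hf => ?_
      have key := S.gen0 f hf
      have hreg : ∀ (P : Place K F), S.x ∈ P.toValuationSubring →
          ∀ g ∈ Algebra.adjoin K (W K S.x 1 : Set F), g ∈ P.toValuationSubring := by
        intro P hP g hg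
        have : Algebra.adjoin K (W K S.x 1 : Set F) ≤
            { P.toValuationSubring.toSubring with algebraMap_mem' := P.algebraMap_mem' } :=
          Algebra.adjoin_le fun s hs => S.mem_of_mem_W hs hP
        exact this hg
      clear hf
      induction key using Algebra.adjoin_induction with
      | mem s hs =>
        have := hyz s hs 1 (one_mem_W S.x 1)
        rw [ev_one_of_mem hP, ev_one_of_mem hQ, one_mul, mul_one, ev_of_mem hP, ev_of_mem hQ] at this
        exact this.symm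
      | algebraMap c => rw [val_algebraMap, val_algebraMap]
      | add g h hg hh ihg ihh =>
        rw [val_add P (hreg P hP g hg) (hreg P hP h hh), val_add Q (hreg Q hQ g hg) (hreg Q hQ h hh),
          ihg, ihh]
      | mul g h hg hh ihg ihh =>
        rw [val_mul P (hreg P hP g hg) (hreg P hP h hh), val_mul Q (hreg Q hQ g hg) (hreg Q hQ h hh),
          ihg, ihh]
    · exfalso
      have := hyz S.x (self_mem_W S.x) 1 (one_mem_W S.x 1)
      rw [ev_one_of_mem hP, ev_self_of_notMem hQ, ev_one_of_notMem hQ one_ne_zero, mul_zero,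
        one_mul] at this
      exact one_ne_zero this
  · by_cases hQ : S.x ∈ Q.toValuationSubring
    · exfalso
      have := hyz S.x (self_mem_W S.x) 1 (one_mem_W S.x 1)
      rw [ev_one_of_mem hQ, ev_self_of_notMem hP, ev_one_of_notMem hP one_ne_zero, zero_mul,
        one_mul] at this
      exact one_ne_zero this.symm
    · have hP' := inv_mem_of_notMem P hP
      have hQ' := inv_mem_of_notMem Q hQ
      refine Fermat.Agent.H62.eq_of_forall_val_eq (H3RR.transcendental_inv S.hx) hP' hQ'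
        fun f hf => ?_
      have key := S.gen1 f hf
      have hreg : ∀ (P : Place K F), S.x⁻¹ ∈ P.toValuationSubring →
          ∀ g ∈ Algebra.adjoin K ((fun s => s * S.x⁻¹) '' (W K S.x 1 : Set F)),
            g ∈ P.toValuationSubring := by
        intro P hP g hg
        have : Algebra.adjoin K ((fun s => s * S.x⁻¹) '' (W K S.x 1 : Set F)) ≤
            { P.toValuationSubring.toSubring with algebraMap_mem' := P.algebraMap_mem' } := by
          refine Algebra.adjoin_le ?_
          rintro _ ⟨s, hs, rfl⟩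
          have := S.mul_inv_pow_mem hs hP
          rwa [pow_one] at this
        exact this hg
      clear hf
      induction key using Algebra.adjoin_induction with
      | mem s hs =>
        obtain ⟨s, hs, rfl⟩ := hs
        have := hyz s hs S.x (self_mem_W S.x)
        rw [ev_self_of_notMem hP, ev_self_of_notMem hQ, one_mul, mul_one, ev_of_notMem hP,
          ev_of_notMem hQ, pow_one] at this
        exact this.symm
      | algebraMap c => rw [val_algebraMap, val_algebraMap]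
      | add g h hg hh ihg ihh =>
        rw [val_add P (hreg P hP' g hg) (hreg P hP' h hh), val_add Q (hreg Q hQ' g hg) (hreg Q hQ' h hh),
          ihg, ihh]
      | mul g h hg hh ihg ihh =>
        rw [val_mul P (hreg P hP' g hg) (hreg P hP' h hh), val_mul Q (hreg Q hQ' g hg) (hreg Q hQ' h hh),
          ihg, ihh]

theorem exists_minor_ne_zero {P Q : Place K F} (h : P ≠ Q) :
    ∃ ij : Fin (S.r 1) × Fin (S.r 1), S.e P ij.1 * S.e Q ij.2 - S.e P ij.2 * S.e Q ij.1 ≠ 0 := by
  by_contra hcon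
  push Not at hcon
  exact h (S.eq_of_minors fun i j => hcon (i, j))

theorem dist_pos (v : V) {P Q : Place K F} (h : P ≠ Q) : 0 < S.dist v P Q := by
  obtain ⟨ij, hij⟩ := S.exists_minor_ne_zero h
  refine div_pos ?_ (mul_pos (S.w_pos v P) (S.w_pos v Q))
  refine lt_of_lt_of_le ((S.𝔸.abv v).pos hij) (le_ciSup (f := fun ij : Fin (S.r 1) × Fin (S.r 1) =>
    S.𝔸.abv v (S.e P ij.1 * S.e Q ij.2 - S.e P ij.2 * S.e Q ij.1)) (Set.finite_range _).bddAbove ij)

theorem finite_dist_ne_one {P Q : Place K F} (h : P ≠ Q) : {v | S.dist v P Q ≠ 1}.Finite := by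
  obtain ⟨ij, hij⟩ := S.exists_minor_ne_zero h
  have h1 : ∀ kl : Fin (S.r 1) × Fin (S.r 1), {v | S.e P kl.1 * S.e Q kl.2 - S.e P kl.2 * S.e Q kl.1 ≠ 0 ∧
      S.𝔸.abv v (S.e P kl.1 * S.e Q kl.2 - S.e P kl.2 * S.e Q kl.1) ≠ 1}.Finite := by
    intro kl
    by_cases h0 : S.e P kl.1 * S.e Q kl.2 - S.e P kl.2 * S.e Q kl.1 = 0
    · simp [h0]
    · exact (S.𝔸.finite_ne_one _ h0).subset fun v hv => hv.2
  refine ((Set.finite_iUnion h1).union ((S.finite_w_ne_one P).union (S.finite_w_ne_one Q))).subset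
    fun v hv => ?_
  by_contra hcon
  rw [Set.mem_union, Set.mem_union, not_or, not_or, Set.mem_iUnion, not_exists] at hcon
  obtain ⟨h2, h3, h4⟩ := hcon
  have h3' : S.w v P = 1 := by by_contra h'; exact h3 h'
  have h4' : S.w v Q = 1 := by by_contra h'; exact h4 h'
  apply hv
  rw [dist, h3', h4', mul_one, div_one]
  have h5 : ∀ kl : Fin (S.r 1) × Fin (S.r 1), S.e P kl.1 * S.e Q kl.2 - S.e P kl.2 * S.e Q kl.1 ≠ 0 →
      S.𝔸.abv v (S.e P kl.1 * S.e Q kl.2 - S.e P kl.2 * S.e Q kl.1) = 1 := by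
    intro kl h0
    by_contra h'
    exact h2 kl ⟨h0, h'⟩
  apply le_antisymm
  · refine ciSup_le fun kl => ?_
    by_cases h0 : S.e P kl.1 * S.e Q kl.2 - S.e P kl.2 * S.e Q kl.1 = 0
    · rw [h0, map_zero]; exact zero_le_one
    · exact (h5 kl h0).le
  · rw [← h5 ij hij]
    exact le_ciSup (f := fun ij : Fin (S.r 1) × Fin (S.r 1) =>
      S.𝔸.abv v (S.e P ij.1 * S.e Q ij.2 - S.e P ij.2 * S.e Q ij.1)) (Set.finite_range _).bddAbove ij

end HSetup

end Fermat.Agent.H17
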