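/-
H17Fin: bookkeeping for global heights (project S17; statements frozen by helper17, proofs by the job owner; helper lemmas may be added)
-/
import Mathlib
import Fermat.Agent.H17GDefs
import Fermat.Agent.H17Int

set_option autoImplicit false

noncomputable section

open AlgebraicCurve WithZero Polynomial

namespace Fermat.Agent.H17

open Fermat.Agent.H3RR

/-- finite support of a multiset sum of finitely supported functions -/
theorem finite_support_multiset_sum {α V : Type*} (f : V → α → ℝ) (A : Multiset α)
    (h : ∀ P ∈ A, (Function.support fun v => f v P).Finite) :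
    (Function.support fun v => (A.map (f v)).sum).Finite := by
  induction A using Multiset.induction_on with
  | empty => simp
  | cons P A ih =>
    refine ((h P (Multiset.mem_cons_self P A)).union
      (ih fun Q hQ => h Q (Multiset.mem_cons_of_mem hQ))).subset fun v hv => ?_
    by_contra hcon
    rw [Set.mem_union, not_or, Function.notMem_support, Function.notMem_support] at hcon
    exact hv (by
      show ((P ::ₘ A).map (f v)).sum = 0
      rw [Multiset.map_cons, Multiset.sum_cons, hcon.1, hcon.2, add_zero])

/-- logarithms of functions which are almost always one -/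
theorem finite_support_log {V : Type*} {g : V → ℝ} (h : {v | g v ≠ 1}.Finite) :
    (Function.support fun v => Real.log (g v)).Finite :=
  h.subset fun v hv h1 => hv (by show Real.log (g v) = 0; rw [h1, Real.log_one])

namespace GSetup

variable {F : Type*} [Field F] [Algebra Qb F] [IsFF Qb F] (Γ : GSetup F)

theorem finite_support_hgt (A : Multiset (Place Qb F)) :
    (Function.support fun v : V0 => (A.map fun P => Real.log (Γ.w v P)).sum).Finite :=
  finite_support_multiset_sum (fun v P => Real.log (Γ.w v P)) A fun P _ =>
    finite_support_log (Γ.finite_w_ne_one P)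

theorem hgt_add (A B : Multiset (Place Qb F)) : Γ.hgt (A + B) = Γ.hgt A + Γ.hgt B := by
  rw [hgt, hgt, hgt, ← finsum_add_distrib (Γ.finite_support_hgt A) (Γ.finite_support_hgt B)]
  exact finsum_congr fun v => by rw [Multiset.map_add, Multiset.sum_add]

theorem hgt_zero : Γ.hgt 0 = 0 := by
  rw [hgt]
  simp

/-- a lower bound for the logarithm of the weight -/
theorem exists_neg_log_le : ∃ C : V0 → ℝ, IsMC C ∧ ∀ v (P : Place Qb F), - Real.log (C v) ≤ Real.log (Γ.w v P) := by
  obtain ⟨C, hC, hC'⟩ := Γ.exists_le_w
  refine ⟨C, hC, fun v P => ?_⟩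
  have h1 : (1 : ℝ) ≤ C v * Γ.w v P := by
    refine le_trans ?_ (hC' v P)
    by_cases h : Γ.x ∈ P.toValuationSubring
    · refine le_trans ?_ (le_max_left _ _)
      rw [ev_one_of_mem h, map_one]
    · refine le_trans ?_ (le_max_right _ _)
      rw [ev_self_of_notMem h, map_one]
  have h2 := Real.log_nonneg h1
  rw [Real.log_mul (hC.pos v).ne' (Γ.w_pos v P).ne'] at h2
  linarith

/-- heights are bounded below -/
theorem exists_hgt_ge : ∃ C : ℝ, 0 ≤ C ∧ ∀ A : Multiset (Place Qb F), - (C * A.card) ≤ Γ.hgt A := by
  obtain ⟨C, hC, hC'⟩ := Γ.exists_neg_log_le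
  have hfin : (Function.support fun v => Real.log (C v)).Finite := finite_support_log hC.2
  refine ⟨∑ᶠ v, Real.log (C v), finsum_nonneg fun v => Real.log_nonneg (hC.1 v), fun A => ?_⟩
  induction A using Multiset.induction_on with
  | empty => rw [Γ.hgt_zero, Multiset.card_zero, Nat.cast_zero, mul_zero, neg_zero]
  | cons P A ih =>
    have e : P ::ₘ A = {P} + A := (Multiset.singleton_add P A).symm
    have h1 : -(∑ᶠ v, Real.log (C v)) ≤ Γ.hgt {P} := by
      rw [hgt, ← finsum_neg_distrib]
      refine finsum_le_finsum' ?_ (Γ.finite_support_hgt {P}) fun v => ?_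
      · show (Function.support fun v => - Real.log (C v)).Finite
        rw [Function.support_fun_neg]; exact hfin
      · rw [Multiset.map_singleton, Multiset.sum_singleton]
        exact hC' v P
    rw [e, Γ.hgt_add, Multiset.card_add, Multiset.card_singleton, Nat.cast_add, Nat.cast_one, mul_add,
      mul_one, neg_add]
    exact add_le_add h1 ih

theorem finite_support_hs {N : ℕ} {s : F} (hs : s ∈ W Qb Γ.x N) (hs0 : s ≠ 0) :
    (Function.support fun v : V0 => Real.log (Γ.nrm N v s)).Finite :=
  finite_support_log (Γ.finite_nrm_ne_one hs hs0)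

theorem finite_support_pair {A B : Multiset (Place Qb F)} (h : Disjoint A B) :
    (Function.support fun v : V0 =>
      (A.map fun P => (B.map fun Q => - Real.log (Γ.dist v P Q)).sum).sum).Finite := by
  refine finite_support_multiset_sum (fun v P => (B.map fun Q => - Real.log (Γ.dist v P Q)).sum) A
    fun P hP => finite_support_multiset_sum (fun v Q => - Real.log (Γ.dist v P Q)) B fun Q hQ => ?_
  rw [Function.support_fun_neg]
  exact finite_support_log (Γ.finite_dist_ne_one fun hPQ =>
    Multiset.disjoint_left.mp h hP (hPQ ▸ hQ))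

theorem pair_comm (A B : Multiset (Place Qb F)) : Γ.pair A B = Γ.pair B A := by
  rw [pair, pair]
  refine finsum_congr fun v => ?_
  rw [Multiset.sum_map_sum_map]
  refine congrArg Multiset.sum (Multiset.map_congr rfl fun Q _ => ?_)
  refine congrArg Multiset.sum (Multiset.map_congr rfl fun P _ => ?_)
  rw [Γ.dist_comm]

theorem pair_add_left {A A' B : Multiset (Place Qb F)} (h : Disjoint A B) (h' : Disjoint A' B) :
    Γ.pair (A + A') B = Γ.pair A B + Γ.pair A' B := by
  rw [pair, pair, pair, ← finsum_add_distrib (Γ.finite_support_pair h) (Γ.finite_support_pair h')]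
  exact finsum_congr fun v => by rw [Multiset.map_add, Multiset.sum_add]

theorem bil_comm (A B : Multiset (Place Qb F)) : Γ.bil A B = Γ.bil B A := by
  rw [bil, bil, Γ.pair_comm A B, add_comm]

theorem bil_add_left {A A' B : Multiset (Place Qb F)} (h : Disjoint A B) (h' : Disjoint A' B) :
    Γ.bil (A + A') B = Γ.bil A B + Γ.bil A' B := by
  rw [bil, bil, bil, Γ.pair_add_left h h', Γ.hgt_add, Multiset.card_add, Nat.cast_add]
  ring

end GSetup

end Fermat.Agent.H17
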