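/-
H17Rep: rational representatives of rational divisor classes (project S17; statements frozen by helper17, proofs by helper93)
-/
import Mathlib
import Fermat.Agent.H17GDefs
import Fermat.Agent.H17Equiv
import Fermat.Agent.H17Ram

set_option autoImplicit false
set_option maxHeartbeats 400000
set_option linter.unusedSectionVars false

noncomputable section

open AlgebraicCurve WithZero Polynomial

namespace Fermat.Agent.H17

open Fermat.Agent.H3RR

namespace GSetup

section DivM

variable {K F : Type*} [Field K] [Field F] [Algebra K F]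

theorem divM_zero : divM (0 : Multiset (Place K F)) = 0 := rfl

theorem divM_add (A B : Multiset (Place K F)) : divM (A + B) = divM A + divM B := by
  rw [divM, Multiset.map_add, Multiset.sum_add]; rfl

theorem divM_cons (P : Place K F) (A : Multiset (Place K F)) :
    divM (P ::ₘ A) = Finsupp.single P 1 + divM A := by
  rw [divM, Multiset.map_cons, Multiset.sum_cons]; rfl

theorem divM_apply [DecidableEq (Place K F)] (A : Multiset (Place K F)) (v : Place K F) :
    divM A v = A.count v := by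
  induction A using Multiset.induction_on with
  | empty => rfl
  | cons P A ih =>
    rw [divM_cons, Finsupp.add_apply, ih, Multiset.count_cons, Finsupp.single_apply, Nat.cast_add]
    by_cases h : v = P
    · rw [if_pos h, if_pos h.symm]; push_cast; ring
    · rw [if_neg h, if_neg (Ne.symm h)]; push_cast; ring

theorem divM_injective {A B : Multiset (Place K F)} (h : divM A = divM B) : A = B := by
  classical
  ext v
  have := DFunLike.congr_fun h v
  rw [divM_apply, divM_apply] at this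
  exact_mod_cast this

/-- the multiset of an effective divisor -/
theorem exists_divM_eq {E : Divisor K F} (h : 0 ≤ E) : ∃ A : Multiset (Place K F), divM A = E := by
  classical
  refine ⟨Finsupp.toMultiset (E.mapRange Int.toNat rfl), ?_⟩
  ext v
  rw [divM_apply, Finsupp.count_toMultiset, Finsupp.mapRange_apply]
  exact Int.toNat_of_nonneg (h v)

theorem degree_divM [IsAlgClosed K] [IsFF K F] (A : Multiset (Place K F)) :
    Divisor.degree (divM A) = A.card := by
  induction A using Multiset.induction_on with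
  | empty => rw [divM_zero, map_zero]; rfl
  | cons P A ih =>
    rw [divM_cons, map_add, ih, Divisor.degree_single, deg_eq_one, Multiset.card_cons]
    push_cast
    ring

end DivM

variable {F : Type*} [Field F] [Algebra Qb F] [IsFF Qb F] (Γ : GSetup F)

theorem Rep.card_eq {N : ℕ} {c : Pic0 Qb F} {A : Multiset (Place Qb F)} (h : Γ.Rep N c A) :
    A.card = N * Γ.d := by
  obtain ⟨h, -⟩ := h
  rw [Divisor.mem_degZero, map_sub, degree_divM, map_nsmul, degree_poleDiv Γ.hx, nsmul_eq_mul,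
    sub_eq_zero] at h
  exact_mod_cast h

theorem Rep.add {N M : ℕ} {c c' : Pic0 Qb F} {A B : Multiset (Place Qb F)} (h : Γ.Rep N c A)
    (h' : Γ.Rep M c' B) : Γ.Rep (N + M) (c + c') (A + B) := by
  obtain ⟨h1, rfl⟩ := h
  obtain ⟨h2, rfl⟩ := h'
  have e : divM (A + B) - (N + M) • (poleDiv Γ.x : Divisor Qb F) =
      (divM A - N • (poleDiv Γ.x : Divisor Qb F)) + (divM B - M • (poleDiv Γ.x : Divisor Qb F)) := by
    rw [divM_add, add_nsmul]; abel
  refine ⟨by rw [e]; exact add_mem h1 h2, ?_⟩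
  rw [← Pic0.mk_add]
  exact congrArg Pic0.mk (Subtype.ext e)

theorem Rep.unique {N : ℕ} {c c' : Pic0 Qb F} {A : Multiset (Place Qb F)} (h : Γ.Rep N c A)
    (h' : Γ.Rep N c' A) : c = c' := by
  obtain ⟨h1, rfl⟩ := h
  obtain ⟨h2, rfl⟩ := h'
  rfl

theorem Rep.of_add {N M : ℕ} {c c' : Pic0 Qb F} {A B : Multiset (Place Qb F)} (h : Γ.Rep N c A)
    (h' : Γ.Rep (N + M) c' (A + B)) : Γ.Rep M (c' - c) B := by
  obtain ⟨h1, rfl⟩ := h
  obtain ⟨h2, rfl⟩ := h'
  have e : divM B - M • (poleDiv Γ.x : Divisor Qb F) =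
      (divM (A + B) - (N + M) • (poleDiv Γ.x : Divisor Qb F)) -
        (divM A - N • (poleDiv Γ.x : Divisor Qb F)) := by
    rw [divM_add, add_nsmul]; abel
  have h3 : divM B - M • (poleDiv Γ.x : Divisor Qb F) ∈ Divisor.degZero (K := Qb) (F := F) := by
    rw [e]; exact sub_mem h2 h1
  refine ⟨h3, ?_⟩
  rw [eq_sub_iff_add_eq, ← Pic0.mk_add]
  refine congrArg Pic0.mk (Subtype.ext ?_)
  show (divM B - M • (poleDiv Γ.x : Divisor Qb F)) + (divM A - N • (poleDiv Γ.x : Divisor Qb F)) = _
  rw [e]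
  exact sub_add_cancel _ _

theorem mk_eq_zero_iff (D : Divisor.degZero (K := Qb) (F := F)) :
    Pic0.mk D = 0 ↔ ∃ f : F, f ≠ 0 ∧ ∀ v, (D : Divisor Qb F) v = v.ord f := by
  rw [Pic0.mk]
  have h1 : (QuotientAddGroup.mk D : Pic0 Qb F) = 0 ↔
      D ∈ (Divisor.principal (K := Qb) (F := F)).addSubgroupOf (Divisor.degZero (K := Qb) (F := F)) :=
    QuotientAddGroup.eq_zero_iff D
  rw [h1, AddSubgroup.mem_addSubgroupOf, Divisor.mem_principal]
  rfl

theorem rep_zero_iff {N : ℕ} {A : Multiset (Place Qb F)} :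
    Γ.Rep N 0 A ↔ ∃ s ∈ W Qb Γ.x N, s ≠ 0 ∧ IsZer Γ.x N s A := by
  classical
  constructor
  · rintro ⟨h, h0⟩
    obtain ⟨f, hf, hD⟩ := (mk_eq_zero_iff _).mp h0
    have hz : IsZer Γ.x N f A := by
      rw [isZer_iff Γ.hx hf]
      intro v
      have := hD v
      rw [← this, ← divM_apply]
      show _ = (divM A - N • (poleDiv Γ.x : Divisor Qb F)) v + _
      rw [Finsupp.sub_apply, Finsupp.smul_apply, nsmul_eq_mul]
      ring
    exact ⟨f, hz.mem_W Γ.hx hf, hf, hz⟩
  · rintro ⟨s, hs, hs0, hz⟩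
    have hz' := (isZer_iff Γ.hx hs0).mp hz
    have e : divM A - N • (poleDiv Γ.x : Divisor Qb F) = divOf s := by
      ext v
      rw [Finsupp.sub_apply, Finsupp.smul_apply, nsmul_eq_mul, divM_apply, hz' v, divOf_apply hs0]
      ring
    have h : divM A - N • (poleDiv Γ.x : Divisor Qb F) ∈ Divisor.degZero (K := Qb) (F := F) := by
      rw [e, Divisor.mem_degZero, degree_divOf hs0]
    refine ⟨h, (mk_eq_zero_iff _).mpr ⟨s, hs0, fun v => ?_⟩⟩
    show (divM A - N • (poleDiv Γ.x : Divisor Qb F)) v = _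
    rw [e, divOf_apply hs0]

/-! ### Galois action -/

theorem phi_smul_smul (σ : Qb ≃ₐ[ℚ] Qb) (c : Qb) (f : F) :
    Γ.φ σ • (c • f) = σ c • (Γ.φ σ • f) := by
  rw [Algebra.smul_def, smul_mul', SemilinearAut.smul_algebraMap, Γ.base σ, Algebra.smul_def]
  rfl

theorem smul_nsmul' (g : SemilinearAut Qb F) (n : ℕ) (D : Divisor Qb F) :
    g • (n • D) = n • (g • D) :=
  map_nsmul (DistribSMul.toAddMonoidHom (Divisor Qb F) g) n D

theorem smul_divOf (g : SemilinearAut Qb F) {f : F} (hf : f ≠ 0) :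
    g • (divOf f : Divisor Qb F) = divOf (g • f) := by
  have hf' : g • f ≠ 0 := by simpa using hf
  ext v
  rw [SemilinearAut.divisor_smul_apply, divOf_apply hf, divOf_apply hf']
  have h := SemilinearAut.ord_smul g (g⁻¹ • v) f
  rw [smul_inv_smul] at h
  exact h.symm

theorem smul_poleDiv_x (σ : Qb ≃ₐ[ℚ] Qb) :
    Γ.φ σ • (poleDiv Γ.x : Divisor Qb F) = poleDiv Γ.x := by
  have hx0 := transcendental_ne_zero Γ.hx
  ext v
  rw [SemilinearAut.divisor_smul_apply, poleDiv_apply hx0, poleDiv_apply hx0]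
  have h := SemilinearAut.ord_smul (Γ.φ σ) ((Γ.φ σ)⁻¹ • v) Γ.x
  rw [smul_inv_smul, Γ.ratx] at h
  rw [h]

theorem smul_mem_L (g : SemilinearAut Qb F) {D : Divisor Qb F} {f : F}
    (hf : f ∈ riemannRochSpace D) : g • f ∈ riemannRochSpace (g • D) := by
  rw [mem_riemannRochSpace_iff] at hf ⊢
  intro v
  rcases hf (g⁻¹ • v) with h | h
  · left; rw [h, smul_zero]
  · right
    rw [SemilinearAut.divisor_smul_apply]
    have h2 := SemilinearAut.ord_smul g (g⁻¹ • v) f
    rw [smul_inv_smul] at h2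
    rw [h2]
    exact h

/-- a rational class contains a Galois stable divisor -/
theorem exists_stable_divisor {c : Pic0 Qb F} (hc : c ∈ Γ.ratPic) :
    ∃ Δ : Divisor Qb F, (∀ σ, Γ.φ σ • Δ = Δ) ∧
      ∃ h : Δ ∈ Divisor.degZero (K := Qb) (F := F), Pic0.mk ⟨Δ, h⟩ = c := by
  obtain ⟨⟨D, hD⟩, rfl⟩ := Pic0.mk_surjective c
  obtain ⟨g, hg⟩ := exists_ell_eq_one (K := Qb) (F := F) Γ.pt
  obtain ⟨n, -, hn⟩ := hg D (Divisor.mem_degZero.mp hD)
  set E : Divisor Qb F := D + n • (Finsupp.single Γ.pt 1 : Divisor Qb F) with hE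
  obtain ⟨f, hf0, hfE⟩ := exists_mem_L_of_ell_pos (D := E) (by rw [hn]; exact Nat.one_pos)
  have hΔ0 : D + divOf f ∈ Divisor.degZero (K := Qb) (F := F) := by
    rw [Divisor.mem_degZero, map_add, degree_divOf hf0, add_zero]
    exact Divisor.mem_degZero.mp hD
  refine ⟨D + divOf f, fun σ => ?_, hΔ0, ?_⟩
  · -- σ D = D + div g
    have h1 : Γ.φ σ • Pic0.mk ⟨D, hD⟩ = Pic0.mk ⟨D, hD⟩ := hc σ
    rw [SemilinearAut.pic0_smul_mk] at h1
    have h2 : Pic0.mk (SemilinearAut.degZeroSMulHom (Γ.φ σ) ⟨D, hD⟩ - ⟨D, hD⟩) = 0 := by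
      have h3 : Pic0.mk (SemilinearAut.degZeroSMulHom (Γ.φ σ) ⟨D, hD⟩ - ⟨D, hD⟩) + Pic0.mk ⟨D, hD⟩ =
          0 + Pic0.mk ⟨D, hD⟩ := by
        rw [← Pic0.mk_add, sub_add_cancel, h1, zero_add]
      exact add_right_cancel h3
    obtain ⟨u, hu0, hu⟩ := (mk_eq_zero_iff _).mp h2
    have h4 : Γ.φ σ • D = D + divOf u := by
      ext v
      have h5 := hu v
      have h6 : ((SemilinearAut.degZeroSMulHom (Γ.φ σ) ⟨D, hD⟩ - ⟨D, hD⟩ :
        Divisor.degZero (K := Qb) (F := F)) : Divisor Qb F) = Γ.φ σ • D - D := rfl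
      rw [h6, Finsupp.sub_apply] at h5
      rw [Finsupp.add_apply, divOf_apply hu0, ← h5]
      ring
    have hσf0 : Γ.φ σ • f ≠ 0 := by simpa using hf0
    -- u * σ f ∈ L(E)
    have h5 : Γ.φ σ • f ∈ riemannRochSpace (E + divOf u) := by
      have h6 := smul_mem_L (Γ.φ σ) hfE
      have h7 : Γ.φ σ • E = E + divOf u := by
        rw [hE, smul_add, h4, smul_nsmul', SemilinearAut.smul_single, Γ.pt_fixed σ]
        abel
      rwa [h7] at h6
    have h8 : u * (Γ.φ σ • f) ∈ riemannRochSpace E := by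
      rw [mem_riemannRochSpace_iff] at h5 ⊢
      intro v
      right
      have h9 := (h5 v).resolve_left hσf0
      rw [Finsupp.add_apply, divOf_apply hu0] at h9
      rw [v.ord_mul hu0 hσf0]
      omega
    -- one dimensional
    obtain ⟨a, ha⟩ := (finrank_eq_one_iff_of_nonzero' (K := Qb) (V := riemannRochSpace E)
      ⟨f, hfE⟩ (fun h => hf0 (congrArg Subtype.val h))).mp hn ⟨u * (Γ.φ σ • f), h8⟩
    have ha' : a • f = u * (Γ.φ σ • f) := congrArg Subtype.val ha
    have ha0 : a ≠ 0 := by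
      rintro rfl
      rw [zero_smul] at ha'
      exact (mul_ne_zero hu0 hσf0) ha'.symm
    rw [smul_add, h4, smul_divOf _ hf0, add_assoc, ← divOf_mul hu0 hσf0, ← ha']
    congr 1
    ext v
    have haf : a • f ≠ 0 := smul_ne_zero ha0 hf0
    rw [divOf_apply haf, divOf_apply hf0, ord_smul_const v ha0 hf0]
  · have h1 : Pic0.mk (⟨D + divOf f, hΔ0⟩ - ⟨D, hD⟩ : Divisor.degZero (K := Qb) (F := F)) = 0 := by
      rw [mk_eq_zero_iff]
      refine ⟨f, hf0, fun v => ?_⟩
      show ((D + divOf f) - D : Divisor Qb F) v = _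
      rw [add_sub_cancel_left, divOf_apply hf0]
    have h2 : (⟨D + divOf f, hΔ0⟩ : Divisor.degZero (K := Qb) (F := F)) =
      (⟨D + divOf f, hΔ0⟩ - ⟨D, hD⟩) + ⟨D, hD⟩ := (sub_add_cancel _ _).symm
    rw [h2, Pic0.mk_add, h1, zero_add]

/-- avoiding finitely many proper subspaces by a rational vector -/
theorem exists_avoid {ι : Type*} (S : Finset ι) (U : Submodule Qb F) (L : ι → Submodule Qb F)
    (h : ∀ i ∈ S, ∃ u ∈ U, Γ.RatF u ∧ u ∉ L i) : ∃ u ∈ U, Γ.RatF u ∧ ∀ i ∈ S, u ∉ L i := by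
  classical
  induction S using Finset.induction_on with
  | empty => exact ⟨0, zero_mem _, fun σ => smul_zero _, by simp⟩
  | insert j S hj ih =>
    obtain ⟨u, hu, hur, huS⟩ := ih fun i hi => h i (Finset.mem_insert_of_mem hi)
    obtain ⟨w, hw, hwr, hwj⟩ := h j (Finset.mem_insert_self j S)
    by_cases huj : u ∈ L j
    · -- u + q w for suitable rational q ≠ 0
      have hbad : ∀ i ∈ S, {q : ℚ | u + (algebraMap ℚ Qb q) • w ∈ L i}.Subsingleton := by
        intro i hi q hq q' hq'
        by_contra hne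
        have h1 : (algebraMap ℚ Qb (q - q')) • w ∈ L i := by
          have := Submodule.sub_mem _ hq hq'
          rw [add_sub_add_left_eq_sub, ← sub_smul, ← map_sub] at this
          exact this
        have h2 : w ∈ L i := by
          have h3 : algebraMap ℚ Qb (q - q') ≠ 0 :=
            (_root_.map_ne_zero _).mpr (sub_ne_zero.mpr hne)
          have := Submodule.smul_mem (L i) (algebraMap ℚ Qb (q - q'))⁻¹ h1
          rwa [inv_smul_smul₀ h3] at this
        have h4 : u ∈ L i := by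
          have := Submodule.sub_mem _ hq (Submodule.smul_mem (L i) (algebraMap ℚ Qb q) h2)
          rwa [add_sub_cancel_right] at this
        exact huS i hi h4
      have hfin : (⋃ i ∈ S, {q : ℚ | u + (algebraMap ℚ Qb q) • w ∈ L i}).Finite :=
        Set.Finite.biUnion (Finset.finite_toSet S) fun i hi => (hbad i hi).finite
      obtain ⟨q, hq⟩ := (hfin.union (Set.finite_singleton (0 : ℚ))).exists_notMem
      rw [Set.mem_union, not_or] at hq
      have hq0 : q ≠ 0 := fun h => hq.2 h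
      refine ⟨u + (algebraMap ℚ Qb q) • w, add_mem hu (Submodule.smul_mem _ _ hw), fun σ => ?_, ?_⟩
      · rw [smul_add, hur σ, phi_smul_smul, hwr σ, AlgEquiv.commutes]
      · intro i hi
        rw [Finset.mem_insert] at hi
        rcases hi with rfl | hi
        · intro hmem
          apply hwj
          have h1 := Submodule.sub_mem _ hmem huj
          rw [add_sub_cancel_left] at h1
          have h3 : algebraMap ℚ Qb q ≠ 0 := (_root_.map_ne_zero _).mpr hq0
          have := Submodule.smul_mem (L i) (algebraMap ℚ Qb q)⁻¹ h1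
          rwa [inv_smul_smul₀ h3] at this
        · intro hmem
          exact hq.1 (Set.mem_biUnion hi hmem)
    · refine ⟨u, hu, hur, fun i hi => ?_⟩
      rw [Finset.mem_insert] at hi
      rcases hi with rfl | hi
      · exact huj
      · exact huS i hi

/-- good representatives: rational, reduced, avoiding a given finite set -/
theorem exists_good_rep : ∃ m : ℕ, 0 < m ∧ ∀ N, m ≤ N → ∀ c ∈ Γ.ratPic, ∀ T : Finset (Place Qb F),
    ∃ A : Multiset (Place Qb F), Γ.Rep N c A ∧ Γ.RatM A ∧ A.Nodup ∧ ∀ P ∈ A, P ∉ T := by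
  classical
  obtain ⟨g, n1, hg⟩ := exists_ell_eq Qb F
  have hfd := IsFF.finiteDimensional (K := Qb) (F := F) Γ.hx
  have hd : 0 < Γ.d := Module.finrank_pos
  refine ⟨n1.toNat + 1, Nat.succ_pos _, fun N hN c hc T => ?_⟩
  obtain ⟨Δ, hΔ, hΔ0, hΔc⟩ := Γ.exists_stable_divisor hc
  set D : Divisor Qb F := poleDiv Γ.x with hD
  set E : Divisor Qb F := Δ + N • D with hE
  have hNd : N ≤ N * Γ.d := Nat.le_mul_of_pos_right N hd
  have hdegE : Divisor.degree E = N * Γ.d := by
    rw [hE, map_add, Divisor.mem_degZero.mp hΔ0, zero_add, map_nsmul, hD, degree_poleDiv Γ.hx,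
      nsmul_eq_mul]
    rfl
  have hn1 : n1 ≤ n1.toNat := Int.self_le_toNat n1
  have hellE := hg E (by rw [hdegE]; have : (N : ℤ) ≤ N * Γ.d := by exact_mod_cast hNd
                         omega)
  have hEst : ∀ σ, Γ.φ σ • E = E := by
    intro σ
    rw [hE, smul_add, hΔ, smul_nsmul', hD, smul_poleDiv_x]
  -- subspaces of sections vanishing at `P`
  set L : Place Qb F → Submodule Qb F := fun P => riemannRochSpace (E - Finsupp.single P 1) with hL
  have hdescent : riemannRochSpace E ≤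
      Submodule.span Qb {u : F | u ∈ riemannRochSpace E ∧ ∀ σ, Γ.φ σ • u = u} :=
    Γ.descent _ inferInstance (fun σ u hu => by
      have := smul_mem_L (Γ.φ σ) hu
      rwa [hEst] at this)
  have hex : ∀ P, ∃ u ∈ riemannRochSpace E, Γ.RatF u ∧ u ∉ L P := by
    intro P
    by_contra hcon
    push Not at hcon
    have h1 : riemannRochSpace E ≤ L P := by
      refine hdescent.trans (Submodule.span_le.mpr ?_)
      rintro u ⟨hu, hur⟩
      exact hcon u hu hur
    have h2 : ell E ≤ ell (E - Finsupp.single P 1) := Submodule.finrank_mono h1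
    have hellP := hg (E - Finsupp.single P 1) (by
      rw [map_sub, hdegE, Divisor.degree_single, deg_eq_one]
      have : (N : ℤ) ≤ N * Γ.d := by exact_mod_cast hNd
      push_cast
      omega)
    rw [map_sub, Divisor.degree_single, deg_eq_one] at hellP
    have h3 : (ell E : ℤ) ≤ ell (E - Finsupp.single P 1) := by exact_mod_cast h2
    push_cast at hellP
    omega
  obtain ⟨P₀⟩ := exists_place Qb F
  obtain ⟨f₁, hf₁E, hf₁r, hf₁P₀⟩ := hex P₀
  have hf₁0 : f₁ ≠ 0 := fun h => hf₁P₀ (h ▸ zero_mem _)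
  have heff : ∀ f ∈ riemannRochSpace E, f ≠ 0 → ∀ P, 0 ≤ E P + P.ord f := by
    intro f hf hf0 P
    have := (mem_riemannRochSpace_iff.mp hf P).resolve_left hf0
    omega
  have hmemL : ∀ f ∈ riemannRochSpace E, f ≠ 0 → ∀ P, (f ∈ L P ↔ 1 ≤ E P + P.ord f) := by
    intro f hf hf0 P
    rw [hL]
    simp only
    rw [mem_riemannRochSpace_iff]
    constructor
    · intro h
      have := (h P).resolve_left hf0
      rw [Finsupp.sub_apply, Finsupp.single_eq_same] at this
      omega
    · intro h v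
      right
      rw [Finsupp.sub_apply, Finsupp.single_apply]
      by_cases hv : P = v
      · subst hv; rw [if_pos rfl]; omega
      · rw [if_neg hv]
        have := heff f hf hf0 v
        omega
  set B₁ : Finset (Place Qb F) := (E + divOf f₁ : Divisor Qb F).support with hB₁
  have hB₁mem : ∀ P, P ∉ B₁ → E P + P.ord f₁ = 0 := by
    intro P hP
    rw [hB₁, Finsupp.notMem_support_iff, Finsupp.add_apply, divOf_apply hf₁0] at hP
    exact hP
  have hB₁mem' : ∀ P ∈ B₁, f₁ ∈ L P := by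
    intro P hP
    rw [hmemL f₁ hf₁E hf₁0]
    rw [hB₁, Finsupp.mem_support_iff, Finsupp.add_apply, divOf_apply hf₁0] at hP
    have := heff f₁ hf₁E hf₁0 P
    omega
  have hB₁ne : B₁.Nonempty := by
    rw [Finset.nonempty_iff_ne_empty]
    intro h
    rw [hB₁, Finsupp.support_eq_empty] at h
    have h1 : Divisor.degree (E + divOf f₁ : Divisor Qb F) = N * Γ.d := by
      rw [map_add, degree_divOf hf₁0, add_zero, hdegE]
    rw [h, map_zero] at h1
    have h2 : 0 < N * Γ.d := Nat.mul_pos (by omega) hd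
    have h3 : (0 : ℤ) < N * Γ.d := by exact_mod_cast h2
    omega
  obtain ⟨f₂, hf₂E, hf₂r, hf₂⟩ := Γ.exists_avoid (B₁ ∪ T) (riemannRochSpace E) L fun P _ => hex P
  obtain ⟨P₁, hP₁⟩ := hB₁ne
  have hf₂P₁ := hf₂ P₁ (Finset.mem_union_left _ hP₁)
  have hf₂0 : f₂ ≠ 0 := fun h => hf₂P₁ (h ▸ zero_mem _)
  -- the function `y`
  set y : F := f₂ / f₁ with hy
  have hyt : Transcendental Qb y := by
    intro halg
    obtain ⟨a, ha⟩ := exists_const_of_isAlgebraic halg
    have h1 : f₂ = a • f₁ := by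
      rw [Algebra.smul_def, ha, hy, div_mul_cancel₀ _ hf₁0]
    apply hf₂P₁
    rw [h1]
    exact Submodule.smul_mem _ _ (hB₁mem' P₁ hP₁)
  have hfin1 : {P : Place Qb F | y ∈ P.toValuationSubring ∧
      2 ≤ P.ord (y - algebraMap Qb F (val P y))}.Finite := finite_ramified hyt
  set bad : Set Qb := (fun P => val P y) '' ({P : Place Qb F | y ∈ P.toValuationSubring ∧
      2 ≤ P.ord (y - algebraMap Qb F (val P y))} ∪ (T : Set (Place Qb F))) with hbad
  have hbadfin : bad.Finite := (hfin1.union (Finset.finite_toSet T)).image _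
  obtain ⟨q, hq⟩ : ∃ q : ℚ, algebraMap ℚ Qb q ∉ bad := by
    have := (hbadfin.preimage ((algebraMap ℚ Qb).injective.injOn)).exists_notMem
    exact this
  set f : F := f₂ - (algebraMap ℚ Qb q) • f₁ with hf
  have hfE : f ∈ riemannRochSpace E := Submodule.sub_mem _ hf₂E (Submodule.smul_mem _ _ hf₁E)
  have hfy : f = (y - algebraMap Qb F (algebraMap ℚ Qb q)) * f₁ := by
    rw [hf, hy, Algebra.smul_def, sub_mul, div_mul_cancel₀ _ hf₁0]
  have hyq0 : y - algebraMap Qb F (algebraMap ℚ Qb q) ≠ 0 := by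
    intro h
    apply hyt
    rw [sub_eq_zero.mp h]
    exact isAlgebraic_algebraMap _
  have hf0 : f ≠ 0 := by rw [hfy]; exact mul_ne_zero hyq0 hf₁0
  have hfr : ∀ σ, Γ.φ σ • f = f := by
    intro σ
    rw [hf, smul_sub, hf₂r σ, phi_smul_smul, hf₁r σ, AlgEquiv.commutes]
  obtain ⟨A, hA⟩ := exists_divM_eq (E := E + divOf f) (by
    intro P
    rw [Finsupp.add_apply, divOf_apply hf0]
    exact heff f hfE hf0 P)
  have hcount : ∀ P, (A.count P : ℤ) = E P + P.ord f := by
    intro P
    rw [← divM_apply, hA, Finsupp.add_apply, divOf_apply hf0]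
  -- points of `A`
  have hpt : ∀ P ∈ A, P.ord (y - algebraMap Qb F (algebraMap ℚ Qb q)) = A.count P ∧
      y ∈ P.toValuationSubring ∧ val P y = algebraMap ℚ Qb q := by
    intro P hP
    have h1 : 1 ≤ A.count P := Multiset.one_le_count_iff_mem.mpr hP
    have h2 : f ∈ L P := by
      rw [hmemL f hfE hf0, ← hcount]
      exact_mod_cast h1
    have hPB : P ∉ B₁ := by
      intro hPB
      apply hf₂ P (Finset.mem_union_left _ hPB)
      have h3 : f₂ = f + (algebraMap ℚ Qb q) • f₁ := by rw [hf]; ring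
      rw [h3]
      exact Submodule.add_mem _ h2 (Submodule.smul_mem _ _ (hB₁mem' P hPB))
    have h4 := hB₁mem P hPB
    have h5 := hcount P
    rw [hfy, P.ord_mul hyq0 hf₁0] at h5
    have h6 : P.ord (y - algebraMap Qb F (algebraMap ℚ Qb q)) = A.count P := by omega
    have h7 : P.adicValuation (y - algebraMap Qb F (algebraMap ℚ Qb q)) < 1 := by
      rw [P.adicValuation_eq_exp_neg_ord hyq0, ← exp_zero, exp_lt_exp, h6]
      omega
    refine ⟨h6, ?_, val_eq P h7⟩
    have h8 : y = (y - algebraMap Qb F (algebraMap ℚ Qb q)) + algebraMap Qb F (algebraMap ℚ Qb q) := by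
      ring
    rw [h8]
    exact add_mem (mem_of_adicValuation_le_one P h7.le) (P.algebraMap_mem' _)
  refine ⟨A, ?_, ?_, ?_, ?_⟩
  · -- Rep
    have e : divM A - N • (poleDiv Γ.x : Divisor Qb F) = Δ + divOf f := by
      rw [hA, hE, hD]; abel
    have h : Δ + divOf f ∈ Divisor.degZero (K := Qb) (F := F) := by
      rw [Divisor.mem_degZero, map_add, degree_divOf hf0, add_zero]
      exact Divisor.mem_degZero.mp hΔ0
    refine ⟨by rw [e]; exact h, ?_⟩
    rw [← hΔc]
    have h1 : Pic0.mk (⟨Δ + divOf f, h⟩ - ⟨Δ, hΔ0⟩ : Divisor.degZero (K := Qb) (F := F)) = 0 := by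
      rw [mk_eq_zero_iff]
      refine ⟨f, hf0, fun v => ?_⟩
      show ((Δ + divOf f) - Δ : Divisor Qb F) v = _
      rw [add_sub_cancel_left, divOf_apply hf0]
    have h2 : (⟨Δ + divOf f, h⟩ : Divisor.degZero (K := Qb) (F := F)) =
      (⟨Δ + divOf f, h⟩ - ⟨Δ, hΔ0⟩) + ⟨Δ, hΔ0⟩ := (sub_add_cancel _ _).symm
    have h3 : Pic0.mk ⟨Δ + divOf f, h⟩ = Pic0.mk ⟨Δ, hΔ0⟩ := by
      rw [h2, Pic0.mk_add, h1, zero_add]
    rw [← h3]
    exact congrArg Pic0.mk (Subtype.ext e)
  · -- rational
    intro σ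
    apply divM_injective
    have h1 : ∀ B : Multiset (Place Qb F), divM (B.map fun P => Γ.φ σ • P) = Γ.φ σ • divM B := by
      intro B
      induction B using Multiset.induction_on with
      | empty => rw [Multiset.map_zero, divM_zero, smul_zero]
      | cons P B ih =>
        rw [Multiset.map_cons, divM_cons, divM_cons, smul_add, ih, SemilinearAut.smul_single]
    rw [h1, hA, smul_add, hEst, smul_divOf _ hf0, hfr]
  · -- reduced
    rw [Multiset.nodup_iff_count_le_one]
    intro P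
    by_contra hcon
    push Not at hcon
    have hPA : P ∈ A := Multiset.count_pos.mp (by omega)
    obtain ⟨h1, h2, h3⟩ := hpt P hPA
    apply hq
    rw [hbad]
    refine ⟨P, Or.inl ⟨h2, ?_⟩, h3⟩
    rw [h3, h1]
    exact_mod_cast hcon
  · intro P hPA hPT
    obtain ⟨h1, h2, h3⟩ := hpt P hPA
    apply hq
    rw [hbad]
    exact ⟨P, Or.inr hPT, h3⟩

end GSetup

end Fermat.Agent.H17
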