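/-
H17Inv: symmetric setup (project S17; statements frozen by helper17, proofs by helper14)
-/
import Mathlib
import Fermat.Agent.H17Nrm

set_option autoImplicit false

noncomputable section

open AlgebraicCurve WithZero Polynomial

namespace Fermat.Agent.H17

open Fermat.Agent.H3RR

section Unit

variable {K F : Type*} [Field K] [Field F] [Algebra K F]

open Classical in
/-- the unit comparing the two normalising factors -/
def uf (x : F) (v : Place K F) : F :=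
  if x ∈ v.toValuationSubring ∧ x⁻¹ ∈ v.toValuationSubring then x⁻¹ else 1

theorem inv_mul_nf_inv {x : F} (hx : x ≠ 0) (v : Place K F) :
    x⁻¹ * nf x⁻¹ v = nf x v * uf x v := by
  by_cases h1 : x ∈ v.toValuationSubring
  · by_cases h2 : x⁻¹ ∈ v.toValuationSubring
    · rw [nf_of_mem h1, nf_of_mem h2, uf, if_pos ⟨h1, h2⟩]; ring
    · rw [nf_of_mem h1, nf_of_notMem h2, uf, if_neg (fun h => h2 h.2), inv_inv, inv_mul_cancel₀ hx,
        one_mul]
  · have h2 : x⁻¹ ∈ v.toValuationSubring := (v.toValuationSubring.mem_or_inv_mem x).resolve_left h1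
    rw [nf_of_notMem h1, nf_of_mem h2, uf, if_neg (fun h => h1 h.1)]

theorem uf_mem (x : F) (v : Place K F) : uf x v ∈ v.toValuationSubring := by
  rw [uf]; split_ifs with h
  · exact h.2
  · exact one_mem _

theorem uf_inv_mem (x : F) (v : Place K F) : (uf x v)⁻¹ ∈ v.toValuationSubring := by
  rw [uf]; split_ifs with h
  · rw [inv_inv]; exact h.1
  · rw [inv_one]; exact one_mem _

theorem uf_ne_zero {x : F} (hx : x ≠ 0) (v : Place K F) : uf x v ≠ 0 := by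
  rw [uf]; split_ifs with h
  · exact inv_ne_zero hx
  · exact one_ne_zero

theorem sec_inv {x : F} (hx : x ≠ 0) (v : Place K F) (N : ℕ) (s : F) :
    s * x⁻¹ ^ N * nf x⁻¹ v ^ N = s * nf x v ^ N * uf x v ^ N := by
  rw [mul_assoc, ← mul_pow, inv_mul_nf_inv hx, mul_pow]; ring

theorem mem_W_inv_iff {x : F} (hx : x ≠ 0) (N : ℕ) (s : F) :
    s ∈ W K x N ↔ s * x⁻¹ ^ N ∈ W K x⁻¹ N := by
  rw [mem_W, mem_W]
  refine forall_congr' fun v => ?_
  rw [sec_inv hx]
  constructor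
  · intro h
    exact mul_mem h (pow_mem (uf_mem x v) N)
  · intro h
    have := mul_mem h (pow_mem (uf_inv_mem x v) N)
    rwa [mul_assoc, ← mul_pow, mul_inv_cancel₀ (uf_ne_zero hx v), one_pow, mul_one] at this

/-- multiplication by `x⁻ᴺ` -/
def invEquiv {x : F} (hx : x ≠ 0) (N : ℕ) : W K x N ≃ₗ[K] W K x⁻¹ N where
  toFun s := ⟨(s : F) * x⁻¹ ^ N, (mem_W_inv_iff hx N _).mp s.2⟩
  map_add' s t := Subtype.ext (by
    show ((s : F) + (t : F)) * x⁻¹ ^ N = (s : F) * x⁻¹ ^ N + (t : F) * x⁻¹ ^ N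
    ring)
  map_smul' c s := Subtype.ext (by
    show (c • (s : F)) * x⁻¹ ^ N = c • ((s : F) * x⁻¹ ^ N)
    rw [smul_mul_assoc])
  invFun t := ⟨(t : F) * x ^ N, (mem_W_inv_iff hx N _).mpr (by
    rw [mul_assoc, ← mul_pow, mul_inv_cancel₀ hx, one_pow, mul_one]; exact t.2)⟩
  left_inv s := Subtype.ext (by
    show (s : F) * x⁻¹ ^ N * x ^ N = s
    rw [mul_assoc, ← mul_pow, inv_mul_cancel₀ hx, one_pow, mul_one])
  right_inv t := Subtype.ext (by
    show (t : F) * x ^ N * x⁻¹ ^ N = t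
    rw [mul_assoc, ← mul_pow, mul_inv_cancel₀ hx, one_pow, mul_one])

theorem invEquiv_apply {x : F} (hx : x ≠ 0) (N : ℕ) (s : W K x N) :
    (invEquiv hx N s : F) = (s : F) * x⁻¹ ^ N := rfl

variable [IsAlgClosed K] [IsFF K F]

/-- the constant relating the two evaluations -/
def uc (x : F) (v : Place K F) : K := val v (uf x v)

theorem uc_ne_zero {x : F} (hx : x ≠ 0) (v : Place K F) : uc x v ≠ 0 := by
  intro h
  have h1 := val_mul v (uf_mem x v) (uf_inv_mem x v)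
  rw [mul_inv_cancel₀ (uf_ne_zero hx v), val_one] at h1
  rw [uc] at h
  rw [h, zero_mul] at h1
  exact one_ne_zero h1

theorem ev_inv {x : F} (hx : x ≠ 0) {N : ℕ} {s : F} (hs : s ∈ W K x N) (v : Place K F) :
    ev x⁻¹ N v (s * x⁻¹ ^ N) = uc x v ^ N * ev x N v s := by
  rw [ev, sec_inv hx, val_mul v (hs v) (pow_mem (uf_mem x v) N), val_pow v (uf_mem x v), ev, uc]
  ring

theorem ord_uf {x : F} (hx : x ≠ 0) (v : Place K F) : v.ord (uf x v) = 0 := by
  have h1 := (mem_place_iff_ord v (uf_ne_zero hx v)).mp (uf_mem x v)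
  have h2 := (mem_place_iff_ord v (inv_ne_zero (uf_ne_zero hx v))).mp (uf_inv_mem x v)
  rw [v.ord_inv] at h2
  omega

theorem ord_sec_inv {x : F} (hx : x ≠ 0) (v : Place K F) (N : ℕ) (s : F) :
    v.ord (s * x⁻¹ ^ N * nf x⁻¹ v ^ N) = v.ord (s * nf x v ^ N) := by
  rw [sec_inv hx]
  by_cases h0 : s * nf x v ^ N = 0
  · rw [h0, zero_mul]
  · rw [v.ord_mul h0 (pow_ne_zero _ (uf_ne_zero hx v)), ← zpow_natCast (uf x v), v.ord_zpow, ord_uf hx]
    simp

end Unit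

namespace HSetup

variable {K F V : Type*} [Field K] [Field F] [Algebra K F] [IsAlgClosed K] [CharZero K] [IsFF K F]
variable (S : HSetup K F V)

/-! ### L6: the symmetric setup (file H17Inv) -/

theorem image_W_one {x : F} (hx : x ≠ 0) :
    (fun s => s * x⁻¹) '' (W K x 1 : Set F) = (W K x⁻¹ 1 : Set F) := by
  ext t
  constructor
  · rintro ⟨s, hs, rfl⟩
    have := (mem_W_inv_iff hx 1 s).mp hs
    rwa [pow_one] at this
  · intro ht
    refine ⟨t * x, ?_, by simp [mul_assoc, mul_inv_cancel₀ hx]⟩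
    refine (mem_W_inv_iff hx 1 _).mpr ?_
    rwa [pow_one, mul_assoc, mul_inv_cancel₀ hx, mul_one]

/-- the inverse setup -/
def inv : HSetup K F V where
  x := S.x⁻¹
  hx := transcendental_inv S.hx
  𝔸 := S.𝔸
  r := S.r
  b := fun N => (S.b N).map (invEquiv (transcendental_ne_zero S.hx) N)
  gen0 := fun f hf => by
    have := S.gen1 f hf
    rwa [image_W_one (transcendental_ne_zero S.hx)] at this
  gen1 := fun f hf => by
    have hx0 := transcendental_ne_zero S.hx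
    have h1 := S.gen0 f (fun v hv => hf v (by rwa [inv_inv]))
    have h2 := image_W_one (K := K) (inv_ne_zero hx0)
    rw [inv_inv] at h2
    rw [inv_inv, h2]
    exact h1

theorem inv_e (P : Place K F) (i : Fin (S.r 1)) : S.inv.e P i = uc S.x P * S.e P i := by
  have hx0 := transcendental_ne_zero S.hx
  show ev S.x⁻¹ 1 P (((S.b 1).map (invEquiv hx0 1) i : W K S.x⁻¹ 1) : F) = _
  rw [Module.Basis.map_apply, invEquiv_apply, ev_inv hx0 (S.b 1 i).2, pow_one]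
  rfl

theorem inv_w (v : V) (P : Place K F) : S.inv.w v P = S.𝔸.abv v (uc S.x P) * S.w v P := by
  rw [w, w, Real.mul_iSup_of_nonneg ((S.𝔸.abv v).nonneg _)]
  refine iSup_congr fun i => ?_
  rw [inv_e, ← map_mul]
  rfl

theorem inv_dist (v : V) (P Q : Place K F) : S.inv.dist v P Q = S.dist v P Q := by
  have hx0 := transcendental_ne_zero S.hx
  have hP : S.𝔸.abv v (uc S.x P) ≠ 0 := (S.𝔸.abv v).ne_zero (uc_ne_zero hx0 P)
  have hQ : S.𝔸.abv v (uc S.x Q) ≠ 0 := (S.𝔸.abv v).ne_zero (uc_ne_zero hx0 Q)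
  have h1 : (⨆ ij : Fin (S.inv.r 1) × Fin (S.inv.r 1),
      S.inv.𝔸.abv v (S.inv.e P ij.1 * S.inv.e Q ij.2 - S.inv.e P ij.2 * S.inv.e Q ij.1)) =
      (S.𝔸.abv v (uc S.x P) * S.𝔸.abv v (uc S.x Q)) * ⨆ ij : Fin (S.r 1) × Fin (S.r 1),
      S.𝔸.abv v (S.e P ij.1 * S.e Q ij.2 - S.e P ij.2 * S.e Q ij.1) := by
    rw [Real.mul_iSup_of_nonneg (mul_nonneg ((S.𝔸.abv v).nonneg _) ((S.𝔸.abv v).nonneg _))]
    refine iSup_congr fun ij => ?_
    rw [← map_mul, ← map_mul]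
    show S.𝔸.abv v _ = _
    congr 1
    rw [inv_e, inv_e, inv_e, inv_e]
    ring
  rw [dist, dist, h1, inv_w, inv_w,
    show S.𝔸.abv v (uc S.x P) * S.w v P * (S.𝔸.abv v (uc S.x Q) * S.w v Q) =
      (S.𝔸.abv v (uc S.x P) * S.𝔸.abv v (uc S.x Q)) * (S.w v P * S.w v Q) by ring,
    mul_div_mul_left _ _ (mul_ne_zero hP hQ)]

theorem inv_nrm (N : ℕ) (v : V) (s : F) : S.inv.nrm N v (s * S.x⁻¹ ^ N) = S.nrm N v s := by
  have hx0 := transcendental_ne_zero S.hx
  by_cases hs : s ∈ W K S.x N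
  · have hs' : s * S.x⁻¹ ^ N ∈ W K S.inv.x N := (mem_W_inv_iff hx0 N s).mp hs
    rw [nrm, nrm, dif_pos hs, dif_pos hs']
    refine iSup_congr fun i => ?_
    show S.𝔸.abv v (((S.b N).map (invEquiv hx0 N)).repr ⟨s * S.x⁻¹ ^ N, hs'⟩ i) = _
    congr 1
    rw [Module.Basis.map_repr, LinearEquiv.trans_apply]
    congr 2
    rw [LinearEquiv.symm_apply_eq]
    rfl
  · have hs' : s * S.x⁻¹ ^ N ∉ W K S.inv.x N := fun h => hs ((mem_W_inv_iff hx0 N s).mpr h)
    rw [nrm, nrm, dif_neg hs, dif_neg hs']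

/-- the setup with `x` replaced by `x⁻¹` -/
theorem exists_inv : ∃ S' : HSetup K F V, S'.x = S.x⁻¹ ∧ S'.𝔸 = S.𝔸 ∧
    (∀ N s, s ∈ W K S.x N ↔ s * S.x⁻¹ ^ N ∈ W K S'.x N) ∧
    (∀ N v s, S'.nrm N v (s * S.x⁻¹ ^ N) = S.nrm N v s) ∧
    (∀ v P Q, S'.dist v P Q = S.dist v P Q) ∧
    (∀ N s (A : Multiset (Place K F)), IsZer S'.x N (s * S.x⁻¹ ^ N) A ↔ IsZer S.x N s A) ∧
    (∀ N v P s, s ∈ W K S.x N → S.𝔸.abv v (ev S'.x N P (s * S.x⁻¹ ^ N)) * S.w v P ^ N =
      S.𝔸.abv v (ev S.x N P s) * S'.w v P ^ N) := by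
  have hx0 := transcendental_ne_zero S.hx
  refine ⟨S.inv, rfl, rfl, fun N s => mem_W_inv_iff hx0 N s, S.inv_nrm, S.inv_dist, ?_, ?_⟩
  · intro N s A
    show (∀ v, _) ↔ (∀ v, _)
    refine forall_congr' fun v => ?_
    rw [show S.inv.x = S.x⁻¹ from rfl, ord_sec_inv hx0]
  · intro N v P s hs
    rw [show S.inv.x = S.x⁻¹ from rfl, ev_inv hx0 hs, inv_w, map_mul, map_pow, mul_pow]
    ring

end HSetup

end Fermat.Agent.H17
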