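/-
H17Poly: norms of polynomials in one variable (project S17; statements frozen by helper17, proofs by helper61)
-/
import Mathlib
import Fermat.Agent.H17Defs

set_option autoImplicit false

noncomputable section

open AlgebraicCurve WithZero Polynomial

namespace Fermat.Agent.H17

open Fermat.Agent.H3RR

/-! ### L4: polynomials in one variable (file H17Poly) -/
section Poly

variable {K V : Type*} [Field K] (𝔸 : AbsFam K V)

/-- maximum of the absolute values of the coefficients -/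
def AbsFam.pnrm (v : V) (p : K[X]) : ℝ := ⨆ i : Fin (p.natDegree + 1), 𝔸.abv v (p.coeff i)

theorem AbsFam.abv_coeff_le (v : V) (p : K[X]) (i : ℕ) : 𝔸.abv v (p.coeff i) ≤ 𝔸.pnrm v p := by
  rcases lt_or_ge p.natDegree i with h | h
  · rw [coeff_eq_zero_of_natDegree_lt h, map_zero]
    exact Real.iSup_nonneg fun i => (𝔸.abv v).nonneg _
  · exact le_ciSup (f := fun i : Fin (p.natDegree + 1) => 𝔸.abv v (p.coeff i))
      (Set.finite_range _).bddAbove ⟨i, Nat.lt_succ_of_le h⟩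

theorem AbsFam.pnrm_le (v : V) (p : K[X]) {B : ℝ} (h : ∀ i, 𝔸.abv v (p.coeff i) ≤ B) :
    𝔸.pnrm v p ≤ B := ciSup_le fun i => h i

theorem AbsFam.pnrm_nonneg (v : V) (p : K[X]) : 0 ≤ 𝔸.pnrm v p :=
  Real.iSup_nonneg fun _ => (𝔸.abv v).nonneg _

theorem AbsFam.pnrm_pos (v : V) {p : K[X]} (hp : p ≠ 0) : 0 < 𝔸.pnrm v p :=
  lt_of_lt_of_le ((𝔸.abv v).pos (leadingCoeff_ne_zero.mpr hp)) (𝔸.abv_coeff_le v p p.natDegree)

theorem AbsFam.pnrm_C_mul_le (v : V) (c : K) (p : K[X]) :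
    𝔸.pnrm v (C c * p) ≤ 𝔸.abv v c * 𝔸.pnrm v p := by
  refine 𝔸.pnrm_le v _ fun i => ?_
  rw [coeff_C_mul, map_mul]
  exact mul_le_mul_of_nonneg_left (𝔸.abv_coeff_le v p i) ((𝔸.abv v).nonneg _)

theorem AbsFam.pnrm_C_mul (v : V) (c : K) (p : K[X]) :
    𝔸.pnrm v (C c * p) = 𝔸.abv v c * 𝔸.pnrm v p := by
  refine le_antisymm (𝔸.pnrm_C_mul_le v c p) ?_
  rcases eq_or_ne c 0 with rfl | hc
  · rw [map_zero, zero_mul]; exact 𝔸.pnrm_nonneg v _
  have h := 𝔸.pnrm_C_mul_le v c⁻¹ (C c * p)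
  rw [← mul_assoc, ← C_mul, inv_mul_cancel₀ hc, C_1, one_mul] at h
  calc 𝔸.abv v c * 𝔸.pnrm v p ≤ 𝔸.abv v c * (𝔸.abv v c⁻¹ * 𝔸.pnrm v (C c * p)) :=
        mul_le_mul_of_nonneg_left h ((𝔸.abv v).nonneg _)
    _ = 𝔸.pnrm v (C c * p) := by
        rw [← mul_assoc, ← map_mul, mul_inv_cancel₀ hc, map_one, one_mul]

theorem AbsFam.pnrm_zero (v : V) : 𝔸.pnrm v (0 : K[X]) = 0 :=
  le_antisymm (𝔸.pnrm_le v _ fun i => by rw [coeff_zero, map_zero]) (𝔸.pnrm_nonneg v _)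

theorem AbsFam.pnrm_one (v : V) : 𝔸.pnrm v (1 : K[X]) = 1 := by
  refine le_antisymm (𝔸.pnrm_le v _ fun i => ?_) ?_
  · rw [coeff_one]
    split_ifs
    · rw [map_one]
    · rw [map_zero]; exact zero_le_one
  · have := 𝔸.abv_coeff_le v (1 : K[X]) 0
    rwa [coeff_one_zero, map_one] at this

theorem AbsFam.one_le_card (n : ℕ) (v : V) : 1 ≤ 𝔸.card n v := (𝔸.isMC_card n).1 v

theorem AbsFam.card_mono {m n : ℕ} (h : m ≤ n) (v : V) : 𝔸.card m v ≤ 𝔸.card n v := by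
  classical
  unfold AbsFam.card
  split_ifs
  · exact max_le_max le_rfl (Nat.cast_le.mpr h)
  · exact le_rfl

/-- version of `abv_sum_le` with a bound for the number of terms -/
theorem AbsFam.abv_sum_le' {ι : Type*} (S : Finset ι) (f : ι → K) (v : V) {n : ℕ} (hn : S.card ≤ n)
    {B : ℝ} (hB : 0 ≤ B) (h : ∀ i ∈ S, 𝔸.abv v (f i) ≤ B) :
    𝔸.abv v (∑ i ∈ S, f i) ≤ 𝔸.card n v * B :=
  (𝔸.abv_sum_le S f v hB h).trans (mul_le_mul_of_nonneg_right (𝔸.card_mono hn v) hB)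

/-- upper bound for products -/
theorem AbsFam.pnrm_mul_le (v : V) {D : ℕ} {p q : K[X]} (hp : p.natDegree ≤ D) (hq : q.natDegree ≤ D) :
    𝔸.pnrm v (p * q) ≤ 𝔸.card (2 * D + 1) v * (𝔸.pnrm v p * 𝔸.pnrm v q) := by
  have hB : 0 ≤ 𝔸.pnrm v p * 𝔸.pnrm v q := mul_nonneg (𝔸.pnrm_nonneg v p) (𝔸.pnrm_nonneg v q)
  refine 𝔸.pnrm_le v _ fun i => ?_
  rcases le_or_gt i (2 * D) with hi | hi
  · rw [coeff_mul]
    refine 𝔸.abv_sum_le' _ _ v ?_ hB fun x _ => ?_
    · rw [Finset.Nat.card_antidiagonal]; omega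
    · rw [map_mul]
      exact mul_le_mul (𝔸.abv_coeff_le v p _) (𝔸.abv_coeff_le v q _) ((𝔸.abv v).nonneg _)
        (𝔸.pnrm_nonneg v p)
  · have h0 : (p * q).natDegree < i := lt_of_le_of_lt natDegree_mul_le (by omega)
    rw [coeff_eq_zero_of_natDegree_lt h0, map_zero]
    exact mul_nonneg (zero_le_one.trans (𝔸.one_le_card _ v)) hB

/-- upper bound for products -/
theorem exists_pnrm_mul_le (D : ℕ) : ∃ C, IsMC C ∧ ∀ v (p q : K[X]), p.natDegree ≤ D →
    q.natDegree ≤ D → 𝔸.pnrm v (p * q) ≤ C v * (𝔸.pnrm v p * 𝔸.pnrm v q) :=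
  ⟨_, 𝔸.isMC_card (2 * D + 1), fun v _ _ hp hq => 𝔸.pnrm_mul_le v hp hq⟩

/-- division by a linear polynomial -/
theorem AbsFam.pnrm_mul_max_le (v : V) (a : K) {q : K[X]} {D : ℕ} (hq : q.natDegree ≤ D) :
    max 1 (𝔸.abv v a) * 𝔸.pnrm v q ≤ 𝔸.card (D + 1) v * 𝔸.pnrm v ((X - C a) * q) := by
  set p : K[X] := (X - C a) * q with hp
  have hB : 0 ≤ 𝔸.pnrm v p := 𝔸.pnrm_nonneg v p
  have hc1 : ∀ i, p.coeff (i + 1) = q.coeff i - a * q.coeff (i + 1) := fun i => by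
    rw [hp, sub_mul, coeff_sub, coeff_X_mul, coeff_C_mul]
  have hc0 : p.coeff 0 = - (a * q.coeff 0) := by
    rw [hp, sub_mul, coeff_sub, mul_coeff_zero, coeff_X_zero, zero_mul, coeff_C_mul, zero_sub]
  rcases le_or_gt (𝔸.abv v a) 1 with ha | ha
  · rw [max_eq_left ha, one_mul]
    refine 𝔸.pnrm_le v _ fun i => ?_
    have h1 : q.coeff i = ∑ k ∈ Finset.range (D + 1), a ^ k * p.coeff (i + k + 1) := by
      have h2 : ∀ k, a ^ k * p.coeff (i + k + 1)
          = a ^ k * q.coeff (i + k) - a ^ (k + 1) * q.coeff (i + (k + 1)) := fun k => by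
        rw [hc1, pow_succ]; ring_nf
      rw [Finset.sum_congr rfl fun k _ => h2 k,
        Finset.sum_range_sub' (fun k => a ^ k * q.coeff (i + k)),
        coeff_eq_zero_of_natDegree_lt (n := i + (D + 1)) (by omega)]
      simp
    rw [h1]
    refine 𝔸.abv_sum_le' _ _ v (by rw [Finset.card_range]) hB fun k _ => ?_
    rw [map_mul, map_pow]
    calc 𝔸.abv v a ^ k * 𝔸.abv v (p.coeff (i + k + 1)) ≤ 1 * 𝔸.pnrm v p :=
          mul_le_mul (pow_le_one₀ ((𝔸.abv v).nonneg _) ha) (𝔸.abv_coeff_le v p _)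
            ((𝔸.abv v).nonneg _) zero_le_one
      _ = _ := one_mul _
  · rw [max_eq_right ha.le]
    have ha0 : a ≠ 0 := fun h => by rw [h, map_zero] at ha; exact absurd ha (by norm_num)
    rw [← 𝔸.pnrm_C_mul]
    refine 𝔸.pnrm_le v _ fun i => ?_
    rw [coeff_C_mul]
    rcases lt_or_ge D i with hi | hi
    · rw [coeff_eq_zero_of_natDegree_lt (by omega : q.natDegree < i), mul_zero, map_zero]
      exact mul_nonneg (zero_le_one.trans (𝔸.one_le_card _ v)) hB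
    have h1 : ∀ i, a * q.coeff i = ∑ k ∈ Finset.range (i + 1), (- (a⁻¹ ^ k * p.coeff (i - k))) := by
      intro i
      induction i with
      | zero => simp [hc0]
      | succ i ih =>
        rw [Finset.sum_range_succ']
        have h3 : ∀ k, - (a⁻¹ ^ (k + 1) * p.coeff (i + 1 - (k + 1)))
            = a⁻¹ * - (a⁻¹ ^ k * p.coeff (i - k)) := fun k => by
          rw [Nat.add_sub_add_right, pow_succ]; ring
        rw [Finset.sum_congr rfl fun k _ => h3 k, ← Finset.mul_sum, ← ih, ← mul_assoc,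
          inv_mul_cancel₀ ha0, one_mul, pow_zero, one_mul, Nat.sub_zero, hc1]
        ring
    rw [h1]
    refine 𝔸.abv_sum_le' _ _ v (by rw [Finset.card_range]; omega) hB fun k _ => ?_
    rw [(𝔸.abv v).map_neg, map_mul, map_pow, map_inv₀]
    calc (𝔸.abv v a)⁻¹ ^ k * 𝔸.abv v (p.coeff (i - k)) ≤ 1 * 𝔸.pnrm v p :=
          mul_le_mul (pow_le_one₀ (inv_nonneg.mpr ((𝔸.abv v).nonneg _)) (inv_le_one_of_one_le₀ ha.le))
            (𝔸.abv_coeff_le v p _) ((𝔸.abv v).nonneg _) zero_le_one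
      _ = _ := one_mul _

/-- multiplication by a linear polynomial -/
theorem AbsFam.pnrm_linear_mul_le (v : V) (a : K) (q : K[X]) :
    𝔸.pnrm v ((X - C a) * q) ≤ 𝔸.card 2 v * (max 1 (𝔸.abv v a) * 𝔸.pnrm v q) := by
  have hM : 0 ≤ max 1 (𝔸.abv v a) := zero_le_one.trans (le_max_left _ _)
  have hB : 0 ≤ max 1 (𝔸.abv v a) * 𝔸.pnrm v q := mul_nonneg hM (𝔸.pnrm_nonneg v q)
  refine 𝔸.pnrm_le v _ fun i => ?_
  have h1 : ((X - C a) * q).coeff i
      = ∑ b : Bool, (if b then (X * q).coeff i else - (a * q.coeff i)) := by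
    rw [Fintype.sum_bool, sub_mul, coeff_sub, coeff_C_mul]
    simp [sub_eq_add_neg]
  rw [h1]
  refine 𝔸.abv_sum_le' _ _ v (by simp) hB fun b _ => ?_
  cases b with
  | false =>
    simp only [Bool.false_eq_true, if_false]
    rw [(𝔸.abv v).map_neg, map_mul]
    exact mul_le_mul (le_max_right _ _) (𝔸.abv_coeff_le v q _) ((𝔸.abv v).nonneg _) hM
  | true =>
    simp only [if_true]
    have h2 : 𝔸.abv v ((X * q).coeff i) ≤ 𝔸.pnrm v q := by
      cases i with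
      | zero => rw [mul_coeff_zero, coeff_X_zero, zero_mul, map_zero]; exact 𝔸.pnrm_nonneg v q
      | succ i => rw [coeff_X_mul]; exact 𝔸.abv_coeff_le v q i
    calc _ ≤ 1 * 𝔸.pnrm v q := by rw [one_mul]; exact h2
      _ ≤ _ := mul_le_mul_of_nonneg_right (le_max_left _ _) (𝔸.pnrm_nonneg v q)

/-- the product of `max 1 |a|` over the roots -/
def AbsFam.rt (v : V) (s : Multiset K) : ℝ := (s.map fun a => max 1 (𝔸.abv v a)).prod

theorem AbsFam.one_le_rt (v : V) (s : Multiset K) : 1 ≤ 𝔸.rt v s := by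
  induction s using Multiset.induction_on with
  | empty => simp [AbsFam.rt]
  | cons a s ih =>
    rw [AbsFam.rt, Multiset.map_cons, Multiset.prod_cons]
    exact one_le_mul_of_one_le_of_one_le (le_max_left _ _) ih

theorem AbsFam.rt_le (v : V) (s : Multiset K) {D : ℕ} (hs : s.card ≤ D) :
    𝔸.rt v s ≤ 𝔸.card (D + 1) v ^ s.card * 𝔸.pnrm v (s.map fun a => X - C a).prod := by
  induction s using Multiset.induction_on with
  | empty => simp [AbsFam.rt, 𝔸.pnrm_one]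
  | cons a s ih =>
    rw [Multiset.card_cons] at hs
    have hdeg : (s.map fun a => (X - C a : K[X])).prod.natDegree ≤ D := by
      rw [natDegree_multiset_prod_X_sub_C_eq_card]; omega
    have h1 := 𝔸.pnrm_mul_max_le v a hdeg
    have h2 := ih (by omega)
    have hc : 0 ≤ 𝔸.card (D + 1) v := zero_le_one.trans (𝔸.one_le_card _ v)
    rw [AbsFam.rt, Multiset.map_cons, Multiset.prod_cons, Multiset.map_cons, Multiset.prod_cons,
      Multiset.card_cons]
    calc max 1 (𝔸.abv v a) * 𝔸.rt v s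
        ≤ max 1 (𝔸.abv v a) * (𝔸.card (D + 1) v ^ s.card * 𝔸.pnrm v (s.map fun a => X - C a).prod) :=
          mul_le_mul_of_nonneg_left h2 (zero_le_one.trans (le_max_left _ _))
      _ = 𝔸.card (D + 1) v ^ s.card *
            (max 1 (𝔸.abv v a) * 𝔸.pnrm v (s.map fun a => X - C a).prod) := by ring
      _ ≤ 𝔸.card (D + 1) v ^ s.card *
            (𝔸.card (D + 1) v * 𝔸.pnrm v ((X - C a) * (s.map fun a => X - C a).prod)) :=
          mul_le_mul_of_nonneg_left h1 (pow_nonneg hc _)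
      _ = _ := by rw [pow_succ]; ring

theorem AbsFam.pnrm_le_rt (v : V) (s : Multiset K) :
    𝔸.pnrm v (s.map fun a => X - C a).prod ≤ 𝔸.card 2 v ^ s.card * 𝔸.rt v s := by
  induction s using Multiset.induction_on with
  | empty => simp [AbsFam.rt, 𝔸.pnrm_one]
  | cons a s ih =>
    have hc : 0 ≤ 𝔸.card 2 v := zero_le_one.trans (𝔸.one_le_card _ v)
    rw [AbsFam.rt, Multiset.map_cons, Multiset.prod_cons, Multiset.map_cons, Multiset.prod_cons,
      Multiset.card_cons]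
    have h1 := 𝔸.pnrm_linear_mul_le v a (s.map fun a => X - C a).prod
    refine h1.trans ?_
    have h2 : max 1 (𝔸.abv v a) * 𝔸.pnrm v (s.map fun a => X - C a).prod
        ≤ max 1 (𝔸.abv v a) * (𝔸.card 2 v ^ s.card * 𝔸.rt v s) :=
      mul_le_mul_of_nonneg_left ih (zero_le_one.trans (le_max_left _ _))
    calc _ ≤ 𝔸.card 2 v * (max 1 (𝔸.abv v a) * (𝔸.card 2 v ^ s.card * 𝔸.rt v s)) :=
          mul_le_mul_of_nonneg_left h2 hc
      _ = _ := by rw [pow_succ, AbsFam.rt]; ring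

/-- the Mahler-type measure -/
def AbsFam.mah (v : V) (p : K[X]) : ℝ := 𝔸.abv v p.leadingCoeff * 𝔸.rt v p.roots

theorem AbsFam.mah_nonneg (v : V) (p : K[X]) : 0 ≤ 𝔸.mah v p :=
  mul_nonneg ((𝔸.abv v).nonneg _) (zero_le_one.trans (𝔸.one_le_rt v _))

theorem AbsFam.mah_mul (v : V) {p q : K[X]} (hp : p ≠ 0) (hq : q ≠ 0) :
    𝔸.mah v (p * q) = 𝔸.mah v p * 𝔸.mah v q := by
  rw [AbsFam.mah, leadingCoeff_mul, map_mul, roots_mul (mul_ne_zero hp hq), AbsFam.rt,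
    Multiset.map_add, Multiset.prod_add, AbsFam.mah, AbsFam.mah, AbsFam.rt, AbsFam.rt]
  ring

theorem AbsFam.mah_one (v : V) : 𝔸.mah v (1 : K[X]) = 1 := by
  simp [AbsFam.mah, AbsFam.rt]

theorem AbsFam.mah_prod (v : V) (A : Multiset K[X]) (hA : (0 : K[X]) ∉ A) :
    𝔸.mah v A.prod = (A.map (𝔸.mah v)).prod := by
  induction A using Multiset.induction_on with
  | empty => simp [𝔸.mah_one]
  | cons p A ih =>
    rw [Multiset.mem_cons, not_or] at hA
    rw [Multiset.prod_cons, Multiset.map_cons, Multiset.prod_cons,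
      𝔸.mah_mul v (Ne.symm hA.1) (Multiset.prod_ne_zero hA.2), ih hA.2]

section AC

variable [IsAlgClosed K]

theorem eq_C_mul_prod_roots (p : K[X]) :
    p = C p.leadingCoeff * (p.roots.map fun a => X - C a).prod :=
  (IsAlgClosed.splits p).eq_prod_roots

theorem card_roots_eq' (p : K[X]) : p.roots.card = p.natDegree :=
  (splits_iff_card_roots.mp (IsAlgClosed.splits p))

theorem AbsFam.mah_le (v : V) {p : K[X]} {D : ℕ} (hp : p.natDegree ≤ D) :
    𝔸.mah v p ≤ 𝔸.card (D + 1) v ^ D * 𝔸.pnrm v p := by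
  have h1 := 𝔸.rt_le v p.roots (D := D) (by rw [card_roots_eq']; exact hp)
  have h2 : 𝔸.pnrm v p = 𝔸.abv v p.leadingCoeff * 𝔸.pnrm v (p.roots.map fun a => X - C a).prod := by
    conv_lhs => rw [eq_C_mul_prod_roots p]
    rw [𝔸.pnrm_C_mul]
  rw [AbsFam.mah, h2]
  calc 𝔸.abv v p.leadingCoeff * 𝔸.rt v p.roots
      ≤ 𝔸.abv v p.leadingCoeff * (𝔸.card (D + 1) v ^ D * 𝔸.pnrm v (p.roots.map fun a => X - C a).prod) := by
        refine mul_le_mul_of_nonneg_left (h1.trans ?_) ((𝔸.abv v).nonneg _)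
        refine mul_le_mul_of_nonneg_right ?_ (𝔸.pnrm_nonneg v _)
        exact pow_le_pow_right₀ (𝔸.one_le_card _ v) (by rw [card_roots_eq']; exact hp)
    _ = _ := by ring

theorem AbsFam.le_mah (v : V) {p : K[X]} {D : ℕ} (hp : p.natDegree ≤ D) :
    𝔸.pnrm v p ≤ 𝔸.card 2 v ^ D * 𝔸.mah v p := by
  have h1 := 𝔸.pnrm_le_rt v p.roots
  have h2 : 𝔸.pnrm v p = 𝔸.abv v p.leadingCoeff * 𝔸.pnrm v (p.roots.map fun a => X - C a).prod := by
    conv_lhs => rw [eq_C_mul_prod_roots p]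
    rw [𝔸.pnrm_C_mul]
  rw [AbsFam.mah, h2]
  calc 𝔸.abv v p.leadingCoeff * 𝔸.pnrm v (p.roots.map fun a => X - C a).prod
      ≤ 𝔸.abv v p.leadingCoeff * (𝔸.card 2 v ^ D * 𝔸.rt v p.roots) := by
        refine mul_le_mul_of_nonneg_left (h1.trans ?_) ((𝔸.abv v).nonneg _)
        refine mul_le_mul_of_nonneg_right ?_ (zero_le_one.trans (𝔸.one_le_rt v _))
        exact pow_le_pow_right₀ (𝔸.one_le_card _ v) (by rw [card_roots_eq']; exact hp)
    _ = _ := by ring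

end AC

/-- Gauss/Gelfond lemma: lower bound for products -/
theorem exists_le_pnrm_mul [IsAlgClosed K] (D : ℕ) : ∃ C, IsMC C ∧ ∀ v (p q : K[X]), p.natDegree ≤ D →
    q.natDegree ≤ D → 𝔸.pnrm v p * 𝔸.pnrm v q ≤ C v * 𝔸.pnrm v (p * q) := by
  refine ⟨fun v => 𝔸.card 2 v ^ D * 𝔸.card 2 v ^ D * 𝔸.card (2 * D + 1) v ^ (2 * D),
    (((𝔸.isMC_card 2).pow D).mul ((𝔸.isMC_card 2).pow D)).mul ((𝔸.isMC_card (2 * D + 1)).pow (2 * D)),
    fun v p q hp hq => ?_⟩
  have hc2 : 0 ≤ 𝔸.card 2 v ^ D := pow_nonneg (zero_le_one.trans (𝔸.one_le_card _ v)) _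
  have hc : 0 ≤ 𝔸.card (2 * D + 1) v ^ (2 * D) := pow_nonneg (zero_le_one.trans (𝔸.one_le_card _ v)) _
  have hR : 0 ≤ 𝔸.card 2 v ^ D * 𝔸.card 2 v ^ D * 𝔸.card (2 * D + 1) v ^ (2 * D) * 𝔸.pnrm v (p * q) :=
    mul_nonneg (mul_nonneg (mul_nonneg hc2 hc2) hc) (𝔸.pnrm_nonneg v _)
  rcases eq_or_ne p 0 with rfl | hp0
  · rw [𝔸.pnrm_zero, zero_mul]; exact hR
  rcases eq_or_ne q 0 with rfl | hq0
  · rw [𝔸.pnrm_zero v, mul_zero]; exact hR
  calc 𝔸.pnrm v p * 𝔸.pnrm v q ≤ (𝔸.card 2 v ^ D * 𝔸.mah v p) * (𝔸.card 2 v ^ D * 𝔸.mah v q) :=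
        mul_le_mul (𝔸.le_mah v hp) (𝔸.le_mah v hq) (𝔸.pnrm_nonneg v q)
          (mul_nonneg hc2 (𝔸.mah_nonneg v p))
    _ = 𝔸.card 2 v ^ D * 𝔸.card 2 v ^ D * 𝔸.mah v (p * q) := by rw [𝔸.mah_mul v hp0 hq0]; ring
    _ ≤ 𝔸.card 2 v ^ D * 𝔸.card 2 v ^ D * (𝔸.card (2 * D + 1) v ^ (2 * D) * 𝔸.pnrm v (p * q)) :=
        mul_le_mul_of_nonneg_left
          (𝔸.mah_le v (natDegree_mul_le.trans (by omega))) (mul_nonneg hc2 hc2)
    _ = _ := by ring

theorem natDegree_multiset_prod_le' (A : Multiset K[X]) {n D : ℕ} (hA : A.card ≤ n)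
    (hD : ∀ p ∈ A, p.natDegree ≤ D) : A.prod.natDegree ≤ n * D := by
  refine (natDegree_multiset_prod_le A).trans ?_
  calc (A.map natDegree).sum ≤ (A.map natDegree).card • D :=
        Multiset.sum_le_card_nsmul _ _ (by
          intro x hx
          obtain ⟨p, hp, rfl⟩ := Multiset.mem_map.mp hx
          exact hD p hp)
    _ ≤ n * D := by
        rw [Multiset.card_map, smul_eq_mul]
        exact Nat.mul_le_mul_right D hA

theorem multiset_prod_map_le {α : Type*} (A : Multiset α) (f g : α → ℝ) {c : ℝ} (hc : 1 ≤ c) {n : ℕ}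
    (hn : A.card ≤ n) (hf : ∀ a ∈ A, 0 ≤ f a) (hg : ∀ a ∈ A, 0 ≤ g a) (h : ∀ a ∈ A, f a ≤ c * g a) :
    (A.map f).prod ≤ c ^ n * (A.map g).prod := by
  have hg' : 0 ≤ (A.map g).prod := Multiset.prod_nonneg (by
    intro x hx
    obtain ⟨a, ha, rfl⟩ := Multiset.mem_map.mp hx
    exact hg a ha)
  have key : (A.map f).prod ≤ c ^ A.card * (A.map g).prod := by
    clear hn hg'
    induction A using Multiset.induction_on with
    | empty => simp
    | cons a A ih =>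
      rw [Multiset.map_cons, Multiset.prod_cons, Multiset.map_cons, Multiset.prod_cons,
        Multiset.card_cons]
      have h1 := ih (fun b hb => hf b (Multiset.mem_cons_of_mem hb))
        (fun b hb => hg b (Multiset.mem_cons_of_mem hb))
        (fun b hb => h b (Multiset.mem_cons_of_mem hb))
      have hf' : 0 ≤ (A.map f).prod := Multiset.prod_nonneg (by
        intro x hx
        obtain ⟨b, hb, rfl⟩ := Multiset.mem_map.mp hx
        exact hf b (Multiset.mem_cons_of_mem hb))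
      calc f a * (A.map f).prod ≤ (c * g a) * (c ^ A.card * (A.map g).prod) :=
            mul_le_mul (h a (Multiset.mem_cons_self a A)) h1 hf'
              (mul_nonneg (zero_le_one.trans hc) (hg a (Multiset.mem_cons_self a A)))
        _ = _ := by rw [pow_succ]; ring
  exact key.trans (mul_le_mul_of_nonneg_right (pow_le_pow_right₀ hc hn) hg')

/-- the same for products of at most `n` polynomials of degree at most `D` -/
theorem exists_prod_pnrm_le [IsAlgClosed K] (n D : ℕ) : ∃ C, IsMC C ∧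
    ∀ v (A : Multiset K[X]), A.card ≤ n → (∀ p ∈ A, p.natDegree ≤ D) →
    (A.map (𝔸.pnrm v)).prod ≤ C v * 𝔸.pnrm v A.prod := by
  refine ⟨fun v => (𝔸.card 2 v ^ D) ^ n * 𝔸.card (n * D + 1) v ^ (n * D),
    (((𝔸.isMC_card 2).pow D).pow n).mul ((𝔸.isMC_card (n * D + 1)).pow (n * D)),
    fun v A hA hD => ?_⟩
  have hc1 : 1 ≤ 𝔸.card 2 v ^ D := one_le_pow₀ (𝔸.one_le_card _ v)
  have hc2 : 0 ≤ (𝔸.card 2 v ^ D) ^ n := pow_nonneg (zero_le_one.trans hc1) _
  have hc : 0 ≤ 𝔸.card (n * D + 1) v ^ (n * D) := pow_nonneg (zero_le_one.trans (𝔸.one_le_card _ v)) _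
  by_cases h0 : (0 : K[X]) ∈ A
  · have : (A.map (𝔸.pnrm v)).prod = 0 :=
      Multiset.prod_eq_zero (Multiset.mem_map.mpr ⟨0, h0, 𝔸.pnrm_zero v⟩)
    rw [this]
    exact mul_nonneg (mul_nonneg hc2 hc) (𝔸.pnrm_nonneg v _)
  calc (A.map (𝔸.pnrm v)).prod ≤ (𝔸.card 2 v ^ D) ^ n * (A.map (𝔸.mah v)).prod :=
        multiset_prod_map_le A _ _ hc1 hA (fun a _ => 𝔸.pnrm_nonneg v a)
          (fun a _ => 𝔸.mah_nonneg v a) (fun a ha => 𝔸.le_mah v (hD a ha))
    _ = (𝔸.card 2 v ^ D) ^ n * 𝔸.mah v A.prod := by rw [𝔸.mah_prod v A h0]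
    _ ≤ (𝔸.card 2 v ^ D) ^ n * (𝔸.card (n * D + 1) v ^ (n * D) * 𝔸.pnrm v A.prod) :=
        mul_le_mul_of_nonneg_left (𝔸.mah_le v (natDegree_multiset_prod_le' A hA hD)) hc2
    _ = _ := by ring

theorem exists_pnrm_prod_le (n D : ℕ) : ∃ C, IsMC C ∧
    ∀ v (A : Multiset K[X]), A.card ≤ n → (∀ p ∈ A, p.natDegree ≤ D) →
    𝔸.pnrm v A.prod ≤ C v * (A.map (𝔸.pnrm v)).prod := by
  refine ⟨fun v => 𝔸.card (2 * (n * D) + 1) v ^ n, (𝔸.isMC_card _).pow n, fun v A hA hD => ?_⟩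
  have hc1 : 1 ≤ 𝔸.card (2 * (n * D) + 1) v := 𝔸.one_le_card _ v
  have hc0 : 0 ≤ 𝔸.card (2 * (n * D) + 1) v := zero_le_one.trans hc1
  have hpr : ∀ A : Multiset K[X], 0 ≤ (A.map (𝔸.pnrm v)).prod := fun A =>
    Multiset.prod_nonneg (by
      intro x hx
      obtain ⟨a, _, rfl⟩ := Multiset.mem_map.mp hx
      exact 𝔸.pnrm_nonneg v a)
  have key : 𝔸.pnrm v A.prod ≤ 𝔸.card (2 * (n * D) + 1) v ^ A.card * (A.map (𝔸.pnrm v)).prod := by
    induction A using Multiset.induction_on with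
    | empty => simp [𝔸.pnrm_one]
    | cons p A ih =>
      rw [Multiset.card_cons] at hA
      have hD' : ∀ q ∈ A, q.natDegree ≤ D := fun q hq => hD q (Multiset.mem_cons_of_mem hq)
      have h1 := ih (by omega) hD'
      have hn : 1 ≤ n := by omega
      have hp1 : p.natDegree ≤ n * D := by
        have := hD p (Multiset.mem_cons_self p A)
        calc p.natDegree ≤ 1 * D := by rw [one_mul]; exact this
          _ ≤ n * D := Nat.mul_le_mul_right D hn
      have hA1 : A.prod.natDegree ≤ n * D := natDegree_multiset_prod_le' A (by omega) hD'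
      rw [Multiset.prod_cons, Multiset.map_cons, Multiset.prod_cons, Multiset.card_cons]
      calc 𝔸.pnrm v (p * A.prod)
          ≤ 𝔸.card (2 * (n * D) + 1) v * (𝔸.pnrm v p * 𝔸.pnrm v A.prod) := 𝔸.pnrm_mul_le v hp1 hA1
        _ ≤ 𝔸.card (2 * (n * D) + 1) v * (𝔸.pnrm v p *
              (𝔸.card (2 * (n * D) + 1) v ^ A.card * (A.map (𝔸.pnrm v)).prod)) :=
            mul_le_mul_of_nonneg_left (mul_le_mul_of_nonneg_left h1 (𝔸.pnrm_nonneg v p)) hc0
        _ = _ := by rw [pow_succ]; ring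
  exact key.trans (mul_le_mul_of_nonneg_right (pow_le_pow_right₀ hc1 hA) (hpr A))

/-- interpolation: some value at a small natural number is large -/
theorem exists_pnrm_le_eval [CharZero K] (D : ℕ) : ∃ C, IsMC C ∧ ∀ v (p : K[X]), p.natDegree ≤ D →
    ∃ t : ℕ, t ≤ D ∧ 𝔸.pnrm v p ≤ C v * 𝔸.abv v (p.eval (t : K)) := by
  classical
  let s : Finset ℕ := Finset.range (D + 1)
  let nd : ℕ → K := fun t => (t : K)
  have hnd : Set.InjOn nd s := fun a _ b _ h => Nat.cast_injective (R := K) h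
  have hC : ∀ x : Fin (D + 1) × Fin (D + 1), ∃ C : V → ℝ, IsMC C ∧
      ∀ v, 𝔸.abv v ((Lagrange.basis s nd (x.1 : ℕ)).coeff (x.2 : ℕ)) ≤ C v :=
    fun x => 𝔸.exists_isMC_abv_le _
  choose C hC1 hC2 using hC
  obtain ⟨E, hE1, hE2⟩ := exists_isMC_forall hC1
  refine ⟨fun v => 𝔸.card (D + 1) v * E v, (𝔸.isMC_card _).mul hE1, fun v p hp => ?_⟩
  obtain ⟨t, ht, hmax⟩ := Finset.exists_max_image s (fun t : ℕ => 𝔸.abv v (p.eval (t : K)))
    ⟨0, Finset.mem_range.mpr (Nat.succ_pos D)⟩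
  refine ⟨t, Nat.lt_succ_iff.mp (Finset.mem_range.mp ht), ?_⟩
  have hdeg : p.degree < s.card := by
    rw [Finset.card_range]
    calc p.degree ≤ p.natDegree := degree_le_natDegree
      _ < ((D + 1 : ℕ) : WithBot ℕ) := by exact_mod_cast Nat.lt_succ_of_le hp
  have hint := Lagrange.eq_interpolate (f := p) hnd hdeg
  refine 𝔸.pnrm_le v _ fun i => ?_
  have hB : 0 ≤ E v * 𝔸.abv v (p.eval (t : K)) := mul_nonneg (hE1.nonneg v) ((𝔸.abv v).nonneg _)
  rcases lt_or_ge D i with hi | hi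
  · rw [coeff_eq_zero_of_natDegree_lt (by omega : p.natDegree < i), map_zero, mul_assoc]
    exact mul_nonneg (zero_le_one.trans (𝔸.one_le_card _ v)) hB
  have hco : p.coeff i = ∑ u ∈ s, p.eval (nd u) * (Lagrange.basis s nd u).coeff i := by
    conv_lhs => rw [hint]
    rw [Lagrange.interpolate_apply, finsetSum_coeff]
    exact Finset.sum_congr rfl fun u _ => by rw [coeff_C_mul]
  rw [hco, mul_assoc]
  refine 𝔸.abv_sum_le' _ _ v (by rw [Finset.card_range]) hB fun u hu => ?_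
  rw [map_mul, mul_comm]
  have hu' : u < D + 1 := Finset.mem_range.mp hu
  exact mul_le_mul ((hC2 (⟨u, hu'⟩, ⟨i, Nat.lt_succ_of_le hi⟩) v).trans (hE2 _ v)) (hmax u hu)
    ((𝔸.abv v).nonneg _) (hE1.nonneg v)

/-- generic linear forms: `y_t(p) = Σ t^i p_i`, `z_t(p) = Σ t^(r i) p_i` -/
def ylin {r : ℕ} (t : ℕ) (p : Fin r → K) : K := ∑ i : Fin r, (t : K) ^ (i : ℕ) * p i
def zlin {r : ℕ} (t : ℕ) (p : Fin r → K) : K := ∑ i : Fin r, (t : K) ^ (r * (i : ℕ)) * p i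

/-- the polynomial in `t` giving `z_t(p)` -/
def zpol {r : ℕ} (p : Fin r → K) : K[X] := ∑ i : Fin r, C (p i) * X ^ (r * (i : ℕ))

/-- the polynomial in `t` giving the minor -/
def mpol {r : ℕ} (p : (Fin r → K) × (Fin r → K)) : K[X] :=
  ∑ ij : Fin r × Fin r, C (p.1 ij.1 * p.2 ij.2 - p.1 ij.2 * p.2 ij.1) * X ^ ((ij.2 : ℕ) + r * (ij.1 : ℕ))

theorem eval_zpol {r : ℕ} (p : Fin r → K) (t : ℕ) : (zpol p).eval (t : K) = zlin t p := by
  rw [zpol, zlin, eval_finsetSum]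
  exact Finset.sum_congr rfl fun i _ => by
    rw [eval_mul, eval_C, eval_pow, eval_X, mul_comm]

theorem eval_mpol {r : ℕ} (p : (Fin r → K) × (Fin r → K)) (t : ℕ) :
    (mpol p).eval (t : K) = zlin t p.1 * ylin t p.2 - ylin t p.1 * zlin t p.2 := by
  rw [mpol, eval_finsetSum, mul_comm (ylin t p.1)]
  simp only [zlin, ylin]
  rw [Finset.sum_mul_sum, Finset.sum_mul_sum, ← Finset.sum_product', ← Finset.sum_product',
    ← Finset.sum_sub_distrib, Finset.univ_product_univ]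
  refine Finset.sum_congr rfl fun ij _ => ?_
  rw [eval_mul, eval_C, eval_pow, eval_X, pow_add]
  ring

theorem coeff_zpol {r : ℕ} [NeZero r] (p : Fin r → K) (i : Fin r) :
    (zpol p).coeff (r * (i : ℕ)) = p i := by
  classical
  rw [zpol, finsetSum_coeff, Finset.sum_eq_single i]
  · rw [coeff_C_mul, coeff_X_pow, if_pos rfl, mul_one]
  · intro j _ hj
    rw [coeff_C_mul, coeff_X_pow, if_neg, mul_zero]
    intro h
    exact hj (Fin.ext (Nat.eq_of_mul_eq_mul_left (Nat.pos_of_ne_zero (NeZero.ne r)) h.symm))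
  · intro h; exact absurd (Finset.mem_univ i) h

theorem coeff_mpol {r : ℕ} (p : (Fin r → K) × (Fin r → K)) (i j : Fin r) :
    (mpol p).coeff ((j : ℕ) + r * (i : ℕ)) = p.1 i * p.2 j - p.1 j * p.2 i := by
  classical
  rw [mpol, finsetSum_coeff, Finset.sum_eq_single (i, j)]
  · rw [coeff_C_mul, coeff_X_pow, if_pos rfl, mul_one]
  · rintro ⟨i', j'⟩ _ hj
    rw [coeff_C_mul, coeff_X_pow, if_neg, mul_zero]
    intro h
    apply hj
    simp only at h
    have h1 : (j : ℕ) = j' := by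
      have := congrArg (· % r) h
      simpa [Nat.add_mul_mod_self_left, Nat.mod_eq_of_lt j.2, Nat.mod_eq_of_lt j'.2] using this
    have hr : 0 < r := lt_of_le_of_lt (Nat.zero_le _) i.2
    have h2 : (i : ℕ) = i' := Nat.eq_of_mul_eq_mul_left hr (by omega)
    exact Prod.ext (Fin.ext h2.symm) (Fin.ext h1.symm)
  · intro h; exact absurd (Finset.mem_univ _) h

theorem natDegree_zpol_le {r : ℕ} (p : Fin r → K) : (zpol p).natDegree ≤ 2 * (r * r) := by
  refine natDegree_sum_le_of_forall_le _ _ fun i _ => (natDegree_C_mul_X_pow_le _ _).trans ?_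
  have := Nat.mul_le_mul_left r i.2.le
  omega

theorem natDegree_mpol_le {r : ℕ} (p : (Fin r → K) × (Fin r → K)) :
    (mpol p).natDegree ≤ 2 * (r * r) := by
  refine natDegree_sum_le_of_forall_le _ _ fun i _ => (natDegree_C_mul_X_pow_le _ _).trans ?_
  have h1 := Nat.mul_le_mul_left r i.1.2.le
  have h2 : (i.2 : ℕ) ≤ r * r := i.2.2.le.trans (Nat.le_mul_self r)
  omega

/-- For at most `n` pairs of vectors and at most `n` further vectors there is `t ≤ T` such that the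
2-minor of `(y_t, z_t)` on all pairs and the value of `z_t` on the further vectors are simultaneously large. -/
theorem exists_generic [IsAlgClosed K] [CharZero K] (r n : ℕ) [NeZero r] : ∃ T : ℕ, ∃ C, IsMC C ∧
    ∀ v (A : Multiset ((Fin r → K) × (Fin r → K))) (B : Multiset (Fin r → K)),
      A.card ≤ n → B.card ≤ n → ∃ t : ℕ, t ≤ T ∧
      (A.map fun p => ⨆ ij : Fin r × Fin r, 𝔸.abv v (p.1 ij.1 * p.2 ij.2 - p.1 ij.2 * p.2 ij.1)).prod *
        (B.map fun p => ⨆ i, 𝔸.abv v (p i)).prod ≤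
      C v * ((A.map fun p => 𝔸.abv v (zlin t p.1 * ylin t p.2 - ylin t p.1 * zlin t p.2)).prod *
        (B.map fun p => 𝔸.abv v (zlin t p)).prod) := by
  obtain ⟨C1, hC1, h1⟩ := exists_prod_pnrm_le 𝔸 (n + n) (2 * (r * r))
  obtain ⟨C2, hC2, h2⟩ := exists_pnrm_le_eval 𝔸 ((n + n) * (2 * (r * r)))
  refine ⟨(n + n) * (2 * (r * r)), fun v => C1 v * C2 v, hC1.mul hC2, fun v A B hA hB => ?_⟩
  set P : Multiset K[X] := A.map mpol + B.map zpol with hP
  have hPc : P.card ≤ n + n := by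
    rw [hP, Multiset.card_add, Multiset.card_map, Multiset.card_map]; omega
  have hPd : ∀ p ∈ P, p.natDegree ≤ 2 * (r * r) := by
    intro p hp
    rcases Multiset.mem_add.mp hp with hp | hp
    · obtain ⟨a, _, rfl⟩ := Multiset.mem_map.mp hp; exact natDegree_mpol_le a
    · obtain ⟨a, _, rfl⟩ := Multiset.mem_map.mp hp; exact natDegree_zpol_le a
  obtain ⟨t, ht, h3⟩ := h2 v P.prod (natDegree_multiset_prod_le' P hPc hPd)
  refine ⟨t, ht, ?_⟩
  have h4 := h1 v P hPc hPd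
  have hle1 : ∀ p : (Fin r → K) × (Fin r → K),
      (⨆ ij : Fin r × Fin r, 𝔸.abv v (p.1 ij.1 * p.2 ij.2 - p.1 ij.2 * p.2 ij.1)) ≤ 𝔸.pnrm v (mpol p) :=
    fun p => ciSup_le fun ij => by
      rw [← coeff_mpol p ij.1 ij.2]; exact 𝔸.abv_coeff_le v _ _
  have hle2 : ∀ p : Fin r → K, (⨆ i, 𝔸.abv v (p i)) ≤ 𝔸.pnrm v (zpol p) :=
    fun p => ciSup_le fun i => by
      rw [← coeff_zpol p i]; exact 𝔸.abv_coeff_le v _ _
  have hA' : (A.map fun p => ⨆ ij : Fin r × Fin r,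
      𝔸.abv v (p.1 ij.1 * p.2 ij.2 - p.1 ij.2 * p.2 ij.1)).prod ≤
      (A.map fun p => 𝔸.pnrm v (mpol p)).prod := by
    have := multiset_prod_map_le A (fun p => ⨆ ij : Fin r × Fin r,
      𝔸.abv v (p.1 ij.1 * p.2 ij.2 - p.1 ij.2 * p.2 ij.1)) (fun p => 𝔸.pnrm v (mpol p))
      (le_refl (1 : ℝ)) (n := A.card) le_rfl
      (fun a _ => Real.iSup_nonneg fun _ => (𝔸.abv v).nonneg _) (fun a _ => 𝔸.pnrm_nonneg v _)
      (fun a _ => by rw [one_mul]; exact hle1 a)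
    rwa [one_pow, one_mul] at this
  have hB' : (B.map fun p => ⨆ i, 𝔸.abv v (p i)).prod ≤ (B.map fun p => 𝔸.pnrm v (zpol p)).prod := by
    have := multiset_prod_map_le B (fun p => ⨆ i, 𝔸.abv v (p i)) (fun p => 𝔸.pnrm v (zpol p))
      (le_refl (1 : ℝ)) (n := B.card) le_rfl
      (fun a _ => Real.iSup_nonneg fun _ => (𝔸.abv v).nonneg _) (fun a _ => 𝔸.pnrm_nonneg v _)
      (fun a _ => by rw [one_mul]; exact hle2 a)
    rwa [one_pow, one_mul] at this
  have hval : 𝔸.abv v (P.prod.eval (t : K)) =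
      (A.map fun p => 𝔸.abv v (zlin t p.1 * ylin t p.2 - ylin t p.1 * zlin t p.2)).prod *
        (B.map fun p => 𝔸.abv v (zlin t p)).prod := by
    rw [eval_multiset_prod, map_multiset_prod, hP, Multiset.map_add, Multiset.map_add,
      Multiset.prod_add, Multiset.map_map, Multiset.map_map, Multiset.map_map, Multiset.map_map]
    congr 2
    · exact Multiset.map_congr rfl fun p _ => by simp only [Function.comp]; rw [eval_mpol]
    · exact Multiset.map_congr rfl fun p _ => by simp only [Function.comp]; rw [eval_zpol]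
  have hB0 : 0 ≤ (B.map fun p => ⨆ i, 𝔸.abv v (p i)).prod := Multiset.prod_nonneg (by
    intro x hx
    obtain ⟨a, _, rfl⟩ := Multiset.mem_map.mp hx
    exact Real.iSup_nonneg fun _ => (𝔸.abv v).nonneg _)
  have hA0 : 0 ≤ (A.map fun p => 𝔸.pnrm v (mpol p)).prod := Multiset.prod_nonneg (by
    intro x hx
    obtain ⟨a, _, rfl⟩ := Multiset.mem_map.mp hx
    exact 𝔸.pnrm_nonneg v _)
  calc _ ≤ (A.map fun p => 𝔸.pnrm v (mpol p)).prod * (B.map fun p => 𝔸.pnrm v (zpol p)).prod :=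
        mul_le_mul hA' hB' hB0 hA0
    _ = (P.map (𝔸.pnrm v)).prod := by
        rw [hP, Multiset.map_add, Multiset.prod_add, Multiset.map_map, Multiset.map_map]
        rfl
    _ ≤ C1 v * 𝔸.pnrm v P.prod := h4
    _ ≤ C1 v * (C2 v * 𝔸.abv v (P.prod.eval (t : K))) :=
        mul_le_mul_of_nonneg_left h3 (hC1.nonneg v)
    _ = _ := by rw [hval, mul_assoc]

end Poly

end Fermat.Agent.H17
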