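/-
H79NormForm: the norm of a linear combination as a polynomial in the coefficients with a fixed denominator
(helper79, for project S17).
-/
import Mathlib
import Fermat.Agent.H3RR_FF

set_option autoImplicit false
set_option linter.unusedSectionVars false
set_option linter.style.haveILetI false

noncomputable section

open Polynomial IntermediateField

namespace Fermat.Agent.H79

section

variable {K F : Type*} [Field K] [Field F] [Algebra K F]

theorem exists_common_denom {x : F} (T : Finset K⟮x⟯) :
    ∃ D : K[X], D ≠ 0 ∧ ∀ e ∈ T, ∃ q : K[X], aeval x q = aeval x D * (e : F) := by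
  classical
  induction T using Finset.induction_on with
  | empty => exact ⟨1, one_ne_zero, by simp⟩
  | insert e T he ih =>
    obtain ⟨D, hD0, hD⟩ := ih
    obtain ⟨a, b, hab⟩ := (IntermediateField.mem_adjoin_simple_iff K (e : F)).mp e.2
    by_cases hb : aeval x b = 0
    · refine ⟨D, hD0, fun e' he' => ?_⟩
      rcases Finset.mem_insert.mp he' with rfl | he'
      · exact ⟨0, by rw [hab, hb, div_zero, mul_zero, map_zero]⟩
      · exact hD e' he'
    · refine ⟨D * b, mul_ne_zero hD0 (fun h => hb (by rw [h, map_zero])), fun e' he' => ?_⟩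
      rcases Finset.mem_insert.mp he' with rfl | he'
      · refine ⟨D * a, ?_⟩
        rw [hab, map_mul, map_mul]
        field_simp
      · obtain ⟨q, hq⟩ := hD e' he'
        refine ⟨q * b, ?_⟩
        rw [map_mul, map_mul, hq]; ring

/-- generic determinant -/
def gdet {E : Type*} [CommRing E] {r d : ℕ} (M : Fin r → Matrix (Fin d) (Fin d) E) :
    MvPolynomial (Fin r) E :=
  Matrix.det (Matrix.of fun k l => ∑ i : Fin r, MvPolynomial.C (M i k l) * MvPolynomial.X i)

theorem gdet_isHomogeneous {E : Type*} [CommRing E] {r d : ℕ}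
    (M : Fin r → Matrix (Fin d) (Fin d) E) : (gdet M).IsHomogeneous d := by
  rw [gdet, Matrix.det_apply]
  apply MvPolynomial.IsHomogeneous.sum
  intro σ _
  have h : (∏ i : Fin d, (Matrix.of fun k l => ∑ i : Fin r, MvPolynomial.C (M i k l) *
      (MvPolynomial.X i : MvPolynomial (Fin r) E)) (σ i) i).IsHomogeneous d := by
    have := MvPolynomial.IsHomogeneous.prod (Finset.univ : Finset (Fin d)) (fun i =>
      (Matrix.of fun k l => ∑ i : Fin r, MvPolynomial.C (M i k l) *
      (MvPolynomial.X i : MvPolynomial (Fin r) E)) (σ i) i) (fun _ => 1) (fun i _ => by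
        rw [Matrix.of_apply]
        apply MvPolynomial.IsHomogeneous.sum
        intro j _
        have := (MvPolynomial.isHomogeneous_C (Fin r) (M j (σ i) i)).mul
          (MvPolynomial.isHomogeneous_X E j)
        simpa using this)
    simpa using this
  rcases Int.units_eq_one_or (Equiv.Perm.sign σ) with h1 | h1
  · rw [h1, one_smul]; exact h
  · rw [h1, Units.neg_smul, one_smul]; exact h.neg

theorem eval_gdet {E : Type*} [CommRing E] {r d : ℕ} (M : Fin r → Matrix (Fin d) (Fin d) E)
    (s : Fin r → E) : MvPolynomial.eval s (gdet M) = (∑ i, s i • M i).det := by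
  rw [gdet, RingHom.map_det]
  congr 1
  ext k l
  simp [Matrix.sum_apply, mul_comm]

theorem exists_norm_form {x : F} [FiniteDimensional K⟮x⟯ F] {r : ℕ}
    (b : Fin r → F) : ∃ (J : ℕ) (D : K[X]) (f : Fin (J + 1) → MvPolynomial (Fin r) K), D ≠ 0 ∧
      (∀ j, (f j).IsHomogeneous (Module.finrank K⟮x⟯ F)) ∧
      ∀ s : Fin r → K, aeval x D * ((Algebra.norm K⟮x⟯ (∑ i, s i • b i) : K⟮x⟯) : F) =
        aeval x (∑ j : Fin (J + 1), C (MvPolynomial.eval s (f j)) * X ^ (j : ℕ)) := by
  classical
  set B := Module.finBasis K⟮x⟯ F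
  set M : Fin r → Matrix _ _ K⟮x⟯ := fun i => Algebra.leftMulMatrix B (b i) with hM
  set Φ := gdet M with hΦ
  obtain ⟨D, hD0, hD⟩ := exists_common_denom (Φ.support.image fun m => Φ.coeff m)
  have hD' : ∀ m ∈ Φ.support, ∃ q : K[X], aeval x q = aeval x D * ((Φ.coeff m : K⟮x⟯) : F) :=
    fun m hm => hD _ (Finset.mem_image_of_mem _ hm)
  choose! q hq using hD'
  refine ⟨Φ.support.sup fun m => (q m).natDegree, D,
    fun j => ∑ m ∈ Φ.support, MvPolynomial.monomial m ((q m).coeff j), hD0, ?_, ?_⟩
  · intro j
    apply MvPolynomial.IsHomogeneous.sum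
    intro m hm
    apply MvPolynomial.isHomogeneous_monomial
    have := (gdet_isHomogeneous M) (MvPolynomial.mem_support_iff.mp hm)
    rw [Finsupp.degree_eq_weight_one]
    exact this
  · intro s
    have hnorm : Algebra.norm K⟮x⟯ (∑ i, s i • b i)
        = MvPolynomial.eval (fun i => algebraMap K K⟮x⟯ (s i)) Φ := by
      rw [hΦ, eval_gdet, Algebra.norm_eq_matrix_det B]
      congr 1
      rw [map_sum]
      refine Finset.sum_congr rfl fun i _ => ?_
      have h1 : s i • b i = (algebraMap K K⟮x⟯ (s i)) • b i := by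
        rw [algebraMap_smul]
      rw [h1, map_smul]
    rw [hnorm, MvPolynomial.eval_eq']
    have h2 : (∑ j : Fin ((Φ.support.sup fun m => (q m).natDegree) + 1),
        C (MvPolynomial.eval s (∑ m ∈ Φ.support, MvPolynomial.monomial m ((q m).coeff j)))
          * X ^ (j : ℕ)) = ∑ m ∈ Φ.support, C (∏ i, s i ^ m i) * q m := by
      have h3 : ∀ m ∈ Φ.support, C (∏ i, s i ^ m i) * q m =
          ∑ j : Fin ((Φ.support.sup fun m => (q m).natDegree) + 1),
            C ((q m).coeff j * ∏ i, s i ^ m i) * X ^ (j : ℕ) := by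
        intro m hm
        have hlt : (q m).natDegree < (Φ.support.sup fun m => (q m).natDegree) + 1 :=
          Nat.lt_succ_of_le (Finset.le_sup (f := fun m => (q m).natDegree) hm)
        conv_lhs => rw [(q m).as_sum_range_C_mul_X_pow' hlt]
        rw [Finset.mul_sum, Finset.sum_range]
        refine Finset.sum_congr rfl fun j _ => ?_
        rw [C_mul]; ring
      rw [Finset.sum_congr rfl h3, Finset.sum_comm]
      refine Finset.sum_congr rfl fun j _ => ?_
      rw [← Finset.sum_mul]
      congr 1
      rw [map_sum, map_sum]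
      refine Finset.sum_congr rfl fun m _ => ?_
      rw [MvPolynomial.eval_monomial, Finsupp.prod_fintype _ _ (fun i => by simp)]
    rw [h2, map_sum, ← IntermediateField.algebraMap_apply, map_sum, Finset.mul_sum]
    refine Finset.sum_congr rfl fun m hm => ?_
    rw [map_mul, map_mul, hq m hm, aeval_C, IntermediateField.algebraMap_apply, ← mul_assoc,
      mul_comm]
    congr 1
    rw [map_prod, map_prod]
    refine Finset.prod_congr rfl fun i _ => ?_
    rw [map_pow, map_pow, ← IsScalarTower.algebraMap_apply]

end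

end Fermat.Agent.H79
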