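import Mathlib
import Fermat.Prelude.Def_AlgebraicCurve_Correspondence

set_option autoImplicit false
set_option linter.unusedSectionVars false
set_option linter.style.haveILetI false

noncomputable section

open IsDedekindDomain WithZero IsLocalRing AlgebraicCurve

namespace Fermat.Agent.H67

section OrdBasic

variable {K F : Type*} [Field K] [Field F] [Algebra K F] (v : Place K F)

theorem ord_nonneg_of_mem {f : F} (hf : f ∈ v.toValuationSubring) : 0 ≤ v.ord f := by
  rcases eq_or_ne f 0 with rfl | hf0
  · simp
  obtain ⟨π, hπ⟩ := IsDiscreteValuationRing.exists_irreducible v.toValuationSubring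
  obtain ⟨n, u, hu⟩ :=
    IsDiscreteValuationRing.eq_unit_mul_pow_irreducible
      (x := (⟨f, hf⟩ : v.toValuationSubring)) (by simpa [Subtype.ext_iff] using hf0) hπ
  have hcoe : f = ((u : v.toValuationSubring) : F) * ((π : F) ^ (n : ℤ)) := by
    have h := congrArg (Subtype.val) hu
    push_cast at h
    rw [zpow_natCast]
    exact h
  rw [hcoe, v.ord_unit_smul_zpow u hπ (n : ℤ)]
  exact Int.natCast_nonneg n

theorem mem_of_ord_nonneg {f : F} (hf : f ≠ 0) (h : 0 ≤ v.ord f) :
    f ∈ v.toValuationSubring := by
  obtain ⟨π, hπ⟩ := IsDiscreteValuationRing.exists_irreducible v.toValuationSubring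
  obtain ⟨u, hu⟩ := v.exists_unit_mul_zpow hf hπ
  rw [hu, show v.ord f = (((v.ord f).toNat : ℕ) : ℤ) from (Int.toNat_of_nonneg h).symm,
    zpow_natCast]
  exact mul_mem (u : v.toValuationSubring).2 (pow_mem (π : v.toValuationSubring).2 _)

theorem mem_iff_ord_nonneg {f : F} (hf : f ≠ 0) :
    f ∈ v.toValuationSubring ↔ 0 ≤ v.ord f :=
  ⟨ord_nonneg_of_mem v, mem_of_ord_nonneg v hf⟩

theorem ord_div {f g : F} (hf : f ≠ 0) (hg : g ≠ 0) : v.ord (f / g) = v.ord f - v.ord g := by
  rw [div_eq_mul_inv, v.ord_mul hf (inv_ne_zero hg), v.ord_inv]; ring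

/-- There is a function of order exactly one at `v`. -/
theorem exists_ord_eq_one : ∃ π : F, π ≠ 0 ∧ v.ord π = 1 := by
  obtain ⟨π, hπ⟩ := IsDiscreteValuationRing.exists_irreducible v.toValuationSubring
  exact ⟨π, by simpa [ne_eq, ZeroMemClass.coe_eq_zero] using hπ.ne_zero,
    v.ord_coe_irreducible hπ⟩

/-- A valuation with values in `ℤᵐ⁰`, taking the value `exp (-1)`, whose valuation ring is the one
of `v`, computes `v.ord`. -/
theorem ord_eq_neg_log (val : Valuation F ℤᵐ⁰) (h : v.toValuationSubring = val.valuationSubring)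
    {π : F} (hπ : val π = exp (-1 : ℤ)) (f : F) : v.ord f = - WithZero.log (val f) := by
  have hmem : ∀ x : F, x ≠ 0 → (0 ≤ v.ord x ↔ val x ≤ 1) := by
    intro x hx
    rw [← mem_iff_ord_nonneg v hx, h, Valuation.mem_valuationSubring_iff]
  have hπ0 : π ≠ 0 := by
    rintro rfl
    rw [map_zero] at hπ
    exact WithZero.exp_ne_zero hπ.symm
  have hle : 0 ≤ v.ord π := by
    rw [hmem π hπ0, hπ]
    rw [← WithZero.exp_zero, WithZero.exp_le_exp]
    norm_num
  have hne : v.ord π ≠ 0 := by
    intro h0
    have h1 : 0 ≤ v.ord π⁻¹ := by rw [v.ord_inv, h0]; simp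
    rw [hmem _ (inv_ne_zero hπ0), map_inv₀, hπ, ← WithZero.exp_neg, ← WithZero.exp_zero,
      WithZero.exp_le_exp] at h1
    norm_num at h1
  obtain ⟨ϖ, hϖ0, hϖ⟩ := exists_ord_eq_one v
  have hvϖ : val ϖ < 1 := by
    have h1 : ¬ (0 ≤ v.ord ϖ⁻¹) := by rw [v.ord_inv, hϖ]; norm_num
    rw [hmem _ (inv_ne_zero hϖ0), not_le, map_inv₀] at h1
    exact (one_lt_inv₀ ((Valuation.pos_iff val).mpr hϖ0)).mp h1
  have hvϖ' : val ϖ ≤ val π := by
    rw [hπ]
    have hne' : val ϖ ≠ 0 := (Valuation.ne_zero_iff _).mpr hϖ0
    obtain ⟨n, hn⟩ : ∃ n : ℤ, val ϖ = exp n := ⟨WithZero.log (val ϖ), (WithZero.exp_log hne').symm⟩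
    rw [hn, ← WithZero.exp_zero, WithZero.exp_lt_exp] at hvϖ
    rw [hn, WithZero.exp_le_exp]
    omega
  have hle1 : v.ord π ≤ 1 := by
    have h1 : 0 ≤ v.ord (ϖ / π) := by
      rw [hmem _ (div_ne_zero hϖ0 hπ0), map_div₀]
      exact div_le_one_of_le₀ hvϖ' zero_le
    rw [ord_div v hϖ0 hπ0, hϖ] at h1
    omega
  have hone : v.ord π = 1 := by omega
  rcases eq_or_ne f 0 with rfl | hf
  · simp
  have hvf : val f ≠ 0 := (Valuation.ne_zero_iff _).mpr hf
  set m : ℤ := WithZero.log (val f) with hm
  have hfm : val f = exp m := (WithZero.exp_log hvf).symm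
  have hunit : val (f * π ^ m) = 1 := by
    rw [map_mul, map_zpow₀, hπ, hfm, ← WithZero.exp_zsmul, ← WithZero.exp_add,
      ← WithZero.exp_zero]
    congr 1
    simp
  have hne0 : f * π ^ m ≠ 0 := mul_ne_zero hf (zpow_ne_zero _ hπ0)
  have h1 : 0 ≤ v.ord (f * π ^ m) := by rw [hmem _ hne0, hunit]
  have h2 : 0 ≤ v.ord (f * π ^ m)⁻¹ := by rw [hmem _ (inv_ne_zero hne0), map_inv₀, hunit, inv_one]
  rw [v.ord_inv] at h2
  have h3 : v.ord (f * π ^ m) = 0 := by omega
  rw [v.ord_mul hf (zpow_ne_zero _ hπ0), v.ord_zpow, hone] at h3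
  omega

end OrdBasic

section Above

variable {K F F' : Type*} [Field K] [Field F] [Field F']
  [Algebra K F] [Algebra K F'] [Algebra F F'] [IsScalarTower K F F']
  [Module.Finite F F'] [Algebra.IsSeparable F F'] (v : Place K F)

/-- The integral closure of the valuation ring of `v` in `F'`. -/
abbrev IC (F' : Type*) [Field F'] [Algebra F F'] : Type _ :=
  integralClosure v.toValuationSubring F'

instance : IsDedekindDomain (IC v F') :=
  IsIntegralClosure.isDedekindDomain v.toValuationSubring F F' (IC v F')

instance : IsFractionRing (IC v F') F' :=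
  IsIntegralClosure.isFractionRing_of_finite_extension v.toValuationSubring F F' (IC v F')

instance : Module.Finite v.toValuationSubring (IC v F') :=
  IsIntegralClosure.finite v.toValuationSubring F F' (IC v F')

omit [Module.Finite F F'] [Algebra.IsSeparable F F'] in
theorem isScalarTower_K : IsScalarTower K v.toValuationSubring F' :=
  IsScalarTower.of_algebraMap_eq fun a => by
    rw [IsScalarTower.algebraMap_apply v.toValuationSubring F F',
      ← IsScalarTower.algebraMap_apply K v.toValuationSubring F,
      ← IsScalarTower.algebraMap_apply K F F']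

instance : Algebra K (IC v F') :=
  ((algebraMap v.toValuationSubring (IC v F')).comp (algebraMap K v.toValuationSubring)).toAlgebra

instance : IsScalarTower K v.toValuationSubring (IC v F') :=
  IsScalarTower.of_algebraMap_eq fun _ => rfl

instance : IsScalarTower K (IC v F') F' :=
  IsScalarTower.of_algebraMap_eq fun a => by
    rw [IsScalarTower.algebraMap_apply K v.toValuationSubring (IC v F'),
      ← IsScalarTower.algebraMap_apply v.toValuationSubring (IC v F') F',
      IsScalarTower.algebraMap_apply v.toValuationSubring F F',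
      ← IsScalarTower.algebraMap_apply K v.toValuationSubring F,
      ← IsScalarTower.algebraMap_apply K F F']


variable {v}

/-- The inclusion of the valuation ring of `v` in that of a place `w` above `v`. -/
def incl {w : Place K F'} (hw : w.restrict F = v) : v.toValuationSubring →+* w.toValuationSubring :=
  ((algebraMap F F').comp v.toValuationSubring.subtype).codRestrict w.toValuationSubring.toSubring
    (fun a => by
      have h : (a : F) ∈ (w.restrict F).toValuationSubring := by rw [hw]; exact a.2
      exact h)

@[simp] theorem coe_incl {w : Place K F'} (hw : w.restrict F = v) (a : v.toValuationSubring) :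
    ((incl hw a : w.toValuationSubring) : F') = algebraMap F F' (a : F) := rfl

theorem ic_mem {w : Place K F'} (hw : w.restrict F = v) (b : IC v F') :
    (b : F') ∈ w.toValuationSubring := by
  letI : Algebra v.toValuationSubring w.toValuationSubring := (incl hw).toAlgebra
  haveI : IsScalarTower v.toValuationSubring w.toValuationSubring F' :=
    IsScalarTower.of_algebraMap_eq fun a => rfl
  have hb : IsIntegral w.toValuationSubring (b : F') := IsIntegral.tower_top b.2
  obtain ⟨y, hy⟩ := IsIntegrallyClosed.isIntegral_iff.mp hb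
  exact hy ▸ y.2

/-- The inclusion of the integral closure into the valuation ring of a place above `v`. -/
def icIncl {w : Place K F'} (hw : w.restrict F = v) : IC v F' →+* w.toValuationSubring :=
  (algebraMap (IC v F') F').codRestrict w.toValuationSubring.toSubring (fun b => ic_mem hw b)

@[simp] theorem coe_icIncl {w : Place K F'} (hw : w.restrict F = v) (b : IC v F') :
    ((icIncl hw b : w.toValuationSubring) : F') = (b : F') := rfl

/-- The prime of the integral closure cut out by a place above `v`. -/
def primeOf {w : Place K F'} (hw : w.restrict F = v) : HeightOneSpectrum (IC v F') where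
  asIdeal := (maximalIdeal w.toValuationSubring).comap (icIncl hw)
  isPrime := Ideal.comap_isPrime _ _
  ne_bot := by
    intro h
    obtain ⟨f, hf0, hf⟩ := exists_ord_eq_one v
    have hfA : f ∈ v.toValuationSubring := mem_of_ord_nonneg v hf0 (by omega)
    have hmem : algebraMap v.toValuationSubring (IC v F') ⟨f, hfA⟩ ∈
        (maximalIdeal w.toValuationSubring).comap (icIncl hw) := by
      rw [Ideal.mem_comap, IsLocalRing.mem_maximalIdeal, mem_nonunits_iff]
      intro hu
      have h1 := w.ord_coe_unit hu.unit
      rw [IsUnit.unit_spec, coe_icIncl] at h1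
      have h2 : ((algebraMap v.toValuationSubring (IC v F') ⟨f, hfA⟩ : IC v F') : F')
        = algebraMap F F' f := rfl
      rw [h2] at h1
      have h3 := w.ord_restrict (F := F) f
      rw [hw, hf, h1] at h3
      have h4 := w.ramificationIndex_pos (F := F)
      omega
    rw [h, Ideal.mem_bot] at hmem
    have h5 : algebraMap F F' f = 0 := congrArg Subtype.val hmem
    exact hf0 ((map_eq_zero _).mp h5)

theorem primeOf_asIdeal {w : Place K F'} (hw : w.restrict F = v) :
    (primeOf hw).asIdeal = (maximalIdeal w.toValuationSubring).comap (icIncl hw) := rfl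

theorem mem_primeOf_iff {w : Place K F'} (hw : w.restrict F = v) {b : IC v F'} (hb : b ≠ 0) :
    b ∈ (primeOf hw).asIdeal ↔ 0 < w.ord (b : F') := by
  have hb' : (b : F') ≠ 0 := by simpa using hb
  rw [primeOf_asIdeal, Ideal.mem_comap, IsLocalRing.mem_maximalIdeal, mem_nonunits_iff]
  have h0 : 0 ≤ w.ord (b : F') := ord_nonneg_of_mem w (ic_mem hw b)
  constructor
  · intro h
    by_contra hle
    have h1 : w.ord (b : F') = 0 := by omega
    apply h
    have h2 : (b : F')⁻¹ ∈ w.toValuationSubring := mem_of_ord_nonneg w (inv_ne_zero hb') (by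
      rw [w.ord_inv]; omega)
    exact IsUnit.of_mul_eq_one ⟨_, h2⟩ (Subtype.ext (mul_inv_cancel₀ hb'))
  · intro h hu
    have h1 := w.ord_coe_unit hu.unit
    rw [IsUnit.unit_spec, coe_icIncl] at h1
    omega

theorem toValuationSubring_eq {w : Place K F'} (hw : w.restrict F = v) :
    w.toValuationSubring = ((primeOf hw).valuation F').valuationSubring := by
  rw [← HeightOneSpectrum.valuationSubringAtPrime_eq_valuationSubring (K := F') (primeOf hw)]
  symm
  refine ValuationSubring.eq_of_le_of_ne_top _ ?_ w.ne_top'
  rintro x ⟨a, s, hs, rfl⟩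
  have hs0 : s ≠ 0 := by
    rintro rfl
    exact hs (zero_mem _)
  have hs' : w.ord (s : F') = 0 := by
    have h0 : 0 ≤ w.ord (s : F') := ord_nonneg_of_mem w (ic_mem hw s)
    by_contra hne
    exact hs ((mem_primeOf_iff hw hs0).mpr (by omega))
  have hs0' : (s : F') ≠ 0 := by simpa using hs0
  refine mul_mem (ic_mem hw a) (mem_of_ord_nonneg w (inv_ne_zero hs0') ?_)
  have : w.ord (algebraMap (IC v F') F' s)⁻¹ = 0 := by
    rw [w.ord_inv]
    change - w.ord (s : F') = 0
    omega
  exact this.ge

theorem ord_eq_primeOf {w : Place K F'} (hw : w.restrict F = v) (f : F') :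
    w.ord f = - WithZero.log ((primeOf hw).valuation F' f) := by
  obtain ⟨π, hπ⟩ := (primeOf hw).valuation_exists_uniformizer F'
  exact ord_eq_neg_log w _ (toValuationSubring_eq hw) hπ f

theorem primeOf_injective {w w' : Place K F'} (hw : w.restrict F = v) (hw' : w'.restrict F = v)
    (h : primeOf hw = primeOf hw') : w = w' := by
  apply Place.ext
  rw [toValuationSubring_eq hw, toValuationSubring_eq hw', h]

theorem restrict_ofHeightOneSpectrum (P : HeightOneSpectrum (IC v F')) :
    (Place.ofHeightOneSpectrum (K := K) (F := F') P).restrict F = v := by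
  apply Place.ext
  symm
  refine ValuationSubring.eq_of_le_of_ne_top _ ?_ (Place.ne_top' _)
  intro x hx
  rw [Place.mem_restrict_iff, Place.ofHeightOneSpectrum_toValuationSubring,
    Valuation.mem_valuationSubring_iff]
  exact P.valuation_le_one (algebraMap v.toValuationSubring (IC v F') ⟨x, hx⟩)

theorem primeOf_surjective (P : HeightOneSpectrum (IC v F')) :
    ∃ (w : Place K F') (hw : w.restrict F = v), primeOf hw = P := by
  obtain ⟨w, hwdef⟩ : ∃ w, w = Place.ofHeightOneSpectrum (K := K) (F := F') P := ⟨_, rfl⟩
  have hw : w.restrict F = v := hwdef ▸ restrict_ofHeightOneSpectrum (K := K) (F := F) P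
  refine ⟨w, hw, ?_⟩
  apply HeightOneSpectrum.ext
  have hle : P.asIdeal ≤ (primeOf hw).asIdeal := by
    intro b hb
    rcases eq_or_ne b 0 with rfl | hb0
    · exact zero_mem _
    rw [mem_primeOf_iff hw hb0]
    have hb0' : (b : F') ≠ 0 := by simpa using hb0
    by_contra hle
    have h1 : 0 ≤ w.ord (b : F')⁻¹ := by rw [w.ord_inv]; omega
    have h2 := mem_of_ord_nonneg w (inv_ne_zero hb0') h1
    rw [hwdef, Place.ofHeightOneSpectrum_toValuationSubring,
      Valuation.mem_valuationSubring_iff, map_inv₀] at h2
    have h3 : P.valuation F' (b : F') < 1 :=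
      (P.valuation_lt_one_iff_mem (K := F') b).mpr hb
    have h4 : 0 < P.valuation F' (b : F') := (Valuation.pos_iff _).mpr hb0'
    exact absurd h2 (not_le.mpr ((one_lt_inv₀ h4).mpr h3))
  exact (((P.isMaximal).eq_of_le (primeOf hw).isPrime.ne_top hle)).symm


theorem liesOver_primeOf {w : Place K F'} (hw : w.restrict F = v) :
    (primeOf hw).asIdeal.LiesOver (maximalIdeal v.toValuationSubring) := by
  refine ⟨(IsLocalRing.maximalIdeal.isMaximal _).eq_of_le ?_ ?_⟩
  · exact (Ideal.IsPrime.under _ _).ne_top
  · intro a ha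
    rcases eq_or_ne a 0 with rfl | ha0
    · exact zero_mem _
    have ha0' : (a : F) ≠ 0 := by simpa using ha0
    rw [Ideal.mem_comap, mem_primeOf_iff hw (by
      intro h
      apply ha0'
      have h5 : algebraMap F F' (a : F) = 0 := congrArg Subtype.val h
      exact (map_eq_zero _).mp h5)]
    have h2 : ((algebraMap v.toValuationSubring (IC v F') a : IC v F') : F')
        = algebraMap F F' (a : F) := rfl
    rw [h2, w.ord_restrict (F := F), hw]
    have h4 := w.ramificationIndex_pos (F := F)
    have h0 : 0 ≤ v.ord (a : F) := ord_nonneg_of_mem v a.2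
    have h1 : v.ord (a : F) ≠ 0 := by
      intro h1
      rw [IsLocalRing.mem_maximalIdeal, mem_nonunits_iff] at ha
      apply ha
      have h2 : (a : F)⁻¹ ∈ v.toValuationSubring := mem_of_ord_nonneg v (inv_ne_zero ha0') (by
        rw [v.ord_inv]; omega)
      exact IsUnit.of_mul_eq_one ⟨_, h2⟩ (Subtype.ext (mul_inv_cancel₀ ha0'))
    have : 0 < v.ord (a : F) := by omega
    positivity

/-- The map from `B / P_w` to the residue field of `w`. -/
def resMap {w : Place K F'} (hw : w.restrict F = v) :
    (IC v F' ⧸ (primeOf hw).asIdeal) →+* w.ResidueField :=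
  Ideal.Quotient.lift _ ((residue w.toValuationSubring).comp (icIncl hw)) (fun b hb => by
    rw [primeOf_asIdeal, Ideal.mem_comap] at hb
    rwa [RingHom.comp_apply, IsLocalRing.residue_eq_zero_iff])

theorem resMap_mk {w : Place K F'} (hw : w.restrict F = v) (b : IC v F') :
    resMap hw (Ideal.Quotient.mk _ b) = residue w.toValuationSubring (icIncl hw b) := rfl

theorem resMap_bijective {w : Place K F'} (hw : w.restrict F = v) :
    Function.Bijective (resMap hw) := by
  haveI : (primeOf hw).asIdeal.IsMaximal := (primeOf hw).isMaximal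
  letI : Field (IC v F' ⧸ (primeOf hw).asIdeal) := Ideal.Quotient.field _
  refine ⟨(resMap hw).injective, fun y => ?_⟩
  obtain ⟨x, rfl⟩ := IsLocalRing.residue_surjective y
  have hx : (x : F') ∈ HeightOneSpectrum.valuationSubringAtPrime F' (primeOf hw) := by
    rw [HeightOneSpectrum.valuationSubringAtPrime_eq_valuationSubring (K := F') (primeOf hw),
      ← toValuationSubring_eq hw]
    exact x.2
  obtain ⟨a, s, hs, hxas⟩ := hx
  have hs0 : s ≠ 0 := by
    rintro rfl
    exact hs (zero_mem _)
  have hs0' : (s : F') ≠ 0 := by simpa using hs0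
  have hsne : Ideal.Quotient.mk (primeOf hw).asIdeal s ≠ 0 := by
    rw [ne_eq, Ideal.Quotient.eq_zero_iff_mem]
    exact hs
  refine ⟨Ideal.Quotient.mk _ a * (Ideal.Quotient.mk _ s)⁻¹, ?_⟩
  have h1 : x * icIncl hw s = icIncl hw a := by
    apply Subtype.ext
    have : (x : F') = (a : F') * (s : F')⁻¹ := hxas
    change (x : F') * (s : F') = (a : F')
    rw [this, mul_assoc, inv_mul_cancel₀ hs0', mul_one]
  have h2 : residue w.toValuationSubring x * resMap hw (Ideal.Quotient.mk _ s)
      = resMap hw (Ideal.Quotient.mk _ a) := by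
    rw [resMap_mk, resMap_mk, ← map_mul, h1]
  have h3 : resMap hw (Ideal.Quotient.mk _ s) ≠ 0 := by
    rw [ne_eq, map_eq_zero]; exact hsne
  rw [map_mul, map_inv₀, ← h2, mul_assoc, mul_inv_cancel₀ h3, mul_one]

theorem inertiaDeg_primeOf {w : Place K F'} (hw : w.restrict F = v) :
    (primeOf hw).asIdeal.inertiaDeg v.toValuationSubring = w.inertiaDeg F := by
  subst hw
  haveI := liesOver_primeOf (K := K) (F := F) (w := w) rfl
  haveI : (primeOf (K := K) (F := F) (w := w) rfl).asIdeal.IsMaximal :=
    (primeOf (K := K) (F := F) (w := w) rfl).isMaximal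
  rw [Ideal.inertiaDeg_eq_of_isMaximal (maximalIdeal (w.restrict F).toValuationSubring)
    (primeOf (K := K) (F := F) (w := w) rfl).asIdeal]
  refine Algebra.finrank_eq_of_equiv_equiv
    (RingEquiv.refl ((w.restrict F).ResidueField))
    (RingEquiv.ofBijective (resMap rfl) (resMap_bijective rfl)) ?_
  apply Ideal.Quotient.ringHom_ext
  ext a
  rfl


omit [IsScalarTower K F F'] [Algebra K F'] [Module.Finite F F'] [Algebra.IsSeparable F F'] in
theorem ord_of_span_eq_pow (a : v.toValuationSubring) (k : ℕ)
    (h : Ideal.span {a} = maximalIdeal v.toValuationSubring ^ k) : v.ord (a : F) = k := by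
  obtain ⟨π, hπ⟩ := IsDiscreteValuationRing.exists_irreducible v.toValuationSubring
  rw [hπ.maximalIdeal_eq, Ideal.span_singleton_pow, Ideal.span_singleton_eq_span_singleton] at h
  obtain ⟨u, hu⟩ := h.symm
  have : (a : F) = ((u : v.toValuationSubring) : F) * ((π : F) ^ (k : ℤ)) := by
    rw [← hu, zpow_natCast, mul_comm]
    rfl
  rw [this, v.ord_unit_smul_zpow u hπ]

instance : IsScalarTower v.toValuationSubring (IC v F') F' := inferInstance
instance : Module.IsTorsionFree v.toValuationSubring (IC v F') := inferInstance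

theorem charZero_fractionRing [CharZero K] : PerfectField (FractionRing v.toValuationSubring) := by
  haveI : CharZero v.toValuationSubring :=
    charZero_of_injective_algebraMap (algebraMap K v.toValuationSubring).injective
  haveI : CharZero (FractionRing v.toValuationSubring) :=
    charZero_of_injective_algebraMap
      (IsFractionRing.injective v.toValuationSubring (FractionRing v.toValuationSubring))
  infer_instance

/-- places above `v` correspond to primes of the integral closure -/
def equivHOS : {w : Place K F' // w.restrict F = v} ≃ HeightOneSpectrum (IC v F') :=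
  Equiv.ofBijective (fun w => primeOf w.2)
    ⟨fun _ _ h => Subtype.ext (primeOf_injective _ _ h), fun P => by
      obtain ⟨w, hw, h⟩ := primeOf_surjective P
      exact ⟨⟨w, hw⟩, h⟩⟩

theorem ord_norm_ic [CharZero K] (S : Finset (Place K F'))
    (hS : ∀ w : Place K F', w ∈ S ↔ w.restrict F = v) (b : IC v F') (hb : b ≠ 0) :
    v.ord (Algebra.norm F (b : F')) = ∑ w ∈ S, (w.inertiaDeg F : ℤ) * w.ord (b : F') := by
  classical
  haveI : PerfectField (FractionRing v.toValuationSubring) := charZero_fractionRing
  have hI : Ideal.span {b} ≠ 0 := by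
    rw [ne_eq, Ideal.zero_eq_bot, Ideal.span_singleton_eq_bot]; exact hb
  let E : {w : Place K F' // w ∈ S} ≃ HeightOneSpectrum (IC v F') :=
    (Equiv.subtypeEquivRight hS).trans equivHOS
  letI : Fintype (HeightOneSpectrum (IC v F')) := Fintype.ofEquiv _ E
  set n : HeightOneSpectrum (IC v F') → ℕ := fun P =>
    (Associates.mk P.asIdeal).count (Associates.mk (Ideal.span {b})).factors with hn
  have h1 : Ideal.span {b} = ∏ P : HeightOneSpectrum (IC v F'), P.asIdeal ^ n P := by
    conv_lhs => rw [← Ideal.finprod_heightOneSpectrum_factorization hI]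
    rw [finprod_eq_prod_of_fintype]
    rfl
  have h2 : ∀ P : HeightOneSpectrum (IC v F'), Ideal.relNorm v.toValuationSubring P.asIdeal
      = maximalIdeal v.toValuationSubring ^ (P.asIdeal.inertiaDeg v.toValuationSubring) := by
    intro P
    obtain ⟨w, hw, rfl⟩ := primeOf_surjective P
    haveI := liesOver_primeOf hw
    haveI := (primeOf hw).isMaximal
    exact Ideal.relNorm_eq_pow_of_isMaximal _ _
  have h3 : Ideal.span {Algebra.intNorm v.toValuationSubring (IC v F') b}
      = maximalIdeal v.toValuationSubring ^
        (∑ P : HeightOneSpectrum (IC v F'), P.asIdeal.inertiaDeg v.toValuationSubring * n P) := by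
    rw [← Ideal.relNorm_singleton, h1, map_prod, ← Finset.prod_pow_eq_pow_sum]
    refine Finset.prod_congr rfl fun P _ => ?_
    rw [map_pow, h2, ← pow_mul]
  have h4 := ord_of_span_eq_pow _ _ h3
  have h5 : ((Algebra.intNorm v.toValuationSubring (IC v F') b : v.toValuationSubring) : F)
      = Algebra.norm F (b : F') :=
    Algebra.algebraMap_intNorm (A := v.toValuationSubring) (K := F) (L := F') b
  rw [← h5, h4]
  push_cast
  rw [← Finset.sum_coe_sort S]
  symm
  refine Fintype.sum_equiv E _ _ fun w => ?_
  have hw : (w : Place K F').restrict F = v := (hS _).mp w.2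
  have hE : E w = primeOf hw := rfl
  rw [hE, inertiaDeg_primeOf hw]
  congr 1
  rw [ord_eq_primeOf hw]
  have h6 : (primeOf hw).valuation F' (b : F') = (primeOf hw).intValuation b :=
    (primeOf hw).valuation_of_algebraMap (K := F') b
  rw [h6, HeightOneSpectrum.intValuation_if_neg _ hb, WithZero.log_exp, neg_neg]

/-- **Local norm formula.** -/
theorem ord_norm [CharZero K] (S : Finset (Place K F'))
    (hS : ∀ w : Place K F', w ∈ S ↔ w.restrict F = v) (f : F') (hf : f ≠ 0) :
    v.ord (Algebra.norm F f) = ∑ w ∈ S, (w.inertiaDeg F : ℤ) * w.ord f := by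
  obtain ⟨a, b, hb, rfl⟩ := IsFractionRing.div_surjective (A := IC v F') f
  have hb0 : b ≠ 0 := nonZeroDivisors.ne_zero hb
  have hb0' : algebraMap (IC v F') F' b ≠ 0 := by simpa using hb0
  have ha0 : a ≠ 0 := by
    rintro rfl
    simp at hf
  have ha0' : algebraMap (IC v F') F' a ≠ 0 := by simpa using ha0
  have hNa : Algebra.norm F (algebraMap (IC v F') F' a) ≠ 0 := Algebra.norm_ne_zero_iff.mpr ha0'
  have hNb : Algebra.norm F (algebraMap (IC v F') F' b) ≠ 0 := Algebra.norm_ne_zero_iff.mpr hb0'
  have hNdiv : Algebra.norm F (algebraMap (IC v F') F' a / algebraMap (IC v F') F' b)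
      = Algebra.norm F (algebraMap (IC v F') F' a) / Algebra.norm F (algebraMap (IC v F') F' b) := by
    rw [eq_div_iff hNb, ← map_mul, div_mul_cancel₀ _ hb0']
  rw [hNdiv, ord_div v hNa hNb]
  have h1 := ord_norm_ic S hS a ha0
  have h2 := ord_norm_ic S hS b hb0
  have h1' : v.ord (Algebra.norm F (algebraMap (IC v F') F' a)) = _ := h1
  have h2' : v.ord (Algebra.norm F (algebraMap (IC v F') F' b)) = _ := h2
  rw [h1', h2', ← Finset.sum_sub_distrib]
  refine Finset.sum_congr rfl fun w _ => ?_
  rw [ord_div w ha0' hb0']
  change _ = (w.inertiaDeg F : ℤ) * (w.ord (a : F') - w.ord (b : F'))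
  ring

end Above

section Global

variable {K F F' : Type*} [Field K] [Field F] [Field F']
  [Algebra K F] [Algebra K F'] [Algebra F F'] [IsScalarTower K F F']
  [Module.Finite F F'] [CharZero K]

variable (K F F') in
include K in
theorem isSeparable_of_charZero : Algebra.IsSeparable F F' := by
  haveI : CharZero F := charZero_of_injective_algebraMap (algebraMap K F).injective
  infer_instance

/-- Only finitely many places lie above a given place. -/
theorem finite_above (v : Place K F) : {w : Place K F' | w.restrict F = v}.Finite := by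
  haveI : Algebra.IsSeparable F F' := isSeparable_of_charZero K F F'
  obtain ⟨f, hf0, hf⟩ := exists_ord_eq_one v
  -- primes of the integral closure containing `f`
  have hfA : f ∈ v.toValuationSubring := mem_of_ord_nonneg v hf0 (by omega)
  set b : IC v F' := algebraMap v.toValuationSubring (IC v F') ⟨f, hfA⟩ with hb
  have hb' : (b : F') = algebraMap F F' f := rfl
  have hb0 : b ≠ 0 := by
    intro h
    rw [h] at hb'
    exact hf0 ((map_eq_zero (algebraMap F F')).mp hb'.symm)
  have hI : Ideal.span {b} ≠ 0 := by
    rw [ne_eq, Ideal.zero_eq_bot, Ideal.span_singleton_eq_bot]; exact hb0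
  have hfin := Ideal.finite_factors hI
  have huniv : {P : HeightOneSpectrum (IC v F') | P.asIdeal ∣ Ideal.span {b}} = Set.univ := by
    refine Set.eq_univ_of_forall fun P => ?_
    obtain ⟨w, hw, rfl⟩ := primeOf_surjective P
    change (primeOf hw).asIdeal ∣ Ideal.span {b}
    rw [Ideal.dvd_span_singleton, mem_primeOf_iff hw hb0, hb',
      w.ord_restrict (F := F), hw, hf]
    have := w.ramificationIndex_pos (F := F)
    omega
  rw [huniv] at hfin
  haveI : Finite (HeightOneSpectrum (IC v F')) := Set.finite_univ_iff.mp hfin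
  haveI : Finite {w : Place K F' // w.restrict F = v} := Finite.of_equiv _ (equivHOS (v := v)).symm
  exact Set.finite_coe_iff.mp (Finite.of_equiv {w : Place K F' // w.restrict F = v}
    (Equiv.subtypeEquivRight (fun _ => Iff.rfl)))

/-- The (finite) set of places above `v`. -/
def above (F' : Type*) [Field F'] [Algebra K F'] [Algebra F F'] [IsScalarTower K F F']
    [Module.Finite F F'] (v : Place K F) : Finset (Place K F') := (finite_above (F' := F') v).toFinset

@[simp] theorem mem_above {v : Place K F} {w : Place K F'} :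
    w ∈ above F' v ↔ w.restrict F = v := by
  simp [above]

theorem ord_norm_above (v : Place K F) (f : F') (hf : f ≠ 0) :
    v.ord (Algebra.norm F f) = ∑ w ∈ above F' v, (w.inertiaDeg F : ℤ) * w.ord f := by
  haveI : Algebra.IsSeparable F F' := isSeparable_of_charZero K F F'
  exact ord_norm (above F' v) (fun w => mem_above) f hf

/-- `∑ e_w f_w = [F' : F]`. -/
theorem sum_ramificationIndex_mul_inertiaDeg (v : Place K F) :
    ∑ w ∈ above F' v, (w.ramificationIndex F : ℤ) * (w.inertiaDeg F : ℤ)
      = (Module.finrank F F' : ℤ) := by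
  obtain ⟨f, hf0, hf⟩ := exists_ord_eq_one v
  have hf0' : algebraMap F F' f ≠ 0 := by simpa using hf0
  have h := ord_norm_above v (algebraMap F F' f) hf0'
  rw [Algebra.norm_algebraMap, ← zpow_natCast, v.ord_zpow, hf, mul_one] at h
  rw [h]
  refine Finset.sum_congr rfl fun w hw => ?_
  rw [w.ord_restrict (F := F), mem_above.mp hw, hf]
  ring

theorem sumRamificationInertia [HasPrincipalDivisors K F'] : SumRamificationInertia K F F' where
  sum_ramificationIndex_mul_inertiaDeg v := by
    have h : v.fiber F' = above F' v := by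
      ext w
      rw [Place.mem_fiber, mem_above]
    rw [h]
    exact sum_ramificationIndex_mul_inertiaDeg v

theorem fundamentalIdentity [HasPrincipalDivisors K F'] : FundamentalIdentity K F F' :=
  haveI : SumRamificationInertia K F F' := sumRamificationInertia
  inferInstance

theorem pushforward_apply_eq_sum_above (D : Divisor K F') (v : Place K F) :
    Divisor.pushforward F D v = ∑ w ∈ above F' v, (w.inertiaDeg F : ℤ) * D w := by
  classical
  rw [Divisor.pushforward_apply, ← Finset.sum_filter]
  have h1 : (D.support.filter fun w => w.restrict F = v) ⊆ above F' v := by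
    intro w hw
    rw [Finset.mem_filter] at hw
    exact mem_above.mpr hw.2
  rw [← Finset.sum_subset (s₁ := D.support.filter fun w => w.restrict F = v) h1]
  · exact Finset.sum_congr rfl fun w _ => mul_comm _ _
  · intro w hw hw'
    rw [Finset.mem_filter, not_and] at hw'
    have : w ∉ D.support := fun h => hw' h (mem_above.mp hw)
    rw [Finsupp.notMem_support_iff.mp this, mul_zero]

/-- **The norm formula** for divisors. -/
theorem pushforwardNormFormula : Divisor.PushforwardNormFormula K F F' := by
  intro f hf D hD v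
  rw [pushforward_apply_eq_sum_above, ord_norm_above v f hf]
  exact Finset.sum_congr rfl fun w _ => by rw [hD]

/-- If all coefficients of the minimal polynomial of `f` are regular at `w.restrict F`, then
`f` is regular at `w`. -/
theorem mem_of_coeff_mem (w : Place K F') (f : F')
    (h : ∀ i, (minpoly F f).coeff i ∈ (w.restrict F).toValuationSubring) :
    f ∈ w.toValuationSubring := by
  haveI : Algebra.IsSeparable F F' := isSeparable_of_charZero K F F'
  have hint : IsIntegral (w.restrict F).toValuationSubring f := by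
    have hlift : (minpoly F f) ∈
        Polynomial.lifts (algebraMap (w.restrict F).toValuationSubring F) := by
      rw [Polynomial.lifts_iff_coeff_lifts]
      intro i
      exact ⟨⟨_, h i⟩, rfl⟩
    obtain ⟨q, hq, -, hqm⟩ := Polynomial.lifts_and_degree_eq_and_monic hlift
      (minpoly.monic (Algebra.IsIntegral.isIntegral (R := F) f))
    refine ⟨q, hqm, ?_⟩
    rw [← Polynomial.aeval_def, ← minpoly.aeval F f, ← hq, Polynomial.aeval_map_algebraMap]
  exact ic_mem (v := w.restrict F) rfl (⟨f, hint⟩ : IC (w.restrict F) F')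

theorem finite_not_mem [HasPrincipalDivisors K F] (f : F') :
    {w : Place K F' | f ∉ w.toValuationSubring}.Finite := by
  classical
  have hfin : ∀ i, {v : Place K F | (minpoly F f).coeff i ∉ v.toValuationSubring}.Finite := by
    intro i
    rcases eq_or_ne ((minpoly F f).coeff i) 0 with h0 | h0
    · convert Set.finite_empty
      ext v
      simp [h0]
    obtain ⟨D, hD, -⟩ := HasPrincipalDivisors.exists_divisor (K := K) _ h0
    refine Set.Finite.subset D.support.finite_toSet fun v hv => ?_
    simp only [Finset.mem_coe, Finsupp.mem_support_iff, hD v]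
    intro h
    exact hv (mem_of_ord_nonneg v h0 h.ge)
  have hfin2 : (⋃ i ∈ (minpoly F f).support, ⋃ v ∈
      {v : Place K F | (minpoly F f).coeff i ∉ v.toValuationSubring},
      {w : Place K F' | w.restrict F = v}).Finite := by
    refine Set.Finite.biUnion (Finset.finite_toSet _) fun i _ => ?_
    exact Set.Finite.biUnion (hfin i) fun v _ => finite_above v
  refine hfin2.subset fun w hw => ?_
  by_contra hcon
  apply hw
  refine mem_of_coeff_mem (F := F) w f ?_
  intro i
  by_contra hi
  apply hcon
  have hi' : i ∈ (minpoly F f).support := by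
    rw [Polynomial.mem_support_iff]
    intro h0
    rw [h0] at hi
    exact hi (zero_mem _)
  simp only [Set.mem_iUnion]
  exact ⟨i, hi', w.restrict F, hi, rfl⟩

theorem hasPrincipalDivisors_of_finite (hF : HasPrincipalDivisors K F) :
    HasPrincipalDivisors K F' where
  exists_divisor f hf := by
    classical
    have hsupp : {w : Place K F' | w.ord f ≠ 0}.Finite := by
      refine ((finite_not_mem (K := K) (F := F) f).union
        (finite_not_mem (K := K) (F := F) f⁻¹)).subset fun w hw => ?_
      by_contra hcon
      simp only [Set.mem_union, Set.mem_ofPred_eq, not_or, not_not] at hcon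
      have h1 := ord_nonneg_of_mem w hcon.1
      have h2 := ord_nonneg_of_mem w hcon.2
      rw [w.ord_inv] at h2
      exact hw (by omega)
    let D : Divisor K F' := Finsupp.onFinset hsupp.toFinset (fun w => w.ord f) (fun w hw => by
      simpa using hw)
    have hD : ∀ w, D w = w.ord f := fun w => rfl
    refine ⟨D, hD, ?_⟩
    obtain ⟨E, hE, hE0⟩ := hF.exists_divisor (Algebra.norm F f) (Algebra.norm_ne_zero_iff.mpr hf)
    rw [← Divisor.degree_pushforward (F := F) D, ← hE0,
      Divisor.pushforward_eq_of_normFormula pushforwardNormFormula hf hD hE]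

end Global

end Fermat.Agent.H67
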