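/-
H79SecNorm: the norm of a function to K(x) is, up to a constant, the product over its zeros
(helper79, for project S17).
-/
import Mathlib
import Fermat.Agent.H17Zer
import Fermat.Agent.H67Norm
import Fermat.Agent.H88RH

set_option autoImplicit false
set_option linter.unusedSectionVars false
set_option linter.style.haveILetI false

noncomputable section

open AlgebraicCurve WithZero Polynomial IntermediateField

namespace Fermat.Agent.H79

open Fermat.Agent.H3RR Fermat.Agent.H17

section

variable {K F : Type*} [Field K] [Field F] [Algebra K F] [IsAlgClosed K] [IsFF K F]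

theorem eq_of_top {E : Type*} [Field E] [Algebra K E] [IsFF K E] {z : E}
    (hz : Transcendental K z) (htop : K⟮z⟯ = ⊤) {v v' : Place K E} (hv : v.adicValuation z < 1)
    (hv' : v'.adicValuation z < 1) : v = v' := by
  classical
  by_contra hne
  have h1 := sum_ord_le_finrank hz {v, v'} (by simp [hv, hv'])
  rw [Finset.sum_pair hne, H88.finrank_of_eq_top htop] at h1
  have h2 := ord_pos_of_lt_one (transcendental_ne_zero hz) hv
  have h3 := ord_pos_of_lt_one (transcendental_ne_zero hz) hv'
  omega

theorem adicValuation_lt_one_iff_ord_pos {v : Place K F} {f : F} (hf : f ≠ 0) :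
    v.adicValuation f < 1 ↔ 0 < v.ord f := by
  rw [v.adicValuation_eq_exp_neg_ord hf, ← exp_zero, exp_lt_exp]
  omega

theorem ord_const (v : Place K F) (a : K) : v.ord (algebraMap K F a) = 0 := by
  rcases eq_or_ne a 0 with rfl | ha
  · rw [map_zero, v.ord_zero]
  have h := adicValuation_algebraMap v ha
  rw [v.adicValuation_eq_exp_neg_ord (by simpa using ha), ← exp_zero, exp_inj] at h
  omega

theorem ord_multiset_prod (v : Place K F) (A : Multiset F) (hA : ∀ f ∈ A, f ≠ 0) :
    v.ord A.prod = (A.map v.ord).sum := by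
  induction A using Multiset.induction_on with
  | empty => simp
  | cons a A ih =>
    have hA' : ∀ f ∈ A, f ≠ 0 := fun f hf => hA f (Multiset.mem_cons_of_mem hf)
    have h0 : A.prod ≠ 0 := Multiset.prod_ne_zero (fun h => hA' 0 h rfl)
    rw [Multiset.prod_cons, Multiset.map_cons, Multiset.sum_cons,
      v.ord_mul (hA a (Multiset.mem_cons_self a A)) h0, ih hA']

/-- A nonzero function on the line without zeros and poles at finite places is constant. -/
theorem exists_const_of_ord_eq_zero {E : Type*} [Field E] [Algebra K E] [IsFF K E] {z : E}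
    (hz : Transcendental K z) (htop : K⟮z⟯ = ⊤) {h : E} (h0 : h ≠ 0)
    (hh : ∀ v : Place K E, z ∈ v.toValuationSubring → v.ord h = 0) :
    ∃ c : K, algebraMap K E c = h := by
  have hz0 := transcendental_ne_zero hz
  -- at most one place at infinity
  have hinf : ∀ v v' : Place K E, z ∉ v.toValuationSubring → z ∉ v'.toValuationSubring → v = v' := by
    intro v v' hv hv'
    apply eq_of_top (transcendental_inv hz) (by rw [H88.adjoin_inv, htop])
    · rw [map_inv₀]
      refine inv_lt_one_of_one_lt₀ ?_
      rw [← not_le, ← mem_iff_adicValuation_le_one]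
      exact hv
    · rw [map_inv₀]
      refine inv_lt_one_of_one_lt₀ ?_
      rw [← not_le, ← mem_iff_adicValuation_le_one]
      exact hv'
  have key : ∀ g : E, g ≠ 0 → (∀ v : Place K E, z ∈ v.toValuationSubring → v.ord g = 0) →
      (∀ v : Place K E, z ∉ v.toValuationSubring → 0 ≤ v.ord g) → ∃ c : K, algebraMap K E c = g := by
    intro g hg0 hg1 hg2
    obtain ⟨c, hc⟩ := exists_const_of_forall_le_one (K := K) (f := g) (fun v => by
      rw [v.adicValuation_eq_exp_neg_ord hg0, ← exp_zero, exp_le_exp]
      by_cases hv : z ∈ v.toValuationSubring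
      · rw [hg1 v hv]; simp
      · have := hg2 v hv; omega)
    exact ⟨c, hc⟩
  by_cases hpos : ∀ v : Place K E, z ∉ v.toValuationSubring → 0 ≤ v.ord h
  · exact key h h0 hh hpos
  · push Not at hpos
    obtain ⟨v, hv, hv'⟩ := hpos
    obtain ⟨c, hc⟩ := key h⁻¹ (inv_ne_zero h0) (fun w hw => by rw [w.ord_inv, hh w hw, neg_zero])
      (fun w hw => by
        rw [hinf w v hw hv, v.ord_inv]; omega)
    refine ⟨c⁻¹, ?_⟩
    rw [map_inv₀, hc, inv_inv]

variable (K) in
/-- the section `ev_P(1) x - ev_P(x)` as an element of `K(x)` -/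
def fE (x : F) (P : Place K F) : K⟮x⟯ :=
  algebraMap K K⟮x⟯ (ev x 1 P 1) * AdjoinSimple.gen K x - algebraMap K K⟮x⟯ (ev x 1 P x)

theorem coe_fE (x : F) (P : Place K F) : (fE K x P : F) = fsec x P := by
  show algebraMap K⟮x⟯ F (fE K x P) = _
  rw [fE, map_sub, map_mul, AdjoinSimple.algebraMap_gen, ← IsScalarTower.algebraMap_apply,
    ← IsScalarTower.algebraMap_apply, fsec, tsec, Algebra.smul_def, Algebra.smul_def, mul_one]

theorem fE_ne_zero {x : F} (hx : Transcendental K x) (P : Place K F) : fE K x P ≠ 0 := by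
  intro h
  apply fsec_ne_zero hx P
  rw [← coe_fE, h]; rfl

theorem fE_of_mem {x : F} {P : Place K F} (h : x ∈ P.toValuationSubring) :
    fE K x P = AdjoinSimple.gen K x - algebraMap K K⟮x⟯ (val P x) := by
  rw [fE, ev_one_of_mem h, ev_self_of_mem h, map_one, one_mul]

theorem fE_of_notMem {x : F} {P : Place K F} (h : x ∉ P.toValuationSubring) :
    fE K x P = -1 := by
  rw [fE, ev_one_of_notMem h one_ne_zero, ev_self_of_notMem h, map_one, map_zero, zero_mul,
    zero_sub]

theorem gen_mem_restrict_iff {x : F} [FiniteDimensional K⟮x⟯ F] (P : Place K F) :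
    AdjoinSimple.gen K x ∈ (P.restrict K⟮x⟯).toValuationSubring ↔ x ∈ P.toValuationSubring := by
  rw [Place.mem_restrict_iff, AdjoinSimple.algebraMap_gen]

open Classical in
theorem ord_fE {x : F} (hx : Transcendental K x) [FiniteDimensional K⟮x⟯ F] (P : Place K F)
    (v : Place K K⟮x⟯) (hv : AdjoinSimple.gen K x ∈ v.toValuationSubring) :
    v.ord (fE K x P) = if P.restrict K⟮x⟯ = v then 1 else 0 := by
  haveI := H88.isFF_adjoin hx
  have ht := H88.transcendental_gen hx
  by_cases hP : x ∈ P.toValuationSubring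
  · have hf0 := fE_ne_zero hx P
    rw [fE_of_mem hP] at hf0 ⊢
    set π := AdjoinSimple.gen K x - algebraMap K K⟮x⟯ (val P x) with hπ
    have hπt : Transcendental K π := H88.transcendental_sub_const ht _
    have hπtop : K⟮π⟯ = ⊤ := by rw [hπ, H88.adjoin_sub_const, H88.adjoin_gen_eq_top]
    have hPπ : (P.restrict K⟮x⟯).adicValuation π < 1 := by
      rw [adicValuation_lt_one_iff_ord_pos hf0]
      have h1 : 0 < P.ord (algebraMap K⟮x⟯ F π) := by
        rw [← adicValuation_lt_one_iff_ord_pos (by simpa using hf0)]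
        rw [hπ, map_sub, AdjoinSimple.algebraMap_gen, ← IsScalarTower.algebraMap_apply]
        exact val_spec P hP
      rw [P.ord_restrict (F := K⟮x⟯)] at h1
      exact (pos_iff_pos_of_mul_pos h1).mp (by
        have := P.ramificationIndex_pos (F := K⟮x⟯)
        exact_mod_cast this)
    split_ifs with h
    · rw [h] at hPπ
      have h2 := H88.adicValuation_eq_of_top hπt hπtop v hPπ
      rw [v.adicValuation_eq_exp_neg_ord hf0, exp_inj] at h2
      omega
    · have h3 : ¬ v.adicValuation π < 1 := fun h4 => h (eq_of_top hπt hπtop hPπ h4)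
      rw [adicValuation_lt_one_iff_ord_pos hf0] at h3
      have h4 : 0 ≤ v.ord π := by
        apply H67.ord_nonneg_of_mem
        exact sub_mem hv (v.algebraMap_mem' _)
      omega
  · rw [fE_of_notMem hP, if_neg]
    · rw [← map_one (algebraMap K K⟮x⟯), ← map_neg, ord_const]
    · intro h
      rw [← h, gen_mem_restrict_iff] at hv
      exact hP hv

theorem inertiaDeg_eq_one {x : F} (hx : Transcendental K x) [FiniteDimensional K⟮x⟯ F]
    (P : Place K F) : P.inertiaDeg K⟮x⟯ = 1 := by
  haveI := H88.isFF_adjoin hx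
  have h := P.deg_restrict_mul_inertiaDeg (F := K⟮x⟯)
  rw [deg_eq_one, deg_eq_one, one_mul] at h
  exact h

/-- the norm of a section to `K(x)` -/
theorem exists_norm_eq_prod [CharZero K] {x : F} (hx : Transcendental K x) {N : ℕ} {s : F}
    (hs0 : s ≠ 0) {A : Multiset (Place K F)} (hA : IsZer x N s A) : ∃ c : K, c ≠ 0 ∧
      Algebra.norm K⟮x⟯ s = algebraMap K K⟮x⟯ c * (A.map (fE K x)).prod := by
  classical
  haveI := H88.isFF_adjoin hx
  haveI := IsFF.finiteDimensional hx
  have ht := H88.transcendental_gen hx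
  have hn0 : Algebra.norm K⟮x⟯ s ≠ 0 := Algebra.norm_ne_zero_iff.mpr hs0
  have hA0 : ∀ f ∈ A.map (fE K x), f ≠ 0 := by
    intro f hf
    obtain ⟨P, -, rfl⟩ := Multiset.mem_map.mp hf
    exact fE_ne_zero hx P
  have hg0 : (A.map (fE K x)).prod ≠ 0 := Multiset.prod_ne_zero (fun h => hA0 0 h rfl)
  obtain ⟨c, hc⟩ := exists_const_of_ord_eq_zero ht (H88.adjoin_gen_eq_top x)
    (div_ne_zero hn0 hg0) (fun v hv => by
      rw [H67.ord_div v hn0 hg0, sub_eq_zero, H67.ord_norm_above v s hs0,
        ord_multiset_prod v _ hA0, Multiset.map_map]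
      have h1 : ∀ w ∈ H67.above F v, ((w.inertiaDeg K⟮x⟯ : ℕ) : ℤ) * w.ord s
          = ((A.count w : ℕ) : ℤ) := by
        intro w hw
        rw [H67.mem_above] at hw
        have hxw : x ∈ w.toValuationSubring := by
          rw [← gen_mem_restrict_iff, hw]; exact hv
        have h2 := hA w
        rw [nf_of_mem hxw, one_pow, mul_one] at h2
        rw [inertiaDeg_eq_one hx, Nat.cast_one, one_mul, ← h2]
      rw [Finset.sum_congr rfl h1]
      have h3 : (A.map (v.ord ∘ fE K x)) =
          A.map (fun P => if P.restrict K⟮x⟯ = v then (1 : ℤ) else 0) := by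
        refine Multiset.map_congr rfl fun P _ => ?_
        rw [Function.comp_apply, ord_fE hx P v hv]
      rw [h3, ← Nat.cast_sum]
      have h4 : ∀ B : Multiset (Place K F), ((∑ w ∈ H67.above F v, B.count w : ℕ) : ℤ)
          = (B.map (fun P => if P.restrict K⟮x⟯ = v then (1 : ℤ) else 0)).sum := by
        intro B
        induction B using Multiset.induction_on with
        | empty => simp
        | cons a B ih =>
          rw [Multiset.map_cons, Multiset.sum_cons, ← ih]
          simp only [Multiset.count_cons, Finset.sum_add_distrib, Nat.cast_add]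
          rw [add_comm]
          congr 1
          simp [H67.mem_above]
      exact h4 A)
  have hc0 : c ≠ 0 := by
    rintro rfl
    rw [map_zero] at hc
    exact div_ne_zero hn0 hg0 hc.symm
  refine ⟨c, hc0, ?_⟩
  rw [hc, div_mul_cancel₀ _ hg0]

theorem exists_norm_eq_smul [CharZero K] {x : F} (hx : Transcendental K x) {N : ℕ} {s : F}
    (hs0 : s ≠ 0) {A : Multiset (Place K F)} (hA : IsZer x N s A) : ∃ c : K, c ≠ 0 ∧
      ((Algebra.norm K⟮x⟯ s : K⟮x⟯) : F) = c • (A.map (fsec x)).prod := by
  obtain ⟨c, hc0, hc⟩ := exists_norm_eq_prod hx hs0 hA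
  refine ⟨c, hc0, ?_⟩
  rw [← IntermediateField.algebraMap_apply, hc, map_mul, ← IsScalarTower.algebraMap_apply, map_multiset_prod, Multiset.map_map,
    Algebra.smul_def]
  congr 2
  exact Multiset.map_congr rfl fun P _ => coe_fE x P

end

end Fermat.Agent.H79
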