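/-
H17Norm: norm of a section, Gauss lemma (project S17; statements frozen by helper17, proofs by helper79)
-/
import Mathlib
import Fermat.Agent.H17Int
import Fermat.Agent.H17Null
import Fermat.Agent.H17Poly
import Fermat.Agent.H79SecNorm
import Fermat.Agent.H79NormForm

set_option autoImplicit false
set_option linter.unusedSectionVars false
set_option linter.unusedVariables false
set_option linter.style.haveILetI false

noncomputable section

open AlgebraicCurve WithZero Polynomial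

namespace Fermat.Agent.H79

open Fermat.Agent.H3RR Fermat.Agent.H17

section

variable {K F V : Type*} [Field K] [Field F] [Algebra K F]

/-- the linear polynomial attached to a place -/
def fpol (x : F) (P : Place K F) : K[X] := C (ev x 1 P 1) * X - C (ev x 1 P x)

theorem aeval_fpol (x : F) (P : Place K F) : aeval x (fpol x P) = fsec x P := by
  rw [fpol, map_sub, map_mul, aeval_C, aeval_C, aeval_X, fsec, tsec, Algebra.smul_def,
    Algebra.smul_def, mul_one]

theorem natDegree_fpol_le (x : F) (P : Place K F) : (fpol x P).natDegree ≤ 1 := by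
  rw [fpol]
  compute_degree

theorem coeff_fpol_one (x : F) (P : Place K F) : (fpol x P).coeff 1 = ev x 1 P 1 := by
  simp [fpol]

theorem coeff_fpol_zero (x : F) (P : Place K F) : (fpol x P).coeff 0 = - ev x 1 P x := by
  simp [fpol]

theorem natDegree_prod_fpol_le (x : F) (A : Multiset (Place K F)) :
    (A.map (fpol x)).prod.natDegree ≤ A.card := by
  induction A using Multiset.induction_on with
  | empty => simp
  | cons P A ih =>
    rw [Multiset.map_cons, Multiset.prod_cons, Multiset.card_cons]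
    refine natDegree_mul_le.trans ?_
    have := natDegree_fpol_le x P
    omega

theorem pnrm_fpol_le (𝔸 : AbsFam K V) (x : F) (v : V) (P : Place K F) : 𝔸.pnrm v (fpol x P) ≤
    max (𝔸.abv v (ev x 1 P 1)) (𝔸.abv v (ev x 1 P x)) := by
  apply 𝔸.pnrm_le
  intro i
  rcases i with _ | _ | i
  · rw [coeff_fpol_zero, (𝔸.abv v).map_neg]; exact le_max_right _ _
  · rw [coeff_fpol_one]; exact le_max_left _ _
  · have : (fpol x P).coeff (i + 1 + 1) = 0 := by
      apply coeff_eq_zero_of_natDegree_lt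
      have := natDegree_fpol_le x P
      omega
    rw [this, map_zero]
    exact le_max_of_le_left ((𝔸.abv v).nonneg _)

theorem le_pnrm_fpol (𝔸 : AbsFam K V) (x : F) (v : V) (P : Place K F) :
    max (𝔸.abv v (ev x 1 P 1)) (𝔸.abv v (ev x 1 P x)) ≤ 𝔸.pnrm v (fpol x P) := by
  apply max_le
  · rw [← coeff_fpol_one]; exact 𝔸.abv_coeff_le v _ _
  · rw [← (𝔸.abv v).map_neg, ← coeff_fpol_zero]; exact 𝔸.abv_coeff_le v _ _

theorem exists_pnrm_le (𝔸 : AbsFam K V) (p : K[X]) : ∃ C, IsMC C ∧ ∀ v, 𝔸.pnrm v p ≤ C v := by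
  obtain ⟨C, hC, h⟩ : ∃ C, IsMC C ∧ ∀ (i : Fin (p.natDegree + 1)) v, 𝔸.abv v (p.coeff i) ≤ C v := by
    choose C hC h using fun i : Fin (p.natDegree + 1) => 𝔸.exists_isMC_abv_le (p.coeff i)
    obtain ⟨D, hD, h'⟩ := exists_isMC_forall hC
    exact ⟨D, hD, fun i v => (h i v).trans (h' i v)⟩
  refine ⟨C, hC, fun v => 𝔸.pnrm_le v p fun i => ?_⟩
  by_cases hi : i < p.natDegree + 1
  · exact h ⟨i, hi⟩ v
  · rw [coeff_eq_zero_of_natDegree_lt (by omega), map_zero]
    exact hC.nonneg v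

theorem exists_one_le_pnrm (𝔸 : AbsFam K V) {p : K[X]} (hp : p ≠ 0) :
    ∃ C, IsMC C ∧ ∀ v, 1 ≤ C v * 𝔸.pnrm v p := by
  obtain ⟨C, hC, h⟩ := 𝔸.exists_isMC_abv_le (p.leadingCoeff)⁻¹
  refine ⟨C, hC, fun v => ?_⟩
  have h0 : p.leadingCoeff ≠ 0 := leadingCoeff_ne_zero.mpr hp
  calc (1 : ℝ) = 𝔸.abv v (p.leadingCoeff)⁻¹ * 𝔸.abv v p.leadingCoeff := by
        rw [← map_mul, inv_mul_cancel₀ h0, map_one]
    _ ≤ C v * 𝔸.pnrm v p := mul_le_mul (h v) (𝔸.abv_coeff_le v p _) ((𝔸.abv v).nonneg _) (hC.nonneg v)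

theorem multiset_prod_nonneg {α : Type*} (A : Multiset α) (f : α → ℝ) (hf : ∀ a ∈ A, 0 ≤ f a) :
    0 ≤ (A.map f).prod := by
  apply Multiset.prod_nonneg
  intro x hx
  obtain ⟨a, ha, rfl⟩ := Multiset.mem_map.mp hx
  exact hf a ha

theorem multiset_prod_le_prod {α : Type*} (A : Multiset α) (f g : α → ℝ) (hf : ∀ a ∈ A, 0 ≤ f a)
    (h : ∀ a ∈ A, f a ≤ g a) : (A.map f).prod ≤ (A.map g).prod := by
  induction A using Multiset.induction_on with
  | empty => simp
  | cons a A ih =>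
    rw [Multiset.map_cons, Multiset.map_cons, Multiset.prod_cons, Multiset.prod_cons]
    have h1 : ∀ a ∈ A, 0 ≤ f a := fun a ha => hf a (Multiset.mem_cons_of_mem ha)
    exact mul_le_mul (h a (Multiset.mem_cons_self a A))
      (ih h1 fun a ha => h a (Multiset.mem_cons_of_mem ha)) (multiset_prod_nonneg A f h1)
      ((hf a (Multiset.mem_cons_self a A)).trans (h a (Multiset.mem_cons_self a A)))

theorem multiset_prod_const_mul {α : Type*} (A : Multiset α) (c : ℝ) (f : α → ℝ) :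
    (A.map fun a => c * f a).prod = c ^ A.card * (A.map f).prod := by
  rw [Multiset.prod_map_mul, Multiset.map_const', Multiset.prod_replicate]

end

end Fermat.Agent.H79

namespace Fermat.Agent.H17

open Fermat.Agent.H3RR

namespace HSetup

variable {K F V : Type*} [Field K] [Field F] [Algebra K F] [IsAlgClosed K] [CharZero K] [IsFF K F]
variable (S : HSetup K F V)

/-! ### L7: norm of a section (file H17Norm) -/

theorem exists_norm_eq {N : ℕ} {s : F} (hs : s ∈ W K S.x N) (hs0 : s ≠ 0) {A : Multiset (Place K F)}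
    (hA : IsZer S.x N s A) : ∃ c : K, c ≠ 0 ∧
      ((Algebra.norm (IntermediateField.adjoin K {S.x}) s : IntermediateField.adjoin K {S.x}) : F) =
        c • (A.map (fsec S.x)).prod :=
  H79.exists_norm_eq_smul S.hx hs0 hA

theorem exists_nrm_pow_le (N : ℕ) : ∃ C, IsMC C ∧ ∀ (s : F) (A : Multiset (Place K F)) (c : K),
    s ∈ W K S.x N → s ≠ 0 → IsZer S.x N s A →
    ((Algebra.norm (IntermediateField.adjoin K {S.x}) s : IntermediateField.adjoin K {S.x}) : F) =
        c • (A.map (fsec S.x)).prod →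
    ∀ v, S.nrm N v s ^ S.d ≤ C v * (S.𝔸.abv v c * (A.map (S.w v)).prod) ∧
      S.𝔸.abv v c * (A.map (S.w v)).prod ≤ C v * S.nrm N v s ^ S.d := by
  haveI : FiniteDimensional (IntermediateField.adjoin K {S.x}) F := IsFF.finiteDimensional S.hx
  obtain ⟨J, D, f, hD0, hf, hfs⟩ := H79.exists_norm_form (K := K) (x := S.x)
    (fun i : Fin (S.r N) => ((S.b N i : W K S.x N) : F))
  have hd : 0 < S.d := Module.finrank_pos
  -- the common zero
  obtain ⟨C1, hC1, h1⟩ := exists_null_bound S.𝔸 f hd hf (by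
    intro s hs
    have h2 := hfs s
    have h3 : (∑ j : Fin (J + 1), C (MvPolynomial.eval s (f j)) * X ^ (j : ℕ) : K[X]) = 0 := by
      refine Finset.sum_eq_zero fun j _ => ?_
      rw [hs j, C_0, zero_mul]
    rw [h3, map_zero, mul_eq_zero] at h2
    rcases h2 with h2 | h2
    · exact absurd ((transcendental_iff.mp S.hx) D h2) hD0
    · have h4 : Algebra.norm (IntermediateField.adjoin K {S.x})
        (∑ i, s i • ((S.b N i : W K S.x N) : F)) = 0 := by
        exact_mod_cast h2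
      rw [Algebra.norm_eq_zero_iff] at h4
      have h5 : (∑ i, s i • (S.b N i : W K S.x N)) = 0 := by
        apply Subtype.ext
        rw [Submodule.coe_sum]
        simpa using h4
      funext i
      exact (Fintype.linearIndependent_iff.mp (S.b N).linearIndependent) s h5 i)
  obtain ⟨C2, hC2, h2⟩ : ∃ C, IsMC C ∧ ∀ (j : Fin (J + 1)) v (s : Fin (S.r N) → K),
      S.𝔸.abv v (MvPolynomial.eval s (f j)) ≤ C v * (⨆ j, S.𝔸.abv v (s j)) ^ S.d := by
    choose C hC h using fun j => exists_eval_bound S.𝔸 (f j) (hf j)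
    obtain ⟨D, hD, h'⟩ := exists_isMC_forall hC
    refine ⟨D, hD, fun j v s => (h j v s).trans (mul_le_mul_of_nonneg_right (h' j v) ?_)⟩
    exact pow_nonneg (Real.iSup_nonneg fun i => (S.𝔸.abv v).nonneg _) _
  obtain ⟨C3, hC3, h3⟩ := H79.exists_pnrm_le S.𝔸 D
  obtain ⟨C4, hC4, h4⟩ := H79.exists_one_le_pnrm S.𝔸 hD0
  obtain ⟨C5, hC5, h5⟩ := S.exists_le_w
  obtain ⟨C6, hC6, h6⟩ := S.exists_w_le
  set M := max D.natDegree (N * S.d) with hM
  obtain ⟨C7, hC7, h7⟩ := exists_pnrm_mul_le S.𝔸 M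
  obtain ⟨C8, hC8, h8⟩ := exists_le_pnrm_mul S.𝔸 M
  obtain ⟨C9, hC9, h9⟩ := exists_prod_pnrm_le S.𝔸 (N * S.d) 1
  obtain ⟨C10, hC10, h10⟩ := exists_pnrm_prod_le S.𝔸 (N * S.d) 1
  -- the two constants
  have hU := ((hC1.mul hC7).mul (hC3.mul hC10)).mul (hC5.pow (N * S.d))
  have hL := ((hC6.pow (N * S.d)).mul (hC9.mul hC4)).mul (hC8.mul hC2)
  refine ⟨_, hU.max hL, ?_⟩
  intro s A c hs hs0 hA hc v
  have hcard : A.card = N * S.d := hA.card_eq S.hx hs0
  set σ : Fin (S.r N) → K := ⇑((S.b N).repr ⟨s, hs⟩) with hσ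
  have hsum : ∑ i, σ i • ((S.b N i : W K S.x N) : F) = s := by
    have := congrArg (Subtype.val) ((S.b N).sum_repr ⟨s, hs⟩)
    rw [Submodule.coe_sum] at this
    simpa using this
  have hnrm : S.nrm N v s = ⨆ i, S.𝔸.abv v (σ i) := S.nrm_of_mem hs v
  have hnrm0 : 0 ≤ S.nrm N v s := S.nrm_nonneg N v s
  set G : K[X] := ∑ j : Fin (J + 1), C (MvPolynomial.eval σ (f j)) * X ^ (j : ℕ) with hG
  have hGeq : G = D * (C c * (A.map (H79.fpol S.x)).prod) := by
    have h11 := hfs σ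
    rw [hsum, hc, ← hG] at h11
    have h12 : aeval S.x (D * (C c * (A.map (H79.fpol S.x)).prod)) = aeval S.x G := by
      rw [← h11, map_mul, map_mul, aeval_C, map_multiset_prod, Multiset.map_map,
        Algebra.smul_def]
      congr 3
      exact Multiset.map_congr rfl fun P _ => H79.aeval_fpol S.x P
    exact ((transcendental_iff_injective.mp S.hx) h12).symm
  have hcoeffG : ∀ i : ℕ, G.coeff i = if h : i < J + 1 then MvPolynomial.eval σ (f ⟨i, h⟩) else 0 := by
    intro i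
    rw [hG, finsetSum_coeff]
    simp only [coeff_C_mul, coeff_X_pow]
    split_ifs with h
    · rw [Finset.sum_eq_single ⟨i, h⟩]
      · simp
      · intro j _ hj
        rw [if_neg, mul_zero]
        intro h'
        exact hj (Fin.ext h'.symm)
      · intro h'; exact absurd (Finset.mem_univ _) h'
    · refine Finset.sum_eq_zero fun j _ => ?_
      rw [if_neg, mul_zero]
      intro h'
      exact h (h' ▸ j.2)
  have hGle : S.𝔸.pnrm v G ≤ C2 v * S.nrm N v s ^ S.d := by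
    apply S.𝔸.pnrm_le
    intro i
    rw [hcoeffG]
    split_ifs with h
    · rw [hnrm]; exact h2 _ v σ
    · rw [map_zero]
      exact mul_nonneg (hC2.nonneg v) (pow_nonneg hnrm0 _)
  have hleG : S.nrm N v s ^ S.d ≤ C1 v * S.𝔸.pnrm v G := by
    rw [hnrm]
    refine (h1 v σ).trans (mul_le_mul_of_nonneg_left ?_ (hC1.nonneg v))
    refine ciSup_le fun j => ?_
    have h11 := hcoeffG j
    rw [dif_pos j.2] at h11
    rw [← h11]
    exact S.𝔸.abv_coeff_le v _ _
  -- degrees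
  have hdegD : D.natDegree ≤ M := le_max_left _ _
  have hdegP : (C c * (A.map (H79.fpol S.x)).prod).natDegree ≤ M := by
    refine (natDegree_C_mul_le _ _).trans ((H79.natDegree_prod_fpol_le S.x A).trans ?_)
    rw [hcard]; exact le_max_right _ _
  have hcardP : (A.map (H79.fpol S.x)).card ≤ N * S.d := by rw [Multiset.card_map, hcard]
  have hdegf : ∀ p ∈ A.map (H79.fpol S.x), p.natDegree ≤ 1 := by
    intro p hp
    obtain ⟨P, -, rfl⟩ := Multiset.mem_map.mp hp
    exact H79.natDegree_fpol_le S.x P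
  have hac : 0 ≤ S.𝔸.abv v c := (S.𝔸.abv v).nonneg c
  have hw0 : 0 ≤ (A.map (S.w v)).prod :=
    H79.multiset_prod_nonneg A _ fun P _ => (S.w_pos v P).le
  have hp0 : 0 ≤ ((A.map (H79.fpol S.x)).map (S.𝔸.pnrm v)).prod := by
    apply Multiset.prod_nonneg
    intro x hx
    obtain ⟨p, -, rfl⟩ := Multiset.mem_map.mp hx
    exact S.𝔸.pnrm_nonneg v p
  constructor
  · -- upper bound
    have e1 : S.𝔸.pnrm v G ≤ C7 v * (S.𝔸.pnrm v D * S.𝔸.pnrm v (C c * (A.map (H79.fpol S.x)).prod)) := by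
      rw [hGeq]; exact h7 v _ _ hdegD hdegP
    have e2 : S.𝔸.pnrm v (C c * (A.map (H79.fpol S.x)).prod) ≤
        S.𝔸.abv v c * (C10 v * ((A.map (H79.fpol S.x)).map (S.𝔸.pnrm v)).prod) := by
      rw [S.𝔸.pnrm_C_mul]
      exact mul_le_mul_of_nonneg_left (h10 v _ hcardP hdegf) hac
    have e3 : ((A.map (H79.fpol S.x)).map (S.𝔸.pnrm v)).prod ≤
        C5 v ^ (N * S.d) * (A.map (S.w v)).prod := by
      rw [← hcard, ← H79.multiset_prod_const_mul, Multiset.map_map]
      refine H79.multiset_prod_le_prod A _ _ (fun P _ => S.𝔸.pnrm_nonneg v _) fun P _ => ?_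
      exact (H79.pnrm_fpol_le S.𝔸 S.x v P).trans (h5 v P)
    calc S.nrm N v s ^ S.d ≤ C1 v * S.𝔸.pnrm v G := hleG
      _ ≤ C1 v * (C7 v * (S.𝔸.pnrm v D * S.𝔸.pnrm v (C c * (A.map (H79.fpol S.x)).prod))) :=
          mul_le_mul_of_nonneg_left e1 (hC1.nonneg v)
      _ ≤ C1 v * (C7 v * (C3 v * (S.𝔸.abv v c * (C10 v * (C5 v ^ (N * S.d) *
            (A.map (S.w v)).prod))))) := by
          refine mul_le_mul_of_nonneg_left (mul_le_mul_of_nonneg_left ?_ (hC7.nonneg v))
            (hC1.nonneg v)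
          refine mul_le_mul (h3 v) (e2.trans ?_) (S.𝔸.pnrm_nonneg v _) (hC3.nonneg v)
          exact mul_le_mul_of_nonneg_left (mul_le_mul_of_nonneg_left e3 (hC10.nonneg v)) hac
      _ = (C1 v * C7 v * (C3 v * C10 v) * C5 v ^ (N * S.d)) *
            (S.𝔸.abv v c * (A.map (S.w v)).prod) := by ring
      _ ≤ _ := mul_le_mul_of_nonneg_right (le_max_left _ _) (mul_nonneg hac hw0)
  · -- lower bound
    have e1 : S.𝔸.pnrm v D * S.𝔸.pnrm v (C c * (A.map (H79.fpol S.x)).prod) ≤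
        C8 v * S.𝔸.pnrm v G := by
      rw [hGeq]; exact h8 v _ _ hdegD hdegP
    have e2 : S.𝔸.abv v c * ((A.map (H79.fpol S.x)).map (S.𝔸.pnrm v)).prod ≤
        C9 v * S.𝔸.pnrm v (C c * (A.map (H79.fpol S.x)).prod) := by
      rw [S.𝔸.pnrm_C_mul]
      calc _ ≤ S.𝔸.abv v c * (C9 v * S.𝔸.pnrm v (A.map (H79.fpol S.x)).prod) :=
            mul_le_mul_of_nonneg_left (h9 v _ hcardP hdegf) hac
        _ = _ := by ring
    have e3 : (A.map (S.w v)).prod ≤
        C6 v ^ (N * S.d) * ((A.map (H79.fpol S.x)).map (S.𝔸.pnrm v)).prod := by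
      rw [← hcard, Multiset.map_map, ← H79.multiset_prod_const_mul]
      refine H79.multiset_prod_le_prod A _ _ (fun P _ => (S.w_pos v P).le) fun P _ => ?_
      exact (h6 v P).trans (mul_le_mul_of_nonneg_left (H79.le_pnrm_fpol S.𝔸 S.x v P) (hC6.nonneg v))
    have e4 : S.𝔸.pnrm v (C c * (A.map (H79.fpol S.x)).prod) ≤ C4 v * (C8 v * S.𝔸.pnrm v G) := by
      calc S.𝔸.pnrm v (C c * (A.map (H79.fpol S.x)).prod)
          = 1 * S.𝔸.pnrm v (C c * (A.map (H79.fpol S.x)).prod) := (one_mul _).symm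
        _ ≤ (C4 v * S.𝔸.pnrm v D) * S.𝔸.pnrm v (C c * (A.map (H79.fpol S.x)).prod) :=
            mul_le_mul_of_nonneg_right (h4 v) (S.𝔸.pnrm_nonneg v _)
        _ = C4 v * (S.𝔸.pnrm v D * S.𝔸.pnrm v (C c * (A.map (H79.fpol S.x)).prod)) := by ring
        _ ≤ _ := mul_le_mul_of_nonneg_left e1 (hC4.nonneg v)
    calc S.𝔸.abv v c * (A.map (S.w v)).prod
        ≤ S.𝔸.abv v c * (C6 v ^ (N * S.d) * ((A.map (H79.fpol S.x)).map (S.𝔸.pnrm v)).prod) :=
          mul_le_mul_of_nonneg_left e3 hac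
      _ = C6 v ^ (N * S.d) * (S.𝔸.abv v c * ((A.map (H79.fpol S.x)).map (S.𝔸.pnrm v)).prod) := by
          ring
      _ ≤ C6 v ^ (N * S.d) * (C9 v * (C4 v * (C8 v * (C2 v * S.nrm N v s ^ S.d)))) := by
          refine mul_le_mul_of_nonneg_left (e2.trans ?_) (pow_nonneg (hC6.nonneg v) _)
          refine mul_le_mul_of_nonneg_left (e4.trans ?_) (hC9.nonneg v)
          exact mul_le_mul_of_nonneg_left (mul_le_mul_of_nonneg_left hGle (hC8.nonneg v))
            (hC4.nonneg v)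
      _ = (C6 v ^ (N * S.d) * (C9 v * C4 v) * (C8 v * C2 v)) * S.nrm N v s ^ S.d := by ring
      _ ≤ _ := mul_le_mul_of_nonneg_right (le_max_right _ _) (pow_nonneg hnrm0 _)

/-- Gauss' lemma for sections -/
theorem exists_gauss (N M : ℕ) : ∃ C, IsMC C ∧ ∀ v, ∀ s ∈ W K S.x N, ∀ t ∈ W K S.x M,
    S.nrm N v s * S.nrm M v t ≤ C v * S.nrm (N + M) v (s * t) := by
  haveI : FiniteDimensional (IntermediateField.adjoin K {S.x}) F := IsFF.finiteDimensional S.hx
  have hd : 0 < S.d := Module.finrank_pos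
  obtain ⟨C1, hC1, h1⟩ := S.exists_nrm_pow_le N
  obtain ⟨C2, hC2, h2⟩ := S.exists_nrm_pow_le M
  obtain ⟨C3, hC3, h3⟩ := S.exists_nrm_pow_le (N + M)
  have hC := (hC1.mul hC2).mul hC3
  refine ⟨_, hC, fun v s hs t ht => ?_⟩
  have hst0 : 0 ≤ S.nrm (N + M) v (s * t) := S.nrm_nonneg _ _ _
  rcases eq_or_ne s 0 with rfl | hs0
  · rw [S.nrm_zero, zero_mul]
    exact mul_nonneg (hC.nonneg v) hst0
  rcases eq_or_ne t 0 with rfl | ht0
  · rw [S.nrm_zero, mul_zero]
    exact mul_nonneg (hC.nonneg v) hst0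
  obtain ⟨A, hA⟩ := exists_isZer S.hx hs hs0
  obtain ⟨B, hB⟩ := exists_isZer S.hx ht ht0
  obtain ⟨a, ha0, ha⟩ := S.exists_norm_eq hs hs0 hA
  obtain ⟨b, hb0, hb⟩ := S.exists_norm_eq ht ht0 hB
  have hAB := hA.mul S.hx hs0 ht0 hB
  have hab : ((Algebra.norm (IntermediateField.adjoin K {S.x}) (s * t) :
      IntermediateField.adjoin K {S.x}) : F) = (a * b) • ((A + B).map (fsec S.x)).prod := by
    rw [map_mul, MulMemClass.coe_mul, ha, hb, Multiset.map_add, Multiset.prod_add, mul_smul,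
      smul_mul_smul_comm, mul_smul]
  have e1 := (h1 s A a hs hs0 hA ha v).1
  have e2 := (h2 t B b ht ht0 hB hb v).1
  have e3 := (h3 (s * t) (A + B) (a * b) (mul_mem_W hs ht) (mul_ne_zero hs0 ht0) hAB hab v).2
  have hn1 : 0 ≤ S.nrm N v s := S.nrm_nonneg _ _ _
  have hn2 : 0 ≤ S.nrm M v t := S.nrm_nonneg _ _ _
  have hA0 : 0 ≤ (A.map (S.w v)).prod := H79.multiset_prod_nonneg A _ fun P _ => (S.w_pos v P).le
  have hB0 : 0 ≤ (B.map (S.w v)).prod := H79.multiset_prod_nonneg B _ fun P _ => (S.w_pos v P).le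
  have key : (S.nrm N v s * S.nrm M v t) ^ S.d ≤
      ((C1 v * C2 v * C3 v) * S.nrm (N + M) v (s * t)) ^ S.d := by
    calc (S.nrm N v s * S.nrm M v t) ^ S.d = S.nrm N v s ^ S.d * S.nrm M v t ^ S.d := mul_pow _ _ _
      _ ≤ (C1 v * (S.𝔸.abv v a * (A.map (S.w v)).prod)) *
          (C2 v * (S.𝔸.abv v b * (B.map (S.w v)).prod)) :=
          mul_le_mul e1 e2 (pow_nonneg hn2 _)
            (mul_nonneg (hC1.nonneg v) (mul_nonneg ((S.𝔸.abv v).nonneg _) hA0))
      _ = (C1 v * C2 v) * (S.𝔸.abv v (a * b) * ((A + B).map (S.w v)).prod) := by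
          rw [map_mul, Multiset.map_add, Multiset.prod_add]; ring
      _ ≤ (C1 v * C2 v) * (C3 v * S.nrm (N + M) v (s * t) ^ S.d) :=
          mul_le_mul_of_nonneg_left e3 (mul_nonneg (hC1.nonneg v) (hC2.nonneg v))
      _ = (C1 v * C2 v * C3 v) * S.nrm (N + M) v (s * t) ^ S.d := by ring
      _ ≤ (C1 v * C2 v * C3 v) ^ S.d * S.nrm (N + M) v (s * t) ^ S.d :=
          mul_le_mul_of_nonneg_right (le_self_pow₀ (hC.one_le v) hd.ne') (pow_nonneg hst0 _)
      _ = _ := (mul_pow _ _ _).symm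
  exact le_of_pow_le_pow_left₀ hd.ne' (mul_nonneg (hC.nonneg v) hst0) key

end HSetup

end Fermat.Agent.H17
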