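/-
H17Low: lower bound for values of sections (project S17; statements frozen by helper17, proofs by the job owner; helper lemmas may be added)
-/
import Mathlib
import Fermat.Agent.H17Norm

set_option autoImplicit false

noncomputable section

open AlgebraicCurve WithZero Polynomial

namespace Fermat.Agent.H17

open Fermat.Agent.H3RR

namespace HSetup

variable {K F V : Type*} [Field K] [Field F] [Algebra K F] [IsAlgClosed K] [CharZero K] [IsFF K F]
variable (S : HSetup K F V)

/-! ### L8: lower bound for the value of a section (file H17Low) -/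

/-- the section with coordinate vector `c` -/
def secOf (c : Fin (S.r 1) → K) : F := ∑ i, c i • ((S.b 1 i : W K S.x 1) : F)

omit [IsAlgClosed K] [CharZero K] [IsFF K F] in
theorem secOf_mem (c : Fin (S.r 1) → K) : S.secOf c ∈ W K S.x 1 :=
  Submodule.sum_mem _ fun i _ => Submodule.smul_mem _ _ (S.b 1 i).2

omit [CharZero K] in
theorem ev_secOf (c : Fin (S.r 1) → K) (P : Place K F) :
    ev S.x 1 P (S.secOf c) = ∑ i, c i * S.e P i := by
  rw [secOf, ev_sum _ _ fun i _ => Submodule.smul_mem _ _ (S.b 1 i).2]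
  exact Finset.sum_congr rfl fun i _ => ev_smul (S.b 1 i).2 _ _

omit [CharZero K] in
theorem ev_multiset_prod {x : F} (A : Multiset F) (hA : ∀ s ∈ A, s ∈ W K x 1) (v : Place K F) :
    A.prod ∈ W K x A.card ∧ ev x A.card v A.prod = (A.map (ev x 1 v)).prod := by
  induction A using Multiset.induction_on with
  | empty => exact ⟨by simpa using one_mem_W x 0, by simp [ev]⟩
  | cons a A ih =>
    obtain ⟨h1, h2⟩ := ih fun s hs => hA s (Multiset.mem_cons_of_mem hs)
    have ha := hA a (Multiset.mem_cons_self a A)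
    rw [Multiset.prod_cons, Multiset.card_cons, Multiset.map_cons, Multiset.prod_cons, mul_comm a,
      mul_comm (ev x 1 v a)]
    exact ⟨mul_mem_W h1 ha, by rw [ev_mul h1 ha, h2]⟩

theorem sup_minor_eq (v : V) (P Q : Place K F) :
    (⨆ ij : Fin (S.r 1) × Fin (S.r 1),
      S.𝔸.abv v (S.e P ij.1 * S.e Q ij.2 - S.e P ij.2 * S.e Q ij.1)) =
      S.dist v P Q * (S.w v P * S.w v Q) := by
  rw [dist, div_mul_cancel₀]
  exact (mul_pos (S.w_pos v P) (S.w_pos v Q)).ne'

theorem multiset_prod_pos {ι : Type*} (A : Multiset ι) (f : ι → ℝ) (h : ∀ a ∈ A, 0 < f a) :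
    0 < (A.map f).prod := by
  induction A using Multiset.induction_on with
  | empty => simp
  | cons a A ih =>
    rw [Multiset.map_cons, Multiset.prod_cons]
    exact mul_pos (h a (Multiset.mem_cons_self a A)) (ih fun b hb => h b (Multiset.mem_cons_of_mem hb))

theorem multiset_prod_nonneg {ι : Type*} (A : Multiset ι) (f : ι → ℝ) (h : ∀ a ∈ A, 0 ≤ f a) :
    0 ≤ (A.map f).prod := by
  induction A using Multiset.induction_on with
  | empty => simp
  | cons a A ih =>
    rw [Multiset.map_cons, Multiset.prod_cons]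
    exact mul_nonneg (h a (Multiset.mem_cons_self a A))
      (ih fun b hb => h b (Multiset.mem_cons_of_mem hb))

theorem multiset_prod_le {ι : Type*} (A : Multiset ι) (f g : ι → ℝ) (h0 : ∀ a ∈ A, 0 ≤ f a)
    (h : ∀ a ∈ A, f a ≤ g a) : (A.map f).prod ≤ (A.map g).prod := by
  induction A using Multiset.induction_on with
  | empty => simp
  | cons a A ih =>
    rw [Multiset.map_cons, Multiset.prod_cons, Multiset.map_cons, Multiset.prod_cons]
    have h1 := h0 a (Multiset.mem_cons_self a A)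
    have h2 := h a (Multiset.mem_cons_self a A)
    exact mul_le_mul h2 (ih (fun b hb => h0 b (Multiset.mem_cons_of_mem hb))
      fun b hb => h b (Multiset.mem_cons_of_mem hb))
      (multiset_prod_nonneg A f fun b hb => h0 b (Multiset.mem_cons_of_mem hb)) (h1.trans h2)

theorem exists_lower (N : ℕ) : ∃ C, IsMC C ∧ ∀ (s : F) (A : Multiset (Place K F)),
    s ∈ W K S.x N → s ≠ 0 → IsZer S.x N s A → ∀ v (Q : Place K F),
    S.nrm N v s * S.w v Q ^ N * (A.map fun P => S.dist v P Q).prod ≤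
      C v * S.𝔸.abv v (ev S.x N Q s) := by
  classical
  have hd : 0 < Module.finrank (IntermediateField.adjoin K {S.x}) F := by
    have : FiniteDimensional (IntermediateField.adjoin K {S.x}) F := IsFF.finiteDimensional S.hx
    exact Module.finrank_pos
  have : NeZero (S.r 1) := ⟨by
    obtain ⟨i⟩ := (inferInstance : Nonempty (Fin (S.r 1)))
    intro h
    rw [h] at i
    exact i.elim0⟩
  obtain ⟨M, hM⟩ : ∃ M, N * Module.finrank (IntermediateField.adjoin K {S.x}) F = N + M :=
    Nat.exists_eq_add_of_le (Nat.le_mul_of_pos_right N hd)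
  obtain ⟨T, C₁, hC₁, h₁⟩ := exists_generic S.𝔸 (S.r 1) (N + M)
  obtain ⟨C₂, hC₂, h₂⟩ := S.exists_ev_le M
  obtain ⟨C₃, hC₃, h₃⟩ := S.exists_gauss N M
  obtain ⟨C₄, hC₄, h₄⟩ := S.exists_nrm_prod_le (N + M)
  obtain ⟨C₅, hC₅, h₅⟩ := S.exists_nrm_tsec_le
  let y : ℕ → F := fun t => S.secOf fun i => (t : K) ^ (i : ℕ)
  let z : ℕ → F := fun t => S.secOf fun i => (t : K) ^ (S.r 1 * (i : ℕ))
  have hfam : ∃ D, IsMC D ∧ ∀ (p : Fin (T + 1) × Bool) v,
      S.nrm 1 v (if p.2 then y p.1 else z p.1) ≤ D v := by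
    choose D hD h using fun p : Fin (T + 1) × Bool =>
      S.exists_nrm_le 1 (if p.2 then y p.1 else z p.1)
    obtain ⟨E, hE, h'⟩ := exists_isMC_forall hD
    exact ⟨E, hE, fun p v => (h p v).trans (h' p v)⟩
  obtain ⟨C₆, hC₆, h₆⟩ := hfam
  refine ⟨fun v => C₁ v * C₂ v * C₃ v * C₄ v * (C₅ v * (C₆ v * C₆ v)) ^ (N + M),
    (((hC₁.mul hC₂).mul hC₃).mul hC₄).mul ((hC₅.mul (hC₆.mul hC₆)).pow _), ?_⟩
  intro s A hs hs0 hA v Q
  have hcard : A.card = N + M := by rw [hA.card_eq S.hx hs0, hM]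
  obtain ⟨t, htT, ht⟩ := h₁ v (A.map fun P => (S.e P, S.e Q)) 0
    (by rw [Multiset.card_map, hcard]) (by simp)
  simp only [Multiset.map_map, Function.comp_def, Multiset.map_zero, Multiset.prod_zero,
    mul_one] at ht
  have hey : ∀ P, ev S.x 1 P (y t) = ylin t (S.e P) := fun P => S.ev_secOf _ P
  have hez : ∀ P, ev S.x 1 P (z t) = zlin t (S.e P) := fun P => S.ev_secOf _ P
  have hyW : y t ∈ W K S.x 1 := S.secOf_mem _
  have hzW : z t ∈ W K S.x 1 := S.secOf_mem _
  have hny : S.nrm 1 v (y t) ≤ C₆ v := h₆ (⟨t, by omega⟩, true) v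
  have hnz : S.nrm 1 v (z t) ≤ C₆ v := h₆ (⟨t, by omega⟩, false) v
  let τ : Place K F → F := fun P => tsec S.x (y t) (z t) P
  have hτ : ∀ P, τ P ∈ W K S.x 1 := fun P => tsec_mem hyW hzW P
  have hevτ : ∀ P, ev S.x 1 Q (τ P) =
      zlin t (S.e P) * ylin t (S.e Q) - ylin t (S.e P) * zlin t (S.e Q) := by
    intro P
    rw [ev_tsec hyW hzW, hey, hez, hey, hez]
  have hw : 0 < (A.map fun P => S.w v P * S.w v Q).prod :=
    multiset_prod_pos A _ fun P _ => mul_pos (S.w_pos v P) (S.w_pos v Q)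
  have ht' : (A.map fun P => S.dist v P Q).prod * (A.map fun P => S.w v P * S.w v Q).prod ≤
      C₁ v * (A.map fun P => S.𝔸.abv v (ev S.x 1 Q (τ P))).prod := by
    rw [← Multiset.prod_map_mul]
    simp only [hevτ]
    simp only [sup_minor_eq] at ht
    exact ht
  have hdn : 0 ≤ (A.map fun P => S.dist v P Q).prod :=
    multiset_prod_nonneg A _ fun P _ => S.dist_nonneg v P Q
  have hCnn : 0 ≤ C₁ v * C₂ v * C₃ v * C₄ v * (C₅ v * (C₆ v * C₆ v)) ^ (N + M) :=
    ((((hC₁.mul hC₂).mul hC₃).mul hC₄).mul ((hC₅.mul (hC₆.mul hC₆)).pow _)).nonneg v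
  by_cases h0 : ∀ P ∈ A, τ P ≠ 0
  · -- the main case
    have hτP : ∀ P ∈ A, ev S.x 1 P (τ P) = 0 := by
      intro P _
      rw [ev_tsec hyW hzW]; ring
    obtain ⟨u, huW, hu0, hβ⟩ := exists_eq_mul_prod (M := M) S.hx hs0 hA τ (fun P _ => hτ P) hτP
      hcard h0
    have hall : ∀ s' ∈ A.map τ, s' ∈ W K S.x 1 := by
      intro s' hs'
      obtain ⟨P, _, rfl⟩ := Multiset.mem_map.mp hs'
      exact hτ P
    have hcard' : (A.map τ).card = N + M := by rw [Multiset.card_map, hcard]
    have hprod : (A.map fun P => S.𝔸.abv v (ev S.x 1 Q (τ P))).prod =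
        S.𝔸.abv v (ev S.x N Q s) * S.𝔸.abv v (ev S.x M Q u) := by
      have h7 := (ev_multiset_prod (x := S.x) (A.map τ) hall Q).2
      rw [hcard', hβ, ev_mul hs huW, Multiset.map_map] at h7
      rw [← map_mul, h7]
      have := map_multiset_prod (S.𝔸.abv v) (A.map (ev S.x 1 Q ∘ τ))
      rw [this, Multiset.map_map]
      rfl
    rw [hprod] at ht'
    have hu := h₂ v Q u huW
    have hg := h₃ v s hs u huW
    rw [← hβ] at hg
    have hb := h₄ v (A.map τ) hcard' hall
    rw [Multiset.map_map] at hb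
    have hτn : (A.map (S.nrm 1 v ∘ τ)).prod ≤
        (A.map fun P => (C₅ v * (C₆ v * C₆ v)) * S.w v P).prod := by
      refine multiset_prod_le A _ _ (fun P _ => S.nrm_nonneg _ _ _) fun P _ => ?_
      refine (h₅ v P (y t) hyW (z t) hzW).trans ?_
      rw [mul_assoc (C₅ v)]
      refine mul_le_mul_of_nonneg_left ?_ (hC₅.nonneg v)
      refine mul_le_mul_of_nonneg_right ?_ (S.w_pos v P).le
      exact mul_le_mul hny hnz (S.nrm_nonneg _ _ _) (hC₆.nonneg v)
    have hsplit : (A.map fun P => (C₅ v * (C₆ v * C₆ v)) * S.w v P).prod =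
        (C₅ v * (C₆ v * C₆ v)) ^ (N + M) * (A.map (S.w v)).prod := by
      rw [Multiset.prod_map_mul, Multiset.map_const', Multiset.prod_replicate, hcard]
    have hsplit2 : (A.map fun P => S.w v P * S.w v Q).prod =
        (A.map (S.w v)).prod * (S.w v Q ^ N * S.w v Q ^ M) := by
      rw [Multiset.prod_map_mul, Multiset.map_const', Multiset.prod_replicate, hcard, pow_add]
    have hwA : 0 < (A.map (S.w v)).prod := multiset_prod_pos A _ fun P _ => S.w_pos v P
    have hwQM : 0 < S.w v Q ^ M := pow_pos (S.w_pos v Q) M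
    set a := S.𝔸.abv v (ev S.x N Q s) with ha
    have ha0 : 0 ≤ a := AbsoluteValue.nonneg _ _
    have hns : 0 ≤ S.nrm N v s := S.nrm_nonneg _ _ _
    have key : (S.nrm N v s * S.w v Q ^ N * (A.map fun P => S.dist v P Q).prod) *
        ((A.map (S.w v)).prod * S.w v Q ^ M) ≤
        (C₁ v * C₂ v * C₃ v * C₄ v * (C₅ v * (C₆ v * C₆ v)) ^ (N + M) * a) *
        ((A.map (S.w v)).prod * S.w v Q ^ M) := by
      calc (S.nrm N v s * S.w v Q ^ N * (A.map fun P => S.dist v P Q).prod) *
          ((A.map (S.w v)).prod * S.w v Q ^ M)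
          = S.nrm N v s * ((A.map fun P => S.dist v P Q).prod *
              (A.map fun P => S.w v P * S.w v Q).prod) := by rw [hsplit2]; ring
        _ ≤ S.nrm N v s * (C₁ v * (a * S.𝔸.abv v (ev S.x M Q u))) :=
            mul_le_mul_of_nonneg_left ht' hns
        _ ≤ S.nrm N v s * (C₁ v * (a * (C₂ v * (S.nrm M v u * S.w v Q ^ M)))) := by
            refine mul_le_mul_of_nonneg_left ?_ hns
            refine mul_le_mul_of_nonneg_left ?_ (hC₁.nonneg v)
            exact mul_le_mul_of_nonneg_left hu ha0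
        _ = (C₁ v * C₂ v * a * S.w v Q ^ M) * (S.nrm N v s * S.nrm M v u) := by ring
        _ ≤ (C₁ v * C₂ v * a * S.w v Q ^ M) * (C₃ v * (C₄ v *
              ((C₅ v * (C₆ v * C₆ v)) ^ (N + M) * (A.map (S.w v)).prod))) := by
            refine mul_le_mul_of_nonneg_left ?_ ?_
            · refine hg.trans (mul_le_mul_of_nonneg_left ?_ (hC₃.nonneg v))
              refine hb.trans (mul_le_mul_of_nonneg_left ?_ (hC₄.nonneg v))
              rw [← hsplit]
              exact hτn
            · have := hC₁.nonneg v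
              have := hC₂.nonneg v
              positivity
        _ = _ := by ring
    exact le_of_mul_le_mul_right key (mul_pos hwA hwQM)
  · push Not at h0
    obtain ⟨P, hP, hP0⟩ := h0
    have hz : (A.map fun P => S.𝔸.abv v (ev S.x 1 Q (τ P))).prod = 0 := by
      refine Multiset.prod_eq_zero (Multiset.mem_map.mpr ⟨P, hP, ?_⟩)
      rw [hP0, ev_zero, map_zero]
    rw [hz, mul_zero] at ht'
    have h8 : (A.map fun P => S.dist v P Q).prod = 0 := by
      refine le_antisymm ?_ hdn
      by_contra hcon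
      push Not at hcon
      exact absurd ht' (not_le.mpr (mul_pos hcon hw))
    rw [h8, mul_zero]
    exact mul_nonneg hCnn (AbsoluteValue.nonneg _ _)

end HSetup

end Fermat.Agent.H17
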