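/-
H17Fibre: upper bound for x - a (project S17; statements frozen by helper17, proofs by the job owner; helper lemmas may be added)
-/
import Mathlib
import Fermat.Agent.H17Inv
import Fermat.Agent.H17Low
import Fermat.Agent.H23FibMain

set_option autoImplicit false
set_option linter.unusedSectionVars false

noncomputable section

open AlgebraicCurve WithZero Polynomial

namespace Fermat.Agent.H17

open Fermat.Agent.H3RR

namespace HSetup

variable {K F V : Type*} [Field K] [Field F] [Algebra K F] [IsAlgClosed K] [CharZero K] [IsFF K F]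
variable (S : HSetup K F V)

/-! ### L9: upper bound for `x - a` (file H17Fibre) -/

theorem fsec_of_mem {x : F} {P : Place K F} (h : x ∈ P.toValuationSubring) :
    fsec x P = x - algebraMap K F (val P x) := by
  rw [fsec, tsec, ev_one_of_mem h, ev_self_of_mem h, one_smul, Algebra.algebraMap_eq_smul_one]

theorem fsec_of_notMem {x : F} {P : Place K F} (h : x ∉ P.toValuationSubring) :
    fsec x P = -1 := by
  rw [fsec, tsec, ev_one_of_notMem h one_ne_zero, ev_self_of_notMem h, zero_smul, one_smul, zero_sub]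

theorem fsec_mem (x : F) (P : Place K F) : fsec x P ∈ W K x 1 :=
  tsec_mem (self_mem_W x) (one_mem_W x 1) P

/-- points of the fibre through `P` -/
theorem mem_fibre_iff {P : Place K F} {A : Multiset (Place K F)} (hA : IsZer S.x 1 (fsec S.x P) A)
    {P' : Place K F} (hP' : P' ∈ A) :
    (S.x ∈ P'.toValuationSubring ↔ S.x ∈ P.toValuationSubring) ∧
      (S.x ∈ P.toValuationSubring → val P' S.x = val P S.x) := by
  have h1 := (hA.mem_iff (transcendental_ne_zero S.hx) (fsec_mem S.x P) (fsec_ne_zero S.hx P) P').mp hP'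
  rw [fsec, ev_tsec (self_mem_W S.x) (one_mem_W S.x 1)] at h1
  by_cases hP : S.x ∈ P.toValuationSubring
  · rw [ev_one_of_mem hP, ev_self_of_mem hP, one_mul] at h1
    by_cases hPx : S.x ∈ P'.toValuationSubring
    · rw [ev_one_of_mem hPx, ev_self_of_mem hPx, mul_one, sub_eq_zero] at h1
      exact ⟨⟨fun _ => hP, fun _ => hPx⟩, fun _ => h1⟩
    · rw [ev_one_of_notMem hPx one_ne_zero, ev_self_of_notMem hPx, mul_zero, sub_zero] at h1
      exact absurd h1 one_ne_zero
  · rw [ev_one_of_notMem hP one_ne_zero, ev_self_of_notMem hP, zero_mul, one_mul, zero_sub,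
      neg_eq_zero] at h1
    refine ⟨⟨fun hPx => ?_, fun h => absurd h hP⟩, fun h => absurd h hP⟩
    rw [ev_one_of_mem hPx] at h1
    exact absurd h1 one_ne_zero

theorem card_fibre {P : Place K F} {A : Multiset (Place K F)} (hA : IsZer S.x 1 (fsec S.x P) A) :
    A.card = S.d := by
  rw [IsZer.card_eq S.hx (fsec_ne_zero S.hx P) hA, one_mul]; rfl

/-- product of an estimate over a multiset -/
theorem prod_map_le_pow_mul {A : Multiset (Place K F)} {f g : Place K F → ℝ} {C : ℝ} {d : ℕ}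
    (hA : A.card = d) (hf : ∀ P ∈ A, 0 ≤ f P) (h : ∀ P ∈ A, f P ≤ C * g P) :
    (A.map f).prod ≤ C ^ d * (A.map g).prod := by
  calc (A.map f).prod ≤ (A.map fun P => C * g P).prod := Multiset.prod_map_le_prod_map₀ _ _ hf h
    _ = _ := by rw [Multiset.prod_map_mul, Multiset.map_const', Multiset.prod_replicate, hA]

/-- core estimate in the affine chart -/
theorem exists_fibre_chart {R : V → ℝ} (hR : IsMC R) : ∃ C, IsMC C ∧ ∀ v (P Q : Place K F)
    (A : Multiset (Place K F)), S.x ∈ P.toValuationSubring → S.x ∈ Q.toValuationSubring →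
    S.𝔸.abv v (val P S.x) ≤ R v → S.𝔸.abv v (val Q S.x) ≤ R v → IsZer S.x 1 (fsec S.x P) A →
    S.𝔸.abv v (val Q S.x - val P S.x) ≤ C v * (A.map fun P' => S.dist v P' Q).prod := by
  classical
  obtain ⟨n, m, y, b, hy, hb, hid⟩ := H23.Fib.exists_fib_identity (K := K) (F := F) S.hx
  choose C1 hC1 hC1' using fun k => S.exists_lipschitz hR (y k) (hy k)
  choose C2 hC2 hC2' using fun kj : Fin n × Fin m => S.exists_val_le hR (b kj.1 kj.2) (hb kj.1 kj.2)
  obtain ⟨D1, hD1, hD1'⟩ := exists_isMC_forall hC1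
  obtain ⟨D2, hD2, hD2'⟩ := exists_isMC_forall hC2
  refine ⟨fun v => S.𝔸.card n v * (S.𝔸.card m v * (D2 v * R v ^ m) * D1 v ^ S.d),
    (S.𝔸.isMC_card n).mul (((S.𝔸.isMC_card m).mul (hD2.mul (hR.pow m))).mul (hD1.pow S.d)), ?_⟩
  intro v P Q A hP hQ hPR hQR hA
  have hA' : IsZer S.x 1 (S.x - algebraMap K F (val P S.x)) A := by
    rw [← fsec_of_mem hP]; exact hA
  have hmain := hid (val P S.x) A hA' Q hQ
  have hcard := S.card_fibre hA
  set pd := (A.map fun P' => S.dist v P' Q).prod with hpd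
  have hpd0 : 0 ≤ pd := Multiset.prod_nonneg fun r hr => by
    obtain ⟨P', -, rfl⟩ := Multiset.mem_map.mp hr
    exact S.dist_nonneg v P' Q
  have h1 : S.𝔸.abv v (val Q S.x - val P S.x) = S.𝔸.abv v (val P S.x - val Q S.x) :=
    (S.𝔸.abv v).map_sub _ _
  rw [h1, hmain]
  have hR1 := hR.one_le v
  have hD1n := hD1.nonneg v
  have hD2n := hD2.nonneg v
  have hcm := (S.𝔸.isMC_card m).nonneg v
  have hB : 0 ≤ S.𝔸.card m v * (D2 v * R v ^ m) * D1 v ^ S.d * pd := by
    have := hR.nonneg v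
    positivity
  have h2 := S.𝔸.abv_sum_le (Finset.univ : Finset (Fin n))
    (fun k => (∑ j ∈ Finset.range m, val Q (b k j) * val P S.x ^ j) *
      (A.map fun P' => val Q (y k) - val P' (y k)).prod) v hB ?_
  · rw [Finset.card_fin] at h2
    refine h2.trans_eq ?_
    ring
  intro k _
  rw [map_mul]
  refine (mul_le_mul (?_ : _ ≤ S.𝔸.card m v * (D2 v * R v ^ m)) (?_ : _ ≤ D1 v ^ S.d * pd)
    (AbsoluteValue.nonneg _ _) (by have := hR.nonneg v; positivity)).trans_eq (by ring)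
  · have h3 := S.𝔸.abv_sum_le (Finset.range m) (fun j => val Q (b k j) * val P S.x ^ j) v
      (B := D2 v * R v ^ m) (by have := hR.nonneg v; positivity) (fun j hj => ?_)
    · rwa [Finset.card_range] at h3
    · rw [Finset.mem_range] at hj
      rw [map_mul, map_pow]
      refine mul_le_mul ((hC2' (k, ⟨j, hj⟩) v Q hQ hQR).trans (hD2' (k, ⟨j, hj⟩) v)) ?_
        (by positivity) hD2n
      calc S.𝔸.abv v (val P S.x) ^ j ≤ R v ^ j := pow_le_pow_left₀ (AbsoluteValue.nonneg _ _) hPR _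
        _ ≤ R v ^ m := pow_le_pow_right₀ hR1 hj.le
  · rw [map_multiset_prod, Multiset.map_map]
    refine prod_map_le_pow_mul hcard (fun P' _ => AbsoluteValue.nonneg _ _) fun P' hP' => ?_
    have h4 := S.mem_fibre_iff hA hP'
    have h5 : S.x ∈ P'.toValuationSubring := h4.1.mpr hP
    have h6 : S.𝔸.abv v (val P' S.x) ≤ R v := by rw [h4.2 hP]; exact hPR
    have h7 := hC1' k v Q P' hQ h5 hQR h6
    rw [S.dist_comm v Q P'] at h7
    exact h7.trans (mul_le_mul_of_nonneg_right (hD1' k v) (S.dist_nonneg v P' Q))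

/-- two points, the first near the poles of `x` and the second far from them, are far apart -/
theorem exists_far : ∃ C, IsMC C ∧ ∀ v (P Q : Place K F),
    ¬ (S.x ∈ P.toValuationSubring ∧ S.𝔸.abv v (val P S.x) ≤ S.𝔸.card 2 v) →
    ¬ (S.x⁻¹ ∈ Q.toValuationSubring ∧ S.𝔸.abv v (val Q S.x⁻¹) ≤ S.𝔸.card 2 v) →
    1 ≤ C v * S.dist v P Q := by
  obtain ⟨C1, hC1, h1⟩ := S.exists_minor_le
  obtain ⟨C2, hC2, h2⟩ := S.exists_w_le
  obtain ⟨C3, hC3, h3⟩ := S.exists_nrm_le 1 S.x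
  obtain ⟨C4, hC4, h4⟩ := S.exists_nrm_le 1 1
  refine ⟨fun v => S.𝔸.card 2 v * C1 v * (C3 v * C4 v) * (C2 v * C2 v), ((((S.𝔸.isMC_card 2).mul
    hC1).mul (hC3.mul hC4)).mul (hC2.mul hC2)), ?_⟩
  intro v P Q hP hQ
  set t := S.𝔸.card 2 v with ht
  have ht1 : 1 ≤ t := (S.𝔸.isMC_card 2).one_le v
  have hC1n := hC1.nonneg v
  have hC2n := hC2.nonneg v
  have hC3n := hC3.nonneg v
  have hC4n := hC4.nonneg v
  -- `Q` is affine and `t * |x(Q)| < 1`
  have hQx : S.x ∈ Q.toValuationSubring := by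
    by_contra h
    exact hQ ⟨inv_mem_of_notMem Q h, by
      rw [val_inv_of_notMem Q h, map_zero]; exact zero_le_one.trans ht1⟩
  have hQt : t * S.𝔸.abv v (val Q S.x) < 1 := by
    by_cases h0 : val Q S.x = 0
    · rw [h0, map_zero, mul_zero]; exact zero_lt_one
    · obtain ⟨hi, hv⟩ := val_inv Q hQx h0
      have h5 : ¬ S.𝔸.abv v (val Q S.x⁻¹) ≤ t := fun h => hQ ⟨hi, h⟩
      rw [hv, map_inv₀, not_le] at h5
      have h6 : 0 < S.𝔸.abv v (val Q S.x) := (S.𝔸.abv v).pos h0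
      have := mul_lt_mul_of_pos_right h5 h6
      rwa [inv_mul_cancel₀ h6.ne'] at this
  have hwQ : S.w v Q ≤ C2 v := by
    have h5 := h2 v Q
    rw [ev_one_of_mem hQx, ev_self_of_mem hQx, map_one] at h5
    have h6 : S.𝔸.abv v (val Q S.x) ≤ 1 := by
      have := AbsoluteValue.nonneg (S.𝔸.abv v) (val Q S.x)
      nlinarith
    rw [max_eq_left h6, mul_one] at h5
    exact h5
  -- it suffices to bound the size of `P` by the minor
  have key : ∀ M : ℝ, 1 ≤ M → S.w v P ≤ C2 v * M → M ≤ t * S.𝔸.abv v (ev S.x 1 P 1 * ev S.x 1 Q S.x -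
      ev S.x 1 P S.x * ev S.x 1 Q 1) → 1 ≤ t * C1 v * (C3 v * C4 v) * (C2 v * C2 v) * S.dist v P Q := by
    intro M hM hw hmin
    have h5 := h1 v P Q S.x (self_mem_W S.x) 1 (one_mem_W S.x 1)
    have h6 : M * 1 ≤ M * (t * C1 v * (C3 v * C4 v) * (C2 v * C2 v) * S.dist v P Q) := by
      have hd := S.dist_nonneg v P Q
      have hw0 := (S.w_pos v P).le
      have hwQ0 := (S.w_pos v Q).le
      calc M * 1 = M := mul_one M
        _ ≤ t * (C1 v * (S.nrm 1 v S.x * S.nrm 1 v 1 * (S.w v P * S.w v Q * S.dist v P Q))) :=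
          hmin.trans (mul_le_mul_of_nonneg_left h5 (by linarith))
        _ ≤ t * (C1 v * (C3 v * C4 v * (C2 v * M * C2 v * S.dist v P Q))) := by
          gcongr
          · exact S.nrm_nonneg 1 v 1
          · exact h3 v
          · exact h4 v
        _ = _ := by ring
    exact le_of_mul_le_mul_left h6 (by linarith)
  by_cases hPx : S.x ∈ P.toValuationSubring
  · have hPt : t < S.𝔸.abv v (val P S.x) := by
      rw [← not_le]; exact fun h => hP ⟨hPx, h⟩
    refine key (S.𝔸.abv v (val P S.x)) (ht1.trans hPt.le) ?_ ?_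
    · have h5 := h2 v P
      rwa [ev_one_of_mem hPx, ev_self_of_mem hPx, map_one, max_eq_right (ht1.trans hPt.le)] at h5
    · rw [ev_one_of_mem hPx, ev_self_of_mem hPx, ev_one_of_mem hQx, ev_self_of_mem hQx, one_mul,
        mul_one]
      by_cases hv : v ∈ S.𝔸.arch
      · have ht2 : t = 2 := by rw [ht, AbsFam.card, if_pos hv]; norm_num
        have h5 := (S.𝔸.abv v).le_sub (val P S.x) (val Q S.x)
        rw [(S.𝔸.abv v).map_sub] at h5
        rw [ht2] at hPt hQt ⊢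
        linarith
      · have ht2 : t = 1 := by rw [ht, AbsFam.card, if_neg hv]
        rw [ht2] at hPt hQt ⊢
        rw [one_mul] at hQt ⊢
        have h5 := S.𝔸.nonarch v hv (val Q S.x) (val P S.x - val Q S.x)
        rw [add_sub_cancel, (S.𝔸.abv v).map_sub] at h5
        rcases le_max_iff.mp h5 with h6 | h6
        · linarith
        · exact h6
  · refine key 1 le_rfl ?_ ?_
    · have h5 := h2 v P
      rwa [ev_one_of_notMem hPx one_ne_zero, ev_self_of_notMem hPx, map_one, map_zero,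
        max_eq_right zero_le_one] at h5
    · rw [ev_one_of_notMem hPx one_ne_zero, ev_self_of_notMem hPx, ev_one_of_mem hQx, zero_mul,
        one_mul, zero_sub, (S.𝔸.abv v).map_neg, map_one, mul_one]
      exact ht1

theorem val_ne_zero_of_inv_mem {x : F} (hx0 : x ≠ 0) {P : Place K F} (hP : x ∈ P.toValuationSubring)
    (hi : x⁻¹ ∈ P.toValuationSubring) : val P x ≠ 0 := by
  intro h
  have h1 := val_mul P hP hi
  rw [mul_inv_cancel₀ hx0, val_one, h, zero_mul] at h1
  exact one_ne_zero h1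

theorem exists_fibre_upper : ∃ C, IsMC C ∧ ∀ (P : Place K F) (A : Multiset (Place K F)),
    IsZer S.x 1 (fsec S.x P) A → ∀ v (Q : Place K F),
    S.𝔸.abv v (ev S.x 1 Q (fsec S.x P)) ≤
      C v * (S.w v P * S.w v Q * (A.map fun P' => S.dist v P' Q).prod) := by
  have hx0 : S.x ≠ 0 := transcendental_ne_zero S.hx
  obtain ⟨S', hx', hA', -, -, hdist', hzer', hev'⟩ := S.exists_inv
  obtain ⟨Ca, hCa, ha⟩ := S.exists_fibre_chart (S.𝔸.isMC_card 2)
  obtain ⟨Cb, hCb, hb⟩ := S'.exists_fibre_chart (S.𝔸.isMC_card 2)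
  obtain ⟨Cw, hCw, hw⟩ := S.exists_w_le_of_le (S.𝔸.isMC_card 2)
  obtain ⟨Cw', hCw', hw'⟩ := S'.exists_w_le_of_le (S.𝔸.isMC_card 2)
  obtain ⟨Cx, hCx, hx⟩ := S.exists_le_w
  obtain ⟨Cf, hCf, hf⟩ := S.exists_far
  obtain ⟨Ce, hCe, he⟩ := S.exists_ev_le 1
  obtain ⟨Ct, hCt, ht⟩ := S.exists_nrm_tsec_le
  obtain ⟨C3, hC3, h3⟩ := S.exists_nrm_le 1 S.x
  obtain ⟨C4, hC4, h4⟩ := S.exists_nrm_le 1 1
  rw [hA', hx'] at hb hw'
  refine ⟨fun v => max (Ca v * (Cw v * Cw v)) (max (Cb v * (Cx v * Cw' v))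
    (Ce v * (Ct v * (C3 v * C4 v)) * Cf v ^ S.d)), (hCa.mul (hCw.mul hCw)).max
    ((hCb.mul (hCx.mul hCw')).max ((hCe.mul (hCt.mul (hC3.mul hC4))).mul (hCf.pow S.d))), ?_⟩
  intro P A hA v Q
  set pd := (A.map fun P' => S.dist v P' Q).prod with hpd
  have hpd0 : 0 ≤ pd := Multiset.prod_nonneg fun r hr => by
    obtain ⟨P', -, rfl⟩ := Multiset.mem_map.mp hr
    exact S.dist_nonneg v P' Q
  have hwP := S.w_pos v P
  have hwQ := S.w_pos v Q
  have hbase : 0 ≤ S.w v P * S.w v Q * pd := by positivity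
  have hcard := S.card_fibre hA
  set t := S.𝔸.card 2 v with htt
  have ht1 : 1 ≤ t := (S.𝔸.isMC_card 2).one_le v
  have hCan := hCa.nonneg v
  have hCbn := hCb.nonneg v
  have hCwn := hCw.nonneg v
  have hCwn' := hCw'.nonneg v
  have hCxn := hCx.nonneg v
  have hCfn := hCf.nonneg v
  have hCen := hCe.nonneg v
  have hCtn := hCt.nonneg v
  have hC3n := hC3.nonneg v
  have hC4n := hC4.nonneg v
  by_cases h1 : (S.x ∈ P.toValuationSubring ∧ S.𝔸.abv v (val P S.x) ≤ t) ∧
    (S.x ∈ Q.toValuationSubring ∧ S.𝔸.abv v (val Q S.x) ≤ t)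
  · -- both points in the affine chart
    obtain ⟨⟨hP, hPt⟩, hQ, hQt⟩ := h1
    refine le_trans ?_ (mul_le_mul_of_nonneg_right (le_max_left _ _) hbase)
    have h5 := ha v P Q A hP hQ hPt hQt hA
    rw [← hpd] at h5
    have h6 : ev S.x 1 Q (fsec S.x P) = val Q S.x - val P S.x := by
      rw [ev_of_mem hQ, fsec_of_mem hP, val_sub Q hQ (Q.algebraMap_mem' _), val_algebraMap]
    rw [h6]
    have h7 := (hw v P hP hPt).2
    have h8 := (hw v Q hQ hQt).2
    have h9 : (1 : ℝ) ≤ (Cw v * S.w v P) * (Cw v * S.w v Q) := one_le_mul_of_one_le_of_one_le h7 h8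
    calc _ ≤ Ca v * pd := h5
      _ ≤ Ca v * pd * ((Cw v * S.w v P) * (Cw v * S.w v Q)) :=
        le_mul_of_one_le_right (by positivity) h9
      _ = _ := by ring
  by_cases h2 : (S.x⁻¹ ∈ P.toValuationSubring ∧ S.𝔸.abv v (val P S.x⁻¹) ≤ t) ∧
    (S.x⁻¹ ∈ Q.toValuationSubring ∧ S.𝔸.abv v (val Q S.x⁻¹) ≤ t)
  · -- both points in the other chart
    obtain ⟨⟨hP, hPt⟩, hQ, hQt⟩ := h2
    refine le_trans ?_ (mul_le_mul_of_nonneg_right ((le_max_left _ _).trans (le_max_right _ _)) hbase)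
    obtain ⟨hc0, hc⟩ : ev S.x 1 P S.x ≠ 0 ∧
        fsec S.x P * S.x⁻¹ ^ 1 = (-ev S.x 1 P S.x) • fsec S'.x P := by
      rw [hx', pow_one]
      by_cases hPx : S.x ∈ P.toValuationSubring
      · have h0 := val_ne_zero_of_inv_mem hx0 hPx hP
        refine ⟨by rw [ev_self_of_mem hPx]; exact h0, ?_⟩
        have h0' : algebraMap K F (val P S.x) ≠ 0 := by
          rw [ne_eq, map_eq_zero]; exact h0
        rw [ev_self_of_mem hPx, fsec_of_mem hPx, fsec_of_mem hP, (val_inv P hPx h0).2,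
          Algebra.smul_def, map_neg, map_inv₀]
        field_simp
        ring
      · refine ⟨by rw [ev_self_of_notMem hPx]; exact one_ne_zero, ?_⟩
        rw [ev_self_of_notMem hPx, fsec_of_notMem hPx, fsec_of_mem hP, val_inv_of_notMem P hPx,
          map_zero, sub_zero, neg_smul, one_smul, neg_mul, one_mul]
    have hz : IsZer S.x⁻¹ 1 (fsec S.x⁻¹ P) A := by
      have h5 := (hzer' 1 (fsec S.x P) A).mpr hA
      rw [hc] at h5
      have h6 := IsZer.smul (smul_ne_zero (neg_ne_zero.mpr hc0) (fsec_ne_zero S'.hx P))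
        (inv_ne_zero (neg_ne_zero.mpr hc0)) h5
      rw [smul_smul, inv_mul_cancel₀ (neg_ne_zero.mpr hc0), one_smul, hx'] at h6
      exact h6
    have h5 := hb v P Q A hP hQ hPt hQt hz
    have h5' : (A.map fun P' => S'.dist v P' Q).prod = pd := by
      rw [hpd]; exact congrArg Multiset.prod (Multiset.map_congr rfl fun P' _ => hdist' v P' Q)
    rw [h5'] at h5
    have h6 := hev' 1 v Q (fsec S.x P) (fsec_mem S.x P)
    rw [hc, ev_smul (fsec_mem S'.x P), pow_one, pow_one, map_mul, (S.𝔸.abv v).map_neg, hx',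
      ev_of_mem hQ, fsec_of_mem hP, val_sub Q hQ (Q.algebraMap_mem' _), val_algebraMap] at h6
    have h7 := (hw' v Q hQ hQt).2
    have h8 : S.𝔸.abv v (ev S.x 1 P S.x) ≤ Cx v * S.w v P := (le_max_right _ _).trans (hx v P)
    have hn : 0 ≤ S.𝔸.abv v (ev S.x 1 Q (fsec S.x P)) := AbsoluteValue.nonneg _ _
    calc _ ≤ S.𝔸.abv v (ev S.x 1 Q (fsec S.x P)) * (Cw' v * S'.w v Q) := le_mul_of_one_le_right hn h7
      _ = Cw' v * (S.𝔸.abv v (ev S.x 1 Q (fsec S.x P)) * S'.w v Q) := by ring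
      _ = Cw' v * (S.𝔸.abv v (ev S.x 1 P S.x) * S.𝔸.abv v (val Q S.x⁻¹ - val P S.x⁻¹) * S.w v Q) := by
        rw [← h6]
      _ ≤ Cw' v * ((Cx v * S.w v P) * (Cb v * pd) * S.w v Q) := by gcongr
      _ = _ := by ring
  -- the points are far apart
  refine le_trans ?_ (mul_le_mul_of_nonneg_right ((le_max_right _ _).trans (le_max_right _ _)) hbase)
  have hsl : ∀ P : Place K F, ¬ (S.x ∈ P.toValuationSubring ∧ S.𝔸.abv v (val P S.x) ≤ t) →
      (S.x⁻¹ ∈ P.toValuationSubring ∧ S.𝔸.abv v (val P S.x⁻¹) ≤ t) := by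
    intro P hP
    by_cases hPx : S.x ∈ P.toValuationSubring
    · have h5 : t < S.𝔸.abv v (val P S.x) := by rw [← not_le]; exact fun h => hP ⟨hPx, h⟩
      have h6 : val P S.x ≠ 0 := by
        intro h; rw [h, map_zero] at h5; linarith
      obtain ⟨hi, hv⟩ := val_inv P hPx h6
      refine ⟨hi, ?_⟩
      rw [hv, map_inv₀]
      exact (inv_le_one_of_one_le₀ (by linarith)).trans ht1
    · exact ⟨inv_mem_of_notMem P hPx, by rw [val_inv_of_notMem P hPx, map_zero]; linarith⟩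
  have hfar : ∀ P' ∈ A, 1 ≤ Cf v * S.dist v P' Q := by
    intro P' hP'
    obtain ⟨hm, hm'⟩ := S.mem_fibre_iff hA hP'
    by_cases hP : S.x ∈ P.toValuationSubring ∧ S.𝔸.abv v (val P S.x) ≤ t
    · have hQ : ¬ (S.x ∈ Q.toValuationSubring ∧ S.𝔸.abv v (val Q S.x) ≤ t) := fun h => h1 ⟨hP, h⟩
      have hQ' := hsl Q hQ
      have hP'' : ¬ (S.x⁻¹ ∈ P'.toValuationSubring ∧ S.𝔸.abv v (val P' S.x⁻¹) ≤ t) := by
        rintro ⟨h5, h6⟩
        apply h2
        refine ⟨?_, hQ'⟩
        have h7 : S.x ∈ P'.toValuationSubring := hm.mpr hP.1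
        have h8 := val_ne_zero_of_inv_mem hx0 h7 h5
        have h9 := hm' hP.1
        rw [h9] at h8
        obtain ⟨hi, hv⟩ := val_inv P hP.1 h8
        refine ⟨hi, ?_⟩
        rw [(val_inv P' h7 (by rw [h9]; exact h8)).2, h9] at h6
        rw [hv]; exact h6
      rw [S.dist_comm]
      exact hf v Q P' hQ hP''
    · have hP2 := hsl P hP
      have hQ : ¬ (S.x⁻¹ ∈ Q.toValuationSubring ∧ S.𝔸.abv v (val Q S.x⁻¹) ≤ t) := fun h => h2 ⟨hP2, h⟩
      refine hf v P' Q (fun h => hP ?_) hQ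
      have h5 := hm.mp h.1
      exact ⟨h5, by rw [← hm' h5]; exact h.2⟩
  have hone : 1 ≤ Cf v ^ S.d * pd := by
    have := prod_map_le_pow_mul (A := A) (f := fun _ => (1 : ℝ)) (g := fun P' => S.dist v P' Q)
      (C := Cf v) hcard (fun _ _ => zero_le_one) hfar
    simpa using this
  have h5 := he v Q (fsec S.x P) (fsec_mem S.x P)
  have h6 := ht v P S.x (self_mem_W S.x) 1 (one_mem_W S.x 1)
  calc _ ≤ Ce v * (S.nrm 1 v (fsec S.x P) * S.w v Q ^ 1) := h5
    _ ≤ Ce v * ((Ct v * (C3 v * C4 v * S.w v P)) * S.w v Q ^ 1) := by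
      gcongr
      refine h6.trans ?_
      gcongr
      · exact S.nrm_nonneg 1 v 1
      · exact h3 v
      · exact h4 v
    _ ≤ Ce v * ((Ct v * (C3 v * C4 v * S.w v P)) * S.w v Q ^ 1) * (Cf v ^ S.d * pd) :=
      le_mul_of_one_le_right (by positivity) hone
    _ = _ := by ring

end HSetup

end Fermat.Agent.H17
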