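/-
H17Up: upper bound for values of sections (project S17; statements frozen by helper17, proofs by the job owner; helper lemmas may be added)
-/
import Mathlib
import Fermat.Agent.H17Fibre

set_option autoImplicit false

noncomputable section

open AlgebraicCurve WithZero Polynomial Filter Topology

namespace Fermat.Agent.H17

open Fermat.Agent.H3RR

section Mult

variable {K F : Type*} [Field K] [Field F] [Algebra K F] [IsAlgClosed K] [IsFF K F]

theorem ev_mprod_up {x : F} (A : Multiset F) (hA : ∀ s ∈ A, s ∈ W K x 1) (Q : Place K F) :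
    ev x A.card Q A.prod = (A.map (ev x 1 Q)).prod := by
  induction A using Multiset.induction_on with
  | empty =>
    rw [Multiset.prod_zero, Multiset.card_zero, Multiset.map_zero, Multiset.prod_zero, ev, pow_zero,
      mul_one, val_one]
  | cons s A ih =>
    have h1 : ∀ s ∈ A, s ∈ W K x 1 := fun t ht => hA t (Multiset.mem_cons_of_mem ht)
    have h2 := hA s (Multiset.mem_cons_self s A)
    rw [Multiset.prod_cons, Multiset.card_cons, Multiset.map_cons, Multiset.prod_cons, ← ih h1,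
      add_comm, ev_mul h2 ?_]
    clear ih
    induction A using Multiset.induction_on with
    | empty => exact one_mem_W x 0
    | cons t A ih2 =>
      rw [Multiset.prod_cons, Multiset.card_cons, add_comm]
      exact mul_mem_W (h1 t (Multiset.mem_cons_self t A)) (ih2 (fun r hr => hA r (by
        rcases Multiset.mem_cons.mp hr with rfl | hr
        · exact Multiset.mem_cons_self _ _
        · exact Multiset.mem_cons_of_mem (Multiset.mem_cons_of_mem hr)))
        (fun r hr => h1 r (Multiset.mem_cons_of_mem hr)))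

omit [IsAlgClosed K] [IsFF K F] in
theorem mprod_mem_W_up {x : F} (A : Multiset F) (hA : ∀ s ∈ A, s ∈ W K x 1) :
    A.prod ∈ W K x A.card := by
  induction A using Multiset.induction_on with
  | empty => exact one_mem_W x 0
  | cons t A ih2 =>
    rw [Multiset.prod_cons, Multiset.card_cons, add_comm]
    exact mul_mem_W (hA t (Multiset.mem_cons_self t A))
      (ih2 (fun r hr => hA r (Multiset.mem_cons_of_mem hr)))

/-- zero multiset of a product -/
theorem IsZer.mprod_up {x : F} (hx : Transcendental K x) (A : Multiset (Place K F))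
    (t : Place K F → F) (Z : Place K F → Multiset (Place K F)) (h0 : ∀ P ∈ A, t P ≠ 0)
    (hZ : ∀ P ∈ A, IsZer x 1 (t P) (Z P)) :
    IsZer x A.card (A.map t).prod (A.map Z).sum := by
  induction A using Multiset.induction_on with
  | empty =>
    rw [Multiset.map_zero, Multiset.prod_zero, Multiset.card_zero, Multiset.map_zero,
      Multiset.sum_zero]
    intro v
    simp
  | cons P A ih =>
    have h1 : (A.map t).prod ≠ 0 := by
      apply Multiset.prod_ne_zero
      intro h
      obtain ⟨Q, hQ, hQ0⟩ := Multiset.mem_map.mp h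
      exact h0 Q (Multiset.mem_cons_of_mem hQ) hQ0
    rw [Multiset.map_cons, Multiset.prod_cons, Multiset.card_cons, Multiset.map_cons,
      Multiset.sum_cons, add_comm A.card]
    exact IsZer.mul hx (h0 P (Multiset.mem_cons_self _ _)) h1 (hZ P (Multiset.mem_cons_self _ _))
      (ih (fun Q hQ => h0 Q (Multiset.mem_cons_of_mem hQ))
        (fun Q hQ => hZ Q (Multiset.mem_cons_of_mem hQ)))

end Mult

namespace HSetup

variable {K F V : Type*} [Field K] [Field F] [Algebra K F] [IsAlgClosed K] [CharZero K] [IsFF K F]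
variable (S : HSetup K F V)

/-- iterated Gauss lemma -/
theorem exists_gauss_mprod (n : ℕ) : ∃ C, IsMC C ∧ ∀ v (A : Multiset F), A.card = n →
    (∀ s ∈ A, s ∈ W K S.x 1) → (A.map (S.nrm 1 v)).prod ≤ C v * S.nrm n v A.prod := by
  induction n with
  | zero =>
    obtain ⟨C, hC, h⟩ := S.exists_le_nrm (one_mem_W (K := K) S.x 0) one_ne_zero
    refine ⟨C, hC, fun v A hA _ => ?_⟩
    obtain rfl := Multiset.card_eq_zero.mp hA
    rw [Multiset.map_zero, Multiset.prod_zero, Multiset.prod_zero]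
    exact h v
  | succ n ih =>
    obtain ⟨C, hC, h⟩ := ih
    obtain ⟨C', hC', h'⟩ := S.exists_gauss 1 n
    refine ⟨fun v => C v * C' v, hC.mul hC', fun v A hA hAW => ?_⟩
    obtain ⟨s, hs⟩ := Multiset.card_pos_iff_exists_mem.mp (by rw [hA]; omega : 0 < A.card)
    obtain ⟨A', rfl⟩ := Multiset.exists_cons_of_mem hs
    have hA' : A'.card = n := by rw [Multiset.card_cons] at hA; omega
    have h1 : ∀ s ∈ A', s ∈ W K S.x 1 := fun t ht => hAW t (Multiset.mem_cons_of_mem ht)
    have h2 := hAW s (Multiset.mem_cons_self s A')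
    have h3 : A'.prod ∈ W K S.x n := hA' ▸ mprod_mem_W_up A' h1
    have h4 := h v A' hA' h1
    have h5 := h' v s h2 A'.prod h3
    rw [Multiset.map_cons, Multiset.prod_cons, Multiset.prod_cons, add_comm n 1]
    calc S.nrm 1 v s * (A'.map (S.nrm 1 v)).prod
        ≤ S.nrm 1 v s * (C v * S.nrm n v A'.prod) :=
          mul_le_mul_of_nonneg_left h4 (S.nrm_nonneg 1 v s)
      _ = C v * (S.nrm 1 v s * S.nrm n v A'.prod) := by ring
      _ ≤ C v * (C' v * S.nrm (1 + n) v (s * A'.prod)) :=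
          mul_le_mul_of_nonneg_left h5 (hC.nonneg v)
      _ = _ := by ring

/-- lower bound for the norm of `fsec P` -/
theorem exists_w_le_nrm_fsec_up : ∃ C, IsMC C ∧ ∀ v (P : Place K F),
    S.w v P ≤ C v * S.nrm 1 v (fsec S.x P) := by
  obtain ⟨C, hC, h⟩ := S.exists_w_le
  obtain ⟨C', hC', h'⟩ := S.exists_ev_le 1
  obtain ⟨Q0, hQ0⟩ := exists_place_lt_one (K := K) (F := F) S.hx
  obtain ⟨Q1, hQ1⟩ := exists_place_lt_one (K := K) (F := F) (transcendental_inv (K := K) S.hx)
  have hx0 : S.x ≠ 0 := transcendental_ne_zero S.hx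
  have hQ0m : S.x ∈ Q0.toValuationSubring := mem_of_adicValuation_le_one Q0 hQ0.le
  have hQ1m : S.x ∉ Q1.toValuationSubring := by
    intro hmem
    have h1 := Q1.adicValuation_le_one_of_mem hmem
    rw [map_inv₀] at hQ1
    have h2 : Q1.adicValuation S.x ≠ 0 := Q1.adicValuation_ne_zero hx0
    have h3 := (inv_lt_one₀ (zero_lt_iff.mpr h2)).mp hQ1
    exact absurd h1 (not_le.mpr h3)
  have hv0 : val Q0 S.x = 0 := val_eq Q0 (by rwa [map_zero, sub_zero])
  have e1 : ∀ P : Place K F, ev S.x 1 Q0 (fsec S.x P) = - ev S.x 1 P S.x := by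
    intro P
    rw [fsec, ev_tsec (self_mem_W S.x) (one_mem_W S.x 1), ev_self_of_mem hQ0m, hv0,
      ev_one_of_mem hQ0m]
    ring
  have e2 : ∀ P : Place K F, ev S.x 1 Q1 (fsec S.x P) = ev S.x 1 P 1 := by
    intro P
    rw [fsec, ev_tsec (self_mem_W S.x) (one_mem_W S.x 1), ev_self_of_notMem hQ1m,
      ev_one_of_notMem hQ1m one_ne_zero]
    ring
  let D : V → ℝ := fun v => max 1 (max (S.w v Q0) (S.w v Q1))
  have hD : IsMC D := by
    refine ⟨fun v => le_max_left _ _, ((S.finite_w_ne_one Q0).union (S.finite_w_ne_one Q1)).subset ?_⟩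
    intro v hv
    by_contra hcon
    rw [Set.mem_union, not_or] at hcon
    have h1 : S.w v Q0 = 1 := by
      by_contra h; exact hcon.1 h
    have h2 : S.w v Q1 = 1 := by
      by_contra h; exact hcon.2 h
    apply hv
    show max 1 (max (S.w v Q0) (S.w v Q1)) = 1
    rw [h1, h2, max_self, max_self]
  refine ⟨fun v => C v * (C' v * D v), hC.mul (hC'.mul hD), fun v P => ?_⟩
  have hmem : fsec S.x P ∈ W K S.x 1 := tsec_mem (self_mem_W S.x) (one_mem_W S.x 1) P
  have h1 := h' v Q0 _ hmem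
  have h2 := h' v Q1 _ hmem
  rw [e1, AbsoluteValue.map_neg, pow_one] at h1
  rw [e2, pow_one] at h2
  have hn := S.nrm_nonneg 1 v (fsec S.x P)
  have h3 : max (S.𝔸.abv v (ev S.x 1 P 1)) (S.𝔸.abv v (ev S.x 1 P S.x)) ≤
      C' v * D v * S.nrm 1 v (fsec S.x P) := by
    apply max_le
    · refine h2.trans ?_
      rw [mul_assoc]
      apply mul_le_mul_of_nonneg_left _ (hC'.nonneg v)
      rw [mul_comm]
      exact mul_le_mul_of_nonneg_right ((le_max_right _ _).trans (le_max_right _ _)) hn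
    · refine h1.trans ?_
      rw [mul_assoc]
      apply mul_le_mul_of_nonneg_left _ (hC'.nonneg v)
      rw [mul_comm]
      exact mul_le_mul_of_nonneg_right ((le_max_left _ _).trans (le_max_right _ _)) hn
  calc S.w v P ≤ C v * _ := h v P
    _ ≤ C v * (C' v * D v * S.nrm 1 v (fsec S.x P)) := mul_le_mul_of_nonneg_left h3 (hC.nonneg v)
    _ = _ := by ring

omit [CharZero K] in
/-- the complementary factor of a section in the product of the fibre sections through its zeros -/
theorem exists_cofactor_up {N : ℕ} {s : F} (hs0 : s ≠ 0) {A : Multiset (Place K F)}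
    (hA : IsZer S.x N s A) : ∃ u ∈ W K S.x (N * S.d - N), u ≠ 0 ∧
      (A.map (fsec S.x)).prod = s * u := by
  have hcard := hA.card_eq S.hx hs0
  have hfd : FiniteDimensional (IntermediateField.adjoin K {S.x}) F := IsFF.finiteDimensional S.hx
  have hd : 0 < Module.finrank (IntermediateField.adjoin K {S.x}) F := Module.finrank_pos
  refine exists_eq_mul_prod S.hx hs0 hA (fsec S.x)
    (fun P _ => tsec_mem (self_mem_W S.x) (one_mem_W S.x 1) P) (fun P _ => ?_) ?_
    (fun P _ => fsec_ne_zero S.hx P)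
  · rw [fsec, ev_tsec (self_mem_W S.x) (one_mem_W S.x 1)]
    ring
  · rw [hcard]
    have : N ≤ N * Module.finrank (IntermediateField.adjoin K {S.x}) F :=
      Nat.le_mul_of_pos_right N hd
    show _ = N + (N * Module.finrank (IntermediateField.adjoin K {S.x}) F - N)
    omega

/-- the estimate at the points where the cofactor does not vanish -/
theorem exists_upper_of_ne (N : ℕ) : ∃ C, IsMC C ∧ ∀ (s : F) (A : Multiset (Place K F)),
    s ∈ W K S.x N → s ≠ 0 → IsZer S.x N s A → ∃ u : F, u ≠ 0 ∧ u ∈ W K S.x (N * S.d - N) ∧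
    ∀ v (Q : Place K F), ev S.x (N * S.d - N) Q u ≠ 0 →
    S.𝔸.abv v (ev S.x N Q s) ≤
      C v * (S.nrm N v s * S.w v Q ^ N * (A.map fun P => S.dist v P Q).prod) := by
  classical
  obtain ⟨C1, hC1, h1⟩ := S.exists_fibre_upper
  obtain ⟨C2, hC2, h2⟩ := S.exists_gauss_mprod (N * S.d)
  obtain ⟨C3, hC3, h3⟩ := S.exists_nrm_mul_le N (N * S.d - N)
  obtain ⟨C4, hC4, h4⟩ := S.exists_w_le_nrm_fsec_up
  obtain ⟨C5, hC5, h5⟩ := S.exists_lower (N * S.d - N)
  refine ⟨fun v => C1 v ^ (N * S.d) * (C4 v ^ (N * S.d) * (C2 v * (C3 v * C5 v))),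
    (hC1.pow _).mul ((hC4.pow _).mul (hC2.mul (hC3.mul hC5))), fun s A hs hs0 hA => ?_⟩
  obtain ⟨u, hu, hu0, hprod⟩ := S.exists_cofactor_up hs0 hA
  refine ⟨u, hu0, hu, fun v Q hQ => ?_⟩
  have hcard : A.card = N * S.d := hA.card_eq S.hx hs0
  have hle : N ≤ N * S.d := by
    have hfd : FiniteDimensional (IntermediateField.adjoin K {S.x}) F := IsFF.finiteDimensional S.hx
    exact Nat.le_mul_of_pos_right N Module.finrank_pos
  have hNM : N + (N * S.d - N) = N * S.d := by omega
  -- fibres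
  have hfz : ∀ P : Place K F, ∃ Z, IsZer S.x 1 (fsec S.x P) Z := fun P =>
    exists_isZer S.hx (tsec_mem (self_mem_W S.x) (one_mem_W S.x 1) P) (fsec_ne_zero S.hx P)
  choose Z hZ using hfz
  obtain ⟨B, hB⟩ := exists_isZer S.hx hu hu0
  have hZsum : (A.map Z).sum = A + B := by
    have e1 : IsZer S.x A.card (A.map (fsec S.x)).prod (A.map Z).sum :=
      IsZer.mprod_up S.hx A (fsec S.x) Z (fun P _ => fsec_ne_zero S.hx P) (fun P _ => hZ P)
    have e2 : IsZer S.x (N + (N * S.d - N)) (s * u) (A + B) := IsZer.mul S.hx hs0 hu0 hA hB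
    rw [hNM, ← hprod, ← hcard] at e2
    exact IsZer.unique e1 e2
  -- the product of the fibre estimates
  have hev : (A.map fun P => S.𝔸.abv v (ev S.x 1 Q (fsec S.x P))).prod =
      S.𝔸.abv v (ev S.x N Q s) * S.𝔸.abv v (ev S.x (N * S.d - N) Q u) := by
    have e1 := ev_mprod_up (A.map (fsec S.x)) (fun t ht => by
      obtain ⟨P, _, rfl⟩ := Multiset.mem_map.mp ht
      exact tsec_mem (self_mem_W S.x) (one_mem_W S.x 1) P) Q
    rw [Multiset.card_map, hprod, hcard, Multiset.map_map, ← hNM, ev_mul hs hu] at e1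
    rw [← map_mul, e1, map_multiset_prod, Multiset.map_map]
    rfl
  have hup : (A.map fun P => S.𝔸.abv v (ev S.x 1 Q (fsec S.x P))).prod ≤
      (A.map fun P => C1 v * (S.w v P * S.w v Q * ((Z P).map fun P' => S.dist v P' Q).prod)).prod :=
    Multiset.prod_map_le_prod_map₀ _ _ (fun P _ => (S.𝔸.abv v).nonneg _)
      (fun P _ => h1 P (Z P) (hZ P) v Q)
  have hsplit : (A.map fun P =>
      C1 v * (S.w v P * S.w v Q * ((Z P).map fun P' => S.dist v P' Q).prod)).prod =
      C1 v ^ (N * S.d) * ((A.map (S.w v)).prod * S.w v Q ^ (N * S.d) *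
        ((A.map fun P => S.dist v P Q).prod * (B.map fun P => S.dist v P Q).prod)) := by
    rw [Multiset.prod_map_mul, Multiset.prod_map_mul, Multiset.prod_map_mul, Multiset.map_const',
      Multiset.prod_replicate, Multiset.map_const', Multiset.prod_replicate, hcard]
    have e1 : (A.map fun P => ((Z P).map fun P' => S.dist v P' Q).prod).prod =
        ((A.map Z).sum.map fun P' => S.dist v P' Q).prod := by
      clear hZsum hup hev hcard hprod hA
      induction A using Multiset.induction_on with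
      | empty => simp
      | cons P A ih =>
        rw [Multiset.map_cons, Multiset.prod_cons, ih, Multiset.map_cons, Multiset.sum_cons,
          Multiset.map_add, Multiset.prod_add]
    rw [e1, hZsum, Multiset.map_add, Multiset.prod_add]
  have hw : (A.map (S.w v)).prod ≤ C4 v ^ (N * S.d) * (C2 v * (C3 v *
      (S.nrm N v s * S.nrm (N * S.d - N) v u))) := by
    have e1 : (A.map (S.w v)).prod ≤ (A.map fun P => C4 v * S.nrm 1 v (fsec S.x P)).prod :=
      Multiset.prod_map_le_prod_map₀ _ _ (fun P _ => (S.w_pos v P).le) (fun P _ => h4 v P)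
    rw [Multiset.prod_map_mul, Multiset.map_const', Multiset.prod_replicate, hcard] at e1
    refine e1.trans (mul_le_mul_of_nonneg_left ?_ ((hC4.pow _).nonneg v))
    have e2 := h2 v (A.map (fsec S.x)) (by rw [Multiset.card_map, hcard]) (fun t ht => by
      obtain ⟨P, _, rfl⟩ := Multiset.mem_map.mp ht
      exact tsec_mem (self_mem_W S.x) (one_mem_W S.x 1) P)
    rw [Multiset.map_map, hprod] at e2
    refine e2.trans (mul_le_mul_of_nonneg_left ?_ (hC2.nonneg v))
    have e3 := h3 v s hs u hu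
    rwa [hNM] at e3
  have hlow := h5 u B hu hu0 hB v Q
  have hupos : 0 < S.𝔸.abv v (ev S.x (N * S.d - N) Q u) := (S.𝔸.abv v).pos hQ
  rw [hev, hsplit] at hup
  refine le_of_mul_le_mul_right (hup.trans ?_) hupos
  have hdA : 0 ≤ (A.map fun P => S.dist v P Q).prod := by
    apply Multiset.prod_nonneg
    intro a ha
    obtain ⟨P, _, rfl⟩ := Multiset.mem_map.mp ha
    exact S.dist_nonneg v P Q
  have hdB : 0 ≤ (B.map fun P => S.dist v P Q).prod := by
    apply Multiset.prod_nonneg
    intro a ha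
    obtain ⟨P, _, rfl⟩ := Multiset.mem_map.mp ha
    exact S.dist_nonneg v P Q
  have hwQ := (S.w_pos v Q).le
  have hsplit2 : S.w v Q ^ (N * S.d) = S.w v Q ^ N * S.w v Q ^ (N * S.d - N) := by
    rw [← pow_add, hNM]
  calc C1 v ^ (N * S.d) * ((A.map (S.w v)).prod * S.w v Q ^ (N * S.d) *
        ((A.map fun P => S.dist v P Q).prod * (B.map fun P => S.dist v P Q).prod))
      ≤ C1 v ^ (N * S.d) * ((C4 v ^ (N * S.d) * (C2 v * (C3 v *
          (S.nrm N v s * S.nrm (N * S.d - N) v u)))) * S.w v Q ^ (N * S.d) *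
        ((A.map fun P => S.dist v P Q).prod * (B.map fun P => S.dist v P Q).prod)) := by
        apply mul_le_mul_of_nonneg_left _ ((hC1.pow _).nonneg v)
        apply mul_le_mul_of_nonneg_right _ (mul_nonneg hdA hdB)
        exact mul_le_mul_of_nonneg_right hw (pow_nonneg hwQ _)
    _ = C1 v ^ (N * S.d) * (C4 v ^ (N * S.d) * (C2 v * C3 v)) *
          (S.nrm N v s * S.w v Q ^ N * (A.map fun P => S.dist v P Q).prod) *
          (S.nrm (N * S.d - N) v u * S.w v Q ^ (N * S.d - N) *
            (B.map fun P => S.dist v P Q).prod) := by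
        rw [hsplit2]; ring
    _ ≤ C1 v ^ (N * S.d) * (C4 v ^ (N * S.d) * (C2 v * C3 v)) *
          (S.nrm N v s * S.w v Q ^ N * (A.map fun P => S.dist v P Q).prod) *
          (C5 v * S.𝔸.abv v (ev S.x (N * S.d - N) Q u)) := by
        apply mul_le_mul_of_nonneg_left hlow
        apply mul_nonneg
        · exact mul_nonneg ((hC1.pow _).nonneg v) (mul_nonneg ((hC4.pow _).nonneg v)
            (mul_nonneg (hC2.nonneg v) (hC3.nonneg v)))
        · exact mul_nonneg (mul_nonneg (S.nrm_nonneg N v s) (pow_nonneg hwQ _)) hdA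
    _ = _ := by ring

/-- there are points arbitrarily close to `Q` outside any finite set -/
theorem exists_near_up (v : V) {Q : Place K F} (hQ : S.x ∈ Q.toValuationSubring)
    {T : Set (Place K F)} (hT : T.Finite) {ε : ℝ} (hε : 0 < ε) :
    ∃ Q' : Place K F, Q' ∉ T ∧ S.x ∈ Q'.toValuationSubring ∧
      S.𝔸.abv v (val Q' S.x) ≤ S.𝔸.abv v (val Q S.x) + 1 ∧ S.dist v Q' Q < ε := by
  classical
  obtain ⟨c, hc0, hc1⟩ := S.𝔸.exists_lt_one v
  have hcpos : 0 < S.𝔸.abv v c := (S.𝔸.abv v).pos hc0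
  obtain ⟨C, hC, h⟩ := S.exists_w_le_nrm_fsec_up
  obtain ⟨C', hC', h'⟩ := S.exists_le_w
  obtain ⟨C5, hC5, h5⟩ := S.exists_lower 1
  set a := val Q S.x with ha
  -- constant bounding the product of distances
  set κ : ℝ := C5 v * (C v * C' v) / S.w v Q with hκ
  have hwQ := S.w_pos v Q
  have hκ0 : 0 < κ := div_pos (mul_pos (hC5.pos v) (mul_pos (hC.pos v) (hC'.pos v))) hwQ
  have hfib : ∀ n : ℕ, ∃ A : Multiset (Place K F), A.card = S.d ∧
      (∀ P ∈ A, S.x ∈ P.toValuationSubring ∧ val P S.x = a + c ^ n) ∧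
      (A.map fun P => S.dist v P Q).prod ≤ κ * S.𝔸.abv v c ^ n := by
    intro n
    set t : F := S.x - algebraMap K F (a + c ^ n) with ht
    have ht0 : t ≠ 0 := by
      intro h0
      apply S.hx
      rw [sub_eq_zero.mp h0]
      exact isAlgebraic_algebraMap _
    have h1W : algebraMap K F (a + c ^ n) ∈ W K S.x 1 := by
      rw [Algebra.algebraMap_eq_smul_one]
      exact Submodule.smul_mem _ _ (one_mem_W S.x 1)
    have htW : t ∈ W K S.x 1 := Submodule.sub_mem _ (self_mem_W S.x) h1W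
    obtain ⟨A, hA⟩ := exists_isZer S.hx htW ht0
    have hcard := hA.card_eq S.hx ht0
    rw [one_mul] at hcard
    have hev : ∀ P : Place K F, ev S.x 1 P t = ev S.x 1 P S.x - (a + c ^ n) * ev S.x 1 P 1 := by
      intro P
      rw [ht, Algebra.algebraMap_eq_smul_one, ev_sub (self_mem_W S.x)
        (Submodule.smul_mem _ _ (one_mem_W S.x 1)), ev_smul (one_mem_W S.x 1)]
    have hmem : ∀ P ∈ A, S.x ∈ P.toValuationSubring ∧ val P S.x = a + c ^ n := by
      intro P hP
      have h1 : ev S.x 1 P t = 0 :=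
        (hA.mem_iff (transcendental_ne_zero S.hx) htW ht0 P).mp hP
      rw [hev] at h1
      by_cases hx : S.x ∈ P.toValuationSubring
      · refine ⟨hx, ?_⟩
        rw [ev_self_of_mem hx, ev_one_of_mem hx, mul_one, sub_eq_zero] at h1
        exact h1
      · rw [ev_self_of_notMem hx, ev_one_of_notMem hx one_ne_zero, mul_zero, sub_zero] at h1
        exact absurd h1 one_ne_zero
    refine ⟨A, hcard, hmem, ?_⟩
    have hlow := h5 t A htW ht0 hA v Q
    rw [hev, ev_self_of_mem hQ, ev_one_of_mem hQ, mul_one, ← ha, sub_add_cancel_left,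
      AbsoluteValue.map_neg, map_pow, pow_one] at hlow
    -- lower bound for the norm of `t`
    have hfd : FiniteDimensional (IntermediateField.adjoin K {S.x}) F := IsFF.finiteDimensional S.hx
    have hdpos : 0 < A.card := by
      rw [hcard]; exact Module.finrank_pos
    obtain ⟨P, hP⟩ := Multiset.card_pos_iff_exists_mem.mp hdpos
    obtain ⟨hPx, hPv⟩ := hmem P hP
    have htf : t = fsec S.x P := by
      rw [fsec, tsec, ev_one_of_mem hPx, ev_self_of_mem hPx, hPv, one_smul, ht,
        Algebra.algebraMap_eq_smul_one]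
    have h1 : 1 ≤ C' v * S.w v P := by
      have := h' v P
      rw [ev_one_of_mem hPx, map_one] at this
      exact (le_max_left _ _).trans this
    have h2 : S.w v P ≤ C v * S.nrm 1 v t := by
      rw [htf]; exact h v P
    have h3 : 1 ≤ C' v * (C v * S.nrm 1 v t) :=
      h1.trans (mul_le_mul_of_nonneg_left h2 (hC'.nonneg v))
    have hprod0 : 0 ≤ (A.map fun P => S.dist v P Q).prod := by
      apply Multiset.prod_nonneg
      intro b hb
      obtain ⟨P', _, rfl⟩ := Multiset.mem_map.mp hb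
      exact S.dist_nonneg v P' Q
    rw [hκ, div_mul_eq_mul_div, le_div_iff₀ hwQ]
    calc (A.map fun P => S.dist v P Q).prod * S.w v Q
        = 1 * (S.w v Q * (A.map fun P => S.dist v P Q).prod) := by ring
      _ ≤ C' v * (C v * S.nrm 1 v t) * (S.w v Q * (A.map fun P => S.dist v P Q).prod) :=
          mul_le_mul_of_nonneg_right h3 (mul_nonneg hwQ.le hprod0)
      _ = (C v * C' v) * (S.nrm 1 v t * S.w v Q * (A.map fun P => S.dist v P Q).prod) := by ring
      _ ≤ (C v * C' v) * (C5 v * S.𝔸.abv v c ^ n) :=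
          mul_le_mul_of_nonneg_left hlow (mul_nonneg (hC.nonneg v) (hC'.nonneg v))
      _ = _ := by ring
  choose A hAcard hAmem hAprod using hfib
  -- large `n`: small distance
  have hlim : Tendsto (fun n : ℕ => κ * S.𝔸.abv v c ^ n) atTop (𝓝 (κ * 0)) :=
    (tendsto_pow_atTop_nhds_zero_of_lt_one hcpos.le hc1).const_mul κ
  rw [mul_zero] at hlim
  have hev1 : ∀ᶠ n : ℕ in atTop, κ * S.𝔸.abv v c ^ n < ε ^ S.d :=
    hlim.eventually (gt_mem_nhds (pow_pos hε _))
  -- large `n`: outside `T`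
  have hinj : Function.Injective (fun n : ℕ => a + c ^ n) := by
    intro n m hnm
    have h1 : c ^ n = c ^ m := add_left_cancel hnm
    have h2 := congrArg (S.𝔸.abv v) h1
    rw [map_pow, map_pow] at h2
    exact pow_right_injective₀ hcpos hc1.ne h2
  have hev2 : ∀ᶠ n : ℕ in atTop, ∀ P ∈ T, val P S.x ≠ a + c ^ n := by
    rw [← Nat.cofinite_eq_atTop]
    have hfin : {n : ℕ | ∃ P ∈ T, val P S.x = a + c ^ n}.Finite := by
      have : {n : ℕ | ∃ P ∈ T, val P S.x = a + c ^ n} ⊆
          (fun n : ℕ => a + c ^ n) ⁻¹' ((fun P : Place K F => val P S.x) '' T) := by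
        rintro n ⟨P, hP, h⟩
        exact ⟨P, hP, h⟩
      exact ((hT.image _).preimage hinj.injOn).subset this
    filter_upwards [hfin.compl_mem_cofinite] with n hn P hP h
    exact hn ⟨P, hP, h⟩
  obtain ⟨n, hn1, hn2⟩ := (hev1.and hev2).exists
  -- some point of the fibre is close
  have hex : ∃ P ∈ A n, S.dist v P Q < ε := by
    by_contra hcon
    push Not at hcon
    have h1 : ε ^ S.d ≤ ((A n).map fun P => S.dist v P Q).prod := by
      rw [← hAcard n, ← Multiset.prod_replicate, ← Multiset.map_const']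
      exact Multiset.prod_map_le_prod_map₀ _ _ (fun _ _ => hε.le) hcon
    exact absurd (h1.trans (hAprod n)) (not_le.mpr hn1)
  obtain ⟨Q', hQ', hd⟩ := hex
  obtain ⟨hx', hv'⟩ := hAmem n Q' hQ'
  refine ⟨Q', fun hT' => hn2 Q' hT' hv', hx', ?_, hd⟩
  rw [hv']
  refine ((S.𝔸.abv v).add_le _ _).trans ?_
  rw [map_pow]
  have := pow_le_one₀ (n := n) hcpos.le hc1.le
  linarith

/-- passing to the limit in the affine chart -/
theorem exists_limit_up (N : ℕ) : ∃ C, IsMC C ∧ ∀ (s : F) (A : Multiset (Place K F)),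
    s ∈ W K S.x N → s ≠ 0 → IsZer S.x N s A → ∀ (v : V) (c0 : ℝ), 0 ≤ c0 →
    ∀ T : Set (Place K F), T.Finite → (∀ Q, Q ∉ T → S.𝔸.abv v (ev S.x N Q s) ≤
      c0 * (S.w v Q ^ N * (A.map fun P => S.dist v P Q).prod)) →
    ∀ Q : Place K F, S.x ∈ Q.toValuationSubring → S.𝔸.abv v (ev S.x N Q s) ≤
      c0 * (C v * (S.w v Q ^ N * (A.map fun P => S.dist v P Q).prod)) := by
  classical
  obtain ⟨Ct, hCt, ht⟩ := S.exists_dist_triangle
  refine ⟨fun v => Ct v ^ (N * S.d), hCt.pow _, fun s A hs hs0 hA v c0 hc0 T hT hyp Q hQ => ?_⟩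
  have hcard : A.card = N * S.d := hA.card_eq S.hx hs0
  have hprod0 : 0 ≤ (A.map fun P => S.dist v P Q).prod := by
    apply Multiset.prod_nonneg
    intro b hb
    obtain ⟨P', _, rfl⟩ := Multiset.mem_map.mp hb
    exact S.dist_nonneg v P' Q
  by_cases hzero : ev S.x N Q s = 0
  · rw [hzero, map_zero]
    exact mul_nonneg hc0 (mul_nonneg ((hCt.pow _).nonneg v)
      (mul_nonneg (pow_nonneg (S.w_pos v Q).le _) hprod0))
  -- the distances to the zeros are positive
  have hQA : ∀ P ∈ A, 0 < S.dist v P Q := by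
    intro P hP
    apply S.dist_pos v
    rintro rfl
    exact hzero ((hA.mem_iff (transcendental_ne_zero S.hx) hs hs0 P).mp hP)
  obtain ⟨δ, hδ, hδA⟩ : ∃ δ > 0, ∀ P ∈ A, δ ≤ S.dist v P Q := by
    by_cases hA0 : A = 0
    · exact ⟨1, one_pos, fun P hP => by rw [hA0] at hP; exact absurd hP (Multiset.notMem_zero P)⟩
    · have hne : A.toFinset.Nonempty := by
        rwa [Multiset.toFinset_nonempty]
      refine ⟨A.toFinset.inf' hne fun P => S.dist v P Q, ?_, fun P hP => ?_⟩
      · rw [gt_iff_lt, Finset.lt_inf'_iff]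
        exact fun P hP => hQA P (Multiset.mem_toFinset.mp hP)
      · exact Finset.inf'_le _ (Multiset.mem_toFinset.mpr hP)
  -- Lipschitz constants at `v`
  let R : V → ℝ := fun v' => if v' = v then S.𝔸.abv v (val Q S.x) + 1 else 1
  have hR : IsMC R := by
    refine ⟨fun v' => ?_, (Set.finite_singleton v).subset fun v' hv' => ?_⟩
    · show 1 ≤ (if v' = v then S.𝔸.abv v (val Q S.x) + 1 else 1)
      split_ifs
      · have := (S.𝔸.abv v).nonneg (val Q S.x)
        linarith
      · exact le_rfl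
    · by_contra hne
      exact hv' (if_neg hne)
  have hRv : R v = S.𝔸.abv v (val Q S.x) + 1 := if_pos rfl
  have hreg : ∀ {M : ℕ} {f : F}, f ∈ W K S.x M → ∀ P : Place K F, S.x ∈ P.toValuationSubring →
      f ∈ P.toValuationSubring := by
    intro M f hf P hP
    have := hf P
    rwa [nf_of_mem hP, one_pow, mul_one] at this
  obtain ⟨L, hL, hLip⟩ := S.exists_lipschitz hR s (hreg hs)
  have hLi : ∀ i : Fin (S.r 1), ∃ C, IsMC C ∧ ∀ v (P Q : Place K F),
      S.x ∈ P.toValuationSubring → S.x ∈ Q.toValuationSubring →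
      S.𝔸.abv v (val P S.x) ≤ R v → S.𝔸.abv v (val Q S.x) ≤ R v →
      S.𝔸.abv v (val P ((S.b 1 i : W K S.x 1) : F) - val Q ((S.b 1 i : W K S.x 1) : F)) ≤
        C v * S.dist v P Q := fun i => S.exists_lipschitz hR _ (hreg (S.b 1 i).2)
  choose L' hL' hLip' using hLi
  obtain ⟨L'', hL'', hLL⟩ := exists_isMC_forall hL'
  -- the estimate for small `ε`
  have key : ∀ ε : ℝ, 0 < ε → ε < δ → S.𝔸.abv v (ev S.x N Q s) ≤
      c0 * ((S.w v Q + L'' v * ε) ^ N * (Ct v ^ (N * S.d) * (A.map fun P => S.dist v P Q).prod)) +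
        L v * ε := by
    intro ε hε hεδ
    obtain ⟨Q', hQ'T, hQ'x, hQ'v, hd⟩ := S.exists_near_up v hQ hT hε
    have hvQ : S.𝔸.abv v (val Q S.x) ≤ R v := by rw [hRv]; linarith
    have hvQ' : S.𝔸.abv v (val Q' S.x) ≤ R v := by rw [hRv]; exact hQ'v
    have h1 : S.𝔸.abv v (ev S.x N Q s) ≤ S.𝔸.abv v (ev S.x N Q' s) + L v * ε := by
      rw [ev_of_mem hQ, ev_of_mem hQ'x]
      have h2 := hLip v Q Q' hQ hQ'x hvQ hvQ'
      have h3 : S.𝔸.abv v (val Q s) ≤ S.𝔸.abv v (val Q s - val Q' s) + S.𝔸.abv v (val Q' s) := by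
        have := (S.𝔸.abv v).add_le (val Q s - val Q' s) (val Q' s)
        rwa [sub_add_cancel] at this
      have h4 : L v * S.dist v Q Q' ≤ L v * ε :=
        mul_le_mul_of_nonneg_left (by rw [S.dist_comm]; exact hd.le) (hL.nonneg v)
      linarith
    refine h1.trans (add_le_add_left ?_ _)
    refine (hyp Q' hQ'T).trans (mul_le_mul_of_nonneg_left ?_ hc0)
    have hw : S.w v Q' ≤ S.w v Q + L'' v * ε := by
      show (⨆ i : Fin (S.r 1), S.𝔸.abv v (S.e Q' i)) ≤ _
      apply ciSup_le
      intro i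
      have h2 := hLip' i v Q' Q hQ'x hQ hvQ' hvQ
      have e1 : S.e Q' i = val Q' ((S.b 1 i : W K S.x 1) : F) := ev_of_mem hQ'x 1 _
      have e2 : S.e Q i = val Q ((S.b 1 i : W K S.x 1) : F) := ev_of_mem hQ 1 _
      have h3 : S.𝔸.abv v (S.e Q' i) ≤ S.𝔸.abv v (S.e Q' i - S.e Q i) + S.𝔸.abv v (S.e Q i) := by
        have := (S.𝔸.abv v).add_le (S.e Q' i - S.e Q i) (S.e Q i)
        rwa [sub_add_cancel] at this
      have h4 := S.abv_e_le v Q i
      rw [← e1, ← e2] at h2
      have h5 : L' i v * S.dist v Q' Q ≤ L'' v * ε :=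
        mul_le_mul (hLL i v) hd.le (S.dist_nonneg v Q' Q) (hL''.nonneg v)
      linarith
    have hdist : (A.map fun P => S.dist v P Q').prod ≤
        Ct v ^ (N * S.d) * (A.map fun P => S.dist v P Q).prod := by
      rw [← hcard, ← Multiset.prod_replicate, ← Multiset.map_const' A (Ct v),
        ← Multiset.prod_map_mul]
      apply Multiset.prod_map_le_prod_map₀ _ _ (fun P _ => S.dist_nonneg v P Q')
      intro P hP
      refine (ht v P Q Q').trans (mul_le_mul_of_nonneg_left ?_ (hCt.nonneg v))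
      apply max_le le_rfl
      rw [S.dist_comm]
      exact hd.le.trans (hεδ.le.trans (hδA P hP))
    refine mul_le_mul (pow_le_pow_left₀ (S.w_pos v Q').le hw N) hdist ?_ ?_
    · apply Multiset.prod_nonneg
      intro b hb
      obtain ⟨P', _, rfl⟩ := Multiset.mem_map.mp hb
      exact S.dist_nonneg v P' Q'
    · exact pow_nonneg (add_nonneg (S.w_pos v Q).le (mul_nonneg (hL''.nonneg v) hε.le)) N
  have hcont : Tendsto (fun ε : ℝ => c0 * ((S.w v Q + L'' v * ε) ^ N *
      (Ct v ^ (N * S.d) * (A.map fun P => S.dist v P Q).prod)) + L v * ε) (𝓝[>] 0)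
      (𝓝 (c0 * ((S.w v Q + L'' v * 0) ^ N *
      (Ct v ^ (N * S.d) * (A.map fun P => S.dist v P Q).prod)) + L v * 0)) := by
    apply Tendsto.mono_left _ nhdsWithin_le_nhds
    apply Continuous.tendsto
    fun_prop
  have hfin := ge_of_tendsto hcont (Filter.eventually_of_mem (Ioo_mem_nhdsGT hδ)
    (fun ε hε => key ε hε.1 hε.2))
  rw [mul_zero, mul_zero, add_zero, add_zero] at hfin
  refine hfin.trans (le_of_eq ?_)
  ring

/-! ### L10: upper bound for the value of a section (file H17Up) -/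

theorem exists_upper (N : ℕ) : ∃ C, IsMC C ∧ ∀ (s : F) (A : Multiset (Place K F)),
    s ∈ W K S.x N → s ≠ 0 → IsZer S.x N s A → ∀ v (Q : Place K F),
    S.𝔸.abv v (ev S.x N Q s) ≤
      C v * (S.nrm N v s * S.w v Q ^ N * (A.map fun P => S.dist v P Q).prod) := by
  classical
  obtain ⟨C1, hC1, h1⟩ := S.exists_upper_of_ne N
  obtain ⟨C2, hC2, h2⟩ := S.exists_limit_up N
  obtain ⟨S', hx', hA', hW', hn', hd', hZ', he'⟩ := S.exists_inv
  obtain ⟨C3, hC3, h3⟩ := S'.exists_limit_up N
  refine ⟨fun v => C1 v * max (C2 v) (C3 v), hC1.mul (hC2.max hC3), fun s A hs hs0 hA v Q => ?_⟩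
  obtain ⟨u, hu0, hu, hmain⟩ := h1 s A hs hs0 hA
  obtain ⟨B, hB⟩ := exists_isZer S.hx hu hu0
  have hTfin : {P : Place K F | P ∈ B}.Finite := by
    have : {P : Place K F | P ∈ B} = (B.toFinset : Set (Place K F)) := by
      ext P; simp
    rw [this]
    exact B.toFinset.finite_toSet
  have hc0 : 0 ≤ C1 v * S.nrm N v s := mul_nonneg (hC1.nonneg v) (S.nrm_nonneg N v s)
  have hyp : ∀ Q, Q ∉ {P : Place K F | P ∈ B} → S.𝔸.abv v (ev S.x N Q s) ≤
      (C1 v * S.nrm N v s) * (S.w v Q ^ N * (A.map fun P => S.dist v P Q).prod) := by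
    intro Q hQ
    have hne : ev S.x (N * S.d - N) Q u ≠ 0 := fun h =>
      hQ ((hB.mem_iff (transcendental_ne_zero S.hx) hu hu0 Q).mpr h)
    refine (hmain v Q hne).trans (le_of_eq ?_)
    ring
  have hprod0 : 0 ≤ (A.map fun P => S.dist v P Q).prod := by
    apply Multiset.prod_nonneg
    intro b hb
    obtain ⟨P', _, rfl⟩ := Multiset.mem_map.mp hb
    exact S.dist_nonneg v P' Q
  have hwQ := S.w_pos v Q
  by_cases hQ : S.x ∈ Q.toValuationSubring
  · have h4 := h2 s A hs hs0 hA v _ hc0 _ hTfin hyp Q hQ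
    refine h4.trans ?_
    calc C1 v * S.nrm N v s * (C2 v * (S.w v Q ^ N * (A.map fun P => S.dist v P Q).prod))
        ≤ C1 v * S.nrm N v s * (max (C2 v) (C3 v) *
          (S.w v Q ^ N * (A.map fun P => S.dist v P Q).prod)) := by
          apply mul_le_mul_of_nonneg_left _ hc0
          exact mul_le_mul_of_nonneg_right (le_max_left _ _)
            (mul_nonneg (pow_nonneg hwQ.le _) hprod0)
      _ = _ := by ring
  · -- the inverse chart
    have hQ' : S'.x ∈ Q.toValuationSubring := by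
      rw [hx']; exact inv_mem_of_notMem Q hQ
    set s' : F := s * S.x⁻¹ ^ N with hs'
    have hs'W : s' ∈ W K S'.x N := (hW' N s).mp hs
    have hs'0 : s' ≠ 0 := mul_ne_zero hs0 (pow_ne_zero _ (inv_ne_zero (transcendental_ne_zero S.hx)))
    have hs'A : IsZer S'.x N s' A := (hZ' N s A).mpr hA
    have hrel : ∀ Q : Place K F, S.𝔸.abv v (ev S'.x N Q s') * S.w v Q ^ N =
        S.𝔸.abv v (ev S.x N Q s) * S'.w v Q ^ N := fun Q => he' N v Q s hs
    have hyp' : ∀ Q, Q ∉ {P : Place K F | P ∈ B} → S'.𝔸.abv v (ev S'.x N Q s') ≤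
        (C1 v * S.nrm N v s) * (S'.w v Q ^ N * (A.map fun P => S'.dist v P Q).prod) := by
      intro Q hQ
      have h4 := hyp Q hQ
      have hw1 := S.w_pos v Q
      have hw2 := S'.w_pos v Q
      have h5 : (A.map fun P => S'.dist v P Q).prod = (A.map fun P => S.dist v P Q).prod := by
        congr 1
        exact Multiset.map_congr rfl fun P _ => hd' v P Q
      rw [h5, hA']
      refine le_of_mul_le_mul_right ?_ (pow_pos hw1 N)
      rw [hrel]
      calc S.𝔸.abv v (ev S.x N Q s) * S'.w v Q ^ N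
          ≤ (C1 v * S.nrm N v s) * (S.w v Q ^ N * (A.map fun P => S.dist v P Q).prod) *
            S'.w v Q ^ N := mul_le_mul_of_nonneg_right h4 (pow_nonneg hw2.le _)
        _ = _ := by ring
    have h4 := h3 s' A hs'W hs'0 hs'A v _ hc0 _ hTfin hyp' Q hQ'
    have h5 : (A.map fun P => S'.dist v P Q).prod = (A.map fun P => S.dist v P Q).prod := by
      congr 1
      exact Multiset.map_congr rfl fun P _ => hd' v P Q
    rw [h5, hA'] at h4
    have hw2 := S'.w_pos v Q
    refine le_of_mul_le_mul_right ?_ (pow_pos hw2 N)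
    rw [← hrel]
    calc S.𝔸.abv v (ev S'.x N Q s') * S.w v Q ^ N
        ≤ C1 v * S.nrm N v s * (C3 v * (S'.w v Q ^ N * (A.map fun P => S.dist v P Q).prod)) *
          S.w v Q ^ N := mul_le_mul_of_nonneg_right h4 (pow_nonneg hwQ.le _)
      _ ≤ C1 v * S.nrm N v s * (max (C2 v) (C3 v) *
          (S'.w v Q ^ N * (A.map fun P => S.dist v P Q).prod)) * S.w v Q ^ N := by
          apply mul_le_mul_of_nonneg_right _ (pow_nonneg hwQ.le _)
          apply mul_le_mul_of_nonneg_left _ hc0
          exact mul_le_mul_of_nonneg_right (le_max_right _ _)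
            (mul_nonneg (pow_nonneg hw2.le _) hprod0)
      _ = _ := by ring

end HSetup

end Fermat.Agent.H17
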