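/-
H17GLE: global estimates for rational sections (project S17; statements frozen by helper17, proofs by helper79)
-/
import Mathlib
import Fermat.Agent.H17Fin
import Fermat.Agent.H17Equiv
import Fermat.Agent.H17Rep
import Fermat.Agent.H17Up

set_option autoImplicit false

noncomputable section

open AlgebraicCurve WithZero Polynomial

namespace Fermat.Agent.H17

open Fermat.Agent.H3RR

namespace GSetup

variable {F : Type*} [Field F] [Algebra Qb F] [IsFF Qb F] (Γ : GSetup F)

theorem multiset_prod_pos' {α : Type*} (A : Multiset α) (f : α → ℝ) (hf : ∀ a ∈ A, 0 < f a) :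
    0 < (A.map f).prod := by
  induction A using Multiset.induction_on with
  | empty => simp
  | cons a A ih =>
    rw [Multiset.map_cons, Multiset.prod_cons]
    exact mul_pos (hf a (Multiset.mem_cons_self a A)) (ih fun b hb => hf b (Multiset.mem_cons_of_mem hb))

theorem log_multiset_prod' {α : Type*} (A : Multiset α) (f : α → ℝ) (hf : ∀ a ∈ A, 0 < f a) :
    Real.log (A.map f).prod = (A.map fun a => Real.log (f a)).sum := by
  induction A using Multiset.induction_on with
  | empty => simp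
  | cons a A ih =>
    have h1 : ∀ b ∈ A, 0 < f b := fun b hb => hf b (Multiset.mem_cons_of_mem hb)
    rw [Multiset.map_cons, Multiset.prod_cons, Multiset.map_cons, Multiset.sum_cons,
      Real.log_mul (hf a (Multiset.mem_cons_self a A)).ne' (multiset_prod_pos' A f h1).ne', ih h1]

theorem support_const_mul_finite {f : V0 → ℝ} (c : ℝ) (hf : (Function.support f).Finite) :
    (Function.support fun v => c * f v).Finite := by
  refine hf.subset fun v hv h => hv ?_
  show c * f v = 0
  rw [h, mul_zero]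

theorem exists_hs_hgt (N : ℕ) : ∃ C : ℝ, ∀ s ∈ W Qb Γ.x N, s ≠ 0 → Γ.RatF s →
    ∀ A : Multiset (Place Qb F), IsZer Γ.x N s A → |Γ.d * Γ.hs N s - Γ.hgt A| ≤ C := by
  obtain ⟨C, hC, h⟩ := Γ.exists_nrm_pow_le N
  refine ⟨∑ᶠ v, Real.log (C v), fun s hs hs0 hrat A hA => ?_⟩
  obtain ⟨c, hc0, hc⟩ := Γ.exists_norm_eq hs hs0 hA
  have hsum0 := Γ.sum_log_norm_const_eq_zero hs hs0 hrat hA hc0 hc
  have hfin1 := Γ.finite_support_hs hs hs0
  have hfin2 := Γ.finite_support_hgt A
  have hfin3 := finite_log_abv_ne_zero hc0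
  have hfin4 : (Function.support fun v : V0 => (Γ.d : ℝ) * Real.log (Γ.nrm N v s)).Finite :=
    support_const_mul_finite _ hfin1
  have e1 : ∑ᶠ v : V0, (Γ.d : ℝ) * Real.log (Γ.nrm N v s) = Γ.d * Γ.hs N s :=
    (mul_finsum _ _).symm
  have e2 : ∑ᶠ v : V0, (Real.log (stdAbs.abv v c) + (A.map fun P => Real.log (Γ.w v P)).sum)
      = Γ.hgt A := by
    rw [finsum_add_distrib hfin3 hfin2, hsum0, zero_add]; rfl
  have hfin5 : (Function.support fun v : V0 =>
      (Real.log (stdAbs.abv v c) + (A.map fun P => Real.log (Γ.w v P)).sum)).Finite :=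
    (hfin3.union hfin2).subset (Function.support_add _ _)
  have hpos : ∀ v, 0 < (A.map (Γ.w v)).prod := fun v =>
    multiset_prod_pos' A _ fun P _ => Γ.w_pos v P
  have hac : ∀ v, 0 < Γ.𝔸.abv v c := fun v => (Γ.𝔸.abv v).pos hc0
  have hlog : ∀ v, Real.log (Γ.𝔸.abv v c * (A.map (Γ.w v)).prod) =
      Real.log (stdAbs.abv v c) + (A.map fun P => Real.log (Γ.w v P)).sum := by
    intro v
    rw [Real.log_mul (hac v).ne' (hpos v).ne', log_multiset_prod' A _ fun P _ => Γ.w_pos v P, Γ.std]
  have hn : ∀ v, 0 < Γ.nrm N v s := fun v => Γ.nrm_pos hs hs0 v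
  rw [abs_le]
  constructor
  · have := hC.finsum_le hfin5 hfin4 (fun v => by
      have h1 := (h s A c hs hs0 hA hc v).2
      have h2 := Real.log_le_log (mul_pos (hac v) (hpos v)) h1
      rw [hlog, Real.log_mul (hC.pos v).ne' (pow_pos (hn v) _).ne', Real.log_pow] at h2
      exact h2)
    rw [e1, e2] at this
    linarith
  · have := hC.finsum_le hfin4 hfin5 (fun v => by
      have h1 := (h s A c hs hs0 hA hc v).1
      have h2 := Real.log_le_log (pow_pos (hn v) _) h1
      rw [Real.log_mul (hC.pos v).ne' (mul_pos (hac v) (hpos v)).ne', hlog, Real.log_pow] at h2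
      exact h2)
    rw [e1, e2] at this
    linarith

theorem exists_gle (N n : ℕ) : ∃ C : ℝ, ∀ s ∈ W Qb Γ.x N, s ≠ 0 → Γ.RatF s →
    ∀ A B : Multiset (Place Qb F), IsZer Γ.x N s A → Γ.RatM B → B.card ≤ n → Disjoint A B →
    |Γ.pair A B - (B.card * Γ.hs N s + N * Γ.hgt B)| ≤ C := by
  obtain ⟨C1, hC1, h1⟩ := Γ.exists_lower N
  obtain ⟨C2, hC2, h2⟩ := Γ.exists_upper N
  have hC := (hC1.max hC2).pow n
  refine ⟨∑ᶠ v, Real.log ((max (C1 v) (C2 v)) ^ n), fun s hs hs0 hrat A B hA hB hcard hdis => ?_⟩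
  have hx0 : Γ.x ≠ 0 := transcendental_ne_zero Γ.hx
  have hev0 : ∀ Q ∈ B, ev Γ.x N Q s ≠ 0 := by
    intro Q hQ h0
    have h3 : Q ∈ A := (hA.mem_iff hx0 hs hs0 Q).mpr h0
    exact Multiset.disjoint_left.mp hdis h3 hQ
  have hne : ∀ P ∈ A, ∀ Q ∈ B, P ≠ Q := fun P hP Q hQ h =>
    Multiset.disjoint_left.mp hdis hP (h ▸ hQ)
  have hsum0 := Γ.sum_log_ev_eq_zero hs hrat hB hev0
  have hfin1 := Γ.finite_support_hs hs hs0
  have hfin2 := Γ.finite_support_hgt B
  have hfin3 := Γ.finite_support_pair hdis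
  have hfin0 : (Function.support fun v : V0 =>
      (B.map fun P => Real.log (stdAbs.abv v (ev Γ.x N P s))).sum).Finite := by
    have h0 : (B.map fun P => ev Γ.x N P s).prod ≠ 0 := by
      apply Multiset.prod_ne_zero
      intro h2
      obtain ⟨P, hP, hP'⟩ := Multiset.mem_map.mp h2
      exact hev0 P hP hP'
    have h3 := finite_log_abv_ne_zero h0
    refine h3.subset fun v hv => ?_
    rw [Function.mem_support] at hv ⊢
    rwa [log_abv_multiset_prod v B _ hev0]
  set f : V0 → ℝ := fun v => (B.map fun P => Real.log (stdAbs.abv v (ev Γ.x N P s))).sum +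
    (A.map fun P => (B.map fun Q => - Real.log (Γ.dist v P Q)).sum).sum with hf
  set g : V0 → ℝ := fun v => (B.card : ℝ) * Real.log (Γ.nrm N v s) +
    (N : ℝ) * (B.map fun P => Real.log (Γ.w v P)).sum with hg
  have hfin4 : (Function.support fun v : V0 => (B.card : ℝ) * Real.log (Γ.nrm N v s)).Finite :=
    support_const_mul_finite _ hfin1
  have hfin5 : (Function.support fun v : V0 => (N : ℝ) * (B.map fun P => Real.log (Γ.w v P)).sum).Finite :=
    support_const_mul_finite _ hfin2
  have hff : (Function.support f).Finite := (hfin0.union hfin3).subset (Function.support_add _ _)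
  have hgf : (Function.support g).Finite := (hfin4.union hfin5).subset (Function.support_add _ _)
  have e1 : ∑ᶠ v, f v = Γ.pair A B := by
    rw [hf, finsum_add_distrib hfin0 hfin3, hsum0, zero_add]; rfl
  have e2 : ∑ᶠ v, g v = B.card * Γ.hs N s + N * Γ.hgt B := by
    rw [hg, finsum_add_distrib hfin4 hfin5, ← mul_finsum, ← mul_finsum]; rfl
  -- local estimates
  have hpt : ∀ v, ∀ Q ∈ B,
      |Real.log (stdAbs.abv v (ev Γ.x N Q s)) + (A.map fun P => - Real.log (Γ.dist v P Q)).sum -
        (Real.log (Γ.nrm N v s) + N * Real.log (Γ.w v Q))| ≤ Real.log (max (C1 v) (C2 v)) := by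
    intro v Q hQ
    have hn := Γ.nrm_pos hs hs0 v
    have hw := Γ.w_pos v Q
    have hd0 : 0 < (A.map fun P => Γ.dist v P Q).prod :=
      multiset_prod_pos' A _ fun P hP => Γ.dist_pos v (hne P hP Q hQ)
    have he0 : 0 < Γ.𝔸.abv v (ev Γ.x N Q s) := (Γ.𝔸.abv v).pos (hev0 Q hQ)
    have hm : 0 < Γ.nrm N v s * Γ.w v Q ^ N * (A.map fun P => Γ.dist v P Q).prod :=
      mul_pos (mul_pos hn (pow_pos hw _)) hd0
    have h3 := Real.log_le_log hm (h1 s A hs hs0 hA v Q)
    have h4 := Real.log_le_log he0 (h2 s A hs hs0 hA v Q)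
    have h5 : Real.log (Γ.nrm N v s * Γ.w v Q ^ N * (A.map fun P => Γ.dist v P Q).prod) =
        Real.log (Γ.nrm N v s) + N * Real.log (Γ.w v Q) -
          (A.map fun P => - Real.log (Γ.dist v P Q)).sum := by
      rw [Real.log_mul (mul_pos hn (pow_pos hw _)).ne' hd0.ne', Real.log_mul hn.ne'
        (pow_pos hw _).ne', Real.log_pow,
        log_multiset_prod' A _ fun P hP => Γ.dist_pos v (hne P hP Q hQ), Multiset.sum_map_neg,
        sub_neg_eq_add]
    rw [Real.log_mul (hC1.pos v).ne' he0.ne', h5] at h3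
    rw [Real.log_mul (hC2.pos v).ne' hm.ne', h5] at h4
    have h6 : Real.log (C1 v) ≤ Real.log (max (C1 v) (C2 v)) :=
      Real.log_le_log (hC1.pos v) (le_max_left _ _)
    have h7 : Real.log (C2 v) ≤ Real.log (max (C1 v) (C2 v)) :=
      Real.log_le_log (hC2.pos v) (le_max_right _ _)
    rw [Γ.std] at h3 h4
    rw [abs_le]
    constructor <;> linarith
  have hloc : ∀ v, |f v - g v| ≤ Real.log ((max (C1 v) (C2 v)) ^ n) := by
    intro v
    have h3 : f v - g v = (B.map fun Q => Real.log (stdAbs.abv v (ev Γ.x N Q s)) +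
        (A.map fun P => - Real.log (Γ.dist v P Q)).sum -
        (Real.log (Γ.nrm N v s) + N * Real.log (Γ.w v Q))).sum := by
      rw [Multiset.sum_map_sub, Multiset.sum_map_add, Multiset.sum_map_add, hf, hg,
        Multiset.sum_map_sum_map, Multiset.map_const', Multiset.sum_replicate, nsmul_eq_mul,
        Multiset.sum_map_mul_left]
    have h0 : 0 ≤ Real.log (max (C1 v) (C2 v)) := Real.log_nonneg ((hC1.one_le v).trans (le_max_left _ _))
    have h4 : ∀ B' : Multiset (Place Qb F), B' ≤ B → |(B'.map fun Q => Real.log (stdAbs.abv v (ev Γ.x N Q s)) +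
        (A.map fun P => - Real.log (Γ.dist v P Q)).sum -
        (Real.log (Γ.nrm N v s) + N * Real.log (Γ.w v Q))).sum| ≤
        B'.card * Real.log (max (C1 v) (C2 v)) := by
      intro B'
      induction B' using Multiset.induction_on with
      | empty => intro _; simp
      | cons Q B' ih =>
        intro hle
        have h5 : B' ≤ B := (Multiset.le_cons_self B' Q).trans hle
        have h6 : Q ∈ B := Multiset.mem_of_le hle (Multiset.mem_cons_self Q B')
        rw [Multiset.map_cons, Multiset.sum_cons, Multiset.card_cons]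
        refine (abs_add_le _ _).trans ((add_le_add (hpt v Q h6) (ih h5)).trans ?_)
        push_cast
        linarith
    rw [h3, Real.log_pow]
    refine (h4 B le_rfl).trans (mul_le_mul_of_nonneg_right ?_ h0)
    exact_mod_cast hcard
  rw [← e1, ← e2, abs_le]
  constructor
  · have := hC.finsum_le hgf hff (fun v => by
      have := (abs_le.mp (hloc v)).1
      linarith)
    linarith
  · have := hC.finsum_le hff hgf (fun v => by
      have := (abs_le.mp (hloc v)).2
      linarith)
    linarith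

/-- the bilinear form vanishes up to `O(1)` when one divisor is equivalent to a multiple of `D` -/
theorem exists_bil_le (N n : ℕ) : ∃ C : ℝ, ∀ A B : Multiset (Place Qb F), Γ.Rep N 0 A → Γ.RatM A →
    Γ.RatM B → B.card ≤ n → Disjoint A B → |Γ.bil A B| ≤ C := by
  obtain ⟨C1, h1⟩ := Γ.exists_hs_hgt N
  obtain ⟨C2, h2⟩ := Γ.exists_gle N n
  refine ⟨n * |C1| + C2, fun A B hA hAr hB hcard hdis => ?_⟩
  obtain ⟨s, hs, hs0, hsA⟩ := Γ.rep_zero_iff.mp hA
  obtain ⟨t, ht, ht0, htr, htA⟩ := Γ.exists_ratF_of_ratM hs hs0 hsA hAr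
  have h3 := h1 t ht ht0 htr A htA
  have h4 := h2 t ht ht0 htr A B htA hB hcard hdis
  have : FiniteDimensional (IntermediateField.adjoin Qb {Γ.x}) F := IsFF.finiteDimensional Γ.hx
  have hd : 0 < Γ.d := Module.finrank_pos
  have hd' : (1 : ℝ) ≤ Γ.d := by exact_mod_cast hd
  have hd0 : (Γ.d : ℝ) ≠ 0 := by positivity
  have hAc : (A.card : ℝ) = N * Γ.d := by rw [hA.card_eq]; push_cast; ring
  have e1 : Γ.bil A B = - (Γ.pair A B - (B.card * Γ.hs N t + N * Γ.hgt B)) -
      B.card * ((Γ.d * Γ.hs N t - Γ.hgt A) / Γ.d) := by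
    rw [bil, hAc]
    field_simp
    ring
  have h5 : |(Γ.d * Γ.hs N t - Γ.hgt A) / Γ.d| ≤ |C1| := by
    rw [abs_div, abs_of_pos (zero_lt_one.trans_le hd')]
    refine (div_le_self (abs_nonneg _) hd').trans (h3.trans (le_abs_self _))
  have h6 : |(B.card : ℝ) * ((Γ.d * Γ.hs N t - Γ.hgt A) / Γ.d)| ≤ n * |C1| := by
    rw [abs_mul, Nat.abs_cast]
    exact mul_le_mul (by exact_mod_cast hcard) h5 (abs_nonneg _) (Nat.cast_nonneg _)
  rw [e1]
  calc |- (Γ.pair A B - (B.card * Γ.hs N t + N * Γ.hgt B)) -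
      B.card * ((Γ.d * Γ.hs N t - Γ.hgt A) / Γ.d)|
      ≤ |- (Γ.pair A B - (B.card * Γ.hs N t + N * Γ.hgt B))| +
        |(B.card : ℝ) * ((Γ.d * Γ.hs N t - Γ.hgt A) / Γ.d)| := abs_sub _ _
    _ ≤ C2 + n * |C1| := by rw [abs_neg]; exact add_le_add h4 h6
    _ = _ := by ring

end GSetup

end Fermat.Agent.H17
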