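/-
H17Bil: the quasi-bilinear form on rational classes (project S17; statements frozen by helper17, proofs by helper14)
-/
import Mathlib
import Fermat.Agent.H17GLE

set_option autoImplicit false

noncomputable section

open AlgebraicCurve WithZero Polynomial

namespace Fermat.Agent.H17

open Fermat.Agent.H3RR

namespace GSetup

variable {F : Type*} [Field F] [Algebra Qb F] [IsFF Qb F] (Γ : GSetup F)

theorem disjoint_of_avoid {A B : Multiset (Place Qb F)} [DecidableEq (Place Qb F)]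
    (h : ∀ P ∈ A, P ∉ B.toFinset) : Disjoint A B := by
  rw [Multiset.disjoint_left]
  intro P hP hB
  exact h P hP (Multiset.mem_toFinset.mpr hB)

theorem disjoint_add_left' {A A' B : Multiset (Place Qb F)} (h : Disjoint A B) (h' : Disjoint A' B) :
    Disjoint (A + A') B := by
  rw [Multiset.disjoint_left] at *
  intro P hP
  rcases Multiset.mem_add.mp hP with h1 | h1
  · exact h h1
  · exact h' h1

/-- `bil` depends only on the classes up to `O(1)` -/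
theorem exists_bil_sub_le (N M L : ℕ) : ∃ C : ℝ, ∀ c ∈ Γ.ratPic, ∀ A A' B : Multiset (Place Qb F),
    Γ.Rep N c A → Γ.Rep M c A' → Γ.RatM A → Γ.RatM A' → Γ.RatM B → B.card ≤ L →
    Disjoint A B → Disjoint A' B → |Γ.bil A B - Γ.bil A' B| ≤ C := by
  classical
  obtain ⟨m, hm, hgood⟩ := Γ.exists_good_rep
  obtain ⟨C₁, h₁⟩ := Γ.exists_bil_le (N + m) L
  obtain ⟨C₂, h₂⟩ := Γ.exists_bil_le (M + m) L
  refine ⟨C₁ + C₂, fun c hc A A' B hA hA' hrA hrA' hrB hB hd hd' => ?_⟩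
  obtain ⟨B₀, hB₀, hrB₀, -, hav⟩ := hgood m le_rfl (-c) (neg_mem hc) B.toFinset
  have hdB₀ : Disjoint B₀ B := disjoint_of_avoid hav
  have e1 := Rep.add Γ hA hB₀
  have e2 := Rep.add Γ hA' hB₀
  rw [add_neg_cancel] at e1 e2
  have i1 := h₁ (A + B₀) B e1 (Γ.RatM_add hrA hrB₀) hrB hB (disjoint_add_left' hd hdB₀)
  have i2 := h₂ (A' + B₀) B e2 (Γ.RatM_add hrA' hrB₀) hrB hB (disjoint_add_left' hd' hdB₀)
  rw [Γ.bil_add_left hd hdB₀] at i1
  rw [Γ.bil_add_left hd' hdB₀] at i2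
  rw [abs_le] at *
  constructor <;> linarith [i1.1, i1.2, i2.1, i2.2]

/-- existence of the quasi-bilinear form -/
theorem exists_beta : ∃ β : Γ.ratPic → Γ.ratPic → ℝ,
    (∀ N M, ∃ C : ℝ, ∀ (c c' : Γ.ratPic) (A B : Multiset (Place Qb F)), Γ.Rep N (c : Pic0 Qb F) A →
      Γ.Rep M (c' : Pic0 Qb F) B → Γ.RatM A → Γ.RatM B → Disjoint A B → |Γ.bil A B - β c c'| ≤ C) ∧
    (∃ C : ℝ, ∀ c c', |β c c' - β c' c| ≤ C) ∧
    (∃ C : ℝ, ∀ c c' c'', |β (c + c') c'' - (β c c'' + β c' c'')| ≤ C) := by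
  classical
  obtain ⟨m, hm, hgood⟩ := Γ.exists_good_rep
  have hchoose : ∀ p : Γ.ratPic × Γ.ratPic, ∃ q : Multiset (Place Qb F) × Multiset (Place Qb F),
      Γ.Rep m (p.1 : Pic0 Qb F) q.1 ∧ Γ.Rep m (p.2 : Pic0 Qb F) q.2 ∧ Γ.RatM q.1 ∧ Γ.RatM q.2 ∧
        Disjoint q.1 q.2 := by
    intro p
    obtain ⟨B, hB, hrB, -, -⟩ := hgood m le_rfl (p.2 : Pic0 Qb F) p.2.2 ∅
    obtain ⟨A, hA, hrA, -, hav⟩ := hgood m le_rfl (p.1 : Pic0 Qb F) p.1.2 B.toFinset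
    exact ⟨(A, B), hA, hB, hrA, hrB, disjoint_of_avoid hav⟩
  choose q hq1 hq2 hq3 hq4 hq5 using hchoose
  have key : ∀ N M, ∃ C : ℝ, ∀ (c c' : Γ.ratPic) (A B : Multiset (Place Qb F)),
      Γ.Rep N (c : Pic0 Qb F) A → Γ.Rep M (c' : Pic0 Qb F) B → Γ.RatM A → Γ.RatM B → Disjoint A B →
      |Γ.bil A B - Γ.bil (q (c, c')).1 (q (c, c')).2| ≤ C := by
    intro N M
    obtain ⟨C₁, h₁⟩ := Γ.exists_bil_sub_le N m (M * Γ.d)
    obtain ⟨C₂, h₂⟩ := Γ.exists_bil_sub_le M m (m * Γ.d)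
    obtain ⟨C₃, h₃⟩ := Γ.exists_bil_sub_le m m (m * Γ.d)
    refine ⟨C₁ + C₂ + C₃, fun c c' A B hA hB hrA hrB hd => ?_⟩
    set A₁ := (q (c, c')).1 with hA₁
    set B₁ := (q (c, c')).2 with hB₁
    have e1 : Γ.Rep m (c : Pic0 Qb F) A₁ := hq1 (c, c')
    have e2 : Γ.Rep m (c' : Pic0 Qb F) B₁ := hq2 (c, c')
    have e3 : Γ.RatM A₁ := hq3 (c, c')
    have e4 : Γ.RatM B₁ := hq4 (c, c')
    have e5 : Disjoint A₁ B₁ := hq5 (c, c')
    obtain ⟨A₂, hA₂, hrA₂, -, hav⟩ := hgood m le_rfl (c : Pic0 Qb F) c.2 (B.toFinset ∪ B₁.toFinset)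
    have d1 : Disjoint A₂ B := disjoint_of_avoid fun P hP h => hav P hP (Finset.mem_union_left _ h)
    have d2 : Disjoint A₂ B₁ := disjoint_of_avoid fun P hP h => hav P hP (Finset.mem_union_right _ h)
    have i1 := h₁ c c.2 A A₂ B hA hA₂ hrA hrA₂ hrB (Rep.card_eq Γ hB).le hd d1
    have i2 := h₂ c' c'.2 B B₁ A₂ hB e2 hrB e4 hrA₂ (Rep.card_eq Γ hA₂).le d1.symm d2.symm
    have i3 := h₃ c c.2 A₂ A₁ B₁ hA₂ e1 hrA₂ e3 e4 (Rep.card_eq Γ e2).le d2 e5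
    rw [Γ.bil_comm B A₂, Γ.bil_comm B₁ A₂] at i2
    rw [abs_le] at *
    constructor <;> linarith [i1.1, i1.2, i2.1, i2.2, i3.1, i3.2]
  refine ⟨fun c c' => Γ.bil (q (c, c')).1 (q (c, c')).2, key, ?_, ?_⟩
  · obtain ⟨C, hC⟩ := key m m
    refine ⟨C, fun c c' => ?_⟩
    have := hC c' c (q (c, c')).2 (q (c, c')).1 (hq2 (c, c')) (hq1 (c, c')) (hq4 (c, c')) (hq3 (c, c'))
      (hq5 (c, c')).symm
    rwa [Γ.bil_comm (q (c, c')).2 (q (c, c')).1] at this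
  · obtain ⟨C₁, h₁⟩ := key m m
    obtain ⟨C₂, h₂⟩ := key (m + m) m
    refine ⟨C₂ + C₁ + C₁, fun c c' c'' => ?_⟩
    obtain ⟨B, hB, hrB, -, -⟩ := hgood m le_rfl (c'' : Pic0 Qb F) c''.2 ∅
    obtain ⟨A, hA, hrA, -, hav⟩ := hgood m le_rfl (c : Pic0 Qb F) c.2 B.toFinset
    obtain ⟨A', hA', hrA', -, hav'⟩ := hgood m le_rfl (c' : Pic0 Qb F) c'.2 B.toFinset
    have d1 : Disjoint A B := disjoint_of_avoid hav
    have d2 : Disjoint A' B := disjoint_of_avoid hav'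
    have i1 := h₁ c c'' A B hA hB hrA hrB d1
    have i2 := h₁ c' c'' A' B hA' hB hrA' hrB d2
    have i3 := h₂ (c + c') c'' (A + A') B (Rep.add Γ hA hA') hB (Γ.RatM_add hrA hrA') hrB
      (disjoint_add_left' d1 d2)
    rw [Γ.bil_add_left d1 d2] at i3
    rw [abs_le] at *
    constructor <;> linarith [i1.1, i1.2, i2.1, i2.2, i3.1, i3.2]

/-- pure algebra: a quasi-bilinear form satisfies the parallelogram law up to `O(1)` -/
theorem exists_parallelogram {G : Type*} [AddCommGroup G] (β : G → G → ℝ) {C : ℝ}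
    (hs : ∀ c c', |β c c' - β c' c| ≤ C)
    (ha : ∀ c c' c'', |β (c + c') c'' - (β c c'' + β c' c'')| ≤ C) :
    (∃ C' : ℝ, ∀ x y, |β (x + y) (x + y) + β (x - y) (x - y) - 2 * (β x x + β y y)| ≤ C') ∧
    (∃ C' : ℝ, ∀ x, |β x (-x) + β x x| ≤ C') := by
  simp only [abs_le] at hs ha
  have ha2 : ∀ z a b, -(4 * C) ≤ β z (a + b) - (β z a + β z b) ∧
      β z (a + b) - (β z a + β z b) ≤ 4 * C := by
    intro z a b
    have h1 := hs z (a + b)
    have h2 := ha a b z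
    have h3 := hs a z
    have h4 := hs b z
    constructor <;> linarith [h1.1, h1.2, h2.1, h2.2, h3.1, h3.2, h4.1, h4.2]
  have h0 : ∀ z, -C ≤ β 0 z ∧ β 0 z ≤ C := by
    intro z
    have h1 := ha 0 0 z
    rw [add_zero] at h1
    constructor <;> linarith [h1.1, h1.2]
  have hneg : ∀ y z, -(2 * C) ≤ β y z + β (-y) z ∧ β y z + β (-y) z ≤ 2 * C := by
    intro y z
    have h1 := ha y (-y) z
    rw [add_neg_cancel] at h1
    have h2 := h0 z
    constructor <;> linarith [h1.1, h1.2, h2.1, h2.2]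
  have hneg2 : ∀ z y, -(6 * C) ≤ β z y + β z (-y) ∧ β z y + β z (-y) ≤ 6 * C := by
    intro z y
    have h1 := ha2 z y (-y)
    rw [add_neg_cancel] at h1
    have h2 := h0 z
    have h3 := hs z 0
    constructor <;> linarith [h1.1, h1.2, h2.1, h2.2, h3.1, h3.2]
  refine ⟨⟨34 * C, fun x y => ?_⟩, ⟨6 * C, fun x => ?_⟩⟩
  · rw [sub_eq_add_neg x y, abs_le]
    have a1 := ha x y (x + y)
    have a2 := ha2 x x y
    have a3 := ha2 y x y
    have b1 := ha x (-y) (x + -y)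
    have b2 := ha2 x x (-y)
    have b3 := ha2 (-y) x (-y)
    have c1 := hneg2 x y
    have c2 := hneg y x
    have c3 := hneg y (-y)
    have c4 := hneg2 y y
    constructor <;> linarith [a1.1, a1.2, a2.1, a2.2, a3.1, a3.2, b1.1, b1.2, b2.1, b2.2, b3.1, b3.2,
      c1.1, c1.2, c2.1, c2.2, c3.1, c3.2, c4.1, c4.2]
  · have := hneg2 x x
    rw [abs_le]
    constructor <;> linarith [this.1, this.2]

end GSetup

end Fermat.Agent.H17
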