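import Fermat.Agent.H17Hk
import Fermat.Agent.H18HkGen

/-!
# MZ-J2: the kernel of reduction is Hecke stable (helper17)
-/

set_option autoImplicit false
set_option linter.unusedSectionVars false

noncomputable section

open AlgebraicCurve ModularCurve
open scoped Pointwise

namespace Fermat.Agent.H17

open Fermat.Agent.H40 Fermat.Agent.H94 Fermat.Agent.H19 Fermat.Agent.H23

local notation "Qb" => AlgebraicClosure ℚ
local notation "Gq" => AlgebraicClosure ℚ ≃ₐ[ℚ] AlgebraicClosure ℚ

section Inst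

variable {A : ValuationSubring Qb} {N q : ℕ} [NeZero N] [NeZero q]
variable (hdeg : H42.DegLE Qb (IsLocalRing.ResidueField A) N)
  (hdeg' : H42.DegLE Qb (IsLocalRing.ResidueField A) (N * q))
variable [H94.FunField (IsLocalRing.ResidueField A)
      (modularFunctionFieldFullC (IsLocalRing.ResidueField A) N)]
  [H94.FunField (IsLocalRing.ResidueField A)
      (modularFunctionFieldFullC (IsLocalRing.ResidueField A) (N * q))]

set_option maxHeartbeats 1000000 in
theorem degMap_of (S : GoodRed Qb (modularFunctionFieldBar N) (IsLocalRing.ResidueField A)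
      (modularFunctionFieldFullC (IsLocalRing.ResidueField A) N))
    (S' : GoodRed Qb (modularFunctionFieldBar (N * q)) (IsLocalRing.ResidueField A)
      (modularFunctionFieldFullC (IsLocalRing.ResidueField A) (N * q)))
    (hS : S.toReductionData = H42.modRed hdeg)
    (hS' : S'.toReductionData = H42.modRed hdeg')
    [HasPrincipalDivisors Qb (modularFunctionFieldBar (N * q))]
    [HasPrincipalDivisors (IsLocalRing.ResidueField A)
      (modularFunctionFieldFullC (IsLocalRing.ResidueField A) (N * q))]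
    (γ : modularFunctionFieldBar N →ₐ[Qb] modularFunctionFieldBar (N * q))
    (γb : modularFunctionFieldFullC (IsLocalRing.ResidueField A) N →ₐ[IsLocalRing.ResidueField A]
      modularFunctionFieldFullC (IsLocalRing.ResidueField A) (N * q))
    (hmem : ∀ b ∈ (H42.modRed hdeg).B, γ b ∈ (H42.modRed hdeg').B)
    (hred : ∀ b : (H42.modRed hdeg).B, (H42.modRed hdeg').ρ ⟨γ b, hmem _ b.2⟩ =
      γb ((H42.modRed hdeg).ρ b))
    (hrk : finrankAlong Qb γ ≤ finrankAlong (IsLocalRing.ResidueField A) γb) :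
    DegMap S S' γ γb := by
  obtain ⟨R, g, c, r, pdF, pdE, riemF, riemE, isRed, div_red⟩ := S
  obtain ⟨R', g', c', r', pdF', pdE', riemF', riemE', isRed', div_red'⟩ := S'
  simp only at hS hS'
  subst hS hS'
  exact
    { int := isIntegral_of_funField γ
      intb := isIntegral_of_funField γb
      mem := fun b => hmem _ b.2
      red := hred
      FI := fundamentalIdentityAlong_of_funField γ _
      FIb := fundamentalIdentityAlong_of_funField γb _
      deg := hrk }

end Inst

theorem hecke_mem (N : ℕ) [NeZero N] {ℓ : ℕ} (hℓ : ℓ.Prime) (hℓN : ¬ ℓ ∣ N)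
    (A : ValuationSubring Qb) (hA : A.LiesOverPrime ℓ) (q : Nat.Primes) (hq : (q : ℕ) ≠ ℓ)
    (x : JZero N) (hx : x ∈ H15.KJ N A) : heckeOperatorBar N q x ∈ H15.KJ N A := by
  obtain ⟨q, hqp⟩ := q
  simp only at hq
  have : Fact q.Prime := ⟨hqp⟩
  have : NeZero q := ⟨hqp.ne_zero⟩
  have hℓNq : ¬ ℓ ∣ N * q := by
    rw [hℓ.dvd_mul]
    rintro (h | h)
    · exact hℓN h
    · exact hq ((Nat.prime_dvd_prime_iff_eq hℓ hqp).mp h).symm
  have hdeg := H42.degLE_place hℓ hA hℓN
  have hdeg' := H42.degLE_place hℓ hA hℓNq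
  have := H42.funField_right (L := Qb) N (H42.degLE_place hℓ hA hℓN)
  have := H42.funField_right (L := Qb) (N * q) (H42.degLE_place hℓ hA hℓNq)
  obtain ⟨T⟩ := exists_setup N hℓ hℓN A hA
  obtain ⟨T'⟩ := exists_setup (N * q) hℓ hℓNq A hA
  have := T'.S.pdF
  have := T'.S.pdE
  have hcast : ((N * q : ℕ) : IsLocalRing.ResidueField A) ≠ 0 :=
    H42.natCast_ne_zero_of_liesOver hℓ hA hℓNq
  have hpos : 0 < dedekindPsi N := H67.dedekindPsi_pos N
  have hrα : finrankAlong Qb (heckeAlphaBar Qb N q) ≤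
      finrankAlong (IsLocalRing.ResidueField A) (alphaC (IsLocalRing.ResidueField A) N q) := by
    have h1 := finrank_alphaC (IsLocalRing.ResidueField A) N q hcast
    have h2 := H67.relfinrank_full_mul (H67.degreeFact Qb) N q
    rw [← H67.finrank_alpha, ← h1] at h2
    exact (Nat.eq_of_mul_eq_mul_left hpos h2).le
  have hrβ : finrankAlong Qb (heckeBetaBar Qb N q) ≤
      finrankAlong (IsLocalRing.ResidueField A) (betaC (IsLocalRing.ResidueField A) N q) := by
    have h1 := finrank_betaC (IsLocalRing.ResidueField A) N q hcast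
    have h2 := H9.psi_mul_finrank_beta (L := Qb) N q
    rw [← h1] at h2
    exact (Nat.eq_of_mul_eq_mul_left hpos h2).le
  have Δα := degMap_of hdeg hdeg' T.S T'.S T.hS T'.hS (heckeAlphaBar Qb N q)
    (alphaC (IsLocalRing.ResidueField A) N q) (fun b hb => alpha_mem hdeg hdeg' hb)
    (fun b => alpha_red hdeg hdeg' b) hrα
  have Δβ := degMap_of hdeg hdeg' T.S T'.S T.hS T'.hS (heckeBetaBar Qb N q)
    (betaC (IsLocalRing.ResidueField A) N q) (fun b hb => beta_mem hdeg hdeg' hb)
    (fun b => beta_red hdeg hdeg' b) hrβ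
  rw [H15.KJ, AddMonoidHom.mem_ker, ← T.red] at hx ⊢
  obtain ⟨D, rfl, hD⟩ := exists_mk_red_zero hx
  obtain ⟨hα, hβ, hPD, hfin, hFI, hNF⟩ := H67.heckeInputsAlong_of_degreeFact (H67.degreeFact Qb) N q
  have hop : heckeOperatorBar N ⟨q, hqp⟩ (Pic0.mk D) =
      heckePic0Bar hα hβ hFI hfin hNF (Pic0.mk D) := by
    exact (heckeOperatorBar_apply N (⟨q, hqp⟩ : Nat.Primes) _).trans
      (DFunLike.congr_fun (heckeOperatorAlong_eq hα hβ hFI hfin hNF) _)
  rw [hop]
  have h1 : heckePic0Bar hα hβ hFI hfin hNF (Pic0.mk D) =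
      Pic0.mk (Pic0.degZeroCorrespondence (heckeBetaBar Qb N q) (heckeAlphaBar Qb N q)
        hβ hα hFI D) := rfl
  rw [h1, redPic0_mk, ← Pic0.mk_zero]
  congr 1
  apply Subtype.ext
  rw [coe_redDegZero, Pic0.coe_degZeroCorrespondence, Divisor.correspondence_apply]
  have h2 := Δα.push (Divisor.pullbackAlong (heckeBetaBar Qb N q) hβ (D : Divisor _ _))
  have h3 := Δβ.pull (D : Divisor _ _)
  rw [hD, map_zero] at h3
  rw [h3, map_zero] at h2
  exact h2

/-- **MZ-J2** -/
theorem heckeRed : H15.T_heckeRed :=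
  H18.t_heckeRed_of_gens fun N _ _ hℓ hℓN A hA q hq x hx => hecke_mem N hℓ hℓN A hA q hq x hx

end Fermat.Agent.H17
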