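import Fermat.Agent.H38S44B
import Fermat.Agent.H17HkMain

/-!
# S39 / S40: interfaces (helper40)

`k` = residue field of a place `A` above `p` of `ℚ̄`, `FC k N` = function field of `X_0(N)` over `k`.
-/

set_option autoImplicit false
set_option linter.unusedSectionVars false
set_option maxHeartbeats 1000000
set_option synthInstance.maxHeartbeats 200000

noncomputable section

open AlgebraicCurve ModularCurve
open Fermat.Agent.H39 (Tor GQb)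
open Fermat.Agent.H61.L5 (NewEmb)

namespace Fermat.Agent.H40C

local notation "Qb" => AlgebraicClosure ℚ

/-- the residue field -/
abbrev kA (A : ValuationSubring Qb) : Type := IsLocalRing.ResidueField A

/-- the function field of `X_0(N)` over `k` -/
abbrev FC (k : Type*) [Field k] (N : ℕ) : IntermediateField k (LaurentSeries k) :=
  modularFunctionFieldFullC k N

/-- `T_ℓ (div g) = a div g + p div h` for some `h`, where `T_ℓ = α_* β^*` on the divisors of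
`X_0(N)` over `k`. -/
def HRel {k : Type*} [Field k] (p N ℓ : ℕ) [NeZero N] [NeZero ℓ] (a : ℤ) (g : FC k N) : Prop :=
  ∃ h : FC k N, h ≠ 0 ∧ ∀ [HasPrincipalDivisors k (FC k (N * ℓ))]
    (hβ : (H17.betaC k N ℓ).toRingHom.IsIntegral)
    (hα : (H17.alphaC k N ℓ).toRingHom.IsIntegral) (D : Divisor k (FC k N)),
    (∀ w, D w = w.ord g) → ∀ w, Divisor.correspondence (H17.betaC k N ℓ) (H17.alphaC k N ℓ)
      hβ hα D w = a * w.ord g + p * w.ord h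

/-- supersingular places of `X_0(M)`, `4 ∣ M`: `Δ̄^{p-1}` has order `-12` -/
def SSp {k : Type*} [Field k] (p : ℕ) {M : ℕ} (s : Place k (FC k M)) : Prop :=
  0 ≤ s.ord (H34.Two.jk k M) ∧
    ∀ ub : FC k M, (ub : LaurentSeries k) = H28.deltaL k ^ (p - 1) → s.ord ub = -12

/-! ### The inputs -/

/-- **[HR]** (helper17) The Hecke relation on the reduction of a Kummer function. -/
def InHR : Prop := ∀ (p : ℕ) (_ : p.Prime) (A : ValuationSubring Qb) (_ : A.LiesOverPrime p)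
    (M : ℕ) [NeZero M] [NeZero (M * p)] (_ : ¬ p ∣ M) (ℓ : ℕ) [NeZero ℓ] (hℓ : ℓ.Prime)
    (_ : ¬ ℓ ∣ M * p)
    (D : Divisor.degZero (K := Qb) (F := H99.FX Qb (M * p))) (u : H99.FX Qb (M * p)) (_ : u ≠ 0)
    (_ : ∀ v : Place Qb (H99.FX Qb (M * p)),
      v.ord u = (p : ℤ) * (D : Divisor Qb (H99.FX Qb (M * p))) v)
    (a : ℤ) (_ : heckeOperatorBar (M * p) ⟨ℓ, hℓ⟩ (Pic0.mk D) =
      a • (Pic0.mk D : Pic0 Qb (H99.FX Qb (M * p))))
    (c : Qb) (g : FC (kA A) M) (_ : g ≠ 0)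
    (_ : H38.Mz.Red A (IsLocalRing.residue A)
      (algebraMap Qb (LaurentSeries Qb) c * (u : LaurentSeries Qb)) (g : LaurentSeries (kA A))),
    HRel p M ℓ a g

/-- **[P7]** (helper84) On `X_0(M)`, `4 ∣ M`, in characteristic `p`: a function whose orders are
divisible by `p` outside the supersingular places and constant modulo `p` on them, and which is a
Hecke eigenvector modulo `p` for one non Eisenstein `ℓ`, has all its orders divisible by `p`. -/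
def InP7 : Prop := ∀ (p : ℕ) (_ : p.Prime) (A : ValuationSubring Qb) (_ : A.LiesOverPrime p)
    (M : ℕ) [NeZero M] (_ : 4 ∣ M) (_ : ¬ p ∣ M) (ℓ : ℕ) [NeZero ℓ] (_ : ℓ.Prime)
    (_ : ¬ ℓ ∣ M * p) (g : FC (kA A) M) (_ : g ≠ 0)
    (_ : ∀ s : Place (kA A) (FC (kA A) M), ¬ SSp p s → (p : ℤ) ∣ s.ord g)
    (_ : ∀ s s' : Place (kA A) (FC (kA A) M), SSp p s → SSp p s' → (p : ℤ) ∣ s.ord g - s'.ord g)
    (a : ℤ) (_ : HRel p M ℓ a g) (_ : ¬ (p : ℤ) ∣ a - (ℓ + 1)),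
    ∀ s : Place (kA A) (FC (kA A) M), (p : ℤ) ∣ s.ord g

/-- **[T3]** (helper8, helper98, helper26) Descent of the divisibility from `X_0(M)` to `X_0(M₀)`
for `p = 3`. -/
def InT3 : Prop := ∀ (A : ValuationSubring Qb) (_ : A.LiesOverPrime 3)
    (M₀ M : ℕ) [NeZero M₀] [NeZero M] (_ : M₀ ∣ M) (_ : 4 ∣ M) (_ : M ∣ 4 * M₀) (_ : ¬ 3 ∣ M)
    (g₀ : FC (kA A) M₀) (_ : g₀ ≠ 0) (g : FC (kA A) M)
    (_ : (g : LaurentSeries (kA A)) = (g₀ : LaurentSeries (kA A)))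
    (_ : ∀ s : Place (kA A) (FC (kA A) M), (3 : ℤ) ∣ s.ord g)
    (S : Set ℕ) (_ : S.Finite) (a : ℕ → ℤ)
    (_ : ∀ (ℓ : ℕ) [NeZero ℓ], ℓ.Prime → ℓ ∉ S → ¬ ℓ ∣ M₀ * 3 → HRel 3 M₀ ℓ (a ℓ) g₀)
    (_ : ∃ ℓ : ℕ, ℓ.Prime ∧ ℓ ∉ S ∧ ¬ ℓ ∣ M₀ * 3 ∧ ¬ (3 : ℤ) ∣ a ℓ - (ℓ + 1)),
    ∀ w : Place (kA A) (FC (kA A) M₀), (3 : ℤ) ∣ w.ord g₀

/-- **[P8]** (helper18 8a, helper17 8b, helper12) A non `p`-th power on `X_0(M₀)` in
characteristic `p` with all orders divisible by `p`, eigenvector of the `T_ℓ` with eigenvalues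
`a_ℓ(W)`: residual modularity of level `M₀`. -/
def InP8 : Prop := ∀ (p : ℕ) (_ : p.Prime) (_ : p ≠ 2) (A : ValuationSubring Qb)
    (_ : A.LiesOverPrime p)
    (M₀ : ℕ) [NeZero M₀] (_ : ¬ p ∣ M₀) (W : WeierstrassCurve ℤ) (_ : W.Δ ≠ 0)
    (_ : W.ModRepIsIrreducible p)
    (g : FC (kA A) M₀) (_ : g ≠ 0) (_ : ∀ h : FC (kA A) M₀, h ^ p ≠ g)
    (_ : ∀ w : Place (kA A) (FC (kA A) M₀), (p : ℤ) ∣ w.ord g)
    (S : Set ℕ) (_ : S.Finite)
    (_ : ∀ (ℓ : ℕ) [NeZero ℓ], ℓ.Prime → ℓ ∉ S → ¬ ℓ ∣ M₀ * p → HRel p M₀ ℓ (W.apOfModel ℓ) g),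
    W.IsResiduallyModularOfLevel p M₀

/-- **[AUX3]** (helper36) Pull back to level `2R` is injective on `J_0(R)[3]`, `R` odd. -/
def InAux3 : Prop := ∀ (R : ℕ) [NeZero R] [NeZero (R * 2)] (_ : ¬ 2 ∣ R) (h : R * 1 ∣ R * 2)
    (x : JZero R), 3 • x = 0 → H67.degPull 1 h x = 0 → x = 0

/-- **[ES]** (helper47) `E`-side for good reduction: ordinary or supersingular. -/
def InES : Prop := ∀ (W : WeierstrassCurve ℤ) (_ : W.Δ ≠ 0) (p : ℕ) (_ : p.Prime) (_ : p ≠ 2)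
    (_ : ¬ (p : ℤ) ∣ W.Δ) (A : ValuationSubring Qb) (_ : A.LiesOverPrime p),
    (∃ V : AddSubgroup (H44E.TorQ W p), H44E.LineAtP p A (H44E.TorQ W p) V) ∨
      ∀ x y : H44E.TorQ W p, x ≠ 0 → y ≠ 0 → ∃ σ : A.inertiaSubgroupIn ℚ, σ • x = y

/-- **[SS]** (helper33) No new embedding in the supersingular case. -/
def InSS : Prop := ∀ (W : WeierstrassCurve ℤ) (_ : W.Δ ≠ 0) (p : Nat.Primes) (_ : (p : ℕ) ≠ 2)
    (_ : W.ModRepIsIrreducible p) (M₀ : ℕ) [NeZero M₀] [NeZero (M₀ * p)]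
    (S : Set ℕ) (_ : NewEmb W p M₀ S)
    (A : ValuationSubring Qb) (_ : A.LiesOverPrime p)
    (_ : ∀ x y : H44E.TorQ W p, x ≠ 0 → y ≠ 0 → ∃ σ : A.inertiaSubgroupIn ℚ, σ • x = y), False

end Fermat.Agent.H40C
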