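import Fermat.Agent.H17C1
import Fermat.Agent.H40CDef

/-!
# [HR]: the Hecke relation on the reduction of a Kummer function (helper17)
-/

set_option autoImplicit false
set_option linter.unusedSectionVars false

noncomputable section

open AlgebraicCurve ModularCurve

namespace Fermat.Agent.H17C

/-- **[HR]** -/
theorem inHR : H40C.InHR := by
  intro p hp A hA M _ _ hpM ℓ _ hℓ hℓN D u hu hord a hT c g hg hred
  have hℓp : ℓ ≠ p := by
    rintro rfl
    exact hℓN (dvd_mul_left _ _)
  have hpMℓ : ¬ p ∣ M * ℓ := by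
    rw [hp.dvd_mul]
    rintro (h | h)
    · exact hpM h
    · exact hℓp ((Nat.prime_dvd_prime_iff_eq hp hℓ).mp h).symm
  have h1 : IsAlgClosed (IsLocalRing.ResidueField A) := H18.isAlgClosed_residueField A
  have h2 : H94.FunField (IsLocalRing.ResidueField A)
      (modularFunctionFieldFullC (IsLocalRing.ResidueField A) M) :=
    H42.funField_right (L := AlgebraicClosure ℚ) M (H42.degLE_place hp hA hpM)
  have h3 : H94.FunField (IsLocalRing.ResidueField A)
      (modularFunctionFieldFullC (IsLocalRing.ResidueField A) (M * ℓ)) :=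
    H42.funField_right (L := AlgebraicClosure ℚ) (M * ℓ) (H42.degLE_place hp hA hpMℓ)
  obtain ⟨h, hh0, hh⟩ := exists_hrel hp hpM hA hℓ hℓN
    (H17.isIntegral_of_funField (H17.alphaC (IsLocalRing.ResidueField A) M ℓ))
    (H17.isIntegral_of_funField (H17.betaC (IsLocalRing.ResidueField A) M ℓ)) hu hord hT hg hred
  exact ⟨h, hh0, fun _ _ E hE w => hh E hE w⟩

end Fermat.Agent.H17C
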