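import Fermat.Agent.H80Inv
import Fermat.Agent.H75XRad
import Fermat.Agent.H56ZChar

/-!
# The kernels of the aleph operator (helper80, S47 C5-INV, part 2)

`kk ℓ A n = invA (H80Inv.iter ℓ A n)`: real one-variable kernels, smooth, Lipschitz, `IsK1`, with Abel transform
`iter ℓ A n`; the translation step `hs` of `H75X.radData_E`, `H75X.radData_F`; `khat0` of the tensor products.
-/

set_option autoImplicit false

noncomputable section

open MeasureTheory Set Filter Topology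
open scoped Real ContDiff

namespace Fermat.Agent.H80Inv

open Fermat.Agent.H59K (tn IsK1 k1)
open Fermat.Agent.H56Z (abel khat0 khat0_eq_integral_abel)
open Fermat.Agent.H75X (ab1 abel_tn_eq abel_k1)

variable {ℓ : ℝ} {A : ℝ → ℝ}

/-- The kernels. -/
def kk (ℓ : ℝ) (A : ℝ → ℝ) (n : ℕ) : ℝ → ℝ := invA (H80Inv.iter ℓ A n)

theorem Seed.isK1 (h : Seed ℓ A) : IsK1 (invA A) where
  cont := h.contDiff_invA.continuous
  bdd := by
    obtain ⟨M, -, hM⟩ := h.exists_bound_invA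
    exact ⟨M, hM⟩
  supp := by
    obtain ⟨R, -, hR⟩ := h.invA_eq_zero_far
    exact ⟨R, hR⟩

theorem Seed.isK1_kk (h : Seed ℓ A) (n : ℕ) : IsK1 (kk ℓ A n) := (h.iter n).isK1

theorem Seed.ab1_invA (h : Seed ℓ A) (s : ℝ) : ab1 (invA A) s = (A s : ℂ) := by
  unfold ab1
  rw [integral_complex_ofReal, ← h.abel_invA s]
  push_cast
  rfl

theorem Seed.ab1_kk (h : Seed ℓ A) (n : ℕ) (s : ℝ) : ab1 (kk ℓ A n) s = (H80Inv.iter ℓ A n s : ℂ) :=
  (h.iter n).ab1_invA s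

/-- The translation step. -/
theorem Seed.hs (h : Seed ℓ A) (n : ℕ) (u : Fin 1 → ℝ) :
    abel (k1 (kk ℓ A (n + 1))) u =
      abel (k1 (kk ℓ A n)) (u + fun _ => ℓ) + abel (k1 (kk ℓ A n)) (u - fun _ => ℓ) := by
  rw [abel_k1, abel_k1, abel_k1, h.ab1_kk, h.ab1_kk, h.ab1_kk, H80Inv.iter_succ]
  simp only [Pi.add_apply, Pi.sub_apply]
  push_cast
  rfl

theorem Seed.abel_tn (h : Seed ℓ A) {J : Type*} [Fintype J] (n : J → ℕ) (u : J → ℝ) :
    abel (tn fun j => kk ℓ A (n j)) u = ∏ j, (H80Inv.iter ℓ A (n j) (u j) : ℂ) := by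
  rw [abel_tn_eq]
  exact Finset.prod_congr rfl fun j _ => h.ab1_kk _ _

theorem Seed.khat0_tn (h : Seed ℓ A) {J : Type*} [Fintype J] (n : J → ℕ) :
    khat0 (tn fun j => kk ℓ A (n j)) = 2 ^ (∑ j, n j) * ((∫ u, A u : ℝ) : ℂ) ^ Fintype.card J := by
  rw [khat0_eq_integral_abel]
  simp only [h.abel_tn n]
  rw [integral_fintype_prod_volume_eq_prod (fun j s => (H80Inv.iter ℓ A (n j) s : ℂ))]
  have h1 : ∀ j, ∫ s : ℝ, (H80Inv.iter ℓ A (n j) s : ℂ) = 2 ^ (n j) * ((∫ u, A u : ℝ) : ℂ) := by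
    intro j
    rw [integral_complex_ofReal, h.integral_iter]
    push_cast
    rfl
  simp only [h1]
  rw [Finset.prod_mul_distrib, Finset.prod_pow_eq_pow_sum, Finset.prod_const, Finset.card_univ]

/-- **Existence of the kernels** for `ℓ > 0`. -/
theorem exists_kernels {ℓ : ℝ} (hℓ : 0 < ℓ) : ∃ (k : ℕ → ℝ → ℝ) (I : ℝ), 0 < I ∧
    (∀ n, IsK1 (k n)) ∧ (∀ n, ContDiff ℝ ∞ (k n)) ∧ (∀ n, ∃ C : NNReal, LipschitzWith C (k n)) ∧
    (∀ n t, t ≤ 1 → k n t = 0) ∧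
    (∀ n (u : Fin 1 → ℝ), abel (k1 (k (n + 1))) u =
      abel (k1 (k n)) (u + fun _ => ℓ) + abel (k1 (k n)) (u - fun _ => ℓ)) ∧
    (∀ {J : Type} [Fintype J] (n : J → ℕ),
      khat0 (tn fun j => k (n j)) = 2 ^ (∑ j, n j) * (I : ℂ) ^ Fintype.card J) ∧
    (∀ {J : Type} [Fintype J] (n : J → ℕ) (u : J → ℝ), ∃ r : ℝ,
      abel (tn fun j => k (n j)) u = (r : ℂ) ∧ 0 ≤ r) := by
  obtain ⟨A, hA, hI⟩ := exists_seed hℓ
  refine ⟨kk ℓ A, ∫ u, A u, hI, hA.isK1_kk, fun n => (hA.iter n).contDiff_invA,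
    fun n => (hA.iter n).exists_lipschitz_invA, fun n t ht => (hA.iter n).invA_eq_zero_of_le ht,
    hA.hs, fun n => hA.khat0_tn n, fun n u => ?_⟩
  refine ⟨∏ j, iter ℓ A (n j) (u j), ?_, Finset.prod_nonneg fun j _ => (hA.iter _).nonneg _⟩
  rw [hA.abel_tn]
  push_cast
  rfl

end Fermat.Agent.H80Inv
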