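import Fermat.Agent.H17B2
import Fermat.Agent.H59K4
import Fermat.Agent.H56ZTgt3
import Fermat.Agent.H80Inv2

/-!
# S47, block (C): the family of the operator `C` (helper17, CFAM)

For `w : Fin 3 → places of E` (allowed, over one place `v` of `F`, permuted cyclically by the
automorphism) and one-variable kernels `k`:
* `fKE k N i`, `nE w i` : the family;
* `sumE`, `sumB` : the sums of the test kernels are helper59's `fk`;
* `s_invE` : invariance under the automorphism;
* `sum_evP`, `sum_evP_ne` : the value on the target.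
-/

set_option autoImplicit false
set_option linter.unusedSectionVars false

noncomputable section

open MeasureTheory Set Filter
open scoped ENNReal ComplexConjugate MatrixGroups

namespace Fermat.Agent.H17S

open Fermat.Agent.H32Z Fermat.Agent.H59XF Fermat.Agent.H59D Fermat.Agent.H51Z Fermat.Agent.H56Z
  Fermat.Agent.H5Z Fermat.Agent.H59K Fermat.Agent.H67M
open IsDedekindDomain NumberField Fermat.Agent.H79S

/-- The index type of the family. -/
abbrev IxS : Type := {n : Ix // n ∈ ixs}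

/-- The radial kernels of the family. -/
def fKE (q : ℝ) (k : ℕ → ℝ → ℝ) (N : ℕ) (i : Ix) : (Fin 3 → ℝ) → ℂ :=
  it (tn fun _ => k 0) N (kE q k i)

theorem isRC_fKE (q : ℝ) {k : ℕ → ℝ → ℝ} (hk : ∀ i, IsK1 (k i)) (N : ℕ) (i : Ix) :
    IsRC (fKE q k N i) :=
  isRC_it (isRC_tn fun _ => hk 0) (isRC_kE q hk i) N

theorem isReal_tn {J : Type*} [Fintype J] (k : J → ℝ → ℝ) : IsReal (tn k) :=
  fun _ => Complex.conj_ofReal _

theorem isReal_fKE (q : ℝ) (k : ℕ → ℝ → ℝ) (N : ℕ) (i : Ix) : IsReal (fKE q k N i) :=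
  IsReal.it (isReal_tn _) (isReal_kE q k i) N

variable {F E : Type} [Field F] [NumberField F] [Field E] [NumberField E] [Algebra F E]

section Fam

variable (C : CSetup F E) {w : Fin 3 → HeightOneSpectrum (𝓞 E)} {v : HeightOneSpectrum (𝓞 F)}
  {q : ℝ} {k : ℕ → ℝ → ℝ}

theorem mem_support_nE {P : Type*} {w : Fin 3 → P} {n : Ix} {p : P} (h : p ∈ (nE w n).support) :
    ∃ j, w j = p := by
  classical
  unfold nE at h
  obtain ⟨j, -, hj⟩ := Finset.mem_biUnion.1 (Finsupp.support_finset_sum h)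
  have := Finsupp.support_single_subset hj
  rw [Finset.mem_singleton] at this
  exact ⟨j, this.symm⟩

variable {C} in
theorem okN_nE (hw : ∀ j, C.Ok (w j)) (n : Ix) : C.OkN (nE w n) := by
  intro p hp
  obtain ⟨j, rfl⟩ := mem_support_nE hp
  exact hw j

/-- the sum of the test kernels on `E` -/
theorem sumE (q : ℝ) (k : ℕ → ℝ → ℝ) (N : ℕ) (w : Fin 3 → HeightOneSpectrum (𝓞 E)) :
    (fun x y : C.mE.X => ∑ i : IxS, C.tkE (fKE q k N i) (nE w i) 0 x y) =
      fk C.mE ixs (fun i => it (tn fun _ => k 0) N (kE q k i))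
        (fun n => C.kE.D.mono (nE w n) 0) := by
  funext x y
  exact Finset.sum_coe_sort ixs fun i => C.tkE (fKE q k N i) (nE w i) 0 x y

/-- the sum of the test kernels on `F` -/
theorem sumB (q : ℝ) {k : ℕ → ℝ → ℝ} (hk : ∀ i, IsK1 (k i)) (N : ℕ)
    (hwv : ∀ j, H47.below F (w j) = v) :
    (fun x y : C.mF.X => ∑ i : IxS, C.tkB (fKE q k N i) (nE w i) 0 x y) =
      fk C.mF ixs (fun i => it (k1 (k 0)) (3 * N) (kF q k i))
        (fun n => C.kF.D.mono (nE (fun _ => v) n) 0) := by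
  funext x y
  refine (Finset.sum_coe_sort ixs fun i => C.tkB (fKE q k N i) (nE w i) 0 x y).trans ?_
  unfold fk
  refine Finset.sum_congr rfl fun i _ => ?_
  show C.mF.ker (bF (it (tn fun _ => k 0) N (kE q k i)))
    (C.kF.D.mono ((nE w i).mapDomain (H47.below F)) (3 * 0)).k x y = _
  rw [bF_it (hk 0) (isRC_kE q hk i), nE_mapDomain, mul_zero]
  have h1 : (fun j => H47.below F (w j)) = fun _ => v := funext hwv
  rw [h1]
  rfl

/-- **Invariance under the automorphism.** -/
theorem s_invE (hσ : ∀ j, C.aE.σ (w j) = w (j + 1)) (q : ℝ) (k : ℕ → ℝ → ℝ) (N : ℕ)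
    (x y : C.mE.X) :
    ∑ i : IxS, C.tkE (fKE q k N i) (nE w i) 0 (C.aE.act x) (C.aE.act y) =
      ∑ i : IxS, C.tkE (fKE q k N i) (nE w i) 0 x y := by
  have h1 := congrFun (congrFun (sumE C q k N w) (C.aE.act x)) (C.aE.act y)
  have h2 := congrFun (congrFun (sumE C q k N w) x) y
  refine h1.trans (Eq.trans ?_ h2.symm)
  refine fk_act C.aE (prm (Equiv.sumCongr (Equiv.addRight (-1)) C.aE.c.symm))
    (fun i => prm_mem_ixs _) (fun i _ t => ?_) (fun i _ x y => ?_) x y
  · have h3 : kE q k (prm (Equiv.sumCongr (Equiv.addRight (-1)) C.aE.c.symm) i) =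
        fun t => kE q k i fun j => t (C.aE.c.symm j) := funext fun t => kE_prm q k _ _ i t
    rw [h3]
    exact (it_perm (isSym_tn (k 0)) N (kE q k i) C.aE.c.symm t).symm
  · have h3 : (nE w (prm (Equiv.sumCongr (Equiv.addRight (-1)) C.aE.c.symm) i)).mapDomain
        C.aE.σ = nE w i := by
      rw [nE_prm, nE_mapDomain]
      congr 1
      funext j
      rw [hσ]
      congr 1
      exact neg_add_cancel_right j 1
    have h4 := isTw_mono C (nE w (prm (Equiv.sumCongr (Equiv.addRight (-1)) C.aE.c.symm) i)) 0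
    rw [h3] at h4
    exact (h4.k_act x y).symm

end Fam

/-! ### The value on the target -/

section Val

variable {w : Fin 3 → HeightOneSpectrum (𝓞 E)} {a : HeightOneSpectrum (𝓞 E) → ℝ}

theorem khat0_const_mul {J : Type*} [Fintype J] (c : ℂ) (κ : (J → ℝ) → ℂ) :
    khat0 (fun t => c * κ t) = c * khat0 κ := by
  rw [khat0_eq_integral_abel, khat0_eq_integral_abel, ← integral_const_mul]
  congr 1
  funext u
  unfold abel
  rw [integral_const_mul]
  ring

theorem prod_nE {P : Type*} (w : Fin 3 → P) (x : P → ℂ) (n : Ix) :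
    ((nE w n).prod fun p m => x p ^ m) = ∏ j, x (w j) ^ n (Sum.inl j) := by
  classical
  unfold nE
  rw [← Finsupp.prod_finsetSum_index (h := fun p m => x p ^ m) (fun _ => pow_zero _)
    fun _ _ _ => pow_add _ _ _]
  refine Finset.prod_congr rfl fun j _ => ?_
  exact Finsupp.prod_single_index (pow_zero _)

theorem khat0_kE (q : ℝ) {k : ℕ → ℝ → ℝ} {h : ℂ}
    (hv : ∀ i : Fin 3 → ℕ, khat0 (tn fun j => k (i j)) = ∏ j, (2 ^ i j * h)) (n : Ix) :
    khat0 (kE q k n) = (cf q n : ℂ) * ∏ j : Fin 3, (2 ^ n (Sum.inr j) * h) := by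
  have h1 : kE q k n = fun t => (cf q n : ℂ) * tn (fun j => k (n (Sum.inr j))) t := rfl
  rw [h1, khat0_const_mul, hv fun j => n (Sum.inr j)]

/-- **The value on the target.** -/
theorem sum_evP_ne (q : ℝ) {k : ℕ → ℝ → ℝ} (hk : ∀ i, IsK1 (k i)) {h : ℂ} (hh : h ≠ 0)
    (hv : ∀ i : Fin 3 → ℕ, khat0 (tn fun j => k (i j)) = ∏ j, (2 ^ i j * h))
    (ha : ∀ j, a (w j) = 0) (N : ℕ) : ∑ i ∈ ixs, evP a (fKE q k N i) (nE w i) ≠ 0 := by
  have h0 : khat0 (tn fun _ : Fin 3 => k 0) ≠ 0 := by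
    rw [hv fun _ => 0]
    exact Finset.prod_ne_zero_iff.2 fun j _ => mul_ne_zero (pow_ne_zero _ two_ne_zero) hh
  have h1 : ∀ i ∈ ixs, evP a (fKE q k N i) (nE w i) = khat0 (tn fun _ : Fin 3 => k 0) ^ N *
      ((cf q i : ℂ) * (∏ j : Fin 3, (2 ^ i (Sum.inr j) * h)) *
        ∏ j, (0 : Fin 3 → ℂ) j ^ i (Sum.inl j)) := by
    intro i _
    unfold evP fKE
    rw [hat_eq_khat0 (isRC_it (isRC_tn fun _ => hk 0) (isRC_kE q hk i) N),
      khat0_it (isRC_tn fun _ => hk 0) (isRC_kE q hk i), khat0_kE q hv, prod_nE, mul_assoc]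
    congr 2
    refine Finset.prod_congr rfl fun j _ => ?_
    rw [evT, ha j, mul_zero, Complex.ofReal_zero]
    rfl
  rw [Finset.sum_congr rfl h1, ← Finset.mul_sum]
  exact mul_ne_zero (pow_ne_zero _ h0) (value_ne_zero q hh)

end Val

end Fermat.Agent.H17S
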