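/-
H17Setup: existence of a rational height setup (project S17; statements frozen by helper17, proofs by the job owner; helper lemmas may be added)
-/
import Mathlib
import Fermat.Agent.H17GDefs

import Fermat.Agent.H17Ram

set_option autoImplicit false

noncomputable section

open AlgebraicCurve WithZero Polynomial

namespace Fermat.Agent.H17

open Fermat.Agent.H3RR

section Pt

variable {K F : Type*} [Field K] [Field F] [Algebra K F] [IsAlgClosed K] [IsFF K F]

omit [IsAlgClosed K] [IsFF K F] in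
theorem nsmul_single_apply (pt : Place K F) [DecidableEq (Place K F)] (n : ℕ) (v : Place K F) :
    (n • (Finsupp.single pt 1 : Divisor K F)) v = if v = pt then (n : ℤ) else 0 := by
  rw [Finsupp.smul_apply, Finsupp.single_apply]
  by_cases h : v = pt
  · rw [if_pos h.symm, if_pos h]; simp
  · rw [if_neg (fun h' => h h'.symm), if_neg h]; simp

omit [IsAlgClosed K] [IsFF K F] in
theorem mem_L_pt (pt : Place K F) [DecidableEq (Place K F)] (n : ℕ) (a : F) :
    a ∈ riemannRochSpace (n • (Finsupp.single pt 1 : Divisor K F)) ↔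
      a = 0 ∨ ∀ v : Place K F, (if v = pt then -(n : ℤ) else 0) ≤ v.ord a := by
  rw [mem_riemannRochSpace_iff]
  by_cases ha : a = 0
  · simp [ha]
  · rw [or_iff_right ha]
    refine forall_congr' fun v => ?_
    rw [or_iff_right ha, nsmul_single_apply]
    by_cases h : v = pt
    · rw [if_pos h, if_pos h]
    · rw [if_neg h, if_neg h]; simp

theorem ord_of_poleDiv_pt {pt : Place K F} {f : F} (hf : Transcendental K f) {m0 : ℕ}
    (hm : (poleDiv f : Divisor K F) = m0 • (Finsupp.single pt 1 : Divisor K F)) (v : Place K F) :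
    (v = pt → v.ord f = -m0) ∧ (v ≠ pt → 0 ≤ v.ord f) := by
  classical
  have hf0 : f ≠ 0 := transcendental_ne_zero hf
  have hm0 : 0 < m0 := by
    rcases Nat.eq_zero_or_pos m0 with h | h
    · exfalso
      have h1 := degree_poleDiv hf
      rw [hm, h, zero_smul, map_zero] at h1
      have := IsFF.finiteDimensional (K := K) (F := F) hf
      have h2 : 0 < Module.finrank (IntermediateField.adjoin K {f}) F := Module.finrank_pos
      omega
    · exact h
  have h1 : (poleDiv f : Divisor K F) v = max (- v.ord f) 0 := poleDiv_apply hf0 v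
  rw [hm, nsmul_single_apply] at h1
  refine ⟨fun h => ?_, fun h => ?_⟩
  · rw [if_pos h] at h1; omega
  · rw [if_neg h] at h1; omega

theorem poleDiv_pow_pt {pt : Place K F} {f : F} (hf : Transcendental K f) {m0 : ℕ}
    (hm : (poleDiv f : Divisor K F) = m0 • (Finsupp.single pt 1 : Divisor K F)) (M : ℕ) :
    (poleDiv (f ^ M) : Divisor K F) = (M * m0) • (Finsupp.single pt 1 : Divisor K F) := by
  classical
  have hf0 : f ≠ 0 := transcendental_ne_zero hf
  ext v
  rw [poleDiv_apply (pow_ne_zero _ hf0), nsmul_single_apply, ord_pow_nat]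
  obtain ⟨h1, h2⟩ := ord_of_poleDiv_pt hf hm v
  by_cases h : v = pt
  · rw [if_pos h, h1 h]
    push_cast
    rw [mul_neg, neg_neg]
    exact max_eq_left (by positivity)
  · rw [if_neg h]
    have := h2 h
    exact max_eq_right (by have : 0 ≤ (M : ℤ) * v.ord f := by positivity
                           omega)

omit [IsAlgClosed K] [IsFF K F] in
/-- iterating the pencil -/
theorem pencil_iter (pt : Place K F) {f : F} {m0 n2 : ℕ}
    (h2 : ∀ n, n2 ≤ n → ∀ h ∈ riemannRochSpace ((n + m0) • (Finsupp.single pt 1 : Divisor K F)),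
      ∃ a ∈ riemannRochSpace (n • (Finsupp.single pt 1 : Divisor K F)),
      ∃ b ∈ riemannRochSpace (n • (Finsupp.single pt 1 : Divisor K F)), h = a + f * b)
    (n : ℕ) (hn : n2 ≤ n) (j : ℕ) :
    riemannRochSpace ((n + j * m0) • (Finsupp.single pt 1 : Divisor K F)) ≤
      Submodule.span K {u : F | ∃ i ≤ j, ∃ a ∈ riemannRochSpace (n • (Finsupp.single pt 1 : Divisor K F)),
        u = f ^ i * a} := by
  induction j with
  | zero =>
    intro h hh
    rw [zero_mul, add_zero] at hh
    exact Submodule.subset_span ⟨0, le_rfl, h, hh, by rw [pow_zero, one_mul]⟩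
  | succ j ih =>
    intro h hh
    obtain ⟨a, ha, b, hb, rfl⟩ := h2 (n + j * m0) (by omega) h (by
      rw [show n + j * m0 + m0 = n + (j + 1) * m0 by ring]; exact hh)
    refine add_mem ?_ ?_
    · refine Submodule.span_mono ?_ (ih ha)
      rintro _ ⟨i, hi, c, hc, rfl⟩
      exact ⟨i, by omega, c, hc, rfl⟩
    · have h3 := Submodule.mem_map_of_mem (f := LinearMap.mulLeft K f) (ih hb)
      rw [Submodule.map_span] at h3
      refine Submodule.span_mono ?_ h3
      rintro _ ⟨_, ⟨i, hi, c, hc, rfl⟩, rfl⟩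
      exact ⟨i + 1, by omega, c, hc, by rw [LinearMap.mulLeft_apply, pow_succ]; ring⟩

/-- generation of the section rings in degree one -/
theorem exists_gen (pt : Place K F) {f : F} (hf : Transcendental K f) {m0 : ℕ}
    (hm : (poleDiv f : Divisor K F) = m0 • (Finsupp.single pt 1 : Divisor K F)) :
    ∃ M : ℕ, 0 < M ∧ ∀ N : ℕ, 0 < N → W K (f ^ M) N ≤ W K (f ^ M) 1 ^ N := by
  classical
  have hf0 : f ≠ 0 := transcendental_ne_zero hf
  obtain ⟨n2, hn2⟩ := exists_pencil pt hf hm
  have hm0 : 0 < m0 := by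
    rcases Nat.eq_zero_or_pos m0 with h | h
    · exfalso
      have h1 := degree_poleDiv hf
      rw [hm, h, zero_smul, map_zero] at h1
      have := IsFF.finiteDimensional (K := K) (F := F) hf
      have h2 : 0 < Module.finrank (IntermediateField.adjoin K {f}) F := Module.finrank_pos
      omega
    · exact h
  refine ⟨n2 + 1, Nat.succ_pos _, ?_⟩
  obtain ⟨M, hM⟩ : ∃ M, M = n2 + 1 := ⟨_, rfl⟩
  rw [← hM]
  have hM0 : M ≠ 0 := by omega
  have hx : Transcendental K (f ^ M) := hf.pow (by omega)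
  have hWL : ∀ N, W K (f ^ M) N = riemannRochSpace ((N * (M * m0)) • (Finsupp.single pt 1 : Divisor K F)) := by
    intro N
    ext s
    rw [mem_W_iff_mem_L hx, poleDiv_pow_pt hf hm, ← mul_smul]
  intro N hN
  induction N, hN using Nat.le_induction with
  | base => rw [pow_one]
  | succ N hN ih =>
    have h1 : W K (f ^ M) (N + 1) ≤ W K (f ^ M) N * W K (f ^ M) 1 := by
      rw [hWL (N + 1), show (N + 1) * (M * m0) = N * (M * m0) + M * m0 by ring]
      refine (pencil_iter pt hn2 (N * (M * m0)) ?_ M).trans ?_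
      · calc n2 ≤ M := by omega
          _ = 1 * (M * 1) := by ring
          _ ≤ N * (M * m0) := Nat.mul_le_mul hN (Nat.mul_le_mul le_rfl hm0)
      · rw [Submodule.span_le]
        rintro _ ⟨i, hi, a, ha, rfl⟩
        rw [mul_comm (f ^ i) a]
        refine Submodule.mul_mem_mul (by rw [hWL]; exact ha) ?_
        rw [hWL, mem_L_pt]
        right
        intro v
        rw [ord_pow_nat, one_mul]
        obtain ⟨h3, h4⟩ := ord_of_poleDiv_pt hf hm v
        by_cases h : v = pt
        · rw [if_pos h, h3 h]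
          have : i * m0 ≤ M * m0 := Nat.mul_le_mul hi le_rfl
          have h5 : ((i * m0 : ℕ) : ℤ) ≤ ((M * m0 : ℕ) : ℤ) := by exact_mod_cast this
          push_cast at h5 ⊢
          linarith
        · rw [if_neg h]
          have := h4 h
          positivity
    calc W K (f ^ M) (N + 1) ≤ W K (f ^ M) N * W K (f ^ M) 1 := h1
      _ ≤ W K (f ^ M) 1 ^ N * W K (f ^ M) 1 := Submodule.smul_mono_left ih
      _ = W K (f ^ M) 1 ^ (N + 1) := (pow_succ _ _).symm

theorem exists_bound_ord (h : F) (hh : h ≠ 0) : ∃ k : ℕ, ∀ v : Place K F, -(k : ℤ) ≤ v.ord h := by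
  classical
  refine ⟨∑ v ∈ (finite_support_ord (K := K) hh).toFinset, (v.ord h).natAbs, fun v => ?_⟩
  by_cases hv : v.ord h = 0
  · rw [hv]; omega
  · have h1 : v ∈ (finite_support_ord (K := K) hh).toFinset := by
      rw [Set.Finite.mem_toFinset]; exact hv
    have h2 : (v.ord h).natAbs ≤ ∑ v ∈ (finite_support_ord (K := K) hh).toFinset, (v.ord h).natAbs :=
      Finset.single_le_sum (f := fun v : Place K F => (v.ord h).natAbs) (fun _ _ => Nat.zero_le _) h1
    omega

omit [IsAlgClosed K] [IsFF K F] in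
theorem pow_mul_mem_adjoin (M : Submodule K F) (c : F) (n : ℕ) : ∀ h ∈ M ^ n,
    h * c ^ n ∈ Algebra.adjoin K ((fun s => s * c) '' (M : Set F)) := by
  induction n with
  | zero =>
    intro h hh
    rw [pow_zero] at hh
    obtain ⟨r, rfl⟩ := Submodule.mem_one.mp hh
    rw [pow_zero, mul_one]
    exact Subalgebra.algebraMap_mem _ r
  | succ n ih =>
    intro h hh
    rw [Submodule.pow_succ] at hh
    refine Submodule.mul_induction_on hh ?_ ?_
    · intro a ha b hb
      rw [show a * b * c ^ (n + 1) = (a * c ^ n) * (b * c) by ring]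
      exact mul_mem (ih a ha) (Algebra.subset_adjoin ⟨b, hb, rfl⟩)
    · intro a b ha hb
      rw [add_mul]
      exact add_mem ha hb

theorem gen0_of_pow {pt : Place K F} {x : F} (hx : Transcendental K x) {m : ℕ}
    (hm : (poleDiv x : Divisor K F) = m • (Finsupp.single pt 1 : Divisor K F))
    (hgen : ∀ N : ℕ, 0 < N → W K x N ≤ W K x 1 ^ N) (f : F)
    (hf : ∀ v : Place K F, x ∈ v.toValuationSubring → f ∈ v.toValuationSubring) :
    f ∈ Algebra.adjoin K (W K x 1 : Set F) := by
  classical
  by_cases hf0 : f = 0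
  · rw [hf0]; exact zero_mem _
  have hx0 := transcendental_ne_zero hx
  obtain ⟨k, hk⟩ := exists_bound_ord (K := K) f hf0
  have hm0 : 0 < m := by
    rcases Nat.eq_zero_or_pos m with h | h
    · exfalso
      have h1 := degree_poleDiv hx
      rw [hm, h, zero_smul, map_zero] at h1
      have := IsFF.finiteDimensional (K := K) (F := F) hx
      have h2 : 0 < Module.finrank (IntermediateField.adjoin K {x}) F := Module.finrank_pos
      omega
    · exact h
  have h1 : f ∈ W K x (k + 1) := by
    rw [mem_W_iff_mem_L hx, hm, ← mul_smul, mem_L_pt]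
    right
    intro v
    obtain ⟨h3, h4⟩ := ord_of_poleDiv_pt hx hm v
    by_cases h : v = pt
    · rw [if_pos h]
      have h5 := hk v
      have h6 : (k : ℤ) + 1 ≤ ((k + 1) * m : ℕ) := by
        have : (k + 1) * 1 ≤ (k + 1) * m := Nat.mul_le_mul le_rfl hm0
        push_cast
        have h7 : (((k + 1) * 1 : ℕ) : ℤ) ≤ (((k + 1) * m : ℕ) : ℤ) := by exact_mod_cast this
        push_cast at h7
        linarith
      omega
    · rw [if_neg h]
      exact (mem_place_iff_ord v hf0).mp (hf v ((mem_place_iff_ord v hx0).mpr (h4 h)))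
  have h2 := pow_mul_mem_adjoin _ 1 _ _ (hgen (k + 1) (Nat.succ_pos _) h1)
  simpa using h2

theorem gen1_of_pow {pt : Place K F} {x : F} (hx : Transcendental K x) {m : ℕ}
    (hm : (poleDiv x : Divisor K F) = m • (Finsupp.single pt 1 : Divisor K F))
    (hgen : ∀ N : ℕ, 0 < N → W K x N ≤ W K x 1 ^ N) (f : F)
    (hf : ∀ v : Place K F, x⁻¹ ∈ v.toValuationSubring → f ∈ v.toValuationSubring) :
    f ∈ Algebra.adjoin K ((fun s => s * x⁻¹) '' (W K x 1 : Set F)) := by
  classical
  by_cases hf0 : f = 0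
  · rw [hf0]; exact zero_mem _
  have hx0 := transcendental_ne_zero hx
  obtain ⟨k, hk⟩ := exists_bound_ord (K := K) f hf0
  have h1 : f * x ^ (k + 1) ∈ W K x (k + 1) := by
    rw [mem_W_iff_mem_L hx, hm, ← mul_smul, mem_L_pt]
    right
    intro v
    rw [v.ord_mul hf0 (pow_ne_zero _ hx0), ord_pow_nat]
    obtain ⟨h3, h4⟩ := ord_of_poleDiv_pt hx hm v
    have h5 : v.ord x ≤ 0 → 0 ≤ v.ord f := by
      intro h
      refine (mem_place_iff_ord v hf0).mp (hf v ((mem_place_iff_ord v (inv_ne_zero hx0)).mpr ?_))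
      rw [Place.ord_inv]
      omega
    by_cases h : v = pt
    · rw [if_pos h]
      have h6 := h3 h
      have h7 := h5 (by omega)
      rw [h6]
      push_cast
      linarith
    · rw [if_neg h]
      have h6 := h4 h
      by_cases h7 : v.ord x = 0
      · rw [h7]; have := h5 (by omega); simpa using this
      · have h8 : 1 ≤ v.ord x := by omega
        have h9 := hk v
        have h10 : ((k : ℤ) + 1) * 1 ≤ (((k + 1 : ℕ)) : ℤ) * v.ord x := by
          push_cast
          exact mul_le_mul_of_nonneg_left h8 (by omega)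
        linarith
  have h2 := pow_mul_mem_adjoin _ x⁻¹ _ _ (hgen (k + 1) (Nat.succ_pos _) h1)
  rwa [mul_assoc, ← mul_pow, mul_inv_cancel₀ hx0, one_pow, mul_one] at h2

end Pt

section Rat

variable {F : Type*} [Field F] [Algebra Qb F] [IsFF Qb F]

omit [IsFF Qb F] in
theorem GalF.smul_smul_const (Φ : GalF F) (σ : Qb ≃ₐ[ℚ] Qb) (c : Qb) (u : F) :
    Φ.φ σ • (c • u) = σ c • (Φ.φ σ • u) := by
  rw [Algebra.smul_def, smul_mul', SemilinearAut.smul_algebraMap, Φ.base, Algebra.smul_def]
  rfl

omit [IsFF Qb F] in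
/-- rational basis of a Galois stable finite dimensional subspace -/
theorem GalF.exists_basis (Φ : GalF F) (U : Submodule Qb F) [Module.Finite Qb U]
    (hU : ∀ σ, ∀ u ∈ U, Φ.φ σ • u ∈ U) :
    ∃ b : Module.Basis (Fin (Module.finrank Qb U)) Qb U, ∀ i σ, Φ.φ σ • ((b i : U) : F) = ((b i : U) : F) := by
  classical
  obtain ⟨B, hBs, hBspan, hBli⟩ := exists_linearIndependent Qb {u : U | ∀ σ, Φ.φ σ • (u : F) = (u : F)}
  have htop : Submodule.span Qb {u : U | ∀ σ, Φ.φ σ • (u : F) = (u : F)} = ⊤ := by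
    rw [eq_top_iff]
    rintro ⟨u, hu⟩ -
    have h1 := Φ.descent U inferInstance hU hu
    have h2 : {u : F | u ∈ U ∧ ∀ σ, Φ.φ σ • u = u} = U.subtype '' {u : U | ∀ σ, Φ.φ σ • (u : F) = (u : F)} := by
      ext w
      constructor
      · rintro ⟨hw, hw'⟩
        exact ⟨⟨w, hw⟩, hw', rfl⟩
      · rintro ⟨w, hw, rfl⟩
        exact ⟨w.2, hw⟩
    rw [h2, Submodule.span_image] at h1
    obtain ⟨w, hw, hw'⟩ := h1
    have : w = ⟨u, hu⟩ := Subtype.ext hw'
    rwa [← this]
  rw [htop] at hBspan
  let b0 : Module.Basis B Qb U := Module.Basis.mk hBli (by rw [Subtype.range_coe_subtype]; exact hBspan.ge)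
  have hfin : Finite B := Module.Finite.finite_basis b0
  have := Fintype.ofFinite B
  have hcard : Fintype.card B = Module.finrank Qb U := (Module.finrank_eq_card_basis b0).symm
  refine ⟨b0.reindex (Fintype.equivFinOfCardEq hcard), fun i σ => ?_⟩
  rw [Module.Basis.reindex_apply, Module.Basis.mk_apply]
  exact hBs ((Fintype.equivFinOfCardEq hcard).symm i).2 σ

omit [IsFF Qb F] in
theorem GalF.smul_mem_L_pt (Φ : GalF F) (n : ℕ) (σ : Qb ≃ₐ[ℚ] Qb) (u : F)
    (hu : u ∈ riemannRochSpace (n • (Finsupp.single Φ.pt 1 : Divisor Qb F))) :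
    Φ.φ σ • u ∈ riemannRochSpace (n • (Finsupp.single Φ.pt 1 : Divisor Qb F)) := by
  classical
  rw [mem_L_pt] at hu ⊢
  rcases hu with hu | hu
  · left; rw [hu, smul_zero]
  · right
    intro v
    have h1 := hu ((Φ.φ σ)⁻¹ • v)
    have h2 := SemilinearAut.ord_smul (Φ.φ σ) ((Φ.φ σ)⁻¹ • v) u
    rw [smul_inv_smul] at h2
    rw [h2]
    have h3 : (Φ.φ σ)⁻¹ • v = Φ.pt ↔ v = Φ.pt := by
      rw [inv_smul_eq_iff, Φ.pt_fixed]
    by_cases h : v = Φ.pt
    · rw [if_pos h]; rwa [if_pos (h3.mpr h)] at h1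
    · rw [if_neg h]; rwa [if_neg (fun h' => h (h3.mp h'))] at h1

/-- a rational nonconstant function with its only pole at the rational place -/
theorem GalF.exists_ratF (Φ : GalF F) : ∃ f : F, Transcendental Qb f ∧ Φ.RatF f ∧
    ∃ m0 : ℕ, (poleDiv f : Divisor Qb F) = m0 • (Finsupp.single Φ.pt 1 : Divisor Qb F) := by
  classical
  obtain ⟨g, n1, hg⟩ := exists_ell_eq Qb F
  have hdeg : ∀ n : ℕ, Divisor.degree (n • (Finsupp.single Φ.pt 1 : Divisor Qb F)) = n := by
    intro n
    rw [map_nsmul, Divisor.degree_single, deg_eq_one]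
    simp
  obtain ⟨n, hn⟩ : ∃ n, n = n1.toNat + g + 1 := ⟨_, rfl⟩
  have h1 : 2 ≤ ell (n • (Finsupp.single Φ.pt 1 : Divisor Qb F)) := by
    have := hg (n • (Finsupp.single Φ.pt 1 : Divisor Qb F)) (by rw [hdeg]; omega)
    rw [hdeg] at this
    omega
  obtain ⟨b, hb⟩ := Φ.exists_basis (riemannRochSpace (n • (Finsupp.single Φ.pt 1 : Divisor Qb F)))
    (fun σ u hu => Φ.smul_mem_L_pt n σ u hu)
  have hex : ∃ i, Transcendental Qb ((b i : riemannRochSpace (n • (Finsupp.single Φ.pt 1 : Divisor Qb F))) : F) := by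
    by_contra hcon
    push Not at hcon
    have h2 : ∀ i, ∃ c : Qb, algebraMap Qb F c =
        ((b i : riemannRochSpace (n • (Finsupp.single Φ.pt 1 : Divisor Qb F))) : F) := by
      intro i
      have h3 : IsAlgebraic Qb ((b i : riemannRochSpace (n • (Finsupp.single Φ.pt 1 : Divisor Qb F))) : F) := by
        have := hcon i
        rwa [Transcendental, not_not] at this
      exact exists_const_of_isAlgebraic h3
    choose c hc using h2
    rw [ell] at h1
    have h6 : riemannRochSpace (n • (Finsupp.single Φ.pt 1 : Divisor Qb F)) ≤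
        Submodule.span Qb {(1 : F)} := by
      intro u hu
      have h7 := b.sum_repr ⟨u, hu⟩
      have h8 := congrArg (Submodule.subtype _) h7
      rw [map_sum] at h8
      simp only [map_smul, Submodule.subtype_apply] at h8
      rw [← h8]
      refine Submodule.sum_mem _ fun i _ => Submodule.smul_mem _ _ ?_
      rw [← hc i, Algebra.algebraMap_eq_smul_one]
      exact Submodule.smul_mem _ _ (Submodule.mem_span_singleton_self 1)
    have h9 := Submodule.finrank_mono h6
    rw [finrank_span_singleton one_ne_zero] at h9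
    omega
  obtain ⟨i, hi⟩ := hex
  refine ⟨_, hi, hb i, ?_⟩
  obtain ⟨f, hf⟩ : ∃ f, f = ((b i : riemannRochSpace (n • (Finsupp.single Φ.pt 1 : Divisor Qb F))) : F) :=
    ⟨_, rfl⟩
  have hfL : f ∈ riemannRochSpace (n • (Finsupp.single Φ.pt 1 : Divisor Qb F)) := hf ▸ (b i).2
  rw [← hf] at hi ⊢
  have hf0 := transcendental_ne_zero hi
  rw [mem_L_pt] at hfL
  have h3 := hfL.resolve_left hf0
  refine ⟨(max (- Φ.pt.ord f) 0).toNat, ?_⟩
  ext v
  rw [poleDiv_apply hf0, nsmul_single_apply]
  have h4 := h3 v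
  by_cases h : v = Φ.pt
  · rw [if_pos h, h]; omega
  · rw [if_neg h] at h4 ⊢; omega

end Rat

/-- existence of the height setup; `x` may be chosen with pole divisor a multiple of the rational place -/
theorem exists_GSetup {F : Type*} [Field F] [Algebra Qb F] [IsFF Qb F] (Φ : GalF F) :
    ∃ Γ : GSetup F, Γ.toGalF = Φ := by
  classical
  obtain ⟨f, hf, hrat, m0, hm⟩ := Φ.exists_ratF
  obtain ⟨M, hM, hgen⟩ := exists_gen Φ.pt hf hm
  obtain ⟨x, hx⟩ : ∃ x, x = f ^ M := ⟨_, rfl⟩
  have hxm : (poleDiv x : Divisor Qb F) = (M * m0) • (Finsupp.single Φ.pt 1 : Divisor Qb F) := by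
    rw [hx]; exact poleDiv_pow_pt hf hm M
  rw [← hx] at hgen
  have hxt : Transcendental Qb x := hx ▸ hf.pow hM
  have hWL : ∀ N, W Qb x N = riemannRochSpace ((N * (M * m0)) • (Finsupp.single Φ.pt 1 : Divisor Qb F)) := by
    intro N
    ext s
    rw [mem_W_iff_mem_L hxt, hxm, ← mul_smul]
  have hst : ∀ N σ, ∀ u ∈ W Qb x N, Φ.φ σ • u ∈ W Qb x N := by
    intro N σ u hu
    rw [hWL] at hu ⊢
    exact Φ.smul_mem_L_pt _ σ u hu
  have hfin : ∀ N, Module.Finite Qb (W Qb x N) := fun N => finite_W hxt N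
  choose b hb using fun N => Φ.exists_basis (W Qb x N) (hst N)
  exact ⟨{ toGalF := Φ
           x := x
           hx := hxt
           𝔸 := stdAbs
           r := fun N => Module.finrank Qb (W Qb x N)
           b := b
           gen0 := gen0_of_pow hxt hxm hgen
           gen1 := gen1_of_pow hxt hxm hgen
           std := rfl
           ratx := fun σ => by rw [hx, smul_pow', hrat σ]
           ratb := fun N i σ => hb N i σ }, rfl⟩

end Fermat.Agent.H17
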