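import Mathlib

set_option autoImplicit false

/-!
# S17-G8: complementary minors, Siegel's lemma for integer matrices, saturated bases
-/

namespace Fermat.Agent.H65Siegel

open Module

section Minor

/-- a matrix with linearly independent rows has a nonzero maximal minor -/
lemma exists_det_ne_zero {K : Type*} [Field K] {r R : ℕ} (S : Matrix (Fin r) (Fin R) K)
    (hS : LinearIndependent K S.row) : ∃ f : Fin r → Fin R, (S.submatrix id f).det ≠ 0 := by
  obtain ⟨κ, a, ha, hsp, hli⟩ := exists_linearIndependent' K S.col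
  have htop : Submodule.span K (Set.range S.col) = ⊤ := by
    apply Submodule.eq_top_of_finrank_eq
    rw [← Matrix.rank_eq_finrank_span_cols, hS.rank_matrix, Module.finrank_fintype_fun_eq_card]
  rw [htop] at hsp
  have hfin : Finite κ := Finite.of_injective a ha
  have := Fintype.ofFinite κ
  let b : Basis κ K (Fin r → K) := Basis.mk hli hsp.ge
  have hc : Fintype.card κ = r := by
    rw [← Module.finrank_eq_card_basis b, Module.finrank_fintype_fun_eq_card, Fintype.card_fin]
  let e : κ ≃ Fin r := Fintype.equivFinOfCardEq hc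
  refine ⟨a ∘ e.symm, ?_⟩
  have h1 : LinearIndependent K (S.submatrix id (a ∘ e.symm)).col := hli.comp e.symm e.symm.injective
  rw [Matrix.linearIndependent_cols_iff_isUnit, Matrix.isUnit_iff_isUnit_det] at h1
  exact h1.ne_zero

lemma injective_of_det_ne_zero {K : Type*} [CommRing K] {r R : ℕ} (S : Matrix (Fin r) (Fin R) K)
    {f : Fin r → Fin R} (h : (S.submatrix id f).det ≠ 0) : Function.Injective f := by
  intro i j hij
  by_contra hne
  apply h
  refine Matrix.det_zero_of_column_eq hne fun l => ?_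
  simp [hij]

/-- an injective map is the second component of a bijection -/
lemma exists_equiv_inr {r k R : ℕ} (hR : r + k = R) {f : Fin k → Fin R}
    (hf : Function.Injective f) : ∃ e : Fin r ⊕ Fin k ≃ Fin R, ∀ i, e (Sum.inr i) = f i := by
  classical
  let e1 : Fin k ≃ Set.range f := Equiv.ofInjective f hf
  have hc : Fintype.card ((Set.range f)ᶜ : Set (Fin R)) = r := by
    rw [Fintype.card_compl_set, Fintype.card_fin, ← Fintype.card_congr e1, Fintype.card_fin]
    omega
  let e2 : Fin r ≃ ((Set.range f)ᶜ : Set (Fin R)) := (Fintype.equivFinOfCardEq hc).symm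
  refine ⟨((Equiv.sumCongr e2 e1).trans (Equiv.sumComm _ _)).trans
    (Equiv.Set.sumCompl (Set.range f)), fun i => ?_⟩
  simp [e1]

/-- an injective map is the first component of a bijection -/
lemma exists_equiv_inl {r k R : ℕ} (hR : r + k = R) {g : Fin r → Fin R}
    (hg : Function.Injective g) : ∃ e : Fin r ⊕ Fin k ≃ Fin R, ∀ i, e (Sum.inl i) = g i := by
  obtain ⟨e, he⟩ := exists_equiv_inr (r := k) (k := r) (by omega) hg
  exact ⟨(Equiv.sumComm _ _).trans e, fun i => he i⟩

/-- **complementary minors** -/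
theorem complementary {K : Type*} [Field K] {r k R : ℕ} (hR : r + k = R)
    (S : Matrix (Fin r) (Fin R) K) (E : Matrix (Fin k) (Fin R) K)
    (hS : LinearIndependent K S.row) (hE : LinearIndependent K E.row)
    (hSE : E * S.transpose = 0) :
    ∃ c : K, c ≠ 0 ∧ ∀ e : Fin r ⊕ Fin k ≃ Fin R,
      (S.submatrix id (fun i => e (Sum.inl i))).det =
          c * (E.submatrix id (fun i => e (Sum.inr i))).det ∨
      (S.submatrix id (fun i => e (Sum.inl i))).det =
          - (c * (E.submatrix id (fun i => e (Sum.inr i))).det) := by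
  classical
  -- completion of `S` to an invertible matrix
  obtain ⟨g0, hg0⟩ := exists_det_ne_zero S hS
  obtain ⟨e0, he0⟩ := exists_equiv_inl hR (injective_of_det_ne_zero S hg0)
  have he0' : (fun i => e0 (Sum.inl i)) = g0 := funext he0
  let W : Matrix (Fin k) (Fin R) K :=
    (1 : Matrix (Fin R) (Fin R) K).submatrix (fun i => e0 (Sum.inr i)) id
  set N := Matrix.fromRows S W with hN
  have hN0 : (N.submatrix id e0).det ≠ 0 := by
    have h1 : N.submatrix id e0 = Matrix.fromBlocks (S.submatrix id (fun i => e0 (Sum.inl i)))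
        (S.submatrix id (fun i => e0 (Sum.inr i))) 0 1 := by
      ext i j
      rcases i with i | i <;> rcases j with j | j <;>
        simp [hN, W, Matrix.one_apply]
    rw [h1, Matrix.det_fromBlocks_zero₂₁, Matrix.det_one, mul_one, he0']
    exact hg0
  have hs : ∀ e : Fin r ⊕ Fin k ≃ Fin R, (N.submatrix id e).det = (N.submatrix id e0).det ∨
      (N.submatrix id e).det = - (N.submatrix id e0).det := by
    intro e
    have h1 : N.submatrix id e = (N.submatrix id e0).submatrix id (e.trans e0.symm) := by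
      ext i j
      simp
    rw [h1, Matrix.det_permute']
    rcases Int.units_eq_one_or (Equiv.Perm.sign (e.trans e0.symm)) with h | h
    · left; rw [h]; simp
    · right; rw [h]; simp
  have hNe : ∀ e : Fin r ⊕ Fin k ≃ Fin R, (N.submatrix id e).det ≠ 0 := by
    intro e
    rcases hs e with h | h
    · rw [h]; exact hN0
    · rw [h]; exact neg_ne_zero.2 hN0
  -- key identity
  have key : ∀ e : Fin r ⊕ Fin k ≃ Fin R,
      (N.submatrix id e).det * (E.submatrix id (fun i => e (Sum.inr i))).det =
        (S.submatrix id (fun i => e (Sum.inl i))).det * (W * E.transpose).det := by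
    intro e
    let Ig : Matrix (Fin R) (Fin r) K := (1 : Matrix (Fin R) (Fin R) K).submatrix id
      (fun i => e (Sum.inl i))
    let Q : Matrix (Fin R) (Fin r ⊕ Fin k) K := Matrix.fromCols Ig E.transpose
    have h1 : (N.submatrix id e) * (Q.submatrix e id) = N * Q := by
      rw [Matrix.submatrix_mul_equiv, Matrix.submatrix_id_id]
    have h2 : N * Q = Matrix.fromBlocks (S.submatrix id (fun i => e (Sum.inl i))) 0
        (W * Ig) (W * E.transpose) := by
      rw [hN, Matrix.fromRows_mul_fromCols]
      congr 1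
      · ext i j
        simp [Ig, Matrix.mul_apply, Matrix.one_apply]
      · have := congrArg Matrix.transpose hSE
        rwa [Matrix.transpose_mul, Matrix.transpose_transpose, Matrix.transpose_zero] at this
    have h3 : Q.submatrix e id = Matrix.fromBlocks 1
        ((E.submatrix id (fun i => e (Sum.inl i))).transpose) 0
        ((E.submatrix id (fun i => e (Sum.inr i))).transpose) := by
      ext i j
      rcases i with i | i <;> rcases j with j | j <;>
        simp [Q, Ig, Matrix.one_apply]
    have h4 := congrArg Matrix.det h1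
    rw [Matrix.det_mul, h2, h3, Matrix.det_fromBlocks_zero₁₂, Matrix.det_fromBlocks_zero₂₁,
      Matrix.det_one, one_mul, Matrix.det_transpose] at h4
    exact h4
  have hG : (W * E.transpose).det ≠ 0 := by
    obtain ⟨f, hf⟩ := exists_det_ne_zero E hE
    obtain ⟨e, he⟩ := exists_equiv_inr hR (injective_of_det_ne_zero E hf)
    have h1 := key e
    have h2 : (fun i => e (Sum.inr i)) = f := funext he
    rw [h2] at h1
    intro h0
    rw [h0, mul_zero] at h1
    exact (mul_ne_zero (hNe e) hf) h1
  refine ⟨(N.submatrix id e0).det / (W * E.transpose).det, div_ne_zero (hNe e0) hG,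
    fun e => ?_⟩
  have hk := key e
  rcases hs e with h | h
  · left
    rw [h] at hk
    field_simp
    rw [← hk]
  · right
    rw [h] at hk
    field_simp
    rw [← hk]
    ring

end Minor

section Siegel

/-- integer matrices with independent rows have a nonzero maximal minor -/
lemma exists_det_ne_zero_int {r R : ℕ} (S : Matrix (Fin r) (Fin R) ℤ)
    (hS : LinearIndependent ℤ S.row) : ∃ f : Fin r → Fin R, (S.submatrix id f).det ≠ 0 := by
  have h1 : LinearIndependent ℤ (S.map (Int.cast : ℤ → ℚ)).row := by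
    let φ : (Fin R → ℤ) →ₗ[ℤ] (Fin R → ℚ) := (Int.castAddHom ℚ).toIntLinearMap.compLeft (Fin R)
    have h2 : (S.map (Int.cast : ℤ → ℚ)).row = φ ∘ S.row := rfl
    rw [h2]
    refine hS.map' φ ?_
    rw [LinearMap.ker_eq_bot]
    intro x y hxy
    funext j
    have := congrFun hxy j
    exact Int.cast_injective this
  rw [LinearIndependent.iff_fractionRing (R := ℤ) (K := ℚ)] at h1
  obtain ⟨f, hf⟩ := exists_det_ne_zero _ h1
  refine ⟨f, fun h0 => hf ?_⟩
  have h3 : (S.map (Int.cast : ℤ → ℚ)).submatrix id f =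
      (S.submatrix id f).map (Int.castRingHom ℚ) := rfl
  rw [h3, ← RingHom.mapMatrix_apply, ← RingHom.map_det, h0, map_zero]

/-- pigeonhole for the lattice spanned by the rows of a square matrix -/
lemma exists_small_vec {r : ℕ} (A : Matrix (Fin r) (Fin r) ℤ) (hA : A.det ≠ 0) (m : ℕ)
    (hm : A.det.natAbs < (m + 1) ^ r) :
    ∃ c : Fin r → ℤ, c ≠ 0 ∧ ∀ i, |Matrix.vecMul c A i| ≤ m := by
  let φ : (Fin r → ℤ) →ₗ[ℤ] (Fin r → ℤ) := A.vecMulLinear
  have hφ : ∀ c, φ c = Matrix.vecMul c A := fun _ => rfl
  have hinj : Function.Injective φ := by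
    rw [← LinearMap.ker_eq_bot, LinearMap.ker_eq_bot']
    intro c hc
    exact Matrix.eq_zero_of_vecMul_eq_zero hA hc
  have hdet : LinearMap.det φ = A.det := by
    have h1 : φ = Matrix.toLin' A.transpose := by
      refine LinearMap.ext fun c => ?_
      rw [Matrix.toLin'_apply, Matrix.mulVec_transpose]
      rfl
    rw [h1, LinearMap.det_toLin', Matrix.det_transpose]
  have hcard : Nat.card ((Fin r → ℤ) ⧸ LinearMap.range φ) = A.det.natAbs := by
    rw [← Submodule.natAbs_det_equiv (LinearMap.range φ) (LinearEquiv.ofInjective φ hinj), ← hdet]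
    rfl
  have hfin : Finite ((Fin r → ℤ) ⧸ LinearMap.range φ) := by
    apply Nat.finite_of_card_ne_zero
    rw [hcard]
    exact Int.natAbs_ne_zero.2 hA
  let ψ : (Fin r → Fin (m + 1)) → (Fin r → ℤ) ⧸ LinearMap.range φ := fun x =>
    Submodule.Quotient.mk (fun i => ((x i : ℕ) : ℤ))
  have hni : ¬ Function.Injective ψ := by
    intro h
    have h1 := Nat.card_le_card_of_injective ψ h
    rw [hcard, Nat.card_eq_fintype_card, Fintype.card_fun, Fintype.card_fin,
      Fintype.card_fin] at h1
    omega
  rw [Function.not_injective_iff] at hni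
  obtain ⟨x, y, hxy, hne⟩ := hni
  have h1 := (Submodule.Quotient.eq (LinearMap.range φ)).1 hxy
  obtain ⟨c, hc⟩ := h1
  refine ⟨c, ?_, fun i => ?_⟩
  · rintro rfl
    apply hne
    rw [map_zero] at hc
    funext i
    have h2 := congrFun hc i
    rw [Pi.zero_apply, Pi.sub_apply] at h2
    apply Fin.ext
    omega
  · have h2 := congrFun hc i
    rw [hφ, Pi.sub_apply] at h2
    rw [h2]
    have h3 := (x i).2
    have h4 := (y i).2
    rw [abs_le]
    constructor <;> omega

/-- Siegel's lemma for integer matrices -/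
theorem siegel_int {r R : ℕ} (hr : 0 < r) (S : Matrix (Fin r) (Fin R) ℤ)
    (hS : LinearIndependent ℤ S.row) : ∃ c : Fin r → ℤ, c ≠ 0 ∧ ∃ f : Fin r → Fin R,
      ∀ j, |Matrix.vecMul c S j| ^ r ≤ (r : ℤ) ^ r * |(S.submatrix id f).det| := by
  classical
  obtain ⟨f1, hf1⟩ := exists_det_ne_zero_int S hS
  have : Nonempty (Fin r → Fin R) := ⟨f1⟩
  obtain ⟨f, hf⟩ := Finite.exists_max (fun f : Fin r → Fin R => |(S.submatrix id f).det|)
  have hD : 0 < |(S.submatrix id f).det| := lt_of_lt_of_le (abs_pos.2 hf1) (hf f1)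
  set A := S.submatrix id f with hA
  have hA0 : A.det ≠ 0 := abs_pos.1 hD
  -- choice of `m`
  obtain ⟨m, hm1, hm2⟩ : ∃ m : ℕ, m ^ r ≤ A.det.natAbs ∧ A.det.natAbs < (m + 1) ^ r := by
    have hex : ∃ m : ℕ, A.det.natAbs < (m + 1) ^ r :=
      ⟨A.det.natAbs, lt_of_lt_of_le (Nat.lt_succ_self _) (Nat.le_self_pow hr.ne' _)⟩
    refine ⟨Nat.find hex, ?_, Nat.find_spec hex⟩
    rcases Nat.eq_zero_or_pos (Nat.find hex) with h | h
    · rw [h, zero_pow hr.ne']
      exact Nat.zero_le _
    · have h1 := Nat.find_min hex (Nat.sub_lt h Nat.one_pos)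
      rw [not_lt, Nat.sub_add_cancel h] at h1
      exact h1
  obtain ⟨c, hc0, hc⟩ := exists_small_vec A hA0 m hm2
  refine ⟨c, hc0, f, fun j => ?_⟩
  -- Cramer
  have h1 : A.det * Matrix.vecMul c S j =
      dotProduct (Matrix.vecMul c A) (Matrix.cramer A (S.col j)) := by
    rw [← Matrix.dotProduct_mulVec, Matrix.mulVec_cramer, dotProduct_smul, smul_eq_mul]
    rfl
  have h2 : ∀ i, |Matrix.cramer A (S.col j) i| ≤ |A.det| := by
    intro i
    have h3 : A.updateCol i (S.col j) = S.submatrix id (Function.update f i j) := by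
      ext a b
      rw [Matrix.updateCol_apply, Matrix.submatrix_apply]
      by_cases hb : b = i
      · subst hb
        simp [Matrix.col]
      · simp [hA, hb]
    rw [Matrix.cramer_apply, h3]
    exact hf _
  have h3 : |A.det| * |Matrix.vecMul c S j| ≤ |A.det| * (r * m) := by
    rw [← abs_mul, h1]
    calc |dotProduct (Matrix.vecMul c A) (Matrix.cramer A (S.col j))|
        ≤ ∑ i, |Matrix.vecMul c A i * Matrix.cramer A (S.col j) i| :=
          Finset.abs_sum_le_sum_abs _ _
      _ ≤ ∑ _i : Fin r, (m : ℤ) * |A.det| := by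
          refine Finset.sum_le_sum fun i _ => ?_
          rw [abs_mul]
          exact mul_le_mul (hc i) (h2 i) (abs_nonneg _) (Int.natCast_nonneg _)
      _ = |A.det| * (r * m) := by
          rw [Finset.sum_const, Finset.card_univ, Fintype.card_fin, nsmul_eq_mul]
          ring
  have h4 : |Matrix.vecMul c S j| ≤ r * m := le_of_mul_le_mul_left h3 hD
  calc |Matrix.vecMul c S j| ^ r ≤ ((r : ℤ) * m) ^ r := pow_le_pow_left₀ (abs_nonneg _) h4 r
    _ = (r : ℤ) ^ r * (m : ℤ) ^ r := mul_pow _ _ _
    _ ≤ (r : ℤ) ^ r * |A.det| := by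
        refine mul_le_mul_of_nonneg_left ?_ (by positivity)
        rw [Int.abs_eq_natAbs]
        exact_mod_cast hm1

/-- saturated integral basis of a rational subspace -/
theorem exists_saturated {r R : ℕ} (U : Submodule ℚ (Fin R → ℚ)) (hU : Module.finrank ℚ U = r) :
    ∃ S : Matrix (Fin r) (Fin R) ℤ, LinearIndependent ℤ S.row ∧
      (∀ i, (fun j => (S i j : ℚ)) ∈ U) ∧
      ∀ p : ℕ, p.Prime → ∃ f : Fin r → Fin R, ¬ (p : ℤ) ∣ (S.submatrix id f).det := by
  classical
  let φ : (Fin R → ℤ) →ₗ[ℤ] (Fin R → ℚ) := (Int.castAddHom ℚ).toIntLinearMap.compLeft (Fin R)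
  have hφ : ∀ x j, φ x j = (x j : ℚ) := fun _ _ => rfl
  have hφinj : Function.Injective φ := by
    intro x y hxy
    funext j
    exact Int.cast_injective (congrFun hxy j)
  let L : Submodule ℤ (Fin R → ℤ) := (U.restrictScalars ℤ).comap φ
  have hL : ∀ x, x ∈ L ↔ φ x ∈ U := fun _ => Iff.rfl
  obtain ⟨n, b⟩ := Submodule.basisOfPid (Pi.basisFun ℤ (Fin R)) L
  -- the rank of `L`
  have hli : LinearIndependent ℤ (fun i => φ (b i : Fin R → ℤ)) := by
    have h1 : LinearIndependent ℤ (fun i => (b i : Fin R → ℤ)) :=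
      b.linearIndependent.map' L.subtype (Submodule.ker_subtype L)
    exact h1.map' φ (LinearMap.ker_eq_bot.2 hφinj)
  have hliQ : LinearIndependent ℚ (fun i => φ (b i : Fin R → ℤ)) := by
    rwa [LinearIndependent.iff_fractionRing (R := ℤ) (K := ℚ)] at hli
  have hspan : Submodule.span ℚ (Set.range fun i => φ (b i : Fin R → ℤ)) = U := by
    apply le_antisymm
    · rw [Submodule.span_le]
      rintro _ ⟨i, rfl⟩
      exact (hL _).1 (b i).2
    · intro u hu
      let d : ℕ := ∏ j, (u j).den
      have hd : (d : ℚ) ≠ 0 := by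
        rw [Nat.cast_ne_zero]
        exact Finset.prod_ne_zero_iff.2 fun j _ => (u j).den_ne_zero
      have hx : ∀ j, ∃ a : ℤ, (a : ℚ) = (d : ℚ) * u j := by
        intro j
        obtain ⟨e, he⟩ : (u j).den ∣ d := Finset.dvd_prod_of_mem _ (Finset.mem_univ j)
        refine ⟨e * (u j).num, ?_⟩
        have h1 : (u j) * ((u j).den : ℚ) = (u j).num := Rat.mul_den_eq_num (u j)
        rw [he]
        push_cast
        rw [← h1]
        ring
      choose x hx using hx
      have hφx : φ x = (d : ℚ) • u := by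
        funext j
        rw [hφ, hx, Pi.smul_apply, smul_eq_mul]
      have hxL : x ∈ L := by
        rw [hL, hφx]
        exact U.smul_mem _ hu
      have h1 : φ x ∈ Submodule.span ℚ (Set.range fun i => φ (b i : Fin R → ℤ)) := by
        have h2 : (⟨x, hxL⟩ : L) = ∑ i, b.repr ⟨x, hxL⟩ i • b i := (b.sum_repr _).symm
        have h3 : x = ∑ i, b.repr ⟨x, hxL⟩ i • (b i : Fin R → ℤ) := by
          have := congrArg (L.subtype) h2
          rw [map_sum] at this
          exact this
        rw [h3, map_sum]
        refine Submodule.sum_mem _ fun i _ => ?_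
        rw [map_smul, ← Int.cast_smul_eq_zsmul ℚ]
        exact Submodule.smul_mem _ _ (Submodule.subset_span ⟨i, rfl⟩)
      have h2 : u = (d : ℚ)⁻¹ • φ x := by
        rw [hφx, inv_smul_smul₀ hd]
      rw [h2]
      exact Submodule.smul_mem _ _ h1
  have hn : n = r := by
    rw [← hU, ← hspan, finrank_span_eq_card hliQ, Fintype.card_fin]
  subst hn
  refine ⟨fun i => (b i : Fin R → ℤ), ?_, fun i => ?_, fun p hp => ?_⟩
  · exact b.linearIndependent.map' L.subtype (Submodule.ker_subtype L)
  · exact (hL _).1 (b i).2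
  · have := Fact.mk hp
    set S : Matrix (Fin n) (Fin R) ℤ := fun i => (b i : Fin R → ℤ) with hSdef
    by_contra hcon
    push Not at hcon
    have h1 : ¬ LinearIndependent (ZMod p) (S.map (Int.cast : ℤ → ZMod p)).row := by
      intro h
      obtain ⟨f, hf⟩ := exists_det_ne_zero _ h
      apply hf
      have h3 : (S.map (Int.cast : ℤ → ZMod p)).submatrix id f =
          (S.submatrix id f).map (Int.castRingHom (ZMod p)) := rfl
      rw [h3, ← RingHom.mapMatrix_apply, ← RingHom.map_det]
      exact (ZMod.intCast_zmod_eq_zero_iff_dvd _ p).2 (hcon f)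
    rw [Fintype.not_linearIndependent_iff] at h1
    obtain ⟨g, hg, i0, hi0⟩ := h1
    let c : Fin n → ℤ := fun i => ((g i).val : ℤ)
    have hcg : ∀ i, ((c i : ℤ) : ZMod p) = g i := fun i => by simp [c]
    have h2 : ∀ j, (p : ℤ) ∣ (∑ i, c i • S i) j := by
      intro j
      rw [← ZMod.intCast_zmod_eq_zero_iff_dvd]
      have h3 := congrFun hg j
      rw [Finset.sum_apply, Pi.zero_apply] at h3
      rw [Finset.sum_apply, Int.cast_sum, ← h3]
      refine Finset.sum_congr rfl fun i _ => ?_
      rw [Pi.smul_apply, Pi.smul_apply, smul_eq_mul, smul_eq_mul, Int.cast_mul, hcg]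
      rfl
    choose y hy using h2
    have hyL : y ∈ L := by
      rw [hL]
      have h3 : φ (∑ i, c i • S i) ∈ U := (hL _).1 (L.sum_mem fun i _ => L.smul_mem _ (b i).2)
      have h4 : φ y = (p : ℚ)⁻¹ • φ (∑ i, c i • S i) := by
        funext j
        rw [hφ, Pi.smul_apply, smul_eq_mul, hφ, hy]
        have : (p : ℚ) ≠ 0 := Nat.cast_ne_zero.2 hp.ne_zero
        push_cast
        rw [inv_mul_cancel_left₀ this]
      rw [h4]
      exact U.smul_mem _ h3
    have h5 : ∀ i, c i = p * b.repr ⟨y, hyL⟩ i := by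
      have h6 : (∑ i, c i • b i : L) = ∑ i, ((p : ℤ) * b.repr ⟨y, hyL⟩ i) • b i := by
        have h7 : (∑ i, ((p : ℤ) * b.repr ⟨y, hyL⟩ i) • b i : L) = (p : ℤ) • (⟨y, hyL⟩ : L) := by
          conv_rhs => rw [← b.sum_repr ⟨y, hyL⟩]
          rw [Finset.smul_sum]
          exact Finset.sum_congr rfl fun i _ => by rw [mul_smul]
        rw [h7]
        apply Subtype.ext
        have h8 : ((∑ i, c i • b i : L) : Fin R → ℤ) = ∑ i, c i • S i := by
          have := map_sum L.subtype (fun i => c i • b i) Finset.univ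
          exact this
        rw [h8]
        funext j
        rw [hy]
        rfl
      intro i
      have h9 := congrArg (fun z => b.repr z i) h6
      simp only [map_sum, map_smul, Basis.repr_self] at h9
      simpa [Finsupp.single_apply] using h9
    apply hi0
    rw [← hcg, h5, Int.cast_mul, Int.cast_natCast, ZMod.natCast_self, zero_mul]

end Siegel

end Fermat.Agent.H65Siegel
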