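import Mathlib
import Fermat.Agent.H17Abs
import Fermat.Agent.H65Siegel

set_option autoImplicit false

/-!
# S17-G9: helper lemmas for Siegel's lemma with algebraic coefficients
-/

namespace Fermat.Agent.H65Siegel

open Module Fermat.Agent.H17

/-! ### suprema of absolute values of finite families -/

section Sup

variable {ι : Type*} [Finite ι]

lemma iSup_abv_pos (a : ι → Qb) (h : ∃ i, a i ≠ 0) (v : V0) :
    0 < ⨆ i, stdAbs.abv v (a i) := by
  obtain ⟨i, hi⟩ := h
  exact lt_of_lt_of_le ((stdAbs.abv v).pos hi)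
    (le_ciSup (f := fun i => stdAbs.abv v (a i)) (Set.finite_range _).bddAbove i)

lemma finite_support_log_iSup (a : ι → Qb) (h : ∃ i, a i ≠ 0) :
    (Function.support fun v : V0 => Real.log (⨆ i, stdAbs.abv v (a i))).Finite := by
  have hfin : (⋃ i ∈ {i | a i ≠ 0}, {v : V0 | stdAbs.abv v (a i) ≠ 1}).Finite := by
    refine Set.Finite.biUnion (Set.toFinite _) fun i hi => ?_
    exact stdAbs.finite_ne_one (a i) hi
  refine hfin.subset fun v hv => ?_
  by_contra hcon
  simp only [Set.mem_iUnion, Set.mem_ofPred_eq, not_exists, not_not] at hcon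
  apply hv
  obtain ⟨i0, hi0⟩ := h
  have hne : Nonempty ι := ⟨i0⟩
  have h1 : (⨆ i, stdAbs.abv v (a i)) = 1 := by
    apply le_antisymm
    · refine ciSup_le fun i => ?_
      by_cases hi : a i = 0
      · rw [hi, (stdAbs.abv v).map_zero]
        exact zero_le_one
      · exact (hcon i hi).le
    · rw [← hcon i0 hi0]
      exact le_ciSup (f := fun i => stdAbs.abv v (a i)) (Set.finite_range _).bddAbove i0
  show Real.log (⨆ i, stdAbs.abv v (a i)) = 0
  rw [h1, Real.log_one]

end Sup

lemma finsum_le_finsum' {α : Type*} {f g : α → ℝ} (hf : (Function.support f).Finite)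
    (hg : (Function.support g).Finite) (h : ∀ a, f a ≤ g a) : ∑ᶠ a, f a ≤ ∑ᶠ a, g a := by
  classical
  have h1 : Function.support f ⊆ ((hf.union hg).toFinset : Set α) := by
    rw [Set.Finite.coe_toFinset]
    exact Set.subset_union_left
  have h2 : Function.support g ⊆ ((hf.union hg).toFinset : Set α) := by
    rw [Set.Finite.coe_toFinset]
    exact Set.subset_union_right
  rw [finsum_eq_sum_of_support_subset _ h1, finsum_eq_sum_of_support_subset _ h2]
  exact Finset.sum_le_sum fun a _ => h a

/-! ### matrices -/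

section Mat

lemma linearIndependent_row_of_det_ne_zero {K : Type*} [Field K] {r R : ℕ}
    (S : Matrix (Fin r) (Fin R) K) {f : Fin r → Fin R} (h : (S.submatrix id f).det ≠ 0) :
    LinearIndependent K S.row := by
  have h1 : LinearIndependent K (S.submatrix id f).row :=
    Matrix.linearIndependent_rows_of_det_ne_zero h
  have h2 : (S.submatrix id f).row = (LinearMap.funLeft K K f) ∘ S.row := rfl
  rw [h2] at h1
  exact h1.of_comp _

lemma det_map_submatrix {K L : Type*} [CommRing K] [CommRing L] (φ : K →+* L) {r R : ℕ}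
    (S : Matrix (Fin r) (Fin R) K) (f : Fin r → Fin R) :
    ((S.map φ).submatrix id f).det = φ (S.submatrix id f).det := by
  rw [RingHom.map_det]
  rfl

lemma linearIndependent_row_map {K L : Type*} [Field K] [Field L] (φ : K →+* L) {r R : ℕ}
    (S : Matrix (Fin r) (Fin R) K) (hS : LinearIndependent K S.row) :
    LinearIndependent L (S.map φ).row := by
  obtain ⟨f, hf⟩ := exists_det_ne_zero S hS
  refine linearIndependent_row_of_det_ne_zero _ (f := f) ?_
  rw [det_map_submatrix]
  exact (map_ne_zero φ).2 hf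

lemma linearIndependent_row_map_int {r R : ℕ} (S : Matrix (Fin r) (Fin R) ℤ)
    (hS : LinearIndependent ℤ S.row) : LinearIndependent ℚ (S.map (Int.castRingHom ℚ)).row := by
  obtain ⟨f, hf⟩ := exists_det_ne_zero_int S hS
  refine linearIndependent_row_of_det_ne_zero _ (f := f) ?_
  rw [det_map_submatrix]
  exact (Int.cast_ne_zero (α := ℚ)).2 hf

/-- a Galois automorphism permutes the rows -/
lemma det_gal {k R : ℕ} (E : Matrix (Fin k) (Fin R) Qb) (σ : Qb ≃ₐ[ℚ] Qb)
    (π : Equiv.Perm (Fin k)) (h : ∀ i j, σ (E i j) = E (π i) j) (f : Fin k → Fin R) :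
    σ (E.submatrix id f).det = (E.submatrix id f).det ∨
      σ (E.submatrix id f).det = - (E.submatrix id f).det := by
  have h1 : σ (E.submatrix id f).det = ((E.submatrix id f).submatrix π id).det := by
    have h2 : σ (E.submatrix id f).det = (σ : Qb →+* Qb) (E.submatrix id f).det := rfl
    rw [h2, RingHom.map_det]
    congr 1
    ext i j
    exact h i (f j)
  rw [h1, Matrix.det_permute]
  rcases Int.units_eq_one_or (Equiv.Perm.sign π) with h | h
  · left; rw [h]; simp
  · right; rw [h]; simp

/-- the solution space over `ℚ` of a Galois stable system of independent equations -/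
lemma exists_rat_kernel {k r R : ℕ} (hR : r + k = R) (E : Matrix (Fin k) (Fin R) Qb)
    (hE : LinearIndependent Qb E.row)
    (hG : ∀ σ : Qb ≃ₐ[ℚ] Qb, ∃ π : Equiv.Perm (Fin k), ∀ i j, σ (E i j) = E (π i) j) :
    ∃ U : Submodule ℚ (Fin R → ℚ), finrank ℚ U = r ∧
      ∀ t ∈ U, E.mulVec (fun j => algebraMap ℚ Qb (t j)) = 0 := by
  obtain ⟨f, hf⟩ := exists_det_ne_zero E hE
  set F := E.submatrix id f with hF
  have hFu : IsUnit F.det := hf.isUnit
  set A := F⁻¹ * E with hA
  have hFA : F * A = E := by rw [hA, Matrix.mul_nonsing_inv_cancel_left _ _ hFu]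
  have hfix : ∀ σ : Qb ≃ₐ[ℚ] Qb, A.map σ = A := by
    intro σ
    obtain ⟨π, hπ⟩ := hG σ
    have h1 : (F.map σ) * (A.map σ) = E.map σ := by
      rw [← Matrix.map_mul, hFA]
    have h2 : E.map σ = E.submatrix π id := by
      ext i j
      exact hπ i j
    have h3 : F.map σ = F.submatrix π id := by
      ext i j
      exact hπ i (f j)
    rw [h2, h3] at h1
    have h4 : (F * (A.map σ)).submatrix π id = E.submatrix π id := by
      rw [← h1]
      rfl
    have h5 : F * (A.map σ) = E := by
      ext i j
      have := congrFun (congrFun h4 (π.symm i)) j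
      simpa using this
    calc A.map σ = F⁻¹ * (F * A.map σ) := by rw [Matrix.nonsing_inv_mul_cancel_left _ _ hFu]
      _ = A := by rw [h5]
  have hrat : ∀ i j, ∃ q : ℚ, algebraMap ℚ Qb q = A i j := fun i j =>
    exists_rat_of_fixed fun σ => congrFun (congrFun (hfix σ) i) j
  choose A0 hA0 using hrat
  let A0m : Matrix (Fin k) (Fin R) ℚ := A0
  have hmap : A0m.map (algebraMap ℚ Qb) = A := by
    ext i j
    exact hA0 i j
  have hdet : (A0m.submatrix id f).det ≠ 0 := by
    intro h0
    have h1 := det_map_submatrix (algebraMap ℚ Qb) A0m f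
    rw [h0, map_zero, hmap] at h1
    have h2 : A.submatrix id f = 1 := by
      have : A.submatrix id f = F⁻¹ * F := rfl
      rw [this, Matrix.nonsing_inv_mul _ hFu]
    rw [h2, Matrix.det_one] at h1
    exact one_ne_zero h1
  have hrank : A0m.rank = k := by
    rw [(linearIndependent_row_of_det_ne_zero A0m hdet).rank_matrix, Fintype.card_fin]
  refine ⟨LinearMap.ker A0m.mulVecLin, ?_, fun t ht => ?_⟩
  · have h1 := LinearMap.finrank_range_add_finrank_ker A0m.mulVecLin
    rw [Module.finrank_fintype_fun_eq_card, Fintype.card_fin] at h1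
    have h2 : finrank ℚ (LinearMap.range A0m.mulVecLin) = k := hrank
    omega
  · rw [LinearMap.mem_ker, Matrix.mulVecLin_apply] at ht
    rw [← hFA, ← Matrix.mulVec_mulVec, ← hmap]
    have h1 : (A0m.map (algebraMap ℚ Qb)).mulVec (fun j => algebraMap ℚ Qb (t j)) = 0 := by
      funext i
      have h2 := congrFun ht i
      have h3 : ((A0m.map (algebraMap ℚ Qb)).mulVec (fun j => algebraMap ℚ Qb (t j))) i =
          algebraMap ℚ Qb ((A0m.mulVec t) i) := by
        simp only [Matrix.mulVec, dotProduct, map_sum, map_mul, Matrix.map_apply]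
      rw [h3, h2]
      simp
    rw [h1, Matrix.mulVec_zero]

end Mat

end Fermat.Agent.H65Siegel
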