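/-
H17Siegel: Siegel lemma for integer matrices, complementary minors (project S17; statements frozen by helper17, proofs by the job owner; helper lemmas may be added)
-/
import Mathlib
import Fermat.Agent.H17Abs
import Fermat.Agent.H65Siegel
import Fermat.Agent.H65SiegelB

set_option autoImplicit false

noncomputable section

open AlgebraicCurve WithZero Polynomial

namespace Fermat.Agent.H17

open Fermat.Agent.H3RR

section Jacobi

/-- maximum of the absolute values of the maximal minors of a `k × R` matrix -/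
def mm {K : Type*} [Field K] {V : Type*} (𝔸 : AbsFam K V) (v : V) {k R : ℕ} (E : Matrix (Fin k) (Fin R) K) : ℝ :=
  ⨆ f : Fin k → Fin R, 𝔸.abv v (E.submatrix id f).det

/-- complementary minors (Jacobi): if the rows of `S` (r x R) and `E` (k x R), `r + k = R`, are linearly
independent and mutually orthogonal then maximal minors of `S` and complementary minors of `E` are proportional
up to sign -/
theorem exists_mm_eq {K : Type*} [Field K] {V : Type*} (𝔸 : AbsFam K V) {r k R : ℕ} (hR : r + k = R)
    (S : Matrix (Fin r) (Fin R) K) (E : Matrix (Fin k) (Fin R) K)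
    (hS : LinearIndependent K S.row) (hE : LinearIndependent K E.row) (hSE : E * S.transpose = 0) :
    ∃ c : K, c ≠ 0 ∧ (∀ v, mm 𝔸 v S = 𝔸.abv v c * mm 𝔸 v E) ∧
      (∀ f : Fin k → Fin R, Function.Injective f → ∃ g : Fin r → Fin R, Function.Injective g ∧
        ((S.submatrix id g).det = c * (E.submatrix id f).det ∨
         (S.submatrix id g).det = - (c * (E.submatrix id f).det))) := by
  obtain ⟨c, hc, h⟩ := H65Siegel.complementary hR S E hS hE hSE
  have habs : ∀ (v : V) (x y : K), (x = y ∨ x = - y) → 𝔸.abv v x = 𝔸.abv v y := by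
    rintro v x y (rfl | rfl)
    · rfl
    · exact (𝔸.abv v).map_neg y
  have hbdd : ∀ (v : V) {m : ℕ} (M : Matrix (Fin m) (Fin R) K), BddAbove
      (Set.range fun f : Fin m → Fin R => 𝔸.abv v (M.submatrix id f).det) :=
    fun v m M => (Set.finite_range _).bddAbove
  have hne : ∀ m : ℕ, m ≤ R → Nonempty (Fin m → Fin R) := fun m hm => ⟨Fin.castLE hm⟩
  have hne1 : Nonempty (Fin r → Fin R) := hne r (by omega)
  have hne2 : Nonempty (Fin k → Fin R) := hne k (by omega)
  have hnn : ∀ (v : V) {m : ℕ} (M : Matrix (Fin m) (Fin R) K), 0 ≤ mm 𝔸 v M :=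
    fun v m M => Real.iSup_nonneg fun f => (𝔸.abv v).nonneg _
  have h1 : ∀ f : Fin k → Fin R, Function.Injective f → ∃ g : Fin r → Fin R,
      Function.Injective g ∧ ((S.submatrix id g).det = c * (E.submatrix id f).det ∨
         (S.submatrix id g).det = - (c * (E.submatrix id f).det)) := by
    intro f hf
    obtain ⟨e, he⟩ := H65Siegel.exists_equiv_inr hR hf
    have he' : (fun i => e (Sum.inr i)) = f := funext he
    have := h e
    rw [he'] at this
    exact ⟨_, e.injective.comp Sum.inl_injective, this⟩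
  have h2 : ∀ g : Fin r → Fin R, Function.Injective g → ∃ f : Fin k → Fin R,
      Function.Injective f ∧ ((S.submatrix id g).det = c * (E.submatrix id f).det ∨
         (S.submatrix id g).det = - (c * (E.submatrix id f).det)) := by
    intro g hg
    obtain ⟨e, he⟩ := H65Siegel.exists_equiv_inl hR hg
    have he' : (fun i => e (Sum.inl i)) = g := funext he
    have := h e
    rw [he'] at this
    exact ⟨_, e.injective.comp Sum.inr_injective, this⟩
  refine ⟨c, hc, fun v => le_antisymm ?_ ?_, h1⟩
  · refine ciSup_le fun g => ?_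
    by_cases hg : Function.Injective g
    · obtain ⟨f, -, hf⟩ := h2 g hg
      rw [habs v _ _ hf, (𝔸.abv v).map_mul]
      exact mul_le_mul_of_nonneg_left (le_ciSup (hbdd v E) f) ((𝔸.abv v).nonneg _)
    · have h0 : (S.submatrix id g).det = 0 := by
        by_contra h0
        exact hg (H65Siegel.injective_of_det_ne_zero S h0)
      rw [h0, (𝔸.abv v).map_zero]
      exact mul_nonneg ((𝔸.abv v).nonneg _) (hnn v E)
  · rw [mm, Real.mul_iSup_of_nonneg ((𝔸.abv v).nonneg _)]
    refine ciSup_le fun f => ?_
    by_cases hf : Function.Injective f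
    · obtain ⟨g, -, hg⟩ := h1 f hf
      rw [← (𝔸.abv v).map_mul, ← habs v _ _ hg]
      exact le_ciSup (hbdd v S) g
    · have h0 : (E.submatrix id f).det = 0 := by
        by_contra h0
        exact hf (H65Siegel.injective_of_det_ne_zero E h0)
      rw [h0, (𝔸.abv v).map_zero, mul_zero]
      exact hnn v S

end Jacobi

section Siegel

/-- Siegel's lemma for integer matrices -/
theorem siegel_int {r R : ℕ} (hr : 0 < r) (S : Matrix (Fin r) (Fin R) ℤ)
    (hS : LinearIndependent ℤ S.row) : ∃ c : Fin r → ℤ, c ≠ 0 ∧ ∃ f : Fin r → Fin R,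
      ∀ j, |Matrix.vecMul c S j| ^ r ≤ (r : ℤ) ^ r * |(S.submatrix id f).det| :=
  H65Siegel.siegel_int hr S hS

/-- saturated integral basis of a rational subspace -/
theorem exists_saturated {r R : ℕ} (U : Submodule ℚ (Fin R → ℚ)) (hU : Module.finrank ℚ U = r) :
    ∃ S : Matrix (Fin r) (Fin R) ℤ, LinearIndependent ℤ S.row ∧
      (∀ i, (fun j => (S i j : ℚ)) ∈ U) ∧
      ∀ p : ℕ, p.Prime → ∃ f : Fin r → Fin R, ¬ (p : ℤ) ∣ (S.submatrix id f).det :=
  H65Siegel.exists_saturated U hU

/-- height of a rational vector -/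
def hvec {R : ℕ} (t : Fin R → ℚ) : ℝ :=
  ∑ᶠ v : V0, Real.log (⨆ j, stdAbs.abv v (algebraMap ℚ Qb (t j)))

/-- a `k × R` matrix of algebraic numbers whose rows are permuted by Galois -/
def GalRows {k R : ℕ} (E : Matrix (Fin k) (Fin R) Qb) : Prop :=
  ∀ σ : Qb ≃ₐ[ℚ] Qb, ∃ π : Equiv.Perm (Fin k), ∀ i j, σ (E i j) = E (π i) j

lemma mm_pos {k R : ℕ} (E : Matrix (Fin k) (Fin R) Qb) (hE : LinearIndependent Qb E.row) (v : V0) :
    0 < mm stdAbs v E :=
  H65Siegel.iSup_abv_pos (fun f : Fin k → Fin R => (E.submatrix id f).det)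
    (H65Siegel.exists_det_ne_zero E hE) v

lemma finite_support_log_mm {k R : ℕ} (E : Matrix (Fin k) (Fin R) Qb)
    (hE : LinearIndependent Qb E.row) :
    (Function.support fun v : V0 => Real.log (mm stdAbs v E)).Finite :=
  H65Siegel.finite_support_log_iSup (fun f : Fin k → Fin R => (E.submatrix id f).det)
    (H65Siegel.exists_det_ne_zero E hE)

/-- the height of a system of equations equals the height of its solution space -/
theorem sum_log_mm_eq {k r R : ℕ} (hR : r + k = R) (E : Matrix (Fin k) (Fin R) Qb)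
    (hE : LinearIndependent Qb E.row) (hG : GalRows E) (S : Matrix (Fin r) (Fin R) ℚ)
    (hS : LinearIndependent ℚ S.row) (hSE : E * (S.map (algebraMap ℚ Qb)).transpose = 0) :
    ∑ᶠ v : V0, Real.log (mm stdAbs v E) =
      ∑ᶠ v : V0, Real.log (mm stdAbs v (S.map (algebraMap ℚ Qb))) := by
  have hS' : LinearIndependent Qb (S.map (algebraMap ℚ Qb)).row :=
    H65Siegel.linearIndependent_row_map (algebraMap ℚ Qb) S hS
  obtain ⟨c, hc, hmm, hf⟩ := exists_mm_eq stdAbs hR (S.map (algebraMap ℚ Qb)) E hS' hE hSE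
  -- the constant is Galois invariant up to sign
  have hσ : ∀ σ : Qb ≃ₐ[ℚ] Qb, σ c = c ∨ σ c = - c := by
    intro σ
    obtain ⟨f, hdf⟩ := H65Siegel.exists_det_ne_zero E hE
    obtain ⟨g, -, hg⟩ := hf f (H65Siegel.injective_of_det_ne_zero E hdf)
    obtain ⟨π, hπ⟩ := hG σ
    have h1 := H65Siegel.det_gal E σ π hπ f
    have h2 : σ ((S.map (algebraMap ℚ Qb)).submatrix id g).det =
        ((S.map (algebraMap ℚ Qb)).submatrix id g).det := by
      rw [H65Siegel.det_map_submatrix]
      exact σ.commutes _
    have h3 : (σ c * σ (E.submatrix id f).det = c * (E.submatrix id f).det) := by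
      rcases hg with hg | hg
      · rw [hg, map_mul] at h2
        exact h2
      · rw [hg, map_neg, map_mul] at h2
        exact neg_injective h2
    rcases h1 with h1 | h1
    · left
      rw [h1] at h3
      exact mul_right_cancel₀ hdf h3
    · right
      rw [h1, mul_neg, ← neg_mul] at h3
      exact neg_eq_iff_eq_neg.1 (mul_right_cancel₀ hdf h3)
  have h0 := sum_log_abv_eq_zero_of_sq hc hσ
  have h1 : ∀ v : V0, Real.log (mm stdAbs v (S.map (algebraMap ℚ Qb))) =
      Real.log (stdAbs.abv v c) + Real.log (mm stdAbs v E) := by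
    intro v
    rw [hmm v, Real.log_mul ((stdAbs.abv v).pos hc).ne' (mm_pos E hE v).ne']
  rw [finsum_congr h1, finsum_add_distrib (finite_log_abv_ne_zero hc) (finite_support_log_mm E hE),
    h0, zero_add]

/-- Siegel's lemma for equations with algebraic coefficients permuted by Galois -/
theorem exists_siegel (k r R : ℕ) (hR : r + k = R) (hr : 0 < r) : ∃ C : ℝ, ∀ E : Matrix (Fin k) (Fin R) Qb,
    LinearIndependent Qb E.row → GalRows E → ∃ t : Fin R → ℚ, t ≠ 0 ∧
      E.mulVec (fun j => algebraMap ℚ Qb (t j)) = 0 ∧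
      r * hvec t ≤ (∑ᶠ v : V0, Real.log (mm stdAbs v E)) + C := by
  refine ⟨r * Real.log r, fun E hE hG => ?_⟩
  obtain ⟨U, hU, hker⟩ := H65Siegel.exists_rat_kernel hR E hE hG
  obtain ⟨S0, hS0, hS0U, hsat⟩ := exists_saturated U hU
  set S : Matrix (Fin r) (Fin R) ℚ := S0.map (Int.castRingHom ℚ) with hSdef
  have hS : LinearIndependent ℚ S.row := H65Siegel.linearIndependent_row_map_int S0 hS0
  have hS' : LinearIndependent Qb (S.map (algebraMap ℚ Qb)).row :=
    H65Siegel.linearIndependent_row_map (algebraMap ℚ Qb) S hS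
  have hSE : E * (S.map (algebraMap ℚ Qb)).transpose = 0 := by
    ext i l
    have := congrFun (hker _ (hS0U l)) i
    simpa [Matrix.mul_apply, Matrix.mulVec, dotProduct, hSdef] using this
  rw [sum_log_mm_eq hR E hE hG S hS hSE]
  have hdetS : ∀ g : Fin r → Fin R, ((S.map (algebraMap ℚ Qb)).submatrix id g).det =
      algebraMap ℚ Qb (((S0.submatrix id g).det : ℤ) : ℚ) := by
    intro g
    rw [H65Siegel.det_map_submatrix, hSdef, H65Siegel.det_map_submatrix]
    rfl
  -- the local terms at the primes
  have hp : ∀ p : Nat.Primes, Real.log (mm stdAbs (some p) (S.map (algebraMap ℚ Qb))) = 0 := by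
    intro p
    have hne : Nonempty (Fin r → Fin R) := ⟨Fin.castLE (by omega)⟩
    have h1 : mm stdAbs (some p) (S.map (algebraMap ℚ Qb)) = 1 := by
      apply le_antisymm
      · refine ciSup_le fun g => ?_
        rw [hdetS, stdAbs_some]
        have : Fact (p : ℕ).Prime := ⟨p.2⟩
        exact_mod_cast padicNorm.of_int (p := p) (S0.submatrix id g).det
      · obtain ⟨g, hg⟩ := hsat p p.2
        have : Fact (p : ℕ).Prime := ⟨p.2⟩
        have h2 : stdAbs.abv (some p) ((S.map (algebraMap ℚ Qb)).submatrix id g).det = 1 := by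
          rw [hdetS, stdAbs_some]
          exact_mod_cast (padicNorm.int_eq_one_iff (p := p) _).2 hg
        rw [← h2]
        exact le_ciSup (f := fun g : Fin r → Fin R =>
          stdAbs.abv (some p) ((S.map (algebraMap ℚ Qb)).submatrix id g).det)
          (Set.finite_range _).bddAbove g
    rw [h1, Real.log_one]
  have hsum : ∑ᶠ v : V0, Real.log (mm stdAbs v (S.map (algebraMap ℚ Qb))) =
      Real.log (mm stdAbs none (S.map (algebraMap ℚ Qb))) := by
    refine finsum_eq_single _ none fun v hv => ?_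
    rcases v with _ | p
    · exact absurd rfl hv
    · exact hp p
  rw [hsum]
  -- the small solution
  obtain ⟨c, hc0, g, hcg⟩ := siegel_int hr S0 hS0
  let t : Fin R → ℚ := fun j => ((Matrix.vecMul c S0 j : ℤ) : ℚ)
  have ht : ∀ j, t j = ((Matrix.vecMul c S0 j : ℤ) : ℚ) := fun _ => rfl
  have ht0 : t ≠ 0 := by
    intro h0
    apply hc0
    have h1 : ∑ i, c i • S0.row i = 0 := by
      funext j
      have h2 := congrFun h0 j
      rw [ht, Pi.zero_apply] at h2
      have h3 : Matrix.vecMul c S0 j = 0 := by exact_mod_cast h2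
      rw [Finset.sum_apply]
      exact h3
    funext i
    exact Fintype.linearIndependent_iff.1 hS0 c h1 i
  have htU : t ∈ U := by
    have h1 : t = ∑ i, (c i : ℚ) • (fun j => (S0 i j : ℚ)) := by
      funext j
      rw [ht, Finset.sum_apply]
      simp only [Matrix.vecMul, dotProduct, Pi.smul_apply, smul_eq_mul]
      push_cast
      rfl
    rw [h1]
    exact U.sum_mem fun i _ => U.smul_mem _ (hS0U i)
  refine ⟨t, ht0, hker t htU, ?_⟩
  have hex : ∃ j, algebraMap ℚ Qb (t j) ≠ 0 := by
    by_contra hcon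
    push Not at hcon
    apply ht0
    funext j
    exact (map_eq_zero_iff _ (algebraMap ℚ Qb).injective).1 (hcon j)
  have hneR : Nonempty (Fin R) := ⟨hex.choose⟩
  -- the height of `t` is at most the archimedean term
  have hh : hvec t ≤ Real.log (⨆ j, stdAbs.abv none (algebraMap ℚ Qb (t j))) := by
    have h1 : hvec t ≤ ∑ᶠ v : V0, (if v = none then
        Real.log (⨆ j, stdAbs.abv none (algebraMap ℚ Qb (t j))) else 0) := by
      refine H65Siegel.finsum_le_finsum' (H65Siegel.finite_support_log_iSup _ hex) ?_ ?_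
      · refine (Set.finite_singleton (none : V0)).subset fun v hv => ?_
        by_contra hne
        exact hv (if_neg hne)
      · intro v
        rcases v with _ | p
        · simp
        · have : Fact (p : ℕ).Prime := ⟨p.2⟩
          simp only [reduceCtorEq, if_false]
          refine Real.log_nonpos (H65Siegel.iSup_abv_pos _ hex _).le (ciSup_le fun j => ?_)
          rw [stdAbs_some]
          exact_mod_cast padicNorm.of_int (p := p) (Matrix.vecMul c S0 j)
    refine h1.trans (le_of_eq ?_)
    rw [finsum_eq_single _ none fun v hv => if_neg hv, if_pos rfl]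
  have hXpos := H65Siegel.iSup_abv_pos (fun j => algebraMap ℚ Qb (t j)) hex none
  obtain ⟨j0, hj0⟩ := exists_eq_ciSup_of_finite
    (f := fun j => stdAbs.abv none (algebraMap ℚ Qb (t j)))
  rw [← hj0] at hh hXpos
  have hX : stdAbs.abv none (algebraMap ℚ Qb (t j0)) = |((Matrix.vecMul c S0 j0 : ℤ) : ℝ)| := by
    rw [stdAbs_none, ht, Rat.cast_intCast]
  have hM : |(((S0.submatrix id g).det : ℤ) : ℝ)| ≤ mm stdAbs none (S.map (algebraMap ℚ Qb)) := by
    have h2 : stdAbs.abv none ((S.map (algebraMap ℚ Qb)).submatrix id g).det =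
        |(((S0.submatrix id g).det : ℤ) : ℝ)| := by
      rw [hdetS, stdAbs_none, Rat.cast_intCast]
    rw [← h2]
    exact le_ciSup (f := fun g : Fin r → Fin R =>
      stdAbs.abv none ((S.map (algebraMap ℚ Qb)).submatrix id g).det)
      (Set.finite_range _).bddAbove g
  have hle : stdAbs.abv none (algebraMap ℚ Qb (t j0)) ^ r ≤
      (r : ℝ) ^ r * mm stdAbs none (S.map (algebraMap ℚ Qb)) := by
    rw [hX]
    have h1 := hcg j0
    have h2 : |((Matrix.vecMul c S0 j0 : ℤ) : ℝ)| ^ r ≤
        (r : ℝ) ^ r * |(((S0.submatrix id g).det : ℤ) : ℝ)| := by exact_mod_cast h1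
    exact h2.trans (mul_le_mul_of_nonneg_left hM (by positivity))
  have hr' : (0 : ℝ) < r := by exact_mod_cast hr
  have hlog := Real.log_le_log (pow_pos hXpos r) hle
  rw [Real.log_pow, Real.log_mul (pow_pos hr' r).ne' (mm_pos _ hS' none).ne', Real.log_pow] at hlog
  have h5 := mul_le_mul_of_nonneg_left hh hr'.le
  linarith

end Siegel

end Fermat.Agent.H17
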