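/-
H17Vdm: Vandermonde estimates (project S17; statements frozen by helper17, proofs by helper14)
-/
import Mathlib
import Fermat.Agent.H17Up

set_option autoImplicit false

noncomputable section

open AlgebraicCurve WithZero Polynomial

namespace Fermat.Agent.H17

open Fermat.Agent.H3RR

section General

variable {K F : Type*} [Field K] [Field F] [Algebra K F]

theorem mset_prod_mem_W1 {x : F} (A : Multiset F) (hA : ∀ s ∈ A, s ∈ W K x 1) :
    A.prod ∈ W K x A.card := by
  induction A using Multiset.induction_on with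
  | empty => simpa using one_mem_W x 0
  | cons a A ih =>
    rw [Multiset.prod_cons, Multiset.card_cons, add_comm]
    exact mul_mem_W (hA a (Multiset.mem_cons_self a A)) (ih fun s hs => hA s (Multiset.mem_cons_of_mem hs))

theorem ev_mset_prod1 [IsAlgClosed K] [IsFF K F] {x : F} (A : Multiset F)
    (hA : ∀ s ∈ A, s ∈ W K x 1) (Q : Place K F) :
    ev x A.card Q A.prod = (A.map (ev x 1 Q)).prod := by
  induction A using Multiset.induction_on with
  | empty =>
    rw [Multiset.prod_zero, Multiset.card_zero, Multiset.map_zero, Multiset.prod_zero, ev, pow_zero,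
      mul_one, val_one]
  | cons a A ih =>
    rw [Multiset.prod_cons, Multiset.card_cons, Multiset.map_cons, Multiset.prod_cons, add_comm,
      ev_mul (hA a (Multiset.mem_cons_self a A))
        (mset_prod_mem_W1 A fun s hs => hA s (Multiset.mem_cons_of_mem hs)),
      ih fun s hs => hA s (Multiset.mem_cons_of_mem hs)]

theorem multiset_prod_le_pow {α : Type*} (A : Multiset α) (g : α → ℝ) {C : ℝ} (h0 : ∀ a, 0 ≤ g a)
    (hC : ∀ a, g a ≤ C) : (A.map g).prod ≤ C ^ A.card := by
  induction A using Multiset.induction_on with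
  | empty => simp
  | cons a A ih =>
    rw [Multiset.map_cons, Multiset.prod_cons, Multiset.card_cons, pow_succ, mul_comm]
    exact mul_le_mul ih (hC a) (h0 a) ((Multiset.prod_nonneg (fun x hx => by
      obtain ⟨b, _, rfl⟩ := Multiset.mem_map.mp hx; exact h0 b)).trans ih)

theorem prod_Ioi_eq {k : ℕ} {M : Type*} [CommMonoid M] (i : Fin k) (g : Fin k → M) :
    ∏ j ∈ Finset.Ioi i, g j = ∏ j, if i < j then g j else 1 := by
  rw [← Finset.prod_filter]
  congr 1
  ext j
  simp

theorem prod_pairs_succ {k : ℕ} {M : Type*} [CommMonoid M] (g : Fin (k + 1) → Fin (k + 1) → M) :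
    ∏ i, ∏ j ∈ Finset.Ioi i, g i j =
      (∏ i : Fin k, ∏ j ∈ Finset.Ioi i, g i.castSucc j.castSucc) *
        ∏ i : Fin k, g i.castSucc (Fin.last k) := by
  rw [Fin.prod_univ_castSucc]
  have h1 : ∏ j ∈ Finset.Ioi (Fin.last k), g (Fin.last k) j = 1 := by
    rw [prod_Ioi_eq]
    refine Finset.prod_eq_one fun j _ => ?_
    rw [if_neg (not_lt.mpr (Fin.le_last j))]
  rw [h1, mul_one, ← Finset.prod_mul_distrib]
  refine Finset.prod_congr rfl fun i _ => ?_
  rw [prod_Ioi_eq, prod_Ioi_eq, Fin.prod_univ_castSucc, if_pos (Fin.castSucc_lt_last i)]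
  congr 1

theorem exists_generic_pairs {K V : Type*} [Field K] [IsAlgClosed K] [CharZero K] (𝔸 : AbsFam K V)
    (r N k : ℕ) [NeZero r] : ∃ T : ℕ, ∃ C, IsMC C ∧
    ∀ (v : V) (u : Fin k → Fin r → K), ∃ t : ℕ, t ≤ T ∧
      (∏ i, ∏ j ∈ Finset.Ioi i, ⨆ ij : Fin r × Fin r,
          𝔸.abv v (u i ij.1 * u j ij.2 - u i ij.2 * u j ij.1)) *
        ∏ i, (⨆ a, 𝔸.abv v (u i a)) ^ (N - (i : ℕ)) ≤
      C v * ((∏ i, ∏ j ∈ Finset.Ioi i,
          𝔸.abv v (zlin t (u i) * ylin t (u j) - ylin t (u i) * zlin t (u j))) *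
        ∏ i, 𝔸.abv v (zlin t (u i)) ^ (N - (i : ℕ))) := by
  classical
  obtain ⟨T, C₁, hC₁, h₁⟩ := exists_generic 𝔸 r (k * k + k * N)
  refine ⟨T, C₁, hC₁, fun v u => ?_⟩
  let prs : Finset (Σ _ : Fin k, Fin k) := Finset.univ.sigma fun i : Fin k => Finset.Ioi i
  let vcs : Finset (Σ _ : Fin k, ℕ) := Finset.univ.sigma fun i : Fin k => Finset.range (N - (i : ℕ))
  have h1 : prs.card ≤ k * k + k * N := by
    have : prs.card ≤ k * k := by
      rw [Finset.card_sigma]
      calc ∑ i : Fin k, (Finset.Ioi i).card ≤ ∑ _i : Fin k, k := Finset.sum_le_sum fun i _ => by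
            have := Finset.card_le_univ (Finset.Ioi i)
            rwa [Fintype.card_fin] at this
        _ = k * k := by rw [Finset.sum_const, Finset.card_univ, Fintype.card_fin, smul_eq_mul]
    omega
  have h2 : vcs.card ≤ k * k + k * N := by
    have : vcs.card ≤ k * N := by
      rw [Finset.card_sigma]
      calc ∑ i : Fin k, (Finset.range (N - (i : ℕ))).card ≤ ∑ _i : Fin k, N :=
            Finset.sum_le_sum fun i _ => by rw [Finset.card_range]; omega
        _ = k * N := by rw [Finset.sum_const, Finset.card_univ, Fintype.card_fin, smul_eq_mul]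
    omega
  have hcardA : Multiset.card (prs.val.map fun q => (u q.1, u q.2)) ≤ k * k + k * N := by
    rw [Multiset.card_map]; exact h1
  have hcardB : Multiset.card (vcs.val.map fun q => u q.1) ≤ k * k + k * N := by
    rw [Multiset.card_map]; exact h2
  have key := h₁ v (prs.val.map fun q => (u q.1, u q.2)) (vcs.val.map fun q => u q.1) hcardA hcardB
  obtain ⟨t, htT, ht⟩ := key
  refine ⟨t, htT, ?_⟩
  have e1 : ∀ (h : (Fin r → K) × (Fin r → K) → ℝ),
      ((prs.val.map fun q => (u q.1, u q.2)).map h).prod = ∏ i, ∏ j ∈ Finset.Ioi i, h (u i, u j) := by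
    intro h
    rw [Multiset.map_map]
    exact Finset.prod_sigma Finset.univ (fun i => Finset.Ioi i) (fun q => h (u q.1, u q.2))
  have e2 : ∀ (h : (Fin r → K) → ℝ),
      ((vcs.val.map fun q => u q.1).map h).prod = ∏ i, h (u i) ^ (N - (i : ℕ)) := by
    intro h
    rw [Multiset.map_map]
    refine (Finset.prod_sigma Finset.univ (fun i : Fin k => Finset.range (N - (i : ℕ)))
      (fun q => h (u q.1))).trans ?_
    refine Finset.prod_congr rfl fun i _ => ?_
    show ∏ _s ∈ Finset.range (N - (i : ℕ)), h (u i) = _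
    rw [Finset.prod_const, Finset.card_range]
  rw [e1, e2, e1, e2] at ht
  exact ht

end General

namespace HSetup

variable {K F V : Type*} [Field K] [Field F] [Algebra K F] [IsAlgClosed K] [CharZero K] [IsFF K F]
variable (S : HSetup K F V)

/-! ### L11: Vandermonde estimate (file H17Vdm) -/

/-- maximum of the maximal minors of the evaluation matrix of sections of `N D` at `k` points -/
def wedge (N : ℕ) (v : V) {k : ℕ} (P : Fin k → Place K F) : ℝ :=
  ⨆ f : Fin k → Fin (S.r N), S.𝔸.abv v (Matrix.of fun i j => ev S.x N (P j) ((S.b N (f i) : W K S.x N) : F)).det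

theorem abv_det_le_wedge (N : ℕ) (v : V) {k : ℕ} (P : Fin k → Place K F) (f : Fin k → Fin (S.r N)) :
    S.𝔸.abv v (Matrix.of fun i j => ev S.x N (P j) ((S.b N (f i) : W K S.x N) : F)).det ≤
      S.wedge N v P :=
  le_ciSup (f := fun f : Fin k → Fin (S.r N) => S.𝔸.abv v
    (Matrix.of fun i j => ev S.x N (P j) ((S.b N (f i) : W K S.x N) : F)).det)
    (Finite.bddAbove_range _) f

theorem wedge_nonneg (N : ℕ) (v : V) {k : ℕ} (P : Fin k → Place K F) : 0 ≤ S.wedge N v P :=
  Real.iSup_nonneg fun _ => (S.𝔸.abv v).nonneg _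

theorem nrm_basis_le (N : ℕ) (v : V) (i : Fin (S.r N)) :
    S.nrm N v ((S.b N i : W K S.x N) : F) ≤ 1 := by
  rw [S.nrm_of_mem (S.b N i).2]
  refine Real.iSup_le (fun j => ?_) zero_le_one
  have : (⟨((S.b N i : W K S.x N) : F), (S.b N i).2⟩ : W K S.x N) = S.b N i := rfl
  rw [this, Module.Basis.repr_self, Finsupp.single_apply]
  split_ifs
  · rw [map_one]
  · rw [map_zero]; exact zero_le_one

theorem exists_wedge_upper (N k : ℕ) : ∃ C, IsMC C ∧ ∀ v (P : Fin k → Place K F),
    S.wedge N v P ≤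
      C v * ((∏ i, S.w v (P i)) ^ N * ∏ i, ∏ j ∈ Finset.Ioi i, S.dist v (P i) (P j)) := by
  classical
  induction k with
  | zero =>
    refine ⟨fun _ => 1, isMC_one, fun v P => ?_⟩
    refine Real.iSup_le (fun f => ?_) (by simp)
    rw [Matrix.det_fin_zero, map_one]
    simp
  | succ k ih =>
    obtain ⟨C₁, hC₁, h₁⟩ := ih
    obtain ⟨C₂, hC₂, h₂⟩ := S.exists_upper N
    obtain ⟨C₃, hC₃, h₃⟩ := S.exists_dist_le
    set Nd : ℕ := N * Module.finrank (IntermediateField.adjoin K {S.x}) F with hNd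
    refine ⟨_, ((hC₁.mul hC₂).mul (S.𝔸.isMC_card (k + 1))).mul (hC₃.pow Nd), fun v P => ?_⟩
    have hRHS0 : 0 ≤ ((∏ i, S.w v (P i)) ^ N * ∏ i, ∏ j ∈ Finset.Ioi i, S.dist v (P i) (P j)) :=
      mul_nonneg (pow_nonneg (Finset.prod_nonneg fun i _ => (S.w_pos v (P i)).le) _)
        (Finset.prod_nonneg fun i _ => Finset.prod_nonneg fun j _ => S.dist_nonneg v _ _)
    have hCC : 0 ≤ C₁ v * C₂ v * S.𝔸.card (k + 1) v * C₃ v ^ Nd :=
      mul_nonneg (mul_nonneg (mul_nonneg (hC₁.nonneg v) (hC₂.nonneg v)) ((S.𝔸.isMC_card (k + 1)).nonneg v))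
        (pow_nonneg (hC₃.nonneg v) _)
    refine Real.iSup_le (fun f => ?_) (mul_nonneg hCC hRHS0)
    -- the minors
    set p : Fin k → Place K F := fun j => P j.castSucc with hp
    set Q : Place K F := P (Fin.last k) with hQ
    set mn : Fin (k + 1) → K := fun i => (Matrix.of fun (a : Fin k) (b : Fin k) =>
      ev S.x N (p b) ((S.b N (f (i.succAbove a)) : W K S.x N) : F)).det with hmn
    set m : Fin (k + 1) → K := fun i => (-1) ^ ((i : ℕ) + (Fin.last k : ℕ)) * mn i with hm
    set s : F := ∑ i, m i • ((S.b N (f i) : W K S.x N) : F) with hs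
    have hbW : ∀ i, m i • ((S.b N (f i) : W K S.x N) : F) ∈ W K S.x N := fun i =>
      Submodule.smul_mem _ _ (S.b N (f i)).2
    have hsW : s ∈ W K S.x N := Submodule.sum_mem _ fun i _ => hbW i
    have hev : ∀ R : Place K F, ev S.x N R s = (Matrix.of fun (i j : Fin (k + 1)) =>
        Fin.lastCases (motive := fun _ => K) (ev S.x N R ((S.b N (f i) : W K S.x N) : F))
          (fun j' => ev S.x N (p j') ((S.b N (f i) : W K S.x N) : F)) j).det := by
      intro R
      rw [Matrix.det_succ_column _ (Fin.last k), hs, ev_sum _ _ fun i _ => hbW i]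
      refine Finset.sum_congr rfl fun i _ => ?_
      rw [ev_smul (S.b N (f i)).2, hm, Matrix.of_apply, Fin.lastCases_last]
      have : (Matrix.of fun (i j : Fin (k + 1)) =>
        Fin.lastCases (motive := fun _ => K) (ev S.x N R ((S.b N (f i) : W K S.x N) : F))
          (fun j' => ev S.x N (p j') ((S.b N (f i) : W K S.x N) : F)) j).submatrix i.succAbove
            (Fin.last k).succAbove = (Matrix.of fun (a : Fin k) (b : Fin k) =>
      ev S.x N (p b) ((S.b N (f (i.succAbove a)) : W K S.x N) : F)) := by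
        ext a b
        rw [Matrix.submatrix_apply, Matrix.of_apply, Matrix.of_apply, Fin.succAbove_last,
          Fin.lastCases_castSucc]
      rw [this]
      ring
    have hdet : (Matrix.of fun i j => ev S.x N (P j) ((S.b N (f i) : W K S.x N) : F)).det =
        ev S.x N Q s := by
      rw [hev]
      congr 1
      ext i j
      rw [Matrix.of_apply, Matrix.of_apply]
      refine Fin.lastCases ?_ (fun j' => ?_) j
      · rw [Fin.lastCases_last]
      · rw [Fin.lastCases_castSucc]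
    rw [hdet]
    have hmn_le : ∀ i, S.𝔸.abv v (m i) ≤ S.wedge N v p := by
      intro i
      rw [hm]
      show S.𝔸.abv v ((-1) ^ ((i : ℕ) + (Fin.last k : ℕ)) * mn i) ≤ _
      rw [map_mul, map_pow, AbsoluteValue.map_neg, map_one, one_pow, one_mul]
      exact S.abv_det_le_wedge N v p fun a => f (i.succAbove a)
    have hnrm : S.nrm N v s ≤ S.𝔸.card (k + 1) v * S.wedge N v p := by
      have := S.nrm_sum_le (N := N) Finset.univ (fun i => m i • ((S.b N (f i) : W K S.x N) : F))
        (fun i _ => hbW i) v (S.wedge_nonneg N v p) (fun i _ => by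
          rw [S.nrm_smul (S.b N (f i)).2]
          calc S.𝔸.abv v (m i) * S.nrm N v ((S.b N (f i) : W K S.x N) : F)
              ≤ S.𝔸.abv v (m i) * 1 := mul_le_mul_of_nonneg_left (S.nrm_basis_le N v (f i))
                ((S.𝔸.abv v).nonneg _)
            _ ≤ S.wedge N v p := by rw [mul_one]; exact hmn_le i)
      rwa [Finset.card_univ, Fintype.card_fin] at this
    by_cases hs0 : s = 0
    · rw [hs0, ev_zero, map_zero]
      exact mul_nonneg hCC hRHS0
    -- the points are distinct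
    have hinj : Function.Injective p := by
      by_contra hni
      apply hs0
      rw [Function.not_injective_iff] at hni
      obtain ⟨a, b, hab, hne⟩ := hni
      rw [hs]
      refine Finset.sum_eq_zero fun i _ => ?_
      have : mn i = 0 := Matrix.det_zero_of_column_eq hne (fun c => by
        rw [Matrix.of_apply, Matrix.of_apply, hab])
      rw [hm]
      show ((-1) ^ ((i : ℕ) + (Fin.last k : ℕ)) * mn i) • _ = _
      rw [this, mul_zero, zero_smul]
    obtain ⟨A, hA⟩ := exists_isZer S.hx hsW hs0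
    have hmem : ∀ j, p j ∈ A := by
      intro j
      rw [hA.mem_iff (transcendental_ne_zero S.hx) hsW hs0, hev]
      refine Matrix.det_zero_of_column_eq (i := j.castSucc) (j := Fin.last k)
        (Fin.castSucc_lt_last j).ne (fun i => ?_)
      rw [Matrix.of_apply, Matrix.of_apply, Fin.lastCases_last, Fin.lastCases_castSucc]
    have hle : (Finset.univ : Finset (Fin k)).val.map p ≤ A := by
      rw [Multiset.le_iff_subset (Multiset.Nodup.map hinj Finset.univ.nodup)]
      intro R hR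
      obtain ⟨j, _, rfl⟩ := Multiset.mem_map.mp hR
      exact hmem j
    obtain ⟨A', hA'⟩ := Multiset.le_iff_exists_add.mp hle
    have hcard : A'.card ≤ Nd := by
      have h1 := hA.card_eq S.hx hs0
      rw [hA', Multiset.card_add] at h1
      omega
    have hprodA : (A.map fun R => S.dist v R Q).prod ≤ (∏ i, S.dist v (p i) Q) * C₃ v ^ Nd := by
      rw [hA', Multiset.map_add, Multiset.prod_add, Multiset.map_map]
      refine mul_le_mul le_rfl ?_ (Multiset.prod_nonneg (fun x hx => by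
        obtain ⟨b, _, rfl⟩ := Multiset.mem_map.mp hx; exact S.dist_nonneg v _ _))
        (Finset.prod_nonneg fun i _ => S.dist_nonneg v _ _)
      exact (multiset_prod_le_pow A' _ (fun a => S.dist_nonneg v a Q) (fun a => h₃ v a Q)).trans
        (pow_le_pow_right₀ (hC₃.one_le v) hcard)
    have hprodA0 : 0 ≤ (A.map fun R => S.dist v R Q).prod := Multiset.prod_nonneg (fun x hx => by
        obtain ⟨b, _, rfl⟩ := Multiset.mem_map.mp hx; exact S.dist_nonneg v _ _)
    have h4 := h₂ s A hsW hs0 hA v Q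
    have h5 := h₁ v p
    have hwQ : 0 ≤ S.w v Q ^ N := pow_nonneg (S.w_pos v Q).le _
    have hcard0 := (S.𝔸.isMC_card (k + 1)).nonneg v
    calc S.𝔸.abv v (ev S.x N Q s)
        ≤ C₂ v * (S.nrm N v s * S.w v Q ^ N * (A.map fun R => S.dist v R Q).prod) := h4
      _ ≤ C₂ v * ((S.𝔸.card (k + 1) v * (C₁ v * ((∏ i, S.w v (p i)) ^ N *
            ∏ i, ∏ j ∈ Finset.Ioi i, S.dist v (p i) (p j)))) * S.w v Q ^ N *
            ((∏ i, S.dist v (p i) Q) * C₃ v ^ Nd)) := by
          refine mul_le_mul_of_nonneg_left ?_ (hC₂.nonneg v)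
          refine mul_le_mul ?_ hprodA hprodA0 ?_
          · refine mul_le_mul_of_nonneg_right ?_ hwQ
            exact hnrm.trans (mul_le_mul_of_nonneg_left h5 hcard0)
          · refine mul_nonneg (mul_nonneg hcard0 (mul_nonneg (hC₁.nonneg v) ?_)) hwQ
            exact mul_nonneg (pow_nonneg (Finset.prod_nonneg fun i _ => (S.w_pos v _).le) _)
              (Finset.prod_nonneg fun i _ => Finset.prod_nonneg fun j _ => S.dist_nonneg v _ _)
      _ = C₁ v * C₂ v * S.𝔸.card (k + 1) v * C₃ v ^ Nd * ((∏ i, S.w v (P i)) ^ N *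
            ∏ i, ∏ j ∈ Finset.Ioi i, S.dist v (P i) (P j)) := by
          rw [prod_pairs_succ (fun i j => S.dist v (P i) (P j)), Fin.prod_univ_castSucc, mul_pow]
          ring

/-! #### the lower bound -/

/-- generic section `y_t` -/
def ysec (t : ℕ) : F := ∑ i : Fin (S.r 1), (t : K) ^ (i : ℕ) • ((S.b 1 i : W K S.x 1) : F)
/-- generic section `z_t` -/
def zsec (t : ℕ) : F := ∑ i : Fin (S.r 1), (t : K) ^ (S.r 1 * (i : ℕ)) • ((S.b 1 i : W K S.x 1) : F)

theorem ysec_mem (t : ℕ) : S.ysec t ∈ W K S.x 1 :=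
  Submodule.sum_mem _ fun i _ => Submodule.smul_mem _ _ (S.b 1 i).2

theorem zsec_mem (t : ℕ) : S.zsec t ∈ W K S.x 1 :=
  Submodule.sum_mem _ fun i _ => Submodule.smul_mem _ _ (S.b 1 i).2

theorem ev_ysec (t : ℕ) (P : Place K F) : ev S.x 1 P (S.ysec t) = ylin t (S.e P) := by
  rw [ysec, ev_sum _ _ fun i _ => Submodule.smul_mem _ _ (S.b 1 i).2, ylin]
  exact Finset.sum_congr rfl fun i _ => by rw [ev_smul (S.b 1 i).2]; rfl

theorem ev_zsec (t : ℕ) (P : Place K F) : ev S.x 1 P (S.zsec t) = zlin t (S.e P) := by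
  rw [zsec, ev_sum _ _ fun i _ => Submodule.smul_mem _ _ (S.b 1 i).2, zlin]
  exact Finset.sum_congr rfl fun i _ => by rw [ev_smul (S.b 1 i).2]; rfl

/-- expansion of a determinant of values of sections -/
theorem abv_det_ev_le (N : ℕ) (v : V) {k : ℕ} (P : Fin k → Place K F) (g : Fin k → F)
    (hg : ∀ i, g i ∈ W K S.x N) :
    S.𝔸.abv v (Matrix.of fun i j => ev S.x N (P j) (g i)).det ≤
      S.𝔸.card (Fintype.card (Fin k → Fin (S.r N))) v * ((∏ i, S.nrm N v (g i)) * S.wedge N v P) := by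
  classical
  set c : Fin k → Fin (S.r N) → K := fun i a => (S.b N).repr ⟨g i, hg i⟩ a with hc
  set row : Fin (S.r N) → Fin k → K := fun a j => ev S.x N (P j) ((S.b N a : W K S.x N) : F) with hrow
  have hgi : ∀ i, g i = ∑ a, c i a • ((S.b N a : W K S.x N) : F) := by
    intro i
    have h2 := congrArg (Subtype.val) ((S.b N).sum_repr ⟨g i, hg i⟩)
    rw [Submodule.coe_sum] at h2
    exact h2.symm
  have h1 : (Matrix.of fun i j => ev S.x N (P j) (g i)).det =
      ∑ f : Fin k → Fin (S.r N), (∏ i, c i (f i)) * (Matrix.of fun i j => row (f i) j).det := by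
    have e1 : (Matrix.of fun i j => ev S.x N (P j) (g i)) =
        Matrix.of fun i => ∑ a, c i a • row a := by
      ext i j
      rw [Matrix.of_apply, Matrix.of_apply, Finset.sum_apply, hgi i,
        ev_sum _ _ fun a _ => Submodule.smul_mem _ _ (S.b N a).2]
      refine Finset.sum_congr rfl fun a _ => ?_
      rw [ev_smul (S.b N a).2, Pi.smul_apply, smul_eq_mul]
    rw [e1]
    have e2 := (Matrix.detRowAlternating (n := Fin k) (R := K)).toMultilinearMap.map_sum
      (fun i a => c i a • row a)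
    have e3 : ∀ f : Fin k → Fin (S.r N), (Matrix.detRowAlternating (n := Fin k) (R := K)).toMultilinearMap
        (fun i => c i (f i) • row (f i)) = (∏ i, c i (f i)) • (Matrix.detRowAlternating (n := Fin k)
          (R := K)).toMultilinearMap (fun i => row (f i)) := fun f =>
      MultilinearMap.map_smul_univ _ _ _
    refine Eq.trans e2 ?_
    refine Finset.sum_congr rfl fun f _ => ?_
    exact e3 f
  rw [h1, ← Finset.card_univ]
  refine S.𝔸.abv_sum_le _ _ v (mul_nonneg (Finset.prod_nonneg fun i _ => S.nrm_nonneg N v _)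
    (S.wedge_nonneg N v P)) fun f _ => ?_
  rw [map_mul, map_prod]
  exact mul_le_mul (Finset.prod_le_prod (fun i _ => (S.𝔸.abv v).nonneg _)
    (fun i _ => S.abv_repr_le (hg i) v (f i))) (S.abv_det_le_wedge N v P f) ((S.𝔸.abv v).nonneg _)
    (Finset.prod_nonneg fun i _ => S.nrm_nonneg N v _)

theorem exists_wedge_lower (N k : ℕ) (hk : k ≤ N) : ∃ C, IsMC C ∧ ∀ v (P : Fin k → Place K F),
    (∏ i, S.w v (P i)) ^ N * ∏ i, ∏ j ∈ Finset.Ioi i, S.dist v (P i) (P j) ≤
      C v * S.wedge N v P := by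
  classical
  have hr : NeZero (S.r 1) := ⟨by
    have : Nonempty (Fin (S.r 1)) := inferInstance
    obtain ⟨i⟩ := this
    have := i.2
    omega⟩
  obtain ⟨T, C₁, hC₁, h₁⟩ := exists_generic_pairs S.𝔸 (S.r 1) N k
  obtain ⟨C₂, hC₂, h₂⟩ := S.exists_nrm_prod_le N
  obtain ⟨C₃, hC₃, h₃⟩ := S.exists_nrm_tsec_le
  obtain ⟨C₄, hC₄, h₄⟩ := exists_isMC_forall (V := V) (ι := Fin (T + 1))
    (C := fun t => (S.exists_nrm_le 1 (S.ysec t)).choose) fun t => (S.exists_nrm_le 1 (S.ysec t)).choose_spec.1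
  obtain ⟨C₅, hC₅, h₅⟩ := exists_isMC_forall (V := V) (ι := Fin (T + 1))
    (C := fun t => (S.exists_nrm_le 1 (S.zsec t)).choose) fun t => (S.exists_nrm_le 1 (S.zsec t)).choose_spec.1
  have hy : ∀ t ≤ T, ∀ v, S.nrm 1 v (S.ysec t) ≤ C₄ v := fun t ht v =>
    ((S.exists_nrm_le 1 (S.ysec t)).choose_spec.2 v).trans (h₄ ⟨t, by omega⟩ v)
  have hz : ∀ t ≤ T, ∀ v, S.nrm 1 v (S.zsec t) ≤ C₅ v := fun t ht v =>
    ((S.exists_nrm_le 1 (S.zsec t)).choose_spec.2 v).trans (h₅ ⟨t, by omega⟩ v)
  set c6 : ℕ := Fintype.card (Fin k → Fin (S.r N)) with hc6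
  -- constant for one row
  set E : V → ℝ := fun v => C₂ v * (C₅ v ^ N * (C₃ v * (C₄ v * C₅ v)) ^ N) with hE
  have hEMC : IsMC E := hC₂.mul ((hC₅.pow N).mul ((hC₃.mul (hC₄.mul hC₅)).pow N))
  refine ⟨_, (hC₁.mul (S.𝔸.isMC_card c6)).mul (hEMC.pow k), fun v P => ?_⟩
  -- apply the generic choice
  obtain ⟨t, htT, ht⟩ := h₁ v (fun i => S.e (P i))
  set y : F := S.ysec t with hyt
  set z : F := S.zsec t with hzt
  have hyW := S.ysec_mem t
  have hzW := S.zsec_mem t
  have hP1 : ∀ i j : Fin k, (⨆ ij : Fin (S.r 1) × Fin (S.r 1), S.𝔸.abv v (S.e (P i) ij.1 * S.e (P j) ij.2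
      - S.e (P i) ij.2 * S.e (P j) ij.1)) = S.w v (P i) * S.w v (P j) * S.dist v (P i) (P j) := by
    intro i j
    rw [dist, mul_div_cancel₀ _ (mul_ne_zero (S.w_pos v _).ne' (S.w_pos v _).ne')]
  have hP2 : ∀ i : Fin k, (⨆ a, S.𝔸.abv v (S.e (P i) a)) = S.w v (P i) := fun i => rfl
  have hP3 : ∀ i j : Fin k, S.𝔸.abv v (zlin t (S.e (P i)) * ylin t (S.e (P j)) -
      ylin t (S.e (P i)) * zlin t (S.e (P j))) = S.𝔸.abv v (ev S.x 1 (P j) (tsec S.x y z (P i))) := by
    intro i j
    rw [ev_tsec hyW hzW, ev_ysec, ev_ysec, ev_zsec, ev_zsec]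
  have hP4 : ∀ i : Fin k, S.𝔸.abv v (zlin t (S.e (P i))) = S.𝔸.abv v (ev S.x 1 (P i) z) := by
    intro i
    rw [ev_zsec]
  simp only [hP1, hP2, hP3, hP4] at ht
  -- the sections `f_j`
  set ms : Fin k → Multiset F := fun j => Multiset.replicate (N - (j : ℕ)) z +
    (Finset.Iio j).val.map (fun i => tsec S.x y z (P i)) with hms
  have hmsW : ∀ j, ∀ s ∈ ms j, s ∈ W K S.x 1 := by
    intro j s hs
    rw [hms, Multiset.mem_add] at hs
    rcases hs with hs | hs
    · rw [Multiset.eq_of_mem_replicate hs]; exact hzW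
    · obtain ⟨i, _, rfl⟩ := Multiset.mem_map.mp hs
      exact tsec_mem hyW hzW _
  have hmscard : ∀ j, (ms j).card = N := by
    intro j
    rw [hms, Multiset.card_add, Multiset.card_replicate, Multiset.card_map]
    have : Multiset.card (Finset.Iio j).val = (j : ℕ) := Fin.card_Iio j
    rw [this]
    have := j.2
    omega
  set g : Fin k → F := fun j => (ms j).prod with hg
  have hgW : ∀ j, g j ∈ W K S.x N := by
    intro j
    have := mset_prod_mem_W1 (ms j) (hmsW j)
    rwa [hmscard] at this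
  have hevg : ∀ j (Q : Place K F), ev S.x N Q (g j) = ev S.x 1 Q z ^ (N - (j : ℕ)) *
      ∏ i ∈ Finset.Iio j, ev S.x 1 Q (tsec S.x y z (P i)) := by
    intro j Q
    have := ev_mset_prod1 (ms j) (hmsW j) Q
    rw [hmscard] at this
    rw [hg]
    show ev S.x N Q (ms j).prod = _
    rw [this, hms, Multiset.map_add, Multiset.prod_add, Multiset.map_replicate,
      Multiset.prod_replicate, Multiset.map_map]
    rfl
  -- norms of the sections
  have hnrmg : ∀ j, S.nrm N v (g j) ≤ E v * ∏ i ∈ Finset.Iio j, S.w v (P i) := by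
    intro j
    have h6 := h₂ v (ms j) (hmscard j) (hmsW j)
    refine h6.trans ?_
    rw [hE]
    show _ ≤ C₂ v * (C₅ v ^ N * (C₃ v * (C₄ v * C₅ v)) ^ N) * _
    rw [mul_assoc (C₂ v)]
    refine mul_le_mul_of_nonneg_left ?_ (hC₂.nonneg v)
    rw [hms, Multiset.map_add, Multiset.prod_add, Multiset.map_replicate,
      Multiset.prod_replicate, Multiset.map_map]
    rw [mul_assoc]
    refine mul_le_mul ?_ ?_ (Multiset.prod_nonneg (fun x hx => by
      obtain ⟨b, _, rfl⟩ := Multiset.mem_map.mp hx; exact S.nrm_nonneg 1 v _))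
      (pow_nonneg (hC₅.nonneg v) _)
    · exact (pow_le_pow_left₀ (S.nrm_nonneg 1 v z) (hz t htT v) _).trans
        (pow_le_pow_right₀ (hC₅.one_le v) (by omega))
    · have h7 : ((Finset.Iio j).val.map (S.nrm 1 v ∘ fun i => tsec S.x y z (P i))).prod ≤
          ∏ i ∈ Finset.Iio j, ((C₃ v * (C₄ v * C₅ v)) * S.w v (P i)) := by
        refine Finset.prod_le_prod (fun i _ => S.nrm_nonneg 1 v _) fun i _ => ?_
        have h8 := h₃ v (P i) y hyW z hzW
        refine h8.trans ?_
        rw [mul_assoc (C₃ v)]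
        refine mul_le_mul_of_nonneg_left ?_ (hC₃.nonneg v)
        refine mul_le_mul_of_nonneg_right ?_ (S.w_pos v _).le
        exact mul_le_mul (hy t htT v) (hz t htT v) (S.nrm_nonneg 1 v z) (hC₄.nonneg v)
      refine h7.trans ?_
      rw [Finset.prod_mul_distrib, Finset.prod_const]
      refine mul_le_mul_of_nonneg_right ?_ (Finset.prod_nonneg fun i _ => (S.w_pos v _).le)
      refine pow_le_pow_right₀ (hC₃.mul (hC₄.mul hC₅) |>.one_le v) ?_
      rw [Fin.card_Iio]
      have := j.2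
      omega
  -- the determinant is triangular
  have hdet : (Matrix.of fun i j => ev S.x N (P j) (g i)).det =
      ∏ j, (ev S.x 1 (P j) z ^ (N - (j : ℕ)) *
        ∏ i ∈ Finset.Iio j, ev S.x 1 (P j) (tsec S.x y z (P i))) := by
    rw [Matrix.det_of_upperTriangular]
    · exact Finset.prod_congr rfl fun j _ => by rw [Matrix.of_apply, hevg]
    · intro i j hij
      have hij' : j < i := hij
      rw [Matrix.of_apply, hevg]
      have : ∏ l ∈ Finset.Iio i, ev S.x 1 (P j) (tsec S.x y z (P l)) = 0 := by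
        refine Finset.prod_eq_zero (Finset.mem_Iio.mpr hij') ?_
        rw [ev_tsec hyW hzW]; ring
      rw [this, mul_zero]
  have hswap : ∀ (h : Fin k → Fin k → ℝ), ∏ j, ∏ i ∈ Finset.Iio j, h i j =
      ∏ i, ∏ j ∈ Finset.Ioi i, h i j := by
    intro h
    refine Finset.prod_comm' fun x y => ?_
    simp [Finset.mem_Iio, Finset.mem_Ioi]
  have hdet2 : S.𝔸.abv v (Matrix.of fun i j => ev S.x N (P j) (g i)).det =
      (∏ i, ∏ j ∈ Finset.Ioi i, S.𝔸.abv v (ev S.x 1 (P j) (tsec S.x y z (P i)))) *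
        ∏ i, S.𝔸.abv v (ev S.x 1 (P i) z) ^ (N - (i : ℕ)) := by
    rw [hdet, map_prod, mul_comm, ← hswap, ← Finset.prod_mul_distrib]
    refine Finset.prod_congr rfl fun j _ => ?_
    rw [map_mul, map_pow, map_prod]
  rw [← hdet2] at ht
  have h9 := S.abv_det_ev_le N v P g hgW
  -- the weights
  set Wt : ℝ := ∏ i, ∏ j ∈ Finset.Ioi i, S.w v (P i) with hWt
  have hWt0 : 0 < Wt := Finset.prod_pos fun i _ => Finset.prod_pos fun j _ => S.w_pos v _
  have hprodg : ∏ j, S.nrm N v (g j) ≤ E v ^ k * Wt := by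
    calc ∏ j, S.nrm N v (g j) ≤ ∏ j, (E v * ∏ i ∈ Finset.Iio j, S.w v (P i)) :=
          Finset.prod_le_prod (fun j _ => S.nrm_nonneg N v _) fun j _ => hnrmg j
      _ = E v ^ k * Wt := by
          rw [Finset.prod_mul_distrib, Finset.prod_const, Finset.card_univ, Fintype.card_fin,
            hswap (fun i _ => S.w v (P i))]
  have hlhs : (∏ i, ∏ j ∈ Finset.Ioi i, (S.w v (P i) * S.w v (P j) * S.dist v (P i) (P j))) *
      ∏ i, S.w v (P i) ^ (N - (i : ℕ)) =
      Wt * ((∏ i, S.w v (P i)) ^ N * ∏ i, ∏ j ∈ Finset.Ioi i, S.dist v (P i) (P j)) := by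
    have e1 : (∏ i, ∏ j ∈ Finset.Ioi i, (S.w v (P i) * S.w v (P j) * S.dist v (P i) (P j))) =
        Wt * (∏ i, ∏ j ∈ Finset.Ioi i, S.w v (P j)) *
          ∏ i, ∏ j ∈ Finset.Ioi i, S.dist v (P i) (P j) := by
      rw [hWt, ← Finset.prod_mul_distrib, ← Finset.prod_mul_distrib]
      refine Finset.prod_congr rfl fun i _ => ?_
      rw [← Finset.prod_mul_distrib, ← Finset.prod_mul_distrib]
    have e2 : (∏ i, ∏ j ∈ Finset.Ioi i, S.w v (P j)) * ∏ i, S.w v (P i) ^ (N - (i : ℕ)) =
        (∏ i, S.w v (P i)) ^ N := by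
      rw [← hswap (fun _ j => S.w v (P j)), ← Finset.prod_mul_distrib, ← Finset.prod_pow]
      refine Finset.prod_congr rfl fun i _ => ?_
      rw [Finset.prod_const, Fin.card_Iio, ← pow_add]
      congr 1
      have := i.2
      omega
    rw [e1, ← e2]
    ring
  rw [hlhs] at ht
  have hfin : Wt * ((∏ i, S.w v (P i)) ^ N * ∏ i, ∏ j ∈ Finset.Ioi i, S.dist v (P i) (P j)) ≤
      Wt * (C₁ v * S.𝔸.card c6 v * E v ^ k * S.wedge N v P) := by
    refine ht.trans ?_
    calc C₁ v * S.𝔸.abv v (Matrix.of fun i j => ev S.x N (P j) (g i)).det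
        ≤ C₁ v * (S.𝔸.card c6 v * ((E v ^ k * Wt) * S.wedge N v P)) := by
          refine mul_le_mul_of_nonneg_left (h9.trans ?_) (hC₁.nonneg v)
          refine mul_le_mul_of_nonneg_left ?_ ((S.𝔸.isMC_card c6).nonneg v)
          exact mul_le_mul_of_nonneg_right hprodg (S.wedge_nonneg N v P)
      _ = Wt * (C₁ v * S.𝔸.card c6 v * E v ^ k * S.wedge N v P) := by ring
  exact le_of_mul_le_mul_left hfin hWt0

end HSetup

end Fermat.Agent.H17
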