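/-
H17Lower: lower bound for the height (project S17; statements frozen by helper17, proofs by the job owner; helper lemmas may be added)
-/
import Mathlib
import Fermat.Agent.H17Bil
import Fermat.Agent.H17Vdm
import Fermat.Agent.H17Siegel
import Fermat.Agent.H17Setup

set_option autoImplicit false

noncomputable section

open AlgebraicCurve WithZero Polynomial

namespace Fermat.Agent.H17

open Fermat.Agent.H3RR

theorem prod_Ioi_append {k l : ℕ} {α M : Type*} [CommMonoid M] (d : α → α → M) (P : Fin k → α) (Q : Fin l → α) :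
    ∏ i, ∏ j ∈ Finset.Ioi i, d (Fin.append P Q i) (Fin.append P Q j) =
      (∏ i, ∏ j ∈ Finset.Ioi i, d (P i) (P j)) * (∏ i, ∏ j ∈ Finset.Ioi i, d (Q i) (Q j)) *
        ∏ i, ∏ j, d (P i) (Q j) := by
  have h : ∀ {n : ℕ} (R : Fin n → α), ∏ i, ∏ j ∈ Finset.Ioi i, d (R i) (R j) =
      ∏ i, ∏ j, if i < j then d (R i) (R j) else 1 := by
    intro n R
    refine Finset.prod_congr rfl fun i _ => ?_
    rw [← Finset.prod_filter]
    refine Finset.prod_congr ?_ fun _ _ => rfl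
    ext j; simp
  rw [h, h, h, Fin.prod_univ_add]
  simp only [Fin.prod_univ_add, Fin.append_left, Fin.append_right]
  have h1 : ∀ (i : Fin k) (j : Fin l), Fin.castAdd l i < Fin.natAdd k j := by
    intro i j
    rw [Fin.lt_def]
    simp only [Fin.val_castAdd, Fin.val_natAdd]
    omega
  have h2 : ∀ (i : Fin k) (j : Fin l), ¬ Fin.natAdd k j < Fin.castAdd l i := by
    intro i j
    exact (h1 i j).not_gt
  simp only [h1, h2, if_true, if_false, Finset.prod_const_one, one_mul, Finset.prod_mul_distrib]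
  have h3 : ∀ i j : Fin k, (Fin.castAdd l i < Fin.castAdd l j) ↔ i < j := fun i j => Iff.rfl
  have h4 : ∀ i j : Fin l, (Fin.natAdd k i < Fin.natAdd k j) ↔ i < j := by
    intro i j
    rw [Fin.lt_def, Fin.lt_def]
    simp only [Fin.val_natAdd]
    omega
  simp only [h3, h4]
  rw [mul_right_comm]

namespace HSetup

variable {K F V : Type*} [Field K] [Field F] [Algebra K F] [IsAlgClosed K] [CharZero K] [IsFF K F]
variable (S : HSetup K F V)

/-- the model for `wedge` -/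
def vdm (N : ℕ) (v : V) {k : ℕ} (P : Fin k → Place K F) : ℝ :=
  (∏ i, S.w v (P i)) ^ N * ∏ i, ∏ j ∈ Finset.Ioi i, S.dist v (P i) (P j)

theorem vdm_pos (N : ℕ) (v : V) {k : ℕ} {P : Fin k → Place K F} (hP : Function.Injective P) :
    0 < S.vdm N v P := by
  refine mul_pos (pow_pos (Finset.prod_pos fun i _ => S.w_pos v _) _) (Finset.prod_pos fun i _ =>
    Finset.prod_pos fun j hj => S.dist_pos v fun h => ?_)
  exact (Finset.mem_Ioi.mp hj).ne (hP h)

theorem wedge_pos {N : ℕ} {k : ℕ} (hk : k ≤ N) (v : V) {P : Fin k → Place K F}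
    (hP : Function.Injective P) : 0 < S.wedge N v P := by
  obtain ⟨C, hC, h⟩ := S.exists_wedge_lower N k hk
  have h1 := (S.vdm_pos N v hP).trans_le (h v P)
  exact (pos_iff_pos_of_mul_pos h1).mp (hC.pos v)

theorem finite_vdm_ne_one (N : ℕ) {k : ℕ} {P : Fin k → Place K F}
    (hP : Function.Injective P) : {v | S.vdm N v P ≠ 1}.Finite := by
  have h1 : (⋃ i, {v | S.w v (P i) ≠ 1}).Finite := Set.finite_iUnion fun i => S.finite_w_ne_one (P i)
  have h2 : (⋃ ij : {ij : Fin k × Fin k // ij.1 < ij.2}, {v | S.dist v (P ij.1.1) (P ij.1.2) ≠ 1}).Finite :=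
    Set.finite_iUnion fun ij => S.finite_dist_ne_one fun h => ij.2.ne (hP h)
  refine (h1.union h2).subset fun v hv => ?_
  by_contra hcon
  simp only [Set.mem_union, Set.mem_iUnion, not_or, not_exists, Set.mem_ofPred_eq, not_not] at hcon
  apply hv
  show (∏ i, S.w v (P i)) ^ N * ∏ i, ∏ j ∈ Finset.Ioi i, S.dist v (P i) (P j) = 1
  rw [Finset.prod_eq_one fun i _ => hcon.1 i, one_pow, one_mul]
  exact Finset.prod_eq_one fun i _ => Finset.prod_eq_one fun j hj =>
    hcon.2 ⟨(i, j), Finset.mem_Ioi.mp hj⟩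

theorem finite_wedge_ne_one {N : ℕ} {k : ℕ} (hk : k ≤ N) {P : Fin k → Place K F}
    (hP : Function.Injective P) : {v | S.wedge N v P ≠ 1}.Finite := by
  obtain ⟨C, hC, h⟩ := S.exists_wedge_lower N k hk
  obtain ⟨D, hD, h'⟩ := S.exists_wedge_upper N k
  refine ((S.finite_vdm_ne_one N hP).union (hC.2.union hD.2)).subset fun v hv => ?_
  by_contra hcon
  simp only [Set.mem_union, not_or, Set.mem_ofPred_eq, not_not] at hcon
  obtain ⟨h1, h2, h3⟩ := hcon
  apply hv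
  show S.wedge N v P = 1
  have h4 := h v P
  have h5 := h' v P
  have h6 : (∏ i, S.w v (P i)) ^ N * ∏ i, ∏ j ∈ Finset.Ioi i, S.dist v (P i) (P j) = 1 := h1
  rw [h6, h2, one_mul] at h4
  rw [h6, h3, one_mul] at h5
  exact le_antisymm h5 h4

theorem exists_wedge_append (N k l : ℕ) (hN : k + l ≤ N) : ∃ C, IsMC C ∧
    ∀ v (P : Fin k → Place K F) (Q : Fin l → Place K F),
    S.wedge N v P * S.wedge N v Q * ∏ i, ∏ j, S.dist v (P i) (Q j) ≤ C v * S.wedge N v (Fin.append P Q) := by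
  obtain ⟨C, hC, h⟩ := S.exists_wedge_lower N (k + l) hN
  obtain ⟨D, hD, h'⟩ := S.exists_wedge_upper N k
  obtain ⟨E, hE, h''⟩ := S.exists_wedge_upper N l
  refine ⟨fun v => (D v * E v) * C v, (hD.mul hE).mul hC, fun v P Q => ?_⟩
  have h0 : ∀ {n : ℕ} (R : Fin n → Place K F), 0 ≤ S.wedge N v R := fun R =>
    Real.iSup_nonneg fun f => (S.𝔸.abv v).nonneg _
  have hd : 0 ≤ ∏ i, ∏ j, S.dist v (P i) (Q j) :=
    Finset.prod_nonneg fun i _ => Finset.prod_nonneg fun j _ => S.dist_nonneg v _ _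
  have h1 := h v (Fin.append P Q)
  rw [prod_Ioi_append (S.dist v), Fin.prod_univ_add] at h1
  simp only [Fin.append_left, Fin.append_right] at h1
  calc S.wedge N v P * S.wedge N v Q * ∏ i, ∏ j, S.dist v (P i) (Q j)
      ≤ (D v * ((∏ i, S.w v (P i)) ^ N * ∏ i, ∏ j ∈ Finset.Ioi i, S.dist v (P i) (P j))) *
        (E v * ((∏ i, S.w v (Q i)) ^ N * ∏ i, ∏ j ∈ Finset.Ioi i, S.dist v (Q i) (Q j))) *
        ∏ i, ∏ j, S.dist v (P i) (Q j) :=
        mul_le_mul_of_nonneg_right (mul_le_mul (h' v P) (h'' v Q) (h0 Q) ((h0 P).trans (h' v P))) hd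
    _ = (D v * E v) * (((∏ i, S.w v (P i)) * ∏ i, S.w v (Q i)) ^ N *
        ((∏ i, ∏ j ∈ Finset.Ioi i, S.dist v (P i) (P j)) * (∏ i, ∏ j ∈ Finset.Ioi i, S.dist v (Q i) (Q j)) *
          ∏ i, ∏ j, S.dist v (P i) (Q j))) := by ring
    _ ≤ (D v * E v) * (C v * S.wedge N v (Fin.append P Q)) :=
        mul_le_mul_of_nonneg_left h1 (mul_nonneg (hD.nonneg v) (hE.nonneg v))
    _ = _ := by ring

end HSetup

theorem abv_det_le {K V : Type*} [Field K] (𝔸 : AbsFam K V) {n : ℕ} (A : Matrix (Fin n) (Fin n) K) (v : V)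
    (B : Fin n → ℝ) (hB : ∀ i, 0 ≤ B i) (h : ∀ i j, 𝔸.abv v (A i j) ≤ B i) :
    𝔸.abv v A.det ≤ 𝔸.card (Finset.univ : Finset (Equiv.Perm (Fin n))).card v * ∏ i, B i := by
  rw [Matrix.det_apply]
  refine 𝔸.abv_sum_le _ _ v (Finset.prod_nonneg fun i _ => hB i) fun σ _ => ?_
  have h1 : 𝔸.abv v (Equiv.Perm.sign σ • ∏ i, A (σ i) i) = 𝔸.abv v (∏ i, A (σ i) i) := by
    rcases Int.units_eq_one_or (Equiv.Perm.sign σ) with h2 | h2
    · rw [h2, one_smul]
    · rw [h2, Units.neg_smul, one_smul, AbsoluteValue.map_neg]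
  rw [h1, map_prod, ← Equiv.prod_comp σ B]
  exact Finset.prod_le_prod (fun i _ => (𝔸.abv v).nonneg _) fun i _ => h _ _

set_option linter.unusedSectionVars false

namespace GSetup

variable {F : Type*} [Field F] [Algebra Qb F] [IsFF Qb F] (Γ : GSetup F)

/-- height of the system of evaluation functionals at the points of `A` -/
def hev (N : ℕ) {k : ℕ} (P : Fin k → Place Qb F) : ℝ := ∑ᶠ v : V0, Real.log (Γ.wedge N v P)

theorem finite_support_hev {N k : ℕ} (hk : k ≤ N) {P : Fin k → Place Qb F} (hP : Function.Injective P) :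
    (Function.support fun v : V0 => Real.log (Γ.wedge N v P)).Finite := by
  refine (Γ.toHSetup.finite_wedge_ne_one hk hP).subset fun v hv h => hv ?_
  have h' : Γ.wedge N v P = 1 := h
  show Real.log (Γ.wedge N v P) = 0
  rw [h', Real.log_one]

/-- Vandermonde: superadditivity of the evaluation height -/
theorem exists_hev_add (N k l : ℕ) (hN : k + l ≤ N) : ∃ C : ℝ, ∀ (P : Fin k → Place Qb F) (Q : Fin l → Place Qb F),
    Function.Injective (Fin.append P Q) →
    Γ.hev N P + Γ.hev N Q - Γ.pair (Finset.univ.val.map P) (Finset.univ.val.map Q) ≤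
      Γ.hev N (Fin.append P Q) + C := by
  obtain ⟨C, hC, h⟩ := Γ.toHSetup.exists_wedge_append N k l hN
  refine ⟨∑ᶠ v, Real.log (C v), fun P Q hinj => ?_⟩
  have hP : Function.Injective P := fun i j hij =>
    Fin.castAdd_injective k l (hinj (by rw [Fin.append_left, Fin.append_left, hij]))
  have hQ : Function.Injective Q := fun i j hij =>
    Fin.natAdd_injective l k (hinj (by rw [Fin.append_right, Fin.append_right, hij]))
  have hPQ : ∀ i j, P i ≠ Q j := by
    intro i j hij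
    have h1 : Fin.castAdd l i = Fin.natAdd k j := hinj (by rw [Fin.append_left, Fin.append_right, hij])
    have h2 := congrArg Fin.val h1
    simp only [Fin.val_castAdd, Fin.val_natAdd] at h2
    omega
  have hdisj : Disjoint (Finset.univ.val.map P) (Finset.univ.val.map Q) := by
    rw [Multiset.disjoint_left]
    intro a ha hb
    obtain ⟨i, -, rfl⟩ := Multiset.mem_map.mp ha
    obtain ⟨j, -, hj⟩ := Multiset.mem_map.mp hb
    exact hPQ i j hj.symm
  have h1 := Γ.finite_support_hev (N := N) (by omega) hP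
  have h2 := Γ.finite_support_hev (N := N) (by omega) hQ
  have h3 := Γ.finite_support_pair hdisj
  have h4 := Γ.finite_support_hev hN hinj
  have e : Γ.hev N P + Γ.hev N Q - Γ.pair (Finset.univ.val.map P) (Finset.univ.val.map Q) =
      ∑ᶠ v : V0, (Real.log (Γ.wedge N v P) + Real.log (Γ.wedge N v Q) -
        (((Finset.univ.val.map P).map fun P => ((Finset.univ.val.map Q).map fun Q =>
          - Real.log (Γ.dist v P Q)).sum).sum)) := by
    rw [finsum_sub_distrib _ h3, finsum_add_distrib h1 h2]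
    · rfl
    · refine (h1.union h2).subset (Function.support_add _ _)
  rw [e, add_comm]
  refine IsMC.finsum_le hC ?_ h4 fun v => ?_
  · refine (((h1.union h2).union h3)).subset ((Function.support_sub _ _).trans ?_)
    exact Set.union_subset_union_left _ (Function.support_add _ _)
  · have hp1 := Γ.toHSetup.wedge_pos (N := N) (by omega) v hP
    have hp2 := Γ.toHSetup.wedge_pos (N := N) (by omega) v hQ
    have hp3 := Γ.toHSetup.wedge_pos hN v hinj
    have hp4 : ∀ i j, 0 < Γ.dist v (P i) (Q j) := fun i j => Γ.toHSetup.dist_pos v (hPQ i j)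
    have h5 := Real.log_le_log (mul_pos (mul_pos hp1 hp2) (Finset.prod_pos fun i _ =>
      Finset.prod_pos fun j _ => hp4 i j)) (h v P Q)
    rw [Real.log_mul (mul_pos hp1 hp2).ne' (Finset.prod_pos fun i _ =>
      Finset.prod_pos fun j _ => hp4 i j).ne', Real.log_mul hp1.ne' hp2.ne',
      Real.log_mul (hC.pos v).ne' hp3.ne', Real.log_prod fun i _ => (Finset.prod_pos fun j _ => hp4 i j).ne'] at h5
    have h6 : ∀ i, Real.log (∏ j, Γ.dist v (P i) (Q j)) = ∑ j, Real.log (Γ.dist v (P i) (Q j)) :=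
      fun i => Real.log_prod fun j _ => (hp4 i j).ne'
    simp only [h6] at h5
    rw [Multiset.map_map]
    simp only [Multiset.map_map, Function.comp_def]
    have h7 : (Multiset.map (fun i => (Multiset.map (fun j => -Real.log (Γ.dist v (P i) (Q j)))
        Finset.univ.val).sum) Finset.univ.val).sum = - ∑ i, ∑ j, Real.log (Γ.dist v (P i) (Q j)) := by
      show (∑ i, ∑ j, -Real.log (Γ.dist v (P i) (Q j))) = _
      simp only [Finset.sum_neg_distrib]
    rw [h7]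
    linarith

/-- evaluation matrix -/
def evMat (N : ℕ) {k : ℕ} (P : Fin k → Place Qb F) : Matrix (Fin k) (Fin (Γ.r N)) Qb :=
  Matrix.of fun i j => ev Γ.x N (P i) ((Γ.b N j : W Qb Γ.x N) : F)

theorem mm_evMat (N : ℕ) {k : ℕ} (P : Fin k → Place Qb F) (v : V0) :
    mm stdAbs v (Γ.evMat N P) = Γ.wedge N v P := by
  rw [mm, HSetup.wedge, Γ.std]
  refine iSup_congr fun f => ?_
  rw [← Matrix.det_transpose]
  rfl

theorem evMat_row_li {N : ℕ} {k : ℕ} (hk : k ≤ N) {P : Fin k → Place Qb F} (hP : Function.Injective P) :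
    LinearIndependent Qb (Γ.evMat N P).row := by
  have h1 := Γ.toHSetup.wedge_pos hk none hP
  obtain ⟨f, hf⟩ : ∃ f : Fin k → Fin (Γ.r N), ((Γ.evMat N P).submatrix id f).det ≠ 0 := by
    by_contra hcon
    push Not at hcon
    rw [← Γ.mm_evMat, mm] at h1
    simp only [hcon, map_zero] at h1
    rw [Real.iSup_const_zero] at h1
    exact lt_irrefl _ h1
  have h2 := Matrix.linearIndependent_rows_of_det_ne_zero hf
  refine LinearIndependent.of_comp (LinearMap.funLeft Qb Qb f) ?_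
  exact h2

theorem exists_perm {k : ℕ} {P : Fin k → Place Qb F} (hP : Function.Injective P)
    (hR : Γ.RatM (Finset.univ.val.map P)) (σ : Qb ≃ₐ[ℚ] Qb) :
    ∃ π : Equiv.Perm (Fin k), ∀ i, Γ.φ σ • P i = P (π i) := by
  have h1 : ∀ i, ∃ j, Γ.φ σ • P i = P j := by
    intro i
    have h2 : Γ.φ σ • P i ∈ (Finset.univ.val.map P).map (fun P => Γ.φ σ • P) :=
      Multiset.mem_map_of_mem _ (Multiset.mem_map_of_mem _ (Finset.mem_univ_val i))
    rw [hR σ] at h2
    obtain ⟨j, -, hj⟩ := Multiset.mem_map.mp h2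
    exact ⟨j, hj.symm⟩
  choose π hπ using h1
  have hinj : Function.Injective π := by
    intro i j hij
    have h2 := hπ i
    rw [hij, ← hπ j] at h2
    exact hP (MulAction.injective _ h2)
  exact ⟨Equiv.ofBijective π (Finite.injective_iff_bijective.mp hinj), hπ⟩

theorem galRows_evMat (N : ℕ) {k : ℕ} {P : Fin k → Place Qb F} (hP : Function.Injective P)
    (hR : Γ.RatM (Finset.univ.val.map P)) : GalRows (Γ.evMat N P) := by
  intro σ
  obtain ⟨π, hπ⟩ := Γ.exists_perm hP hR σ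
  refine ⟨π, fun i j => ?_⟩
  show σ (ev Γ.x N (P i) ((Γ.b N j : W Qb Γ.x N) : F)) = ev Γ.x N (P (π i)) ((Γ.b N j : W Qb Γ.x N) : F)
  rw [← Γ.ev_smul_smul σ (P i) (Γ.b N j).2, Γ.ratb, hπ]

/-- the section with given rational coordinates -/
def secOf (N : ℕ) (t : Fin (Γ.r N) → ℚ) : F := ∑ j, (algebraMap ℚ Qb (t j)) • ((Γ.b N j : W Qb Γ.x N) : F)

theorem secOf_mem (N : ℕ) (t : Fin (Γ.r N) → ℚ) : Γ.secOf N t ∈ W Qb Γ.x N :=
  Submodule.sum_mem _ fun j _ => Submodule.smul_mem _ _ (Γ.b N j).2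

theorem coord_secOf (N : ℕ) (t : Fin (Γ.r N) → ℚ) (j : Fin (Γ.r N)) :
    Γ.coord N j (Γ.secOf N t) = algebraMap ℚ Qb (t j) := by
  classical
  rw [secOf, HSetup.coord_sum _ _ _ fun i _ => Submodule.smul_mem _ _ (Γ.b N i).2]
  have h : ∀ i, Γ.coord N j (algebraMap ℚ Qb (t i) • ((Γ.b N i : W Qb Γ.x N) : F)) =
      if i = j then algebraMap ℚ Qb (t i) else 0 := by
    intro i
    rw [HSetup.coord_smul _ (Γ.b N i).2, HSetup.coord_of_mem _ (Γ.b N i).2]
    have : (⟨((Γ.b N i : W Qb Γ.x N) : F), (Γ.b N i).2⟩ : W Qb Γ.x N) = Γ.b N i := rfl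
    rw [this, Module.Basis.repr_self, Finsupp.single_apply]
    by_cases h : i = j
    · rw [if_pos h, if_pos h, mul_one]
    · rw [if_neg h, if_neg h, mul_zero]
  simp only [h]
  rw [Finset.sum_ite_eq' Finset.univ j, if_pos (Finset.mem_univ j)]

theorem secOf_ne_zero {N : ℕ} {t : Fin (Γ.r N) → ℚ} (ht : t ≠ 0) : Γ.secOf N t ≠ 0 := by
  intro h
  apply ht
  ext j
  have h1 := Γ.coord_secOf N t j
  rw [h, HSetup.coord_of_mem _ (zero_mem _)] at h1
  have : (⟨0, zero_mem _⟩ : W Qb Γ.x N) = 0 := rfl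
  rw [this, map_zero] at h1
  exact (map_eq_zero _).mp h1.symm

theorem ratF_secOf (N : ℕ) (t : Fin (Γ.r N) → ℚ) : Γ.RatF (Γ.secOf N t) := by
  intro σ
  rw [secOf, Finset.smul_sum]
  refine Finset.sum_congr rfl fun j _ => ?_
  rw [Γ.toGalF.smul_smul_const σ, Γ.ratb]
  congr 1
  exact σ.commutes _

theorem hs_secOf (N : ℕ) (t : Fin (Γ.r N) → ℚ) : Γ.hs N (Γ.secOf N t) = hvec t := by
  rw [hs, hvec]
  refine finsum_congr fun v => ?_
  rw [HSetup.nrm_eq, Γ.std]
  congr 1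
  exact iSup_congr fun i => by rw [Γ.coord_secOf]

/-- small rational section vanishing at a rational reduced divisor -/
theorem exists_small_section (N k : ℕ) (hk : k < Γ.r N) (hN : k ≤ N) : ∃ C : ℝ, ∀ P : Fin k → Place Qb F,
    Function.Injective P → Γ.RatM (Finset.univ.val.map P) →
    ∃ t ∈ W Qb Γ.x N, t ≠ 0 ∧ Γ.RatF t ∧ (∀ i, ev Γ.x N (P i) t = 0) ∧
      ((Γ.r N : ℝ) - k) * Γ.hs N t ≤ Γ.hev N P + C := by
  obtain ⟨C, hC⟩ := exists_siegel k (Γ.r N - k) (Γ.r N) (by omega) (by omega)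
  refine ⟨C, fun P hP hR => ?_⟩
  obtain ⟨t, ht0, hEt, ht⟩ := hC (Γ.evMat N P) (Γ.evMat_row_li hN hP) (Γ.galRows_evMat N hP hR)
  refine ⟨Γ.secOf N t, Γ.secOf_mem N t, Γ.secOf_ne_zero ht0, Γ.ratF_secOf N t, fun i => ?_, ?_⟩
  · have h1 := congrFun hEt i
    rw [secOf, ev_sum _ _ fun j _ => Submodule.smul_mem _ _ (Γ.b N j).2]
    rw [Matrix.mulVec, dotProduct] at h1
    refine Eq.trans (Finset.sum_congr rfl fun j _ => ?_) h1
    rw [ev_smul (Γ.b N j).2, mul_comm]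
    rfl
  · rw [Γ.hs_secOf]
    rw [Nat.cast_sub hk.le] at ht
    refine ht.trans (add_le_add_left (le_of_eq ?_) C)
    rw [hev]
    exact finsum_congr fun v => by rw [Γ.mm_evMat]

theorem sum_coord_smul_eq_zero {N : ℕ} {s : F} (hs : s ∈ W Qb Γ.x N) (h : ∀ j, Γ.coord N j s = 0) : s = 0 := by
  rw [← Γ.toHSetup.sum_coord hs]
  exact Finset.sum_eq_zero fun j _ => by rw [h j, zero_smul]

/-- trivial upper bound for the evaluation height at the zeros of a rational section -/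
theorem exists_hev_le (N M : ℕ) (hr : Γ.r (M + N) = Γ.r M + N * Γ.d) (hN : N * Γ.d ≤ M + N) :
    ∃ C : ℝ, ∀ s ∈ W Qb Γ.x N, s ≠ 0 → Γ.RatF s → ∀ P : Fin (N * Γ.d) → Place Qb F,
    Function.Injective P → IsZer Γ.x N s (Finset.univ.val.map P) →
    Γ.hev (M + N) P ≤ Γ.r M * Γ.hs N s + C := by
  classical
  obtain ⟨C₁, hC₁, h₁⟩ := Γ.toHSetup.exists_nrm_mul_le M N
  choose C₂ hC₂ h₂ using fun j : Fin (Γ.r M) => Γ.toHSetup.exists_nrm_le M ((Γ.b M j : W Qb Γ.x M) : F)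
  obtain ⟨C₃, hC₃, h₃⟩ := exists_isMC_forall hC₂
  have hC : IsMC (fun v : V0 => stdAbs.card (Finset.univ : Finset (Equiv.Perm (Fin (Γ.r M)))).card v *
      (C₁ v * C₃ v) ^ Γ.r M) := (stdAbs.isMC_card _).mul ((hC₁.mul hC₃).pow _)
  refine ⟨∑ᶠ v : V0, Real.log (stdAbs.card (Finset.univ : Finset (Equiv.Perm (Fin (Γ.r M)))).card v *
      (C₁ v * C₃ v) ^ Γ.r M), fun s hs hs0 hrat P hP hZ => ?_⟩
  have hbs : ∀ j, ((Γ.b M j : W Qb Γ.x M) : F) * s ∈ W Qb Γ.x (M + N) := fun j =>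
    mul_mem_W (Γ.b M j).2 hs
  have hq : ∀ (j : Fin (Γ.r M)) (l : Fin (Γ.r (M + N))), ∃ q : ℚ,
      Γ.coord (M + N) l (((Γ.b M j : W Qb Γ.x M) : F) * s) = algebraMap ℚ Qb q := by
    intro j l
    rw [Γ.toHSetup.coord_of_mem (hbs j)]
    exact Γ.repr_rat (hbs j) (Γ.RatF_mul (fun σ => Γ.ratb M j σ) hrat) l
  choose q hq using hq
  set Sm : Matrix (Fin (Γ.r M)) (Fin (Γ.r (M + N))) ℚ := Matrix.of q with hSm
  have hZ0 : ∀ i, ev Γ.x N (P i) s = 0 := fun i =>
    (hZ.mem_iff Γ.toHSetup.x_ne_zero hs hs0 (P i)).mp (Multiset.mem_map_of_mem _ (Finset.mem_univ_val i))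
  have hR : Γ.RatM (Finset.univ.val.map P) := Γ.ratM_of_ratF hrat hZ
  have hE := Γ.evMat_row_li hN hP
  have hG := Γ.galRows_evMat (M + N) hP hR
  have hSE : Γ.evMat (M + N) P * (Sm.map (algebraMap ℚ Qb)).transpose = 0 := by
    ext i j
    rw [Matrix.mul_apply, Matrix.zero_apply]
    have e : ev Γ.x (M + N) (P i) (((Γ.b M j : W Qb Γ.x M) : F) * s) =
        ∑ l, Γ.evMat (M + N) P i l * (Sm.map (algebraMap ℚ Qb)).transpose l j := by
      conv_lhs => rw [← Γ.toHSetup.sum_coord (hbs j)]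
      rw [ev_sum _ _ fun l _ => Submodule.smul_mem _ _ (Γ.b (M + N) l).2]
      refine Finset.sum_congr rfl fun l _ => ?_
      rw [ev_smul (Γ.b (M + N) l).2, mul_comm, hq j l]
      rfl
    rw [← e, ev_mul (Γ.b M j).2 hs, hZ0, mul_zero]
  have hSli' : LinearIndependent Qb (Sm.map (algebraMap ℚ Qb)).row := by
    rw [Fintype.linearIndependent_iff]
    intro g hg
    have h5 : ∑ j, g j • ((Γ.b M j : W Qb Γ.x M) : F) = 0 := by
      have h6 : (∑ j, g j • ((Γ.b M j : W Qb Γ.x M) : F)) * s = 0 := by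
        have h7 : (∑ j, g j • ((Γ.b M j : W Qb Γ.x M) : F)) * s =
            ∑ j, g j • (((Γ.b M j : W Qb Γ.x M) : F) * s) := by
          rw [Finset.sum_mul]
          exact Finset.sum_congr rfl fun j _ => smul_mul_assoc _ _ _
        rw [h7]
        refine Γ.sum_coord_smul_eq_zero (N := M + N)
          (Submodule.sum_mem _ fun j _ => Submodule.smul_mem _ _ (hbs j)) fun l => ?_
        rw [HSetup.coord_sum _ _ _ fun j _ => Submodule.smul_mem _ _ (hbs j)]
        have h8 := congrFun hg l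
        rw [Finset.sum_apply] at h8
        refine Eq.trans (Finset.sum_congr rfl fun j _ => ?_) h8
        rw [HSetup.coord_smul _ (hbs j), hq j l]
        rfl
      exact (mul_eq_zero.mp h6).resolve_right hs0
    have h9 : ∑ j, g j • Γ.b M j = 0 := by
      apply Subtype.ext
      rw [AddSubmonoidClass.coe_finsetSum]
      exact h5
    exact Fintype.linearIndependent_iff.mp (Γ.b M).linearIndependent g h9
  have hSli : LinearIndependent ℚ Sm.row := by
    rw [Fintype.linearIndependent_iff] at hSli' ⊢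
    intro g hg i
    have h5 := hSli' (fun j => algebraMap ℚ Qb (g j)) (by
      ext l
      have h6 := congrArg (algebraMap ℚ Qb) (congrFun hg l)
      rw [Finset.sum_apply, map_sum] at h6
      rw [Finset.sum_apply]
      refine Eq.trans (Finset.sum_congr rfl fun j _ => ?_) (h6.trans (map_zero _))
      rw [Pi.smul_apply, Pi.smul_apply, smul_eq_mul, smul_eq_mul, map_mul]
      rfl) i
    exact (map_eq_zero _).mp h5
  have hmain := sum_log_mm_eq (hr.symm) (Γ.evMat (M + N) P) hE hG Sm hSli hSE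
  obtain ⟨c, hc, hc1, -⟩ := exists_mm_eq stdAbs hr.symm (Sm.map (algebraMap ℚ Qb)) (Γ.evMat (M + N) P)
    hSli' hE hSE
  have hw : ∀ v, 0 < Γ.wedge (M + N) v P := fun v => Γ.toHSetup.wedge_pos hN v hP
  have hmmpos : ∀ v, 0 < mm stdAbs v (Sm.map (algebraMap ℚ Qb)) := by
    intro v
    rw [hc1, Γ.mm_evMat]
    exact mul_pos ((stdAbs.abv v).pos hc) (hw v)
  have hfin : (Function.support fun v : V0 => Real.log (mm stdAbs v (Sm.map (algebraMap ℚ Qb)))).Finite := by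
    refine ((finite_log_abv_ne_zero hc).union (Γ.finite_support_hev hN hP)).subset fun v hv => ?_
    by_contra hcon
    simp only [Set.mem_union, Function.mem_support, not_or, not_not] at hcon
    apply hv
    show Real.log (mm stdAbs v (Sm.map (algebraMap ℚ Qb))) = 0
    rw [hc1, Γ.mm_evMat, Real.log_mul ((stdAbs.abv v).pos hc).ne' (hw v).ne', hcon.1, hcon.2, add_zero]
  have hfin2 : (Function.support fun v : V0 => (Γ.r M : ℝ) * Real.log (Γ.nrm N v s)).Finite := by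
    refine (Γ.finite_support_hs hs hs0).subset fun v hv h => hv ?_
    have h' : Real.log (Γ.nrm N v s) = 0 := h
    show (Γ.r M : ℝ) * Real.log (Γ.nrm N v s) = 0
    rw [h', mul_zero]
  have e1 : Γ.hev (M + N) P = ∑ᶠ v : V0, Real.log (mm stdAbs v (Sm.map (algebraMap ℚ Qb))) := by
    rw [← hmain, hev]
    exact finsum_congr fun v => by rw [Γ.mm_evMat]
  have e2 : (Γ.r M : ℝ) * Γ.hs N s = ∑ᶠ v : V0, (Γ.r M : ℝ) * Real.log (Γ.nrm N v s) := by
    exact mul_finsum _ _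
  rw [e1, e2]
  refine (IsMC.finsum_le hC hfin hfin2 fun v => ?_).trans (le_of_eq (add_comm _ _))
  have hn0 : 0 < Γ.nrm N v s := Γ.toHSetup.nrm_pos hs hs0 v
  have h10 : mm stdAbs v (Sm.map (algebraMap ℚ Qb)) ≤
      (stdAbs.card (Finset.univ : Finset (Equiv.Perm (Fin (Γ.r M)))).card v *
      (C₁ v * C₃ v) ^ Γ.r M) * Γ.nrm N v s ^ Γ.r M := by
    have : Nonempty (Fin (Γ.r M) → Fin (Γ.r (M + N))) := ⟨Fin.castLE (by omega)⟩
    refine ciSup_le fun f => ?_
    refine (abv_det_le stdAbs _ v (fun _ => C₁ v * C₃ v * Γ.nrm N v s) (fun _ =>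
      mul_nonneg (mul_nonneg (hC₁.nonneg v) (hC₃.nonneg v)) hn0.le) fun j l => ?_).trans (le_of_eq ?_)
    · have h11 := Γ.toHSetup.abv_coord_le (M + N) v (((Γ.b M j : W Qb Γ.x M) : F) * s) (f l)
      rw [hq j (f l), Γ.std] at h11
      refine h11.trans ((h₁ v _ (Γ.b M j).2 s hs).trans ?_)
      rw [mul_assoc]
      refine mul_le_mul_of_nonneg_left ?_ (hC₁.nonneg v)
      exact mul_le_mul_of_nonneg_right ((h₂ j v).trans (h₃ j v)) hn0.le
    · rw [Finset.prod_const, Finset.card_fin, mul_pow, mul_assoc]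
  have h12 := Real.log_le_log (hmmpos v) h10
  rwa [Real.log_mul (hC.pos v).ne' (pow_pos hn0 _).ne', Real.log_pow] at h12

theorem exists_enum {α : Type*} {k : ℕ} (A : Multiset α) (hk : A.card = k) :
    ∃ P : Fin k → α, Finset.univ.val.map P = A := by
  subst hk
  refine ⟨fun i => A.toList.get (Fin.cast (Multiset.length_toList A).symm i), ?_⟩
  rw [Fin.univ_val_map]
  conv_rhs => rw [← Multiset.coe_toList A]
  congr 1
  refine List.ext_get (by simp) fun n h1 h2 => ?_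
  simp

theorem injective_of_nodup {α : Type*} {k : ℕ} {P : Fin k → α} (h : (Finset.univ.val.map P).Nodup) :
    Function.Injective P := by
  rw [Fin.univ_val_map, Multiset.coe_nodup, List.nodup_ofFn] at h
  exact h

theorem map_append {α : Type*} {k l : ℕ} (P : Fin k → α) (Q : Fin l → α) :
    Finset.univ.val.map (Fin.append P Q) = Finset.univ.val.map P + Finset.univ.val.map Q := by
  rw [Fin.univ_val_map, Fin.univ_val_map, Fin.univ_val_map, List.ofFn_fin_append, Multiset.coe_add]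

theorem r_eq_ell (N : ℕ) : Γ.r N = ell (N • (poleDiv Γ.x : Divisor Qb F)) := by
  have h1 : W Qb Γ.x N = riemannRochSpace (N • (poleDiv Γ.x : Divisor Qb F)) := by
    ext s; exact mem_W_iff_mem_L Γ.hx N s
  rw [ell, ← h1, Module.finrank_eq_card_basis (Γ.b N), Fintype.card_fin]

theorem d_pos : 0 < Γ.d := by
  have := IsFF.finiteDimensional (K := Qb) (F := F) Γ.hx
  exact Module.finrank_pos

theorem exists_r_eq : ∃ g n1 : ℕ, ∀ N, n1 ≤ N → (Γ.r N : ℤ) = N * Γ.d + 1 - g := by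
  obtain ⟨g, n1, h⟩ := exists_ell_eq Qb F
  refine ⟨g, n1.toNat, fun N hN => ?_⟩
  have hdeg : Divisor.degree (N • (poleDiv Γ.x : Divisor Qb F)) = N * Γ.d := by
    rw [map_nsmul, degree_poleDiv Γ.hx, nsmul_eq_mul]
    rfl
  rw [Γ.r_eq_ell, h _ ?_, hdeg]
  rw [hdeg]
  have h1 : (N : ℤ) * 1 ≤ N * Γ.d := by
    have := Γ.d_pos
    exact mul_le_mul_of_nonneg_left (by exact_mod_cast this) (by positivity)
  omega

theorem hev_cast (N : ℕ) {k l : ℕ} (h : l = k) (P : Fin k → Place Qb F) :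
    Γ.hev N (P ∘ Fin.cast h) = Γ.hev N P := by
  subst h
  rfl

/-- lower bound for the quadratic height -/
theorem exists_height_lower (β : Γ.ratPic → Γ.ratPic → ℝ)
    (hβ : ∀ N M, ∃ C : ℝ, ∀ (c c' : Γ.ratPic) (A B : Multiset (Place Qb F)), Γ.Rep N (c : Pic0 Qb F) A →
      Γ.Rep M (c' : Pic0 Qb F) B → Γ.RatM A → Γ.RatM B → Disjoint A B → |Γ.bil A B - β c c'| ≤ C)
    (hβ' : ∃ C : ℝ, ∀ c, |β c (-c) + β c c| ≤ C) :
    ∃ (M : ℕ) (κ C : ℝ), 0 < κ ∧ ∀ c : Γ.ratPic, ∃ A : Multiset (Place Qb F), Γ.Rep M (c : Pic0 Qb F) A ∧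
      Γ.RatM A ∧ κ * Γ.hgt A ≤ β c c + C := by
  classical
  obtain ⟨m, hm, hgood⟩ := Γ.exists_good_rep
  obtain ⟨g, n1, hr⟩ := Γ.exists_r_eq
  have hd := Γ.d_pos
  obtain ⟨M0, hM0⟩ : ∃ M0, M0 = n1 + g + (m + m) * Γ.d := ⟨_, rfl⟩
  obtain ⟨N', hN'⟩ : ∃ N', N' = M0 + (m + m) := ⟨_, rfl⟩
  obtain ⟨k, hk⟩ : ∃ k, k = m * Γ.d := ⟨_, rfl⟩
  have hrM0 := hr M0 (by omega)
  have hrN' := hr N' (by omega)
  have hMd : M0 ≤ M0 * Γ.d := Nat.le_mul_of_pos_right _ hd
  have hrr : Γ.r (M0 + (m + m)) = Γ.r M0 + (m + m) * Γ.d := by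
    rw [← hN']
    have : (Γ.r N' : ℤ) = Γ.r M0 + (m + m) * Γ.d := by
      rw [hrM0, hrN', hN']; push_cast; ring
    exact_mod_cast this
  have hkk : (m + m) * Γ.d = k + k := by rw [hk]; ring
  have hkr : k < Γ.r N' := by
    rw [hN', hrr, hkk]
    have : 1 ≤ Γ.r M0 := by
      have h1 : ((M0 * Γ.d : ℕ) : ℤ) = M0 * Γ.d := by push_cast; ring
      omega
    omega
  have hkN : k + k ≤ N' := by omega
  obtain ⟨Cs, hCs⟩ := Γ.exists_small_section N' k hkr (by omega)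
  obtain ⟨Ca, hCa⟩ := Γ.exists_hev_add N' k k hkN
  obtain ⟨Ce, hCe⟩ := Γ.exists_hev_le (m + m) M0 hrr (by omega)
  rw [← hN'] at hCe
  obtain ⟨Ch, hCh⟩ := Γ.exists_hs_hgt (m + m)
  obtain ⟨Ct, hCt⟩ := Γ.exists_hs_hgt N'
  obtain ⟨C1, hC1⟩ := hβ m m
  obtain ⟨C2, hC2⟩ := hβ'
  obtain ⟨Cg, hCg0, hCg⟩ := Γ.exists_hgt_ge
  have hdR : (0 : ℝ) < Γ.d := by exact_mod_cast hd
  obtain ⟨r0, hr0⟩ : ∃ r0 : ℝ, r0 = (Γ.r N' : ℝ) - k := ⟨_, rfl⟩
  have hr0pos : 0 < r0 := by
    rw [hr0, sub_pos]; exact_mod_cast hkr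
  have hr0eq : r0 = Γ.r M0 + m * Γ.d := by
    rw [hr0, hN', hrr, hk]; push_cast; ring
  refine ⟨M0 + m, r0 / Γ.d, (Γ.d * (C1 + C2 + Ca + Ce + 2 * Cs) + Γ.r M0 * Ch + 2 * r0 * Ct +
    r0 * (Cg * ((M0 + m) * Γ.d))) / Γ.d, div_pos hr0pos hdR, fun c => ?_⟩
  -- the representatives
  obtain ⟨A, hA, hAr, hAn, -⟩ := hgood m le_rfl (c : Pic0 Qb F) c.2 ∅
  obtain ⟨A', hA', hAr', hAn', hAA'⟩ := hgood m le_rfl ((-c : Γ.ratPic) : Pic0 Qb F) (-c).2 A.toFinset
  have hdisj : Disjoint A A' := by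
    rw [Multiset.disjoint_left]
    intro P hP hP'
    exact hAA' P hP' (Multiset.mem_toFinset.mpr hP)
  have hcA : A.card = k := by rw [hk]; exact Rep.card_eq Γ hA
  have hcA' : A'.card = k := by rw [hk]; exact Rep.card_eq Γ hA'
  obtain ⟨P, hPA⟩ := exists_enum A hcA
  obtain ⟨Q, hQA⟩ := exists_enum A' hcA'
  have hPi : Function.Injective P := injective_of_nodup (by rw [hPA]; exact hAn)
  have hQi : Function.Injective Q := injective_of_nodup (by rw [hQA]; exact hAn')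
  have happ : Finset.univ.val.map (Fin.append P Q) = A + A' := by rw [map_append, hPA, hQA]
  have happi : Function.Injective (Fin.append P Q) := by
    apply injective_of_nodup
    rw [happ, Multiset.nodup_add]
    exact ⟨hAn, hAn', hdisj⟩
  -- the section with zeros `A + A'`
  have hAA0 : Γ.Rep (m + m) 0 (A + A') := by
    have h := Rep.add Γ hA hA'
    have e : (c : Pic0 Qb F) + ((-c : Γ.ratPic) : Pic0 Qb F) = 0 := by
      rw [AddSubgroup.coe_neg, add_neg_cancel]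
    rwa [e] at h
  obtain ⟨s₀, hs₀, hs₀0, hZ₀⟩ := (Γ.rep_zero_iff).mp hAA0
  obtain ⟨s, hs, hs0, hsr, hZ⟩ := Γ.exists_ratF_of_ratM hs₀ hs₀0 hZ₀ (Γ.RatM_add hAr hAr')
  -- sections vanishing on `A` resp. `A'`
  have key : ∀ (B : Multiset (Place Qb F)) (cB : Pic0 Qb F) (R : Fin k → Place Qb F), Γ.Rep m cB B →
      Γ.RatM B → B.Nodup → Finset.univ.val.map R = B → ∃ B' : Multiset (Place Qb F),
        Γ.Rep (M0 + m) (-cB) B' ∧ Γ.RatM B' ∧ r0 * (Γ.hgt B + Γ.hgt B') ≤ Γ.d * (Γ.hev N' R + Cs) + r0 * Ct := by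
    intro B cB R hB hBr hBn hRB
    have hRi : Function.Injective R := injective_of_nodup (by rw [hRB]; exact hBn)
    obtain ⟨t, ht, ht0, htr, htv, hth⟩ := hCs R hRi (by rw [hRB]; exact hBr)
    obtain ⟨Z, hZt⟩ := exists_isZer Γ.hx ht ht0
    have hBZ : B ≤ Z := by
      rw [Multiset.le_iff_subset hBn]
      intro P hP
      rw [← hRB] at hP
      obtain ⟨i, -, rfl⟩ := Multiset.mem_map.mp hP
      exact (hZt.mem_iff Γ.toHSetup.x_ne_zero ht ht0 _).mpr (htv i)
    obtain ⟨B', rfl⟩ := Multiset.le_iff_exists_add.mp hBZ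
    have hrep : Γ.Rep (m + (M0 + m)) 0 (B + B') := by
      have h := (Γ.rep_zero_iff (N := N')).mpr ⟨t, ht, ht0, hZt⟩
      have e : N' = m + (M0 + m) := by omega
      rwa [e] at h
    refine ⟨B', ?_, Γ.RatM_of_add_left hBr (Γ.ratM_of_ratF htr hZt), ?_⟩
    · have h := Rep.of_add Γ hB hrep
      rwa [zero_sub] at h
    · have h1 := (abs_le.mp (hCt t ht ht0 htr _ hZt)).1
      rw [Γ.hgt_add] at h1
      rw [← hr0] at hth
      have h2 := mul_le_mul_of_nonneg_left hth hdR.le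
      have h3 : Γ.hgt B + Γ.hgt B' ≤ Γ.d * Γ.hs N' t + Ct := by linarith
      have h4 := mul_le_mul_of_nonneg_left h3 hr0pos.le
      linarith
  obtain ⟨B, hB, hBr, hBh⟩ := key A _ P hA hAr hAn hPA
  obtain ⟨B', hB', hBr', hBh'⟩ := key A' _ Q hA' hAr' hAn' hQA
  have e : -((-c : Γ.ratPic) : Pic0 Qb F) = c := by rw [AddSubgroup.coe_neg, neg_neg]
  rw [e] at hB'
  refine ⟨B', hB', hBr', ?_⟩
  -- estimates
  have i1 := hCa P Q happi
  rw [hPA, hQA] at i1
  have i2 := hCe s hs hs0 hsr (Fin.append P Q ∘ Fin.cast hkk) (happi.comp (Fin.cast_injective _)) (by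
    have e3 : Finset.univ.val.map (Fin.append P Q ∘ Fin.cast hkk) = A + A' := by
      rw [← happ]
      have e4 : ∀ {l n : ℕ} (h : l = n) (f : Fin n → Place Qb F),
          Finset.univ.val.map (f ∘ Fin.cast h) = Finset.univ.val.map f := by
        intro l n h f
        subst h
        rfl
      exact e4 hkk _
    rw [e3]
    exact hZ)
  rw [Γ.hev_cast N' hkk] at i2
  have i3 := (abs_le.mp (hCh s hs hs0 hsr _ hZ)).2
  rw [Γ.hgt_add] at i3
  have i4 := (abs_le.mp (hC1 c (-c) A A' hA hA' hAr hAr' hdisj)).1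
  have i5 := (abs_le.mp (hC2 c)).1
  have i6 := hCg B
  rw [Rep.card_eq Γ hB] at i6
  rw [bil, hcA, hcA', hk] at i4
  have e5 : (((m * Γ.d : ℕ) : ℝ) * Γ.hgt A' + ((m * Γ.d : ℕ) : ℝ) * Γ.hgt A) / Γ.d =
      m * (Γ.hgt A + Γ.hgt A') := by
    push_cast
    field_simp
    ring
  rw [e5] at i4
  have j1 : Γ.pair A A' ≤ m * (Γ.hgt A + Γ.hgt A') + β c c + C1 + C2 := by linarith
  have j2 : Γ.hev N' P + Γ.hev N' Q ≤ m * (Γ.hgt A + Γ.hgt A') + β c c + C1 + C2 +
      Γ.r M0 * Γ.hs (m + m) s + Ce + Ca := by linarith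
  have j3 := mul_le_mul_of_nonneg_left j2 hdR.le
  have j4 : (Γ.d : ℝ) * Γ.hs (m + m) s ≤ Γ.hgt A + Γ.hgt A' + Ch := by linarith
  have j5 := mul_le_mul_of_nonneg_left j4 (Nat.cast_nonneg (α := ℝ) (Γ.r M0))
  have j6 : r0 * (Γ.hgt A + Γ.hgt A') = Γ.r M0 * (Γ.hgt A + Γ.hgt A') + Γ.d * (m * (Γ.hgt A + Γ.hgt A')) := by
    rw [hr0eq]; ring
  have j7 := mul_le_mul_of_nonneg_left i6 hr0pos.le
  push_cast at j7
  have j8 : r0 * Γ.hgt B' ≤ Γ.d * β c c + (Γ.d * (C1 + C2 + Ca + Ce + 2 * Cs) + Γ.r M0 * Ch + 2 * r0 * Ct +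
    r0 * (Cg * ((M0 + m) * Γ.d))) := by
    linarith
  rw [div_mul_eq_mul_div, div_le_iff₀ hdR, add_mul, div_mul_cancel₀ _ hdR.ne']
  linarith

end GSetup

end Fermat.Agent.H17
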