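/-
H17Northcott: Northcott property of the height of rational effective divisors (project S17; statements frozen by helper17, proofs by helper28)
-/
import Mathlib
import Fermat.Agent.H17Fin
import Fermat.Agent.H17Equiv
import Fermat.Agent.H17Poly

set_option autoImplicit false
set_option linter.unusedSectionVars false

noncomputable section

open AlgebraicCurve WithZero Polynomial

namespace Fermat.Agent.H28

open Fermat.Agent.H3RR Fermat.Agent.H17

/-- multisets of bounded size on a finite set -/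
theorem finite_multiset_of_finite {α : Type*} {S : Set α} (hS : S.Finite) (n : ℕ) :
    {A : Multiset α | A.card ≤ n ∧ ∀ a ∈ A, a ∈ S}.Finite := by
  classical
  refine (Multiset.finite_toSet (Multiset.powerset (n • hS.toFinset.val))).subset ?_
  rintro A ⟨hA, hA'⟩
  rw [Set.mem_ofPred_eq, Multiset.mem_powerset, Multiset.le_iff_count]
  intro a
  by_cases ha : a ∈ A
  · rw [Multiset.count_nsmul]
    have h1 : 1 ≤ Multiset.count a hS.toFinset.val :=
      Multiset.one_le_count_iff_mem.mpr (by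
        rw [Finset.mem_val, Set.Finite.mem_toFinset]; exact hA' a ha)
    calc Multiset.count a A ≤ A.card := Multiset.count_le_card a A
      _ ≤ n := hA
      _ = n * 1 := (mul_one n).symm
      _ ≤ _ := Nat.mul_le_mul_left n h1
  · rw [Multiset.count_eq_zero_of_notMem ha]
    exact Nat.zero_le _

theorem mprod_nonneg {α : Type*} (A : Multiset α) (f : α → ℝ) (hf : ∀ a ∈ A, 0 ≤ f a) :
    0 ≤ (A.map f).prod := by
  apply Multiset.prod_nonneg
  intro x hx
  obtain ⟨a, ha, rfl⟩ := Multiset.mem_map.mp hx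
  exact hf a ha

theorem mprod_le_mprod {α : Type*} (A : Multiset α) (f g : α → ℝ) (hf : ∀ a ∈ A, 0 ≤ f a)
    (h : ∀ a ∈ A, f a ≤ g a) : (A.map f).prod ≤ (A.map g).prod := by
  induction A using Multiset.induction_on with
  | empty => simp
  | cons a A ih =>
    rw [Multiset.map_cons, Multiset.map_cons, Multiset.prod_cons, Multiset.prod_cons]
    have h1 : ∀ a ∈ A, 0 ≤ f a := fun a ha => hf a (Multiset.mem_cons_of_mem ha)
    exact mul_le_mul (h a (Multiset.mem_cons_self a A))
      (ih h1 fun a ha => h a (Multiset.mem_cons_of_mem ha)) (mprod_nonneg A f h1)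
      ((hf a (Multiset.mem_cons_self a A)).trans (h a (Multiset.mem_cons_self a A)))

theorem mprod_const_mul {α : Type*} (A : Multiset α) (c : ℝ) (f : α → ℝ) :
    (A.map fun a => c * f a).prod = c ^ A.card * (A.map f).prod := by
  rw [Multiset.prod_map_mul, Multiset.map_const', Multiset.prod_replicate]

/-- polynomials of bounded degree with coefficients in a finite set -/
theorem finite_polynomial_of_finite {R : Type*} [Semiring R] {T : Set R} (hT : T.Finite) (n : ℕ) :
    {p : R[X] | p.natDegree ≤ n ∧ ∀ k, p.coeff k ∈ T}.Finite := by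
  classical
  have h1 : {f : Fin (n + 1) → R | ∀ k, f k ∈ T}.Finite := by
    have := Set.Finite.pi' (fun _ : Fin (n + 1) => hT)
    exact this
  refine Set.Finite.of_finite_image (f := fun (p : R[X]) (k : Fin (n + 1)) => p.coeff k)
    (h1.subset ?_) ?_
  · rintro _ ⟨p, ⟨-, hp⟩, rfl⟩ k
    exact hp k
  · rintro p ⟨hp, -⟩ q ⟨hq, -⟩ hpq
    ext k
    by_cases hk : k < n + 1
    · exact congrFun hpq ⟨k, hk⟩
    · rw [coeff_eq_zero_of_natDegree_lt (by omega), coeff_eq_zero_of_natDegree_lt (by omega)]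

section

variable {K F : Type*} [Field K] [Field F] [Algebra K F] [IsAlgClosed K] [IsFF K F]

/-- the poles of a nonconstant function form a finite set -/
theorem finite_notMem {x : F} (hx : Transcendental K x) :
    {v : Place K F | x ∉ v.toValuationSubring}.Finite := by
  have hx0 : x ≠ 0 := transcendental_ne_zero hx
  refine ((poleDiv x : Divisor K F).support.finite_toSet).subset fun v hv => ?_
  rw [Finset.mem_coe, Finsupp.mem_support_iff, poleDiv_apply hx0]
  have h1 : ¬ 0 ≤ v.ord x := fun h => hv ((mem_place_iff_ord v hx0).mpr h)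
  rw [max_eq_left (by omega)]
  omega

end

section

variable {F : Type*} [Field F] [Algebra Qb F] [IsFF Qb F] (Γ : GSetup F)

theorem e_smul (σ : Qb ≃ₐ[ℚ] Qb) (P : Place Qb F) (i : Fin (Γ.r 1)) :
    Γ.e (Γ.φ σ • P) i = σ (Γ.e P i) := by
  have := Γ.ev_smul_smul σ P (Γ.b 1 i).2
  rw [Γ.ratb] at this
  exact this

open Classical in
/-- regular part of a multiset of places -/
def regp (A : Multiset (Place Qb F)) : Multiset (Place Qb F) :=
  A.filter fun P => Γ.x ∈ P.toValuationSubring

open Classical in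
/-- polar part of a multiset of places -/
def polp (A : Multiset (Place Qb F)) : Multiset (Place Qb F) :=
  A.filter fun P => ¬ Γ.x ∈ P.toValuationSubring

theorem regp_add_polp (A : Multiset (Place Qb F)) : regp Γ A + polp Γ A = A := by
  classical
  exact Multiset.filter_add_not _ A

theorem ratM_regp {A : Multiset (Place Qb F)} (hA : Γ.RatM A) : Γ.RatM (regp Γ A) := by
  classical
  intro σ
  conv_rhs => rw [← hA σ]
  rw [regp, regp, Multiset.filter_map]
  congr 1
  refine Multiset.filter_congr fun P _ => ?_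
  rw [Function.comp_apply]
  have h := Γ.smul_mem_iff σ P Γ.x
  rw [Γ.ratx] at h
  exact h.symm

/-- the polynomial with roots the i-th coordinates -/
def gpol (A : Multiset (Place Qb F)) (i : Fin (Γ.r 1)) : Qb[X] :=
  ((A.map fun P => Γ.e P i).map fun a => X - C a).prod

theorem natDegree_gpol (A : Multiset (Place Qb F)) (i : Fin (Γ.r 1)) :
    (gpol Γ A i).natDegree = A.card := by
  rw [gpol, natDegree_multiset_prod_X_sub_C_eq_card, Multiset.card_map]

theorem gpol_ne_zero (A : Multiset (Place Qb F)) (i : Fin (Γ.r 1)) : gpol Γ A i ≠ 0 :=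
  (monic_multiset_prod_of_monic _ _ fun a _ => monic_X_sub_C a).ne_zero

theorem mem_roots_gpol {A : Multiset (Place Qb F)} {P : Place Qb F} (hP : P ∈ A) (i : Fin (Γ.r 1)) :
    Γ.e P i ∈ (gpol Γ A i).roots := by
  rw [gpol, roots_multiset_prod_X_sub_C]
  exact Multiset.mem_map_of_mem _ hP

theorem map_gpol {A : Multiset (Place Qb F)} (hA : Γ.RatM A) (i : Fin (Γ.r 1)) (σ : Qb ≃ₐ[ℚ] Qb) :
    (gpol Γ A i).map (σ : Qb →+* Qb) = gpol Γ A i := by
  rw [gpol, Polynomial.map_multiset_prod, Multiset.map_map, Multiset.map_map]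
  conv_rhs => rw [← hA σ, Multiset.map_map, Multiset.map_map]
  congr 1
  refine Multiset.map_congr rfl fun P _ => ?_
  simp only [Function.comp_apply, Polynomial.map_sub, map_X, map_C]
  rw [e_smul]
  rfl

theorem exists_rat_coeff {A : Multiset (Place Qb F)} (hA : Γ.RatM A) (i : Fin (Γ.r 1)) (k : ℕ) :
    ∃ q : ℚ, algebraMap ℚ Qb q = (gpol Γ A i).coeff k := by
  refine exists_rat_of_fixed fun σ => ?_
  conv_rhs => rw [← map_gpol Γ hA i σ, coeff_map]
  rfl

/-- local bound for the coefficients -/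
theorem exists_coeff_bound (n : ℕ) : ∃ D : V0 → ℝ, IsMC D ∧ ∀ (v : V0) (A : Multiset (Place Qb F)),
    A.card ≤ n → (∀ P ∈ A, Γ.x ∈ P.toValuationSubring) → ∀ (i : Fin (Γ.r 1)) (k : ℕ),
    max 1 (stdAbs.abv v ((gpol Γ A i).coeff k)) ≤ D v * (A.map (Γ.w v)).prod := by
  obtain ⟨C, hC, hC'⟩ := Γ.exists_le_w
  refine ⟨fun v => Γ.𝔸.card 2 v ^ n * C v ^ n, ((Γ.𝔸.isMC_card 2).pow n).mul (hC.pow n), ?_⟩
  intro v A hAn hA i k
  have hcard := Γ.𝔸.one_le_card 2 v
  have hP : ∀ P ∈ A, max 1 (Γ.𝔸.abv v (Γ.e P i)) ≤ C v * Γ.w v P := by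
    intro P hP
    have h1 := hC' v P
    rw [ev_one_of_mem (hA P hP), map_one] at h1
    refine max_le ((le_max_left _ _).trans h1) ((Γ.abv_e_le v P i).trans ?_)
    exact le_mul_of_one_le_left (Γ.w_pos v P).le (hC.one_le v)
  have hrt : Γ.𝔸.rt v (A.map fun P => Γ.e P i) ≤ C v ^ A.card * (A.map (Γ.w v)).prod := by
    rw [AbsFam.rt, Multiset.map_map, ← mprod_const_mul]
    refine mprod_le_mprod A _ _ ?_ ?_
    · intro P _
      exact zero_le_one.trans (le_max_left _ _)
    · intro P hP'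
      exact hP P hP'
  have hrt1 := Γ.𝔸.one_le_rt v (A.map fun P => Γ.e P i)
  have hprod : 0 ≤ (A.map (Γ.w v)).prod := mprod_nonneg A _ fun P _ => (Γ.w_pos v P).le
  have h2 : max 1 (Γ.𝔸.abv v ((gpol Γ A i).coeff k)) ≤
      Γ.𝔸.card 2 v ^ A.card * Γ.𝔸.rt v (A.map fun P => Γ.e P i) := by
    refine max_le ?_ ?_
    · exact one_le_mul_of_one_le_of_one_le (one_le_pow₀ hcard) hrt1
    · refine (Γ.𝔸.abv_coeff_le v _ k).trans ?_
      have := Γ.𝔸.pnrm_le_rt v (A.map fun P => Γ.e P i)
      rw [Multiset.card_map] at this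
      exact this
  rw [← Γ.std]
  refine h2.trans ?_
  have hCn : C v ^ A.card ≤ C v ^ n := pow_le_pow_right₀ (hC.one_le v) hAn
  have hcn : Γ.𝔸.card 2 v ^ A.card ≤ Γ.𝔸.card 2 v ^ n := pow_le_pow_right₀ hcard hAn
  calc Γ.𝔸.card 2 v ^ A.card * Γ.𝔸.rt v (A.map fun P => Γ.e P i)
      ≤ Γ.𝔸.card 2 v ^ n * (C v ^ A.card * (A.map (Γ.w v)).prod) :=
        mul_le_mul hcn hrt (zero_le_one.trans hrt1) (pow_nonneg (zero_le_one.trans hcard) _)
    _ ≤ Γ.𝔸.card 2 v ^ n * (C v ^ n * (A.map (Γ.w v)).prod) :=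
        mul_le_mul_of_nonneg_left (mul_le_mul_of_nonneg_right hCn hprod)
          (pow_nonneg (zero_le_one.trans hcard) _)
    _ = _ := by ring

theorem log_prod_w (v : V0) (A : Multiset (Place Qb F)) :
    Real.log (A.map (Γ.w v)).prod = (A.map fun P => Real.log (Γ.w v P)).sum := by
  induction A using Multiset.induction_on with
  | empty => simp
  | cons P A ih =>
    have h : 0 < (A.map (Γ.w v)).prod := Multiset.prod_pos (by
      intro y hy
      obtain ⟨Q, -, rfl⟩ := Multiset.mem_map.mp hy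
      exact Γ.w_pos v Q)
    rw [Multiset.map_cons, Multiset.prod_cons, Multiset.map_cons, Multiset.sum_cons,
      Real.log_mul (Γ.w_pos v P).ne' h.ne', ih]

/-- finite support of `log max 1 |a|` -/
theorem finite_support_log_max (a : Qb) :
    (Function.support fun v : V0 => Real.log (max 1 (stdAbs.abv v a))).Finite := by
  by_cases ha : a = 0
  · refine Set.finite_empty.subset fun v hv => ?_
    rw [Function.mem_support, ha, map_zero, max_eq_left zero_le_one, Real.log_one] at hv
    exact hv rfl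
  · refine (stdAbs.finite_ne_one a ha).subset fun v hv h => hv ?_
    show Real.log (max 1 (stdAbs.abv v a)) = 0
    rw [h, max_self, Real.log_one]

/-- the coefficients lie in a finite set -/
theorem exists_finite_coeff (n : ℕ) (B : ℝ) : ∃ T : Set Qb, T.Finite ∧
    ∀ A : Multiset (Place Qb F), Γ.RatM A → A.card ≤ n → Γ.hgt A ≤ B →
      (∀ P ∈ A, Γ.x ∈ P.toValuationSubring) → ∀ (i : Fin (Γ.r 1)) (k : ℕ),
      (gpol Γ A i).coeff k ∈ T := by
  obtain ⟨D, hD, hD'⟩ := exists_coeff_bound Γ n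
  refine ⟨_, (northcott_rat ((∑ᶠ v, Real.log (D v)) + B)).image (algebraMap ℚ Qb), ?_⟩
  intro A hA hn hB hreg i k
  obtain ⟨q, hq⟩ := exists_rat_coeff Γ hA i k
  refine ⟨q, ?_, hq⟩
  rw [Set.mem_ofPred_eq, hq]
  have h1 : ∀ v : V0, Real.log (max 1 (stdAbs.abv v ((gpol Γ A i).coeff k))) ≤
      Real.log (D v) + (A.map fun P => Real.log (Γ.w v P)).sum := by
    intro v
    have h : 0 < (A.map (Γ.w v)).prod := Multiset.prod_pos (by
      intro y hy
      obtain ⟨Q, -, rfl⟩ := Multiset.mem_map.mp hy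
      exact Γ.w_pos v Q)
    rw [← log_prod_w, ← Real.log_mul (hD.pos v).ne' h.ne']
    exact Real.log_le_log (zero_lt_one.trans_le (le_max_left _ _)) (hD' v A hn hreg i k)
  exact (hD.finsum_le (finite_support_log_max _) (Γ.finite_support_hgt A) h1).trans
    (add_le_add_right hB _)

theorem e_injective {P Q : Place Qb F} (h : Γ.e P = Γ.e Q) : P = Q := by
  by_contra hne
  obtain ⟨ij, hij⟩ := Γ.exists_minor_ne_zero hne
  apply hij
  rw [h]
  ring

end

end Fermat.Agent.H28

namespace Fermat.Agent.H17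

open Fermat.Agent.H3RR

namespace GSetup

variable {F : Type*} [Field F] [Algebra Qb F] [IsFF Qb F] (Γ : GSetup F)

theorem northcott (n : ℕ) (B : ℝ) :
    {A : Multiset (Place Qb F) | Γ.RatM A ∧ A.card ≤ n ∧ Γ.hgt A ≤ B}.Finite := by
  classical
  obtain ⟨C, hC0, hC⟩ := Γ.exists_hgt_ge
  obtain ⟨T, hT, hT'⟩ := H28.exists_finite_coeff Γ n (B + C * n)
  -- the finite set of values
  have hR : (⋃ p ∈ {p : Qb[X] | p.natDegree ≤ n ∧ ∀ k, p.coeff k ∈ T}, {a : Qb | a ∈ p.roots}).Finite :=
    (H28.finite_polynomial_of_finite hT n).biUnion fun p _ => Multiset.finite_toSet p.roots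
  set R : Set Qb := ⋃ p ∈ {p : Qb[X] | p.natDegree ≤ n ∧ ∀ k, p.coeff k ∈ T}, {a : Qb | a ∈ p.roots} with hRdef
  have hS : {P : Place Qb F | ∀ i, Γ.e P i ∈ R}.Finite := by
    refine Set.Finite.of_finite_image (f := fun P : Place Qb F => Γ.e P)
      ((Set.Finite.pi' (fun _ : Fin (Γ.r 1) => hR)).subset ?_) ?_
    · rintro _ ⟨P, hP, rfl⟩
      exact hP
    · intro P _ Q _ h
      exact H28.e_injective Γ h
  refine (H28.finite_multiset_of_finite (hS.union (H28.finite_notMem Γ.hx)) n).subset ?_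
  rintro A ⟨hA, hn, hB⟩
  refine ⟨hn, fun P hP => ?_⟩
  by_cases hx : Γ.x ∈ P.toValuationSubring
  · left
    intro i
    have hcard := congrArg Multiset.card (H28.regp_add_polp Γ A)
    rw [Multiset.card_add] at hcard
    have hh := congrArg Γ.hgt (H28.regp_add_polp Γ A)
    rw [Γ.hgt_add] at hh
    have h1 := hC (H28.polp Γ A)
    have h2 : Γ.hgt (H28.regp Γ A) ≤ B + C * n := by
      have h3 : ((H28.polp Γ A).card : ℝ) ≤ n := by
        exact_mod_cast (show (H28.polp Γ A).card ≤ n by omega)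
      have h4 := mul_le_mul_of_nonneg_left h3 hC0
      linarith
    have h5 : ∀ Q ∈ H28.regp Γ A, Γ.x ∈ Q.toValuationSubring := fun Q hQ =>
      (Multiset.mem_filter.mp hQ).2
    have h6 : (H28.regp Γ A).card ≤ n := by omega
    rw [hRdef, Set.mem_iUnion₂]
    refine ⟨H28.gpol Γ (H28.regp Γ A) i, ⟨?_, ?_⟩, ?_⟩
    · rw [H28.natDegree_gpol]; exact h6
    · intro k
      exact hT' _ (H28.ratM_regp Γ hA) h6 h2 h5 i k
    · exact H28.mem_roots_gpol Γ (Multiset.mem_filter.mpr ⟨hP, hx⟩) i
  · right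
    exact hx

end GSetup

end Fermat.Agent.H17
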