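/-
H17Height: the height on rational divisor classes (project S17; statements frozen by helper17, proofs by helper14)
-/
import Mathlib
import Fermat.Agent.H17Lower
import Fermat.Agent.H17Northcott
import Fermat.Agent.H17Setup

set_option autoImplicit false

noncomputable section

open AlgebraicCurve WithZero Polynomial

namespace Fermat.Agent.H17

open Fermat.Agent.H3RR

/-- a height satisfying the parallelogram law and the Northcott property -/
theorem GalF.exists_height {F : Type*} [Field F] [Algebra Qb F] [IsFF Qb F] (Φ : GalF F) :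
    ∃ (h : Φ.ratPic → ℝ) (C : ℝ), (∀ c, 0 ≤ h c) ∧
      (∀ c c', |h (c + c') + h (c - c') - 2 * (h c + h c')| ≤ C) ∧
      ∀ B : ℝ, {c | h c ≤ B}.Finite := by
  obtain ⟨Γ, rfl⟩ := exists_GSetup Φ
  obtain ⟨β, hβ, ⟨C₂, hs⟩, ⟨C₃, ha⟩⟩ := Γ.exists_beta
  obtain ⟨⟨C₄, hpar⟩, hneg⟩ := GSetup.exists_parallelogram β (C := max C₂ C₃)
    (fun c c' => (hs c c').trans (le_max_left _ _)) (fun c c' c'' => (ha c c' c'').trans (le_max_right _ _))
  obtain ⟨M, κ, C₅, hκ, hlow⟩ := Γ.exists_height_lower β hβ hneg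
  obtain ⟨C₆, hC₆, hge⟩ := Γ.exists_hgt_ge
  choose A hA hrA hhA using hlow
  have hcard : ∀ c, (A c).card = M * Γ.d := fun c => GSetup.Rep.card_eq Γ (hA c)
  set K₀ : ℝ := κ * (C₆ * (M * Γ.d : ℕ)) with hK₀
  have hlow' : ∀ c, -K₀ ≤ κ * Γ.hgt (A c) := by
    intro c
    have h1 := hge (A c)
    rw [hcard] at h1
    rw [hK₀, ← mul_neg]
    exact mul_le_mul_of_nonneg_left h1 hκ.le
  refine ⟨fun c => β c c + C₅ + K₀, C₄ + 2 * |C₅ + K₀|, fun c => ?_, fun c c' => ?_, fun B => ?_⟩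
  · have h1 := hlow' c
    have h2 := hhA c
    show 0 ≤ β c c + C₅ + K₀
    linarith
  · have h1 := hpar c c'
    have e : β (c + c') (c + c') + C₅ + K₀ + (β (c - c') (c - c') + C₅ + K₀) -
        2 * ((β c c + C₅ + K₀) + (β c' c' + C₅ + K₀)) =
        (β (c + c') (c + c') + β (c - c') (c - c') - 2 * (β c c + β c' c')) + (-(2 * (C₅ + K₀))) := by ring
    show |β (c + c') (c + c') + C₅ + K₀ + (β (c - c') (c - c') + C₅ + K₀) -
        2 * ((β c c + C₅ + K₀) + (β c' c' + C₅ + K₀))| ≤ _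
    rw [e]
    refine (abs_add_le _ _).trans (add_le_add h1 ?_)
    rw [abs_neg, abs_mul, abs_two]
  · have hfin := Γ.northcott (M * Γ.d) ((B - K₀) / κ)
    refine Set.Finite.of_injOn (f := A) (t := {A : Multiset (Place Qb F) | Γ.RatM A ∧
      A.card ≤ M * Γ.d ∧ Γ.hgt A ≤ (B - K₀) / κ}) ?_ ?_ hfin
    · intro c hc
      have hc' : β c c + C₅ + K₀ ≤ B := hc
      refine ⟨hrA c, (hcard c).le, ?_⟩
      rw [le_div_iff₀ hκ, mul_comm]
      have := hhA c
      linarith
    · intro c _ c' _ hcc'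
      have h1 := hA c'
      rw [← hcc'] at h1
      exact Subtype.ext (GSetup.Rep.unique Γ (hA c) h1)

/-- Mordell-Weil from weak Mordell-Weil -/
theorem GalF.fg_of_finiteIndex {F : Type*} [Field F] [Algebra Qb F] [IsFF Qb F] (Φ : GalF F)
    (h : (nsmulAddMonoidHom (α := Φ.ratPic) 2).range.FiniteIndex) : AddGroup.FG Φ.ratPic := by
  obtain ⟨H, C, h1, h2, h3⟩ := Φ.exists_height
  have hN : Northcott H := ⟨h3⟩
  exact AddCommGroup.fg_of_descent' (h := H) (C := C) h h1 h2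

end Fermat.Agent.H17
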