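import Mathlib
import Fermat.Agent.H28Jq
import Fermat.Agent.H28Degree

/-!
# The tower of function fields: degree computations from the modular polynomials
-/

set_option autoImplicit false

noncomputable section

open Polynomial ModularCurve IntermediateField

namespace Fermat.Agent.H28

section VOp

variable (K : Type) [Field K]

/-- `q ↦ q ^ m` as an algebra endomorphism of the Laurent series (the identity if `m = 0`) -/
def V (m : ℕ) : LaurentSeries K →ₐ[K] LaurentSeries K :=
  if h : m = 0 then AlgHom.id K _ else haveI : NeZero m := ⟨h⟩; qExpandAlgHomC K m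

theorem V_eq (m : ℕ) [NeZero m] : V K m = qExpandAlgHomC K m := dif_neg (NeZero.ne m)

theorem V_apply (m : ℕ) [NeZero m] (x : LaurentSeries K) : V K m x = qExpand K m x := by
  rw [V_eq]; rfl

variable {K}

theorem V_one (x : LaurentSeries K) : V K 1 x = x := by
  rw [V_apply, qExpand_one_apply]

theorem V_V {m n : ℕ} (hm : m ≠ 0) (hn : n ≠ 0) (x : LaurentSeries K) :
    V K m (V K n x) = V K (m * n) x := by
  have : NeZero m := ⟨hm⟩
  have : NeZero n := ⟨hn⟩
  rw [V_apply, V_apply, V_apply, qExpand_qExpand]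

theorem V_injective (m : ℕ) : Function.Injective (V K m) := (V K m).toRingHom.injective

theorem order_qExpand (m : ℕ) [NeZero m] (x : LaurentSeries K) :
    (qExpand K m x).order = m * x.order := by
  by_cases hx : x = 0
  · simp [hx]
  have h1 : (qExpand K m x).coeff (m * x.order) ≠ 0 := by
    rw [qExpand_coeff_mul]
    exact fun h => hx (HahnSeries.coeff_order_eq_zero.1 h)
  have hm : (0 : ℤ) < m := by exact_mod_cast Nat.pos_of_ne_zero (NeZero.ne m)
  apply le_antisymm
  · exact HahnSeries.order_le_of_coeff_ne_zero h1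
  · rw [HahnSeries.le_order_iff_forall (HahnSeries.ne_zero_of_coeff_ne_zero h1)]
    intro i hi
    by_cases hd : (m : ℤ) ∣ i
    · obtain ⟨k, rfl⟩ := hd
      rw [qExpand_coeff_mul]
      exact HahnSeries.coeff_eq_zero_of_lt_order (lt_of_mul_lt_mul_left hi hm.le)
    · exact qExpand_coeff_of_not_dvd m x hd

theorem order_V {m : ℕ} (hm : m ≠ 0) (x : LaurentSeries K) :
    (V K m x).order = m * x.order := by
  have : NeZero m := ⟨hm⟩
  rw [V_apply, order_qExpand]

theorem order_jqModC : (jqModC K).order = -1 := by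
  have h1 : (jqModC K).coeff (-1) ≠ 0 := by
    rw [coeff_jqModC_neg_one]; exact one_ne_zero
  apply le_antisymm
  · exact HahnSeries.order_le_of_coeff_ne_zero h1
  · rw [HahnSeries.le_order_iff_forall (HahnSeries.ne_zero_of_coeff_ne_zero h1)]
    intro i hi
    exact coeff_jqModC_of_lt K hi

theorem order_V_jqModC {m : ℕ} (hm : m ≠ 0) : (V K m (jqModC K)).order = -(m : ℤ) := by
  rw [order_V hm, order_jqModC]; ring

theorem jqModC_ne_zero' : jqModC K ≠ 0 := jqModC_ne_zero_of_nontrivial K

theorem V_evJ (m : ℕ) (P : K[X]) : V K m (evJ K P) = aeval (V K m (jqModC K)) P := by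
  rw [evJ_eq_aeval, aeval_algHom_apply]


theorem evJ_mem_of_mem {E : IntermediateField K (LaurentSeries K)} {m : ℕ}
    (h : V K m (jqModC K) ∈ E) (P : K[X]) : V K m (evJ K P) ∈ E := by
  rw [V_evJ]
  have : (⟨V K m (jqModC K), h⟩ : E) = ⟨V K m (jqModC K), h⟩ := rfl
  have h1 := aeval_algebraMap_apply (A := E) (LaurentSeries K)
    (⟨V K m (jqModC K), h⟩ : E) P
  have h2 : algebraMap E (LaurentSeries K) ⟨V K m (jqModC K), h⟩ = V K m (jqModC K) := rfl
  rw [h2] at h1
  rw [h1]
  exact (aeval (⟨V K m (jqModC K), h⟩ : E) P).2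

/-- lifting a bivariate polynomial, evaluated at `V_m j` in the first variable, to an intermediate
field containing `V_m j` -/
theorem exists_lift (E : IntermediateField K (LaurentSeries K)) {m : ℕ}
    (h : V K m (jqModC K) ∈ E) (Φ : K[X][X]) (hΦ : Φ.Monic) :
    ∃ P : E[X], P.Monic ∧ P.natDegree = Φ.natDegree ∧
      P.map (algebraMap E (LaurentSeries K)) =
        Φ.map ((V K m : LaurentSeries K →+* LaurentSeries K).comp (evJ K)) := by
  let φ : K[X] →+* E := (aeval (⟨V K m (jqModC K), h⟩ : E) : K[X] →ₐ[K] E)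
  have hφ : (algebraMap E (LaurentSeries K)).comp φ =
      (V K m : LaurentSeries K →+* LaurentSeries K).comp (evJ K) := by
    refine RingHom.ext fun P => ?_
    have h1 := aeval_algebraMap_apply (A := E) (LaurentSeries K)
      (⟨V K m (jqModC K), h⟩ : E) P
    have h3 : V K m (evJ K P) = aeval (V K m (jqModC K)) P := V_evJ m P
    exact h1.symm.trans h3.symm
  refine ⟨Φ.map φ, hΦ.map φ, hΦ.natDegree_map φ, ?_⟩
  rw [Polynomial.map_map, hφ]

end VOp

section Poly

variable {L M : Type*} [Field L] [Field M]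

theorem exists_factor_of_map (φ : L →+* M) {P : L[X]} {a : L} {Q : M[X]}
    (h : P.map φ = (X - C (φ a)) * Q) : ∃ G, P = (X - C a) * G ∧ G.map φ = Q := by
  have h1 : P.IsRoot a := by
    have h2 : (P.map φ).eval (φ a) = 0 := by rw [h]; simp
    rw [eval_map, eval₂_hom] at h2
    exact (map_eq_zero φ).1 h2
  obtain ⟨G, hG⟩ := dvd_iff_isRoot.2 h1
  refine ⟨G, hG, ?_⟩
  rw [hG, Polynomial.map_mul, Polynomial.map_sub, map_X, map_C] at h
  exact mul_left_cancel₀ (X_sub_C_ne_zero _) h

theorem isCoprime_of_roots_ne {ι κ : Type*} {s : Finset ι} {t : Finset κ} {a : ι → M} {b : κ → M}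
    (h : ∀ i ∈ s, ∀ k ∈ t, a i ≠ b k) :
    IsCoprime (∏ i ∈ s, (X - C (a i))) (∏ k ∈ t, (X - C (b k))) := by
  refine IsCoprime.prod_left fun i hi => IsCoprime.prod_right fun k hk => ?_
  exact isCoprime_X_sub_C_of_isUnit_sub (sub_ne_zero.2 (h i hi k hk)).isUnit

theorem isCoprime_of_map_roots_ne (φ : L →+* M) {ι κ : Type*} {s : Finset ι} {t : Finset κ}
    {a : ι → M} {b : κ → M} (h : ∀ i ∈ s, ∀ k ∈ t, a i ≠ b k) {G G' : L[X]}
    (hG : G.map φ = ∏ i ∈ s, (X - C (a i))) (hG' : G'.map φ = ∏ k ∈ t, (X - C (b k))) :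
    IsCoprime G G' := by
  rw [← isCoprime_map φ, hG, hG']
  exact isCoprime_of_roots_ne h

variable [Algebra L M]

/-- gcd trick -/
theorem mem_range_of_coprime {P Q : L[X]} {x : M} {G G' : M[X]} (hP0 : P.Monic)
    (hP : P.map (algebraMap L M) = (X - C x) * G)
    (hQ : Q.map (algebraMap L M) = (X - C x) * G') (hc : IsCoprime G G') :
    x ∈ (algebraMap L M).range := by
  have hx : IsIntegral L x := by
    refine ⟨P, hP0, ?_⟩
    rw [← eval_map, hP]; simp
  have h1 : minpoly L x ∣ P := minpoly.dvd _ _ (by rw [aeval_def, ← eval_map, hP]; simp)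
  have h2 : minpoly L x ∣ Q := minpoly.dvd _ _ (by rw [aeval_def, ← eval_map, hQ]; simp)
  have h3 : (minpoly L x).map (algebraMap L M) ∣ (X - C x) := by
    obtain ⟨u, v, huv⟩ := hc
    have h4 := Polynomial.map_dvd (algebraMap L M) h1
    have h5 := Polynomial.map_dvd (algebraMap L M) h2
    rw [hP] at h4
    rw [hQ] at h5
    have h6 : (X - C x) = u * ((X - C x) * G) + v * ((X - C x) * G') := by
      calc (X - C x) = (X - C x) * (u * G + v * G') := by rw [huv, mul_one]
        _ = _ := by ring
    rw [h6]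
    exact dvd_add (h4.mul_left _) (h5.mul_left _)
  have h4 : (minpoly L x).natDegree ≤ 1 := by
    have := natDegree_le_of_dvd h3 (X_sub_C_ne_zero _)
    rwa [natDegree_map, natDegree_X_sub_C] at this
  have h5 : (minpoly L x).natDegree = 1 := le_antisymm h4 (minpoly.natDegree_pos hx)
  exact minpoly.natDegree_eq_one_iff.1 h5

/-- if the cofactor is irreducible then the degree is one or everything -/
theorem natDegree_minpoly_of_irreducible_cofactor {P : L[X]} {x : M} {G : M[X]} (hP0 : P.Monic)
    (hP : P.map (algebraMap L M) = (X - C x) * G) (hG : Irreducible G) :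
    (minpoly L x).natDegree = 1 ∨ (minpoly L x = P) := by
  have hx : IsIntegral L x := by
    refine ⟨P, hP0, ?_⟩
    rw [← eval_map, hP]; simp
  have h1 : minpoly L x ∣ P := minpoly.dvd _ _ (by rw [aeval_def, ← eval_map, hP]; simp)
  have h0 : ((minpoly L x).map (algebraMap L M)).IsRoot x := by
    rw [IsRoot, eval_map, ← aeval_def, minpoly.aeval]
  obtain ⟨G', hG'⟩ := dvd_iff_isRoot.2 h0
  obtain ⟨R, hR⟩ := h1
  have h3 : G = G' * R.map (algebraMap L M) := by
    have h4 : (X - C x) * G = (X - C x) * (G' * R.map (algebraMap L M)) := by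
      rw [← hP, hR, Polynomial.map_mul, hG', mul_assoc]
    exact mul_left_cancel₀ (X_sub_C_ne_zero _) h4
  rcases hG.isUnit_or_isUnit h3 with h | h
  · left
    have h5 := congrArg natDegree hG'
    rw [natDegree_map, natDegree_mul (X_sub_C_ne_zero _) h.ne_zero, natDegree_X_sub_C,
      natDegree_eq_zero_of_isUnit h] at h5
    exact h5
  · right
    have h6 : R.natDegree = 0 := by
      rw [← natDegree_map (algebraMap L M)]
      exact natDegree_eq_zero_of_isUnit h
    have h7 : R.Monic := (minpoly.monic hx).of_mul_monic_left (hR ▸ hP0)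
    rw [hR, h7.natDegree_eq_zero.1 h6, mul_one]

end Poly

section Irr

variable {K : Type} [Field K]

theorem order_multiset_prod {s : Multiset (LaurentSeries K)} {d : ℤ}
    (h0 : ∀ x ∈ s, x ≠ 0) (h : ∀ x ∈ s, x.order = d) : s.prod.order = s.card * d := by
  induction s using Multiset.induction_on with
  | empty => simp
  | cons a s ih =>
    rw [Multiset.prod_cons, HahnSeries.order_mul (h0 a (Multiset.mem_cons_self a s)), 
      h a (Multiset.mem_cons_self a s),
      ih (fun x hx => h0 x (Multiset.mem_cons_of_mem hx))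
        (fun x hx => h x (Multiset.mem_cons_of_mem hx)), Multiset.card_cons]
    · push_cast; ring
    · rw [Ne, Multiset.prod_eq_zero_iff]
      exact fun hz => h0 0 (Multiset.mem_cons_of_mem hz) rfl

theorem irreducible_of_order {p : ℕ} (hp : p.Prime) {G : (LaurentSeries K)[X]} (hG : G.Monic)
    {a : ℕ → LaurentSeries K} {d : ℤ} (hd : ¬ (p : ℤ) ∣ d) (ha : ∀ i, (a i).order = d)
    (h : G.map (V K p : LaurentSeries K →+* LaurentSeries K) =
      ∏ i ∈ Finset.range p, (X - C (a i))) : Irreducible G := by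
  have ha0 : ∀ i, a i ≠ 0 := by
    intro i hi
    apply hd
    rw [← ha i, hi, HahnSeries.order_zero]
    exact dvd_zero _
  have hdeg : G.natDegree = p := by
    rw [← natDegree_map (V K p : LaurentSeries K →+* LaurentSeries K), h,
      natDegree_prod_of_monic _ _ fun i _ => monic_X_sub_C _]
    simp
  rw [hG.irreducible_iff_natDegree']
  refine ⟨fun h1 => ?_, ?_⟩
  · rw [h1, natDegree_one] at hdeg
    exact hp.ne_zero hdeg.symm
  intro f g hf hg hfg hmem
  rw [Finset.mem_Ioc] at hmem
  -- the roots of `g`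
  set g' := g.map (V K p : LaurentSeries K →+* LaurentSeries K) with hg'
  have hdvd : g' ∣ ∏ i ∈ Finset.range p, (X - C (a i)) := by
    rw [← h, ← hfg, Polynomial.map_mul]
    exact dvd_mul_left _ _
  have hne : (∏ i ∈ Finset.range p, (X - C (a i))) ≠ 0 :=
    (monic_prod_of_monic _ _ fun i _ => monic_X_sub_C _).ne_zero
  have hsplit : (∏ i ∈ Finset.range p, (X - C (a i))).Splits :=
    Splits.prod fun i _ => Splits.X_sub_C _
  have hsplit' : g'.Splits := hsplit.of_dvd hne hdvd
  have hroots : ∀ x ∈ g'.roots, ∃ i, x = a i := by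
    intro x hx
    have h1 : (∏ i ∈ Finset.range p, (X - C (a i))).IsRoot x :=
      (isRoot_of_mem_roots hx).dvd hdvd
    rw [IsRoot, eval_prod, Finset.prod_eq_zero_iff] at h1
    obtain ⟨i, _, hi⟩ := h1
    rw [eval_sub, eval_X, eval_C, sub_eq_zero] at hi
    exact ⟨i, hi⟩
  have hcard : g'.roots.card = g.natDegree := by
    rw [← hsplit'.natDegree_eq_card_roots, hg', natDegree_map]
  have hg'm : g'.Monic := hg.map _
  have hcoeff : g'.coeff 0 = (-1) ^ g.natDegree * g'.roots.prod := by
    rw [hsplit'.coeff_zero_eq_prod_roots_of_monic hg'm, hg', natDegree_map]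
  have hord : (g'.roots.prod).order = g.natDegree * d := by
    rw [order_multiset_prod (d := d), hcard]
    · intro x hx
      obtain ⟨i, rfl⟩ := hroots x hx
      exact ha0 i
    · intro x hx
      obtain ⟨i, rfl⟩ := hroots x hx
      exact ha i
  have hord2 : (g'.coeff 0).order = g.natDegree * d := by
    rw [hcoeff]
    rcases neg_one_pow_eq_or (LaurentSeries K) g.natDegree with h1 | h1
    · rw [h1, one_mul, hord]
    · rw [h1, neg_one_mul, HahnSeries.order_neg, hord]
  have hord3 : (g'.coeff 0).order = p * (g.coeff 0).order := by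
    rw [hg', coeff_map]
    exact order_V hp.ne_zero _
  have h2 : (p : ℤ) ∣ g.natDegree * d := by
    rw [← hord2, hord3]
    exact dvd_mul_right _ _
  rcases (Nat.prime_iff_prime_int.1 hp).dvd_or_dvd h2 with h3 | h3
  · have h4 : p ∣ g.natDegree := by exact_mod_cast h3
    have h5 := Nat.le_of_dvd hmem.1 h4
    rw [hdeg] at hmem
    have := hmem.2
    have := hp.two_le
    omega
  · exact hd h3

end Irr

section Orders

variable {K : Type} [Field K]

theorem order_ofPowerSeries_unit {u v : PowerSeries K} (h : u * v = 1) :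
    (HahnSeries.ofPowerSeries ℤ K u).order = 0 := by
  have h1 : HahnSeries.ofPowerSeries ℤ K u * HahnSeries.ofPowerSeries ℤ K v = 1 := by
    rw [← map_mul, h, map_one]
  have hnn : ∀ w : PowerSeries K, 0 ≤ (HahnSeries.ofPowerSeries ℤ K w).order := by
    intro w
    by_cases hw : HahnSeries.ofPowerSeries ℤ K w = 0
    · rw [hw, HahnSeries.order_zero]
    rw [HahnSeries.le_order_iff_forall hw]
    intro i hi
    exact ofPowerSeries_coeff_of_neg _ hi
  have h0 : HahnSeries.ofPowerSeries ℤ K u ≠ 0 := left_ne_zero_of_mul_eq_one h1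
  have h0' : HahnSeries.ofPowerSeries ℤ K v ≠ 0 := right_ne_zero_of_mul_eq_one h1
  have h2 := congrArg HahnSeries.order h1
  rw [HahnSeries.order_mul h0 h0', HahnSeries.order_one] at h2
  have h3 := hnn u
  have h4 := hnn v
  omega

theorem order_deltaL : (deltaL K).order = 1 := by
  have h1 : (dedekindEtaUnit.map (Int.castRingHom K)) *
      (dedekindEtaUnitInv.map (Int.castRingHom K)) = 1 := by
    rw [← map_mul, dedekindEtaUnit_mul_inv, map_one]
  have h2 := order_ofPowerSeries_unit h1
  have h3 : HahnSeries.ofPowerSeries ℤ K (dedekindEtaUnit.map (Int.castRingHom K)) ≠ 0 := by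
    intro h
    have h4 : HahnSeries.ofPowerSeries ℤ K (dedekindEtaUnit.map (Int.castRingHom K)) *
      HahnSeries.ofPowerSeries ℤ K (dedekindEtaUnitInv.map (Int.castRingHom K)) = 1 := by
      rw [← map_mul, h1, map_one]
    rw [h, zero_mul] at h4
    exact zero_ne_one h4
  rw [deltaL, HahnSeries.order_mul _ h3, HahnSeries.order_single one_ne_zero, h2, add_zero]
  exact HahnSeries.single_ne_zero one_ne_zero

theorem deltaL_ne_zero : deltaL K ≠ 0 := left_ne_zero_of_mul_eq_one (deltaL_mul_deltaInvL K)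

theorem order_evJ_nonpos (P : K[X]) : (evJ K P).order ≤ 0 := by
  by_cases hP : P = 0
  · rw [hP, map_zero, HahnSeries.order_zero]
  have h1 : (evJ K P).coeff (-(P.natDegree : ℤ)) = P.leadingCoeff := by
    rw [evJ, coe_eval₂RingHom, eval₂_eq_sum_range, HahnSeries.coeff_sum,
      Finset.sum_range_succ, Finset.sum_eq_zero, zero_add]
    · rw [HahnSeries.C_mul_eq_smul, HahnSeries.coeff_smul, coeff_jqModC_pow_self, smul_eq_mul,
        mul_one]
      rfl
    · intro i hi
      rw [HahnSeries.C_mul_eq_smul, HahnSeries.coeff_smul, coeff_jqModC_pow_of_lt, smul_zero]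
      have := Finset.mem_range.1 hi
      omega
  have h2 : (evJ K P).coeff (-(P.natDegree : ℤ)) ≠ 0 := by
    rw [h1]; exact leadingCoeff_ne_zero.2 hP
  have := HahnSeries.order_le_of_coeff_ne_zero h2
  omega

/-- an element of `K(j)` integral over `K[j]` is a polynomial in `j` -/
theorem exists_evJ_of_isIntegral {u : LaurentSeries K} (hu : u ∈ K⟮jqModC K⟯)
    {H : K[X][X]} (hH : H.Monic) (h : H.eval₂ (evJ K) u = 0) : ∃ P : K[X], evJ K P = u := by
  let φ : FractionRing K[X] →+* LaurentSeries K :=
    IsFractionRing.lift (A := K[X]) (g := evJ K) evJ_injective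
  have hφ : ∀ x, φ (algebraMap K[X] (FractionRing K[X]) x) = evJ K x :=
    fun x => IsFractionRing.lift_algebraMap _ x
  obtain ⟨r, s, hrs⟩ := (mem_adjoin_simple_iff K _).1 hu
  rw [← evJ_eq_aeval, ← evJ_eq_aeval, ← hφ, ← hφ, ← map_div₀] at hrs
  set z := algebraMap K[X] (FractionRing K[X]) r / algebraMap K[X] (FractionRing K[X]) s
  have hz : IsIntegral K[X] z := by
    refine ⟨H, hH, φ.injective ?_⟩
    rw [map_zero, hom_eval₂, ← hrs]
    have : φ.comp (algebraMap K[X] (FractionRing K[X])) = evJ K := RingHom.ext hφ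
    rw [this, h]
  obtain ⟨P, hP⟩ := IsIntegrallyClosed.isIntegral_iff.1 hz
  exact ⟨P, by rw [← hφ, hP, hrs]⟩

end Orders

section Reverse

variable {L M : Type*} [Field L] [Field M] [Algebra L M]

theorem exists_inv_poly {P : L[X]} {u : M} {G : M[X]}
    (h : P.map (algebraMap L M) = (X - C u) * G) (c : L) (hc : c ≠ 0) (hu : u ≠ 0) :
    ∃ (Q : L[X]) (G' : M[X]), Q.map (algebraMap L M) = (X - C (algebraMap L M c / u)) * G' ∧
      ∀ {N : Type*} [Field N] (φ : M →+* N) (y : N), y ≠ 0 → (G'.map φ).eval y = 0 →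
        (G.map φ).eval (φ (algebraMap L M c) / y) = 0 := by
  set c' := algebraMap L M c with hc'
  have hc'0 : c' ≠ 0 := by
    rw [hc']; exact (_root_.map_ne_zero _).2 hc
  refine ⟨(P.comp (C c * X)).reverse, C (-u) * (G.comp (C c' * X)).reverse, ?_, ?_⟩
  · have h1 : (P.comp (C c * X)).reverse.map (algebraMap L M) =
        ((P.map (algebraMap L M)).comp (C c' * X)).reverse := by
      have h5 : (P.map (algebraMap L M)).comp (C c' * X) =
          (P.comp (C c * X)).map (algebraMap L M) := by
        rw [Polynomial.map_comp, Polynomial.map_mul, map_C, map_X]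
      rw [h5, reverse, reverse, ← reflect_map, natDegree_map]
    rw [h1, h, mul_comp, reverse_mul_of_domain]
    have h2 : ((X - C u).comp (C c' * X)).reverse = C c' - C u * X := by
      rw [sub_comp, X_comp, C_comp]
      have h3 : (C c' * X - C u) = C c' * X + C (-u) := by rw [map_neg, sub_eq_add_neg]
      rw [h3, reverse, natDegree_linear hc'0, reflect_add, reflect_C_mul, reflect_one_X, reflect_C,
        map_neg]
      ring
    rw [h2]
    have h4 : C c' - C u * X = (X - C (c' / u)) * C (-u) := by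
      rw [sub_mul, ← C_mul, map_neg]
      rw [show c' / u * -u = -c' by field_simp, map_neg]
      ring
    rw [h4, mul_assoc]
  · intro N _ φ y hy h1
    rw [Polynomial.map_mul, eval_mul, mul_eq_zero] at h1
    rcases h1 with h1 | h1
    · rw [map_C, eval_C, map_eq_zero] at h1
      exact absurd (neg_eq_zero.1 h1) hu
    · rw [eval_map] at h1
      have := invertibleOfNonzero (inv_ne_zero hy)
      have h2 := eval₂_reverse_eq_zero_iff φ y⁻¹ (G.comp (C c' * X))
      have h3 : ⅟(y⁻¹) = y := by rw [invOf_eq_inv, inv_inv]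
      rw [h3] at h2
      have h4 := h2.1 h1
      rw [← eval_map, Polynomial.map_comp, eval_comp] at h4
      simpa [div_eq_mul_inv] using h4

end Reverse

end Fermat.Agent.H28
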