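/-
H17Laurent: Galois descent for the modular function field (project S17)
-/
import Mathlib
import Fermat.Agent.H17GDefs
import Fermat.Agent.H90Descent
import Fermat.Agent.H42Inputs
import Fermat.Agent.H28Tower
import Fermat.Prelude.Def_ModularCurve_ArithmeticGalois

set_option autoImplicit false

noncomputable section

open AlgebraicCurve ModularCurve

namespace Fermat.Agent.H17

/-- Abstract descent: a finite-dimensional space with a family of jointly injective functionals and
semilinear operators compatible with them is spanned by fixed vectors. -/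
theorem descent_aux {L U ι G : Type*} [Field L] [AddCommGroup U] [Module L U] [Module.Finite L U]
    (c : ι → U →ₗ[L] L) (hc : ∀ u, (∀ i, c i u = 0) → u = 0) (s : G → L → L) (hs0 : ∀ g, s g 0 = 0)
    (hs1 : ∀ g, s g 1 = 1) (S : G → U → U) (hS : ∀ g i u, c i (S g u) = s g (c i u)) (u : U) :
    u ∈ Submodule.span L {u : U | ∀ g, S g u = u} := by
  classical
  obtain ⟨b, hbs, hspan, hli⟩ := exists_linearIndependent L (Set.range c)
  have hbfin : Finite b := hli.finite
  have := Fintype.ofFinite b
  let Φ : U →ₗ[L] (b → L) := LinearMap.pi fun f => (f : Module.Dual L U)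
  have hΦ : Function.Injective Φ := by
    rw [← LinearMap.ker_eq_bot, LinearMap.ker_eq_bot']
    intro u hu
    apply hc u
    intro i
    have h1 : c i ∈ Submodule.span L b := by
      rw [hspan]; exact Submodule.subset_span ⟨i, rfl⟩
    have h2 : ∀ f ∈ Submodule.span L b, f u = 0 := by
      intro f hf
      induction hf using Submodule.span_induction with
      | mem f hf => exact congrFun hu ⟨f, hf⟩
      | zero => simp
      | add x y _ _ hx hy => rw [LinearMap.add_apply, hx, hy, add_zero]
      | smul a x _ hx => rw [LinearMap.smul_apply, hx, smul_zero]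
    exact h2 _ h1
  have hcard : Module.finrank L (b → L) ≤ Module.finrank L U := by
    rw [Module.finrank_fintype_fun_eq_card, ← Subspace.dual_finrank_eq (K := L) (V := U)]
    exact hli.fintype_card_le_finrank
  have hfr : Module.finrank L U = Module.finrank L (b → L) :=
    le_antisymm (LinearMap.finrank_le_finrank_of_injective hΦ) hcard
  have hsurj : Function.Surjective Φ :=
    (LinearMap.injective_iff_surjective_of_finrank_eq_finrank hfr).1 hΦ
  choose e he using fun f : b => hsurj (Pi.single f 1)
  have hfix : ∀ f g, S g (e f) = e f := by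
    intro f g
    apply hΦ
    funext f'
    obtain ⟨i, hi⟩ := hbs f'.2
    show (f' : Module.Dual L U) (S g (e f)) = (f' : Module.Dual L U) (e f)
    rw [← hi, hS g i, hi]
    have h1 : (f' : Module.Dual L U) (e f) = (Pi.single f 1 : b → L) f' := congrFun (he f) f'
    rw [h1]
    by_cases h : f' = f
    · subst h; rw [Pi.single_eq_same, hs1]
    · rw [Pi.single_eq_of_ne h, hs0]
  have hu : u = ∑ f : b, Φ u f • e f := by
    apply hΦ
    rw [map_sum]
    simp_rw [map_smul, he]
    funext f
    rw [Finset.sum_apply, Finset.sum_eq_single f]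
    · simp
    · intro f' _ hf'
      simp [Pi.single_eq_of_ne (Ne.symm hf')]
    · intro h; exact absurd (Finset.mem_univ f) h
  rw [hu]
  exact Submodule.sum_mem _ fun f _ => Submodule.smul_mem _ _ (Submodule.subset_span (hfix f))

/-- Galois descent for finite-dimensional subspaces of a space of Laurent series -/
theorem laurent_descent (F₀ : IntermediateField ℚ (LaurentSeries ℚ))
    (U : Submodule Qb (laurentBaseChange Qb F₀)) (hU : Module.Finite Qb U)
    (h : ∀ σ : Qb ≃ₐ[ℚ] Qb, ∀ u ∈ U, arithmeticGalois F₀ σ • u ∈ U) :
    U ≤ Submodule.span Qb {u : laurentBaseChange Qb F₀ | u ∈ U ∧ ∀ σ : Qb ≃ₐ[ℚ] Qb, arithmeticGalois F₀ σ • u = u} := by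
  intro u hu
  let c : ℤ → U →ₗ[Qb] Qb := fun n =>
    { toFun := fun u => ((u : laurentBaseChange Qb F₀) : LaurentSeries Qb).coeff n
      map_add' := fun x y => HahnSeries.coeff_add
      map_smul' := fun a x => by
        show ((a • (x : laurentBaseChange Qb F₀) : laurentBaseChange Qb F₀) :
          LaurentSeries Qb).coeff n = _
        rw [Algebra.smul_def, MulMemClass.coe_mul]
        show (algebraMap Qb (LaurentSeries Qb) a *
          ((x : laurentBaseChange Qb F₀) : LaurentSeries Qb)).coeff n = _
        rw [algebraMap_laurentSeries_eq_single, HahnSeries.coeff_single_zero_mul]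
        rfl }
  have key := descent_aux (G := Qb ≃ₐ[ℚ] Qb) c (fun u hu => by
      apply Subtype.ext; apply Subtype.ext
      exact HahnSeries.ext (funext hu))
    (fun σ => σ) (fun σ => map_zero σ) (fun σ => map_one σ)
    (fun σ u => ⟨arithmeticGalois F₀ σ • (u : laurentBaseChange Qb F₀), h σ u u.2⟩)
    (fun σ n u => rfl) ⟨u, hu⟩
  have h1 := Submodule.mem_map_of_mem (f := U.subtype) key
  rw [Submodule.map_span] at h1
  refine Submodule.span_mono ?_ h1
  rintro _ ⟨v, hv, rfl⟩
  exact ⟨v.2, fun σ' => congrArg Subtype.val (hv σ')⟩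

theorem exists_order_eq_one (N : ℕ) [NeZero N] : ∃ x ∈ modularFunctionFieldFull N, x.order = 1 := by
  have h1 : jq ∈ modularFunctionFieldFull N := by
    have h := jqd_mem_full N (one_dvd N)
    rwa [qExpand_one_apply] at h
  refine ⟨jq⁻¹, inv_mem h1, ?_⟩
  have h2 : jq.order = -1 := H28.order_jqModC (K := ℚ)
  have h0 : jq ≠ 0 := by
    intro h
    rw [h, HahnSeries.order_zero] at h2
    omega
  have h3 := HahnSeries.order_mul h0 (inv_ne_zero h0)
  rw [mul_inv_cancel₀ h0, HahnSeries.order_one, h2] at h3
  omega

/-- the Galois action on the modular function field -/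
def modularGalF (N : ℕ) [NeZero N] : GalF (modularFunctionFieldBar N) where
  φ := arithmeticGalois (modularFunctionFieldFull N)
  base := fun σ => rfl
  descent := laurent_descent _
  pt := H90.infPlace Qb (exists_order_eq_one N)
  pt_fixed := H90.smul_infPlace Qb (exists_order_eq_one N)

end Fermat.Agent.H17
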