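/-
H17Final: S17 from weak Mordell-Weil (project S17)
-/
import Mathlib
import Fermat.Agent.H17Height
import Fermat.Agent.H17Laurent

set_option autoImplicit false

noncomputable section

open AlgebraicCurve ModularCurve

namespace Fermat.Agent.H17

theorem ratPic_modular (N : ℕ) [NeZero N] :
    (modularGalF N).ratPic = FixedPoints.addSubgroup (Qb ≃ₐ[ℚ] Qb) (JZero N) := by
  ext c
  rfl

/-- Mordell-Weil for `J_0(N)` from weak Mordell-Weil -/
theorem mordell_weil_of_weak (N : ℕ) [NeZero N]
    (h : (nsmulAddMonoidHom (α := FixedPoints.addSubgroup (Qb ≃ₐ[ℚ] Qb) (JZero N)) 2).range.FiniteIndex) :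
    AddGroup.FG ↥(FixedPoints.addSubgroup (Qb ≃ₐ[ℚ] Qb) (JZero N)) := by
  rw [← ratPic_modular] at h ⊢
  exact (modularGalF N).fg_of_finiteIndex h

end Fermat.Agent.H17
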