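import Fermat.Agent.H17HkDeg
import Fermat.Agent.H17Basic

/-!
# MZ-J2: the kernel of reduction is Hecke stable (helper17)
-/

set_option autoImplicit false
set_option linter.unusedSectionVars false

noncomputable section

open AlgebraicCurve ModularCurve
open scoped Pointwise

namespace Fermat.Agent.H17

open Fermat.Agent.H40 Fermat.Agent.H94 Fermat.Agent.H19 Fermat.Agent.H23

local notation "Qb" => AlgebraicClosure ℚ
local notation "Gq" => AlgebraicClosure ℚ ≃ₐ[ℚ] AlgebraicClosure ℚ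

section Rho

variable {A : ValuationSubring Qb} {N : ℕ} [NeZero N]

set_option synthInstance.maxHeartbeats 400000 in
set_option maxHeartbeats 1000000 in
theorem modRed_ρ_mul (hdeg : H42.DegLE Qb (IsLocalRing.ResidueField A) N)
    (b : (H42.modRed hdeg).B) {y z : LaurentSeries A}
    (hzF : coeffMap A.subtype z ∈ modularFunctionFieldBar N)
    (hz : coeffMap (IsLocalRing.residue A) z ≠ 0)
    (h : ((b : modularFunctionFieldBar N) : LaurentSeries Qb) * coeffMap A.subtype z =
      coeffMap A.subtype y) :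
    ((H42.modRed hdeg).ρ b : LaurentSeries (IsLocalRing.ResidueField A)) *
      coeffMap (IsLocalRing.residue A) z = coeffMap (IsLocalRing.residue A) y := by
  have hyF : coeffMap A.subtype y ∈ modularFunctionFieldBar N := by
    rw [← h]
    exact mul_mem b.1.2 hzF
  have hz₁ : (H42.modGauss A (IsLocalRing.residue A) N IsLocalRing.residue_surjective hdeg).ρ
      ⟨⟨coeffMap A.subtype z, hzF⟩, z, rfl⟩ ≠ 0 := by
    intro h0
    apply hz
    have h1 := H42.coe_modGauss_ρ A (IsLocalRing.residue A) N IsLocalRing.residue_surjective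
      hdeg z hzF
    rw [← h1, h0]
    rfl
  have h1 := (H42.modGauss A (IsLocalRing.residue A) N IsLocalRing.residue_surjective
    hdeg).res_mul_eq b (y := ⟨⟨coeffMap A.subtype y, hyF⟩, y, rfl⟩) hz₁ (Subtype.ext h)
  have h2 := congrArg Subtype.val h1
  have h3 := H42.coe_modGauss_ρ A (IsLocalRing.residue A) N IsLocalRing.residue_surjective
      hdeg z hzF
  have h4 := H42.coe_modGauss_ρ A (IsLocalRing.residue A) N IsLocalRing.residue_surjective
      hdeg y hyF
  rw [← h3, ← h4]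
  exact h2

end Rho

section Deg

variable {A : ValuationSubring Qb} {N q : ℕ} [NeZero N] [NeZero q]
variable (hdeg : H42.DegLE Qb (IsLocalRing.ResidueField A) N)
  (hdeg' : H42.DegLE Qb (IsLocalRing.ResidueField A) (N * q))

theorem alpha_mem {b : modularFunctionFieldBar N} (hb : b ∈ (H42.modRed hdeg).B) :
    heckeAlphaBar Qb N q b ∈ (H42.modRed hdeg').B := by
  rw [mem_modRed_B] at hb ⊢
  obtain ⟨y, z, hzF, hz, h⟩ := hb
  refine ⟨y, z, ?_, hz, ?_⟩
  · exact (heckeAlphaBar Qb N q ⟨_, hzF⟩).2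
  · rw [coe_heckeAlphaBar]
    exact h

theorem beta_mem {b : modularFunctionFieldBar N} (hb : b ∈ (H42.modRed hdeg).B) :
    heckeBetaBar Qb N q b ∈ (H42.modRed hdeg').B := by
  rw [mem_modRed_B] at hb ⊢
  obtain ⟨y, z, hzF, hz, h⟩ := hb
  refine ⟨qExpand A q y, qExpand A q z, ?_, ?_, ?_⟩
  · rw [coeffMap_qExpand]
    exact (heckeBetaBar Qb N q ⟨_, hzF⟩).2
  · rw [coeffMap_qExpand]
    exact (map_ne_zero_iff _ (qExpand_injective q)).mpr hz
  · rw [coe_heckeBetaBar, coeffMap_qExpand, coeffMap_qExpand, ← map_mul, h]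

theorem alpha_red (b : (H42.modRed hdeg).B) :
    (H42.modRed hdeg').ρ ⟨heckeAlphaBar Qb N q (b : modularFunctionFieldBar N),
      alpha_mem hdeg hdeg' b.2⟩ = alphaC _ N q ((H42.modRed hdeg).ρ b) := by
  have hb := b.2
  rw [mem_modRed_B] at hb
  obtain ⟨y, z, hzF, hz, h⟩ := hb
  have h1 := modRed_ρ_mul hdeg b hzF hz h
  have h2 := modRed_ρ_mul hdeg' ⟨heckeAlphaBar Qb N q (b : modularFunctionFieldBar N),
      alpha_mem hdeg hdeg' b.2⟩ (y := y) (z := z) (heckeAlphaBar Qb N q ⟨_, hzF⟩).2 hz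
      (by rw [coe_heckeAlphaBar]; exact h)
  apply Subtype.ext
  rw [coe_alphaC]
  exact mul_right_cancel₀ hz (h2.trans h1.symm)

theorem beta_red (b : (H42.modRed hdeg).B) :
    (H42.modRed hdeg').ρ ⟨heckeBetaBar Qb N q (b : modularFunctionFieldBar N),
      beta_mem hdeg hdeg' b.2⟩ = betaC _ N q ((H42.modRed hdeg).ρ b) := by
  have hb := b.2
  rw [mem_modRed_B] at hb
  obtain ⟨y, z, hzF, hz, h⟩ := hb
  have h1 := modRed_ρ_mul hdeg b hzF hz h
  have hz' : coeffMap (IsLocalRing.residue A) (qExpand A q z) ≠ 0 := by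
    rw [coeffMap_qExpand]
    exact (map_ne_zero_iff _ (qExpand_injective q)).mpr hz
  have h2 := modRed_ρ_mul hdeg' ⟨heckeBetaBar Qb N q (b : modularFunctionFieldBar N),
      beta_mem hdeg hdeg' b.2⟩ (y := qExpand A q y) (z := qExpand A q z)
      (by rw [coeffMap_qExpand]; exact (heckeBetaBar Qb N q ⟨_, hzF⟩).2) hz'
      (by rw [coe_heckeBetaBar, coeffMap_qExpand, coeffMap_qExpand, ← map_mul, h])
  apply Subtype.ext
  rw [coe_betaC]
  refine mul_right_cancel₀ hz' (h2.trans ?_)
  rw [coeffMap_qExpand, coeffMap_qExpand, ← h1, map_mul]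

end Deg

end Fermat.Agent.H17
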