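import Mathlib
import Fermat.Agent.H17OrbMain

/-!
# MZ-J6: splitting a divisor into layers permuted cyclically (helper17)
-/

set_option autoImplicit false
set_option linter.unusedSectionVars false

noncomputable section

open AlgebraicCurve

namespace Fermat.Agent.H17

open Fermat.Agent.H40 Fermat.Agent.H19 Fermat.Agent.H23 GoodRed

variable {K F k E : Type*} [Field K] [Field F] [Algebra K F] [Field k] [Field E] [Algebra k E]

section Layer

variable {G X : Type*} [Group G] [MulAction G X] (β : G) (Q : X) (m : ℕ)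

/-- the zeroth layer of the orbit of `Q` -/
def layer : Set X := {R | ∃ i : ℤ, R = β ^ ((m : ℤ) * i) • Q}

variable {β Q m}

theorem mem_layer_iff (hm : 0 < m) (hQ : ∀ i : ℤ, β ^ i • Q = Q → (m : ℤ) ∣ i) (a : ℤ) (j : ℕ) :
    (β ^ j)⁻¹ • (β ^ a • Q) ∈ layer β Q m ↔ (m : ℤ) ∣ a - j := by
  rw [← zpow_natCast, ← zpow_neg, ← mul_smul, ← zpow_add]
  constructor
  · rintro ⟨i, hi⟩
    have h1 : β ^ (-(j : ℤ) + a - m * i) • Q = Q := by
      have h2 := congrArg (fun y => β ^ (-((m : ℤ) * i)) • y) hi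
      rw [← mul_smul, ← mul_smul, ← zpow_add, ← zpow_add, neg_add_cancel, zpow_zero, one_smul] at h2
      rw [show -(j : ℤ) + a - m * i = -(m * i) + (-j + a) by ring]
      exact h2
    have h3 := hQ _ h1
    have h4 : (m : ℤ) ∣ (-(j : ℤ) + a - m * i) + m * i := dvd_add h3 (dvd_mul_right _ _)
    rw [show a - (j : ℤ) = (-(j : ℤ) + a - m * i) + m * i by ring]
    exact h4
  · rintro ⟨i, hi⟩
    exact ⟨i, by rw [← hi]; congr 2; ring⟩

theorem exists_layer (hm : 0 < m) (hQ : ∀ i : ℤ, β ^ i • Q = Q → (m : ℤ) ∣ i) (a : ℤ) :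
    ∃ j ∈ Finset.range m, (β ^ j)⁻¹ • (β ^ a • Q) ∈ layer β Q m ∧
      ∀ j' ∈ Finset.range m, (β ^ j')⁻¹ • (β ^ a • Q) ∈ layer β Q m → j' = j := by
  have hm' : (0 : ℤ) < m := by exact_mod_cast hm
  have h0 := Int.emod_nonneg a hm'.ne'
  have h1 := Int.emod_lt_of_pos a hm'
  refine ⟨(a % m).toNat, ?_, ?_, ?_⟩
  · rw [Finset.mem_range]; omega
  · rw [mem_layer_iff hm hQ, Int.toNat_of_nonneg h0]
    exact Int.dvd_self_sub_emod
  · intro j' hj' h
    rw [mem_layer_iff hm hQ] at h
    rw [Finset.mem_range] at hj'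
    have h2 : (m : ℤ) ∣ a - a % m := Int.dvd_self_sub_emod
    have h3 : (m : ℤ) ∣ (a % m - j') := by
      have := dvd_sub h h2
      rwa [show a - (j' : ℤ) - (a - a % m) = a % m - j' by ring] at this
    have h4 : a % m - j' = 0 := Int.eq_zero_of_abs_lt_dvd h3 (by rw [abs_lt]; omega)
    omega

end Layer

section Restrict

variable (r : Place K F → Place k E)

open Classical in
/-- the part of a divisor above a set of places -/
def resD (W : Set (Place k E)) (G : Divisor K F) : Divisor K F :=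
  Finsupp.filter (fun P => r P ∈ W) G

variable {r}

open Classical in
theorem resD_apply (W : Set (Place k E)) (G : Divisor K F) (P : Place K F) :
    resD r W G P = if r P ∈ W then G P else 0 := Finsupp.filter_apply _ _ _

open Classical in
theorem mapDomain_resD (W : Set (Place k E)) (G : Divisor K F) :
    Finsupp.mapDomain r (resD r W G) =
      Finsupp.filter (fun R => R ∈ W) (Finsupp.mapDomain r G) := by
  unfold resD
  induction G using Finsupp.induction_linear with
  | zero => rw [Finsupp.filter_zero, Finsupp.mapDomain_zero, Finsupp.filter_zero]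
  | add f g hf hg =>
    rw [Finsupp.filter_add, Finsupp.mapDomain_add, Finsupp.mapDomain_add, Finsupp.filter_add, hf, hg]
  | single P n =>
    rw [Finsupp.mapDomain_single]
    by_cases h : r P ∈ W
    · rw [Finsupp.filter_single_of_pos (p := fun P => r P ∈ W) (b := n) h,
        Finsupp.filter_single_of_pos (p := fun R => R ∈ W) (b := n) h, Finsupp.mapDomain_single]
    · rw [Finsupp.filter_single_of_neg (p := fun P => r P ∈ W) (b := n) h,
        Finsupp.filter_single_of_neg (p := fun R => R ∈ W) (b := n) h, Finsupp.mapDomain_zero]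

theorem smul_resD_of_fixed {γ : SemilinearAut K F} {G : Divisor K F} (hG : γ • G = G)
    (hr : ∀ P, r (γ • P) = r P) (W : Set (Place k E)) : γ • resD r W G = resD r W G := by
  classical
  ext P
  rw [SemilinearAut.divisor_smul_apply, resD_apply, resD_apply]
  have h1 : r (γ⁻¹ • P) = r P := by
    have := hr (γ⁻¹ • P)
    rwa [smul_inv_smul, eq_comm] at this
  have h2 : G (γ⁻¹ • P) = G P := by
    conv_rhs => rw [← hG]
    rw [SemilinearAut.divisor_smul_apply]
  rw [h1, h2]

theorem pow_smul_eq {α X : Type*} [Monoid α] [MulAction α X] {g : α} {x : X} (h : g • x = x)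
    (n : ℕ) : g ^ n • x = x := by
  induction n with
  | zero => rw [pow_zero, one_smul]
  | succ n ih => rw [pow_succ, mul_smul, h, ih]

variable {φ : SemilinearAut K F} {β : SemilinearAut k E}

theorem r_pow_smul (hr : ∀ P, r (φ • P) = β • r P) (j : ℕ) (P : Place K F) :
    r (φ ^ j • P) = β ^ j • r P := by
  induction j generalizing P with
  | zero => rw [pow_zero, one_smul, pow_zero, one_smul]
  | succ j ih => rw [pow_succ, mul_smul, ih, hr, pow_succ, mul_smul]

theorem r_pow_inv_smul (hr : ∀ P, r (φ • P) = β • r P) (j : ℕ) (P : Place K F) :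
    r ((φ ^ j)⁻¹ • P) = (β ^ j)⁻¹ • r P := by
  rw [eq_inv_smul_iff, ← r_pow_smul hr, smul_inv_smul]

/-- **Splitting into layers** -/
theorem sum_layers {Q : Place k E} {m : ℕ} (hm : 0 < m)
    (hQ : ∀ i : ℤ, β ^ i • Q = Q → (m : ℤ) ∣ i) (hr : ∀ P, r (φ • P) = β • r P)
    {G : Divisor K F} (hφG : φ • G = G) (hsupp : ∀ P, G P ≠ 0 → ∃ a : ℤ, r P = β ^ a • Q) :
    ∑ j ∈ Finset.range m, φ ^ j • resD r (layer β Q m) G = G := by
  classical
  ext P
  rw [Finsupp.finsetSum_apply]
  have h1 : ∀ j : ℕ, (φ ^ j • resD r (layer β Q m) G) P =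
      if (β ^ j)⁻¹ • r P ∈ layer β Q m then G P else 0 := by
    intro j
    rw [SemilinearAut.divisor_smul_apply, resD_apply, r_pow_inv_smul hr]
    have h2 : G ((φ ^ j)⁻¹ • P) = G P := by
      conv_rhs => rw [← pow_smul_eq hφG j]
      rw [SemilinearAut.divisor_smul_apply]
    rw [h2]
  rw [Finset.sum_congr rfl fun j _ => h1 j]
  by_cases hP : G P = 0
  · rw [hP]
    simp
  obtain ⟨a, ha⟩ := hsupp P hP
  obtain ⟨j, hj, hj1, hj2⟩ := exists_layer hm hQ a
  rw [ha, Finset.sum_eq_single j]
  · rw [if_pos hj1]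
  · intro j' hj' hne
    rw [if_neg fun h => hne (hj2 j' hj' h)]
  · intro h; exact absurd hj h

end Restrict

end Fermat.Agent.H17
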