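import Fermat.Agent.H17Weak
import Fermat.Agent.H17Unr

/-!
# Mordell-Weil for `J_0(N)`
-/

set_option autoImplicit false

noncomputable section

open AlgebraicCurve ModularCurve

namespace Fermat.Agent.H17

local notation "Qb" => AlgebraicClosure ℚ

/-- **Mordell-Weil for `J_0(N)`**, all `N`. -/
theorem mordell_weil_jzero (N : ℕ) [NeZero N] :
    AddGroup.FG ↥(FixedPoints.addSubgroup (Qb ≃ₐ[ℚ] Qb) (JZero N)) := by
  refine fg_of_unramified N (2 * N).primeFactors (fun p hp => Nat.prime_of_mem_primeFactors hp) ?_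
  intro q hq hqS V hV σ hσ a ha
  have hne : 2 * N ≠ 0 := mul_ne_zero two_ne_zero (NeZero.ne N)
  have hqN : ¬ q ∣ 2 * N := fun h => hqS (Nat.mem_primeFactors.2 ⟨hq, h, hne⟩)
  exact inertia_fix N hq hqN V hV σ hσ a ha

end Fermat.Agent.H17
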