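import Mathlib
import Fermat.Agent.H23RedPic

/-!
# S19: the automorphism of the reduction induced by a compatible automorphism (helper19)
-/

set_option autoImplicit false

noncomputable section

open AlgebraicCurve WithZero

namespace Fermat.Agent.H19

open Fermat.Agent.H40 Fermat.Agent.H94 Fermat.Agent.H23 GoodRed

theorem exists_induced_equiv {R S : Type*} [CommRing R] [CommRing S] (f : R →+* S)
    (hf : Function.Surjective f) (e : R ≃+* R) (he : ∀ r, f (e r) = 0 ↔ f r = 0) :
    ∃ e' : S ≃+* S, ∀ r, e' (f r) = f (e r) := by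
  have h : RingHom.ker f = Ideal.map (e : R →+* R) (RingHom.ker f) := by
    rw [Ideal.map_comap_of_equiv e]
    ext r
    rw [Ideal.mem_comap, RingHom.mem_ker, RingHom.mem_ker]
    have := he (e.symm r)
    rw [RingEquiv.apply_symm_apply] at this
    exact this
  refine ⟨((RingHom.quotientKerEquivOfSurjective hf).symm.trans
    (Ideal.quotientEquiv (RingHom.ker f) (RingHom.ker f) e h)).trans
      (RingHom.quotientKerEquivOfSurjective hf), fun r => ?_⟩
  rw [RingEquiv.trans_apply, RingEquiv.trans_apply]
  have h1 : (RingHom.quotientKerEquivOfSurjective hf).symm (f r) = Ideal.Quotient.mk _ r := by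
    rw [RingEquiv.symm_apply_eq]
    rfl
  rw [h1, Ideal.quotientEquiv_mk]
  rfl

variable {K F k E : Type*} [Field K] [Field F] [Algebra K F] [Field k] [Field E] [Algebra k E]
variable {S : GoodRed K F k E}

theorem compat_ρ_act_eq_zero_iff {δ : SemilinearAut K F} (hδ : Compat S δ) (b : S.B) :
    S.ρ (hδ.act b) = 0 ↔ S.ρ b = 0 := by
  refine ⟨fun h => ?_, fun h => hδ.ρ_act_eq_zero h⟩
  have h1 := hδ.inv.ρ_act_eq_zero h
  have h2 : hδ.inv.act (hδ.act b) = b := by
    apply Subtype.ext
    rw [Compat.coe_act, Compat.coe_act, inv_smul_smul]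
  rwa [h2] at h1

/-- the ring automorphism of `B` -/
def compatActEquiv {δ : SemilinearAut K F} (hδ : Compat S δ) : S.B ≃+* S.B where
  toFun := hδ.act
  invFun := hδ.inv.act
  left_inv b := Subtype.ext (by rw [Compat.coe_act, Compat.coe_act, inv_smul_smul])
  right_inv b := Subtype.ext (by rw [Compat.coe_act, Compat.coe_act, smul_inv_smul])
  map_mul' x y := Subtype.ext (by
    rw [Compat.coe_act, Subring.coe_mul, smul_mul', Subring.coe_mul, Compat.coe_act,
      Compat.coe_act])
  map_add' x y := Subtype.ext (by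
    rw [Compat.coe_act, Subring.coe_add, smul_add, Subring.coe_add, Compat.coe_act,
      Compat.coe_act])

/-- the induced automorphism of `A` -/
def compatBaseEquiv {δ : SemilinearAut K F} (hδ : Compat S δ) : S.A ≃+* S.A where
  toFun a := ⟨SemilinearAut.baseAut δ a, (hδ.mem_A_iff _).mpr a.2⟩
  invFun a := ⟨SemilinearAut.baseAut δ⁻¹ a, (hδ.inv.mem_A_iff _).mpr a.2⟩
  left_inv a := Subtype.ext (by simp)
  right_inv a := Subtype.ext (by simp)
  map_mul' x y := Subtype.ext (by simp)
  map_add' x y := Subtype.ext (by simp)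

theorem compat_act_const {δ : SemilinearAut K F} (hδ : Compat S δ) (a : S.A) :
    hδ.act (S.const a) = S.const (compatBaseEquiv hδ a) := by
  apply Subtype.ext
  rw [Compat.coe_act, ReductionData.coe_const, SemilinearAut.smul_algebraMap,
    ReductionData.coe_const]
  rfl

theorem compat_exists_bar {δ : SemilinearAut K F} (hδ : Compat S δ) :
    ∃ β : SemilinearAut k E, (∀ b : S.B, β • S.ρ b = S.ρ (hδ.act b)) ∧
      ∀ a : S.A, SemilinearAut.baseAut β (S.π a) = S.π (compatBaseEquiv hδ a) := by
  -- on `k`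
  obtain ⟨eb, heb⟩ := exists_induced_equiv S.π S.π_surj (compatBaseEquiv hδ) (fun a => by
    have h1 := compat_ρ_act_eq_zero_iff hδ (S.const a)
    rw [compat_act_const, ReductionData.ρ_const, ReductionData.ρ_const,
      map_eq_zero_iff (algebraMap k E) (algebraMap k E).injective,
      map_eq_zero_iff (algebraMap k E) (algebraMap k E).injective] at h1
    exact h1)
  -- on the image of `ρ`
  obtain ⟨er, her⟩ := exists_induced_equiv S.ρ.rangeRestrict S.ρ.rangeRestrict_surjective
    (compatActEquiv hδ) (fun b => by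
      have h1 := compat_ρ_act_eq_zero_iff hδ b
      rw [Subtype.ext_iff, Subtype.ext_iff]
      exact h1)
  have : IsFractionRing S.ρ.range E := by
    refine IsFractionRing.of_field _ _ fun e => ?_
    obtain ⟨x, y, hy, hxy⟩ := S.frac e
    refine ⟨⟨S.ρ x, x, rfl⟩, ⟨S.ρ y, y, rfl⟩, ?_⟩
    change e = S.ρ x / S.ρ y
    rw [← hxy, mul_div_cancel_right₀ _ hy]
  let ee : E ≃+* E := IsFractionRing.ringEquivOfRingEquiv er
  have hee : ∀ b : S.B, ee (S.ρ b) = S.ρ (hδ.act b) := by
    intro b
    have h1 : S.ρ b = algebraMap S.ρ.range E (S.ρ.rangeRestrict b) := rfl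
    rw [h1, IsFractionRing.ringEquivOfRingEquiv_algebraMap, her]
    rfl
  refine ⟨⟨(ee, eb), ?_⟩, hee, heb⟩
  rw [SemilinearAut.mem_iff]
  intro c
  obtain ⟨a, rfl⟩ := S.π_surj c
  change ee (algebraMap k E (S.π a)) = algebraMap k E (eb (S.π a))
  rw [heb, ← ReductionData.ρ_const, hee, compat_act_const, ReductionData.ρ_const]

variable [IsAlgClosed K] [IsAlgClosed k] [H94.FunField K F] [H94.FunField k E]

/-- compatibility of the reduction of places -/
theorem compat_r_bar {δ : SemilinearAut K F} (hδ : Compat S δ) {β : SemilinearAut k E}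
    (hβ : ∀ b : S.B, β • S.ρ b = S.ρ (hδ.act b)) (P : Place K F) : S.r (δ • P) = β • S.r P := by
  set n : ℤ := max S.c 0 + 1 with hn
  have hn1 : S.c < n := by have := le_max_left S.c 0; omega
  have hn0 : 0 < n := by have := le_max_right S.c 0; omega
  have hd : ∀ P : Place K F, Divisor.degree (Finsupp.single P n) = n := fun P => by
    rw [Divisor.degree_single, H94.deg_eq_one]; simp
  have hd' : ∀ P : Place k E, Divisor.degree (Finsupp.single P n) = n := fun P => by
    rw [Divisor.degree_single, H94.deg_eq_one]; simp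
  have h1 := (S.isRed (Finsupp.single P n) (by rw [hd]; exact hn1)).2
  have h2 := (S.isRed (Finsupp.single (δ • P) n) (by rw [hd]; exact hn1)).2
  rw [Finsupp.mapDomain_single] at h1 h2
  -- `red (δ V) = β red V`
  have h3 : ∀ e : E, e ∈ S.red (riemannRochSpace (Finsupp.single (δ • P) n)) ↔
      β⁻¹ • e ∈ S.red (riemannRochSpace (Finsupp.single P n)) := by
    intro e
    constructor
    · rintro ⟨x, hx, rfl⟩
      refine ⟨hδ.inv.act x, ?_, ?_⟩
      · rw [← smul_mem_L_iff δ, Compat.coe_act, smul_inv_smul, SemilinearAut.smul_single]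
        exact hx
      · rw [eq_inv_smul_iff, hβ]
        congr 1
        apply Subtype.ext
        rw [Compat.coe_act, Compat.coe_act, smul_inv_smul]
    · rintro ⟨x, hx, hxe⟩
      refine ⟨hδ.act x, ?_, ?_⟩
      · rw [Compat.coe_act, ← SemilinearAut.smul_single, smul_mem_L_iff]
        exact hx
      · rw [← hβ, hxe, smul_inv_smul]
  refine (Finsupp.single_left_inj (b := n) (by omega)).mp ?_
  refine H40.eq_of_L_eq S.riemE H94.deg_eq_one (by rw [hd']; exact hn1) (by rw [hd']; exact hn1) ?_
  ext e
  rw [← h2, h3, h1, ← smul_mem_L_iff β, smul_inv_smul, SemilinearAut.smul_single]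

end Fermat.Agent.H19
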