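import Mathlib
import Fermat.Agent.H17Lay
import Fermat.Agent.H19Bar
import Fermat.Agent.H18Res

/-!
# MZ-J6: lifting sections compatibly with inertia and Frobenius (helper17)
-/

set_option autoImplicit false
set_option linter.unusedSectionVars false

noncomputable section

open AlgebraicCurve

namespace Fermat.Agent.H17

open Fermat.Agent.H40 Fermat.Agent.H19 Fermat.Agent.H23 GoodRed

variable {K F k E : Type*} [Field K] [Field F] [Algebra K F] [Field k] [Field E] [Algebra k E]

/-- `φ` is a `q`-Frobenius, `β` the induced automorphism of the reduction -/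
structure FrobData (S : GoodRed K F k E) (Γ : Subgroup (SemilinearAut K F))
    (φ : SemilinearAut K F) (β : SemilinearAut k E) (q : ℕ) : Prop where
  compat : Compat S φ
  bar : ∀ b : S.B, β • S.ρ b = S.ρ (compat.act b)
  norm : ∀ γ ∈ Γ, φ⁻¹ * γ * φ ∈ Γ
  one_lt : 1 < q
  zero : (q : k) = 0
  frob : ∀ c : k, SemilinearAut.baseAut β c = c ^ q
  teich : ∀ M : ℕ, 0 < M → ∀ c : k, c ^ q ^ M = c → ∃ a : S.A,
    (∀ γ ∈ Γ, SemilinearAut.baseAut γ (a : K) = a) ∧
      SemilinearAut.baseAut (φ ^ M) (a : K) = a ∧ S.π a = c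
  per : ∀ f : F, ∃ M, 0 < M ∧ φ ^ M • f = f

variable {S : GoodRed K F k E} {Γ : Subgroup (SemilinearAut K F)}

section Lift

variable (I : InertiaAction S Γ)
variable [IsAlgClosed K] [IsAlgClosed k] [H94.FunField K F] [H94.FunField k E]

include I

theorem exists_fixed_lift {D : Divisor K F} (hDΓ : ∀ γ ∈ Γ, γ • D = D)
    (hD : S.c < Divisor.degree D) {zb : E}
    (hzb : zb ∈ riemannRochSpace (Finsupp.mapDomain S.r D)) :
    ∃ z : S.B, (z : F) ∈ riemannRochSpace D ∧ (∀ γ ∈ Γ, γ • (z : F) = z) ∧ S.ρ z = zb := by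
  classical
  have h1 := (S.isRed D hD).2
  obtain ⟨m, b, hbΓ, hbV, hbli⟩ := I.exists_basis_fixed (riemannRochSpace D)
    (S.riemF _ hD.le).1 (fun γ hγ f hf => by
      rw [← smul_mem_L_iff γ, hDΓ γ hγ] at hf
      exact hf)
  rw [← h1, S.red_eq_span hbli hbV] at hzb
  obtain ⟨c, hc⟩ := (Submodule.mem_span_range_iff_exists_fun k).mp hzb
  choose a haΓ haπ using fun i => I.exists_const (c i)
  refine ⟨∑ i, S.const (a i) * b i, ?_, ?_, ?_⟩
  · rw [show ((∑ i, S.const (a i) * b i : S.B) : F) =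
      ∑ i, ((S.const (a i) * b i : S.B) : F) from map_sum S.B.subtype _ _]
    refine Submodule.sum_mem _ fun i _ => ?_
    rw [Subring.coe_mul, ReductionData.coe_const, ← Algebra.smul_def]
    apply Submodule.smul_mem
    rw [← hbV]
    exact Submodule.subset_span ⟨i, rfl⟩
  · intro γ hγ
    rw [show ((∑ i, S.const (a i) * b i : S.B) : F) =
      ∑ i, ((S.const (a i) * b i : S.B) : F) from map_sum S.B.subtype _ _, Finset.smul_sum]
    refine Finset.sum_congr rfl fun i _ => ?_
    rw [Subring.coe_mul, ReductionData.coe_const, smul_mul', hbΓ i γ hγ,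
      SemilinearAut.smul_algebraMap, haΓ i γ hγ]
  · rw [map_sum, ← hc]
    refine Finset.sum_congr rfl fun i _ => ?_
    rw [map_mul, ReductionData.ρ_const, haπ, Algebra.smul_def]

end Lift

section Frob

variable {φ : SemilinearAut K F} {β : SemilinearAut k E} {q : ℕ}

theorem exists_trace_one [IsAlgClosed k] (hq0 : (q : k) = 0) (hq : 1 < q) {M : ℕ} (hM : 0 < M) :
    ∃ c : k, ∑ i ∈ Finset.range M, c ^ q ^ i = 1 := by
  set p : Polynomial k := ∑ i ∈ Finset.range M, Polynomial.X ^ q ^ i - Polynomial.C 1 with hp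
  have hder : Polynomial.derivative p = 1 := by
    rw [hp, Polynomial.derivative_sub, Polynomial.derivative_C, sub_zero,
      Polynomial.derivative_sum]
    rw [Finset.sum_eq_single_of_mem 0 (Finset.mem_range.mpr hM)]
    · simp
    · intro i _ hi
      rw [Polynomial.derivative_X_pow]
      have : ((q ^ i : ℕ) : k) = 0 := by
        push_cast
        rw [hq0, zero_pow hi]
      rw [this, map_zero, zero_mul]
  have hdeg : p.degree ≠ 0 := by
    intro h
    rw [Polynomial.eq_C_of_degree_eq_zero h, Polynomial.derivative_C] at hder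
    exact zero_ne_one hder
  obtain ⟨c, hc⟩ := IsAlgClosed.exists_root p hdeg
  refine ⟨c, ?_⟩
  rw [Polynomial.IsRoot.def, hp, Polynomial.eval_sub, Polynomial.eval_C,
    Polynomial.eval_finsetSum] at hc
  simp only [Polynomial.eval_pow, Polynomial.eval_X] at hc
  exact sub_eq_zero.mp hc

variable (Φ : FrobData S Γ φ β q)
include Φ

theorem FrobData.frob_pow (c : k) (i : ℕ) : SemilinearAut.baseAut (β ^ i) c = c ^ q ^ i := by
  induction i with
  | zero => simp
  | succ i ih =>
    rw [pow_succ, SemilinearAut.baseAut_mul, RingAut.mul_apply, Φ.frob, map_pow, ih, ← pow_mul,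
      pow_succ]

theorem FrobData.smul_add_pow (c d : k) : (c + d) ^ q = c ^ q + d ^ q := by
  rw [← Φ.frob, ← Φ.frob, ← Φ.frob, map_add]

theorem FrobData.pow_eq_of_trace {M : ℕ} {c : k}
    (hc : ∑ i ∈ Finset.range M, c ^ q ^ i = 1) : c ^ q ^ M = c := by
  have h1 : SemilinearAut.baseAut β (∑ i ∈ Finset.range M, c ^ q ^ i) = 1 := by rw [hc, map_one]
  rw [map_sum] at h1
  have h2 : ∀ i ∈ Finset.range M, SemilinearAut.baseAut β (c ^ q ^ i) = c ^ q ^ (i + 1) := by
    intro i _
    rw [Φ.frob, ← pow_mul, pow_succ]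
  rw [Finset.sum_congr rfl h2] at h1
  have h3 := Finset.sum_range_succ' (fun i => c ^ q ^ i) M
  have h4 := Finset.sum_range_succ (fun i => c ^ q ^ i) M
  rw [h3, h1, hc] at h4
  simp only [pow_zero, pow_one] at h4
  exact (add_left_cancel h4).symm

theorem FrobData.exists_pow_act (b : S.B) (i : ℕ) :
    ∃ b' : S.B, (b' : F) = φ ^ i • (b : F) ∧ S.ρ b' = β ^ i • S.ρ b := by
  induction i with
  | zero => exact ⟨b, by rw [pow_zero, one_smul], by rw [pow_zero, one_smul]⟩
  | succ i ih =>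
    obtain ⟨b', h1, h2⟩ := ih
    refine ⟨Φ.compat.act b', ?_, ?_⟩
    · rw [Compat.coe_act, h1, pow_succ', mul_smul]
    · rw [← Φ.bar, h2, pow_succ', mul_smul]

theorem FrobData.norm_pow {γ : SemilinearAut K F} (hγ : γ ∈ Γ) (i : ℕ) :
    (φ ^ i)⁻¹ * γ * φ ^ i ∈ Γ := by
  induction i with
  | zero => simpa using hγ
  | succ i ih =>
    have h1 := Φ.norm _ ih
    have h2 : (φ ^ (i + 1))⁻¹ * γ * φ ^ (i + 1) = φ⁻¹ * ((φ ^ i)⁻¹ * γ * φ ^ i) * φ := by
      rw [pow_succ, mul_inv_rev]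
      group
    rw [h2]
    exact h1

/-- anything fixed by inertia stays fixed after applying powers of Frobenius -/
theorem FrobData.smul_pow_smul {X : Type*} [MulAction (SemilinearAut K F) X] {x : X}
    (hx : ∀ γ ∈ Γ, γ • x = x) (i : ℕ) {γ : SemilinearAut K F} (hγ : γ ∈ Γ) :
    γ • φ ^ i • x = φ ^ i • x := by
  have h1 := hx _ (Φ.norm_pow hγ i)
  rw [mul_smul, mul_smul, inv_smul_eq_iff] at h1
  exact h1

variable (I : InertiaAction S Γ)
variable [IsAlgClosed K] [IsAlgClosed k] [H94.FunField K F] [H94.FunField k E]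
include I

/-- **lifting sections compatibly with inertia and Frobenius** -/
theorem FrobData.exists_lift {D : Divisor K F} (hDΓ : ∀ γ ∈ Γ, γ • D = D) (hDφ : φ • D = D)
    (hD : S.c < Divisor.degree D) {zb : E}
    (hzb : zb ∈ riemannRochSpace (Finsupp.mapDomain S.r D)) (hβ : β • zb = zb) :
    ∃ z : S.B, (z : F) ∈ riemannRochSpace D ∧ (∀ γ ∈ Γ, γ • (z : F) = z) ∧
      φ • (z : F) = z ∧ S.ρ z = zb := by
  classical
  obtain ⟨z₀, hz₀D, hz₀Γ, hz₀ρ⟩ := exists_fixed_lift I hDΓ hD hzb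
  obtain ⟨M, hM, hz₀M⟩ := Φ.per (z₀ : F)
  obtain ⟨c, hc⟩ := exists_trace_one (k := k) Φ.zero Φ.one_lt hM
  obtain ⟨a, haΓ, haM, haπ⟩ := Φ.teich M hM c (Φ.pow_eq_of_trace hc)
  choose b hb1 hb2 using Φ.exists_pow_act (S.const a * z₀)
  have hcoe : ((∑ i ∈ Finset.range M, b i : S.B) : F) =
      ∑ i ∈ Finset.range M, φ ^ i • (algebraMap K F a * (z₀ : F)) := by
    rw [show ((∑ i ∈ Finset.range M, b i : S.B) : F) = ∑ i ∈ Finset.range M, ((b i : S.B) : F) from
      map_sum S.B.subtype _ _]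
    refine Finset.sum_congr rfl fun i _ => ?_
    rw [hb1, Subring.coe_mul, ReductionData.coe_const]
  have haz₀ : ∀ γ ∈ Γ, γ • (algebraMap K F a * (z₀ : F)) = algebraMap K F a * (z₀ : F) := by
    intro γ hγ
    rw [smul_mul', SemilinearAut.smul_algebraMap, haΓ γ hγ, hz₀Γ γ hγ]
  refine ⟨∑ i ∈ Finset.range M, b i, ?_, ?_, ?_, ?_⟩
  · rw [hcoe]
    refine Submodule.sum_mem _ fun i _ => ?_
    have h1 : algebraMap K F a * (z₀ : F) ∈ riemannRochSpace D := by
      rw [← Algebra.smul_def]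
      exact Submodule.smul_mem _ _ hz₀D
    rw [← smul_mem_L_iff (φ ^ i), pow_smul_eq hDφ i] at h1
    exact h1
  · intro γ hγ
    rw [hcoe, Finset.smul_sum]
    exact Finset.sum_congr rfl fun i _ => Φ.smul_pow_smul haz₀ i hγ
  · rw [hcoe, Finset.smul_sum]
    have h1 : ∀ i ∈ Finset.range M, φ • φ ^ i • (algebraMap K F a * (z₀ : F)) =
        φ ^ (i + 1) • (algebraMap K F a * (z₀ : F)) := by
      intro i _
      rw [pow_succ', mul_smul]
    rw [Finset.sum_congr rfl h1]
    have h3 := Finset.sum_range_succ' (fun i => φ ^ i • (algebraMap K F a * (z₀ : F))) M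
    have h4 := Finset.sum_range_succ (fun i => φ ^ i • (algebraMap K F a * (z₀ : F))) M
    have h5 : φ ^ M • (algebraMap K F a * (z₀ : F)) = algebraMap K F a * (z₀ : F) := by
      rw [smul_mul', SemilinearAut.smul_algebraMap, haM, hz₀M]
    rw [h3, h5, pow_zero, one_smul] at h4
    exact add_right_cancel h4
  · rw [map_sum]
    have h1 : ∀ i ∈ Finset.range M, S.ρ (b i) = algebraMap k E (c ^ q ^ i) * zb := by
      intro i _
      rw [hb2, map_mul, ReductionData.ρ_const, smul_mul', SemilinearAut.smul_algebraMap, haπ,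
        Φ.frob_pow, hz₀ρ, pow_smul_eq hβ i]
    rw [Finset.sum_congr rfl h1, ← Finset.sum_mul, ← map_sum, hc, map_one, one_mul]

end Frob

end Fermat.Agent.H17
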