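import Mathlib
import Fermat.Agent.H17NrmLift
import Fermat.Agent.H38MzRep
import Fermat.Agent.H18Div

/-!
# MZ-J6: elements of the kernel of reduction are norms (helper17), abstract version
-/

set_option autoImplicit false
set_option linter.unusedSectionVars false

noncomputable section

open AlgebraicCurve

namespace Fermat.Agent.H17

open Fermat.Agent.H40 Fermat.Agent.H19 Fermat.Agent.H23 GoodRed

variable {K F k E : Type*} [Field K] [Field F] [Algebra K F] [Field k] [Field E] [Algebra k E]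

section Period

/-- an element of exact degree `m` -/
theorem exists_exact {k : Type*} [Field k] [IsAlgClosed k] {q m : ℕ} (hq : 1 < q)
    (hq0 : (q : k) = 0) (hm : 0 < m) :
    ∃ c : k, ∀ i : ℕ, c ^ q ^ i = c → m ∣ i := by
  have hn : 0 < q ^ m - 1 := by
    have := Nat.one_lt_pow hm.ne' hq
    omega
  have hne : NeZero ((q ^ m - 1 : ℕ) : k) := ⟨by
    rw [Nat.cast_sub (Nat.one_le_pow _ _ (by omega)), Nat.cast_pow, hq0, zero_pow hm.ne',
      Nat.cast_one, zero_sub]
    exact neg_ne_zero.mpr one_ne_zero⟩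
  obtain ⟨c, hc⟩ := IsAlgClosed.exists_root (Polynomial.cyclotomic (q ^ m - 1) k)
    (Polynomial.degree_cyclotomic_pos _ _ hn).ne'
  rw [Polynomial.isRoot_cyclotomic_iff] at hc
  refine ⟨c, fun i hi => ?_⟩
  have hc0 : c ≠ 0 := hc.ne_zero hn.ne'
  have h1 : c ^ (q ^ i - 1) = 1 := by
    have h2 : q ^ i = (q ^ i - 1) + 1 := (Nat.sub_add_cancel (Nat.one_le_pow _ _ (by omega))).symm
    rw [h2, pow_succ] at hi
    exact mul_right_cancel₀ hc0 (by rw [hi, one_mul])
  have h3 := hc.dvd_of_pow_eq_one _ h1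
  have h4 := Nat.pow_sub_one_gcd_pow_sub_one q m i
  rw [Nat.gcd_eq_left h3] at h4
  have h5 : q ^ m = q ^ Nat.gcd m i := by
    have h6 : 0 < q ^ Nat.gcd m i := Nat.pow_pos (by omega)
    have h7 : 0 < q ^ m := Nat.pow_pos (by omega)
    omega
  have h8 := Nat.pow_right_injective hq h5
  exact h8 ▸ Nat.gcd_dvd_right m i

end Period

variable {S : GoodRed K F k E} {Γ : Subgroup (SemilinearAut K F)}
variable {φ : SemilinearAut K F} {β : SemilinearAut k E} {q : ℕ}

theorem ord_neg_eq (v : Place k E) (f : E) : v.ord (-f) = v.ord f := by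
  rcases eq_or_ne f 0 with rfl | hf
  · rw [neg_zero]
  have h1 : -f = algebraMap k E (-1) * f := by rw [map_neg, map_one, neg_one_mul]
  rw [h1, v.ord_mul (by rw [map_neg, map_one]; exact neg_ne_zero.mpr one_ne_zero) hf,
    H40.ord_algebraMap, zero_add]

theorem smul_eq_of_forall_ord {γ : SemilinearAut K F} {f : F} {Δ : Divisor K F}
    (hΔ : ∀ v, Δ v = v.ord f) (hγ : γ • f = f) : γ • Δ = Δ := by
  ext v
  rw [SemilinearAut.divisor_smul_apply, hΔ, hΔ]
  have h1 := SemilinearAut.ord_smul γ (γ⁻¹ • v) f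
  rw [smul_inv_smul, hγ] at h1
  exact h1.symm

variable (Φ : FrobData S Γ φ β q) (I : InertiaAction S Γ)
variable [IsAlgClosed K] [IsAlgClosed k] [H94.FunField K F] [H94.FunField k E]
include Φ I

omit I in
theorem FrobData.r_smul (P : Place K F) : S.r (φ • P) = β • S.r P :=
  compat_r_bar Φ.compat Φ.bar P

omit I in
/-- a place with period divisible by `m` -/
theorem FrobData.exists_place (t : S.B) (ht : φ • (t : F) = t) (htt : Transcendental k (S.ρ t))
    {m : ℕ} (hm : 0 < m) : ∃ Q : Place k E, ∀ i : ℤ, β ^ i • Q = Q → (m : ℤ) ∣ i := by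
  obtain ⟨c, hc⟩ := exists_exact (k := k) Φ.one_lt Φ.zero hm
  have htc : Transcendental k (S.ρ t - algebraMap k E c) := by
    intro h
    apply htt
    have := h.add (isAlgebraic_algebraMap c)
    rwa [sub_add_cancel] at this
  obtain ⟨Q, hQ⟩ := H18.exists_ord_pos htc
  have hβt : β • S.ρ t = S.ρ t := by
    rw [Φ.bar]
    congr 1
    exact Subtype.ext ht
  have key : ∀ i : ℕ, β ^ i • Q = Q → m ∣ i := by
    intro i hi
    apply hc
    by_contra hne
    have h1 : β ^ i • (S.ρ t - algebraMap k E c) = S.ρ t - algebraMap k E (c ^ q ^ i) := by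
      rw [smul_sub, pow_smul_eq hβt, SemilinearAut.smul_algebraMap, Φ.frob_pow]
    have h2 := SemilinearAut.ord_smul (β ^ i) Q (S.ρ t - algebraMap k E c)
    rw [hi, h1] at h2
    have hne1 : S.ρ t - algebraMap k E c ≠ 0 := fun h => by
      rw [h, Q.ord_zero] at hQ; exact lt_irrefl _ hQ
    have hne2 : S.ρ t - algebraMap k E (c ^ q ^ i) ≠ 0 := fun h => by
      rw [h, Q.ord_zero] at h2; omega
    have h3 : (S.ρ t - algebraMap k E c) - (S.ρ t - algebraMap k E (c ^ q ^ i)) =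
        algebraMap k E (c ^ q ^ i - c) := by rw [map_sub]; ring
    have h4 : Q.ord (algebraMap k E (c ^ q ^ i - c)) = 0 := H40.ord_algebraMap Q _
    have h5 : (algebraMap k E (c ^ q ^ i - c)) ≠ 0 :=
      (map_ne_zero_iff _ (algebraMap k E).injective).mpr (sub_ne_zero.mpr hne)
    rw [← h3, sub_eq_add_neg] at h4 h5
    have h6 := H40.ord_add_ge Q h5 (n := 1) (Or.inr (by omega)) (Or.inr (by
      rw [ord_neg_eq]; omega))
    omega
  refine ⟨Q, fun i hi => ?_⟩
  obtain ⟨n, rfl | rfl⟩ := i.eq_nat_or_neg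
  · rw [zpow_natCast] at hi
    exact_mod_cast key n hi
  · rw [zpow_neg, zpow_natCast, inv_smul_eq_iff] at hi
    rw [dvd_neg]
    exact_mod_cast key n hi.symm

omit I in
theorem FrobData.mapDomain_smul (D : Divisor K F) :
    Finsupp.mapDomain S.r (φ • D) = β • Finsupp.mapDomain S.r D := by
  rw [SemilinearAut.divisor_smul_def, SemilinearAut.divisor_smul_def, ← Finsupp.mapDomain_comp,
    ← Finsupp.mapDomain_comp]
  congr 1
  funext P
  exact Φ.r_smul P

omit I in
/-- a function with Frobenius invariant divisor can be scaled to be invariant -/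
theorem FrobData.exists_scale {h : E} (hh0 : h ≠ 0) {D : Divisor k E} (hD : ∀ v, D v = v.ord h)
    (hβ : β • D = D) : ∃ h' : E, h' ≠ 0 ∧ (∀ v, D v = v.ord h') ∧ β • h' = h' := by
  have hβh0 : β • h ≠ 0 := by
    intro h1
    exact hh0 ((smul_eq_zero_iff_eq β).mp h1)
  have hord : ∀ v : Place k E, v.ord (β • h * h⁻¹) = 0 := by
    intro v
    rw [v.ord_mul hβh0 (inv_ne_zero hh0), v.ord_inv]
    have h1 := SemilinearAut.ord_smul β (β⁻¹ • v) h
    rw [smul_inv_smul] at h1
    rw [h1, ← hD, ← hD, ← SemilinearAut.divisor_smul_apply, hβ]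
    ring
  obtain ⟨lam, hlam⟩ := H18.exists_eq_algebraMap_of_forall_ord_eq_zero hord
  have hlam0 : lam ≠ 0 := by
    rintro rfl
    rw [map_zero] at hlam
    exact mul_ne_zero hβh0 (inv_ne_zero hh0) hlam
  have hq1 : 0 < q - 1 := by have := Φ.one_lt; omega
  obtain ⟨μ, hμ⟩ := IsAlgClosed.exists_pow_nat_eq lam⁻¹ hq1
  have hμ0 : μ ≠ 0 := by
    rintro rfl
    rw [zero_pow hq1.ne'] at hμ
    exact inv_ne_zero hlam0 hμ.symm
  have hμ0' : algebraMap k E μ ≠ 0 := (map_ne_zero_iff _ (algebraMap k E).injective).mpr hμ0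
  refine ⟨algebraMap k E μ * h, mul_ne_zero hμ0' hh0, fun v => ?_, ?_⟩
  · rw [v.ord_mul hμ0' hh0, H40.ord_algebraMap, zero_add, hD]
  · have h2 : β • h = algebraMap k E lam * h := by
      rw [← hlam, mul_assoc, inv_mul_cancel₀ hh0, mul_one]
    rw [smul_mul', SemilinearAut.smul_algebraMap, Φ.frob, h2, ← mul_assoc, ← map_mul]
    congr 2
    have h3 : μ ^ q = μ ^ (q - 1) * μ := by
      rw [← pow_succ]
      congr 1
      omega
    rw [h3, hμ, mul_assoc, mul_comm μ lam, ← mul_assoc, inv_mul_cancel₀ hlam0, one_mul]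

/-- **elements of the kernel of reduction are norms** -/
theorem FrobData.exists_norm (t : S.B) (ht : φ • (t : F) = t) (htt : Transcendental k (S.ρ t))
    (hper : ∀ P : Place K F, ∃ M, 0 < M ∧ φ ^ M • P = P) (hPinf : φ • I.Pinf = I.Pinf)
    {x : Pic0 K F} (hx : redPic0 S x = 0) (hxΓ : ∀ γ ∈ Γ, γ • x = x) (hxφ : φ • x = x)
    {m : ℕ} (hm : 0 < m) :
    ∃ y : Pic0 K F, redPic0 S y = 0 ∧ (∀ γ ∈ Γ, γ • y = y) ∧
      x = ∑ j ∈ Finset.range m, φ ^ j • y := by
  classical
  have := S.pdF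
  have hr := Φ.r_smul
  obtain ⟨Dx, rfl, hDx⟩ := H38.Mz.exists_rep I.Pinf x
  have hDxΓ : ∀ γ ∈ Γ, γ • (Dx : Divisor K F) = Dx := fun γ hγ =>
    hDx γ (I.smul_Pinf γ hγ) (hxΓ γ hγ)
  have hDxφ : φ • (Dx : Divisor K F) = Dx := hDx φ hPinf hxφ
  have hDx0 : Divisor.degree (Dx : Divisor K F) = 0 := Dx.2
  rw [redPic0_mk, ← Pic0.mk_zero, eq_comm, Pic0_mk_eq_mk_iff] at hx
  rw [coe_redDegZero, AddSubgroup.coe_zero, sub_zero] at hx
  obtain ⟨h₀, hh₀, hD₀⟩ := hx
  obtain ⟨h, hh0, hh, hβh⟩ := Φ.exists_scale hh₀ hD₀ (by rw [← Φ.mapDomain_smul, hDxφ])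
  -- the auxiliary divisor
  obtain ⟨Q, hQ⟩ := Φ.exists_place t ht htt hm
  obtain ⟨P, hPQ, hPΓ⟩ := exists_fixed_place' I Q
  obtain ⟨e, he, heP⟩ := hper P
  set n : ℕ := (S.c).toNat + 1 with hn
  have hnc : S.c < n := by have := Int.self_le_toNat S.c; push_cast [hn]; omega
  set D₂ : Divisor K F := ∑ i ∈ Finset.range e, Finsupp.single (φ ^ i • P) (n : ℤ) with hD₂
  have hD₂φ : φ • D₂ = D₂ := by
    rw [hD₂, Finset.smul_sum]
    have h1 : ∀ i ∈ Finset.range e, φ • (Finsupp.single (φ ^ i • P) (n : ℤ) : Divisor K F) =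
        Finsupp.single (φ ^ (i + 1) • P) (n : ℤ) := by
      intro i _
      rw [SemilinearAut.smul_single, pow_succ', mul_smul]
    rw [Finset.sum_congr rfl h1]
    have h3 := Finset.sum_range_succ'
      (fun i => (Finsupp.single (φ ^ i • P) (n : ℤ) : Divisor K F)) e
    have h4 := Finset.sum_range_succ
      (fun i => (Finsupp.single (φ ^ i • P) (n : ℤ) : Divisor K F)) e
    rw [h3, heP, pow_zero, one_smul] at h4
    exact add_right_cancel h4
  have hD₂Γ : ∀ γ ∈ Γ, γ • D₂ = D₂ := by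
    intro γ hγ
    rw [hD₂, Finset.smul_sum]
    refine Finset.sum_congr rfl fun i _ => ?_
    rw [SemilinearAut.smul_single, Φ.smul_pow_smul hPΓ i hγ]
  have hD₂deg : Divisor.degree D₂ = e * n := by
    rw [hD₂, map_sum]
    have h1 : ∀ i ∈ Finset.range e,
        Divisor.degree (Finsupp.single (φ ^ i • P) (n : ℤ) : Divisor K F) = n := by
      intro i _
      rw [Divisor.degree_single, H94.deg_eq_one]
      simp
    rw [Finset.sum_congr rfl h1, Finset.sum_const, Finset.card_range, nsmul_eq_mul]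
  have hD₂nn : ∀ P', 0 ≤ D₂ P' := by
    intro P'
    rw [hD₂, Finsupp.finsetSum_apply]
    refine Finset.sum_nonneg fun i _ => ?_
    rw [Finsupp.single_apply]
    split_ifs <;> simp
  have hD₂supp : ∀ P', D₂ P' ≠ 0 → ∃ a : ℤ, S.r P' = β ^ a • Q := by
    intro P' h1
    rw [hD₂, Finsupp.finsetSum_apply] at h1
    obtain ⟨i, -, hi⟩ := Finset.exists_ne_zero_of_sum_ne_zero h1
    rw [Finsupp.single_apply] at hi
    have h2 : φ ^ i • P = P' := by
      by_contra h3
      rw [if_neg h3] at hi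
      exact hi rfl
    exact ⟨i, by rw [← h2, r_pow_smul hr, hPQ, zpow_natCast]⟩
  -- the section
  set D : Divisor K F := D₂ + (Dx : Divisor K F) with hD
  have hDdeg : S.c < Divisor.degree D := by
    rw [hD, map_add, hDx0, add_zero, hD₂deg]
    have h1 : (1 : ℤ) ≤ e := by exact_mod_cast he
    have h2 : (0 : ℤ) ≤ n := Int.natCast_nonneg n
    nlinarith
  have hrD : Finsupp.mapDomain S.r D =
      Finsupp.mapDomain S.r D₂ + Finsupp.mapDomain S.r (Dx : Divisor K F) := by
    rw [hD, Finsupp.mapDomain_add]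
  obtain ⟨z, hzD, hzΓ, hzφ, hzρ⟩ := Φ.exists_lift I (D := D)
    (fun γ hγ => by rw [hD, smul_add, hD₂Γ γ hγ, hDxΓ γ hγ])
    (by rw [hD, smul_add, hD₂φ, hDxφ]) hDdeg (zb := h⁻¹)
    (by
      rw [H40.mem_L (inv_ne_zero hh0)]
      intro v
      rw [v.ord_inv, ← hh v, hrD, Finsupp.add_apply]
      have := H18.mapDomain_apply_nonneg (r := S.r) D₂ v fun P' _ => hD₂nn P'
      omega)
    (by rw [smul_inv'', hβh])
  have hρz : S.ρ z ≠ 0 := by rw [hzρ]; exact inv_ne_zero hh0
  have hz0 := S.ne_zero_of_ρ_ne_zero hρz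
  obtain ⟨Z, hZ, hZdeg⟩ := S.pdF.exists_divisor (z : F) hz0
  set G : Divisor K F := Z + (Dx : Divisor K F) with hG
  have hGφ : φ • G = G := by rw [hG, smul_add, smul_eq_of_forall_ord hZ hzφ, hDxφ]
  have hGΓ : ∀ γ ∈ Γ, γ • G = G := fun γ hγ => by
    rw [hG, smul_add, smul_eq_of_forall_ord hZ (hzΓ γ hγ), hDxΓ γ hγ]
  have hrG : Finsupp.mapDomain S.r G = 0 := by
    ext v
    rw [hG, Finsupp.mapDomain_add, Finsupp.add_apply, S.div_red z hρz Z hZ v, hzρ, v.ord_inv,
      ← hh v, neg_add_cancel, Finsupp.zero_apply]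
  have hGsupp : ∀ P', G P' ≠ 0 → ∃ a : ℤ, S.r P' = β ^ a • Q := by
    intro P' hP'
    by_contra hcon
    have h1 : ∀ P'', S.r P'' = S.r P' → D₂ P'' = 0 := by
      intro P'' h2
      by_contra h3
      exact hcon (h2 ▸ hD₂supp P'' h3)
    have h2 : Finsupp.mapDomain S.r D₂ (S.r P') = 0 := by
      rw [S.mapDomain_apply_eq_sum]
      refine Finset.sum_eq_zero fun v hv => ?_
      rw [Finset.mem_filter] at hv
      exact h1 v hv.2
    have h3 := H18.eq_zero_of_mapDomain_apply_eq_zero (r := S.r) (G + D₂) (S.r P')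
      (fun P'' _ => by
        have := (H40.mem_L hz0).mp hzD P''
        rw [hD, Finsupp.add_apply] at this
        rw [Finsupp.add_apply, hG, Finsupp.add_apply, hZ]
        omega)
      (by rw [Finsupp.mapDomain_add, Finsupp.add_apply, hrG, h2, Finsupp.zero_apply, add_zero])
      P' rfl
    rw [Finsupp.add_apply, h1 P' rfl, add_zero] at h3
    exact hP' h3
  -- the layer
  set W := layer β Q m with hW
  have hrW : Finsupp.mapDomain S.r (resD S.r W G) = 0 := by
    rw [mapDomain_resD, hrG, Finsupp.filter_zero]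
  have hdegW : resD S.r W G ∈ Divisor.degZero (K := K) (F := F) := by
    rw [Divisor.mem_degZero, ← H23.degree_mapDomain S, hrW, map_zero]
  refine ⟨Pic0.mk ⟨resD S.r W G, hdegW⟩, ?_, ?_, ?_⟩
  · rw [redPic0_mk, ← Pic0.mk_zero]
    congr 1
    apply Subtype.ext
    rw [coe_redDegZero]
    exact hrW
  · intro γ hγ
    rw [SemilinearAut.pic0_smul_mk]
    congr 1
    apply Subtype.ext
    rw [SemilinearAut.coe_degZeroSMulHom]
    exact smul_resD_of_fixed (hGΓ γ hγ) (fun P' => H23.r_smul I hγ P') W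
  · have hsum := sum_layers hm hQ hr hGφ hGsupp
    have h1 : ∀ j ∈ Finset.range m, φ ^ j • (Pic0.mk ⟨resD S.r W G, hdegW⟩ : Pic0 K F) =
        Pic0.mk (SemilinearAut.degZeroSMulHom (φ ^ j) ⟨resD S.r W G, hdegW⟩) := fun j _ =>
      SemilinearAut.pic0_smul_mk _ _
    rw [Finset.sum_congr rfl h1, sum_mk, Pic0_mk_eq_mk_iff]
    have h2 : ((∑ j ∈ Finset.range m, SemilinearAut.degZeroSMulHom (φ ^ j)
        (⟨resD S.r W G, hdegW⟩ : Divisor.degZero (K := K) (F := F)) :
        Divisor.degZero (K := K) (F := F)) : Divisor K F) = G := by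
      exact (map_sum (Divisor.degZero (K := K) (F := F)).subtype _ _).trans hsum
    rw [h2, hG, add_sub_cancel_right]
    exact ⟨(z : F), hz0, hZ⟩

end Fermat.Agent.H17
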