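import Fermat.Agent.H17DivRed
import Fermat.Agent.H17NrmMain
import Fermat.Agent.H19Compat

/-!
# MZ-J6: elements of the kernel of reduction are norms (helper17)
-/

set_option autoImplicit false

noncomputable section

open AlgebraicCurve ModularCurve
open scoped Pointwise

namespace Fermat.Agent.H17

open Fermat.Agent.H40 Fermat.Agent.H94 Fermat.Agent.H19 Fermat.Agent.H23

local notation "Qb" => AlgebraicClosure ℚ
local notation "Gq" => AlgebraicClosure ℚ ≃ₐ[ℚ] AlgebraicClosure ℚ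

theorem exists_pow_of_openly {P : Gq → Prop} (hP : H31.Openly P) (σ : Gq) :
    ∃ M : ℕ, 0 < M ∧ P (σ ^ M) := by
  obtain ⟨K', hK', h⟩ := hP
  have : IsGalois ℚ Qb := H63.isGalois_Qb
  have hfin : K'.fixingSubgroup.index ≠ 0 := by
    rw [← IntermediateField.finrank_eq_fixingSubgroup_index]
    exact Module.finrank_pos.ne'
  obtain ⟨n, hn, -, hmem⟩ := Subgroup.exists_pow_mem_of_index_ne_zero hfin σ
  exact ⟨n, hn, h _ fun a ha => (IntermediateField.mem_fixingSubgroup_iff K' _).mp hmem a ha⟩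

theorem isFrobeniusAt_pow {A : ValuationSubring Qb} {σ : Gq} {ℓ : ℕ}
    (hσ : A.IsFrobeniusAt σ ℓ) (s : ℕ) : A.IsFrobeniusAt (σ ^ s) (ℓ ^ s) := by
  obtain ⟨h1, h2⟩ := hσ
  refine ⟨pow_mem h1 s, fun x => ?_⟩
  have h3 : (⟨σ ^ s, pow_mem h1 s⟩ : A.decompositionSubgroup ℚ) = ⟨σ, h1⟩ ^ s := rfl
  rw [h3]
  induction s generalizing x with
  | zero => rw [pow_zero, pow_zero, one_smul, pow_one]
  | succ s ih => rw [pow_succ, mul_smul, h2, ih _ rfl, ← pow_mul, pow_succ']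

theorem frob_apply_pow {A : ValuationSubring Qb} {σ : Gq} {ℓ : ℕ} (hA : A.LiesOverPrime ℓ)
    (hσ : A.IsFrobeniusAt σ ℓ) {n : ℕ} (hn : 0 < n) (hcop : Nat.Coprime ℓ n) {ζ : Qb}
    (hζ : ζ ^ n = 1) (s : ℕ) : (σ ^ s) ζ = ζ ^ ℓ ^ s := by
  induction s with
  | zero => simp
  | succ s ih =>
    rw [pow_succ, AlgEquiv.mul_apply, H31.frobenius_apply_rootOfUnity A hA hcop hn hσ hζ, map_pow,
      ih, ← pow_mul, ← pow_succ]

section

variable {A : ValuationSubring Qb} {N : ℕ} [NeZero N]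
    (hdeg : H42.DegLE Qb (IsLocalRing.ResidueField A) N)

set_option synthInstance.maxHeartbeats 400000 in
set_option maxHeartbeats 1000000 in
theorem exists_frobData {ℓ : ℕ} (hℓ : ℓ.Prime) (hA : A.LiesOverPrime ℓ)
    (S : GoodRed Qb (modularFunctionFieldBar N) (IsLocalRing.ResidueField A)
      (modularFunctionFieldFullC (IsLocalRing.ResidueField A) N))
    (hS : S.toReductionData = H42.modRed hdeg) {σ : Gq} (hσ : A.IsFrobeniusAt σ ℓ) {s : ℕ}
    (hs : 0 < s) :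
    ∃ β, FrobData S (inertiaSL A N) (arithmeticGalois (modularFunctionFieldFull N) (σ ^ s)) β
      (ℓ ^ s) := by
  haveI : Fact ℓ.Prime := ⟨hℓ⟩
  have hdec : (σ ^ s) • A = A := (isFrobeniusAt_pow hσ s).mem_decompositionSubgroup
  have halg : Algebra.IsAlgebraic ℚ Qb := AlgebraicClosure.isAlgebraic ℚ
  have hchar := H60.charP_residue hℓ hA
  obtain ⟨R, g, c, r, pdF, pdE, riemF, riemE, isRed, div_red⟩ := S
  simp only at hS
  subst hS
  obtain ⟨β, hβ1, hβ2⟩ := compat_exists_bar (compat_dec hdeg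
    (S := ⟨H42.modRed hdeg, g, c, r, pdF, pdE, riemF, riemE, isRed, div_red⟩) rfl hdec)
  refine ⟨β, compat_dec hdeg rfl hdec, hβ1, ?_, Nat.one_lt_pow hs.ne' hℓ.one_lt, ?_, ?_, ?_, ?_⟩
  · rintro _ ⟨τ, hτ, rfl⟩
    refine ⟨(σ ^ s)⁻¹ * τ * σ ^ s, inertia_conj hdec hτ, ?_⟩
    rw [map_mul, map_mul, map_inv]
  · rw [CharP.cast_eq_zero_iff (IsLocalRing.ResidueField A) ℓ]
    exact dvd_pow_self ℓ hs.ne'
  · intro c
    obtain ⟨a, rfl⟩ := IsLocalRing.residue_surjective c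
    rw [← (isFrobeniusAt_pow hσ s).smul_residue_eq, ← IsLocalRing.ResidueField.residue_smul]
    exact hβ2 a
  · intro M hM c hc
    rcases eq_or_ne c 0 with rfl | hc0
    · exact ⟨0, fun γ _ => map_zero _, map_zero _, map_zero _⟩
    have hqM : 1 < (ℓ ^ s) ^ M := Nat.one_lt_pow hM.ne' (Nat.one_lt_pow hs.ne' hℓ.one_lt)
    have hn : 0 < (ℓ ^ s) ^ M - 1 := by omega
    have hcn : c ^ ((ℓ ^ s) ^ M - 1) = 1 := by
      have h2 : (ℓ ^ s) ^ M = ((ℓ ^ s) ^ M - 1) + 1 := by omega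
      rw [h2, pow_succ] at hc
      exact mul_right_cancel₀ hc0 (by rw [hc, one_mul])
    have hcop : Nat.Coprime ℓ ((ℓ ^ s) ^ M - 1) := by
      rw [hℓ.coprime_iff_not_dvd]
      intro hd
      have h2 : ℓ ∣ (ℓ ^ s) ^ M := dvd_pow (dvd_pow_self ℓ hs.ne') hM.ne'
      have h4 := (Nat.dvd_sub_iff_right (by omega) h2).mp hd
      exact hℓ.one_lt.ne' (Nat.dvd_one.mp h4)
    obtain ⟨ζ, hζ, hζx⟩ := H1.exists_lift_rootOfUnity A (IsLocalRing.residue A) hn c hcn
    refine ⟨ζ, ?_, ?_, hζx⟩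
    · rintro _ ⟨τ, hτ, rfl⟩
      exact H31.inertia_apply_rootOfUnity A hA hcop hn hτ (congrArg Subtype.val hζ)
    · rw [← map_pow, ← pow_mul]
      have h5 := frob_apply_pow hA hσ hn hcop (congrArg Subtype.val hζ) (s * M)
      have h6 : (ζ : Qb) ^ ℓ ^ (s * M) = ζ := by
        rw [pow_mul]
        have h2 : (ℓ ^ s) ^ M = ((ℓ ^ s) ^ M - 1) + 1 := by omega
        have h7 : (ζ : Qb) ^ ((ℓ ^ s) ^ M - 1) = 1 := congrArg Subtype.val hζ
        rw [h2, pow_succ, h7, one_mul]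
      rw [h6] at h5
      exact h5
  · intro f
    obtain ⟨M, hM, h⟩ := exists_pow_of_openly (H31.openly_smul_fun f) (σ ^ s)
    exact ⟨M, hM, by rw [← map_pow]; exact h⟩

/-- the function `j` in the ring of integral functions -/
theorem exists_j (S : GoodRed Qb (modularFunctionFieldBar N) (IsLocalRing.ResidueField A)
      (modularFunctionFieldFullC (IsLocalRing.ResidueField A) N))
    (hS : S.toReductionData = H42.modRed hdeg) :
    ∃ t : S.B, (∀ σ : Gq, arithmeticGalois (modularFunctionFieldFull N) σ •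
        (t : modularFunctionFieldBar N) = t) ∧
      Transcendental (IsLocalRing.ResidueField A) (S.ρ t) := by
  have hmem : coeffMap A.subtype (jqModC A) ∈ modularFunctionFieldBar N := by
    rw [coeffMap_jqModC]
    have h := H42.laurentBaseChange_full (L := Qb) N
    show jqModC Qb ∈ laurentBaseChange Qb (modularFunctionFieldFull N)
    rw [h]
    exact jqModC_mem_full _ N
  have hmemk : coeffMap (IsLocalRing.residue A) (jqModC A) ∈
      modularFunctionFieldFullC (IsLocalRing.ResidueField A) N := by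
    rw [coeffMap_jqModC]
    exact jqModC_mem_full _ N
  obtain ⟨R, g, c, r, pdF, pdE, riemF, riemE, isRed, div_red⟩ := S
  simp only at hS
  subst hS
  have hB : (⟨coeffMap A.subtype (jqModC A), hmem⟩ : modularFunctionFieldBar N) ∈
      (H42.modRed hdeg).B := by
    rw [mem_modRed_B]
    refine ⟨jqModC A, 1, by rw [map_one]; exact one_mem _, by rw [map_one]; exact one_ne_zero, ?_⟩
    rw [map_one, mul_one]
  refine ⟨⟨_, hB⟩, fun σ => ?_, ?_⟩
  · apply Subtype.ext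
    rw [coe_arithmeticGalois_smul]
    show coeffMap (σ : Qb →+* Qb) (coeffMap A.subtype (jqModC A)) =
      coeffMap A.subtype (jqModC A)
    rw [coeffMap_jqModC, coeffMap_jqModC]
  · have h1 := H42.modReductionData_ρ A (IsLocalRing.residue A) N
      IsLocalRing.residue_surjective hdeg (jqModC A) hmem hmemk hB
    have h2 := H42.transcendental_jFull (IsLocalRing.ResidueField A) N
    have h3 : (⟨coeffMap (IsLocalRing.residue A) (jqModC A), hmemk⟩ :
      modularFunctionFieldFullC (IsLocalRing.ResidueField A) N) =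
      ⟨jqModC (IsLocalRing.ResidueField A), jqModC_mem_full _ N⟩ :=
      Subtype.ext (coeffMap_jqModC _)
    rw [h3] at h1
    show Transcendental _ ((H42.modRed hdeg).ρ _)
    rw [show (H42.modRed hdeg).ρ ⟨⟨coeffMap A.subtype (jqModC A), hmem⟩, hB⟩ = _ from h1]
    exact h2

end

/-- **MZ-J6**: inertia invariant elements of the kernel of reduction are norms from unramified
extensions. -/
theorem norm_kernel (N : ℕ) [NeZero N] {ℓ : ℕ} (hℓ : ℓ.Prime) (hℓN : ¬ ℓ ∣ N)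
    (A : ValuationSubring Qb) (hA : A.LiesOverPrime ℓ) {σ₀ : Gq} (hσ₀ : A.IsFrobeniusAt σ₀ ℓ)
    {x : JZero N} (hx : x ∈ H15.KJ N A) (hxI : ∀ τ ∈ A.inertiaSubgroupIn ℚ, τ • x = x)
    {m : ℕ} (hm : 0 < m) {s₀ : ℕ} (hs₀ : 0 < s₀) :
    ∃ s : ℕ, 0 < s ∧ s₀ ∣ s ∧ ∃ y ∈ H15.KJ N A, (∀ τ ∈ A.inertiaSubgroupIn ℚ, τ • y = y) ∧
      x = ∑ j ∈ Finset.range m, σ₀ ^ (s * j) • y := by
  have halg : Algebra.IsAlgebraic ℚ Qb := AlgebraicClosure.isAlgebraic ℚ
  have hff := H42.funField_right (L := Qb) N (H42.degLE_place hℓ hA hℓN)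
  obtain ⟨T⟩ := exists_setup N hℓ hℓN A hA
  obtain ⟨n, hn, hnx⟩ := exists_pow_of_openly (H31.openly_smul_pic0 x) (σ₀ ^ s₀)
  rw [← pow_mul] at hnx
  have hs : 0 < s₀ * n := Nat.mul_pos hs₀ hn
  obtain ⟨β, Φ⟩ := exists_frobData _ hℓ hA T.S T.hS hσ₀ hs
  obtain ⟨t, ht1, ht2⟩ := exists_j _ T.S T.hS
  rw [H15.KJ, AddMonoidHom.mem_ker, ← T.red] at hx
  have hxΓ : ∀ γ ∈ inertiaSL A N, γ • x = x := by
    rintro _ ⟨τ, hτ, rfl⟩
    exact hxI τ hτ
  obtain ⟨y, hy1, hy2, hy3⟩ := Φ.exists_norm T.I t (ht1 _) ht2 (fun P => by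
      obtain ⟨M, hM, h⟩ := exists_pow_of_openly (H31.openly_smul_place P) (σ₀ ^ (s₀ * n))
      exact ⟨M, hM, by rw [← map_pow]; exact h⟩) (T.Pinf _) hx hxΓ hnx hm
  refine ⟨s₀ * n, hs, dvd_mul_right _ _, y, ?_, fun τ hτ => hy2 _ (mem_inertiaSL hτ), ?_⟩
  · rw [H15.KJ, AddMonoidHom.mem_ker, ← T.red, hy1]
  · rw [hy3]
    refine Finset.sum_congr rfl fun j _ => ?_
    rw [galois_smul_pic0_def, ← map_pow, ← pow_mul]

end Fermat.Agent.H17
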