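import Fermat.Agent.H19Main
import Fermat.Agent.H18S18
import Fermat.Agent.H17OrbMain
import Fermat.Agent.H31Inputs
import Fermat.Agent.H15Defs

/-!
# The reduction of `J₀(N)` as a `GoodRed` (helper17)
-/

set_option autoImplicit false

noncomputable section

open AlgebraicCurve ModularCurve

namespace Fermat.Agent.H17

open Fermat.Agent.H40 Fermat.Agent.H94 Fermat.Agent.H19 Fermat.Agent.H23

local notation "Qb" => AlgebraicClosure ℚ
local notation "Gq" => AlgebraicClosure ℚ ≃ₐ[ℚ] AlgebraicClosure ℚ

set_option synthInstance.maxHeartbeats 400000 in
set_option maxHeartbeats 4000000 in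
/-- good reduction data whose reduction of places is the one of the Prelude -/
theorem exists_goodRed_modL {A : ValuationSubring Qb} {N : ℕ} [NeZero N]
    (hdeg : H42.DegLE Qb (IsLocalRing.ResidueField A) N) (hg : H42.GenusEq N A)
    (h : ReductionInputsModL A N) :
    ∃ S : GoodRed Qb (modularFunctionFieldBar N) (IsLocalRing.ResidueField A)
      (modularFunctionFieldFullC (IsLocalRing.ResidueField A) N),
      S.toReductionData = H42.modRed hdeg ∧ S.r = placeReductionModL h := by
  have := H42.funField_left (k := IsLocalRing.ResidueField A) N hdeg
  have := H42.funField_right (L := Qb) N hdeg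
  set g := genusFF Qb (modularFunctionFieldBar N) with hgdef
  have hF : H40.RiemannFor Qb (modularFunctionFieldBar N) g (2 * g) :=
    H42.riemannFor _ _ (by omega)
  have hE : H40.RiemannFor (IsLocalRing.ResidueField A)
      (modularFunctionFieldFullC (IsLocalRing.ResidueField A) N) g (2 * g) := by
    have hg' : g = genusFF (IsLocalRing.ResidueField A)
      (modularFunctionFieldFullC (IsLocalRing.ResidueField A) N) := hg
    have h1 := H42.riemannFor (IsLocalRing.ResidueField A)
      (modularFunctionFieldFullC (IsLocalRing.ResidueField A) N) (c := 2 * g) (by omega)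
    rwa [← hg'] at h1
  have : HasPrincipalDivisors Qb (modularFunctionFieldBar N) := H18.hasPrincipalDivisors _ _
  have : HasPrincipalDivisors (IsLocalRing.ResidueField A)
    (modularFunctionFieldFullC (IsLocalRing.ResidueField A) N) := H18.hasPrincipalDivisors _ _
  have hcompat := H18.placeCompat_of_isPlaceReductionAlong A (IsLocalRing.residue A) N
    IsLocalRing.residue_surjective hdeg (isPlaceReductionModL_placeReductionModL h)
  have hdF : ∀ v : Place Qb (modularFunctionFieldBar N), v.deg = 1 := H94.deg_eq_one
  have hdE : ∀ v : Place (IsLocalRing.ResidueField A)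
    (modularFunctionFieldFullC (IsLocalRing.ResidueField A) N), v.deg = 1 := H94.deg_eq_one
  exact ⟨{ toReductionData := H42.modRed hdeg
           g := g
           c := 2 * g
           r := placeReductionModL h
           pdF := inferInstance
           pdE := inferInstance
           riemF := hF
           riemE := hE
           isRed := fun D hD =>
            ⟨H18.degree_mapDomain hdF hdE D, H18.red_eq hF hE hdF hdE hcompat hD.le⟩
           div_red := hcompat }, rfl, rfl⟩

theorem redPic0_eq {A : ValuationSubring Qb} {N : ℕ} [NeZero N]
    (S : GoodRed Qb (modularFunctionFieldBar N) (IsLocalRing.ResidueField A)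
      (modularFunctionFieldFullC (IsLocalRing.ResidueField A) N))
    (h : ReductionInputsModL A N) (hr : S.r = placeReductionModL h)
    [H94.FunField (IsLocalRing.ResidueField A)
      (modularFunctionFieldFullC (IsLocalRing.ResidueField A) N)]
    (x : JZero N) :
    redPic0 S x = reductionModL A N x := by
  obtain ⟨D, rfl⟩ := Pic0.mk_surjective x
  rw [redPic0_mk, reductionModL_mk h]
  congr 1
  apply Subtype.ext
  rw [coe_redDegZero, coe_reductionDegZeroAlong, hr]

end Fermat.Agent.H17
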