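import Mathlib

/-!
# S47, block (C): controlled kernels on a `G`-space (helper17, C-OPS)

`G` acts on `X` preserving the measure `μ`.  A coarse structure `𝒞` is a family of measurable subsets
of `X × X` (the bands) with rows of uniformly bounded measure, closed under composition, union and
transposition, and such that `{g | (p, g q) ∈ S}` is finite for all `p q`.
A controlled kernel (`CK 𝒞 k`) is a bounded measurable `G`-invariant kernel supported in a band.

* `comp k l p r = ∫ k p q * l q r`, `act k φ p = ∫ k p q * φ q`;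
* `LB 𝒞 φ`: measurable and locally bounded; `act_comp`;
* `AK G k p q = ∑' g, k p (g • q)`: the automorphic kernel.
-/

set_option autoImplicit false
set_option linter.unusedSectionVars false

noncomputable section

open MeasureTheory Set
open scoped ENNReal ComplexConjugate

namespace Fermat.Agent.H17S

/-- A coarse structure for the action of `G` on `(X, μ)`. -/
structure Coarse (G : Type*) {X : Type*} [Group G] [MulAction G X] [MeasurableSpace X]
    (μ : Measure X) where
  /-- the bands -/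
  C : Set (X × X) → Prop
  meas : ∀ {S}, C S → MeasurableSet S
  vol : ∀ {S}, C S → ∃ V : ℝ, 0 ≤ V ∧ ∀ p, μ {q | (p, q) ∈ S} ≤ ENNReal.ofReal V
  union : ∀ {S T}, C S → C T → ∃ U, C U ∧ S ⊆ U ∧ T ⊆ U
  comp : ∀ {S T}, C S → C T → ∃ U, C U ∧ ∀ p q r, (p, q) ∈ S → (q, r) ∈ T → (p, r) ∈ U
  symm : ∀ {S}, C S → ∃ U, C U ∧ ∀ p q, (p, q) ∈ S → (q, p) ∈ U
  nonempty : ∃ S, C S
  fin : ∀ {S}, C S → ∀ p q, {g : G | (p, g • q) ∈ S}.Finite

variable {G X : Type*} [Group G] [MulAction G X] [MeasurableSpace X]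

/-- **Controlled kernels.** -/
structure CK {μ : Measure X} (𝒞 : Coarse G μ) (k : X → X → ℂ) : Prop where
  meas : Measurable (Function.uncurry k)
  inv : ∀ (g : G) p q, k (g • p) (g • q) = k p q
  bdd : ∃ B : ℝ, 0 ≤ B ∧ ∀ p q, ‖k p q‖ ≤ B
  ctl : ∃ S, 𝒞.C S ∧ ∀ p q, k p q ≠ 0 → (p, q) ∈ S

/-- Locally bounded measurable functions. -/
structure LB {μ : Measure X} (𝒞 : Coarse G μ) (φ : X → ℂ) : Prop where
  meas : Measurable φ
  lb : ∀ S, 𝒞.C S → ∀ p, ∃ B : ℝ, 0 ≤ B ∧ ∀ q, (p, q) ∈ S → ‖φ q‖ ≤ B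

/-- composition of kernels -/
def comp (μ : Measure X) (k l : X → X → ℂ) (p r : X) : ℂ := ∫ q, k p q * l q r ∂μ

/-- action of a kernel on functions -/
def act (μ : Measure X) (k : X → X → ℂ) (φ : X → ℂ) (p : X) : ℂ := ∫ q, k p q * φ q ∂μ

/-- the automorphic kernel -/
def AK (G : Type*) {X : Type*} [Group G] [MulAction G X] (k : X → X → ℂ) (p q : X) : ℂ :=
  ∑' g : G, k p (g • q)

theorem comp_eq_act (μ : Measure X) (k l : X → X → ℂ) (p r : X) :
    comp μ k l p r = act μ k (fun q => l q r) p := rfl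

section Basic

variable {μ : Measure X} {𝒞 : Coarse G μ}

theorem measurableSet_row {S : Set (X × X)} (hS : 𝒞.C S) (p : X) :
    MeasurableSet {q | (p, q) ∈ S} :=
  (𝒞.meas hS).preimage (measurable_const.prodMk measurable_id)

theorem integrable_of_row {S : Set (X × X)} (hS : 𝒞.C S) {p : X} {f : X → ℂ} (hf : Measurable f)
    {B : ℝ} (hB : ∀ q, (p, q) ∈ S → ‖f q‖ ≤ B) (hs : ∀ q, f q ≠ 0 → (p, q) ∈ S) :
    Integrable f μ := by
  obtain ⟨V, hV, hVS⟩ := 𝒞.vol hS
  have h1 : f = ({q | (p, q) ∈ S} : Set X).indicator f := by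
    ext q
    by_cases hq : (p, q) ∈ S
    · rw [indicator_of_mem (show q ∈ {q | (p, q) ∈ S} from hq)]
    · rw [indicator_of_notMem (show q ∉ {q | (p, q) ∈ S} from hq)]
      by_contra h
      exact hq (hs q h)
  rw [h1, integrable_indicator_iff (measurableSet_row hS p)]
  refine Measure.integrableOn_of_bounded ((hVS p).trans_lt ENNReal.ofReal_lt_top).ne
    hf.aestronglyMeasurable (M := B) ?_
  exact (ae_restrict_iff' (measurableSet_row hS p)).2 (Filter.Eventually.of_forall fun q hq => hB q hq)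

theorem norm_integral_le_of_row {S : Set (X × X)} (hS : 𝒞.C S) {V : ℝ} (hV : 0 ≤ V)
    (hVS : ∀ p, μ {q | (p, q) ∈ S} ≤ ENNReal.ofReal V) {p : X} {f : X → ℂ}
    {B : ℝ} (hB0 : 0 ≤ B) (hB : ∀ q, (p, q) ∈ S → ‖f q‖ ≤ B) (hs : ∀ q, f q ≠ 0 → (p, q) ∈ S) :
    ‖∫ q, f q ∂μ‖ ≤ B * V := by
  have h1 : f = ({q | (p, q) ∈ S} : Set X).indicator f := by
    ext q
    by_cases hq : (p, q) ∈ S
    · rw [indicator_of_mem (show q ∈ {q | (p, q) ∈ S} from hq)]
    · rw [indicator_of_notMem (show q ∉ {q | (p, q) ∈ S} from hq)]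
      by_contra h
      exact hq (hs q h)
  rw [h1, integral_indicator (measurableSet_row hS p)]
  refine (norm_setIntegral_le_of_norm_le_const ((hVS p).trans_lt ENNReal.ofReal_lt_top) (C := B)
    fun q hq => hB q hq).trans ?_
  refine mul_le_mul_of_nonneg_left ?_ hB0
  rw [Measure.real]
  exact ENNReal.toReal_le_of_le_ofReal hV (hVS p)

theorem norm_integral_norm_le_of_row {S : Set (X × X)} (hS : 𝒞.C S) {V : ℝ} (hV : 0 ≤ V)
    (hVS : ∀ p, μ {q | (p, q) ∈ S} ≤ ENNReal.ofReal V) {p : X} {f : X → ℂ}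
    {B : ℝ} (hB0 : 0 ≤ B) (hB : ∀ q, (p, q) ∈ S → ‖f q‖ ≤ B) (hs : ∀ q, f q ≠ 0 → (p, q) ∈ S) :
    ∫ q, ‖f q‖ ∂μ ≤ B * V := by
  have h1 := norm_integral_le_of_row hS hV hVS (p := p) (f := fun q => ((‖f q‖ : ℝ) : ℂ)) hB0
    (fun q hq => by simpa using hB q hq) (fun q hq => hs q (by simpa using hq))
  have h2 : ∫ q, ((‖f q‖ : ℝ) : ℂ) ∂μ = ((∫ q, ‖f q‖ ∂μ : ℝ) : ℂ) := integral_ofReal
  rw [h2, Complex.norm_real, Real.norm_eq_abs] at h1
  exact (le_abs_self _).trans h1

namespace LB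

theorem of_bounded {φ : X → ℂ} (hφ : Measurable φ) {B : ℝ} (hB : ∀ q, ‖φ q‖ ≤ B) : LB 𝒞 φ where
  meas := hφ
  lb _ _ _ := ⟨max B 0, le_max_right _ _, fun q _ => (hB q).trans (le_max_left _ _)⟩

theorem add {φ ψ : X → ℂ} (h : LB 𝒞 φ) (h' : LB 𝒞 ψ) : LB 𝒞 (fun q => φ q + ψ q) where
  meas := h.meas.add h'.meas
  lb S hS p := by
    obtain ⟨B, hB, h1⟩ := h.lb S hS p
    obtain ⟨B', hB', h1'⟩ := h'.lb S hS p
    exact ⟨B + B', add_nonneg hB hB', fun q hq =>
      (norm_add_le _ _).trans (add_le_add (h1 q hq) (h1' q hq))⟩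

theorem const_mul {φ : X → ℂ} (h : LB 𝒞 φ) (a : ℂ) : LB 𝒞 (fun q => a * φ q) where
  meas := h.meas.const_mul a
  lb S hS p := by
    obtain ⟨B, hB, h1⟩ := h.lb S hS p
    refine ⟨‖a‖ * B, by positivity, fun q hq => ?_⟩
    rw [norm_mul]
    exact mul_le_mul_of_nonneg_left (h1 q hq) (norm_nonneg _)

end LB

namespace CK

variable {k l : X → X → ℂ}

theorem meas_right (hk : CK 𝒞 k) (p : X) : Measurable (fun q => k p q) :=
  hk.meas.comp (measurable_const.prodMk measurable_id)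

theorem meas_left (hk : CK 𝒞 k) (q : X) : Measurable (fun p => k p q) :=
  hk.meas.comp (measurable_id.prodMk measurable_const)

theorem zero : CK 𝒞 (fun _ _ => 0 : X → X → ℂ) where
  meas := measurable_const
  inv _ _ _ := rfl
  bdd := ⟨0, le_rfl, fun _ _ => by simp⟩
  ctl := by
    obtain ⟨S, hS⟩ := 𝒞.nonempty
    exact ⟨S, hS, fun _ _ h => absurd rfl h⟩

theorem add (hk : CK 𝒞 k) (hl : CK 𝒞 l) : CK 𝒞 (fun p q => k p q + l p q) where
  meas := hk.meas.add hl.meas
  inv g p q := by rw [hk.inv, hl.inv]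
  bdd := by
    obtain ⟨B, hB, h⟩ := hk.bdd
    obtain ⟨B', hB', h'⟩ := hl.bdd
    exact ⟨B + B', add_nonneg hB hB', fun p q =>
      (norm_add_le _ _).trans (add_le_add (h p q) (h' p q))⟩
  ctl := by
    obtain ⟨S, hS, h⟩ := hk.ctl
    obtain ⟨T, hT, h'⟩ := hl.ctl
    obtain ⟨U, hU, hSU, hTU⟩ := 𝒞.union hS hT
    refine ⟨U, hU, fun p q hne => ?_⟩
    by_cases h0 : k p q = 0
    · have h1 : l p q ≠ 0 := by
        intro h1
        apply hne
        rw [h0, h1, add_zero]
      exact hTU (h' p q h1)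
    · exact hSU (h p q h0)

theorem const_mul (hk : CK 𝒞 k) (a : ℂ) : CK 𝒞 (fun p q => a * k p q) where
  meas := hk.meas.const_mul a
  inv g p q := by rw [hk.inv]
  bdd := by
    obtain ⟨B, hB, h⟩ := hk.bdd
    refine ⟨‖a‖ * B, by positivity, fun p q => ?_⟩
    rw [norm_mul]
    exact mul_le_mul_of_nonneg_left (h p q) (norm_nonneg _)
  ctl := by
    obtain ⟨S, hS, h⟩ := hk.ctl
    exact ⟨S, hS, fun p q hne => h p q (right_ne_zero_of_mul hne)⟩

theorem sum {ι : Type*} (s : Finset ι) {k : ι → X → X → ℂ} (hk : ∀ i ∈ s, CK 𝒞 (k i)) :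
    CK 𝒞 (fun p q => ∑ i ∈ s, k i p q) := by
  classical
  induction s using Finset.induction_on with
  | empty => simpa using zero
  | insert a s ha ih =>
    simp only [Finset.sum_insert ha]
    exact add (hk a (Finset.mem_insert_self _ _))
      (ih fun i hi => hk i (Finset.mem_insert_of_mem hi))

/-- the transposed kernel -/
theorem tr (hk : CK 𝒞 k) : CK 𝒞 (fun p q => k q p) where
  meas := hk.meas.comp measurable_swap
  inv g p q := by rw [hk.inv]
  bdd := by
    obtain ⟨B, hB, h⟩ := hk.bdd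
    exact ⟨B, hB, fun p q => h q p⟩
  ctl := by
    obtain ⟨S, hS, h⟩ := hk.ctl
    obtain ⟨U, hU, hSU⟩ := 𝒞.symm hS
    exact ⟨U, hU, fun p q hne => hSU q p (h q p hne)⟩

/-- the complex conjugate kernel -/
theorem star (hk : CK 𝒞 k) : CK 𝒞 (fun p q => conj (k p q)) where
  meas := Complex.continuous_conj.measurable.comp hk.meas
  inv g p q := by rw [hk.inv]
  bdd := by
    obtain ⟨B, hB, h⟩ := hk.bdd
    exact ⟨B, hB, fun p q => by simpa using h p q⟩
  ctl := by
    obtain ⟨S, hS, h⟩ := hk.ctl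
    exact ⟨S, hS, fun p q hne => h p q (by simpa using hne)⟩

theorem norm (hk : CK 𝒞 k) : CK 𝒞 (fun p q => ((‖k p q‖ : ℝ) : ℂ)) where
  meas := Complex.measurable_ofReal.comp hk.meas.norm
  inv g p q := by rw [hk.inv]
  bdd := by
    obtain ⟨B, hB, h⟩ := hk.bdd
    exact ⟨B, hB, fun p q => by simpa using h p q⟩
  ctl := by
    obtain ⟨S, hS, h⟩ := hk.ctl
    exact ⟨S, hS, fun p q hne => h p q (by simpa using hne)⟩

theorem integrable_mul (hk : CK 𝒞 k) (p : X) {φ : X → ℂ} (hφ : LB 𝒞 φ) :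
    Integrable (fun q => k p q * φ q) μ := by
  obtain ⟨C, hC, h⟩ := hk.bdd
  obtain ⟨S, hS, hs⟩ := hk.ctl
  obtain ⟨B, hB, hφB⟩ := hφ.lb S hS p
  refine integrable_of_row hS (p := p) ((hk.meas_right p).mul hφ.meas) (B := C * B)
    (fun q hq => ?_) (fun q hq => hs p q (left_ne_zero_of_mul hq))
  rw [norm_mul]
  exact mul_le_mul (h p q) (hφB q hq) (norm_nonneg _) hC

theorem integrable (hk : CK 𝒞 k) (p : X) : Integrable (fun q => k p q) μ := by
  have := hk.integrable_mul p (φ := fun _ => 1)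
    (LB.of_bounded measurable_const (B := 1) (by simp))
  simpa using this

theorem integrable_left (hk : CK 𝒞 k) (q : X) : Integrable (fun p => k p q) μ := hk.tr.integrable q

/-- rows are uniformly integrable -/
theorem exists_row_le (hk : CK 𝒞 k) : ∃ B : ℝ, 0 ≤ B ∧ ∀ p, ∫ q, ‖k p q‖ ∂μ ≤ B := by
  obtain ⟨C, hC, h⟩ := hk.bdd
  obtain ⟨S, hS, hs⟩ := hk.ctl
  obtain ⟨V, hV, hVS⟩ := 𝒞.vol hS
  exact ⟨C * V, mul_nonneg hC hV, fun p => norm_integral_norm_le_of_row hS hV hVS (p := p) hC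
    (fun q _ => h p q) (fun q hq => hs p q hq)⟩

theorem exists_col_le (hk : CK 𝒞 k) : ∃ B : ℝ, 0 ≤ B ∧ ∀ q, ∫ p, ‖k p q‖ ∂μ ≤ B :=
  hk.tr.exists_row_le

/-- columns are locally bounded functions -/
theorem lb_left (hk : CK 𝒞 k) (q : X) : LB 𝒞 (fun p => k p q) := by
  obtain ⟨B, hB, h⟩ := hk.bdd
  exact LB.of_bounded (hk.meas_left q) (fun p => h p q)

end CK

end Basic

section Compose

variable {μ : Measure X} [SFinite μ] {𝒞 : Coarse G μ} {k l m : X → X → ℂ}

theorem measurable_act {Z : Type*} [MeasurableSpace Z] {k : Z → X → ℂ} {φ : Z → X → ℂ}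
    (hk : Measurable (Function.uncurry k)) (hφ : Measurable (Function.uncurry φ)) :
    Measurable fun z => ∫ q, k z q * φ z q ∂μ :=
  (StronglyMeasurable.integral_prod_right (hk.mul hφ).stronglyMeasurable).measurable

/-- `act` preserves locally bounded functions. -/
theorem CK.lb_act (hk : CK 𝒞 k) {φ : X → ℂ} (hφ : LB 𝒞 φ) : LB 𝒞 (act μ k φ) where
  meas := measurable_act hk.meas (hφ.meas.comp measurable_snd)
  lb S hS p := by
    obtain ⟨C, hC, h⟩ := hk.bdd
    obtain ⟨T, hT, hs⟩ := hk.ctl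
    obtain ⟨V, hV, hVT⟩ := 𝒞.vol hT
    obtain ⟨U, hU, hSTU⟩ := 𝒞.comp hS hT
    obtain ⟨B, hB, hφB⟩ := hφ.lb U hU p
    refine ⟨C * B * V, by positivity, fun q hq => ?_⟩
    refine norm_integral_le_of_row hT hV hVT (p := q) (by positivity) (fun r hr => ?_)
      (fun r hr => hs q r (left_ne_zero_of_mul hr))
    rw [norm_mul]
    exact mul_le_mul (h q r) (hφB r (hSTU p q r hq hr)) (norm_nonneg _) hC

/-- `act` preserves bounded functions. -/
theorem CK.act_bdd (hk : CK 𝒞 k) : ∃ C : ℝ, 0 ≤ C ∧ ∀ (φ : X → ℂ) (B : ℝ), 0 ≤ B →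
    (∀ q, ‖φ q‖ ≤ B) → ∀ p, ‖act μ k φ p‖ ≤ C * B := by
  obtain ⟨C, hC, h⟩ := hk.bdd
  obtain ⟨T, hT, hs⟩ := hk.ctl
  obtain ⟨V, hV, hVT⟩ := 𝒞.vol hT
  refine ⟨C * V, by positivity, fun φ B hB hφ p => ?_⟩
  have h1 := norm_integral_le_of_row hT hV hVT (p := p) (f := fun q => k p q * φ q) (B := C * B)
    (by positivity) (fun q _ => by rw [norm_mul]; exact mul_le_mul (h p q) (hφ q) (norm_nonneg _) hC)
    (fun q hq => hs p q (left_ne_zero_of_mul hq))
  refine h1.trans (le_of_eq (by ring))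

variable [MeasurableConstSMul G X] [SMulInvariantMeasure G X μ]

omit [SFinite μ] in
/-- `act` preserves invariant functions. -/
theorem CK.act_smul (hk : CK 𝒞 k) {φ : X → ℂ} (hφ : ∀ (g : G) x, φ (g • x) = φ x) (g : G) (p : X) :
    act μ k φ (g • p) = act μ k φ p := by
  unfold act
  rw [← integral_smul_eq_self (μ := μ) (fun q => k (g • p) q * φ q) (g := g)]
  refine integral_congr_ae (Filter.Eventually.of_forall fun q => ?_)
  simp only [hk.inv, hφ]

theorem CK.comp (hk : CK 𝒞 k) (hl : CK 𝒞 l) : CK 𝒞 (comp μ k l) where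
  meas := by
    have h := measurable_act (μ := μ) (Z := X × X) (k := fun z q => k z.1 q)
      (φ := fun z q => l q z.2)
      (hk.meas.comp ((measurable_fst.comp measurable_fst).prodMk measurable_snd))
      (hl.meas.comp (measurable_snd.prodMk (measurable_snd.comp measurable_fst)))
    exact h
  inv g p r := by
    unfold H17S.comp
    rw [← integral_smul_eq_self (μ := μ) (fun q => k (g • p) q * l q (g • r)) (g := g)]
    refine integral_congr_ae (Filter.Eventually.of_forall fun q => ?_)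
    simp only [hk.inv, hl.inv]
  bdd := by
    obtain ⟨C, hC, h⟩ := hk.act_bdd
    obtain ⟨B, hB, h'⟩ := hl.bdd
    exact ⟨C * B, by positivity, fun p r => h (fun q => l q r) B hB (fun q => h' q r) p⟩
  ctl := by
    obtain ⟨S, hS, h⟩ := hk.ctl
    obtain ⟨T, hT, h'⟩ := hl.ctl
    obtain ⟨U, hU, hSTU⟩ := 𝒞.comp hS hT
    refine ⟨U, hU, fun p r hne => ?_⟩
    by_contra hcon
    apply hne
    unfold H17S.comp
    have : ∀ q, k p q * l q r = 0 := by
      intro q
      by_contra hq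
      exact hcon (hSTU p q r (h p q (left_ne_zero_of_mul hq)) (h' q r (right_ne_zero_of_mul hq)))
    simp [this]

/-- **Associativity of the action.** -/
theorem act_comp (hk : CK 𝒞 k) (hl : CK 𝒞 l) {φ : X → ℂ} (hφ : LB 𝒞 φ) (p : X) :
    act μ (comp μ k l) φ p = act μ k (act μ l φ) p := by
  obtain ⟨Bk, hBk, hk1⟩ := hk.bdd
  obtain ⟨Bl, hBl, hl1⟩ := hl.bdd
  obtain ⟨S, hS, hks⟩ := hk.ctl
  obtain ⟨T, hT, hls⟩ := hl.ctl
  obtain ⟨U, hU, hSTU⟩ := 𝒞.comp hS hT
  obtain ⟨B, hB, hφB⟩ := hφ.lb U hU p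
  obtain ⟨V, hV, hVT⟩ := 𝒞.vol hT
  unfold act comp
  have hm : Measurable (Function.uncurry fun q r => k p q * (l q r * φ r)) :=
    ((hk.meas_right p).comp measurable_fst).mul (hl.meas.mul (hφ.meas.comp measurable_snd))
  have hint : Integrable (Function.uncurry fun q r => k p q * (l q r * φ r)) (μ.prod μ) := by
    rw [integrable_prod_iff hm.aestronglyMeasurable]
    constructor
    · refine Filter.Eventually.of_forall fun q => ?_
      show Integrable (fun r => k p q * (l q r * φ r)) μ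
      exact (hl.integrable_mul q hφ).const_mul (k p q)
    · have hm2 : Measurable fun q => ∫ r, ‖k p q * (l q r * φ r)‖ ∂μ :=
        (StronglyMeasurable.integral_prod_right hm.norm.stronglyMeasurable).measurable
      have h1 : Integrable (fun q => ((∫ r, ‖k p q * (l q r * φ r)‖ ∂μ : ℝ) : ℂ)) μ := by
        refine integrable_of_row hS (p := p) (Complex.measurable_ofReal.comp hm2)
          (B := Bk * (Bl * B) * V) (fun q hq => ?_) (fun q hq => ?_)
        · rw [Complex.norm_real, Real.norm_eq_abs, abs_of_nonneg (integral_nonneg fun _ => norm_nonneg _)]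
          refine norm_integral_norm_le_of_row hT hV hVT (p := q) (by positivity) (fun r hr => ?_)
            (fun r hr => hls q r (left_ne_zero_of_mul (right_ne_zero_of_mul hr)))
          rw [norm_mul, norm_mul]
          exact mul_le_mul (hk1 p q) (mul_le_mul (hl1 q r) (hφB r (hSTU p q r hq hr))
            (norm_nonneg _) hBl) (by positivity) hBk
        · apply hks p q
          intro h0
          apply hq
          simp [h0]
      have h2 := h1.re
      simpa using h2
  calc ∫ r, (∫ q, k p q * l q r ∂μ) * φ r ∂μ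
      = ∫ r, ∫ q, k p q * (l q r * φ r) ∂μ ∂μ := by
        refine integral_congr_ae (Filter.Eventually.of_forall fun r => ?_)
        show (∫ q, k p q * l q r ∂μ) * φ r = ∫ q, k p q * (l q r * φ r) ∂μ
        rw [← integral_mul_const]
        refine integral_congr_ae (Filter.Eventually.of_forall fun q => ?_)
        show k p q * l q r * φ r = k p q * (l q r * φ r)
        ring
    _ = ∫ q, ∫ r, k p q * (l q r * φ r) ∂μ ∂μ := (integral_integral_swap hint).symm
    _ = ∫ q, k p q * ∫ r, l q r * φ r ∂μ ∂μ := by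
        refine integral_congr_ae (Filter.Eventually.of_forall fun q => ?_)
        show ∫ r, k p q * (l q r * φ r) ∂μ = k p q * ∫ r, l q r * φ r ∂μ
        rw [integral_const_mul]

theorem comp_assoc (hk : CK 𝒞 k) (hl : CK 𝒞 l) (hm : CK 𝒞 m) (p r : X) :
    comp μ (comp μ k l) m p r = comp μ k (comp μ l m) p r :=
  act_comp hk hl (hm.lb_left r) p

omit [SFinite μ] [MeasurableConstSMul G X] [SMulInvariantMeasure G X μ] in
theorem act_add_left (hk : CK 𝒞 k) (hl : CK 𝒞 l) {φ : X → ℂ} (hφ : LB 𝒞 φ) (p : X) :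
    act μ (fun p q => k p q + l p q) φ p = act μ k φ p + act μ l φ p := by
  unfold act
  rw [← integral_add (hk.integrable_mul p hφ) (hl.integrable_mul p hφ)]
  refine integral_congr_ae (Filter.Eventually.of_forall fun q => ?_)
  show (k p q + l p q) * φ q = k p q * φ q + l p q * φ q
  ring

omit [SFinite μ] [MeasurableConstSMul G X] [SMulInvariantMeasure G X μ] in
theorem act_const_mul_left (a : ℂ) (φ : X → ℂ) (p : X) :
    act μ (fun p q => a * k p q) φ p = a * act μ k φ p := by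
  unfold act
  rw [← integral_const_mul]
  refine integral_congr_ae (Filter.Eventually.of_forall fun q => ?_)
  show a * k p q * φ q = a * (k p q * φ q)
  ring

omit [SFinite μ] [MeasurableConstSMul G X] [SMulInvariantMeasure G X μ] in
theorem act_sum_left {ι : Type*} (s : Finset ι) {k : ι → X → X → ℂ} (hk : ∀ i ∈ s, CK 𝒞 (k i))
    {φ : X → ℂ} (hφ : LB 𝒞 φ) (p : X) :
    act μ (fun p q => ∑ i ∈ s, k i p q) φ p = ∑ i ∈ s, act μ (k i) φ p := by
  unfold act
  rw [← integral_finsetSum s fun i hi => (hk i hi).integrable_mul p hφ]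
  refine integral_congr_ae (Filter.Eventually.of_forall fun q => ?_)
  show (∑ i ∈ s, k i p q) * φ q = ∑ i ∈ s, k i p q * φ q
  rw [Finset.sum_mul]

omit [SFinite μ] [MeasurableConstSMul G X] [SMulInvariantMeasure G X μ] in
theorem act_add (hk : CK 𝒞 k) {φ ψ : X → ℂ} (hφ : LB 𝒞 φ) (hψ : LB 𝒞 ψ) (p : X) :
    act μ k (fun q => φ q + ψ q) p = act μ k φ p + act μ k ψ p := by
  unfold act
  rw [← integral_add (hk.integrable_mul p hφ) (hk.integrable_mul p hψ)]
  refine integral_congr_ae (Filter.Eventually.of_forall fun q => ?_)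
  show k p q * (φ q + ψ q) = k p q * φ q + k p q * ψ q
  ring

omit [SFinite μ] [MeasurableConstSMul G X] [SMulInvariantMeasure G X μ] in
theorem act_const_mul (a : ℂ) (φ : X → ℂ) (p : X) :
    act μ k (fun q => a * φ q) p = a * act μ k φ p := by
  unfold act
  rw [← integral_const_mul]
  refine integral_congr_ae (Filter.Eventually.of_forall fun q => ?_)
  show k p q * (a * φ q) = a * (k p q * φ q)
  ring

end Compose

end Fermat.Agent.H17S
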