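import Fermat.Agent.H17RedMod

/-!
# MZ-J4: points of the reduction lift to inertia invariant points (helper17)
-/

set_option autoImplicit false

noncomputable section

open AlgebraicCurve ModularCurve

namespace Fermat.Agent.H17

open Fermat.Agent.H40 Fermat.Agent.H94 Fermat.Agent.H19 Fermat.Agent.H23

local notation "Qb" => AlgebraicClosure ℚ
local notation "Gq" => AlgebraicClosure ℚ ≃ₐ[ℚ] AlgebraicClosure ℚ

/-- the whole situation at a good place -/
structure Setup (A : ValuationSubring Qb) (N : ℕ) [NeZero N]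
    (hdeg : H42.DegLE Qb (IsLocalRing.ResidueField A) N)
    [H94.FunField (IsLocalRing.ResidueField A)
      (modularFunctionFieldFullC (IsLocalRing.ResidueField A) N)] where
  S : GoodRed Qb (modularFunctionFieldBar N) (IsLocalRing.ResidueField A)
      (modularFunctionFieldFullC (IsLocalRing.ResidueField A) N)
  I : InertiaAction S (inertiaSL A N)
  hS : S.toReductionData = H42.modRed hdeg
  red : ∀ x : JZero N, redPic0 S x = reductionModL A N x
  Pinf : ∀ σ : Gq, arithmeticGalois (modularFunctionFieldFull N) σ • I.Pinf = I.Pinf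

theorem exists_setup (N : ℕ) [NeZero N] {ℓ : ℕ} (hℓ : ℓ.Prime) (hℓN : ¬ ℓ ∣ N)
    (A : ValuationSubring Qb) (hA : A.LiesOverPrime ℓ)
    [H94.FunField (IsLocalRing.ResidueField A)
      (modularFunctionFieldFullC (IsLocalRing.ResidueField A) N)] :
    Nonempty (Setup A N (H42.degLE_place hℓ hA hℓN)) := by
  haveI : Fact ℓ.Prime := ⟨hℓ⟩
  have hdeg := H42.degLE_place hℓ hA hℓN
  have hg := H31.genusEqAt N hℓ hℓN A hA
  have h := H42.reductionInputsModL_of_genusEq hℓ hA hℓN hg
  obtain ⟨S, hS, hr⟩ := exists_goodRed_modL hdeg hg h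
  obtain ⟨I, hI⟩ := modInertiaAction_Pinf hA hdeg S hS
  exact ⟨⟨S, I, hS, redPic0_eq S h hr, hI⟩⟩

theorem mem_inertiaSL {A : ValuationSubring Qb} {N : ℕ} {σ : Gq}
    (hσ : σ ∈ A.inertiaSubgroupIn ℚ) :
    arithmeticGalois (modularFunctionFieldFull N) σ ∈ inertiaSL A N :=
  ⟨σ, hσ, rfl⟩

/-- **MZ-J4** -/
theorem surjRed : H15.T_surjRed := by
  intro N _ ℓ hℓ hℓN A hA x
  have hff := H42.funField_right (L := Qb) N (H42.degLE_place hℓ hA hℓN)
  obtain ⟨T⟩ := exists_setup N hℓ hℓN A hA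
  obtain ⟨y, hy, hfix⟩ := exists_fixed_class T.I (redPic0 T.S x)
  refine ⟨y, fun σ hσ => hfix _ (mem_inertiaSL hσ), ?_⟩
  rw [H15.KJ, AddMonoidHom.mem_ker, ← T.red, map_sub, hy, sub_self]

end Fermat.Agent.H17
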