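import Fermat.Agent.H63Hermite
set_option autoImplicit false

namespace Fermat.Agent.H63

open Pointwise

section WeakMordellWeil

variable {L : Type*} [Field L] [CharZero L] [IsGalois ℚ L]
variable {A : Type*} [AddCommGroup A] [DistribMulAction (L ≃ₐ[ℚ] L) A]

/-- **Abstract weak Mordell-Weil theorem.** -/
theorem weak_mordell_weil (n : ℕ)
    (hstab : ∀ a : A, IsOpen (MulAction.stabilizer (L ≃ₐ[ℚ] L) a : Set (L ≃ₐ[ℚ] L)))
    (htor : {a : A | n • a = 0}.Finite)
    (hdiv : ∀ a : A, (∀ g : L ≃ₐ[ℚ] L, g • a = a) → ∃ b : A, n • b = a)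
    (S : Finset ℕ) (hS : ∀ p ∈ S, p.Prime)
    (hur : ∀ q : ℕ, q.Prime → q ∉ S → ∀ V : ValuationSubring L, V.LiesOverPrime q →
      ∀ σ ∈ V.inertiaSubgroupIn ℚ, ∀ a : A, (∀ g : L ≃ₐ[ℚ] L, g • (n • a) = n • a) → σ • a = a) :
    ∃ s : Set A, s.Finite ∧ (∀ a ∈ s, ∀ g : L ≃ₐ[ℚ] L, g • a = a) ∧
      ∀ a : A, (∀ g : L ≃ₐ[ℚ] L, g • a = a) →
        ∃ b ∈ s, ∃ c : A, (∀ g : L ≃ₐ[ℚ] L, g • c = c) ∧ a = b + n • c := by
  classical
  set G := L ≃ₐ[ℚ] L
  have : Finite {a : A | n • a = 0} := htor
  obtain ⟨W, hWo, hWn, -, hWU⟩ := exists_open_normal_le (L := L) S hS (Nat.card {a : A | n • a = 0})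
  have hWfin : Finite (G ⧸ W) := Subgroup.quotient_finite_of_isOpen W hWo
  -- stabilisers of the division points contain `W`
  have hW : ∀ a : A, (∀ g : G, g • (n • a) = n • a) → ∀ w ∈ W, w • a = a := by
    intro a ha w hw
    have hmem : w ∈ MulAction.stabilizer G a := by
      refine hWU (MulAction.stabilizer G a) (hstab a) ?_ ?_ hw
      · rw [MulAction.index_stabilizer]
        have hinj : Function.Injective (fun x : MulAction.orbit G a =>
            (⟨(x : A) - a, by
              obtain ⟨g, hg⟩ := x.2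
              have : (x : A) = g • a := hg.symm
              change n • ((x : A) - a) = 0
              rw [this, smul_sub, ← smul_comm g n a, ha g, sub_self]⟩ : {a : A | n • a = 0})) := by
          intro x y hxy
          have := congrArg Subtype.val hxy
          exact Subtype.ext (sub_left_injective this)
        have := Nat.card_le_card_of_injective _ hinj
        rwa [Nat.card_coe_set_eq] at this
      · intro q hq hqS V hV σ hσ
        exact hur q hq hqS V hV σ hσ a ha
    exact hmem
  -- choose division points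
  let F := FixedPoints.addSubgroup G A
  have hchoice : ∀ a : F, ∃ b : A, n • b = a := fun a => hdiv a a.2
  choose x hx using hchoice
  have hx' : ∀ a : F, ∀ g : G, g • (n • x a) = n • x a := fun a g => by rw [hx a]; exact a.2 g
  let φ : F → (G ⧸ W → {a : A | n • a = 0}) := fun a γ =>
    ⟨γ.out • x a - x a, by
      change n • (γ.out • x a - x a) = 0
      rw [smul_sub, ← smul_comm γ.out n (x a), hx' a, sub_self]⟩
  have hφ : ∀ a b : F, φ a = φ b → ∃ c : F, (a : A) - b = n • (c : A) := by
    intro a b hab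
    have hfix : ∀ g : G, g • (x a - x b) = x a - x b := by
      intro g
      have h1 := congrArg Subtype.val (congrFun hab (QuotientGroup.mk g))
      have h1' : (QuotientGroup.mk g : G ⧸ W).out • x a - x a =
        (QuotientGroup.mk g : G ⧸ W).out • x b - x b := h1
      obtain ⟨w, hw⟩ := QuotientGroup.mk_out_eq_mul W g
      have h2 : ∀ y : F, (QuotientGroup.mk g : G ⧸ W).out • x y = g • x y := by
        intro y
        rw [hw, mul_smul, hW (x y) (hx' y) w w.2]
      rw [h2, h2] at h1'
      rw [smul_sub]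
      have h3 : g • x a = g • x b - x b + x a := by rw [← h1']; abel
      rw [h3]; abel
    refine ⟨⟨x a - x b, hfix⟩, ?_⟩
    rw [smul_sub, hx, hx]
  have hrange : (Set.range φ).Finite := Set.toFinite _
  -- choose representatives
  have hrep : ∀ f ∈ Set.range φ, ∃ a : F, φ a = f := fun f hf => hf
  let r : Set.range φ → F := fun f => Classical.choose f.2
  have hr : ∀ f : Set.range φ, φ (r f) = f := fun f => Classical.choose_spec f.2
  have : Finite (Set.range φ) := hrange
  refine ⟨Set.range (fun f => ((r f : F) : A)), Set.finite_range _, ?_, ?_⟩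
  · rintro _ ⟨f, rfl⟩ g
    exact (r f).2 g
  · intro a ha
    obtain ⟨c, hc⟩ := hφ ⟨a, ha⟩ (r ⟨φ ⟨a, ha⟩, ⟨a, ha⟩, rfl⟩) (hr ⟨φ ⟨a, ha⟩, ⟨a, ha⟩, rfl⟩).symm
    refine ⟨_, ⟨⟨φ ⟨a, ha⟩, ⟨a, ha⟩, rfl⟩, rfl⟩, c, c.2, ?_⟩
    rw [← hc]
    simp

/-- Finiteness of the set of continuous 1-cocycles unramified outside `S` with values in a
finite module. -/
theorem finite_cocycles [Finite A]
    (hcont : IsOpen {g : L ≃ₐ[ℚ] L | ∀ a : A, g • a = a})
    (S : Finset ℕ) (hS : ∀ p ∈ S, p.Prime)
    (hA : ∀ q : ℕ, q.Prime → q ∉ S → ∀ V : ValuationSubring L, V.LiesOverPrime q →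
      ∀ σ ∈ V.inertiaSubgroupIn ℚ, ∀ a : A, σ • a = a) :
    {c : (L ≃ₐ[ℚ] L) → A | (∀ g h, c (g * h) = c g + g • c h) ∧
      (∃ U : Subgroup (L ≃ₐ[ℚ] L), IsOpen (U : Set (L ≃ₐ[ℚ] L)) ∧ ∀ u ∈ U, c u = 0) ∧
      (∀ q : ℕ, q.Prime → q ∉ S → ∀ V : ValuationSubring L, V.LiesOverPrime q →
        ∀ σ ∈ V.inertiaSubgroupIn ℚ, c σ = 0)}.Finite := by
  classical
  set G := L ≃ₐ[ℚ] L
  let K : Subgroup G := (MulAction.toPermHom G A).ker
  have hK : ∀ g : G, g ∈ K ↔ ∀ a : A, g • a = a := by
    intro g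
    rw [MonoidHom.mem_ker]
    constructor
    · intro h a
      exact congrArg (fun f : Equiv.Perm A => f a) h
    · intro h
      ext a
      exact h a
  have hKo : IsOpen (K : Set G) := by
    convert hcont using 1
    ext g
    exact hK g
  have hKfin : Finite (G ⧸ K) := Subgroup.quotient_finite_of_isOpen K hKo
  obtain ⟨W, hWo, hWn, -, hWU⟩ := exists_open_normal_le (L := L) S hS (K.index * Nat.card A)
  have hWfin : Finite (G ⧸ W) := Subgroup.quotient_finite_of_isOpen W hWo
  have key : ∀ c : G → A, (∀ g h, c (g * h) = c g + g • c h) →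
      (∃ U : Subgroup G, IsOpen (U : Set G) ∧ ∀ u ∈ U, c u = 0) →
      (∀ q : ℕ, q.Prime → q ∉ S → ∀ V : ValuationSubring L, V.LiesOverPrime q →
        ∀ σ ∈ V.inertiaSubgroupIn ℚ, c σ = 0) → ∀ w ∈ W, c w = 0 ∧ ∀ g, c (g * w) = c g := by
    rintro c hc ⟨U, hU, hcU⟩ hcI
    have hc1 : c 1 = 0 := by
      have := hc 1 1
      rw [one_smul, mul_one] at this
      simpa using this
    let N : Subgroup G :=
      { carrier := {g | g ∈ K ∧ c g = 0}
        one_mem' := ⟨K.one_mem, hc1⟩
        mul_mem' := by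
          rintro a b ⟨ha, hca⟩ ⟨hb, hcb⟩
          refine ⟨K.mul_mem ha hb, ?_⟩
          rw [hc, hca, hcb, smul_zero, add_zero]
        inv_mem' := by
          rintro a ⟨ha, hca⟩
          refine ⟨K.inv_mem ha, ?_⟩
          have := hc a⁻¹ a
          rw [inv_mul_cancel, hc1, hca, smul_zero, add_zero] at this
          exact this.symm }
    have hNo : IsOpen (N : Set G) := by
      refine Subgroup.isOpen_mono (H₁ := K ⊓ U) ?_ (hKo.inter hU)
      rintro g ⟨h1, h2⟩
      exact ⟨h1, hcU g h2⟩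
    have hNindex : N.index ≤ K.index * Nat.card A := by
      have hrel : N.relIndex K ≤ Nat.card A := by
        let ψ : K →* Multiplicative A :=
          { toFun := fun k => Multiplicative.ofAdd (c k)
            map_one' := by
              change Multiplicative.ofAdd (c 1) = 1
              rw [hc1]; rfl
            map_mul' := fun a b => by
              change Multiplicative.ofAdd (c ((a : G) * (b : G))) = _
              rw [hc, (hK a).mp a.2]; rfl }
        have h1 : N.subgroupOf K = ψ.ker := by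
          ext k
          rw [Subgroup.mem_subgroupOf, MonoidHom.mem_ker]
          constructor
          · rintro ⟨-, h⟩
            change Multiplicative.ofAdd (c k) = 1
            rw [h]; rfl
          · intro h
            exact ⟨k.2, h⟩
        rw [Subgroup.relIndex, h1, Subgroup.index_ker]
        exact Nat.card_le_card_of_injective Subtype.val Subtype.val_injective
      have hle : N ≤ K := fun g hg => hg.1
      rw [← Subgroup.relIndex_mul_index hle, mul_comm]
      exact Nat.mul_le_mul_left _ hrel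
    have hWN : W ≤ N := hWU N hNo hNindex (fun q hq hqS V hV σ hσ =>
      ⟨(hK σ).mpr (hA q hq hqS V hV σ hσ), hcI q hq hqS V hV σ hσ⟩)
    intro w hw
    have h0 : c w = 0 := (hWN hw).2
    refine ⟨h0, fun g => ?_⟩
    rw [hc, h0, smul_zero, add_zero]
  let Φ : (G → A) → (G ⧸ W → A) := fun c γ => c γ.out
  refine Set.Finite.of_injOn (f := Φ) (t := Set.univ) (fun _ _ => trivial) ?_ Set.finite_univ
  rintro c ⟨hc, hcU, hcI⟩ d ⟨hd, hdU, hdI⟩ hcd
  ext g
  have h1 := congrFun hcd (QuotientGroup.mk g)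
  change c (QuotientGroup.mk g : G ⧸ W).out = d (QuotientGroup.mk g : G ⧸ W).out at h1
  obtain ⟨w, hw⟩ := QuotientGroup.mk_out_eq_mul W g
  rw [hw, (key c hc hcU hcI w w.2).2 g, (key d hd hdU hdI w w.2).2 g] at h1
  exact h1

end WeakMordellWeil

end Fermat.Agent.H63
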