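/-
H17Weak: weak Mordell-Weil for `J_0(N)` and Mordell-Weil, from unramifiedness of the division points
outside a finite set of primes (helper17)
-/
import Mathlib
import Fermat.Agent.H17Final
import Fermat.Agent.H17DivMod
import Fermat.Agent.H63WeakMW
import Fermat.Agent.H31Level
import Fermat.Agent.H63Cyclo

set_option autoImplicit false

noncomputable section

open AlgebraicCurve ModularCurve

namespace Fermat.Agent.H17

theorem isOpen_stabilizer_jzero (N : ℕ) [NeZero N] (a : JZero N) :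
    IsOpen (MulAction.stabilizer (Qb ≃ₐ[ℚ] Qb) a : Set (Qb ≃ₐ[ℚ] Qb)) := by
  obtain ⟨K', hK', h⟩ := H31.exists_level_JZero (N := N) a
  have h1 : K'.fixingSubgroup ≤ MulAction.stabilizer (Qb ≃ₐ[ℚ] Qb) a := by
    intro σ hσ
    rw [MulAction.mem_stabilizer_iff]
    exact h σ fun x hx => (IntermediateField.mem_fixingSubgroup_iff K' σ).mp hσ x hx
  exact Subgroup.isOpen_mono h1 (IntermediateField.fixingSubgroup_isOpen K')

/-- **Mordell-Weil for `J_0(N)`** from unramifiedness of division points. -/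
theorem fg_of_unramified (N : ℕ) [NeZero N] (S : Finset ℕ) (hS : ∀ p ∈ S, p.Prime)
    (hur : ∀ q : ℕ, q.Prime → q ∉ S → ∀ V : ValuationSubring Qb, V.LiesOverPrime q →
      ∀ σ ∈ V.inertiaSubgroupIn ℚ, ∀ a : JZero N,
        (∀ g : Qb ≃ₐ[ℚ] Qb, g • (2 • a) = 2 • a) → σ • a = a) :
    AddGroup.FG ↥(FixedPoints.addSubgroup (Qb ≃ₐ[ℚ] Qb) (JZero N)) := by
  apply mordell_weil_of_weak
  obtain ⟨s, hsf, hs1, hs2⟩ := H63.weak_mordell_weil (L := Qb) (A := JZero N) 2
    (isOpen_stabilizer_jzero N) (H90.finite_jzero N (two_ne_zero))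
    (fun a _ => jzero_divisible N two_ne_zero a) S hS hur
  set J := FixedPoints.addSubgroup (Qb ≃ₐ[ℚ] Qb) (JZero N) with hJ
  -- finitely many representatives
  have hfin : (Set.univ : Set (J ⧸ (nsmulAddMonoidHom (α := J) 2).range)).Finite := by
    have hs' : Finite s := hsf
    let r : s → J := fun b => ⟨b, hs1 b b.2⟩
    refine (Set.finite_range (fun b : s => (QuotientAddGroup.mk (r b) :
      J ⧸ (nsmulAddMonoidHom (α := J) 2).range))).subset ?_
    intro x _
    obtain ⟨a, rfl⟩ := QuotientAddGroup.mk_surjective x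
    obtain ⟨b, hb, c, hc, h⟩ := hs2 (a : JZero N) a.2
    refine ⟨⟨b, hb⟩, ?_⟩
    show (QuotientAddGroup.mk (r ⟨b, hb⟩) : J ⧸ _) = QuotientAddGroup.mk a
    rw [QuotientAddGroup.eq]
    refine ⟨⟨c, hc⟩, ?_⟩
    apply Subtype.ext
    show (2 • c : JZero N) = -b + (a : JZero N)
    rw [h]; abel
  have : Finite (J ⧸ (nsmulAddMonoidHom (α := J) 2).range) := Set.finite_univ_iff.mp hfin
  exact AddSubgroup.finiteIndex_of_finite_quotient

end Fermat.Agent.H17
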