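import Fermat.Agent.H17HkMain
import Fermat.Agent.H38MzHecke

/-!
# The Hecke correspondences and the reduction of divisors (helper18)

Reduction of divisors of functions in terms of `q`-expansions, and the Hecke correspondence in
characteristic `p` (prime to the index of the Hecke operator).
-/

set_option autoImplicit false
set_option linter.unusedSectionVars false

noncomputable section

open AlgebraicCurve ModularCurve

namespace Fermat.Agent.H18.CR

open Fermat.Agent.H67 Fermat.Agent.H38.Mz Fermat.Agent.H23 Fermat.Agent.H17 Fermat.Agent.H19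

local notation "Qb" => AlgebraicClosure ℚ

section Level

variable {M : ℕ} [NeZero M] {A : ValuationSubring Qb}

local notation "kA" => IsLocalRing.ResidueField A
local notation "πA" => IsLocalRing.residue A

theorem red_ρ (hdeg : H42.DegLE Qb kA M)
    (S : GoodRed Qb (modularFunctionFieldBar M) kA (modularFunctionFieldFullC kA M))
    (hS : S.toReductionData = H42.modRed hdeg) (x : S.B) :
    Red A πA ((x : modularFunctionFieldBar M) : LaurentSeries Qb)
      (S.ρ x : LaurentSeries kA) := by
  have key : ∀ R : H40.ReductionData Qb (modularFunctionFieldBar M) kA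
      (modularFunctionFieldFullC kA M), R = H42.modRed hdeg →
      ∀ x : R.B, Red A πA ((x : modularFunctionFieldBar M) : LaurentSeries Qb)
        (R.ρ x : LaurentSeries kA) := by
    rintro R rfl x
    exact red_modRed hdeg x
  exact key _ hS x

/-- The divisor of the reduction is the reduction of the divisor. -/
theorem mapDomain_div_of_red (hdeg : H42.DegLE Qb kA M)
    (S : GoodRed Qb (modularFunctionFieldBar M) kA (modularFunctionFieldFullC kA M))
    (hS : S.toReductionData = H42.modRed hdeg) {G : FB Qb M} (hG : G ≠ 0)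
    {D : Divisor Qb (FB Qb M)} (hD : ∀ v, D v = v.ord G)
    {s : modularFunctionFieldFullC kA M} (hs : s ≠ 0)
    (hred : Red A πA (G : LaurentSeries Qb) (s : LaurentSeries kA))
    (w : Place kA (modularFunctionFieldFullC kA M)) :
    Finsupp.mapDomain S.r D w = w.ord s := by
  obtain ⟨a, ha, x, hx, hρ, hdiv⟩ := H23.exists_scale_div S hG
  have h1 := red_ρ hdeg S hS x
  have h2 : ((x : modularFunctionFieldBar M) : LaurentSeries Qb) =
      algebraMap Qb (LaurentSeries Qb) a * (G : LaurentSeries Qb) := by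
    rw [← coe_algebraMap_mul, ← Algebra.smul_def]
    exact congrArg Subtype.val hx
  rw [h2] at h1
  have hs0 : (s : LaurentSeries kA) ≠ 0 := fun h => hs (Subtype.ext h)
  have h3 := hred.smul_eq hs0 h1
  set b : kA := πA ⟨a, hred.mem_of_smul hs0 h1⟩ with hb
  have h4 : S.ρ x = algebraMap kA _ b * s := Subtype.ext h3
  have hb0 : b ≠ 0 := by
    intro h0
    apply hρ
    rw [h4, h0, map_zero, zero_mul]
  rw [hdiv D hD w, h4, w.ord_mul ((_root_.map_ne_zero _).mpr hb0) hs, H40.ord_algebraMap, zero_add]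

end Level

section Hecke

variable {A : ValuationSubring Qb}

local notation "kA" => IsLocalRing.ResidueField A

/-- **The Hecke correspondence in characteristic `ℓ`.** -/
theorem exists_hecke_bar (N : ℕ) [NeZero N] {ℓ : ℕ} (hℓ : ℓ.Prime) (hℓN : ¬ ℓ ∣ N)
    (hA : A.LiesOverPrime ℓ) {q : ℕ} [NeZero q] (hqp : q.Prime) (hq : q ≠ ℓ)
    [H94.FunField kA (modularFunctionFieldFullC kA N)]
    (T : Setup A N (H42.degLE_place hℓ hA hℓN)) :
    ∃ (TD : Divisor.degZero (K := Qb) (F := FB Qb N) →+ Divisor.degZero (K := Qb) (F := FB Qb N))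
      (Tb : Divisor kA (modularFunctionFieldFullC kA N) →+
        Divisor kA (modularFunctionFieldFullC kA N)),
      (∀ D, Pic0.mk (TD D) = heckeOperatorBar N ⟨q, hqp⟩ (Pic0.mk D : Pic0 Qb (FB Qb N))) ∧
      (∀ D, Finsupp.mapDomain T.S.r (TD D : Divisor Qb (FB Qb N)) =
        Tb (Finsupp.mapDomain T.S.r (D : Divisor Qb (FB Qb N)))) ∧
      ∀ (G : FB Qb N), G ≠ 0 → ∀ D : Divisor.degZero (K := Qb) (F := FB Qb N),
        (∀ v, (D : Divisor Qb (FB Qb N)) v = v.ord G) →
          ∀ v, (TD D : Divisor Qb (FB Qb N)) v = v.ord (Th N q G) := by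
  have : Fact q.Prime := ⟨hqp⟩
  have hℓNq : ¬ ℓ ∣ N * q := by
    rw [hℓ.dvd_mul]
    rintro (h | h)
    · exact hℓN h
    · exact hq ((Nat.prime_dvd_prime_iff_eq hℓ hqp).mp h).symm
  have hdeg := H42.degLE_place hℓ hA hℓN
  have hdeg' := H42.degLE_place hℓ hA hℓNq
  have := H42.funField_right (L := Qb) (N * q) (H42.degLE_place hℓ hA hℓNq)
  obtain ⟨T'⟩ := exists_setup (N * q) hℓ hℓNq A hA
  have := T'.S.pdF
  have := T'.S.pdE
  have hcast : ((N * q : ℕ) : kA) ≠ 0 := H42.natCast_ne_zero_of_liesOver hℓ hA hℓNq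
  have hpos : 0 < dedekindPsi N := H67.dedekindPsi_pos N
  have hrα : finrankAlong Qb (heckeAlphaBar Qb N q) ≤ finrankAlong kA (alphaC kA N q) := by
    have h1 := finrank_alphaC kA N q hcast
    have h2 := H67.relfinrank_full_mul (H67.degreeFact Qb) N q
    rw [← H67.finrank_alpha, ← h1] at h2
    exact (Nat.eq_of_mul_eq_mul_left hpos h2).le
  have hrβ : finrankAlong Qb (heckeBetaBar Qb N q) ≤ finrankAlong kA (betaC kA N q) := by
    have h1 := finrank_betaC kA N q hcast
    have h2 := H9.psi_mul_finrank_beta (L := Qb) N q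
    rw [← h1] at h2
    exact (Nat.eq_of_mul_eq_mul_left hpos h2).le
  have Δα := degMap_of hdeg hdeg' T.S T'.S T.hS T'.hS (heckeAlphaBar Qb N q)
    (alphaC kA N q) (fun b hb => alpha_mem hdeg hdeg' hb)
    (fun b => alpha_red hdeg hdeg' b) hrα
  have Δβ := degMap_of hdeg hdeg' T.S T'.S T.hS T'.hS (heckeBetaBar Qb N q)
    (betaC kA N q) (fun b hb => beta_mem hdeg hdeg' hb)
    (fun b => beta_red hdeg hdeg' b) hrβ
  obtain ⟨hα, hβ, hPD, hfin, hFI, hNF⟩ := H67.heckeInputsAlong_of_degreeFact (H67.degreeFact Qb) N q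
  refine ⟨Pic0.degZeroCorrespondence (heckeBetaBar Qb N q) (heckeAlphaBar Qb N q) hβ hα hFI,
    (Divisor.pushforwardAlong (alphaC kA N q) Δα.intb).comp
      (Divisor.pullbackAlong (betaC kA N q) Δβ.intb), ?_, ?_, ?_⟩
  · intro D
    have hop : heckeOperatorBar N ⟨q, hqp⟩ (Pic0.mk D) =
        heckePic0Bar hα hβ hFI hfin hNF (Pic0.mk D) := by
      exact (heckeOperatorBar_apply N (⟨q, hqp⟩ : Nat.Primes) _).trans
        (DFunLike.congr_fun (heckeOperatorAlong_eq hα hβ hFI hfin hNF) _)
    rw [hop]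
    rfl
  · intro D
    rw [Pic0.coe_degZeroCorrespondence, Divisor.correspondence_apply]
    have h2 := Δα.push (Divisor.pullbackAlong (heckeBetaBar Qb N q) hβ (D : Divisor _ _))
    have h3 := Δβ.pull (D : Divisor _ _)
    rw [h3] at h2
    exact h2
  · intro G hG D hD v
    exact H60.correspondence_apply_eq_ord (heckeBetaBar Qb N q) (heckeAlphaBar Qb N q) hβ hα
      hfin hNF hG hD v

end Hecke

end Fermat.Agent.H18.CR
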