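import Fermat.Agent.H18CRedA
import Fermat.Agent.H18CRedB
import Fermat.Agent.H39Conv

/-!
# Level lowering at `p` from a function whose divisor is divisible by `p` (helper18)

`A` is a place above `p`, `p ∤ M`.  A function `ḡ` of `X₀(M)` in characteristic `p`, not a `p`-th
power, all of whose orders are divisible by `p`, and whose Hecke transforms are
`ḡ ^ a_ℓ(W)` up to `p`-th powers, shows that `W` is residually modular of level `M`.
-/

set_option autoImplicit false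
set_option linter.unusedSectionVars false

noncomputable section

open AlgebraicCurve ModularCurve

namespace Fermat.Agent.H18.CR

open Fermat.Agent.H67 Fermat.Agent.H38.Mz Fermat.Agent.H23 Fermat.Agent.H17 Fermat.Agent.H19

local notation "Qb" => AlgebraicClosure ℚ

section Level

variable {M p : ℕ} [NeZero M] [hp : Fact p.Prime] (hpM : ¬ p ∣ M) {A : ValuationSubring Qb}
  (hA : A.LiesOverPrime p)

local notation "kA" => IsLocalRing.ResidueField A
local notation "πA" => IsLocalRing.residue A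

theorem eq_of_nsmul_eq {X : Type*} {m : ℕ} (hm : m ≠ 0) {D E : X →₀ ℤ} (h : m • D = m • E) :
    D = E := by
  ext v
  have h1 := DFunLike.congr_fun h v
  rw [Finsupp.smul_apply, Finsupp.smul_apply, nsmul_eq_mul, nsmul_eq_mul] at h1
  exact mul_left_cancel₀ (by exact_mod_cast hm) h1

include hpM hA in
/-- **Residual modularity of level `M` from a function in characteristic `p`.** -/
theorem isResiduallyModularOfLevel_of_ord {W : WeierstrassCurve ℤ}
    {gb : modularFunctionFieldFullC kA M} (hgb : gb ≠ 0)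
    (hpow : ∀ h : modularFunctionFieldFullC kA M, h ^ p ≠ gb)
    (hdiv : ∀ w : Place kA (modularFunctionFieldFullC kA M), (p : ℤ) ∣ w.ord gb)
    (hrel : ∀ (ℓ : ℕ) [NeZero ℓ], ℓ.Prime → W.IsGoodPrimeFor ℓ → ¬ ℓ ∣ M → ℓ ≠ p →
      ∃ (ζ : Aˣ) (tb hb : modularFunctionFieldFullC kA M),
        IsPrimitiveRoot (Units.map (A.subtype : A →* Qb) ζ) ℓ ∧ hb ≠ 0 ∧
        qExpand kA ℓ (tb : LaurentSeries kA) =
          H60.normSeries ℓ (Units.map (πA : A →* kA) ζ) (gb : LaurentSeries kA) ∧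
        tb = gb ^ (W.apOfModel ℓ) * hb ^ p) :
    W.IsResiduallyModularOfLevel p M := by
  classical
  have hp0 : (p : ℤ) ≠ 0 := by exact_mod_cast hp.out.ne_zero
  haveI : IsAlgClosed kA := H18.isAlgClosed_residueField A
  haveI : H94.FunField kA (modularFunctionFieldFullC kA M) :=
    H42.funField_right (L := Qb) M (H42.degLE_place hp.out hA hpM)
  haveI : H3RR.IsFF kA (modularFunctionFieldFullC kA M) := inferInstance
  obtain ⟨T⟩ := exists_setup M hp.out hpM A hA
  haveI := T.S.pdF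
  haveI := T.S.pdE
  obtain ⟨B, hB, hB0⟩ := T.S.pdE.exists_divisor gb hgb
  -- the divisor `B / p`
  obtain ⟨E', hE'⟩ : ∃ E' : Divisor kA (modularFunctionFieldFullC kA M), p • E' = B := by
    refine ⟨B.mapRange (fun n => n / p) (Int.zero_ediv _), ?_⟩
    ext w
    rw [Finsupp.smul_apply, Finsupp.mapRange_apply, nsmul_eq_mul, hB]
    exact Int.mul_ediv_cancel' (hdiv w)
  have hE'0 : Divisor.degree E' = 0 := by
    have h1 : (p : ℤ) * Divisor.degree E' = 0 := by
      rw [← hB0, ← hE', map_nsmul, nsmul_eq_mul]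
    exact (mul_eq_zero.mp h1).resolve_left hp0
  have hordE' : ∀ w : Place kA (modularFunctionFieldFullC kA M), w.ord gb = (p : ℕ) * E' w := by
    intro w
    rw [← hB, ← hE', Finsupp.smul_apply, nsmul_eq_mul]
  obtain ⟨E, hE, -, hEd⟩ := exists_fixed_divisor T.I E'
  have hE0 : Divisor.degree E = 0 := hEd.trans hE'0
  obtain ⟨D, hD⟩ : ∃ D : Divisor.degZero (K := Qb) (F := FB Qb M),
      (D : Divisor Qb (FB Qb M)) = E := ⟨⟨E, hE0⟩, rfl⟩
  have hker : ∀ (X : Divisor.degZero (K := Qb) (F := FB Qb M)),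
      (Pic0.mk X : JZero M) ∈ H15.KJ M A ↔
        Finsupp.mapDomain T.S.r (X : Divisor Qb (FB Qb M)) ∈
          Divisor.principal (K := kA) (F := modularFunctionFieldFullC kA M) := by
    intro X
    rw [H15.KJ, AddMonoidHom.mem_ker, ← T.red, redPic0_mk, H89SS.mk_eq_zero, coe_redDegZero]
  have hx : (Pic0.mk D : JZero M) ∉ H15.KJ M A := by
    rw [hker, hD, hE]
    intro hprin
    obtain ⟨g, -, hg⟩ := H89SS.exists_eq_pow (K := kA) hp.out.ne_zero hgb hprin hordE'
    exact hpow g hg.symm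
  have hpx : p • (Pic0.mk D : JZero M) ∈ H15.KJ M A := by
    have h1 : p • (Pic0.mk D : JZero M) = Pic0.mk (p • D) := rfl
    have h2 : ((p • D : Divisor.degZero (K := Qb) (F := FB Qb M)) : Divisor Qb (FB Qb M)) =
        p • (D : Divisor Qb (FB Qb M)) := rfl
    rw [h1, hker, h2, hD]
    have h3 : Finsupp.mapDomain T.S.r (p • E) = p • Finsupp.mapDomain T.S.r E :=
      map_nsmul (Finsupp.mapDomain.addMonoidHom T.S.r) p E
    rw [h3, hE, hE']
    exact ⟨gb, hgb, hB⟩
  -- a lift of `ḡ`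
  obtain ⟨G, hG⟩ := exists_red_eq M A gb.2
  have hgb' : (gb : LaurentSeries kA) ≠ 0 := fun h => hgb (Subtype.ext h)
  have hG0 : G ≠ 0 := by
    rintro rfl
    exact hgb' (hG.unique Red.zero)
  obtain ⟨DG, hDG, hDG0⟩ := T.S.pdF.exists_divisor G hG0
  have hmapG : Finsupp.mapDomain T.S.r DG = B := by
    ext w
    rw [mapDomain_div_of_red _ T.S T.hS hG0 hDG hgb hG w, hB]
  obtain ⟨y, hy0, hpy, hy⟩ := exists_eigenvector_of_red hp.out hpM hA hx hpx
    (fun ℓ => W.apOfModel ℓ) {ℓ : Nat.Primes | W.IsGoodPrimeFor ℓ ∧ ¬ (ℓ : ℕ) ∣ M ∧ (ℓ : ℕ) ≠ p}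
    (by
      rintro ⟨ℓ, hℓ⟩ ⟨hgood, hℓM, hℓp⟩
      haveI : NeZero ℓ := ⟨hℓ.ne_zero⟩
      simp only at hgood hℓM hℓp ⊢
      obtain ⟨TD, Tb, hTD, hTb, hTdiv⟩ := exists_hecke_bar M hp.out hpM hA hℓ hℓp T
      obtain ⟨ζ, tb, hb, hζ, hb0, htb, htbeq⟩ := hrel ℓ hℓ hgood hℓM hℓp
      have htb0 : tb ≠ 0 := by
        rw [htbeq]
        exact mul_ne_zero (zpow_ne_zero _ hgb) (pow_ne_zero _ hb0)
      -- the reduction of the Hecke transform of `G`
      obtain ⟨tb', htb'0, htb', htb'q⟩ := red_Th hℓ hℓM hζ hgb' hG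
      have htt : tb' = (tb : LaurentSeries kA) := by
        apply qExpand_inj ℓ
        rw [htb'q, htb]
      rw [htt] at htb'
      have hTB : ∀ w, Tb B w = w.ord tb := by
        intro w
        have h1 := hTb ⟨DG, hDG0⟩
        rw [hmapG] at h1
        rw [← h1]
        exact mapDomain_div_of_red _ T.S T.hS (Th_ne_zero hG0)
          (hTdiv G hG0 ⟨DG, hDG0⟩ hDG) htb0 htb' w
      rw [← hTD]
      have h1 : (Pic0.mk (TD D) : JZero M) - W.apOfModel ℓ • (Pic0.mk D : JZero M) =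
          Pic0.mk (TD D - W.apOfModel ℓ • D) := rfl
      have h2 : ((TD D - W.apOfModel ℓ • D : Divisor.degZero (K := Qb) (F := FB Qb M)) :
          Divisor Qb (FB Qb M)) = (TD D : Divisor Qb (FB Qb M)) -
            W.apOfModel ℓ • (D : Divisor Qb (FB Qb M)) := rfl
      rw [h1, hker, h2]
      have h3 : Finsupp.mapDomain T.S.r ((TD D : Divisor Qb (FB Qb M)) -
            W.apOfModel ℓ • (D : Divisor Qb (FB Qb M))) =
          Finsupp.mapDomain T.S.r (TD D : Divisor Qb (FB Qb M)) -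
            W.apOfModel ℓ • Finsupp.mapDomain T.S.r (D : Divisor Qb (FB Qb M)) := by
        have e1 := map_sub (Finsupp.mapDomain.addMonoidHom T.S.r) (TD D : Divisor Qb (FB Qb M))
          (W.apOfModel ℓ • (D : Divisor Qb (FB Qb M)))
        have e2 := map_zsmul (Finsupp.mapDomain.addMonoidHom T.S.r) (W.apOfModel ℓ)
          (D : Divisor Qb (FB Qb M))
        rw [e2] at e1
        exact e1
      rw [h3, hTb, hD, hE]
      refine ⟨hb, hb0, fun w => ?_⟩
      have h4 : (p : ℤ) * (Tb E' w) = w.ord tb := by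
        rw [← hTB w, ← hE', map_nsmul, Finsupp.smul_apply, nsmul_eq_mul]
      have h5 : w.ord tb = W.apOfModel ℓ * (p * E' w) + p * w.ord hb := by
        rw [htbeq, w.ord_mul (zpow_ne_zero _ hgb) (pow_ne_zero _ hb0), Place.ord_zpow, hordE' w,
          ← zpow_natCast, Place.ord_zpow]
      rw [Finsupp.sub_apply, Finsupp.smul_apply, smul_eq_mul]
      apply mul_left_cancel₀ hp0
      rw [mul_sub, h4, h5]
      ring)
  exact H39.isResiduallyModularOfLevel_of_eigenvector hp.out y hy0 hpy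
    fun ℓ h1 h2 h3 => hy ℓ ⟨h1, h2, h3⟩

include hpM hA in
/-- **Residual modularity of level `M` from an eigenclass of level `M p` whose function has a
reduction with divisor divisible by `p`.**  (`p` any prime not dividing `M`; no other hypothesis
on `M`.) -/
theorem isResiduallyModularOfLevel_of_fun {W : WeierstrassCurve ℤ}
    {D : Divisor.degZero (K := Qb) (F := FB Qb (M * p))} {u : FB Qb (M * p)} (hu : u ≠ 0)
    (hord : ∀ v : Place Qb (FB Qb (M * p)),
      v.ord u = (p : ℤ) * (D : Divisor Qb (FB Qb (M * p))) v)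
    (hT : ∀ (ℓ : ℕ) (hℓ : ℓ.Prime), W.IsGoodPrimeFor ℓ → ¬ ℓ ∣ M → ℓ ≠ p →
      heckeOperatorBar (M * p) ⟨ℓ, hℓ⟩ (Pic0.mk D) =
        W.apOfModel ℓ • (Pic0.mk D : Pic0 Qb (FB Qb (M * p))))
    {c : Qb} {gb : modularFunctionFieldFullC kA M} (hgb : gb ≠ 0)
    (hred : Red A πA (algebraMap Qb (LaurentSeries Qb) c * (u : LaurentSeries Qb))
      (gb : LaurentSeries kA))
    (hpow : ∀ h : modularFunctionFieldFullC kA M, h ^ p ≠ gb)
    (hdiv : ∀ w : Place kA (modularFunctionFieldFullC kA M), (p : ℤ) ∣ w.ord gb) :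
    W.IsResiduallyModularOfLevel p M := by
  classical
  haveI : NeZero p := ⟨hp.out.ne_zero⟩
  have hc : c ≠ 0 := by
    rintro rfl
    rw [map_zero, zero_mul] at hred
    exact hgb (Subtype.ext (hred.unique Red.zero))
  have hcF : algebraMap Qb (FB Qb (M * p)) c ≠ 0 := (_root_.map_ne_zero _).mpr hc
  obtain ⟨u', hu'⟩ : ∃ u' : FB Qb (M * p), u' = algebraMap Qb (FB Qb (M * p)) c * u := ⟨_, rfl⟩
  have hu'0 : u' ≠ 0 := by rw [hu']; exact mul_ne_zero hcF hu
  have hord' : ∀ v : Place Qb (FB Qb (M * p)), v.ord u' =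
      (p : ℤ) * (D : Divisor Qb (FB Qb (M * p))) v := by
    intro v
    rw [hu', v.ord_mul hcF hu, H94.ord_algebraMap, zero_add, hord]
  have hred' : Red A πA (u' : LaurentSeries Qb) (gb : LaurentSeries kA) := by
    rw [hu', coe_algebraMap_mul]
    exact hred
  have hgb' : (gb : LaurentSeries kA) ≠ 0 := fun h => hgb (Subtype.ext h)
  refine isResiduallyModularOfLevel_of_ord hpM hA hgb hpow hdiv ?_
  intro ℓ _ hℓ hgood hℓM hℓp
  have hℓN : ¬ ℓ ∣ M * p := by
    rw [hℓ.dvd_mul]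
    rintro (h | h)
    · exact hℓM h
    · exact hℓp ((Nat.prime_dvd_prime_iff_eq hℓ hp.out).mp h)
  obtain ⟨ζ, hζ⟩ := exists_zeta_unit A ℓ hℓ
  obtain ⟨D', hD', hordT⟩ := exists_div_Th (ℓ := ℓ) hℓ hu'0 hord'
  have hmk : Pic0.mk D' = W.apOfModel ℓ • (Pic0.mk D : Pic0 Qb (FB Qb (M * p))) :=
    hD'.trans (hT ℓ hℓ hgood hℓM hℓp)
  have hprin := mk_eq_zsmul_iff.mp hmk
  have hTu0 : Th (M * p) ℓ u' ≠ 0 := Th_ne_zero hu'0
  obtain ⟨h, hh0, hh⟩ := H89SS.exists_eq_pow (K := Qb) hp.out.ne_zero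
    (mul_ne_zero hTu0 (zpow_ne_zero (-(W.apOfModel ℓ)) hu'0)) hprin
    (ord_mul_zpow_neg hu'0 hTu0 hord' hordT (W.apOfModel ℓ))
  obtain ⟨tb, htb0, htb, htbq⟩ := red_Th hℓ hℓN hζ hgb' hred'
  have htbmem := mem_full_of_red hpM hA htb
  have h1 : Red A πA ((h : LaurentSeries Qb) ^ p)
      (tb * (gb : LaurentSeries kA) ^ (-(W.apOfModel ℓ))) := by
    rw [← coe_pow_FB, ← hh, coe_mul_FB, coe_zpow_FB]
    exact htb.mul (hred'.zpow hgb' _)
  obtain ⟨hb, hhb, hhb'⟩ := red_of_pow hp.out.ne_zero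
    (mul_ne_zero htb0 (zpow_ne_zero _ hgb')) h1
  have hbmem := mem_full_of_red hpM hA hhb
  have hb0 : hb ≠ 0 := by
    rintro rfl
    rw [zero_pow hp.out.ne_zero] at hhb'
    exact mul_ne_zero htb0 (zpow_ne_zero _ hgb') hhb'.symm
  refine ⟨ζ, ⟨tb, htbmem⟩, ⟨hb, hbmem⟩, hζ, fun h0 => hb0 (congrArg Subtype.val h0), htbq, ?_⟩
  apply Subtype.ext
  show tb = (gb : LaurentSeries kA) ^ (W.apOfModel ℓ) * hb ^ p
  rw [hhb', mul_left_comm, ← zpow_add₀ hgb', add_neg_cancel, zpow_zero, mul_one]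

end Level

end Fermat.Agent.H18.CR
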