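import Fermat.Agent.H18HkTop

/-!
# Eigenclasses in the reduction of `J₀(N)[p]` lift to eigenclasses (helper18)

`A` is a place above `p`, `p ∤ N`.  An eigenclass of the Hecke operators in the `p`-torsion of
`J₀(N)(Q̄)/K_A` gives an eigenclass in `J₀(N)[p]` with the same eigenvalues.
-/

set_option autoImplicit false

noncomputable section

namespace Fermat.Agent.H18.CR

open ModularCurve H15

section Abstract

variable {R N : Type*} [CommRing R] [AddCommGroup N] [Module R N]

/-- In a finite module, an ideal which kills a nonzero element of a quotient kills a nonzero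
element. -/
theorem exists_killed [Finite N] (I : Ideal R) (N₀ : Submodule R N) {x : N} (hx : x ∉ N₀)
    (hI : ∀ t ∈ I, t • x ∈ N₀) : ∃ y : N, y ≠ 0 ∧ ∀ t ∈ I, t • y = 0 := by
  classical
  have hart : IsArtinian R N := inferInstance
  let f : ℕ →o (Submodule R N)ᵒᵈ :=
    { toFun := fun n => OrderDual.toDual ((I ^ n) • (⊤ : Submodule R N))
      monotone' := fun a b hab => Submodule.smul_mono_left (Ideal.pow_le_pow_right hab) }
  obtain ⟨n, hn⟩ := IsArtinian.monotone_stabilizes f
  have hn1 : (I ^ n) • (⊤ : Submodule R N) = (I ^ (n + 1)) • (⊤ : Submodule R N) :=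
    hn (n + 1) (Nat.le_succ n)
  have hle : (I ^ n) • (⊤ : Submodule R N) ≤ I • ((I ^ n) • (⊤ : Submodule R N)) := by
    rw [← Submodule.mul_smul, ← pow_succ', ← hn1]
  obtain ⟨r, hr1, hr2⟩ := Submodule.exists_sub_one_mem_and_smul_eq_zero_of_fg_of_le_smul I
    ((I ^ n) • (⊤ : Submodule R N)) (IsNoetherian.noetherian _) hle
  -- `v = r • x` is not in `N₀` and is killed by `I ^ n`
  have hv : r • x ≠ 0 := by
    intro h0
    apply hx
    have h1 := hI (r - 1) hr1
    rw [sub_smul, one_smul, h0, zero_sub] at h1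
    exact N₀.neg_mem_iff.mp h1
  have hkill : ∀ t ∈ I ^ n, t • r • x = 0 := by
    intro t ht
    rw [smul_comm]
    exact hr2 _ (Submodule.smul_mem_smul ht Submodule.mem_top)
  -- minimal power
  have hex : ∃ m : ℕ, ∀ t ∈ I ^ m, t • r • x = 0 := ⟨n, hkill⟩
  obtain ⟨m, hm⟩ : ∃ m, m = Nat.find hex := ⟨_, rfl⟩
  have hspec := Nat.find_spec hex
  rw [← hm] at hspec
  have hm0 : m ≠ 0 := by
    rintro rfl
    apply hv
    have := hspec 1 (by rw [pow_zero, Ideal.one_eq_top]; exact Submodule.mem_top)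
    rwa [one_smul] at this
  have hmin := Nat.find_min hex (m := m - 1) (by omega)
  push Not at hmin
  obtain ⟨s, hs, hs0⟩ := hmin
  refine ⟨s • r • x, hs0, fun t ht => ?_⟩
  rw [← mul_smul]
  apply hspec
  obtain ⟨m', rfl⟩ := Nat.exists_eq_succ_of_ne_zero hm0
  rw [Nat.succ_eq_add_one, pow_succ']
  rw [Nat.succ_eq_add_one, Nat.add_sub_cancel] at hs
  exact Ideal.mul_mem_mul ht hs

end Abstract

section JZero

attribute [local instance] heckeModuleBar

variable {N p : ℕ} [NeZero N] {A : ValuationSubring H15.Qb}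

/-- **Eigenclasses lift.** -/
theorem exists_eigenvector_of_red (hp : p.Prime) (hpN : ¬ p ∣ N) (hA : A.LiesOverPrime p)
    {x : JZero N} (hx : x ∉ KJ N A) (hpx : p • x ∈ KJ N A) (a : ℕ → ℤ) (S : Set Nat.Primes)
    (hT : ∀ ℓ ∈ S, heckeOperatorBar N ℓ x - a ℓ • x ∈ KJ N A) :
    ∃ y : JZero N, y ≠ 0 ∧ p • y = 0 ∧ ∀ ℓ ∈ S, heckeOperatorBar N ℓ y = a ℓ • y := by
  classical
  have hcomm := H67.heckeOperatorsCommuteBar N
  -- the kernel of reduction as a Hecke module
  let K : Submodule HeckeAlg (JZero N) :=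
    { KJ N A with
      smul_mem' := fun t z hz => H18.heckeRed N p hp hpN A hA t z hz }
  have hK : ∀ z, z ∈ K ↔ z ∈ KJ N A := fun z => Iff.rfl
  -- lift to `p`-torsion
  obtain ⟨w, hw, hwx⟩ := H17.divRed N p hp hpN A hA p hp (p • x) hpx
  obtain ⟨x', hx'⟩ : ∃ x', x' = x - w := ⟨_, rfl⟩
  have hx'K : x' ∉ KJ N A := by
    rw [hx']
    intro h
    exact hx (by simpa using add_mem h hw)
  have hpx' : p • x' = 0 := by rw [hx', nsmul_sub, hwx, sub_self]
  -- the finite module
  let T : Submodule HeckeAlg (JZero N) :=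
    { carrier := {z | p • z = 0}
      add_mem' := fun {a b} ha hb => by
        show p • (a + b) = 0
        rw [nsmul_add, show p • a = 0 from ha, show p • b = 0 from hb, add_zero]
      zero_mem' := smul_zero _
      smul_mem' := fun t z hz => by
        show p • t • z = 0
        rw [smul_comm, show p • z = 0 from hz, smul_zero] }
  have hTfin : Finite T := (H17.basic N).torsion_finite p hp.ne_zero
  let I : Ideal HeckeAlg := Ideal.span {t | ∃ ℓ ∈ S, t = heckeGen ℓ - MvPolynomial.C (a ℓ)}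
  have hC : ∀ (n : ℤ) (z : JZero N), (MvPolynomial.C n : HeckeAlg) • z = n • z := by
    intro n z
    have e1 : (MvPolynomial.C n : HeckeAlg) = ((n : ℤ) : HeckeAlg) := by simp
    rw [e1, Int.cast_smul_eq_zsmul]
  have hgen : ∀ (ℓ : Nat.Primes) (z : JZero N),
      (heckeGen ℓ - MvPolynomial.C (a ℓ) : HeckeAlg) • z = heckeOperatorBar N ℓ z - a ℓ • z := by
    intro ℓ z
    rw [sub_smul, hC, heckeModuleBar_heckeGen_smul hcomm]
  have hI : ∀ t ∈ I, t • (⟨x', hpx'⟩ : T) ∈ K.comap T.subtype := by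
    intro t ht
    rw [Submodule.mem_comap, map_smul]
    refine Submodule.span_induction (p := fun t _ => t • (T.subtype ⟨x', hpx'⟩) ∈ K)
      ?_ ?_ ?_ ?_ ht
    · rintro t ⟨ℓ, hℓ, rfl⟩
      rw [hgen, hK, Submodule.subtype_apply]
      show heckeOperatorBar N ℓ x' - a ℓ • x' ∈ KJ N A
      have h1 : heckeOperatorBar N ℓ x' - a ℓ • x' =
          (heckeOperatorBar N ℓ x - a ℓ • x) - (heckeOperatorBar N ℓ w - a ℓ • w) := by
        rw [hx', map_sub, zsmul_sub]; abel
      rw [h1]
      refine sub_mem (hT ℓ hℓ) ?_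
      rw [← hgen]
      exact H18.heckeRed N p hp hpN A hA _ w hw
    · rw [zero_smul]; exact K.zero_mem
    · intro t t' _ _ h h'
      rw [add_smul]; exact K.add_mem h h'
    · intro s t _ h
      rw [smul_eq_mul, mul_smul]; exact K.smul_mem _ h
  obtain ⟨y, hy0, hy⟩ := exists_killed I (K.comap T.subtype) (x := ⟨x', hpx'⟩)
    (fun h => hx'K h) hI
  refine ⟨y, fun h => hy0 (Subtype.ext h), y.2, fun ℓ hℓ => ?_⟩
  have h1 := hy _ (Ideal.subset_span ⟨ℓ, hℓ, rfl⟩)
  have h2 := congrArg Subtype.val h1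
  rw [Submodule.coe_smul, hgen, Submodule.coe_zero, sub_eq_zero] at h2
  exact h2

end JZero

end Fermat.Agent.H18.CR
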